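import Mathlib.RepresentationTheory.Homological.GroupCohomology.Shapiro
import Mathlib.RepresentationTheory.Homological.GroupCohomology.LongExactSequence
import Mathlib.RepresentationTheory.Homological.GroupCohomology.Functoriality
import Mathlib.RepresentationTheory.Homological.GroupCohomology.LowDegree
import Mathlib.RepresentationTheory.Homological.GroupCohomology.FiniteCyclic
import Mathlib.GroupTheory.Sylow

-- ===== PACK-BEGIN S55/H783/Shift.lean
section







/-!
# S55 / T-layer (helper783): dimension shifting with the module of all functions `G → A`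

* `funRep V`      : the representation of `G` on `G → V` by right translation;
* `isZero_funRep` : `Hⁿ⁺¹(G, G → V) = 0` (Shapiro);
-/

set_option autoImplicit false

open CategoryTheory CategoryTheory.Limits groupCohomology

namespace Fermat.Agent.S55.H783

universe u

variable {k G : Type u} [CommRing k] [Group G]

/-- Right translation on functions `G → V`. -/
def funRho (k : Type u) (G : Type u) [CommRing k] [Group G] (V : Type u) [AddCommGroup V]
    [Module k V] : Representation k G (G → V) where
  toFun g := LinearMap.funLeft k V (fun x => x * g)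
  map_one' := by
    ext f x
    simp [LinearMap.funLeft]
  map_mul' g h := by
    ext f x
    simp [LinearMap.funLeft, mul_assoc]

@[simp]
lemma funRho_apply (V : Type u) [AddCommGroup V] [Module k V] (g : G) (f : G → V) (x : G) :
    funRho k G V g f x = f (x * g) := rfl

/-- The representation of `G` on `G → V` by right translation. -/
abbrev funRep (k : Type u) (G : Type u) [CommRing k] [Group G] (V : Type u) [AddCommGroup V]
    [Module k V] : Rep k G := Rep.of (funRho k G V)

/-- `G → V` is coinduced from the trivial subgroup. -/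
noncomputable def funRepIsoCoind (V : Type u) [AddCommGroup V] [Module k V] :
    funRep k G V ≅ Rep.coind (⊥ : Subgroup G).subtype (Rep.trivial k (⊥ : Subgroup G) V) :=
  Rep.mkIso
    { toLinearEquiv :=
        { toFun := fun f => ⟨f, fun g h => by
            have hg : (g : G) = 1 := Subgroup.mem_bot.mp g.2
            simp [hg]⟩
          invFun := fun f => f.1
          map_add' := fun _ _ => rfl
          map_smul' := fun _ _ => rfl
          left_inv := fun _ => rfl
          right_inv := fun _ => rfl }
      isIntertwining' := fun g => by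
        ext f
        rfl }

theorem isZero_funRep (V : Type u) [AddCommGroup V] [Module k V] (n : ℕ) :
    IsZero (groupCohomology (funRep k G V) (n + 1)) := by
  have h1 : IsZero (groupCohomology (Rep.trivial k (⊥ : Subgroup G) V) (n + 1)) :=
    isZero_groupCohomology_succ_of_subsingleton _ n
  have e1 := groupCohomology.coindIso (Rep.trivial k (⊥ : Subgroup G) V) (n + 1)
  have e2 : groupCohomology (funRep k G V) (n + 1) ≅
      groupCohomology (Rep.coind (⊥ : Subgroup G).subtype (Rep.trivial k (⊥ : Subgroup G) V))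
        (n + 1) :=
    (groupCohomology.functor k G (n + 1)).mapIso (funRepIsoCoind V)
  exact (h1.of_iso e1).of_iso e2


/-! ### the dimension shifting sequence `0 → A → (G → A) → A' → 0` -/

section Shift

variable (A : Rep k G)

/-- The embedding `a ↦ (x ↦ ρ(x) a)` of `A` into `G → A`. -/
def shiftIncl : A ⟶ funRep k G A.V :=
  Rep.ofHom (ρ := A.ρ) (σ := funRho k G A.V)
    ⟨{ toFun := fun a x => A.ρ x a
       map_add' := fun a b => by ext x; simp
       map_smul' := fun c a => by ext x; simp }, fun g => by
      ext a x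
      simp⟩

@[simp]
lemma shiftIncl_apply (a : A.V) (x : G) : (shiftIncl A).hom a x = A.ρ x a := rfl

lemma shiftIncl_injective : Function.Injective (shiftIncl A).hom := by
  intro a b h
  have h1 : A.ρ 1 a = A.ρ 1 b := congrFun h 1
  simpa using h1

/-- The image of `A` in `G → A`. -/
def shiftRange : Submodule k (G → A.V) := LinearMap.range (shiftIncl A).hom.toLinearMap

lemma mem_shiftRange (f : G → A.V) : f ∈ shiftRange A ↔ ∃ a : A.V, ∀ x, f x = A.ρ x a := by
  constructor
  · rintro ⟨a, rfl⟩
    exact ⟨a, fun x => rfl⟩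
  · rintro ⟨a, ha⟩
    exact ⟨a, funext fun x => (ha x).symm⟩

lemma shiftRange_le_comap (g : G) :
    shiftRange A ≤ (shiftRange A).comap ((funRep k G A.V).ρ g) := by
  intro f hf
  rw [Submodule.mem_comap]
  obtain ⟨a, ha⟩ := (mem_shiftRange A f).1 hf
  refine (mem_shiftRange A _).2 ⟨A.ρ g a, fun x => ?_⟩
  change f (x * g) = _
  rw [ha, map_mul]
  rfl

/-- The shifted module `A' = (G → A) / A`. -/
abbrev shiftRep : Rep k G :=
  Rep.quotient (funRep k G A.V) (shiftRange A) (shiftRange_le_comap A)

/-- The projection `(G → A) → A'`. -/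
abbrev shiftProj : funRep k G A.V ⟶ shiftRep A :=
  Rep.mkQ (funRep k G A.V) (shiftRange A) (shiftRange_le_comap A)

lemma shiftProj_surjective : Function.Surjective (shiftProj A).hom :=
  Submodule.mkQ_surjective _

lemma shiftProj_eq_zero_iff (f : G → A.V) : (shiftProj A).hom f = 0 ↔ f ∈ shiftRange A :=
  Submodule.Quotient.mk_eq_zero _

lemma shiftIncl_comp_shiftProj : shiftIncl A ≫ shiftProj A = 0 := by
  ext a
  exact (shiftProj_eq_zero_iff A _).2 ⟨a, rfl⟩

/-- The dimension shifting short complex. -/
def shiftSC : ShortComplex (Rep k G) :=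
  ShortComplex.mk (shiftIncl A) (shiftProj A) (shiftIncl_comp_shiftProj A)

lemma shiftSC_shortExact : (shiftSC A).ShortExact where
  exact := by
    rw [← ShortComplex.exact_map_iff_of_faithful _ (forget₂ (Rep k G) (ModuleCat k)),
      ShortComplex.moduleCat_exact_iff_ker_sub_range]
    intro f hf
    exact (shiftProj_eq_zero_iff A f).1 hf
  mono_f := (Rep.mono_iff_injective _).2 (shiftIncl_injective A)
  epi_g := (Rep.epi_iff_surjective _).2 (shiftProj_surjective A)

end Shift

/-! ### restriction to a subgroup -/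

section Res

variable (S : Subgroup G) (V : Type u) [AddCommGroup V] [Module k V]

lemma out_inv_mul_mem (x : G) : ((x : G ⧸ S).out)⁻¹ * x ∈ S := by
  rw [← QuotientGroup.eq]
  exact QuotientGroup.out_eq' _

/-- `G → V ≃ S → (G ⧸ S → V)`, compatible with right translation by `S`. -/
noncomputable def resFunEquiv : (G → V) ≃ₗ[k] (S → (G ⧸ S → V)) where
  toFun f := fun s q => f (q.out * s)
  invFun F := fun x => F ⟨((x : G ⧸ S).out)⁻¹ * x, out_inv_mul_mem S x⟩ (x : G ⧸ S)
  map_add' _ _ := rfl
  map_smul' _ _ := rfl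
  left_inv f := by
    funext x
    simp
  right_inv F := by
    funext s q
    have h1 : ((q.out * (s : G) : G) : G ⧸ S) = q := by
      rw [QuotientGroup.mk_mul_of_mem _ s.2]
      exact QuotientGroup.out_eq' q
    simp only
    have h2 : (⟨(((q.out * (s : G) : G) : G ⧸ S).out)⁻¹ * (q.out * s),
        out_inv_mul_mem S (q.out * s)⟩ : S) = s := by
      apply Subtype.ext
      simp only
      rw [h1]
      group
    rw [h2, h1]

/-- The restriction of `G → V` to a subgroup `S` is again a module of all functions on `S`. -/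
noncomputable def resFunRepIso :
    Rep.res S.subtype (funRep k G V) ≅ funRep k S (G ⧸ S → V) :=
  Rep.mkIso (ρ := (funRho k G V).comp S.subtype) (σ := funRho k S (G ⧸ S → V))
    { toLinearEquiv := resFunEquiv S V
      isIntertwining' := fun s => by
        ext f t q
        simp [resFunEquiv, mul_assoc] }

theorem isZero_res_funRep (n : ℕ) :
    IsZero (groupCohomology (Rep.res S.subtype (funRep k G V)) (n + 1)) :=
  (isZero_funRep (k := k) (G := S) (G ⧸ S → V) n).of_iso
    ((groupCohomology.functor k S (n + 1)).mapIso (resFunRepIso S V))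

end Res

end Fermat.Agent.S55.H783

end
-- ===== PACK-END S55/H783/Shift.lean

-- ===== PACK-BEGIN S55/H783/Natural.lean
section


/-!
# S55 / T-layer (helper783): naturality of the connecting homomorphism under change of groups
-/

set_option autoImplicit false

open CategoryTheory CategoryTheory.Limits groupCohomology

namespace Fermat.Agent.S55.H783

universe u

variable {k : Type u} [CommRing k] {G₁ G₂ : Type u} [Group G₁] [Group G₂]

/-- The morphism of short complexes of cochain complexes induced by a group homomorphism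
`f : G₁ →* G₂` and a morphism of short complexes `Res(f)(X₂) ⟶ X₁`. -/
noncomputable def cochainsMapSC (f : G₁ →* G₂) {X₂ : ShortComplex (Rep k G₂)}
    {X₁ : ShortComplex (Rep k G₁)} (Φ : X₂.map (Rep.resFunctor f) ⟶ X₁) :
    X₂.map (cochainsFunctor k G₂) ⟶ X₁.map (cochainsFunctor k G₁) where
  τ₁ := cochainsMap f Φ.τ₁
  τ₂ := cochainsMap f Φ.τ₂
  τ₃ := cochainsMap f Φ.τ₃
  comm₁₂ := by
    have h := Φ.comm₁₂
    apply HomologicalComplex.hom_ext
    intro n
    apply ModuleCat.hom_ext
    apply LinearMap.ext
    intro x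
    funext g
    exact congrArg (fun φ : (X₂.map (Rep.resFunctor f)).X₁ ⟶ X₁.X₂ => φ.hom (x (f ∘ g))) h
  comm₂₃ := by
    have h := Φ.comm₂₃
    apply HomologicalComplex.hom_ext
    intro n
    apply ModuleCat.hom_ext
    apply LinearMap.ext
    intro x
    funext g
    exact congrArg (fun φ : (X₂.map (Rep.resFunctor f)).X₂ ⟶ X₁.X₃ => φ.hom (x (f ∘ g))) h

/-- **Naturality of `δ` under change of groups.** -/
theorem δ_naturality_map (f : G₁ →* G₂) {X₂ : ShortComplex (Rep k G₂)}
    {X₁ : ShortComplex (Rep k G₁)} (hX₂ : X₂.ShortExact) (hX₁ : X₁.ShortExact)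
    (Φ : X₂.map (Rep.resFunctor f) ⟶ X₁) (i j : ℕ) (hij : i + 1 = j) :
    δ hX₂ i j hij ≫ map f Φ.τ₁ j = map f Φ.τ₃ i ≫ δ hX₁ i j hij :=
  HomologicalComplex.HomologySequence.δ_naturality (cochainsMapSC f Φ)
    (map_cochainsFunctor_shortExact hX₂) (map_cochainsFunctor_shortExact hX₁) i j hij

end Fermat.Agent.S55.H783

end
-- ===== PACK-END S55/H783/Natural.lean

-- ===== PACK-BEGIN S55/H783/ResCor.lean
section


/-!
# S55 / T-layer (helper783): restriction to a subgroup of finite index

* `index_nsmul_eq_zero_H1` : `x ∈ H¹(G, A)`, `res_S x = 0` ⇒ `[G : S] • x = 0` (explicit transfer);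
* `index_nsmul_eq_zero_H2`, `index_nsmul_eq_zero_H3` : the same in degrees 2, 3
  (dimension shifting).
-/

set_option autoImplicit false

open CategoryTheory CategoryTheory.Limits groupCohomology

namespace Fermat.Agent.S55.H783

universe u

variable {k G : Type u} [CommRing k] [Group G]

/-- Restriction `Hⁿ(G, A) ⟶ Hⁿ(S, A)`. -/
noncomputable abbrev resMap (A : Rep k G) (S : Subgroup G) (n : ℕ) :
    groupCohomology A n ⟶ groupCohomology (Rep.res S.subtype A) n :=
  map S.subtype (𝟙 (Rep.res S.subtype A)) n

section H1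

variable (A : Rep k G) (S : Subgroup G)

/-- A cocycle vanishing on `S` is constant on left cosets of `S`. -/
lemma cocycle_mul_of_vanish (c : G → A.V) (hc : c ∈ cocycles₁ A) (h0 : ∀ s ∈ S, c s = 0)
    (g : G) (s : G) (hs : s ∈ S) : c (g * s) = c g := by
  rw [(mem_cocycles₁_iff c).1 hc g s, h0 s hs, map_zero, zero_add]

lemma cocycle_out_smul (c : G → A.V) (hc : c ∈ cocycles₁ A) (h0 : ∀ s ∈ S, c s = 0)
    (g : G) (q : G ⧸ S) : c ((g • q).out) = c (g * q.out) := by
  have h1 : ((g * q.out : G) : G ⧸ S) = g • q := by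
    conv_rhs => rw [← QuotientGroup.out_eq' q]
    rfl
  have h2 : ((g • q).out)⁻¹ * (g * q.out) ∈ S := by
    rw [← QuotientGroup.eq, QuotientGroup.out_eq', h1]
  have h3 := cocycle_mul_of_vanish A S c hc h0 ((g • q).out) _ h2
  rw [← h3]
  congr 1
  group

theorem index_nsmul_mem_coboundaries₁ [S.FiniteIndex] (c : G → A.V) (hc : c ∈ cocycles₁ A)
    (h0 : ∀ s ∈ S, c s = 0) : S.index • c ∈ coboundaries₁ A := by
  classical
  let _ : Fintype (G ⧸ S) := Subgroup.fintypeQuotientOfFiniteIndex
  set b : A.V := ∑ q : G ⧸ S, c q.out with hb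
  refine ⟨-b, ?_⟩
  funext g
  rw [d₀₁_hom_apply]
  have h1 : A.ρ g b = ∑ q : G ⧸ S, (c ((g • q).out) - c g) := by
    rw [hb, map_sum]
    refine Finset.sum_congr rfl (fun q _ => ?_)
    rw [cocycle_out_smul A S c hc h0 g q, (mem_cocycles₁_iff c).1 hc g q.out]
    abel
  have h2 : ∑ q : G ⧸ S, c ((g • q).out) = b := by
    rw [hb]
    exact Fintype.sum_equiv (MulAction.toPerm g) _ _ (fun q => rfl)
  rw [Finset.sum_sub_distrib, h2, Finset.sum_const, Finset.card_univ] at h1
  have h3 : Fintype.card (G ⧸ S) = S.index := by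
    rw [Subgroup.index_eq_card, Nat.card_eq_fintype_card]
  rw [h3] at h1
  simp only [map_neg, Pi.smul_apply, h1]
  abel

/-- **Restriction–corestriction in degree 1**: if `res_S x = 0` then `[G : S] • x = 0`. -/
theorem index_nsmul_eq_zero_H1 [S.FiniteIndex] (x : H1 A) (hx : resMap A S 1 x = 0) :
    S.index • x = 0 := by
  induction x using H1_induction_on with
  | h c =>
    rw [resMap, H1π_comp_map_apply, H1π_eq_zero_iff] at hx
    obtain ⟨a, ha⟩ := hx
    have ha' : ∀ s : S, A.ρ s a - a = c (s : G) := by
      intro s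
      exact congrFun ha s
    -- the normalised cocycle
    have hc' : (c : G → A.V) - (d₀₁ A).hom a ∈ cocycles₁ A :=
      (cocycles₁ A).sub_mem c.2 (d₀₁_apply_mem_cocycles₁ a)
    have h0 : ∀ s ∈ S, ((c : G → A.V) - (d₀₁ A).hom a) s = 0 := by
      intro s hs
      have := ha' ⟨s, hs⟩
      simp only [Pi.sub_apply, d₀₁_hom_apply]
      rw [← this]
      simp
    have h1 := index_nsmul_mem_coboundaries₁ A S _ hc' h0
    have h2 : S.index • (c : G → A.V) ∈ coboundaries₁ A := by
      have h3 : S.index • (c : G → A.V) =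
          S.index • ((c : G → A.V) - (d₀₁ A).hom a) + S.index • (d₀₁ A).hom a := by
        rw [← smul_add, sub_add_cancel]
      rw [h3]
      exact (coboundaries₁ A).add_mem h1
        ((coboundaries₁ A).smul_of_tower_mem _ ⟨a, rfl⟩)
    rw [← map_nsmul, H1π_eq_zero_iff]
    exact h2

end H1

/-! ### the shifting isomorphisms and restriction -/

section ShiftIso

variable (A : Rep k G) (S : Subgroup G)

/-- The dimension shifting sequence restricted to `S`. -/
noncomputable abbrev shiftSCRes : ShortComplex (Rep k S) :=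
  (shiftSC A).map (Rep.resFunctor S.subtype)

lemma shiftSCRes_shortExact : (shiftSCRes A S).ShortExact :=
  (Rep.shortExact_res S.subtype).2 (shiftSC_shortExact A)

/-- The dimension shifting map `Hⁿ(G, A') ⟶ Hⁿ⁺¹(G, A)`. -/
noncomputable abbrev shiftδ (n : ℕ) :
    groupCohomology (shiftRep A) n ⟶ groupCohomology A (n + 1) :=
  δ (shiftSC_shortExact A) n (n + 1) rfl

/-- The dimension shifting map `Hⁿ(S, A') ⟶ Hⁿ⁺¹(S, A)`. -/
noncomputable abbrev shiftδRes (n : ℕ) :
    groupCohomology (Rep.res S.subtype (shiftRep A)) n ⟶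
      groupCohomology (Rep.res S.subtype A) (n + 1) :=
  δ (shiftSCRes_shortExact A S) n (n + 1) rfl

lemma isIso_shiftδ (n : ℕ) : IsIso (shiftδ A (n + 1)) :=
  isIso_δ_of_isZero (shiftSC_shortExact A) (n + 1) (isZero_funRep A.V n)
    (isZero_funRep A.V (n + 1))

lemma isIso_shiftδRes (n : ℕ) : IsIso (shiftδRes A S (n + 1)) :=
  isIso_δ_of_isZero (shiftSCRes_shortExact A S) (n + 1) (isZero_res_funRep S A.V n)
    (isZero_res_funRep S A.V (n + 1))

lemma epi_shiftδ (n : ℕ) : Epi (shiftδ A n) :=
  epi_δ_of_isZero (shiftSC_shortExact A) n (isZero_funRep A.V n)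

lemma epi_shiftδRes (n : ℕ) : Epi (shiftδRes A S n) :=
  epi_δ_of_isZero (shiftSCRes_shortExact A S) n (isZero_res_funRep S A.V n)

lemma shiftδ_surjective (n : ℕ) : Function.Surjective (shiftδ A n) :=
  (ModuleCat.epi_iff_surjective _).1 (epi_shiftδ A n)

lemma shiftδRes_surjective (n : ℕ) : Function.Surjective (shiftδRes A S n) :=
  (ModuleCat.epi_iff_surjective _).1 (epi_shiftδRes A S n)

lemma shiftδ_injective (n : ℕ) : Function.Injective (shiftδ A (n + 1)) := by
  have := isIso_shiftδ A n
  exact (ModuleCat.mono_iff_injective _).1 inferInstance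

lemma shiftδRes_injective (n : ℕ) : Function.Injective (shiftδRes A S (n + 1)) := by
  have := isIso_shiftδRes A S n
  exact (ModuleCat.mono_iff_injective _).1 inferInstance

/-- Dimension shifting commutes with restriction. -/
lemma shiftδ_comp_resMap (n : ℕ) :
    shiftδ A n ≫ resMap A S (n + 1) = resMap (shiftRep A) S n ≫ shiftδRes A S n :=
  δ_naturality_map S.subtype (shiftSC_shortExact A) (shiftSCRes_shortExact A S)
    (𝟙 ((shiftSC A).map (Rep.resFunctor S.subtype))) n (n + 1) rfl

lemma shiftδ_resMap_apply (n : ℕ) (y : groupCohomology (shiftRep A) n) :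
    resMap A S (n + 1) (shiftδ A n y) = shiftδRes A S n (resMap (shiftRep A) S n y) := by
  have h := shiftδ_comp_resMap A S n
  exact congrArg (fun f => f.hom y) h

/-- vanishing transfers along the shift: `Hⁿ⁺²(S, A) = 0 ↔ Hⁿ⁺¹(S, A') = 0`. -/
lemma isZero_res_shift_iff (n : ℕ) :
    IsZero (groupCohomology (Rep.res S.subtype (shiftRep A)) (n + 1)) ↔
      IsZero (groupCohomology (Rep.res S.subtype A) (n + 2)) := by
  have := isIso_shiftδRes A S n
  exact (asIso (shiftδRes A S (n + 1))).isZero_iff

lemma isZero_shift_iff (n : ℕ) :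
    IsZero (groupCohomology (shiftRep A) (n + 1)) ↔ IsZero (groupCohomology A (n + 2)) := by
  have := isIso_shiftδ A n
  exact (asIso (shiftδ A (n + 1))).isZero_iff

end ShiftIso

/-- **Restriction–corestriction in all positive degrees**: if `res_S x = 0` then
`[G : S] • x = 0`. -/
theorem index_nsmul_eq_zero (n : ℕ) : ∀ (A : Rep k G) (S : Subgroup G) [S.FiniteIndex]
    (x : groupCohomology A (n + 1)), resMap A S (n + 1) x = 0 → S.index • x = 0 := by
  induction n with
  | zero =>
    intro A S _ x hx
    exact index_nsmul_eq_zero_H1 A S x hx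
  | succ n ih =>
    intro A S _ x hx
    obtain ⟨y, rfl⟩ := shiftδ_surjective A (n + 1) x
    rw [shiftδ_resMap_apply] at hx
    have h1 : resMap (shiftRep A) S (n + 1) y = 0 :=
      shiftδRes_injective A S n (by rw [hx, map_zero])
    have h2 := ih (shiftRep A) S y h1
    rw [← map_nsmul, h2, map_zero]

/-- `Hⁿ⁺¹(G, A)` is killed by the order of the finite group `G`. -/
theorem card_nsmul_eq_zero [Finite G] (A : Rep k G) (n : ℕ) (x : groupCohomology A (n + 1)) :
    Nat.card G • x = 0 := by
  have h1 : IsZero (groupCohomology (Rep.res (⊥ : Subgroup G).subtype A) (n + 1)) :=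
    isZero_groupCohomology_succ_of_subsingleton _ n
  have h1' := ModuleCat.subsingleton_of_isZero h1
  have h2 := index_nsmul_eq_zero n A (⊥ : Subgroup G) x (Subsingleton.elim _ _)
  rwa [Subgroup.index_bot] at h2

/-- **Sylow criterion**: a class in `Hⁿ⁺¹(G, A)` (`G` finite) whose restrictions to all Sylow
subgroups vanish is zero. -/
theorem eq_zero_of_forall_sylow [Finite G] (A : Rep k G) (n : ℕ)
    (x : groupCohomology A (n + 1))
    (h : ∀ (p : ℕ) [Fact p.Prime] (P : Sylow p G), resMap A (P : Subgroup G) (n + 1) x = 0) :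
    x = 0 := by
  by_contra hx
  have h1 : addOrderOf x ≠ 1 := by
    rwa [Ne, AddMonoid.addOrderOf_eq_one_iff]
  obtain ⟨p, hp, hpx⟩ := Nat.exists_prime_and_dvd h1
  have : Fact p.Prime := ⟨hp⟩
  obtain ⟨P⟩ : Nonempty (Sylow p G) := inferInstance
  have h2 := index_nsmul_eq_zero n A (P : Subgroup G) x (h p P)
  have h3 : addOrderOf x ∣ (P : Subgroup G).index := addOrderOf_dvd_of_nsmul_eq_zero h2
  exact P.not_dvd_index (hpx.trans h3)

end Fermat.Agent.S55.H783

end
-- ===== PACK-END S55/H783/ResCor.lean

-- ===== PACK-BEGIN S55/Mackey/Defs.lean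
section


/-!
# S55 (helper61): Mackey–Shapiro decomposition for group cohomology — definitions

`α : H →* G` a group homomorphism, `D ≤ G` a subgroup, `A : Rep k D`.
A *Mackey system* consists of groups `Hs i`, homomorphisms `j i : Hs i →* H`, `κ i : Hs i →* D`
and elements `x i : G` such that `x i * α (j i h') = κ i h' * x i`, `j i` identifies `Hs i` with
`{h : H | x i * α h * (x i)⁻¹ ∈ D}`, and the `x i` represent the double cosets `D \ G / α(H)`.

Evaluation at `x i` is an `Hs i`-equivariant map `Res_α Coind_D^G A → Res(κ i) A` (`evAt`), and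
`mackeyComp … i n : Hⁿ(H, Res_α Coind_D^G A) ⟶ Hⁿ(Hs i, Res(κ i) A)` is the induced map.

Main theorem (`Fermat.Agent.S55.Mackey.mackeyPi_bijective`, file `Main.lean`):
if `α` is injective then `c ↦ (mackeyComp … i n c)_i` is bijective for every `n`.
Special cases: explicit Shapiro lemma (`shapiro_bijective`), the classical Mackey formula
with `Hs x = H ∩ x⁻¹ D x` (`mackeyTw_bijective`).
-/

set_option autoImplicit false

open CategoryTheory CategoryTheory.Limits groupCohomology

namespace Fermat.Agent.S55.Mackey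

universe u v

variable {k H G : Type u} [CommRing k] [Group H] [Group G]

/-- A system of twisted intersections and double coset representatives (see the file header). -/
structure IsMackeySystem {ι : Type v} (α : H →* G) (D : Subgroup G) (Hs : ι → Type u)
    [∀ i, Group (Hs i)] (j : ∀ i, Hs i →* H) (κ : ∀ i, Hs i →* D) (x : ι → G) : Prop where
  comm : ∀ i (h' : Hs i), x i * α (j i h') = (κ i h' : G) * x i
  inj : ∀ i, Function.Injective (j i)
  full : ∀ i (h : H), x i * α h * (x i)⁻¹ ∈ D → ∃ h' : Hs i, j i h' = h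
  cover : ∀ g : G, ∃ i, ∃ d : D, ∃ h : H, g = (d : G) * x i * α h
  disj : ∀ i i' (d : D) (h : H), x i = (d : G) * x i' * α h → i = i'

variable (α : H →* G) {D : Subgroup G} (A : Rep.{u} k D)

/-- `Res_α Coind_D^G A`, a representation of `H`. -/
noncomputable abbrev indRes : Rep k H := Rep.res α (Rep.coind D.subtype A)

lemma coind_apply_mul (f : (Rep.coind D.subtype A).V) (d : D) (g : G) :
    f.1 ((d : G) * g) = A.ρ d (f.1 g) := f.2 d g

lemma indRes_ρ_apply (h : H) (f : (indRes α A).V) (g : G) :
    ((indRes α A).ρ h f).1 g = f.1 (g * α h) := rfl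

/-- The map `Res_α Coind_D^G A ⟶ Res_α Coind_D^G B` induced by `φ : A ⟶ B`. -/
noncomputable abbrev indResMap {A B : Rep.{u} k D} (φ : A ⟶ B) : indRes α A ⟶ indRes α B :=
  (Rep.resFunctor α).map ((Rep.coindFunctor k D.subtype).map φ)

lemma indResMap_hom_apply {A B : Rep.{u} k D} (φ : A ⟶ B) (f : (indRes α A).V) (g : G) :
    ((indResMap α φ).hom f).1 g = φ.hom (f.1 g) := rfl

section Comp

variable {Hs : Type u} [Group Hs] (j : Hs →* H) (κ : Hs →* D) (x : G)
  (hcomm : ∀ h' : Hs, x * α (j h') = (κ h' : G) * x)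

/-- Evaluation at `x`, an `Hs`-equivariant map `Res_α Coind_D^G A → Res(κ) A`. -/
noncomputable def evAt : Rep.res j (indRes α A) ⟶ Rep.res κ A :=
  Rep.ofHom (ρ := (Rep.res j (indRes α A)).ρ) (σ := (Rep.res κ A).ρ)
    ⟨{ toFun := fun f => f.1 x
       map_add' := fun _ _ => rfl
       map_smul' := fun _ _ => rfl }, fun h => by
      ext f
      change f.1 (x * α (j h)) = A.ρ (κ h) (f.1 x)
      rw [hcomm h, coind_apply_mul]⟩

@[simp]
lemma evAt_hom_apply (f : (indRes α A).V) :
    (evAt α A j κ x hcomm).hom f = f.1 x := rfl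

/-- The component of the Mackey–Shapiro map. -/
noncomputable def mackeyComp (n : ℕ) :
    groupCohomology (indRes α A) n ⟶ groupCohomology (Rep.res κ A) n :=
  map j (evAt α A j κ x hcomm) n

/-- Naturality of `evAt` in the coefficients. -/
lemma evAt_naturality {A B : Rep.{u} k D} (φ : A ⟶ B) :
    (Rep.resFunctor j).map (indResMap α φ) ≫ evAt α B j κ x hcomm =
      evAt α A j κ x hcomm ≫ (Rep.resFunctor κ).map φ := by
  ext f
  rfl

/-- Naturality of `mackeyComp` in the coefficients. -/
lemma mackeyComp_naturality {A B : Rep.{u} k D} (φ : A ⟶ B) (n : ℕ) :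
    map (MonoidHom.id H) (indResMap α φ) n ≫ mackeyComp α B j κ x hcomm n =
      mackeyComp α A j κ x hcomm n ≫ map (MonoidHom.id Hs) ((Rep.resFunctor κ).map φ) n := by
  unfold mackeyComp
  rw [← map_comp, ← map_comp]
  exact map_congr rfl (by
    have := evAt_naturality α j κ x hcomm φ
    exact congrArg (fun ψ => ψ.hom.toLinearMap) this) n

end Comp

end Fermat.Agent.S55.Mackey

end
-- ===== PACK-END S55/Mackey/Defs.lean

-- ===== PACK-BEGIN S55/Mackey/Acyclic.lean
section


/-!
# S55 (helper61): Mackey–Shapiro — acyclicity and exactness inputs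

* `isZero_res_funRep_of_injective` : for an injective `β : S →* G₀`,
  `Hⁿ⁺¹(S, Res_β (G₀ → V)) = 0`;
* `coindFunRepIso` : `Coind_D^G (D → V) ≅ (G → V)`;
* `isZero_indRes_funRep` : for injective `α : H →* G`, `Hⁿ⁺¹(H, Res_α Coind_D^G (D → V)) = 0`;
* `indResSC_shortExact` : `Res_α Coind_D^G` of the dimension shifting sequence is short exact.
-/

set_option autoImplicit false

open CategoryTheory CategoryTheory.Limits groupCohomology

namespace Fermat.Agent.S55.Mackey

open Fermat.Agent.S55.H783

universe u

variable {k : Type u} [CommRing k]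

section Injective

variable {S G₀ : Type u} [Group S] [Group G₀]

/-- Cohomology of the restriction along an injective homomorphism is the cohomology of the
restriction to its range. -/
noncomputable def resRangeIso (β : S →* G₀) (hβ : Function.Injective β) (X : Rep k G₀) (n : ℕ) :
    groupCohomology (Rep.res β X) n ≅ groupCohomology (Rep.res β.range.subtype X) n :=
  mapIso (A := Rep.res β.range.subtype X) (B := Rep.res β X) (MonoidHom.ofInjective hβ)
    (LinearEquiv.refl k X.V) (fun g => by
      ext v
      rfl) n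

theorem isZero_res_funRep_of_injective (β : S →* G₀) (hβ : Function.Injective β)
    (V : Type u) [AddCommGroup V] [Module k V] (n : ℕ) :
    IsZero (groupCohomology (Rep.res β (funRep k G₀ V)) (n + 1)) :=
  (isZero_res_funRep β.range V n).of_iso (resRangeIso β hβ (funRep k G₀ V) (n + 1))

end Injective

variable {H G : Type u} [Group H] [Group G] (α : H →* G) (D : Subgroup G)

section CoindFun

variable (V : Type u) [AddCommGroup V] [Module k V]

/-- `Coind_D^G (D → V) ≃ (G → V)`, `f ↦ (g ↦ f g 1)`. -/
noncomputable def coindFunEquiv :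
    (Rep.coind D.subtype (funRep k D V)).V ≃ₗ[k] (G → V) where
  toFun f := fun g => f.1 g 1
  invFun F := ⟨fun g d => F ((d : G) * g), fun d₀ g => by
    funext d
    change F ((d : G) * ((d₀ : G) * g)) = F (((d * d₀ : D) : G) * g)
    rw [Subgroup.coe_mul, mul_assoc]⟩
  map_add' _ _ := rfl
  map_smul' _ _ := rfl
  left_inv f := by
    apply Subtype.ext
    funext g d
    change f.1 ((d : G) * g) 1 = f.1 g d
    rw [coind_apply_mul]
    change f.1 g (1 * d) = f.1 g d
    rw [one_mul]
  right_inv F := by
    funext g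
    change F (((1 : D) : G) * g) = F g
    rw [Subgroup.coe_one, one_mul]

/-- `Coind_D^G (D → V) ≅ (G → V)`. -/
noncomputable def coindFunRepIso :
    Rep.coind D.subtype (funRep k D V) ≅ funRep k G V :=
  Rep.mkIso (ρ := (Rep.coind D.subtype (funRep k D V)).ρ) (σ := funRho k G V)
    { toLinearEquiv := coindFunEquiv D V
      isIntertwining' := fun g => by
        ext f
        rfl }

theorem isZero_indRes_funRep (hα : Function.Injective α) (n : ℕ) :
    IsZero (groupCohomology (indRes α (funRep k D V)) (n + 1)) :=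
  (isZero_res_funRep_of_injective α hα V n).of_iso
    ((groupCohomology.functor k H (n + 1)).mapIso
      ((Rep.resFunctor α).mapIso (coindFunRepIso D V)))

end CoindFun

section Exact

variable {D}
variable (A : Rep k D)

/-- `Coind_D^G` of the dimension shifting sequence `0 → A → (D → A) → A' → 0`. -/
noncomputable abbrev coindSC : ShortComplex (Rep k G) :=
  (shiftSC A).map (Rep.coindFunctor k D.subtype)

lemma coindSC_shortExact : (coindSC (G := G) A).ShortExact where
  exact := by
    rw [← ShortComplex.exact_map_iff_of_faithful _ (forget₂ (Rep k G) (ModuleCat k)),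
      ShortComplex.moduleCat_exact_iff_ker_sub_range]
    intro f hf
    -- `f : G → (D → A)` is `D`-equivariant and projects to zero
    have hf' : ∀ g : G, (shiftProj A).hom (f.1 g) = 0 := fun g =>
      congrFun (congrArg Subtype.val hf) g
    have hmem : ∀ g : G, f.1 g ∈ shiftRange A := fun g => (shiftProj_eq_zero_iff A _).1 (hf' g)
    choose a ha using hmem
    have ha' : ∀ g : G, (shiftIncl A).hom (a g) = f.1 g := ha
    refine ⟨⟨a, fun d g => ?_⟩, Subtype.ext (funext fun g => ha' g)⟩
    apply shiftIncl_injective A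
    have h1 : f.1 ((d : G) * g) = (funRep k D A.V).ρ d (f.1 g) := f.2 d g
    have h2 := Rep.hom_comm_apply (shiftIncl A) d (a g)
    exact (ha' _).trans (h1.trans ((congrArg ((funRep k D A.V).ρ d) (ha' g).symm).trans h2.symm))
  mono_f := by
    rw [Rep.mono_iff_injective]
    intro f₁ f₂ h
    apply Subtype.ext
    funext g
    apply shiftIncl_injective A
    exact congrFun (congrArg Subtype.val h) g
  epi_g := by
    have : Epi (shiftSC A).g := (shiftSC_shortExact A).epi_g
    exact (Rep.coindFunctor k D.subtype).map_epi (shiftSC A).g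

/-- `Res_α Coind_D^G` of the dimension shifting sequence. -/
noncomputable abbrev indResSC : ShortComplex (Rep k H) :=
  (coindSC (G := G) A).map (Rep.resFunctor α)

lemma indResSC_shortExact : (indResSC α A).ShortExact :=
  (Rep.shortExact_res α).2 (coindSC_shortExact A)

end Exact

end Fermat.Agent.S55.Mackey

end
-- ===== PACK-END S55/Mackey/Acyclic.lean

-- ===== PACK-BEGIN S55/Mackey/Zero.lean
section


/-!
# S55 (helper61): Mackey–Shapiro — the map `mackeyPi` and bijectivity in degree 0
-/

set_option autoImplicit false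

open CategoryTheory CategoryTheory.Limits groupCohomology

namespace Fermat.Agent.S55.Mackey

universe u v

variable {k H G : Type u} [CommRing k] [Group H] [Group G]
variable {ι : Type v} {α : H →* G} {D : Subgroup G} {Hs : ι → Type u} [∀ i, Group (Hs i)]
  {j : ∀ i, Hs i →* H} {κ : ∀ i, Hs i →* D} {x : ι → G}

/-- The Mackey–Shapiro map `Hⁿ(H, Res_α Coind_D^G A) → ∏ᵢ Hⁿ(Hs i, Res(κ i) A)`. -/
noncomputable def mackeyPi (hsys : IsMackeySystem α D Hs j κ x) (A : Rep k D) (n : ℕ) :
    groupCohomology (indRes α A) n →ₗ[k] ∀ i, groupCohomology (Rep.res (κ i) A) n :=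
  LinearMap.pi fun i => (mackeyComp α A (j i) (κ i) (x i) (hsys.comm i) n).hom

lemma mackeyPi_apply (hsys : IsMackeySystem α D Hs j κ x) (A : Rep k D) (n : ℕ)
    (c : groupCohomology (indRes α A) n) (i : ι) :
    mackeyPi hsys A n c i = (mackeyComp α A (j i) (κ i) (x i) (hsys.comm i) n).hom c := rfl

section Zero

variable (hsys : IsMackeySystem α D Hs j κ x) (A : Rep k D)

/-- In degree `0` the component maps are evaluation at `x i` on invariants. -/
lemma H0Iso_mackeyComp (i : ι) (c : groupCohomology (indRes α A) 0) :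
    (((H0Iso (Rep.res (κ i) A)).hom
      ((mackeyComp α A (j i) (κ i) (x i) (hsys.comm i) 0).hom c) :
        (Rep.res (κ i) A).ρ.invariants) : A.V) =
      (((H0Iso (indRes α A)).hom c : (indRes α A).ρ.invariants) : (indRes α A).V).1 (x i) := by
  have h := map_H0Iso_hom_f_apply (j i) (evAt α A (j i) (κ i) (x i) (hsys.comm i)) c
  exact h

lemma indRes_invariant_apply (a : (indRes α A).ρ.invariants) (g : G) (h : H) :
    (a : (indRes α A).V).1 (g * α h) = (a : (indRes α A).V).1 g := by
  have h1 : (indRes α A).ρ h (a : (indRes α A).V) = (a : (indRes α A).V) := a.2 h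
  have h2 := congrFun (congrArg Subtype.val h1) g
  exact h2

include hsys in
lemma mackeyPi_zero_injective : Function.Injective (mackeyPi hsys A 0) := by
  rw [injective_iff_map_eq_zero]
  intro c hc
  have ha : ∀ i, (((H0Iso (indRes α A)).hom c : (indRes α A).ρ.invariants) :
      (indRes α A).V).1 (x i) = 0 := by
    intro i
    rw [← H0Iso_mackeyComp hsys A i c]
    have h1 : (mackeyComp α A (j i) (κ i) (x i) (hsys.comm i) 0).hom c = 0 :=
      congrFun hc i
    rw [h1, map_zero]
    rfl
  set a : (indRes α A).ρ.invariants := (H0Iso (indRes α A)).hom c with hadef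
  have hzero : (a : (indRes α A).V) = 0 := by
    apply Subtype.ext
    funext g
    obtain ⟨i, d, h, rfl⟩ := hsys.cover g
    rw [indRes_invariant_apply A a, coind_apply_mul, ha i, map_zero]
    rfl
  have ha0 : a = 0 := Subtype.ext hzero
  have h3 : (H0Iso (indRes α A)).hom c = (H0Iso (indRes α A)).hom 0 := by
    rw [map_zero]
    exact ha0
  exact (ConcreteCategory.bijective_of_isIso (H0Iso (indRes α A)).hom).1 h3

section Surj

variable (b : ∀ i, (Rep.res (κ i) A).ρ.invariants)

/-- Independence of the decomposition `g = d * x i * α h`. -/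
lemma rho_eq_of_decomp {A : Rep k D} (hsys : IsMackeySystem α D Hs j κ x)
    (b : ∀ i, (Rep.res (κ i) A).ρ.invariants) {i i' : ι} {d d' : D} {h h' : H}
    (e : (d : G) * x i * α h = (d' : G) * x i' * α h') :
    A.ρ d ((b i : (Rep.res (κ i) A).V) : A.V) = A.ρ d' ((b i' : (Rep.res (κ i') A).V) : A.V) := by
  have hi : i = i' := by
    apply hsys.disj i i' (d⁻¹ * d') (h' * h⁻¹)
    have : x i = (d : G)⁻¹ * ((d : G) * x i * α h) * (α h)⁻¹ := by group
    rw [this, e]
    simp only [Subgroup.coe_mul, Subgroup.coe_inv, map_mul, map_inv]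
    group
  subst hi
  -- `x i * α (h * h'⁻¹) * (x i)⁻¹ = d⁻¹ * d'`
  have hconj : x i * α (h * h'⁻¹) * (x i)⁻¹ = ((d⁻¹ * d' : D) : G) := by
    have : x i * α h = (d : G)⁻¹ * ((d : G) * x i * α h) := by group
    simp only [map_mul, map_inv, Subgroup.coe_mul, Subgroup.coe_inv]
    calc x i * (α h * (α h')⁻¹) * (x i)⁻¹ = (x i * α h) * (α h')⁻¹ * (x i)⁻¹ := by group
      _ = (d : G)⁻¹ * ((d' : G) * x i * α h') * (α h')⁻¹ * (x i)⁻¹ := by rw [this, e]
      _ = (d : G)⁻¹ * (d' : G) := by group
  obtain ⟨h'', hh''⟩ := hsys.full i (h * h'⁻¹) (by rw [hconj]; exact (d⁻¹ * d').2)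
  have hκ : κ i h'' = d⁻¹ * d' := by
    apply Subtype.ext
    have h1 := hsys.comm i h''
    rw [hh''] at h1
    have h2 : ((κ i h'' : D) : G) = x i * α (h * h'⁻¹) * (x i)⁻¹ := by
      rw [h1]
      group
    rw [h2, hconj]
  have hinv : A.ρ (κ i h'') ((b i : (Rep.res (κ i) A).V) : A.V) = (b i : (Rep.res (κ i) A).V) :=
    (b i).2 h''
  rw [hκ] at hinv
  have h3 : A.ρ d (A.ρ (d⁻¹ * d') ((b i : (Rep.res (κ i) A).V) : A.V)) =
      A.ρ d' ((b i : (Rep.res (κ i) A).V) : A.V) := by
    rw [← Module.End.mul_apply, ← map_mul]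
    congr 2
    group
  rw [← h3, hinv]

/-- The invariant function attached to a family of invariants `b i`. -/
noncomputable def glueFun {A : Rep k D} (hsys : IsMackeySystem α D Hs j κ x)
    (b : ∀ i, (Rep.res (κ i) A).ρ.invariants) (g : G) : A.V :=
  A.ρ (Classical.choose (Classical.choose_spec (hsys.cover g)))
    (b (Classical.choose (hsys.cover g))).1

lemma glueFun_eq {A : Rep k D} (hsys : IsMackeySystem α D Hs j κ x)
    (b : ∀ i, (Rep.res (κ i) A).ρ.invariants) (i : ι) (d : D) (h : H) :
    glueFun hsys b ((d : G) * x i * α h) = A.ρ d ((b i : (Rep.res (κ i) A).V) : A.V) := by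
  unfold glueFun
  obtain ⟨h', hh'⟩ := Classical.choose_spec (Classical.choose_spec
    (hsys.cover ((d : G) * x i * α h)))
  exact (rho_eq_of_decomp hsys b hh').symm

/-- The element of `(Res_α Coind_D^G A)^H` attached to a family of invariants. -/
noncomputable def glueInv {A : Rep k D} (hsys : IsMackeySystem α D Hs j κ x)
    (b : ∀ i, (Rep.res (κ i) A).ρ.invariants) : (indRes α A).ρ.invariants :=
  ⟨⟨glueFun hsys b, fun d₀ g => by
      obtain ⟨i, d, h, rfl⟩ := hsys.cover g
      have e : (D.subtype d₀ : G) * ((d : G) * x i * α h) = ((d₀ * d : D) : G) * x i * α h := by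
        simp only [Subgroup.coe_mul, Subgroup.subtype_apply]
        group
      rw [e, glueFun_eq, glueFun_eq, map_mul]
      rfl⟩, fun h₀ => by
      apply Subtype.ext
      funext g
      obtain ⟨i, d, h, rfl⟩ := hsys.cover g
      change glueFun hsys b ((d : G) * x i * α h * α h₀) = glueFun hsys b ((d : G) * x i * α h)
      have e : (d : G) * x i * α h * α h₀ = (d : G) * x i * α (h * h₀) := by
        rw [map_mul]
        group
      rw [e, glueFun_eq, glueFun_eq]⟩

lemma glueInv_apply {A : Rep k D} (hsys : IsMackeySystem α D Hs j κ x)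
    (b : ∀ i, (Rep.res (κ i) A).ρ.invariants) (i : ι) :
    (glueInv hsys b : (indRes α A).V).1 (x i) = ((b i : (Rep.res (κ i) A).V) : A.V) := by
  change glueFun hsys b (x i) = _
  have e : x i = ((1 : D) : G) * x i * α 1 := by simp
  rw [e, glueFun_eq, map_one]
  rfl

include hsys in
lemma mackeyPi_zero_surjective : Function.Surjective (mackeyPi hsys A 0) := by
  intro y
  let b : ∀ i, (Rep.res (κ i) A).ρ.invariants := fun i => (H0Iso (Rep.res (κ i) A)).hom (y i)
  refine ⟨(H0Iso (indRes α A)).inv (glueInv hsys b), ?_⟩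
  funext i
  apply (ConcreteCategory.bijective_of_isIso (H0Iso (Rep.res (κ i) A)).hom).1
  apply Subtype.ext
  rw [mackeyPi_apply]
  have h1 := H0Iso_mackeyComp hsys A i ((H0Iso (indRes α A)).inv (glueInv hsys b))
  refine h1.trans ?_
  have h2 : (H0Iso (indRes α A)).hom ((H0Iso (indRes α A)).inv (glueInv hsys b)) =
      glueInv hsys b := Iso.inv_hom_id_apply (H0Iso (indRes α A)) _
  rw [h2, glueInv_apply]

include hsys in
theorem mackeyPi_zero_bijective : Function.Bijective (mackeyPi hsys A 0) :=
  ⟨mackeyPi_zero_injective hsys A, mackeyPi_zero_surjective hsys A⟩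

end Surj

end Zero

end Fermat.Agent.S55.Mackey

end
-- ===== PACK-END S55/Mackey/Zero.lean

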