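import Mathlib
import Fermat.Prelude.Def_GroupCohomology_ContinuousUnramified
import Fermat.Prelude.Thm_Algebra_finite_maximalSpectrum_and_bijective_localization_of_module_finite
import Fermat.Prelude.Thm_IsLocalRing_isAdicComplete_of_module_finite
import Fermat.Agent.Pack.S44C.G0E15L3
import Fermat.Agent.Pack.S43GC.G2E0L0

-- ===== PACK-BEGIN S38/IA/H474/DimS.lean
section
/-
Row 37 (S38/S43), hard case, route T (Ihara avoidance) — leaf DIM-S: the Krull dimension of a
power series ring.  helper474.  Mathlib only.  All proofs complete.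

* `ringKrullDim_powerSeries` : `dim R⟦X⟧ = dim R + 1` for a noetherian local ring `R`;
* `ringKrullDim_mvPowerSeries_fin` : `dim R⟦X₁,…,X_n⟧ = dim R + n`;
* `ringKrullDim_mvPowerSeries_dvr` : `dim 𝒪⟦X₁,…,X_n⟧ = n + 1` for a discrete valuation ring `𝒪`
  (the value of `dim S_∞` needed by the support engine: `hfin`, `hdimA`, `hdimB`).
-/


set_option autoImplicit false
set_option linter.style.haveILetI false
set_option linter.unusedSectionVars false

namespace Fermat.Agent.S38.IA.H474

open IsLocalRing

section PowerSeries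

variable (R : Type*) [CommRing R] [IsLocalRing R] [IsNoetherianRing R]

theorem powerSeries_ker_constantCoeff :
    RingHom.ker (PowerSeries.constantCoeff (R := R)) = Ideal.span {(PowerSeries.X : PowerSeries R)} := by
  ext φ
  rw [RingHom.mem_ker, Ideal.mem_span_singleton, PowerSeries.X_dvd_iff]

/-- `R⟦X⟧ ⧸ (X) ≃ R`. -/
noncomputable def powerSeriesQuotXEquiv :
    (PowerSeries R ⧸ Ideal.span {(PowerSeries.X : PowerSeries R)}) ≃+* R :=
  (Ideal.quotEquivOfEq (powerSeries_ker_constantCoeff R).symm).trans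
    (RingHom.quotientKerEquivOfSurjective PowerSeries.constantCoeff_surj)

/-- `dim R⟦X⟧ = dim R + 1` for a noetherian local ring `R`. -/
theorem ringKrullDim_powerSeries : ringKrullDim (PowerSeries R) = ringKrullDim R + 1 := by
  haveI : IsNoetherianRing (PowerSeries R) :=
    inferInstanceAs (IsNoetherianRing (MvPowerSeries Unit R))
  have hreg : IsSMulRegular (PowerSeries R) (PowerSeries.X : PowerSeries R) := by
    intro a b hab
    exact PowerSeries.X_mul_cancel hab
  have hmem : (PowerSeries.X : PowerSeries R) ∈ Ring.jacobson (PowerSeries R) := by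
    rw [Ring.jacobson_eq_sInf_isMaximal, Ideal.mem_sInf]
    intro M hM
    have hM' : M.IsMaximal := hM
    rw [IsLocalRing.eq_maximalIdeal hM', IsLocalRing.mem_maximalIdeal, mem_nonunits_iff,
      PowerSeries.isUnit_iff_constantCoeff]
    simp
  rw [← ringKrullDim_quotient_span_singleton_succ_eq_ringKrullDim_of_mem_jacobson hreg hmem,
    ringKrullDim_eq_of_ringEquiv (powerSeriesQuotXEquiv R)]

end PowerSeries

section MvPowerSeries

variable (R : Type*) [CommRing R] [IsLocalRing R] [IsNoetherianRing R]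

/-- `dim R⟦X₁,…,X_n⟧ = dim R + n` for a noetherian local ring `R`. -/
theorem ringKrullDim_mvPowerSeries_fin (n : ℕ) :
    ringKrullDim (MvPowerSeries (Fin n) R) = ringKrullDim R + n := by
  induction n with
  | zero =>
    rw [ringKrullDim_eq_of_ringEquiv
      (MvPowerSeries.isEmptyEquiv (σ := Fin 0) (R := R)).toRingEquiv]
    simp
  | succ n ih =>
    rw [ringKrullDim_eq_of_ringEquiv (MvPowerSeries.finSuccEquiv R n).toRingEquiv,
      ringKrullDim_powerSeries, ih, add_assoc]
    congr 1

end MvPowerSeries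

section DVR

variable (O : Type*) [CommRing O] [IsDomain O] [IsDiscreteValuationRing O]

/-- `dim 𝒪⟦X₁,…,X_n⟧ = n + 1` for a discrete valuation ring `𝒪`. -/
theorem ringKrullDim_mvPowerSeries_dvr (n : ℕ) :
    ringKrullDim (MvPowerSeries (Fin n) O) = ((n + 1 : ℕ) : WithBot ℕ∞) := by
  rw [ringKrullDim_mvPowerSeries_fin, IsDiscreteValuationRing.ringKrullDim_eq_one]
  push_cast
  rw [add_comm]

theorem ringKrullDim_mvPowerSeries_dvr_lt_top (n : ℕ) :
    ringKrullDim (MvPowerSeries (Fin n) O) < ⊤ :=
  ringKrullDim_lt_top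

end DVR

end Fermat.Agent.S38.IA.H474

end
-- ===== PACK-END S38/IA/H474/DimS.lean

-- ===== PACK-BEGIN S55/PT/Levels.lean
section



/-!
# S55 / PT layer, part 1: level systems and level-constant ("smooth") cohomology in degrees 0,1,2

A `LevelSys G` is a nonempty directed family of subgroups of `G` (the "open" subgroups we allow).
Level-constant cochains are defined EXACTLY as in the Prelude (`IsLevelConstantS₁` etc.):
right-invariance under some level.  Two instances:

* `globalLevels S` on `G_ℚ`  : the subgroups `G_F`, `F/ℚ` finite unramified outside `S`;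
* `localLevels q`  on `G_{ℚ_q}` : the subgroups `r_q⁻¹(G_F)`, `F/ℚ` finite.

All definitions are cochain-level and elementary; the cohomology groups are quotients of
submodules of function spaces.
-/

set_option autoImplicit false
set_option linter.style.haveILetI false

noncomputable section

namespace Fermat.Agent.S55.PT

open groupCohomology ExtCitation

/-- The absolute Galois group of `ℚ` as an abstract group (as in the Prelude). -/
abbrev GQ : Type := AlgebraicClosure ℚ ≃ₐ[ℚ] AlgebraicClosure ℚ

/-- The local Galois group at `q` used by the Prelude. -/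
abbrev Gl (q : Nat.Primes) : Type := primeLocalGaloisGroup q

/-- The Prelude's homomorphism `G_{ℚ_q} → G_ℚ`. -/
abbrev rl (q : Nat.Primes) : Gl q →* GQ := primeLocalToGlobal q

/-- A nonempty directed family of subgroups. -/
structure LevelSys (G : Type) [Group G] where
  /-- the allowed levels -/
  levels : Set (Subgroup G)
  nonempty : levels.Nonempty
  directed : ∀ U ∈ levels, ∀ V ∈ levels, ∃ W ∈ levels, W ≤ U ⊓ V

namespace LevelSys

variable {G : Type} [Group G] (L : LevelSys G)

/-- Normal levels are cofinal (true for both Prelude level systems: leaf D-F7). -/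
def NormalCofinal : Prop := ∀ U ∈ L.levels, ∃ V ∈ L.levels, V ≤ U ∧ V.Normal

/-- All levels have finite index (true for both Prelude level systems: leaf D-F7). -/
def FiniteIndex : Prop := ∀ U ∈ L.levels, U.FiniteIndex

/-- Level-constant 1-cochains. -/
def IsLC₁ {X : Type*} (f : G → X) : Prop :=
  ∃ U ∈ L.levels, ∀ g s : G, s ∈ U → f (g * s) = f g

/-- Level-constant 2-cochains. -/
def IsLC₂ {X : Type*} (f : G × G → X) : Prop :=
  ∃ U ∈ L.levels, ∀ g g' s s' : G, s ∈ U → s' ∈ U → f (g * s, g' * s') = f (g, g')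

variable {L}

lemma IsLC₁.add {X : Type*} [Add X] {f f' : G → X} (hf : L.IsLC₁ f) (hf' : L.IsLC₁ f') :
    L.IsLC₁ (f + f') := by
  obtain ⟨U, hU, h⟩ := hf
  obtain ⟨V, hV, h'⟩ := hf'
  obtain ⟨W, hW, hle⟩ := L.directed U hU V hV
  refine ⟨W, hW, fun g s hs => ?_⟩
  simp only [Pi.add_apply]
  rw [h g s (hle hs).1, h' g s (hle hs).2]

lemma IsLC₂.add {X : Type*} [Add X] {f f' : G × G → X} (hf : L.IsLC₂ f) (hf' : L.IsLC₂ f') :
    L.IsLC₂ (f + f') := by
  obtain ⟨U, hU, h⟩ := hf
  obtain ⟨V, hV, h'⟩ := hf'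
  obtain ⟨W, hW, hle⟩ := L.directed U hU V hV
  refine ⟨W, hW, fun g g' s s' hs hs' => ?_⟩
  simp only [Pi.add_apply]
  rw [h g g' s s' (hle hs).1 (hle hs').1, h' g g' s s' (hle hs).2 (hle hs').2]

lemma IsLC₁.comp {X Y : Type*} {f : G → X} (hf : L.IsLC₁ f) (φ : X → Y) : L.IsLC₁ (φ ∘ f) := by
  obtain ⟨U, hU, h⟩ := hf
  exact ⟨U, hU, fun g s hs => by simp only [Function.comp_apply, h g s hs]⟩

lemma IsLC₂.comp {X Y : Type*} {f : G × G → X} (hf : L.IsLC₂ f) (φ : X → Y) :
    L.IsLC₂ (φ ∘ f) := by
  obtain ⟨U, hU, h⟩ := hf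
  exact ⟨U, hU, fun g g' s s' hs hs' => by simp only [Function.comp_apply, h g g' s s' hs hs']⟩

variable (L)

lemma isLC₁_const {X : Type*} (x : X) : L.IsLC₁ (fun _ : G => x) := by
  obtain ⟨U, hU⟩ := L.nonempty
  exact ⟨U, hU, fun _ _ _ => rfl⟩

lemma isLC₂_const {X : Type*} (x : X) : L.IsLC₂ (fun _ : G × G => x) := by
  obtain ⟨U, hU⟩ := L.nonempty
  exact ⟨U, hU, fun _ _ _ _ _ _ => rfl⟩

variable {k : Type} [CommRing k] (A : Rep.{0, 0, 0} k G)

/-- A representation is smooth for `L` if every vector is fixed by some level. -/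
def IsSmooth : Prop := ∀ a : A, ∃ U ∈ L.levels, ∀ s ∈ U, A.ρ s a = a

/-- A representation is uniformly smooth for `L` if some level acts trivially. -/
def IsUSmooth : Prop := ∃ U ∈ L.levels, ∀ s ∈ U, ∀ a : A, A.ρ s a = a

/-- Level-constant 1-cochains, as a submodule. -/
def C1 : Submodule k (G → A) where
  carrier := {f | L.IsLC₁ f}
  add_mem' hf hf' := hf.add hf'
  zero_mem' := L.isLC₁_const (0 : A)
  smul_mem' c _ hf := hf.comp (c • ·)

/-- Level-constant 2-cochains, as a submodule. -/
def C2 : Submodule k (G × G → A) where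
  carrier := {f | L.IsLC₂ f}
  add_mem' hf hf' := hf.add hf'
  zero_mem' := L.isLC₂_const (0 : A)
  smul_mem' c _ hf := hf.comp (c • ·)

lemma mem_C1_iff (f : G → A) : f ∈ L.C1 A ↔ L.IsLC₁ f := Iff.rfl
lemma mem_C2_iff (f : G × G → A) : f ∈ L.C2 A ↔ L.IsLC₂ f := Iff.rfl

/-- Level-constant 1-cocycles. -/
def Z1 : Submodule k (G → A) := cocycles₁ A ⊓ L.C1 A

/-- 1-coboundaries (automatically level-constant when `A` is smooth). -/
def B1 : Submodule k (G → A) := LinearMap.range (d₀₁ A).hom

/-- Level-constant 2-cocycles. -/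
def Z2 : Submodule k (G × G → A) := cocycles₂ A ⊓ L.C2 A

/-- Level-constant 2-coboundaries: `d` of a level-constant 1-cochain. -/
def B2 : Submodule k (G × G → A) := (L.C1 A).map (d₁₂ A).hom

/-- `H⁰`: the invariants. -/
abbrev H0 : Submodule k A := A.ρ.invariants

/-- Level-constant `H¹`. -/
def H1 : Type := ↥(L.Z1 A) ⧸ (B1 A).comap (L.Z1 A).subtype

instance : AddCommGroup (L.H1 A) :=
  inferInstanceAs (AddCommGroup (↥(L.Z1 A) ⧸ (B1 A).comap (L.Z1 A).subtype))

instance : Module k (L.H1 A) :=
  inferInstanceAs (Module k (↥(L.Z1 A) ⧸ (B1 A).comap (L.Z1 A).subtype))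

/-- Level-constant `H²`. -/
def H2 : Type := ↥(L.Z2 A) ⧸ (L.B2 A).comap (L.Z2 A).subtype

instance : AddCommGroup (L.H2 A) :=
  inferInstanceAs (AddCommGroup (↥(L.Z2 A) ⧸ (L.B2 A).comap (L.Z2 A).subtype))

instance : Module k (L.H2 A) :=
  inferInstanceAs (Module k (↥(L.Z2 A) ⧸ (L.B2 A).comap (L.Z2 A).subtype))

/-- The class of a level-constant 1-cocycle. -/
def H1π : ↥(L.Z1 A) →ₗ[k] L.H1 A := Submodule.mkQ ((B1 A).comap (L.Z1 A).subtype)

/-- The class of a level-constant 2-cocycle. -/
def H2π : ↥(L.Z2 A) →ₗ[k] L.H2 A := Submodule.mkQ ((L.B2 A).comap (L.Z2 A).subtype)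

lemma H1π_surjective : Function.Surjective (L.H1π A) :=
  Submodule.mkQ_surjective _

lemma H2π_surjective : Function.Surjective (L.H2π A) :=
  Submodule.mkQ_surjective _

lemma H1π_eq_zero_iff (c : ↥(L.Z1 A)) : L.H1π A c = 0 ↔ (c : G → A) ∈ B1 A := by
  show Submodule.mkQ ((B1 A).comap (L.Z1 A).subtype) c = 0 ↔ _
  simp [Submodule.Quotient.mk_eq_zero, Submodule.mem_comap]

lemma H2π_eq_zero_iff (c : ↥(L.Z2 A)) : L.H2π A c = 0 ↔ (c : G × G → A) ∈ L.B2 A := by
  show Submodule.mkQ ((L.B2 A).comap (L.Z2 A).subtype) c = 0 ↔ _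
  simp [Submodule.Quotient.mk_eq_zero, Submodule.mem_comap]

lemma ker_H1π : LinearMap.ker (L.H1π A) = (B1 A).comap (L.Z1 A).subtype :=
  Submodule.ker_mkQ _

lemma ker_H2π : LinearMap.ker (L.H2π A) = (L.B2 A).comap (L.Z2 A).subtype :=
  Submodule.ker_mkQ _

end LevelSys

/-! ### The two level systems of the Prelude -/

/-- Global levels: `G_F` for `F/ℚ` finite, unramified outside `S`. -/
def globalLevels (S : Finset Nat.Primes) : LevelSys GQ where
  levels := {U | ∃ F : IntermediateField ℚ (AlgebraicClosure ℚ),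
    F.IsUnramifiedOutside S ∧ U = F.fixingSubgroup}
  nonempty := ⟨_, ⊥, IntermediateField.isUnramifiedOutside_bot S, rfl⟩
  directed := by
    rintro U ⟨F, hF, rfl⟩ V ⟨F', hF', rfl⟩
    refine ⟨_, ⟨F ⊔ F', hF.sup hF', rfl⟩, ?_⟩
    rw [IntermediateField.fixingSubgroup_sup]

/-- Local levels: `r⁻¹(G_F)` for `F/ℚ` finite, for any group `G` with a map `r : G → G_ℚ`. -/
def pullbackLevels {G : Type} [Group G] (r : G →* GQ) : LevelSys G where
  levels := {U | ∃ F : IntermediateField ℚ (AlgebraicClosure ℚ),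
    FiniteDimensional ℚ F ∧ U = F.fixingSubgroup.comap r}
  nonempty := ⟨_, ⊥, inferInstance, rfl⟩
  directed := by
    rintro U ⟨F, hF, rfl⟩ V ⟨F', hF', rfl⟩
    haveI := hF; haveI := hF'
    refine ⟨_, ⟨F ⊔ F', inferInstance, rfl⟩, ?_⟩
    rw [IntermediateField.fixingSubgroup_sup, Subgroup.comap_inf]

/-- Local levels at `q`. -/
abbrev localLevels (q : Nat.Primes) : LevelSys (Gl q) := pullbackLevels (rl q)

lemma isLC₁_globalLevels_iff (S : Finset Nat.Primes) {X : Type*} (f : GQ → X) :
    (globalLevels S).IsLC₁ f ↔ IsLevelConstantS₁ S f := by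
  constructor
  · rintro ⟨U, ⟨F, hF, rfl⟩, h⟩
    exact ⟨F, hF, h⟩
  · rintro ⟨F, hF, h⟩
    exact ⟨_, ⟨F, hF, rfl⟩, h⟩

lemma isLC₂_globalLevels_iff (S : Finset Nat.Primes) {X : Type*} (f : GQ × GQ → X) :
    (globalLevels S).IsLC₂ f ↔ IsLevelConstantS₂ S f := by
  constructor
  · rintro ⟨U, ⟨F, hF, rfl⟩, h⟩
    exact ⟨F, hF, h⟩
  · rintro ⟨F, hF, h⟩
    exact ⟨_, ⟨F, hF, rfl⟩, h⟩

lemma isLC₁_pullbackLevels_iff {G : Type} [Group G] (r : G →* GQ) {X : Type*} (f : G → X) :
    (pullbackLevels r).IsLC₁ f ↔ IsLevelConstant₁ r f := by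
  constructor
  · rintro ⟨U, ⟨F, hF, rfl⟩, h⟩
    exact ⟨F, hF, fun g s hs => h g s hs⟩
  · rintro ⟨F, hF, h⟩
    exact ⟨_, ⟨F, hF, rfl⟩, fun g s hs => h g s hs⟩

lemma isLC₂_pullbackLevels_iff {G : Type} [Group G] (r : G →* GQ) {X : Type*} (f : G × G → X) :
    (pullbackLevels r).IsLC₂ f ↔ IsLevelConstant₂ r f := by
  constructor
  · rintro ⟨U, ⟨F, hF, rfl⟩, h⟩
    exact ⟨F, hF, fun g g' s s' hs hs' => h g g' s s' hs hs'⟩
  · rintro ⟨F, hF, h⟩
    exact ⟨_, ⟨F, hF, rfl⟩, fun g g' s s' hs hs' => h g g' s s' hs hs'⟩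

end Fermat.Agent.S55.PT

end

end
-- ===== PACK-END S55/PT/Levels.lean

-- ===== PACK-BEGIN S55/Bridge/Averaging.lean
section



/-!
# S55 bridge, part B3a: cohomology of a finite group whose order is invertible

For a finite group `H` and a commutative ring `k` in which `Nat.card H` is invertible,
every 1-cocycle and every 2-cocycle with values in a `k`-linear representation is a coboundary
(averaging argument).  We give the statements needed for the Prelude objects
`groupCohomology.H1` and `groupCohomology.continuousH2`.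
-/

set_option autoImplicit false

namespace Fermat.Agent.S55.Bridge

open groupCohomology CategoryTheory

universe u

variable {k H : Type u} [CommRing k] [Group H] [Fintype H] (B : Rep k H)

/-- Averaging: a 1-cocycle on a finite group with invertible order is a coboundary. -/
theorem mem_coboundaries₁_of_card_inv (c : k) (hc : c * (Fintype.card H : k) = 1)
    (f : H → B) (hf : f ∈ cocycles₁ B) : f ∈ coboundaries₁ B := by
  rw [mem_cocycles₁_iff] at hf
  set a : B := ∑ h : H, f h with ha
  have key : ∀ g : H, (Fintype.card H : k) • f g = a - B.ρ g a := by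
    intro g
    have h1 : ∑ h : H, f (g * h) = a :=
      Fintype.sum_equiv (Equiv.mulLeft g) (fun h => f (g * h)) f (fun _ => rfl)
    have h2 : ∑ h : H, f (g * h) = B.ρ g a + (Fintype.card H : k) • f g := by
      simp_rw [hf]
      rw [Finset.sum_add_distrib, ← map_sum, Finset.sum_const, Finset.card_univ,
        Nat.cast_smul_eq_nsmul]
    rw [h1] at h2
    rw [eq_sub_iff_add_eq, add_comm]
    exact h2.symm
  refine ⟨-(c • a), ?_⟩
  funext g
  have : f g = c • (a - B.ρ g a) := by
    rw [← key g, smul_smul, hc, one_smul]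
  rw [d₀₁_hom_apply, this]
  simp only [map_neg, map_smul, smul_sub]
  abel

/-- Averaging: a 2-cocycle on a finite group with invertible order is the coboundary of the
averaged 1-cochain `g ↦ c • ∑ j, f (g, j)`. -/
theorem d₁₂_average_eq (c : k) (hc : c * (Fintype.card H : k) = 1)
    (f : H × H → B) (hf : f ∈ cocycles₂ B) :
    (d₁₂ B).hom (fun g => c • ∑ j : H, f (g, j)) = f := by
  rw [mem_cocycles₂_iff] at hf
  set u : H → B := fun g => ∑ j : H, f (g, j) with hu
  have key : ∀ g h : H, (Fintype.card H : k) • f (g, h) = B.ρ g (u h) - u (g * h) + u g := by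
    intro g h
    have h1 : ∑ j : H, (f (g * h, j) + f (g, h)) = ∑ j : H, (B.ρ g (f (h, j)) + f (g, h * j)) :=
      Finset.sum_congr rfl fun j _ => hf g h j
    rw [Finset.sum_add_distrib, Finset.sum_add_distrib, Finset.sum_const, Finset.card_univ,
      ← map_sum] at h1
    have h2 : ∑ j : H, f (g, h * j) = u g :=
      Fintype.sum_equiv (Equiv.mulLeft h) (fun j => f (g, h * j)) (fun j => f (g, j))
        (fun _ => rfl)
    rw [h2, ← Nat.cast_smul_eq_nsmul k] at h1
    have h3 : (Fintype.card H : k) • f (g, h) = B.ρ g (u h) + u g - u (g * h) := by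
      rw [eq_sub_iff_add_eq, add_comm]
      exact h1
    rw [h3]
    abel
  funext ⟨g, h⟩
  have : f (g, h) = c • (B.ρ g (u h) - u (g * h) + u g) := by
    rw [← key g h, smul_smul, hc, one_smul]
  rw [d₁₂_hom_apply, this]
  simp only [map_smul, smul_sub, smul_add]
  rfl

theorem mem_coboundaries₂_of_card_inv (c : k) (hc : c * (Fintype.card H : k) = 1)
    (f : H × H → B) (hf : f ∈ cocycles₂ B) : f ∈ coboundaries₂ B :=
  ⟨_, d₁₂_average_eq B c hc f hf⟩

/-- `H¹` of a finite group with invertible order vanishes. -/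
theorem H1_eq_zero_of_card_inv (c : k) (hc : c * (Fintype.card H : k) = 1) (x : H1 B) : x = 0 := by
  induction x using H1_induction_on with
  | h f => exact (H1π_eq_zero_iff f).2 (mem_coboundaries₁_of_card_inv B c hc f f.2)

/-- `H²` of a finite group with invertible order vanishes. -/
theorem H2_eq_zero_of_card_inv (c : k) (hc : c * (Fintype.card H : k) = 1) (x : H2 B) : x = 0 := by
  induction x using H2_induction_on with
  | h f => exact (H2π_eq_zero_iff f).2 (mem_coboundaries₂_of_card_inv B c hc f f.2)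

/-- The Prelude's continuous `H²` (level-constant cochains with respect to
`r : H →* Gal(ℚ̄/ℚ)`) of a finite group with invertible order vanishes. -/
theorem continuousH2_eq_zero_of_card_inv
    (r : H →* (AlgebraicClosure ℚ ≃ₐ[ℚ] AlgebraicClosure ℚ))
    (c : k) (hc : c * (Fintype.card H : k) = 1) (x : continuousH2 r B) : x = 0 := by
  obtain ⟨f, rfl⟩ := Submodule.Quotient.mk_surjective _ x
  rw [Submodule.Quotient.mk_eq_zero, Submodule.mem_comap, Submodule.subtype_apply,
    mem_levelCoboundaries₂_iff]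
  obtain ⟨hfc, F, hF, hlev⟩ := f.2
  refine ⟨fun g => c • ∑ j : H, (f : H × H → B) (g, j), ⟨F, hF, fun g s hs => ?_⟩,
    d₁₂_average_eq B c hc _ hfc⟩
  refine congrArg (c • ·) (Finset.sum_congr rfl fun j _ => ?_)
  have := hlev g j s 1 hs (by rw [map_one]; exact Subgroup.one_mem _)
  simpa using this

end Fermat.Agent.S55.Bridge

end
-- ===== PACK-END S55/Bridge/Averaging.lean

-- ===== PACK-BEGIN S55/H901/SelmerFinite.lean
section


set_option autoImplicit false
set_option linter.unusedSectionVars false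

/-!
# Finiteness of Selmer groups `K(S, n)`

For a Dedekind domain `R` with fraction field `K`, finite class group and finitely generated unit
group (e.g. the ring of integers of a number field), a finite set `S` of primes and `n > 0`, the
Selmer group `K(S, n) = {x ∈ Kˣ / (Kˣ)ⁿ : n ∣ ord_v x for all v ∉ S}` is finite.
-/

namespace Fermat.Agent.S55.H901

open IsDedekindDomain HeightOneSpectrum FractionalIdeal
open scoped nonZeroDivisors

variable {R : Type*} [CommRing R] [IsDedekindDomain R] {K : Type*} [Field K]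
  [Algebra R K] [IsFractionRing R K]

/-- the valuation of `x` in terms of the multiplicity of `v` in the principal fractional ideal -/
lemma valuationOfNeZero_eq_count (v : HeightOneSpectrum R) (x : Kˣ) :
    v.valuationOfNeZero x
      = Multiplicative.ofAdd (-(count K v (spanSingleton R⁰ (x : K)))) := by
  classical
  have hx0 : spanSingleton R⁰ (x : K) ≠ 0 := by
    rw [Ne, spanSingleton_eq_zero_iff]; exact x.ne_zero
  set a := (IsLocalization.sec R⁰ (x : K)).1 with ha
  set b := (IsLocalization.sec R⁰ (x : K)).2 with hb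
  have hspec : (x : K) * algebraMap R K b = algebraMap R K a := IsLocalization.sec_spec R⁰ (x : K)
  have hb0 : algebraMap R K (b : R) ≠ 0 :=
    IsFractionRing.to_map_ne_zero_of_mem_nonZeroDivisors b.2
  have hI : spanSingleton R⁰ (x : K)
      = spanSingleton R⁰ ((algebraMap R K) (b : R))⁻¹ * ↑(Ideal.span {a}) := by
    rw [coeIdeal_span_singleton, spanSingleton_mul_spanSingleton]
    congr 1
    field_simp
    exact hspec
  rw [count_well_defined K v hx0 hI]
  change v.valuationOfNeZeroToFun x = _
  rw [valuationOfNeZeroToFun]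
  simp only [← ha, ← hb]
  congr 1
  ring

lemma valuationOfNeZeroMod_mk_eq_one_iff (v : HeightOneSpectrum R) (n : ℕ) (x : Kˣ) :
    v.valuationOfNeZeroMod n
        (QuotientGroup.mk x : Kˣ ⧸ (powMonoidHom n : Kˣ →* Kˣ).range) = 1
      ↔ (n : ℤ) ∣ Multiplicative.toAdd (v.valuationOfNeZero x) := by
  have key : v.valuationOfNeZeroMod n
        (QuotientGroup.mk x : Kˣ ⧸ (powMonoidHom n : Kˣ →* Kˣ).range)
      = Multiplicative.ofAdd ((Int.quotientZMultiplesNatEquivZMod n)
          (QuotientAddGroup.mk (Multiplicative.toAdd (v.valuationOfNeZero x)))) := rfl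
  rw [key]
  constructor
  · intro h
    have h1 : (Int.quotientZMultiplesNatEquivZMod n)
        (QuotientAddGroup.mk (Multiplicative.toAdd (v.valuationOfNeZero x))) = 0 := h
    rw [AddEquiv.map_eq_zero_iff, QuotientAddGroup.eq_zero_iff, Int.mem_zmultiples_iff] at h1
    exact h1
  · intro h
    have h1 : (Int.quotientZMultiplesNatEquivZMod n)
        (QuotientAddGroup.mk (Multiplicative.toAdd (v.valuationOfNeZero x))) = 0 := by
      rw [AddEquiv.map_eq_zero_iff, QuotientAddGroup.eq_zero_iff, Int.mem_zmultiples_iff]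
      exact h
    rw [h1]
    rfl

/-- a nonzero fractional ideal all of whose multiplicities are divisible by `n` is an
`n`-th power -/
lemma exists_pow_eq_of_dvd_count {n : ℕ} (I : FractionalIdeal R⁰ K) (hI : I ≠ 0)
    (h : ∀ v : HeightOneSpectrum R, (n : ℤ) ∣ count K v I) :
    ∃ J : FractionalIdeal R⁰ K, J ^ n = I := by
  classical
  set exps : HeightOneSpectrum R → ℤ := fun v => count K v I / n with hexps
  have hfin : (Function.mulSupport fun v : HeightOneSpectrum R =>
      (v.asIdeal : FractionalIdeal R⁰ K) ^ exps v).Finite := by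
    have h0 := finite_factors (K := K) I
    rw [Filter.eventually_cofinite] at h0
    refine h0.subset ?_
    intro v hv
    simp only [Function.mem_mulSupport, ne_eq] at hv
    simp only [Set.mem_ofPred_eq]
    intro hc
    apply hv
    rw [hexps]
    simp [hc]
  refine ⟨∏ᶠ v : HeightOneSpectrum R, (v.asIdeal : FractionalIdeal R⁰ K) ^ exps v, ?_⟩
  rw [finprod_pow hfin]
  conv_rhs => rw [← finprod_heightOneSpectrum_factorization' (K := K) hI]
  apply finprod_congr
  intro v
  rw [← zpow_natCast, ← zpow_mul, hexps]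
  congr 1
  exact Int.ediv_mul_cancel (h v)

/-- an element of `Kˣ` whose class lies in `K(∅, n)` generates the `n`-th power of a
fractional ideal -/
lemma exists_pow_eq_spanSingleton {n : ℕ} (hn : 0 < n) (x : Kˣ)
    (hx : (QuotientGroup.mk x : Kˣ ⧸ (powMonoidHom n : Kˣ →* Kˣ).range) ∈
      selmerGroup (R := R) (K := K) (S := (∅ : Set (HeightOneSpectrum R))) (n := n)) :
    ∃ J : (FractionalIdeal R⁰ K)ˣ, (J : FractionalIdeal R⁰ K) ^ n = spanSingleton R⁰ (x : K) := by
  have hx0 : spanSingleton R⁰ (x : K) ≠ 0 := by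
    rw [Ne, spanSingleton_eq_zero_iff]; exact x.ne_zero
  have hdvd : ∀ v : HeightOneSpectrum R, (n : ℤ) ∣ count K v (spanSingleton R⁰ (x : K)) := by
    intro v
    have h1 := (valuationOfNeZeroMod_mk_eq_one_iff v n x).1 (hx v (Set.notMem_empty v))
    rw [valuationOfNeZero_eq_count, toAdd_ofAdd] at h1
    exact (Int.dvd_neg).1 h1
  obtain ⟨J, hJ⟩ := exists_pow_eq_of_dvd_count _ hx0 hdvd
  have hJ0 : J ≠ 0 := by
    rintro rfl
    rw [zero_pow hn.ne'] at hJ
    exact hx0 hJ.symm
  exact ⟨Units.mk0 J hJ0, hJ⟩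

section Main

variable (R K)

/-- the unit group modulo `n`-th powers is finite when the unit group is finitely generated -/
lemma finite_units_mod_pow [Group.FG Rˣ] {n : ℕ} (hn : 0 < n) :
    Finite (Rˣ ⧸ (powMonoidHom n : Rˣ →* Rˣ).range) := by
  apply CommGroup.finite_of_fg_isMulTorsion
  intro g
  obtain ⟨u, rfl⟩ := QuotientGroup.mk_surjective g
  rw [isOfFinOrder_iff_pow_eq_one]
  refine ⟨n, hn, ?_⟩
  rw [← QuotientGroup.mk_pow, QuotientGroup.eq_one_iff]
  exact ⟨u, rfl⟩

variable {R K}

/-- `K(∅, n)` is finite -/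
theorem selmerGroup_empty_finite [Finite (ClassGroup R)] [Group.FG Rˣ] {n : ℕ} (hn : 0 < n) :
    Finite (selmerGroup (R := R) (K := K) (S := (∅ : Set (HeightOneSpectrum R))) (n := n)) := by
  classical
  have : Fact (0 < n) := ⟨hn⟩
  have := finite_units_mod_pow R hn
  set G₀ := selmerGroup (R := R) (K := K) (S := (∅ : Set (HeightOneSpectrum R))) (n := n)
    with hG₀
  -- the image of the units is finite
  have hH : (Set.range (selmerGroup.fromUnitLift (R := R) (K := K) (n := n))).Finite :=
    Set.finite_range _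
  -- representatives and roots
  have hrep : ∀ g : G₀, ∃ (x : Kˣ) (J : (FractionalIdeal R⁰ K)ˣ),
      (QuotientGroup.mk x : Kˣ ⧸ (powMonoidHom n : Kˣ →* Kˣ).range) = g.1 ∧
      (J : FractionalIdeal R⁰ K) ^ n = spanSingleton R⁰ (x : K) := by
    intro g
    obtain ⟨x, hx⟩ := QuotientGroup.mk_surjective g.1
    have hxm : (QuotientGroup.mk x : Kˣ ⧸ (powMonoidHom n : Kˣ →* Kˣ).range) ∈ G₀ := by
      rw [hx]; exact g.2
    obtain ⟨J, hJ⟩ := exists_pow_eq_spanSingleton hn x hxm
    exact ⟨x, J, hx, hJ⟩
  choose xrep Jrep hxrep hJrep using hrep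
  set c : G₀ → ClassGroup R := fun g => ClassGroup.mk K (Jrep g) with hc
  -- fibres of `c` lie in cosets of the image of the units
  have hfib : ∀ g g' : G₀, c g = c g' →
      g ∈ (fun h => h * g') '' Set.range (selmerGroup.fromUnitLift (R := R) (K := K) (n := n)) := by
    intro g g' hgg'
    have h1 : ClassGroup.mk K (Jrep g * (Jrep g')⁻¹) = 1 := by
      rw [map_mul, map_inv]
      change c g * (c g')⁻¹ = 1
      rw [hgg', mul_inv_cancel]
    rw [ClassGroup.mk_eq_one_iff] at h1
    obtain ⟨y, hy⟩ := h1.principal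
    have hy' : ((Jrep g * (Jrep g')⁻¹ : (FractionalIdeal R⁰ K)ˣ) : FractionalIdeal R⁰ K)
        = spanSingleton R⁰ y := by
      apply Subtype.coe_injective
      simp only [val_eq_coe, hy, coe_spanSingleton]
    have hy0 : y ≠ 0 := by
      rintro rfl
      rw [spanSingleton_zero] at hy'
      exact Units.ne_zero _ hy'
    have hJJ : (Jrep g : FractionalIdeal R⁰ K) = spanSingleton R⁰ y * (Jrep g') := by
      rw [← hy', Units.val_mul, mul_assoc, ← Units.val_mul, inv_mul_cancel, Units.val_one,
        mul_one]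
    have hspan : spanSingleton R⁰ ((xrep g : Kˣ) : K)
        = spanSingleton R⁰ (y ^ n * ((xrep g' : Kˣ) : K)) := by
      rw [← hJrep g, hJJ, mul_pow, hJrep g', spanSingleton_pow, spanSingleton_mul_spanSingleton]
    obtain ⟨u, hu⟩ := (spanSingleton_eq_spanSingleton (R := R)).1 hspan
    -- `u • x = y ^ n * x'`
    refine ⟨selmerGroup.fromUnitLift (R := R) (K := K) (n := n) (QuotientGroup.mk u⁻¹),
      ⟨⟨_, rfl⟩, ?_⟩⟩
    apply Subtype.ext
    rw [Subgroup.coe_mul, ← hxrep g, ← hxrep g']
    have hlift : ((selmerGroup.fromUnitLift (R := R) (K := K) (n := n) (QuotientGroup.mk u⁻¹) :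
        G₀) : Kˣ ⧸ (powMonoidHom n : Kˣ →* Kˣ).range)
        = QuotientGroup.mk (Units.map (algebraMap R K).toMonoidHom u⁻¹) := rfl
    rw [hlift, ← QuotientGroup.mk_mul, eq_comm, QuotientGroup.eq]
    refine ⟨(Units.mk0 y hy0)⁻¹, ?_⟩
    apply Units.ext
    simp only [powMonoidHom_apply, Units.val_mul, Units.val_pow_eq_pow_val, Units.val_inv_eq_inv_val,
      Units.val_mk0, Units.coe_map, MonoidHom.coe_coe, RingHom.toMonoidHom_eq_coe, map_inv]
    have hu' : algebraMap R K (u : R) * ((xrep g : Kˣ) : K) = y ^ n * ((xrep g' : Kˣ) : K) := by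
      rw [← hu, Units.smul_def, Algebra.smul_def]
    have hux : algebraMap R K (u : R) ≠ 0 := by
      intro h0
      have : algebraMap R K (u : R) * algebraMap R K ((u⁻¹ : Rˣ) : R) = 1 := by
        rw [← map_mul, Units.mul_inv, map_one]
      rw [h0, zero_mul] at this
      exact zero_ne_one this
    have hx'0 : ((xrep g' : Kˣ) : K) ≠ 0 := Units.ne_zero _
    have hx0 : ((xrep g : Kˣ) : K) ≠ 0 := Units.ne_zero _
    have hyn : y ^ n ≠ 0 := pow_ne_zero n hy0
    field_simp
    linear_combination hu'
  -- conclusion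
  rw [← Set.finite_univ_iff]
  refine Set.Finite.of_finite_fibers c (Set.toFinite _) ?_
  rintro cls ⟨g', -, rfl⟩
  refine (hH.image (fun h => h * g')).subset ?_
  rintro g ⟨-, hg⟩
  exact hfib g g' hg

/-- **Finiteness of the Selmer group** `K(S, n)` for a finite set `S` of primes and `n > 0`,
over a Dedekind domain with finite class group and finitely generated unit group. -/
theorem selmerGroup_finite_of_fg [Finite (ClassGroup R)] [Group.FG Rˣ]
    {S : Set (HeightOneSpectrum R)} (hS : S.Finite) {n : ℕ} (hn : 0 < n) :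
    Finite (selmerGroup (R := R) (K := K) (S := S) (n := n)) := by
  classical
  have : NeZero n := ⟨hn.ne'⟩
  have : Finite S := hS.to_subtype
  have h0 := selmerGroup_empty_finite (R := R) (K := K) hn
  set f := selmerGroup.valuation (R := R) (K := K) (S := S) (n := n) with hf
  -- the kernel is finite
  have hker : (f.ker : Set (selmerGroup (R := R) (K := K) (S := S) (n := n))).Finite := by
    rw [hf, selmerGroup.valuation_ker_eq]
    have hinj : Set.InjOn (fun g : selmerGroup (R := R) (K := K) (S := S) (n := n) => g.1)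
        ((selmerGroup (R := R) (K := K) (S := (∅ : Set (HeightOneSpectrum R))) (n := n)).subgroupOf
          (selmerGroup (R := R) (K := K) (S := S) (n := n)) : Set _) :=
      fun a _ b _ hab => Subtype.ext hab
    refine Set.Finite.of_injOn (t := ((selmerGroup (R := R) (K := K)
      (S := (∅ : Set (HeightOneSpectrum R))) (n := n) : Subgroup _) : Set _)) ?_ hinj
      (Set.finite_coe_iff.1 h0)
    intro g hg
    exact Subgroup.mem_subgroupOf.1 hg
  rw [← Set.finite_univ_iff]
  refine Set.Finite.of_finite_fibers f (Set.toFinite _) ?_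
  rintro b ⟨g', -, rfl⟩
  refine (hker.image (fun h => h * g')).subset ?_
  rintro g ⟨-, hg⟩
  refine ⟨g * g'⁻¹, ?_, by simp⟩
  rw [SetLike.mem_coe, MonoidHom.mem_ker, map_mul, map_inv]
  have : f g = f g' := hg
  rw [this, mul_inv_cancel]

end Main

section NumberField

open NumberField

variable {F : Type*} [Field F] [NumberField F]

/-- **Finiteness of the Selmer group** `F(S, n)` of a number field `F`, for a finite set `S` of
primes and `n > 0`. -/
theorem selmerGroup_finite {S : Set (HeightOneSpectrum (𝓞 F))} (hS : S.Finite) {n : ℕ}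
    (hn : 0 < n) :
    Finite (selmerGroup (R := 𝓞 F) (K := F) (S := S) (n := n)) := by
  have : Group.FG (𝓞 F)ˣ := Group.fg_iff_monoid_fg.2 inferInstance
  exact selmerGroup_finite_of_fg hS hn

end NumberField

end Fermat.Agent.S55.H901

end
-- ===== PACK-END S55/H901/SelmerFinite.lean

-- ===== PACK-BEGIN S55/L/H661/IntClosure.lean
section




/-!
# The ring of integers of a finite extension of a complete discretely valued field
(S55, layer L, foundation "LF0")

`A` a complete discrete valuation ring, `K = Frac A`, `L / K` a finite separable extension and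
`C` the integral closure of `A` in `L` (any model, `[IsIntegralClosure C A L]`).  Then `C` is

* a domain, finite and free over `A`                       (`intClosure_finite`, `intClosure_free`)
* a local ring                                              (`intClosure_isLocalRing`)
* a discrete valuation ring                                 (`intClosure_isDVR`)
* complete for its maximal ideal                            (`intClosure_isAdicComplete`)
* with finite residue field if `A` has one                  (`intClosure_finite_residueField`)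
* with fraction field `L`                                   (`intClosure_isFractionRing`)

and `A → C` is a local homomorphism.  Everything is in `Type` (the Prelude lemmas used for
"finite over complete local is a product of local rings" are stated in `Type`).
-/

set_option linter.unusedSectionVars false

namespace Fermat.Agent.S55.L.H661

open IsLocalRing

section DomainLocal

/-- A domain which is module-finite over a complete Noetherian local ring is local. -/
theorem isLocalRing_of_finite_of_isDomain (A : Type) [CommRing A] [IsLocalRing A]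
    [IsNoetherianRing A] [IsAdicComplete (maximalIdeal A) A]
    (C : Type) [CommRing C] [IsDomain C] [Algebra A C] [Module.Finite A C] : IsLocalRing C := by
  classical
  obtain ⟨-, hbij, -, -⟩ :=
    Algebra.finite_maximalSpectrum_and_bijective_localization_of_module_finite (𝒪 := A) C
  set φ : C →+* (∀ I : MaximalSpectrum C, Localization.AtPrime I.asIdeal) :=
    RingHom.pi fun I : MaximalSpectrum C => algebraMap C (Localization.AtPrime I.asIdeal) with hφ
  have huniq : ∀ I J : MaximalSpectrum C, I = J := by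
    intro I J
    by_contra hIJ
    let e : ∀ I : MaximalSpectrum C, Localization.AtPrime I.asIdeal := Pi.single I 1
    obtain ⟨x, hx⟩ := hbij.2 e
    obtain ⟨y, hy⟩ := hbij.2 (1 - e)
    have hxy : x * y = 0 := by
      apply hbij.1
      rw [map_mul, hx, hy, map_zero]
      funext K
      by_cases hK : K = I
      · subst hK
        simp [e]
      · simp [e, Pi.single_eq_of_ne hK]
    rcases mul_eq_zero.mp hxy with h0 | h0
    · have : e I = 0 := by rw [← hx, h0, map_zero]; rfl
      simp [e] at this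
    · have : (1 - e) J = 0 := by rw [← hy, h0, map_zero]; rfl
      have hJ : e J = 0 := Pi.single_eq_of_ne (Ne.symm hIJ) _
      simp [hJ] at this
  obtain ⟨m, hm⟩ := Ideal.exists_maximal C
  refine IsLocalRing.of_unique_max_ideal ⟨m, hm, fun J hJ => ?_⟩
  exact congrArg MaximalSpectrum.asIdeal (huniq ⟨J, hJ⟩ ⟨m, hm⟩)

end DomainLocal

section IntClosure

variable (A K : Type) [CommRing A] [IsDomain A] [IsDiscreteValuationRing A]
  [IsAdicComplete (maximalIdeal A) A] [Field K] [Algebra A K] [IsFractionRing A K]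
  (L : Type) [Field L] [Algebra K L] [FiniteDimensional K L] [Algebra.IsSeparable K L]
  [Algebra A L] [IsScalarTower A K L]
  (C : Type) [CommRing C] [Algebra C L] [IsIntegralClosure C A L] [Algebra A C]
  [IsScalarTower A C L]

include A K L

theorem intClosure_isDomain : IsDomain C :=
  (IsIntegralClosure.algebraMap_injective C A L).isDomain _

theorem intClosure_finite : Module.Finite A C := IsIntegralClosure.finite A K L C

theorem intClosure_faithfulSMul : FaithfulSMul A C := by
  rw [faithfulSMul_iff_algebraMap_injective]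
  intro a b hab
  have h1 : algebraMap A L a = algebraMap A L b := by
    rw [IsScalarTower.algebraMap_apply A C L, IsScalarTower.algebraMap_apply A C L, hab]
  have hinj : Function.Injective (algebraMap A L) := by
    rw [IsScalarTower.algebraMap_eq A K L]
    exact (algebraMap K L).injective.comp (IsFractionRing.injective A K)
  exact hinj h1

theorem intClosure_isTorsionFree : Module.IsTorsionFree A C :=
  haveI : Module.IsTorsionFree A L := .trans_faithfulSMul A K L
  IsIntegralClosure.isTorsionFree A L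

theorem intClosure_free : Module.Free A C :=
  haveI : Module.IsTorsionFree A L := .trans_faithfulSMul A K L
  IsIntegralClosure.module_free A K L C

theorem intClosure_isIntegral : Algebra.IsIntegral A C := IsIntegralClosure.isIntegral_algebra A L

theorem intClosure_isLocalRing : IsLocalRing C :=
  have := intClosure_isDomain A K L C
  have := intClosure_finite A K L C
  isLocalRing_of_finite_of_isDomain A C

theorem intClosure_isDedekindDomain : IsDedekindDomain C := by
  have := intClosure_isDomain A K L C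
  exact IsIntegralClosure.isDedekindDomain A K L C

theorem intClosure_not_isField : ¬ IsField C := by
  have := intClosure_isDomain A K L C
  have := intClosure_isIntegral A K L C
  have := intClosure_faithfulSMul A K L C
  intro h
  exact IsDiscreteValuationRing.not_isField A
    ((Algebra.IsIntegral.isField_iff_isField (FaithfulSMul.algebraMap_injective A C)).mpr h)

theorem intClosure_isDVR [IsDomain C] : IsDiscreteValuationRing C := by
  have := intClosure_isLocalRing A K L C
  have hD : IsDedekindDomain C := intClosure_isDedekindDomain A K L C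
  exact ((IsDiscreteValuationRing.TFAE C (intClosure_not_isField A K L C)).out 0 2).mpr hD

theorem intClosure_isLocalHom [IsLocalRing C] : IsLocalHom (algebraMap A C) := by
  have := intClosure_isIntegral A K L C
  have := intClosure_faithfulSMul A K L C
  infer_instance

theorem intClosure_isAdicComplete [IsLocalRing C] : IsAdicComplete (maximalIdeal C) C := by
  have := intClosure_finite A K L C
  have := intClosure_isLocalHom A K L C
  exact IsLocalRing.isAdicComplete_of_module_finite (𝒪 := A) (T := C)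

theorem intClosure_map_maximalIdeal_le [IsLocalRing C] :
    (maximalIdeal A).map (algebraMap A C) ≤ maximalIdeal C := by
  have := intClosure_isLocalHom A K L C
  exact IsLocalRing.map_maximalIdeal_le (algebraMap A C)

theorem intClosure_finite_residueField [IsLocalRing C] [Finite (ResidueField A)] :
    Finite (ResidueField C) := by
  have := intClosure_finite A K L C
  have hfinA : Finite (A ⧸ maximalIdeal A) := ‹Finite (ResidueField A)›
  have h1 : Module.Finite (A ⧸ maximalIdeal A) (C ⧸ (maximalIdeal A).map (algebraMap A C)) :=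
    Module.Finite.of_restrictScalars_finite A _ _
  have h2 : Finite (C ⧸ (maximalIdeal A).map (algebraMap A C)) :=
    Module.finite_of_finite (A ⧸ maximalIdeal A)
  have hle := intClosure_map_maximalIdeal_le A K L C
  exact Finite.of_surjective (Ideal.Quotient.factor hle) (Ideal.Quotient.factor_surjective hle)

theorem intClosure_isFractionRing : IsFractionRing C L := by
  have := intClosure_isDomain A K L C
  exact IsIntegralClosure.isFractionRing_of_finite_extension A K L C

end IntClosure

end Fermat.Agent.S55.L.H661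

end
-- ===== PACK-END S55/L/H661/IntClosure.lean

-- ===== PACK-BEGIN S55/Local/H964/Group.lean
section


/-!
# S55, layer L, T5 glue: two group-theoretic lemmas (helper964)

* `exists_generator_pow_eq` : in a finite cyclic group `C`, for every element `a` there is a
  generator `φ` with `φ ^ (|C| / orderOf a) = a`.
* `card_eq_and_isAddCyclic` : an additive group whose order divides `n` and which contains an
  element of "order at least `n`" is cyclic of order `n`.
-/

set_option autoImplicit false
set_option linter.style.haveILetI false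

namespace Fermat.Agent.S55.Local.H964

/-- In a finite cyclic group every element `a` is the `(|C| / orderOf a)`-th power of a
generator. -/
theorem exists_generator_pow_eq {C : Type*} [Group C] [Finite C] [IsCyclic C] (a : C) :
    ∃ φ : C, (∀ g, g ∈ Subgroup.zpowers φ) ∧ φ ^ (Nat.card C / orderOf a) = a := by
  classical
  obtain ⟨γ, hγ⟩ := IsCyclic.exists_generator (α := C)
  have hf : orderOf γ = Nat.card C := orderOf_eq_card_of_forall_mem_zpowers hγ
  set f := Nat.card C with hfdef
  have hfpos : 0 < f := Nat.card_pos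
  haveI : NeZero f := ⟨hfpos.ne'⟩
  set n := orderOf a with hn
  have hnpos : 0 < n := orderOf_pos a
  have hnf : n ∣ f := orderOf_dvd_natCard a
  haveI : NeZero n := ⟨hnpos.ne'⟩
  set d := f / n with hd
  have hdn : d * n = f := Nat.div_mul_cancel hnf
  have hdpos : 0 < d := Nat.pos_of_ne_zero (by rintro h; rw [h, zero_mul] at hdn; omega)
  -- write `a = γ ^ j`
  obtain ⟨j, hj⟩ : ∃ j : ℕ, γ ^ j = a := by
    have := hγ a
    rw [← mem_powers_iff_mem_zpowers] at this
    exact this
  -- `d ∣ j`
  have hdj : d ∣ j := by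
    -- `a ^ n = 1` so `γ ^ (j * n) = 1`, hence `f ∣ j * n`
    have h1 : γ ^ (j * n) = 1 := by rw [pow_mul, hj, hn, pow_orderOf_eq_one]
    have h2 : f ∣ j * n := by rw [← hf]; exact orderOf_dvd_of_pow_eq_one h1
    rw [← hdn] at h2
    exact (Nat.mul_dvd_mul_iff_right hnpos).1 h2
  obtain ⟨j', rfl⟩ := hdj
  -- `j'` is coprime to `n`
  have hcop : Nat.Coprime j' n := by
    -- if a prime `ℓ` divides both then `a ^ (n / ℓ) = 1`
    rw [Nat.coprime_comm, Nat.coprime_iff_gcd_eq_one]
    by_contra hne
    set g := Nat.gcd n j' with hg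
    have hg1 : 1 < g := by
      have hgpos : 0 < g := Nat.gcd_pos_of_pos_left _ hnpos
      omega
    obtain ⟨n', hn'⟩ : g ∣ n := Nat.gcd_dvd_left _ _
    obtain ⟨j'', hj''⟩ : g ∣ j' := Nat.gcd_dvd_right _ _
    have hn'pos : 0 < n' := Nat.pos_of_ne_zero (by rintro h; rw [h, mul_zero] at hn'; omega)
    have hpow : a ^ n' = 1 := by
      rw [← hj, ← pow_mul]
      have : d * j' * n' = f * j'' := by
        rw [← hdn, hj'']
        calc d * (g * j'') * n' = d * (g * n') * j'' := by ring
          _ = d * n * j'' := by rw [← hn']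
      rw [this, pow_mul, ← hf, pow_orderOf_eq_one, one_pow]
    have hle : n ≤ n' := Nat.le_of_dvd hn'pos (orderOf_dvd_of_pow_eq_one hpow)
    have : n' < n := by
      rw [hn']
      calc n' = 1 * n' := (one_mul _).symm
        _ < g * n' := Nat.mul_lt_mul_of_pos_right hg1 hn'pos
    omega
  -- lift the unit `j' mod n` to a unit `u mod f`
  let u₀ : (ZMod n)ˣ := ZMod.unitOfCoprime j' hcop
  obtain ⟨u, hu⟩ := ZMod.unitsMap_surjective hnf u₀
  -- `φ := γ ^ (u.val)`
  set k : ℕ := (u : ZMod f).val with hk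
  have hkcop : Nat.Coprime k f := ZMod.val_coe_unit_coprime u
  have hkn : (k : ZMod n) = (j' : ZMod n) := by
    have h1 : ((ZMod.unitsMap hnf u : (ZMod n)ˣ) : ZMod n) = ZMod.castHom hnf (ZMod n) (u : ZMod f) :=
      rfl
    rw [hu] at h1
    have h2 : ((u₀ : (ZMod n)ˣ) : ZMod n) = (j' : ZMod n) := ZMod.coe_unitOfCoprime j' hcop
    rw [h2] at h1
    rw [h1, hk]
    have : ((u : ZMod f).val : ZMod f) = (u : ZMod f) := ZMod.natCast_zmod_val _
    conv_rhs => rw [← this]
    rw [map_natCast]
  refine ⟨γ ^ k, ?_, ?_⟩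
  · -- `γ ^ k` is a generator since `k` is coprime to `f = orderOf γ`
    intro g
    have hord : orderOf (γ ^ k) = Nat.card C := by
      rw [Nat.Coprime.orderOf_pow (by rw [hf]; exact hkcop.symm), hf]
    have hcard : Nat.card (Subgroup.zpowers (γ ^ k)) = Nat.card C := by
      rw [Nat.card_zpowers, hord]
    have htop : Subgroup.zpowers (γ ^ k) = ⊤ := Subgroup.eq_top_of_card_eq _ hcard
    rw [htop]; exact Subgroup.mem_top g
  · -- `(γ ^ k) ^ d = γ ^ (d * j')`
    rw [← hj, ← pow_mul]
    rw [pow_eq_pow_iff_modEq, hf]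
    -- `k * d ≡ d * j' mod f = d * n`
    have hmod : k ≡ j' [MOD n] := (ZMod.natCast_eq_natCast_iff _ _ _).1 hkn
    have := Nat.ModEq.mul_left' d hmod
    rw [hdn] at this
    calc k * d = d * k := mul_comm _ _
      _ ≡ d * j' [MOD f] := this

/-- An additive group whose cardinality divides `n > 0` and which has an element `a` such that
`k • a = 0` implies `n ∣ k`, is cyclic of order `n`. -/
theorem card_eq_and_isAddCyclic {H : Type*} [AddGroup H] {n : ℕ} (hn : 0 < n)
    (hcard : Nat.card H ∣ n) (a : H) (ha : ∀ k : ℕ, k • a = 0 → n ∣ k) :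
    Nat.card H = n ∧ IsAddCyclic H := by
  have hne : Nat.card H ≠ 0 := by
    rintro h; rw [h] at hcard; exact hn.ne' (Nat.eq_zero_of_zero_dvd hcard)
  have : Finite H := Nat.finite_of_card_ne_zero hne
  have h1 : n ∣ addOrderOf a := ha _ (addOrderOf_nsmul_eq_zero a)
  have h2 : addOrderOf a ∣ Nat.card H := addOrderOf_dvd_natCard a
  have h3 : Nat.card H = n := Nat.dvd_antisymm hcard (h1.trans h2)
  have h4 : addOrderOf a = Nat.card H :=
    Nat.dvd_antisymm h2 (by rw [h3]; exact h1)
  exact ⟨h3, isAddCyclic_of_addOrderOf_eq_card a h4⟩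

end Fermat.Agent.S55.Local.H964

end
-- ===== PACK-END S55/Local/H964/Group.lean

-- ===== PACK-BEGIN S55/Local/H543/Integers.lean
section




/-!
# S55, layer L, piece LF0 (helper543): integers of a finite extension of a complete
discretely valued field

`R` complete DVR, `L = Frac R`, `N / L` finite separable, `S = integralClosure R N`.
Then `S` is a local ring, a DVR, finite over `R`, complete, with finite residue field
(if `R` has one).
-/

set_option autoImplicit false
set_option linter.unusedSectionVars false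
set_option linter.unusedVariables false
set_option linter.style.haveILetI false

namespace Fermat.Agent.S55.Local.H543

section LF0

variable (R L N : Type) [CommRing R] [IsDomain R] [IsDiscreteValuationRing R]
  [IsAdicComplete (IsLocalRing.maximalIdeal R) R]
  [Field L] [Algebra R L] [IsFractionRing R L]
  [Field N] [Algebra L N] [FiniteDimensional L N] [Algebra.IsSeparable L N]
  [Algebra R N] [IsScalarTower R L N]

include L

/-- The ring of integers is a finite `R`-module. -/
theorem finite_integralClosure : Module.Finite R (integralClosure R N) :=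
  IsIntegralClosure.finite R L N (integralClosure R N)

/-- The ring of integers is a Dedekind domain. -/
theorem isDedekindDomain_integralClosure : IsDedekindDomain (integralClosure R N) :=
  integralClosure.isDedekindDomain R L N

theorem isFractionRing_integralClosure : IsFractionRing (integralClosure R N) N :=
  integralClosure.isFractionRing_of_finite_extension L N

/-- The ring of integers of a finite extension of a complete discretely valued field is
local. -/
theorem isLocalRing_integralClosure : IsLocalRing (integralClosure R N) := by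
  have : Module.Finite R (integralClosure R N) := finite_integralClosure R L N
  obtain ⟨-, hbij, -, -⟩ :=
    Algebra.finite_maximalSpectrum_and_bijective_localization_of_module_finite (𝒪 := R)
      (integralClosure R N)
  classical
  have huniq : ∀ I J : MaximalSpectrum (integralClosure R N), I = J := by
    intro I J
    by_contra hIJ
    obtain ⟨a, ha⟩ := hbij.2 (Pi.single I 1)
    obtain ⟨b, hb⟩ := hbij.2 (Pi.single J 1)
    have hab : a * b = 0 := by
      apply hbij.1
      rw [map_mul, ha, hb, map_zero]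
      funext K
      by_cases hK : K = I
      · subst hK
        simp [hIJ]
      · simp [hK]
    rcases mul_eq_zero.1 hab with h0 | h0
    · rw [h0, map_zero] at ha
      have := congrFun ha I
      simp at this
    · rw [h0, map_zero] at hb
      have := congrFun hb J
      simp at this
  obtain ⟨M, hM⟩ := Ideal.exists_maximal (integralClosure R N)
  refine IsLocalRing.of_unique_max_ideal ⟨M, hM, fun M' hM' => ?_⟩
  exact congrArg MaximalSpectrum.asIdeal (huniq ⟨M', hM'⟩ ⟨M, hM⟩)

/-- The ring of integers is not a field. -/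
theorem not_isField_integralClosure : ¬ IsField (integralClosure R N) := by
  intro hS
  have hinj : Function.Injective (algebraMap R (integralClosure R N)) := by
    have h1 : Function.Injective (algebraMap R N) := by
      rw [IsScalarTower.algebraMap_eq R L N]
      exact (algebraMap L N).injective.comp (IsFractionRing.injective R L)
    intro x y hxy
    apply h1
    have := congrArg (algebraMap (integralClosure R N) N) hxy
    simpa [← IsScalarTower.algebraMap_apply] using this
  have hint : Algebra.IsIntegral R (integralClosure R N) := inferInstance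
  exact IsDiscreteValuationRing.not_isField R
    (isField_of_isIntegral_of_isField hinj hS)

/-- The ring of integers is a discrete valuation ring. -/
theorem isDiscreteValuationRing_integralClosure :
    IsDiscreteValuationRing (integralClosure R N) := by
  haveI := isLocalRing_integralClosure R L N
  haveI := isDedekindDomain_integralClosure R L N
  exact ((IsDiscreteValuationRing.TFAE (integralClosure R N)
    (not_isField_integralClosure R L N)).out 0 2).2 (isDedekindDomain_integralClosure R L N)

theorem faithfulSMul_integralClosure : FaithfulSMul R (integralClosure R N) := by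
  rw [faithfulSMul_iff_algebraMap_injective]
  have h1 : Function.Injective (algebraMap R N) := by
    rw [IsScalarTower.algebraMap_eq R L N]
    exact (algebraMap L N).injective.comp (IsFractionRing.injective R L)
  intro x y hxy
  apply h1
  rw [IsScalarTower.algebraMap_apply R (integralClosure R N) N,
    IsScalarTower.algebraMap_apply R (integralClosure R N) N, hxy]

theorem isLocalHom_integralClosure : IsLocalHom (algebraMap R (integralClosure R N)) := by
  haveI := faithfulSMul_integralClosure R L N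
  infer_instance

/-- The ring of integers is complete. -/
theorem isAdicComplete_integralClosure [IsLocalRing (integralClosure R N)] :
    IsAdicComplete (IsLocalRing.maximalIdeal (integralClosure R N)) (integralClosure R N) := by
  haveI := finite_integralClosure R L N
  haveI := isLocalHom_integralClosure R L N
  exact IsLocalRing.isAdicComplete_of_module_finite (𝒪 := R) (T := integralClosure R N)

/-- The residue field of the ring of integers is finite. -/
theorem finite_residueField_integralClosure [IsLocalRing (integralClosure R N)]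
    [Finite (IsLocalRing.ResidueField R)] :
    Finite (IsLocalRing.ResidueField (integralClosure R N)) := by
  haveI := finite_integralClosure R L N
  haveI := isLocalHom_integralClosure R L N
  exact IsLocalRing.ResidueField.finite_of_finite (R := R) (S := integralClosure R N)
    inferInstance

end LF0

end Fermat.Agent.S55.Local.H543

end
-- ===== PACK-END S55/Local/H543/Integers.lean

-- ===== PACK-BEGIN S55/Local/H543/CycloCore.lean
section


/-!
# S55, layer L, piece UR5 (helper543): the cyclotomic extension `L(ζ_{q^n - 1})` of a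
discretely valued field `L` with residue field of `q` elements is unramified of degree `n`

Abstract `AKLB` form: `R ⊆ S` discrete valuation rings, `S` the integral closure of `R` in
the cyclotomic extension `N = L(ζ_m)`, `m = q ^ n - 1`.  Then `[N : L] = n` and
`𝔪_R S = 𝔪_S`.
-/

set_option autoImplicit false
set_option linter.unusedSectionVars false
set_option linter.unusedVariables false
set_option linter.style.haveILetI false
set_option linter.deprecated false

namespace Fermat.Agent.S55.Local.H543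

open IsLocalRing

/-- cardinality of the residue field -/
noncomputable abbrev qq (R : Type) [CommRing R] [IsLocalRing R] : ℕ := Nat.card (ResidueField R)

/-- `m = q^n - 1` -/
noncomputable abbrev mm (R : Type) [CommRing R] [IsLocalRing R] (n : ℕ) : ℕ := qq R ^ n - 1

theorem two_le_qq (R : Type) [CommRing R] [IsLocalRing R] [Finite (ResidueField R)] :
    2 ≤ qq R := by
  have : Nontrivial (ResidueField R) := inferInstance
  exact Finite.one_lt_card

theorem mm_add_one (R : Type) [CommRing R] [IsLocalRing R] [Finite (ResidueField R)] (n : ℕ) :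
    mm R n + 1 = qq R ^ n := by
  have h2 := two_le_qq R
  have : 1 ≤ qq R ^ n := Nat.one_le_pow _ _ (by omega)
  unfold mm
  omega

theorem mm_pos (R : Type) [CommRing R] [IsLocalRing R] [Finite (ResidueField R)] (n : ℕ)
    (hn : 0 < n) : 0 < mm R n := by
  have h2 := two_le_qq R
  have h3 : 2 ^ n ≤ qq R ^ n := Nat.pow_le_pow_left h2 n
  have h4 : 2 ≤ 2 ^ n := by
    calc 2 = 2 ^ 1 := by norm_num
      _ ≤ 2 ^ n := Nat.pow_le_pow_right (by norm_num) hn
  unfold mm
  omega

section Core

variable (R S : Type) [CommRing R] [IsLocalRing R]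
  [Finite (ResidueField R)]
  [CommRing S] [IsLocalRing S]
  [Algebra R S] [Module.Finite R S] [IsLocalHom (algebraMap R S)]

include R in
theorem finite_residueField_S : Finite (ResidueField S) :=
  ResidueField.finite_of_finite (R := R) (S := S) inferInstance

theorem card_residueField_S :
    Nat.card (ResidueField S) = qq R ^ Module.finrank (ResidueField R) (ResidueField S) := by
  haveI := finite_residueField_S R S
  exact Module.natCard_eq_pow_finrank (K := ResidueField R) (V := ResidueField S)

theorem qq_cast_residueField_S : ((qq R : ℕ) : ResidueField S) = 0 := by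
  have h0 : ((qq R : ℕ) : ResidueField R) = 0 := by
    haveI := Fintype.ofFinite (ResidueField R)
    rw [qq, Nat.card_eq_fintype_card]
    exact FiniteField.cast_card_eq_zero (ResidueField R)
  have := congrArg (algebraMap (ResidueField R) (ResidueField S)) h0
  simpa using this

/-- `m` is a unit in `S`. -/
theorem isUnit_mm (n : ℕ) (hn : 0 < n) : IsUnit ((mm R n : ℕ) : S) := by
  rw [← residue_ne_zero_iff_isUnit]
  have h1 : (residue S ((mm R n : ℕ) : S)) + 1 = 0 := by
    have : (residue S ((mm R n : ℕ) : S)) + 1 = ((mm R n + 1 : ℕ) : ResidueField S) := by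
      push_cast
      simp
    rw [this, mm_add_one R n]
    push_cast
    rw [qq_cast_residueField_S R S, zero_pow hn.ne']
  intro h0
  rw [h0, zero_add] at h1
  exact one_ne_zero h1

/-- The reduction of a primitive `m`-th root of unity, `m` a unit, has order `m`. -/
theorem orderOf_residue_of_isPrimitiveRoot [IsDomain S] (m : ℕ) (hm : 0 < m)
    (hmu : IsUnit ((m : ℕ) : S)) (z : S) (hz : IsPrimitiveRoot z m) :
    orderOf (residue S z) = m := by
  obtain ⟨m', rfl⟩ : ∃ m', m = m' + 1 := ⟨m - 1, by omega⟩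
  have hprod := IsPrimitiveRoot.prod_one_sub_pow_eq_order hz
  have hunit : ∀ k ∈ Finset.range m', IsUnit (1 - z ^ (k + 1)) := by
    intro k hk
    have hdvd : (1 - z ^ (k + 1)) ∣ ∏ k ∈ Finset.range m', (1 - z ^ (k + 1)) :=
      Finset.dvd_prod_of_mem _ hk
    rw [hprod] at hdvd
    have : IsUnit ((m' : S) + 1) := by simpa using hmu
    exact isUnit_of_dvd_unit hdvd this
  rw [orderOf_eq_iff hm]
  refine ⟨?_, fun j hj hj0 => ?_⟩
  · rw [← map_pow, hz.pow_eq_one, map_one]
  · obtain ⟨k, rfl⟩ : ∃ k, j = k + 1 := ⟨j - 1, by omega⟩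
    have hk : k ∈ Finset.range m' := Finset.mem_range.2 (by omega)
    have h1 := hunit k hk
    rw [← residue_ne_zero_iff_isUnit] at h1
    intro h2
    apply h1
    rw [map_sub, map_one, map_pow, h2, sub_self]

/-- If the residue field of `S` contains an element of order `q^n - 1`, then `n ≤ f`. -/
theorem le_finrank_of_orderOf (n : ℕ) (hn : 0 < n) (x : ResidueField S)
    (hx : orderOf x = mm R n) :
    n ≤ Module.finrank (ResidueField R) (ResidueField S) := by
  haveI := finite_residueField_S R S
  haveI := Fintype.ofFinite (ResidueField S)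
  have hx0 : x ≠ 0 := by
    rintro rfl
    have h1 : (0 : ResidueField S) ^ (mm R n) = 1 := by rw [← hx]; exact pow_orderOf_eq_one 0
    rw [zero_pow (mm_pos R n hn).ne'] at h1
    exact zero_ne_one h1
  have h1 : x ^ (Fintype.card (ResidueField S) - 1) = 1 :=
    FiniteField.pow_card_sub_one_eq_one x hx0
  have h2 : mm R n ∣ Fintype.card (ResidueField S) - 1 := by
    rw [← hx]; exact orderOf_dvd_of_pow_eq_one h1
  rw [← Nat.card_eq_fintype_card, card_residueField_S R S] at h2
  set f := Module.finrank (ResidueField R) (ResidueField S) with hf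
  have hfpos : 0 < f := Module.finrank_pos
  have hq := two_le_qq R
  have h3 : 0 < qq R ^ f - 1 := by
    have : 2 ^ f ≤ qq R ^ f := Nat.pow_le_pow_left hq f
    have : 2 ≤ 2 ^ f := by
      calc 2 = 2 ^ 1 := by norm_num
        _ ≤ 2 ^ f := Nat.pow_le_pow_right (by norm_num) hfpos
    omega
  have h4 := Nat.le_of_dvd h3 h2
  have h5 : qq R ^ n ≤ qq R ^ f := by
    have := mm_add_one R n
    have : 1 ≤ qq R ^ f := Nat.one_le_pow _ _ (by omega)
    unfold mm at h4
    omega
  exact (Nat.pow_le_pow_iff_right (by omega)).1 h5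

end Core

section Gal

variable (R S L N : Type) [CommRing R] [IsLocalRing R]
  [CommRing S] [IsDomain S] [IsLocalRing S]
  [Algebra R S] [IsLocalHom (algebraMap R S)]
  [Field L] [Algebra R L] [IsFractionRing R L]
  [Field N] [Algebra L N] [Algebra S N] [IsFractionRing S N] [Algebra R N]
  [IsScalarTower R L N] [IsScalarTower R S N] [IsIntegralClosure S R N]
  [Algebra.IsAlgebraic L N]

/-- The reduction map from the Galois group to the Galois group of the residue fields. -/
noncomputable def redGal (σ : N ≃ₐ[L] N) : ResidueField S ≃ₐ[ResidueField R] ResidueField S :=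
  ResidueField.mapAlgEquiv' (galRestrict R L N S σ)

theorem redGal_residue (σ : N ≃ₐ[L] N) (x : S) :
    redGal R S L N σ (residue S x) = residue S (galRestrict R L N S σ x) := rfl

theorem redGal_one : redGal R S L N 1 = 1 := by
  ext x
  obtain ⟨x, rfl⟩ := residue_surjective x
  rw [redGal_residue, map_one]
  rfl

/-- Rigidity: an automorphism of a cyclotomic extension is determined by the reduction of its
value on a primitive root whose reduction has full order. -/
theorem redGal_rigid (m : ℕ) [NeZero m] [IsCyclotomicExtension {m} L N] (z : S)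
    (hz : IsPrimitiveRoot (algebraMap S N z) m) (hord : orderOf (residue S z) = m)
    (σ τ : N ≃ₐ[L] N)
    (h : redGal R S L N σ (residue S z) = redGal R S L N τ (residue S z)) : σ = τ := by
  apply hz.autToPow_injective L
  have key : ∀ ρ : N ≃ₐ[L] N,
      galRestrict R L N S ρ z = z ^ (hz.autToPow L ρ : ZMod m).val := by
    intro ρ
    apply IsFractionRing.injective S N
    rw [algebraMap_galRestrict_apply, map_pow, hz.autToPow_spec L ρ]
  rw [redGal_residue, redGal_residue, key σ, key τ, map_pow, map_pow] at h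
  have hinj := pow_injOn_Iio_orderOf (x := residue S z)
  rw [hord] at hinj
  have h1 : (hz.autToPow L σ : ZMod m).val = (hz.autToPow L τ : ZMod m).val :=
    hinj (ZMod.val_lt _) (ZMod.val_lt _) h
  exact Units.ext (ZMod.val_injective m h1)

end Gal

section Main

variable (R S L N : Type) [CommRing R] [IsDomain R] [IsDiscreteValuationRing R]
  [Finite (ResidueField R)]
  [CommRing S] [IsDomain S] [IsDiscreteValuationRing S]
  [Algebra R S] [Module.Finite R S] [IsLocalHom (algebraMap R S)]
  [Field L] [Algebra R L] [IsFractionRing R L]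
  [Field N] [Algebra L N] [Algebra S N] [IsFractionRing S N] [Algebra R N]
  [IsScalarTower R L N] [IsScalarTower R S N] [IsIntegralClosure S R N]

theorem card_gal_residue :
    Nat.card (ResidueField S ≃ₐ[ResidueField R] ResidueField S) =
      Module.finrank (ResidueField R) (ResidueField S) := by
  haveI := finite_residueField_S R S
  haveI := Fintype.ofFinite (ResidueField R)
  have h := FiniteField.bijective_frobeniusAlgEquivOfAlgebraic_pow (ResidueField R) (ResidueField S)
  rw [← Nat.card_eq_of_bijective _ h]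
  simp

theorem cyclo_unram_core (n : ℕ) (hn : 0 < n) [IsCyclotomicExtension {mm R n} L N] :
    Module.finrank L N = n ∧
      (maximalIdeal R).map (algebraMap R S) = maximalIdeal S := by
  have hm : 0 < mm R n := mm_pos R n hn
  haveI : NeZero (mm R n) := ⟨hm.ne'⟩
  -- the primitive root
  obtain ⟨ζ, hζ⟩ := IsCyclotomicExtension.exists_isPrimitiveRoot L N
    (Set.mem_singleton (mm R n)) hm.ne'
  have hζint : IsIntegral R ζ := by
    have h1 : IsIntegral ℤ ζ := hζ.isIntegral hm
    exact h1.tower_top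
  set z : S := IsIntegralClosure.mk' S ζ hζint with hzdef
  have hzζ : algebraMap S N z = ζ := IsIntegralClosure.algebraMap_mk' S ζ hζint
  have hzN : IsPrimitiveRoot (algebraMap S N z) (mm R n) := by rw [hzζ]; exact hζ
  have hz : IsPrimitiveRoot z (mm R n) :=
    IsPrimitiveRoot.of_map_of_injective (f := algebraMap S N) hzN (IsFractionRing.injective S N)
  have hord : orderOf (residue S z) = mm R n :=
    orderOf_residue_of_isPrimitiveRoot S (mm R n) hm (isUnit_mm R S n hn) z hz
  have hnf : n ≤ Module.finrank (ResidueField R) (ResidueField S) :=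
    le_finrank_of_orderOf R S n hn _ hord
  -- Galois theory
  haveI : FiniteDimensional L N := IsCyclotomicExtension.finiteDimensional {mm R n} L N
  haveI : IsGalois L N := IsCyclotomicExtension.isGalois {mm R n} L N
  have hinj : Function.Injective (redGal R S L N) := fun σ τ h =>
    redGal_rigid R S L N (mm R n) z hzN hord σ τ (by rw [h])
  haveI : Finite (ResidueField S ≃ₐ[ResidueField R] ResidueField S) := by
    apply Nat.finite_of_card_ne_zero
    rw [card_gal_residue R S]
    omega
  have hdf : Module.finrank L N ≤ Module.finrank (ResidueField R) (ResidueField S) := by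
    rw [← IsGalois.card_aut_eq_finrank L N, ← card_gal_residue R S]
    exact Nat.card_le_card_of_injective _ hinj
  -- ramification
  have hp0 : maximalIdeal R ≠ ⊥ := IsDiscreteValuationRing.not_a_field R
  have hef := Ideal.ramificationIdx_mul_inertiaDeg_of_isLocalRing S L N hp0
  have hfdef : (maximalIdeal R).inertiaDeg' (maximalIdeal S) =
      Module.finrank (ResidueField R) (ResidueField S) :=
    Ideal.inertiaDeg'_algebraMap (maximalIdeal R) (maximalIdeal S)
  rw [hfdef] at hef
  set e := Ideal.ramificationIdx' (maximalIdeal R) (maximalIdeal S) with he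
  set f := Module.finrank (ResidueField R) (ResidueField S) with hf
  have hdpos : 0 < Module.finrank L N := Module.finrank_pos
  have hfpos : 0 < f := lt_of_lt_of_le hn hnf
  have he1 : e = 1 := by
    have h1 : e * f ≤ 1 * f := by rw [hef, one_mul]; exact hdf
    have h2 : e ≤ 1 := Nat.le_of_mul_le_mul_right h1 hfpos
    have h3 : e ≠ 0 := by
      rintro h0
      rw [h0, zero_mul] at hef
      omega
    omega
  have hdf' : Module.finrank L N = f := by rw [← hef, he1, one_mul]
  -- surjectivity of the reduction map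
  have hbij : Function.Bijective (redGal R S L N) := by
    refine hinj.bijective_of_nat_card_le ?_
    rw [card_gal_residue R S, IsGalois.card_aut_eq_finrank L N, hdf']
  have hfn : f ≤ n := by
    haveI := finite_residueField_S R S
    letI := Fintype.ofFinite (ResidueField R)
    obtain ⟨σ, hσ⟩ := hbij.2
      ((FiniteField.frobeniusAlgEquivOfAlgebraic (ResidueField R) (ResidueField S)) ^ n)
    have hq : Fintype.card (ResidueField R) = qq R := (Nat.card_eq_fintype_card).symm
    have h1 : redGal R S L N σ (residue S z) = residue S z := by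
      rw [hσ, AlgEquiv.coe_pow, FiniteField.coe_frobeniusAlgEquivOfAlgebraic_iterate, hq,
        ← mm_add_one R n]
      show (residue S z) ^ (mm R n + 1) = residue S z
      have h0 : (residue S z) ^ (mm R n) = 1 := by rw [← hord]; exact pow_orderOf_eq_one _
      rw [pow_succ, h0, one_mul]
    have h2 : σ = 1 := by
      apply redGal_rigid R S L N (mm R n) z hzN hord
      rw [h1, redGal_one]
      rfl
    rw [h2, redGal_one] at hσ
    have h3 := orderOf_dvd_of_pow_eq_one hσ.symm
    rw [FiniteField.orderOf_frobeniusAlgEquivOfAlgebraic] at h3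
    exact Nat.le_of_dvd hn h3
  refine ⟨by omega, ?_⟩
  -- `e = 1` means unramified
  haveI : FaithfulSMul R S := by
    rw [faithfulSMul_iff_algebraMap_injective]
    have h1 : Function.Injective (algebraMap R N) := by
      rw [IsScalarTower.algebraMap_eq R L N]
      exact (algebraMap L N).injective.comp (IsFractionRing.injective R L)
    intro x y hxy
    apply h1
    rw [IsScalarTower.algebraMap_apply R S N, IsScalarTower.algebraMap_apply R S N, hxy]
  have hmap0 : (maximalIdeal R).map (algebraMap R S) ≠ ⊥ :=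
    Ideal.map_ne_bot_of_ne_bot hp0
  have hDVR : IsDiscreteValuationRing S := inferInstance
  have htfae : IsDiscreteValuationRing S ↔
      ∀ (I) (_ : I ≠ ⊥), ∃ n : ℕ, I = maximalIdeal S ^ n :=
    (IsDiscreteValuationRing.TFAE S (IsDiscreteValuationRing.not_isField S)).out 0 6
  obtain ⟨k, hk⟩ := htfae.1 hDVR _ hmap0
  have hPS0 : maximalIdeal S ≠ ⊥ := IsDiscreteValuationRing.not_a_field S
  have hek : e = k := by
    apply Ideal.ramificationIdx'_spec
    · rw [hk]
    · rw [hk]
      exact not_le_of_gt (Ideal.pow_succ_lt_pow hPS0 k)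
  rw [hk, ← hek, he1, pow_one]

end Main

end Fermat.Agent.S55.Local.H543

end
-- ===== PACK-END S55/Local/H543/CycloCore.lean

-- ===== PACK-BEGIN S55/H424/PowBij.lean
section


/-!
# LPI (local power index), part 1: `x ↦ x ^ n` on principal congruence units

Setting: a commutative ring `A`, an element `ϖ : A` such that `A` is `ϖ`-adically
complete and Hausdorff, a natural number `n` and `v : ℕ` with `(n : A) ∣ ϖ ^ v`
(for a discrete valuation ring with uniformiser `ϖ` this says `v(n) ≤ v`).

Main results (for `v + 1 ≤ m`):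

* `H424.eq_one_of_pow_eq_one` : if `x ≡ 1 mod ϖ ^ m` and `x ^ n = 1` then `x = 1`
  (needs `n` to be a non-zero-divisor);
* `H424.exists_pow_eq` : every `w ≡ 1 mod n * ϖ ^ m` is `x ^ n` for some `x ≡ 1 mod ϖ ^ m`.

Everything is elementary (a Newton iteration), Mathlib only.
-/

set_option autoImplicit false

namespace Fermat.Agent.S55.H424

variable {A : Type*} [CommRing A]

/-- Second-order binomial expansion: `(1 + a) ^ n = 1 + n a + c a ^ 2`. -/
lemma one_add_pow_expand (a : A) (n : ℕ) :
    ∃ c : A, (1 + a) ^ n = 1 + (n : A) * a + c * a ^ 2 := by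
  induction n with
  | zero => exact ⟨0, by simp⟩
  | succ n ih =>
    obtain ⟨c, hc⟩ := ih
    refine ⟨n + c + c * a, ?_⟩
    rw [pow_succ, hc]
    push_cast
    ring

/-- `ϖ`-adic Hausdorffness in elementary form. -/
lemma eq_zero_of_forall_pow_dvd (ϖ : A) [IsHausdorff (Ideal.span {ϖ}) A] {x : A}
    (h : ∀ k : ℕ, ϖ ^ k ∣ x) : x = 0 := by
  apply IsHausdorff.haus' (I := Ideal.span {ϖ}) x
  intro k
  rw [SModEq.zero, smul_eq_mul, Ideal.mul_top, Ideal.span_singleton_pow,
    Ideal.mem_span_singleton]
  exact h k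

/-- A sequence whose consecutive differences are divisible by `ϖ ^ k` is Cauchy. -/
lemma pow_dvd_sub_of_succ (ϖ : A) (f : ℕ → A) (h : ∀ k : ℕ, ϖ ^ k ∣ f (k + 1) - f k)
    (k j : ℕ) : ϖ ^ k ∣ f (k + j) - f k := by
  induction j with
  | zero => simp
  | succ j ih =>
    have h1 : ϖ ^ k ∣ f (k + j + 1) - f (k + j) :=
      (pow_dvd_pow ϖ (Nat.le_add_right k j)).trans (h (k + j))
    have h2 : f (k + (j + 1)) - f k = (f (k + j + 1) - f (k + j)) + (f (k + j) - f k) := by
      rw [← add_assoc]; ring
    rw [h2]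
    exact dvd_add h1 ih

/-- `ϖ`-adic precompleteness in elementary form. -/
lemma exists_adic_limit (ϖ : A) [IsPrecomplete (Ideal.span {ϖ}) A] (f : ℕ → A)
    (h : ∀ k : ℕ, ϖ ^ k ∣ f (k + 1) - f k) : ∃ L : A, ∀ k : ℕ, ϖ ^ k ∣ L - f k := by
  obtain ⟨L, hL⟩ := IsPrecomplete.prec' (I := Ideal.span {ϖ}) f (by
    intro m n hmn
    rw [SModEq.sub_mem, smul_eq_mul, Ideal.mul_top, Ideal.span_singleton_pow,
      Ideal.mem_span_singleton]
    obtain ⟨j, rfl⟩ := Nat.exists_eq_add_of_le hmn
    have h3 := pow_dvd_sub_of_succ ϖ f h m j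
    have h4 : f m - f (m + j) = -(f (m + j) - f m) := by ring
    rw [h4]
    exact (dvd_neg).2 h3)
  refine ⟨L, fun k => ?_⟩
  have h5 := hL k
  rw [SModEq.sub_mem, smul_eq_mul, Ideal.mul_top, Ideal.span_singleton_pow,
    Ideal.mem_span_singleton] at h5
  have h6 : L - f k = -(f k - L) := by ring
  rw [h6]
  exact (dvd_neg).2 h5

/-- If `(n : A) ∣ ϖ ^ v` and `ϖ` is a non-zero-divisor then so is `n`. -/
lemma natCast_nzd_of_dvd_pow {ϖ : A} {n v : ℕ} (hϖ : ∀ x : A, ϖ * x = 0 → x = 0)
    (hN : (n : A) ∣ ϖ ^ v) : ∀ x : A, (n : A) * x = 0 → x = 0 := by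
  obtain ⟨w, hw⟩ := hN
  have hpow : ∀ (k : ℕ) (x : A), ϖ ^ k * x = 0 → x = 0 := by
    intro k
    induction k with
    | zero => intro x hx; simpa using hx
    | succ k ih =>
      intro x hx
      apply ih
      apply hϖ
      rw [← hx]; ring
  intro x hx
  apply hpow v
  rw [hw]
  calc (n : A) * w * x = w * ((n : A) * x) := by ring
    _ = 0 := by rw [hx, mul_zero]

/-- One induction step of the uniqueness argument. -/
lemma pow_succ_dvd_of_pow_eq_one {ϖ : A} {n v : ℕ} (hN : (n : A) ∣ ϖ ^ v)
    (hnzd : ∀ x : A, (n : A) * x = 0 → x = 0) {j : ℕ} (hj : v + 1 ≤ j) {a : A}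
    (ha : ϖ ^ j ∣ a) (han : (1 + a) ^ n = 1) : ϖ ^ (j + 1) ∣ a := by
  obtain ⟨w, hw⟩ := hN
  obtain ⟨a', rfl⟩ := ha
  obtain ⟨d, rfl⟩ := Nat.exists_eq_add_of_le hj
  obtain ⟨c, hc⟩ := one_add_pow_expand (ϖ ^ (v + 1 + d) * a') n
  rw [han] at hc
  have h1 : (ϖ ^ (v + 1 + d) * a') ^ 2 = ϖ ^ v * (ϖ ^ (v + 1 + d + 1) * (ϖ ^ d * a' ^ 2)) := by
    ring
  rw [h1, hw] at hc
  have h2 : (n : A) * (ϖ ^ (v + 1 + d) * a' + c * w * (ϖ ^ (v + 1 + d + 1) * (ϖ ^ d * a' ^ 2)))
      = 0 := by
    have h3 : (1 : A) + (n : A) * (ϖ ^ (v + 1 + d) * a')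
        + c * ((n : A) * w * (ϖ ^ (v + 1 + d + 1) * (ϖ ^ d * a' ^ 2))) - 1 = 0 := by
      rw [← hc]; ring
    rw [← h3]; ring
  have h4 := hnzd _ h2
  have h5 : ϖ ^ (v + 1 + d) * a' = ϖ ^ (v + 1 + d + 1) * (-(c * w * (ϖ ^ d * a' ^ 2))) := by
    have h6 := eq_neg_of_add_eq_zero_left h4
    rw [h6]; ring
  rw [h5]
  exact Dvd.intro _ rfl

/-- **Uniqueness.** If `x ≡ 1 mod ϖ ^ m` with `m ≥ v + 1`, `(n : A) ∣ ϖ ^ v`, `n` a
non-zero-divisor and `A` is `ϖ`-adically Hausdorff, then `x ^ n = 1` forces `x = 1`. -/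
theorem eq_one_of_pow_eq_one (ϖ : A) [IsHausdorff (Ideal.span {ϖ}) A] {n v m : ℕ}
    (hN : (n : A) ∣ ϖ ^ v) (hnzd : ∀ x : A, (n : A) * x = 0 → x = 0) (hm : v + 1 ≤ m)
    {x : A} (hx : ϖ ^ m ∣ x - 1) (hxn : x ^ n = 1) : x = 1 := by
  have han : (1 + (x - 1)) ^ n = 1 := by
    rw [← hxn]; congr 1; ring
  have key : ∀ j : ℕ, m ≤ j → ϖ ^ j ∣ x - 1 := by
    intro j hj
    induction j, hj using Nat.le_induction with
    | base => exact hx
    | succ j hj ih => exact pow_succ_dvd_of_pow_eq_one hN hnzd (hm.trans hj) ih han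
  have h0 : x - 1 = 0 := by
    apply eq_zero_of_forall_pow_dvd ϖ
    intro k
    exact (pow_dvd_pow ϖ (Nat.le_add_left k m)).trans (key (m + k) (Nat.le_add_right m k))
  exact sub_eq_zero.1 h0

/-- One Newton step. -/
lemma newton_step {ϖ : A} {n v m : ℕ} (hN : (n : A) ∣ ϖ ^ v) (hm : v + 1 ≤ m) {w : A}
    (k : ℕ) {x : A} (hx1 : ϖ ^ m ∣ x - 1) (hx2 : (n : A) * ϖ ^ (m + k) ∣ w - x ^ n) :
    ∃ x' : A, ϖ ^ m ∣ x' - 1 ∧ (n : A) * ϖ ^ (m + k + 1) ∣ w - x' ^ n ∧
      ϖ ^ (m + k) ∣ x' - x := by
  obtain ⟨w0, hw0⟩ := hN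
  obtain ⟨t, ht⟩ := hx2
  obtain ⟨d, rfl⟩ := Nat.exists_eq_add_of_le hm
  obtain ⟨e, he⟩ := one_add_pow_expand (ϖ ^ (v + 1 + d + k) * t) n
  -- `ϖ ∣ 1 - x ^ n`
  have hϖ1 : ϖ ∣ x - 1 := (dvd_pow_self ϖ (by omega : v + 1 + d ≠ 0)).trans hx1
  obtain ⟨r, hr⟩ : ϖ ∣ x ^ n - 1 := by
    have h1 := sub_dvd_pow_sub_pow x 1 n
    rw [one_pow] at h1
    exact hϖ1.trans h1
  refine ⟨x * (1 + ϖ ^ (v + 1 + d + k) * t), ?_, ?_, ?_⟩
  · have h2 : x * (1 + ϖ ^ (v + 1 + d + k) * t) - 1
        = (x - 1) + ϖ ^ (v + 1 + d) * (ϖ ^ k * t * x) := by ring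
    rw [h2]
    exact dvd_add hx1 (Dvd.intro _ rfl)
  · have h3 : w - (x * (1 + ϖ ^ (v + 1 + d + k) * t)) ^ n
        = (w - x ^ n) - x ^ n * ((n : A) * (ϖ ^ (v + 1 + d + k) * t))
          - x ^ n * e * (ϖ ^ (v + 1 + d + k) * t) ^ 2 := by
      rw [mul_pow, he]; ring
    have h4 : (ϖ ^ (v + 1 + d + k) * t) ^ 2
        = ϖ ^ v * (ϖ ^ (v + 1 + d + k + 1) * (ϖ ^ (d + k) * t ^ 2)) := by ring
    have hx' : x ^ n = 1 + ϖ * r := by rw [← hr]; ring
    rw [h3, h4, hw0, ht, hx']
    refine ⟨-(r * t) - (1 + ϖ * r) * (r * t) * 0 - (1 + ϖ * r) * e * w0 * (ϖ ^ (d + k) * t ^ 2), ?_⟩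
    ring
  · have h5 : x * (1 + ϖ ^ (v + 1 + d + k) * t) - x = ϖ ^ (v + 1 + d + k) * (t * x) := by ring
    rw [h5]
    exact Dvd.intro _ rfl

/-- **Existence.** If `A` is `ϖ`-adically complete, `(n : A) ∣ ϖ ^ v` and `m ≥ v + 1`, then
every `w ≡ 1 mod n * ϖ ^ m` is the `n`-th power of some `x ≡ 1 mod ϖ ^ m`. -/
theorem exists_pow_eq (ϖ : A) [IsAdicComplete (Ideal.span {ϖ}) A] {n v m : ℕ}
    (hN : (n : A) ∣ ϖ ^ v) (hm : v + 1 ≤ m) {w : A} (hw : (n : A) * ϖ ^ m ∣ w - 1) :
    ∃ x : A, ϖ ^ m ∣ x - 1 ∧ x ^ n = w := by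
  -- the Newton sequence
  choose g hg1 hg2 hg3 using
    fun (k : ℕ) (x : {x : A // ϖ ^ m ∣ x - 1 ∧ (n : A) * ϖ ^ (m + k) ∣ w - x ^ n}) =>
      newton_step hN hm (w := w) k x.2.1 x.2.2
  let s : ∀ k : ℕ, {x : A // ϖ ^ m ∣ x - 1 ∧ (n : A) * ϖ ^ (m + k) ∣ w - x ^ n} :=
    fun k => Nat.rec (motive := fun k =>
        {x : A // ϖ ^ m ∣ x - 1 ∧ (n : A) * ϖ ^ (m + k) ∣ w - x ^ n})
      ⟨1, by simp, by simpa using hw⟩
      (fun k x => ⟨g k x, hg1 k x, hg2 k x⟩) k
  have hs : ∀ k, (s (k + 1)).1 = g k (s k) := fun k => rfl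
  have hcauchy : ∀ k : ℕ, ϖ ^ k ∣ (s (k + 1)).1 - (s k).1 := by
    intro k
    rw [hs]
    exact (pow_dvd_pow ϖ (Nat.le_add_left k m)).trans (hg3 k (s k))
  obtain ⟨L, hL⟩ := exists_adic_limit ϖ (fun k => (s k).1) hcauchy
  refine ⟨L, ?_, ?_⟩
  · have h1 : L - 1 = (L - (s m).1) + ((s m).1 - 1) := by ring
    rw [h1]
    exact dvd_add (hL m) (s m).2.1
  · have h0 : w - L ^ n = 0 := by
      apply eq_zero_of_forall_pow_dvd ϖ
      intro k
      have h2 : w - L ^ n = (w - (s k).1 ^ n) - (L ^ n - (s k).1 ^ n) := by ring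
      rw [h2]
      apply dvd_sub
      · have h7 : ϖ ^ k ∣ (n : A) * ϖ ^ (m + k) :=
          (pow_dvd_pow ϖ (Nat.le_add_left k m)).trans (Dvd.intro_left _ rfl)
        exact h7.trans (s k).2.2
      · exact (hL k).trans (sub_dvd_pow_sub_pow L (s k).1 n)
    exact (sub_eq_zero.1 h0).symm

end Fermat.Agent.S55.H424

end
-- ===== PACK-END S55/H424/PowBij.lean

-- ===== PACK-BEGIN S55/H919/Q3Core.lean
section


/-!
# S55 / layer KL, leaf Q3 (helper919): Mathlib-only core

`Subsingleton (groupCohomology (B.quotientToInvariants V) 3)` implies that every inhomogeneous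
3-cocycle `z : G × G × G → B` which is inflated from `(G ⧸ V, B^V)` (constant on cosets of `V` in
each variable, values fixed by `V`) is `d₂₃` of a 2-cochain inflated from `(G ⧸ V, B^V)`.

All statements are spelled out with Mathlib notions only, so that the file is independent of the
location of the interface (`KL/Spec.lean`); the adapter to `Q3Spec` is a one-liner.

Main results:
* `d34_apply_h919`, `d23_apply_h919` : explicit formulas for the differentials `C³ → C⁴`, `C² → C³`
  of Mathlib's `inhomogeneousCochains`;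
* `exists_of_d34_eq_zero_h919` : `H³ = 0` ⇒ every 3-cocycle is a coboundary (Mathlib complex);
* `h3VanishAt_of_subsingleton_h919` : the statement of `Q3Spec`, unfolded.
-/

set_option autoImplicit false

open CategoryTheory groupCohomology

namespace Fermat.Agent.S55.H919

section General

universe u

variable {k G : Type u} [CommRing k] [Group G] (A : Rep k G)

theorem contractNth_zero_four_h919 (g : Fin 4 → G) :
    Fin.contractNth (0 : Fin 4) (· * ·) g = ![g 0 * g 1, g 2, g 3] := by
  ext i; fin_cases i <;> rfl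

theorem contractNth_one_four_h919 (g : Fin 4 → G) :
    Fin.contractNth (1 : Fin 4) (· * ·) g = ![g 0, g 1 * g 2, g 3] := by
  ext i; fin_cases i <;> rfl

theorem contractNth_two_four_h919 (g : Fin 4 → G) :
    Fin.contractNth (2 : Fin 4) (· * ·) g = ![g 0, g 1, g 2 * g 3] := by
  ext i; fin_cases i <;> rfl

theorem contractNth_three_four_h919 (g : Fin 4 → G) :
    Fin.contractNth (3 : Fin 4) (· * ·) g = ![g 0, g 1, g 2] := by
  ext i; fin_cases i <;> rfl

theorem contractNth_zero_three_h919 (g : Fin 3 → G) :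
    Fin.contractNth (0 : Fin 3) (· * ·) g = ![g 0 * g 1, g 2] := by
  ext i; fin_cases i <;> rfl

theorem contractNth_one_three_h919 (g : Fin 3 → G) :
    Fin.contractNth (1 : Fin 3) (· * ·) g = ![g 0, g 1 * g 2] := by
  ext i; fin_cases i <;> rfl

theorem contractNth_two_three_h919 (g : Fin 3 → G) :
    Fin.contractNth (2 : Fin 3) (· * ·) g = ![g 0, g 1] := by
  ext i; fin_cases i <;> rfl

/-- The differential `C³(G, A) → C⁴(G, A)` of Mathlib's complex of inhomogeneous cochains. -/
theorem d34_apply_h919 (f : (Fin 3 → G) → A) (g : Fin 4 → G) :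
    (inhomogeneousCochains.d A 3).hom f g =
      A.ρ (g 0) (f ![g 1, g 2, g 3]) - f ![g 0 * g 1, g 2, g 3] + f ![g 0, g 1 * g 2, g 3]
        - f ![g 0, g 1, g 2 * g 3] + f ![g 0, g 1, g 2] := by
  rw [inhomogeneousCochains.d_hom_apply]
  rw [Fin.sum_univ_four, contractNth_zero_four_h919, contractNth_one_four_h919,
    contractNth_two_four_h919, contractNth_three_four_h919]
  have e : (fun i : Fin 3 => g i.succ) = ![g 1, g 2, g 3] := by
    ext i; fin_cases i <;> rfl
  rw [e]
  simp only [Fin.val_zero, Fin.val_one, Fin.val_two, zero_add, pow_one, neg_smul, one_smul]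
  norm_num
  abel

/-- The differential `C²(G, A) → C³(G, A)` of Mathlib's complex of inhomogeneous cochains. -/
theorem d23_apply_h919 (f : (Fin 2 → G) → A) (g : Fin 3 → G) :
    (inhomogeneousCochains.d A 2).hom f g =
      A.ρ (g 0) (f ![g 1, g 2]) - f ![g 0 * g 1, g 2] + f ![g 0, g 1 * g 2]
        - f ![g 0, g 1] := by
  rw [inhomogeneousCochains.d_hom_apply]
  rw [Fin.sum_univ_three, contractNth_zero_three_h919, contractNth_one_three_h919,
    contractNth_two_three_h919]
  have e : (fun i : Fin 2 => g i.succ) = ![g 1, g 2] := by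
    ext i; fin_cases i <;> rfl
  rw [e]
  simp only [Fin.val_zero, Fin.val_one, Fin.val_two, zero_add, pow_one, neg_smul, one_smul]
  norm_num
  abel

/-- If `H³(G, A) = 0`, every 3-cocycle of Mathlib's complex of inhomogeneous cochains is a
coboundary. -/
theorem exists_of_d34_eq_zero_h919 (h : Subsingleton (groupCohomology A 3))
    (f : (Fin 3 → G) → A) (hf : (inhomogeneousCochains.d A 3).hom f = 0) :
    ∃ b : (Fin 2 → G) → A, (inhomogeneousCochains.d A 2).hom b = f := by
  have hz : Limits.IsZero (groupCohomology A 3) := ModuleCat.isZero_of_subsingleton _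
  have hex : (inhomogeneousCochains A).ExactAt 3 :=
    (HomologicalComplex.exactAt_iff_isZero_homology _ _).mpr hz
  rw [HomologicalComplex.exactAt_iff' _ 2 3 4 (by simp) (by simp)] at hex
  rw [ShortComplex.moduleCat_exact_iff] at hex
  obtain ⟨b, hb⟩ := hex f (by
    change ((inhomogeneousCochains A).d 3 4).hom f = 0
    rw [inhomogeneousCochains.d_def]
    exact hf)
  refine ⟨b, ?_⟩
  have hb' : ((inhomogeneousCochains A).d 2 3).hom b = f := hb
  rw [inhomogeneousCochains.d_def] at hb'
  exact hb'

end General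

section Main

variable {G : Type} [Group G] (B : Rep.{0, 0, 0} ℤ G) (V : Subgroup G) [V.Normal]

/-- **KL-Q3** (unfolded form of `Q3Spec`): if Mathlib's `H³(G ⧸ V, B^V)` vanishes then every
3-cocycle `z : G × G × G → B` inflated from `(G ⧸ V, B^V)` is `d₂₃` of a 2-cochain inflated from
`(G ⧸ V, B^V)`. -/
theorem h3VanishAt_of_subsingleton_h919
    (h : Subsingleton (groupCohomology (B.quotientToInvariants V) 3))
    (z : G × G × G → B)
    (hz : ∀ g h i s t u : G, s ∈ V → t ∈ V → u ∈ V →
      z (g * s, h * t, i * u) = z (g, h, i) ∧ B.ρ s (z (g, h, i)) = z (g, h, i))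
    (hc : ∀ g h i j : G,
      B.ρ g (z (h, i, j)) - z (g * h, i, j) + z (g, h * i, j) - z (g, h, i * j)
        + z (g, h, i) = 0) :
    ∃ b : G × G → B,
      (∀ g h s t : G, s ∈ V → t ∈ V →
        b (g * s, h * t) = b (g, h) ∧ B.ρ s (b (g, h)) = b (g, h)) ∧
      (d₂₃ B).hom b = z := by
  classical
  -- `z` only depends on the cosets
  have hzq : ∀ g h i g' h' i' : G, (g : G ⧸ V) = g' → (h : G ⧸ V) = h' → (i : G ⧸ V) = i' →
      z (g, h, i) = z (g', h', i') := by
    intro g h i g' h' i' e1 e2 e3
    have h1 := QuotientGroup.eq.mp e1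
    have h2 := QuotientGroup.eq.mp e2
    have h3 := QuotientGroup.eq.mp e3
    have := (hz g h i _ _ _ h1 h2 h3).1
    simpa using this.symm
  -- the cochain on the quotient
  let zbar : (Fin 3 → G ⧸ V) → (B.quotientToInvariants V) := fun x =>
    ⟨z ((x 0).out, (x 1).out, (x 2).out), fun s => (hz _ _ _ s.1 1 1 s.2 V.one_mem V.one_mem).2⟩
  have zbar_mk : ∀ g h i : G,
      ((zbar ![(g : G ⧸ V), (h : G ⧸ V), (i : G ⧸ V)] : (B.quotientToInvariants V)) : B)
        = z (g, h, i) := by
    intro g h i
    exact hzq _ _ _ _ _ _ (QuotientGroup.out_eq' _) (QuotientGroup.out_eq' _)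
      (QuotientGroup.out_eq' _)
  have hρ : ∀ (g : G) (a : (B.quotientToInvariants V)),
      (((B.quotientToInvariants V).ρ (g : G ⧸ V) a : (B.quotientToInvariants V)) : B)
        = B.ρ g (a : B) := fun g a => rfl
  -- `zbar` is a cocycle
  have hzbar : (inhomogeneousCochains.d (B.quotientToInvariants V) 3).hom zbar = 0 := by
    funext x
    obtain ⟨g0, hg0⟩ := QuotientGroup.mk_surjective (s := V) (x 0)
    obtain ⟨g1, hg1⟩ := QuotientGroup.mk_surjective (s := V) (x 1)
    obtain ⟨g2, hg2⟩ := QuotientGroup.mk_surjective (s := V) (x 2)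
    obtain ⟨g3, hg3⟩ := QuotientGroup.mk_surjective (s := V) (x 3)
    rw [d34_apply_h919]
    apply Subtype.ext
    rw [← hg0, ← hg1, ← hg2, ← hg3]
    simp only [← QuotientGroup.mk_mul]
    push_cast
    rw [hρ, zbar_mk, zbar_mk, zbar_mk, zbar_mk, zbar_mk]
    exact hc g0 g1 g2 g3
  obtain ⟨bbar, hbbar⟩ := exists_of_d34_eq_zero_h919 _ h zbar hzbar
  refine ⟨fun x => ((bbar ![(x.1 : G ⧸ V), (x.2 : G ⧸ V)] : (B.quotientToInvariants V)) : B),
    ?_, ?_⟩
  · intro g h s t hs ht
    refine ⟨?_, ?_⟩
    · simp only [QuotientGroup.mk_mul_of_mem _ hs, QuotientGroup.mk_mul_of_mem _ ht]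
    · exact (bbar ![(g : G ⧸ V), (h : G ⧸ V)]).2 ⟨s, hs⟩
  · funext x
    obtain ⟨g, h, i⟩ := x
    rw [d₂₃_hom_apply]
    have key := congrArg (fun f => ((f ![(g : G ⧸ V), (h : G ⧸ V), (i : G ⧸ V)] :
      (B.quotientToInvariants V)) : B)) hbbar
    simp only at key
    rw [zbar_mk, d23_apply_h919] at key
    rw [← key]
    push_cast
    rw [hρ]
    rfl

end Main

end Fermat.Agent.S55.H919

end
-- ===== PACK-END S55/H919/Q3Core.lean

-- ===== PACK-BEGIN S55/G/Rec/H379Core.lean
section


/-!
# S55 / G / REC, leaf (A4): `H²` of a finite cyclic group via the explicit cocycles `cupChar`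

Plain-level (no category theory) statements, in the vocabulary of Mathlib's
`groupCohomology.IsCocycle₂` / `IsCoboundary₂`.

* `carry n x y = (x.val + y.val) / n` : the carry of the addition in `ZMod n`.
* `cupChar n χ a (g, h) = carry n (χ g) (χ h) • a`.
* `isCocycle₂_cupChar` : (A1) `cupChar n χ a` is a 2-cocycle if `χ` is additive and `a` invariant.
* `exists_cupChar_cohomologous` : (A4, surjectivity) if `χ` is injective and `χ σ = 1`
  (i.e. `G = ⟨σ⟩` is cyclic of order `n`), every 2-cocycle is cohomologous to some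
  `cupChar n χ a`, `a` invariant.
* `isCoboundary₂_cupChar_iff` : (A4, injectivity) for invariant `a`, `cupChar n χ a` is a
  coboundary iff `a` is a norm `∑ k < n, σ ^ k • b` (`= ∑ g : G, g • b`).
-/

set_option autoImplicit false
set_option linter.unusedSectionVars false
set_option linter.style.haveILetI false

namespace Fermat.Agent.S55.G.Rec.H379

open groupCohomology Finset

/-! ## The carry -/

/-- The carry of the addition of `x` and `y` in `ZMod n` (it is `0` or `1` when `n ≠ 0`). -/
def carry (n : ℕ) (x y : ZMod n) : ℕ := (x.val + y.val) / n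

lemma div_add_mod_add_div (a c n : ℕ) : a / n + (a % n + c) / n = (a + c) / n := by
  rcases Nat.eq_zero_or_pos n with rfl | hn
  · simp
  · conv_rhs => rw [← Nat.div_add_mod a n]
    rw [add_assoc, Nat.mul_add_div hn, ]

lemma carry_assoc (n : ℕ) [NeZero n] (x y z : ZMod n) :
    _root_.Fermat.Agent.S55.G.Rec.H379.carry n (x + y) z + _root_.Fermat.Agent.S55.G.Rec.H379.carry n x y = _root_.Fermat.Agent.S55.G.Rec.H379.carry n y z + _root_.Fermat.Agent.S55.G.Rec.H379.carry n x (y + z) := by
  unfold _root_.Fermat.Agent.S55.G.Rec.H379.carry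
  rw [ZMod.val_add x y, ZMod.val_add y z]
  rw [add_comm (((x.val + y.val) % n + z.val) / n), div_add_mod_add_div,
    add_comm x.val ((y.val + z.val) % n), div_add_mod_add_div]
  congr 1
  ring

lemma carry_le_one (n : ℕ) [NeZero n] (x y : ZMod n) : _root_.Fermat.Agent.S55.G.Rec.H379.carry n x y ≤ 1 := by
  unfold _root_.Fermat.Agent.S55.G.Rec.H379.carry
  have hx := ZMod.val_lt x
  have hy := ZMod.val_lt y
  have hn : 0 < n := Nat.pos_of_ne_zero (NeZero.ne n)
  rw [← Nat.lt_succ_iff, Nat.div_lt_iff_lt_mul hn]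
  omega

lemma carry_comm (n : ℕ) (x y : ZMod n) : _root_.Fermat.Agent.S55.G.Rec.H379.carry n x y = _root_.Fermat.Agent.S55.G.Rec.H379.carry n y x := by
  unfold _root_.Fermat.Agent.S55.G.Rec.H379.carry; rw [add_comm]

@[simp] lemma carry_zero_left (n : ℕ) [NeZero n] (y : ZMod n) : _root_.Fermat.Agent.S55.G.Rec.H379.carry n 0 y = 0 := by
  unfold _root_.Fermat.Agent.S55.G.Rec.H379.carry
  rw [ZMod.val_zero, zero_add]
  exact Nat.div_eq_of_lt (ZMod.val_lt y)

@[simp] lemma carry_zero_right (n : ℕ) [NeZero n] (x : ZMod n) : _root_.Fermat.Agent.S55.G.Rec.H379.carry n x 0 = 0 := by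
  rw [carry_comm, carry_zero_left]

/-! ## The cocycle `cupChar` -/

section CupChar

variable {G : Type*} {A : Type*}

/-- The explicit 2-cochain `(g, h) ↦ ε_χ(g, h) • a`, where `ε_χ(g, h) ∈ {0, 1}` is the carry of
`χ g + χ h` in `ZMod n`. -/
def cupChar [AddMonoid A] (n : ℕ) (χ : G → ZMod n) (a : A) : G × G → A :=
  fun p => _root_.Fermat.Agent.S55.G.Rec.H379.carry n (χ p.1) (χ p.2) • a

@[simp] lemma cupChar_apply [AddMonoid A] (n : ℕ) (χ : G → ZMod n) (a : A) (g h : G) :
    _root_.Fermat.Agent.S55.G.Rec.H379.cupChar n χ a (g, h) = _root_.Fermat.Agent.S55.G.Rec.H379.carry n (χ g) (χ h) • a := rfl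

lemma cupChar_add [AddCommMonoid A] (n : ℕ) (χ : G → ZMod n) (a b : A) :
    _root_.Fermat.Agent.S55.G.Rec.H379.cupChar n χ (a + b) = _root_.Fermat.Agent.S55.G.Rec.H379.cupChar n χ a + _root_.Fermat.Agent.S55.G.Rec.H379.cupChar n χ b := by
  funext p; simp [_root_.Fermat.Agent.S55.G.Rec.H379.cupChar, smul_add]

lemma cupChar_zero [AddMonoid A] (n : ℕ) (χ : G → ZMod n) :
    _root_.Fermat.Agent.S55.G.Rec.H379.cupChar n χ (0 : A) = 0 := by
  funext p; simp [_root_.Fermat.Agent.S55.G.Rec.H379.cupChar]

lemma cupChar_neg [AddCommGroup A] (n : ℕ) (χ : G → ZMod n) (a : A) :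
    _root_.Fermat.Agent.S55.G.Rec.H379.cupChar n χ (-a) = -_root_.Fermat.Agent.S55.G.Rec.H379.cupChar n χ a := by
  funext p; simp [_root_.Fermat.Agent.S55.G.Rec.H379.cupChar]

lemma cupChar_sub [AddCommGroup A] (n : ℕ) (χ : G → ZMod n) (a b : A) :
    _root_.Fermat.Agent.S55.G.Rec.H379.cupChar n χ (a - b) = _root_.Fermat.Agent.S55.G.Rec.H379.cupChar n χ a - _root_.Fermat.Agent.S55.G.Rec.H379.cupChar n χ b := by
  funext p; simp [_root_.Fermat.Agent.S55.G.Rec.H379.cupChar, smul_sub]

variable [Group G] [AddCommGroup A] [DistribMulAction G A]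

/-- **(A1)** `cupChar n χ a` is a 2-cocycle when `χ` is additive and `a` is `G`-invariant. -/
theorem isCocycle₂_cupChar {n : ℕ} [NeZero n] {χ : G → ZMod n}
    (hχ : ∀ g h, χ (g * h) = χ g + χ h) {a : A} (ha : ∀ g : G, g • a = a) :
    IsCocycle₂ (_root_.Fermat.Agent.S55.G.Rec.H379.cupChar n χ a) := by
  intro g h j
  simp only [_root_.Fermat.Agent.S55.G.Rec.H379.cupChar_apply, hχ, smul_comm g, ha]
  rw [← add_smul, ← add_smul, carry_assoc]

end CupChar


/-! ## Generalities on 2-cocycles and 2-coboundaries (plain level) -/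

section General

variable {G : Type*} {A : Type*} [Group G] [AddCommGroup A] [DistribMulAction G A]

/-- The coboundary of a 1-cochain. -/
def dOne (u : G → A) : G × G → A := fun p => p.1 • u p.2 - u (p.1 * p.2) + u p.1

@[simp] lemma dOne_apply (u : G → A) (g h : G) : dOne u (g, h) = g • u h - u (g * h) + u g := rfl

lemma isCoboundary₂_iff {f : G × G → A} : IsCoboundary₂ f ↔ ∃ u : G → A, f = dOne u := by
  constructor
  · rintro ⟨u, hu⟩
    exact ⟨u, funext fun p => (hu p.1 p.2).symm⟩
  · rintro ⟨u, rfl⟩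
    exact ⟨u, fun g h => rfl⟩

lemma isCocycle₂_dOne (u : G → A) : IsCocycle₂ (dOne u) := by
  intro g h j
  simp only [dOne_apply, smul_add, smul_sub, mul_smul, mul_assoc]
  abel

lemma IsCoboundary₂.isCocycle₂' {f : G × G → A} (hf : IsCoboundary₂ f) : IsCocycle₂ f := by
  obtain ⟨u, rfl⟩ := isCoboundary₂_iff.1 hf
  exact isCocycle₂_dOne u

lemma isCocycle₂_sub {f f' : G × G → A} (hf : IsCocycle₂ f) (hf' : IsCocycle₂ f') :
    IsCocycle₂ (f - f') := by
  intro g h j
  have h1 := hf g h j
  have h2 := hf' g h j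
  simp only [Pi.sub_apply, smul_sub]
  rw [sub_add_sub_comm, h1, h2, sub_add_sub_comm]

lemma isCocycle₂_add {f f' : G × G → A} (hf : IsCocycle₂ f) (hf' : IsCocycle₂ f') :
    IsCocycle₂ (f + f') := by
  intro g h j
  have h1 := hf g h j
  have h2 := hf' g h j
  simp only [Pi.add_apply, smul_add]
  rw [add_add_add_comm, h1, h2, add_add_add_comm]

lemma dOne_add (u v : G → A) : dOne (u + v) = dOne u + dOne v := by
  funext p
  simp only [dOne, Pi.add_apply, smul_add]
  abel

lemma dOne_sub (u v : G → A) : dOne (u - v) = dOne u - dOne v := by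
  funext p
  simp only [dOne, Pi.sub_apply, smul_sub]
  abel

lemma isCoboundary₂_add {f f' : G × G → A} (hf : IsCoboundary₂ f) (hf' : IsCoboundary₂ f') :
    IsCoboundary₂ (f + f') := by
  obtain ⟨u, rfl⟩ := isCoboundary₂_iff.1 hf
  obtain ⟨v, rfl⟩ := isCoboundary₂_iff.1 hf'
  exact isCoboundary₂_iff.2 ⟨u + v, (dOne_add u v).symm⟩

lemma isCoboundary₂_sub {f f' : G × G → A} (hf : IsCoboundary₂ f) (hf' : IsCoboundary₂ f') :
    IsCoboundary₂ (f - f') := by
  obtain ⟨u, rfl⟩ := isCoboundary₂_iff.1 hf
  obtain ⟨v, rfl⟩ := isCoboundary₂_iff.1 hf'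
  exact isCoboundary₂_iff.2 ⟨u - v, (dOne_sub u v).symm⟩

/-- **Vanishing lemma.**  If every element of `G` is a power of `σ`, a 2-cocycle vanishing on
all pairs `(g, σ)` is zero. -/
theorem eq_zero_of_isCocycle₂_of_forall_snd {σ : G} (hσ : ∀ g : G, ∃ k : ℕ, g = σ ^ k)
    {f : G × G → A} (hf : IsCocycle₂ f) (h0 : ∀ g : G, f (g, σ) = 0) : f = 0 := by
  have step : ∀ (g : G) (j : ℕ), f (g, σ ^ (j + 1)) = f (g, σ ^ j) := by
    intro g j
    have := hf g (σ ^ j) σ
    rw [h0, h0, smul_zero, zero_add, zero_add, ← pow_succ] at this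
    exact this.symm
  have all : ∀ (g : G) (j : ℕ), f (g, σ ^ j) = 0 := by
    intro g j
    induction j with
    | zero => rw [← step g 0, zero_add, pow_one, h0]
    | succ j ih => rw [step, ih]
  funext ⟨g, h⟩
  obtain ⟨k, rfl⟩ := hσ h
  exact all g k

end General

/-! ## Cyclic groups: a character `χ : G → ZMod n`, additive and injective, with `χ σ = 1` -/

section Cyclic

variable {G : Type*} {A : Type*} [Group G] [AddCommGroup A] [DistribMulAction G A]
variable {n : ℕ} [NeZero n] {χ : G → ZMod n} {σ : G}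

lemma chi_one (hχ : ∀ g h, χ (g * h) = χ g + χ h) : χ 1 = 0 := by
  have := hχ 1 1
  rw [mul_one] at this
  exact left_eq_add.1 this

lemma chi_pow (hχ : ∀ g h, χ (g * h) = χ g + χ h) (hσ : χ σ = 1) (k : ℕ) :
    χ (σ ^ k) = (k : ZMod n) := by
  induction k with
  | zero => rw [pow_zero, chi_one hχ, Nat.cast_zero]
  | succ k ih => rw [pow_succ, hχ, ih, hσ, Nat.cast_succ]

lemma eq_pow_val (hχ : ∀ g h, χ (g * h) = χ g + χ h) (hinj : Function.Injective χ)
    (hσ : χ σ = 1) (g : G) : g = σ ^ (χ g).val := by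
  apply hinj
  rw [chi_pow hχ hσ, ZMod.natCast_zmod_val]

lemma exists_eq_pow (hχ : ∀ g h, χ (g * h) = χ g + χ h) (hinj : Function.Injective χ)
    (hσ : χ σ = 1) (g : G) : ∃ k : ℕ, g = σ ^ k :=
  ⟨_, eq_pow_val hχ hinj hσ g⟩

lemma pow_card_eq_one (hχ : ∀ g h, χ (g * h) = χ g + χ h) (hinj : Function.Injective χ)
    (hσ : χ σ = 1) : σ ^ n = 1 := by
  apply hinj
  rw [chi_pow hχ hσ, chi_one hχ, ZMod.natCast_self]

lemma val_chi_pow (hχ : ∀ g h, χ (g * h) = χ g + χ h) (hσ : χ σ = 1) {k : ℕ} (hk : k < n) :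
    (χ (σ ^ k)).val = k := by
  rw [chi_pow hχ hσ, ZMod.val_natCast, Nat.mod_eq_of_lt hk]

omit [DistribMulAction G A] in
/-- Shift invariance of sums over a full period. -/
lemma sum_range_pow_succ (hχ : ∀ g h, χ (g * h) = χ g + χ h) (hinj : Function.Injective χ)
    (hσ : χ σ = 1) (F : G → A) :
    ∑ k ∈ range n, F (σ ^ (k + 1)) = ∑ k ∈ range n, F (σ ^ k) := by
  have h1 := Finset.sum_range_succ (fun k => F (σ ^ k)) n
  have h2 := Finset.sum_range_succ' (fun k => F (σ ^ k)) n
  rw [h1] at h2
  simp only [pow_card_eq_one hχ hinj hσ, pow_zero] at h2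
  exact (add_right_cancel h2).symm

omit [DistribMulAction G A] in
/-- The sum over the group equals the sum over the powers of the generator. -/
lemma sum_univ_eq_sum_range (hχ : ∀ g h, χ (g * h) = χ g + χ h) (hinj : Function.Injective χ)
    (hσ : χ σ = 1) [Fintype G] (F : G → A) :
    ∑ g : G, F g = ∑ k ∈ range n, F (σ ^ k) := by
  symm
  refine Finset.sum_bij (fun k _ => σ ^ k) (fun _ _ => mem_univ _) ?_ ?_ (fun _ _ => rfl)
  · intro k hk l hl h
    have := congrArg (fun g => (χ g).val) h
    simp only [val_chi_pow hχ hσ (mem_range.1 hk), val_chi_pow hχ hσ (mem_range.1 hl)] at this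
    exact this
  · intro g _
    exact ⟨(χ g).val, mem_range.2 (ZMod.val_lt _), (eq_pow_val hχ hinj hσ g).symm⟩

/-- Invariance under the generator implies invariance under the group. -/
lemma smul_eq_of_generator (hχ : ∀ g h, χ (g * h) = χ g + χ h) (hinj : Function.Injective χ)
    (hσ : χ σ = 1) {a : A} (ha : σ • a = a) (g : G) : g • a = a := by
  obtain ⟨k, rfl⟩ := exists_eq_pow hχ hinj hσ g
  induction k with
  | zero => rw [pow_zero, one_smul]
  | succ k ih => rw [pow_succ, mul_smul, ha, ih]

/-- The norm `∑_{k<n} σ^k • b` is invariant. -/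
lemma smul_norm_eq (hχ : ∀ g h, χ (g * h) = χ g + χ h) (hinj : Function.Injective χ)
    (hσ : χ σ = 1) (b : A) (g : G) :
    g • (∑ k ∈ range n, σ ^ k • b) = ∑ k ∈ range n, σ ^ k • b := by
  refine smul_eq_of_generator hχ hinj hσ ?_ g
  rw [Finset.smul_sum]
  simp only [← mul_smul, ← pow_succ']
  exact sum_range_pow_succ hχ hinj hσ (fun g => g • b)

/-- For a 2-cocycle `f`, the element `∑_{k<n} f (σ^k, σ)` is invariant. -/
lemma smul_sum_cocycle_eq (hχ : ∀ g h, χ (g * h) = χ g + χ h) (hinj : Function.Injective χ)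
    (hσ : χ σ = 1) {f : G × G → A} (hf : IsCocycle₂ f) (g : G) :
    g • (∑ k ∈ range n, f (σ ^ k, σ)) = ∑ k ∈ range n, f (σ ^ k, σ) := by
  refine smul_eq_of_generator hχ hinj hσ ?_ g
  have key : ∀ k : ℕ, f (σ ^ (k + 1), σ) + f (σ, σ ^ k) =
      σ • f (σ ^ k, σ) + f (σ, σ ^ (k + 1)) := by
    intro k
    have := hf σ (σ ^ k) σ
    rwa [← pow_succ', ← pow_succ] at this
  have hsum := congrArg (fun F : ℕ → A => ∑ k ∈ range n, F k) (funext key)
  simp only [Finset.sum_add_distrib] at hsum
  rw [sum_range_pow_succ hχ hinj hσ (fun g => f (g, σ)),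
    sum_range_pow_succ hχ hinj hσ (fun g => f (σ, g)), ← Finset.smul_sum] at hsum
  exact (add_right_cancel hsum).symm


lemma subsingleton_of_card_one (hinj : Function.Injective χ) (hn : n = 1) : Subsingleton G := by
  haveI : Subsingleton (ZMod n) := by
    subst hn
    infer_instance
  exact hinj.subsingleton

lemma val_chi_gen (hσ : χ σ = 1) (hn : 1 < n) : (χ σ).val = 1 := by
  rw [hσ, ZMod.val_one_eq_one_mod, Nat.mod_eq_of_lt hn]

lemma val_chi_mul_gen (hχ : ∀ g h, χ (g * h) = χ g + χ h) (hσ : χ σ = 1) (hn : 1 < n) (g : G) :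
    (χ (g * σ)).val = ((χ g).val + 1) % n := by
  rw [hχ, ZMod.val_add, val_chi_gen hσ hn]

lemma carry_chi_gen (hσ : χ σ = 1) (hn : 1 < n) (g : G) :
    _root_.Fermat.Agent.S55.G.Rec.H379.carry n (χ g) (χ σ) = ((χ g).val + 1) / n := by
  unfold _root_.Fermat.Agent.S55.G.Rec.H379.carry
  rw [val_chi_gen hσ hn]

omit [NeZero n] in
lemma carry_split (t : ℕ → A) (ht0 : t 0 = 0) {i : ℕ} (hi : i < n) :
    ((i + 1) / n) • t n + t ((i + 1) % n) = t (i + 1) := by
  rcases Nat.lt_or_ge (i + 1) n with h | h
  · rw [Nat.div_eq_of_lt h, Nat.mod_eq_of_lt h, zero_smul, zero_add]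
  · have h' : i + 1 = n := by omega
    rw [h', Nat.div_self (by omega), Nat.mod_self, one_smul, ht0, add_zero]

omit [NeZero n] in
lemma sum_carry_smul (a : A) (hn : 0 < n) : ∑ k ∈ range n, ((k + 1) / n) • a = a := by
  obtain ⟨m, rfl⟩ : ∃ m, n = m + 1 := ⟨n - 1, by omega⟩
  rw [Finset.sum_range_succ, Nat.div_self (by omega), one_smul]
  rw [Finset.sum_eq_zero, zero_add]
  intro k hk
  rw [Nat.div_eq_of_lt (by have := mem_range.1 hk; omega), zero_smul]

/-- **(A4), surjectivity.**  If `χ : G → ZMod n` is additive and injective and `χ σ = 1`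
(so `G = ⟨σ⟩` is cyclic of order `n`), every 2-cocycle is cohomologous to `cupChar n χ a` for
some invariant `a` (namely `a = ∑_{k<n} f (σ^k, σ)`). -/
theorem exists_cupChar_cohomologous (hχ : ∀ g h, χ (g * h) = χ g + χ h)
    (hinj : Function.Injective χ) (hσ : χ σ = 1) {f : G × G → A} (hf : IsCocycle₂ f) :
    ∃ a : A, (∀ g : G, g • a = a) ∧ IsCoboundary₂ (f - _root_.Fermat.Agent.S55.G.Rec.H379.cupChar n χ a) := by
  by_cases hn1 : n = 1
  · haveI := subsingleton_of_card_one hinj hn1
    refine ⟨0, fun g => smul_zero g, ?_⟩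
    rw [cupChar_zero, sub_zero]
    refine ⟨fun _ => f (1, 1), fun g h => ?_⟩
    rw [Subsingleton.elim g 1, Subsingleton.elim h 1, one_smul, sub_add_cancel]
  · have hn : 1 < n := by
      have := NeZero.ne n
      omega
    set t : ℕ → A := fun i => ∑ k ∈ range i, f (σ ^ k, σ) with ht
    set u : G → A := fun g => f (1, σ) - t (χ g).val with hu
    refine ⟨t n, smul_sum_cocycle_eq hχ hinj hσ hf, isCoboundary₂_iff.2 ⟨u, ?_⟩⟩
    have hcoc : IsCocycle₂ (f - _root_.Fermat.Agent.S55.G.Rec.H379.cupChar n χ (t n) - dOne u) :=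
      isCocycle₂_sub (isCocycle₂_sub hf
        (isCocycle₂_cupChar hχ (smul_sum_cocycle_eq hχ hinj hσ hf))) (isCocycle₂_dOne u)
    have hzero := eq_zero_of_isCocycle₂_of_forall_snd (exists_eq_pow hχ hinj hσ) hcoc ?_
    · exact sub_eq_zero.1 hzero
    intro g
    have huσ : u σ = 0 := by
      simp only [hu, ht, val_chi_gen hσ hn, Finset.sum_range_one, pow_zero, sub_self]
    have hug : u g = f (1, σ) - t (χ g).val := rfl
    have hugσ : u (g * σ) = f (1, σ) - t (((χ g).val + 1) % n) := by
      simp only [hu, val_chi_mul_gen hχ hσ hn]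
    have hsplit := carry_split t (by simp [ht]) (ZMod.val_lt (χ g))
    have hsucc : t ((χ g).val + 1) = t (χ g).val + f (g, σ) := by
      simp only [ht]
      rw [Finset.sum_range_succ, ← eq_pow_val hχ hinj hσ g]
    rw [← hsplit] at hsucc
    have e1 : f (g, σ) = (((χ g).val + 1) / n) • t n + t (((χ g).val + 1) % n) - t (χ g).val :=
      eq_sub_of_add_eq' hsucc.symm
    show f (g, σ) - _root_.Fermat.Agent.S55.G.Rec.H379.carry n (χ g) (χ σ) • t n - (g • u σ - u (g * σ) + u g) = 0
    rw [carry_chi_gen hσ hn, huσ, hugσ, hug, smul_zero, e1]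
    abel

/-- **(A4), injectivity.**  `cupChar n χ a` is a coboundary iff `a` is a norm. -/
theorem isCoboundary₂_cupChar_iff (hχ : ∀ g h, χ (g * h) = χ g + χ h)
    (hinj : Function.Injective χ) (hσ : χ σ = 1) {a : A} :
    IsCoboundary₂ (_root_.Fermat.Agent.S55.G.Rec.H379.cupChar n χ a) ↔ ∃ b : A, a = ∑ k ∈ range n, σ ^ k • b := by
  by_cases hn1 : n = 1
  · haveI := subsingleton_of_card_one hinj hn1
    constructor
    · intro _
      refine ⟨a, ?_⟩
      subst hn1
      rw [Finset.sum_range_one, pow_zero, one_smul]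
    · intro _
      refine ⟨fun _ => 0, fun g h => ?_⟩
      have : _root_.Fermat.Agent.S55.G.Rec.H379.carry n (χ g) (χ h) = 0 := by
        rw [Subsingleton.elim g 1, chi_one hχ, carry_zero_left]
      simp [_root_.Fermat.Agent.S55.G.Rec.H379.cupChar_apply, this]
  have hn : 1 < n := by
    have := NeZero.ne n
    omega
  constructor
  · rintro ⟨u, hu⟩
    refine ⟨u σ, ?_⟩
    have key : ∀ k ∈ range n, σ ^ k • u σ - u (σ ^ (k + 1)) + u (σ ^ k) = ((k + 1) / n) • a := by
      intro k hk
      have := hu (σ ^ k) σ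
      rw [_root_.Fermat.Agent.S55.G.Rec.H379.cupChar_apply, carry_chi_gen hσ hn, val_chi_pow hχ hσ (mem_range.1 hk),
        ← pow_succ] at this
      exact this
    have hsum := Finset.sum_congr rfl key
    rw [sum_carry_smul a (by omega), Finset.sum_add_distrib, Finset.sum_sub_distrib,
      sum_range_pow_succ hχ hinj hσ u, sub_add_cancel] at hsum
    exact hsum.symm
  · rintro ⟨b, rfl⟩
    set s : ℕ → A := fun i => ∑ k ∈ range i, σ ^ k • b with hs
    set u : G → A := fun g => s (χ g).val with hu
    refine isCoboundary₂_iff.2 ⟨u, ?_⟩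
    have hcoc : IsCocycle₂ (_root_.Fermat.Agent.S55.G.Rec.H379.cupChar n χ (s n) - dOne u) :=
      isCocycle₂_sub (isCocycle₂_cupChar hχ (smul_norm_eq hχ hinj hσ b)) (isCocycle₂_dOne u)
    have hzero := eq_zero_of_isCocycle₂_of_forall_snd (exists_eq_pow hχ hinj hσ) hcoc ?_
    · exact sub_eq_zero.1 hzero
    intro g
    have huσ : u σ = b := by
      simp only [hu, hs, val_chi_gen hσ hn, Finset.sum_range_one, pow_zero, one_smul]
    have hug : u g = s (χ g).val := rfl
    have hugσ : u (g * σ) = s (((χ g).val + 1) % n) := by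
      simp only [hu, val_chi_mul_gen hχ hσ hn]
    have hsplit := carry_split s (by simp [hs]) (ZMod.val_lt (χ g))
    have hsucc : s ((χ g).val + 1) = s (χ g).val + g • b := by
      simp only [hs]
      rw [Finset.sum_range_succ, ← eq_pow_val hχ hinj hσ g]
    rw [← hsplit] at hsucc
    have e1 : g • b = (((χ g).val + 1) / n) • s n + s (((χ g).val + 1) % n) - s (χ g).val :=
      eq_sub_of_add_eq' hsucc.symm
    show _root_.Fermat.Agent.S55.G.Rec.H379.carry n (χ g) (χ σ) • s n - (g • u σ - u (g * σ) + u g) = 0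
    rw [carry_chi_gen hσ hn, huσ, hugσ, hug, e1]
    abel

/-- Variant of `isCoboundary₂_cupChar_iff` with the norm written as a sum over the group. -/
theorem isCoboundary₂_cupChar_iff' (hχ : ∀ g h, χ (g * h) = χ g + χ h)
    (hinj : Function.Injective χ) (hσ : χ σ = 1) [Fintype G] {a : A} :
    IsCoboundary₂ (_root_.Fermat.Agent.S55.G.Rec.H379.cupChar n χ a) ↔ ∃ b : A, a = ∑ g : G, g • b := by
  rw [isCoboundary₂_cupChar_iff hχ hinj hσ]
  simp only [sum_univ_eq_sum_range hχ hinj hσ]

end Cyclic

/-! ## Norms from the kernel of `χ` (no injectivity needed)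

If `χ : G → ZMod n` is additive with `χ σ = 1` and `b` is fixed by `ker χ`, then
`a = ∑_{k<n} σ^k • b` (the norm of `b` for the cyclic quotient `G / ker χ`) is `G`-invariant and
`cupChar n χ a` is a coboundary.  This is "inflation of (A4)" at the level of cochains. -/

section Norm

variable {G : Type*} {A : Type*} [Group G] [AddCommGroup A] [DistribMulAction G A]
variable {n : ℕ} [NeZero n] {χ : G → ZMod n} {σ : G}

lemma chi_inv (hχ : ∀ g h, χ (g * h) = χ g + χ h) (g : G) : χ g⁻¹ = -χ g := by
  have := hχ g⁻¹ g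
  rw [inv_mul_cancel, chi_one hχ] at this
  exact eq_neg_of_add_eq_zero_left this.symm

/-- `g • σ^k • b = σ^(χ̃ g + k) • b` when `b` is fixed by the kernel of `χ`. -/
lemma smul_pow_smul_eq (hχ : ∀ g h, χ (g * h) = χ g + χ h) (hσ : χ σ = 1) {b : A}
    (hb : ∀ g : G, χ g = 0 → g • b = b) (g : G) (k : ℕ) :
    g • σ ^ k • b = σ ^ ((χ g).val + k) • b := by
  have h0 : χ ((σ ^ ((χ g).val + k))⁻¹ * (g * σ ^ k)) = 0 := by
    rw [hχ, chi_inv hχ, hχ, chi_pow hχ hσ, chi_pow hχ hσ, Nat.cast_add, ZMod.natCast_zmod_val]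
    abel
  have := hb _ h0
  rw [mul_smul, inv_smul_eq_iff, mul_smul] at this
  exact this

lemma pow_card_smul_eq (hχ : ∀ g h, χ (g * h) = χ g + χ h) (hσ : χ σ = 1) {b : A}
    (hb : ∀ g : G, χ g = 0 → g • b = b) : σ ^ n • b = b :=
  hb _ (by rw [chi_pow hχ hσ, ZMod.natCast_self])

lemma pow_add_card_smul_eq (hχ : ∀ g h, χ (g * h) = χ g + χ h) (hσ : χ σ = 1) {b : A}
    (hb : ∀ g : G, χ g = 0 → g • b = b) (l : ℕ) : σ ^ (l + n) • b = σ ^ l • b := by
  rw [pow_add, mul_smul, pow_card_smul_eq hχ hσ hb]

/-- partial norms: `s (l + n) = s l + s n`. -/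
lemma partialNorm_add_card (hχ : ∀ g h, χ (g * h) = χ g + χ h) (hσ : χ σ = 1) {b : A}
    (hb : ∀ g : G, χ g = 0 → g • b = b) (l : ℕ) :
    ∑ k ∈ range (l + n), σ ^ k • b = ∑ k ∈ range l, σ ^ k • b + ∑ k ∈ range n, σ ^ k • b := by
  induction l with
  | zero => simp
  | succ l ih =>
    rw [Nat.succ_add, Finset.sum_range_succ, ih, Finset.sum_range_succ,
      pow_add_card_smul_eq hχ hσ hb]
    abel

lemma partialNorm_add_mul (hχ : ∀ g h, χ (g * h) = χ g + χ h) (hσ : χ σ = 1) {b : A}
    (hb : ∀ g : G, χ g = 0 → g • b = b) (m c : ℕ) :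
    ∑ k ∈ range (m + n * c), σ ^ k • b =
      ∑ k ∈ range m, σ ^ k • b + c • ∑ k ∈ range n, σ ^ k • b := by
  induction c with
  | zero => simp
  | succ c ih =>
    rw [Nat.mul_succ, ← add_assoc, partialNorm_add_card hχ hσ hb, ih, succ_nsmul, add_assoc]

lemma partialNorm_mod_add_div (hχ : ∀ g h, χ (g * h) = χ g + χ h) (hσ : χ σ = 1) {b : A}
    (hb : ∀ g : G, χ g = 0 → g • b = b) (l : ℕ) :
    ∑ k ∈ range l, σ ^ k • b =
      ∑ k ∈ range (l % n), σ ^ k • b + (l / n) • ∑ k ∈ range n, σ ^ k • b := by
  have := partialNorm_add_mul hχ hσ hb (l % n) (l / n)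
  rwa [Nat.mod_add_div] at this

/-- `g • s j = s (χ̃ g + j) - s (χ̃ g)` for the partial norms `s`. -/
lemma smul_partialNorm (hχ : ∀ g h, χ (g * h) = χ g + χ h) (hσ : χ σ = 1) {b : A}
    (hb : ∀ g : G, χ g = 0 → g • b = b) (g : G) (j : ℕ) :
    g • (∑ k ∈ range j, σ ^ k • b) =
      ∑ k ∈ range ((χ g).val + j), σ ^ k • b - ∑ k ∈ range (χ g).val, σ ^ k • b := by
  rw [Finset.sum_range_add, add_sub_cancel_left, Finset.smul_sum]
  exact Finset.sum_congr rfl (fun k _ => smul_pow_smul_eq hχ hσ hb g k)

/-- The norm `∑_{k<n} σ^k • b` of an element fixed by `ker χ` is `G`-invariant. -/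
theorem smul_norm_eq_of_ker (hχ : ∀ g h, χ (g * h) = χ g + χ h) (hσ : χ σ = 1) {b : A}
    (hb : ∀ g : G, χ g = 0 → g • b = b) (g : G) :
    g • (∑ k ∈ range n, σ ^ k • b) = ∑ k ∈ range n, σ ^ k • b := by
  rw [smul_partialNorm hχ hσ hb, partialNorm_add_card hχ hσ hb, add_sub_cancel_left]

/-- **(A4) + inflation, cochain level.**  If `b` is fixed by `ker χ` and `χ σ = 1`, then
`cupChar n χ (∑_{k<n} σ^k • b)` is the coboundary of `g ↦ ∑_{k<χ̃ g} σ^k • b`. -/
theorem isCoboundary₂_cupChar_of_norm (hχ : ∀ g h, χ (g * h) = χ g + χ h) (hσ : χ σ = 1)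
    {b : A} (hb : ∀ g : G, χ g = 0 → g • b = b) :
    IsCoboundary₂ (_root_.Fermat.Agent.S55.G.Rec.H379.cupChar n χ (∑ k ∈ range n, σ ^ k • b)) := by
  refine ⟨fun g => ∑ k ∈ range (χ g).val, σ ^ k • b, fun g h => ?_⟩
  show g • (∑ k ∈ range (χ h).val, σ ^ k • b) - ∑ k ∈ range (χ (g * h)).val, σ ^ k • b +
      ∑ k ∈ range (χ g).val, σ ^ k • b = _root_.Fermat.Agent.S55.G.Rec.H379.carry n (χ g) (χ h) • ∑ k ∈ range n, σ ^ k • b
  rw [smul_partialNorm hχ hσ hb, hχ, ZMod.val_add,
    partialNorm_mod_add_div hχ hσ hb ((χ g).val + (χ h).val)]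
  show _ = (((χ g).val + (χ h).val) / n) • ∑ k ∈ range n, σ ^ k • b
  abel

end Norm

/-! ## Characters of a cyclic group with a chosen generator -/

section Generator

variable {G : Type*} [Group G] {n : ℕ} [NeZero n] {χ : G → ZMod n} {σ : G}

lemma exists_nat_pow_of_mem_zpowers [Finite G] (hgen : ∀ g : G, g ∈ Subgroup.zpowers σ)
    (g : G) : ∃ k : ℕ, σ ^ k = g := by
  have := (isOfFinOrder_of_finite σ).mem_powers_iff_mem_zpowers.2 (hgen g)
  exact (Submonoid.mem_powers_iff _ _).1 this

/-- An additive `χ : G → ZMod n` with `χ σ = 1` is injective as soon as `σ` generates `G` and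
`G` has order `n`. -/
theorem injective_of_generator [Finite G] (hχ : ∀ g h, χ (g * h) = χ g + χ h) (hσ : χ σ = 1)
    (hgen : ∀ g : G, g ∈ Subgroup.zpowers σ) (hcard : Nat.card G = n) :
    Function.Injective χ := by
  intro g h hgh
  obtain ⟨k, rfl⟩ := exists_nat_pow_of_mem_zpowers hgen g
  obtain ⟨l, rfl⟩ := exists_nat_pow_of_mem_zpowers hgen h
  rw [chi_pow hχ hσ, chi_pow hχ hσ, ZMod.natCast_eq_natCast_iff] at hgh
  rw [pow_eq_pow_iff_modEq, orderOf_eq_card_of_forall_mem_zpowers hgen, hcard]
  exact hgh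

/-- For a finite cyclic group `G` of order `n` with a chosen generator `σ` there is an additive,
injective `χ : G → ZMod n` with `χ σ = 1`. -/
theorem exists_character_of_generator [Finite G] (hgen : ∀ g : G, g ∈ Subgroup.zpowers σ)
    (hcard : Nat.card G = n) :
    ∃ χ : G → ZMod n, (∀ g h, χ (g * h) = χ g + χ h) ∧ Function.Injective χ ∧ χ σ = 1 := by
  classical
  have hord : orderOf σ = n := by rw [orderOf_eq_card_of_forall_mem_zpowers hgen, hcard]
  let e : G → ℕ := fun g => (exists_nat_pow_of_mem_zpowers hgen g).choose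
  have he : ∀ g, σ ^ e g = g := fun g => (exists_nat_pow_of_mem_zpowers hgen g).choose_spec
  have key : ∀ (g : G) (k : ℕ), σ ^ k = g → ((e g : ℕ) : ZMod n) = (k : ZMod n) := by
    intro g k hk
    rw [ZMod.natCast_eq_natCast_iff, ← hord, ← pow_eq_pow_iff_modEq, he, hk]
  have hadd : ∀ g h, ((e (g * h) : ℕ) : ZMod n) = (e g : ZMod n) + (e h : ZMod n) := by
    intro g h
    rw [key (g * h) (e g + e h) (by rw [pow_add, he, he]), Nat.cast_add]
  have hone : ((e σ : ℕ) : ZMod n) = 1 := by
    rw [key σ 1 (pow_one σ), Nat.cast_one]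
  exact ⟨fun g => (e g : ZMod n), hadd, injective_of_generator hadd hone hgen hcard, hone⟩

end Generator

end Fermat.Agent.S55.G.Rec.H379

end
-- ===== PACK-END S55/G/Rec/H379Core.lean

-- ===== PACK-BEGIN S55/H175/NormEq.lean
section


set_option autoImplicit false

/-!
# Two multiplicative real-valued functions with the same unit ball and the same value at a
  uniformiser agree
-/

namespace Fermat.Agent.S55.H175

/-- One-sided version. -/
theorem not_lt_of_le_one_iff {K : Type*} [Field K] (f g : K →*₀ ℝ)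
    (hf0 : ∀ x, 0 ≤ f x) (hg0 : ∀ x, 0 ≤ g x)
    (c : K) (hc : f c = g c) (hc0 : 0 < f c) (hc1 : f c < 1)
    (h : ∀ y, f y ≤ 1 ↔ g y ≤ 1) (x : K) : ¬ g x < f x := by
  intro hlt
  have hfx : 0 < f x := lt_of_le_of_lt (hg0 x) hlt
  have hx0 : x ≠ 0 := by
    rintro rfl
    simp at hfx
  have hgx : 0 < g x := by
    rcases (hg0 x).lt_or_eq with h1 | h1
    · exact h1
    · exfalso
      have : x = 0 := by
        by_contra hne
        have := (map_ne_zero g).mpr hne
        exact this h1.symm
      exact hx0 this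
  set u : ℝ := (f c)⁻¹ with hu
  have hu1 : 1 < u := by
    rw [hu]
    exact (one_lt_inv₀ hc0).mpr hc1
  have hρ : 1 < f x / g x := by
    rw [one_lt_div hgx]; exact hlt
  obtain ⟨b, hb⟩ := pow_unbounded_of_one_lt u hρ
  have hgb : 0 < g x ^ b := pow_pos hgx b
  obtain ⟨a, ha1, ha2⟩ := exists_mem_Ico_zpow hgb hu1
  -- the test element
  have hc_ne : c ≠ 0 := by
    rintro rfl
    simp at hc0
  have hfy : f (x ^ b * c ^ (a + 1)) = f x ^ b * (u ^ (a + 1))⁻¹ := by
    rw [map_mul, map_pow, map_zpow₀, hu, inv_zpow, inv_inv]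
  have hgy : g (x ^ b * c ^ (a + 1)) = g x ^ b * (u ^ (a + 1))⁻¹ := by
    rw [map_mul, map_pow, map_zpow₀, ← hc, hu, inv_zpow, inv_inv]
  have hupos : 0 < u ^ (a + 1) := zpow_pos (lt_trans one_pos hu1) _
  have hg1 : g (x ^ b * c ^ (a + 1)) ≤ 1 := by
    rw [hgy, ← div_eq_mul_inv, div_le_one hupos]
    exact ha2.le
  have hf1 : 1 < f (x ^ b * c ^ (a + 1)) := by
    rw [hfy, ← div_eq_mul_inv, one_lt_div hupos]
    have h1 : u ^ (a + 1) = u ^ a * u := by
      rw [zpow_add_one₀ (ne_of_gt (lt_trans one_pos hu1))]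
    rw [h1]
    have h2 : (f x / g x) ^ b = f x ^ b / g x ^ b := div_pow _ _ _
    have h3 : u < f x ^ b / g x ^ b := h2 ▸ hb
    have h4 : u * g x ^ b < f x ^ b := by
      rwa [lt_div_iff₀ hgb] at h3
    calc u ^ a * u ≤ g x ^ b * u := by
          apply mul_le_mul_of_nonneg_right ha1 (le_of_lt (lt_trans one_pos hu1))
      _ = u * g x ^ b := mul_comm _ _
      _ < f x ^ b := h4
  exact absurd ((h _).mpr hg1) (not_le.mpr hf1)

/-- Two multiplicative nonnegative real-valued functions on a field with the same unit ball and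
the same value `∈ (0,1)` at some element are equal. -/
theorem eq_of_le_one_iff {K : Type*} [Field K] (f g : K →*₀ ℝ)
    (hf0 : ∀ x, 0 ≤ f x) (hg0 : ∀ x, 0 ≤ g x)
    (c : K) (hc : f c = g c) (hc0 : 0 < f c) (hc1 : f c < 1)
    (h : ∀ y, f y ≤ 1 ↔ g y ≤ 1) (x : K) : f x = g x := by
  apply le_antisymm
  · exact not_lt.mp (not_lt_of_le_one_iff f g hf0 hg0 c hc hc0 hc1 h x)
  · exact not_lt.mp (not_lt_of_le_one_iff g f hg0 hf0 c hc.symm (hc ▸ hc0) (hc ▸ hc1)
      (fun y => (h y).symm) x)

end Fermat.Agent.S55.H175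

end
-- ===== PACK-END S55/H175/NormEq.lean

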