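import Mathlib
import Fermat.Prelude.Def_GaloisRep_DeformationRingData
import Fermat.Prelude.Def_GaloisRep_DeformationCondition
import Fermat.Prelude.Def_GaloisRep_LocalConditions
import Fermat.Prelude.Def_GaloisRep_StrictOrdinary
import Fermat.Prelude.Def_GaloisRep_Flat
import Fermat.Prelude.Def_GaloisRep_Residual
import Fermat.Prelude.Def_ExtEndgame_ProductionDatum
import Fermat.Prelude.Def_GroupCohomology_ContinuousUnramified
import Fermat.Agent.Pack.S43GC.G0E0L1

-- ===== PACK-BEGIN Ribet/H678/LinearType.lean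
section


/-!
# Ideals of linear type generated by a regular sequence (helper678)

Let `A` be a noetherian commutative ring and `x : Fin n → A` a regular sequence
(`x i` is a nonzerodivisor modulo `(x 0, …, x (i-1))`).  Then the kernel of the substitution
`A⟦X₀,…,X_{n-1}⟧ → A⟦t⟧`, `X i ↦ x i * t`, is the ideal generated by the Koszul relations
`x i * X j - x j * X i`.  In particular, if `A` is a domain, then
`A⟦X⟧ ⧸ (x i * X j - x j * X i)` is a domain (completed Rees algebra of the ideal `(x)`).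

This is the commutative-algebra core of the proof that the local lifting ring `R_χ`
(Taylor's Ihara avoidance, ramified principal series type at `q ≡ 1 mod p`) is a domain.
-/

set_option autoImplicit false

namespace Fermat.Agent.Ribet.H678

open MvPowerSeries

section Decomp

variable {σ : Type*} [Finite σ] {R : Type*} [CommRing R]

/-- A power series in finitely many variables with vanishing constant coefficient lies in the
ideal generated by the variables. -/
theorem mem_span_X_of_constantCoeff_eq_zero (f : MvPowerSeries σ R)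
    (hf : MvPowerSeries.constantCoeff f = 0) :
    f ∈ Ideal.span (Set.range (MvPowerSeries.X : σ → MvPowerSeries σ R)) := by
  classical
  let e := (MvPowerSeries.toAdicCompletionAlgEquiv σ R).toRingEquiv
  have hmap : Ideal.map e (Ideal.span (Set.range MvPowerSeries.X)) =
      (MvPolynomial.idealOfVars σ R).map (algebraMap _ _) := by
    simp_rw [Ideal.map_span, ← Set.range_comp]
    congr 2; ext1
    simp [e, AdicCompletion.algebraMap_apply, ← MvPolynomial.coe_X,
      MvPowerSeries.toAdicCompletion_coe]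
  have hef : e f ∈ Ideal.map e (Ideal.span (Set.range MvPowerSeries.X)) := by
    rw [hmap, ← AdicCompletion.ker_evalOneₐ_eq_map _ (MvPolynomial.idealOfVars_fg σ R)]
    rw [RingHom.mem_ker]
    change AdicCompletion.evalOneₐ _ (MvPowerSeries.toAdicCompletion σ R f) = 0
    have h0 : MvPowerSeries.truncTotal 1 f = 0 := by
      ext x
      rw [MvPowerSeries.coeff_truncTotal_eq_ite]
      split_ifs with h
      · have hx : x = 0 := by
          have : x.degree = 0 := by omega
          exact (Finsupp.degree_eq_zero_iff x).1 this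
        subst hx
        simpa using hf
      · simp
    have key : AdicCompletion.evalOneₐ _ (MvPowerSeries.toAdicCompletion σ R f) =
        Ideal.Quotient.factorₐ (MvPolynomial σ R) (by simp)
          (MvPowerSeries.truncTotalAlgHom σ R 1 f) := rfl
    rw [key, MvPowerSeries.truncTotalAlgHom_apply, h0]
    simp
  obtain ⟨x, hx, hxe⟩ := (Ideal.mem_map_of_equiv e _).1 hef
  rwa [e.injective hxe] at hx

end Decomp

section LinearType

variable {A : Type*} [CommRing A] {n : ℕ} (x : Fin n → A)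

/-- The family `i ↦ x i * t` of power series in one variable. -/
noncomputable def ltFamily : Fin n → PowerSeries A :=
  fun i => PowerSeries.C (x i) * PowerSeries.X

theorem constantCoeff_ltFamily (i : Fin n) : constantCoeff (ltFamily x i) = 0 := by
  change PowerSeries.constantCoeff (PowerSeries.C (x i) * PowerSeries.X) = 0
  simp

theorem hasSubst_ltFamily : HasSubst (ltFamily x) :=
  hasSubst_of_constantCoeff_zero (constantCoeff_ltFamily x)

/-- The substitution `X i ↦ x i * t`. -/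
noncomputable def ltPsi : MvPowerSeries (Fin n) A →ₐ[A] PowerSeries A :=
  substAlgHom (hasSubst_ltFamily x)

theorem ltPsi_X (i : Fin n) : ltPsi x (X i) = PowerSeries.C (x i) * PowerSeries.X := by
  rw [ltPsi, substAlgHom_X]; rfl

theorem ltPsi_C (a : A) : ltPsi x (C a) = PowerSeries.C a := by
  have h := (ltPsi x).commutes a
  rw [← c_eq_algebraMap] at h
  rw [h]; exact PowerSeries.C_eq_algebraMap.symm

theorem constantCoeff_ltPsi (F : MvPowerSeries (Fin n) A) :
    PowerSeries.constantCoeff (ltPsi x F) = constantCoeff F := by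
  have h : constantCoeff (F - C (constantCoeff F)) = 0 := by simp
  have h2 := constantCoeff_subst_eq_zero (hasSubst_ltFamily x) (constantCoeff_ltFamily x) h
  have h3 : subst (ltFamily x) (F - C (constantCoeff F)) =
      ltPsi x F - PowerSeries.C (constantCoeff F) := by
    rw [← ltPsi_C x, ← map_sub, ltPsi, substAlgHom_apply]
  rw [h3] at h2
  have h4 : PowerSeries.constantCoeff (ltPsi x F - PowerSeries.C (constantCoeff F)) = 0 := h2
  rw [map_sub, PowerSeries.constantCoeff_C, sub_eq_zero] at h4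
  exact h4

/-- The ideal generated by the Koszul relations `x i * X j - x j * X i`. -/
noncomputable def koszul : Ideal (MvPowerSeries (Fin n) A) :=
  Ideal.span (Set.range fun p : Fin n × Fin n => C (x p.1) * X p.2 - C (x p.2) * X p.1)

/-- The ideal `(x 0, …, x (j-1))` of `A`. -/
def ltA (j : ℕ) : Ideal A := Ideal.span (x '' {i | (i : ℕ) < j})

/-- The ideal `(X 0, …, X (j-1))` of `A⟦X⟧`. -/
noncomputable def ltX (A : Type*) [CommRing A] (n j : ℕ) : Ideal (MvPowerSeries (Fin n) A) :=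
  Ideal.span (X '' {i : Fin n | (i : ℕ) < j})

/-- The ideal `koszul + (x 0, …, x (j-1)) + (X 0, …, X (j-1))`. -/
noncomputable def ltL (j : ℕ) : Ideal (MvPowerSeries (Fin n) A) :=
  koszul x ⊔ (ltA x j).map C ⊔ ltX A n j

/-- Power series in one variable all of whose coefficients lie in a given ideal. -/
def coeffIdeal (𝔟 : Ideal A) : Ideal (PowerSeries A) where
  carrier := {g | ∀ d, PowerSeries.coeff d g ∈ 𝔟}
  add_mem' := fun {a b} ha hb d => by rw [map_add]; exact 𝔟.add_mem (ha d) (hb d)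
  zero_mem' := fun d => by simp
  smul_mem' := fun c g hg d => by
    rw [smul_eq_mul, PowerSeries.coeff_mul]
    exact Ideal.sum_mem _ (fun p _ => 𝔟.mul_mem_left _ (hg _))

theorem mem_coeffIdeal {𝔟 : Ideal A} {g : PowerSeries A} :
    g ∈ coeffIdeal 𝔟 ↔ ∀ d, PowerSeries.coeff d g ∈ 𝔟 := Iff.rfl

theorem ltA_mono {j k : ℕ} (h : j ≤ k) : ltA x j ≤ ltA x k :=
  Ideal.span_mono (Set.image_mono fun _ hi => lt_of_lt_of_le hi h)

theorem coeffIdeal_mono {𝔟 𝔠 : Ideal A} (h : 𝔟 ≤ 𝔠) : coeffIdeal 𝔟 ≤ coeffIdeal 𝔠 :=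
  fun _ hg d => h (hg d)

theorem mem_ltA {j : ℕ} {i : Fin n} (h : (i : ℕ) < j) : x i ∈ ltA x j :=
  Ideal.subset_span ⟨i, h, rfl⟩

theorem koszul_le_ker : koszul x ≤ RingHom.ker (ltPsi x) := by
  rw [koszul, Ideal.span_le]
  rintro _ ⟨p, rfl⟩
  rw [SetLike.mem_coe, RingHom.mem_ker, map_sub, map_mul, map_mul, ltPsi_X, ltPsi_X, ltPsi_C,
    ltPsi_C]
  ring

theorem ltL_le_comap (j : ℕ) : ltL x j ≤ (coeffIdeal (ltA x j)).comap (ltPsi x) := by
  refine sup_le (sup_le ?_ ?_) ?_
  · intro F hF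
    have := koszul_le_ker x hF
    rw [RingHom.mem_ker] at this
    rw [Ideal.mem_comap, this]
    exact Ideal.zero_mem _
  · rw [Ideal.map_le_iff_le_comap]
    intro a ha
    rw [Ideal.mem_comap, Ideal.mem_comap, ltPsi_C, mem_coeffIdeal]
    intro d
    rw [PowerSeries.coeff_C]
    split_ifs
    · exact ha
    · exact Ideal.zero_mem _
  · rw [ltX, Ideal.span_le]
    rintro _ ⟨i, hi, rfl⟩
    rw [SetLike.mem_coe, Ideal.mem_comap, ltPsi_X, mem_coeffIdeal]
    intro d
    rw [PowerSeries.coeff_C_mul]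
    exact Ideal.mul_mem_right _ _ (mem_ltA x hi)

theorem constantCoeff_mem_of_mem_ltL {j : ℕ} {F : MvPowerSeries (Fin n) A} (hF : F ∈ ltL x j) :
    constantCoeff F ∈ ltA x j := by
  have h := ltL_le_comap x j hF
  rw [Ideal.mem_comap, mem_coeffIdeal] at h
  have h0 := h 0
  rwa [PowerSeries.coeff_zero_eq_constantCoeff_apply, constantCoeff_ltPsi] at h0

theorem ltL_succ_le (j : ℕ) (hj : j < n) :
    ltL x (j + 1) ≤ ltL x j ⊔ Ideal.span {C (x ⟨j, hj⟩)} ⊔ Ideal.span {X ⟨j, hj⟩} := by
  refine sup_le (sup_le ?_ ?_) ?_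
  · exact le_sup_of_le_left (le_sup_of_le_left (le_sup_of_le_left (le_sup_of_le_left le_rfl)))
  · rw [Ideal.map_le_iff_le_comap, ltA, Ideal.span_le]
    rintro _ ⟨i, hi, rfl⟩
    rw [SetLike.mem_coe, Ideal.mem_comap]
    rcases Nat.lt_succ_iff_lt_or_eq.1 hi with h | h
    · refine Ideal.mem_sup_left (Ideal.mem_sup_left (Ideal.mem_sup_left (Ideal.mem_sup_right ?_)))
      exact Ideal.mem_map_of_mem _ (mem_ltA x h)
    · have : i = ⟨j, hj⟩ := Fin.ext h
      subst this
      exact Ideal.mem_sup_left (Ideal.mem_sup_right (Ideal.subset_span rfl))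
  · rw [ltX, Ideal.span_le]
    rintro _ ⟨i, hi, rfl⟩
    rw [SetLike.mem_coe]
    rcases Nat.lt_succ_iff_lt_or_eq.1 hi with h | h
    · refine Ideal.mem_sup_left (Ideal.mem_sup_left (Ideal.mem_sup_right ?_))
      exact Ideal.subset_span ⟨i, h, rfl⟩
    · have : i = ⟨j, hj⟩ := Fin.ext h
      subst this
      exact Ideal.mem_sup_right (Ideal.subset_span rfl)


theorem X_mem_jacobson_bot (i : Fin n) :
    Ideal.span {(X i : MvPowerSeries (Fin n) A)} ≤ (⊥ : Ideal (MvPowerSeries (Fin n) A)).jacobson := by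
  rw [Ideal.span_le, Set.singleton_subset_iff, SetLike.mem_coe, Ideal.mem_jacobson_bot]
  intro y
  rw [isUnit_iff_constantCoeff]
  simp

/-- Krull intersection: an element which lies in `I + (X i ^ m)` for all `m` lies in `I`. -/
theorem mem_of_forall_mem_sup_span_X_pow [IsNoetherianRing A] (I : Ideal (MvPowerSeries (Fin n) A))
    (i : Fin n) (F : MvPowerSeries (Fin n) A)
    (h : ∀ m : ℕ, F ∈ I ⊔ Ideal.span {(X i : MvPowerSeries (Fin n) A) ^ m}) : F ∈ I := by
  have hK := Ideal.iInf_pow_smul_eq_bot_of_le_jacobson (M := MvPowerSeries (Fin n) A ⧸ I)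
    (Ideal.span {(X i : MvPowerSeries (Fin n) A)}) (X_mem_jacobson_bot i)
  have hmem : (Ideal.Quotient.mk I F) ∈
      (⨅ m : ℕ, (Ideal.span {(X i : MvPowerSeries (Fin n) A)}) ^ m •
        (⊤ : Submodule (MvPowerSeries (Fin n) A) (MvPowerSeries (Fin n) A ⧸ I))) := by
    rw [Submodule.mem_iInf]
    intro m
    obtain ⟨a, ha, b, hb, rfl⟩ := Submodule.mem_sup.1 (h m)
    rw [map_add, Ideal.Quotient.eq_zero_iff_mem.2 ha, zero_add]
    have hb' : b ∈ (Ideal.span {(X i : MvPowerSeries (Fin n) A)}) ^ m := by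
      rwa [Ideal.span_singleton_pow]
    have : Ideal.Quotient.mk I b = b • (Ideal.Quotient.mk I 1) := by
      have h1 := Submodule.Quotient.mk_smul I b (1 : MvPowerSeries (Fin n) A)
      rw [smul_eq_mul, mul_one] at h1
      exact h1
    rw [this]
    exact Submodule.smul_mem_smul hb' Submodule.mem_top
  rw [hK, Submodule.mem_bot] at hmem
  exact Ideal.Quotient.eq_zero_iff_mem.1 hmem

/-- The regularity hypothesis: `x i` is a nonzerodivisor modulo `(x 0, …, x (i-1))`. -/
def IsRegSeq : Prop := ∀ i : Fin n, ∀ a : A, x i * a ∈ ltA x i → a ∈ ltA x i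

theorem ltStep (hreg : IsRegSeq x) (j : ℕ) (hj : j < n)
    (ih : ∀ F, ltPsi x F ∈ coeffIdeal (ltA x (j + 1)) → F ∈ ltL x (j + 1))
    (F : MvPowerSeries (Fin n) A) (hF : ltPsi x F ∈ coeffIdeal (ltA x j)) :
    ∃ F', ltPsi x F' ∈ coeffIdeal (ltA x j) ∧ F - X ⟨j, hj⟩ * F' ∈ ltL x j := by
  classical
  have hF1 : ltPsi x F ∈ coeffIdeal (ltA x (j + 1)) :=
    coeffIdeal_mono (ltA_mono x (Nat.le_succ j)) hF
  have hmem := ltL_succ_le x j hj (ih F hF1)
  obtain ⟨u, hu, E', hE', hFeq⟩ := Submodule.mem_sup.1 hmem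
  obtain ⟨l, hl, H', hH', hueq⟩ := Submodule.mem_sup.1 hu
  obtain ⟨H, hH⟩ := Ideal.mem_span_singleton'.1 hH'
  obtain ⟨E, hE⟩ := Ideal.mem_span_singleton'.1 hE'
  have hH0 : constantCoeff (H - C (constantCoeff H)) = 0 := by simp
  obtain ⟨c, hc⟩ := Ideal.mem_span_range_iff_exists_fun.1
    (mem_span_X_of_constantCoeff_eq_zero _ hH0)
  set i₀ : Fin n := ⟨j, hj⟩ with hi₀
  set F' := E + ∑ i, c i * C (x i) with hF'
  -- the key identity
  have hT : F - X i₀ * F' = l + C (constantCoeff H * x i₀) +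
      ∑ i, c i * (C (x i₀) * X i - C (x i) * X i₀) := by
    have hHdec : H = C (constantCoeff H) + ∑ i, c i * X i := by rw [hc]; ring
    rw [← hFeq, ← hueq, ← hH, ← hE, hF', map_mul]
    conv_lhs => rw [hHdec]
    simp only [mul_sub, Finset.sum_sub_distrib, mul_add, add_mul, Finset.mul_sum, Finset.sum_mul]
    have e1 : ∀ i, c i * X i * C (x i₀) = c i * (C (x i₀) * X i) := fun i => by ring
    have e2 : ∀ i, X i₀ * (c i * C (x i)) = c i * (C (x i) * X i₀) := fun i => by ring
    simp only [e1, e2]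
    ring
  -- constant coefficient
  have hc0 : constantCoeff H * x i₀ ∈ ltA x j := by
    have h1 : constantCoeff F ∈ ltA x j := by
      have := hF 0
      rwa [PowerSeries.coeff_zero_eq_constantCoeff_apply, constantCoeff_ltPsi] at this
    have h2 : constantCoeff l ∈ ltA x j := constantCoeff_mem_of_mem_ltL x hl
    have h3 : constantCoeff F = constantCoeff l + constantCoeff H * x i₀ := by
      rw [← hFeq, ← hueq, ← hH, ← hE]
      simp
    rw [h3] at h1
    exact (Ideal.add_mem_iff_right _ h2).1 h1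
  have hTmem : F - X i₀ * F' ∈ ltL x j := by
    rw [hT]
    refine Ideal.add_mem _ (Ideal.add_mem _ hl ?_) ?_
    · exact Ideal.mem_sup_left (Ideal.mem_sup_right (Ideal.mem_map_of_mem _ hc0))
    · refine Ideal.sum_mem _ (fun i _ => Ideal.mul_mem_left _ _ ?_)
      exact Ideal.mem_sup_left (Ideal.mem_sup_left (Ideal.subset_span ⟨(i₀, i), rfl⟩))
  refine ⟨F', ?_, hTmem⟩
  have h5 : ltPsi x (X i₀ * F') ∈ coeffIdeal (ltA x j) := by
    have : X i₀ * F' = F - (F - X i₀ * F') := by ring
    rw [this, map_sub]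
    exact Ideal.sub_mem _ hF (ltL_le_comap x j hTmem)
  rw [map_mul, ltPsi_X] at h5
  intro d
  have h6 := h5 (d + 1)
  rw [mul_assoc, PowerSeries.coeff_C_mul, PowerSeries.coeff_succ_X_mul] at h6
  exact hreg i₀ _ h6

theorem ltIter (hreg : IsRegSeq x) (j : ℕ) (hj : j < n)
    (ih : ∀ F, ltPsi x F ∈ coeffIdeal (ltA x (j + 1)) → F ∈ ltL x (j + 1)) :
    ∀ (m : ℕ) (F : MvPowerSeries (Fin n) A), ltPsi x F ∈ coeffIdeal (ltA x j) →
      F ∈ ltL x j ⊔ Ideal.span {(X ⟨j, hj⟩ : MvPowerSeries (Fin n) A) ^ m} := by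
  intro m
  induction m with
  | zero =>
    intro F _
    rw [pow_zero, Ideal.span_singleton_one, sup_top_eq]
    exact Submodule.mem_top
  | succ m ihm =>
    intro F hF
    obtain ⟨F', hF', hmem⟩ := ltStep x hreg j hj ih F hF
    obtain ⟨l', hl', g', hg', hsum⟩ := Submodule.mem_sup.1 (ihm F' hF')
    obtain ⟨g, hg⟩ := Ideal.mem_span_singleton'.1 hg'
    have : F = ((F - X ⟨j, hj⟩ * F') + X ⟨j, hj⟩ * l') + g * X ⟨j, hj⟩ ^ (m + 1) := by
      rw [← hsum, ← hg]; ring
    rw [this]
    refine Ideal.add_mem _ (Ideal.mem_sup_left (Ideal.add_mem _ hmem (Ideal.mul_mem_left _ _ hl')))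
      (Ideal.mem_sup_right (Ideal.mul_mem_left _ _ (Ideal.subset_span rfl)))

theorem ltMain [IsNoetherianRing A] (hreg : IsRegSeq x) :
    ∀ (k j : ℕ), j + k = n → ∀ F, ltPsi x F ∈ coeffIdeal (ltA x j) → F ∈ ltL x j := by
  intro k
  induction k with
  | zero =>
    intro j hj F hF
    have hjn : j = n := by omega
    subst hjn
    have h0 : constantCoeff (F - C (constantCoeff F)) = 0 := by simp
    have h1 := mem_span_X_of_constantCoeff_eq_zero _ h0
    have h2 : constantCoeff F ∈ ltA x j := by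
      have := hF 0
      rwa [PowerSeries.coeff_zero_eq_constantCoeff_apply, constantCoeff_ltPsi] at this
    have h3 : F = C (constantCoeff F) + (F - C (constantCoeff F)) := by ring
    rw [h3]
    refine Ideal.add_mem _ (Ideal.mem_sup_left (Ideal.mem_sup_right (Ideal.mem_map_of_mem _ h2)))
      (Ideal.mem_sup_right ?_)
    have hle : Ideal.span (Set.range (X : Fin j → MvPowerSeries (Fin j) A)) ≤ ltX A j j := by
      rw [Ideal.span_le]
      rintro _ ⟨i, rfl⟩
      exact Ideal.subset_span ⟨i, i.2, rfl⟩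
    exact hle h1
  | succ k ihk =>
    intro j hj F hF
    have hjn : j < n := by omega
    have ih : ∀ F, ltPsi x F ∈ coeffIdeal (ltA x (j + 1)) → F ∈ ltL x (j + 1) :=
      ihk (j + 1) (by omega)
    exact mem_of_forall_mem_sup_span_X_pow _ ⟨j, hjn⟩ F
      (fun m => ltIter x hreg j hjn ih m F hF)

/-- **Linear type.**  For a regular sequence `x` in a noetherian ring, the kernel of
`X i ↦ x i * t` is generated by the Koszul relations. -/
theorem ker_ltPsi [IsNoetherianRing A] (hreg : IsRegSeq x) :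
    RingHom.ker (ltPsi x) = koszul x := by
  apply le_antisymm
  · intro F hF
    rw [RingHom.mem_ker] at hF
    have h1 : ltPsi x F ∈ coeffIdeal (ltA x 0) := by rw [hF]; exact Ideal.zero_mem _
    have h2 := ltMain x hreg n 0 (by omega) F h1
    have hA : ltA x 0 = ⊥ := by simp [ltA]
    have hX : ltX A n 0 = ⊥ := by simp [ltX]
    rwa [ltL, hA, hX, Ideal.map_bot, sup_bot_eq, sup_bot_eq] at h2
  · exact koszul_le_ker x

/-- If `A` is a noetherian domain and `x` a regular sequence, the Koszul ideal is prime. -/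
theorem koszul_isPrime [IsNoetherianRing A] [IsDomain A] (hreg : IsRegSeq x) :
    (koszul x).IsPrime := by
  rw [← ker_ltPsi x hreg]
  exact RingHom.ker_isPrime _

end LinearType

end Fermat.Agent.Ribet.H678

end
-- ===== PACK-END Ribet/H678/LinearType.lean

-- ===== PACK-BEGIN S56/Defs.lean
section








/-!
# Row S56 (Taylor–Wiles primes) — FROZEN definitions (row-lead helper956)

Everything here is sorry-free.  Pieces import THIS file and prove the `Prop`s of
`Fermat/Agent/S56/Spec.lean` verbatim.  Plan: `coord/S56.md` on `origin/helper956`.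

Conventions.  `k` is the residue field, `ρbar : ResidualGaloisRep k`, `V = ρbar.V`.
Cocycles are plain functions `c : G_ℚ → End_k V`:

* `Z1tw ρbar p`  — twisted trace-zero cocycles = `Z¹(G_ℚ, ad⁰ρ̄(1))`:
  `tr c(σ) = 0`,  `c(στ) = c(σ) + ε(σ) · ρ̄(σ) c(τ) ρ̄(σ)⁻¹`,  `c` factors through a finite level.
  The mod-`p` cyclotomic character is encoded by `IsCycExp p σ a` (`σ μ = μ ^ a` on `μ_p`).
* `B1tw ρbar p`  — the coboundaries `σ ↦ ε(σ) ρ̄(σ) m ρ̄(σ)⁻¹ − m`, `tr m = 0`.
* `LocTrivAt ρbar p q c` — `c` restricted to SOME decomposition group over `q` is a coboundary.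
* `IsTWPrime ρbar p S q` — `q ∉ S` prime, `q ≡ 1 mod p`, every Frobenius over `q` has distinct
  eigenvalues in `k`.
* `ordCond`, `flatCond` — the two deformation conditions of the frozen statement, as functions of
  the auxiliary set `Q`.
-/

set_option autoImplicit false

open Polynomial IsLocalRing

noncomputable section

namespace Fermat.Agent.S56

/-- `ℚ̄`. -/
abbrev Qb : Type := AlgebraicClosure ℚ

/-- `Gal(ℚ̄/ℚ)`. -/
abbrev GQ : Type := AlgebraicClosure ℚ ≃ₐ[ℚ] AlgebraicClosure ℚ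

/-- `a` is an exponent of the action of `σ` on the `p`-th roots of unity. -/
def IsCycExp (p : ℕ) (σ : GQ) (a : ℕ) : Prop :=
  ∀ μ : Qb, μ ^ p = 1 → σ μ = μ ^ a

section Cocycles

variable {k : Type} [Field k] (ρbar : ResidualGaloisRep k) (p : ℕ)

/-- The twisted adjoint action `m ↦ a · ρ̄(σ) m ρ̄(σ)⁻¹` (with `a` a cyclotomic exponent of `σ`). -/
def twAd (σ : GQ) (a : ℕ) (m : Module.End k ρbar.V) : Module.End k ρbar.V :=
  (a : k) • (ρbar.ρ σ * m * ρbar.ρ σ⁻¹)

/-- `c` is a twisted cocycle with values in trace-zero endomorphisms, of finite level. -/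
structure IsTwCocycle (c : GQ → Module.End k ρbar.V) : Prop where
  trace_eq_zero : ∀ σ, LinearMap.trace k ρbar.V (c σ) = 0
  map_mul : ∀ σ τ a, IsCycExp p σ a → c (σ * τ) = c σ + twAd ρbar σ a (c τ)
  level : ∃ L : IntermediateField ℚ Qb, FiniteDimensional ℚ L ∧
    ∀ σ τ : GQ, (∀ x ∈ L, τ x = x) → c (σ * τ) = c σ

/-- `c` is the twisted coboundary of the trace-zero endomorphism `m` on the subgroup `H`. -/
def IsTwCoboundaryOn (H : Subgroup GQ) (c : GQ → Module.End k ρbar.V)
    (m : Module.End k ρbar.V) : Prop :=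
  LinearMap.trace k ρbar.V m = 0 ∧ ∀ σ ∈ H, ∀ a, IsCycExp p σ a → c σ = twAd ρbar σ a m - m

/-- `c` is locally trivial at `q`: on some decomposition group over `q` it is a coboundary. -/
def LocTrivAt (q : ℕ) (c : GQ → Module.End k ρbar.V) : Prop :=
  ∃ P : ValuationSubring Qb, P.LiesOverPrime q ∧
    ∃ m, IsTwCoboundaryOn ρbar p (P.decompositionSubgroup ℚ) c m

/-- `c` is a (global) twisted coboundary. -/
def IsTwCoboundary (c : GQ → Module.End k ρbar.V) : Prop :=
  ∃ m, IsTwCoboundaryOn ρbar p ⊤ c m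

/-- Taylor–Wiles primes (relative to `S`): `q ∉ S`, `q ≡ 1 mod p`, and every Frobenius element
over `q` has distinct eigenvalues in `k`. -/
def IsTWPrime (S : Finset ℕ) (q : ℕ) : Prop :=
  q.Prime ∧ q ∉ S ∧ p ∣ q - 1 ∧
    ∀ P : ValuationSubring Qb, P.LiesOverPrime q → ∀ φ : GQ, P.IsFrobeniusAt φ q →
      ∃ α β : k, α ≠ β ∧ LinearMap.charpoly (ρbar.ρ φ) = (X - C α) * (X - C β)

/-- A *dual Selmer frame*: a finite-dimensional `k`-space `D` of twisted cocycles which contains
no nonzero coboundary. -/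
structure IsDualFrame (D : Submodule k (GQ → Module.End k ρbar.V)) : Prop where
  isTwCocycle : ∀ c ∈ D, IsTwCocycle ρbar p c
  finite : Module.Finite k D
  inj : ∀ c ∈ D, IsTwCoboundary ρbar p c → c = 0

/-- The set `Q` kills the frame `D`: no nonzero `c ∈ D` is locally trivial at all `q ∈ Q`. -/
def Kills (D : Submodule k (GQ → Module.End k ρbar.V)) (Q : Finset ℕ) : Prop :=
  ∀ c ∈ D, (∀ q ∈ Q, LocTrivAt ρbar p q c) → c = 0

end Cocycles

section Conditions

/-- The type of deformation conditions. -/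
abbrev DefCond (𝒪 : Type) [CommRing 𝒪] : Type 1 :=
  ∀ ⦃A : Type⦄ [CommRing A] [IsLocalRing A] [Algebra 𝒪 A], GaloisRepAdic A → Prop

/-- The strict-ordinary condition of the frozen statement, with auxiliary set `Q`. -/
def ordCond (𝒪 : Type) [CommRing 𝒪] (p : ℕ) (Smin Q : Finset ℕ) : DefCond 𝒪 :=
  fun _A _ _ _ ρ =>
    GaloisRep.strictOrdinaryCondition 𝒪 p (Smin ∪ Q) ρ ∧
      ∀ q ∈ Smin, q.Prime → q ≠ p → ρ.IsUnipotentOnInertiaAt q

/-- The flat condition of the frozen statement, with auxiliary set `Q`. -/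
def flatCond (𝒪 : Type) [CommRing 𝒪] (p : ℕ) (Smin Q : Finset ℕ) : DefCond 𝒪 :=
  fun _A _ _ _ ρ =>
    GaloisRep.flatCondition 𝒪 p (Smin ∪ Q) ρ ∧
      ∀ q ∈ Smin, q.Prime → q ≠ p → ρ.IsUnipotentOnInertiaAt q

variable (𝒪 : Type) [CommRing 𝒪] [IsLocalRing 𝒪]

/-- The `𝒪`-algebra structure on the dual numbers `k[ε]` over the residue field (the one of the
Prelude's `TangentFinite` and of `Fermat.Agent.S53.dualAlgebra`). -/
@[reducible] noncomputable def tanAlgebra : Algebra 𝒪 (DualNumber (ResidueField 𝒪)) :=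
  ((algebraMap (ResidueField 𝒪) (DualNumber (ResidueField 𝒪))).comp
    (algebraMap 𝒪 (ResidueField 𝒪))).toAlgebra

/-- The tangent vectors of an `𝒪`-algebra `R`: `𝒪`-algebra homomorphisms `R → k[ε]`. -/
abbrev TanHom (R : Type) [CommRing R] [Algebra 𝒪 R] : Type :=
  @AlgHom 𝒪 R (DualNumber (ResidueField 𝒪)) _ _ _ _ (tanAlgebra 𝒪)

end Conditions

end Fermat.Agent.S56

end

end
-- ===== PACK-END S56/Defs.lean

-- ===== PACK-BEGIN S55/Bridge/Krasner.lean
section




/-!
# S55 bridge, part B5: Krasner — the local Galois group and its global levels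

* `exists_global_generator`: every `x ∈ ℚ̄_q` lies in `ℚ_q(ι b)` for some `b ∈ ℚ̄`
  (`ι = padicEmbedding q`).
* `localGaloisToGlobal_injective`: restriction `Gal(ℚ̄_q/ℚ_q) → Gal(ℚ̄/ℚ)` is injective.
* `exists_global_level_of_local`: every finite subextension `E/ℚ_q` of `ℚ̄_q` is "covered" by a
  finite global level `F/ℚ`: `localGaloisToGlobal q τ ∈ G_F → τ ∈ G_E`.
-/

set_option autoImplicit false

namespace Fermat.Agent.S55.Bridge

open Polynomial IntermediateField

variable (q : ℕ) [Fact q.Prime]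

/-- Elements of `ℚ̄_q` algebraic over `ℚ` are in the image of `padicEmbedding q`. -/
theorem mem_range_padicEmbedding_of_root (g : Polynomial ℚ) (hg : g ≠ 0) (b : PadicAlgCl q)
    (hb : Polynomial.aeval b g = 0) : ∃ b' : AlgebraicClosure ℚ, padicEmbedding q b' = b := by
  have hsplit : (g.map (algebraMap ℚ (AlgebraicClosure ℚ))).Splits := IsAlgClosed.splits _
  have hmap : (g.map (algebraMap ℚ (AlgebraicClosure ℚ))).map
      ((padicEmbedding q : AlgebraicClosure ℚ →ₐ[ℚ] PadicAlgCl q) : AlgebraicClosure ℚ →+* PadicAlgCl q)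
      = g.map (algebraMap ℚ (PadicAlgCl q)) := by
    rw [Polynomial.map_map]
    congr 1
    exact (padicEmbedding q).comp_algebraMap
  have hroot : b ∈ (g.map (algebraMap ℚ (PadicAlgCl q))).roots := by
    rw [Polynomial.mem_roots (Polynomial.map_ne_zero hg), Polynomial.IsRoot.def,
      Polynomial.eval_map_algebraMap]
    exact hb
  rw [← hmap, hsplit.roots_map, Multiset.mem_map] at hroot
  obtain ⟨b', -, hb'⟩ := hroot
  exact ⟨b', hb'⟩

/-- `ι(ℚ̄)` is dense in `ℚ̄_q`: every element is approximated by elements of `ι(ℚ̄)`. -/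
theorem exists_global_near (x : PadicAlgCl q) {δ : ℝ} (δpos : 0 < δ) :
    ∃ b : AlgebraicClosure ℚ, ‖x - padicEmbedding q b‖ < δ := by
  have hxint : IsIntegral ℚ_[q] x := Algebra.IsIntegral.isIntegral x
  set f : Polynomial ℚ_[q] := minpoly ℚ_[q] x with hf
  have fmon : f.Monic := minpoly.monic hxint
  have fa0 : Polynomial.aeval x f = 0 := minpoly.aeval _ _
  have fnatdeg0 : f.natDegree ≠ 0 := (minpoly.natDegree_pos hxint).ne'
  have hε : (δ / (max ‖x‖ 1)) ^ f.natDegree / (f.natDegree + 1) > 0 := by positivity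
  have hd : DenseRange (algebraMap ℚ ℚ_[q]) := by
    have h := Padic.denseRange_ratCast q
    have heq : (algebraMap ℚ ℚ_[q] : ℚ → ℚ_[q]) = ((↑) : ℚ → ℚ_[q]) := by
      funext r
      exact eq_ratCast _ r
    rw [heq]
    exact h
  obtain ⟨g, gmon, gdeg, gcoeff⟩ :=
    exists_monic_and_natDegree_eq_and_norm_map_algebraMap_coeff_sub_lt hd fmon hε
  obtain ⟨b, hb, hab⟩ := exists_aroots_norm_sub_lt_of_norm_coeff_sub_lt
      hε fa0 fmon (gmon.map _) (gdeg ▸ (g.natDegree_map _)) gcoeff (IsAlgClosed.splits _)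
  have hab : ‖x - b‖ < δ := by
    rw [← Real.rpow_natCast, ← mul_comm_div, div_self, one_mul,
        ← Real.rpow_mul (div_pos δpos (by positivity)).le, mul_inv_cancel₀] at hab
    · simpa [mul_assoc, div_mul_cancel₀ _ (by positivity : (max ‖x‖ 1) > 0).ne'] using hab
    · simp [fnatdeg0]
    · positivity
  have hgb : Polynomial.aeval b g = 0 := by
    rw [Polynomial.mem_aroots] at hb
    have h2 := hb.2
    rwa [Polynomial.aeval_map_algebraMap] at h2
  obtain ⟨b', hb'⟩ := mem_range_padicEmbedding_of_root q g gmon.ne_zero b hgb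
  exact ⟨b', by rw [hb']; exact hab⟩

/-- **Krasner.** Every element of `ℚ̄_q` lies in `ℚ_q(ι b)` for some `b ∈ ℚ̄`. -/
theorem exists_global_generator (x : PadicAlgCl q) :
    ∃ b : AlgebraicClosure ℚ, x ∈ IntermediateField.adjoin ℚ_[q] {padicEmbedding q b} := by
  classical
  have hxint : IsIntegral ℚ_[q] x := Algebra.IsIntegral.isIntegral x
  set f : Polynomial ℚ_[q] := minpoly ℚ_[q] x with hf
  have firr : Irreducible f := minpoly.irreducible hxint
  let T : Finset (PadicAlgCl q) := {y ∈ (f.rootSet (PadicAlgCl q)).toFinset | y ≠ x}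
  let δ : ℝ := if hT : T.Nonempty then Finset.min' (T.image fun y => ‖x - y‖)
      (Finset.image_nonempty.mpr hT) else 1
  have norm_sub_le : ∀ a' : PadicAlgCl q, IsConjRoot ℚ_[q] x a' → x ≠ a' → δ ≤ ‖x - a'‖ := by
    intro a' conj ne
    by_cases hT : T.Nonempty <;> simp only [hT, ↓reduceDIte, δ]
    · apply Finset.min'_le (T.image fun y => ‖x - y‖) (‖x - a'‖)
      apply Finset.mem_image_of_mem
      simp only [Finset.mem_filter, Set.mem_toFinset, T]
      rw [hf, ← (isConjRoot_iff_mem_minpoly_rootSet hxint)]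
      exact ⟨conj, ne.symm⟩
    · simp only [ne_eq, Finset.not_nonempty_iff_eq_empty, Finset.filter_eq_empty_iff,
        Set.mem_toFinset, not_not, T] at hT
      rw [isConjRoot_iff_mem_minpoly_rootSet hxint] at conj
      exact (ne (hT conj).symm).elim
  have δpos : δ > 0 := by
    by_cases hT : T.Nonempty <;> simp only [hT, ↓reduceDIte, δ]
    · simp only [gt_iff_lt, Finset.lt_min'_iff, Finset.mem_image, forall_exists_index, and_imp,
        forall_apply_eq_imp_iff₂]
      rintro a' ha'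
      simp only [Finset.mem_filter, Set.mem_toFinset, T] at ha'
      rw [norm_pos_iff, sub_ne_zero]
      exact ha'.2.symm
    · linarith
  obtain ⟨b', hab⟩ := exists_global_near q x δpos
  refine ⟨b', ?_⟩
  have hbint : IsIntegral ℚ_[q] (padicEmbedding q b') := Algebra.IsIntegral.isIntegral _
  exact IsKrasner.krasner (K := ℚ_[q]) (L := PadicAlgCl q) firr.separable
    (IsAlgClosed.splits _) hbint
    (fun a' h1 h2 => lt_of_lt_of_le hab (norm_sub_le a' h1 h2))

/-- If `τ` restricts to an element fixing `b ∈ ℚ̄`, then `τ` fixes `ℚ_q(ι b)` pointwise. -/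
theorem fixes_adjoin_of_fixes (τ : PadicAlgCl q ≃ₐ[ℚ_[q]] PadicAlgCl q) (b : AlgebraicClosure ℚ)
    (hb : localGaloisToGlobal q τ b = b) (x : PadicAlgCl q)
    (hx : x ∈ IntermediateField.adjoin ℚ_[q] {padicEmbedding q b}) : τ x = x := by
  have hτb : τ (padicEmbedding q b) = padicEmbedding q b := by
    rw [← padicEmbedding_localGaloisToGlobal, hb]
  have hle : IntermediateField.adjoin ℚ_[q] {padicEmbedding q b}
      ≤ IntermediateField.fixedField (Subgroup.zpowers τ) := by
    rw [IntermediateField.adjoin_le_iff]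
    rintro y hy
    rw [Set.mem_singleton_iff] at hy
    subst hy
    rintro ⟨σ, hσ⟩
    obtain ⟨n, rfl⟩ := Subgroup.mem_zpowers_iff.1 hσ
    show (τ ^ n) (padicEmbedding q b) = padicEmbedding q b
    have hfix : τ ∈ MulAction.stabilizer (PadicAlgCl q ≃ₐ[ℚ_[q]] PadicAlgCl q)
        (padicEmbedding q b) := hτb
    exact (Subgroup.zpow_mem _ hfix n : _)
  exact hle hx ⟨τ, Subgroup.mem_zpowers τ⟩

/-- **Restriction `Gal(ℚ̄_q/ℚ_q) → Gal(ℚ̄/ℚ)` is injective.** -/
theorem localGaloisToGlobal_injective : Function.Injective (localGaloisToGlobal q) := by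
  rw [injective_iff_map_eq_one]
  intro τ hτ
  apply AlgEquiv.ext
  intro x
  obtain ⟨b, hb⟩ := exists_global_generator q x
  have := fixes_adjoin_of_fixes q τ b (by rw [hτ]; rfl) x hb
  simpa using this

/-- Every finite subextension `E/ℚ_q` of `ℚ̄_q` is covered by a finite global level. -/
theorem exists_global_level_of_local (E : IntermediateField ℚ_[q] (PadicAlgCl q))
    [FiniteDimensional ℚ_[q] E] :
    ∃ F : IntermediateField ℚ (AlgebraicClosure ℚ), FiniteDimensional ℚ F ∧
      ∀ τ : PadicAlgCl q ≃ₐ[ℚ_[q]] PadicAlgCl q,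
        localGaloisToGlobal q τ ∈ F.fixingSubgroup → τ ∈ E.fixingSubgroup := by
  obtain ⟨α, hα⟩ := Field.exists_primitive_element ℚ_[q] E
  obtain ⟨b, hb⟩ := exists_global_generator q (α : PadicAlgCl q)
  haveI : Algebra.IsAlgebraic ℚ (AlgebraicClosure ℚ) := AlgebraicClosure.isAlgebraic ℚ
  refine ⟨IntermediateField.adjoin ℚ {b},
    IntermediateField.adjoin.finiteDimensional (Algebra.IsIntegral.isIntegral b), ?_⟩
  intro τ hτ
  have hτb : localGaloisToGlobal q τ b = b :=
    (IntermediateField.mem_fixingSubgroup_iff _ _).1 hτ b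
      (IntermediateField.subset_adjoin ℚ _ (Set.mem_singleton b))
  have hτα : τ (α : PadicAlgCl q) = α := fixes_adjoin_of_fixes q τ b hτb _ hb
  rw [IntermediateField.mem_fixingSubgroup_iff]
  intro y hy
  -- `y ∈ E = ℚ_q(α)`
  have hy' : (⟨y, hy⟩ : E) ∈ IntermediateField.adjoin ℚ_[q] {α} := by rw [hα]; trivial
  have hle : IntermediateField.adjoin ℚ_[q] {(α : PadicAlgCl q)}
      ≤ IntermediateField.fixedField (Subgroup.zpowers τ) := by
    rw [IntermediateField.adjoin_le_iff]
    rintro z hz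
    rw [Set.mem_singleton_iff] at hz
    subst hz
    rintro ⟨σ, hσ⟩
    obtain ⟨n, rfl⟩ := Subgroup.mem_zpowers_iff.1 hσ
    show (τ ^ n) (α : PadicAlgCl q) = α
    have hfix : τ ∈ MulAction.stabilizer (PadicAlgCl q ≃ₐ[ℚ_[q]] PadicAlgCl q)
        (α : PadicAlgCl q) := hτα
    exact (Subgroup.zpow_mem _ hfix n : _)
  have hyα : y ∈ IntermediateField.adjoin ℚ_[q] {(α : PadicAlgCl q)} := by
    have h1 : IntermediateField.lift (IntermediateField.adjoin ℚ_[q] {α})
        = IntermediateField.adjoin ℚ_[q] {(α : PadicAlgCl q)} := by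
      rw [IntermediateField.lift_adjoin, Set.image_singleton]
    rw [← h1]
    exact (IntermediateField.mem_lift (⟨y, hy⟩ : E)).2 hy'
  exact hle hyα ⟨τ, Subgroup.mem_zpowers τ⟩

/-- Conversely every finite global level is covered by a finite local extension. -/
theorem exists_local_level_of_global (F : IntermediateField ℚ (AlgebraicClosure ℚ))
    [FiniteDimensional ℚ F] :
    ∃ E : IntermediateField ℚ_[q] (PadicAlgCl q), FiniteDimensional ℚ_[q] E ∧
      ∀ τ : PadicAlgCl q ≃ₐ[ℚ_[q]] PadicAlgCl q,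
        τ ∈ E.fixingSubgroup → localGaloisToGlobal q τ ∈ F.fixingSubgroup := by
  obtain ⟨β, hβ⟩ := Field.exists_primitive_element ℚ F
  refine ⟨IntermediateField.adjoin ℚ_[q] {padicEmbedding q (β : AlgebraicClosure ℚ)},
    IntermediateField.adjoin.finiteDimensional (Algebra.IsIntegral.isIntegral _), ?_⟩
  intro τ hτ
  have hτβ : τ (padicEmbedding q (β : AlgebraicClosure ℚ)) = padicEmbedding q β :=
    (IntermediateField.mem_fixingSubgroup_iff _ _).1 hτ _
      (IntermediateField.subset_adjoin ℚ_[q] _ (Set.mem_singleton _))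
  have hgβ : localGaloisToGlobal q τ (β : AlgebraicClosure ℚ) = β := by
    have hinj : Function.Injective (padicEmbedding q) := (padicEmbedding q).injective
    apply hinj
    rw [padicEmbedding_localGaloisToGlobal, hτβ]
  rw [IntermediateField.mem_fixingSubgroup_iff]
  intro y hy
  have hy' : (⟨y, hy⟩ : F) ∈ IntermediateField.adjoin ℚ {β} := by rw [hβ]; trivial
  have hle : IntermediateField.adjoin ℚ {(β : AlgebraicClosure ℚ)}
      ≤ IntermediateField.fixedField (Subgroup.zpowers (localGaloisToGlobal q τ)) := by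
    rw [IntermediateField.adjoin_le_iff]
    rintro z hz
    rw [Set.mem_singleton_iff] at hz
    subst hz
    rintro ⟨σ, hσ⟩
    obtain ⟨n, rfl⟩ := Subgroup.mem_zpowers_iff.1 hσ
    show ((localGaloisToGlobal q τ) ^ n) (β : AlgebraicClosure ℚ) = β
    have hfix : localGaloisToGlobal q τ ∈ MulAction.stabilizer
        (AlgebraicClosure ℚ ≃ₐ[ℚ] AlgebraicClosure ℚ) (β : AlgebraicClosure ℚ) := hgβ
    exact (Subgroup.zpow_mem _ hfix n : _)
  have hyβ : y ∈ IntermediateField.adjoin ℚ {(β : AlgebraicClosure ℚ)} := by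
    have h1 : IntermediateField.lift (IntermediateField.adjoin ℚ {β})
        = IntermediateField.adjoin ℚ {(β : AlgebraicClosure ℚ)} := by
      rw [IntermediateField.lift_adjoin, Set.image_singleton]
    rw [← h1]
    exact (IntermediateField.mem_lift (⟨y, hy⟩ : F)).2 hy'
  exact hle hyβ ⟨localGaloisToGlobal q τ, Subgroup.mem_zpowers _⟩

section LevelConstant

open groupCohomology

/-- Prelude level-constancy on the local Galois group (levels pulled back from finite global
extensions) is the same as level-constancy for finite extensions of `ℚ_q`. -/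
theorem isLevelConstant₁_local_iff {X : Type*}
    (f : (PadicAlgCl q ≃ₐ[ℚ_[q]] PadicAlgCl q) → X) :
    IsLevelConstant₁ (localGaloisToGlobal q) f ↔
      ∃ E : IntermediateField ℚ_[q] (PadicAlgCl q), FiniteDimensional ℚ_[q] E ∧
        ∀ g s : PadicAlgCl q ≃ₐ[ℚ_[q]] PadicAlgCl q, s ∈ E.fixingSubgroup → f (g * s) = f g := by
  constructor
  · rintro ⟨F, hF, h⟩
    haveI := hF
    obtain ⟨E, hE, hEF⟩ := exists_local_level_of_global q F
    exact ⟨E, hE, fun g s hs => h g s (hEF s hs)⟩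
  · rintro ⟨E, hE, h⟩
    haveI := hE
    obtain ⟨F, hF, hFE⟩ := exists_global_level_of_local q E
    exact ⟨F, hF, fun g s hs => h g s (hFE s hs)⟩

/-- Same for 2-cochains. -/
theorem isLevelConstant₂_local_iff {X : Type*}
    (f : (PadicAlgCl q ≃ₐ[ℚ_[q]] PadicAlgCl q) × (PadicAlgCl q ≃ₐ[ℚ_[q]] PadicAlgCl q) → X) :
    IsLevelConstant₂ (localGaloisToGlobal q) f ↔
      ∃ E : IntermediateField ℚ_[q] (PadicAlgCl q), FiniteDimensional ℚ_[q] E ∧
        ∀ g g' s s' : PadicAlgCl q ≃ₐ[ℚ_[q]] PadicAlgCl q, s ∈ E.fixingSubgroup →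
          s' ∈ E.fixingSubgroup → f (g * s, g' * s') = f (g, g') := by
  constructor
  · rintro ⟨F, hF, h⟩
    haveI := hF
    obtain ⟨E, hE, hEF⟩ := exists_local_level_of_global q F
    exact ⟨E, hE, fun g g' s s' hs hs' => h g g' s s' (hEF s hs) (hEF s' hs')⟩
  · rintro ⟨E, hE, h⟩
    haveI := hE
    obtain ⟨F, hF, hFE⟩ := exists_global_level_of_local q E
    exact ⟨F, hF, fun g g' s s' hs hs' => h g g' s s' (hFE s hs) (hFE s' hs')⟩

end LevelConstant

/-- `primeLocalToGlobal` is injective. -/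
theorem primeLocalToGlobal_injective (q : Nat.Primes) :
    Function.Injective (ExtCitation.primeLocalToGlobal q) := by
  letI : Fact (q : ℕ).Prime := ⟨q.2⟩
  exact localGaloisToGlobal_injective (q : ℕ)

end Fermat.Agent.S55.Bridge

end
-- ===== PACK-END S55/Bridge/Krasner.lean

-- ===== PACK-BEGIN S55/L/Spec.lean
section


/-!
# S55, layer L (local class field theory): frozen interface, part 1

Setting: *algebraic* local fields.  A field `K` of characteristic zero is a local field
(`IsLocalFld K`) if it is the fraction field of a complete discrete valuation ring with finite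
residue field, given as a `ValuationSubring K`.  The `q`-adic numbers and the finite extensions of
`ℚ_q` inside `PadicAlgCl q` are instances (leaf `L-INST`).

Galois modules: `Lˣ` as `Rep ℤ Gal(L/K)` is Mathlib's `Rep.ofAlgebraAutOnUnits K L`.

Every `XxxSpec : Prop` below is an interface statement: producers prove `theorem xxx : XxxSpec`,
consumers take `(h : XxxSpec)` as a hypothesis.  No `sorry` in this file.
-/

set_option autoImplicit false

namespace Fermat.Agent.S55.L

open groupCohomology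

/-! ### Local fields -/

/-- The valuation subring `A` of `K` is a complete discrete valuation ring with finite residue
field. -/
def IsLocalRingOfIntegers {K : Type} [Field K] (A : ValuationSubring K) : Prop :=
  IsDiscreteValuationRing A ∧ IsAdicComplete (IsLocalRing.maximalIdeal A) A ∧
    Finite (IsLocalRing.ResidueField A)

/-- An algebraic (characteristic zero, non-archimedean) local field. -/
class IsLocalFld (K : Type) [Field K] : Prop where
  charZero : CharZero K
  exists_ringOfIntegers : ∃ A : ValuationSubring K, IsLocalRingOfIntegers A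

/-- **L-A0** The ring of integers of a local field is unique. -/
def RingOfIntegersUniqueSpec : Prop :=
  ∀ (K : Type) [Field K] [IsLocalFld K] (A A' : ValuationSubring K),
    IsLocalRingOfIntegers A → IsLocalRingOfIntegers A' → A = A'

/-- **L-A1** A finite extension of a local field is a local field. -/
def FiniteExtSpec : Prop :=
  ∀ (K L : Type) [Field K] [Field L] [Algebra K L] [FiniteDimensional K L] [IsLocalFld K],
    IsLocalFld L

/-! ### The class module `(Gal(L/K), Lˣ)` -/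

/-- The multiplicative group of `L` as a `Gal(L/K)`-module. -/
noncomputable abbrev unitsRep (K L : Type) [Field K] [Field L] [Algebra K L] :
    Rep ℤ (L ≃ₐ[K] L) :=
  Rep.ofAlgebraAutOnUnits K L

/-- **L-C1** `H²(Gal(L/K), Lˣ)` is cyclic of order `[L : K]`. -/
def H2CyclicSpec : Prop :=
  ∀ (K L : Type) [Field K] [Field L] [Algebra K L] [FiniteDimensional K L] [IsGalois K L]
    [IsLocalFld K],
    Nonempty (H2 (unitsRep K L) ≃+ ZMod (Module.finrank K L))

/-- **L-C1a** upper bound `|H²(Gal(L/K), Lˣ)| ≤ [L : K]` (Sylow + `p`-group induction from the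
cyclic case). -/
def H2CardLeSpec : Prop :=
  ∀ (K L : Type) [Field K] [Field L] [Algebra K L] [FiniteDimensional K L] [IsGalois K L]
    [IsLocalFld K],
    Finite (H2 (unitsRep K L)) ∧ Nat.card (H2 (unitsRep K L)) ≤ Module.finrank K L

/-- **L-B2** cyclic case: `|H²(Gal(L/K), Lˣ)| = [L : K]` for cyclic `L/K`
(Herbrand quotient of the units is `1`, Hilbert 90). -/
def H2CardCyclicSpec : Prop :=
  ∀ (K L : Type) [Field K] [Field L] [Algebra K L] [FiniteDimensional K L] [IsGalois K L]
    [IsLocalFld K] [IsCyclic (L ≃ₐ[K] L)],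
    Finite (H2 (unitsRep K L)) ∧ Nat.card (H2 (unitsRep K L)) = Module.finrank K L

/-- **L-B2'** norm index for cyclic extensions: `[Kˣ : N Lˣ] = [L : K]`. -/
def NormIndexCyclicSpec : Prop :=
  ∀ (K L : Type) [Field K] [Field L] [Algebra K L] [FiniteDimensional K L] [IsGalois K L]
    [IsLocalFld K] [IsCyclic (L ≃ₐ[K] L)],
    (MonoidHom.range (Units.map (Algebra.norm K : L →* K))).index = Module.finrank K L

end Fermat.Agent.S55.L

end
-- ===== PACK-END S55/L/Spec.lean

-- ===== PACK-BEGIN S55/T/Spec.lean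
section


/-!
# S55, layer T (finite-group cohomology toolkit): frozen interface (Spec pattern)

Architect: helper53.  Everything in this file is a *definition* or a `def XxxSpec : Prop`.
Producers prove `theorem xxx : XxxSpec`; consumers take `(h : XxxSpec)` as a hypothesis.

Conventions.
* `G : Type` is a finite group, `k : Type` a commutative ring, `A : Rep.{0} k G`.
  Every statement is GENERIC in `k` (this avoids the `Module ℤ` instance diamond: inside a
  generic statement the only `Module k A.V` instance is `A.hV2`).  Consumers use `k := ℤ`.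
* `Hⁿ(G, A) = groupCohomology A n : ModuleCat k` (Mathlib).
* restriction to `H ≤ G`: `resSub A H = Rep.res H.subtype A`, `resMap A H n : Hⁿ(G,A) ⟶ Hⁿ(H,A)`.
* inflation from `G ⧸ S`: `infMap A S n : Hⁿ(G ⧸ S, A^S) ⟶ Hⁿ(G,A)` (formula of Mathlib `H1InfRes`).
* Tate cohomology: Mathlib `tateCohomology A n` (`n : ℤ`); it needs `[Fintype G]`, which is
  universally quantified in the specs (so any instance may be plugged in).
-/

set_option autoImplicit false

open CategoryTheory groupCohomology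

namespace Fermat.Agent.S55.T

/-! ## 0. Vocabulary -/

section Vocabulary

variable {k G : Type} [CommRing k] [Group G]

/-- `A` restricted to a subgroup `H ≤ G`. -/
noncomputable abbrev resSub (A : Rep.{0} k G) (H : Subgroup G) : Rep.{0} k H :=
  Rep.res H.subtype A

/-- The restriction map `Hⁿ(G, A) ⟶ Hⁿ(H, A)`. -/
noncomputable abbrev resMap (A : Rep.{0} k G) (H : Subgroup G) (n : ℕ) :
    groupCohomology A n ⟶ groupCohomology (resSub A H) n :=
  groupCohomology.map H.subtype (𝟙 (resSub A H)) n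

/-- The inflation map `Hⁿ(G ⧸ S, A^S) ⟶ Hⁿ(G, A)` (same formula as Mathlib's `H1InfRes`). -/
noncomputable abbrev infMap (A : Rep.{0} k G) (S : Subgroup G) [S.Normal] (n : ℕ) :
    groupCohomology (A.quotientToInvariants S) n ⟶ groupCohomology A n :=
  groupCohomology.map (QuotientGroup.mk' S) (Rep.ofHom <| A.ρ.quotientToInvariants_lift S) n

/-- The map induced on `Hⁿ(G, -)` by a morphism of representations. -/
noncomputable abbrev coeffMap {A B : Rep.{0} k G} (f : A ⟶ B) (n : ℕ) :
    groupCohomology A n ⟶ groupCohomology B n :=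
  groupCohomology.map (MonoidHom.id G) f n

/-- `Ĥ⁰`-index: the index of `N_G A` in `A^G` (`0` if infinite). -/
noncomputable def hat0Card [Fintype G] (A : Rep.{0} k G) : ℕ :=
  (LinearMap.range A.ρ.norm).toAddSubgroup.relIndex A.ρ.invariants.toAddSubgroup

/-- `Ĥ⁻¹`-index: the index of `I_G A = ∑_g (g - 1) A` in `ker N_G` (`0` if infinite). -/
noncomputable def hatNeg1Card [Fintype G] (A : Rep.{0} k G) : ℕ :=
  (⨆ g : G, LinearMap.range (A.ρ g - 1)).toAddSubgroup.relIndex
    (LinearMap.ker A.ρ.norm).toAddSubgroup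

/-- `Ĥ⁰(G, A) = A^G / N_G A` as a `k`-module (elementary form). -/
abbrev hat0 [Fintype G] (A : Rep.{0} k G) : Type :=
  ↥A.ρ.invariants ⧸ (LinearMap.range A.ρ.norm).comap A.ρ.invariants.subtype

/-- The norm `N_G ψ = ∑_g g ∘ ψ ∘ g⁻¹` of an additive map `ψ : A → B` (as a function). -/
noncomputable def normAdd [Fintype G] {A B : Rep.{0} k G} (ψ : A.V →+ B.V) (a : A.V) : B.V :=
  ∑ g : G, B.ρ g (ψ (A.ρ g⁻¹ a))

/-- `A` is cohomologically trivial: all Tate cohomology groups of all subgroups vanish. -/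
def IsCohTriv [Finite G] (A : Rep.{0} k G) : Prop :=
  ∀ (H : Subgroup G) [Fintype H] (n : ℤ), Limits.IsZero (tateCohomology (resSub A H) n)

/-- `(C, γ)` is a *class module*: for every subgroup `H ≤ G`, `H¹(H, C) = 0`, and `H²(H, C)` is
generated by `res_H γ` with annihilator exactly `|H| • k`
(for `k = ℤ`: `H²(H, C)` is cyclic of order `|H|`, generated by `res_H γ`). -/
def IsClassModule [Finite G] (C : Rep.{0} k G) (γ : groupCohomology C 2) : Prop :=
  ∀ H : Subgroup G,
    Limits.IsZero (groupCohomology (resSub C H) 1) ∧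
    (∀ x : groupCohomology (resSub C H) 2, ∃ c : k, x = c • (resMap C H 2).hom γ) ∧
    (∀ c : k, c • (resMap C H 2).hom γ = 0 → ∃ d : k, c = (Nat.card H : k) * d) ∧
    ((Nat.card H : k) • (resMap C H 2).hom γ = 0)

/-- `Hⁿ(G, A)` is finite and its cardinality divides `m`. -/
def CardDvd (M : ModuleCat.{0} k) (m : ℕ) : Prop :=
  Finite M ∧ Nat.card M ∣ m

end Vocabulary

/-! ## T1. Restriction / corestriction -/

/-- **T1a.**  If `res_H x = 0` then `[G : H] • x = 0`  (all degrees `n ≥ 1`). -/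
def ResIndexSpec : Prop :=
  ∀ (k G : Type) [CommRing k] [Group G] [Finite G] (A : Rep.{0} k G) (H : Subgroup G) (n : ℕ),
    0 < n → ∀ x : groupCohomology A n, (resMap A H n).hom x = 0 → H.index • x = 0

/-- **T1b.**  `|G|` kills `Hⁿ(G, A)` for `n ≥ 1`. -/
def CardTorsionSpec : Prop :=
  ∀ (k G : Type) [CommRing k] [Group G] [Finite G] (A : Rep.{0} k G) (n : ℕ),
    0 < n → ∀ x : groupCohomology A n, Nat.card G • x = 0

/-- **T1c.**  Corestriction: a family `cor_A : Hⁿ(H, A) ⟶ Hⁿ(G, A)`, natural in `A`, with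
`cor ∘ res = [G : H]`. -/
def CoresSpec : Prop :=
  ∀ (k G : Type) [CommRing k] [Group G] [Finite G] (H : Subgroup G) (n : ℕ),
    ∃ cor : ∀ A : Rep.{0} k G, groupCohomology (resSub A H) n ⟶ groupCohomology A n,
      (∀ (A : Rep.{0} k G) (x : groupCohomology A n),
        (cor A).hom ((resMap A H n).hom x) = H.index • x) ∧
      (∀ (A B : Rep.{0} k G) (f : A ⟶ B) (y : groupCohomology (resSub A H) n),
        (cor B).hom ((coeffMap ((Rep.resFunctor H.subtype).map f) n).hom y) =
          (coeffMap f n).hom ((cor A).hom y))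

/-! ## T2. Cyclic groups: Herbrand quotient in cohomological form -/

/-- **T2a.**  For a finite cyclic group, `|H²(G, A)| = [A^G : N_G A]` and
`|H¹(G, A)| = [ker N_G : I_G A]` (both sides `0` when infinite). -/
def CyclicCardSpec : Prop :=
  ∀ (k G : Type) [CommRing k] [Group G] [Fintype G] [IsCyclic G] (A : Rep.{0} k G),
    Nat.card (groupCohomology A 2) = hat0Card A ∧
    Nat.card (groupCohomology A 1) = hatNeg1Card A

/-- **T2b.**  Herbrand quotient: for a short exact sequence `0 → A → B → C → 0` of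
representations of a finite cyclic group, if two of the three have finite `H¹` and `H²`, so has
the third, and `|H²(B)| · |H¹(A)| · |H¹(C)| = |H¹(B)| · |H²(A)| · |H²(C)|`. -/
def HerbrandSpec : Prop :=
  ∀ (k G : Type) [CommRing k] [Group G] [Finite G] [IsCyclic G]
    (S : ShortComplex (Rep.{0} k G)), S.ShortExact →
    let fin : Rep.{0} k G → Prop :=
      fun A => Finite (groupCohomology A 1) ∧ Finite (groupCohomology A 2)
    (fin S.X₁ → fin S.X₃ → fin S.X₂) ∧ (fin S.X₁ → fin S.X₂ → fin S.X₃) ∧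
    (fin S.X₂ → fin S.X₃ → fin S.X₁) ∧
    (fin S.X₁ → fin S.X₂ → fin S.X₃ →
      Nat.card (groupCohomology S.X₂ 2) * Nat.card (groupCohomology S.X₁ 1) *
          Nat.card (groupCohomology S.X₃ 1) =
        Nat.card (groupCohomology S.X₂ 1) * Nat.card (groupCohomology S.X₁ 2) *
          Nat.card (groupCohomology S.X₃ 2))

/-- **T2c.**  A finite module over a finite cyclic group has Herbrand quotient `1`. -/
def HerbrandFiniteSpec : Prop :=
  ∀ (k G : Type) [CommRing k] [Group G] [Finite G] [IsCyclic G] (A : Rep.{0} k G),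
    Finite A.V →
    Finite (groupCohomology A 1) ∧ Finite (groupCohomology A 2) ∧
      Nat.card (groupCohomology A 1) = Nat.card (groupCohomology A 2)

/-! ## T3. Inflation–restriction in degree 2 -/

/-- **T3.**  If `S ⊴ G` and `H¹(S, A) = 0`, then
`0 → H²(G ⧸ S, A^S) → H²(G, A) → H²(S, A)` is exact. -/
def InfRes2Spec : Prop :=
  ∀ (k G : Type) [CommRing k] [Group G] [Finite G] (A : Rep.{0} k G) (S : Subgroup G) [S.Normal],
    Limits.IsZero (groupCohomology (resSub A S) 1) →
    Function.Injective (infMap A S 2).hom ∧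
    (∀ y, (resMap A S 2).hom ((infMap A S 2).hom y) = 0) ∧
    (∀ x, (resMap A S 2).hom x = 0 → ∃ y, (infMap A S 2).hom y = x)

/-! ## T3'. The "ugly lemma" (order of `H²` from the cyclic prime case) -/

/-- **T3'.**  Let `H¹(H, A) = 0` for all `H ≤ G`.  If for all `K ⊴ H ≤ G` with `[H : K]` prime
`|H²(H ⧸ K, A^K)|` divides `[H : K]`, then `|H²(H, A)|` divides `|H|` for all `H ≤ G`. -/
def UglySpec : Prop :=
  ∀ (k G : Type) [CommRing k] [Group G] [Finite G] (A : Rep.{0} k G),
    (∀ H : Subgroup G, Limits.IsZero (groupCohomology (resSub A H) 1)) →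
    (∀ (H : Subgroup G) (K : Subgroup H) [K.Normal], (Nat.card (H ⧸ K)).Prime →
      CardDvd (groupCohomology ((resSub A H).quotientToInvariants K) 2) (Nat.card (H ⧸ K))) →
    ∀ H : Subgroup G, CardDvd (groupCohomology (resSub A H) 2) (Nat.card H)

/-! ## T4. Cohomological triviality -/

/-- **T4a.**  Twin vanishing: `H¹(H, A) = H²(H, A) = 0` for all `H ≤ G` implies that `A` is
cohomologically trivial. -/
def TwinVanishingSpec : Prop :=
  ∀ (k G : Type) [CommRing k] [Group G] [Finite G] (A : Rep.{0} k G),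
    (∀ H : Subgroup G, Limits.IsZero (groupCohomology (resSub A H) 1) ∧
      Limits.IsZero (groupCohomology (resSub A H) 2)) →
    IsCohTriv A

/-- **T4b.**  Coinduced-from-trivial modules are cohomologically trivial. -/
def CoindCohTrivSpec : Prop :=
  ∀ (k G : Type) [CommRing k] [Group G] [Finite G] (B : Rep.{0} k (⊥ : Subgroup G)),
    IsCohTriv (Rep.coind (⊥ : Subgroup G).subtype B)

/-! ## T5. Tate's theorem -/

/-- **T5a.**  Tate's theorem (generic `k`, assuming `H¹(H, k) = 0` for all `H ≤ G`, which holds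
for `k = ℤ`): for a class module `(C, γ)` there are isomorphisms `Ĥⁿ(H, k) ≅ Ĥⁿ⁺²(H, C)` for all
`n : ℤ` and all `H ≤ G`. -/
def TateSpec : Prop :=
  ∀ (k G : Type) [CommRing k] [Group G] [Finite G] (C : Rep.{0} k G) (γ : groupCohomology C 2),
    (∀ H : Subgroup G, Limits.IsZero (groupCohomology (Rep.trivial k H k) 1)) →
    IsClassModule C γ →
    ∀ (H : Subgroup G) [Fintype H] (n : ℤ),
      Nonempty (tateCohomology (Rep.trivial k H k) n ≅ tateCohomology (resSub C H) (n + 2))

/-- **T5a'.**  `H¹(G, ℤ) = 0` for a finite group `G`. -/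
def H1TrivIntSpec : Prop :=
  ∀ (G : Type) [Group G] [Finite G], Limits.IsZero (groupCohomology (Rep.trivial ℤ G ℤ) 1)

/-- **T5b.**  `H³` of a class module over `ℤ` vanishes. -/
def TateH3Spec : Prop :=
  ∀ (G : Type) [Group G] [Finite G] (C : Rep.{0} ℤ G) (γ : groupCohomology C 2),
    IsClassModule C γ → ∀ H : Subgroup G, Limits.IsZero (groupCohomology (resSub C H) 3)

/-- **T5c.**  Abstract reciprocity isomorphism of a class module over `ℤ`:
`H^ab ≃ C^H / N_H C` (as groups). -/
def TateReciprocitySpec : Prop :=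
  ∀ (G : Type) [Group G] [Finite G] (C : Rep.{0} ℤ G) (γ : groupCohomology C 2),
    IsClassModule C γ → ∀ (H : Subgroup G) [Fintype H],
      Nonempty (Additive (Abelianization H) ≃+ hat0 (resSub C H))

/-! ## T6. Tate–Nakayama for lattices (TENTATIVE: shape to be confirmed by the D-architect) -/

/-- **T6.**  Let `(C, γ)` be a class module over `ℤ` and `R` a `G`-lattice (f.g. free over `ℤ`).
Then `Hom_G(R, C) → Hom(H²(G, R), H²(G, C))`, `f ↦ f_*`, is surjective with kernel
`N_G Hom_ℤ(R, C)`; i.e. `Ĥ⁰(G, Hom(R, C)) ≅ Hom(H²(G, R), H²(G, C))`. -/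
def TateNakayamaSpec : Prop :=
  ∀ (G : Type) [Group G] [Fintype G] (C : Rep.{0} ℤ G) (γ : groupCohomology C 2),
    IsClassModule C γ →
    ∀ (R : Rep.{0} ℤ G), @Module.Free ℤ R.V _ _ R.hV2 → @Module.Finite ℤ R.V _ _ R.hV2 →
      (∀ φ : groupCohomology R 2 →+ groupCohomology C 2,
        ∃ f : R ⟶ C, ∀ x, (coeffMap f 2).hom x = φ x) ∧
      (∀ f : R ⟶ C, (∀ x, (coeffMap f 2).hom x = 0) ↔
        ∃ ψ : R.V →+ C.V, ∀ r, f.hom r = normAdd ψ r)

end Fermat.Agent.S55.T

end
-- ===== PACK-END S55/T/Spec.lean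

-- ===== PACK-BEGIN S55/KL/H496/TrGalois.lean
section


/-!
# S55 / layer KL, leaf KL-TR (helper496), part 1: the compositum `E·E'` over `E`

`Ω/K` Galois, `E` any intermediate field, `E'/K` finite Galois.  Then `M = E ⊔ E'`, viewed as an
intermediate field of `Ω/E`, is finite Galois over `E`.
-/

set_option autoImplicit false

noncomputable section

namespace Fermat.Agent.S55.KL.H496

open IntermediateField Polynomial

variable {K Ω : Type} [Field K] [Field Ω] [Algebra K Ω]

/-- The compositum `E ⊔ E'` as an intermediate field of `Ω/E` (same as `KL.compositumOver`). -/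
abbrev comp496 (E E' : IntermediateField K Ω) : IntermediateField ↥E Ω :=
  IntermediateField.extendScalars (le_sup_left : E ≤ E ⊔ E')

theorem exists_splitting_comp496 (E E' : IntermediateField K Ω) [FiniteDimensional K E']
    [IsGalois K E'] :
    ∃ T : (↥E)[X], T.Separable ∧ T.IsSplittingField ↥E ↥(comp496 E E') := by
  obtain ⟨T, hT₁, hT₂⟩ := IsGalois.is_separable_splitting_field K E'
  refine ⟨T.map (algebraMap K E), hT₁.map, ?_⟩
  rw [IntermediateField.isSplittingField_iff] at hT₂ ⊢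
  have hroot : (T.map (algebraMap K E)).rootSet Ω = T.rootSet Ω := by
    ext x
    simp [Polynomial.mem_rootSet', Polynomial.map_map, ← IsScalarTower.algebraMap_eq]
  constructor
  · rw [Polynomial.map_map, ← IsScalarTower.algebraMap_eq]
    have hle : E' ≤ E ⊔ E' := le_sup_right
    exact Polynomial.Splits.of_algHom hT₂.1 (IntermediateField.inclusion hle)
  · apply restrictScalars_injective K
    rw [restrictScalars_adjoin, adjoin_union, adjoin_self, hroot, ← hT₂.2]
    rfl

theorem isGalois_comp496 (E E' : IntermediateField K Ω) [FiniteDimensional K E']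
    [IsGalois K E'] : IsGalois ↥E ↥(comp496 E E') := by
  obtain ⟨T, hT₁, hT₂⟩ := exists_splitting_comp496 E E'
  exact IsGalois.of_separable_splitting_field hT₁

theorem finiteDimensional_comp496 (E E' : IntermediateField K Ω) [FiniteDimensional K E']
    [IsGalois K E'] : FiniteDimensional ↥E ↥(comp496 E E') := by
  obtain ⟨T, hT₁, hT₂⟩ := exists_splitting_comp496 E E'
  exact Polynomial.IsSplittingField.finiteDimensional _ T

end Fermat.Agent.S55.KL.H496

end
end
-- ===== PACK-END S55/KL/H496/TrGalois.lean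

-- ===== PACK-BEGIN S55/Herbrand/Index.lean
section


/-!
# Herbrand quotient, abstract form (index calculus inside one group)

`B` is an additive commutative group with two endomorphisms `f g` such that `f ∘ g = 0` and
`g ∘ f = 0`.  We write `hIndex f g = [ker f : im g]` (a natural number, `0` if infinite).
For a subgroup `A ≤ B` stable under `f` and `g` we express the three numbers attached to
`A`, `B` and `B ⧸ A` as indices of subgroups of `B` and prove the exact-hexagon identity
purely by index calculus.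
-/

set_option autoImplicit false

namespace Fermat.Agent.S55.Herbrand

open AddSubgroup

variable {B : Type*} [AddCommGroup B]

/-- `[ker f : im g]` as a natural number (`0` when infinite). -/
noncomputable def hIndex (f g : B →+ B) : ℕ := g.range.relIndex f.ker

section Internal

variable (f g : B →+ B) (A : AddSubgroup B)

/-- internal version of `hIndex` for the restriction of `f, g` to `A`. -/
noncomputable def hIndexSub : ℕ := (A.map g).relIndex (A ⊓ f.ker)

/-- internal version of `hIndex` for the maps induced by `f, g` on `B ⧸ A`. -/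
noncomputable def hIndexQuot : ℕ := (g.range ⊔ A).relIndex (A.comap f)

/-- auxiliary index `[A ∩ im f : f A]` -/
noncomputable def auxAlpha : ℕ := (A.map f).relIndex (A ⊓ f.range)

/-- auxiliary index `[A ∩ ker f : A ∩ im g]` -/
noncomputable def auxBeta : ℕ := (A ⊓ g.range).relIndex (A ⊓ f.ker)

/-- auxiliary index `[ker f : (A ∩ ker f) + im g]` -/
noncomputable def auxGamma : ℕ := ((A ⊓ f.ker) ⊔ g.range).relIndex f.ker

variable {f g A}

lemma range_le_ker (hfg : ∀ b, f (g b) = 0) : g.range ≤ f.ker := by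
  rintro _ ⟨b, rfl⟩
  exact hfg b

lemma map_le_inf_range (hgA : ∀ a ∈ A, g a ∈ A) : A.map g ≤ A ⊓ g.range := by
  rintro _ ⟨a, ha, rfl⟩
  exact ⟨hgA a ha, ⟨a, rfl⟩⟩

lemma hIndexSub_eq (hfg : ∀ b, f (g b) = 0) (hgA : ∀ a ∈ A, g a ∈ A) :
    hIndexSub f g A = (A.map g).relIndex (A ⊓ g.range) * auxBeta f g A := by
  unfold hIndexSub auxBeta
  rw [relIndex_mul_relIndex _ _ _ (map_le_inf_range hgA)
    (inf_le_inf_left A (range_le_ker hfg))]

lemma hIndex_eq (hfg : ∀ b, f (g b) = 0) :
    hIndex f g = auxBeta f g A * auxGamma f g A := by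
  unfold hIndex auxBeta auxGamma
  have h1 : g.range ≤ (A ⊓ f.ker) ⊔ g.range := le_sup_right
  have h2 : (A ⊓ f.ker) ⊔ g.range ≤ f.ker := sup_le inf_le_right (range_le_ker hfg)
  rw [← relIndex_mul_relIndex _ _ _ h1 h2]
  congr 1
  rw [relIndex_sup_right, ← inf_relIndex_right]
  congr 1
  apply le_antisymm
  · exact le_inf (inf_le_right.trans inf_le_left) inf_le_left
  · exact le_inf inf_le_right (inf_le_inf_left A (range_le_ker hfg))

lemma sup_inf_ker_eq (hfg : ∀ b, f (g b) = 0) :
    (g.range ⊔ A) ⊓ f.ker = (A ⊓ f.ker) ⊔ g.range := by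
  apply le_antisymm
  · rintro x ⟨hx, hxk⟩
    obtain ⟨y, hy, z, hz, rfl⟩ := AddSubgroup.mem_sup.1 hx
    refine AddSubgroup.mem_sup.2 ⟨z, ⟨hz, ?_⟩, y, hy, add_comm _ _⟩
    have hyk : y ∈ f.ker := range_le_ker hfg hy
    have : z = (y + z) - y := by abel
    rw [this]
    exact f.ker.sub_mem hxk hyk
  · refine sup_le ?_ ?_
    · exact le_inf (inf_le_left.trans le_sup_right) inf_le_right
    · exact le_inf le_sup_left (range_le_ker hfg)

lemma hIndexQuot_eq (hfg : ∀ b, f (g b) = 0) (hfA : ∀ a ∈ A, f a ∈ A) :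
    hIndexQuot f g A = auxGamma f g A * auxAlpha f A := by
  unfold hIndexQuot auxGamma auxAlpha
  have h1 : g.range ⊔ A ≤ f.ker ⊔ A := sup_le_sup_right (range_le_ker hfg) A
  have h2 : f.ker ⊔ A ≤ A.comap f := by
    refine sup_le ?_ ?_
    · intro x hx
      rw [AddSubgroup.mem_comap, AddMonoidHom.mem_ker.1 hx]
      exact A.zero_mem
    · intro x hx
      exact hfA x hx
  rw [← relIndex_mul_relIndex _ _ _ h1 h2]
  congr 1
  · -- first factor
    have : f.ker ⊔ A = f.ker ⊔ (g.range ⊔ A) := by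
      rw [← sup_assoc, sup_eq_left.2 (range_le_ker hfg)]
    rw [this, relIndex_sup_right, ← inf_relIndex_right, sup_inf_ker_eq hfg]
  · -- second factor
    have hk : f.ker ⊔ A = (A.map f).comap f := by
      rw [AddSubgroup.comap_map_eq, sup_comm]
    rw [hk, relIndex_comap, AddSubgroup.map_comap_eq, inf_comm]

/-- The **hexagon identity** in index form (valid in `ℕ`, including the infinite cases). -/
theorem hexagon (hfg : ∀ b, f (g b) = 0) (hgf : ∀ b, g (f b) = 0)
    (hfA : ∀ a ∈ A, f a ∈ A) (hgA : ∀ a ∈ A, g a ∈ A) :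
    hIndexSub f g A * hIndexQuot f g A * hIndex g f =
      hIndexSub g f A * hIndexQuot g f A * hIndex f g := by
  rw [hIndexSub_eq hfg hgA, hIndexQuot_eq hfg hfA, hIndex_eq (A := A) hgf,
    hIndexSub_eq hgf hfA, hIndexQuot_eq hgf hgA, hIndex_eq (A := A) hfg]
  unfold auxAlpha
  ring

end Internal

end Fermat.Agent.S55.Herbrand

end
-- ===== PACK-END S55/Herbrand/Index.lean

-- ===== PACK-BEGIN S55/H953/Approx.lean
section


/-!
# S55 / local norm index: successive approximation along a multiplicative filtration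

Abstract setting: `L` a proper (locally compact) normed field, `σ` a ring automorphism of `L`
which is an isometry with `σ ^ n = 1`, and `Λ 0 ⊇ Λ 1 ⊇ …` a filtration of `L` by closed bounded
`σ`-stable additive subgroups with `Λ 0 * Λ i ⊆ Λ (i+1)`, elements of `Λ i` of norm `≤ c i`,
`c i → 0`, `c 0 < 1`.  If the additive "cohomology" of the graded pieces vanishes
(`hTr`, `hSub`), then on `V = 1 + Λ 0`:

* every `σ`-fixed element of `V` is a norm `∏_{j<n} σ^j y` of an element `y ∈ V`;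
* every element of `V` of norm `1` is of the form `σ y / y` with `y ∈ V`.
-/

set_option autoImplicit false

namespace Fermat.Agent.S55.H953

open Finset Filter Topology

variable {L : Type*} [NormedField L]

/-- Data of the filtration. -/
structure Filtration (L : Type*) [NormedField L] (σ : L ≃+* L) (n : ℕ) where
  /-- the filtration -/
  Λ : ℕ → AddSubgroup L
  /-- bounds for the norms -/
  c : ℕ → ℝ
  anti : ∀ i, Λ (i + 1) ≤ Λ i
  mul_mem : ∀ i x y, x ∈ Λ 0 → y ∈ Λ i → x * y ∈ Λ (i + 1)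
  closed : ∀ i, IsClosed (Λ i : Set L)
  norm_le : ∀ i x, x ∈ Λ i → ‖x‖ ≤ c i
  c_tendsto : Tendsto c atTop (𝓝 0)
  c_zero_lt : c 0 < 1
  stable : ∀ i x, x ∈ Λ i → σ x ∈ Λ i
  isom : ∀ x, ‖σ x‖ = ‖x‖
  pow_eq : ∀ x, (σ ^ n) x = x
  hTr : ∀ i a, a ∈ Λ i → σ a = a → ∃ b ∈ Λ i, (∑ j ∈ range n, (σ ^ j) b) - a ∈ Λ (i + 1)
  hSub : ∀ i a, a ∈ Λ i → (∑ j ∈ range n, (σ ^ j) a) ∈ Λ (i + 1) →
    ∃ b ∈ Λ i, σ b - b - a ∈ Λ (i + 1)

namespace Filtration

variable {σ : L ≃+* L} {n : ℕ} (F : Filtration L σ n)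

lemma anti_le {i j : ℕ} (h : i ≤ j) : F.Λ j ≤ F.Λ i := by
  induction h with
  | refl => exact le_rfl
  | step _ ih => exact (F.anti _).trans ih

lemma mem_zero {i : ℕ} {x : L} (hx : x ∈ F.Λ i) : x ∈ F.Λ 0 := F.anti_le (Nat.zero_le i) hx

lemma mul_mem' {i : ℕ} {x y : L} (hx : x ∈ F.Λ i) (hy : y ∈ F.Λ 0) : x * y ∈ F.Λ (i + 1) := by
  rw [mul_comm]
  exact F.mul_mem i y x hy hx

lemma mul_mem_same {i : ℕ} {x y : L} (hx : x ∈ F.Λ i) (hy : y ∈ F.Λ 0) : x * y ∈ F.Λ i :=
  F.anti i (F.mul_mem' hx hy)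

lemma norm_lt_one {x : L} (hx : x ∈ F.Λ 0) : ‖x‖ < 1 :=
  (F.norm_le 0 x hx).trans_lt F.c_zero_lt

lemma one_add_ne_zero {x : L} (hx : x ∈ F.Λ 0) : 1 + x ≠ 0 := by
  intro h
  have : x = -1 := by linear_combination h
  have h1 := F.norm_lt_one hx
  rw [this, norm_neg, norm_one] at h1
  exact lt_irrefl _ h1

lemma pow_succ_mem {x : L} (hx : x ∈ F.Λ 0) (k : ℕ) : x ^ (k + 1) ∈ F.Λ 0 := by
  induction k with
  | zero => simpa using hx
  | succ k ih =>
    rw [pow_succ]
    exact F.mul_mem_same ih hx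

/-- `x / (1 + x) ∈ Λ 0` for `x ∈ Λ 0`, by the geometric series and closedness. -/
lemma div_one_add_mem [CompleteSpace L] {x : L} (hx : x ∈ F.Λ 0) : x / (1 + x) ∈ F.Λ 0 := by
  have hlt : ‖-x‖ < 1 := by rw [norm_neg]; exact F.norm_lt_one hx
  have hsum : HasSum (fun k : ℕ => (-x) ^ k) (1 - (-x))⁻¹ := hasSum_geometric_of_norm_lt_one hlt
  have hsum2 : HasSum (fun k : ℕ => x * (-x) ^ k) (x * (1 - (-x))⁻¹) := hsum.mul_left x
  have hmem : ∀ s : Finset ℕ, ∑ k ∈ s, x * (-x) ^ k ∈ F.Λ 0 := by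
    intro s
    refine AddSubgroup.sum_mem _ (fun k _ => ?_)
    have : x * (-x) ^ k = (-1) ^ k * x ^ (k + 1) := by
      rw [neg_pow, pow_succ]; ring
    rw [this]
    rcases neg_one_pow_eq_or L k with h | h
    · rw [h, one_mul]; exact F.pow_succ_mem hx k
    · rw [h, neg_one_mul]; exact (F.Λ 0).neg_mem (F.pow_succ_mem hx k)
  have := (F.closed 0).mem_of_tendsto hsum2 (Eventually.of_forall hmem)
  have e : x / (1 + x) = x * (1 - (-x))⁻¹ := by
    rw [div_eq_mul_inv, sub_neg_eq_add]
  rw [e]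
  exact this

/-! ### The groups `V i = 1 + Λ i` -/

lemma V_one (i : ℕ) : (1 : L) - 1 ∈ F.Λ i := by
  rw [sub_self]; exact (F.Λ i).zero_mem

lemma V_mul {i : ℕ} {x y : L} (hx : x - 1 ∈ F.Λ i) (hy : y - 1 ∈ F.Λ i) :
    x * y - 1 ∈ F.Λ i := by
  have e : x * y - 1 = (x - 1) * (y - 1) + (x - 1) + (y - 1) := by ring
  rw [e]
  exact (F.Λ i).add_mem ((F.Λ i).add_mem (F.mul_mem_same hx (F.mem_zero hy)) hx) hy

lemma V_ne_zero {x : L} (hx : x - 1 ∈ F.Λ 0) : x ≠ 0 := by
  have := F.one_add_ne_zero hx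
  simpa using this

lemma V_inv [CompleteSpace L] {i : ℕ} {x : L} (hx : x - 1 ∈ F.Λ i) : x⁻¹ - 1 ∈ F.Λ i := by
  have hx0 : x ≠ 0 := F.V_ne_zero (F.mem_zero hx)
  set a := x - 1 with ha
  have hxa : x = 1 + a := by rw [ha]; ring
  have h0 : a / (1 + a) ∈ F.Λ 0 := F.div_one_add_mem (F.mem_zero hx)
  have h1a : (1 + a) ≠ 0 := by rw [← hxa]; exact hx0
  have e : x⁻¹ - 1 = -(a - a * (a / (1 + a))) := by
    rw [hxa]; field_simp; ring
  rw [e]
  exact (F.Λ i).neg_mem ((F.Λ i).sub_mem hx (F.mul_mem_same hx h0))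

lemma V_div [CompleteSpace L] {i : ℕ} {x y : L} (hx : x - 1 ∈ F.Λ i) (hy : y - 1 ∈ F.Λ i) :
    x / y - 1 ∈ F.Λ i := by
  rw [div_eq_mul_inv]
  exact F.V_mul hx (F.V_inv hy)

lemma V_prod {i : ℕ} {ι : Type*} (s : Finset ι) (x : ι → L) (hx : ∀ j ∈ s, x j - 1 ∈ F.Λ i) :
    (∏ j ∈ s, x j) - 1 ∈ F.Λ i := by
  classical
  induction s using Finset.induction_on with
  | empty => simp
  | insert a s ha ih =>
    rw [Finset.prod_insert ha]
    exact F.V_mul (hx a (Finset.mem_insert_self a s))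
      (ih (fun j hj => hx j (Finset.mem_insert_of_mem hj)))

/-- `u / w ∈ Λ i` for `u ∈ Λ i` and `w ∈ V 0`. -/
lemma div_mem [CompleteSpace L] {i : ℕ} {u w : L} (hu : u ∈ F.Λ i) (hw : w - 1 ∈ F.Λ 0) :
    u / w ∈ F.Λ i := by
  have e : u / w = u + u * (w⁻¹ - 1) := by rw [div_eq_mul_inv]; ring
  rw [e]
  exact (F.Λ i).add_mem hu (F.mul_mem_same hu (F.V_inv hw))

/-- product expansion: `∏ (1 + x j) ≡ 1 + ∑ x j` modulo `Λ (i+1)` for `x j ∈ Λ i`. -/
lemma prod_one_add_sub {i : ℕ} {ι : Type*} (s : Finset ι) (x : ι → L)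
    (hx : ∀ j ∈ s, x j ∈ F.Λ i) :
    (∏ j ∈ s, (1 + x j)) - 1 - ∑ j ∈ s, x j ∈ F.Λ (i + 1) := by
  classical
  induction s using Finset.induction_on with
  | empty => simp
  | insert a s ha ih =>
    rw [Finset.prod_insert ha, Finset.sum_insert ha]
    have hxa : x a ∈ F.Λ i := hx a (Finset.mem_insert_self a s)
    have hs : ∀ j ∈ s, x j ∈ F.Λ i := fun j hj => hx j (Finset.mem_insert_of_mem hj)
    have ih' := ih hs
    have hP : (∏ j ∈ s, (1 + x j)) - 1 ∈ F.Λ i :=
      F.V_prod s (fun j => 1 + x j) (fun j hj => by simpa using hs j hj)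
    have e : (1 + x a) * ∏ j ∈ s, (1 + x j) - 1 - (x a + ∑ j ∈ s, x j) =
        ((∏ j ∈ s, (1 + x j)) - 1 - ∑ j ∈ s, x j) + ((∏ j ∈ s, (1 + x j)) - 1) * x a := by ring
    rw [e]
    exact (F.Λ (i + 1)).add_mem ih' (F.mul_mem' hP (F.mem_zero hxa))

/-! ### The automorphism -/

lemma stable_pow {i : ℕ} {x : L} (hx : x ∈ F.Λ i) (j : ℕ) : (σ ^ j) x ∈ F.Λ i := by
  induction j with
  | zero => simpa using hx
  | succ j ih =>
    rw [pow_succ']
    exact F.stable i _ ih

lemma V_stable {i : ℕ} {x : L} (hx : x - 1 ∈ F.Λ i) (j : ℕ) : (σ ^ j) x - 1 ∈ F.Λ i := by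
  have := F.stable_pow hx j
  simpa using this

include F in
lemma isom_pow (j : ℕ) (x : L) : ‖(σ ^ j) x‖ = ‖x‖ := by
  induction j with
  | zero => simp
  | succ j ih =>
    rw [pow_succ']
    exact (F.isom _).trans ih

/-- the norm `∏_{j<n} σ^j` -/
noncomputable def nm (_F : Filtration L σ n) (x : L) : L := ∏ j ∈ range n, (σ ^ j) x

/-- the trace `∑_{j<n} σ^j` -/
noncomputable def tr (_F : Filtration L σ n) (x : L) : L := ∑ j ∈ range n, (σ ^ j) x

lemma nm_mul (x y : L) : F.nm (x * y) = F.nm x * F.nm y := by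
  simp [nm, Finset.prod_mul_distrib]

lemma nm_one : F.nm 1 = 1 := by simp [nm]

lemma nm_inv (x : L) : F.nm x⁻¹ = (F.nm x)⁻¹ := by
  simp [nm, map_inv₀]

lemma nm_div (x y : L) : F.nm (x / y) = F.nm x / F.nm y := by
  rw [div_eq_mul_inv, nm_mul, nm_inv, div_eq_mul_inv]

lemma prod_shift {M : Type*} [CommMonoid M] (f : ℕ → M) (m : ℕ) (h : f m = f 0) :
    ∏ j ∈ range m, f (j + 1) = ∏ j ∈ range m, f j := by
  cases m with
  | zero => simp
  | succ m =>
    rw [Finset.prod_range_succ (fun j => f (j + 1)) m, Finset.prod_range_succ' f m, h]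

lemma sum_shift {M : Type*} [AddCommMonoid M] (f : ℕ → M) (m : ℕ) (h : f m = f 0) :
    ∑ j ∈ range m, f (j + 1) = ∑ j ∈ range m, f j := by
  cases m with
  | zero => simp
  | succ m =>
    rw [Finset.sum_range_succ (fun j => f (j + 1)) m, Finset.sum_range_succ' f m, h]

lemma sigma_nm (x : L) : σ (F.nm x) = F.nm x := by
  unfold nm
  rw [map_prod]
  have h : ∀ j, σ ((σ ^ j) x) = (σ ^ (j + 1)) x := fun j => by rw [pow_succ']; rfl
  simp_rw [h]
  exact prod_shift (fun j => (σ ^ j) x) n (by simpa using F.pow_eq x)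

lemma sigma_tr (x : L) : σ (F.tr x) = F.tr x := by
  unfold tr
  rw [map_sum]
  have h : ∀ j, σ ((σ ^ j) x) = (σ ^ (j + 1)) x := fun j => by rw [pow_succ']; rfl
  simp_rw [h]
  exact sum_shift (fun j => (σ ^ j) x) n (by simpa using F.pow_eq x)

lemma nm_sigma (x : L) : F.nm (σ x) = F.nm x := by
  unfold nm
  have h : ∀ j, (σ ^ j) (σ x) = (σ ^ (j + 1)) x := fun j => by rw [pow_succ]; rfl
  simp_rw [h]
  exact prod_shift (fun j => (σ ^ j) x) n (by simpa using F.pow_eq x)

lemma norm_nm (x : L) : ‖F.nm x‖ = ‖x‖ ^ n := by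
  unfold nm
  rw [norm_prod, Finset.prod_congr rfl (fun j _ => F.isom_pow j x)]
  simp

include F in
lemma continuous_sigma_pow (j : ℕ) : Continuous fun x : L => (σ ^ j) x := by
  have : Isometry fun x : L => (σ ^ j) x := by
    refine Isometry.of_dist_eq (fun x y => ?_)
    rw [dist_eq_norm, dist_eq_norm, ← map_sub, F.isom_pow]
  exact this.continuous

lemma continuous_nm : Continuous F.nm := by
  unfold nm
  exact continuous_finsetProd _ (fun j _ => F.continuous_sigma_pow j)

/-- `nm (1 + b) ≡ 1 + tr b` modulo `Λ (i+1)`. -/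
lemma nm_one_add_sub {i : ℕ} {b : L} (hb : b ∈ F.Λ i) :
    F.nm (1 + b) - 1 - F.tr b ∈ F.Λ (i + 1) := by
  unfold nm tr
  simp only [map_add, map_one]
  exact F.prod_one_add_sub (range n) (fun j => (σ ^ j) b) (fun j _ => F.stable_pow hb j)

lemma V_nm {i : ℕ} {x : L} (hx : x - 1 ∈ F.Λ i) : F.nm x - 1 ∈ F.Λ i :=
  F.V_prod _ _ (fun j _ => F.V_stable hx j)

/-- one step of the approximation for `Ĥ⁰`. -/
lemma step_fixed [CompleteSpace L] {i : ℕ} {x : L} (hx : x - 1 ∈ F.Λ i) (hσ : σ x = x) :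
    ∃ y, y - 1 ∈ F.Λ i ∧ x / F.nm y - 1 ∈ F.Λ (i + 1) ∧ σ (x / F.nm y) = x / F.nm y := by
  have hσa : σ (x - 1) = x - 1 := by rw [map_sub, map_one, hσ]
  obtain ⟨b, hb, hb'⟩ := F.hTr i (x - 1) hx hσa
  refine ⟨1 + b, by simpa using hb, ?_, ?_⟩
  · have h1 := F.nm_one_add_sub hb
    have hN : F.nm (1 + b) - 1 ∈ F.Λ 0 := F.mem_zero (F.V_nm (by simpa using hb))
    have hN0 : F.nm (1 + b) ≠ 0 := F.V_ne_zero hN
    have e : x / F.nm (1 + b) - 1 =
        (-(F.nm (1 + b) - 1 - F.tr b) - (F.tr b - (x - 1))) / F.nm (1 + b) := by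
      field_simp; ring
    rw [e]
    refine F.div_mem ((F.Λ (i + 1)).sub_mem ((F.Λ (i + 1)).neg_mem h1) ?_) hN
    exact hb'
  · rw [map_div₀, hσ, F.sigma_nm]

/-- one step of the approximation for `Ĥ⁻¹`. -/
lemma step_norm_one [CompleteSpace L] {i : ℕ} {x : L} (hx : x - 1 ∈ F.Λ i) (hN : F.nm x = 1) :
    ∃ y, y - 1 ∈ F.Λ i ∧ x / (σ y / y) - 1 ∈ F.Λ (i + 1) ∧ F.nm (x / (σ y / y)) = 1 := by
  have h1 := F.nm_one_add_sub hx
  have htr : F.tr (x - 1) ∈ F.Λ (i + 1) := by
    have e : F.tr (x - 1) = -(F.nm (1 + (x - 1)) - 1 - F.tr (x - 1)) := by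
      have : (1 : L) + (x - 1) = x := by ring
      rw [this, hN]; ring
    rw [e]
    exact (F.Λ (i + 1)).neg_mem h1
  obtain ⟨b, hb, hb'⟩ := F.hSub i (x - 1) hx htr
  have hy : (1 + b) - 1 ∈ F.Λ i := by simpa using hb
  have hy0 : (1 + b) ≠ 0 := F.V_ne_zero (F.mem_zero hy)
  have hσy : σ (1 + b) - 1 ∈ F.Λ i := by
    have := F.V_stable hy 1
    simpa using this
  have hσy0 : σ (1 + b) ≠ 0 := F.V_ne_zero (F.mem_zero hσy)
  refine ⟨1 + b, hy, ?_, ?_⟩
  · -- x / (σ y / y) - 1 = (x * y - σ y) / σ y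
    have e : x / (σ (1 + b) / (1 + b)) - 1 =
        (-(σ b - b - (x - 1)) + (x - 1) * b) / σ (1 + b) := by
      rw [map_add, map_one] at hσy0 ⊢
      field_simp
      ring
    rw [e]
    refine F.div_mem ((F.Λ (i + 1)).add_mem ((F.Λ (i + 1)).neg_mem hb') ?_) (F.mem_zero hσy)
    exact F.mul_mem' hx (F.mem_zero hb)
  · rw [nm_div, nm_div, F.nm_sigma, hN, div_self, div_one]
    exact F.V_ne_zero (F.mem_zero (F.V_nm hy))

lemma approx_fixed [CompleteSpace L] {x : L} (hx : x - 1 ∈ F.Λ 0) (hσ : σ x = x) (k : ℕ) :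
    ∃ Y, Y - 1 ∈ F.Λ 0 ∧ x / F.nm Y - 1 ∈ F.Λ k ∧ σ (x / F.nm Y) = x / F.nm Y := by
  induction k with
  | zero =>
    refine ⟨1, F.V_one 0, ?_, ?_⟩
    · rw [F.nm_one, div_one]; exact hx
    · rw [F.nm_one, div_one]; exact hσ
  | succ k ih =>
    obtain ⟨Y, hY, hY', hYσ⟩ := ih
    obtain ⟨y, hy, hy', hyσ⟩ := F.step_fixed hY' hYσ
    have e : x / F.nm (Y * y) = x / F.nm Y / F.nm y := by
      rw [F.nm_mul, div_div]
    refine ⟨Y * y, F.V_mul hY (F.mem_zero hy), ?_, ?_⟩
    · rw [e]; exact hy'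
    · rw [e]; exact hyσ

lemma approx_norm_one [CompleteSpace L] {x : L} (hx : x - 1 ∈ F.Λ 0) (hN : F.nm x = 1) (k : ℕ) :
    ∃ Y, Y - 1 ∈ F.Λ 0 ∧ x / (σ Y / Y) - 1 ∈ F.Λ k ∧ F.nm (x / (σ Y / Y)) = 1 := by
  induction k with
  | zero =>
    refine ⟨1, F.V_one 0, ?_, ?_⟩
    · rw [map_one, div_one, div_one]; exact hx
    · rw [map_one, div_one, div_one]; exact hN
  | succ k ih =>
    obtain ⟨Y, hY, hY', hYN⟩ := ih
    obtain ⟨y, hy, hy', hyN⟩ := F.step_norm_one hY' hYN
    have hY0 : Y ≠ 0 := F.V_ne_zero hY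
    have hy0 : y ≠ 0 := F.V_ne_zero (F.mem_zero hy)
    have hσY0 : σ Y ≠ 0 := by simpa using hY0
    have hσy0 : σ y ≠ 0 := by simpa using hy0
    have e : x / (σ (Y * y) / (Y * y)) = x / (σ Y / Y) / (σ y / y) := by
      rw [map_mul]
      field_simp
    refine ⟨Y * y, F.V_mul hY (F.mem_zero hy), ?_, ?_⟩
    · rw [e]; exact hy'
    · rw [e]; exact hyN

lemma isCompact_V [ProperSpace L] : IsCompact {y : L | y - 1 ∈ F.Λ 0} := by
  refine IsCompact.of_isClosed_subset (isCompact_closedBall (0 : L) 2) ?_ ?_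
  · exact (F.closed 0).preimage (continuous_id.sub continuous_const)
  · intro y hy
    rw [mem_closedBall_zero_iff]
    have h1 : ‖y - 1‖ < 1 := F.norm_lt_one hy
    calc ‖y‖ = ‖(y - 1) + 1‖ := by rw [sub_add_cancel]
      _ ≤ ‖y - 1‖ + ‖(1 : L)‖ := norm_add_le _ _
      _ ≤ 1 + 1 := by rw [norm_one]; linarith
      _ = 2 := by norm_num

lemma tendsto_of_mem {z : ℕ → L} (hz : ∀ k, z k - 1 ∈ F.Λ k) : Tendsto z atTop (𝓝 1) := by
  have h0 : Tendsto (fun k => z k - 1) atTop (𝓝 0) := by
    refine squeeze_zero_norm (fun k => F.norm_le k _ (hz k)) F.c_tendsto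
  have := h0.add_const 1
  simpa using this

/-- **Every `σ`-fixed element of `V = 1 + Λ 0` is a norm from `V`.** -/
theorem exists_nm_eq [ProperSpace L] {x : L} (hx : x - 1 ∈ F.Λ 0) (hσ : σ x = x) :
    ∃ y, y - 1 ∈ F.Λ 0 ∧ F.nm y = x := by
  have hx0 : x ≠ 0 := F.V_ne_zero hx
  choose Y hY hY' _ using F.approx_fixed hx hσ
  have hcl : IsClosed (F.nm '' {y : L | y - 1 ∈ F.Λ 0}) :=
    (F.isCompact_V.image F.continuous_nm).isClosed
  have hlim : Tendsto (fun k => F.nm (Y k)) atTop (𝓝 x) := by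
    have h1 : Tendsto (fun k => x / F.nm (Y k)) atTop (𝓝 1) := F.tendsto_of_mem hY'
    have h2 : Tendsto (fun k => x / (x / F.nm (Y k))) atTop (𝓝 (x / 1)) :=
      tendsto_const_nhds.div h1 one_ne_zero
    rw [div_one] at h2
    refine h2.congr (fun k => ?_)
    have hN0 : F.nm (Y k) ≠ 0 := F.V_ne_zero (F.V_nm (hY k))
    field_simp
  obtain ⟨y, hy, hyx⟩ := hcl.mem_of_tendsto hlim (Eventually.of_forall fun k => ⟨Y k, hY k, rfl⟩)
  exact ⟨y, hy, hyx⟩

/-- **Every element of `V = 1 + Λ 0` of norm one is of the form `σ y / y` with `y ∈ V`.** -/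
theorem exists_div_eq [ProperSpace L] {x : L} (hx : x - 1 ∈ F.Λ 0) (hN : F.nm x = 1) :
    ∃ y, y - 1 ∈ F.Λ 0 ∧ σ y / y = x := by
  have hx0 : x ≠ 0 := F.V_ne_zero hx
  choose Y hY hY' _ using F.approx_norm_one hx hN
  have hcont : ContinuousOn (fun y : L => σ y / y) {y : L | y - 1 ∈ F.Λ 0} := by
    have hσc : Continuous fun y : L => σ y := by
      have := F.continuous_sigma_pow 1
      simpa using this
    exact hσc.continuousOn.div continuousOn_id (fun y hy => F.V_ne_zero hy)
  have hcl : IsClosed ((fun y : L => σ y / y) '' {y : L | y - 1 ∈ F.Λ 0}) :=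
    (F.isCompact_V.image_of_continuousOn hcont).isClosed
  have hlim : Tendsto (fun k => σ (Y k) / Y k) atTop (𝓝 x) := by
    have h1 : Tendsto (fun k => x / (σ (Y k) / Y k)) atTop (𝓝 1) := F.tendsto_of_mem hY'
    have h2 : Tendsto (fun k => x / (x / (σ (Y k) / Y k))) atTop (𝓝 (x / 1)) :=
      tendsto_const_nhds.div h1 one_ne_zero
    rw [div_one] at h2
    refine h2.congr (fun k => ?_)
    have hY0 : Y k ≠ 0 := F.V_ne_zero (hY k)
    have hσY0 : σ (Y k) ≠ 0 := by simpa using hY0
    field_simp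
  obtain ⟨y, hy, hyx⟩ := hcl.mem_of_tendsto hlim (Eventually.of_forall fun k => ⟨Y k, hY k, rfl⟩)
  exact ⟨y, hy, hyx⟩

end Filtration

end Fermat.Agent.S55.H953

end
-- ===== PACK-END S55/H953/Approx.lean

-- ===== PACK-BEGIN S55/H424/KummerLevel.lean
section


/-!
# Kummer finiteness of continuous characters (input of `FIN-loc`, layer KL of S55)

Let `K` be a field of characteristic zero containing a primitive `n`-th root of unity, with
algebraic closure `Ω`, and assume that `Kˣ / (Kˣ)ⁿ` is finite (for local fields this is the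
local power index, `H424.isLocalFld_index_range_pow_ne_zero`).  Then there is ONE finite
extension `K' / K` inside `Ω` such that every continuous character `χ` of `Gal(Ω/K)` with
`χ ^ n = 1` is trivial on `Gal(Ω/K')`.  ("Continuous" = trivial on `Gal(Ω/M)` for some finite
`M / K`.)

* `H424.exists_kummer_level` : characters with values in `Kˣ`;
* `H424.exists_kummer_level_zmod` : characters with values in `Multiplicative (ZMod n)`.

Proof: Hilbert 90 (Mathlib) on a finite Galois level through which `χ` factors gives `β` with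
`σ β = χ(σ) β`; then `β ^ n ∈ K`, hence `β ∈ K' := K(ⁿ√ representatives of Kˣ/(Kˣ)ⁿ)`.
-/

set_option autoImplicit false
set_option linter.unusedSectionVars false
set_option linter.style.haveILetI false

namespace Fermat.Agent.S55.H424

open IntermediateField

section KummerLevel

variable {K Ω : Type*} [Field K] [Field Ω] [Algebra K Ω] [CharZero K] [IsAlgClosure K Ω]

/-- The field generated by chosen `n`-th roots of representatives of `Kˣ / (Kˣ)ⁿ` contains
every `n`-th root of every element of `Kˣ`. -/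
theorem exists_finite_containing_roots (n : ℕ) (hn : n ≠ 0) (ζ : K) (hζ : IsPrimitiveRoot ζ n)
    (hfin : (powMonoidHom n : Kˣ →* Kˣ).range.index ≠ 0) :
    ∃ K' : IntermediateField K Ω, FiniteDimensional K K' ∧
      ∀ (a : Kˣ) (α : Ω), α ^ n = algebraMap K Ω (a : K) → α ∈ K' := by
  classical
  haveI : NeZero n := ⟨hn⟩
  haveI : IsAlgClosed Ω := IsAlgClosure.isAlgClosed K
  haveI : Algebra.IsAlgebraic K Ω := IsAlgClosure.isAlgebraic
  haveI : (powMonoidHom n : Kˣ →* Kˣ).range.FiniteIndex := ⟨hfin⟩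
  haveI : Finite (Kˣ ⧸ (powMonoidHom n : Kˣ →* Kˣ).range) :=
    Subgroup.finite_quotient_of_finiteIndex
  -- representatives and their roots
  have hroot : ∀ c : Kˣ ⧸ (powMonoidHom n : Kˣ →* Kˣ).range,
      ∃ ρ : Ω, ρ ^ n = algebraMap K Ω ((Quotient.out c : Kˣ) : K) :=
    fun c => IsAlgClosed.exists_pow_nat_eq _ (Nat.pos_of_ne_zero hn)
  choose ρ hρ using hroot
  haveI : Finite (Set.range ρ) := (Set.finite_range ρ).to_subtype
  refine ⟨IntermediateField.adjoin K (Set.range ρ),
    IntermediateField.finiteDimensional_adjoin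
      (fun x _ => (Algebra.IsAlgebraic.isAlgebraic x).isIntegral), ?_⟩
  intro a α hα
  set c : Kˣ ⧸ (powMonoidHom n : Kˣ →* Kˣ).range := QuotientGroup.mk a with hc
  have hout : (QuotientGroup.mk (Quotient.out c) : Kˣ ⧸ (powMonoidHom n : Kˣ →* Kˣ).range) = c :=
    Quotient.out_eq c
  have hmem : (Quotient.out c : Kˣ)⁻¹ * a ∈ (powMonoidHom n : Kˣ →* Kˣ).range :=
    QuotientGroup.eq.1 hout
  obtain ⟨b, hb⟩ := hmem
  have hb' : (b : K) ^ n = ((Quotient.out c : Kˣ) : K)⁻¹ * (a : K) := by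
    have h1 := congrArg (fun u : Kˣ => (u : K)) hb
    simpa using h1
  have hr0 : ((Quotient.out c : Kˣ) : K) ≠ 0 := Units.ne_zero _
  have hρ0 : ρ c ≠ 0 := by
    intro h0
    have h2 := hρ c
    rw [h0, zero_pow hn] at h2
    exact hr0 ((algebraMap K Ω).injective (by rw [← h2, map_zero]))
  have hb0 : algebraMap K Ω (b : K) ≠ 0 := by
    simp
  have hξ : (α / (ρ c * algebraMap K Ω (b : K))) ^ n = 1 := by
    rw [div_pow, mul_pow, hα, hρ c, ← map_pow, hb', ← map_mul]
    have h3 : ((Quotient.out c : Kˣ) : K) * (((Quotient.out c : Kˣ) : K)⁻¹ * (a : K)) = (a : K) := by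
      field_simp
    rw [h3]
    exact div_self (by simp)
  obtain ⟨i, -, hi⟩ :=
    (hζ.map_of_injective (algebraMap K Ω).injective).eq_pow_of_pow_eq_one hξ
  have hα' : α = algebraMap K Ω ζ ^ i * (ρ c * algebraMap K Ω (b : K)) := by
    rw [hi]
    field_simp
  rw [hα']
  exact mul_mem (pow_mem (IntermediateField.algebraMap_mem _ _) _)
    (mul_mem (IntermediateField.subset_adjoin K _ ⟨c, rfl⟩) (IntermediateField.algebraMap_mem _ _))

/-- **Kummer level.**  If `K ∋ ζ_n` and `Kˣ / (Kˣ)ⁿ` is finite, there is a finite extension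
`K' / K` inside `Ω` such that every continuous character `χ : Gal(Ω/K) → Kˣ` with `χ ^ n = 1`
is trivial on `Gal(Ω/K')`. -/
theorem exists_kummer_level (n : ℕ) (hn : n ≠ 0) (ζ : K) (hζ : IsPrimitiveRoot ζ n)
    (hfin : (powMonoidHom n : Kˣ →* Kˣ).range.index ≠ 0) :
    ∃ K' : IntermediateField K Ω, FiniteDimensional K K' ∧
      ∀ χ : (Ω ≃ₐ[K] Ω) →* Kˣ, (∀ g, χ g ^ n = 1) →
        (∃ M : IntermediateField K Ω, FiniteDimensional K M ∧ M.fixingSubgroup ≤ χ.ker) →
        K'.fixingSubgroup ≤ χ.ker := by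
  classical
  haveI : IsAlgClosed Ω := IsAlgClosure.isAlgClosed K
  haveI : Algebra.IsAlgebraic K Ω := IsAlgClosure.isAlgebraic
  haveI : Normal K Ω := IsAlgClosure.normal K Ω
  obtain ⟨K', hK'fin, hK'⟩ := exists_finite_containing_roots (Ω := Ω) n hn ζ hζ hfin
  refine ⟨K', hK'fin, ?_⟩
  rintro χ hχn ⟨M₀, hM₀fin, hM₀⟩
  -- a finite Galois level through which `χ` factors
  let M : IntermediateField K Ω := IntermediateField.normalClosure K M₀ Ω
  haveI : FiniteDimensional K M := normalClosure.is_finiteDimensional K M₀ Ω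
  haveI : Normal K M := normalClosure.normal K M₀ Ω
  haveI : IsGalois K M := ⟨⟩
  have hM : M.fixingSubgroup ≤ χ.ker :=
    (IntermediateField.fixingSubgroup_le (IntermediateField.le_normalClosure M₀)).trans hM₀
  have hsurj : Function.Surjective (AlgEquiv.restrictNormalHom (F := K) (K₁ := Ω) M) :=
    AlgEquiv.restrictNormalHom_surjective Ω
  have hker : (AlgEquiv.restrictNormalHom (F := K) (K₁ := Ω) M).ker ≤ χ.ker := by
    rw [IntermediateField.restrictNormalHom_ker]
    exact hM
  let χbar : (M ≃ₐ[K] M) →* Kˣ :=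
    (AlgEquiv.restrictNormalHom (F := K) (K₁ := Ω) M).liftOfSurjective hsurj ⟨χ, hker⟩
  have hχbar : ∀ s : Ω ≃ₐ[K] Ω, χbar (AlgEquiv.restrictNormalHom M s) = χ s := fun s =>
    MonoidHom.liftOfRightInverse_comp_apply _ _ (Function.rightInverse_surjInv hsurj) ⟨χ, hker⟩ s
  -- the cocycle
  let f : (M ≃ₐ[K] M) → Mˣ := fun σ => Units.map (algebraMap K M).toMonoidHom (χbar σ)
  have hfval : ∀ σ, ((f σ : Mˣ) : M) = algebraMap K M ((χbar σ : Kˣ) : K) := fun σ => rfl
  have hf : groupCohomology.IsMulCocycle₁ f := by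
    intro g h
    apply Units.ext
    rw [Units.val_mul, hfval, hfval, map_mul, Units.val_mul, map_mul]
    have h1 : ((g • f h : Mˣ) : M) = algebraMap K M ((χbar h : Kˣ) : K) := by
      show g ((f h : Mˣ) : M) = _
      rw [hfval, AlgEquiv.commutes]
    rw [h1, mul_comm]
  obtain ⟨β, hβ⟩ := groupCohomology.isMulCoboundary₁_of_isMulCocycle₁_of_aut_to_units f hf
  have hβ' : ∀ σ : M ≃ₐ[K] M, σ (β : M) = algebraMap K M ((χbar σ : Kˣ) : K) * (β : M) := by
    intro σ
    have h1 := congrArg (fun u : Mˣ => (u : M)) (hβ σ)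
    simp only [Units.val_div_eq_div_val] at h1
    have h2 : ((σ • β : Mˣ) : M) = σ (β : M) := rfl
    rw [h2, hfval] at h1
    rw [← h1]
    field_simp
  -- `β ^ n ∈ K`
  have hfix : ∀ σ : M ≃ₐ[K] M, σ ((β : M) ^ n) = (β : M) ^ n := by
    intro σ
    rw [map_pow, hβ' σ, mul_pow, ← map_pow]
    have h1 : ((χbar σ : Kˣ) : K) ^ n = 1 := by
      obtain ⟨s, hs⟩ := hsurj σ
      rw [← hs, hχbar]
      have := congrArg (fun u : Kˣ => (u : K)) (hχn s)
      simpa using this
    rw [h1, map_one, one_mul]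
  obtain ⟨a, ha⟩ : ∃ a : K, algebraMap K M a = (β : M) ^ n :=
    IntermediateField.mem_bot.1 ((IsGalois.mem_bot_iff_fixed ((β : M) ^ n)).2 hfix)
  have ha0 : a ≠ 0 := by
    rintro rfl
    rw [map_zero] at ha
    exact (pow_ne_zero n β.ne_zero) ha.symm
  have hβK' : ((β : M) : Ω) ∈ K' := by
    refine hK' (Units.mk0 a ha0) _ ?_
    rw [Units.val_mk0]
    have h1 : ((algebraMap K M a : M) : Ω) = (((β : M) ^ n : M) : Ω) := congrArg _ ha
    rw [← IntermediateField.coe_pow, ← h1]
    rfl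
  -- conclusion
  intro s hs
  rw [MonoidHom.mem_ker]
  have h1 : s ((β : M) : Ω) = ((β : M) : Ω) :=
    (IntermediateField.mem_fixingSubgroup_iff K' s).1 hs _ hβK'
  have h2 : ((AlgEquiv.restrictNormalHom M s) (β : M) : Ω) = s ((β : M) : Ω) :=
    AlgEquiv.restrictNormalHom_apply M s (β : M)
  have h3 := hβ' (AlgEquiv.restrictNormalHom M s)
  rw [hχbar] at h3
  have h4 : algebraMap K M ((χ s : Kˣ) : K) * (β : M) = (β : M) := by
    rw [← h3]
    apply Subtype.ext
    rw [h2, h1]
  have h5 : algebraMap K M ((χ s : Kˣ) : K) = 1 := by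
    have h6 := mul_right_cancel₀ β.ne_zero (h4.trans (one_mul (β : M)).symm)
    exact h6
  apply Units.ext
  rw [Units.val_one]
  exact (algebraMap K M).injective (by rw [h5, map_one])

/-- An injective homomorphism `Multiplicative (ZMod n) →* Kˣ` attached to a primitive `n`-th
root of unity. -/
theorem exists_injective_zmod_hom (n : ℕ) (hn : n ≠ 0) (ζ : K) (hζ : IsPrimitiveRoot ζ n) :
    ∃ ι : Multiplicative (ZMod n) →* Kˣ, Function.Injective ι ∧ ∀ x, ι x ^ n = 1 := by
  have hζu := hζ.isUnit_unit hn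
  let e : Multiplicative (ZMod n) ≃* Subgroup.zpowers (hζ.isUnit hn).unit :=
    (AddEquiv.toMultiplicativeRight hζu.zmodEquivZPowers.symm).symm
  refine ⟨(Subgroup.zpowers (hζ.isUnit hn).unit).subtype.comp e.toMonoidHom, ?_, ?_⟩
  · exact (Subgroup.subtype_injective _).comp e.injective
  · intro x
    rw [← map_pow]
    have hx : x ^ n = 1 := by
      apply Multiplicative.toAdd.injective
      rw [toAdd_pow, toAdd_one, nsmul_eq_mul, ZMod.natCast_self, zero_mul]
    rw [hx, map_one]

/-- **Kummer level, `ZMod n`-valued characters.**  If `K ∋ ζ_n` and `Kˣ / (Kˣ)ⁿ` is finite,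
there is a finite extension `K' / K` inside `Ω` such that every continuous homomorphism
`χ : Gal(Ω/K) → ℤ/n` is trivial on `Gal(Ω/K')`. -/
theorem exists_kummer_level_zmod (n : ℕ) (hn : n ≠ 0) (ζ : K) (hζ : IsPrimitiveRoot ζ n)
    (hfin : (powMonoidHom n : Kˣ →* Kˣ).range.index ≠ 0) :
    ∃ K' : IntermediateField K Ω, FiniteDimensional K K' ∧
      ∀ χ : (Ω ≃ₐ[K] Ω) →* Multiplicative (ZMod n),
        (∃ M : IntermediateField K Ω, FiniteDimensional K M ∧ M.fixingSubgroup ≤ χ.ker) →
        K'.fixingSubgroup ≤ χ.ker := by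
  obtain ⟨K', hK'fin, hK'⟩ := exists_kummer_level (Ω := Ω) n hn ζ hζ hfin
  obtain ⟨ι, hι, hιn⟩ := exists_injective_zmod_hom n hn ζ hζ
  refine ⟨K', hK'fin, ?_⟩
  rintro χ ⟨M, hMfin, hM⟩
  have hker : (ι.comp χ).ker = χ.ker := by
    ext g
    simp only [MonoidHom.mem_ker, MonoidHom.comp_apply]
    exact ⟨fun h => hι (h.trans (map_one ι).symm), fun h => by rw [h, map_one]⟩
  have := hK' (ι.comp χ) (fun g => hιn _) ⟨M, hMfin, by rw [hker]; exact hM⟩
  rwa [hker] at this

/-- **Kummer level, additive form.**  Same as `exists_kummer_level_zmod` for maps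
`φ : Gal(Ω/K) → ℤ/n` with `φ (g * h) = φ g + φ h`. -/
theorem exists_kummer_level_add (n : ℕ) (hn : n ≠ 0) (ζ : K) (hζ : IsPrimitiveRoot ζ n)
    (hfin : (powMonoidHom n : Kˣ →* Kˣ).range.index ≠ 0) :
    ∃ K' : IntermediateField K Ω, FiniteDimensional K K' ∧
      ∀ φ : (Ω ≃ₐ[K] Ω) → ZMod n, (∀ g h, φ (g * h) = φ g + φ h) →
        (∃ M : IntermediateField K Ω, FiniteDimensional K M ∧ ∀ g ∈ M.fixingSubgroup, φ g = 0) →
        ∀ g ∈ K'.fixingSubgroup, φ g = 0 := by
  obtain ⟨K', hK'fin, hK'⟩ := exists_kummer_level_zmod (Ω := Ω) n hn ζ hζ hfin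
  refine ⟨K', hK'fin, ?_⟩
  rintro φ hφ ⟨M, hMfin, hM⟩ g hg
  have hφ1 : φ 1 = 0 := by
    have := hφ 1 1
    rw [mul_one] at this
    exact left_eq_add.1 this
  let χ : (Ω ≃ₐ[K] Ω) →* Multiplicative (ZMod n) :=
    { toFun := fun g => Multiplicative.ofAdd (φ g)
      map_one' := by rw [hφ1]; rfl
      map_mul' := fun g h => by rw [hφ g h]; rfl }
  have h1 : K'.fixingSubgroup ≤ χ.ker :=
    hK' χ ⟨M, hMfin, fun g hg => by
      rw [MonoidHom.mem_ker]
      show Multiplicative.ofAdd (φ g) = 1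
      rw [hM g hg]; rfl⟩
  have h2 := h1 hg
  rw [MonoidHom.mem_ker] at h2
  exact Multiplicative.ofAdd.injective h2

end KummerLevel

end Fermat.Agent.S55.H424

end
-- ===== PACK-END S55/H424/KummerLevel.lean

-- ===== PACK-BEGIN S55/KL/H73/QInfCore.lean
section


/-!
# S55, layer KL (architect helper53), leaf KL-QInf: injectivity of inflation in degree 2
(cochain form)                                                                   (helper73)

Mathlib-only core: a direct cochain proof of the injectivity part of inflation–restriction in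
degree 2.  Let `V' ≤ V` be normal subgroups of `G`, `B` a `G`-module with
`H¹(V ⧸ V', B^{V'}) = 0`.  If a 2-cochain `f` inflated from `(G ⧸ V, B^V)` is the coboundary of a
1-cochain inflated from `(G ⧸ V', B^{V'})`, then it is the coboundary of a 1-cochain inflated
from `(G ⧸ V, B^V)`.

The statement `qInf_core` is the Spec `QInfSpec` of layer KL with the definitions `IsAt₁`,
`IsAt₂`, `IsCobAt₂`, `Z2At` unfolded; it does not depend on any interface file.
-/

set_option autoImplicit false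

open CategoryTheory groupCohomology

namespace Fermat.Agent.S55.KL.H73

/-- If `H¹(G, A) = 0` then every 1-cocycle is a coboundary (elementwise form). -/
lemma exists_cob_of_subsingleton_H1 {k G : Type} [CommRing k] [Group G] (A : Rep.{0, 0, 0} k G)
    (h : Subsingleton (H1 A)) (z : G → A) (hz : z ∈ cocycles₁ A) :
    ∃ b : A, ∀ g : G, A.ρ g b - b = z g := by
  have h0 : H1π A ⟨z, hz⟩ = 0 := Subsingleton.elim _ _
  have h1 := (H1π_eq_zero_iff (A := A) ⟨z, hz⟩).1 h0
  obtain ⟨b, hb⟩ := h1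
  refine ⟨b, fun g => ?_⟩
  have := congrFun hb g
  simpa using this

section

variable {G : Type} [Group G] (B : Rep.{0, 0, 0} ℤ G) (V' V : Subgroup G) [V'.Normal]

omit [V'.Normal] in
/-- A right-`V'`-invariant function takes the same value on any representative of a coset. -/
lemma apply_out_eq {X : Type*} (x : G → X) (hx : ∀ g s : G, s ∈ V' → x (g * s) = x g) (g : G) :
    x (Quotient.out (QuotientGroup.mk g : G ⧸ V')) = x g := by
  obtain ⟨h, hh⟩ := QuotientGroup.mk_out_eq_mul V' g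
  rw [hh]
  exact hx g h h.2

/-- `H¹(V ⧸ V', B^{V'}) = 0` in elementwise form: a function `x` on `G` with values in `B^{V'}`,
right-`V'`-invariant, and satisfying the cocycle identity on `V`, is a coboundary on `V`. -/
lemma exists_cob_on (hle : V' ≤ V)
    (h1 : Subsingleton (H1 (Rep.res (V.map (QuotientGroup.mk' V')).subtype
      (B.quotientToInvariants V'))))
    (x : G → B) (hxc : ∀ g s : G, s ∈ V' → x (g * s) = x g)
    (hxi : ∀ g s : G, s ∈ V' → B.ρ s (x g) = x g)
    (hcoc : ∀ s t : G, s ∈ V → t ∈ V → x (s * t) = B.ρ s (x t) + x s) :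
    ∃ b : B, (∀ s ∈ V', B.ρ s b = b) ∧ ∀ s ∈ V, B.ρ s b - b = x s := by
  classical
  -- the cocycle on `W = V/V'` with values in `B^{V'}`
  let W : Subgroup (G ⧸ V') := V.map (QuotientGroup.mk' V')
  let A : Rep.{0, 0, 0} ℤ ↥W := Rep.res W.subtype (B.quotientToInvariants V')
  have hout : ∀ w : ↥W, Quotient.out (w : G ⧸ V') ∈ V := by
    rintro ⟨w, s, hs, rfl⟩
    obtain ⟨h, hh⟩ := QuotientGroup.mk_out_eq_mul V' s
    show Quotient.out (QuotientGroup.mk s : G ⧸ V') ∈ V
    rw [hh]
    exact V.mul_mem hs (hle h.2)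
  let z : ↥W → A := fun w => ⟨x (Quotient.out (w : G ⧸ V')), fun s => hxi _ s.1 s.2⟩
  have hzval : ∀ w : ↥W, (z w).1 = x (Quotient.out (w : G ⧸ V')) := fun _ => rfl
  have hρ : ∀ (w : ↥W) (a : A), (A.ρ w a).1 = B.ρ (Quotient.out (w : G ⧸ V')) a.1 := by
    intro w a
    have key : ∀ (q : G ⧸ V') (g : G), q = QuotientGroup.mk g →
        ((B.quotientToInvariants V').ρ q a).1 = B.ρ g a.1 := by
      rintro _ g rfl
      rfl
    exact key _ _ (QuotientGroup.out_eq' _).symm
  have hz : z ∈ cocycles₁ A := by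
    rw [mem_cocycles₁_iff]
    intro w₁ w₂
    apply Subtype.ext
    show (z (w₁ * w₂)).1 = (A.ρ w₁ (z w₂)).1 + (z w₁).1
    rw [hρ, hzval, hzval, hzval]
    have e : ((w₁ * w₂ : ↥W) : G ⧸ V') =
        QuotientGroup.mk (Quotient.out (w₁ : G ⧸ V') * Quotient.out (w₂ : G ⧸ V')) := by
      rw [QuotientGroup.mk_mul, QuotientGroup.out_eq', QuotientGroup.out_eq']
      rfl
    rw [e, apply_out_eq V' x hxc]
    exact hcoc _ _ (hout w₁) (hout w₂)
  obtain ⟨b, hb⟩ := exists_cob_of_subsingleton_H1 A h1 z hz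
  refine ⟨b.1, fun s hs => b.2 ⟨s, hs⟩, fun s hs => ?_⟩
  have hw : (QuotientGroup.mk s : G ⧸ V') ∈ W := ⟨s, hs, rfl⟩
  have h2 : (A.ρ ⟨_, hw⟩ b - b).1 = (z ⟨_, hw⟩).1 := congrArg Subtype.val (hb ⟨_, hw⟩)
  have h3 : (A.ρ ⟨_, hw⟩ b - b).1 = B.ρ s b.1 - b.1 := rfl
  have h4 : (z ⟨_, hw⟩).1 = x s := apply_out_eq V' x hxc s
  rw [← h3, ← h4]
  exact h2

/-- **KL-QInf, core.**  Injectivity of inflation `H²(G ⧸ V, B^V) → H²(G ⧸ V', B^{V'})` in
cochain form, from `H¹(V ⧸ V', B^{V'}) = 0`. -/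
theorem qInf_core [V.Normal] (hle : V' ≤ V)
    (h1 : Subsingleton (H1 (Rep.res (V.map (QuotientGroup.mk' V')).subtype
      (B.quotientToInvariants V'))))
    (f : G × G → B)
    (hf : ∀ g h s t : G, s ∈ V → t ∈ V →
      f (g * s, h * t) = f (g, h) ∧ B.ρ s (f (g, h)) = f (g, h))
    (x : G → B) (hx : ∀ g s : G, s ∈ V' → x (g * s) = x g ∧ B.ρ s (x g) = x g)
    (hdx : (d₁₂ B).hom x = f) :
    ∃ y : G → B, (∀ g s : G, s ∈ V → y (g * s) = y g ∧ B.ρ s (y g) = y g) ∧
      (d₁₂ B).hom y = f := by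
  have hd : ∀ g h : G, f (g, h) = B.ρ g (x h) - x (g * h) + x g := by
    intro g h
    rw [← hdx]
    rfl
  have hc1 : f (1, 1) = x 1 := by
    rw [hd 1 1]
    simp
  have hcV : ∀ s ∈ V, B.ρ s (x 1) = x 1 := by
    intro s hs
    have := (hf 1 1 s 1 hs V.one_mem).2
    rwa [hc1] at this
  have hfV : ∀ s t : G, s ∈ V → t ∈ V → f (s, t) = x 1 := by
    intro s t hs ht
    have := (hf 1 1 s t hs ht).1
    rwa [one_mul, one_mul, hc1] at this
  have hx₁c : ∀ g s : G, s ∈ V' → x (g * s) - x 1 = x g - x 1 := by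
    intro g s hs
    rw [(hx g s hs).1]
  have hx₁i : ∀ g s : G, s ∈ V' → B.ρ s (x g - x 1) = x g - x 1 := by
    intro g s hs
    rw [map_sub, (hx g s hs).2, hcV s (hle hs)]
  have hcoc : ∀ s t : G, s ∈ V → t ∈ V →
      x (s * t) - x 1 = B.ρ s (x t - x 1) + (x s - x 1) := by
    intro s t hs ht
    have h2 := hd s t
    rw [hfV s t hs ht] at h2
    rw [map_sub, hcV s hs]
    have h3 : x (s * t) = B.ρ s (x t) + x s - x 1 := by
      rw [h2]
      abel
    rw [h3]
    abel
  obtain ⟨b, -, hb⟩ := exists_cob_on B V' V hle h1 (fun g => x g - x 1) hx₁c hx₁i hcoc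
  have hdy : ∀ g h : G, f (g, h) = B.ρ g (x h - (B.ρ h b - b)) -
      (x (g * h) - (B.ρ (g * h) b - b)) + (x g - (B.ρ g b - b)) := by
    intro g h
    rw [hd g h, map_sub, map_sub, map_mul]
    simp only [Module.End.mul_apply]
    abel
  have hyV : ∀ s ∈ V, x s - (B.ρ s b - b) = x 1 := by
    intro s hs
    rw [hb s hs]
    abel
  have hy1 : x 1 - (B.ρ 1 b - b) = x 1 := hyV 1 V.one_mem
  have hyr : ∀ g s : G, s ∈ V →
      x (g * s) - (B.ρ (g * s) b - b) = x g - (B.ρ g b - b) := by
    intro g s hs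
    have e1 := hdy g s
    have e2 := hdy g 1
    have e3 : f (g, s) = f (g, 1) := by
      have := (hf g 1 1 s V.one_mem hs).1
      rwa [mul_one, one_mul] at this
    rw [hyV s hs] at e1
    rw [hy1, mul_one] at e2
    rw [e3, e2] at e1
    have e4 : x (g * s) - (B.ρ (g * s) b - b) =
        (B.ρ g (x 1) - (x (g * s) - (B.ρ (g * s) b - b)) + (x g - (B.ρ g b - b))) -
          (B.ρ g (x 1) - (x g - (B.ρ g b - b)) + (x g - (B.ρ g b - b))) +
            (x (g * s) - (B.ρ (g * s) b - b)) := by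
      rw [← e1]
      abel
    rw [e4]
    abel
  refine ⟨fun g => x g - (B.ρ g b - b), fun g s hs => ⟨hyr g s hs, ?_⟩, ?_⟩
  · have e1 := hdy s g
    have e2 := hdy 1 g
    have e3 : f (s, g) = f (1, g) := by
      have := (hf 1 g s 1 hs V.one_mem).1
      rwa [one_mul, mul_one] at this
    rw [hyV s hs] at e1
    have hρ1 : ∀ a : B.V, B.ρ 1 a = a := fun a => by rw [map_one]; rfl
    rw [hy1, one_mul, hρ1] at e2
    have e5 : x (s * g) - (B.ρ (s * g) b - b) = x g - (B.ρ g b - b) := by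
      have : s * g = g * (g⁻¹ * s * g) := by group
      rw [this]
      exact hyr g _ (Subgroup.Normal.conj_mem' inferInstance s hs g)
    rw [e5, e3, e2] at e1
    show B.ρ s (x g - (B.ρ g b - b)) = x g - (B.ρ g b - b)
    have e6 : B.ρ s (x g - (B.ρ g b - b)) =
        (B.ρ s (x g - (B.ρ g b - b)) - (x g - (B.ρ g b - b)) + x 1) -
          ((x g - (B.ρ g b - b)) - (x g - (B.ρ g b - b)) + x 1) + (x g - (B.ρ g b - b)) := by
      abel
    rw [e6, ← e1]
    abel
  · rw [← hdx]
    funext ⟨g, h⟩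
    have e1 := hdy g h
    rw [hd g h] at e1
    show B.ρ g (x h - (B.ρ h b - b)) - (x (g * h) - (B.ρ (g * h) b - b)) +
      (x g - (B.ρ g b - b)) = B.ρ g (x h) - x (g * h) + x g
    exact e1.symm

end

end Fermat.Agent.S55.KL.H73

end
-- ===== PACK-END S55/KL/H73/QInfCore.lean

-- ===== PACK-BEGIN S55/H696/DevFixed.lean
section


/-!
# S55 / dévissage (helper696), part 2: invariant functionals for `p`-power actions

* `exists_fixed_ne_zero`         : a `p`-group acting additively on a finite abelian group of order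
                                   divisible by `p` has a nonzero fixed point;
* `exists_invariant_functional`  : let `ρ : Representation (ZMod p) H V` be such that every
  `ρ h` has `p`-power order, and let `N ≠ ⊥` be a stable finite-dimensional subspace.
  Then there is a linear form `ℓ` on `V`, invariant on `N`, which does not vanish on `N`;
* `rho_eq_one_of_finrank_eq_one` : if moreover `V` is one-dimensional then `ρ h = 1`.

Mathlib only.
-/

set_option autoImplicit false

noncomputable section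

namespace Fermat.Agent.S55.H696

/-- A `p`-group acting additively on a finite abelian group of order divisible by `p` has a
nonzero fixed point. -/
theorem exists_fixed_ne_zero {Γ M : Type*} [Group Γ] [AddCommGroup M] [DistribMulAction Γ M]
    [Finite M] {p : ℕ} [hp : Fact p.Prime] (hΓ : IsPGroup p Γ) (hM : p ∣ Nat.card M) :
    ∃ m : M, m ≠ 0 ∧ ∀ γ : Γ, γ • m = m := by
  classical
  have h1 : Nat.card M ≡ Nat.card (MulAction.fixedPoints Γ M) [MOD p] :=
    hΓ.card_modEq_card_fixedPoints M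
  have h0 : (0 : M) ∈ MulAction.fixedPoints Γ M := fun g => smul_zero g
  have hdvd : p ∣ Nat.card (MulAction.fixedPoints Γ M) :=
    (Nat.modEq_zero_iff_dvd).1 (h1.symm.trans (Nat.modEq_zero_iff_dvd.2 hM))
  have hpos : 0 < Nat.card (MulAction.fixedPoints Γ M) := Finite.card_pos_iff.2 ⟨⟨0, h0⟩⟩
  have hle : 2 ≤ Nat.card (MulAction.fixedPoints Γ M) :=
    hp.out.two_le.trans (Nat.le_of_dvd hpos hdvd)
  by_contra hcon
  simp only [not_exists, not_and, not_forall, ne_eq] at hcon
  have hsub : Subsingleton (MulAction.fixedPoints Γ M) := by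
    refine ⟨fun a b => ?_⟩
    have ha : (a : M) = 0 := by
      by_contra ha
      obtain ⟨γ, hγ⟩ := hcon a ha
      exact hγ (a.2 γ)
    have hb : (b : M) = 0 := by
      by_contra hb
      obtain ⟨γ, hγ⟩ := hcon b hb
      exact hγ (b.2 γ)
    exact Subtype.ext (ha.trans hb.symm)
  have : Nat.card (MulAction.fixedPoints Γ M) ≤ 1 := Finite.card_le_one_iff_subsingleton.2 hsub
  omega

section Functional

variable {p : ℕ} [hp : Fact p.Prime] {H V : Type} [Group H] [AddCommGroup V]
  [Module (ZMod p) V]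

/-- Invariant linear forms on a stable subspace, for an action through elements of `p`-power
order. -/
theorem exists_invariant_functional (ρ : Representation (ZMod p) H V)
    (hpow : ∀ h : H, ∃ n : ℕ, ρ (h ^ p ^ n) = 1)
    (N : Submodule (ZMod p) V) [FiniteDimensional (ZMod p) N] (hN : N ≠ ⊥)
    (hst : ∀ h : H, N ≤ N.comap (ρ h)) :
    ∃ ℓ : V →ₗ[ZMod p] ZMod p,
      (∀ (h : H) (n : V), n ∈ N → ℓ (ρ h n) = ℓ n) ∧ ∃ n₀ ∈ N, ℓ n₀ ≠ 0 := by
  classical
  -- the representation on `N` and its dual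
  let ρN : Representation (ZMod p) H N := ρ.subrepresentation N hst
  let ρD : Representation (ZMod p) H (Module.Dual (ZMod p) N) := ρN.dual
  let Γ : Subgroup (Module.End (ZMod p) (Module.Dual (ZMod p) N))ˣ :=
    (Representation.asGroupHom ρD).range
  have hΓ : IsPGroup p Γ := by
    rintro ⟨γ, hγ⟩
    obtain ⟨h, rfl⟩ := hγ
    obtain ⟨n, hn⟩ := hpow h
    refine ⟨n, ?_⟩
    apply Subtype.ext
    show (Representation.asGroupHom ρD h) ^ p ^ n = 1
    rw [← map_pow]
    apply Units.ext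
    show ρD (h ^ p ^ n) = 1
    have h1 : ρN (h ^ p ^ n) = 1 := by
      apply LinearMap.ext
      intro x
      apply Subtype.ext
      show ρ (h ^ p ^ n) (x : V) = x
      rw [hn]
      rfl
    apply LinearMap.ext
    intro f
    apply LinearMap.ext
    intro x
    show (ρN.dual (h ^ p ^ n) f) x = f x
    rw [Representation.dual_apply, Module.Dual.transpose_apply, LinearMap.comp_apply]
    have h2 : ρN ((h ^ p ^ n)⁻¹) = 1 := by
      have := map_mul ρN ((h ^ p ^ n)⁻¹) (h ^ p ^ n)
      rw [inv_mul_cancel, map_one, h1, mul_one] at this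
      exact this.symm
    rw [h2]
    rfl
  have : Finite (ZMod p) := inferInstance
  have : Finite (Module.Dual (ZMod p) N) := Module.finite_of_finite (ZMod p)
  have hcard : p ∣ Nat.card (Module.Dual (ZMod p) N) := by
    rw [Module.natCard_eq_pow_finrank (K := ZMod p), Nat.card_zmod, Subspace.dual_finrank_eq]
    have hpos : 0 < Module.finrank (ZMod p) N := by
      rw [Module.finrank_pos_iff]
      exact (Submodule.nontrivial_iff_ne_bot).2 hN
    exact dvd_pow_self p hpos.ne'
  obtain ⟨f, hf0, hfix⟩ := exists_fixed_ne_zero (Γ := Γ) (M := Module.Dual (ZMod p) N) hΓ hcard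
  -- invariance of `f`
  have hinv : ∀ (h : H) (x : N), f (ρN h x) = f x := by
    intro h x
    have h1 : (⟨Representation.asGroupHom ρD h⁻¹, ⟨h⁻¹, rfl⟩⟩ : Γ) • f = f := hfix _
    have h2 : ρD h⁻¹ f = f := h1
    have h3 := LinearMap.congr_fun h2 x
    rw [show ρD h⁻¹ f = (ρN.dual h⁻¹) f from rfl, Representation.dual_apply,
      Module.Dual.transpose_apply, LinearMap.comp_apply, inv_inv] at h3
    exact h3
  -- extend to `V`
  obtain ⟨ℓ, hℓ⟩ := LinearMap.exists_extend f
  have hℓ' : ∀ x : N, ℓ (x : V) = f x := fun x => LinearMap.congr_fun hℓ x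
  refine ⟨ℓ, fun h n hn => ?_, ?_⟩
  · have := hinv h ⟨n, hn⟩
    rw [← hℓ', ← hℓ'] at this
    exact this
  · obtain ⟨x, hx⟩ : ∃ x : N, f x ≠ 0 := by
      by_contra hcon
      simp only [not_exists, not_not] at hcon
      exact hf0 (LinearMap.ext hcon)
    exact ⟨x, x.2, by rw [hℓ']; exact hx⟩

/-- An action on a line over `ZMod p` through elements of `p`-power order is trivial. -/
theorem rho_eq_one_of_finrank_eq_one (ρ : Representation (ZMod p) H V)
    (hV : Module.finrank (ZMod p) V = 1) (h : H) (n : ℕ) (hn : ρ (h ^ p ^ n) = 1) :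
    ρ h = 1 := by
  obtain ⟨m₀, hm₀⟩ := finrank_eq_one_iff'.1 hV
  obtain ⟨c, hc⟩ := hm₀.2 (ρ h m₀)
  have hpowc : ∀ j : ℕ, ρ (h ^ j) m₀ = c ^ j • m₀ := by
    intro j
    induction j with
    | zero => simp
    | succ j ih =>
      rw [pow_succ', map_mul, Module.End.mul_apply, ih, map_smul, ← hc, smul_smul, pow_succ]
  have hcp : ∀ j : ℕ, c ^ p ^ j = c := by
    intro j
    induction j with
    | zero => simp
    | succ j ih => rw [pow_succ, pow_mul, ih, ZMod.pow_card]
  have h1 : c • m₀ = m₀ := by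
    have := hpowc (p ^ n)
    rw [hn, hcp] at this
    exact this.symm
  apply LinearMap.ext
  intro v
  obtain ⟨a, rfl⟩ := hm₀.2 v
  rw [map_smul, ← hc, h1]
  rfl

end Functional

end Fermat.Agent.S55.H696

end

end
-- ===== PACK-END S55/H696/DevFixed.lean

-- ===== PACK-BEGIN S55/KC/ResQuotH323.lean
section


/-!
# S55 / layer KC: a formal dictionary for finite-level cohomology of subgroups   (helper323)

For a group `G`, a normal subgroup `V`, a subgroup `H'` of `G ⧸ V` with preimage `U` in `G`, and a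
representation `A` of `G`:

  `Hⁿ(H', Res_{H'} (A^V))  ≅  Hⁿ(U ⧸ (V ∩ U), (Res_U A)^{V ∩ U})`      (`resQuotIso_h323`)

(both sides are the cohomology of "the same" group acting on "the same" module `A^V`), together
with `Nat.card (U ⧸ V ∩ U) = Nat.card H'`.  Mathlib only.
-/

set_option autoImplicit false

noncomputable section

namespace Fermat.Agent.S55.KC.H323

open groupCohomology CategoryTheory

variable {k G : Type} [CommRing k] [Group G]

section Group

variable (V : Subgroup G) [V.Normal] (H' : Subgroup (G ⧸ V))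

/-- The preimage of `H' ≤ G ⧸ V` in `G`. -/
abbrev preimg_h323 : Subgroup G := H'.comap (QuotientGroup.mk' V)

lemma le_preimg_h323 : V ≤ preimg_h323 V H' := by
  intro v hv
  show QuotientGroup.mk' V v ∈ H'
  have h1 : QuotientGroup.mk' V v = 1 := (QuotientGroup.eq_one_iff v).2 hv
  rw [h1]
  exact H'.one_mem

/-- The projection `U → H'`. -/
def toSub_h323 : ↥(preimg_h323 V H') →* ↥H' where
  toFun u := ⟨QuotientGroup.mk' V u.1, u.2⟩
  map_one' := rfl
  map_mul' _ _ := rfl

lemma toSub_h323_surjective : Function.Surjective (toSub_h323 V H') := by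
  rintro ⟨x, hx⟩
  obtain ⟨g, rfl⟩ := QuotientGroup.mk'_surjective V x
  exact ⟨⟨g, hx⟩, rfl⟩

lemma toSub_h323_ker : (toSub_h323 V H').ker = V.subgroupOf (preimg_h323 V H') := by
  ext u
  rw [MonoidHom.mem_ker, Subgroup.mem_subgroupOf]
  constructor
  · intro h
    have h1 : (QuotientGroup.mk' V (u : G) : G ⧸ V) = 1 := congrArg Subtype.val h
    exact (QuotientGroup.eq_one_iff _).1 h1
  · intro h
    exact Subtype.ext ((QuotientGroup.eq_one_iff (u : G)).2 h)

/-- `U ⧸ (V ∩ U) ≃* H'`. -/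
def quotEquiv_h323 : (↥(preimg_h323 V H') ⧸ V.subgroupOf (preimg_h323 V H')) ≃* ↥H' :=
  (QuotientGroup.quotientMulEquivOfEq (toSub_h323_ker V H').symm).trans
    (QuotientGroup.quotientKerEquivOfSurjective (toSub_h323 V H') (toSub_h323_surjective V H'))

lemma quotEquiv_h323_mk (u : ↥(preimg_h323 V H')) :
    quotEquiv_h323 V H' (QuotientGroup.mk u) = toSub_h323 V H' u := rfl

lemma card_quot_h323 :
    Nat.card (↥(preimg_h323 V H') ⧸ V.subgroupOf (preimg_h323 V H')) = Nat.card ↥H' :=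
  Nat.card_congr (quotEquiv_h323 V H').toEquiv

end Group

section Rep

variable (A : Rep.{0, 0, 0} k G) (V : Subgroup G) [V.Normal] (H' : Subgroup (G ⧸ V))

/-- The source: `(Res_U A)^{V ∩ U}` as a representation of `U ⧸ (V ∩ U)`. -/
abbrev srcRep_h323 : Rep.{0, 0, 0} k (↥(preimg_h323 V H') ⧸ V.subgroupOf (preimg_h323 V H')) :=
  (Rep.res (preimg_h323 V H').subtype A).quotientToInvariants (V.subgroupOf (preimg_h323 V H'))

/-- The target: `Res_{H'} (A^V)` as a representation of `H'`. -/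
abbrev tgtRep_h323 : Rep.{0, 0, 0} k ↥H' :=
  Rep.res H'.subtype (A.quotientToInvariants V)

/-- The identity `(Res_U A)^{V ∩ U} → A^V`. -/
def srcToTgt_h323 : (srcRep_h323 A V H').V →ₗ[k] (tgtRep_h323 A V H').V where
  toFun a := ⟨a.1, fun v => a.2 ⟨⟨v.1, le_preimg_h323 V H' v.2⟩, v.2⟩⟩
  map_add' _ _ := rfl
  map_smul' _ _ := rfl

/-- The identity `A^V → (Res_U A)^{V ∩ U}`. -/
def tgtToSrc_h323 : (tgtRep_h323 A V H').V →ₗ[k] (srcRep_h323 A V H').V where
  toFun a := ⟨a.1, fun v => a.2 ⟨v.1.1, v.2⟩⟩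
  map_add' _ _ := rfl
  map_smul' _ _ := rfl

/-- `(Res_U A)^{V ∩ U} ≃ A^V`. -/
def srcEquivTgt_h323 : (srcRep_h323 A V H').V ≃ₗ[k] (tgtRep_h323 A V H').V where
  toLinearMap := srcToTgt_h323 A V H'
  invFun := tgtToSrc_h323 A V H'
  left_inv _ := rfl
  right_inv _ := rfl

lemma srcEquivTgt_h323_equivariant
    (g : ↥(preimg_h323 V H') ⧸ V.subgroupOf (preimg_h323 V H')) :
    (srcEquivTgt_h323 A V H').toLinearMap ∘ₗ (srcRep_h323 A V H').ρ g =
      (tgtRep_h323 A V H').ρ (quotEquiv_h323 V H' g) ∘ₗ (srcEquivTgt_h323 A V H').toLinearMap := by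
  induction g using QuotientGroup.induction_on with
  | H u =>
    refine LinearMap.ext fun a => ?_
    apply Subtype.ext
    rfl

/-- **The dictionary.**  `Hⁿ(U ⧸ (V ∩ U), (Res_U A)^{V ∩ U}) ≅ Hⁿ(H', Res_{H'} (A^V))`. -/
def resQuotIso_h323 (n : ℕ) :
    groupCohomology (srcRep_h323 A V H') n ≅ groupCohomology (tgtRep_h323 A V H') n :=
  groupCohomology.mapIso (quotEquiv_h323 V H') (srcEquivTgt_h323 A V H')
    (srcEquivTgt_h323_equivariant A V H') n

end Rep

end Fermat.Agent.S55.KC.H323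

end

end
-- ===== PACK-END S55/KC/ResQuotH323.lean

-- ===== PACK-BEGIN S55/G/Rec/Hilbert90H844.lean
section


/-!
# S55 / G / REC, leaf K5 (helper844): Hilbert 90 for level-constant cocycles

Abstract (Mathlib-only) statement.  Let a group `H` act on a field `Ω` by automorphisms, let
`N ≤ H` be a subgroup of finite index and `ι : T →* Ω` a multiplicative map whose image is fixed
pointwise by exactly the elements of `N` (think: `T = E`, a finite extension, `N = Gal(Ω/E) ∩ H`).
Then every 1-cocycle `X : H → Ωˣ` which is constant on the cosets `g N` is a coboundary: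
there is `β ∈ Ωˣ` with `g • β * X g = β`.

The proof is the classical one: the Poincaré series `∑_{t ∈ H/N} X(t) · t(θ)` does not vanish for
a suitable `θ ∈ T` by Dedekind's independence of characters.
-/

set_option autoImplicit false
set_option linter.unusedSectionVars false
set_option linter.style.haveILetI false

namespace Fermat.Agent.S55.G.Rec.H844

theorem exists_unit_of_levelCocycle844 {H Ω T : Type*} [Group H] [Field Ω]
    [MulSemiringAction H Ω] [Monoid T] (ι : T →* Ω) (N : Subgroup H) [Finite (H ⧸ N)]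
    (hN : ∀ g : H, (∀ θ : T, g • ι θ = ι θ) → g ∈ N)
    (hN' : ∀ g ∈ N, ∀ θ : T, g • ι θ = ι θ)
    (X : H → Ωˣ) (hX : ∀ g h, (X (g * h) : Ω) = g • (X h : Ω) * X g)
    (hXN : ∀ g, ∀ s ∈ N, X (g * s) = X g) :
    ∃ β : Ωˣ, ∀ g : H, g • (β : Ω) * X g = β := by
  classical
  haveI : Fintype (H ⧸ N) := Fintype.ofFinite _
  -- the characters `ψ_g : T →* Ω`, `θ ↦ g • ι θ`
  obtain ⟨ψ, hψ_apply⟩ : ∃ ψ : H → (T →* Ω), ∀ g θ, ψ g θ = g • ι θ :=
    ⟨fun g => ((MulSemiringAction.toRingHom H Ω g : Ω →+* Ω) : Ω →* Ω).comp ι, fun g θ => rfl⟩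
  have hψ : ∀ g, ∀ s ∈ N, ψ (g * s) = ψ g := by
    intro g s hs
    ext θ
    rw [hψ_apply, hψ_apply, mul_smul, hN' s hs θ]
  have hψinj : ∀ g g', ψ g = ψ g' → g⁻¹ * g' ∈ N := by
    intro g g' h
    apply hN
    intro θ
    have := DFunLike.congr_fun h θ
    rw [hψ_apply, hψ_apply] at this
    rw [mul_smul, ← this, inv_smul_smul]
  have hinj : Function.Injective (fun t : H ⧸ N => ψ (Quotient.out t)) := by
    intro t t' h
    have := hψinj _ _ h
    rw [← QuotientGroup.eq, QuotientGroup.out_eq', QuotientGroup.out_eq'] at this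
    exact this
  have hli' : LinearIndependent Ω (fun t : H ⧸ N => (ψ (Quotient.out t) : T → Ω)) :=
    (linearIndependent_monoidHom T Ω).comp _ hinj
  -- nonvanishing of the Poincaré series
  have hex : ∃ θ : T, ∑ t : H ⧸ N, (X (Quotient.out t) : Ω) * ψ (Quotient.out t) θ ≠ 0 := by
    by_contra hcon
    push Not at hcon
    have h0 : ∑ t : H ⧸ N, (X (Quotient.out t) : Ω) • (ψ (Quotient.out t) : T → Ω) = 0 := by
      ext θ
      rw [Finset.sum_apply]
      simpa using hcon θ
    have := Fintype.linearIndependent_iff.mp hli' _ h0 ((1 : H) : H ⧸ N)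
    exact (X _).ne_zero this
  obtain ⟨θ, hθ⟩ := hex
  -- `F g = X g * g • ι θ` is constant on cosets
  obtain ⟨F, hF⟩ : ∃ F : H → Ω, ∀ g, F g = (X g : Ω) * ψ g θ := ⟨_, fun _ => rfl⟩
  have hFN : ∀ g, ∀ s ∈ N, F (g * s) = F g := by
    intro g s hs
    rw [hF, hF, hXN g s hs, hψ g s hs]
  have hFbar : ∀ g : H, F g = F (Quotient.out (g : H ⧸ N)) := by
    intro g
    have hmem : g⁻¹ * Quotient.out (g : H ⧸ N) ∈ N := by
      rw [← QuotientGroup.eq, QuotientGroup.out_eq']
    have := hFN g _ hmem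
    rw [← this]
    congr 1
    group
  refine ⟨Units.mk0 _ hθ, fun g => ?_⟩
  rw [Units.val_mk0, Finset.smul_sum, Finset.sum_mul]
  calc ∑ t : H ⧸ N, g • ((X (Quotient.out t) : Ω) * ψ (Quotient.out t) θ) * (X g : Ω)
      = ∑ t : H ⧸ N, F (Quotient.out (g • t)) := by
        refine Finset.sum_congr rfl fun t _ => ?_
        have h1 : g • ((X (Quotient.out t) : Ω) * ψ (Quotient.out t) θ) * (X g : Ω) =
            F (g * Quotient.out t) := by
          rw [hF, hψ_apply, hψ_apply, smul_mul', hX, mul_smul]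
          ring
        rw [h1, hFbar (g * Quotient.out t)]
        congr 2
        conv_rhs => rw [← QuotientGroup.out_eq' t]
        rfl
    _ = ∑ t : H ⧸ N, F (Quotient.out t) :=
        Fintype.sum_equiv (MulAction.toPerm g) _ _ (fun t => rfl)
    _ = ∑ t : H ⧸ N, (X (Quotient.out t) : Ω) * ψ (Quotient.out t) θ :=
        Finset.sum_congr rfl fun t _ => hF _

end Fermat.Agent.S55.G.Rec.H844

end
-- ===== PACK-END S55/G/Rec/Hilbert90H844.lean

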