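import Mathlib
import Fermat.Prelude.Def_ExtCitation_AdmissibleExtension_v2
import Fermat.Prelude.Def_GaloisRep_Residual
import Fermat.Prelude.Def_GaloisRep_LocalConditions
import Fermat.Agent.Pack.S43GC.G0E0L3

-- ===== PACK-BEGIN S55/G/Defs.lean
section
/-
S55 (Poitou–Tate), layer G (global class field theory) — DEFINITIONS, part 1.
Sub-architect: helper421.   Plan: `coord/S55-G.md` on `origin/helper421`.

The finite-level global modules of the roadmap (`origin/helper55:coord/S55.md`), in an
INTRINSIC model valid for every number field `L` (a type in universe `0`) and every group `G`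
acting on `L` by field automorphisms (`[MulSemiringAction G L]`; typical cases: `G = L ≃ₐ[K] L`,
a subgroup of it, a quotient acting on a fixed field — see Mathlib's `IsGaloisGroup G K L`).

* `Qq q = ℚ_q`, `QS S = ∏_{q ∈ S} ℚ_q`, `AS S L = L ⊗[ℚ] QS S  (≃ ∏_{w | q ∈ S} L_w)`;
* `LRep G L     = Lˣ`;
* `JRep S G L   = (AS S L)ˣ`            (the `S`-idèles; NO archimedean component);
* `DivRep S G L = ℤ[primes of L not above S]`   (divisors prime to `S`);
* `diagHom S G L : LRep ⟶ JRep × DivRep`,  `x ↦ (x ⊗ 1, div x)`;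
* `CRep S G L   = (JRep × DivRep) / Lˣ`  (the `S`-idèle class group `C_S(L)`);
* `sUnit S L    = ker (Lˣ → Div^S)`      (the `S`-units), `ERep S G L`.

All modules are `Rep ℤ G` with `G : Type` (universe `0`, as required by Mathlib's
`groupCohomology`).  No instance is declared globally on Mathlib types: every action is an
explicit definition.  This file contains no `sorry`.
-/


set_option autoImplicit false
set_option linter.unusedSectionVars false

open scoped NumberField TensorProduct
open IsDedekindDomain CategoryTheory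

noncomputable section

namespace Fermat.Agent.S55.G

/-! ## 1. The semi-local ring `ℚ_S` and the `S`-adèle ring `L ⊗ ℚ_S` -/

/-- `ℚ_q` for a bundled prime `q` (reducible: every Mathlib instance on `ℚ_[q]` applies). -/
abbrev Qq (q : Nat.Primes) : Type := @Padic (q : ℕ) ⟨q.2⟩

/-- `Qq ⟨q, _⟩` is `ℚ_[q]` (definitionally). -/
lemma Qq_mk (q : ℕ) [hq : Fact q.Prime] : Qq ⟨q, hq.out⟩ = ℚ_[q] := rfl

/-- The semi-local ring `ℚ_S = ∏_{q ∈ S} ℚ_q`.  A `def` (not an `abbrev`) with its own
`CommRing` and `Algebra ℚ` instances: this keeps instance search on `L ⊗[ℚ] QS S` fast and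
robust.  Use `QS.toPi` to go to the product. -/
def QS (S : Finset Nat.Primes) : Type := ∀ q : S, Qq q.1

instance QS.instCommRing (S : Finset Nat.Primes) : CommRing (QS S) :=
  inferInstanceAs (CommRing (∀ q : S, Qq q.1))

instance QS.instAlgebra (S : Finset Nat.Primes) : Algebra ℚ (QS S) :=
  inferInstanceAs (Algebra ℚ (∀ q : S, Qq q.1))

/-- `ℚ_S` is the product of the `ℚ_q`, `q ∈ S` (the identity map). -/
def QS.toPi (S : Finset Nat.Primes) : QS S ≃ₐ[ℚ] (∀ q : S, Qq q.1) := AlgEquiv.refl

/-- The projection `ℚ_S → ℚ_q`. -/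
def QS.proj (S : Finset Nat.Primes) (q : S) : QS S →ₐ[ℚ] Qq q.1 :=
  (Pi.evalAlgHom ℚ (fun q : S => Qq q.1) q).comp (QS.toPi S).toAlgHom

@[simp] lemma QS.proj_apply (S : Finset Nat.Primes) (q : S) (x : QS S) :
    QS.proj S q x = QS.toPi S x q := rfl

/-- The ring of `S`-adèles `𝔸_S(L) = L ⊗_ℚ ℚ_S` of a field `L` of characteristic `0`. -/
abbrev AS (S : Finset Nat.Primes) (L : Type) [Field L] [CharZero L] : Type := L ⊗[ℚ] QS S

section Action

variable (S : Finset Nat.Primes) (G L : Type) [Group G] [Field L] [CharZero L]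
  [MulSemiringAction G L]

/-- The automorphism of `L` over `ℚ` given by `g ∈ G`. -/
def fieldAut : G →* (L ≃ₐ[ℚ] L) where
  toFun g := (MulSemiringAction.toRingEquiv G L g).toRatAlgEquiv
  map_one' := by ext x; simp
  map_mul' g h := by ext x; simp

@[simp] lemma fieldAut_apply (g : G) (x : L) : fieldAut G L g x = g • x := rfl

/-- The action of `G` on `𝔸_S(L) = L ⊗ ℚ_S` through the first factor. -/
def asAut : G →* (AS S L ≃ₐ[ℚ] AS S L) where
  toFun g := Algebra.TensorProduct.congr (fieldAut G L g) AlgEquiv.refl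
  map_one' := by
    rw [map_one]
    exact Algebra.TensorProduct.congr_refl
  map_mul' g h := by
    rw [map_mul]
    ext x
    induction x using TensorProduct.induction_on with
    | zero => simp
    | tmul a b => simp
    | add a b ha hb => simp only [map_add, ha, hb]

@[simp] lemma asAut_tmul (g : G) (x : L) (y : QS S) :
    asAut S G L g (x ⊗ₜ[ℚ] y) = (g • x) ⊗ₜ[ℚ] y := by
  simp [asAut]

/-- The diagonal embedding `L → 𝔸_S(L)`, `x ↦ x ⊗ 1`. -/
def asDiag : L →ₐ[ℚ] AS S L := Algebra.TensorProduct.includeLeft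

@[simp] lemma asDiag_apply (x : L) : asDiag S L x = x ⊗ₜ[ℚ] (1 : QS S) := rfl

lemma asAut_asDiag (g : G) (x : L) : asAut S G L g (asDiag S L x) = asDiag S L (g • x) := by
  simp

/-- The inclusion of the second factor `ℚ_S → 𝔸_S(L)`. -/
def asIncl : QS S →ₐ[ℚ] AS S L := Algebra.TensorProduct.includeRight

lemma asAut_asIncl (g : G) (y : QS S) : asAut S G L g (asIncl S L y) = asIncl S L y := by
  simp [asIncl]

end Action

/-! ## 2. Units as representations -/

section UnitsRep

variable (G : Type) [Group G]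

/-- The `ℤ`-linear representation of `G` on `Additive Rˣ` attached to an action
`φ : G →* (R ≃+* R)` of `G` on a commutative ring `R` by ring automorphisms. -/
def unitsRepr {R : Type} [CommRing R] (φ : G →* (R ≃+* R)) :
    Representation ℤ G (Additive Rˣ) where
  toFun g := (MonoidHom.toAdditive (Units.map ((φ g : R ≃+* R) : R →* R))).toIntLinearMap
  map_one' := by
    refine LinearMap.ext fun x => ?_
    have h : Units.map ((φ 1 : R ≃+* R) : R →* R) x.toMul = x.toMul := Units.ext (by simp)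
    exact congrArg Additive.ofMul h
  map_mul' g h := by
    refine LinearMap.ext fun x => ?_
    have h : Units.map ((φ (g * h) : R ≃+* R) : R →* R) x.toMul =
        Units.map ((φ g : R ≃+* R) : R →* R) (Units.map ((φ h : R ≃+* R) : R →* R) x.toMul) :=
      Units.ext (by simp)
    exact congrArg Additive.ofMul h

@[simp] lemma unitsRepr_apply {R : Type} [CommRing R] (φ : G →* (R ≃+* R)) (g : G)
    (x : Additive Rˣ) :
    unitsRepr G φ g x = Additive.ofMul (Units.map ((φ g : R ≃+* R) : R →* R) x.toMul) := rfl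

lemma coe_unitsRepr_apply {R : Type} [CommRing R] (φ : G →* (R ≃+* R)) (g : G)
    (x : Additive Rˣ) :
    (((unitsRepr G φ g x).toMul : Rˣ) : R) = φ g ((x.toMul : Rˣ) : R) := rfl

variable (S : Finset Nat.Primes) (L : Type) [Field L] [CharZero L] [MulSemiringAction G L]

/-- The action of `G` on `𝔸_S(L)` as a homomorphism to ring automorphisms. -/
def asRingAut : G →* (AS S L ≃+* AS S L) where
  toFun g := (asAut S G L g).toRingEquiv
  map_one' := by rw [map_one]; rfl
  map_mul' g h := by rw [map_mul]; rfl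

@[simp] lemma asRingAut_apply (g : G) (x : AS S L) : asRingAut G S L g x = asAut S G L g x := rfl

/-- The representation of `G` on `Lˣ` (additively). -/
def lRepr : Representation ℤ G (Additive Lˣ) := unitsRepr G (MulSemiringAction.toRingEquiv G L)

/-- The representation of `G` on the `S`-idèles `J_S(L) = (L ⊗ ℚ_S)ˣ` (additively). -/
def jRepr : Representation ℤ G (Additive (AS S L)ˣ) := unitsRepr G (asRingAut G S L)

/-- `Lˣ` as an object of `Rep ℤ G`. -/
def LRep : Rep ℤ G := Rep.of (lRepr G L)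

/-- The `S`-idèle group `J_S(L) = (L ⊗_ℚ ℚ_S)ˣ` as an object of `Rep ℤ G`. -/
def JRep : Rep ℤ G := Rep.of (jRepr G S L)

omit [CharZero L] in
lemma coe_lRepr_apply (g : G) (x : Additive Lˣ) :
    (((lRepr G L g x).toMul : Lˣ) : L) = g • ((x.toMul : Lˣ) : L) := rfl

lemma coe_jRepr_apply (g : G) (x : Additive (AS S L)ˣ) :
    (((jRepr G S L g x).toMul : (AS S L)ˣ) : AS S L) =
      asAut S G L g ((x.toMul : (AS S L)ˣ) : AS S L) := rfl

/-- The diagonal map `Lˣ → J_S(L)`, additively. -/
def unitsDiag : Additive Lˣ →+ Additive (AS S L)ˣ :=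
  MonoidHom.toAdditive (Units.map ((asDiag S L : L →ₐ[ℚ] AS S L) : L →* AS S L))

lemma coe_unitsDiag_apply (x : Additive Lˣ) :
    (((unitsDiag S L x).toMul : (AS S L)ˣ) : AS S L) = asDiag S L ((x.toMul : Lˣ) : L) := rfl

lemma unitsDiag_equivariant (g : G) (x : Additive Lˣ) :
    unitsDiag S L (lRepr G L g x) = jRepr G S L g (unitsDiag S L x) := by
  apply Additive.toMul.injective
  apply Units.ext
  rw [coe_unitsDiag_apply, coe_jRepr_apply, coe_unitsDiag_apply, coe_lRepr_apply, asAut_asDiag]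

end UnitsRep

/-! ## 3. Primes outside `S`, divisors prime to `S` -/

section Primes

open scoped Pointwise

variable (S : Finset Nat.Primes) (G L : Type) [Group G] [Field L] [NumberField L]
  [MulSemiringAction G L]

/-- A finite prime `w` of `L` lies above `S` if its residue characteristic is in `S`. -/
def IsAbove (w : HeightOneSpectrum (𝓞 L)) : Prop :=
  ∃ q ∈ S, ((q : ℕ) : 𝓞 L) ∈ w.asIdeal

/-- The finite primes of `L` not above `S`. -/
def PrimeOut : Type := {w : HeightOneSpectrum (𝓞 L) // ¬ IsAbove S L w}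

/-- The finite primes of `L` above `S`. -/
def PrimeIn : Type := {w : HeightOneSpectrum (𝓞 L) // IsAbove S L w}

variable {L} in
/-- The action of `g ∈ G` on the finite primes of `L`: `w ↦ g(w)`. -/
def primeSMul (g : G) (w : HeightOneSpectrum (𝓞 L)) : HeightOneSpectrum (𝓞 L) where
  asIdeal := g • w.asIdeal
  isPrime := by
    rw [Ideal.pointwise_smul_def]
    exact Ideal.map_isPrime_of_equiv (MulSemiringAction.toRingEquiv G (𝓞 L) g)
  ne_bot := by
    intro h
    apply w.ne_bot
    rw [eq_bot_iff] at h ⊢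
    intro x hx
    have := h (Ideal.smul_mem_pointwise_smul_iff.2 hx : g • x ∈ g • w.asIdeal)
    exact (smul_eq_zero_iff_eq g).1 this

omit [NumberField L] in
variable {L} in
@[simp] lemma primeSMul_asIdeal (g : G) (w : HeightOneSpectrum (𝓞 L)) :
    (primeSMul G g w).asIdeal = g • w.asIdeal := rfl

omit [NumberField L] in
variable {L} in
lemma mem_primeSMul_iff (g : G) (w : HeightOneSpectrum (𝓞 L)) (x : 𝓞 L) :
    x ∈ (primeSMul G g w).asIdeal ↔ g⁻¹ • x ∈ w.asIdeal :=
  Ideal.mem_pointwise_smul_iff_inv_smul_mem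

/-- The action of `G` on the finite primes of `L` (a definition, NOT a global instance). -/
abbrev primeAction : MulAction G (HeightOneSpectrum (𝓞 L)) where
  smul g w := primeSMul G g w
  one_smul w := HeightOneSpectrum.ext (one_smul G w.asIdeal)
  mul_smul g h w := HeightOneSpectrum.ext (mul_smul g h w.asIdeal)

omit [NumberField L] in
variable {L} in
lemma isAbove_primeSMul_iff (g : G) (w : HeightOneSpectrum (𝓞 L)) :
    IsAbove S L (primeSMul G g w) ↔ IsAbove S L w := by
  unfold IsAbove
  have key : ∀ n : ℕ, g⁻¹ • ((n : ℕ) : 𝓞 L) = n := fun n =>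
    map_natCast (MulSemiringAction.toRingHom G (𝓞 L) g⁻¹) n
  simp only [mem_primeSMul_iff, key]

/-- The action of `G` on the finite primes of `L` not above `S`
(a definition, NOT a global instance). -/
abbrev primeOutAction : MulAction G (PrimeOut S L) where
  smul g w := ⟨primeSMul G g w.1, fun h => w.2 ((isAbove_primeSMul_iff S G g w.1).1 h)⟩
  one_smul w := Subtype.ext (HeightOneSpectrum.ext (one_smul G w.1.asIdeal))
  mul_smul g h w := Subtype.ext (HeightOneSpectrum.ext (mul_smul g h w.1.asIdeal))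

/-- The permutation of the primes outside `S` given by `g`. -/
def primeOutMap (g : G) (w : PrimeOut S L) : PrimeOut S L :=
  (primeOutAction S G L).smul g w

lemma primeOutMap_val (g : G) (w : PrimeOut S L) :
    (primeOutMap S G L g w).1 = primeSMul G g w.1 := rfl

lemma primeOutMap_one (w : PrimeOut S L) : primeOutMap S G L 1 w = w :=
  (primeOutAction S G L).one_smul w

lemma primeOutMap_mul (g h : G) (w : PrimeOut S L) :
    primeOutMap S G L (g * h) w = primeOutMap S G L g (primeOutMap S G L h w) :=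
  (primeOutAction S G L).mul_smul g h w

/-- The representation of `G` on the divisors prime to `S`:
`Div^S(L) = ℤ[primes of L not above S]`, `g • [w] = [g w]`. -/
def divRepr : Representation ℤ G (PrimeOut S L →₀ ℤ) where
  toFun g := Finsupp.lmapDomain ℤ ℤ (primeOutMap S G L g)
  map_one' := by
    refine LinearMap.ext fun x => ?_
    have : primeOutMap S G L 1 = id := funext (primeOutMap_one S G L)
    simp [this]
  map_mul' g h := by
    refine LinearMap.ext fun x => ?_
    have : primeOutMap S G L (g * h) = primeOutMap S G L g ∘ primeOutMap S G L h :=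
      funext (primeOutMap_mul S G L g h)
    simp [this, Finsupp.mapDomain_comp]

@[simp] lemma divRepr_single (g : G) (w : PrimeOut S L) (n : ℤ) :
    divRepr S G L g (Finsupp.single w n) = Finsupp.single (primeOutMap S G L g w) n := by
  simp [divRepr]

/-- `Div^S(L)` as an object of `Rep ℤ G`. -/
def DivRep : Rep ℤ G := Rep.of (divRepr S G L)

end Primes

/-! ## 4. The order maps `ord_w : Lˣ → ℤ` and the divisor map -/

section Ord

open scoped Pointwise

variable (S : Finset Nat.Primes) (G L : Type) [Group G] [Field L] [NumberField L]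
  [MulSemiringAction G L]

variable {L} in
/-- The order of `x ∈ Lˣ` at the finite prime `w`, normalised by `ord_w(uniformiser) = 1`:
`ord_w x = - log (w.valuation L x)`. -/
def ordAt (w : HeightOneSpectrum (𝓞 L)) : Additive Lˣ →+ ℤ where
  toFun x := - WithZero.log (w.valuation L ((x.toMul : Lˣ) : L))
  map_zero' := by simp
  map_add' x y := by
    have hx : w.valuation L ((x.toMul : Lˣ) : L) ≠ 0 := by simp
    have hy : w.valuation L ((y.toMul : Lˣ) : L) ≠ 0 := by simp
    simp only [toMul_add, Units.val_mul, map_mul, WithZero.log_mul hx hy, neg_add]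

variable {L} in
lemma ordAt_apply (w : HeightOneSpectrum (𝓞 L)) (x : Additive Lˣ) :
    ordAt w x = - WithZero.log (w.valuation L ((x.toMul : Lˣ) : L)) := rfl

variable {L} in
lemma valuation_eq_exp_neg_ordAt (w : HeightOneSpectrum (𝓞 L)) (x : Additive Lˣ) :
    w.valuation L ((x.toMul : Lˣ) : L) = WithZero.exp (- ordAt w x) := by
  have hx : w.valuation L ((x.toMul : Lˣ) : L) ≠ 0 := by simp
  rw [ordAt_apply, neg_neg, WithZero.exp_log hx]

variable {L} in
lemma ordAt_eq_zero_iff (w : HeightOneSpectrum (𝓞 L)) (x : Additive Lˣ) :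
    ordAt w x = 0 ↔ w.valuation L ((x.toMul : Lˣ) : L) = 1 := by
  rw [valuation_eq_exp_neg_ordAt, WithZero.exp_eq_one, neg_eq_zero]

variable {L} in
lemma ordAt_support_finite (x : Additive Lˣ) :
    {w : HeightOneSpectrum (𝓞 L) | ordAt w x ≠ 0}.Finite := by
  have h1 := HeightOneSpectrum.Support.finite (𝓞 L) ((x.toMul : Lˣ) : L)
  have h2 := HeightOneSpectrum.Support.finite (𝓞 L) (((x.toMul)⁻¹ : Lˣ) : L)
  refine (h1.union h2).subset fun w hw => ?_
  simp only [Set.mem_ofPred_eq, ne_eq, ordAt_eq_zero_iff] at hw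
  rcases lt_or_gt_of_ne hw with h | h
  · right
    simp only [HeightOneSpectrum.Support, Set.mem_ofPred_eq, Units.val_inv_eq_inv_val, map_inv₀]
    exact (one_lt_inv₀ (by simp [zero_lt_iff])).2 h
  · left
    exact h

/-- The divisor map `Lˣ → Div^S(L)`, `x ↦ ∑_{w ∉ S} ord_w(x) [w]`. -/
def ordHom : Additive Lˣ →+ (PrimeOut S L →₀ ℤ) where
  toFun x := Finsupp.ofSupportFinite (fun w : PrimeOut S L => ordAt w.1 x)
    ((ordAt_support_finite x).preimage Subtype.val_injective.injOn)
  map_zero' := by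
    ext w
    simp [Finsupp.ofSupportFinite_coe]
  map_add' x y := by
    ext w
    exact map_add (ordAt w.1) x y

@[simp] lemma ordHom_apply (x : Additive Lˣ) (w : PrimeOut S L) :
    ordHom S L x w = ordAt w.1 x := rfl

variable {L} in
lemma primeSMul_pow_mem_iff (g : G) (w : HeightOneSpectrum (𝓞 L)) (r : 𝓞 L) (n : ℕ) :
    g • r ∈ (primeSMul G g w).asIdeal ^ n ↔ r ∈ w.asIdeal ^ n := by
  have : (primeSMul G g w).asIdeal ^ n = g • (w.asIdeal ^ n) := by
    rw [primeSMul_asIdeal, Ideal.pointwise_smul_def, Ideal.pointwise_smul_def, Ideal.map_pow]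
  rw [this, Ideal.smul_mem_pointwise_smul_iff]

variable {L} in
/-- Galois-equivariance of the integral valuations: `v_{g w}(g r) = v_w(r)`. -/
lemma intValuation_primeSMul (g : G) (w : HeightOneSpectrum (𝓞 L)) (r : 𝓞 L) :
    (primeSMul G g w).intValuation (g • r) = w.intValuation r := by
  by_cases hr : r = 0
  · subst hr; simp
  have hgr : g • r ≠ 0 := fun h => hr ((smul_eq_zero_iff_eq g).1 h)
  have key : ∀ (v : HeightOneSpectrum (𝓞 L)) (x : 𝓞 L), x ≠ 0 →
      ∃ n : ℕ, v.intValuation x = WithZero.exp (-(n : ℤ)) := by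
    intro v x hx
    exact ⟨_, v.intValuation_if_neg hx⟩
  obtain ⟨a, ha⟩ := key w r hr
  obtain ⟨b, hb⟩ := key (primeSMul G g w) (g • r) hgr
  apply le_antisymm
  · rw [ha, HeightOneSpectrum.intValuation_le_pow_iff_mem, primeSMul_pow_mem_iff,
      ← HeightOneSpectrum.intValuation_le_pow_iff_mem, ha]
  · rw [hb, HeightOneSpectrum.intValuation_le_pow_iff_mem, ← primeSMul_pow_mem_iff G g,
      ← HeightOneSpectrum.intValuation_le_pow_iff_mem, hb]

variable {L} in
/-- Galois-equivariance of the valuations: `v_{g w}(g x) = v_w(x)`. -/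
lemma valuation_primeSMul (g : G) (w : HeightOneSpectrum (𝓞 L)) (x : L) :
    (primeSMul G g w).valuation L (g • x) = w.valuation L x := by
  obtain ⟨a, b, hb, rfl⟩ := IsFractionRing.div_surjective (A := 𝓞 L) x
  have h1 : g • (algebraMap (𝓞 L) L a / algebraMap (𝓞 L) L b) =
      algebraMap (𝓞 L) L (g • a) / algebraMap (𝓞 L) L (g • b) := by
    rw [smul_div₀']
    rfl
  rw [h1, map_div₀, map_div₀, HeightOneSpectrum.valuation_of_algebraMap,
    HeightOneSpectrum.valuation_of_algebraMap, HeightOneSpectrum.valuation_of_algebraMap,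
    HeightOneSpectrum.valuation_of_algebraMap, intValuation_primeSMul, intValuation_primeSMul]

variable {L} in
lemma ordAt_primeSMul (g : G) (w : HeightOneSpectrum (𝓞 L)) (x : Additive Lˣ) :
    ordAt (primeSMul G g w) (lRepr G L g x) = ordAt w x := by
  rw [ordAt_apply, ordAt_apply, coe_lRepr_apply, valuation_primeSMul]

lemma primeOutMap_injective (g : G) : Function.Injective (primeOutMap S G L g) := fun a b h => by
  have := congrArg (primeOutMap S G L g⁻¹) h
  rwa [← primeOutMap_mul, ← primeOutMap_mul, inv_mul_cancel, primeOutMap_one,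
    primeOutMap_one] at this

lemma divRepr_apply_apply (g : G) (d : PrimeOut S L →₀ ℤ) (w : PrimeOut S L) :
    divRepr S G L g d (primeOutMap S G L g w) = d w :=
  Finsupp.mapDomain_apply (primeOutMap_injective S G L g) d w

/-- The divisor map is `G`-equivariant. -/
lemma ordHom_equivariant (g : G) (x : Additive Lˣ) :
    ordHom S L (lRepr G L g x) = divRepr S G L g (ordHom S L x) := by
  ext w
  have hw : w = primeOutMap S G L g (primeOutMap S G L g⁻¹ w) := by
    rw [← primeOutMap_mul, mul_inv_cancel, primeOutMap_one]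
  rw [hw, divRepr_apply_apply, ordHom_apply, ordHom_apply, primeOutMap_val, ordAt_primeSMul]

end Ord

/-! ## 5. The `S`-idèle class group `C_S(L)` and the `S`-units -/

section ClassGroup

variable (S : Finset Nat.Primes) (G L : Type) [Group G] [Field L] [NumberField L]
  [MulSemiringAction G L]

/-- The underlying group of `J_S(L) × Div^S(L)` (additively). -/
abbrev JD : Type := Additive (AS S L)ˣ × (PrimeOut S L →₀ ℤ)

/-- The representation of `G` on `J_S(L) × Div^S(L)`. -/
def jdRepr : Representation ℤ G (JD S L) := (jRepr G S L).prod (divRepr S G L)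

/-- The diagonal map `Lˣ → J_S(L) × Div^S(L)`, `x ↦ (x ⊗ 1, div x)`. -/
def diagHom : Additive Lˣ →+ JD S L := (unitsDiag S L).prod (ordHom S L)

@[simp] lemma diagHom_fst (x : Additive Lˣ) : (diagHom S L x).1 = unitsDiag S L x := rfl

@[simp] lemma diagHom_snd (x : Additive Lˣ) : (diagHom S L x).2 = ordHom S L x := rfl

lemma diagHom_equivariant (g : G) (x : Additive Lˣ) :
    diagHom S L (lRepr G L g x) = jdRepr S G L g (diagHom S L x) :=
  Prod.ext (unitsDiag_equivariant G S L g x) (ordHom_equivariant S G L g x)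

/-- The subgroup of principal `S`-idèles: the image of `Lˣ` in `J_S(L) × Div^S(L)`. -/
def principal : Submodule ℤ (JD S L) := LinearMap.range (diagHom S L).toIntLinearMap

lemma mem_principal_iff (y : JD S L) : y ∈ principal S L ↔ ∃ x, diagHom S L x = y := Iff.rfl

lemma principal_stable (g : G) : principal S L ≤ (principal S L).comap (jdRepr S G L g) := by
  rintro _ ⟨x, rfl⟩
  exact ⟨lRepr G L g x, diagHom_equivariant S G L g x⟩

/-- The underlying group of the `S`-idèle class group `C_S(L) = (J_S(L) × Div^S(L)) / Lˣ`. -/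
abbrev CS : Type := JD S L ⧸ principal S L

/-- The representation of `G` on the `S`-idèle class group. -/
def cRepr : Representation ℤ G (CS S L) :=
  (jdRepr S G L).quotient (principal S L) (principal_stable S G L)

/-- `J_S(L) × Div^S(L)` as an object of `Rep ℤ G`. -/
def JDRep : Rep ℤ G := Rep.of (jdRepr S G L)

/-- The `S`-idèle class group `C_S(L) = (J_S(L) × Div^S(L)) / Lˣ` as an object of `Rep ℤ G`. -/
def CRep : Rep ℤ G := Rep.of (cRepr S G L)

/-- The `S`-units of `L`: the kernel of the divisor map `Lˣ → Div^S(L)`. -/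
def sUnit : Submodule ℤ (Additive Lˣ) := LinearMap.ker (ordHom S L).toIntLinearMap

lemma mem_sUnit_iff (x : Additive Lˣ) : x ∈ sUnit S L ↔ ∀ w : PrimeOut S L, ordAt w.1 x = 0 := by
  change ordHom S L x = 0 ↔ _
  rw [DFunLike.ext_iff]
  rfl

lemma sUnit_stable (g : G) : sUnit S L ≤ (sUnit S L).comap (lRepr G L g) := by
  intro x hx
  change ordHom S L (lRepr G L g x) = 0
  rw [ordHom_equivariant, (show ordHom S L x = 0 from hx), map_zero]

/-- The representation of `G` on the `S`-units `E_S(L)`. -/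
def eRepr : Representation ℤ G (sUnit S L) :=
  (lRepr G L).subrepresentation (sUnit S L) (sUnit_stable S G L)

/-- The `S`-units `E_S(L) = 𝒪_{L,S}ˣ` as an object of `Rep ℤ G`. -/
def ERep : Rep ℤ G := Rep.of (eRepr S G L)

/-- The group `C'_S(L) = J_S(L) / E_S(L)`: the image of `J_S(L)` in `C_S(L)`. -/
def jImage : Submodule ℤ (CS S L) :=
  LinearMap.range ((principal S L).mkQ ∘ₗ LinearMap.inl ℤ (Additive (AS S L)ˣ) (PrimeOut S L →₀ ℤ))

end ClassGroup

/-! ## 6. Morphisms in `Rep ℤ G` -/

section Morphisms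

variable (S : Finset Nat.Primes) (G L : Type) [Group G] [Field L] [NumberField L]
  [MulSemiringAction G L]

/-- The diagonal embedding `Lˣ ⟶ J_S(L) × Div^S(L)` in `Rep ℤ G`. -/
def diagRepHom : LRep G L ⟶ JDRep S G L :=
  Rep.ofHom ⟨(diagHom S L).toIntLinearMap,
    fun g => LinearMap.ext fun x => diagHom_equivariant S G L g x⟩

/-- The projection `J_S(L) × Div^S(L) ⟶ C_S(L)` in `Rep ℤ G`. -/
def quotRepHom : JDRep S G L ⟶ CRep S G L :=
  Rep.ofHom ⟨(principal S L).mkQ, fun _ => LinearMap.ext fun _ => rfl⟩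

/-- The inclusion `J_S(L) ⟶ J_S(L) × Div^S(L)` in `Rep ℤ G`. -/
def jInlRepHom : JRep G S L ⟶ JDRep S G L :=
  Rep.ofHom ⟨(AddMonoidHom.inl (Additive (AS S L)ˣ) (PrimeOut S L →₀ ℤ)).toIntLinearMap,
    fun _ => LinearMap.ext fun _ => by
      refine Prod.ext rfl ?_
      simp [jdRepr, Representation.prod]⟩

/-- The inclusion `Div^S(L) ⟶ J_S(L) × Div^S(L)` in `Rep ℤ G`. -/
def divInrRepHom : DivRep S G L ⟶ JDRep S G L :=
  Rep.ofHom ⟨(AddMonoidHom.inr (Additive (AS S L)ˣ) (PrimeOut S L →₀ ℤ)).toIntLinearMap,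
    fun _ => LinearMap.ext fun _ => by
      refine Prod.ext ?_ rfl
      simp [jdRepr, Representation.prod]⟩

/-- The projection `J_S(L) × Div^S(L) ⟶ Div^S(L)` in `Rep ℤ G`. -/
def divSndRepHom : JDRep S G L ⟶ DivRep S G L :=
  Rep.ofHom ⟨(AddMonoidHom.snd (Additive (AS S L)ˣ) (PrimeOut S L →₀ ℤ)).toIntLinearMap,
    fun _ => LinearMap.ext fun _ => rfl⟩

/-- The map `J_S(L) ⟶ C_S(L)` in `Rep ℤ G`. -/
def jToCRepHom : JRep G S L ⟶ CRep S G L := jInlRepHom S G L ≫ quotRepHom S G L

/-- The inclusion of the `S`-units `E_S(L) ⟶ Lˣ` in `Rep ℤ G`. -/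
def eInclRepHom : ERep S G L ⟶ LRep G L :=
  Rep.ofHom ⟨(sUnit S L).subtype, fun _ => LinearMap.ext fun _ => rfl⟩

/-- The divisor map `Lˣ ⟶ Div^S(L)` in `Rep ℤ G`. -/
def ordRepHom : LRep G L ⟶ DivRep S G L :=
  Rep.ofHom ⟨(ordHom S L).toIntLinearMap,
    fun g => LinearMap.ext fun x => ordHom_equivariant S G L g x⟩

/-- The short complex `Lˣ ⟶ J_S(L) × Div^S(L) ⟶ C_S(L)` in `Rep ℤ G`
(short exact as soon as `S ≠ ∅`). -/
def classShortComplex : CategoryTheory.ShortComplex (Rep ℤ G) :=
  CategoryTheory.ShortComplex.mk (diagRepHom S G L) (quotRepHom S G L) (by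
    ext x
    exact (Submodule.Quotient.mk_eq_zero _).2 ⟨x, rfl⟩)

end Morphisms

/-! ## 7. Base change along a field extension `L' → L` -/

section BaseChange

variable (S : Finset Nat.Primes) (L' L : Type) [Field L'] [CharZero L'] [Field L] [CharZero L]
  [Algebra L' L]

/-- The base change map `𝔸_S(L') → 𝔸_S(L)`. -/
def asMap : AS S L' →ₐ[ℚ] AS S L :=
  Algebra.TensorProduct.map ((algebraMap L' L).toRatAlgHom) (AlgHom.id ℚ (QS S))

@[simp] lemma asMap_tmul (x : L') (y : QS S) :
    asMap S L' L (x ⊗ₜ[ℚ] y) = (algebraMap L' L x) ⊗ₜ[ℚ] y := by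
  simp [asMap]

/-- The base change map `J_S(L') → J_S(L)`, additively. -/
def jMap : Additive (AS S L')ˣ →+ Additive (AS S L)ˣ :=
  MonoidHom.toAdditive (Units.map ((asMap S L' L : AS S L' →ₐ[ℚ] AS S L) : AS S L' →* AS S L))

lemma coe_jMap_apply (y : Additive (AS S L')ˣ) :
    (((jMap S L' L y).toMul : (AS S L)ˣ) : AS S L) =
      asMap S L' L ((y.toMul : (AS S L')ˣ) : AS S L') := rfl

/-- The inclusion `L'ˣ → Lˣ`, additively. -/
def lMap : Additive L'ˣ →+ Additive Lˣ :=
  MonoidHom.toAdditive (Units.map ((algebraMap L' L : L' →+* L) : L' →* L))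

lemma jMap_unitsDiag (x : Additive L'ˣ) :
    jMap S L' L (unitsDiag S L' x) = unitsDiag S L (lMap L' L x) := by
  apply Additive.toMul.injective
  apply Units.ext
  change asMap S L' L (asDiag S L' _) = asDiag S L _
  simp [lMap]

end BaseChange

end Fermat.Agent.S55.G

end
end
-- ===== PACK-END S55/G/Defs.lean

-- ===== PACK-BEGIN S55/K/GO3H535/H371/ClassGp.lean
section


/-!
# S55 / layer K / GO3-CAPDIV (helper371), part 4: effective divisors are torsion in the class group

`R` a Dedekind domain with finite class group, `c` a finitely supported function on the primes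
of `R` with values in `ℕ`.  Then there are `h > 0` and `κ ≠ 0` in `R` with
`v_w(κ) = h · c(w)` for ALL primes `w` (the ideal `∏ w ^ c(w)` has finite order in the class
group).  Mathlib only.
-/

set_option autoImplicit false

noncomputable section

namespace Fermat.Agent.S55.K.GO3H535.H371

open IsDedekindDomain FractionalIdeal
open scoped nonZeroDivisors

section

variable {R : Type*} [CommRing R] [IsDedekindDomain R]

/-- The valuation of a generator of an ideal, in terms of `FractionalIdeal.count`. -/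
theorem intValuation_eq_exp_neg_count (K : Type*) [Field K] [Algebra R K] [IsFractionRing R K]
    (w : HeightOneSpectrum R) {κ : R} (hκ : κ ≠ 0) :
    w.intValuation κ =
      WithZero.exp (-(count K w ((Ideal.span {κ} : Ideal R) : FractionalIdeal R⁰ K))) := by
  have hsp : (Ideal.span {κ} : Ideal R) ≠ 0 := by
    rw [Ne, Ideal.zero_eq_bot, Ideal.span_singleton_eq_bot]
    exact hκ
  rw [w.intValuation_if_neg hκ, count_coe K w hsp]

/-- `count` of a finite product of prime powers. -/
theorem count_prod_pow (K : Type*) [Field K] [Algebra R K] [IsFractionRing R K]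
    (s : Finset (HeightOneSpectrum R)) (c : HeightOneSpectrum R → ℕ)
    (hc : ∀ w, w ∉ s → c w = 0) (v : HeightOneSpectrum R) :
    count K v (((∏ w ∈ s, w.asIdeal ^ c w : Ideal R)) : FractionalIdeal R⁰ K) = c v := by
  classical
  have hcoe : (((∏ w ∈ s, w.asIdeal ^ c w : Ideal R)) : FractionalIdeal R⁰ K) =
      ∏ w ∈ s, (w.asIdeal : FractionalIdeal R⁰ K) ^ c w := by
    rw [← coeIdealHom_apply, map_prod]
    refine Finset.prod_congr rfl fun w _ => ?_
    rw [coeIdealHom_apply, coeIdeal_pow]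
  rw [hcoe, count_prod K v s _ (fun w _ => pow_ne_zero _ (coeIdeal_ne_zero.mpr w.ne_bot))]
  simp only [count_pow, count_maximal, mul_ite, mul_one, mul_zero, Finset.sum_ite_eq']
  split_ifs with hv
  · rfl
  · rw [hc v hv]
    rfl

/-- **Effective divisors are torsion in the class group.** -/
theorem exists_elt_intValuation_eq [Finite (ClassGroup R)]
    (s : Finset (HeightOneSpectrum R)) (c : HeightOneSpectrum R → ℕ)
    (hc : ∀ w, w ∉ s → c w = 0) :
    ∃ h : ℕ, 0 < h ∧ ∃ κ : R, κ ≠ 0 ∧
      ∀ w : HeightOneSpectrum R, w.intValuation κ = WithZero.exp (-((h * c w : ℕ) : ℤ)) := by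
  classical
  haveI : Fintype (ClassGroup R) := Fintype.ofFinite _
  set I : Ideal R := ∏ w ∈ s, w.asIdeal ^ c w with hI
  have hI0 : I ≠ 0 := by
    rw [hI, Finset.prod_ne_zero_iff]
    intro w _
    exact pow_ne_zero _ w.ne_bot
  have hImem : I ∈ (Ideal R)⁰ := mem_nonZeroDivisors_of_ne_zero hI0
  set h : ℕ := Fintype.card (ClassGroup R) with hh
  have hpos : 0 < h := Fintype.card_pos
  have hpow : ClassGroup.mk0 (⟨I, hImem⟩ ^ h : (Ideal R)⁰) = 1 := by
    rw [map_pow, hh]
    exact pow_card_eq_one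
  have hprin : (I ^ h).IsPrincipal := by
    have hmem : I ^ h ∈ (Ideal R)⁰ := pow_mem hImem h
    have : ClassGroup.mk0 ⟨I ^ h, hmem⟩ = 1 := by
      rw [← hpow]
      rfl
    exact (ClassGroup.mk0_eq_one_iff hmem).1 this
  obtain ⟨κ, hκ⟩ := hprin
  have hκ' : I ^ h = Ideal.span {κ} := hκ
  have hκ0 : κ ≠ 0 := by
    rintro rfl
    rw [Ideal.span_singleton_eq_bot.2 rfl] at hκ'
    exact pow_ne_zero h hI0 hκ'
  refine ⟨h, hpos, κ, hκ0, fun w => ?_⟩
  rw [intValuation_eq_exp_neg_count (FractionRing R) w hκ0, ← hκ', coeIdeal_pow, count_pow,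
    count_prod_pow (FractionRing R) s c hc w]
  norm_cast

end

end Fermat.Agent.S55.K.GO3H535.H371

end
end
-- ===== PACK-END S55/K/GO3H535/H371/ClassGp.lean

-- ===== PACK-BEGIN S55/G/Exist/IdxH901Group.lean
section
/-
S55, layer G, block EXIST, leaf EX-IDX (helper901) — part 1: group-theoretic bookkeeping.
Mathlib only.  Sorry-free.

* `index_pi_dep` : index of a product subgroup in a dependent finite product;
* `index_range_pow_pi` : `[∏ Gᵢ : (∏ Gᵢ)ⁿ] = ∏ [Gᵢ : Gᵢⁿ]`;
* `index_range_pow_congr` : invariance under isomorphisms;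
* `index_range_nsmul_additive` : additive form.
-/


set_option autoImplicit false

namespace Fermat.Agent.S55.G.Exist.H901

/-- Dependent version of `Subgroup.index_pi`. -/
lemma index_pi_dep {ι : Type*} [Fintype ι] {G : ι → Type*} [∀ i, Group (G i)]
    (H : ∀ i, Subgroup (G i)) :
    (Subgroup.pi Set.univ H).index = ∏ i, (H i).index := by
  simp_rw [Subgroup.index, ← Nat.card_pi]
  refine Nat.card_congr
    ((Quotient.congrRight (fun x y ↦ ?_)).trans (Setoid.piQuotientEquiv _).symm)
  rw [QuotientGroup.leftRel_pi]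

lemma range_powMonoidHom_pi {ι : Type*} {G : ι → Type*} [∀ i, CommGroup (G i)] (n : ℕ) :
    (powMonoidHom n : (∀ i, G i) →* (∀ i, G i)).range =
      Subgroup.pi Set.univ (fun i => (powMonoidHom n : G i →* G i).range) := by
  ext f
  simp only [MonoidHom.mem_range, powMonoidHom_apply, Subgroup.mem_pi, Set.mem_univ,
    forall_true_left]
  constructor
  · rintro ⟨g, rfl⟩ i
    exact ⟨g i, rfl⟩
  · intro h
    choose g hg using h
    exact ⟨g, funext hg⟩

/-- `[∏ Gᵢ : (∏ Gᵢ)ⁿ] = ∏ [Gᵢ : Gᵢⁿ]` for a finite family of commutative groups. -/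
theorem index_range_pow_pi {ι : Type*} [Fintype ι] {G : ι → Type*} [∀ i, CommGroup (G i)]
    (n : ℕ) :
    (powMonoidHom n : (∀ i, G i) →* (∀ i, G i)).range.index =
      ∏ i, (powMonoidHom n : G i →* G i).range.index := by
  rw [range_powMonoidHom_pi, index_pi_dep]

/-- The index of the `n`-th powers is invariant under isomorphisms. -/
theorem index_range_pow_congr {G H : Type*} [CommGroup G] [CommGroup H] (e : G ≃* H) (n : ℕ) :
    (powMonoidHom n : G →* G).range.index = (powMonoidHom n : H →* H).range.index := by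
  have h : ((powMonoidHom n : G →* G).range).map (e : G →* H) = (powMonoidHom n : H →* H).range := by
    ext y
    simp only [Subgroup.mem_map, MonoidHom.mem_range, powMonoidHom_apply, MonoidHom.coe_coe]
    constructor
    · rintro ⟨_, ⟨x, rfl⟩, rfl⟩
      exact ⟨e x, (map_pow e x n).symm⟩
    · rintro ⟨x, rfl⟩
      exact ⟨e.symm x ^ n, ⟨e.symm x, rfl⟩, by rw [map_pow, e.apply_symm_apply]⟩
  rw [← h, Subgroup.index_map_equiv]

/-- Additive form of the index of the `n`-th powers. -/
theorem index_range_nsmul_additive (G : Type*) [CommGroup G] (n : ℕ) :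
    (nsmulAddMonoidHom (α := Additive G) n).range.index = (powMonoidHom n : G →* G).range.index := by
  rw [← Subgroup.index_toAddSubgroup]
  rfl

/-- The index of the `n`-th powers in the units of a finite product of rings. -/
theorem index_range_pow_units_pi {ι : Type*} [Fintype ι] {R : ι → Type*} [∀ i, CommRing (R i)]
    (n : ℕ) :
    (powMonoidHom n : (∀ i, R i)ˣ →* (∀ i, R i)ˣ).range.index =
      ∏ i, (powMonoidHom n : (R i)ˣ →* (R i)ˣ).range.index := by
  rw [index_range_pow_congr (MulEquiv.piUnits (M := R)) n, index_range_pow_pi]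

/-- The index of the `n`-th powers in the units is invariant under ring isomorphisms. -/
theorem index_range_pow_units_congr {R R' : Type*} [CommRing R] [CommRing R'] (e : R ≃+* R')
    (n : ℕ) :
    (powMonoidHom n : Rˣ →* Rˣ).range.index = (powMonoidHom n : R'ˣ →* R'ˣ).range.index :=
  index_range_pow_congr (Units.mapEquiv e.toMulEquiv) n

end Fermat.Agent.S55.G.Exist.H901

end
-- ===== PACK-END S55/G/Exist/IdxH901Group.lean

-- ===== PACK-BEGIN S14/H894/ValSum.lean
section


/-!
# S14 / H894 : valuation of a sum with pairwise distinct valuations; power expansions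
-/

set_option autoImplicit false

namespace Fermat.Agent.S14.H894

open Polynomial

/-- If the nonzero terms of a finite sum have pairwise distinct valuations, the valuation of the
sum is the maximum of the valuations of the terms. -/
theorem valuation_sum_eq_sup {F Γ ι : Type*} [Field F] [LinearOrderedCommGroupWithZero Γ]
    (v : Valuation F Γ) (s : Finset ι) (f : ι → F)
    (h : ∀ i ∈ s, ∀ j ∈ s, i ≠ j → f i ≠ 0 → v (f i) ≠ v (f j)) :
    v (∑ i ∈ s, f i) = s.sup (fun i => v (f i)) := by
  classical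
  induction s using Finset.induction_on with
  | empty => simp [bot_eq_zero]
  | insert a s ha ih =>
    rw [Finset.sum_insert ha, Finset.sup_insert]
    have ih' := ih (fun i hi j hj => h i (Finset.mem_insert_of_mem hi) j
      (Finset.mem_insert_of_mem hj))
    by_cases hfa : f a = 0
    · rw [hfa, zero_add, map_zero, ih']
      exact (sup_of_le_right zero_le).symm
    · have hne : v (f a) ≠ v (∑ i ∈ s, f i) := by
        rw [ih']
        intro heq
        have hpos : (0 : Γ) < v (f a) := by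
          rw [Valuation.pos_iff]; exact hfa
        rcases s.eq_empty_or_nonempty with hs | hs
        · subst hs
          rw [Finset.sup_empty, bot_eq_zero] at heq
          exact hpos.ne' heq
        · obtain ⟨j, hj, hjs⟩ := Finset.exists_mem_eq_sup s hs (fun i => v (f i))
          rw [hjs] at heq
          refine h a (Finset.mem_insert_self a s) j (Finset.mem_insert_of_mem hj) ?_ hfa heq
          rintro rfl
          exact ha hj
      rw [Valuation.map_add_of_distinct_val v hne, ih']

theorem valuation_sum_le_one_iff {F Γ ι : Type*} [Field F] [LinearOrderedCommGroupWithZero Γ]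
    (v : Valuation F Γ) (s : Finset ι) (f : ι → F)
    (h : ∀ i ∈ s, ∀ j ∈ s, i ≠ j → f i ≠ 0 → v (f i) ≠ v (f j)) :
    v (∑ i ∈ s, f i) ≤ 1 ↔ ∀ i ∈ s, v (f i) ≤ 1 := by
  rw [valuation_sum_eq_sup v s f h, Finset.sup_le_iff]

theorem valuation_sum_lt_one_iff {F Γ ι : Type*} [Field F] [LinearOrderedCommGroupWithZero Γ]
    (v : Valuation F Γ) (s : Finset ι) (f : ι → F)
    (h : ∀ i ∈ s, ∀ j ∈ s, i ≠ j → f i ≠ 0 → v (f i) ≠ v (f j)) :
    v (∑ i ∈ s, f i) < 1 ↔ ∀ i ∈ s, v (f i) < 1 := by
  rw [valuation_sum_eq_sup v s f h, Finset.sup_lt_iff (by rw [bot_eq_zero]; exact zero_lt_one)]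

end Fermat.Agent.S14.H894

end
-- ===== PACK-END S14/H894/ValSum.lean

-- ===== PACK-BEGIN S55/G/SIndH601/H241/ValGen.lean
section
/-
S55 (Poitou–Tate), layer G, leaf G-SIND (helper601), sub-leaves V and E (helper241).
Generic lemma: in an extension of Dedekind domains, if the upper valuation takes the value
`exp (-1)` on an element of the lower field, then the upper valuation restricts to the lower one.
-/


set_option autoImplicit false
set_option linter.unusedSectionVars false
set_option linter.style.haveILetI false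

open IsDedekindDomain WithZero

namespace Fermat.Agent.S55.G.SIndH601.H241

section AKLB

variable {A K : Type*} (L : Type*) {B : Type*}
variable [CommRing A] [IsDedekindDomain A] [CommRing B] [IsDedekindDomain B] [Algebra A B]
  [Module.IsTorsionFree A B]
variable [Field K] [Field L] [Algebra K L]
variable [Algebra A K] [IsFractionRing A K] [Algebra A L] [IsScalarTower A K L]
variable [Algebra B L] [IsFractionRing B L] [IsScalarTower A B L]
variable (v : HeightOneSpectrum A) (w : HeightOneSpectrum B) [w.asIdeal.LiesOver v.asIdeal]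

/-- If some element of `K` is a uniformiser of `w`, the ramification index is `1`. -/
theorem ramIdx_eq_one_of_uniformizer (x : K)
    (hx : w.valuation L (algebraMap K L x) = exp (-1 : ℤ)) :
    v.asIdeal.ramificationIdx' w.asIdeal = 1 := by
  have h := HeightOneSpectrum.valuation_liesOver L v w x
  rw [hx] at h
  have hv0 : v.valuation K x ≠ 0 := by
    intro h0
    rw [h0] at h
    rcases Nat.eq_zero_or_pos (v.asIdeal.ramificationIdx' w.asIdeal) with he | he
    · rw [he, pow_zero] at h
      have : (1 : ℤᵐ⁰) = exp (0 : ℤ) := rfl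
      rw [this, exp_inj] at h
      omega
    · rw [zero_pow he.ne'] at h
      exact exp_ne_zero h.symm
  obtain ⟨n, hn⟩ : ∃ n : ℤ, v.valuation K x = exp n := ⟨log (v.valuation K x), (exp_log hv0).symm⟩
  rw [hn, ← exp_nsmul, exp_inj] at h
  have h2 : (v.asIdeal.ramificationIdx' w.asIdeal : ℤ) * n = -1 := by
    rw [← h]; simp
  have h3 : ((v.asIdeal.ramificationIdx' w.asIdeal : ℕ) : ℤ) ∣ 1 :=
    ⟨-n, by rw [mul_neg, h2, neg_neg]⟩
  exact_mod_cast Int.eq_one_of_dvd_one (by positivity) h3

/-- If some element of `K` is a uniformiser of `w`, then `w` restricts to `v` on `K`. -/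
theorem valuation_eq_of_uniformizer (x : K)
    (hx : w.valuation L (algebraMap K L x) = exp (-1 : ℤ)) (y : K) :
    w.valuation L (algebraMap K L y) = v.valuation K y := by
  rw [← HeightOneSpectrum.valuation_liesOver L v w y, ramIdx_eq_one_of_uniformizer L v w x hx,
    pow_one]

end AKLB

end Fermat.Agent.S55.G.SIndH601.H241

namespace Fermat.Agent.S55.G.SIndH601.H241

section DVR

variable {A K K' : Type*} [CommRing A] [IsDedekindDomain A] [Field K] [Algebra A K]
  [IsFractionRing A K] [Field K']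

/-- Let `A` be a Dedekind domain with fraction field `K`, `v` a prime of `A`, and `ι : K → K'` a
field embedding into a field `K'` with a discrete valuation subring `B` such that `ι A ⊆ B`,
`v = ι⁻¹ (𝔪_B) ∩ A` and some `ι x` is a uniformiser of `B`.  Then the normalised valuation of `B`
restricts along `ι` to the `v`-adic valuation of `K`. -/
theorem valuation_map_eq (v : HeightOneSpectrum A) (B : ValuationSubring K')
    [IsDiscreteValuationRing B] (ι : K →+* K')
    (h1 : ∀ a : A, ι (algebraMap A K a) ∈ B)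
    (h2 : ∀ a : A, a ∈ v.asIdeal ↔ ι (algebraMap A K a) ∈ B.nonunits)
    (x : K)
    (hx : (IsDiscreteValuationRing.maximalIdeal B).valuation K' (ι x) = exp (-1 : ℤ)) (y : K) :
    (IsDiscreteValuationRing.maximalIdeal B).valuation K' (ι y) = v.valuation K y := by
  letI : Algebra K K' := ι.toAlgebra
  let f : A →+* B := (ι.comp (algebraMap A K)).codRestrict B.toSubring h1
  letI : Algebra A B := f.toAlgebra
  letI : Algebra A K' := (ι.comp (algebraMap A K)).toAlgebra
  haveI : IsScalarTower A K K' := IsScalarTower.of_algebraMap_eq (fun _ => rfl)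
  haveI : IsScalarTower A B K' := IsScalarTower.of_algebraMap_eq (fun _ => rfl)
  have hinj : Function.Injective (algebraMap A B) := by
    intro a b hab
    have h3 : ι (algebraMap A K a) = ι (algebraMap A K b) := congrArg Subtype.val hab
    exact IsFractionRing.injective A K (ι.injective h3)
  haveI : Module.IsTorsionFree A B := Module.isTorsionFree_iff_algebraMap_injective.2 hinj
  haveI : (IsDiscreteValuationRing.maximalIdeal B).asIdeal.LiesOver v.asIdeal := by
    refine ⟨Ideal.ext fun a => ?_⟩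
    rw [Ideal.under_def, Ideal.mem_comap, h2 a,
      ValuationSubring.mem_nonunits_iff_exists_mem_maximalIdeal]
    constructor
    · rintro ⟨ha, hm⟩
      exact hm
    · intro hm
      exact ⟨h1 a, hm⟩
  exact valuation_eq_of_uniformizer K' v (IsDiscreteValuationRing.maximalIdeal B) x hx y

end DVR

section Equiv

variable {K K' : Type*} [Field K] [Field K']

omit [Field K'] in
lemma mem_nonunits_iff_inv_not_mem (A : ValuationSubring K) (x : K) :
    x ∈ A.nonunits ↔ x = 0 ∨ x⁻¹ ∉ A := by
  rw [ValuationSubring.mem_nonunits_iff]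
  rcases eq_or_ne x 0 with rfl | hx0
  · simp
  · have hA : 0 < A.valuation x := zero_lt_iff.2 ((Valuation.ne_zero_iff _).2 hx0)
    rw [← ValuationSubring.valuation_le_one_iff, map_inv₀, inv_le_one₀ hA, not_le]
    simp [hx0]

/-- A field isomorphism mapping a discrete valuation subring onto another one preserves the
normalised valuations. -/
theorem valuation_equiv_eq (A : ValuationSubring K) [IsDiscreteValuationRing A]
    (B : ValuationSubring K') [IsDiscreteValuationRing B] (e : K ≃+* K')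
    (h : ∀ x : K, e x ∈ B ↔ x ∈ A) (y : K) :
    (IsDiscreteValuationRing.maximalIdeal B).valuation K' (e y) =
      (IsDiscreteValuationRing.maximalIdeal A).valuation K y := by
  obtain ⟨π, hπ⟩ := (IsDiscreteValuationRing.maximalIdeal B).valuation_exists_uniformizer K'
  have hnon : ∀ x : K, e x ∈ B.nonunits ↔ x ∈ A.nonunits := by
    intro x
    rw [mem_nonunits_iff_inv_not_mem, mem_nonunits_iff_inv_not_mem, ← map_inv₀, h,
      EmbeddingLike.map_eq_zero_iff]
  refine valuation_map_eq (IsDiscreteValuationRing.maximalIdeal A) B (e : K →+* K')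
    (fun a => (h _).2 a.2) (fun a => ?_) (e.symm π) (by simpa using hπ) y
  have h3 : (e : K →+* K') (algebraMap A K a) = e (a : K) := rfl
  rw [h3, hnon, ValuationSubring.mem_nonunits_iff_exists_mem_maximalIdeal]
  constructor
  · intro hm
    exact ⟨a.2, hm⟩
  · rintro ⟨ha, hm⟩
    exact hm

end Equiv

end Fermat.Agent.S55.G.SIndH601.H241

end
-- ===== PACK-END S55/G/SIndH601/H241/ValGen.lean

-- ===== PACK-BEGIN S14/H163/IdealEuler.lean
section


/-!
# Euler products over the nonzero ideals of a Dedekind domain (helper163, S14 density block)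

Trick: code nonzero ideals injectively and multiplicatively into `ℕ` (prime ideals go to distinct
prime numbers) and use Mathlib's Euler product for completely multiplicative functions on `ℕ`.
-/

set_option autoImplicit false
set_option linter.unusedSectionVars false

namespace Fermat.Agent.S14.H163

open UniqueFactorizationMonoid IsDedekindDomain

section Coding

variable {R : Type*} [CommRing R] [IsDedekindDomain R]

/-- The multiplicative code of an ideal: product of the codes of its prime factors. -/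
noncomputable def code (c : Ideal R → ℕ) (I : Ideal R) : ℕ :=
  ((normalizedFactors I).map c).prod

variable {c : Ideal R → ℕ}

theorem code_ne_zero (hc : ∀ I, (c I).Prime) (I : Ideal R) : code c I ≠ 0 := by
  unfold code
  rw [Ne, Multiset.prod_eq_zero_iff]
  intro h
  obtain ⟨J, -, hJ⟩ := Multiset.mem_map.mp h
  exact (hc J).ne_zero hJ

theorem code_mul {I J : Ideal R} (hI : I ≠ ⊥) (hJ : J ≠ ⊥) :
    code c (I * J) = code c I * code c J := by
  unfold code
  rw [normalizedFactors_mul (by simpa using hI) (by simpa using hJ), Multiset.map_add,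
    Multiset.prod_add]

theorem code_one : code c (1 : Ideal R) = 1 := by
  unfold code
  rw [normalizedFactors_one]
  simp

theorem code_prime {P : Ideal R} (hP : Prime P) : code c P = c P := by
  unfold code
  rw [normalizedFactors_irreducible hP.irreducible, normalize_eq]
  simp

theorem code_multiset_prod {s : Multiset (Ideal R)} (hs : ∀ P ∈ s, Prime P) :
    code c s.prod = (s.map c).prod := by
  unfold code
  rw [normalizedFactors_prod_of_prime hs]

theorem code_injective (hinj : Function.Injective c) (hc : ∀ I, (c I).Prime)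
    {I J : Ideal R} (hI : I ≠ ⊥) (hJ : J ≠ ⊥) (h : code c I = code c J) : I = J := by
  unfold code at h
  have h1 : ∀ p ∈ (normalizedFactors I).map c, Prime p := by
    intro p hp
    obtain ⟨P, -, rfl⟩ := Multiset.mem_map.mp hp
    exact (hc P).prime
  have h2 : ∀ p ∈ (normalizedFactors J).map c, Prime p := by
    intro p hp
    obtain ⟨P, -, rfl⟩ := Multiset.mem_map.mp hp
    exact (hc P).prime
  have h3 := congrArg normalizedFactors h
  rw [normalizedFactors_prod_of_prime h1, normalizedFactors_prod_of_prime h2] at h3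
  have h4 := Multiset.map_injective hinj h3
  have h5 := prod_normalizedFactors (a := I) (by simpa using hI)
  have h6 := prod_normalizedFactors (a := J) (by simpa using hJ)
  rw [associated_iff_eq] at h5 h6
  rw [← h5, ← h6, h4]

end Coding

section NatExt

variable {𝔽 : Type*} [NormedField 𝔽]

/-- The completely multiplicative extension to `ℕ` of a function given on primes. -/
noncomputable def natExt (g : ℕ → 𝔽) : ℕ →*₀ 𝔽 where
  toFun n := if n = 0 then 0 else n.factorization.prod (fun p e => g p ^ e)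
  map_zero' := by simp
  map_one' := by simp
  map_mul' m n := by
    by_cases hm : m = 0
    · simp [hm]
    by_cases hn : n = 0
    · simp [hn]
    have hmn : m * n ≠ 0 := mul_ne_zero hm hn
    simp only [hm, hn, hmn, if_false]
    rw [Nat.factorization_mul hm hn]
    exact Finsupp.prod_add_index' (fun _ => pow_zero _) (fun _ _ _ => pow_add _ _ _)

theorem natExt_prime (g : ℕ → 𝔽) {p : ℕ} (hp : p.Prime) : natExt g p = g p := by
  change (if p = 0 then 0 else p.factorization.prod (fun p e => g p ^ e)) = g p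
  rw [if_neg hp.ne_zero, hp.factorization,
    Finsupp.prod_single_index (h := fun p e => g p ^ e) (pow_zero _), pow_one]

theorem natExt_apply_ne_zero (g : ℕ → 𝔽) {n : ℕ} (hn : n ≠ 0) :
    natExt g n = n.factorization.prod (fun p e => g p ^ e) := by
  change (if n = 0 then 0 else n.factorization.prod (fun p e => g p ^ e)) = _
  rw [if_neg hn]

theorem natExt_ne_zero_imp (g : ℕ → 𝔽) {n : ℕ} (h : natExt g n ≠ 0) :
    n ≠ 0 ∧ ∀ p ∈ n.primeFactorsList, g p ≠ 0 := by
  have hn : n ≠ 0 := by
    rintro rfl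
    exact h (map_zero _)
  refine ⟨hn, fun p hp hgp => h ?_⟩
  rw [natExt_apply_ne_zero g hn, Finsupp.prod]
  apply Finset.prod_eq_zero (i := p)
  · rw [Nat.support_factorization]
    exact Nat.mem_primeFactors_iff_mem_primeFactorsList.mpr hp
  · rw [hgp, zero_pow]
    have : p ∈ n.factorization.support := by
      rw [Nat.support_factorization]
      exact Nat.mem_primeFactors_iff_mem_primeFactorsList.mpr hp
    exact Finsupp.mem_support_iff.mp this

end NatExt

section Transport

open scoped nonZeroDivisors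

variable {R : Type*} [CommRing R] [IsDedekindDomain R]
variable {𝔽 : Type*} [NormedField 𝔽]

/-- A height one prime as a nonzero ideal. -/
noncomputable def toI0 (v : HeightOneSpectrum R) : (Ideal R)⁰ :=
  ⟨v.asIdeal, mem_nonZeroDivisors_of_ne_zero v.ne_bot⟩

@[simp] theorem toI0_coe (v : HeightOneSpectrum R) : ((toI0 v : (Ideal R)⁰) : Ideal R) = v.asIdeal :=
  rfl

variable (c : Ideal R → ℕ) (F : (Ideal R)⁰ →* 𝔽)

open Classical in
/-- Extension by zero of `F` to all ideals. -/
noncomputable def ext0 (I : Ideal R) : 𝔽 := if h : I ∈ (Ideal R)⁰ then F ⟨I, h⟩ else 0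

theorem ext0_coe (I : (Ideal R)⁰) : ext0 F (I : Ideal R) = F I := by
  unfold ext0
  rw [dif_pos I.2]

theorem ext0_mul {I J : Ideal R} (hI : I ≠ ⊥) (hJ : J ≠ ⊥) :
    ext0 F (I * J) = ext0 F I * ext0 F J := by
  have hI' : I ∈ (Ideal R)⁰ := mem_nonZeroDivisors_of_ne_zero hI
  have hJ' : J ∈ (Ideal R)⁰ := mem_nonZeroDivisors_of_ne_zero hJ
  have h1 := ext0_coe F (⟨I, hI'⟩ * ⟨J, hJ'⟩)
  have h2 := ext0_coe F ⟨I, hI'⟩
  have h3 := ext0_coe F ⟨J, hJ'⟩
  simp only [Submonoid.coe_mul] at h1 h2 h3
  rw [h1, h2, h3, map_mul]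

theorem ext0_one : ext0 F (1 : Ideal R) = 1 := by
  have h1 := ext0_coe F (1 : (Ideal R)⁰)
  simpa using h1

theorem ext0_multiset_prod {s : Multiset (Ideal R)} (hs : ∀ P ∈ s, Prime P) :
    ext0 F s.prod = (s.map (ext0 F)).prod := by
  induction s using Multiset.induction_on with
  | empty => simpa using ext0_one F
  | cons P s ih =>
    have hs' : ∀ Q ∈ s, Prime Q := fun Q hQ => hs Q (Multiset.mem_cons_of_mem hQ)
    have hP : Prime P := hs P (Multiset.mem_cons_self P s)
    have hne : s.prod ≠ ⊥ := by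
      rw [← Ideal.zero_eq_bot]
      apply Multiset.prod_ne_zero
      intro h0
      exact (hs' 0 h0).ne_zero rfl
    rw [Multiset.prod_cons, Multiset.map_cons, Multiset.prod_cons,
      ext0_mul F (by simpa using hP.ne_zero) hne, ih hs']

open Classical in
/-- The value on prime numbers induced by the coding `c`. -/
noncomputable def primeVal (p : ℕ) : 𝔽 :=
  if h : ∃ P : Ideal R, Prime P ∧ c P = p then ext0 F h.choose else 0

variable {c}

theorem primeVal_code (hinj : Function.Injective c) {P : Ideal R} (hP : Prime P) :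
    primeVal c F (c P) = ext0 F P := by
  unfold primeVal
  have h : ∃ Q : Ideal R, Prime Q ∧ c Q = c P := ⟨P, hP, rfl⟩
  rw [dif_pos h]
  exact congrArg _ (hinj h.choose_spec.2)

theorem natExt_code (hinj : Function.Injective c) (hc : ∀ I, (c I).Prime)
    {I : Ideal R} (hI : I ≠ ⊥) : natExt (primeVal c F) (code c I) = ext0 F I := by
  have h5 := prod_normalizedFactors (a := I) (by simpa using hI)
  rw [associated_iff_eq] at h5
  have hpr : ∀ P ∈ normalizedFactors I, Prime P := fun P hP => prime_of_normalized_factor P hP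
  conv_rhs => rw [← h5]
  rw [ext0_multiset_prod F hpr]
  unfold code
  rw [map_multiset_prod, Multiset.map_map]
  congr 1
  apply Multiset.map_congr rfl
  intro P hP
  simp only [Function.comp_apply]
  rw [natExt_prime _ (hc P), primeVal_code F hinj (hpr P hP)]

theorem exists_code_of_natExt_ne_zero {n : ℕ} (h : natExt (primeVal c F) n ≠ 0) :
    ∃ I : Ideal R, I ≠ ⊥ ∧ code c I = n := by
  classical
  obtain ⟨hn, hp⟩ := natExt_ne_zero_imp _ h
  have hex : ∀ p ∈ n.primeFactorsList, ∃ P : Ideal R, Prime P ∧ c P = p := by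
    intro p hpm
    by_contra hcon
    apply hp p hpm
    unfold primeVal
    rw [dif_neg hcon]
  let sel : ℕ → Ideal R := fun p =>
    if h : ∃ P : Ideal R, Prime P ∧ c P = p then h.choose else ⊤
  have hsel : ∀ p ∈ n.primeFactorsList, Prime (sel p) ∧ c (sel p) = p := by
    intro p hpm
    have := hex p hpm
    simp only [sel, dif_pos this]
    exact this.choose_spec
  let s : Multiset (Ideal R) := (n.primeFactorsList : Multiset ℕ).map sel
  have hs : ∀ P ∈ s, Prime P := by
    intro P hP
    obtain ⟨p, hpm, rfl⟩ := Multiset.mem_map.mp hP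
    exact (hsel p (by simpa using hpm)).1
  refine ⟨s.prod, ?_, ?_⟩
  · rw [← Ideal.zero_eq_bot]
    apply Multiset.prod_ne_zero
    intro h0
    exact (hs 0 h0).ne_zero rfl
  · rw [code_multiset_prod hs, Multiset.map_map]
    have : Multiset.map (c ∘ sel) (n.primeFactorsList : Multiset ℕ) =
        (n.primeFactorsList : Multiset ℕ) := by
      conv_rhs => rw [← Multiset.map_id (n.primeFactorsList : Multiset ℕ)]
      apply Multiset.map_congr rfl
      intro p hpm
      exact (hsel p (by simpa using hpm)).2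
    rw [this, Multiset.prod_coe, Nat.prod_primeFactorsList hn]

/-- The coding map on nonzero ideals. -/
noncomputable def code0 (c : Ideal R → ℕ) (I : (Ideal R)⁰) : ℕ := code c (I : Ideal R)

theorem code0_injective (hinj : Function.Injective c) (hc : ∀ I, (c I).Prime) :
    Function.Injective (code0 c) := by
  intro I J h
  apply Subtype.ext
  exact code_injective hinj hc (nonZeroDivisors.ne_zero I.2) (nonZeroDivisors.ne_zero J.2) h

theorem natExt_code0 (hinj : Function.Injective c) (hc : ∀ I, (c I).Prime) (I : (Ideal R)⁰) :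
    natExt (primeVal c F) (code0 c I) = F I := by
  unfold code0
  rw [natExt_code F hinj hc (nonZeroDivisors.ne_zero I.2), ext0_coe]

theorem natExt_eq_zero_of_not_mem_range {n : ℕ} (hn : n ∉ Set.range (code0 (R := R) c)) :
    natExt (primeVal c F) n = 0 := by
  by_contra h
  obtain ⟨I, hI, rfl⟩ := exists_code_of_natExt_ne_zero F h
  exact hn ⟨⟨I, mem_nonZeroDivisors_of_ne_zero hI⟩, rfl⟩

/-- **Euler product** over the height one primes of a Dedekind domain, for a monoid homomorphism
on nonzero ideals which is absolutely summable, given an injective prime-valued coding of ideals. -/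
theorem hasProd_of_coding [CompleteSpace 𝔽] (hinj : Function.Injective c) (hc : ∀ I, (c I).Prime)
    (hsum : Summable (fun I : (Ideal R)⁰ => ‖F I‖)) :
    HasProd (fun v : HeightOneSpectrum R => (1 - F (toI0 v))⁻¹) (∑' I : (Ideal R)⁰, F I) := by
  have hcinj := code0_injective (R := R) hinj hc
  -- summability on ℕ
  have hsumN : Summable (fun n : ℕ => ‖natExt (primeVal c F) n‖) := by
    rw [← (hcinj.summable_iff (f := fun n : ℕ => ‖natExt (primeVal c F) n‖) ?_)]
    · refine hsum.congr fun I => ?_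
      simp only [Function.comp_apply]
      rw [natExt_code0 F hinj hc]
    · intro n hn
      rw [natExt_eq_zero_of_not_mem_range F hn, norm_zero]
  have hEP := EulerProduct.eulerProduct_completely_multiplicative_hasProd hsumN
  -- rewrite the sum
  have hts : (∑' n : ℕ, natExt (primeVal c F) n) = ∑' I : (Ideal R)⁰, F I := by
    rw [← hcinj.tsum_eq (f := fun n : ℕ => natExt (primeVal c F) n)]
    · exact tsum_congr fun I => natExt_code0 F hinj hc I
    · intro n hn
      by_contra hcon
      exact hn (natExt_eq_zero_of_not_mem_range F hcon)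
  rw [hts] at hEP
  -- rewrite the product
  let j : HeightOneSpectrum R → Nat.Primes := fun v => ⟨c v.asIdeal, hc _⟩
  have hj : Function.Injective j := by
    intro v w h
    apply HeightOneSpectrum.ext
    exact hinj (congrArg Subtype.val h)
  have hval : ∀ v : HeightOneSpectrum R,
      natExt (primeVal c F) (j v : ℕ) = F (toI0 v) := by
    intro v
    change natExt (primeVal c F) (c v.asIdeal) = _
    rw [natExt_prime _ (hc _), primeVal_code F hinj v.prime]
    exact ext0_coe F (toI0 v)
  have hout : ∀ p : Nat.Primes, p ∉ Set.range j →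
      (1 - natExt (primeVal c F) (p : ℕ))⁻¹ = 1 := by
    intro p hp
    have : natExt (primeVal c F) (p : ℕ) = 0 := by
      rw [natExt_prime _ p.2]
      unfold primeVal
      rw [dif_neg]
      rintro ⟨P, hP, hPc⟩
      apply hp
      exact ⟨⟨P, Ideal.isPrime_of_prime hP, by simpa using hP.ne_zero⟩, Subtype.ext hPc⟩
    rw [this, sub_zero, inv_one]
  have := (hj.hasProd_iff (f := fun p : Nat.Primes => (1 - natExt (primeVal c F) (p : ℕ))⁻¹)
    (a := ∑' I : (Ideal R)⁰, F I) hout).mpr hEP
  refine this.congr_fun ?_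
  intro v
  simp only [Function.comp_apply]
  rw [hval v]

end Transport

end Fermat.Agent.S14.H163

end
-- ===== PACK-END S14/H163/IdealEuler.lean

-- ===== PACK-BEGIN S14/H34/Defs.lean
section


/-!
# S14, block DENSITY (helper34): basic definitions

Sums over the nonzero ideals of the ring of integers of a number field.
-/

set_option autoImplicit false

namespace Fermat.Agent.S14.H34

open NumberField Ideal nonZeroDivisors IsDedekindDomain

noncomputable section

variable (K : Type*) [Field K] [NumberField K]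

/-- `N(I)^(-s)` for a nonzero ideal `I`. -/
def nrm (s : ℝ) (I : (Ideal (𝓞 K))⁰) : ℝ :=
  (absNorm (I : Ideal (𝓞 K)) : ℝ) ^ (-s)

/-- The Dedekind zeta function as a sum over nonzero ideals (real argument). -/
def zetaI (s : ℝ) : ℝ := ∑' I : (Ideal (𝓞 K))⁰, nrm K s I

/-- The `L`-series of a character of the class group (real argument). -/
def Lser (χ : ClassGroup (𝓞 K) →* ℂˣ) (s : ℝ) : ℂ :=
  ∑' I : (Ideal (𝓞 K))⁰, (χ (ClassGroup.mk0 I) : ℂ) * ((nrm K s I : ℝ) : ℂ)

/-- The `L`-series of `χ` is bounded on `(1, 2]` (output of block N1 for `χ ≠ 1`). -/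
def LBounded (χ : ClassGroup (𝓞 K) →* ℂˣ) : Prop :=
  ∃ B : ℝ, ∀ s : ℝ, 1 < s → s ≤ 2 → ‖Lser K χ s‖ ≤ B

variable {K}

/-- A nonzero prime ideal as a nonzero ideal. -/
def primeNZ (v : HeightOneSpectrum (𝓞 K)) : (Ideal (𝓞 K))⁰ :=
  ⟨v.asIdeal, mem_nonZeroDivisors_of_ne_zero v.ne_bot⟩

@[simp] theorem coe_primeNZ (v : HeightOneSpectrum (𝓞 K)) :
    ((primeNZ v : (Ideal (𝓞 K))⁰) : Ideal (𝓞 K)) = v.asIdeal := rfl

/-- `N(v)^(-s)` for a nonzero prime ideal. -/
def pN (s : ℝ) (v : HeightOneSpectrum (𝓞 K)) : ℝ := nrm K s (primeNZ v)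

theorem pN_def (s : ℝ) (v : HeightOneSpectrum (𝓞 K)) :
    pN s v = (absNorm v.asIdeal : ℝ) ^ (-s) := rfl

end

end Fermat.Agent.S14.H34

end
-- ===== PACK-END S14/H34/Defs.lean

-- ===== PACK-BEGIN S55/G/PL1H173/DvrVal.lean
section


/-!
# S55 layer G, leaf G-PL1 (helper173): the normalised valuation of a discrete valuation subring

Generic lemmas (Mathlib only):
* `dvrVal A : Valuation K ℤᵐ⁰` for a valuation subring `A` of `K` which is a DVR;
* `valuation_eq_of_isEquiv`: equivalent `ℤᵐ⁰`-valued valuations which both attain `exp (-1)`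
  are equal.
-/

set_option autoImplicit false
set_option linter.unusedSectionVars false
set_option linter.style.haveILetI false

open IsDedekindDomain WithZero

namespace Fermat.Agent.S55.G.PL1H173

section DvrVal

variable {K : Type} [Field K] (A : ValuationSubring K) [IsDiscreteValuationRing A]

/-- The normalised valuation of the discrete valuation subring `A`. -/
noncomputable def dvrVal : Valuation K ℤᵐ⁰ :=
  (IsDiscreteValuationRing.maximalIdeal A).valuation K

lemma heightOne_eq_maximalIdeal (v : HeightOneSpectrum A) :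
    v = IsDiscreteValuationRing.maximalIdeal A := by
  apply HeightOneSpectrum.ext
  exact IsLocalRing.eq_maximalIdeal (v.isPrime.isMaximal v.ne_bot)

lemma dvrVal_le_one_iff (y : K) : dvrVal A y ≤ 1 ↔ y ∈ A := by
  constructor
  · intro h
    have := HeightOneSpectrum.mem_integers_of_valuation_le_one (R := A) K y
      (fun v => by rw [heightOne_eq_maximalIdeal A v]; exact h)
    obtain ⟨z, rfl⟩ := this
    exact z.2
  · intro h
    exact HeightOneSpectrum.valuation_le_one (IsDiscreteValuationRing.maximalIdeal A)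
      (⟨y, h⟩ : A)

lemma dvrVal_lt_one_iff (y : K) : dvrVal A y < 1 ↔ y ∈ A.nonunits := by
  rw [ValuationSubring.mem_nonunits_iff_exists_mem_maximalIdeal]
  constructor
  · intro h
    have hy : y ∈ A := (dvrVal_le_one_iff A y).1 h.le
    refine ⟨hy, ?_⟩
    exact (HeightOneSpectrum.valuation_lt_one_iff_mem
      (IsDiscreteValuationRing.maximalIdeal A) (⟨y, hy⟩ : A)).1 h
  · rintro ⟨hy, h⟩
    exact (HeightOneSpectrum.valuation_lt_one_iff_mem
      (IsDiscreteValuationRing.maximalIdeal A) (⟨y, hy⟩ : A)).2 h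

lemma dvrVal_eq_one_iff (y : K) : dvrVal A y = 1 ↔ y ∈ A ∧ y ∉ A.nonunits := by
  rw [← dvrVal_le_one_iff, ← dvrVal_lt_one_iff, not_lt]
  exact ⟨fun h => ⟨h.le, h.ge⟩, fun h => le_antisymm h.1 h.2⟩

lemma exists_dvrVal_eq_exp_neg_one : ∃ π : K, dvrVal A π = exp (-1 : ℤ) :=
  HeightOneSpectrum.valuation_exists_uniformizer K (IsDiscreteValuationRing.maximalIdeal A)

end DvrVal

section Equiv

variable {F : Type} [Field F]

/-- Equivalent `ℤᵐ⁰`-valued valuations on a field which both attain the value `exp (-1)` are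
equal. -/
theorem valuation_eq_of_isEquiv (V₁ V₂ : Valuation F ℤᵐ⁰) (h : V₁.IsEquiv V₂)
    (h₁ : ∃ x, V₁ x = exp (-1 : ℤ)) (h₂ : ∃ π, V₂ π = exp (-1 : ℤ)) : V₁ = V₂ := by
  obtain ⟨π, hπ⟩ := h₂
  obtain ⟨x₁, hx₁⟩ := h₁
  have hπ0 : π ≠ 0 := by
    rintro rfl
    rw [map_zero] at hπ
    exact exp_ne_zero hπ.symm
  have hV1π : V₁ π ≠ 0 := (Valuation.ne_zero_iff V₁).2 hπ0
  -- key formula
  have key : ∀ x : F, x ≠ 0 → log (V₁ x) = log (V₁ π) * (- log (V₂ x)) := by
    intro x hx
    have hV2x : V₂ x ≠ 0 := (Valuation.ne_zero_iff V₂).2 hx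
    have hV1x : V₁ x ≠ 0 := (Valuation.ne_zero_iff V₁).2 hx
    have h2 : V₂ (x * π ^ (log (V₂ x))) = 1 := by
      rw [map_mul, map_zpow₀, hπ, ← exp_zsmul, smul_eq_mul, mul_neg, mul_one]
      conv_lhs => rw [← exp_log hV2x]
      rw [← exp_add, log_exp, add_neg_cancel, exp_zero]
    have h1 : V₁ (x * π ^ (log (V₂ x))) = 1 := (Valuation.isEquiv_iff_val_eq_one.1 h).2 h2
    rw [map_mul, map_zpow₀] at h1
    have h3 := congrArg log h1
    rw [log_mul hV1x (zpow_ne_zero _ hV1π), log_zpow, log_one, smul_eq_mul] at h3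
    linarith [h3, mul_comm (log (V₁ π)) (log (V₂ x))]
  have hx₁0 : x₁ ≠ 0 := by
    rintro rfl
    rw [map_zero] at hx₁
    exact exp_ne_zero hx₁.symm
  have h4 := key x₁ hx₁0
  rw [hx₁, log_exp] at h4
  have hlt : V₁ π < 1 := (Valuation.isEquiv_iff_val_lt_one.1 h).2 (by
    rw [hπ, ← exp_zero, exp_lt_exp]
    norm_num)
  have hneg : log (V₁ π) < 0 := by
    have := (log_lt_log hV1π one_ne_zero).2 hlt
    simpa using this
  have he : log (V₁ π) = -1 := by
    have hdvd : log (V₁ π) ∣ -1 := ⟨- log (V₂ x₁), h4⟩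
    have h5 : log (V₁ π) ∣ 1 := (dvd_neg.1 hdvd)
    rcases Int.isUnit_iff.1 (isUnit_of_dvd_one h5) with h6 | h6
    · omega
    · exact h6
  ext x
  by_cases hx : x = 0
  · subst hx
    simp
  · have hV2x : V₂ x ≠ 0 := (Valuation.ne_zero_iff V₂).2 hx
    have hV1x : V₁ x ≠ 0 := (Valuation.ne_zero_iff V₁).2 hx
    have h7 := key x hx
    rw [he] at h7
    have h8 : log (V₁ x) = log (V₂ x) := by linarith
    rw [← exp_log hV1x, ← exp_log hV2x, h8]

end Equiv

end Fermat.Agent.S55.G.PL1H173

end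
-- ===== PACK-END S55/G/PL1H173/DvrVal.lean

-- ===== PACK-BEGIN S55/L/H355/Nakayama.lean
section


/-!
# S55, layer L, helper355: a concrete "complete Nakayama" lemma

If `A` is `π`-adically precomplete, `N` is `π`-adically separated and the finite family `s`
generates `N` modulo `π`, then `s` generates `N`.
-/

set_option autoImplicit false

namespace Fermat.Agent.S55.L.H355

theorem smodEq_span_pow_iff_dvd {A : Type} [CommRing A] (π : A) (m : ℕ) (x y : A) :
    x ≡ y [SMOD (Ideal.span {π} ^ m • ⊤ : Submodule A A)] ↔ π ^ m ∣ x - y := by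
  rw [SModEq.sub_mem, smul_eq_mul, Ideal.mul_top, Ideal.span_singleton_pow,
    Ideal.mem_span_singleton]

theorem exists_sum_smul_eq_of_approx {A : Type} [CommRing A] (π : A)
    (hprec : IsPrecomplete (Ideal.span {π}) A)
    {N : Type} [AddCommGroup N] [Module A N]
    (hhaus : ∀ x : N, (∀ n : ℕ, ∃ z : N, x = π ^ n • z) → x = 0)
    {ι : Type} [Fintype ι] (s : ι → N)
    (happrox : ∀ y : N, ∃ (a : ι → A) (z : N), y = ∑ i, a i • s i + π • z) (y : N) :
    ∃ α : ι → A, y = ∑ i, α i • s i := by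
  classical
  choose a z hz using happrox
  let Y : ℕ → N := fun k => Nat.rec y (fun _ w => z w) k
  have hY0 : Y 0 = y := rfl
  have hYs : ∀ k, Y (k + 1) = z (Y k) := fun k => rfl
  let S : ℕ → ι → A := fun m i => ∑ k ∈ Finset.range m, π ^ k * a (Y k) i
  have hS : ∀ m, y = ∑ i, S m i • s i + π ^ m • Y m := by
    intro m
    induction m with
    | zero => simp [S, hY0]
    | succ m ih =>
      have h1 : ∀ i, S (m + 1) i = S m i + π ^ m * a (Y m) i := fun i => by
        simp only [S, Finset.sum_range_succ]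
      have h2 := hz (Y m)
      calc y = ∑ i, S m i • s i + π ^ m • Y m := ih
        _ = ∑ i, S m i • s i + π ^ m • (∑ i, a (Y m) i • s i + π • z (Y m)) := by rw [← h2]
        _ = ∑ i, S (m + 1) i • s i + π ^ (m + 1) • Y (m + 1) := by
          rw [hYs, smul_add, Finset.smul_sum, ← add_assoc, ← Finset.sum_add_distrib, smul_smul,
            pow_succ]
          congr 1
          refine Finset.sum_congr rfl fun i _ => ?_
          rw [h1, add_smul, smul_smul]
  have hcauchy : ∀ i, ∀ {m n : ℕ}, m ≤ n →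
      S m i ≡ S n i [SMOD (Ideal.span {π} ^ m • ⊤ : Submodule A A)] := by
    intro i m n hmn
    rw [smodEq_span_pow_iff_dvd]
    have : S n i - S m i = ∑ k ∈ Finset.Ico m n, π ^ k * a (Y k) i := by
      simp only [S]
      rw [Finset.sum_Ico_eq_sub _ hmn]
    have h2 : π ^ m ∣ S n i - S m i := by
      rw [this]
      refine Finset.dvd_sum fun k hk => ?_
      have hk' := (Finset.mem_Ico.1 hk).1
      exact Dvd.dvd.mul_right (pow_dvd_pow π hk') _
    have h3 : S m i - S n i = -(S n i - S m i) := by ring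
    rw [h3]
    exact (dvd_neg).2 h2
  have hlim : ∀ i, ∃ L : A, ∀ n, S n i ≡ L [SMOD (Ideal.span {π} ^ n • ⊤ : Submodule A A)] :=
    fun i => hprec.prec (hcauchy i)
  choose α hα using hlim
  refine ⟨α, ?_⟩
  have hα' : ∀ i n, ∃ c : A, S n i - α i = π ^ n * c := by
    intro i n
    have := (smodEq_span_pow_iff_dvd π n _ _).1 (hα i n)
    exact this
  rw [← sub_eq_zero]
  apply hhaus
  intro n
  choose c hc using fun i => hα' i n
  refine ⟨∑ i, c i • s i + Y n, ?_⟩
  have h1 := hS n
  have h2 : ∀ i, S n i = α i + π ^ n * c i := fun i => by rw [← hc i]; ring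
  calc y - ∑ i, α i • s i = (∑ i, S n i • s i + π ^ n • Y n) - ∑ i, α i • s i := by rw [← h1]
    _ = π ^ n • (∑ i, c i • s i + Y n) := by
      rw [smul_add, Finset.smul_sum, add_sub_right_comm, ← Finset.sum_sub_distrib]
      congr 1
      refine Finset.sum_congr rfl fun i _ => ?_
      rw [h2, add_smul, add_sub_cancel_left, smul_smul]

end Fermat.Agent.S55.L.H355

end
-- ===== PACK-END S55/L/H355/Nakayama.lean

-- ===== PACK-BEGIN S55/H413/WRPow.lean
section


/-!
# S55, leaf WR, part 3b: `1 + p^m ℤ_p ⊆ (ℤ_pˣ)^{φ(p^m)}` for odd `p`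

Every `p`-adic unit which is `≡ 1 mod p ^ m` is a `φ(p ^ m)`-th power (`p` odd, `m ≥ 1`).
Proof: it is a `φ(p^m)`-th power modulo `p ^ (2 m)` because `(ℤ/p^{2m})ˣ` is cyclic, and then
Hensel's lemma applies.
-/

set_option autoImplicit false

namespace Fermat.Agent.S55.H413

open Polynomial

/-- In a finite cyclic group `C` with a surjection `f` onto a group of order `N`, every element
of the kernel of `f` is an `N`-th power. -/
theorem exists_pow_eq_of_mem_ker_of_isCyclic {C D : Type*} [Group C] [Group D] [Finite C]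
    [IsCyclic C] (f : C →* D) (hf : Function.Surjective f) (x : C) (hx : x ∈ f.ker) :
    ∃ y : C, y ^ Nat.card D = x := by
  classical
  set N := Nat.card D with hN
  set k := Nat.card f.ker with hk
  have hcard : k * N = Nat.card C := by
    have h1 := Subgroup.card_mul_index f.ker
    rw [Subgroup.index_ker, MonoidHom.range_eq_top.mpr hf] at h1
    have h2 : Nat.card (⊤ : Subgroup D) = Nat.card D := Subgroup.card_top
    rw [h2] at h1
    exact h1
  have hkpos : 0 < k := Nat.card_pos
  have hxk : x ^ k = 1 := by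
    have h1 : (⟨x, hx⟩ : f.ker) ^ k = 1 := pow_card_eq_one' (G := f.ker) (x := ⟨x, hx⟩)
    have h2 := congrArg (Subtype.val) h1
    rwa [Subgroup.coe_pow, Subgroup.coe_one] at h2
  obtain ⟨g, hg⟩ := IsCyclic.exists_generator (α := C)
  obtain ⟨j, hj⟩ := Subgroup.mem_zpowers_iff.mp (hg x)
  have hord : orderOf g = Nat.card C := orderOf_eq_card_of_forall_mem_zpowers hg
  have h1 : g ^ (j * (k : ℤ)) = 1 := by
    rw [zpow_mul, hj, zpow_natCast, hxk]
  have h2 : ((orderOf g : ℕ) : ℤ) ∣ j * (k : ℤ) := orderOf_dvd_iff_zpow_eq_one.mpr h1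
  rw [hord, ← hcard] at h2
  have h3 : (N : ℤ) ∣ j := by
    have h4 : (N : ℤ) * (k : ℤ) ∣ j * (k : ℤ) := by
      have : ((k * N : ℕ) : ℤ) = (N : ℤ) * (k : ℤ) := by push_cast; ring
      rwa [this] at h2
    exact Int.dvd_of_mul_dvd_mul_right (by exact_mod_cast hkpos.ne') h4
  obtain ⟨t, ht⟩ := h3
  refine ⟨g ^ t, ?_⟩
  rw [← zpow_natCast, ← zpow_mul, mul_comm, ← ht, hj]

variable (p : ℕ) [hp : Fact p.Prime]

lemma toZModPow_comp_castHom (m n : ℕ) (h : m ≤ n) (x : ℤ_[p]) :
    ZMod.castHom (pow_dvd_pow p h) (ZMod (p ^ m)) (PadicInt.toZModPow n x) =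
      PadicInt.toZModPow m x := by
  have := PadicInt.zmod_cast_comp_toZModPow (p := p) m n h
  exact congrArg (fun f => f x) this

/-- Every `p`-adic unit `≡ 1 mod p ^ m` is a `φ(p ^ m)`-th power (`p` odd, `m ≥ 1`). -/
theorem exists_pow_totient_eq (hp2 : p ≠ 2) (m : ℕ) (hm : 0 < m) (u : ℤ_[p]ˣ)
    (hu : PadicInt.toZModPow m (u : ℤ_[p]) = 1) :
    ∃ w : ℤ_[p]ˣ, w ^ (p ^ m).totient = u := by
  classical
  set N := (p ^ m).totient with hN
  have hNpos : 0 < N := Nat.totient_pos.mpr (pow_pos hp.out.pos m)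
  have hNlt : N < p ^ m := Nat.totient_lt _ (Nat.one_lt_pow hm.ne' hp.out.one_lt)
  have : IsCyclic (ZMod (p ^ (2 * m)))ˣ := ZMod.isCyclic_units_of_prime_pow p hp.out hp2 (2 * m)
  have : NeZero (p ^ m) := ⟨(pow_pos hp.out.pos m).ne'⟩
  have : NeZero (p ^ (2 * m)) := ⟨(pow_pos hp.out.pos _).ne'⟩
  have hdvd : p ^ m ∣ p ^ (2 * m) := pow_dvd_pow p (by omega)
  -- the image of `u` modulo `p ^ (2 m)`
  set ubar : (ZMod (p ^ (2 * m)))ˣ :=
    Units.map (PadicInt.toZModPow (2 * m) : ℤ_[p] →+* ZMod (p ^ (2 * m))).toMonoidHom u with hubar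
  have hker : ubar ∈ (ZMod.unitsMap hdvd).ker := by
    rw [MonoidHom.mem_ker]
    apply Units.ext
    simp only [ZMod.unitsMap, Units.coe_map, Units.val_one, hubar, MonoidHom.coe_coe,
      RingHom.toMonoidHom_eq_coe]
    rw [toZModPow_comp_castHom p m (2 * m) (by omega), hu]
  obtain ⟨y, hy⟩ := exists_pow_eq_of_mem_ker_of_isCyclic (ZMod.unitsMap hdvd)
    (ZMod.unitsMap_surjective hdvd) ubar hker
  have hcardD : Nat.card (ZMod (p ^ m))ˣ = N := by
    rw [Nat.card_eq_fintype_card, ZMod.card_units_eq_totient]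
  rw [hcardD] at hy
  -- a lift of `y`
  set a : ℤ_[p] := ((y : ZMod (p ^ (2 * m))).val : ℤ_[p]) with ha
  have hay : PadicInt.toZModPow (2 * m) a = (y : ZMod (p ^ (2 * m))) := by
    rw [ha, map_natCast, ZMod.natCast_zmod_val]
  have hFa : ‖a ^ N - (u : ℤ_[p])‖ ≤ (p : ℝ) ^ (-((2 * m : ℕ) : ℤ)) := by
    rw [PadicInt.norm_le_pow_iff_mem_span_pow, ← PadicInt.ker_toZModPow, RingHom.mem_ker,
      map_sub, map_pow, hay]
    have : ((y ^ N : (ZMod (p ^ (2 * m)))ˣ) : ZMod (p ^ (2 * m))) = (ubar : ZMod (p ^ (2 * m))) := by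
      rw [hy]
    rw [Units.val_pow_eq_pow_val] at this
    rw [this, hubar]
    simp
  have hp1 : (1 : ℝ) < p := by exact_mod_cast hp.out.one_lt
  have hp0 : (0 : ℝ) < p := by linarith
  have hsmall : (p : ℝ) ^ (-((2 * m : ℕ) : ℤ)) < 1 := by
    apply zpow_lt_one_of_neg₀ hp1
    have : (0 : ℤ) < ((2 * m : ℕ) : ℤ) := by exact_mod_cast (by omega : 0 < 2 * m)
    omega
  have hnu : ‖(u : ℤ_[p])‖ = 1 := PadicInt.norm_units u
  have haN : ‖a ^ N‖ = 1 := by
    refine le_antisymm (PadicInt.norm_le_one _) ?_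
    by_contra hlt
    rw [not_le] at hlt
    have h1 : ‖(u : ℤ_[p])‖ ≤ max ‖a ^ N‖ ‖a ^ N - (u : ℤ_[p])‖ := by
      have := PadicInt.nonarchimedean (a ^ N) (-(a ^ N - (u : ℤ_[p])))
      rw [norm_neg] at this
      have e : a ^ N + -(a ^ N - (u : ℤ_[p])) = u := by ring
      rwa [e] at this
    have h2 : max ‖a ^ N‖ ‖a ^ N - (u : ℤ_[p])‖ < 1 := max_lt hlt (lt_of_le_of_lt hFa hsmall)
    rw [hnu] at h1
    exact absurd h1 (not_le.mpr h2)
  have ha1 : ‖a‖ = 1 := by
    rw [norm_pow] at haN
    exact (pow_eq_one_iff_of_nonneg (norm_nonneg a) hNpos.ne').mp haN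
  -- the norm of `N`
  have hNnorm : (p : ℝ) ^ (-(m : ℤ)) < ‖(N : ℤ_[p])‖ := by
    by_contra hle
    rw [not_lt] at hle
    rw [PadicInt.norm_le_pow_iff_mem_span_pow, Ideal.mem_span_singleton] at hle
    have h1 : ((p : ℤ_[p]) ^ m) ∣ ((N : ℤ) : ℤ_[p]) := by simpa using hle
    rw [PadicInt.pow_p_dvd_int_iff] at h1
    have h2 : p ^ m ∣ N := by exact_mod_cast h1
    exact absurd (Nat.le_of_dvd hNpos h2) (not_le.mpr hNlt)
  -- Hensel
  set F : ℤ_[p][X] := X ^ N - C (u : ℤ_[p]) with hF
  have hFeval : aeval a F = a ^ N - (u : ℤ_[p]) := by simp [hF]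
  have hF'eval : aeval a (derivative F) = (N : ℤ_[p]) * a ^ (N - 1) := by
    simp [hF, derivative_X_pow]
  have hF'norm : ‖aeval a (derivative F)‖ = ‖(N : ℤ_[p])‖ := by
    rw [hF'eval, norm_mul, norm_pow, ha1, one_pow, mul_one]
  have hhens : ‖aeval a F‖ < ‖aeval a (derivative F)‖ ^ 2 := by
    rw [hFeval, hF'norm]
    calc ‖a ^ N - (u : ℤ_[p])‖ ≤ (p : ℝ) ^ (-((2 * m : ℕ) : ℤ)) := hFa
      _ = ((p : ℝ) ^ (-(m : ℤ))) ^ 2 := by
          rw [← zpow_natCast ((p : ℝ) ^ (-(m : ℤ))) 2, ← zpow_mul]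
          congr 1
          push_cast
          ring
      _ < ‖(N : ℤ_[p])‖ ^ 2 := by
          apply pow_lt_pow_left₀ hNnorm (zpow_nonneg hp0.le _) (by norm_num)
  obtain ⟨z, hz, -⟩ := hensels_lemma hhens
  have hzN : z ^ N = (u : ℤ_[p]) := by
    have : aeval z F = z ^ N - (u : ℤ_[p]) := by simp [hF]
    rw [this, sub_eq_zero] at hz
    exact hz
  have hzunit : IsUnit z := by
    have : IsUnit (z ^ N) := by rw [hzN]; exact u.isUnit
    exact (isUnit_pow_iff hNpos.ne').mp this
  refine ⟨hzunit.unit, ?_⟩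
  apply Units.ext
  rw [Units.val_pow_eq_pow_val, IsUnit.unit_spec, hzN]

end Fermat.Agent.S55.H413

end
-- ===== PACK-END S55/H413/WRPow.lean

-- ===== PACK-BEGIN S14/H714/Basic.lean
section



/-!
# S14, block GALOIS (helper714): basic facts

* the instances needed to do (infinite) Galois theory on `AlgebraicClosure ℚ` with the
  `Algebra ℚ _` instance used by the Prelude;
* basic properties of `ExtCitation.cycloExp`.
-/

set_option autoImplicit false
set_option linter.style.haveILetI false

namespace Fermat.Agent.S14.H714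

open ExtCitation

/-- The algebraic closure of `ℚ`. -/
abbrev Qb := AlgebraicClosure ℚ
/-- The absolute Galois group of `ℚ`. -/
abbrev G := Qb ≃ₐ[ℚ] Qb

instance instIsAlgebraicQb : Algebra.IsAlgebraic ℚ Qb := AlgebraicClosure.isAlgebraic ℚ

instance instIsAlgClosureQb : IsAlgClosure ℚ Qb := ⟨inferInstance, inferInstance⟩

instance instIsGaloisQb : IsGalois ℚ Qb := inferInstance

variable (p : ℕ) [Fact p.Prime]

/-- The mod `p` cyclotomic character, as an element of `ZMod p`. -/
noncomputable def omega (σ : G) : ZMod p := (cycloExp p σ : ZMod p)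

theorem omega_def (σ : G) : omega p σ = (cycloExp p σ : ZMod p) := rfl

theorem cycloExp_spec (σ : G) {ζ : Qb} (hζ : ζ ^ p = 1) : σ ζ = ζ ^ cycloExp p σ := by
  haveI : NeZero p := ⟨(Fact.out : p.Prime).ne_zero⟩
  have hu : IsUnit ζ := IsUnit.of_pow_eq_one hζ (Fact.out : p.Prime).ne_zero
  obtain ⟨u, rfl⟩ := hu
  have hmem : u ∈ rootsOfUnity p Qb := by
    rw [mem_rootsOfUnity]
    exact Units.ext (by simpa using hζ)
  exact modularCyclotomicCharacter.spec Qb (card_rootsOfUnity_eq_self p)
    (σ : Qb ≃+* Qb) hmem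

theorem omega_eq_unit (σ : G) :
    haveI : NeZero p := ⟨(Fact.out : p.Prime).ne_zero⟩
    omega p σ = ((modularCyclotomicCharacter Qb (card_rootsOfUnity_eq_self p)
      (σ : Qb ≃+* Qb) : (ZMod p)ˣ) : ZMod p) := by
  haveI : NeZero p := ⟨(Fact.out : p.Prime).ne_zero⟩
  unfold omega cycloExp
  exact ZMod.natCast_zmod_val _

theorem omega_mul (σ τ : G) : omega p (σ * τ) = omega p σ * omega p τ := by
  haveI : NeZero p := ⟨(Fact.out : p.Prime).ne_zero⟩
  rw [omega_eq_unit, omega_eq_unit, omega_eq_unit, ← Units.val_mul, ← map_mul]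
  rfl

theorem omega_one : omega p (1 : G) = 1 := by
  haveI : NeZero p := ⟨(Fact.out : p.Prime).ne_zero⟩
  rw [omega_eq_unit]
  have : ((1 : G) : Qb ≃+* Qb) = 1 := rfl
  rw [this, map_one, Units.val_one]

theorem omega_isUnit (σ : G) : IsUnit (omega p σ) := by
  haveI : NeZero p := ⟨(Fact.out : p.Prime).ne_zero⟩
  rw [omega_eq_unit]
  exact Units.isUnit _

theorem omega_ne_zero (σ : G) : omega p σ ≠ 0 := (omega_isUnit p σ).ne_zero

theorem omega_inv (σ : G) : omega p σ⁻¹ = (omega p σ)⁻¹ := by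
  have h : omega p σ⁻¹ * omega p σ = 1 := by
    rw [← omega_mul, inv_mul_cancel, omega_one]
  exact eq_inv_of_mul_eq_one_left h

/-- Powers of a primitive `p`-th root of unity are determined by the exponent mod `p`. -/
theorem pow_eq_pow_iff_of_isPrimitiveRoot {ζ : Qb} (hζ : IsPrimitiveRoot ζ p) (a b : ℕ) :
    ζ ^ a = ζ ^ b ↔ (a : ZMod p) = (b : ZMod p) := by
  have hp : p.Prime := Fact.out
  rw [pow_eq_pow_mod a hζ.pow_eq_one, pow_eq_pow_mod b hζ.pow_eq_one,
    ZMod.natCast_eq_natCast_iff]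
  constructor
  · intro h
    exact hζ.pow_inj (Nat.mod_lt _ hp.pos) (Nat.mod_lt _ hp.pos) h
  · intro h
    rw [h]

theorem pow_eq_pow_of_natCast_eq {ζ : Qb} (hζ : ζ ^ p = 1) {a b : ℕ}
    (h : (a : ZMod p) = (b : ZMod p)) : ζ ^ a = ζ ^ b := by
  rw [pow_eq_pow_mod a hζ, pow_eq_pow_mod b hζ]
  rw [ZMod.natCast_eq_natCast_iff] at h
  rw [h]

/-- `ω σ = 1` iff `σ` fixes one (any) primitive `p`-th root of unity. -/
theorem omega_eq_one_iff (σ : G) {ζ : Qb} (hζ : IsPrimitiveRoot ζ p) :
    omega p σ = 1 ↔ σ ζ = ζ := by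
  rw [cycloExp_spec p σ hζ.pow_eq_one, omega_def]
  conv_lhs => rw [← Nat.cast_one (R := ZMod p)]
  rw [← pow_eq_pow_iff_of_isPrimitiveRoot p hζ, pow_one]

end Fermat.Agent.S14.H714

end
-- ===== PACK-END S14/H714/Basic.lean

-- ===== PACK-BEGIN S55/L/UnrInv/CycSum.lean
section


/-!
# S55, layer L, unramified invariants: the cyclic sum of a 2-cocycle (pure algebra)

For `σ : G`, `n : ℕ` and a 2-cochain `c : G × G → A` put `cycSum σ n c = ∑_{i<n} c (σ^i, σ)`.
If `σ ^ n = 1` and `w : A → ℤ` is additive and `G`-invariant, then `w (cycSum σ n c) mod n` only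
depends on the cohomology class of the cocycle `c`; this is the isomorphism
`H²(⟨σ⟩, A) ≅ A^G / N A` made explicit, without any choice of normalised cocycles.

Main results:
* `cycSum_d₁₂`, `w_cycSum_of_mem_coboundaries₂`: the cyclic sum of a coboundary is a norm.
* `sum_pow_mul_eq`: the base change identity
  `∑_{i<n'} c (σ^(f i), σ^f) = (f n'/n) • cycSum σ n c + ∑_{i<n'} σ^(f i) • (c (1,1) - D)`.
* `w_sum_pow_mul`: its consequence for `w`.
-/

set_option autoImplicit false

namespace Fermat.Agent.S55.L.UnrInv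

open groupCohomology

variable {G : Type} [Group G] {A : Rep ℤ G}

/-- The cyclic sum `∑_{i<n} c (σ^i, σ)` of a 2-cochain. -/
def cycSum (σ : G) (n : ℕ) (c : G × G → A) : A := ∑ i ∈ Finset.range n, c (σ ^ i, σ)

theorem cycSum_add (σ : G) (n : ℕ) (c c' : G × G → A) :
    cycSum σ n (c + c') = cycSum σ n c + cycSum σ n c' := by
  simp only [cycSum, Pi.add_apply, Finset.sum_add_distrib]

theorem cycSum_zero (σ : G) (n : ℕ) : cycSum σ n (0 : G × G → A) = 0 := by
  simp [cycSum]

/-- The cyclic sum of a coboundary is a norm. -/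
theorem cycSum_d₁₂ (σ : G) (n : ℕ) (hσ : σ ^ n = 1) (b : G → A) :
    cycSum σ n ((d₁₂ A).hom b) = ∑ i ∈ Finset.range n, A.ρ (σ ^ i) (b σ) := by
  have h1 : ∀ i : ℕ, (d₁₂ A).hom b (σ ^ i, σ) =
      A.ρ (σ ^ i) (b σ) - (b (σ ^ (i + 1)) - b (σ ^ i)) := by
    intro i
    rw [d₁₂_hom_apply]
    simp only [pow_succ]
    abel
  simp only [cycSum, h1]
  rw [Finset.sum_sub_distrib, Finset.sum_range_sub (fun i => b (σ ^ i)), hσ, pow_zero, sub_self,
    sub_zero]

/-- For an additive `G`-invariant `w`, the value of `w` on the cyclic sum of a coboundary is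
divisible by `n`. -/
theorem w_cycSum_d₁₂ (σ : G) (n : ℕ) (hσ : σ ^ n = 1) (w : A →+ ℤ)
    (hw : ∀ (g : G) (x : A), w (A.ρ g x) = w x) (b : G → A) :
    w (cycSum σ n ((d₁₂ A).hom b)) = n * w (b σ) := by
  rw [cycSum_d₁₂ σ n hσ, map_sum]
  simp only [hw, Finset.sum_const, Finset.card_range, nsmul_eq_mul]

theorem w_cycSum_of_mem_coboundaries₂ (σ : G) (n : ℕ) (hσ : σ ^ n = 1) (w : A →+ ℤ)
    (hw : ∀ (g : G) (x : A), w (A.ρ g x) = w x) (c : G × G → A) (hc : c ∈ coboundaries₂ A) :
    (n : ℤ) ∣ w (cycSum σ n c) := by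
  obtain ⟨b, rfl⟩ := hc
  exact ⟨w (b σ), w_cycSum_d₁₂ σ n hσ w hw b⟩

/-- Step (a): `c (g, σ^f) = c (g, 1) + ∑_{j<f} c (g σ^j, σ) - g • ∑_{j<f} c (σ^j, σ)`. -/
theorem cocycle_pow_snd (c : cocycles₂ A) (σ g : G) (f : ℕ) :
    c (g, σ ^ f) = c (g, 1) + ∑ j ∈ Finset.range f, c (g * σ ^ j, σ)
      - A.ρ g (∑ j ∈ Finset.range f, c (σ ^ j, σ)) := by
  induction f with
  | zero => simp
  | succ f ih =>
    have h := (mem_cocycles₂_iff (c : G × G → A)).1 c.2 g (σ ^ f) σ
    rw [Finset.sum_range_succ, Finset.sum_range_succ, map_add, pow_succ]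
    have h' : c (g, σ ^ f * σ) = c (g * σ ^ f, σ) + c (g, σ ^ f) - A.ρ g (c (σ ^ f, σ)) := by
      rw [h]; abel
    rw [h', ih]
    abel

/-- Periodic sums. -/
theorem sum_range_mul_of_periodic {M : Type*} [AddCommMonoid M] (F : ℕ → M) (n : ℕ)
    (hF : ∀ k, F (k + n) = F k) (m : ℕ) :
    ∑ k ∈ Finset.range (m * n), F k = m • ∑ k ∈ Finset.range n, F k := by
  induction m with
  | zero => simp
  | succ m ih =>
    have hper : ∀ (t k : ℕ), F (t * n + k) = F k := by
      intro t
      induction t with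
      | zero => intro k; simp
      | succ t iht =>
        intro k
        rw [show (t + 1) * n + k = (t * n + k) + n by ring, hF, iht]
    rw [Nat.succ_mul, Finset.sum_range_add, ih, succ_nsmul]
    congr 1
    exact Finset.sum_congr rfl fun k _ => hper m k

/-- Double sum as a single sum. -/
theorem sum_range_sum_range {M : Type*} [AddCommMonoid M] (F : ℕ → M) (f n' : ℕ) :
    ∑ i ∈ Finset.range n', ∑ j ∈ Finset.range f, F (f * i + j) =
      ∑ k ∈ Finset.range (f * n'), F k := by
  induction n' with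
  | zero => simp
  | succ n' ih =>
    rw [Finset.sum_range_succ, ih, Nat.mul_succ, Finset.sum_range_add]

/-- **Base change identity** for the cyclic sum. -/
theorem sum_pow_mul_eq (c : cocycles₂ A) (σ : G) (n f n' m : ℕ) (hσ : σ ^ n = 1)
    (hm : f * n' = m * n) :
    ∑ i ∈ Finset.range n', c (σ ^ (f * i), σ ^ f) =
      m • cycSum σ n c +
        ∑ i ∈ Finset.range n', A.ρ (σ ^ (f * i))
          (c (1, 1) - ∑ j ∈ Finset.range f, c (σ ^ j, σ)) := by
  have h1 : ∀ i : ℕ, c (σ ^ (f * i), σ ^ f) =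
      (∑ j ∈ Finset.range f, c (σ ^ (f * i + j), σ)) +
        A.ρ (σ ^ (f * i)) (c (1, 1) - ∑ j ∈ Finset.range f, c (σ ^ j, σ)) := by
    intro i
    rw [cocycle_pow_snd c σ (σ ^ (f * i)) f, cocycles₂_map_one_snd, map_sub]
    simp only [pow_add]
    abel
  simp only [h1, Finset.sum_add_distrib]
  congr 1
  rw [sum_range_sum_range (fun k => c (σ ^ k, σ)) f n', hm]
  exact sum_range_mul_of_periodic (fun k => c (σ ^ k, σ)) n
    (fun k => by simp only [pow_add, hσ, mul_one]) m

/-- Consequence of the base change identity for an invariant additive function. -/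
theorem w_sum_pow_mul (c : cocycles₂ A) (σ : G) (n f n' m : ℕ) (hσ : σ ^ n = 1)
    (hm : f * n' = m * n) (w : A →+ ℤ) (hw : ∀ (g : G) (x : A), w (A.ρ g x) = w x) :
    w (∑ i ∈ Finset.range n', c (σ ^ (f * i), σ ^ f)) =
      m * w (cycSum σ n c) +
        n' * w (c (1, 1) - ∑ j ∈ Finset.range f, c (σ ^ j, σ)) := by
  rw [sum_pow_mul_eq c σ n f n' m hσ hm, map_add, map_nsmul, map_sum]
  simp only [hw, Finset.sum_const, Finset.card_range, nsmul_eq_mul]

end Fermat.Agent.S55.L.UnrInv

end
-- ===== PACK-END S55/L/UnrInv/CycSum.lean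

-- ===== PACK-BEGIN S55/Cap/J2H164/Shapiro.lean
section


/-!
# S55 / A8 (CAP), leaf J2, part (A): explicit Shapiro in degree 2   (helper164)

Abstract setting: `r : D → G` a group homomorphism (NOT assumed injective), `W ≤ G` a normal
subgroup, `Y` a `G`-set, `X` a `D`-module.  Cochains with values in `Y → X`, on which `D` acts
by `(d • a) y = d (a ((r d)⁻¹ • y))`.

Input:
* `ζ : G × G → Y → X`, right-`W`-invariant, satisfying the cocycle relation for triples
  `(r d, γ, g)`;
* `β : D → Y → X`, right-`r⁻¹ W`-invariant, with `d β = ζ ∘ (r × r)`.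

Output: `shT : G → Y → X` with
* `shT (r d * γ) y = d (shT γ ((r d)⁻¹ • y)) + ζ (r d, γ) y - β d y`,
* `shT (γ * w) = shT γ` for `w ∈ W`,
and `shPhi g γ y = ζ (γ, g) y - shT (γ * g) y + shT γ y`, which is `D`-equivariant in `γ`,
right-`W`-invariant in `γ` and in `g`, and has the same "coboundary" as `ζ`.

Construction: `shT (r d * σ * w) = ζ (r d, σ) - β d` for `σ` the chosen representative of the
double coset `r(D) σ W`.   Mathlib only.
-/

set_option autoImplicit false
set_option linter.unusedVariables false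
set_option linter.unusedSectionVars false

noncomputable section

namespace Fermat.Agent.S55.Cap.J2H164

section AbstractShapiro

variable {G D Y X : Type} [Group G] [Group D] [MulAction G Y] [AddCommGroup X]
  (r : D →* G) (W : Subgroup G) [hWn : W.Normal] (ρ : Representation ℤ D X)

/-- the chosen representative of the double coset `r(D) γ W` -/
def dcRep (γ : G) : G := (DoubleCoset.mk r.range W γ).out

lemma dcRep_eq (γ : G) (d : D) (w : G) (hw : w ∈ W) :
    dcRep r W (r d * γ * w) = dcRep r W γ := by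
  unfold dcRep
  have h : DoubleCoset.mk r.range W (r d * γ * w) = DoubleCoset.mk r.range W γ := by
    rw [eq_comm, DoubleCoset.eq]
    exact ⟨r d, ⟨d, rfl⟩, w, hw, rfl⟩
  rw [h]

lemma exists_dcRep (γ : G) : ∃ d : D, ∃ w ∈ W, γ = r d * dcRep r W γ * w := by
  have h : DoubleCoset.mk r.range W (dcRep r W γ) = DoubleCoset.mk r.range W γ :=
    DoubleCoset.out_eq' _ _ _
  obtain ⟨h', ⟨d, rfl⟩, w, hw, hγ⟩ := (DoubleCoset.eq _ _ _ _).1 h
  exact ⟨d, w, hw, hγ⟩

variable (ζ : G × G → Y → X) (β : D → Y → X)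

/-- the correction cochain `t` -/
def shT (γ : G) : Y → X := fun y =>
  ζ (r (Classical.choose (exists_dcRep r W γ)), dcRep r W γ) y
    - β (Classical.choose (exists_dcRep r W γ)) y

/-- the modified cochain `φ_g(γ) = ζ(γ, g) - t(γ g) + t(γ)` -/
def shPhi (g γ : G) : Y → X := fun y =>
  ζ (γ, g) y - shT r W ζ β (γ * g) y + shT r W ζ β γ y

variable (hζW : ∀ g g' w w', w ∈ W → w' ∈ W → ζ (g * w, g' * w') = ζ (g, g'))
  (hζ : ∀ (d : D) (γ g : G) (y : Y),
    ζ (r d * γ, g) y + ζ (r d, γ) y = ρ d (ζ (γ, g) ((r d)⁻¹ • y)) + ζ (r d, γ * g) y)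
  (hβW : ∀ d e, e ∈ W.comap r → β (d * e) = β d)
  (hβ : ∀ d d' y, ρ d (β d' ((r d)⁻¹ • y)) - β (d * d') y + β d y = ζ (r d, r d') y)

include hWn hζW hβW in
/-- `t` does not depend on the choice of the decomposition `γ = r d * σ * w`. -/
lemma shT_eq (γ : G) (d : D) (w : G) (hw : w ∈ W) (hγ : γ = r d * dcRep r W γ * w) (y : Y) :
    shT r W ζ β γ y = ζ (r d, dcRep r W γ) y - β d y := by
  obtain ⟨w₀, hw₀, hγ₀⟩ := Classical.choose_spec (exists_dcRep r W γ)
  set d₀ := Classical.choose (exists_dcRep r W γ) with hd₀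
  set σ := dcRep r W γ with hσ
  -- `e = d⁻¹ d₀` lies in `r⁻¹ W`
  have he : d⁻¹ * d₀ ∈ W.comap r := by
    rw [Subgroup.mem_comap, map_mul, map_inv]
    have h1 : (r d)⁻¹ * r d₀ = σ * (w * w₀⁻¹) * σ⁻¹ := by
      have h2 : r d₀ * σ * w₀ = r d * σ * w := by rw [← hγ₀, ← hγ]
      have h3 : r d₀ = r d * σ * w * w₀⁻¹ * σ⁻¹ := by
        rw [← h2]
        group
      rw [h3]
      group
    rw [h1]
    exact hWn.conj_mem _ (mul_mem hw (inv_mem hw₀)) σ
  have h4 : d₀ = d * (d⁻¹ * d₀) := by group
  have h5 : ζ (r d₀, σ) = ζ (r d, σ) := by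
    have := hζW (r d) σ (r (d⁻¹ * d₀)) 1 he (one_mem _)
    rw [mul_one, ← map_mul, ← h4] at this
    exact this
  have h6 : β d₀ = β d := by
    have := hβW d (d⁻¹ * d₀) he
    rwa [← h4] at this
  show ζ (r d₀, σ) y - β d₀ y = ζ (r d, σ) y - β d y
  rw [h5, h6]

include hWn hζW hβW in
/-- right-`W`-invariance of `t` -/
lemma shT_mul_right (γ w : G) (hw : w ∈ W) : shT r W ζ β (γ * w) = shT r W ζ β γ := by
  funext y
  obtain ⟨d₀, w₀, hw₀, hγ₀⟩ := exists_dcRep r W γ
  have hσ : dcRep r W (γ * w) = dcRep r W γ := by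
    have := dcRep_eq r W γ 1 w hw
    rwa [map_one, one_mul] at this
  have h1 : γ * w = r d₀ * dcRep r W (γ * w) * (w₀ * w) := by
    rw [hσ, ← mul_assoc, ← hγ₀]
  rw [shT_eq r W ζ β hζW hβW (γ * w) d₀ (w₀ * w) (mul_mem hw₀ hw) h1 y,
    shT_eq r W ζ β hζW hβW γ d₀ w₀ hw₀ hγ₀ y, hσ]

include hWn hζW hζ hβW hβ in
/-- the transformation rule of `t` under left multiplication by `r d` -/
lemma shT_mul_left (d : D) (γ : G) (y : Y) :
    shT r W ζ β (r d * γ) y
      = ρ d (shT r W ζ β γ ((r d)⁻¹ • y)) + ζ (r d, γ) y - β d y := by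
  obtain ⟨d₀, w₀, hw₀, hγ₀⟩ := exists_dcRep r W γ
  have hσ : dcRep r W (r d * γ) = dcRep r W γ := by
    have := dcRep_eq r W γ d 1 (one_mem _)
    rwa [mul_one] at this
  have h1 : r d * γ = r (d * d₀) * dcRep r W (r d * γ) * w₀ := by
    calc r d * γ = r d * (r d₀ * dcRep r W γ * w₀) := by rw [← hγ₀]
      _ = r (d * d₀) * dcRep r W (r d * γ) * w₀ := by
        rw [hσ, map_mul]
        group
  rw [shT_eq r W ζ β hζW hβW (r d * γ) (d * d₀) w₀ hw₀ h1 y,
    shT_eq r W ζ β hζW hβW γ d₀ w₀ hw₀ hγ₀ ((r d)⁻¹ • y), hσ]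
  set σ := dcRep r W γ with hσdef
  have h2 : ζ (r d, γ) = ζ (r d, r d₀ * σ) := by
    have := hζW (r d) (r d₀ * σ) 1 w₀ (one_mem _) hw₀
    rw [mul_one, ← hγ₀] at this
    exact this
  have h3 := hζ d (r d₀) σ y
  have h4 := hβ d d₀ y
  rw [h2, map_sub, map_mul]
  linear_combination (norm := abel) h3 + h4

include hWn hζW hζ hβW hβ in
/-- `φ_g` is `D`-equivariant -/
lemma shPhi_mul_left (g : G) (d : D) (γ : G) (y : Y) :
    shPhi r W ζ β g (r d * γ) y = ρ d (shPhi r W ζ β g γ ((r d)⁻¹ • y)) := by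
  unfold shPhi
  rw [mul_assoc, shT_mul_left r W ρ ζ β hζW hζ hβW hβ d (γ * g) y,
    shT_mul_left r W ρ ζ β hζW hζ hβW hβ d γ y, map_add, map_sub]
  have h3 := hζ d γ g y
  linear_combination (norm := abel) h3

include hWn hζW hβW in
/-- `φ_g(γ)` is right-`W`-invariant in `γ` -/
lemma shPhi_mul_right (g γ w : G) (hw : w ∈ W) :
    shPhi r W ζ β g (γ * w) = shPhi r W ζ β g γ := by
  funext y
  unfold shPhi
  have h1 : γ * w * g = γ * g * (g⁻¹ * w * g) := by group
  have h2 : g⁻¹ * w * g ∈ W := by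
    have := hWn.conj_mem w hw g⁻¹
    rwa [inv_inv] at this
  have h3 : ζ (γ * w, g) = ζ (γ, g) := by
    have := hζW γ g w 1 hw (one_mem _)
    rwa [mul_one] at this
  rw [h1, shT_mul_right r W ζ β hζW hβW (γ * g) _ h2, shT_mul_right r W ζ β hζW hβW γ w hw, h3]

include hWn hζW hβW in
/-- `φ_g(γ)` is right-`W`-invariant in `g` -/
lemma shPhi_mul_right' (g γ w : G) (hw : w ∈ W) :
    shPhi r W ζ β (g * w) γ = shPhi r W ζ β g γ := by
  funext y
  unfold shPhi
  have h3 : ζ (γ, g * w) = ζ (γ, g) := by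
    have := hζW γ g 1 w (one_mem _) hw
    rwa [mul_one] at this
  rw [← mul_assoc, shT_mul_right r W ζ β hζW hβW (γ * g) w hw, h3]

/-- the coboundary of `φ` is the "coboundary" of `ζ` -/
lemma shPhi_cobdry (g h γ : G) (y : Y) :
    shPhi r W ζ β h (γ * g) y - shPhi r W ζ β (g * h) γ y + shPhi r W ζ β g γ y
      = ζ (γ * g, h) y - ζ (γ, g * h) y + ζ (γ, g) y := by
  unfold shPhi
  rw [mul_assoc]
  abel

end AbstractShapiro

end Fermat.Agent.S55.Cap.J2H164

end
end
-- ===== PACK-END S55/Cap/J2H164/Shapiro.lean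

-- ===== PACK-BEGIN S56/H419/EulerAddCore.lean
section


/-!
# S56 / W-BASE / leaf ADD, part 1 (helper419): abstract linear algebra

Alternating sum of dimensions along a nine-term exact sequence of finite-dimensional vector spaces
`0 → V₁ → V₂ → … → V₉ → 0`.
-/

set_option autoImplicit false

namespace Fermat.Agent.S56.H419

open Module

section NineTerm

variable {k : Type*} [Field k]

/-- Rank–nullity in the form used along an exact sequence: if `range f = ker g` then
`dim V = dim (range f) + dim (range g)`. -/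
theorem finrank_eq_of_exact {U V W : Type*} [AddCommGroup U] [Module k U]
    [AddCommGroup V] [Module k V] [AddCommGroup W] [Module k W] [FiniteDimensional k V]
    (f : U →ₗ[k] V) (g : V →ₗ[k] W) (h : LinearMap.range f = LinearMap.ker g) :
    finrank k V = finrank k (LinearMap.range f) + finrank k (LinearMap.range g) := by
  rw [h, add_comm]
  exact (LinearMap.finrank_range_add_finrank_ker g).symm

/-- The alternating sum of the dimensions of a nine-term exact sequence vanishes, in the form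
`dim V₂ + dim V₅ + dim V₈ … ` used for Euler characteristics:
`(d₁ - d₄ + d₇) + (d₃ - d₆ + d₉) = d₂ - d₅ + d₈`. -/
theorem nineTerm_alternating
    {V₁ V₂ V₃ V₄ V₅ V₆ V₇ V₈ V₉ : Type*}
    [AddCommGroup V₁] [Module k V₁] [AddCommGroup V₂] [Module k V₂]
    [AddCommGroup V₃] [Module k V₃] [AddCommGroup V₄] [Module k V₄]
    [AddCommGroup V₅] [Module k V₅] [AddCommGroup V₆] [Module k V₆]
    [AddCommGroup V₇] [Module k V₇] [AddCommGroup V₈] [Module k V₈]
    [AddCommGroup V₉] [Module k V₉]
    [FiniteDimensional k V₁] [FiniteDimensional k V₂] [FiniteDimensional k V₃]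
    [FiniteDimensional k V₄] [FiniteDimensional k V₅] [FiniteDimensional k V₆]
    [FiniteDimensional k V₇] [FiniteDimensional k V₈] [FiniteDimensional k V₉]
    (f₁ : V₁ →ₗ[k] V₂) (f₂ : V₂ →ₗ[k] V₃) (f₃ : V₃ →ₗ[k] V₄) (f₄ : V₄ →ₗ[k] V₅)
    (f₅ : V₅ →ₗ[k] V₆) (f₆ : V₆ →ₗ[k] V₇) (f₇ : V₇ →ₗ[k] V₈) (f₈ : V₈ →ₗ[k] V₉)
    (h₁ : Function.Injective f₁)
    (h₁₂ : LinearMap.range f₁ = LinearMap.ker f₂)
    (h₂₃ : LinearMap.range f₂ = LinearMap.ker f₃)
    (h₃₄ : LinearMap.range f₃ = LinearMap.ker f₄)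
    (h₄₅ : LinearMap.range f₄ = LinearMap.ker f₅)
    (h₅₆ : LinearMap.range f₅ = LinearMap.ker f₆)
    (h₆₇ : LinearMap.range f₆ = LinearMap.ker f₇)
    (h₇₈ : LinearMap.range f₇ = LinearMap.ker f₈)
    (h₈ : Function.Surjective f₈) :
    ((finrank k V₁ : ℤ) - finrank k V₄ + finrank k V₇) +
        ((finrank k V₃ : ℤ) - finrank k V₆ + finrank k V₉) =
      (finrank k V₂ : ℤ) - finrank k V₅ + finrank k V₈ := by
  have e₁ : finrank k V₁ = finrank k (LinearMap.range f₁) :=
    (LinearMap.finrank_range_of_inj h₁).symm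
  have e₂ := finrank_eq_of_exact f₁ f₂ h₁₂
  have e₃ := finrank_eq_of_exact f₂ f₃ h₂₃
  have e₄ := finrank_eq_of_exact f₃ f₄ h₃₄
  have e₅ := finrank_eq_of_exact f₄ f₅ h₄₅
  have e₆ := finrank_eq_of_exact f₅ f₆ h₅₆
  have e₇ := finrank_eq_of_exact f₆ f₇ h₆₇
  have e₈ := finrank_eq_of_exact f₇ f₈ h₇₈
  have e₉ : finrank k V₉ = finrank k (LinearMap.range f₈) := by
    rw [LinearMap.range_eq_top.2 h₈, finrank_top]
  omega

end NineTerm

end Fermat.Agent.S56.H419

end
-- ===== PACK-END S56/H419/EulerAddCore.lean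

-- ===== PACK-BEGIN S56/H614/AvgLA.lean
section


/-!
# S56 / W-BASE / EUL-RED, part 1 (helper614): averaging over an operator of finite order

Pure linear algebra (Mathlib only).  `k` a field, `S` an endomorphism with `S ^ n = 1`, `n ≠ 0`
in `k`:

* `avgOp S n = n⁻¹ • ∑_{j < n} S ^ j` is a projector onto `ker (S - 1)` (`range_avgOp`);
* `finrank_ker_sub_one_of_exact`: `dim ker (S - 1)` is additive on short exact sequences;
* `matOp M T` on `J → V`: `(matOp M T z) i = ∑ j, M i j • T (z j)` (the operator `M ⊗ T` on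
  `k^J ⊗ V`), `matOp_mul`, `matOp_pow`.
-/

set_option autoImplicit false

noncomputable section

namespace Fermat.Agent.S56.H614

open Module

section Avg

variable {k : Type} [Field k] {V : Type} [AddCommGroup V] [Module k V]

/-- `n⁻¹ • ∑_{j < n} S ^ j`. -/
def avgOp (S : V →ₗ[k] V) (n : ℕ) : V →ₗ[k] V :=
  ((n : k)⁻¹) • ∑ j ∈ Finset.range n, S ^ j

theorem sum_pow_mul_eq (S : V →ₗ[k] V) (n : ℕ) (hS : S ^ n = 1) :
    S * ∑ j ∈ Finset.range n, S ^ j = ∑ j ∈ Finset.range n, S ^ j := by
  rw [Finset.mul_sum]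
  have h1 : ∑ j ∈ Finset.range n, S * S ^ j = ∑ j ∈ Finset.range n, S ^ (j + 1) :=
    Finset.sum_congr rfl fun j _ => (pow_succ' S j).symm
  rw [h1]
  cases n with
  | zero => simp
  | succ m =>
    rw [Finset.sum_range_succ, hS, Finset.sum_range_succ' (fun j => S ^ j) m, pow_zero]

theorem mul_avgOp (S : V →ₗ[k] V) (n : ℕ) (hS : S ^ n = 1) : S * avgOp S n = avgOp S n := by
  unfold avgOp
  rw [mul_smul_comm, sum_pow_mul_eq S n hS]

theorem avgOp_apply_of_fixed (S : V →ₗ[k] V) (n : ℕ) (hn : (n : k) ≠ 0) {x : V} (hx : S x = x) :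
    avgOp S n x = x := by
  have h1 : ∀ j : ℕ, (S ^ j) x = x := by
    intro j
    induction j with
    | zero => simp
    | succ j ih => rw [pow_succ, Module.End.mul_apply, hx, ih]
  unfold avgOp
  rw [LinearMap.smul_apply, LinearMap.sum_apply, Finset.sum_congr rfl fun j _ => h1 j,
    Finset.sum_const, Finset.card_range, ← Nat.cast_smul_eq_nsmul k, smul_smul,
    inv_mul_cancel₀ hn, one_smul]

theorem range_avgOp (S : V →ₗ[k] V) (n : ℕ) (hn : (n : k) ≠ 0) (hS : S ^ n = 1) :
    LinearMap.range (avgOp S n) = LinearMap.ker (S - 1) := by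
  apply le_antisymm
  · rintro _ ⟨x, rfl⟩
    rw [LinearMap.mem_ker, LinearMap.sub_apply, Module.End.one_apply, sub_eq_zero,
      ← Module.End.mul_apply, mul_avgOp S n hS]
  · intro x hx
    rw [LinearMap.mem_ker, LinearMap.sub_apply, Module.End.one_apply, sub_eq_zero] at hx
    exact ⟨x, avgOp_apply_of_fixed S n hn hx⟩

theorem avgOp_mem_ker (S : V →ₗ[k] V) (n : ℕ) (hS : S ^ n = 1) (x : V) :
    avgOp S n x ∈ LinearMap.ker (S - 1) := by
  rw [LinearMap.mem_ker, LinearMap.sub_apply, Module.End.one_apply, sub_eq_zero,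
    ← Module.End.mul_apply, mul_avgOp S n hS]

/-- intertwining: if `q ∘ S = S' ∘ q` then `q ∘ avgOp S = avgOp S' ∘ q`. -/
theorem avgOp_comm {W : Type} [AddCommGroup W] [Module k W] (S : V →ₗ[k] V) (S' : W →ₗ[k] W)
    (q : V →ₗ[k] W) (h : ∀ x, q (S x) = S' (q x)) (n : ℕ) (x : V) :
    q (avgOp S n x) = avgOp S' n (q x) := by
  have h1 : ∀ j : ℕ, ∀ x, q ((S ^ j) x) = (S' ^ j) (q x) := by
    intro j
    induction j with
    | zero => intro x; simp
    | succ j ih =>
      intro x
      rw [pow_succ, Module.End.mul_apply, ih, h, pow_succ, Module.End.mul_apply]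
  unfold avgOp
  simp only [LinearMap.smul_apply, LinearMap.sum_apply, map_smul, map_sum, h1]

end Avg

section Exact

variable {k : Type} [Field k] {V₁ V₂ V₃ : Type} [AddCommGroup V₁] [Module k V₁]
  [AddCommGroup V₂] [Module k V₂] [AddCommGroup V₃] [Module k V₃]

/-- **Invariants of an operator of order prime to the characteristic are exact.** -/
theorem finrank_ker_sub_one_of_exact [FiniteDimensional k V₂]
    (i : V₁ →ₗ[k] V₂) (q : V₂ →ₗ[k] V₃) (hi : Function.Injective i)
    (hq : Function.Surjective q) (hex : LinearMap.range i = LinearMap.ker q)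
    (S₁ : V₁ →ₗ[k] V₁) (S₂ : V₂ →ₗ[k] V₂) (S₃ : V₃ →ₗ[k] V₃)
    (h₁ : ∀ x, i (S₁ x) = S₂ (i x)) (h₂ : ∀ x, q (S₂ x) = S₃ (q x))
    (n : ℕ) (hn : (n : k) ≠ 0) (hS : S₂ ^ n = 1) :
    finrank k (LinearMap.ker (S₂ - 1)) =
      finrank k (LinearMap.ker (S₁ - 1)) + finrank k (LinearMap.ker (S₃ - 1)) := by
  have hS₃ : S₃ ^ n = 1 := by
    apply LinearMap.ext
    intro y
    obtain ⟨x, rfl⟩ := hq y
    have h1 : ∀ j : ℕ, ∀ x, q ((S₂ ^ j) x) = (S₃ ^ j) (q x) := by
      intro j
      induction j with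
      | zero => intro x; simp
      | succ j ih =>
        intro x
        rw [pow_succ, Module.End.mul_apply, ih, h₂, pow_succ, Module.End.mul_apply]
    rw [← h1, hS]
    rfl
  -- the maps on invariants
  let i' : ↥(LinearMap.ker (S₁ - 1)) →ₗ[k] ↥(LinearMap.ker (S₂ - 1)) :=
    (i ∘ₗ (LinearMap.ker (S₁ - 1)).subtype).codRestrict _ (fun x => by
      have hx := x.2
      rw [LinearMap.mem_ker, LinearMap.sub_apply, Module.End.one_apply, sub_eq_zero] at hx
      rw [LinearMap.mem_ker, LinearMap.sub_apply, Module.End.one_apply, sub_eq_zero,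
        LinearMap.comp_apply, Submodule.subtype_apply, ← h₁, hx])
  let q' : ↥(LinearMap.ker (S₂ - 1)) →ₗ[k] ↥(LinearMap.ker (S₃ - 1)) :=
    (q ∘ₗ (LinearMap.ker (S₂ - 1)).subtype).codRestrict _ (fun x => by
      have hx := x.2
      rw [LinearMap.mem_ker, LinearMap.sub_apply, Module.End.one_apply, sub_eq_zero] at hx
      rw [LinearMap.mem_ker, LinearMap.sub_apply, Module.End.one_apply, sub_eq_zero,
        LinearMap.comp_apply, Submodule.subtype_apply, ← h₂, hx])
  have hi' : Function.Injective i' := by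
    intro x y hxy
    apply Subtype.ext
    apply hi
    exact congrArg Subtype.val hxy
  have hq' : Function.Surjective q' := by
    intro w
    obtain ⟨b, hb⟩ := hq w.1
    refine ⟨⟨avgOp S₂ n b, avgOp_mem_ker S₂ n hS b⟩, ?_⟩
    apply Subtype.ext
    show q (avgOp S₂ n b) = w.1
    rw [avgOp_comm S₂ S₃ q h₂ n b, hb]
    have hw := w.2
    rw [LinearMap.mem_ker, LinearMap.sub_apply, Module.End.one_apply, sub_eq_zero] at hw
    exact avgOp_apply_of_fixed S₃ n hn hw
  have hex' : LinearMap.range i' = LinearMap.ker q' := by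
    ext b
    constructor
    · rintro ⟨a, rfl⟩
      rw [LinearMap.mem_ker]
      apply Subtype.ext
      show q (i a.1) = 0
      have : i a.1 ∈ LinearMap.ker q := by rw [← hex]; exact ⟨a.1, rfl⟩
      exact this
    · intro hb
      rw [LinearMap.mem_ker] at hb
      have hb' : q b.1 = 0 := congrArg Subtype.val hb
      have hmem : b.1 ∈ LinearMap.range i := by rw [hex]; exact hb'
      obtain ⟨a, ha⟩ := hmem
      have ha' : a ∈ LinearMap.ker (S₁ - 1) := by
        rw [LinearMap.mem_ker, LinearMap.sub_apply, Module.End.one_apply, sub_eq_zero]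
        apply hi
        have hb2 := b.2
        rw [LinearMap.mem_ker, LinearMap.sub_apply, Module.End.one_apply, sub_eq_zero] at hb2
        rw [h₁, ha, hb2]
      exact ⟨⟨a, ha'⟩, Subtype.ext ha⟩
  have h1 := LinearMap.finrank_range_add_finrank_ker q'
  rw [LinearMap.range_eq_top.2 hq', finrank_top, ← hex',
    LinearMap.finrank_range_of_inj hi'] at h1
  omega

end Exact

section MatOp

variable {k : Type} [Field k] {J : Type} [Fintype J] [DecidableEq J]
  {V : Type} [AddCommGroup V] [Module k V]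

/-- The operator `M ⊗ T` on `k^J ⊗ V = (J → V)`: `(matOp M T z) i = ∑ j, M i j • T (z j)`. -/
def matOp (M : Matrix J J k) (T : V →ₗ[k] V) : (J → V) →ₗ[k] (J → V) :=
  LinearMap.pi fun i => ∑ j, (M i j) • (T ∘ₗ LinearMap.proj j)

omit [DecidableEq J] in
theorem matOp_apply (M : Matrix J J k) (T : V →ₗ[k] V) (z : J → V) (i : J) :
    matOp M T z i = ∑ j, M i j • T (z j) := by
  simp [matOp, LinearMap.sum_apply]

theorem matOp_one_id : matOp (1 : Matrix J J k) (LinearMap.id : V →ₗ[k] V) = LinearMap.id := by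
  apply LinearMap.ext
  intro z
  funext i
  rw [matOp_apply]
  simp [Matrix.one_apply]

omit [DecidableEq J] in
theorem matOp_comp (M M' : Matrix J J k) (T T' : V →ₗ[k] V) :
    matOp M T ∘ₗ matOp M' T' = matOp (M * M') (T ∘ₗ T') := by
  apply LinearMap.ext
  intro z
  funext i
  rw [LinearMap.comp_apply, matOp_apply, matOp_apply]
  simp only [matOp_apply, map_sum, map_smul, Finset.smul_sum, smul_smul, Matrix.mul_apply,
    Finset.sum_smul, LinearMap.comp_apply]
  rw [Finset.sum_comm]

theorem matOp_pow (M : Matrix J J k) (T : V →ₗ[k] V) (n : ℕ) :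
    (matOp M T) ^ n = matOp (M ^ n) (T ^ n) := by
  induction n with
  | zero =>
    rw [pow_zero, pow_zero, pow_zero]
    exact matOp_one_id.symm
  | succ n ih =>
    rw [pow_succ, ih, pow_succ, pow_succ]
    exact matOp_comp _ _ _ _

theorem matOp_pow_eq_one (M : Matrix J J k) (T : V →ₗ[k] V) (n : ℕ) (hM : M ^ n = 1)
    (hT : T ^ n = 1) : (matOp M T) ^ n = 1 := by
  rw [matOp_pow, hM, hT]
  exact matOp_one_id

omit [DecidableEq J] in
/-- naturality of `matOp` in `V`. -/
theorem matOp_natural {W : Type} [AddCommGroup W] [Module k W] (M : Matrix J J k)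
    (T : V →ₗ[k] V) (T' : W →ₗ[k] W) (q : V →ₗ[k] W) (h : ∀ x, q (T x) = T' (q x))
    (z : J → V) : (fun j => q (matOp M T z j)) = matOp M T' (fun j => q (z j)) := by
  funext i
  simp only [matOp_apply, map_sum, map_smul, h]

end MatOp

end Fermat.Agent.S56.H614

end

end
-- ===== PACK-END S56/H614/AvgLA.lean

-- ===== PACK-BEGIN S56/P3/Defs.lean
section




/-!
# S56, piece P3 (finite group theory behind Taylor–Wiles primes) : definitions

Sub-architect: helper306.  Plan: `origin/helper306:coord/S56-P3.md`.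

`M = ad⁰ρ̄(1)` is realised CONCRETELY as the trace-zero endomorphisms of `V` with the twisted
adjoint action `g • A = det(ρ g) • (ρ g * A * ρ g⁻¹)` (recall `det ρ̄ = ω`, the mod `p` cyclotomic
character, so the twist by `det` IS the Tate twist).  Cocycles are plain functions `Γ → End V`.
-/

set_option autoImplicit false

open Polynomial

namespace Fermat.Agent.S56.P3

/-- `Gal(ℚ̄/ℚ)`. -/
abbrev GQ : Type := AlgebraicClosure ℚ ≃ₐ[ℚ] AlgebraicClosure ℚ

section EndForm

variable {k : Type} [Field k] {V : Type} [AddCommGroup V] [Module k V] [Module.Finite k V]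
variable {Γ : Type} [Group Γ]

/-- The twisted adjoint action `g • A = det(ρ g) • (ρ g * A * ρ g⁻¹)` on `End V`. -/
noncomputable def twEnd (ρ : Γ →* Module.End k V) (g : Γ) (A : Module.End k V) :
    Module.End k V :=
  LinearMap.det (ρ g) • (ρ g * A * ρ g⁻¹)

/-- `ψ : Γ → End V` is a 1-cocycle with values in `ad⁰ρ(1)`. -/
structure IsTwCocycle (ρ : Γ →* Module.End k V) (ψ : Γ → Module.End k V) : Prop where
  trace_zero : ∀ g, LinearMap.trace k V (ψ g) = 0
  map_mul : ∀ g h, ψ (g * h) = ψ g + twEnd ρ g (ψ h)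

/-- `ψ` is a 1-coboundary with values in `ad⁰ρ(1)`. -/
def IsTwCoboundary (ρ : Γ →* Module.End k V) (ψ : Γ → Module.End k V) : Prop :=
  ∃ m : Module.End k V, LinearMap.trace k V m = 0 ∧ ∀ g, ψ g = twEnd ρ g m - m

/-- `ρ σ` has two DISTINCT eigenvalues in `k`. -/
def IsRegular (ρ : Γ →* Module.End k V) (σ : Γ) : Prop :=
  ∃ α β : k, α ≠ β ∧ LinearMap.charpoly (ρ σ) = (X - C α) * (X - C β)

/-- `ψ σ ∈ (σ - 1) ad⁰ρ(1)`. -/
def InRange (ρ : Γ →* Module.End k V) (ψ : Γ → Module.End k V) (σ : Γ) : Prop :=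
  ∃ m : Module.End k V, LinearMap.trace k V m = 0 ∧ ψ σ = twEnd ρ σ m - m

/-- `σ` is a Taylor–Wiles element for the cocycle `ψ`: `ρ σ` has distinct eigenvalues in `k`,
`det ρ σ = 1`, and `ψ σ ∉ (σ - 1) ad⁰ρ(1)`. -/
def IsTWElement (ρ : Γ →* Module.End k V) (ψ : Γ → Module.End k V) (σ : Γ) : Prop :=
  IsRegular ρ σ ∧ LinearMap.det (ρ σ) = 1 ∧ ¬ InRange ρ ψ σ

/-- The abstract hypotheses of S56 on `ρ̄` (`p` odd prime, `k` of characteristic `p`):
absolutely irreducible, irreducible on every subgroup of index 2 over every extension field,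
all eigenvalues in `k`. -/
structure TWHyp (ρ : Γ →* Module.End k V) (p : ℕ) : Prop where
  finrank_eq : Module.finrank k V = 2
  char_p : (p : k) = 0
  absIrr : ∀ W : Submodule (AlgebraicClosure k) (TensorProduct k (AlgebraicClosure k) V),
    (∀ g : Γ, ∀ x ∈ W, (ρ g).baseChange (AlgebraicClosure k) x ∈ W) → W = ⊥ ∨ W = ⊤
  tw : ∀ (K : Type) [Field K] [Algebra k K] (G : Subgroup Γ), G.index = 2 →
    ∀ W : Submodule K (TensorProduct k K V),
      (∀ g ∈ G, ∀ x ∈ W, (ρ g).baseChange K x ∈ W) → W = ⊥ ∨ W = ⊤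
  split : ∀ g : Γ, ∃ α β : k, LinearMap.charpoly (ρ g) = (X - C α) * (X - C β)

end EndForm

section Galois

/-- `σ` fixes all `p^(n+1)`-th roots of unity (i.e. `σ ∈ G_{ℚ(ζ_{p^(n+1)})}`). -/
def FixesRoots (p n : ℕ) (σ : _root_.Fermat.Agent.S56.P3.GQ) : Prop :=
  ∀ μ : AlgebraicClosure ℚ, μ ^ p ^ (n + 1) = 1 → σ μ = μ

/-- The subgroup `G_{ℚ(ζ_{p^(n+1)})}` of `G_ℚ`. -/
def fixRootsSubgroup (p n : ℕ) : Subgroup _root_.Fermat.Agent.S56.P3.GQ where
  carrier := {σ | FixesRoots p n σ}
  mul_mem' := by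
    intro a b ha hb μ hμ
    rw [AlgEquiv.mul_apply, hb μ hμ, ha μ hμ]
  one_mem' := fun _ _ => rfl
  inv_mem' := by
    intro a ha μ hμ
    have h := ha μ hμ
    calc a⁻¹ μ = a⁻¹ (a μ) := by rw [h]
      _ = μ := by
        show a.symm (a μ) = μ
        exact a.symm_apply_apply μ

@[simp] lemma mem_fixRootsSubgroup {p n : ℕ} {σ : _root_.Fermat.Agent.S56.P3.GQ} :
    σ ∈ fixRootsSubgroup p n ↔ FixesRoots p n σ := Iff.rfl

end Galois

end Fermat.Agent.S56.P3

end
-- ===== PACK-END S56/P3/Defs.lean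

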