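import Mathlib
import Fermat.Agent.Pack.S43GC.G0E1L1

-- ===== PACK-BEGIN S55/Bridge/HDesc.lean
section


/-!
# S55 bridge: linear maps out of Mathlib's `H1`, `H2`

`H1desc`, `H2desc`: a linear map on cocycles vanishing on coboundaries descends to cohomology.
-/

set_option autoImplicit false

namespace Fermat.Agent.S55.Bridge

open groupCohomology CategoryTheory

universe u

variable {k G : Type u} [CommRing k] [Group G] (A : Rep.{u, u, u} k G)
  {X : Type*} [AddCommGroup X] [Module k X]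

theorem H2π_surjective : Function.Surjective (H2π A).hom :=
  (ModuleCat.epi_iff_surjective (H2π A)).1 inferInstance

theorem H1π_surjective : Function.Surjective (H1π A).hom :=
  (ModuleCat.epi_iff_surjective (H1π A)).1 inferInstance

/-- Descend a linear map on 2-cocycles that kills coboundaries to `H2`. -/
noncomputable def H2desc (g : cocycles₂ A →ₗ[k] X)
    (hg : ∀ c : cocycles₂ A, (c : G × G → A) ∈ coboundaries₂ A → g c = 0) : H2 A →ₗ[k] X :=
  (Submodule.liftQ (LinearMap.ker (H2π A).hom) g (by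
      intro c hc
      rw [LinearMap.mem_ker] at hc ⊢
      exact hg c ((H2π_eq_zero_iff c).1 hc))).comp
    ((H2π A).hom.quotKerEquivOfSurjective (H2π_surjective A)).symm.toLinearMap

@[simp] theorem H2desc_H2π (g : cocycles₂ A →ₗ[k] X)
    (hg : ∀ c : cocycles₂ A, (c : G × G → A) ∈ coboundaries₂ A → g c = 0) (c : cocycles₂ A) :
    H2desc A g hg ((H2π A).hom c) = g c := by
  unfold H2desc
  rw [LinearMap.comp_apply]
  have h : ((H2π A).hom.quotKerEquivOfSurjective (H2π_surjective A)).symm ((H2π A).hom c)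
      = Submodule.Quotient.mk c := by
    rw [LinearEquiv.symm_apply_eq]
    rfl
  rw [LinearEquiv.coe_coe, h]
  rfl

/-- Descend a linear map on 1-cocycles that kills coboundaries to `H1`. -/
noncomputable def H1desc (g : cocycles₁ A →ₗ[k] X)
    (hg : ∀ c : cocycles₁ A, (c : G → A) ∈ coboundaries₁ A → g c = 0) : H1 A →ₗ[k] X :=
  (Submodule.liftQ (LinearMap.ker (H1π A).hom) g (by
      intro c hc
      rw [LinearMap.mem_ker] at hc ⊢
      exact hg c ((H1π_eq_zero_iff c).1 hc))).comp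
    ((H1π A).hom.quotKerEquivOfSurjective (H1π_surjective A)).symm.toLinearMap

@[simp] theorem H1desc_H1π (g : cocycles₁ A →ₗ[k] X)
    (hg : ∀ c : cocycles₁ A, (c : G → A) ∈ coboundaries₁ A → g c = 0) (c : cocycles₁ A) :
    H1desc A g hg ((H1π A).hom c) = g c := by
  unfold H1desc
  rw [LinearMap.comp_apply]
  have h : ((H1π A).hom.quotKerEquivOfSurjective (H1π_surjective A)).symm ((H1π A).hom c)
      = Submodule.Quotient.mk c := by
    rw [LinearEquiv.symm_apply_eq]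
    rfl
  rw [LinearEquiv.coe_coe, h]
  rfl

end Fermat.Agent.S55.Bridge

end
-- ===== PACK-END S55/Bridge/HDesc.lean

-- ===== PACK-BEGIN S55/G/Exist121/Index.lean
section


/-!
# S55, layer G, block EXIST (global existence theorem mod `p`): the abstract index identity

Pure algebra, Mathlib only.  Author: helper121.

Setting (all groups additive, abelian).  `X`, `J`, `I` abelian groups, `ι : X →+ J`, `d : X →+ I`,
`p : ℕ` such that `I` has no `p`-torsion.  Think of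

* `X = Fˣ`, `J = ∏_{w ∈ S} F_wˣ`, `I =` group of fractional ideals prime to `S`,
* `ι` the diagonal embedding, `d` the divisor map,
* `C = (J × I) / X` the `S`-idèle class group, `E = ker d` the `S`-units, `Cl = I / d X` the
  `S`-class group, `V = d⁻¹(p I)` (so `V / p X` is the Selmer group `F(S, p)`),
  `Sha = V ∩ ι⁻¹(p J)` (elements of `V` which are local `p`-th powers at all `w ∈ S`).

Main result `Exist121.index_identity`:
`[C : pC] * [E : pE] = [J : pJ] * [Sha : pX]` as soon as `d X` has finite index in `I`.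

All indices are expressed by `AddSubgroup.index` / `AddSubgroup.relIndex` of subgroups of `X`, `J`,
`I` and `J × I`; no quotient types are needed by consumers.
-/

set_option autoImplicit false

namespace Fermat.Agent.S55.G.Exist121

section Defs

variable {X J I : Type*} [AddCommGroup X] [AddCommGroup J] [AddCommGroup I]

/-- The subgroup `p A` of an abelian group. -/
def pMul (A : Type*) [AddCommGroup A] (p : ℕ) : AddSubgroup A :=
  (nsmulAddMonoidHom p : A →+ A).range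

lemma mem_pMul {A : Type*} [AddCommGroup A] {p : ℕ} {a : A} :
    a ∈ pMul A p ↔ ∃ b : A, p • b = a := Iff.rfl

lemma nsmul_mem_pMul {A : Type*} [AddCommGroup A] (p : ℕ) (b : A) : p • b ∈ pMul A p :=
  ⟨b, rfl⟩

/-- The diagonal map `X → J × I`. -/
def diag (ι : X →+ J) (d : X →+ I) : X →+ J × I := ι.prod d

@[simp] lemma diag_apply (ι : X →+ J) (d : X →+ I) (x : X) : diag ι d x = (ι x, d x) := rfl

/-- The subgroup `X + p (J × I)` of `J × I`; its index is `[C : pC]` for `C = (J × I)/X`. -/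
def classP (ι : X →+ J) (d : X →+ I) (p : ℕ) : AddSubgroup (J × I) :=
  (diag ι d).range ⊔ pMul (J × I) p

/-- `V = d⁻¹(p I)`: elements whose divisor is a `p`-th multiple. -/
def selV (d : X →+ I) (p : ℕ) : AddSubgroup X := (pMul I p).comap d

/-- `Sha = V ∩ ι⁻¹(p J)`. -/
def sha (ι : X →+ J) (d : X →+ I) (p : ℕ) : AddSubgroup X := (pMul J p).comap ι ⊓ selV d p

lemma pMul_le_selV (d : X →+ I) (p : ℕ) : pMul X p ≤ selV d p := by
  rintro _ ⟨x, rfl⟩
  exact ⟨d x, by simp⟩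

lemma pMul_le_sha (ι : X →+ J) (d : X →+ I) (p : ℕ) : pMul X p ≤ sha ι d p := by
  intro y hy
  refine ⟨?_, pMul_le_selV d p hy⟩
  obtain ⟨x, rfl⟩ := hy
  exact ⟨ι x, by simp⟩

lemma sha_le_selV (ι : X →+ J) (d : X →+ I) (p : ℕ) : sha ι d p ≤ selV d p := inf_le_right

lemma ker_le_selV (d : X →+ I) (p : ℕ) : d.ker ≤ selV d p := by
  intro x hx
  have hx0 : d x = 0 := hx
  show d x ∈ pMul I p
  rw [hx0]
  exact zero_mem _

end Defs

section Identity

variable {X J I : Type*} [AddCommGroup X] [AddCommGroup J] [AddCommGroup I]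
variable (ι : X →+ J) (d : X →+ I) (p : ℕ)

/-- `p E` where `E = ker d`. -/
def pKer : AddSubgroup X := (d.ker).map (nsmulAddMonoidHom p : X →+ X)

lemma pKer_le_ker : pKer d p ≤ d.ker := by
  rintro _ ⟨x, hx, rfl⟩
  have hx0 : d x = 0 := hx
  show d ((nsmulAddMonoidHom p : X →+ X) x) = 0
  simp [hx0]

/-- If `I` has no `p`-torsion then `p X ∩ E = p E`. -/
lemma pMul_inf_ker (hI : ∀ i : I, p • i = 0 → i = 0) : pMul X p ⊓ d.ker = pKer d p := by
  apply le_antisymm
  · rintro y ⟨⟨x, rfl⟩, hy⟩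
    have hy0 : d ((nsmulAddMonoidHom p : X →+ X) x) = 0 := hy
    refine ⟨x, ?_, rfl⟩
    show d x = 0
    apply hI
    simpa using hy0
  · intro y hy
    refine ⟨?_, pKer_le_ker d p hy⟩
    obtain ⟨x, -, rfl⟩ := hy
    exact ⟨x, rfl⟩

/-- Step 1: the comap of `X + p (J × I)` along `J → J × I` is `p J + ι V`. -/
lemma comap_inl_classP :
    (classP ι d p).comap (AddMonoidHom.inl J I) = pMul J p ⊔ (selV d p).map ι := by
  apply le_antisymm
  · intro j hj
    have hj' : ((j, 0) : J × I) ∈ classP ι d p := hj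
    rw [classP, AddSubgroup.mem_sup] at hj'
    obtain ⟨_, ⟨x, rfl⟩, _, ⟨⟨j', i'⟩, rfl⟩, h⟩ := hj'
    have h1 : ι x + p • j' = j := by simpa using congrArg Prod.fst h
    have h2 : d x + p • i' = 0 := by simpa using congrArg Prod.snd h
    rw [AddSubgroup.mem_sup]
    refine ⟨p • j', nsmul_mem_pMul p j', ι x, ⟨x, ?_, rfl⟩, by rw [add_comm]; exact h1⟩
    show d x ∈ pMul I p
    refine ⟨-i', ?_⟩
    have : d x = -(p • i') := eq_neg_of_add_eq_zero_left h2
    simp [this]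
  · rw [sup_le_iff]
    constructor
    · rintro _ ⟨j', rfl⟩
      show ((_, 0) : J × I) ∈ classP ι d p
      refine AddSubgroup.mem_sup_right ⟨(j', 0), ?_⟩
      simp
    · rintro _ ⟨x, ⟨i', hi'⟩, rfl⟩
      show ((ι x, 0) : J × I) ∈ classP ι d p
      rw [classP, AddSubgroup.mem_sup]
      refine ⟨(ι x, d x), ⟨x, rfl⟩, p • ((0 : J), -i'), nsmul_mem_pMul p _, ?_⟩
      have hi'' : p • i' = d x := hi'
      ext
      · simp
      · simp [← hi'']

/-- The subgroup of `J × I` of pairs whose second component lies in `d X + p I`. -/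
def bigK : AddSubgroup (J × I) := (d.range ⊔ pMul I p).comap (AddMonoidHom.snd J I)

lemma classP_le_bigK : classP ι d p ≤ bigK (J := J) d p := by
  rw [classP, sup_le_iff]
  constructor
  · rintro _ ⟨x, rfl⟩
    exact AddSubgroup.mem_sup_left ⟨x, rfl⟩
  · rintro _ ⟨⟨j, i⟩, rfl⟩
    exact AddSubgroup.mem_sup_right ⟨i, by simp⟩

lemma bigK_eq : bigK (J := J) d p = classP ι d p ⊔ (AddMonoidHom.inl J I).range := by
  apply le_antisymm
  · rintro ⟨j, i⟩ hji
    have hi : i ∈ d.range ⊔ pMul I p := hji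
    rw [AddSubgroup.mem_sup] at hi
    obtain ⟨_, ⟨x, rfl⟩, _, ⟨i', rfl⟩, rfl⟩ := hi
    rw [AddSubgroup.mem_sup]
    refine ⟨(ι x, d x) + (0, p • i'), ?_, (j - ι x, 0), ⟨j - ι x, rfl⟩, ?_⟩
    · refine (classP ι d p).add_mem (AddSubgroup.mem_sup_left ⟨x, rfl⟩)
        (AddSubgroup.mem_sup_right ⟨(0, i'), ?_⟩)
      simp
    · ext <;> simp
  · rw [sup_le_iff]
    refine ⟨classP_le_bigK ι d p, ?_⟩
    rintro _ ⟨j, rfl⟩
    show (0 : I) ∈ d.range ⊔ pMul I p
    exact zero_mem _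

/-- Step 1, index form: `[J × I : X + p(J × I)] = [I : dX + pI] * [J : pJ + ιV]`. -/
lemma index_classP :
    (classP ι d p).index =
      (d.range ⊔ pMul I p).index * (pMul J p ⊔ (selV d p).map ι).index := by
  have h1 : (classP ι d p).relIndex (bigK (J := J) d p) * (bigK (J := J) d p).index =
      (classP ι d p).index := AddSubgroup.relIndex_mul_index (classP_le_bigK ι d p)
  have h2 : (bigK (J := J) d p).index = (d.range ⊔ pMul I p).index := by
    unfold bigK
    exact AddSubgroup.index_comap_of_surjective _ (fun i => ⟨(0, i), rfl⟩)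
  have h3 : (classP ι d p).relIndex (bigK (J := J) d p) =
      (pMul J p ⊔ (selV d p).map ι).index := by
    rw [bigK_eq ι d p, AddSubgroup.relIndex_sup_left, ← comap_inl_classP,
      ← AddSubgroup.relIndex_top_right, AddSubgroup.relIndex_comap, ← AddMonoidHom.range_eq_map]
  rw [← h1, h2, h3, mul_comm]

/-- Step 2: `[J : pJ] = [J : pJ + ιV] * [V : Sha]`. -/
lemma index_pMul_J :
    (pMul J p).index =
      (pMul J p ⊔ (selV d p).map ι).index * (sha ι d p).relIndex (selV d p) := by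
  have h1 : (pMul J p).relIndex (pMul J p ⊔ (selV d p).map ι) *
      (pMul J p ⊔ (selV d p).map ι).index = (pMul J p).index :=
    AddSubgroup.relIndex_mul_index le_sup_left
  have h2 : (pMul J p).relIndex (pMul J p ⊔ (selV d p).map ι) =
      (sha ι d p).relIndex (selV d p) := by
    rw [AddSubgroup.relIndex_sup_left, ← AddSubgroup.relIndex_comap, sha,
      AddSubgroup.inf_relIndex_right]
  rw [← h1, h2, mul_comm]

/-- Step 3: `[V : pX] = [V : Sha] * [Sha : pX]`. -/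
lemma relIndex_pMul_selV :
    (pMul X p).relIndex (selV d p) =
      (pMul X p).relIndex (sha ι d p) * (sha ι d p).relIndex (selV d p) :=
  (AddSubgroup.relIndex_mul_relIndex _ _ _ (pMul_le_sha ι d p) (sha_le_selV ι d p)).symm

/-- `E + pX = d⁻¹(d(pX))`. -/
lemma ker_sup_pMul : d.ker ⊔ pMul X p = ((pMul X p).map d).comap d := by
  apply le_antisymm
  · rw [sup_le_iff]
    constructor
    · intro x hx
      have hx0 : d x = 0 := hx
      show d x ∈ (pMul X p).map d
      rw [hx0]; exact zero_mem _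
    · intro x hx
      exact ⟨x, hx, rfl⟩
  · intro x hx
    obtain ⟨y, hy, hxy⟩ := hx
    rw [AddSubgroup.mem_sup]
    refine ⟨x - y, ?_, y, hy, by abel⟩
    show d (x - y) = 0
    rw [map_sub, hxy, sub_self]

/-- `d V = pI ∩ dX`. -/
lemma map_selV : (selV d p).map d = pMul I p ⊓ d.range := by
  apply le_antisymm
  · rintro _ ⟨x, hx, rfl⟩
    exact ⟨hx, x, rfl⟩
  · rintro _ ⟨hi, x, rfl⟩
    exact ⟨x, hi, rfl⟩

/-- `d (pX) = p (dX)`. -/
lemma map_pMul : (pMul X p).map d = (d.range).map (nsmulAddMonoidHom p : I →+ I) := by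
  apply le_antisymm
  · rintro _ ⟨_, ⟨x, rfl⟩, rfl⟩
    exact ⟨d x, ⟨x, rfl⟩, by simp⟩
  · rintro _ ⟨_, ⟨x, rfl⟩, rfl⟩
    exact ⟨p • x, ⟨x, rfl⟩, by simp⟩

/-- Step 4a: `[V : E + pX] = [pI ∩ dX : p dX]`. -/
lemma relIndex_ker_sup_pMul :
    (d.ker ⊔ pMul X p).relIndex (selV d p) =
      ((pMul X p).map d).relIndex (pMul I p ⊓ d.range) := by
  rw [ker_sup_pMul, AddSubgroup.relIndex_comap, map_selV]

/-- Step 4b (`|Cl/p| = |Cl[p]|` for finite `Cl`): if `dX` has finite index in `I` and `I` has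
no `p`-torsion, then `[pI ∩ dX : p dX] = [I : dX + pI]`. -/
lemma relIndex_tor_eq (hI : ∀ i : I, p • i = 0 → i = 0) (hfin : d.range.index ≠ 0) :
    ((pMul X p).map d).relIndex (pMul I p ⊓ d.range) = (d.range ⊔ pMul I p).index := by
  have hinj : Function.Injective (nsmulAddMonoidHom p : I →+ I) := by
    rw [injective_iff_map_eq_zero]
    intro i hi
    exact hI i (by simpa using hi)
  -- `[pI : p dX] = [I : dX]`
  have e1 : ((pMul X p).map d).relIndex (pMul I p) = d.range.index := by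
    have hp : pMul I p = (⊤ : AddSubgroup I).map (nsmulAddMonoidHom p : I →+ I) :=
      AddMonoidHom.range_eq_map _
    rw [map_pMul, hp,
      AddSubgroup.relIndex_map_map_of_injective _ _ hinj, AddSubgroup.relIndex_top_right]
  -- `p dX ≤ pI ∩ dX ≤ pI`
  have hle1 : (pMul X p).map d ≤ pMul I p ⊓ d.range := by
    rintro _ ⟨_, ⟨x, rfl⟩, rfl⟩
    exact ⟨⟨d x, by simp⟩, ⟨p • x, rfl⟩⟩
  have e2 : ((pMul X p).map d).relIndex (pMul I p ⊓ d.range) *
      (pMul I p ⊓ d.range).relIndex (pMul I p) = ((pMul X p).map d).relIndex (pMul I p) :=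
    AddSubgroup.relIndex_mul_relIndex _ _ _ hle1 inf_le_left
  have e3 : (pMul I p ⊓ d.range).relIndex (pMul I p) = d.range.relIndex (d.range ⊔ pMul I p) := by
    rw [AddSubgroup.inf_relIndex_left, AddSubgroup.relIndex_sup_left]
  have e4 : d.range.relIndex (d.range ⊔ pMul I p) * (d.range ⊔ pMul I p).index =
      d.range.index := AddSubgroup.relIndex_mul_index le_sup_left
  have hne : d.range.relIndex (d.range ⊔ pMul I p) ≠ 0 := by
    intro h0
    rw [h0, zero_mul] at e4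
    exact hfin e4.symm
  have : ((pMul X p).map d).relIndex (pMul I p ⊓ d.range) *
      d.range.relIndex (d.range ⊔ pMul I p) =
      (d.range ⊔ pMul I p).index * d.range.relIndex (d.range ⊔ pMul I p) := by
    rw [← e3, e2, e1, ← e4, e3, mul_comm]
  exact Nat.eq_of_mul_eq_mul_right (Nat.pos_of_ne_zero hne) this

/-- Step 4: `[V : pX] = [E : pE] * [I : dX + pI]`. -/
lemma relIndex_pMul_selV' (hI : ∀ i : I, p • i = 0 → i = 0) (hfin : d.range.index ≠ 0) :
    (pMul X p).relIndex (selV d p) =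
      (pKer d p).relIndex d.ker * (d.range ⊔ pMul I p).index := by
  have h1 : (pMul X p).relIndex (d.ker ⊔ pMul X p) * (d.ker ⊔ pMul X p).relIndex (selV d p) =
      (pMul X p).relIndex (selV d p) :=
    AddSubgroup.relIndex_mul_relIndex _ _ _ le_sup_right
      (sup_le (ker_le_selV d p) (pMul_le_selV d p))
  have h2 : (pMul X p).relIndex (d.ker ⊔ pMul X p) = (pKer d p).relIndex d.ker := by
    rw [AddSubgroup.relIndex_sup_right, ← AddSubgroup.inf_relIndex_right, pMul_inf_ker d p hI]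
  rw [← h1, h2, relIndex_ker_sup_pMul, relIndex_tor_eq d p hI hfin]

/-- **Index identity.**  `[C : pC] * [E : pE] = [J : pJ] * [Sha : pX]`, where
`C = (J × I)/X`, `E = ker d`, `Sha = {x ∈ X : d x ∈ pI, ι x ∈ pJ}`; valid as soon as `I` has no
`p`-torsion and `d X` has finite index in `I`.  (Indices of infinite-index subgroups are `0`.) -/
theorem index_identity (hI : ∀ i : I, p • i = 0 → i = 0) (hfin : d.range.index ≠ 0) :
    (classP ι d p).index * (pKer d p).relIndex d.ker =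
      (pMul J p).index * (pMul X p).relIndex (sha ι d p) := by
  rw [index_classP, index_pMul_J ι d p]
  have h3 := relIndex_pMul_selV ι d p
  have h4 := relIndex_pMul_selV' d p hI hfin
  -- a*b*e = b*s*t  where  v = t*s,  v = e*a
  calc (d.range ⊔ pMul I p).index * (pMul J p ⊔ (selV d p).map ι).index *
        (pKer d p).relIndex d.ker
      = (pMul J p ⊔ (selV d p).map ι).index *
          ((pKer d p).relIndex d.ker * (d.range ⊔ pMul I p).index) := by ring
    _ = (pMul J p ⊔ (selV d p).map ι).index * (pMul X p).relIndex (selV d p) := by rw [h4]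
    _ = (pMul J p ⊔ (selV d p).map ι).index *
          ((pMul X p).relIndex (sha ι d p) * (sha ι d p).relIndex (selV d p)) := by rw [h3]
    _ = (pMul J p ⊔ (selV d p).map ι).index * (sha ι d p).relIndex (selV d p) *
          (pMul X p).relIndex (sha ι d p) := by ring

end Identity

end Fermat.Agent.S55.G.Exist121

end
-- ===== PACK-END S55/G/Exist121/Index.lean

-- ===== PACK-BEGIN S55/G/Exist/H361/SplitNorm.lean
section
/-
S55 / layer G / block EXIST, leaf EX-KUM (helper361), part 1: the SPLIT NORM lemma (Mathlib only).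

Abstract setting: a commutative ring `R` with an action `act : Γ →* (R ≃+* R)` of a finite group,
a field `K` with a ring homomorphism `ι : K →+* R` whose image is fixed by `Γ`, a prime `p`
invertible in `K` with a primitive `p`-th root of unity in `K`, and a finite family of elements
`t i ∈ R` with `t i ^ p = 1` on which `Γ` acts through characters `χ i : Γ →* μ_p(K)`
(`g (t i) = χ i g · t i`) which separate the elements of `Γ`.

Then there is a "torsor idempotent" `e ∈ R`: the translates `g e` are pairwise orthogonal and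
sum to `1` (`exists_torsor_idempotent`).  Consequently every `Γ`-invariant unit of `R` is a
norm (`exists_units_prod_eq`).

Application (file `KummerField.lean`): `R = M ⊗ ℚ_S` for a Kummer extension `M = K(ᵖ√B)` in
which every `b ∈ B` is a `p`-th power in `K ⊗ ℚ_S` (all places above `S` split completely).
-/


set_option autoImplicit false

namespace Fermat.Agent.S55.G.Exist.H361

open Finset

section Averaging

variable {R : Type*} [CommRing R]

/-- The averaging element `c · ∑_{i<p} s^i` (with `c = p⁻¹`). -/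
def avgPow (p : ℕ) (c s : R) : R := c * ∑ i ∈ range p, s ^ i

lemma mul_avgPow {p : ℕ} (c : R) {s : R} (hs : s ^ p = 1) : s * avgPow p c s = avgPow p c s := by
  unfold avgPow
  have h : s * ∑ i ∈ range p, s ^ i = ∑ i ∈ range p, s ^ i := by
    rw [mul_sum]
    have h1 : ∑ i ∈ range p, s * s ^ i = ∑ i ∈ range p, s ^ (i + 1) :=
      sum_congr rfl fun i _ => by rw [pow_succ, mul_comm]
    rw [h1]
    have h2 := sum_range_succ (fun i => s ^ i) p
    have h3 := sum_range_succ' (fun i => s ^ i) p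
    simp only [pow_zero] at h3
    rw [h2, hs] at h3
    exact (add_right_cancel h3).symm
  rw [mul_left_comm, h]

lemma pow_mul_avgPow {p : ℕ} (c : R) {s : R} (hs : s ^ p = 1) (i : ℕ) :
    s ^ i * avgPow p c s = avgPow p c s := by
  induction i with
  | zero => rw [pow_zero, one_mul]
  | succ i ih => rw [pow_succ, mul_assoc, mul_avgPow c hs, ih]

/-- `P(s) · P(η s) = 0` if `∑_{i<p} η^i = 0`. -/
lemma avgPow_mul_avgPow_eq_zero {p : ℕ} (c : R) {s η : R} (hs : s ^ p = 1)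
    (hη : ∑ i ∈ range p, η ^ i = 0) : avgPow p c s * avgPow p c (η * s) = 0 := by
  have h : avgPow p c s * avgPow p c (η * s) = c * ((∑ i ∈ range p, η ^ i) * avgPow p c s) := by
    conv_lhs => rw [avgPow.eq_def p c (η * s)]
    rw [mul_left_comm, mul_sum, sum_mul]
    congr 1
    refine sum_congr rfl fun i _ => ?_
    rw [mul_pow, mul_comm (avgPow p c s), mul_assoc, pow_mul_avgPow c hs]
  rw [h, hη, zero_mul, mul_zero]

lemma map_avgPow {R' F : Type*} [CommRing R'] [FunLike F R R'] [RingHomClass F R R'] (f : F)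
    (p : ℕ) (c s : R) :
    f (avgPow p c s) = avgPow p (f c) (f s) := by
  simp [avgPow, map_sum]

/-- A product `∏ (1 + x g)` of pairwise orthogonal elements. -/
lemma prod_one_add_of_orthogonal {α : Type*} [DecidableEq α] (s : Finset α) (x : α → R)
    (h : ∀ a ∈ s, ∀ b ∈ s, a ≠ b → x a * x b = 0) :
    ∏ a ∈ s, (1 + x a) = 1 + ∑ a ∈ s, x a := by
  induction s using Finset.induction_on with
  | empty => simp
  | insert a s ha ih =>
    rw [prod_insert ha, sum_insert ha, ih fun b hb c hc => h b (mem_insert_of_mem hb) c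
      (mem_insert_of_mem hc)]
    have h0 : x a * ∑ b ∈ s, x b = 0 := by
      rw [mul_sum]
      refine sum_eq_zero fun b hb => ?_
      exact h a (mem_insert_self a s) b (mem_insert_of_mem hb) (fun hab => ha (hab ▸ hb))
    calc (1 + x a) * (1 + ∑ b ∈ s, x b)
        = 1 + (x a + ∑ b ∈ s, x b) + x a * ∑ b ∈ s, x b := by ring
      _ = 1 + (x a + ∑ b ∈ s, x b) := by rw [h0, add_zero]

end Averaging

section RootSums

variable {K : Type*} [Field K] {p : ℕ}

lemma rootsOfUnity_val_pow (η : rootsOfUnity p K) : ((η : Kˣ) : K) ^ p = 1 := by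
  have h := (mem_rootsOfUnity p (η : Kˣ)).1 η.2
  have h2 := congrArg Units.val h
  simpa using h2

/-- `∑_{i<p} η^i = 0` for a `p`-th root of unity `η ≠ 1` in a field. -/
lemma geom_sum_rootsOfUnity_eq_zero (η : rootsOfUnity p K) (hη : η ≠ 1) :
    ∑ i ∈ range p, ((η : Kˣ) : K) ^ i = 0 := by
  have h1 : ((η : Kˣ) : K) ^ p = 1 := rootsOfUnity_val_pow η
  have h2 : ((η : Kˣ) : K) - 1 ≠ 0 := by
    intro h
    apply hη
    ext
    rw [sub_eq_zero] at h
    simpa using h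
  have h3 := mul_geom_sum ((η : Kˣ) : K) p
  rw [h1, sub_self] at h3
  exact (mul_eq_zero.1 h3).resolve_left h2

variable [NeZero p] [Fintype (rootsOfUnity p K)]

/-- `∑_{η ∈ μ_p} η^i = 0` for `0 < i < p`, `p` prime, when `μ_p` has a primitive root. -/
lemma sum_rootsOfUnity_pow_eq_zero {ζ : K} (hζ : IsPrimitiveRoot ζ p) {i : ℕ}
    (hi0 : 0 < i) (hip : i < p) :
    ∑ η : rootsOfUnity p K, ((η : Kˣ) : K) ^ i = 0 := by
  -- the element `ζ` of `μ_p`
  have hζu : IsUnit ζ := hζ.isUnit (NeZero.ne p)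
  have hmem : hζu.unit ∈ rootsOfUnity p K := by
    rw [mem_rootsOfUnity]
    ext
    simp [hζ.pow_eq_one]
  let z : rootsOfUnity p K := ⟨hζu.unit, hmem⟩
  have hz : ((z : Kˣ) : K) = ζ := rfl
  have hzi : ζ ^ i ≠ 1 := by
    intro h
    have := hζ.dvd_of_pow_eq_one i h
    exact absurd (Nat.le_of_dvd hi0 this) (not_le.2 hip)
  have key : ζ ^ i * ∑ η : rootsOfUnity p K, ((η : Kˣ) : K) ^ i =
      ∑ η : rootsOfUnity p K, ((η : Kˣ) : K) ^ i := by
    rw [mul_sum]
    refine Fintype.sum_equiv (Equiv.mulLeft z) _ _ fun η => ?_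
    simp only [Equiv.coe_mulLeft, Subgroup.coe_mul, Units.val_mul, mul_pow, hz]
  have h : (ζ ^ i - 1) * ∑ η : rootsOfUnity p K, ((η : Kˣ) : K) ^ i = 0 := by
    rw [sub_mul, key, one_mul, sub_self]
  exact (mul_eq_zero.1 h).resolve_left (sub_ne_zero.2 hzi)

/-- `∑_{η ∈ μ_p} ∑_{i<p} (η s)^i = p` (in any `K`-algebra-like ring). -/
lemma sum_rootsOfUnity_geom {R : Type*} [CommRing R] (ι : K →+* R) (hp : p.Prime) {ζ : K}
    (hζ : IsPrimitiveRoot ζ p) (s : R) :
    ∑ η : rootsOfUnity p K, ∑ i ∈ range p, (ι ((η : Kˣ) : K) * s) ^ i = (p : R) := by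
  rw [sum_comm]
  have h : ∀ i ∈ range p, ∑ η : rootsOfUnity p K, (ι ((η : Kˣ) : K) * s) ^ i =
      if i = 0 then (p : R) else 0 := by
    intro i hi
    rw [mem_range] at hi
    split_ifs with h0
    · subst h0
      simp only [pow_zero, sum_const, card_univ, nsmul_eq_mul, mul_one]
      rw [← Nat.card_eq_fintype_card, hζ.card_rootsOfUnity]
    · have h1 : ∑ η : rootsOfUnity p K, (ι ((η : Kˣ) : K) * s) ^ i =
          ι (∑ η : rootsOfUnity p K, ((η : Kˣ) : K) ^ i) * s ^ i := by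
        rw [map_sum, sum_mul]
        refine sum_congr rfl fun η _ => ?_
        rw [mul_pow, map_pow]
      rw [h1, sum_rootsOfUnity_pow_eq_zero hζ (Nat.pos_of_ne_zero h0) hi, map_zero, zero_mul]
  rw [sum_congr rfl h, sum_ite_eq' (range p) 0]
  simp [hp.pos]

end RootSums

section Torsor

variable {K R Γ I : Type*} [Field K] [CommRing R] [Group Γ] [Fintype Γ] [Fintype I]
  [DecidableEq I]
  {p : ℕ} [NeZero p] (hp : p.Prime) (ι : K →+* R) (hpK : (p : K) ≠ 0) {ζ : K}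
  (hζ : IsPrimitiveRoot ζ p)
  (act : Γ →* (R ≃+* R)) (hfix : ∀ (g : Γ) (x : K), act g (ι x) = ι x)
  (t : I → R) (ht : ∀ i, t i ^ p = 1) (χ : I → Γ →* rootsOfUnity p K)
  (hact : ∀ i g, act g (t i) = ι ((χ i g : Kˣ) : K) * t i)
  (hsep : ∀ g : Γ, g ≠ 1 → ∃ i, χ i g ≠ 1)

/-- The joint eigenprojector attached to `k : I → μ_p`. -/
noncomputable def eigenProj (ι : K →+* R) (t : I → R) (k : I → rootsOfUnity p K) : R :=
  ∏ i, avgPow p (ι ((p : K)⁻¹)) (ι (((k i)⁻¹ : rootsOfUnity p K) : Kˣ) * t i)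

omit [NeZero p] [Fintype Γ] [Fintype I] [DecidableEq I] in
include ht in
lemma rootMul_pow_eq_one (i : I) (η : rootsOfUnity p K) :
    (ι ((η : Kˣ) : K) * t i) ^ p = 1 := by
  rw [mul_pow, ht, mul_one, ← map_pow, rootsOfUnity_val_pow η, map_one]

omit [NeZero p] [Fintype Γ] [DecidableEq I] in
include hfix hact in
/-- The combined character `Γ → (I → μ_p)`. -/
lemma act_eigenProj (g : Γ) (k : I → rootsOfUnity p K) :
    act g (eigenProj ι t k) = eigenProj ι t (fun i => k i * (χ i g)⁻¹) := by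
  unfold eigenProj
  rw [map_prod]
  refine prod_congr rfl fun i _ => ?_
  rw [map_avgPow (act g)]
  rw [map_mul, hfix, hfix, hact, ← mul_assoc, ← map_mul]
  congr 3
  simp [mul_comm]

omit [NeZero p] [Fintype Γ] [DecidableEq I] in
include ht in
lemma eigenProj_mul_eigenProj_of_ne {k l : I → rootsOfUnity p K} (hkl : k ≠ l) :
    eigenProj ι t k * eigenProj ι t l = 0 := by
  classical
  obtain ⟨i, hi⟩ := Function.ne_iff.1 hkl
  unfold eigenProj
  rw [← prod_mul_distrib]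
  refine prod_eq_zero (mem_univ i) ?_
  -- `s = (k i)⁻¹ t`, `η = k i (l i)⁻¹`
  have hη : (k i * (l i)⁻¹ : rootsOfUnity p K) ≠ 1 := by
    intro h
    exact hi (mul_inv_eq_one.1 h)
  have h1 := avgPow_mul_avgPow_eq_zero (ι ((p : K)⁻¹)) (η := ι (((k i * (l i)⁻¹ :
    rootsOfUnity p K) : Kˣ) : K))
    (rootMul_pow_eq_one ι t ht i (k i)⁻¹)
    (by
      rw [← geom_sum_rootsOfUnity_eq_zero _ hη |> congrArg ι |>.trans (map_zero ι) |>.symm.symm]
      rw [map_sum]
      simp only [map_pow])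
  rw [← mul_assoc, ← map_mul] at h1
  have h2 : ((((k i * (l i)⁻¹ : rootsOfUnity p K) : Kˣ) : K) *
      ((((k i)⁻¹ : rootsOfUnity p K) : Kˣ) : K)) = ((((l i)⁻¹ : rootsOfUnity p K) : Kˣ) : K) := by
    rw [← Units.val_mul, ← Subgroup.coe_mul]
    congr 2
    rw [mul_comm (k i), mul_assoc, mul_inv_cancel, mul_one]
  rw [h2] at h1
  exact h1

include hp hζ hpK in
omit [Fintype Γ] in
lemma sum_eigenProj [Fintype (rootsOfUnity p K)] :
    ∑ k : I → rootsOfUnity p K, eigenProj ι t k = 1 := by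
  unfold eigenProj
  have h := (Finset.prod_univ_sum (fun _ : I => (univ : Finset (rootsOfUnity p K)))
    (fun i η => avgPow p (ι ((p : K)⁻¹)) (ι (((η)⁻¹ : rootsOfUnity p K) : Kˣ) * t i))).symm
  rw [Fintype.piFinset_univ] at h
  rw [h]
  refine prod_eq_one fun i _ => ?_
  have h1 : ∑ η : rootsOfUnity p K, avgPow p (ι ((p : K)⁻¹))
      (ι (((η)⁻¹ : rootsOfUnity p K) : Kˣ) * t i) =
      ∑ η : rootsOfUnity p K, avgPow p (ι ((p : K)⁻¹)) (ι ((η : Kˣ) : K) * t i) :=
    Fintype.sum_equiv (Equiv.inv _) _ _ fun η => rfl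
  rw [h1]
  unfold avgPow
  rw [← mul_sum, sum_rootsOfUnity_geom ι hp hζ, ← map_natCast ι, ← map_mul, inv_mul_cancel₀ hpK,
    map_one]

include hp hζ hpK hfix ht hact hsep in
/-- **Torsor idempotent.**  There is `e ∈ R` whose `Γ`-translates are pairwise orthogonal and
sum to `1`. -/
theorem exists_torsor_idempotent :
    ∃ e : R, (∀ g h : Γ, g ≠ h → act g e * act h e = 0) ∧ ∑ g : Γ, act g e = 1 := by
  classical
  letI : Fintype (rootsOfUnity p K) := Fintype.ofFinite _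
  -- the character `X : Γ →* V`, `V = I → μ_p`
  let V := I → rootsOfUnity p K
  let X : Γ →* V :=
    { toFun := fun g i => χ i g
      map_one' := by funext i; exact map_one (χ i)
      map_mul' := fun g h => by funext i; exact map_mul (χ i) g h }
  have hX : Function.Injective X := by
    rw [injective_iff_map_eq_one]
    intro g hg
    by_contra hne
    obtain ⟨i, hi⟩ := hsep g hne
    exact hi (congrFun hg i)
  have hactE : ∀ (g : Γ) (k : V), act g (eigenProj ι t k) = eigenProj ι t (k * (X g)⁻¹) :=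
    fun g k => act_eigenProj ι act hfix t χ hact g k
  -- coset representatives of `V / X(Γ)`
  let H : Subgroup V := X.range
  let Ω : Finset V := univ.filter fun k => (QuotientGroup.mk k : V ⧸ H).out = k
  let e : R := ∑ k ∈ Ω, eigenProj ι t k
  have hacte : ∀ g : Γ, act g e = ∑ k ∈ Ω, eigenProj ι t (k * (X g)⁻¹) := by
    intro g
    rw [map_sum]
    exact sum_congr rfl fun k _ => hactE g k
  -- the map `(g, k) ↦ k (X g)⁻¹` is injective on `Γ × Ω`
  have hinj : ∀ g h : Γ, ∀ k ∈ Ω, ∀ l ∈ Ω, k * (X g)⁻¹ = l * (X h)⁻¹ → g = h ∧ k = l := by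
    intro g h k hk l hl hkl
    have hk' : (QuotientGroup.mk k : V ⧸ H).out = k := (mem_filter.1 hk).2
    have hl' : (QuotientGroup.mk l : V ⧸ H).out = l := (mem_filter.1 hl).2
    have hmk : (QuotientGroup.mk k : V ⧸ H) = QuotientGroup.mk l := by
      rw [QuotientGroup.eq]
      have : k⁻¹ * l = X (g⁻¹ * h) := by
        rw [map_mul, map_inv]
        have h1 : l = k * (X g)⁻¹ * X h := by rw [hkl, inv_mul_cancel_right]
        rw [h1, mul_assoc, inv_mul_cancel_left]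
      rw [this]
      exact ⟨_, rfl⟩
    have hkl' : k = l := by rw [← hk', ← hl', hmk]
    subst hkl'
    refine ⟨hX ?_, rfl⟩
    have := mul_left_cancel hkl
    exact inv_injective this
  refine ⟨e, fun g h hgh => ?_, ?_⟩
  · rw [hacte, hacte, sum_mul_sum]
    refine sum_eq_zero fun k hk => sum_eq_zero fun l hl => ?_
    refine eigenProj_mul_eigenProj_of_ne ι t ht fun hkl => ?_
    exact hgh (hinj g h k hk l hl hkl).1
  · rw [← sum_eigenProj hp ι hpK hζ t]
    simp_rw [hacte]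
    rw [← sum_product' univ Ω (fun g k => eigenProj ι t (k * (X g)⁻¹))]
    refine sum_bij (fun x _ => x.2 * (X x.1)⁻¹) (fun _ _ => mem_univ _) ?_ ?_ (fun _ _ => rfl)
    · rintro ⟨g, k⟩ hgk ⟨h, l⟩ hhl hEq
      have hk : k ∈ Ω := (mem_product.1 hgk).2
      have hl : l ∈ Ω := (mem_product.1 hhl).2
      obtain ⟨h1, h2⟩ := hinj g h k hk l hl hEq
      rw [h1, h2]
    · intro v _
      obtain ⟨h, hh⟩ := QuotientGroup.mk_out_eq_mul H v
      obtain ⟨g, hg⟩ := h.2
      refine ⟨(g, (QuotientGroup.mk v : V ⧸ H).out), ?_, ?_⟩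
      · refine mem_product.2 ⟨mem_univ _, mem_filter.2 ⟨mem_univ _, ?_⟩⟩
        rw [QuotientGroup.out_eq']
      · show (QuotientGroup.mk v : V ⧸ H).out * (X g)⁻¹ = v
        rw [hh, hg, mul_inv_cancel_right]

include hp hζ hpK hfix ht hact hsep in
/-- **Split norms.**  Every `Γ`-invariant unit of `R` is a norm. -/
theorem exists_units_prod_eq (j : Rˣ) (hj : ∀ g : Γ, act g (j : R) = j) :
    ∃ j' : Rˣ, ∏ g : Γ, Units.map ((act g : R ≃+* R) : R →* R) j' = j := by
  classical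
  obtain ⟨e, horth, hsum⟩ := exists_torsor_idempotent hp ι hpK hζ act hfix t ht χ hact hsep
  have he1 : act 1 e = e := by rw [map_one]; rfl
  have hidem : e * e = e := by
    have h1 : e * ∑ g : Γ, act g e = e * e := by
      rw [mul_sum, sum_eq_single (1 : Γ)]
      · rw [he1]
      · intro g _ hg
        have := horth 1 g (Ne.symm hg)
        rwa [he1] at this
      · intro h; exact absurd (mem_univ _) h
    rw [← h1, hsum, mul_one]
  have hjinv : ∀ g : Γ, act g ((j⁻¹ : Rˣ) : R) = ((j⁻¹ : Rˣ) : R) := by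
    intro g
    have h1 : act g ((j⁻¹ : Rˣ) : R) * (j : R) = 1 := by
      conv_lhs => rw [← hj g]
      rw [← map_mul, Units.inv_mul, map_one]
    calc act g ((j⁻¹ : Rˣ) : R) = act g ((j⁻¹ : Rˣ) : R) * ((j : R) * ((j⁻¹ : Rˣ) : R)) := by
          rw [Units.mul_inv, mul_one]
      _ = ((j⁻¹ : Rˣ) : R) := by rw [← mul_assoc, h1, one_mul]
  let j' : Rˣ :=
    { val := 1 + ((j : R) - 1) * e
      inv := 1 + (((j⁻¹ : Rˣ) : R) - 1) * e
      val_inv := by
        have h : (j : R) * ((j⁻¹ : Rˣ) : R) = 1 := Units.mul_inv j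
        calc (1 + ((j : R) - 1) * e) * (1 + (((j⁻¹ : Rˣ) : R) - 1) * e)
            = 1 + (((j : R) - 1) + (((j⁻¹ : Rˣ) : R) - 1)) * e
              + ((j : R) * ((j⁻¹ : Rˣ) : R) - (j : R) - ((j⁻¹ : Rˣ) : R) + 1) * (e * e) := by ring
          _ = 1 := by rw [hidem, h]; ring
      inv_val := by
        have h : ((j⁻¹ : Rˣ) : R) * (j : R) = 1 := Units.inv_mul j
        calc (1 + (((j⁻¹ : Rˣ) : R) - 1) * e) * (1 + ((j : R) - 1) * e)
            = 1 + (((j : R) - 1) + (((j⁻¹ : Rˣ) : R) - 1)) * e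
              + (((j⁻¹ : Rˣ) : R) * (j : R) - (j : R) - ((j⁻¹ : Rˣ) : R) + 1) * (e * e) := by ring
          _ = 1 := by rw [hidem, h]; ring }
  refine ⟨j', Units.ext ?_⟩
  rw [Units.coe_prod]
  have h1 : ∀ g : Γ, ((Units.map ((act g : R ≃+* R) : R →* R) j' : Rˣ) : R) =
      1 + ((j : R) - 1) * act g e := by
    intro g
    show act g (1 + ((j : R) - 1) * e) = _
    rw [map_add, map_one, map_mul, map_sub, map_one, hj]
  simp_rw [h1]
  rw [prod_one_add_of_orthogonal univ (fun g => ((j : R) - 1) * act g e)]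
  · rw [← mul_sum, hsum]; ring
  · intro g _ h _ hgh
    calc ((j : R) - 1) * act g e * (((j : R) - 1) * act h e)
        = ((j : R) - 1) * ((j : R) - 1) * (act g e * act h e) := by ring
      _ = 0 := by rw [horth g h hgh, mul_zero]

end Torsor

end Fermat.Agent.S55.G.Exist.H361

end
-- ===== PACK-END S55/G/Exist/H361/SplitNorm.lean

-- ===== PACK-BEGIN S55/H595/Herbrand.lean
section
/-
Herbrand quotients, elementary version (helper595, S55 class-field-theory build).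

For a commutative group `A` with two endomorphisms `f g` such that `f ∘ g = 1 = g ∘ f`
(trivial compositions) we put `mhIdx f g = [ker f : im g]` (a natural number, `0` when
infinite).  The Herbrand quotient is `mhIdx f g / mhIdx g f`.  We prove

* `mhIdx_eq_of_finite` : for finite `A`, `mhIdx f g = mhIdx g f ≠ 0`;
* `exists_six_factors_mul`, `MHExact.*` : multiplicativity in short exact sequences together
  with the two-out-of-three finiteness statements.

Every declaration has an additive twin (generated by `to_additive`): `hIdx`, `HFinite`,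
`herbrandQ`, `HExact`, ...   Everything is Mathlib-only.
-/


namespace Fermat.Agent.S55.H595

open Subgroup Function

variable {A B C : Type*} [CommGroup A] [CommGroup B] [CommGroup C]

/-- `mhIdx f g = [ker f : im g ∩ ker f]`; when `f ∘ g = 1` this is the order of
`ker f / im g` (`0` if infinite). -/
@[to_additive hIdx /-- `hIdx f g = [ker f : im g ∩ ker f]`; when `f ∘ g = 0` this is the order
of `ker f / im g` (`0` if infinite). -/]
noncomputable def mhIdx (f g : A →* A) : ℕ := g.range.relIndex f.ker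

/-- Both Herbrand indices are finite (i.e. nonzero as natural numbers). -/
@[to_additive HFinite /-- Both Herbrand indices are finite (i.e. nonzero as natural numbers). -/]
def MHFinite (f g : A →* A) : Prop := mhIdx f g ≠ 0 ∧ mhIdx g f ≠ 0

/-- The Herbrand quotient `[ker f : im g] / [ker g : im f]`. -/
@[to_additive herbrandQ /-- The Herbrand quotient `[ker f : im g] / [ker g : im f]`. -/]
noncomputable def mherbrandQ (f g : A →* A) : ℚ := (mhIdx f g : ℚ) / (mhIdx g f : ℚ)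

@[to_additive HFinite.symm]
lemma MHFinite.symm {f g : A →* A} (h : MHFinite f g) : MHFinite g f := ⟨h.2, h.1⟩

@[to_additive herbrandQ_ne_zero]
lemma mherbrandQ_ne_zero {f g : A →* A} (h : MHFinite f g) : mherbrandQ f g ≠ 0 := by
  unfold mherbrandQ
  exact div_ne_zero (Nat.cast_ne_zero.2 h.1) (Nat.cast_ne_zero.2 h.2)

@[to_additive herbrandQ_swap]
lemma mherbrandQ_swap (f g : A →* A) : mherbrandQ g f = (mherbrandQ f g)⁻¹ := by
  unfold mherbrandQ; rw [inv_div]

/-! ### Finite groups -/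

/-- For a finite abelian group the Herbrand quotient is `1`. -/
@[to_additive hIdx_eq_of_finite]
theorem mhIdx_eq_of_finite [Finite A] (f g : A →* A) (hfg : ∀ a, f (g a) = 1)
    (hgf : ∀ a, g (f a) = 1) : mhIdx f g = mhIdx g f ∧ mhIdx f g ≠ 0 := by
  have hgle : g.range ≤ f.ker := by
    rintro _ ⟨a, rfl⟩; exact hfg a
  have hfle : f.range ≤ g.ker := by
    rintro _ ⟨a, rfl⟩; exact hgf a
  have h1 : Nat.card g.range * mhIdx f g = Nat.card f.ker := by
    unfold mhIdx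
    have := relIndex_mul_relIndex (⊥ : Subgroup A) g.range f.ker bot_le hgle
    simpa [relIndex_bot_left] using this
  have h2 : Nat.card f.range * mhIdx g f = Nat.card g.ker := by
    unfold mhIdx
    have := relIndex_mul_relIndex (⊥ : Subgroup A) f.range g.ker bot_le hfle
    simpa [relIndex_bot_left] using this
  have h3 : Nat.card f.ker * Nat.card f.range = Nat.card A := by
    have := f.ker.card_mul_index
    rwa [index_ker] at this
  have h4 : Nat.card g.ker * Nat.card g.range = Nat.card A := by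
    have := g.ker.card_mul_index
    rwa [index_ker] at this
  have hfr : 0 < Nat.card f.range := Nat.card_pos
  have hgr : 0 < Nat.card g.range := Nat.card_pos
  have hfk : 0 < Nat.card f.ker := Nat.card_pos
  have key : (Nat.card g.range * Nat.card f.range) * mhIdx f g =
      (Nat.card g.range * Nat.card f.range) * mhIdx g f := by
    calc (Nat.card g.range * Nat.card f.range) * mhIdx f g
        = (Nat.card g.range * mhIdx f g) * Nat.card f.range := by
          rw [Nat.mul_assoc, Nat.mul_comm (Nat.card f.range), ← Nat.mul_assoc]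
      _ = Nat.card A := by rw [h1, h3]
      _ = (Nat.card f.range * mhIdx g f) * Nat.card g.range := by rw [h2, h4]
      _ = (Nat.card g.range * Nat.card f.range) * mhIdx g f := by
          rw [Nat.mul_comm, ← Nat.mul_assoc]
  refine ⟨Nat.eq_of_mul_eq_mul_left (Nat.mul_pos hgr hfr) key, ?_⟩
  intro h0
  rw [h0, Nat.mul_zero] at h1
  exact hfk.ne h1

@[to_additive hFinite_of_finite]
theorem mhFinite_of_finite [Finite A] (f g : A →* A) (hfg : ∀ a, f (g a) = 1)
    (hgf : ∀ a, g (f a) = 1) : MHFinite f g :=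
  ⟨(mhIdx_eq_of_finite f g hfg hgf).2, (mhIdx_eq_of_finite g f hgf hfg).2⟩

@[to_additive herbrandQ_eq_one_of_finite]
theorem mherbrandQ_eq_one_of_finite [Finite A] (f g : A →* A) (hfg : ∀ a, f (g a) = 1)
    (hgf : ∀ a, g (f a) = 1) : mherbrandQ f g = 1 := by
  unfold mherbrandQ
  rw [(mhIdx_eq_of_finite f g hfg hgf).1]
  exact div_self (Nat.cast_ne_zero.2 (mhIdx_eq_of_finite g f hgf hfg).2)

/-! ### Short exact sequences -/

section Exact

variable (i : A →* B) (p : B →* C) (fA gA : A →* A) (fB gB : B →* B) (fC gC : C →* C)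

/-- Transport of `mhIdx` of the sub-object to the ambient group. -/
@[to_additive hIdx_sub]
lemma mhIdx_sub (hi : Injective i) (hf : ∀ a, i (fA a) = fB (i a))
    (hg : ∀ a, i (gA a) = gB (i a)) :
    mhIdx fA gA = (i.range.map gB).relIndex (fB.ker ⊓ i.range) := by
  unfold mhIdx
  rw [← relIndex_map_map_of_injective gA.range fA.ker hi]
  congr 1
  · ext x
    constructor
    · rintro ⟨_, ⟨a, rfl⟩, rfl⟩
      exact ⟨i a, ⟨a, rfl⟩, (hg a).symm⟩
    · rintro ⟨_, ⟨a, rfl⟩, rfl⟩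
      exact ⟨gA a, ⟨a, rfl⟩, hg a⟩
  · ext x
    constructor
    · rintro ⟨a, ha, rfl⟩
      refine ⟨?_, ⟨a, rfl⟩⟩
      have ha' : fA a = 1 := ha
      show fB (i a) = 1
      rw [← hf, ha', map_one]
    · rintro ⟨hx, ⟨a, rfl⟩⟩
      refine ⟨a, ?_, rfl⟩
      have hx' : fB (i a) = 1 := hx
      show fA a = 1
      apply hi
      rw [hf, hx', map_one]

/-- Transport of `mhIdx` of the quotient object to the ambient group. -/
@[to_additive hIdx_quot]
lemma mhIdx_quot (hp : Surjective p) (hf : ∀ b, p (fB b) = fC (p b))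
    (hg : ∀ b, p (gB b) = gC (p b)) (hpres : p.ker ≤ p.ker.comap fB) :
    mhIdx fC gC = (gB.range ⊔ p.ker).relIndex (p.ker.comap fB) := by
  unfold mhIdx
  have h1 : gC.range = gB.range.map p := by
    ext x
    constructor
    · rintro ⟨c, rfl⟩
      obtain ⟨b, rfl⟩ := hp c
      exact ⟨gB b, ⟨b, rfl⟩, hg b⟩
    · rintro ⟨_, ⟨b, rfl⟩, rfl⟩
      exact ⟨p b, (hg b).symm⟩
  have h2 : fC.ker = (p.ker.comap fB).map p := by
    ext x
    constructor
    · intro hx
      obtain ⟨b, rfl⟩ := hp x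
      refine ⟨b, ?_, rfl⟩
      have hx' : fC (p b) = 1 := hx
      show p (fB b) = 1
      rw [hf, hx']
    · rintro ⟨b, hb, rfl⟩
      have hb' : p (fB b) = 1 := hb
      show fC (p b) = 1
      rw [← hf, hb']
  rw [h1, h2, relIndex_map_map, sup_eq_left.2 hpres]

/-- Index computation for a pair `(f, g)` of endomorphisms of `B` preserving a subgroup `A'`. -/
@[to_additive hIdx_main_aux]
lemma mhIdx_main_aux (A' : Subgroup B) (f g : B →* B) (hfg : ∀ b, f (g b) = 1)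
    (hf : A' ≤ A'.comap f) (hg : A' ≤ A'.comap g) :
    ∃ w y : ℕ,
      (A'.map g).relIndex (f.ker ⊓ A') = (A'.map g).relIndex (A' ⊓ g.range) * w ∧
      g.range.relIndex f.ker = w * y ∧
      (g.range ⊔ A').relIndex (A'.comap f) = (A'.map f).relIndex (A' ⊓ f.range) * y := by
  have hgZ : g.range ≤ f.ker := by rintro _ ⟨b, rfl⟩; exact hfg b
  refine ⟨(g.range ⊓ A').relIndex (f.ker ⊓ A'), (g.range ⊔ A').relIndex f.ker, ?_, ?_, ?_⟩
  · -- a = E_g * w
    have h1 : A'.map g ≤ g.range ⊓ A' := by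
      rintro _ ⟨x, hx, rfl⟩
      exact ⟨⟨x, rfl⟩, hg hx⟩
    have h2 : g.range ⊓ A' ≤ f.ker ⊓ A' := inf_le_inf_right _ hgZ
    rw [inf_comm A' g.range]
    exact (relIndex_mul_relIndex _ _ _ h1 h2).symm
  · -- b = w * y
    have h := relIndex_inf_mul_relIndex g.range (g.range ⊔ A') f.ker
    rw [inf_eq_left.2 (le_sup_left : g.range ≤ g.range ⊔ A')] at h
    rw [← h]
    congr 1
    -- modular law
    have hmod : (g.range ⊔ A') ⊓ f.ker = g.range ⊔ (A' ⊓ f.ker) := by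
      apply le_antisymm
      · intro x hx
        have hx1 : x ∈ g.range ⊔ A' := hx.1
        have hx2 : x ∈ f.ker := hx.2
        rw [mem_sup] at hx1
        obtain ⟨u, hu, v, hv, rfl⟩ := hx1
        rw [mem_sup]
        refine ⟨u, hu, v, ⟨hv, ?_⟩, rfl⟩
        have : v = u⁻¹ * (u * v) := by rw [inv_mul_cancel_left]
        rw [this]
        exact f.ker.mul_mem (f.ker.inv_mem (hgZ hu)) hx2
      · exact le_inf (sup_le_sup_left inf_le_left _) (sup_le hgZ inf_le_right)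
    rw [hmod]
    rw [relIndex_sup_left (A' ⊓ f.ker) g.range, ← inf_relIndex_right g.range (A' ⊓ f.ker),
      ← inf_relIndex_right (g.range ⊓ A') (f.ker ⊓ A')]
    congr 1
    · apply le_antisymm
      · exact le_inf (le_inf inf_le_left (inf_le_right.trans inf_le_left))
          (le_inf (inf_le_left.trans hgZ) (inf_le_right.trans inf_le_left))
      · exact le_inf (inf_le_left.trans inf_le_left) (le_inf (inf_le_left.trans inf_le_right)
          (inf_le_right.trans inf_le_left))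
    · exact inf_comm _ _
  · -- c = E_f * y
    have hle1 : g.range ⊔ A' ≤ f.ker ⊔ A' := sup_le_sup_right hgZ _
    have hle2 : f.ker ⊔ A' ≤ A'.comap f := by
      refine sup_le ?_ hf
      intro x hx
      have hx' : f x = 1 := hx
      show f x ∈ A'
      rw [hx']; exact A'.one_mem
    rw [← relIndex_mul_relIndex _ _ _ hle1 hle2, Nat.mul_comm]
    congr 1
    · -- [f⁻¹A' : ker f ⊔ A'] = E_f
      have : f.ker ⊔ A' = (A'.map f).comap f := by rw [comap_map_eq, sup_comm]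
      rw [this, relIndex_comap, map_comap_eq, inf_comm]
    · -- [ker f ⊔ A' : im g ⊔ A'] = y
      have : f.ker ⊔ A' = (g.range ⊔ A') ⊔ f.ker := by
        rw [sup_comm, sup_assoc, sup_comm A' f.ker, ← sup_assoc, sup_eq_right.2 hgZ, sup_comm]
      rw [this]
      exact relIndex_sup_left f.ker (g.range ⊔ A')

/-- **Core index computation** behind the multiplicativity of the Herbrand quotient.
All six Herbrand indices of a short exact sequence `1 → A → B → C → 1` (compatible with the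
pairs of endomorphisms) are products of two out of six auxiliary indices. -/
@[to_additive exists_six_factors]
theorem exists_six_factors_mul (hi : Injective i) (hp : Surjective p) (hex : i.range = p.ker)
    (hfi : ∀ a, i (fA a) = fB (i a)) (hgi : ∀ a, i (gA a) = gB (i a))
    (hfp : ∀ b, p (fB b) = fC (p b)) (hgp : ∀ b, p (gB b) = gC (p b))
    (hfg : ∀ b, fB (gB b) = 1) (hgf : ∀ b, gB (fB b) = 1) :
    ∃ Ef Eg w y w' y' : ℕ,
      mhIdx fA gA = Eg * w ∧ mhIdx fB gB = w * y ∧ mhIdx fC gC = Ef * y ∧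
      mhIdx gA fA = Ef * w' ∧ mhIdx gB fB = w' * y' ∧ mhIdx gC fC = Eg * y' := by
  have hker : p.ker = i.range := hex.symm
  have hfpres : i.range ≤ i.range.comap fB := by
    rintro _ ⟨a, rfl⟩
    exact ⟨fA a, hfi a⟩
  have hgpres : i.range ≤ i.range.comap gB := by
    rintro _ ⟨a, rfl⟩
    exact ⟨gA a, hgi a⟩
  obtain ⟨w, y, h1, h2, h3⟩ := mhIdx_main_aux i.range fB gB hfg hfpres hgpres
  obtain ⟨w', y', h1', h2', h3'⟩ := mhIdx_main_aux i.range gB fB hgf hgpres hfpres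
  refine ⟨(i.range.map fB).relIndex (i.range ⊓ fB.range),
    (i.range.map gB).relIndex (i.range ⊓ gB.range), w, y, w', y', ?_, ?_, ?_, ?_, ?_, ?_⟩
  · rw [mhIdx_sub i fA gA fB gB hi hfi hgi]; exact h1
  · exact h2
  · rw [mhIdx_quot p fB gB fC gC hp hfp hgp (hker ▸ hfpres), hker]; exact h3
  · rw [mhIdx_sub i gA fA gB fB hi hgi hfi]; exact h1'
  · exact h2'
  · rw [mhIdx_quot p gB fB gC fC hp hgp hfp (hker ▸ hgpres), hker]; exact h3'

/-- Hypotheses describing a short exact sequence `1 → A → B → C → 1` of commutative groups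
with compatible pairs of endomorphisms. -/
@[to_additive HExact /-- Hypotheses describing a short exact sequence `0 → A → B → C → 0` of
abelian groups with compatible pairs of endomorphisms. -/]
def MHExact : Prop :=
  Injective i ∧ Surjective p ∧ i.range = p.ker ∧
    (∀ a, i (fA a) = fB (i a)) ∧ (∀ a, i (gA a) = gB (i a)) ∧
    (∀ b, p (fB b) = fC (p b)) ∧ (∀ b, p (gB b) = gC (p b)) ∧
    (∀ b, fB (gB b) = 1) ∧ (∀ b, gB (fB b) = 1)

variable {i p fA gA fB gB fC gC}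

@[to_additive HExact.six]
theorem MHExact.six (h : MHExact i p fA gA fB gB fC gC) :
    ∃ Ef Eg w y w' y' : ℕ,
      mhIdx fA gA = Eg * w ∧ mhIdx fB gB = w * y ∧ mhIdx fC gC = Ef * y ∧
      mhIdx gA fA = Ef * w' ∧ mhIdx gB fB = w' * y' ∧ mhIdx gC fC = Eg * y' :=
  exists_six_factors_mul i p fA gA fB gB fC gC h.1 h.2.1 h.2.2.1 h.2.2.2.1 h.2.2.2.2.1
    h.2.2.2.2.2.1 h.2.2.2.2.2.2.1 h.2.2.2.2.2.2.2.1 h.2.2.2.2.2.2.2.2

/-- Multiplicativity of Herbrand indices, unconditional form (`0` = infinite). -/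
@[to_additive HExact.hIdx_mul_eq]
theorem MHExact.mhIdx_mul_eq (h : MHExact i p fA gA fB gB fC gC) :
    mhIdx fB gB * (mhIdx gA fA * mhIdx gC fC) = mhIdx gB fB * (mhIdx fA gA * mhIdx fC gC) := by
  obtain ⟨Ef, Eg, w, y, w', y', h1, h2, h3, h4, h5, h6⟩ := h.six
  rw [h1, h2, h3, h4, h5, h6]
  simp only [Nat.mul_assoc, Nat.mul_comm, Nat.mul_left_comm]

@[to_additive HExact.hFinite_mid]
theorem MHExact.mhFinite_mid (h : MHExact i p fA gA fB gB fC gC) (hA : MHFinite fA gA)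
    (hC : MHFinite fC gC) : MHFinite fB gB := by
  obtain ⟨Ef, Eg, w, y, w', y', h1, h2, h3, h4, h5, h6⟩ := h.six
  obtain ⟨a1, a2⟩ := hA
  obtain ⟨c1, c2⟩ := hC
  rw [h1] at a1; rw [h4] at a2; rw [h3] at c1; rw [h6] at c2
  refine ⟨?_, ?_⟩
  · rw [h2]; exact Nat.mul_ne_zero (right_ne_zero_of_mul a1) (right_ne_zero_of_mul c1)
  · rw [h5]; exact Nat.mul_ne_zero (right_ne_zero_of_mul a2) (right_ne_zero_of_mul c2)

@[to_additive HExact.hFinite_right]
theorem MHExact.mhFinite_right (h : MHExact i p fA gA fB gB fC gC) (hA : MHFinite fA gA)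
    (hB : MHFinite fB gB) : MHFinite fC gC := by
  obtain ⟨Ef, Eg, w, y, w', y', h1, h2, h3, h4, h5, h6⟩ := h.six
  obtain ⟨a1, a2⟩ := hA
  obtain ⟨b1, b2⟩ := hB
  rw [h1] at a1; rw [h4] at a2; rw [h2] at b1; rw [h5] at b2
  refine ⟨?_, ?_⟩
  · rw [h3]; exact Nat.mul_ne_zero (left_ne_zero_of_mul a2) (right_ne_zero_of_mul b1)
  · rw [h6]; exact Nat.mul_ne_zero (left_ne_zero_of_mul a1) (right_ne_zero_of_mul b2)

@[to_additive HExact.hFinite_left]
theorem MHExact.mhFinite_left (h : MHExact i p fA gA fB gB fC gC) (hB : MHFinite fB gB)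
    (hC : MHFinite fC gC) : MHFinite fA gA := by
  obtain ⟨Ef, Eg, w, y, w', y', h1, h2, h3, h4, h5, h6⟩ := h.six
  obtain ⟨b1, b2⟩ := hB
  obtain ⟨c1, c2⟩ := hC
  rw [h2] at b1; rw [h5] at b2; rw [h3] at c1; rw [h6] at c2
  refine ⟨?_, ?_⟩
  · rw [h1]; exact Nat.mul_ne_zero (left_ne_zero_of_mul c2) (left_ne_zero_of_mul b1)
  · rw [h4]; exact Nat.mul_ne_zero (left_ne_zero_of_mul c1) (left_ne_zero_of_mul b2)

/-- **Multiplicativity of the Herbrand quotient.** -/
@[to_additive HExact.herbrandQ_mul]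
theorem MHExact.mherbrandQ_mul (h : MHExact i p fA gA fB gB fC gC) (hA : MHFinite fA gA)
    (hC : MHFinite fC gC) : mherbrandQ fB gB = mherbrandQ fA gA * mherbrandQ fC gC := by
  have hB := h.mhFinite_mid hA hC
  have key := h.mhIdx_mul_eq
  unfold mherbrandQ
  have a2 : (mhIdx gA fA : ℚ) ≠ 0 := Nat.cast_ne_zero.2 hA.2
  have b2 : (mhIdx gB fB : ℚ) ≠ 0 := Nat.cast_ne_zero.2 hB.2
  have c2 : (mhIdx gC fC : ℚ) ≠ 0 := Nat.cast_ne_zero.2 hC.2
  have key' : (mhIdx fB gB : ℚ) * (mhIdx gA fA * mhIdx gC fC) =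
      mhIdx gB fB * (mhIdx fA gA * mhIdx fC gC) := by exact_mod_cast key
  field_simp
  linear_combination key'

/-- If the sub-object is finite, the Herbrand quotients of `B` and `C` agree. -/
@[to_additive HExact.herbrandQ_eq_of_finite_left]
theorem MHExact.mherbrandQ_eq_of_finite_left [Finite A] (h : MHExact i p fA gA fB gB fC gC)
    (hC : MHFinite fC gC) : MHFinite fB gB ∧ mherbrandQ fB gB = mherbrandQ fC gC := by
  obtain ⟨hinj, hsurj, hex, hfi, hgi, hfp, hgp, hfg, hgf⟩ := id h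
  have hfgA : ∀ a, fA (gA a) = 1 := fun a => hinj (by rw [hfi, hgi, hfg, map_one])
  have hgfA : ∀ a, gA (fA a) = 1 := fun a => hinj (by rw [hgi, hfi, hgf, map_one])
  have hA := mhFinite_of_finite fA gA hfgA hgfA
  refine ⟨h.mhFinite_mid hA hC, ?_⟩
  rw [h.mherbrandQ_mul hA hC, mherbrandQ_eq_one_of_finite fA gA hfgA hgfA, one_mul]

/-- If the quotient object is finite, the Herbrand quotients of `A` and `B` agree. -/
@[to_additive HExact.herbrandQ_eq_of_finite_right]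
theorem MHExact.mherbrandQ_eq_of_finite_right [Finite C] (h : MHExact i p fA gA fB gB fC gC)
    (hA : MHFinite fA gA) : MHFinite fB gB ∧ mherbrandQ fB gB = mherbrandQ fA gA := by
  obtain ⟨hinj, hsurj, hex, hfi, hgi, hfp, hgp, hfg, hgf⟩ := id h
  have hfgC : ∀ c, fC (gC c) = 1 := fun c => by
    obtain ⟨b, rfl⟩ := hsurj c
    rw [← hgp, ← hfp, hfg, map_one]
  have hgfC : ∀ c, gC (fC c) = 1 := fun c => by
    obtain ⟨b, rfl⟩ := hsurj c
    rw [← hfp, ← hgp, hgf, map_one]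
  have hC := mhFinite_of_finite fC gC hfgC hgfC
  refine ⟨h.mhFinite_mid hA hC, ?_⟩
  rw [h.mherbrandQ_mul hA hC, mherbrandQ_eq_one_of_finite fC gC hfgC hgfC, mul_one]

end Exact

end Fermat.Agent.S55.H595

end
-- ===== PACK-END S55/H595/Herbrand.lean

-- ===== PACK-BEGIN S55/H963/BrHensel.lean
section


/-!
# S55 / G-SI bridge (helper963): `n`-th roots by contraction in a `P`-adically complete ring

Pure algebra.  `R` a commutative ring, `P : R`.  `PHaus P` : `⋂ Pᵏ R = 0`;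
`PPrec P` : every `P`-adic Cauchy sequence has a limit.  Under these hypotheses:

* `exists_fixed_point` : a map `Φ : R → R` with `P (Y - Y') ∣ Φ Y - Φ Y'` has a fixed point;
* `exists_pow_eq` : if `P ^ a = n * t` then every `1 + P ^ (2 a + 2) z` is an `n`-th power
  (of an element `≡ 1 mod P ^ (a+1)`);
* `exists_mul_eq_one` : `1 + P w` is invertible.
-/

set_option autoImplicit false

namespace Fermat.Agent.S55.H963.Br

variable {R : Type*} [CommRing R]

/-- `P`-adic separation: `⋂ₖ Pᵏ R = 0`. -/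
def PHaus (P : R) : Prop := ∀ y : R, (∀ k : ℕ, P ^ k ∣ y) → y = 0

/-- `P`-adic precompleteness: every sequence with `Pᵏ ∣ f (k+1) - f k` has a limit. -/
def PPrec (P : R) : Prop :=
  ∀ f : ℕ → R, (∀ k : ℕ, P ^ k ∣ f (k + 1) - f k) → ∃ L : R, ∀ k : ℕ, P ^ k ∣ L - f k

theorem exists_fixed_point {P : R} (hH : PHaus P) (hC : PPrec P) (Φ : R → R)
    (hΦ : ∀ Y Y' : R, P * (Y - Y') ∣ Φ Y - Φ Y') : ∃ Y : R, Φ Y = Y := by
  let f : ℕ → R := fun k => Φ^[k] 0
  have hf : ∀ k : ℕ, P ^ k ∣ f (k + 1) - f k := by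
    intro k
    induction k with
    | zero => simp
    | succ k ih =>
      have h1 : f (k + 1 + 1) - f (k + 1) = Φ (f (k + 1)) - Φ (f k) := by
        simp only [f, Function.iterate_succ_apply']
      rw [h1]
      refine dvd_trans ?_ (hΦ _ _)
      rw [pow_succ']
      exact mul_dvd_mul_left P ih
  obtain ⟨L, hL⟩ := hC f hf
  refine ⟨L, ?_⟩
  have key : ∀ k : ℕ, P ^ k ∣ Φ L - L := by
    intro k
    have h1 : P ^ (k + 1) ∣ Φ L - Φ (f k) := by
      refine dvd_trans ?_ (hΦ _ _)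
      rw [pow_succ']
      exact mul_dvd_mul_left P (hL k)
    have h2 : P ^ (k + 1) ∣ L - f (k + 1) := hL (k + 1)
    have h3 : Φ L - L = (Φ L - Φ (f k)) - (L - f (k + 1)) := by
      have : f (k + 1) = Φ (f k) := by simp only [f, Function.iterate_succ_apply']
      rw [this]; ring
    rw [h3]
    exact dvd_trans (pow_dvd_pow P (Nat.le_succ k)) (dvd_sub h1 h2)
  exact sub_eq_zero.mp (hH _ key)

/-- The polynomial `q_n` with `(1 + X) ^ n = 1 + n X + X² q_n(X)`, as a function. -/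
def binQ : ℕ → R → R
  | 0, _ => 0
  | (n + 1), X => n + (1 + X) * binQ n X

theorem one_add_pow_eq (n : ℕ) (X : R) :
    (1 + X) ^ n = 1 + n * X + X ^ 2 * binQ n X := by
  induction n with
  | zero => simp [binQ]
  | succ n ih =>
    rw [pow_succ, ih]
    simp only [binQ, Nat.cast_succ]
    ring

theorem sub_dvd_binQ_sub (n : ℕ) (X X' : R) : X - X' ∣ binQ n X - binQ n X' := by
  induction n with
  | zero => simp [binQ]
  | succ n ih =>
    have : binQ (n + 1) X - binQ (n + 1) X' =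
        (1 + X) * (binQ n X - binQ n X') + (X - X') * binQ n X' := by
      simp only [binQ]; ring
    rw [this]
    exact dvd_add (Dvd.dvd.mul_left ih _) (Dvd.intro _ rfl)

/-- **Hensel for `n`-th roots, non-simple root.** -/
theorem exists_pow_eq {P : R} (hH : PHaus P) (hC : PPrec P) (n a : ℕ) (t : R)
    (ht : P ^ a = n * t) (z : R) :
    ∃ Y : R, (1 + P ^ (a + 1) * Y) ^ n = 1 + P ^ (2 * a + 2) * z := by
  set c : R := P ^ (a + 1) with hc
  let Φ : R → R := fun Y => t * P * (z - Y ^ 2 * binQ n (c * Y))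
  have hΦ : ∀ Y Y' : R, P * (Y - Y') ∣ Φ Y - Φ Y' := by
    intro Y Y'
    have h1 : Y - Y' ∣ Y ^ 2 * binQ n (c * Y) - Y' ^ 2 * binQ n (c * Y') := by
      have e : Y ^ 2 * binQ n (c * Y) - Y' ^ 2 * binQ n (c * Y') =
          (Y - Y') * ((Y + Y') * binQ n (c * Y)) +
            Y' ^ 2 * (binQ n (c * Y) - binQ n (c * Y')) := by ring
      rw [e]
      refine dvd_add (Dvd.intro _ rfl) (Dvd.dvd.mul_left ?_ _)
      refine dvd_trans ?_ (sub_dvd_binQ_sub n (c * Y) (c * Y'))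
      exact ⟨c, by ring⟩
    obtain ⟨u, hu⟩ := h1
    refine ⟨-(t * u), ?_⟩
    simp only [Φ]
    linear_combination (-(t * P)) * hu
  obtain ⟨Y, hY⟩ := exists_fixed_point hH hC Φ hΦ
  refine ⟨Y, ?_⟩
  rw [one_add_pow_eq]
  have hcc : c = (n : R) * t * P := by
    rw [hc, pow_succ, ht]
  have hc2 : P ^ (2 * a + 2) = c ^ 2 := by
    rw [hc, ← pow_mul]; congr 1; ring
  rw [hc2]
  have hY' : Y = t * P * (z - Y ^ 2 * binQ n (c * Y)) := hY.symm
  have : (n : R) * (c * Y) = c ^ 2 * z - (c * Y) ^ 2 * binQ n (c * Y) := by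
    calc (n : R) * (c * Y) = c * ((n : R) * Y) := by ring
      _ = c * ((n : R) * (t * P * (z - Y ^ 2 * binQ n (c * Y)))) := by rw [← hY']
      _ = c * (((n : R) * t * P) * (z - Y ^ 2 * binQ n (c * Y))) := by ring
      _ = c * (c * (z - Y ^ 2 * binQ n (c * Y))) := by rw [← hcc]
      _ = c ^ 2 * z - (c * Y) ^ 2 * binQ n (c * Y) := by ring
  linear_combination this

/-- `1 + P w` is invertible in a `P`-adically complete ring. -/
theorem exists_mul_eq_one {P : R} (hH : PHaus P) (hC : PPrec P) (w : R) :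
    ∃ u : R, (1 + P * w) * u = 1 := by
  obtain ⟨u, hu⟩ := exists_fixed_point hH hC (fun u => 1 - P * w * u) (fun Y Y' => by
    refine ⟨-w, ?_⟩
    ring)
  exact ⟨u, by linear_combination -hu⟩

end Fermat.Agent.S55.H963.Br

end
-- ===== PACK-END S55/H963/BrHensel.lean

-- ===== PACK-BEGIN S14/N3H850/ZetaBound.lean
section


/-!
# S14 / density block N3, part 1: finite Euler products are bounded by the Dedekind zeta function

For every number field `F` there is a constant `C` such that for every `s ∈ (1, 2]` and every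
finite set `T` of nonzero prime ideals of `𝓞 F`
`∏_{𝔔 ∈ T} (1 + N(𝔔)^(-s)) ≤ C / (s - 1)`.

Only input: Mathlib's class number formula `NumberField.tendsto_sub_one_mul_dedekindZeta_nhdsGT`
(simple pole of the Dedekind zeta function at `s = 1`) and unique factorisation of ideals.
-/

set_option autoImplicit false

open Filter Topology NumberField Ideal Finset Asymptotics

namespace Fermat.Agent.S14.N3H850

variable (F : Type*) [Field F] [NumberField F]

/-- number of integral ideals of norm `n`, as a real number -/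
noncomputable def idealCount (n : ℕ) : ℝ :=
  (Nat.card {I : Ideal (𝓞 F) // absNorm I = n} : ℝ)

lemma idealCount_nonneg (n : ℕ) : 0 ≤ idealCount F n := Nat.cast_nonneg _

/-- the real Dirichlet series `∑ a(n) n^(-s)` -/
noncomputable def zetaR (s : ℝ) : ℝ := ∑' n : ℕ, idealCount F n * (n : ℝ) ^ (-s)

lemma tendsto_sum_idealCount_div :
    Tendsto (fun n : ℕ ↦ (∑ k ∈ Icc 1 n, idealCount F k) / (n : ℝ)) atTop
      (𝓝 (dedekindZeta_residue F)) := by
  refine ((Ideal.tendsto_norm_le_div_atTop₀ F).comp tendsto_natCast_atTop_atTop).congr fun n ↦ ?_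
  simp only [Function.comp_apply, Nat.cast_le, idealCount, ← Nat.cast_sum]
  congr
  rw [← add_left_inj 1, ← card_norm_le_eq_card_norm_le_add_one,
    show Finset.Icc 1 n = Finset.Ioc 0 n from Finset.Icc_succ_left_eq_Ioc _ _,
    show 1 = Nat.card {I : Ideal (𝓞 F) // absNorm I = 0} by simp [Ideal.absNorm_eq_zero_iff],
    Finset.sum_Ioc_add_eq_sum_Icc (n.zero_le),
    ← Finset.card_preimage_eq_sum_card_image_eq (fun k _ ↦ finite_setOfPred_absNorm_eq k)]
  simp [Set.coe_eq_subtype]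

lemma lseriesSummable_idealCount {s : ℝ} (hs : 1 < s) :
    LSeriesSummable (fun n ↦ (idealCount F n : ℂ)) (s : ℂ) := by
  refine LSeriesSummable_of_sum_norm_bigO_and_nonneg ?_ (idealCount_nonneg F) zero_le_one
    (by simpa using hs)
  exact isBigO_atTop_natCast_rpow_of_tendsto_div_rpow (by simpa using tendsto_sum_idealCount_div F)

/-- the real series is summable for `s > 1` -/
lemma summable_idealCount {s : ℝ} (hs : 1 < s) :
    Summable (fun n : ℕ ↦ idealCount F n * (n : ℝ) ^ (-s)) := by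
  have h := lseriesSummable_idealCount F hs
  have h2 : Summable (fun n : ℕ ↦ ((idealCount F n * (n : ℝ) ^ (-s) : ℝ) : ℂ)) := by
    refine h.congr fun n ↦ ?_
    rcases eq_or_ne n 0 with rfl | hn
    · have : (0 : ℝ) ^ (-s) = 0 := Real.zero_rpow (by linarith)
      simp [this]
    · rw [LSeries.term_of_ne_zero hn, Complex.ofReal_mul,
        Complex.ofReal_cpow (Nat.cast_nonneg n), Complex.ofReal_neg, Complex.cpow_neg]
      simp [div_eq_mul_inv]
  exact Complex.summable_ofReal.mp h2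

lemma dedekindZeta_eq_zetaR {s : ℝ} (hs : 1 < s) :
    dedekindZeta F (s : ℂ) = ((zetaR F s : ℝ) : ℂ) := by
  rw [dedekindZeta, LSeries, zetaR, Complex.ofReal_tsum]
  refine tsum_congr fun n ↦ ?_
  rcases eq_or_ne n 0 with rfl | hn
  · have : (0 : ℝ) ^ (-s) = 0 := Real.zero_rpow (by linarith)
    simp [this]
  · rw [LSeries.term_of_ne_zero hn, Complex.ofReal_mul,
      Complex.ofReal_cpow (Nat.cast_nonneg n), Complex.ofReal_neg, Complex.cpow_neg]
    simp [div_eq_mul_inv, idealCount]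

lemma card_filter_le_idealCount (J : Finset (Ideal (𝓞 F))) (n : ℕ) :
    ((J.filter fun I ↦ absNorm I = n).card : ℝ) ≤ idealCount F n := by
  classical
  have hfin : {I : Ideal (𝓞 F) | absNorm I = n}.Finite := finite_setOfPred_absNorm_eq n
  rw [idealCount, Nat.cast_le]
  have h1 : Nat.card {I : Ideal (𝓞 F) // absNorm I = n} = hfin.toFinset.card := by
    rw [← Set.ncard_eq_toFinset_card _ hfin]
    rfl
  rw [h1]
  refine Finset.card_le_card fun I hI ↦ ?_
  simpa using (Finset.mem_filter.mp hI).2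

/-- A finite sum of `N(I)^(-s)` is bounded by the zeta series. -/
lemma sum_le_zetaR {s : ℝ} (hs : 1 < s) (J : Finset (Ideal (𝓞 F))) :
    ∑ I ∈ J, (absNorm I : ℝ) ^ (-s) ≤ zetaR F s := by
  classical
  have h1 : ∑ I ∈ J, (absNorm I : ℝ) ^ (-s)
      = ∑ n ∈ J.image (fun I ↦ absNorm I),
          ((J.filter fun I ↦ absNorm I = n).card : ℝ) * (n : ℝ) ^ (-s) := by
    rw [Finset.sum_comp (fun n : ℕ ↦ (n : ℝ) ^ (-s)) (fun I : Ideal (𝓞 F) ↦ absNorm I)]
    refine Finset.sum_congr rfl fun n _ ↦ ?_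
    rw [nsmul_eq_mul]
  rw [h1]
  calc ∑ n ∈ J.image (fun I ↦ absNorm I),
          ((J.filter fun I ↦ absNorm I = n).card : ℝ) * (n : ℝ) ^ (-s)
      ≤ ∑ n ∈ J.image (fun I ↦ absNorm I), idealCount F n * (n : ℝ) ^ (-s) := by
        refine Finset.sum_le_sum fun n _ ↦ ?_
        exact mul_le_mul_of_nonneg_right (card_filter_le_idealCount F J n)
          (Real.rpow_nonneg (Nat.cast_nonneg n) _)
    _ ≤ zetaR F s := by
        refine (summable_idealCount F hs).sum_le_tsum _ fun n _ ↦ ?_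
        exact mul_nonneg (idealCount_nonneg F n) (Real.rpow_nonneg (Nat.cast_nonneg n) _)

lemma zetaR_nonneg (s : ℝ) : 0 ≤ zetaR F s :=
  tsum_nonneg fun n ↦ mul_nonneg (idealCount_nonneg F n) (Real.rpow_nonneg (Nat.cast_nonneg n) _)

/-- `(s - 1) ζ_F(s)` is bounded near `1⁺`. -/
lemma exists_zetaR_bound_near_one :
    ∃ R : ℝ, 0 < R ∧ ∃ δ : ℝ, 0 < δ ∧ ∀ s : ℝ, 1 < s → s < 1 + δ → (s - 1) * zetaR F s ≤ R := by
  have h := tendsto_sub_one_mul_dedekindZeta_nhdsGT F
  have h2 : ∀ᶠ s : ℝ in 𝓝[>] 1, ‖((s : ℂ) - 1) * dedekindZeta F s‖ < dedekindZeta_residue F + 1 := by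
    have h3 := (continuous_norm.tendsto _).comp h
    refine h3.eventually_lt_const ?_
    simp only [Complex.norm_real, Real.norm_eq_abs, abs_of_pos (dedekindZeta_residue_pos F)]
    linarith
  rw [eventually_nhdsWithin_iff, Metric.eventually_nhds_iff] at h2
  obtain ⟨δ, hδ, hδ2⟩ := h2
  refine ⟨dedekindZeta_residue F + 1, by linarith [dedekindZeta_residue_pos F], δ, hδ,
    fun s hs1 hs2 ↦ ?_⟩
  have h4 := hδ2 (y := s) (by rw [Real.dist_eq, abs_of_pos (by linarith)]; linarith) hs1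
  rw [dedekindZeta_eq_zetaR F hs1, ← Complex.ofReal_one, ← Complex.ofReal_sub,
    ← Complex.ofReal_mul, Complex.norm_real, Real.norm_eq_abs] at h4
  exact (le_abs_self _).trans h4.le

/-- **Uniform bound for finite sums of `N(I)^(-s)`**, `1 < s ≤ 2`. -/
theorem exists_sum_bound :
    ∃ C : ℝ, 0 < C ∧ ∀ s : ℝ, 1 < s → s ≤ 2 → ∀ J : Finset (Ideal (𝓞 F)),
      (∀ I ∈ J, I ≠ ⊥) → ∑ I ∈ J, (absNorm I : ℝ) ^ (-s) ≤ C / (s - 1) := by
  obtain ⟨R, hR, δ, hδ, hb⟩ := exists_zetaR_bound_near_one F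
  refine ⟨max R (2 * R / δ), lt_max_of_lt_left hR, fun s hs1 hs2 J hJ ↦ ?_⟩
  have hs0 : 0 < s - 1 := by linarith
  rcases lt_or_ge s (1 + δ) with hlt | hge
  · have h1 := sum_le_zetaR F hs1 J
    have h2 := hb s hs1 hlt
    calc ∑ I ∈ J, (absNorm I : ℝ) ^ (-s) ≤ zetaR F s := h1
      _ ≤ R / (s - 1) := by rw [le_div_iff₀ hs0]; linarith
      _ ≤ max R (2 * R / δ) / (s - 1) := by gcongr; exact le_max_left _ _
  · set s₀ : ℝ := 1 + δ / 2 with hs₀
    have hs₀1 : 1 < s₀ := by rw [hs₀]; linarith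
    have hs₀2 : s₀ < 1 + δ := by rw [hs₀]; linarith
    have h2 := hb s₀ hs₀1 hs₀2
    have h3 : zetaR F s₀ ≤ 2 * R / δ := by
      rw [le_div_iff₀ hδ]
      have : s₀ - 1 = δ / 2 := by rw [hs₀]; ring
      rw [this] at h2
      linarith
    have h4 : ∑ I ∈ J, (absNorm I : ℝ) ^ (-s) ≤ ∑ I ∈ J, (absNorm I : ℝ) ^ (-s₀) := by
      refine Finset.sum_le_sum fun I hI ↦ ?_
      have hI0 : absNorm I ≠ 0 := by
        rw [Ne, Ideal.absNorm_eq_zero_iff]; exact hJ I hI
      have h1 : (1 : ℝ) ≤ (absNorm I : ℝ) := by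
        exact_mod_cast Nat.one_le_iff_ne_zero.mpr hI0
      exact Real.rpow_le_rpow_of_exponent_le h1 (by linarith)
    calc ∑ I ∈ J, (absNorm I : ℝ) ^ (-s) ≤ ∑ I ∈ J, (absNorm I : ℝ) ^ (-s₀) := h4
      _ ≤ zetaR F s₀ := sum_le_zetaR F hs₀1 J
      _ ≤ 2 * R / δ := h3
      _ ≤ max R (2 * R / δ) := le_max_right _ _
      _ ≤ max R (2 * R / δ) / (s - 1) := by
          rw [le_div_iff₀ hs0]
          have : 0 < max R (2 * R / δ) := lt_max_of_lt_left hR
          nlinarith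

/-- A set of nonzero primes is determined by its product. -/
lemma prod_primes_injOn (T : Finset (Ideal (𝓞 F))) (hT : ∀ Q ∈ T, Q.IsPrime ∧ Q ≠ ⊥) :
    Set.InjOn (fun U : Finset (Ideal (𝓞 F)) ↦ ∏ Q ∈ U, Q) (T.powerset : Set (Finset _)) := by
  classical
  have key : ∀ U : Finset (Ideal (𝓞 F)), U ⊆ T → U = T.filter (fun Q ↦ Q ∣ ∏ Q' ∈ U, Q') := by
    intro U hU
    ext Q
    simp only [Finset.mem_filter]
    constructor
    · intro hQ
      exact ⟨hU hQ, Finset.dvd_prod_of_mem _ hQ⟩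
    · rintro ⟨hQT, hdvd⟩
      have hQp : Prime Q := Ideal.prime_of_isPrime (hT Q hQT).2 (hT Q hQT).1
      obtain ⟨Q', hQ'U, hQQ'⟩ := (Prime.dvd_finsetProd_iff hQp _).mp hdvd
      have hle : Q' ≤ Q := Ideal.dvd_iff_le.mp hQQ'
      have hQ'max : Q'.IsMaximal :=
        Ring.DimensionLEOne.maximalOfPrime (hT Q' (hU hQ'U)).2 (hT Q' (hU hQ'U)).1
      have : Q' = Q := hQ'max.eq_of_le (hT Q hQT).1.ne_top hle
      rwa [← this]
  intro U hU V hV hUV
  simp only [Finset.coe_powerset, Set.mem_preimage, Set.mem_powerset_iff, Finset.coe_subset] at hU hV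
  simp only at hUV
  rw [key U hU, key V hV, hUV]

/-- **Finite Euler products are `O(1/(s-1))`**, uniformly in the finite set of primes. -/
theorem exists_prod_bound :
    ∃ C : ℝ, 0 < C ∧ ∀ s : ℝ, 1 < s → s ≤ 2 → ∀ T : Finset (Ideal (𝓞 F)),
      (∀ Q ∈ T, Q.IsPrime ∧ Q ≠ ⊥) →
        ∏ Q ∈ T, (1 + (absNorm Q : ℝ) ^ (-s)) ≤ C / (s - 1) := by
  classical
  obtain ⟨C, hC, hb⟩ := exists_sum_bound F
  refine ⟨C, hC, fun s hs1 hs2 T hT ↦ ?_⟩
  rw [Finset.prod_one_add]
  have h1 : ∀ U ∈ T.powerset, ∏ Q ∈ U, (absNorm Q : ℝ) ^ (-s)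
      = (absNorm (∏ Q ∈ U, Q) : ℝ) ^ (-s) := by
    intro U _
    rw [map_prod, Nat.cast_prod, Real.finsetProd_rpow _ _ (fun Q _ ↦ Nat.cast_nonneg _)]
  rw [Finset.sum_congr rfl h1]
  rw [← Finset.sum_image (f := fun I : Ideal (𝓞 F) ↦ (absNorm I : ℝ) ^ (-s))
    (g := fun U : Finset (Ideal (𝓞 F)) ↦ ∏ Q ∈ U, Q) (prod_primes_injOn F T hT)]
  refine hb s hs1 hs2 _ fun I hI ↦ ?_
  obtain ⟨U, hU, rfl⟩ := Finset.mem_image.mp hI
  rw [Finset.mem_powerset] at hU
  rw [← Ideal.zero_eq_bot, Finset.prod_ne_zero_iff]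
  intro Q hQ
  exact (hT Q (hU hQ)).2

end Fermat.Agent.S14.N3H850

end
-- ===== PACK-END S14/N3H850/ZetaBound.lean

-- ===== PACK-BEGIN S55/G/Rec/ZsigmondyH897.lean
section


/-!
# REC auxiliary lemma (helper897): a prime `ℓ ≠ p` modulo which `p` has exact order `p ^ n`

For a prime `p` and `n ≥ 1`, every prime factor `ℓ` of `Φ_{p^n}(p)` is different from `p`
and `p` has multiplicative order exactly `p ^ n` modulo `ℓ`.  In particular `ℓ ≡ 1 mod p ^ n`.
This is the auxiliary tame prime used in step 1 of the elementary proof of the sum formula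
(`coord/S55-G-recip.md`).
-/

set_option autoImplicit false

namespace Fermat.Agent.S55.G.Rec.H897

open Polynomial Nat

/-- `Φ_{p^(m+1)}(p) ≡ 1 mod p`. -/
lemma cyclotomic_prime_pow_eval_self_modEq_one (p : ℕ) (hp : p.Prime) (m : ℕ) :
    (eval (p : ℤ) (cyclotomic (p ^ (m + 1)) ℤ)) ≡ 1 [ZMOD (p : ℤ)] := by
  rw [cyclotomic_prime_pow_eq_geom_sum hp]
  simp only [eval_finsetSum, eval_pow, eval_X]
  have hp0 : 0 < p := hp.pos
  obtain ⟨k, rfl⟩ : ∃ k, p = k + 1 := ⟨p - 1, by omega⟩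
  rw [Finset.sum_range_succ']
  simp only [pow_zero]
  have : ∀ i ∈ Finset.range k,
      (((((k + 1 : ℕ) : ℤ)) ^ (k + 1) ^ m) ^ (i + 1)) ≡ 0 [ZMOD ((k + 1 : ℕ) : ℤ)] := by
    intro i _
    rw [Int.modEq_zero_iff_dvd, ← pow_mul]
    exact dvd_pow_self _ (Nat.mul_ne_zero (pow_ne_zero _ (Nat.succ_ne_zero k)) (Nat.succ_ne_zero i))
  have hsum : (∑ i ∈ Finset.range k, ((((k + 1 : ℕ) : ℤ)) ^ (k + 1) ^ m) ^ (i + 1))
      ≡ 0 [ZMOD ((k + 1 : ℕ) : ℤ)] := by
    rw [Int.modEq_zero_iff_dvd]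
    exact Finset.dvd_sum fun i hi => (Int.modEq_zero_iff_dvd.1 (this i hi))
  simpa using hsum.add_right 1

/-- **Zsigmondy-lite.** For a prime `p` and `n ≥ 1` there is a prime `ℓ ≠ p` such that the
multiplicative order of `p` modulo `ℓ` is exactly `p ^ n`. -/
theorem exists_prime_orderOf_eq_prime_pow (p : ℕ) (hp : p.Prime) (n : ℕ) (hn : 1 ≤ n) :
    ∃ ℓ : ℕ, ℓ.Prime ∧ ℓ ≠ p ∧ orderOf ((p : ZMod ℓ)) = p ^ n := by
  obtain ⟨m, rfl⟩ : ∃ m, n = m + 1 := ⟨n - 1, by omega⟩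
  have hk1 : 1 < p ^ (m + 1) := Nat.one_lt_pow (Nat.succ_ne_zero m) hp.one_lt
  have hgt : 1 < (eval (p : ℤ) (cyclotomic (p ^ (m + 1)) ℤ)).natAbs := by
    calc
      1 ≤ p - 1 := le_tsub_of_add_le_left hp.two_le
      _ < (eval (p : ℤ) (cyclotomic (p ^ (m + 1)) ℤ)).natAbs :=
        sub_one_lt_natAbs_cyclotomic_eval hk1 hp.one_lt.ne'
  set ℓ := minFac (eval (p : ℤ) (cyclotomic (p ^ (m + 1)) ℤ)).natAbs with hℓ
  have hprime : Fact ℓ.Prime := ⟨minFac_prime hgt.ne'⟩
  have hdvd : (ℓ : ℤ) ∣ eval (p : ℤ) (cyclotomic (p ^ (m + 1)) ℤ) := by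
    apply Int.dvd_natAbs.1
    exact mod_cast minFac_dvd (eval (p : ℤ) (cyclotomic (p ^ (m + 1)) ℤ)).natAbs
  have hne : ℓ ≠ p := by
    intro h
    have h1 := cyclotomic_prime_pow_eval_self_modEq_one p hp m
    rw [h] at hdvd
    have h0 : eval (p : ℤ) (cyclotomic (p ^ (m + 1)) ℤ) ≡ 0 [ZMOD (p : ℤ)] :=
      Int.modEq_zero_iff_dvd.2 hdvd
    have h10 : (1 : ℤ) ≡ 0 [ZMOD (p : ℤ)] := h1.symm.trans h0
    have : (p : ℤ) ∣ 1 := Int.modEq_zero_iff_dvd.1 h10
    have hp1 : p ∣ 1 := by exact_mod_cast this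
    exact hp.one_lt.ne' (Nat.dvd_one.1 hp1)
  have hroot : IsRoot (cyclotomic (p ^ (m + 1)) (ZMod ℓ)) ((p : ℕ) : ZMod ℓ) := by
    have : (((p : ℕ) : ℤ) : ZMod ℓ) = ↑(Int.castRingHom (ZMod ℓ) (p : ℤ)) := by simp
    rw [IsRoot.def, ← map_cyclotomic_int (p ^ (m + 1)) (ZMod ℓ), eval_map,
      ← Int.cast_natCast, this, eval₂_hom, Int.coe_castRingHom,
      ZMod.intCast_zmod_eq_zero_iff_dvd]
    exact hdvd
  have hnz : NeZero ((p ^ (m + 1) : ℕ) : ZMod ℓ) := by
    refine NeZero.of_not_dvd (ZMod ℓ) fun hdiv => hne ?_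
    exact (Nat.prime_dvd_prime_iff_eq hprime.1 hp).1 (hprime.1.dvd_of_dvd_pow hdiv)
  refine ⟨ℓ, hprime.1, hne, ?_⟩
  exact ((isRoot_cyclotomic_iff.mp hroot).eq_orderOf).symm

/-- Consequence: such an `ℓ` satisfies `ℓ ≡ 1 mod p ^ n`. -/
theorem exists_prime_orderOf_eq_prime_pow' (p : ℕ) (hp : p.Prime) (n : ℕ) (hn : 1 ≤ n) :
    ∃ ℓ : ℕ, ℓ.Prime ∧ ℓ ≠ p ∧ orderOf ((p : ZMod ℓ)) = p ^ n ∧ p ^ n ∣ ℓ - 1 := by
  obtain ⟨ℓ, hℓ, hne, hord⟩ := exists_prime_orderOf_eq_prime_pow p hp n hn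
  have : Fact ℓ.Prime := ⟨hℓ⟩
  refine ⟨ℓ, hℓ, hne, hord, ?_⟩
  have hpl : ¬ ℓ ∣ p := fun h => hne ((Nat.prime_dvd_prime_iff_eq hℓ hp).1 h)
  have hdiv : orderOf ((p : ZMod ℓ)) ∣ ℓ - 1 :=
    ZMod.orderOf_dvd_card_sub_one (mt (CharP.cast_eq_zero_iff _ _ _).1 hpl)
  rwa [hord] at hdiv

/-- There are infinitely many such primes as `n` varies: for every bound `B` there are `n` and
a prime `ℓ > B`, `ℓ ≠ p`, with `orderOf (p : ZMod ℓ) = p ^ n` and `n ≥ n₀`. -/
theorem exists_prime_gt_orderOf_eq_prime_pow (p : ℕ) (hp : p.Prime) (n₀ B : ℕ) :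
    ∃ n ℓ : ℕ, n₀ ≤ n ∧ ℓ.Prime ∧ ℓ ≠ p ∧ B < ℓ ∧ orderOf ((p : ZMod ℓ)) = p ^ n := by
  -- `ℓ ≡ 1 mod p ^ n` forces `ℓ > p ^ n ≥ 2 ^ n > n`
  obtain ⟨ℓ, hℓ, hne, hord, hdvd⟩ :=
    exists_prime_orderOf_eq_prime_pow' p hp (max n₀ B + 1) (by omega)
  refine ⟨max n₀ B + 1, ℓ, by omega, hℓ, hne, ?_, hord⟩
  have h1 : p ^ (max n₀ B + 1) ≤ ℓ - 1 :=
    Nat.le_of_dvd (by have := hℓ.two_le; omega) hdvd
  have h2 : max n₀ B + 1 < p ^ (max n₀ B + 1) := Nat.lt_pow_self hp.one_lt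
  omega

end Fermat.Agent.S55.G.Rec.H897

end
-- ===== PACK-END S55/G/Rec/ZsigmondyH897.lean

-- ===== PACK-BEGIN S55/G/Rec/SCH174/Inner.lean
section


/-!
# S55 / G / REC, leaf SC (helper174) : inner automorphisms act trivially on `H²` (cochain level)

For a `2`-cocycle `c` of a group `G` with values in a representation `A` and `u : G`, the
conjugated cocycle `c^u (s, t) = u⁻¹ • c (u s u⁻¹, u t u⁻¹)` is cohomologous to `c`, with the
EXPLICIT primitive `innerH A u c : s ↦ u⁻¹ • (c (u s u⁻¹, u) - c (u, s))`.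
-/

set_option autoImplicit false

namespace Fermat.Agent.S55.G.Rec.H174

open groupCohomology

universe v

variable {k G : Type v} [CommRing k] [Group G] (A : Rep k G)

/-- The explicit homotopy for the inner automorphism `u`. -/
def innerH (u : G) (c : G × G → A) : G → A :=
  fun s => A.ρ u⁻¹ (c (u * s * u⁻¹, u) - c (u, s))

lemma innerH_apply (u : G) (c : G × G → A) (s : G) :
    innerH A u c s = A.ρ u⁻¹ (c (u * s * u⁻¹, u) - c (u, s)) := rfl

/-- `c^u = c + d (innerH u c)`. -/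
theorem conj_cocycle_eq (u : G) {c : G × G → A} (hc : c ∈ cocycles₂ A) (s t : G) :
    A.ρ u⁻¹ (c (u * s * u⁻¹, u * t * u⁻¹)) =
      c (s, t) + (d₁₂ A).hom (innerH A u c) (s, t) := by
  have hcoc := (mem_cocycles₂_iff c).1 hc
  have I1 := hcoc u s t
  have I2 := hcoc (u * s * u⁻¹) u t
  have I3 := hcoc (u * s * u⁻¹) (u * t * u⁻¹) u
  have e1 : u * s * u⁻¹ * u = u * s := by group
  have e2 : u * t * u⁻¹ * u = u * t := by group
  have e3 : u * s * u⁻¹ * (u * t * u⁻¹) = u * (s * t) * u⁻¹ := by group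
  rw [e1] at I2
  rw [e2, e3] at I3
  -- rewrite everything as `ρ u⁻¹` of something
  have hρ : ∀ x : A, A.ρ s (A.ρ u⁻¹ x) = A.ρ u⁻¹ (A.ρ (u * s * u⁻¹) x) := by
    intro x
    rw [← Module.End.mul_apply, ← Module.End.mul_apply, ← map_mul, ← map_mul]
    congr 2
    group
  have hid : ∀ x : A, x = A.ρ u⁻¹ (A.ρ u x) := by
    intro x
    rw [← Module.End.mul_apply, ← map_mul, inv_mul_cancel, map_one, Module.End.one_apply]
  rw [d₁₂_hom_apply]
  simp only [innerH_apply]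
  rw [hρ, hid (c (s, t)), ← map_sub, ← map_add, ← map_add]
  congr 1
  -- now a linear identity in `A`
  have I1' : A.ρ u (c (s, t)) = c (u * s, t) + c (u, s) - c (u, s * t) :=
    eq_sub_of_add_eq I1.symm
  have I2' : A.ρ (u * s * u⁻¹) (c (u, t)) =
      c (u * s, t) + c (u * s * u⁻¹, u) - c (u * s * u⁻¹, u * t) :=
    eq_sub_of_add_eq I2.symm
  have I3' : A.ρ (u * s * u⁻¹) (c (u * t * u⁻¹, u)) =
      c (u * (s * t) * u⁻¹, u) + c (u * s * u⁻¹, u * t * u⁻¹) - c (u * s * u⁻¹, u * t) :=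
    eq_sub_of_add_eq I3.symm
  rw [map_sub, I1', I2', I3']
  abel

end Fermat.Agent.S55.G.Rec.H174

end
-- ===== PACK-END S55/G/Rec/SCH174/Inner.lean

-- ===== PACK-BEGIN S55/G/Rec/SCH174/Torsion.lean
section


/-!
# S55 / G / REC, leaf SC (helper174) : solving `j · w / n = ξ` in `ℚ/ℤ`

`exists_zsmul_eq` : if `ξ ∈ ℚ/ℤ` is killed by `p ^ k`, `t ∈ ℤ/p^M` has additive order `p ^ N` and
`p ^ (a + 1) ∤ f` with `a + k ≤ N`, then `ξ = j · (f • t).val / p ^ M` for some `j : ℤ`.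
-/

set_option autoImplicit false
set_option linter.style.haveILetI false

namespace Fermat.Agent.S55.G.Rec.H174

local instance fact_zero_lt_one_rat : Fact ((0 : ℚ) < 1) := ⟨one_pos⟩

/-- The additive order of `w.val / n` in `ℚ/ℤ` is the additive order of `w` in `ℤ/n`. -/
theorem addOrderOf_val_div (n : ℕ) [NeZero n] (w : ZMod n) :
    addOrderOf ((((w.val : ℚ) / (n : ℚ) * 1 : ℚ)) : AddCircle (1 : ℚ)) = addOrderOf w := by
  have hn : 0 < n := Nat.pos_of_ne_zero (NeZero.ne n)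
  have h1 := AddCircle.gcd_mul_addOrderOf_div_eq (1 : ℚ) w.val hn
  have h2 : addOrderOf w = n / n.gcd w.val := by
    conv_lhs => rw [← ZMod.natCast_zmod_val w]
    exact ZMod.addOrderOf_coe w.val (NeZero.ne n)
  rw [h2]
  have hg : 0 < w.val.gcd n := Nat.gcd_pos_of_pos_right _ hn
  rw [Nat.gcd_comm n]
  exact (Nat.div_eq_of_eq_mul_right hg h1.symm).symm

/-- Solving `j • θ = ξ` when `ξ` is killed by the order of `θ`, a prime power. -/
theorem exists_zsmul_eq_of_addOrderOf {p b : ℕ} (hp : p.Prime) {θ ξ : AddCircle (1 : ℚ)}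
    (hθ : addOrderOf θ = p ^ b) (hξ : p ^ b • ξ = 0) : ∃ j : ℤ, j • θ = ξ := by
  have hpos : 0 < p ^ b := pow_pos hp.pos b
  obtain ⟨m₁, -, h1⟩ := (AddCircle.nsmul_eq_zero_iff hpos).1 hξ
  obtain ⟨m₂, -, hcop, h2⟩ := (AddCircle.addOrderOf_eq_pos_iff hpos).1 hθ
  -- invert `m₂` modulo `p ^ b`
  let u : (ZMod (p ^ b))ˣ := ZMod.unitOfCoprime m₂ hcop
  haveI : NeZero (p ^ b) := ⟨hpos.ne'⟩
  let j : ℕ := ((m₁ : ZMod (p ^ b)) * ((u⁻¹ : (ZMod (p ^ b))ˣ) : ZMod (p ^ b))).val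
  have hj : ((j * m₂ : ℕ) : ZMod (p ^ b)) = (m₁ : ZMod (p ^ b)) := by
    push_cast
    rw [ZMod.natCast_zmod_val, mul_assoc]
    have : ((u⁻¹ : (ZMod (p ^ b))ˣ) : ZMod (p ^ b)) * (m₂ : ZMod (p ^ b)) = 1 := by
      rw [← ZMod.coe_unitOfCoprime m₂ hcop]
      exact Units.inv_mul u
    rw [this, mul_one]
  have hdvd : ((p ^ b : ℕ) : ℤ) ∣ ((j * m₂ : ℕ) : ℤ) - (m₁ : ℤ) := by
    have := (ZMod.natCast_eq_natCast_iff _ _ _).1 hj
    exact (Nat.modEq_iff_dvd.1 this.symm)
  obtain ⟨z, hz⟩ := hdvd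
  refine ⟨(j : ℤ), ?_⟩
  rw [← h2, ← h1, ← AddCircle.coe_zsmul, ← sub_eq_zero, ← AddCircle.coe_sub,
    AddCircle.coe_eq_zero_iff]
  refine ⟨z, ?_⟩
  have hq : ((p ^ b : ℕ) : ℚ) ≠ 0 := Nat.cast_ne_zero.2 hpos.ne'
  have hz' : ((j : ℚ) * (m₂ : ℚ)) - (m₁ : ℚ) = ((p ^ b : ℕ) : ℚ) * (z : ℚ) := by
    have := congrArg (fun t : ℤ => (t : ℚ)) hz
    simpa using this
  rw [zsmul_eq_mul, zsmul_eq_mul, mul_one, mul_one, mul_one]
  field_simp
  push_cast at hz' ⊢
  linarith

/-- Solving `j · w.val / n = ξ` in `ℚ/ℤ`. -/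
theorem exists_int_mul_val_div_eq (n : ℕ) [NeZero n] {p b k : ℕ} (hp : p.Prime) (w : ZMod n)
    (hw : addOrderOf w = p ^ b) (hkb : k ≤ b) {ξ : AddCircle (1 : ℚ)} (hξ : p ^ k • ξ = 0) :
    ∃ j : ℤ, ((((j : ℚ) * (w.val : ℚ) / (n : ℚ) : ℚ)) : AddCircle (1 : ℚ)) = ξ := by
  have hθ : addOrderOf ((((w.val : ℚ) / (n : ℚ) * 1 : ℚ)) : AddCircle (1 : ℚ)) = p ^ b := by
    rw [addOrderOf_val_div, hw]
  have hξ' : p ^ b • ξ = 0 := by
    obtain ⟨c, rfl⟩ := Nat.exists_eq_add_of_le hkb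
    rw [pow_add, mul_comm, mul_smul, hξ, smul_zero]
  obtain ⟨j, hj⟩ := exists_zsmul_eq_of_addOrderOf hp hθ hξ'
  refine ⟨j, ?_⟩
  rw [← hj, ← AddCircle.coe_zsmul]
  congr 1
  rw [zsmul_eq_mul, mul_one, mul_div_assoc]

/-- The order of a multiple of an element of prime power order. -/
theorem addOrderOf_nsmul_prime_pow {A : Type*} [AddGroup A] {p N k f : ℕ} (hp : p.Prime)
    {t : A} (ht : addOrderOf t = p ^ N) (hf0 : f ≠ 0) (hf : padicValNat p f + k ≤ N) :
    ∃ b, k ≤ b ∧ addOrderOf (f • t) = p ^ b := by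
  haveI : Fact p.Prime := ⟨hp⟩
  have h1 : addOrderOf (f • t) = addOrderOf t / (addOrderOf t).gcd f :=
    addOrderOf_nsmul' t hf0
  rw [ht] at h1
  obtain ⟨a, haN, ha⟩ := (Nat.dvd_prime_pow hp).1 (Nat.gcd_dvd_left (p ^ N) f)
  have ha2 : p ^ a ∣ f := ha ▸ Nat.gcd_dvd_right (p ^ N) f
  have ha3 : a ≤ padicValNat p f := (padicValNat_dvd_iff_le hf0).1 ha2
  refine ⟨N - a, by omega, ?_⟩
  rw [h1, ha, Nat.pow_div haN hp.pos]

end Fermat.Agent.S55.G.Rec.H174

end
-- ===== PACK-END S55/G/Rec/SCH174/Torsion.lean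

-- ===== PACK-BEGIN S55/G/Rec/H541/Core.lean
section


/-!
# S55 / layer G / block REC — leaf `REC-Ltame` (helper541), part 1: pure algebra

Mathlib-only.  Contents:

* `core_identity_int`: the exponent bookkeeping behind the skew-symmetry of the Kummer symbol;
* `cexp σ hσ g`: the exponent `k < orderOf σ` with `σ ^ k = g` in a finite group generated by `σ`,
  with `cexp_mul : cexp (g * h) = (cexp g + cexp h) % orderOf σ`;
* `kummer_sum_mem_coboundaries`: for a `G`-module `A` (written additively) containing `ζ, α, β`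
  with `n • ζ = 0`, `g ζ = ζ`, `g α = α + (s * i g) • ζ`, `g β = β + (t * j g) • ζ`
  (`i, j : G → ℕ` "logarithms" of characters of orders `d, d'`), the 2-cochain
  `(g, h) ↦ (m * carry_i (g, h)) • (n • β) + (m' * carry_j (g, h)) • (n • α)`
  (`n * m = s * d`, `n * m' = t * d'`) is the coboundary of the explicit 1-cochain
  `g ↦ (t * j g) • α + (s * i g) • β + (s * t * i g * j g) • ζ`.
  Multiplicatively: `x(g) = α^{t j(g)} β^{s i(g)} ζ^{s t i(g) j(g)}`.
-/

set_option autoImplicit false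

namespace Fermat.Agent.S55.G.Rec.H541

open groupCohomology

/-- Exponent bookkeeping for `kummer_sum_mem_coboundaries` (integer form). -/
theorem core_identity_int {A : Type*} [AddCommGroup A]
    (ζ α β : A) (n d d' s t m m' I I' I'' J J' J'' e e' : ℤ)
    (hζ : n • ζ = 0) (hi : I'' + d * e = I + I') (hj : J'' + d' * e' = J + J')
    (hm : n * m = s * d) (hm' : n * m' = t * d') :
    (t * J') • (α + (s * I) • ζ) + (s * I') • (β + (t * J) • ζ) + (s * t * I' * J') • ζ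
      - ((t * J'') • α + (s * I'') • β + (s * t * I'' * J'') • ζ)
      + ((t * J) • α + (s * I) • β + (s * t * I * J) • ζ)
    = (m * e) • (n • β) + (m' * e') • (n • α) := by
  obtain rfl : I' = I'' + d * e - I := by linarith
  obtain rfl : J' = J'' + d' * e' - J := by linarith
  linear_combination (norm := module)
    (m * e * t * J'' + m' * e' * s * I'' + n * m * m' * e * e') • hζ
      + (-e' * hm') • α + (-e * hm) • β
      + (-(e * t * J'') * hm - (e' * s * I'') * hm' - (e * e' * s * d) * hm'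
          - (e * e' * n * m') * hm) • ζ

/-- Exponent bookkeeping for `kummer_sum_mem_coboundaries` (natural number form). -/
theorem core_identity_nat {A : Type*} [AddCommGroup A]
    (ζ α β : A) (n d d' s t m m' I I' I'' J J' J'' e e' : ℕ)
    (hζ : n • ζ = 0) (hi : I'' + d * e = I + I') (hj : J'' + d' * e' = J + J')
    (hm : n * m = s * d) (hm' : n * m' = t * d') :
    (t * J') • (α + (s * I) • ζ) + (s * I') • (β + (t * J) • ζ) + (s * t * I' * J') • ζ
      - ((t * J'') • α + (s * I'') • β + (s * t * I'' * J'') • ζ)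
      + ((t * J) • α + (s * I) • β + (s * t * I * J) • ζ)
    = (m * e) • (n • β) + (m' * e') • (n • α) := by
  have h := core_identity_int ζ α β (n : ℤ) d d' s t m m' I I' I'' J J' J'' e e'
    (by rw [natCast_zsmul]; exact hζ) (by exact_mod_cast hi) (by exact_mod_cast hj)
    (by exact_mod_cast hm) (by exact_mod_cast hm')
  simp only [← Nat.cast_mul, natCast_zsmul] at h
  exact h

section CycExp

variable {G : Type*} [Group G] [Finite G]

theorem exists_pow_lt_orderOf (σ g : G) (h : g ∈ Subgroup.zpowers σ) :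
    ∃ k, k < orderOf σ ∧ σ ^ k = g := by
  obtain ⟨z, rfl⟩ := Subgroup.mem_zpowers_iff.1 h
  have hpos : (0 : ℤ) < orderOf σ := by exact_mod_cast orderOf_pos σ
  refine ⟨(z % (orderOf σ : ℤ)).toNat, ?_, ?_⟩
  · have h1 := Int.emod_lt_of_pos z hpos
    have h0 := Int.emod_nonneg z hpos.ne'
    omega
  · rw [← zpow_natCast, Int.toNat_of_nonneg (Int.emod_nonneg z hpos.ne'), zpow_mod_orderOf]

/-- The exponent `k < orderOf σ` with `σ ^ k = g`, in a finite group generated by `σ`. -/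
noncomputable def cexp (σ : G) (hσ : ∀ g, g ∈ Subgroup.zpowers σ) (g : G) : ℕ :=
  (exists_pow_lt_orderOf σ g (hσ g)).choose

theorem cexp_lt (σ : G) (hσ : ∀ g, g ∈ Subgroup.zpowers σ) (g : G) :
    cexp σ hσ g < orderOf σ :=
  (exists_pow_lt_orderOf σ g (hσ g)).choose_spec.1

theorem pow_cexp (σ : G) (hσ : ∀ g, g ∈ Subgroup.zpowers σ) (g : G) :
    σ ^ cexp σ hσ g = g :=
  (exists_pow_lt_orderOf σ g (hσ g)).choose_spec.2

theorem cexp_eq_of_pow_eq (σ : G) (hσ : ∀ g, g ∈ Subgroup.zpowers σ) (g : G) (k : ℕ)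
    (hk : k < orderOf σ) (h : σ ^ k = g) : cexp σ hσ g = k := by
  have h1 : σ ^ cexp σ hσ g = σ ^ k := by rw [pow_cexp, h]
  have h2 := pow_eq_pow_iff_modEq.1 h1
  exact (Nat.ModEq.eq_of_lt_of_lt h2 (cexp_lt σ hσ g) hk)

theorem cexp_pow (σ : G) (hσ : ∀ g, g ∈ Subgroup.zpowers σ) (k : ℕ) (hk : k < orderOf σ) :
    cexp σ hσ (σ ^ k) = k :=
  cexp_eq_of_pow_eq σ hσ _ k hk rfl

theorem cexp_mul (σ : G) (hσ : ∀ g, g ∈ Subgroup.zpowers σ) (g h : G) :
    cexp σ hσ (g * h) = (cexp σ hσ g + cexp σ hσ h) % orderOf σ := by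
  apply cexp_eq_of_pow_eq
  · exact Nat.mod_lt _ (orderOf_pos σ)
  · rw [pow_mod_orderOf, pow_add, pow_cexp, pow_cexp]

theorem cexp_add_div_le_one (σ : G) (hσ : ∀ g, g ∈ Subgroup.zpowers σ) (g h : G) :
    (cexp σ hσ g + cexp σ hσ h) / orderOf σ ≤ 1 := by
  have h1 := cexp_lt σ hσ g
  have h2 := cexp_lt σ hσ h
  have : (cexp σ hσ g + cexp σ hσ h) / orderOf σ < 2 := by
    rw [Nat.div_lt_iff_lt_mul (orderOf_pos σ)]
    omega
  omega

end CycExp

section RepLevel

variable {G : Type} [Group G]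

/-- **Explicit coboundary** behind the skew-symmetry of the Kummer symbol. -/
theorem kummer_sum_mem_coboundaries (A : Rep.{0} ℤ G)
    (ζ α β : A.V) (n d d' s t m m' : ℕ) (i j : G → ℕ)
    (hζn : n • ζ = 0)
    (hα : ∀ g, A.ρ g α = α + (s * i g) • ζ) (hβ : ∀ g, A.ρ g β = β + (t * j g) • ζ)
    (hζ : ∀ g, A.ρ g ζ = ζ)
    (hi : ∀ g h, i (g * h) + d * ((i g + i h) / d) = i g + i h)
    (hj : ∀ g h, j (g * h) + d' * ((j g + j h) / d') = j g + j h)
    (hm : n * m = s * d) (hm' : n * m' = t * d')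
    (F : G × G → A.V)
    (hF : ∀ g h, F (g, h) =
      (m * ((i g + i h) / d)) • (n • β) + (m' * ((j g + j h) / d')) • (n • α)) :
    F ∈ coboundaries₂ A := by
  refine ⟨fun g => (t * j g) • α + (s * i g) • β + (s * t * i g * j g) • ζ, ?_⟩
  funext ⟨g, h⟩
  rw [hF]
  simp only [d₁₂_hom_apply, map_add, map_nsmul, hα, hβ, hζ]
  exact core_identity_nat ζ α β n d d' s t m m' (i g) (i h) (i (g * h)) (j g) (j h) (j (g * h))
    _ _ hζn (hi g h) (hj g h) hm hm'

end RepLevel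

end Fermat.Agent.S55.G.Rec.H541

end
-- ===== PACK-END S55/G/Rec/H541/Core.lean

-- ===== PACK-BEGIN S55/Cap/H123/CoindShapiro.lean
section


/-!
# S55 / A8 (CAP), leaf J1: Shapiro for smooth coinduction in degree 1 (cochain form)  (helper123)

Abstract group theory.  `loc : D → Γ` a homomorphism, `Ω` a `D`-module, `U'' ≤ U` normal
subgroups of `Γ`.  A family `ψ u : Γ → Ω` (`u ∈ U`) of `loc`-equivariant functions which is a
1-cocycle for right translation and is right-invariant under `U''` (in `u`) is a coboundary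
`ψ u γ = x (γ u) - x γ` of a `loc`-equivariant, right-`U''`-invariant function `x`, provided
Hilbert 90 holds for `loc⁻¹ U / loc⁻¹ U''` acting on `Ω`.
-/

set_option autoImplicit false
set_option linter.unusedSectionVars false
set_option linter.unusedVariables false

noncomputable section

namespace Fermat.Agent.S55.Cap.H123

variable {Γ D Ω : Type} [Group Γ] [Group D] [AddCommGroup Ω] [DistribMulAction D Ω]
  (loc : D →* Γ) (U U'' : Subgroup Γ)

/-- the double coset relation `γ' = loc d * γ * u` -/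
def dcSetoid : Setoid Γ where
  r γ γ' := ∃ (d : D) (u : Γ), u ∈ U ∧ γ' = loc d * γ * u
  iseqv := by
    refine ⟨fun γ => ⟨1, 1, U.one_mem, by rw [map_one, one_mul, mul_one]⟩, ?_, ?_⟩
    · rintro γ γ' ⟨d, u, hu, rfl⟩
      refine ⟨d⁻¹, u⁻¹, U.inv_mem hu, ?_⟩
      rw [map_inv]
      group
    · rintro γ γ' γ'' ⟨d, u, hu, rfl⟩ ⟨d', u', hu', rfl⟩
      refine ⟨d' * d, u * u', U.mul_mem hu hu', ?_⟩
      rw [map_mul]
      group

/-- the chosen representative of the double coset of `γ` -/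
def dcRep (γ : Γ) : Γ := @Quotient.out _ (dcSetoid loc U) (@Quotient.mk _ (dcSetoid loc U) γ)

lemma dcRep_spec (γ : Γ) : ∃ (d : D) (u : Γ), u ∈ U ∧ γ = loc d * dcRep loc U γ * u := by
  have h : @Quotient.mk _ (dcSetoid loc U) (dcRep loc U γ) = @Quotient.mk _ (dcSetoid loc U) γ :=
    @Quotient.out_eq _ (dcSetoid loc U) _
  exact @Quotient.exact _ (dcSetoid loc U) _ _ h

lemma dcRep_eq (γ : Γ) (d : D) (u : Γ) (hu : u ∈ U) :
    dcRep loc U (loc d * γ * u) = dcRep loc U γ := by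
  unfold dcRep
  congr 1
  apply @Quotient.sound _ (dcSetoid loc U)
  refine ⟨d⁻¹, u⁻¹, U.inv_mem hu, ?_⟩
  rw [map_inv]
  group

variable [hUn : U.Normal] [hUn'' : U''.Normal]

/-- **Shapiro for smooth coinduction in degree 1** (cochain form). -/
theorem coind_shapiro₁ (hle : U'' ≤ U) (ψ : Γ → Γ → Ω)
    (ha : ∀ u ∈ U, ∀ (d : D) (γ : Γ), ψ u (loc d * γ) = d • ψ u γ)
    (hb : ∀ u ∈ U, ∀ u' ∈ U, ∀ γ : Γ, ψ (u * u') γ = ψ u γ + ψ u' (γ * u))
    (hc : ∀ u ∈ U, ∀ w ∈ U'', ∀ γ : Γ, ψ (u * w) γ = ψ u γ)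
    (H90 : ∀ θ : D → Ω,
      (∀ δ ∈ U.comap loc, ∀ δ' ∈ U.comap loc, θ (δ * δ') = θ δ + δ • θ δ') →
      (∀ δ ∈ U.comap loc, ∀ w ∈ U''.comap loc, θ (δ * w) = θ δ) →
      ∃ c : Ω, ∀ δ ∈ U.comap loc, θ δ = δ • c - c) :
    ∃ x : Γ → Ω, (∀ (d : D) (γ : Γ), x (loc d * γ) = d • x γ) ∧
      (∀ w ∈ U'', ∀ γ : Γ, x (γ * w) = x γ) ∧
      (∀ u ∈ U, ∀ γ : Γ, ψ u γ = x (γ * u) - x γ) := by
  classical
  -- conjugates
  have hconj : ∀ (g : Γ) (δ : D), δ ∈ U.comap loc → g⁻¹ * loc δ * g ∈ U := by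
    intro g δ hδ
    have := hUn.conj_mem (loc δ) hδ g⁻¹
    rwa [inv_inv] at this
  have hconj'' : ∀ (g : Γ) (δ : D), δ ∈ U''.comap loc → g⁻¹ * loc δ * g ∈ U'' := by
    intro g δ hδ
    have := hUn''.conj_mem (loc δ) hδ g⁻¹
    rwa [inv_inv] at this
  -- `ψ 1 = 0`
  have hψ1 : ∀ γ : Γ, ψ 1 γ = 0 := by
    intro γ
    have h := hb 1 U.one_mem 1 U.one_mem γ
    rw [mul_one, mul_one] at h
    have h' : ψ 1 γ + 0 = ψ 1 γ + ψ 1 γ := by rw [add_zero]; exact h
    exact (add_left_cancel h').symm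
  -- Hilbert 90 at every `g`
  have hθ : ∀ g : Γ, ∃ c : Ω, ∀ δ ∈ U.comap loc, ψ (g⁻¹ * loc δ * g) g = δ • c - c := by
    intro g
    refine H90 (fun δ => ψ (g⁻¹ * loc δ * g) g) ?_ ?_
    · intro δ hδ δ' hδ'
      show ψ (g⁻¹ * loc (δ * δ') * g) g = ψ (g⁻¹ * loc δ * g) g + δ • ψ (g⁻¹ * loc δ' * g) g
      have h1 : g⁻¹ * loc (δ * δ') * g = (g⁻¹ * loc δ * g) * (g⁻¹ * loc δ' * g) := by
        rw [map_mul]
        group
      have h2 : g * (g⁻¹ * loc δ * g) = loc δ * g := by group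
      rw [h1, hb _ (hconj g δ hδ) _ (hconj g δ' hδ') g, h2, ha _ (hconj g δ' hδ')]
    · intro δ hδ w hw
      show ψ (g⁻¹ * loc (δ * w) * g) g = ψ (g⁻¹ * loc δ * g) g
      have h1 : g⁻¹ * loc (δ * w) * g = (g⁻¹ * loc δ * g) * (g⁻¹ * loc w * g) := by
        rw [map_mul]
        group
      rw [h1, hc _ (hconj g δ hδ) _ (hconj'' g w hw) g]
  choose c hcg using hθ
  -- the consistency lemma
  have hcons : ∀ (g : Γ) (d d' : D) (u u' : Γ), u ∈ U → u' ∈ U →
      loc d * g * u = loc d' * g * u' → d • (c g + ψ u g) = d' • (c g + ψ u' g) := by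
    intro g d d' u u' hu hu' heq
    have hv : g⁻¹ * loc (d'⁻¹ * d) * g = u' * u⁻¹ := by
      have h1 : g⁻¹ * loc (d'⁻¹ * d) * g = g⁻¹ * (loc d')⁻¹ * (loc d * g * u) * u⁻¹ := by
        rw [map_mul, map_inv]
        group
      rw [h1, heq]
      group
    have hvU : u' * u⁻¹ ∈ U := U.mul_mem hu' (U.inv_mem hu)
    have hδ : d'⁻¹ * d ∈ U.comap loc := by
      show loc (d'⁻¹ * d) ∈ U
      have h1 : loc (d'⁻¹ * d) = g * (u' * u⁻¹) * g⁻¹ := by
        rw [← hv]
        group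
      rw [h1]
      exact hUn.conj_mem _ hvU g
    have hu'eq : u' = (u' * u⁻¹) * u := by group
    have h2 : g * (u' * u⁻¹) = loc (d'⁻¹ * d) * g := by
      rw [← hv]
      group
    have h3 : ψ u' g = ((d'⁻¹ * d) • c g - c g) + (d'⁻¹ * d) • ψ u g := by
      conv_lhs => rw [hu'eq]
      rw [hb _ hvU _ hu g, h2, ha _ hu, ← hv, hcg g _ hδ]
    have h4 : c g + ψ u' g = (d'⁻¹ * d) • (c g + ψ u g) := by
      rw [h3, smul_add]
      abel
    rw [h4, ← mul_smul, mul_inv_cancel_left]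
  -- the decomposition of `γ`
  choose dd uu huu hdec using dcRep_spec loc U
  let x : Γ → Ω := fun γ => dd γ • (c (dcRep loc U γ) + ψ (uu γ) (dcRep loc U γ))
  have hx : ∀ (γ : Γ) (d : D) (u : Γ), u ∈ U → γ = loc d * dcRep loc U γ * u →
      x γ = d • (c (dcRep loc U γ) + ψ u (dcRep loc U γ)) := by
    intro γ d u hu hγ
    refine hcons (dcRep loc U γ) (dd γ) d (uu γ) u (huu γ) hu ?_
    rw [← hdec γ, ← hγ]
  have hx1 : ∀ (d : D) (γ : Γ), x (loc d * γ) = d • x γ := by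
    intro d γ
    have hrep : dcRep loc U (loc d * γ) = dcRep loc U γ := by
      have := dcRep_eq loc U γ d 1 U.one_mem
      rwa [mul_one] at this
    have hγ : loc d * γ = loc (d * dd γ) * dcRep loc U (loc d * γ) * uu γ := by
      rw [hrep, map_mul]
      conv_lhs => rw [hdec γ]
      group
    rw [hx (loc d * γ) (d * dd γ) (uu γ) (huu γ) hγ, hrep, mul_smul]
  have hx3 : ∀ u ∈ U, ∀ γ : Γ, ψ u γ = x (γ * u) - x γ := by
    intro u hu γ
    have hrep : dcRep loc U (γ * u) = dcRep loc U γ := by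
      have := dcRep_eq loc U γ 1 u hu
      rwa [map_one, one_mul] at this
    have hγ : γ * u = loc (dd γ) * dcRep loc U (γ * u) * (uu γ * u) := by
      rw [hrep]
      conv_lhs => rw [hdec γ]
      group
    rw [hx (γ * u) (dd γ) (uu γ * u) (U.mul_mem (huu γ) hu) hγ, hrep,
      hb _ (huu γ) _ hu (dcRep loc U γ)]
    show ψ u γ = dd γ • (c (dcRep loc U γ) + (ψ (uu γ) (dcRep loc U γ)
      + ψ u (dcRep loc U γ * uu γ))) - dd γ • (c (dcRep loc U γ) + ψ (uu γ) (dcRep loc U γ))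
    rw [← smul_sub]
    have h1 : c (dcRep loc U γ) + (ψ (uu γ) (dcRep loc U γ) + ψ u (dcRep loc U γ * uu γ))
        - (c (dcRep loc U γ) + ψ (uu γ) (dcRep loc U γ)) = ψ u (dcRep loc U γ * uu γ) := by
      abel
    rw [h1, ← ha _ hu, ← mul_assoc, ← hdec γ]
  refine ⟨x, hx1, ?_, hx3⟩
  intro w hw γ
  have h1 := hx3 w (hle hw) γ
  have h2 : ψ w γ = 0 := by
    have := hc 1 U.one_mem w hw γ
    rw [one_mul] at this
    rw [this, hψ1]
  rw [h2] at h1
  exact (sub_eq_zero.1 h1.symm)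

end Fermat.Agent.S55.Cap.H123

end
end
-- ===== PACK-END S55/Cap/H123/CoindShapiro.lean

-- ===== PACK-BEGIN S56/Euler/IndDefs.lean
section


/-!
# Row S56 / wall W-BASE / Euler characteristic — leaf IND: definitions (helper366)

Modular Artin induction for additive invariants of finite-dimensional representations of a finite
group over `ZMod p`.  Plan: `coord/S56-EULER-helper366.md` (§2).  Mathlib only.

* `FDRepData k G`   — a finite-dimensional representation of `G` over `k` on a module in `Type`.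
* `RepInv k G`      — `ℤ`-valued invariants of such representations.
* `IsAdditiveInv f` — `f B = f A + f C` for every short exact sequence `0 → A → B → C → 0`.
* `permData B N`    — `k[G/B] ⊗ N = (G ⧸ B →₀ N)` with the diagonal action
                      (`single x n ↦ single (g • x) (g n)`; the `indRep` of S55 layer D).
* `IsPRegular p g`  — the order of `g` is prime to `p`.
-/

set_option autoImplicit false

noncomputable section

namespace Fermat.Agent.S56.Euler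

/-- A finite-dimensional representation of `G` over `k`, bundled (carrier in `Type`). -/
structure FDRepData (k G : Type) [Field k] [Group G] where
  /-- the carrier -/
  V : Type
  [acg : AddCommGroup V]
  [mod : Module k V]
  [fin : Module.Finite k V]
  /-- the action -/
  ρ : Representation k G V

attribute [instance] FDRepData.acg FDRepData.mod FDRepData.fin

variable {k G : Type} [Field k] [Group G]

/-- `ℤ`-valued invariants of finite-dimensional representations. -/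
abbrev RepInv (k G : Type) [Field k] [Group G] : Type 1 := FDRepData k G → ℤ

/-- `i : A → B` is equivariant. -/
def IsEquivar (A B : FDRepData k G) (i : A.V →ₗ[k] B.V) : Prop :=
  ∀ g a, i (A.ρ g a) = B.ρ g (i a)

/-- `0 → A → B → C → 0` is a short exact sequence of representations. -/
structure IsShortExact (A B C : FDRepData k G) (i : A.V →ₗ[k] B.V) (q : B.V →ₗ[k] C.V) :
    Prop where
  equivar_i : IsEquivar A B i
  equivar_q : IsEquivar B C q
  inj : Function.Injective i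
  surj : Function.Surjective q
  exact : LinearMap.range i = LinearMap.ker q

/-- Additive invariants. -/
def IsAdditiveInv (f : RepInv k G) : Prop :=
  ∀ (A B C : FDRepData k G) (i : A.V →ₗ[k] B.V) (q : B.V →ₗ[k] C.V),
    IsShortExact A B C i q → f B = f A + f C

/-- Isomorphism of representations. -/
def RepIso (A B : FDRepData k G) : Prop :=
  ∃ e : A.V ≃ₗ[k] B.V, ∀ g a, e (A.ρ g a) = B.ρ g (e a)

/-- Simple (irreducible) representations. -/
def IsSimpleRep (A : FDRepData k G) : Prop :=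
  Nontrivial A.V ∧ ∀ W : Submodule k A.V, (∀ g, ∀ w ∈ W, A.ρ g w ∈ W) → W = ⊥ ∨ W = ⊤

/-- `g` has order prime to `p`. -/
def IsPRegular (p : ℕ) (g : G) : Prop := ¬ p ∣ orderOf g

/-- The operator `single x n ↦ single (σ x) (T n)` on `X →₀ N`. -/
def permTensor {X N : Type} [AddCommGroup N] [Module k N] (σ : X → X) (T : N →ₗ[k] N) :
    (X →₀ N) →ₗ[k] (X →₀ N) :=
  (Finsupp.lmapDomain N k σ) ∘ₗ (Finsupp.mapRange.linearMap T)

@[simp] lemma permTensor_single {X N : Type} [AddCommGroup N] [Module k N] (σ : X → X)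
    (T : N →ₗ[k] N) (x : X) (n : N) :
    permTensor σ T (Finsupp.single x n) = Finsupp.single (σ x) (T n) := by
  rw [permTensor, LinearMap.comp_apply, Finsupp.mapRange.linearMap_apply,
    Finsupp.mapRange_single, Finsupp.lmapDomain_apply, Finsupp.mapDomain_single]

/-- The diagonal action of `G` on `X →₀ N` for a `G`-set `X`. -/
def diagRho (X : Type) [MulAction G X] {N : Type} [AddCommGroup N] [Module k N]
    (ρ : Representation k G N) : Representation k G (X →₀ N) where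
  toFun g := permTensor (fun x : X => g • x) (ρ g)
  map_one' := by
    apply Finsupp.lhom_ext
    intro x n
    simp
  map_mul' g h := by
    apply Finsupp.lhom_ext
    intro x n
    simp [mul_smul]

@[simp] lemma diagRho_single (X : Type) [MulAction G X] {N : Type} [AddCommGroup N] [Module k N]
    (ρ : Representation k G N) (g : G) (x : X) (n : N) :
    diagRho X ρ g (Finsupp.single x n) = Finsupp.single (g • x) (ρ g n) :=
  permTensor_single _ _ x n

lemma diagRho_apply (X : Type) [MulAction G X] {N : Type} [AddCommGroup N] [Module k N]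
    (ρ : Representation k G N) (g : G) :
    diagRho X ρ g = permTensor (fun x : X => g • x) (ρ g) := rfl

/-- `k[G/B] ⊗ N` as a bundled representation (`G` finite). -/
def permData [Finite G] (B : Subgroup G) (N : FDRepData k G) : FDRepData k G where
  V := (G ⧸ B) →₀ N.V
  fin := by
    have : Fintype (G ⧸ B) := Fintype.ofFinite _
    exact Module.Finite.of_basis (Finsupp.basis (fun _ : G ⧸ B => Module.Free.chooseBasis k N.V))
  ρ := diagRho (G ⧸ B) N.ρ

end Fermat.Agent.S56.Euler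

end

end
-- ===== PACK-END S56/Euler/IndDefs.lean

-- ===== PACK-BEGIN S56/Euler/H74/ClassKill.lean
section


/-!
# S56 / W-BASE, leaf EUL-CL (helper74), part A: killing the class group (Mathlib only)

For a number field `K` there is a nonzero natural number `N` such that every finite prime `𝔭`
of `K` not containing `N` is "principal outside `N`": there is `π ∈ 𝒪_K` with
`π ∈ 𝔭 ∖ 𝔭²` and `π ∉ 𝔮` for every other prime `𝔮` not containing `N`.

(`N` = product of the absolute norms of integral representatives of the ideal classes.)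
-/

set_option autoImplicit false
set_option linter.style.haveILetI false

open NumberField IsDedekindDomain

namespace Fermat.Agent.S56.Euler.H74

/-- **Killing the class group.** -/
theorem exists_prime_generators (K : Type*) [Field K] [NumberField K] :
    ∃ N : ℕ, N ≠ 0 ∧ ∀ 𝔭 : HeightOneSpectrum (𝓞 K), (N : 𝓞 K) ∉ 𝔭.asIdeal →
      ∃ π : 𝓞 K, π ∈ 𝔭.asIdeal ∧ π ∉ 𝔭.asIdeal ^ 2 ∧
        ∀ 𝔮 : HeightOneSpectrum (𝓞 K), 𝔮 ≠ 𝔭 → (N : 𝓞 K) ∉ 𝔮.asIdeal → π ∉ 𝔮.asIdeal := by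
  classical
  letI : Fintype (ClassGroup (𝓞 K)) := Fintype.ofFinite _
  -- integral representatives of the classes
  choose rep hrep using
    (ClassGroup.mk0_surjective : Function.Surjective (ClassGroup.mk0 (R := 𝓞 K)))
  have hrep0 : ∀ C, ((rep C : nonZeroDivisors (Ideal (𝓞 K))) : Ideal (𝓞 K)) ≠ ⊥ := fun C =>
    mem_nonZeroDivisors_iff_ne_zero.1 (rep C).2
  refine ⟨∏ C : ClassGroup (𝓞 K), Ideal.absNorm ((rep C : nonZeroDivisors (Ideal (𝓞 K))) :
    Ideal (𝓞 K)), ?_, ?_⟩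
  · rw [Finset.prod_ne_zero_iff]
    intro C _ h
    exact hrep0 C (Ideal.absNorm_eq_zero_iff.1 h)
  intro 𝔭 hN
  -- a representative of the inverse class
  have h𝔭0 : 𝔭.asIdeal ∈ nonZeroDivisors (Ideal (𝓞 K)) :=
    mem_nonZeroDivisors_iff_ne_zero.2 𝔭.ne_bot
  set 𝔞 : nonZeroDivisors (Ideal (𝓞 K)) := rep (ClassGroup.mk0 ⟨𝔭.asIdeal, h𝔭0⟩)⁻¹ with h𝔞
  have h𝔞cls : ClassGroup.mk0 𝔞 = (ClassGroup.mk0 ⟨𝔭.asIdeal, h𝔭0⟩)⁻¹ := hrep _
  -- primes not containing `N` do not contain `𝔞`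
  have hnotle : ∀ 𝔮 : HeightOneSpectrum (𝓞 K),
      ((∏ C : ClassGroup (𝓞 K), Ideal.absNorm ((rep C : nonZeroDivisors (Ideal (𝓞 K))) :
        Ideal (𝓞 K)) : ℕ) : 𝓞 K) ∉ 𝔮.asIdeal → ¬ ((𝔞 : Ideal (𝓞 K)) ≤ 𝔮.asIdeal) := by
    intro 𝔮 h𝔮 hle
    apply h𝔮
    have h1 : ((Ideal.absNorm (𝔞 : Ideal (𝓞 K)) : ℕ) : 𝓞 K) ∈ 𝔮.asIdeal :=
      hle (by exact_mod_cast Ideal.absNorm_mem (𝔞 : Ideal (𝓞 K)))
    have h2 : Ideal.absNorm (𝔞 : Ideal (𝓞 K)) ∣
        ∏ C : ClassGroup (𝓞 K), Ideal.absNorm ((rep C : nonZeroDivisors (Ideal (𝓞 K))) :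
          Ideal (𝓞 K)) :=
      Finset.dvd_prod_of_mem _ (Finset.mem_univ _)
    obtain ⟨m, hm⟩ := h2
    rw [hm, Nat.cast_mul]
    exact Ideal.mul_mem_right _ _ h1
  -- the product is principal
  have hprod : (𝔭.asIdeal * (𝔞 : Ideal (𝓞 K))) ∈ nonZeroDivisors (Ideal (𝓞 K)) :=
    mul_mem h𝔭0 𝔞.2
  have hone : ClassGroup.mk0 ⟨𝔭.asIdeal * (𝔞 : Ideal (𝓞 K)), hprod⟩ = 1 := by
    have : (⟨𝔭.asIdeal * (𝔞 : Ideal (𝓞 K)), hprod⟩ : nonZeroDivisors (Ideal (𝓞 K)))
        = ⟨𝔭.asIdeal, h𝔭0⟩ * 𝔞 := rfl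
    rw [this, map_mul, h𝔞cls, mul_inv_cancel]
  obtain ⟨π, hπ⟩ := ((ClassGroup.mk0_eq_one_iff hprod).1 hone).principal
  have hπ' : 𝔭.asIdeal * (𝔞 : Ideal (𝓞 K)) = Ideal.span {π} := hπ
  have hmem : ∀ I : Ideal (𝓞 K), π ∈ I ↔ 𝔭.asIdeal * (𝔞 : Ideal (𝓞 K)) ≤ I := by
    intro I
    rw [hπ', Ideal.span_singleton_le_iff_mem]
  refine ⟨π, ?_, ?_, ?_⟩
  · rw [hmem]
    exact Ideal.mul_le_left (I := 𝔭.asIdeal) (J := (𝔞 : Ideal (𝓞 K)))
  · intro h
    rw [hmem, ← Ideal.dvd_iff_le, pow_two] at h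
    have h2 : 𝔭.asIdeal ∣ (𝔞 : Ideal (𝓞 K)) :=
      (mul_dvd_mul_iff_left 𝔭.ne_bot).1 h
    exact hnotle 𝔭 hN (Ideal.dvd_iff_le.1 h2)
  · intro 𝔮 hne h𝔮 h
    rw [hmem, 𝔮.isPrime.mul_le] at h
    rcases h with h | h
    · apply hne
      have := 𝔭.isMaximal.eq_of_le 𝔮.isPrime.ne_top h
      exact (HeightOneSpectrum.ext this).symm
    · exact hnotle 𝔮 h𝔮 h

end Fermat.Agent.S56.Euler.H74

end
-- ===== PACK-END S56/Euler/H74/ClassKill.lean

-- ===== PACK-BEGIN S17/H140/InertiaFinite.lean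
section


/-!
# S17 / W-HM, part (1), finite level (helper140)

`ramificationIdx_under_eq_one`: let `L/ℚ` be a finite Galois extension, `K` an intermediate field
and `P` a maximal ideal of `𝓞 L`.  If the inertia group of `P` in `Gal(L/ℚ)` fixes `K` pointwise,
then the prime of `𝓞 K` below `P` has ramification index `1` over `ℤ`.

Proof: `e(P | ℤ) = #I(P | ℚ)`, `e(P | 𝓞 K) = #I(P | K) = #(I(P | ℚ) ∩ Gal(L/K)) = #I(P | ℚ)` and
`e` is multiplicative in towers.
-/

set_option autoImplicit false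

namespace Fermat.Agent.S17.H140

open NumberField Ideal

/-- If the inertia group of `P` fixes the intermediate field `K`, then the prime of `K` below `P`
is unramified over `ℤ`. -/
theorem ramificationIdx_under_eq_one (L : Type*) [Field L] [NumberField L] [IsGalois ℚ L]
    (K : IntermediateField ℚ L) (P : Ideal (𝓞 L)) [P.IsMaximal]
    (h : ∀ σ ∈ Ideal.inertia Gal(L/ℚ) P, ∀ a ∈ K, σ a = a) :
    (P.under (𝓞 K)).ramificationIdx ℤ = 1 := by
  classical
  let H : Subgroup Gal(L/ℚ) := fixingSubgroup Gal(L/ℚ) (K : Set L)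
  have h1 : IsGaloisGroup H K L := IsGaloisGroup.intermediateField Gal(L/ℚ) ℚ L K
  have h2 : IsGaloisGroup H (𝓞 K) (𝓞 L) := IsGaloisGroup.of_isFractionRing H (𝓞 K) (𝓞 L) K L
  have h3 := card_inertia_eq_ramificationIdxIn (G := H) (P.under (𝓞 K)) P
  have h4 := card_inertia_eq_ramificationIdxIn (G := Gal(L/ℚ)) (P.under ℤ) P
  have h5 := ramificationIdxIn_eq_ramificationIdx (P.under (𝓞 K)) P H
  have h6 := ramificationIdxIn_eq_ramificationIdx (P.under ℤ) P Gal(L/ℚ)
  have h7 := ramificationIdx_tower (R := ℤ) (P.under (𝓞 K)) P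
  have h8 := AddSubgroup.subgroupOf_inertia P.toAddSubgroup H
  have hle : Ideal.inertia Gal(L/ℚ) P ≤ H := by
    intro σ hσ
    rw [mem_fixingSubgroup_iff]
    intro a ha
    exact h σ hσ a ha
  have hcard : Nat.card (Ideal.inertia H P) = Nat.card (Ideal.inertia Gal(L/ℚ) P) := by
    have : Ideal.inertia H P = (Ideal.inertia Gal(L/ℚ) P).subgroupOf H := h8.symm
    rw [this]
    exact Nat.card_congr (Subgroup.subgroupOfEquivOfLe hle).toEquiv
  have hpos : 0 < P.ramificationIdx (𝓞 K) := Ideal.ramificationIdx_pos P (𝓞 K)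
  have heq : P.ramificationIdx ℤ = P.ramificationIdx (𝓞 K) := by
    rw [← h6, ← h4, ← hcard, h3, h5]
  rw [heq] at h7
  have : (P.under (𝓞 K)).ramificationIdx ℤ * P.ramificationIdx (𝓞 K)
      = 1 * P.ramificationIdx (𝓞 K) := by rw [one_mul]; exact h7.symm
  exact Nat.eq_of_mul_eq_mul_right hpos this

/-- Finite-level criterion: if all inertia groups above `ℓ` in `Gal(L/ℚ)` fix `K`, then
`ℓ ∤ disc K`. -/
theorem not_dvd_discr_of_inertia (L : Type*) [Field L] [NumberField L] [IsGalois ℚ L]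
    (K : IntermediateField ℚ L) (ℓ : ℕ) (hℓ : ℓ.Prime)
    (h : ∀ P : Ideal (𝓞 L), P.IsMaximal → (ℓ : 𝓞 L) ∈ P →
      ∀ σ ∈ Ideal.inertia Gal(L/ℚ) P, ∀ a ∈ K, σ a = a) :
    ¬ (ℓ : ℤ) ∣ NumberField.discr K := by
  have hp : Prime (ℓ : ℤ) := Nat.prime_iff_prime_int.mp hℓ
  rw [NumberField.not_dvd_discr_iff_forall_mem K (𝓞 K) hp]
  intro p hpP hmem
  have hp0 : p ≠ ⊥ := by
    intro h0
    rw [h0, Ideal.mem_bot] at hmem
    have : ((ℓ : ℤ) : 𝓞 K) = 0 := hmem
    have h2 : (ℓ : ℤ) = 0 := by exact_mod_cast this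
    exact hℓ.ne_zero (by exact_mod_cast h2)
  have hpmax : p.IsMaximal := hpP.isMaximal hp0
  obtain ⟨P, hPmax, hPover⟩ := Ideal.exists_maximal_ideal_liesOver_of_isIntegral (S := 𝓞 L) p
  have hℓP : (ℓ : 𝓞 L) ∈ P := by
    have h1 : algebraMap (𝓞 K) (𝓞 L) ((ℓ : ℤ) : 𝓞 K) ∈ P := by
      rw [← Ideal.mem_comap]
      have := hPover.over
      rw [Ideal.under_def] at this
      rw [← this]; exact hmem
    simpa using h1
  have key := ramificationIdx_under_eq_one L K P (h P hPmax hℓP)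
  have hunder : P.under (𝓞 K) = p := (hPover.over).symm
  rw [hunder] at key
  exact Ideal.ramificationIdx_eq_one_iff.mp key

end Fermat.Agent.S17.H140

end
-- ===== PACK-END S17/H140/InertiaFinite.lean

-- ===== PACK-BEGIN S56/H846/FLCnt/Spec.lean
section


/-!
# Row S56, wall W-FLAT-SS, piece FL-CNT: the count (C1–C4) as ABSTRACT group theory
(helper846; blueprint `coord/S56-FLATSS-helper426.md` §3 on `origin/helper426`)

Mathlib only.  Nothing unproved in this file (only `def … : Prop` and a `structure`).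

## Dictionary (what the abstract objects are in `FL.RamCountStatement`)

* `Γ`  = Galois group of `B/A`; `Z` = trace-zero endomorphisms of `V` with `ρ = Ad ρ_V`;
* `W`  = `ker ρ_V`; `c₁ c₂` = the two cocycles (only their restriction to `W` is used:
  there they are additive, `Γ`-equivariant and jointly injective);
* for a normal subgroup `N ≤ W`, `N ≤ Γ₁`: `F N n` = the `n`-th lower ramification group of `Γ`
  acting on the discrete valuation ring `B^N` (it contains `N`), `i N σ` = `i_{Γ/N}(σ N)`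
  (junk for `σ ∈ N`); `F ⊥ n = Γ_n`, `i ⊥ = i_Γ`;  `Γ₀ = F ⊥ 0`, `Γ₁ = F ⊥ 1`;
* `τ₀ ∈ Γ₀` = a generator of tame inertia, `φ` = a Frobenius lift,
  `m = ord ψ`, `ψ = χ/χ'`, `e₀ = (p - 1) m = |ρ_V(Γ₀)|`, `ψ₀ = ψ(τ₀)`;
* `ℓ₁ ℓp ℓm` = the coordinates of `Z` in the basis `E₁₁ - E₂₂, E₁₂, E₂₁` (eigenbasis of inertia).

## Who supplies which hypothesis

* FL-SS (structure of `ρ_V`): `W_index`, `coord_inj`, `tame_*`, `frob_*`, `m_dvd`, `m_odd`,
  `τ₀_mem`, `τ₀_pow`, `ψ₀_pow`, `card_inertia`;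
* FL-BR / trivial: `W_normal`, `ρ_W`, `c*_mul`, `c*_conj`, `c_inj`;
* FL-RAM (ramification groups of a DVR with group action, applied to `B^N`):
  `wild_pgroup`, `tame_no_p` (`Γ₀/Γ₁ ↪ κˣ`), `frob_comm` (`φ` induces `x ↦ x ^ p` on `κ`, so it
  commutes with everything modulo inertia), `F_normal`, `mem_F`, `F_zero`, `F_one`, `F_one'`,
  `comm_rule` (from `θ_n(τ σ τ⁻¹) = θ₀(τ)ⁿ θ_n(σ)`, `θ₀`, `θ_n` injective),
  `quot_formula` (Serre, Local Fields IV §1 Prop. 3, with `e(B/B^N) = |N|` as `N ≤ Γ₀`);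
* FL-D + Hilbert's formula R1 (`j = m |Γ₁| + 1`): `D_bound`;
* FL-CYC (`FLCycStatement` below, applied to `θ_{p-1} : W ↪ 𝔪^{p-1}/𝔪^p`): `cyc`.
-/

set_option autoImplicit false

namespace Fermat.Agent.S56.H846.FLCnt

/-- The data of the abstract count. -/
structure Data (Γ k Z : Type) [Group Γ] [Field k] [AddCommGroup Z] [Module k Z] where
  /-- the adjoint action -/
  ρ : Γ →* Module.End k Z
  /-- the kernel of the residual representation -/
  W : Subgroup Γ
  /-- first cocycle (used on `W` only) -/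
  c₁ : Γ → Z
  /-- second cocycle (used on `W` only) -/
  c₂ : Γ → Z
  /-- `F N n`: `n`-th lower ramification group of the quotient by `N`, pulled back to `Γ` -/
  F : Subgroup Γ → ℕ → Subgroup Γ
  /-- `i N σ = i_{Γ/N}(σ N)` -/
  i : Subgroup Γ → Γ → ℕ
  /-- generator of tame inertia -/
  τ₀ : Γ
  /-- Frobenius lift -/
  φ : Γ
  /-- order of `ψ` -/
  m : ℕ
  /-- `ψ(τ₀)` -/
  ψ₀ : k
  /-- coordinate on the line fixed by inertia -/
  ℓ₁ : Z →ₗ[k] k
  /-- coordinate on the `ψ`-line -/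
  ℓp : Z →ₗ[k] k
  /-- coordinate on the `ψ⁻¹`-line -/
  ℓm : Z →ₗ[k] k
  /-- Frobenius constant -/
  a : k
  /-- Frobenius constant -/
  b : k

variable {Γ k Z : Type} [Group Γ] [Field k] [AddCommGroup Z] [Module k Z]

/-- The hypotheses of the abstract count. -/
structure Hyp (p : ℕ) (D : Data Γ k Z) : Prop where
  p_odd : p ≠ 2
  charP : CharP k p
  /- the subgroup `W` and the cocycles -/
  W_normal : D.W.Normal
  W_index : ¬ p ∣ D.W.index
  ρ_W : ∀ w ∈ D.W, D.ρ w = 1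
  c₁_mul : ∀ w ∈ D.W, ∀ w' ∈ D.W, D.c₁ (w * w') = D.c₁ w + D.c₁ w'
  c₂_mul : ∀ w ∈ D.W, ∀ w' ∈ D.W, D.c₂ (w * w') = D.c₂ w + D.c₂ w'
  c₁_conj : ∀ (g : Γ), ∀ w ∈ D.W, D.c₁ (g * w * g⁻¹) = D.ρ g (D.c₁ w)
  c₂_conj : ∀ (g : Γ), ∀ w ∈ D.W, D.c₂ (g * w * g⁻¹) = D.ρ g (D.c₂ w)
  c_inj : ∀ w ∈ D.W, D.c₁ w = 0 → D.c₂ w = 0 → w = 1
  /- the shape of `Z` -/
  coord_inj : ∀ z : Z, D.ℓ₁ z = 0 → D.ℓp z = 0 → D.ℓm z = 0 → z = 0
  tame_ℓ₁ : ∀ z, D.ℓ₁ (D.ρ D.τ₀ z) = D.ℓ₁ z
  tame_ℓp : ∀ z, D.ℓp (D.ρ D.τ₀ z) = D.ψ₀ * D.ℓp z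
  tame_ℓm : ∀ z, D.ℓm (D.ρ D.τ₀ z) = D.ψ₀⁻¹ * D.ℓm z
  frob_ℓ₁ : ∀ z, D.ℓ₁ (D.ρ D.φ z) = - D.ℓ₁ z
  frob_ℓp : ∀ z, D.ℓp (D.ρ D.φ z) = D.a * D.ℓm z
  frob_ℓm : ∀ z, D.ℓm (D.ρ D.φ z) = D.b * D.ℓp z
  /- tame inertia -/
  m_dvd : D.m ∣ p + 1
  m_odd : Odd ((p + 1) / D.m)
  τ₀_mem : D.τ₀ ∈ D.F ⊥ 0
  τ₀_pow : ∀ j : ℕ, D.τ₀ ^ j ∈ D.W ↔ (p - 1) * D.m ∣ j
  ψ₀_pow : ∀ j : ℕ, D.ψ₀ ^ j = 1 ↔ D.m ∣ j
  card_inertia : Nat.card (D.F ⊥ 0) = (p - 1) * D.m * Nat.card (D.W ⊓ D.F ⊥ 0 : Subgroup Γ)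
  wild_pgroup : IsPGroup p (D.F ⊥ 1)
  tame_no_p : ∀ σ ∈ D.F ⊥ 0, σ ^ p ∈ D.F ⊥ 1 → σ ∈ D.F ⊥ 1
  frob_comm : ∀ w ∈ D.W, D.φ * w * D.φ⁻¹ * w⁻¹ ∈ D.F ⊥ 0
  /- the ramification filtrations of the quotients `Γ/N`, `N ≤ W ∩ Γ₁` normal in `Γ` -/
  F_normal : ∀ N : Subgroup Γ, N.Normal → N ≤ D.W → N ≤ D.F ⊥ 1 → ∀ n, (D.F N n).Normal
  mem_F : ∀ N : Subgroup Γ, N.Normal → N ≤ D.W → N ≤ D.F ⊥ 1 →
    ∀ n σ, σ ∈ D.F N n ↔ σ ∈ N ∨ n + 1 ≤ D.i N σ
  F_zero : ∀ N : Subgroup Γ, N.Normal → N ≤ D.W → N ≤ D.F ⊥ 1 → D.F ⊥ 0 ≤ D.F N 0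
  F_one : ∀ N : Subgroup Γ, N.Normal → N ≤ D.W → N ≤ D.F ⊥ 1 → D.F ⊥ 1 ≤ D.F N 1
  F_one' : ∀ N : Subgroup Γ, N.Normal → N ≤ D.W → N ≤ D.F ⊥ 1 → D.F N 1 ⊓ D.F ⊥ 0 ≤ D.F ⊥ 1
  comm_rule : ∀ N : Subgroup Γ, N.Normal → N ≤ D.W → N ≤ D.F ⊥ 1 →
    ∀ n, 1 ≤ n → ∀ σ ∈ D.F N n, σ ∉ D.F N (n + 1) → ∀ τ ∈ D.F ⊥ 0,
      (τ * σ * τ⁻¹ * σ⁻¹ ∈ D.F N (n + 1) ↔ τ ^ n ∈ D.F N 1)
  quot_formula : ∀ N : Subgroup Γ, N.Normal → N ≤ D.W → N ≤ D.F ⊥ 1 → ∀ σ, σ ∉ N →
    ∑ᶠ (w : Γ) (_ : w ∈ N), D.i ⊥ (σ * w) = Nat.card N * D.i N σ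
  /- the different bound (Theorem D + Hilbert's formula) -/
  D_bound : D.F ⊥ 1 ≠ ⊥ →
    (p - 1) * ∑ᶠ (σ : Γ) (_ : σ ∈ D.F ⊥ 0) (_ : σ ≠ 1), D.i ⊥ σ ≤ p * Nat.card (D.F ⊥ 0)
  /- C4: a single break at `p - 1` makes `W` a cyclic module -/
  cyc : D.m ≠ 2 → D.W = D.F ⊥ (p - 1) → D.F ⊥ p = ⊥ →
    ∃ w₀ ∈ D.W, ∀ H : Subgroup Γ, w₀ ∈ H → (∀ h ∈ H, D.τ₀ * h * D.τ₀⁻¹ ∈ H) →
      (∀ h ∈ H, D.φ ^ 2 * h * (D.φ ^ 2)⁻¹ ∈ H) → D.W ≤ H

end Fermat.Agent.S56.H846.FLCnt

namespace Fermat.Agent.S56.H846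

open FLCnt

/-- **FL-CNT** (C1–C3 + final step of the count, abstract).  Under `FLCnt.Hyp` the two cocycles
are `k`-linearly dependent on `W`. -/
def FLCntStatement : Prop :=
  ∀ (p : ℕ) [Fact p.Prime] (Γ k Z : Type) [Group Γ] [Finite Γ] [Field k] [AddCommGroup Z]
    [Module k Z] (D : Data Γ k Z), _root_.Fermat.Agent.S56.H846.FLCnt.Hyp p D →
    ∃ a₁ a₂ : k, (a₁ ≠ 0 ∨ a₂ ≠ 0) ∧ ∀ w ∈ D.W, a₁ • D.c₁ w + a₂ • D.c₂ w = 0

/-- **FL-CYC** (C4, abstract).  `κ` a finite field of characteristic `p` (the residue field of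
`B`), `θ : W ↪ κ` additive (`θ_{p-1}`), tame inertia acting through multiplication by `μ` of exact
order `m`, `2 < m ∣ p + 1`, and Frobenius acting `p`-semilinearly.  Then `W` is generated, as a
group normalised by `τ₀` and `φ²`, by a single element. -/
def FLCycStatement : Prop :=
  ∀ (p : ℕ) [Fact p.Prime] (Γ : Type) [Group Γ] [Finite Γ] (κ : Type) [Field κ] [Finite κ]
    [CharP κ p] (W : Subgroup Γ) (τ₀ φ : Γ) (θ : Γ → κ) (μ c : κ) (m : ℕ),
    W.Normal →
    (∀ w ∈ W, ∀ w' ∈ W, θ (w * w') = θ w + θ w') →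
    (∀ w ∈ W, θ w = 0 → w = 1) →
    (∀ w ∈ W, θ (τ₀ * w * τ₀⁻¹) = μ * θ w) →
    (∀ w ∈ W, θ (φ * w * φ⁻¹) = c * θ w ^ p) →
    (∀ j : ℕ, μ ^ j = 1 ↔ m ∣ j) → m ∣ p + 1 → 2 < m →
    ∃ w₀ ∈ W, ∀ H : Subgroup Γ, w₀ ∈ H → (∀ h ∈ H, τ₀ * h * τ₀⁻¹ ∈ H) →
      (∀ h ∈ H, φ ^ 2 * h * (φ ^ 2)⁻¹ ∈ H) → W ≤ H

end Fermat.Agent.S56.H846

end
-- ===== PACK-END S56/H846/FLCnt/Spec.lean

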