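import Mathlib
import Fermat.Prelude.Def_ModularCurve_LaurentCoeff
import Fermat.Prelude.Def_GaloisRep_Flat
import Fermat.Agent.Pack.S43GC.G0E1L3
import Fermat.Agent.Pack.Fast891

-- ===== PACK-BEGIN S56/H914/IntVal.lean
section


/-!
# Row S56 — W-FLAT-SS, leaf INT (helper914), part 0: an abstract criterion for a subring of a
valued field to be a discrete valuation ring (Mathlib only)

`Ω` a field, `ν : Ω → ℝ` multiplicative, `O` a subring of `Ω` of elements with `ν ≤ 1`, closed under
inverses of elements with `ν = 1`, and `ϖ ∈ O` with `0 < ν ϖ < 1` such that every nonzero element of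
`O` is `ϖ ^ n * u` with `u ∈ O`, `ν u = 1`.  Then `O` is a discrete valuation ring with maximal
ideal `(ϖ)`, and `(q) = 𝔪 ^ e` whenever `ν q = ν ϖ ^ e`.

Also: `exists_generator_of_pow_mem`: if all values `ν x` (`x ≠ 0` in a multiplicatively closed set
containing inverses) satisfy `ν x ^ d = r ^ m` (`m : ℤ`) for a fixed `0 < r < 1`, `d > 0`, then the
values are the powers of a single value.
-/

set_option autoImplicit false

open IsLocalRing

namespace Fermat.Agent.S56.H914

/-- The hypotheses of the abstract DVR criterion. -/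
structure ValData {Ω : Type*} [Field Ω] (ν : Ω → ℝ) (O : Subring Ω) (ϖ : Ω) : Prop where
  map_zero : ν 0 = 0
  map_mul : ∀ x y, ν (x * y) = ν x * ν y
  pos : ∀ x, x ≠ 0 → 0 < ν x
  le_one : ∀ x ∈ O, ν x ≤ 1
  inv_mem : ∀ x ∈ O, ν x = 1 → x⁻¹ ∈ O
  ϖ_mem : ϖ ∈ O
  ϖ_ne : ϖ ≠ 0
  ϖ_lt : ν ϖ < 1
  factor : ∀ x ∈ O, x ≠ 0 → ∃ n : ℕ, ∃ u ∈ O, ν u = 1 ∧ x = ϖ ^ n * u

namespace ValData

variable {Ω : Type*} [Field Ω] {ν : Ω → ℝ} {O : Subring Ω} {ϖ : Ω}

lemma map_one (h : ValData ν O ϖ) : ν 1 = 1 := by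
  have h1 := h.map_mul 1 1
  rw [mul_one] at h1
  have h2 := h.pos 1 one_ne_zero
  have h3 : ν 1 * (ν 1 - 1) = 0 := by linear_combination -h1
  rcases mul_eq_zero.mp h3 with h4 | h4
  · exact absurd h4 h2.ne'
  · linarith

lemma map_pow (h : ValData ν O ϖ) (x : Ω) (n : ℕ) : ν (x ^ n) = ν x ^ n := by
  induction n with
  | zero => rw [pow_zero, pow_zero, h.map_one]
  | succ n ih => rw [pow_succ, h.map_mul, ih, pow_succ]

lemma isUnit_of_eq_one (h : ValData ν O ϖ) {u : Ω} (hu : u ∈ O) (h1 : ν u = 1) :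
    IsUnit (⟨u, hu⟩ : O) := by
  have hne : u ≠ 0 := by
    rintro rfl
    rw [h.map_zero] at h1
    exact zero_ne_one h1
  refine ⟨⟨⟨u, hu⟩, ⟨u⁻¹, h.inv_mem u hu h1⟩, ?_, ?_⟩, rfl⟩
  · apply Subtype.ext
    show u * u⁻¹ = 1
    exact mul_inv_cancel₀ hne
  · apply Subtype.ext
    show u⁻¹ * u = 1
    exact inv_mul_cancel₀ hne

lemma eq_one_of_isUnit (h : ValData ν O ϖ) {u : O} (hu : IsUnit u) : ν (u : Ω) = 1 := by
  obtain ⟨⟨a, b, hab, hba⟩, rfl⟩ := hu
  have h1 : ν ((a : Ω) * (b : Ω)) = 1 := by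
    have : (a : Ω) * (b : Ω) = 1 := congrArg Subtype.val hab
    rw [this, h.map_one]
  rw [h.map_mul] at h1
  have ha := h.le_one a a.2
  have hb := h.le_one b b.2
  have ha0 : 0 < ν (a : Ω) := by
    rcases eq_or_ne (a : Ω) 0 with h0 | h0
    · rw [h0, h.map_zero, zero_mul] at h1
      exact absurd h1 zero_ne_one
    · exact h.pos _ h0
  show ν (a : Ω) = 1
  nlinarith

lemma ϖ_pos (h : ValData ν O ϖ) : 0 < ν ϖ := h.pos ϖ h.ϖ_ne

lemma pow_injective (h : ValData ν O ϖ) {m n : ℕ} (hmn : ν ϖ ^ m = ν ϖ ^ n) : m = n := by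
  exact pow_right_injective₀ h.ϖ_pos h.ϖ_lt.ne hmn

lemma irreducible (h : ValData ν O ϖ) : Irreducible (⟨ϖ, h.ϖ_mem⟩ : O) := by
  refine ⟨fun hu => ?_, fun a b hab => ?_⟩
  · have := h.eq_one_of_isUnit hu
    exact h.ϖ_lt.ne this
  · have hab' : ϖ = (a : Ω) * (b : Ω) := congrArg Subtype.val hab
    have ha0 : (a : Ω) ≠ 0 := by
      rintro h0
      rw [h0, zero_mul] at hab'
      exact h.ϖ_ne hab'
    have hb0 : (b : Ω) ≠ 0 := by
      rintro h0
      rw [h0, mul_zero] at hab'
      exact h.ϖ_ne hab'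
    obtain ⟨m, u, hu, hu1, hau⟩ := h.factor a a.2 ha0
    obtain ⟨n, v, hv, hv1, hbv⟩ := h.factor b b.2 hb0
    have h1 : ν ϖ ^ 1 = ν ϖ ^ (m + n) := by
      have := congrArg ν hab'
      rw [h.map_mul, hau, hbv, h.map_mul, h.map_mul, h.map_pow, h.map_pow, hu1, hv1, mul_one,
        mul_one, ← pow_add] at this
      rw [pow_one]
      exact this
    have h2 : 1 = m + n := h.pow_injective h1
    rcases Nat.eq_zero_or_pos m with hm | hm
    · left
      have : (a : Ω) = u := by rw [hau, hm, pow_zero, one_mul]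
      have h3 : a = ⟨u, hu⟩ := Subtype.ext this
      rw [h3]
      exact h.isUnit_of_eq_one hu hu1
    · right
      have hn : n = 0 := by omega
      have : (b : Ω) = v := by rw [hbv, hn, pow_zero, one_mul]
      have h3 : b = ⟨v, hv⟩ := Subtype.ext this
      rw [h3]
      exact h.isUnit_of_eq_one hv hv1

lemma hasFactorization (h : ValData ν O ϖ) :
    IsDiscreteValuationRing.HasUnitMulPowIrreducibleFactorization O := by
  refine ⟨⟨ϖ, h.ϖ_mem⟩, h.irreducible, fun {x} hx => ?_⟩
  have hx0 : (x : Ω) ≠ 0 := fun h0 => hx (Subtype.ext h0)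
  obtain ⟨n, u, hu, hu1, hxu⟩ := h.factor x x.2 hx0
  refine ⟨n, (h.isUnit_of_eq_one hu hu1).unit, ?_⟩
  apply Subtype.ext
  show ϖ ^ n * u = x
  exact hxu.symm

/-- The abstract criterion: `O` is a discrete valuation ring. -/
theorem isDiscreteValuationRing (h : ValData ν O ϖ) : IsDiscreteValuationRing O :=
  IsDiscreteValuationRing.ofHasUnitMulPowIrreducibleFactorization h.hasFactorization

/-- … with maximal ideal `(ϖ)`. -/
theorem maximalIdeal_eq (h : ValData ν O ϖ) :
    haveI := h.isDiscreteValuationRing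
    maximalIdeal O = Ideal.span {(⟨ϖ, h.ϖ_mem⟩ : O)} := by
  haveI := h.isDiscreteValuationRing
  exact h.irreducible.maximalIdeal_eq

/-- If `ν q = ν ϖ ^ e` then `(q) = 𝔪 ^ e`. -/
theorem span_eq_maximalIdeal_pow (h : ValData ν O ϖ) {q : Ω} (hq : q ∈ O) {e : ℕ}
    (hqe : ν q = ν ϖ ^ e) :
    haveI := h.isDiscreteValuationRing
    Ideal.span {(⟨q, hq⟩ : O)} = maximalIdeal O ^ e := by
  haveI := h.isDiscreteValuationRing
  rw [h.maximalIdeal_eq, Ideal.span_singleton_pow]
  have hq0 : q ≠ 0 := by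
    rintro rfl
    rw [h.map_zero] at hqe
    exact (pow_pos h.ϖ_pos e).ne hqe
  obtain ⟨n, u, hu, hu1, hqu⟩ := h.factor q hq hq0
  have hne : n = e := by
    apply h.pow_injective
    rw [← hqe, hqu, h.map_mul, h.map_pow, hu1, mul_one]
  subst hne
  apply Ideal.span_singleton_eq_span_singleton.mpr
  refine Associated.symm ⟨(h.isUnit_of_eq_one hu hu1).unit, ?_⟩
  apply Subtype.ext
  show ϖ ^ n * u = q
  exact hqu.symm

/-- Membership in the maximal ideal. -/
theorem mem_maximalIdeal_iff (h : ValData ν O ϖ) (x : O) :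
    haveI := h.isDiscreteValuationRing
    x ∈ maximalIdeal O ↔ ν (x : Ω) < 1 := by
  haveI := h.isDiscreteValuationRing
  rw [IsLocalRing.mem_maximalIdeal, mem_nonunits_iff]
  constructor
  · intro hx
    rcases (h.le_one x x.2).lt_or_eq with h1 | h1
    · exact h1
    · exact absurd (h.isUnit_of_eq_one x.2 h1) hx
  · intro hx hu
    exact hx.ne (h.eq_one_of_isUnit hu)

end ValData

/-- If `S ⊆ ℤ` is an additive subgroup containing `d > 0`, it is generated by some `g > 0`. -/
theorem exists_pos_generator (S : AddSubgroup ℤ) {d : ℤ} (hd : 0 < d) (hdS : d ∈ S) :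
    ∃ g : ℤ, 0 < g ∧ g ∈ S ∧ ∀ m ∈ S, g ∣ m := by
  obtain ⟨a, ha⟩ := Int.subgroup_cyclic S
  have haS : a ∈ S := by
    rw [ha]
    exact AddSubgroup.mem_closure_singleton_self a
  have hdvd : ∀ m ∈ S, a ∣ m := by
    intro m hm
    rw [ha, AddSubgroup.mem_closure_singleton] at hm
    obtain ⟨n, rfl⟩ := hm
    exact ⟨n, by rw [smul_eq_mul, mul_comm]⟩
  have ha0 : a ≠ 0 := by
    rintro rfl
    have := hdvd d hdS
    rw [zero_dvd_iff] at this
    exact hd.ne' this
  refine ⟨|a|, abs_pos.mpr ha0, ?_, fun m hm => (abs_dvd a m).mpr (hdvd m hm)⟩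
  rcases abs_choice a with h | h
  · rw [h]; exact haS
  · rw [h]; exact S.neg_mem haS

end Fermat.Agent.S56.H914

end
-- ===== PACK-END S56/H914/IntVal.lean

-- ===== PACK-BEGIN S56/H914/IntFin.lean
section


/-!
# Row S56 — W-FLAT-SS, leaf INT (helper914): finiteness of a Galois extension of domains

`moduleFinite_of_isGaloisGroup` : if a finite group `G` acts faithfully on an integrally closed
domain `B` with ring of invariants the Noetherian integrally closed domain `A`, then `B` is a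
finite `A`-module.  (Mathlib only.)
-/

set_option autoImplicit false
set_option linter.style.haveILetI false

noncomputable section

namespace Fermat.Agent.S56.H914

theorem moduleFinite_of_isGaloisGroup (G A B : Type*) [Group G] [Finite G]
    [CommRing A] [IsDomain A] [IsIntegrallyClosed A] [IsNoetherianRing A]
    [CommRing B] [IsDomain B] [IsIntegrallyClosed B]
    [Algebra A B] [FaithfulSMul A B] [MulSemiringAction G B] [IsGaloisGroup G A B] :
    Module.Finite A B := by
  letI := FractionRing.liftAlgebra A (FractionRing B)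
  letI := IsFractionRing.mulSemiringAction G B (FractionRing B)
  haveI : IsGaloisGroup G (FractionRing A) (FractionRing B) := inferInstance
  haveI : FiniteDimensional (FractionRing A) (FractionRing B) :=
    IsGaloisGroup.finiteDimensional G _ _
  haveI : IsGalois (FractionRing A) (FractionRing B) := IsGaloisGroup.isGalois G _ _
  haveI : Algebra.IsIntegral A B := Algebra.IsInvariant.isIntegral A B G
  haveI : IsIntegralClosure B A (FractionRing B) :=
    IsIntegralClosure.of_isIntegrallyClosed B A (FractionRing B)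
  exact IsIntegralClosure.finite A (FractionRing A) (FractionRing B) B

end Fermat.Agent.S56.H914

end

end
-- ===== PACK-END S56/H914/IntFin.lean

-- ===== PACK-BEGIN S56/H176/FLDVal.lean
section


/-!
# S56 / FL-D (different bound), part 1: valuations of `A`-combinations of powers of a uniformiser

`A ⊂ B` discrete valuation rings with `v_B(a) = n · v_A(a)` for `a ∈ A` ("ramification index `n`"),
`ϖ` a uniformiser of `B`.  For `b_j ∈ A` (`j < n`) the terms `b_j ϖ^j` have pairwise distinct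
valuations, so `v_B(∑_{j<n} b_j ϖ^j) = min_j (n v_A(b_j) + j)`.  We only state the useful half
`v_B(∑) ≤ n v_A(b_j) + j`.
-/

set_option autoImplicit false

namespace Fermat.Agent.S56.H176

open IsDiscreteValuationRing

section General

variable {R : Type*} [Ring R] (v : AddValuation R ℕ∞)

/-- If `i₀` is the unique index of strictly smallest valuation, the sum has that valuation. -/
theorem FLD_val_sum_eq_of_lt {ι : Type*} [DecidableEq ι] (s : Finset ι) (f : ι → R) (i₀ : ι)
    (hi₀ : i₀ ∈ s) (h : ∀ j ∈ s, j ≠ i₀ → v (f i₀) < v (f j)) :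
    v (∑ j ∈ s, f j) = v (f i₀) := by
  rw [← Finset.add_sum_erase s f hi₀]
  by_cases htop : v (f i₀) = ⊤
  · -- then `s = {i₀}` up to nothing
    have : s.erase i₀ = ∅ := by
      rw [Finset.eq_empty_iff_forall_notMem]
      intro j hj
      have hj' := Finset.mem_erase.mp hj
      have := h j hj'.2 hj'.1
      rw [htop] at this
      exact absurd this (not_lt.mpr le_top)
    rw [this, Finset.sum_empty, add_zero]
  · apply AddValuation.map_add_eq_of_lt_left
    apply AddValuation.map_lt_sum v htop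
    intro j hj
    have hj' := Finset.mem_erase.mp hj
    exact h j hj'.2 hj'.1

/-- If the finite valuations of the terms are pairwise distinct, the valuation of the sum is at
most the valuation of each term. -/
theorem FLD_val_sum_le {ι : Type*} [DecidableEq ι] (s : Finset ι) (f : ι → R)
    (hdist : ∀ i ∈ s, ∀ j ∈ s, i ≠ j → v (f i) ≠ ⊤ → v (f i) ≠ v (f j))
    (j₀ : ι) (hj₀ : j₀ ∈ s) : v (∑ j ∈ s, f j) ≤ v (f j₀) := by
  obtain ⟨i₀, hi₀, hmin⟩ := Finset.exists_min_image s (fun j => v (f j)) ⟨j₀, hj₀⟩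
  by_cases htop : v (f i₀) = ⊤
  · have : v (f j₀) = ⊤ := top_le_iff.mp (htop ▸ hmin j₀ hj₀)
    rw [this]
    exact le_top
  · rw [FLD_val_sum_eq_of_lt v s f i₀ hi₀]
    · exact hmin j₀ hj₀
    · intro j hj hne
      exact lt_of_le_of_ne (hmin j hj) (hdist i₀ hi₀ j hj (Ne.symm hne) htop)

/-- The valuation of the sum is at least any common lower bound of the terms. -/
theorem FLD_le_val_sum {ι : Type*} (s : Finset ι) (f : ι → R) (g : ℕ∞)
    (h : ∀ j ∈ s, g ≤ v (f j)) : g ≤ v (∑ j ∈ s, f j) :=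
  AddValuation.map_le_sum v h

end General

end Fermat.Agent.S56.H176

namespace Fermat.Agent.S56.H176

open IsDiscreteValuationRing

section DVR

variable {A : Type*} [CommRing A] [IsDomain A] [IsDiscreteValuationRing A]
  {B : Type*} [CommRing B] [IsDomain B] [IsDiscreteValuationRing B] [Algebra A B]

/-- The valuation of a term `b ϖ^j`. -/
theorem FLD_addVal_term {n : ℕ}
    (hram : ∀ a : A, addVal B (algebraMap A B a) = n • addVal A a)
    {ϖ : B} (hϖ : addVal B ϖ = 1) (b : A) (j : ℕ) :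
    addVal B (algebraMap A B b * ϖ ^ j) = n • addVal A b + j := by
  rw [addVal_mul, addVal_pow, hϖ, hram, nsmul_one]

/-- Distinctness of the valuations of the terms `b_j ϖ^j`, `j < n`. -/
theorem FLD_addVal_term_ne {n : ℕ}
    (hram : ∀ a : A, addVal B (algebraMap A B a) = n • addVal A a)
    {ϖ : B} (hϖ : addVal B ϖ = 1) (b : ℕ → A) {i j : ℕ} (hi : i < n) (hj : j < n)
    (hij : i ≠ j) (htop : addVal B (algebraMap A B (b i) * ϖ ^ i) ≠ ⊤) :
    addVal B (algebraMap A B (b i) * ϖ ^ i) ≠ addVal B (algebraMap A B (b j) * ϖ ^ j) := by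
  rw [FLD_addVal_term hram hϖ, FLD_addVal_term hram hϖ] at *
  intro heq
  have hbi : addVal A (b i) ≠ ⊤ := by
    intro h
    apply htop
    rw [h]
    have hn : n ≠ 0 := by omega
    simp [hn]
  obtain ⟨x, hx⟩ := ENat.ne_top_iff_exists.mp hbi
  have hbj : addVal A (b j) ≠ ⊤ := by
    intro h
    rw [h] at heq
    have hn : n ≠ 0 := by omega
    rw [← hx] at heq
    simp [hn] at heq
    exact absurd heq (by
      have : ((n * x + i : ℕ) : ℕ∞) ≠ ⊤ := ENat.natCast_ne_top _
      simpa using this)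
  obtain ⟨y, hy⟩ := ENat.ne_top_iff_exists.mp hbj
  rw [← hx, ← hy] at heq
  have h2 : ((n * x + i : ℕ) : ℕ∞) = ((n * y + j : ℕ) : ℕ∞) := by
    simpa using heq
  have h3 : n * x + i = n * y + j := by exact_mod_cast h2
  have h4 : i % n = j % n := by
    have := congrArg (· % n) h3
    simpa [Nat.add_mod, Nat.mul_mod_right] using this
  rw [Nat.mod_eq_of_lt hi, Nat.mod_eq_of_lt hj] at h4
  exact hij h4

/-- **Key inequality**: `v_B(∑_{j<n} b_j ϖ^j) ≤ n v_A(b_j) + j` for every `j < n`. -/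
theorem FLD_addVal_sum_le {n : ℕ}
    (hram : ∀ a : A, addVal B (algebraMap A B a) = n • addVal A a)
    {ϖ : B} (hϖ : addVal B ϖ = 1) (b : ℕ → A) {j : ℕ} (hj : j < n) :
    addVal B (∑ i ∈ Finset.range n, algebraMap A B (b i) * ϖ ^ i) ≤ n • addVal A (b j) + j := by
  rw [← FLD_addVal_term hram hϖ]
  refine FLD_val_sum_le (addVal B) (Finset.range n)
    (fun i => algebraMap A B (b i) * ϖ ^ i) ?_ j (Finset.mem_range.mpr hj)
  intro i hi i' hi' hne htop
  exact FLD_addVal_term_ne hram hϖ b (Finset.mem_range.mp hi) (Finset.mem_range.mp hi') hne htop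

/-- Lower bound: `g ≤ n v_A(b_j) + j` for all `j < n` implies `g ≤ v_B(∑_{j<n} b_j ϖ^j)`. -/
theorem FLD_le_addVal_sum {n : ℕ}
    (hram : ∀ a : A, addVal B (algebraMap A B a) = n • addVal A a)
    {ϖ : B} (hϖ : addVal B ϖ = 1) (b : ℕ → A) (g : ℕ∞)
    (h : ∀ j < n, g ≤ n • addVal A (b j) + j) :
    g ≤ addVal B (∑ i ∈ Finset.range n, algebraMap A B (b i) * ϖ ^ i) := by
  refine FLD_le_val_sum (addVal B) _ _ g ?_
  intro j hj
  rw [FLD_addVal_term hram hϖ]
  exact h j (Finset.mem_range.mp hj)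

/-- Linear independence: a vanishing combination has vanishing coefficients. -/
theorem FLD_coeff_eq_zero {n : ℕ}
    (hram : ∀ a : A, addVal B (algebraMap A B a) = n • addVal A a)
    {ϖ : B} (hϖ : addVal B ϖ = 1) (b : ℕ → A)
    (h0 : ∑ i ∈ Finset.range n, algebraMap A B (b i) * ϖ ^ i = 0) {j : ℕ} (hj : j < n) :
    b j = 0 := by
  have h1 := FLD_addVal_sum_le hram hϖ b hj
  rw [h0, addVal_zero, top_le_iff] at h1
  by_contra hb
  have hbj : addVal A (b j) ≠ ⊤ := fun h => hb (addVal_eq_top_iff.mp h)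
  obtain ⟨x, hx⟩ := ENat.ne_top_iff_exists.mp hbj
  rw [← hx] at h1
  have : ((n * x + j : ℕ) : ℕ∞) ≠ ⊤ := ENat.natCast_ne_top _
  apply this
  simpa using h1

end DVR

end Fermat.Agent.S56.H176

end
-- ===== PACK-END S56/H176/FLDVal.lean

-- ===== PACK-BEGIN S37/H700/Cic.lean
section



/-!
# S37 / R-a, helper700: `A((q))` is completely integrally closed in `L((q))`

`A` a valuation subring of a field `L` whose value group is archimedean (`Archimedean A`,
elementwise form: powers of a non-unit become smaller than any nonzero element).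

* `exists_coeffMap_eq_of_coeff_mem` : a Laurent series over `L` all of whose coefficients lie in
  `A` is the image of a Laurent series over `A`.
* **`exists_coeffMap_eq_of_forall_pow`** : if `f ∈ L((q))` and `d ∈ A((q))`, `d ≠ 0`, are such
  that `d · f ^ m ∈ A((q))` for every `m`, then `f ∈ A((q))`.

Proof (lowest-term trick): subtract from `f` its truncation below the first index `n₁` whose
coefficient `c` is not in `A`; the leading coefficient of `d · (f - f₁) ^ m` is `d₀ c ^ m ∈ A`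
for all `m`, which contradicts the archimedean property.
-/

set_option autoImplicit false

noncomputable section

namespace Fermat.Agent.S37.H700

open HahnSeries ModularCurve

variable {L : Type*} [Field L] (A : ValuationSubring L)

/-- The value group of `A` is archimedean, elementwise form. -/
def ArchVal : Prop :=
  ∀ a : L, a ∈ A.nonunits → ∀ d : L, d ≠ 0 → ∃ m : ℕ, A.valuation a ^ m < A.valuation d

theorem exists_coeffMap_eq_of_coeff_mem (x : LaurentSeries L) (h : ∀ n, x.coeff n ∈ A) :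
    ∃ y : LaurentSeries A, coeffMap A.subtype y = x := by
  refine ⟨⟨fun n => ⟨x.coeff n, h n⟩, ?_⟩, ?_⟩
  · refine x.isPWO_support.mono ?_
    intro n hn
    simp only [Function.mem_support, ne_eq] at hn ⊢
    intro h0
    apply hn
    exact Subtype.ext h0
  · ext n
    rw [coeffMap_coeff]
    rfl

theorem coeff_mem_of_coeffMap_eq {x : LaurentSeries L} {y : LaurentSeries A}
    (h : coeffMap A.subtype y = x) (n : ℤ) : x.coeff n ∈ A := by
  rw [← h, coeffMap_coeff]
  exact (y.coeff n).2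

theorem mem_range_coeffMap_iff (x : LaurentSeries L) :
    x ∈ (coeffMap A.subtype).range ↔ ∀ n, x.coeff n ∈ A := by
  constructor
  · rintro ⟨y, hy⟩ n
    exact coeff_mem_of_coeffMap_eq A hy n
  · intro h
    obtain ⟨y, hy⟩ := exists_coeffMap_eq_of_coeff_mem A x h
    exact ⟨y, hy⟩

theorem coeffMap_subtype_injective : Function.Injective (coeffMap A.subtype) := by
  intro y z hyz
  ext n
  have h2 := congrArg (fun s => s.coeff n) hyz
  simp only [coeffMap_coeff] at h2
  exact h2

theorem leadingCoeff_pow' (x : LaurentSeries L) (m : ℕ) :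
    (x ^ m).leadingCoeff = x.leadingCoeff ^ m := by
  induction m with
  | zero => simp
  | succ m ih => rw [pow_succ, leadingCoeff_mul, ih, pow_succ]

/-- **`A((q))` is completely integrally closed in `L((q))`** (archimedean value group). -/
theorem exists_coeffMap_eq_of_forall_pow (harch : ArchVal A)
    (f : LaurentSeries L) (d : LaurentSeries A) (hd : d ≠ 0)
    (h : ∀ m : ℕ, coeffMap A.subtype d * f ^ m ∈ (coeffMap A.subtype).range) :
    ∃ y : LaurentSeries A, coeffMap A.subtype y = f := by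
  classical
  by_contra hne
  have hS : {n : ℤ | f.coeff n ∉ A}.Nonempty := by
    by_contra hempty
    apply hne
    apply exists_coeffMap_eq_of_coeff_mem
    intro n
    by_contra hn
    exact hempty ⟨n, hn⟩
  have hSsub : {n : ℤ | f.coeff n ∉ A} ⊆ f.support := by
    intro n hn
    rw [HahnSeries.mem_support]
    intro h0
    apply hn
    rw [h0]
    exact A.zero_mem
  have hWF : {n : ℤ | f.coeff n ∉ A}.IsWF := f.isWF_support.mono hSsub
  set n₁ := hWF.min hS with hn₁
  have hn₁mem : f.coeff n₁ ∉ A := hWF.min_mem hS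
  have hn₁min : ∀ n, n < n₁ → f.coeff n ∈ A := by
    intro n hn
    by_contra hnA
    exact hWF.not_lt_min hS hnA hn
  set f₁ := truncLT n₁ f with hf₁
  have hf₁mem : f₁ ∈ (coeffMap A.subtype).range := by
    rw [mem_range_coeffMap_iff]
    intro n
    rw [hf₁, HahnSeries.coeff_truncLT]
    split_ifs with hlt
    · exact hn₁min n hlt
    · exact A.zero_mem
  set f₂ := f - f₁ with hf₂
  have hf₂coeff : ∀ n, f₂.coeff n = if n < n₁ then 0 else f.coeff n := by
    intro n
    rw [hf₂, HahnSeries.coeff_sub, hf₁, HahnSeries.coeff_truncLT]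
    split_ifs <;> simp
  set c := f.coeff n₁ with hc
  have hc0 : c ≠ 0 := by
    intro h0
    apply hn₁mem
    rw [h0]
    exact A.zero_mem
  have hf₂n₁ : f₂.coeff n₁ = c := by
    rw [hf₂coeff, if_neg (lt_irrefl _)]
  have hf₂0 : f₂ ≠ 0 := ne_zero_of_coeff_ne_zero (by rw [hf₂n₁]; exact hc0)
  have hord : f₂.order = n₁ := by
    apply le_antisymm
    · exact order_le_of_coeff_ne_zero (by rw [hf₂n₁]; exact hc0)
    · rw [le_order_iff_forall hf₂0]
      intro j hj
      rw [hf₂coeff, if_pos hj]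
  have hlead : f₂.leadingCoeff = c := by
    rw [leadingCoeff_eq, hord, hf₂n₁]
  -- `d * f₂ ^ m` has coefficients in `A`
  have hmem : ∀ m : ℕ, coeffMap A.subtype d * f₂ ^ m ∈ (coeffMap A.subtype).range := by
    intro m
    have hexp : f₂ ^ m = ∑ i ∈ Finset.range (m + 1), f ^ i * (-f₁) ^ (m - i) * (m.choose i) := by
      rw [hf₂, sub_eq_add_neg, add_pow]
    rw [hexp, Finset.mul_sum]
    refine Subring.sum_mem _ fun i _ => ?_
    rw [← mul_assoc, ← mul_assoc]
    refine Subring.mul_mem _ (Subring.mul_mem _ (h i) ?_) ?_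
    · exact Subring.pow_mem _ (Subring.neg_mem _ hf₁mem) _
    · exact natCast_mem _ _
  set d' := coeffMap A.subtype d with hd'
  have hd'0 : d' ≠ 0 := by
    intro h0
    apply hd
    apply coeffMap_subtype_injective A
    rw [← hd', h0, map_zero]
  set d₀ := d'.leadingCoeff with hd₀
  have hd₀0 : d₀ ≠ 0 := leadingCoeff_ne_zero.mpr hd'0
  have hd₀c : ∀ m : ℕ, d₀ * c ^ m ∈ A := by
    intro m
    have h1 := (mem_range_coeffMap_iff A _).mp (hmem m) (d' * f₂ ^ m).order
    rw [← leadingCoeff_eq, leadingCoeff_mul, leadingCoeff_pow', hlead] at h1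
    exact h1
  -- contradiction with the archimedean property
  have hcv : 1 < A.valuation c := by
    by_contra hle
    apply hn₁mem
    rw [← A.valuation_le_one_iff]
    exact not_lt.mp hle
  have hcinv : c⁻¹ ∈ A.nonunits := by
    rw [ValuationSubring.mem_nonunits_iff, map_inv₀]
    exact inv_lt_one_of_one_lt₀ hcv
  obtain ⟨m, hm⟩ := harch c⁻¹ hcinv d₀ hd₀0
  have h2 := (A.valuation_le_one_iff _).mpr (hd₀c m)
  rw [map_mul, map_pow] at h2
  rw [map_inv₀, inv_pow] at hm
  have hcm0 : A.valuation c ^ m ≠ 0 :=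
    pow_ne_zero _ ((Valuation.ne_zero_iff _).mpr hc0)
  have h3 : (A.valuation c ^ m)⁻¹ * A.valuation c ^ m < A.valuation d₀ * A.valuation c ^ m :=
    mul_lt_mul_of_pos_right hm (zero_lt_iff.mpr hcm0)
  rw [inv_mul_cancel₀ hcm0] at h3
  exact absurd h2 (not_le.mpr h3)

end Fermat.Agent.S37.H700

end
end
-- ===== PACK-END S37/H700/Cic.lean

-- ===== PACK-BEGIN S56/H846/FLCnt/Arith.lean
section


/-!
# FL-CNT: the arithmetic of the break of an irreducible quotient (helper846)
Mathlib only, nothing unproved.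
-/

set_option autoImplicit false

namespace Fermat.Agent.S56.H846.FLCnt

/-- Claim A: the break of an irreducible quotient is not divisible by `e₀ = (p - 1) m`. -/
theorem arith_A {p m y u : ℕ} (hp : 3 ≤ p) (hm : 2 ≤ m) (hy : 2 ≤ y) (hu : 1 ≤ u)
    (hb : y * (u + 1) ≤ (m + 1) * (y + 1)) : ¬ (p - 1) * m ∣ u := by
  rintro ⟨t, ht⟩
  have ht1 : 1 ≤ t := by
    rcases Nat.eq_zero_or_pos t with h0 | h0
    · rw [h0, mul_zero] at ht; omega
    · exact h0
  have h2 : 2 * m ≤ u := by
    rw [ht]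
    calc 2 * m = 2 * m * 1 := by ring
      _ ≤ (p - 1) * m * t := Nat.mul_le_mul (Nat.mul_le_mul (by omega) le_rfl) ht1
  have h3 : y * (2 * m + 1) ≤ (m + 1) * (y + 1) :=
    le_trans (Nat.mul_le_mul le_rfl (by omega)) hb
  have h4 : 2 * m ≤ m * y := by
    calc 2 * m = m * 2 := by ring
      _ ≤ m * y := Nat.mul_le_mul le_rfl hy
  nlinarith

/-- The break is `p - 1`. -/
theorem arith_main {p m y u : ℕ} (hp : p.Prime) (hp3 : 3 ≤ p) (hm2 : 2 ∣ m) (hmd : m ∣ p + 1)
    (hmo : Odd ((p + 1) / m)) (hx : ∃ d, 1 ≤ d ∧ y + 1 = p ^ d) (hx2 : y + 1 = p → m ∣ 2)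
    (hu : 1 ≤ u) (hB : ∀ j : ℕ, (p - 1) * m ∣ j * u ↔ m ∣ j)
    (hb : y * (u + 1) ≤ (m + 1) * (y + 1)) : u = p - 1 ∧ m ≠ 2 := by
  have hm0 : 0 < m := by
    rcases Nat.eq_zero_or_pos m with h0 | h0
    · rw [h0, zero_dvd_iff] at hmd; omega
    · exact h0
  have hmge : 2 ≤ m := Nat.le_of_dvd hm0 hm2
  have hmle : m ≤ p + 1 := Nat.le_of_dvd (by omega) hmd
  have hp1 : 0 < p - 1 := by omega
  -- `(p - 1) ∣ u`
  have h1 : (p - 1) ∣ u := by
    have := (hB m).2 dvd_rfl
    rw [mul_comm (p - 1) m] at this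
    exact Nat.dvd_of_mul_dvd_mul_left hm0 this
  obtain ⟨c, hc⟩ := h1
  have hc1 : 1 ≤ c := by
    rcases Nat.eq_zero_or_pos c with h0 | h0
    · rw [h0, mul_zero] at hc; omega
    · exact h0
  -- `c` is coprime to `m`
  have hcop : Nat.Coprime c m := by
    set g := Nat.gcd c m with hg
    have hgm : g ∣ m := Nat.gcd_dvd_right c m
    have hgc : g ∣ c := Nat.gcd_dvd_left c m
    obtain ⟨j, hj⟩ := hgm
    obtain ⟨c', hc'⟩ := hgc
    have hg0 : 0 < g := Nat.gcd_pos_of_pos_right c hm0
    have h2 : (p - 1) * m ∣ j * u := by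
      refine ⟨c', ?_⟩
      rw [hc, hj, hc']
      ring
    have h3 : m ∣ j := (hB j).1 h2
    have hj0 : 0 < j := by
      rcases Nat.eq_zero_or_pos j with h0 | h0
      · rw [h0, mul_zero] at hj; omega
      · exact h0
    have h4 : m ≤ j := Nat.le_of_dvd hj0 h3
    have h5 : g * j ≤ 1 * j := by
      rw [one_mul, ← hj]; exact h4
    have h6 : g ≤ 1 := Nat.le_of_mul_le_mul_right h5 hj0
    have : g = 1 := by omega
    exact this
  -- `c` is odd
  have hcodd : ¬ 2 ∣ c := by
    intro h2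
    have := Nat.dvd_gcd h2 hm2
    rw [hcop.gcd_eq_one] at this
    omega
  obtain ⟨d, hd1, hd⟩ := hx
  have hyp : p ≤ y + 1 := by
    rw [hd]
    calc p = p ^ 1 := (pow_one p).symm
      _ ≤ p ^ d := Nat.pow_le_pow_right (by omega) hd1
  by_cases hm : m = 2
  · -- `m = 2` is impossible
    exfalso
    subst hm
    have hu' : p ≤ u + 1 := by
      rw [hc]
      have : (p - 1) * 1 ≤ (p - 1) * c := Nat.mul_le_mul le_rfl hc1
      omega
    have h3 : y * p ≤ 3 * (y + 1) := le_trans (Nat.mul_le_mul le_rfl hu') hb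
    have hp5 : p ≠ 3 := by
      intro h3'
      subst h3'
      norm_num at hmo
    have hp4 : p ≠ 4 := by
      intro h4
      subst h4
      exact absurd hp (by decide)
    have hp5' : 5 ≤ p := by omega
    have h4 : y * 5 ≤ y * p := Nat.mul_le_mul le_rfl hp5'
    omega
  · refine ⟨?_, hm⟩
    have hm4 : 4 ≤ m := by
      obtain ⟨t, ht⟩ := hm2
      omega
    have hnd : ¬ m ∣ 2 := fun h => by
      have := Nat.le_of_dvd (by norm_num) h
      omega
    have hd2 : 2 ≤ d := by
      rcases Nat.lt_or_ge d 2 with h | h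
      · exfalso
        have : d = 1 := by omega
        rw [this, pow_one] at hd
        exact hnd (hx2 hd)
      · exact h
    have hy2 : p * p ≤ y + 1 := by
      rw [hd]
      calc p * p = p ^ 2 := (sq p).symm
        _ ≤ p ^ d := Nat.pow_le_pow_right (by omega) hd2
    have hy9 : 9 ≤ y + 1 := le_trans (by nlinarith) hy2
    by_contra hne
    have hc3 : 3 ≤ c := by
      rcases Nat.lt_or_ge c 3 with h | h
      · exfalso
        interval_cases c
        · exact hne (by rw [hc, mul_one])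
        · exact hcodd dvd_rfl
      · exact h
    have hu3 : 3 * (p - 1) ≤ u := by
      rw [hc, mul_comm 3]
      exact Nat.mul_le_mul le_rfl hc3
    have h5 : y * (3 * (p - 1) + 1) ≤ (p + 2) * (y + 1) :=
      le_trans (Nat.mul_le_mul le_rfl (by omega))
        (le_trans hb (Nat.mul_le_mul (by omega) le_rfl))
    obtain ⟨q, hq⟩ : ∃ q, p = q + 3 := ⟨p - 3, by omega⟩
    subst hq
    have h6 : 3 * (q + 3 - 1) + 1 = 3 * q + 7 := by omega
    rw [h6] at h5
    nlinarith

end Fermat.Agent.S56.H846.FLCnt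

end
-- ===== PACK-END S56/H846/FLCnt/Arith.lean

-- ===== PACK-BEGIN S56/H194/SSAbs.lean
section


/-!
# S56 / W-FLAT-SS, piece FL-SS (abstract form): structure of an irreducible 2-dimensional
representation of a decomposition group in residue characteristic `p`   (helper194, Mathlib-only)

`G` any group (think `G_ℚ`), `D ⊇ I ⊇ W` subgroups (decomposition, inertia, "wild" = kernel of
the tame characters at a finite level), `φ ∈ D` (Frobenius), `ρ : G →* End_k V`, `dim V = 2`,
`k` a finite field of characteristic `p` odd.  Hypotheses (all at the level of `ρ`-images):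
* `W`, `I` are normalised by `D`; `ρ(w)` has `p`-power order for `w ∈ W`;
* commutators of `I` act like elements of `W`; for `τ ∈ I` some power `τ ^ N`, `p ∤ N`, acts like
  an element of `W`  (tame quotient is abelian of order prime to `p`);
* `ρ(D) = ⟨ρ φ⟩ · ρ(I)`;  `ρ(φ τ φ⁻¹) = ρ(τ ^ p · w)`  (Frobenius relation);
* every `ρ(g)` has its eigenvalues in `k`; `ρ|_D` is irreducible.
Conclusions (`SS.structure`): `ρ(W) = 1`; there is a basis `b` of `V` with `ρ(τ) = diag(χ τ, χ' τ)`
for `τ ∈ I`, `χ ≠ χ'` on `I`, `χ' = χ ^ p`, `χ = χ' ^ p`, and `ρ(φ)` swaps the two lines.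
Corollaries: every `ρ(σ)`, `σ ∈ D`, is diagonal or anti-diagonal in `b`, and `ρ(σ) ^ (2(|k|-1)) = 1`
(so `p ∤ |ρ(D)|`); `ρ(φ) ^ 2` is a scalar.
-/

set_option autoImplicit false

open Polynomial

namespace Fermat.Agent.S56.H194.SS

variable {k : Type*} [Field k] {V : Type*} [AddCommGroup V] [Module k V]

/-! ### A `p`-group acting linearly in characteristic `p` has a nonzero fixed vector -/

theorem exists_fixed_vector_of_pGroup [Finite k] {p : ℕ} [Fact p.Prime] [CharP k p]
    [Module.Finite k V] [Nontrivial V] (H : Subgroup (Module.End k V)ˣ) (hH : IsPGroup p H) :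
    ∃ v : V, v ≠ 0 ∧ ∀ h ∈ H, ((h : (Module.End k V)ˣ) : Module.End k V) v = v := by
  have : Finite V := Module.finite_of_finite k
  have hcard : p ∣ Nat.card V := by
    rw [Module.natCard_eq_pow_finrank (K := k) (V := V)]
    have hk : p ∣ Nat.card k := by
      have := Fintype.ofFinite k
      obtain ⟨n, -, hkn⟩ := FiniteField.card k p
      rw [Nat.card_eq_fintype_card, hkn]
      exact dvd_pow_self p n.ne_zero
    exact dvd_pow hk (Module.finrank_pos (R := k) (M := V)).ne'
  have h0 : (0 : V) ∈ MulAction.fixedPoints H V := by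
    intro h
    show ((h : (Module.End k V)ˣ) : Module.End k V) 0 = 0
    exact map_zero _
  obtain ⟨v, hv, hne⟩ := hH.exists_fixed_point_of_prime_dvd_card_of_fixed_point V hcard h0
  exact ⟨v, fun h => hne h.symm, fun h hh => hv ⟨h, hh⟩⟩


/-! ### Linear algebra in dimension 2 -/

section LinAlg

variable [Module.Finite k V]

/-- A root of the characteristic polynomial gives an eigenvector. -/
theorem exists_eigenvector {f : Module.End k V} {α β : k}
    (h : LinearMap.charpoly f = (X - C α) * (X - C β)) : ∃ v : V, v ≠ 0 ∧ f v = α • v := by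
  have hroot : (LinearMap.charpoly f).IsRoot α := by
    rw [h, IsRoot.def, eval_mul, eval_sub, eval_X, eval_C, sub_self, zero_mul]
  obtain ⟨v, hv⟩ := ((Module.End.hasEigenvalue_iff_isRoot_charpoly f α).mpr hroot).exists_hasEigenvector
  exact ⟨v, hv.2, hv.apply_eq_smul⟩

/-- Same for the second root. -/
theorem exists_eigenvector' {f : Module.End k V} {α β : k}
    (h : LinearMap.charpoly f = (X - C α) * (X - C β)) : ∃ v : V, v ≠ 0 ∧ f v = β • v := by
  rw [mul_comm] at h
  exact exists_eigenvector h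

/-- Cayley–Hamilton for a split characteristic polynomial. -/
theorem sub_mul_sub_eq_zero {f : Module.End k V} {α β : k}
    (h : LinearMap.charpoly f = (X - C α) * (X - C β)) :
    (f - α • (1 : Module.End k V)) * (f - β • (1 : Module.End k V)) = 0 := by
  have := LinearMap.aeval_self_charpoly f
  rw [h, map_mul, map_sub, map_sub, aeval_X, aeval_C, aeval_C, Algebra.algebraMap_eq_smul_one,
    Algebra.algebraMap_eq_smul_one] at this
  exact this

omit [Module.Finite k V] in
/-- `(α + n) ^ N = α ^ N + N α ^ (N - 1) n` when `n ^ 2 = 0`. -/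
theorem smul_one_add_pow_of_sq_zero (α : k) {n : Module.End k V} (hn : n * n = 0) (N : ℕ) :
    (α • (1 : Module.End k V) + n) ^ N =
      (α ^ N) • (1 : Module.End k V) + ((N : k) * α ^ (N - 1)) • n := by
  induction N with
  | zero => simp
  | succ N ih =>
    rw [pow_succ, ih]
    rcases Nat.eq_zero_or_pos N with h0 | hpos
    · subst h0
      simp
    · have hN : N - 1 + 1 = N := Nat.sub_add_cancel hpos
      have e1 : α ^ (N + 1 - 1) = α ^ (N - 1) * α := by
        rw [Nat.add_sub_cancel, ← pow_succ, hN]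
      rw [e1]
      simp only [add_mul, mul_add, smul_mul_assoc, mul_smul_comm, one_mul, mul_one, hn, smul_zero,
        add_zero, Nat.cast_succ]
      have e2 : α ^ (N + 1) = α ^ (N - 1) * α * α := by rw [← pow_succ, hN, ← pow_succ]
      have e3 : α ^ N = α ^ (N - 1) * α := by rw [← pow_succ, hN]
      rw [e2, e3]
      module

/-- An endomorphism of finite order prime to the characteristic with a double eigenvalue `α` is
the scalar `α`. -/
theorem eq_smul_one_of_pow_eq_one {f : Module.End k V} {α : k}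
    (h : LinearMap.charpoly f = (X - C α) * (X - C α)) {N : ℕ} (hN : (N : k) ≠ 0)
    (hf : f ^ N = 1) : f = α • (1 : Module.End k V) := by
  set n : Module.End k V := f - α • (1 : Module.End k V) with hn
  have hnn : n * n = 0 := sub_mul_sub_eq_zero h
  have hfn : f = α • (1 : Module.End k V) + n := by rw [hn]; abel
  obtain ⟨v, hv0, hv⟩ := exists_eigenvector h
  have hnv : n v = 0 := by
    rw [hn, LinearMap.sub_apply, hv, LinearMap.smul_apply, Module.End.one_apply, sub_self]
  have hpow := smul_one_add_pow_of_sq_zero α hnn N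
  rw [← hfn, hf] at hpow
  -- evaluate at `v`
  have hα : α ^ N = 1 := by
    have := congrArg (fun g : Module.End k V => g v) hpow
    simp only [Module.End.one_apply, LinearMap.add_apply, LinearMap.smul_apply, hnv, smul_zero,
      add_zero] at this
    by_contra hne
    have h1 : (1 - α ^ N) • v = 0 := by rw [sub_smul, one_smul, ← this, sub_self]
    rcases smul_eq_zero.mp h1 with h2 | h2
    · exact hne (sub_eq_zero.mp h2).symm
    · exact hv0 h2
  have hN0 : N ≠ 0 := by
    rintro rfl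
    simp at hN
  have hα0 : α ≠ 0 := by
    rintro rfl
    rw [zero_pow hN0] at hα
    exact zero_ne_one hα
  rw [hα, one_smul, left_eq_add] at hpow
  have hc : (N : k) * α ^ (N - 1) ≠ 0 := mul_ne_zero hN (pow_ne_zero _ hα0)
  have hn0 : n = 0 := (smul_eq_zero.mp hpow).resolve_left hc
  rw [hfn, hn0, add_zero]

end LinAlg


/-! ### Two eigenlines -/

section Eigen

/-- Eigenvectors for distinct eigenvalues are linearly independent. -/
theorem linearIndependent_pair_of_eigen {f : Module.End k V} {α β : k} (hαβ : α ≠ β)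
    {e₁ e₂ : V} (h₁ : f e₁ = α • e₁) (h₂ : f e₂ = β • e₂) (he₁ : e₁ ≠ 0) (he₂ : e₂ ≠ 0) :
    LinearIndependent k ![e₁, e₂] := by
  rw [LinearIndependent.pair_iff]
  intro s t hst
  have h := congrArg f hst
  rw [map_add, map_smul, map_smul, h₁, h₂, map_zero] at h
  -- s α e₁ + t β e₂ = 0 and α (s e₁ + t e₂) = 0
  have h' : (t * (β - α)) • e₂ = 0 := by
    have hα : α • (s • e₁ + t • e₂) = 0 := by rw [hst, smul_zero]
    have : (t * (β - α)) • e₂ = (s • α • e₁ + t • β • e₂) - α • (s • e₁ + t • e₂) := by module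
    rw [this, h, hα, sub_zero]
  have ht : t = 0 := by
    rcases smul_eq_zero.mp h' with h0 | h0
    · rcases mul_eq_zero.mp h0 with h1 | h1
      · exact h1
      · exact absurd (sub_eq_zero.mp h1).symm hαβ
    · exact absurd h0 he₂
  subst ht
  rw [zero_smul, add_zero] at hst
  exact ⟨(smul_eq_zero.mp hst).resolve_right he₁, rfl⟩

variable (hdim : Module.finrank k V = 2)

include hdim

/-- In dimension 2 a linearly independent pair spans. -/
theorem exists_eq_smul_add_smul {e₁ e₂ : V} (hli : LinearIndependent k ![e₁, e₂]) (x : V) :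
    ∃ s t : k, x = s • e₁ + t • e₂ := by
  have hcard : Fintype.card (Fin 2) = Module.finrank k V := by rw [hdim]; rfl
  have : Module.Finite k V := Module.finite_of_finrank_pos (by rw [hdim]; norm_num)
  let b := basisOfLinearIndependentOfCardEqFinrank hli hcard
  refine ⟨b.repr x 0, b.repr x 1, ?_⟩
  have hx := b.sum_repr x
  rw [Fin.sum_univ_two] at hx
  have hb0 : b 0 = e₁ := by
    rw [coe_basisOfLinearIndependentOfCardEqFinrank]; rfl
  have hb1 : b 1 = e₂ := by
    rw [coe_basisOfLinearIndependentOfCardEqFinrank]; rfl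
  rw [hb0, hb1] at hx
  exact hx.symm

/-- An eigenvector of `f = diag(α, β)` (`α ≠ β`) lies on one of the two eigenlines. -/
theorem eigen_mem_line {f : Module.End k V} {α β : k} (hαβ : α ≠ β)
    {e₁ e₂ : V} (h₁ : f e₁ = α • e₁) (h₂ : f e₂ = β • e₂) (he₁ : e₁ ≠ 0) (he₂ : e₂ ≠ 0)
    {x : V} {γ : k} (hx : f x = γ • x) :
    (∃ s : k, x = s • e₁) ∨ (∃ t : k, x = t • e₂) := by
  have hli := linearIndependent_pair_of_eigen hαβ h₁ h₂ he₁ he₂
  obtain ⟨s, t, rfl⟩ := exists_eq_smul_add_smul hdim hli x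
  rw [map_add, map_smul, map_smul, h₁, h₂] at hx
  have h0 : (s * (α - γ)) • e₁ + (t * (β - γ)) • e₂ = 0 := by
    have : (s * (α - γ)) • e₁ + (t * (β - γ)) • e₂ =
        (s • α • e₁ + t • β • e₂) - γ • (s • e₁ + t • e₂) := by module
    rw [this, hx, sub_self]
  obtain ⟨hs, ht⟩ := LinearIndependent.pair_iff.mp hli _ _ h0
  rcases mul_eq_zero.mp hs with hs0 | hs0
  · right
    exact ⟨t, by rw [hs0, zero_smul, zero_add]⟩
  · rcases mul_eq_zero.mp ht with ht0 | ht0
    · left
      exact ⟨s, by rw [ht0, zero_smul, add_zero]⟩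
    · exact absurd ((sub_eq_zero.mp hs0).trans (sub_eq_zero.mp ht0).symm) hαβ

/-- An endomorphism commuting with `f = diag(α, β)` (`α ≠ β`) preserves the first eigenline. -/
theorem commute_eigen_left {f g : Module.End k V} {α β : k} (hαβ : α ≠ β)
    {e₁ e₂ : V} (h₁ : f e₁ = α • e₁) (h₂ : f e₂ = β • e₂) (he₁ : e₁ ≠ 0) (he₂ : e₂ ≠ 0)
    (hfg : f * g = g * f) : ∃ c : k, g e₁ = c • e₁ := by
  have hx : f (g e₁) = α • g e₁ := by
    have := congrArg (fun u : Module.End k V => u e₁) hfg
    simp only [Module.End.mul_apply] at this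
    rw [this, h₁, map_smul]
  have hli := linearIndependent_pair_of_eigen hαβ h₁ h₂ he₁ he₂
  obtain ⟨s, t, hst⟩ := exists_eq_smul_add_smul hdim hli (g e₁)
  rw [hst, map_add, map_smul, map_smul, h₁, h₂] at hx
  have h0 : (t * (β - α)) • e₂ = 0 := by
    have : (t * (β - α)) • e₂ = (s • α • e₁ + t • β • e₂) - α • (s • e₁ + t • e₂) := by module
    rw [this, hx, sub_self]
  have ht : t = 0 := by
    rcases smul_eq_zero.mp h0 with h1 | h1
    · rcases mul_eq_zero.mp h1 with h2 | h2
      · exact h2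
      · exact absurd (sub_eq_zero.mp h2).symm hαβ
    · exact absurd h1 he₂
  exact ⟨s, by rw [hst, ht, zero_smul, add_zero]⟩

/-- An endomorphism commuting with `f = diag(α, β)` (`α ≠ β`) preserves the second eigenline. -/
theorem commute_eigen_right {f g : Module.End k V} {α β : k} (hαβ : α ≠ β)
    {e₁ e₂ : V} (h₁ : f e₁ = α • e₁) (h₂ : f e₂ = β • e₂) (he₁ : e₁ ≠ 0) (he₂ : e₂ ≠ 0)
    (hfg : f * g = g * f) : ∃ c : k, g e₂ = c • e₂ :=
  commute_eigen_left hdim (Ne.symm hαβ) h₂ h₁ he₂ he₁ hfg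

/-- A line in a plane is a proper nonzero subspace. -/
theorem span_singleton_ne_bot_top {v : V} (hv : v ≠ 0) :
    Submodule.span k {v} ≠ ⊥ ∧ Submodule.span k {v} ≠ ⊤ := by
  refine ⟨fun h => hv ((Submodule.span_singleton_eq_bot).mp h), fun h => ?_⟩
  have h1 : Module.finrank k (Submodule.span k {v}) = 1 := finrank_span_singleton hv
  rw [h, finrank_top, hdim] at h1
  norm_num at h1

end Eigen


/-! ### The abstract (SS) statement -/

/-- Hypotheses of the abstract (SS) statement: `D ⊇ I ⊇ W` decomposition / inertia / wild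
subgroups, `φ` a Frobenius, `ρ` a 2-dimensional representation over a field of characteristic
`p`, irreducible on `D`, with all eigenvalues in `k`. -/
structure Hyp [Module.Finite k V] (p : ℕ) {G : Type*} [Group G] (ρ : G →* Module.End k V)
    (D I W : Subgroup G) (φ : G) : Prop where
  finrank_eq : Module.finrank k V = 2
  I_le : I ≤ D
  W_le : W ≤ I
  I_norm : ∀ g ∈ D, ∀ τ ∈ I, g * τ * g⁻¹ ∈ I
  W_norm : ∀ g ∈ D, ∀ w ∈ W, g * w * g⁻¹ ∈ W
  W_pow : ∀ w ∈ W, ∃ a : ℕ, ρ w ^ p ^ a = 1
  comm : ∀ σ ∈ I, ∀ τ ∈ I, ∃ w ∈ W, ρ (σ * τ * σ⁻¹ * τ⁻¹) = ρ w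
  tame : ∀ τ ∈ I, ∃ N : ℕ, ¬ p ∣ N ∧ ∃ w ∈ W, ρ (τ ^ N) = ρ w
  phi_mem : φ ∈ D
  gen : ∀ σ ∈ D, ∃ n : ℕ, ∃ τ ∈ I, ρ σ = ρ (φ ^ n * τ)
  frob : ∀ τ ∈ I, ∃ w ∈ W, ρ (φ * τ * φ⁻¹) = ρ (τ ^ p * w)
  split : ∀ g : G, ∃ α β : k, LinearMap.charpoly (ρ g) = (X - C α) * (X - C β)
  irr : ∀ U : Submodule k V, (∀ σ ∈ D, ∀ x ∈ U, ρ σ x ∈ U) → U = ⊥ ∨ U = ⊤

namespace Hyp

variable [Module.Finite k V] {p : ℕ} [Fact p.Prime] [CharP k p] {G : Type*} [Group G]
  {ρ : G →* Module.End k V} {D I W : Subgroup G} {φ : G}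

omit [Module.Finite k V] [Fact p.Prime] [CharP k p] in
theorem rho_mul_inv (g : G) : ρ g * ρ g⁻¹ = 1 := by
  rw [← map_mul, mul_inv_cancel, map_one]

omit [Module.Finite k V] [Fact p.Prime] [CharP k p] in
theorem rho_inv_mul (g : G) : ρ g⁻¹ * ρ g = 1 := by
  rw [← map_mul, inv_mul_cancel, map_one]

omit [Module.Finite k V] [Fact p.Prime] [CharP k p] in
theorem rho_injective (g : G) : Function.Injective (ρ g) := by
  intro x y hxy
  have := congrArg (ρ g⁻¹) hxy
  rwa [← Module.End.mul_apply, ← Module.End.mul_apply, rho_inv_mul, Module.End.one_apply,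
    Module.End.one_apply] at this

variable (h : _root_.Fermat.Agent.S56.H194.SS.Hyp p ρ D I W φ)

include h

omit [Fact p.Prime] [CharP k p] in
theorem nontrivial : Nontrivial V :=
  Module.nontrivial_of_finrank_pos (R := k) (by rw [h.finrank_eq]; norm_num)

/-- (SS-1) the wild subgroup acts trivially. -/
theorem wild_trivial [Finite k] : ∀ w ∈ W, ρ w = 1 := by
  have := h.nontrivial
  -- the image of `W` in `GL(V)` is a `p`-group
  set H : Subgroup (Module.End k V)ˣ := W.map ρ.toHomUnits with hH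
  have hP : IsPGroup p H := by
    rintro ⟨g, hg⟩
    obtain ⟨w, hw, rfl⟩ := Subgroup.mem_map.mp hg
    obtain ⟨a, ha⟩ := h.W_pow w hw
    refine ⟨a, ?_⟩
    apply Subtype.ext
    apply Units.ext
    simpa using ha
  obtain ⟨v, hv0, hv⟩ := exists_fixed_vector_of_pGroup H hP
  have hvW : ∀ w ∈ W, ρ w v = v := fun w hw => hv (ρ.toHomUnits w) (Subgroup.mem_map_of_mem _ hw)
  -- the space of `W`-fixed vectors is `D`-stable
  let U : Submodule k V :=
    { carrier := {x | ∀ w ∈ W, ρ w x = x}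
      add_mem' := fun {x y} hx hy w hw => by rw [map_add, hx w hw, hy w hw]
      zero_mem' := fun w _ => map_zero _
      smul_mem' := fun c x hx w hw => by rw [map_smul, hx w hw] }
  have hU : ∀ σ ∈ D, ∀ x ∈ U, ρ σ x ∈ U := by
    intro σ hσ x hx w hw
    have hconj : σ⁻¹ * w * σ ∈ W := by
      have := h.W_norm σ⁻¹ (inv_mem hσ) w hw
      rwa [inv_inv] at this
    have h1 : ρ w (ρ σ x) = ρ σ (ρ (σ⁻¹ * w * σ) x) := by
      rw [← Module.End.mul_apply, ← Module.End.mul_apply, ← map_mul, ← map_mul]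
      congr 2
      group
    rw [h1, hx _ hconj]
  rcases h.irr U hU with hbot | htop
  · exact absurd ((Submodule.eq_bot_iff U).mp hbot v hvW) hv0
  · intro w hw
    ext x
    have hx : x ∈ U := htop ▸ Submodule.mem_top
    exact hx w hw

/-- (SS-2) inertia acts through commuting endomorphisms. -/
theorem inertia_comm [Finite k] {σ τ : G} (hσ : σ ∈ I) (hτ : τ ∈ I) :
    ρ σ * ρ τ = ρ τ * ρ σ := by
  obtain ⟨w, hw, hc⟩ := h.comm σ hσ τ hτ
  rw [h.wild_trivial w hw] at hc
  have : ρ σ * ρ τ = ρ (σ * τ * σ⁻¹ * τ⁻¹) * (ρ τ * ρ σ) := by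
    rw [← map_mul, ← map_mul, ← map_mul]
    congr 1
    group
  rw [this, hc, one_mul]

/-- (SS-2) inertia acts through endomorphisms of order prime to `p`. -/
theorem inertia_pow [Finite k] {τ : G} (hτ : τ ∈ I) : ∃ N : ℕ, (N : k) ≠ 0 ∧ ρ τ ^ N = 1 := by
  obtain ⟨N, hN, w, hw, hc⟩ := h.tame τ hτ
  refine ⟨N, fun h0 => hN ((CharP.cast_eq_zero_iff k p N).mp h0), ?_⟩
  rw [← map_pow, hc, h.wild_trivial w hw]

/-- (SS-2) each inertia element acts as a scalar or with two distinct eigenvalues. -/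
theorem inertia_scalar_or_regular [Finite k] {τ : G} (hτ : τ ∈ I) :
    (∃ α : k, ρ τ = α • (1 : Module.End k V)) ∨
      ∃ α β : k, α ≠ β ∧ LinearMap.charpoly (ρ τ) = (X - C α) * (X - C β) := by
  obtain ⟨α, β, hαβ⟩ := h.split τ
  by_cases hne : α = β
  · subst hne
    obtain ⟨N, hN, hpow⟩ := h.inertia_pow hτ
    exact Or.inl ⟨α, eq_smul_one_of_pow_eq_one hαβ hN hpow⟩
  · exact Or.inr ⟨α, β, hne, hαβ⟩

omit [Fact p.Prime] [CharP k p] in
/-- A line stable under `ρ φ` and `ρ(I)` is `D`-stable: impossible. -/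
theorem not_stable_line {v : V} (hv : v ≠ 0) (hφ : ∃ c : k, ρ φ v = c • v)
    (hI : ∀ τ ∈ I, ∃ c : k, ρ τ v = c • v) : False := by
  have hstab : ∀ σ ∈ D, ∀ x ∈ Submodule.span k {v}, ρ σ x ∈ Submodule.span k {v} := by
    intro σ hσ x hx
    obtain ⟨n, τ, hτ, hστ⟩ := h.gen σ hσ
    obtain ⟨a, rfl⟩ := Submodule.mem_span_singleton.mp hx
    obtain ⟨c, hc⟩ := hI τ hτ
    obtain ⟨d, hd⟩ := hφ
    have hpow : ∀ m : ℕ, (ρ φ ^ m) v = d ^ m • v := by
      intro m
      induction m with
      | zero => simp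
      | succ m ih =>
        rw [pow_succ, Module.End.mul_apply, hd, map_smul, ih, smul_smul, pow_succ, mul_comm]
    rw [hστ, map_mul, map_pow, Module.End.mul_apply, map_smul, hc, map_smul, map_smul, hpow]
    exact Submodule.smul_mem _ _ (Submodule.smul_mem _ _ (Submodule.smul_mem _ _
      (Submodule.mem_span_singleton_self v)))
  obtain ⟨h1, h2⟩ := span_singleton_ne_bot_top h.finrank_eq hv
  rcases h.irr _ hstab with hb | ht
  · exact h1 hb
  · exact h2 ht

/-- (SS-3) some inertia element acts with two distinct eigenvalues. -/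
theorem exists_regular [Finite k] :
    ∃ τ₀ ∈ I, ∃ α β : k, α ≠ β ∧ LinearMap.charpoly (ρ τ₀) = (X - C α) * (X - C β) := by
  by_contra hcon
  have hscal : ∀ τ ∈ I, ∃ α : k, ρ τ = α • (1 : Module.End k V) := by
    intro τ hτ
    rcases h.inertia_scalar_or_regular hτ with hs | ⟨α, β, hαβ, hc⟩
    · exact hs
    · exact absurd ⟨τ, hτ, α, β, hαβ, hc⟩ hcon
  obtain ⟨α, β, hαβ⟩ := h.split φ
  obtain ⟨v, hv0, hv⟩ := exists_eigenvector hαβ
  refine h.not_stable_line hv0 ⟨α, hv⟩ fun τ hτ => ?_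
  obtain ⟨c, hc⟩ := hscal τ hτ
  exact ⟨c, by rw [hc, LinearMap.smul_apply, Module.End.one_apply]⟩


omit [Module.Finite k V] [Fact p.Prime] [CharP k p] h in
theorem pow_apply_eigen {f : Module.End k V} {c : k} {v : V} (hf : f v = c • v) (m : ℕ) :
    (f ^ m) v = c ^ m • v := by
  induction m with
  | zero => simp
  | succ m ih => rw [pow_succ, Module.End.mul_apply, hf, map_smul, ih, smul_smul, pow_succ, mul_comm]

/-- (SS-4) the Frobenius relation on `ρ`-images: `ρ φ * ρ τ = ρ τ ^ p * ρ φ` for `τ ∈ I`. -/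
theorem frob_rel [Finite k] {τ : G} (hτ : τ ∈ I) : ρ φ * ρ τ = ρ τ ^ p * ρ φ := by
  obtain ⟨w, hw, hf⟩ := h.frob τ hτ
  have h1 : ρ (τ ^ p * w) = ρ τ ^ p := by
    rw [map_mul, h.wild_trivial w hw, mul_one, map_pow]
  rw [h1] at hf
  rw [← hf, ← map_mul, ← map_mul]
  congr 1
  group

/-- **(SS) structure theorem.**  There is a basis `b` of `V` in which inertia acts diagonally by
two characters `χ ≠ χ'` with `χ' = χ ^ p`, `χ = χ' ^ p`, and Frobenius swaps the two lines. -/
theorem structure_thm [Finite k] :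
    ∃ (b : Module.Basis (Fin 2) k V) (χ χ' : G → k) (a a' : k),
      (∀ τ ∈ I, ρ τ (b 0) = χ τ • b 0 ∧ ρ τ (b 1) = χ' τ • b 1) ∧
      (∃ τ ∈ I, χ τ ≠ χ' τ) ∧
      (∀ τ ∈ I, χ' τ = χ τ ^ p ∧ χ τ = χ' τ ^ p) ∧
      a ≠ 0 ∧ a' ≠ 0 ∧ ρ φ (b 0) = a • b 1 ∧ ρ φ (b 1) = a' • b 0 := by
  obtain ⟨τ₀, hτ₀, α, β, hαβ, hc⟩ := h.exists_regular
  obtain ⟨e₁, he₁, h₁⟩ := exists_eigenvector hc
  obtain ⟨e₂, he₂, h₂⟩ := exists_eigenvector' hc
  have hdim := h.finrank_eq
  have hli := linearIndependent_pair_of_eigen hαβ h₁ h₂ he₁ he₂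
  have hcard : Fintype.card (Fin 2) = Module.finrank k V := by rw [hdim]; rfl
  set b := basisOfLinearIndependentOfCardEqFinrank hli hcard with hb
  have hb0 : b 0 = e₁ := by rw [hb, coe_basisOfLinearIndependentOfCardEqFinrank]; rfl
  have hb1 : b 1 = e₂ := by rw [hb, coe_basisOfLinearIndependentOfCardEqFinrank]; rfl
  -- inertia is diagonal
  have hdiag₁ : ∀ τ ∈ I, ∃ c : k, ρ τ e₁ = c • e₁ := fun τ hτ =>
    commute_eigen_left hdim hαβ h₁ h₂ he₁ he₂ (h.inertia_comm hτ₀ hτ)
  have hdiag₂ : ∀ τ ∈ I, ∃ c : k, ρ τ e₂ = c • e₂ := fun τ hτ =>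
    commute_eigen_right hdim hαβ h₁ h₂ he₁ he₂ (h.inertia_comm hτ₀ hτ)
  -- Frobenius swaps the lines
  have hφinv : ∀ τ ∈ I, φ⁻¹ * τ * φ ∈ I := by
    intro τ hτ
    have := h.I_norm φ⁻¹ (inv_mem h.phi_mem) τ hτ
    rwa [inv_inv] at this
  have hφeig : ∀ e : V, (∃ c : k, ρ (φ⁻¹ * τ₀ * φ) e = c • e) →
      ∃ γ : k, ρ τ₀ (ρ φ e) = γ • ρ φ e := by
    rintro e ⟨c, hce⟩
    refine ⟨c, ?_⟩
    have : ρ τ₀ (ρ φ e) = ρ φ (ρ (φ⁻¹ * τ₀ * φ) e) := by
      rw [← Module.End.mul_apply, ← Module.End.mul_apply, ← map_mul, ← map_mul]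
      congr 2
      group
    rw [this, hce, map_smul]
  have hφ₁ : ∃ a : k, a ≠ 0 ∧ ρ φ e₁ = a • e₂ := by
    obtain ⟨γ, hγ⟩ := hφeig e₁ (hdiag₁ _ (hφinv τ₀ hτ₀))
    rcases eigen_mem_line hdim hαβ h₁ h₂ he₁ he₂ hγ with ⟨s, hs⟩ | ⟨t, ht⟩
    · exact (h.not_stable_line he₁ ⟨s, hs⟩ hdiag₁).elim
    · refine ⟨t, ?_, ht⟩
      rintro rfl
      rw [zero_smul] at ht
      exact he₁ (rho_injective φ (ht.trans (map_zero _).symm))
  have hφ₂ : ∃ a' : k, a' ≠ 0 ∧ ρ φ e₂ = a' • e₁ := by
    obtain ⟨γ, hγ⟩ := hφeig e₂ (hdiag₂ _ (hφinv τ₀ hτ₀))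
    rcases eigen_mem_line hdim hαβ h₁ h₂ he₁ he₂ hγ with ⟨s, hs⟩ | ⟨t, ht⟩
    · refine ⟨s, ?_, hs⟩
      rintro rfl
      rw [zero_smul] at hs
      exact he₂ (rho_injective φ (hs.trans (map_zero _).symm))
    · exact (h.not_stable_line he₂ ⟨t, ht⟩ hdiag₂).elim
  obtain ⟨a, ha, hφe₁⟩ := hφ₁
  obtain ⟨a', ha', hφe₂⟩ := hφ₂
  -- the characters
  classical
  let χ : G → k := fun g => if hg : ∃ c : k, ρ g e₁ = c • e₁ then hg.choose else 0
  let χ' : G → k := fun g => if hg : ∃ c : k, ρ g e₂ = c • e₂ then hg.choose else 0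
  have hχ : ∀ τ ∈ I, ρ τ e₁ = χ τ • e₁ := by
    intro τ hτ
    have hg := hdiag₁ τ hτ
    show ρ τ e₁ = (if hg : ∃ c : k, ρ τ e₁ = c • e₁ then hg.choose else 0) • e₁
    rw [dif_pos hg]
    exact hg.choose_spec
  have hχ' : ∀ τ ∈ I, ρ τ e₂ = χ' τ • e₂ := by
    intro τ hτ
    have hg := hdiag₂ τ hτ
    show ρ τ e₂ = (if hg : ∃ c : k, ρ τ e₂ = c • e₂ then hg.choose else 0) • e₂
    rw [dif_pos hg]
    exact hg.choose_spec
  refine ⟨b, χ, χ', a, a', ?_, ?_, ?_, ha, ha', ?_, ?_⟩
  · intro τ hτ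
    rw [hb0, hb1]
    exact ⟨hχ τ hτ, hχ' τ hτ⟩
  · refine ⟨τ₀, hτ₀, ?_⟩
    have e1 : χ τ₀ = α := by
      have := (hχ τ₀ hτ₀).symm.trans h₁
      exact smul_left_injective k he₁ this
    have e2 : χ' τ₀ = β := by
      have := (hχ' τ₀ hτ₀).symm.trans h₂
      exact smul_left_injective k he₂ this
    rw [e1, e2]
    exact hαβ
  · intro τ hτ
    have hrel := h.frob_rel hτ
    constructor
    · -- apply to `e₂`
      have := congrArg (fun u : Module.End k V => u e₂) hrel
      simp only [Module.End.mul_apply] at this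
      rw [hχ' τ hτ, map_smul, hφe₂, map_smul, pow_apply_eigen (hχ τ hτ), smul_smul, smul_smul] at this
      have h3 : χ' τ * a' = a' * χ τ ^ p := smul_left_injective k he₁ this
      exact mul_right_cancel₀ ha' (h3.trans (mul_comm _ _))
    · -- apply to `e₁`
      have := congrArg (fun u : Module.End k V => u e₁) hrel
      simp only [Module.End.mul_apply] at this
      rw [hχ τ hτ, map_smul, hφe₁, map_smul, pow_apply_eigen (hχ' τ hτ), smul_smul, smul_smul] at this
      have h3 : χ τ * a = a * χ' τ ^ p := smul_left_injective k he₂ this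
      exact mul_right_cancel₀ ha (h3.trans (mul_comm _ _))
  · rw [hb0, hb1]; exact hφe₁
  · rw [hb0, hb1]; exact hφe₂

end Hyp

end Fermat.Agent.S56.H194.SS

end
-- ===== PACK-END S56/H194/SSAbs.lean

-- ===== PACK-BEGIN S56/H194/IRFin.lean
section


/-!
# S56 / W-FLAT-SS, RamCount: inflation–restriction for a finite group (helper194, Mathlib only)

`Γ` a group, `ρ : Γ →* End_k V`, `c : Γ → End_k V` an `Ad ρ`-cocycle
(`c (σ τ) = c σ + ρ σ · c τ · ρ σ⁻¹`).

* `adCocycle_eq_of_mul_mem` : if `c` vanishes on a subgroup `H`, it is constant on left cosets.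
* `exists_coboundary_of_vanish` (IR): if `c` vanishes on a subgroup `H` of finite index
  invertible in `k`, then `c σ = ρ σ · m · ρ σ⁻¹ - m` for some `m` (averaging).
* `natCast_card_quotient_ne_zero` : if `σ ^ N ∈ H` for all `σ`, `H` normal, `p ∤ N`, `Γ` finite,
  then `#(Γ ⧸ H)` is invertible in a field of characteristic `p`.
* `exists_coboundary_of_vanish_ker` : the combination used at the end of RamCount: if every
  `ρ σ ^ N = 1` with `p ∤ N` and `c` vanishes on `ker ρ`, then `c` is a coboundary.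
-/

set_option autoImplicit false

namespace Fermat.Agent.S56.H194.IR

variable {k : Type*} [Field k] {V : Type*} [AddCommGroup V] [Module k V]
  {Γ : Type*} [Group Γ] (ρ : Γ →* Module.End k V) (c : Γ → Module.End k V)

theorem adCocycle_eq_of_mul_mem
    (hc : ∀ σ τ, c (σ * τ) = c σ + ρ σ * c τ * ρ σ⁻¹) (H : Subgroup Γ)
    (hH : ∀ σ ∈ H, c σ = 0) {σ τ : Γ} (h : σ⁻¹ * τ ∈ H) : c σ = c τ := by
  have h1 := hc σ (σ⁻¹ * τ)
  rw [mul_inv_cancel_left, hH _ h, mul_zero, zero_mul, add_zero] at h1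
  exact h1.symm

/-- **(IR)** averaging: a cocycle vanishing on a subgroup of index invertible in `k` is a
coboundary. -/
theorem exists_coboundary_of_vanish
    (hc : ∀ σ τ, c (σ * τ) = c σ + ρ σ * c τ * ρ σ⁻¹) (H : Subgroup Γ) [Finite (Γ ⧸ H)]
    (hH : ∀ σ ∈ H, c σ = 0) (hN : (Nat.card (Γ ⧸ H) : k) ≠ 0) :
    ∃ m : Module.End k V, ∀ σ, c σ = ρ σ * m * ρ σ⁻¹ - m := by
  classical
  let _ : Fintype (Γ ⧸ H) := Fintype.ofFinite _
  -- the cocycle on the coset space
  let cbar : Γ ⧸ H → Module.End k V := fun x =>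
    Quotient.liftOn' x c (fun a b hab =>
      adCocycle_eq_of_mul_mem ρ c hc H hH (QuotientGroup.leftRel_apply.mp hab))
  have hcbar : ∀ σ : Γ, cbar (σ : Γ ⧸ H) = c σ := fun σ => rfl
  set S : Module.End k V := ∑ x : Γ ⧸ H, cbar x with hS
  have key : ∀ σ : Γ, S = (Nat.card (Γ ⧸ H) : k) • c σ + ρ σ * S * ρ σ⁻¹ := by
    intro σ
    have h1 : ∑ x : Γ ⧸ H, cbar (σ • x) = S := by
      rw [hS]
      exact Fintype.sum_equiv (MulAction.toPerm σ) _ _ (fun x => rfl)
    have h2 : ∀ x : Γ ⧸ H, cbar (σ • x) = c σ + ρ σ * cbar x * ρ σ⁻¹ := by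
      intro x
      induction x using QuotientGroup.induction_on with
      | H τ =>
        show cbar ((σ * τ : Γ) : Γ ⧸ H) = _
        rw [hcbar, hcbar, hc]
    have h5 : ∑ x : Γ ⧸ H, cbar (σ • x) =
        (Nat.card (Γ ⧸ H) : k) • c σ + ρ σ * S * ρ σ⁻¹ := by
      rw [Finset.sum_congr rfl (fun x _ => h2 x), Finset.sum_add_distrib, Finset.sum_const,
        ← Finset.sum_mul, ← Finset.mul_sum, Finset.card_univ, Nat.card_eq_fintype_card,
        Nat.cast_smul_eq_nsmul]
    rw [← h5, h1]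
  refine ⟨-((Nat.card (Γ ⧸ H) : k)⁻¹ • S), fun σ => ?_⟩
  have h := key σ
  have h3 : (Nat.card (Γ ⧸ H) : k) • c σ = S - ρ σ * S * ρ σ⁻¹ := by
    rw [eq_sub_iff_add_eq]
    exact h.symm
  have h4 : c σ = (Nat.card (Γ ⧸ H) : k)⁻¹ • (S - ρ σ * S * ρ σ⁻¹) := by
    rw [← h3, smul_smul, inv_mul_cancel₀ hN, one_smul]
  rw [h4, mul_neg, neg_mul, mul_smul_comm, smul_mul_assoc, smul_sub]
  abel

/-- If the quotient `Γ ⧸ H` has exponent prime to `p`, its order is invertible in
characteristic `p`. -/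
theorem natCast_card_quotient_ne_zero [Finite Γ] (p : ℕ) [Fact p.Prime] [CharP k p]
    (H : Subgroup Γ) [H.Normal] (N : ℕ) (hpN : ¬ p ∣ N) (hpow : ∀ σ : Γ, σ ^ N ∈ H) :
    (Nat.card (Γ ⧸ H) : k) ≠ 0 := by
  intro h0
  have hdvd : p ∣ Nat.card (Γ ⧸ H) := (CharP.cast_eq_zero_iff k p _).mp h0
  obtain ⟨x, hx⟩ := exists_prime_orderOf_dvd_card' p hdvd
  have hxN : x ^ N = 1 := by
    induction x using QuotientGroup.induction_on with
    | H σ =>
      rw [← QuotientGroup.mk_pow]
      exact (QuotientGroup.eq_one_iff _).mpr (hpow σ)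
  have := orderOf_dvd_of_pow_eq_one hxN
  rw [hx] at this
  exact hpN this

/-- The form used in RamCount: the image of `ρ` has exponent `N` prime to `p`, and the cocycle
vanishes on `ker ρ`. -/
theorem exists_coboundary_of_vanish_ker [Finite Γ] (p : ℕ) [Fact p.Prime] [CharP k p]
    (hc : ∀ σ τ, c (σ * τ) = c σ + ρ σ * c τ * ρ σ⁻¹)
    (N : ℕ) (hpN : ¬ p ∣ N) (hpow : ∀ σ : Γ, ρ σ ^ N = 1)
    (hker : ∀ σ, ρ σ = 1 → c σ = 0) :
    ∃ m : Module.End k V, ∀ σ, c σ = ρ σ * m * ρ σ⁻¹ - m := by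
  refine exists_coboundary_of_vanish ρ c hc ρ.ker (fun σ hσ => hker σ (MonoidHom.mem_ker.mp hσ))
    (natCast_card_quotient_ne_zero p ρ.ker N hpN (fun σ => ?_))
  rw [MonoidHom.mem_ker, map_pow]
  exact hpow σ

end Fermat.Agent.S56.H194.IR

end
-- ===== PACK-END S56/H194/IRFin.lean

-- ===== PACK-BEGIN S56/H384/ShapeLA.lean
section


/-!
# S56 / W-FLAT-SS, leaf RCShape (helper384): linear algebra and arithmetic of the orders

Mathlib-only tools for `FL.RCShapeStatement`:

* `exists_eigenbasis` : `t, f ∈ GL₂(k)` with `f t = t ^ p f`, split characteristic polynomials,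
  `t` of order prime to the characteristic and no common stable line: in a suitable basis
  `t = diag(χ, χ')`, `f` is antidiagonal, `χ ≠ χ'`, `χ' = χ ^ p`, `χ = χ' ^ p`.
* `ad_coords` : the action of `Ad t`, `Ad f` in the coordinates `z₁₁, z₁₂, z₂₁`.
* `order_arith` : `ord (x ^ (p + 1)) = p - 1` ⟹ `ord x = (p - 1) m`, `m = ord (x ^ (p - 1))`,
  `m ∣ p + 1`, `(p + 1) / m` odd.
-/

set_option autoImplicit false
set_option linter.unusedSectionVars false
set_option linter.style.haveILetI false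

namespace Fermat.Agent.S56.H384

open Polynomial Module

section LA

variable {k V : Type*} [Field k] [AddCommGroup V] [Module k V] [Module.Finite k V]

/-- An endomorphism of finite order prime to the characteristic whose characteristic polynomial
is `(X - χ)²` is the scalar `χ`. -/
theorem eq_smul_one_of_sq_of_pow {t : Module.End k V} {χ : k} {N : ℕ} (hN : (N : k) ≠ 0)
    (htN : t ^ N = 1) (hcp : LinearMap.charpoly t = (X - C χ) * (X - C χ)) : t = χ • 1 := by
  have h1 : minpoly k t ∣ (X - C χ) ^ 2 := by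
    rw [pow_two, ← hcp]
    exact LinearMap.minpoly_dvd_charpoly t
  have h2 : minpoly k t ∣ X ^ N - C 1 := minpoly.dvd k t (by simp [htN])
  have hsq : Squarefree (minpoly k t) :=
    (separable_X_pow_sub_C (1 : k) hN one_ne_zero).squarefree.squarefree_of_dvd h2
  have h3 : minpoly k t ∣ X - C χ :=
    (hsq.dvd_pow_iff_dvd two_ne_zero).mp h1
  have h4 : aeval t (X - C χ) = 0 := by
    obtain ⟨q, hq⟩ := h3
    rw [hq, map_mul, minpoly.aeval, zero_mul]
  have h5 : t - algebraMap k (Module.End k V) χ = 0 := by simpa using h4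
  rw [sub_eq_zero] at h5
  rw [h5, Algebra.algebraMap_eq_smul_one]

theorem hasEigenvalue_of_charpoly {t : Module.End k V} {χ χ' : k}
    (hcp : LinearMap.charpoly t = (X - C χ) * (X - C χ')) :
    t.HasEigenvalue χ ∧ t.HasEigenvalue χ' := by
  constructor <;> rw [Module.End.hasEigenvalue_iff_isRoot_charpoly, hcp] <;> simp [IsRoot]

/-- A line spanned by a nonzero vector in a plane is neither `⊥` nor `⊤`. -/
theorem span_singleton_ne (hV : finrank k V = 2) {v : V} (hv : v ≠ 0) :
    (k ∙ v) ≠ ⊥ ∧ (k ∙ v) ≠ ⊤ := by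
  constructor
  · intro h
    exact hv ((Submodule.span_singleton_eq_bot).mp h)
  · intro h
    have h1 : finrank k (k ∙ v) = 1 := finrank_span_singleton hv
    rw [h, finrank_top, hV] at h1
    omega

theorem det_of_charpoly (hV : finrank k V = 2) {t : Module.End k V} {χ χ' : k}
    (hcp : LinearMap.charpoly t = (X - C χ) * (X - C χ')) : LinearMap.det t = χ * χ' := by
  rw [LinearMap.det_eq_sign_charpoly_coeff, hV, hcp, mul_coeff_zero]
  simp

/-- **Eigenbasis.** -/
theorem exists_eigenbasis (hV : finrank k V = 2) {p : ℕ} (t f : Module.End k V)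
    (hrel : f * t = t ^ p * f)
    (ht : ∃ α β : k, LinearMap.charpoly t = (X - C α) * (X - C β))
    (hf : ∃ α β : k, LinearMap.charpoly f = (X - C α) * (X - C β))
    {N : ℕ} (hN : (N : k) ≠ 0) (htN : t ^ N = 1)
    (hirr : ∀ U : Submodule k V, (∀ x ∈ U, t x ∈ U) → (∀ x ∈ U, f x ∈ U) → U = ⊥ ∨ U = ⊤) :
    ∃ (b : Basis (Fin 2) k V) (χ χ' β γ : k), χ ≠ χ' ∧ β ≠ 0 ∧ γ ≠ 0 ∧
      t (b 0) = χ • b 0 ∧ t (b 1) = χ' • b 1 ∧ f (b 0) = β • b 1 ∧ f (b 1) = γ • b 0 ∧
      χ' = χ ^ p ∧ χ = χ' ^ p ∧ LinearMap.det t = χ * χ' := by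
  classical
  obtain ⟨χ, χ', hcp⟩ := ht
  obtain ⟨hev1, hev2⟩ := hasEigenvalue_of_charpoly hcp
  -- `χ ≠ χ'`
  have hne : χ ≠ χ' := by
    rintro rfl
    have hts : t = χ • 1 := eq_smul_one_of_sq_of_pow hN htN hcp
    obtain ⟨φ1, φ2, hfcp⟩ := hf
    obtain ⟨v, hv⟩ := (hasEigenvalue_of_charpoly hfcp).1.exists_hasEigenvector
    have hv0 : v ≠ 0 := hv.2
    have hfv : f v = φ1 • v := hv.apply_eq_smul
    rcases hirr (k ∙ v) (fun x hx => by
        rw [hts]
        simpa using Submodule.smul_mem _ χ hx)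
      (fun x hx => by
        obtain ⟨c, rfl⟩ := Submodule.mem_span_singleton.mp hx
        rw [map_smul, hfv]
        exact Submodule.smul_mem _ _ (Submodule.smul_mem _ _ (Submodule.mem_span_singleton_self v)))
      with h | h
    · exact (span_singleton_ne hV hv0).1 h
    · exact (span_singleton_ne hV hv0).2 h
  obtain ⟨v₁, hv₁⟩ := hev1.exists_hasEigenvector
  obtain ⟨v₂, hv₂⟩ := hev2.exists_hasEigenvector
  have hli : LinearIndependent k ![v₁, v₂] := by
    refine Module.End.eigenvectors_linearIndependent' t ![χ, χ'] ?_ ![v₁, v₂] ?_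
    · intro i j hij
      fin_cases i <;> fin_cases j <;> simp_all
    · intro i
      fin_cases i
      · exact hv₁
      · exact hv₂
  let b : Basis (Fin 2) k V := basisOfLinearIndependentOfCardEqFinrank hli (by simp [hV])
  have hb0 : b 0 = v₁ := by simp [b]
  have hb1 : b 1 = v₂ := by simp [b]
  have ht0 : t (b 0) = χ • b 0 := by rw [hb0]; exact hv₁.apply_eq_smul
  have ht1 : t (b 1) = χ' • b 1 := by rw [hb1]; exact hv₂.apply_eq_smul
  have htp0 : (t ^ p) (b 0) = χ ^ p • b 0 := by rw [hb0]; exact hv₁.pow_apply p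
  have htp1 : (t ^ p) (b 1) = χ' ^ p • b 1 := by rw [hb1]; exact hv₂.pow_apply p
  -- expansions of `f (b i)`
  have hexp : ∀ x : V, x = b.repr x 0 • b 0 + b.repr x 1 • b 1 := fun x => by
    conv_lhs => rw [← b.sum_repr x, Fin.sum_univ_two]
  set α := b.repr (f (b 0)) 0 with hα
  set β := b.repr (f (b 0)) 1 with hβ
  set γ := b.repr (f (b 1)) 0 with hγ
  set δ := b.repr (f (b 1)) 1 with hδ
  have hf0 : f (b 0) = α • b 0 + β • b 1 := hexp _
  have hf1 : f (b 1) = γ • b 0 + δ • b 1 := hexp _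
  -- coefficient comparison
  have hcoef : ∀ {c₀ c₁ e₀ e₁ : k}, c₀ • b 0 + c₁ • b 1 = e₀ • b 0 + e₁ • b 1 →
      c₀ = e₀ ∧ c₁ = e₁ := by
    intro c₀ c₁ e₀ e₁ h
    have h0 := congrArg (fun x => b.repr x 0) h
    have h1 := congrArg (fun x => b.repr x 1) h
    simp only [map_add, map_smul, Basis.repr_self, Finsupp.add_apply, Finsupp.smul_apply,
      Finsupp.single_apply, smul_eq_mul] at h0 h1
    constructor
    · simpa using h0
    · simpa using h1
  -- the relation on `b 0`, `b 1`
  have hr0 : (χ * α) • b 0 + (χ * β) • b 1 = (α * χ ^ p) • b 0 + (β * χ' ^ p) • b 1 := by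
    have h := congrArg (fun g : Module.End k V => g (b 0)) hrel
    simp only [Module.End.mul_apply] at h
    rw [ht0, map_smul, hf0, map_add, map_smul, map_smul, htp0, htp1] at h
    rw [smul_add, smul_smul, smul_smul, smul_smul, smul_smul] at h
    exact h
  have hr1 : (χ' * γ) • b 0 + (χ' * δ) • b 1 = (γ * χ ^ p) • b 0 + (δ * χ' ^ p) • b 1 := by
    have h := congrArg (fun g : Module.End k V => g (b 1)) hrel
    simp only [Module.End.mul_apply] at h
    rw [ht1, map_smul, hf1, map_add, map_smul, map_smul, htp0, htp1] at h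
    rw [smul_add, smul_smul, smul_smul, smul_smul, smul_smul] at h
    exact h
  obtain ⟨e1, e2⟩ := hcoef hr0
  obtain ⟨e3, e4⟩ := hcoef hr1
  have hbne0 : b 0 ≠ 0 := b.ne_zero 0
  have hbne1 : b 1 ≠ 0 := b.ne_zero 1
  -- irreducibility: `β ≠ 0`, `γ ≠ 0`
  have hβ0 : β ≠ 0 := by
    intro h0
    rcases hirr (k ∙ b 0) (fun x hx => by
        obtain ⟨c, rfl⟩ := Submodule.mem_span_singleton.mp hx
        rw [map_smul, ht0]
        exact Submodule.smul_mem _ _ (Submodule.smul_mem _ _ (Submodule.mem_span_singleton_self _)))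
      (fun x hx => by
        obtain ⟨c, rfl⟩ := Submodule.mem_span_singleton.mp hx
        rw [map_smul, hf0, h0, zero_smul, add_zero]
        exact Submodule.smul_mem _ _ (Submodule.smul_mem _ _ (Submodule.mem_span_singleton_self _)))
      with h | h
    · exact (span_singleton_ne hV hbne0).1 h
    · exact (span_singleton_ne hV hbne0).2 h
  have hγ0 : γ ≠ 0 := by
    intro h0
    rcases hirr (k ∙ b 1) (fun x hx => by
        obtain ⟨c, rfl⟩ := Submodule.mem_span_singleton.mp hx
        rw [map_smul, ht1]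
        exact Submodule.smul_mem _ _ (Submodule.smul_mem _ _ (Submodule.mem_span_singleton_self _)))
      (fun x hx => by
        obtain ⟨c, rfl⟩ := Submodule.mem_span_singleton.mp hx
        rw [map_smul, hf1, h0, zero_smul, zero_add]
        exact Submodule.smul_mem _ _ (Submodule.smul_mem _ _ (Submodule.mem_span_singleton_self _)))
      with h | h
    · exact (span_singleton_ne hV hbne1).1 h
    · exact (span_singleton_ne hV hbne1).2 h
  have hχ : χ = χ' ^ p := by
    have : β * χ = β * χ' ^ p := by rw [← e2, mul_comm]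
    exact mul_left_cancel₀ hβ0 this
  have hχ' : χ' = χ ^ p := by
    have : γ * χ' = γ * χ ^ p := by rw [← e3, mul_comm]
    exact mul_left_cancel₀ hγ0 this
  have hα0 : α = 0 := by
    have : α * (χ - χ') = 0 := by rw [mul_sub, hχ', ← e1]; ring
    rcases mul_eq_zero.mp this with h | h
    · exact h
    · exact absurd (sub_eq_zero.mp h) hne
  have hδ0 : δ = 0 := by
    have : δ * (χ' - χ) = 0 := by
      have e5 : χ' * δ = δ * χ := by rw [e4, ← hχ]
      linear_combination e5
    rcases mul_eq_zero.mp this with h | h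
    · exact h
    · exact absurd (sub_eq_zero.mp h).symm hne
  refine ⟨b, χ, χ', β, γ, hne, hβ0, hγ0, ht0, ht1, ?_, ?_, hχ', hχ, det_of_charpoly hV hcp⟩
  · rw [hf0, hα0, zero_smul, zero_add]
  · rw [hf1, hδ0, zero_smul, add_zero]

/-- Powers of a diagonal endomorphism with `χ' = χ ^ p`. -/
theorem pow_eq_one_iff_of_eigenbasis (b : Basis (Fin 2) k V) {χ χ' : k} {p : ℕ}
    {t : Module.End k V} (ht0 : t (b 0) = χ • b 0) (ht1 : t (b 1) = χ' • b 1)
    (hχ' : χ' = χ ^ p) (j : ℕ) : t ^ j = 1 ↔ χ ^ j = 1 := by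
  have hp0 : ∀ j : ℕ, (t ^ j) (b 0) = χ ^ j • b 0 := by
    intro j
    induction j with
    | zero => simp
    | succ j ih => rw [pow_succ, Module.End.mul_apply, ht0, map_smul, ih, smul_smul, pow_succ,
        mul_comm]
  have hp1 : ∀ j : ℕ, (t ^ j) (b 1) = χ' ^ j • b 1 := by
    intro j
    induction j with
    | zero => simp
    | succ j ih => rw [pow_succ, Module.End.mul_apply, ht1, map_smul, ih, smul_smul, pow_succ,
        mul_comm]
  constructor
  · intro h
    have h0 := hp0 j
    rw [h, Module.End.one_apply] at h0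
    have h1 : (χ ^ j - 1) • b 0 = 0 := by rw [sub_smul, one_smul, ← h0, sub_self]
    rcases smul_eq_zero.mp h1 with h2 | h2
    · exact sub_eq_zero.mp h2
    · exact absurd h2 (b.ne_zero 0)
  · intro h
    refine b.ext fun i => ?_
    fin_cases i
    · simpa [h] using hp0 j
    · have h' : χ' ^ j = 1 := by rw [hχ', ← pow_mul, mul_comm, pow_mul, h, one_pow]
      simpa [h'] using hp1 j

/-- **Coordinates of `Ad t`, `Ad f`** on `End V` in an eigenbasis of `t` in which `f` is
antidiagonal. -/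
theorem ad_coords (b : Basis (Fin 2) k V) {χ χ' β γ : k} (hβ : β ≠ 0) (hγ : γ ≠ 0)
    {t t' f f' : Module.End k V} (ht't : t' * t = 1) (hf'f : f' * f = 1)
    (ht0 : t (b 0) = χ • b 0) (ht1 : t (b 1) = χ' • b 1)
    (hf0 : f (b 0) = β • b 1) (hf1 : f (b 1) = γ • b 0) :
    ∃ ℓ₁ ℓp ℓm : Module.End k V →ₗ[k] k,
      (∀ z, LinearMap.trace k V z = 0 → ℓ₁ z = 0 → ℓp z = 0 → ℓm z = 0 → z = 0) ∧
      (∀ z, ℓ₁ (t * z * t') = ℓ₁ z) ∧
      (∀ z, ℓp (t * z * t') = (χ * χ'⁻¹) * ℓp z) ∧
      (∀ z, ℓm (t * z * t') = (χ * χ'⁻¹)⁻¹ * ℓm z) ∧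
      (∀ z, LinearMap.trace k V z = 0 → ℓ₁ (f * z * f') = - ℓ₁ z) ∧
      (∀ z, ℓp (f * z * f') = (γ * β⁻¹) * ℓm z) ∧
      (∀ z, ℓm (f * z * f') = (β * γ⁻¹) * ℓp z) := by
  classical
  have hχ : χ ≠ 0 := by
    rintro rfl
    have h := congrArg (fun g : Module.End k V => g (b 0)) ht't
    simp only [Module.End.mul_apply, Module.End.one_apply] at h
    rw [ht0, zero_smul, map_zero] at h
    exact b.ne_zero 0 h.symm
  have hχ' : χ' ≠ 0 := by
    rintro rfl
    have h := congrArg (fun g : Module.End k V => g (b 1)) ht't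
    simp only [Module.End.mul_apply, Module.End.one_apply] at h
    rw [ht1, zero_smul, map_zero] at h
    exact b.ne_zero 1 h.symm
  -- inverses on the basis
  have ht'0 : t' (b 0) = χ⁻¹ • b 0 := by
    have h := congrArg (fun g : Module.End k V => g (b 0)) ht't
    simp only [Module.End.mul_apply, Module.End.one_apply] at h
    rw [ht0, map_smul] at h
    calc t' (b 0) = χ⁻¹ • (χ • t' (b 0)) := by rw [smul_smul, inv_mul_cancel₀ hχ, one_smul]
      _ = χ⁻¹ • b 0 := by rw [h]
  have ht'1 : t' (b 1) = χ'⁻¹ • b 1 := by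
    have h := congrArg (fun g : Module.End k V => g (b 1)) ht't
    simp only [Module.End.mul_apply, Module.End.one_apply] at h
    rw [ht1, map_smul] at h
    calc t' (b 1) = χ'⁻¹ • (χ' • t' (b 1)) := by rw [smul_smul, inv_mul_cancel₀ hχ', one_smul]
      _ = χ'⁻¹ • b 1 := by rw [h]
  have hf'1 : f' (b 1) = β⁻¹ • b 0 := by
    have h := congrArg (fun g : Module.End k V => g (b 0)) hf'f
    simp only [Module.End.mul_apply, Module.End.one_apply] at h
    rw [hf0, map_smul] at h
    rw [← h, smul_smul, inv_mul_cancel₀ hβ, one_smul]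
  have hf'0 : f' (b 0) = γ⁻¹ • b 1 := by
    have h := congrArg (fun g : Module.End k V => g (b 1)) hf'f
    simp only [Module.End.mul_apply, Module.End.one_apply] at h
    rw [hf1, map_smul] at h
    rw [← h, smul_smul, inv_mul_cancel₀ hγ, one_smul]
  -- expansions
  have hexp : ∀ x : V, x = b.repr x 0 • b 0 + b.repr x 1 • b 1 := fun x => by
    conv_lhs => rw [← b.sum_repr x, Fin.sum_univ_two]
  have hrepr0 : ∀ c₀ c₁ : k, b.repr (c₀ • b 0 + c₁ • b 1) 0 = c₀ := fun c₀ c₁ => by
    simp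
  have hrepr1 : ∀ c₀ c₁ : k, b.repr (c₀ • b 0 + c₁ • b 1) 1 = c₁ := fun c₀ c₁ => by
    simp
  have htr : ∀ z : Module.End k V,
      LinearMap.trace k V z = b.repr (z (b 0)) 0 + b.repr (z (b 1)) 1 := fun z => by
    rw [LinearMap.trace_eq_matrix_trace k b z, Matrix.trace_fin_two, LinearMap.toMatrix_apply,
      LinearMap.toMatrix_apply]
  -- conjugates on the basis
  have hAt0 : ∀ z : Module.End k V, (t * z * t') (b 0) =
      (b.repr (z (b 0)) 0) • b 0 + (χ⁻¹ * χ' * b.repr (z (b 0)) 1) • b 1 := fun z => by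
    rw [Module.End.mul_apply, Module.End.mul_apply, ht'0, map_smul, map_smul]
    conv_lhs => rw [hexp (z (b 0))]
    rw [map_add, map_smul, map_smul, ht0, ht1, smul_add, smul_smul, smul_smul, smul_smul,
      smul_smul]
    congr 2
    · field_simp
    · ring
  have hAt1 : ∀ z : Module.End k V, (t * z * t') (b 1) =
      (χ'⁻¹ * χ * b.repr (z (b 1)) 0) • b 0 + (b.repr (z (b 1)) 1) • b 1 := fun z => by
    rw [Module.End.mul_apply, Module.End.mul_apply, ht'1, map_smul, map_smul]
    conv_lhs => rw [hexp (z (b 1))]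
    rw [map_add, map_smul, map_smul, ht0, ht1, smul_add, smul_smul, smul_smul, smul_smul,
      smul_smul]
    congr 2
    · ring
    · field_simp
  have hAf0 : ∀ z : Module.End k V, (f * z * f') (b 0) =
      (b.repr (z (b 1)) 1) • b 0 + (γ⁻¹ * β * b.repr (z (b 1)) 0) • b 1 := fun z => by
    rw [Module.End.mul_apply, Module.End.mul_apply, hf'0, map_smul, map_smul]
    conv_lhs => rw [hexp (z (b 1))]
    rw [map_add, map_smul, map_smul, hf0, hf1, smul_add, smul_smul, smul_smul, smul_smul,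
      smul_smul, add_comm]
    congr 2
    · field_simp
    · ring
  have hAf1 : ∀ z : Module.End k V, (f * z * f') (b 1) =
      (β⁻¹ * γ * b.repr (z (b 0)) 1) • b 0 + (b.repr (z (b 0)) 0) • b 1 := fun z => by
    rw [Module.End.mul_apply, Module.End.mul_apply, hf'1, map_smul, map_smul]
    conv_lhs => rw [hexp (z (b 0))]
    rw [map_add, map_smul, map_smul, hf0, hf1, smul_add, smul_smul, smul_smul, smul_smul,
      smul_smul, add_comm]
    congr 2
    · ring
    · field_simp
  refine ⟨(b.coord 0).comp (LinearMap.applyₗ (b 0)), (b.coord 0).comp (LinearMap.applyₗ (b 1)),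
    (b.coord 1).comp (LinearMap.applyₗ (b 0)), ?_, ?_, ?_, ?_, ?_, ?_, ?_⟩
  · intro z hz h1 hp hm
    simp only [LinearMap.comp_apply, LinearMap.applyₗ_apply_apply, Basis.coord_apply] at h1 hp hm
    have h2 : b.repr (z (b 1)) 1 = 0 := by
      have := htr z
      rw [hz, h1, zero_add] at this
      exact this.symm
    refine b.ext fun i => ?_
    fin_cases i
    · have := hexp (z (b 0))
      rw [h1, hm, zero_smul, zero_smul, add_zero] at this
      simpa using this
    · have := hexp (z (b 1))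
      rw [hp, h2, zero_smul, zero_smul, add_zero] at this
      simpa using this
  · intro z
    simp only [LinearMap.comp_apply, LinearMap.applyₗ_apply_apply, Basis.coord_apply]
    rw [hAt0, hrepr0]
  · intro z
    simp only [LinearMap.comp_apply, LinearMap.applyₗ_apply_apply, Basis.coord_apply]
    rw [hAt1, hrepr0]
    ring
  · intro z
    simp only [LinearMap.comp_apply, LinearMap.applyₗ_apply_apply, Basis.coord_apply]
    rw [hAt0, hrepr1, mul_inv, inv_inv]
  · intro z hz
    simp only [LinearMap.comp_apply, LinearMap.applyₗ_apply_apply, Basis.coord_apply]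
    rw [hAf0, hrepr0]
    have := htr z
    rw [hz] at this
    linear_combination -this
  · intro z
    simp only [LinearMap.comp_apply, LinearMap.applyₗ_apply_apply, Basis.coord_apply]
    rw [hAf1, hrepr0]
    ring
  · intro z
    simp only [LinearMap.comp_apply, LinearMap.applyₗ_apply_apply, Basis.coord_apply]
    rw [hAf0, hrepr1]
    ring

end LA

section Arith

/-- Arithmetic of the orders: if `n / gcd (n, p + 1) = p - 1` then `n = (p - 1) m` with
`m = n / gcd (n, p - 1)`, `m ∣ p + 1` and `(p + 1) / m` odd. -/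
theorem order_arith {p n : ℕ} (hp : p.Prime) (hp2 : p ≠ 2) (hn : 0 < n)
    (h1 : n / Nat.gcd n (p + 1) = p - 1) :
    n = (p - 1) * (n / Nat.gcd n (p - 1)) ∧ (n / Nat.gcd n (p - 1)) ∣ p + 1 ∧
      Odd ((p + 1) / (n / Nat.gcd n (p - 1))) := by
  have hp3 : 3 ≤ p := by
    have := hp.two_le
    omega
  have hpm : 0 < p - 1 := by omega
  set g := Nat.gcd n (p + 1) with hg
  have hgn : g ∣ n := Nat.gcd_dvd_left _ _
  have hgp : g ∣ p + 1 := Nat.gcd_dvd_right _ _
  have hg0 : 0 < g := Nat.gcd_pos_of_pos_left _ hn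
  have hn' : n = (p - 1) * g := by
    have := Nat.div_mul_cancel hgn
    rw [h1] at this
    exact this.symm
  have hgcd : Nat.gcd n (p - 1) = p - 1 := Nat.gcd_eq_right ⟨g, hn'⟩
  have hm : n / Nat.gcd n (p - 1) = g := by
    rw [hgcd, hn', Nat.mul_div_cancel_left _ hpm]
  rw [hm]
  refine ⟨hn', hgp, ?_⟩
  obtain ⟨c, hc⟩ := hgp
  have hcdiv : (p + 1) / g = c := by rw [hc, Nat.mul_div_cancel_left _ hg0]
  rw [hcdiv]
  have h2 : Nat.gcd (p - 1) c = 1 := by
    have h3 : g = g * Nat.gcd (p - 1) c := by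
      conv_lhs => rw [hg, hn', hc, mul_comm (p - 1) g, Nat.gcd_mul_left]
    have h4 : g * 1 = g * Nat.gcd (p - 1) c := by rw [mul_one]; exact h3
    exact (Nat.eq_of_mul_eq_mul_left hg0 h4).symm
  rw [← Nat.not_even_iff_odd]
  intro hce
  have hpe : Even (p - 1) := by
    rcases hp.eq_two_or_odd' with h | h
    · exact absurd h hp2
    · exact Nat.Odd.sub_odd h odd_one
  have : 2 ∣ Nat.gcd (p - 1) c := Nat.dvd_gcd hpe.two_dvd hce.two_dvd
  rw [h2] at this
  omega

/-- Order bookkeeping in a group: if `(x ^ (p + 1)) ^ j = 1 ↔ p - 1 ∣ j` for all `j`, then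
`ord x = (p - 1) m` where `m = ord (x * (x ^ p)⁻¹)`, `m ∣ p + 1`, `(p + 1) / m` is odd. -/
theorem order_shape {G : Type*} [CommGroup G] [Finite G] {p : ℕ} (hp : p.Prime) (hp2 : p ≠ 2)
    (x : G) (hdet : ∀ j : ℕ, (x ^ (p + 1)) ^ j = 1 ↔ p - 1 ∣ j) :
    orderOf x = (p - 1) * orderOf (x * (x ^ p)⁻¹) ∧ orderOf (x * (x ^ p)⁻¹) ∣ p + 1 ∧
      Odd ((p + 1) / orderOf (x * (x ^ p)⁻¹)) := by
  have hpm : p - 1 ≠ 0 := by
    have := hp.two_le
    omega
  have h1 : orderOf (x ^ (p + 1)) = p - 1 := by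
    apply Nat.dvd_antisymm
    · exact orderOf_dvd_of_pow_eq_one ((hdet (p - 1)).mpr dvd_rfl)
    · exact (hdet _).mp (pow_orderOf_eq_one _)
  have hn : 0 < orderOf x := orderOf_pos x
  rw [orderOf_pow' x (Nat.succ_ne_zero p)] at h1
  have h2 : orderOf (x * (x ^ p)⁻¹) = orderOf x / Nat.gcd (orderOf x) (p - 1) := by
    have e : x * (x ^ p)⁻¹ = (x ^ (p - 1))⁻¹ := by
      have hp1 : p = (p - 1) + 1 := by omega
      conv_lhs => rw [hp1, pow_succ, mul_inv, ← mul_assoc]
      rw [mul_comm x, mul_assoc, mul_inv_cancel, mul_one]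
    rw [e, orderOf_inv, orderOf_pow' x hpm]
  rw [h2]
  exact order_arith hp hp2 hn h1

end Arith

end Fermat.Agent.S56.H384

end
-- ===== PACK-END S56/H384/ShapeLA.lean

-- ===== PACK-BEGIN S19/H435/Indep.lean
section
/-
A3 / WP-C (helper435): Galois descent lemmas for lattices of equivariant functions.

* `linearIndependent_Qb_of_int` (F1): `ℤ`-linearly independent Galois-equivariant functions
  `M → Qb` are `Qb`-linearly independent (minimal relation argument, `Qb^Gal = ℚ`).
-/



set_option autoImplicit false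

noncomputable section

namespace Fermat.Agent.S19.H435

/-- The algebraic closure of `ℚ` used by the Prelude. -/
abbrev Qb : Type := AlgebraicClosure ℚ

/-- The absolute Galois group, as in the Prelude. -/
abbrev Gal : Type := _root_.Fermat.Agent.S19.H435.Qb ≃ₐ[ℚ] _root_.Fermat.Agent.S19.H435.Qb

/-- `ℤ_(ℓ)` as in the Prelude. -/
abbrev Zl (ℓ : ℕ) : Type := ↥(GaloisRep.ratLocalizedAt ℓ)

/-- Equivariance of a `Qb`-valued function for a (set-theoretic) Galois action. -/
def IsEquivariantFun {M : Type*} (act : Gal → M → M) (f : M → _root_.Fermat.Agent.S19.H435.Qb) : Prop :=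
  ∀ (σ : Gal) (m : M), f (act σ m) = σ (f m)

theorem fixed_mem_range_rat (x : _root_.Fermat.Agent.S19.H435.Qb) (hx : ∀ σ : Gal, σ x = x) :
    ∃ q : ℚ, algebraMap ℚ _root_.Fermat.Agent.S19.H435.Qb q = x := by
  have h1 : Algebra.IsAlgebraic ℚ _root_.Fermat.Agent.S19.H435.Qb := AlgebraicClosure.isAlgebraic ℚ
  have h2 : IsAlgClosure ℚ _root_.Fermat.Agent.S19.H435.Qb := ⟨inferInstance, inferInstance⟩
  have h3 : IsGalois ℚ _root_.Fermat.Agent.S19.H435.Qb := IsAlgClosure.isGalois ℚ _root_.Fermat.Agent.S19.H435.Qb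
  exact (InfiniteGalois.mem_range_algebraMap_iff_fixed (k := ℚ) (K := _root_.Fermat.Agent.S19.H435.Qb) x).mpr hx

/-- **F1.** `ℤ`-linearly independent equivariant functions are `Qb`-linearly independent. -/
theorem linearIndependent_Qb_of_int {M : Type*} {act : Gal → M → M} {ι : Type*} [Fintype ι]
    (f : ι → M → _root_.Fermat.Agent.S19.H435.Qb) (hf : ∀ i, IsEquivariantFun act (f i)) (hli : LinearIndependent ℤ f) :
    LinearIndependent _root_.Fermat.Agent.S19.H435.Qb f := by
  classical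
  rw [Fintype.linearIndependent_iff]
  suffices H : ∀ n : ℕ, ∀ c : ι → _root_.Fermat.Agent.S19.H435.Qb, (Finset.univ.filter (fun i => c i ≠ 0)).card = n →
      ∑ i, c i • f i = 0 → ∀ i, c i = 0 from fun c hc i => H _ c rfl hc i
  intro n
  induction n using Nat.strong_induction_on with
  | _ n ih =>
    intro c hn hc
    by_contra hne
    push Not at hne
    obtain ⟨i₀, hi₀⟩ := hne
    set c' : ι → _root_.Fermat.Agent.S19.H435.Qb := fun i => c i / c i₀ with hc'
    have hc'0 : ∑ i, c' i • f i = 0 := by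
      have : ∑ i, c' i • f i = (c i₀)⁻¹ • ∑ i, c i • f i := by
        rw [Finset.smul_sum]
        refine Finset.sum_congr rfl fun i _ => ?_
        rw [smul_smul]
        congr 1
        simp only [hc', div_eq_inv_mul]
      rw [this, hc, smul_zero]
    have hc'i₀ : c' i₀ = 1 := div_self hi₀
    have hsupp : ∀ i, c i = 0 → c' i = 0 := fun i hi => by simp [hc', hi]
    have hpt : ∀ m : M, ∑ i, c' i * f i m = 0 := by
      intro m
      have := congrFun hc'0 m
      simpa [Finset.sum_apply] using this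
    have hfix : ∀ (σ : Gal) (i : ι), σ (c' i) = c' i := by
      intro σ
      set d : ι → _root_.Fermat.Agent.S19.H435.Qb := fun i => σ (c' i) - c' i with hd
      have hd0 : ∑ i, d i • f i = 0 := by
        funext m
        simp only [Finset.sum_apply, Pi.smul_apply, smul_eq_mul, Pi.zero_apply, hd, sub_mul,
          Finset.sum_sub_distrib]
        have h2 : ∑ i, σ (c' i) * f i m = 0 := by
          have h3 := congrArg σ (hpt (act σ⁻¹ m))
          rw [map_sum, map_zero] at h3
          rw [← h3]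
          refine Finset.sum_congr rfl fun i _ => ?_
          rw [map_mul, hf i σ⁻¹ m]
          congr 1
          exact (AlgEquiv.apply_symm_apply σ (f i m)).symm
        rw [hpt m, h2, sub_zero]
      have hlt : (Finset.univ.filter (fun i => d i ≠ 0)).card < n := by
        rw [← hn]
        apply Finset.card_lt_card
        rw [Finset.ssubset_iff_of_subset]
        · exact ⟨i₀, by simp [hi₀], by simp [hd, hc'i₀]⟩
        · intro i hi
          simp only [Finset.mem_filter, Finset.mem_univ, true_and] at hi ⊢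
          intro hci
          apply hi
          simp [hd, hsupp i hci]
      intro i
      have := ih _ hlt d rfl hd0 i
      exact sub_eq_zero.mp this
    choose q hq using fun i => fixed_mem_range_rat (c' i) (fun σ => hfix σ i)
    set D : ℕ := ∏ i, (q i).den with hD
    have hDpos : 0 < D := Finset.prod_pos fun i _ => (q i).den_pos
    have hz : ∀ i, ∃ z : ℤ, (z : ℚ) = D * q i := by
      intro i
      have hdvd : (q i).den ∣ D := Finset.dvd_prod_of_mem _ (Finset.mem_univ i)
      obtain ⟨e, he⟩ := hdvd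
      refine ⟨(q i).num * e, ?_⟩
      rw [he]
      push_cast
      rw [← Rat.den_mul_eq_num (q i)]
      ring
    choose z hz using hz
    have hsum : ∑ i, z i • f i = 0 := by
      funext m
      simp only [Finset.sum_apply, Pi.zero_apply, zsmul_eq_mul, Pi.mul_apply, Pi.intCast_apply]
      have h1 : ∀ i, ((z i : ℤ) : _root_.Fermat.Agent.S19.H435.Qb) = (D : _root_.Fermat.Agent.S19.H435.Qb) * c' i := by
        intro i
        rw [← hq i]
        have := congrArg (algebraMap ℚ _root_.Fermat.Agent.S19.H435.Qb) (hz i)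
        rw [map_mul, map_intCast, map_natCast] at this
        exact this
      simp only [h1, mul_assoc]
      rw [← Finset.mul_sum, hpt m, mul_zero]
    have hz0 := (Fintype.linearIndependent_iff.mp hli) z hsum
    have h0 : c' i₀ = 0 := by
      have h1 : (z i₀ : ℚ) = 0 := by rw [hz0 i₀]; simp
      rw [hz] at h1
      have h2 : q i₀ = 0 := by
        rcases mul_eq_zero.mp h1 with h | h
        · exact absurd (by exact_mod_cast h) hDpos.ne'
        · exact h
      rw [← hq i₀, h2, map_zero]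
    rw [hc'i₀] at h0
    exact one_ne_zero h0

end Fermat.Agent.S19.H435

end
end
-- ===== PACK-END S19/H435/Indep.lean

-- ===== PACK-BEGIN S59/H126/Sl2.lean
section


/-!
# S59 / NM-SEL (helper126): the adjoint action on trace-zero `2 × 2` matrices

For `F = !![a, b; c, d]` the endomorphism `X ↦ F X adj(F) - s X` of the trace-zero matrices
`X = !![n₀, n₁; n₂, -n₀]` has, in the coordinates `(n₀, n₁, n₂)`, the matrix `sl2Mat F s`, and

  `det (sl2Mat F s) = (det F - s) (s² - ((tr F)² - 2 det F) s + (det F)²)`.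

For `det F = q`, `s = q²` this is `q³ (q - 1) ((tr F)² - (q + 1)²)`.
-/

set_option autoImplicit false
set_option linter.unusedSimpArgs false

namespace Fermat.Agent.S59.H126

variable {A : Type*} [CommRing A]

/-- The matrix of `X ↦ F X adj(F) - s X` on trace-zero matrices. -/
def sl2Mat (F : Matrix (Fin 2) (Fin 2) A) (s : A) : Matrix (Fin 3) (Fin 3) A :=
  !![F 0 0 * F 1 1 + F 0 1 * F 1 0 - s, -(F 0 0 * F 1 0), F 0 1 * F 1 1;
     -(2 * F 0 0 * F 0 1), F 0 0 ^ 2 - s, -(F 0 1 ^ 2);
     2 * F 1 0 * F 1 1, -(F 1 0 ^ 2), F 1 1 ^ 2 - s]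

theorem det_sl2Mat (F : Matrix (Fin 2) (Fin 2) A) (s : A) :
    (sl2Mat F s).det =
      (F.det - s) * (s ^ 2 - (F.trace ^ 2 - 2 * F.det) * s + F.det ^ 2) := by
  rw [Matrix.det_fin_three, Matrix.det_fin_two, Matrix.trace_fin_two]
  simp only [sl2Mat, Matrix.of_apply, Matrix.cons_val', Matrix.cons_val_zero,
    Matrix.cons_val_one, Matrix.cons_val_two, Matrix.cons_val_fin_one, Matrix.empty_val',
    Matrix.head_cons, Matrix.tail_cons, Matrix.head_fin_const]
  ring

theorem det_sl2Mat_of_det (F : Matrix (Fin 2) (Fin 2) A) (q : A) (hdet : F.det = q) :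
    (sl2Mat F (q ^ 2)).det = q ^ 3 * ((q - 1) * (F.trace ^ 2 - (q + 1) ^ 2)) := by
  rw [det_sl2Mat, hdet]
  ring

theorem sl2Mat_map {B : Type*} [CommRing B] (f : A →+* B) (F : Matrix (Fin 2) (Fin 2) A)
    (s : A) : (sl2Mat F s).map f = sl2Mat (F.map f) (f s) := by
  ext i j
  fin_cases i <;> fin_cases j <;> simp [sl2Mat, map_ofNat]

/-- The relation: if `F N = q N F`, `tr N = 0`, `det F = q`, then the coordinate vector of `N`
is killed by `sl2Mat F (q²)`. -/
theorem sl2Mat_relation (F N : Matrix (Fin 2) (Fin 2) A) (q : A)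
    (hFN : F * N = q • (N * F)) (htr : N 1 1 = - N 0 0) (hdet : F.det = q) (i : Fin 3) :
    ∑ j, sl2Mat F (q ^ 2) i j * ![N 0 0, N 0 1, N 1 0] j = 0 := by
  have h00 := congrFun (congrFun hFN 0) 0
  have h01 := congrFun (congrFun hFN 0) 1
  have h10 := congrFun (congrFun hFN 1) 0
  have h11 := congrFun (congrFun hFN 1) 1
  simp only [Matrix.mul_apply, Fin.sum_univ_two, Matrix.smul_apply, smul_eq_mul,
    htr] at h00 h01 h10 h11
  rw [Matrix.det_fin_two] at hdet
  fin_cases i
  · simp only [sl2Mat, Fin.sum_univ_three, Matrix.of_apply, Matrix.cons_val', Matrix.cons_val_zero,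
      Matrix.cons_val_one, Matrix.cons_val_two, Matrix.cons_val_fin_one, Matrix.empty_val',
      Matrix.head_cons, Matrix.tail_cons, Matrix.head_fin_const, Fin.zero_eta, Fin.isValue]
    linear_combination F 1 1 * h00 - F 1 0 * h01 + q * N 0 0 * hdet
  · simp only [sl2Mat, Fin.sum_univ_three, Matrix.of_apply, Matrix.cons_val', Matrix.cons_val_zero,
      Matrix.cons_val_one, Matrix.cons_val_two, Matrix.cons_val_fin_one, Matrix.empty_val',
      Matrix.head_cons, Matrix.tail_cons, Matrix.head_fin_const, Fin.mk_one, Fin.isValue]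
    linear_combination -(F 0 1) * h00 + F 0 0 * h01 + q * N 0 1 * hdet
  · simp only [sl2Mat, Fin.sum_univ_three, Matrix.of_apply, Matrix.cons_val', Matrix.cons_val_zero,
      Matrix.cons_val_one, Matrix.cons_val_two, Matrix.cons_val_fin_one, Matrix.empty_val',
      Matrix.head_cons, Matrix.tail_cons, Matrix.head_fin_const, Fin.reduceFinMk, Fin.isValue]
    linear_combination F 1 1 * h10 - F 1 0 * h11 + q * N 1 0 * hdet

end Fermat.Agent.S59.H126

end
-- ===== PACK-END S59/H126/Sl2.lean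

-- ===== PACK-BEGIN S19/H135/Defs.lean
section
/-
Cell A3 / WP-C (helper135): closure algebra for "flat models" (the S19 / `IsFlatAt` existential).
Definitions: `FlatModel`, pull-back algebra maps on function algebras, Hopf lattices.
-/



set_option autoImplicit false

namespace Fermat.Agent.S19.H135

/-- The `S19` / `GaloisRepAdic.IsFlatAt` existential for an arbitrary additive group `M` with a
family of maps `act σ : M → M` indexed by the absolute Galois group of `ℚ`. -/
def FlatModel (ℓ : ℕ) (M : Type) [AddCommGroup M]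
    (act : (AlgebraicClosure ℚ ≃ₐ[ℚ] AlgebraicClosure ℚ) → M → M) : Prop :=
  ∃ (H : Type) (_ : CommRing H) (_ : HopfAlgebra (GaloisRep.ratLocalizedAt ℓ) H),
    Module.Finite (GaloisRep.ratLocalizedAt ℓ) H ∧ Module.Flat (GaloisRep.ratLocalizedAt ℓ) H ∧
    Coalgebra.IsCocomm (GaloisRep.ratLocalizedAt ℓ) H ∧
    ∃ e : WithConv (H →ₐ[GaloisRep.ratLocalizedAt ℓ] AlgebraicClosure ℚ) ≃ M,
      (∀ f g : WithConv (H →ₐ[GaloisRep.ratLocalizedAt ℓ] AlgebraicClosure ℚ),
        e (f * g) = e f + e g) ∧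
      ∀ (σ : AlgebraicClosure ℚ ≃ₐ[ℚ] AlgebraicClosure ℚ)
        (f g : WithConv (H →ₐ[GaloisRep.ratLocalizedAt ℓ] AlgebraicClosure ℚ)),
        (∀ h : H, g h = σ (f h)) → e g = act σ (e f)

/-- `IsFlatAt` is, by definition, `FlatModel` for all finite quotients `V / I V`. -/
theorem isFlatAt_iff {A : Type} [CommRing A] [IsLocalRing A] (ρ : GaloisRepAdic A) (p : ℕ) :
    ρ.IsFlatAt p ↔ Finite (IsLocalRing.ResidueField A) ∧ ∀ I : Ideal A, Finite (A ⧸ I) →
      FlatModel p (ρ.V ⧸ (I • (⊤ : Submodule A ρ.V))) (fun σ x => ρ.levelAction I σ x) :=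
  Iff.rfl

section Pull

variable (R : Type*) [CommSemiring R] (K : Type*) [CommSemiring K] [Algebra R K]
variable {X Y Z : Type*}

/-- Pull-back of functions along `φ : X → Y`, as an algebra homomorphism. -/
def pull (φ : X → Y) : (Y → K) →ₐ[R] (X → K) :=
  AlgHom.pi (fun x => Pi.evalAlgHom R (fun _ => K) (φ x))

@[simp] lemma pull_apply (φ : X → Y) (f : Y → K) (x : X) : pull R K φ f x = f (φ x) := rfl

lemma pull_comp (φ : X → Y) (ψ : Y → Z) :
    (pull R K φ).comp (pull R K ψ) = pull R K (ψ ∘ φ) := rfl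

lemma pull_injective {φ : X → Y} (hφ : Function.Surjective φ) :
    Function.Injective (pull R K φ) := by
  intro f g h
  funext y
  obtain ⟨x, rfl⟩ := hφ y
  exact congrFun h x

lemma pull_surjective [Nonempty K] {φ : X → Y} (hφ : Function.Injective φ) :
    Function.Surjective (pull R K φ) := by
  classical
  intro f
  refine ⟨fun y => if h : ∃ x, φ x = y then f h.choose else Classical.arbitrary K, ?_⟩
  funext x
  have hx : ∃ x', φ x' = φ x := ⟨x, rfl⟩
  simp only [pull_apply, dif_pos hx]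
  exact congrArg f (hφ hx.choose_spec)

end Pull

/-- A *Hopf lattice* for `(M, act)`: an `ℤ_(ℓ)`-subalgebra `Λ` of the algebra of functions
`M → ℚ̄`, finitely generated as a module, consisting of Galois-equivariant functions, separating
the points of `M`, and closed under "comultiplication" `f ↦ ((m, n) ↦ f (m + n))`. -/
structure IsHopfLattice (ℓ : ℕ) {M : Type} [AddCommGroup M]
    (act : (AlgebraicClosure ℚ ≃ₐ[ℚ] AlgebraicClosure ℚ) → M → M)
    (Λ : Subalgebra (GaloisRep.ratLocalizedAt ℓ) (M → AlgebraicClosure ℚ)) : Prop where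
  fg : (Subalgebra.toSubmodule Λ).FG
  equivariant : ∀ f ∈ Λ, ∀ (σ : AlgebraicClosure ℚ ≃ₐ[ℚ] AlgebraicClosure ℚ) (m : M),
    f (act σ m) = σ (f m)
  separates : ∀ m n : M, (∀ f ∈ Λ, f m = f n) → m = n
  comul : Λ.map (pull (GaloisRep.ratLocalizedAt ℓ) (AlgebraicClosure ℚ)
        (fun p : M × M => p.1 + p.2)) ≤
      Λ.map (pull (GaloisRep.ratLocalizedAt ℓ) (AlgebraicClosure ℚ) (Prod.fst : M × M → M)) ⊔
      Λ.map (pull (GaloisRep.ratLocalizedAt ℓ) (AlgebraicClosure ℚ) (Prod.snd : M × M → M))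

/-- `(M, act)` carries a Hopf lattice. -/
def HasHopfLattice (ℓ : ℕ) (M : Type) [AddCommGroup M]
    (act : (AlgebraicClosure ℚ ≃ₐ[ℚ] AlgebraicClosure ℚ) → M → M) : Prop :=
  ∃ Λ : Subalgebra (GaloisRep.ratLocalizedAt ℓ) (M → AlgebraicClosure ℚ), IsHopfLattice ℓ act Λ

/-- Layer 0 (the construction of the Hopf algebra from a lattice), as a hypothesis. -/
def Layer0 (ℓ : ℕ) : Prop :=
  ∀ (M : Type) [AddCommGroup M] (act : (AlgebraicClosure ℚ ≃ₐ[ℚ] AlgebraicClosure ℚ) → M → M),
    HasHopfLattice ℓ M act → FlatModel ℓ M act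

end Fermat.Agent.S19.H135

end
-- ===== PACK-END S19/H135/Defs.lean

-- ===== PACK-BEGIN S41/H761/CosetSystem.lean
section


/-!
# Coset systems and their transfers (helper761, row S41, block HK)

Ambient group `𝒢`, groups `Γ`, `Γ'` with homomorphisms `ι : Γ →* 𝒢` (injective), `ι' : Γ' →* 𝒢`.
A family `ρ : I → 𝒢` is a *coset system* from `Γ` to `Γ'` if

* (S1) for all `i`, `g'` there are `j`, `g` with `ρ i * ι' g' = ι g * ρ j`;
* (S2) `ρ i = ι g * ρ j` implies `i = j`.

Then `j =: act i g'` and `g =: coc i g'` are unique, `coc` is a cocycle, and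
`transfer φ g' = ∑ i, φ (coc i g')` is an additive homomorphism `Γ' → A` for every additive
homomorphism `φ : Γ → A`.  Restriction along a homomorphism realized by conjugation, the transfer
(corestriction) to an overgroup and Hecke operators are all of this form; relations between them
reduce to the comparison theorem `transfer_eq_of_le` and the composition theorem `transfer_comp`.
-/

set_option autoImplicit false

namespace Fermat.Agent.S41.H761

section CosetSystem

variable {𝒢 Γ Γ' Γ'' : Type*} [Group 𝒢] [Group Γ] [Group Γ'] [Group Γ'']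
variable {I J : Type*}

/-- A coset system from `Γ` to `Γ'` inside `𝒢`. -/
structure IsCosetSystem (ι : Γ →* 𝒢) (ι' : Γ' →* 𝒢) (ρ : I → 𝒢) : Prop where
  inj : Function.Injective ι
  exists_mul : ∀ (i : I) (g' : Γ'), ∃ (j : I) (g : Γ), ρ i * ι' g' = ι g * ρ j
  eq_of_mul : ∀ (i j : I) (g : Γ), ρ i = ι g * ρ j → i = j

namespace IsCosetSystem

variable {ι : Γ →* 𝒢} {ι' : Γ' →* 𝒢} {ι'' : Γ'' →* 𝒢} {ρ : I → 𝒢} {ρ' : J → 𝒢}

section Basic

variable (h : IsCosetSystem ι ι' ρ)
include h

/-- The right action of `Γ'` on the index set. -/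
noncomputable def act (i : I) (g' : Γ') : I := (h.exists_mul i g').choose

/-- The cocycle. -/
noncomputable def coc (i : I) (g' : Γ') : Γ := (h.exists_mul i g').choose_spec.choose

theorem spec (i : I) (g' : Γ') : ρ i * ι' g' = ι (h.coc i g') * ρ (h.act i g') :=
  (h.exists_mul i g').choose_spec.choose_spec

theorem unique {i j : I} {g' : Γ'} {g : Γ} (e : ρ i * ι' g' = ι g * ρ j) :
    h.act i g' = j ∧ h.coc i g' = g := by
  have e2 := h.spec i g'
  rw [e] at e2
  have e3 : ρ (h.act i g') = ι ((h.coc i g')⁻¹ * g) * ρ j := by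
    rw [map_mul, map_inv, mul_assoc, e2, inv_mul_cancel_left]
  have hj := h.eq_of_mul _ _ _ e3
  refine ⟨hj, ?_⟩
  rw [hj] at e2
  exact h.inj (mul_right_cancel e2).symm

theorem act_eq {i j : I} {g' : Γ'} {g : Γ} (e : ρ i * ι' g' = ι g * ρ j) : h.act i g' = j :=
  (h.unique e).1

theorem coc_eq {i j : I} {g' : Γ'} {g : Γ} (e : ρ i * ι' g' = ι g * ρ j) : h.coc i g' = g :=
  (h.unique e).2

theorem act_one (i : I) : h.act i 1 = i := h.act_eq (g := 1) (by simp)

theorem coc_one (i : I) : h.coc i 1 = 1 := h.coc_eq (j := i) (by simp)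

theorem mul_spec (i : I) (g' k' : Γ') :
    ρ i * ι' (g' * k') = ι (h.coc i g' * h.coc (h.act i g') k') * ρ (h.act (h.act i g') k') := by
  rw [map_mul, ← mul_assoc, h.spec i g', mul_assoc, h.spec (h.act i g') k', map_mul, mul_assoc]

theorem act_mul (i : I) (g' k' : Γ') : h.act i (g' * k') = h.act (h.act i g') k' :=
  h.act_eq (h.mul_spec i g' k')

theorem coc_mul (i : I) (g' k' : Γ') :
    h.coc i (g' * k') = h.coc i g' * h.coc (h.act i g') k' :=
  h.coc_eq (h.mul_spec i g' k')

/-- The action of `g'` as a permutation of the index set. -/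
noncomputable def actEquiv (g' : Γ') : I ≃ I where
  toFun i := h.act i g'
  invFun i := h.act i g'⁻¹
  left_inv i := by
    show h.act (h.act i g') g'⁻¹ = i
    rw [← h.act_mul, mul_inv_cancel, h.act_one]
  right_inv i := by
    show h.act (h.act i g'⁻¹) g' = i
    rw [← h.act_mul, inv_mul_cancel, h.act_one]

@[simp] theorem actEquiv_apply (g' : Γ') (i : I) : h.actEquiv g' i = h.act i g' := rfl

/-- Conjugation formula for the cocycle. -/
theorem map_coc (i : I) (g' : Γ') :
    ι (h.coc i g') = ρ i * ι' g' * (ρ (h.act i g'))⁻¹ := by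
  rw [h.spec i g', mul_inv_cancel_right]

end Basic

section Transfer

variable {A : Type*} [AddCommGroup A] [Fintype I]

/-- The transfer of a coset system. -/
noncomputable def transfer (h : IsCosetSystem ι ι' ρ) (φ : Additive Γ →+ A) :
    Additive Γ' →+ A where
  toFun g' := ∑ i, φ (Additive.ofMul (h.coc i (Additive.toMul g')))
  map_zero' := by
    simp only [toMul_zero, h.coc_one, ofMul_one, map_zero, Finset.sum_const_zero]
  map_add' a b := by
    simp only [toMul_add, h.coc_mul, ofMul_mul, map_add, Finset.sum_add_distrib]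
    congr 1
    exact Equiv.sum_comp (h.actEquiv (Additive.toMul a))
      (fun j => φ (Additive.ofMul (h.coc j (Additive.toMul b))))

theorem transfer_apply (h : IsCosetSystem ι ι' ρ) (φ : Additive Γ →+ A) (g' : Γ') :
    h.transfer φ (Additive.ofMul g') = ∑ i, φ (Additive.ofMul (h.coc i g')) := rfl

theorem transfer_add (h : IsCosetSystem ι ι' ρ) (φ ψ : Additive Γ →+ A) :
    h.transfer (φ + ψ) = h.transfer φ + h.transfer ψ := by
  refine AddMonoidHom.ext fun g' => ?_
  simp only [transfer, AddMonoidHom.coe_mk, ZeroHom.coe_mk, AddMonoidHom.add_apply,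
    Finset.sum_add_distrib]

theorem transfer_comp_left {B : Type*} [AddCommGroup B] (h : IsCosetSystem ι ι' ρ) (π : A →+ B)
    (φ : Additive Γ →+ A) : h.transfer (π.comp φ) = π.comp (h.transfer φ) := by
  refine AddMonoidHom.ext fun g' => ?_
  simp only [transfer, AddMonoidHom.coe_mk, ZeroHom.coe_mk, AddMonoidHom.coe_comp,
    Function.comp_apply, map_sum]

omit [Fintype I] in
/-- If every coset of a system is a coset of a finite family, the system is finite. -/
theorem finite_of_le [Finite J] (h : IsCosetSystem ι ι' ρ)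
    (hle : ∀ i, ∃ (j : J) (g : Γ), ρ i = ι g * ρ' j) : Finite I := by
  choose e β hβ using hle
  refine Finite.of_injective e fun i i' hii => ?_
  apply h.eq_of_mul i i' (β i * (β i')⁻¹)
  rw [hβ i, hii, map_mul, map_inv, mul_assoc, hβ i', inv_mul_cancel_left]

/-- **Comparison.**  Two coset systems such that every coset of the first is a coset of the
second, and the action of the second is transitive, have the same transfer. -/
theorem transfer_eq_of_le [Fintype J] [Nonempty I] (h : IsCosetSystem ι ι' ρ)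
    (h' : IsCosetSystem ι ι' ρ') (hle : ∀ i, ∃ (j : J) (g : Γ), ρ i = ι g * ρ' j)
    (htr : ∀ j j' : J, ∃ g' : Γ', h'.act j g' = j') (φ : Additive Γ →+ A) :
    h.transfer φ = h'.transfer φ := by
  classical
  choose e β hβ using hle
  -- equivariance
  have key : ∀ (i : I) (g' : Γ'), h'.act (e i) g' = e (h.act i g') ∧
      h'.coc (e i) g' = (β i)⁻¹ * h.coc i g' * β (h.act i g') := by
    intro i g'
    apply h'.unique
    have h1 : ρ' (e i) = ι (β i)⁻¹ * ρ i := by
      rw [hβ i, map_inv, inv_mul_cancel_left]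
    rw [h1, mul_assoc, h.spec i g', hβ (h.act i g')]
    simp only [map_mul, map_inv, mul_assoc]
  have einj : Function.Injective e := by
    intro i i' hii
    apply h.eq_of_mul i i' (β i * (β i')⁻¹)
    rw [hβ i, hii, map_mul, map_inv, mul_assoc, hβ i', inv_mul_cancel_left]
  have esurj : Function.Surjective e := by
    intro j
    obtain ⟨i₀⟩ := ‹Nonempty I›
    obtain ⟨g', hg'⟩ := htr (e i₀) j
    exact ⟨h.act i₀ g', by rw [← (key i₀ g').1, hg']⟩
  let E : I ≃ J := Equiv.ofBijective e ⟨einj, esurj⟩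
  refine AddMonoidHom.ext fun g' => ?_
  obtain ⟨g, rfl⟩ : ∃ g : Γ', Additive.ofMul g = g' := ⟨Additive.toMul g', rfl⟩
  rw [transfer_apply, transfer_apply, ← Equiv.sum_comp E]
  have hE : ∀ i, E i = e i := fun _ => rfl
  simp only [hE, (key _ g).2, ofMul_mul, ofMul_inv, map_add, map_neg, Finset.sum_add_distrib,
    Finset.sum_neg_distrib]
  have hperm : ∑ i, φ (Additive.ofMul (β (h.act i g))) = ∑ i, φ (Additive.ofMul (β i)) :=
    Equiv.sum_comp (h.actEquiv g) (fun i => φ (Additive.ofMul (β i)))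
  rw [hperm]
  abel

omit [Fintype I] in
/-- In the situation of the comparison theorem the index sets have the same cardinality. -/
theorem card_eq_of_le [Nonempty I] (h : IsCosetSystem ι ι' ρ)
    (h' : IsCosetSystem ι ι' ρ') (hle : ∀ i, ∃ (j : J) (g : Γ), ρ i = ι g * ρ' j)
    (htr : ∀ j j' : J, ∃ g' : Γ', h'.act j g' = j') : Nat.card I = Nat.card J := by
  choose e β hβ using hle
  have key : ∀ (i : I) (g' : Γ'), h'.act (e i) g' = e (h.act i g') := by
    intro i g'
    apply h'.act_eq (g := (β i)⁻¹ * h.coc i g' * β (h.act i g'))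
    have h1 : ρ' (e i) = ι (β i)⁻¹ * ρ i := by
      rw [hβ i, map_inv, inv_mul_cancel_left]
    rw [h1, mul_assoc, h.spec i g', hβ (h.act i g')]
    simp only [map_mul, map_inv, mul_assoc]
  have einj : Function.Injective e := by
    intro i i' hii
    apply h.eq_of_mul i i' (β i * (β i')⁻¹)
    rw [hβ i, hii, map_mul, map_inv, mul_assoc, hβ i', inv_mul_cancel_left]
  have esurj : Function.Surjective e := by
    intro j
    obtain ⟨i₀⟩ := ‹Nonempty I›
    obtain ⟨g', hg'⟩ := htr (e i₀) j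
    exact ⟨h.act i₀ g', by rw [← key i₀ g', hg']⟩
  exact Nat.card_eq_of_bijective e ⟨einj, esurj⟩

omit [Fintype I] in
/-- The product of two coset systems, provided its cosets are distinct. -/
theorem prod (h : IsCosetSystem ι ι' ρ) (h' : IsCosetSystem ι' ι'' ρ')
    (hS2 : ∀ (i i' : I) (j j' : J) (g : Γ), ρ i * ρ' j = ι g * (ρ i' * ρ' j') → i = i' ∧ j = j') :
    IsCosetSystem ι ι'' (fun x : I × J => ρ x.1 * ρ' x.2) where
  inj := h.inj
  exists_mul := by
    rintro ⟨i, j⟩ g''
    refine ⟨(h.act i (h'.coc j g''), h'.act j g''), h.coc i (h'.coc j g''), ?_⟩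
    simp only
    rw [mul_assoc, h'.spec j g'', ← mul_assoc, h.spec i (h'.coc j g''), mul_assoc]
  eq_of_mul := by
    rintro ⟨i, j⟩ ⟨i', j'⟩ g e
    obtain ⟨rfl, rfl⟩ := hS2 i i' j j' g e
    rfl

/-- **Composition.** -/
theorem transfer_comp [Fintype J] (h : IsCosetSystem ι ι' ρ) (h' : IsCosetSystem ι' ι'' ρ')
    (hprod : IsCosetSystem ι ι'' (fun x : I × J => ρ x.1 * ρ' x.2)) (φ : Additive Γ →+ A) :
    h'.transfer (h.transfer φ) = hprod.transfer φ := by
  refine AddMonoidHom.ext fun g'' => ?_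
  obtain ⟨g, rfl⟩ : ∃ g : Γ'', Additive.ofMul g = g'' := ⟨Additive.toMul g'', rfl⟩
  rw [transfer_apply, transfer_apply]
  simp only [transfer_apply]
  rw [Fintype.sum_prod_type_right]
  refine Finset.sum_congr rfl fun j _ => Finset.sum_congr rfl fun i _ => ?_
  congr 2
  symm
  apply hprod.coc_eq (j := (h.act i (h'.coc j g), h'.act j g))
  simp only
  rw [mul_assoc, h'.spec j g, ← mul_assoc, h.spec i (h'.coc j g), mul_assoc]

end Transfer

/-- A homomorphism `c : Γ' →* Γ` realized by conjugation by `d` is a coset system with one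
representative; its transfer is the pull-back along `c`. -/
theorem single (hι : Function.Injective ι) (c : Γ' →* Γ) (d : 𝒢)
    (hd : ∀ g' : Γ', d * ι' g' = ι (c g') * d) :
    IsCosetSystem ι ι' (fun _ : Unit => d) where
  inj := hι
  exists_mul := fun _ g' => ⟨(), c g', hd g'⟩
  eq_of_mul := fun _ _ _ _ => rfl

theorem single_coc (hι : Function.Injective ι) (c : Γ' →* Γ) (d : 𝒢)
    (hd : ∀ g' : Γ', d * ι' g' = ι (c g') * d) (i : Unit) (g' : Γ') :
    (single hι c d hd).coc i g' = c g' :=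
  (single hι c d hd).coc_eq (j := ()) (hd g')

theorem single_transfer {A : Type*} [AddCommGroup A] (hι : Function.Injective ι) (c : Γ' →* Γ)
    (d : 𝒢) (hd : ∀ g' : Γ', d * ι' g' = ι (c g') * d) (φ : Additive Γ →+ A) :
    (single hι c d hd).transfer φ = φ.comp (MonoidHom.toAdditive c) := by
  refine AddMonoidHom.ext fun g' => ?_
  obtain ⟨g, rfl⟩ : ∃ g : Γ', Additive.ofMul g = g' := ⟨Additive.toMul g', rfl⟩
  rw [transfer_apply]
  simp only [Finset.univ_unique, Finset.sum_singleton]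
  show φ (Additive.ofMul ((single hι c d hd).coc default g)) = φ (Additive.ofMul (c g))
  rw [single_coc hι c d hd]

end IsCosetSystem

end CosetSystem

/-! ## Mathlib's transfer as the transfer of a coset system -/

section MathlibTransfer

open Subgroup Subgroup.leftTransversals MulAction

variable {G : Type*} [Group G]

theorem out_inv_mul_mul_out_mem (H : Subgroup G) (g : G) (q : G ⧸ H) :
    (q.out)⁻¹ * g * (g⁻¹ • q).out ∈ H := by
  rw [mul_assoc, ← QuotientGroup.eq]
  have h1 : ((g * (g⁻¹ • q).out : G) : G ⧸ H) = g • ((((g⁻¹ • q).out : G)) : G ⧸ H) := rfl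
  rw [h1, QuotientGroup.out_eq', QuotientGroup.out_eq', smul_inv_smul]

/-- Mathlib's transfer, computed with the transversal `Quotient.out`. -/
theorem transfer_eq_prod_out {H : Subgroup G} {A : Type*} [CommGroup A] (ϕ : H →* A)
    [H.FiniteIndex] (g : G) :
    letI := H.fintypeQuotientOfFiniteIndex
    ϕ.transfer g =
      ∏ q : G ⧸ H, ϕ ⟨(q.out)⁻¹ * g * (g⁻¹ • q).out, out_inv_mul_mul_out_mem H g q⟩ := by
  rw [MonoidHom.transfer_def ϕ
    ⟨Set.range Quotient.out, isComplement_range_left Quotient.out_eq'⟩ g]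
  unfold diff
  simp only
  refine Finset.prod_congr rfl fun q _ => ?_
  congr 1
  apply Subtype.ext
  simp only
  rw [smul_apply_eq_smul_apply_inv_smul]
  rw [IsComplement.leftQuotientEquiv_apply (f := Quotient.out) Quotient.out_eq',
    IsComplement.leftQuotientEquiv_apply (f := Quotient.out) Quotient.out_eq']
  rw [smul_eq_mul, mul_assoc]

variable {𝒢 H' : Type*} [Group 𝒢] [Group H']

/-- The coset system of the transfer along an injective homomorphism `f : H' →* G`:
representatives `ι (q.out)⁻¹`, `q ∈ G ⧸ f.range`. -/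
theorem IsCosetSystem.ofTransfer (f : H' →* G) (hf : Function.Injective f) (ι : G →* 𝒢)
    (hι : Function.Injective ι) :
    IsCosetSystem (ι.comp f) ι (fun q : G ⧸ f.range => ι (q.out)⁻¹) where
  inj := hι.comp hf
  exists_mul := by
    intro q g
    obtain ⟨h, hh⟩ := out_inv_mul_mul_out_mem f.range g q
    refine ⟨g⁻¹ • q, h, ?_⟩
    simp only [MonoidHom.comp_apply, hh, ← map_mul]
    rw [mul_inv_cancel_right]
  eq_of_mul := by
    intro q q' h e
    simp only [MonoidHom.comp_apply, ← map_mul] at e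
    have e2 := hι e
    have e3 : (q'.out)⁻¹ * q.out = (f h)⁻¹ := by
      rw [← inv_inj, mul_inv_rev, inv_inv, e2, inv_inv, inv_mul_cancel_right]
    have e4 : ((q'.out : G) : G ⧸ f.range) = ((q.out : G) : G ⧸ f.range) := by
      rw [QuotientGroup.eq, e3]
      exact inv_mem ⟨h, rfl⟩
    rw [QuotientGroup.out_eq', QuotientGroup.out_eq'] at e4
    exact e4.symm

theorem IsCosetSystem.ofTransfer_act (f : H' →* G) (hf : Function.Injective f) (ι : G →* 𝒢)
    (hι : Function.Injective ι) (q : G ⧸ f.range) (g : G) :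
    (IsCosetSystem.ofTransfer f hf ι hι).act q g = g⁻¹ • q ∧
    f ((IsCosetSystem.ofTransfer f hf ι hι).coc q g) = (q.out)⁻¹ * g * (g⁻¹ • q).out := by
  obtain ⟨h, hh⟩ := out_inv_mul_mul_out_mem f.range g q
  have key := (IsCosetSystem.ofTransfer f hf ι hι).unique (i := q) (j := g⁻¹ • q) (g' := g)
    (g := h) (by
      simp only [MonoidHom.comp_apply, hh, ← map_mul]
      rw [mul_inv_cancel_right])
  exact ⟨key.1, by rw [key.2, hh]⟩

end MathlibTransfer

end Fermat.Agent.S41.H761

end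
-- ===== PACK-END S41/H761/CosetSystem.lean

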