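import Mathlib
import Fermat.Prelude.Thm_IsLocalRing_isAdicComplete_of_module_finite
import Fermat.Prelude.Def_GroupCohomology_ContinuousUnramified
import Mathlib.RepresentationTheory.Homological.GroupCohomology.LowDegree
import Mathlib.RepresentationTheory.Invariants
import Fermat.Agent.Pack.S44C.G0E15L2
import Fermat.Agent.Pack.S43GC.G2E0L0

-- ===== PACK-BEGIN S53/H596/PowerSeriesCNL.lean
section



/-!
# Power series rings over a complete local ring, as complete Noetherian local algebras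

Block [C] for S53 (also reusable elsewhere).  Everything lives in `Fermat.Agent.S53.H596`.
-/

set_option autoImplicit false
set_option linter.unusedSectionVars false

namespace Fermat.Agent.S53.H596

noncomputable section

open IsLocalRing

section Filtration

variable {σ : Type*} {R : Type*} [CommRing R]

/-- The ideal of power series whose constant coefficient lies in `𝔞`. -/
def constIdeal (σ : Type*) {R : Type*} [CommRing R] (𝔞 : Ideal R) : Ideal (MvPowerSeries σ R) :=
  Ideal.comap (MvPowerSeries.constantCoeff (σ := σ) (R := R)) 𝔞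

theorem mem_constIdeal_iff (𝔞 : Ideal R) (f : MvPowerSeries σ R) :
    f ∈ constIdeal σ 𝔞 ↔ MvPowerSeries.constantCoeff f ∈ 𝔞 := Iff.rfl

theorem X_mem_constIdeal (𝔞 : Ideal R) (i : σ) :
    (MvPowerSeries.X i : MvPowerSeries σ R) ∈ constIdeal σ 𝔞 := by
  rw [mem_constIdeal_iff]
  simp

theorem C_mem_constIdeal {𝔞 : Ideal R} {c : R} (hc : c ∈ 𝔞) :
    (MvPowerSeries.C c : MvPowerSeries σ R) ∈ constIdeal σ 𝔞 := by
  rw [mem_constIdeal_iff]
  simpa using hc

/-- The "coefficientwise" filtration ideal: `coeff e f ∈ 𝔞 ^ (n - deg e)`. -/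
def coeffIdeal (σ : Type*) {R : Type*} [CommRing R] (𝔞 : Ideal R) (n : ℕ) :
    Ideal (MvPowerSeries σ R) where
  carrier := {f | ∀ e : σ →₀ ℕ, MvPowerSeries.coeff e f ∈ 𝔞 ^ (n - e.degree)}
  add_mem' {f g} hf hg e := by
    rw [map_add]
    exact Ideal.add_mem _ (hf e) (hg e)
  zero_mem' e := by simp
  smul_mem' c f hf e := by
    classical
    rw [smul_eq_mul, MvPowerSeries.coeff_mul]
    refine Ideal.sum_mem _ fun p hp => ?_
    refine Ideal.mul_mem_left _ _ ?_
    have hle : p.2.degree ≤ e.degree := by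
      rw [Finset.HasAntidiagonal.mem_antidiagonal] at hp
      rw [← hp, map_add]
      exact Nat.le_add_left _ _
    exact Ideal.pow_le_pow_right (Nat.sub_le_sub_left hle n) (hf p.2)

theorem mem_coeffIdeal_iff (𝔞 : Ideal R) (n : ℕ) (f : MvPowerSeries σ R) :
    f ∈ coeffIdeal σ 𝔞 n ↔
      ∀ e : σ →₀ ℕ, MvPowerSeries.coeff e f ∈ 𝔞 ^ (n - e.degree) :=
  Iff.rfl

theorem constIdeal_pow_le_coeffIdeal (𝔞 : Ideal R) (n : ℕ) :
    constIdeal σ 𝔞 ^ n ≤ coeffIdeal σ 𝔞 n := by
  classical
  induction n with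
  | zero =>
    intro f _ e
    simp
  | succ n ih =>
    rw [pow_succ]
    refine Ideal.mul_le.mpr fun f hf h hh => ?_
    have hf' := ih hf
    intro e
    rw [MvPowerSeries.coeff_mul]
    refine Ideal.sum_mem _ fun p hp => ?_
    rw [Finset.HasAntidiagonal.mem_antidiagonal] at hp
    have hdeg : p.1.degree + p.2.degree = e.degree := by rw [← hp, map_add]
    by_cases hp2 : p.2 = 0
    · have h0 : MvPowerSeries.coeff p.2 h ∈ 𝔞 := by
        rw [hp2]
        exact (mem_constIdeal_iff 𝔞 h).mp hh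
      have h1 := hf' p.1
      have hd : p.1.degree = e.degree := by
        rw [← hdeg, hp2]; simp
      rw [hd] at h1
      have : MvPowerSeries.coeff p.1 f * MvPowerSeries.coeff p.2 h ∈
          𝔞 ^ (n - e.degree) * 𝔞 := Ideal.mul_mem_mul h1 h0
      rw [← pow_succ] at this
      exact Ideal.pow_le_pow_right (by omega) this
    · have hpos : 0 < p.2.degree := by
        rcases Nat.eq_zero_or_pos p.2.degree with h0 | h0
        · exact absurd ((Finsupp.degree_eq_zero_iff _).mp h0) hp2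
        · exact h0
      refine Ideal.mul_mem_right _ _ ?_
      exact Ideal.pow_le_pow_right (by omega) (hf' p.1)

/-- Elements of `(X)^n` have vanishing coefficients in degrees `< n`. -/
theorem coeff_eq_zero_of_mem_span_X_pow {n : ℕ} {f : MvPowerSeries σ R}
    (hf : f ∈ (Ideal.span (Set.range (MvPowerSeries.X : σ → MvPowerSeries σ R))) ^ n)
    {e : σ →₀ ℕ} (he : e.degree < n) : MvPowerSeries.coeff e f = 0 := by
  have h1 : Ideal.span (Set.range (MvPowerSeries.X : σ → MvPowerSeries σ R)) ≤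
      constIdeal σ (⊥ : Ideal R) := by
    rw [Ideal.span_le]
    rintro _ ⟨i, rfl⟩
    exact X_mem_constIdeal ⊥ i
  have h2 := constIdeal_pow_le_coeffIdeal (σ := σ) (⊥ : Ideal R) n (Ideal.pow_right_mono h1 n hf)
  have h3 := h2 e
  have hpos : n - e.degree ≠ 0 := by omega
  rw [Ideal.bot_pow hpos] at h3
  simpa using h3

variable [Finite σ]

/-- The coercion of polynomials maps `idealOfVars ^ n` into `(X) ^ n`. -/
theorem coe_mem_span_X_pow {n : ℕ} {p : MvPolynomial σ R}
    (hp : p ∈ MvPolynomial.idealOfVars σ R ^ n) :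
    (p : MvPowerSeries σ R) ∈
      (Ideal.span (Set.range (MvPowerSeries.X : σ → MvPowerSeries σ R))) ^ n := by
  have hmap : Ideal.map (MvPolynomial.coeToMvPowerSeries.ringHom (σ := σ) (R := R))
      (MvPolynomial.idealOfVars σ R) ≤
      Ideal.span (Set.range (MvPowerSeries.X : σ → MvPowerSeries σ R)) := by
    rw [MvPolynomial.idealOfVars, Ideal.map_span, Ideal.span_le]
    rintro _ ⟨_, ⟨i, rfl⟩, rfl⟩
    apply Ideal.subset_span
    exact ⟨i, (MvPolynomial.coe_X i).symm⟩
  have h1 : (MvPolynomial.coeToMvPowerSeries.ringHom (σ := σ) (R := R)) p ∈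
      Ideal.map (MvPolynomial.coeToMvPowerSeries.ringHom (σ := σ) (R := R))
        (MvPolynomial.idealOfVars σ R ^ n) := Ideal.mem_map_of_mem _ hp
  rw [Ideal.map_pow] at h1
  exact Ideal.pow_right_mono hmap n h1

/-- **Tail lemma**: a power series minus its total-degree truncation lies in `(X)^n`. -/
theorem sub_truncTotal_mem_span_X_pow (n : ℕ) (f : MvPowerSeries σ R) :
    f - ((MvPowerSeries.truncTotal n f : MvPolynomial σ R) : MvPowerSeries σ R) ∈
      (Ideal.span (Set.range (MvPowerSeries.X : σ → MvPowerSeries σ R))) ^ n := by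
  set J := Ideal.span (Set.range (MvPowerSeries.X : σ → MvPowerSeries σ R)) with hJ
  -- the sequence of truncations is `J`-adically Cauchy
  have hcauchy : ∀ {m m' : ℕ}, m ≤ m' →
      ((MvPowerSeries.truncTotal m f : MvPolynomial σ R) : MvPowerSeries σ R) ≡
        ((MvPowerSeries.truncTotal m' f : MvPolynomial σ R) : MvPowerSeries σ R)
        [SMOD (J ^ m • ⊤ : Submodule (MvPowerSeries σ R) (MvPowerSeries σ R))] := by
    intro m m' hmm'
    rw [SModEq.sub_mem, smul_eq_mul, Ideal.mul_top]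
    have := coe_mem_span_X_pow
      (MvPowerSeries.truncTotal_sub_truncTotal_mem_pow_idealOfVars le_rfl hmm' f)
    rwa [← MvPolynomial.coeToMvPowerSeries.ringHom_apply, map_sub,
      MvPolynomial.coeToMvPowerSeries.ringHom_apply,
      MvPolynomial.coeToMvPowerSeries.ringHom_apply] at this
  obtain ⟨L, hL⟩ := IsPrecomplete.prec' (I := J) _ hcauchy
  have hL' : ∀ m, ((MvPowerSeries.truncTotal m f : MvPolynomial σ R) : MvPowerSeries σ R) - L
      ∈ J ^ m := by
    intro m
    have := hL m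
    rwa [SModEq.sub_mem, smul_eq_mul, Ideal.mul_top] at this
  have hLf : L = f := by
    ext e
    have h1 := coeff_eq_zero_of_mem_span_X_pow (hL' (e.degree + 1)) (e := e) (Nat.lt_succ_self _)
    rw [map_sub, sub_eq_zero, MvPolynomial.coeff_coe,
      MvPowerSeries.coeff_truncTotal _ (Nat.lt_succ_self _)] at h1
    exact h1.symm
  have := hL' n
  rw [hLf] at this
  rw [← neg_sub]
  exact Ideal.neg_mem_iff _ |>.mpr this

theorem span_X_le_constIdeal (𝔞 : Ideal R) :
    Ideal.span (Set.range (MvPowerSeries.X : σ → MvPowerSeries σ R)) ≤ constIdeal σ 𝔞 := by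
  rw [Ideal.span_le]
  rintro _ ⟨i, rfl⟩
  exact X_mem_constIdeal 𝔞 i

theorem C_mem_constIdeal_pow {𝔞 : Ideal R} {k : ℕ} {c : R} (hc : c ∈ 𝔞 ^ k) :
    (MvPowerSeries.C c : MvPowerSeries σ R) ∈ constIdeal σ 𝔞 ^ k := by
  have hmap : Ideal.map (MvPowerSeries.C (σ := σ) (R := R)) 𝔞 ≤ constIdeal σ 𝔞 := by
    rw [Ideal.map_le_iff_le_comap]
    intro c hc
    exact C_mem_constIdeal hc
  have h1 : (MvPowerSeries.C (σ := σ) (R := R)) c ∈
      Ideal.map (MvPowerSeries.C (σ := σ) (R := R)) (𝔞 ^ k) := Ideal.mem_map_of_mem _ hc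
  rw [Ideal.map_pow] at h1
  exact Ideal.pow_right_mono hmap k h1

theorem coe_monomial_mem_constIdeal_pow {𝔞 : Ideal R} {n : ℕ} (e : σ →₀ ℕ) {c : R}
    (hc : c ∈ 𝔞 ^ (n - e.degree)) :
    ((MvPolynomial.monomial e c : MvPolynomial σ R) : MvPowerSeries σ R) ∈ constIdeal σ 𝔞 ^ n := by
  rw [MvPolynomial.monomial_eq, MvPolynomial.coe_mul, MvPolynomial.coe_C]
  have h1 := C_mem_constIdeal_pow (σ := σ) hc
  have h2 : ((e.prod fun i k => (MvPolynomial.X i : MvPolynomial σ R) ^ k : MvPolynomial σ R) :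
      MvPowerSeries σ R) ∈ constIdeal σ 𝔞 ^ e.degree := by
    have h3 : (e.prod fun i k => (MvPolynomial.X i : MvPolynomial σ R) ^ k) ∈
        MvPolynomial.idealOfVars σ R ^ e.degree := by
      have hmon : (e.prod fun i k => (MvPolynomial.X i : MvPolynomial σ R) ^ k) =
          MvPolynomial.monomial e (1 : R) := by
        rw [MvPolynomial.monomial_eq, MvPolynomial.C_1, one_mul]
      classical
      rw [MvPolynomial.mem_pow_idealOfVars_iff', hmon]
      intro x hx
      rw [MvPolynomial.coeff_monomial]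
      split_ifs with h
      · exact absurd (h ▸ hx) (lt_irrefl _)
      · rfl
    exact Ideal.pow_right_mono (span_X_le_constIdeal 𝔞) _ (coe_mem_span_X_pow h3)
  have h4 := Ideal.mul_mem_mul h1 h2
  rw [← pow_add] at h4
  exact Ideal.pow_le_pow_right (by omega) h4

theorem coeffIdeal_le_constIdeal_pow (𝔞 : Ideal R) (n : ℕ) :
    coeffIdeal σ 𝔞 n ≤ constIdeal σ 𝔞 ^ n := by
  intro f hf
  have htail := Ideal.pow_right_mono (span_X_le_constIdeal (σ := σ) 𝔞) n
    (sub_truncTotal_mem_span_X_pow n f)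
  have hhead : ((MvPowerSeries.truncTotal n f : MvPolynomial σ R) : MvPowerSeries σ R) ∈
      constIdeal σ 𝔞 ^ n := by
    rw [MvPolynomial.as_sum (MvPowerSeries.truncTotal n f)]
    rw [← MvPolynomial.coeToMvPowerSeries.ringHom_apply, map_sum]
    refine Ideal.sum_mem _ fun e _ => ?_
    rw [MvPolynomial.coeToMvPowerSeries.ringHom_apply]
    apply coe_monomial_mem_constIdeal_pow
    by_cases he : e.degree < n
    · rw [MvPowerSeries.coeff_truncTotal _ he]
      exact hf e
    · rw [MvPowerSeries.coeff_truncTotal_eq_zero _ (not_lt.mp he)]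
      exact Ideal.zero_mem _
  have := Ideal.add_mem _ htail hhead
  rwa [sub_add_cancel] at this

theorem constIdeal_pow_eq_coeffIdeal (𝔞 : Ideal R) (n : ℕ) :
    constIdeal σ 𝔞 ^ n = coeffIdeal σ 𝔞 n :=
  le_antisymm (constIdeal_pow_le_coeffIdeal 𝔞 n) (coeffIdeal_le_constIdeal_pow 𝔞 n)

/-- If `R` is `𝔞`-adically precomplete then `R⟦X₁,…,X_d⟧` is precomplete with respect to
`(𝔞, X₁, …, X_d)`. -/
theorem isPrecomplete_constIdeal (𝔞 : Ideal R) [IsPrecomplete 𝔞 R] :
    IsPrecomplete (constIdeal σ 𝔞) (MvPowerSeries σ R) := by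
  refine ⟨fun f hf => ?_⟩
  have hf' : ∀ {m n : ℕ}, m ≤ n → ∀ e : σ →₀ ℕ,
      MvPowerSeries.coeff e (f m) - MvPowerSeries.coeff e (f n) ∈ 𝔞 ^ (m - e.degree) := by
    intro m n hmn e
    have h1 := hf hmn
    rw [SModEq.sub_mem, smul_eq_mul, Ideal.mul_top] at h1
    have h2 := constIdeal_pow_le_coeffIdeal 𝔞 m h1 e
    rwa [map_sub] at h2
  -- coefficientwise limits
  have hex : ∀ e : σ →₀ ℕ, ∃ L : R, ∀ j : ℕ,
      MvPowerSeries.coeff e (f (j + e.degree)) ≡ L [SMOD (𝔞 ^ j • ⊤ : Submodule R R)] := by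
    intro e
    refine IsPrecomplete.prec' (I := 𝔞) (fun j => MvPowerSeries.coeff e (f (j + e.degree))) ?_
    intro j j' hjj'
    rw [SModEq.sub_mem, smul_eq_mul, Ideal.mul_top]
    have := hf' (Nat.add_le_add_right hjj' e.degree) e
    rwa [Nat.add_sub_cancel] at this
  choose L hL using hex
  let Lp : MvPowerSeries σ R := fun e => L e
  have hLp : ∀ e, MvPowerSeries.coeff e Lp = L e := fun e => rfl
  refine ⟨Lp, fun n => ?_⟩
  rw [SModEq.sub_mem, smul_eq_mul, Ideal.mul_top]
  apply coeffIdeal_le_constIdeal_pow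
  intro e
  rw [map_sub, hLp]
  by_cases he : e.degree ≤ n
  · have h1 := hL e (n - e.degree)
    rw [SModEq.sub_mem, smul_eq_mul, Ideal.mul_top, Nat.sub_add_cancel he] at h1
    exact h1
  · have : n - e.degree = 0 := by omega
    rw [this, pow_zero, Ideal.one_eq_top]
    exact Submodule.mem_top

end Filtration

section Complete

variable {σ : Type*} [Finite σ] {R : Type*} [CommRing R] [IsLocalRing R]

theorem maximalIdeal_mvPowerSeries_eq :
    maximalIdeal (MvPowerSeries σ R) = constIdeal σ (maximalIdeal R) := by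
  ext f
  rw [mem_constIdeal_iff, mem_maximalIdeal, mem_maximalIdeal, mem_nonunits_iff, mem_nonunits_iff,
    MvPowerSeries.isUnit_iff_constantCoeff]

theorem X_mem_maximalIdeal_mvPowerSeries (i : σ) :
    (MvPowerSeries.X i : MvPowerSeries σ R) ∈ maximalIdeal (MvPowerSeries σ R) := by
  rw [maximalIdeal_mvPowerSeries_eq]
  exact X_mem_constIdeal _ i

theorem C_mem_maximalIdeal_mvPowerSeries {c : R} (hc : c ∈ maximalIdeal R) :
    (MvPowerSeries.C c : MvPowerSeries σ R) ∈ maximalIdeal (MvPowerSeries σ R) := by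
  rw [maximalIdeal_mvPowerSeries_eq]
  exact C_mem_constIdeal hc

/-- **(C1)** `R⟦X₁,…,X_d⟧` is complete for its maximal ideal when `R` is a complete Noetherian
local ring. -/
theorem isAdicComplete_mvPowerSeries [IsNoetherianRing R] [IsAdicComplete (maximalIdeal R) R] :
    IsAdicComplete (maximalIdeal (MvPowerSeries σ R)) (MvPowerSeries σ R) := by
  have : IsPrecomplete (maximalIdeal (MvPowerSeries σ R)) (MvPowerSeries σ R) := by
    rw [maximalIdeal_mvPowerSeries_eq]
    exact isPrecomplete_constIdeal _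
  exact {}

end Complete

section Eval

variable {σ : Type*} [Finite σ] {R : Type*} [CommRing R]
variable {A : Type*} [CommRing A] [Algebra R A]

theorem aeval_mem_pow_of_mem_idealOfVars_pow (I : Ideal A) {x : σ → A} (hx : ∀ i, x i ∈ I)
    {n : ℕ} {p : MvPolynomial σ R} (hp : p ∈ MvPolynomial.idealOfVars σ R ^ n) :
    MvPolynomial.aeval x p ∈ I ^ n := by
  have hmap : Ideal.map (MvPolynomial.aeval (R := R) x) (MvPolynomial.idealOfVars σ R) ≤ I := by
    rw [MvPolynomial.idealOfVars, Ideal.map_span, Ideal.span_le]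
    rintro _ ⟨_, ⟨i, rfl⟩, rfl⟩
    simpa using hx i
  have h1 : MvPolynomial.aeval (R := R) x p ∈
      Ideal.map (MvPolynomial.aeval (R := R) x) (MvPolynomial.idealOfVars σ R ^ n) :=
    Ideal.mem_map_of_mem _ hp
  rw [Ideal.map_pow] at h1
  exact Ideal.pow_right_mono hmap n h1

/-- level-`n` evaluation `R⟦X⟧ → A ⧸ I ^ n` at a point `x` with coordinates in `I`. -/
def evalLevel (I : Ideal A) (x : σ → A) (hx : ∀ i, x i ∈ I) (n : ℕ) :
    MvPowerSeries σ R →ₐ[R] A ⧸ I ^ n :=
  (Ideal.Quotient.liftₐ (MvPolynomial.idealOfVars σ R ^ n)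
      ((Ideal.Quotient.mkₐ R (I ^ n)).comp (MvPolynomial.aeval (R := R) x))
      (fun p hp => by
        rw [AlgHom.comp_apply, Ideal.Quotient.mkₐ_eq_mk, Ideal.Quotient.eq_zero_iff_mem]
        exact aeval_mem_pow_of_mem_idealOfVars_pow I hx hp)).comp
    ((MvPowerSeries.truncTotalAlgHom σ R n).restrictScalars R)

theorem evalLevel_apply (I : Ideal A) (x : σ → A) (hx : ∀ i, x i ∈ I) (n : ℕ)
    (f : MvPowerSeries σ R) :
    evalLevel I x hx n f =
      Ideal.Quotient.mk (I ^ n) (MvPolynomial.aeval (R := R) x (MvPowerSeries.truncTotal n f)) := by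
  rfl

theorem evalLevel_compat (I : Ideal A) (x : σ → A) (hx : ∀ i, x i ∈ I) {m n : ℕ} (hmn : m ≤ n) :
    (Ideal.Quotient.factorₐ R (Ideal.pow_le_pow_right hmn)).comp (evalLevel (R := R) I x hx n) =
      evalLevel I x hx m := by
  ext f
  rw [AlgHom.comp_apply, evalLevel_apply, evalLevel_apply, Ideal.Quotient.factorₐ_apply_mk,
    Ideal.Quotient.eq]
  rw [← map_sub]
  exact aeval_mem_pow_of_mem_idealOfVars_pow I hx
    (MvPowerSeries.truncTotal_sub_truncTotal_mem_pow_idealOfVars hmn le_rfl f)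

variable (I : Ideal A) [IsAdicComplete I A]

/-- **(C2)** evaluation of power series at a point with coordinates in `I`, for an
`I`-adically complete `R`-algebra `A`. -/
def evalCNL (x : σ → A) (hx : ∀ i, x i ∈ I) : MvPowerSeries σ R →ₐ[R] A :=
  IsAdicComplete.liftAlgHom I (evalLevel I x hx) (fun hmn => evalLevel_compat I x hx hmn)

theorem mk_evalCNL (x : σ → A) (hx : ∀ i, x i ∈ I) (n : ℕ) (f : MvPowerSeries σ R) :
    Ideal.Quotient.mk (I ^ n) (evalCNL I x hx f) =
      Ideal.Quotient.mk (I ^ n) (MvPolynomial.aeval (R := R) x (MvPowerSeries.truncTotal n f)) := by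
  rw [evalCNL, IsAdicComplete.mk_liftAlgHom _ _ (fun hmn => evalLevel_compat I x hx hmn),
    evalLevel_apply]

theorem evalCNL_coe (x : σ → A) (hx : ∀ i, x i ∈ I) (p : MvPolynomial σ R) :
    evalCNL I x hx (p : MvPowerSeries σ R) = MvPolynomial.aeval (R := R) x p := by
  rw [← sub_eq_zero]
  refine IsHausdorff.haus' (I := I) _ fun n => ?_
  rw [SModEq.zero, smul_eq_mul, Ideal.mul_top, ← Ideal.Quotient.eq, mk_evalCNL, Ideal.Quotient.eq,
    ← map_sub]
  apply aeval_mem_pow_of_mem_idealOfVars_pow I hx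
  rw [MvPolynomial.mem_pow_idealOfVars_iff']
  intro e he
  rw [MvPolynomial.coeff_sub, MvPowerSeries.coeff_truncTotal _ he, MvPolynomial.coeff_coe,
    sub_self]

theorem evalCNL_X (x : σ → A) (hx : ∀ i, x i ∈ I) (i : σ) :
    evalCNL I x hx (MvPowerSeries.X i : MvPowerSeries σ R) = x i := by
  rw [← MvPolynomial.coe_X, evalCNL_coe, MvPolynomial.aeval_X]

/-- **(C3)** two `R`-algebra maps out of `R⟦X⟧` into an `I`-adically separated algebra that agree
on the variables, and send them into `I`, are equal. -/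
theorem algHom_ext_of_X (J : Ideal A) [IsHausdorff J A] {φ ψ : MvPowerSeries σ R →ₐ[R] A}
    (hφ : ∀ i, φ (MvPowerSeries.X i) ∈ J) (h : ∀ i, φ (MvPowerSeries.X i) = ψ (MvPowerSeries.X i)) :
    φ = ψ := by
  have hpoly : ∀ p : MvPolynomial σ R, φ (p : MvPowerSeries σ R) = ψ (p : MvPowerSeries σ R) := by
    intro p
    have : φ.comp (MvPolynomial.coeToMvPowerSeries.algHom (σ := σ) (R := R) R) =
        ψ.comp (MvPolynomial.coeToMvPowerSeries.algHom (σ := σ) (R := R) R) := by
      apply MvPolynomial.algHom_ext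
      intro i
      simpa [MvPolynomial.coeToMvPowerSeries.algHom_apply] using h i
    have h2 := congrArg (fun g => g p) this
    simpa [MvPolynomial.coeToMvPowerSeries.algHom_apply] using h2
  have hmap : ∀ (χ : MvPowerSeries σ R →ₐ[R] A), (∀ i, χ (MvPowerSeries.X i) ∈ J) →
      ∀ (n : ℕ) (t : MvPowerSeries σ R),
      t ∈ (Ideal.span (Set.range (MvPowerSeries.X : σ → MvPowerSeries σ R))) ^ n → χ t ∈ J ^ n := by
    intro χ hχ n t ht
    have hle : Ideal.map χ (Ideal.span (Set.range (MvPowerSeries.X : σ → MvPowerSeries σ R))) ≤ J := by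
      rw [Ideal.map_span, Ideal.span_le]
      rintro _ ⟨_, ⟨i, rfl⟩, rfl⟩
      exact hχ i
    have h1 : χ t ∈ Ideal.map χ
        ((Ideal.span (Set.range (MvPowerSeries.X : σ → MvPowerSeries σ R))) ^ n) :=
      Ideal.mem_map_of_mem _ ht
    rw [Ideal.map_pow] at h1
    exact Ideal.pow_right_mono hle n h1
  ext f
  rw [← sub_eq_zero]
  refine IsHausdorff.haus' (I := J) _ fun n => ?_
  rw [SModEq.zero, smul_eq_mul, Ideal.mul_top]
  have ht := sub_truncTotal_mem_span_X_pow n f
  have h1 := hmap φ hφ n _ ht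
  have h2 := hmap ψ (fun i => h i ▸ hφ i) n _ ht
  have h3 := Ideal.sub_mem _ h1 h2
  rw [map_sub, map_sub, hpoly] at h3
  simpa using h3

end Eval

section Surjective

variable {σ : Type*} [Finite σ] {R : Type*} [CommRing R] [IsLocalRing R]
variable {A : Type*} [CommRing A] [Algebra R A] [IsLocalRing A]

/-- the maximal ideal of `R⟦X⟧` is generated by `𝔪_R` and the variables. -/
theorem maximalIdeal_mvPowerSeries_eq_sup :
    maximalIdeal (MvPowerSeries σ R) =
      Ideal.map (MvPowerSeries.C (σ := σ) (R := R)) (maximalIdeal R) ⊔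
        Ideal.span (Set.range (MvPowerSeries.X : σ → MvPowerSeries σ R)) := by
  apply le_antisymm
  · intro f hf
    have h0 : MvPowerSeries.constantCoeff f ∈ maximalIdeal R := by
      rwa [maximalIdeal_mvPowerSeries_eq] at hf
    have ht := sub_truncTotal_mem_span_X_pow 1 f
    rw [pow_one] at ht
    have htr : ((MvPowerSeries.truncTotal 1 f : MvPolynomial σ R) : MvPowerSeries σ R) =
        MvPowerSeries.C (MvPowerSeries.constantCoeff f) := by
      ext e
      rw [MvPolynomial.coeff_coe]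
      by_cases he : e.degree < 1
      · have he0 : e = 0 := by
          apply (Finsupp.degree_eq_zero_iff _).mp
          omega
        subst he0
        rw [MvPowerSeries.coeff_truncTotal _ he]
        simp
      · have he0 : e ≠ 0 := by
          rintro rfl
          simp at he
        rw [MvPowerSeries.coeff_truncTotal_eq_zero _ (not_lt.mp he)]
        classical
        rw [MvPowerSeries.coeff_C, if_neg he0]
    rw [htr] at ht
    have : f = MvPowerSeries.C (MvPowerSeries.constantCoeff f) +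
        (f - MvPowerSeries.C (MvPowerSeries.constantCoeff f)) := by ring
    rw [this]
    exact Ideal.add_mem _ (Ideal.mem_sup_left (Ideal.mem_map_of_mem _ h0)) (Ideal.mem_sup_right ht)
  · refine sup_le ?_ ?_
    · rw [Ideal.map_le_iff_le_comap]
      intro c hc
      exact C_mem_maximalIdeal_mvPowerSeries hc
    · rw [Ideal.span_le]
      rintro _ ⟨i, rfl⟩
      exact X_mem_maximalIdeal_mvPowerSeries i

theorem map_maximalIdeal_mvPowerSeries (φ : MvPowerSeries σ R →ₐ[R] A) :
    Ideal.map φ (maximalIdeal (MvPowerSeries σ R)) =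
      Ideal.map (algebraMap R A) (maximalIdeal R) ⊔
        Ideal.span (Set.range fun i => φ (MvPowerSeries.X i)) := by
  rw [maximalIdeal_mvPowerSeries_eq_sup, Ideal.map_sup, Ideal.map_span]
  congr 1
  · have : Ideal.map φ (Ideal.map (MvPowerSeries.C (σ := σ) (R := R)) (maximalIdeal R)) =
        Ideal.map ((φ : MvPowerSeries σ R →+* A).comp (MvPowerSeries.C (σ := σ) (R := R)))
          (maximalIdeal R) := Ideal.map_map _ _
    rw [this]
    congr 1
    ext c
    simp [MvPowerSeries.c_eq_algebraMap]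
  · congr 1
    ext a
    constructor
    · rintro ⟨_, ⟨i, rfl⟩, rfl⟩
      exact ⟨i, rfl⟩
    · rintro ⟨i, rfl⟩
      exact ⟨_, ⟨i, rfl⟩, rfl⟩

/-- **(C4)** surjectivity criterion: if the images of `𝔪_R` and of the variables generate `𝔪_A`
and `R → A/𝔪_A` is onto, then `φ : R⟦X⟧ → A` is onto (`A` local, `𝔪_A`-adically separated,
`R` complete Noetherian local). -/
theorem surjective_of_map_maximalIdeal [IsNoetherianRing R] [IsAdicComplete (maximalIdeal R) R]
    [IsHausdorff (maximalIdeal A) A]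
    (φ : MvPowerSeries σ R →ₐ[R] A)
    (hres : Function.Surjective (IsLocalRing.residue A ∘ algebraMap R A))
    (hgen : Ideal.map (algebraMap R A) (maximalIdeal R) ⊔
        Ideal.span (Set.range fun i => φ (MvPowerSeries.X i)) = maximalIdeal A) :
    Function.Surjective φ := by
  have hmap : Ideal.map (φ : MvPowerSeries σ R →+* A) (maximalIdeal (MvPowerSeries σ R)) =
      maximalIdeal A := by
    rw [← hgen]
    exact map_maximalIdeal_mvPowerSeries φ
  haveI : IsAdicComplete (maximalIdeal (MvPowerSeries σ R)) (MvPowerSeries σ R) :=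
    isAdicComplete_mvPowerSeries
  haveI : IsHausdorff (Ideal.map (φ : MvPowerSeries σ R →+* A)
      (maximalIdeal (MvPowerSeries σ R))) A := by
    rw [hmap]; infer_instance
  refine surjective_of_mk_map_comp_surjective (I := maximalIdeal (MvPowerSeries σ R))
    (φ : MvPowerSeries σ R →+* A) ?_
  intro y
  obtain ⟨a, rfl⟩ := Ideal.Quotient.mk_surjective y
  obtain ⟨c, hc⟩ := hres (IsLocalRing.residue A a)
  refine ⟨MvPowerSeries.C c, ?_⟩
  rw [RingHom.comp_apply, Ideal.Quotient.eq, hmap]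
  have h1 : (φ : MvPowerSeries σ R →+* A) (MvPowerSeries.C c) = algebraMap R A c := by
    rw [MvPowerSeries.c_eq_algebraMap]
    exact φ.commutes c
  rw [h1]
  rw [Function.comp_apply] at hc
  rw [← Ideal.Quotient.eq]
  exact hc

end Surjective

section Quotient

variable {R : Type*} [CommRing R] [IsLocalRing R]
variable {S : Type*} [CommRing S] [IsLocalRing S] [Algebra R S]

/-- a proper quotient of a local ring is local. -/
theorem isLocalRing_quotient (𝔟 : Ideal S) (h : 𝔟 ≠ ⊤) : IsLocalRing (S ⧸ 𝔟) := by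
  have : Nontrivial (S ⧸ 𝔟) := Ideal.Quotient.nontrivial_iff.mpr h
  exact IsLocalRing.of_surjective' (Ideal.Quotient.mk 𝔟) Ideal.Quotient.mk_surjective

theorem isLocalHom_quotient_mk (𝔟 : Ideal S) (h : 𝔟 ≠ ⊤) :
    IsLocalHom (Ideal.Quotient.mk 𝔟) := by
  refine ⟨fun a ha => ?_⟩
  by_contra hna
  have ha' : a ∈ maximalIdeal S := hna
  have hle : 𝔟 ≤ maximalIdeal S := IsLocalRing.le_maximalIdeal h
  have hmax : (maximalIdeal S).map (Ideal.Quotient.mk 𝔟) ≠ ⊤ := by
    intro htop
    have h1 : (1 : S ⧸ 𝔟) ∈ (maximalIdeal S).map (Ideal.Quotient.mk 𝔟) := htop ▸ Submodule.mem_top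
    rw [← map_one (Ideal.Quotient.mk 𝔟),
      Ideal.mem_map_iff_of_surjective _ Ideal.Quotient.mk_surjective] at h1
    obtain ⟨b, hb, hb1⟩ := h1
    have h2 : b - 1 ∈ 𝔟 := by
      rw [← Ideal.Quotient.eq_zero_iff_mem, map_sub, hb1, sub_self]
    have h3 : (1 : S) ∈ maximalIdeal S := by
      have := Ideal.sub_mem _ hb (hle h2)
      simpa using this
    exact (maximalIdeal.isMaximal S).ne_top ((Ideal.eq_top_iff_one _).mpr h3)
  apply hmax
  apply Ideal.eq_top_of_isUnit_mem _ (Ideal.mem_map_of_mem _ ha') ha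

/-- **(C5)** a proper quotient of a complete Noetherian local ring is complete. -/
theorem isAdicComplete_quotient [IsNoetherianRing S] [IsAdicComplete (maximalIdeal S) S]
    (𝔟 : Ideal S) (h : 𝔟 ≠ ⊤) :
    letI := _root_.Fermat.Agent.S53.H596.isLocalRing_quotient 𝔟 h
    IsAdicComplete (maximalIdeal (S ⧸ 𝔟)) (S ⧸ 𝔟) := by
  letI := _root_.Fermat.Agent.S53.H596.isLocalRing_quotient 𝔟 h
  haveI : IsLocalHom (algebraMap S (S ⧸ 𝔟)) := _root_.Fermat.Agent.S53.H596.isLocalHom_quotient_mk 𝔟 h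
  exact IsLocalRing.isAdicComplete_of_module_finite (𝒪 := S) (T := S ⧸ 𝔟)

theorem isLocalHom_algebraMap_quotient [IsLocalHom (algebraMap R S)] (𝔟 : Ideal S) (h : 𝔟 ≠ ⊤) :
    letI := _root_.Fermat.Agent.S53.H596.isLocalRing_quotient 𝔟 h
    IsLocalHom (algebraMap R (S ⧸ 𝔟)) := by
  letI := _root_.Fermat.Agent.S53.H596.isLocalRing_quotient 𝔟 h
  haveI : IsLocalHom (Ideal.Quotient.mk 𝔟) := _root_.Fermat.Agent.S53.H596.isLocalHom_quotient_mk 𝔟 h
  refine ⟨fun a ha => ?_⟩
  have h1 : algebraMap R (S ⧸ 𝔟) a = Ideal.Quotient.mk 𝔟 (algebraMap R S a) := rfl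
  rw [h1] at ha
  exact isUnit_of_map_unit (algebraMap R S) a (isUnit_of_map_unit (Ideal.Quotient.mk 𝔟) _ ha)

theorem residue_surjective_quotient
    (hres : Function.Surjective (IsLocalRing.residue S ∘ algebraMap R S))
    (𝔟 : Ideal S) (h : 𝔟 ≠ ⊤) :
    letI := _root_.Fermat.Agent.S53.H596.isLocalRing_quotient 𝔟 h
    Function.Surjective (IsLocalRing.residue (S ⧸ 𝔟) ∘ algebraMap R (S ⧸ 𝔟)) := by
  letI := _root_.Fermat.Agent.S53.H596.isLocalRing_quotient 𝔟 h
  haveI : IsLocalHom (Ideal.Quotient.mk 𝔟) := _root_.Fermat.Agent.S53.H596.isLocalHom_quotient_mk 𝔟 h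
  intro y
  obtain ⟨a, rfl⟩ := IsLocalRing.residue_surjective y
  obtain ⟨s, rfl⟩ := Ideal.Quotient.mk_surjective a
  obtain ⟨c, hc⟩ := hres (IsLocalRing.residue S s)
  refine ⟨c, ?_⟩
  rw [Function.comp_apply] at hc ⊢
  have h1 : algebraMap R (S ⧸ 𝔟) c = Ideal.Quotient.mk 𝔟 (algebraMap R S c) := rfl
  rw [h1]
  have hc' : algebraMap R S c - s ∈ maximalIdeal S := by
    rw [← Ideal.Quotient.eq]
    exact hc
  rw [← sub_eq_zero, ← map_sub, ← map_sub, IsLocalRing.residue_eq_zero_iff]
  intro hu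
  exact hc' (isUnit_of_map_unit (Ideal.Quotient.mk 𝔟) _ hu)

end Quotient

section PowerSeriesOverO

variable {σ : Type*} [Finite σ] {R : Type*} [CommRing R] [IsLocalRing R]

theorem isLocalHom_algebraMap_mvPowerSeries : IsLocalHom (algebraMap R (MvPowerSeries σ R)) := by
  refine ⟨fun a ha => ?_⟩
  rw [← MvPowerSeries.c_eq_algebraMap, MvPowerSeries.isUnit_iff_constantCoeff] at ha
  simpa using ha

theorem residue_surjective_mvPowerSeries :
    Function.Surjective
      (IsLocalRing.residue (MvPowerSeries σ R) ∘ algebraMap R (MvPowerSeries σ R)) := by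
  intro y
  obtain ⟨f, rfl⟩ := IsLocalRing.residue_surjective y
  refine ⟨MvPowerSeries.constantCoeff f, ?_⟩
  rw [Function.comp_apply, ← sub_eq_zero, ← map_sub, IsLocalRing.residue_eq_zero_iff,
    maximalIdeal_mvPowerSeries_eq, mem_constIdeal_iff, map_sub, ← MvPowerSeries.c_eq_algebraMap]
  simp

end PowerSeriesOverO

section Package

variable {R : Type*} [CommRing R] [IsLocalRing R] [IsNoetherianRing R]
  [IsAdicComplete (maximalIdeal R) R]
variable {A : Type*} [CommRing A] [Algebra R A] [IsLocalRing A] [IsAdicComplete (maximalIdeal A) A]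

/-- Nakayama: in a Noetherian local ring, an ideal `N ≤ 𝔪` with `𝔪 ≤ N ⊔ 𝔪²` equals `𝔪`. -/
theorem maximalIdeal_le_of_le_sup_sq {B : Type*} [CommRing B] [IsLocalRing B] [IsNoetherianRing B]
    (N : Ideal B) (h : maximalIdeal B ≤ N ⊔ maximalIdeal B ^ 2) : maximalIdeal B ≤ N := by
  refine Submodule.le_of_le_smul_of_le_jacobson_bot (I := maximalIdeal B) (N := N)
    (N' := maximalIdeal B) (IsNoetherian.noetherian _) ?_ ?_
  · exact IsLocalRing.maximalIdeal_le_jacobson ⊥
  · rwa [smul_eq_mul, ← pow_two]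

/-- **Package**: a complete local `R`-algebra `A` with `R → A/𝔪_A` onto, whose maximal ideal is
generated by the image of `𝔪_R` and `d` elements `x i`, is a quotient of `R⟦X₁,…,X_d⟧` via
`X i ↦ x i`. -/
theorem exists_surjective_algHom_of_generators {d : ℕ}
    (hres : Function.Surjective (IsLocalRing.residue A ∘ algebraMap R A))
    (x : Fin d → A)
    (hgen : Ideal.map (algebraMap R A) (maximalIdeal R) ⊔ Ideal.span (Set.range x) =
      maximalIdeal A) :
    ∃ φ : MvPowerSeries (Fin d) R →ₐ[R] A,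
      Function.Surjective φ ∧ ∀ i, φ (MvPowerSeries.X i) = x i := by
  have hx : ∀ i, x i ∈ maximalIdeal A := fun i => by
    rw [← hgen]
    exact Ideal.mem_sup_right (Ideal.subset_span ⟨i, rfl⟩)
  refine ⟨evalCNL (maximalIdeal A) x hx, ?_, fun i => evalCNL_X _ _ _ i⟩
  apply surjective_of_map_maximalIdeal _ hres
  have : (fun i => evalCNL (R := R) (maximalIdeal A) x hx (MvPowerSeries.X i)) = x :=
    funext fun i => evalCNL_X _ _ _ i
  rw [this]
  exact hgen

/-- **Package, cotangent form**: same with generation only modulo `𝔪_A²` (`A` Noetherian). -/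
theorem exists_surjective_algHom_of_generators_mod_sq [IsNoetherianRing A] {d : ℕ}
    (hloc : IsLocalHom (algebraMap R A))
    (hres : Function.Surjective (IsLocalRing.residue A ∘ algebraMap R A))
    (x : Fin d → A) (hx : ∀ i, x i ∈ maximalIdeal A)
    (hgen : maximalIdeal A ≤ Ideal.map (algebraMap R A) (maximalIdeal R) ⊔
      Ideal.span (Set.range x) ⊔ maximalIdeal A ^ 2) :
    ∃ φ : MvPowerSeries (Fin d) R →ₐ[R] A,
      Function.Surjective φ ∧ ∀ i, φ (MvPowerSeries.X i) = x i := by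
  apply exists_surjective_algHom_of_generators hres x
  apply le_antisymm
  · refine sup_le ?_ ?_
    · rw [Ideal.map_le_iff_le_comap]
      intro c hc
      rw [Ideal.mem_comap]
      intro hu
      exact hc (hloc.map_nonunit c hu)
    · rw [Ideal.span_le]
      rintro _ ⟨i, rfl⟩
      exact hx i
  · exact maximalIdeal_le_of_le_sup_sq _ hgen

end Package

end

end Fermat.Agent.S53.H596

end
-- ===== PACK-END S53/H596/PowerSeriesCNL.lean

-- ===== PACK-BEGIN S56/H596/DualMat.lean
section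


/-!
# S56, piece DICT (helper596): `2 × 2` matrices over the dual numbers

A matrix `X` over `k[ε]` is written `X = X₀ + ε X₁` with `X₀ = m0 X`, `X₁ = m1 X` matrices
over `k`.
-/

set_option autoImplicit false
set_option linter.unusedSectionVars false
set_option linter.unusedVariables false

namespace Fermat.Agent.S56.H596

noncomputable section

open TrivSqZeroExt

variable {k : Type*} [Field k]

/-- The constant part of a matrix over the dual numbers. -/
def m0 (X : Matrix (Fin 2) (Fin 2) (DualNumber k)) : Matrix (Fin 2) (Fin 2) k :=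
  X.map TrivSqZeroExt.fst

/-- The `ε`-part of a matrix over the dual numbers. -/
def m1 (X : Matrix (Fin 2) (Fin 2) (DualNumber k)) : Matrix (Fin 2) (Fin 2) k :=
  X.map TrivSqZeroExt.snd

@[simp] theorem m0_apply (X : Matrix (Fin 2) (Fin 2) (DualNumber k)) (i j : Fin 2) :
    m0 X i j = TrivSqZeroExt.fst (X i j) := rfl

@[simp] theorem m1_apply (X : Matrix (Fin 2) (Fin 2) (DualNumber k)) (i j : Fin 2) :
    m1 X i j = TrivSqZeroExt.snd (X i j) := rfl

theorem dualMat_ext {X Y : Matrix (Fin 2) (Fin 2) (DualNumber k)} (h0 : m0 X = m0 Y)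
    (h1 : m1 X = m1 Y) : X = Y := by
  ext i j
  · have := congrFun (congrFun h0 i) j
    simpa using this
  · have := congrFun (congrFun h1 i) j
    simpa using this

theorem m0_mul (X Y : Matrix (Fin 2) (Fin 2) (DualNumber k)) : m0 (X * Y) = m0 X * m0 Y := by
  ext i j
  simp [Matrix.mul_apply, Fin.sum_univ_two]

theorem m1_mul (X Y : Matrix (Fin 2) (Fin 2) (DualNumber k)) :
    m1 (X * Y) = m0 X * m1 Y + m1 X * m0 Y := by
  ext i j
  simp [Matrix.mul_apply, Fin.sum_univ_two]
  ring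

@[simp] theorem m0_one : m0 (1 : Matrix (Fin 2) (Fin 2) (DualNumber k)) = 1 := by
  ext i j
  by_cases h : i = j
  · subst h; simp
  · simp [h]

@[simp] theorem m1_one : m1 (1 : Matrix (Fin 2) (Fin 2) (DualNumber k)) = 0 := by
  ext i j
  by_cases h : i = j
  · subst h; simp
  · simp [h]

/-- The matrix `R + ε B` over the dual numbers. -/
def dmk (R B : Matrix (Fin 2) (Fin 2) k) : Matrix (Fin 2) (Fin 2) (DualNumber k) :=
  Matrix.of fun i j => TrivSqZeroExt.inl (R i j) + TrivSqZeroExt.inr (B i j)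

@[simp] theorem m0_dmk (R B : Matrix (Fin 2) (Fin 2) k) : m0 (dmk R B) = R := by
  ext i j; simp [dmk]

@[simp] theorem m1_dmk (R B : Matrix (Fin 2) (Fin 2) k) : m1 (dmk R B) = B := by
  ext i j; simp [dmk]

theorem dmk_m0_m1 (X : Matrix (Fin 2) (Fin 2) (DualNumber k)) : dmk (m0 X) (m1 X) = X :=
  dualMat_ext (m0_dmk _ _) (m1_dmk _ _)

theorem fst_det (X : Matrix (Fin 2) (Fin 2) (DualNumber k)) :
    TrivSqZeroExt.fst X.det = (m0 X).det := by
  simp [Matrix.det_fin_two]

theorem snd_det (X : Matrix (Fin 2) (Fin 2) (DualNumber k)) :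
    TrivSqZeroExt.snd X.det = Matrix.trace (m1 X * (m0 X).adjugate) := by
  simp [Matrix.det_fin_two, Matrix.trace_fin_two, Matrix.adjugate_fin_two, Matrix.mul_apply,
    Fin.sum_univ_two]
  ring

/-- `dmk R B` as a combination of base-changed matrices. -/
theorem dmk_eq (R B : Matrix (Fin 2) (Fin 2) k) :
    dmk R B = R.map (algebraMap k (DualNumber k)) +
      (DualNumber.eps : DualNumber k) • B.map (algebraMap k (DualNumber k)) := by
  apply dualMat_ext
  · rw [m0_dmk]
    ext i j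
    simp [TrivSqZeroExt.algebraMap_eq_inl]
  · rw [m1_dmk]
    ext i j
    simp [TrivSqZeroExt.algebraMap_eq_inl]

/-- `1 + ε M` is invertible. -/
def dunit (M : Matrix (Fin 2) (Fin 2) k) : (Matrix (Fin 2) (Fin 2) (DualNumber k))ˣ where
  val := dmk 1 M
  inv := dmk 1 (-M)
  val_inv := by
    apply dualMat_ext
    · simp [m0_mul]
    · simp [m1_mul]
  inv_val := by
    apply dualMat_ext
    · simp [m0_mul]
    · simp [m1_mul]

@[simp] theorem coe_dunit (M : Matrix (Fin 2) (Fin 2) k) :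
    ((dunit M : (Matrix (Fin 2) (Fin 2) (DualNumber k))ˣ) :
      Matrix (Fin 2) (Fin 2) (DualNumber k)) = dmk 1 M := rfl

end

end Fermat.Agent.S56.H596

end
-- ===== PACK-END S56/H596/DualMat.lean

-- ===== PACK-BEGIN S55/H244/EngineLocal.lean
section


/-!
# S55, duality engine: the final step WITHOUT local duality in degree 1

(helper244; complements `Fermat/Agent/S55/PT/Engine.lean` of helper835.)

The last step of the Poitou–Tate engine ("route C′") identifies `Ш²` with the dual of `Ш¹` from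
* the cone exact sequence `L¹ →j T² →u H² →loc₂ L²`  (`T² = H²_c`),
* the shifted global duality `θ : T² ≃ Dual X¹`  (`X¹ = H¹(G_S, M')`),
* the identity `Ann_{X¹} (θ (j L¹)) = ker loc`.

In the original design the last identity was obtained from a *local duality isomorphism*
`λ_v : H¹(G_v, M) ≃ Dual H¹(G_v, M')`, which needs local effaceability (local existence theorem
mod `p`, finiteness of local `H¹`, ...).  Here we show that it follows from the **top-degree**
local pairings alone (`LocalTop.ann_iff`): one only needs, for the short exact sequence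
`0 → R → P → M → 0` used in the global shift and for each place `v`,

* exactness of `H¹(G_v, M) →∂ H²(G_v, R) → H²(G_v, P)` and of
  `H⁰(G_v, P') → H⁰(G_v, R') →δ H¹(G_v, M')`,
* `Θ_v(R) : H²(G_v, R) → Dual H⁰(G_v, R')` surjective, `Θ_v(P)` injective, naturality.

No statement about `H¹(G_v, -)` other than these two exactness properties is used.

Everything in this file is linear algebra over a field.
-/

set_option autoImplicit false

namespace Fermat.Agent.S55.H244

open Module

section DoubleAnnihilator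

variable {k : Type*} [Field k] {V : Type*} [AddCommGroup V] [Module k V]

/-- Double annihilator of a subspace: a vector killed by every functional vanishing on `W` lies
in `W`. -/
theorem mem_of_forall_dual_eq_zero (W : Submodule k V) (x : V)
    (h : ∀ φ : Dual k V, (∀ w ∈ W, φ w = 0) → φ x = 0) : x ∈ W := by
  by_contra hx
  obtain ⟨φ, hφx, hφW⟩ := Submodule.exists_dual_map_eq_bot_of_notMem hx inferInstance
  apply hφx
  apply h φ
  intro w hw
  have : φ w ∈ W.map φ := ⟨w, hw, rfl⟩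
  rw [hφW] at this
  simpa using this

/-- Double annihilator of a finite-dimensional space of functionals: a functional vanishing on
the common kernel of `A ⊆ Dual V` lies in `A`, when `V` is finite-dimensional. -/
theorem mem_of_forall_ker_le [FiniteDimensional k V] (A : Submodule k (Dual k V))
    (ψ : Dual k V) (h : ∀ y : V, (∀ φ ∈ A, φ y = 0) → ψ y = 0) : ψ ∈ A := by
  -- apply the previous lemma in `Dual k V`, using reflexivity
  apply mem_of_forall_dual_eq_zero A ψ
  intro Φ hΦ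
  obtain ⟨y, rfl⟩ := (Module.evalEquiv k V).surjective Φ
  simp only [Module.evalEquiv_apply, Module.Dual.eval_apply] at hΦ ⊢
  exact h y hΦ

end DoubleAnnihilator

section Local

variable {k : Type*} [Field k]
variable {L1 T2R T2P H0R H0P Y1 : Type*}
  [AddCommGroup L1] [Module k L1] [AddCommGroup T2R] [Module k T2R]
  [AddCommGroup T2P] [Module k T2P] [AddCommGroup H0R] [Module k H0R]
  [AddCommGroup H0P] [Module k H0P] [AddCommGroup Y1] [Module k Y1]

/-- Top-degree local data at one place `v` for a short exact sequence `0 → R → P → M → 0`: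
`L1 = H¹(G_v, M)`, `T2R = H²(G_v, R)`, `T2P = H²(G_v, P)`, `H0R = H⁰(G_v, R')`,
`H0P = H⁰(G_v, P')`, `Y1 = H¹(G_v, M')`. -/
structure LocalTop (k : Type*) [Field k] (L1 T2R T2P H0R H0P Y1 : Type*)
    [AddCommGroup L1] [Module k L1] [AddCommGroup T2R] [Module k T2R]
    [AddCommGroup T2P] [Module k T2P] [AddCommGroup H0R] [Module k H0R]
    [AddCommGroup H0P] [Module k H0P] [AddCommGroup Y1] [Module k Y1] where
  /-- connecting map `H¹(G_v, M) → H²(G_v, R)` -/
  dv : L1 →ₗ[k] T2R
  /-- `H²(G_v, R) → H²(G_v, P)` -/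
  tv : T2R →ₗ[k] T2P
  /-- `H⁰(G_v, P') → H⁰(G_v, R')` -/
  r0 : H0P →ₗ[k] H0R
  /-- connecting map `H⁰(G_v, R') → H¹(G_v, M')` -/
  del : H0R →ₗ[k] Y1
  /-- top-degree local pairing for `R` -/
  ThR : T2R →ₗ[k] Dual k H0R
  /-- top-degree local pairing for `P` -/
  ThP : T2P →ₗ[k] Dual k H0P
  dv_range : LinearMap.range dv = LinearMap.ker tv
  del_ker : LinearMap.ker del = LinearMap.range r0
  ThR_surj : Function.Surjective ThR
  ThP_inj : Function.Injective ThP
  nat : ∀ (z : T2R) (g : H0P), ThP (tv z) g = ThR z (r0 g)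

/-- **Key local lemma.**  `f ∈ H⁰(G_v, R')` pairs trivially with `∂ H¹(G_v, M)` iff
`δ f = 0` in `H¹(G_v, M')`. -/
theorem LocalTop.ann_iff (D : LocalTop k L1 T2R T2P H0R H0P Y1) (f : H0R) :
    (∀ b : L1, D.ThR (D.dv b) f = 0) ↔ D.del f = 0 := by
  constructor
  · intro h
    have hf : f ∈ LinearMap.range D.r0 := by
      apply mem_of_forall_dual_eq_zero
      intro φ hφ
      obtain ⟨z, rfl⟩ := D.ThR_surj φ
      have hz : D.tv z = 0 := by
        apply D.ThP_inj
        rw [map_zero]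
        apply LinearMap.ext
        intro g
        rw [D.nat, LinearMap.zero_apply]
        exact hφ _ ⟨g, rfl⟩
      have : z ∈ LinearMap.range D.dv := by rw [D.dv_range]; exact hz
      obtain ⟨b, rfl⟩ := this
      exact h b
    rw [← D.del_ker] at hf
    exact hf
  · intro h b
    have hf : f ∈ LinearMap.range D.r0 := by rw [← D.del_ker]; exact h
    obtain ⟨g, rfl⟩ := hf
    rw [← D.nat]
    have : D.tv (D.dv b) = 0 := by
      have : D.dv b ∈ LinearMap.ker D.tv := by rw [← D.dv_range]; exact ⟨b, rfl⟩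
      exact this
    rw [this, map_zero, LinearMap.zero_apply]

end Local

section Final

variable {k : Type*} [Field k]
variable {T2 H2 L1 L2 X1 Y1 : Type*}
  [AddCommGroup T2] [Module k T2] [AddCommGroup H2] [Module k H2]
  [AddCommGroup L1] [Module k L1] [AddCommGroup L2] [Module k L2]
  [AddCommGroup X1] [Module k X1] [AddCommGroup Y1] [Module k Y1]

/-- **Final step of the engine, annihilator form.**  Given the cone exact sequence
`L¹ →j T² →u H² →loc₂ L²`, a duality `θ : T² ≃ Dual X¹` with `X¹` finite-dimensional, and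
`Ann_{X¹} (θ (j L¹)) = ker loc`, we get `ker loc₂ ≃ Dual (ker loc)`, i.e. `Ш² ≃ Dual Ш¹`. -/
theorem sha_equiv_of_ann [FiniteDimensional k X1]
    (j : L1 →ₗ[k] T2) (u : T2 →ₗ[k] H2) (loc2 : H2 →ₗ[k] L2) (loc : X1 →ₗ[k] Y1)
    (hju : LinearMap.ker u = LinearMap.range j)
    (hu2 : LinearMap.range u = LinearMap.ker loc2)
    (θ : T2 ≃ₗ[k] Dual k X1)
    (hann : ∀ y : X1, (∀ b : L1, θ (j b) y = 0) ↔ loc y = 0) :
    Nonempty (LinearMap.ker loc2 ≃ₗ[k] Dual k (LinearMap.ker loc)) := by
  classical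
  let rest : Dual k X1 →ₗ[k] Dual k (LinearMap.ker loc) :=
    Module.Dual.transpose (R := k) (LinearMap.ker loc).subtype
  have hrest_surj : Function.Surjective rest := by
    intro φ
    obtain ⟨ψ, hψ⟩ := LinearMap.exists_extend (p := LinearMap.ker loc) φ
    exact ⟨ψ, by
      apply LinearMap.ext
      intro x
      simp only [rest, Module.Dual.transpose_apply, LinearMap.comp_apply, Submodule.subtype_apply]
      rw [← hψ]; rfl⟩
  let F : T2 →ₗ[k] Dual k (LinearMap.ker loc) := rest ∘ₗ θ.toLinearMap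
  have hF_surj : Function.Surjective F := hrest_surj.comp θ.surjective
  have hF_ker : LinearMap.ker F = LinearMap.range j := by
    apply le_antisymm
    · intro x hx
      have hx' : ∀ y : X1, loc y = 0 → θ x y = 0 := by
        intro y hy
        have := congrArg (fun φ : Dual k (LinearMap.ker loc) => φ ⟨y, hy⟩) hx
        simpa [F, rest, Module.Dual.transpose_apply] using this
      -- `θ x` lies in the space of functionals `θ (j L¹)` by the double annihilator lemma
      have hmem : θ x ∈ (LinearMap.range j).map θ.toLinearMap := by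
        apply mem_of_forall_ker_le
        intro y hy
        apply hx'
        rw [← hann]
        intro b
        exact hy _ ⟨j b, ⟨b, rfl⟩, rfl⟩
      obtain ⟨x', hx'j, hx'x⟩ := hmem
      have : x' = x := θ.injective hx'x
      rw [← this]; exact hx'j
    · rintro x ⟨b, rfl⟩
      rw [LinearMap.mem_ker]
      apply LinearMap.ext
      rintro ⟨y, hy⟩
      have hy' : loc y = 0 := hy
      simp only [F, rest, LinearMap.comp_apply, LinearEquiv.coe_coe, Module.Dual.transpose_apply,
        Submodule.subtype_apply, LinearMap.zero_apply]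
      exact (hann y).2 hy' b
  have e1 : (T2 ⧸ LinearMap.ker u) ≃ₗ[k] LinearMap.range u := u.quotKerEquivRange
  have e2 : (T2 ⧸ LinearMap.ker F) ≃ₗ[k] Dual k (LinearMap.ker loc) :=
    F.quotKerEquivOfSurjective hF_surj
  have hk : LinearMap.ker u = LinearMap.ker F := by rw [hju, hF_ker]
  have e3 : (T2 ⧸ LinearMap.ker u) ≃ₗ[k] (T2 ⧸ LinearMap.ker F) :=
    Submodule.quotEquivOfEq _ _ hk
  have e4 : LinearMap.range u ≃ₗ[k] LinearMap.ker loc2 := LinearEquiv.ofEq _ _ hu2
  exact ⟨e4.symm.trans (e1.symm.trans (e3.trans e2))⟩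

end Final

section Assembly

variable {k : Type*} [Field k]
variable {ι : Type*} [Fintype ι] [DecidableEq ι]
variable {T2 H2 L2 X1 H0R : Type*}
  [AddCommGroup T2] [Module k T2] [AddCommGroup H2] [Module k H2]
  [AddCommGroup L2] [Module k L2] [AddCommGroup X1] [Module k X1]
  [AddCommGroup H0R] [Module k H0R]
variable {L1 T2R T2P H0Rv H0Pv Y1 : ι → Type*}
  [∀ v, AddCommGroup (L1 v)] [∀ v, Module k (L1 v)]
  [∀ v, AddCommGroup (T2R v)] [∀ v, Module k (T2R v)]
  [∀ v, AddCommGroup (T2P v)] [∀ v, Module k (T2P v)]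
  [∀ v, AddCommGroup (H0Rv v)] [∀ v, Module k (H0Rv v)]
  [∀ v, AddCommGroup (H0Pv v)] [∀ v, Module k (H0Pv v)]
  [∀ v, AddCommGroup (Y1 v)] [∀ v, Module k (Y1 v)]

/-- **Engine, assembled.**  Global input: the cone sequence, the shifted duality `θ`, the
surjection `δ : H⁰(G_S, R') → X¹ = H¹(G_S, M')` (global (E2)).  Local input: top-degree data
`LocalTop` at every place.  Compatibilities: `loc_v ∘ δ = δ_v ∘ res_v` and the formula
`θ (j b) (δ f) = c • ∑_v Θ_v(R) (∂_v b_v) (res_v f)` (with `c = ± 1`), which is the definition of the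
global top-degree pairing as the sum of the local ones.  Conclusion: `Ш² ≃ Dual Ш¹`. -/
theorem sha_equiv_of_localTop [FiniteDimensional k X1]
    (j : (∀ v, L1 v) →ₗ[k] T2) (u : T2 →ₗ[k] H2) (loc2 : H2 →ₗ[k] L2)
    (loc : X1 →ₗ[k] (∀ v, Y1 v))
    (hju : LinearMap.ker u = LinearMap.range j)
    (hu2 : LinearMap.range u = LinearMap.ker loc2)
    (θ : T2 ≃ₗ[k] Dual k X1)
    (del : H0R →ₗ[k] X1) (hdel : Function.Surjective del)
    (D : ∀ v, LocalTop k (L1 v) (T2R v) (T2P v) (H0Rv v) (H0Pv v) (Y1 v))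
    (res : ∀ v, H0R →ₗ[k] H0Rv v)
    (hloc : ∀ v f, (D v).del (res v f) = loc (del f) v)
    (c : k) (hc : c ≠ 0)
    (hθ : ∀ (b : ∀ v, L1 v) (f : H0R),
      θ (j b) (del f) = c * ∑ v, (D v).ThR ((D v).dv (b v)) (res v f)) :
    Nonempty (LinearMap.ker loc2 ≃ₗ[k] Dual k (LinearMap.ker loc)) := by
  classical
  refine sha_equiv_of_ann j u loc2 loc hju hu2 θ ?_
  intro y
  obtain ⟨f, rfl⟩ := hdel y
  constructor
  · intro h
    funext v
    rw [← hloc, Pi.zero_apply, ← (D v).ann_iff]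
    intro bv
    have h1 := h (Pi.single v bv)
    rw [hθ] at h1
    have h2 : ∑ w, (D w).ThR ((D w).dv ((Pi.single v bv : ∀ v, L1 v) w)) (res w f) =
        (D v).ThR ((D v).dv bv) (res v f) := by
      rw [Finset.sum_eq_single v]
      · rw [Pi.single_eq_same]
      · intro w _ hw
        rw [Pi.single_eq_of_ne hw, map_zero, map_zero, LinearMap.zero_apply]
      · intro hv
        exact absurd (Finset.mem_univ v) hv
    rw [h2] at h1
    exact (mul_eq_zero.1 h1).resolve_left hc
  · intro h b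
    rw [hθ]
    have : ∀ v, (D v).ThR ((D v).dv (b v)) (res v f) = 0 := by
      intro v
      apply ((D v).ann_iff (res v f)).2
      rw [hloc, h, Pi.zero_apply]
    simp [this]

end Assembly

end Fermat.Agent.S55.H244

end
-- ===== PACK-END S55/H244/EngineLocal.lean

-- ===== PACK-BEGIN S55/Bridge/LinAlg.lean
section


/-!
# S55 bridge, part B1: pure linear algebra

Two vector spaces of equal finite dimension admit a bilinear pairing which is nondegenerate
on both sides.  Also: a linear equivalence `V ≃ Dual W` (no finiteness needed) gives one.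
-/

set_option autoImplicit false

namespace Fermat.Agent.S55.Bridge

open Module

variable {K V W : Type*} [Field K] [AddCommGroup V] [Module K V] [AddCommGroup W] [Module K W]

/-- A linear equivalence `V ≃ₗ Dual W` is a perfect pairing (in the weak, two-sided
injectivity sense used by the frozen statement S55). -/
theorem exists_pairing_of_equiv_dual (e : V ≃ₗ[K] Module.Dual K W) :
    ∃ B : V →ₗ[K] W →ₗ[K] K,
      (∀ y, (∀ x, B y x = 0) → y = 0) ∧ (∀ x, (∀ y, B y x = 0) → x = 0) := by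
  refine ⟨e.toLinearMap, ?_, ?_⟩
  · intro y hy
    have : e y = 0 := LinearMap.ext hy
    exact e.map_eq_zero_iff.mp this
  · intro x hx
    refine (Module.forall_dual_apply_eq_zero_iff K x).mp ?_
    intro f
    obtain ⟨y, rfl⟩ := e.surjective f
    exact hx y

/-- Two finite-dimensional spaces of the same dimension admit a two-sided nondegenerate pairing. -/
theorem exists_pairing_of_finrank_eq [FiniteDimensional K V] [FiniteDimensional K W]
    (h : finrank K V = finrank K W) :
    ∃ B : V →ₗ[K] W →ₗ[K] K,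
      (∀ y, (∀ x, B y x = 0) → y = 0) ∧ (∀ x, (∀ y, B y x = 0) → x = 0) := by
  have h' : finrank K V = finrank K (Module.Dual K W) := by
    rw [h, Subspace.dual_finrank_eq]
  exact exists_pairing_of_equiv_dual (LinearEquiv.ofFinrankEq V (Module.Dual K W) h')

/-- Variant: it suffices to have injective linear maps in both directions into the duals
(finite-dimensionality is then automatic from one side being finite-dimensional). -/
theorem exists_pairing_of_injective [FiniteDimensional K W]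
    (f : V →ₗ[K] Module.Dual K W) (hf : Function.Injective f)
    (g : W →ₗ[K] Module.Dual K V) (hg : Function.Injective g) :
    ∃ B : V →ₗ[K] W →ₗ[K] K,
      (∀ y, (∀ x, B y x = 0) → y = 0) ∧ (∀ x, (∀ y, B y x = 0) → x = 0) := by
  haveI : FiniteDimensional K V := FiniteDimensional.of_injective f hf
  have h1 : finrank K V ≤ finrank K W := by
    have := LinearMap.finrank_le_finrank_of_injective hf
    rwa [Subspace.dual_finrank_eq] at this
  have h2 : finrank K W ≤ finrank K V := by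
    have := LinearMap.finrank_le_finrank_of_injective hg
    rwa [Subspace.dual_finrank_eq] at this
  exact exists_pairing_of_finrank_eq (le_antisymm h1 h2)

end Fermat.Agent.S55.Bridge

end
-- ===== PACK-END S55/Bridge/LinAlg.lean

-- ===== PACK-BEGIN S55/Spec/Tower.lean
section
/-
S55 moonshot — frozen shared definitions: the tower of finite levels.
Chief architect: helper55.  Mathlib + Prelude only.  NO sorry.  FROZEN (additions go to new files).
Namespace `Fermat.Agent.S55.Tow`.

`G_ℚ = Gal(ℚ̄/ℚ)`; a *level* is a finite Galois `F/ℚ` inside `ℚ̄` unramified outside `S`;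
`Gal(F/ℚ)` is modelled as the quotient `G_ℚ ⧸ F.fixingSubgroup`; the decomposition group at `q`
as the quotient of the Prelude local group `Gal(ℚ̄_q/ℚ_q)` by the preimage of `F.fixingSubgroup`;
`F_qˣ` as the invariants of `ℚ̄_qˣ`; `∏_{w|q} F_wˣ` as a coinduced module.
-/



open CategoryTheory

namespace Fermat.Agent.S55.Tow

noncomputable section

/-- `ℚ̄`. -/
abbrev Qbar : Type := AlgebraicClosure ℚ
/-- `G_ℚ`. -/
abbrev GQ : Type := Qbar ≃ₐ[ℚ] Qbar
/-- The Prelude local Galois group `Gal(ℚ̄_q/ℚ_q)`. -/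
abbrev GQp (q : Nat.Primes) : Type := ExtCitation.primeLocalGaloisGroup q
/-- The Prelude map `Gal(ℚ̄_q/ℚ_q) → G_ℚ`. -/
abbrev locQ (q : Nat.Primes) : GQp q →* GQ := ExtCitation.primeLocalToGlobal q

variable (S : Finset Nat.Primes)

/-- A level: a finite Galois extension `F/ℚ` inside `ℚ̄`, unramified outside `S`.
Galois-ness is recorded as normality of the subgroup `Gal(ℚ̄/F)` (equivalent by infinite Galois
theory; this form avoids the `Algebra ℚ F` instance diamond). -/
structure Level where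
  /-- the field -/
  F : IntermediateField ℚ Qbar
  unram : F.IsUnramifiedOutside S
  normalU : (F.fixingSubgroup).Normal

variable {S}

instance : Preorder (Level S) := Preorder.lift Level.F

/-- The open normal subgroup `U_F = Gal(ℚ̄/F)` of `G_ℚ`. -/
def Level.U (L : Level S) : Subgroup GQ := L.F.fixingSubgroup

instance Level.instNormalU (L : Level S) : (L.U).Normal := L.normalU

/-- `Gal(F/ℚ)`, as a quotient of `G_ℚ`. -/
abbrev Level.Gal (L : Level S) : Type := GQ ⧸ L.U

lemma Level.U_anti {L L' : Level S} (h : L ≤ L') : L'.U ≤ L.U :=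
  IntermediateField.fixingSubgroup_antitone h

/-- The projection `Gal(F'/ℚ) → Gal(F/ℚ)` for `F ≤ F'`. -/
def Level.proj {L L' : Level S} (h : L ≤ L') : L'.Gal →* L.Gal :=
  QuotientGroup.map L'.U L.U (MonoidHom.id GQ) (Level.U_anti h)

/-- `Gal(F'/F)` as a subgroup of `Gal(F'/ℚ)`. -/
def Level.relGal {L L' : Level S} (h : L ≤ L') : Subgroup L'.Gal := (Level.proj h).ker

/-- The open normal subgroup `Gal(ℚ̄_q/F_q)` of the local group (preimage of `U_F`). -/
def Level.V (L : Level S) (q : Nat.Primes) : Subgroup (GQp q) := L.U.comap (locQ q)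

instance Level.normalV (L : Level S) (q : Nat.Primes) : (L.V q).Normal := by
  unfold Level.V
  infer_instance

/-- The decomposition group `Gal(F_q/ℚ_q)`, as a quotient of the local group. -/
abbrev Level.Dec (L : Level S) (q : Nat.Primes) : Type := GQp q ⧸ L.V q

/-- The (injective) map `Gal(F_q/ℚ_q) → Gal(F/ℚ)`. -/
def Level.decHom (L : Level S) (q : Nat.Primes) : L.Dec q →* L.Gal :=
  QuotientGroup.map (L.V q) L.U (locQ q) le_rfl

/-- `ℚ̄ˣ` as a `G_ℚ`-module. -/
def unitsQbar : Rep.{0} ℤ GQ := Rep.ofAlgebraAutOnUnits ℚ Qbar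

/-- `ℚ̄_qˣ` as a module over the local Galois group. -/
def unitsQpbar (q : Nat.Primes) : Rep.{0} ℤ (GQp q) :=
  letI : Fact (q : ℕ).Prime := ⟨q.2⟩
  Rep.ofAlgebraAutOnUnits ℚ_[(q : ℕ)] (PadicAlgCl (q : ℕ))

/-- `Fˣ` as a `Gal(F/ℚ)`-module (the `U_F`-invariants of `ℚ̄ˣ`). -/
def Level.units (L : Level S) : Rep.{0} ℤ L.Gal := unitsQbar.quotientToInvariants L.U

/-- `F_qˣ` as a `Gal(F_q/ℚ_q)`-module (the invariants of `ℚ̄_qˣ`). -/
def Level.locUnits (L : Level S) (q : Nat.Primes) : Rep.{0} ℤ (L.Dec q) :=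
  (unitsQpbar q).quotientToInvariants (L.V q)

/-- `J_q(F) = ∏_{w | q} F_wˣ` as a `Gal(F/ℚ)`-module: coinduced from the decomposition group. -/
def Level.J (L : Level S) (q : Nat.Primes) : Rep.{0} ℤ L.Gal :=
  Rep.coind (L.decHom q) (L.locUnits q)

end

end Fermat.Agent.S55.Tow

end
-- ===== PACK-END S55/Spec/Tower.lean

-- ===== PACK-BEGIN S55/Local/Defs.lean
section


/-!
# S55, layer L (local class field theory, cohomological core) : definitions

BASE: a complete discrete valuation ring `A` with finite residue field and fraction field `F`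
(think `A = ℤ_[q]`, `F = ℚ_[q]`).  A *local field* is a field `K` with
`[Algebra F K] [FiniteDimensional F K]`.  For an extension `L / K` of local fields we always assume
`[Algebra F K] [Algebra F L] [Algebra K L] [IsScalarTower F K L]`.

Integrality is ALWAYS over the base ring `A`, via the ring homomorphism `toL A F L : A →+* L`
(composite `A → F → L`) and `RingHom.IsIntegralElem`; no `Algebra A L` instance is ever required
in a statement.  Inside proofs use `letI : Algebra A L := (toL A F L).toAlgebra` and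
`IsScalarTower.of_algebraMap_eq (fun _ => rfl)`.
-/

set_option autoImplicit false

namespace Fermat.Agent.S55.Local

section Defs

variable (A F : Type) [CommRing A] [Field F] [Algebra A F]
variable (L : Type) [Field L] [Algebra F L]

/-- The structure map `A → F → L`. -/
def toL : A →+* L := (algebraMap F L).comp (algebraMap A F)

@[simp] lemma toL_apply (a : A) : toL A F L a = algebraMap F L (algebraMap A F a) := rfl

/-- `x : L` is integral over `A`. -/
def IsInt (x : L) : Prop := (toL A F L).IsIntegralElem x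

variable {A F L} in
lemma IsInt.mul {x y : L} (hx : IsInt A F L x) (hy : IsInt A F L y) : IsInt A F L (x * y) :=
  RingHom.IsIntegralElem.mul _ hx hy

variable {A F L} in
lemma IsInt.add {x y : L} (hx : IsInt A F L x) (hy : IsInt A F L y) : IsInt A F L (x + y) :=
  RingHom.IsIntegralElem.add _ hx hy

variable {A F L} in
lemma IsInt.neg {x : L} (hx : IsInt A F L x) : IsInt A F L (-x) :=
  RingHom.IsIntegralElem.neg _ hx

lemma isInt_one : IsInt A F L 1 := RingHom.isIntegralElem_one _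

lemma isInt_zero : IsInt A F L 0 := RingHom.isIntegralElem_zero _

lemma isInt_toL (a : A) : IsInt A F L (toL A F L a) := RingHom.isIntegralElem_map _

/-- The units `U_L` of the ring of integers of `L`, as a subgroup of `Lˣ`. -/
def intUnits : Subgroup Lˣ where
  carrier := {x | IsInt A F L (x : L) ∧ IsInt A F L ((x⁻¹ : Lˣ) : L)}
  mul_mem' := by
    rintro x y ⟨hx, hx'⟩ ⟨hy, hy'⟩
    refine ⟨by simpa using hx.mul hy, ?_⟩
    have : ((x * y)⁻¹ : Lˣ) = x⁻¹ * y⁻¹ := by rw [mul_inv]
    rw [this]; simpa using hx'.mul hy'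
  one_mem' := by simp [isInt_one]
  inv_mem' := by
    rintro x ⟨hx, hx'⟩
    exact ⟨hx', by simpa using hx⟩

lemma mem_intUnits {x : Lˣ} :
    x ∈ intUnits A F L ↔ IsInt A F L (x : L) ∧ IsInt A F L ((x⁻¹ : Lˣ) : L) := Iff.rfl

/-- The higher unit group `U_L^{(ϖ, j)} = {u ∈ U_L : u - 1 ∈ ϖ^j · O_L}` relative to an element
`ϖ : L` (in applications a uniformizer of a subfield `K ⊆ L`, so that it is Galois-stable).
For `j = 0` this is `U_L` (when `ϖ` is integral). -/
def higherUnits (ϖ : L) (j : ℕ) : Subgroup Lˣ where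
  carrier := {x | x ∈ intUnits A F L ∧ ∃ b : L, IsInt A F L b ∧ (x : L) = 1 + ϖ ^ j * b}
  mul_mem' := by
    rintro x y ⟨hx, a, ha, hxa⟩ ⟨hy, b, hb, hyb⟩
    refine ⟨(intUnits A F L).mul_mem hx hy, a + b + (x - 1) * b, ?_, ?_⟩
    · have hx1 : IsInt A F L ((x : L) - 1) := by
        have := hx.1.add (isInt_one A F L).neg
        simpa [sub_eq_add_neg] using this
      exact (ha.add hb).add (hx1.mul hb)
    · rw [Units.val_mul, hyb]
      have : (x : L) - 1 = ϖ ^ j * a := by rw [hxa]; ring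
      linear_combination this
  one_mem' := ⟨(intUnits A F L).one_mem, 0, isInt_zero A F L, by simp⟩
  inv_mem' := by
    rintro x ⟨hx, a, ha, hxa⟩
    refine ⟨(intUnits A F L).inv_mem hx, -(a * ((x⁻¹ : Lˣ) : L)), (ha.mul hx.2).neg, ?_⟩
    have h1 : (x : L) * ((x⁻¹ : Lˣ) : L) = 1 := by simp
    have : (1 + ϖ ^ j * a) * ((x⁻¹ : Lˣ) : L) = 1 := by rw [← hxa]; exact h1
    linear_combination this

lemma mem_higherUnits {ϖ : L} {j : ℕ} {x : Lˣ} :
    x ∈ higherUnits A F L ϖ j ↔
      x ∈ intUnits A F L ∧ ∃ b : L, IsInt A F L b ∧ (x : L) = 1 + ϖ ^ j * b := Iff.rfl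

/-- `ϖ : Lˣ` is a uniformizer of `L`: it is integral, not a unit of the ring of integers, and
every `x : Lˣ` is `ϖ ^ n` times a unit of the ring of integers. -/
def IsUnif (ϖ : Lˣ) : Prop :=
  IsInt A F L (ϖ : L) ∧ ϖ ∉ intUnits A F L ∧ ∀ x : Lˣ, ∃ n : ℤ, x * ϖ ^ (-n) ∈ intUnits A F L

variable (K : Type) [Field K] [Algebra F K] [Algebra K L]

/-- The inclusion `Kˣ → Lˣ`. -/
def unitsIncl : Kˣ →* Lˣ := Units.map (algebraMap K L).toMonoidHom

@[simp] lemma unitsIncl_coe (y : Kˣ) : ((unitsIncl L K y : Lˣ) : L) = algebraMap K L y := rfl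

/-- `L / K` is unramified: `Lˣ = Kˣ · U_L` (a uniformizer of `K` is a uniformizer of `L`). -/
def IsUnram : Prop :=
  ∀ x : Lˣ, ∃ y : Kˣ, x * (unitsIncl L K y)⁻¹ ∈ intUnits A F L

/-- The norm map `Lˣ → Kˣ`. -/
noncomputable def normUnits : Lˣ →* Kˣ := Units.map (Algebra.norm K : L →* K)

@[simp] lemma normUnits_coe (x : Lˣ) : ((normUnits L K x : Kˣ) : K) = Algebra.norm K (x : L) := rfl

end Defs

section Cyclic

variable {G : Type} [Group G]

/-- Discrete logarithm in a finite cyclic group with generator `σ`: the least `k : ℕ` with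
`σ ^ k = g` (junk value `0` if `g` is not a power of `σ`). -/
noncomputable def cycIdx (σ g : G) : ℕ := sInf {k : ℕ | σ ^ k = g}

/-- The standard 2-cocycle of a cyclic group of order `n` with generator `σ` attached to an
invariant element `x` of a (multiplicative) `G`-module: `(σ^i, σ^j) ↦ x ^ ⌊(i + j) / n⌋`,
`0 ≤ i, j < n`. -/
noncomputable def cycCocycle {M : Type} [CommGroup M] (σ : G) (x : M) : G × G → M :=
  fun p => x ^ ((cycIdx σ p.1 + cycIdx σ p.2) / Nat.card G)

end Cyclic

end Fermat.Agent.S55.Local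

end
-- ===== PACK-END S55/Local/Defs.lean

-- ===== PACK-BEGIN S55/Local/H478/Approx.lean
section


/-!
# S55, layer L (helper478): abstract successive approximation

`approx_exists`: let `d : N →* C` be a homomorphism of commutative groups, `FilN`, `FilC`
filtrations with `d (FilN j) ⊆ FilC j`, `FilN` complete, `FilC` separated, and `Z ≤ C` a subgroup
containing the image of `d`.  If every `c ∈ Z ∩ FilC j` can be corrected by some `d m`,
`m ∈ FilN j`, into `FilC (j + 1)`, then every `c ∈ Z ∩ FilC 0` is of the form `d m`, `m ∈ FilN 0`.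
-/

set_option autoImplicit false

namespace Fermat.Agent.S55.Local.H478

open Finset

section Approx

variable {N C : Type} [CommGroup N] [CommGroup C] (d : N →* C)
  (FilN : ℕ → Subgroup N) (FilC : ℕ → Subgroup C) (Z : Subgroup C)

/-- One approximation step, packaged with choice. -/
noncomputable def approxStep
    (hdZ : ∀ m, d m ∈ Z)
    (hstep : ∀ j, ∀ c ∈ Z, c ∈ FilC j → ∃ m ∈ FilN j, c / d m ∈ FilC (j + 1))
    (c : C) (hcZ : c ∈ Z) :
    (n : ℕ) → {t : N // c / d t ∈ FilC n} → {t : N // c / d t ∈ FilC (n + 1)} :=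
  fun n t =>
    have hZ : c / d t.1 ∈ Z := Z.div_mem hcZ (hdZ _)
    ⟨t.1 * Classical.choose (hstep n (c / d t.1) hZ t.2), by
      have h := (Classical.choose_spec (hstep n (c / d t.1) hZ t.2)).2
      rw [map_mul, ← div_div]
      exact h⟩

lemma approxStep_div_mem
    (hdZ : ∀ m, d m ∈ Z)
    (hstep : ∀ j, ∀ c ∈ Z, c ∈ FilC j → ∃ m ∈ FilN j, c / d m ∈ FilC (j + 1))
    (c : C) (hcZ : c ∈ Z) (n : ℕ) (t : {t : N // c / d t ∈ FilC n}) :
    (approxStep d FilN FilC Z hdZ hstep c hcZ n t).1 / t.1 ∈ FilN n := by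
  have hZ : c / d t.1 ∈ Z := Z.div_mem hcZ (hdZ _)
  have h := (Classical.choose_spec (hstep n (c / d t.1) hZ t.2)).1
  simpa [approxStep] using h

/-- The sequence of partial products. -/
noncomputable def approxSeq
    (hdZ : ∀ m, d m ∈ Z)
    (hstep : ∀ j, ∀ c ∈ Z, c ∈ FilC j → ∃ m ∈ FilN j, c / d m ∈ FilC (j + 1))
    (c : C) (hcZ : c ∈ Z) (hc0 : c ∈ FilC 0) :
    (n : ℕ) → {t : N // c / d t ∈ FilC n}
  | 0 => ⟨1, by simpa using hc0⟩
  | n + 1 => approxStep d FilN FilC Z hdZ hstep c hcZ n (approxSeq hdZ hstep c hcZ hc0 n)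

/-- Abstract successive approximation. -/
theorem approx_exists
    (hd : ∀ j, ∀ m ∈ FilN j, d m ∈ FilC j)
    (hdZ : ∀ m, d m ∈ Z)
    (hcomplete : ∀ u : ℕ → N, (∀ j, u j ∈ FilN j) →
      ∃ s : N, ∀ n, s / ∏ j ∈ range n, u j ∈ FilN n)
    (hsep : ∀ c : C, (∀ j, c ∈ FilC j) → c = 1)
    (hstep : ∀ j, ∀ c ∈ Z, c ∈ FilC j → ∃ m ∈ FilN j, c / d m ∈ FilC (j + 1))
    (c : C) (hcZ : c ∈ Z) (hc0 : c ∈ FilC 0) : ∃ m ∈ FilN 0, d m = c := by
  set t : ℕ → N := fun n => (approxSeq d FilN FilC Z hdZ hstep c hcZ hc0 n).1 with ht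
  have ht0 : t 0 = 1 := rfl
  have htmem : ∀ n, c / d (t n) ∈ FilC n :=
    fun n => (approxSeq d FilN FilC Z hdZ hstep c hcZ hc0 n).2
  set u : ℕ → N := fun n => t (n + 1) / t n with hu
  have humem : ∀ n, u n ∈ FilN n := fun n =>
    approxStep_div_mem d FilN FilC Z hdZ hstep c hcZ n
      (approxSeq d FilN FilC Z hdZ hstep c hcZ hc0 n)
  have hprod : ∀ n, ∏ j ∈ range n, u j = t n := by
    intro n
    induction n with
    | zero => simp [ht0]
    | succ n ih => rw [prod_range_succ, ih, hu]; simp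
  obtain ⟨s, hs⟩ := hcomplete u humem
  refine ⟨s, by simpa using hs 0, ?_⟩
  have hall : ∀ n, c / d s ∈ FilC n := by
    intro n
    have h1 : d (s / t n) ∈ FilC n := hd n _ (by simpa [hprod n] using hs n)
    have h2 := (FilC n).div_mem (htmem n) h1
    have : c / d (t n) / d (s / t n) = c / d s := by
      rw [map_div, div_div_div_cancel_right]
    rwa [this] at h2
  have := hsep _ hall
  exact (div_eq_one.mp this).symm

end Approx

end Fermat.Agent.S55.Local.H478

end
-- ===== PACK-END S55/Local/H478/Approx.lean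

-- ===== PACK-BEGIN S55/H953/DVRNormed.lean
section


/-!
# S55 / bridge: the fraction field of a complete DVR with finite residue field is a
locally compact ultrametric normed field

`A` a discrete valuation ring, `F = Frac A`.  We put on `F` the norm `‖x‖ = 2 ^ (-v(x))`
(Mathlib's `adicAbv`), and show: ultrametric, nontrivial; if `A` is adically complete then `F`
is complete; if moreover the residue field is finite then `F` is proper.
-/

set_option autoImplicit false

namespace Fermat.Agent.S55.H953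

open IsDedekindDomain IsDedekindDomain.HeightOneSpectrum WithZeroMulInt NNReal Filter Topology

section Abv

variable (A F : Type*) [CommRing A] [IsDomain A] [IsDiscreteValuationRing A]
  [Field F] [Algebra A F] [IsFractionRing A F]

lemma one_lt_two_nnreal : (1 : ℝ≥0) < 2 := by norm_num

/-- the `𝔪`-adic absolute value on `F` with base `2` -/
noncomputable def dvrAbv : AbsoluteValue F ℝ :=
  (IsDiscreteValuationRing.maximalIdeal A).adicAbv (K := F) one_lt_two_nnreal

lemma dvrAbv_def (x : F) : dvrAbv A F x =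
    ((toNNReal (ne_zero_of_lt one_lt_two_nnreal)
      ((IsDiscreteValuationRing.maximalIdeal A).valuation F x) : ℝ≥0) : ℝ) := rfl

lemma dvrAbv_algebraMap_le_one (a : A) : dvrAbv A F (algebraMap A F a) ≤ 1 :=
  (IsDiscreteValuationRing.maximalIdeal A).adicAbv_coe_le_one one_lt_two_nnreal a

lemma dvrAbv_nonarch : IsNonarchimedean (dvrAbv A F) :=
  (IsDiscreteValuationRing.maximalIdeal A).isNonarchimedean_adicAbv one_lt_two_nnreal

lemma exists_of_dvrAbv_le_one {x : F} (h : dvrAbv A F x ≤ 1) : ∃ a : A, algebraMap A F a = x := by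
  apply IsDiscreteValuationRing.exists_lift_of_le_one
  rw [dvrAbv_def] at h
  have h' : toNNReal (ne_zero_of_lt one_lt_two_nnreal)
      ((IsDiscreteValuationRing.maximalIdeal A).valuation F x) ≤ 1 := by exact_mod_cast h
  exact (toNNReal_le_one_iff one_lt_two_nnreal).1 h'

lemma toNNReal_exp_neg (n : ℕ) :
    toNNReal (ne_zero_of_lt one_lt_two_nnreal) (WithZero.exp (-(n : ℤ))) = (2 : ℝ≥0)⁻¹ ^ n := by
  rw [toNNReal_neg_apply _ (WithZero.exp_ne_zero)]
  have : WithZero.unzero (WithZero.exp_ne_zero (a := -(n : ℤ))) =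
      Multiplicative.ofAdd (-(n : ℤ)) := by
    apply WithZero.coe_injective
    rw [WithZero.coe_unzero]
    rfl
  rw [this, toAdd_ofAdd, zpow_neg, zpow_natCast, inv_pow]

lemma dvrAbv_algebraMap_le_pow_iff (a : A) (n : ℕ) :
    dvrAbv A F (algebraMap A F a) ≤ (2 : ℝ)⁻¹ ^ n ↔ a ∈ IsLocalRing.maximalIdeal A ^ n := by
  have h1 : a ∈ IsLocalRing.maximalIdeal A ^ n ↔
      (IsDiscreteValuationRing.maximalIdeal A).intValuation a ≤ WithZero.exp (-(n : ℤ)) :=
    ((IsDiscreteValuationRing.maximalIdeal A).intValuation_le_pow_iff_mem a n).symm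
  rw [h1, dvrAbv_def, valuation_of_algebraMap,
    ← (toNNReal_strictMono one_lt_two_nnreal).le_iff_le, toNNReal_exp_neg]
  constructor
  · intro h
    exact_mod_cast h
  · intro h
    exact_mod_cast h

/-- the normed field structure on `F` given by the `𝔪`-adic absolute value -/
@[reducible] noncomputable def dvrNormedField : NormedField F := (dvrAbv A F).toNormedField

lemma dvr_norm_def (x : F) : @norm F (dvrNormedField A F).toNorm x = dvrAbv A F x := rfl

lemma dvr_exists_one_lt_norm : ∃ x : F, 1 < @norm F (dvrNormedField A F).toNorm x := by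
  obtain ⟨π, hπ⟩ := IsDiscreteValuationRing.exists_irreducible A
  have hπ0 : π ≠ 0 := hπ.ne_zero
  have hmem : π ∈ (IsDiscreteValuationRing.maximalIdeal A).asIdeal := by
    change π ∈ IsLocalRing.maximalIdeal A
    rw [IsLocalRing.mem_maximalIdeal, mem_nonunits_iff]
    exact hπ.not_isUnit
  have hlt : dvrAbv A F (algebraMap A F π) < 1 :=
    ((IsDiscreteValuationRing.maximalIdeal A).adicAbv_coe_lt_one_iff one_lt_two_nnreal π).2 hmem
  have hne : algebraMap A F π ≠ 0 := by
    rw [Ne, map_eq_zero_iff _ (IsFractionRing.injective A F)]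
    exact hπ0
  refine ⟨(algebraMap A F π)⁻¹, ?_⟩
  rw [dvr_norm_def, map_inv₀]
  exact (one_lt_inv₀ ((dvrAbv A F).pos hne)).2 hlt

/-- the nontrivially normed field structure on `F` -/
@[reducible] noncomputable def dvrNontriviallyNormedField : NontriviallyNormedField F :=
  { dvrNormedField A F with non_trivial := dvr_exists_one_lt_norm A F }

lemma dvr_isUltrametricDist :
    @IsUltrametricDist F (dvrNormedField A F).toMetricSpace.toDist := by
  letI := dvrNormedField A F
  exact IsUltrametricDist.isUltrametricDist_of_isNonarchimedean_norm (dvrAbv_nonarch A F)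

theorem dvr_completeSpace [IsAdicComplete (IsLocalRing.maximalIdeal A) A] :
    @CompleteSpace F (dvrNormedField A F).toUniformSpace := by
  letI := dvrNormedField A F
  refine Metric.complete_of_cauchySeq_tendsto (fun u hu => ?_)
  obtain ⟨N₀, hN₀⟩ := Metric.cauchySeq_iff'.1 hu 1 one_pos
  have hw : ∀ n, dvrAbv A F (u (n + N₀) - u N₀) ≤ 1 := by
    intro n
    have := hN₀ (n + N₀) (Nat.le_add_left _ _)
    rw [dist_eq_norm] at this
    exact this.le
  choose a ha using fun n => exists_of_dvrAbv_le_one A F (hw n)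
  have hcau : ∀ k : ℕ, ∃ M, ∀ m ≥ M, ∀ n ≥ M, a m - a n ∈ IsLocalRing.maximalIdeal A ^ k := by
    intro k
    obtain ⟨M, hM⟩ := Metric.cauchySeq_iff.1 hu ((2 : ℝ)⁻¹ ^ k) (by positivity)
    refine ⟨M, fun m hm n hn => ?_⟩
    rw [← dvrAbv_algebraMap_le_pow_iff A F, map_sub, ha, ha]
    have := hM (m + N₀) (by omega) (n + N₀) (by omega)
    rw [dist_eq_norm] at this
    have e : u (m + N₀) - u N₀ - (u (n + N₀) - u N₀) = u (m + N₀) - u (n + N₀) := by ring
    rw [e]
    exact this.le
  choose M hM using hcau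
  let M' : ℕ → ℕ := fun k => (Finset.range (k + 1)).sup M
  have hM' : ∀ j k, j ≤ k → M j ≤ M' k := fun j k hjk =>
    Finset.le_sup (f := M) (Finset.mem_range.2 (Nat.lt_succ_of_le hjk))
  have hM'mono : ∀ j k, j ≤ k → M' j ≤ M' k := fun j k hjk =>
    Finset.sup_mono (Finset.range_mono (Nat.succ_le_succ hjk))
  have hf : ∀ {m n : ℕ}, m ≤ n →
      a (M' m) ≡ a (M' n) [SMOD (IsLocalRing.maximalIdeal A ^ m • ⊤ : Submodule A A)] := by
    intro m n hmn
    rw [SModEq.sub_mem, smul_eq_mul, Ideal.mul_top]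
    exact hM m _ (hM' m m le_rfl) _ ((hM' m m le_rfl).trans (hM'mono m n hmn))
  obtain ⟨L, hL⟩ := IsPrecomplete.prec (IsAdicComplete.toIsPrecomplete) hf
  refine ⟨u N₀ + algebraMap A F L, ?_⟩
  rw [Metric.tendsto_atTop]
  intro ε hε
  obtain ⟨k, hk⟩ := exists_pow_lt_of_lt_one hε (by norm_num : (2 : ℝ)⁻¹ < 1)
  refine ⟨M' k + N₀, fun n hn => ?_⟩
  obtain ⟨n', rfl⟩ : ∃ n', n = n' + N₀ := ⟨n - N₀, by omega⟩
  have hn' : M' k ≤ n' := by omega
  rw [dist_eq_norm]
  have e : u (n' + N₀) - (u N₀ + algebraMap A F L) = algebraMap A F (a n' - L) := by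
    rw [map_sub, ha]
    ring
  rw [e]
  refine lt_of_le_of_lt ((dvrAbv_algebraMap_le_pow_iff A F _ k).2 ?_) hk
  have h1 : a n' - a (M' k) ∈ IsLocalRing.maximalIdeal A ^ k :=
    hM k _ ((hM' k k le_rfl).trans hn') _ (hM' k k le_rfl)
  have h2 : a (M' k) - L ∈ IsLocalRing.maximalIdeal A ^ k := by
    have := hL k
    rwa [SModEq.sub_mem, smul_eq_mul, Ideal.mul_top] at this
  have e2 : a n' - L = (a n' - a (M' k)) + (a (M' k) - L) := by ring
  rw [e2]
  exact Ideal.add_mem _ h1 h2

theorem dvr_properSpace [IsAdicComplete (IsLocalRing.maximalIdeal A) A]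
    [Finite (IsLocalRing.ResidueField A)] :
    @ProperSpace F (dvrNormedField A F).toMetricSpace.toPseudoMetricSpace := by
  letI := dvrNontriviallyNormedField A F
  haveI : CompleteSpace F := dvr_completeSpace A F
  suffices LocallyCompactSpace F from .of_nontriviallyNormedField_of_weaklyLocallyCompactSpace F
  have hmem : Metric.closedBall (0 : F) 1 ∈ 𝓝 (0 : F) := Metric.closedBall_mem_nhds _ zero_lt_one
  refine IsCompact.locallyCompactSpace_of_mem_nhds_of_addGroup ?_ hmem
  rw [isCompact_iff_totallyBounded_isComplete]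
  refine ⟨?_, Metric.isClosed_closedBall.isComplete⟩
  refine Metric.totallyBounded_iff.2 (fun ε hε => ?_)
  obtain ⟨k, hk⟩ := exists_pow_lt_of_lt_one hε (by norm_num : (2 : ℝ)⁻¹ < 1)
  haveI : Finite (A ⧸ IsLocalRing.maximalIdeal A) :=
    inferInstanceAs (Finite (IsLocalRing.ResidueField A))
  haveI : Finite (A ⧸ IsLocalRing.maximalIdeal A ^ k) :=
    Ideal.finite_quotient_pow (IsNoetherian.noetherian _) k
  refine ⟨Set.range (fun q : A ⧸ IsLocalRing.maximalIdeal A ^ k =>
    algebraMap A F (Quotient.out q)), Set.finite_range _, ?_⟩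
  intro x hx
  rw [mem_closedBall_zero_iff] at hx
  obtain ⟨a, rfl⟩ := exists_of_dvrAbv_le_one A F hx
  refine Set.mem_iUnion₂.2 ⟨algebraMap A F (Quotient.out (Ideal.Quotient.mk
    (IsLocalRing.maximalIdeal A ^ k) a)), ⟨_, rfl⟩, ?_⟩
  rw [Metric.mem_ball, dist_eq_norm, ← map_sub]
  refine lt_of_le_of_lt ((dvrAbv_algebraMap_le_pow_iff A F _ k).2 ?_) hk
  rw [← Ideal.Quotient.eq]
  exact (Quotient.out_eq _).symm

end Abv

end Fermat.Agent.S55.H953

end
-- ===== PACK-END S55/H953/DVRNormed.lean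

-- ===== PACK-BEGIN S55/T/IntSMul.lean
section


/-!
# The `ℤ`-scalar diamond

For `M : ModuleCat ℤ` (e.g. `groupCohomology A n` with `A : Rep ℤ G`) there are two scalar
actions of `ℤ`: the one of the `Module ℤ M` instance (this is what appears when a statement that
is generic in the coefficient ring `k` is instantiated at `k := ℤ`) and the `zsmul` of the
additive group (this is what `c • x` elaborates to when `c : ℤ` is written directly).
They are equal but not syntactically; `modSMul_eq_zsmul` rewrites the former into the latter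
(`rw [modSMul_eq_zsmul]` / `simp only [modSMul_eq_zsmul]`).
-/

set_option autoImplicit false

namespace Fermat.Agent.S55.T

theorem modSMul_eq_zsmul {M : Type*} [AddCommGroup M] (inst : Module ℤ M) (n : ℤ) (x : M) :
    (@HSMul.hSMul ℤ M M (@instHSMul ℤ M inst.toSMul) n x) =
      @HSMul.hSMul ℤ M M (@instHSMul ℤ M ZSMul.toSMul) n x :=
  int_smul_eq_zsmul inst n x

end Fermat.Agent.S55.T

end
-- ===== PACK-END S55/T/IntSMul.lean

-- ===== PACK-BEGIN S55/H295/Basic.lean
section


/-!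
# Cohomological triviality, part 0: vanishing propagation

Elementary consequences of the long exact sequences of group cohomology and Tate cohomology
("if two out of three neighbours vanish ..."), transport of vanishing along injective group
homomorphisms, and concrete criteria for short exactness in `Rep k G`.
-/

set_option autoImplicit false

open CategoryTheory groupCohomology Rep Limits

universe u

namespace Fermat.Agent.S55.H295

noncomputable section

section LES

variable {k G : Type u} [CommRing k] [Group G]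
  {X : ShortComplex (Rep.{u} k G)}

/-- `Hⁿ(X₁) = 0` and `Hⁿ(X₃) = 0` imply `Hⁿ(X₂) = 0`. -/
theorem isZero_H_mid (hX : X.ShortExact) (n : ℕ)
    (h1 : IsZero (groupCohomology X.X₁ n)) (h3 : IsZero (groupCohomology X.X₃ n)) :
    IsZero (groupCohomology X.X₂ n) :=
  (mapShortComplex₂_exact hX n).isZero_of_both_isZero h1 h3

/-- `Hⁿ(X₂) = 0` and `Hⁿ⁺¹(X₁) = 0` imply `Hⁿ(X₃) = 0`. -/
theorem isZero_H_right (hX : X.ShortExact) (n : ℕ)
    (h2 : IsZero (groupCohomology X.X₂ n)) (h1 : IsZero (groupCohomology X.X₁ (n + 1))) :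
    IsZero (groupCohomology X.X₃ n) :=
  (mapShortComplex₃_exact hX (i := n) rfl).isZero_of_both_isZero h2 h1

/-- `Hⁿ(X₃) = 0` and `Hⁿ⁺¹(X₂) = 0` imply `Hⁿ⁺¹(X₁) = 0`. -/
theorem isZero_H_left (hX : X.ShortExact) (n : ℕ)
    (h3 : IsZero (groupCohomology X.X₃ n)) (h2 : IsZero (groupCohomology X.X₂ (n + 1))) :
    IsZero (groupCohomology X.X₁ (n + 1)) :=
  (mapShortComplex₁_exact hX (i := n) rfl).isZero_of_both_isZero h3 h2

end LES

section TateLES

variable {k G : Type u} [CommRing k] [Group G] [Fintype G]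
  {X : ShortComplex (Rep.{u} k G)}

/-- Tate version: `Ĥⁿ(X₁) = 0` and `Ĥⁿ(X₃) = 0` imply `Ĥⁿ(X₂) = 0`. -/
theorem isZero_tate_mid (hX : X.ShortExact) (n : ℤ)
    (h1 : IsZero (tateCohomology X.X₁ n)) (h3 : IsZero (tateCohomology X.X₃ n)) :
    IsZero (tateCohomology X.X₂ n) :=
  ((TateCohomology.map_tateComplexFunctor_shortExact hX).homology_exact₂ n).isZero_of_both_isZero
    h1 h3

/-- Tate version: `Ĥⁿ(X₂) = 0` and `Ĥⁿ⁺¹(X₁) = 0` imply `Ĥⁿ(X₃) = 0`. -/
theorem isZero_tate_right (hX : X.ShortExact) (n : ℤ)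
    (h2 : IsZero (tateCohomology X.X₂ n)) (h1 : IsZero (tateCohomology X.X₁ (n + 1))) :
    IsZero (tateCohomology X.X₃ n) :=
  (TateCohomology.exact₃ hX n).isZero_of_both_isZero h2 h1

/-- Tate version: `Ĥⁿ(X₃) = 0` and `Ĥⁿ⁺¹(X₂) = 0` imply `Ĥⁿ⁺¹(X₁) = 0`. -/
theorem isZero_tate_left (hX : X.ShortExact) (n : ℤ)
    (h3 : IsZero (tateCohomology X.X₃ n)) (h2 : IsZero (tateCohomology X.X₂ (n + 1))) :
    IsZero (tateCohomology X.X₁ (n + 1)) :=
  (TateCohomology.exact₁ hX n).isZero_of_both_isZero h3 h2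

end TateLES

section ShortExact

variable {k G : Type u} [CommRing k] [Group G]

/-- Concrete criterion for short exactness in `Rep k G`. -/
theorem rep_shortExact_of (X : ShortComplex (Rep.{u} k G))
    (h1 : Function.Injective X.f.hom)
    (h2 : ∀ x : X.X₂, X.g.hom x = 0 → ∃ y : X.X₁, X.f.hom y = x)
    (h3 : Function.Surjective X.g.hom) : X.ShortExact where
  exact := by
    rw [← ShortComplex.exact_map_iff_of_faithful X (forget₂ (Rep.{u} k G) (ModuleCat.{u} k)),
      ShortComplex.moduleCat_exact_iff]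
    exact h2
  mono_f := (Rep.mono_iff_injective _).2 h1
  epi_g := (Rep.epi_iff_surjective _).2 h3

theorem rep_shortExact_inj {X : ShortComplex (Rep.{u} k G)} (hX : X.ShortExact) :
    Function.Injective X.f.hom :=
  (Rep.mono_iff_injective _).1 hX.mono_f

theorem rep_shortExact_surj {X : ShortComplex (Rep.{u} k G)} (hX : X.ShortExact) :
    Function.Surjective X.g.hom :=
  (Rep.epi_iff_surjective _).1 hX.epi_g

theorem rep_shortExact_exact {X : ShortComplex (Rep.{u} k G)} (hX : X.ShortExact)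
    (x : X.X₂) (hx : X.g.hom x = 0) : ∃ y : X.X₁, X.f.hom y = x := by
  have := hX.exact
  rw [← ShortComplex.exact_map_iff_of_faithful X (forget₂ (Rep.{u} k G) (ModuleCat.{u} k)),
    ShortComplex.moduleCat_exact_iff] at this
  exact this x hx

end ShortExact

section Transport

variable {k G H : Type u} [CommRing k] [Group G] [Group H]

/-- Cohomology of the restriction along an injective homomorphism is the cohomology of the
restriction to its range. -/
def resRangeIso (f : H →* G) (hf : Function.Injective f) (A : Rep.{u} k G) (n : ℕ) :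
    groupCohomology (res f A) n ≅ groupCohomology (res f.range.subtype A) n :=
  groupCohomology.mapIso (A := res f.range.subtype A) (B := res f A)
    (MonoidHom.ofInjective hf) (LinearEquiv.refl k A.V) (fun _ => rfl) n

theorem isZero_res_of_range (f : H →* G) (hf : Function.Injective f) (A : Rep.{u} k G) (n : ℕ)
    (h : IsZero (groupCohomology (res f.range.subtype A) n)) :
    IsZero (groupCohomology (res f A) n) :=
  IsZero.of_iso h (resRangeIso f hf A n)

end Transport

end

end Fermat.Agent.S55.H295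

end
-- ===== PACK-END S55/H295/Basic.lean

-- ===== PACK-BEGIN S55/H593/Dev/Basic.lean
section


/-!
# S55: abstract dévissage for `H³` of level-constant cochains, part 1 (helper593)

`G` any group, `𝓛 : Set (Subgroup G)` a family of subgroups ("levels"; think `PT.LevelSys.levels`).
Cochain-level vocabulary (identical, up to unfolding, to `K.H3Vanish` of helper4 and
`KL.H3Vanish` of helper53):

* `IsLC2 𝓛 f`, `IsLC3 𝓛 f` : level-constant 2- and 3-cochains;
* `IsCoc3 A z`            : the inhomogeneous 3-cocycle condition;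
* `H3V 𝓛 A`               : every level-constant 3-cocycle of `A` is `d₂₃` of a level-constant
                            2-cochain (`H³_lc(G, A) = 0`).

Closure properties:

* `H3V.of_retract`   : `A` a retract of `B`, `H3V B` ⇒ `H3V A`;
* `H3V.of_extension` : `0 → A' → A → A'' → 0` exact, some normal level acts trivially on `A`,
                       `H3V A'`, `H3V A''` ⇒ `H3V A`;
* `H3V.of_subsingleton`.

Mathlib only.
-/

set_option autoImplicit false

namespace Fermat.Agent.S55.H593.Dev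

open groupCohomology

variable {G : Type} [Group G] {k : Type} [CommRing k]

/-! ## Vocabulary -/

/-- Level-constant 2-cochains. -/
def IsLC2 (𝓛 : Set (Subgroup G)) {X : Type*} (f : G × G → X) : Prop :=
  ∃ U ∈ 𝓛, ∀ g g' s s' : G, s ∈ U → s' ∈ U → f (g * s, g' * s') = f (g, g')

/-- Level-constant 3-cochains. -/
def IsLC3 (𝓛 : Set (Subgroup G)) {X : Type*} (f : G × G × G → X) : Prop :=
  ∃ U ∈ 𝓛, ∀ g₁ g₂ g₃ s₁ s₂ s₃ : G, s₁ ∈ U → s₂ ∈ U → s₃ ∈ U →
    f (g₁ * s₁, g₂ * s₂, g₃ * s₃) = f (g₁, g₂, g₃)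

/-- The inhomogeneous 3-cocycle condition `d₃₄ f = 0`. -/
def IsCoc3 (A : Rep.{0, 0, 0} k G) (f : G × G × G → A) : Prop :=
  ∀ g h i j : G,
    A.ρ g (f (h, i, j)) - f (g * h, i, j) + f (g, h * i, j) - f (g, h, i * j) + f (g, h, i) = 0

/-- `H³_lc(G, A) = 0`: every level-constant 3-cocycle is `d` of a level-constant 2-cochain. -/
def H3V (𝓛 : Set (Subgroup G)) (A : Rep.{0, 0, 0} k G) : Prop :=
  ∀ z : G × G × G → A, IsLC3 𝓛 z → IsCoc3 A z →
    ∃ b : G × G → A, IsLC2 𝓛 b ∧ (d₂₃ A).hom b = z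

/-- The family of levels is directed. -/
def Directed' (𝓛 : Set (Subgroup G)) : Prop :=
  ∀ U ∈ 𝓛, ∀ V ∈ 𝓛, ∃ W ∈ 𝓛, W ≤ U ⊓ V

/-- Normal levels are cofinal. -/
def NormalCofinal' (𝓛 : Set (Subgroup G)) : Prop :=
  ∀ U ∈ 𝓛, ∃ V ∈ 𝓛, V ≤ U ∧ V.Normal

/-- Some level acts trivially on `A`. -/
def USmooth (𝓛 : Set (Subgroup G)) (A : Rep.{0, 0, 0} k G) : Prop :=
  ∃ U ∈ 𝓛, ∀ s ∈ U, ∀ a : A, A.ρ s a = a

/-- `H` contains a level. -/
def IsOpenSub (𝓛 : Set (Subgroup G)) (H : Subgroup G) : Prop := ∃ U ∈ 𝓛, U ≤ H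

/-! ## Elementary properties of level-constant cochains -/

lemma IsLC2.comp {𝓛 : Set (Subgroup G)} {X Y : Type*} {f : G × G → X} (hf : IsLC2 𝓛 f)
    (φ : X → Y) : IsLC2 𝓛 (φ ∘ f) := by
  obtain ⟨U, hU, h⟩ := hf
  exact ⟨U, hU, fun g g' s s' hs hs' => by simp only [Function.comp_apply, h g g' s s' hs hs']⟩

lemma IsLC3.comp {𝓛 : Set (Subgroup G)} {X Y : Type*} {f : G × G × G → X} (hf : IsLC3 𝓛 f)
    (φ : X → Y) : IsLC3 𝓛 (φ ∘ f) := by
  obtain ⟨U, hU, h⟩ := hf
  exact ⟨U, hU, fun g₁ g₂ g₃ s₁ s₂ s₃ h₁ h₂ h₃ => by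
    simp only [Function.comp_apply, h g₁ g₂ g₃ s₁ s₂ s₃ h₁ h₂ h₃]⟩

lemma IsLC3.of_comp_injective {𝓛 : Set (Subgroup G)} {X Y : Type*} {f : G × G × G → X}
    {φ : X → Y} (hφ : Function.Injective φ) (hf : IsLC3 𝓛 (φ ∘ f)) : IsLC3 𝓛 f := by
  obtain ⟨U, hU, h⟩ := hf
  exact ⟨U, hU, fun g₁ g₂ g₃ s₁ s₂ s₃ h₁ h₂ h₃ => hφ (h g₁ g₂ g₃ s₁ s₂ s₃ h₁ h₂ h₃)⟩

lemma IsLC2.add {𝓛 : Set (Subgroup G)} (hd : Directed' 𝓛) {X : Type*} [Add X]
    {f f' : G × G → X} (hf : IsLC2 𝓛 f) (hf' : IsLC2 𝓛 f') : IsLC2 𝓛 (f + f') := by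
  obtain ⟨U, hU, h⟩ := hf
  obtain ⟨V, hV, h'⟩ := hf'
  obtain ⟨W, hW, hle⟩ := hd U hU V hV
  refine ⟨W, hW, fun g g' s s' hs hs' => ?_⟩
  simp only [Pi.add_apply]
  rw [h g g' s s' (hle hs).1 (hle hs').1, h' g g' s s' (hle hs).2 (hle hs').2]

lemma IsLC3.sub {𝓛 : Set (Subgroup G)} (hd : Directed' 𝓛) {X : Type*} [Sub X]
    {f f' : G × G × G → X} (hf : IsLC3 𝓛 f) (hf' : IsLC3 𝓛 f') : IsLC3 𝓛 (f - f') := by
  obtain ⟨U, hU, h⟩ := hf
  obtain ⟨V, hV, h'⟩ := hf'
  obtain ⟨W, hW, hle⟩ := hd U hU V hV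
  refine ⟨W, hW, fun g₁ g₂ g₃ s₁ s₂ s₃ h₁ h₂ h₃ => ?_⟩
  simp only [Pi.sub_apply]
  rw [h g₁ g₂ g₃ s₁ s₂ s₃ (hle h₁).1 (hle h₂).1 (hle h₃).1,
    h' g₁ g₂ g₃ s₁ s₂ s₃ (hle h₁).2 (hle h₂).2 (hle h₃).2]

/-- `d₂₃`, evaluated. -/
lemma d23_apply (A : Rep.{0, 0, 0} k G) (b : G × G → A) (g h j : G) :
    (d₂₃ A).hom b (g, h, j) = A.ρ g (b (h, j)) - b (g * h, j) + b (g, h * j) - b (g, h) :=
  d₂₃_hom_apply A b (g, h, j)

/-- `d ∘ d = 0` in degrees `2 → 3 → 4`. -/
lemma isCoc3_d23 (A : Rep.{0, 0, 0} k G) (b : G × G → A) : IsCoc3 A ((d₂₃ A).hom b) := by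
  intro g h i j
  rw [d23_apply A b h i j, d23_apply A b (g * h) i j, d23_apply A b g (h * i) j,
    d23_apply A b g h (i * j), d23_apply A b g h i]
  simp only [map_sub, map_add, mul_assoc]
  have e : A.ρ g (A.ρ h (b (i, j))) = A.ρ (g * h) (b (i, j)) := by
    rw [map_mul]; rfl
  rw [e]
  abel

lemma IsCoc3.sub {A : Rep.{0, 0, 0} k G} {f f' : G × G × G → A} (hf : IsCoc3 A f)
    (hf' : IsCoc3 A f') : IsCoc3 A (f - f') := by
  intro g h i j
  have h1 := hf g h i j
  have h2 := hf' g h i j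
  simp only [Pi.sub_apply, map_sub]
  have : A.ρ g (f (h, i, j)) - A.ρ g (f' (h, i, j)) - (f (g * h, i, j) - f' (g * h, i, j))
      + (f (g, h * i, j) - f' (g, h * i, j)) - (f (g, h, i * j) - f' (g, h, i * j))
      + (f (g, h, i) - f' (g, h, i))
      = (A.ρ g (f (h, i, j)) - f (g * h, i, j) + f (g, h * i, j) - f (g, h, i * j) + f (g, h, i))
        - (A.ρ g (f' (h, i, j)) - f' (g * h, i, j) + f' (g, h * i, j) - f' (g, h, i * j)
          + f' (g, h, i)) := by abel
  rw [this, h1, h2, sub_zero]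

/-- Equivariant additive maps preserve 3-cocycles. -/
lemma IsCoc3.map {A B : Rep.{0, 0, 0} k G} (φ : A →ₗ[k] B)
    (hφ : ∀ (g : G) (a : A), φ (A.ρ g a) = B.ρ g (φ a)) {f : G × G × G → A} (hf : IsCoc3 A f) :
    IsCoc3 B (φ ∘ f) := by
  intro g h i j
  have h1 := congrArg φ (hf g h i j)
  simp only [map_sub, map_add, map_zero, hφ] at h1
  exact h1

/-- Injective equivariant additive maps reflect 3-cocycles. -/
lemma IsCoc3.of_map {A B : Rep.{0, 0, 0} k G} (φ : A →ₗ[k] B) (hinj : Function.Injective φ)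
    (hφ : ∀ (g : G) (a : A), φ (A.ρ g a) = B.ρ g (φ a)) {f : G × G × G → A}
    (hf : IsCoc3 B (φ ∘ f)) : IsCoc3 A f := by
  intro g h i j
  apply hinj
  have h1 := hf g h i j
  simp only [Function.comp_apply] at h1
  simp only [map_sub, map_add, map_zero, hφ]
  exact h1

/-- Equivariant linear maps commute with `d₂₃`. -/
lemma d23_comp {A B : Rep.{0, 0, 0} k G} (φ : A →ₗ[k] B)
    (hφ : ∀ (g : G) (a : A), φ (A.ρ g a) = B.ρ g (φ a)) (b : G × G → A) :
    (d₂₃ B).hom (φ ∘ b) = φ ∘ (d₂₃ A).hom b := by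
  funext ⟨g, h, j⟩
  rw [d23_apply B (φ ∘ b) g h j]
  simp only [Function.comp_apply]
  rw [d23_apply A b g h j]
  simp only [map_sub, map_add, hφ]

/-- If a normal level acts trivially on `A`, then `d₂₃` of a level-constant cochain is
level-constant. -/
lemma IsLC2.d23 {𝓛 : Set (Subgroup G)} (hd : Directed' 𝓛) (hn : NormalCofinal' 𝓛)
    {A : Rep.{0, 0, 0} k G} (hA : USmooth 𝓛 A) {b : G × G → A} (hb : IsLC2 𝓛 b) :
    IsLC3 𝓛 ((d₂₃ A).hom b) := by
  obtain ⟨U, hU, hUA⟩ := hA
  obtain ⟨V, hV, hVb⟩ := hb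
  obtain ⟨W, hW, hle⟩ := hd U hU V hV
  obtain ⟨W', hW', hle', hnorm⟩ := hn W hW
  refine ⟨W', hW', fun g₁ g₂ g₃ s₁ s₂ s₃ h₁ h₂ h₃ => ?_⟩
  have hV' : ∀ s ∈ W', s ∈ V := fun s hs => (hle (hle' hs)).2
  have hU' : ∀ s ∈ W', s ∈ U := fun s hs => (hle (hle' hs)).1
  have c1 : ∀ s ∈ W', ∀ g : G, g⁻¹ * s * g ∈ W' := fun s hs g => by
    have := hnorm.conj_mem s hs g⁻¹
    simpa using this
  rw [d23_apply A b (g₁ * s₁) (g₂ * s₂) (g₃ * s₃), d23_apply A b g₁ g₂ g₃]
  have e1 : b (g₂ * s₂, g₃ * s₃) = b (g₂, g₃) := hVb _ _ _ _ (hV' _ h₂) (hV' _ h₃)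
  have e2 : b (g₁ * s₁ * (g₂ * s₂), g₃ * s₃) = b (g₁ * g₂, g₃) := by
    have : g₁ * s₁ * (g₂ * s₂) = g₁ * g₂ * (g₂⁻¹ * s₁ * g₂ * s₂) := by group
    rw [this]
    exact hVb _ _ _ _ (hV' _ (W'.mul_mem (c1 _ h₁ _) h₂)) (hV' _ h₃)
  have e3 : b (g₁ * s₁, g₂ * s₂ * (g₃ * s₃)) = b (g₁, g₂ * g₃) := by
    have : g₂ * s₂ * (g₃ * s₃) = g₂ * g₃ * (g₃⁻¹ * s₂ * g₃ * s₃) := by group
    rw [this]
    exact hVb _ _ _ _ (hV' _ h₁) (hV' _ (W'.mul_mem (c1 _ h₂ _) h₃))
  have e4 : b (g₁ * s₁, g₂ * s₂) = b (g₁, g₂) := hVb _ _ _ _ (hV' _ h₁) (hV' _ h₂)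
  have e5 : A.ρ (g₁ * s₁) (b (g₂, g₃)) = A.ρ g₁ (b (g₂, g₃)) := by
    rw [map_mul]
    show A.ρ g₁ (A.ρ s₁ (b (g₂, g₃))) = _
    rw [hUA _ (hU' _ h₁)]
  rw [e1, e2, e3, e4, e5]

/-! ## Closure properties of `H3V` -/

/-- `H3V` for a module with one element. -/
theorem H3V.of_subsingleton (𝓛 : Set (Subgroup G)) (h𝓛 : 𝓛.Nonempty) (A : Rep.{0, 0, 0} k G)
    [Subsingleton A] : H3V 𝓛 A := by
  intro z _ _
  obtain ⟨U, hU⟩ := h𝓛
  refine ⟨0, ⟨U, hU, fun _ _ _ _ _ _ => rfl⟩, ?_⟩
  funext x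
  exact Subsingleton.elim _ _

/-- **Retracts.**  If `r ∘ i = id` with `i : A → B`, `r : B → A` equivariant, then
`H3V B ⇒ H3V A`. -/
theorem H3V.of_retract {𝓛 : Set (Subgroup G)} {A B : Rep.{0, 0, 0} k G} (i : A →ₗ[k] B)
    (r : B →ₗ[k] A) (hi : ∀ (g : G) (a : A), i (A.ρ g a) = B.ρ g (i a))
    (hr : ∀ (g : G) (b : B), r (B.ρ g b) = A.ρ g (r b)) (hri : ∀ a, r (i a) = a)
    (hB : H3V 𝓛 B) : H3V 𝓛 A := by
  intro z hz hcoc
  obtain ⟨b, hb, hdb⟩ := hB (i ∘ z) (hz.comp i) (hcoc.map i hi)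
  refine ⟨r ∘ b, hb.comp r, ?_⟩
  rw [d23_comp r hr, hdb]
  funext x
  exact hri _

/-- **Extensions.**  If `0 → A' → A → A'' → 0` is exact (equivariant linear maps), the levels are
directed with cofinal normal levels, and some level acts trivially on `A`, then
`H3V A'` and `H3V A''` imply `H3V A`. -/
theorem H3V.of_extension {𝓛 : Set (Subgroup G)} (hd : Directed' 𝓛) (hn : NormalCofinal' 𝓛)
    {A' A A'' : Rep.{0, 0, 0} k G} (hA : USmooth 𝓛 A)
    (i : A' →ₗ[k] A) (π : A →ₗ[k] A'')
    (hi : ∀ (g : G) (a : A'), i (A'.ρ g a) = A.ρ g (i a))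
    (hπ : ∀ (g : G) (a : A), π (A.ρ g a) = A''.ρ g (π a))
    (hinj : Function.Injective i) (hsurj : Function.Surjective π)
    (hex : ∀ a : A, π a = 0 → ∃ a' : A', i a' = a)
    (h' : H3V 𝓛 A') (h'' : H3V 𝓛 A'') : H3V 𝓛 A := by
  classical
  intro z hz hcoc
  -- push to `A''`
  obtain ⟨b'', hb'', hdb''⟩ := h'' (π ∘ z) (hz.comp π) (hcoc.map π hπ)
  -- lift `b''` by a set-theoretic section
  let s : A'' → A := Function.surjInv hsurj
  have hs : ∀ x, π (s x) = x := Function.surjInv_eq hsurj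
  let bt : G × G → A := s ∘ b''
  have hbt : IsLC2 𝓛 bt := hb''.comp s
  have hπbt : (π : A → A'') ∘ bt = b'' := by
    funext x
    exact hs _
  -- the difference has values in `ker π`
  let w : G × G × G → A := z - (d₂₃ A).hom bt
  have hw0 : ∀ x, π (w x) = 0 := by
    intro x
    have h1 : (π : A → A'') ∘ (d₂₃ A).hom bt = (d₂₃ A'').hom ((π : A → A'') ∘ bt) :=
      (d23_comp π hπ bt).symm
    have h2 : π ((d₂₃ A).hom bt x) = π (z x) := by
      have := congrFun h1 x
      simp only [Function.comp_apply] at this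
      rw [this, hπbt, hdb'']
      rfl
    show π (z x - (d₂₃ A).hom bt x) = 0
    rw [map_sub, h2, sub_self]
  have hwLC : IsLC3 𝓛 w := hz.sub hd (hbt.d23 hd hn hA)
  have hwcoc : IsCoc3 A w := hcoc.sub (isCoc3_d23 A bt)
  -- descend to `A'`
  choose z' hz' using fun x => hex (w x) (hw0 x)
  have hiz' : (i : A' → A) ∘ z' = w := funext hz'
  have hz'LC : IsLC3 𝓛 z' := IsLC3.of_comp_injective hinj (by rw [hiz']; exact hwLC)
  have hz'coc : IsCoc3 A' z' := IsCoc3.of_map i hinj hi (by rw [hiz']; exact hwcoc)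
  obtain ⟨b', hb', hdb'⟩ := h' z' hz'LC hz'coc
  refine ⟨bt + (i : A' → A) ∘ b', hbt.add hd (hb'.comp i), ?_⟩
  rw [map_add, d23_comp i hi, hdb', hiz']
  funext x
  show (d₂₃ A).hom bt x + (z x - (d₂₃ A).hom bt x) = z x
  abel

end Fermat.Agent.S55.H593.Dev

end
-- ===== PACK-END S55/H593/Dev/Basic.lean

-- ===== PACK-BEGIN S55/KC/CyclicUnionH287.lean
section


/-!
# S55 / layer KC, leaf KC-D2 (abstract part)                                   (helper287)

Pure group theory (Mathlib only): an additive commutative group `X` which is a directed union of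
finite cyclic subgroups `S i` of orders `n i`, with unbounded `p`-parts, is `p`-divisible and has
exactly `p` elements killed by `p`.

* `exists_nsmul_eq_of_directed_cyclic` : `∀ x, ∃ y, p • y = x`;
* `card_torsion_of_directed_cyclic`    : `Nat.card {x : X // p • x = 0} = p`.
-/

set_option autoImplicit false

namespace Fermat.Agent.S55.KC.H287

/-- In `ZMod N`, an element killed by `d > 0` is divisible by `p` as soon as `p ^ d ∣ N`. -/
lemma zmod_exists_nsmul_eq {N : ℕ} (p : ℕ) [Fact p.Prime] (d : ℕ) (hd : 0 < d)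
    (hN : 0 < N) (hpN : p ^ d ∣ N) (c : ZMod N) (hc : d • c = 0) : ∃ y : ZMod N, p • y = c := by
  have : NeZero N := ⟨hN.ne'⟩
  have h1 : N ∣ d * c.val := by
    have : ((d * c.val : ℕ) : ZMod N) = 0 := by
      rw [Nat.cast_mul, ZMod.natCast_zmod_val, ← nsmul_eq_mul]; exact hc
    exact (ZMod.natCast_eq_zero_iff _ _).1 this
  have h2 : p ^ d ∣ d * c.val := hpN.trans h1
  have h3 : p ∣ c.val := by
    by_contra hp
    have hcop : Nat.Coprime (p ^ d) c.val :=
      Nat.Coprime.pow_left d ((Nat.Prime.coprime_iff_not_dvd Fact.out).2 hp)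
    have h4 : p ^ d ∣ d := hcop.dvd_of_dvd_mul_right h2
    have h5 := Nat.le_of_dvd hd h4
    have h6 := Nat.lt_pow_self (Fact.out : p.Prime).one_lt (n := d)
    omega
  obtain ⟨t, ht⟩ := h3
  refine ⟨(t : ZMod N), ?_⟩
  rw [nsmul_eq_mul, ← Nat.cast_mul, ← ht, ZMod.natCast_zmod_val]

section

variable {X : Type*} [AddCommGroup X] (p : ℕ) [Fact p.Prime]
  {I : Type*} (S : I → AddSubgroup X) (n : I → ℕ)

/-- elements of a subgroup isomorphic to `ZMod n` are killed by `n` -/
lemma nsmul_eq_zero_of_mem {S₀ : AddSubgroup X} {n₀ : ℕ} (e : S₀ ≃+ ZMod n₀) {x : X}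
    (hx : x ∈ S₀) : n₀ • x = 0 := by
  have h : e (n₀ • (⟨x, hx⟩ : S₀)) = 0 := by
    rw [map_nsmul, nsmul_eq_mul, ZMod.natCast_self, zero_mul]
  have h' : n₀ • (⟨x, hx⟩ : S₀) = 0 := by
    apply e.injective
    rw [h, map_zero]
  simpa using congrArg (fun y : S₀ => (y : X)) h'

lemma card_of_equiv_zmod {S₀ : AddSubgroup X} {n₀ : ℕ} (e : S₀ ≃+ ZMod n₀) :
    Nat.card S₀ = n₀ := by
  rw [Nat.card_congr e.toEquiv, Nat.card_zmod]

variable {S n}

lemma dvd_of_le_of_equiv_zmod {i j : I} (hS : ∀ i, Nonempty (S i ≃+ ZMod (n i)))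
    (h : S i ≤ S j) : n i ∣ n j := by
  obtain ⟨ei⟩ := hS i
  obtain ⟨ej⟩ := hS j
  rw [← card_of_equiv_zmod ei, ← card_of_equiv_zmod ej]
  exact AddSubgroup.card_dvd_of_le h

/-- **Divisibility.**  A directed union of finite cyclic groups of orders `n i` with unbounded
`p`-parts is `p`-divisible. -/
theorem exists_nsmul_eq_of_directed_cyclic
    (hn : ∀ i, 0 < n i) (hS : ∀ i, Nonempty (S i ≃+ ZMod (n i)))
    (hdir : ∀ i j, ∃ k, S i ≤ S k ∧ S j ≤ S k)
    (hcov : ∀ x : X, ∃ i, x ∈ S i)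
    (hunb : ∀ m : ℕ, ∃ i, p ^ m ∣ n i) (x : X) :
    ∃ y : X, p • y = x := by
  obtain ⟨i, hxi⟩ := hcov x
  obtain ⟨ei⟩ := hS i
  obtain ⟨j, hj⟩ := hunb (n i)
  obtain ⟨k, hik, hjk⟩ := hdir i j
  obtain ⟨ek⟩ := hS k
  have hdvd : p ^ n i ∣ n k := hj.trans (dvd_of_le_of_equiv_zmod hS hjk)
  have hkill : n i • x = 0 := nsmul_eq_zero_of_mem ei hxi
  have hc : n i • ek ⟨x, hik hxi⟩ = 0 := by
    rw [← map_nsmul]
    have : n i • (⟨x, hik hxi⟩ : S k) = 0 := Subtype.ext (by simpa using hkill)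
    rw [this, map_zero]
  obtain ⟨y, hy⟩ := zmod_exists_nsmul_eq p (n i) (hn i) (hn k) hdvd _ hc
  refine ⟨(ek.symm y : X), ?_⟩
  have h1 : p • ek.symm y = ⟨x, hik hxi⟩ := by
    apply ek.injective
    rw [map_nsmul, AddEquiv.apply_symm_apply, hy]
  simpa using congrArg (fun z : S k => (z : X)) h1

end

/-- In `ZMod N`, every element killed by `p` is a multiple of any element of order `p`. -/
lemma zmod_mem_zmultiples_of_nsmul_eq_zero {N : ℕ} (hN : 0 < N) (p : ℕ) [Fact p.Prime]
    (g c : ZMod N) (hg : addOrderOf g = p) (hc : p • c = 0) :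
    c ∈ AddSubgroup.zmultiples g := by
  have : NeZero N := ⟨hN.ne'⟩
  classical
  have hT : (Finset.univ.filter (fun a : ZMod N => p • a = 0)).card ≤ p :=
    IsAddCyclic.card_nsmul_eq_zero_le (Fact.out : p.Prime).pos
  have hZT : (Finset.univ.filter (fun a : ZMod N => a ∈ AddSubgroup.zmultiples g)) ⊆
      (Finset.univ.filter (fun a : ZMod N => p • a = 0)) := by
    intro a ha
    rw [Finset.mem_filter] at ha ⊢
    refine ⟨Finset.mem_univ _, ?_⟩
    obtain ⟨t, rfl⟩ := AddSubgroup.mem_zmultiples_iff.1 ha.2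
    rw [smul_comm, ← hg, addOrderOf_nsmul_eq_zero, smul_zero]
  have hZ : (Finset.univ.filter (fun a : ZMod N => a ∈ AddSubgroup.zmultiples g)).card = p := by
    rw [← hg, ← Nat.card_zmultiples, Nat.card_eq_fintype_card, Fintype.card_subtype]
  have hEq := Finset.eq_of_subset_of_card_le hZT (by rw [hZ]; exact hT)
  have hcT : c ∈ Finset.univ.filter (fun a : ZMod N => p • a = 0) := by
    rw [Finset.mem_filter]; exact ⟨Finset.mem_univ _, hc⟩
  rw [← hEq, Finset.mem_filter] at hcT
  exact hcT.2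

section

variable {X : Type*} [AddCommGroup X] (p : ℕ) [Fact p.Prime]
  {I : Type*} {S : I → AddSubgroup X} {n : I → ℕ}

/-- **The `p`-torsion is cyclic of order `p`**: there is an element `g` of order `p` whose
multiples are exactly the elements killed by `p`. -/
theorem exists_generator_torsion_of_directed_cyclic
    (hn : ∀ i, 0 < n i) (hS : ∀ i, Nonempty (S i ≃+ ZMod (n i)))
    (hdir : ∀ i j, ∃ k, S i ≤ S k ∧ S j ≤ S k)
    (hcov : ∀ x : X, ∃ i, x ∈ S i)
    (hunb : ∀ m : ℕ, ∃ i, p ^ m ∣ n i) :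
    ∃ g : X, addOrderOf g = p ∧ ∀ x : X, p • x = 0 ↔ x ∈ AddSubgroup.zmultiples g := by
  have hp : p.Prime := Fact.out
  obtain ⟨i₁, hi₁⟩ := hunb 1
  rw [pow_one] at hi₁
  obtain ⟨e₁⟩ := hS i₁
  obtain ⟨N', hN'⟩ := hi₁
  have hNpos : 0 < n i₁ := hn i₁
  have hN'pos : 0 < N' := by
    rcases Nat.eq_zero_or_pos N' with h | h
    · rw [h, mul_zero] at hN'; omega
    · exact h
  have : NeZero (n i₁) := ⟨hNpos.ne'⟩
  -- the generator
  set c₁ : ZMod (n i₁) := ((N' : ℕ) : ZMod (n i₁)) with hc₁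
  have hc₁0 : c₁ ≠ 0 := by
    intro h
    have h1 : n i₁ ∣ N' := (ZMod.natCast_eq_zero_iff _ _).1 h
    have h2 := Nat.le_of_dvd hN'pos h1
    have h3 : N' < n i₁ := by
      rw [hN']
      have := hp.one_lt
      nlinarith
    omega
  have hc₁p : p • c₁ = 0 := by
    rw [hc₁, nsmul_eq_mul, ← Nat.cast_mul, ← hN', ZMod.natCast_self]
  set g : X := (e₁.symm c₁ : X) with hg
  have hgp : p • g = 0 := by
    have h1 : p • e₁.symm c₁ = 0 := by
      rw [← map_nsmul, hc₁p, map_zero]
    simpa using congrArg (fun z : S i₁ => (z : X)) h1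
  have hg0 : g ≠ 0 := by
    intro h
    have h1 : e₁.symm c₁ = 0 := Subtype.ext (by rw [AddSubgroup.coe_zero]; exact h)
    have h2 : c₁ = 0 := by
      have := congrArg e₁ h1
      simpa using this
    exact hc₁0 h2
  have hgord : addOrderOf g = p := addOrderOf_eq_prime hgp hg0
  have hgmem : g ∈ S i₁ := (e₁.symm c₁).2
  refine ⟨g, hgord, fun x => ⟨fun hx => ?_, fun hx => ?_⟩⟩
  · obtain ⟨i, hxi⟩ := hcov x
    obtain ⟨k, hik, h1k⟩ := hdir i i₁
    obtain ⟨ek⟩ := hS k
    have hord : addOrderOf (ek ⟨g, h1k hgmem⟩) = p := by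
      have h1 : addOrderOf (⟨g, h1k hgmem⟩ : S k) = p := by
        rw [← hgord]
        exact (addOrderOf_injective (S k).subtype Subtype.coe_injective ⟨g, h1k hgmem⟩).symm
      rw [← h1]
      exact addOrderOf_injective (ek : S k →+ ZMod (n k)) ek.injective _
    have hcx : p • ek ⟨x, hik hxi⟩ = 0 := by
      rw [← map_nsmul]
      have : p • (⟨x, hik hxi⟩ : S k) = 0 := Subtype.ext (by simpa using hx)
      rw [this, map_zero]
    obtain ⟨t, ht⟩ := AddSubgroup.mem_zmultiples_iff.1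
      (zmod_mem_zmultiples_of_nsmul_eq_zero (hn k) p _ _ hord hcx)
    refine AddSubgroup.mem_zmultiples_iff.2 ⟨t, ?_⟩
    have h2 : t • (⟨g, h1k hgmem⟩ : S k) = ⟨x, hik hxi⟩ := by
      apply ek.injective
      rw [map_zsmul, ht]
    simpa using congrArg (fun z : S k => (z : X)) h2
  · obtain ⟨t, rfl⟩ := AddSubgroup.mem_zmultiples_iff.1 hx
    rw [smul_comm, hgp, smul_zero]

/-- **The `p`-torsion has `p` elements.** -/
theorem card_torsion_of_directed_cyclic
    (hn : ∀ i, 0 < n i) (hS : ∀ i, Nonempty (S i ≃+ ZMod (n i)))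
    (hdir : ∀ i j, ∃ k, S i ≤ S k ∧ S j ≤ S k)
    (hcov : ∀ x : X, ∃ i, x ∈ S i)
    (hunb : ∀ m : ℕ, ∃ i, p ^ m ∣ n i) :
    Nat.card {x : X // p • x = 0} = p := by
  obtain ⟨g, hg, h⟩ := exists_generator_torsion_of_directed_cyclic p hn hS hdir hcov hunb
  rw [Nat.card_congr (Equiv.subtypeEquivRight h), Nat.card_zmultiples, hg]

end

end Fermat.Agent.S55.KC.H287

end
-- ===== PACK-END S55/KC/CyclicUnionH287.lean

-- ===== PACK-BEGIN S55/H321/QDict.lean
section



/-!
# S55 / layer KL, block Q (helper321): dictionary cochain form ↔ `groupCohomology` of `G ⧸ V`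

Mathlib only.  For a `ℤ`-representation `B` of a group `G` and a normal subgroup `V`:

* `q1_core`  : `H¹(G ⧸ V, B^V) = 0` ⇒ every 1-cocycle of `G` inflated from `(G ⧸ V, B^V)` is the
  coboundary of a `V`-invariant element  (`KL.Q1Spec`, unfolded);
* `q2_core`  : cocycles inflated from `(G ⧸ V, B^V)` modulo coboundaries of inflated 1-cochains
  is `H²(G ⧸ V, B^V)`  (`KL.Q2Spec`, for any pair of additive subgroups with the carriers of
  `KL.Z2At`, `KL.B2At`).
-/

set_option autoImplicit false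

noncomputable section

namespace Fermat.Agent.S55.H321

open groupCohomology

variable {G : Type} [Group G] (B : Rep.{0, 0, 0} ℤ G) (V : Subgroup G) [V.Normal]

/-- the action of `G ⧸ V` on `B^V`, on representatives -/
lemma qinv_ρ_mk_val (g : G) (x : B.quotientToInvariants V) :
    (((B.quotientToInvariants V).ρ (g : G ⧸ V) x : B.quotientToInvariants V) : B) =
      B.ρ g (x : B) := rfl

/-- elements of `B^V` are `V`-invariant -/
lemma qinv_val_inv (x : B.quotientToInvariants V) (s : G) (hs : s ∈ V) :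
    B.ρ s (x : B) = (x : B) := x.2 ⟨s, hs⟩

/-- a `V`-invariant element of `B`, as an element of `B^V` -/
def qinvMk (b : B) (hb : ∀ s ∈ V, B.ρ s b = b) : B.quotientToInvariants V :=
  ⟨b, fun s => hb s.1 s.2⟩

@[simp] lemma qinvMk_val (b : B) (hb : ∀ s ∈ V, B.ρ s b = b) :
    ((qinvMk B V b hb : B.quotientToInvariants V) : B) = b := rfl

/-- inflation of 1-cochains -/
def infl₁ (x : G ⧸ V → B.quotientToInvariants V) : G → B := fun g => ((x (g : G ⧸ V)) : B)

/-- inflation of 2-cochains -/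
def infl₂ (f : (G ⧸ V) × (G ⧸ V) → B.quotientToInvariants V) : G × G → B :=
  fun p => ((f ((p.1 : G ⧸ V), (p.2 : G ⧸ V))) : B)

@[simp] lemma infl₁_apply (x : G ⧸ V → B.quotientToInvariants V) (g : G) :
    infl₁ B V x g = ((x (g : G ⧸ V)) : B) := rfl

@[simp] lemma infl₂_apply (f : (G ⧸ V) × (G ⧸ V) → B.quotientToInvariants V) (g h : G) :
    infl₂ B V f (g, h) = ((f ((g : G ⧸ V), (h : G ⧸ V))) : B) := rfl

lemma infl₁_injective : Function.Injective (infl₁ B V) := by
  intro x y h
  funext q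
  induction q using QuotientGroup.induction_on with
  | H g => exact Subtype.ext (congrFun h g)

lemma infl₂_injective : Function.Injective (infl₂ B V) := by
  intro x y h
  funext ⟨q, r⟩
  induction q using QuotientGroup.induction_on with
  | H g =>
    induction r using QuotientGroup.induction_on with
    | H h' => exact Subtype.ext (congrFun h (g, h'))

lemma infl₁_add (x y : G ⧸ V → B.quotientToInvariants V) :
    infl₁ B V (x + y) = infl₁ B V x + infl₁ B V y := rfl

lemma infl₂_add (x y : (G ⧸ V) × (G ⧸ V) → B.quotientToInvariants V) :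
    infl₂ B V (x + y) = infl₂ B V x + infl₂ B V y := rfl

lemma mk_mul_mem (g s : G) (hs : s ∈ V) : ((g * s : G) : G ⧸ V) = (g : G ⧸ V) := by
  rw [QuotientGroup.mk_mul, (QuotientGroup.eq_one_iff s).2 hs, mul_one]

/-- inflated 1-cochains are inflated -/
lemma infl₁_isAt (x : G ⧸ V → B.quotientToInvariants V) (g s : G) (hs : s ∈ V) :
    infl₁ B V x (g * s) = infl₁ B V x g ∧ B.ρ s (infl₁ B V x g) = infl₁ B V x g :=
  ⟨by simp only [infl₁_apply, mk_mul_mem V g s hs], qinv_val_inv B V _ s hs⟩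

/-- inflated 2-cochains are inflated -/
lemma infl₂_isAt (f : (G ⧸ V) × (G ⧸ V) → B.quotientToInvariants V) (g h s t : G)
    (hs : s ∈ V) (ht : t ∈ V) :
    infl₂ B V f (g * s, h * t) = infl₂ B V f (g, h) ∧
      B.ρ s (infl₂ B V f (g, h)) = infl₂ B V f (g, h) :=
  ⟨by simp only [infl₂_apply, mk_mul_mem V g s hs, mk_mul_mem V h t ht],
    qinv_val_inv B V _ s hs⟩

/-- every 1-cochain inflated from `(G ⧸ V, B^V)` is an inflation -/
lemma exists_infl₁ (x : G → B)
    (hx : ∀ g s : G, s ∈ V → x (g * s) = x g ∧ B.ρ s (x g) = x g) :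
    ∃ x' : G ⧸ V → B.quotientToInvariants V, infl₁ B V x' = x := by
  refine ⟨fun q => qinvMk B V (x q.out) fun s hs => (hx _ s hs).2, ?_⟩
  funext g
  obtain ⟨s, hs⟩ := QuotientGroup.mk_out_eq_mul V g
  show x (g : G ⧸ V).out = x g
  rw [hs]
  exact (hx g s s.2).1

/-- every 2-cochain inflated from `(G ⧸ V, B^V)` is an inflation -/
lemma exists_infl₂ (f : G × G → B)
    (hf : ∀ g h s t : G, s ∈ V → t ∈ V →
      f (g * s, h * t) = f (g, h) ∧ B.ρ s (f (g, h)) = f (g, h)) :
    ∃ f' : (G ⧸ V) × (G ⧸ V) → B.quotientToInvariants V, infl₂ B V f' = f := by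
  refine ⟨fun q => qinvMk B V (f (q.1.out, q.2.out)) fun s hs =>
    (hf _ _ s 1 hs V.one_mem).2, ?_⟩
  funext ⟨g, h⟩
  obtain ⟨s, hs⟩ := QuotientGroup.mk_out_eq_mul V g
  obtain ⟨t, ht⟩ := QuotientGroup.mk_out_eq_mul V h
  show f ((g : G ⧸ V).out, (h : G ⧸ V).out) = f (g, h)
  rw [hs, ht]
  exact (hf g h s t s.2 t.2).1

/-- `d⁰` commutes with inflation -/
lemma d₀₁_infl (a : B.quotientToInvariants V) :
    (d₀₁ B).hom (a : B) = infl₁ B V ((d₀₁ (B.quotientToInvariants V)).hom a) := by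
  funext g
  rfl

/-- `d¹` commutes with inflation -/
lemma d₁₂_infl (x : G ⧸ V → B.quotientToInvariants V) :
    (d₁₂ B).hom (infl₁ B V x) = infl₂ B V ((d₁₂ (B.quotientToInvariants V)).hom x) := by
  funext ⟨g, h⟩
  rfl

/-- `d²` commutes with inflation -/
lemma d₂₃_infl (f : (G ⧸ V) × (G ⧸ V) → B.quotientToInvariants V) (g h j : G) :
    (d₂₃ B).hom (infl₂ B V f) (g, h, j) =
      (((d₂₃ (B.quotientToInvariants V)).hom f
        ((g : G ⧸ V), (h : G ⧸ V), (j : G ⧸ V)) : B.quotientToInvariants V) : B) := rfl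

lemma infl₁_mem_cocycles₁_iff (x : G ⧸ V → B.quotientToInvariants V) :
    infl₁ B V x ∈ cocycles₁ B ↔ x ∈ cocycles₁ (B.quotientToInvariants V) := by
  constructor
  · intro h
    have h' : (d₁₂ B).hom (infl₁ B V x) = 0 := h
    rw [d₁₂_infl] at h'
    have : (d₁₂ (B.quotientToInvariants V)).hom x = 0 := infl₂_injective B V h'
    exact this
  · intro h
    have h' : (d₁₂ (B.quotientToInvariants V)).hom x = 0 := h
    show (d₁₂ B).hom (infl₁ B V x) = 0
    rw [d₁₂_infl, h']
    rfl

lemma infl₂_mem_cocycles₂_iff (f : (G ⧸ V) × (G ⧸ V) → B.quotientToInvariants V) :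
    infl₂ B V f ∈ cocycles₂ B ↔ f ∈ cocycles₂ (B.quotientToInvariants V) := by
  constructor
  · intro h
    have h' : (d₂₃ B).hom (infl₂ B V f) = 0 := h
    show (d₂₃ (B.quotientToInvariants V)).hom f = 0
    funext ⟨q, r, t⟩
    induction q using QuotientGroup.induction_on with
    | H g =>
      induction r using QuotientGroup.induction_on with
      | H h'' =>
        induction t using QuotientGroup.induction_on with
        | H j =>
          apply Subtype.ext
          have := congrFun h' (g, h'', j)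
          rw [d₂₃_infl] at this
          exact this
  · intro h
    have h' : (d₂₃ (B.quotientToInvariants V)).hom f = 0 := h
    show (d₂₃ B).hom (infl₂ B V f) = 0
    funext ⟨g, h'', j⟩
    rw [d₂₃_infl, h']
    rfl

/-- **KL-Q1**, unfolded. -/
theorem q1_core (h1 : Subsingleton (H1 (B.quotientToInvariants V)))
    (f : G → B) (hf : f ∈ cocycles₁ B)
    (hat : ∀ g s : G, s ∈ V → f (g * s) = f g ∧ B.ρ s (f g) = f g) :
    ∃ a : B, (∀ s ∈ V, B.ρ s a = a) ∧ (d₀₁ B).hom a = f := by
  obtain ⟨x, rfl⟩ := exists_infl₁ B V f hat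
  have hx : x ∈ cocycles₁ (B.quotientToInvariants V) := (infl₁_mem_cocycles₁_iff B V x).1 hf
  have h0 : H1π (B.quotientToInvariants V) ⟨x, hx⟩ = 0 := Subsingleton.elim _ _
  rw [H1π_eq_zero_iff] at h0
  obtain ⟨a, ha⟩ := h0
  refine ⟨(a : B), fun s hs => qinv_val_inv B V a s hs, ?_⟩
  rw [d₀₁_infl]
  exact congrArg (infl₁ B V) ha

/-- **KL-Q2**, for any pair of additive subgroups `Z`, `Bd` of `G × G → B` whose carriers are the
2-cocycles inflated from `(G ⧸ V, B^V)`, resp. the coboundaries of the 1-cochains inflated from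
`(G ⧸ V, B^V)`. -/
theorem q2_core (Z Bd : AddSubgroup (G × G → B))
    (hZ : ∀ f : G × G → B, f ∈ Z ↔ (f ∈ cocycles₂ B ∧ ∀ g h s t : G, s ∈ V → t ∈ V →
      f (g * s, h * t) = f (g, h) ∧ B.ρ s (f (g, h)) = f (g, h)))
    (hB : ∀ f : G × G → B, f ∈ Bd ↔ ∃ x : G → B,
      (∀ g s : G, s ∈ V → x (g * s) = x g ∧ B.ρ s (x g) = x g) ∧ (d₁₂ B).hom x = f) :
    Nonempty ((↥Z ⧸ Bd.addSubgroupOf Z) ≃+ H2 (B.quotientToInvariants V)) := by
  have hmem : ∀ c : cocycles₂ (B.quotientToInvariants V), infl₂ B V c.1 ∈ Z := fun c =>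
    (hZ _).2 ⟨(infl₂_mem_cocycles₂_iff B V c.1).2 c.2, fun g h s t hs ht =>
      infl₂_isAt B V c.1 g h s t hs ht⟩
  -- inflation of cocycles, as an additive map to `Z`
  let φ : cocycles₂ (B.quotientToInvariants V) →+ Z :=
    { toFun := fun c => ⟨infl₂ B V c.1, hmem c⟩
      map_zero' := rfl
      map_add' := fun _ _ => rfl }
  have hφ : Function.Surjective φ := by
    rintro ⟨f, hf⟩
    obtain ⟨hfc, hfat⟩ := (hZ f).1 hf
    obtain ⟨f', rfl⟩ := exists_infl₂ B V f hfat
    exact ⟨⟨f', (infl₂_mem_cocycles₂_iff B V f').1 hfc⟩, rfl⟩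
  let ψ : cocycles₂ (B.quotientToInvariants V) →+ (↥Z ⧸ Bd.addSubgroupOf Z) :=
    (QuotientAddGroup.mk' (Bd.addSubgroupOf Z)).comp φ
  have hψ : Function.Surjective ψ :=
    (QuotientAddGroup.mk'_surjective (Bd.addSubgroupOf Z)).comp hφ
  let π : cocycles₂ (B.quotientToInvariants V) →+ H2 (B.quotientToInvariants V) :=
    (H2π (B.quotientToInvariants V)).hom.toAddMonoidHom
  have hπ : Function.Surjective π :=
    (ModuleCat.epi_iff_surjective (H2π (B.quotientToInvariants V))).1 inferInstance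
  have hker : ψ.ker = π.ker := by
    ext c
    rw [AddMonoidHom.mem_ker, AddMonoidHom.mem_ker]
    have h1 : ψ c = 0 ↔ infl₂ B V c.1 ∈ Bd := by
      show (QuotientAddGroup.mk (φ c) : ↥Z ⧸ Bd.addSubgroupOf Z) = 0 ↔ _
      rw [QuotientAddGroup.eq_zero_iff, AddSubgroup.mem_addSubgroupOf]
      rfl
    have h2 : π c = 0 ↔ (c : (G ⧸ V) × (G ⧸ V) → B.quotientToInvariants V) ∈
        coboundaries₂ (B.quotientToInvariants V) := H2π_eq_zero_iff c
    rw [h1, h2, hB]
    constructor
    · rintro ⟨x, hx, hxc⟩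
      obtain ⟨x', rfl⟩ := exists_infl₁ B V x hx
      rw [d₁₂_infl] at hxc
      exact ⟨x', infl₂_injective B V hxc⟩
    · rintro ⟨x', hx'⟩
      refine ⟨infl₁ B V x', fun g s hs => infl₁_isAt B V x' g s hs, ?_⟩
      rw [d₁₂_infl]
      exact congrArg (infl₂ B V) hx'
  exact ⟨(QuotientAddGroup.quotientKerEquivOfSurjective ψ hψ).symm.trans
    ((QuotientAddGroup.quotientAddEquivOfEq hker).trans
      (QuotientAddGroup.quotientKerEquivOfSurjective π hπ))⟩

end Fermat.Agent.S55.H321

end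

end
-- ===== PACK-END S55/H321/QDict.lean

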