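import Mathlib
import Fermat.Prelude.Def_GaloisRep_Adic
import Fermat.Prelude.Def_GaloisRep_CompletionBridge
import Fermat.Prelude.Def_GroupCohomology_ContinuousH2Map
import Fermat.Agent.Pack.S43GC.G0E0L0

-- ===== PACK-BEGIN S53/Dict.lean
section



set_option autoImplicit false
set_option linter.unusedSectionVars false

open scoped TensorProduct

namespace Fermat.Agent.S53

/-- The absolute Galois group of `ℚ`. -/
abbrev GQ : Type := AlgebraicClosure ℚ ≃ₐ[ℚ] AlgebraicClosure ℚ

/-- `2 × 2` matrices. -/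
abbrev M2 (A : Type) : Type := Matrix (Fin 2) (Fin 2) A

/-- Matrices acting on column vectors, as a monoid homomorphism. -/
noncomputable def matEnd (A : Type) [CommRing A] : M2 A →* Module.End A (Fin 2 → A) :=
  (Matrix.toLinAlgEquiv' (R := A) (n := Fin 2)).toAlgHom.toRingHom.toMonoidHom

@[simp] lemma matEnd_apply {A : Type} [CommRing A] (P : M2 A) (v : Fin 2 → A) :
    matEnd A P v = P.mulVec v := rfl

lemma matEnd_injective (A : Type) [CommRing A] : Function.Injective (matEnd A) :=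
  (Matrix.toLinAlgEquiv' (R := A) (n := Fin 2)).injective

section Adic

variable {A : Type} [CommRing A] [IsLocalRing A]

/-- Adic continuity of a matrix-valued representation. -/
def MatCont (r : GQ →* M2 A) : Prop :=
  ∀ n : ℕ, ∃ L : IntermediateField ℚ (AlgebraicClosure ℚ), FiniteDimensional ℚ L ∧
    ∀ σ : GQ, (∀ x ∈ L, σ x = x) → ∀ i j, (r σ - 1) i j ∈ IsLocalRing.maximalIdeal A ^ n

lemma mem_smul_top_pi_iff (I : Ideal A) (w : Fin 2 → A) :
    w ∈ I • (⊤ : Submodule A (Fin 2 → A)) ↔ ∀ i, w i ∈ I := by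
  constructor
  · intro hw
    refine Submodule.smul_induction_on hw ?_ ?_
    · intro a ha v _ i
      simpa [smul_eq_mul] using I.mul_mem_right (v i) ha
    · intro x y hx hy i
      simpa using I.add_mem (hx i) (hy i)
  · intro hw
    have : w = ∑ i, w i • (Pi.single i (1 : A) : Fin 2 → A) := by
      ext j
      simp [Finset.sum_apply, Pi.single_apply]
    rw [this]
    exact Submodule.sum_mem _ fun i _ => Submodule.smul_mem_smul (hw i) Submodule.mem_top

/-- The adic Galois representation attached to a matrix-valued representation. -/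
noncomputable def toAdic (r : GQ →* M2 A) (hr : MatCont r) : GaloisRepAdic A where
  V := Fin 2 → A
  finrank_eq := by simp
  ρ := (matEnd A).comp r
  isAdicContinuous := by
    intro n
    obtain ⟨L, hL, h⟩ := hr n
    refine ⟨L, hL, fun σ hσ v => ?_⟩
    rw [mem_smul_top_pi_iff]
    intro i
    have : ((matEnd A).comp r) σ v - v = (r σ - 1).mulVec v := by
      simp [Matrix.sub_mulVec]
    rw [this]
    simp only [Matrix.mulVec, dotProduct]
    exact Ideal.sum_mem _ fun j _ => Ideal.mul_mem_right _ _ (h σ hσ i j)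

@[simp] lemma toAdic_ρ_apply (r : GQ →* M2 A) (hr : MatCont r) (σ : GQ) (v : Fin 2 → A) :
    (toAdic r hr).ρ σ v = (r σ).mulVec v := rfl

lemma repr_mem_of_mem_smul_top {V : Type} [AddCommGroup V] [Module A V]
    (b : Module.Basis (Fin 2) A V) (I : Ideal A) {w : V}
    (hw : w ∈ I • (⊤ : Submodule A V)) (i : Fin 2) : b.repr w i ∈ I := by
  refine Submodule.smul_induction_on hw ?_ ?_
  · intro a ha v _
    simpa [smul_eq_mul] using I.mul_mem_right (b.repr v i) ha
  · intro x y hx hy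
    simpa using I.add_mem hx hy

/-- Every adic Galois representation is equivalent to a matrix one. -/
theorem exists_toAdic (ρ : GaloisRepAdic A) :
    ∃ (r : GQ →* M2 A) (hr : MatCont r), ρ.IsEquiv (toAdic r hr) := by
  classical
  let b : Module.Basis (Fin 2) A ρ.V := Module.finBasisOfFinrankEq A ρ.V ρ.finrank_eq
  let r : GQ →* M2 A := (LinearMap.toMatrixAlgEquiv b).toAlgHom.toRingHom.toMonoidHom.comp ρ.ρ
  have hrσ : ∀ σ, r σ = LinearMap.toMatrix b b (ρ.ρ σ) := fun σ => rfl
  have hr : MatCont r := by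
    intro n
    obtain ⟨L, hL, h⟩ := ρ.isAdicContinuous n
    refine ⟨L, hL, fun σ hσ i j => ?_⟩
    have h1 : (r σ - 1) i j = b.repr (ρ.ρ σ (b j) - b j) i := by
      rw [hrσ, ← LinearMap.toMatrix_one b, ← map_sub, LinearMap.toMatrix_apply]
      rfl
    rw [h1]
    exact repr_mem_of_mem_smul_top b _ (h σ hσ (b j)) i
  refine ⟨r, hr, ⟨⟨b.equivFun, fun σ x => ?_⟩⟩⟩
  rw [toAdic_ρ_apply, hrσ]
  exact (LinearMap.toMatrix_mulVec_repr b b (ρ.ρ σ) x).symm

/-- The linear automorphism of `A²` given by an invertible matrix. -/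
noncomputable def unitEquiv (P : (M2 A)ˣ) : (Fin 2 → A) ≃ₗ[A] (Fin 2 → A) :=
  Matrix.toLin'OfInv (M := ((P⁻¹ : (M2 A)ˣ) : M2 A)) (M' := (P : M2 A)) (by simp) (by simp)

@[simp] lemma unitEquiv_apply (P : (M2 A)ˣ) (v : Fin 2 → A) :
    unitEquiv P v = (P : M2 A).mulVec v := rfl

/-- The invertible matrix of a linear automorphism of `A²`. -/
noncomputable def equivUnit (f : (Fin 2 → A) ≃ₗ[A] (Fin 2 → A)) : (M2 A)ˣ :=
  ⟨LinearMap.toMatrix' f.toLinearMap, LinearMap.toMatrix' f.symm.toLinearMap,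
    by rw [← LinearMap.toMatrix'_comp]; simp, by rw [← LinearMap.toMatrix'_comp]; simp⟩

lemma equivUnit_mulVec (f : (Fin 2 → A) ≃ₗ[A] (Fin 2 → A)) (v : Fin 2 → A) :
    ((equivUnit f : (M2 A)ˣ) : M2 A).mulVec v = f v := by
  show (LinearMap.toMatrix' f.toLinearMap).mulVec v = f v
  rw [LinearMap.toMatrix'_mulVec]; rfl

lemma mulVec_injective_M2 {P Q : M2 A} (h : ∀ v : Fin 2 → A, P.mulVec v = Q.mulVec v) : P = Q := by
  apply Matrix.toLin'.injective
  exact LinearMap.ext fun v => by simpa using h v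

/-- Equivalence of matrix representations is conjugacy. -/
theorem toAdic_isEquiv_iff (r r' : GQ →* M2 A) (hr : MatCont r) (hr' : MatCont r') :
    (toAdic r hr).IsEquiv (toAdic r' hr') ↔ ∃ P : (M2 A)ˣ, ∀ σ, (P : M2 A) * r σ = r' σ * P := by
  constructor
  · rintro ⟨e⟩
    let f : (Fin 2 → A) ≃ₗ[A] (Fin 2 → A) := e.toLinearEquiv
    have hf : ∀ σ x, f ((r σ).mulVec x) = (r' σ).mulVec (f x) := e.map_apply
    refine ⟨equivUnit f, fun σ => mulVec_injective_M2 fun v => ?_⟩
    rw [← Matrix.mulVec_mulVec, ← Matrix.mulVec_mulVec, equivUnit_mulVec, equivUnit_mulVec]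
    exact hf σ v
  · rintro ⟨P, hP⟩
    refine ⟨⟨unitEquiv P, fun σ x => ?_⟩⟩
    show (P : M2 A).mulVec ((r σ).mulVec x) = (r' σ).mulVec ((P : M2 A).mulVec x)
    rw [Matrix.mulVec_mulVec, Matrix.mulVec_mulVec, hP]

/-- Conjugating a matrix representation by a unit. -/
noncomputable def conjRep (P : (M2 A)ˣ) (r : GQ →* M2 A) : GQ →* M2 A where
  toFun σ := (P : M2 A) * r σ * ((P⁻¹ : (M2 A)ˣ) : M2 A)
  map_one' := by simp
  map_mul' σ τ := by
    rw [map_mul]
    simp only [mul_assoc]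
    congr 2
    rw [← mul_assoc (((P⁻¹ : (M2 A)ˣ) : M2 A)), Units.inv_mul, one_mul]

@[simp] lemma conjRep_apply (P : (M2 A)ˣ) (r : GQ →* M2 A) (σ : GQ) :
    conjRep P r σ = (P : M2 A) * r σ * ((P⁻¹ : (M2 A)ˣ) : M2 A) := rfl

lemma conjRep_mul_eq (P : (M2 A)ˣ) (r : GQ →* M2 A) (σ : GQ) :
    (P : M2 A) * r σ = conjRep P r σ * P := by
  simp [mul_assoc]

lemma entry_mul_mul_mem (I : Ideal A) (P X Q : M2 A) (hX : ∀ i j, X i j ∈ I) (i j : Fin 2) :
    (P * X * Q) i j ∈ I := by
  rw [Matrix.mul_apply]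
  refine Ideal.sum_mem _ fun l _ => Ideal.mul_mem_right _ _ ?_
  rw [Matrix.mul_apply]
  exact Ideal.sum_mem _ fun k _ => Ideal.mul_mem_left _ _ (hX k l)

lemma MatCont.conj {r : GQ →* M2 A} (hr : MatCont r) (P : (M2 A)ˣ) : MatCont (conjRep P r) := by
  intro n
  obtain ⟨L, hL, h⟩ := hr n
  refine ⟨L, hL, fun σ hσ i j => ?_⟩
  have h1 : conjRep P r σ - 1 = (P : M2 A) * (r σ - 1) * ((P⁻¹ : (M2 A)ˣ) : M2 A) := by
    simp [mul_sub, sub_mul]
  rw [h1]
  exact entry_mul_mul_mem _ _ _ _ (h σ hσ) i j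

lemma toAdic_conjRep_isEquiv (r : GQ →* M2 A) (hr : MatCont r) (P : (M2 A)ˣ) :
    (toAdic r hr).IsEquiv (toAdic (conjRep P r) (hr.conj P)) :=
  (toAdic_isEquiv_iff _ _ _ _).2 ⟨P, conjRep_mul_eq P r⟩

end Adic

section Map

variable {A B : Type} [CommRing A] [CommRing B]

/-- Push a matrix representation forward along a ring homomorphism. -/
noncomputable def mapRep (φ : A →+* B) (r : GQ →* M2 A) : GQ →* M2 B :=
  φ.mapMatrix.toMonoidHom.comp r

@[simp] lemma mapRep_apply (φ : A →+* B) (r : GQ →* M2 A) (σ : GQ) :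
    mapRep φ r σ = (r σ).map φ := rfl

lemma mapRep_apply_apply (φ : A →+* B) (r : GQ →* M2 A) (σ : GQ) (i j : Fin 2) :
    mapRep φ r σ i j = φ (r σ i j) := rfl

lemma mapRep_comp {C : Type} [CommRing C] (ψ : B →+* C) (φ : A →+* B) (r : GQ →* M2 A) :
    mapRep ψ (mapRep φ r) = mapRep (ψ.comp φ) r := by
  ext σ i j; rfl

lemma mapRep_id (r : GQ →* M2 A) : mapRep (RingHom.id A) r = r := by
  ext σ i j; rfl

lemma MatCont.map [IsLocalRing A] [IsLocalRing B] {r : GQ →* M2 A} (hr : MatCont r)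
    (φ : A →+* B) (hφ : IsLocalHom φ) : MatCont (mapRep φ r) := by
  intro n
  obtain ⟨L, hL, h⟩ := hr n
  refine ⟨L, hL, fun σ hσ i j => ?_⟩
  have hmap : (IsLocalRing.maximalIdeal A ^ n).map φ ≤ IsLocalRing.maximalIdeal B ^ n := by
    rw [Ideal.map_pow]
    exact Ideal.pow_right_mono (Ideal.map_le_iff_le_comap.mpr fun a ha =>
      Ideal.mem_comap.mpr (haveI := hφ; map_nonunit φ a ha)) n
  have h1 : (mapRep φ r σ - 1) i j = φ ((r σ - 1) i j) := by
    simp only [mapRep_apply, Matrix.sub_apply, Matrix.map_apply, map_sub]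
    congr 1
    by_cases hij : i = j
    · subst hij; simp
    · simp [hij]
  rw [h1]
  exact hmap (Ideal.mem_map_of_mem φ (h σ hσ i j))

/-- Compatibility of `piScalarRight` with base change of a matrix endomorphism. -/
lemma piScalarRight_baseChange [Algebra A B] (P : M2 A) (x : B ⊗[A] (Fin 2 → A)) :
    TensorProduct.piScalarRight A B B (Fin 2) ((matEnd A P).baseChange B x) =
      (P.map (algebraMap A B)).mulVec (TensorProduct.piScalarRight A B B (Fin 2) x) := by
  induction x using TensorProduct.induction_on with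
  | zero => simp
  | tmul b v =>
    rw [LinearMap.baseChange_tmul]
    ext i
    simp only [TensorProduct.piScalarRight_apply, TensorProduct.piScalarRightHom_tmul,
      matEnd_apply, Matrix.mulVec, dotProduct, Matrix.map_apply, Algebra.smul_def, map_sum,
      map_mul, Finset.sum_mul, mul_assoc]
  | add x y hx hy => simp only [map_add, hx, hy, Matrix.mulVec_add]

theorem baseChangeAlong_toAdic [IsLocalRing A] [IsLocalRing B] (φ : A →+* B) (hφ : IsLocalHom φ)
    (r : GQ →* M2 A) (hr : MatCont r) :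
    ((toAdic r hr).baseChangeAlong φ hφ).IsEquiv (toAdic (mapRep φ r) (hr.map φ hφ)) := by
  let _ : Algebra A B := φ.toAlgebra
  let e : B ⊗[A] (Fin 2 → A) ≃ₗ[B] (Fin 2 → B) := TensorProduct.piScalarRight A B B (Fin 2)
  refine ⟨⟨e, fun σ x => ?_⟩⟩
  exact piScalarRight_baseChange (r σ) x

end Map

section Res

variable {k : Type} [Field k]

/-- The residual Galois representation attached to a matrix-valued representation. -/
noncomputable def toRes (rb : GQ →* M2 k) (h : GaloisFactorsThroughFiniteLevel rb) :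
    ResidualGaloisRep k where
  V := Fin 2 → k
  finrank_eq := by simp
  ρ := (matEnd k).comp rb
  factorsThroughFiniteLevel := by
    obtain ⟨L, hL, h1⟩ := h
    exact ⟨L, hL, fun σ hσ => by rw [MonoidHom.comp_apply, h1 σ hσ, map_one]⟩

@[simp] lemma toRes_ρ_apply (rb : GQ →* M2 k) (h : GaloisFactorsThroughFiniteLevel rb) (σ : GQ)
    (v : Fin 2 → k) : (toRes rb h).ρ σ v = (rb σ).mulVec v := rfl

/-- Every residual Galois representation is equivalent to a matrix one. -/
theorem exists_toRes (ρ : ResidualGaloisRep k) :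
    ∃ (rb : GQ →* M2 k) (h : GaloisFactorsThroughFiniteLevel rb), ρ.IsEquiv (toRes rb h) := by
  classical
  let b : Module.Basis (Fin 2) k ρ.V := Module.finBasisOfFinrankEq k ρ.V ρ.finrank_eq
  let r : GQ →* M2 k := (LinearMap.toMatrixAlgEquiv b).toAlgHom.toRingHom.toMonoidHom.comp ρ.ρ
  have hrσ : ∀ σ, r σ = LinearMap.toMatrix b b (ρ.ρ σ) := fun σ => rfl
  have hr : GaloisFactorsThroughFiniteLevel r := by
    obtain ⟨L, hL, h⟩ := ρ.factorsThroughFiniteLevel
    exact ⟨L, hL, fun σ hσ => by rw [MonoidHom.comp_apply, h σ hσ, map_one]⟩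
  refine ⟨r, hr, ⟨⟨b.equivFun, fun σ x => ?_⟩⟩⟩
  rw [toRes_ρ_apply, hrσ]
  exact (LinearMap.toMatrix_mulVec_repr b b (ρ.ρ σ) x).symm

/-- Equivalence of residual matrix representations is conjugacy. -/
theorem toRes_isEquiv_iff (r r' : GQ →* M2 k) (hr : GaloisFactorsThroughFiniteLevel r)
    (hr' : GaloisFactorsThroughFiniteLevel r') :
    (toRes r hr).IsEquiv (toRes r' hr') ↔ ∃ P : (M2 k)ˣ, ∀ σ, (P : M2 k) * r σ = r' σ * P := by
  constructor
  · rintro ⟨e⟩
    let f : (Fin 2 → k) ≃ₗ[k] (Fin 2 → k) := e.toLinearEquiv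
    have hf : ∀ σ x, f ((r σ).mulVec x) = (r' σ).mulVec (f x) := e.map_apply
    refine ⟨equivUnit f, fun σ => mulVec_injective_M2 fun v => ?_⟩
    rw [← Matrix.mulVec_mulVec, ← Matrix.mulVec_mulVec, equivUnit_mulVec, equivUnit_mulVec]
    exact hf σ v
  · rintro ⟨P, hP⟩
    refine ⟨⟨unitEquiv P, fun σ x => ?_⟩⟩
    show (P : M2 k).mulVec ((r σ).mulVec x) = (r' σ).mulVec ((P : M2 k).mulVec x)
    rw [Matrix.mulVec_mulVec, Matrix.mulVec_mulVec, hP]

lemma factors_mapRep {k' : Type} [Field k'] (ψ : k →+* k') {rb : GQ →* M2 k}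
    (h : GaloisFactorsThroughFiniteLevel rb) : GaloisFactorsThroughFiniteLevel (mapRep ψ rb) := by
  obtain ⟨L, hL, h1⟩ := h
  refine ⟨L, hL, fun σ hσ => ?_⟩
  show ψ.mapMatrix (rb σ) = 1
  rw [h1 σ hσ, map_one]

theorem baseChangeAlong_toRes {k' : Type} [Field k'] (ψ : k →+* k') (rb : GQ →* M2 k)
    (h : GaloisFactorsThroughFiniteLevel rb) :
    ((toRes rb h).baseChangeAlong ψ).IsEquiv (toRes (mapRep ψ rb) (factors_mapRep ψ h)) := by
  let _ : Algebra k k' := ψ.toAlgebra
  let e : k' ⊗[k] (Fin 2 → k) ≃ₗ[k'] (Fin 2 → k') := TensorProduct.piScalarRight k k' k' (Fin 2)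
  refine ⟨⟨e, fun σ x => ?_⟩⟩
  exact piScalarRight_baseChange (rb σ) x

end Res

section Residual

variable {A : Type} [CommRing A] [IsLocalRing A]

lemma MatCont.factors_residue {r : GQ →* M2 A} (hr : MatCont r) :
    GaloisFactorsThroughFiniteLevel (mapRep (IsLocalRing.residue A) r) := by
  obtain ⟨L, hL, h⟩ := hr 1
  refine ⟨L, hL, fun σ hσ => ?_⟩
  ext i j
  have h1 := h σ hσ i j
  rw [pow_one, ← IsLocalRing.residue_eq_zero_iff, Matrix.sub_apply, map_sub, sub_eq_zero] at h1
  rw [mapRep_apply, Matrix.map_apply, h1]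
  by_cases hij : i = j
  · subst hij; simp
  · simp [hij]

theorem residual_toAdic (r : GQ →* M2 A) (hr : MatCont r) :
    (toAdic r hr).residual.IsEquiv
      (toRes (mapRep (IsLocalRing.residue A) r) hr.factors_residue) := by
  let e : IsLocalRing.ResidueField A ⊗[A] (Fin 2 → A) ≃ₗ[IsLocalRing.ResidueField A]
      (Fin 2 → IsLocalRing.ResidueField A) :=
    TensorProduct.piScalarRight A (IsLocalRing.ResidueField A) (IsLocalRing.ResidueField A) (Fin 2)
  refine ⟨⟨e, fun σ x => ?_⟩⟩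
  exact piScalarRight_baseChange (r σ) x

end Residual

section Lift

open IsLocalRing

variable {A : Type} [CommRing A] [IsLocalRing A]

/-- Every invertible matrix over the residue field lifts to an invertible matrix. -/
theorem exists_unit_lift (Pb : (M2 (ResidueField A))ˣ) :
    ∃ P : (M2 A)ˣ, (P : M2 A).map (residue A) = (Pb : M2 (ResidueField A)) := by
  classical
  choose f hf using fun (ij : Fin 2 × Fin 2) =>
    residue_surjective ((Pb : M2 (ResidueField A)) ij.1 ij.2)
  let P : M2 A := Matrix.of fun i j => f (i, j)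
  have hP : P.map (residue A) = (Pb : M2 (ResidueField A)) := by
    ext i j
    simp [P, hf]
  have hdet : IsUnit P.det := by
    rw [← residue_ne_zero_iff_isUnit]
    have h1 : residue A P.det = (Pb : M2 (ResidueField A)).det := by
      rw [RingHom.map_det, RingHom.mapMatrix_apply, hP]
    rw [h1]
    exact ((Matrix.isUnit_iff_isUnit_det _).1 Pb.isUnit).ne_zero
  obtain ⟨u, hu⟩ := (Matrix.isUnit_iff_isUnit_det P).2 hdet
  exact ⟨u, by rw [hu]; exact hP⟩

lemma map_unit_inv {B : Type} [CommRing B] (φ : A →+* B) (P : (M2 A)ˣ) :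
    (((P⁻¹ : (M2 A)ˣ) : M2 A)).map φ = ((Units.map φ.mapMatrix.toMonoidHom P)⁻¹ : (M2 B)ˣ) := by
  rw [← map_inv]
  rfl

variable {𝒪 : Type} [CommRing 𝒪] [IsLocalRing 𝒪] [Algebra 𝒪 A] [IsLocalHom (algebraMap 𝒪 A)]

/-- A matrix representation lifting `rb` has residual representation `ρbar`. -/
theorem residual_isEquiv_of_lift (ρbar : ResidualGaloisRep (ResidueField 𝒪))
    (rb : GQ →* M2 (ResidueField 𝒪)) (hrb : GaloisFactorsThroughFiniteLevel rb)
    (hρbar : ρbar.IsEquiv (toRes rb hrb)) (r : GQ →* M2 A) (hr : MatCont r)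
    (hlift : ∀ σ, (r σ).map (residue A) = (rb σ).map (ResidueField.map (algebraMap 𝒪 A))) :
    (toAdic r hr).residual.IsEquiv
      (ρbar.baseChangeAlong (ResidueField.map (algebraMap 𝒪 A))) := by
  obtain ⟨e1⟩ := residual_toAdic r hr
  obtain ⟨e2⟩ := baseChangeAlong_toRes (ResidueField.map (algebraMap 𝒪 A)) rb hrb
  obtain ⟨e3⟩ := hρbar
  have e4 : (toRes (mapRep (residue A) r) hr.factors_residue).IsEquiv
      (toRes (mapRep (ResidueField.map (algebraMap 𝒪 A)) rb)
        (factors_mapRep (ResidueField.map (algebraMap 𝒪 A)) hrb)) := by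
    rw [toRes_isEquiv_iff]
    exact ⟨1, fun σ => by simp [hlift σ]⟩
  obtain ⟨e4⟩ := e4
  exact ⟨(e1.trans e4).trans
    ((e3.baseChangeAlong (ResidueField.map (algebraMap 𝒪 A))).trans e2).symm⟩

/-- Every deformation of `ρbar ≅ toRes rb` is equivalent to a matrix representation
lifting `rb` on the nose. -/
theorem exists_lift_of_residual_isEquiv (ρbar : ResidualGaloisRep (ResidueField 𝒪))
    (rb : GQ →* M2 (ResidueField 𝒪)) (hrb : GaloisFactorsThroughFiniteLevel rb)
    (hρbar : ρbar.IsEquiv (toRes rb hrb)) (ρA : GaloisRepAdic A)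
    (hres : ρA.residual.IsEquiv (ρbar.baseChangeAlong (ResidueField.map (algebraMap 𝒪 A)))) :
    ∃ (r : GQ →* M2 A) (hr : MatCont r),
      (∀ σ, (r σ).map (residue A) = (rb σ).map (ResidueField.map (algebraMap 𝒪 A))) ∧
      ρA.IsEquiv (toAdic r hr) := by
  obtain ⟨r0, hr0, ⟨e0⟩⟩ := exists_toAdic ρA
  obtain ⟨e1⟩ := residual_toAdic r0 hr0
  obtain ⟨e2⟩ := baseChangeAlong_toRes (ResidueField.map (algebraMap 𝒪 A)) rb hrb
  obtain ⟨e3⟩ := hρbar
  obtain ⟨e4⟩ := hres
  have e5 : (toRes (mapRep (residue A) r0) hr0.factors_residue).IsEquiv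
      (toRes (mapRep (ResidueField.map (algebraMap 𝒪 A)) rb)
        (factors_mapRep (ResidueField.map (algebraMap 𝒪 A)) hrb)) :=
    ⟨(e1.symm.trans (e0.residual.symm.trans e4)).trans
      ((e3.baseChangeAlong (ResidueField.map (algebraMap 𝒪 A))).trans e2)⟩
  rw [toRes_isEquiv_iff] at e5
  obtain ⟨Pb, hPb⟩ := e5
  obtain ⟨P, hP⟩ := exists_unit_lift Pb
  obtain ⟨e6⟩ := toAdic_conjRep_isEquiv r0 hr0 P
  refine ⟨conjRep P r0, hr0.conj P, fun σ => ?_, ⟨e0.trans e6⟩⟩
  have h1 : (conjRep P r0 σ).map (residue A) =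
      (P : M2 A).map (residue A) * (r0 σ).map (residue A) *
        (((P⁻¹ : (M2 A)ˣ) : M2 A)).map (residue A) := by
    rw [conjRep_apply, Matrix.map_mul, Matrix.map_mul]
  have h2 : (P : M2 A).map (residue A) * (((P⁻¹ : (M2 A)ˣ) : M2 A)).map (residue A) = 1 := by
    rw [← Matrix.map_mul, Units.mul_inv]
    exact (residue A).mapMatrix.map_one
  have h3 := hPb σ
  rw [mapRep_apply, mapRep_apply, ← hP] at h3
  rw [h1, h3, mul_assoc, h2, mul_one]

end Lift

end Fermat.Agent.S53

end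
-- ===== PACK-END S53/Dict.lean

-- ===== PACK-BEGIN S55/KL/Defs.lean
section


/-!
# S55, layer KL / KB ("Kummer bridge"): definitions                       (architect: helper183)

Purpose of the layer: translate the FINITE-LEVEL class field theory of layers L (local), G (global)
and T (finite-group toolkit) into the statements on level-constant cohomology that the duality
engine (layer D, `coord/S55-D.md` of helper835) consumes: A2 (finiteness of `H¹`),
A4 / A3 (`H²` is right exact, i.e. `cd_p ≤ 2`), A5 / A6 (`H²(μ_p)` is one-dimensional).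

Everything in this file is ABSTRACT and elementary:

* `Γ` is any group (think `Gal(ℚ̄_q/K)`, `K/ℚ_q` finite, or `G_S(K)`),
* a *level* is a normal subgroup `W` of finite index of `Γ` (think `G_E`, `E/K` finite Galois),
* `B : Rep k Γ` is a `Γ`-module (think `ℚ̄_qˣ` with `k = ℤ`, or a finite `𝔽_p[Γ]`-module);
  all definitions are GENERIC in `k` (this avoids the `Module ℤ` instance diamond),
* `HL B W n = Hⁿ(Γ ⧸ W, B^W)` is the finite-level cohomology (Mathlib `groupCohomology`),
* `HLmap f hf φ n : HL B W n ⟶ HL B' W' n` is the functoriality for `f : Γ' →* Γ` with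
  `f(W') ≤ W` and an equivariant `φ : B → B'`; special cases: inflation `infl` (`f = id`,
  `W' ≤ W`), restriction `rest` to a subgroup `U` (levels `W.subgroupOf U`), push-forward `push`.

No `sorry`, Mathlib only.
-/

set_option autoImplicit false
set_option linter.style.haveILetI false

open CategoryTheory groupCohomology

namespace Fermat.Agent.S55.KL

variable {k : Type} [CommRing k] {Γ Γ' : Type} [Group Γ] [Group Γ']

/-! ## Finite-level cohomology and its functoriality -/

/-- The finite-level cohomology `Hⁿ(Γ ⧸ W, B^W)`. -/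
noncomputable abbrev HL (B : Rep.{0} k Γ) (W : Subgroup Γ) [W.Normal] (n : ℕ) : ModuleCat.{0} k :=
  groupCohomology (B.quotientToInvariants W) n

/-- An equivariant map `φ : B → B'` along `f : Γ' → Γ` maps `B^W` to `B'^{W'}` if `f(W') ≤ W`. -/
def invMapLin {B : Rep.{0} k Γ} {B' : Rep.{0} k Γ'} (f : Γ' →* Γ) {W : Subgroup Γ}
    {W' : Subgroup Γ'} (hf : W' ≤ W.comap f) (φ : Rep.res f B ⟶ B') :
    ↥(Representation.invariants (B.ρ.comp W.subtype)) →ₗ[k]
      ↥(Representation.invariants (B'.ρ.comp W'.subtype)) where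
  toFun b := ⟨φ.hom b.1, fun w => by
    have h1 : B.ρ (f w.1) b.1 = b.1 := b.2 ⟨f w.1, hf w.2⟩
    have h2 := Rep.hom_comm_apply φ w.1 b.1
    show B'.ρ w.1 (φ.hom b.1) = φ.hom b.1
    rw [← h2]
    exact congrArg φ.hom h1⟩
  map_add' _ _ := Subtype.ext (map_add _ _ _)
  map_smul' _ _ := Subtype.ext (map_smul _ _ _)

@[simp] lemma invMapLin_coe {B : Rep.{0} k Γ} {B' : Rep.{0} k Γ'} (f : Γ' →* Γ)
    {W : Subgroup Γ} {W' : Subgroup Γ'} (hf : W' ≤ W.comap f) (φ : Rep.res f B ⟶ B')
    (b : ↥(Representation.invariants (B.ρ.comp W.subtype))) :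
    ((invMapLin f hf φ b : _) : B'.V) = φ.hom b.1 := rfl

/-- The map `B^W → B'^{W'}` as a morphism of representations of `Γ' ⧸ W'`. -/
noncomputable def invMap {B : Rep.{0} k Γ} {B' : Rep.{0} k Γ'} (f : Γ' →* Γ) {W : Subgroup Γ}
    [W.Normal] {W' : Subgroup Γ'} [W'.Normal] (hf : W' ≤ W.comap f) (φ : Rep.res f B ⟶ B') :
    Rep.res (QuotientGroup.map W' W f hf) (B.quotientToInvariants W) ⟶
      B'.quotientToInvariants W' :=
  Rep.ofHom ⟨invMapLin f hf φ, fun g => by
    induction g using QuotientGroup.induction_on with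
    | H g =>
      ext b
      exact Rep.hom_comm_apply φ g b.1⟩

/-- **Functoriality of finite-level cohomology.** -/
noncomputable def HLmap {B : Rep.{0} k Γ} {B' : Rep.{0} k Γ'} (f : Γ' →* Γ) {W : Subgroup Γ}
    [W.Normal] {W' : Subgroup Γ'} [W'.Normal] (hf : W' ≤ W.comap f) (φ : Rep.res f B ⟶ B')
    (n : ℕ) : HL B W n ⟶ HL B' W' n :=
  groupCohomology.map (QuotientGroup.map W' W f hf) (invMap f hf φ) n


/-- **Inflation** `Hⁿ(Γ ⧸ W, B^W) ⟶ Hⁿ(Γ ⧸ W', B^{W'})` for `W' ≤ W`. -/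
noncomputable abbrev infl (B : Rep.{0} k Γ) {W' W : Subgroup Γ} [W'.Normal] [W.Normal]
    (h : W' ≤ W) (n : ℕ) : HL B W n ⟶ HL B W' n :=
  HLmap (MonoidHom.id Γ) (W := W) (W' := W') (by simpa using h) (𝟙 B) n

/-- **Push-forward** along a morphism of representations. -/
noncomputable abbrev push {B B' : Rep.{0} k Γ} (φ : B ⟶ B') (W : Subgroup Γ) [W.Normal] (n : ℕ) :
    HL B W n ⟶ HL B' W n :=
  HLmap (MonoidHom.id Γ) (W := W) (W' := W) (by simp) φ n

/-- **Restriction** to a subgroup `U ≤ Γ`: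
`Hⁿ(Γ ⧸ W, B^W) ⟶ Hⁿ(U ⧸ (W ∩ U), B^{W ∩ U})`. -/
noncomputable abbrev rest (B : Rep.{0} k Γ) (U W : Subgroup Γ) [W.Normal] (n : ℕ) :
    HL B W n ⟶ HL (Rep.res U.subtype B) (W.subgroupOf U) n :=
  HLmap U.subtype (W := W) (W' := W.subgroupOf U) le_rfl (𝟙 (Rep.res U.subtype B)) n

/-! ## Level systems -/

/-- A nonempty directed family of normal subgroups of finite index of `Γ` ("levels"). -/
structure NLevels (Γ : Type) [Group Γ] where
  /-- the levels -/
  carrier : Set (Subgroup Γ)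
  normal : ∀ W ∈ carrier, W.Normal
  finiteIndex : ∀ W ∈ carrier, W.FiniteIndex
  nonempty : carrier.Nonempty
  directed : ∀ W ∈ carrier, ∀ W' ∈ carrier, ∃ X ∈ carrier, X ≤ W ⊓ W'

namespace NLevels

/-- A level, bundled (so that `Normal` is found by instance resolution). -/
structure Lvl (N : NLevels Γ) where
  /-- the underlying normal subgroup -/
  W : Subgroup Γ
  mem : W ∈ N.carrier

instance (N : NLevels Γ) (V : N.Lvl) : V.W.Normal := N.normal V.W V.mem

instance (N : NLevels Γ) (V : N.Lvl) : V.W.FiniteIndex := N.finiteIndex V.W V.mem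

instance (N : NLevels Γ) : Nonempty N.Lvl :=
  let ⟨W, hW⟩ := N.nonempty
  ⟨⟨W, hW⟩⟩

lemma exists_le (N : NLevels Γ) (V V' : N.Lvl) : ∃ X : N.Lvl, X.W ≤ V.W ∧ X.W ≤ V'.W := by
  obtain ⟨X, hX, hle⟩ := N.directed V.W V.mem V'.W V'.mem
  exact ⟨⟨X, hX⟩, (le_inf_iff.1 hle).1, (le_inf_iff.1 hle).2⟩

/-- `U` is open: it contains a level. -/
def IsOpen (N : NLevels Γ) (U : Subgroup Γ) : Prop := ∃ W ∈ N.carrier, W ≤ U

/-- The induced level system on a subgroup `U` (levels `W ∩ U`). -/
def restrict (N : NLevels Γ) (U : Subgroup Γ) : NLevels ↥U where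
  carrier := {X | ∃ W ∈ N.carrier, X = W.subgroupOf U}
  normal := by
    rintro X ⟨W, hW, rfl⟩
    haveI := N.normal W hW
    infer_instance
  finiteIndex := by
    rintro X ⟨W, hW, rfl⟩
    haveI := N.finiteIndex W hW
    infer_instance
  nonempty := by
    obtain ⟨W, hW⟩ := N.nonempty
    exact ⟨_, W, hW, rfl⟩
  directed := by
    rintro X ⟨W, hW, rfl⟩ X' ⟨W', hW', rfl⟩
    obtain ⟨Y, hY, hle⟩ := N.directed W hW W' hW'
    refine ⟨_, ⟨Y, hY, rfl⟩, ?_⟩
    intro u hu
    have hu' : (u : Γ) ∈ Y := Subgroup.mem_subgroupOf.1 hu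
    exact ⟨Subgroup.mem_subgroupOf.2 ((le_inf_iff.1 hle).1 hu'),
      Subgroup.mem_subgroupOf.2 ((le_inf_iff.1 hle).2 hu')⟩

/-- The level of `N.restrict U` induced by a level of `N`. -/
def Lvl.restrict {N : NLevels Γ} (V : N.Lvl) (U : Subgroup Γ) : (N.restrict U).Lvl :=
  ⟨V.W.subgroupOf U, V.W, V.mem, rfl⟩

end NLevels

/-! ## Smoothness, torsion, effaceability -/

/-- `B` is smooth: every element is fixed by some level. -/
def IsSmooth (N : NLevels Γ) (B : Rep.{0} k Γ) : Prop :=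
  ∀ b : B.V, ∃ W ∈ N.carrier, ∀ w ∈ W, B.ρ w b = b

/-- `B` is `p`-divisible. -/
def IsDivisibleBy (B : Rep.{0} k Γ) (p : ℕ) : Prop := ∀ b : B.V, ∃ c : B.V, p • c = b

/-- The `p`-torsion of `B`, as a submodule. -/
def torsSub (B : Rep.{0} k Γ) (p : ℕ) : Submodule k B.V where
  carrier := {b | p • b = 0}
  add_mem' {a b} ha hb := by
    show p • (a + b) = 0
    rw [smul_add, show p • a = 0 from ha, show p • b = 0 from hb, add_zero]
  zero_mem' := smul_zero p
  smul_mem' c b hb := by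
    show p • (c • b) = 0
    rw [smul_comm, show p • b = 0 from hb, smul_zero]

lemma mem_torsSub {B : Rep.{0} k Γ} {p : ℕ} {b : B.V} : b ∈ torsSub B p ↔ p • b = 0 := Iff.rfl

/-- The `p`-torsion subrepresentation `B[p]` (think `μ_p`). -/
noncomputable def tors (B : Rep.{0} k Γ) (p : ℕ) : Rep.{0} k Γ :=
  Rep.of (B.ρ.subrepresentation (torsSub B p) (fun g b hb => by
    show p • (B.ρ g b) = 0
    rw [← map_nsmul, show p • b = 0 from hb, map_zero]))

/-- The inclusion `B[p] ⟶ B`. -/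
noncomputable def torsIncl (B : Rep.{0} k Γ) (p : ℕ) : tors B p ⟶ B :=
  Rep.ofHom ⟨(torsSub B p).subtype, fun _ => rfl⟩

/-- The class `y ∈ Hⁿ(Γ ⧸ V, B^V)` is *effaceable*: it dies after inflation to a smaller level. -/
def IsEff (N : NLevels Γ) (B : Rep.{0} k Γ) (n : ℕ) (V : N.Lvl) (y : HL B V.W n) : Prop :=
  ∃ (V' : N.Lvl) (h : V'.W ≤ V.W), (infl B h n).hom y = 0

/-- `colim_V Hⁿ(Γ ⧸ V, B^V) = 0`. -/
def EffAll (N : NLevels Γ) (B : Rep.{0} k Γ) (n : ℕ) : Prop :=
  ∀ (V : N.Lvl) (y : HL B V.W n), IsEff N B n V y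

/-- `colim_V Hⁿ(Γ ⧸ V, B^V)[p] = 0` (elementwise form). -/
def EffTors (N : NLevels Γ) (B : Rep.{0} k Γ) (p n : ℕ) : Prop :=
  ∀ (V : N.Lvl) (y : HL B V.W n), p • y = 0 → IsEff N B n V y

/-- `colim_V Hⁿ(Γ ⧸ V, B^V) ⊗ ℤ/p = 0`: every class becomes divisible by `p` at a smaller level. -/
def EffDiv (N : NLevels Γ) (B : Rep.{0} k Γ) (p n : ℕ) : Prop :=
  ∀ (V : N.Lvl) (x : HL B V.W n),
    ∃ (V' : N.Lvl) (h : V'.W ≤ V.W) (w : HL B V'.W n), (infl B h n).hom x = p • w

/-- `cd_p ≤ 2` in finite-level form: for every finite smooth `p`-torsion module `R`,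
`colim_V H³(Γ ⧸ V, R^V) = 0`. -/
def CdLeTwo (N : NLevels Γ) (k : Type) [CommRing k] (p : ℕ) : Prop :=
  ∀ R : Rep.{0} k Γ, Finite R.V → (∀ r : R.V, p • r = 0) → IsSmooth N R → EffAll N R 3


/-! ## Level-constant cochains (elementwise vocabulary for the adapters to layer D) -/

/-- `f : Γ → X` is level-constant: it factors through `Γ ⧸ W` for some level `W`. -/
def IsLC₁ (N : NLevels Γ) {X : Type*} (f : Γ → X) : Prop :=
  ∃ W ∈ N.carrier, ∀ g s : Γ, s ∈ W → f (g * s) = f g

/-- `f : Γ × Γ → X` is level-constant. -/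
def IsLC₂ (N : NLevels Γ) {X : Type*} (f : Γ × Γ → X) : Prop :=
  ∃ W ∈ N.carrier, ∀ g g' s s' : Γ, s ∈ W → s' ∈ W → f (g * s, g' * s') = f (g, g')

/-- The level `W` acts trivially on `B`. -/
def ActsTrivially (W : Subgroup Γ) (B : Rep.{0} k Γ) : Prop := ∀ w ∈ W, ∀ b : B.V, B.ρ w b = b

/-! ## The level system of a Galois extension -/

section Galois

variable (K Ω : Type) [Field K] [Field Ω] [Algebra K Ω] [IsGalois K Ω]

/-- The levels of `Gal(Ω/K)`: the subgroups `Gal(Ω/E)`, `E/K` finite Galois. -/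
def galLevels : NLevels (Ω ≃ₐ[K] Ω) where
  carrier := {W | ∃ E : FiniteGaloisIntermediateField K Ω, W = E.toIntermediateField.fixingSubgroup}
  normal := by
    rintro W ⟨E, rfl⟩
    rw [← IntermediateField.restrictNormalHom_ker]
    infer_instance
  finiteIndex := by
    rintro W ⟨E, rfl⟩
    refine ⟨?_⟩
    rw [← IntermediateField.finrank_eq_fixingSubgroup_index]
    exact Module.finrank_pos.ne'
  nonempty := ⟨_, ⊥, rfl⟩
  directed := by
    rintro W ⟨E, rfl⟩ W' ⟨E', rfl⟩
    refine ⟨_, ⟨E ⊔ E', rfl⟩, ?_⟩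
    show (E.toIntermediateField ⊔ E'.toIntermediateField).fixingSubgroup ≤ _
    rw [IntermediateField.fixingSubgroup_sup]

/-- The level `Gal(Ω/E)` attached to a finite Galois subextension `E`. -/
def galLvl (E : FiniteGaloisIntermediateField K Ω) : (galLevels K Ω).Lvl :=
  ⟨E.toIntermediateField.fixingSubgroup, E, rfl⟩

end Galois

end Fermat.Agent.S55.KL

end
-- ===== PACK-END S55/KL/Defs.lean

-- ===== PACK-BEGIN S55/H572/TateLow.lean
section


/-!
# Tate cohomology in degrees `0` and `-1`: concrete exactness criteria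

For a finite group `G` and `M : Rep R G` (Mathlib's `tateComplex`):

* `exactAt_zero_iff`    : `Ĥ⁰(G, M) = 0` iff every invariant is a norm;
* `exactAt_neg_one_iff` : `Ĥ⁻¹(G, M) = 0` iff every element of norm `0` lies in the image of
  `d₁₀` (i.e. in `I_G M`).
-/

set_option autoImplicit false

open CategoryTheory groupCohomology groupHomology Rep Limits

universe u

namespace Fermat.Agent.S55.H572

variable {R G : Type u} [CommRing R] [Group G] [Fintype G]

noncomputable section

/-- The concrete short complex `M --N--> M --d₀₁--> (G → M)`. -/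
abbrev scZero (M : Rep.{u} R G) : ShortComplex (ModuleCat.{u} R) :=
  ShortComplex.mk M.norm.toModuleCatHom (d₀₁ M) (Rep.norm_comp_d_eq_zero M)

/-- The concrete short complex `(G →₀ M) --d₁₀--> M --N--> M`. -/
abbrev scNegOne (M : Rep.{u} R G) : ShortComplex (ModuleCat.{u} R) :=
  ShortComplex.mk (d₁₀ M) M.norm.toModuleCatHom (Rep.comp_eq_zero M)

/-- The Tate complex around degree `0` is the concrete complex `scZero`. -/
def scZeroIso (M : Rep.{u} R G) : (tateComplex M).sc' (-1) 0 1 ≅ scZero M :=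
  ShortComplex.isoMk (chainsIso₀ M) (cochainsIso₀ M) (cochainsIso₁ M)
    (by
      change (chainsIso₀ M).hom ≫ M.norm.toModuleCatHom = M.tateNorm ≫ (cochainsIso₀ M).hom
      simp [Rep.tateNorm])
    (by
      change (cochainsIso₀ M).hom ≫ d₀₁ M = (inhomogeneousCochains M).d 0 1 ≫ (cochainsIso₁ M).hom
      exact comp_d₀₁_eq M)

/-- The Tate complex around degree `-1` is the concrete complex `scNegOne`. -/
def scNegOneIso (M : Rep.{u} R G) : (tateComplex M).sc' (-2) (-1) 0 ≅ scNegOne M :=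
  ShortComplex.isoMk (chainsIso₁ M) (chainsIso₀ M) (cochainsIso₀ M)
    (by
      change (chainsIso₁ M).hom ≫ d₁₀ M = (inhomogeneousChains M).d 1 0 ≫ (chainsIso₀ M).hom
      exact comp_d₁₀_eq M)
    (by
      change (chainsIso₀ M).hom ≫ M.norm.toModuleCatHom = M.tateNorm ≫ (cochainsIso₀ M).hom
      simp [Rep.tateNorm])

/-- `Ĥ⁰(G, M) = 0` iff every invariant element is a norm. -/
theorem exactAt_zero_iff (M : Rep.{u} R G) :
    (tateComplex M).ExactAt 0 ↔
      ∀ x : M, (∀ g : G, M.ρ g x = x) → ∃ y : M, M.ρ.norm y = x := by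
  rw [HomologicalComplex.exactAt_iff' _ (-1) 0 1 (by simp) (by simp),
    ShortComplex.exact_iff_of_iso (scZeroIso M), ShortComplex.moduleCat_exact_iff]
  constructor
  · intro h x hx
    refine h x ?_
    change (d₀₁ M).hom x = 0
    funext g
    rw [d₀₁_hom_apply, hx g, sub_self]
    rfl
  · intro h x hx
    refine h x fun g => ?_
    have hx' : (d₀₁ M).hom x = 0 := hx
    have := congrFun hx' g
    rw [d₀₁_hom_apply] at this
    exact sub_eq_zero.mp this

/-- `Ĥ⁻¹(G, M) = 0` iff every element of norm zero is in the image of `d₁₀`. -/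
theorem exactAt_neg_one_iff (M : Rep.{u} R G) :
    (tateComplex M).ExactAt (-1) ↔
      ∀ x : M, M.ρ.norm x = 0 → ∃ z : G →₀ M, (d₁₀ M).hom z = x := by
  rw [HomologicalComplex.exactAt_iff' _ (-2) (-1) 0 (by simp) (by simp),
    ShortComplex.exact_iff_of_iso (scNegOneIso M), ShortComplex.moduleCat_exact_iff]
  rfl

theorem isZero_tateCohomology_zero_iff (M : Rep.{u} R G) :
    IsZero (tateCohomology M 0) ↔
      ∀ x : M, (∀ g : G, M.ρ g x = x) → ∃ y : M, M.ρ.norm y = x := by
  rw [← exactAt_zero_iff, HomologicalComplex.exactAt_iff_isZero_homology]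
  rfl

theorem isZero_tateCohomology_neg_one_iff (M : Rep.{u} R G) :
    IsZero (tateCohomology M (-1)) ↔
      ∀ x : M, M.ρ.norm x = 0 → ∃ z : G →₀ M, (d₁₀ M).hom z = x := by
  rw [← exactAt_neg_one_iff, HomologicalComplex.exactAt_iff_isZero_homology]
  rfl

end

end Fermat.Agent.S55.H572

end
-- ===== PACK-END S55/H572/TateLow.lean

-- ===== PACK-BEGIN S55/L/H661/NormHensel.lean
section


/-!
# Hensel-type lifting for the norm of a finite free algebra  (S55, layer L, leaf UNR)

`A` a commutative ring, `B` a finite free `A`-algebra, `I` an ideal of `A` with `A` being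
`I`-adically complete.  If some element of `B` has trace `1`, then every unit `u` of `A` which
is a norm modulo `I` is a norm.

Main results (all Mathlib-only):

* `norm_sub_norm_mem` : `x - y ∈ J B → N x - N y ∈ J`.
* `norm_one_add_smul` : `N (1 + a • x) = 1 + a * Tr x + c * a ^ 2`.
* `isPrecomplete_of_basis` : a finite free module over an `I`-precomplete ring is precomplete.
* `exists_norm_eq_of_trace_eq_one` : the lifting statement.
-/

namespace Fermat.Agent.S55.L.H661

open Module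

section Coordinates

variable {A M : Type*} [CommRing A] [AddCommGroup M] [Module A M]
variable {ι : Type*}

/-- Coordinates of an element of `J • ⊤` lie in `J`. -/
theorem repr_mem_of_mem_smul_top (b : Basis ι A M) (J : Ideal A) {x : M}
    (hx : x ∈ (J • ⊤ : Submodule A M)) (i : ι) : b.repr x i ∈ J := by
  induction hx using Submodule.smul_induction_on' with
  | smul r hr m _ =>
    rw [map_smul, Finsupp.smul_apply, smul_eq_mul]
    exact J.mul_mem_right _ hr
  | add x _ y _ hx hy =>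
    rw [map_add, Finsupp.add_apply]
    exact J.add_mem hx hy

/-- An element all of whose coordinates lie in `J` is in `J • ⊤`. -/
theorem mem_smul_top_of_repr_mem [Fintype ι] (b : Basis ι A M) (J : Ideal A) {x : M}
    (hx : ∀ i, b.repr x i ∈ J) : x ∈ (J • ⊤ : Submodule A M) := by
  rw [← b.sum_repr x]
  exact Submodule.sum_mem _ fun i _ => Submodule.smul_mem_smul (hx i) Submodule.mem_top

theorem mem_smul_top_iff_repr_mem [Fintype ι] (b : Basis ι A M) (J : Ideal A) {x : M} :
    x ∈ (J • ⊤ : Submodule A M) ↔ ∀ i, b.repr x i ∈ J :=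
  ⟨fun h i => repr_mem_of_mem_smul_top b J h i, mem_smul_top_of_repr_mem b J⟩

/-- A module with a finite basis over an `I`-precomplete ring is `I`-precomplete. -/
theorem isPrecomplete_of_basis [Fintype ι] (b : Basis ι A M) (I : Ideal A)
    [IsPrecomplete I A] : IsPrecomplete I M := by
  refine ⟨fun f hf => ?_⟩
  have hcoord : ∀ i : ι, ∃ L : A, ∀ n, b.repr (f n) i ≡ L [SMOD (I ^ n • ⊤ : Submodule A A)] := by
    intro i
    refine IsPrecomplete.prec ‹_› (f := fun n => b.repr (f n) i) ?_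
    intro m n hmn
    have h := hf hmn
    rw [SModEq.sub_mem] at h ⊢
    have := repr_mem_of_mem_smul_top b (I ^ m) h i
    rw [map_sub, Finsupp.sub_apply] at this
    simpa using this
  choose L hL using hcoord
  refine ⟨∑ i, L i • b i, fun n => ?_⟩
  rw [SModEq.sub_mem]
  apply mem_smul_top_of_repr_mem b
  intro i
  have h := hL i n
  rw [SModEq.sub_mem] at h
  have h' : b.repr (f n) i - L i ∈ I ^ n := by simpa using h
  have hrepr : b.repr (∑ j, L j • b j) i = L i := by
    classical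
    simp [map_sum, Finsupp.single_apply]
  rw [map_sub, Finsupp.sub_apply, hrepr]
  exact h'

end Coordinates

section Norm

variable {A B : Type*} [CommRing A] [CommRing B] [Algebra A B]
variable [Module.Free A B] [Module.Finite A B]

/-- The norm is compatible with congruences: `x ≡ y mod J B` implies `N x ≡ N y mod J`. -/
theorem norm_sub_norm_mem (J : Ideal A) {x y : B}
    (h : x - y ∈ J.map (algebraMap A B)) :
    Algebra.norm A x - Algebra.norm A y ∈ J := by
  classical
  let b := Module.Free.chooseBasis A B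
  let φ := Ideal.Quotient.mk J
  let ψ : B →+* Matrix (Module.Free.ChooseBasisIndex A B) (Module.Free.ChooseBasisIndex A B)
      (A ⧸ J) := φ.mapMatrix.comp (Algebra.leftMulMatrix b).toRingHom
  have hker : J.map (algebraMap A B) ≤ RingHom.ker ψ := by
    rw [Ideal.map_le_iff_le_comap]
    intro a ha
    rw [Ideal.mem_comap, RingHom.mem_ker]
    have h1 : Algebra.leftMulMatrix b (algebraMap A B a) = algebraMap A _ a :=
      (Algebra.leftMulMatrix b).commutes a
    change φ.mapMatrix (Algebra.leftMulMatrix b (algebraMap A B a)) = 0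
    rw [h1]
    ext i j
    simp only [RingHom.mapMatrix_apply, Matrix.map_apply, Matrix.algebraMap_matrix_apply,
      Matrix.zero_apply]
    split_ifs
    · simpa [φ] using Ideal.Quotient.eq_zero_iff_mem.mpr ha
    · simp
  have hψ : ψ x = ψ y := by
    have := hker h
    rw [RingHom.mem_ker, map_sub, sub_eq_zero] at this
    exact this
  rw [← Ideal.Quotient.eq, Algebra.norm_eq_matrix_det b, Algebra.norm_eq_matrix_det b,
    RingHom.map_det, RingHom.map_det]
  exact congrArg Matrix.det hψ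

/-- Same with the congruence stated in the `A`-submodule `J • ⊤` of `B`. -/
theorem norm_sub_norm_mem' (J : Ideal A) {x y : B}
    (h : x - y ∈ (J • ⊤ : Submodule A B)) :
    Algebra.norm A x - Algebra.norm A y ∈ J := by
  apply norm_sub_norm_mem J
  rw [Ideal.smul_top_eq_map] at h
  exact h

/-- First-order expansion of the norm at `1`. -/
theorem norm_one_add_smul (a : A) (x : B) :
    ∃ c : A, Algebra.norm A (1 + a • x) = 1 + a * Algebra.trace A B x + c * a ^ 2 := by
  classical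
  let b := Module.Free.chooseBasis A B
  have h := Matrix.det_one_add_smul a (Algebra.leftMulMatrix b x)
  refine ⟨Polynomial.eval a (1 + (Polynomial.X : Polynomial A) •
    ((Algebra.leftMulMatrix b) x).map ⇑Polynomial.C).det.divX.divX, ?_⟩
  rw [Algebra.norm_eq_matrix_det b, Algebra.trace_eq_matrix_trace b, map_add, map_one, map_smul,
    h, mul_comm a]

/-- An element whose norm is a unit is a unit. -/
theorem isUnit_of_isUnit_norm {x : B} (h : IsUnit (Algebra.norm A x)) : IsUnit x := by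
  rw [Algebra.norm_apply] at h
  have h2 := (LinearMap.isUnit_iff_isUnit_det (Algebra.lmul A B x)).mpr h
  obtain ⟨g, hg⟩ := h2
  have hsurj : Function.Surjective (Algebra.lmul A B x) := by
    rw [← hg]
    intro z
    refine ⟨(g⁻¹ : (B →ₗ[A] B)ˣ).1 z, ?_⟩
    have := LinearMap.congr_fun g.mul_inv z
    exact this
  obtain ⟨y, hy⟩ := hsurj 1
  exact IsUnit.of_mul_eq_one y (by simpa using hy)

end Norm

section Lifting

variable {A B : Type*} [CommRing A] [CommRing B] [Algebra A B]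
variable [Module.Free A B] [Module.Finite A B]

/-- The approximating sequence: `v (m+1) = v m * (1 + (u⁻¹ * (u - N (v m))) • x₀)`. -/
noncomputable def normLiftSeq (u : Aˣ) (x₀ v₀ : B) : ℕ → B
  | 0 => v₀
  | (m + 1) => normLiftSeq u x₀ v₀ m *
      (1 + ((↑u⁻¹ : A) * ((u : A) - Algebra.norm A (normLiftSeq u x₀ v₀ m))) • x₀)

omit [Module.Free A B] [Module.Finite A B] in
theorem normLiftSeq_zero (u : Aˣ) (x₀ v₀ : B) : normLiftSeq u x₀ v₀ 0 = v₀ := rfl

omit [Module.Free A B] [Module.Finite A B] in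
theorem normLiftSeq_succ (u : Aˣ) (x₀ v₀ : B) (m : ℕ) :
    normLiftSeq u x₀ v₀ (m + 1) = normLiftSeq u x₀ v₀ m *
      (1 + ((↑u⁻¹ : A) * ((u : A) - Algebra.norm A (normLiftSeq u x₀ v₀ m))) • x₀) := rfl

/-- One step of the approximation squares the error ideal. -/
theorem norm_step_mem (J : Ideal A) (u : Aˣ) {x₀ : B} (hx₀ : Algebra.trace A B x₀ = 1) (w : B)
    (hw : (u : A) - Algebra.norm A w ∈ J) :
    (u : A) - Algebra.norm A (w * (1 + ((↑u⁻¹ : A) * ((u : A) - Algebra.norm A w)) • x₀))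
      ∈ J * J := by
  set e : A := (u : A) - Algebra.norm A w with he
  set a : A := (↑u⁻¹ : A) * e with ha
  obtain ⟨c, hc⟩ := norm_one_add_smul a x₀
  rw [map_mul, hc, hx₀, mul_one]
  have haJ : a ∈ J := J.mul_mem_left _ hw
  have hua : (u : A) * a = e := by
    rw [ha, ← mul_assoc, Units.mul_inv, one_mul]
  have hN : Algebra.norm A w = (u : A) - e := by rw [he]; ring
  have key : (u : A) - Algebra.norm A w * (1 + a + c * a ^ 2) =
      a * (e - Algebra.norm A w * c * a) := by
    rw [hN]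
    have : (u : A) - ((u : A) - e) * (1 + a + c * a ^ 2)
        = e - (u : A) * a + a * (e - ((u : A) - e) * c * a) := by ring
    rw [this, hua, sub_self, zero_add]
  rw [key]
  exact Ideal.mul_mem_mul haJ (J.sub_mem hw (J.mul_mem_left _ haJ))

theorem normLiftSeq_error_mem (I : Ideal A) (u : Aˣ) {x₀ : B}
    (hx₀ : Algebra.trace A B x₀ = 1) (v₀ : B) (hv₀ : (u : A) - Algebra.norm A v₀ ∈ I) (m : ℕ) :
    (u : A) - Algebra.norm A (normLiftSeq u x₀ v₀ m) ∈ I ^ (m + 1) := by
  induction m with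
  | zero => simpa [normLiftSeq_zero] using hv₀
  | succ m ih =>
    rw [normLiftSeq_succ]
    have h := norm_step_mem (I ^ (m + 1)) u hx₀ _ ih
    have hle : I ^ (m + 1) * I ^ (m + 1) ≤ I ^ (m + 1 + 1) := by
      rw [← pow_add]
      exact Ideal.pow_le_pow_right (by omega)
    exact hle h

theorem normLiftSeq_succ_sub_mem (I : Ideal A) (u : Aˣ) {x₀ : B}
    (hx₀ : Algebra.trace A B x₀ = 1) (v₀ : B) (hv₀ : (u : A) - Algebra.norm A v₀ ∈ I) (m : ℕ) :
    normLiftSeq u x₀ v₀ (m + 1) - normLiftSeq u x₀ v₀ m ∈ (I ^ (m + 1) • ⊤ : Submodule A B) := by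
  rw [normLiftSeq_succ]
  have h := normLiftSeq_error_mem I u hx₀ v₀ hv₀ m
  set w := normLiftSeq u x₀ v₀ m
  have : w * (1 + ((↑u⁻¹ : A) * ((u : A) - Algebra.norm A w)) • x₀) - w =
      ((↑u⁻¹ : A) * ((u : A) - Algebra.norm A w)) • (w * x₀) := by
    rw [mul_add, mul_one, add_sub_cancel_left, mul_smul_comm]
  rw [this]
  exact Submodule.smul_mem_smul (Ideal.mul_mem_left _ _ h) Submodule.mem_top

theorem normLiftSeq_sub_mem (I : Ideal A) (u : Aˣ) {x₀ : B}
    (hx₀ : Algebra.trace A B x₀ = 1) (v₀ : B) (hv₀ : (u : A) - Algebra.norm A v₀ ∈ I)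
    {m n : ℕ} (hmn : m ≤ n) :
    normLiftSeq u x₀ v₀ n - normLiftSeq u x₀ v₀ m ∈ (I ^ (m + 1) • ⊤ : Submodule A B) := by
  induction n, hmn using Nat.le_induction with
  | base => simp
  | succ n hmn ih =>
    have h1 := normLiftSeq_succ_sub_mem I u hx₀ v₀ hv₀ n
    have hle : (I ^ (n + 1) • ⊤ : Submodule A B) ≤ I ^ (m + 1) • ⊤ :=
      Submodule.smul_mono_left (Ideal.pow_le_pow_right (by omega))
    have := Submodule.add_mem _ (hle h1) ih
    simpa using this

/-- **Hensel lifting for the norm.**  Let `B` be a finite free `A`-algebra containing an element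
of trace `1`, and let `A` be `I`-adically complete.  If a unit `u` of `A` is congruent modulo `I`
to the norm of `v₀`, then `u` is the norm of some `v ≡ v₀ mod I B`. -/
theorem exists_norm_eq_of_trace_eq_one (I : Ideal A) [IsAdicComplete I A]
    {x₀ : B} (hx₀ : Algebra.trace A B x₀ = 1) (u : Aˣ) (v₀ : B)
    (hv₀ : (u : A) - Algebra.norm A v₀ ∈ I) :
    ∃ v : B, Algebra.norm A v = u ∧ v - v₀ ∈ I.map (algebraMap A B) := by
  classical
  have : IsPrecomplete I B := isPrecomplete_of_basis (Module.Free.chooseBasis A B) I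
  have hcauchy : ∀ {m n : ℕ}, m ≤ n →
      normLiftSeq u x₀ v₀ m ≡ normLiftSeq u x₀ v₀ n [SMOD (I ^ m • ⊤ : Submodule A B)] := by
    intro m n hmn
    rw [SModEq.sub_mem]
    have h := normLiftSeq_sub_mem I u hx₀ v₀ hv₀ hmn
    have hle : (I ^ (m + 1) • ⊤ : Submodule A B) ≤ I ^ m • ⊤ :=
      Submodule.smul_mono_left (Ideal.pow_le_pow_right (by omega))
    have := Submodule.neg_mem _ (hle h)
    simpa using this
  obtain ⟨v, hv⟩ := IsPrecomplete.prec ‹IsPrecomplete I B› hcauchy
  refine ⟨v, ?_, ?_⟩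
  · symm
    rw [IsHausdorff.eq_iff_smodEq (I := I)]
    intro n
    rw [SModEq.sub_mem]
    have h1 := normLiftSeq_error_mem I u hx₀ v₀ hv₀ n
    have h2 : Algebra.norm A (normLiftSeq u x₀ v₀ n) - Algebra.norm A v ∈ I ^ n := by
      apply norm_sub_norm_mem'
      have := hv n
      rwa [SModEq.sub_mem] at this
    have h3 : (u : A) - Algebra.norm A v ∈ I ^ n := by
      have := (I ^ n).add_mem (Ideal.pow_le_pow_right (Nat.le_succ n) h1) h2
      simpa using this
    simpa using h3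
  · have h1 := hv 1
    rw [SModEq.sub_mem, pow_one] at h1
    have h2 := normLiftSeq_sub_mem I u hx₀ v₀ hv₀ (Nat.zero_le 1)
    rw [zero_add, pow_one, normLiftSeq_zero] at h2
    have := Submodule.sub_mem _ h2 h1
    rw [Ideal.smul_top_eq_map] at this
    simpa using this

end Lifting

end Fermat.Agent.S55.L.H661

end
-- ===== PACK-END S55/L/H661/NormHensel.lean

-- ===== PACK-BEGIN S55/H119/ResCores1.lean
section


/-!
# Restriction–corestriction in degree 1 (helper119, S55 layer T leaf)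

`G` a group, `H ≤ G` of finite index, `A` a `G`-module.  If a 1-cocycle `f : G → A` restricts
to a coboundary on `H`, then `[G : H] • f` is a coboundary on `G`.

Everything is stated with Mathlib's concrete predicates `groupCohomology.IsCocycle₁` and
`groupCohomology.IsCoboundary₁`.
-/

set_option autoImplicit false
set_option linter.style.haveILetI false

namespace Fermat.Agent.S55.H119

open groupCohomology

variable {G : Type*} [Group G] {A : Type*} [AddCommGroup A] [DistribMulAction G A]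

/-- the coboundary of `x : A` is a 1-cocycle -/
theorem isCocycle₁_d (x : A) : IsCocycle₁ (fun g : G => g • x - x) := by
  intro g h
  simp only [mul_smul, smul_sub]
  abel

theorem IsCocycle₁.sub {f f' : G → A} (hf : IsCocycle₁ f) (hf' : IsCocycle₁ f') :
    IsCocycle₁ (fun g => f g - f' g) := by
  intro g h
  simp only [hf g h, hf' g h, smul_sub]
  abel

/-- **Restriction–corestriction, degree 1**: if the restriction to a finite index subgroup `H`
of a 1-cocycle `f` is a coboundary, then `[G : H] • f` is a coboundary. -/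
theorem isCoboundary₁_index_nsmul (H : Subgroup G) [H.FiniteIndex] {f : G → A}
    (hf : IsCocycle₁ f) (hres : IsCoboundary₁ (fun h : H => f (h : G))) :
    IsCoboundary₁ (fun g => H.index • f g) := by
  classical
  obtain ⟨x, hx⟩ := hres
  -- normalise: `f'` vanishes on `H`
  set f' : G → A := fun g => f g - (g • x - x) with hf'def
  have hf' : IsCocycle₁ f' := IsCocycle₁.sub hf (isCocycle₁_d x)
  have hf'H : ∀ h : H, f' (h : G) = 0 := by
    intro h
    have := hx h
    simp only [hf'def, Subgroup.smul_def] at this ⊢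
    rw [← this, sub_self]
  have hconst : ∀ (g : G) (h : H), f' (g * h) = f' g := by
    intro g h
    rw [hf' g h, hf'H h, smul_zero, zero_add]
  -- `f'` factors through `G ⧸ H`
  let F : G ⧸ H → A := fun c => f' c.out
  have hF : ∀ g : G, F (g : G ⧸ H) = f' g := by
    intro g
    have h1 : ((g : G ⧸ H).out : G ⧸ H) = (g : G ⧸ H) := Quotient.out_eq' _
    rw [QuotientGroup.eq] at h1
    have h2 := hconst (g : G ⧸ H).out ⟨_, h1⟩
    simp only [mul_inv_cancel_left] at h2
    exact h2.symm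
  letI : Fintype (G ⧸ H) := Subgroup.fintypeQuotientOfFiniteIndex
  set a : A := ∑ c : G ⧸ H, F c with ha
  have hkey : ∀ g : G, g • a = a - H.index • f' g := by
    intro g
    have h1 : ∀ c : G ⧸ H, g • F c = F (g • c) - f' g := by
      intro c
      induction c using QuotientGroup.induction_on with
      | H y =>
        have : (g • (y : G ⧸ H)) = ((g * y : G) : G ⧸ H) := rfl
        rw [this, hF, hF, hf' g y]
        abel
    rw [ha, Finset.smul_sum, Finset.sum_congr rfl (fun c _ => h1 c), Finset.sum_sub_distrib,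
      Finset.sum_const, Finset.card_univ]
    congr 1
    · exact Equiv.sum_comp (MulAction.toPerm g : G ⧸ H ≃ G ⧸ H) F
    · rw [Subgroup.index_eq_card, Nat.card_eq_fintype_card]
  refine ⟨H.index • x - a, fun g => ?_⟩
  have h2 : H.index • f' g = H.index • f g - (H.index • (g • x) - H.index • x) := by
    rw [hf'def, nsmul_sub, nsmul_sub]
  have h3 : g • (H.index • x) = H.index • (g • x) := by
    rw [← natCast_zsmul, ← natCast_zsmul, smul_comm]
  show g • (H.index • x - a) - (H.index • x - a) = H.index • f g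
  rw [smul_sub, hkey g, h3, h2]
  abel

end Fermat.Agent.S55.H119

end
-- ===== PACK-END S55/H119/ResCores1.lean

-- ===== PACK-BEGIN S55/H119/ResCores2.lean
section


/-!
# Restriction–corestriction in degree 2 (helper119, S55 layer T leaf)

`G` a group, `H ≤ G` of finite index, `A` a `G`-module.  If a 2-cocycle `f : G × G → A`
restricts to a coboundary on `H`, then `[G : H] • f` is a coboundary on `G`.

Proof: pass to homogeneous cochains, extend the trivialisation on `H` to an `H`-equivariant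
trivialisation on `G` (prism operator for an `H`-equivariant retraction `G → H`), and take the
transfer.
-/

set_option autoImplicit false
set_option linter.style.haveILetI false

namespace Fermat.Agent.S55.H119

open groupCohomology

variable {G : Type*} [Group G] {A : Type*} [AddCommGroup A] [DistribMulAction G A]

/-- homogeneous version of an inhomogeneous 2-cochain -/
def hom₂ (f : G × G → A) (x0 x1 x2 : G) : A := x0 • f (x0⁻¹ * x1, x1⁻¹ * x2)

/-- homogeneous version of an inhomogeneous 1-cochain -/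
def hom₁ (u : G → A) (x0 x1 : G) : A := x0 • u (x0⁻¹ * x1)

theorem hom₂_mul (f : G × G → A) (g x0 x1 x2 : G) :
    hom₂ f (g * x0) (g * x1) (g * x2) = g • hom₂ f x0 x1 x2 := by
  simp only [hom₂, mul_inv_rev, mul_smul]
  congr 3
  group

theorem hom₂_one (f : G × G → A) (g h : G) : hom₂ f 1 g (g * h) = f (g, h) := by
  simp [hom₂]

theorem hom₂_cocycle {f : G × G → A} (hf : IsCocycle₂ f) (x0 x1 x2 x3 : G) :
    hom₂ f x1 x2 x3 - hom₂ f x0 x2 x3 + hom₂ f x0 x1 x3 - hom₂ f x0 x1 x2 = 0 := by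
  have h := hf (x0⁻¹ * x1) (x1⁻¹ * x2) (x2⁻¹ * x3)
  have e1 : x0⁻¹ * x1 * (x1⁻¹ * x2) = x0⁻¹ * x2 := by group
  have e2 : x1⁻¹ * x2 * (x2⁻¹ * x3) = x1⁻¹ * x3 := by group
  rw [e1, e2] at h
  have h' : x1 • f (x1⁻¹ * x2, x2⁻¹ * x3) =
      x0 • ((x0⁻¹ * x1) • f (x1⁻¹ * x2, x2⁻¹ * x3)) := by
    rw [← mul_smul]; congr 1; group
  simp only [hom₂]
  rw [h', ← smul_sub, ← smul_add, ← smul_sub, ← smul_zero x0]
  congr 1
  have h2 : (x0⁻¹ * x1) • f (x1⁻¹ * x2, x2⁻¹ * x3) =
      f (x0⁻¹ * x2, x2⁻¹ * x3) + f (x0⁻¹ * x1, x1⁻¹ * x2) - f (x0⁻¹ * x1, x1⁻¹ * x3) := by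
    rw [h]; abel
  rw [h2]; abel

/-- An `H`-equivariant retraction-like map `G → H`. -/
theorem exists_equivariant_map (H : Subgroup G) :
    ∃ π : G → H, ∀ (h : H) (x : G), π (h * x) = h * π x := by
  classical
  let r : G → G := fun x => (Quotient.mk'' x : Quotient (QuotientGroup.rightRel H)).out
  have hr : ∀ x, x * (r x)⁻¹ ∈ H := by
    intro x
    have h1 : (Quotient.mk'' (r x) : Quotient (QuotientGroup.rightRel H)) = Quotient.mk'' x :=
      Quotient.out_eq' _
    have h2 := Quotient.exact' h1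
    rwa [QuotientGroup.rightRel_apply] at h2
  have hr' : ∀ (h : H) (x : G), r (h * x) = r x := by
    intro h x
    have : (Quotient.mk'' ((h : G) * x) : Quotient (QuotientGroup.rightRel H)) =
        Quotient.mk'' x := by
      apply Quotient.sound'
      rw [QuotientGroup.rightRel_apply]
      simp
    simp only [r, this]
  refine ⟨fun x => ⟨x * (r x)⁻¹, hr x⟩, fun h x => ?_⟩
  apply Subtype.ext
  simp only [Subgroup.coe_mul, hr' h x, mul_assoc]

section Transfer

variable (H : Subgroup G) [H.FiniteIndex]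

/-- **Restriction–corestriction, degree 2**: if the restriction to a finite index subgroup `H`
of a 2-cocycle `f` is a coboundary, then `[G : H] • f` is a coboundary. -/
theorem isCoboundary₂_index_nsmul {f : G × G → A}
    (hf : IsCocycle₂ f) (hres : IsCoboundary₂ (fun p : H × H => f ((p.1 : G), (p.2 : G)))) :
    IsCoboundary₂ (fun p => H.index • f p) := by
  classical
  obtain ⟨φ, hφ⟩ := hres
  obtain ⟨π, hπ⟩ := exists_equivariant_map H
  -- homogeneous versions
  set F : G → G → G → A := hom₂ f with hFdef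
  have hFmul : ∀ g x0 x1 x2, F (g * x0) (g * x1) (g * x2) = g • F x0 x1 x2 := hom₂_mul f
  have hFco : ∀ x0 x1 x2 x3, F x1 x2 x3 - F x0 x2 x3 + F x0 x1 x3 - F x0 x1 x2 = 0 :=
    hom₂_cocycle hf
  let Φ : H → H → A := fun h0 h1 => (h0 : G) • φ (h0⁻¹ * h1)
  have hΦmul : ∀ (h h0 h1 : H), Φ (h * h0) (h * h1) = (h : G) • Φ h0 h1 := by
    intro h h0 h1
    simp only [Φ, Subgroup.coe_mul, mul_smul]
    congr 3
    group
  have hΦd : ∀ h0 h1 h2 : H, Φ h1 h2 - Φ h0 h2 + Φ h0 h1 = F h0 h1 h2 := by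
    intro h0 h1 h2
    have h := hφ (h0⁻¹ * h1) (h1⁻¹ * h2)
    simp only [Subgroup.smul_def, Subgroup.coe_mul, Subgroup.coe_inv] at h
    have e1 : h0⁻¹ * h1 * (h1⁻¹ * h2) = h0⁻¹ * h2 := by group
    rw [e1] at h
    simp only [Φ, hFdef, hom₂]
    rw [← h]
    have h' : (h1 : G) • φ (h1⁻¹ * h2) = (h0 : G) • (((h0 : G)⁻¹ * h1) • φ (h1⁻¹ * h2)) := by
      rw [← mul_smul]; congr 1; group
    rw [h', smul_add, smul_sub]
  -- the `H`-equivariant trivialisation on `G`
  let Ψ : G → G → A := fun x0 x1 =>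
    Φ (π x0) (π x1) + F (π x0) x0 x1 - F (π x0) (π x1) x1
  have hΨmul : ∀ (h : H) (x0 x1 : G), Ψ (h * x0) (h * x1) = (h : G) • Ψ x0 x1 := by
    intro h x0 x1
    simp only [Ψ, hπ, hΦmul, Subgroup.coe_mul, hFmul, smul_add, smul_sub]
  have hΨd : ∀ x0 x1 x2 : G, Ψ x1 x2 - Ψ x0 x2 + Ψ x0 x1 = F x0 x1 x2 := by
    intro x0 x1 x2
    have c1 := hFco (π x0) (π x1) (π x2) x2
    have c2 := hFco (π x0) (π x1) x1 x2
    have c3 := hFco (π x0) x0 x1 x2
    have c0 := hΦd (π x0) (π x1) (π x2)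
    simp only [Ψ]
    linear_combination (norm := abel) c0 - c1 + c2 - c3
  -- the transfer of `Ψ`
  letI : Fintype (G ⧸ H) := Subgroup.fintypeQuotientOfFiniteIndex
  let T : G → G → G → A := fun x0 x1 y => y • Ψ (y⁻¹ * x0) (y⁻¹ * x1)
  have hT : ∀ (x0 x1 y : G) (h : H), T x0 x1 (y * h) = T x0 x1 y := by
    intro x0 x1 y h
    have h1 := hΨmul h⁻¹ (y⁻¹ * x0) (y⁻¹ * x1)
    simp only [T, mul_inv_rev, mul_smul, mul_assoc]
    simp only [Subgroup.coe_inv] at h1
    rw [h1, smul_inv_smul]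
  let Tbar : G → G → G ⧸ H → A := fun x0 x1 c => T x0 x1 c.out
  have hTbar : ∀ (x0 x1 y : G), Tbar x0 x1 (y : G ⧸ H) = T x0 x1 y := by
    intro x0 x1 y
    have h1 : (((y : G ⧸ H)).out : G ⧸ H) = (y : G ⧸ H) := Quotient.out_eq' _
    rw [QuotientGroup.eq] at h1
    have h2 := hT x0 x1 (y : G ⧸ H).out ⟨_, h1⟩
    simp only [mul_inv_cancel_left] at h2
    exact h2.symm
  let U : G → G → A := fun x0 x1 => ∑ c : G ⧸ H, Tbar x0 x1 c
  have hUmul : ∀ g x0 x1 : G, U (g * x0) (g * x1) = g • U x0 x1 := by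
    intro g x0 x1
    have h1 : ∀ c : G ⧸ H, Tbar (g * x0) (g * x1) c = g • Tbar x0 x1 (g⁻¹ • c) := by
      intro c
      induction c using QuotientGroup.induction_on with
      | H y =>
        have e : (g⁻¹ • (y : G ⧸ H)) = ((g⁻¹ * y : G) : G ⧸ H) := rfl
        rw [e, hTbar, hTbar]
        simp only [T, mul_inv_rev, inv_inv, mul_smul, smul_inv_smul, mul_assoc]
    simp only [U]
    rw [Finset.smul_sum, Finset.sum_congr rfl (fun c _ => h1 c)]
    exact Equiv.sum_comp (MulAction.toPerm g⁻¹ : G ⧸ H ≃ G ⧸ H) (fun c => g • Tbar x0 x1 c)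
  have hUd : ∀ x0 x1 x2 : G, U x1 x2 - U x0 x2 + U x0 x1 = H.index • F x0 x1 x2 := by
    intro x0 x1 x2
    have h1 : ∀ c : G ⧸ H, Tbar x1 x2 c - Tbar x0 x2 c + Tbar x0 x1 c = F x0 x1 x2 := by
      intro c
      induction c using QuotientGroup.induction_on with
      | H y =>
        rw [hTbar, hTbar, hTbar]
        simp only [T]
        rw [← smul_sub, ← smul_add, hΨd, ← hFmul]
        simp only [mul_inv_cancel_left]
    simp only [U]
    rw [← Finset.sum_sub_distrib, ← Finset.sum_add_distrib, Finset.sum_congr rfl (fun c _ => h1 c),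
      Finset.sum_const, Finset.card_univ, Subgroup.index_eq_card, Nat.card_eq_fintype_card]
  refine ⟨fun g => U 1 g, fun g h => ?_⟩
  have h1 := hUd 1 g (g * h)
  have h2 := hUmul g 1 h
  rw [mul_one] at h2
  rw [hFdef, hom₂_one] at h1
  show g • U 1 h - U 1 (g * h) + U 1 g = H.index • f (g, h)
  rw [← h2, h1]

end Transfer

end Fermat.Agent.S55.H119

end
-- ===== PACK-END S55/H119/ResCores2.lean

-- ===== PACK-BEGIN S55/H954/H2InfResCore.lean
section


/-!
# Inflation–restriction in degree 2: the cochain-level core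

Pure function-level statements (no category theory): `ρ : Representation k G A`, `S` a normal
subgroup of `G` with `H¹(S, A) = 0` (stated on cocycles).

* `exists_inflated_of_res_coboundary`: a 2-cocycle of `G` whose restriction to `S` is a coboundary
  is cohomologous to a 2-cocycle which is `S`-bi-invariant with values in `A^S`.
* `exists_invariant_cochain_of_inf_coboundary`: if the inflation of a 2-cocycle of `G ⧸ S` is the
  coboundary of `c`, then `c` can be corrected by a 0-coboundary to an `S`-invariant cochain with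
  values in `A^S`.
-/

set_option autoImplicit false
set_option linter.unusedSectionVars false
set_option linter.unusedSimpArgs false

namespace Fermat.Agent.S55.H954

variable {k G A : Type*} [CommRing k] [Group G] [AddCommGroup A] [Module k A]

/-- 2-cocycle identity for `f : G × G → A`. -/
def IsTwoCocycle (ρ : Representation k G A) (f : G × G → A) : Prop :=
  ∀ g h j : G, f (g * h, j) + f (g, h) = ρ g (f (h, j)) + f (g, h * j)

/-- The coboundary of a 1-cochain. -/
def dOne (ρ : Representation k G A) (c : G → A) : G × G → A :=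
  fun p => ρ p.1 (c p.2) - c (p.1 * p.2) + c p.1

lemma dOne_apply (ρ : Representation k G A) (c : G → A) (g h : G) :
    dOne ρ c (g, h) = ρ g (c h) - c (g * h) + c g := rfl

lemma isTwoCocycle_dOne (ρ : Representation k G A) (c : G → A) : IsTwoCocycle ρ (dOne ρ c) := by
  intro g h j
  simp only [dOne_apply, map_add, map_sub, map_mul, Module.End.mul_apply, mul_assoc]
  abel

lemma IsTwoCocycle.sub {ρ : Representation k G A} {f f' : G × G → A}
    (hf : IsTwoCocycle ρ f) (hf' : IsTwoCocycle ρ f') : IsTwoCocycle ρ (f - f') := by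
  intro g h j
  have h1 := hf g h j
  have h2 := hf' g h j
  simp only [Pi.sub_apply, map_sub]
  rw [sub_add_sub_comm, h1, h2]; abel

/-- `H¹(S, A) = 0`, on the level of cocycles. -/
def HOneVanishes (ρ : Representation k G A) (S : Subgroup G) : Prop :=
  ∀ w : S → A, (∀ s t : S, w (s * t) = ρ s (w t) + w s) → ∃ a : A, ∀ s : S, w s = ρ s a - a


section Rep

variable (S : Subgroup G) [S.Normal]

open Classical in
/-- A coset representative function, normalised to be `1` on `S`. -/
noncomputable def cosetRep (g : G) : G :=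
  if g ∈ S then 1 else (QuotientGroup.mk (s := S) g).out

lemma cosetRep_of_mem {s : G} (hs : s ∈ S) : cosetRep S s = 1 := by
  simp [cosetRep, hs]

lemma cosetRep_inv_mul_mem (g : G) : (cosetRep S g)⁻¹ * g ∈ S := by
  unfold cosetRep
  split_ifs with h
  · simpa using h
  · exact QuotientGroup.eq.1 (QuotientGroup.out_eq' (QuotientGroup.mk (s := S) g))

lemma mul_cosetRep_inv_mem (g : G) : g * (cosetRep S g)⁻¹ ∈ S := by
  have h := cosetRep_inv_mul_mem S g
  have := Subgroup.Normal.conj_mem ‹S.Normal› _ h (cosetRep S g)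
  simpa [mul_assoc] using this

lemma cosetRep_mul_right (g : G) {s : G} (hs : s ∈ S) : cosetRep S (g * s) = cosetRep S g := by
  unfold cosetRep
  have hmem : g * s ∈ S ↔ g ∈ S := Subgroup.mul_mem_cancel_right S hs
  have hq : (QuotientGroup.mk (s := S) (g * s)) = QuotientGroup.mk g := by
    rw [QuotientGroup.eq]
    simpa [mul_assoc] using S.inv_mem hs
  rw [hq]
  by_cases h : g ∈ S
  · rw [if_pos h, if_pos (hmem.2 h)]
  · rw [if_neg h, if_neg (fun h' => h (hmem.1 h'))]

lemma cosetRep_mul_left (g : G) {s : G} (hs : s ∈ S) : cosetRep S (s * g) = cosetRep S g := by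
  have : s * g = g * (g⁻¹ * s * g) := by group
  rw [this]
  exact cosetRep_mul_right S g (Subgroup.Normal.conj_mem' ‹S.Normal› _ hs _)

end Rep

section Steps

variable (ρ : Representation k G A) (S : Subgroup G) [S.Normal]

/-- Step 0: make the restriction to `S × S` vanish. -/
lemma step0 {f : G × G → A} (φ : S → A)
    (hφ : ∀ s t : S, f (s, t) = ρ s (φ t) - φ (s * t) + φ s) :
    ∃ c : G → A, ∀ s ∈ S, ∀ t ∈ S, (f - dOne ρ c) (s, t) = 0 := by
  classical
  refine ⟨fun g => if h : g ∈ S then φ ⟨g, h⟩ else 0, fun s hs t ht => ?_⟩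
  have := hφ ⟨s, hs⟩ ⟨t, ht⟩
  simp only [Pi.sub_apply, dOne_apply, hs, ht, S.mul_mem hs ht, dif_pos]
  simp only [Subgroup.coe_mk] at this
  rw [this]
  simp

/-- Step 1: make `f (s, g)` vanish for `s ∈ S`. -/
lemma step1 {f : G × G → A} (hf : IsTwoCocycle ρ f)
    (h0 : ∀ s ∈ S, ∀ t ∈ S, f (s, t) = 0) :
    ∃ c : G → A, ∀ s ∈ S, ∀ g : G, (f - dOne ρ c) (s, g) = 0 := by
  refine ⟨fun g => - f (g * (cosetRep S g)⁻¹, cosetRep S g), fun s hs g => ?_⟩
  have ht := mul_cosetRep_inv_mem S g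
  set r := cosetRep S g with hr
  set t := g * r⁻¹ with htdef
  have hg : g = t * r := by simp [htdef]
  have hcoc := hf s t r
  rw [h0 s hs t ht, add_zero, ← hg] at hcoc
  simp only [Pi.sub_apply, dOne_apply, cosetRep_mul_left S g hs, cosetRep_of_mem S hs]
  rw [← hr]
  have e1 : s * g * r⁻¹ = s * t := by simp [htdef, mul_assoc]
  have e2 : f (s * 1⁻¹, (1 : G)) = 0 := by simpa using h0 s hs 1 S.one_mem
  rw [e1, e2, hcoc, map_neg]
  abel

/-- For a cocycle vanishing on `S × G`, the functions `s ↦ ρ g⁻¹ (f (g, s))` are 1-cocycles of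
`S`. -/
lemma isOneCocycle_of_vanish_left {f : G × G → A} (hf : IsTwoCocycle ρ f)
    (h1 : ∀ s ∈ S, ∀ g : G, f (s, g) = 0) (g : G) (s t : S) :
    ρ g⁻¹ (f (g, ((s * t : S) : G))) = ρ s (ρ g⁻¹ (f (g, (t : G)))) + ρ g⁻¹ (f (g, (s : G))) := by
  -- (g, s, t): f (g s, t) + f (g, s) = ρ g (f (s, t)) + f (g, s t)
  have c1 := hf g s t
  rw [h1 s s.2 t, map_zero, zero_add] at c1
  -- (g s g⁻¹, g, t): f (g s, t) + f (g s g⁻¹, g) = ρ (g s g⁻¹) (f (g, t)) + f (g s g⁻¹, g t)
  have hconj : g * s * g⁻¹ ∈ S := Subgroup.Normal.conj_mem ‹S.Normal› _ s.2 g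
  have c2 := hf (g * s * g⁻¹) g t
  rw [h1 _ hconj g, h1 _ hconj (g * t), add_zero, add_zero] at c2
  have e : g * s * g⁻¹ * g = g * s := by group
  rw [e] at c2
  have hfgst : f (g, (s : G) * t) = ρ (g * s * g⁻¹) (f (g, (t : G))) + f (g, (s : G)) := by
    rw [← c1, c2]
  have hcomm : ∀ x : A, ρ g⁻¹ (ρ (g * s * g⁻¹) x) = ρ s (ρ g⁻¹ x) := by
    intro x
    simp only [map_mul, Module.End.mul_apply, Representation.inv_self_apply]
  rw [Subgroup.coe_mul, hfgst, map_add, hcomm]

/-- Step 2: make `f (g, s)` vanish for `s ∈ S`, keeping `f (s, g) = 0`. -/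
lemma step2 (hH1 : HOneVanishes ρ S) {f : G × G → A} (hf : IsTwoCocycle ρ f)
    (h1 : ∀ s ∈ S, ∀ g : G, f (s, g) = 0) :
    ∃ c : G → A, (∀ s ∈ S, ∀ g : G, (f - dOne ρ c) (s, g) = 0) ∧
      ∀ s ∈ S, ∀ g : G, (f - dOne ρ c) (g, s) = 0 := by
  classical
  have hex : ∀ g : G, ∃ a : A, ∀ s : S, ρ g⁻¹ (f (g, (s : G))) = ρ s a - a := fun g =>
    hH1 (fun s => ρ g⁻¹ (f (g, (s : G)))) (fun s t => isOneCocycle_of_vanish_left ρ S hf h1 g s t)
  choose a ha using hex
  -- a' is constant on cosets and vanishes on `S`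
  set a' : G → A := fun g => if g ∈ S then 0 else a (cosetRep S g) with ha'
  have ha'_right : ∀ g : G, ∀ s ∈ S, a' (g * s) = a' g := by
    intro g s hs
    simp only [ha', Subgroup.mul_mem_cancel_right S hs, cosetRep_mul_right S g hs]
  have ha'_left : ∀ g : G, ∀ s ∈ S, a' (s * g) = a' g := by
    intro g s hs
    simp only [ha', Subgroup.mul_mem_cancel_left S hs, cosetRep_mul_left S g hs]
  have ha'_mem : ∀ s ∈ S, a' s = 0 := fun s hs => by simp [ha', hs]
  have key : ∀ g : G, ∀ s ∈ S, f (g, s) = ρ (g * s) (a' g) - ρ g (a' g) := by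
    intro g s hs
    by_cases hg : g ∈ S
    · rw [h1 g hg s, ha'_mem g hg]; simp
    · have hr : a' g = a (cosetRep S g) := by simp [ha', hg]
      rw [hr]
      set r := cosetRep S g with hrdef
      set t := r⁻¹ * g with htdef
      have ht : t ∈ S := cosetRep_inv_mul_mem S g
      have hgrt : g = r * t := by simp [htdef]
      -- (r, t, s): f (r t, s) + f (r, t) = ρ r (f (t, s)) + f (r, t s)
      have c := hf r t s
      rw [h1 t ht s, map_zero, zero_add, ← hgrt] at c
      have e1 := ha r ⟨t * s, S.mul_mem ht hs⟩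
      have e2 := ha r ⟨t, ht⟩
      simp only [Subgroup.coe_mk] at e1 e2
      have e1' : f (r, t * s) = ρ r (ρ (t * s) (a r) - a r) := by
        rw [← e1, ← Module.End.mul_apply, ← map_mul]; simp
      have e2' : f (r, t) = ρ r (ρ t (a r) - a r) := by
        rw [← e2, ← Module.End.mul_apply, ← map_mul]; simp
      have : f (g, s) = f (r, t * s) - f (r, t) := eq_sub_of_add_eq c
      rw [this, e1', e2', hgrt]
      simp only [map_sub, map_mul, Module.End.mul_apply]
      abel
  refine ⟨fun g => - ρ g (a' g), fun s hs g => ?_, fun s hs g => ?_⟩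
  · simp only [Pi.sub_apply, dOne_apply, h1 s hs g, ha'_left g s hs, ha'_mem s hs, map_neg,
      map_zero, map_mul, Module.End.mul_apply]
    abel
  · simp only [Pi.sub_apply, dOne_apply, key g s hs, ha'_right g s hs, ha'_mem s hs, map_neg,
      map_zero, map_mul, Module.End.mul_apply]
    abel

/-- Step 3: a cocycle vanishing on `S × G` and `G × S` is `S`-bi-invariant with values in
`A^S`. -/
lemma step3 {f : G × G → A} (hf : IsTwoCocycle ρ f)
    (h1 : ∀ s ∈ S, ∀ g : G, f (s, g) = 0) (h2 : ∀ s ∈ S, ∀ g : G, f (g, s) = 0) :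
    (∀ s ∈ S, ∀ g h : G, f (g, h * s) = f (g, h)) ∧
    (∀ s ∈ S, ∀ g h : G, f (g * s, h) = f (g, h)) ∧
    (∀ s ∈ S, ∀ g h : G, ρ s (f (g, h)) = f (g, h)) := by
  have hsnd : ∀ s ∈ S, ∀ g h : G, f (g, h * s) = f (g, h) := by
    intro s hs g h
    have c := hf g h s
    rw [h2 s hs (g * h), h2 s hs h, map_zero, zero_add, zero_add] at c
    exact c.symm
  have hleft : ∀ s ∈ S, ∀ g h : G, f (s * g, h) = ρ s (f (g, h)) := by
    intro s hs g h
    have c := hf s g h
    rw [h1 s hs g, h1 s hs (g * h), add_zero, add_zero] at c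
    exact c
  have hfst : ∀ s ∈ S, ∀ g h : G, f (g * s, h) = f (g, h) := by
    intro s hs g h
    have c := hf g s h
    rw [h2 s hs g, add_zero, h1 s hs h, map_zero, zero_add] at c
    rw [c]
    have : s * h = h * (h⁻¹ * s * h) := by group
    rw [this]
    exact hsnd _ (Subgroup.Normal.conj_mem' ‹S.Normal› _ hs _) g h
  refine ⟨hsnd, hfst, fun s hs g h => ?_⟩
  rw [← hleft s hs g h]
  have : s * g = g * (g⁻¹ * s * g) := by group
  rw [this]
  exact hfst _ (Subgroup.Normal.conj_mem' ‹S.Normal› _ hs _) g h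

/-- **Inflation–restriction in degree 2, exactness at `H²(G, A)`** (cochain form). -/
theorem exists_inflated_of_res_coboundary (hH1 : HOneVanishes ρ S) {f : G × G → A}
    (hf : IsTwoCocycle ρ f) (φ : S → A)
    (hφ : ∀ s t : S, f (s, t) = ρ s (φ t) - φ (s * t) + φ s) :
    ∃ (c : G → A) (f' : G × G → A), f = f' + dOne ρ c ∧ IsTwoCocycle ρ f' ∧
      (∀ s ∈ S, ∀ g h : G, f' (g, h * s) = f' (g, h)) ∧
      (∀ s ∈ S, ∀ g h : G, f' (g * s, h) = f' (g, h)) ∧
      (∀ s ∈ S, ∀ g h : G, ρ s (f' (g, h)) = f' (g, h)) := by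
  obtain ⟨c0, h0⟩ := step0 ρ S φ hφ
  have hf0 : IsTwoCocycle ρ (f - dOne ρ c0) := hf.sub (isTwoCocycle_dOne ρ c0)
  obtain ⟨c1, h1⟩ := step1 ρ S hf0 h0
  have hf1 : IsTwoCocycle ρ (f - dOne ρ c0 - dOne ρ c1) := hf0.sub (isTwoCocycle_dOne ρ c1)
  obtain ⟨c2, h2, h2'⟩ := step2 ρ S hH1 hf1 h1
  have hf2 : IsTwoCocycle ρ (f - dOne ρ c0 - dOne ρ c1 - dOne ρ c2) :=
    hf1.sub (isTwoCocycle_dOne ρ c2)
  obtain ⟨i1, i2, i3⟩ := step3 ρ S hf2 h2 h2'
  refine ⟨c0 + c1 + c2, f - dOne ρ c0 - dOne ρ c1 - dOne ρ c2, ?_, hf2, i1, i2, i3⟩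
  funext ⟨g, h⟩
  simp only [Pi.add_apply, Pi.sub_apply, dOne_apply, map_add]
  abel

/-- **Inflation–restriction in degree 2, injectivity of inflation** (cochain form): if an
`S`-bi-invariant `A^S`-valued function `f'` equals `dOne c`, then after correcting `c` by a
0-coboundary it becomes `S`-invariant with values in `A^S`. -/
theorem exists_invariant_cochain_of_inf_coboundary (hH1 : HOneVanishes ρ S) {f' : G × G → A}
    (hinv2 : ∀ s ∈ S, ∀ g h : G, f' (g, h * s) = f' (g, h))
    (hinv1 : ∀ s ∈ S, ∀ g h : G, f' (g * s, h) = f' (g, h))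
    (hval : ∀ s ∈ S, ∀ g h : G, ρ s (f' (g, h)) = f' (g, h))
    (c : G → A) (hc : f' = dOne ρ c) :
    ∃ c' : G → A, f' = dOne ρ c' ∧ (∀ s ∈ S, ∀ g : G, c' (g * s) = c' g) ∧
      (∀ s ∈ S, ∀ g : G, ρ s (c' g) = c' g) := by
  set e := f' (1, 1) with he
  have hfe : ∀ s ∈ S, ∀ t ∈ S, f' (s, t) = e := by
    intro s hs t ht
    have := hinv1 s hs 1 t
    rw [one_mul] at this
    rw [this]
    have := hinv2 t ht 1 1
    rwa [one_mul] at this
  have hρe : ∀ s ∈ S, ρ s e = e := fun s hs => hval s hs 1 1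
  -- `c - e` restricted to `S` is a 1-cocycle
  obtain ⟨a, ha⟩ := hH1 (fun s => c s - e) (by
    intro s t
    have h := hfe s s.2 t t.2
    rw [hc, dOne_apply] at h
    simp only [Subgroup.coe_mul, map_sub, hρe s s.2]
    have : c (↑s * ↑t) = ρ ↑s (c ↑t) + c ↑s - e := by rw [← h]; abel
    rw [this]; abel)
  have hcS : ∀ s ∈ S, c s - (ρ s a - a) = e := by
    intro s hs
    have := ha ⟨s, hs⟩
    simp only [Subgroup.coe_mk] at this
    rw [← this]; abel
  set c' : G → A := fun g => c g - (ρ g a - a) with hc'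
  have hd : f' = dOne ρ c' := by
    rw [hc]
    funext ⟨g, h⟩
    simp only [dOne_apply, hc', map_sub, map_mul, Module.End.mul_apply]
    abel
  have hc'S : ∀ s ∈ S, c' s = e := hcS
  have hc'1 : c' 1 = e := hc'S 1 S.one_mem
  have hfg1 : ∀ g : G, f' (g, 1) = ρ g e := by
    intro g
    have := congr_fun hd (g, 1)
    rw [dOne_apply, mul_one, hc'1] at this
    rw [this]; abel
  have hf1g : ∀ g : G, f' (1, g) = e := by
    intro g
    have := congr_fun hd (1, g)
    rw [dOne_apply, one_mul, hc'1, map_one, Module.End.one_apply] at this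
    rw [this]; abel
  have hright : ∀ s ∈ S, ∀ g : G, c' (g * s) = c' g := by
    intro s hs g
    have h1 := congr_fun hd (g, s)
    rw [dOne_apply, hc'S s hs] at h1
    have h2 := hinv2 s hs g 1
    rw [one_mul, hfg1 g] at h2
    rw [h2] at h1
    have h3 : c' g - c' (g * s) = 0 := by
      have := sub_eq_zero.2 h1.symm
      rw [← this]; abel
    exact (sub_eq_zero.1 h3).symm
  refine ⟨c', hd, hright, fun s hs g => ?_⟩
  have h1 := congr_fun hd (s, g)
  rw [dOne_apply, hc'S s hs] at h1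
  have h2 := hinv1 s hs 1 g
  rw [one_mul, hf1g g] at h2
  rw [h2] at h1
  have h3 : c' (s * g) = c' g := by
    have : s * g = g * (g⁻¹ * s * g) := by group
    rw [this]
    exact hright _ (Subgroup.Normal.conj_mem' ‹S.Normal› _ hs _) g
  rw [h3] at h1
  have h4 : ρ s (c' g) - c' g = 0 := by
    have := sub_eq_zero.2 h1.symm
    rw [← this]; abel
  exact sub_eq_zero.1 h4

end Steps

end Fermat.Agent.S55.H954

end
-- ===== PACK-END S55/H954/H2InfResCore.lean

-- ===== PACK-BEGIN S55/H535/Filtration.lean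
section


/-!
# Successive approximation along a complete filtration  (S55 toolkit, helper535)

The classical lemma behind the cohomological triviality of unit groups of local fields
(Serre, *Local Fields*, Ch. V §1 Lemma 2 and Ch. XII §3 Lemma 3), stated in the "Herbrand" style
(two composable homomorphisms with zero composite), with no category theory.

* `exact_of_graded_exact` (multiplicative), `add_exact_of_graded_exact` (additive):
  if `g : B → A`, `f : A → C` satisfy `f ∘ g = 1`, `B` is complete and `A` separated for decreasing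
  filtrations respected by `g`, and exactness holds "modulo the next step" on every graded piece,
  then `ker f = im g`.
-/

set_option autoImplicit false

namespace Fermat.Agent.S55.H535

section Mul

variable {A B C : Type*} [CommGroup A] [CommGroup B] [CommGroup C]

/-- A filtration `F` is *separated* if the only element lying in every step is `1`. -/
def MulSeparated (F : ℕ → Subgroup A) : Prop := ∀ x : A, (∀ n, x ∈ F n) → x = 1

/-- A filtration `F` is *product-complete* if every sequence `a n ∈ F n` has a "convergent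
infinite product": an element `s` with `s / ∏_{i<n} a i ∈ F n` for every `n`. -/
def MulComplete (F : ℕ → Subgroup B) : Prop :=
  ∀ a : ℕ → B, (∀ n, a n ∈ F n) → ∃ s : B, ∀ n, s / ∏ i ∈ Finset.range n, a i ∈ F n

/-- **Successive approximation.**  Let `g : B →* A` and `f : A →* C` with `f ∘ g = 1`.  Let `FA`,
`FB` be filtrations with `g (FB n) ⊆ FA n`, `FA` separated, `FB` product-complete.  If every
`x ∈ FA n ∩ ker f` can be corrected by some `g y`, `y ∈ FB n`, into `FA (n+1)`, then every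
`x ∈ FA 0 ∩ ker f` is of the form `g y` with `y ∈ FB 0`. -/
theorem exact_of_graded_exact
    (FA : ℕ → Subgroup A) (FB : ℕ → Subgroup B)
    (g : B →* A) (f : A →* C) (hfg : ∀ b, f (g b) = 1)
    (hg : ∀ n b, b ∈ FB n → g b ∈ FA n)
    (hsep : MulSeparated FA) (hcomp : MulComplete FB)
    (hgr : ∀ n x, x ∈ FA n → f x = 1 → ∃ y ∈ FB n, x / g y ∈ FA (n + 1))
    (x : A) (hx0 : x ∈ FA 0) (hx : f x = 1) : ∃ y ∈ FB 0, g y = x := by
  classical
  -- the recursion on pairs (level-`n` element of `ker f`)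
  let P : ℕ → Type _ := fun n => {z : A // z ∈ FA n ∧ f z = 1}
  let corr : ∀ n, P n → B := fun n z => (hgr n z.1 z.2.1 z.2.2).choose
  have hcorr : ∀ n (z : P n), corr n z ∈ FB n ∧ z.1 / g (corr n z) ∈ FA (n + 1) :=
    fun n z => (hgr n z.1 z.2.1 z.2.2).choose_spec
  let step : ∀ n, P n → P (n + 1) := fun n z =>
    ⟨z.1 / g (corr n z), (hcorr n z).2, by rw [map_div, z.2.2, hfg, div_one]⟩
  let seq : ∀ n, P n := fun n => Nat.rec (motive := P) ⟨x, hx0, hx⟩ step n
  let y : ℕ → B := fun n => corr n (seq n)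
  have hy : ∀ n, y n ∈ FB n := fun n => (hcorr n (seq n)).1
  have hseq : ∀ n, (seq n).1 = x / g (∏ i ∈ Finset.range n, y i) := by
    intro n
    induction n with
    | zero => simp [seq]
    | succ n ih =>
      have h1 : (seq (n + 1)).1 = (seq n).1 / g (y n) := rfl
      rw [h1, ih, Finset.prod_range_succ, map_mul, div_div]
  obtain ⟨s, hs⟩ := hcomp y hy
  refine ⟨s, by simpa using hs 0, ?_⟩
  have hmem : ∀ n, x / g s ∈ FA n := by
    intro n
    have h1 : x / g s = (seq n).1 / g (s / ∏ i ∈ Finset.range n, y i) := by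
      rw [hseq n, map_div, div_div_div_cancel_right]
    rw [h1]
    exact (FA n).div_mem (seq n).2.1 (hg n _ (hs n))
  have := hsep _ hmem
  exact (div_eq_one.1 this).symm

end Mul

section Add

variable {A B C : Type*} [AddCommGroup A] [AddCommGroup B] [AddCommGroup C]

/-- Additive version of `MulSeparated`. -/
def AddSeparated (F : ℕ → AddSubgroup A) : Prop := ∀ x : A, (∀ n, x ∈ F n) → x = 0

/-- Additive version of `MulComplete`: every series `∑ a n`, `a n ∈ F n`, converges. -/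
def AddComplete (F : ℕ → AddSubgroup B) : Prop :=
  ∀ a : ℕ → B, (∀ n, a n ∈ F n) → ∃ s : B, ∀ n, s - ∑ i ∈ Finset.range n, a i ∈ F n

/-- Additive version of `exact_of_graded_exact`. -/
theorem add_exact_of_graded_exact
    (FA : ℕ → AddSubgroup A) (FB : ℕ → AddSubgroup B)
    (g : B →+ A) (f : A →+ C) (hfg : ∀ b, f (g b) = 0)
    (hg : ∀ n b, b ∈ FB n → g b ∈ FA n)
    (hsep : AddSeparated FA) (hcomp : AddComplete FB)
    (hgr : ∀ n x, x ∈ FA n → f x = 0 → ∃ y ∈ FB n, x - g y ∈ FA (n + 1))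
    (x : A) (hx0 : x ∈ FA 0) (hx : f x = 0) : ∃ y ∈ FB 0, g y = x := by
  classical
  let P : ℕ → Type _ := fun n => {z : A // z ∈ FA n ∧ f z = 0}
  let corr : ∀ n, P n → B := fun n z => (hgr n z.1 z.2.1 z.2.2).choose
  have hcorr : ∀ n (z : P n), corr n z ∈ FB n ∧ z.1 - g (corr n z) ∈ FA (n + 1) :=
    fun n z => (hgr n z.1 z.2.1 z.2.2).choose_spec
  let step : ∀ n, P n → P (n + 1) := fun n z =>
    ⟨z.1 - g (corr n z), (hcorr n z).2, by rw [map_sub, z.2.2, hfg, sub_zero]⟩
  let seq : ∀ n, P n := fun n => Nat.rec (motive := P) ⟨x, hx0, hx⟩ step n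
  let y : ℕ → B := fun n => corr n (seq n)
  have hy : ∀ n, y n ∈ FB n := fun n => (hcorr n (seq n)).1
  have hseq : ∀ n, (seq n).1 = x - g (∑ i ∈ Finset.range n, y i) := by
    intro n
    induction n with
    | zero => simp [seq]
    | succ n ih =>
      have h1 : (seq (n + 1)).1 = (seq n).1 - g (y n) := rfl
      rw [h1, ih, Finset.sum_range_succ, map_add, sub_sub]
  obtain ⟨s, hs⟩ := hcomp y hy
  refine ⟨s, by simpa using hs 0, ?_⟩
  have hmem : ∀ n, x - g s ∈ FA n := by
    intro n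
    have h1 : x - g s = (seq n).1 - g (s - ∑ i ∈ Finset.range n, y i) := by
      rw [hseq n, map_sub]
      abel
    rw [h1]
    exact (FA n).sub_mem (seq n).2.1 (hg n _ (hs n))
  have := hsep _ hmem
  exact (sub_eq_zero.1 this).symm

end Add

end Fermat.Agent.S55.H535

end
-- ===== PACK-END S55/H535/Filtration.lean

-- ===== PACK-BEGIN S55/H953/Discrete.lean
section


/-!
# S55 / local norm index: discreteness of the value group and compactness of the units

`L` is a proper (locally compact) ultrametric normed field with nontrivial norm.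

* `exists_uniformizer` : there is `ϖ ≠ 0` of maximal norm `< 1`;
* `exists_zpow_norm_eq` : every nonzero element has norm `‖ϖ‖ ^ k`, `k : ℤ`;
* `valZ` : the normalised valuation `Lˣ →* Multiplicative ℤ`;
* `finiteIndex_of_ball` : a subgroup of the norm-one units containing a ball around `1` has
  finite index in the group of norm-one units.
-/

set_option autoImplicit false

namespace Fermat.Agent.S55.H953

open Metric

variable {L : Type*} [NormedField L] [IsUltrametricDist L] [ProperSpace L]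

/-- there is an element of maximal norm `< 1` -/
lemma exists_uniformizer (hnt : ∃ x : L, x ≠ 0 ∧ ‖x‖ < 1) :
    ∃ ϖ : L, ϖ ≠ 0 ∧ ‖ϖ‖ < 1 ∧ ∀ x : L, ‖x‖ < 1 → ‖x‖ ≤ ‖ϖ‖ := by
  have hcl : IsClosed (ball (0 : L) 1) := IsUltrametricDist.isClosed_ball 0 1
  have hcomp : IsCompact (ball (0 : L) 1) :=
    IsCompact.of_isClosed_subset (isCompact_closedBall (0 : L) 1) hcl ball_subset_closedBall
  obtain ⟨ϖ, hϖ, hmax⟩ := hcomp.exists_isMaxOn ⟨0, mem_ball_self one_pos⟩
    (continuous_norm.continuousOn)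
  rw [mem_ball_zero_iff] at hϖ
  obtain ⟨x₀, hx₀, hx₀'⟩ := hnt
  have h1 : ∀ x : L, ‖x‖ < 1 → ‖x‖ ≤ ‖ϖ‖ := fun x hx => hmax (mem_ball_zero_iff.2 hx)
  refine ⟨ϖ, ?_, hϖ, h1⟩
  intro h0
  have := h1 x₀ hx₀'
  rw [h0, norm_zero] at this
  exact hx₀ (norm_le_zero_iff.1 this)

omit [IsUltrametricDist L] [ProperSpace L] in
lemma exists_zpow_norm_eq {ϖ : L} (h0 : ϖ ≠ 0) (h1 : ‖ϖ‖ < 1)
    (hmax : ∀ x : L, ‖x‖ < 1 → ‖x‖ ≤ ‖ϖ‖) {x : L} (hx : x ≠ 0) :
    ∃ k : ℤ, ‖x‖ = ‖ϖ‖ ^ k := by
  have hr0 : 0 < ‖ϖ‖ := norm_pos_iff.2 h0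
  have hinv : 1 < ‖ϖ‖⁻¹ := (one_lt_inv₀ hr0).2 h1
  obtain ⟨m, hm1, hm2⟩ := exists_mem_Ico_zpow (norm_pos_iff.2 hx) hinv
  -- (‖ϖ‖⁻¹)^m ≤ ‖x‖ < (‖ϖ‖⁻¹)^(m+1)
  refine ⟨-m, ?_⟩
  have hy : ‖x * ϖ ^ m‖ = ‖x‖ * ‖ϖ‖ ^ m := by rw [norm_mul, norm_zpow]
  have hpos : 0 < ‖ϖ‖ ^ m := zpow_pos hr0 m
  have hge : 1 ≤ ‖x * ϖ ^ m‖ := by
    rw [hy]
    rw [inv_zpow, ← zpow_neg] at hm1
    have := mul_le_mul_of_nonneg_right hm1 hpos.le
    rwa [← zpow_add₀ hr0.ne', neg_add_cancel, zpow_zero] at this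
  have hlt : ‖x * ϖ ^ m * ϖ‖ < 1 := by
    rw [norm_mul, hy]
    rw [inv_zpow, ← zpow_neg] at hm2
    have := mul_lt_mul_of_pos_right hm2 (zpow_pos hr0 (m + 1))
    rwa [← zpow_add₀ hr0.ne', neg_add_cancel, zpow_zero, zpow_add₀ hr0.ne', zpow_one,
      ← mul_assoc] at this
  have hle : ‖x * ϖ ^ m * ϖ‖ ≤ ‖ϖ‖ := hmax _ hlt
  rw [norm_mul] at hle
  have hle1 : ‖x * ϖ ^ m‖ ≤ 1 := by
    by_contra hcon
    rw [not_le] at hcon
    have := mul_lt_mul_of_pos_right hcon hr0
    rw [one_mul] at this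
    exact absurd hle (not_le.2 this)
  have heq : ‖x‖ * ‖ϖ‖ ^ m = 1 := by rw [← hy]; exact le_antisymm hle1 hge
  rw [zpow_neg]
  field_simp
  exact heq

section Val

omit [IsUltrametricDist L] [ProperSpace L]

variable {ϖ : L} (h0 : ϖ ≠ 0) (h1 : ‖ϖ‖ < 1) (hmax : ∀ x : L, ‖x‖ < 1 → ‖x‖ ≤ ‖ϖ‖)

/-- the normalised valuation, as a function -/
noncomputable def valFun (x : Lˣ) : ℤ :=
  Classical.choose (exists_zpow_norm_eq h0 h1 hmax x.ne_zero)

lemma norm_eq_zpow_valFun (x : Lˣ) : ‖(x : L)‖ = ‖ϖ‖ ^ valFun h0 h1 hmax x :=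
  Classical.choose_spec (exists_zpow_norm_eq h0 h1 hmax x.ne_zero)

include h0 h1 in
lemma zpow_norm_injective : Function.Injective fun k : ℤ => ‖ϖ‖ ^ k :=
  zpow_right_injective₀ (norm_pos_iff.2 h0) h1.ne

lemma valFun_eq_iff (x : Lˣ) (k : ℤ) : valFun h0 h1 hmax x = k ↔ ‖(x : L)‖ = ‖ϖ‖ ^ k := by
  constructor
  · rintro rfl
    exact norm_eq_zpow_valFun h0 h1 hmax x
  · intro h
    apply zpow_norm_injective h0 h1
    simp only
    rw [← norm_eq_zpow_valFun h0 h1 hmax x, h]

/-- the normalised valuation `Lˣ → ℤ` as an additive homomorphism -/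
noncomputable def valA : Additive Lˣ →+ ℤ where
  toFun x := valFun h0 h1 hmax (Additive.toMul x)
  map_zero' := by
    rw [valFun_eq_iff]
    simp
  map_add' x y := by
    rw [valFun_eq_iff]
    simp only [toMul_add, Units.val_mul, norm_mul]
    rw [zpow_add₀ (norm_pos_iff.2 h0).ne', ← norm_eq_zpow_valFun, ← norm_eq_zpow_valFun]

lemma valA_apply (x : Lˣ) : valA h0 h1 hmax (Additive.ofMul x) = valFun h0 h1 hmax x := rfl

lemma valA_eq_iff (x : Lˣ) (k : ℤ) :
    valA h0 h1 hmax (Additive.ofMul x) = k ↔ ‖(x : L)‖ = ‖ϖ‖ ^ k :=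
  valFun_eq_iff h0 h1 hmax x k

lemma valA_eq_zero_iff (x : Lˣ) : valA h0 h1 hmax (Additive.ofMul x) = 0 ↔ ‖(x : L)‖ = 1 := by
  rw [valA_eq_iff, zpow_zero]

lemma valA_surjective : Function.Surjective (valA h0 h1 hmax) := by
  intro k
  refine ⟨Additive.ofMul ((Units.mk0 ϖ h0) ^ k), ?_⟩
  rw [valA_eq_iff]
  simp

lemma valA_eq_of_norm_eq {x y : Lˣ} (h : ‖(x : L)‖ = ‖(y : L)‖) :
    valA h0 h1 hmax (Additive.ofMul x) = valA h0 h1 hmax (Additive.ofMul y) := by
  rw [valA_eq_iff, h]
  exact norm_eq_zpow_valFun h0 h1 hmax y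

end Val

/-- the group of units of norm one -/
def unitsNormOne (L : Type*) [NormedField L] : Subgroup Lˣ where
  carrier := {u | ‖(u : L)‖ = 1}
  one_mem' := by simp
  mul_mem' := by
    intro a b ha hb
    simp only [Set.mem_setOf_eq] at ha hb ⊢
    rw [Units.val_mul, norm_mul, ha, hb, mul_one]
  inv_mem' := by
    intro a ha
    simp only [Set.mem_setOf_eq] at ha ⊢
    rw [Units.val_inv_eq_inv_val, norm_inv, ha, inv_one]

omit [IsUltrametricDist L] [ProperSpace L] in
lemma mem_unitsNormOne {u : Lˣ} : u ∈ unitsNormOne L ↔ ‖(u : L)‖ = 1 := Iff.rfl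

/-- A subgroup of the norm-one units containing a ball around `1` has finite index in the group
of norm-one units. -/
theorem finite_quotient_of_ball (V : Subgroup Lˣ) {ε : ℝ} (hε : 0 < ε)
    (hV : ∀ u : Lˣ, ‖(u : L) - 1‖ < ε → u ∈ V) :
    Finite (↥(unitsNormOne L) ⧸ V.subgroupOf (unitsNormOne L)) := by
  have hcomp : IsCompact {x : L | ‖x‖ = 1} := by
    refine IsCompact.of_isClosed_subset (isCompact_closedBall (0 : L) 1) ?_ ?_
    · exact isClosed_eq continuous_norm continuous_const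
    · intro x hx
      rw [mem_closedBall_zero_iff]
      exact le_of_eq hx
  obtain ⟨T, hTs, hTfin, hTcov⟩ := hcomp.finite_cover_balls hε
  haveI : Finite T := hTfin
  have hne : ∀ t : T, (t : L) ≠ 0 := by
    intro t h
    have := hTs t.2
    simp only [Set.mem_setOf_eq] at this
    rw [h, norm_zero] at this
    exact zero_ne_one this
  let f : T → ↥(unitsNormOne L) ⧸ V.subgroupOf (unitsNormOne L) := fun t =>
    QuotientGroup.mk ⟨Units.mk0 (t : L) (hne t), hTs t.2⟩
  refine Finite.of_surjective f ?_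
  intro q
  obtain ⟨⟨u, hu⟩, rfl⟩ := QuotientGroup.mk_surjective q
  have hu' : (u : L) ∈ {x : L | ‖x‖ = 1} := hu
  obtain ⟨t, ht, hut⟩ := Set.mem_iUnion₂.1 (hTcov hu')
  refine ⟨⟨t, ht⟩, ?_⟩
  simp only [f]
  rw [QuotientGroup.eq]
  rw [Subgroup.mem_subgroupOf]
  apply hV
  simp only [Subgroup.coe_mul, Subgroup.coe_inv, Units.val_mul, Units.val_inv_eq_inv_val,
    Units.val_mk0]
  have ht1 : ‖t‖ = 1 := hTs ht
  have ht0 : t ≠ 0 := hne ⟨t, ht⟩
  have e : t⁻¹ * (u : L) - 1 = t⁻¹ * ((u : L) - t) := by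
    field_simp
  rw [e, norm_mul, norm_inv, ht1, inv_one, one_mul]
  rw [mem_ball, dist_eq_norm] at hut
  exact hut

end Fermat.Agent.S55.H953

end
-- ===== PACK-END S55/H953/Discrete.lean

-- ===== PACK-BEGIN S55/BLocal/Isometry.lean
section



/-!
# S55, layer B-local: the decomposition group of the `q`-adic place acts by isometries

`A = padicPlace q` is the valuation subring of `ℚ̄` cut out by the `q`-adic norm through the fixed
embedding `padicEmbedding q : ℚ̄ → PadicAlgCl q`.  Every `σ` in the decomposition group of `A`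
preserves the `q`-adic norm.
-/

set_option autoImplicit false

open scoped Pointwise

namespace Fermat.Agent.S55.BLocal

/-- `ℚ̄`. -/
abbrev Qb : Type := AlgebraicClosure ℚ

/-- The absolute Galois group of `ℚ`. -/
abbrev GQ : Type := Qb ≃ₐ[ℚ] Qb

variable (q : ℕ) [Fact q.Prime]

/-- The `q`-adic norm on `ℚ̄`. -/
noncomputable def qnorm (x : Qb) : ℝ := ‖padicEmbedding q x‖

theorem qnorm_nonneg (x : Qb) : 0 ≤ qnorm q x := norm_nonneg _

theorem qnorm_mul (x y : Qb) : qnorm q (x * y) = qnorm q x * qnorm q y := by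
  unfold qnorm
  rw [map_mul, norm_mul]

theorem qnorm_pow (x : Qb) (n : ℕ) : qnorm q (x ^ n) = qnorm q x ^ n := by
  unfold qnorm
  rw [map_pow, norm_pow]

theorem qnorm_zpow (x : Qb) (n : ℤ) : qnorm q (x ^ n) = qnorm q x ^ n := by
  unfold qnorm
  rw [map_zpow₀, norm_zpow]

theorem qnorm_eq_zero_iff (x : Qb) : qnorm q x = 0 ↔ x = 0 := by
  unfold qnorm
  rw [norm_eq_zero]
  exact map_eq_zero_iff _ (padicEmbedding q).toRingHom.injective

theorem qnorm_natCast_self : qnorm q (q : Qb) = (q : ℝ)⁻¹ := by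
  unfold qnorm
  rw [map_natCast]
  have h : ((q : ℕ) : PadicAlgCl q) = algebraMap ℚ_[q] (PadicAlgCl q) (q : ℚ_[q]) := by
    rw [map_natCast]
  rw [h]
  have := PadicAlgCl.norm_extends q (q : ℚ_[q])
  rw [this, Padic.norm_p]

theorem qnorm_sub_le_max (x y : Qb) : qnorm q (x - y) ≤ max (qnorm q x) (qnorm q y) := by
  unfold qnorm
  rw [map_sub, sub_eq_add_neg]
  have := PadicAlgCl.isNonarchimedean q (padicEmbedding q x) (-(padicEmbedding q y))
  rwa [norm_neg] at this

theorem mem_padicPlace_iff_qnorm (x : Qb) : x ∈ padicPlace q ↔ qnorm q x ≤ 1 := by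
  rw [mem_padicPlace_iff]
  unfold qnorm
  exact Iff.rfl

/-- Comparison of the `q`-adic norm with its transport by an automorphism preserving the unit
ball in one direction. -/
theorem qnorm_le_of_forall (σ : GQ)
    (h : ∀ y : Qb, qnorm q y ≤ 1 → qnorm q (σ y) ≤ 1) (x : Qb) :
    qnorm q (σ x) ≤ qnorm q x := by
  by_contra hlt
  rw [not_le] at hlt
  have hq1 : (1 : ℝ) < q := by exact_mod_cast (Fact.out : q.Prime).one_lt
  have hq0 : (0 : ℝ) < q := by linarith
  have hx : x ≠ 0 := by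
    rintro rfl
    rw [map_zero] at hlt
    exact lt_irrefl _ hlt
  have hs : 0 < qnorm q x :=
    lt_of_le_of_ne (qnorm_nonneg q x) (fun h0 => hx ((qnorm_eq_zero_iff q x).mp h0.symm))
  have ht : 0 < qnorm q (σ x) := hs.trans hlt
  obtain ⟨n, hn⟩ : ∃ n : ℕ, (q : ℝ) < (qnorm q (σ x) / qnorm q x) ^ n :=
    pow_unbounded_of_one_lt (q : ℝ) ((one_lt_div hs).mpr hlt)
  obtain ⟨k, hk1, hk2⟩ := exists_mem_Ioc_zpow (pow_pos hs n) hq1
  have hqk : (0 : ℝ) < (q : ℝ) ^ (k + 1) := zpow_pos hq0 _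
  -- the test element
  have hy : qnorm q (x ^ n * (q : Qb) ^ (k + 1)) ≤ 1 := by
    rw [qnorm_mul, qnorm_pow, qnorm_zpow, qnorm_natCast_self, inv_zpow]
    rw [← div_eq_mul_inv, div_le_one hqk]
    exact hk2
  have hσy := h _ hy
  rw [map_mul, map_pow, map_zpow₀, map_natCast, qnorm_mul, qnorm_pow, qnorm_zpow,
    qnorm_natCast_self, inv_zpow, ← div_eq_mul_inv, div_le_one hqk] at hσy
  -- contradiction
  have h1 : (q : ℝ) * qnorm q x ^ n < qnorm q (σ x) ^ n := by
    rw [div_pow, lt_div_iff₀ (pow_pos hs n)] at hn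
    exact hn
  have h2 : (q : ℝ) ^ (k + 1) = (q : ℝ) * (q : ℝ) ^ k := by
    rw [zpow_add₀ hq0.ne', zpow_one, mul_comm]
  have h3 : (q : ℝ) * (q : ℝ) ^ k < (q : ℝ) * qnorm q x ^ n :=
    mul_lt_mul_of_pos_left hk1 hq0
  linarith

/-- Elements of the decomposition group of the `q`-adic place preserve the unit ball. -/
theorem qnorm_le_one_of_mem_decomposition (σ : GQ)
    (hσ : σ ∈ (padicPlace q).decompositionSubgroup ℚ) (y : Qb) (hy : qnorm q y ≤ 1) :
    qnorm q (σ y) ≤ 1 := by
  rw [← mem_padicPlace_iff_qnorm] at hy ⊢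
  have h1 : σ • padicPlace q = padicPlace q := hσ
  rw [← h1]
  exact ValuationSubring.smul_mem_pointwise_smul σ y (padicPlace q) hy

/-- **Isometry.**  The decomposition group of the `q`-adic place of `ℚ̄` preserves the `q`-adic
norm. -/
theorem qnorm_eq_of_mem_decomposition (σ : GQ)
    (hσ : σ ∈ (padicPlace q).decompositionSubgroup ℚ) (x : Qb) :
    qnorm q (σ x) = qnorm q x := by
  apply le_antisymm
  · exact qnorm_le_of_forall q σ (qnorm_le_one_of_mem_decomposition q σ hσ) x
  · have hinv : σ⁻¹ ∈ (padicPlace q).decompositionSubgroup ℚ := Subgroup.inv_mem _ hσ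
    have := qnorm_le_of_forall q σ⁻¹ (qnorm_le_one_of_mem_decomposition q σ⁻¹ hinv) (σ x)
    have h2 : σ⁻¹ (σ x) = x := by
      show (σ⁻¹ * σ) x = x
      rw [inv_mul_cancel]
      rfl
    rwa [h2] at this

end Fermat.Agent.S55.BLocal

end
-- ===== PACK-END S55/BLocal/Isometry.lean

-- ===== PACK-BEGIN S55/G/Rec/Defs.lean
section




/-!
# S55 / layer G / block REC : definitions (cochain level, Prelude style)

Ground-truth objects for the Hasse principle and the reciprocity law, stated with the SAME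
level-constant cochains as the Prelude (`groupCohomology.continuousH2`), so that no finite-level
module (`E(F)`, `J(F)`, `C(F)`) enters the statements.

* `gBr U` : the Brauer group `H²_cont(U, ℚ̄ˣ)` of the fixed field `K = ℚ̄^U` of an open subgroup
  `U ≤ G_ℚ` (level-constant cocycles on `U` modulo coboundaries of level-constant cochains).
* `lBr q V` : the Brauer group `H²_cont(V, ℚ̄_qˣ)` of the fixed field of an open subgroup
  `V ≤ G_{ℚ_q} = Gal(ℚ̄_q/ℚ_q)`.
* `locSub q g U`, `locBr q g U : gBr U → lBr q (locSub q g U)` : localisation at the place of `K`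
  induced by the embedding `ι_q ∘ g⁻¹ : ℚ̄ → ℚ̄_q`  (`ι_q` = Prelude `padicEmbedding q`).
  The places of `K` above `q` are the double cosets `U \ G_ℚ / D_q`, `D_q = range (localGaloisToGlobal q)`.
* `gRes`, `lRes` : restriction to a smaller subgroup.
-/

set_option autoImplicit false

noncomputable section

namespace Fermat.Agent.S55.G.Rec

open groupCohomology

local notation "Qb" => AlgebraicClosure ℚ
local notation "GQ" => (AlgebraicClosure ℚ ≃ₐ[ℚ] AlgebraicClosure ℚ)

/-! ## Global objects -/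

/-- `ℚ̄ˣ` as a `G_ℚ`-module. -/
noncomputable abbrev gMod : Rep ℤ GQ := Rep.ofAlgebraAutOnUnits ℚ Qb

/-- `ℚ̄ˣ` as a `U`-module. -/
noncomputable abbrev gModOn (U : Subgroup GQ) : Rep ℤ ↥U := Rep.res U.subtype gMod

/-- An element of `ℚ̄ˣ` as an element of the module `gModOn U`. -/
def toGMod (U : Subgroup GQ) (a : Qbˣ) : gModOn U := Additive.ofMul a

/-- `U ≤ G_ℚ` is open: it contains `Gal(ℚ̄/F)` for some number field `F`. -/
def IsOpenQ (U : Subgroup GQ) : Prop :=
  ∃ F : IntermediateField ℚ Qb, FiniteDimensional ℚ F ∧ F.fixingSubgroup ≤ U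

/-- The Brauer group of the fixed field of `U`. -/
abbrev gBr (U : Subgroup GQ) : Type := continuousH2 U.subtype (gModOn U)

/-- Restriction `Br(K) → Br(K')`, `K' = ℚ̄^{U'}`, `U' ≤ U`. -/
noncomputable def gRes {U U' : Subgroup GQ} (h : U' ≤ U) : gBr U →ₗ[ℤ] gBr U' :=
  continuousH2Map (rH := U.subtype) (rG := U'.subtype) (Subgroup.inclusion h) (fun _ => rfl)
    (LinearMap.id : gModOn U →ₗ[ℤ] gModOn U') (fun _ _ => rfl)

/-! ## Local objects -/

section Local

variable (q : ℕ) [Fact q.Prime]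

local notation "Gq" => (PadicAlgCl q ≃ₐ[ℚ_[q]] PadicAlgCl q)

/-- `ℚ̄_qˣ` as a `G_{ℚ_q}`-module. -/
noncomputable abbrev lMod : Rep ℤ Gq := Rep.ofAlgebraAutOnUnits ℚ_[q] (PadicAlgCl q)

/-- `ℚ̄_qˣ` as a `V`-module. -/
noncomputable abbrev lModOn (V : Subgroup Gq) : Rep ℤ ↥V := Rep.res V.subtype (lMod q)

/-- An element of `ℚ̄_qˣ` as an element of the module `lModOn q V`. -/
def toLMod (V : Subgroup Gq) (a : (PadicAlgCl q)ˣ) : lModOn q V := Additive.ofMul a

/-- The map `V → G_{ℚ_q} → G_ℚ` used by the Prelude to define level-constancy. -/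
noncomputable abbrev lHom (V : Subgroup Gq) : ↥V →* GQ :=
  (localGaloisToGlobal q).comp V.subtype

/-- `V ≤ G_{ℚ_q}` is open. -/
def IsOpenL (V : Subgroup Gq) : Prop :=
  ∃ E : IntermediateField ℚ_[q] (PadicAlgCl q), FiniteDimensional ℚ_[q] E ∧ E.fixingSubgroup ≤ V

/-- The Brauer group of the fixed field of `V`. -/
abbrev lBr (V : Subgroup Gq) : Type := continuousH2 (lHom q V) (lModOn q V)

/-- Restriction `Br(K_v) → Br(K'_w)`. -/
noncomputable def lRes {V V' : Subgroup Gq} (h : V' ≤ V) : lBr q V →ₗ[ℤ] lBr q V' :=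
  continuousH2Map (rH := lHom q V) (rG := lHom q V') (Subgroup.inclusion h) (fun _ => rfl)
    (LinearMap.id : lModOn q V →ₗ[ℤ] lModOn q V') (fun _ _ => rfl)

/-! ## Localisation -/

/-- The decomposition-type subgroup `{τ ∈ G_{ℚ_q} | g · loc(τ) · g⁻¹ ∈ U}`: the absolute Galois
group of the completion of `K = ℚ̄^U` at the place induced by `ι_q ∘ g⁻¹`. -/
def locSub (g : GQ) (U : Subgroup GQ) : Subgroup Gq :=
  (U.comap (MulAut.conj g).toMonoidHom).comap (localGaloisToGlobal q)

variable {q} in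
lemma mem_locSub {g : GQ} {U : Subgroup GQ} {τ : Gq} :
    τ ∈ locSub q g U ↔ g * localGaloisToGlobal q τ * g⁻¹ ∈ U := Iff.rfl

/-- `τ ↦ g · loc(τ) · g⁻¹`. -/
noncomputable def locHom (g : GQ) (U : Subgroup GQ) : ↥(locSub q g U) →* ↥U where
  toFun τ := ⟨g * localGaloisToGlobal q τ * g⁻¹, τ.2⟩
  map_one' := by ext1; simp
  map_mul' a b := by ext1; simp [mul_assoc]

@[simp] lemma locHom_coe (g : GQ) (U : Subgroup GQ) (τ : ↥(locSub q g U)) :
    ((locHom q g U τ : ↥U) : GQ) = g * localGaloisToGlobal q τ * g⁻¹ := rfl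

/-- The coefficient map `ℚ̄ˣ → ℚ̄_qˣ`, `x ↦ ι_q (g⁻¹ x)`. -/
noncomputable def locPushMul (g : GQ) : Qbˣ →* (PadicAlgCl q)ˣ :=
  (Units.map ((padicEmbedding q : Qb →ₐ[ℚ] PadicAlgCl q) : Qb →* PadicAlgCl q)).comp
    (MulDistribMulAction.toMonoidHom Qbˣ g⁻¹)

@[simp] lemma locPushMul_coe (g : GQ) (x : Qbˣ) :
    ((locPushMul q g x : (PadicAlgCl q)ˣ) : PadicAlgCl q) = padicEmbedding q (g⁻¹ (x : Qb)) := rfl

/-- The coefficient map as a `ℤ`-linear map of the underlying modules. -/
noncomputable def locPush (g : GQ) (U : Subgroup GQ) :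
    gModOn U →ₗ[ℤ] lModOn q (locSub q g U) :=
  (MonoidHom.toAdditive (locPushMul q g)).toIntLinearMap

lemma locPush_apply (g : GQ) (U : Subgroup GQ) (a : gModOn U) :
    locPush q g U a = Additive.ofMul (locPushMul q g (Additive.toMul a)) := rfl

lemma locPush_equivariant (g : GQ) (U : Subgroup GQ) (τ : ↥(locSub q g U)) (a : gModOn U) :
    locPush q g U ((gModOn U).ρ (locHom q g U τ) a) =
      (lModOn q (locSub q g U)).ρ τ (locPush q g U a) := by
  apply Additive.toMul.injective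
  apply Units.ext
  show padicEmbedding q (g⁻¹ ((g * localGaloisToGlobal q τ * g⁻¹) ((Additive.toMul a : Qbˣ) : Qb)))
    = (τ : Gq) (padicEmbedding q (g⁻¹ ((Additive.toMul a : Qbˣ) : Qb)))
  rw [← padicEmbedding_localGaloisToGlobal]
  congr 1
  simp [AlgEquiv.mul_apply]

/-! ### Level-constancy is preserved by localisation -/

/-- Conjugation-invariance of levels: `s` fixes `g⁻¹ F` iff `g s g⁻¹` fixes `F`. -/
lemma mem_fixingSubgroup_map_inv (F : IntermediateField ℚ Qb) (g s : GQ) :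
    s ∈ (F.map (g⁻¹ : GQ).toAlgHom).fixingSubgroup ↔ g * s * g⁻¹ ∈ F.fixingSubgroup := by
  rw [IntermediateField.mem_fixingSubgroup_iff, IntermediateField.mem_fixingSubgroup_iff]
  have key : ∀ x : Qb, (g * s * g⁻¹) x = g (s ((g⁻¹ : GQ) x)) := fun _ => rfl
  have hg : ∀ x : Qb, g ((g⁻¹ : GQ) x) = x := fun x => AlgEquiv.apply_symm_apply g x
  have hg' : ∀ x : Qb, (g⁻¹ : GQ) (g x) = x := fun x => AlgEquiv.symm_apply_apply g x
  constructor
  · intro h x hx
    have h1 : s ((g⁻¹ : GQ) x) = (g⁻¹ : GQ) x := h ((g⁻¹ : GQ) x) ⟨x, hx, rfl⟩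
    show (g * s * g⁻¹) x = x
    rw [key, h1, hg]
  · rintro h _ ⟨x, hx, rfl⟩
    have h1 : (g * s * g⁻¹) x = x := h x hx
    rw [key] at h1
    show s ((g⁻¹ : GQ) x) = (g⁻¹ : GQ) x
    have h3 := congrArg (g⁻¹ : GQ) h1
    rwa [hg'] at h3

lemma finiteDimensional_map_inv (F : IntermediateField ℚ Qb) [FiniteDimensional ℚ F] (g : GQ) :
    FiniteDimensional ℚ (F.map (g⁻¹ : GQ).toAlgHom) :=
  LinearEquiv.finiteDimensional (IntermediateField.equivMap F (g⁻¹ : GQ).toAlgHom).toLinearEquiv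

lemma isLevelConstant₁_loc {X : Type*} (g : GQ) (U : Subgroup GQ) {x : ↥U → X}
    (hx : IsLevelConstant₁ U.subtype x) :
    IsLevelConstant₁ (lHom q (locSub q g U)) (x ∘ locHom q g U) := by
  obtain ⟨F, hF, h⟩ := hx
  refine ⟨F.map (g⁻¹ : GQ).toAlgHom, finiteDimensional_map_inv F g, fun τ σ hσ => ?_⟩
  simp only [Function.comp_apply, map_mul]
  refine h _ _ ?_
  exact (mem_fixingSubgroup_map_inv F g _).1 hσ

lemma isLevelConstant₂_loc {X : Type*} (g : GQ) (U : Subgroup GQ) {x : ↥U × ↥U → X}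
    (hx : IsLevelConstant₂ U.subtype x) :
    IsLevelConstant₂ (lHom q (locSub q g U))
      (x ∘ Prod.map (locHom q g U) (locHom q g U)) := by
  obtain ⟨F, hF, h⟩ := hx
  refine ⟨F.map (g⁻¹ : GQ).toAlgHom, finiteDimensional_map_inv F g, fun τ τ' σ σ' hσ hσ' => ?_⟩
  simp only [Function.comp_apply, Prod.map_apply, map_mul]
  refine h _ _ _ _ ?_ ?_
  · exact (mem_fixingSubgroup_map_inv F g _).1 hσ
  · exact (mem_fixingSubgroup_map_inv F g _).1 hσ'

/-- Localisation of 2-cochains: `c ↦ ((τ₁, τ₂) ↦ ι_q (g⁻¹ • c (g τ₁ g⁻¹, g τ₂ g⁻¹)))`. -/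
def locCochain₂ (g : GQ) (U : Subgroup GQ) :
    (↥U × ↥U → gModOn U) →ₗ[ℤ]
      (↥(locSub q g U) × ↥(locSub q g U) → lModOn q (locSub q g U)) :=
  cochainsPullPush₂ (locHom q g U) (locPush q g U)

/-- Localisation of 1-cochains. -/
def locCochain₁ (g : GQ) (U : Subgroup GQ) :
    (↥U → gModOn U) →ₗ[ℤ] (↥(locSub q g U) → lModOn q (locSub q g U)) :=
  cochainsPullPush₁ (locHom q g U) (locPush q g U)

lemma locCochain₂_mem_levelCocycles₂ (g : GQ) (U : Subgroup GQ) {c : ↥U × ↥U → gModOn U}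
    (hc : c ∈ levelCocycles₂ U.subtype (gModOn U)) :
    locCochain₂ q g U c ∈ levelCocycles₂ (lHom q (locSub q g U)) (lModOn q (locSub q g U)) :=
  ⟨cochainsPullPush₂_mem_cocycles₂ (locHom q g U) (locPush q g U)
      (locPush_equivariant q g U) hc.1,
    ((isLevelConstant₂_loc q g U hc.2).comp (locPush q g U) :)⟩

lemma locCochain₂_mem_levelCoboundaries₂ (g : GQ) (U : Subgroup GQ) {c : ↥U × ↥U → gModOn U}
    (hc : c ∈ levelCoboundaries₂ U.subtype (gModOn U)) :
    locCochain₂ q g U c ∈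
      levelCoboundaries₂ (lHom q (locSub q g U)) (lModOn q (locSub q g U)) := by
  obtain ⟨y, hy, rfl⟩ := (mem_levelCoboundaries₂_iff _ _ c).1 hc
  exact (mem_levelCoboundaries₂_iff _ _ _).2
    ⟨locCochain₁ q g U y, ((isLevelConstant₁_loc q g U hy).comp (locPush q g U) :),
      (cochainsPullPush₂_d₁₂ (locHom q g U) (locPush q g U)
        (locPush_equivariant q g U) y).symm⟩

/-- Localisation on level cocycles. -/
def locCocycles₂ (g : GQ) (U : Subgroup GQ) :
    ↥(levelCocycles₂ U.subtype (gModOn U)) →ₗ[ℤ]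
      ↥(levelCocycles₂ (lHom q (locSub q g U)) (lModOn q (locSub q g U))) :=
  (locCochain₂ q g U).restrict fun _ hc => locCochain₂_mem_levelCocycles₂ q g U hc

@[simp] lemma coe_locCocycles₂ (g : GQ) (U : Subgroup GQ)
    (c : ↥(levelCocycles₂ U.subtype (gModOn U))) :
    (locCocycles₂ q g U c : ↥(locSub q g U) × ↥(locSub q g U) → lModOn q (locSub q g U)) =
      locCochain₂ q g U c := rfl

/-- **Localisation** `Br(K) → Br(K_v)` at the place `v` of `K = ℚ̄^U` induced by `ι_q ∘ g⁻¹`. -/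
def locBr (g : GQ) (U : Subgroup GQ) : gBr U →ₗ[ℤ] lBr q (locSub q g U) :=
  Submodule.mapQ _ _ (locCocycles₂ q g U) fun _ hc =>
    locCochain₂_mem_levelCoboundaries₂ q g U hc

@[simp] lemma locBr_mk (g : GQ) (U : Subgroup GQ) (c : ↥(levelCocycles₂ U.subtype (gModOn U))) :
    locBr q g U (continuousH2π U.subtype (gModOn U) c) =
      continuousH2π (lHom q (locSub q g U)) (lModOn q (locSub q g U)) (locCocycles₂ q g U c) :=
  rfl

end Local

/-! ## Double cosets -/

/-- `R` is a system of representatives of the double cosets `U \ G / D`. -/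
def IsDoubleCosetReps {G : Type*} [Group G] (U D : Subgroup G) (R : Finset G) : Prop :=
  ∀ g : G, ∃! r, r ∈ R ∧ ∃ u ∈ U, ∃ d ∈ D, g = u * r * d

end Fermat.Agent.S55.G.Rec

end
end
-- ===== PACK-END S55/G/Rec/Defs.lean

-- ===== PACK-BEGIN S55/Inv/WrH413/Coeff.lean
section


/-!
# S55 / INV-WR (helper413), part 1: change of group and of coefficients at cochain level

`pp₁`, `pp₂` : pull back cochains along a group homomorphism `f : G' → G` and push them forward
along an additive map `κ : A → B` which is equivariant (`κ (f g • a) = g • κ a`); the coefficient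
RINGS of `A` and `B` may differ (e.g. `ZMod p` and `ℤ`).
-/

set_option autoImplicit false

namespace Fermat.Agent.S55.Inv.H413

open groupCohomology

section

variable {k k' : Type} [CommRing k] [CommRing k'] {G G' : Type} [Group G] [Group G']
  (A : Rep.{0, 0, 0} k G) (B : Rep.{0, 0, 0} k' G') (f : G' →* G) (κ : A →+ B)

/-- pull–push of 1-cochains -/
def pp₁ (b : G → A) : G' → B := fun x => κ (b (f x))

/-- pull–push of 2-cochains -/
def pp₂ (c : G × G → A) : G' × G' → B := fun x => κ (c (f x.1, f x.2))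

@[simp] lemma pp₁_apply (b : G → A) (x : G') : pp₁ A B f κ b x = κ (b (f x)) := rfl

@[simp] lemma pp₂_apply (c : G × G → A) (x y : G') :
    pp₂ A B f κ c (x, y) = κ (c (f x, f y)) := rfl

variable (hκ : ∀ (g : G') (a : A), κ (A.ρ (f g) a) = B.ρ g (κ a))

include hκ in
lemma pp₂_mem_cocycles₂ {c : G × G → A} (hc : c ∈ cocycles₂ A) :
    pp₂ A B f κ c ∈ cocycles₂ B := by
  rw [mem_cocycles₂_iff] at hc ⊢
  intro g h j
  simp only [pp₂_apply, map_mul]
  rw [← map_add, hc (f g) (f h) (f j), map_add, hκ]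

include hκ in
lemma pp_d₁₂ (b : G → A) :
    (d₁₂ B).hom (pp₁ A B f κ b) = pp₂ A B f κ ((d₁₂ A).hom b) := by
  funext ⟨g, h⟩
  simp only [d₁₂_hom_apply, pp₁_apply, pp₂_apply, map_mul, map_add, map_sub, hκ]

end

end Fermat.Agent.S55.Inv.H413

end
-- ===== PACK-END S55/Inv/WrH413/Coeff.lean

-- ===== PACK-BEGIN S55/G/Rec/K5H379/Poincare.lean
section


/-!
# S55 / G / REC, leaf K5 (helper379): Hilbert 90 by Poincaré series, for infinite groups

`Γ` acts on a field `L` by ring automorphisms, `φ : Γ → Lˣ` is a 1-cocycle which is invariant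
under right translation by a subgroup `N` of finite index, and `N` is exactly the stabiliser of
the image of a monoid `X → L`.  Then `φ` is a coboundary (Dedekind's independence of characters
applied to the Poincaré series `∑_{t ∈ Γ/N} φ(t) · t(x)`).

No finiteness of `Γ`, no topology, no Galois theory.
-/

set_option autoImplicit false

namespace Fermat.Agent.S55.G.Rec.K5H379

section Poincare

variable {Γ L X : Type*} [Group Γ] [Field L] [MulSemiringAction Γ L] [Monoid X]

/-- The character `x ↦ g • ι x` of the monoid `X`. -/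
def twistHom (ι : X →* L) (g : Γ) : X →* L where
  toFun x := g • ι x
  map_one' := by rw [map_one, smul_one]
  map_mul' x y := by rw [map_mul, smul_mul']

@[simp] lemma twistHom_apply (ι : X →* L) (g : Γ) (x : X) : twistHom ι g x = g • ι x := rfl

lemma twistHom_eq_of_coset (ι : X →* L) {N : Subgroup Γ} (hfix : ∀ s ∈ N, ∀ x, s • ι x = ι x)
    {g g' : Γ} (h : (g : Γ ⧸ N) = (g' : Γ ⧸ N)) : twistHom ι g = twistHom ι g' := by
  ext x
  have h1 : g⁻¹ * g' ∈ N := QuotientGroup.eq.mp h
  have h2 := hfix _ h1 x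
  simp only [twistHom_apply]
  calc g • ι x = g • ((g⁻¹ * g') • ι x) := by rw [h2]
    _ = g' • ι x := by rw [smul_smul, mul_inv_cancel_left]

lemma twistHom_out_injective (ι : X →* L) {N : Subgroup Γ}
    (hN : ∀ g : Γ, (∀ x, g • ι x = ι x) → g ∈ N) :
    Function.Injective fun t : Γ ⧸ N => twistHom ι (Quotient.out t : Γ) := by
  intro t t' h
  have h1 : (Quotient.out t : Γ)⁻¹ * (Quotient.out t' : Γ) ∈ N := by
    refine hN _ fun x => ?_
    have h2 : (Quotient.out t : Γ) • ι x = (Quotient.out t' : Γ) • ι x := DFunLike.congr_fun h x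
    rw [mul_smul, ← h2, smul_smul, inv_mul_cancel, one_smul]
  have h3 : ((Quotient.out t : Γ) : Γ ⧸ N) = ((Quotient.out t' : Γ) : Γ ⧸ N) :=
    QuotientGroup.eq.mpr h1
  rwa [QuotientGroup.out_eq', QuotientGroup.out_eq'] at h3

/-- **Hilbert 90 by Poincaré series.** -/
theorem exists_mul_smul_eq (ι : X →* L) (N : Subgroup Γ) [N.FiniteIndex]
    (hfix : ∀ s ∈ N, ∀ x, s • ι x = ι x) (hN : ∀ g : Γ, (∀ x, g • ι x = ι x) → g ∈ N)
    (φ : Γ → L) (hφ0 : ∀ g, φ g ≠ 0) (hφ : ∀ g h, φ (g * h) = φ g * g • φ h)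
    (hlev : ∀ g, ∀ s ∈ N, φ (g * s) = φ g) :
    ∃ c : L, c ≠ 0 ∧ ∀ g, φ g * g • c = c := by
  classical
  let _ : Fintype (Γ ⧸ N) := Subgroup.fintypeQuotientOfFiniteIndex
  -- `φ` and the twisted characters only depend on the coset
  have hφcoset : ∀ g g' : Γ, (g : Γ ⧸ N) = (g' : Γ ⧸ N) → φ g = φ g' := by
    intro g g' h
    have h1 : g⁻¹ * g' ∈ N := QuotientGroup.eq.mp h
    have := hlev g _ h1
    rw [mul_inv_cancel_left] at this
    exact this.symm
  -- Dedekind
  have hli : LinearIndependent L (fun t : Γ ⧸ N => (twistHom ι (Quotient.out t : Γ) : X → L)) :=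
    (linearIndependent_monoidHom X L).comp _ (twistHom_out_injective ι hN)
  have hne : ∃ x : X, ∑ t : Γ ⧸ N, φ (Quotient.out t : Γ) * (Quotient.out t : Γ) • ι x ≠ 0 := by
    by_contra hcon
    have hcon' : ∀ x : X,
        ∑ t : Γ ⧸ N, φ (Quotient.out t : Γ) * (Quotient.out t : Γ) • ι x = 0 := by
      intro x
      by_contra hx
      exact hcon ⟨x, hx⟩
    have hzero : ∑ t : Γ ⧸ N, φ (Quotient.out t : Γ) •
        (twistHom ι (Quotient.out t : Γ) : X → L) = 0 := by
      funext x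
      simp only [Finset.sum_apply, Pi.smul_apply, twistHom_apply, smul_eq_mul, Pi.zero_apply]
      exact hcon' x
    have := (linearIndependent_iff'.1 hli) Finset.univ _ hzero
      ((1 : Γ) : Γ ⧸ N) (Finset.mem_univ _)
    exact hφ0 _ this
  obtain ⟨x, hx⟩ := hne
  refine ⟨_, hx, fun g => ?_⟩
  rw [Finset.smul_sum, Finset.mul_sum]
  -- reindex by `t ↦ g • t`
  rw [← Equiv.sum_comp (MulAction.toPerm g : Equiv.Perm (Γ ⧸ N))
    (fun t => φ (Quotient.out t : Γ) * (Quotient.out t : Γ) • ι x)]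
  refine Finset.sum_congr rfl fun t _ => ?_
  have hcos : ((g * (Quotient.out t : Γ) : Γ) : Γ ⧸ N) =
      ((Quotient.out (g • t) : Γ) : Γ ⧸ N) := by
    rw [QuotientGroup.out_eq']
    conv_rhs => rw [← QuotientGroup.out_eq' t]
    rfl
  have e1 : φ (Quotient.out (g • t) : Γ) = φ g * g • φ (Quotient.out t : Γ) := by
    rw [← hφ]
    exact (hφcoset _ _ hcos).symm
  have e2 : (Quotient.out (g • t) : Γ) • ι x = g • ((Quotient.out t : Γ) • ι x) := by
    have := DFunLike.congr_fun (twistHom_eq_of_coset ι hfix hcos) x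
    simp only [twistHom_apply] at this
    rw [← this, mul_smul]
  simp only [MulAction.toPerm_apply]
  rw [e1, e2, smul_mul', mul_assoc]

end Poincare

end Fermat.Agent.S55.G.Rec.K5H379

end
-- ===== PACK-END S55/G/Rec/K5H379/Poincare.lean

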