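import Mathlib
import Fermat.Prelude.Thm_Algebra_finite_maximalSpectrum_and_bijective_localization_of_module_finite
import Fermat.Prelude.Thm_IsLocalRing_isAdicComplete_of_module_finite
import Fermat.Prelude.Def_GaloisRep_CompletionBridge
import Fermat.Agent.Pack.S43GC.G0E0L0
import Fermat.Agent.Pack.S43GC.G0E0L2
import Fermat.Agent.Pack.S43GC.G0E0L3
import Fermat.Agent.Pack.S43GC.G2E0L0
import Fermat.Agent.Pack.S43GC.G0E0L1
import Fermat.Agent.Pack.S43GC.G0E1L1
import Fermat.Agent.Pack.S44C.G0E0L0
import Fermat.Agent.Pack.S43GC.G0E1L3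
import Fermat.Agent.Pack.S44C.G0E20L3
import Fermat.Agent.Pack.Fast891

-- ===== PACK-BEGIN S56/H596/Cotangent.lean
section



/-!
# S56, piece TAN/T1 (helper596): tangent count ⟹ quotient of a power series ring

Let `𝒪` be a complete Noetherian local ring with residue field `k`, and let `R` be a complete
Noetherian local `𝒪`-algebra with `𝒪 → R` local and `𝒪 → R/𝔪_R` onto.  If there are at most
`|k| ^ r` homomorphisms of `𝒪`-algebras `R → k[ε]`, then `R` is a quotient of
`𝒪⟦X₁, …, X_r⟧`.

Main statements (all in `Fermat.Agent.S56.H596`):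
* `exists_algHom_dualNumber_of_min`   : for a minimal system `x` of generators of `𝔪_R` modulo
  `𝔪_𝒪 R + 𝔪_R²` and any `c : Fin d → k` there is `φ : R →ₐ[𝒪] k[ε]` with `φ (x i) = c i • ε`;
* `exists_surjective_of_forall_injective_le` : the injective-family form of the tangent bound;
* `exists_surjective_of_card_le`, `exists_surjective_of_finrank_le` : counting forms.
-/

set_option autoImplicit false
set_option linter.unusedSectionVars false
set_option linter.unusedVariables false
set_option linter.style.haveILetI false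

namespace Fermat.Agent.S56.H596

noncomputable section

open IsLocalRing Fermat.Agent.S53.H596

/-! ### Linear part of a power series -/

section LinPart

variable {σ : Type*} [Fintype σ] [DecidableEq σ] {𝒪 : Type*} [CommRing 𝒪]

/-- The part of total degree `≤ 1` of a power series. -/
def linPart (f : MvPowerSeries σ 𝒪) : MvPowerSeries σ 𝒪 :=
  MvPowerSeries.C (MvPowerSeries.coeff 0 f) +
    ∑ i, MvPowerSeries.C (MvPowerSeries.coeff (Finsupp.single i 1) f) * MvPowerSeries.X i

theorem eq_zero_or_single_of_degree_lt_two (e : σ →₀ ℕ) (he : e.degree < 2) :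
    e = 0 ∨ ∃ i, e = Finsupp.single i 1 := by
  by_cases h0 : e = 0
  · exact Or.inl h0
  right
  obtain ⟨i, hi⟩ : ∃ i, e i ≠ 0 := by
    by_contra hcon
    simp only [not_exists, not_not] at hcon
    exact h0 (Finsupp.ext hcon)
  refine ⟨i, ?_⟩
  have hsum : e.degree = ∑ j, e j := Finsupp.degree_eq_sum e
  have hsplit : ∑ j, e j = e i + ∑ j ∈ Finset.univ.erase i, e j :=
    (Finset.add_sum_erase _ _ (Finset.mem_univ i)).symm
  have hi1 : e i = 1 := by omega
  have hrest : ∑ j ∈ Finset.univ.erase i, e j = 0 := by omega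
  ext j
  by_cases hji : j = i
  · subst hji
    simp [hi1]
  · have : e j = 0 := by
      have := (Finset.sum_eq_zero_iff.1 hrest) j (Finset.mem_erase.2 ⟨hji, Finset.mem_univ j⟩)
      exact this
    rw [this, Finsupp.single_apply, if_neg (fun h => hji h.symm)]

theorem coeff_zero_linPart (f : MvPowerSeries σ 𝒪) :
    MvPowerSeries.coeff 0 (linPart f) = MvPowerSeries.coeff 0 f := by
  classical
  simp [linPart]

theorem coeff_single_linPart (f : MvPowerSeries σ 𝒪) (j : σ) :
    MvPowerSeries.coeff (Finsupp.single j 1) (linPart f) =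
      MvPowerSeries.coeff (Finsupp.single j 1) f := by
  classical
  simp [linPart, MvPowerSeries.coeff_C, MvPowerSeries.coeff_C_mul, MvPowerSeries.coeff_X,
    Finsupp.single_left_inj, Finset.sum_ite_eq]

theorem sub_linPart_mem_span_X_sq (f : MvPowerSeries σ 𝒪) :
    f - linPart f ∈
      (Ideal.span (Set.range (MvPowerSeries.X : σ → MvPowerSeries σ 𝒪))) ^ 2 := by
  have h := sub_truncTotal_mem_span_X_pow 2 (f - linPart f)
  have h0 : (MvPowerSeries.truncTotal 2 (f - linPart f) : MvPolynomial σ 𝒪) = 0 := by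
    ext e
    rw [MvPolynomial.coeff_zero]
    by_cases he : e.degree < 2
    · rw [MvPowerSeries.coeff_truncTotal _ he, map_sub, sub_eq_zero]
      rcases eq_zero_or_single_of_degree_lt_two e he with rfl | ⟨i, rfl⟩
      · exact (coeff_zero_linPart f).symm
      · exact (coeff_single_linPart f i).symm
    · exact MvPowerSeries.coeff_truncTotal_eq_zero _ (not_lt.1 he)
  rw [h0] at h
  simpa using h

/-- Any algebra map out of `𝒪⟦X⟧` sending the variables into an ideal `I` is, modulo `I²`,
given by the linear part. -/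
theorem map_sub_linear_mem_sq {A : Type*} [CommRing A] [Algebra 𝒪 A]
    (χ : MvPowerSeries σ 𝒪 →ₐ[𝒪] A) (I : Ideal A) (hχ : ∀ i, χ (MvPowerSeries.X i) ∈ I)
    (f : MvPowerSeries σ 𝒪) :
    χ f - (algebraMap 𝒪 A (MvPowerSeries.coeff 0 f) +
      ∑ i, algebraMap 𝒪 A (MvPowerSeries.coeff (Finsupp.single i 1) f) *
        χ (MvPowerSeries.X i)) ∈ I ^ 2 := by
  have hC : ∀ a : 𝒪, χ (MvPowerSeries.C a) = algebraMap 𝒪 A a := by
    intro a
    have : (MvPowerSeries.C a : MvPowerSeries σ 𝒪) = algebraMap 𝒪 (MvPowerSeries σ 𝒪) a := by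
      rw [MvPowerSeries.algebraMap_apply]
      rfl
    rw [this, AlgHom.commutes]
  have hlin : χ (linPart f) = algebraMap 𝒪 A (MvPowerSeries.coeff 0 f) +
      ∑ i, algebraMap 𝒪 A (MvPowerSeries.coeff (Finsupp.single i 1) f) *
        χ (MvPowerSeries.X i) := by
    simp only [linPart, map_add, map_sum, map_mul, hC]
  rw [← hlin, ← map_sub]
  have hle : Ideal.map χ (Ideal.span (Set.range (MvPowerSeries.X : σ → MvPowerSeries σ 𝒪))) ≤ I := by
    rw [Ideal.map_span, Ideal.span_le]
    rintro _ ⟨_, ⟨i, rfl⟩, rfl⟩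
    exact hχ i
  have h1 : χ (f - linPart f) ∈ Ideal.map χ
      ((Ideal.span (Set.range (MvPowerSeries.X : σ → MvPowerSeries σ 𝒪))) ^ 2) :=
    Ideal.mem_map_of_mem _ (sub_linPart_mem_span_X_sq f)
  rw [Ideal.map_pow] at h1
  exact Ideal.pow_right_mono hle 2 h1

end LinPart

/-! ### Minimal systems of generators of the relative cotangent space -/

section Gen

variable (𝒪 : Type*) [CommRing 𝒪] [IsLocalRing 𝒪]
variable (R : Type*) [CommRing R] [IsLocalRing R] [Algebra 𝒪 R]

/-- `GenProp 𝒪 R d`: the maximal ideal of `R` is generated, modulo `𝔪_𝒪 R + 𝔪_R²`, by `d`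
elements. -/
def GenProp (d : ℕ) : Prop :=
  ∃ x : Fin d → R, (∀ i, x i ∈ maximalIdeal R) ∧
    maximalIdeal R ≤ Ideal.map (algebraMap 𝒪 R) (maximalIdeal 𝒪) ⊔
      Ideal.span (Set.range x) ⊔ maximalIdeal R ^ 2

variable {𝒪 R}

theorem exists_genProp [IsNoetherianRing R] : ∃ d, GenProp 𝒪 R d := by
  obtain ⟨n, s, hs⟩ := Submodule.fg_iff_exists_fin_generating_family.1
    (IsNoetherian.noetherian (maximalIdeal R))
  refine ⟨n, s, fun i => ?_, ?_⟩
  · rw [← hs]
    exact Submodule.subset_span ⟨i, rfl⟩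
  · have : maximalIdeal R = Ideal.span (Set.range s) := hs.symm
    rw [this]
    exact le_sup_of_le_left le_sup_right

theorem GenProp.mono {d r : ℕ} (hdr : d ≤ r) (h : GenProp 𝒪 R d) : GenProp 𝒪 R r := by
  obtain ⟨x, hx, hgen⟩ := h
  refine ⟨fun i => if h : (i : ℕ) < d then x ⟨i, h⟩ else 0, fun i => ?_, ?_⟩
  · by_cases h : (i : ℕ) < d
    · simp only [h, dif_pos]
      exact hx _
    · simp only [h, dif_neg, not_false_eq_true]
      exact Ideal.zero_mem _
  · refine hgen.trans (sup_le_sup_right (sup_le_sup_left ?_ _) _)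
    rw [Ideal.span_le]
    rintro _ ⟨i, rfl⟩
    apply Ideal.subset_span
    refine ⟨⟨i, lt_of_lt_of_le i.2 hdr⟩, ?_⟩
    simp

/-- **Independence from minimality.** If `x` is a system of `d` generators of `𝔪_R` modulo
`𝔪_𝒪 R + 𝔪_R²` and no system with fewer elements exists, then an `𝒪`-linear combination of the
`x i` lying in `𝔪_𝒪 R + 𝔪_R²` has all its coefficients in `𝔪_𝒪`. -/
theorem coeff_mem_of_min {d : ℕ} (hmin : ∀ d' < d, ¬ GenProp 𝒪 R d')
    (x : Fin d → R) (hx : ∀ i, x i ∈ maximalIdeal R)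
    (hgen : maximalIdeal R ≤ Ideal.map (algebraMap 𝒪 R) (maximalIdeal 𝒪) ⊔
      Ideal.span (Set.range x) ⊔ maximalIdeal R ^ 2)
    (a : Fin d → 𝒪)
    (ha : ∑ i, algebraMap 𝒪 R (a i) * x i ∈
      Ideal.map (algebraMap 𝒪 R) (maximalIdeal 𝒪) ⊔ maximalIdeal R ^ 2)
    (j : Fin d) : a j ∈ maximalIdeal 𝒪 := by
  by_contra hj
  have hu : IsUnit (a j) := by
    rw [mem_maximalIdeal, mem_nonunits_iff, not_not] at hj
    exact hj
  obtain ⟨n, rfl⟩ : ∃ n, d = n + 1 := ⟨d - 1, by have := j.pos; omega⟩
  apply hmin n (Nat.lt_succ_self n)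
  refine ⟨x ∘ j.succAbove, fun i => hx _, ?_⟩
  set K : Ideal R := Ideal.map (algebraMap 𝒪 R) (maximalIdeal 𝒪) ⊔
      Ideal.span (Set.range (x ∘ j.succAbove)) ⊔ maximalIdeal R ^ 2 with hK
  have hspan : ∀ z, x (j.succAbove z) ∈ K := fun z =>
    (le_sup_of_le_left le_sup_right : Ideal.span (Set.range (x ∘ j.succAbove)) ≤ K)
      (Ideal.subset_span ⟨z, rfl⟩)
  have hJK : Ideal.map (algebraMap 𝒪 R) (maximalIdeal 𝒪) ⊔ maximalIdeal R ^ 2 ≤ K :=
    sup_le (le_sup_of_le_left le_sup_left) le_sup_right
  have hxK : ∀ i, x i ∈ K := by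
    intro i
    by_cases hij : i = j
    · subst hij
      have hsum := Fin.sum_univ_succAbove (fun i => algebraMap 𝒪 R (a i) * x i) i
      have h1 : algebraMap 𝒪 R (a i) * x i ∈ K := by
        have h2 : algebraMap 𝒪 R (a i) * x i = (∑ i, algebraMap 𝒪 R (a i) * x i) -
            ∑ z, algebraMap 𝒪 R (a (i.succAbove z)) * x (i.succAbove z) := by
          rw [hsum]; ring
        rw [h2]
        refine K.sub_mem (hJK ha) ?_
        exact K.sum_mem fun z _ => K.mul_mem_left _ (hspan z)
      have hu' : IsUnit (algebraMap 𝒪 R (a i)) := hu.map _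
      exact (Ideal.unit_mul_mem_iff_mem K hu').1 h1
    · obtain ⟨z, hz⟩ := Fin.exists_succAbove_eq hij
      rw [← hz]
      exact hspan z
  refine hgen.trans (sup_le (sup_le ?_ ?_) ?_)
  · exact le_sup_of_le_left le_sup_left
  · rw [Ideal.span_le]
    rintro _ ⟨i, rfl⟩
    exact hxK i
  · exact le_sup_right

end Gen

/-! ### Dual numbers -/

section DualBasic

variable (k : Type*) [Field k]

theorem isArtinianRing_dualNumber : IsArtinianRing (DualNumber k) := by
  have _ : Module.Finite k (DualNumber k) := inferInstanceAs (Module.Finite k (k × k))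
  exact IsArtinianRing.of_finite k (DualNumber k)

theorem isAdicComplete_dualNumber :
    IsAdicComplete (maximalIdeal (DualNumber k)) (DualNumber k) := by
  haveI := isArtinianRing_dualNumber k
  infer_instance

theorem maximalIdeal_dualNumber_sq : maximalIdeal (DualNumber k) ^ 2 = ⊥ := by
  rw [DualNumber.maximalIdeal_eq_span_singleton_eps, Ideal.span_singleton_pow, pow_two,
    DualNumber.eps_mul_eps, Ideal.span_singleton_eq_bot]

variable {k}

theorem inr_mem_maximalIdeal (c : k) :
    (TrivSqZeroExt.inr c : DualNumber k) ∈ maximalIdeal (DualNumber k) := by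
  rw [mem_maximalIdeal, mem_nonunits_iff, TrivSqZeroExt.isUnit_iff_isUnit_fst,
    TrivSqZeroExt.fst_inr]
  exact not_isUnit_zero

theorem mem_maximalIdeal_dualNumber_iff (z : DualNumber k) :
    z ∈ maximalIdeal (DualNumber k) ↔ TrivSqZeroExt.fst z = 0 := by
  rw [mem_maximalIdeal, mem_nonunits_iff, TrivSqZeroExt.isUnit_iff_isUnit_fst, isUnit_iff_ne_zero,
    not_not]

end DualBasic

/-! ### Construction of tangent vectors -/

section Tangent

variable {𝒪 : Type*} [CommRing 𝒪] [IsLocalRing 𝒪] [IsNoetherianRing 𝒪]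
  [IsAdicComplete (maximalIdeal 𝒪) 𝒪]
variable {R : Type*} [CommRing R] [IsLocalRing R] [IsNoetherianRing R]
  [IsAdicComplete (maximalIdeal R) R] [Algebra 𝒪 R]
variable [Algebra 𝒪 (DualNumber (ResidueField 𝒪))]

/-- **Tangent vectors from a minimal system of generators.**  -/
theorem exists_algHom_dualNumber_of_min
    (hloc : IsLocalHom (algebraMap 𝒪 R))
    (hres : Function.Surjective (IsLocalRing.residue R ∘ algebraMap 𝒪 R))
    (halg : ∀ a : 𝒪, algebraMap 𝒪 (DualNumber (ResidueField 𝒪)) a =
      TrivSqZeroExt.inl (residue 𝒪 a))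
    {d : ℕ} (hmin : ∀ d' < d, ¬ GenProp 𝒪 R d')
    (x : Fin d → R) (hx : ∀ i, x i ∈ maximalIdeal R)
    (hgen : maximalIdeal R ≤ Ideal.map (algebraMap 𝒪 R) (maximalIdeal 𝒪) ⊔
      Ideal.span (Set.range x) ⊔ maximalIdeal R ^ 2)
    (c : Fin d → ResidueField 𝒪) :
    ∃ φ : R →ₐ[𝒪] DualNumber (ResidueField 𝒪), ∀ i, φ (x i) = TrivSqZeroExt.inr (c i) := by
  classical
  obtain ⟨π, hπsurj, hπX⟩ := exists_surjective_algHom_of_generators_mod_sq hloc hres x hx hgen
  haveI := isAdicComplete_dualNumber (ResidueField 𝒪)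
  set ψ : MvPowerSeries (Fin d) 𝒪 →ₐ[𝒪] DualNumber (ResidueField 𝒪) :=
    evalCNL (R := 𝒪) (maximalIdeal (DualNumber (ResidueField 𝒪)))
      (fun i => (TrivSqZeroExt.inr (c i) : DualNumber (ResidueField 𝒪)))
      (fun i => inr_mem_maximalIdeal (c i)) with hψ
  have hψX : ∀ i, ψ (MvPowerSeries.X i) = TrivSqZeroExt.inr (c i) := fun i =>
    evalCNL_X _ _ _ i
  have hker : RingHom.ker π.toRingHom ≤ RingHom.ker ψ.toRingHom := by
    intro f hf
    have hf0 : π f = 0 := hf
    have hπ2 := map_sub_linear_mem_sq π (maximalIdeal R) (fun i => by rw [hπX i]; exact hx i) f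
    have hψ2 := map_sub_linear_mem_sq ψ (maximalIdeal (DualNumber (ResidueField 𝒪)))
      (fun i => by rw [hψX i]; exact inr_mem_maximalIdeal (c i)) f
    rw [maximalIdeal_dualNumber_sq, Ideal.mem_bot, sub_eq_zero] at hψ2
    rw [hf0, zero_sub, Ideal.neg_mem_iff] at hπ2
    simp only [hπX] at hπ2
    simp only [hψX] at hψ2
    -- the constant coefficient lies in `𝔪_𝒪`
    have hsq_le : maximalIdeal R ^ 2 ≤ maximalIdeal R := Ideal.pow_le_self two_ne_zero
    have hsum_mem : ∑ i, algebraMap 𝒪 R (MvPowerSeries.coeff (Finsupp.single i 1) f) * x i ∈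
        maximalIdeal R :=
      Ideal.sum_mem _ fun i _ => Ideal.mul_mem_left _ _ (hx i)
    have h0 : MvPowerSeries.coeff 0 f ∈ maximalIdeal 𝒪 := by
      by_contra hcon
      rw [mem_maximalIdeal, mem_nonunits_iff, not_not] at hcon
      have hu : IsUnit (algebraMap 𝒪 R (MvPowerSeries.coeff 0 f)) := hcon.map _
      have hm : algebraMap 𝒪 R (MvPowerSeries.coeff 0 f) ∈ maximalIdeal R := by
        have := Ideal.sub_mem _ (hsq_le hπ2) hsum_mem
        rwa [add_sub_cancel_right] at this
      exact (mem_maximalIdeal _).1 hm hu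
    -- the linear combination lies in `𝔪_𝒪 R + 𝔪_R²`
    have hlin : ∑ i, algebraMap 𝒪 R (MvPowerSeries.coeff (Finsupp.single i 1) f) * x i ∈
        Ideal.map (algebraMap 𝒪 R) (maximalIdeal 𝒪) ⊔ maximalIdeal R ^ 2 := by
      have h1 : algebraMap 𝒪 R (MvPowerSeries.coeff 0 f) ∈
          Ideal.map (algebraMap 𝒪 R) (maximalIdeal 𝒪) ⊔ maximalIdeal R ^ 2 :=
        Ideal.mem_sup_left (Ideal.mem_map_of_mem _ h0)
      have h2 := Ideal.sub_mem _ (Ideal.mem_sup_right hπ2 :
        _ ∈ Ideal.map (algebraMap 𝒪 R) (maximalIdeal 𝒪) ⊔ maximalIdeal R ^ 2) h1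
      rwa [add_sub_cancel_left] at h2
    have hcoef := coeff_mem_of_min hmin x hx hgen _ hlin
    -- conclusion
    show ψ f = 0
    rw [hψ2, halg, (residue_eq_zero_iff _).2 h0, TrivSqZeroExt.inl_zero, zero_add]
    refine Finset.sum_eq_zero fun i _ => ?_
    rw [halg, (residue_eq_zero_iff _).2 (hcoef i), TrivSqZeroExt.inl_zero, zero_mul]
  refine ⟨AlgHom.liftOfSurjective π hπsurj ψ hker, fun i => ?_⟩
  rw [← hπX i, AlgHom.liftOfSurjective_apply, hψX]

/-- **T1, injective-family form.** If every injective family of `𝒪`-algebra maps `R → k[ε]`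
indexed by `k ^ d` has `d ≤ r`, then `R` is a quotient of `𝒪⟦X₁, …, X_r⟧`. -/
theorem exists_surjective_of_forall_injective_le
    (hloc : IsLocalHom (algebraMap 𝒪 R))
    (hres : Function.Surjective (IsLocalRing.residue R ∘ algebraMap 𝒪 R))
    (halg : ∀ a : 𝒪, algebraMap 𝒪 (DualNumber (ResidueField 𝒪)) a =
      TrivSqZeroExt.inl (residue 𝒪 a))
    (r : ℕ)
    (h : ∀ d : ℕ, ∀ F : (Fin d → ResidueField 𝒪) → (R →ₐ[𝒪] DualNumber (ResidueField 𝒪)),
      Function.Injective F → d ≤ r) :
    ∃ γ : MvPowerSeries (Fin r) 𝒪 →ₐ[𝒪] R, Function.Surjective γ := by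
  classical
  have hex := exists_genProp (𝒪 := 𝒪) (R := R)
  have hP : GenProp 𝒪 R (Nat.find hex) := Nat.find_spec hex
  have hmin : ∀ d' < Nat.find hex, ¬ GenProp 𝒪 R d' := fun d' hd' => Nat.find_min hex hd'
  obtain ⟨x, hx, hgen⟩ := hP
  have hφ := fun c => exists_algHom_dualNumber_of_min hloc hres halg hmin x hx hgen c
  choose F hF using hφ
  have hinj : Function.Injective F := by
    intro c c' hcc'
    funext i
    have := hF c i
    rw [hcc', hF c' i] at this
    exact (TrivSqZeroExt.inr_injective this).symm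
  have hdr : Nat.find hex ≤ r := h _ F hinj
  obtain ⟨x', hx', hgen'⟩ := GenProp.mono hdr ⟨x, hx, hgen⟩
  obtain ⟨γ, hγ, -⟩ := exists_surjective_algHom_of_generators_mod_sq hloc hres x' hx' hgen'
  exact ⟨γ, hγ⟩

/-- **T1, counting form.** If the `𝒪`-algebra maps `R → k[ε]` inject into a finite set with at
most `|k| ^ r` elements, then `R` is a quotient of `𝒪⟦X₁, …, X_r⟧`. -/
theorem exists_surjective_of_card_le [Finite (ResidueField 𝒪)]
    (hloc : IsLocalHom (algebraMap 𝒪 R))
    (hres : Function.Surjective (IsLocalRing.residue R ∘ algebraMap 𝒪 R))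
    (halg : ∀ a : 𝒪, algebraMap 𝒪 (DualNumber (ResidueField 𝒪)) a =
      TrivSqZeroExt.inl (residue 𝒪 a))
    (r : ℕ) {ι : Type*} [Finite ι]
    (G : (R →ₐ[𝒪] DualNumber (ResidueField 𝒪)) → ι) (hG : Function.Injective G)
    (hι : Nat.card ι ≤ Nat.card (ResidueField 𝒪) ^ r) :
    ∃ γ : MvPowerSeries (Fin r) 𝒪 →ₐ[𝒪] R, Function.Surjective γ := by
  apply exists_surjective_of_forall_injective_le hloc hres halg r
  intro d F hF
  have h1 : Nat.card (Fin d → ResidueField 𝒪) ≤ Nat.card ι :=
    Nat.card_le_card_of_injective (G ∘ F) (hG.comp hF)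
  rw [Nat.card_fun, Nat.card_fin] at h1
  have h2 : 1 < Nat.card (ResidueField 𝒪) := Finite.one_lt_card
  exact (Nat.pow_le_pow_iff_right h2).1 (h1.trans hι)

/-- **T1, dimension form.** If the `𝒪`-algebra maps `R → k[ε]` inject into a `k`-vector space
of dimension at most `r`, then `R` is a quotient of `𝒪⟦X₁, …, X_r⟧`. -/
theorem exists_surjective_of_finrank_le [Finite (ResidueField 𝒪)]
    (hloc : IsLocalHom (algebraMap 𝒪 R))
    (hres : Function.Surjective (IsLocalRing.residue R ∘ algebraMap 𝒪 R))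
    (halg : ∀ a : 𝒪, algebraMap 𝒪 (DualNumber (ResidueField 𝒪)) a =
      TrivSqZeroExt.inl (residue 𝒪 a))
    (r : ℕ) {V : Type*} [AddCommGroup V] [Module (ResidueField 𝒪) V]
    [Module.Finite (ResidueField 𝒪) V]
    (G : (R →ₐ[𝒪] DualNumber (ResidueField 𝒪)) → V) (hG : Function.Injective G)
    (hV : Module.finrank (ResidueField 𝒪) V ≤ r) :
    ∃ γ : MvPowerSeries (Fin r) 𝒪 →ₐ[𝒪] R, Function.Surjective γ := by
  haveI : Finite V := Module.finite_of_finite (ResidueField 𝒪)
  refine exists_surjective_of_card_le hloc hres halg r G hG ?_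
  rw [Module.natCard_eq_pow_finrank (K := ResidueField 𝒪) (V := V)]
  exact Nat.pow_le_pow_right Nat.card_pos hV

end Tangent

/-! ### Algebra maps between local algebras with the same residue field are local -/

section Local

variable {𝒪 : Type*} [CommRing 𝒪]
variable {R : Type*} [CommRing R] [IsLocalRing R] [Algebra 𝒪 R]
variable {A : Type*} [CommRing A] [IsLocalRing A] [Algebra 𝒪 A]

theorem isLocalHom_of_residue_surjective
    (hresA : Function.Surjective (IsLocalRing.residue A ∘ algebraMap 𝒪 A))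
    (φ : R →ₐ[𝒪] A) : IsLocalHom (φ : R →+* A) := by
  refine ⟨fun x hu => ?_⟩
  by_contra hx
  have hu' : IsUnit (φ x) := hu
  obtain ⟨a, ha⟩ := hresA ((residue A (φ x))⁻¹)
  have hy : IsUnit (1 - algebraMap 𝒪 R a * x) := by
    have hm : algebraMap 𝒪 R a * x ∈ maximalIdeal R :=
      Ideal.mul_mem_left _ _ ((mem_maximalIdeal x).2 hx)
    by_contra hcon
    have h1 : (1 : R) - algebraMap 𝒪 R a * x ∈ maximalIdeal R := (mem_maximalIdeal _).2 hcon
    have h2 := Ideal.add_mem _ h1 hm
    rw [sub_add_cancel] at h2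
    exact (mem_maximalIdeal (1 : R)).1 h2 isUnit_one
  have hφy : IsUnit (φ (1 - algebraMap 𝒪 R a * x)) := hy.map φ
  rw [map_sub, map_one, map_mul, AlgHom.commutes] at hφy
  have hres0 : residue A (1 - algebraMap 𝒪 A a * φ x) = 0 := by
    have hne : residue A (φ x) ≠ 0 := by
      intro h0
      exact ((residue_eq_zero_iff _).1 h0) hu'
    rw [map_sub, map_one, map_mul]
    have : residue A (algebraMap 𝒪 A a) = (residue A (φ x))⁻¹ := ha
    rw [this, inv_mul_cancel₀ hne, sub_self]
  exact ((residue_eq_zero_iff _).1 hres0) hφy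

end Local

end

end Fermat.Agent.S56.H596

end
-- ===== PACK-END S56/H596/Cotangent.lean

-- ===== PACK-BEGIN S55/KL/Spec.lean
section


/-!
# S55, layer KB ("Kummer bridge", abstract part): frozen interface         (architect: helper183)

Spec pattern: every statement is a `def XxxSpec : Prop`; producers prove `theorem xxx : XxxSpec`
in `Fermat/Agent/S55/KL/<Name>H<seat>.lean` (namespace `Fermat.Agent.S55.KL.H<seat>`), consumers
take `(h : XxxSpec)`.  Blueprint with proofs: `coord/S55-KL.md` on `origin/helper183`.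

Content: `cd_p ≤ 2` from a `p`-divisible smooth module `A` (`A = ℚ̄_qˣ` locally, `A = 𝒪_S^×` of
`ℚ_S` globally) whose finite-level cohomology satisfies
`colim H³(A)[p] = 0` and `colim H²(A) ⊗ ℤ/p = 0`.
-/

set_option autoImplicit false

open CategoryTheory groupCohomology

namespace Fermat.Agent.S55.KL

/-! ## KB-NAT: naturality of the connecting homomorphism along group homomorphisms -/

/-- **KB-NAT.**  Let `f : G → H` be a group homomorphism, `X` a short exact sequence of
`H`-modules, `Y` a short exact sequence of `G`-modules and `φ : res_f X → Y` a morphism of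
sequences.  Then `δ_Y ∘ (f, φ₃)^* = (f, φ₁)^* ∘ δ_X` on cohomology. -/
def DeltaNatSpec : Prop :=
  ∀ (k G H : Type) [CommRing k] [Group G] [Group H] (f : G →* H)
    (X : ShortComplex (Rep.{0} k H)) (hX : X.ShortExact)
    (Y : ShortComplex (Rep.{0} k G)) (hY : Y.ShortExact)
    (φ₁ : Rep.res f X.X₁ ⟶ Y.X₁) (φ₂ : Rep.res f X.X₂ ⟶ Y.X₂) (φ₃ : Rep.res f X.X₃ ⟶ Y.X₃),
    (Rep.resFunctor f).map X.f ≫ φ₂ = φ₁ ≫ Y.f →
    (Rep.resFunctor f).map X.g ≫ φ₃ = φ₂ ≫ Y.g →
    ∀ (i j : ℕ) (hij : i + 1 = j),
      δ hX i j hij ≫ groupCohomology.map f φ₁ j = groupCohomology.map f φ₃ i ≫ δ hY i j hij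

/-! ## KB-KUM3: the Kummer chase in degree 3 -/

/-- **KB-KUM3.**  If `A` is smooth and `p`-divisible, `colim H³(A)[p] = 0` and
`colim H²(A)/p = 0`, then `colim H³(A[p]) = 0`. -/
def KummerH3Spec : Prop :=
  ∀ (k Γ : Type) [CommRing k] [Group Γ] (N : NLevels Γ) (A : Rep.{0} k Γ) (p : ℕ), p.Prime →
    IsSmooth N A → IsDivisibleBy A p → EffTors N A p 3 → EffDiv N A p 2 →
      EffAll N (tors A p) 3

/-! ## KB-DEV: dévissage (Sylow + filtration) -/

/-- **KB-DEV.**  Let `μ` be a smooth module of order `p` such that `colim H³(U, μ) = 0` for every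
open subgroup `U`.  Then `colim H³(Γ, R) = 0` for every finite smooth `p`-torsion module `R`.
(`k` is a quotient of `ℤ`, e.g. `ℤ` or `ZMod p`, so that modules of order `p` are isomorphic.) -/
def DevissageSpec : Prop :=
  ∀ (k Γ : Type) [CommRing k] [Group Γ], Function.Surjective (Int.cast : ℤ → k) →
    ∀ (N : NLevels Γ) (μ : Rep.{0} k Γ) (p : ℕ), p.Prime → Nat.card μ.V = p → IsSmooth N μ →
      (∀ U : Subgroup Γ, N.IsOpen U → EffAll (N.restrict U) (Rep.res U.subtype μ) 3) →
        CdLeTwo N k p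

/-- **KB-DEV-C** (filtration induction).  If `Γ` acts on `R` through a finite `p`-group and `μ` is
a module of order `p` with trivial action and `colim H³(Γ, μ) = 0`, then `colim H³(Γ, R) = 0`.
(Induct on `|R|`: a `p`-group acting on `R ≠ 0` has a stable subgroup `R₁` of index `p` with
trivial action on `R/R₁ ≅ μ`; long exact sequence in degree 3 + `DeltaNatSpec`.) -/
def DevPGroupSpec : Prop :=
  ∀ (k Γ : Type) [CommRing k] [Group Γ], Function.Surjective (Int.cast : ℤ → k) →
    ∀ (N : NLevels Γ) (μ : Rep.{0} k Γ) (p : ℕ), p.Prime → Nat.card μ.V = p →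
      (∀ (g : Γ) (m : μ.V), μ.ρ g m = m) → EffAll N μ 3 →
      ∀ R : Rep.{0} k Γ, Finite R.V → (∀ r : R.V, p • r = 0) →
        (∃ V : N.Lvl, ActsTrivially V.W R ∧ IsPGroup p (Γ ⧸ V.W)) → EffAll N R 3

/-- **KB-DEV-B** (Sylow reduction).  To prove `colim H³(Γ, R) = 0` for a finite smooth
`p`-torsion module `R` it suffices to prove `colim H³(U, R) = 0` for the open subgroups `U` such
that `U/V` is a `p`-group for some level `V ≤ V₀` acting trivially on `R`
(`V₀` an arbitrary level).  (Take `U` = preimage of a Sylow `p`-subgroup of `Γ/V`;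
restriction is injective on `p`-torsion: layer T `ResIndexSpec`.) -/
def DevSylowSpec : Prop :=
  ∀ (k Γ : Type) [CommRing k] [Group Γ] (N : NLevels Γ) (p : ℕ), p.Prime →
    ∀ R : Rep.{0} k Γ, Finite R.V → (∀ r : R.V, p • r = 0) → IsSmooth N R → ∀ V₀ : N.Lvl,
      (∀ (U : Subgroup Γ) (V : N.Lvl), V.W ≤ U → V.W ≤ V₀.W → ActsTrivially V.W R →
          IsPGroup p (↥U ⧸ V.W.subgroupOf U) →
            EffAll (N.restrict U) (Rep.res U.subtype R) 3) →
        EffAll N R 3

/-! ## KB-CD: the abstract theorem -/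

/-- The hypotheses on `(Γ, N, A, p)`: `A` is smooth and `p`-divisible, `A[p]` has order `p`, and
for every open subgroup `U`: `colim_V H³(U/V, A^V)[p] = 0`, `colim_V H²(U/V, A^V) ⊗ ℤ/p = 0`. -/
def KummerHyp {k Γ : Type} [CommRing k] [Group Γ] (N : NLevels Γ) (A : Rep.{0} k Γ) (p : ℕ) :
    Prop :=
  IsSmooth N A ∧ IsDivisibleBy A p ∧ Nat.card (tors A p).V = p ∧
    ∀ U : Subgroup Γ, N.IsOpen U →
      EffTors (N.restrict U) (Rep.res U.subtype A) p 3 ∧
        EffDiv (N.restrict U) (Rep.res U.subtype A) p 2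

/-- **KB-CD.**  `KummerHyp ⇒ cd_p ≤ 2` (finite-level form). -/
def CdSpec : Prop :=
  ∀ (k Γ : Type) [CommRing k] [Group Γ], Function.Surjective (Int.cast : ℤ → k) →
    ∀ (N : NLevels Γ) (A : Rep.{0} k Γ) (p : ℕ), p.Prime → KummerHyp N A p → CdLeTwo N k p


/-! ## KB-DICT: level-constant cocycles versus finite levels (degree 2) -/

/-- **KB-DICT2a.**  A level-constant 2-cocycle with values in a smooth module is inflated from a
finite level (which may be chosen below any given level `V₀`). -/
def DictCocycle₂Spec : Prop :=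
  ∀ (k Γ : Type) [CommRing k] [Group Γ] (N : NLevels Γ) (R : Rep.{0} k Γ), IsSmooth N R →
    ∀ c ∈ cocycles₂ R, IsLC₂ N c → ∀ V₀ : N.Lvl,
      ∃ (V : N.Lvl) (_ : V.W ≤ V₀.W) (c' : cocycles₂ (R.quotientToInvariants V.W)),
        ∀ g h : Γ, ((c'.1 ((g : Γ ⧸ V.W), (h : Γ ⧸ V.W)) : _) : R.V) = c (g, h)

/-- **KB-DICT2b.**  Inflation on classes is inflation on cocycles. -/
def DictInfl₂Spec : Prop :=
  ∀ (k Γ : Type) [CommRing k] [Group Γ] (N : NLevels Γ) (R : Rep.{0} k Γ) (V' V : N.Lvl)
    (h : V'.W ≤ V.W) (c : cocycles₂ (R.quotientToInvariants V.W))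
    (c' : cocycles₂ (R.quotientToInvariants V'.W)),
    (∀ g g' : Γ, ((c'.1 ((g : Γ ⧸ V'.W), (g' : Γ ⧸ V'.W)) : _) : R.V) =
        ((c.1 ((g : Γ ⧸ V.W), (g' : Γ ⧸ V.W)) : _) : R.V)) →
      (infl R h 2).hom ((H2π _).hom c) = (H2π _).hom c'

/-! ## KB-A4: `cd_p ≤ 2` ⇒ `H²` is right exact on level-constant cohomology (input A3 / A4 of D) -/

/-- **KB-A4.**  If `cd_p ≤ 2` (finite-level form) then every level-constant 2-cocycle with values
in a quotient `Q` of a finite smooth `p`-torsion module `P` lifts to `P` up to the coboundary of a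
level-constant 1-cochain. -/
def SurjH2Spec : Prop :=
  ∀ (k Γ : Type) [CommRing k] [Group Γ] (N : NLevels Γ) (p : ℕ), p.Prime → CdLeTwo N k p →
    ∀ (P Q : Rep.{0} k Γ) (φ : P ⟶ Q), Function.Surjective φ.hom → Finite P.V →
      (∀ x : P.V, p • x = 0) → IsSmooth N P →
      ∀ c ∈ cocycles₂ Q, IsLC₂ N c →
        ∃ c' ∈ cocycles₂ P, IsLC₂ N c' ∧ ∃ b : Γ → Q.V, IsLC₁ N b ∧
          ∀ g h : Γ, φ.hom (c' (g, h)) = c (g, h) + (d₁₂ Q).hom b (g, h)

end Fermat.Agent.S55.KL

end
-- ===== PACK-END S55/KL/Spec.lean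

-- ===== PACK-BEGIN S55/L/SpecInv.lean
section


/-!
# S55, layer L (local class field theory): frozen interface, part 2

Unramified extensions, Frobenius, the invariant maps and their compatibilities (stated on
cocycles, so that no identification of `Rep`-objects is needed), local existence modulo `p`.
-/

set_option autoImplicit false

namespace Fermat.Agent.S55.L

open groupCohomology

/-! ### Uniformizers, unramified extensions, Frobenius -/

/-- `π` is a uniformizer of the valuation subring `A`. -/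
def IsUniformizer {K : Type} [Field K] (A : ValuationSubring K) (π : K) : Prop :=
  ∃ h : π ∈ A, Irreducible (⟨π, h⟩ : A)

/-- `L/K` is an unramified extension of local fields: a uniformizer of `K` stays a uniformizer. -/
def IsUnramifiedExt (K L : Type) [Field K] [Field L] [Algebra K L] : Prop :=
  ∃ (A : ValuationSubring K) (B : ValuationSubring L) (π : K),
    IsLocalRingOfIntegers A ∧ IsLocalRingOfIntegers B ∧
      IsUniformizer A π ∧ IsUniformizer B (algebraMap K L π)

/-- `φ ∈ Gal(L/K)` is a Frobenius element: `φ x ≡ x ^ |k_K|` modulo the maximal ideal of the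
ring of integers of `L`. -/
def IsFrobeniusElt (K L : Type) [Field K] [Field L] [Algebra K L] (φ : L ≃ₐ[K] L) : Prop :=
  ∃ (A : ValuationSubring K) (B : ValuationSubring L),
    IsLocalRingOfIntegers A ∧ IsLocalRingOfIntegers B ∧
      ∀ x ∈ B, φ x - x ^ Nat.card (IsLocalRing.ResidueField A) ∈ B.nonunits

/-- **L-A2a** existence of the unramified extension of each degree. -/
def UnramifiedExistsSpec : Prop :=
  ∀ (K : Type) [Field K] [IsLocalFld K] (n : ℕ), 0 < n →
    ∃ (L : Type) (_ : Field L) (_ : Algebra K L), FiniteDimensional K L ∧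
      IsUnramifiedExt K L ∧ Module.finrank K L = n

/-- **L-A2b** an unramified extension is Galois and cyclic, generated by a Frobenius element. -/
def UnramifiedCyclicSpec : Prop :=
  ∀ (K L : Type) [Field K] [Field L] [Algebra K L] [FiniteDimensional K L] [IsLocalFld K],
    IsUnramifiedExt K L →
      IsGalois K L ∧ ∃ φ : L ≃ₐ[K] L, IsFrobeniusElt K L φ ∧ ∀ g : L ≃ₐ[K] L, g ∈ Subgroup.zpowers φ

/-- **L-A2c** inside a finite extension `M/K`, two unramified subextensions of the same degree
coincide (as intermediate fields). -/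
def UnramifiedUniqueSpec : Prop :=
  ∀ (K M : Type) [Field K] [Field M] [Algebra K M] [FiniteDimensional K M] [IsLocalFld K]
    (E E' : IntermediateField K M), IsUnramifiedExt K E → IsUnramifiedExt K E' →
      Module.finrank K E = Module.finrank K E' → E = E'

/-- **L-B1** in an unramified extension every unit of `K` is the norm of a unit of `L`. -/
def UnramifiedNormUnitsSpec : Prop :=
  ∀ (K L : Type) [Field K] [Field L] [Algebra K L] [FiniteDimensional K L] [IsLocalFld K],
    IsUnramifiedExt K L →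
    ∀ (A : ValuationSubring K) (B : ValuationSubring L),
      IsLocalRingOfIntegers A → IsLocalRingOfIntegers B →
        ∀ u : Kˣ, u ∈ A.unitGroup →
          ∃ w : Lˣ, w ∈ B.unitGroup ∧ Algebra.norm K (w : L) = (u : K)

/-! ### Cocycles -/

/-- The class in `H²` of a `2`-cocycle. -/
noncomputable abbrev cls {K L : Type} [Field K] [Field L] [Algebra K L]
    (f : cocycles₂ (unitsRep K L)) : H2 (unitsRep K L) :=
  (H2π (unitsRep K L)).hom f

/-- `f` is the cyclic-algebra cocycle of `(φ, a)`: `f (φ^i, φ^j) = 1` if `i + j < n` and `= a`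
otherwise, for `0 ≤ i, j < n = [L : K]`. -/
def IsCyclicCocycle {K L : Type} [Field K] [Field L] [Algebra K L]
    (φ : L ≃ₐ[K] L) (a : Kˣ) (f : cocycles₂ (unitsRep K L)) : Prop :=
  ∀ i j : ℕ, i < Module.finrank K L → j < Module.finrank K L →
    (f : (L ≃ₐ[K] L) × (L ≃ₐ[K] L) → unitsRep K L) (φ ^ i, φ ^ j) =
      if i + j < Module.finrank K L then 0
      else Additive.ofMul (Units.map (algebraMap K L : K →* L) a)

/-- `f'` (on `Gal(L'/K)`) is the inflation of `f` (on `Gal(L/K)`), for a tower `K ⊆ L ⊆ L'` with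
`L/K` normal. -/
def IsInflation {K L L' : Type} [Field K] [Field L] [Field L'] [Algebra K L] [Algebra K L']
    [Algebra L L'] [IsScalarTower K L L'] [Normal K L]
    (f : cocycles₂ (unitsRep K L)) (f' : cocycles₂ (unitsRep K L')) : Prop :=
  ∀ g h : L' ≃ₐ[K] L',
    (f' : (L' ≃ₐ[K] L') × (L' ≃ₐ[K] L') → unitsRep K L') (g, h) =
      Additive.ofMul (Units.map (algebraMap L L' : L →* L')
        (Additive.toMul ((f : (L ≃ₐ[K] L) × (L ≃ₐ[K] L) → unitsRep K L)
          (AlgEquiv.restrictNormalHom L g, AlgEquiv.restrictNormalHom L h))))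

/-- `f'` (on `Gal(L/K')`) is the restriction of `f` (on `Gal(L/K)`), for a tower `K ⊆ K' ⊆ L`. -/
def IsRestriction {K K' L : Type} [Field K] [Field K'] [Field L] [Algebra K K'] [Algebra K L]
    [Algebra K' L] [IsScalarTower K K' L]
    (f : cocycles₂ (unitsRep K L)) (f' : cocycles₂ (unitsRep K' L)) : Prop :=
  ∀ g h : L ≃ₐ[K'] L,
    (f' : (L ≃ₐ[K'] L) × (L ≃ₐ[K'] L) → unitsRep K' L) (g, h) =
      (f : (L ≃ₐ[K] L) × (L ≃ₐ[K] L) → unitsRep K L)
        (g.restrictScalars K, h.restrictScalars K)

/-- `f'` is the transport of `f` along compatible field isomorphisms `K ≃ K'`, `L ≃ L'`. -/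
def IsTransport {K L K' L' : Type} [Field K] [Field L] [Algebra K L] [Field K'] [Field L']
    [Algebra K' L'] (e : L ≃+* L') (c : (L ≃ₐ[K] L) ≃* (L' ≃ₐ[K'] L'))
    (f : cocycles₂ (unitsRep K L)) (f' : cocycles₂ (unitsRep K' L')) : Prop :=
  ∀ g h : L ≃ₐ[K] L,
    (f' : (L' ≃ₐ[K'] L') × (L' ≃ₐ[K'] L') → unitsRep K' L') (c g, c h) =
      Additive.ofMul (Units.map (e : L →* L')
        (Additive.toMul ((f : (L ≃ₐ[K] L) × (L ≃ₐ[K] L) → unitsRep K L) (g, h))))

/-! ### The invariant maps -/

/-- A compatible family of local invariant maps `inv_{L/K} : H²(Gal(L/K), Lˣ) → ℚ/ℤ`. -/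
structure InvFamily where
  /-- the invariant map -/
  inv : ∀ (K L : Type) [Field K] [Field L] [Algebra K L] [FiniteDimensional K L] [IsGalois K L]
    [IsLocalFld K], H2 (unitsRep K L) →+ AddCircle (1 : ℚ)
  inv_injective : ∀ (K L : Type) [Field K] [Field L] [Algebra K L] [FiniteDimensional K L]
    [IsGalois K L] [IsLocalFld K], Function.Injective (inv K L)
  inv_inflation : ∀ (K L L' : Type) [Field K] [Field L] [Field L'] [Algebra K L] [Algebra K L']
    [Algebra L L'] [IsScalarTower K L L'] [FiniteDimensional K L] [FiniteDimensional K L']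
    [IsGalois K L] [IsGalois K L'] [IsLocalFld K]
    (f : cocycles₂ (unitsRep K L)) (f' : cocycles₂ (unitsRep K L')),
    IsInflation f f' → inv K L' (cls f') = inv K L (cls f)
  inv_restriction : ∀ (K K' L : Type) [Field K] [Field K'] [Field L] [Algebra K K'] [Algebra K L]
    [Algebra K' L] [IsScalarTower K K' L] [FiniteDimensional K L] [FiniteDimensional K' L]
    [IsGalois K L] [IsGalois K' L] [IsLocalFld K] [IsLocalFld K']
    (f : cocycles₂ (unitsRep K L)) (f' : cocycles₂ (unitsRep K' L)),
    IsRestriction f f' → inv K' L (cls f') = Module.finrank K K' • inv K L (cls f)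
  inv_transport : ∀ (K L K' L' : Type) [Field K] [Field L] [Algebra K L] [Field K'] [Field L']
    [Algebra K' L'] [FiniteDimensional K L] [FiniteDimensional K' L'] [IsGalois K L]
    [IsGalois K' L'] [IsLocalFld K] [IsLocalFld K']
    (e : L ≃+* L') (c : (L ≃ₐ[K] L) ≃* (L' ≃ₐ[K'] L'))
    (_ : ∀ (g : L ≃ₐ[K] L) (x : L), c g (e x) = e (g x))
    (f : cocycles₂ (unitsRep K L)) (f' : cocycles₂ (unitsRep K' L')),
    IsTransport e c f f' → inv K' L' (cls f') = inv K L (cls f)
  inv_unramified : ∀ (K L : Type) [Field K] [Field L] [Algebra K L] [FiniteDimensional K L]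
    [IsGalois K L] [IsLocalFld K], IsUnramifiedExt K L →
    ∀ (A : ValuationSubring K), IsLocalRingOfIntegers A →
    ∀ (φ : L ≃ₐ[K] L), IsFrobeniusElt K L φ →
    ∀ (π : Kˣ), IsUniformizer A (π : K) →
    ∀ (f : cocycles₂ (unitsRep K L)), IsCyclicCocycle φ π f →
      inv K L (cls f) = (((Module.finrank K L : ℚ)⁻¹ : ℚ) : AddCircle (1 : ℚ))

/-- **L-C2** existence of the invariant maps. -/
def InvSpec : Prop := Nonempty InvFamily

/-! ### Existence theorem modulo `p` -/

/-- **L-D2** local existence theorem modulo `n`: every local field `K` has a finite Galois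
extension `L` whose norm group is contained in `(Kˣ)ⁿ`. -/
def ExistenceModSpec : Prop :=
  ∀ (K : Type) [Field K] [IsLocalFld K] (n : ℕ), 0 < n →
    ∃ (L : Type) (_ : Field L) (_ : Algebra K L), FiniteDimensional K L ∧ IsGalois K L ∧
      ∀ x : L, x ≠ 0 → ∃ y : K, Algebra.norm K x = y ^ n

end Fermat.Agent.S55.L

end
-- ===== PACK-END S55/L/SpecInv.lean

-- ===== PACK-BEGIN S55/H572/CoindTriv.lean
section


/-!
# Tate cohomology of modules coinduced from the trivial subgroup vanishes

For a finite group `G` and `A₀ : Rep R (⊥ : Subgroup G)`, the coinduced module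
`coind (⊥ : Subgroup G).subtype A₀` (functions `G → A₀`, right translation action) has
vanishing Tate cohomology in every degree.
-/

set_option autoImplicit false

open CategoryTheory groupCohomology groupHomology Rep Limits

universe u

namespace Fermat.Agent.S55.H572

noncomputable section

section general

variable {R G : Type u} [CommRing R] [Group G]

/-- Every function lies in the coinduction from the trivial subgroup. -/
lemma mem_coindV_bot (A₀ : Rep.{u} R (⊥ : Subgroup G)) (f : G → A₀) :
    f ∈ Representation.coindV (⊥ : Subgroup G).subtype A₀.ρ := by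
  intro g h
  have hg : g = 1 := Subsingleton.elim _ _
  subst hg
  simp

/-- Build an element of `coind ⊥ A₀` from an arbitrary function. -/
def mkCoind (A₀ : Rep.{u} R (⊥ : Subgroup G)) (f : G → A₀) :
    coind (⊥ : Subgroup G).subtype A₀ :=
  ⟨f, mem_coindV_bot A₀ f⟩

@[simp]
lemma mkCoind_coe (A₀ : Rep.{u} R (⊥ : Subgroup G)) (f : G → A₀) (x : G) :
    (mkCoind A₀ f).1 x = f x := rfl

lemma coind_ρ_coe (A₀ : Rep.{u} R (⊥ : Subgroup G)) (g : G)
    (f : coind (⊥ : Subgroup G).subtype A₀) (x : G) :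
    ((coind (⊥ : Subgroup G).subtype A₀).ρ g f).1 x = f.1 (x * g) := rfl

lemma d₁₀_hom_single (M : Rep.{u} R G) (g : G) (a : M) :
    (d₁₀ M).hom (Finsupp.single g a) = M.ρ g⁻¹ a - a := d₁₀_single M g a

end general

variable {R G : Type u} [CommRing R] [Group G] [Fintype G]

lemma coind_norm_coe (A₀ : Rep.{u} R (⊥ : Subgroup G))
    (f : coind (⊥ : Subgroup G).subtype A₀) (x : G) :
    ((coind (⊥ : Subgroup G).subtype A₀).ρ.norm f).1 x = ∑ g : G, f.1 (x * g) := by
  simp only [Representation.norm, LinearMap.sum_apply]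
  rw [Submodule.coe_sum, Finset.sum_apply]
  rfl

theorem isZero_tateCohomology_coind_bot_zero (A₀ : Rep.{u} R (⊥ : Subgroup G)) :
    IsZero (tateCohomology (coind (⊥ : Subgroup G).subtype A₀) 0) := by
  classical
  rw [isZero_tateCohomology_zero_iff]
  intro x hx
  refine ⟨mkCoind A₀ (fun t => if t = 1 then x.1 1 else 0), ?_⟩
  apply Subtype.ext
  funext t
  rw [coind_norm_coe]
  simp only [mkCoind_coe]
  have hconst : x.1 t = x.1 1 := by
    have h1 : ((coind (⊥ : Subgroup G).subtype A₀).ρ t x).1 1 = x.1 1 := by rw [hx t]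
    rw [coind_ρ_coe, one_mul] at h1
    exact h1
  rw [hconst]
  have h2 : ∀ g : G, (t * g = 1) ↔ g = t⁻¹ := fun g => by
    rw [mul_eq_one_iff_eq_inv']
  simp only [h2]
  simp

theorem isZero_tateCohomology_coind_bot_neg_one (A₀ : Rep.{u} R (⊥ : Subgroup G)) :
    IsZero (tateCohomology (coind (⊥ : Subgroup G).subtype A₀) (-1)) := by
  classical
  rw [isZero_tateCohomology_neg_one_iff]
  intro x hx
  have hsum : ∑ g : G, x.1 g = 0 := by
    have h1 := coind_norm_coe A₀ x 1
    rw [hx] at h1
    simpa using h1.symm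
  refine ⟨∑ g : G, Finsupp.single g (mkCoind A₀ (fun t => if t = 1 then x.1 g else 0)), ?_⟩
  rw [map_sum]
  rw [Finset.sum_congr rfl (fun g _ => d₁₀_hom_single (coind (⊥ : Subgroup G).subtype A₀) g _)]
  apply Subtype.ext
  funext t
  rw [Submodule.coe_sum, Finset.sum_apply]
  have key : ∀ g : G,
      ((coind (⊥ : Subgroup G).subtype A₀).ρ g⁻¹
          (mkCoind A₀ (fun s => if s = 1 then x.1 g else 0)) -
        mkCoind A₀ (fun s => if s = 1 then x.1 g else 0)).1 t =
      (if t = g then x.1 g else 0) - (if t = 1 then x.1 g else 0) := by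
    intro g
    have h1 : ((coind (⊥ : Subgroup G).subtype A₀).ρ g⁻¹
          (mkCoind A₀ (fun s => if s = 1 then x.1 g else 0))).1 t =
        (if t * g⁻¹ = 1 then x.1 g else 0) := rfl
    have h2 : (t * g⁻¹ = 1) ↔ t = g := by
      rw [mul_inv_eq_one]
    rw [Submodule.coe_sub, Pi.sub_apply, h1, mkCoind_coe]
    simp only [h2]
  rw [Finset.sum_congr rfl (fun g _ => key g), Finset.sum_sub_distrib]
  have h2 : ∑ g : G, (if t = 1 then x.1 g else 0) = 0 := by
    by_cases ht : t = 1
    · simp [ht, hsum]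
    · simp [ht]
  rw [h2, sub_zero]
  simp

theorem isZero_tateCohomology_coind_bot_pos (A₀ : Rep.{u} R (⊥ : Subgroup G)) (n : ℕ) :
    IsZero (tateCohomology (coind (⊥ : Subgroup G).subtype A₀) ((n + 1 : ℕ) : ℤ)) :=
  IsZero.of_iso (isZero_groupCohomology_succ_of_subsingleton A₀ n)
    ((TateCohomology.isoGroupCohomology (n + 1)).app (coind (⊥ : Subgroup G).subtype A₀) ≪≫
      groupCohomology.coindIso A₀ (n + 1))

theorem isZero_tateCohomology_coind_bot_neg (A₀ : Rep.{u} R (⊥ : Subgroup G)) (n : ℕ) :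
    IsZero (tateCohomology (coind (⊥ : Subgroup G).subtype A₀) (-((n + 1 : ℕ) + 1 : ℤ))) := by
  classical
  exact IsZero.of_iso (isZero_groupHomology_succ_of_subsingleton A₀ n)
    ((TateCohomology.isoGroupHomology (-((n + 1 : ℕ) + 1 : ℤ)) (n + 1) rfl).app _ ≪≫
      (groupHomology.functor R G (n + 1)).mapIso (Rep.indCoindIso A₀).symm ≪≫
      groupHomology.indIso _ A₀ (n + 1))

/-- **Tate cohomology of a module coinduced from the trivial subgroup vanishes in all degrees.** -/
theorem isZero_tateCohomology_coind_bot (A₀ : Rep.{u} R (⊥ : Subgroup G)) (n : ℤ) :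
    IsZero (tateCohomology (coind (⊥ : Subgroup G).subtype A₀) n) := by
  rcases lt_trichotomy n (-1) with h | h | h
  · obtain ⟨m, rfl⟩ : ∃ m : ℕ, n = -((m + 1 : ℕ) + 1 : ℤ) := ⟨(-n - 2).toNat, by omega⟩
    exact isZero_tateCohomology_coind_bot_neg A₀ m
  · subst h; exact isZero_tateCohomology_coind_bot_neg_one A₀
  · rcases eq_or_lt_of_le (show (0 : ℤ) ≤ n by omega) with h0 | h0
    · subst h0; exact isZero_tateCohomology_coind_bot_zero A₀
    · obtain ⟨m, rfl⟩ : ∃ m : ℕ, n = ((m + 1 : ℕ) : ℤ) := ⟨(n - 1).toNat, by omega⟩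
      exact isZero_tateCohomology_coind_bot_pos A₀ m

end

end Fermat.Agent.S55.H572

end
-- ===== PACK-END S55/H572/CoindTriv.lean

-- ===== PACK-BEGIN S55/Local/H715/Integers.lean
section




/-!
# S55 layer L, piece LF0 : the ring of integers of a local field  (helper715)

`A` complete DVR with finite residue field, `F = Frac A` of characteristic zero, `L / F` finite.
We work with an `A`-algebra structure on `L` compatible with the tower
(`[Algebra A L] [IsScalarTower A F L]`); to apply the results to the instance-free definitions of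
`Defs.lean` use

```
letI : Algebra A L := algAL A F L
haveI : IsScalarTower A F L := isScalarTower_algAL A F L
```

Main results: `integralClosure A L` is a complete discrete valuation ring with finite residue
field, finite over `A`, with fraction field `L`.
-/

set_option autoImplicit false
set_option linter.unusedSectionVars false
set_option linter.style.haveILetI false

namespace Fermat.Agent.S55.Local.H715

open Fermat.Agent.S55.Local IsLocalRing

section Alg

variable (A F : Type) [CommRing A] [Field F] [Algebra A F]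
  (L : Type) [Field L] [Algebra F L]

/-- The `A`-algebra structure on `L` (NOT a global instance). -/
@[reducible] def algAL : Algebra A L := (toL A F L).toAlgebra

lemma isScalarTower_algAL : @IsScalarTower A F L _ _ (algAL A F L).toSMul :=
  letI := algAL A F L
  IsScalarTower.of_algebraMap_eq (fun _ => rfl)

variable [Algebra A L] [IsScalarTower A F L]

lemma toL_eq_algebraMap : toL A F L = algebraMap A L := by
  ext a
  rw [toL_apply, ← IsScalarTower.algebraMap_apply]

lemma isInt_iff (x : L) : IsInt A F L x ↔ IsIntegral A x := by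
  unfold IsInt IsIntegral
  rw [toL_eq_algebraMap]

lemma isInt_iff_mem (x : L) : IsInt A F L x ↔ x ∈ integralClosure A L := isInt_iff A F L x

end Alg

section Integers

variable (A F : Type) [CommRing A] [IsDomain A] [IsDiscreteValuationRing A]
  [IsAdicComplete (IsLocalRing.maximalIdeal A) A] [Finite (IsLocalRing.ResidueField A)]
  [Field F] [CharZero F] [Algebra A F] [IsFractionRing A F]
  (L : Type) [Field L] [Algebra F L] [FiniteDimensional F L]
  [Algebra A L] [IsScalarTower A F L]

include F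

lemma isFractionRing_OL : IsFractionRing (integralClosure A L) L :=
  IsIntegralClosure.isFractionRing_of_finite_extension A F L (integralClosure A L)

lemma finite_OL : Module.Finite A (integralClosure A L) :=
  IsIntegralClosure.finite A F L (integralClosure A L)

lemma isDedekindDomain_OL : IsDedekindDomain (integralClosure A L) :=
  IsIntegralClosure.isDedekindDomain A F L (integralClosure A L)

lemma isNoetherianRing_OL : IsNoetherianRing (integralClosure A L) :=
  haveI := isDedekindDomain_OL A F L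
  inferInstance

lemma algebraMap_injective_OL : Function.Injective (algebraMap A (integralClosure A L)) := by
  have h1 : Function.Injective (algebraMap A L) := by
    rw [IsScalarTower.algebraMap_eq A F L]
    exact (algebraMap F L).injective.comp (IsFractionRing.injective A F)
  intro x y h
  apply h1
  have := congrArg (algebraMap (integralClosure A L) L) h
  simpa [← IsScalarTower.algebraMap_apply] using this

lemma not_isField_OL : ¬ IsField (integralClosure A L) := by
  intro h
  have hint : Algebra.IsIntegral A (integralClosure A L) := inferInstance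
  exact IsDiscreteValuationRing.not_isField A
    (isField_of_isIntegral_of_isField (algebraMap_injective_OL A F L) h)

/-- The ring of integers has a unique maximal ideal. -/
lemma subsingleton_maximalSpectrum_OL : Subsingleton (MaximalSpectrum (integralClosure A L)) := by
  haveI := finite_OL A F L
  obtain ⟨-, hbij, -, -⟩ :=
    Algebra.finite_maximalSpectrum_and_bijective_localization_of_module_finite (𝒪 := A)
      (integralClosure A L)
  classical
  refine ⟨fun I J => ?_⟩
  by_contra hIJ
  obtain ⟨b, hb⟩ := hbij.2 (Pi.single I 1)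
  obtain ⟨b', hb'⟩ := hbij.2 (Pi.single J 1)
  have hbb' : b * b' = 0 := by
    apply hbij.1
    rw [map_mul, hb, hb', map_zero]
    ext K
    simp only [Pi.mul_apply, Pi.zero_apply]
    by_cases hK : K = I
    · subst hK
      rw [Pi.single_eq_of_ne hIJ, mul_zero]
    · rw [Pi.single_eq_of_ne hK, zero_mul]
  rcases mul_eq_zero.1 hbb' with h0 | h0
  · rw [h0, map_zero] at hb
    have := congrFun hb I
    simp at this
  · rw [h0, map_zero] at hb'
    have := congrFun hb' J
    simp at this

lemma isLocalRing_OL : IsLocalRing (integralClosure A L) := by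
  haveI := subsingleton_maximalSpectrum_OL A F L
  obtain ⟨M, hM⟩ := Ideal.exists_maximal (integralClosure A L)
  refine IsLocalRing.of_unique_max_ideal ⟨M, hM, fun J hJ => ?_⟩
  have := Subsingleton.elim (⟨J, hJ⟩ : MaximalSpectrum (integralClosure A L)) ⟨M, hM⟩
  exact congrArg MaximalSpectrum.asIdeal this

lemma isDiscreteValuationRing_OL : IsDiscreteValuationRing (integralClosure A L) := by
  haveI := isLocalRing_OL A F L
  haveI := isNoetherianRing_OL A F L
  exact ((IsDiscreteValuationRing.TFAE (integralClosure A L) (not_isField_OL A F L)).out 0 2).2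
    (isDedekindDomain_OL A F L)

lemma isLocalHom_OL :
    letI := isLocalRing_OL A F L
    IsLocalHom (algebraMap A (integralClosure A L)) := by
  letI := isLocalRing_OL A F L
  have hint : (algebraMap A (integralClosure A L)).IsIntegral :=
    fun x => Algebra.IsIntegral.isIntegral (R := A) x
  exact hint.isLocalHom (algebraMap_injective_OL A F L)

lemma isAdicComplete_OL :
    letI := isLocalRing_OL A F L
    IsAdicComplete (maximalIdeal (integralClosure A L)) (integralClosure A L) := by
  letI := isLocalRing_OL A F L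
  haveI := finite_OL A F L
  haveI := isLocalHom_OL A F L
  exact IsLocalRing.isAdicComplete_of_module_finite (𝒪 := A)

lemma finite_residueField_OL :
    letI := isLocalRing_OL A F L
    Finite (ResidueField (integralClosure A L)) := by
  letI := isLocalRing_OL A F L
  haveI := finite_OL A F L
  haveI := isLocalHom_OL A F L
  have h1 : Finite (A ⧸ maximalIdeal A) := ‹Finite (ResidueField A)›
  have h2 : Finite ((integralClosure A L) ⧸
      (maximalIdeal A • (⊤ : Submodule A (integralClosure A L)))) :=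
    Submodule.finite_quotient_smul (maximalIdeal A) Module.Finite.fg_top
  have hle : (maximalIdeal A • (⊤ : Submodule A (integralClosure A L))).toAddSubgroup ≤
      (maximalIdeal (integralClosure A L)).toAddSubgroup := by
    intro x hx
    have hx' : x ∈ maximalIdeal A • (⊤ : Submodule A (integralClosure A L)) := hx
    refine Submodule.smul_induction_on hx' ?_ ?_
    · intro a ha b _
      show a • b ∈ maximalIdeal (integralClosure A L)
      rw [Algebra.smul_def]
      refine Ideal.mul_mem_right _ _ ?_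
      rw [mem_maximalIdeal, mem_nonunits_iff] at ha ⊢
      exact fun h => ha (isUnit_of_map_unit (algebraMap A (integralClosure A L)) a h)
    · intro x y hx hy
      exact (maximalIdeal (integralClosure A L)).add_mem hx hy
  haveI h3 : Finite ((integralClosure A L) ⧸
      (maximalIdeal A • (⊤ : Submodule A (integralClosure A L))).toAddSubgroup) := h2
  haveI : (maximalIdeal A • (⊤ : Submodule A (integralClosure A L))).toAddSubgroup.FiniteIndex :=
    AddSubgroup.finiteIndex_of_finite_quotient
  haveI : (maximalIdeal (integralClosure A L)).toAddSubgroup.FiniteIndex :=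
    AddSubgroup.finiteIndex_of_le hle
  exact (maximalIdeal (integralClosure A L)).toAddSubgroup.finite_quotient_of_finiteIndex

lemma finite_quotient_OL (I : Ideal (integralClosure A L)) (hI : I ≠ ⊥) :
    Finite ((integralClosure A L) ⧸ I) := by
  letI := isLocalRing_OL A F L
  haveI := isDiscreteValuationRing_OL A F L
  haveI := isNoetherianRing_OL A F L
  haveI := finite_residueField_OL A F L
  rw [IsLocalRing.finite_quotient_iff]
  have key : ∀ (I : Ideal (integralClosure A L)) (_ : I ≠ ⊥),
      ∃ n : ℕ, I = maximalIdeal (integralClosure A L) ^ n :=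
    ((IsDiscreteValuationRing.TFAE (integralClosure A L)
      (not_isField_OL A F L)).out 0 6).1 (isDiscreteValuationRing_OL A F L)
  obtain ⟨n, hn⟩ := key I hI
  exact ⟨n, hn.ge⟩

end Integers

end Fermat.Agent.S55.Local.H715

end
-- ===== PACK-END S55/Local/H715/Integers.lean

-- ===== PACK-BEGIN S55/L/H661/UnramNorm.lean
section


/-!
# Norms of units in unramified extensions of complete local rings  (S55, layer L, leaf UNR)

`A` a complete local ring with finite residue field, `B` a finite free `A`-algebra with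
`𝔪_A B` a maximal ideal of `B` (the "unramified, one prime above" condition; for discrete
valuation rings this says `𝔪_A B = 𝔪_B`).  Then the norm `Bˣ → Aˣ` is surjective.

* `norm_quotient_mk` : the norm commutes with reduction modulo the maximal ideal.
* `exists_trace_eq_one_of_unramified` : some element of `B` has trace `1`.
* `unitsMap_norm_surjective_of_unramified` : surjectivity of the norm on units.
* `unitsMap_norm_surjective_of_dvr` : the version for discrete valuation rings, with hypothesis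
  `𝔪_A B = 𝔪_B`.
-/

namespace Fermat.Agent.S55.L.H661

open Module IsLocalRing

section Quotient

variable {R S : Type*} [CommRing R] [CommRing S] [Algebra R S]
variable [Module.Free R S] [Module.Finite R S]

attribute [local instance] Ideal.Quotient.field

/-- The norm commutes with reduction modulo the maximal ideal (the analogue of Mathlib's
`Algebra.trace_quotient_mk`). -/
theorem norm_quotient_mk [IsLocalRing R] (x : S) :
    Algebra.norm (R ⧸ maximalIdeal R)
        (Ideal.Quotient.mk (Ideal.map (algebraMap R S) (maximalIdeal R)) x) =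
      Ideal.Quotient.mk (maximalIdeal R) (Algebra.norm R x) := by
  classical
  let ι := Module.Free.ChooseBasisIndex R S
  let b : Module.Basis ι R S := Module.Free.chooseBasis R S
  rw [Algebra.norm_eq_matrix_det b, Algebra.norm_eq_matrix_det (basisQuotient b),
    RingHom.map_det]
  congr 1
  ext i j
  simp only [Algebra.leftMulMatrix_apply, Algebra.coe_lmul_eq_mul, LinearMap.toMatrix_apply,
    basisQuotient_apply, LinearMap.mul_apply', RingHom.mapMatrix_apply, Matrix.map_apply,
    ← map_mul, basisQuotient_repr]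

end Quotient

section Unramified

variable {A B : Type*} [CommRing A] [IsLocalRing A] [CommRing B] [Algebra A B]
variable [Module.Free A B] [Module.Finite A B]

attribute [local instance] Ideal.Quotient.field

/-- In an unramified finite free extension of a local ring with finite residue field, some
element has trace `1`. -/
theorem exists_trace_eq_one_of_unramified [Finite (ResidueField A)]
    (hmax : (Ideal.map (algebraMap A B) (maximalIdeal A)).IsMaximal) :
    ∃ x₀ : B, Algebra.trace A B x₀ = 1 := by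
  have := hmax
  have : Finite (A ⧸ maximalIdeal A) := ‹Finite (ResidueField A)›
  have : Module.Finite (A ⧸ maximalIdeal A) (B ⧸ Ideal.map (algebraMap A B) (maximalIdeal A)) :=
    Module.Finite.of_restrictScalars_finite A _ _
  have : Finite (B ⧸ Ideal.map (algebraMap A B) (maximalIdeal A)) :=
    Module.finite_of_finite (A ⧸ maximalIdeal A)
  obtain ⟨y, hy⟩ := Algebra.trace_surjective (A ⧸ maximalIdeal A)
    (B ⧸ Ideal.map (algebraMap A B) (maximalIdeal A)) 1
  obtain ⟨x, rfl⟩ := Ideal.Quotient.mk_surjective y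
  rw [Algebra.trace_quotient_mk] at hy
  have hunit : IsUnit (Algebra.trace A B x) := by
    by_contra h
    have hmem : Algebra.trace A B x ∈ maximalIdeal A := (mem_maximalIdeal _).mpr h
    rw [Ideal.Quotient.eq_zero_iff_mem.mpr hmem] at hy
    exact zero_ne_one hy
  obtain ⟨w, hw⟩ := hunit
  refine ⟨(↑w⁻¹ : A) • x, ?_⟩
  rw [map_smul, ← hw, smul_eq_mul, Units.inv_mul]

/-- **Norm of units in an unramified extension is surjective.**  `A` complete local with finite
residue field, `B` finite free over `A` with `𝔪_A B` maximal. -/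
theorem exists_unit_norm_eq_of_unramified [IsAdicComplete (maximalIdeal A) A]
    [Finite (ResidueField A)]
    (hmax : (Ideal.map (algebraMap A B) (maximalIdeal A)).IsMaximal) (u : Aˣ) :
    ∃ v : Bˣ, Algebra.norm A (v : B) = u := by
  obtain ⟨x₀, hx₀⟩ := exists_trace_eq_one_of_unramified (A := A) (B := B) hmax
  have := hmax
  have : Finite (A ⧸ maximalIdeal A) := ‹Finite (ResidueField A)›
  have : Module.Finite (A ⧸ maximalIdeal A) (B ⧸ Ideal.map (algebraMap A B) (maximalIdeal A)) :=
    Module.Finite.of_restrictScalars_finite A _ _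
  have : Finite (B ⧸ Ideal.map (algebraMap A B) (maximalIdeal A)) :=
    Module.finite_of_finite (A ⧸ maximalIdeal A)
  obtain ⟨y, hy⟩ := FiniteField.norm_surjective (A ⧸ maximalIdeal A)
    (B ⧸ Ideal.map (algebraMap A B) (maximalIdeal A)) (Ideal.Quotient.mk _ (u : A))
  obtain ⟨v₀, rfl⟩ := Ideal.Quotient.mk_surjective y
  rw [norm_quotient_mk, Ideal.Quotient.eq] at hy
  have hv₀ : (u : A) - Algebra.norm A v₀ ∈ maximalIdeal A := by
    have := (maximalIdeal A).neg_mem hy
    simpa using this
  obtain ⟨v, hv, -⟩ := exists_norm_eq_of_trace_eq_one (maximalIdeal A) hx₀ u v₀ hv₀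
  have hvu : IsUnit v := isUnit_of_isUnit_norm (A := A) (by rw [hv]; exact u.isUnit)
  exact ⟨hvu.unit, by simpa using hv⟩

theorem unitsMap_norm_surjective_of_unramified [IsAdicComplete (maximalIdeal A) A]
    [Finite (ResidueField A)]
    (hmax : (Ideal.map (algebraMap A B) (maximalIdeal A)).IsMaximal) :
    Function.Surjective (Units.map (Algebra.norm A : B →* A)) := by
  intro u
  obtain ⟨v, hv⟩ := exists_unit_norm_eq_of_unramified (B := B) hmax u
  exact ⟨v, Units.ext (by simpa using hv)⟩

/-- Version for local rings `B`: hypothesis `𝔪_A B = 𝔪_B`. -/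
theorem unitsMap_norm_surjective_of_map_maximalIdeal_eq [IsLocalRing B]
    [IsAdicComplete (maximalIdeal A) A] [Finite (ResidueField A)]
    (hunr : Ideal.map (algebraMap A B) (maximalIdeal A) = maximalIdeal B) :
    Function.Surjective (Units.map (Algebra.norm A : B →* A)) :=
  unitsMap_norm_surjective_of_unramified (hunr ▸ inferInstance)

end Unramified

end Fermat.Agent.S55.L.H661

end
-- ===== PACK-END S55/L/H661/UnramNorm.lean

-- ===== PACK-BEGIN S55/T/Spec2.lean
section


/-!
# S55, layer T: interface additions (v2).  Nothing in `Spec.lean` changes.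

* `ClassModuleOfCyclicSpec` : bridge from the "numerical" class-module statement produced by
  layers L / G (`H¹(H, C) = 0`, `H²(H, C) ≃+ ZMod |H|` for all `H ≤ G`) to `IsClassModule`.
* `SplitModuleSpec` : the splitting module of a class module (output of the T5a owners, input of
  T6).
* `NakayamaSpec` : `Hom(lattice, coh. trivial)` is cohomologically trivial (Serre, Local Fields
  IX §5–7), input of T6.
* `LatticeDualitySpec` : elementary duality `Ĥ⁰(G, Hom(R, ℤ)) ≅ Hom(Ĥ⁰(G, R), ℤ/|G|)`.
-/

set_option autoImplicit false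

open CategoryTheory groupCohomology

namespace Fermat.Agent.S55.T

/-- **T5d.**  Over `ℤ`: if `H¹(H, C) = 0` and `H²(H, C)` is cyclic of order `|H|` for every
subgroup `H ≤ G`, then EVERY generator `γ` of `H²(G, C)` makes `(C, γ)` a class module; in
particular a fundamental class exists.  (Proof: `cor ∘ res = [G : H]`, i.e. `ResIndexSpec`.) -/
def ClassModuleOfCyclicSpec : Prop :=
  ∀ (G : Type) [Group G] [Finite G] (C : Rep.{0} ℤ G),
    (∀ H : Subgroup G, Limits.IsZero (groupCohomology (resSub C H) 1)) →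
    (∀ H : Subgroup G, Nonempty (groupCohomology (resSub C H) 2 ≃+ ZMod (Nat.card H))) →
    (∃ γ : groupCohomology C 2, IsClassModule C γ) ∧
    (∀ γ : groupCohomology C 2, (∀ x : groupCohomology C 2, ∃ c : ℤ, x = c • γ) →
      IsClassModule C γ)

/-- **T5e.**  Splitting module of a class module `(C, γ)` over `ℤ`: short exact sequences
`0 → C → X → I → 0` and `0 → I → P → ℤ → 0` with `X` and `P` cohomologically trivial. -/
def SplitModuleSpec : Prop :=
  ∀ (G : Type) [Group G] [Finite G] (C : Rep.{0} ℤ G) (γ : groupCohomology C 2),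
    IsClassModule C γ →
    ∃ (X I P : Rep.{0} ℤ G) (i : C ⟶ X) (π : X ⟶ I) (j : I ⟶ P) (ε : P ⟶ Rep.trivial ℤ G ℤ)
      (w₁ : i ≫ π = 0) (w₂ : j ≫ ε = 0),
      (ShortComplex.mk i π w₁).ShortExact ∧ (ShortComplex.mk j ε w₂).ShortExact ∧
      IsCohTriv X ∧ IsCohTriv P

/-- **T6a.**  Nakayama: if `X` is cohomologically trivial and `R` is a `G`-lattice (finitely
generated free over `ℤ`), then `Hom_ℤ(R, X)` is cohomologically trivial. -/
def NakayamaSpec : Prop :=
  ∀ (G : Type) [Group G] [Finite G] (X R : Rep.{0} ℤ G),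
    @Module.Free ℤ R.V _ _ R.hV2 → @Module.Finite ℤ R.V _ _ R.hV2 →
    IsCohTriv X → IsCohTriv ((Rep.ihom R).obj X)

/-- **T6b.**  Elementary lattice duality in degree `0`: for a `G`-lattice `R` and `n = |G|`,
a `G`-invariant `r ∈ R^G` is a norm iff `g r ∈ nℤ` for every `G`-equivariant additive
`g : R → ℤ`; and an equivariant `g : R → ℤ` is a norm `N_G ψ` iff `g (R^G) ⊆ nℤ`. -/
def LatticeDualitySpec : Prop :=
  ∀ (G : Type) [Group G] [Fintype G] (R : Rep.{0} ℤ G),
    @Module.Free ℤ R.V _ _ R.hV2 → @Module.Finite ℤ R.V _ _ R.hV2 →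
    (∀ r : R.V, (∀ g : G, R.ρ g r = r) →
      ((∃ s : R.V, r = ∑ g : G, R.ρ g s) ↔
        ∀ f : R.V →+ ℤ, (∀ (g : G) (x : R.V), f (R.ρ g x) = f x) →
          (Fintype.card G : ℤ) ∣ f r)) ∧
    (∀ f : R.V →+ ℤ, (∀ (g : G) (x : R.V), f (R.ρ g x) = f x) →
      ((∃ ψ : R.V →+ ℤ, ∀ x, f x = ∑ g : G, ψ (R.ρ g⁻¹ x)) ↔
        ∀ r : R.V, (∀ g : G, R.ρ g r = r) → (Fintype.card G : ℤ) ∣ f r))

end Fermat.Agent.S55.T

end
-- ===== PACK-END S55/T/Spec2.lean

-- ===== PACK-BEGIN S55/H295/SplitDefs.lean
section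



/-!
# The splitting module of a 2-cocycle: definitions

Let `G` be a finite group, `k` a commutative ring, `C : Rep k G` and `c ∈ Z²(G, C)`.

* `augP k G = Fun(G, k)` with `G` acting by right translation, `augε : augP ⟶ k` the sum map,
  `augI k G = ker augε` ("augmentation ideal"), and the short exact sequence
  `augSES : 0 → augI → augP → k → 0`;
* `splitRep c : Rep k G` on `C × augI`, with the twisted action
  `g • (a, φ) = (g a + ∑ₓ φ(x) • c(g, x⁻¹), g φ)`, and the short exact sequence
  `splitSES c : 0 → C → splitRep c → augI → 0`.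

No normalisation of the cocycle is needed.
-/

set_option autoImplicit false
set_option linter.unusedSectionVars false

open CategoryTheory groupCohomology Rep Limits

universe u

namespace Fermat.Agent.S55.H295

open Fermat.Agent.S55.H783

noncomputable section

variable (k G : Type u) [CommRing k] [Group G] [Fintype G]

/-- The sum map `Fun(G, k) → k`. -/
def augLin : (G → k) →ₗ[k] k where
  toFun φ := ∑ x : G, φ x
  map_add' φ ψ := by simp [Finset.sum_add_distrib]
  map_smul' r φ := by simp [Finset.mul_sum]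

lemma augLin_apply (φ : G → k) : augLin k G φ = ∑ x : G, φ x := rfl

lemma augLin_funRho (g : G) (φ : G → k) : augLin k G (funRho k G k g φ) = augLin k G φ := by
  rw [augLin_apply, augLin_apply]
  exact Fintype.sum_equiv (Equiv.mulRight g) _ _ fun x => rfl

/-- `P = Fun(G, k)` with right translation. -/
abbrev augP : Rep.{u} k G := funRep k G k

/-- The augmentation `P ⟶ k`. -/
def augε : augP k G ⟶ Rep.trivial k G k :=
  Rep.ofHom (ρ := funRho k G k) (σ := (Rep.trivial k G k).ρ) ⟨augLin k G, fun g => by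
    apply LinearMap.ext
    intro φ
    exact augLin_funRho k G g φ⟩

lemma augε_apply (φ : G → k) : (augε k G).hom φ = ∑ x : G, φ x := rfl

/-- The underlying submodule of the augmentation ideal. -/
def augIsub : Submodule k (G → k) := LinearMap.ker (augLin k G)

lemma mem_augIsub (φ : G → k) : φ ∈ augIsub k G ↔ ∑ x : G, φ x = 0 := LinearMap.mem_ker

lemma augIsub_le_comap (g : G) : augIsub k G ≤ (augIsub k G).comap (funRho k G k g) := by
  intro φ hφ
  rw [Submodule.mem_comap, augIsub, LinearMap.mem_ker, augLin_funRho]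
  exact hφ

/-- The action of `G` on the augmentation ideal. -/
abbrev augIrho : Representation k G (augIsub k G) :=
  Representation.subrepresentation (funRho k G k) (augIsub k G) (augIsub_le_comap k G)

/-- The augmentation ideal `I = ker (P ⟶ k)`. -/
abbrev augI : Rep.{u} k G := Rep.of (augIrho k G)

lemma augIrho_apply_coe (g : G) (φ : augIsub k G) (x : G) :
    (augIrho k G g φ).1 x = φ.1 (x * g) := rfl

/-- The inclusion `I ⟶ P`. -/
def augj : augI k G ⟶ augP k G :=
  Rep.ofHom (ρ := augIrho k G) (σ := funRho k G k) ⟨(augIsub k G).subtype, fun _ => rfl⟩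

lemma augj_apply (φ : augIsub k G) : (augj k G).hom φ = φ.1 := rfl

lemma augj_comp_augε : augj k G ≫ augε k G = 0 := by
  apply Rep.hom_ext
  apply Representation.IntertwiningMap.ext
  apply LinearMap.ext
  intro φ
  exact φ.2

/-- The augmentation sequence `0 → I → P → k → 0`. -/
def augSES : ShortComplex (Rep.{u} k G) :=
  ShortComplex.mk (augj k G) (augε k G) (augj_comp_augε k G)

lemma augSES_shortExact : (augSES k G).ShortExact := by
  classical
  apply rep_shortExact_of
  · intro φ ψ h
    exact Subtype.ext h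
  · intro φ hφ
    exact ⟨⟨φ, hφ⟩, rfl⟩
  · intro r
    refine ⟨Pi.single 1 r, ?_⟩
    change ∑ x : G, (Pi.single 1 r : G → k) x = r
    rw [Finset.sum_pi_single']
    simp

variable {k G}

section Split

variable {C : Rep.{u} k G}

/-- The twisting map `β_g(φ) = ∑ₓ φ(x) • c(g, x⁻¹)`. -/
def splitβ (c : G × G → C.V) (g : G) : (G → k) →ₗ[k] C.V where
  toFun φ := ∑ x : G, φ x • c (g, x⁻¹)
  map_add' φ ψ := by simp [add_smul, Finset.sum_add_distrib]
  map_smul' r φ := by simp [mul_smul, Finset.smul_sum]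

lemma splitβ_apply (c : G × G → C.V) (g : G) (φ : G → k) :
    splitβ c g φ = ∑ x : G, φ x • c (g, x⁻¹) := rfl

/-- `β₁` vanishes on the augmentation ideal. -/
lemma splitβ_one (c : cocycles₂ C) (φ : G → k) (hφ : ∑ x : G, φ x = 0) :
    splitβ (c : G × G → C.V) 1 φ = 0 := by
  rw [splitβ_apply]
  have h : ∀ x : G, φ x • (c : G × G → C.V) (1, x⁻¹) = φ x • (c : G × G → C.V) (1, 1) :=
    fun x => by rw [cocycles₂_map_one_fst c x⁻¹]
  rw [Finset.sum_congr rfl (fun x _ => h x), ← Finset.sum_smul, hφ, zero_smul]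

/-- The cocycle relation for `β` on the augmentation ideal. -/
lemma splitβ_mul (c : cocycles₂ C) (g h : G) (φ : G → k) (hφ : ∑ x : G, φ x = 0) :
    splitβ (c : G × G → C.V) (g * h) φ =
      C.ρ g (splitβ (c : G × G → C.V) h φ) + splitβ (c : G × G → C.V) g (funRho k G k h φ) := by
  have hc := (mem_cocycles₂_iff (c : G × G → C.V)).1 c.2
  simp only [splitβ_apply, map_sum, map_smul]
  -- reindex the last sum by `x ↦ x * h⁻¹`
  have h3 : ∑ x : G, (funRho k G k h φ) x • (c : G × G → C.V) (g, x⁻¹) =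
      ∑ y : G, φ y • (c : G × G → C.V) (g, h * y⁻¹) := by
    refine Fintype.sum_equiv (Equiv.mulRight h) _ _ fun x => ?_
    change φ (x * h) • (c : G × G → C.V) (g, x⁻¹) = φ (x * h) • (c : G × G → C.V) (g, h * (x * h)⁻¹)
    rw [mul_inv_rev, mul_inv_cancel_left]
  rw [h3, ← Finset.sum_add_distrib]
  have h4 : ∀ x : G, φ x • (c : G × G → C.V) (g * h, x⁻¹) =
      (φ x • C.ρ g ((c : G × G → C.V) (h, x⁻¹)) + φ x • (c : G × G → C.V) (g, h * x⁻¹)) -
        φ x • (c : G × G → C.V) (g, h) := by
    intro x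
    rw [← smul_add, ← smul_sub, ← hc g h x⁻¹, add_sub_cancel_right]
  rw [Finset.sum_congr rfl (fun x _ => h4 x), Finset.sum_sub_distrib, ← Finset.sum_smul, hφ,
    zero_smul, sub_zero]

/-- The underlying linear map of the action of `g` on the splitting module. -/
def splitLin (c : G × G → C.V) (g : G) : (C.V × augIsub k G) →ₗ[k] (C.V × augIsub k G) :=
  LinearMap.prod
    ((C.ρ g).coprod ((splitβ c g).comp (augIsub k G).subtype))
    ((augIrho k G g).comp (LinearMap.snd k C.V (augIsub k G)))

lemma splitLin_apply (c : G × G → C.V) (g : G) (p : C.V × augIsub k G) :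
    splitLin c g p = (C.ρ g p.1 + splitβ c g p.2.1, augIrho k G g p.2) := rfl

/-- The action of `G` on the splitting module `C × I`. -/
def splitRho (c : cocycles₂ C) : Representation k G (C.V × augIsub k G) where
  toFun g := splitLin (c : G × G → C.V) g
  map_one' := by
    apply LinearMap.ext
    intro p
    rw [splitLin_apply, splitβ_one c p.2.1 ((mem_augIsub k G _).1 p.2.2)]
    refine Prod.ext ?_ ?_
    · simp
    · change augIrho k G 1 p.2 = p.2
      rw [map_one]
      rfl
  map_mul' g h := by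
    apply LinearMap.ext
    intro p
    rw [Module.End.mul_apply, splitLin_apply, splitLin_apply, splitLin_apply,
      splitβ_mul c g h p.2.1 ((mem_augIsub k G _).1 p.2.2)]
    refine Prod.ext ?_ ?_
    · simp only [map_mul, Module.End.mul_apply, map_add]
      rw [add_assoc]
      rfl
    · simp only [map_mul, Module.End.mul_apply]

lemma splitRho_apply (c : cocycles₂ C) (g : G) (p : C.V × augIsub k G) :
    splitRho c g p = (C.ρ g p.1 + splitβ (c : G × G → C.V) g p.2.1, augIrho k G g p.2) := rfl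

/-- The splitting module of the 2-cocycle `c`. -/
abbrev splitRep (c : cocycles₂ C) : Rep.{u} k G := Rep.of (splitRho c)

/-- The inclusion `C ⟶ C(c)`. -/
def spliti (c : cocycles₂ C) : C ⟶ splitRep c :=
  Rep.ofHom (ρ := C.ρ) (σ := splitRho c) ⟨LinearMap.inl k C.V (augIsub k G), fun g => by
    apply LinearMap.ext
    intro a
    change ((C.ρ g a, (0 : augIsub k G)) : C.V × augIsub k G) = splitRho c g (a, 0)
    rw [splitRho_apply]
    simp⟩

lemma spliti_apply (c : cocycles₂ C) (a : C.V) : (spliti c).hom a = (a, 0) := rfl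

/-- The projection `C(c) ⟶ I`. -/
def splitπ (c : cocycles₂ C) : splitRep c ⟶ augI k G :=
  Rep.ofHom (ρ := splitRho c) (σ := augIrho k G) ⟨LinearMap.snd k C.V (augIsub k G),
    fun _ => rfl⟩

lemma splitπ_apply (c : cocycles₂ C) (p : C.V × augIsub k G) : (splitπ c).hom p = p.2 := rfl

lemma spliti_comp_splitπ (c : cocycles₂ C) : spliti c ≫ splitπ c = 0 := by
  apply Rep.hom_ext
  apply Representation.IntertwiningMap.ext
  apply LinearMap.ext
  intro a
  rfl

/-- The sequence `0 → C → C(c) → I → 0`. -/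
def splitSES (c : cocycles₂ C) : ShortComplex (Rep.{u} k G) :=
  ShortComplex.mk (spliti c) (splitπ c) (spliti_comp_splitπ c)

lemma splitSES_shortExact (c : cocycles₂ C) : (splitSES c).ShortExact := by
  apply rep_shortExact_of
  · intro a b h
    exact congrArg Prod.fst h
  · intro p hp
    refine ⟨p.1, ?_⟩
    change ((p.1, (0 : augIsub k G)) : C.V × augIsub k G) = p
    have hp' : p.2 = 0 := hp
    exact Prod.ext rfl hp'.symm
  · intro φ
    exact ⟨(0, φ), rfl⟩

end Split

end

end Fermat.Agent.S55.H295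

end
-- ===== PACK-END S55/H295/SplitDefs.lean

-- ===== PACK-BEGIN S55/KL/FinLocCoreH539.lean
section


/-!
# S55 / layer KL, leaf KL-P1 (core): finiteness of `H¹_lc(G, N)` from finiteness of the
`p`-Frattini quotients

Setting: an abstract group `G` with a level system `L` whose levels have finite index, a field
`k`, and a uniformly smooth representation `N` of `G` over `k`, finite-dimensional.  Suppose that
for every level `U` there is a level `V ≤ U` which is killed by every level-constant function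
`χ : G → k` that is additive on `U`.  Then `H¹_lc(G, N)` is finite-dimensional.

Proof: let `U` act trivially on `N`, and `V ≤ U` as above.  For a level-constant `1`-cocycle `c`
and a functional `ℓ` on `N` the function `ℓ ∘ c` is level-constant and additive on `U`, hence
vanishes on `V`; so `c` vanishes on `V` and is therefore right-`V`-invariant.  The space of
right-`V`-invariant functions `G → N` is `(G ⧸ V → N)`, which is finite-dimensional.

This file imports only `PT/Levels.lean`.
-/

set_option autoImplicit false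
set_option linter.style.haveILetI false

noncomputable section

namespace Fermat.Agent.S55.KL.H539

open groupCohomology Fermat.Agent.S55.PT

variable {G : Type} [Group G] {k : Type} [Field k]

/-- The space of right-`V`-invariant functions `G → N`. -/
def constMod (V : Subgroup G) (N : Type) [AddCommGroup N] [Module k N] : Submodule k (G → N) where
  carrier := {f | ∀ g s : G, s ∈ V → f (g * s) = f g}
  add_mem' := by
    intro f f' hf hf' g s hs
    simp only [Pi.add_apply, hf g s hs, hf' g s hs]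
  zero_mem' := fun _ _ _ => rfl
  smul_mem' := by
    intro c f hf g s hs
    simp only [Pi.smul_apply, hf g s hs]

lemma mem_constMod_iff (V : Subgroup G) (N : Type) [AddCommGroup N] [Module k N] (f : G → N) :
    f ∈ constMod (k := k) V N ↔ ∀ g s : G, s ∈ V → f (g * s) = f g := Iff.rfl

/-- Restriction of a right-`V`-invariant function to `G ⧸ V`, as a linear map into
`(G ⧸ V → N)`; injective. -/
def constModToQuot (V : Subgroup G) (N : Type) [AddCommGroup N] [Module k N] :
    ↥(constMod (k := k) V N) →ₗ[k] (G ⧸ V → N) where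
  toFun f := fun x => (f : G → N) (Quotient.out x)
  map_add' _ _ := rfl
  map_smul' _ _ := rfl

lemma constModToQuot_injective (V : Subgroup G) (N : Type) [AddCommGroup N] [Module k N] :
    Function.Injective (constModToQuot (k := k) V N) := by
  intro f f' h
  apply Subtype.ext
  funext g
  obtain ⟨u, hu⟩ := QuotientGroup.mk_out_eq_mul V g
  have h1 := congrFun h (g : G ⧸ V)
  simp only [constModToQuot, LinearMap.coe_mk, AddHom.coe_mk] at h1
  rw [hu] at h1
  rw [f.2 g u u.2, f'.2 g u u.2] at h1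
  exact h1

/-- The space of right-`V`-invariant functions is finite-dimensional if `V` has finite index and
`N` is finite-dimensional. -/
lemma finiteDimensional_constMod (V : Subgroup G) [V.FiniteIndex] (N : Type) [AddCommGroup N]
    [Module k N] [FiniteDimensional k N] : FiniteDimensional k ↥(constMod (k := k) V N) := by
  haveI : Finite (G ⧸ V) := Subgroup.finite_quotient_of_finiteIndex
  haveI : Fintype (G ⧸ V) := Fintype.ofFinite _
  exact FiniteDimensional.of_injective (constModToQuot (k := k) V N)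
    (constModToQuot_injective V N)

/-- A cocycle whose composites with all functionals vanish on `V` is right-`V`-invariant. -/
lemma cocycle_mem_constMod (N : Rep.{0, 0, 0} k G) (V : Subgroup G) (c : G → N)
    (hc : c ∈ cocycles₁ N) (hV : ∀ s ∈ V, c s = 0) : c ∈ constMod (k := k) V N := by
  intro g s hs
  have h := (mem_cocycles₁_iff c).1 hc g s
  rw [h, hV s hs, map_zero, zero_add]

/-- **KL-P1 (core).**  Finiteness of the `p`-Frattini quotients (in the cochain form of
`KL.PFrattiniFinite`, over any field `k`) implies that `H¹_lc(G, N)` is finite-dimensional for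
every finite-dimensional uniformly smooth `N`. -/
theorem finiteDimensional_H1_of_frattini (L : LevelSys G) (hFI : L.FiniteIndex)
    (hFr : ∀ U ∈ L.levels, ∃ V ∈ L.levels, V ≤ U ∧
      ∀ χ : G → k, (∀ s t : G, s ∈ U → t ∈ U → χ (s * t) = χ s + χ t) → L.IsLC₁ χ →
        ∀ s ∈ V, χ s = 0)
    (N : Rep.{0, 0, 0} k G) [FiniteDimensional k N] (hN : L.IsUSmooth N) :
    FiniteDimensional k (L.H1 N) := by
  obtain ⟨U, hU, hUN⟩ := hN
  obtain ⟨V, hV, hVU, hkill⟩ := hFr U hU
  haveI : V.FiniteIndex := hFI V hV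
  -- every level-constant cocycle is right-`V`-invariant
  have hle : L.Z1 N ≤ constMod (k := k) V N := by
    intro c hc
    apply cocycle_mem_constMod N V c hc.1
    intro s hs
    -- all functionals vanish on `c s`
    rw [← Module.forall_dual_apply_eq_zero_iff k (c s)]
    intro ℓ
    have hadd : ∀ s t : G, s ∈ U → t ∈ U → (ℓ ∘ c) (s * t) = (ℓ ∘ c) s + (ℓ ∘ c) t := by
      intro s t hs _
      have h := (mem_cocycles₁_iff c).1 hc.1 s t
      simp only [Function.comp_apply]
      rw [h, hUN s hs (c t), map_add, add_comm]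
    exact hkill (ℓ ∘ c) hadd (LevelSys.IsLC₁.comp hc.2 ℓ) s hs
  haveI : FiniteDimensional k ↥(constMod (k := k) V N) := finiteDimensional_constMod V N
  haveI : FiniteDimensional k ↥(L.Z1 N) :=
    FiniteDimensional.of_injective (Submodule.inclusion hle) (Submodule.inclusion_injective hle)
  exact Module.Finite.of_surjective (L.H1π N) (L.H1π_surjective N)

/-- Set-theoretic finiteness of the level-constant cocycles, for a finite field. -/
theorem finite_Z1_of_frattini [Finite k] (L : LevelSys G) (hFI : L.FiniteIndex)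
    (hFr : ∀ U ∈ L.levels, ∃ V ∈ L.levels, V ≤ U ∧
      ∀ χ : G → k, (∀ s t : G, s ∈ U → t ∈ U → χ (s * t) = χ s + χ t) → L.IsLC₁ χ →
        ∀ s ∈ V, χ s = 0)
    (N : Rep.{0, 0, 0} k G) [FiniteDimensional k N] (hN : L.IsUSmooth N) :
    Finite (L.H1 N) := by
  haveI := finiteDimensional_H1_of_frattini L hFI hFr N hN
  exact Module.finite_of_finite k

end Fermat.Agent.S55.KL.H539

end

end
-- ===== PACK-END S55/KL/FinLocCoreH539.lean

-- ===== PACK-BEGIN S55/G/Rec/H379Rep.lean
section


/-!
# S55 / G / REC, leaf (A4), `Rep`-level form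

For `A : Rep k G` (Mathlib), `χ : G → ZMod n` additive:

* `cupCocycle A χ hχ : A.ρ.invariants →ₗ[k] cocycles₂ A`, `a ↦ cupChar n χ a`;
* `cc A χ hχ : A.ρ.invariants →ₗ[k] H2 A`, the class of `cupChar n χ a`;
* if moreover `χ` is injective and `χ σ = 1` (i.e. `G = ⟨σ⟩` is cyclic of order `n`):
  `cc_surjective`, `cc_eq_zero_iff`, `ker_cc`, and the isomorphism
  `ccEquiv : A^G / N_G A ≃ₗ[k] H²(G, A)`.
-/

set_option autoImplicit false
set_option linter.unusedSectionVars false
set_option linter.style.haveILetI false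

universe u

namespace Fermat.Agent.S55.G.Rec.H379

open groupCohomology Finset

section Rep

variable {k G : Type u} [CommRing k] [Group G]

/-- The `DistribMulAction` of `G` on the underlying module of `A : Rep k G` (a local instance,
only used to talk about `IsCocycle₂` / `IsCoboundary₂`). -/
@[reducible] def repAct (A : Rep.{u} k G) : DistribMulAction G A.V where
  smul g x := A.ρ g x
  one_smul x := by simp [HSMul.hSMul]
  mul_smul g h x := by simp [HSMul.hSMul]
  smul_zero g := by simp [HSMul.hSMul]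
  smul_add g x y := by simp [HSMul.hSMul]

lemma repAct_smul (A : Rep.{u} k G) (g : G) (x : A.V) :
    (letI := repAct A; g • x) = A.ρ g x := rfl

lemma mem_cocycles₂_iff_isCocycle₂ (A : Rep.{u} k G) (f : G × G → A.V) :
    f ∈ cocycles₂ A ↔ (letI := repAct A; IsCocycle₂ f) :=
  mem_cocycles₂_iff f

lemma mem_coboundaries₂_iff_isCoboundary₂ (A : Rep.{u} k G) (f : G × G → A.V) :
    f ∈ coboundaries₂ A ↔ (letI := repAct A; IsCoboundary₂ f) := by
  letI := repAct A
  constructor
  · rintro ⟨x, rfl⟩
    exact ⟨x, fun g h => rfl⟩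
  · rintro ⟨x, hx⟩
    exact ⟨x, funext fun p => hx p.1 p.2⟩

variable (A : Rep.{u} k G) {n : ℕ} [NeZero n] (χ : G → ZMod n)

/-- **(A1)**, `Rep`-level. -/
theorem cupChar_mem_cocycles₂ (hχ : ∀ g h, χ (g * h) = χ g + χ h) {a : A.V}
    (ha : a ∈ A.ρ.invariants) : _root_.Fermat.Agent.S55.G.Rec.H379.cupChar n χ a ∈ cocycles₂ A := by
  rw [mem_cocycles₂_iff_isCocycle₂]
  letI := repAct A
  exact isCocycle₂_cupChar hχ (fun g => (Representation.mem_invariants A.ρ a).1 ha g)

/-- `a ↦ cupChar n χ a` as a linear map from the invariants to the 2-cocycles. -/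
noncomputable def cupCocycle (hχ : ∀ g h, χ (g * h) = χ g + χ h) : A.ρ.invariants →ₗ[k] cocycles₂ A where
  toFun a := ⟨_root_.Fermat.Agent.S55.G.Rec.H379.cupChar n χ (a : A.V), cupChar_mem_cocycles₂ A χ hχ a.2⟩
  map_add' a b := by
    apply Subtype.ext
    exact cupChar_add n χ (a : A.V) (b : A.V)
  map_smul' c a := by
    apply Subtype.ext
    funext p
    show _root_.Fermat.Agent.S55.G.Rec.H379.carry n (χ p.1) (χ p.2) • (c • (a : A.V)) = c • (_root_.Fermat.Agent.S55.G.Rec.H379.carry n (χ p.1) (χ p.2) • (a : A.V))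
    rw [smul_comm]

@[simp] lemma cupCocycle_apply (hχ : ∀ g h, χ (g * h) = χ g + χ h) (a : A.ρ.invariants)
    (g h : G) : (cupCocycle A χ hχ a : G × G → A.V) (g, h) = _root_.Fermat.Agent.S55.G.Rec.H379.carry n (χ g) (χ h) • (a : A.V) :=
  rfl

lemma coe_cupCocycle (hχ : ∀ g h, χ (g * h) = χ g + χ h) (a : A.ρ.invariants) :
    ((cupCocycle A χ hχ a : cocycles₂ A) : G × G → A.V) = _root_.Fermat.Agent.S55.G.Rec.H379.cupChar n χ (a : A.V) := rfl

/-- The class `cc a χ ∈ H²(G, A)` of `cupChar n χ a`, as a linear map in `a ∈ A^G`. -/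
noncomputable def cc (hχ : ∀ g h, χ (g * h) = χ g + χ h) : A.ρ.invariants →ₗ[k] H2 A :=
  (H2π A).hom ∘ₗ cupCocycle A χ hχ

lemma cc_apply (hχ : ∀ g h, χ (g * h) = χ g + χ h) (a : A.ρ.invariants) :
    _root_.Fermat.Agent.S55.G.Rec.H379.cc A χ hχ a = H2π A (cupCocycle A χ hχ a) := rfl

variable {A χ}

/-- **(A4), surjectivity**, `Rep`-level: every class in `H²(G, A)` is `cc a χ`. -/
theorem cc_surjective (hχ : ∀ g h, χ (g * h) = χ g + χ h) (hinj : Function.Injective χ)
    {σ : G} (hσ : χ σ = 1) : Function.Surjective (_root_.Fermat.Agent.S55.G.Rec.H379.cc A χ hχ) := by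
  intro x
  induction x using H2_induction_on with
  | h f =>
    letI := repAct A
    have hf : IsCocycle₂ (f : G × G → A.V) := (mem_cocycles₂_iff_isCocycle₂ A _).1 f.2
    obtain ⟨a, ha, hcob⟩ := exists_cupChar_cohomologous hχ hinj hσ hf
    refine ⟨⟨a, (Representation.mem_invariants A.ρ a).2 ha⟩, ?_⟩
    rw [_root_.Fermat.Agent.S55.G.Rec.H379.cc_apply, H2π_eq_iff]
    have := (mem_coboundaries₂_iff_isCoboundary₂ A _).2 hcob
    rw [← neg_sub] at this
    exact (Submodule.neg_mem_iff _).1 this

/-- **(A4), injectivity**, `Rep`-level: `cc a χ = 0` iff `a` is a norm. -/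
theorem cc_eq_zero_iff (hχ : ∀ g h, χ (g * h) = χ g + χ h) (hinj : Function.Injective χ)
    {σ : G} (hσ : χ σ = 1) [Fintype G] (a : A.ρ.invariants) :
    _root_.Fermat.Agent.S55.G.Rec.H379.cc A χ hχ a = 0 ↔ ∃ b : A.V, A.ρ.norm b = (a : A.V) := by
  rw [_root_.Fermat.Agent.S55.G.Rec.H379.cc_apply, H2π_eq_zero_iff, coe_cupCocycle, mem_coboundaries₂_iff_isCoboundary₂]
  letI := repAct A
  rw [isCoboundary₂_cupChar_iff' hχ hinj hσ]
  constructor
  · rintro ⟨b, hb⟩
    refine ⟨b, ?_⟩
    rw [hb, Representation.norm, LinearMap.sum_apply]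
    rfl
  · rintro ⟨b, hb⟩
    refine ⟨b, ?_⟩
    rw [← hb, Representation.norm, LinearMap.sum_apply]
    rfl

/-- In particular (A4): `cc (N_G b) χ = 0`. -/
theorem cc_norm_eq_zero (hχ : ∀ g h, χ (g * h) = χ g + χ h) (hinj : Function.Injective χ)
    {σ : G} (hσ : χ σ = 1) [Fintype G] (a : A.ρ.invariants) (b : A.V)
    (hb : A.ρ.norm b = (a : A.V)) : _root_.Fermat.Agent.S55.G.Rec.H379.cc A χ hχ a = 0 :=
  (_root_.Fermat.Agent.S55.G.Rec.H379.cc_eq_zero_iff hχ hinj hσ a).2 ⟨b, hb⟩

/-- The kernel of `cc` is the submodule of norms. -/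
theorem ker_cc (hχ : ∀ g h, χ (g * h) = χ g + χ h) (hinj : Function.Injective χ)
    {σ : G} (hσ : χ σ = 1) [Fintype G] :
    LinearMap.ker (_root_.Fermat.Agent.S55.G.Rec.H379.cc A χ hχ) = (LinearMap.range A.ρ.norm).comap A.ρ.invariants.subtype := by
  ext a
  rw [LinearMap.mem_ker, _root_.Fermat.Agent.S55.G.Rec.H379.cc_eq_zero_iff hχ hinj hσ, Submodule.mem_comap, LinearMap.mem_range]
  rfl

/-- **(A4)**: `A^G / N_G A ≃ H²(G, A)` for `G` cyclic of order `n`, induced by `a ↦ cc a χ`. -/
noncomputable def ccEquiv (hχ : ∀ g h, χ (g * h) = χ g + χ h) (hinj : Function.Injective χ)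
    {σ : G} (hσ : χ σ = 1) [Fintype G] :
    (A.ρ.invariants ⧸ (LinearMap.range A.ρ.norm).comap A.ρ.invariants.subtype) ≃ₗ[k] H2 A :=
  (Submodule.quotEquivOfEq _ _ (ker_cc hχ hinj hσ).symm).trans
    ((_root_.Fermat.Agent.S55.G.Rec.H379.cc A χ hχ).quotKerEquivOfSurjective (_root_.Fermat.Agent.S55.G.Rec.H379.cc_surjective hχ hinj hσ))

@[simp] lemma ccEquiv_mk (hχ : ∀ g h, χ (g * h) = χ g + χ h) (hinj : Function.Injective χ)
    {σ : G} (hσ : χ σ = 1) [Fintype G] (a : A.ρ.invariants) :
    _root_.Fermat.Agent.S55.G.Rec.H379.ccEquiv hχ hinj hσ (Submodule.Quotient.mk a) = _root_.Fermat.Agent.S55.G.Rec.H379.cc A χ hχ a := rfl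


/-- The norm (for the cyclic quotient `G / ker χ`) of an element fixed by `ker χ` is
`G`-invariant. -/
theorem norm_ker_mem_invariants (hχ : ∀ g h, χ (g * h) = χ g + χ h) {σ : G} (hσ : χ σ = 1)
    {b : A.V} (hb : ∀ g : G, χ g = 0 → A.ρ g b = b) :
    (∑ k ∈ range n, A.ρ (σ ^ k) b) ∈ A.ρ.invariants := by
  rw [Representation.mem_invariants]
  letI := repAct A
  exact fun g => smul_norm_eq_of_ker hχ hσ hb g

/-- **(A4) + inflation**, `Rep`-level (no injectivity of `χ` needed): if `a` is the norm, for the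
cyclic quotient `G / ker χ = ⟨σ̄⟩`, of an element `b` fixed by `ker χ`, then `cc a χ = 0`. -/
theorem cc_eq_zero_of_norm_ker (hχ : ∀ g h, χ (g * h) = χ g + χ h) {σ : G} (hσ : χ σ = 1)
    {b : A.V} (hb : ∀ g : G, χ g = 0 → A.ρ g b = b) (a : A.ρ.invariants)
    (ha : (a : A.V) = ∑ k ∈ range n, A.ρ (σ ^ k) b) : _root_.Fermat.Agent.S55.G.Rec.H379.cc A χ hχ a = 0 := by
  rw [_root_.Fermat.Agent.S55.G.Rec.H379.cc_apply, H2π_eq_zero_iff, coe_cupCocycle, mem_coboundaries₂_iff_isCoboundary₂, ha]
  letI := repAct A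
  exact isCoboundary₂_cupChar_of_norm hχ hσ hb

end Rep

end Fermat.Agent.S55.G.Rec.H379

end
-- ===== PACK-END S55/G/Rec/H379Rep.lean

-- ===== PACK-BEGIN S55/H175/LocalDecomp.lean
section




set_option autoImplicit false
set_option linter.style.haveILetI false

/-!
# The local Galois group at `q` is the decomposition group of the `q`-adic place of `ℚ̄`

`localGaloisToGlobal q : Gal(ℚ̄_q/ℚ_q) →* Gal(ℚ̄/ℚ)` is injective with range the decomposition
subgroup of `padicPlace q`.
-/

open scoped NNReal Pointwise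
open Polynomial

namespace Fermat.Agent.S55.H175

variable (q : ℕ) [Fact q.Prime]

theorem mem_padicPlace_iff_norm {x : AlgebraicClosure ℚ} :
    x ∈ padicPlace q ↔ ‖padicEmbedding q x‖ ≤ 1 := by
  rw [mem_padicPlace_iff]
  exact Iff.rfl

theorem padicEmbedding_injective : Function.Injective (padicEmbedding q) :=
  (padicEmbedding q).toRingHom.injective

theorem norm_padicEmbedding_natCast_self : ‖padicEmbedding q (q : AlgebraicClosure ℚ)‖ = (q : ℝ)⁻¹ := by
  rw [map_natCast]
  have h := PadicAlgCl.valuation_p q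
  have h2 : ((Valued.v (q : PadicAlgCl q) : ℝ≥0) : ℝ) = ‖(q : PadicAlgCl q)‖ :=
    PadicAlgCl.valuation_coe q _
  rw [← h2, h]
  simp

/-- Elements of the decomposition group are isometries for the `q`-adic norm. -/
theorem norm_padicEmbedding_smul (σ : AlgebraicClosure ℚ ≃ₐ[ℚ] AlgebraicClosure ℚ)
    (hσ : σ ∈ (padicPlace q).decompositionSubgroup ℚ) (x : AlgebraicClosure ℚ) :
    ‖padicEmbedding q (σ x)‖ = ‖padicEmbedding q x‖ := by
  have hstab : σ • padicPlace q = padicPlace q := MulAction.mem_stabilizer_iff.mp hσ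
  have hmem : ∀ y : AlgebraicClosure ℚ, σ y ∈ padicPlace q ↔ y ∈ padicPlace q := by
    intro y
    constructor
    · intro h
      rw [← hstab] at h
      obtain ⟨z, hz, hzy⟩ := (ValuationSubring.mem_smul_pointwise_iff_exists σ (σ y) _).mp h
      have : z = y := σ.injective hzy
      exact this ▸ hz
    · intro h
      rw [← hstab]
      exact (ValuationSubring.mem_smul_pointwise_iff_exists σ (σ y) _).mpr ⟨y, h, rfl⟩
  let f : AlgebraicClosure ℚ →*₀ ℝ :=
    (normHom : PadicAlgCl q →*₀ ℝ).comp
      ((padicEmbedding q).toRingHom.toMonoidWithZeroHom)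
  let g : AlgebraicClosure ℚ →*₀ ℝ :=
    f.comp (σ : AlgebraicClosure ℚ →+* AlgebraicClosure ℚ).toMonoidWithZeroHom
  have hf : ∀ y, f y = ‖padicEmbedding q y‖ := fun y => rfl
  have hg : ∀ y, g y = ‖padicEmbedding q (σ y)‖ := fun y => rfl
  have hq : (1 : ℝ) < q := by exact_mod_cast (Fact.out : q.Prime).one_lt
  have hfq : f (q : AlgebraicClosure ℚ) = (q : ℝ)⁻¹ := by
    rw [hf]; exact norm_padicEmbedding_natCast_self q
  have hgq : g (q : AlgebraicClosure ℚ) = (q : ℝ)⁻¹ := by
    rw [hg, map_natCast]; exact norm_padicEmbedding_natCast_self q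
  have key := eq_of_le_one_iff g f (fun y => by rw [hg]; exact norm_nonneg _)
    (fun y => by rw [hf]; exact norm_nonneg _) (q : AlgebraicClosure ℚ)
    (by rw [hfq, hgq]) (by rw [hgq]; positivity)
    (by rw [hgq]; exact inv_lt_one_of_one_lt₀ hq)
    (fun y => by
      rw [hg, hf, ← mem_padicPlace_iff_norm, ← mem_padicPlace_iff_norm]
      exact hmem y) x
  exact key

/-- The algebraic numbers are dense in `ℚ̄_q`. -/
theorem denseRange_padicEmbedding : DenseRange (padicEmbedding q) := by
  rw [Metric.denseRange_iff]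
  intro y ε hε
  have hyint : IsIntegral ℚ_[q] y := (Algebra.IsAlgebraic.isAlgebraic y).isIntegral
  set f : ℚ_[q][X] := minpoly ℚ_[q] y with hfdef
  have fmon : f.Monic := minpoly.monic hyint
  have fa0 : f.aeval y = 0 := minpoly.aeval ℚ_[q] y
  have fnatdeg0 : f.natDegree ≠ 0 := (minpoly.natDegree_pos hyint).ne'
  have hε' : (ε / (max ‖y‖ 1)) ^ f.natDegree / (f.natDegree + 1) > 0 := by positivity
  have hdense : DenseRange (algebraMap ℚ ℚ_[q]) := by
    have h := Padic.denseRange_ratCast q
    convert h using 1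
    funext r
    exact eq_ratCast _ r
  obtain ⟨g, gmon, gdeg, gcoeff⟩ :=
    exists_monic_and_natDegree_eq_and_norm_map_algebraMap_coeff_sub_lt hdense fmon hε'
  obtain ⟨b, hb, hab⟩ := exists_aroots_norm_sub_lt_of_norm_coeff_sub_lt (L := PadicAlgCl q)
      hε' fa0 fmon (gmon.map _) (gdeg ▸ (g.natDegree_map _)) gcoeff
      (IsAlgClosed.splits _)
  have hab' : ‖y - b‖ < ε := by
    rw [← Real.rpow_natCast, ← mul_comm_div, div_self, one_mul,
        ← Real.rpow_mul (div_pos hε (by positivity)).le, mul_inv_cancel₀] at hab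
    · simpa [mul_assoc, div_mul_cancel₀ _ (by positivity : (max ‖y‖ 1) > 0).ne'] using hab
    · simp [fnatdeg0]
    · positivity
  -- `b` is a root of a rational polynomial, hence algebraic over `ℚ`
  have hbroot : (g.map (algebraMap ℚ (PadicAlgCl q))).IsRoot b := by
    rw [Polynomial.aroots_def, Polynomial.map_map] at hb
    have h1 := (Polynomial.mem_roots'.mp hb).2
    have h2 : (algebraMap ℚ_[q] (PadicAlgCl q)).comp (algebraMap ℚ ℚ_[q]) =
        algebraMap ℚ (PadicAlgCl q) := Subsingleton.elim _ _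
    rw [h2] at h1
    exact h1
  have hgQ : ((g.map (algebraMap ℚ (AlgebraicClosure ℚ))).map
      (padicEmbedding q).toRingHom) = g.map (algebraMap ℚ (PadicAlgCl q)) := by
    rw [Polynomial.map_map]
    congr 1
    exact (padicEmbedding q).comp_algebraMap
  have hsplit : (g.map (algebraMap ℚ (AlgebraicClosure ℚ))).Splits := IsAlgClosed.splits _
  have hbmem : b ∈ ((g.map (algebraMap ℚ (AlgebraicClosure ℚ))).map
      (padicEmbedding q).toRingHom).roots := by
    rw [hgQ, Polynomial.mem_roots']
    refine ⟨?_, hbroot⟩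
    exact (gmon.map _).ne_zero
  rw [Polynomial.Splits.roots_map hsplit, Multiset.mem_map] at hbmem
  obtain ⟨x, -, hx⟩ := hbmem
  refine ⟨x, ?_⟩
  rw [dist_eq_norm]
  have : (padicEmbedding q) x = b := hx
  rw [this]
  exact hab'

/-- Every element of the decomposition group of the `q`-adic place comes from the local Galois
group. -/
theorem exists_local_of_mem_decomposition (σ : AlgebraicClosure ℚ ≃ₐ[ℚ] AlgebraicClosure ℚ)
    (hσ : σ ∈ (padicPlace q).decompositionSubgroup ℚ) :
    ∃ τ : PadicAlgCl q ≃ₐ[ℚ_[q]] PadicAlgCl q, localGaloisToGlobal q τ = σ := by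
  let j : PadicAlgCl q →+* ℂ_[q] := algebraMap (PadicAlgCl q) ℂ_[q]
  have hj : ∀ y : PadicAlgCl q, ‖j y‖ = ‖y‖ := fun y => PadicComplex.norm_extends q y
  let ι' : AlgebraicClosure ℚ →+* ℂ_[q] := j.comp (padicEmbedding q).toRingHom
  have hι' : ∀ x, ι' x = j (padicEmbedding q x) := fun x => rfl
  letI : PseudoMetricSpace (AlgebraicClosure ℚ) := PseudoMetricSpace.induced ι' inferInstance
  have hdist : ∀ x y : AlgebraicClosure ℚ, dist x y = dist (ι' x) (ι' y) := fun x y => rfl
  have hiso : Isometry ι' := Isometry.of_dist_eq fun x y => rfl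
  have hue : IsUniformInducing ι' := hiso.isUniformInducing
  have hdr : DenseRange ι' := by
    have h1 : DenseRange (j : PadicAlgCl q → ℂ_[q]) := UniformSpace.Completion.denseRange_coe
    have h2 : Continuous (j : PadicAlgCl q → ℂ_[q]) := UniformSpace.Completion.continuous_coe _
    exact h1.comp (denseRange_padicEmbedding q) h2
  let f : AlgebraicClosure ℚ →+* ℂ_[q] :=
    ι'.comp (σ : AlgebraicClosure ℚ →+* AlgebraicClosure ℚ)
  have hfapp : ∀ x, f x = ι' (σ x) := fun x => rfl
  have hfiso : Isometry f := by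
    apply Isometry.of_dist_eq
    intro x y
    rw [hdist, hfapp, hfapp, dist_eq_norm, dist_eq_norm, ← map_sub, ← map_sub, ← map_sub,
      hι', hι', hj, hj]
    exact norm_padicEmbedding_smul q σ hσ (x - y)
  have hf : UniformContinuous f := hfiso.uniformContinuous
  let τh : ℂ_[q] →+* ℂ_[q] := IsDenseInducing.extendRingHom hue hdr hf
  have hτh : ∀ x, τh (ι' x) = ι' (σ x) := fun x =>
    IsDenseInducing.extend_eq (hue.isDenseInducing hdr) hf.continuous x
  have hτcont : Continuous τh := (uniformContinuous_uniformly_extend hue hdr hf).continuous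
  -- `τh` fixes `ℚ_q`
  have hτQq : ∀ a : ℚ_[q], τh (algebraMap ℚ_[q] ℂ_[q] a) = algebraMap ℚ_[q] ℂ_[q] a := by
    intro a
    have h1 : Continuous (fun a : ℚ_[q] => τh (algebraMap ℚ_[q] ℂ_[q] a)) :=
      hτcont.comp (continuous_algebraMap ℚ_[q] ℂ_[q])
    have h2 : Continuous (fun a : ℚ_[q] => algebraMap ℚ_[q] ℂ_[q] a) :=
      continuous_algebraMap ℚ_[q] ℂ_[q]
    refine congrFun (DenseRange.equalizer (Padic.denseRange_ratCast q) h1 h2 ?_) a
    funext r
    show τh (algebraMap ℚ_[q] ℂ_[q] (r : ℚ_[q])) = algebraMap ℚ_[q] ℂ_[q] (r : ℚ_[q])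
    have h3 : algebraMap ℚ_[q] ℂ_[q] (r : ℚ_[q]) = ι' (r : AlgebraicClosure ℚ) := by
      rw [map_ratCast, map_ratCast]
    rw [h3, hτh, map_ratCast]
  let τA : ℂ_[q] →ₐ[ℚ_[q]] ℂ_[q] := { τh with commutes' := hτQq }
  have hτA : ∀ z, τA z = τh z := fun z => rfl
  let jA : PadicAlgCl q →ₐ[ℚ_[q]] ℂ_[q] := IsScalarTower.toAlgHom ℚ_[q] (PadicAlgCl q) ℂ_[q]
  have hjA : ∀ y, jA y = j y := fun y => rfl
  have hjinj : Function.Injective jA := (algebraMap (PadicAlgCl q) ℂ_[q]).injective
  -- `τA` preserves the algebraic closure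
  have hrange : ∀ y : PadicAlgCl q, (τA.comp jA) y ∈ jA.range := by
    intro y
    have hyint : IsIntegral ℚ_[q] y := (Algebra.IsAlgebraic.isAlgebraic y).isIntegral
    set P : ℚ_[q][X] := minpoly ℚ_[q] y with hP
    have hPy : Polynomial.aeval y P = 0 := minpoly.aeval ℚ_[q] y
    have h1 : Polynomial.aeval ((τA.comp jA) y) P = 0 := by
      rw [Polynomial.aeval_algHom_apply, hPy, map_zero]
    have hsplit : (P.map (algebraMap ℚ_[q] (PadicAlgCl q))).Splits := IsAlgClosed.splits _
    have hmem : (τA.comp jA) y ∈ ((P.map (algebraMap ℚ_[q] (PadicAlgCl q))).map j).roots := by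
      rw [Polynomial.mem_roots', Polynomial.map_map]
      refine ⟨?_, ?_⟩
      · exact ((minpoly.monic hyint).map _).ne_zero
      · rw [Polynomial.IsRoot.def, Polynomial.eval_map]
        have h2 : j.comp (algebraMap ℚ_[q] (PadicAlgCl q)) = algebraMap ℚ_[q] ℂ_[q] :=
          (IsScalarTower.algebraMap_eq ℚ_[q] (PadicAlgCl q) ℂ_[q]).symm
        rw [h2]
        exact h1
    rw [Polynomial.Splits.roots_map hsplit, Multiset.mem_map] at hmem
    obtain ⟨z, -, hz⟩ := hmem
    exact ⟨z, hz⟩
  let τ₀ : PadicAlgCl q →ₐ[ℚ_[q]] PadicAlgCl q :=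
    (AlgEquiv.ofInjective jA hjinj).symm.toAlgHom.comp ((τA.comp jA).codRestrict jA.range hrange)
  have hτ₀ : ∀ y, jA (τ₀ y) = τA (jA y) := by
    intro y
    have := (AlgEquiv.ofInjective jA hjinj).apply_symm_apply
      ((τA.comp jA).codRestrict jA.range hrange y)
    exact congrArg Subtype.val this
  have hbij : Function.Bijective τ₀ := Algebra.IsAlgebraic.algHom_bijective τ₀
  refine ⟨AlgEquiv.ofBijective τ₀ hbij, ?_⟩
  ext x
  apply padicEmbedding_injective q
  rw [padicEmbedding_localGaloisToGlobal]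
  apply hjinj
  show jA (τ₀ (padicEmbedding q x)) = jA (padicEmbedding q (σ x))
  rw [hτ₀, hτA, hjA, ← hι', hτh, hjA, hι']

/-- The range of `localGaloisToGlobal q` is the decomposition subgroup of the `q`-adic place. -/
theorem range_localGaloisToGlobal :
    (localGaloisToGlobal q).range = (padicPlace q).decompositionSubgroup ℚ := by
  apply le_antisymm
  · rintro _ ⟨τ, rfl⟩
    exact localGaloisToGlobal_mem_decompositionSubgroup q τ
  · intro σ hσ
    obtain ⟨τ, hτ⟩ := exists_local_of_mem_decomposition q σ hσ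
    exact ⟨τ, hτ⟩

theorem continuous_padicAlgCl_algEquiv (τ : PadicAlgCl q ≃ₐ[ℚ_[q]] PadicAlgCl q) :
    Continuous τ := by
  have hiso : Isometry τ := by
    apply Isometry.of_dist_eq
    intro x y
    rw [dist_eq_norm, dist_eq_norm, ← map_sub]
    have := nnnorm_padicAlgCl_algEquiv q τ (x - y)
    exact congrArg NNReal.toReal this
  exact hiso.continuous

/-- `localGaloisToGlobal q` is injective. -/
theorem localGaloisToGlobal_injective : Function.Injective (localGaloisToGlobal q) := by
  rw [injective_iff_map_eq_one]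
  intro τ hτ
  have h1 : ∀ x : AlgebraicClosure ℚ, τ (padicEmbedding q x) = padicEmbedding q x := by
    intro x
    rw [← padicEmbedding_localGaloisToGlobal, hτ]
    rfl
  have h2 : (τ : PadicAlgCl q → PadicAlgCl q) = id :=
    DenseRange.equalizer (denseRange_padicEmbedding q) (continuous_padicAlgCl_algEquiv q τ)
      continuous_id (funext h1)
  ext y
  exact congrFun h2 y

/-- The local Galois group at `q` is isomorphic to the decomposition group of the `q`-adic
place of `ℚ̄`. -/
noncomputable def localGaloisEquivDecomposition :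
    (PadicAlgCl q ≃ₐ[ℚ_[q]] PadicAlgCl q) ≃* (padicPlace q).decompositionSubgroup ℚ :=
  (MonoidHom.ofInjective (localGaloisToGlobal_injective q)).trans
    (MulEquiv.subgroupCongr (range_localGaloisToGlobal q))

theorem localGaloisEquivDecomposition_apply (τ : PadicAlgCl q ≃ₐ[ℚ_[q]] PadicAlgCl q) :
    ((localGaloisEquivDecomposition q τ : (padicPlace q).decompositionSubgroup ℚ) :
      AlgebraicClosure ℚ ≃ₐ[ℚ] AlgebraicClosure ℚ) = localGaloisToGlobal q τ := rfl

end Fermat.Agent.S55.H175

end
-- ===== PACK-END S55/H175/LocalDecomp.lean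

-- ===== PACK-BEGIN S55/G/LocH897/Invariants.lean
section


/-!
# S55 / layer G (helper897): Galois invariants of `L ⊗[ℚ] P`

If a finite group `G` acts on the field `L` (characteristic `0`) with fixed field `ℚ`, then the
invariants of `L ⊗[ℚ] P` under `g ⊗ 1` are exactly `1 ⊗ P`, for every `ℚ`-module `P`
(`exists_tmul_of_invariant`).  Proof by averaging.
-/

set_option autoImplicit false
set_option linter.style.haveILetI false

open scoped TensorProduct

namespace Fermat.Agent.S55.G.LocH897

section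

variable (Γ L : Type) [Group Γ] [Field L] [CharZero L] [MulSemiringAction Γ L]

/-- `g ∈ Γ` as a `ℚ`-linear endomorphism of `L`. -/
noncomputable def actLin (g : Γ) : L →ₗ[ℚ] L := (fieldAut Γ L g).toLinearMap

@[simp] lemma actLin_apply (g : Γ) (x : L) : actLin Γ L g x = g • x := rfl

variable [Fintype Γ]

/-- The averaging operator `x ↦ |Γ|⁻¹ ∑_g g x`. -/
noncomputable def avg : L →ₗ[ℚ] L := ((Fintype.card Γ : ℚ)⁻¹) • ∑ g : Γ, actLin Γ L g

lemma avg_apply (x : L) : avg Γ L x = ((Fintype.card Γ : ℚ)⁻¹) • ∑ g : Γ, g • x := by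
  simp [avg, LinearMap.sum_apply]

lemma smul_avg (h : Γ) (x : L) : h • avg Γ L x = avg Γ L x := by
  rw [avg_apply]
  have h1 : h • (((Fintype.card Γ : ℚ)⁻¹) • ∑ g : Γ, g • x) =
      ((Fintype.card Γ : ℚ)⁻¹) • (h • ∑ g : Γ, g • x) :=
    (actLin Γ L h).map_smul _ _
  rw [h1, Finset.smul_sum]
  congr 1
  exact Fintype.sum_bijective (fun g => h * g) (Group.mulLeft_bijective h) _ _
    (fun g => (mul_smul h g x).symm)

/-- The averaging operator factors through `ℚ` when the fixed field is `ℚ`. -/
lemma exists_avg_factor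
    (hfix : ∀ x : L, (∀ g : Γ, g • x = x) → ∃ c : ℚ, algebraMap ℚ L c = x) :
    ∃ t : L →ₗ[ℚ] ℚ, (Algebra.linearMap ℚ L) ∘ₗ t = avg Γ L := by
  have hinj : Function.Injective (Algebra.linearMap ℚ L) := (algebraMap ℚ L).injective
  have hmem : ∀ x : L, avg Γ L x ∈ LinearMap.range (Algebra.linearMap ℚ L) := by
    intro x
    obtain ⟨c, hc⟩ := hfix (avg Γ L x) (fun g => smul_avg Γ L g x)
    exact ⟨c, hc⟩
  refine ⟨(LinearEquiv.ofInjective (Algebra.linearMap ℚ L) hinj).symm.toLinearMap ∘ₗ
    (avg Γ L).codRestrict _ hmem, ?_⟩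
  ext x
  have := (LinearEquiv.ofInjective (Algebra.linearMap ℚ L) hinj).apply_symm_apply
    ((avg Γ L).codRestrict _ hmem x)
  have h2 := congrArg Subtype.val this
  exact h2

variable (P : Type) [AddCommGroup P] [Module ℚ P]

/-- **Invariants of `L ⊗ P`.**  If `Γ` (finite) acts on `L` with fixed field `ℚ`, every element
of `L ⊗[ℚ] P` fixed by all `g ⊗ 1` is of the form `1 ⊗ y`. -/
theorem exists_tmul_of_invariant
    (hfix : ∀ x : L, (∀ g : Γ, g • x = x) → ∃ c : ℚ, algebraMap ℚ L c = x)
    (α : Γ → (L ⊗[ℚ] P →ₗ[ℚ] L ⊗[ℚ] P))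
    (hα : ∀ g x y, α g (x ⊗ₜ[ℚ] y) = (g • x) ⊗ₜ[ℚ] y)
    (r : L ⊗[ℚ] P) (hr : ∀ g, α g r = r) : ∃ y : P, r = (1 : L) ⊗ₜ[ℚ] y := by
  obtain ⟨t, ht⟩ := exists_avg_factor Γ L hfix
  have hαg : ∀ g, (actLin Γ L g).rTensor P = α g := by
    intro g
    refine TensorProduct.ext' fun x y => ?_
    rw [LinearMap.rTensor_tmul, hα]
    rfl
  have hcard : (Fintype.card Γ : ℚ) ≠ 0 := by
    exact_mod_cast Fintype.card_ne_zero
  have h1 : (avg Γ L).rTensor P r = r := by
    have : (avg Γ L).rTensor P = ((Fintype.card Γ : ℚ)⁻¹) • ∑ g : Γ, α g := by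
      show LinearMap.rTensorHom P (avg Γ L) = _
      rw [avg, map_smul, map_sum]
      congr 1
      exact Finset.sum_congr rfl fun g _ => hαg g
    rw [this, LinearMap.smul_apply, LinearMap.sum_apply, Finset.sum_congr rfl (fun g _ => hr g),
      Finset.sum_const, Finset.card_univ, ← Nat.cast_smul_eq_nsmul ℚ, smul_smul,
      inv_mul_cancel₀ hcard, one_smul]
  have h2 : ∀ z : ℚ ⊗[ℚ] P, (Algebra.linearMap ℚ L).rTensor P z =
      (1 : L) ⊗ₜ[ℚ] (TensorProduct.lid ℚ P z) := by
    intro z
    induction z using TensorProduct.induction_on with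
    | zero => simp
    | tmul c y =>
      rw [LinearMap.rTensor_tmul, TensorProduct.lid_tmul, Algebra.linearMap_apply,
        Algebra.algebraMap_eq_smul_one, TensorProduct.smul_tmul]
    | add a b ha hb => rw [map_add, ha, hb, map_add, TensorProduct.tmul_add]
  refine ⟨TensorProduct.lid ℚ P (t.rTensor P r), ?_⟩
  rw [← h2, ← LinearMap.comp_apply, ← LinearMap.rTensor_comp, ht, h1]

end

end Fermat.Agent.S55.G.LocH897

end
-- ===== PACK-END S55/G/LocH897/Invariants.lean

-- ===== PACK-BEGIN S55/G/DescH537/Tensor.lean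
section
/-
S55, layer G, leaf G-DESC (Galois descent for the `S`-idèle class group), helper537.
Part 1: base change `𝔸_S(K) → 𝔸_S(L)` and Galois invariants of `𝔸_S(L)` and of `J_S(L)`.

`K ⊂ L` fields of characteristic `0`, `G` a finite group with `IsGaloisGroup G K L`.
* `asBC K L S : AS S K →ₐ[ℚ] AS S L` (injective), `asAut_asBC` (image is `G`-invariant);
* `exists_asBC_eq_of_invariant` : `(L ⊗ ℚ_S)^G = K ⊗ ℚ_S`;
* `jBC K L S : J_S(K) → J_S(L)` (additive), `jBC_injective`, `exists_jBC_eq_of_invariant`.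
-/



set_option autoImplicit false

open scoped TensorProduct

noncomputable section

namespace Fermat.Agent.S55.G.DescH537

section Tensor

variable (G K L : Type) [Group G] [Field K] [Field L] [Algebra K L]
  [CharZero K] [CharZero L] [MulSemiringAction G L]
variable (S : Finset Nat.Primes)

/-- The inclusion `K → L` as a `ℚ`-algebra homomorphism. -/
def ratIncl : K →ₐ[ℚ] L := (algebraMap K L).toRatAlgHom

@[simp] lemma ratIncl_apply (x : K) : ratIncl K L x = algebraMap K L x := rfl

/-- Base change of `S`-adèles `𝔸_S(K) = K ⊗ ℚ_S → L ⊗ ℚ_S = 𝔸_S(L)`. -/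
def asBC : AS S K →ₐ[ℚ] AS S L := Algebra.TensorProduct.map (ratIncl K L) (AlgHom.id ℚ (QS S))

@[simp] lemma asBC_tmul (x : K) (y : QS S) :
    asBC K L S (x ⊗ₜ[ℚ] y) = algebraMap K L x ⊗ₜ[ℚ] y := by
  simp [asBC]

lemma asBC_asDiag (x : K) : asBC K L S (asDiag S K x) = asDiag S L (algebraMap K L x) := by
  simp

lemma asBC_injective : Function.Injective (asBC K L S) := by
  have h : Function.Injective ((ratIncl K L).toLinearMap.rTensor (QS S)) :=
    Module.Flat.rTensor_preserves_injective_linearMap _ (algebraMap K L).injective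
  intro a b hab
  apply h
  have key : ∀ z : AS S K, (ratIncl K L).toLinearMap.rTensor (QS S) z = asBC K L S z := by
    intro z
    induction z using TensorProduct.induction_on with
    | zero => simp
    | tmul x y => simp
    | add a b ha hb => simp only [map_add, ha, hb]
  rw [key, key, hab]

variable [IsGaloisGroup G K L]

lemma asAut_asBC (g : G) (z : AS S K) : asAut S G L g (asBC K L S z) = asBC K L S z := by
  induction z using TensorProduct.induction_on with
  | zero => simp
  | tmul x y => simp [smul_algebraMap]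
  | add a b ha hb => simp only [map_add, ha, hb]

lemma sum_asAut_mem_range [Fintype G] (z : AS S L) :
    ∃ y : AS S K, asBC K L S y = ∑ g : G, asAut S G L g z := by
  induction z using TensorProduct.induction_on with
  | zero => exact ⟨0, by simp⟩
  | tmul x n =>
    have hinv : ∀ h : G, h • (∑ g : G, g • x) = ∑ g : G, g • x := by
      intro h
      rw [Finset.smul_sum]
      exact Fintype.sum_equiv (Equiv.mulLeft h) _ _ (fun g => by simp [mul_smul])
    obtain ⟨k, hk⟩ := Algebra.IsInvariant.isInvariant (A := K) (∑ g : G, g • x) hinv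
    refine ⟨k ⊗ₜ[ℚ] n, ?_⟩
    rw [asBC_tmul, hk, TensorProduct.sum_tmul]
    simp
  | add a b ha hb =>
    obtain ⟨ya, hya⟩ := ha
    obtain ⟨yb, hyb⟩ := hb
    exact ⟨ya + yb, by simp [hya, hyb, Finset.sum_add_distrib]⟩

variable [Finite G]

/-- **Galois invariants of the `S`-adèles**: `(L ⊗ ℚ_S)^G = K ⊗ ℚ_S`. -/
theorem exists_asBC_eq_of_invariant (z : AS S L) (hz : ∀ g : G, asAut S G L g z = z) :
    ∃ y : AS S K, asBC K L S y = z := by
  classical
  let _ : Fintype G := Fintype.ofFinite G
  obtain ⟨y, hy⟩ := sum_asAut_mem_range G K L S z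
  have hsum : ∑ g : G, asAut S G L g z = (Fintype.card G : ℚ) • z := by
    simp [hz, Finset.sum_const, Finset.card_univ, Nat.cast_smul_eq_nsmul]
  refine ⟨((Fintype.card G : ℚ)⁻¹) • y, ?_⟩
  rw [map_smul, hy, hsum, smul_smul, inv_mul_cancel₀, one_smul]
  exact Nat.cast_ne_zero.2 Fintype.card_ne_zero

end Tensor

section Units

variable (G K L : Type) [Group G] [Field K] [Field L] [Algebra K L]
  [CharZero K] [CharZero L] [MulSemiringAction G L]
variable (S : Finset Nat.Primes)

/-- Base change of units `Kˣ → Lˣ`, additively. -/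
def unitsBC : Additive Kˣ →+ Additive Lˣ :=
  MonoidHom.toAdditive (Units.map ((algebraMap K L : K →+* L) : K →* L))

omit [CharZero K] [CharZero L] in
lemma coe_unitsBC_apply (x : Additive Kˣ) :
    (((unitsBC K L x).toMul : Lˣ) : L) = algebraMap K L ((x.toMul : Kˣ) : K) := rfl

omit [CharZero K] [CharZero L] in
lemma unitsBC_injective : Function.Injective (unitsBC K L) := by
  intro a b hab
  apply Additive.toMul.injective
  apply Units.ext
  apply (algebraMap K L).injective
  rw [← coe_unitsBC_apply, ← coe_unitsBC_apply, hab]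

/-- Base change of `S`-idèles `J_S(K) → J_S(L)`, additively. -/
def jBC : Additive (AS S K)ˣ →+ Additive (AS S L)ˣ :=
  MonoidHom.toAdditive (Units.map ((asBC K L S : AS S K →ₐ[ℚ] AS S L) : AS S K →* AS S L))

lemma coe_jBC_apply (x : Additive (AS S K)ˣ) :
    (((jBC K L S x).toMul : (AS S L)ˣ) : AS S L) =
      asBC K L S ((x.toMul : (AS S K)ˣ) : AS S K) := rfl

lemma jBC_injective : Function.Injective (jBC K L S) := by
  intro a b hab
  apply Additive.toMul.injective
  apply Units.ext
  apply asBC_injective K L S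
  rw [← coe_jBC_apply, ← coe_jBC_apply, hab]

lemma jBC_unitsDiag (x : Additive Kˣ) :
    jBC K L S (unitsDiag S K x) = unitsDiag S L (unitsBC K L x) := by
  apply Additive.toMul.injective
  apply Units.ext
  rw [coe_jBC_apply, coe_unitsDiag_apply, coe_unitsDiag_apply, coe_unitsBC_apply, asBC_asDiag]

variable [IsGaloisGroup G K L]

omit [CharZero K] [CharZero L] in
lemma lRepr_unitsBC (g : G) (x : Additive Kˣ) :
    lRepr G L g (unitsBC K L x) = unitsBC K L x := by
  apply Additive.toMul.injective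
  apply Units.ext
  rw [coe_lRepr_apply, coe_unitsBC_apply, smul_algebraMap]

lemma jRepr_jBC (g : G) (x : Additive (AS S K)ˣ) :
    jRepr G S L g (jBC K L S x) = jBC K L S x := by
  apply Additive.toMul.injective
  apply Units.ext
  rw [coe_jRepr_apply, coe_jBC_apply, asAut_asBC]

omit [CharZero K] [CharZero L] in
/-- Galois invariants of `Lˣ`. -/
theorem exists_unitsBC_eq_of_invariant (u : Additive Lˣ) (hu : ∀ g : G, lRepr G L g u = u) :
    ∃ y : Additive Kˣ, unitsBC K L y = u := by
  have hinv : ∀ g : G, g • ((u.toMul : Lˣ) : L) = ((u.toMul : Lˣ) : L) := by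
    intro g
    rw [← coe_lRepr_apply, hu]
  obtain ⟨k, hk⟩ := Algebra.IsInvariant.isInvariant (A := K) ((u.toMul : Lˣ) : L) hinv
  have hk0 : k ≠ 0 := by
    rintro rfl
    rw [map_zero] at hk
    exact (Units.ne_zero (u.toMul : Lˣ)) hk.symm
  refine ⟨Additive.ofMul (Units.mk0 k hk0), ?_⟩
  apply Additive.toMul.injective
  apply Units.ext
  rw [coe_unitsBC_apply]
  exact hk

variable [Finite G]

/-- **Galois invariants of the `S`-idèles**: `J_S(L)^G = J_S(K)`. -/
theorem exists_jBC_eq_of_invariant (u : Additive (AS S L)ˣ)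
    (hu : ∀ g : G, jRepr G S L g u = u) : ∃ y : Additive (AS S K)ˣ, jBC K L S y = u := by
  have h1 : ∀ g : G, asAut S G L g ((u.toMul : (AS S L)ˣ) : AS S L) =
      ((u.toMul : (AS S L)ˣ) : AS S L) := by
    intro g
    rw [← coe_jRepr_apply, hu]
  have h2 : ∀ g : G, asAut S G L g (((u.toMul)⁻¹ : (AS S L)ˣ) : AS S L) =
      (((u.toMul)⁻¹ : (AS S L)ˣ) : AS S L) := by
    intro g
    have hu' : jRepr G S L g (-u) = -u := by rw [map_neg, hu]
    rw [← toMul_neg, ← coe_jRepr_apply, hu']
  obtain ⟨a, ha⟩ := exists_asBC_eq_of_invariant G K L S _ h1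
  obtain ⟨b, hb⟩ := exists_asBC_eq_of_invariant G K L S _ h2
  have hab : a * b = 1 := by
    apply asBC_injective K L S
    rw [map_mul, ha, hb, map_one, Units.mul_inv]
  have hba : b * a = 1 := by rw [mul_comm, hab]
  refine ⟨Additive.ofMul ⟨a, b, hab, hba⟩, ?_⟩
  apply Additive.toMul.injective
  apply Units.ext
  rw [coe_jBC_apply]
  exact ha

end Units

end Fermat.Agent.S55.G.DescH537

end
end
-- ===== PACK-END S55/G/DescH537/Tensor.lean

-- ===== PACK-BEGIN S55/G/H953/Hilbert90.lean
section


/-!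
# S55, layer G (helper953): Hilbert 90 for a finite group acting faithfully on a field

`hilbert90_ringAut` : Noether's form of Hilbert 90 for a finite group `D` acting on a field `E`
through an injective homomorphism `φ : D →* (E ≃+* E)` (no base field needed).
`isZero_H1_unitsRepr` : `H¹(D, Eˣ) = 0` for the representation `unitsRepr D φ` of `G/Defs.lean`.
-/

set_option autoImplicit false

namespace Fermat.Agent.S55.G.H953

open CategoryTheory groupCohomology

/-- Noether's form of Hilbert 90 for a finite group `D` acting faithfully on a field `E` by ring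
automorphisms. -/
theorem hilbert90_ringAut {D E : Type} [Group D] [Finite D] [Field E]
    (φ : D →* (E ≃+* E)) (hφ : Function.Injective φ) (f : D → Eˣ)
    (hf : ∀ g h : D, f (g * h) = Units.map ((φ g : E ≃+* E) : E →* E) (f h) * f g) :
    ∃ β : Eˣ, ∀ g : D, Units.map ((φ g : E ≃+* E) : E →* E) β / β = f g := by
  classical
  have : Fintype D := Fintype.ofFinite D
  -- Dedekind independence of the characters `φ d : E → E`
  have hli : LinearIndependent E (fun d : D => ((φ d : E ≃+* E) : E → E)) :=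
    LinearIndependent.comp (ι' := D) (linearIndependent_monoidHom E E)
      (fun d => ((φ d : E ≃+* E) : E →* E))
      (fun x y h => hφ (by
        ext z
        exact DFunLike.congr_fun h z))
  have hne : (∑ d : D, (f d : E) • ((φ d : E ≃+* E) : E → E)) ≠ 0 := by
    intro h0
    have := Fintype.linearIndependent_iff.1 hli (fun d => (f d : E)) h0 1
    exact Units.ne_zero (f 1) this
  obtain ⟨z, hz⟩ : ∃ z, (∑ d : D, (f d : E) • ((φ d : E ≃+* E) : E → E)) z ≠ 0 :=
    not_forall.1 (fun hall => hne (funext hall))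
  have hz' : (∑ d : D, (f d : E) * φ d z) ≠ 0 := by
    simpa [Finset.sum_apply] using hz
  refine ⟨(Units.mk0 _ hz')⁻¹, fun g => ?_⟩
  rw [map_inv, div_inv_eq_mul, inv_mul_eq_iff_eq_mul]
  apply Units.ext
  simp only [Units.val_mul, Units.val_mk0, Units.coe_map, MonoidHom.coe_coe]
  rw [map_sum, Finset.sum_mul]
  have := Fintype.sum_bijective (fun i : D => g * i) (Group.mulLeft_bijective g)
    (fun i => (f (g * i) : E) * φ (g * i) z)
    (fun i => (f i : E) * φ i z) (fun i => rfl)
  rw [← this]
  refine Finset.sum_congr rfl fun i _ => ?_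
  rw [hf g i, map_mul φ g i]
  simp only [Units.val_mul, Units.coe_map, MonoidHom.coe_coe, RingAut.mul_apply, map_mul]
  ring

/-- `H¹(D, Eˣ) = 0` for a finite group `D` acting faithfully on a field `E`. -/
theorem isZero_H1_unitsRepr {D E : Type} [Group D] [Finite D] [Field E]
    (φ : D →* (E ≃+* E)) (hφ : Function.Injective φ) :
    Limits.IsZero (groupCohomology (Rep.of (unitsRepr D φ)) 1) := by
  rw [ModuleCat.isZero_iff_subsingleton]
  refine ⟨fun a b => ?_⟩
  suffices h : ∀ x : H1 (Rep.of (unitsRepr D φ)), x = 0 by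
    rw [h a, h b]
  intro x
  induction x using H1_induction_on with
  | h c =>
    rw [H1π_eq_zero_iff]
    have hc := (mem_cocycles₁_iff (c : D → _)).1 c.2
    obtain ⟨β, hβ⟩ := hilbert90_ringAut φ hφ (fun h => Additive.toMul (c h)) (fun g h => by
      have := hc g h
      exact congrArg Additive.toMul this)
    refine ⟨Additive.ofMul β, funext fun g => ?_⟩
    have := hβ g
    exact congrArg Additive.ofMul this

end Fermat.Agent.S55.G.H953

end
-- ===== PACK-END S55/G/H953/Hilbert90.lean

-- ===== PACK-BEGIN S14/H74/Zeta.lean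
section



/-!
# S14/N1 (helper74): summability and the upper bound for the sums over ideals (piece Z)

Uses the landed `Fermat.Agent.S14.N3H850.exists_sum_bound` (helper850).
-/

namespace Fermat.Agent.S14.H74

open NumberField

open scoped nonZeroDivisors

variable (K : Type*) [Field K] [NumberField K]

theorem one_le_absNorm (I : (Ideal (𝓞 K))⁰) : (1 : ℝ) ≤ Ideal.absNorm (I : Ideal (𝓞 K)) := by
  have h : Ideal.absNorm (I : Ideal (𝓞 K)) ≠ 0 := by
    rw [Ne, Ideal.absNorm_eq_zero_iff]
    exact nonZeroDivisors.coe_ne_zero I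
  exact_mod_cast Nat.one_le_iff_ne_zero.mpr h

theorem absNorm_rpow_nonneg (s : ℝ) (I : (Ideal (𝓞 K))⁰) :
    0 ≤ (Ideal.absNorm (I : Ideal (𝓞 K)) : ℝ) ^ (-s) :=
  Real.rpow_nonneg (Nat.cast_nonneg _) _

/-- Uniform bound for finite sums over nonzero ideals. -/
theorem exists_finset_sum_bound : ∃ Z : ℝ, 0 < Z ∧ ∀ s : ℝ, 1 < s → s ≤ 2 →
    ∀ T : Finset (Ideal (𝓞 K))⁰,
      ∑ I ∈ T, (Ideal.absNorm (I : Ideal (𝓞 K)) : ℝ) ^ (-s) ≤ Z / (s - 1) := by
  obtain ⟨Z, hZ, h⟩ := Fermat.Agent.S14.N3H850.exists_sum_bound K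
  refine ⟨Z, hZ, fun s hs1 hs2 T ↦ ?_⟩
  have h1 := h s hs1 hs2 (T.map ⟨Subtype.val, Subtype.val_injective⟩) (by
    intro I hI
    rw [Finset.mem_map] at hI
    obtain ⟨I', -, rfl⟩ := hI
    exact nonZeroDivisors.coe_ne_zero I')
  rwa [Finset.sum_map] at h1

theorem idealZeta_summable {s : ℝ} (hs : 1 < s) :
    Summable fun I : (Ideal (𝓞 K))⁰ ↦ (Ideal.absNorm (I : Ideal (𝓞 K)) : ℝ) ^ (-s) := by
  obtain ⟨Z, hZ, h⟩ := exists_finset_sum_bound K
  have h2 : Summable fun I : (Ideal (𝓞 K))⁰ ↦
      (Ideal.absNorm (I : Ideal (𝓞 K)) : ℝ) ^ (-(min s 2)) :=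
    summable_of_sum_le (fun I ↦ absNorm_rpow_nonneg K _ I)
      (h (min s 2) (lt_min hs (by norm_num)) (min_le_right _ _))
  refine Summable.of_nonneg_of_le (fun I ↦ absNorm_rpow_nonneg K _ I) (fun I ↦ ?_) h2
  exact Real.rpow_le_rpow_of_exponent_le (one_le_absNorm K I) (neg_le_neg (min_le_left _ _))

theorem classZeta_summable (C : ClassGroup (𝓞 K)) {s : ℝ} (hs : 1 < s) :
    Summable fun I : {I : (Ideal (𝓞 K))⁰ // ClassGroup.mk0 I = C} ↦
      (Ideal.absNorm (I.1 : Ideal (𝓞 K)) : ℝ) ^ (-s) :=
  (idealZeta_summable K hs).comp_injective Subtype.val_injective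

theorem classZeta_nonneg (C : ClassGroup (𝓞 K)) (s : ℝ) : 0 ≤ classZeta K C s :=
  tsum_nonneg fun I ↦ absNorm_rpow_nonneg K s I.1

theorem idealZeta_le : ∃ Z : ℝ, 0 < Z ∧ ∀ s : ℝ, 1 < s → s ≤ 2 → idealZeta K s ≤ Z / (s - 1) := by
  obtain ⟨Z, hZ, h⟩ := exists_finset_sum_bound K
  exact ⟨Z, hZ, fun s hs1 hs2 ↦
    (idealZeta_summable K hs1).tsum_le_of_sum_le (h s hs1 hs2)⟩

theorem classZeta_le_idealZeta (C : ClassGroup (𝓞 K)) {s : ℝ} (hs : 1 < s) :
    classZeta K C s ≤ idealZeta K s :=
  tsum_comp_le_tsum_of_inj (idealZeta_summable K hs) (fun I ↦ absNorm_rpow_nonneg K s I)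
    Subtype.val_injective

theorem classZeta_le : ∃ Z : ℝ, 0 < Z ∧ ∀ s : ℝ, 1 < s → s ≤ 2 → ∀ C : ClassGroup (𝓞 K),
    classZeta K C s ≤ Z / (s - 1) := by
  obtain ⟨Z, hZ, h⟩ := idealZeta_le K
  exact ⟨Z, hZ, fun s hs1 hs2 C ↦ (classZeta_le_idealZeta K C hs1).trans (h s hs1 hs2)⟩

/-- The sum over all ideals splits along the classes. -/
theorem idealZeta_eq_sum {s : ℝ} (hs : 1 < s) :
    idealZeta K s = ∑ C : ClassGroup (𝓞 K), classZeta K C s := by
  have h1 := (idealZeta_summable K hs).hasSum.tsum_fiberwise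
    (fun I : (Ideal (𝓞 K))⁰ ↦ ClassGroup.mk0 I)
  have h2 : (fun C : ClassGroup (𝓞 K) ↦ ∑' I : ((fun I : (Ideal (𝓞 K))⁰ ↦ ClassGroup.mk0 I) ⁻¹'
      {C} : Set (Ideal (𝓞 K))⁰), (Ideal.absNorm ((I : (Ideal (𝓞 K))⁰) : Ideal (𝓞 K)) : ℝ) ^ (-s))
      = fun C ↦ classZeta K C s := rfl
  rw [h2] at h1
  exact h1.unique (hasSum_fintype _)

end Fermat.Agent.S14.H74

end
-- ===== PACK-END S14/H74/Zeta.lean

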