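import Mathlib
import Mathlib.NumberTheory.NumberField.ProductFormula
import Mathlib.NumberTheory.NumberField.Units.DirichletTheorem
import Mathlib.RingTheory.DedekindDomain.SInteger
import Mathlib.NumberTheory.NumberField.ClassNumber
import Fermat.Agent.Pack.S43GC.G0E0L2

-- ===== PACK-BEGIN S55/KG/Abs.lean
section


/-!
# S55, layer KG (global Kummer hypotheses), abstract part            (architect: helper183)

Purpose: input A3 of the duality engine (`PT.Surj2GlobSpec`, i.e. `cd_p(G_S) ≤ 2`) from the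
finite-level class field theory of the tower, through the closed abstract machine of layer KL.

This file is ABSTRACT and Mathlib-only: towers of groups, systems of modules over a tower,
"eventual" properties of their cohomology classes, and the frozen statements (Spec pattern,
`def XxxSpec : Prop`, no `sorry`) of the purely formal leaves:

* `ChaseET3Spec` : `colim H³(E)[p] = 0` from a levelwise short exact sequence `E → J → C`;
* `ChaseED2Spec` : `colim H²(E) ⊗ ℤ/p = 0`;
* `CapKerSpec`   : capitulation kills `ker(Hⁿ(C') → Hⁿ(C))`, `p`-primary part (`n = 1, 2`);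
* `LiftCapSpec`, `DivCapSpec`, `LiftCycSpec` : formal consequences.

Blueprint with proofs: `coord/S55-KG.md` on `origin/helper183`.
-/

set_option autoImplicit false

open CategoryTheory groupCohomology

namespace Fermat.Agent.S55.KG

/-! ## Towers of groups and systems of modules -/

/-- A tower of groups: groups `G i` indexed by a preorder, with transition maps
`π h : G j →* G i` for `h : i ≤ j` (think `G i = Gal(F_i/K)`, `F_i ⊂ F_j`). -/
structure GTower where
  /-- the index set ("levels") -/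
  ι : Type
  /-- the order on levels -/
  pre : Preorder ι
  /-- the groups -/
  G : ι → Type
  /-- group structures -/
  grp : ∀ i, Group (G i)
  /-- the transition maps -/
  π : ∀ {i j : ι}, i ≤ j → (G j →* G i)
  /-- transitivity -/
  π_trans : ∀ {i j k : ι} (h : i ≤ j) (h' : j ≤ k) (g : G k), π h (π h' g) = π (h.trans h') g

attribute [instance] GTower.pre GTower.grp

/-- The tower is directed. -/
def GTower.Directed (𝒯 : GTower) : Prop := ∀ i j : 𝒯.ι, ∃ k : 𝒯.ι, i ≤ k ∧ j ≤ k

/-- A system of modules over a tower: a `G i`-module `M i` for every level, with transition maps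
`M i → M j` (`i ≤ j`), equivariant along `π`, transitive. -/
structure GTower.Mod (𝒯 : GTower) where
  /-- the modules -/
  M : ∀ i : 𝒯.ι, Rep.{0} ℤ (𝒯.G i)
  /-- the transition maps -/
  t : ∀ {i j : 𝒯.ι} (h : i ≤ j), Rep.res (𝒯.π h) (M i) ⟶ M j
  /-- transitivity -/
  t_trans : ∀ {i j k : 𝒯.ι} (h : i ≤ j) (h' : j ≤ k) (x : (M i).V),
    (t h').hom ((t h).hom x) = (t (h.trans h')).hom x

namespace GTower.Mod

variable {𝒯 : GTower}

/-- Inflation `Hⁿ(G i, M i) ⟶ Hⁿ(G j, M j)` for `i ≤ j`. -/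
noncomputable def infl (X : 𝒯.Mod) {i j : 𝒯.ι} (h : i ≤ j) (n : ℕ) :
    groupCohomology (X.M i) n ⟶ groupCohomology (X.M j) n :=
  groupCohomology.map (𝒯.π h) (X.t h) n

/-- The class `y` dies at a higher level. -/
def EvZero (X : 𝒯.Mod) (n : ℕ) {i : 𝒯.ι} (y : groupCohomology (X.M i) n) : Prop :=
  ∃ (j : 𝒯.ι) (h : i ≤ j), (X.infl h n).hom y = 0

/-- `colim Hⁿ(M)[p] = 0` (elementwise). -/
def EvTors (X : 𝒯.Mod) (p n : ℕ) : Prop :=
  ∀ (i : 𝒯.ι) (y : groupCohomology (X.M i) n), p • y = 0 → X.EvZero n y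

/-- `colim Hⁿ(M) ⊗ ℤ/p = 0` (elementwise): every class becomes divisible by `p`. -/
def EvDiv (X : 𝒯.Mod) (p n : ℕ) : Prop :=
  ∀ (i : 𝒯.ι) (x : groupCohomology (X.M i) n),
    ∃ (j : 𝒯.ι) (h : i ≤ j) (w : groupCohomology (X.M j) n), (X.infl h n).hom x = p • w

/-- A morphism of systems of modules. -/
structure Hom (X Y : 𝒯.Mod) where
  /-- the levelwise morphisms -/
  f : ∀ i : 𝒯.ι, X.M i ⟶ Y.M i
  /-- compatibility with the transition maps -/
  comm : ∀ {i j : 𝒯.ι} (h : i ≤ j) (x : (X.M i).V),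
    (Y.t h).hom ((f i).hom x) = (f j).hom ((X.t h).hom x)

/-- Composition of morphisms of systems. -/
def Hom.comp {X Y Z : 𝒯.Mod} (φ : Hom X Y) (ψ : Hom Y Z) : Hom X Z where
  f i := φ.f i ≫ ψ.f i
  comm h x := by
    show (Z.t h).hom ((ψ.f _).hom ((φ.f _).hom x)) = (ψ.f _).hom ((φ.f _).hom ((X.t h).hom x))
    rw [ψ.comm h, φ.comm h]

/-- The map induced on cohomology by a morphism of systems. -/
noncomputable def Hom.map {X Y : 𝒯.Mod} (φ : Hom X Y) (i : 𝒯.ι) (n : ℕ) :
    groupCohomology (X.M i) n ⟶ groupCohomology (Y.M i) n :=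
  groupCohomology.map (MonoidHom.id (𝒯.G i)) (φ.f i) n

/-- `E → J → C` is levelwise short exact (elementwise form). -/
def IsSES {E J C : 𝒯.Mod} (φ : Hom E J) (ψ : Hom J C) : Prop :=
  ∀ i : 𝒯.ι, Function.Injective (φ.f i).hom ∧ Function.Surjective (ψ.f i).hom ∧
    ∀ x : (J.M i).V, (ψ.f i).hom x = 0 ↔ ∃ e : (E.M i).V, (φ.f i).hom e = x

/-- Every `p`-torsion class of `Hⁿ(C)` comes, at a higher level, from a `p`-torsion class of
`Hⁿ(J)`. -/
def LiftTors {J C : 𝒯.Mod} (ψ : Hom J C) (p n : ℕ) : Prop :=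
  ∀ (i : 𝒯.ι) (z : groupCohomology (C.M i) n), p • z = 0 →
    ∃ (j : 𝒯.ι) (h : i ≤ j) (t : groupCohomology (J.M j) n),
      p • t = 0 ∧ (ψ.map j n).hom t = (C.infl h n).hom z

/-- Capitulation data for a subsystem `C' ⊂ C`: `C/C'` is torsion, and its `p`-primary part dies
in the tower. -/
def IsCap {C' C : 𝒯.Mod} (incl : Hom C' C) (p : ℕ) : Prop :=
  (∀ i : 𝒯.ι, Function.Injective (incl.f i).hom) ∧
  (∀ (i : 𝒯.ι) (c : (C.M i).V), ∃ m : ℕ, 0 < m ∧ m • c ∈ Set.range (incl.f i).hom) ∧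
  (∀ (i : 𝒯.ι) (c : (C.M i).V) (a : ℕ), p ^ a • c ∈ Set.range (incl.f i).hom →
    ∃ (j : 𝒯.ι) (h : i ≤ j), (C.t h).hom c ∈ Set.range (incl.f j).hom)

end GTower.Mod

/-- The `p`-torsion of `A` is cyclic: any `p`-torsion element is a multiple of any non-zero
`p`-torsion element. -/
def PTorsCyclic (A : Type) [AddCommGroup A] (p : ℕ) : Prop :=
  ∀ z z' : A, p • z = 0 → p • z' = 0 → z' ≠ 0 → ∃ n : ℕ, z = n • z'

open GTower.Mod

/-! ## The formal leaves -/

/-- **KG-AB1** (chase in degree 3).  `E → J → C` levelwise short exact, `colim H³(J)[p] = 0`,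
`colim H²(J) ⊗ ℤ/p = 0`, and `p`-torsion classes of `H²(C)` lift to `p`-torsion classes of `H²(J)`
at a higher level.  Then `colim H³(E)[p] = 0`.

Proof.  `y ∈ H³(E_i)[p]`.  `φ_* y` is `p`-torsion in `H³(J_i)`, so it dies at `j ≥ i`; replace `y`
by its inflation: `y = δ c`, `c ∈ H²(C_j)`.  `δ(p c) = 0`, so `p c = ψ_* x`, `x ∈ H²(J_j)`;
`infl x = p x'` at `k ≥ j`; `c' := infl c - ψ_* x'` is `p`-torsion; `infl c' = ψ_* t` at `m ≥ k`.
Then `infl y = δ(infl c) = δ(ψ_*(t + infl x')) = 0`.  (Long exact sequence of Mathlib;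
naturality of `δ` and of `φ_*`, `ψ_*` with respect to `infl`: `groupCohomology.map` is functorial,
`δ` is natural — see `KL.DeltaNatSpec`, proved on main in `KL/DeltaNatH304.lean`, Mathlib-only.) -/
def ChaseET3Spec : Prop :=
  ∀ (𝒯 : GTower) (E J C : 𝒯.Mod) (φ : Hom E J) (ψ : Hom J C) (p : ℕ), p.Prime → IsSES φ ψ →
    J.EvTors p 3 → J.EvDiv p 2 → LiftTors ψ p 2 → E.EvTors p 3

/-- **KG-AB2** (chase in degree 2).  `E → J → C` levelwise short exact,
`colim H²(J) ⊗ ℤ/p = 0`, `p`-torsion classes of `H²(C)` lift to `p`-torsion classes of `H²(J)` at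
a higher level, and `colim H¹(C) ⊗ ℤ/p = 0`.  Then `colim H²(E) ⊗ ℤ/p = 0`.

Proof.  `x ∈ H²(E_i)`; `infl φ_* x = p z` at `j`; `ζ := ψ_* z` is `p`-torsion, so
`infl ζ = ψ_* t`, `p t = 0`, at `k`; `infl z - t = φ_* w`; `φ_*(infl x - p w) = p t = 0`, so
`infl x - p w = δ c`, `c ∈ H¹(C_k)`; `infl c = p c'` at `m`; `infl x = p (infl w + δ c')`. -/
def ChaseED2Spec : Prop :=
  ∀ (𝒯 : GTower) (E J C : 𝒯.Mod) (φ : Hom E J) (ψ : Hom J C) (p : ℕ), p.Prime → IsSES φ ψ →
    J.EvDiv p 2 → LiftTors ψ p 2 → C.EvDiv p 1 → E.EvDiv p 2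

/-- **KG-AB3a** (capitulation on cohomology).  Finite groups, directed tower, `C' ⊂ C` with
capitulation.  A `p`-primary class `z ∈ Hⁿ(C'_i)` (`n = 1, 2`) which dies in `Hⁿ(C_i)` dies in
`Hⁿ(C'_j)` for some `j ≥ i`.

Proof.  Represent `z` by a cocycle with values in `C'_i`, `= d b` with `b` a cochain with values
in `C_i` (finitely many values).  Some `m > 0` has `m b ∈ C'`; `m = p^a m'`, `p ∤ m'`; capitulation
applied to the values of `m' b`: at some `j ≥ i` (common upper bound; membership in `C'` is stable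
under transition by `incl.comm`), `m' · t(b)` has values in `C'_j`; so `m' · infl z = 0`; as `z` is
`p`-primary, `infl z = 0`. -/
def CapKerSpec : Prop :=
  ∀ (𝒯 : GTower), 𝒯.Directed → (∀ i, Finite (𝒯.G i)) →
    ∀ (C' C : 𝒯.Mod) (incl : Hom C' C) (p : ℕ), p.Prime → IsCap incl p →
    ∀ n : ℕ, n = 1 ∨ n = 2 → ∀ (i : 𝒯.ι) (z : groupCohomology (C'.M i) n) (a : ℕ),
      p ^ a • z = 0 → (incl.map i n).hom z = 0 → C'.EvZero n z

/-- **KG-AB3b.**  Lifting of `p`-torsion classes of `H²` passes from `C` to the subsystem `C'`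
(formal from `CapKerSpec`). -/
def LiftCapSpec : Prop :=
  ∀ (𝒯 : GTower), 𝒯.Directed → (∀ i, Finite (𝒯.G i)) →
    ∀ (J C' C : 𝒯.Mod) (ψ : Hom J C') (incl : Hom C' C) (p : ℕ), p.Prime → IsCap incl p →
      LiftTors (ψ.comp incl) p 2 → LiftTors ψ p 2

/-- **KG-AB3c.**  If the `p`-primary part of `H¹(C_k)` vanishes for all large `k`, then
`colim H¹(C') ⊗ ℤ/p = 0` (formal from `CapKerSpec`: the prime-to-`p` part of a class of the finite
group `G_i` is divisible by `p`, the `p`-primary part dies). -/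
def DivCapSpec : Prop :=
  ∀ (𝒯 : GTower), 𝒯.Directed → (∀ i, Finite (𝒯.G i)) →
    ∀ (C' C : 𝒯.Mod) (incl : Hom C' C) (p : ℕ), p.Prime → IsCap incl p →
      (∀ i : 𝒯.ι, ∃ j : 𝒯.ι, i ≤ j ∧ ∀ k : 𝒯.ι, j ≤ k →
        ∀ (c : groupCohomology (C.M k) 1) (a : ℕ), p ^ a • c = 0 → c = 0) →
      C'.EvDiv p 1

/-- **KG-AB4.**  If the `p`-torsion of `H²(C_k)` is cyclic for all large `k` and, at arbitrarily
high levels, some `p`-torsion class of `H²(J)` has non-zero image in `H²(C)`, then `p`-torsion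
classes of `H²(C)` lift to `p`-torsion classes of `H²(J)` at a higher level. -/
def LiftCycSpec : Prop :=
  ∀ (𝒯 : GTower) (J C : 𝒯.Mod) (ψ : Hom J C) (p : ℕ), p.Prime →
    (∀ i : 𝒯.ι, ∃ j : 𝒯.ι, i ≤ j ∧ ∀ k : 𝒯.ι, j ≤ k →
      PTorsCyclic (groupCohomology (C.M k) 2) p) →
    (∀ i : 𝒯.ι, ∃ (j : 𝒯.ι) (_ : i ≤ j) (y : groupCohomology (J.M j) 2),
      p • y = 0 ∧ (ψ.map j 2).hom y ≠ 0) →
    LiftTors ψ p 2

/-- **KG-ABS** (goal of the abstract part).  Systems `E → J → C' ⊂ C` over a directed tower of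
finite groups with: `E → J → C'` short exact, capitulation for `C' ⊂ C`, `H³(J)[p]` and
`H²(J) ⊗ ℤ/p` eventually zero, the `p`-primary part of `H¹(C)` eventually zero, the `p`-torsion of
`H²(C)` eventually cyclic, local classes surviving in `H²(C)` at arbitrarily high levels.  Then
`colim H³(E)[p] = 0` and `colim H²(E) ⊗ ℤ/p = 0`. -/
def AbsKummerSpec : Prop :=
  ∀ (𝒯 : GTower), 𝒯.Directed → (∀ i, Finite (𝒯.G i)) →
    ∀ (E J C' C : 𝒯.Mod) (φ : Hom E J) (ψ : Hom J C') (incl : Hom C' C) (p : ℕ), p.Prime →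
      IsSES φ ψ → IsCap incl p → J.EvTors p 3 → J.EvDiv p 2 →
      (∀ i : 𝒯.ι, ∃ j : 𝒯.ι, i ≤ j ∧ ∀ k : 𝒯.ι, j ≤ k →
        ∀ (c : groupCohomology (C.M k) 1) (a : ℕ), p ^ a • c = 0 → c = 0) →
      (∀ i : 𝒯.ι, ∃ j : 𝒯.ι, i ≤ j ∧ ∀ k : 𝒯.ι, j ≤ k →
        PTorsCyclic (groupCohomology (C.M k) 2) p) →
      (∀ i : 𝒯.ι, ∃ (j : 𝒯.ι) (_ : i ≤ j) (y : groupCohomology (J.M j) 2),
        p • y = 0 ∧ ((ψ.comp incl).map j 2).hom y ≠ 0) →
      E.EvTors p 3 ∧ E.EvDiv p 2

/-- The abstract part, assembled. -/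
theorem absKummer_of (h1 : ChaseET3Spec) (h2 : ChaseED2Spec) (h3b : LiftCapSpec)
    (h3c : DivCapSpec) (h4 : LiftCycSpec) : AbsKummerSpec := by
  intro 𝒯 hdir hfin E J C' C φ ψ incl p hp hses hcap hJ3 hJ2 hH1 hcyc hloc
  have hlift : LiftTors ψ p 2 :=
    h3b 𝒯 hdir hfin J C' C ψ incl p hp hcap (h4 𝒯 J C (ψ.comp incl) p hp hcyc hloc)
  exact ⟨h1 𝒯 E J C' φ ψ p hp hses hJ3 hJ2 hlift,
    h2 𝒯 E J C' φ ψ p hp hses hJ2 hlift (h3c 𝒯 hdir hfin C' C incl p hp hcap hH1)⟩

end Fermat.Agent.S55.KG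

end
-- ===== PACK-END S55/KG/Abs.lean

-- ===== PACK-BEGIN S55/H713/Approx.lean
section


/-!
# Successive approximation in a complete filtered commutative group

Let `V` be a commutative group with a decreasing, separated, complete filtration `W k` by
subgroups, and let `f g : V →* V` with `f ∘ g = 1`, `g` preserving the filtration.  If the
sequence `g, f` is exact on every graded piece `W k / W (k+1)`, then it is exact on `W 0`.
-/

set_option autoImplicit false

namespace Fermat.Agent.S55.H713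

variable {V : Type*} [CommGroup V]

/-- The recursive data of the successive approximation. -/
private noncomputable def approxSeq (W : ℕ → Subgroup V) (f g : V →* V)
    (hfg : ∀ u, f (g u) = 1)
    (hgr : ∀ k, ∀ u ∈ W k, f u ∈ W (k + 1) → ∃ w ∈ W k, u / g w ∈ W (k + 1))
    (u : V) (hu0 : u ∈ W 0) (hu : f u = 1) :
    (k : ℕ) → { p : V × V // p.1 ∈ W k ∧ f p.1 = 1 ∧ p.2 ∈ W k ∧ p.1 / g p.2 ∈ W (k + 1) }
  | 0 =>
    let h := hgr 0 u hu0 (by rw [hu]; exact one_mem _)
    ⟨(u, h.choose), hu0, hu, h.choose_spec.1, h.choose_spec.2⟩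
  | k + 1 =>
    let prev := approxSeq W f g hfg hgr u hu0 hu k
    let u' := prev.1.1 / g prev.1.2
    have hu' : u' ∈ W (k + 1) := prev.2.2.2.2
    have hfu' : f u' = 1 := by
      simp only [u', map_div, hfg, prev.2.2.1, div_one]
    let h := hgr (k + 1) u' hu' (by rw [hfu']; exact one_mem _)
    ⟨(u', h.choose), hu', hfu', h.choose_spec.1, h.choose_spec.2⟩

/-- **Successive approximation**: exactness on graded pieces implies exactness. -/
theorem exists_eq_of_filtration (W : ℕ → Subgroup V) (f g : V →* V)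
    (hsep : ∀ u, (∀ k, u ∈ W k) → u = 1)
    (hcomplete : ∀ w : ℕ → V, (∀ i, w i ∈ W i) →
      ∃ y ∈ W 0, ∀ k, y / ∏ i ∈ Finset.range k, w i ∈ W k)
    (hgW : ∀ k, ∀ u ∈ W k, g u ∈ W k)
    (hfg : ∀ u, f (g u) = 1)
    (hgr : ∀ k, ∀ u ∈ W k, f u ∈ W (k + 1) → ∃ w ∈ W k, u / g w ∈ W (k + 1))
    (u : V) (hu0 : u ∈ W 0) (hu : f u = 1) : ∃ y ∈ W 0, g y = u := by
  classical
  set s := approxSeq W f g hfg hgr u hu0 hu with hs
  -- the sequences
  let us : ℕ → V := fun k => (s k).1.1
  let ws : ℕ → V := fun k => (s k).1.2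
  have hws : ∀ k, ws k ∈ W k := fun k => (s k).2.2.2.1
  have hus : ∀ k, us k ∈ W k := fun k => (s k).2.1
  have hu0' : us 0 = u := rfl
  have hstep : ∀ k, us (k + 1) = us k / g (ws k) := fun k => rfl
  have hprod : ∀ k, u / ∏ i ∈ Finset.range k, g (ws i) = us k := by
    intro k
    induction k with
    | zero => simp [hu0']
    | succ k ih =>
      rw [Finset.prod_range_succ, hstep, ← ih, div_div]
  obtain ⟨y, hy0, hy⟩ := hcomplete ws hws
  refine ⟨y, hy0, ?_⟩
  have key : ∀ k, u / g y ∈ W k := by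
    intro k
    have h1 : g (y / ∏ i ∈ Finset.range k, ws i) ∈ W k := hgW k _ (hy k)
    rw [map_div, map_prod] at h1
    have h2 : u / ∏ i ∈ Finset.range k, g (ws i) ∈ W k := by rw [hprod]; exact hus k
    have : u / g y = (u / ∏ i ∈ Finset.range k, g (ws i)) /
        (g y / ∏ i ∈ Finset.range k, g (ws i)) := by
      rw [div_div_div_cancel_right]
    rw [this]
    exact (W k).div_mem h2 h1
  have := hsep _ key
  exact (div_eq_one.mp this).symm

end Fermat.Agent.S55.H713

end
-- ===== PACK-END S55/H713/Approx.lean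

-- ===== PACK-BEGIN S55/G/LocH897/Alg.lean
section


/-!
# S55 / layer G / leaf G-LOC (helper897), part 1: semi-local rings with a group action

`R` is a reduced Artinian commutative ring (a finite product of fields, e.g. `L ⊗_ℚ ℚ_S`), and a
group `G` acts on `R` by ring automorphisms `φ : G →* (R ≃+* R)`.

* `decomp φ I` : the decomposition group (stabiliser) of an ideal `I`;
* `resAut φ I : decomp φ I →* (R ⧸ I ≃+* R ⧸ I)` : the induced action on the residue ring;
* `existsUnique_ring` : for maximal ideals `𝔪 i` (`i : ι`) representing the `G`-orbits on the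
  maximal spectrum, every family `f i : G → R ⧸ 𝔪 i` with `f i (s g) = s • f i g`
  (`s ∈ decomp φ (𝔪 i)`) is `g ↦ (g • b mod 𝔪 i)` for a unique `b : R`, i.e.
  `R ≃ ∏ᵢ CoInd_{D_i}^G (R ⧸ 𝔪 i)`;
* `existsUnique_units` : the same for units, i.e. `Rˣ ≃ ∏ᵢ CoInd_{D_i}^G (R ⧸ 𝔪 i)ˣ`.
-/

set_option autoImplicit false

namespace Fermat.Agent.S55.G.LocH897

variable {G R : Type} [Group G] [CommRing R] (φ : G →* (R ≃+* R))

/-- The decomposition group of an ideal `I`: the stabiliser of `I` under the action `φ`. -/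
def decomp (I : Ideal R) : Subgroup G where
  carrier := {g | ∀ x, φ g x ∈ I ↔ x ∈ I}
  one_mem' := by intro x; simp
  mul_mem' := by
    intro a b ha hb x
    have ha' : ∀ x, φ a x ∈ I ↔ x ∈ I := ha
    have hb' : ∀ x, φ b x ∈ I ↔ x ∈ I := hb
    show φ (a * b) x ∈ I ↔ x ∈ I
    rw [map_mul, RingAut.mul_apply, ha', hb']
  inv_mem' := by
    intro a ha x
    have ha' : ∀ x, φ a x ∈ I ↔ x ∈ I := ha
    show φ a⁻¹ x ∈ I ↔ x ∈ I
    rw [← ha' (φ a⁻¹ x), ← RingAut.mul_apply, ← map_mul, mul_inv_cancel, map_one,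
      RingAut.one_apply]

lemma mem_decomp {I : Ideal R} {g : G} : g ∈ _root_.Fermat.Agent.S55.G.LocH897.decomp φ I ↔ ∀ x, φ g x ∈ I ↔ x ∈ I := Iff.rfl

lemma map_eq_of_mem_decomp {I : Ideal R} {g : G} (hg : g ∈ _root_.Fermat.Agent.S55.G.LocH897.decomp φ I) :
    I = I.map ((φ g : R ≃+* R) : R →+* R) := by
  ext y
  constructor
  · intro hy
    have : (φ g) ((φ g).symm y) ∈ I.map ((φ g : R ≃+* R) : R →+* R) :=
      Ideal.mem_map_of_mem _ (((mem_decomp φ).1 hg _).1 (by simpa using hy))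
    simpa using this
  · intro hy
    have hle : I.map ((φ g : R ≃+* R) : R →+* R) ≤ I := by
      rw [Ideal.map_le_iff_le_comap]
      intro x hx
      exact ((mem_decomp φ).1 hg x).2 hx
    exact hle hy

/-- The action of the decomposition group on the residue ring `R ⧸ I`. -/
def resAut (I : Ideal R) : _root_.Fermat.Agent.S55.G.LocH897.decomp φ I →* (R ⧸ I ≃+* R ⧸ I) where
  toFun s := Ideal.quotientEquiv I I (φ s) (_root_.Fermat.Agent.S55.G.LocH897.map_eq_of_mem_decomp φ s.2)
  map_one' := by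
    ext x
    obtain ⟨x, rfl⟩ := Ideal.Quotient.mk_surjective x
    simp
  map_mul' s t := by
    ext x
    obtain ⟨x, rfl⟩ := Ideal.Quotient.mk_surjective x
    simp

@[simp] lemma resAut_mk (I : Ideal R) (s : _root_.Fermat.Agent.S55.G.LocH897.decomp φ I) (x : R) :
    resAut φ I s (Ideal.Quotient.mk I x) = Ideal.Quotient.mk I (φ s x) := by
  simp [resAut]

lemma resAut_mul_apply (I : Ideal R) (s t : _root_.Fermat.Agent.S55.G.LocH897.decomp φ I) (x : R ⧸ I) :
    resAut φ I (s * t) x = resAut φ I s (resAut φ I t x) := by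
  rw [map_mul, RingAut.mul_apply]

/-- Translating membership: `x ∈ g⁻¹ I ↔ g x ∈ I`. -/
lemma apply_apply_inv (g : G) (x : R) :
    φ g (φ g⁻¹ x) = x := by
  rw [← RingAut.mul_apply, ← map_mul, mul_inv_cancel, map_one, RingAut.one_apply]

lemma apply_inv_apply (g : G) (x : R) : φ g⁻¹ (φ g x) = x := by
  rw [← RingAut.mul_apply, ← map_mul, inv_mul_cancel, map_one, RingAut.one_apply]

section Main

variable [IsArtinianRing R] [IsReduced R]

/-- In a reduced Artinian ring, an element lying in all maximal ideals is zero. -/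
lemma eq_zero_of_forall_mem_maximal (x : R) (h : ∀ 𝔫 : Ideal R, 𝔫.IsMaximal → x ∈ 𝔫) :
    x = 0 := by
  apply (IsArtinianRing.equivPi R).injective
  funext 𝔫
  rw [IsArtinianRing.equivPi_apply, map_zero, Pi.zero_apply]
  exact Ideal.Quotient.eq_zero_iff_mem.2 (h 𝔫.asIdeal 𝔫.isMaximal)

/-- Chinese remainder theorem in a reduced Artinian ring. -/
lemma exists_forall_sub_mem_maximal (a : ∀ 𝔫 : Ideal R, 𝔫.IsMaximal → R) :
    ∃ b : R, ∀ (𝔫 : Ideal R) (h𝔫 : 𝔫.IsMaximal), b - a 𝔫 h𝔫 ∈ 𝔫 := by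
  refine ⟨(IsArtinianRing.equivPi R).symm
    (fun 𝔫 => Ideal.Quotient.mk 𝔫.asIdeal (a 𝔫.asIdeal 𝔫.isMaximal)), fun 𝔫 h𝔫 => ?_⟩
  have h := congrFun ((IsArtinianRing.equivPi R).apply_symm_apply
    (fun 𝔫 => Ideal.Quotient.mk 𝔫.asIdeal (a 𝔫.asIdeal 𝔫.isMaximal))) ⟨𝔫, h𝔫⟩
  rw [IsArtinianRing.equivPi_apply] at h
  exact Ideal.Quotient.eq.1 h

variable {ι : Type} (𝔪 : ι → Ideal R)

/-- **Semi-local decomposition, ring level.**  If the maximal ideals `𝔪 i` represent the
`G`-orbits on the maximal spectrum of the reduced Artinian ring `R`, then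
`R ≃ ∏ᵢ CoInd_{D_i}^G (R ⧸ 𝔪 i)` via `b ↦ (g ↦ g • b mod 𝔪 i)`. -/
theorem existsUnique_ring (hmax𝔪 : ∀ i, (𝔪 i).IsMaximal)
    (hcover : ∀ 𝔫 : Ideal R, 𝔫.IsMaximal → ∃ i g, ∀ x, x ∈ 𝔫 ↔ φ g x ∈ 𝔪 i)
    (hdisj : ∀ i j g, (∀ x, x ∈ 𝔪 j ↔ φ g x ∈ 𝔪 i) → i = j)
    (f : ∀ i, G → R ⧸ 𝔪 i)
    (hf : ∀ i (s : _root_.Fermat.Agent.S55.G.LocH897.decomp φ (𝔪 i)) g, f i (s * g) = resAut φ (𝔪 i) s (f i g)) :
    ∃! b : R, ∀ i g, Ideal.Quotient.mk (𝔪 i) (φ g b) = f i g := by
  classical
  -- uniqueness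
  have huniq : ∀ b b' : R, (∀ i g, Ideal.Quotient.mk (𝔪 i) (φ g b) = f i g) →
      (∀ i g, Ideal.Quotient.mk (𝔪 i) (φ g b') = f i g) → b = b' := by
    intro b b' hb hb'
    rw [← sub_eq_zero]
    apply eq_zero_of_forall_mem_maximal
    intro 𝔫 h𝔫
    obtain ⟨i, g, hig⟩ := hcover 𝔫 h𝔫
    rw [hig, map_sub]
    exact Ideal.Quotient.eq.1 ((hb i g).trans (hb' i g).symm)
  -- existence
  choose ci cg hc using hcover
  have hlift : ∀ i g, ∃ r : R, Ideal.Quotient.mk (𝔪 i) r = f i g :=
    fun i g => Ideal.Quotient.mk_surjective _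
  choose r hr using hlift
  obtain ⟨b, hb⟩ := exists_forall_sub_mem_maximal
    (fun 𝔫 h𝔫 => φ (cg 𝔫 h𝔫)⁻¹ (r (ci 𝔫 h𝔫) (cg 𝔫 h𝔫)))
  have key : ∀ 𝔫 : Ideal R, 𝔫.IsMaximal → ∃ j g, (∀ x, x ∈ 𝔫 ↔ φ g x ∈ 𝔪 j) ∧
      Ideal.Quotient.mk (𝔪 j) (φ g b) = f j g := by
    intro 𝔫 h𝔫
    refine ⟨ci 𝔫 h𝔫, cg 𝔫 h𝔫, hc 𝔫 h𝔫, ?_⟩
    rw [← hr]
    apply Ideal.Quotient.eq.2
    have h1 := (hc 𝔫 h𝔫 _).1 (hb 𝔫 h𝔫)
    rwa [map_sub, apply_apply_inv φ] at h1
  have hbprop : ∀ i g, Ideal.Quotient.mk (𝔪 i) (φ g b) = f i g := by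
    intro i g'
    have hmax : (Ideal.comap ((φ g' : R ≃+* R) : R →+* R) (𝔪 i)).IsMaximal :=
      haveI := hmax𝔪 i
      Ideal.comap_isMaximal_of_surjective _ (φ g').surjective
    obtain ⟨j, g, hjg, hval⟩ := key _ hmax
    have hmem : ∀ x, φ g' x ∈ 𝔪 i ↔ φ g x ∈ 𝔪 j := fun x => by
      rw [← hjg x]; rfl
    obtain rfl : j = i := by
      refine hdisj j i (g * g'⁻¹) fun y => ?_
      rw [map_mul, RingAut.mul_apply, ← hmem, apply_apply_inv φ]
    have hs : g' * g⁻¹ ∈ _root_.Fermat.Agent.S55.G.LocH897.decomp φ (𝔪 j) := by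
      rw [mem_decomp]
      intro y
      rw [map_mul, RingAut.mul_apply, hmem, apply_apply_inv φ]
    have hg' : g' = ((⟨g' * g⁻¹, hs⟩ : _root_.Fermat.Agent.S55.G.LocH897.decomp φ (𝔪 j)) : G) * g := by simp
    rw [hg', hf, ← hval, resAut_mk, ← hg', map_mul, RingAut.mul_apply, apply_inv_apply φ]
  exact ⟨b, hbprop, fun b' hb' => huniq b' b hb' hbprop⟩

/-- **Semi-local decomposition, unit level.**  If the maximal ideals `𝔪 i` represent the
`G`-orbits on the maximal spectrum of the reduced Artinian ring `R`, then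
`Rˣ ≃ ∏ᵢ CoInd_{D_i}^G (R ⧸ 𝔪 i)ˣ` via `b ↦ (g ↦ g • b mod 𝔪 i)`. -/
theorem existsUnique_units (hmax𝔪 : ∀ i, (𝔪 i).IsMaximal)
    (hcover : ∀ 𝔫 : Ideal R, 𝔫.IsMaximal → ∃ i g, ∀ x, x ∈ 𝔫 ↔ φ g x ∈ 𝔪 i)
    (hdisj : ∀ i j g, (∀ x, x ∈ 𝔪 j ↔ φ g x ∈ 𝔪 i) → i = j)
    (f : ∀ i, G → (R ⧸ 𝔪 i)ˣ)
    (hf : ∀ i (s : _root_.Fermat.Agent.S55.G.LocH897.decomp φ (𝔪 i)) g,
      ((f i (s * g) : (R ⧸ 𝔪 i)ˣ) : R ⧸ 𝔪 i) = resAut φ (𝔪 i) s (f i g)) :
    ∃! b : Rˣ, ∀ i g, Ideal.Quotient.mk (𝔪 i) (φ g (b : R)) = (f i g : R ⧸ 𝔪 i) := by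
  have hfu : ∀ i (s : _root_.Fermat.Agent.S55.G.LocH897.decomp φ (𝔪 i)) g,
      f i (s * g) = Units.map ((resAut φ (𝔪 i) s : R ⧸ 𝔪 i ≃+* R ⧸ 𝔪 i) :
        R ⧸ 𝔪 i →* R ⧸ 𝔪 i) (f i g) := fun i s g => Units.ext (hf i s g)
  have hf' : ∀ i (s : _root_.Fermat.Agent.S55.G.LocH897.decomp φ (𝔪 i)) g,
      (((f i (s * g))⁻¹ : (R ⧸ 𝔪 i)ˣ) : R ⧸ 𝔪 i) =
        resAut φ (𝔪 i) s (((f i g)⁻¹ : (R ⧸ 𝔪 i)ˣ) : R ⧸ 𝔪 i) := fun i s g => by
    rw [hfu, ← map_inv]; rfl
  obtain ⟨b, hb, hbu⟩ := existsUnique_ring φ 𝔪 hmax𝔪 hcover hdisj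
    (fun i g => (f i g : R ⧸ 𝔪 i)) hf
  obtain ⟨b', hb', -⟩ := existsUnique_ring φ 𝔪 hmax𝔪 hcover hdisj
    (fun i g => (((f i g)⁻¹ : (R ⧸ 𝔪 i)ˣ) : R ⧸ 𝔪 i)) hf'
  obtain ⟨c, -, hcu⟩ := existsUnique_ring φ 𝔪 hmax𝔪 hcover hdisj
    (fun i _ => (1 : R ⧸ 𝔪 i)) (fun i s g => by simp)
  have h1 : b * b' = 1 := by
    rw [hcu (b * b') (fun i g => by
      simp only [map_mul]; rw [hb i g, hb' i g]; exact Units.mul_inv _),
      hcu 1 (fun i g => by simp)]
  refine ⟨⟨b, b', h1, by rw [mul_comm]; exact h1⟩, fun i g => hb i g, fun u hu => ?_⟩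
  exact Units.ext (hbu (u : R) hu)

end Main

/-! ### A canonical system of orbit representatives -/

section Reps

/-- The orbit relation on the maximal spectrum: `𝔫 ∼ 𝔫'` iff `𝔫 = g⁻¹ 𝔫'` for some `g`. -/
def specSetoid : Setoid (MaximalSpectrum R) where
  r a b := ∃ g : G, ∀ x, x ∈ a.asIdeal ↔ φ g x ∈ b.asIdeal
  iseqv :=
    { refl := fun a => ⟨1, fun x => by simp⟩
      symm := by
        rintro a b ⟨g, hg⟩
        refine ⟨g⁻¹, fun x => ?_⟩
        rw [hg, apply_apply_inv φ]
      trans := by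
        rintro a b c ⟨g, hg⟩ ⟨h, hh⟩
        refine ⟨h * g, fun x => ?_⟩
        rw [hg, hh, map_mul, RingAut.mul_apply] }

/-- The set of `G`-orbits on the maximal spectrum of `R`. -/
def OrbitIdx : Type := Quotient (specSetoid φ)

instance [IsArtinianRing R] : Finite (OrbitIdx φ) :=
  inferInstanceAs (Finite (Quotient (specSetoid φ)))

/-- A representative maximal ideal in each orbit. -/
noncomputable def orbitRep (o : OrbitIdx φ) : Ideal R :=
  (Quotient.out (s := specSetoid φ) o).asIdeal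

lemma orbitRep_isMaximal (o : OrbitIdx φ) : (orbitRep φ o).IsMaximal :=
  (Quotient.out (s := specSetoid φ) o).isMaximal

lemma orbitRep_cover (𝔫 : Ideal R) (h𝔫 : 𝔫.IsMaximal) :
    ∃ (o : OrbitIdx φ) (g : G), ∀ x, x ∈ 𝔫 ↔ φ g x ∈ orbitRep φ o := by
  refine ⟨Quotient.mk (specSetoid φ) ⟨𝔫, h𝔫⟩, ?_⟩
  have h := Quotient.mk_out (s := specSetoid φ) ⟨𝔫, h𝔫⟩
  obtain ⟨g, hg⟩ := (specSetoid φ).symm h
  exact ⟨g, hg⟩

lemma orbitRep_disj (i j : OrbitIdx φ) (g : G)
    (h : ∀ x, x ∈ orbitRep φ j ↔ φ g x ∈ orbitRep φ i) : i = j := by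
  have hr : (specSetoid φ).r (Quotient.out (s := specSetoid φ) j)
      (Quotient.out (s := specSetoid φ) i) := ⟨g, h⟩
  have := Quotient.sound (s := specSetoid φ) hr
  exact (Quotient.out_eq (s := specSetoid φ) i).symm.trans
    (this.symm.trans (Quotient.out_eq (s := specSetoid φ) j))

end Reps

end Fermat.Agent.S55.G.LocH897

end
-- ===== PACK-END S55/G/LocH897/Alg.lean

-- ===== PACK-BEGIN S55/H604/SUnitLog.lean
section





/-!
# S55 / layer G / leaf HQU, part (B): the logarithmic lattice of the `S`-units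

`L` a number field, `S` a finite set of finite places of `L`, `T = ∞ ⊔ S`.
We define `logS : Additive (S-units) →+ (T → ℝ)` and prove

* `sum_logS` : the coordinates sum to `0` (product formula),
* `finite_logS_le` : only finitely many `S`-units have all coordinates bounded by `r`
  (so the kernel is finite and the image is discrete),
* (in later files) the image spans the hyperplane, and equivariance.
-/

set_option autoImplicit false

open NumberField IsDedekindDomain

namespace Fermat.Agent.S55.H604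

variable (L : Type*) [Field L] [NumberField L] (S : Finset (HeightOneSpectrum (𝓞 L)))

/-- The index set `∞ ⊔ S` of places. -/
abbrev PlaceIdx : Type _ := InfinitePlace L ⊕ {v : HeightOneSpectrum (𝓞 L) // v ∈ S}

/-- The `S`-units of `L` as a subgroup of `Lˣ` (Mathlib's `Set.unit`). -/
noncomputable abbrev SUnit : Subgroup Lˣ := (S : Set (HeightOneSpectrum (𝓞 L))).unit L

variable {L}

/-- The finite absolute value attached to `v` is `1` iff the valuation is `1`. -/
lemma finitePlace_mk_eq_one_iff (v : HeightOneSpectrum (𝓞 L)) (x : L) :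
    FinitePlace.mk v x = 1 ↔ v.valuation L x = 1 := by
  rw [FinitePlace.mk_apply, FinitePlace.norm_embedding, NumberField.HeightOneSpectrum.adicAbv_def]
  rw [show ((1 : ℝ) = ((1 : NNReal) : ℝ)) by simp, NNReal.coe_inj]
  exact WithZeroMulInt.toNNReal_eq_one_iff _ _
    (NumberField.HeightOneSpectrum.one_lt_absNorm_nnreal v).ne'

/-- The finite absolute value attached to `v` is `≤ 1` iff the valuation is `≤ 1`. -/
lemma finitePlace_mk_le_one_iff (v : HeightOneSpectrum (𝓞 L)) (x : L) :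
    FinitePlace.mk v x ≤ 1 ↔ v.valuation L x ≤ 1 := by
  rw [FinitePlace.mk_apply, FinitePlace.norm_embedding, NumberField.HeightOneSpectrum.adicAbv_def]
  rw [show ((1 : ℝ) = ((1 : NNReal) : ℝ)) by simp, NNReal.coe_le_coe]
  exact WithZeroMulInt.toNNReal_le_one_iff (NumberField.HeightOneSpectrum.one_lt_absNorm_nnreal v)

lemma finitePlace_mk_pos (v : HeightOneSpectrum (𝓞 L)) {x : L} (hx : x ≠ 0) :
    0 < FinitePlace.mk v x := FinitePlace.pos_iff.2 hx

variable (L)

/-- The coordinate functions of the logarithmic map. -/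
noncomputable def logComp (t : PlaceIdx L S) (x : L) : ℝ :=
  match t with
  | Sum.inl w => (w.mult : ℝ) * Real.log (w x)
  | Sum.inr v => Real.log (FinitePlace.mk v.1 x)

@[simp] lemma logComp_inl (w : InfinitePlace L) (x : L) :
    logComp L S (Sum.inl w) x = (w.mult : ℝ) * Real.log (w x) := rfl

@[simp] lemma logComp_inr (v : {v : HeightOneSpectrum (𝓞 L) // v ∈ S}) (x : L) :
    logComp L S (Sum.inr v) x = Real.log (FinitePlace.mk v.1 x) := rfl

lemma logComp_one (t : PlaceIdx L S) : logComp L S t 1 = 0 := by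
  cases t <;> simp

lemma logComp_mul (t : PlaceIdx L S) {x y : L} (hx : x ≠ 0) (hy : y ≠ 0) :
    logComp L S t (x * y) = logComp L S t x + logComp L S t y := by
  cases t with
  | inl w =>
    simp only [logComp_inl, map_mul]
    rw [Real.log_mul ((map_ne_zero w).2 hx) ((map_ne_zero w).2 hy)]
    ring
  | inr v =>
    simp only [logComp_inr, map_mul]
    rw [Real.log_mul (finitePlace_mk_pos v.1 hx).ne' (finitePlace_mk_pos v.1 hy).ne']

/-- The logarithmic map on the `S`-units. -/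
noncomputable def logS : Additive (SUnit L S) →+ (PlaceIdx L S → ℝ) where
  toFun x := fun t => logComp L S t (((Additive.toMul x : SUnit L S) : Lˣ) : L)
  map_zero' := by
    funext t
    simp [logComp_one]
  map_add' x y := by
    funext t
    simp only [toMul_add, Subgroup.coe_mul, Units.val_mul, Pi.add_apply]
    exact logComp_mul L S t (Units.ne_zero _) (Units.ne_zero _)

lemma logS_apply (x : Additive (SUnit L S)) (t : PlaceIdx L S) :
    logS L S x t = logComp L S t (((Additive.toMul x : SUnit L S) : Lˣ) : L) := rfl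

variable {L S}

/-- an `S`-unit has absolute value `1` at every finite place outside `S`. -/
lemma sUnit_finitePlace_eq_one (x : SUnit L S) {v : HeightOneSpectrum (𝓞 L)} (hv : v ∉ S) :
    FinitePlace.mk v ((x : Lˣ) : L) = 1 :=
  (finitePlace_mk_eq_one_iff v _).2
    (Set.unit_valuation_eq_one (S : Set (HeightOneSpectrum (𝓞 L))) L x (by simpa using hv))


/-- the finite part of the product formula for an `S`-unit only involves `S`. -/
lemma finprod_finitePlace_sUnit (x : SUnit L S) :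
    ∏ᶠ w : FinitePlace L, w ((x : Lˣ) : L) = ∏ v ∈ S, FinitePlace.mk v ((x : Lˣ) : L) := by
  have h1 : ∏ᶠ w : FinitePlace L, w ((x : Lˣ) : L) =
      ∏ᶠ v : HeightOneSpectrum (𝓞 L), FinitePlace.mk v ((x : Lˣ) : L) := by
    refine (finprod_eq_of_bijective (fun v => FinitePlace.mk v) ?_ (fun v => rfl)).symm
    refine ⟨fun v₁ v₂ h => FinitePlace.mk_eq_iff.1 h, fun w => ⟨w.maximalIdeal, ?_⟩⟩
    exact FinitePlace.mk_maximalIdeal w
  rw [h1]
  refine finprod_eq_prod_of_mulSupport_subset _ ?_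
  intro v hv
  by_contra hvS
  exact hv (sUnit_finitePlace_eq_one x hvS)

variable (L S)

/-- **(B1)** the coordinates of `logS x` sum to zero (product formula). -/
theorem sum_logS (x : Additive (SUnit L S)) : ∑ t, logS L S x t = 0 := by
  set y : SUnit L S := Additive.toMul x with hy
  have hx0 : ((y : Lˣ) : L) ≠ 0 := Units.ne_zero _
  have hprod := prod_abs_eq_one hx0
  rw [finprod_finitePlace_sUnit y] at hprod
  have hlog := congrArg Real.log hprod
  rw [Real.log_one, Real.log_mul, Real.log_prod, Real.log_prod] at hlog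
  · rw [Fintype.sum_sum_type]
    simp only [logS_apply, logComp_inl, logComp_inr]
    rw [← hlog]
    congr 1
    · refine Finset.sum_congr rfl fun w _ => ?_
      rw [Real.log_pow]
    · rw [← Finset.sum_coe_sort S (fun v => Real.log (FinitePlace.mk v ((y : Lˣ) : L)))]
  · intro v _
    exact (finitePlace_mk_pos v hx0).ne'
  · intro w _
    exact pow_ne_zero _ ((map_ne_zero w).2 hx0)
  · exact Finset.prod_ne_zero_iff.2 fun w _ => pow_ne_zero _ ((map_ne_zero w).2 hx0)
  · exact Finset.prod_ne_zero_iff.2 fun v _ => (finitePlace_mk_pos v hx0).ne'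

end Fermat.Agent.S55.H604

end
-- ===== PACK-END S55/H604/SUnitLog.lean

-- ===== PACK-BEGIN S55/H361/Kummer.lean
section
/-
Multi-generator Kummer theory (leaf KUM of row S55), Mathlib only.

`K` is a field containing a primitive `n`-th root of unity (`[HasEnoughRootsOfUnity K n]`),
`M / K` a field extension.

* `kummerSubgroup K M n : Subgroup Kˣ` : the units of `K` which become `n`-th powers in `M`.
* `powSubgroup K n : Subgroup Kˣ` : the `n`-th powers `Kˣ ^ n`.
* `kummerPairing K M n : Gal(M/K) →* (kummerSubgroup K M n →* rootsOfUnity n K)`,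
  `(σ, a) ↦ σ(α)/α` where `α ^ n = a`.
-/


set_option autoImplicit false

namespace Fermat.Agent.S55.H361

open IntermediateField Polynomial

section Defs

variable (K M : Type*) [Field K] [Field M] [Algebra K M] (n : ℕ)

/-- The subgroup `Kˣ ^ n` of `n`-th powers. -/
def powSubgroup : Subgroup Kˣ := (powMonoidHom n : Kˣ →* Kˣ).range

/-- The Kummer subgroup of `M / K`: the units of `K` that become `n`-th powers in `M`. -/
def kummerSubgroup : Subgroup Kˣ :=
  (powMonoidHom n : Mˣ →* Mˣ).range.comap (Units.map (algebraMap K M : K →* M))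

variable {K M n}

theorem mem_powSubgroup_iff {a : Kˣ} : a ∈ powSubgroup K n ↔ ∃ b : Kˣ, b ^ n = a := Iff.rfl

theorem mem_powSubgroup_iff' {a : Kˣ} : a ∈ powSubgroup K n ↔ ∃ b : K, b ^ n = a := by
  constructor
  · rintro ⟨b, rfl⟩
    exact ⟨b, by simp⟩
  · rintro ⟨b, hb⟩
    by_cases hb0 : b = 0
    · subst hb0
      refine ⟨1, Units.ext ?_⟩
      rcases Nat.eq_zero_or_pos n with hn | hn
      · subst hn
        simpa using hb
      · rw [zero_pow hn.ne'] at hb
        exact absurd hb.symm a.ne_zero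
    · exact ⟨Units.mk0 b hb0, Units.ext (by simpa using hb)⟩

theorem mem_kummerSubgroup_iff {a : Kˣ} :
    a ∈ kummerSubgroup K M n ↔ ∃ β : Mˣ, β ^ n = Units.map (algebraMap K M : K →* M) a :=
  Iff.rfl

theorem mem_kummerSubgroup_iff' {a : Kˣ} :
    a ∈ kummerSubgroup K M n ↔ ∃ β : M, β ^ n = algebraMap K M a := by
  constructor
  · rintro ⟨β, hβ⟩
    refine ⟨β, ?_⟩
    have := congrArg Units.val hβ
    simpa using this
  · rintro ⟨β, hβ⟩
    by_cases hb0 : β = 0
    · subst hb0
      refine ⟨1, Units.ext ?_⟩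
      rcases Nat.eq_zero_or_pos n with hn | hn
      · subst hn
        simpa using hβ
      · rw [zero_pow hn.ne'] at hβ
        have h0 : algebraMap K M a ≠ 0 := by
          simpa using a.ne_zero
        exact absurd hβ.symm h0
    · exact ⟨Units.mk0 β hb0, Units.ext (by simpa using hβ)⟩

theorem powSubgroup_le_kummerSubgroup : powSubgroup K n ≤ kummerSubgroup K M n := by
  rintro a ⟨b, rfl⟩
  exact ⟨Units.map (algebraMap K M : K →* M) b, by simp [map_pow]⟩

theorem pow_mem_powSubgroup (a : Kˣ) : a ^ n ∈ powSubgroup K n := ⟨a, rfl⟩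

end Defs

section Pairing

variable {K M : Type*} [Field K] [Field M] [Algebra K M] {n : ℕ} [NeZero n]
  [HasEnoughRootsOfUnity K n]

/-- Every `n`-th root of unity of `M` comes from `K`. -/
theorem exists_rootsOfUnity_eq_of_pow_eq_one {η : M} (hη : η ^ n = 1) :
    ∃ ζ : rootsOfUnity n K, algebraMap K M ((ζ : Kˣ) : K) = η := by
  obtain ⟨ζ₀, hζ₀⟩ := HasEnoughRootsOfUnity.exists_primitiveRoot K n
  have hM : IsPrimitiveRoot (algebraMap K M ζ₀) n :=
    hζ₀.map_of_injective (algebraMap K M).injective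
  obtain ⟨i, -, hi⟩ := hM.eq_pow_of_pow_eq_one hη
  have hu : IsUnit ζ₀ := hζ₀.isUnit (NeZero.ne n)
  refine ⟨⟨hu.unit ^ i, ?_⟩, ?_⟩
  · rw [mem_rootsOfUnity]
    ext
    simp only [Units.val_pow_eq_pow_val, IsUnit.unit_spec, Units.val_one]
    rw [← pow_mul, mul_comm, pow_mul, hζ₀.pow_eq_one, one_pow]
  · simp [← hi]

/-- For `σ ∈ Gal(M/K)` and `a` in the Kummer subgroup there is an `n`-th root of unity `ζ ∈ K`
with `σ β = ζ β` for every `n`-th root `β` of `a` in `M`. -/
theorem exists_kummer_root (σ : M ≃ₐ[K] M) {a : Kˣ} (ha : a ∈ kummerSubgroup K M n) :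
    ∃ ζ : rootsOfUnity n K, ∀ β : M, β ^ n = algebraMap K M a →
      σ β = algebraMap K M ((ζ : Kˣ) : K) * β := by
  obtain ⟨α, hα⟩ := mem_kummerSubgroup_iff'.1 ha
  have ha0 : algebraMap K M a ≠ 0 := by simpa using a.ne_zero
  have hα0 : α ≠ 0 := by
    rintro rfl
    rw [zero_pow (NeZero.ne n)] at hα
    exact ha0 hα.symm
  have h1 : (σ α / α) ^ n = 1 := by
    rw [div_pow, ← map_pow, hα, AlgEquiv.commutes, div_self ha0]
  obtain ⟨ζ, hζ⟩ := exists_rootsOfUnity_eq_of_pow_eq_one (K := K) h1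
  refine ⟨ζ, fun β hβ => ?_⟩
  have h2 : (β / α) ^ n = 1 := by
    rw [div_pow, hβ, hα, div_self ha0]
  obtain ⟨η, hη⟩ := exists_rootsOfUnity_eq_of_pow_eq_one (K := K) h2
  have hβ' : β = algebraMap K M ((η : Kˣ) : K) * α := by
    rw [hη]; field_simp
  have hσα : σ α = algebraMap K M ((ζ : Kˣ) : K) * α := by
    rw [hζ]; field_simp
  rw [hβ', map_mul, AlgEquiv.commutes, hσα]
  ring

variable (K M n) in
/-- The Kummer pairing as a function: `kummerRoot σ a = σ(α)/α` where `α ^ n = a`. -/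
noncomputable def kummerRoot (σ : M ≃ₐ[K] M) (a : kummerSubgroup K M n) : rootsOfUnity n K :=
  Classical.choose (exists_kummer_root σ a.2)

theorem kummerRoot_spec (σ : M ≃ₐ[K] M) (a : kummerSubgroup K M n) {β : M}
    (hβ : β ^ n = algebraMap K M ((a : Kˣ) : K)) :
    σ β = algebraMap K M ((kummerRoot K M n σ a : Kˣ) : K) * β :=
  Classical.choose_spec (exists_kummer_root σ a.2) β hβ

theorem kummerRoot_eq_of (σ : M ≃ₐ[K] M) (a : kummerSubgroup K M n) {β : M}
    (hβ : β ^ n = algebraMap K M ((a : Kˣ) : K)) {ζ : rootsOfUnity n K}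
    (h : σ β = algebraMap K M ((ζ : Kˣ) : K) * β) : kummerRoot K M n σ a = ζ := by
  have ha0 : algebraMap K M ((a : Kˣ) : K) ≠ 0 := by simpa using (a : Kˣ).ne_zero
  have hβ0 : β ≠ 0 := by
    rintro rfl
    rw [zero_pow (NeZero.ne n)] at hβ
    exact ha0 hβ.symm
  have := kummerRoot_spec σ a hβ
  rw [h] at this
  have h3 := mul_right_cancel₀ hβ0 this
  have h4 := (algebraMap K M).injective h3
  exact (Subtype.ext (Units.ext h4)).symm

theorem kummerRoot_eq_iff (σ : M ≃ₐ[K] M) (a : kummerSubgroup K M n) {β : M}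
    (hβ : β ^ n = algebraMap K M ((a : Kˣ) : K)) {ζ : rootsOfUnity n K} :
    kummerRoot K M n σ a = ζ ↔ σ β = algebraMap K M ((ζ : Kˣ) : K) * β :=
  ⟨fun h => h ▸ kummerRoot_spec σ a hβ, kummerRoot_eq_of σ a hβ⟩

theorem kummerRoot_eq_one_iff (σ : M ≃ₐ[K] M) (a : kummerSubgroup K M n) {β : M}
    (hβ : β ^ n = algebraMap K M ((a : Kˣ) : K)) :
    kummerRoot K M n σ a = 1 ↔ σ β = β := by
  rw [kummerRoot_eq_iff σ a hβ]
  simp

theorem exists_root_of_mem (a : kummerSubgroup K M n) :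
    ∃ β : M, β ^ n = algebraMap K M ((a : Kˣ) : K) :=
  mem_kummerSubgroup_iff'.1 a.2

theorem kummerRoot_mul_right (σ : M ≃ₐ[K] M) (a b : kummerSubgroup K M n) :
    kummerRoot K M n σ (a * b) = kummerRoot K M n σ a * kummerRoot K M n σ b := by
  obtain ⟨α, hα⟩ := exists_root_of_mem a
  obtain ⟨β, hβ⟩ := exists_root_of_mem b
  have hαβ : (α * β) ^ n = algebraMap K M (((a * b : kummerSubgroup K M n) : Kˣ) : K) := by
    simp [mul_pow, hα, hβ]
  apply kummerRoot_eq_of σ (a * b) hαβ
  rw [map_mul, kummerRoot_spec σ a hα, kummerRoot_spec σ b hβ]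
  simp only [Subgroup.coe_mul, Units.val_mul, map_mul]
  ring

theorem kummerRoot_one_right (σ : M ≃ₐ[K] M) :
    kummerRoot K M n σ 1 = 1 := by
  have h1 : (1 : M) ^ n = algebraMap K M (((1 : kummerSubgroup K M n) : Kˣ) : K) := by simp
  apply kummerRoot_eq_of σ 1 h1
  simp

theorem kummerRoot_mul_left (σ τ : M ≃ₐ[K] M) (a : kummerSubgroup K M n) :
    kummerRoot K M n (σ * τ) a = kummerRoot K M n σ a * kummerRoot K M n τ a := by
  obtain ⟨α, hα⟩ := exists_root_of_mem a
  apply kummerRoot_eq_of (σ * τ) a hα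
  rw [AlgEquiv.mul_apply, kummerRoot_spec τ a hα, map_mul, AlgEquiv.commutes,
    kummerRoot_spec σ a hα]
  simp only [Subgroup.coe_mul, Units.val_mul, map_mul]
  ring

theorem kummerRoot_one_left (a : kummerSubgroup K M n) :
    kummerRoot K M n 1 a = 1 := by
  obtain ⟨α, hα⟩ := exists_root_of_mem a
  apply kummerRoot_eq_of 1 a hα
  simp

variable (K M n) in
/-- The Kummer pairing `Gal(M/K) →* (Δ →* μ_n(K))`, `(σ, a) ↦ σ(α)/α` with `α ^ n = a`. -/
noncomputable def kummerPairing :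
    (M ≃ₐ[K] M) →* (kummerSubgroup K M n →* rootsOfUnity n K) where
  toFun σ :=
    { toFun := kummerRoot K M n σ
      map_one' := kummerRoot_one_right σ
      map_mul' := kummerRoot_mul_right σ }
  map_one' := by
    ext a
    simp [kummerRoot_one_left]
  map_mul' σ τ := by
    ext a
    simp [kummerRoot_mul_left]

@[simp]
theorem kummerPairing_apply (σ : M ≃ₐ[K] M) (a : kummerSubgroup K M n) :
    kummerPairing K M n σ a = kummerRoot K M n σ a := rfl

variable (K M n) in
/-- The flipped Kummer pairing `Δ →* (Gal(M/K) →* μ_n(K))`. -/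
noncomputable def kummerDual :
    kummerSubgroup K M n →* ((M ≃ₐ[K] M) →* rootsOfUnity n K) :=
  (kummerPairing K M n).flip

@[simp]
theorem kummerDual_apply (σ : M ≃ₐ[K] M) (a : kummerSubgroup K M n) :
    kummerDual K M n a σ = kummerRoot K M n σ a := rfl

end Pairing

section Galois

variable {K M : Type*} [Field K] [Field M] [Algebra K M] {n : ℕ} [NeZero n]
  [HasEnoughRootsOfUnity K n]

/-- The pairing is trivial on `n`-th powers. -/
theorem kummerRoot_eq_one_of_mem_powSubgroup (σ : M ≃ₐ[K] M) (a : kummerSubgroup K M n)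
    (ha : (a : Kˣ) ∈ powSubgroup K n) : kummerRoot K M n σ a = 1 := by
  obtain ⟨b, hb⟩ := ha
  have hβ : (algebraMap K M (b : K)) ^ n = algebraMap K M ((a : Kˣ) : K) := by
    rw [← map_pow, ← hb]; simp
  rw [kummerRoot_eq_one_iff σ a hβ, AlgEquiv.commutes]

/-- For a Galois extension (possibly infinite), the right kernel of the Kummer pairing is
`Kˣ ^ n`. -/
theorem kummerDual_eq_one_iff [IsGalois K M] (a : kummerSubgroup K M n) :
    kummerDual K M n a = 1 ↔ (a : Kˣ) ∈ powSubgroup K n := by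
  constructor
  · intro h
    obtain ⟨β, hβ⟩ := exists_root_of_mem a
    have hfix : ∀ σ : M ≃ₐ[K] M, σ β = β := fun σ => by
      rw [← kummerRoot_eq_one_iff σ a hβ, ← kummerDual_apply, h]; rfl
    obtain ⟨b, rfl⟩ := (InfiniteGalois.mem_range_algebraMap_iff_fixed β).2 hfix
    rw [mem_powSubgroup_iff']
    refine ⟨b, (algebraMap K M).injective ?_⟩
    rw [map_pow, hβ]
  · intro h
    ext σ
    rw [kummerDual_apply, kummerRoot_eq_one_of_mem_powSubgroup σ a h]
    rfl

theorem kummerDual_ker [IsGalois K M] :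
    (kummerDual K M n).ker = (powSubgroup K n).subgroupOf (kummerSubgroup K M n) := by
  ext a
  rw [MonoidHom.mem_ker, kummerDual_eq_one_iff, Subgroup.mem_subgroupOf]

/-- **Kummer theory, Hilbert 90 step**: for a finite Galois extension, every character
`Gal(M/K) → μ_n(K)` is of the form `σ ↦ σ(α)/α` with `α ^ n ∈ K`. -/
theorem kummerDual_surjective [FiniteDimensional K M] [IsGalois K M] :
    Function.Surjective (kummerDual K M n) := by
  intro χ
  let f : (M ≃ₐ[K] M) → Mˣ := fun σ => Units.map (algebraMap K M : K →* M) (χ σ : Kˣ)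
  have hf : groupCohomology.IsMulCocycle₁ f := by
    intro g h
    simp only [f, map_mul, AlgEquiv.smul_units_def]
    ext
    simp [mul_comm]
  obtain ⟨β, hβ⟩ := groupCohomology.isMulCoboundary₁_of_isMulCocycle₁_of_aut_to_units f hf
  have hβ' : ∀ σ : M ≃ₐ[K] M, σ (β : M) = algebraMap K M ((χ σ : Kˣ) : K) * β := by
    intro σ
    have := congrArg Units.val (hβ σ)
    simp only [f, AlgEquiv.smul_units_def, Units.val_div_eq_div_val, Units.coe_map,
      MonoidHom.coe_coe] at this
    rw [div_eq_iff β.ne_zero] at this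
    simpa using this
  have hfix : ∀ σ : M ≃ₐ[K] M, σ ((β : M) ^ n) = (β : M) ^ n := by
    intro σ
    rw [map_pow, hβ' σ, mul_pow, ← map_pow]
    have : ((χ σ : Kˣ) : K) ^ n = 1 := by
      have h := (mem_rootsOfUnity _ _).1 (χ σ).2
      have := congrArg Units.val h
      simpa using this
    rw [this, map_one, one_mul]
  obtain ⟨a, ha⟩ := (InfiniteGalois.mem_range_algebraMap_iff_fixed ((β : M) ^ n)).2 hfix
  have ha0 : a ≠ 0 := by
    rintro rfl
    rw [map_zero] at ha
    exact pow_ne_zero n β.ne_zero ha.symm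
  have haΔ : Units.mk0 a ha0 ∈ kummerSubgroup K M n :=
    mem_kummerSubgroup_iff'.2 ⟨β, by simp [ha]⟩
  refine ⟨⟨Units.mk0 a ha0, haΔ⟩, ?_⟩
  ext1 σ
  rw [kummerDual_apply]
  exact kummerRoot_eq_of σ _ (β := (β : M)) (by simp [ha]) (hβ' σ)

/-- **Kummer theory**: for a finite Galois extension `M / K` (with `μ_n ⊆ K`),
`Δ / Kˣ^n ≃ Hom(Gal(M/K), μ_n)` where `Δ = Kˣ ∩ Mˣ^n`. -/
noncomputable def kummerQuotientEquiv [FiniteDimensional K M] [IsGalois K M] :
    (kummerSubgroup K M n ⧸ (kummerDual K M n).ker) ≃* ((M ≃ₐ[K] M) →* rootsOfUnity n K) :=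
  QuotientGroup.quotientKerEquivOfSurjective _ kummerDual_surjective

theorem relIndex_powSubgroup_kummerSubgroup [FiniteDimensional K M] [IsGalois K M] :
    (powSubgroup K n).relIndex (kummerSubgroup K M n) =
      Nat.card ((M ≃ₐ[K] M) →* rootsOfUnity n K) := by
  rw [Subgroup.relIndex, ← kummerDual_ker, Subgroup.index_ker,
    MonoidHom.range_eq_top.2 kummerDual_surjective]
  exact Nat.card_congr Subgroup.topEquiv.toEquiv

end Galois

section Duality

variable (K : Type*) [Field K] (n : ℕ) [NeZero n] [HasEnoughRootsOfUnity K n]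

/-- For a group killed by `n`, characters with values in `Kˣ` are the same as characters with
values in `μ_n(K)`. -/
def homRootsOfUnityEquiv (G : Type*) [Group G] (hexp : ∀ g : G, g ^ n = 1) :
    (G →* rootsOfUnity n K) ≃ (G →* Kˣ) where
  toFun χ := (rootsOfUnity n K).subtype.comp χ
  invFun ψ := ψ.codRestrict (rootsOfUnity n K) (fun g => by
    rw [mem_rootsOfUnity, ← map_pow, hexp, map_one])
  left_inv χ := by ext; rfl
  right_inv ψ := by ext; rfl

/-- A finite abelian group killed by `n` has as many `μ_n(K)`-valued characters as elements. -/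
theorem card_hom_rootsOfUnity (G : Type*) [Group G] [Finite G]
    (hcomm : ∀ a b : G, a * b = b * a) (hexp : ∀ g : G, g ^ n = 1) :
    Nat.card (G →* rootsOfUnity n K) = Nat.card G := by
  rw [Nat.card_congr (homRootsOfUnityEquiv K n G hexp)]
  letI : CommGroup G := { (inferInstance : Group G) with mul_comm := hcomm }
  haveI : HasEnoughRootsOfUnity K (Monoid.exponent G) :=
    HasEnoughRootsOfUnity.of_dvd K (Monoid.exponent_dvd_of_forall_pow_eq_one hexp)
  exact CommGroup.card_monoidHom_of_hasEnoughRootsOfUnity G K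

/-- `μ_n(K)`-valued characters separate the points of a finite abelian group killed by `n`. -/
theorem exists_hom_rootsOfUnity_ne_one (G : Type*) [Group G] [Finite G]
    (hcomm : ∀ a b : G, a * b = b * a) (hexp : ∀ g : G, g ^ n = 1) {g : G} (hg : g ≠ 1) :
    ∃ χ : G →* rootsOfUnity n K, χ g ≠ 1 := by
  letI : CommGroup G := { (inferInstance : Group G) with mul_comm := hcomm }
  haveI : HasEnoughRootsOfUnity K (Monoid.exponent G) :=
    HasEnoughRootsOfUnity.of_dvd K (Monoid.exponent_dvd_of_forall_pow_eq_one hexp)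
  obtain ⟨φ, hφ⟩ := CommGroup.exists_apply_ne_one_of_hasEnoughRootsOfUnity G K hg
  refine ⟨(homRootsOfUnityEquiv K n G hexp).symm φ, fun h => hφ ?_⟩
  have := congrArg (fun x : rootsOfUnity n K => (x : Kˣ)) h
  simpa [homRootsOfUnityEquiv] using this

instance finite_hom_rootsOfUnity (G : Type*) [Group G] [Finite G] :
    Finite (G →* rootsOfUnity n K) :=
  Finite.of_injective (fun f => (f : G → rootsOfUnity n K)) DFunLike.coe_injective

end Duality

section Abelian

variable {K M : Type*} [Field K] [Field M] [Algebra K M] {n : ℕ} [NeZero n]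
  [HasEnoughRootsOfUnity K n]

/-- **Kummer theory, degree formula** (Galois side): if `M / K` is finite Galois with abelian
Galois group killed by `n`, then `[Δ : Kˣ^n] = [M : K]`. -/
theorem relIndex_powSubgroup_kummerSubgroup_eq_finrank [FiniteDimensional K M] [IsGalois K M]
    (hcomm : ∀ σ τ : M ≃ₐ[K] M, σ * τ = τ * σ) (hexp : ∀ σ : M ≃ₐ[K] M, σ ^ n = 1) :
    (powSubgroup K n).relIndex (kummerSubgroup K M n) = Module.finrank K M := by
  rw [relIndex_powSubgroup_kummerSubgroup, card_hom_rootsOfUnity K n _ hcomm hexp,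
    IsGalois.card_aut_eq_finrank]

/-- **Kummer theory, left nondegeneracy** (Galois side): if `M / K` is finite Galois with abelian
Galois group killed by `n`, an automorphism fixing all `n`-th roots of elements of `K` is
trivial. -/
theorem exists_kummerRoot_ne_one [FiniteDimensional K M] [IsGalois K M]
    (hcomm : ∀ σ τ : M ≃ₐ[K] M, σ * τ = τ * σ) (hexp : ∀ σ : M ≃ₐ[K] M, σ ^ n = 1)
    {σ : M ≃ₐ[K] M} (hσ : σ ≠ 1) :
    ∃ a : kummerSubgroup K M n, kummerRoot K M n σ a ≠ 1 := by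
  obtain ⟨χ, hχ⟩ := exists_hom_rootsOfUnity_ne_one K n _ hcomm hexp hσ
  obtain ⟨a, rfl⟩ := kummerDual_surjective (K := K) (M := M) (n := n) χ
  exact ⟨a, hχ⟩

theorem kummerPairing_injective [FiniteDimensional K M] [IsGalois K M]
    (hcomm : ∀ σ τ : M ≃ₐ[K] M, σ * τ = τ * σ) (hexp : ∀ σ : M ≃ₐ[K] M, σ ^ n = 1) :
    Function.Injective (kummerPairing K M n) := by
  rw [injective_iff_map_eq_one]
  intro σ hσ
  by_contra hne
  obtain ⟨a, ha⟩ := exists_kummerRoot_ne_one hcomm hexp hne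
  apply ha
  rw [← kummerPairing_apply, hσ]
  rfl

/-- The set of all `n`-th roots in `M` of elements of a subgroup `A ≤ Kˣ`. -/
def rootSetOf (M : Type*) [Field M] [Algebra K M] (n : ℕ) (A : Subgroup Kˣ) : Set M :=
  {β : M | ∃ a ∈ A, β ^ n = algebraMap K M ((a : Kˣ) : K)}

/-- **Every abelian extension of exponent `n` is a Kummer extension**: if `M / K` is finite
Galois with abelian Galois group killed by `n`, then `M` is generated by `n`-th roots of
elements of `K`. -/
theorem adjoin_rootSetOf_kummerSubgroup_eq_top [FiniteDimensional K M] [IsGalois K M]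
    (hcomm : ∀ σ τ : M ≃ₐ[K] M, σ * τ = τ * σ) (hexp : ∀ σ : M ≃ₐ[K] M, σ ^ n = 1) :
    IntermediateField.adjoin K (rootSetOf M n (kummerSubgroup K M n)) = ⊤ := by
  set F := IntermediateField.adjoin K (rootSetOf M n (kummerSubgroup K M n)) with hF
  have h1 : F.fixingSubgroup = ⊥ := by
    rw [eq_bot_iff]
    intro σ hσ
    rw [Subgroup.mem_bot]
    by_contra hne
    obtain ⟨a, ha⟩ := exists_kummerRoot_ne_one hcomm hexp hne
    apply ha
    obtain ⟨β, hβ⟩ := exists_root_of_mem a
    rw [kummerRoot_eq_one_iff σ a hβ]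
    exact (IntermediateField.mem_fixingSubgroup_iff F σ).1 hσ β
      (IntermediateField.subset_adjoin K _ ⟨a, a.2, hβ⟩)
  rw [← IsGalois.fixedField_fixingSubgroup F, h1, IntermediateField.fixedField_bot]

end Abelian

section Generated

variable {K M : Type*} [Field K] [Field M] [Algebra K M] {n : ℕ} [NeZero n]
  [HasEnoughRootsOfUnity K n] {A : Subgroup Kˣ}

theorem natCast_ne_zero_of_hasEnoughRootsOfUnity (K : Type*) [Field K] (n : ℕ) [NeZero n]
    [HasEnoughRootsOfUnity K n] : (n : K) ≠ 0 := by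
  obtain ⟨ζ₀, hζ₀⟩ := HasEnoughRootsOfUnity.exists_primitiveRoot K n
  exact (hζ₀.neZero').ne

theorem rootSetOf_spec {β : M} (hβ : β ∈ rootSetOf M n A) :
    IsIntegral K β ∧ ((minpoly K β).map (algebraMap K M)).Splits ∧ IsSeparable K β := by
  obtain ⟨a, -, ha⟩ := hβ
  obtain ⟨ζ₀, hζ₀⟩ := HasEnoughRootsOfUnity.exists_primitiveRoot K n
  have hM : IsPrimitiveRoot (algebraMap K M ζ₀) n :=
    hζ₀.map_of_injective (algebraMap K M).injective
  have hroot : Polynomial.aeval β (X ^ n - C ((a : Kˣ) : K)) = 0 := by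
    simp [ha]
  have hmonic : (X ^ n - C ((a : Kˣ) : K)).Monic := monic_X_pow_sub_C _ (NeZero.ne n)
  have hint : IsIntegral K β := ⟨_, hmonic, hroot⟩
  have hdvd : minpoly K β ∣ X ^ n - C ((a : Kˣ) : K) := minpoly.dvd K β hroot
  have hsplit : ((X ^ n - C ((a : Kˣ) : K)).map (algebraMap K M)).Splits := by
    have := X_pow_sub_C_splits_of_isPrimitiveRoot hM ha
    simpa using this
  have hsep : (X ^ n - C ((a : Kˣ) : K)).Separable :=
    separable_X_pow_sub_C _ (natCast_ne_zero_of_hasEnoughRootsOfUnity K n) a.ne_zero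
  refine ⟨hint, ?_, hsep.of_dvd hdvd⟩
  exact hsplit.of_dvd (Polynomial.map_ne_zero hmonic.ne_zero) (Polynomial.map_dvd _ hdvd)

/-- An extension generated by `n`-th roots of elements of `K` (where `μ_n ⊆ K`) is Galois. -/
theorem isGalois_of_adjoin_rootSetOf_eq_top
    (hgen : IntermediateField.adjoin K (rootSetOf M n A) = ⊤) : IsGalois K M := by
  have halg : Algebra.IsAlgebraic K (IntermediateField.adjoin K (rootSetOf M n A)) :=
    IntermediateField.isAlgebraic_adjoin fun x hx => (rootSetOf_spec hx).1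
  have hint : ∀ x : M, IsIntegral K x := by
    intro x
    have hx : x ∈ IntermediateField.adjoin K (rootSetOf M n A) := hgen ▸ IntermediateField.mem_top
    have := (halg.isAlgebraic ⟨x, hx⟩).isIntegral
    exact (isIntegral_algHom_iff (IntermediateField.adjoin K (rootSetOf M n A)).val
      Subtype.val_injective).2 this
  have hnormal : Normal K M := normal_iff.2 fun x =>
    ⟨hint x, IntermediateField.splits_of_mem_adjoin K M
      (fun y hy => ⟨(rootSetOf_spec hy).1, (rootSetOf_spec hy).2.1⟩)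
      (hgen ▸ IntermediateField.mem_top)⟩
  have hsep' : Algebra.IsSeparable K (IntermediateField.adjoin K (rootSetOf M n A)) :=
    (IntermediateField.isSeparable_adjoin_iff_isSeparable K M).2
      fun x hx => (rootSetOf_spec hx).2.2
  have hsep : Algebra.IsSeparable K M := by
    rw [hgen] at hsep'
    exact (IntermediateField.isSeparable_top K M).1 hsep'
  exact ⟨⟩

/-- An automorphism fixing all the generating roots is trivial. -/
theorem eq_one_of_forall_rootSetOf
    (hgen : IntermediateField.adjoin K (rootSetOf M n A) = ⊤) {σ : M ≃ₐ[K] M}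
    (hσ : ∀ β ∈ rootSetOf M n A, σ β = β) : σ = 1 := by
  have h1 : IntermediateField.adjoin K (rootSetOf M n A) ≤
      IntermediateField.fixedField (Subgroup.zpowers σ) := by
    rw [IntermediateField.adjoin_le_iff]
    intro β hβ
    rw [SetLike.mem_coe, IntermediateField.mem_fixedField_iff]
    intro τ hτ
    obtain ⟨k, rfl⟩ := Subgroup.mem_zpowers_iff.1 hτ
    have hfix : σ ∈ MulAction.stabilizer (M ≃ₐ[K] M) β := hσ β hβ
    exact (zpow_mem hfix k : σ ^ k ∈ MulAction.stabilizer (M ≃ₐ[K] M) β)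
  ext x
  have hx : x ∈ IntermediateField.fixedField (Subgroup.zpowers σ) :=
    h1 (hgen ▸ IntermediateField.mem_top)
  exact (IntermediateField.mem_fixedField_iff _ _).1 hx σ (Subgroup.mem_zpowers σ)

variable (M n) in
/-- The Kummer pairing restricted to a subgroup `A` of the Kummer group. -/
noncomputable def kummerPairingOn (hA : A ≤ kummerSubgroup K M n) :
    (M ≃ₐ[K] M) →* (A →* rootsOfUnity n K) where
  toFun σ := (kummerPairing K M n σ).comp (Subgroup.inclusion hA)
  map_one' := by ext; simp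
  map_mul' σ τ := by ext; simp

@[simp]
theorem kummerPairingOn_apply (hA : A ≤ kummerSubgroup K M n) (σ : M ≃ₐ[K] M) (a : A) :
    kummerPairingOn M n hA σ a = kummerRoot K M n σ (Subgroup.inclusion hA a) := rfl

theorem kummerPairingOn_injective (hA : A ≤ kummerSubgroup K M n)
    (hgen : IntermediateField.adjoin K (rootSetOf M n A) = ⊤) :
    Function.Injective (kummerPairingOn M n hA) := by
  rw [injective_iff_map_eq_one]
  intro σ hσ
  apply eq_one_of_forall_rootSetOf hgen
  rintro β ⟨a, ha, hβ⟩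
  have h1 : kummerRoot K M n σ (Subgroup.inclusion hA ⟨a, ha⟩) = 1 := by
    rw [← kummerPairingOn_apply, hσ]; rfl
  exact (kummerRoot_eq_one_iff σ _ (by simpa using hβ)).1 h1

/-- The Galois group of a Kummer extension is abelian. -/
theorem mul_comm_of_adjoin_rootSetOf_eq_top (hA : A ≤ kummerSubgroup K M n)
    (hgen : IntermediateField.adjoin K (rootSetOf M n A) = ⊤) (σ τ : M ≃ₐ[K] M) :
    σ * τ = τ * σ := by
  apply kummerPairingOn_injective hA hgen
  rw [map_mul, map_mul, mul_comm]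

/-- The Galois group of a Kummer extension is killed by `n`. -/
theorem pow_eq_one_of_adjoin_rootSetOf_eq_top (hA : A ≤ kummerSubgroup K M n)
    (hgen : IntermediateField.adjoin K (rootSetOf M n A) = ⊤) (σ : M ≃ₐ[K] M) :
    σ ^ n = 1 := by
  apply kummerPairingOn_injective hA hgen
  rw [map_pow, map_one]
  ext a
  have h := (mem_rootsOfUnity _ _).1 (kummerPairingOn M n hA σ a).2
  simpa using congrArg Units.val h

variable (M n) in
/-- The Kummer pairing `Gal(M/K) →* (A ⧸ Kˣ^n →* μ_n(K))`. -/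
noncomputable def kummerPairingQuot (hA : A ≤ kummerSubgroup K M n) :
    (M ≃ₐ[K] M) →* ((A ⧸ (powSubgroup K n).subgroupOf A) →* rootsOfUnity n K) where
  toFun σ := QuotientGroup.lift _ (kummerPairingOn M n hA σ) (by
    intro a ha
    rw [Subgroup.mem_subgroupOf] at ha
    exact kummerRoot_eq_one_of_mem_powSubgroup σ _ ha)
  map_one' := by
    refine MonoidHom.ext fun x => ?_
    induction x using QuotientGroup.induction_on with
    | H a =>
      change kummerPairingOn M n hA 1 a = 1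
      rw [map_one]; rfl
  map_mul' σ τ := by
    refine MonoidHom.ext fun x => ?_
    induction x using QuotientGroup.induction_on with
    | H a =>
      change kummerPairingOn M n hA (σ * τ) a =
        kummerPairingOn M n hA σ a * kummerPairingOn M n hA τ a
      rw [map_mul]; rfl

@[simp]
theorem kummerPairingQuot_mk (hA : A ≤ kummerSubgroup K M n) (σ : M ≃ₐ[K] M) (a : A) :
    kummerPairingQuot M n hA σ (QuotientGroup.mk a) =
      kummerRoot K M n σ (Subgroup.inclusion hA a) := rfl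

theorem kummerPairingQuot_injective (hA : A ≤ kummerSubgroup K M n)
    (hgen : IntermediateField.adjoin K (rootSetOf M n A) = ⊤) :
    Function.Injective (kummerPairingQuot M n hA) := by
  intro σ τ h
  apply kummerPairingOn_injective hA hgen
  ext1 a
  have := DFunLike.congr_fun h (QuotientGroup.mk a)
  simpa using this

end Generated

section Main

variable {K M : Type*} [Field K] [Field M] [Algebra K M] {n : ℕ} [NeZero n]
  [HasEnoughRootsOfUnity K n] {A : Subgroup Kˣ}

theorem quotient_powSubgroup_pow_eq_one (A : Subgroup Kˣ) (n : ℕ)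
    (x : A ⧸ (powSubgroup K n).subgroupOf A) : x ^ n = 1 := by
  induction x using QuotientGroup.induction_on with
  | H a =>
    rw [← QuotientGroup.mk_pow, QuotientGroup.eq_one_iff, Subgroup.mem_subgroupOf]
    exact ⟨(a : Kˣ), by simp⟩

theorem card_hom_quotient_powSubgroup (hfin : (powSubgroup K n).relIndex A ≠ 0) :
    Nat.card ((A ⧸ (powSubgroup K n).subgroupOf A) →* rootsOfUnity n K) =
      (powSubgroup K n).relIndex A := by
  haveI : Finite (A ⧸ (powSubgroup K n).subgroupOf A) :=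
    Subgroup.index_ne_zero_iff_finite.1 hfin
  rw [card_hom_rootsOfUnity K n _ (fun a b => mul_comm a b)
    (quotient_powSubgroup_pow_eq_one A n)]
  rfl

theorem finite_aut_of_adjoin_rootSetOf_eq_top (hA : A ≤ kummerSubgroup K M n)
    (hgen : IntermediateField.adjoin K (rootSetOf M n A) = ⊤)
    (hfin : (powSubgroup K n).relIndex A ≠ 0) : Finite (M ≃ₐ[K] M) := by
  haveI : Finite (A ⧸ (powSubgroup K n).subgroupOf A) :=
    Subgroup.index_ne_zero_iff_finite.1 hfin
  exact Finite.of_injective _ (kummerPairingQuot_injective hA hgen)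

theorem card_aut_le_relIndex (hA : A ≤ kummerSubgroup K M n)
    (hgen : IntermediateField.adjoin K (rootSetOf M n A) = ⊤)
    (hfin : (powSubgroup K n).relIndex A ≠ 0) :
    Nat.card (M ≃ₐ[K] M) ≤ (powSubgroup K n).relIndex A := by
  haveI : Finite (A ⧸ (powSubgroup K n).subgroupOf A) :=
    Subgroup.index_ne_zero_iff_finite.1 hfin
  rw [← card_hom_quotient_powSubgroup hfin]
  exact Nat.card_le_card_of_injective _ (kummerPairingQuot_injective hA hgen)

/-- A Kummer extension `K(A^{1/n})` with `[A : Kˣ^n] < ∞` is finite. -/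
theorem finiteDimensional_of_adjoin_rootSetOf_eq_top (hA : A ≤ kummerSubgroup K M n)
    (hgen : IntermediateField.adjoin K (rootSetOf M n A) = ⊤)
    (hfin : (powSubgroup K n).relIndex A ≠ 0) : FiniteDimensional K M := by
  haveI := isGalois_of_adjoin_rootSetOf_eq_top hgen
  haveI := finite_aut_of_adjoin_rootSetOf_eq_top hA hgen hfin
  exact IsGaloisGroup.finiteDimensional (M ≃ₐ[K] M) K M

/-- **Kummer theory, main theorem** (group side): if `Kˣ^n ≤ A` with `[A : Kˣ^n] < ∞` and
`M = K(A^{1/n})`, then the elements of `K` which are `n`-th powers in `M` are exactly those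
of `A`. -/
theorem kummerSubgroup_eq_of_adjoin_rootSetOf_eq_top (hPA : powSubgroup K n ≤ A)
    (hA : A ≤ kummerSubgroup K M n)
    (hgen : IntermediateField.adjoin K (rootSetOf M n A) = ⊤)
    (hfin : (powSubgroup K n).relIndex A ≠ 0) : kummerSubgroup K M n = A := by
  haveI := isGalois_of_adjoin_rootSetOf_eq_top hgen
  haveI := finiteDimensional_of_adjoin_rootSetOf_eq_top hA hgen hfin
  have h1 := relIndex_powSubgroup_kummerSubgroup_eq_finrank (K := K) (M := M) (n := n)
    (mul_comm_of_adjoin_rootSetOf_eq_top hA hgen) (pow_eq_one_of_adjoin_rootSetOf_eq_top hA hgen)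
  have h2 := card_aut_le_relIndex hA hgen hfin
  rw [IsGalois.card_aut_eq_finrank] at h2
  have h3 := Subgroup.relIndex_mul_relIndex _ _ _ hPA hA
  have hpos : 0 < Module.finrank K M := Module.finrank_pos
  have h4 : A.relIndex (kummerSubgroup K M n) = 1 := by
    rw [h1] at h3
    have h5 : (powSubgroup K n).relIndex A * A.relIndex (kummerSubgroup K M n) ≤
        (powSubgroup K n).relIndex A * 1 := by
      rw [h3, mul_one]; exact h2
    have h6 := Nat.le_of_mul_le_mul_left h5 (Nat.pos_of_ne_zero hfin)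
    have h7 : A.relIndex (kummerSubgroup K M n) ≠ 0 := by
      intro h0
      rw [h0, mul_zero] at h3
      omega
    omega
  exact le_antisymm (Subgroup.relIndex_eq_one.1 h4) hA

/-- **Kummer theory, degree formula**: if `Kˣ^n ≤ A` with `[A : Kˣ^n] < ∞` and
`M = K(A^{1/n})`, then `[M : K] = [A : Kˣ^n]`. -/
theorem finrank_eq_relIndex_of_adjoin_rootSetOf_eq_top (hPA : powSubgroup K n ≤ A)
    (hA : A ≤ kummerSubgroup K M n)
    (hgen : IntermediateField.adjoin K (rootSetOf M n A) = ⊤)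
    (hfin : (powSubgroup K n).relIndex A ≠ 0) :
    Module.finrank K M = (powSubgroup K n).relIndex A := by
  haveI := isGalois_of_adjoin_rootSetOf_eq_top hgen
  haveI := finiteDimensional_of_adjoin_rootSetOf_eq_top hA hgen hfin
  have h1 := relIndex_powSubgroup_kummerSubgroup_eq_finrank (K := K) (M := M) (n := n)
    (mul_comm_of_adjoin_rootSetOf_eq_top hA hgen) (pow_eq_one_of_adjoin_rootSetOf_eq_top hA hgen)
  rw [← h1, kummerSubgroup_eq_of_adjoin_rootSetOf_eq_top hPA hA hgen hfin]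

/-- **Kummer theory, perfectness**: for `M = K(A^{1/n})` with `Kˣ^n ≤ A`, `[A : Kˣ^n] < ∞`,
the Kummer pairing induces a bijection `Gal(M/K) → Hom(A ⧸ Kˣ^n, μ_n)`. -/
theorem kummerPairingQuot_bijective (hPA : powSubgroup K n ≤ A)
    (hA : A ≤ kummerSubgroup K M n)
    (hgen : IntermediateField.adjoin K (rootSetOf M n A) = ⊤)
    (hfin : (powSubgroup K n).relIndex A ≠ 0) :
    Function.Bijective (kummerPairingQuot M n hA) := by
  haveI := isGalois_of_adjoin_rootSetOf_eq_top hgen
  haveI := finiteDimensional_of_adjoin_rootSetOf_eq_top hA hgen hfin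
  haveI : Finite (A ⧸ (powSubgroup K n).subgroupOf A) :=
    Subgroup.index_ne_zero_iff_finite.1 hfin
  have hinj := kummerPairingQuot_injective hA hgen
  refine (Nat.bijective_iff_injective_and_card _).2 ⟨hinj, ?_⟩
  rw [card_hom_quotient_powSubgroup hfin, IsGalois.card_aut_eq_finrank,
    finrank_eq_relIndex_of_adjoin_rootSetOf_eq_top hPA hA hgen hfin]

/-- **Kummer theory, perfectness (dual side)**: for `M = K(A^{1/n})` with `Kˣ^n ≤ A`,
`[A : Kˣ^n] < ∞`, every character `Gal(M/K) → μ_n` is `σ ↦ σ(α)/α` for some `α` with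
`α ^ n ∈ A`. -/
theorem exists_mem_kummerRoot_eq (hPA : powSubgroup K n ≤ A)
    (hA : A ≤ kummerSubgroup K M n)
    (hgen : IntermediateField.adjoin K (rootSetOf M n A) = ⊤)
    (hfin : (powSubgroup K n).relIndex A ≠ 0) (χ : (M ≃ₐ[K] M) →* rootsOfUnity n K) :
    ∃ a : A, ∀ σ : M ≃ₐ[K] M, kummerRoot K M n σ (Subgroup.inclusion hA a) = χ σ := by
  haveI := isGalois_of_adjoin_rootSetOf_eq_top hgen
  haveI := finiteDimensional_of_adjoin_rootSetOf_eq_top hA hgen hfin
  obtain ⟨a, rfl⟩ := kummerDual_surjective (K := K) (M := M) (n := n) χ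
  have ha : (a : Kˣ) ∈ A := by
    rw [← kummerSubgroup_eq_of_adjoin_rootSetOf_eq_top hPA hA hgen hfin]; exact a.2
  exact ⟨⟨a, ha⟩, fun σ => rfl⟩

end Main

section KummerField

variable {K L : Type*} [Field K] [Field L] [Algebra K L] {n : ℕ} [NeZero n]
  [HasEnoughRootsOfUnity K n] {A : Subgroup Kˣ}

variable (L n) in
/-- The Kummer extension `K(A^{1/n})` inside an ambient extension `L / K`: generated by all
`n`-th roots in `L` of elements of `A`. -/
def kummerField (A : Subgroup Kˣ) : IntermediateField K L :=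
  IntermediateField.adjoin K (rootSetOf L n A)

theorem mem_kummerField_of_pow_eq {β : L} {a : Kˣ} (ha : a ∈ A)
    (hβ : β ^ n = algebraMap K L (a : K)) : β ∈ kummerField L n A :=
  IntermediateField.subset_adjoin K _ ⟨a, ha, hβ⟩

theorem kummerField_mono {A B : Subgroup Kˣ} (h : A ≤ B) :
    kummerField L n A ≤ kummerField L n B :=
  IntermediateField.adjoin.mono K _ _ fun _ ⟨a, ha, hβ⟩ => ⟨a, h ha, hβ⟩

theorem val_image_rootSetOf_kummerField :
    Subtype.val '' (rootSetOf (kummerField L n A) n A) = rootSetOf L n A := by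
  ext β
  constructor
  · rintro ⟨β', ⟨a, ha, hβ'⟩, rfl⟩
    refine ⟨a, ha, ?_⟩
    have := congrArg Subtype.val hβ'
    simpa using this
  · rintro ⟨a, ha, hβ⟩
    refine ⟨⟨β, mem_kummerField_of_pow_eq ha hβ⟩, ⟨a, ha, ?_⟩, rfl⟩
    apply Subtype.ext
    simpa using hβ

theorem adjoin_rootSetOf_kummerField_eq_top :
    IntermediateField.adjoin K (rootSetOf (kummerField L n A) n A) = ⊤ := by
  apply IntermediateField.lift_injective
  rw [IntermediateField.lift_adjoin, IntermediateField.lift_top,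
    val_image_rootSetOf_kummerField]
  rfl

theorem le_kummerSubgroup_kummerField (hA : A ≤ kummerSubgroup K L n) :
    A ≤ kummerSubgroup K (kummerField L n A) n := by
  intro a ha
  obtain ⟨β, hβ⟩ := mem_kummerSubgroup_iff'.1 (hA ha)
  refine mem_kummerSubgroup_iff'.2 ⟨⟨β, mem_kummerField_of_pow_eq ha hβ⟩, ?_⟩
  apply Subtype.ext
  simpa using hβ

theorem kummerSubgroup_kummerField_le :
    kummerSubgroup K (kummerField L n A) n ≤ kummerSubgroup K L n := by
  intro a ha
  obtain ⟨β, hβ⟩ := mem_kummerSubgroup_iff'.1 ha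
  refine mem_kummerSubgroup_iff'.2 ⟨(β : L), ?_⟩
  have := congrArg Subtype.val hβ
  simpa using this

instance isGalois_kummerField : IsGalois K (kummerField L n A) :=
  isGalois_of_adjoin_rootSetOf_eq_top adjoin_rootSetOf_kummerField_eq_top

theorem finiteDimensional_kummerField (hA : A ≤ kummerSubgroup K L n)
    (hfin : (powSubgroup K n).relIndex A ≠ 0) : FiniteDimensional K (kummerField L n A) :=
  finiteDimensional_of_adjoin_rootSetOf_eq_top (le_kummerSubgroup_kummerField hA)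
    adjoin_rootSetOf_kummerField_eq_top hfin

theorem mul_comm_aut_kummerField (hA : A ≤ kummerSubgroup K L n)
    (σ τ : kummerField L n A ≃ₐ[K] kummerField L n A) : σ * τ = τ * σ :=
  mul_comm_of_adjoin_rootSetOf_eq_top (le_kummerSubgroup_kummerField hA)
    adjoin_rootSetOf_kummerField_eq_top σ τ

theorem pow_eq_one_aut_kummerField (hA : A ≤ kummerSubgroup K L n)
    (σ : kummerField L n A ≃ₐ[K] kummerField L n A) : σ ^ n = 1 :=
  pow_eq_one_of_adjoin_rootSetOf_eq_top (le_kummerSubgroup_kummerField hA)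
    adjoin_rootSetOf_kummerField_eq_top σ

/-- **Kummer theory**: `Kˣ ∩ (K(A^{1/n})ˣ)^n = A` when `Kˣ^n ≤ A`, `[A : Kˣ^n] < ∞` and all
elements of `A` have `n`-th roots in `L`. -/
theorem kummerSubgroup_kummerField (hPA : powSubgroup K n ≤ A) (hA : A ≤ kummerSubgroup K L n)
    (hfin : (powSubgroup K n).relIndex A ≠ 0) :
    kummerSubgroup K (kummerField L n A) n = A :=
  kummerSubgroup_eq_of_adjoin_rootSetOf_eq_top hPA (le_kummerSubgroup_kummerField hA)
    adjoin_rootSetOf_kummerField_eq_top hfin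

/-- **Kummer theory**: `[K(A^{1/n}) : K] = [A : Kˣ^n]`. -/
theorem finrank_kummerField (hPA : powSubgroup K n ≤ A) (hA : A ≤ kummerSubgroup K L n)
    (hfin : (powSubgroup K n).relIndex A ≠ 0) :
    Module.finrank K (kummerField L n A) = (powSubgroup K n).relIndex A :=
  finrank_eq_relIndex_of_adjoin_rootSetOf_eq_top hPA (le_kummerSubgroup_kummerField hA)
    adjoin_rootSetOf_kummerField_eq_top hfin

/-- An `n`-th root `β ∈ L` of `a ∈ Kˣ` lies in `K(A^{1/n})` iff `a ∈ A`. -/
theorem mem_kummerField_iff (hPA : powSubgroup K n ≤ A) (hA : A ≤ kummerSubgroup K L n)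
    (hfin : (powSubgroup K n).relIndex A ≠ 0) {β : L} {a : Kˣ}
    (hβ : β ^ n = algebraMap K L (a : K)) : β ∈ kummerField L n A ↔ a ∈ A := by
  refine ⟨fun h => ?_, fun h => mem_kummerField_of_pow_eq h hβ⟩
  rw [← kummerSubgroup_kummerField (L := L) hPA hA hfin]
  refine mem_kummerSubgroup_iff'.2 ⟨⟨β, h⟩, ?_⟩
  apply Subtype.ext
  simpa using hβ

/-- **Kummer correspondence, injectivity**: `A ↦ K(A^{1/n})` reflects inclusions. -/
theorem kummerField_le_iff {A B : Subgroup Kˣ} (hPB : powSubgroup K n ≤ B)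
    (hA : A ≤ kummerSubgroup K L n) (hB : B ≤ kummerSubgroup K L n)
    (hfinB : (powSubgroup K n).relIndex B ≠ 0) :
    kummerField L n A ≤ kummerField L n B ↔ A ≤ B := by
  refine ⟨fun h a ha => ?_, kummerField_mono⟩
  obtain ⟨β, hβ⟩ := mem_kummerSubgroup_iff'.1 (hA ha)
  exact (mem_kummerField_iff hPB hB hfinB hβ).1 (h (mem_kummerField_of_pow_eq ha hβ))

end KummerField

end Fermat.Agent.S55.H361

end
-- ===== PACK-END S55/H361/Kummer.lean

-- ===== PACK-BEGIN S55/H963/BrFinQuot.lean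
section


/-!
# S55 / G-SI bridge (helper963): bounding a group of finite exponent by its finite quotients

If `A` is an abelian group killed by `n > 0` all of whose finite quotients have at most `d`
elements, then `A` is finite with at most `d` elements.
-/

set_option autoImplicit false

namespace Fermat.Agent.S55.H963.Br

theorem exists_injective_fin_of_not {A : Type*} (d : ℕ) (h : ¬ (Finite A ∧ Nat.card A ≤ d)) :
    ∃ f : Fin (d + 1) → A, Function.Injective f := by
  by_cases hfin : Finite A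
  · have hcard : d < Nat.card A := by
      by_contra hle
      exact h ⟨hfin, not_lt.mp hle⟩
    have _ : Fintype A := Fintype.ofFinite A
    rw [Nat.card_eq_fintype_card] at hcard
    have : Fintype.card (Fin (d + 1)) ≤ Fintype.card A := by
      rw [Fintype.card_fin]; exact hcard
    obtain ⟨e⟩ := Function.Embedding.nonempty_of_card_le this
    exact ⟨e, e.injective⟩
  · rw [not_finite_iff_infinite] at hfin
    exact ⟨fun i => Infinite.natEmbedding A i.1,
      fun i j hij => Fin.ext ((Infinite.natEmbedding A).injective hij)⟩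

theorem finite_and_card_le_of_quotients {A : Type*} [AddCommGroup A] {n : ℕ} (hn : 0 < n)
    (hA : ∀ a : A, n • a = 0) (d : ℕ)
    (h : ∀ B : AddSubgroup A, Finite (A ⧸ B) → Nat.card (A ⧸ B) ≤ d) :
    Finite A ∧ Nat.card A ≤ d := by
  classical
  by_contra hcon
  obtain ⟨f, hf⟩ := exists_injective_fin_of_not d hcon
  have hex : ∀ p : Fin (d + 1) × Fin (d + 1), ∃ c : A →+ AddCircle (1 : ℚ),
      p.1 ≠ p.2 → c (f p.1 - f p.2) ≠ 0 := by
    intro p
    by_cases hp : p.1 = p.2
    · exact ⟨0, fun h => absurd hp h⟩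
    · have hne : f p.1 - f p.2 ≠ 0 := fun h0 => hp (hf (sub_eq_zero.mp h0))
      obtain ⟨c, hc⟩ := CharacterModule.exists_character_apply_ne_zero_of_ne_zero hne
      exact ⟨c, fun _ => hc⟩
  choose c hc using hex
  let χ : A →+ (Fin (d + 1) × Fin (d + 1) → AddCircle (1 : ℚ)) := AddMonoidHom.pi c
  let B : AddSubgroup A := χ.ker
  have hT : {u : AddCircle (1 : ℚ) | n • u = 0}.Finite := AddCircle.finite_torsion (1 : ℚ) hn
  have hrange : (Set.range χ).Finite := by
    refine (Set.Finite.pi' (fun _ : Fin (d + 1) × Fin (d + 1) => hT)).subset ?_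
    rintro _ ⟨a, rfl⟩ p
    show n • (c p a) = 0
    rw [← map_nsmul, hA a, map_zero]
  have hfinQ : Finite (A ⧸ B) := by
    have e : A ⧸ B ≃+ χ.range := QuotientAddGroup.quotientKerEquivRange χ
    have : Finite χ.range := hrange.to_subtype
    exact Finite.of_equiv _ e.symm.toEquiv
  have hinj : Function.Injective (fun i : Fin (d + 1) => (QuotientAddGroup.mk (f i) : A ⧸ B)) := by
    intro i j hij
    by_contra hne
    have h1 : f i - f j ∈ B := by
      have := (QuotientAddGroup.eq (s := B)).mp hij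
      have h2 : f i - f j = -(-f i + f j) := by abel
      rw [h2]
      exact B.neg_mem this
    have h2 : χ (f i - f j) = 0 := h1
    have h3 := congrFun h2 (i, j)
    exact hc (i, j) hne h3
  have h1 := Nat.card_le_card_of_injective _ hinj
  rw [Nat.card_eq_fintype_card, Fintype.card_fin] at h1
  have h2 := h B hfinQ
  omega

/-- A submonoid of an abelian group of finite exponent is a subgroup. -/
def subgroupOfTorsion {A : Type*} [AddCommGroup A] (T : AddSubmonoid A) {n : ℕ} (hn : 0 < n)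
    (hA : ∀ a : A, n • a = 0) : AddSubgroup A :=
  { T with
    neg_mem' := by
      intro a ha
      have h2 : (n - 1) • a + a = 0 := by
        rw [← succ_nsmul, Nat.sub_add_cancel hn]
        exact hA a
      have h1 : -a = (n - 1) • a := neg_eq_of_add_eq_zero_left h2
      rw [h1]
      exact T.nsmul_mem ha _ }

theorem mem_subgroupOfTorsion {A : Type*} [AddCommGroup A] (T : AddSubmonoid A) {n : ℕ}
    (hn : 0 < n) (hA : ∀ a : A, n • a = 0) (a : A) :
    a ∈ subgroupOfTorsion T hn hA ↔ a ∈ T := Iff.rfl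

end Fermat.Agent.S55.H963.Br

end
-- ===== PACK-END S55/H963/BrFinQuot.lean

-- ===== PACK-BEGIN S55/G/H357/LocalFactor.lean
section


/-!
# S55, layer G (helper357): the local Euler factor of a product of `L`-series

For a finite commutative group `D` (in the application: the dual of a finite abelian group `A`)
and a homomorphism `e : D →* ℂˣ` (in the application: evaluation at an element of `A`),
`∏_{d} (1 - e d * x) = (1 - x ^ m) ^ k` with `m = #range e`, `k = #ker e`.
-/

set_option autoImplicit false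

namespace Fermat.Agent.S55.G.H357

open Finset

/-- A finite set of complex numbers of cardinality `m` all of whose elements are `m`-th roots
of unity is the set of all `m`-th roots of unity; hence `∏ (1 - ω x) = 1 - x ^ m`. -/
theorem prod_one_sub_mul_of_card (S : Finset ℂ) (hS : ∀ ω ∈ S, ω ^ S.card = 1) (hne : S.Nonempty)
    (x : ℂ) : ∏ ω ∈ S, (1 - ω * x) = 1 - x ^ S.card := by
  have hpos : 0 < S.card := Finset.card_pos.mpr hne
  have hprim := Complex.isPrimitiveRoot_exp S.card hpos.ne'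
  have hset : S = Polynomial.nthRootsFinset S.card (1 : ℂ) := by
    apply Finset.eq_of_subset_of_card_le
    · intro ω hω
      rw [Polynomial.mem_nthRootsFinset hpos]
      exact hS ω hω
    · rw [hprim.card_nthRootsFinset]
  have h := hprim.pow_sub_pow_eq_prod_sub_mul (1 : ℂ) x hpos
  rw [one_pow] at h
  rw [h]
  exact Finset.prod_congr hset fun _ _ => rfl

/-- The product of `1 - e d * x` over a finite group `D`, for a homomorphism `e : D →* ℂˣ`. -/
theorem exists_prod_one_sub_eq {D : Type*} [Group D] [Fintype D] (e : D →* ℂˣ) (x : ℂ) :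
    ∃ m k : ℕ, 0 < m ∧ ∏ d : D, (1 - ((e d : ℂˣ) : ℂ) * x) = (1 - x ^ m) ^ k := by
  classical
  set g : D → ℂ := fun d => ((e d : ℂˣ) : ℂ) with hg
  set S : Finset ℂ := Finset.univ.image g with hSdef
  have hne : S.Nonempty := ⟨g 1, Finset.mem_image_of_mem _ (Finset.mem_univ _)⟩
  -- the fibres all have the same cardinality
  set k : ℕ := (Finset.univ.filter fun d : D => g d = 1).card with hk
  have hfib : ∀ ω ∈ S, (Finset.univ.filter fun d : D => g d = ω).card = k := by
    intro ω hω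
    obtain ⟨d₀, -, rfl⟩ := Finset.mem_image.mp hω
    have h1 := MonoidHom.card_fiber_eq_of_mem_range e (x := e d₀) (y := 1) ⟨d₀, rfl⟩ ⟨1, map_one e⟩
    have e1 : (Finset.univ.filter fun d : D => g d = g d₀) =
        Finset.univ.filter fun d : D => e d = e d₀ := by
      ext d
      simp only [Finset.mem_filter, Finset.mem_univ, true_and, hg]
      exact Units.val_inj
    have e2 : (Finset.univ.filter fun d : D => g d = 1) =
        Finset.univ.filter fun d : D => e d = 1 := by
      ext d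
      simp only [Finset.mem_filter, Finset.mem_univ, true_and, hg]
      exact Units.val_eq_one
    rw [hk, e1, e2]
    exact h1
  -- every element of `S` is a `#S`-th root of unity
  have hcard : S.card = Nat.card e.range := by
    have h1 : S = (Finset.univ.image fun d : D => e d).image (fun u : ℂˣ => (u : ℂ)) := by
      rw [Finset.image_image]
      rfl
    rw [h1, Finset.card_image_of_injective _ Units.val_injective]
    have h2 : ((Finset.univ.image fun d : D => e d : Finset ℂˣ) : Set ℂˣ) = (e.range : Set ℂˣ) := by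
      ext u
      simp [MonoidHom.mem_range]
    rw [← Set.ncard_coe_finset, h2]
    rfl
  have hroot : ∀ ω ∈ S, ω ^ S.card = 1 := by
    intro ω hω
    obtain ⟨d₀, -, rfl⟩ := Finset.mem_image.mp hω
    have h1 : (⟨e d₀, ⟨d₀, rfl⟩⟩ : e.range) ^ Nat.card e.range = 1 := pow_card_eq_one'
    have h2 : (e d₀) ^ Nat.card e.range = 1 := by
      have := congrArg (fun u : e.range => (u : ℂˣ)) h1
      simpa using this
    rw [hcard, hg]
    have := congrArg (fun u : ℂˣ => (u : ℂ)) h2
    simpa using this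
  refine ⟨S.card, k, Finset.card_pos.mpr hne, ?_⟩
  have h1 : ∏ d : D, (1 - ((e d : ℂˣ) : ℂ) * x) = ∏ d : D, (fun ω : ℂ => 1 - ω * x) (g d) := rfl
  rw [h1, Finset.prod_comp (fun ω : ℂ => 1 - ω * x) g]
  rw [← prod_one_sub_mul_of_card S hroot hne x, ← Finset.prod_pow]
  refine Finset.prod_congr rfl fun ω hω => ?_
  rw [hfib ω hω]

/-- The norm of the local factor is at most one. -/
theorem norm_prod_one_sub_le_one {D : Type*} [Group D] [Fintype D] (e : D →* ℂˣ) {x : ℝ}
    (hx0 : 0 ≤ x) (hx1 : x ≤ 1) : ‖∏ d : D, (1 - ((e d : ℂˣ) : ℂ) * (x : ℂ))‖ ≤ 1 := by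
  obtain ⟨m, k, hm, h⟩ := exists_prod_one_sub_eq e (x : ℂ)
  rw [h, norm_pow]
  have hxm0 : 0 ≤ x ^ m := pow_nonneg hx0 m
  have hxm1 : x ^ m ≤ 1 := pow_le_one₀ hx0 hx1
  have hn : ‖(1 : ℂ) - (x : ℂ) ^ m‖ = 1 - x ^ m := by
    rw [← Complex.ofReal_one, ← Complex.ofReal_pow, ← Complex.ofReal_sub, Complex.norm_real,
      Real.norm_of_nonneg (by linarith)]
  rw [hn]
  exact pow_le_one₀ (by linarith) (by linarith)

/-- The inverse local factor has norm at least one. -/
theorem one_le_norm_prod_inv {D : Type*} [Group D] [Fintype D] (e : D →* ℂˣ) {x : ℝ}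
    (hx0 : 0 ≤ x) (hx1 : x < 1) : 1 ≤ ‖∏ d : D, (1 - ((e d : ℂˣ) : ℂ) * (x : ℂ))⁻¹‖ := by
  rw [Finset.prod_inv_distrib, norm_inv]
  have hle := norm_prod_one_sub_le_one e hx0 hx1.le
  have hpos : 0 < ‖∏ d : D, (1 - ((e d : ℂˣ) : ℂ) * (x : ℂ))‖ := by
    rw [norm_pos_iff]
    refine Finset.prod_ne_zero_iff.mpr fun d _ => ?_
    intro h0
    have h1 : ((e d : ℂˣ) : ℂ) * (x : ℂ) = 1 := by
      rw [sub_eq_zero] at h0
      exact h0.symm
    have h2 : ‖((e d : ℂˣ) : ℂ) * (x : ℂ)‖ = 1 := by rw [h1, norm_one]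
    have h3 : ‖((e d : ℂˣ) : ℂ)‖ = 1 := by
      have hfin : (e d) ^ Fintype.card D = 1 := by
        rw [← map_pow, pow_card_eq_one, map_one]
      have h4 : (((e d : ℂˣ) : ℂ)) ^ Fintype.card D = 1 := by
        have := congrArg (fun u : ℂˣ => (u : ℂ)) hfin
        simpa using this
      have h5 : ‖((e d : ℂˣ) : ℂ)‖ ^ Fintype.card D = 1 := by rw [← norm_pow, h4, norm_one]
      exact (pow_eq_one_iff_of_nonneg (norm_nonneg _) Fintype.card_ne_zero).mp h5
    rw [norm_mul, h3, one_mul, Complex.norm_real, Real.norm_of_nonneg hx0] at h2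
    linarith
  exact (one_le_inv₀ hpos).mpr hle

/-- For the trivial homomorphism the inverse local factor is `(1 - x)^(-#D) ≥ (1 + x)^#D`. -/
theorem pow_le_norm_prod_inv_of_trivial {D : Type*} [Group D] [Fintype D] (e : D →* ℂˣ)
    (he : ∀ d, e d = 1) {x : ℝ} (hx0 : 0 ≤ x) (hx1 : x < 1) :
    (1 + x) ^ Fintype.card D ≤ ‖∏ d : D, (1 - ((e d : ℂˣ) : ℂ) * (x : ℂ))⁻¹‖ := by
  have h1x : 0 < 1 - x := by linarith
  have h : ∏ d : D, (1 - ((e d : ℂˣ) : ℂ) * (x : ℂ))⁻¹ = (((1 - x)⁻¹ : ℝ) : ℂ) ^ Fintype.card D := by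
    rw [Finset.prod_congr rfl (fun d _ => by rw [he d, Units.val_one, one_mul]),
      Finset.prod_const, Finset.card_univ]
    congr 1
    push_cast
    rfl
  rw [h, norm_pow, Complex.norm_real, Real.norm_of_nonneg (inv_nonneg.mpr h1x.le)]
  apply pow_le_pow_left₀ (by linarith)
  rw [← one_div, le_div_iff₀ h1x]
  nlinarith

end Fermat.Agent.S55.G.H357

end
-- ===== PACK-END S55/G/H357/LocalFactor.lean

-- ===== PACK-BEGIN S55/G/Rec/HP/LocH90.lean
section


/-!
# S55 / REC / HP : Hilbert 90 for 1-cocycles of finite level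

`K̄/K` a Galois extension (no finiteness), `V₀ ≤ Gal(K̄/K)` a subgroup, `E'/K` a finite normal
subextension with `Gal(K̄/E') ≤ V₀`.  A 1-cocycle `β : V₀ → K̄ˣ` which is constant modulo
`Gal(K̄/E')` is a coboundary: `β n = n a / a`.
-/

set_option autoImplicit false

namespace Fermat.Agent.S55.G.Rec.HP

section Noether

variable {K L : Type*} [Field K] [Field L] [Algebra K L] [FiniteDimensional K L]

/-- Noether's form of Hilbert 90 for a subgroup `H ≤ Gal(L/K)` (Dedekind independence). -/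
theorem hilbert90_subgroup473 (H : Subgroup (L ≃ₐ[K] L)) (f : H → Lˣ)
    (hf : ∀ g h : H, f (g * h) = (g : L ≃ₐ[K] L) • f h * f g) :
    ∃ β : Lˣ, ∀ g : H, (g : L ≃ₐ[K] L) • β / β = f g := by
  classical
  have hli : LinearIndependent L (fun h : H => (((h : L ≃ₐ[K] L) : L → L))) :=
    LinearIndependent.comp (ι' := H) (linearIndependent_monoidHom L L)
      (fun h => (((h : L ≃ₐ[K] L) : L →ₐ[K] L) : L →* L))
      (fun x y h => Subtype.ext (by
        ext z
        exact DFunLike.congr_fun h z))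
  have hne : (∑ h : H, (f h : L) • (((h : L ≃ₐ[K] L) : L → L))) ≠ 0 := by
    intro h0
    have := Fintype.linearIndependent_iff.1 hli (fun h => (f h : L)) h0 1
    exact Units.ne_zero (f 1) this
  obtain ⟨z, hz⟩ : ∃ z, (∑ h : H, (f h : L) • (((h : L ≃ₐ[K] L) : L → L))) z ≠ 0 :=
    not_forall.1 (fun hall => hne (funext hall))
  have hz' : (∑ h : H, (f h : L) * (h : L ≃ₐ[K] L) z) ≠ 0 := by
    simpa [Finset.sum_apply] using hz
  refine ⟨(Units.mk0 _ hz')⁻¹, fun g => ?_⟩
  rw [smul_inv', div_inv_eq_mul, inv_mul_eq_iff_eq_mul]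
  apply Units.ext
  simp only [Units.val_mul, Units.val_mk0, AlgEquiv.smul_units_def, Units.coe_map,
    MonoidHom.coe_coe]
  rw [map_sum, Finset.sum_mul]
  have := Fintype.sum_bijective (fun i : H => g * i) (Group.mulLeft_bijective g)
    (fun i => (f (g * i) : L) * ((g * i : H) : L ≃ₐ[K] L) z)
    (fun i => (f i : L) * (i : L ≃ₐ[K] L) z) (fun i => rfl)
  rw [← this]
  refine Finset.sum_congr rfl fun i _ => ?_
  rw [hf g i]
  simp only [Units.val_mul, AlgEquiv.smul_units_def, Units.coe_map, MonoidHom.coe_coe,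
    Subgroup.coe_mul, AlgEquiv.mul_apply, map_mul]
  ring

end Noether

section Level

variable {K Kb : Type*} [Field K] [Field Kb] [Algebra K Kb] [IsGalois K Kb]

/-- **Hilbert 90 at finite level**, absolute form. -/
theorem exists_hilbert90_level (V₀ : Subgroup (Kb ≃ₐ[K] Kb)) (E' : IntermediateField K Kb)
    [FiniteDimensional K E'] [Normal K E'] (hE' : E'.fixingSubgroup ≤ V₀)
    (β : ↥V₀ → Kbˣ)
    (hcoc : ∀ n n' : ↥V₀, β (n * n') = (n : Kb ≃ₐ[K] Kb) • β n' * β n)
    (hconst : ∀ n s : ↥V₀, (s : Kb ≃ₐ[K] Kb) ∈ E'.fixingSubgroup → β (n * s) = β n) :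
    ∃ a : Kbˣ, ∀ n : ↥V₀, β n = (n : Kb ≃ₐ[K] Kb) • a / a := by
  classical
  -- `β 1 = 1`
  have h1 : β 1 = 1 := by
    have h := hcoc 1 1
    rw [mul_one, Subgroup.coe_one, one_smul] at h
    exact (mul_eq_left.1 h.symm)
  -- the fixing subgroup is normal
  have hnorm : (E'.fixingSubgroup).Normal := by
    rw [← E'.restrictNormalHom_ker]
    exact MonoidHom.normal_ker _
  -- `β` is trivial on `Gal(K̄/E')`
  have hβs : ∀ s : ↥V₀, (s : Kb ≃ₐ[K] Kb) ∈ E'.fixingSubgroup → β s = 1 := by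
    intro s hs
    have := hconst 1 s hs
    rwa [one_mul, h1] at this
  -- the values of `β` are fixed by `Gal(K̄/E')`
  have hfix : ∀ (n : ↥V₀) (s : Kb ≃ₐ[K] Kb), s ∈ E'.fixingSubgroup → s • β n = β n := by
    intro n s hs
    let s' : ↥V₀ := ⟨s, hE' hs⟩
    have hconj : ((n⁻¹ * s' * n : ↥V₀) : Kb ≃ₐ[K] Kb) ∈ E'.fixingSubgroup := by
      have := hnorm.conj_mem s hs (n⁻¹ : ↥V₀)
      simpa [mul_assoc] using this
    have e1 : β (s' * n) = β n := by
      have : s' * n = n * (n⁻¹ * s' * n) := by group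
      rw [this]
      exact hconst n _ hconj
    have e2 := hcoc s' n
    rw [e1, hβs s' hs, mul_one] at e2
    exact e2.symm
  -- so they lie in `E'`
  have hmem : ∀ n : ↥V₀, ((β n : Kbˣ) : Kb) ∈ E' := by
    intro n
    rw [← InfiniteGalois.fixedField_fixingSubgroup E']
    rintro ⟨s, hs⟩
    have := congrArg (fun u : Kbˣ => (u : Kb)) (hfix n s hs)
    exact this
  -- restriction to `E'`
  let r : ↥V₀ →* (E' ≃ₐ[K] E') := (AlgEquiv.restrictNormalHom E').comp V₀.subtype
  have hr : ∀ (n : ↥V₀) (x : E'), ((r n x : E') : Kb) = (n : Kb ≃ₐ[K] Kb) (x : Kb) := by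
    intro n x
    change algebraMap E' Kb (AlgEquiv.restrictNormal (n : Kb ≃ₐ[K] Kb) E' x) = _
    rw [AlgEquiv.restrictNormal_commutes]
    rfl
  have hrker : ∀ n : ↥V₀, r n = 1 → (n : Kb ≃ₐ[K] Kb) ∈ E'.fixingSubgroup := by
    intro n hn
    rw [IntermediateField.mem_fixingSubgroup_iff]
    intro x hx
    have := hr n ⟨x, hx⟩
    rw [hn] at this
    exact this.symm
  have hreq : ∀ n n' : ↥V₀, r n = r n' → β n = β n' := by
    intro n n' h
    have hk : r (n⁻¹ * n') = 1 := by rw [map_mul, map_inv, h, inv_mul_cancel]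
    have := hconst n (n⁻¹ * n') (hrker _ hk)
    rw [mul_inv_cancel_left] at this
    exact this.symm
  -- the finite-level cocycle
  let H : Subgroup (E' ≃ₐ[K] E') := r.range
  have hsurj : ∀ h : ↥H, ∃ n : ↥V₀, r n = (h : E' ≃ₐ[K] E') := fun h => h.2
  choose lift hlift using hsurj
  let βH : ↥H → (↥E')ˣ := fun h =>
    Units.mk0 (⟨((β (lift h) : Kbˣ) : Kb), hmem (lift h)⟩ : E') (by
      intro h0
      have := congrArg (fun x : E' => (x : Kb)) h0
      exact Units.ne_zero (β (lift h)) this)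
  have hβH : ∀ h : ↥H, (((βH h : (↥E')ˣ) : E') : Kb) = ((β (lift h) : Kbˣ) : Kb) := fun _ => rfl
  have hcocH : ∀ g h : ↥H, βH (g * h) = (g : E' ≃ₐ[K] E') • βH h * βH g := by
    intro g h
    apply Units.ext
    apply Subtype.ext
    rw [hβH]
    have e1 : β (lift (g * h)) = β (lift g * lift h) := by
      apply hreq
      rw [hlift, map_mul, hlift, hlift]
      rfl
    rw [e1, hcoc]
    simp only [Units.val_mul, AlgEquiv.smul_units_def, Units.coe_map, MonoidHom.coe_coe,
      MulMemClass.coe_mul]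
    rw [hβH g, ← hlift g, hr, hβH h]
  obtain ⟨a', ha'⟩ := hilbert90_subgroup473 H βH hcocH
  refine ⟨Units.map (algebraMap E' Kb : E' →* Kb) a', fun n => ?_⟩
  have hn : r n ∈ H := ⟨n, rfl⟩
  have e1 : β n = β (lift ⟨r n, hn⟩) := hreq _ _ (hlift ⟨r n, hn⟩).symm
  have e2 := ha' ⟨r n, hn⟩
  have ha0 : ((a' : E') : Kb) ≠ 0 := by
    intro h0
    exact Units.ne_zero a' (Subtype.ext h0)
  have e3 : ((β n : Kbˣ) : Kb) = (n : Kb ≃ₐ[K] Kb) ((a' : E') : Kb) / ((a' : E') : Kb) := by
    have e3' := congrArg (fun u : (↥E')ˣ => (((u : E') : Kb))) e2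
    simp only at e3'
    rw [hβH, ← e1] at e3'
    rw [← e3', ← hr n (a' : E')]
    simp only [Units.val_div_eq_div_val, AlgEquiv.smul_units_def, Units.coe_map,
      MonoidHom.coe_coe, IntermediateField.coe_div]
  rw [eq_div_iff_mul_eq'']
  apply Units.ext
  simp only [Units.val_mul, AlgEquiv.smul_units_def, Units.coe_map, MonoidHom.coe_coe]
  rw [e3]
  change ((a' : E') : Kb) * _ = (n : Kb ≃ₐ[K] Kb) ((a' : E') : Kb)
  field_simp

end Level

end Fermat.Agent.S55.G.Rec.HP

end
-- ===== PACK-END S55/G/Rec/HP/LocH90.lean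

-- ===== PACK-BEGIN S55/G/Rec/Glob/Inst.lean
section


/-!
# S55 / REC / global dictionary: shortcut instances (helper64)

Instance search for the action of `Gal(L/K)` on `Lˣ` (`AlgEquiv.instMulDistribMulActionUnits`)
is slow (more than the default `synthInstance.maxHeartbeats`) when `L` is (the coercion to a type
of) an intermediate field.  The following shortcut instances are definitionally the Mathlib
instances.
-/

set_option autoImplicit false

namespace Fermat.Agent.S55.G.Rec.Glob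

variable {K E : Type} [Field K] [Field E] [Algebra K E] (L : IntermediateField K E)

/-- Shortcut instance. -/
instance instMulDistribMulActionIF : MulDistribMulAction (L ≃ₐ[K] L) (↥L)ˣ :=
  AlgEquiv.instMulDistribMulActionUnits

/-- Shortcut instance. -/
instance instSMulIF : SMul (L ≃ₐ[K] L) (↥L)ˣ :=
  (instMulDistribMulActionIF L).toMulAction.toSMul

end Fermat.Agent.S55.G.Rec.Glob

end
-- ===== PACK-END S55/G/Rec/Glob/Inst.lean

-- ===== PACK-BEGIN S55/L/H355/FinField.lean
section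


/-!
# S55, layer L, helper355: two elementary lemmas on finite fields and powers of `q`
-/

set_option autoImplicit false

namespace Fermat.Agent.S55.L.H355

/-- If `x ^ m = x ^ m'` for all `x` in a finite field `k` then `m ≡ m'` modulo `|k| - 1`. -/
theorem modEq_of_forall_pow_eq {k : Type} [Field k] [Finite k] {m m' : ℕ}
    (h : ∀ x : k, x ^ m = x ^ m') : m ≡ m' [MOD Nat.card k - 1] := by
  obtain ⟨g, hg⟩ := IsCyclic.exists_generator (α := kˣ)
  have hord : orderOf g = Nat.card k - 1 := by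
    rw [orderOf_eq_card_of_forall_mem_zpowers hg, Nat.card_units]
  have h1 : g ^ m = g ^ m' := by
    apply Units.ext
    simpa using h (g : k)
  rw [← hord]
  exact pow_eq_pow_iff_modEq.1 h1

/-- The multiplicative order of `q` modulo `q ^ n - 1` is `n`. -/
theorem modEq_of_pow_modEq {q n a b : ℕ} (hq : 2 ≤ q) (hn : 0 < n)
    (h : q ^ a ≡ q ^ b [MOD q ^ n - 1]) : a ≡ b [MOD n] := by
  rcases Nat.lt_or_ge 1 n with hn2 | hn1
  · -- `n ≥ 2`
    have hqn : q ^ n ≡ 1 [MOD q ^ n - 1] := by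
      have h1 : 1 ≤ q ^ n := Nat.one_le_pow _ _ (by omega)
      exact ((Nat.modEq_iff_dvd' h1).2 (dvd_refl _)).symm
    have hred : ∀ c : ℕ, q ^ c ≡ q ^ (c % n) [MOD q ^ n - 1] := by
      intro c
      conv_lhs => rw [← Nat.div_add_mod c n]
      rw [pow_add, pow_mul]
      calc (q ^ n) ^ (c / n) * q ^ (c % n) ≡ 1 ^ (c / n) * q ^ (c % n) [MOD q ^ n - 1] :=
            (hqn.pow _).mul_right _
        _ = q ^ (c % n) := by rw [one_pow, one_mul]
    have h2 : q ^ (a % n) ≡ q ^ (b % n) [MOD q ^ n - 1] := ((hred a).symm.trans h).trans (hred b)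
    have hlt : ∀ c : ℕ, c < n → q ^ c < q ^ n - 1 := by
      intro c hc
      have h3 : q ^ c ≤ q ^ (n - 1) := Nat.pow_le_pow_right (by omega) (by omega)
      have h4 : q ^ n = q ^ (n - 1) * q := by
        rw [← pow_succ]; congr 1; omega
      have h5 : 2 ≤ q ^ (n - 1) := by
        calc 2 ≤ q := hq
          _ = q ^ 1 := (pow_one q).symm
          _ ≤ q ^ (n - 1) := Nat.pow_le_pow_right (by omega) (by omega)
      have h6 : q ^ (n - 1) * 2 ≤ q ^ (n - 1) * q := Nat.mul_le_mul_left _ hq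
      omega
    have h3 := h2.eq_of_lt_of_lt (hlt _ (Nat.mod_lt _ hn)) (hlt _ (Nat.mod_lt _ hn))
    exact Nat.pow_right_injective hq h3
  · have : n = 1 := by omega
    rw [this]
    exact Nat.modEq_one

end Fermat.Agent.S55.L.H355

end
-- ===== PACK-END S55/L/H355/FinField.lean

-- ===== PACK-BEGIN S55/H413/WRLocal.lean
section


/-!
# S55, leaf WR (weak reciprocity), part 1: local characters on `ℚ_[ℓ]ˣ`

For a prime `ℓ` we define
* `valHom ℓ : ℚ_[ℓ]ˣ →* Multiplicative ℤ`, the valuation,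
* `unitPart ℓ : ℚ_[ℓ]ˣ →* ℤ_[ℓ]ˣ`, `x ↦ x * ℓ ^ (-v x)`,
* `unitResidue ℓ m : ℚ_[ℓ]ˣ →* (ZMod (ℓ ^ m))ˣ`, the unit part modulo `ℓ ^ m`.
-/

set_option autoImplicit false

namespace Fermat.Agent.S55.H413

open Padic

variable (ℓ : ℕ) [hℓ : Fact ℓ.Prime]

/-- The valuation as a monoid homomorphism. -/
noncomputable def valHom : ℚ_[ℓ]ˣ →* Multiplicative ℤ where
  toFun x := Multiplicative.ofAdd (x : ℚ_[ℓ]).valuation
  map_one' := by simp
  map_mul' x y := by
    rw [Units.val_mul, Padic.valuation_mul x.ne_zero y.ne_zero, ofAdd_add]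

@[simp] lemma valHom_apply (x : ℚ_[ℓ]ˣ) :
    Multiplicative.toAdd (valHom ℓ x) = (x : ℚ_[ℓ]).valuation := rfl

lemma norm_unitPart_aux (x : ℚ_[ℓ]ˣ) :
    ‖(x : ℚ_[ℓ]) * (ℓ : ℚ_[ℓ]) ^ (-(x : ℚ_[ℓ]).valuation)‖ = 1 := by
  have hℓ0 : (ℓ : ℝ) ≠ 0 := by exact_mod_cast hℓ.out.ne_zero
  rw [norm_mul, Padic.norm_p_zpow, Padic.norm_eq_zpow_neg_valuation x.ne_zero, neg_neg,
    ← zpow_add₀ hℓ0]
  simp

/-- The unit part `x * ℓ ^ (-v x)` of a nonzero `ℓ`-adic number, as a monoid homomorphism. -/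
noncomputable def unitPart : ℚ_[ℓ]ˣ →* ℤ_[ℓ]ˣ where
  toFun x := PadicInt.mkUnits (norm_unitPart_aux ℓ x)
  map_one' := by
    apply Units.ext
    apply Subtype.ext
    simp
  map_mul' x y := by
    apply Units.ext
    apply Subtype.ext
    have hℓ0 : (ℓ : ℚ_[ℓ]) ≠ 0 := by exact_mod_cast hℓ.out.ne_zero
    simp only [PadicInt.val_mkUnits, Units.val_mul, PadicInt.coe_mul,
      Padic.valuation_mul x.ne_zero y.ne_zero, neg_add, zpow_add₀ hℓ0]
    show _ = (x : ℚ_[ℓ]) * (ℓ : ℚ_[ℓ]) ^ (-(x : ℚ_[ℓ]).valuation) *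
      ((y : ℚ_[ℓ]) * (ℓ : ℚ_[ℓ]) ^ (-(y : ℚ_[ℓ]).valuation))
    ring

lemma coe_unitPart (x : ℚ_[ℓ]ˣ) :
    (((unitPart ℓ x : ℤ_[ℓ]ˣ) : ℤ_[ℓ]) : ℚ_[ℓ]) = (x : ℚ_[ℓ]) * (ℓ : ℚ_[ℓ]) ^ (-(x : ℚ_[ℓ]).valuation) :=
  rfl

lemma eq_unitPart_mul (x : ℚ_[ℓ]ˣ) :
    (x : ℚ_[ℓ]) = (((unitPart ℓ x : ℤ_[ℓ]ˣ) : ℤ_[ℓ]) : ℚ_[ℓ]) * (ℓ : ℚ_[ℓ]) ^ ((x : ℚ_[ℓ]).valuation) := by
  have hℓ0 : (ℓ : ℚ_[ℓ]) ≠ 0 := by exact_mod_cast hℓ.out.ne_zero
  rw [coe_unitPart, mul_assoc, ← zpow_add₀ hℓ0]
  simp

/-- The unit part modulo `ℓ ^ m`. -/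
noncomputable def unitResidue (m : ℕ) : ℚ_[ℓ]ˣ →* (ZMod (ℓ ^ m))ˣ :=
  (Units.map (PadicInt.toZModPow m : ℤ_[ℓ] →+* ZMod (ℓ ^ m)).toMonoidHom).comp (unitPart ℓ)

lemma coe_unitResidue (m : ℕ) (x : ℚ_[ℓ]ˣ) :
    ((unitResidue ℓ m x : (ZMod (ℓ ^ m))ˣ) : ZMod (ℓ ^ m)) =
      PadicInt.toZModPow m ((unitPart ℓ x : ℤ_[ℓ]ˣ) : ℤ_[ℓ]) := rfl

/-- The unit part of (the image of) an integer prime to `ℓ` is that integer. -/
lemma unitPart_intCast (a : ℤ) (ha : ¬ (ℓ : ℤ) ∣ a) (x : ℚ_[ℓ]ˣ) (hx : (x : ℚ_[ℓ]) = a) :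
    ((unitPart ℓ x : ℤ_[ℓ]ˣ) : ℤ_[ℓ]) = (a : ℤ_[ℓ]) := by
  apply Subtype.ext
  rw [coe_unitPart, hx]
  have hv : (a : ℚ_[ℓ]).valuation = 0 := by
    rw [Padic.valuation_intCast]
    exact_mod_cast padicValInt.eq_zero_of_not_dvd ha
  simp [hv]

lemma unitResidue_intCast (m : ℕ) (a : ℤ) (ha : ¬ (ℓ : ℤ) ∣ a) (x : ℚ_[ℓ]ˣ)
    (hx : (x : ℚ_[ℓ]) = a) :
    ((unitResidue ℓ m x : (ZMod (ℓ ^ m))ˣ) : ZMod (ℓ ^ m)) = (a : ZMod (ℓ ^ m)) := by
  rw [coe_unitResidue, unitPart_intCast ℓ a ha x hx]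
  simp

/-- The unit part of `ℓ` itself is `1`. -/
lemma unitPart_self (x : ℚ_[ℓ]ˣ) (hx : (x : ℚ_[ℓ]) = ℓ) : unitPart ℓ x = 1 := by
  apply Units.ext
  apply Subtype.ext
  have hℓ0 : (ℓ : ℚ_[ℓ]) ≠ 0 := by exact_mod_cast hℓ.out.ne_zero
  rw [coe_unitPart, hx, Padic.valuation_p]
  simp [hℓ0]

end Fermat.Agent.S55.H413

end
-- ===== PACK-END S55/H413/WRLocal.lean

-- ===== PACK-BEGIN S55/H413/WRIrred.lean
section


/-!
# S55, leaf WR, part 3a: the cyclotomic polynomial of `p`-power level is irreducible over `ℚ_[p]`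

(Eisenstein's criterion over `ℤ_[p]` + Gauss's lemma.)  Consequences for a cyclotomic extension
`F/ℚ_[p]` of level `p ^ (n + 1)`: degree `φ(p^(n+1))`, Galois group `≃* (ZMod (p^(n+1)))ˣ`,
and `N(ζ - 1) = p` for odd `p`.
-/

set_option autoImplicit false

namespace Fermat.Agent.S55.H413

open Polynomial

variable (p : ℕ) [hp : Fact p.Prime]

theorem isEisensteinAt_cyclotomic_comp_padicInt (n : ℕ) :
    ((cyclotomic (p ^ (n + 1)) ℤ_[p]).comp (X + 1)).IsEisensteinAt
      (Ideal.span {(p : ℤ_[p])}) := by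
  have hZ := cyclotomic_prime_pow_comp_X_add_one_isEisensteinAt p n
  have hmonicZ : ((cyclotomic (p ^ (n + 1)) ℤ).comp (X + 1)).Monic := by
    rw [show (X + 1 : ℤ[X]) = X + C 1 by simp]
    refine (cyclotomic.monic _ ℤ).comp (monic_X_add_C 1) fun h => ?_
    rw [natDegree_X_add_C] at h
    exact zero_ne_one h.symm
  have hmap : (cyclotomic (p ^ (n + 1)) ℤ_[p]).comp (X + 1) =
      ((cyclotomic (p ^ (n + 1)) ℤ).comp (X + 1)).map (Int.castRingHom ℤ_[p]) := by
    simp [Polynomial.map_comp, map_cyclotomic]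
  have hprime : (Ideal.span {(p : ℤ_[p])}).IsPrime :=
    (Ideal.span_singleton_prime (PadicInt.prime_p (p := p)).ne_zero).2 PadicInt.prime_p
  refine Monic.isEisensteinAt_of_mem_of_notMem ?_ hprime.ne_top ?_ ?_
  · rw [hmap]; exact hmonicZ.map _
  · intro i hi
    rw [hmap] at hi ⊢
    rw [hmonicZ.natDegree_map] at hi
    have := hZ.mem hi
    rw [Ideal.submodule_span_eq, Ideal.mem_span_singleton] at this
    obtain ⟨c, hc⟩ := this
    rw [coeff_map, hc, Ideal.mem_span_singleton]
    exact ⟨(c : ℤ_[p]), by simp⟩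
  · rw [coeff_zero_eq_eval_zero, eval_comp, eval_add, eval_X, eval_one, zero_add,
      eval_one_cyclotomic_prime_pow, Ideal.span_singleton_pow, Ideal.mem_span_singleton]
    rintro ⟨c, hc⟩
    have hp0 : (p : ℤ_[p]) ≠ 0 := (PadicInt.prime_p (p := p)).ne_zero
    have h1 : (p : ℤ_[p]) * 1 = (p : ℤ_[p]) * ((p : ℤ_[p]) * c) := by
      rw [mul_one, ← mul_assoc, ← pow_two]; exact hc
    have h2 : (1 : ℤ_[p]) = (p : ℤ_[p]) * c := mul_left_cancel₀ hp0 h1
    exact (PadicInt.prime_p (p := p)).not_isUnit (IsUnit.of_mul_eq_one c h2.symm)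

theorem irreducible_cyclotomic_padicInt (n : ℕ) :
    Irreducible (cyclotomic (p ^ (n + 1)) ℤ_[p]) := by
  have hE := isEisensteinAt_cyclotomic_comp_padicInt p n
  have hprime : (Ideal.span {(p : ℤ_[p])}).IsPrime :=
    (Ideal.span_singleton_prime (PadicInt.prime_p (p := p)).ne_zero).2 PadicInt.prime_p
  have hmonic : ((cyclotomic (p ^ (n + 1)) ℤ_[p]).comp (X + 1)).Monic := by
    rw [show (X + 1 : ℤ_[p][X]) = X + C 1 by simp]
    refine (cyclotomic.monic _ _).comp (monic_X_add_C 1) fun h => ?_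
    rw [natDegree_X_add_C] at h
    exact zero_ne_one h.symm
  have hdeg : 0 < ((cyclotomic (p ^ (n + 1)) ℤ_[p]).comp (X + 1)).natDegree := by
    rw [natDegree_comp, show (X + 1 : ℤ_[p][X]) = X + C 1 by simp, natDegree_X_add_C, mul_one,
      natDegree_cyclotomic]
    exact Nat.totient_pos.mpr (pow_pos hp.out.pos _)
  have hirr := hE.irreducible hprime hmonic.isPrimitive hdeg
  have hcomp : (cyclotomic (p ^ (n + 1)) ℤ_[p]).comp (X + 1) =
      algEquivAevalXAddC (1 : ℤ_[p]) (cyclotomic (p ^ (n + 1)) ℤ_[p]) := by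
    simp [algEquivAevalXAddC, aeval_def, eval₂_eq_eval_map, comp]
  rw [hcomp] at hirr
  exact (MulEquiv.irreducible_iff (algEquivAevalXAddC (1 : ℤ_[p])).toMulEquiv).mp hirr

/-- The cyclotomic polynomial of level `p ^ (n + 1)` is irreducible over `ℚ_[p]`. -/
theorem irreducible_cyclotomic_padic (n : ℕ) :
    Irreducible (cyclotomic (p ^ (n + 1)) ℚ_[p]) := by
  have h := (Monic.irreducible_iff_irreducible_map_fraction_map (K := ℚ_[p])
    (cyclotomic.monic (p ^ (n + 1)) ℤ_[p])).mp (irreducible_cyclotomic_padicInt p n)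
  rwa [map_cyclotomic] at h

end Fermat.Agent.S55.H413

end
-- ===== PACK-END S55/H413/WRIrred.lean

-- ===== PACK-BEGIN S55/L/Inv481/InflInjCore.lean
section


/-!
# Inflation is injective on `H²` when `H¹` of the kernel vanishes (cochain level, `Rep` form)
-/

set_option autoImplicit false

namespace Fermat.Agent.S55.L.Inv481

open groupCohomology

variable {G G' : Type} [Group G] [Group G']

/-- Abstract inflation injectivity in degree 2: let `f : G' ↠ G`, `ι : A ↪ B` equivariant with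
`ι A = B^{ker f}` and `H¹(ker f, B) = 0`.  If the inflation of a 2-cocycle `c` is a
coboundary, then `c` is a coboundary. -/
theorem mem_coboundaries₂_of_inflation (A : Rep ℤ G) (B : Rep ℤ G')
    (f : G' →* G) (hf : Function.Surjective f) (ι : A →+ B) (hι : Function.Injective ι)
    (hcomm : ∀ (g : G') (x : A), ι (A.ρ (f g) x) = B.ρ g (ι x))
    (hfix : ∀ y : B, (∀ s : G', f s = 1 → B.ρ s y = y) → ∃ x : A, ι x = y)
    (hH1 : ∀ z : G' → B, (∀ s t : G', f s = 1 → f t = 1 → z (s * t) = B.ρ s (z t) + z s) →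
      ∃ m : B, ∀ s : G', f s = 1 → B.ρ s m - m = z s)
    (c : cocycles₂ A)
    (hb : (fun p : G' × G' => ι (c (f p.1, f p.2))) ∈ coboundaries₂ B) :
    ⇑c ∈ coboundaries₂ A := by
  obtain ⟨h, hh⟩ := hb
  have hh : ∀ g k : G', B.ρ g (h k) - h (g * k) + h g = ι (c (f g, f k)) := by
    intro g k
    have := congr_fun hh (g, k)
    rw [d₁₂_hom_apply] at this
    exact this
  set a : B := ι (c (1, 1)) with ha
  have hc1 : ∀ σ : G, c (1, σ) = c (1, 1) := fun σ => cocycles₂_map_one_fst c σ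
  have hc2 : ∀ σ : G, c (σ, 1) = A.ρ σ (c (1, 1)) := fun σ => cocycles₂_map_one_snd c σ
  have hsa : ∀ s : G', f s = 1 → B.ρ s a = a := by
    intro s hs
    rw [ha, ← hcomm, hs, map_one]
    rfl
  -- `h - a` restricted to the kernel is a 1-cocycle
  obtain ⟨m, hm⟩ := hH1 (fun s => h s - a) (by
    intro s t hs ht
    have := hh s t
    rw [hs, ht, ← ha] at this
    have h1 : h (s * t) = B.ρ s (h t) + h s - a := by
      rw [← this]; abel
    simp only [h1, map_sub, hsa s hs]
    abel)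
  -- modified cochain
  set h₁ : G' → B := fun g => h g - (B.ρ g m - m) with hh₁
  have hd : ∀ g k : G', B.ρ g (h₁ k) - h₁ (g * k) + h₁ g = ι (c (f g, f k)) := by
    intro g k
    rw [← hh g k]
    simp only [hh₁, map_sub, map_mul, Module.End.mul_apply]
    abel
  have hS : ∀ s : G', f s = 1 → h₁ s = a := by
    intro s hs
    simp only [hh₁]
    rw [hm s hs]
    abel
  -- right invariance
  have hr : ∀ (g s : G'), f s = 1 → h₁ (g * s) = h₁ g := by
    intro g s hs
    have := hd g s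
    rw [hs, hc2, hcomm, ← ha, hS s hs] at this
    have h3 : h₁ (g * s) = h₁ g + (B.ρ g a - (B.ρ g a - h₁ (g * s) + h₁ g)) := by abel
    rw [h3, this]; abel
  -- left invariance / fixedness
  have hl : ∀ (g s : G'), f s = 1 → B.ρ s (h₁ g) = h₁ g := by
    intro g s hs
    have := hd s g
    rw [hs, hc1, ← ha, hS s hs] at this
    have h5 : B.ρ s (h₁ g) = h₁ (s * g) := by
      have h6 : B.ρ s (h₁ g) = h₁ (s * g) + ((B.ρ s (h₁ g) - h₁ (s * g) + a) - a) := by abel
      rw [h6, this]; abel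
    rw [h5]
    have : s * g = g * (g⁻¹ * s * g) := by group
    rw [this]
    apply hr
    simp [hs]
  -- descend
  have hex : ∀ σ : G, ∃ x : A, ∀ g : G', f g = σ → ι x = h₁ g := by
    intro σ
    obtain ⟨g₀, hg₀⟩ := hf σ
    obtain ⟨x, hx⟩ := hfix (h₁ g₀) (fun s hs => hl g₀ s hs)
    refine ⟨x, fun g hg => ?_⟩
    rw [hx]
    have : g = g₀ * (g₀⁻¹ * g) := by group
    rw [this]
    symm
    apply hr
    simp [hg, hg₀]
  choose hbar hhbar using hex
  refine ⟨hbar, ?_⟩
  funext ⟨σ, τ⟩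
  rw [d₁₂_hom_apply]
  obtain ⟨g, rfl⟩ := hf σ
  obtain ⟨k, rfl⟩ := hf τ
  apply hι
  simp only
  rw [map_add, map_sub, hcomm, hhbar (f k) k rfl, hhbar (f g) g rfl,
    hhbar (f g * f k) (g * k) (map_mul f g k)]
  exact hd g k

end Fermat.Agent.S55.L.Inv481

end
-- ===== PACK-END S55/L/Inv481/InflInjCore.lean

-- ===== PACK-BEGIN S55/L/Unram784/Nakayama.lean
section


/-!
# S55, layer L, leaf L-A2 (helper784): complete Nakayama for unramified extensions

* `u784_isPrecomplete_pi`: a finite power of a precomplete ring is precomplete;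
* `u784_exists_eq_sum_smul`: if `R → S` is a local homomorphism with `𝔪_R S = 𝔪_S`, `R` is
  precomplete, `S` is Hausdorff and the `b i` span `S` modulo `𝔪_S`, then the `b i` span `S`.
-/

set_option autoImplicit false

namespace Fermat.Agent.S55.L

open IsLocalRing

section Pi

variable {R : Type*} [CommRing R] (I : Ideal R) {ι : Type*}

theorem u784_mem_smul_top_pi_imp (n : ℕ) (x : ι → R)
    (hx : x ∈ (I ^ n • ⊤ : Submodule R (ι → R))) (i : ι) : x i ∈ I ^ n := by
  refine Submodule.smul_induction_on (p := fun y : ι → R => y i ∈ I ^ n) hx ?_ ?_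
  · intro r hr m _
    exact Ideal.mul_mem_right _ _ hr
  · intro x y hx hy
    exact Ideal.add_mem _ hx hy

theorem u784_mem_smul_top_pi_of [Fintype ι] [DecidableEq ι] (n : ℕ) (x : ι → R)
    (hx : ∀ i, x i ∈ I ^ n) : x ∈ (I ^ n • ⊤ : Submodule R (ι → R)) := by
  have hsum : x = ∑ i, x i • (Pi.single i (1 : R) : ι → R) := by
    funext j
    simp [Finset.sum_apply, Pi.single_apply]
  rw [hsum]
  exact Submodule.sum_mem _ fun i _ => Submodule.smul_mem_smul (hx i) Submodule.mem_top

theorem u784_isPrecomplete_pi [IsPrecomplete I R] [Finite ι] : IsPrecomplete I (ι → R) := by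
  classical
  have := Fintype.ofFinite ι
  refine ⟨fun f hf => ?_⟩
  have hcoord : ∀ i, ∃ L : R, ∀ n, f n i ≡ L [SMOD (I ^ n • ⊤ : Submodule R R)] := by
    intro i
    apply IsPrecomplete.prec ‹IsPrecomplete I R›
    intro m n hmn
    have h1 := hf hmn
    rw [SModEq.sub_mem] at h1 ⊢
    have h2 := u784_mem_smul_top_pi_imp I m _ h1 i
    simpa using h2
  choose L hL using hcoord
  refine ⟨L, fun n => ?_⟩
  rw [SModEq.sub_mem]
  apply u784_mem_smul_top_pi_of
  intro i
  have h1 := hL i n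
  rw [SModEq.sub_mem] at h1
  simpa using h1

end Pi

section Nakayama

variable {R S : Type*} [CommRing R] [CommRing S] [Algebra R S] [IsLocalRing R] [IsLocalRing S]

/-- Complete Nakayama: generators modulo the maximal ideal are generators. -/
theorem u784_exists_eq_sum_smul [IsPrecomplete (maximalIdeal R) R]
    [IsHausdorff (maximalIdeal S) S]
    (hunr : (maximalIdeal R).map (algebraMap R S) = maximalIdeal S)
    {ι : Type*} [Fintype ι] (b : ι → S)
    (hb : ∀ x : S, ∃ a : ι → R, x - ∑ i, a i • b i ∈ maximalIdeal S) (x : S) :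
    ∃ a : ι → R, x = ∑ i, a i • b i := by
  classical
  have : IsPrecomplete (maximalIdeal R) (ι → R) := u784_isPrecomplete_pi _
  have : IsHausdorff (maximalIdeal R) S := by
    have h : IsHausdorff ((maximalIdeal R).map (algebraMap R S)) S := by
      rw [hunr]; infer_instance
    exact IsHausdorff.map_algebraMap_iff.mp h
  let f : (ι → R) →ₗ[R] S := Fintype.linearCombination R b
  have hf : ∀ a : ι → R, f a = ∑ i, a i • b i := fun a => by
    simp [f, Fintype.linearCombination_apply]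
  have hsurj : Function.Surjective f := by
    apply surjective_of_mkQ_comp_surjective (I := maximalIdeal R)
    intro y
    obtain ⟨x, rfl⟩ := Submodule.mkQ_surjective _ y
    obtain ⟨a, ha⟩ := hb x
    refine ⟨a, ?_⟩
    rw [LinearMap.comp_apply, Submodule.mkQ_apply, Submodule.mkQ_apply,
      Submodule.Quotient.eq, hf]
    have hmem : (∑ i, a i • b i) - x ∈ maximalIdeal S := by
      have := neg_mem ha
      simpa using this
    have htop : ((maximalIdeal R) • ⊤ : Submodule R S) =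
        ((maximalIdeal R).map (algebraMap R S)).restrictScalars R := by
      rw [Ideal.smul_top_eq_map]
    rw [htop, hunr]
    exact hmem
  obtain ⟨a, ha⟩ := hsurj x
  exact ⟨a, by rw [← ha, hf]⟩

end Nakayama

end Fermat.Agent.S55.L

end
-- ===== PACK-END S55/L/Unram784/Nakayama.lean

-- ===== PACK-BEGIN S55/L/Unr534/Teich.lean
section


/-!
# S55, layer L, unramified extensions (helper534): Teichmüller lifts

`R` a local domain, complete for its maximal ideal, with finite residue field of cardinality `q`.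

* `exists_teich534`       : there is `ω : R` with `ω ^ (q - 1) = 1` whose residue generates the
                            multiplicative group of the residue field;
* `eq_one_of_pow_eq_one534` : roots of unity of order prime to the residue characteristic
                            inject into the residue field.
-/

set_option autoImplicit false
set_option linter.style.haveILetI false
set_option linter.unusedSectionVars false

namespace Fermat.Agent.S55.L.Unr534

open IsLocalRing Polynomial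

section Teich

variable (R : Type) [CommRing R] [IsLocalRing R] [IsAdicComplete (maximalIdeal R) R]
  [Finite (ResidueField R)]

theorem two_le_card_residue534 : 2 ≤ Nat.card (ResidueField R) := by
  have := Finite.one_lt_card (α := ResidueField R)
  omega

theorem card_residue_cast534 : ((Nat.card (ResidueField R) : ℕ) : ResidueField R) = 0 := by
  letI := Fintype.ofFinite (ResidueField R)
  rw [Nat.card_eq_fintype_card]
  exact FiniteField.cast_card_eq_zero _

theorem residue_pow_card_sub_one534 (x : ResidueField R) (hx : x ≠ 0) :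
    x ^ (Nat.card (ResidueField R) - 1) = 1 := by
  letI := Fintype.ofFinite (ResidueField R)
  rw [Nat.card_eq_fintype_card]
  exact FiniteField.pow_card_sub_one_eq_one x hx

/-- A Teichmüller generator: `ω ^ (q - 1) = 1` and every unit of `R` is congruent to a power of
`ω` modulo the maximal ideal; moreover `ω` has exact order `q - 1`. -/
theorem exists_teich534 :
    ∃ ω : R, ω ^ (Nat.card (ResidueField R) - 1) = 1 ∧
      (∀ l : ℕ, ω ^ l = 1 → (Nat.card (ResidueField R) - 1) ∣ l) ∧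
      ∀ x : R, x ∉ maximalIdeal R → ∃ i : ℕ, x - ω ^ i ∈ maximalIdeal R := by
  classical
  set q := Nat.card (ResidueField R) with hq
  have hq2 : 2 ≤ q := two_le_card_residue534 R
  obtain ⟨g, hg⟩ := IsCyclic.exists_generator (α := (ResidueField R)ˣ)
  have hord : orderOf g = q - 1 := by
    rw [orderOf_eq_card_of_forall_mem_zpowers hg, Nat.card_units]
  obtain ⟨a₀, ha₀⟩ := residue_surjective (R := R) (g : ResidueField R)
  have hmonic : (X ^ (q - 1) - 1 : R[X]).Monic :=
    monic_X_pow_sub_C (1 : R) (by omega)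
  have hg0 : (g : ResidueField R) ≠ 0 := g.ne_zero
  have h1 : eval a₀ (X ^ (q - 1) - 1 : R[X]) ∈ maximalIdeal R := by
    rw [← residue_eq_zero_iff]
    simp only [eval_sub, eval_pow, eval_X, eval_one, map_sub, map_pow, map_one, ha₀]
    rw [residue_pow_card_sub_one534 R _ hg0, sub_self]
  have h2 : IsUnit (Ideal.Quotient.mk (maximalIdeal R)
      (eval a₀ (derivative (X ^ (q - 1) - 1 : R[X])))) := by
    have h3 : Ideal.Quotient.mk (maximalIdeal R)
        (eval a₀ (derivative (X ^ (q - 1) - 1 : R[X]))) =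
        ((q - 1 : ℕ) : ResidueField R) * (g : ResidueField R) ^ (q - 1 - 1) := by
      simp only [derivative_sub, derivative_X_pow, derivative_one, sub_zero, eval_mul,
        eval_pow, eval_X, eval_natCast, map_mul, map_pow, map_natCast]
      rw [← ha₀]
      rfl
    rw [h3]
    have h4 : ((q - 1 : ℕ) : ResidueField R) = -1 := by
      have := card_residue_cast534 R
      rw [← hq] at this
      rw [Nat.cast_sub (by omega), this]
      simp
    rw [h4]
    exact (isUnit_one.neg).mul (IsUnit.pow _ g.isUnit)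
  obtain ⟨ω, hω, hωa⟩ := HenselianRing.is_henselian (I := maximalIdeal R) _ hmonic a₀ h1 h2
  have hres : residue R ω = (g : ResidueField R) := by
    rw [← ha₀, ← sub_eq_zero, ← map_sub, residue_eq_zero_iff]
    exact hωa
  have hω1 : ω ^ (q - 1) = 1 := by
    have : eval ω (X ^ (q - 1) - 1 : R[X]) = 0 := hω
    simpa [sub_eq_zero] using this
  refine ⟨ω, hω1, fun l hl => ?_, fun x hx => ?_⟩
  · have h5 : (g : ResidueField R) ^ l = 1 := by
      rw [← hres, ← map_pow, hl, map_one]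
    have h6 : g ^ l = 1 := Units.ext (by simpa using h5)
    rw [← hord]
    exact orderOf_dvd_of_pow_eq_one h6
  · have hx0 : residue R x ≠ 0 := fun h => hx ((residue_eq_zero_iff x).mp h)
    obtain ⟨i, hi⟩ := (Subgroup.mem_zpowers_iff).mp (hg (Units.mk0 _ hx0))
    -- reduce to a natural exponent
    have hfin : IsOfFinOrder g := isOfFinOrder_of_finite g
    obtain ⟨j, hj⟩ : ∃ j : ℕ, g ^ j = Units.mk0 _ hx0 := by
      have : Units.mk0 _ hx0 ∈ Submonoid.powers g :=
        (hfin.mem_powers_iff_mem_zpowers).mpr (hg _)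
      obtain ⟨j, hj⟩ := this
      exact ⟨j, hj⟩
    refine ⟨j, ?_⟩
    rw [← residue_eq_zero_iff, map_sub, map_pow, hres, sub_eq_zero]
    have := congrArg (fun u : (ResidueField R)ˣ => (u : ResidueField R)) hj
    simpa using this.symm

end Teich

section Inj

variable {R : Type} [CommRing R] [IsDomain R] [IsLocalRing R]

/-- Roots of unity of order `m`, `m` a unit of `R`, inject into the residue field. -/
theorem eq_one_of_pow_eq_one534 {m : ℕ} (hm : IsUnit ((m : ℕ) : R)) {ζ : R} (hζ : ζ ^ m = 1)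
    (h1 : ζ - 1 ∈ maximalIdeal R) : ζ = 1 := by
  have h2 : (ζ - 1) * ∑ i ∈ Finset.range m, ζ ^ i = 0 := by
    rw [mul_geom_sum, hζ, sub_self]
  have h3 : IsUnit (∑ i ∈ Finset.range m, ζ ^ i) := by
    rw [← notMem_maximalIdeal, ← residue_eq_zero_iff]
    have hz : residue R ζ = 1 := by
      rw [← sub_eq_zero, ← map_one (residue R), ← map_sub, residue_eq_zero_iff]
      exact h1
    simp only [map_sum, map_pow, hz, one_pow, Finset.sum_const, Finset.card_range,
      nsmul_eq_mul, mul_one]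
    rw [← map_natCast (residue R), residue_eq_zero_iff]
    exact notMem_maximalIdeal.mpr hm
  rcases mul_eq_zero.mp h2 with h | h
  · exact sub_eq_zero.mp h
  · exact absurd h h3.ne_zero

end Inj

end Fermat.Agent.S55.L.Unr534

end
-- ===== PACK-END S55/L/Unr534/Teich.lean

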