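import Mathlib
import Mathlib.GroupTheory.IndexNSmul
import Mathlib.GroupTheory.Index
import Mathlib.LinearAlgebra.FreeModule.PID
import Fermat.Agent.Pack.S43GC.G0E1L0

-- ===== PACK-BEGIN S55/ColH543/Cochain.lean
section


/-!
# S55 / colimit dictionary (helper543), part 1: inflation of cochains

`G` any group, `U ⊴ G` a normal subgroup, `A : Rep k G`.  We compare inhomogeneous cochains of
`G` with values in `A` with inhomogeneous cochains of `G ⧸ U` with values in
`A^U = A.quotientToInvariants U`, in degrees `0, 1, 2, 3` (and `4` for the cocycle condition in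
degree `3`), in the explicit "function on `G × ⋯ × G`" form used by Mathlib's low-degree API
(`d₀₁`, `d₁₂`, `d₂₃`) and by the cochain-level layers `PT`, `K` of S55.

* `IsRInv₁ … IsRInv₄ U f` : `f` is invariant under right translation by `U` in every variable;
* `d34 A` : the differential `C³ → C⁴` (same formula as `K.d34`), `d34Lin` its linear version;
* `inf₁ … inf₄ A U` : inflation of cochains `Cⁱ(G ⧸ U, A^U) → Cⁱ(G, A)`, injective, commuting
  with the differentials, with right `U`-invariant image;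
* `exists_inf₁ … exists_inf₃` : a right `U`-invariant cochain with values in `A^U` is inflated;
* **key remark** `mem_invariants_of_isRInv₀ … ₃` : if `b` and `d b` are right `U`-invariant then
  all values of `b` are `U`-invariant (no smoothness hypothesis is needed for cocycles).

Mathlib only.
-/

set_option autoImplicit false

noncomputable section

open groupCohomology

namespace Fermat.Agent.S55.ColH543

variable {k : Type} [CommRing k] {G : Type} [Group G]

/-! ## Right invariance -/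

section RInv

variable {X : Type*}

/-- `f` is invariant under right translation by `U`. -/
def IsRInv₁ (U : Subgroup G) (f : G → X) : Prop := ∀ g s : G, s ∈ U → f (g * s) = f g

/-- `f` is invariant under right translation by `U` in both variables. -/
def IsRInv₂ (U : Subgroup G) (f : G × G → X) : Prop :=
  ∀ g g' s s' : G, s ∈ U → s' ∈ U → f (g * s, g' * s') = f (g, g')

/-- `f` is invariant under right translation by `U` in all three variables. -/
def IsRInv₃ (U : Subgroup G) (f : G × G × G → X) : Prop :=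
  ∀ g₁ g₂ g₃ s₁ s₂ s₃ : G, s₁ ∈ U → s₂ ∈ U → s₃ ∈ U →
    f (g₁ * s₁, g₂ * s₂, g₃ * s₃) = f (g₁, g₂, g₃)

/-- `f` is invariant under right translation by `U` in all four variables. -/
def IsRInv₄ (U : Subgroup G) (f : G × G × G × G → X) : Prop :=
  ∀ g₁ g₂ g₃ g₄ s₁ s₂ s₃ s₄ : G, s₁ ∈ U → s₂ ∈ U → s₃ ∈ U → s₄ ∈ U →
    f (g₁ * s₁, g₂ * s₂, g₃ * s₃, g₄ * s₄) = f (g₁, g₂, g₃, g₄)

lemma IsRInv₁.mono {U U' : Subgroup G} (h : U' ≤ U) {f : G → X} (hf : IsRInv₁ U f) :
    IsRInv₁ U' f := fun g s hs => hf g s (h hs)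

lemma IsRInv₂.mono {U U' : Subgroup G} (h : U' ≤ U) {f : G × G → X} (hf : IsRInv₂ U f) :
    IsRInv₂ U' f := fun g g' s s' hs hs' => hf g g' s s' (h hs) (h hs')

lemma IsRInv₃.mono {U U' : Subgroup G} (h : U' ≤ U) {f : G × G × G → X} (hf : IsRInv₃ U f) :
    IsRInv₃ U' f := fun g₁ g₂ g₃ s₁ s₂ s₃ h₁ h₂ h₃ => hf g₁ g₂ g₃ s₁ s₂ s₃ (h h₁) (h h₂) (h h₃)

lemma IsRInv₄.mono {U U' : Subgroup G} (h : U' ≤ U) {f : G × G × G × G → X}
    (hf : IsRInv₄ U f) : IsRInv₄ U' f :=
  fun g₁ g₂ g₃ g₄ s₁ s₂ s₃ s₄ h₁ h₂ h₃ h₄ => hf g₁ g₂ g₃ g₄ s₁ s₂ s₃ s₄ (h h₁) (h h₂) (h h₃) (h h₄)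

lemma isRInv₄_zero (U : Subgroup G) {X : Type*} [Zero X] : IsRInv₄ U (0 : G × G × G × G → X) :=
  fun _ _ _ _ _ _ _ _ _ _ _ _ => rfl

lemma isRInv₃_zero (U : Subgroup G) {X : Type*} [Zero X] : IsRInv₃ U (0 : G × G × G → X) :=
  fun _ _ _ _ _ _ _ _ _ => rfl

lemma isRInv₂_zero (U : Subgroup G) {X : Type*} [Zero X] : IsRInv₂ U (0 : G × G → X) :=
  fun _ _ _ _ _ _ => rfl

lemma isRInv₁_zero (U : Subgroup G) {X : Type*} [Zero X] : IsRInv₁ U (0 : G → X) :=
  fun _ _ _ => rfl

/-- A right `U`-invariant function only depends on the classes mod `U`. -/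
lemma IsRInv₁.eq_of_mk_eq {U : Subgroup G} {f : G → X} (hf : IsRInv₁ U f) {g g' : G}
    (h : (g : G ⧸ U) = (g' : G ⧸ U)) : f g = f g' := by
  have h1 : g⁻¹ * g' ∈ U := QuotientGroup.eq.1 h
  have h2 := hf g (g⁻¹ * g') h1
  rw [mul_inv_cancel_left] at h2
  exact h2.symm

lemma IsRInv₂.eq_of_mk_eq {U : Subgroup G} {f : G × G → X} (hf : IsRInv₂ U f) {g₁ g₁' g₂ g₂' : G}
    (h₁ : (g₁ : G ⧸ U) = (g₁' : G ⧸ U)) (h₂ : (g₂ : G ⧸ U) = (g₂' : G ⧸ U)) :
    f (g₁, g₂) = f (g₁', g₂') := by
  have h := hf g₁ g₂ (g₁⁻¹ * g₁') (g₂⁻¹ * g₂') (QuotientGroup.eq.1 h₁) (QuotientGroup.eq.1 h₂)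
  rw [mul_inv_cancel_left, mul_inv_cancel_left] at h
  exact h.symm

lemma IsRInv₃.eq_of_mk_eq {U : Subgroup G} {f : G × G × G → X} (hf : IsRInv₃ U f)
    {g₁ g₁' g₂ g₂' g₃ g₃' : G}
    (h₁ : (g₁ : G ⧸ U) = (g₁' : G ⧸ U)) (h₂ : (g₂ : G ⧸ U) = (g₂' : G ⧸ U))
    (h₃ : (g₃ : G ⧸ U) = (g₃' : G ⧸ U)) :
    f (g₁, g₂, g₃) = f (g₁', g₂', g₃') := by
  have h := hf g₁ g₂ g₃ (g₁⁻¹ * g₁') (g₂⁻¹ * g₂') (g₃⁻¹ * g₃') (QuotientGroup.eq.1 h₁)
    (QuotientGroup.eq.1 h₂) (QuotientGroup.eq.1 h₃)
  rw [mul_inv_cancel_left, mul_inv_cancel_left, mul_inv_cancel_left] at h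
  exact h.symm

lemma IsRInv₄.eq_of_mk_eq {U : Subgroup G} {f : G × G × G × G → X} (hf : IsRInv₄ U f)
    {g₁ g₁' g₂ g₂' g₃ g₃' g₄ g₄' : G}
    (h₁ : (g₁ : G ⧸ U) = (g₁' : G ⧸ U)) (h₂ : (g₂ : G ⧸ U) = (g₂' : G ⧸ U))
    (h₃ : (g₃ : G ⧸ U) = (g₃' : G ⧸ U)) (h₄ : (g₄ : G ⧸ U) = (g₄' : G ⧸ U)) :
    f (g₁, g₂, g₃, g₄) = f (g₁', g₂', g₃', g₄') := by
  have h := hf g₁ g₂ g₃ g₄ (g₁⁻¹ * g₁') (g₂⁻¹ * g₂') (g₃⁻¹ * g₃') (g₄⁻¹ * g₄')
    (QuotientGroup.eq.1 h₁) (QuotientGroup.eq.1 h₂) (QuotientGroup.eq.1 h₃)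
    (QuotientGroup.eq.1 h₄)
  rw [mul_inv_cancel_left, mul_inv_cancel_left, mul_inv_cancel_left, mul_inv_cancel_left] at h
  exact h.symm

end RInv

/-! ## The differential `C³ → C⁴` -/

/-- The differential `C³ → C⁴` of inhomogeneous cochains (explicit form). -/
def d34 (A : Rep.{0, 0, 0} k G) (f : G × G × G → A) : G × G × G × G → A := fun x =>
  A.ρ x.1 (f (x.2.1, x.2.2.1, x.2.2.2)) - f (x.1 * x.2.1, x.2.2.1, x.2.2.2)
    + f (x.1, x.2.1 * x.2.2.1, x.2.2.2) - f (x.1, x.2.1, x.2.2.1 * x.2.2.2)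
    + f (x.1, x.2.1, x.2.2.1)

lemma d34_apply (A : Rep.{0, 0, 0} k G) (f : G × G × G → A) (g₁ g₂ g₃ g₄ : G) :
    d34 A f (g₁, g₂, g₃, g₄) =
      A.ρ g₁ (f (g₂, g₃, g₄)) - f (g₁ * g₂, g₃, g₄) + f (g₁, g₂ * g₃, g₄) - f (g₁, g₂, g₃ * g₄)
        + f (g₁, g₂, g₃) := rfl

/-- `d34` as a linear map. -/
def d34Lin (A : Rep.{0, 0, 0} k G) : (G × G × G → A) →ₗ[k] (G × G × G × G → A) where
  toFun := d34 A
  map_add' f f' := by
    funext x
    simp only [d34, Pi.add_apply, map_add]
    abel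
  map_smul' c f := by
    funext x
    simp only [d34, Pi.smul_apply, map_smul, RingHom.id_apply, smul_add, smul_sub]

@[simp] lemma d34Lin_apply (A : Rep.{0, 0, 0} k G) (f : G × G × G → A) :
    d34Lin A f = d34 A f := rfl

/-- `d ∘ d = 0` in degrees `2, 3, 4`. -/
lemma d34_d₂₃ (A : Rep.{0, 0, 0} k G) (b : G × G → A) : d34 A ((d₂₃ A).hom b) = 0 := by
  funext x
  obtain ⟨g₁, g₂, g₃, g₄⟩ := x
  simp only [d34_apply, d₂₃_hom_apply, map_add, map_sub, Pi.zero_apply, mul_assoc]
  rw [← Module.End.mul_apply, ← map_mul]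
  abel

/-- The 3-cocycles, in explicit form. -/
def cocycles₃ (A : Rep.{0, 0, 0} k G) : Submodule k (G × G × G → A) := LinearMap.ker (d34Lin A)

lemma mem_cocycles₃_iff (A : Rep.{0, 0, 0} k G) (f : G × G × G → A) :
    f ∈ cocycles₃ A ↔ d34 A f = 0 := Iff.rfl

/-- The 3-coboundaries, in explicit form. -/
def coboundaries₃ (A : Rep.{0, 0, 0} k G) : Submodule k (G × G × G → A) :=
  LinearMap.range (d₂₃ A).hom

lemma coboundaries₃_le_cocycles₃ (A : Rep.{0, 0, 0} k G) : coboundaries₃ A ≤ cocycles₃ A := by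
  rintro _ ⟨b, rfl⟩
  exact d34_d₂₃ A b

/-! ## Invariant elements -/

/-- `a ∈ A` is `U`-invariant. -/
def IsInv (A : Rep.{0, 0, 0} k G) (U : Subgroup G) (a : A.V) : Prop := ∀ s ∈ U, A.ρ s a = a

lemma isInv_iff_mem {A : Rep.{0, 0, 0} k G} {U : Subgroup G} {a : A.V} :
    IsInv A U a ↔ a ∈ Representation.invariants (A.ρ.comp U.subtype) :=
  ⟨fun h s => h s.1 s.2, fun h s hs => h ⟨s, hs⟩⟩

lemma IsInv.mono {A : Rep.{0, 0, 0} k G} {U U' : Subgroup G} (h : U' ≤ U) {a : A.V}
    (ha : IsInv A U a) : IsInv A U' a := fun s hs => ha s (h hs)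

/-! ## Inflation of cochains -/

section Inf

variable (A : Rep.{0, 0, 0} k G) (U : Subgroup G) [U.Normal]

/-- The action of `G ⧸ U` on `A^U`, on representatives. -/
lemma quot_ρ_mk_coe (g : G) (x : A.quotientToInvariants U) :
    (((A.quotientToInvariants U).ρ (g : G ⧸ U) x : A.quotientToInvariants U) : A.V) =
      A.ρ g (x : A.V) := rfl

/-- The values of a cochain with values in `A^U` are `U`-invariant. -/
lemma coe_ρ_of_mem (x : A.quotientToInvariants U) {s : G} (hs : s ∈ U) :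
    A.ρ s (x : A.V) = (x : A.V) := x.2 ⟨s, hs⟩

lemma isInv_coe (x : A.quotientToInvariants U) : IsInv A U (x : A.V) :=
  fun _ hs => coe_ρ_of_mem A U x hs

/-- Inflation in degree `0`: the inclusion `A^U → A`. -/
def inf₀ : (A.quotientToInvariants U) →ₗ[k] A.V :=
  (Representation.invariants (A.ρ.comp U.subtype)).subtype

/-- Inflation of 1-cochains. -/
def inf₁ : (G ⧸ U → A.quotientToInvariants U) →ₗ[k] (G → A) where
  toFun c g := (c (g : G ⧸ U) : A.V)
  map_add' _ _ := rfl
  map_smul' _ _ := rfl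

/-- Inflation of 2-cochains. -/
def inf₂ : ((G ⧸ U) × (G ⧸ U) → A.quotientToInvariants U) →ₗ[k] (G × G → A) where
  toFun c g := (c ((g.1 : G ⧸ U), (g.2 : G ⧸ U)) : A.V)
  map_add' _ _ := rfl
  map_smul' _ _ := rfl

/-- Inflation of 3-cochains. -/
def inf₃ : ((G ⧸ U) × (G ⧸ U) × (G ⧸ U) → A.quotientToInvariants U) →ₗ[k] (G × G × G → A) where
  toFun c g := (c ((g.1 : G ⧸ U), (g.2.1 : G ⧸ U), (g.2.2 : G ⧸ U)) : A.V)
  map_add' _ _ := rfl
  map_smul' _ _ := rfl

/-- Inflation of 4-cochains. -/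
def inf₄ : ((G ⧸ U) × (G ⧸ U) × (G ⧸ U) × (G ⧸ U) → A.quotientToInvariants U) →ₗ[k]
    (G × G × G × G → A) where
  toFun c g := (c ((g.1 : G ⧸ U), (g.2.1 : G ⧸ U), (g.2.2.1 : G ⧸ U), (g.2.2.2 : G ⧸ U)) : A.V)
  map_add' _ _ := rfl
  map_smul' _ _ := rfl

@[simp] lemma inf₀_apply (a : A.quotientToInvariants U) : inf₀ A U a = (a : A.V) := rfl

@[simp] lemma inf₁_apply (c : G ⧸ U → A.quotientToInvariants U) (g : G) :
    inf₁ A U c g = (c (g : G ⧸ U) : A.V) := rfl

@[simp] lemma inf₂_apply (c : (G ⧸ U) × (G ⧸ U) → A.quotientToInvariants U) (g h : G) :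
    inf₂ A U c (g, h) = (c ((g : G ⧸ U), (h : G ⧸ U)) : A.V) := rfl

@[simp] lemma inf₃_apply (c : (G ⧸ U) × (G ⧸ U) × (G ⧸ U) → A.quotientToInvariants U)
    (g₁ g₂ g₃ : G) :
    inf₃ A U c (g₁, g₂, g₃) = (c ((g₁ : G ⧸ U), (g₂ : G ⧸ U), (g₃ : G ⧸ U)) : A.V) := rfl

@[simp] lemma inf₄_apply (c : (G ⧸ U) × (G ⧸ U) × (G ⧸ U) × (G ⧸ U) → A.quotientToInvariants U)
    (g₁ g₂ g₃ g₄ : G) :
    inf₄ A U c (g₁, g₂, g₃, g₄) =
      (c ((g₁ : G ⧸ U), (g₂ : G ⧸ U), (g₃ : G ⧸ U), (g₄ : G ⧸ U)) : A.V) := rfl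

lemma inf₀_injective : Function.Injective (inf₀ A U) := Subtype.val_injective

lemma inf₁_injective : Function.Injective (inf₁ A U) := by
  intro c c' h
  funext x
  induction x using QuotientGroup.induction_on with
  | H g => exact Subtype.ext (congrFun h g)

lemma inf₂_injective : Function.Injective (inf₂ A U) := by
  intro c c' h
  funext ⟨x, y⟩
  induction x using QuotientGroup.induction_on with
  | H g =>
  induction y using QuotientGroup.induction_on with
  | H g' => exact Subtype.ext (congrFun h (g, g'))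

lemma inf₃_injective : Function.Injective (inf₃ A U) := by
  intro c c' h
  funext ⟨x, y, z⟩
  induction x using QuotientGroup.induction_on with
  | H g₁ =>
  induction y using QuotientGroup.induction_on with
  | H g₂ =>
  induction z using QuotientGroup.induction_on with
  | H g₃ => exact Subtype.ext (congrFun h (g₁, g₂, g₃))

lemma inf₄_injective : Function.Injective (inf₄ A U) := by
  intro c c' h
  funext ⟨x, y, z, w⟩
  induction x using QuotientGroup.induction_on with
  | H g₁ =>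
  induction y using QuotientGroup.induction_on with
  | H g₂ =>
  induction z using QuotientGroup.induction_on with
  | H g₃ =>
  induction w using QuotientGroup.induction_on with
  | H g₄ => exact Subtype.ext (congrFun h (g₁, g₂, g₃, g₄))

/-! ### Inflation commutes with the differentials -/

lemma d₀₁_inf₀ (a : A.quotientToInvariants U) :
    (d₀₁ A).hom (inf₀ A U a) = inf₁ A U ((d₀₁ (A.quotientToInvariants U)).hom a) := by
  funext g
  rfl

lemma d₁₂_inf₁ (c : G ⧸ U → A.quotientToInvariants U) :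
    (d₁₂ A).hom (inf₁ A U c) = inf₂ A U ((d₁₂ (A.quotientToInvariants U)).hom c) := by
  funext ⟨g, h⟩
  rfl

lemma d₂₃_inf₂ (c : (G ⧸ U) × (G ⧸ U) → A.quotientToInvariants U) :
    (d₂₃ A).hom (inf₂ A U c) = inf₃ A U ((d₂₃ (A.quotientToInvariants U)).hom c) := by
  funext ⟨g₁, g₂, g₃⟩
  rfl

lemma d34_inf₃ (c : (G ⧸ U) × (G ⧸ U) × (G ⧸ U) → A.quotientToInvariants U) :
    d34 A (inf₃ A U c) = inf₄ A U (d34 (A.quotientToInvariants U) c) := by
  funext ⟨g₁, g₂, g₃, g₄⟩
  rfl

/-! ### The image of inflation -/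

lemma mk_mul_of_mem (g : G) {s : G} (hs : s ∈ U) : ((g * s : G) : G ⧸ U) = (g : G ⧸ U) := by
  rw [QuotientGroup.mk_mul, (QuotientGroup.eq_one_iff s).2 hs, mul_one]

lemma isRInv₁_inf₁ (c : G ⧸ U → A.quotientToInvariants U) : IsRInv₁ U (inf₁ A U c) := by
  intro g s hs
  simp only [inf₁_apply, mk_mul_of_mem U g hs]

lemma isRInv₂_inf₂ (c : (G ⧸ U) × (G ⧸ U) → A.quotientToInvariants U) :
    IsRInv₂ U (inf₂ A U c) := by
  intro g g' s s' hs hs'
  simp only [inf₂_apply, mk_mul_of_mem U g hs, mk_mul_of_mem U g' hs']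

lemma isRInv₃_inf₃ (c : (G ⧸ U) × (G ⧸ U) × (G ⧸ U) → A.quotientToInvariants U) :
    IsRInv₃ U (inf₃ A U c) := by
  intro g₁ g₂ g₃ s₁ s₂ s₃ h₁ h₂ h₃
  simp only [inf₃_apply, mk_mul_of_mem U g₁ h₁, mk_mul_of_mem U g₂ h₂, mk_mul_of_mem U g₃ h₃]

lemma isRInv₄_inf₄ (c : (G ⧸ U) × (G ⧸ U) × (G ⧸ U) × (G ⧸ U) → A.quotientToInvariants U) :
    IsRInv₄ U (inf₄ A U c) := by
  intro g₁ g₂ g₃ g₄ s₁ s₂ s₃ s₄ h₁ h₂ h₃ h₄
  simp only [inf₄_apply, mk_mul_of_mem U g₁ h₁, mk_mul_of_mem U g₂ h₂, mk_mul_of_mem U g₃ h₃,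
    mk_mul_of_mem U g₄ h₄]

lemma isInv_inf₁ (c : G ⧸ U → A.quotientToInvariants U) (g : G) : IsInv A U (inf₁ A U c g) :=
  isInv_coe A U _

lemma isInv_inf₂ (c : (G ⧸ U) × (G ⧸ U) → A.quotientToInvariants U) (x : G × G) :
    IsInv A U (inf₂ A U c x) :=
  isInv_coe A U _

lemma isInv_inf₃ (c : (G ⧸ U) × (G ⧸ U) × (G ⧸ U) → A.quotientToInvariants U) (x : G × G × G) :
    IsInv A U (inf₃ A U c x) :=
  isInv_coe A U _

variable {A U}

/-- A `U`-invariant element is inflated. -/
lemma exists_inf₀ {a : A.V} (ha : IsInv A U a) : ∃ a' : A.quotientToInvariants U,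
    inf₀ A U a' = a :=
  ⟨⟨a, isInv_iff_mem.1 ha⟩, rfl⟩

/-- A right `U`-invariant 1-cochain with `U`-invariant values is inflated. -/
lemma exists_inf₁ {f : G → A} (hf : IsRInv₁ U f) (hv : ∀ g, IsInv A U (f g)) :
    ∃ c : G ⧸ U → A.quotientToInvariants U, inf₁ A U c = f := by
  refine ⟨fun x => ⟨f x.out, isInv_iff_mem.1 (hv _)⟩, ?_⟩
  funext g
  exact hf.eq_of_mk_eq (QuotientGroup.out_eq' (g : G ⧸ U))

/-- A right `U`-invariant 2-cochain with `U`-invariant values is inflated. -/
lemma exists_inf₂ {f : G × G → A} (hf : IsRInv₂ U f) (hv : ∀ x, IsInv A U (f x)) :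
    ∃ c : (G ⧸ U) × (G ⧸ U) → A.quotientToInvariants U, inf₂ A U c = f := by
  refine ⟨fun x => ⟨f (x.1.out, x.2.out), isInv_iff_mem.1 (hv _)⟩, ?_⟩
  funext ⟨g, h⟩
  exact hf.eq_of_mk_eq (QuotientGroup.out_eq' (g : G ⧸ U)) (QuotientGroup.out_eq' (h : G ⧸ U))

/-- A right `U`-invariant 3-cochain with `U`-invariant values is inflated. -/
lemma exists_inf₃ {f : G × G × G → A} (hf : IsRInv₃ U f) (hv : ∀ x, IsInv A U (f x)) :
    ∃ c : (G ⧸ U) × (G ⧸ U) × (G ⧸ U) → A.quotientToInvariants U, inf₃ A U c = f := by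
  refine ⟨fun x => ⟨f (x.1.out, x.2.1.out, x.2.2.out), isInv_iff_mem.1 (hv _)⟩, ?_⟩
  funext ⟨g₁, g₂, g₃⟩
  exact hf.eq_of_mk_eq (QuotientGroup.out_eq' (g₁ : G ⧸ U)) (QuotientGroup.out_eq' (g₂ : G ⧸ U))
    (QuotientGroup.out_eq' (g₃ : G ⧸ U))

end Inf

/-! ## The key remark: values of cochains with invariant coboundary are invariant -/

section Key

variable {A : Rep.{0, 0, 0} k G} {U : Subgroup G} [U.Normal]

omit [U.Normal] in
/-- **Key remark, degree 0.** -/
lemma isInv_of_isRInv₀ {a : A.V} (hd : IsRInv₁ U ((d₀₁ A).hom a)) : IsInv A U a := by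
  intro s hs
  have h1 := hd 1 s hs
  simp only [d₀₁_hom_apply, one_mul, map_one, Module.End.one_apply, sub_self] at h1
  exact sub_eq_zero.1 h1

lemma conj_mul_eq (h s : G) : h * (h⁻¹ * s * h) = s * h := by group

/-- **Key remark, degree 1.** -/
lemma isInv_of_isRInv₁ {b : G → A} (hb : IsRInv₁ U b) (hd : IsRInv₂ U ((d₁₂ A).hom b)) (h : G) :
    IsInv A U (b h) := by
  intro s hs
  have h1 := hd 1 h s 1 hs U.one_mem
  simp only [d₁₂_hom_apply, one_mul, mul_one, map_one, Module.End.one_apply] at h1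
  have h2 : b (s * h) = b h := by
    have := hb h (h⁻¹ * s * h) (Subgroup.Normal.conj_mem' ‹U.Normal› s hs h)
    rwa [conj_mul_eq] at this
  have h3 : b s = b 1 := by simpa using hb 1 s hs
  rw [h2, h3] at h1
  have h4 : A.ρ s (b h) - b h = 0 := by
    have := congrArg (fun x => x - b 1) h1
    simpa using this
  exact sub_eq_zero.1 h4

/-- **Key remark, degree 2.** -/
lemma isInv_of_isRInv₂ {b : G × G → A} (hb : IsRInv₂ U b) (hd : IsRInv₃ U ((d₂₃ A).hom b))
    (x : G × G) : IsInv A U (b x) := by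
  obtain ⟨g, h⟩ := x
  intro s hs
  have h1 := hd 1 g h s 1 1 hs U.one_mem U.one_mem
  simp only [d₂₃_hom_apply, one_mul, mul_one, map_one, Module.End.one_apply] at h1
  have h2 : b (s * g, h) = b (g, h) := by
    have := hb g h (g⁻¹ * s * g) 1 (Subgroup.Normal.conj_mem' ‹U.Normal› s hs g) U.one_mem
    rwa [conj_mul_eq, mul_one] at this
  have h3 : ∀ y, b (s, y) = b (1, y) := fun y => by simpa using hb 1 y s 1 hs U.one_mem
  rw [h2, h3, h3] at h1
  have h4 : A.ρ s (b (g, h)) - b (g, h) = 0 := by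
    have := congrArg (fun x => x + b (1, g) - b (1, g * h)) h1
    simpa using this
  exact sub_eq_zero.1 h4

/-- **Key remark, degree 3.** -/
lemma isInv_of_isRInv₃ {b : G × G × G → A} (hb : IsRInv₃ U b) (hd : IsRInv₄ U (d34 A b))
    (x : G × G × G) : IsInv A U (b x) := by
  obtain ⟨g₁, g₂, g₃⟩ := x
  intro s hs
  have h1 := hd 1 g₁ g₂ g₃ s 1 1 1 hs U.one_mem U.one_mem U.one_mem
  simp only [d34_apply, one_mul, mul_one, map_one, Module.End.one_apply] at h1
  have h2 : b (s * g₁, g₂, g₃) = b (g₁, g₂, g₃) := by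
    have := hb g₁ g₂ g₃ (g₁⁻¹ * s * g₁) 1 1 (Subgroup.Normal.conj_mem' ‹U.Normal› s hs g₁)
      U.one_mem U.one_mem
    rwa [conj_mul_eq, mul_one, mul_one] at this
  have h3 : ∀ y z, b (s, y, z) = b (1, y, z) := fun y z => by
    simpa using hb 1 y z s 1 1 hs U.one_mem U.one_mem
  rw [h2, h3, h3, h3] at h1
  have h4 : A.ρ s (b (g₁, g₂, g₃)) - b (g₁, g₂, g₃) = 0 := by
    have := congrArg (fun x => x - b (1, g₁, g₂) + b (1, g₁, g₂ * g₃) - b (1, g₁ * g₂, g₃)) h1
    simpa using this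
  exact sub_eq_zero.1 h4

end Key

end Fermat.Agent.S55.ColH543

end

end
-- ===== PACK-END S55/ColH543/Cochain.lean

-- ===== PACK-BEGIN S55/Smooth/HomElem.lean
section


/-!
# S55, D-layer foundation: elementwise description of the homology of a cochain complex of modules

For `K : CochainComplex (ModuleCat k) ℕ` we provide the linear map
`clsₗ K n : ker (d : Kⁿ → Kⁿ⁺¹) →ₗ[k] Hⁿ(K)`, show that it is surjective, and describe its kernel.
-/

set_option autoImplicit false

universe u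

open CategoryTheory

namespace Fermat.Agent.S55.Smooth

variable {k : Type u} [Ring k] (K : CochainComplex (ModuleCat.{u} k) ℕ)

/-- The cocycles of degree `n`, as a submodule. -/
abbrev Zₗ (n : ℕ) : Submodule k (K.X n) := LinearMap.ker (K.d n (n + 1)).hom

/-- The map from elementwise cocycles to categorical cycles. -/
noncomputable def toCyclesₗ (n : ℕ) : Zₗ K n →ₗ[k] K.cycles n :=
  (K.liftCycles (ModuleCat.ofHom (Zₗ K n).subtype) (n + 1) (by simp)
    (by ext x; exact x.2)).hom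

@[simp]
theorem iCycles_toCyclesₗ (n : ℕ) (x : Zₗ K n) :
    (K.iCycles n).hom (toCyclesₗ K n x) = x.1 := by
  have := K.liftCycles_i (ModuleCat.ofHom (Zₗ K n).subtype) (n + 1) (by simp)
    (by ext x; exact x.2)
  exact congr($(this) x)

theorem iCycles_injective (n : ℕ) : Function.Injective (K.iCycles n).hom :=
  (ModuleCat.mono_iff_injective _).1 inferInstance

theorem toCyclesₗ_injective (n : ℕ) : Function.Injective (toCyclesₗ K n) := by
  intro x y h
  apply Subtype.ext
  rw [← iCycles_toCyclesₗ, ← iCycles_toCyclesₗ, h]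

theorem d_iCycles (n : ℕ) (z : K.cycles n) : (K.d n (n + 1)).hom ((K.iCycles n).hom z) = 0 :=
  congr($(K.iCycles_d n (n + 1)) z)

theorem toCyclesₗ_surjective (n : ℕ) : Function.Surjective (toCyclesₗ K n) := by
  intro z
  refine ⟨⟨(K.iCycles n).hom z, d_iCycles K n z⟩, ?_⟩
  apply iCycles_injective
  simp

/-- The class of a cocycle. -/
noncomputable def clsₗ (n : ℕ) : Zₗ K n →ₗ[k] K.homology n :=
  (K.homologyπ n).hom ∘ₗ toCyclesₗ K n

theorem clsₗ_surjective (n : ℕ) : Function.Surjective (clsₗ K n) :=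
  ((ModuleCat.epi_iff_surjective (K.homologyπ n)).1 inferInstance).comp (toCyclesₗ_surjective K n)

theorem clsₗ_eq_zero_iff (n : ℕ) (x : Zₗ K (n + 1)) :
    clsₗ K (n + 1) x = 0 ↔ ∃ y : K.X n, (K.d n (n + 1)).hom y = x.1 := by
  have hex : (ShortComplex.mk (K.toCycles n (n + 1)) (K.homologyπ (n + 1))
      (K.toCycles_comp_homologyπ n (n + 1))).Exact :=
    ShortComplex.exact_of_g_is_cokernel _ (K.homologyIsCokernel n (n + 1) (by simp))
  rw [ShortComplex.moduleCat_exact_iff] at hex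
  constructor
  · intro h
    obtain ⟨y, hy⟩ := hex (toCyclesₗ K (n + 1) x) h
    refine ⟨y, ?_⟩
    have := congr_arg (K.iCycles (n + 1)).hom hy
    rw [iCycles_toCyclesₗ] at this
    rw [← this]
    exact congr($(K.toCycles_i n (n + 1)) y).symm
  · rintro ⟨y, hy⟩
    have : toCyclesₗ K (n + 1) x = (K.toCycles n (n + 1)).hom y := by
      apply iCycles_injective
      rw [iCycles_toCyclesₗ, ← hy]
      exact congr($(K.toCycles_i n (n + 1)) y).symm
    show (K.homologyπ (n + 1)).hom (toCyclesₗ K (n + 1) x) = 0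
    rw [this]
    exact congr($(K.toCycles_comp_homologyπ n (n + 1)) y)

theorem clsₗ_zero_injective : Function.Injective (clsₗ K 0) := by
  have hex : (ShortComplex.mk (K.toCycles 0 0) (K.homologyπ 0)
      (K.toCycles_comp_homologyπ 0 0)).Exact :=
    ShortComplex.exact_of_g_is_cokernel _ (K.homologyIsCokernel 0 0 (by simp))
  rw [ShortComplex.moduleCat_exact_iff] at hex
  rw [← LinearMap.ker_eq_bot, LinearMap.ker_eq_bot']
  intro x hx
  obtain ⟨y, hy⟩ := hex (toCyclesₗ K 0 x) hx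
  apply toCyclesₗ_injective
  rw [map_zero, ← hy]
  apply iCycles_injective
  have h1 : (K.iCycles 0).hom ((K.toCycles 0 0).hom y) = (K.d 0 0).hom y :=
    congr($(K.toCycles_i 0 0) y)
  have h2 : K.d 0 0 = 0 := K.shape _ _ (by simp)
  rw [map_zero, h1, h2]
  rfl

section Map

variable {K} {L : CochainComplex (ModuleCat.{u} k) ℕ} (φ : K ⟶ L)

/-- The map induced on elementwise cocycles by a chain map. -/
def mapZₗ (n : ℕ) : Zₗ K n →ₗ[k] Zₗ L n :=
  (φ.f n).hom.restrict fun x hx => by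
    have := congr($(φ.comm n (n + 1)) x)
    simp only [ModuleCat.hom_comp, LinearMap.comp_apply] at this
    rw [LinearMap.mem_ker] at hx ⊢
    rw [this, hx, map_zero]

@[simp]
theorem mapZₗ_coe (n : ℕ) (x : Zₗ K n) : (mapZₗ φ n x : L.X n) = (φ.f n).hom x.1 := rfl

theorem homologyMap_clsₗ (n : ℕ) (x : Zₗ K n) :
    (HomologicalComplex.homologyMap φ n).hom (clsₗ K n x) = clsₗ L n (mapZₗ φ n x) := by
  have h1 := congr($(HomologicalComplex.homologyπ_naturality φ n) (toCyclesₗ K n x))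
  simp only [ModuleCat.hom_comp, LinearMap.comp_apply] at h1
  show (HomologicalComplex.homologyMap φ n).hom ((K.homologyπ n).hom (toCyclesₗ K n x)) = _
  rw [h1]
  show _ = (L.homologyπ n).hom (toCyclesₗ L n (mapZₗ φ n x))
  congr 1
  apply iCycles_injective
  rw [iCycles_toCyclesₗ, mapZₗ_coe]
  have h2 := congr($(HomologicalComplex.cyclesMap_i φ n) (toCyclesₗ K n x))
  simp only [ModuleCat.hom_comp, LinearMap.comp_apply] at h2
  rw [h2, iCycles_toCyclesₗ]

end Map

end Fermat.Agent.S55.Smooth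

end
-- ===== PACK-END S55/Smooth/HomElem.lean

-- ===== PACK-BEGIN S55/Bridge/H175/InvUnits.lean
section


set_option autoImplicit false
set_option linter.style.haveILetI false
set_option linter.unusedSectionVars false

/-!
# Invariants of `K'ˣ` under `Gal(K'/E)` are `Eˣ` (as Galois modules)

`K'/k` a Galois extension (possibly infinite), `E` a normal subextension (given as a type with
`Algebra k E`, `Algebra E K'`, `IsScalarTower k E K'`: no instance is hard-wired),
`N = ker (Gal(K'/k) → Gal(E/k)) = Gal(K'/E)`.  Then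

* `quotEquiv : Gal(K'/k) ⧸ N ≃* Gal(E/k)`;
* `invUnitsEquiv : ((K'ˣ)^N as Rep ℤ (Gal(K'/k) ⧸ N)) ≃+ (Rep.ofAlgebraAutOnUnits k E).V`,
  equivariant along `quotEquiv` (`invUnitsEquiv_ρ`).
-/

namespace Fermat.Agent.S55.Bridge.H175

open IntermediateField

section General

variable {k K' : Type} [Field k] [Field K'] [Algebra k K']

/-- The element of `K'` underlying a vector of the representation `K'ˣ`. -/
def uval (x : (Rep.ofAlgebraAutOnUnits k K').V) : K' :=
  ((Additive.toMul (show Additive K'ˣ from x) : K'ˣ) : K')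

theorem uval_injective : Function.Injective (uval (k := k) (K' := K')) := by
  intro x y h
  have h1 : (Additive.toMul (show Additive K'ˣ from x) : K'ˣ) =
      Additive.toMul (show Additive K'ˣ from y) := Units.ext h
  exact Additive.toMul.injective h1

theorem uval_ne_zero (x : (Rep.ofAlgebraAutOnUnits k K').V) : uval x ≠ 0 :=
  (Additive.toMul (show Additive K'ˣ from x) : K'ˣ).ne_zero

theorem uval_ρ (σ : K' ≃ₐ[k] K') (x : (Rep.ofAlgebraAutOnUnits k K').V) :
    uval ((Rep.ofAlgebraAutOnUnits k K').ρ σ x) = σ (uval x) := rfl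

/-- The vector of the representation `K'ˣ` attached to a nonzero element. -/
def umk (a : K') (ha : a ≠ 0) : (Rep.ofAlgebraAutOnUnits k K').V :=
  (show Additive K'ˣ from Additive.ofMul (Units.mk0 a ha))

theorem uval_umk (a : K') (ha : a ≠ 0) : uval (umk (k := k) a ha) = a := rfl

variable (E : Type) [Field E] [Algebra k E] [Algebra E K'] [IsScalarTower k E K']

/-- The inclusion `Eˣ → K'ˣ` on the level of representation spaces. -/
noncomputable def unitsIncl :
    (Rep.ofAlgebraAutOnUnits k E).V →+ (Rep.ofAlgebraAutOnUnits k K').V :=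
  (show Additive Eˣ →+ Additive K'ˣ from
    MonoidHom.toAdditive (Units.map (algebraMap E K' : E →* K')))

theorem uval_unitsIncl (y : (Rep.ofAlgebraAutOnUnits k E).V) :
    uval (unitsIncl (k := k) (K' := K') E y) = algebraMap E K' (uval y) := rfl

theorem unitsIncl_injective : Function.Injective (unitsIncl (k := k) (K' := K') E) := by
  intro y y' h
  have h1 := congrArg uval h
  rw [uval_unitsIncl, uval_unitsIncl] at h1
  exact uval_injective ((algebraMap E K').injective h1)

/-- A unit of `K'` lying in the image of `E` is the image of a unit of `E`. -/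
theorem exists_unitsIncl_eq (x : (Rep.ofAlgebraAutOnUnits k K').V)
    (hx : ∃ a : E, algebraMap E K' a = uval x) :
    ∃ y : (Rep.ofAlgebraAutOnUnits k E).V, unitsIncl (k := k) (K' := K') E y = x := by
  obtain ⟨a, ha⟩ := hx
  have ha0 : a ≠ 0 := by
    intro h
    rw [h, map_zero] at ha
    exact uval_ne_zero x ha.symm
  refine ⟨umk a ha0, ?_⟩
  apply uval_injective
  rw [uval_unitsIncl, uval_umk, ha]

variable [IsGalois k K'] [hE : Normal k E]
variable (N : Subgroup (K' ≃ₐ[k] K')) [hNn : N.Normal]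

/-- `Gal(K'/k) ⧸ Gal(K'/E) ≃* Gal(E/k)`. -/
noncomputable def quotEquiv
    (hN : N = (AlgEquiv.restrictNormalHom (F := k) (K₁ := K') E).ker) :
    (K' ≃ₐ[k] K') ⧸ N ≃* (E ≃ₐ[k] E) :=
  QuotientGroup.liftEquiv N (φ := AlgEquiv.restrictNormalHom (F := k) (K₁ := K') E)
    (AlgEquiv.restrictNormalHom_surjective (F := k) (K₁ := E) K') hN

theorem quotEquiv_mk (hN : N = (AlgEquiv.restrictNormalHom (F := k) (K₁ := K') E).ker)
    (σ : K' ≃ₐ[k] K') :
    quotEquiv E N hN (QuotientGroup.mk σ) = AlgEquiv.restrictNormalHom E σ := rfl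

theorem quotEquiv_mk_apply (hN : N = (AlgEquiv.restrictNormalHom (F := k) (K₁ := K') E).ker)
    (σ : K' ≃ₐ[k] K') (x : E) :
    algebraMap E K' (quotEquiv E N hN (QuotientGroup.mk σ) x) = σ (algebraMap E K' x) := by
  rw [quotEquiv_mk]
  exact AlgEquiv.restrictNormal_commutes σ E x

/-- `σ ∈ ker (Gal(K'/k) → Gal(E/k))` iff `σ` fixes the image of `E`. -/
theorem mem_ker_restrictNormalHom_iff (σ : K' ≃ₐ[k] K') :
    σ ∈ (AlgEquiv.restrictNormalHom (F := k) (K₁ := K') E).ker ↔
      ∀ a : E, σ (algebraMap E K' a) = algebraMap E K' a := by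
  rw [MonoidHom.mem_ker]
  constructor
  · intro h a
    have h1 := AlgEquiv.restrictNormal_commutes σ E a
    have h2 : AlgEquiv.restrictNormal σ E = 1 := h
    rw [h2] at h1
    exact h1.symm
  · intro h
    apply AlgEquiv.ext
    intro a
    apply (algebraMap E K').injective
    have h1 := AlgEquiv.restrictNormal_commutes σ E a
    exact h1.trans (h a)

/-- Membership in the invariants of `K'ˣ` under `N = Gal(K'/E)`. -/
theorem mem_invariants_units_iff
    (hN : N = (AlgEquiv.restrictNormalHom (F := k) (K₁ := K') E).ker)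
    (x : (Rep.ofAlgebraAutOnUnits k K').V) :
    x ∈ Representation.invariants ((Rep.ofAlgebraAutOnUnits k K').ρ.comp N.subtype) ↔
      ∃ a : E, algebraMap E K' a = uval x := by
  rw [Representation.mem_invariants]
  constructor
  · intro h
    have hmem : uval x ∈ (IsScalarTower.toAlgHom k E K').fieldRange := by
      rw [← InfiniteGalois.fixedField_fixingSubgroup (IsScalarTower.toAlgHom k E K').fieldRange,
        IntermediateField.mem_fixedField_iff]
      intro σ hσ
      have hσN : σ ∈ N := by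
        rw [hN, mem_ker_restrictNormalHom_iff]
        intro a
        exact (IntermediateField.mem_fixingSubgroup_iff _ σ).mp hσ _ ⟨a, rfl⟩
      have h1 := h ⟨σ, hσN⟩
      exact congrArg uval h1
    obtain ⟨a, ha⟩ := hmem
    exact ⟨a, ha⟩
  · rintro ⟨a, ha⟩ σ
    have hσ : ∀ b : E, (σ : K' ≃ₐ[k] K') (algebraMap E K' b) = algebraMap E K' b :=
      (mem_ker_restrictNormalHom_iff E _).mp (hN ▸ σ.2)
    apply uval_injective
    change (σ : K' ≃ₐ[k] K') (uval x) = uval x
    rw [← ha]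
    exact hσ a

/-- The range of `Eˣ → K'ˣ` is the submodule of `N`-invariants. -/
theorem range_unitsIncl (hN : N = (AlgEquiv.restrictNormalHom (F := k) (K₁ := K') E).ker) :
    (unitsIncl (k := k) (K' := K') E).range =
      (Representation.invariants
        ((Rep.ofAlgebraAutOnUnits k K').ρ.comp N.subtype)).toAddSubgroup := by
  ext x
  rw [Submodule.mem_toAddSubgroup, mem_invariants_units_iff E N hN]
  constructor
  · rintro ⟨y, rfl⟩
    exact ⟨uval y, (uval_unitsIncl E y).symm⟩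
  · intro h
    exact exists_unitsIncl_eq E x h

/-- **`(K'ˣ)^N ≃+ Eˣ`.** -/
noncomputable def invUnitsEquiv
    (hN : N = (AlgEquiv.restrictNormalHom (F := k) (K₁ := K') E).ker) :
    ((Rep.ofAlgebraAutOnUnits k K').quotientToInvariants N).V ≃+
      (Rep.ofAlgebraAutOnUnits k E).V :=
  ((AddEquiv.addSubgroupCongr (range_unitsIncl E N hN)).symm.trans
    (AddMonoidHom.ofInjective (unitsIncl_injective (k := k) (K' := K') E)).symm :
    ((Representation.invariants
      ((Rep.ofAlgebraAutOnUnits k K').ρ.comp N.subtype)).toAddSubgroup) ≃+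
        (Rep.ofAlgebraAutOnUnits k E).V)

/-- The inclusion of the invariants into `K'ˣ`. -/
def invVal (x : ((Rep.ofAlgebraAutOnUnits k K').quotientToInvariants N).V) :
    (Rep.ofAlgebraAutOnUnits k K').V :=
  (show ↥(Representation.invariants
    ((Rep.ofAlgebraAutOnUnits k K').ρ.comp N.subtype)) from x).1

theorem unitsIncl_invUnitsEquiv
    (hN : N = (AlgEquiv.restrictNormalHom (F := k) (K₁ := K') E).ker)
    (x : ((Rep.ofAlgebraAutOnUnits k K').quotientToInvariants N).V) :
    unitsIncl E (invUnitsEquiv E N hN x) = invVal N x := by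
  have h := (AddMonoidHom.ofInjective (unitsIncl_injective (k := k) (K' := K') E)).apply_symm_apply
    ((AddEquiv.addSubgroupCongr (range_unitsIncl E N hN)).symm x)
  exact congrArg Subtype.val h

theorem uval_invUnitsEquiv
    (hN : N = (AlgEquiv.restrictNormalHom (F := k) (K₁ := K') E).ker)
    (x : ((Rep.ofAlgebraAutOnUnits k K').quotientToInvariants N).V) :
    algebraMap E K' (uval (invUnitsEquiv E N hN x)) = uval (invVal N x) := by
  rw [← uval_unitsIncl, unitsIncl_invUnitsEquiv]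

theorem invVal_ρ_mk (σ : K' ≃ₐ[k] K')
    (x : ((Rep.ofAlgebraAutOnUnits k K').quotientToInvariants N).V) :
    invVal N (((Rep.ofAlgebraAutOnUnits k K').quotientToInvariants N).ρ
      (QuotientGroup.mk σ) x) = (Rep.ofAlgebraAutOnUnits k K').ρ σ (invVal N x) := rfl

/-- **Equivariance** of `(K'ˣ)^N ≃+ Eˣ` along `Gal(K'/k) ⧸ N ≃* Gal(E/k)`. -/
theorem invUnitsEquiv_ρ
    (hN : N = (AlgEquiv.restrictNormalHom (F := k) (K₁ := K') E).ker)
    (g : (K' ≃ₐ[k] K') ⧸ N)
    (x : ((Rep.ofAlgebraAutOnUnits k K').quotientToInvariants N).V) :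
    invUnitsEquiv E N hN (((Rep.ofAlgebraAutOnUnits k K').quotientToInvariants N).ρ g x) =
      (Rep.ofAlgebraAutOnUnits k E).ρ (quotEquiv E N hN g) (invUnitsEquiv E N hN x) := by
  obtain ⟨σ, rfl⟩ := QuotientGroup.mk_surjective g
  apply unitsIncl_injective (k := k) (K' := K') E
  rw [unitsIncl_invUnitsEquiv]
  apply uval_injective
  rw [uval_unitsIncl, uval_ρ, quotEquiv_mk_apply, uval_invUnitsEquiv, invVal_ρ_mk, uval_ρ]

end General

end Fermat.Agent.S55.Bridge.H175

end
-- ===== PACK-END S55/Bridge/H175/InvUnits.lean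

-- ===== PACK-BEGIN S55/H713/Ord.lean
section


/-!
# The normalized valuation `Eˣ → ℤ` of a discrete valuation subring
-/

set_option autoImplicit false
set_option linter.unusedSectionVars false

namespace Fermat.Agent.S55.H713

variable {E : Type*} [Field E] (O : ValuationSubring E) [IsDiscreteValuationRing O]

/-- The units of `O` inside `Eˣ`. -/
def unitsIncl (O : ValuationSubring E) : Oˣ →* Eˣ := Units.map (O.subtype : O →* E)

lemma coe_unitsIncl (u : Oˣ) : ((unitsIncl O u : Eˣ) : E) = ((u : O) : E) := rfl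

lemma unitsIncl_injective : Function.Injective (unitsIncl O) := by
  intro u v h
  have : ((u : O) : E) = ((v : O) : E) := congrArg Units.val h
  exact Units.ext (Subtype.ext this)

section

variable {O} {ϖ : O} (hϖ : Irreducible ϖ)
include hϖ

lemma coe_unif_ne_zero : (ϖ : E) ≠ 0 := fun h => hϖ.ne_zero (Subtype.ext h)

lemma exists_ord (x : Eˣ) : ∃ k : ℤ, ∃ u : Oˣ, (x : E) = ((u : O) : E) * (ϖ : E) ^ k := by
  obtain ⟨k, u, h⟩ := IsDiscreteValuationRing.exists_units_eq_smul_zpow_of_irreducible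
    (K := E) hϖ x.ne_zero
  refine ⟨k, u, ?_⟩
  rw [h, Units.smul_def, Algebra.smul_def]
  rfl

lemma not_isUnit_pow {j : ℕ} (hj : 0 < j) : ¬ IsUnit (ϖ ^ j) := by
  rw [isUnit_pow_iff hj.ne']
  exact hϖ.not_isUnit

private lemma ord_unique_aux {k l : ℤ} {u u' : Oˣ} (hkl : k < l)
    (h : ((u : O) : E) * (ϖ : E) ^ k = ((u' : O) : E) * (ϖ : E) ^ l) : False := by
  obtain ⟨j, hj⟩ := Int.eq_ofNat_of_zero_le (sub_nonneg.2 hkl.le)
  have hj0 : 0 < j := by
    rcases Nat.eq_zero_or_pos j with h0 | h0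
    · subst h0; simp at hj; omega
    · exact h0
  have hl : l = k + j := by omega
  have hϖ0 := coe_unif_ne_zero hϖ
  rw [hl, zpow_add₀ hϖ0, zpow_natCast] at h
  have hk0 : (ϖ : E) ^ k ≠ 0 := zpow_ne_zero _ hϖ0
  have h2 : ((u : O) : E) = ((u' : O) : E) * (ϖ : E) ^ j := by
    apply mul_right_cancel₀ hk0
    rw [h]; ring
  have h3 : (u : O) = (u' : O) * ϖ ^ j := Subtype.ext (by simpa using h2)
  have h4 : ϖ ^ j = ((u'⁻¹ * u : Oˣ) : O) := by
    rw [Units.val_mul, h3, ← mul_assoc, Units.inv_mul, one_mul]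
  exact not_isUnit_pow hϖ hj0 (h4 ▸ (u'⁻¹ * u).isUnit)

lemma ord_unique {k l : ℤ} {u u' : Oˣ}
    (h : ((u : O) : E) * (ϖ : E) ^ k = ((u' : O) : E) * (ϖ : E) ^ l) : k = l := by
  rcases lt_trichotomy k l with hkl | hkl | hkl
  · exact (ord_unique_aux hϖ hkl h).elim
  · exact hkl
  · exact (ord_unique_aux hϖ hkl h.symm).elim

/-- The order of a nonzero element. -/
noncomputable def ord (x : Eˣ) : ℤ := (exists_ord hϖ x).choose

lemma ord_eq {x : Eˣ} {k : ℤ} {u : Oˣ} (h : (x : E) = ((u : O) : E) * (ϖ : E) ^ k) :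
    ord hϖ x = k := by
  obtain ⟨u', hu'⟩ := (exists_ord hϖ x).choose_spec
  exact (ord_unique hϖ (h.symm.trans hu')).symm

lemma ord_spec (x : Eˣ) : ∃ u : Oˣ, (x : E) = ((u : O) : E) * (ϖ : E) ^ (ord hϖ x) :=
  (exists_ord hϖ x).choose_spec

lemma ord_mul (x y : Eˣ) : ord hϖ (x * y) = ord hϖ x + ord hϖ y := by
  obtain ⟨u, hu⟩ := ord_spec hϖ x
  obtain ⟨v, hv⟩ := ord_spec hϖ y
  apply ord_eq hϖ (u := u * v)
  rw [Units.val_mul, hu, hv, zpow_add₀ (coe_unif_ne_zero hϖ), Units.val_mul, Subring.coe_mul]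
  ring

lemma ord_one : ord hϖ (1 : Eˣ) = 0 :=
  ord_eq hϖ (u := 1) (by simp)

/-- The order as an additive homomorphism. -/
noncomputable def ordHom : Additive Eˣ →+ ℤ where
  toFun x := ord hϖ x.toMul
  map_zero' := ord_one hϖ
  map_add' x y := ord_mul hϖ x.toMul y.toMul

lemma ordHom_apply (x : Eˣ) : ordHom hϖ (Additive.ofMul x) = ord hϖ x := rfl

/-- the uniformizer as a unit of `E`. -/
def unifUnit : Eˣ := Units.mk0 (ϖ : E) (coe_unif_ne_zero hϖ)

lemma ord_unifUnit : ord hϖ (unifUnit hϖ) = 1 :=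
  ord_eq hϖ (u := 1) (by simp [unifUnit])

lemma ordHom_surjective : Function.Surjective (ordHom hϖ) := by
  intro k
  refine ⟨k • Additive.ofMul (unifUnit hϖ), ?_⟩
  rw [map_zsmul, ordHom_apply, ord_unifUnit, smul_eq_mul, mul_one]

lemma ord_eq_zero_iff (x : Eˣ) : ord hϖ x = 0 ↔ x ∈ (unitsIncl O).range := by
  constructor
  · intro h
    obtain ⟨u, hu⟩ := ord_spec hϖ x
    rw [h, zpow_zero, mul_one] at hu
    exact ⟨u, Units.ext hu.symm⟩
  · rintro ⟨u, rfl⟩
    exact ord_eq hϖ (u := u) (by rw [zpow_zero, mul_one, coe_unitsIncl])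

end

end Fermat.Agent.S55.H713

end
-- ===== PACK-END S55/H713/Ord.lean

-- ===== PACK-BEGIN S55/H604/IndexNSmul.lean
section




/-!
# S55 / arithmetic leaf: `[A : nA] = |A[n]| · n ^ r` for an extension of a free module of rank `r`
by a finite group
-/

set_option autoImplicit false

namespace Fermat.Agent.S55.H604

open Module

/-- If `f : A → Λ` is a surjective homomorphism with finite kernel onto a free `ℤ`-module of finite
rank `r`, then `[A : nA] = |A[n]| · n ^ r`. -/
theorem index_range_nsmul_of_finite_ker {A Λ : Type*} [AddCommGroup A] [AddCommGroup Λ]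
    [Module.Free ℤ Λ] [Module.Finite ℤ Λ] (f : A →+ Λ) (hf : Function.Surjective f)
    [Finite f.ker] (n : ℕ) (hn : n ≠ 0) :
    (nsmulAddMonoidHom (α := A) n).range.index =
      Nat.card (nsmulAddMonoidHom (α := A) n).ker * n ^ Module.finrank ℤ Λ := by
  have htf : ∀ x : Λ, n • x = 0 → x = 0 := by
    intro x hx
    have := AddSubgroup.nsmulAddMonoidHom_injective_of_isTorsionFree (M := Λ) hn
    exact this (by simpa using hx)
  set N : AddSubgroup A := (nsmulAddMonoidHom (α := A) n).range with hN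
  set K : AddSubgroup A := f.ker with hK
  -- step 1
  have h1 : N.index = N.relIndex (N ⊔ K) * (N ⊔ K).index :=
    (AddSubgroup.relIndex_mul_index le_sup_left).symm
  -- step 2
  have hmap : N.map f = (nsmulAddMonoidHom (α := Λ) n).range := by
    ext y
    constructor
    · rintro ⟨_, ⟨a, rfl⟩, rfl⟩
      exact ⟨f a, by simp⟩
    · rintro ⟨z, rfl⟩
      obtain ⟨a, rfl⟩ := hf z
      exact ⟨n • a, ⟨a, rfl⟩, by simp⟩
  have h2 : (N ⊔ K).index = n ^ Module.finrank ℤ Λ := by
    rw [← AddSubgroup.comap_map_eq, hmap, AddSubgroup.index_comap_of_surjective _ hf,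
      AddSubgroup.index_range_nsmul]
  -- step 3
  have h3 : N.relIndex (N ⊔ K) = N.relIndex K := AddSubgroup.relIndex_sup_left K N
  have h4 : N.addSubgroupOf K = (nsmulAddMonoidHom (α := K) n).range := by
    ext ⟨x, hx⟩
    rw [AddSubgroup.mem_addSubgroupOf]
    constructor
    · rintro ⟨a, ha⟩
      have ha' : n • a = x := ha
      have haK : a ∈ K := by
        rw [hK, AddMonoidHom.mem_ker]
        apply htf
        rw [← map_nsmul, ha']
        exact hx
      exact ⟨⟨a, haK⟩, Subtype.ext ha'⟩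
    · rintro ⟨⟨a, haK⟩, ha⟩
      exact ⟨a, congrArg Subtype.val ha⟩
  have h5 : N.relIndex K = Nat.card (nsmulAddMonoidHom (α := K) n).ker := by
    rw [AddSubgroup.relIndex, h4]
    exact AddSubgroup.index_range
  have h6 : Nat.card (nsmulAddMonoidHom (α := K) n).ker =
      Nat.card (nsmulAddMonoidHom (α := A) n).ker := by
    refine Nat.card_congr
      { toFun := fun x => ⟨x.1.1, by
          have := x.2
          rw [AddMonoidHom.mem_ker] at this ⊢
          exact congrArg Subtype.val this⟩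
        invFun := fun a => ⟨⟨a.1, by
          have := a.2
          rw [AddMonoidHom.mem_ker] at this
          rw [hK, AddMonoidHom.mem_ker]
          apply htf
          rw [← map_nsmul]
          have h' : n • a.1 = 0 := this
          rw [h', map_zero]⟩, by
          have := a.2
          rw [AddMonoidHom.mem_ker] at this ⊢
          exact Subtype.ext this⟩
        left_inv := fun x => rfl
        right_inv := fun a => rfl }
  rw [h1, h2, h3, h5, h6]

end Fermat.Agent.S55.H604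

end
-- ===== PACK-END S55/H604/IndexNSmul.lean

-- ===== PACK-BEGIN S55/H963/Kernel.lean
section


/-!
# S55 / leaf RAY-N1 (helper963): abstract smoothing kernel for the unit action

`UnitKernel K` packages the analytic input of the "smoothed lattice sum" method
(S14 block N1, helper74 / helper124): a family `F s : 𝓞 K → ℝ` of nonnegative summable
functions such that
* summing `F s` over the orbit of a nonzero `x` under the units gives `w * N(x)^(-s)`;
* the translates `F s (y + t)` differ from `F s y` by a summable function, uniformly in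
  `s ∈ (1, 2]`.

From these two properties we derive the coset comparison
`N(J) * ∑_{y ∈ J} F s (y + t) = ∑_{x ∈ 𝓞 K} F s x + O(1)`.
-/

set_option autoImplicit false

namespace Fermat.Agent.S55.H963

open NumberField

/-- Abstract smoothing kernel for the action of the units of `𝓞 K` (see the file header). -/
structure UnitKernel (K : Type*) [Field K] [NumberField K] where
  /-- the smoothed summand `ρ(x) N(x)^(-s)` -/
  F : ℝ → 𝓞 K → ℝ
  /-- the number of roots of unity -/
  w : ℝ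
  w_pos : 0 < w
  nonneg : ∀ s x, 0 ≤ F s x
  map_zero : ∀ s, F s 0 = 0
  summable : ∀ s, 1 < s → Summable (F s)
  orbit : ∀ s, 1 < s → ∀ x : 𝓞 K, x ≠ 0 →
    HasSum (fun u : (𝓞 K)ˣ => F s ((u : 𝓞 K) * x))
      (w * (Ideal.absNorm (Ideal.span {x}) : ℝ) ^ (-s))
  shift : ∀ t : 𝓞 K, ∃ g : 𝓞 K → ℝ, Summable g ∧
    ∀ s, 1 < s → s ≤ 2 → ∀ y, |F s (y + t) - F s y| ≤ g y

variable {K : Type*} [Field K] [NumberField K] (κ : UnitKernel K)

namespace UnitKernel

/-- The total smoothed sum `Φ(s) = ∑_{x ∈ 𝓞 K} F s x`. -/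
noncomputable def total (s : ℝ) : ℝ := ∑' x : 𝓞 K, κ.F s x

theorem total_nonneg (s : ℝ) : 0 ≤ κ.total s := tsum_nonneg (κ.nonneg s)

/-- The smoothed sum over the coset `t + J`. -/
noncomputable def cosetSum (J : Ideal (𝓞 K)) (t : 𝓞 K) (s : ℝ) : ℝ :=
  ∑' y : J, κ.F s ((y : 𝓞 K) + t)

theorem cosetSum_nonneg (J : Ideal (𝓞 K)) (t : 𝓞 K) (s : ℝ) : 0 ≤ κ.cosetSum J t s :=
  tsum_nonneg fun _ => κ.nonneg s _

theorem summable_coset (J : Ideal (𝓞 K)) (t : 𝓞 K) {s : ℝ} (hs : 1 < s) :
    Summable fun y : J => κ.F s ((y : 𝓞 K) + t) := by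
  refine (κ.summable s hs).comp_injective (i := fun y : J => (y : 𝓞 K) + t) ?_
  intro y y' h
  exact Subtype.ext (add_right_cancel h)

/-- Shifting the coset changes the smoothed sum by a bounded amount. -/
theorem exists_shift_bound (J : Ideal (𝓞 K)) (t : 𝓞 K) : ∃ B : ℝ, ∀ s : ℝ, 1 < s → s ≤ 2 →
    |κ.cosetSum J t s - κ.cosetSum J 0 s| ≤ B := by
  obtain ⟨g, hg, hgb⟩ := κ.shift t
  have hg0 : ∀ y, 0 ≤ g y := fun y =>
    (abs_nonneg _).trans (hgb 2 (by norm_num) le_rfl y)
  refine ⟨∑' y : J, g (y : 𝓞 K), fun s hs1 hs2 => ?_⟩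
  have h1 := κ.summable_coset J t hs1
  have h0 := κ.summable_coset J 0 hs1
  unfold cosetSum
  rw [← h1.tsum_sub h0, ← Real.norm_eq_abs]
  have hgJ : Summable fun y : J => g (y : 𝓞 K) := hg.comp_injective Subtype.val_injective
  refine tsum_of_norm_bounded hgJ.hasSum fun y => ?_
  rw [Real.norm_eq_abs, add_zero]
  exact hgb s hs1 hs2 y

/-- Coset decomposition of `𝓞 K` along an ideal. -/
noncomputable def cosetEquiv (J : Ideal (𝓞 K)) : (𝓞 K ⧸ J) × J ≃ 𝓞 K where
  toFun p := (p.2 : 𝓞 K) + Quotient.out p.1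
  invFun x := (Ideal.Quotient.mk J x, ⟨x - Quotient.out (Ideal.Quotient.mk J x), by
    rw [← Ideal.Quotient.eq, Ideal.Quotient.mk_out]⟩)
  left_inv := by
    rintro ⟨q, y⟩
    have h1 : Ideal.Quotient.mk J ((y : 𝓞 K) + Quotient.out q) = q := by
      rw [map_add, Ideal.Quotient.mk_out, Ideal.Quotient.eq_zero_iff_mem.mpr y.2, zero_add]
    ext
    · exact h1
    · simp only
      rw [h1, add_sub_cancel_right]
  right_inv := by
    intro x
    simp

theorem cosetEquiv_apply (J : Ideal (𝓞 K)) (q : 𝓞 K ⧸ J) (y : J) :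
    cosetEquiv J (q, y) = (y : 𝓞 K) + Quotient.out q := rfl

/-- The total sum is the sum of the coset sums. -/
theorem total_eq_sum_cosetSum (J : Ideal (𝓞 K)) [Fintype (𝓞 K ⧸ J)] {s : ℝ} (hs : 1 < s) :
    κ.total s = ∑ q : 𝓞 K ⧸ J, κ.cosetSum J (Quotient.out q) s := by
  have hsumF := κ.summable s hs
  have hs' : Summable (κ.F s ∘ cosetEquiv J) :=
    ((cosetEquiv J).summable_iff (f := κ.F s)).mpr hsumF
  have e1 : ∑' x : 𝓞 K, κ.F s x = ∑' p : (𝓞 K ⧸ J) × J, (κ.F s ∘ cosetEquiv J) p :=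
    ((cosetEquiv J).tsum_eq (κ.F s)).symm
  have hsumq' : ∀ q : 𝓞 K ⧸ J, Summable fun y : J => (κ.F s ∘ cosetEquiv J) (q, y) := by
    intro q
    simp only [Function.comp_apply, cosetEquiv_apply]
    exact κ.summable_coset J _ hs
  unfold total cosetSum
  rw [e1, hs'.tsum_prod' hsumq', tsum_fintype]
  simp only [Function.comp_apply, cosetEquiv_apply]

/-- **Coset comparison**: `N(J) * ∑_{y ∈ J} F s (y + t) = ∑_x F s x + O(1)` uniformly in
`s ∈ (1, 2]`. -/
theorem exists_coset_bound (J : Ideal (𝓞 K)) (hJ : J ≠ ⊥) (t : 𝓞 K) :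
    ∃ B : ℝ, ∀ s : ℝ, 1 < s → s ≤ 2 →
      |(Ideal.absNorm J : ℝ) * κ.cosetSum J t s - κ.total s| ≤ B := by
  classical
  have : Finite (𝓞 K ⧸ J) := Ideal.finiteQuotientOfFreeOfNeBot J hJ
  let _ : Fintype (𝓞 K ⧸ J) := Fintype.ofFinite _
  have hcard : (Ideal.absNorm J : ℝ) = Fintype.card (𝓞 K ⧸ J) := by
    rw [Ideal.absNorm_apply, Submodule.cardQuot_apply, Nat.card_eq_fintype_card]
  choose B hB using fun t : 𝓞 K => κ.exists_shift_bound J t
  refine ⟨(Ideal.absNorm J : ℝ) * B t + ∑ q : 𝓞 K ⧸ J, B (Quotient.out q),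
    fun s hs1 hs2 => ?_⟩
  have h1 := κ.total_eq_sum_cosetSum J hs1
  have h2 : (Ideal.absNorm J : ℝ) * κ.cosetSum J 0 s =
      ∑ _q : 𝓞 K ⧸ J, κ.cosetSum J 0 s := by
    rw [Finset.sum_const, Finset.card_univ, nsmul_eq_mul, hcard]
  have h3 : |(Ideal.absNorm J : ℝ) * κ.cosetSum J 0 s - κ.total s| ≤
      ∑ q : 𝓞 K ⧸ J, B (Quotient.out q) := by
    rw [h1, h2, ← Finset.sum_sub_distrib]
    refine (Finset.abs_sum_le_sum_abs _ _).trans (Finset.sum_le_sum fun q _ => ?_)
    rw [abs_sub_comm]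
    exact hB _ s hs1 hs2
  have h4 : |(Ideal.absNorm J : ℝ) * κ.cosetSum J t s -
      (Ideal.absNorm J : ℝ) * κ.cosetSum J 0 s| ≤ (Ideal.absNorm J : ℝ) * B t := by
    rw [← mul_sub, abs_mul, abs_of_nonneg (Nat.cast_nonneg _)]
    exact mul_le_mul_of_nonneg_left (hB t s hs1 hs2) (Nat.cast_nonneg _)
  calc |(Ideal.absNorm J : ℝ) * κ.cosetSum J t s - κ.total s|
      = |((Ideal.absNorm J : ℝ) * κ.cosetSum J t s -
          (Ideal.absNorm J : ℝ) * κ.cosetSum J 0 s) +
          ((Ideal.absNorm J : ℝ) * κ.cosetSum J 0 s - κ.total s)| := by ring_nf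
    _ ≤ _ := (abs_add_le _ _).trans (add_le_add h4 h3)

end UnitKernel

end Fermat.Agent.S55.H963

end
-- ===== PACK-END S55/H963/Kernel.lean

-- ===== PACK-BEGIN S55/G/Rec/HP/InflInj.lean
section


/-!
# S55 / REC / HP : injectivity of inflation in degree 2, cochain form

Abstract lemma (no finiteness, no topology): let `ρ : Γ → D` be a surjective homomorphism,
`A` a `Γ`-module, `B` a `D`-module and `φ : B → A` an injective `ρ`-equivariant additive map
whose image contains the `ker ρ`-invariants of `A`.  Let `f` be a 2-cocycle of `D` in `B` whose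
inflation `φ ∘ f ∘ (ρ × ρ)` is the coboundary of a 1-cochain `b : Γ → A`.  If the 1-cocycle
`n ↦ b n - φ (f (1, 1))` of `ker ρ` is a coboundary (Hilbert 90), then `f` is a coboundary.
-/

set_option autoImplicit false

open CategoryTheory groupCohomology

namespace Fermat.Agent.S55.G.Rec.HP

variable {k Γ D : Type} [CommRing k] [Group Γ] [Group D]

/-- **Inflation is injective on `H²`** (cochain form, Hilbert 90 as hypothesis `ha`). -/
theorem mem_coboundaries₂_of_infl (A : Rep.{0} k Γ) (B : Rep.{0} k D) (ρ : Γ →* D)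
    (hρ : Function.Surjective ρ) (φ : B.V →+ A.V) (hφinj : Function.Injective φ)
    (hφeq : ∀ (τ : Γ) (y : B.V), φ (B.ρ (ρ τ) y) = A.ρ τ (φ y))
    (hφrange : ∀ a : A.V, (∀ n : Γ, ρ n = 1 → A.ρ n a = a) → ∃ y, φ y = a)
    (f : D × D → B.V) (hf : f ∈ cocycles₂ B) (b : Γ → A.V)
    (hb : ∀ τ τ' : Γ, A.ρ τ (b τ') - b (τ * τ') + b τ = φ (f (ρ τ, ρ τ')))
    (a : A.V) (ha : ∀ n : Γ, ρ n = 1 → b n - φ (f (1, 1)) = A.ρ n a - a) :
    f ∈ coboundaries₂ B := by
  classical
  set e : A.V := φ (f (1, 1)) with he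
  -- the corrected cochain
  set b' : Γ → A.V := fun τ => b τ - e - (A.ρ τ a - a) with hb'
  have hker : ∀ n : Γ, ρ n = 1 → b' n = 0 := by
    intro n hn
    simp only [hb']
    rw [ha n hn, sub_self]
  have hne : ∀ n : Γ, ρ n = 1 → A.ρ n e = e := by
    intro n hn
    rw [he, ← hφeq, hn, map_one]
    rfl
  -- coboundary of `b'`
  have hdb' : ∀ τ τ' : Γ, A.ρ τ (b' τ') - b' (τ * τ') + b' τ = φ (f (ρ τ, ρ τ')) - A.ρ τ e := by
    intro τ τ'
    have h := hb τ τ'
    simp only [hb', map_sub, map_mul, Module.End.mul_apply]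
    rw [← h]
    abel
  have hf1 : ∀ x : D, f (x, 1) = B.ρ x (f (1, 1)) := fun x =>
    cocycles₂_map_one_snd ⟨f, hf⟩ x
  have hf2 : ∀ x : D, f (1, x) = f (1, 1) := fun x =>
    cocycles₂_map_one_fst ⟨f, hf⟩ x
  -- right invariance
  have hright : ∀ (τ n : Γ), ρ n = 1 → b' (τ * n) = b' τ := by
    intro τ n hn
    have h := hdb' τ n
    rw [hker n hn, map_zero, zero_sub, hn, hf1, hφeq, ← he, sub_self] at h
    rwa [neg_add_eq_zero] at h
  -- values are fixed by `ker ρ`
  have hfix : ∀ (τ n : Γ), ρ n = 1 → A.ρ n (b' τ) = b' τ := by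
    intro τ n hn
    have h := hdb' n τ
    have hconj : b' (n * τ) = b' τ := by
      have : n * τ = τ * (τ⁻¹ * n * τ) := by group
      rw [this]
      apply hright
      simp [hn]
    rw [hconj, hker n hn, add_zero, hn, hf2, ← he, hne n hn, sub_self, sub_eq_zero] at h
    exact h
  -- descend
  have hex : ∀ τ : Γ, ∃ y : B.V, φ y = b' τ := fun τ => hφrange _ (hfix τ)
  choose y hy using hex
  let s : D → Γ := Function.surjInv hρ
  have hs : ∀ x, ρ (s x) = x := Function.surjInv_eq hρ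
  have hbar : ∀ τ : Γ, φ (y (s (ρ τ))) = b' τ := by
    intro τ
    rw [hy]
    have : τ = s (ρ τ) * ((s (ρ τ))⁻¹ * τ) := by group
    conv_rhs => rw [this]
    symm
    apply hright
    simp [hs]
  refine ⟨fun x => y (s x) + f (1, 1), ?_⟩
  funext ⟨x, x'⟩
  rw [d₁₂_hom_apply]
  apply hφinj
  obtain ⟨τ, rfl⟩ := hρ x
  obtain ⟨τ', rfl⟩ := hρ x'
  have h := hdb' τ τ'
  simp only [map_add, map_sub, hφeq, ← map_mul, hbar]
  rw [← he]
  have h' : A.ρ τ (b' τ') - b' (τ * τ') + b' τ + A.ρ τ e = φ (f (ρ τ, ρ τ')) := by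
    rw [h]; abel
  rw [← h']
  abel

end Fermat.Agent.S55.G.Rec.HP

end
-- ===== PACK-END S55/G/Rec/HP/InflInj.lean

-- ===== PACK-BEGIN S55/G/Rec/StepAAlgH511.lean
section


/-!
# S55 / layer G / block REC / STEP A : Mathlib-only algebra (helper511)

* `H511.chi_eq_one_of_mem_range` : a character `χ` (odd order) which is trivial on `ker c` is trivial
  on every element whose `c`-value is `± c κ`, `κ ∈ ker χ`.
* `H511.addCircle_sum_eq_zero` : `∑ kᵢ • xᵢ = 0` in `ℤ/n` ⟹ `∑ kᵢ · val xᵢ / n = 0` in `ℚ/ℤ`.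
* `H511.norm_prod_sub_prod_le` : ultrametric estimate for products.
* `H511.unit_prod_eq_pm` : `y ∈ ℚˣ` with `y ≡ ± ℓ^K · P mod ℓ^(K+e)` ⟹
  `∏_{q ≠ ℓ} q ^ v_q(y) = ± P` in `(ℤ/ℓ^e)ˣ`.
-/

set_option autoImplicit false
set_option linter.style.haveILetI false

namespace Fermat.Agent.S55.G.Rec.H511

/-! ## Characters -/

lemma zmod_eq_zero_of_add_self {n : ℕ} (hn : Odd n) (x : ZMod n) (h : x + x = 0) : x = 0 := by
  obtain ⟨j, hj⟩ := hn
  have h1 : (n : ℕ) • x = 0 := by
    rw [nsmul_eq_mul, ZMod.natCast_self, zero_mul]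
  have h2 : ∀ k : ℕ, k = 2 * j + 1 → k • x = j • (x + x) + x := by
    intro k hk
    rw [hk, add_smul, one_smul, mul_comm, mul_smul, two_smul]
  rw [h2 n hj, h, smul_zero, zero_add] at h1
  exact h1

theorem chi_eq_one_of_mem_range {U C : Type*} [Group U] [CommGroup C] {n : ℕ} (hn : Odd n)
    (c : U →* C) (χ : U →* Multiplicative (ZMod n)) (hcyc : ∀ σ, c σ = 1 → χ σ = 1)
    {t : C} {w : Multiplicative (ZMod n)} (hmem : (t, w) ∈ (c.prod χ).range)
    (ε : C) (hε : ε * ε = 1) (κ : U) (hκ : χ κ = 1) (ht : t = c κ ∨ t = ε * c κ) : w = 1 := by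
  obtain ⟨σ, hσ⟩ := hmem
  have h1 : c σ = t := congrArg Prod.fst hσ
  have h2 : χ σ = w := congrArg Prod.snd hσ
  have h3 : c (σ * σ * (κ⁻¹ * κ⁻¹)) = 1 := by
    simp only [map_mul, map_inv, h1]
    rcases ht with ht | ht
    · rw [ht]; group
    · rw [ht]
      calc ε * c κ * (ε * c κ) * ((c κ)⁻¹ * (c κ)⁻¹) = (ε * ε) * (c κ * (c κ)⁻¹) * (c κ * (c κ)⁻¹) := by
            simp only [mul_comm, mul_left_comm, mul_assoc]
        _ = 1 := by rw [hε, mul_inv_cancel, one_mul, one_mul]
  have h4 := hcyc _ h3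
  simp only [map_mul, map_inv, h2, hκ, inv_one, mul_one] at h4
  have h5 : Multiplicative.toAdd w + Multiplicative.toAdd w = 0 := by
    have := congrArg Multiplicative.toAdd h4
    simpa using this
  have h6 := zmod_eq_zero_of_add_self hn _ h5
  exact Multiplicative.toAdd.injective h6

/-! ## Sums in `ℚ/ℤ` -/

lemma addCircle_sum_eq_zero {ι : Type*} (s : Finset ι) (n : ℕ) [NeZero n] (k : ι → ℤ)
    (x : ι → ZMod n) (h : ∑ i ∈ s, k i • x i = 0) :
    ∑ i ∈ s, ((((k i : ℚ) * (((x i).val : ℕ) : ℚ) / (n : ℚ) : ℚ)) : AddCircle (1 : ℚ)) = 0 := by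
  have hn : (n : ℚ) ≠ 0 := Nat.cast_ne_zero.mpr (NeZero.ne n)
  set J : ℤ := ∑ i ∈ s, k i * ((x i).val : ℤ) with hJ
  have hJ0 : ((J : ℤ) : ZMod n) = 0 := by
    rw [hJ, Int.cast_sum, ← h]
    refine Finset.sum_congr rfl fun i _ => ?_
    rw [Int.cast_mul, Int.cast_natCast, ZMod.natCast_val, ZMod.cast_id', id, zsmul_eq_mul]
  obtain ⟨t, ht⟩ := (ZMod.intCast_zmod_eq_zero_iff_dvd J n).mp hJ0
  have hsum : ∑ i ∈ s, ((k i : ℚ) * (((x i).val : ℕ) : ℚ) / (n : ℚ) : ℚ) = (t : ℚ) := by
    rw [← Finset.sum_div]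
    have : (∑ i ∈ s, (k i : ℚ) * (((x i).val : ℕ) : ℚ)) = ((J : ℤ) : ℚ) := by
      rw [hJ]; push_cast; rfl
    rw [this, ht]
    push_cast
    field_simp
  have hcoe : ∑ i ∈ s, ((((k i : ℚ) * (((x i).val : ℕ) : ℚ) / (n : ℚ) : ℚ)) : AddCircle (1 : ℚ))
      = ((∑ i ∈ s, ((k i : ℚ) * (((x i).val : ℕ) : ℚ) / (n : ℚ) : ℚ) : ℚ) : AddCircle (1 : ℚ)) :=
    (map_sum (QuotientAddGroup.mk' (AddSubgroup.zmultiples (1 : ℚ))) _ s).symm
  rw [hcoe, hsum]
  exact (AddCircle.coe_eq_zero_iff (p := (1 : ℚ))).mpr ⟨t, by simp⟩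

/-! ## Ultrametric product estimate -/

lemma norm_prod_sub_prod_le {𝕜 ι : Type*} [NormedField 𝕜] [IsUltrametricDist 𝕜]
    (s : Finset ι) (x y : ι → 𝕜) (ε : ℝ) (hε0 : 0 ≤ ε) (hε : ε ≤ 1)
    (h : ∀ i ∈ s, ‖x i - y i‖ ≤ ε * ‖y i‖) :
    ‖∏ i ∈ s, x i‖ ≤ ∏ i ∈ s, ‖y i‖ ∧
      ‖∏ i ∈ s, x i - ∏ i ∈ s, y i‖ ≤ ε * ∏ i ∈ s, ‖y i‖ := by
  classical
  induction s using Finset.induction_on with
  | empty => simp [hε0]
  | insert a s ha ih =>
    obtain ⟨ih1, ih2⟩ := ih fun i hi => h i (Finset.mem_insert_of_mem hi)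
    have hxa : ‖x a‖ ≤ ‖y a‖ := by
      have h1 : x a = (x a - y a) + y a := by ring
      rw [h1]
      refine (IsUltrametricDist.norm_add_le_max _ _).trans (max_le ?_ le_rfl)
      refine (h a (Finset.mem_insert_self a s)).trans ?_
      exact mul_le_of_le_one_left (norm_nonneg _) hε
    have hY : 0 ≤ ∏ i ∈ s, ‖y i‖ := Finset.prod_nonneg fun i _ => norm_nonneg _
    rw [Finset.prod_insert ha, Finset.prod_insert ha, Finset.prod_insert ha]
    refine ⟨?_, ?_⟩
    · rw [norm_mul]
      exact mul_le_mul hxa ih1 (norm_nonneg _) (norm_nonneg _)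
    · have h1 : x a * ∏ i ∈ s, x i - y a * ∏ i ∈ s, y i =
          (x a - y a) * ∏ i ∈ s, x i + y a * (∏ i ∈ s, x i - ∏ i ∈ s, y i) := by ring
      rw [h1]
      refine (IsUltrametricDist.norm_add_le_max _ _).trans (max_le ?_ ?_)
      · rw [norm_mul]
        calc ‖x a - y a‖ * ‖∏ i ∈ s, x i‖ ≤ (ε * ‖y a‖) * ∏ i ∈ s, ‖y i‖ :=
              mul_le_mul (h a (Finset.mem_insert_self a s)) ih1 (norm_nonneg _)
                (mul_nonneg hε0 (norm_nonneg _))
          _ = ε * (‖y a‖ * ∏ i ∈ s, ‖y i‖) := by ring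
      · rw [norm_mul]
        calc ‖y a‖ * ‖∏ i ∈ s, x i - ∏ i ∈ s, y i‖ ≤ ‖y a‖ * (ε * ∏ i ∈ s, ‖y i‖) :=
              mul_le_mul_of_nonneg_left ih2 (norm_nonneg _)
          _ = ε * (‖y a‖ * ∏ i ∈ s, ‖y i‖) := by ring

/-! ## Rational numbers modulo `ℓ ^ e` -/

lemma coe_prod_pow_padicValNat {m : ℕ} (u : ℕ → (ZMod m)ˣ) (T : Finset ℕ)
    (hTp : ∀ q ∈ T, q.Prime)
    (hu : ∀ q ∈ T, ((u q : (ZMod m)ˣ) : ZMod m) = (q : ZMod m))
    (A : ℕ) (hA : A ≠ 0) (hprimes : ∀ q, q.Prime → q ∣ A → q ∈ T) :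
    ((∏ q ∈ T, u q ^ padicValNat q A : (ZMod m)ˣ) : ZMod m) = (A : ZMod m) := by
  have h1 : ∏ q ∈ T, q ^ padicValNat q A = A := by
    have h2 : ∏ q ∈ A.primeFactors, q ^ A.factorization q = A := by
      rw [← Nat.prod_factorization_eq_prod_primeFactors (fun p k => p ^ k)]
      exact Nat.factorization_prod_pow_eq_self hA
    have hsub : A.primeFactors ⊆ T := fun q hq =>
      hprimes q (Nat.prime_of_mem_primeFactors hq) (Nat.dvd_of_mem_primeFactors hq)
    have h3 : ∏ q ∈ T, q ^ padicValNat q A = ∏ q ∈ A.primeFactors, q ^ A.factorization q := by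
      symm
      refine Finset.prod_subset_one_on_sdiff hsub ?_ ?_
      · intro q hq
        rw [Finset.mem_sdiff] at hq
        have hq' : ¬ q ∣ A := fun hd =>
          hq.2 (Nat.mem_primeFactors.mpr ⟨hTp q hq.1, hd, hA⟩)
        haveI : Fact q.Prime := ⟨hTp q hq.1⟩
        rw [padicValNat.eq_zero_of_not_dvd hq', pow_zero]
      · intro q hq
        rw [Nat.factorization_def A (Nat.prime_of_mem_primeFactors hq)]
    rw [h3, h2]
  rw [Units.coe_prod]
  calc ∏ q ∈ T, ((u q ^ padicValNat q A : (ZMod m)ˣ) : ZMod m)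
      = ∏ q ∈ T, ((q : ZMod m)) ^ padicValNat q A := by
        refine Finset.prod_congr rfl fun q hq => ?_
        rw [Units.val_pow_eq_pow_val, hu q hq]
    _ = ((∏ q ∈ T, q ^ padicValNat q A : ℕ) : ZMod m) := by
        rw [Nat.cast_prod]
        exact Finset.prod_congr rfl fun q _ => (Nat.cast_pow _ _).symm
    _ = (A : ZMod m) := by rw [h1]

theorem unit_prod_eq_pm (ℓ : ℕ) [Fact ℓ.Prime] (e : ℕ) (y : ℚ) (hy : y ≠ 0)
    (s : ℤˣ) (K : ℤ) (P : ℕ) (hP : ¬ ℓ ∣ P)
    (hest : ‖(y : ℚ_[ℓ]) - ((s : ℤ) : ℚ_[ℓ]) * (ℓ : ℚ_[ℓ]) ^ K * (P : ℚ_[ℓ])‖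
      ≤ ‖(ℓ : ℚ_[ℓ])‖ ^ (K + e))
    (he : 0 < e)
    (u : ℕ → (ZMod (ℓ ^ e))ˣ) (T : Finset ℕ) (hT : ∀ q ∈ T, q.Prime ∧ q ≠ ℓ)
    (hu : ∀ q ∈ T, ((u q : (ZMod (ℓ ^ e))ˣ) : ZMod (ℓ ^ e)) = (q : ZMod (ℓ ^ e)))
    (hsupp : ∀ q : ℕ, q.Prime → q ≠ ℓ → padicValRat q y ≠ 0 → q ∈ T)
    (uP : (ZMod (ℓ ^ e))ˣ) (huP : (uP : ZMod (ℓ ^ e)) = (P : ZMod (ℓ ^ e))) :
    ∏ q ∈ T, u q ^ padicValRat q y = uP ∨ ∏ q ∈ T, u q ^ padicValRat q y = -uP := by
  have hℓ : ℓ.Prime := Fact.out
  have hℓ0 : (ℓ : ℚ) ≠ 0 := Nat.cast_ne_zero.mpr hℓ.ne_zero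
  have hℓ0' : (ℓ : ℚ_[ℓ]) ≠ 0 := Nat.cast_ne_zero.mpr hℓ.ne_zero
  have hs : ((s : ℤ) : ℚ) ≠ 0 := by
    rcases Int.units_eq_one_or s with h | h <;> simp [h]
  set w : ℚ := ((s : ℤ) : ℚ) * (ℓ : ℚ) ^ K with hw
  have hw0 : w ≠ 0 := mul_ne_zero hs (zpow_ne_zero _ hℓ0)
  set z : ℚ := y / w with hz
  have hz0 : z ≠ 0 := div_ne_zero hy hw0
  have hyz : y = w * z := by rw [hz]; field_simp
  -- the estimate for `z`
  have hwcast : (w : ℚ_[ℓ]) = ((s : ℤ) : ℚ_[ℓ]) * (ℓ : ℚ_[ℓ]) ^ K := by
    rw [hw]; push_cast; rfl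
  have hsnorm : ‖((s : ℤ) : ℚ_[ℓ])‖ = 1 := by
    rcases Int.units_eq_one_or s with h | h <;> simp [h]
  have hwnorm : ‖(w : ℚ_[ℓ])‖ = ‖(ℓ : ℚ_[ℓ])‖ ^ K := by
    rw [hwcast, norm_mul, hsnorm, one_mul, norm_zpow]
  have hℓnorm : 0 < ‖(ℓ : ℚ_[ℓ])‖ := norm_pos_iff.mpr hℓ0'
  have hzest : ‖(z : ℚ_[ℓ]) - (P : ℚ_[ℓ])‖ ≤ ‖(ℓ : ℚ_[ℓ])‖ ^ e := by
    have h1 : (y : ℚ_[ℓ]) - ((s : ℤ) : ℚ_[ℓ]) * (ℓ : ℚ_[ℓ]) ^ K * (P : ℚ_[ℓ]) =
        (w : ℚ_[ℓ]) * ((z : ℚ_[ℓ]) - (P : ℚ_[ℓ])) := by
      rw [hyz, Rat.cast_mul, ← hwcast]; ring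
    rw [h1, norm_mul, hwnorm, zpow_add₀ hℓnorm.ne', zpow_natCast] at hest
    exact le_of_mul_le_mul_left hest (zpow_pos hℓnorm K)
  -- numerator and denominator
  set a : ℤ := z.num with ha
  set b : ℕ := z.den with hb
  have hb0 : b ≠ 0 := z.den_ne_zero
  have ha0 : a ≠ 0 := Rat.num_ne_zero.mpr hz0
  have hzab : (z : ℚ_[ℓ]) = (a : ℚ_[ℓ]) / (b : ℚ_[ℓ]) := by
    conv_lhs => rw [← Rat.num_div_den z]
    push_cast; rfl
  have hbℓ0 : (b : ℚ_[ℓ]) ≠ 0 := Nat.cast_ne_zero.mpr hb0
  have hdiv : ((ℓ ^ e : ℕ) : ℤ) ∣ a - (P : ℤ) * (b : ℤ) := by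
    have h1 : ((a - (P : ℤ) * (b : ℤ) : ℤ) : ℚ_[ℓ]) =
        (b : ℚ_[ℓ]) * ((z : ℚ_[ℓ]) - (P : ℚ_[ℓ])) := by
      rw [hzab]; push_cast; field_simp
    have h2 : ‖((a - (P : ℤ) * (b : ℤ) : ℤ) : ℚ_[ℓ])‖ ≤ (ℓ : ℝ) ^ (-(e : ℤ)) := by
      rw [h1, norm_mul]
      have hb1 : ‖(b : ℚ_[ℓ])‖ ≤ 1 := by
        have := Padic.norm_int_le_one (p := ℓ) (b : ℤ)
        simpa using this
      calc ‖(b : ℚ_[ℓ])‖ * ‖(z : ℚ_[ℓ]) - (P : ℚ_[ℓ])‖
          ≤ 1 * ‖(ℓ : ℚ_[ℓ])‖ ^ e :=
            mul_le_mul hb1 hzest (norm_nonneg _) zero_le_one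
        _ = (ℓ : ℝ) ^ (-(e : ℤ)) := by
            rw [one_mul, Padic.norm_p, inv_pow, zpow_neg, zpow_natCast]
    have h3 := (Padic.norm_int_le_pow_iff_dvd (p := ℓ) (a - (P : ℤ) * (b : ℤ)) e).mp h2
    simpa using h3
  have hcop : Nat.Coprime a.natAbs b := z.reduced
  have hℓdvd : ((ℓ : ℕ) : ℤ) ∣ a - (P : ℤ) * (b : ℤ) := by
    refine dvd_trans ?_ hdiv
    exact_mod_cast dvd_pow_self ℓ he.ne'
  have hℓb : ¬ ℓ ∣ b := by
    intro hbd
    have h1 : ((ℓ : ℕ) : ℤ) ∣ a := by
      have h2 : ((ℓ : ℕ) : ℤ) ∣ (P : ℤ) * (b : ℤ) :=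
        Dvd.dvd.mul_left (Int.natCast_dvd_natCast.mpr hbd) _
      have := dvd_add hℓdvd h2
      simpa using this
    have h3 : ℓ ∣ a.natAbs := Int.natCast_dvd.mp h1
    have := Nat.eq_one_of_dvd_coprimes hcop h3 hbd
    exact hℓ.one_lt.ne' this
  have hℓa : ¬ ℓ ∣ a.natAbs := by
    intro had
    have h1 : ((ℓ : ℕ) : ℤ) ∣ a := Int.natCast_dvd.mpr had
    have h2 : ((ℓ : ℕ) : ℤ) ∣ (P : ℤ) * (b : ℤ) := by
      have := dvd_sub h1 hℓdvd
      simpa using this
    have h3 : ℓ ∣ P * b := by exact_mod_cast h2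
    rcases hℓ.dvd_mul.mp h3 with h | h
    · exact hP h
    · exact hℓb h
  set A : ℕ := a.natAbs with hA
  have hA0 : A ≠ 0 := Int.natAbs_ne_zero.mpr ha0
  -- valuations
  have hval : ∀ q ∈ T, padicValRat q y = (padicValNat q A : ℤ) - (padicValNat q b : ℤ) := by
    intro q hq
    haveI : Fact q.Prime := ⟨(hT q hq).1⟩
    have hqℓ : ¬ q ∣ ℓ := fun h =>
      (hT q hq).2 ((Nat.prime_dvd_prime_iff_eq (hT q hq).1 hℓ).mp h)
    have h1 : padicValRat q w = 0 := by
      rw [hw, padicValRat.mul hs (zpow_ne_zero _ hℓ0), padicValRat.zpow, padicValRat.of_nat,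
        padicValNat.eq_zero_of_not_dvd hqℓ]
      rcases Int.units_eq_one_or s with h | h
      · simp [h]
      · rw [h]
        have : (((-1 : ℤˣ) : ℤ) : ℚ) = -1 := by simp
        rw [this, padicValRat.neg, padicValRat.one]
        simp
    rw [hyz, padicValRat.mul hw0 hz0, h1, zero_add]
    rfl
  have hprA : ∀ q, q.Prime → q ∣ A → q ∈ T := by
    intro q hq hqA
    haveI : Fact q.Prime := ⟨hq⟩
    have hqℓ : q ≠ ℓ := fun h => hℓa (h ▸ hqA)
    have hqb : ¬ q ∣ b := fun hqb =>
      hq.one_lt.ne' (Nat.eq_one_of_dvd_coprimes hcop hqA hqb)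
    refine hsupp q hq hqℓ ?_
    have hqw : padicValRat q w = 0 := by
      have hqℓ' : ¬ q ∣ ℓ := fun h => hqℓ ((Nat.prime_dvd_prime_iff_eq hq hℓ).mp h)
      rw [hw, padicValRat.mul hs (zpow_ne_zero _ hℓ0), padicValRat.zpow, padicValRat.of_nat,
        padicValNat.eq_zero_of_not_dvd hqℓ']
      rcases Int.units_eq_one_or s with h | h
      · simp [h]
      · rw [h]
        have : (((-1 : ℤˣ) : ℤ) : ℚ) = -1 := by simp
        rw [this, padicValRat.neg, padicValRat.one]
        simp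
    rw [hyz, padicValRat.mul hw0 hz0, hqw, zero_add]
    show (padicValInt q z.num : ℤ) - (padicValNat q z.den : ℤ) ≠ 0
    have h1 : padicValNat q b = 0 := padicValNat.eq_zero_of_not_dvd hqb
    have h2 : 1 ≤ padicValNat q A := one_le_padicValNat_of_dvd hA0 hqA
    have h3 : padicValInt q z.num = padicValNat q A := rfl
    rw [h3, ← hb, h1]
    omega
  have hprB : ∀ q, q.Prime → q ∣ b → q ∈ T := by
    intro q hq hqb
    haveI : Fact q.Prime := ⟨hq⟩
    have hqℓ : q ≠ ℓ := fun h => hℓb (h ▸ hqb)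
    have hqA : ¬ q ∣ A := fun hqA =>
      hq.one_lt.ne' (Nat.eq_one_of_dvd_coprimes hcop hqA hqb)
    refine hsupp q hq hqℓ ?_
    have hqw : padicValRat q w = 0 := by
      have hqℓ' : ¬ q ∣ ℓ := fun h => hqℓ ((Nat.prime_dvd_prime_iff_eq hq hℓ).mp h)
      rw [hw, padicValRat.mul hs (zpow_ne_zero _ hℓ0), padicValRat.zpow, padicValRat.of_nat,
        padicValNat.eq_zero_of_not_dvd hqℓ']
      rcases Int.units_eq_one_or s with h | h
      · simp [h]
      · rw [h]
        have : (((-1 : ℤˣ) : ℤ) : ℚ) = -1 := by simp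
        rw [this, padicValRat.neg, padicValRat.one]
        simp
    rw [hyz, padicValRat.mul hw0 hz0, hqw, zero_add]
    show (padicValInt q z.num : ℤ) - (padicValNat q z.den : ℤ) ≠ 0
    have h1 : padicValNat q A = 0 := padicValNat.eq_zero_of_not_dvd hqA
    have h2 : 1 ≤ padicValNat q b := one_le_padicValNat_of_dvd hb0 hqb
    have h3 : padicValInt q z.num = padicValNat q A := rfl
    rw [h3, ← hb, h1]
    omega
  -- the two unit products
  set UA : (ZMod (ℓ ^ e))ˣ := ∏ q ∈ T, u q ^ padicValNat q A with hUA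
  set UB : (ZMod (ℓ ^ e))ˣ := ∏ q ∈ T, u q ^ padicValNat q b with hUB
  have hUAc : ((UA : (ZMod (ℓ ^ e))ˣ) : ZMod (ℓ ^ e)) = (A : ZMod (ℓ ^ e)) :=
    coe_prod_pow_padicValNat u T (fun q hq => (hT q hq).1) hu A hA0 hprA
  have hUBc : ((UB : (ZMod (ℓ ^ e))ˣ) : ZMod (ℓ ^ e)) = (b : ZMod (ℓ ^ e)) :=
    coe_prod_pow_padicValNat u T (fun q hq => (hT q hq).1) hu b hb0 hprB
  have hprod : ∏ q ∈ T, u q ^ padicValRat q y = UA * UB⁻¹ := by
    rw [hUA, hUB, ← Finset.prod_inv_distrib, ← Finset.prod_mul_distrib]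
    refine Finset.prod_congr rfl fun q hq => ?_
    rw [hval q hq, zpow_sub, zpow_natCast, zpow_natCast]
  have hcong : ((a : ℤ) : ZMod (ℓ ^ e)) = (P : ZMod (ℓ ^ e)) * (b : ZMod (ℓ ^ e)) := by
    have h1 := (ZMod.intCast_zmod_eq_zero_iff_dvd (a - (P : ℤ) * (b : ℤ)) (ℓ ^ e)).mpr hdiv
    push_cast at h1
    exact sub_eq_zero.mp h1
  rw [hprod]
  rcases Int.natAbs_eq a with h | h
  · left
    rw [mul_inv_eq_iff_eq_mul]
    apply Units.ext
    rw [Units.val_mul, hUAc, hUBc, huP, ← hcong, hA]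
    conv_rhs => rw [h]
    simp
  · right
    rw [mul_inv_eq_iff_eq_mul]
    apply Units.ext
    rw [Units.val_mul, Units.val_neg, hUAc, hUBc, huP, neg_mul, ← hcong, hA]
    conv_rhs => rw [h]
    simp

end Fermat.Agent.S55.G.Rec.H511

end
-- ===== PACK-END S55/G/Rec/StepAAlgH511.lean

-- ===== PACK-BEGIN S55/G/Rec/H473Carry.lean
section


/-!
# S55 / layer G / block REC, leaf A1 (arithmetic part): the carry function of a character

For a character `χ : G →* Multiplicative (ZMod n)` (`n ≠ 0`) we define the canonical lift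
`lift χ g ∈ {0, …, n-1}` and the carry `carry χ g h = (lift χ g + lift χ h) / n ∈ {0, 1}`,
so that `lift χ g + lift χ h = lift χ (g * h) + n * carry χ g h`.

Main facts: the cocycle identity `carry_cocycle`, the coboundary identity `carry_mul`
for a product of two characters, and compatibility with composition.
-/

set_option autoImplicit false

namespace Fermat.Agent.S55.G.Rec

variable {G : Type*} [Monoid G] {n : ℕ} [NeZero n]

/-- The canonical lift `χ̃(g) ∈ {0, …, n-1}` of the value of a character. -/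
def lift (χ : G →* Multiplicative (ZMod n)) (g : G) : ℕ :=
  (Multiplicative.toAdd (χ g)).val

/-- The carry `ε_χ(g,h) = (χ̃ g + χ̃ h - χ̃ (g h)) / n ∈ {0, 1}`. -/
def carry (χ : G →* Multiplicative (ZMod n)) (g h : G) : ℕ :=
  (lift χ g + lift χ h) / n

theorem lift_lt (χ : G →* Multiplicative (ZMod n)) (g : G) : lift χ g < n :=
  ZMod.val_lt _

omit [NeZero n] in
@[simp] theorem lift_one_char (g : G) : lift (1 : G →* Multiplicative (ZMod n)) g = 0 := by
  simp [lift]

omit [NeZero n] in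
@[simp] theorem lift_map_one (χ : G →* Multiplicative (ZMod n)) : lift χ 1 = 0 := by
  simp [lift]

theorem lift_mul (χ : G →* Multiplicative (ZMod n)) (g h : G) :
    lift χ (g * h) = (lift χ g + lift χ h) % n := by
  simp only [lift, map_mul, toAdd_mul]
  exact ZMod.val_add _ _

theorem lift_mul_char (χ χ' : G →* Multiplicative (ZMod n)) (g : G) :
    lift (χ * χ') g = (lift χ g + lift χ' g) % n := by
  simp only [lift, MonoidHom.mul_apply, toAdd_mul]
  exact ZMod.val_add _ _

/-- The defining relation of the carry. -/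
theorem lift_add_lift (χ : G →* Multiplicative (ZMod n)) (g h : G) :
    lift χ g + lift χ h = lift χ (g * h) + n * carry χ g h := by
  rw [lift_mul, carry]
  exact (Nat.mod_add_div _ _).symm

theorem carry_le_one (χ : G →* Multiplicative (ZMod n)) (g h : G) : carry χ g h ≤ 1 := by
  have h1 := lift_lt χ g
  have h2 := lift_lt χ h
  have hn : 0 < n := Nat.pos_of_ne_zero (NeZero.ne n)
  rw [carry]
  have : (lift χ g + lift χ h) / n < 2 := by
    rw [Nat.div_lt_iff_lt_mul hn]
    omega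
  omega

theorem carry_eq_ite (χ : G →* Multiplicative (ZMod n)) (g h : G) :
    carry χ g h = if n ≤ lift χ g + lift χ h then 1 else 0 := by
  have h1 := lift_lt χ g
  have h2 := lift_lt χ h
  have hn : 0 < n := Nat.pos_of_ne_zero (NeZero.ne n)
  split_ifs with hle
  · have h3 : 0 < carry χ g h := Nat.div_pos hle hn
    have := carry_le_one χ g h
    omega
  · rw [carry]
    exact Nat.div_eq_of_lt (not_le.mp hle)

omit [NeZero n] in
@[simp] theorem carry_one_char (g h : G) : carry (1 : G →* Multiplicative (ZMod n)) g h = 0 := by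
  simp [carry]

@[simp] theorem carry_one_left (χ : G →* Multiplicative (ZMod n)) (h : G) : carry χ 1 h = 0 := by
  rw [carry, lift_map_one, zero_add]
  exact Nat.div_eq_of_lt (lift_lt χ h)

@[simp] theorem carry_one_right (χ : G →* Multiplicative (ZMod n)) (g : G) : carry χ g 1 = 0 := by
  rw [carry, lift_map_one, add_zero]
  exact Nat.div_eq_of_lt (lift_lt χ g)

/-- The cocycle identity for the carry. -/
theorem carry_cocycle (χ : G →* Multiplicative (ZMod n)) (g h j : G) :
    carry χ (g * h) j + carry χ g h = carry χ h j + carry χ g (h * j) := by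
  have hn : 0 < n := Nat.pos_of_ne_zero (NeZero.ne n)
  have e1 := lift_add_lift χ g h
  have e2 := lift_add_lift χ (g * h) j
  have e3 := lift_add_lift χ h j
  have e4 := lift_add_lift χ g (h * j)
  rw [mul_assoc] at e2
  have key : n * (carry χ (g * h) j + carry χ g h) = n * (carry χ h j + carry χ g (h * j)) := by
    rw [mul_add, mul_add]
    omega
  exact Nat.eq_of_mul_eq_mul_left hn key

/-- The correction term `η(g) = (χ̃ g + χ̃' g) / n ∈ {0,1}` for the product of two characters. -/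
def carryChar (χ χ' : G →* Multiplicative (ZMod n)) (g : G) : ℕ :=
  (lift χ g + lift χ' g) / n

theorem lift_add_lift_char (χ χ' : G →* Multiplicative (ZMod n)) (g : G) :
    lift χ g + lift χ' g = lift (χ * χ') g + n * carryChar χ χ' g := by
  rw [lift_mul_char, carryChar]
  exact (Nat.mod_add_div _ _).symm

/-- The coboundary identity: `ε_χ + ε_χ' - ε_{χχ'} = dη`. -/
theorem carry_mul (χ χ' : G →* Multiplicative (ZMod n)) (g h : G) :
    carry χ g h + carry χ' g h + carryChar χ χ' (g * h) =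
      carry (χ * χ') g h + carryChar χ χ' g + carryChar χ χ' h := by
  have hn : 0 < n := Nat.pos_of_ne_zero (NeZero.ne n)
  have e1 := lift_add_lift χ g h
  have e2 := lift_add_lift χ' g h
  have e3 := lift_add_lift (χ * χ') g h
  have e4 := lift_add_lift_char χ χ' g
  have e5 := lift_add_lift_char χ χ' h
  have e6 := lift_add_lift_char χ χ' (g * h)
  have key : n * (carry χ g h + carry χ' g h + carryChar χ χ' (g * h)) =
      n * (carry (χ * χ') g h + carryChar χ χ' g + carryChar χ χ' h) := by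
    rw [mul_add, mul_add, mul_add, mul_add]
    omega
  exact Nat.eq_of_mul_eq_mul_left hn key

omit [NeZero n] in
/-- Compatibility with composition. -/
@[simp] theorem lift_comp {G' : Type*} [Monoid G'] (χ : G →* Multiplicative (ZMod n))
    (f : G' →* G) (g : G') : lift (χ.comp f) g = lift χ (f g) := rfl

omit [NeZero n] in
@[simp] theorem carry_comp {G' : Type*} [Monoid G'] (χ : G →* Multiplicative (ZMod n))
    (f : G' →* G) (g h : G') : carry (χ.comp f) g h = carry χ (f g) (f h) := rfl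

end Fermat.Agent.S55.G.Rec

end
-- ===== PACK-END S55/G/Rec/H473Carry.lean

-- ===== PACK-BEGIN S55/L/H355/CycIdx.lean
section


/-!
# S55, layer L, helper355: discrete logarithm in a finite cyclic group and the carry function

`cidx σ g` is the least `i` with `σ ^ i = g` (when `σ` generates the finite group `G`).
-/

set_option autoImplicit false

namespace Fermat.Agent.S55.L.H355

section

variable {G : Type} [Group G]

open Classical in
/-- Discrete logarithm: the least `i < orderOf σ` with `σ ^ i = g` (junk value `0` if none). -/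
noncomputable def cidx (σ g : G) : ℕ :=
  if h : ∃ i, i < orderOf σ ∧ σ ^ i = g then Nat.find h else 0

variable [Finite G] {σ : G}

theorem exists_lt_pow_eq (hσ : ∀ x, x ∈ Subgroup.zpowers σ) (g : G) :
    ∃ i, i < orderOf σ ∧ σ ^ i = g := by
  have h1 : g ∈ Submonoid.powers σ := mem_powers_iff_mem_zpowers.2 (hσ g)
  obtain ⟨m, hm⟩ := (Submonoid.mem_powers_iff g σ).1 h1
  exact ⟨m % orderOf σ, Nat.mod_lt _ (orderOf_pos σ), by rw [pow_mod_orderOf, hm]⟩

theorem cidx_lt (σ g : G) : cidx σ g < orderOf σ := by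
  classical
  unfold cidx
  split_ifs with h
  · exact (Nat.find_spec h).1
  · exact orderOf_pos σ

theorem pow_cidx (hσ : ∀ x, x ∈ Subgroup.zpowers σ) (g : G) : σ ^ cidx σ g = g := by
  classical
  unfold cidx
  rw [dif_pos (exists_lt_pow_eq hσ g)]
  exact (Nat.find_spec (exists_lt_pow_eq hσ g)).2

theorem cidx_eq_of_lt {i : ℕ} (hi : i < orderOf σ) {g : G} (h : σ ^ i = g) : cidx σ g = i := by
  classical
  have hex : ∃ i, i < orderOf σ ∧ σ ^ i = g := ⟨i, hi, h⟩
  have h1 : cidx σ g < orderOf σ := cidx_lt σ g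
  have h2 : σ ^ cidx σ g = g := by
    unfold cidx
    rw [dif_pos hex]
    exact (Nat.find_spec hex).2
  exact pow_injOn_Iio_orderOf (Set.mem_Iio.2 h1) (Set.mem_Iio.2 hi) (h2.trans h.symm)

theorem cidx_pow (i : ℕ) : cidx σ (σ ^ i) = i % orderOf σ :=
  cidx_eq_of_lt (Nat.mod_lt _ (orderOf_pos σ)) (pow_mod_orderOf σ i)

theorem cidx_one : cidx σ (1 : G) = 0 :=
  cidx_eq_of_lt (orderOf_pos σ) (pow_zero σ)

theorem cidx_mul (hσ : ∀ x, x ∈ Subgroup.zpowers σ) (g h : G) :
    cidx σ (g * h) = (cidx σ g + cidx σ h) % orderOf σ := by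
  have : g * h = σ ^ (cidx σ g + cidx σ h) := by
    rw [pow_add, pow_cidx hσ, pow_cidx hσ]
  rw [this, cidx_pow]

theorem cidx_self : cidx σ σ = 1 % orderOf σ := by
  have := cidx_pow (σ := σ) 1
  rwa [pow_one] at this

theorem cidx_mul_eq_ite (hσ : ∀ x, x ∈ Subgroup.zpowers σ) (g h : G) :
    cidx σ (g * h) = if cidx σ g + cidx σ h < orderOf σ then cidx σ g + cidx σ h
      else cidx σ g + cidx σ h - orderOf σ := by
  rw [cidx_mul hσ]
  have h1 := cidx_lt σ g
  have h2 := cidx_lt σ h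
  split_ifs with hlt
  · exact Nat.mod_eq_of_lt hlt
  · rw [Nat.mod_eq_sub_mod (not_lt.1 hlt)]
    exact Nat.mod_eq_of_lt (by omega)

end

end Fermat.Agent.S55.L.H355

end
-- ===== PACK-END S55/L/H355/CycIdx.lean

-- ===== PACK-BEGIN S55/G/Rec/H742/WAAbs.lean
section


/-!
# S55 / G / REC2-G3 (helper742): weak approximation, elementwise form (Mathlib only)
-/

set_option autoImplicit false
set_option linter.style.haveILetI false

namespace Fermat.Agent.S55.G.Rec.H742

/-- Weak approximation in elementwise form: finitely many nontrivial pairwise inequivalent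
absolute values, arbitrary targets. -/
theorem exists_approx {F : Type*} [Field F] {ι : Type*} [Finite ι] (v : ι → AbsoluteValue F ℝ)
    (h : ∀ i, (v i).IsNontrivial) (hv : Pairwise fun i j ↦ ¬(v i).IsEquiv (v j))
    (t : ι → F) (ε : ℝ) (hε : 0 < ε) : ∃ a : F, ∀ i, v i (a - t i) < ε := by
  classical
  letI := Fintype.ofFinite ι
  have hd := AbsoluteValue.denseRange_algebraMap_pi h hv
  rw [Metric.denseRange_iff] at hd
  obtain ⟨a, ha⟩ := hd (fun i => WithAbs.toAbs (v i) (t i)) ε hε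
  refine ⟨a, fun i => ?_⟩
  have h1 := (dist_pi_lt_iff hε).1 ha i
  rw [dist_comm, dist_eq_norm] at h1
  have h2 : (algebraMap F ((i : ι) → WithAbs (v i)) a i - WithAbs.toAbs (v i) (t i))
      = WithAbs.toAbs (v i) (a - t i) := rfl
  rw [h2, WithAbs.norm_toAbs_eq] at h1
  exact h1

/-- Weak approximation with individual tolerances. -/
theorem exists_approx' {F : Type*} [Field F] {ι : Type*} [Finite ι] (v : ι → AbsoluteValue F ℝ)
    (h : ∀ i, (v i).IsNontrivial) (hv : Pairwise fun i j ↦ ¬(v i).IsEquiv (v j))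
    (t : ι → F) (ε : ι → ℝ) (hε : ∀ i, 0 < ε i) : ∃ a : F, ∀ i, v i (a - t i) < ε i := by
  classical
  letI := Fintype.ofFinite ι
  rcases isEmpty_or_nonempty ι with hι | hι
  · exact ⟨0, fun i => (hι.false i).elim⟩
  · obtain ⟨i₀, -, hi₀⟩ := Finset.exists_min_image (Finset.univ : Finset ι) ε Finset.univ_nonempty
    obtain ⟨a, ha⟩ := exists_approx v h hv t (ε i₀) (hε i₀)
    exact ⟨a, fun i => lt_of_lt_of_le (ha i) (hi₀ i (Finset.mem_univ i))⟩

/-- Two equivalent absolute values which agree at one element of value `≠ 1` coincide. -/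
theorem eq_of_isEquiv_of_apply_eq {F : Type*} [Field F] {v w : AbsoluteValue F ℝ}
    (h : v.IsEquiv w) {c : F} (hc0 : c ≠ 0) (hc1 : v c ≠ 1) (hc : v c = w c) : v = w := by
  obtain ⟨e, he0, he⟩ := AbsoluteValue.isEquiv_iff_exists_rpow_eq.1 h
  have hvc : 0 < v c := v.pos hc0
  have h1 : (v c) ^ e = v c := by
    have := congrFun he c
    rw [this, ← hc]
  have he1 : e = 1 := by
    by_contra hne
    have hlog : Real.log (v c) ≠ 0 := by
      intro h0
      rcases Real.log_eq_zero.1 h0 with h | h | h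
      · exact hvc.ne' h
      · exact hc1 h
      · linarith
    have := congrArg Real.log h1
    rw [Real.log_rpow hvc] at this
    have h3 : (e - 1) * Real.log (v c) = 0 := by linarith
    rcases mul_eq_zero.1 h3 with h | h
    · exact hne (by linarith)
    · exact hlog h
  ext x
  have := congrFun he x
  rw [he1, Real.rpow_one] at this
  exact this

end Fermat.Agent.S55.G.Rec.H742

end
-- ===== PACK-END S55/G/Rec/H742/WAAbs.lean

-- ===== PACK-BEGIN S55/L/Inv481/Cyclic.lean
section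


/-!
# S55 / layer L / leaf L-C2 (helper481): subgroups of a finite cyclic group

Two injective homomorphisms from groups of order `n` into a finite cyclic group have the same
range (the `n`-torsion subgroup).
-/

set_option autoImplicit false
set_option linter.style.haveILetI false

namespace Fermat.Agent.S55.L.Inv481

section Cyclic

variable {G H : Type} [AddCommGroup G] [AddCommGroup H]

/-- the range of an injective homomorphism from a group of order `n` into a finite cyclic group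
is the `n`-torsion subgroup -/
theorem range_eq_torsion_of_cyclic (n N : ℕ) (hn : 0 < n) [NeZero N] (eG : G ≃+ ZMod N)
    (eH : H ≃+ ZMod n) (f : H →+ G) (hf : Function.Injective f) :
    f.range = (nsmulAddMonoidHom n : G →+ G).ker := by
  haveI : NeZero n := ⟨hn.ne'⟩
  haveI : Finite G := Finite.of_equiv _ eG.symm.toEquiv
  haveI : Finite H := Finite.of_equiv _ eH.symm.toEquiv
  haveI : IsAddCyclic G := isAddCyclic_of_surjective eG.symm.toAddMonoidHom eG.symm.surjective
  have hcardH : Nat.card H = n := by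
    rw [Nat.card_congr eH.toEquiv, Nat.card_eq_fintype_card, ZMod.card]
  have hle : f.range ≤ (nsmulAddMonoidHom n : G →+ G).ker := by
    rintro _ ⟨h, rfl⟩
    rw [AddMonoidHom.mem_ker]
    change n • f h = 0
    rw [← map_nsmul]
    have : n • h = 0 := by
      rw [← hcardH]
      exact card_nsmul_eq_zero'
    rw [this, map_zero]
  apply AddSubgroup.eq_of_le_of_card_ge hle
  have h1 : Nat.card f.range = n := by
    rw [← hcardH]
    exact Nat.card_congr (AddMonoidHom.ofInjective hf).symm.toEquiv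
  rw [h1]
  classical
  letI : Fintype G := Fintype.ofFinite G
  have h2 := IsAddCyclic.card_nsmul_eq_zero_le (α := G) hn
  refine le_trans (le_of_eq ?_) h2
  rw [Nat.card_eq_fintype_card, ← Fintype.card_coe]
  apply Fintype.card_congr
  refine Equiv.subtypeEquivRight (fun z => ?_)
  simp [AddMonoidHom.mem_ker]

/-- two injective homomorphisms from groups of order `n` into a finite cyclic group have the
same range -/
theorem range_eq_range_of_cyclic {H' : Type} [AddCommGroup H'] (n N : ℕ) (hn : 0 < n)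
    [NeZero N] (eG : G ≃+ ZMod N) (eH : H ≃+ ZMod n) (eH' : H' ≃+ ZMod n)
    (f : H →+ G) (hf : Function.Injective f) (f' : H' →+ G) (hf' : Function.Injective f') :
    f.range = f'.range := by
  rw [range_eq_torsion_of_cyclic n N hn eG eH f hf,
    range_eq_torsion_of_cyclic n N hn eG eH' f' hf']

end Cyclic

end Fermat.Agent.S55.L.Inv481

end
-- ===== PACK-END S55/L/Inv481/Cyclic.lean

-- ===== PACK-BEGIN S56/H419/H0Perm.lean
section


/-!
# S56 / W-BASE / leaf EUL-H0, part 1 (helper419): invariants of permutation modules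

Mathlib-only.  `D` a group acting on a finite set `X`, `M` a `k`-module.
The functions `a : X →₀ M` that are constant on the `D`-orbits form a submodule
`orbitInv k D X M`, and

  `orbitInvEquiv : orbitInv k D X M ≃ₗ[k] (MulAction.orbitRel.Quotient D X →₀ M)`,
  `(orbitInvEquiv a) ⟦x⟧ = a x`.

A permutation `σ` of `X` commuting with `D` induces a permutation `orbitPerm σ` of the orbit
set, and `orbitInvEquiv` intertwines `Finsupp.mapDomain σ` with `Finsupp.mapDomain (orbitPerm σ)`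
(`orbitInvEquiv_mapDomain`).
-/

set_option autoImplicit false
set_option linter.style.haveILetI false

noncomputable section

namespace Fermat.Agent.S56.H419

open MulAction

section Orbit

variable (k : Type*) [CommRing k] (D : Type*) [Group D] (X : Type*) [MulAction D X]
  (M : Type*) [AddCommGroup M] [Module k M]

/-- The finitely supported functions on `X` which are constant on the `D`-orbits. -/
def orbitInv : Submodule k (X →₀ M) where
  carrier := {a | ∀ (d : D) (x : X), a (d • x) = a x}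
  add_mem' := by
    intro a b ha hb d x
    simp only [Finsupp.coe_add, Pi.add_apply, ha d x, hb d x]
  zero_mem' := by
    intro d x
    simp
  smul_mem' := by
    intro c a ha d x
    simp only [Finsupp.coe_smul, Pi.smul_apply, ha d x]

variable {k D X M}

theorem mem_orbitInv {a : X →₀ M} : a ∈ orbitInv k D X M ↔ ∀ (d : D) (x : X), a (d • x) = a x :=
  Iff.rfl

/-- An orbit-constant function takes the same value at two points of the same orbit. -/
theorem orbitInv_apply_eq_of_rel {a : X →₀ M} (ha : a ∈ orbitInv k D X M) {x y : X}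
    (h : (orbitRel D X).r x y) : a x = a y := by
  obtain ⟨d, rfl⟩ := h
  exact ha d y

variable (k D X M)

/-- The value of an orbit-constant function on an orbit. -/
def orbitVal (a : ↥(orbitInv k D X M)) : orbitRel.Quotient D X → M :=
  Quotient.lift (s := orbitRel D X) (fun x => a.1 x)
    (fun _ _ h => orbitInv_apply_eq_of_rel a.2 h)

@[simp] theorem orbitVal_mk (a : ↥(orbitInv k D X M)) (x : X) :
    orbitVal k D X M a (Quotient.mk (orbitRel D X) x) = a.1 x := rfl

/-- Orbit-constant functions on a finite `D`-set `X` are the functions on the orbit set. -/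
def orbitInvEquiv [Finite X] :
    ↥(orbitInv k D X M) ≃ₗ[k] (orbitRel.Quotient D X →₀ M) where
  toFun a := Finsupp.equivFunOnFinite.symm (orbitVal k D X M a)
  map_add' a b := by
    ext ω
    induction ω using Quotient.inductionOn with
    | h x => rfl
  map_smul' c a := by
    ext ω
    induction ω using Quotient.inductionOn with
    | h x => rfl
  invFun b := ⟨Finsupp.equivFunOnFinite.symm (fun x => b (Quotient.mk (orbitRel D X) x)), by
    intro d x
    simp only [Finsupp.equivFunOnFinite_symm_apply_apply]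
    congr 1
    exact Quotient.sound (s := orbitRel D X) ⟨d, rfl⟩⟩
  left_inv a := by
    apply Subtype.ext
    ext x
    simp [orbitVal]
  right_inv b := by
    ext ω
    induction ω using Quotient.inductionOn with
    | h x => rfl

@[simp] theorem orbitInvEquiv_apply_mk [Finite X] (a : ↥(orbitInv k D X M)) (x : X) :
    orbitInvEquiv k D X M a (Quotient.mk (orbitRel D X) x) = a.1 x := by
  simp [orbitInvEquiv, orbitVal]

@[simp] theorem orbitInvEquiv_symm_apply [Finite X] (b : orbitRel.Quotient D X →₀ M) (x : X) :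
    ((orbitInvEquiv k D X M).symm b).1 x = b (Quotient.mk (orbitRel D X) x) := by
  simp [orbitInvEquiv]

end Orbit

section Perm

variable {k : Type*} [CommRing k] {D : Type*} [Group D] {X : Type*} [MulAction D X]
  {M : Type*} [AddCommGroup M] [Module k M]

/-- A permutation of `X` commuting with the `D`-action induces a permutation of the orbits. -/
def orbitPerm (σ : Equiv.Perm X) (hσ : ∀ (d : D) (x : X), σ (d • x) = d • σ x) :
    Equiv.Perm (orbitRel.Quotient D X) where
  toFun := Quotient.map (sa := orbitRel D X) (sb := orbitRel D X) σ (by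
    rintro x y ⟨d, rfl⟩
    exact ⟨d, (hσ d y).symm⟩)
  invFun := Quotient.map (sa := orbitRel D X) (sb := orbitRel D X) σ.symm (by
    rintro x y ⟨d, rfl⟩
    refine ⟨d, ?_⟩
    apply σ.injective
    simp only [hσ, Equiv.apply_symm_apply])
  left_inv ω := by
    induction ω using Quotient.inductionOn with
    | h x => simp [Quotient.map_mk]
  right_inv ω := by
    induction ω using Quotient.inductionOn with
    | h x => simp [Quotient.map_mk]

@[simp] theorem orbitPerm_mk (σ : Equiv.Perm X) (hσ : ∀ (d : D) (x : X), σ (d • x) = d • σ x)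
    (x : X) :
    orbitPerm σ hσ (Quotient.mk (orbitRel D X) x) = Quotient.mk (orbitRel D X) (σ x) := rfl

@[simp] theorem orbitPerm_symm_mk (σ : Equiv.Perm X)
    (hσ : ∀ (d : D) (x : X), σ (d • x) = d • σ x) (x : X) :
    (orbitPerm σ hσ).symm (Quotient.mk (orbitRel D X) x) =
      Quotient.mk (orbitRel D X) (σ.symm x) := rfl

/-- `mapDomain` along a permutation, evaluated. -/
theorem mapDomain_perm_apply {Y : Type*} (σ : Equiv.Perm Y) (a : Y →₀ M) (y : Y) :
    Finsupp.mapDomain σ a y = a (σ.symm y) := by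
  conv_lhs => rw [← σ.apply_symm_apply y]
  exact Finsupp.mapDomain_apply σ.injective a (σ.symm y)

/-- `mapDomain σ` preserves orbit-constant functions when `σ` commutes with `D`. -/
theorem mapDomain_mem_orbitInv (σ : Equiv.Perm X)
    (hσ : ∀ (d : D) (x : X), σ (d • x) = d • σ x) {a : X →₀ M} (ha : a ∈ orbitInv k D X M) :
    Finsupp.mapDomain σ a ∈ orbitInv k D X M := by
  intro d x
  rw [mapDomain_perm_apply, mapDomain_perm_apply]
  have h : σ.symm (d • x) = d • σ.symm x := by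
    apply σ.injective
    rw [hσ, Equiv.apply_symm_apply, Equiv.apply_symm_apply]
  rw [h]
  exact ha d _

/-- **Intertwining.** Under `orbitInvEquiv`, `mapDomain σ` on orbit-constant functions is
`mapDomain` along the induced permutation of the orbit set. -/
theorem orbitInvEquiv_mapDomain [Finite X] (σ : Equiv.Perm X)
    (hσ : ∀ (d : D) (x : X), σ (d • x) = d • σ x) (a : ↥(orbitInv k D X M)) :
    orbitInvEquiv k D X M ⟨Finsupp.mapDomain σ a.1, mapDomain_mem_orbitInv σ hσ a.2⟩ =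
      Finsupp.mapDomain (orbitPerm σ hσ) (orbitInvEquiv k D X M a) := by
  ext ω
  induction ω using Quotient.inductionOn with
  | h x =>
    rw [orbitInvEquiv_apply_mk, mapDomain_perm_apply, mapDomain_perm_apply, orbitPerm_symm_mk,
      orbitInvEquiv_apply_mk]

/-- The dimension of the orbit-constant functions is `#orbits · dim M`. -/
theorem finrank_orbitInv {K : Type*} [Field K] {D' : Type*} [Group D'] {X' : Type} [MulAction D' X']
    {N : Type} [AddCommGroup N] [Module K N] [Finite X'] [Module.Finite K N] :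
    Module.finrank K ↥(orbitInv K D' X' N) =
      Nat.card (orbitRel.Quotient D' X') * Module.finrank K N := by
  classical
  letI : Fintype (orbitRel.Quotient D' X') := Fintype.ofFinite _
  rw [(orbitInvEquiv K D' X' N).finrank_eq, Module.finrank_finsupp, Nat.card_eq_fintype_card]

end Perm

end Fermat.Agent.S56.H419

end

end
-- ===== PACK-END S56/H419/H0Perm.lean

-- ===== PACK-BEGIN S56/H614/CharpolySES.lean
section


/-!
# S56 / W-BASE / W3-UNITS (helper614): characteristic polynomials in split exact sequences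

Mathlib-only linear algebra used for the characteristic polynomial of a Galois element on the
`T`-units modulo `p`:

* `charpoly_triMap` : block upper triangular maps on a product.
* `charpoly_of_split` : `charpoly f = charpoly (r f ι) * charpoly (g f s)` for a split exact
  sequence `0 → V₁ →ι V →g V₂ → 0` (retraction `r`, section `s`) with `f`-stable kernel.
* `charpoly_baseChange_of_exact` : the same after base change `k ⊗_R -` of an exact sequence
  `0 → N → E →g F → 0` of `R`-modules with `F` free of finite rank.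
-/

set_option autoImplicit false

noncomputable section

namespace Fermat.Agent.S56.H614

open Polynomial Module

section Triangular

variable {R : Type*} [CommRing R] {M₁ M₂ : Type*}
  [AddCommGroup M₁] [Module R M₁] [AddCommGroup M₂] [Module R M₂]

/-- The block upper triangular endomorphism `(x, y) ↦ (a x + b y, d y)` of `M₁ × M₂`. -/
def triMap (a : M₁ →ₗ[R] M₁) (b : M₂ →ₗ[R] M₁) (d : M₂ →ₗ[R] M₂) :
    (M₁ × M₂) →ₗ[R] (M₁ × M₂) :=
  (a.coprod b).prod (d.comp (LinearMap.snd R M₁ M₂))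

@[simp] lemma triMap_apply (a : M₁ →ₗ[R] M₁) (b : M₂ →ₗ[R] M₁) (d : M₂ →ₗ[R] M₂)
    (x : M₁ × M₂) : triMap a b d x = (a x.1 + b x.2, d x.2) := rfl

variable [Module.Finite R M₁] [Module.Free R M₁] [Module.Finite R M₂] [Module.Free R M₂]

/-- The characteristic polynomial of a block upper triangular map. -/
theorem charpoly_triMap (a : M₁ →ₗ[R] M₁) (b : M₂ →ₗ[R] M₁) (d : M₂ →ₗ[R] M₂) :
    (triMap a b d).charpoly = a.charpoly * d.charpoly := by
  classical
  let b₁ := Free.chooseBasis R M₁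
  let b₂ := Free.chooseBasis R M₂
  rw [← LinearMap.charpoly_toMatrix a b₁, ← LinearMap.charpoly_toMatrix d b₂,
    ← LinearMap.charpoly_toMatrix (triMap a b d) (b₁.prod b₂)]
  have h : LinearMap.toMatrix (b₁.prod b₂) (b₁.prod b₂) (triMap a b d) =
      Matrix.fromBlocks (LinearMap.toMatrix b₁ b₁ a) (LinearMap.toMatrix b₂ b₁ b) 0
        (LinearMap.toMatrix b₂ b₂ d) := by
    ext i j
    rcases i with i | i <;> rcases j with j | j <;>
      simp [LinearMap.toMatrix_apply, triMap_apply]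
  rw [h, Matrix.charpoly_fromBlocks_zero₂₁]

end Triangular

section Split

variable {R : Type*} [CommRing R] {V V₁ V₂ : Type*}
  [AddCommGroup V] [Module R V] [Module.Finite R V] [Module.Free R V]
  [AddCommGroup V₁] [Module R V₁] [Module.Finite R V₁] [Module.Free R V₁]
  [AddCommGroup V₂] [Module R V₂] [Module.Finite R V₂] [Module.Free R V₂]

/-- The linear equivalence `V ≃ V₁ × V₂` of a split exact sequence. -/
def splitEquiv (ι : V₁ →ₗ[R] V) (r : V →ₗ[R] V₁) (s : V₂ →ₗ[R] V) (g : V →ₗ[R] V₂)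
    (hrι : r ∘ₗ ι = LinearMap.id) (hgs : g ∘ₗ s = LinearMap.id) (hgι : g ∘ₗ ι = 0)
    (hrs : r ∘ₗ s = 0) (hsum : ι ∘ₗ r + s ∘ₗ g = LinearMap.id) : V ≃ₗ[R] (V₁ × V₂) :=
  LinearEquiv.ofLinearMap (r.prod g) (ι.coprod s)
    (by
      apply LinearMap.ext
      rintro ⟨x, y⟩
      have h1 := LinearMap.congr_fun hrι x
      have h2 := LinearMap.congr_fun hgs y
      have h3 := LinearMap.congr_fun hgι x
      have h4 := LinearMap.congr_fun hrs y
      simp only [LinearMap.comp_apply, LinearMap.id_apply, LinearMap.zero_apply] at h1 h2 h3 h4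
      simp [h1, h2, h3, h4])
    (by
      apply LinearMap.ext
      intro x
      have h := LinearMap.congr_fun hsum x
      simpa using h)

/-- Characteristic polynomial in a split exact sequence. -/
theorem charpoly_of_split (ι : V₁ →ₗ[R] V) (r : V →ₗ[R] V₁) (s : V₂ →ₗ[R] V) (g : V →ₗ[R] V₂)
    (hrι : r ∘ₗ ι = LinearMap.id) (hgs : g ∘ₗ s = LinearMap.id) (hgι : g ∘ₗ ι = 0)
    (hrs : r ∘ₗ s = 0) (hsum : ι ∘ₗ r + s ∘ₗ g = LinearMap.id)
    (f : V →ₗ[R] V) (hf : g ∘ₗ f ∘ₗ ι = 0) :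
    f.charpoly = (r ∘ₗ f ∘ₗ ι).charpoly * (g ∘ₗ f ∘ₗ s).charpoly := by
  let e := splitEquiv ι r s g hrι hgs hgι hrs hsum
  have hconj : e.conj f = triMap (r ∘ₗ f ∘ₗ ι) (r ∘ₗ f ∘ₗ s) (g ∘ₗ f ∘ₗ s) := by
    apply LinearMap.ext
    rintro ⟨x, y⟩
    have h3 := LinearMap.congr_fun hf x
    simp only [LinearMap.comp_apply, LinearMap.zero_apply] at h3
    simp [e, splitEquiv, LinearEquiv.conj_apply, h3]
  rw [← LinearEquiv.charpoly_conj e f, hconj, charpoly_triMap]

end Split

section BaseChange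

open scoped TensorProduct

variable {R : Type*} [CommRing R] (k : Type*) [Field k] [Algebra R k]
  {E F : Type*} [AddCommGroup E] [Module R E] [Module.Finite R E]
  [AddCommGroup F] [Module R F] [Module.Free R F] [Module.Finite R F]

/-- **Characteristic polynomials after base change in an exact sequence with free cokernel.**
`0 → N → E →g F → 0` exact, `F` free of finite rank, `f` an endomorphism of `E` inducing `f'` on
`F`.  Then over a field `k`: `charpoly (k ⊗ f) = charpoly (k ⊗ f|_N) * charpoly (k ⊗ f')`. -/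
theorem charpoly_baseChange_of_exact (N : Submodule R E) [Module.Finite R N]
    (g : E →ₗ[R] F) (hg : Function.Surjective g) (hker : LinearMap.ker g = N)
    (f : E →ₗ[R] E) (f' : F →ₗ[R] F) (hfg : g ∘ₗ f = f' ∘ₗ g) (hN : N ≤ N.comap f) :
    (f.baseChange k).charpoly =
      ((f.restrict hN).baseChange k).charpoly * (f'.baseChange k).charpoly := by
  obtain ⟨s, hs⟩ := Module.projective_lifting_property g (LinearMap.id : F →ₗ[R] F) hg
  have hgs' : ∀ y, g (s y) = y := fun y => LinearMap.congr_fun hs y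
  have hmem : ∀ x : E, ((LinearMap.id : E →ₗ[R] E) - s ∘ₗ g) x ∈ N := by
    intro x
    rw [← hker, LinearMap.mem_ker]
    simp [hgs']
  let r : E →ₗ[R] N := LinearMap.codRestrict N ((LinearMap.id : E →ₗ[R] E) - s ∘ₗ g) hmem
  have hNg : ∀ n : N, g (n : E) = 0 := by
    intro n
    have : (n : E) ∈ LinearMap.ker g := by rw [hker]; exact n.2
    exact this
  have hrι : r ∘ₗ N.subtype = LinearMap.id := by
    apply LinearMap.ext
    intro n
    apply Subtype.ext
    simp [r, hNg]
  have hgι : g ∘ₗ N.subtype = 0 := by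
    apply LinearMap.ext
    intro n
    simp [hNg]
  have hrs : r ∘ₗ s = 0 := by
    apply LinearMap.ext
    intro y
    apply Subtype.ext
    simp [r, hgs']
  have hsum : N.subtype ∘ₗ r + s ∘ₗ g = LinearMap.id := by
    apply LinearMap.ext
    intro x
    simp [r]
  have hrest : r ∘ₗ f ∘ₗ N.subtype = f.restrict hN := by
    apply LinearMap.ext
    intro n
    apply Subtype.ext
    have h1 : g (f (n : E)) = 0 := by
      have := LinearMap.congr_fun hfg (n : E)
      simp only [LinearMap.comp_apply] at this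
      rw [this, hNg, map_zero]
    simp [r, h1, LinearMap.restrict_apply]
  have hquot : g ∘ₗ f ∘ₗ s = f' := by
    apply LinearMap.ext
    intro y
    have := LinearMap.congr_fun hfg (s y)
    simp only [LinearMap.comp_apply] at this
    simp [this, hgs']
  have hzero : g ∘ₗ f ∘ₗ N.subtype = 0 := by
    apply LinearMap.ext
    intro n
    have := LinearMap.congr_fun hfg (n : E)
    simp only [LinearMap.comp_apply] at this
    simp [this, hNg]
  have key := charpoly_of_split (R := k) (N.subtype.baseChange k) (r.baseChange k)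
    (s.baseChange k) (g.baseChange k)
    (by rw [← LinearMap.baseChange_comp, hrι, LinearMap.baseChange_id])
    (by rw [← LinearMap.baseChange_comp, hs, LinearMap.baseChange_id])
    (by rw [← LinearMap.baseChange_comp, hgι, LinearMap.baseChange_zero])
    (by rw [← LinearMap.baseChange_comp, hrs, LinearMap.baseChange_zero])
    (by rw [← LinearMap.baseChange_comp, ← LinearMap.baseChange_comp, ← LinearMap.baseChange_add,
      hsum, LinearMap.baseChange_id])
    (f.baseChange k)
    (by rw [← LinearMap.baseChange_comp, ← LinearMap.baseChange_comp, hzero,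
      LinearMap.baseChange_zero])
  rw [key, ← LinearMap.baseChange_comp, ← LinearMap.baseChange_comp, hrest,
    ← LinearMap.baseChange_comp, ← LinearMap.baseChange_comp, hquot]

/-- Finite generation of the middle term of an exact sequence. -/
theorem finite_of_exact {N E F : Type*} [AddCommGroup N] [Module R N] [Module.Finite R N]
    [AddCommGroup E] [Module R E] [AddCommGroup F] [Module R F] [Module.Finite R F]
    (i : N →ₗ[R] E) (g : E →ₗ[R] F) (hg : Function.Surjective g)
    (hex : LinearMap.range i = LinearMap.ker g) :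
    Module.Finite R E := by
  have h1 : (LinearMap.range i).FG := by
    rw [LinearMap.range_eq_map]
    exact Submodule.FG.map i Module.Finite.fg_top
  have h2 : (⊤ : Submodule R E).FG := by
    apply Submodule.fg_of_fg_map_of_fg_inf_ker g
    · rw [Submodule.map_top, LinearMap.range_eq_top.mpr hg]
      exact Module.Finite.fg_top
    · rw [top_inf_eq, ← hex]; exact h1
  exact ⟨h2⟩

/-- **Characteristic polynomials after base change in an exact sequence with free cokernel**
(version with explicit maps).  `0 → N →i E →g F → 0` exact, `F` free of finite rank, compatible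
endomorphisms `fN, fE, fF`.  Then over a field `k`:
`charpoly (k ⊗ fE) = charpoly (k ⊗ fN) * charpoly (k ⊗ fF)`. -/
theorem charpoly_baseChange_of_exact' {N : Type*} [AddCommGroup N] [Module R N]
    [Module.Finite R N]
    (i : N →ₗ[R] E) (hi : Function.Injective i) (g : E →ₗ[R] F) (hg : Function.Surjective g)
    (hex : LinearMap.range i = LinearMap.ker g)
    (fN : N →ₗ[R] N) (fE : E →ₗ[R] E) (fF : F →ₗ[R] F)
    (h1 : i ∘ₗ fN = fE ∘ₗ i) (h2 : g ∘ₗ fE = fF ∘ₗ g) :
    (fE.baseChange k).charpoly = (fN.baseChange k).charpoly * (fF.baseChange k).charpoly := by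
  obtain ⟨s, hs⟩ := Module.projective_lifting_property g (LinearMap.id : F →ₗ[R] F) hg
  have hgs' : ∀ y, g (s y) = y := fun y => LinearMap.congr_fun hs y
  have hgi : ∀ n, g (i n) = 0 := by
    intro n
    have : i n ∈ LinearMap.ker g := by rw [← hex]; exact LinearMap.mem_range_self i n
    exact this
  have hmem : ∀ x : E, ((LinearMap.id : E →ₗ[R] E) - s ∘ₗ g) x ∈ LinearMap.range i := by
    intro x
    rw [hex, LinearMap.mem_ker]
    simp [hgs']
  let r : E →ₗ[R] N := (LinearEquiv.ofInjective i hi).symm.toLinearMap ∘ₗ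
    LinearMap.codRestrict (LinearMap.range i) ((LinearMap.id : E →ₗ[R] E) - s ∘ₗ g) hmem
  have hir : ∀ x, i (r x) = x - s (g x) := by
    intro x
    simp [r]
  have hrι : r ∘ₗ i = LinearMap.id := by
    apply LinearMap.ext
    intro n
    apply hi
    simp [hir, hgi]
  have hgι : g ∘ₗ i = 0 := by
    apply LinearMap.ext
    intro n
    simp [hgi]
  have hrs : r ∘ₗ s = 0 := by
    apply LinearMap.ext
    intro y
    apply hi
    simp [hir, hgs']
  have hsum : i ∘ₗ r + s ∘ₗ g = LinearMap.id := by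
    apply LinearMap.ext
    intro x
    simp [hir]
  have hfi : ∀ n, fE (i n) = i (fN n) := fun n => (LinearMap.congr_fun h1 n).symm
  have hgf : ∀ x, g (fE x) = fF (g x) := fun x => LinearMap.congr_fun h2 x
  have hrest : r ∘ₗ fE ∘ₗ i = fN := by
    apply LinearMap.ext
    intro n
    apply hi
    simp [hir, hgi, hfi]
  have hquot : g ∘ₗ fE ∘ₗ s = fF := by
    apply LinearMap.ext
    intro y
    simp [hgf, hgs']
  have hzero : g ∘ₗ fE ∘ₗ i = 0 := by
    apply LinearMap.ext
    intro n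
    simp [hgf, hgi]
  have key := charpoly_of_split (R := k) (i.baseChange k) (r.baseChange k)
    (s.baseChange k) (g.baseChange k)
    (by rw [← LinearMap.baseChange_comp, hrι, LinearMap.baseChange_id])
    (by rw [← LinearMap.baseChange_comp, hs, LinearMap.baseChange_id])
    (by rw [← LinearMap.baseChange_comp, hgι, LinearMap.baseChange_zero])
    (by rw [← LinearMap.baseChange_comp, hrs, LinearMap.baseChange_zero])
    (by rw [← LinearMap.baseChange_comp, ← LinearMap.baseChange_comp, ← LinearMap.baseChange_add,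
      hsum, LinearMap.baseChange_id])
    (fE.baseChange k)
    (by rw [← LinearMap.baseChange_comp, ← LinearMap.baseChange_comp, hzero,
      LinearMap.baseChange_zero])
  rw [key, ← LinearMap.baseChange_comp, ← LinearMap.baseChange_comp, hrest,
    ← LinearMap.baseChange_comp, ← LinearMap.baseChange_comp, hquot]

end BaseChange

end Fermat.Agent.S56.H614

end

end
-- ===== PACK-END S56/H614/CharpolySES.lean

-- ===== PACK-BEGIN S56/H486/T4Charpoly.lean
section
/-
S56 / W-BASE leaf T4 (helper486), part 1: multiplicativity of the characteristic polynomial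
along an invariant submodule (Mathlib-only).
-/


namespace Fermat.Agent.S56.H486

open Module

section

variable {R V : Type*} [CommRing R] [AddCommGroup V]
    [Module R V] [Module.Finite R V] [Module.Free R V]
    (W : Submodule R V) [Module.Free R W] [Module.Finite R W] [Module.Free R (V ⧸ W)]

open Module.Basis in
/-- The characteristic polynomial of an endomorphism preserving a submodule `W` is the product
of the characteristic polynomials of the restriction to `W` and of the induced map on `V ⧸ W`. -/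
theorem t4_charpoly_eq_restrict_mul_mapQ (e : V →ₗ[R] V) (he : W ≤ W.comap e) :
    e.charpoly = (e.restrict he).charpoly * (W.mapQ W e he).charpoly := by
  classical
  let m := Module.Free.ChooseBasisIndex R W
  let bW : Basis m R W := Module.Free.chooseBasis R W
  let n := Module.Free.ChooseBasisIndex R (V ⧸ W)
  let bQ : Basis n R (V ⧸ W) := Module.Free.chooseBasis R (V ⧸ W)
  let b := sumQuot bW bQ
  let A : Matrix m m R := LinearMap.toMatrix bW bW (e.restrict he)
  let B : Matrix m n R := Matrix.of fun i l ↦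
    ((sumQuot bW bQ).repr (e ((sumQuot bW bQ) (Sum.inr l)))) (Sum.inl i)
  let D : Matrix n n R := LinearMap.toMatrix bQ bQ (W.mapQ W e he)
  suffices LinearMap.toMatrix b b e = Matrix.fromBlocks A B 0 D by
    rw [← LinearMap.charpoly_toMatrix e b, this, ← LinearMap.charpoly_toMatrix (e.restrict he) bW,
      ← LinearMap.charpoly_toMatrix (W.mapQ W e he) bQ, Matrix.charpoly_fromBlocks_zero₂₁]
  ext u v
  cases u with
  | inl i =>
    cases v with
    | inl k =>
      simp only [b, sumQuot_inl, Matrix.fromBlocks_apply₁₁, A, LinearMap.toMatrix_apply]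
      apply sumQuot_repr_inl_of_mem
    | inr l => simp [b, LinearMap.toMatrix_apply, Matrix.fromBlocks_apply₁₂, B]
  | inr j =>
    cases v with
    | inl k =>
      suffices W.mkQ (e (bW k)) = 0 by simp [LinearMap.toMatrix_apply, b, this]
      rw [← LinearMap.mem_ker, Submodule.ker_mkQ]
      exact he (Submodule.coe_mem (bW k))
    | inr l =>
      simp only [LinearMap.toMatrix_apply, sumQuot_repr_inr,
        Matrix.fromBlocks_apply₂₂, b, D]
      rw [← sumQuot_inr bW bQ l, W.mapQ_apply]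
      simp

end

section

variable {R M₁ M₂ : Type*} [CommRing R] [AddCommGroup M₁] [AddCommGroup M₂]
    [Module R M₁] [Module R M₂] [Module.Finite R M₁] [Module.Free R M₁]
    [Module.Finite R M₂] [Module.Free R M₂]

/-- Equivariantly isomorphic endomorphisms have the same characteristic polynomial. -/
theorem t4_charpoly_eq_of_equiv (e : M₁ ≃ₗ[R] M₂) (φ : Module.End R M₁) (ψ : Module.End R M₂)
    (h : ∀ x, e (φ x) = ψ (e x)) : φ.charpoly = ψ.charpoly := by
  have : e.conj φ = ψ := by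
    ext y
    simp [LinearEquiv.conj_apply, h]
  rw [← this, LinearEquiv.charpoly_conj]

end

section

variable {R M : Type*} [CommRing R] [AddCommGroup M] [Module R M]

/-- The characteristic polynomial of an endomorphism of a trivial module is `1`. -/
theorem t4_charpoly_of_subsingleton [Subsingleton M] (φ : Module.End R M) :
    haveI : Module.Finite R M := Module.Finite.of_finite
    haveI : Module.Free R M := Module.Free.of_subsingleton R M
    φ.charpoly = 1 := by
  have : Module.Finite R M := Module.Finite.of_finite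
  have : Module.Free R M := Module.Free.of_subsingleton R M
  nontriviality R
  have h1 : φ.charpoly.natDegree = 0 := by
    rw [LinearMap.charpoly_natDegree]
    exact Module.finrank_zero_of_subsingleton
  exact Polynomial.eq_one_of_monic_natDegree_zero (LinearMap.charpoly_monic φ) h1

end

end Fermat.Agent.S56.H486

end
-- ===== PACK-END S56/H486/T4Charpoly.lean

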