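import Mathlib
import Fermat.Prelude.Thm_Algebra_finite_maximalSpectrum_and_bijective_localization_of_module_finite
import Fermat.Prelude.Thm_IsLocalRing_isAdicComplete_of_module_finite
import Fermat.Agent.Pack.S43GC.G0E0L3
import Fermat.Agent.Pack.S44C.G0E0L3
import Fermat.Agent.Pack.S43GC.G0E0L2
import Fermat.Agent.Pack.S43GC.G0E0L1
import Fermat.Agent.Pack.S43GC.G0E0L0
import Fermat.Agent.Pack.S43GC.G0E1L1
import Fermat.Agent.Pack.S43GC.G0E1L2
import Fermat.Agent.Pack.S44C.G0E20L2
import Fermat.Agent.Pack.S43GC.G2E0L0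
import Fermat.Agent.Pack.Fast891

-- ===== PACK-BEGIN S56/Spec.lean
section



/-!
# Row S56 — FROZEN interface statements, layer 0 (row-lead helper956)

`S56 ⇐ TB(ord) + TB(flat) + P1 + TWP`   (glue: `Fermat/Agent/S56/Glue.lean`, sorry-free)
`TWP ⇐ P3 (TWElement) + Lib/Cheb Tier 1`

* `TangentBoundOrdStatement`, `TangentBoundFlatStatement` (TB): there is a dual Selmer frame `D`
  such that for every set `Q` of Taylor–Wiles primes killing `D`, every universal deformation ring
  `R_Q` has at most `|k|^{|Q|}` tangent vectors `R_Q → k[ε]`.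
  (= dictionary tangent space ↪ Selmer group, Greenberg–Wiles formula, local computations.)
* `PowerSeriesSurjStatement` (P1): at most `|k|^r` tangent vectors ⇒ `𝒪⟦X₁..X_r⟧ ↠ R`.
* `TWElementStatement` (P3): group theory (DDT Lemma 2.48/Thm 2.49): for a nonzero class `c`
  there is `σ` fixing `μ_{p^{n+1}}` with distinct eigenvalues and `c(σ) ∉ (ρ̄(σ) − 1) ad⁰`.
* `TWPrimesStatement` (TWP): `r = dim D` Taylor–Wiles primes `≡ 1 mod p^{n+1}` killing `D`.

All pieces are proved as `theorem xxx : XxxStatement` in `Fermat/Agent/S56/H<seat>/*.lean`.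
-/

set_option autoImplicit false

open Polynomial IsLocalRing

noncomputable section

namespace Fermat.Agent.S56

/-- The standing hypotheses of the frozen statement S56. -/
structure Hyp (𝒪 : Type) [CommRing 𝒪] [IsDomain 𝒪] [IsDiscreteValuationRing 𝒪]
    (p : ℕ) (ρbar : ResidualGaloisRep (ResidueField 𝒪)) (S Smin : Finset ℕ) : Prop where
  hp : p.Prime
  hp2 : p ≠ 2
  hp𝒪 : (p : 𝒪) ∈ maximalIdeal 𝒪
  habs : ρbar.IsAbsolutelyIrreducible
  hdet : (GaloisRepAdic.ofResidualGaloisRep ρbar).DetIsCyclotomic p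
  hsplit : ∀ σ : GQ, ∃ α β : ResidueField 𝒪,
    LinearMap.charpoly (ρbar.ρ σ) = (X - C α) * (X - C β)
  hTW : ∀ (K : Type) [Field K] [Algebra (ResidueField 𝒪) K] (G : Subgroup GQ), G.index = 2 →
    ∀ V : Submodule K (ρbar.baseChange K).V,
      (∀ σ ∈ G, ∀ x ∈ V, (ρbar.baseChange K).ρ σ x ∈ V) → V = ⊥ ∨ V = ⊤
  hpSmin : p ∈ Smin
  hSmin : Smin ⊆ S
  hS : ∀ q ∈ S, q.Prime
  hmin : ∀ q : ℕ, q.Prime → q ≠ p → (q ∈ Smin ↔ ¬ ρbar.IsUnramifiedAt q)

/-- (TB) for a family of deformation conditions indexed by the auxiliary set `Q`. -/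
def TangentBound (𝒪 : Type) [CommRing 𝒪] [IsDomain 𝒪] [IsDiscreteValuationRing 𝒪]
    [IsAdicComplete (maximalIdeal 𝒪) 𝒪]
    (p : ℕ) (ρbar : ResidualGaloisRep (ResidueField 𝒪)) (S : Finset ℕ)
    (cond : Finset ℕ → DefCond 𝒪) : Prop :=
  ∃ D : Submodule (ResidueField 𝒪) (GQ → Module.End (ResidueField 𝒪) ρbar.V),
    IsDualFrame ρbar p D ∧
    ∀ Q : Finset ℕ, (∀ q ∈ Q, IsTWPrime ρbar p S q) → Kills ρbar p D Q →
      ∀ DQ : GaloisRep.DeformationRingData 𝒪 ρbar (cond Q),
        Finite (TanHom 𝒪 DQ.R) ∧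
          Nat.card (TanHom 𝒪 DQ.R) ≤ Nat.card (ResidueField 𝒪) ^ Q.card

/-- (TB-ord) tangent bound for the strict-ordinary condition. -/
def TangentBoundOrdStatement : Prop :=
  ∀ (𝒪 : Type) [CommRing 𝒪] [IsDomain 𝒪] [IsDiscreteValuationRing 𝒪]
    [IsAdicComplete (maximalIdeal 𝒪) 𝒪] [Finite (ResidueField 𝒪)]
    (p : ℕ) (ρbar : ResidualGaloisRep (ResidueField 𝒪)) (S Smin : Finset ℕ),
    Hyp 𝒪 p ρbar S Smin → TangentBound 𝒪 p ρbar S (ordCond 𝒪 p Smin)

/-- (TB-flat) tangent bound for the flat condition. -/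
def TangentBoundFlatStatement : Prop :=
  ∀ (𝒪 : Type) [CommRing 𝒪] [IsDomain 𝒪] [IsDiscreteValuationRing 𝒪]
    [IsAdicComplete (maximalIdeal 𝒪) 𝒪] [Finite (ResidueField 𝒪)]
    (p : ℕ) (ρbar : ResidualGaloisRep (ResidueField 𝒪)) (S Smin : Finset ℕ),
    Hyp 𝒪 p ρbar S Smin → TangentBound 𝒪 p ρbar S (flatCond 𝒪 p Smin)

/-- (P1) commutative algebra: few tangent vectors ⇒ quotient of a power series ring. -/
def PowerSeriesSurjStatement : Prop :=
  ∀ (𝒪 : Type) [CommRing 𝒪] [IsDomain 𝒪] [IsDiscreteValuationRing 𝒪]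
    [IsAdicComplete (maximalIdeal 𝒪) 𝒪] [Finite (ResidueField 𝒪)]
    (R : Type) [CommRing R] [IsLocalRing R] [IsNoetherianRing R]
    [IsAdicComplete (maximalIdeal R) R] [Algebra 𝒪 R] [IsLocalHom (algebraMap 𝒪 R)],
    Function.Surjective (IsLocalRing.residue R ∘ algebraMap 𝒪 R) →
    ∀ r : ℕ, Finite (TanHom 𝒪 R) →
      Nat.card (TanHom 𝒪 R) ≤ Nat.card (ResidueField 𝒪) ^ r →
      ∃ γ : MvPowerSeries (Fin r) 𝒪 →ₐ[𝒪] R, Function.Surjective γ

/-- (TWP) existence of Taylor–Wiles primes killing a dual Selmer frame. -/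
def TWPrimesStatement : Prop :=
  ∀ (𝒪 : Type) [CommRing 𝒪] [IsDomain 𝒪] [IsDiscreteValuationRing 𝒪]
    [IsAdicComplete (maximalIdeal 𝒪) 𝒪] [Finite (ResidueField 𝒪)]
    (p : ℕ) (ρbar : ResidualGaloisRep (ResidueField 𝒪)) (S Smin : Finset ℕ),
    Hyp 𝒪 p ρbar S Smin →
    ∀ D : Submodule (ResidueField 𝒪) (GQ → Module.End (ResidueField 𝒪) ρbar.V),
      IsDualFrame ρbar p D → ∀ n : ℕ,
      ∃ qv : Fin (Module.finrank (ResidueField 𝒪) D) → ℕ, Function.Injective qv ∧
        (∀ i, (qv i).Prime ∧ qv i ∉ S ∧ p ^ (n + 1) ∣ qv i - 1) ∧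
        (∀ i, ∀ P : ValuationSubring Qb, P.LiesOverPrime (qv i) →
          ∀ φ : GQ, P.IsFrobeniusAt φ (qv i) →
            ∃ α β : ResidueField 𝒪, α ≠ β ∧
              LinearMap.charpoly (ρbar.ρ φ) = (X - C α) * (X - C β)) ∧
        Kills ρbar p D (Finset.univ.image qv)

/-- (P3) the Taylor–Wiles element: group theory of `ρ̄` and `ad⁰ρ̄(1)`.
Part 1: for a cocycle which is not a coboundary; part 2: without cocycle. -/
def TWElementStatement : Prop :=
  ∀ (𝒪 : Type) [CommRing 𝒪] [IsDomain 𝒪] [IsDiscreteValuationRing 𝒪]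
    [IsAdicComplete (maximalIdeal 𝒪) 𝒪] [Finite (ResidueField 𝒪)]
    (p : ℕ) (ρbar : ResidualGaloisRep (ResidueField 𝒪)) (S Smin : Finset ℕ),
    Hyp 𝒪 p ρbar S Smin →
    (∀ c : GQ → Module.End (ResidueField 𝒪) ρbar.V, IsTwCocycle ρbar p c →
      ¬ IsTwCoboundary ρbar p c → ∀ n : ℕ,
      ∃ σ : GQ, (∀ μ : Qb, μ ^ p ^ (n + 1) = 1 → σ μ = μ) ∧
        (∃ α β : ResidueField 𝒪, α ≠ β ∧
          LinearMap.charpoly (ρbar.ρ σ) = (X - C α) * (X - C β)) ∧
        ∀ m : Module.End (ResidueField 𝒪) ρbar.V,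
          LinearMap.trace (ResidueField 𝒪) ρbar.V m = 0 →
            c σ ≠ ρbar.ρ σ * m * ρbar.ρ σ⁻¹ - m) ∧
    (∀ n : ℕ, ∃ σ : GQ, (∀ μ : Qb, μ ^ p ^ (n + 1) = 1 → σ μ = μ) ∧
        ∃ α β : ResidueField 𝒪, α ≠ β ∧
          LinearMap.charpoly (ρbar.ρ σ) = (X - C α) * (X - C β))

/-- (TWP-of) Taylor–Wiles primes from the Taylor–Wiles element and Frobenius density. -/
def TWPrimesOfElementStatement : Prop :=
  TWElementStatement → Fermat.Agent.Lib.Cheb.Spec.FrobeniusDivisionStatement → TWPrimesStatement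

end Fermat.Agent.S56

end

end
-- ===== PACK-END S56/Spec.lean

-- ===== PACK-BEGIN S53/DictSchur.lean
section


set_option autoImplicit false
set_option linter.unusedSectionVars false

open scoped TensorProduct

namespace Fermat.Agent.S53

section Schur

variable {k : Type} [Field k]

/-- Base change (along an arbitrary algebra structure) of an equivalence of residual
representations. -/
noncomputable def resEquivBaseChange (k' : Type) [Field k'] [Algebra k k']
    {ρ₁ ρ₂ : ResidualGaloisRep k} (e : ResidualGaloisRep.Equiv ρ₁ ρ₂) :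
    ResidualGaloisRep.Equiv (ρ₁.baseChange k') (ρ₂.baseChange k') :=
  { toLinearEquiv := e.toLinearEquiv.baseChange k k' ρ₁.V ρ₂.V
    map_apply := fun σ x => by
      show e.toLinearEquiv.baseChange k k' ρ₁.V ρ₂.V ((ρ₁.ρ σ).baseChange k' x) =
        (ρ₂.ρ σ).baseChange k' (e.toLinearEquiv.baseChange k k' ρ₁.V ρ₂.V x)
      induction x using TensorProduct.induction_on with
      | zero => simp only [map_zero]
      | tmul b v =>
        rw [LinearMap.baseChange_tmul, LinearEquiv.baseChange_tmul, LinearEquiv.baseChange_tmul,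
          LinearMap.baseChange_tmul, e.map_apply]
      | add x y hx hy => simp only [map_add, hx, hy] }

theorem baseChange_toRes (k' : Type) [Field k'] [Algebra k k'] (rb : GQ →* M2 k)
    (h : GaloisFactorsThroughFiniteLevel rb) :
    ((toRes rb h).baseChange k').IsEquiv
      (toRes (mapRep (algebraMap k k') rb) (factors_mapRep (algebraMap k k') h)) := by
  let e : k' ⊗[k] (Fin 2 → k) ≃ₗ[k'] (Fin 2 → k') := TensorProduct.piScalarRight k k' k' (Fin 2)
  refine ⟨⟨e, fun σ x => ?_⟩⟩
  exact piScalarRight_baseChange (rb σ) x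

lemma isIrreducible_of_equiv {ρ₁ ρ₂ : ResidualGaloisRep k} (e : ResidualGaloisRep.Equiv ρ₁ ρ₂)
    (h : ρ₁.IsIrreducible) : ρ₂.IsIrreducible := by
  intro W hW
  have hstab : ∀ σ : AlgebraicClosure ℚ ≃ₐ[ℚ] AlgebraicClosure ℚ,
      ∀ x ∈ W.comap e.toLinearEquiv.toLinearMap, ρ₁.ρ σ x ∈ W.comap e.toLinearEquiv.toLinearMap := by
    intro σ x hx
    rw [Submodule.mem_comap] at hx ⊢
    have := hW σ _ hx
    rw [LinearEquiv.coe_coe] at this ⊢
    rwa [e.map_apply]
  have hmap : (W.comap e.toLinearEquiv.toLinearMap).map e.toLinearEquiv.toLinearMap = W :=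
    Submodule.map_comap_eq_of_surjective e.toLinearEquiv.surjective W
  rcases h _ hstab with h0 | h1
  · left
    rw [← hmap, h0, Submodule.map_bot]
  · right
    rw [← hmap, h1, Submodule.map_top]
    exact LinearMap.range_eq_top.2 e.toLinearEquiv.surjective

/-- **Schur's lemma** in matrix form: a matrix commuting with an absolutely irreducible
matrix representation is scalar. -/
theorem schur_matrix (ρbar : ResidualGaloisRep k) (habs : ρbar.IsAbsolutelyIrreducible)
    (rb : GQ →* M2 k) (hrb : GaloisFactorsThroughFiniteLevel rb)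
    (hρ : ρbar.IsEquiv (toRes rb hrb)) (X : M2 k) (hX : ∀ σ, X * rb σ = rb σ * X) :
    ∃ c : k, X = c • (1 : M2 k) := by
  classical
  obtain ⟨e⟩ := hρ
  obtain ⟨e'⟩ := baseChange_toRes (AlgebraicClosure k) rb hrb
  have hirr : (toRes (mapRep (algebraMap k (AlgebraicClosure k)) rb)
      (factors_mapRep (algebraMap k (AlgebraicClosure k)) hrb)).IsIrreducible :=
    isIrreducible_of_equiv ((resEquivBaseChange (AlgebraicClosure k) e).trans e') habs
  set K := AlgebraicClosure k
  set XK : M2 K := X.map (algebraMap k K) with hXK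
  have hcomm : ∀ σ, XK * (rb σ).map (algebraMap k K) = (rb σ).map (algebraMap k K) * XK := by
    intro σ
    rw [hXK, ← Matrix.map_mul, ← Matrix.map_mul, hX]
  let f : Module.End K (Fin 2 → K) := Matrix.toLin' XK
  obtain ⟨c, hc⟩ := Module.End.exists_eigenvalue f
  have hstab : ∀ σ : AlgebraicClosure ℚ ≃ₐ[ℚ] AlgebraicClosure ℚ,
      ∀ x ∈ Module.End.eigenspace f c, ((rb σ).map (algebraMap k K)).mulVec x ∈
        Module.End.eigenspace f c := by
    intro σ x hx
    rw [Module.End.mem_eigenspace_iff] at hx ⊢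
    have hx' : XK.mulVec x = c • x := hx
    show Matrix.toLin' XK _ = _
    rw [Matrix.toLin'_apply, Matrix.mulVec_mulVec, hcomm, ← Matrix.mulVec_mulVec, hx',
      Matrix.mulVec_smul]
  have htop : Module.End.eigenspace f c = ⊤ := (hirr _ hstab).resolve_left hc
  have hall : ∀ x : Fin 2 → K, XK.mulVec x = c • x := by
    intro x
    have hx : x ∈ Module.End.eigenspace f c := by rw [htop]; exact Submodule.mem_top
    rw [Module.End.mem_eigenspace_iff] at hx
    exact hx
  have hentry : ∀ i j, XK i j = if i = j then c else 0 := by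
    intro i j
    have := congrFun (hall (Pi.single j 1)) i
    simpa [Matrix.mulVec_single, Pi.single_apply, eq_comm] using this
  have hinj : Function.Injective (algebraMap k K) := (algebraMap k K).injective
  refine ⟨X 0 0, ?_⟩
  ext i j
  apply hinj
  have h00 := hentry 0 0
  have hij := hentry i j
  simp only [hXK, Matrix.map_apply, if_true] at h00 hij
  rw [hij, Matrix.smul_apply, Matrix.one_apply, smul_eq_mul]
  split_ifs with h
  · simp [h00]
  · simp

end Schur

end Fermat.Agent.S53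

end
-- ===== PACK-END S53/DictSchur.lean

-- ===== PACK-BEGIN S55/PT/Coh.lean
section


/-!
# S55 / PT layer, part 2: functoriality of level-constant cohomology

* push-forward along an equivariant linear map `φ : A → B` (`pushZ1`, `pushH1`, `pushZ2`, `pushH2`,
  `pushH0`);
* restriction along a level-compatible group homomorphism `r : G' → G`
  (`resZ1`, `resH1`, `resZ2`, `resH2`, `resH0`).
-/

set_option autoImplicit false

noncomputable section

namespace Fermat.Agent.S55.PT

open groupCohomology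

variable {k : Type} [Field k] {G : Type} [Group G]

/-- `φ : A → B` is equivariant. -/
@[reducible] def IsEquivariant {A B : Rep.{0, 0, 0} k G} (φ : A →ₗ[k] B) : Prop :=
  ∀ (g : G) (a : A), φ (A.ρ g a) = B.ρ g (φ a)

section Push

variable {A B : Rep.{0, 0, 0} k G} (φ : A →ₗ[k] B) (hφ : IsEquivariant φ)

include hφ in
lemma push_d₀₁ (m : A) : (d₀₁ B).hom (φ m) = φ ∘ (d₀₁ A).hom m := by
  have hφ' : ∀ (g : G) (a : A), φ (A.ρ g a) = B.ρ g (φ a) := hφ
  funext g
  simp only [d₀₁_hom_apply, Function.comp_apply, map_sub, hφ']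

include hφ in
lemma push_d₁₂ (f : G → A) : (d₁₂ B).hom (φ ∘ f) = φ ∘ (d₁₂ A).hom f := by
  have hφ' : ∀ (g : G) (a : A), φ (A.ρ g a) = B.ρ g (φ a) := hφ
  funext ⟨g, h⟩
  simp only [d₁₂_hom_apply, Function.comp_apply, map_add, map_sub, hφ']

include hφ in
lemma push_d₂₃ (f : G × G → A) : (d₂₃ B).hom (φ ∘ f) = φ ∘ (d₂₃ A).hom f := by
  have hφ' : ∀ (g : G) (a : A), φ (A.ρ g a) = B.ρ g (φ a) := hφ
  funext ⟨g, h, j⟩
  simp only [d₂₃_hom_apply, Function.comp_apply, map_add, map_sub, hφ']

include hφ in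
lemma push_mem_cocycles₁ {f : G → A} (hf : f ∈ cocycles₁ A) : φ ∘ f ∈ cocycles₁ B := by
  have h0 : (d₁₂ A).hom f = 0 := hf
  show (d₁₂ B).hom (φ ∘ f) = 0
  rw [push_d₁₂ φ hφ, h0]
  funext x
  exact map_zero φ

include hφ in
lemma push_mem_cocycles₂ {f : G × G → A} (hf : f ∈ cocycles₂ A) : φ ∘ f ∈ cocycles₂ B := by
  have h0 : (d₂₃ A).hom f = 0 := hf
  show (d₂₃ B).hom (φ ∘ f) = 0
  rw [push_d₂₃ φ hφ, h0]
  funext x
  exact map_zero φ

variable (L : LevelSys G)

include hφ in
lemma push_mem_Z1 {f : G → A} (hf : f ∈ L.Z1 A) : φ ∘ f ∈ L.Z1 B :=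
  ⟨push_mem_cocycles₁ φ hφ hf.1, LevelSys.IsLC₁.comp hf.2 φ⟩

include hφ in
lemma push_mem_Z2 {f : G × G → A} (hf : f ∈ L.Z2 A) : φ ∘ f ∈ L.Z2 B :=
  ⟨push_mem_cocycles₂ φ hφ hf.1, LevelSys.IsLC₂.comp hf.2 φ⟩

include hφ in
lemma push_mem_B1 {f : G → A} (hf : f ∈ LevelSys.B1 A) : φ ∘ f ∈ LevelSys.B1 B := by
  obtain ⟨m, rfl⟩ := hf
  exact ⟨φ m, push_d₀₁ φ hφ m⟩

include hφ in
lemma push_mem_B2 {f : G × G → A} (hf : f ∈ L.B2 A) : φ ∘ f ∈ L.B2 B := by
  obtain ⟨x, hx, rfl⟩ := hf
  exact ⟨φ ∘ x, LevelSys.IsLC₁.comp hx φ, push_d₁₂ φ hφ x⟩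

/-- Push-forward of level-constant 1-cocycles. -/
def pushZ1 : ↥(L.Z1 A) →ₗ[k] ↥(L.Z1 B) :=
  (φ.compLeft G).restrict fun _ hf => push_mem_Z1 φ hφ L hf

/-- Push-forward of level-constant 2-cocycles. -/
def pushZ2 : ↥(L.Z2 A) →ₗ[k] ↥(L.Z2 B) :=
  (φ.compLeft (G × G)).restrict fun _ hf => push_mem_Z2 φ hφ L hf

@[simp] lemma coe_pushZ1 (c : ↥(L.Z1 A)) : (pushZ1 φ hφ L c : G → B) = φ ∘ (c : G → A) := rfl
@[simp] lemma coe_pushZ2 (c : ↥(L.Z2 A)) :
    (pushZ2 φ hφ L c : G × G → B) = φ ∘ (c : G × G → A) := rfl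

/-- Push-forward on `H¹`. -/
def pushH1 : L.H1 A →ₗ[k] L.H1 B :=
  Submodule.mapQ ((LevelSys.B1 A).comap (L.Z1 A).subtype)
    ((LevelSys.B1 B).comap (L.Z1 B).subtype) (pushZ1 φ hφ L) fun c hc => by
    simp only [Submodule.mem_comap, Submodule.subtype_apply] at hc ⊢
    exact push_mem_B1 φ hφ hc

/-- Push-forward on `H²`. -/
def pushH2 : L.H2 A →ₗ[k] L.H2 B :=
  Submodule.mapQ ((L.B2 A).comap (L.Z2 A).subtype)
    ((L.B2 B).comap (L.Z2 B).subtype) (pushZ2 φ hφ L) fun c hc => by
    simp only [Submodule.mem_comap, Submodule.subtype_apply] at hc ⊢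
    exact push_mem_B2 φ hφ L hc

@[simp] lemma pushH1_mk (c : ↥(L.Z1 A)) :
    pushH1 φ hφ L (L.H1π A c) = L.H1π B (pushZ1 φ hφ L c) := rfl

@[simp] lemma pushH2_mk (c : ↥(L.Z2 A)) :
    pushH2 φ hφ L (L.H2π A c) = L.H2π B (pushZ2 φ hφ L c) := rfl

/-- Push-forward on invariants. -/
def pushH0 : ↥(LevelSys.H0 A) →ₗ[k] ↥(LevelSys.H0 B) :=
  φ.restrict fun a ha g => by rw [← hφ g a, ha g]

@[simp] lemma coe_pushH0 (a : ↥(LevelSys.H0 A)) : (pushH0 φ hφ a : B) = φ a := rfl

end Push

section Res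

variable {G' : Type} [Group G'] (r : G' →* G) (L : LevelSys G) (L' : LevelSys G')

/-- `r : G' → G` is compatible with the level systems (continuity). -/
def IsLevelCompatible : Prop := ∀ U ∈ L.levels, ∃ V ∈ L'.levels, V ≤ U.comap r

variable {r L L'} (hr : IsLevelCompatible r L L') (A : Rep.{0, 0, 0} k G)

lemma res_d₁₂ (f : G → A) :
    (d₁₂ (Rep.res r A)).hom (f ∘ r) = (d₁₂ A).hom f ∘ Prod.map r r := by
  funext ⟨g, h⟩
  simp only [d₁₂_hom_apply, Function.comp_apply, Prod.map_apply, map_mul]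
  rfl

lemma res_d₂₃ (f : G × G → A) :
    (d₂₃ (Rep.res r A)).hom (f ∘ Prod.map r r) =
      (d₂₃ A).hom f ∘ Prod.map r (Prod.map r r) := by
  funext ⟨g, h, j⟩
  simp only [d₂₃_hom_apply, Function.comp_apply, Prod.map_apply, map_mul]
  rfl

lemma res_d₀₁ (m : A) : (d₀₁ (Rep.res r A)).hom m = (d₀₁ A).hom m ∘ r := by
  funext g
  simp only [d₀₁_hom_apply, Function.comp_apply]
  rfl

include hr in
lemma IsLC₁.res {X : Type*} {f : G → X} (hf : L.IsLC₁ f) : L'.IsLC₁ (f ∘ r) := by
  obtain ⟨U, hU, h⟩ := hf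
  obtain ⟨V, hV, hle⟩ := hr U hU
  refine ⟨V, hV, fun g s hs => ?_⟩
  simp only [Function.comp_apply, map_mul]
  exact h (r g) (r s) (hle hs)

include hr in
lemma IsLC₂.res {X : Type*} {f : G × G → X} (hf : L.IsLC₂ f) : L'.IsLC₂ (f ∘ Prod.map r r) := by
  obtain ⟨U, hU, h⟩ := hf
  obtain ⟨V, hV, hle⟩ := hr U hU
  refine ⟨V, hV, fun g g' s s' hs hs' => ?_⟩
  simp only [Function.comp_apply, Prod.map_apply, map_mul]
  exact h (r g) (r g') (r s) (r s') (hle hs) (hle hs')

include hr in
lemma res_mem_Z1 {f : G → A} (hf : f ∈ L.Z1 A) : f ∘ r ∈ L'.Z1 (Rep.res r A) := by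
  refine ⟨?_, IsLC₁.res hr hf.2⟩
  have h0 : (d₁₂ A).hom f = 0 := hf.1
  show (d₁₂ (Rep.res r A)).hom (f ∘ r) = 0
  rw [res_d₁₂, h0]
  rfl

include hr in
lemma res_mem_Z2 {f : G × G → A} (hf : f ∈ L.Z2 A) :
    f ∘ Prod.map r r ∈ L'.Z2 (Rep.res r A) := by
  refine ⟨?_, IsLC₂.res hr hf.2⟩
  have h0 : (d₂₃ A).hom f = 0 := hf.1
  show (d₂₃ (Rep.res r A)).hom (f ∘ Prod.map r r) = 0
  rw [res_d₂₃, h0]
  rfl

lemma res_mem_B1 {f : G → A} (hf : f ∈ LevelSys.B1 A) :
    f ∘ r ∈ LevelSys.B1 (Rep.res r A) := by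
  obtain ⟨m, rfl⟩ := hf
  exact ⟨m, res_d₀₁ A m⟩

include hr in
lemma res_mem_B2 {f : G × G → A} (hf : f ∈ L.B2 A) :
    f ∘ Prod.map r r ∈ L'.B2 (Rep.res r A) := by
  obtain ⟨x, hx, rfl⟩ := hf
  exact ⟨x ∘ r, IsLC₁.res hr hx, res_d₁₂ A x⟩

/-- precomposition with `r` as a linear map on 1-cochains -/
def precomp₁ : (G → A) →ₗ[k] (G' → Rep.res r A) where
  toFun f := f ∘ r
  map_add' _ _ := rfl
  map_smul' _ _ := rfl

/-- precomposition with `r × r` as a linear map on 2-cochains -/
def precomp₂ : (G × G → A) →ₗ[k] (G' × G' → Rep.res r A) where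
  toFun f := f ∘ Prod.map r r
  map_add' _ _ := rfl
  map_smul' _ _ := rfl

/-- Restriction of level-constant 1-cocycles. -/
def resZ1 : ↥(L.Z1 A) →ₗ[k] ↥(L'.Z1 (Rep.res r A)) :=
  (precomp₁ (r := r) A).restrict fun _ hf => res_mem_Z1 hr A hf

/-- Restriction of level-constant 2-cocycles. -/
def resZ2 : ↥(L.Z2 A) →ₗ[k] ↥(L'.Z2 (Rep.res r A)) :=
  (precomp₂ (r := r) A).restrict fun _ hf => res_mem_Z2 hr A hf

@[simp] lemma coe_resZ1 (c : ↥(L.Z1 A)) :
    (resZ1 hr A c : G' → Rep.res r A) = (c : G → A) ∘ r := rfl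
@[simp] lemma coe_resZ2 (c : ↥(L.Z2 A)) :
    (resZ2 hr A c : G' × G' → Rep.res r A) = (c : G × G → A) ∘ Prod.map r r := rfl

/-- Restriction on `H¹`. -/
def resH1 : L.H1 A →ₗ[k] L'.H1 (Rep.res r A) :=
  Submodule.mapQ ((LevelSys.B1 A).comap (L.Z1 A).subtype)
    ((LevelSys.B1 (Rep.res r A)).comap (L'.Z1 (Rep.res r A)).subtype) (resZ1 hr A) fun c hc => by
    simp only [Submodule.mem_comap, Submodule.subtype_apply] at hc ⊢
    exact res_mem_B1 A hc

/-- Restriction on `H²`. -/
def resH2 : L.H2 A →ₗ[k] L'.H2 (Rep.res r A) :=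
  Submodule.mapQ ((L.B2 A).comap (L.Z2 A).subtype)
    ((L'.B2 (Rep.res r A)).comap (L'.Z2 (Rep.res r A)).subtype) (resZ2 hr A) fun c hc => by
    simp only [Submodule.mem_comap, Submodule.subtype_apply] at hc ⊢
    exact res_mem_B2 hr A hc

@[simp] lemma resH1_mk (c : ↥(L.Z1 A)) :
    resH1 hr A (L.H1π A c) = L'.H1π (Rep.res r A) (resZ1 hr A c) := rfl

@[simp] lemma resH2_mk (c : ↥(L.Z2 A)) :
    resH2 hr A (L.H2π A c) = L'.H2π (Rep.res r A) (resZ2 hr A c) := rfl

/-- Restriction on invariants (inclusion `A^G ⊆ A^{G'}`). -/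
def resH0 (r : G' →* G) (A : Rep.{0, 0, 0} k G) :
    ↥(LevelSys.H0 A) →ₗ[k] ↥(LevelSys.H0 (Rep.res r A)) where
  toFun a := ⟨(a : A), fun g => a.2 (r g)⟩
  map_add' _ _ := rfl
  map_smul' _ _ := rfl

@[simp] lemma coe_resH0 (a : ↥(LevelSys.H0 A)) : ((resH0 r A a : Rep.res r A) : A) = a := rfl

end Res

end Fermat.Agent.S55.PT

end

end
-- ===== PACK-END S55/PT/Coh.lean

-- ===== PACK-BEGIN S55/PT/SpecE.lean
section


/-!
# S55 / layer D: the abstract engine, version 3 (leaf D-E1)

Pure linear algebra over a field.  Compared with `H244.sha_equiv_of_localTop`: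
`θ` is not given; instead the global shift data (`dT`, `del`, `ThR`, `ThP`) and the weak
effaceability `hcap : dT x = 0 → u x = 0` (CAP) are given.
-/

set_option autoImplicit false

namespace Fermat.Agent.S55.PT

open Module Fermat.Agent.S55.H244

/-- **D-E1 (engine v3).**
Global: cone sequence `∏ L1 →j T2 →u H2 →loc2 L2`; shift `dT : T2 → T3R` with
`range dT = ker tT`; `H0P →r0 H0R →del X1` with `del` onto and `ker del = range r0`;
top maps `ThR` (bijective), `ThP` (injective), natural.
Local: `LocalTop` data at each place, `hloc`, and the formula for `ThR (dT (j b))`.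
CAP: `dT x = 0 → u x = 0`.
Conclusion: `ker loc2 ≃ Dual (ker loc)`. -/
def EngineSpec : Prop :=
  ∀ (k : Type) [Field k] (ι : Type) [Fintype ι] [DecidableEq ι]
    (T2 H2 L2 X1 T3R T3P H0R H0P : Type)
    [AddCommGroup T2] [Module k T2] [AddCommGroup H2] [Module k H2]
    [AddCommGroup L2] [Module k L2] [AddCommGroup X1] [Module k X1]
    [AddCommGroup T3R] [Module k T3R] [AddCommGroup T3P] [Module k T3P]
    [AddCommGroup H0R] [Module k H0R] [AddCommGroup H0P] [Module k H0P]
    (L1 T2R T2P H0Rv H0Pv Y1 : ι → Type)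
    [∀ v, AddCommGroup (L1 v)] [∀ v, Module k (L1 v)]
    [∀ v, AddCommGroup (T2R v)] [∀ v, Module k (T2R v)]
    [∀ v, AddCommGroup (T2P v)] [∀ v, Module k (T2P v)]
    [∀ v, AddCommGroup (H0Rv v)] [∀ v, Module k (H0Rv v)]
    [∀ v, AddCommGroup (H0Pv v)] [∀ v, Module k (H0Pv v)]
    [∀ v, AddCommGroup (Y1 v)] [∀ v, Module k (Y1 v)]
    [FiniteDimensional k X1]
    (j : (∀ v, L1 v) →ₗ[k] T2) (u : T2 →ₗ[k] H2) (loc2 : H2 →ₗ[k] L2)
    (loc : X1 →ₗ[k] (∀ v, Y1 v))
    (_hju : LinearMap.ker u = LinearMap.range j)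
    (_hu2 : LinearMap.range u = LinearMap.ker loc2)
    (dT : T2 →ₗ[k] T3R) (tT : T3R →ₗ[k] T3P)
    (_hdT : LinearMap.range dT = LinearMap.ker tT)
    (r0 : H0P →ₗ[k] H0R) (del : H0R →ₗ[k] X1)
    (_hdel : Function.Surjective del) (_hdelker : LinearMap.ker del = LinearMap.range r0)
    (ThR : T3R →ₗ[k] Dual k H0R) (ThP : T3P →ₗ[k] Dual k H0P)
    (_hThR : Function.Bijective ThR) (_hThP : Function.Injective ThP)
    (_hnat : ∀ (t : T3R) (g : H0P), ThP (tT t) g = ThR t (r0 g))
    (_hcap : ∀ x : T2, dT x = 0 → u x = 0)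
    (D : ∀ v, LocalTop k (L1 v) (T2R v) (T2P v) (H0Rv v) (H0Pv v) (Y1 v))
    (res : ∀ v, H0R →ₗ[k] H0Rv v)
    (_hloc : ∀ v f, (D v).del (res v f) = loc (del f) v)
    (c : k) (_hc : c ≠ 0)
    (_hform : ∀ (b : ∀ v, L1 v) (f : H0R),
      ThR (dT (j b)) f = c * ∑ v, (D v).ThR ((D v).dv (b v)) (res v f)),
    Nonempty (LinearMap.ker loc2 ≃ₗ[k] Dual k (LinearMap.ker loc))

end Fermat.Agent.S55.PT

end
-- ===== PACK-END S55/PT/SpecE.lean

-- ===== PACK-BEGIN S55/KL/H496/TrGroup.lean
section


/-!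
# S55 / layer KL, leaf KL-TR (helper496), part 2: `U/(V ∩ U) ≃* Gal(M/E)`

`U = Gal(Ω/E)`, `V = Gal(Ω/E')`, `M = E·E'`.
-/

set_option autoImplicit false

noncomputable section

namespace Fermat.Agent.S55.KL.H496

open IntermediateField Polynomial

variable {K Ω : Type} [Field K] [Field Ω] [Algebra K Ω] [IsGalois K Ω]
variable (E E' : IntermediateField K Ω) [FiniteDimensional K E'] [IsGalois K E']

instance normal_comp496 : Normal ↥E ↥(comp496 E E') :=
  (isGalois_comp496 E E').to_normal

/-- Restriction `Gal(Ω/E) = U → Gal(M/E)`. -/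
def resHom496 : ↥E.fixingSubgroup →* (↥(comp496 E E') ≃ₐ[↥E] ↥(comp496 E E')) :=
  (AlgEquiv.restrictNormalHom (F := ↥E) (K₁ := Ω) ↥(comp496 E E')).comp
    (IntermediateField.fixingSubgroupEquiv E).toMonoidHom

omit [IsGalois K Ω] in
theorem resHom496_apply (u : ↥E.fixingSubgroup) (x : ↥(comp496 E E')) :
    ((resHom496 E E' u x : ↥(comp496 E E')) : Ω) = (u : Ω ≃ₐ[K] Ω) (x : Ω) := by
  have := AlgEquiv.restrictNormalHom_apply (F := ↥E) (K₁ := Ω) (comp496 E E')
    (IntermediateField.fixingSubgroupEquiv E u) x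
  exact this

theorem resHom496_surjective : Function.Surjective (resHom496 E E') := by
  intro σ
  obtain ⟨τ, hτ⟩ := AlgEquiv.restrictNormalHom_surjective (F := ↥E) (K₁ := ↥(comp496 E E')) Ω σ
  obtain ⟨u, rfl⟩ := (IntermediateField.fixingSubgroupEquiv E).surjective τ
  exact ⟨u, hτ⟩

omit [IsGalois K Ω] in
theorem resHom496_ker :
    (resHom496 E E').ker = (E'.fixingSubgroup).subgroupOf E.fixingSubgroup := by
  ext u
  rw [MonoidHom.mem_ker, Subgroup.mem_subgroupOf, IntermediateField.mem_fixingSubgroup_iff]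
  constructor
  · intro h x hx
    have hx' : x ∈ comp496 E E' := (le_sup_right : E' ≤ E ⊔ E') hx
    have := resHom496_apply E E' u ⟨x, hx'⟩
    rw [h] at this
    exact this.symm
  · intro h
    ext ⟨x, hx⟩
    rw [resHom496_apply]
    show (u : Ω ≃ₐ[K] Ω) x = x
    have hu : (u : Ω ≃ₐ[K] Ω) ∈ (E ⊔ E').fixingSubgroup := by
      rw [IntermediateField.fixingSubgroup_sup]
      exact ⟨u.2, (IntermediateField.mem_fixingSubgroup_iff _ _).2 h⟩
    exact (IntermediateField.mem_fixingSubgroup_iff _ _).1 hu x hx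

/-- `U/(V ∩ U) ≃* Gal(M/E)`. -/
def quotEquiv496 :
    (↥E.fixingSubgroup ⧸ (E'.fixingSubgroup).subgroupOf E.fixingSubgroup) ≃*
      (↥(comp496 E E') ≃ₐ[↥E] ↥(comp496 E E')) :=
  (QuotientGroup.quotientMulEquivOfEq (resHom496_ker E E').symm).trans
    (QuotientGroup.quotientKerEquivOfSurjective (resHom496 E E') (resHom496_surjective E E'))

theorem quotEquiv496_mk (u : ↥E.fixingSubgroup) :
    quotEquiv496 E E' (QuotientGroup.mk u) = resHom496 E E' u := rfl

theorem card_quot496 :
    Nat.card (↥E.fixingSubgroup ⧸ (E'.fixingSubgroup).subgroupOf E.fixingSubgroup) =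
      Module.finrank ↥E ↥(comp496 E E') := by
  have h1 := isGalois_comp496 E E'
  have h2 := finiteDimensional_comp496 E E'
  rw [Nat.card_congr (quotEquiv496 E E').toEquiv, IsGalois.card_aut_eq_finrank]

end Fermat.Agent.S55.KL.H496

end
end
-- ===== PACK-END S55/KL/H496/TrGroup.lean

-- ===== PACK-BEGIN S55/L/RingOfIntegersUnique775.lean
section


/-!
# S55, layer L, leaf L-A0 (helper775): the ring of integers of a local field is unique

If `A` and `A'` are valuation subrings of a field `K`, `A` is `𝔪`-adically complete with finite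
residue field and `A'` is a Noetherian (e.g. discrete) valuation ring, then `A ≤ A'`.
Consequently two complete discrete valuation subrings with finite residue fields coincide:
`ringOfIntegersUnique775 : RingOfIntegersUniqueSpec`.

Proof: by Hensel's lemma every principal unit of `A` is an `n`-th power for every `n ≡ 1` modulo the
cardinality `q` of the residue field; an element of `K` with `n`-th roots for arbitrarily large `n`
is integral for `A'` by Krull's intersection theorem; a unit `u` of `A` has `u ^ (q - 1)` principal.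
-/

set_option autoImplicit false

namespace Fermat.Agent.S55.L

open IsLocalRing Polynomial

section

variable {K : Type} [Field K]

/-- Hensel: in a complete local ring, an element `x ≡ 1` is an `n`-th power if `n ≡ 1`. -/
theorem exists_pow_eq_of_sub_one_mem775 {R : Type*} [CommRing R] [IsLocalRing R]
    [IsAdicComplete (maximalIdeal R) R] {n : ℕ} (hn : ((n : ℕ) : R) - 1 ∈ maximalIdeal R)
    {x : R} (hx : x - 1 ∈ maximalIdeal R) : ∃ y : R, y ^ n = x := by
  have hn0 : n ≠ 0 := by
    rintro rfl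
    have h1 : (1 : R) ∈ maximalIdeal R := by
      have := (maximalIdeal R).neg_mem hn
      simp at this
    exact (Ideal.ne_top_iff_one _).mp (maximalIdeal.isMaximal R).ne_top h1
  have hmonic : (X ^ n - C x : R[X]).Monic := monic_X_pow_sub_C x hn0
  obtain ⟨a, ha, -⟩ := HenselianRing.is_henselian (I := maximalIdeal R) (X ^ n - C x : R[X])
    hmonic 1 (by
      have : (X ^ n - C x : R[X]).eval 1 = -(x - 1) := by simp
      rw [this]
      exact (maximalIdeal R).neg_mem hx) (by
      have : (derivative (X ^ n - C x : R[X])).eval 1 = (n : R) := by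
        simp [derivative_X_pow]
      rw [this]
      have h1 : Ideal.Quotient.mk (maximalIdeal R) (n : R) = 1 := by
        rw [← sub_eq_zero, ← map_one (Ideal.Quotient.mk (maximalIdeal R)), ← map_sub]
        exact Ideal.Quotient.eq_zero_iff_mem.mpr hn
      rw [h1]
      exact isUnit_one)
  refine ⟨a, ?_⟩
  have : (X ^ n - C x : R[X]).eval a = 0 := ha
  simpa [sub_eq_zero] using this

/-- Krull: an element of `K` having `n`-th roots for arbitrarily large `n` lies in every
Noetherian valuation subring. -/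
theorem mem_of_forall_exists_pow_eq775 (A' : ValuationSubring K) [IsNoetherianRing A']
    {z : K} (hz : z ≠ 0) (h : ∀ N : ℕ, ∃ n, N ≤ n ∧ ∃ y : K, y ^ n = z) : z ∈ A' := by
  by_contra hzA
  have hinv : z⁻¹ ∈ A' := (A'.mem_or_inv_mem z).resolve_left hzA
  set w : A' := ⟨z⁻¹, hinv⟩ with hw
  have hmem : ∀ N : ℕ, w ∈ maximalIdeal A' ^ N := by
    intro N
    obtain ⟨n, hNn, y, hy⟩ := h N
    have hyA : y ∉ A' := fun hyA => hzA (hy ▸ pow_mem hyA n)
    have hyinv : y⁻¹ ∈ A' := (A'.mem_or_inv_mem y).resolve_left hyA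
    set t : A' := ⟨y⁻¹, hyinv⟩ with ht
    have htm : t ∈ maximalIdeal A' := by
      rw [mem_maximalIdeal, mem_nonunits_iff]
      intro htu
      obtain ⟨s, hs⟩ := htu.exists_right_inv
      have hs' : y⁻¹ * (s : K) = 1 := by
        have := congrArg (fun a : A' => (a : K)) hs
        simpa [ht] using this
      have hy0 : y ≠ 0 := by
        rintro rfl
        simp at hs'
      have : (s : K) = y := by
        field_simp at hs'
        exact hs'
      exact hyA (this ▸ s.2)
    have hwt : w = t ^ n := by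
      apply Subtype.ext
      simp [hw, ht, ← hy]
    rw [hwt]
    exact Ideal.pow_le_pow_right hNn (Ideal.pow_mem_pow htm n)
  have hbot : w ∈ (⨅ i : ℕ, maximalIdeal A' ^ i) := by
    simp only [Ideal.mem_iInf]
    exact hmem
  rw [Ideal.iInf_pow_eq_bot_of_isLocalRing _ (maximalIdeal.isMaximal A').ne_top] at hbot
  have hw0 : w = 0 := by simpa using hbot
  have : z⁻¹ = 0 := by
    have := congrArg (fun a : A' => (a : K)) hw0
    simpa [hw] using this
  exact hz (inv_eq_zero.mp this)

/-- A principal unit of a complete valuation subring with finite residue field lies in every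
Noetherian valuation subring. -/
theorem mem_of_sub_one_mem_maximalIdeal775 (A A' : ValuationSubring K)
    [IsAdicComplete (maximalIdeal A) A] [Finite (ResidueField A)] [IsNoetherianRing A']
    {x : A} (hx : x - 1 ∈ maximalIdeal A) : (x : K) ∈ A' := by
  classical
  let _ : Fintype (ResidueField A) := Fintype.ofFinite _
  set q : ℕ := Fintype.card (ResidueField A) with hq
  have hqm : ((q : ℕ) : A) ∈ maximalIdeal A := by
    rw [← residue_eq_zero_iff, map_natCast]
    exact FiniteField.cast_card_eq_zero (ResidueField A)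
  have hx0 : (x : K) ≠ 0 := by
    intro h0
    have hx0' : x = 0 := Subtype.ext h0
    rw [hx0', zero_sub] at hx
    have h1 : (1 : A) ∈ maximalIdeal A := by simpa using (maximalIdeal A).neg_mem hx
    exact (Ideal.ne_top_iff_one _).mp (maximalIdeal.isMaximal A).ne_top h1
  refine mem_of_forall_exists_pow_eq775 A' hx0 fun N => ?_
  refine ⟨q * N + 1, ?_, ?_⟩
  · have hq1 : 1 ≤ q := Fintype.card_pos
    nlinarith
  · have hn : (((q * N + 1 : ℕ) : ℕ) : A) - 1 ∈ maximalIdeal A := by
      have : (((q * N + 1 : ℕ) : ℕ) : A) - 1 = (q : A) * (N : A) := by push_cast; ring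
      rw [this]
      exact Ideal.mul_mem_right _ _ hqm
    obtain ⟨y, hy⟩ := exists_pow_eq_of_sub_one_mem775 hn hx
    exact ⟨(y : K), by rw [← hy]; simp⟩

/-- A complete valuation subring with finite residue field is contained in every Noetherian
valuation subring (of the same field) -/
theorem le_of_complete_of_noetherian775 (A A' : ValuationSubring K)
    [IsAdicComplete (maximalIdeal A) A] [Finite (ResidueField A)] [IsNoetherianRing A'] :
    A ≤ A' := by
  classical
  let _ : Fintype (ResidueField A) := Fintype.ofFinite _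
  -- units of `A` lie in `A'`
  have hunit : ∀ u : A, IsUnit u → (u : K) ∈ A' := by
    intro u hu
    set q : ℕ := Fintype.card (ResidueField A) with hq
    have hres : residue A u ≠ 0 := by
      rw [Ne, residue_eq_zero_iff, mem_maximalIdeal, mem_nonunits_iff]
      exact not_not.mpr hu
    have hpow : residue A (u ^ (q - 1)) = 1 := by
      rw [map_pow]
      exact FiniteField.pow_card_sub_one_eq_one _ hres
    have hx : u ^ (q - 1) - 1 ∈ maximalIdeal A := by
      rw [← residue_eq_zero_iff, map_sub, hpow, map_one, sub_self]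
    have hmem : ((u ^ (q - 1) : A) : K) ∈ A' := mem_of_sub_one_mem_maximalIdeal775 A A' hx
    have hq2 : q - 1 ≠ 0 := by
      have : 1 < q := Fintype.one_lt_card
      omega
    -- `A'` is integrally closed
    by_contra huA
    have huinv : (u : K)⁻¹ ∈ A' := (A'.mem_or_inv_mem _).resolve_left huA
    have hu0 : (u : K) ≠ 0 := by
      intro h0
      exact huA (h0 ▸ A'.zero_mem)
    obtain ⟨m, hm⟩ : ∃ m, q - 1 = m + 1 := Nat.exists_eq_succ_of_ne_zero hq2
    have : (u : K) = ((u ^ (q - 1) : A) : K) * ((u : K)⁻¹) ^ m := by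
      rw [hm]
      push_cast
      rw [pow_succ, inv_pow, mul_comm ((u : K) ^ m) (u : K), mul_assoc,
        mul_inv_cancel₀ (pow_ne_zero m hu0), mul_one]
    exact huA (this ▸ A'.mul_mem _ _ hmem (pow_mem huinv _))
  intro a ha
  by_cases hau : IsUnit (⟨a, ha⟩ : A)
  · exact hunit ⟨a, ha⟩ hau
  · have h1 : IsUnit ((1 : A) + ⟨a, ha⟩) := by
      have hm : (⟨a, ha⟩ : A) ∈ maximalIdeal A := by
        rw [mem_maximalIdeal, mem_nonunits_iff]
        exact hau
      have := IsLocalRing.isUnit_one_sub_self_of_mem_nonunits (-(⟨a, ha⟩ : A))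
        (by
          rw [← mem_maximalIdeal]
          exact (maximalIdeal A).neg_mem hm)
      simpa using this
    have h2 := hunit _ h1
    have h3 : a = (((1 : A) + ⟨a, ha⟩ : A) : K) - 1 := by simp
    rw [h3]
    exact A'.sub_mem h2 A'.one_mem

end

/-- **L-A0** The ring of integers of a local field is unique. -/
theorem ringOfIntegersUnique775 : RingOfIntegersUniqueSpec := by
  intro K _ _ A A' hA hA'
  obtain ⟨hdvr, hcomp, hfin⟩ := hA
  obtain ⟨hdvr', hcomp', hfin'⟩ := hA'
  have := hdvr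
  have := hdvr'
  have := hcomp
  have := hcomp'
  have := hfin
  have := hfin'
  exact le_antisymm (le_of_complete_of_noetherian775 A A') (le_of_complete_of_noetherian775 A' A)

end Fermat.Agent.S55.L

end
-- ===== PACK-END S55/L/RingOfIntegersUnique775.lean

-- ===== PACK-BEGIN S55/L/FiniteExt286.lean
section





/-!
# S55, layer L, leaf L-A1: a finite extension of a local field is a local field

`finiteExt286 : FiniteExtSpec`.

Route: `A` a complete DVR with finite residue field and fraction field `K` (characteristic `0`),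
`L / K` finite.  The integral closure `C` of `A` in `L` is a Dedekind domain, finite over `A`
(separability).  It is local because a domain that is finite over a complete Noetherian local ring
has only one maximal ideal (Prelude: such an algebra is the product of its localisations at the
finitely many maximal ideals).  Hence `C` is a DVR; it is complete (Prelude) with finite residue
field, and it is a valuation subring of `L`.
-/

set_option autoImplicit false

namespace Fermat.Agent.S55.L

open IsLocalRing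

/-- A domain that is module-finite over a complete Noetherian local ring is local. -/
theorem isLocalRing_of_finite_of_isDomain286 (𝒪 : Type) [CommRing 𝒪] [IsLocalRing 𝒪]
    [IsNoetherianRing 𝒪] [IsAdicComplete (maximalIdeal 𝒪) 𝒪]
    (B : Type) [CommRing B] [IsDomain B] [Algebra 𝒪 B] [Module.Finite 𝒪 B] :
    IsLocalRing B := by
  classical
  obtain ⟨-, hbij, -, -⟩ :=
    Algebra.finite_maximalSpectrum_and_bijective_localization_of_module_finite (𝒪 := 𝒪) B
  refine IsLocalRing.of_unique_max_ideal ?_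
  obtain ⟨I, hI⟩ := Ideal.exists_maximal B
  refine ⟨I, hI, fun J hJ => ?_⟩
  by_contra hne
  let I' : MaximalSpectrum B := ⟨I, hI⟩
  let J' : MaximalSpectrum B := ⟨J, hJ⟩
  have hne' : J' ≠ I' := fun h => hne (congrArg MaximalSpectrum.asIdeal h)
  obtain ⟨e, he⟩ := hbij.2 (Pi.single I' 1)
  have h0 : e * (1 - e) = 0 := by
    apply hbij.1
    rw [map_mul, map_sub, map_one, map_zero, he]
    ext K
    by_cases hK : K = I'
    · subst hK; simp
    · simp [Pi.single_eq_of_ne hK]
  rcases mul_eq_zero.mp h0 with h | h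
  · have h2 := congrFun he I'
    rw [h, map_zero] at h2
    simp at h2
  · have h1 : e = 1 := (sub_eq_zero.mp h).symm
    have h2 := congrFun he J'
    rw [h1, map_one] at h2
    simp [Pi.single_eq_of_ne hne'] at h2

section Generic

variable {K L : Type} [Field K] [Field L] [Algebra K L] [FiniteDimensional K L] [CharZero K]

/-- Any integral closure `C` of a complete DVR `A` (with finite residue field, `Frac A = K` of
characteristic zero) in a finite extension `L / K` is a complete DVR with finite residue field. -/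
theorem isLocalRingOfIntegers_integralClosure286 (A : ValuationSubring K)
    (hA : IsLocalRingOfIntegers A) (C : Type) [CommRing C] [IsDomain C] [Algebra A L] [IsScalarTower A K L]
    [Algebra C L] [IsIntegralClosure C A L] [Algebra A C] [IsScalarTower A C L] :
    ∃ _ : IsLocalRing C, IsDiscreteValuationRing C ∧ IsAdicComplete (maximalIdeal C) C ∧
      Finite (ResidueField C) := by
  obtain ⟨hdvr, hcomplete, hfin⟩ := hA
  have := hdvr
  have := hcomplete
  have : Algebra.IsSeparable K L := inferInstance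
  have : Module.Finite A C := IsIntegralClosure.finite A K L C
  have : IsDedekindDomain C := IsIntegralClosure.isDedekindDomain A K L C
  have : IsLocalRing C := isLocalRing_of_finite_of_isDomain286 A C
  have : Algebra.IsIntegral A C := IsIntegralClosure.isIntegral_algebra A L
  have hinjL : Function.Injective (algebraMap A L) := by
    rw [IsScalarTower.algebraMap_eq A K L]
    exact (algebraMap K L).injective.comp (IsFractionRing.injective A K)
  have hinj : Function.Injective (algebraMap A C) := by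
    intro x y hxy
    apply hinjL
    rw [IsScalarTower.algebraMap_apply A C L, IsScalarTower.algebraMap_apply A C L, hxy]
  have : FaithfulSMul A C := (faithfulSMul_iff_algebraMap_injective A C).mpr hinj
  have hnf : ¬ IsField C := fun h =>
    IsDiscreteValuationRing.not_isField A (isField_of_isIntegral_of_isField hinj h)
  have h02 : IsDiscreteValuationRing C ↔ IsDedekindDomain C :=
    (IsDiscreteValuationRing.TFAE C hnf).out 0 2
  have : IsDiscreteValuationRing C := h02.mpr inferInstance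
  have hloc : IsLocalHom (algebraMap (↥A) C) := Algebra.IsIntegral.isLocalHom _ _
  have hfinC : Finite (ResidueField C) :=
    @IsLocalRing.ResidueField.finite_of_finite (↥A) C _ _ _ _ _ hloc _ hfin
  refine ⟨inferInstance, inferInstance, ?_, hfinC⟩
  exact IsLocalRing.isAdicComplete_of_module_finite (𝒪 := A) (T := C)

end Generic

/-- Refined form of **L-A1**: for a ring of integers `A` of `K` there is a ring of integers `B`
of the finite extension `L` which is exactly the integral closure of `A` in `L` (for any algebra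
structure `A → L` compatible with `A → K → L`), and `A` is the preimage of `B` in `K`. -/
theorem exists_ringOfIntegers_eq_integralClosure286 {K L : Type} [Field K] [Field L] [Algebra K L]
    [FiniteDimensional K L] [CharZero K] (A : ValuationSubring K) (hA : IsLocalRingOfIntegers A)
    [Algebra A L] [IsScalarTower A K L] :
    ∃ B : ValuationSubring L, IsLocalRingOfIntegers B ∧ (∀ x : L, x ∈ B ↔ IsIntegral A x) ∧
      (∀ x : K, algebraMap K L x ∈ B ↔ x ∈ A) := by
  obtain ⟨_, hB, -, -⟩ :=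
    isLocalRingOfIntegers_integralClosure286 (K := K) (L := L) A hA (integralClosure A L)
  have : IsFractionRing (integralClosure A L) L :=
    IsIntegralClosure.isFractionRing_of_finite_extension A K L _
  have hval : ∀ x : L, x ∈ integralClosure A L ∨ x⁻¹ ∈ integralClosure A L := by
    intro x
    rcases ValuationRing.isInteger_or_isInteger (integralClosure A L) x with ⟨b, hb⟩ | ⟨b, hb⟩
    · left; rw [← hb]; exact b.2
    · right; rw [← hb]; exact b.2
  let BV : ValuationSubring L :=
    { (integralClosure A L).toSubring with mem_or_inv_mem' := hval }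
  have hmem : ∀ x : L, x ∈ BV ↔ IsIntegral A x := fun x => Iff.rfl
  let _ : Algebra A BV :=
    ((algebraMap A L).codRestrict BV (fun a => (hmem _).mpr isIntegral_algebraMap)).toAlgebra
  have : IsScalarTower A BV L := IsScalarTower.of_algebraMap_eq (fun _ => rfl)
  have : IsIntegralClosure BV A L :=
    ⟨Subtype.val_injective, fun {x} => ⟨fun h => ⟨⟨x, (hmem x).mpr h⟩, rfl⟩,
      fun ⟨y, hy⟩ => hy ▸ (hmem _).mp y.2⟩⟩
  obtain ⟨_, h1, h2, h3⟩ := isLocalRingOfIntegers_integralClosure286 (K := K) (L := L) A hA BV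
  refine ⟨BV, ⟨h1, h2, h3⟩, hmem, fun x => ?_⟩
  have := hA.1
  rw [hmem]
  constructor
  · intro hx
    have hx' : IsIntegral A x := by
      rw [← isIntegral_algebraMap_iff (algebraMap K L).injective]
      exact hx
    obtain ⟨a, ha⟩ := IsIntegrallyClosed.isIntegral_iff.mp hx'
    rw [← ha]
    exact a.2
  · intro hx
    have : algebraMap K L x = algebraMap A L ⟨x, hx⟩ := by
      rw [IsScalarTower.algebraMap_apply A K L]
      rfl
    rw [this]
    exact isIntegral_algebraMap

/-- **L-A1.** A finite extension of a local field is a local field. -/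
theorem finiteExt286 : FiniteExtSpec := by
  intro K L _ _ _ _ hK
  have hchar : CharZero K := hK.charZero
  obtain ⟨A, hA⟩ := hK.exists_ringOfIntegers
  let _ : Algebra A L := ((algebraMap K L).comp (algebraMap A K)).toAlgebra
  have : IsScalarTower A K L := IsScalarTower.of_algebraMap_eq (fun _ => rfl)
  obtain ⟨B, hB, -, -⟩ := exists_ringOfIntegers_eq_integralClosure286 (K := K) (L := L) A hA
  exact { charZero := charZero_of_injective_algebraMap (algebraMap K L).injective
          exists_ringOfIntegers := ⟨B, hB⟩ }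

end Fermat.Agent.S55.L

end
-- ===== PACK-END S55/L/FiniteExt286.lean

-- ===== PACK-BEGIN S55/H953/Lattice.lean
section


/-!
# S55 / local norm index: the normal-basis lattice filtration

`K` is a complete ultrametric nontrivially normed field, `L/K` a finite Galois extension which is
a normed field extension.  For the normal basis `b g = g θ` we consider the additive subgroups
`lam ρ = {x | ∀ g, ‖b.repr x g‖ ≤ ρ}` and show that for a generator `σ` of the (cyclic) Galois
group they give a `Filtration` in the sense of `Approx.lean`.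
-/

set_option autoImplicit false

namespace Fermat.Agent.S55.H953

open Module Finset NNReal

variable (K L : Type*) [NontriviallyNormedField K] [IsUltrametricDist K]
  [NormedField L] [NormedAlgebra K L] [FiniteDimensional K L] [IsGalois K L]

/-- The lattice of elements whose normal-basis coordinates have norm `≤ ρ`. -/
noncomputable def lam (ρ : ℝ≥0) : AddSubgroup L where
  carrier := {x | ∀ g, ‖(IsGalois.normalBasis K L).repr x g‖ ≤ ρ}
  zero_mem' := by
    intro g
    simp
  add_mem' := by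
    intro x y hx hy g
    simp only [map_add, Finsupp.coe_add, Pi.add_apply]
    exact (IsUltrametricDist.norm_add_le_max _ _).trans (max_le (hx g) (hy g))
  neg_mem' := by
    intro x hx g
    simpa using hx g

variable {K L}

lemma mem_lam {ρ : ℝ≥0} {x : L} :
    x ∈ lam K L ρ ↔ ∀ g, ‖(IsGalois.normalBasis K L).repr x g‖ ≤ ρ := Iff.rfl

lemma lam_mono {ρ ρ' : ℝ≥0} (h : ρ ≤ ρ') : lam K L ρ ≤ lam K L ρ' :=
  fun _ hx g => (hx g).trans (by exact_mod_cast h)

lemma smul_mem_lam {ρ : ℝ≥0} {x : L} (hx : x ∈ lam K L ρ) (a : K) :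
    a • x ∈ lam K L (‖a‖₊ * ρ) := by
  intro g
  simp only [map_smul, Finsupp.coe_smul, Pi.smul_apply, smul_eq_mul, norm_mul, NNReal.coe_mul,
    coe_nnnorm]
  exact mul_le_mul_of_nonneg_left (hx g) (norm_nonneg a)

lemma basis_mem_lam (g : L ≃ₐ[K] L) : IsGalois.normalBasis K L g ∈ lam K L 1 := by
  classical
  intro h
  rw [Basis.repr_self, Finsupp.single_apply]
  split_ifs <;> simp

omit [IsUltrametricDist K] in
/-- the action of the Galois group on normal-basis coordinates -/
lemma repr_apply_algEquiv (h : L ≃ₐ[K] L) (x : L) (g : L ≃ₐ[K] L) :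
    (IsGalois.normalBasis K L).repr (h x) g = (IsGalois.normalBasis K L).repr x (h⁻¹ * g) := by
  classical
  set b := IsGalois.normalBasis K L with hb
  have hx : x = ∑ k, b.repr x k • b k := (b.sum_repr x).symm
  conv_lhs => rw [hx]
  simp only [map_sum, map_smul]
  have : ∀ k, h (b k) = b (h * k) := by
    intro k
    rw [hb, IsGalois.normalBasis_apply, IsGalois.normalBasis_apply (h * k)]
    rfl
  simp only [this, Basis.repr_self, Finsupp.coe_finsetSum, Finsupp.coe_smul, Finset.sum_apply,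
    Pi.smul_apply, smul_eq_mul, Finsupp.single_apply]
  rw [Finset.sum_eq_single (h⁻¹ * g)]
  · simp
  · intro k _ hk
    have : h * k ≠ g := by
      intro e
      apply hk
      rw [← e]; simp
    simp [this]
  · intro hh
    exact absurd (Finset.mem_univ _) hh

lemma algEquiv_mem_lam {ρ : ℝ≥0} {x : L} (hx : x ∈ lam K L ρ) (h : L ≃ₐ[K] L) :
    h x ∈ lam K L ρ := by
  intro g
  rw [repr_apply_algEquiv]
  exact hx _

variable (K L) in
/-- a bound for the structure constants of the normal basis -/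
noncomputable def structBound : ℝ≥0 :=
  Finset.univ.sup fun t : (L ≃ₐ[K] L) × (L ≃ₐ[K] L) × (L ≃ₐ[K] L) =>
    ‖(IsGalois.normalBasis K L).repr
      (IsGalois.normalBasis K L t.1 * IsGalois.normalBasis K L t.2.1) t.2.2‖₊

variable (K L) in
/-- a bound for the norms of the elements of the normal basis -/
noncomputable def basisBound : ℝ≥0 :=
  Finset.univ.sup fun g : (L ≃ₐ[K] L) => ‖IsGalois.normalBasis K L g‖₊

lemma basis_mul_mem_lam (g h : L ≃ₐ[K] L) :
    IsGalois.normalBasis K L g * IsGalois.normalBasis K L h ∈ lam K L (structBound K L) := by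
  intro k
  have := Finset.le_sup (f := fun t : (L ≃ₐ[K] L) × (L ≃ₐ[K] L) × (L ≃ₐ[K] L) =>
    ‖(IsGalois.normalBasis K L).repr
      (IsGalois.normalBasis K L t.1 * IsGalois.normalBasis K L t.2.1) t.2.2‖₊)
    (Finset.mem_univ (g, h, k))
  exact_mod_cast this

lemma mul_mem_lam {ρ ρ' : ℝ≥0} {x y : L} (hx : x ∈ lam K L ρ) (hy : y ∈ lam K L ρ') :
    x * y ∈ lam K L (structBound K L * ρ * ρ') := by
  classical
  set b := IsGalois.normalBasis K L with hb
  have ex : x = ∑ k, b.repr x k • b k := (b.sum_repr x).symm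
  have ey : y = ∑ k, b.repr y k • b k := (b.sum_repr y).symm
  rw [ex, ey, Finset.sum_mul_sum]
  refine AddSubgroup.sum_mem _ (fun g _ => AddSubgroup.sum_mem _ (fun h _ => ?_))
  have e : b.repr x g • b g * b.repr y h • b h = (b.repr x g * b.repr y h) • (b g * b h) := by
    rw [smul_mul_smul_comm]
  rw [e]
  refine lam_mono ?_ (smul_mem_lam (basis_mul_mem_lam g h) _)
  rw [nnnorm_mul]
  have h1 : ‖b.repr x g‖₊ ≤ ρ := by exact_mod_cast hx g
  have h2 : ‖b.repr y h‖₊ ≤ ρ' := by exact_mod_cast hy h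
  calc ‖b.repr x g‖₊ * ‖b.repr y h‖₊ * structBound K L
      ≤ ρ * ρ' * structBound K L := by gcongr
    _ = structBound K L * ρ * ρ' := by ring

lemma norm_le_of_mem_lam {ρ : ℝ≥0} {x : L} (hx : x ∈ lam K L ρ) :
    ‖x‖ ≤ ρ * basisBound K L := by
  classical
  have : IsUltrametricDist L := IsUltrametricDist.of_normedAlgebra K
  set b := IsGalois.normalBasis K L with hb
  have ex : x = ∑ k, b.repr x k • b k := (b.sum_repr x).symm
  rw [ex]
  refine IsUltrametricDist.norm_sum_le_of_forall_le_of_nonneg (by positivity) (fun g _ => ?_)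
  rw [norm_smul]
  have h2 : ‖b g‖₊ ≤ basisBound K L :=
    Finset.le_sup (f := fun g : (L ≃ₐ[K] L) => ‖IsGalois.normalBasis K L g‖₊) (Finset.mem_univ g)
  have h2' : ‖b g‖ ≤ basisBound K L := by exact_mod_cast h2
  exact mul_le_mul (hx g) h2' (norm_nonneg _) (by positivity)

lemma isClosed_lam [CompleteSpace K] (ρ : ℝ≥0) : IsClosed (lam K L ρ : Set L) := by
  have : (lam K L ρ : Set L) =
      ⋂ g, {x | ‖(IsGalois.normalBasis K L).repr x g‖ ≤ ρ} := by
    ext x
    simp only [SetLike.mem_coe, mem_lam, Set.mem_iInter, Set.mem_ofPred_eq]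
  rw [this]
  refine isClosed_iInter (fun g => ?_)
  have hc : Continuous fun x : L => (IsGalois.normalBasis K L).repr x g :=
    LinearMap.continuous_of_finiteDimensional ((IsGalois.normalBasis K L).coord g)
  exact isClosed_le (continuous_norm.comp hc) continuous_const

lemma isOpen_lam [CompleteSpace K] {ρ : ℝ≥0} (hρ : ρ ≠ 0) : IsOpen (lam K L ρ : Set L) := by
  have : (lam K L ρ : Set L) =
      ⋂ g, {x | ‖(IsGalois.normalBasis K L).repr x g‖ ≤ ρ} := by
    ext x
    simp only [SetLike.mem_coe, mem_lam, Set.mem_iInter, Set.mem_ofPred_eq]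
  rw [this]
  refine isOpen_iInter_of_finite (fun g => ?_)
  have hc : Continuous fun x : L => (IsGalois.normalBasis K L).repr x g :=
    LinearMap.continuous_of_finiteDimensional ((IsGalois.normalBasis K L).coord g)
  have : {x : L | ‖(IsGalois.normalBasis K L).repr x g‖ ≤ ρ} =
      (fun x : L => (IsGalois.normalBasis K L).repr x g) ⁻¹' Metric.closedBall 0 ρ := by
    ext x; simp
  rw [this]
  exact (IsUltrametricDist.isOpen_closedBall 0 (by exact_mod_cast hρ)).preimage hc

/-- every `K`-automorphism of `L` is an isometry -/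
lemma norm_algEquiv [CompleteSpace K] (g : L ≃ₐ[K] L) (x : L) : ‖g x‖ = ‖x‖ := by
  rw [NormedAlgebra.norm_eq_spectralNorm K, NormedAlgebra.norm_eq_spectralNorm K x]
  exact (spectralNorm_eq_of_equiv g x).symm

/-! ### Sums over powers of a generator -/

section Cyclic

variable (σ : L ≃ₐ[K] L) (hσ : ∀ g : L ≃ₐ[K] L, g ∈ Subgroup.zpowers σ)

lemma toRingEquiv_pow_apply (j : ℕ) (x : L) :
    ((σ : L ≃+* L) ^ j) x = (σ ^ j) x := by
  induction j generalizing x with
  | zero => rfl
  | succ j ih =>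
    rw [pow_succ, pow_succ]
    change ((σ : L ≃+* L) ^ j) (σ x) = (σ ^ j) (σ x)
    exact ih (σ x)

include hσ in
lemma sum_range_pow_eq_sum_univ {M : Type*} [AddCommMonoid M] (f : (L ≃ₐ[K] L) → M) :
    ∑ j ∈ range (orderOf σ), f (σ ^ j) = ∑ g, f g := by
  classical
  rw [← IsCyclic.image_range_orderOf hσ, Finset.sum_image]
  intro i hi j hj hij
  exact pow_injOn_Iio_orderOf (by simpa using hi) (by simpa using hj) hij

include hσ in
lemma prod_range_pow_eq_prod_univ {M : Type*} [CommMonoid M] (f : (L ≃ₐ[K] L) → M) :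
    ∏ j ∈ range (orderOf σ), f (σ ^ j) = ∏ g, f g := by
  classical
  rw [← IsCyclic.image_range_orderOf hσ, Finset.prod_image]
  intro i hi j hj hij
  exact pow_injOn_Iio_orderOf (by simpa using hi) (by simpa using hj) hij

include hσ in
lemma apply_eq_of_generator_apply_eq {a : L} (ha : σ a = a) (g : L ≃ₐ[K] L) : g a = a := by
  have h1 : Subgroup.zpowers σ ≤ MulAction.stabilizer (L ≃ₐ[K] L) a := by
    rw [Subgroup.zpowers_le]
    exact ha
  exact h1 (hσ g)

include hσ in
lemma exists_pow_eq (g : L ≃ₐ[K] L) : ∃ k : ℕ, σ ^ k = g := by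
  exact mem_powers_iff_mem_zpowers.mpr (hσ g)

include hσ in
/-- coordinates of a `σ`-fixed element are all equal -/
lemma repr_eq_of_fixed {a : L} (ha : σ a = a) (g : L ≃ₐ[K] L) :
    (IsGalois.normalBasis K L).repr a g = (IsGalois.normalBasis K L).repr a 1 := by
  have h1 : g⁻¹ a = a := apply_eq_of_generator_apply_eq σ hσ ha g⁻¹
  conv_rhs => rw [← h1]
  rw [repr_apply_algEquiv]
  simp

include hσ in
lemma trace_surj_lam {ρ : ℝ≥0} {a : L} (ha : a ∈ lam K L ρ) (hfix : σ a = a) :
    ∃ b ∈ lam K L ρ, ∑ j ∈ range (orderOf σ), ((σ : L ≃+* L) ^ j) b = a := by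
  classical
  set B := IsGalois.normalBasis K L with hB
  refine ⟨B.repr a 1 • B 1, ?_, ?_⟩
  · refine lam_mono ?_ (smul_mem_lam (basis_mem_lam 1) _)
    rw [mul_one]
    exact_mod_cast ha 1
  · simp_rw [toRingEquiv_pow_apply]
    rw [sum_range_pow_eq_sum_univ σ hσ (fun g => g (B.repr a 1 • B 1))]
    conv_rhs => rw [← B.sum_repr a]
    refine Finset.sum_congr rfl (fun g _ => ?_)
    rw [map_smul, repr_eq_of_fixed σ hσ hfix g, hB, IsGalois.normalBasis_apply g]

omit [IsUltrametricDist K] in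
lemma sum_repr_trace (a : L) (g : L ≃ₐ[K] L) :
    (IsGalois.normalBasis K L).repr (∑ h : L ≃ₐ[K] L, h a) g =
      ∑ k, (IsGalois.normalBasis K L).repr a k := by
  classical
  rw [map_sum, Finsupp.coe_finsetSum, Finset.sum_apply]
  simp_rw [repr_apply_algEquiv]
  exact Fintype.sum_equiv ((Equiv.inv _).trans (Equiv.mulRight g)) _ _ (fun h => by simp)

include hσ in
lemma sub_surj_lam {ρ ρ' : ℝ≥0} {a : L} (ha : a ∈ lam K L ρ)
    (htr : ∑ j ∈ range (orderOf σ), ((σ : L ≃+* L) ^ j) a ∈ lam K L ρ') :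
    ∃ b ∈ lam K L ρ, σ b - b - a ∈ lam K L ρ' := by
  classical
  set B := IsGalois.normalBasis K L with hB
  simp_rw [toRingEquiv_pow_apply] at htr
  rw [sum_range_pow_eq_sum_univ σ hσ (fun g => g a)] at htr
  have hs : ‖∑ k, B.repr a k‖ ≤ ρ' := by
    have := htr 1
    rwa [sum_repr_trace a 1] at this
  choose e he using exists_pow_eq σ hσ
  have hpow : ∀ m : ℕ, (σ ^ m) (B 1) = B (σ ^ m) := fun m => by
    rw [hB, IsGalois.normalBasis_apply (σ ^ m)]
  refine ⟨∑ g, B.repr a g • ∑ m ∈ range (e g), (σ ^ m) (B 1), ?_, ?_⟩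
  · refine AddSubgroup.sum_mem _ (fun g _ => ?_)
    have h1 : ∑ m ∈ range (e g), (σ ^ m) (B 1) ∈ lam K L 1 := by
      refine AddSubgroup.sum_mem _ (fun m _ => ?_)
      rw [hpow]
      exact basis_mem_lam _
    refine lam_mono ?_ (smul_mem_lam h1 _)
    rw [mul_one]
    exact_mod_cast ha g
  · have key : σ (∑ g, B.repr a g • ∑ m ∈ range (e g), (σ ^ m) (B 1)) -
        (∑ g, B.repr a g • ∑ m ∈ range (e g), (σ ^ m) (B 1)) =
        a - (∑ k, B.repr a k) • B 1 := by
      rw [map_sum, ← Finset.sum_sub_distrib]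
      have : ∀ g, σ (B.repr a g • ∑ m ∈ range (e g), (σ ^ m) (B 1)) -
          B.repr a g • ∑ m ∈ range (e g), (σ ^ m) (B 1) = B.repr a g • B g - B.repr a g • B 1 := by
        intro g
        rw [map_smul, ← smul_sub, ← smul_sub, map_sum, ← Finset.sum_sub_distrib]
        congr 1
        have h2 : ∀ m, σ ((σ ^ m) (B 1)) - (σ ^ m) (B 1) =
            (fun m => (σ ^ m) (B 1)) (m + 1) - (fun m => (σ ^ m) (B 1)) m := by
          intro m
          simp only [pow_succ']
          rfl
        simp_rw [h2]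
        rw [Finset.sum_range_sub (fun m => (σ ^ m) (B 1))]
        simp only [pow_zero, AlgEquiv.one_apply]
        rw [hpow, he]
      simp_rw [this]
      rw [Finset.sum_sub_distrib, B.sum_repr a, Finset.sum_smul]
    rw [key]
    have e2 : a - (∑ k, B.repr a k) • B 1 - a = -((∑ k, B.repr a k) • B 1) := by ring
    rw [e2]
    refine (lam K L ρ').neg_mem (lam_mono ?_ (smul_mem_lam (basis_mem_lam 1) _))
    rw [mul_one]
    exact_mod_cast hs

/-- the radius of the `0`-th lattice -/
noncomputable def rho0 (K L : Type*) [NontriviallyNormedField K] [IsUltrametricDist K]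
    [NormedField L] [NormedAlgebra K L] [FiniteDimensional K L] [IsGalois K L] : ℝ≥0 :=
  (2 * (structBound K L + basisBound K L + 1))⁻¹

lemma rho0_pos : 0 < rho0 K L := by
  unfold rho0
  positivity

lemma structBound_mul_rho0_le : structBound K L * rho0 K L ≤ 2⁻¹ := by
  unfold rho0
  rw [mul_inv, ← mul_assoc, mul_comm (structBound K L), mul_assoc]
  refine mul_le_of_le_one_right (by positivity) ?_
  rw [← div_eq_mul_inv]
  refine div_le_one_of_le₀ ?_ (by positivity)
  calc structBound K L ≤ structBound K L + (basisBound K L + 1) := le_self_add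
    _ = structBound K L + basisBound K L + 1 := by ring

lemma rho0_mul_basisBound_lt : rho0 K L * basisBound K L < 1 := by
  unfold rho0
  rw [mul_inv, mul_assoc]
  have h1 : (structBound K L + basisBound K L + 1)⁻¹ * basisBound K L ≤ 1 := by
    rw [mul_comm, ← div_eq_mul_inv]
    refine div_le_one_of_le₀ ?_ (by positivity)
    calc basisBound K L ≤ basisBound K L + (structBound K L + 1) := le_self_add
      _ = structBound K L + basisBound K L + 1 := by ring
  calc (2 : ℝ≥0)⁻¹ * ((structBound K L + basisBound K L + 1)⁻¹ * basisBound K L)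
      ≤ 2⁻¹ * 1 := by gcongr
    _ < 1 := by rw [mul_one]; exact inv_lt_one_of_one_lt₀ (by norm_num)

/-- **The normal-basis filtration.** -/
noncomputable def normalFiltration [CompleteSpace K] :
    Filtration L (σ : L ≃+* L) (orderOf σ) where
  Λ i := lam K L (rho0 K L * 2⁻¹ ^ i)
  c i := rho0 K L * 2⁻¹ ^ i * basisBound K L
  anti i := by
    refine lam_mono ?_
    rw [pow_succ, ← mul_assoc]
    exact mul_le_of_le_one_right (by positivity) (by rw [inv_le_one₀] <;> norm_num)
  mul_mem i x y hx hy := by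
    refine lam_mono ?_ (mul_mem_lam hx hy)
    rw [pow_zero, mul_one, pow_succ]
    calc structBound K L * rho0 K L * (rho0 K L * 2⁻¹ ^ i)
        ≤ 2⁻¹ * (rho0 K L * 2⁻¹ ^ i) := by gcongr; exact structBound_mul_rho0_le
      _ = rho0 K L * (2⁻¹ ^ i * 2⁻¹) := by ring
  closed i := isClosed_lam _
  norm_le i x hx := by
    have := norm_le_of_mem_lam hx
    exact_mod_cast this
  c_tendsto := by
    have h : Filter.Tendsto (fun i : ℕ => ((2 : ℝ)⁻¹) ^ i) Filter.atTop (nhds 0) :=
      tendsto_pow_atTop_nhds_zero_of_lt_one (by norm_num) (by norm_num)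
    have h2 := (h.const_mul (rho0 K L : ℝ)).mul_const (basisBound K L : ℝ)
    simp only [mul_zero, zero_mul] at h2
    refine h2.congr (fun i => ?_)
    push_cast
    ring
  c_zero_lt := by
    have := rho0_mul_basisBound_lt (K := K) (L := L)
    rw [pow_zero, mul_one]
    exact_mod_cast this
  stable i x hx := algEquiv_mem_lam hx σ
  isom x := norm_algEquiv σ x
  pow_eq x := by
    rw [toRingEquiv_pow_apply, pow_orderOf_eq_one]
    rfl
  hTr i a ha hfix := by
    obtain ⟨b, hb, hb'⟩ := trace_surj_lam σ hσ ha hfix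
    refine ⟨b, hb, ?_⟩
    rw [hb', sub_self]
    exact AddSubgroup.zero_mem _
  hSub i a ha htr := sub_surj_lam σ hσ ha htr

end Cyclic

end Fermat.Agent.S55.H953

end
-- ===== PACK-END S55/H953/Lattice.lean

-- ===== PACK-BEGIN S55/H954/H2InfRes.lean
section



/-!
# Inflation–restriction exact sequence in degree 2 (Mathlib `groupCohomology`)

For `A : Rep k G`, `S ≤ G` normal with `H¹(S, A) = 0`:
`0 ⟶ H²(G ⧸ S, A^S) ⟶ H²(G, A) ⟶ H²(S, A)` is exact.
-/

set_option autoImplicit false
set_option linter.unusedSectionVars false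

namespace Fermat.Agent.S55.H954

open CategoryTheory groupCohomology Rep

universe u

variable {k G : Type u} [CommRing k] [Group G]

section MapOne

variable {H : Type u} [Group H] {A : Rep k H} {B : Rep k G}

/-- The map induced on `H²` by the trivial group homomorphism is zero. -/
theorem map₂_one (φ : res (1 : G →* H) A ⟶ B) : map (1 : G →* H) φ 2 = 0 := by
  rw [← cancel_epi (H2π A), H2π_comp_map, Limits.comp_zero]
  ext x
  simp only [ModuleCat.hom_comp, LinearMap.coe_comp, Function.comp_apply, ModuleCat.hom_zero,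
    LinearMap.zero_apply]
  rw [H2π_eq_zero_iff]
  refine ⟨fun _ => φ.hom (x (1, 1)), ?_⟩
  funext ⟨g, h⟩
  have := hom_comm_apply φ g (x (1, 1))
  rw [d₁₂_hom_apply]
  change _ = φ.hom (x ((1 : G →* H) g, (1 : G →* H) h))
  rw [← this]
  have h1 : (res (1 : G →* H) A).ρ g (x (1, 1)) = x (1, 1) := by
    change A.ρ ((1 : G →* H) g) (x (1, 1)) = x (1, 1)
    simp
  rw [h1]
  simp

end MapOne

section InfRes

variable (A : Rep k G) (S : Subgroup G) [S.Normal]

/-- The short complex `H²(G ⧸ S, A^S) ⟶ H²(G, A) ⟶ H²(S, A)`. -/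
@[simps X₁ X₂ X₃ f g]
noncomputable def H2InfRes : ShortComplex (ModuleCat k) where
  X₁ := groupCohomology (A.quotientToInvariants S) 2
  X₂ := groupCohomology A 2
  X₃ := groupCohomology (res S.subtype A) 2
  f := map (QuotientGroup.mk' S) (ofHom <| A.ρ.quotientToInvariants_lift S) 2
  g := map S.subtype (𝟙 _) 2
  zero := by rw [← map_comp, Category.comp_id, groupCohomology.congr (QuotientGroup.mk'_comp_subtype S)
    (fun f φ => map f φ 2), map₂_one]

variable {A S}

lemma hOneVanishes_of_H1_eq_zero (h : ∀ x : H1 (res S.subtype A), x = 0) :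
    HOneVanishes A.ρ S := by
  intro w hw
  have hmem : w ∈ cocycles₁ (res S.subtype A) :=
    (mem_cocycles₁_iff (A := res S.subtype A) w).2 (fun s t => hw s t)
  have h0 := h (H1π _ ⟨w, hmem⟩)
  rw [H1π_eq_zero_iff] at h0
  obtain ⟨a, ha⟩ := h0
  refine ⟨a, fun s => ?_⟩
  have := congr_fun ha s
  rw [d₀₁_hom_apply] at this
  exact this.symm

variable (A S)

set_option backward.defeqAttrib.useBackward true in
set_option backward.isDefEq.respectTransparency false in
/-- **Inflation–restriction in degree 2**: if `H¹(S, A) = 0`, then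
`H²(G ⧸ S, A^S) ⟶ H²(G, A) ⟶ H²(S, A)` is exact. -/
theorem H2InfRes_exact (h : ∀ x : H1 (res S.subtype A), x = 0) : (H2InfRes A S).Exact := by
  rw [ShortComplex.moduleCat_exact_iff_ker_sub_range]
  intro x hx
  induction x using H2_induction_on with | @h x =>
  simp_all only [H2InfRes_X₂, H2InfRes_X₃, H2InfRes_g, H2InfRes_X₁, LinearMap.mem_ker,
    H2π_comp_map_apply S.subtype, H2InfRes_f]
  obtain ⟨(φ : S → A), hφ⟩ := (H2π_eq_zero_iff _).1 hx
  have hcoc : IsTwoCocycle A.ρ x := (mem_cocycles₂_iff _).1 x.2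
  have hφ' : ∀ s t : S, x ((s : G), (t : G)) = A.ρ s (φ t) - φ (s * t) + φ s := by
    intro s t
    have := congr_fun hφ (s, t)
    rw [d₁₂_hom_apply] at this
    exact this.symm
  obtain ⟨c, f', hff', hf'coc, i2, i1, i3⟩ :=
    exists_inflated_of_res_coboundary A.ρ S (hOneVanishes_of_H1_eq_zero h) hcoc φ hφ'
  -- the descended cocycle on `G ⧸ S` with values in `A^S`
  have hwd : ∀ g₁ h₁ g₂ h₂ : G, QuotientGroup.leftRel S g₁ g₂ → QuotientGroup.leftRel S h₁ h₂ →
      f' (g₁, h₁) = f' (g₂, h₂) := by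
    intro g₁ h₁ g₂ h₂ hg hh
    rw [QuotientGroup.leftRel_apply] at hg hh
    have e1 : g₂ = g₁ * (g₁⁻¹ * g₂) := by group
    have e2 : h₂ = h₁ * (h₁⁻¹ * h₂) := by group
    rw [e1, e2, i1 _ hg, i2 _ hh]
  have hinvar : ∀ g h : G, f' (g, h) ∈ Representation.invariants (A.ρ.comp S.subtype) := by
    intro g h s
    exact i3 s s.2 g h
  let fbar : (G ⧸ S) × (G ⧸ S) → (A.quotientToInvariants S) := fun p =>
    Quotient.liftOn₂' p.1 p.2 (fun g h => (⟨f' (g, h), hinvar g h⟩ : (A.quotientToInvariants S)))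
      (fun g₁ h₁ g₂ h₂ hg hh => Subtype.ext (hwd g₁ h₁ g₂ h₂ hg hh))
  have hfbar : fbar ∈ cocycles₂ (A.quotientToInvariants S) := by
    rw [mem_cocycles₂_iff]
    intro g h j
    induction g using QuotientGroup.induction_on with | @H g =>
    induction h using QuotientGroup.induction_on with | @H h =>
    induction j using QuotientGroup.induction_on with | @H j =>
    apply Subtype.ext
    exact hf'coc g h j
  refine ⟨H2π _ ⟨fbar, hfbar⟩, ?_⟩
  rw [H2π_comp_map_apply (QuotientGroup.mk' S), H2π_eq_iff]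
  refine ⟨-c, ?_⟩
  funext ⟨g, j⟩
  have := congr_fun hff' (g, j)
  rw [d₁₂_hom_apply]
  change _ = f' (g, j) - x (g, j)
  rw [this]
  simp only [Pi.add_apply, dOne_apply, Pi.neg_apply, map_neg]
  abel

set_option backward.defeqAttrib.useBackward true in
set_option backward.isDefEq.respectTransparency false in
/-- **Inflation–restriction in degree 2**: if `H¹(S, A) = 0`, then the inflation map
`H²(G ⧸ S, A^S) ⟶ H²(G, A)` is a monomorphism. -/
theorem H2InfRes_mono (h : ∀ x : H1 (res S.subtype A), x = 0) : Mono (H2InfRes A S).f := by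
  rw [ModuleCat.mono_iff_injective, injective_iff_map_eq_zero]
  intro x hx
  induction x using H2_induction_on with | @h x =>
  simp_all only [H2InfRes_X₂, H2InfRes_X₁, H2InfRes_f, H2π_comp_map_apply (QuotientGroup.mk' S)]
  obtain ⟨(c : G → A), hc⟩ := (H2π_eq_zero_iff _).1 hx
  set f' : G × G → A := fun p => ((x ((p.1 : G ⧸ S), (p.2 : G ⧸ S)) : A.quotientToInvariants S) : A)
    with hf'
  have hc' : f' = dOne A.ρ c := by
    funext ⟨g, j⟩
    have := congr_fun hc (g, j)
    rw [d₁₂_hom_apply] at this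
    rw [dOne_apply, this]
    rfl
  have hq : ∀ s ∈ S, ∀ g : G, ((g * s : G) : G ⧸ S) = (g : G ⧸ S) := by
    intro s hs g
    rw [QuotientGroup.mk_mul, (QuotientGroup.eq_one_iff s).2 hs, mul_one]
  obtain ⟨c', hd, hright, hval⟩ := exists_invariant_cochain_of_inf_coboundary A.ρ S
    (hOneVanishes_of_H1_eq_zero h) (f' := f')
    (fun s hs g j => by simp only [hf', hq s hs])
    (fun s hs g j => by simp only [hf', hq s hs])
    (fun s hs g j => (x ((g : G ⧸ S), (j : G ⧸ S))).2 ⟨s, hs⟩) c hc'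
  rw [H2π_eq_zero_iff]
  refine ⟨fun q => Quotient.liftOn' q
    (fun g => (⟨c' g, fun s => hval s s.2 g⟩ : (A.quotientToInvariants S)))
    (fun g₁ g₂ hg => Subtype.ext ?_), ?_⟩
  · rw [QuotientGroup.leftRel_apply] at hg
    have e1 : g₂ = g₁ * (g₁⁻¹ * g₂) := by group
    change c' g₁ = c' g₂
    rw [e1, hright _ hg]
  · funext ⟨g, j⟩
    induction g using QuotientGroup.induction_on with | @H g =>
    induction j using QuotientGroup.induction_on with | @H j =>
    apply Subtype.ext
    have := congr_fun hd (g, j)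
    rw [d₁₂_hom_apply]
    exact this.symm

/-- Elementwise form: a class in `H²(G, A)` restricting to `0` on `S` is inflated from
`H²(G ⧸ S, A^S)`, provided `H¹(S, A) = 0`. -/
theorem exists_inf_eq_of_res_eq_zero (h : ∀ x : H1 (res S.subtype A), x = 0)
    (x : H2 A) (hx : map S.subtype (𝟙 (res S.subtype A)) 2 x = 0) :
    ∃ y : H2 (A.quotientToInvariants S),
      map (QuotientGroup.mk' S) (ofHom <| A.ρ.quotientToInvariants_lift S) 2 y = x := by
  have hex := H2InfRes_exact A S h
  rw [ShortComplex.moduleCat_exact_iff_ker_sub_range] at hex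
  exact hex (LinearMap.mem_ker.2 hx)

/-- Elementwise form: inflation `H²(G ⧸ S, A^S) → H²(G, A)` is injective if `H¹(S, A) = 0`. -/
theorem inf_injective (h : ∀ x : H1 (res S.subtype A), x = 0) :
    Function.Injective
      (map (QuotientGroup.mk' S) (ofHom <| A.ρ.quotientToInvariants_lift S) 2 :
        H2 (A.quotientToInvariants S) → H2 A) := by
  have := H2InfRes_mono A S h
  exact (ModuleCat.mono_iff_injective _).1 this

end InfRes

end Fermat.Agent.S55.H954

end
-- ===== PACK-END S55/H954/H2InfRes.lean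

-- ===== PACK-BEGIN S55/E1/Defs.lean
section
/-
S55 engine E1 (Milne ADT I.1/I.4 at finite level) — FROZEN definitions, block ALG.
Chief architect: helper55.  Blueprint: coord/S55-E1.md.  Mathlib + T/Spec only.  NO sorry.

Setting: `G : Type` a group, `N : Rep ℤ G` (in applications finite and killed by `p`).
STANDARD PRESENTATION `0 → R → P → N → 0`, `P = ℤ[G]^{(N)}` = `Rep.free ℤ G N.V`.
-/



set_option autoImplicit false

open CategoryTheory CategoryTheory.Limits

namespace Fermat.Agent.S55.E1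

noncomputable section

variable {G : Type} [Group G]

/-- `P = ℤ[G]^{(N)}`: the free `ℤ[G]`-module on the underlying SET of `N`. -/
abbrev stdP (N : Rep.{0} ℤ G) : Rep.{0} ℤ G := Rep.free ℤ G N.V

/-- `ε : P → N`, `g • e_n ↦ g • n`. -/
def stdε (N : Rep.{0} ℤ G) : stdP N ⟶ N := Rep.freeLift ℤ G N (fun n : N.V => n)

/-- `R = ker ε`. -/
def stdR (N : Rep.{0} ℤ G) : Rep.{0} ℤ G := kernel (stdε N)

/-- The inclusion `R → P`. -/
def stdι (N : Rep.{0} ℤ G) : stdR N ⟶ stdP N := kernel.ι (stdε N)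

/-- The basis element `e_n ∈ P`. -/
def stdE (N : Rep.{0} ℤ G) (n : N.V) : (stdP N).V :=
  Finsupp.single n (MonoidAlgebra.single (1 : G) (1 : ℤ))

/-- The standard presentation as a short complex `R → P → N`. -/
def stdSC (N : Rep.{0} ℤ G) : ShortComplex (Rep.{0} ℤ G) :=
  ShortComplex.mk (stdι N) (stdε N) (kernel.condition (stdε N))

/-- `A(X) = Hom_G(R, X)`. -/
abbrev homA (N X : Rep.{0} ℤ G) : Type := stdR N ⟶ X

/-- `Bc(X) = Hom_G(P, X)`. -/
abbrev homB (N X : Rep.{0} ℤ G) : Type := stdP N ⟶ X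

/-- `res : Bc(X) → A(X)`, restriction to `R`. -/
def resBA (N X : Rep.{0} ℤ G) : homB N X →+ homA N X where
  toFun h := stdι N ≫ h
  map_zero' := by simp
  map_add' := by intros; simp

/-- `𝔈²(X) = H¹(G, Hom_ℤ(R, X))`. -/
abbrev E2 (N X : Rep.{0} ℤ G) : Type := groupCohomology ((Rep.ihom (stdR N)).obj X) 1

/-- `f ∈ A(X)` extends to `P`, i.e. lies in `res Bc(X)`. -/
def Extends {N X : Rep.{0} ℤ G} (f : homA N X) : Prop := ∃ h : homB N X, stdι N ≫ h = f

theorem stdε_stdE (N : Rep.{0} ℤ G) (n : N.V) : (stdε N).hom (stdE N n) = n := by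
  simp [stdε, stdE]
  exact @one_smul ℤ N.V _ N.hV2.toMulAction n

theorem stdε_surjective (N : Rep.{0} ℤ G) : Function.Surjective (stdε N).hom :=
  fun n => ⟨stdE N n, stdε_stdE N n⟩

theorem stdι_mono (N : Rep.{0} ℤ G) : Mono (stdι N) := by
  unfold stdι
  exact equalizer.ι_mono

/-- `0 → R → P → N → 0` is short exact. -/
theorem stdSC_shortExact (N : Rep.{0} ℤ G) : (stdSC N).ShortExact := by
  have h1 : Epi (stdε N) := (Rep.epi_iff_surjective _).2 (stdε_surjective N)
  have h2 : Mono (stdι N) := stdι_mono N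
  exact { exact := ShortComplex.exact_of_f_is_kernel _ (kernelIsKernel (stdε N))
          mono_f := h2
          epi_g := h1 }

/-- The connecting map `δ : H¹(G, N) → H²(G, R)` of the standard presentation. -/
def stdδ (N : Rep.{0} ℤ G) : groupCohomology N 1 →ₗ[ℤ] groupCohomology (stdR N) 2 :=
  (groupCohomology.δ (stdSC_shortExact N) 1 2 rfl).hom

/-- The pairing `⟨f, x⟩ = f_*(δ x) ∈ H²(G, X)` for `f ∈ A(X) = Hom_G(R, X)`, `x ∈ H¹(G, N)`. -/
def pair {N X : Rep.{0} ℤ G} (f : homA N X) (x : groupCohomology N 1) : groupCohomology X 2 :=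
  (T.coeffMap f 2).hom (stdδ N x)

/-- `(C, γ)` is a class module AT `p`: the class-module conditions for all `p`-subgroups. -/
def IsClassModuleAt (p : ℕ) [Finite G] (C : Rep.{0} ℤ G) (γ : groupCohomology C 2) : Prop :=
  ∀ H : Subgroup G, IsPGroup p H →
    IsZero (groupCohomology (T.resSub C H) 1) ∧
    Nat.card (groupCohomology (T.resSub C H) 2) = Nat.card H ∧
    ∀ x : groupCohomology (T.resSub C H) 2, ∃ n : ℕ, x = n • (T.resMap C H 2).hom γ

/-- `x` is `p`-primary torsion. -/
def IsPPrimary (p : ℕ) {A : Type} [AddCommGroup A] (x : A) : Prop := ∃ k : ℕ, p ^ k • x = 0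

/-- **T6p = Tate–Nakayama at `p`, degree (0,2)** (input from layer T; see coord/S55-E1.md §2). -/
def TateNakayamaAtSpec : Prop :=
  ∀ (p : ℕ), p.Prime → ∀ (G : Type) [Group G] [Fintype G]
    (C : Rep.{0} ℤ G) (γ : groupCohomology C 2), IsClassModuleAt p C γ →
    ∀ (R : Rep.{0} ℤ G), @Module.Free ℤ R.V _ _ R.hV2 → @Module.Finite ℤ R.V _ _ R.hV2 →
      (∀ χ : groupCohomology R 2 →+ groupCohomology C 2,
        ∃ f : R ⟶ C, ∀ x : groupCohomology R 2, IsPPrimary p x → (T.coeffMap f 2).hom x = χ x) ∧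
      (∀ f : R ⟶ C,
        (∀ x : groupCohomology R 2, IsPPrimary p x → (T.coeffMap f 2).hom x = 0) →
        ∃ (m : ℕ) (ψ : R.V →+ C.V), Nat.Coprime m p ∧ ∀ r : R.V, m • f.hom r = T.normAdd ψ r)

end

end Fermat.Agent.S55.E1

end
-- ===== PACK-END S55/E1/Defs.lean

-- ===== PACK-BEGIN S55/BLocal/Range.lean
section


/-!
# S55, layer B-local: the image of the local Galois group is the decomposition group

`range (localGaloisToGlobal q) = (padicPlace q).decompositionSubgroup ℚ`.
-/

set_option autoImplicit false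
set_option linter.style.haveILetI false

open scoped Pointwise

namespace Fermat.Agent.S55.BLocal

variable (q : ℕ) [Fact q.Prime]

/-- An element of the decomposition group fixes every algebraic number which is `q`-adically
rational. -/
theorem apply_eq_of_padicEmbedding_mem_range (σ : GQ)
    (hσ : σ ∈ (padicPlace q).decompositionSubgroup ℚ) (x : Qb) (a : ℚ_[q])
    (hx : padicEmbedding q x = algebraMap ℚ_[q] (PadicAlgCl q) a) : σ x = x := by
  rw [← sub_eq_zero, ← qnorm_eq_zero_iff q]
  refine le_antisymm ?_ (qnorm_nonneg q _)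
  refine le_of_forall_pos_le_add fun ε hε => ?_
  rw [zero_add]
  obtain ⟨r, hr⟩ := Padic.rat_dense q a hε
  have h1 : qnorm q (x - (r : Qb)) < ε := by
    unfold qnorm
    rw [map_sub, hx, map_ratCast]
    have h2 : ((r : ℚ) : PadicAlgCl q) = algebraMap ℚ_[q] (PadicAlgCl q) (r : ℚ_[q]) := by
      rw [map_ratCast]
    rw [h2, ← map_sub]
    have h3 := PadicAlgCl.norm_extends q (a - (r : ℚ_[q]))
    rw [h3]
    exact hr
  have h4 : qnorm q (σ (x - (r : Qb))) = qnorm q (x - (r : Qb)) :=
    qnorm_eq_of_mem_decomposition q σ hσ _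
  have h5 : σ x - x = σ (x - (r : Qb)) - (x - (r : Qb)) := by
    rw [map_sub, map_ratCast]
    ring
  rw [h5]
  refine (qnorm_sub_le_max q _ _).trans ?_
  rw [h4, max_self]
  exact h1.le

/-- `PadicAlgCl q / ℚ_q` is Galois. -/
theorem isGalois_padicAlgCl : IsGalois ℚ_[q] (PadicAlgCl q) := by
  haveI : IsAlgClosure ℚ_[q] (PadicAlgCl q) := ⟨inferInstance, inferInstance⟩
  haveI : Normal ℚ_[q] (PadicAlgCl q) := IsAlgClosure.normal ℚ_[q] (PadicAlgCl q)
  exact isGalois_iff.mpr ⟨inferInstance, inferInstance⟩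

/-- An algebraic number fixed by the image of the local Galois group is `q`-adically rational. -/
theorem padicEmbedding_mem_range_of_fixed (x : Qb)
    (hx : ∀ τ : PadicAlgCl q ≃ₐ[ℚ_[q]] PadicAlgCl q, localGaloisToGlobal q τ x = x) :
    ∃ a : ℚ_[q], padicEmbedding q x = algebraMap ℚ_[q] (PadicAlgCl q) a := by
  haveI := isGalois_padicAlgCl q
  have hfix : padicEmbedding q x ∈ IntermediateField.fixedField
      (⊤ : Subgroup (PadicAlgCl q ≃ₐ[ℚ_[q]] PadicAlgCl q)) := by
    rintro ⟨τ, -⟩
    show τ (padicEmbedding q x) = padicEmbedding q x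
    rw [← padicEmbedding_localGaloisToGlobal, hx τ]
  rw [InfiniteGalois.fixedField_bot, IntermediateField.mem_bot] at hfix
  obtain ⟨a, ha⟩ := hfix
  exact ⟨a, ha.symm⟩

/-- The restriction map from the local to the global Galois group is continuous. -/
theorem continuous_localGaloisToGlobal : Continuous (localGaloisToGlobal q) := by
  haveI : Algebra.IsAlgebraic ℚ Qb := AlgebraicClosure.isAlgebraic ℚ
  apply continuous_of_continuousAt_one
  rw [ContinuousAt, map_one]
  intro U hU
  rw [krullTopology_mem_nhds_one_iff] at hU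
  obtain ⟨E, hEfin, hEU⟩ := hU
  haveI := hEfin
  rw [Filter.mem_map, krullTopology_mem_nhds_one_iff]
  -- a primitive element of `E`
  obtain ⟨α, hα⟩ := Field.exists_primitive_element ℚ E
  refine ⟨IntermediateField.adjoin ℚ_[q] {padicEmbedding q (α : Qb)},
    IntermediateField.adjoin.finiteDimensional (Algebra.IsIntegral.isIntegral _), ?_⟩
  intro τ hτ
  apply hEU
  show localGaloisToGlobal q τ ∈ E.fixingSubgroup
  rw [IntermediateField.mem_fixingSubgroup_iff]
  have hτα : τ (padicEmbedding q (α : Qb)) = padicEmbedding q (α : Qb) :=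
    (IntermediateField.mem_fixingSubgroup_iff _ τ).mp hτ _
      (IntermediateField.subset_adjoin ℚ_[q] _ (Set.mem_singleton _))
  have hα' : localGaloisToGlobal q τ (α : Qb) = α := by
    apply (padicEmbedding q).toRingHom.injective
    show padicEmbedding q (localGaloisToGlobal q τ (α : Qb)) = padicEmbedding q (α : Qb)
    rw [padicEmbedding_localGaloisToGlobal, hτα]
  -- two algebra maps `E → ℚ̄` agreeing on the generator
  have hadj : Algebra.adjoin ℚ {α} = (⊤ : Subalgebra ℚ E) := by
    rw [← IntermediateField.adjoin_simple_toSubalgebra_of_isAlgebraic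
      (Algebra.IsAlgebraic.isAlgebraic α), hα]
    rfl
  have hext : ((localGaloisToGlobal q τ : Qb →ₐ[ℚ] Qb).comp E.val) = E.val := by
    apply AlgHom.ext_of_adjoin_eq_top hadj
    intro y hy
    rw [Set.mem_singleton_iff] at hy
    subst hy
    exact hα'
  intro x hxE
  exact congrArg (fun f : E →ₐ[ℚ] Qb => f ⟨x, hxE⟩) hext

/-- **The image of the local Galois group at `q` is the decomposition group of the `q`-adic
place.** -/
theorem range_localGaloisToGlobal :
    (localGaloisToGlobal q).range = (padicPlace q).decompositionSubgroup ℚ := by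
  haveI : Algebra.IsAlgebraic ℚ Qb := AlgebraicClosure.isAlgebraic ℚ
  haveI : IsAlgClosure ℚ Qb := ⟨inferInstance, inferInstance⟩
  haveI : Normal ℚ Qb := IsAlgClosure.normal ℚ Qb
  haveI : IsGalois ℚ Qb := isGalois_iff.mpr ⟨inferInstance, inferInstance⟩
  haveI := isGalois_padicAlgCl q
  apply le_antisymm
  · rintro _ ⟨τ, rfl⟩
    exact localGaloisToGlobal_mem_decompositionSubgroup q τ
  · intro σ hσ
    have hclosed : IsClosed ((localGaloisToGlobal q).range : Set GQ) := by
      have : ((localGaloisToGlobal q).range : Set GQ) = Set.range (localGaloisToGlobal q) := rfl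
      rw [this]
      exact (isCompact_range (continuous_localGaloisToGlobal q)).isClosed
    have hH := InfiniteGalois.fixingSubgroup_fixedField
      (⟨(localGaloisToGlobal q).range, hclosed⟩ : ClosedSubgroup GQ)
    have hσH : σ ∈ (IntermediateField.fixedField
        ((⟨(localGaloisToGlobal q).range, hclosed⟩ : ClosedSubgroup GQ) : Subgroup GQ)
          ).fixingSubgroup := by
      rw [IntermediateField.mem_fixingSubgroup_iff]
      intro x hx
      obtain ⟨a, ha⟩ := padicEmbedding_mem_range_of_fixed q x (fun τ => hx ⟨_, ⟨τ, rfl⟩⟩)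
      exact apply_eq_of_padicEmbedding_mem_range q σ hσ x a ha
    rw [hH] at hσH
    exact hσH

end Fermat.Agent.S55.BLocal

end
-- ===== PACK-END S55/BLocal/Range.lean

-- ===== PACK-BEGIN S55/LocalSpec/H964/Transport.lean
section




/-!
# S55, `Tow.LocalSpec` (helper964): transport of subgroup cohomology along an isomorphism

`(φ : G ≃* G', e : C ≃+ C')` equivariant.  For every subgroup `H ≤ G`:
`Hⁿ(H, C) ≅ Hⁿ(φ H, C')` (`subgroupIso`), hence the "numerical class module" data
(`H¹ = 0`, `H² ≃+ ZMod |H|` for all subgroups) transports (`classData_transport`).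
-/

set_option autoImplicit false
set_option linter.style.haveILetI false

open CategoryTheory groupCohomology

namespace Fermat.Agent.S55.LocalSpec.H964

open Fermat.Agent.S55

section Generic

variable {k : Type} [CommRing k] {G G' : Type} [Group G] [Group G']

/-- Transport of the cohomology of a subgroup along an equivariant isomorphism (generic
coefficient ring). -/
noncomputable def subgroupIsoGen (φ : G ≃* G') (C : Rep.{0} k G) (C' : Rep.{0} k G')
    (e : C.V ≃ₗ[k] C'.V) (he : ∀ g x, e (C.ρ g x) = C'.ρ (φ g) (e x)) (H : Subgroup G) (n : ℕ) :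
    groupCohomology (T.resSub C H) n ≅
      groupCohomology (T.resSub C' (H.map (φ : G →* G'))) n :=
  groupCohomology.mapIso (φ.subgroupMap H) e
    (fun g => LinearMap.ext fun x => he (g : G) x) n

end Generic

variable {G G' : Type} [Group G] [Group G']

/-- An additive equivalence between the underlying groups of two `ℤ`-representations is
`ℤ`-linear (for whatever `Module ℤ` instances the representations carry). -/
def toIntLin (C : Rep.{0} ℤ G) (C' : Rep.{0} ℤ G') (e : C.V ≃+ C'.V) :
    @LinearEquiv ℤ ℤ _ _ (RingHom.id ℤ) (RingHom.id ℤ) _ _ C.V C'.V _ _ C.hV2 C'.hV2 :=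
  @LinearEquiv.mk ℤ ℤ _ _ (RingHom.id ℤ) (RingHom.id ℤ) _ _ C.V C'.V _ _ C.hV2 C'.hV2
    (@LinearMap.mk ℤ ℤ _ _ (RingHom.id ℤ) C.V C'.V _ _ C.hV2 C'.hV2
      ⟨e, e.map_add⟩ (fun c x => by
        show e (@HSMul.hSMul ℤ C.V C.V (@instHSMul ℤ C.V C.hV2.toSMul) c x) =
          @HSMul.hSMul ℤ C'.V C'.V (@instHSMul ℤ C'.V C'.hV2.toSMul) c (e x)
        exact (congrArg e (T.modSMul_eq_zsmul C.hV2 c x)).trans
          ((map_zsmul e c x).trans (T.modSMul_eq_zsmul C'.hV2 c (e x)).symm)))
    e.symm e.left_inv e.right_inv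

lemma toIntLin_apply (C : Rep.{0} ℤ G) (C' : Rep.{0} ℤ G') (e : C.V ≃+ C'.V) (x : C.V) :
    (toIntLin C C' e) x = e x := rfl

/-- Transport of the cohomology of a subgroup along an equivariant isomorphism. -/
noncomputable def subgroupIso (φ : G ≃* G') (C : Rep.{0} ℤ G) (C' : Rep.{0} ℤ G')
    (e : C.V ≃+ C'.V) (he : ∀ g x, e (C.ρ g x) = C'.ρ (φ g) (e x)) (H : Subgroup G) (n : ℕ) :
    groupCohomology (T.resSub C H) n ≅
      groupCohomology (T.resSub C' (H.map (φ : G →* G'))) n :=
  subgroupIsoGen (k := ℤ) φ C C' (toIntLin C C' e) he H n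

/-- Transport of the numerical class-module data. -/
theorem classData_transport (φ : G ≃* G') (C : Rep.{0} ℤ G) (C' : Rep.{0} ℤ G')
    (e : C.V ≃+ C'.V) (he : ∀ g x, e (C.ρ g x) = C'.ρ (φ g) (e x))
    (h' : ∀ H' : Subgroup G', Subsingleton (groupCohomology (T.resSub C' H') 1) ∧
      Nonempty (groupCohomology (T.resSub C' H') 2 ≃+ ZMod (Nat.card H')))
    (H : Subgroup G) :
    Limits.IsZero (groupCohomology (T.resSub C H) 1) ∧
      Nonempty (groupCohomology (T.resSub C H) 2 ≃+ ZMod (Nat.card H)) := by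
  obtain ⟨h1, ⟨e2⟩⟩ := h' (H.map (φ : G →* G'))
  constructor
  · have hz : Limits.IsZero (groupCohomology (T.resSub C' (H.map (φ : G →* G'))) 1) :=
      ModuleCat.isZero_of_subsingleton _
    exact hz.of_iso (subgroupIso φ C C' e he H 1)
  · have hcard : Nat.card (H.map (φ : G →* G')) = Nat.card H :=
      (Nat.card_congr (φ.subgroupMap H).toEquiv).symm
    rw [hcard] at e2
    exact ⟨((subgroupIso φ C C' e he H 2).toLinearEquiv.toAddEquiv).trans e2⟩

end Fermat.Agent.S55.LocalSpec.H964

end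
-- ===== PACK-END S55/LocalSpec/H964/Transport.lean

-- ===== PACK-BEGIN S55/G/DescH773/Base.lean
section
/-
S55 (Poitou–Tate), layer G, leaf G-DESC (helper773): base change maps for an extension of
number fields `L/K`:

* `asBase   : K ⊗ ℚ_S →ₐ[ℚ] L ⊗ ℚ_S`;
* `lBase    : Kˣ → Lˣ`,  `jBase : J_S(K) → J_S(L)`;
* `primeUnder`, `primeOutUnder` : primes of `L` (outside `S`) → primes of `K` (outside `S`);
* `eAt w`   : the ramification index of `w` over `K`;
* `divBase  : Div^S(K) → Div^S(L)`,  `(divBase d) w = e(w) * d (w ∩ K)`;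
* `jdBase`, `cBase : C_S(K) → C_S(L)`.

(complete proofs)
-/


set_option autoImplicit false
set_option linter.unusedSectionVars false

open scoped NumberField TensorProduct
open IsDedekindDomain

noncomputable section

namespace Fermat.Agent.S55.G.DescH773

open Fermat.Agent.S55.G

/-! ## 1. Adèles and units -/

section Units

variable (S : Finset Nat.Primes) (K L : Type) [Field K] [CharZero K] [Field L] [CharZero L]
  [Algebra K L]

/-- The inclusion `K → L` as a `ℚ`-algebra homomorphism. -/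
def fieldBase : K →ₐ[ℚ] L := (algebraMap K L).toRatAlgHom

@[simp] lemma fieldBase_apply (x : K) : fieldBase K L x = algebraMap K L x := rfl

/-- The base change map `K ⊗ ℚ_S → L ⊗ ℚ_S`. -/
def asBase : AS S K →ₐ[ℚ] AS S L :=
  Algebra.TensorProduct.map (fieldBase K L) (AlgHom.id ℚ (QS S))

@[simp] lemma asBase_tmul (x : K) (y : QS S) :
    asBase S K L (x ⊗ₜ[ℚ] y) = (algebraMap K L x) ⊗ₜ[ℚ] y := by
  simp [asBase]

lemma asBase_asDiag (x : K) : asBase S K L (asDiag S K x) = asDiag S L (algebraMap K L x) := by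
  simp

/-- `Kˣ → Lˣ`, additively. -/
def lBase : Additive Kˣ →+ Additive Lˣ :=
  MonoidHom.toAdditive (Units.map ((algebraMap K L : K →+* L) : K →* L))

lemma coe_lBase_apply (x : Additive Kˣ) :
    (((lBase K L x).toMul : Lˣ) : L) = algebraMap K L ((x.toMul : Kˣ) : K) := rfl

lemma lBase_injective : Function.Injective (lBase K L) := by
  intro x y h
  apply Additive.toMul.injective
  apply Units.ext
  apply (algebraMap K L).injective
  have := congrArg (fun z : Additive Lˣ => ((z.toMul : Lˣ) : L)) h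
  simpa only [coe_lBase_apply] using this

/-- `J_S(K) → J_S(L)`, additively. -/
def jBase : Additive (AS S K)ˣ →+ Additive (AS S L)ˣ :=
  MonoidHom.toAdditive (Units.map ((asBase S K L : AS S K →ₐ[ℚ] AS S L) : AS S K →* AS S L))

lemma coe_jBase_apply (x : Additive (AS S K)ˣ) :
    (((jBase S K L x).toMul : (AS S L)ˣ) : AS S L) =
      asBase S K L ((x.toMul : (AS S K)ˣ) : AS S K) := rfl

lemma jBase_unitsDiag (x : Additive Kˣ) :
    jBase S K L (unitsDiag S K x) = unitsDiag S L (lBase K L x) := by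
  apply Additive.toMul.injective
  apply Units.ext
  rw [coe_jBase_apply, coe_unitsDiag_apply, coe_unitsDiag_apply, coe_lBase_apply, asBase_asDiag]

end Units

/-! ## 2. Primes -/

section Primes

variable (S : Finset Nat.Primes) (K L : Type) [Field K] [NumberField K] [Field L] [NumberField L]
  [Algebra K L]


variable {L} in
/-- The prime of `K` below a finite prime `w` of `L`. -/
def primeUnder (w : HeightOneSpectrum (𝓞 L)) : HeightOneSpectrum (𝓞 K) where
  asIdeal := w.asIdeal.under (𝓞 K)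
  isPrime := inferInstance
  ne_bot := Ideal.under_ne_bot (𝓞 K) w.ne_bot

variable {L} in
instance primeUnder_liesOver (w : HeightOneSpectrum (𝓞 L)) :
    w.asIdeal.LiesOver (primeUnder K w).asIdeal := ⟨rfl⟩

variable {L} in
lemma mem_primeUnder_iff (w : HeightOneSpectrum (𝓞 L)) (x : 𝓞 K) :
    x ∈ (primeUnder K w).asIdeal ↔ algebraMap (𝓞 K) (𝓞 L) x ∈ w.asIdeal := Iff.rfl

variable {L} in
lemma isAbove_primeUnder_iff (w : HeightOneSpectrum (𝓞 L)) :
    IsAbove S K (primeUnder K w) ↔ IsAbove S L w := by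
  unfold IsAbove
  simp only [mem_primeUnder_iff, map_natCast]

/-- The prime of `K` outside `S` below a prime of `L` outside `S`. -/
def primeOutUnder (w : PrimeOut S L) : PrimeOut S K :=
  ⟨primeUnder K w.1, fun h => w.2 ((isAbove_primeUnder_iff S K w.1).1 h)⟩

lemma primeOutUnder_val (w : PrimeOut S L) : (primeOutUnder S K L w).1 = primeUnder K w.1 := rfl

variable {K} in
lemma exists_primeUnder_eq (v : HeightOneSpectrum (𝓞 K)) :
    ∃ w : HeightOneSpectrum (𝓞 L), primeUnder K w = v := by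
  obtain ⟨Q, hQ, hQv⟩ := Ideal.exists_maximal_ideal_liesOver_of_isIntegral (S := 𝓞 L) v.asIdeal
  have hQ0 : Q ≠ ⊥ := Ideal.ne_bot_of_liesOver_of_ne_bot v.ne_bot Q
  refine ⟨⟨Q, hQ.isPrime, hQ0⟩, ?_⟩
  apply HeightOneSpectrum.ext
  exact (hQv.over).symm

lemma primeOutUnder_surjective : Function.Surjective (primeOutUnder S K L) := by
  intro v
  obtain ⟨w, hw⟩ := exists_primeUnder_eq L v.1
  refine ⟨⟨w, fun h => v.2 ?_⟩, Subtype.ext hw⟩
  rw [← hw]
  exact (isAbove_primeUnder_iff S K w).2 h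

variable {K} in
lemma primeUnder_fiber_finite (v : HeightOneSpectrum (𝓞 K)) :
    {w : HeightOneSpectrum (𝓞 L) | primeUnder K w = v}.Finite := by
  have h1 : (Ideal.primesOver v.asIdeal (𝓞 L)).Finite := by
    rw [← IsDedekindDomain.coe_primesOverFinset v.ne_bot]
    exact Finset.finite_toSet _
  refine Set.Finite.of_finite_image (f := fun w => w.asIdeal) (h1.subset ?_) ?_
  · rintro _ ⟨w, hw, rfl⟩
    refine ⟨w.isPrime, ?_⟩
    rw [← (show primeUnder K w = v from hw)]
    infer_instance
  · intro a _ b _ h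
    exact HeightOneSpectrum.ext h

lemma primeOutUnder_fiber_finite (v : PrimeOut S K) :
    {w : PrimeOut S L | primeOutUnder S K L w = v}.Finite := by
  refine Set.Finite.of_finite_image (f := Subtype.val)
    ((primeUnder_fiber_finite L v.1).subset ?_) Subtype.val_injective.injOn
  rintro _ ⟨w, hw, rfl⟩
  exact congrArg Subtype.val hw

end Primes

/-! ## 3. Ramification indices, the order maps and divisors -/

section Ord

variable (S : Finset Nat.Primes) (K L : Type) [Field K] [NumberField K] [Field L] [NumberField L]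
  [Algebra K L]

variable {L} in
/-- The ramification index of the finite prime `w` of `L` over `K`. -/
def eAt (w : HeightOneSpectrum (𝓞 L)) : ℕ :=
  Ideal.ramificationIdx' (primeUnder K w).asIdeal w.asIdeal

variable {L} in
lemma eAt_ne_zero (w : HeightOneSpectrum (𝓞 L)) : eAt K w ≠ 0 :=
  Ideal.IsDedekindDomain.ramificationIdx'_ne_zero_of_liesOver w.asIdeal (primeUnder K w).ne_bot

variable {L} in
lemma valuation_algebraMap (w : HeightOneSpectrum (𝓞 L)) (x : K) :
    w.valuation L (algebraMap K L x) = (primeUnder K w).valuation K x ^ eAt K w :=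
  (HeightOneSpectrum.valuation_liesOver L (primeUnder K w) w x).symm

variable {L} in
/-- `ord_w(x) = e(w) · ord_v(x)` for `x ∈ Kˣ`, `v = w ∩ K`. -/
lemma ordAt_lBase (w : HeightOneSpectrum (𝓞 L)) (x : Additive Kˣ) :
    ordAt w (lBase K L x) = (eAt K w : ℤ) * ordAt (primeUnder K w) x := by
  rw [ordAt_apply, ordAt_apply, coe_lBase_apply, valuation_algebraMap, WithZero.log_pow]
  simp

/-- The base change of divisors `Div^S(K) → Div^S(L)`: `(divBase d) w = e(w) · d (w ∩ K)`,
i.e. `[v] ↦ ∑_{w | v} e(w|v) [w]`. -/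
def divBase : (PrimeOut S K →₀ ℤ) →+ (PrimeOut S L →₀ ℤ) where
  toFun d := Finsupp.ofSupportFinite
    (fun w : PrimeOut S L => (eAt K w.1 : ℤ) * d (primeOutUnder S K L w)) (by
      refine ((d.support.finite_toSet).biUnion
        (fun v _ => primeOutUnder_fiber_finite S K L v)).subset ?_
      intro w hw
      simp only [Function.mem_support, ne_eq, mul_eq_zero, not_or] at hw
      simp only [Set.mem_iUnion, Set.mem_ofPred_eq, Finset.mem_coe, Finsupp.mem_support_iff]
      exact ⟨primeOutUnder S K L w, hw.2, rfl⟩)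
  map_zero' := by
    ext w
    simp [Finsupp.ofSupportFinite_coe]
  map_add' x y := by
    ext w
    simp [Finsupp.ofSupportFinite_coe, mul_add]

@[simp] lemma divBase_apply (d : PrimeOut S K →₀ ℤ) (w : PrimeOut S L) :
    divBase S K L d w = (eAt K w.1 : ℤ) * d (primeOutUnder S K L w) := rfl

lemma divBase_ordHom (x : Additive Kˣ) :
    divBase S K L (ordHom S K x) = ordHom S L (lBase K L x) := by
  ext w
  rw [divBase_apply, ordHom_apply, ordHom_apply, ordAt_lBase, primeOutUnder_val]

lemma divBase_injective : Function.Injective (divBase S K L) := by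
  rw [injective_iff_map_eq_zero]
  intro d hd
  ext v
  obtain ⟨w, rfl⟩ := primeOutUnder_surjective S K L v
  have := DFunLike.congr_fun hd w
  rw [divBase_apply, Finsupp.zero_apply, mul_eq_zero] at this
  rcases this with h | h
  · exact absurd (by exact_mod_cast h) (eAt_ne_zero K w.1)
  · simpa using h

end Ord

/-! ## 4. The class group -/

section ClassGroup

variable (S : Finset Nat.Primes) (K L : Type) [Field K] [NumberField K] [Field L] [NumberField L]
  [Algebra K L]

/-- The base change `J_S(K) × Div^S(K) → J_S(L) × Div^S(L)`. -/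
def jdBase : JD S K →+ JD S L := (jBase S K L).prodMap (divBase S K L)

@[simp] lemma jdBase_fst (y : JD S K) : (jdBase S K L y).1 = jBase S K L y.1 := rfl

@[simp] lemma jdBase_snd (y : JD S K) : (jdBase S K L y).2 = divBase S K L y.2 := rfl

lemma jdBase_diagHom (x : Additive Kˣ) :
    jdBase S K L (diagHom S K x) = diagHom S L (lBase K L x) :=
  Prod.ext (jBase_unitsDiag S K L x) (divBase_ordHom S K L x)

lemma principal_le_comap_jdBase :
    principal S K ≤ (principal S L).comap (jdBase S K L).toIntLinearMap := by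
  rintro _ ⟨x, rfl⟩
  exact ⟨lBase K L x, (jdBase_diagHom S K L x).symm⟩

/-- The base change map on `S`-idèle class groups `C_S(K) → C_S(L)`. -/
def cBaseₗ : CS S K →ₗ[ℤ] CS S L :=
  (principal S K).mapQ (principal S L) (jdBase S K L).toIntLinearMap
    (principal_le_comap_jdBase S K L)

/-- The base change map on `S`-idèle class groups `C_S(K) → C_S(L)`. -/
def cBase : CS S K →+ CS S L := (cBaseₗ S K L).toAddMonoidHom

@[simp] lemma cBase_mk (y : JD S K) :
    cBase S K L (Submodule.Quotient.mk y) = Submodule.Quotient.mk (jdBase S K L y) := rfl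

end ClassGroup

/-! ## 5. The representations on representatives -/

section Rep

variable (S : Finset Nat.Primes) (G L : Type) [Group G] [Field L] [NumberField L]
  [MulSemiringAction G L]

lemma jdRepr_apply (g : G) (y : JD S L) :
    jdRepr S G L g y = (jRepr G S L g y.1, divRepr S G L g y.2) := rfl

lemma cRepr_mk (g : G) (y : JD S L) :
    cRepr S G L g (Submodule.Quotient.mk y) = Submodule.Quotient.mk (jdRepr S G L g y) := rfl

end Rep

end Fermat.Agent.S55.G.DescH773

end
end
-- ===== PACK-END S55/G/DescH773/Base.lean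

-- ===== PACK-BEGIN S55/T/InfResTorsCoreH244.lean
section



/-!
# Inflation–restriction in degree 2 when `H¹(S, A)` is only killed by `m`  (cochain-level core)

(helper244; generalises `Fermat.Agent.S55.H954.H2InfResCore` of helper954, whose lemmas
`step0`, `step1`, `step3`, `isOneCocycle_of_vanish_left` are reused verbatim.)

`ρ : Representation k G A`, `S ⊴ G`, `m : ℕ`.  Hypothesis `HOneKilledBy m ρ S`: for every
1-cocycle `w` of `S` with values in `A`, `m • w` is a coboundary.  (For `m = 1` this is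
`HOneVanishes`.)  Typical use: `S` any finite group, `P ≤ S` a Sylow `p`-subgroup with
`H¹(P, A) = 0`; then `m = [S : P]` is prime to `p` and kills `H¹(S, A)`.

* `exists_inflated_of_res_coboundary_nsmul`: if the restriction to `S` of a 2-cocycle `f` of `G`
  is a coboundary, then `m • f` is cohomologous to an `S`-bi-invariant 2-cocycle with values in
  `A^S`.
* `exists_invariant_cochain_of_inf_coboundary_nsmul`: if an inflated 2-cocycle `f'` is the
  coboundary of `c`, then `m • f'` is the coboundary of an `S`-invariant cochain with values in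
  `A^S`.
-/

set_option autoImplicit false
set_option linter.unusedSectionVars false
set_option linter.unusedSimpArgs false

namespace Fermat.Agent.S55.T.H244

open Fermat.Agent.S55.H954

variable {k G A : Type*} [CommRing k] [Group G] [AddCommGroup A] [Module k A]

/-- `m` kills `H¹(S, A)`, on the level of cocycles. -/
def HOneKilledBy (m : ℕ) (ρ : Representation k G A) (S : Subgroup G) : Prop :=
  ∀ w : S → A, (∀ s t : S, w (s * t) = ρ s (w t) + w s) → ∃ a : A, ∀ s : S, m • w s = ρ s a - a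

lemma hOneKilledBy_one_of_hOneVanishes {ρ : Representation k G A} {S : Subgroup G}
    (h : HOneVanishes ρ S) : HOneKilledBy 1 ρ S := by
  intro w hw
  obtain ⟨a, ha⟩ := h w hw
  exact ⟨a, fun s => by rw [one_smul]; exact ha s⟩

lemma dOne_nsmul (ρ : Representation k G A) (m : ℕ) (c : G → A) :
    dOne ρ (m • c) = m • dOne ρ c := by
  funext ⟨g, h⟩
  simp only [dOne_apply, Pi.smul_apply, map_nsmul, smul_add, smul_sub]

lemma isTwoCocycle_nsmul {ρ : Representation k G A} {f : G × G → A} (hf : IsTwoCocycle ρ f)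
    (m : ℕ) : IsTwoCocycle ρ (m • f) := by
  intro g h j
  have h1 := hf g h j
  simp only [Pi.smul_apply, map_nsmul]
  rw [← smul_add, ← smul_add, h1]

section Steps

variable (ρ : Representation k G A) (S : Subgroup G) [S.Normal]

/-- Step 2, `m`-version: for a cocycle `f` vanishing on `S × G`, make `(m • f) (g, s)` vanish
for `s ∈ S`, keeping `(m • f) (s, g) = 0`. -/
lemma step2_nsmul {m : ℕ} (hH1 : HOneKilledBy m ρ S) {f : G × G → A} (hf : IsTwoCocycle ρ f)
    (h1 : ∀ s ∈ S, ∀ g : G, f (s, g) = 0) :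
    ∃ c : G → A, (∀ s ∈ S, ∀ g : G, (m • f - dOne ρ c) (s, g) = 0) ∧
      ∀ s ∈ S, ∀ g : G, (m • f - dOne ρ c) (g, s) = 0 := by
  classical
  have hF : IsTwoCocycle ρ (m • f) := isTwoCocycle_nsmul hf m
  have hF1 : ∀ s ∈ S, ∀ g : G, (m • f) (s, g) = 0 := fun s hs g => by
    simp only [Pi.smul_apply, h1 s hs g, smul_zero]
  have hex : ∀ g : G, ∃ a : A, ∀ s : S, ρ g⁻¹ ((m • f) (g, (s : G))) = ρ s a - a := fun g => by
    obtain ⟨a, ha⟩ := hH1 (fun s => ρ g⁻¹ (f (g, (s : G))))
      (fun s t => isOneCocycle_of_vanish_left ρ S hf h1 g s t)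
    exact ⟨a, fun s => by simp only [Pi.smul_apply, map_nsmul]; exact ha s⟩
  choose a ha using hex
  set F : G × G → A := m • f with hFdef
  set a' : G → A := fun g => if g ∈ S then 0 else a (cosetRep S g) with ha'
  have ha'_right : ∀ g : G, ∀ s ∈ S, a' (g * s) = a' g := by
    intro g s hs
    simp only [ha', Subgroup.mul_mem_cancel_right S hs, cosetRep_mul_right S g hs]
  have ha'_left : ∀ g : G, ∀ s ∈ S, a' (s * g) = a' g := by
    intro g s hs
    simp only [ha', Subgroup.mul_mem_cancel_left S hs, cosetRep_mul_left S g hs]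
  have ha'_mem : ∀ s ∈ S, a' s = 0 := fun s hs => by simp [ha', hs]
  have key : ∀ g : G, ∀ s ∈ S, F (g, s) = ρ (g * s) (a' g) - ρ g (a' g) := by
    intro g s hs
    by_cases hg : g ∈ S
    · rw [hF1 g hg s, ha'_mem g hg]; simp
    · have hr : a' g = a (cosetRep S g) := by simp [ha', hg]
      rw [hr]
      set r := cosetRep S g with hrdef
      set t := r⁻¹ * g with htdef
      have ht : t ∈ S := cosetRep_inv_mul_mem S g
      have hgrt : g = r * t := by simp [htdef]
      have c := hF r t s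
      rw [hF1 t ht s, map_zero, zero_add, ← hgrt] at c
      have e1 := ha r ⟨t * s, S.mul_mem ht hs⟩
      have e2 := ha r ⟨t, ht⟩
      simp only [Subgroup.coe_mk] at e1 e2
      have e1' : F (r, t * s) = ρ r (ρ (t * s) (a r) - a r) := by
        rw [← e1, ← Module.End.mul_apply, ← map_mul]; simp
      have e2' : F (r, t) = ρ r (ρ t (a r) - a r) := by
        rw [← e2, ← Module.End.mul_apply, ← map_mul]; simp
      have : F (g, s) = F (r, t * s) - F (r, t) := eq_sub_of_add_eq c
      rw [this, e1', e2', hgrt]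
      simp only [map_sub, map_mul, Module.End.mul_apply]
      abel
  refine ⟨fun g => - ρ g (a' g), fun s hs g => ?_, fun s hs g => ?_⟩
  · simp only [Pi.sub_apply, dOne_apply, hF1 s hs g, ha'_left g s hs, ha'_mem s hs, map_neg,
      map_zero, map_mul, Module.End.mul_apply]
    abel
  · simp only [Pi.sub_apply, dOne_apply, key g s hs, ha'_right g s hs, ha'_mem s hs, map_neg,
      map_zero, map_mul, Module.End.mul_apply]
    abel

/-- **Inflation–restriction in degree 2, exactness at `H²(G, A)` up to `m`** (cochain form). -/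
theorem exists_inflated_of_res_coboundary_nsmul {m : ℕ} (hH1 : HOneKilledBy m ρ S)
    {f : G × G → A} (hf : IsTwoCocycle ρ f) (φ : S → A)
    (hφ : ∀ s t : S, f (s, t) = ρ s (φ t) - φ (s * t) + φ s) :
    ∃ (c : G → A) (f' : G × G → A), m • f = f' + dOne ρ c ∧ IsTwoCocycle ρ f' ∧
      (∀ s ∈ S, ∀ g h : G, f' (g, h * s) = f' (g, h)) ∧
      (∀ s ∈ S, ∀ g h : G, f' (g * s, h) = f' (g, h)) ∧
      (∀ s ∈ S, ∀ g h : G, ρ s (f' (g, h)) = f' (g, h)) := by
  obtain ⟨c0, h0⟩ := step0 ρ S φ hφ
  have hf0 : IsTwoCocycle ρ (f - dOne ρ c0) := hf.sub (isTwoCocycle_dOne ρ c0)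
  obtain ⟨c1, h1⟩ := step1 ρ S hf0 h0
  have hf1 : IsTwoCocycle ρ (f - dOne ρ c0 - dOne ρ c1) := hf0.sub (isTwoCocycle_dOne ρ c1)
  obtain ⟨c2, h2, h2'⟩ := step2_nsmul ρ S hH1 hf1 h1
  have hf2 : IsTwoCocycle ρ (m • (f - dOne ρ c0 - dOne ρ c1) - dOne ρ c2) :=
    (isTwoCocycle_nsmul hf1 m).sub (isTwoCocycle_dOne ρ c2)
  obtain ⟨i1, i2, i3⟩ := step3 ρ S hf2 h2 h2'
  refine ⟨m • c0 + m • c1 + c2, m • (f - dOne ρ c0 - dOne ρ c1) - dOne ρ c2, ?_, hf2, i1, i2, i3⟩
  funext ⟨g, h⟩
  simp only [Pi.add_apply, Pi.sub_apply, Pi.smul_apply, dOne_apply, map_add, map_nsmul,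
    smul_sub, smul_add]
  abel

/-- **Inflation–restriction in degree 2, injectivity of inflation up to `m`** (cochain form):
if an `S`-bi-invariant `A^S`-valued function `f'` equals `dOne c`, then `m • f'` is the
coboundary of an `S`-invariant cochain with values in `A^S`. -/
theorem exists_invariant_cochain_of_inf_coboundary_nsmul {m : ℕ} (hH1 : HOneKilledBy m ρ S)
    {f' : G × G → A}
    (hinv2 : ∀ s ∈ S, ∀ g h : G, f' (g, h * s) = f' (g, h))
    (hinv1 : ∀ s ∈ S, ∀ g h : G, f' (g * s, h) = f' (g, h))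
    (hval : ∀ s ∈ S, ∀ g h : G, ρ s (f' (g, h)) = f' (g, h))
    (c : G → A) (hc : f' = dOne ρ c) :
    ∃ c' : G → A, m • f' = dOne ρ c' ∧ (∀ s ∈ S, ∀ g : G, c' (g * s) = c' g) ∧
      (∀ s ∈ S, ∀ g : G, ρ s (c' g) = c' g) := by
  set e := f' (1, 1) with he
  have hfe : ∀ s ∈ S, ∀ t ∈ S, f' (s, t) = e := by
    intro s hs t ht
    have := hinv1 s hs 1 t
    rw [one_mul] at this
    rw [this]
    have := hinv2 t ht 1 1
    rwa [one_mul] at this
  have hρe : ∀ s ∈ S, ρ s e = e := fun s hs => hval s hs 1 1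
  -- `c - e` restricted to `S` is a 1-cocycle
  obtain ⟨a, ha⟩ := hH1 (fun s => c s - e) (by
    intro s t
    have h := hfe s s.2 t t.2
    rw [hc, dOne_apply] at h
    simp only [Subgroup.coe_mul, map_sub, hρe s s.2]
    have : c (↑s * ↑t) = ρ ↑s (c ↑t) + c ↑s - e := by rw [← h]; abel
    rw [this]; abel)
  -- the new objects: `F = m • f'`, `C = m • c`, `E = m • e`
  set F : G × G → A := m • f' with hFdef
  set E : A := m • e with hEdef
  have hFinv2 : ∀ s ∈ S, ∀ g h : G, F (g, h * s) = F (g, h) := fun s hs g h => by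
    simp only [hFdef, Pi.smul_apply, hinv2 s hs g h]
  have hFinv1 : ∀ s ∈ S, ∀ g h : G, F (g * s, h) = F (g, h) := fun s hs g h => by
    simp only [hFdef, Pi.smul_apply, hinv1 s hs g h]
  have hF11 : F (1, 1) = E := rfl
  have hcS : ∀ s ∈ S, m • c s - (ρ s a - a) = E := by
    intro s hs
    have := ha ⟨s, hs⟩
    simp only [Subgroup.coe_mk, smul_sub] at this
    rw [← this, hEdef]; abel
  set c' : G → A := fun g => m • c g - (ρ g a - a) with hc'
  have hd : F = dOne ρ c' := by
    rw [hFdef, hc, ← dOne_nsmul]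
    funext ⟨g, h⟩
    simp only [dOne_apply, hc', Pi.smul_apply, map_sub, map_mul, Module.End.mul_apply]
    abel
  have hc'S : ∀ s ∈ S, c' s = E := hcS
  have hc'1 : c' 1 = E := hc'S 1 S.one_mem
  have hfg1 : ∀ g : G, F (g, 1) = ρ g E := by
    intro g
    have := congr_fun hd (g, 1)
    rw [dOne_apply, mul_one, hc'1] at this
    rw [this]; abel
  have hf1g : ∀ g : G, F (1, g) = E := by
    intro g
    have := congr_fun hd (1, g)
    rw [dOne_apply, one_mul, hc'1, map_one, Module.End.one_apply] at this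
    rw [this]; abel
  have hright : ∀ s ∈ S, ∀ g : G, c' (g * s) = c' g := by
    intro s hs g
    have h1 := congr_fun hd (g, s)
    rw [dOne_apply, hc'S s hs] at h1
    have h2 := hFinv2 s hs g 1
    rw [one_mul, hfg1 g] at h2
    rw [h2] at h1
    have h3 : c' g - c' (g * s) = 0 := by
      have := sub_eq_zero.2 h1.symm
      rw [← this]; abel
    exact (sub_eq_zero.1 h3).symm
  refine ⟨c', hd, hright, fun s hs g => ?_⟩
  have h1 := congr_fun hd (s, g)
  rw [dOne_apply, hc'S s hs] at h1
  have h2 := hFinv1 s hs 1 g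
  rw [one_mul, hf1g g] at h2
  rw [h2] at h1
  have h3 : c' (s * g) = c' g := by
    have : s * g = g * (g⁻¹ * s * g) := by group
    rw [this]
    exact hright _ (Subgroup.Normal.conj_mem' ‹S.Normal› _ hs _) g
  rw [h3] at h1
  have h4 : ρ s (c' g) - c' g = 0 := by
    have := sub_eq_zero.2 h1.symm
    rw [← this]; abel
  exact sub_eq_zero.1 h4

end Steps

end Fermat.Agent.S55.T.H244

end
-- ===== PACK-END S55/T/InfResTorsCoreH244.lean

-- ===== PACK-BEGIN S55/H963/Principal.lean
section


/-!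
# S55 / leaf RAY-N1 (helper963): sums over generators versus sums over principal ideals

For a set `P` of ideals of `𝓞 K`, the smoothed sum over all nonzero `x` with `(x) ∈ P` equals
`w` times the sum of `N(I)^(-s)` over the nonzero principal ideals `I ∈ P`.
-/

set_option autoImplicit false

namespace Fermat.Agent.S55.H963

open NumberField

variable {K : Type*} [Field K] [NumberField K] (κ : UnitKernel K)

/-- The nonzero elements generating an ideal in `P`. -/
def genSet (P : Set (Ideal (𝓞 K))) : Set (𝓞 K) := {x | x ≠ 0 ∧ Ideal.span {x} ∈ P}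

/-- The nonzero principal ideals in `P`. -/
def prinSet (P : Set (Ideal (𝓞 K))) : Set (Ideal (𝓞 K)) :=
  {I | I ≠ ⊥ ∧ Submodule.IsPrincipal I ∧ I ∈ P}

theorem mem_genSet {P : Set (Ideal (𝓞 K))} {x : 𝓞 K} :
    x ∈ genSet P ↔ x ≠ 0 ∧ Ideal.span {x} ∈ P := Iff.rfl

theorem mem_prinSet {P : Set (Ideal (𝓞 K))} {I : Ideal (𝓞 K)} :
    I ∈ prinSet P ↔ I ≠ ⊥ ∧ Submodule.IsPrincipal I ∧ I ∈ P := Iff.rfl

theorem span_mem_prinSet {P : Set (Ideal (𝓞 K))} {x : 𝓞 K} (hx : x ∈ genSet P) :
    Ideal.span {x} ∈ prinSet P :=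
  ⟨by simpa [Ideal.span_singleton_eq_bot] using hx.1, ⟨⟨x, rfl⟩⟩, hx.2⟩

/-- The map `x ↦ (x)` from generators to principal ideals. -/
def genToPrin (P : Set (Ideal (𝓞 K))) (x : genSet P) : prinSet P :=
  ⟨Ideal.span {(x : 𝓞 K)}, span_mem_prinSet x.2⟩

/-- The fibre of `x ↦ (x)` over `(x₀)` is a torsor under the units. -/
noncomputable def unitsEquivFiber (P : Set (Ideal (𝓞 K))) (I : prinSet P) (x₀ : 𝓞 K)
    (hx₀ : Ideal.span {x₀} = (I : Ideal (𝓞 K))) :
    (𝓞 K)ˣ ≃ {x : genSet P // genToPrin P x = I} := by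
  have hx₀0 : x₀ ≠ 0 := by
    intro h
    apply I.2.1
    rw [← hx₀, h]
    simp
  refine Equiv.ofBijective (fun u => ⟨⟨(u : 𝓞 K) * x₀, ?_, ?_⟩, ?_⟩) ⟨?_, ?_⟩
  · exact mul_ne_zero u.ne_zero hx₀0
  · have : Ideal.span {(u : 𝓞 K) * x₀} = Ideal.span {x₀} :=
      Ideal.span_singleton_eq_span_singleton.mpr ⟨u⁻¹, by
        rw [mul_comm, ← mul_assoc, Units.inv_mul, one_mul]⟩
    rw [this, hx₀]
    exact I.2.2.2
  · apply Subtype.ext
    show Ideal.span {(u : 𝓞 K) * x₀} = (I : Ideal (𝓞 K))
    rw [← hx₀]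
    exact Ideal.span_singleton_eq_span_singleton.mpr ⟨u⁻¹, by
        rw [mul_comm, ← mul_assoc, Units.inv_mul, one_mul]⟩
  · intro u v h
    have h' : (u : 𝓞 K) * x₀ = (v : 𝓞 K) * x₀ := congrArg (fun z => ((z.1 : genSet P) : 𝓞 K)) h
    exact Units.ext (mul_right_cancel₀ hx₀0 h')
  · rintro ⟨⟨x, hx⟩, hxI⟩
    have h1 : Ideal.span {x} = Ideal.span {x₀} := by
      rw [hx₀]
      exact congrArg Subtype.val hxI
    obtain ⟨u, hu⟩ := Ideal.span_singleton_eq_span_singleton.mp h1
    refine ⟨u⁻¹, ?_⟩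
    apply Subtype.ext
    apply Subtype.ext
    show ((u⁻¹ : (𝓞 K)ˣ) : 𝓞 K) * x₀ = x
    rw [← hu, mul_comm x, ← mul_assoc, Units.inv_mul, one_mul]

theorem unitsEquivFiber_apply (P : Set (Ideal (𝓞 K))) (I : prinSet P) (x₀ : 𝓞 K)
    (hx₀ : Ideal.span {x₀} = (I : Ideal (𝓞 K))) (u : (𝓞 K)ˣ) :
    (((unitsEquivFiber P I x₀ hx₀ u : {x : genSet P // genToPrin P x = I}) : genSet P) : 𝓞 K) =
      (u : 𝓞 K) * x₀ := rfl

theorem summable_genSet (P : Set (Ideal (𝓞 K))) {s : ℝ} (hs : 1 < s) :
    Summable fun x : genSet P => κ.F s x :=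
  (κ.summable s hs).comp_injective Subtype.val_injective

/-- **Orbit decomposition**: the smoothed sum over the generators of the ideals in `P` is
`w` times the partial zeta sum over the principal ideals in `P`. -/
theorem hasSum_prinSet (P : Set (Ideal (𝓞 K))) {s : ℝ} (hs : 1 < s) :
    HasSum (fun I : prinSet P => κ.w * (Ideal.absNorm (I : Ideal (𝓞 K)) : ℝ) ^ (-s))
      (∑' x : genSet P, κ.F s x) := by
  have h0 : HasSum (fun x : genSet P => κ.F s x) (∑' x : genSet P, κ.F s x) :=
    (summable_genSet κ P hs).hasSum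
  have h1 : HasSum (fun p : (Σ I : prinSet P, {x : genSet P // genToPrin P x = I}) =>
      κ.F s ((Equiv.sigmaFiberEquiv (genToPrin P) p : genSet P) : 𝓞 K))
      (∑' x : genSet P, κ.F s x) :=
    (Equiv.hasSum_iff (Equiv.sigmaFiberEquiv (genToPrin P))).mpr h0
  refine h1.sigma fun I => ?_
  obtain ⟨x₀, hx₀⟩ := I.2.2.1
  have hx₀' : Ideal.span {x₀} = (I : Ideal (𝓞 K)) := hx₀.symm
  have hx₀0 : x₀ ≠ 0 := by
    intro h
    apply I.2.1
    rw [← hx₀', h]
    simp
  have h2 := κ.orbit s hs x₀ hx₀0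
  rw [hx₀'] at h2
  rw [← (unitsEquivFiber P I x₀ hx₀').hasSum_iff]
  exact h2

include κ in
theorem summable_prinSet (P : Set (Ideal (𝓞 K))) {s : ℝ} (hs : 1 < s) :
    Summable fun I : prinSet P => (Ideal.absNorm (I : Ideal (𝓞 K)) : ℝ) ^ (-s) := by
  have h := (hasSum_prinSet κ P hs).summable
  have h2 := h.mul_left (κ.w)⁻¹
  refine h2.congr fun I => ?_
  rw [← mul_assoc, inv_mul_cancel₀ κ.w_pos.ne', one_mul]

theorem tsum_prinSet (P : Set (Ideal (𝓞 K))) {s : ℝ} (hs : 1 < s) :
    κ.w * ∑' I : prinSet P, (Ideal.absNorm (I : Ideal (𝓞 K)) : ℝ) ^ (-s) =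
      ∑' x : genSet P, κ.F s x := by
  rw [← tsum_mul_left]
  exact (hasSum_prinSet κ P hs).tsum_eq

end Fermat.Agent.S55.H963

end
-- ===== PACK-END S55/H963/Principal.lean

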