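import Mathlib
import Fermat.Prelude.Def_GaloisRep_DeformationRingData
import Fermat.Prelude.Def_GaloisRep_DeformationCondition
import Fermat.Agent.Pack.S43GC.G0E1L2

-- ===== PACK-BEGIN S56/H287/StructInertia.lean
section


/-!
# S56 / LocalModel / STRUCT, steps S1 + S2 (helper287): the inertia-fixed subring

`B/A` a finite extension of discrete valuation rings, Galois with group `Γ`
(`Algebra.IsInvariant A B Γ`, faithful action), finite residue field of `A`.
`Γ₀ := (maximalIdeal B).inertia Γ`, `B' := B^{Γ₀}` (as a subalgebra of `B` over `A`).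

* `inertiaSub A B Γ`            : the subalgebra `B'`;
* `isDiscreteValuationRing_inertiaSub` : `B'` is a discrete valuation ring;
* `ramificationIdx_inertiaSub`  : `e(B'/A) = 1`;
* `card_inertia_eq`             : `|Γ₀| = e(B/A) = e(B/B')`.

Mathlib only.
-/

set_option autoImplicit false
set_option linter.unusedSectionVars false
set_option linter.overlappingInstances false
set_option linter.unusedVariables false

open IsLocalRing

noncomputable section

namespace Fermat.Agent.S56.H287

section Basic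

variable (A B : Type*) [CommRing A] [CommRing B] [Algebra A B]
  (Γ : Type*) [Group Γ] [MulSemiringAction Γ B] [SMulCommClass Γ A B]

/-- The inertia subgroup at the maximal ideal of `B`. -/
abbrev inertiaGp [IsLocalRing B] : Subgroup Γ := (maximalIdeal B).inertia Γ

/-- The inertia-fixed subalgebra `B' = B^{Γ₀}`. -/
abbrev inertiaSub [IsLocalRing B] : Subalgebra A B :=
  FixedPoints.subalgebra A B (inertiaGp B Γ)

variable {A B Γ}

theorem mem_inertiaSub_iff [IsLocalRing B] {b : B} :
    b ∈ inertiaSub A B Γ ↔ ∀ σ ∈ inertiaGp B Γ, σ • b = b := by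
  constructor
  · intro h σ hσ
    exact h ⟨σ, hσ⟩
  · intro h σ
    exact h σ.1 σ.2

/-- If `a * c = b` with `a, b` fixed and `a ≠ 0` then `c` is fixed. -/
theorem mem_inertiaSub_of_mul_eq [IsLocalRing B] [IsDomain B] {a b c : B}
    (ha : a ∈ inertiaSub A B Γ) (hb : b ∈ inertiaSub A B Γ) (ha0 : a ≠ 0) (h : a * c = b) :
    c ∈ inertiaSub A B Γ := by
  rw [mem_inertiaSub_iff] at ha hb ⊢
  intro σ hσ
  have h1 : σ • (a * c) = σ • b := by rw [h]
  rw [smul_mul', ha σ hσ, hb σ hσ, ← h] at h1
  exact mul_left_cancel₀ ha0 h1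

theorem isUnit_inertiaSub_iff [IsLocalRing B] [IsDomain B] (x : inertiaSub A B Γ) :
    IsUnit x ↔ IsUnit (x : B) := by
  constructor
  · intro h
    exact h.map (inertiaSub A B Γ).val
  · intro h
    obtain ⟨y, hy⟩ := h.exists_right_inv
    have hx0 : (x : B) ≠ 0 := h.ne_zero
    have hymem : y ∈ inertiaSub A B Γ :=
      mem_inertiaSub_of_mul_eq x.2 (one_mem _) hx0 hy
    exact IsUnit.of_mul_eq_one ⟨y, hymem⟩ (Subtype.ext hy)

instance valuationRing_inertiaSub [IsLocalRing B] [IsDomain B] [ValuationRing B] :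
    ValuationRing (inertiaSub A B Γ) := by
  rw [ValuationRing.iff_dvd_total]
  refine ⟨fun a b => ?_⟩
  by_cases ha : (a : B) = 0
  · right
    have : a = 0 := Subtype.ext ha
    rw [this]
    exact dvd_zero b
  by_cases hb : (b : B) = 0
  · left
    have : b = 0 := Subtype.ext hb
    rw [this]
    exact dvd_zero a
  rcases ValuationRing.dvd_total (a : B) (b : B) with ⟨c, hc⟩ | ⟨c, hc⟩
  · left
    exact ⟨⟨c, mem_inertiaSub_of_mul_eq a.2 b.2 ha hc.symm⟩, Subtype.ext hc⟩
  · right
    exact ⟨⟨c, mem_inertiaSub_of_mul_eq b.2 a.2 hb hc.symm⟩, Subtype.ext hc⟩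

end Basic

section DVR

variable (A B : Type*) [CommRing A] [IsDomain A] [IsDiscreteValuationRing A]
  [CommRing B] [IsDomain B] [IsDiscreteValuationRing B]
  [Algebra A B] [Module.Finite A B] [FaithfulSMul A B]
  (Γ : Type*) [Group Γ] [MulSemiringAction Γ B] [SMulCommClass Γ A B]

instance finite_inertiaSub : Module.Finite A (inertiaSub A B Γ) := by
  have : IsNoetherian A B := isNoetherian_of_isNoetherianRing_of_finite A B
  exact Module.Finite.of_injective (inertiaSub A B Γ).val.toLinearMap Subtype.val_injective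

instance isNoetherianRing_inertiaSub : IsNoetherianRing (inertiaSub A B Γ) := by
  have : IsNoetherian A (inertiaSub A B Γ) := isNoetherian_of_isNoetherianRing_of_finite A _
  exact isNoetherian_of_tower A this

instance finite_over_inertiaSub : Module.Finite (inertiaSub A B Γ) B :=
  Module.Finite.of_restrictScalars_finite A (inertiaSub A B Γ) B

/-- A nonunit of `A` is not a unit in `B`. -/
theorem not_isUnit_algebraMap_of_mem {a : A} (ha : a ∈ maximalIdeal A) :
    ¬ IsUnit (algebraMap A B a) := by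
  intro h
  have hint : Algebra.IsIntegral A B := Algebra.IsIntegral.of_finite A B
  have : IsLocalHom (algebraMap A B) := Algebra.IsIntegral.isLocalHom A B
  exact ha (isUnit_of_map_unit (algebraMap A B) a h)

theorem not_isField_inertiaSub : ¬ IsField (inertiaSub A B Γ) := by
  intro hF
  obtain ⟨ϖ, hϖ⟩ := IsDiscreteValuationRing.exists_irreducible A
  have hmem : ϖ ∈ maximalIdeal A := hϖ.not_isUnit
  have hne : algebraMap A (inertiaSub A B Γ) ϖ ≠ 0 := by
    intro h0
    have h1 : algebraMap A B ϖ = 0 := by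
      have := congrArg (inertiaSub A B Γ).val h0
      simpa using this
    exact hϖ.ne_zero (FaithfulSMul.algebraMap_injective A B (by rw [h1, map_zero]))
  obtain ⟨y, hy⟩ := hF.mul_inv_cancel hne
  apply not_isUnit_algebraMap_of_mem A B hmem
  have := congrArg (inertiaSub A B Γ).val hy
  exact IsUnit.of_mul_eq_one (y : B) (by simpa using this)

instance isDiscreteValuationRing_inertiaSub : IsDiscreteValuationRing (inertiaSub A B Γ) := by
  have h := (IsDiscreteValuationRing.TFAE (inertiaSub A B Γ) (not_isField_inertiaSub A B Γ)).out 0 1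
  exact h.mpr inferInstance

end DVR

section Galois

variable (A B : Type*) [CommRing A] [IsDomain A] [IsDiscreteValuationRing A]
  [CommRing B] [IsDomain B] [IsDiscreteValuationRing B]
  [Algebra A B] [Module.Finite A B] [FaithfulSMul A B]
  (Γ : Type*) [Group Γ] [Finite Γ] [MulSemiringAction Γ B] [SMulCommClass Γ A B]
  [Algebra.IsInvariant A B Γ] [FaithfulSMul Γ B]

theorem isGaloisGroup_base : IsGaloisGroup Γ A B := ⟨inferInstance, inferInstance, inferInstance⟩

theorem isGaloisGroup_inertia : IsGaloisGroup (inertiaGp B Γ) (inertiaSub A B Γ) B where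
  faithful := inferInstance
  commutes := inferInstance
  isInvariant := ⟨fun b hb => ⟨⟨b, hb⟩, rfl⟩⟩

instance isLocalHom_base : IsLocalHom (algebraMap A B) :=
  haveI : Algebra.IsIntegral A B := Algebra.IsIntegral.of_finite A B
  Algebra.IsIntegral.isLocalHom A B

instance isLocalHom_top : IsLocalHom (algebraMap (inertiaSub A B Γ) B) :=
  haveI : Algebra.IsIntegral (inertiaSub A B Γ) B := Algebra.IsIntegral.of_finite _ B
  Algebra.IsIntegral.isLocalHom _ B

instance isLocalHom_bot : IsLocalHom (algebraMap A (inertiaSub A B Γ)) :=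
  haveI : Algebra.IsIntegral A (inertiaSub A B Γ) := Algebra.IsIntegral.of_finite A _
  Algebra.IsIntegral.isLocalHom A _

theorem finite_residueField_ideal (R : Type*) [CommRing R] [IsLocalRing R]
    [Finite (ResidueField R)] : Finite (maximalIdeal R).ResidueField :=
  haveI : Finite (R ⧸ maximalIdeal R) := ‹Finite (ResidueField R)›
  Finite.of_surjective _ (maximalIdeal R).bijective_algebraMap_quotient_residueField.surjective

theorem finite_residueField_inertiaSub [Finite (ResidueField A)] :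
    Finite (ResidueField (inertiaSub A B Γ)) := by
  have : Module.Finite (ResidueField A) (ResidueField (inertiaSub A B Γ)) := inferInstance
  exact Module.finite_of_finite (ResidueField A)

/-- `|Γ₀| = e(B/A)`. -/
theorem card_inertiaGp_eq [Finite (ResidueField A)] :
    Nat.card (inertiaGp B Γ) = (maximalIdeal B).ramificationIdx A := by
  have := isGaloisGroup_base A B Γ
  have := finite_residueField_ideal A
  rw [Ideal.card_inertia_eq_ramificationIdxIn (G := Γ) (maximalIdeal A) (maximalIdeal B),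
    Ideal.ramificationIdxIn_eq_ramificationIdx (maximalIdeal A) (maximalIdeal B) Γ]

/-- `|Γ₀| = e(B/B')`. -/
theorem card_inertiaGp_eq' [Finite (ResidueField A)] :
    Nat.card (inertiaGp B Γ) = (maximalIdeal B).ramificationIdx (inertiaSub A B Γ) := by
  have := isGaloisGroup_inertia A B Γ
  have := finite_residueField_inertiaSub A B Γ
  have := finite_residueField_ideal (inertiaSub A B Γ)
  have h := Ideal.card_inertia_eq_ramificationIdxIn (G := inertiaGp B Γ)
    (maximalIdeal (inertiaSub A B Γ)) (maximalIdeal B)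
  rw [Ideal.ramificationIdxIn_eq_ramificationIdx (maximalIdeal (inertiaSub A B Γ))
    (maximalIdeal B) (inertiaGp B Γ)] at h
  rw [← h]
  have htop : (maximalIdeal B).inertia (inertiaGp B Γ) = ⊤ := by
    rw [eq_top_iff]
    intro σ _
    exact Ideal.coe_mem_inertia.mp σ.2
  rw [htop]
  exact (Nat.card_congr Subgroup.topEquiv.toEquiv).symm

end Galois

section RamIdx

/-- In a discrete valuation ring `S`, if `p S = 𝔪_S ^ n` then the ramification index is `n`. -/
theorem ramificationIdx_eq_of_map_eq_pow {R S : Type*} [CommRing R] [CommRing S] [IsDomain S]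
    [IsDiscreteValuationRing S] [Algebra R S] (p : Ideal R) [(maximalIdeal S).LiesOver p] {n : ℕ}
    (h : p.map (algebraMap R S) = maximalIdeal S ^ n) :
    (maximalIdeal S).ramificationIdx R = n := by
  have hm0 : maximalIdeal S ≠ ⊥ := IsDiscreteValuationRing.not_a_field S
  have hp0 : p.map (algebraMap R S) ≠ ⊥ := by
    rw [h]
    exact pow_ne_zero n hm0
  rw [Ideal.IsDedekindDomain.ramificationIdx_eq_multiplicity p (maximalIdeal S) hp0, h]
  refine multiplicity_pow_self hm0 ?_ n
  rw [Ideal.isUnit_iff]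
  exact (maximalIdeal.isMaximal S).ne_top

/-- In a discrete valuation ring `S`, `p S = 𝔪_S ^ e(S/R)` when `p S ≠ 0`. -/
theorem map_eq_pow_ramificationIdx {R S : Type*} [CommRing R] [CommRing S] [IsDomain S]
    [IsDiscreteValuationRing S] [Algebra R S] (p : Ideal R) [(maximalIdeal S).LiesOver p]
    (hp0 : p.map (algebraMap R S) ≠ ⊥) :
    p.map (algebraMap R S) = maximalIdeal S ^ ((maximalIdeal S).ramificationIdx R) := by
  have h06 := (IsDiscreteValuationRing.TFAE S (IsDiscreteValuationRing.not_isField S)).out 0 6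
  have hall : ∀ (I : Ideal S), I ≠ ⊥ → ∃ n : ℕ, I = maximalIdeal S ^ n := h06.mp inferInstance
  obtain ⟨n, hn⟩ := hall _ hp0
  rw [ramificationIdx_eq_of_map_eq_pow p hn, hn]

/-- In a discrete valuation ring, `(x) = 𝔪 ^ n` implies `v(x) = n`. -/
theorem addVal_eq_of_span_eq_maximalIdeal_pow {S : Type*} [CommRing S] [IsDomain S]
    [IsDiscreteValuationRing S] {x : S} {n : ℕ} (h : Ideal.span {x} = maximalIdeal S ^ n) :
    IsDiscreteValuationRing.addVal S x = n := by
  obtain ⟨ϖ, hϖ⟩ := IsDiscreteValuationRing.exists_irreducible S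
  rw [hϖ.maximalIdeal_eq, Ideal.span_singleton_pow, Ideal.span_singleton_eq_span_singleton] at h
  obtain ⟨u, hu⟩ := h.symm
  rw [IsDiscreteValuationRing.addVal_def x u hϖ n]
  rw [← hu, mul_comm]

/-- In a discrete valuation ring, `v(x) = n` implies `(x) = 𝔪 ^ n`. -/
theorem span_eq_maximalIdeal_pow_of_addVal_eq {S : Type*} [CommRing S] [IsDomain S]
    [IsDiscreteValuationRing S] {x : S} {n : ℕ} (h : IsDiscreteValuationRing.addVal S x = n) :
    Ideal.span {x} = maximalIdeal S ^ n := by
  obtain ⟨ϖ, hϖ⟩ := IsDiscreteValuationRing.exists_irreducible S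
  have hx0 : x ≠ 0 := by
    intro h0
    rw [h0, IsDiscreteValuationRing.addVal_zero] at h
    exact ENat.top_ne_natCast n h
  obtain ⟨m, u, hu⟩ := IsDiscreteValuationRing.eq_unit_mul_pow_irreducible hx0 hϖ
  have hm : IsDiscreteValuationRing.addVal S x = m :=
    IsDiscreteValuationRing.addVal_def x u hϖ m hu
  have hmn : m = n := by
    rw [hm] at h
    exact_mod_cast h
  subst hmn
  rw [hϖ.maximalIdeal_eq, Ideal.span_singleton_pow, Ideal.span_singleton_eq_span_singleton, hu]
  exact associated_unit_mul_left _ _ u.isUnit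

end RamIdx

section Unram

variable (A B : Type*) [CommRing A] [IsDomain A] [IsDiscreteValuationRing A]
  [CommRing B] [IsDomain B] [IsDiscreteValuationRing B]
  [Algebra A B] [Module.Finite A B] [FaithfulSMul A B]
  (Γ : Type*) [Group Γ] [Finite Γ] [MulSemiringAction Γ B] [SMulCommClass Γ A B]
  [Algebra.IsInvariant A B Γ] [FaithfulSMul Γ B] [Finite (ResidueField A)]

/-- `e(B'/A) = 1`: the inertia-fixed subring is unramified over `A`. -/
theorem ramificationIdx_inertiaSub :
    (maximalIdeal (inertiaSub A B Γ)).ramificationIdx A = 1 := by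
  have h1 := card_inertiaGp_eq A B Γ
  have h2 := card_inertiaGp_eq' A B Γ
  have h3 := Ideal.ramificationIdx_tower (R := A) (maximalIdeal (inertiaSub A B Γ))
    (maximalIdeal B)
  have hpos : 0 < (maximalIdeal B).ramificationIdx A := Ideal.ramificationIdx_pos _ _
  rw [← h1] at h3 hpos
  rw [← h2] at h3
  have h4 : 1 * Nat.card (inertiaGp B Γ) =
      (maximalIdeal (inertiaSub A B Γ)).ramificationIdx A * Nat.card (inertiaGp B Γ) := by
    rw [one_mul]
    exact h3
  exact (Nat.eq_of_mul_eq_mul_right hpos h4).symm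

/-- `𝔪_A B' = 𝔪_{B'}`. -/
theorem map_maximalIdeal_inertiaSub :
    (maximalIdeal A).map (algebraMap A (inertiaSub A B Γ)) = maximalIdeal (inertiaSub A B Γ) := by
  have hinj : Function.Injective (algebraMap A (inertiaSub A B Γ)) := by
    intro x y hxy
    apply FaithfulSMul.algebraMap_injective A B
    have := congrArg (inertiaSub A B Γ).val hxy
    simpa using this
  have hp0 : (maximalIdeal A).map (algebraMap A (inertiaSub A B Γ)) ≠ ⊥ := by
    rw [Ne, Ideal.map_eq_bot_iff_of_injective hinj]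
    exact IsDiscreteValuationRing.not_a_field A
  have := map_eq_pow_ramificationIdx (S := inertiaSub A B Γ) (maximalIdeal A) hp0
  rw [this, ramificationIdx_inertiaSub, pow_one]

/-- `v_B(b) = e · v_{B'}(b)` for `b ∈ B'`, where `𝔪_A B = 𝔪_B ^ e`. -/
theorem addVal_coe_inertiaSub {e : ℕ}
    (he : (maximalIdeal A).map (algebraMap A B) = maximalIdeal B ^ e) (b : inertiaSub A B Γ) :
    IsDiscreteValuationRing.addVal B (b : B) =
      e • IsDiscreteValuationRing.addVal (inertiaSub A B Γ) b := by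
  obtain ⟨ϖ, hϖ⟩ := IsDiscreteValuationRing.exists_irreducible A
  have hm := map_maximalIdeal_inertiaSub A B Γ
  rw [hϖ.maximalIdeal_eq, Ideal.map_span, Set.image_singleton] at hm he
  -- `ϖ` is a uniformizer of `B'`
  have hirr : Irreducible (algebraMap A (inertiaSub A B Γ) ϖ) := by
    rw [IsDiscreteValuationRing.irreducible_iff_uniformizer, ← hm]
  have hvB : IsDiscreteValuationRing.addVal B (algebraMap A B ϖ) = e :=
    addVal_eq_of_span_eq_maximalIdeal_pow he
  have he0 : e ≠ 0 := by
    rintro rfl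
    rw [pow_zero, Ideal.one_eq_top, Ideal.span_singleton_eq_top] at he
    exact not_isUnit_algebraMap_of_mem A B hϖ.not_isUnit he
  by_cases hb : b = 0
  · subst hb
    simp [he0]
  obtain ⟨n, u, hu⟩ := IsDiscreteValuationRing.eq_unit_mul_pow_irreducible hb hirr
  rw [IsDiscreteValuationRing.addVal_def b u hirr n hu, hu]
  have hunit : IsUnit ((u : inertiaSub A B Γ) : B) := u.isUnit.map (inertiaSub A B Γ).val
  have h1 : (((u : inertiaSub A B Γ) * algebraMap A (inertiaSub A B Γ) ϖ ^ n :
      inertiaSub A B Γ) : B) = ((u : inertiaSub A B Γ) : B) * (algebraMap A B ϖ) ^ n := by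
    simp
  rw [h1, IsDiscreteValuationRing.addVal_mul, IsDiscreteValuationRing.addVal_pow, hvB,
    IsDiscreteValuationRing.addVal_eq_zero_iff.mpr hunit, zero_add]
  simp [mul_comm]

open scoped Pointwise in
theorem inertia_inertiaGp_eq_top :
    (maximalIdeal B).inertia (inertiaGp B Γ) = ⊤ := by
  rw [eq_top_iff]
  intro σ _
  exact Ideal.coe_mem_inertia.mp σ.2

open scoped Pointwise in
/-- `f(B/B') = 1`. -/
theorem inertiaDeg_inertiaSub :
    (maximalIdeal B).inertiaDeg (inertiaSub A B Γ) = 1 := by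
  have := isGaloisGroup_inertia A B Γ
  have := finite_residueField_inertiaSub A B Γ
  have := finite_residueField_ideal (inertiaSub A B Γ)
  have h := Ideal.card_stabilizer_eq_card_inertia_mul_finrank (G := inertiaGp B Γ)
    (maximalIdeal (inertiaSub A B Γ)) (maximalIdeal B)
  have hle := Ideal.inertia_le_stabilizer (M := inertiaGp B Γ) (maximalIdeal B)
  have heq := le_antisymm hle (by rw [inertia_inertiaGp_eq_top B Γ]; exact le_top)
  rw [← heq, inertia_inertiaGp_eq_top B Γ] at h
  have hpos : 0 < Nat.card (⊤ : Subgroup (inertiaGp B Γ)) := Nat.card_pos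
  have h4 : Nat.card (⊤ : Subgroup (inertiaGp B Γ)) * 1 =
      Nat.card (⊤ : Subgroup (inertiaGp B Γ)) *
        (maximalIdeal B).inertiaDeg (inertiaSub A B Γ) := by
    rw [mul_one]
    exact h
  exact (Nat.eq_of_mul_eq_mul_left hpos h4).symm

/-- **hres**: the residue fields of `B'` and `B` coincide: every `b ∈ B` is congruent modulo
`𝔪_B` to an element of `B'`. -/
theorem exists_sub_mem_maximalIdeal (b : B) :
    ∃ a : inertiaSub A B Γ, b - (a : B) ∈ maximalIdeal B := by
  have h1 := inertiaDeg_inertiaSub A B Γ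
  rw [Ideal.inertiaDeg_eq_of_isMaximal (maximalIdeal (inertiaSub A B Γ)) (maximalIdeal B)] at h1
  let : Field (inertiaSub A B Γ ⧸ maximalIdeal (inertiaSub A B Γ)) := Ideal.Quotient.field _
  let : Field (B ⧸ maximalIdeal B) := Ideal.Quotient.field _
  have h2 := Subalgebra.bot_eq_top_of_finrank_eq_one h1
  have h3 : Ideal.Quotient.mk (maximalIdeal B) b ∈
      (⊥ : Subalgebra (inertiaSub A B Γ ⧸ maximalIdeal (inertiaSub A B Γ))
        (B ⧸ maximalIdeal B)) := by
    rw [h2]
    exact Algebra.mem_top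
  rw [Algebra.mem_bot] at h3
  obtain ⟨x, hx⟩ := h3
  obtain ⟨a, rfl⟩ := Ideal.Quotient.mk_surjective x
  refine ⟨a, ?_⟩
  rw [← Ideal.Quotient.eq]
  rw [← hx]
  rfl

end Unram

end Fermat.Agent.S56.H287

end
end
-- ===== PACK-END S56/H287/StructInertia.lean

-- ===== PACK-BEGIN S56/H769/FLCyc.lean
section


/-!
# Row S56, wall W-FLAT-SS, piece FL-CYC (C4, abstract) — helper769

Mathlib only.  Main result: `Fermat.Agent.S56.H769.flCyc`, whose statement is verbatim the body
of `Fermat.Agent.S56.H846.FLCycStatement` (so `flCyc` proves that `Prop` by `exact`).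

## Proof

* `exists_cyclic_vector`: a linear endomorphism `A` of a finite-dimensional space such that on
  every `A`-stable subspace `U` no nonzero polynomial of degree `< dim U` kills `U` has all its
  stable subspaces cyclic (`U = K[A] v`).
* `twFrob`: `A x = d x^(p²)` on a finite field `κ`, linear over a subfield `F` fixed by
  `x ↦ x^(p²)`; `twFrob_indep`: if `p² ≤ |F|` and `d ≠ 0` the hypothesis above holds
  (a `p²`-linearised polynomial of degree `(p²)^(deg g)` has at most that many roots).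
* `exists_theta_submodule`: the image under `θ` of a subgroup `G ≤ W` stable under `τ₀` is a
  vector space over the subfield generated by `μ`.
* `flCyc`: `F = 𝔽_p(μ) ⊇ 𝔽_{p²}` because `ord μ = m > 2` divides `p + 1`; `φ²` acts on `θ(W)`
  through `A = twFrob` with `d = c^(1+p)`; a cyclic vector `θ(w₀)` of `θ(W)` does the job.
-/

set_option autoImplicit false
set_option linter.unusedSectionVars false

namespace Fermat.Agent.S56.H769

open Polynomial Module

section CycVec

variable {K E : Type*} [Field K] [AddCommGroup E] [Module K E]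

/-- Evaluation `g ↦ g(A) v`. -/
noncomputable def evalAt (A : Module.End K E) (v : E) : K[X] →ₗ[K] E :=
  (LinearMap.applyₗ v : Module.End K E →ₗ[K] E) ∘ₗ
    (aeval A : K[X] →ₐ[K] Module.End K E).toLinearMap

theorem evalAt_apply (A : Module.End K E) (v : E) (g : K[X]) : evalAt A v g = aeval A g v := rfl

/-- The cyclic submodule `K[A] v`. -/
noncomputable def cyc (A : Module.End K E) (v : E) : Submodule K E := LinearMap.range (evalAt A v)

theorem mem_cyc {A : Module.End K E} {v x : E} :
    x ∈ cyc A v ↔ ∃ g : K[X], aeval A g v = x := Iff.rfl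

theorem self_mem_cyc (A : Module.End K E) (v : E) : v ∈ cyc A v :=
  ⟨1, by rw [evalAt_apply, map_one, Module.End.one_apply]⟩

theorem pow_mem_of_stable {A : Module.End K E} {S : Submodule K E} (hS : ∀ x ∈ S, A x ∈ S)
    (n : ℕ) {x : E} (hx : x ∈ S) : (A ^ n) x ∈ S := by
  induction n with
  | zero => simpa using hx
  | succ n ih => rw [pow_succ', Module.End.mul_apply]; exact hS _ ih

theorem aeval_mem_of_stable {A : Module.End K E} {S : Submodule K E} (hS : ∀ x ∈ S, A x ∈ S)
    (g : K[X]) {x : E} (hx : x ∈ S) : aeval A g x ∈ S := by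
  rw [aeval_eq_sum_range, LinearMap.sum_apply]
  refine S.sum_mem fun i _ => ?_
  rw [LinearMap.smul_apply]
  exact S.smul_mem _ (pow_mem_of_stable hS i hx)

theorem cyc_le {A : Module.End K E} {S : Submodule K E} (hS : ∀ x ∈ S, A x ∈ S) {v : E}
    (hv : v ∈ S) : cyc A v ≤ S := by
  rintro x ⟨g, rfl⟩
  exact aeval_mem_of_stable hS g hv

theorem aeval_mul_apply (A : Module.End K E) (g h : K[X]) (x : E) :
    aeval A (g * h) x = aeval A g (aeval A h x) := by
  rw [map_mul, Module.End.mul_apply]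

theorem aeval_comm_apply (A : Module.End K E) (g h : K[X]) (x : E) :
    aeval A g (aeval A h x) = aeval A h (aeval A g x) := by
  rw [← aeval_mul_apply, ← aeval_mul_apply, mul_comm]

theorem aeval_X_apply (A : Module.End K E) (x : E) : aeval A (X : K[X]) x = A x := by
  rw [aeval_X]

theorem cyc_stable (A : Module.End K E) (v : E) : ∀ x ∈ cyc A v, A x ∈ cyc A v := by
  rintro x ⟨g, rfl⟩
  exact ⟨X * g, by rw [evalAt_apply, evalAt_apply, aeval_mul_apply, aeval_X]⟩

/-- Key step (F2): an `A`-stable `S ⊇ P(A) U` containing some `s ∈ U ∖ P(A) U` contains `U`,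
provided `dim (U ∩ ker P(A)) ≤ deg P`, `P` irreducible. -/
theorem le_of_not_mem_map [FiniteDimensional K E] (A : Module.End K E) (U : Submodule K E)
    (hU : ∀ x ∈ U, A x ∈ U) (P : K[X]) (hP : Irreducible P)
    (hN : finrank K (LinearMap.ker ((aeval A P).domRestrict U)) ≤ P.natDegree)
    (S : Submodule K E) (hS : ∀ x ∈ S, A x ∈ S) (hle : U.map (aeval A P) ≤ S)
    (s : E) (hsU : s ∈ U) (hsS : s ∈ S) (hs : s ∉ U.map (aeval A P)) : U ≤ S := by
  set U' := U.map (aeval A P) with hU'
  have hU'U : U' ≤ U := by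
    rintro _ ⟨y, hy, rfl⟩
    exact aeval_mem_of_stable hU P hy
  have hU'st : ∀ x ∈ U', A x ∈ U' := by
    rintro _ ⟨y, hy, rfl⟩
    refine ⟨A y, hU y hy, ?_⟩
    rw [← aeval_X_apply A y, aeval_comm_apply, aeval_X_apply]
  -- (★) no nonzero `g` of degree `< deg P` maps `s` into `U'`
  have hstar : ∀ g : K[X], g ≠ 0 → g.natDegree < P.natDegree → aeval A g s ∉ U' := by
    intro g hg0 hlt hmem
    have hndvd : ¬ P ∣ g := fun hdvd => by
      have := Polynomial.natDegree_le_of_dvd hdvd hg0
      omega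
    obtain ⟨a, b, hab⟩ := (hP.coprime_iff_not_dvd.2 hndvd)
    apply hs
    have h1 : s = aeval A (a * P) s + aeval A (b * g) s := by
      rw [← LinearMap.add_apply, ← map_add, hab, map_one, Module.End.one_apply]
    rw [h1]
    refine U'.add_mem ?_ ?_
    · rw [aeval_mul_apply]
      exact aeval_mem_of_stable hU'st a ⟨s, hsU, rfl⟩
    · rw [aeval_mul_apply]
      exact aeval_mem_of_stable hU'st b hmem
  -- the subspace `D` spanned by `g(A) s`, `deg g < deg P`
  set d := P.natDegree with hd
  set L : (degreeLT K d) →ₗ[K] E := (evalAt A s).domRestrict (degreeLT K d) with hL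
  have hLapply : ∀ g : degreeLT K d, L g = aeval A (g : K[X]) s := fun g => rfl
  have hdeg_lt : ∀ g : degreeLT K d, (g : K[X]) ≠ 0 → (g : K[X]).natDegree < d := by
    intro g hg0
    have := mem_degreeLT.1 g.2
    exact (natDegree_lt_iff_degree_lt hg0).2 this
  have hLinj : Function.Injective L := by
    rw [← LinearMap.ker_eq_bot, LinearMap.ker_eq_bot']
    intro g hg
    by_contra hg0
    have hg0' : (g : K[X]) ≠ 0 := fun h => hg0 (Subtype.ext h)
    exact hstar g hg0' (hdeg_lt g hg0') (by rw [← hLapply, hg]; exact U'.zero_mem)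
  set D := LinearMap.range L with hD
  have hDrank : finrank K D = d := by
    rw [hD, ← LinearEquiv.finrank_eq (LinearEquiv.ofInjective L hLinj),
      LinearEquiv.finrank_eq (degreeLTEquiv K d), Module.finrank_fin_fun]
  have hdisj : U' ⊓ D = ⊥ := by
    rw [eq_bot_iff]
    rintro x ⟨hxU', g, rfl⟩
    by_contra hx0
    have hg0' : (g : K[X]) ≠ 0 := by
      intro h
      apply hx0
      show L g ∈ (⊥ : Submodule K E)
      rw [hLapply, h, map_zero, LinearMap.zero_apply]
      exact Submodule.zero_mem _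
    exact hstar g hg0' (hdeg_lt g hg0') hxU'
  have hDU : D ≤ U := by
    rintro _ ⟨g, rfl⟩
    exact aeval_mem_of_stable hU _ hsU
  have hDS : D ≤ S := by
    rintro _ ⟨g, rfl⟩
    exact aeval_mem_of_stable hS _ hsS
  have hrank : finrank K (U' ⊔ D : Submodule K E) = finrank K U' + d := by
    have := Submodule.finrank_sup_add_finrank_inf_eq U' D
    rw [hdisj, finrank_bot, add_zero, hDrank] at this
    exact this
  have hrn : finrank K U' + finrank K (LinearMap.ker ((aeval A P).domRestrict U)) =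
      finrank K U := by
    have := LinearMap.finrank_range_add_finrank_ker ((aeval A P).domRestrict U)
    rwa [LinearMap.range_domRestrict] at this
  have hTU : U' ⊔ D ≤ U := sup_le hU'U hDU
  have heq : U' ⊔ D = U := by
    refine Submodule.eq_of_le_of_finrank_le hTU ?_
    rw [hrank, ← hrn]
    omega
  rw [← heq]
  exact sup_le hle hDS


/-- **Cyclic vector lemma.**  If on every `A`-stable subspace `U` no nonzero polynomial of
degree `< dim U` kills `U`, then every `A`-stable subspace is cyclic. -/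
theorem exists_cyclic_vector [FiniteDimensional K E] (A : Module.End K E)
    (hH : ∀ U : Submodule K E, (∀ x ∈ U, A x ∈ U) → ∀ g : K[X], g ≠ 0 →
      g.natDegree < finrank K U → ∃ x ∈ U, aeval A g x ≠ 0)
    (U : Submodule K E) (hU : ∀ x ∈ U, A x ∈ U) : ∃ v ∈ U, U ≤ cyc A v := by
  induction' hn : finrank K U using Nat.strong_induction_on with n ih generalizing U
  by_cases hbot : U = ⊥
  · exact ⟨0, U.zero_mem, by rw [hbot]; exact bot_le⟩
  obtain ⟨u, huU, hu0⟩ := Submodule.exists_mem_ne_zero_of_ne_bot hbot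
  classical
  -- a nonzero annihilating polynomial of `u` of minimal degree
  have hex : ∃ n, ∃ g : K[X], g ≠ 0 ∧ aeval A g u = 0 ∧ g.natDegree = n :=
    ⟨_, A.charpoly, (LinearMap.charpoly_monic A).ne_zero, by
      rw [LinearMap.aeval_self_charpoly]; rfl, rfl⟩
  obtain ⟨g, hg0, hgu, hgn⟩ := Nat.find_spec hex
  have hmin : ∀ h : K[X], h ≠ 0 → h.natDegree < g.natDegree → aeval A h u ≠ 0 := by
    intro h hh0 hlt hhu
    exact Nat.find_min hex (hgn ▸ hlt) ⟨h, hh0, hhu, rfl⟩
  have hgunit : ¬ IsUnit g := by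
    intro hunit
    obtain ⟨a, ha, rfl⟩ := Polynomial.isUnit_iff.1 hunit
    rw [aeval_C, Module.algebraMap_end_apply] at hgu
    exact hu0 ((smul_eq_zero.1 hgu).resolve_left ha.ne_zero)
  obtain ⟨P, hPirr, hPdvd⟩ := WfDvdMonoid.exists_irreducible_factor hgunit hg0
  obtain ⟨h, rfl⟩ := hPdvd
  have hh0 : h ≠ 0 := right_ne_zero_of_mul hg0
  have hP0 : P ≠ 0 := hPirr.ne_zero
  have hdeg : h.natDegree < (P * h).natDegree := by
    rw [natDegree_mul hP0 hh0]
    have := hPirr.natDegree_pos
    omega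
  have hu'0 : aeval A h u ≠ 0 := hmin h hh0 hdeg
  have hu'U : aeval A h u ∈ U := aeval_mem_of_stable hU h huU
  have hPu' : aeval A P (aeval A h u) = 0 := by
    rw [← aeval_mul_apply]; exact hgu
  -- `U' = P(A) U`, `N = U ∩ ker P(A)`
  set U' := U.map (aeval A P) with hU'
  have hU'U : U' ≤ U := by
    rintro _ ⟨y, hy, rfl⟩
    exact aeval_mem_of_stable hU P hy
  have hU'st : ∀ x ∈ U', A x ∈ U' := by
    rintro _ ⟨y, hy, rfl⟩
    refine ⟨A y, hU y hy, ?_⟩
    rw [← aeval_X_apply A y, aeval_comm_apply, aeval_X_apply]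
  set f := (aeval A P).domRestrict U with hf
  have hrn : finrank K U' + finrank K (LinearMap.ker f) = finrank K U := by
    have := LinearMap.finrank_range_add_finrank_ker f
    rwa [LinearMap.range_domRestrict] at this
  -- `N ≠ 0`
  have hkerpos : 0 < finrank K (LinearMap.ker f) := by
    rw [Module.finrank_pos_iff_exists_ne_zero]
    refine ⟨⟨⟨aeval A h u, hu'U⟩, ?_⟩, ?_⟩
    · rw [LinearMap.mem_ker]; exact hPu'
    · intro h0
      apply hu'0
      have := congrArg (fun x : LinearMap.ker f => ((x : U) : E)) h0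
      simpa using this
  -- `dim N ≤ deg P` from the hypothesis
  set N : Submodule K E := (LinearMap.ker f).map U.subtype with hNdef
  have hNrank : finrank K N = finrank K (LinearMap.ker f) :=
    Submodule.finrank_map_subtype_eq U (LinearMap.ker f)
  have hNmem : ∀ x, x ∈ N ↔ x ∈ U ∧ aeval A P x = 0 := by
    intro x
    constructor
    · rintro ⟨y, hy, rfl⟩
      exact ⟨y.2, LinearMap.mem_ker.1 hy⟩
    · rintro ⟨hxU, hx0⟩
      exact ⟨⟨x, hxU⟩, LinearMap.mem_ker.2 hx0, rfl⟩
  have hNst : ∀ x ∈ N, A x ∈ N := by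
    intro x hx
    rw [hNmem] at hx ⊢
    refine ⟨hU x hx.1, ?_⟩
    rw [← aeval_X_apply A x, aeval_comm_apply, hx.2, map_zero]
  have hNle : finrank K (LinearMap.ker f) ≤ P.natDegree := by
    by_contra hcon
    rw [not_le, ← hNrank] at hcon
    obtain ⟨x, hxN, hx⟩ := hH N hNst P hP0 hcon
    exact hx ((hNmem x).1 hxN).2
  -- induction hypothesis for `U'`
  obtain ⟨v', hv'U', hv'⟩ := ih (finrank K U') (by omega) U' hU'st rfl
  obtain ⟨v, hvU, hv⟩ := hv'U'
  -- every `w ∈ U` with `P(A) w = v'` outside `U'` is a cyclic vector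
  have hkey : ∀ w ∈ U, aeval A P w = v' → w ∉ U' → U ≤ cyc A w := by
    intro w hwU hw hwU'
    refine le_of_not_mem_map A U hU P hPirr hNle (cyc A w) (cyc_stable A w) ?_ w hwU
      (self_mem_cyc A w) hwU'
    refine hv'.trans (cyc_le (cyc_stable A w) ?_)
    exact ⟨P, hw⟩
  by_cases hvU' : v ∈ U'
  · by_cases huU' : v + aeval A h u ∈ U'
    · -- contradiction
      exfalso
      have hu'U' : aeval A h u ∈ U' := by
        have := U'.sub_mem huU' hvU'
        simpa using this
      obtain ⟨a, ha⟩ := hv' hvU'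
      obtain ⟨b, hb⟩ := hv' hu'U'
      rw [evalAt_apply, ← hv] at ha hb
      -- `u' = b(A) P(A) v = b(A) P(A) a(A) P(A) v = a(A) P(A) u' = 0`
      apply hu'0
      have h1 : aeval A h u = aeval A a (aeval A P (aeval A h u)) :=
        calc aeval A h u = aeval A b (aeval A P v) := hb.symm
          _ = aeval A b (aeval A P (aeval A a (aeval A P v))) := by rw [ha]
          _ = aeval A a (aeval A P (aeval A b (aeval A P v))) := by
              simp only [← aeval_mul_apply]
              congr 2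
              ring
          _ = aeval A a (aeval A P (aeval A h u)) := by rw [hb]
      rw [h1, hPu', map_zero]
    · refine ⟨v + aeval A h u, U.add_mem hvU hu'U, hkey _ (U.add_mem hvU hu'U) ?_ huU'⟩
      rw [map_add, hPu', add_zero]
      exact hv
  · exact ⟨v, hvU, hkey v hvU hv hvU'⟩

end CycVec

section FiniteField

variable {κ : Type*} [Field κ] (p : ℕ) [Fact p.Prime] [CharP κ p]

/-- The twisted Frobenius `x ↦ d x^(p²)`, linear over a subfield fixed by `x ↦ x^(p²)`. -/
noncomputable def twFrob (F : Subfield κ) (hF : ∀ k ∈ F, k ^ (p ^ 2) = k) (d : κ) :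
    Module.End F κ where
  toFun x := d * x ^ (p ^ 2)
  map_add' x y := by rw [add_pow_char_pow, mul_add]
  map_smul' k x := by
    simp only [RingHom.id_apply]
    rw [Algebra.smul_def, Algebra.smul_def, mul_pow]
    show d * ((k : κ) ^ (p ^ 2) * x ^ (p ^ 2)) = (k : κ) * (d * x ^ (p ^ 2))
    rw [hF k k.2]
    ring

theorem twFrob_apply (F : Subfield κ) (hF : ∀ k ∈ F, k ^ (p ^ 2) = k) (d x : κ) :
    twFrob p F hF d x = d * x ^ (p ^ 2) := rfl

/-- The constants `dᵢ` with `Aⁱ x = dᵢ x^(qⁱ)`. -/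
def dseq (d : κ) : ℕ → κ
  | 0 => 1
  | (i + 1) => d * dseq d i ^ (p ^ 2)

theorem dseq_ne_zero {d : κ} (hd : d ≠ 0) (i : ℕ) : dseq p d i ≠ 0 := by
  induction i with
  | zero => exact one_ne_zero
  | succ i ih => exact mul_ne_zero hd (pow_ne_zero _ ih)

theorem twFrob_pow_apply (F : Subfield κ) (hF : ∀ k ∈ F, k ^ (p ^ 2) = k) (d x : κ) (i : ℕ) :
    (twFrob p F hF d ^ i) x = dseq p d i * x ^ ((p ^ 2) ^ i) := by
  induction i with
  | zero => simp [dseq]
  | succ i ih =>
    rw [pow_succ', Module.End.mul_apply, ih, twFrob_apply, dseq, mul_pow, ← pow_mul, pow_succ]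
    ring

/-- The `p²`-linearised polynomial attached to `g`. -/
noncomputable def linPoly (F : Subfield κ) (d : κ) (g : F[X]) : κ[X] :=
  ∑ i ∈ Finset.range (g.natDegree + 1), C ((g.coeff i : κ) * dseq p d i) * X ^ ((p ^ 2) ^ i)

theorem eval_linPoly (F : Subfield κ) (hF : ∀ k ∈ F, k ^ (p ^ 2) = k) (d : κ) (g : F[X])
    (x : κ) : (linPoly p F d g).eval x = aeval (twFrob p F hF d) g x := by
  rw [linPoly, eval_finsetSum, aeval_eq_sum_range, LinearMap.sum_apply]
  refine Finset.sum_congr rfl fun i _ => ?_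
  rw [LinearMap.smul_apply, twFrob_pow_apply, eval_mul, eval_C, eval_pow, eval_X,
    Algebra.smul_def]
  show _ = (g.coeff i : κ) * _
  ring

theorem natDegree_linPoly_le (F : Subfield κ) (d : κ) (g : F[X]) :
    (linPoly p F d g).natDegree ≤ (p ^ 2) ^ g.natDegree := by
  rw [linPoly]
  refine natDegree_sum_le_of_forall_le _ _ fun i hi => ?_
  refine (natDegree_C_mul_X_pow_le _ _).trans ?_
  have hp : 1 ≤ p ^ 2 := Nat.one_le_pow _ _ (Fact.out : p.Prime).pos
  exact Nat.pow_le_pow_right hp (Nat.lt_succ_iff.1 (Finset.mem_range.1 hi))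

theorem linPoly_ne_zero (F : Subfield κ) {d : κ} (hd : d ≠ 0) {g : F[X]} (hg : g ≠ 0) :
    linPoly p F d g ≠ 0 := by
  intro h0
  have hcoeff : (linPoly p F d g).coeff ((p ^ 2) ^ g.natDegree) =
      (g.coeff g.natDegree : κ) * dseq p d g.natDegree := by
    rw [linPoly, finsetSum_coeff]
    rw [Finset.sum_eq_single g.natDegree]
    · rw [coeff_C_mul_X_pow, if_pos rfl]
    · intro i _ hi
      rw [coeff_C_mul_X_pow, if_neg]
      intro heq
      have hp2 : 2 ≤ p ^ 2 := by
        have := (Fact.out : p.Prime).two_le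
        nlinarith
      exact hi (Nat.pow_right_injective hp2 heq).symm
    · intro hn
      exact absurd (Finset.mem_range.2 (Nat.lt_succ_self _)) hn
  rw [h0, coeff_zero] at hcoeff
  have h1 : (g.coeff g.natDegree : κ) ≠ 0 := by
    intro h
    have : g.coeff g.natDegree = 0 := Subtype.ext h
    exact hg (leadingCoeff_eq_zero.1 this)
  exact mul_ne_zero h1 (dseq_ne_zero p hd _) hcoeff.symm

/-- Hypothesis (H) of the cyclic vector lemma for the twisted Frobenius. -/
theorem twFrob_indep [Finite κ] (F : Subfield κ) (hF : ∀ k ∈ F, k ^ (p ^ 2) = k)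
    (hcard : p ^ 2 ≤ Nat.card F) {d : κ} (hd : d ≠ 0)
    (U : Submodule F κ) (g : F[X]) (hg : g ≠ 0) (hlt : g.natDegree < finrank F U) :
    ∃ x ∈ U, aeval (twFrob p F hF d) g x ≠ 0 := by
  classical
  by_contra hcon
  push Not at hcon
  have : Fintype κ := Fintype.ofFinite κ
  have hQ0 := linPoly_ne_zero p F hd hg
  have hroots : ((U : Set κ).toFinset).val ⊆ (linPoly p F d g).roots := by
    intro x hx
    rw [Finset.mem_val, Set.mem_toFinset] at hx
    rw [mem_roots hQ0, IsRoot, eval_linPoly p F hF]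
    exact hcon x hx
  have h1 := card_le_degree_of_subset_roots hroots
  have h2 := natDegree_linPoly_le p F d g
  have h3 : ((U : Set κ).toFinset).card = Nat.card F ^ finrank F U := by
    rw [Set.toFinset_card, ← Nat.card_eq_fintype_card]
    exact Module.natCard_eq_pow_finrank (K := F) (V := U)
  have h4 : (p ^ 2) ^ (g.natDegree + 1) ≤ Nat.card F ^ finrank F U := by
    calc (p ^ 2) ^ (g.natDegree + 1) ≤ (p ^ 2) ^ finrank F U :=
          Nat.pow_le_pow_right (Nat.one_le_pow _ _ (Fact.out : p.Prime).pos) hlt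
      _ ≤ Nat.card F ^ finrank F U := Nat.pow_le_pow_left hcard _
  have h5 : (p ^ 2) ^ g.natDegree < (p ^ 2) ^ (g.natDegree + 1) := by
    have hp2 : 2 ≤ p ^ 2 := by
      have := (Fact.out : p.Prime).two_le
      nlinarith
    exact Nat.pow_lt_pow_right hp2 (Nat.lt_succ_self _)
  omega

end FiniteField

section Assembly

variable {κ : Type*} [Field κ]

/-- The image `θ(G)` of a subgroup `G ≤ W` stable under conjugation by `τ₀` is a vector space
over the subfield generated by `μ`. -/
theorem exists_theta_submodule [Finite κ] {Γ : Type*} [Group Γ] (W : Subgroup Γ) (τ₀ : Γ)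
    (θ : Γ → κ) (μ : κ)
    (hadd : ∀ w ∈ W, ∀ w' ∈ W, θ (w * w') = θ w + θ w')
    (hτ : ∀ w ∈ W, θ (τ₀ * w * τ₀⁻¹) = μ * θ w)
    (G : Subgroup Γ) (hGW : G ≤ W) (hGτ : ∀ h ∈ G, τ₀ * h * τ₀⁻¹ ∈ G) :
    ∃ S : Submodule (Subfield.closure ({μ} : Set κ)) κ, ∀ x, x ∈ S ↔ ∃ g ∈ G, θ g = x := by
  classical
  have h1 : θ 1 = 0 := by
    have := hadd 1 W.one_mem 1 W.one_mem
    rw [mul_one] at this
    exact left_eq_add.1 this
  have hinv : ∀ w ∈ W, θ w⁻¹ = -θ w := by
    intro w hw
    have := hadd w hw w⁻¹ (W.inv_mem hw)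
    rw [mul_inv_cancel, h1] at this
    exact eq_neg_of_add_eq_zero_right this.symm
  let T : AddSubgroup κ :=
    { carrier := {x | ∃ g ∈ G, θ g = x}
      zero_mem' := ⟨1, G.one_mem, h1⟩
      add_mem' := by
        rintro _ _ ⟨g, hg, rfl⟩ ⟨g', hg', rfl⟩
        exact ⟨g * g', G.mul_mem hg hg', hadd g (hGW hg) g' (hGW hg')⟩
      neg_mem' := by
        rintro _ ⟨g, hg, rfl⟩
        exact ⟨g⁻¹, G.inv_mem hg, hinv g (hGW hg)⟩ }
  have hTmem : ∀ x, x ∈ T ↔ ∃ g ∈ G, θ g = x := fun x => Iff.rfl
  have hpow : ∀ a : κ, (∀ x ∈ T, a * x ∈ T) → ∀ n : ℕ, ∀ x ∈ T, a ^ n * x ∈ T := by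
    intro a ha n
    induction n with
    | zero => intro x hx; simpa using hx
    | succ n ih =>
      intro x hx
      rw [pow_succ, mul_assoc]
      exact ih _ (ha x hx)
  have hsmul : ∀ k ∈ Subfield.closure ({μ} : Set κ), ∀ x ∈ T, k * x ∈ T := by
    intro k hk
    induction hk using Subfield.closure_induction with
    | mem k hk =>
      rintro _ ⟨g, hg, rfl⟩
      rw [Set.mem_singleton_iff] at hk
      subst hk
      exact ⟨τ₀ * g * τ₀⁻¹, hGτ g hg, hτ g (hGW hg)⟩
    | one => intro x hx; simpa using hx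
    | add a b _ _ ha hb =>
      intro x hx
      rw [add_mul]
      exact T.add_mem (ha x hx) (hb x hx)
    | neg a _ ha =>
      intro x hx
      rw [neg_mul]
      exact T.neg_mem (ha x hx)
    | inv a _ ha =>
      intro x hx
      by_cases ha0 : a = 0
      · rw [ha0, inv_zero, zero_mul]
        exact T.zero_mem
      · have : Fintype κ := Fintype.ofFinite κ
        have h2 := FiniteField.pow_card_sub_one_eq_one a ha0
        have hinv' : a⁻¹ = a ^ (Fintype.card κ - 1 - 1) := by
          have hc : 2 ≤ Fintype.card κ := Fintype.one_lt_card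
          have h3 : a ^ (Fintype.card κ - 1 - 1) * a = 1 := by
            rw [← pow_succ]
            have : Fintype.card κ - 1 - 1 + 1 = Fintype.card κ - 1 := by omega
            rw [this, h2]
          exact (eq_inv_of_mul_eq_one_left h3).symm
        rw [hinv']
        exact hpow a ha _ x hx
    | mul a b _ _ ha hb =>
      intro x hx
      rw [mul_assoc]
      exact ha _ (hb x hx)
  refine ⟨{ T with smul_mem' := ?_ }, fun x => Iff.rfl⟩
  intro k x hx
  rw [Algebra.smul_def]
  exact hsmul k k.2 x hx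

/-- **FL-CYC** (C4, abstract): verbatim the body of `Fermat.Agent.S56.H846.FLCycStatement`
(`Fermat/Agent/S56/H846/FLCnt/Spec.lean`).  `κ` a finite field of characteristic `p`,
`θ : W ↪ κ` additive, tame inertia acting through multiplication by `μ` of exact order `m`,
`2 < m ∣ p + 1`, Frobenius acting `p`-semilinearly.  Then `W` is generated, as a group normalised
by `τ₀` and `φ²`, by a single element. -/
theorem flCyc :
    ∀ (p : ℕ) [Fact p.Prime] (Γ : Type) [Group Γ] [Finite Γ] (κ : Type) [Field κ] [Finite κ]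
      [CharP κ p] (W : Subgroup Γ) (τ₀ φ : Γ) (θ : Γ → κ) (μ c : κ) (m : ℕ),
      W.Normal →
      (∀ w ∈ W, ∀ w' ∈ W, θ (w * w') = θ w + θ w') →
      (∀ w ∈ W, θ w = 0 → w = 1) →
      (∀ w ∈ W, θ (τ₀ * w * τ₀⁻¹) = μ * θ w) →
      (∀ w ∈ W, θ (φ * w * φ⁻¹) = c * θ w ^ p) →
      (∀ j : ℕ, μ ^ j = 1 ↔ m ∣ j) → m ∣ p + 1 → 2 < m →
      ∃ w₀ ∈ W, ∀ H : Subgroup Γ, w₀ ∈ H → (∀ h ∈ H, τ₀ * h * τ₀⁻¹ ∈ H) →
        (∀ h ∈ H, φ ^ 2 * h * (φ ^ 2)⁻¹ ∈ H) → W ≤ H := by
  intro p _ Γ _ _ κ _ _ _ W τ₀ φ θ μ c m hW hadd hinj hτ hφ hμ hm hm2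
  classical
  by_cases hbot : W = ⊥
  · exact ⟨1, W.one_mem, fun H _ _ _ => by rw [hbot]; exact bot_le⟩
  obtain ⟨w₁, hw₁W, hw₁⟩ : ∃ w ∈ W, w ≠ 1 := (Subgroup.ne_bot_iff_exists_ne_one).1 hbot |>.elim
    fun w hw => ⟨w.1, w.2, fun h => hw (Subtype.ext h)⟩
  have hp := (Fact.out : p.Prime)
  have h1 : θ 1 = 0 := by
    have := hadd 1 W.one_mem 1 W.one_mem
    rw [mul_one] at this
    exact left_eq_add.1 this
  have hinv : ∀ w ∈ W, θ w⁻¹ = -θ w := by
    intro w hw
    have := hadd w hw w⁻¹ (W.inv_mem hw)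
    rw [mul_inv_cancel, h1] at this
    exact eq_neg_of_add_eq_zero_right this.symm
  have hc : c ≠ 0 := by
    intro hc0
    have h2 := hφ w₁ hw₁W
    rw [hc0, zero_mul] at h2
    have h3 := hinj _ (hW.conj_mem w₁ hw₁W φ) h2
    apply hw₁
    have h4 : w₁ = φ⁻¹ * (φ * w₁ * φ⁻¹) * φ := by group
    rw [h4, h3]
    group
  have hμm : μ ^ m = 1 := (hμ m).2 dvd_rfl
  have hμ0 : μ ≠ 0 := by
    intro h0
    rw [h0, zero_pow (by omega)] at hμm
    exact zero_ne_one hμm
  obtain ⟨q, hq⟩ : ∃ q, p = q + 1 := ⟨p - 1, by have := hp.pos; omega⟩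
  have hμp2 : μ ^ (p ^ 2) = μ := by
    have h2 : p ^ 2 = (p + 1) * q + 1 := by rw [hq]; ring
    rw [h2, pow_succ, (hμ _).2 (Dvd.dvd.mul_right hm q), one_mul]
  have hμp : μ ^ p ≠ μ := by
    intro h
    rw [hq, pow_succ] at h
    have h2 : μ ^ q = 1 := mul_right_cancel₀ hμ0 (h.trans (one_mul μ).symm)
    have h3 : m ∣ q := (hμ q).1 h2
    have h4 : m ∣ 2 := by
      have h5 := Nat.dvd_sub hm h3
      have h6 : p + 1 - q = 2 := by omega
      rwa [h6] at h5
    have := Nat.le_of_dvd (by norm_num) h4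
    omega
  set F : Subfield κ := Subfield.closure ({μ} : Set κ) with hFdef
  have hF : ∀ k ∈ F, k ^ (p ^ 2) = k := by
    intro k hk
    have hle : F ≤ RingHom.eqLocusField (iterateFrobenius κ p 2) (RingHom.id κ) := by
      rw [hFdef, Subfield.closure_le]
      intro x hx
      rw [Set.mem_singleton_iff] at hx
      subst hx
      show iterateFrobenius κ p 2 x = x
      rw [iterateFrobenius_def]
      exact hμp2
    have h2 : iterateFrobenius κ p 2 k = k := hle hk
    rwa [iterateFrobenius_def] at h2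
  have hcard : p ^ 2 ≤ Nat.card F := by
    have : Fintype F := Fintype.ofFinite F
    obtain ⟨n, -, hn⟩ := FiniteField.card F p
    rw [Nat.card_eq_fintype_card, hn]
    have hn2 : 2 ≤ (n : ℕ) := by
      by_contra hlt
      have hn1 : (n : ℕ) = 1 := by have := n.pos; omega
      rw [hn1, pow_one] at hn
      have h2 := FiniteField.pow_card (⟨μ, Subfield.subset_closure rfl⟩ : F)
      rw [hn] at h2
      exact hμp (congrArg Subtype.val h2)
    exact Nat.pow_le_pow_right hp.pos hn2
  set d : κ := c * c ^ p with hd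
  have hd0 : d ≠ 0 := mul_ne_zero hc (pow_ne_zero _ hc)
  have hφ2 : ∀ w ∈ W, θ (φ ^ 2 * w * (φ ^ 2)⁻¹) = d * θ w ^ (p ^ 2) := by
    intro w hw
    have e : φ ^ 2 * w * (φ ^ 2)⁻¹ = φ * (φ * w * φ⁻¹) * φ⁻¹ := by
      rw [pow_two, mul_inv_rev]
      simp only [mul_assoc]
    rw [e, hφ _ (hW.conj_mem w hw φ), hφ w hw, mul_pow, ← pow_mul, hd, pow_two, mul_assoc]
  set A := twFrob p F hF d with hA
  have key : ∀ G : Subgroup Γ, G ≤ W → (∀ h ∈ G, τ₀ * h * τ₀⁻¹ ∈ G) →
      (∀ h ∈ G, φ ^ 2 * h * (φ ^ 2)⁻¹ ∈ G) →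
      ∃ S : Submodule F κ, (∀ x, x ∈ S ↔ ∃ g ∈ G, θ g = x) ∧ ∀ x ∈ S, A x ∈ S := by
    intro G hGW hGτ hGφ
    obtain ⟨S, hS⟩ := exists_theta_submodule W τ₀ θ μ hadd hτ G hGW hGτ
    refine ⟨S, hS, ?_⟩
    intro x hx
    obtain ⟨g, hg, rfl⟩ := (hS x).1 hx
    rw [hS]
    exact ⟨φ ^ 2 * g * (φ ^ 2)⁻¹, hGφ g hg, by rw [hφ2 g (hGW hg)]; rfl⟩
  obtain ⟨SW, hSW, hSWst⟩ := key W le_rfl (fun h hh => hW.conj_mem h hh τ₀)
    (fun h hh => hW.conj_mem h hh (φ ^ 2))
  have hfd : FiniteDimensional F κ := Module.Finite.of_finite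
  obtain ⟨v₀, hv₀, hv₀cyc⟩ := exists_cyclic_vector A
    (fun U _ g hg hlt => twFrob_indep p F hF hcard hd0 U g hg hlt) SW hSWst
  obtain ⟨w₀, hw₀, rfl⟩ := (hSW v₀).1 hv₀
  refine ⟨w₀, hw₀, ?_⟩
  intro H hw₀H hHτ hHφ
  obtain ⟨SH, hSH, hSHst⟩ := key (H ⊓ W) inf_le_right
    (fun h hh => ⟨hHτ h hh.1, hW.conj_mem h hh.2 τ₀⟩)
    (fun h hh => ⟨hHφ h hh.1, hW.conj_mem h hh.2 (φ ^ 2)⟩)
  have hle : SW ≤ SH := hv₀cyc.trans (cyc_le hSHst ((hSH _).2 ⟨w₀, ⟨hw₀H, hw₀⟩, rfl⟩))
  intro w hw
  obtain ⟨h, hh, hθ⟩ := (hSH _).1 (hle ((hSW _).2 ⟨w, hw, rfl⟩))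
  have h2 : θ (w * h⁻¹) = 0 := by
    rw [hadd w hw h⁻¹ (W.inv_mem hh.2), hinv h hh.2, hθ, add_neg_cancel]
  have h3 := hinj _ (W.mul_mem hw (W.inv_mem hh.2)) h2
  rw [mul_inv_eq_one] at h3
  rw [h3]
  exact hh.1

end Assembly

end Fermat.Agent.S56.H769

end
-- ===== PACK-END S56/H769/FLCyc.lean

-- ===== PACK-BEGIN S56/H334/RamMono.lean
section


/-!
# S56 / W-FLAT-SS, piece FL-RAM (helper334), part 4: finite extensions of DVRs are monogenic

`A ⊆ B` discrete valuation rings, `B` finite over `A`, residue field extension separable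
(e.g. `A` has finite residue field).  Then `B = A[x]` for some `x`
(Serre, Local Fields III §6 Prop. 12).  No completeness is needed.

* `exists_adjoin_eq_top_of_isSeparable` : the general statement.
* `finite_residueField_of_finite` : `κ_B` is finite if `κ_A` is.
* `exists_adjoin_eq_top_of_finite` : the statement for a finite residue field.
-/

set_option autoImplicit false

open IsLocalRing Polynomial

namespace Fermat.Agent.S56.H334

section Monogenic

variable (A B : Type*) [CommRing A] [IsDomain A] [IsDiscreteValuationRing A]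
  [CommRing B] [IsDomain B] [IsDiscreteValuationRing B] [Algebra A B] [Module.Finite A B]
  [FaithfulSMul A B]

/-- A uniformizer-valued polynomial expression exists: there are `x : B` and `g : A[X]` such that
`x` generates the residue field and `g(x)` is a uniformizer of `B`. -/
theorem exists_aeval_irreducible [Algebra.IsSeparable (ResidueField A) (ResidueField B)] :
    ∃ (x : B) (g : A[X]), Algebra.adjoin (ResidueField A) {residue B x} = ⊤ ∧
      Irreducible (aeval x g) := by
  obtain ⟨β₀, hβ₀⟩ := Field.exists_primitive_element (ResidueField A) (ResidueField B)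
  obtain ⟨x₀, hx₀⟩ := residue_surjective (R := B) β₀
  have hadj : Algebra.adjoin (ResidueField A) {β₀} = ⊤ := by
    rw [← IntermediateField.adjoin_simple_toSubalgebra_of_isAlgebraic (IsAlgebraic.of_finite _ _),
      hβ₀, IntermediateField.top_toSubalgebra]
  obtain ⟨g, hg⟩ := Polynomial.map_surjective _ (residue_surjective (R := A))
    (minpoly (ResidueField A) β₀)
  obtain ⟨ϖ, hϖ⟩ := IsDiscreteValuationRing.exists_irreducible B
  -- residues of `g(x)` and `g'(x)`
  have hres : ∀ x : B, residue B x = β₀ → residue B (aeval x g) = 0 := by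
    intro x hx
    rw [map_aeval_eq_aeval_map (ψ := residue B) (φ := residue A) rfl, hg, hx, minpoly.aeval]
  have hres' : ∀ x : B, residue B x = β₀ → IsUnit (aeval x (derivative g)) := by
    intro x hx
    apply (residue_ne_zero_iff_isUnit _).mp
    rw [map_aeval_eq_aeval_map (ψ := residue B) (φ := residue A) rfl, ← derivative_map, hg, hx]
    exact (Algebra.IsSeparable.isSeparable _ _).aeval_derivative_ne_zero (minpoly.aeval _ _)
  have hmem : ∀ x : B, residue B x = β₀ → ϖ ∣ aeval x g := by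
    intro x hx
    have h := hres x hx
    rw [residue_eq_zero_iff, hϖ.maximalIdeal_eq, Ideal.mem_span_singleton] at h
    exact h
  have hirr : ∀ y : B, ϖ ∣ y → ¬ ϖ ^ 2 ∣ y → Irreducible y := by
    rintro y ⟨u, rfl⟩ h2
    have hu : IsUnit u := by
      by_contra hu
      have hmem : u ∈ maximalIdeal B := (mem_maximalIdeal u).2 hu
      rw [hϖ.maximalIdeal_eq, Ideal.mem_span_singleton] at hmem
      exact h2 (by rw [pow_two]; exact mul_dvd_mul_left _ hmem)
    exact (associated_mul_unit_left ϖ u hu).symm.irreducible hϖ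
  by_cases h2 : ϖ ^ 2 ∣ aeval x₀ g
  · -- replace `x₀` by `x₀ + ϖ`
    have hx₁ : residue B (x₀ + ϖ) = β₀ := by
      rw [map_add, hx₀, (residue_eq_zero_iff ϖ).2 (by
        rw [hϖ.maximalIdeal_eq]; exact Ideal.mem_span_singleton_self ϖ), add_zero]
    refine ⟨x₀ + ϖ, g, by rw [hx₁]; exact hadj, hirr _ (hmem _ hx₁) ?_⟩
    intro h
    obtain ⟨k, hk⟩ := Polynomial.binomExpansion (g.map (algebraMap A B)) x₀ ϖ
    rw [eval_map_algebraMap, eval_map_algebraMap, derivative_map, eval_map_algebraMap] at hk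
    rw [hk] at h
    have h3 : ϖ ^ 2 ∣ aeval x₀ (derivative g) * ϖ := by
      have h4 := (Dvd.dvd.mul_left (dvd_refl (ϖ ^ 2)) k)
      have h5 := dvd_sub (dvd_sub h h4) h2
      have : aeval x₀ g + aeval x₀ (derivative g) * ϖ + k * ϖ ^ 2 - k * ϖ ^ 2 - aeval x₀ g
          = aeval x₀ (derivative g) * ϖ := by ring
      rwa [this] at h5
    rw [pow_two, mul_comm (aeval x₀ (derivative g))] at h3
    have h6 : ϖ ∣ aeval x₀ (derivative g) := (mul_dvd_mul_iff_left hϖ.ne_zero).1 h3
    exact hϖ.not_isUnit (isUnit_of_dvd_unit h6 (hres' x₀ hx₀))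
  · exact ⟨x₀, g, by rw [hx₀]; exact hadj, hirr _ (hmem _ hx₀) h2⟩

/-- **Monogenicity** (Serre, Local Fields III §6 Prop. 12): a finite extension of discrete
valuation rings with separable residue field extension is generated by one element. -/
theorem exists_adjoin_eq_top_of_isSeparable
    [Algebra.IsSeparable (ResidueField A) (ResidueField B)] :
    ∃ x : B, Algebra.adjoin A {x} = ⊤ := by
  obtain ⟨x, g, hx, hy⟩ := exists_aeval_irreducible A B
  refine ⟨x, ?_⟩
  set C := Algebra.adjoin A {x} with hC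
  set y := aeval x g with hy_def
  have hyC : y ∈ C := by
    rw [hC, Algebra.adjoin_singleton_eq_range_aeval]; exact ⟨g, rfl⟩
  -- step 1: `B = C + y B`
  have step1 : ∀ b : B, ∃ c ∈ C, ∃ b' : B, b = c + y * b' := by
    intro b
    rw [Algebra.adjoin_singleton_eq_range_aeval, AlgHom.range_eq_top] at hx
    obtain ⟨qb, hqb⟩ := hx (residue B b)
    obtain ⟨q, rfl⟩ := Polynomial.map_surjective _ (residue_surjective (R := A)) qb
    rw [← map_aeval_eq_aeval_map (ψ := residue B) (φ := residue A) rfl] at hqb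
    have hmem : b - aeval x q ∈ maximalIdeal B := by
      rw [← residue_eq_zero_iff, map_sub, hqb, sub_self]
    rw [hy.maximalIdeal_eq, Ideal.mem_span_singleton] at hmem
    obtain ⟨b', hb'⟩ := hmem
    refine ⟨aeval x q, ?_, b', by rw [← hb']; ring⟩
    rw [hC, Algebra.adjoin_singleton_eq_range_aeval]; exact ⟨q, rfl⟩
  -- step 2: `B = C + y ^ n B`
  have step2 : ∀ (n : ℕ) (b : B), ∃ c ∈ C, ∃ b' : B, b = c + y ^ n * b' := by
    intro n
    induction n with
    | zero => intro b; exact ⟨0, C.zero_mem, b, by simp⟩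
    | succ n ih =>
      intro b
      obtain ⟨c, hc, b', rfl⟩ := ih b
      obtain ⟨c', hc', b'', rfl⟩ := step1 b'
      exact ⟨c + y ^ n * c', C.add_mem hc (C.mul_mem (C.pow_mem hyC n) hc'), b'', by ring⟩
  -- step 3: `y ^ e ∈ 𝔪_A B`
  obtain ⟨π, hπ⟩ := IsDiscreteValuationRing.exists_irreducible A
  have hπ0 : algebraMap A B π ≠ 0 := by
    rw [Ne, FaithfulSMul.algebraMap_eq_zero_iff]; exact hπ.ne_zero
  obtain ⟨e, he⟩ := IsDiscreteValuationRing.associated_pow_irreducible hπ0 hy
  obtain ⟨u, hu⟩ := he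
  -- Nakayama
  refine eq_top_iff.mpr <| Submodule.le_of_le_smul_of_le_jacobson_bot
    (Module.finite_def.mp inferInstance) (IsLocalRing.maximalIdeal_le_jacobson ⊥)
    (?_ : ⊤ ≤ (Algebra.adjoin A {x}).toSubmodule ⊔ maximalIdeal A • ⊤)
  intro b _
  obtain ⟨c, hc, b', rfl⟩ := step2 e b
  rw [Ideal.smul_top_eq_map]
  refine Submodule.mem_sup.mpr ⟨c, hc, y ^ e * b', ?_, rfl⟩
  rw [Submodule.restrictScalars_mem, ← hu, mul_assoc]
  exact Ideal.mul_mem_right _ _ (Ideal.mem_map_of_mem _ (by
    rw [hπ.maximalIdeal_eq]; exact Ideal.mem_span_singleton_self π))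

/-- The residue field of `B` is finite if that of `A` is. -/
theorem finite_residueField_of_finite [Finite (ResidueField A)] : Finite (ResidueField B) :=
  Module.finite_of_finite (ResidueField A)

/-- **Monogenicity** for a finite residue field. -/
theorem exists_adjoin_eq_top_of_finite [Finite (ResidueField A)] :
    ∃ x : B, Algebra.adjoin A {x} = ⊤ := by
  have : Finite (ResidueField B) := finite_residueField_of_finite A B
  have : Algebra.IsSeparable (ResidueField A) (ResidueField B) :=
    Algebra.IsAlgebraic.isSeparable_of_perfectField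
  exact exists_adjoin_eq_top_of_isSeparable A B

end Monogenic

end Fermat.Agent.S56.H334

end
-- ===== PACK-END S56/H334/RamMono.lean

-- ===== PACK-BEGIN Lib/Cheb/H281/FrobGen.lean
section


/-!
# Frobenius elements generate the decomposition group at unramified primes

Setting of `Mathlib/RingTheory/Frobenius.lean`: a finite group `G` acts on a commutative ring `S`
with invariants `R`, `Q` is a prime of `S` with finite residue field.

* `stabilizer_le_zpowers_mul_inertia`: every element of the decomposition group of `Q` is a power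
  of a Frobenius element times an element of the inertia group.
* `zpowers_eq_stabilizer`: if the inertia group of `Q` is trivial, a Frobenius element at `Q`
  generates the decomposition group `MulAction.stabilizer G Q`.
-/

set_option autoImplicit false

open scoped Pointwise

namespace Fermat.Agent.Lib.Cheb.H281

variable {R S G : Type*} [CommRing R] [CommRing S] [Algebra R S] [Group G]
  [MulSemiringAction G S] [SMulCommClass G R S]

/-- The `n`-th power of a Frobenius element acts as `x ↦ x ^ (q ^ n)` modulo `Q`. -/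
theorem isArithFrobAt_pow_apply {Q : Ideal S} [Q.IsPrime] {φ : G} (hφ : IsArithFrobAt R φ Q)
    (n : ℕ) (x : S) :
    Ideal.Quotient.mk Q ((φ ^ n) • x) =
      Ideal.Quotient.mk Q x ^ (Nat.card (R ⧸ Q.under R) ^ n) := by
  induction n generalizing x with
  | zero => simp
  | succ n ih =>
    rw [pow_succ', mul_smul]
    have h1 : Ideal.Quotient.mk Q (φ • (φ ^ n • x)) =
        Ideal.Quotient.mk Q (φ ^ n • x) ^ Nat.card (R ⧸ Q.under R) := by
      have := hφ.mk_apply (φ ^ n • x)
      simpa using this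
    rw [h1, ih, ← pow_mul, pow_succ]

attribute [local instance] Ideal.Quotient.field in
/-- Every element of the decomposition group acts on the residue field as a power of the
Frobenius. -/
theorem exists_pow_of_mem_stabilizer {Q : Ideal S} [Q.IsPrime] [Finite (S ⧸ Q)]
    {τ : G} (hτ : τ ∈ MulAction.stabilizer G Q) :
    ∃ n : ℕ, ∀ x : S, Ideal.Quotient.mk Q (τ • x) =
      Ideal.Quotient.mk Q x ^ (Nat.card (R ⧸ Q.under R) ^ n) := by
  classical
  let P := Q.under R
  have : Q.IsMaximal := Ideal.Quotient.maximal_of_isField _ (Finite.isField_of_domain (S ⧸ Q))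
  have : Finite (R ⧸ P) := .of_injective _ Ideal.algebraMap_quotient_injective
  have : P.IsMaximal := Ideal.Quotient.maximal_of_isField _ (Finite.isField_of_domain (R ⧸ P))
  cases nonempty_fintype (R ⧸ P)
  obtain ⟨n, hn⟩ := (FiniteField.bijective_frobeniusAlgEquivOfAlgebraic_pow (R ⧸ P) (S ⧸ Q)).2
    (Ideal.Quotient.stabilizerHom Q P G ⟨τ, hτ⟩)
  refine ⟨n.1, fun x ↦ ?_⟩
  have := DFunLike.congr_fun hn (Ideal.Quotient.mk Q x)
  simp only [AlgEquiv.coe_pow, FiniteField.coe_frobeniusAlgEquivOfAlgebraic_iterate] at this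
  rw [Nat.card_eq_fintype_card]
  exact this.symm

/-- Every element of the decomposition group of `Q` is a power of a given Frobenius element at
`Q` times an element of the inertia group. -/
theorem exists_pow_mul_mem_inertia {Q : Ideal S} [Q.IsPrime] [Finite (S ⧸ Q)]
    {φ : G} (hφ : IsArithFrobAt R φ Q) {τ : G} (hτ : τ ∈ MulAction.stabilizer G Q) :
    ∃ n : ℕ, (φ ^ n)⁻¹ * τ ∈ Q.inertia G := by
  obtain ⟨n, hn⟩ := exists_pow_of_mem_stabilizer (R := R) hτ
  refine ⟨n, fun x ↦ ?_⟩
  -- `(φ^n)⁻¹ τ x - x ∈ Q`  iff  `τ x - φ^n x ∈ φ^n Q = Q`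
  have hφn : φ ^ n ∈ MulAction.stabilizer G Q := Subgroup.pow_mem _ hφ.mem_stabilizer n
  have h1 : τ • x - φ ^ n • x ∈ Q := by
    rw [← Ideal.Quotient.eq, hn, isArithFrobAt_pow_apply hφ]
  have h2 : (φ ^ n)⁻¹ • (τ • x - φ ^ n • x) ∈ (φ ^ n)⁻¹ • Q :=
    Ideal.smul_mem_pointwise_smul _ _ _ h1
  have h3 : (φ ^ n)⁻¹ • Q = Q := by
    have := MulAction.mem_stabilizer_iff.mp (Subgroup.inv_mem _ hφn)
    exact this
  rw [h3, smul_sub, inv_smul_smul, ← mul_smul] at h2
  exact h2

/-- **Frobenius generates the decomposition group at unramified primes.**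
If the inertia group of `Q` is trivial, any Frobenius element at `Q` generates the
decomposition group of `Q`. -/
theorem zpowers_eq_stabilizer {Q : Ideal S} [Q.IsPrime] [Finite (S ⧸ Q)]
    {φ : G} (hφ : IsArithFrobAt R φ Q) (hI : Q.inertia G = ⊥) :
    Subgroup.zpowers φ = MulAction.stabilizer G Q := by
  refine le_antisymm ((Subgroup.zpowers_le).mpr hφ.mem_stabilizer) fun τ hτ ↦ ?_
  obtain ⟨n, hn⟩ := exists_pow_mul_mem_inertia hφ hτ
  rw [hI, Subgroup.mem_bot, inv_mul_eq_one] at hn
  exact hn ▸ Subgroup.pow_mem _ (Subgroup.mem_zpowers φ) n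

end Fermat.Agent.Lib.Cheb.H281

end
-- ===== PACK-END Lib/Cheb/H281/FrobGen.lean

-- ===== PACK-BEGIN S56/P3/H769/Lines.lean
section


/-!
# S56 / P3, piece SPAN (helper769), part 1: lines in a plane and a Clifford-type lemma

* `scalar_of_three_lines` : an endomorphism of a 2-dimensional space preserving three distinct
  lines is a scalar;
* `irr_of_normal_cyclic` : let `r : Γ →* End_K U`, `dim U = 2`, `K` algebraically closed, be
  irreducible and irreducible on every subgroup of index 2, and let `Δ ⊴ Γ` have cyclic quotient;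
  then `r|_Δ` is irreducible.
-/

set_option autoImplicit false
set_option linter.style.haveILetI false

namespace Fermat.Agent.S56.P3.H769

open Module

section Lines

variable {K : Type*} [Field K] {U : Type*} [AddCommGroup U] [Module K U]

/-- A proper nonzero subspace of a plane is spanned by any of its nonzero vectors. -/
theorem exists_smul_eq_of_mem [FiniteDimensional K U] (h2 : finrank K U = 2)
    {W : Submodule K U} (hbot : W ≠ ⊥) (htop : W ≠ ⊤) {u : U} (hu : u ∈ W) (hu0 : u ≠ 0)
    {x : U} (hx : x ∈ W) : ∃ c : K, x = c • u := by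
  have h1 : finrank K W = 1 := by
    have hlt := Submodule.finrank_lt htop
    have hpos : 0 < finrank K W := by
      rw [Module.finrank_pos_iff]
      exact (Submodule.nontrivial_iff_ne_bot).mpr hbot
    omega
  have hu0' : (⟨u, hu⟩ : W) ≠ 0 := fun h => hu0 (congrArg Subtype.val h)
  obtain ⟨c, hc⟩ := (finrank_eq_one_iff_of_nonzero' (⟨u, hu⟩ : W) hu0').mp h1 ⟨x, hx⟩
  exact ⟨c, (congrArg Subtype.val hc).symm⟩

/-- Two lines of a plane sharing a nonzero vector are equal. -/
theorem eq_of_mem_of_mem [FiniteDimensional K U] (h2 : finrank K U = 2)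
    {W W' : Submodule K U} (hbot : W ≠ ⊥) (htop : W ≠ ⊤) (hbot' : W' ≠ ⊥) (htop' : W' ≠ ⊤)
    {z : U} (hz : z ∈ W) (hz' : z ∈ W') (hz0 : z ≠ 0) : W = W' := by
  apply le_antisymm
  · intro x hx
    obtain ⟨c, rfl⟩ := exists_smul_eq_of_mem h2 hbot htop hz hz0 hx
    exact W'.smul_mem c hz'
  · intro x hx
    obtain ⟨c, rfl⟩ := exists_smul_eq_of_mem h2 hbot' htop' hz' hz0 hx
    exact W.smul_mem c hz

/-- An endomorphism of a plane which preserves three distinct lines is a scalar. -/
theorem scalar_of_three_lines [FiniteDimensional K U] (h2 : finrank K U = 2)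
    (T : Module.End K U) {W₁ W₂ W₃ : Submodule K U}
    (h12 : W₁ ≠ W₂) (h13 : W₁ ≠ W₃) (h23 : W₂ ≠ W₃)
    (b1 : W₁ ≠ ⊥) (t1 : W₁ ≠ ⊤) (b2 : W₂ ≠ ⊥) (t2 : W₂ ≠ ⊤) (b3 : W₃ ≠ ⊥) (t3 : W₃ ≠ ⊤)
    (s1 : ∀ x ∈ W₁, T x ∈ W₁) (s2 : ∀ x ∈ W₂, T x ∈ W₂) (s3 : ∀ x ∈ W₃, T x ∈ W₃) :
    ∃ c : K, ∀ x, T x = c • x := by
  obtain ⟨u, hu, hu0⟩ := Submodule.exists_mem_ne_zero_of_ne_bot b1
  obtain ⟨v, hv, hv0⟩ := Submodule.exists_mem_ne_zero_of_ne_bot b2
  obtain ⟨w, hw, hw0⟩ := Submodule.exists_mem_ne_zero_of_ne_bot b3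
  have hli : LinearIndependent K ![u, v] := by
    rw [LinearIndependent.pair_iff]
    intro s t hst
    by_contra hne
    have hs : s ≠ 0 := by
      intro hs0
      rw [hs0, zero_smul, zero_add] at hst
      rcases smul_eq_zero.mp hst with h | h
      · exact hne ⟨hs0, h⟩
      · exact hv0 h
    have hu2 : u ∈ W₂ := by
      have h1 : s • u = -(t • v) := eq_neg_of_add_eq_zero_left hst
      have h3 : u = (-(s⁻¹ * t)) • v := by
        calc u = s⁻¹ • (s • u) := by rw [smul_smul, inv_mul_cancel₀ hs, one_smul]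
          _ = s⁻¹ • (-(t • v)) := by rw [h1]
          _ = (-(s⁻¹ * t)) • v := by rw [smul_neg, smul_smul, neg_smul]
      rw [h3]
      exact W₂.smul_mem _ hv
    exact h12 (eq_of_mem_of_mem h2 b1 t1 b2 t2 hu hu2 hu0)
  have hspan : Submodule.span K (Set.range ![u, v]) = ⊤ :=
    hli.span_eq_top_of_card_eq_finrank' (by simp [h2])
  have hmem : ∀ x : U, ∃ a b : K, a • u + b • v = x := by
    intro x
    have hx : x ∈ Submodule.span K (Set.range ![u, v]) := by rw [hspan]; trivial
    have hr : Set.range ![u, v] = {u, v} := by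
      ext y
      simp only [Set.mem_range, Set.mem_insert_iff, Set.mem_singleton_iff]
      constructor
      · rintro ⟨i, rfl⟩
        fin_cases i
        · left; rfl
        · right; rfl
      · rintro (rfl | rfl)
        · exact ⟨0, rfl⟩
        · exact ⟨1, rfl⟩
    rw [hr] at hx
    exact Submodule.mem_span_pair.mp hx
  obtain ⟨α, hα⟩ := exists_smul_eq_of_mem h2 b1 t1 hu hu0 (s1 u hu)
  obtain ⟨β, hβ⟩ := exists_smul_eq_of_mem h2 b2 t2 hv hv0 (s2 v hv)
  obtain ⟨γ, hγ⟩ := exists_smul_eq_of_mem h2 b3 t3 hw hw0 (s3 w hw)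
  obtain ⟨a, b, hab⟩ := hmem w
  have ha : a ≠ 0 := by
    intro ha0
    rw [ha0, zero_smul, zero_add] at hab
    have hw2 : w ∈ W₂ := by rw [← hab]; exact W₂.smul_mem _ hv
    exact h23 (eq_of_mem_of_mem h2 b2 t2 b3 t3 hw2 hw hw0)
  have hb : b ≠ 0 := by
    intro hb0
    rw [hb0, zero_smul, add_zero] at hab
    have hw1 : w ∈ W₁ := by rw [← hab]; exact W₁.smul_mem _ hu
    exact h13 (eq_of_mem_of_mem h2 b1 t1 b3 t3 hw1 hw hw0)
  have hTw : a • (α • u) + b • (β • v) = γ • (a • u + b • v) := by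
    rw [← hα, ← hβ, ← map_smul, ← map_smul, ← map_add, hab, hγ]
  have hzero : (a * α - γ * a) • u + (b * β - γ * b) • v = 0 := by
    have h0 := sub_eq_zero.mpr hTw
    rw [← h0]
    simp only [smul_add, smul_smul, sub_smul]
    abel
  obtain ⟨h1, h2'⟩ := (LinearIndependent.pair_iff.mp hli) _ _ hzero
  have hαγ : α = γ := by
    have : a * (α - γ) = 0 := by linear_combination h1
    rcases mul_eq_zero.mp this with h | h
    · exact absurd h ha
    · exact sub_eq_zero.mp h
  have hβγ : β = γ := by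
    have : b * (β - γ) = 0 := by linear_combination h2'
    rcases mul_eq_zero.mp this with h | h
    · exact absurd h hb
    · exact sub_eq_zero.mp h
  refine ⟨γ, fun x => ?_⟩
  obtain ⟨s, t, rfl⟩ := hmem x
  rw [map_add, map_smul, map_smul, hα, hβ, hαγ, hβγ, smul_add, smul_comm s γ u,
    smul_comm t γ v]

end Lines

section Clifford

variable {K : Type*} [Field K] {U : Type*} [AddCommGroup U] [Module K U]
variable {Γ : Type*} [Group Γ] (r : Γ →* Module.End K U)

theorem r_inv_apply (g : Γ) (x : U) : r g⁻¹ (r g x) = x := by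
  have h : r g⁻¹ * r g = 1 := by rw [← map_mul, inv_mul_cancel, map_one]
  exact congrArg (fun f : Module.End K U => f x) h

theorem r_apply_inv (g : Γ) (x : U) : r g (r g⁻¹ x) = x := by
  have h : r g * r g⁻¹ = 1 := by rw [← map_mul, mul_inv_cancel, map_one]
  exact congrArg (fun f : Module.End K U => f x) h

theorem r_injective (g : Γ) : Function.Injective (r g) :=
  Function.LeftInverse.injective (r_inv_apply r g)

theorem map_r_mul (g h : Γ) (W : Submodule K U) :
    W.map (r (g * h)) = (W.map (r h)).map (r g) := by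
  rw [map_mul, Module.End.mul_eq_comp, Submodule.map_comp]

theorem map_r_one (W : Submodule K U) : W.map (r 1) = W := by
  rw [map_one]
  exact Submodule.map_id W

/-- The stabiliser of a subspace. -/
def stab (W : Submodule K U) : Subgroup Γ where
  carrier := {g | W.map (r g) = W}
  one_mem' := map_r_one r W
  mul_mem' := by
    intro a b ha hb
    show W.map (r (a * b)) = W
    rw [map_r_mul, hb, ha]
  inv_mem' := by
    intro a ha
    show W.map (r a⁻¹) = W
    have h1 : W.map (r a⁻¹) = (W.map (r a)).map (r a⁻¹) := by rw [ha]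
    rw [h1, ← map_r_mul, inv_mul_cancel, map_r_one]

theorem mem_stab {W : Submodule K U} {g : Γ} : g ∈ stab r W ↔ W.map (r g) = W := Iff.rfl

theorem mem_stab_of_stable {W : Submodule K U} {g : Γ} (h : ∀ x ∈ W, r g x ∈ W)
    (h' : ∀ x ∈ W, r g⁻¹ x ∈ W) : g ∈ stab r W := by
  rw [mem_stab]
  apply le_antisymm
  · rintro _ ⟨x, hx, rfl⟩
    exact h x hx
  · intro x hx
    exact ⟨r g⁻¹ x, h' x hx, r_apply_inv r g x⟩

theorem stable_of_mem_stab {W : Submodule K U} {g : Γ} (hg : g ∈ stab r W) (x : U)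
    (hx : x ∈ W) : r g x ∈ W := by
  have h : W.map (r g) = W := hg
  rw [← h]
  exact Submodule.mem_map_of_mem hx

theorem map_r_ne_bot {W : Submodule K U} (hbot : W ≠ ⊥) (g : Γ) : W.map (r g) ≠ ⊥ := by
  intro h
  apply hbot
  rw [Submodule.eq_bot_iff] at h ⊢
  intro x hx
  exact r_injective r g ((h _ (Submodule.mem_map_of_mem hx)).trans (map_zero _).symm)

theorem map_r_ne_top {W : Submodule K U} (htop : W ≠ ⊤) (g : Γ) : W.map (r g) ≠ ⊤ := by
  intro h
  apply htop
  rw [Submodule.eq_top_iff'] at h ⊢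
  intro x
  obtain ⟨y, hy, hyx⟩ := h (r g x)
  rwa [← r_injective r g hyx]

variable [IsAlgClosed K] [FiniteDimensional K U]

/-- **Clifford-type lemma.**  If `r` is irreducible, irreducible on every subgroup of index 2, and
`Δ` is a normal subgroup with cyclic quotient, then `r|_Δ` is irreducible (`dim U = 2`, `K`
algebraically closed). -/
theorem irr_of_normal_cyclic (h2 : finrank K U = 2) (Δ : Subgroup Γ) [hΔn : Δ.Normal]
    (hcyc : IsCyclic (Γ ⧸ Δ))
    (hirr : ∀ W : Submodule K U, (∀ g : Γ, ∀ x ∈ W, r g x ∈ W) → W = ⊥ ∨ W = ⊤)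
    (htw : ∀ G : Subgroup Γ, G.index = 2 → ∀ W : Submodule K U,
      (∀ g ∈ G, ∀ x ∈ W, r g x ∈ W) → W = ⊥ ∨ W = ⊤)
    (W : Submodule K U) (hW : ∀ δ ∈ Δ, ∀ x ∈ W, r δ x ∈ W) : W = ⊥ ∨ W = ⊤ := by
  by_contra hcon
  push Not at hcon
  obtain ⟨hbot, htop⟩ := hcon
  have htransΔ : ∀ g : Γ, ∀ δ ∈ Δ, ∀ x ∈ W.map (r g), r δ x ∈ W.map (r g) := by
    intro g δ hδ x hx
    obtain ⟨y, hy, rfl⟩ := Submodule.mem_map.mp hx
    have hconj : g⁻¹ * δ * g ∈ Δ := by
      have := hΔn.conj_mem δ hδ g⁻¹
      simpa using this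
    have h3 : r δ (r g y) = r g (r (g⁻¹ * δ * g) y) := by
      have h4 : r δ * r g = r g * r (g⁻¹ * δ * g) := by
        rw [← map_mul, ← map_mul]
        congr 1
        group
      exact congrArg (fun f : Module.End K U => f y) h4
    rw [h3]
    exact Submodule.mem_map_of_mem (hW _ hconj y hy)
  by_cases h1 : ∀ g, W.map (r g) = W
  · rcases hirr W (fun g x hx => stable_of_mem_stab r (h1 g) x hx) with h | h
    exacts [hbot h, htop h]
  · push Not at h1
    obtain ⟨g₀, hg₀⟩ := h1
    by_cases h2' : ∀ g, W.map (r g) = W ∨ W.map (r g) = W.map (r g₀)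
    · have hidx : (stab r W).index = 2 := by
        rw [Subgroup.index_eq_two_iff]
        refine ⟨g₀, fun b => ?_⟩
        have hinj : Function.Injective (Submodule.map (r b)) :=
          Submodule.map_injective_of_injective (r_injective r b)
        rcases h2' b with hb | hb
        · right
          refine ⟨hb, fun hbg => ?_⟩
          have h5 : W.map (r (b * g₀)) = W := hbg
          rw [map_r_mul] at h5
          exact hg₀ (hinj (h5.trans hb.symm))
        · left
          refine ⟨?_, fun hb' => ?_⟩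
          · show W.map (r (b * g₀)) = W
            rcases h2' (b * g₀) with h | h
            · exact h
            · exfalso
              rw [map_r_mul] at h
              exact hg₀ (hinj (h.trans hb.symm))
          · have hb'' : W.map (r b) = W := hb'
            exact hg₀ (hb.symm.trans hb'')
      rcases htw (stab r W) hidx W (fun g hg x hx => stable_of_mem_stab r hg x hx) with h | h
      exacts [hbot h, htop h]
    · push Not at h2'
      obtain ⟨g₁, hg₁, hg₁'⟩ := h2'
      have hscal : ∀ δ ∈ Δ, ∃ c : K, ∀ x, r δ x = c • x := fun δ hδ =>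
        scalar_of_three_lines h2 (r δ) (Ne.symm hg₀) (Ne.symm hg₁) (Ne.symm hg₁')
          hbot htop (map_r_ne_bot r hbot g₀) (map_r_ne_top r htop g₀)
          (map_r_ne_bot r hbot g₁) (map_r_ne_top r htop g₁)
          (hW δ hδ) (htransΔ g₀ δ hδ) (htransΔ g₁ δ hδ)
      haveI : Nontrivial U := Module.nontrivial_of_finrank_pos (R := K) (by rw [h2]; norm_num)
      obtain ⟨xbar, hxbar⟩ := IsCyclic.exists_generator (α := Γ ⧸ Δ)
      obtain ⟨γ₀, rfl⟩ := QuotientGroup.mk_surjective xbar
      obtain ⟨μ, hμ⟩ := Module.End.exists_eigenvalue (r γ₀)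
      obtain ⟨e, he⟩ := hμ.exists_hasEigenvector
      have he0 : e ≠ 0 := he.2
      have heq : r γ₀ e = μ • e := he.apply_eq_smul
      have hμ0 : μ ≠ 0 := by
        intro h0
        rw [h0, zero_smul] at heq
        exact he0 (r_injective r γ₀ (heq.trans (map_zero _).symm))
      have heq' : r γ₀⁻¹ e = μ⁻¹ • e := by
        have h6 : r γ₀⁻¹ (r γ₀ e) = e := r_inv_apply r γ₀ e
        rw [heq, map_smul] at h6
        calc r γ₀⁻¹ e = μ⁻¹ • (μ • r γ₀⁻¹ e) := by rw [smul_smul, inv_mul_cancel₀ hμ0, one_smul]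
          _ = μ⁻¹ • e := by rw [h6]
      have hγ₀ : γ₀ ∈ stab r (Submodule.span K {e}) := by
        refine mem_stab_of_stable r (fun x hx => ?_) (fun x hx => ?_)
        · obtain ⟨c, rfl⟩ := Submodule.mem_span_singleton.mp hx
          rw [map_smul, heq]
          exact Submodule.smul_mem _ _ (Submodule.smul_mem _ _ (Submodule.mem_span_singleton_self e))
        · obtain ⟨c, rfl⟩ := Submodule.mem_span_singleton.mp hx
          rw [map_smul, heq']
          exact Submodule.smul_mem _ _ (Submodule.smul_mem _ _ (Submodule.mem_span_singleton_self e))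
      have hΔL : Δ ≤ stab r (Submodule.span K {e}) := by
        intro δ hδ
        refine mem_stab_of_stable r (fun x hx => ?_) (fun x hx => ?_)
        · obtain ⟨c, hc⟩ := hscal δ hδ
          rw [hc]
          exact Submodule.smul_mem _ _ hx
        · obtain ⟨c, hc⟩ := hscal δ⁻¹ (Δ.inv_mem hδ)
          rw [hc]
          exact Submodule.smul_mem _ _ hx
      have hall : ∀ g : Γ, g ∈ stab r (Submodule.span K {e}) := by
        intro g
        obtain ⟨n, hn⟩ := Subgroup.mem_zpowers_iff.mp (hxbar (g : Γ ⧸ Δ))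
        have h7 : ((γ₀ ^ n : Γ) : Γ ⧸ Δ) = (g : Γ ⧸ Δ) := by
          rw [QuotientGroup.mk_zpow]
          exact hn
        have hmem : (γ₀ ^ n)⁻¹ * g ∈ Δ := QuotientGroup.eq.mp h7
        have h8 : g = γ₀ ^ n * ((γ₀ ^ n)⁻¹ * g) := by group
        rw [h8]
        exact (stab r _).mul_mem ((stab r _).zpow_mem hγ₀ n) (hΔL hmem)
      rcases hirr (Submodule.span K {e}) (fun g x hx => stable_of_mem_stab r (hall g) x hx)
        with h | h
      · exact he0 (Submodule.span_singleton_eq_bot.mp h)
      · have h9 := finrank_span_singleton (K := K) he0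
        rw [h, finrank_top, h2] at h9
        omega

end Clifford

end Fermat.Agent.S56.P3.H769

end
-- ===== PACK-END S56/P3/H769/Lines.lean

-- ===== PACK-BEGIN S56/H831/GWAbstract.lean
section


/-!
# Row S56, tangent bound (TB) — the abstract Greenberg–Wiles inequalities (helper831)

Pure linear algebra over a field `k`, Mathlib only.  No perfectness of any pairing is used, only
"reciprocity" (`B (loc x) (loc' y) = 0`).

* `perp B L` — the annihilator in `P'` of `L ≤ P` under a pairing `B : P → P' → k`.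
* `gw_abstract` — for `loc : H → P`, `loc' : H' → P'` with `B (loc x) (loc' y) = 0`:
  `dim loc⁻¹(L) + dim H' ≤ dim ker loc + dim L + dim loc'⁻¹(L^⊥)`.
  (Selmer group `loc⁻¹ L`, dual Selmer group `loc'⁻¹ (L^⊥)`, `ker loc = Ш¹`.)
* `comparison_abstract` — for `u : X → U` and an injective `lam : D → Dual U` with
  `lam d (u x) = 0`:  `dim X + dim D ≤ dim ker u + dim U`.
  (`X = t_Q`, `ker u = t_∅`, `U = ⊕_{q ∈ Q} H¹(G_q)/H¹_ur`, `D` = dual Selmer frame killed by `Q`.)
* `tangent_le_card` — the bookkeeping: `dim X₀ ≤ dim D`, `dim U ≤ n` ⟹ `dim X ≤ n`.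
-/

set_option autoImplicit false

open Module

namespace Fermat.Agent.S56.H831

variable {k : Type*} [Field k]

section Perp

variable {P P' : Type*} [AddCommGroup P] [Module k P] [AddCommGroup P'] [Module k P']

/-- The annihilator in `P'` of a subspace `L ≤ P` under the pairing `B`. -/
def perp (B : P →ₗ[k] P' →ₗ[k] k) (L : Submodule k P) : Submodule k P' where
  carrier := {y | ∀ x ∈ L, B x y = 0}
  add_mem' := fun {a b} ha hb x hx => by
    rw [map_add, ha x hx, hb x hx, add_zero]
  zero_mem' := fun x _ => by rw [map_zero]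
  smul_mem' := fun c y hy x hx => by
    rw [map_smul, hy x hx, smul_zero]

@[simp] theorem mem_perp {B : P →ₗ[k] P' →ₗ[k] k} {L : Submodule k P} {y : P'} :
    y ∈ perp B L ↔ ∀ x ∈ L, B x y = 0 := Iff.rfl

theorem perp_antitone (B : P →ₗ[k] P' →ₗ[k] k) {L L' : Submodule k P} (h : L ≤ L') :
    perp B L' ≤ perp B L := fun _ hy x hx => hy x (h hx)

end Perp

section GW

variable {H H' P P' : Type*} [AddCommGroup H] [Module k H] [AddCommGroup H'] [Module k H']
  [AddCommGroup P] [Module k P] [AddCommGroup P'] [Module k P']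

/-- The restriction-and-pair map `H' → Dual L`, `y ↦ (x ↦ B x (loc' y))`. -/
def pairRestrict (B : P →ₗ[k] P' →ₗ[k] k) (loc' : H' →ₗ[k] P') (L : Submodule k P) :
    H' →ₗ[k] Dual k L where
  toFun y := (B.flip (loc' y)).comp L.subtype
  map_add' a b := by
    ext x
    simp
  map_smul' c a := by
    ext x
    simp

@[simp] theorem pairRestrict_apply (B : P →ₗ[k] P' →ₗ[k] k) (loc' : H' →ₗ[k] P')
    (L : Submodule k P) (y : H') (x : L) :
    pairRestrict B loc' L y x = B (x : P) (loc' y) := rfl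

theorem ker_pairRestrict (B : P →ₗ[k] P' →ₗ[k] k) (loc' : H' →ₗ[k] P') (L : Submodule k P) :
    LinearMap.ker (pairRestrict B loc' L) = (perp B L).comap loc' := by
  ext y
  simp only [LinearMap.mem_ker, Submodule.mem_comap, mem_perp]
  constructor
  · intro h x hx
    have := LinearMap.congr_fun h ⟨x, hx⟩
    simpa using this
  · intro h
    ext x
    simpa using h x x.2

/-- A space with finite-dimensional kernel and range is finite-dimensional. -/
theorem finiteDimensional_of_ker_range {X Y : Type*} [AddCommGroup X] [Module k X]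
    [AddCommGroup Y] [Module k Y] (f : X →ₗ[k] Y) [FiniteDimensional k (LinearMap.ker f)]
    [FiniteDimensional k (LinearMap.range f)] : FiniteDimensional k X := by
  have : Module.Finite k (X ⧸ LinearMap.ker f) :=
    Module.Finite.equiv f.quotKerEquivRange.symm
  exact Module.Finite.of_submodule_quotient (LinearMap.ker f)

/-- **Abstract Greenberg–Wiles inequality** (reciprocity only, no perfectness):
`dim loc⁻¹(L) + dim H' ≤ dim ker loc + dim L + dim loc'⁻¹(L^⊥)`. -/
theorem gw_abstract [FiniteDimensional k H']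
    (loc : H →ₗ[k] P) (loc' : H' →ₗ[k] P') (B : P →ₗ[k] P' →ₗ[k] k)
    (hrec : ∀ x y, B (loc x) (loc' y) = 0)
    (L : Submodule k P) [FiniteDimensional k L] [FiniteDimensional k (LinearMap.ker loc)] :
    finrank k (L.comap loc) + finrank k H'
      ≤ finrank k (LinearMap.ker loc) + finrank k L + finrank k ((perp B L).comap loc') := by
  classical
  -- the restriction of `loc` to the Selmer group, with values in `L`
  let f : L.comap loc →ₗ[k] L := loc.restrict (p := L.comap loc) (q := L) (fun x hx => hx)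
  have hf : ∀ x : L.comap loc, ((f x : L) : P) = loc (x : H) := fun x => rfl
  -- its kernel injects into `ker loc`
  have hmem : ∀ x : LinearMap.ker f, ((x : L.comap loc) : H) ∈ LinearMap.ker loc := by
    intro x
    have hx : f (x : L.comap loc) = 0 := x.2
    have h2 := congrArg (Subtype.val : L → P) hx
    rw [hf] at h2
    rw [LinearMap.mem_ker, h2]
    rfl
  let e : LinearMap.ker f →ₗ[k] LinearMap.ker loc :=
    { toFun := fun x => ⟨((x : L.comap loc) : H), hmem x⟩
      map_add' := fun a b => rfl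
      map_smul' := fun c a => rfl }
  have he : Function.Injective e := by
    intro a b hab
    have h2 : (((a : L.comap loc) : H)) = (((b : L.comap loc) : H)) :=
      congrArg (Subtype.val : LinearMap.ker loc → H) hab
    exact Subtype.ext (Subtype.ext h2)
  have hker : finrank k (LinearMap.ker f) ≤ finrank k (LinearMap.ker loc) :=
    LinearMap.finrank_le_finrank_of_injective he
  have hfin1 : FiniteDimensional k (LinearMap.ker f) := FiniteDimensional.of_injective e he
  have hfin2 : FiniteDimensional k (L.comap loc) := finiteDimensional_of_ker_range f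
  have hrn : finrank k (LinearMap.range f) + finrank k (LinearMap.ker f)
      = finrank k (L.comap loc) := LinearMap.finrank_range_add_finrank_ker f
  -- the pairing map `ψ : H' → Dual L`
  let ψ : H' →ₗ[k] Dual k L := pairRestrict B loc' L
  have hψ : finrank k (LinearMap.range ψ) + finrank k (LinearMap.ker ψ) = finrank k H' :=
    LinearMap.finrank_range_add_finrank_ker ψ
  have hkerψ : finrank k (LinearMap.ker ψ) = finrank k ((perp B L).comap loc') := by
    rw [ker_pairRestrict]
  -- `range ψ` annihilates `range f`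
  have hle : LinearMap.range ψ ≤ (LinearMap.range f).dualAnnihilator := by
    rintro _ ⟨y, rfl⟩
    rw [Submodule.mem_dualAnnihilator]
    rintro _ ⟨x, rfl⟩
    change B ((f x : L) : P) (loc' y) = 0
    rw [hf]
    exact hrec _ _
  have hann : finrank k (LinearMap.range f) + finrank k (LinearMap.range f).dualAnnihilator
      = finrank k L := Subspace.finrank_add_finrank_dualAnnihilator_eq _
  have hmono : finrank k (LinearMap.range ψ) ≤ finrank k (LinearMap.range f).dualAnnihilator :=
    Submodule.finrank_mono hle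
  omega

/-- The minimal Greenberg–Wiles inequality from the base case
`dim ker loc + dim L ≤ dim H'`: `dim loc⁻¹(L) ≤ dim loc'⁻¹(L^⊥)`. -/
theorem gw_min_abstract [FiniteDimensional k H']
    (loc : H →ₗ[k] P) (loc' : H' →ₗ[k] P') (B : P →ₗ[k] P' →ₗ[k] k)
    (hrec : ∀ x y, B (loc x) (loc' y) = 0)
    (L : Submodule k P) [FiniteDimensional k L] [FiniteDimensional k (LinearMap.ker loc)]
    (hbase : finrank k (LinearMap.ker loc) + finrank k L ≤ finrank k H') :
    finrank k (L.comap loc) ≤ finrank k ((perp B L).comap loc') := by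
  have := gw_abstract loc loc' B hrec L
  omega

end GW

section Comparison

variable {X U D : Type*} [AddCommGroup X] [Module k X] [AddCommGroup U] [Module k U]
  [AddCommGroup D] [Module k D]

/-- **Abstract comparison step**: if `u : X → U` and the injective `lam : D → Dual U` satisfy
`lam d (u x) = 0`, then `dim X + dim D ≤ dim ker u + dim U`. -/
theorem comparison_abstract [FiniteDimensional k U]
    (u : X →ₗ[k] U) (lam : D →ₗ[k] Dual k U) (hlam : Function.Injective lam)
    (hrec : ∀ d x, lam d (u x) = 0) [FiniteDimensional k (LinearMap.ker u)] :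
    finrank k X + finrank k D ≤ finrank k (LinearMap.ker u) + finrank k U := by
  classical
  have hfinX : FiniteDimensional k X := finiteDimensional_of_ker_range u
  have hrn : finrank k (LinearMap.range u) + finrank k (LinearMap.ker u) = finrank k X :=
    LinearMap.finrank_range_add_finrank_ker u
  have hfinD : FiniteDimensional k D := FiniteDimensional.of_injective lam hlam
  have hD : finrank k (LinearMap.range lam) = finrank k D :=
    LinearMap.finrank_range_of_inj hlam
  have hle : LinearMap.range lam ≤ (LinearMap.range u).dualAnnihilator := by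
    rintro _ ⟨d, rfl⟩
    rw [Submodule.mem_dualAnnihilator]
    rintro _ ⟨x, rfl⟩
    exact hrec d x
  have hann : finrank k (LinearMap.range u) + finrank k (LinearMap.range u).dualAnnihilator
      = finrank k U := Subspace.finrank_add_finrank_dualAnnihilator_eq _
  have hmono : finrank k (LinearMap.range lam) ≤ finrank k (LinearMap.range u).dualAnnihilator :=
    Submodule.finrank_mono hle
  omega

/-- Bookkeeping for the tangent bound: comparison + minimal inequality + `dim U ≤ n`. -/
theorem tangent_le_card [FiniteDimensional k U]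
    (u : X →ₗ[k] U) (lam : D →ₗ[k] Dual k U) (hlam : Function.Injective lam)
    (hrec : ∀ d x, lam d (u x) = 0) [FiniteDimensional k (LinearMap.ker u)]
    (hmin : finrank k (LinearMap.ker u) ≤ finrank k D) {n : ℕ} (hU : finrank k U ≤ n) :
    finrank k X ≤ n := by
  have := comparison_abstract u lam hlam hrec
  omega

end Comparison

end Fermat.Agent.S56.H831


end
-- ===== PACK-END S56/H831/GWAbstract.lean

-- ===== PACK-BEGIN S59/H607/Ulim.lean
section


/-!
# Ultrafilter limits in adically complete modules with finite quotients (helper607, row S59)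

For a commutative ring `A`, an ideal `I` and an `A`-module `V` which is `I`-adically complete
and whose quotients `V / I^K V` are all finite, every sequence in `V` has a unique limit along
any ultrafilter on `ℕ`.  This replaces the diagonal/pigeonhole argument in Taylor–Wiles patching.
-/

set_option autoImplicit false

namespace Fermat.Agent.S59.H607

open Filter

/-- Along an ultrafilter, a map into a finite type is eventually constant. -/
theorem exists_eventually_eq_of_finite {α : Type*} [Finite α] (𝒰 : Ultrafilter ℕ) (f : ℕ → α) :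
    ∃ c, ∀ᶠ n in 𝒰, f n = c := by
  by_contra h
  have h' : ∀ c, ∀ᶠ n in (𝒰 : Filter ℕ), f n ≠ c := fun c =>
    Ultrafilter.eventually_not.mpr (fun hc => h ⟨c, hc⟩)
  have h2 : ∀ᶠ n in (𝒰 : Filter ℕ), ∀ c, f n ≠ c := Filter.eventually_all.mpr h'
  obtain ⟨n, hn⟩ := h2.exists
  exact hn (f n) rfl

section Module

variable {A : Type*} [CommRing A] (I : Ideal A) {V : Type*} [AddCommGroup V] [Module A V]
  (𝒰 : Ultrafilter ℕ)

/-- `L` is the limit of the sequence `a` along the ultrafilter `𝒰`, for the `I`-adic topology. -/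
def IsUlim (a : ℕ → V) (L : V) : Prop :=
  ∀ K : ℕ, ∀ᶠ n in (𝒰 : Filter ℕ), a n - L ∈ (I ^ K • ⊤ : Submodule A V)

variable {I 𝒰}

theorem IsUlim.unique [IsHausdorff I V] {a : ℕ → V} {L L' : V} (h : IsUlim I 𝒰 a L)
    (h' : IsUlim I 𝒰 a L') : L = L' := by
  rw [← sub_eq_zero]
  refine IsHausdorff.haus ‹_› _ fun K => ?_
  rw [SModEq.zero]
  obtain ⟨n, h1, h2⟩ := ((h K).and (h' K)).exists
  have : L - L' = (a n - L') - (a n - L) := by abel
  rw [this]
  exact Submodule.sub_mem _ h2 h1

theorem IsUlim.const (v : V) : IsUlim I 𝒰 (fun _ => v) v := fun K =>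
  Filter.Eventually.of_forall fun _ => by simp

theorem IsUlim.add {a b : ℕ → V} {L L' : V} (h : IsUlim I 𝒰 a L) (h' : IsUlim I 𝒰 b L') :
    IsUlim I 𝒰 (fun n => a n + b n) (L + L') := fun K => by
  filter_upwards [h K, h' K] with n h1 h2
  have : a n + b n - (L + L') = (a n - L) + (b n - L') := by abel
  rw [this]
  exact Submodule.add_mem _ h1 h2

theorem IsUlim.neg {a : ℕ → V} {L : V} (h : IsUlim I 𝒰 a L) :
    IsUlim I 𝒰 (fun n => - a n) (- L) := fun K => by
  filter_upwards [h K] with n h1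
  have : - a n - - L = - (a n - L) := by abel
  rw [this]
  exact Submodule.neg_mem _ h1

theorem IsUlim.sub {a b : ℕ → V} {L L' : V} (h : IsUlim I 𝒰 a L) (h' : IsUlim I 𝒰 b L') :
    IsUlim I 𝒰 (fun n => a n - b n) (L - L') := by
  simpa [sub_eq_add_neg] using h.add h'.neg

theorem IsUlim.smul {a : ℕ → V} {L : V} (c : A) (h : IsUlim I 𝒰 a L) :
    IsUlim I 𝒰 (fun n => c • a n) (c • L) := fun K => by
  filter_upwards [h K] with n h1
  rw [← smul_sub]
  exact Submodule.smul_mem _ _ h1

/-- Two sequences which are eventually congruent modulo every `I^K V` have the same limit. -/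
theorem IsUlim.congr' {a b : ℕ → V} {L : V} (h : IsUlim I 𝒰 a L)
    (hab : ∀ K : ℕ, ∀ᶠ n in (𝒰 : Filter ℕ), b n - a n ∈ (I ^ K • ⊤ : Submodule A V)) :
    IsUlim I 𝒰 b L := fun K => by
  filter_upwards [h K, hab K] with n h1 h2
  have : b n - L = (b n - a n) + (a n - L) := by abel
  rw [this]
  exact Submodule.add_mem _ h2 h1

theorem IsUlim.congr {a b : ℕ → V} {L : V} (h : IsUlim I 𝒰 a L)
    (hab : ∀ᶠ n in (𝒰 : Filter ℕ), b n = a n) : IsUlim I 𝒰 b L :=
  h.congr' fun K => by
    filter_upwards [hab] with n hn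
    rw [hn, sub_self]
    exact Submodule.zero_mem _

/-- If the sequence eventually lies in `L' + I^K V` for every `K`, the limit is `L'`. -/
theorem isUlim_of_eventually {a : ℕ → V} {L : V}
    (h : ∀ K : ℕ, ∀ᶠ n in (𝒰 : Filter ℕ), a n - L ∈ (I ^ K • ⊤ : Submodule A V)) :
    IsUlim I 𝒰 a L := h

variable (I 𝒰)

/-- Existence of ultrafilter limits. -/
theorem exists_isUlim [IsPrecomplete I V]
    (hfin : ∀ K : ℕ, Finite (V ⧸ (I ^ K • ⊤ : Submodule A V))) (a : ℕ → V) :
    ∃ L, IsUlim I 𝒰 a L := by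
  have h1 : ∀ K : ℕ, ∃ v : V, ∀ᶠ n in (𝒰 : Filter ℕ),
      a n - v ∈ (I ^ K • ⊤ : Submodule A V) := by
    intro K
    have := hfin K
    obtain ⟨c, hc⟩ := exists_eventually_eq_of_finite 𝒰
      (fun n => Submodule.Quotient.mk (p := (I ^ K • ⊤ : Submodule A V)) (a n))
    obtain ⟨v, rfl⟩ := Submodule.Quotient.mk_surjective _ c
    refine ⟨v, ?_⟩
    filter_upwards [hc] with n hn
    exact (Submodule.Quotient.eq _).mp hn
  choose v hv using h1
  have hcompat : ∀ {m n : ℕ}, m ≤ n → v m ≡ v n [SMOD (I ^ m • ⊤ : Submodule A V)] := by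
    intro m n hmn
    rw [SModEq.sub_mem]
    obtain ⟨k, hk1, hk2⟩ := ((hv m).and (hv n)).exists
    have h3 : a k - v n ∈ (I ^ m • ⊤ : Submodule A V) :=
      Submodule.smul_mono_left (Ideal.pow_le_pow_right hmn) hk2
    have : v m - v n = (a k - v n) - (a k - v m) := by abel
    rw [this]
    exact Submodule.sub_mem _ h3 hk1
  obtain ⟨L, hL⟩ := IsPrecomplete.prec ‹_› hcompat
  refine ⟨L, fun K => ?_⟩
  filter_upwards [hv K] with n hn
  have h4 : v K - L ∈ (I ^ K • ⊤ : Submodule A V) := by
    rw [← SModEq.sub_mem]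
    exact hL K
  have : a n - L = (a n - v K) + (v K - L) := by abel
  rw [this]
  exact Submodule.add_mem _ hn h4

/-- The standing hypotheses for ultrafilter limits: `I`-adically complete with finite quotients. -/
structure IsProfiniteAdic : Prop where
  haus : IsHausdorff I V
  prec : IsPrecomplete I V
  fin : ∀ K : ℕ, Finite (V ⧸ (I ^ K • ⊤ : Submodule A V))

variable {I}

/-- The ultrafilter limit of a sequence. -/
noncomputable def ulim (h : IsProfiniteAdic I (V := V)) (a : ℕ → V) : V :=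
  haveI := h.prec
  Classical.choose (exists_isUlim I 𝒰 h.fin a)

theorem isUlim_ulim (h : IsProfiniteAdic I (V := V)) (a : ℕ → V) :
    IsUlim I 𝒰 a (ulim 𝒰 h a) :=
  haveI := h.prec
  Classical.choose_spec (exists_isUlim I 𝒰 h.fin a)

variable {𝒰}

theorem ulim_eq (h : IsProfiniteAdic I (V := V)) {a : ℕ → V} {L : V} (hL : IsUlim I 𝒰 a L) :
    ulim 𝒰 h a = L :=
  haveI := h.haus
  (isUlim_ulim 𝒰 h a).unique hL

theorem ulim_sub_mem (h : IsProfiniteAdic I (V := V)) (a : ℕ → V) (K : ℕ) :
    ∀ᶠ n in (𝒰 : Filter ℕ), a n - ulim 𝒰 h a ∈ (I ^ K • ⊤ : Submodule A V) :=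
  isUlim_ulim 𝒰 h a K

end Module

section Algebra

variable {A : Type*} [CommRing A] {I : Ideal A} {B : Type*} [CommRing B] [Algebra A B]
  {𝒰 : Ultrafilter ℕ}

theorem mul_mem_smul_top {J : Ideal A} {x : B} (hx : x ∈ (J • ⊤ : Submodule A B)) (y : B) :
    x * y ∈ (J • ⊤ : Submodule A B) := by
  refine Submodule.smul_induction_on hx (fun a ha b _ => ?_) (fun u v hu hv => ?_)
  · rw [smul_mul_assoc]
    exact Submodule.smul_mem_smul ha Submodule.mem_top
  · rw [add_mul]
    exact Submodule.add_mem _ hu hv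

theorem IsUlim.mul {a b : ℕ → B} {L L' : B} (h : IsUlim I 𝒰 a L) (h' : IsUlim I 𝒰 b L') :
    IsUlim I 𝒰 (fun n => a n * b n) (L * L') := fun K => by
  filter_upwards [h K, h' K] with n h1 h2
  have : a n * b n - L * L' = (a n - L) * b n + (b n - L') * L := by ring
  rw [this]
  exact Submodule.add_mem _ (mul_mem_smul_top h1 _) (mul_mem_smul_top h2 _)

end Algebra

end Fermat.Agent.S59.H607

end
-- ===== PACK-END S59/H607/Ulim.lean

-- ===== PACK-BEGIN S19/H19/Good.lean
section
/-
A3 / S19, helper19 — piece ORD, part 2: "good" algebra maps into function algebras.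

An `R`-algebra map `φ : A → (X → K)` (`K` a field) is *good* if `A` has a finite `R`-basis whose
image is `K`-linearly independent.  Good maps are injective and the external product of two good
maps, `A ⊗[R] B → (X × Y → K)`, is good.  Mathlib only.
-/


set_option autoImplicit false

noncomputable section

namespace Fermat.Agent.S19.H19

open scoped BigOperators TensorProduct

section Pullback

variable (R : Type) [CommSemiring R] (K : Type) [CommSemiring K] [Algebra R K]

/-- Pull back functions along `f`, as an algebra map. -/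
def pullback {X Y : Type} (f : X → Y) : (Y → K) →ₐ[R] (X → K) :=
  AlgHom.pi (fun x => Pi.evalAlgHom R (fun _ => K) (f x))

@[simp] theorem pullback_apply {X Y : Type} (f : X → Y) (g : Y → K) (x : X) :
    pullback R K f g x = g (f x) := rfl

end Pullback

section ProdMap

variable {R : Type} [CommRing R] {K : Type} [Field K] [Algebra R K]
variable {A B : Type} [Semiring A] [Algebra R A] [Semiring B] [Algebra R B]
variable {X Y : Type}

/-- External product of two algebra maps into function algebras. -/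
def prodMap (φ : A →ₐ[R] (X → K)) (ψ : B →ₐ[R] (Y → K)) : A ⊗[R] B →ₐ[R] (X × Y → K) :=
  Algebra.TensorProduct.productMap ((pullback R K Prod.fst).comp φ)
    ((pullback R K Prod.snd).comp ψ)

@[simp] theorem prodMap_tmul (φ : A →ₐ[R] (X → K)) (ψ : B →ₐ[R] (Y → K)) (a : A) (b : B)
    (p : X × Y) : prodMap φ ψ (a ⊗ₜ[R] b) p = φ a p.1 * ψ b p.2 := by
  simp [prodMap, Algebra.TensorProduct.productMap_apply_tmul]

/-- Products of two linearly independent families of functions are linearly independent. -/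
theorem linearIndependent_mul {ι κ : Type} [Finite ι] [Finite κ] (f : ι → X → K)
    (g : κ → Y → K) (hf : LinearIndependent K f) (hg : LinearIndependent K g) :
    LinearIndependent K (fun (p : ι × κ) => fun (q : X × Y) => f p.1 q.1 * g p.2 q.2) := by
  classical
  have := Fintype.ofFinite ι
  have := Fintype.ofFinite κ
  rw [Fintype.linearIndependent_iff] at hf hg ⊢
  intro c hc
  have h1 : ∀ (y : Y) (i : ι), ∑ j, c (i, j) * g j y = 0 := by
    intro y
    apply hf (fun i => ∑ j, c (i, j) * g j y)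
    funext x
    have := congrFun hc (x, y)
    simp only [Finset.sum_apply, Pi.smul_apply, smul_eq_mul, Pi.zero_apply] at this ⊢
    rw [← this, Fintype.sum_prod_type]
    refine Finset.sum_congr rfl fun i _ => ?_
    rw [Finset.sum_mul]
    refine Finset.sum_congr rfl fun j _ => ?_
    ring
  intro p
  obtain ⟨i, j⟩ := p
  apply hg (fun j => c (i, j))
  funext y
  have := h1 y i
  simp only [Finset.sum_apply, Pi.smul_apply, smul_eq_mul, Pi.zero_apply]
  exact this

end ProdMap

section Good

variable {R : Type} [CommRing R] {K : Type} [Field K] [Algebra R K]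
variable {A B : Type} [Semiring A] [Algebra R A] [Semiring B] [Algebra R B]
variable {X Y : Type}

/-- `φ : A → (X → K)` is good if some finite `R`-basis of `A` has `K`-independent image. -/
def Good (φ : A →ₐ[R] (X → K)) : Prop :=
  ∃ (ι : Type) (_ : Finite ι) (b : Module.Basis ι R A), LinearIndependent K (fun i => φ (b i))

theorem Good.injective (hRK : Function.Injective (algebraMap R K)) {φ : A →ₐ[R] (X → K)}
    (h : Good φ) : Function.Injective φ := by
  classical
  obtain ⟨ι, hι, b, hb⟩ := h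
  have := Fintype.ofFinite ι
  have key : ∀ x : A, φ x = ∑ i, algebraMap R K (b.repr x i) • φ (b i) := by
    intro x
    conv_lhs => rw [← b.sum_repr x]
    rw [map_sum]
    refine Finset.sum_congr rfl fun i _ => ?_
    rw [map_smul]
    funext m
    simp [Algebra.smul_def]
  intro x y hxy
  have h2 : ∑ i, (algebraMap R K (b.repr x i) - algebraMap R K (b.repr y i)) • φ (b i) = 0 := by
    simp only [sub_smul, Finset.sum_sub_distrib]
    rw [← key x, ← key y, hxy, sub_self]
  have h3 := (Fintype.linearIndependent_iff.mp hb) _ h2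
  apply b.ext_elem
  intro i
  exact hRK (sub_eq_zero.mp (h3 i))

theorem Good.prod {φ : A →ₐ[R] (X → K)} {ψ : B →ₐ[R] (Y → K)} (hφ : Good φ) (hψ : Good ψ) :
    Good (prodMap φ ψ) := by
  obtain ⟨ι, hι, b, hb⟩ := hφ
  obtain ⟨κ, hκ, c, hc⟩ := hψ
  refine ⟨ι × κ, inferInstance, b.tensorProduct c, ?_⟩
  have := linearIndependent_mul _ _ hb hc
  convert this using 1
  funext p q
  rw [Module.Basis.tensorProduct_apply', prodMap_tmul]

theorem Good.finite {φ : A →ₐ[R] (X → K)} (h : Good φ) : Module.Finite R A := by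
  obtain ⟨ι, hι, b, -⟩ := h
  exact Module.Finite.of_basis b

theorem Good.free {φ : A →ₐ[R] (X → K)} (h : Good φ) : Module.Free R A := by
  obtain ⟨ι, hι, b, -⟩ := h
  exact Module.Free.of_basis b

end Good

end Fermat.Agent.S19.H19

end

end
-- ===== PACK-END S19/H19/Good.lean

-- ===== PACK-BEGIN S53/AbstractDefs.lean
section




set_option autoImplicit false

/-!
# Abstract pro-representability (statement layer)

`L` is a family of subsets `L A ⊆ (ι → A)` for local `𝒪`-algebras `A`
("normalized liftings of type 𝒟", coordinates indexed by `ι`).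
`IsRigidFamily` lists the closure properties, `UniversalPoint` is the conclusion.
-/

namespace Fermat.Agent.S53

open IsLocalRing GaloisRep

/-- A family of point sets on local `𝒪`-algebras. -/
abbrev PointFamily (𝒪 : Type) [CommRing 𝒪] (ι : Type) : Type 1 :=
  ∀ ⦃A : Type⦄ [CommRing A] [IsLocalRing A] [Algebra 𝒪 A], (ι → A) → Prop

/-- Closure properties of a family of "rigid" point sets. -/
structure IsRigidFamily (𝒪 : Type) [CommRing 𝒪] [IsLocalRing 𝒪] (ι : Type) (c : ι → 𝒪)
    (L : PointFamily 𝒪 ι) : Prop where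
  /-- (H1) every point reduces to the base point `c` modulo the maximal ideal. -/
  res : ∀ ⦃A : Type⦄ [CommRing A] [IsLocalRing A] [Algebra 𝒪 A],
    IsArtinianTestAlgebra 𝒪 A → ∀ ⦃x : ι → A⦄, L x →
      ∀ i, x i - algebraMap 𝒪 A (c i) ∈ maximalIdeal A
  /-- (H2) the base point is a point over the residue field. -/
  base : L (fun i => algebraMap 𝒪 (ResidueField 𝒪) (c i))
  /-- (H3) functoriality for local homs of test algebras. -/
  map : ∀ ⦃A B : Type⦄ [CommRing A] [IsLocalRing A] [Algebra 𝒪 A]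
    [CommRing B] [IsLocalRing B] [Algebra 𝒪 B],
    IsArtinianTestAlgebra 𝒪 A → IsArtinianTestAlgebra 𝒪 B →
    ∀ (φ : A →ₐ[𝒪] B), IsLocalHom (φ : A →+* B) → ∀ ⦃x : ι → A⦄,
      L x → L (fun i => φ (x i))
  /-- (H4) descent along injective homs of test algebras. -/
  inj : ∀ ⦃A B : Type⦄ [CommRing A] [IsLocalRing A] [Algebra 𝒪 A]
    [CommRing B] [IsLocalRing B] [Algebra 𝒪 B],
    IsArtinianTestAlgebra 𝒪 A → IsArtinianTestAlgebra 𝒪 B →
    ∀ (φ : A →ₐ[𝒪] B), IsLocalHom (φ : A →+* B) → Function.Injective φ →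
      ∀ ⦃x : ι → A⦄, L (fun i => φ (x i)) → L x
  /-- (H5) fibre products of test algebras. -/
  fibre : ∀ ⦃A B C P : Type⦄ [CommRing A] [IsLocalRing A] [Algebra 𝒪 A]
    [CommRing B] [IsLocalRing B] [Algebra 𝒪 B] [CommRing C] [IsLocalRing C] [Algebra 𝒪 C]
    [CommRing P] [IsLocalRing P] [Algebra 𝒪 P],
    IsArtinianTestAlgebra 𝒪 A → IsArtinianTestAlgebra 𝒪 B → IsArtinianTestAlgebra 𝒪 C →
    IsArtinianTestAlgebra 𝒪 P →
    ∀ (f : A →ₐ[𝒪] C) (g : B →ₐ[𝒪] C) (pA : P →ₐ[𝒪] A) (pB : P →ₐ[𝒪] B),
      IsLocalHom (pA : P →+* A) → IsLocalHom (pB : P →+* B) →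
      f.comp pA = g.comp pB →
      Function.Injective (fun x => (pA x, pB x)) →
      (∀ a b, f a = g b → ∃ x, pA x = a ∧ pB x = b) →
      ∀ ⦃x : ι → P⦄, L (fun i => pA (x i)) → L (fun i => pB (x i)) → L x
  /-- (H6) finitely many coordinates detect triviality of first-order points. -/
  tangent : ∃ F : Finset ι, ∀ ⦃B : Type⦄ [CommRing B] [IsLocalRing B] [Algebra 𝒪 B],
    IsArtinianTestAlgebra 𝒪 B → maximalIdeal B ^ 2 = ⊥ →
    (maximalIdeal 𝒪).map (algebraMap 𝒪 B) = ⊥ →
    ∀ ⦃x : ι → B⦄, L x → (∀ i ∈ F, x i = algebraMap 𝒪 B (c i)) →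
      ∀ i, x i = algebraMap 𝒪 B (c i)
  /-- (H7) over a complete Noetherian local algebra, membership is tested on Artinian
  quotients. -/
  limit : ∀ ⦃A : Type⦄ [CommRing A] [IsLocalRing A] [IsNoetherianRing A]
    [IsAdicComplete (maximalIdeal A) A] [Algebra 𝒪 A],
    IsLocalHom (algebraMap 𝒪 A) → Function.Surjective (IsLocalRing.residue A ∘ algebraMap 𝒪 A) →
    ∀ (x : ι → A),
      L x ↔ ∀ ⦃B : Type⦄ [CommRing B] [IsLocalRing B] [Algebra 𝒪 B], IsArtinianTestAlgebra 𝒪 B →
        ∀ (q : A →ₐ[𝒪] B), IsLocalHom (q : A →+* B) → Function.Surjective q →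
          L (fun i => q (x i))

/-- The conclusion: a complete Noetherian local `𝒪`-algebra with a universal point. -/
structure UniversalPoint (𝒪 : Type) [CommRing 𝒪] [IsLocalRing 𝒪] (ι : Type)
    (L : PointFamily 𝒪 ι) : Type 1 where
  R : Type
  [instCommRing : CommRing R]
  [instIsLocalRing : IsLocalRing R]
  [instIsNoetherianRing : IsNoetherianRing R]
  [instIsAdicComplete : IsAdicComplete (IsLocalRing.maximalIdeal R) R]
  [instAlgebra : Algebra 𝒪 R]
  [instIsLocalHom : IsLocalHom (algebraMap 𝒪 R)]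
  residue_surjective : Function.Surjective (IsLocalRing.residue R ∘ algebraMap 𝒪 R)
  xu : ι → R
  mem : L xu
  universal : ∀ (A : Type) [CommRing A] [IsLocalRing A] [IsNoetherianRing A]
      [IsAdicComplete (IsLocalRing.maximalIdeal A) A] [Algebra 𝒪 A] [IsLocalHom (algebraMap 𝒪 A)],
      Function.Surjective (IsLocalRing.residue A ∘ algebraMap 𝒪 A) →
      ∀ y : ι → A, L y →
        ∃! φ : R →ₐ[𝒪] A, IsLocalHom (φ : R →+* A) ∧ ∀ i, φ (xu i) = y i

attribute [instance] UniversalPoint.instCommRing UniversalPoint.instIsLocalRing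
  UniversalPoint.instIsNoetherianRing UniversalPoint.instIsAdicComplete
  UniversalPoint.instAlgebra UniversalPoint.instIsLocalHom

end Fermat.Agent.S53

end
-- ===== PACK-END S53/AbstractDefs.lean

-- ===== PACK-BEGIN S53/Spec.lean
section




/-!
# S53 — row-lead SPEC file (helper53)

Authoritative shapes of the hand-over points between the blocks of the S53 proof.
Everything lives in `Fermat.Agent.S53.Spec`, so it cannot clash with block files.
A block is DONE when it proves a theorem whose type is exactly one of the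
`...Statement` propositions below (in its own file, importing this one).
-/

set_option autoImplicit false

namespace Fermat.Agent.S53.Spec

open IsLocalRing

/-- The `𝒪`-algebra structure on `k[ε]` used by `GaloisRep.TangentFinite` (NOT an instance;
pass it explicitly, typeclass synthesis finds a different one). -/
@[reducible] noncomputable def dualNumberAlgebra (𝒪 : Type) [CommRing 𝒪] [IsLocalRing 𝒪] :
    Algebra 𝒪 (DualNumber (ResidueField 𝒪)) :=
  ((algebraMap (ResidueField 𝒪) (DualNumber (ResidueField 𝒪))).comp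
    (algebraMap 𝒪 (ResidueField 𝒪))).toAlgebra

/-- Complete Noetherian local `𝒪`-algebra with residue field `k` (the test objects of
`DeformationRingData.universal`). -/
structure IsCNL (𝒪 : Type) [CommRing 𝒪] [IsLocalRing 𝒪]
    (A : Type) [CommRing A] [IsLocalRing A] [Algebra 𝒪 A] : Prop where
  isNoetherianRing : IsNoetherianRing A
  isAdicComplete : IsAdicComplete (maximalIdeal A) A
  isLocalHom : IsLocalHom (algebraMap 𝒪 A)
  residue_surjective : Function.Surjective (IsLocalRing.residue A ∘ algebraMap 𝒪 A)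

/-! ## Block D: abstract pro-representability -/

/-- Hypotheses of the abstract pro-representability theorem: `F` is a property of
`X`-indexed coordinate families, and only its values on Artinian test algebras matter. -/
structure CoordFunctor (𝒪 : Type) [CommRing 𝒪] [IsLocalRing 𝒪] (X : Type) (c : X → 𝒪)
    (F : ∀ ⦃A : Type⦄ [CommRing A] [IsLocalRing A] [Algebra 𝒪 A], (X → A) → Prop) : Prop where
  red : ∀ ⦃A : Type⦄ [CommRing A] [IsLocalRing A] [Algebra 𝒪 A],
    GaloisRep.IsArtinianTestAlgebra 𝒪 A → ∀ ⦃x : X → A⦄, F x →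
      ∀ ξ, x ξ - algebraMap 𝒪 A (c ξ) ∈ maximalIdeal A
  base : F (fun ξ => algebraMap 𝒪 (ResidueField 𝒪) (c ξ))
  push : ∀ ⦃A B : Type⦄ [CommRing A] [IsLocalRing A] [Algebra 𝒪 A]
    [CommRing B] [IsLocalRing B] [Algebra 𝒪 B],
    GaloisRep.IsArtinianTestAlgebra 𝒪 A → GaloisRep.IsArtinianTestAlgebra 𝒪 B →
    ∀ (φ : A →ₐ[𝒪] B), IsLocalHom (φ : A →+* B) → ∀ ⦃x : X → A⦄, F x → F (φ ∘ x)
  descent : ∀ ⦃A B : Type⦄ [CommRing A] [IsLocalRing A] [Algebra 𝒪 A]
    [CommRing B] [IsLocalRing B] [Algebra 𝒪 B],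
    GaloisRep.IsArtinianTestAlgebra 𝒪 A → GaloisRep.IsArtinianTestAlgebra 𝒪 B →
    ∀ (φ : A →ₐ[𝒪] B), IsLocalHom (φ : A →+* B) → Function.Injective φ →
      ∀ ⦃x : X → A⦄, F (φ ∘ x) → F x
  fibre : ∀ ⦃A B C P : Type⦄ [CommRing A] [IsLocalRing A] [Algebra 𝒪 A]
    [CommRing B] [IsLocalRing B] [Algebra 𝒪 B] [CommRing C] [IsLocalRing C] [Algebra 𝒪 C]
    [CommRing P] [IsLocalRing P] [Algebra 𝒪 P],
    GaloisRep.IsArtinianTestAlgebra 𝒪 A → GaloisRep.IsArtinianTestAlgebra 𝒪 B →
    GaloisRep.IsArtinianTestAlgebra 𝒪 C → GaloisRep.IsArtinianTestAlgebra 𝒪 P →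
    ∀ (f : A →ₐ[𝒪] C) (g : B →ₐ[𝒪] C) (pA : P →ₐ[𝒪] A) (pB : P →ₐ[𝒪] B),
      IsLocalHom (pA : P →+* A) → IsLocalHom (pB : P →+* B) →
      f.comp pA = g.comp pB →
      Function.Injective (fun x => (pA x, pB x)) →
      (∀ a b, f a = g b → ∃ x, pA x = a ∧ pB x = b) →
      ∀ ⦃x : X → P⦄, F (pA ∘ x) → F (pB ∘ x) → F x
  tangent : Finite {x : X → DualNumber (ResidueField 𝒪) //
    @F (DualNumber (ResidueField 𝒪)) _ _ (dualNumberAlgebra 𝒪) x}

/-- Conclusion of the abstract pro-representability theorem. -/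
structure CoordUniversal (𝒪 : Type) [CommRing 𝒪] [IsLocalRing 𝒪] (X : Type)
    (F : ∀ ⦃A : Type⦄ [CommRing A] [IsLocalRing A] [Algebra 𝒪 A], (X → A) → Prop) : Type 1 where
  R : Type
  [instCommRing : CommRing R]
  [instIsLocalRing : IsLocalRing R]
  [instAlgebra : Algebra 𝒪 R]
  isCNL : IsCNL 𝒪 R
  xR : X → R
  /-- (U1) every Artinian quotient of the universal point is an `F`-point -/
  quot : ∀ ⦃B : Type⦄ [CommRing B] [IsLocalRing B] [Algebra 𝒪 B],
    GaloisRep.IsArtinianTestAlgebra 𝒪 B → ∀ q : R →ₐ[𝒪] B, Function.Surjective q → F (q ∘ xR)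
  /-- (U2) universality among pro-`F`-points of CNL algebras -/
  univ : ∀ (A : Type) [CommRing A] [IsLocalRing A] [Algebra 𝒪 A], IsCNL 𝒪 A →
    ∀ xA : X → A,
      (∀ ⦃B : Type⦄ [CommRing B] [IsLocalRing B] [Algebra 𝒪 B],
        GaloisRep.IsArtinianTestAlgebra 𝒪 B → ∀ q : A →ₐ[𝒪] B, Function.Surjective q →
          F (q ∘ xA)) →
      ∃! φ : R →ₐ[𝒪] A, ∀ ξ, φ (xR ξ) = xA ξ

attribute [instance] CoordUniversal.instCommRing CoordUniversal.instIsLocalRing
  CoordUniversal.instAlgebra

/-- DELIVERABLE of block D (abstract core). -/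
def AbstractCoreStatement : Prop :=
  ∀ (𝒪 : Type) [CommRing 𝒪] [IsDomain 𝒪] [IsDiscreteValuationRing 𝒪]
    [IsAdicComplete (maximalIdeal 𝒪) 𝒪] [Finite (ResidueField 𝒪)]
    (X : Type) (c : X → 𝒪)
    (F : ∀ ⦃A : Type⦄ [CommRing A] [IsLocalRing A] [Algebra 𝒪 A], (X → A) → Prop),
    CoordFunctor 𝒪 X c F → Nonempty (CoordUniversal 𝒪 X F)

/-! ## Block B: rigid normal form (pure matrices, generic group `Γ`) -/

/-- `r` lifts `rbar` (entrywise, modulo the maximal ideal). -/
def IsLift {𝒪 : Type} [CommRing 𝒪] [IsLocalRing 𝒪] {Γ : Type} [Group Γ]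
    (rbar : Γ →* Matrix (Fin 2) (Fin 2) (ResidueField 𝒪))
    {A : Type} [CommRing A] [IsLocalRing A] [Algebra 𝒪 A] [IsLocalHom (algebraMap 𝒪 A)]
    (r : Γ →* Matrix (Fin 2) (Fin 2) A) : Prop :=
  ∀ γ i j, residue A (r γ i j) = ResidueField.map (algebraMap 𝒪 A) (rbar γ i j)

/-- A rigid normal form for liftings of `rbar`: `m` matrix entries are prescribed to be
constants coming from `𝒪`. -/
structure NormalFormPackage (𝒪 : Type) [CommRing 𝒪] [IsLocalRing 𝒪] (Γ : Type) [Group Γ]
    (rbar : Γ →* Matrix (Fin 2) (Fin 2) (ResidueField 𝒪)) where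
  m : ℕ
  g : Fin m → Γ
  i : Fin m → Fin 2
  j : Fin m → Fin 2
  d : Fin m → 𝒪
  /-- `rbar` itself is normalized -/
  base : ∀ a, rbar (g a) (i a) (j a) = residue 𝒪 (d a)
  /-- two conjugate normalized liftings are equal -/
  rigid : ∀ ⦃A : Type⦄ [CommRing A] [IsLocalRing A] [Algebra 𝒪 A] [IsLocalHom (algebraMap 𝒪 A)]
    [IsHausdorff (maximalIdeal A) A] (r r' : Γ →* Matrix (Fin 2) (Fin 2) A),
    IsLift rbar r → IsLift rbar r' →
    (∀ a, r (g a) (i a) (j a) = algebraMap 𝒪 A (d a)) →
    (∀ a, r' (g a) (i a) (j a) = algebraMap 𝒪 A (d a)) →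
    ∀ P : (Matrix (Fin 2) (Fin 2) A)ˣ, (∀ γ, (P : Matrix (Fin 2) (Fin 2) A) * r γ = r' γ * P) →
      r = r'
  /-- every lifting is conjugate to a normalized lifting -/
  exists_normalized : ∀ ⦃A : Type⦄ [CommRing A] [IsLocalRing A] [Algebra 𝒪 A]
    [IsLocalHom (algebraMap 𝒪 A)] [IsAdicComplete (maximalIdeal A) A]
    (r : Γ →* Matrix (Fin 2) (Fin 2) A), IsLift rbar r →
    ∃ (P : (Matrix (Fin 2) (Fin 2) A)ˣ) (r' : Γ →* Matrix (Fin 2) (Fin 2) A),
      IsLift rbar r' ∧ (∀ a, r' (g a) (i a) (j a) = algebraMap 𝒪 A (d a)) ∧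
      ∀ γ, (P : Matrix (Fin 2) (Fin 2) A) * r γ = r' γ * P

/-- DELIVERABLE of block B: for every `rbar₀` with scalar centralizer there is a conjugate
`rbar` (same representation, adapted basis; `Q = 1` allowed) carrying a normal form package. -/
def RigidStatement : Prop :=
  ∀ (𝒪 : Type) [CommRing 𝒪] [IsDomain 𝒪] [IsDiscreteValuationRing 𝒪]
    [IsAdicComplete (maximalIdeal 𝒪) 𝒪] (Γ : Type) [Group Γ]
    (rbar₀ : Γ →* Matrix (Fin 2) (Fin 2) (ResidueField 𝒪)),
    (∀ X : Matrix (Fin 2) (Fin 2) (ResidueField 𝒪),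
      (∀ γ, X * rbar₀ γ = rbar₀ γ * X) → ∃ c : ResidueField 𝒪, X = c • 1) →
    ∃ (Q : (Matrix (Fin 2) (Fin 2) (ResidueField 𝒪))ˣ)
      (rbar : Γ →* Matrix (Fin 2) (Fin 2) (ResidueField 𝒪)),
      (∀ γ, (Q : Matrix (Fin 2) (Fin 2) (ResidueField 𝒪)) * rbar₀ γ = rbar γ * Q) ∧
      Nonempty (NormalFormPackage 𝒪 Γ rbar)

end Fermat.Agent.S53.Spec

end
-- ===== PACK-END S53/Spec.lean

-- ===== PACK-BEGIN S53/H596/Tower.lean
section


/-!
# Tower (Chevalley / Mittag-Leffler) lemma for ideals in an adically precomplete ring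
-/

set_option autoImplicit false

namespace Fermat.Agent.S53.H596

/-- **Tower lemma.** Let `S` be `𝔪`-adically precomplete, `I : ℕ → Ideal S` antitone with
`𝔪 ^ n ≤ I n` and `I n ≤ I (n+1) ⊔ 𝔪 ^ n`.  Then `I n ≤ (⨅ j, I j) ⊔ 𝔪 ^ n`. -/
theorem tower_le {S : Type*} [CommRing S] (𝔪 : Ideal S) [IsPrecomplete 𝔪 S]
    (I : ℕ → Ideal S) (hanti : Antitone I) (hm : ∀ n, 𝔪 ^ n ≤ I n)
    (hstep : ∀ n, I n ≤ I (n + 1) ⊔ 𝔪 ^ n) (n : ℕ) :
    I n ≤ (⨅ j, I j) ⊔ 𝔪 ^ n := by
  intro x hx
  -- one step of the approximation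
  have step : ∀ (j : ℕ) (y : S), y ∈ I j → ∃ a, a ∈ I (j + 1) ∧ y - a ∈ 𝔪 ^ j := by
    intro j y hy
    obtain ⟨a, ha, b, hb, hab⟩ := Submodule.mem_sup.mp (hstep j hy)
    exact ⟨a, ha, by rw [← hab, add_sub_cancel_left]; exact hb⟩
  choose! nxt hnxt1 hnxt2 using step
  -- the approximating sequence `y j ∈ I (n + j)`
  let y : ℕ → S := fun j => Nat.rec x (fun j yj => nxt (n + j) yj) j
  have hy0 : y 0 = x := rfl
  have hysucc : ∀ j, y (j + 1) = nxt (n + j) (y j) := fun j => rfl
  have hymem : ∀ j, y j ∈ I (n + j) := by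
    intro j
    induction j with
    | zero => simpa [hy0] using hx
    | succ j ih =>
      rw [hysucc]
      exact hnxt1 (n + j) (y j) ih
  have hydiff : ∀ j, y j - y (j + 1) ∈ 𝔪 ^ (n + j) := by
    intro j
    rw [hysucc]
    exact hnxt2 (n + j) (y j) (hymem j)
  have hytel : ∀ a b, a ≤ b → y a - y b ∈ 𝔪 ^ (n + a) := by
    intro a b hab
    induction b, hab using Nat.le_induction with
    | base => simp
    | succ b hab ih =>
      have h1 : y a - y (b + 1) = (y a - y b) + (y b - y (b + 1)) := by ring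
      rw [h1]
      refine Ideal.add_mem _ ih ?_
      exact Ideal.pow_le_pow_right (by omega) (hydiff b)
  -- Cauchy sequence `f k = y (k - n)`
  obtain ⟨L, hL⟩ := IsPrecomplete.prec' (I := 𝔪) (fun k => y (k - n)) (by
    intro a b hab
    rw [SModEq.sub_mem, smul_eq_mul, Ideal.mul_top]
    exact Ideal.pow_le_pow_right (by omega) (hytel (a - n) (b - n) (Nat.sub_le_sub_right hab n)))
  have hL' : ∀ k, y (k - n) - L ∈ 𝔪 ^ k := by
    intro k
    have := hL k
    rwa [SModEq.sub_mem, smul_eq_mul, Ideal.mul_top] at this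
  have hLmem : L ∈ ⨅ j, I j := by
    rw [Ideal.mem_iInf]
    intro j
    have h1 : y (max j n - n) ∈ I j := by
      refine hanti ?_ (hymem (max j n - n))
      have : n ≤ max j n := le_max_right _ _
      have : j ≤ max j n := le_max_left _ _
      omega
    have h2 : y (max j n - n) - L ∈ I j :=
      hanti (le_max_left j n) (hm _ (hL' (max j n)))
    have := Ideal.sub_mem _ h1 h2
    simpa using this
  have hxL : x - L ∈ 𝔪 ^ n := by
    have := hL' n
    simpa [hy0] using this
  have : x = L + (x - L) := by ring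
  rw [this]
  exact Ideal.add_mem _ (Ideal.mem_sup_left hLmem) (Ideal.mem_sup_right hxL)

/-- Equality form of the tower lemma. -/
theorem tower_eq {S : Type*} [CommRing S] (𝔪 : Ideal S) [IsPrecomplete 𝔪 S]
    (I : ℕ → Ideal S) (hanti : Antitone I) (hm : ∀ n, 𝔪 ^ n ≤ I n)
    (hstep : ∀ n, I n ≤ I (n + 1) ⊔ 𝔪 ^ n) (n : ℕ) :
    (⨅ j, I j) ⊔ 𝔪 ^ n = I n :=
  le_antisymm (sup_le (iInf_le _ n) (hm n)) (tower_le 𝔪 I hanti hm hstep n)

end Fermat.Agent.S53.H596

end
-- ===== PACK-END S53/H596/Tower.lean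

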