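import Fermat.Prelude.Thm_Algebra_finite_maximalSpectrum_and_bijective_localization_of_module_finite
import Fermat.Prelude.Thm_IsAdicComplete_of_module_finite
import Fermat.Prelude.Thm_IsLocalRing_isAdicComplete_of_module_finite
import Fermat.Agent.Pack.S43GC.G0E0L0
import Fermat.Agent.Pack.S43GC.G0E0L2
import Fermat.Agent.Pack.S43GC.G0E0L3
import Fermat.Agent.Pack.S43GC.G0E1L2
import Fermat.Agent.Pack.S43GC.G0E1L1
import Fermat.Agent.Pack.S44C.G0E1L1
import Fermat.Agent.Pack.S43GC.G0E1L0
import Fermat.Agent.Pack.S43GC.G0E1L3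
import Fermat.Agent.Pack.S43GC.G0E2L1
import Fermat.Agent.Pack.Fast891

-- ===== PACK-BEGIN S55/Local/Spec.lean
section


/-!
# S55, layer L (local class field theory, cohomological core) : FROZEN INTERFACE

Architect: helper715.  Plan / proofs on paper: `origin/helper715:coord/S55-L.md`.

Every `...Statement : Prop` below is a deliverable.  A piece is DONE when some file proves
`theorem <name> : Fermat.Agent.S55.Local.<Name>Statement` (sorry-free, std. axioms only).
Glue theorems (in `Glue*.lean`) take the statements as hypotheses.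

Conventions: see `Defs.lean`.  BASE `(A, F)`: complete DVR with finite residue field and its
fraction field, characteristic zero.  Local fields `K, L, N`: finite extensions of `F`.
The Galois group `L ≃ₐ[K] L` acts on `Lˣ` by the Mathlib instance (`AlgEquiv.smul_units_def`);
cocycle predicates are Mathlib's `groupCohomology.IsMulCocycle₁/₂`, `IsMulCoboundary₁/₂`,
`IsCocycle₁/₂`, `IsCoboundary₁/₂`.
-/

set_option autoImplicit false

namespace Fermat.Agent.S55.Local

open groupCohomology

/-! ## Part A : abstract algebra (no number theory) -/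

/-- (A1) successive approximation for 1-cocycles along a complete separated `G`-stable
filtration. -/
def FiltH1Statement : Prop :=
  ∀ (G M : Type) [Group G] [CommGroup M] [MulDistribMulAction G M] (Fil : ℕ → Subgroup M),
    (∀ j, Fil (j + 1) ≤ Fil j) → (∀ j (g : G), ∀ x ∈ Fil j, g • x ∈ Fil j) →
    (∀ u : ℕ → M, (∀ j, u j ∈ Fil j) →
      ∃ s : M, ∀ n, s / ∏ j ∈ Finset.range n, u j ∈ Fil n) →
    (∀ x : M, (∀ j, x ∈ Fil j) → x = 1) →
    (∀ j (c : G → M), IsMulCocycle₁ c → (∀ g, c g ∈ Fil j) →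
      ∃ m ∈ Fil j, ∀ g, c g / (g • m / m) ∈ Fil (j + 1)) →
    ∀ c : G → M, IsMulCocycle₁ c → (∀ g, c g ∈ Fil 0) → ∃ m ∈ Fil 0, ∀ g, g • m / m = c g

/-- (A2) successive approximation for 2-cocycles (`G` finite). -/
def FiltH2Statement : Prop :=
  ∀ (G M : Type) [Group G] [Finite G] [CommGroup M] [MulDistribMulAction G M]
    (Fil : ℕ → Subgroup M),
    (∀ j, Fil (j + 1) ≤ Fil j) → (∀ j (g : G), ∀ x ∈ Fil j, g • x ∈ Fil j) →
    (∀ u : ℕ → M, (∀ j, u j ∈ Fil j) →
      ∃ s : M, ∀ n, s / ∏ j ∈ Finset.range n, u j ∈ Fil n) →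
    (∀ x : M, (∀ j, x ∈ Fil j) → x = 1) →
    (∀ j (c : G × G → M), IsMulCocycle₂ c → (∀ p, c p ∈ Fil j) →
      ∃ x : G → M, (∀ g, x g ∈ Fil j) ∧
        ∀ g h, c (g, h) / (g • x h / x (g * h) * x g) ∈ Fil (j + 1)) →
    ∀ c : G × G → M, IsMulCocycle₂ c → (∀ p, c p ∈ Fil 0) →
      ∃ x : G → M, (∀ g, x g ∈ Fil 0) ∧ ∀ g h, g • x h / x (g * h) * x g = c (g, h)

/-- (A3) successive approximation for `ker f ⊆ im g` (used with `(f, g) = (σ - 1, N)` and
`(N, σ - 1)` for a cyclic group). -/
def FiltKerImStatement : Prop :=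
  ∀ (M : Type) [CommGroup M] (f g : M →* M) (Fil : ℕ → Subgroup M),
    (∀ j, Fil (j + 1) ≤ Fil j) → (∀ j, ∀ x ∈ Fil j, g x ∈ Fil j) →
    (∀ u : ℕ → M, (∀ j, u j ∈ Fil j) →
      ∃ s : M, ∀ n, s / ∏ j ∈ Finset.range n, u j ∈ Fil n) →
    (∀ x : M, (∀ j, x ∈ Fil j) → x = 1) →
    (∀ x, f (g x) = 1) →
    (∀ j, ∀ x ∈ Fil j, f x = 1 → ∃ y ∈ Fil j, x / g y ∈ Fil (j + 1)) →
    ∀ x ∈ Fil 0, f x = 1 → ∃ y ∈ Fil 0, g y = x

/-- (A4a) the standard cyclic 2-cocycle is a 2-cocycle. -/
def CycCocycleIsCocycleStatement : Prop :=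
  ∀ (G M : Type) [Group G] [Finite G] [CommGroup M] [MulDistribMulAction G M] (σ : G),
    (∀ g, g ∈ Subgroup.zpowers σ) → ∀ x : M, σ • x = x → IsMulCocycle₂ (cycCocycle σ x)

/-- (A4b) the standard cyclic 2-cocycle of `x` is a coboundary iff `x` is a norm. -/
def CycCocycleCoboundaryIffStatement : Prop :=
  ∀ (G M : Type) [Group G] [Fintype G] [CommGroup M] [MulDistribMulAction G M] (σ : G),
    (∀ g, g ∈ Subgroup.zpowers σ) → ∀ x : M, σ • x = x →
      (IsMulCoboundary₂ (cycCocycle σ x) ↔ ∃ y : M, ∏ g : G, g • y = x)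

/-- (A4c) every 2-cocycle of a finite cyclic group is cohomologous to a standard one. -/
def CycCocycleSurjStatement : Prop :=
  ∀ (G M : Type) [Group G] [Finite G] [CommGroup M] [MulDistribMulAction G M] (σ : G),
    (∀ g, g ∈ Subgroup.zpowers σ) → ∀ c : G × G → M, IsMulCocycle₂ c →
      ∃ x : M, σ • x = x ∧ IsMulCoboundary₂ (fun p => c p / cycCocycle σ x p)

/-- (A4d) functoriality of the standard cocycle under an injective homomorphism of cyclic
groups `ρ : H → G` with `ρ τ = σ ^ (|G| / |H|)`. -/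
def CycCocyclePullbackStatement : Prop :=
  ∀ (G H M : Type) [Group G] [Finite G] [Group H] [Finite H] [CommGroup M] (σ : G) (τ : H)
    (ρ : H →* G),
    (∀ g, g ∈ Subgroup.zpowers σ) → (∀ h, h ∈ Subgroup.zpowers τ) → Function.Injective ρ →
    ρ τ = σ ^ (Nat.card G / Nat.card H) →
    ∀ x : M, ∀ p : H × H, cycCocycle σ x (ρ p.1, ρ p.2) = cycCocycle τ x p

/-! ## Part FF : finite Galois extensions, finite fields (Mathlib only) -/

/-- (FF1a) additive `H¹` of a finite Galois extension vanishes. -/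
def AddH1Statement : Prop :=
  ∀ (k l : Type) [Field k] [Field l] [Algebra k l] [FiniteDimensional k l] [IsGalois k l]
    (c : (l ≃ₐ[k] l) → l), IsCocycle₁ c → IsCoboundary₁ c

/-- (FF1b) additive `H²` of a finite Galois extension vanishes. -/
def AddH2Statement : Prop :=
  ∀ (k l : Type) [Field k] [Field l] [Algebra k l] [FiniteDimensional k l] [IsGalois k l]
    (c : (l ≃ₐ[k] l) × (l ≃ₐ[k] l) → l), IsCocycle₂ c → IsCoboundary₂ c

/-- (FF2) multiplicative `H²` of an extension of finite fields vanishes. -/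
def MulH2FiniteFieldStatement : Prop :=
  ∀ (k l : Type) [Field k] [Finite k] [Field l] [Algebra k l] [FiniteDimensional k l]
    (c : (l ≃ₐ[k] l) × (l ≃ₐ[k] l) → lˣ), IsMulCocycle₂ c → IsMulCoboundary₂ c

/-! ## Part LF : basic structure of local fields -/
/-- (LF1) integers of a local field form a valuation ring. -/
def IntOrInvStatement : Prop :=
  ∀ (A F : Type) [CommRing A] [IsDomain A] [IsDiscreteValuationRing A]
    [IsAdicComplete (IsLocalRing.maximalIdeal A) A] [Finite (IsLocalRing.ResidueField A)]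
    [Field F] [CharZero F] [Algebra A F] [IsFractionRing A F]
    (L : Type) [Field L] [Algebra F L] [FiniteDimensional F L] (x : L),
    IsInt A F L x ∨ IsInt A F L x⁻¹

/-- (LF2) existence of a uniformizer. -/
def ExistsUnifStatement : Prop :=
  ∀ (A F : Type) [CommRing A] [IsDomain A] [IsDiscreteValuationRing A]
    [IsAdicComplete (IsLocalRing.maximalIdeal A) A] [Finite (IsLocalRing.ResidueField A)]
    [Field F] [CharZero F] [Algebra A F] [IsFractionRing A F]
    (L : Type) [Field L] [Algebra F L] [FiniteDimensional F L],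
    ∃ ϖ : Lˣ, IsUnif A F L ϖ

/-- (LF3) `K`-rational integral units: `U_L ∩ Kˣ = U_K`. -/
def IntUnitsComapStatement : Prop :=
  ∀ (A F : Type) [CommRing A] [IsDomain A] [IsDiscreteValuationRing A]
    [IsAdicComplete (IsLocalRing.maximalIdeal A) A] [Finite (IsLocalRing.ResidueField A)]
    [Field F] [CharZero F] [Algebra A F] [IsFractionRing A F]
    (K : Type) [Field K] [Algebra F K] [FiniteDimensional F K]
    (L : Type) [Field L] [Algebra F L] [Algebra K L] [IsScalarTower F K L]
    [FiniteDimensional K L] (y : Kˣ),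
    unitsIncl L K y ∈ intUnits A F L ↔ y ∈ intUnits A F K

/-- (LF4) automorphisms preserve the valuation. -/
def GaloisInvStatement : Prop :=
  ∀ (A F : Type) [CommRing A] [IsDomain A] [IsDiscreteValuationRing A]
    [IsAdicComplete (IsLocalRing.maximalIdeal A) A] [Finite (IsLocalRing.ResidueField A)]
    [Field F] [CharZero F] [Algebra A F] [IsFractionRing A F]
    (K : Type) [Field K] [Algebra F K] [FiniteDimensional F K]
    (L : Type) [Field L] [Algebra F L] [Algebra K L] [IsScalarTower F K L]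
    [FiniteDimensional K L] (σ : L ≃ₐ[K] L) (x : Lˣ),
    σ • x / x ∈ intUnits A F L

/-- (LF5) completeness and separatedness of the unit group for the `ϖ`-adic filtration,
`ϖ` any nonzero integral non-unit of `L`. -/
def UnitsCompleteStatement : Prop :=
  ∀ (A F : Type) [CommRing A] [IsDomain A] [IsDiscreteValuationRing A]
    [IsAdicComplete (IsLocalRing.maximalIdeal A) A] [Finite (IsLocalRing.ResidueField A)]
    [Field F] [CharZero F] [Algebra A F] [IsFractionRing A F]
    (L : Type) [Field L] [Algebra F L] [FiniteDimensional F L] (ϖ : L),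
    IsInt A F L ϖ → ϖ ≠ 0 → ¬ IsInt A F L ϖ⁻¹ →
    (∀ u : ℕ → Lˣ, (∀ j, u j ∈ higherUnits A F L ϖ j) →
      ∃ s : Lˣ, ∀ n, s / ∏ j ∈ Finset.range n, u j ∈ higherUnits A F L ϖ n) ∧
    (∀ x : Lˣ, (∀ j, x ∈ higherUnits A F L ϖ j) → x = 1)

/-- (LF6) higher unit groups have finite index in the unit group. -/
def HigherUnitsFiniteIndexStatement : Prop :=
  ∀ (A F : Type) [CommRing A] [IsDomain A] [IsDiscreteValuationRing A]
    [IsAdicComplete (IsLocalRing.maximalIdeal A) A] [Finite (IsLocalRing.ResidueField A)]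
    [Field F] [CharZero F] [Algebra A F] [IsFractionRing A F]
    (L : Type) [Field L] [Algebra F L] [FiniteDimensional F L] (ϖ : L),
    IsInt A F L ϖ → ϖ ≠ 0 → ∀ j, (higherUnits A F L ϖ j).relIndex (intUnits A F L) ≠ 0

/-- (LF7) valuation of a norm, general form: if `ϖK`, `ϖL` are uniformizers of `K`, `L` then
`N(ϖL) = unit * ϖK ^ f` and `ϖK = unit * ϖL ^ e` with `e * f = [L : K]`. -/
def RamificationStatement : Prop :=
  ∀ (A F : Type) [CommRing A] [IsDomain A] [IsDiscreteValuationRing A]
    [IsAdicComplete (IsLocalRing.maximalIdeal A) A] [Finite (IsLocalRing.ResidueField A)]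
    [Field F] [CharZero F] [Algebra A F] [IsFractionRing A F]
    (K : Type) [Field K] [Algebra F K] [FiniteDimensional F K]
    (L : Type) [Field L] [Algebra F L] [Algebra K L] [IsScalarTower F K L]
    [FiniteDimensional K L] (ϖK : Kˣ) (ϖL : Lˣ),
    IsUnif A F K ϖK → IsUnif A F L ϖL →
    ∃ e f : ℕ, e * f = Module.finrank K L ∧
      unitsIncl L K ϖK * ϖL ^ (-(e : ℤ)) ∈ intUnits A F L ∧
      normUnits L K ϖL * ϖK ^ (-(f : ℤ)) ∈ intUnits A F K

/-- (LF8) norms of integral units are integral units. -/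
def NormUnitsIntStatement : Prop :=
  ∀ (A F : Type) [CommRing A] [IsDomain A] [IsDiscreteValuationRing A]
    [IsAdicComplete (IsLocalRing.maximalIdeal A) A] [Finite (IsLocalRing.ResidueField A)]
    [Field F] [CharZero F] [Algebra A F] [IsFractionRing A F]
    (K : Type) [Field K] [Algebra F K] [FiniteDimensional F K]
    (L : Type) [Field L] [Algebra F L] [Algebra K L] [IsScalarTower F K L]
    [FiniteDimensional K L] (x : Lˣ),
    x ∈ intUnits A F L → normUnits L K x ∈ intUnits A F K

/-! ## Part UR : unramified extensions -/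

/-- (UR1) an unramified Galois extension is cyclic. -/
def UnramCyclicStatement : Prop :=
  ∀ (A F : Type) [CommRing A] [IsDomain A] [IsDiscreteValuationRing A]
    [IsAdicComplete (IsLocalRing.maximalIdeal A) A] [Finite (IsLocalRing.ResidueField A)]
    [Field F] [CharZero F] [Algebra A F] [IsFractionRing A F]
    (K : Type) [Field K] [Algebra F K] [FiniteDimensional F K]
    (L : Type) [Field L] [Algebra F L] [Algebra K L] [IsScalarTower F K L]
    [FiniteDimensional K L] [IsGalois K L],
    IsUnram A F L K → IsCyclic (L ≃ₐ[K] L)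

/-- (UR2) graded step for 1-cocycles with values in units of an unramified extension. -/
def UnramGradedH1Statement : Prop :=
  ∀ (A F : Type) [CommRing A] [IsDomain A] [IsDiscreteValuationRing A]
    [IsAdicComplete (IsLocalRing.maximalIdeal A) A] [Finite (IsLocalRing.ResidueField A)]
    [Field F] [CharZero F] [Algebra A F] [IsFractionRing A F]
    (K : Type) [Field K] [Algebra F K] [FiniteDimensional F K]
    (L : Type) [Field L] [Algebra F L] [Algebra K L] [IsScalarTower F K L]
    [FiniteDimensional K L] [IsGalois K L] (ϖK : Kˣ),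
    IsUnram A F L K → IsUnif A F K ϖK →
    ∀ j (c : (L ≃ₐ[K] L) → Lˣ), IsMulCocycle₁ c →
      (∀ g, c g ∈ higherUnits A F L (algebraMap K L ϖK) j) →
      ∃ m ∈ higherUnits A F L (algebraMap K L ϖK) j,
        ∀ g, c g / (g • m / m) ∈ higherUnits A F L (algebraMap K L ϖK) (j + 1)

/-- (UR3) graded step for 2-cocycles with values in units of an unramified extension. -/
def UnramGradedH2Statement : Prop :=
  ∀ (A F : Type) [CommRing A] [IsDomain A] [IsDiscreteValuationRing A]
    [IsAdicComplete (IsLocalRing.maximalIdeal A) A] [Finite (IsLocalRing.ResidueField A)]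
    [Field F] [CharZero F] [Algebra A F] [IsFractionRing A F]
    (K : Type) [Field K] [Algebra F K] [FiniteDimensional F K]
    (L : Type) [Field L] [Algebra F L] [Algebra K L] [IsScalarTower F K L]
    [FiniteDimensional K L] [IsGalois K L] (ϖK : Kˣ),
    IsUnram A F L K → IsUnif A F K ϖK →
    ∀ j (c : (L ≃ₐ[K] L) × (L ≃ₐ[K] L) → Lˣ), IsMulCocycle₂ c →
      (∀ p, c p ∈ higherUnits A F L (algebraMap K L ϖK) j) →
      ∃ x : (L ≃ₐ[K] L) → Lˣ, (∀ g, x g ∈ higherUnits A F L (algebraMap K L ϖK) j) ∧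
        ∀ g h, c (g, h) / (g • x h / x (g * h) * x g) ∈
          higherUnits A F L (algebraMap K L ϖK) (j + 1)

/-- (T1a) `H¹(Gal(L/K), U_L) = 0` for `L / K` unramified. -/
def UnramUnitsH1Statement : Prop :=
  ∀ (A F : Type) [CommRing A] [IsDomain A] [IsDiscreteValuationRing A]
    [IsAdicComplete (IsLocalRing.maximalIdeal A) A] [Finite (IsLocalRing.ResidueField A)]
    [Field F] [CharZero F] [Algebra A F] [IsFractionRing A F]
    (K : Type) [Field K] [Algebra F K] [FiniteDimensional F K]
    (L : Type) [Field L] [Algebra F L] [Algebra K L] [IsScalarTower F K L]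
    [FiniteDimensional K L] [IsGalois K L],
    IsUnram A F L K →
    ∀ c : (L ≃ₐ[K] L) → Lˣ, IsMulCocycle₁ c → (∀ g, c g ∈ intUnits A F L) →
      ∃ m ∈ intUnits A F L, ∀ g, g • m / m = c g

/-- (T1b) `H²(Gal(L/K), U_L) = 0` for `L / K` unramified. -/
def UnramUnitsH2Statement : Prop :=
  ∀ (A F : Type) [CommRing A] [IsDomain A] [IsDiscreteValuationRing A]
    [IsAdicComplete (IsLocalRing.maximalIdeal A) A] [Finite (IsLocalRing.ResidueField A)]
    [Field F] [CharZero F] [Algebra A F] [IsFractionRing A F]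
    (K : Type) [Field K] [Algebra F K] [FiniteDimensional F K]
    (L : Type) [Field L] [Algebra F L] [Algebra K L] [IsScalarTower F K L]
    [FiniteDimensional K L] [IsGalois K L],
    IsUnram A F L K →
    ∀ c : (L ≃ₐ[K] L) × (L ≃ₐ[K] L) → Lˣ, IsMulCocycle₂ c → (∀ p, c p ∈ intUnits A F L) →
      ∃ x : (L ≃ₐ[K] L) → Lˣ, (∀ g, x g ∈ intUnits A F L) ∧
        ∀ g h, g • x h / x (g * h) * x g = c (g, h)

/-- (UR4) in an unramified extension every unit of `K` is the norm of a unit of `L`. -/
def UnramNormUnitsStatement : Prop :=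
  ∀ (A F : Type) [CommRing A] [IsDomain A] [IsDiscreteValuationRing A]
    [IsAdicComplete (IsLocalRing.maximalIdeal A) A] [Finite (IsLocalRing.ResidueField A)]
    [Field F] [CharZero F] [Algebra A F] [IsFractionRing A F]
    (K : Type) [Field K] [Algebra F K] [FiniteDimensional F K]
    (L : Type) [Field L] [Algebra F L] [Algebra K L] [IsScalarTower F K L]
    [FiniteDimensional K L] [IsGalois K L],
    IsUnram A F L K →
    ∀ u ∈ intUnits A F K, ∃ w ∈ intUnits A F L, normUnits L K w = u

/-- (T2) norm group of an unramified extension of degree `n`: `unit * ϖK ^ m` is a norm iff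
`n ∣ m`. -/
def UnramNormRangeStatement : Prop :=
  ∀ (A F : Type) [CommRing A] [IsDomain A] [IsDiscreteValuationRing A]
    [IsAdicComplete (IsLocalRing.maximalIdeal A) A] [Finite (IsLocalRing.ResidueField A)]
    [Field F] [CharZero F] [Algebra A F] [IsFractionRing A F]
    (K : Type) [Field K] [Algebra F K] [FiniteDimensional F K]
    (L : Type) [Field L] [Algebra F L] [Algebra K L] [IsScalarTower F K L]
    [FiniteDimensional K L] [IsGalois K L] (ϖK : Kˣ),
    IsUnram A F L K → IsUnif A F K ϖK →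
    ∀ (u : Kˣ) (m : ℤ), u ∈ intUnits A F K →
      (u * ϖK ^ m ∈ (normUnits L K).range ↔ (Module.finrank K L : ℤ) ∣ m)

/-- (UR5) existence of unramified extensions on top of a given Galois extension: for `L / K`
finite Galois and `n ≥ 1` there is a finite extension `N / L`, Galois over `K`, with `N / L`
unramified (cyclic) of degree `n`. -/
def ExistsUnramExtStatement : Prop :=
  ∀ (A F : Type) [CommRing A] [IsDomain A] [IsDiscreteValuationRing A]
    [IsAdicComplete (IsLocalRing.maximalIdeal A) A] [Finite (IsLocalRing.ResidueField A)]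
    [Field F] [CharZero F] [Algebra A F] [IsFractionRing A F]
    (K : Type) [Field K] [Algebra F K] [FiniteDimensional F K]
    (L : Type) [Field L] [Algebra F L] [Algebra K L] [IsScalarTower F K L]
    [FiniteDimensional K L] [IsGalois K L] (n : ℕ), 0 < n →
    ∃ (N : Type) (_ : Field N) (_ : Algebra F N) (_ : Algebra K N) (_ : Algebra L N)
      (_ : IsScalarTower F K N) (_ : IsScalarTower F L N) (_ : IsScalarTower K L N)
      (_ : FiniteDimensional K N) (_ : IsGalois K N),
      IsUnram A F N L ∧ Module.finrank L N = n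

/-- (UR6) inertia: in a finite Galois extension `N / K` there is a normal subgroup `I` of
`Gal(N/K)` such that, for every intermediate field `E`, `N / E` is unramified iff
`Gal(N/E) ⊓ I = ⊥`, and `E / K` is unramified iff `I ≤ Gal(N/E)`. -/
def InertiaStatement : Prop :=
  ∀ (A F : Type) [CommRing A] [IsDomain A] [IsDiscreteValuationRing A]
    [IsAdicComplete (IsLocalRing.maximalIdeal A) A] [Finite (IsLocalRing.ResidueField A)]
    [Field F] [CharZero F] [Algebra A F] [IsFractionRing A F]
    (K : Type) [Field K] [Algebra F K] [FiniteDimensional F K]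
    (N : Type) [Field N] [Algebra F N] [Algebra K N] [IsScalarTower F K N]
    [FiniteDimensional K N] [IsGalois K N],
    ∃ I : Subgroup (N ≃ₐ[K] N), I.Normal ∧
      ∀ E : IntermediateField K N,
        letI : Algebra F E := ((algebraMap K E).comp (algebraMap F K)).toAlgebra
        (IsUnram A F N E ↔ E.fixingSubgroup ⊓ I = ⊥) ∧
        (IsUnram A F E K ↔ I ≤ E.fixingSubgroup)

/-! ## Part CY : cyclic extensions (Herbrand quotient) -/

/-- (CY1) a cohomologically trivial subgroup of finite index in the units of a cyclic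
extension. -/
def CyclicGoodSubgroupStatement : Prop :=
  ∀ (A F : Type) [CommRing A] [IsDomain A] [IsDiscreteValuationRing A]
    [IsAdicComplete (IsLocalRing.maximalIdeal A) A] [Finite (IsLocalRing.ResidueField A)]
    [Field F] [CharZero F] [Algebra A F] [IsFractionRing A F]
    (K : Type) [Field K] [Algebra F K] [FiniteDimensional F K]
    (L : Type) [Field L] [Algebra F L] [Algebra K L] [IsScalarTower F K L]
    [FiniteDimensional K L] [IsGalois K L] (σ : L ≃ₐ[K] L), (∀ g, g ∈ Subgroup.zpowers σ) →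
    ∃ V : Subgroup Lˣ, V ≤ intUnits A F L ∧ V.relIndex (intUnits A F L) ≠ 0 ∧
      (∀ g : L ≃ₐ[K] L, ∀ x ∈ V, g • x ∈ V) ∧
      (∀ x ∈ V, σ • x = x → ∃ y ∈ V, ∏ g : L ≃ₐ[K] L, g • y = x) ∧
      (∀ x ∈ V, ∏ g : L ≃ₐ[K] L, g • x = 1 → ∃ y ∈ V, σ • y / y = x)

/-- (T3) local norm index: `[Kˣ : N(Lˣ)] = [L : K]` for `L / K` cyclic. -/
def CyclicNormIndexStatement : Prop :=
  ∀ (A F : Type) [CommRing A] [IsDomain A] [IsDiscreteValuationRing A]
    [IsAdicComplete (IsLocalRing.maximalIdeal A) A] [Finite (IsLocalRing.ResidueField A)]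
    [Field F] [CharZero F] [Algebra A F] [IsFractionRing A F]
    (K : Type) [Field K] [Algebra F K] [FiniteDimensional F K]
    (L : Type) [Field L] [Algebra F L] [Algebra K L] [IsScalarTower F K L]
    [FiniteDimensional K L] [IsGalois K L],
    IsCyclic (L ≃ₐ[K] L) → (normUnits L K).range.index = Module.finrank K L

/-- (T3') `|H²(Gal(L/K), Lˣ)| = [L : K]` for `L / K` cyclic. -/
def CyclicH2CardStatement : Prop :=
  ∀ (A F : Type) [CommRing A] [IsDomain A] [IsDiscreteValuationRing A]
    [IsAdicComplete (IsLocalRing.maximalIdeal A) A] [Finite (IsLocalRing.ResidueField A)]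
    [Field F] [CharZero F] [Algebra A F] [IsFractionRing A F]
    (K : Type) [Field K] [Algebra F K] [FiniteDimensional F K]
    (L : Type) [Field L] [Algebra F L] [Algebra K L] [IsScalarTower F K L]
    [FiniteDimensional K L] [IsGalois K L],
    IsCyclic (L ≃ₐ[K] L) → Nat.card (H2 (Rep.ofAlgebraAutOnUnits K L)) = Module.finrank K L

/-! ## Part G : general Galois extensions -/

/-- (T4) upper bound: `|H²(Gal(L/K), Lˣ)|` divides `[L : K]`. -/
def H2CardDvdStatement : Prop :=
  ∀ (A F : Type) [CommRing A] [IsDomain A] [IsDiscreteValuationRing A]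
    [IsAdicComplete (IsLocalRing.maximalIdeal A) A] [Finite (IsLocalRing.ResidueField A)]
    [Field F] [CharZero F] [Algebra A F] [IsFractionRing A F]
    (K : Type) [Field K] [Algebra F K] [FiniteDimensional F K]
    (L : Type) [Field L] [Algebra F L] [Algebra K L] [IsScalarTower F K L]
    [FiniteDimensional K L] [IsGalois K L],
    Nat.card (H2 (Rep.ofAlgebraAutOnUnits K L)) ∣ Module.finrank K L

/-- (T5) MAIN THEOREM of the layer: `H²(Gal(L/K), Lˣ)` is cyclic of order `[L : K]`. -/
def H2CyclicStatement : Prop :=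
  ∀ (A F : Type) [CommRing A] [IsDomain A] [IsDiscreteValuationRing A]
    [IsAdicComplete (IsLocalRing.maximalIdeal A) A] [Finite (IsLocalRing.ResidueField A)]
    [Field F] [CharZero F] [Algebra A F] [IsFractionRing A F]
    (K : Type) [Field K] [Algebra F K] [FiniteDimensional F K]
    (L : Type) [Field L] [Algebra F L] [Algebra K L] [IsScalarTower F K L]
    [FiniteDimensional K L] [IsGalois K L],
    Nat.card (H2 (Rep.ofAlgebraAutOnUnits K L)) = Module.finrank K L ∧
      IsAddCyclic (H2 (Rep.ofAlgebraAutOnUnits K L))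

end Fermat.Agent.S55.Local

end
-- ===== PACK-END S55/Local/Spec.lean

-- ===== PACK-BEGIN S55/H119/ResCoresRep.lean
section



/-!
# Restriction–corestriction for `groupCohomology` in degrees 1 and 2 (helper119)

For `A : Rep k G`, `H ≤ G` of finite index and `x ∈ Hⁿ(G, A)` (`n = 1, 2`) with
`res_H x = 0`, we have `[G : H] • x = 0`.
-/

set_option autoImplicit false
set_option linter.style.haveILetI false

namespace Fermat.Agent.S55.H119

open groupCohomology Rep CategoryTheory

universe u

variable {k G : Type u} [CommRing k] [Group G] (A : Rep k G) (H : Subgroup G)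

/-- The restriction map `Hⁿ(G, A) ⟶ Hⁿ(H, A)`. -/
noncomputable abbrev resMap (n : ℕ) :
    groupCohomology A n ⟶ groupCohomology (res H.subtype A) n :=
  groupCohomology.map H.subtype (𝟙 (res H.subtype A)) n

/-- The `G`-action on the underlying module of a representation, as a `DistribMulAction`
(not an instance). -/
@[reducible] noncomputable def repDistribMulAction : DistribMulAction G A.V :=
  DistribMulAction.compHom A.V (A.ρ : G →* Module.End k A.V)

theorem repDistribMulAction_smul (g : G) (a : A.V) :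
    letI := repDistribMulAction A
    g • a = A.ρ g a := rfl

variable [H.FiniteIndex]

theorem index_nsmul_eq_zero_of_resMap_eq_zero_one (x : H1 A)
    (hx : resMap A H 1 x = 0) : H.index • x = 0 := by
  letI := repDistribMulAction A
  induction x using H1_induction_on with
  | h c =>
    rw [resMap, H1π_comp_map_apply, H1π_eq_zero_iff] at hx
    rw [← map_nsmul, H1π_eq_zero_iff]
    obtain ⟨y, hy⟩ := hx
    have hc : IsCocycle₁ (c : G → A.V) := fun g h => (mem_cocycles₁_iff (c : G → A.V)).1 c.2 g h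
    have hres : IsCoboundary₁ (fun h : H => (c : G → A.V) (h : G)) := by
      refine ⟨y, fun h => ?_⟩
      have := congrFun hy h
      exact this
    obtain ⟨z, hz⟩ := isCoboundary₁_index_nsmul H hc hres
    refine ⟨z, funext fun g => ?_⟩
    exact hz g

theorem index_nsmul_eq_zero_of_resMap_eq_zero_two (x : H2 A)
    (hx : resMap A H 2 x = 0) : H.index • x = 0 := by
  letI := repDistribMulAction A
  induction x using H2_induction_on with
  | h c =>
    rw [resMap, H2π_comp_map_apply, H2π_eq_zero_iff] at hx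
    rw [← map_nsmul, H2π_eq_zero_iff]
    obtain ⟨y, hy⟩ := hx
    have hc : IsCocycle₂ (c : G × G → A.V) :=
      fun g h j => (mem_cocycles₂_iff (c : G × G → A.V)).1 c.2 g h j
    have hres : IsCoboundary₂ (fun p : H × H => (c : G × G → A.V) ((p.1 : G), (p.2 : G))) := by
      refine ⟨y, fun h₁ h₂ => ?_⟩
      have := congrFun hy (h₁, h₂)
      exact this
    obtain ⟨z, hz⟩ := isCoboundary₂_index_nsmul H hc hres
    refine ⟨z, funext fun g => ?_⟩
    exact hz g.1 g.2

end Fermat.Agent.S55.H119

end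
-- ===== PACK-END S55/H119/ResCoresRep.lean

-- ===== PACK-BEGIN S55/Local/H964/Galois.lean
section


/-!
# S55, layer L, T5 glue: Galois-theoretic transport (helper964)

Setting: a tower `K ⊆ L ⊆ N` with `N / K` finite Galois and `L / K` normal.
`resHom : Gal(N/K) →* Gal(L/K)` is the restriction, `kerRes` its kernel (`≃ Gal(N/L)`).

* `unitsIncl_resHom_smul` : equivariance of `Lˣ → Nˣ`.
* `exists_unitsIncl_eq_of_fixed` : the units of `N` fixed by `kerRes` are the units of `L`.
* `hilbert90_kerRes` : `H¹(kerRes, Nˣ) = 1` on cocycles.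
* `prod_kerRes_smul` : `∏_{s ∈ kerRes} s • y = N_{N/L}(y)`.
* `card_kerRes` : `|kerRes| = [N : L]`.
-/

set_option autoImplicit false
set_option linter.style.haveILetI false

namespace Fermat.Agent.S55.Local.H964

open Fermat.Agent.S55.Local

section Tower

variable (K L N : Type) [Field K] [Field L] [Field N] [Algebra K L] [Algebra K N] [Algebra L N]
  [IsScalarTower K L N] [Normal K L]

/-- Restriction `Gal(N/K) →* Gal(L/K)`. -/
noncomputable def resHom : (N ≃ₐ[K] N) →* (L ≃ₐ[K] L) := AlgEquiv.restrictNormalHom L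

/-- The kernel of the restriction `Gal(N/K) →* Gal(L/K)` (`≃ Gal(N/L)`). -/
noncomputable def kerRes : Subgroup (N ≃ₐ[K] N) := (resHom K L N).ker

instance : (kerRes K L N).Normal := by unfold kerRes; infer_instance

variable {K L N}

lemma algebraMap_resHom (g : N ≃ₐ[K] N) (x : L) :
    algebraMap L N (resHom K L N g x) = g (algebraMap L N x) :=
  AlgEquiv.restrictNormal_commutes g L x

lemma mem_kerRes_iff (g : N ≃ₐ[K] N) :
    g ∈ kerRes K L N ↔ ∀ x : L, g (algebraMap L N x) = algebraMap L N x := by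
  unfold kerRes
  rw [MonoidHom.mem_ker]
  constructor
  · intro h x
    rw [← algebraMap_resHom, h]; rfl
  · intro h
    ext x
    apply (algebraMap L N).injective
    rw [algebraMap_resHom, h]; rfl

/-- Equivariance of the inclusion `Lˣ → Nˣ`. -/
lemma unitsIncl_resHom_smul (g : N ≃ₐ[K] N) (y : Lˣ) :
    unitsIncl N L (resHom K L N g • y) = g • unitsIncl N L y := by
  apply Units.ext
  rw [AlgEquiv.smul_units_def, AlgEquiv.smul_units_def]
  simp only [unitsIncl_coe, Units.coe_map, MonoidHom.coe_coe]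
  exact algebraMap_resHom g (y : L)

lemma unitsIncl_injective : Function.Injective (unitsIncl N L) := by
  intro a b h
  apply Units.ext
  apply (algebraMap L N).injective
  have := congrArg (fun u : Nˣ => (u : N)) h
  simpa using this

lemma smul_unitsIncl_of_mem_kerRes {s : N ≃ₐ[K] N} (hs : s ∈ kerRes K L N) (y : Lˣ) :
    s • unitsIncl N L y = unitsIncl N L y := by
  apply Units.ext
  rw [AlgEquiv.smul_units_def]
  simp only [unitsIncl_coe, Units.coe_map, MonoidHom.coe_coe]
  exact (mem_kerRes_iff s).1 hs _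

/-- An `L`-automorphism of `N`, viewed in `kerRes`. -/
def toKerRes (σ : N ≃ₐ[L] N) : kerRes K L N :=
  ⟨σ.restrictScalars K, (mem_kerRes_iff _).2 fun x => σ.commutes x⟩

/-- An element of `kerRes` as an `L`-automorphism of `N`. -/
def ofKerRes (s : kerRes K L N) : N ≃ₐ[L] N :=
  { (s : N ≃ₐ[K] N).toRingEquiv with
    commutes' := fun x => (mem_kerRes_iff _).1 s.2 x }

@[simp] lemma ofKerRes_apply (s : kerRes K L N) (x : N) :
    ofKerRes s x = (s : N ≃ₐ[K] N) x := rfl

@[simp] lemma toKerRes_apply (σ : N ≃ₐ[L] N) (x : N) :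
    ((toKerRes σ : kerRes K L N) : N ≃ₐ[K] N) x = σ x := rfl

/-- `kerRes ≃ Gal(N/L)`. -/
def kerResEquiv : kerRes K L N ≃ (N ≃ₐ[L] N) where
  toFun := ofKerRes
  invFun := toKerRes
  left_inv s := by
    apply Subtype.ext
    ext x
    rfl
  right_inv σ := by
    ext x
    rfl

lemma ofKerRes_mul (s t : kerRes K L N) : ofKerRes (s * t) = ofKerRes s * ofKerRes t := by
  ext x
  rfl

lemma ofKerRes_smul (s : kerRes K L N) (z : Nˣ) :
    ofKerRes s • z = (s : N ≃ₐ[K] N) • z := by
  apply Units.ext
  rw [AlgEquiv.smul_units_def, AlgEquiv.smul_units_def]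
  rfl

variable [FiniteDimensional K N] [IsGalois K N]

lemma card_kerRes : Nat.card (kerRes K L N) = Module.finrank L N := by
  haveI : FiniteDimensional L N := Module.Finite.of_restrictScalars_finite K L N
  haveI : IsGalois L N := IsGalois.tower_top_of_isGalois K L N
  rw [Nat.card_congr (kerResEquiv (K := K) (L := L) (N := N)), IsGalois.card_aut_eq_finrank]

lemma resHom_surjective : Function.Surjective (resHom K L N) :=
  AlgEquiv.restrictNormalHom_surjective N

/-- The units of `N` fixed by `kerRes` come from `L`. -/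
lemma exists_unitsIncl_eq_of_fixed (z : Nˣ)
    (hz : ∀ s ∈ kerRes K L N, s • z = z) : ∃ y : Lˣ, unitsIncl N L y = z := by
  haveI : FiniteDimensional L N := Module.Finite.of_restrictScalars_finite K L N
  haveI : IsGalois L N := IsGalois.tower_top_of_isGalois K L N
  have hfix : ∀ σ : N ≃ₐ[L] N, σ (z : N) = z := by
    intro σ
    have := hz (toKerRes σ : kerRes K L N) (toKerRes σ).2
    have h2 := congrArg (fun u : Nˣ => (u : N)) this
    simpa [AlgEquiv.smul_units_def] using h2
  obtain ⟨y₀, hy₀⟩ := (IsGalois.mem_range_algebraMap_iff_fixed (F := L) (E := N) (z : N)).2 hfix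
  have hne : y₀ ≠ 0 := by
    rintro rfl
    rw [map_zero] at hy₀
    exact z.ne_zero hy₀.symm
  refine ⟨Units.mk0 y₀ hne, ?_⟩
  apply Units.ext
  simpa using hy₀

/-- Hilbert 90 for `kerRes ≃ Gal(N/L)` acting on `Nˣ`, on cocycles. -/
lemma hilbert90_kerRes (w : kerRes K L N → Nˣ)
    (hw : ∀ s t : kerRes K L N, w (s * t) = (s : N ≃ₐ[K] N) • w t * w s) :
    ∃ a : Nˣ, ∀ s : kerRes K L N, w s = (s : N ≃ₐ[K] N) • a / a := by
  haveI : FiniteDimensional L N := Module.Finite.of_restrictScalars_finite K L N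
  have hcoc : groupCohomology.IsMulCocycle₁ (fun σ : N ≃ₐ[L] N => w (toKerRes σ)) := by
    intro σ τ
    have := hw (toKerRes σ) (toKerRes τ)
    have e : (toKerRes (σ * τ) : kerRes K L N) = toKerRes σ * toKerRes τ := by
      apply Subtype.ext
      ext x
      rfl
    show w (toKerRes (σ * τ)) = σ • w (toKerRes τ) * w (toKerRes σ)
    rw [e, this]
    congr 1
  obtain ⟨a, ha⟩ := groupCohomology.isMulCoboundary₁_of_isMulCocycle₁_of_aut_to_units _ hcoc
  refine ⟨a, fun s => ?_⟩
  have := ha (ofKerRes s)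
  have e : (toKerRes (ofKerRes s) : kerRes K L N) = s := by
    apply Subtype.ext
    ext x
    rfl
  simp only [e] at this
  rw [← this, ofKerRes_smul]

/-- The product over `kerRes` is the norm `N → L`. -/
lemma prod_kerRes_smul [Fintype (kerRes K L N)] (y : Nˣ) :
    ∏ s : kerRes K L N, (s : N ≃ₐ[K] N) • y = unitsIncl N L (normUnits N L y) := by
  classical
  haveI : FiniteDimensional L N := Module.Finite.of_restrictScalars_finite K L N
  haveI : IsGalois L N := IsGalois.tower_top_of_isGalois K L N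
  apply Units.ext
  rw [unitsIncl_coe, normUnits_coe, Algebra.norm_eq_prod_automorphisms L (y : N)]
  rw [Units.coe_prod]
  refine Finset.prod_bij' (fun s _ => ofKerRes s) (fun σ _ => toKerRes σ) ?_ ?_ ?_ ?_ ?_
  · intro s _; exact Finset.mem_univ _
  · intro σ _; exact Finset.mem_univ _
  · intro s _
    apply Subtype.ext
    ext x
    rfl
  · intro σ _
    ext x
    rfl
  · intro s _
    rw [AlgEquiv.smul_units_def]
    rfl

end Tower

end Fermat.Agent.S55.Local.H964

end
-- ===== PACK-END S55/Local/H964/Galois.lean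

-- ===== PACK-BEGIN S55/Local/H964/Cocycle.lean
section


/-!
# S55, layer L, T5 glue: multiplicative form of inflation–restriction in degree 2 (helper964)

Multiplicative wrappers around helper954's cochain-level core
(`Fermat.Agent.S55.H954.exists_inflated_of_res_coboundary`,
`exists_invariant_cochain_of_inf_coboundary`), for a group `G` acting on a commutative group `M`
by a `MulDistribMulAction`.
-/

set_option autoImplicit false
set_option linter.style.haveILetI false

namespace Fermat.Agent.S55.Local.H964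

open groupCohomology Fermat.Agent.S55.H954

variable {G : Type} (M : Type) [Group G] [CommGroup M] [MulDistribMulAction G M]

/-- `H¹(S, M) = 1`, on multiplicative cocycles. -/
def MulHOneVanishes (S : Subgroup G) : Prop :=
  ∀ w : S → M, (∀ s t : S, w (s * t) = (s : G) • w t * w s) →
    ∃ a : M, ∀ s : S, w s = (s : G) • a / a

variable {M}

/-- The multiplicative coboundary of a 1-cochain. -/
def dMul (c : G → M) : G × G → M := fun p => p.1 • c p.2 / c (p.1 * p.2) * c p.1

lemma dMul_apply (c : G → M) (g h : G) : dMul c (g, h) = g • c h / c (g * h) * c g := rfl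

lemma isMulCoboundary₂_iff (f : G × G → M) :
    IsMulCoboundary₂ f ↔ ∃ c : G → M, ∀ g h, f (g, h) = dMul c (g, h) := by
  constructor
  · rintro ⟨c, hc⟩
    exact ⟨c, fun g h => (hc g h).symm⟩
  · rintro ⟨c, hc⟩
    exact ⟨c, fun g h => (hc g h).symm⟩

private lemma hOneVanishes_of_mul {S : Subgroup G} (h : MulHOneVanishes M S) :
    HOneVanishes (Representation.ofMulDistribMulAction G M) S := by
  intro w hw
  obtain ⟨a, ha⟩ := h (fun s => Additive.toMul (w s)) (fun s t => by
    have := hw s t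
    have h2 := congrArg Additive.toMul this
    simpa [Representation.ofMulDistribMulAction_apply_apply, mul_comm] using h2)
  refine ⟨Additive.ofMul a, fun s => ?_⟩
  have := ha s
  apply Additive.toMul.injective
  simpa [Representation.ofMulDistribMulAction_apply_apply] using this

private lemma isTwoCocycle_of_mul {f : G × G → M} (hf : IsMulCocycle₂ f) :
    IsTwoCocycle (Representation.ofMulDistribMulAction G M) (fun p => Additive.ofMul (f p)) := by
  intro g h j
  have := hf g h j
  apply Additive.toMul.injective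
  simpa [Representation.ofMulDistribMulAction_apply_apply] using this

private lemma isMulCocycle₂_of_add {f : G × G → Additive M}
    (hf : IsTwoCocycle (Representation.ofMulDistribMulAction G M) f) :
    IsMulCocycle₂ (fun p => Additive.toMul (f p)) := by
  intro g h j
  have := hf g h j
  have h2 := congrArg Additive.toMul this
  simpa [Representation.ofMulDistribMulAction_apply_apply] using h2

/-- **Inflation–restriction in degree 2, exactness** (multiplicative cochain form). -/
theorem mul_exists_inflated (S : Subgroup G) [S.Normal] (hH1 : MulHOneVanishes M S)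
    {f : G × G → M} (hf : IsMulCocycle₂ f) (φ : S → M)
    (hφ : ∀ s t : S, f ((s : G), (t : G)) = (s : G) • φ t / φ (s * t) * φ s) :
    ∃ (c : G → M) (f' : G × G → M), (∀ g h, f (g, h) = f' (g, h) * dMul c (g, h)) ∧
      IsMulCocycle₂ f' ∧
      (∀ s ∈ S, ∀ g h : G, f' (g, h * s) = f' (g, h)) ∧
      (∀ s ∈ S, ∀ g h : G, f' (g * s, h) = f' (g, h)) ∧
      (∀ s ∈ S, ∀ g h : G, s • f' (g, h) = f' (g, h)) := by
  obtain ⟨c, f', hff', hf', i2, i1, i3⟩ :=
    exists_inflated_of_res_coboundary (Representation.ofMulDistribMulAction G M) S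
      (hOneVanishes_of_mul hH1) (isTwoCocycle_of_mul hf) (fun s => Additive.ofMul (φ s))
      (fun s t => by
        have := hφ s t
        apply Additive.toMul.injective
        simpa [Representation.ofMulDistribMulAction_apply_apply] using this)
  refine ⟨fun g => Additive.toMul (c g), fun p => Additive.toMul (f' p), ?_,
    isMulCocycle₂_of_add hf', ?_, ?_, ?_⟩
  · intro g h
    have := congr_fun hff' (g, h)
    have h2 := congrArg Additive.toMul this
    simpa [dOne_apply, dMul_apply, Representation.ofMulDistribMulAction_apply_apply] using h2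
  · intro s hs g h
    exact congrArg Additive.toMul (i2 s hs g h)
  · intro s hs g h
    exact congrArg Additive.toMul (i1 s hs g h)
  · intro s hs g h
    have := congrArg Additive.toMul (i3 s hs g h)
    simpa [Representation.ofMulDistribMulAction_apply_apply] using this

/-- **Inflation–restriction in degree 2, injectivity of inflation** (multiplicative cochain
form). -/
theorem mul_exists_invariant_cochain (S : Subgroup G) [S.Normal] (hH1 : MulHOneVanishes M S)
    {f' : G × G → M}
    (hinv2 : ∀ s ∈ S, ∀ g h : G, f' (g, h * s) = f' (g, h))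
    (hinv1 : ∀ s ∈ S, ∀ g h : G, f' (g * s, h) = f' (g, h))
    (hval : ∀ s ∈ S, ∀ g h : G, s • f' (g, h) = f' (g, h))
    (c : G → M) (hc : ∀ g h, f' (g, h) = dMul c (g, h)) :
    ∃ c' : G → M, (∀ g h, f' (g, h) = dMul c' (g, h)) ∧
      (∀ s ∈ S, ∀ g : G, c' (g * s) = c' g) ∧ (∀ s ∈ S, ∀ g : G, s • c' g = c' g) := by
  obtain ⟨c', hd, hr, hv⟩ :=
    exists_invariant_cochain_of_inf_coboundary (Representation.ofMulDistribMulAction G M) S
      (hOneVanishes_of_mul hH1) (f' := fun p => Additive.ofMul (f' p))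
      (fun s hs g h => congrArg Additive.ofMul (hinv2 s hs g h))
      (fun s hs g h => congrArg Additive.ofMul (hinv1 s hs g h))
      (fun s hs g h => by
        have := hval s hs g h
        apply Additive.toMul.injective
        simpa [Representation.ofMulDistribMulAction_apply_apply] using this)
      (fun g => Additive.ofMul (c g))
      (by
        funext ⟨g, h⟩
        have := hc g h
        apply Additive.toMul.injective
        simpa [dOne_apply, dMul_apply, Representation.ofMulDistribMulAction_apply_apply]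
          using this)
  refine ⟨fun g => Additive.toMul (c' g), ?_, ?_, ?_⟩
  · intro g h
    have := congr_fun hd (g, h)
    have h2 := congrArg Additive.toMul this
    simpa [dOne_apply, dMul_apply, Representation.ofMulDistribMulAction_apply_apply] using h2
  · intro s hs g
    exact congrArg Additive.toMul (hr s hs g)
  · intro s hs g
    have := congrArg Additive.toMul (hv s hs g)
    simpa [Representation.ofMulDistribMulAction_apply_apply] using this

end Fermat.Agent.S55.Local.H964

end
-- ===== PACK-END S55/Local/H964/Cocycle.lean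

-- ===== PACK-BEGIN S55/Local/H585/IntCore.lean
section





/-!
# S55, layer L, piece LF0 (helper585): the ring of integers of a local field

`A` complete DVR, `F = Frac A` of characteristic zero, `L / F` finite.  With an `A`-algebra
structure on `L` compatible with `F` (`[Algebra A L] [IsScalarTower A F L]`),
`B := integralClosure A L` is a finite `A`-module, a Dedekind domain, local, hence a DVR, and it
is complete for the `m_A`-adic topology.
-/

set_option autoImplicit false
set_option linter.unusedSectionVars false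

namespace Fermat.Agent.S55.Local.H585

open IsLocalRing

section Core

variable (A F : Type) [CommRing A] [IsDomain A] [IsDiscreteValuationRing A]
    [IsAdicComplete (IsLocalRing.maximalIdeal A) A]
    [Field F] [CharZero F] [Algebra A F] [IsFractionRing A F]
    (L : Type) [Field L] [Algebra F L] [FiniteDimensional F L]
    [Algebra A L] [IsScalarTower A F L]

include F in
theorem isFractionRing_int : IsFractionRing (integralClosure A L) L :=
  integralClosure.isFractionRing_of_finite_extension F L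

include F in
theorem isDedekindDomain_int : IsDedekindDomain (integralClosure A L) :=
  integralClosure.isDedekindDomain A F L

include F in
theorem moduleFinite_int : Module.Finite A (integralClosure A L) :=
  IsIntegralClosure.finite A F L (integralClosure A L)

/-- A domain which is a finite algebra over a complete noetherian local ring is local. -/
theorem isLocalRing_of_finite_of_isDomain (𝒪 : Type) [CommRing 𝒪] [IsLocalRing 𝒪]
    [IsNoetherianRing 𝒪] [IsAdicComplete (IsLocalRing.maximalIdeal 𝒪) 𝒪]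
    (B : Type) [CommRing B] [IsDomain B] [Algebra 𝒪 B] [Module.Finite 𝒪 B] : IsLocalRing B := by
  classical
  obtain ⟨-, hbij, -, -⟩ :=
    Algebra.finite_maximalSpectrum_and_bijective_localization_of_module_finite (𝒪 := 𝒪) B
  have hsub : Subsingleton (MaximalSpectrum B) := by
    refine ⟨fun I J => ?_⟩
    by_contra hIJ
    obtain ⟨b, hb⟩ := hbij.2 (Pi.single I 1)
    obtain ⟨b', hb'⟩ := hbij.2 (Pi.single J 1)
    have hzero : b * b' = 0 := by
      apply hbij.1
      rw [map_mul, hb, hb', map_zero]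
      funext K
      by_cases hK : K = I
      · subst hK
        simp [Pi.single_eq_of_ne hIJ]
      · simp [Pi.single_eq_of_ne hK]
    rcases mul_eq_zero.mp hzero with h | h
    · have := congrFun hb I
      rw [h, map_zero] at this
      simp at this
    · have := congrFun hb' J
      rw [h, map_zero] at this
      simp at this
  obtain ⟨m, hm⟩ := Ideal.exists_maximal B
  refine IsLocalRing.of_unique_max_ideal ⟨m, hm, fun J hJ => ?_⟩
  have := hsub.elim ⟨J, hJ⟩ ⟨m, hm⟩
  exact congrArg MaximalSpectrum.asIdeal this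

include F in
theorem isLocalRing_int : IsLocalRing (integralClosure A L) :=
  haveI := moduleFinite_int A F L
  isLocalRing_of_finite_of_isDomain A (integralClosure A L)

include F in
theorem algebraMap_int_injective :
    Function.Injective (algebraMap A (integralClosure A L)) := by
  intro x y h
  have h' := congrArg (algebraMap (integralClosure A L) L) h
  rw [← IsScalarTower.algebraMap_apply, ← IsScalarTower.algebraMap_apply,
    IsScalarTower.algebraMap_apply A F L, IsScalarTower.algebraMap_apply A F L] at h'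
  exact IsFractionRing.injective A F ((algebraMap F L).injective h')

include F in
theorem not_isField_int : ¬ IsField (integralClosure A L) := fun h =>
  IsDiscreteValuationRing.not_isField A
    (isField_of_isIntegral_of_isField (algebraMap_int_injective A F L) h)

include F in
theorem isDVR_int : IsDiscreteValuationRing (integralClosure A L) := by
  have := isLocalRing_int A F L
  have hD := isDedekindDomain_int A F L
  exact ((IsDiscreteValuationRing.TFAE (integralClosure A L) (not_isField_int A F L)).out 0 2).mpr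
    hD

include F in
theorem isAdicComplete_int :
    haveI := isLocalRing_int A F L
    IsAdicComplete (IsLocalRing.maximalIdeal (integralClosure A L)) (integralClosure A L) := by
  have := isLocalRing_int A F L
  have := moduleFinite_int A F L
  have : FaithfulSMul A (integralClosure A L) :=
    (faithfulSMul_iff_algebraMap_injective A _).mpr (algebraMap_int_injective A F L)
  exact IsLocalRing.isAdicComplete_of_module_finite (𝒪 := A) (T := integralClosure A L)

include F in
theorem finite_residueField_int [Finite (ResidueField A)] :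
    haveI := isLocalRing_int A F L
    Finite (ResidueField (integralClosure A L)) := by
  have := isLocalRing_int A F L
  have := moduleFinite_int A F L
  have : FaithfulSMul A (integralClosure A L) :=
    (faithfulSMul_iff_algebraMap_injective A _).mpr (algebraMap_int_injective A F L)
  exact Module.finite_of_finite (ResidueField A)

include F in
/-- Every nonzero ideal of the ring of integers is a power of the maximal ideal. -/
theorem exists_eq_maximalIdeal_pow (I : Ideal (integralClosure A L)) (hI : I ≠ ⊥) :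
    haveI := isLocalRing_int A F L
    ∃ k : ℕ, I = IsLocalRing.maximalIdeal (integralClosure A L) ^ k := by
  have := isLocalRing_int A F L
  have := isDVR_int A F L
  obtain ⟨π, hπ⟩ := IsDiscreteValuationRing.exists_irreducible (integralClosure A L)
  obtain ⟨k, hk⟩ := IsDiscreteValuationRing.ideal_eq_span_pow_irreducible hI hπ
  refine ⟨k, ?_⟩
  rw [hk, (IsDiscreteValuationRing.irreducible_iff_uniformizer π).mp hπ, Ideal.span_singleton_pow]

include F in
theorem finite_quotient_int [Finite (ResidueField A)] (I : Ideal (integralClosure A L))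
    (hI : I ≠ ⊥) : Finite (integralClosure A L ⧸ I) := by
  have := isLocalRing_int A F L
  have := isDVR_int A F L
  obtain ⟨k, hk⟩ := exists_eq_maximalIdeal_pow A F L I hI
  rw [hk]
  have : Finite (integralClosure A L ⧸ IsLocalRing.maximalIdeal (integralClosure A L)) :=
    finite_residueField_int A F L
  exact Ideal.finite_quotient_pow (IsNoetherian.noetherian _) k

end Core

end Fermat.Agent.S55.Local.H585

end
-- ===== PACK-END S55/Local/H585/IntCore.lean

-- ===== PACK-BEGIN S55/H593/Dev/Ind.lean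
section


/-!
# S55: abstract dévissage, part 2: induced modules `(G ⧸ P →₀ A)` and their filtrations (helper593)

* `dInd P A = (G ⧸ P →₀ A)` with the diagonal action (the same definition as `PT.indRep`,
  `K.indG`, `KL.indR`);
* `aug`, `diag` (`P` of finite index): `A` is a retract of `dInd P A` if `[G : P]` is invertible;
* `subI P A N` for a submodule `N ≤ A`: the `G`-stable submodule
  `{f | ∀ g, g⁻¹ • f(gP) ∈ N}` of `dInd P A`  (`= Ind_P^G N` if `N` is `P`-stable);
* `piPsi ψ : subI P A N → (G ⧸ P →₀ k)` for a `P`-invariant functional `ψ : N → k`: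
  equivariant, kernel `subI P A (ker ψ)`, surjective if `ψ ≠ 0`;
* `theta m₀ : (G ⧸ P →₀ k) → dInd P A` for a `P`-fixed vector `m₀` (equivariant).

Mathlib only.
-/

set_option autoImplicit false
set_option linter.style.haveILetI false

noncomputable section

namespace Fermat.Agent.S55.H593.Dev

open groupCohomology

variable {G : Type} [Group G] {k : Type} [CommRing k]

/-! ## The induced module -/

/-- The diagonal representation of `G` on `(G ⧸ P →₀ A)`:
`g • single x a = single (g • x) (g • a)`. -/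
def dIndρ (P : Subgroup G) (A : Rep.{0, 0, 0} k G) : Representation k G ((G ⧸ P) →₀ A) where
  toFun g := (Finsupp.lmapDomain A k (fun x : G ⧸ P => g • x)).comp
    (Finsupp.mapRange.linearMap (A.ρ g))
  map_one' := by
    ext x a : 2
    simp
  map_mul' g h := by
    ext x a : 2
    simp [mul_smul]

/-- `Ind_P A = (G ⧸ P →₀ A)` with the diagonal action. -/
def dInd (P : Subgroup G) (A : Rep.{0, 0, 0} k G) : Rep.{0, 0, 0} k G := Rep.of (dIndρ P A)

lemma dIndρ_single (P : Subgroup G) (A : Rep.{0, 0, 0} k G) (g : G) (x : G ⧸ P) (a : A) :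
    dIndρ P A g (Finsupp.single x a) = Finsupp.single (g • x) (A.ρ g a) := by
  simp [dIndρ]

/-- The action in coordinates: `(g • f)(y) = g • f(g⁻¹ • y)`. -/
lemma dIndρ_apply (P : Subgroup G) (A : Rep.{0, 0, 0} k G) (g : G) (f : (G ⧸ P) →₀ A)
    (y : G ⧸ P) : dIndρ P A g f y = A.ρ g (f (g⁻¹ • y)) := by
  have hy : y = g • (g⁻¹ • y) := by rw [smul_inv_smul]
  show (Finsupp.mapDomain (fun x : G ⧸ P => g • x) (Finsupp.mapRange (A.ρ g) (map_zero _) f)) y = _
  conv_lhs => rw [hy]
  rw [Finsupp.mapDomain_apply (MulAction.injective g), Finsupp.mapRange_apply]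

/-! ## Augmentation and diagonal -/

/-- The augmentation `Ind_P A → A`, `single x a ↦ a`. -/
def aug (P : Subgroup G) (A : Rep.{0, 0, 0} k G) : ((G ⧸ P) →₀ A) →ₗ[k] A :=
  Finsupp.lsum k (fun _ : G ⧸ P => (LinearMap.id : A →ₗ[k] A))

@[simp] lemma aug_single (P : Subgroup G) (A : Rep.{0, 0, 0} k G) (x : G ⧸ P) (a : A) :
    aug P A (Finsupp.single x a) = a := by
  simp [aug]

lemma aug_equivariant (P : Subgroup G) (A : Rep.{0, 0, 0} k G) (g : G) (f : (G ⧸ P) →₀ A) :
    aug P A (dIndρ P A g f) = A.ρ g (aug P A f) := by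
  induction f using Finsupp.induction_linear with
  | zero => simp
  | add f f' hf hf' => simp only [map_add, hf, hf']
  | single x a => rw [dIndρ_single, aug_single, aug_single]

variable (P : Subgroup G) [Finite (G ⧸ P)]

/-- The diagonal `A → Ind_P A`, `a ↦ Σ_x single x a` (`P` of finite index). -/
def diag (A : Rep.{0, 0, 0} k G) : A →ₗ[k] ((G ⧸ P) →₀ A) :=
  ((Finsupp.linearEquivFunOnFinite k A (G ⧸ P)).symm : ((G ⧸ P) → A) →ₗ[k] ((G ⧸ P) →₀ A)) ∘ₗ
    LinearMap.pi (fun _ => LinearMap.id)

@[simp] lemma diag_apply (A : Rep.{0, 0, 0} k G) (a : A) (y : G ⧸ P) : diag P A a y = a := by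
  simp [diag, Finsupp.linearEquivFunOnFinite]

lemma diag_equivariant (A : Rep.{0, 0, 0} k G) (g : G) (a : A) :
    diag P A (A.ρ g a) = dIndρ P A g (diag P A a) := by
  ext y
  rw [dIndρ_apply, diag_apply, diag_apply]

lemma aug_diag (A : Rep.{0, 0, 0} k G) (a : A) :
    aug P A (diag P A a) = Nat.card (G ⧸ P) • a := by
  classical
  haveI := Fintype.ofFinite (G ⧸ P)
  have h : diag P A a = ∑ x : G ⧸ P, Finsupp.single x a := by
    ext y
    rw [diag_apply, Finsupp.finsetSum_apply]
    simp [Finsupp.single_apply]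
  rw [h, map_sum]
  simp only [aug_single, Finset.sum_const, Finset.card_univ, Nat.card_eq_fintype_card]

omit [Finite (G ⧸ P)] in
lemma smul_aug_equivariant (A : Rep.{0, 0, 0} k G) (c : k) (g : G) (f : (G ⧸ P) →₀ A) :
    (c • aug P A) (dIndρ P A g f) = A.ρ g ((c • aug P A) f) := by
  rw [LinearMap.smul_apply, LinearMap.smul_apply, aug_equivariant, map_smul]

/-- `A` is a retract of `Ind_P A` if `[G : P]` is invertible in `k`. -/
lemma smul_aug_diag (A : Rep.{0, 0, 0} k G) (c : k) (hc : c * (Nat.card (G ⧸ P) : k) = 1)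
    (a : A) : (c • aug P A) (diag P A a) = a := by
  rw [LinearMap.smul_apply, aug_diag, ← Nat.cast_smul_eq_nsmul k, smul_smul, hc, one_smul]

/-! ## The filtration pieces `subI P A N` -/

variable {P}

omit [Finite (G ⧸ P)] in
/-- `{f ∈ Ind_P A | ∀ g, g⁻¹ • f(gP) ∈ N}`. -/
def subI (P : Subgroup G) (A : Rep.{0, 0, 0} k G) (N : Submodule k A) :
    Submodule k ((G ⧸ P) →₀ A) where
  carrier := {f | ∀ g : G, A.ρ g⁻¹ (f (g : G ⧸ P)) ∈ N}
  add_mem' {f f'} hf hf' g := by
    rw [Finsupp.add_apply, map_add]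
    exact N.add_mem (hf g) (hf' g)
  zero_mem' g := by
    rw [Finsupp.zero_apply, map_zero]
    exact N.zero_mem
  smul_mem' c f hf g := by
    rw [Finsupp.smul_apply, map_smul]
    exact N.smul_mem c (hf g)

omit [Finite (G ⧸ P)] in
lemma mem_subI {A : Rep.{0, 0, 0} k G} {N : Submodule k A} {f : (G ⧸ P) →₀ A} :
    f ∈ subI P A N ↔ ∀ g : G, A.ρ g⁻¹ (f (g : G ⧸ P)) ∈ N := Iff.rfl

omit [Finite (G ⧸ P)] in
lemma subI_stable (A : Rep.{0, 0, 0} k G) (N : Submodule k A) (g₀ : G) :
    subI P A N ≤ (subI P A N).comap (dIndρ P A g₀) := by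
  intro f hf g
  rw [dIndρ_apply]
  have h1 := hf (g₀⁻¹ * g)
  have h2 : ((g₀⁻¹ * g : G) : G ⧸ P) = g₀⁻¹ • (g : G ⧸ P) := rfl
  rw [h2, mul_inv_rev, inv_inv, map_mul] at h1
  exact h1

omit [Finite (G ⧸ P)] in
/-- `subI P A N` as a representation of `G`. -/
def subIRep (P : Subgroup G) (A : Rep.{0, 0, 0} k G) (N : Submodule k A) : Rep.{0, 0, 0} k G :=
  Rep.of ((dIndρ P A).subrepresentation (subI P A N) (subI_stable A N))

omit [Finite (G ⧸ P)] in
lemma subIRep_ρ_coe (A : Rep.{0, 0, 0} k G) (N : Submodule k A) (g : G)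
    (f : ↥(subI P A N)) :
    (show ↥(subI P A N) from (subIRep P A N).ρ g f).1 = dIndρ P A g f.1 := rfl

omit [Finite (G ⧸ P)] in
lemma subI_mono (A : Rep.{0, 0, 0} k G) {N N' : Submodule k A} (h : N' ≤ N) :
    subI P A N' ≤ subI P A N := fun _ hf g => h (hf g)

omit [Finite (G ⧸ P)] in
lemma subI_top (A : Rep.{0, 0, 0} k G) : subI P A ⊤ = ⊤ :=
  eq_top_iff.2 fun _ _ _ => Submodule.mem_top

omit [Finite (G ⧸ P)] in
lemma subI_bot (A : Rep.{0, 0, 0} k G) : subI P A ⊥ = ⊥ := by
  rw [eq_bot_iff]
  intro f hf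
  rw [Submodule.mem_bot]
  ext y
  induction y using QuotientGroup.induction_on with
  | H g =>
    have h1 : A.ρ g⁻¹ (f (g : G ⧸ P)) = 0 := (Submodule.mem_bot k).1 (hf g)
    have h2 := congrArg (A.ρ g) h1
    rw [map_zero, ← Module.End.mul_apply, ← map_mul, mul_inv_cancel, map_one,
      Module.End.one_apply] at h2
    rw [h2, Finsupp.zero_apply]

/-! ## The maps `piFull φ` and `theta n₀` -/

section maps

variable (P) (A : Rep.{0, 0, 0} k G)

/-- The trivial representation on `k`. -/
abbrev trivK (k G : Type) [CommRing k] [Group G] : Rep.{0, 0, 0} k G := Rep.trivial k G k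

omit [Finite (G ⧸ P)] in
lemma dIndρ_trivK_apply (g : G) (F : (G ⧸ P) →₀ k) (y : G ⧸ P) :
    dIndρ P (trivK k G) g F y = F (g⁻¹ • y) := by
  rw [dIndρ_apply]
  rfl

/-- `piFull φ f = (x ↦ φ(x̃⁻¹ • f(x)))`, `x̃ = x.out` the chosen representative of `x`. -/
def piFull (φ : A →ₗ[k] k) : ((G ⧸ P) →₀ A) →ₗ[k] ((G ⧸ P) →₀ k) :=
  ((Finsupp.linearEquivFunOnFinite k k (G ⧸ P)).symm : ((G ⧸ P) → k) →ₗ[k] ((G ⧸ P) →₀ k)) ∘ₗ
    LinearMap.pi (fun x : G ⧸ P => φ ∘ₗ (A.ρ (x.out)⁻¹) ∘ₗ Finsupp.lapply x)

lemma piFull_apply (φ : A →ₗ[k] k) (f : (G ⧸ P) →₀ A) (x : G ⧸ P) :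
    piFull P A φ f x = φ (A.ρ (x.out)⁻¹ (f x)) := by
  simp [piFull, Finsupp.linearEquivFunOnFinite]

/-- `theta n₀ F = (x ↦ F(x) • x̃ • n₀)`. -/
def theta (n₀ : A) : ((G ⧸ P) →₀ k) →ₗ[k] ((G ⧸ P) →₀ A) :=
  ((Finsupp.linearEquivFunOnFinite k A (G ⧸ P)).symm : ((G ⧸ P) → A) →ₗ[k] ((G ⧸ P) →₀ A)) ∘ₗ
    LinearMap.pi (fun x : G ⧸ P =>
      (LinearMap.toSpanSingleton k A (A.ρ x.out n₀)) ∘ₗ Finsupp.lapply x)

lemma theta_apply (n₀ : A) (F : (G ⧸ P) →₀ k) (x : G ⧸ P) :
    theta P A n₀ F x = F x • A.ρ x.out n₀ := by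
  simp [theta, Finsupp.linearEquivFunOnFinite]

/-- `piFull φ ∘ theta n₀ = φ(n₀) • id`. -/
lemma piFull_theta (φ : A →ₗ[k] k) (n₀ : A) (F : (G ⧸ P) →₀ k) :
    piFull P A φ (theta P A n₀ F) = φ n₀ • F := by
  ext x
  rw [piFull_apply, theta_apply, map_smul, ← Module.End.mul_apply, ← map_mul, inv_mul_cancel,
    map_one, Module.End.one_apply, map_smul, Finsupp.smul_apply, smul_eq_mul, smul_eq_mul,
    mul_comm]

lemma piFull_theta_of_eq_one (φ : A →ₗ[k] k) (n₀ : A) (h : φ n₀ = 1) (F : (G ⧸ P) →₀ k) :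
    piFull P A φ (theta P A n₀ F) = F := by
  rw [piFull_theta, h, one_smul]

variable {P A}

omit [Finite (G ⧸ P)] in
/-- Two representatives of the same coset differ by an element of `P`. -/
lemma exists_out_eq (g : G) : ∃ h ∈ P, ((g : G ⧸ P)).out = g * h := by
  obtain ⟨h, hh⟩ := QuotientGroup.mk_out_eq_mul P g
  exact ⟨h.1, h.2, hh⟩

/-- On `subI P A N`, `piFull φ` may be computed with any representative, if `φ` is
`P`-invariant on `N`. -/
lemma piFull_apply_mk {N : Submodule k A} {φ : A →ₗ[k] k}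
    (hφ : ∀ h ∈ P, ∀ n ∈ N, φ (A.ρ h n) = φ n) {f : (G ⧸ P) →₀ A} (hf : f ∈ subI P A N)
    (g : G) : piFull P A φ f (g : G ⧸ P) = φ (A.ρ g⁻¹ (f (g : G ⧸ P))) := by
  rw [piFull_apply]
  obtain ⟨h, hh, hout⟩ := exists_out_eq (P := P) g
  rw [hout, mul_inv_rev, map_mul]
  exact hφ h⁻¹ (P.inv_mem hh) _ (hf g)

/-- `piFull φ` is equivariant on `subI P A N`. -/
lemma piFull_equivariant {N : Submodule k A} {φ : A →ₗ[k] k}
    (hφ : ∀ h ∈ P, ∀ n ∈ N, φ (A.ρ h n) = φ n) {f : (G ⧸ P) →₀ A} (hf : f ∈ subI P A N)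
    (g₀ : G) :
    piFull P A φ (dIndρ P A g₀ f) = dIndρ P (trivK k G) g₀ (piFull P A φ f) := by
  ext y
  induction y using QuotientGroup.induction_on with
  | H g =>
    rw [piFull_apply_mk hφ (subI_stable A N g₀ hf) g, dIndρ_trivK_apply, dIndρ_apply]
    have h2 : g₀⁻¹ • (g : G ⧸ P) = ((g₀⁻¹ * g : G) : G ⧸ P) := rfl
    rw [h2, piFull_apply_mk hφ hf (g₀⁻¹ * g), ← Module.End.mul_apply, ← map_mul, mul_inv_rev,
      inv_inv]

/-- The kernel of `piFull φ` on `subI P A N` is `subI P A (N ⊓ ker φ)`. -/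
lemma piFull_eq_zero_iff {N : Submodule k A} {φ : A →ₗ[k] k}
    (hφ : ∀ h ∈ P, ∀ n ∈ N, φ (A.ρ h n) = φ n) {f : (G ⧸ P) →₀ A} (hf : f ∈ subI P A N) :
    piFull P A φ f = 0 ↔ f ∈ subI P A (N ⊓ LinearMap.ker φ) := by
  constructor
  · intro h0 g
    refine ⟨hf g, ?_⟩
    show φ (A.ρ g⁻¹ (f (g : G ⧸ P))) = 0
    rw [← piFull_apply_mk hφ hf g, h0, Finsupp.zero_apply]
  · intro h
    ext y
    induction y using QuotientGroup.induction_on with
    | H g =>
      rw [piFull_apply_mk hφ hf g, Finsupp.zero_apply]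
      exact (h g).2

/-- `theta n₀ F ∈ subI P A N` if `n₀ ∈ N` and `N` is `P`-stable. -/
lemma theta_mem_subI {N : Submodule k A} (hN : ∀ h ∈ P, ∀ n ∈ N, A.ρ h n ∈ N) {n₀ : A}
    (hn₀ : n₀ ∈ N) (F : (G ⧸ P) →₀ k) : theta P A n₀ F ∈ subI P A N := by
  intro g
  rw [theta_apply, map_smul]
  obtain ⟨h, hh, hout⟩ := exists_out_eq (P := P) g
  rw [hout, ← Module.End.mul_apply, ← map_mul, inv_mul_cancel_left]
  exact N.smul_mem _ (hN h hh _ hn₀)

/-- `theta m₀` is equivariant if `m₀` is fixed by `P`. -/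
lemma theta_equivariant {m₀ : A} (hm₀ : ∀ h ∈ P, A.ρ h m₀ = m₀) (g₀ : G)
    (F : (G ⧸ P) →₀ k) :
    theta P A m₀ (dIndρ P (trivK k G) g₀ F) = dIndρ P A g₀ (theta P A m₀ F) := by
  have key : ∀ g : G, A.ρ ((g : G ⧸ P)).out m₀ = A.ρ g m₀ := by
    intro g
    obtain ⟨h, hh, hout⟩ := exists_out_eq (P := P) g
    rw [hout, map_mul, Module.End.mul_apply, hm₀ h hh]
  ext y
  induction y using QuotientGroup.induction_on with
  | H g =>
    rw [theta_apply, dIndρ_trivK_apply, dIndρ_apply, theta_apply, (A.ρ g₀).map_smul]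
    have h2 : g₀⁻¹ • (g : G ⧸ P) = ((g₀⁻¹ * g : G) : G ⧸ P) := rfl
    rw [h2, key g, key (g₀⁻¹ * g), ← Module.End.mul_apply, ← map_mul, mul_inv_cancel_left]

end maps

end Fermat.Agent.S55.H593.Dev

end

end
-- ===== PACK-END S55/H593/Dev/Ind.lean

-- ===== PACK-BEGIN S55/H424/KummerIntermediate.lean
section


/-!
# Kummer level for intermediate fields (input of `FIN-loc`)

`k₀` a field of characteristic zero with algebraic closure `Ω`.  Assume that for every finite
subextension `E / k₀` of `Ω` the group `Eˣ / (Eˣ)ⁿ` is finite (true for `k₀ = ℚ_q`).  Then for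
every finite `E` there is a finite `E₁ ⊇ E` such that every map `φ : Gal(Ω/k₀) → ℤ/n` which is
additive on `Gal(Ω/E)` and vanishes on some `Gal(Ω/E')` (`E'` finite) vanishes on `Gal(Ω/E₁)`.

No root of unity is required in `E`: `E₁` contains `E(ζ_n)`.
-/

set_option autoImplicit false
set_option linter.unusedSectionVars false
set_option linter.style.haveILetI false

namespace Fermat.Agent.S55.H424

section KummerIntermediate

variable {k₀ Ω : Type*} [Field k₀] [Field Ω] [Algebra k₀ Ω] [CharZero k₀] [IsAlgClosure k₀ Ω]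

/-- An automorphism fixing an intermediate field `E`, as an `E`-algebra automorphism. -/
noncomputable def fixingToAlgEquiv (E : IntermediateField k₀ Ω) (g : Ω ≃ₐ[k₀] Ω)
    (hg : g ∈ E.fixingSubgroup) : Ω ≃ₐ[E] Ω :=
  IntermediateField.fixingSubgroupEquiv E ⟨g, hg⟩

theorem fixingToAlgEquiv_apply (E : IntermediateField k₀ Ω) (g : Ω ≃ₐ[k₀] Ω)
    (hg : g ∈ E.fixingSubgroup) (x : Ω) : fixingToAlgEquiv E g hg x = g x := rfl

theorem restrictScalars_mem_fixingSubgroup (E : IntermediateField k₀ Ω) (σ : Ω ≃ₐ[E] Ω) :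
    σ.restrictScalars k₀ ∈ E.fixingSubgroup := by
  rw [IntermediateField.mem_fixingSubgroup_iff]
  intro x hx
  exact σ.commutes ⟨x, hx⟩

theorem exists_kummer_level_intermediate (n : ℕ) (hn : n ≠ 0)
    (hLPI : ∀ E : IntermediateField k₀ Ω, FiniteDimensional k₀ E →
      (powMonoidHom n : (↥E)ˣ →* (↥E)ˣ).range.index ≠ 0)
    (E : IntermediateField k₀ Ω) [FiniteDimensional k₀ E] :
    ∃ E₁ : IntermediateField k₀ Ω, FiniteDimensional k₀ E₁ ∧ E ≤ E₁ ∧
      ∀ φ : (Ω ≃ₐ[k₀] Ω) → ZMod n,
        (∀ g ∈ E.fixingSubgroup, ∀ h ∈ E.fixingSubgroup, φ (g * h) = φ g + φ h) →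
        (∃ E' : IntermediateField k₀ Ω, FiniteDimensional k₀ E' ∧
          ∀ g ∈ E'.fixingSubgroup, φ g = 0) →
        ∀ g ∈ E₁.fixingSubgroup, φ g = 0 := by
  classical
  haveI : IsAlgClosed Ω := IsAlgClosure.isAlgClosed k₀
  haveI : Algebra.IsAlgebraic k₀ Ω := IsAlgClosure.isAlgebraic
  haveI : CharZero Ω := charZero_of_injective_algebraMap (algebraMap k₀ Ω).injective
  haveI : NeZero (n : Ω) := ⟨Nat.cast_ne_zero.2 hn⟩
  obtain ⟨ζ, hζ⟩ := HasEnoughRootsOfUnity.exists_primitiveRoot Ω n
  -- the field `E(ζ)`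
  let Z : IntermediateField k₀ Ω := IntermediateField.adjoin k₀ {ζ}
  haveI : FiniteDimensional k₀ Z :=
    IntermediateField.adjoin.finiteDimensional (Algebra.IsIntegral.isIntegral ζ)
  let Ez : IntermediateField k₀ Ω := E ⊔ Z
  haveI : FiniteDimensional k₀ Ez := IntermediateField.finiteDimensional_sup E Z
  have hEEz : E ≤ Ez := le_sup_left
  have hζEz : ζ ∈ Ez :=
    (le_sup_right : Z ≤ Ez) (IntermediateField.subset_adjoin k₀ _ (Set.mem_singleton ζ))
  haveI : IsAlgClosure Ez Ω := ⟨inferInstance, inferInstance⟩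
  have hζ' : IsPrimitiveRoot (⟨ζ, hζEz⟩ : Ez) n :=
    IsPrimitiveRoot.of_map_of_injective (f := algebraMap Ez Ω) (by exact hζ)
      (algebraMap Ez Ω).injective
  obtain ⟨K', hK'fin, hK'⟩ :=
    exists_kummer_level_add (K := Ez) (Ω := Ω) n hn ⟨ζ, hζEz⟩ hζ' (hLPI Ez inferInstance)
  haveI := hK'fin
  refine ⟨K'.restrictScalars k₀, ?_, ?_, ?_⟩
  · -- finite-dimensionality
    haveI : Module.Finite Ez K' := hK'fin
    exact Module.Finite.trans (R := k₀) (A := Ez) (M := K')
  · intro x hx
    exact K'.algebraMap_mem (⟨x, hEEz hx⟩ : Ez)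
  · rintro φ hφ ⟨E', hE'fin, hE'⟩ g hg
    haveI := hE'fin
    -- `g` fixes `Ez`
    have hgEz : g ∈ Ez.fixingSubgroup := by
      rw [IntermediateField.mem_fixingSubgroup_iff]
      intro x hx
      exact (IntermediateField.mem_fixingSubgroup_iff _ g).1 hg x
        (K'.algebraMap_mem (⟨x, hx⟩ : Ez))
    -- the character on `Gal(Ω/Ez)`
    let φ' : (Ω ≃ₐ[Ez] Ω) → ZMod n := fun σ => φ (σ.restrictScalars k₀)
    have hφ' : ∀ σ τ : Ω ≃ₐ[Ez] Ω, φ' (σ * τ) = φ' σ + φ' τ := by
      intro σ τ
      have h1 : (σ * τ).restrictScalars k₀ = σ.restrictScalars k₀ * τ.restrictScalars k₀ := rfl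
      show φ ((σ * τ).restrictScalars k₀) = _
      rw [h1]
      exact hφ _ (IntermediateField.fixingSubgroup_le hEEz
        (restrictScalars_mem_fixingSubgroup Ez σ)) _
        (IntermediateField.fixingSubgroup_le hEEz (restrictScalars_mem_fixingSubgroup Ez τ))
    -- a finite level on which `φ'` vanishes
    let M₀ : IntermediateField k₀ Ω := E' ⊔ Ez
    haveI : FiniteDimensional k₀ M₀ := IntermediateField.finiteDimensional_sup E' Ez
    have hEzM₀ : Ez ≤ M₀ := le_sup_right
    let M : IntermediateField Ez Ω := IntermediateField.extendScalars hEzM₀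
    have hMfin : FiniteDimensional Ez M := by
      haveI : Module.Finite k₀ M := (inferInstance : FiniteDimensional k₀ M₀)
      exact Module.Finite.right k₀ Ez M
    have hM : ∀ σ ∈ M.fixingSubgroup, φ' σ = 0 := by
      intro σ hσ
      apply hE'
      rw [IntermediateField.mem_fixingSubgroup_iff]
      intro x hx
      have hxM : x ∈ M := (IntermediateField.mem_extendScalars hEzM₀).2
        ((le_sup_left : E' ≤ M₀) hx)
      exact (IntermediateField.mem_fixingSubgroup_iff M σ).1 hσ x hxM
    have key := hK' φ' hφ' ⟨M, hMfin, hM⟩ (fixingToAlgEquiv Ez g hgEz) (by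
      rw [IntermediateField.mem_fixingSubgroup_iff]
      intro x hx
      rw [fixingToAlgEquiv_apply]
      exact (IntermediateField.mem_fixingSubgroup_iff _ g).1 hg x hx)
    have hres : (fixingToAlgEquiv Ez g hgEz).restrictScalars k₀ = g := by
      apply AlgEquiv.ext
      intro x
      rfl
    show φ g = 0
    have : φ' (fixingToAlgEquiv Ez g hgEz) = φ g := by
      show φ ((fixingToAlgEquiv Ez g hgEz).restrictScalars k₀) = φ g
      rw [hres]
    rw [← this]
    exact key

end KummerIntermediate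

end Fermat.Agent.S55.H424

end
-- ===== PACK-END S55/H424/KummerIntermediate.lean

-- ===== PACK-BEGIN S55/ColH543/Deg3.lean
section



/-!
# S55 / colimit dictionary (helper543), part 2: `H³` in explicit low-degree form

Mathlib's low-degree API (`cocycles₂`, `H2π`, …) stops in degree `2`.  We add degree `3`:

* `d_three_apply` : Mathlib's differential `C³ → C⁴` is `d34` (explicit formula on `G⁴`);
* `cocycles₃ A`, `coboundaries₃ A` (defined in `Cochain.lean`) and
  `H3π A : cocycles₃ A →ₗ[k] groupCohomology A 3`, surjective, with kernel `coboundaries₃ A`;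
* `map_H3π` : functoriality of `groupCohomology.map` on explicit 3-cocycles;
* `subsingleton_H3_iff`, `isZero_H3_iff` : `H³(G, A) = 0` iff every explicit 3-cocycle is a
  coboundary.
-/

set_option autoImplicit false

noncomputable section

open groupCohomology CategoryTheory Fermat.Agent.S55.Smooth

namespace Fermat.Agent.S55.ColH543

variable {k : Type} [CommRing k] {G : Type} [Group G] (A : Rep.{0, 0, 0} k G)

lemma cochainsIso₃_hom_apply (f : (Fin 3 → G) → A) (x : G × G × G) :
    (cochainsIso₃ A).hom f x = f ![x.1, x.2.1, x.2.2] := rfl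

lemma cochainsIso₃_inv_apply (c : G × G × G → A) (g : Fin 3 → G) :
    (cochainsIso₃ A).inv c g = c (g 0, g 1, g 2) := rfl

lemma cochainsIso₃_hom_inv_apply (c : G × G × G → A) :
    (cochainsIso₃ A).hom ((cochainsIso₃ A).inv c) = c := by
  funext ⟨g₁, g₂, g₃⟩
  rfl

lemma cochainsIso₃_inv_hom_apply (f : (Fin 3 → G) → A) :
    (cochainsIso₃ A).inv ((cochainsIso₃ A).hom f) = f := by
  funext g
  show f ![g 0, g 1, g 2] = f g
  congr 1
  funext i
  fin_cases i <;> rfl

/-- Mathlib's differential `C³ → C⁴` in explicit form. -/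
theorem d_three_apply (f : (Fin 3 → G) → A) (x : G × G × G × G) :
    (inhomogeneousCochains.d A 3).hom f ![x.1, x.2.1, x.2.2.1, x.2.2.2] =
      d34 A ((cochainsIso₃ A).hom f) x := by
  obtain ⟨g₁, g₂, g₃, g₄⟩ := x
  rw [inhomogeneousCochains.d_hom_apply, Fin.sum_univ_four]
  have h3 : ((3 : Fin 4) : ℕ) = 3 := rfl
  have e : ((-1 : k) ^ (3 + 1)) = 1 := by norm_num
  simp only [d34_apply, h3, e]
  simp only [sub_eq_add_neg, add_assoc, Fin.val_zero, zero_add, pow_one, neg_smul,
    one_smul, Fin.val_one, Fin.val_two, pow_succ' (-1 : k) 2, neg_sq,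
    Nat.one_add, one_pow, mul_one]
  rcongr i <;> fin_cases i <;> rfl

theorem d_three_eq_zero_iff (f : (Fin 3 → G) → A) :
    (inhomogeneousCochains.d A 3).hom f = 0 ↔ d34 A ((cochainsIso₃ A).hom f) = 0 := by
  constructor
  · intro h
    funext x
    rw [← d_three_apply, h]
    rfl
  · intro h
    funext g
    have hg : g = ![g 0, g 1, g 2, g 3] := by
      funext i
      fin_cases i <;> rfl
    rw [hg, d_three_apply A f (g 0, g 1, g 2, g 3), h]
    rfl

/-- Explicit 3-cocycles as elementwise cocycles of the complex of inhomogeneous cochains. -/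
def cocycles₃ToZ : cocycles₃ A →ₗ[k] Zₗ (inhomogeneousCochains A) 3 :=
  LinearMap.codRestrict _ ((cochainsIso₃ A).inv.hom ∘ₗ (cocycles₃ A).subtype) fun c => by
    rw [LinearMap.mem_ker, inhomogeneousCochains.d_def]
    rw [d_three_eq_zero_iff]
    simp only [LinearMap.comp_apply, Submodule.subtype_apply]
    rw [cochainsIso₃_hom_inv_apply]
    exact c.2

@[simp] lemma cocycles₃ToZ_coe (c : cocycles₃ A) :
    ((cocycles₃ToZ A c : Zₗ (inhomogeneousCochains A) 3) : (Fin 3 → G) → A) =
      (cochainsIso₃ A).inv (c : G × G × G → A) := rfl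

lemma cocycles₃ToZ_surjective : Function.Surjective (cocycles₃ToZ A) := by
  intro z
  have hz : (inhomogeneousCochains.d A 3).hom z.1 = 0 := by
    have := z.2
    rw [LinearMap.mem_ker, inhomogeneousCochains.d_def] at this
    exact this
  refine ⟨⟨(cochainsIso₃ A).hom z.1, (d_three_eq_zero_iff A z.1).1 hz⟩, ?_⟩
  apply Subtype.ext
  exact cochainsIso₃_inv_hom_apply A z.1

/-- The class of an explicit 3-cocycle. -/
def H3π : cocycles₃ A →ₗ[k] groupCohomology A 3 :=
  clsₗ (inhomogeneousCochains A) 3 ∘ₗ cocycles₃ToZ A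

lemma H3π_surjective : Function.Surjective (H3π A) :=
  (clsₗ_surjective (inhomogeneousCochains A) 3).comp (cocycles₃ToZ_surjective A)

variable {A}

lemma H3π_eq_zero_iff (c : cocycles₃ A) :
    H3π A c = 0 ↔ (c : G × G × G → A) ∈ coboundaries₃ A := by
  show clsₗ (inhomogeneousCochains A) 3 (cocycles₃ToZ A c) = 0 ↔ _
  rw [clsₗ_eq_zero_iff]
  constructor
  · rintro ⟨y, hy⟩
    refine ⟨(cochainsIso₂ A).hom y, ?_⟩
    have h1 := congr($(comp_d₂₃_eq A) y)
    simp only [ModuleCat.hom_comp, LinearMap.comp_apply] at h1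
    rw [h1, hy, cocycles₃ToZ_coe, cochainsIso₃_hom_inv_apply]
  · rintro ⟨b, hb⟩
    refine ⟨(cochainsIso₂ A).inv b, ?_⟩
    have h1 := congr($(eq_d₂₃_comp_inv A) b)
    simp only [ModuleCat.hom_comp, LinearMap.comp_apply] at h1
    rw [h1, hb]
    rfl

lemma H3π_eq_iff (c c' : cocycles₃ A) :
    H3π A c = H3π A c' ↔ (c : G × G × G → A) - c' ∈ coboundaries₃ A := by
  rw [← sub_eq_zero, ← map_sub, H3π_eq_zero_iff]
  rfl

@[elab_as_elim]
theorem H3_induction_on {C : groupCohomology A 3 → Prop} (x : groupCohomology A 3)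
    (h : ∀ c : cocycles₃ A, C (H3π A c)) : C x := by
  obtain ⟨c, rfl⟩ := H3π_surjective A x
  exact h c

/-- `H³(G, A) = 0` iff every explicit 3-cocycle is a coboundary. -/
theorem subsingleton_H3_iff :
    Subsingleton (groupCohomology A 3) ↔ cocycles₃ A ≤ coboundaries₃ A := by
  constructor
  · intro h c hc
    exact (H3π_eq_zero_iff ⟨c, hc⟩).1 (Subsingleton.elim _ _)
  · intro h
    refine ⟨fun x y => ?_⟩
    induction x using H3_induction_on with
    | h c =>
    induction y using H3_induction_on with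
    | h c' =>
    rw [(H3π_eq_zero_iff c).2 (h c.2), (H3π_eq_zero_iff c').2 (h c'.2)]

theorem isZero_H3_iff :
    Limits.IsZero (groupCohomology A 3) ↔ cocycles₃ A ≤ coboundaries₃ A := by
  rw [ModuleCat.isZero_iff_subsingleton, subsingleton_H3_iff]

/-! ## Functoriality -/

section Map

variable {H : Type} [Group H] {B : Rep.{0, 0, 0} k H} (f : H →* G) (φ : Rep.res f A ⟶ B)

/-- The map on explicit 3-cochains induced by `f : H → G` and `φ : res f A → B`. -/
def mapCochains₃ : (G × G × G → A) →ₗ[k] (H × H × H → B) where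
  toFun c x := φ.hom (c (f x.1, f x.2.1, f x.2.2))
  map_add' _ _ := by
    funext x
    simp
  map_smul' _ _ := by
    funext x
    simp

@[simp] lemma mapCochains₃_apply (c : G × G × G → A) (h₁ h₂ h₃ : H) :
    mapCochains₃ f φ c (h₁, h₂, h₃) = φ.hom (c (f h₁, f h₂, f h₃)) := rfl

lemma d34_mapCochains₃ (c : G × G × G → A) :
    d34 B (mapCochains₃ f φ c) = fun x => φ.hom (d34 A c (f x.1, f x.2.1, f x.2.2.1, f x.2.2.2)) := by
  funext ⟨h₁, h₂, h₃, h₄⟩
  simp only [d34_apply, mapCochains₃_apply, map_add, map_sub, map_mul]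
  have := Rep.hom_comm_apply φ h₁ (c (f h₂, f h₃, f h₄))
  rw [← this]
  rfl

/-- The map on explicit 3-cocycles. -/
def mapCocycles₃ : cocycles₃ A →ₗ[k] cocycles₃ B :=
  (mapCochains₃ f φ).restrict fun c hc => by
    rw [mem_cocycles₃_iff] at hc ⊢
    rw [d34_mapCochains₃, hc]
    funext x
    simp

@[simp] lemma mapCocycles₃_coe (c : cocycles₃ A) :
    ((mapCocycles₃ f φ c : cocycles₃ B) : H × H × H → B) = mapCochains₃ f φ c := rfl

/-- `groupCohomology.map` on explicit 3-cocycles. -/
theorem map_H3π (c : cocycles₃ A) :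
    (groupCohomology.map f φ 3).hom (H3π A c) = H3π B (mapCocycles₃ f φ c) := by
  show (HomologicalComplex.homologyMap (cochainsMap f φ) 3).hom
    (clsₗ (inhomogeneousCochains A) 3 (cocycles₃ToZ A c)) = _
  rw [homologyMap_clsₗ]
  show _ = clsₗ (inhomogeneousCochains B) 3 (cocycles₃ToZ B (mapCocycles₃ f φ c))
  congr 1

end Map

end Fermat.Agent.S55.ColH543

end

end
-- ===== PACK-END S55/ColH543/Deg3.lean

-- ===== PACK-BEGIN S55/G/DefsRes.lean
section
/-
S55 (Poitou–Tate), layer G — DEFINITIONS, part 3: change of the set `S`.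
Sub-architect: helper421.   Mathlib + `Defs.lean` only.  No `sorry`.

For `S ⊆ S'`:
* `QS.res h : QS S' →ₐ[ℚ] QS S`                 (projection `ℚ_{S'} → ℚ_S`);
* `asRes h L : AS S' L →ₐ[ℚ] AS S L`,  `jRes h L : J_{S'}(L) → J_S(L)` (additively), equivariant;
* `primeOutIncl h L : PrimeOut S' L → PrimeOut S L`,  `divIncl h L : Div^{S'}(L) → Div^S(L)`, equivariant.
-/


set_option autoImplicit false
set_option linter.unusedSectionVars false

open scoped NumberField TensorProduct
open IsDedekindDomain CategoryTheory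

noncomputable section

namespace Fermat.Agent.S55.G

section Res

variable {S S' : Finset Nat.Primes} (h : S ⊆ S')

/-- The projection `ℚ_{S'} → ℚ_S` for `S ⊆ S'`. -/
def QS.res : QS S' →ₐ[ℚ] QS S where
  toFun x := fun q : S => QS.toPi S' x ⟨q.1, h q.2⟩
  map_one' := rfl
  map_mul' _ _ := rfl
  map_zero' := rfl
  map_add' _ _ := rfl
  commutes' _ := rfl

@[simp] lemma QS.res_apply (x : QS S') (q : S) :
    QS.toPi S (QS.res h x) q = QS.toPi S' x ⟨q.1, h q.2⟩ := rfl

variable (L : Type) [Field L] [CharZero L]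

/-- The projection `𝔸_{S'}(L) → 𝔸_S(L)` for `S ⊆ S'`. -/
def asRes : AS S' L →ₐ[ℚ] AS S L :=
  Algebra.TensorProduct.map (AlgHom.id ℚ L) (QS.res h)

@[simp] lemma asRes_tmul (x : L) (y : QS S') :
    asRes h L (x ⊗ₜ[ℚ] y) = x ⊗ₜ[ℚ] QS.res h y := by
  simp [asRes]

lemma asRes_asDiag (x : L) : asRes h L (asDiag S' L x) = asDiag S L x := by
  simp [map_one]

/-- The projection `J_{S'}(L) → J_S(L)` for `S ⊆ S'`, additively. -/
def jRes : Additive (AS S' L)ˣ →+ Additive (AS S L)ˣ :=
  MonoidHom.toAdditive (Units.map ((asRes h L : AS S' L →ₐ[ℚ] AS S L) : AS S' L →* AS S L))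

lemma coe_jRes_apply (y : Additive (AS S' L)ˣ) :
    (((jRes h L y).toMul : (AS S L)ˣ) : AS S L) =
      asRes h L ((y.toMul : (AS S' L)ˣ) : AS S' L) := rfl

lemma jRes_unitsDiag (x : Additive Lˣ) : jRes h L (unitsDiag S' L x) = unitsDiag S L x := by
  apply Additive.toMul.injective
  apply Units.ext
  change asRes h L (asDiag S' L _) = asDiag S L _
  rw [asRes_asDiag]

variable (G : Type) [Group G] [MulSemiringAction G L]

lemma asRes_asAut (g : G) (y : AS S' L) :
    asRes h L (asAut S' G L g y) = asAut S G L g (asRes h L y) := by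
  induction y using TensorProduct.induction_on with
  | zero => simp
  | tmul a b => simp
  | add a b ha hb => simp only [map_add, ha, hb]

lemma jRes_equivariant (g : G) (y : Additive (AS S' L)ˣ) :
    jRes h L (jRepr G S' L g y) = jRepr G S L g (jRes h L y) := by
  apply Additive.toMul.injective
  apply Units.ext
  change asRes h L (asAut S' G L g _) = asAut S G L g (asRes h L _)
  rw [asRes_asAut]

end Res

section DivIncl

variable {S S' : Finset Nat.Primes} (h : S ⊆ S') (G L : Type) [Group G] [Field L]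
  [NumberField L] [MulSemiringAction G L]

include h in
lemma not_isAbove_of_subset {w : HeightOneSpectrum (𝓞 L)} (hw : ¬ IsAbove S' L w) :
    ¬ IsAbove S L w := fun ⟨q, hq, hmem⟩ => hw ⟨q, h hq, hmem⟩

/-- A prime not above `S'` is not above `S ⊆ S'`. -/
def primeOutIncl (w : PrimeOut S' L) : PrimeOut S L := ⟨w.1, not_isAbove_of_subset h L w.2⟩

lemma primeOutIncl_injective : Function.Injective (primeOutIncl h L) := fun a b hab =>
  Subtype.ext (show a.1 = b.1 from congrArg (fun w : PrimeOut S L => w.1) hab)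

lemma primeOutIncl_primeOutMap (g : G) (w : PrimeOut S' L) :
    primeOutIncl h L (primeOutMap S' G L g w) = primeOutMap S G L g (primeOutIncl h L w) := rfl

/-- The inclusion `Div^{S'}(L) → Div^S(L)` for `S ⊆ S'`. -/
def divIncl : (PrimeOut S' L →₀ ℤ) →+ (PrimeOut S L →₀ ℤ) :=
  (Finsupp.mapDomain.addMonoidHom (primeOutIncl h L))

@[simp] lemma divIncl_single (w : PrimeOut S' L) (n : ℤ) :
    divIncl h L (Finsupp.single w n) = Finsupp.single (primeOutIncl h L w) n := by
  simp [divIncl]

lemma divIncl_apply (d : PrimeOut S' L →₀ ℤ) (w : PrimeOut S' L) :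
    divIncl h L d (primeOutIncl h L w) = d w :=
  Finsupp.mapDomain_apply (primeOutIncl_injective h L) d w

lemma divIncl_equivariant (g : G) (d : PrimeOut S' L →₀ ℤ) :
    divIncl h L (divRepr S' G L g d) = divRepr S G L g (divIncl h L d) := by
  induction d using Finsupp.induction_linear with
  | zero => simp
  | add a b ha hb => simp only [map_add, ha, hb]
  | single w n =>
    rw [divRepr_single, divIncl_single, divIncl_single, divRepr_single,
      primeOutIncl_primeOutMap]

end DivIncl

end Fermat.Agent.S55.G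

end
end
-- ===== PACK-END S55/G/DefsRes.lean

-- ===== PACK-BEGIN S55/E1/H594/LevelField.lean
section
/-
S55 / engine E1 / G-ADAPTER leaf LVL (helper594), part 1.

A tower level `L : Tow.Level S` (frozen `Spec/Tower.lean`) as INPUT of layer G
(`G/Defs.lean`, `G/Spec.lean`): the field `L.F` is a number field, Galois over `ℚ`, and the
finite-level group `L.Gal = G_ℚ ⧸ U_F` acts on it faithfully by field automorphisms, with
`IsGaloisGroup L.Gal ℚ L.F`.

Conventions: everything is a `theorem`/`def`; the instances are `scoped`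
(activate with `open Fermat.Agent.S55.E1.H594`).  No `sorry`.
-/



set_option autoImplicit false
set_option linter.unusedSectionVars false
set_option linter.style.haveILetI false

namespace Fermat.Agent.S55.E1.H594

open Fermat.Agent.S55 Fermat.Agent.S55.Tow Fermat.Agent.S55.Bridge NumberField

attribute [local instance] isAlgebraic_Qbar isGalois_Qbar

noncomputable section

variable {S : Finset Nat.Primes} (L : Level S)

/-- A level is finite over `ℚ`. -/
theorem level_finiteDimensional : FiniteDimensional ℚ L.F := L.unram.1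

/-- A level is Galois over `ℚ`. -/
theorem level_isGalois : IsGalois ℚ L.F :=
  (InfiniteGalois.normal_iff_isGalois L.F).1 L.normalU

/-- A level is a number field. -/
theorem level_numberField : NumberField L.F :=
  haveI := level_finiteDimensional L
  { to_charZero := inferInstance, to_finiteDimensional := inferInstance }

scoped instance instFiniteDimensionalLevel : FiniteDimensional ℚ L.F := level_finiteDimensional L
scoped instance instIsGaloisLevel : IsGalois ℚ L.F := level_isGalois L
scoped instance instNumberFieldLevel : NumberField L.F := level_numberField L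

/-- Restriction `G_ℚ → Gal(F/ℚ)`. -/
def levelRestrict : _root_.Fermat.Agent.S55.Tow.GQ →* (L.F ≃ₐ[ℚ] L.F) := AlgEquiv.restrictNormalHom L.F

theorem levelRestrict_apply (σ : _root_.Fermat.Agent.S55.Tow.GQ) (x : L.F) :
    ((levelRestrict L σ x : L.F) : Qbar) = σ (x : Qbar) :=
  AlgEquiv.restrictNormal_commutes σ L.F x

theorem levelRestrict_ker : (levelRestrict L).ker = L.U := by
  ext σ
  rw [MonoidHom.mem_ker]
  change _ ↔ σ ∈ L.F.fixingSubgroup
  rw [IntermediateField.mem_fixingSubgroup_iff]
  constructor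
  · intro h x hx
    have := levelRestrict_apply L σ ⟨x, hx⟩
    rw [h] at this
    exact this.symm
  · intro h
    ext x
    rw [levelRestrict_apply]
    exact h x x.2

theorem levelRestrict_surjective : Function.Surjective (levelRestrict L) :=
  AlgEquiv.restrictNormalHom_surjective (F := ℚ) (K₁ := L.F) Qbar

/-- The isomorphism `L.Gal = G_ℚ ⧸ U_F ≃* Gal(F/ℚ)`. -/
def levelGalEquiv : L.Gal ≃* (L.F ≃ₐ[ℚ] L.F) :=
  (QuotientGroup.quotientMulEquivOfEq (levelRestrict_ker L).symm).trans
    (QuotientGroup.quotientKerEquivOfSurjective (levelRestrict L) (levelRestrict_surjective L))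

theorem levelGalEquiv_mk (σ : _root_.Fermat.Agent.S55.Tow.GQ) :
    levelGalEquiv L (QuotientGroup.mk σ : L.Gal) = levelRestrict L σ := rfl

/-- The action of `L.Gal` on the field `L.F` (a definition; `scoped instance` below). -/
@[reducible] def levelAction : MulSemiringAction L.Gal L.F :=
  MulSemiringAction.compHom L.F (levelGalEquiv L).toMonoidHom

scoped instance instMulSemiringActionLevel : MulSemiringAction L.Gal L.F := levelAction L

theorem level_smul_def (g : L.Gal) (x : L.F) : g • x = levelGalEquiv L g x := rfl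

theorem level_mk_smul (σ : _root_.Fermat.Agent.S55.Tow.GQ) (x : L.F) :
    (((QuotientGroup.mk σ : L.Gal) • x : L.F) : Qbar) = σ (x : Qbar) :=
  levelRestrict_apply L σ x

theorem level_faithfulSMul : FaithfulSMul L.Gal L.F :=
  ⟨fun H => (levelGalEquiv L).injective (AlgEquiv.ext H)⟩

scoped instance instFaithfulSMulLevel : FaithfulSMul L.Gal L.F := level_faithfulSMul L

theorem level_isGaloisGroup : IsGaloisGroup L.Gal ℚ L.F :=
  IsGaloisGroup.of_mulEquiv (levelGalEquiv L) (fun _ _ => rfl)

scoped instance instIsGaloisGroupLevel : IsGaloisGroup L.Gal ℚ L.F := level_isGaloisGroup L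

theorem level_finite_gal : Finite L.Gal :=
  Finite.of_equiv _ (levelGalEquiv L).symm.toEquiv

scoped instance instFiniteLevelGal : Finite L.Gal := level_finite_gal L

theorem level_card_gal : Nat.card L.Gal = Module.finrank ℚ L.F := by
  rw [Nat.card_congr (levelGalEquiv L).toEquiv]
  exact IsGalois.card_aut_eq_finrank ℚ L.F

end

end Fermat.Agent.S55.E1.H594

end
-- ===== PACK-END S55/E1/H594/LevelField.lean

-- ===== PACK-BEGIN S55/GAD/DivExt.lean
section
/-
S55 / G-ADAPTER (helper955): extension of divisors `Div^S(K) → Div^S(L)` along an extension of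
number fields `K → L`, `v ↦ ∑_{w | v} e(w | v) [w]`, compatible with the divisor maps
(`ord_w(x) = e(w | v) · ord_v(x)` for `x ∈ Kˣ`).  Mathlib + `G/Defs.lean` only.  No `sorry`.
-/


set_option autoImplicit false
set_option linter.unusedSectionVars false

open scoped NumberField
open IsDedekindDomain

namespace Fermat.Agent.S55.GAD

open Fermat.Agent.S55.G

noncomputable section

variable (S : Finset Nat.Primes) (K L : Type) [Field K] [NumberField K] [Field L] [NumberField L]
  [Algebra K L]

/-- The prime of `K` below a prime of `L`. -/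
def underPrime (w : HeightOneSpectrum (𝓞 L)) : HeightOneSpectrum (𝓞 K) := w.under (𝓞 K)

instance underPrime_liesOver (w : HeightOneSpectrum (𝓞 L)) :
    w.asIdeal.LiesOver (underPrime K L w).asIdeal := ⟨rfl⟩

lemma mem_underPrime_iff (w : HeightOneSpectrum (𝓞 L)) (x : 𝓞 K) :
    x ∈ (underPrime K L w).asIdeal ↔ algebraMap (𝓞 K) (𝓞 L) x ∈ w.asIdeal := Iff.rfl

lemma isAbove_underPrime_iff (w : HeightOneSpectrum (𝓞 L)) :
    IsAbove S K (underPrime K L w) ↔ IsAbove S L w := by
  unfold IsAbove
  simp only [mem_underPrime_iff, map_natCast]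

/-- The prime of `K` outside `S` below a prime of `L` outside `S`. -/
def underOut (w : PrimeOut S L) : PrimeOut S K :=
  ⟨underPrime K L w.1, fun h => w.2 ((isAbove_underPrime_iff S K L w.1).1 h)⟩

/-- The ramification index `e(w | v)`, `v` the prime below `w`. -/
def ramIdx (w : HeightOneSpectrum (𝓞 L)) : ℕ :=
  (underPrime K L w).asIdeal.ramificationIdx' w.asIdeal

/-- `ord_w(x) = e(w | v) · ord_v(x)` for `x ∈ Kˣ`. -/
lemma ordAt_lMap (w : HeightOneSpectrum (𝓞 L)) (x : Additive Kˣ) :
    ordAt w (lMap K L x) = (ramIdx K L w : ℤ) * ordAt (underPrime K L w) x := by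
  have h := HeightOneSpectrum.valuation_liesOver (K := K) L (underPrime K L w) w
    ((x.toMul : Kˣ) : K)
  rw [ordAt_apply, ordAt_apply]
  have h2 : ((lMap K L x).toMul : Lˣ).val = algebraMap K L ((x.toMul : Kˣ) : K) := rfl
  rw [h2, ← h, WithZero.log_pow]
  simp only [ramIdx, nsmul_eq_mul]
  ring

lemma ramIdx_ne_zero (w : HeightOneSpectrum (𝓞 L)) : ramIdx K L w ≠ 0 :=
  Ideal.IsDedekindDomain.ramificationIdx'_ne_zero_of_liesOver w.asIdeal
    (underPrime K L w).ne_bot

/-- The primes of `L` above a given prime of `K` are finite in number. -/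
lemma underPrime_fiber_finite (v : HeightOneSpectrum (𝓞 K)) :
    {w : HeightOneSpectrum (𝓞 L) | underPrime K L w = v}.Finite := by
  have hfin := IsDedekindDomain.primesOver_finite v.asIdeal (𝓞 L)
  refine Set.Finite.of_finite_image (f := HeightOneSpectrum.asIdeal) (hfin.subset ?_)
    (fun a _ b _ hab => HeightOneSpectrum.ext hab)
  rintro _ ⟨w, hw, rfl⟩
  refine ⟨w.isPrime, ⟨?_⟩⟩
  rw [← hw]
  rfl

lemma underOut_fiber_finite (v : PrimeOut S K) :
    (underOut S K L ⁻¹' {v}).Finite := by
  have h := underPrime_fiber_finite K L v.1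
  refine Set.Finite.of_finite_image (f := Subtype.val) (h.subset ?_)
    (fun a _ b _ hab => Subtype.ext hab)
  rintro _ ⟨w, hw, rfl⟩
  exact congrArg Subtype.val hw

/-- Extension of divisors `Div^S(K) → Div^S(L)`: `v ↦ ∑_{w | v} e(w | v) [w]`. -/
def divExt : (PrimeOut S K →₀ ℤ) →+ (PrimeOut S L →₀ ℤ) where
  toFun d := Finsupp.ofSupportFinite
    (fun w : PrimeOut S L => (ramIdx K L w.1 : ℤ) * d (underOut S K L w)) (by
      refine (Set.Finite.preimage' d.hasFiniteSupport
        (fun v _ => underOut_fiber_finite S K L v)).subset ?_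
      intro w hw
      simp only [Function.mem_support, ne_eq, mul_eq_zero, not_or] at hw
      simpa using hw.2)
  map_zero' := by
    ext w
    simp [Finsupp.ofSupportFinite_coe]
  map_add' d d' := by
    ext w
    simp [Finsupp.ofSupportFinite_coe, mul_add]

@[simp] lemma divExt_apply (d : PrimeOut S K →₀ ℤ) (w : PrimeOut S L) :
    divExt S K L d w = (ramIdx K L w.1 : ℤ) * d (underOut S K L w) := rfl

/-- The divisor maps are compatible with extension of divisors. -/
lemma divExt_ordHom (x : Additive Kˣ) :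
    divExt S K L (ordHom S K x) = ordHom S L (lMap K L x) := by
  ext w
  rw [divExt_apply]
  exact (ordAt_lMap K L w.1 x).symm

lemma divExt_injective : Function.Injective (divExt S K L) := by
  intro d d' h
  ext v
  obtain ⟨P, hPm, hP⟩ := Ideal.exists_maximal_ideal_liesOver_of_isIntegral (S := 𝓞 L) v.1.asIdeal
  have hPbot : P ≠ ⊥ := Ideal.ne_bot_of_liesOver_of_ne_bot v.1.ne_bot P
  let w : HeightOneSpectrum (𝓞 L) := ⟨P, hPm.isPrime, hPbot⟩
  have hwv : underPrime K L w = v.1 := HeightOneSpectrum.ext hP.over.symm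
  have hw : ¬ IsAbove S L w := fun hh =>
    v.2 (by rw [← hwv]; exact (isAbove_underPrime_iff S K L w).2 hh)
  have h2 : underOut S K L ⟨w, hw⟩ = v := Subtype.ext hwv
  have h1 : (ramIdx K L w : ℤ) * d (underOut S K L ⟨w, hw⟩) =
      (ramIdx K L w : ℤ) * d' (underOut S K L ⟨w, hw⟩) :=
    DFunLike.congr_fun h (⟨w, hw⟩ : PrimeOut S L)
  rw [h2] at h1
  exact mul_left_cancel₀ (Nat.cast_ne_zero.2 (ramIdx_ne_zero K L w)) h1

/-! ### Galois equivariance -/

section Equivariance

variable (G G' : Type) [Group G] [Group G'] [MulSemiringAction G K] [MulSemiringAction G' L]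
  (π : G' →* G)

variable {K L G G'} in
lemma algebraMap_int_smul {π : G' →* G}
    (hπ : ∀ (g : G') (x : K), algebraMap K L (π g • x) = g • algebraMap K L x)
    (g : G') (x : 𝓞 K) :
    algebraMap (𝓞 K) (𝓞 L) (π g • x) = g • algebraMap (𝓞 K) (𝓞 L) x :=
  Subtype.ext (hπ g (x : K))

variable {K L G G'} in
lemma underPrime_primeSMul {π : G' →* G}
    (hπ : ∀ (g : G') (x : K), algebraMap K L (π g • x) = g • algebraMap K L x)
    (g : G') (w : HeightOneSpectrum (𝓞 L)) :
    underPrime K L (primeSMul G' g w) = primeSMul G (π g) (underPrime K L w) := by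
  refine HeightOneSpectrum.ext (Ideal.ext fun x => ?_)
  rw [mem_underPrime_iff, mem_primeSMul_iff, mem_primeSMul_iff, mem_underPrime_iff,
    ← map_inv, algebraMap_int_smul hπ]

variable {K L G G'} in
lemma underOut_primeOutMap {π : G' →* G}
    (hπ : ∀ (g : G') (x : K), algebraMap K L (π g • x) = g • algebraMap K L x)
    (g : G') (w : PrimeOut S L) :
    underOut S K L (primeOutMap S G' L g w) = primeOutMap S G K (π g) (underOut S K L w) :=
  Subtype.ext (underPrime_primeSMul hπ g w.1)

variable {K L G G'} in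
lemma lMap_lRepr {π : G' →* G}
    (hπ : ∀ (g : G') (x : K), algebraMap K L (π g • x) = g • algebraMap K L x)
    (g : G') (x : Additive Kˣ) :
    lMap K L (lRepr G K (π g) x) = lRepr G' L g (lMap K L x) := by
  apply Additive.toMul.injective
  apply Units.ext
  exact hπ g _

variable {K L G G'} in
/-- The ramification index is Galois invariant. -/
lemma ramIdx_primeSMul {π : G' →* G}
    (hπ : ∀ (g : G') (x : K), algebraMap K L (π g • x) = g • algebraMap K L x)
    (g : G') (w : HeightOneSpectrum (𝓞 L)) :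
    ramIdx K L (primeSMul G' g w) = ramIdx K L w := by
  obtain ⟨ϖ, hϖ⟩ := (underPrime K L w).valuation_exists_uniformizer K
  have hϖ0 : ϖ ≠ 0 := by
    rintro rfl
    rw [map_zero] at hϖ
    exact WithZero.exp_ne_zero hϖ.symm
  let x : Additive Kˣ := Additive.ofMul (Units.mk0 ϖ hϖ0)
  have hx : ordAt (underPrime K L w) x = 1 := by
    rw [ordAt_apply]
    change -WithZero.log ((underPrime K L w).valuation K ϖ) = 1
    rw [hϖ]
    simp
  have h1 := ordAt_lMap K L w x
  have h2 := ordAt_lMap K L (primeSMul G' g w) (lRepr G K (π g) x)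
  rw [lMap_lRepr hπ, ordAt_primeSMul, underPrime_primeSMul hπ, ordAt_primeSMul, hx, mul_one] at h2
  rw [hx, mul_one] at h1
  exact_mod_cast h2.symm.trans h1

variable {K L G G'} in
/-- Extension of divisors is Galois equivariant. -/
lemma divExt_equivariant {π : G' →* G}
    (hπ : ∀ (g : G') (x : K), algebraMap K L (π g • x) = g • algebraMap K L x)
    (g : G') (d : PrimeOut S K →₀ ℤ) :
    divExt S K L (divRepr S G K (π g) d) = divRepr S G' L g (divExt S K L d) := by
  ext w
  have hw : w = primeOutMap S G' L g (primeOutMap S G' L g⁻¹ w) := by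
    rw [← primeOutMap_mul, mul_inv_cancel, primeOutMap_one]
  rw [hw, divRepr_apply_apply, divExt_apply, divExt_apply, underOut_primeOutMap S hπ,
    divRepr_apply_apply, primeOutMap_val, ramIdx_primeSMul hπ]

end Equivariance

end

end Fermat.Agent.S55.GAD

end
-- ===== PACK-END S55/GAD/DivExt.lean

-- ===== PACK-BEGIN S55/G/LocH897/AlgEv.lean
section


/-!
# S55 / layer G (helper897): semi-local decomposition along evaluation maps

Abstract form of the bridge between the tensor model `(L ⊗ ℚ_S)ˣ` and the tower model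
`∏_q Coind_{D_q}^{G} F_qˣ`.

`R` reduced Artinian with an action `φ` of `G`; for each `i : ι` an evaluation `ev i : R →+* Ω i`
into a domain, a "local group" `T i` with `loc i : T i →* G` acting on `Ω i` (`act i`), such that
* `ev i (φ (loc i τ) r) = act i τ (ev i r)`                                  (equivariance);
* every `s : G` stabilising `ker (ev i)` is of the form `loc i τ`            (decomposition);
* every maximal ideal of `R` is `(φ g)⁻¹ (ker (ev i))` for a unique `i`      (orbits).
Then every family `f i : G → Ω i` with values in the range of `ev i` and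
`f i (loc i τ * g) = act i τ (f i g)` is `g ↦ ev i (φ g b)` for a unique `b : R`
(`existsUnique_ev`), and `b` is a unit if all `f i g` are nonzero (`existsUnique_ev_units`).
-/

set_option autoImplicit false
set_option linter.style.haveILetI false

namespace Fermat.Agent.S55.G.LocH897

variable {G R : Type} [Group G] [CommRing R] (φ : G →* (R ≃+* R))
  [IsArtinianRing R] [IsReduced R]
  {ι : Type} {Ω : ι → Type} [∀ i, CommRing (Ω i)] [∀ i, IsDomain (Ω i)]
  (ev : ∀ i, R →+* Ω i)
  {T : ι → Type} [∀ i, Group (T i)] (loc : ∀ i, T i →* G) (act : ∀ i, T i → Ω i → Ω i)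

theorem existsUnique_ev
    (hequiv : ∀ i (τ : T i) (r : R), ev i (φ (loc i τ) r) = act i τ (ev i r))
    (hdec : ∀ i (s : G), (∀ x, ev i (φ s x) = 0 ↔ ev i x = 0) → ∃ τ : T i, loc i τ = s)
    (hcover : ∀ 𝔫 : Ideal R, 𝔫.IsMaximal → ∃ i g, ∀ x, x ∈ 𝔫 ↔ ev i (φ g x) = 0)
    (hdisj : ∀ i j g, (∀ x, ev j x = 0 ↔ ev i (φ g x) = 0) → i = j)
    (f : ∀ i, G → Ω i) (hrange : ∀ i g, ∃ r : R, ev i r = f i g)
    (hf : ∀ i (τ : T i) g, f i (loc i τ * g) = act i τ (f i g)) :
    ∃! b : R, ∀ i g, ev i (φ g b) = f i g := by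
  classical
  have huniq : ∀ b b' : R, (∀ i g, ev i (φ g b) = f i g) →
      (∀ i g, ev i (φ g b') = f i g) → b = b' := by
    intro b b' hb hb'
    rw [← sub_eq_zero]
    apply eq_zero_of_forall_mem_maximal
    intro 𝔫 h𝔫
    obtain ⟨i, g, hig⟩ := hcover 𝔫 h𝔫
    rw [hig, map_sub, map_sub, hb, hb', sub_self]
  choose ci cg hc using hcover
  choose r hr using hrange
  obtain ⟨b, hb⟩ := exists_forall_sub_mem_maximal
    (fun 𝔫 h𝔫 => φ (cg 𝔫 h𝔫)⁻¹ (r (ci 𝔫 h𝔫) (cg 𝔫 h𝔫)))
  have key : ∀ 𝔫 : Ideal R, 𝔫.IsMaximal → ∃ j g, (∀ x, x ∈ 𝔫 ↔ ev j (φ g x) = 0) ∧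
      ev j (φ g b) = f j g := by
    intro 𝔫 h𝔫
    refine ⟨ci 𝔫 h𝔫, cg 𝔫 h𝔫, hc 𝔫 h𝔫, ?_⟩
    rw [← hr]
    have h1 := (hc 𝔫 h𝔫 _).1 (hb 𝔫 h𝔫)
    rwa [map_sub, apply_apply_inv φ, map_sub, sub_eq_zero] at h1
  have hbprop : ∀ i g, ev i (φ g b) = f i g := by
    intro i g'
    have hmax : (Ideal.comap ((φ g' : R ≃+* R) : R →+* R) (RingHom.ker (ev i))).IsMaximal := by
      haveI : (RingHom.ker (ev i)).IsPrime := RingHom.ker_isPrime (ev i)
      haveI : (RingHom.ker (ev i)).IsMaximal := IsArtinianRing.isMaximal_of_isPrime _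
      exact Ideal.comap_isMaximal_of_surjective _ (φ g').surjective
    obtain ⟨j, g, hjg, hval⟩ := key _ hmax
    have hmem : ∀ x, ev i (φ g' x) = 0 ↔ ev j (φ g x) = 0 := fun x => by
      rw [← hjg x]; rfl
    obtain rfl : j = i := by
      refine hdisj j i (g * g'⁻¹) fun y => ?_
      rw [map_mul, RingAut.mul_apply, ← hmem, apply_apply_inv φ]
    obtain ⟨τ, hτ⟩ := hdec j (g' * g⁻¹) (fun y => by
      rw [map_mul, RingAut.mul_apply, hmem, apply_apply_inv φ])
    have hg' : g' = loc j τ * g := by rw [hτ]; simp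
    rw [hg', hf, ← hval, map_mul, RingAut.mul_apply, hequiv]
  exact ⟨b, hbprop, fun b' hb' => huniq b' b hb' hbprop⟩

/-- Unit version: if all the `f i g` are nonzero, the element `b` is a unit. -/
theorem existsUnique_ev_units
    (hequiv : ∀ i (τ : T i) (r : R), ev i (φ (loc i τ) r) = act i τ (ev i r))
    (hdec : ∀ i (s : G), (∀ x, ev i (φ s x) = 0 ↔ ev i x = 0) → ∃ τ : T i, loc i τ = s)
    (hcover : ∀ 𝔫 : Ideal R, 𝔫.IsMaximal → ∃ i g, ∀ x, x ∈ 𝔫 ↔ ev i (φ g x) = 0)
    (hdisj : ∀ i j g, (∀ x, ev j x = 0 ↔ ev i (φ g x) = 0) → i = j)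
    (f : ∀ i, G → Ω i) (hrange : ∀ i g, ∃ r : R, ev i r = f i g)
    (hf : ∀ i (τ : T i) g, f i (loc i τ * g) = act i τ (f i g))
    (hne : ∀ i g, f i g ≠ 0) :
    ∃! b : Rˣ, ∀ i g, ev i (φ g (b : R)) = f i g := by
  obtain ⟨b, hb, hbu⟩ := existsUnique_ev φ ev loc act hequiv hdec hcover hdisj f hrange hf
  have hunit : IsUnit b := by
    by_contra hnu
    obtain ⟨𝔫, h𝔫, hb𝔫⟩ := exists_max_ideal_of_mem_nonunits hnu
    obtain ⟨i, g, hig⟩ := hcover 𝔫 h𝔫
    exact hne i g ((hb i g).symm.trans ((hig b).1 hb𝔫))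
  refine ⟨hunit.unit, fun i g => hb i g, fun u hu => ?_⟩
  exact Units.ext (hbu (u : R) hu)

end Fermat.Agent.S55.G.LocH897

end
-- ===== PACK-END S55/G/LocH897/AlgEv.lean

-- ===== PACK-BEGIN S55/G/Exist121/Count.lean
section


/-!
# S55, layer G, block EXIST: the counting argument of the existence theorem mod `p`

Pure algebra, Mathlib only.  Author: helper121.

With the notation of `Index.lean` (`C = (J × I)/X`, `E = ker d`, `V = d⁻¹(pI)`, `Sha`):
if
* `[J : pJ] = [E : pE]²`  (local power index + `S`-unit theorem; `F ∋ μ_p` totally complex),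
* `[Sha : pX] ≤ [I : dX + pI]`  (the everywhere unramified, `S`-split Kummer extension
  `F(Sha^{1/p})` has degree at most `|Cl_S / p|`: reciprocity for that extension),
* `N ⊆ J × I` is a subgroup containing `X + p(J × I)` with `[J × I : N] = [V : pX]`
  (`N` = preimage of the norm group of `F' = F(V^{1/p})`: reciprocity isomorphism + Kummer degree),

then `N = X + p (J × I)`, i.e. the norm group of `F'` is exactly `p C(F)`.
-/

set_option autoImplicit false

namespace Fermat.Agent.S55.G.Exist121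

variable {X J I : Type*} [AddCommGroup X] [AddCommGroup J] [AddCommGroup I]
variable (ι : X →+ J) (d : X →+ I) (p : ℕ)

/-- Two nested subgroups of the same finite index coincide. -/
lemma eq_of_le_of_index_le {A : Type*} [AddCommGroup A] {H K : AddSubgroup A} (hle : H ≤ K)
    (hH : H.index ≠ 0) (hidx : H.index ≤ K.index) : H = K := by
  have h1 : H.relIndex K * K.index = H.index := AddSubgroup.relIndex_mul_index hle
  have hK : K.index ≠ 0 := fun h0 => hH (by rw [← h1, h0, mul_zero])
  have hr : H.relIndex K ≠ 0 := fun h0 => hH (by rw [← h1, h0, zero_mul])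
  have hr1 : H.relIndex K = 1 := by
    by_contra hne
    have h2 : 2 ≤ H.relIndex K := by omega
    have : 2 * K.index ≤ H.index := by
      rw [← h1]; exact Nat.mul_le_mul_right _ h2
    omega
  exact le_antisymm hle (AddSubgroup.relIndex_eq_one.mp hr1)

/-- `[C : pC] = [E : pE] * [Sha : pX]` when `[J : pJ] = [E : pE]²` (finite, nonzero). -/
theorem index_classP_eq (hI : ∀ i : I, p • i = 0 → i = 0) (hfin : d.range.index ≠ 0)
    (hE : (pKer d p).relIndex d.ker ≠ 0)
    (hJ : (pMul J p).index = (pKer d p).relIndex d.ker ^ 2) :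
    (classP ι d p).index = (pKer d p).relIndex d.ker * (pMul X p).relIndex (sha ι d p) := by
  have h := index_identity ι d p hI hfin
  rw [hJ, pow_two, mul_assoc] at h
  have h' : (pKer d p).relIndex d.ker * (classP ι d p).index =
      (pKer d p).relIndex d.ker *
        ((pKer d p).relIndex d.ker * (pMul X p).relIndex (sha ι d p)) := by
    rw [mul_comm, h]
  exact Nat.eq_of_mul_eq_mul_left (Nat.pos_of_ne_zero hE) h'

/-- `[C : pC] ≤ [V : pX]` under the numerical hypotheses. -/
theorem index_classP_le (hI : ∀ i : I, p • i = 0 → i = 0) (hfin : d.range.index ≠ 0)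
    (hE : (pKer d p).relIndex d.ker ≠ 0)
    (hJ : (pMul J p).index = (pKer d p).relIndex d.ker ^ 2)
    (hSha : (pMul X p).relIndex (sha ι d p) ≤ (d.range ⊔ pMul I p).index) :
    (classP ι d p).index ≤ (pMul X p).relIndex (selV d p) := by
  rw [index_classP_eq ι d p hI hfin hE hJ, relIndex_pMul_selV' d p hI hfin]
  exact Nat.mul_le_mul_left _ hSha

/-- `[C : pC] ≠ 0` under the numerical hypotheses (`C / pC` is finite). -/
theorem index_classP_ne_zero (hfin : d.range.index ≠ 0)
    (hE : (pKer d p).relIndex d.ker ≠ 0)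
    (hJ : (pMul J p).index = (pKer d p).relIndex d.ker ^ 2) :
    (classP ι d p).index ≠ 0 := by
  rw [index_classP ι d p]
  have h1 : (d.range ⊔ pMul I p).index ≠ 0 := by
    intro h0
    have := AddSubgroup.relIndex_mul_index (le_sup_left : d.range ≤ d.range ⊔ pMul I p)
    rw [h0, mul_zero] at this
    exact hfin this.symm
  have h2 : (pMul J p ⊔ (selV d p).map ι).index ≠ 0 := by
    intro h0
    have := AddSubgroup.relIndex_mul_index
      (le_sup_left : pMul J p ≤ pMul J p ⊔ (selV d p).map ι)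
    rw [h0, mul_zero, hJ] at this
    exact (pow_ne_zero 2 hE) this.symm
  exact Nat.mul_ne_zero h1 h2

/-- **Counting form of the existence theorem mod `p`.**  A subgroup `N ⊇ X + p(J × I)` of index
`[V : pX]` is equal to `X + p(J × I)`. -/
theorem eq_classP_of_index (hI : ∀ i : I, p • i = 0 → i = 0) (hfin : d.range.index ≠ 0)
    (hE : (pKer d p).relIndex d.ker ≠ 0)
    (hJ : (pMul J p).index = (pKer d p).relIndex d.ker ^ 2)
    (hSha : (pMul X p).relIndex (sha ι d p) ≤ (d.range ⊔ pMul I p).index)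
    (N : AddSubgroup (J × I)) (hN : classP ι d p ≤ N)
    (hNidx : N.index = (pMul X p).relIndex (selV d p)) :
    classP ι d p = N :=
  eq_of_le_of_index_le hN (index_classP_ne_zero ι d p hfin hE hJ)
    (hNidx ▸ index_classP_le ι d p hI hfin hE hJ hSha)

/-- Variant: it suffices to know `[J × I : N] ≥ [V : pX]`. -/
theorem eq_classP_of_le_index (hI : ∀ i : I, p • i = 0 → i = 0) (hfin : d.range.index ≠ 0)
    (hE : (pKer d p).relIndex d.ker ≠ 0)
    (hJ : (pMul J p).index = (pKer d p).relIndex d.ker ^ 2)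
    (hSha : (pMul X p).relIndex (sha ι d p) ≤ (d.range ⊔ pMul I p).index)
    (N : AddSubgroup (J × I)) (hN : classP ι d p ≤ N)
    (hNidx : (pMul X p).relIndex (selV d p) ≤ N.index) :
    classP ι d p = N :=
  eq_of_le_of_index_le hN (index_classP_ne_zero ι d p hfin hE hJ)
    ((index_classP_le ι d p hI hfin hE hJ hSha).trans hNidx)

end Fermat.Agent.S55.G.Exist121

end
-- ===== PACK-END S55/G/Exist121/Count.lean

-- ===== PACK-BEGIN S55/H595/Relative.lean
section
/-
Relative Herbrand indices of stable subgroups (helper595, S55 class-field-theory build).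

`mrhIdx f g U = [ker f ∩ U : g(U)]` for a subgroup `U` of an ambient commutative group `B`
with endomorphisms `f g`.  Additive twins: `rhIdx`, `RHFinite`, `rherbrandQ`, ...
-/


namespace Fermat.Agent.S55.H595

open Subgroup Function

variable {A B C : Type*} [CommGroup A] [CommGroup B] [CommGroup C]

/-- Relative Herbrand index of a subgroup `U` of `B` (meaningful when `U` is stable under
`f` and `g`): `[ker f ∩ U : g(U)]`. -/
@[to_additive rhIdx /-- Relative Herbrand index of a subgroup `U` of `B` (meaningful when `U`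
is stable under `f` and `g`): `[ker f ∩ U : g(U)]`. -/]
noncomputable def mrhIdx (f g : B →* B) (U : Subgroup B) : ℕ := (U.map g).relIndex (f.ker ⊓ U)

/-- Both relative Herbrand indices are finite. -/
@[to_additive RHFinite /-- Both relative Herbrand indices are finite. -/]
def MRHFinite (f g : B →* B) (U : Subgroup B) : Prop := mrhIdx f g U ≠ 0 ∧ mrhIdx g f U ≠ 0

/-- The relative Herbrand quotient. -/
@[to_additive rherbrandQ /-- The relative Herbrand quotient. -/]
noncomputable def mrherbrandQ (f g : B →* B) (U : Subgroup B) : ℚ :=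
  (mrhIdx f g U : ℚ) / (mrhIdx g f U : ℚ)

/-- Restriction of an endomorphism to a stable subgroup. -/
@[to_additive resHom /-- Restriction of an endomorphism to a stable subgroup. -/]
def mresHom (f : B →* B) (U : Subgroup B) (hU : U ≤ U.comap f) : U →* U :=
  (f.comp U.subtype).codRestrict U (fun x => hU x.2)

@[to_additive (attr := simp) coe_resHom]
lemma coe_mresHom (f : B →* B) (U : Subgroup B) (hU : U ≤ U.comap f) (x : U) :
    (mresHom f U hU x : B) = f x := rfl

@[to_additive rhIdx_eq_hIdx]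
lemma mrhIdx_eq_mhIdx (f g : B →* B) (U : Subgroup B) (hf : U ≤ U.comap f)
    (hg : U ≤ U.comap g) : mrhIdx f g U = mhIdx (mresHom f U hf) (mresHom g U hg) := by
  rw [mhIdx_sub U.subtype (mresHom f U hf) (mresHom g U hg) f g U.subtype_injective
    (fun _ => rfl) (fun _ => rfl)]
  unfold mrhIdx
  rw [Subgroup.range_subtype]

@[to_additive rhIdx_top]
lemma mrhIdx_top (f g : B →* B) : mrhIdx f g ⊤ = mhIdx f g := by
  unfold mrhIdx mhIdx
  rw [inf_top_eq, ← MonoidHom.range_eq_map]

@[to_additive RHFinite_iff]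
lemma MRHFinite_iff (f g : B →* B) (U : Subgroup B) (hf : U ≤ U.comap f)
    (hg : U ≤ U.comap g) : MRHFinite f g U ↔ MHFinite (mresHom f U hf) (mresHom g U hg) := by
  unfold MRHFinite MHFinite
  rw [mrhIdx_eq_mhIdx f g U hf hg, mrhIdx_eq_mhIdx g f U hg hf]

@[to_additive rherbrandQ_eq]
lemma mrherbrandQ_eq (f g : B →* B) (U : Subgroup B) (hf : U ≤ U.comap f)
    (hg : U ≤ U.comap g) : mrherbrandQ f g U = mherbrandQ (mresHom f U hf) (mresHom g U hg) := by
  unfold mrherbrandQ mherbrandQ
  rw [mrhIdx_eq_mhIdx f g U hf hg, mrhIdx_eq_mhIdx g f U hg hf]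

/-- **Relative exact sequence.**  `U ≤ B` stable under `f, g` with `f g = g f = 1` on `U`;
`φ : B → C` intertwines `(f, g)` with `(f', g')`.  Then `1 → ker φ ∩ U → U → φ(U) → 1` is an
exact sequence of Herbrand pairs. -/
@[to_additive rh_exact]
theorem mrh_exact (f g : B →* B) (f' g' : C →* C) (φ : B →* C)
    (hφf : ∀ b, φ (f b) = f' (φ b)) (hφg : ∀ b, φ (g b) = g' (φ b))
    (U : Subgroup B) (hUf : U ≤ U.comap f) (hUg : U ≤ U.comap g)
    (hfg : ∀ b ∈ U, f (g b) = 1) (hgf : ∀ b ∈ U, g (f b) = 1) :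
    ∃ Ef Eg w y w' y' : ℕ,
      mrhIdx f g (φ.ker ⊓ U) = Eg * w ∧ mrhIdx f g U = w * y ∧ mrhIdx f' g' (U.map φ) = Ef * y ∧
      mrhIdx g f (φ.ker ⊓ U) = Ef * w' ∧ mrhIdx g f U = w' * y' ∧
      mrhIdx g' f' (U.map φ) = Eg * y' := by
  -- stability of the kernel part and of the image
  have hKf : φ.ker ⊓ U ≤ (φ.ker ⊓ U).comap f := by
    rintro x ⟨hx1, hx2⟩
    refine ⟨?_, hUf hx2⟩
    have hx1' : φ x = 1 := hx1
    show φ (f x) = 1
    rw [hφf, hx1', map_one]
  have hKg : φ.ker ⊓ U ≤ (φ.ker ⊓ U).comap g := by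
    rintro x ⟨hx1, hx2⟩
    refine ⟨?_, hUg hx2⟩
    have hx1' : φ x = 1 := hx1
    show φ (g x) = 1
    rw [hφg, hx1', map_one]
  have hVf : U.map φ ≤ (U.map φ).comap f' := by
    rintro _ ⟨x, hx, rfl⟩
    exact ⟨f x, hUf hx, hφf x⟩
  have hVg : U.map φ ≤ (U.map φ).comap g' := by
    rintro _ ⟨x, hx, rfl⟩
    exact ⟨g x, hUg hx, hφg x⟩
  -- the maps of the exact sequence
  let i : ↥(φ.ker ⊓ U) →* ↥U := Subgroup.inclusion inf_le_right
  let p : ↥U →* ↥(U.map φ) := (φ.comp U.subtype).codRestrict (U.map φ)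
    (fun x => ⟨x, x.2, rfl⟩)
  have hi : Injective i := Subgroup.inclusion_injective _
  have hp : Surjective p := by
    rintro ⟨_, x, hx, rfl⟩
    exact ⟨⟨x, hx⟩, rfl⟩
  have hex : i.range = p.ker := by
    ext x
    constructor
    · rintro ⟨⟨y, hy1, hy2⟩, rfl⟩
      rw [MonoidHom.mem_ker]
      apply Subtype.ext
      exact hy1
    · intro hx
      rw [MonoidHom.mem_ker] at hx
      have hx' : φ x = 1 := congrArg Subtype.val hx
      exact ⟨⟨x, hx', x.2⟩, rfl⟩
  have key := exists_six_factors_mul i p (mresHom f _ hKf) (mresHom g _ hKg)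
    (mresHom f U hUf) (mresHom g U hUg) (mresHom f' _ hVf) (mresHom g' _ hVg) hi hp hex
    (fun _ => rfl) (fun _ => rfl)
    (fun b => Subtype.ext (hφf b)) (fun b => Subtype.ext (hφg b))
    (fun b => Subtype.ext (hfg b b.2)) (fun b => Subtype.ext (hgf b b.2))
  rw [← mrhIdx_eq_mhIdx f g _ hKf hKg, ← mrhIdx_eq_mhIdx g f _ hKg hKf,
    ← mrhIdx_eq_mhIdx f g U hUf hUg, ← mrhIdx_eq_mhIdx g f U hUg hUf,
    ← mrhIdx_eq_mhIdx f' g' _ hVf hVg, ← mrhIdx_eq_mhIdx g' f' _ hVg hVf] at key
  exact key

/-- Relative version: finite kernel part. If `ker φ ∩ U` is finite then `U` and `φ(U)` have the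
same Herbrand indices ratio. -/
@[to_additive rh_of_finite_ker]
theorem mrh_of_finite_ker (f g : B →* B) (f' g' : C →* C) (φ : B →* C)
    (hφf : ∀ b, φ (f b) = f' (φ b)) (hφg : ∀ b, φ (g b) = g' (φ b))
    (U : Subgroup B) (hUf : U ≤ U.comap f) (hUg : U ≤ U.comap g)
    (hfg : ∀ b ∈ U, f (g b) = 1) (hgf : ∀ b ∈ U, g (f b) = 1)
    (hfin : Finite ↥(φ.ker ⊓ U)) :
    (MRHFinite f g U ↔ MRHFinite f' g' (U.map φ)) ∧
      mrhIdx f g U * mrhIdx g' f' (U.map φ) = mrhIdx g f U * mrhIdx f' g' (U.map φ) := by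
  obtain ⟨Ef, Eg, w, y, w', y', h1, h2, h3, h4, h5, h6⟩ :=
    mrh_exact f g f' g' φ hφf hφg U hUf hUg hfg hgf
  -- finiteness of the kernel part
  have hKf : φ.ker ⊓ U ≤ (φ.ker ⊓ U).comap f := by
    rintro x ⟨hx1, hx2⟩
    refine ⟨?_, hUf hx2⟩
    have hx1' : φ x = 1 := hx1
    show φ (f x) = 1
    rw [hφf, hx1', map_one]
  have hKg : φ.ker ⊓ U ≤ (φ.ker ⊓ U).comap g := by
    rintro x ⟨hx1, hx2⟩
    refine ⟨?_, hUg hx2⟩
    have hx1' : φ x = 1 := hx1
    show φ (g x) = 1
    rw [hφg, hx1', map_one]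
  have hK := mhIdx_eq_of_finite (mresHom f _ hKf) (mresHom g _ hKg)
    (fun b => Subtype.ext (hfg b b.2.2)) (fun b => Subtype.ext (hgf b b.2.2))
  rw [← mrhIdx_eq_mhIdx f g _ hKf hKg, ← mrhIdx_eq_mhIdx g f _ hKg hKf] at hK
  obtain ⟨hKeq, hKne⟩ := hK
  have hKne' : mrhIdx g f (φ.ker ⊓ U) ≠ 0 := hKeq ▸ hKne
  rw [h1] at hKeq hKne
  rw [h4] at hKeq hKne'
  have hEg : Eg ≠ 0 := left_ne_zero_of_mul hKne
  have hw : w ≠ 0 := right_ne_zero_of_mul hKne
  have hEf : Ef ≠ 0 := left_ne_zero_of_mul hKne'
  have hw' : w' ≠ 0 := right_ne_zero_of_mul hKne'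
  refine ⟨?_, ?_⟩
  · unfold MRHFinite
    rw [h2, h3, h5, h6]
    constructor
    · rintro ⟨a, b⟩
      exact ⟨Nat.mul_ne_zero hEf (right_ne_zero_of_mul a),
        Nat.mul_ne_zero hEg (right_ne_zero_of_mul b)⟩
    · rintro ⟨a, b⟩
      exact ⟨Nat.mul_ne_zero hw (right_ne_zero_of_mul a),
        Nat.mul_ne_zero hw' (right_ne_zero_of_mul b)⟩
  · rw [h2, h3, h5, h6]
    calc w * y * (Eg * y') = (Eg * w) * (y * y') := by
          simp only [Nat.mul_comm, Nat.mul_left_comm]
      _ = (Ef * w') * (y * y') := by rw [hKeq]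
      _ = w' * y' * (Ef * y) := by simp only [Nat.mul_comm, Nat.mul_left_comm]

/-- Relative version: finite index. If `U ≤ W` are stable with `[W : U]` finite, the Herbrand
index ratios of `U` and `W` agree. -/
@[to_additive rh_of_finite_index]
theorem mrh_of_finite_index (f g : B →* B) (U W : Subgroup B) (hUW : U ≤ W)
    (hidx : U.relIndex W ≠ 0)
    (hUf : U ≤ U.comap f) (hUg : U ≤ U.comap g) (hWf : W ≤ W.comap f) (hWg : W ≤ W.comap g)
    (hfg : ∀ b ∈ W, f (g b) = 1) (hgf : ∀ b ∈ W, g (f b) = 1) :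
    (MRHFinite f g U ↔ MRHFinite f g W) ∧
      mrhIdx f g U * mrhIdx g f W = mrhIdx g f U * mrhIdx f g W := by
  -- exact sequence 1 → U → W → W/U → 1
  let U' : Subgroup ↥W := U.subgroupOf W
  let i : ↥U →* ↥W := Subgroup.inclusion hUW
  let p : ↥W →* ↥W ⧸ U' := QuotientGroup.mk' U'
  have hU'f : U' ≤ U'.comap (mresHom f W hWf) := fun x hx => hUf hx
  have hU'g : U' ≤ U'.comap (mresHom g W hWg) := fun x hx => hUg hx
  let fC : ↥W ⧸ U' →* ↥W ⧸ U' := QuotientGroup.map U' U' (mresHom f W hWf) hU'f
  let gC : ↥W ⧸ U' →* ↥W ⧸ U' := QuotientGroup.map U' U' (mresHom g W hWg) hU'g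
  have hi : Injective i := Subgroup.inclusion_injective _
  have hp : Surjective p := QuotientGroup.mk'_surjective U'
  have hex : i.range = p.ker := by
    rw [QuotientGroup.ker_mk']
    ext x
    constructor
    · rintro ⟨y, rfl⟩
      exact y.2
    · intro hx
      exact ⟨⟨x, hx⟩, rfl⟩
  have hfinC : Finite (↥W ⧸ U') := by
    have : U'.index ≠ 0 := hidx
    haveI : U'.FiniteIndex := ⟨this⟩
    exact Subgroup.finite_quotient_of_finiteIndex
  obtain ⟨Ef, Eg, w, y, w', y', h1, h2, h3, h4, h5, h6⟩ :=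
    exists_six_factors_mul i p (mresHom f U hUf) (mresHom g U hUg)
      (mresHom f W hWf) (mresHom g W hWg) fC gC hi hp hex
      (fun _ => rfl) (fun _ => rfl) (fun _ => rfl) (fun _ => rfl)
      (fun b => Subtype.ext (hfg b b.2)) (fun b => Subtype.ext (hgf b b.2))
  have hfgC : ∀ c, fC (gC c) = 1 := by
    intro c
    obtain ⟨b, rfl⟩ := hp c
    show p (mresHom f W hWf (mresHom g W hWg b)) = 1
    rw [show mresHom f W hWf (mresHom g W hWg b) = 1 from Subtype.ext (hfg b b.2), map_one]
  have hgfC : ∀ c, gC (fC c) = 1 := by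
    intro c
    obtain ⟨b, rfl⟩ := hp c
    show p (mresHom g W hWg (mresHom f W hWf b)) = 1
    rw [show mresHom g W hWg (mresHom f W hWf b) = 1 from Subtype.ext (hgf b b.2), map_one]
  obtain ⟨hCeq, hCne⟩ := mhIdx_eq_of_finite fC gC hfgC hgfC
  have hCne' : mhIdx gC fC ≠ 0 := hCeq ▸ hCne
  rw [← mrhIdx_eq_mhIdx f g U hUf hUg] at h1
  rw [← mrhIdx_eq_mhIdx g f U hUg hUf] at h4
  rw [← mrhIdx_eq_mhIdx f g W hWf hWg] at h2
  rw [← mrhIdx_eq_mhIdx g f W hWg hWf] at h5
  rw [h3] at hCeq hCne
  rw [h6] at hCeq hCne'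
  have hEf : Ef ≠ 0 := left_ne_zero_of_mul hCne
  have hy : y ≠ 0 := right_ne_zero_of_mul hCne
  have hEg : Eg ≠ 0 := left_ne_zero_of_mul hCne'
  have hy' : y' ≠ 0 := right_ne_zero_of_mul hCne'
  refine ⟨?_, ?_⟩
  · unfold MRHFinite
    rw [h1, h2, h4, h5]
    constructor
    · rintro ⟨a, b⟩
      exact ⟨Nat.mul_ne_zero (right_ne_zero_of_mul a) hy,
        Nat.mul_ne_zero (right_ne_zero_of_mul b) hy'⟩
    · rintro ⟨a, b⟩
      exact ⟨Nat.mul_ne_zero hEg (left_ne_zero_of_mul a),
        Nat.mul_ne_zero hEf (left_ne_zero_of_mul b)⟩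
  · rw [h1, h2, h4, h5]
    calc Eg * w * (w' * y') = (Eg * y') * (w * w') := by
          simp only [Nat.mul_comm, Nat.mul_left_comm]
      _ = (Ef * y) * (w * w') := by rw [hCeq]
      _ = Ef * w' * (w * y) := by simp only [Nat.mul_comm, Nat.mul_left_comm]

end Fermat.Agent.S55.H595

end
-- ===== PACK-END S55/H595/Relative.lean

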