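import Mathlib
import Fermat.Agent.Pack.S43GC.G0E0L3
import Fermat.Agent.Pack.S43GC.G0E0L1
import Fermat.Agent.Pack.S43GC.G0E0L2
import Fermat.Agent.Pack.S43GC.G0E0L0
import Fermat.Agent.Pack.S44C.G0E1L1
import Fermat.Agent.Pack.S43GC.G0E1L1
import Fermat.Agent.Pack.S43GC.G0E1L0
import Fermat.Agent.Pack.S43GC.G0E1L3
import Fermat.Agent.Pack.S43GC.G0E2L2
import Fermat.Agent.Pack.Fast891

-- ===== PACK-BEGIN Ribet/H678/QuadReg.lean
section


/-!
# The quadratic algebra `B[ω]/(ω² = g)` and the regular sequence `(y, z, ω)` (helper678)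

For a commutative ring `B`, `g y z : B`, we consider `A₀ = QuadraticAlgebra B g 0`
(`ω² = g`) and show that `(y, z, ω)` is a regular sequence in `A₀` as soon as
`y` is a nonzerodivisor of `B`, `z` is a nonzerodivisor modulo `y` and `g` is a nonzerodivisor
modulo `(y, z)`.  We also give the norm criterion for `A₀` to be a domain.
-/

set_option autoImplicit false

namespace Fermat.Agent.Ribet.H678

open QuadraticAlgebra

section Quad

variable {B : Type*} [CommRing B] (g : B)

/-- The ideal of `B[ω]` of elements both of whose components lie in `𝔟`. -/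
def quadIdeal (𝔟 : Ideal B) : Ideal (QuadraticAlgebra B g 0) where
  carrier := {w | w.re ∈ 𝔟 ∧ w.im ∈ 𝔟}
  add_mem' := fun {a b} ha hb => ⟨by rw [re_add]; exact 𝔟.add_mem ha.1 hb.1,
    by rw [im_add]; exact 𝔟.add_mem ha.2 hb.2⟩
  zero_mem' := ⟨by simp, by simp⟩
  smul_mem' := fun c w hw => by
    refine ⟨?_, ?_⟩
    · rw [smul_eq_mul, re_mul]
      exact 𝔟.add_mem (𝔟.mul_mem_left _ hw.1) (𝔟.mul_mem_left _ hw.2)
    · rw [smul_eq_mul, im_mul]
      exact 𝔟.add_mem (𝔟.add_mem (𝔟.mul_mem_left _ hw.2) (𝔟.mul_mem_left _ hw.1))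
        (𝔟.mul_mem_left _ hw.2)

theorem mem_quadIdeal {𝔟 : Ideal B} {w : QuadraticAlgebra B g 0} :
    w ∈ quadIdeal g 𝔟 ↔ w.re ∈ 𝔟 ∧ w.im ∈ 𝔟 := Iff.rfl

theorem map_algebraMap_eq_quadIdeal (𝔟 : Ideal B) :
    𝔟.map (algebraMap B (QuadraticAlgebra B g 0)) = quadIdeal g 𝔟 := by
  apply le_antisymm
  · rw [Ideal.map_le_iff_le_comap]
    intro b hb
    rw [Ideal.mem_comap, mem_quadIdeal]
    exact ⟨by simpa using hb, by simp⟩
  · intro w hw
    have h : w = algebraMap B _ w.re + algebraMap B _ w.im * ω := by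
      ext <;> simp
    rw [h]
    exact Ideal.add_mem _ (Ideal.mem_map_of_mem _ hw.1)
      (Ideal.mul_mem_right _ _ (Ideal.mem_map_of_mem _ hw.2))

/-- The sequence `(y, z, ω)` in `B[ω]`. -/
def quadSeq (y z : B) : Fin 3 → QuadraticAlgebra B g 0 :=
  ![algebraMap B _ y, algebraMap B _ z, ω]

theorem ltA_quadSeq_zero (y z : B) : ltA (quadSeq g y z) 0 = ⊥ := by
  simp [ltA]

theorem ltA_quadSeq_one (y z : B) :
    ltA (quadSeq g y z) 1 = quadIdeal g (Ideal.span {y}) := by
  have h : {i : Fin 3 | (i : ℕ) < 1} = {0} := by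
    ext i; fin_cases i <;> simp
  rw [ltA, h, Set.image_singleton, ← map_algebraMap_eq_quadIdeal, Ideal.map_span,
    Set.image_singleton]
  rfl

theorem ltA_quadSeq_two (y z : B) :
    ltA (quadSeq g y z) 2 = quadIdeal g (Ideal.span {y, z}) := by
  have h : {i : Fin 3 | (i : ℕ) < 2} = {0, 1} := by
    ext i; fin_cases i <;> simp
  rw [ltA, h, Set.image_pair, ← map_algebraMap_eq_quadIdeal, Ideal.map_span, Set.image_pair]
  rfl

/-- `(y, z, ω)` is a regular sequence in `B[ω]/(ω² = g)`. -/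
theorem isRegSeq_quadSeq (y z : B) (hy : ∀ a, y * a = 0 → a = 0)
    (hz : ∀ a, z * a ∈ Ideal.span {y} → a ∈ Ideal.span {y})
    (hg : ∀ a, g * a ∈ Ideal.span {y, z} → a ∈ Ideal.span {y, z}) :
    IsRegSeq (quadSeq g y z) := by
  intro i a
  fin_cases i
  · change algebraMap B _ y * a ∈ ltA (quadSeq g y z) 0 → a ∈ ltA (quadSeq g y z) 0
    rw [ltA_quadSeq_zero, Ideal.mem_bot, Ideal.mem_bot]
    intro h
    have h1 := congrArg QuadraticAlgebra.re h
    have h2 := congrArg QuadraticAlgebra.im h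
    simp at h1 h2
    ext
    · exact hy _ h1
    · exact hy _ h2
  · change algebraMap B _ z * a ∈ ltA (quadSeq g y z) 1 → a ∈ ltA (quadSeq g y z) 1
    rw [ltA_quadSeq_one, mem_quadIdeal, mem_quadIdeal]
    intro h
    simp at h
    exact ⟨hz _ h.1, hz _ h.2⟩
  · change ω * a ∈ ltA (quadSeq g y z) 2 → a ∈ ltA (quadSeq g y z) 2
    rw [ltA_quadSeq_two, mem_quadIdeal, mem_quadIdeal]
    intro h
    simp at h
    exact ⟨h.2, hg _ h.1⟩

/-- Norm criterion: `B[ω]/(ω² = g)` is a domain if `B` is and `α² = g β²` forces `β = 0`. -/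
theorem quad_isDomain [IsDomain B] (hnorm : ∀ α β : B, α * α = g * β * β → β = 0) :
    IsDomain (QuadraticAlgebra B g 0) := by
  have key : ∀ w : QuadraticAlgebra B g 0, w ≠ 0 → w ∈ nonZeroDivisors (QuadraticAlgebra B g 0) := by
    intro w hw
    rw [← norm_mem_nonZeroDivisors_iff]
    apply mem_nonZeroDivisors_of_ne_zero
    intro h0
    rw [norm_def] at h0
    have h1 : w.re * w.re = g * w.im * w.im := by
      have : w.re * w.re + 0 * w.re * w.im - g * w.im * w.im = 0 := h0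
      linear_combination this
    have him : w.im = 0 := hnorm _ _ h1
    have hre : w.re = 0 := by
      rw [him] at h1
      simpa using h1
    exact hw (by ext <;> simp [him, hre])
  have : NoZeroDivisors (QuadraticAlgebra B g 0) := by
    refine ⟨fun {a b} h => ?_⟩
    by_cases ha : a = 0
    · exact Or.inl ha
    · right
      have := key a ha
      exact (mem_nonZeroDivisors_iff_right.1 this) b (by rw [mul_comm]; exact h)
  exact NoZeroDivisors.to_isDomain _

theorem quad_isNoetherianRing [IsNoetherianRing B] :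
    IsNoetherianRing (QuadraticAlgebra B g 0) :=
  Algebra.FiniteType.isNoetherianRing B _

end Quad

end Fermat.Agent.Ribet.H678

end
-- ===== PACK-END Ribet/H678/QuadReg.lean

-- ===== PACK-BEGIN S55/Bridge/Archimedean.lean
section


/-!
# S55 bridge, part B3: the archimedean place contributes nothing when `2` is invertible

`archimedeanDecomposition = ⟨complex conjugation⟩` has order dividing `2`, so its `H¹` and its
(Prelude-)continuous `H²` with coefficients in a vector space over a field with `2 ≠ 0` vanish.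
Consequently `sha₁`/`sha₂` are cut out by the finite places `q ∈ S` only.
-/

set_option autoImplicit false

namespace Fermat.Agent.S55.Bridge

open groupCohomology CategoryTheory ExtCitation

/-- The absolute Galois group of `ℚ` (as an abstract group), as used by the Prelude. -/
abbrev GQ : Type := AlgebraicClosure ℚ ≃ₐ[ℚ] AlgebraicClosure ℚ

theorem archimedean_isOfFinOrder : IsOfFinOrder complexConjugation :=
  isOfFinOrder_iff_pow_eq_one.2 ⟨2, by norm_num, complexConjugation_sq⟩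

instance archimedean_finite : Finite ↥archimedeanDecomposition := by
  unfold archimedeanDecomposition
  exact archimedean_isOfFinOrder.finite_zpowers

theorem archimedean_card_dvd_two : Nat.card ↥archimedeanDecomposition ∣ 2 := by
  unfold archimedeanDecomposition
  rw [Nat.card_zpowers]
  exact orderOf_dvd_of_pow_eq_one complexConjugation_sq

/-- In a field where `2 ≠ 0`, the order of the archimedean decomposition group is invertible. -/
theorem archimedean_exists_inv {K : Type} [Field K] (h2 : (2 : K) ≠ 0) :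
    ∃ c : K, c * (Nat.card ↥archimedeanDecomposition : K) = 1 := by
  have hd := archimedean_card_dvd_two
  have hne : (Nat.card ↥archimedeanDecomposition : K) ≠ 0 := by
    have hle : Nat.card ↥archimedeanDecomposition ≤ 2 := Nat.le_of_dvd (by norm_num) hd
    have hpos : 0 < Nat.card ↥archimedeanDecomposition := Nat.pos_of_dvd_of_pos hd (by norm_num)
    interval_cases h : Nat.card ↥archimedeanDecomposition
    · simp
    · simpa using h2
  exact ⟨(Nat.card ↥archimedeanDecomposition : K)⁻¹, inv_mul_cancel₀ hne⟩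

variable {K : Type} [Field K]

/-- `H¹(⟨c⟩, B) = 0` if `2 ≠ 0` in `K`. -/
theorem archimedean_H1_eq_zero (h2 : (2 : K) ≠ 0) (B : Rep K ↥archimedeanDecomposition)
    (x : H1 B) : x = 0 := by
  letI : Fintype ↥archimedeanDecomposition := Fintype.ofFinite _
  obtain ⟨c, hc⟩ := archimedean_exists_inv (K := K) h2
  rw [Nat.card_eq_fintype_card] at hc
  exact H1_eq_zero_of_card_inv B c hc x

/-- The Prelude-continuous `H²` of `⟨c⟩` vanishes if `2 ≠ 0` in `K`. -/
theorem archimedean_continuousH2_eq_zero (h2 : (2 : K) ≠ 0)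
    (B : Rep K ↥archimedeanDecomposition)
    (x : continuousH2 archimedeanLoc B) : x = 0 := by
  letI : Fintype ↥archimedeanDecomposition := Fintype.ofFinite _
  obtain ⟨c, hc⟩ := archimedean_exists_inv (K := K) h2
  rw [Nat.card_eq_fintype_card] at hc
  exact continuousH2_eq_zero_of_card_inv B archimedeanLoc c hc x

variable (S : Finset Nat.Primes)

/-- The archimedean component of the total localisation map on `H¹` vanishes. -/
theorem locTotal_inl_eq_zero (h2 : (2 : K) ≠ 0) (A : Rep K GQ) (x : H1 A) (u : Unit) :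
    locTotal (extArithLoc S) A x (Sum.inl u) = 0 :=
  archimedean_H1_eq_zero h2 (Rep.res archimedeanLoc A) _

/-- The archimedean component of the total localisation map on continuous `H²` vanishes. -/
theorem locTotal₂S_inl_eq_zero (h2 : (2 : K) ≠ 0) (M : Rep K GQ) (x : continuousH2S S M)
    (u : Unit) : locTotal₂S S M x (Sum.inl u) = 0 :=
  archimedean_continuousH2_eq_zero h2 (Rep.res archimedeanLoc M) _

/-- `sha₁` is cut out by the finite places only (when `2 ≠ 0`). -/
theorem mem_sha₁_iff (h2 : (2 : K) ≠ 0) (A : Rep K GQ) (x : H1 A) :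
    x ∈ sha₁ S A ↔ x ∈ continuousH1S S A ∧
      ∀ q : ↥S, (groupCohomology.map (primeLocalToGlobal q.1)
        (𝟙 (Rep.res (primeLocalToGlobal q.1) A)) 1).hom x = 0 := by
  unfold sha₁
  rw [Submodule.mem_inf, LinearMap.mem_ker]
  refine and_congr Iff.rfl ⟨fun h q => ?_, fun h => ?_⟩
  · exact congrFun h (Sum.inr q)
  · funext v
    rcases v with u | q
    · exact locTotal_inl_eq_zero S h2 A x u
    · exact h q

/-- `sha₂` is cut out by the finite places only (when `2 ≠ 0`). -/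
theorem mem_sha₂_iff (h2 : (2 : K) ≠ 0) (M : Rep K GQ) (x : continuousH2S S M) :
    x ∈ sha₂ S M ↔ ∀ q : ↥S, locRes₂S S M (primeLocalToGlobal q.1) x = 0 := by
  unfold sha₂
  rw [LinearMap.mem_ker]
  refine ⟨fun h q => ?_, fun h => ?_⟩
  · exact congrFun h (Sum.inr q)
  · funext v
    rcases v with u | q
    · exact locTotal₂S_inl_eq_zero S h2 M x u
    · exact h q

/-- In `ZMod p` with `p` an odd prime, `2 ≠ 0`. -/
theorem two_ne_zero_zmod {p : ℕ} [Fact p.Prime] (hp2 : p ≠ 2) : (2 : ZMod p) ≠ 0 := by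
  intro h
  have h' : ((2 : ℕ) : ZMod p) = 0 := by exact_mod_cast h
  rw [ZMod.natCast_eq_zero_iff] at h'
  exact hp2 ((Nat.prime_dvd_prime_iff_eq Fact.out Nat.prime_two).1 h')

end Fermat.Agent.S55.Bridge

end
-- ===== PACK-END S55/Bridge/Archimedean.lean

-- ===== PACK-BEGIN S55/H901/H1FinCore.lean
section



/-!
# S55 / G5 (finiteness of `H¹(G_S, M)`): Mathlib-only core lemmas

* `dvd_toAdd_valuationOfNeZero_of_pow_eq`, `dvd_toAdd_valuationOfNeZero_of_unramified`:
  an element that becomes an `n`-th power in an extension unramified at `v` has `n ∣ v(b)`.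
* `exists_finset_selmer_reps`: finitely many representatives modulo `n`-th powers for the
  elements with `n ∣ v(b)` outside a finite set `S` (from finiteness of the Selmer group).
* `exists_ne_zero_forall_smul_eq`: Hilbert 90 for a character of a finite group of automorphisms.
-/

set_option autoImplicit false
set_option linter.style.haveILetI false
set_option linter.unusedSectionVars false

open IsDedekindDomain HeightOneSpectrum
open scoped NumberField

namespace Fermat.Agent.S55.H901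

section AKLB

variable {A K : Type*} (L : Type*) {B : Type*}
variable [CommRing A] [IsDedekindDomain A] [CommRing B] [IsDedekindDomain B] [Algebra A B]
  [Module.IsTorsionFree A B]
variable [Field K] [Field L] [Algebra K L]
variable [Algebra A K] [IsFractionRing A K] [Algebra A L] [IsScalarTower A K L]
variable [Algebra B L] [IsFractionRing B L] [IsScalarTower A B L]

/-- If `w | v` is unramified and `b ∈ Kˣ` becomes an `n`-th power in `L`, then `n ∣ v(b)`. -/
theorem dvd_toAdd_valuationOfNeZero_of_pow_eq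
    (v : HeightOneSpectrum A) (w : HeightOneSpectrum B) [w.asIdeal.LiesOver v.asIdeal]
    (he : v.asIdeal.ramificationIdx' w.asIdeal = 1) (n : ℕ) (b : Kˣ) (β : L)
    (hβ : β ^ n = algebraMap K L (b : K)) :
    (n : ℤ) ∣ Multiplicative.toAdd (v.valuationOfNeZero b) := by
  have h1 := valuation_liesOver L v w (b : K)
  rw [he, pow_one, ← hβ, map_pow, ← valuationOfNeZero_eq] at h1
  rcases Nat.eq_zero_or_pos n with hn | hn
  · subst hn
    rw [pow_zero] at h1
    have : v.valuationOfNeZero b = 1 := by exact_mod_cast h1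
    rw [this]
    simp
  · have hβ0 : β ≠ 0 := by
      rintro rfl
      rw [zero_pow hn.ne'] at hβ
      exact b.ne_zero ((map_eq_zero _).1 hβ.symm)
    have hy : w.valuation L β ≠ 0 := (Valuation.ne_zero_iff _).2 hβ0
    obtain ⟨u, hu⟩ := WithZero.ne_zero_iff_exists.1 hy
    rw [← hu] at h1
    have h2 : v.valuationOfNeZero b = u ^ n := by exact_mod_cast h1
    rw [h2]
    exact ⟨Multiplicative.toAdd u, by simp⟩

end AKLB

section NumberField

variable {K E : Type*} [Field K] [NumberField K] [Field E] [NumberField E] [Algebra K E]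

omit [NumberField K] in
/-- The residue characteristic of a finite prime of a number field. -/
theorem exists_prime_natCast_mem (v : HeightOneSpectrum (𝓞 K)) :
    ∃ q : ℕ, q.Prime ∧ ((q : ℕ) : 𝓞 K) ∈ v.asIdeal ∧
      v.asIdeal.under ℤ = Ideal.span {(q : ℤ)} := by
  have hprime : (v.asIdeal.under ℤ).IsPrime := inferInstance
  have hne : v.asIdeal.under ℤ ≠ ⊥ := Ideal.under_ne_bot ℤ v.ne_bot
  rcases Ideal.isPrime_int_iff.1 hprime with h | ⟨q, hq, h⟩
  · exact absurd h hne
  · refine ⟨q, hq, ?_, h⟩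
    have : (q : ℤ) ∈ v.asIdeal.under ℤ := by
      rw [h]; exact Ideal.mem_span_singleton_self _
    rw [Ideal.under_def, Ideal.mem_comap] at this
    simpa using this

/-- **Unramified `n`-th roots have valuation divisible by `n`.**  `E/K` number fields such that
every prime of `E` with residue characteristic outside `S` is unramified over `ℤ`; `v` a prime
of `K` with residue characteristic outside `S`.  If `b ∈ Kˣ` is an `n`-th power in `E`, then
`n ∣ v(b)`. -/
theorem dvd_toAdd_valuationOfNeZero_of_unramified (S : Set ℕ)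
    (hE : ∀ (w : HeightOneSpectrum (𝓞 E)) (q : ℕ), q.Prime → q ∉ S →
      ((q : ℕ) : 𝓞 E) ∈ w.asIdeal → (Ideal.span {(q : ℤ)}).ramificationIdx' w.asIdeal = 1)
    (v : HeightOneSpectrum (𝓞 K)) (hv : ∀ q ∈ S, ((q : ℕ) : 𝓞 K) ∉ v.asIdeal)
    (n : ℕ) (b : Kˣ) (β : E) (hβ : β ^ n = algebraMap K E (b : K)) :
    (n : ℤ) ∣ Multiplicative.toAdd (v.valuationOfNeZero b) := by
  obtain ⟨q, hq, hqv, hunder⟩ := exists_prime_natCast_mem v
  have hqS : q ∉ S := fun h => hv q h hqv
  obtain ⟨W, hWmax, hWover⟩ := Ideal.exists_maximal_ideal_liesOver_of_isIntegral (S := 𝓞 E) v.asIdeal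
  have hWne : W ≠ ⊥ := by
    intro h
    have h1 : v.asIdeal = W.under (𝓞 K) := hWover.over
    rw [h] at h1
    have : v.asIdeal = ⊥ := by
      rw [h1]
      exact Ideal.under_bot _ _
    exact v.ne_bot this
  let w : HeightOneSpectrum (𝓞 E) := ⟨W, hWmax.isPrime, hWne⟩
  have : w.asIdeal.LiesOver v.asIdeal := hWover
  have hqw : ((q : ℕ) : 𝓞 E) ∈ w.asIdeal := by
    have h1 : algebraMap (𝓞 K) (𝓞 E) ((q : ℕ) : 𝓞 K) ∈ W := by
      have : ((q : ℕ) : 𝓞 K) ∈ W.under (𝓞 K) := by rw [← hWover.over]; exact hqv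
      exact this
    simpa using h1
  have he := hE w q hq hqS hqw
  have hq0 : ((q : ℤ)) ≠ 0 := by exact_mod_cast hq.ne_zero
  have htower := Ideal.ramificationIdx'_algebra_tower (R := ℤ) (S := 𝓞 K) (T := 𝓞 E)
    (p := Ideal.span {(q : ℤ)}) (P := v.asIdeal) (Q := w.asIdeal) ?_ ?_ ?_
  · rw [he] at htower
    have he' : v.asIdeal.ramificationIdx' w.asIdeal = 1 :=
      (Nat.eq_one_of_mul_eq_one_left htower.symm)
    exact dvd_toAdd_valuationOfNeZero_of_pow_eq E v w he' n b β hβ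
  · intro h
    rw [Ideal.map_eq_bot_iff_of_injective (FaithfulSMul.algebraMap_injective _ _)] at h
    exact v.ne_bot h
  · intro h
    rw [Ideal.map_eq_bot_iff_of_injective (FaithfulSMul.algebraMap_injective _ _)] at h
    rw [Ideal.span_singleton_eq_bot] at h
    exact hq0 h
  · exact Ideal.map_le_iff_le_comap.2 (le_of_eq hWover.over)

end NumberField

/-- Finitely many representatives for the elements of a number field whose valuations outside a
finite set `S` of primes are all divisible by `n`. -/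
theorem exists_finset_selmer_reps {F : Type*} [Field F] [NumberField F]
    {S : Set (HeightOneSpectrum (𝓞 F))} (hS : S.Finite) {n : ℕ} (hn : 0 < n) :
    ∃ R : Finset Fˣ, ∀ b : Fˣ,
      (∀ v : HeightOneSpectrum (𝓞 F), v ∉ S →
        (n : ℤ) ∣ Multiplicative.toAdd (v.valuationOfNeZero b)) →
      ∃ r ∈ R, ∃ y : Fˣ, b = r * y ^ n := by
  classical
  haveI := selmerGroup_finite (F := F) hS hn
  haveI : Fintype (selmerGroup (R := 𝓞 F) (K := F) (S := S) (n := n)) := Fintype.ofFinite _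
  refine ⟨Finset.univ.image
    (fun x : selmerGroup (R := 𝓞 F) (K := F) (S := S) (n := n) => Quotient.out x.1), ?_⟩
  intro b hb
  have hmem : (QuotientGroup.mk b : Fˣ ⧸ (powMonoidHom n : Fˣ →* Fˣ).range) ∈
      selmerGroup (R := 𝓞 F) (K := F) (S := S) (n := n) := by
    intro v hv
    exact (valuationOfNeZeroMod_mk_eq_one_iff v n b).2 (hb v hv)
  refine ⟨Quotient.out (QuotientGroup.mk b : Fˣ ⧸ (powMonoidHom n : Fˣ →* Fˣ).range), ?_, ?_⟩
  · exact Finset.mem_image.2 ⟨⟨_, hmem⟩, Finset.mem_univ _, rfl⟩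
  · have h1 : (QuotientGroup.mk (Quotient.out
        (QuotientGroup.mk b : Fˣ ⧸ (powMonoidHom n : Fˣ →* Fˣ).range)) :
        Fˣ ⧸ (powMonoidHom n : Fˣ →* Fˣ).range) = QuotientGroup.mk b :=
      Quotient.out_eq _
    rw [QuotientGroup.eq] at h1
    obtain ⟨y, hy⟩ := h1
    refine ⟨y, ?_⟩
    simp only [powMonoidHom_apply] at hy
    rw [hy]
    simp

/-- Hilbert 90 for a character: a finite group `T` acting faithfully on a field `E` by
automorphisms, and a homomorphism `z : T → Eˣ` with `T`-fixed values.  Then `z` is a coboundary: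
there is `β ≠ 0` with `σ β = z(σ) β`. -/
theorem exists_ne_zero_forall_smul_eq {E T : Type*} [Field E] [Group T] [Finite T]
    [MulSemiringAction T E] [FaithfulSMul T E]
    (z : T →* Eˣ) (hz : ∀ σ τ : T, σ • ((z τ : Eˣ) : E) = z τ) :
    ∃ β : E, β ≠ 0 ∧ ∀ σ : T, σ • β = (z σ : E) * β := by
  classical
  have : Fintype T := Fintype.ofFinite T
  -- Dedekind independence
  have hli : LinearIndependent E (fun τ : T => ((MulSemiringAction.toRingHom T E τ : E →* E) : E → E)) := by
    refine LinearIndependent.comp (ι' := T) (linearIndependent_monoidHom E E)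
      (fun τ => (MulSemiringAction.toRingHom T E τ : E →* E)) ?_
    intro σ τ h
    apply FaithfulSMul.eq_of_smul_eq_smul (α := E)
    intro x
    exact DFunLike.congr_fun h x
  have hne : ∃ x : E, ∑ τ : T, (((z τ)⁻¹ : Eˣ) : E) * τ • x ≠ 0 := by
    by_contra hcon
    push Not at hcon
    have h0 : ∑ τ : T, (((z τ)⁻¹ : Eˣ) : E) •
        ((MulSemiringAction.toRingHom T E τ : E →* E) : E → E) = 0 := by
      funext x
      simp only [Finset.sum_apply, Pi.smul_apply, smul_eq_mul, Pi.zero_apply]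
      exact hcon x
    have := (Fintype.linearIndependent_iff.1 hli) (fun τ => (((z τ)⁻¹ : Eˣ) : E)) h0 1
    exact Units.ne_zero _ this
  obtain ⟨x, hx⟩ := hne
  refine ⟨∑ τ : T, (((z τ)⁻¹ : Eˣ) : E) * τ • x, hx, fun σ => ?_⟩
  rw [Finset.smul_sum, Finset.mul_sum]
  refine Fintype.sum_bijective (fun τ => σ * τ) (Group.mulLeft_bijective σ) _ _ (fun τ => ?_)
  have h2 : σ • (((z τ)⁻¹ : Eˣ) : E) = ((z τ)⁻¹ : Eˣ) := by
    rw [Units.val_inv_eq_inv_val, smul_inv'', hz σ τ]
  rw [smul_mul', ← mul_smul, h2, map_mul, ← mul_assoc, ← Units.val_mul, mul_inv,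
    mul_inv_cancel_left]

end Fermat.Agent.S55.H901

end
-- ===== PACK-END S55/H901/H1FinCore.lean

-- ===== PACK-BEGIN S55/Herbrand/Basic.lean
section


/-!
# Herbrand quotient, abstract form: short exact sequences, finite groups

Main results (all for additive commutative groups with endomorphisms `f, g`, `f ∘ g = g ∘ f = 0`):

* `hexagon_of_exact` : for a short exact sequence `0 → A → B → C → 0` compatible with `f, g`:
  `h_f(A) * h_f(C) * h_g(B) = h_g(A) * h_g(C) * h_f(B)` (an identity in `ℕ`);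
* `isDefined_of_exact_left/right/mid` : two-out-of-three;
* `q_mul_of_exact` : `q B = q A * q C`;
* `q_eq_one_of_finite` : the Herbrand quotient of a finite group is `1`.
-/

set_option autoImplicit false

namespace Fermat.Agent.S55.Herbrand

open AddSubgroup

variable {A B C : Type*} [AddCommGroup A] [AddCommGroup B] [AddCommGroup C]

/-- The Herbrand quotient of `(B, f, g)` is *defined* when `ker f / im g` and `ker g / im f`
are both finite. -/
def IsDefined (f g : B →+ B) : Prop := hIndex f g ≠ 0 ∧ hIndex g f ≠ 0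

/-- The Herbrand quotient `|ker f / im g| / |ker g / im f|` (junk value `0` if undefined). -/
noncomputable def q (f g : B →+ B) : ℚ := (hIndex f g : ℚ) / (hIndex g f : ℚ)

lemma IsDefined.symm {f g : B →+ B} (h : IsDefined f g) : IsDefined g f := ⟨h.2, h.1⟩

lemma IsDefined.q_ne_zero {f g : B →+ B} (h : IsDefined f g) : q f g ≠ 0 := by
  unfold q
  exact div_ne_zero (Nat.cast_ne_zero.2 h.1) (Nat.cast_ne_zero.2 h.2)

lemma q_swap (f g : B →+ B) : q g f = (q f g)⁻¹ := by
  unfold q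
  rw [inv_div]

section Exact

variable {fA gA : A →+ A} {fB gB : B →+ B} {fC gC : C →+ C}
variable {i : A →+ B} {p : B →+ C}

lemma hIndex_eq_hIndexSub (hi : Function.Injective i)
    (hif : ∀ a, i (fA a) = fB (i a)) (hig : ∀ a, i (gA a) = gB (i a)) :
    hIndex fA gA = hIndexSub fB gB i.range := by
  unfold hIndex hIndexSub
  rw [← relIndex_map_map_of_injective _ _ hi]
  have h1 : gA.range.map i = i.range.map gB := by
    ext x
    simp only [AddSubgroup.mem_map, AddMonoidHom.mem_range]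
    constructor
    · rintro ⟨_, ⟨a, rfl⟩, rfl⟩
      exact ⟨i a, ⟨a, rfl⟩, (hig a).symm⟩
    · rintro ⟨_, ⟨a, rfl⟩, rfl⟩
      exact ⟨gA a, ⟨a, rfl⟩, hig a⟩
  have h2 : fA.ker.map i = i.range ⊓ fB.ker := by
    ext x
    simp only [AddSubgroup.mem_map, AddSubgroup.mem_inf, AddMonoidHom.mem_range,
      AddMonoidHom.mem_ker]
    constructor
    · rintro ⟨a, ha, rfl⟩
      exact ⟨⟨a, rfl⟩, by rw [← hif, ha, map_zero]⟩
    · rintro ⟨⟨a, rfl⟩, hx⟩
      exact ⟨a, hi (by rw [hif, hx, map_zero]), rfl⟩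
  rw [h1, h2]

lemma hIndex_eq_hIndexQuot (hp : Function.Surjective p) (hex : p.ker = i.range)
    (hpf : ∀ b, p (fB b) = fC (p b)) (hpg : ∀ b, p (gB b) = gC (p b)) :
    hIndex fC gC = hIndexQuot fB gB i.range := by
  unfold hIndex hIndexQuot
  have h1 : gB.range ⊔ i.range = gC.range.comap p := by
    rw [← hex]
    ext x
    rw [AddSubgroup.mem_comap]
    constructor
    · intro hx
      obtain ⟨y, ⟨b, rfl⟩, z, hz, rfl⟩ := AddSubgroup.mem_sup.1 hx
      rw [map_add, AddMonoidHom.mem_ker.1 hz, add_zero, hpg]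
      exact ⟨p b, rfl⟩
    · rintro ⟨c, hc⟩
      obtain ⟨b, rfl⟩ := hp c
      refine AddSubgroup.mem_sup.2 ⟨gB b, ⟨b, rfl⟩, x - gB b, ?_, by abel⟩
      rw [AddMonoidHom.mem_ker, map_sub, hpg, hc, sub_self]
  have h2 : i.range.comap fB = fC.ker.comap p := by
    rw [← hex]
    ext x
    simp only [AddSubgroup.mem_comap, AddMonoidHom.mem_ker, hpf]
  rw [h1, h2, relIndex_comap, AddSubgroup.map_comap_eq,
    AddMonoidHom.range_eq_top.2 hp, top_inf_eq]

/-- **Hexagon identity** for a short exact sequence `0 → A → B → C → 0` compatible with the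
endomorphisms. -/
theorem hexagon_of_exact (hfg : ∀ b, fB (gB b) = 0) (hgf : ∀ b, gB (fB b) = 0)
    (hi : Function.Injective i) (hp : Function.Surjective p) (hex : p.ker = i.range)
    (hif : ∀ a, i (fA a) = fB (i a)) (hig : ∀ a, i (gA a) = gB (i a))
    (hpf : ∀ b, p (fB b) = fC (p b)) (hpg : ∀ b, p (gB b) = gC (p b)) :
    hIndex fA gA * hIndex fC gC * hIndex gB fB =
      hIndex gA fA * hIndex gC fC * hIndex fB gB := by
  rw [hIndex_eq_hIndexSub hi hif hig, hIndex_eq_hIndexSub hi hig hif,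
    hIndex_eq_hIndexQuot hp hex hpf hpg, hIndex_eq_hIndexQuot hp hex hpg hpf]
  refine hexagon hfg hgf ?_ ?_
  · rintro _ ⟨a, rfl⟩
    exact ⟨fA a, hif a⟩
  · rintro _ ⟨a, rfl⟩
    exact ⟨gA a, hig a⟩

/-- the six auxiliary factorizations, packaged: all three `hIndex` pairs are products of
six common numbers. -/
theorem exists_factorization (hfg : ∀ b, fB (gB b) = 0) (hgf : ∀ b, gB (fB b) = 0)
    (hi : Function.Injective i) (hp : Function.Surjective p) (hex : p.ker = i.range)
    (hif : ∀ a, i (fA a) = fB (i a)) (hig : ∀ a, i (gA a) = gB (i a))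
    (hpf : ∀ b, p (fB b) = fC (p b)) (hpg : ∀ b, p (gB b) = gC (p b)) :
    ∃ αf αg βf βg γf γg : ℕ,
      hIndex fA gA = αg * βf ∧ hIndex gA fA = αf * βg ∧
      hIndex fB gB = βf * γf ∧ hIndex gB fB = βg * γg ∧
      hIndex fC gC = γf * αf ∧ hIndex gC fC = γg * αg := by
  have hfA : ∀ a ∈ i.range, fB a ∈ i.range := by
    rintro _ ⟨a, rfl⟩
    exact ⟨fA a, hif a⟩
  have hgA : ∀ a ∈ i.range, gB a ∈ i.range := by
    rintro _ ⟨a, rfl⟩
    exact ⟨gA a, hig a⟩
  refine ⟨auxAlpha fB i.range, auxAlpha gB i.range, auxBeta fB gB i.range,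
    auxBeta gB fB i.range, auxGamma fB gB i.range, auxGamma gB fB i.range, ?_, ?_, ?_, ?_, ?_, ?_⟩
  · rw [hIndex_eq_hIndexSub hi hif hig, hIndexSub_eq hfg hgA]; rfl
  · rw [hIndex_eq_hIndexSub hi hig hif, hIndexSub_eq hgf hfA]; rfl
  · exact hIndex_eq hfg
  · exact hIndex_eq hgf
  · rw [hIndex_eq_hIndexQuot hp hex hpf hpg, hIndexQuot_eq hfg hfA]
  · rw [hIndex_eq_hIndexQuot hp hex hpg hpf, hIndexQuot_eq hgf hgA]

variable (hfg : ∀ b, fB (gB b) = 0) (hgf : ∀ b, gB (fB b) = 0)
    (hi : Function.Injective i) (hp : Function.Surjective p) (hex : p.ker = i.range)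
    (hif : ∀ a, i (fA a) = fB (i a)) (hig : ∀ a, i (gA a) = gB (i a))
    (hpf : ∀ b, p (fB b) = fC (p b)) (hpg : ∀ b, p (gB b) = gC (p b))

include hfg hgf hi hp hex hif hig hpf hpg

/-- two out of three: `A`, `C` defined ⟹ `B` defined. -/
theorem isDefined_mid (hA : IsDefined fA gA) (hC : IsDefined fC gC) : IsDefined fB gB := by
  obtain ⟨αf, αg, βf, βg, γf, γg, h1, h2, h3, h4, h5, h6⟩ :=
    exists_factorization hfg hgf hi hp hex hif hig hpf hpg
  obtain ⟨a1, a2⟩ := hA
  obtain ⟨c1, c2⟩ := hC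
  rw [h1] at a1; rw [h2] at a2; rw [h5] at c1; rw [h6] at c2
  refine ⟨?_, ?_⟩
  · rw [h3]; exact Nat.mul_ne_zero (right_ne_zero_of_mul a1) (left_ne_zero_of_mul c1)
  · rw [h4]; exact Nat.mul_ne_zero (right_ne_zero_of_mul a2) (left_ne_zero_of_mul c2)

/-- two out of three: `A`, `B` defined ⟹ `C` defined. -/
theorem isDefined_right (hA : IsDefined fA gA) (hB : IsDefined fB gB) : IsDefined fC gC := by
  obtain ⟨αf, αg, βf, βg, γf, γg, h1, h2, h3, h4, h5, h6⟩ :=
    exists_factorization hfg hgf hi hp hex hif hig hpf hpg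
  obtain ⟨a1, a2⟩ := hA
  obtain ⟨b1, b2⟩ := hB
  rw [h1] at a1; rw [h2] at a2; rw [h3] at b1; rw [h4] at b2
  refine ⟨?_, ?_⟩
  · rw [h5]; exact Nat.mul_ne_zero (right_ne_zero_of_mul b1) (left_ne_zero_of_mul a2)
  · rw [h6]; exact Nat.mul_ne_zero (right_ne_zero_of_mul b2) (left_ne_zero_of_mul a1)

/-- two out of three: `B`, `C` defined ⟹ `A` defined. -/
theorem isDefined_left (hB : IsDefined fB gB) (hC : IsDefined fC gC) : IsDefined fA gA := by
  obtain ⟨αf, αg, βf, βg, γf, γg, h1, h2, h3, h4, h5, h6⟩ :=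
    exists_factorization hfg hgf hi hp hex hif hig hpf hpg
  obtain ⟨b1, b2⟩ := hB
  obtain ⟨c1, c2⟩ := hC
  rw [h3] at b1; rw [h4] at b2; rw [h5] at c1; rw [h6] at c2
  refine ⟨?_, ?_⟩
  · rw [h1]; exact Nat.mul_ne_zero (right_ne_zero_of_mul c2) (left_ne_zero_of_mul b1)
  · rw [h2]; exact Nat.mul_ne_zero (right_ne_zero_of_mul c1) (left_ne_zero_of_mul b2)

/-- **Multiplicativity of the Herbrand quotient** in short exact sequences. -/
theorem q_mul_of_exact (hA : IsDefined fA gA) (hC : IsDefined fC gC) :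
    q fB gB = q fA gA * q fC gC := by
  obtain ⟨αf, αg, βf, βg, γf, γg, h1, h2, h3, h4, h5, h6⟩ :=
    exists_factorization hfg hgf hi hp hex hif hig hpf hpg
  obtain ⟨a1, a2⟩ := hA
  obtain ⟨c1, c2⟩ := hC
  unfold q
  rw [h1] at a1 ⊢; rw [h2] at a2 ⊢; rw [h5] at c1 ⊢; rw [h6] at c2 ⊢
  rw [h3, h4]
  have hαf : (αf : ℚ) ≠ 0 := Nat.cast_ne_zero.2 (left_ne_zero_of_mul a2)
  have hαg : (αg : ℚ) ≠ 0 := Nat.cast_ne_zero.2 (left_ne_zero_of_mul a1)
  have hβf : (βf : ℚ) ≠ 0 := Nat.cast_ne_zero.2 (right_ne_zero_of_mul a1)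
  have hβg : (βg : ℚ) ≠ 0 := Nat.cast_ne_zero.2 (right_ne_zero_of_mul a2)
  have hγf : (γf : ℚ) ≠ 0 := Nat.cast_ne_zero.2 (left_ne_zero_of_mul c1)
  have hγg : (γg : ℚ) ≠ 0 := Nat.cast_ne_zero.2 (left_ne_zero_of_mul c2)
  push_cast
  field_simp

end Exact

section Finite

variable (f g : B →+ B)

lemma hIndex_mul_card_range (hfg : ∀ b, f (g b) = 0) :
    hIndex f g * Nat.card g.range = Nat.card f.ker := by
  unfold hIndex
  have h := AddSubgroup.relIndex_mul_relIndex (⊥ : AddSubgroup B) g.range f.ker bot_le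
    (range_le_ker hfg)
  rw [relIndex_bot_left, relIndex_bot_left] at h
  rw [mul_comm, h]

/-- The Herbrand quotient of a finite group is defined and equal to `1`:
`[ker f : im g] = [ker g : im f]`. -/
theorem hIndex_comm_of_finite [Finite B] (hfg : ∀ b, f (g b) = 0) (hgf : ∀ b, g (f b) = 0) :
    hIndex f g = hIndex g f := by
  have h1 := hIndex_mul_card_range f g hfg
  have h2 := hIndex_mul_card_range g f hgf
  have k1 : Nat.card f.ker * Nat.card f.range = Nat.card B := by
    have := AddSubgroup.card_mul_index f.ker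
    rwa [AddSubgroup.index_ker] at this
  have k2 : Nat.card g.ker * Nat.card g.range = Nat.card B := by
    have := AddSubgroup.card_mul_index g.ker
    rwa [AddSubgroup.index_ker] at this
  have hpos1 : Nat.card f.range ≠ 0 := Nat.card_pos.ne'
  have hpos2 : Nat.card g.range ≠ 0 := Nat.card_pos.ne'
  have : hIndex f g * (Nat.card g.range * Nat.card f.range) =
      hIndex g f * (Nat.card g.range * Nat.card f.range) := by
    calc hIndex f g * (Nat.card g.range * Nat.card f.range)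
        = (hIndex f g * Nat.card g.range) * Nat.card f.range := by ring
      _ = Nat.card B := by rw [h1, k1]
      _ = (hIndex g f * Nat.card f.range) * Nat.card g.range := by rw [h2, k2]
      _ = hIndex g f * (Nat.card g.range * Nat.card f.range) := by ring
  exact Nat.eq_of_mul_eq_mul_right (Nat.pos_of_ne_zero (Nat.mul_ne_zero hpos2 hpos1)) this

lemma hIndex_ne_zero_of_finite [Finite B] : hIndex f g ≠ 0 := by
  unfold hIndex
  intro h
  have : (g.range.addSubgroupOf f.ker).index = 0 := h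
  exact (AddSubgroup.index_ne_zero_of_finite (H := g.range.addSubgroupOf f.ker)) this

theorem isDefined_of_finite [Finite B] : IsDefined f g :=
  ⟨hIndex_ne_zero_of_finite f g, hIndex_ne_zero_of_finite g f⟩

theorem q_eq_one_of_finite [Finite B] (hfg : ∀ b, f (g b) = 0) (hgf : ∀ b, g (f b) = 0) :
    q f g = 1 := by
  unfold q
  rw [hIndex_comm_of_finite f g hfg hgf]
  exact div_self (Nat.cast_ne_zero.2 (hIndex_ne_zero_of_finite g f))

end Finite

end Fermat.Agent.S55.Herbrand

end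
-- ===== PACK-END S55/Herbrand/Basic.lean

-- ===== PACK-BEGIN S55/T/Hat0H539.lean
section


/-!
# S55, layer T, leaf T7 (bridges): Tate cohomology in degree `0` is `A^G / N_G A`

`tateZeroEquivHat0 A : tateCohomology A 0 ≃ₗ[k] hat0 A` for every `A : Rep k G`, `G` finite.
Mathlib-only (plus the vocabulary of `Spec.lean`).
-/

set_option autoImplicit false

namespace Fermat.Agent.S55.T.H539

open CategoryTheory groupCohomology groupHomology

variable {k G : Type} [CommRing k] [Group G] [Fintype G] (A : Rep.{0} k G)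

/-- The concrete short complex `A --N_G--> A --d₀₁--> (G → A)`. -/
noncomputable def normSc : ShortComplex (ModuleCat.{0} k) :=
  ShortComplex.mk (Rep.Hom.toModuleCatHom A.norm) (d₀₁ A) (Rep.norm_comp_d_eq_zero A)

/-- The degree-`0` part of the Tate complex is the concrete short complex `normSc`. -/
noncomputable def tateScZeroIso : (tateComplex A).sc' (-1) 0 1 ≅ normSc A :=
  ShortComplex.isoMk (chainsIso₀ A) (cochainsIso₀ A) (cochainsIso₁ A)
    (by
      change (chainsIso₀ A).hom ≫ Rep.Hom.toModuleCatHom A.norm =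
        A.tateNorm ≫ (cochainsIso₀ A).hom
      simp [Rep.tateNorm])
    (by
      change (cochainsIso₀ A).hom ≫ d₀₁ A =
        (inhomogeneousCochains A).d 0 1 ≫ (cochainsIso₁ A).hom
      exact comp_d₀₁_eq A)

/-- Tate cohomology in degree `0` is the homology of `normSc`. -/
noncomputable def tateZeroIsoHomology : tateCohomology A 0 ≅ (normSc A).homology :=
  (tateComplex A).homologyIsoSc' (-1) 0 1 (by simp) (by simp) ≪≫
    ShortComplex.homologyMapIso (tateScZeroIso A)

/-- The kernel of `d₀₁` is the module of invariants. -/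
noncomputable def kerEquivInvariants :
    ↥(LinearMap.ker (normSc A).g.hom) ≃ₗ[k] ↥A.ρ.invariants :=
  LinearEquiv.ofEq _ _ (d₀₁_ker_eq_invariants A)

theorem map_range_toCycles :
    Submodule.map (kerEquivInvariants A : ↥(LinearMap.ker (normSc A).g.hom) →ₗ[k] ↥A.ρ.invariants)
        (LinearMap.range (normSc A).moduleCatToCycles) =
      (LinearMap.range A.ρ.norm).comap A.ρ.invariants.subtype := by
  ext x
  simp only [Submodule.mem_map, LinearMap.mem_range, Submodule.mem_comap, Submodule.subtype_apply]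
  constructor
  · rintro ⟨y, ⟨a, rfl⟩, rfl⟩
    exact ⟨a, rfl⟩
  · rintro ⟨a, ha⟩
    refine ⟨(normSc A).moduleCatToCycles a, ⟨a, rfl⟩, ?_⟩
    apply Subtype.ext
    exact ha

/-- The homology of `normSc` is `A^G / N_G A`. -/
noncomputable def homologyEquivHat0 : (normSc A).homology ≃ₗ[k] hat0 A :=
  ((normSc A).moduleCatHomologyIso).toLinearEquiv ≪≫ₗ
    Submodule.Quotient.equiv _ _ (kerEquivInvariants A) (map_range_toCycles A)

/-- **T7.**  `Ĥ⁰(G, A) ≃ A^G / N_G A`. -/
noncomputable def tateZeroEquivHat0 : tateCohomology A 0 ≃ₗ[k] hat0 A :=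
  (tateZeroIsoHomology A).toLinearEquiv ≪≫ₗ homologyEquivHat0 A

/-- `tateZeroEquivHat0` as an additive equivalence (avoids the `Module ℤ` diamond for
consumers working over `ℤ`). -/
noncomputable def tateZeroAddEquivHat0 : tateCohomology A 0 ≃+ hat0 A :=
  (tateZeroEquivHat0 A).toAddEquiv

/-- An isomorphism in `ModuleCat k` as an additive equivalence (generic in `k`, so that no
`Module ℤ` instance is re-synthesised at `k = ℤ`). -/
noncomputable def moduleIsoToAddEquiv {R : Type} [Ring R] {X Y : ModuleCat.{0} R} (e : X ≅ Y) :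
    X ≃+ Y :=
  e.toLinearEquiv.toAddEquiv

end Fermat.Agent.S55.T.H539

end
-- ===== PACK-END S55/T/Hat0H539.lean

-- ===== PACK-BEGIN S55/H424/PowIndex.lean
section


/-!
# LPI (local power index), part 2: the index of `n`-th powers in the unit group

Setting: a commutative ring `A`, a non-zero-divisor `ϖ : A` such that `A` is `ϖ`-adically
complete with `A ⧸ (ϖ)` finite, and `n ≠ 0` with `(n : A) ∣ ϖ ^ v`.

Main result:

* `H424.index_range_pow_units` :
  `[Aˣ : (Aˣ) ^ n] = |μ_n(A)| * |A ⧸ (n)|`.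
-/

set_option autoImplicit false

namespace Fermat.Agent.S55.H424

variable {A : Type*} [CommRing A]

/-- Units congruent to `1` modulo `x`. -/
def congrUnits (x : A) : Subgroup Aˣ where
  carrier := {u | x ∣ (u : A) - 1}
  one_mem' := by
    show x ∣ ((1 : Aˣ) : A) - 1
    simp
  mul_mem' := by
    intro u u' hu hu'
    have hu1 : x ∣ (u : A) - 1 := hu
    have hu2 : x ∣ (u' : A) - 1 := hu'
    show x ∣ ((u * u' : Aˣ) : A) - 1
    have h1 : ((u * u' : Aˣ) : A) - 1 = ((u : A) - 1) * u' + ((u' : A) - 1) := by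
      push_cast; ring
    rw [h1]
    exact dvd_add (hu1.mul_right _) hu2
  inv_mem' := by
    intro u hu
    have hu1 : x ∣ (u : A) - 1 := hu
    show x ∣ ((u⁻¹ : Aˣ) : A) - 1
    have h1 : ((u⁻¹ : Aˣ) : A) - 1 = -(((u⁻¹ : Aˣ) : A) * ((u : A) - 1)) := by
      rw [mul_sub, Units.inv_mul]; ring
    rw [h1]
    exact (dvd_neg).2 (hu1.mul_left _)

lemma mem_congrUnits {x : A} {u : Aˣ} : u ∈ congrUnits x ↔ x ∣ (u : A) - 1 := Iff.rfl

lemma congrUnits_mono {x y : A} (h : x ∣ y) : congrUnits y ≤ congrUnits x :=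
  fun _ hu => h.trans hu

lemma congrUnits_eq_ker (x : A) :
    congrUnits x
      = (Units.map (Ideal.Quotient.mk (Ideal.span {x})).toMonoidHom).ker := by
  ext u
  rw [mem_congrUnits, MonoidHom.mem_ker, Units.ext_iff, Units.coe_map, Units.val_one]
  change _ ↔ Ideal.Quotient.mk (Ideal.span {x}) (u : A) = 1
  rw [← map_one (Ideal.Quotient.mk (Ideal.span {x})), Ideal.Quotient.eq,
    Ideal.mem_span_singleton]

lemma congrUnits_index_ne_zero (x : A) [Finite (A ⧸ Ideal.span {x})] :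
    (congrUnits x).index ≠ 0 := by
  rw [congrUnits_eq_ker, Subgroup.index_ker]
  exact Nat.card_pos.ne'

/-- If `ϖ` is a non-zero-divisor, so are its powers. -/
lemma pow_nzd {ϖ : A} (hϖ : ∀ x : A, ϖ * x = 0 → x = 0) (k : ℕ) :
    ∀ x : A, ϖ ^ k * x = 0 → x = 0 := by
  induction k with
  | zero => intro x hx; simpa using hx
  | succ k ih =>
    intro x hx
    apply ih
    apply hϖ
    rw [← hx]; ring

lemma pow_mul_cancel {ϖ : A} (hϖ : ∀ x : A, ϖ * x = 0 → x = 0) (k : ℕ) {x y : A}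
    (h : ϖ ^ k * x = ϖ ^ k * y) : x = y := by
  have h1 : ϖ ^ k * (x - y) = 0 := by rw [mul_sub, h, sub_self]
  exact sub_eq_zero.1 (pow_nzd hϖ k _ h1)

/-- If `x ≡ 1 mod ϖ ^ m`, `(n : A) ∣ ϖ ^ v` and `v ≤ m`, then `x ^ n ≡ 1 mod n * ϖ ^ m`. -/
lemma natCast_mul_pow_dvd_pow_sub_one {ϖ : A} {n v m : ℕ} (hN : (n : A) ∣ ϖ ^ v)
    (hm : v ≤ m) {x : A} (hx : ϖ ^ m ∣ x - 1) : (n : A) * ϖ ^ m ∣ x ^ n - 1 := by
  obtain ⟨w, hw⟩ := hN
  obtain ⟨a, ha⟩ := hx
  obtain ⟨d, rfl⟩ := Nat.exists_eq_add_of_le hm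
  obtain ⟨c, hc⟩ := one_add_pow_expand (ϖ ^ (v + d) * a) n
  have hx' : x = 1 + ϖ ^ (v + d) * a := by rw [← ha]; ring
  have h1 : (ϖ ^ (v + d) * a) ^ 2 = ϖ ^ v * (ϖ ^ (v + d) * (ϖ ^ d * a ^ 2)) := by ring
  rw [hx', hc, h1, hw]
  refine ⟨a + c * w * (ϖ ^ d * a ^ 2), ?_⟩
  ring

section Complete

variable (ϖ : A)

/-- The image of `1 + ϖ ^ m A` under `x ↦ x ^ n` is `1 + n ϖ ^ m A` for `m ≥ v + 1`. -/
theorem map_pow_congrUnits [IsAdicComplete (Ideal.span {ϖ}) A] {n v m : ℕ} (hn : n ≠ 0)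
    (hN : (n : A) ∣ ϖ ^ v) (hm : v + 1 ≤ m) :
    (congrUnits (ϖ ^ m)).map (powMonoidHom n : Aˣ →* Aˣ) = congrUnits ((n : A) * ϖ ^ m) := by
  ext w
  constructor
  · rintro ⟨u, hu, rfl⟩
    rw [mem_congrUnits]
    have h1 := natCast_mul_pow_dvd_pow_sub_one hN (Nat.le_of_succ_le hm) (mem_congrUnits.1 hu)
    simpa using h1
  · intro hw
    obtain ⟨x, hx1, hx2⟩ := exists_pow_eq ϖ hN hm (mem_congrUnits.1 hw)
    have hxu : IsUnit x := by
      have h2 : IsUnit (x ^ n) := by rw [hx2]; exact w.isUnit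
      exact (isUnit_pow_iff hn).1 h2
    obtain ⟨u, rfl⟩ := hxu
    refine ⟨u, hx1, ?_⟩
    apply Units.ext
    simpa using hx2

/-- `x ↦ x ^ n` is injective on `1 + ϖ ^ m A` for `m ≥ v + 1`. -/
theorem ker_pow_inf_congrUnits [IsHausdorff (Ideal.span {ϖ}) A] {n v m : ℕ}
    (hN : (n : A) ∣ ϖ ^ v) (hnzd : ∀ x : A, (n : A) * x = 0 → x = 0) (hm : v + 1 ≤ m) :
    congrUnits (ϖ ^ m) ⊓ (powMonoidHom n : Aˣ →* Aˣ).ker = ⊥ := by
  rw [eq_bot_iff]
  rintro u ⟨hu1, hu2⟩
  rw [Subgroup.mem_bot]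
  apply Units.ext
  rw [Units.val_one]
  refine eq_one_of_pow_eq_one ϖ hN hnzd hm (mem_congrUnits.1 hu1) ?_
  have h1 : u ^ n = 1 := by simpa [MonoidHom.mem_ker] using hu2
  have h2 := congrArg (fun z : Aˣ => (z : A)) h1
  simpa using h2

/-- `1 + ϖ x` is a unit in a `ϖ`-adically complete ring. -/
lemma isUnit_one_add_mul [IsAdicComplete (Ideal.span {ϖ}) A] (x : A) : IsUnit (1 + ϖ * x) := by
  have h1 : ϖ ∈ (⊥ : Ideal A).jacobson :=
    IsAdicComplete.le_jacobson_bot (Ideal.span {ϖ}) (Ideal.mem_span_singleton_self ϖ)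
  have h2 := Ideal.mem_jacobson_bot.1 h1 x
  rwa [add_comm] at h2

/-- The "logarithm to first order" `u ↦ (u - 1) / ϖ ^ m`. -/
noncomputable def congrQuot (m : ℕ) (u : congrUnits (ϖ ^ m)) : A := Classical.choose u.2

lemma congrQuot_spec (m : ℕ) (u : congrUnits (ϖ ^ m)) :
    ((u : Aˣ) : A) - 1 = ϖ ^ m * congrQuot ϖ m u := Classical.choose_spec u.2

/-- The group homomorphism `1 + ϖ ^ m A → A ⧸ (n)`, `1 + ϖ ^ m t ↦ t`, for `m ≥ v`. -/
noncomputable def congrQuotHom (hϖ : ∀ x : A, ϖ * x = 0 → x = 0) {n v m : ℕ}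
    (hN : (n : A) ∣ ϖ ^ v) (hm : v ≤ m) :
    congrUnits (ϖ ^ m) →* Multiplicative (A ⧸ Ideal.span {(n : A)}) where
  toFun u := Multiplicative.ofAdd (Ideal.Quotient.mk _ (congrQuot ϖ m u))
  map_one' := by
    have h1 := congrQuot_spec ϖ m (1 : congrUnits (ϖ ^ m))
    have h2 : congrQuot ϖ m (1 : congrUnits (ϖ ^ m)) = 0 := by
      apply pow_nzd hϖ m
      rw [← h1]; simp
    rw [h2, map_zero, ofAdd_zero]
  map_mul' := by
    intro u u'
    rw [← ofAdd_add, ← map_add]
    congr 1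
    rw [Ideal.Quotient.eq, Ideal.mem_span_singleton]
    have h1 := congrQuot_spec ϖ m u
    have h2 := congrQuot_spec ϖ m u'
    have h3 := congrQuot_spec ϖ m (u * u')
    have h4 : congrQuot ϖ m (u * u')
        = congrQuot ϖ m u + congrQuot ϖ m u' + ϖ ^ m * (congrQuot ϖ m u * congrQuot ϖ m u') := by
      apply pow_mul_cancel hϖ m
      rw [← h3]
      have h5 : (((u * u' : congrUnits (ϖ ^ m)) : Aˣ) : A) - 1
          = (((u : Aˣ) : A) - 1) + (((u' : Aˣ) : A) - 1)
            + (((u : Aˣ) : A) - 1) * (((u' : Aˣ) : A) - 1) := by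
        push_cast; ring
      rw [h5, h1, h2]; ring
    rw [h4]
    obtain ⟨w, hw⟩ := hN
    obtain ⟨d, rfl⟩ := Nat.exists_eq_add_of_le hm
    refine ⟨w * ϖ ^ d * (congrQuot ϖ (v + d) u * congrQuot ϖ (v + d) u'), ?_⟩
    rw [pow_add, hw]; ring

lemma congrQuotHom_apply (hϖ : ∀ x : A, ϖ * x = 0 → x = 0) {n v m : ℕ}
    (hN : (n : A) ∣ ϖ ^ v) (hm : v ≤ m) (u : congrUnits (ϖ ^ m)) :
    congrQuotHom ϖ hϖ hN hm u
      = Multiplicative.ofAdd (Ideal.Quotient.mk _ (congrQuot ϖ m u)) := rfl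

lemma congrQuotHom_ker (hϖ : ∀ x : A, ϖ * x = 0 → x = 0) {n v m : ℕ}
    (hN : (n : A) ∣ ϖ ^ v) (hm : v ≤ m) :
    (congrQuotHom ϖ hϖ hN hm).ker
      = (congrUnits ((n : A) * ϖ ^ m)).subgroupOf (congrUnits (ϖ ^ m)) := by
  ext u
  rw [MonoidHom.mem_ker, congrQuotHom_apply, Subgroup.mem_subgroupOf, mem_congrUnits,
    congrQuot_spec ϖ m u]
  have h0 : Multiplicative.ofAdd (Ideal.Quotient.mk (Ideal.span {(n : A)}) (congrQuot ϖ m u)) = 1
      ↔ (n : A) ∣ congrQuot ϖ m u := by
    rw [← ofAdd_zero, Multiplicative.ofAdd.apply_eq_iff_eq, Ideal.Quotient.eq_zero_iff_mem,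
      Ideal.mem_span_singleton]
  rw [h0]
  constructor
  · rintro ⟨s, hs⟩
    exact ⟨s, by rw [hs]; ring⟩
  · rintro ⟨s, hs⟩
    refine ⟨s, ?_⟩
    apply pow_mul_cancel hϖ m
    rw [hs]; ring

lemma congrQuotHom_surjective [IsAdicComplete (Ideal.span {ϖ}) A]
    (hϖ : ∀ x : A, ϖ * x = 0 → x = 0) {n v m : ℕ}
    (hN : (n : A) ∣ ϖ ^ v) (hm : v ≤ m) (hm1 : 1 ≤ m) :
    Function.Surjective (congrQuotHom ϖ hϖ hN hm) := by
  intro y
  obtain ⟨t, ht⟩ := Ideal.Quotient.mk_surjective (Multiplicative.toAdd y)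
  obtain ⟨d, rfl⟩ := Nat.exists_eq_add_of_le hm1
  have hu : IsUnit (1 + ϖ * (ϖ ^ d * t)) := isUnit_one_add_mul ϖ _
  obtain ⟨u, hu⟩ := hu
  have hmem : u ∈ congrUnits (ϖ ^ (1 + d)) := by
    rw [mem_congrUnits, hu]
    exact ⟨t, by ring⟩
  refine ⟨⟨u, hmem⟩, ?_⟩
  rw [congrQuotHom_apply]
  have h1 := congrQuot_spec ϖ (1 + d) ⟨u, hmem⟩
  have h2 : congrQuot ϖ (1 + d) ⟨u, hmem⟩ = t := by
    apply pow_mul_cancel hϖ (1 + d)
    rw [← h1]
    change (u : A) - 1 = _
    rw [hu]; ring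
  rw [h2, ht]
  rfl

/-- `[1 + ϖ ^ m A : 1 + n ϖ ^ m A] = |A ⧸ (n)|` for `m ≥ max v 1`. -/
theorem relIndex_congrUnits [IsAdicComplete (Ideal.span {ϖ}) A]
    (hϖ : ∀ x : A, ϖ * x = 0 → x = 0) {n v m : ℕ}
    (hN : (n : A) ∣ ϖ ^ v) (hm : v ≤ m) (hm1 : 1 ≤ m) :
    (congrUnits ((n : A) * ϖ ^ m)).relIndex (congrUnits (ϖ ^ m))
      = Nat.card (A ⧸ Ideal.span {(n : A)}) := by
  rw [Subgroup.relIndex, ← congrQuotHom_ker ϖ hϖ hN hm, Subgroup.index_ker,
    MonoidHom.range_eq_top.2 (congrQuotHom_surjective ϖ hϖ hN hm hm1)]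
  rw [Nat.card_congr (Subgroup.topEquiv (G := Multiplicative (A ⧸ Ideal.span {(n : A)}))).toEquiv]
  exact Nat.card_congr Multiplicative.toAdd

lemma ker_powMonoidHom_units (n : ℕ) :
    (powMonoidHom n : Aˣ →* Aˣ).ker = rootsOfUnity n A := by
  ext u
  rw [MonoidHom.mem_ker, mem_rootsOfUnity]
  rfl

/-- **Local power index, unit form.** For a `ϖ`-adically complete ring `A` with `ϖ` a
non-zero-divisor, `A ⧸ (ϖ)` finite, `n ≠ 0` and `(n : A) ∣ ϖ ^ v`:
`[Aˣ : (Aˣ) ^ n] = |μ_n(A)| * |A ⧸ (n)|`. -/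
theorem index_range_pow_units [IsAdicComplete (Ideal.span {ϖ}) A]
    [Finite (A ⧸ Ideal.span {ϖ})]
    (hϖ : ∀ x : A, ϖ * x = 0 → x = 0) {n v : ℕ} (hn : n ≠ 0) (hN : (n : A) ∣ ϖ ^ v) :
    (powMonoidHom n : Aˣ →* Aˣ).range.index
      = Nat.card (rootsOfUnity n A) * Nat.card (A ⧸ Ideal.span {(n : A)}) := by
  set φ : Aˣ →* Aˣ := powMonoidHom n with hφ
  set V : Subgroup Aˣ := congrUnits (ϖ ^ (v + 1)) with hV
  set V' : Subgroup Aˣ := congrUnits ((n : A) * ϖ ^ (v + 1)) with hV'
  have hnzd := natCast_nzd_of_dvd_pow hϖ hN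
  -- `V` has finite index
  have : Finite (A ⧸ Ideal.span {ϖ ^ (v + 1)}) := by
    rw [← Ideal.span_singleton_pow]
    exact Ideal.finite_quotient_pow ⟨{ϖ}, by simp⟩ (v + 1)
  have hVfin : V.index ≠ 0 := congrUnits_index_ne_zero _
  -- the four index identities
  have e1 : (V.map φ).index = (V ⊔ φ.ker).index * φ.range.index := Subgroup.index_map V φ
  have e2 : V.map φ = V' := map_pow_congrUnits ϖ hn hN le_rfl
  have e3 : V'.relIndex V * V.index = V'.index :=
    Subgroup.relIndex_mul_index (congrUnits_mono (Dvd.intro_left _ rfl))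
  have e4 : V.relIndex (V ⊔ φ.ker) * (V ⊔ φ.ker).index = V.index :=
    Subgroup.relIndex_mul_index le_sup_left
  have e5 : V.relIndex (V ⊔ φ.ker) = Nat.card (rootsOfUnity n A) := by
    rw [Subgroup.relIndex_sup_left, ← Subgroup.inf_relIndex_right,
      ker_pow_inf_congrUnits ϖ hN hnzd le_rfl, Subgroup.relIndex_bot_left,
      ker_powMonoidHom_units]
  have e6 : V'.relIndex V = Nat.card (A ⧸ Ideal.span {(n : A)}) :=
    relIndex_congrUnits ϖ hϖ hN (Nat.le_succ v) (Nat.succ_le_succ (Nat.zero_le v))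
  have hne : (V ⊔ φ.ker).index ≠ 0 := by
    intro h0
    rw [h0, mul_zero] at e4
    exact hVfin e4.symm
  rw [e2, ← e3, ← e4, e5, e6] at e1
  -- cancel
  have e7 : (V ⊔ φ.ker).index * (Nat.card (rootsOfUnity n A) * Nat.card (A ⧸ Ideal.span {(n : A)}))
      = (V ⊔ φ.ker).index * φ.range.index := by
    rw [← e1]; ring
  exact (Nat.eq_of_mul_eq_mul_left (Nat.pos_of_ne_zero hne) e7).symm

/-- In the setting of `index_range_pow_units`, the group of `n`-th powers has finite index. -/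
theorem index_range_pow_units_ne_zero [IsAdicComplete (Ideal.span {ϖ}) A]
    [Finite (A ⧸ Ideal.span {ϖ})]
    (hϖ : ∀ x : A, ϖ * x = 0 → x = 0) {n v : ℕ} (hn : n ≠ 0) (hN : (n : A) ∣ ϖ ^ v) :
    (powMonoidHom n : Aˣ →* Aˣ).range.index ≠ 0 := by
  have hnzd := natCast_nzd_of_dvd_pow hϖ hN
  have : Finite (A ⧸ Ideal.span {ϖ ^ (v + 1)}) := by
    rw [← Ideal.span_singleton_pow]
    exact Ideal.finite_quotient_pow ⟨{ϖ}, by simp⟩ (v + 1)
  have : Finite (A ⧸ Ideal.span {ϖ ^ (v + 1 + v)}) := by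
    rw [← Ideal.span_singleton_pow]
    exact Ideal.finite_quotient_pow ⟨{ϖ}, by simp⟩ (v + 1 + v)
  -- `(Aˣ)^n ⊇ 1 + n ϖ^(v+1) A ⊇ 1 + ϖ^(2v+1) A`
  have h1 : congrUnits (ϖ ^ (v + 1 + v)) ≤ (powMonoidHom n : Aˣ →* Aˣ).range := by
    have h2 : congrUnits (ϖ ^ (v + 1 + v)) ≤ congrUnits ((n : A) * ϖ ^ (v + 1)) := by
      apply congrUnits_mono
      obtain ⟨w, hw⟩ := hN
      exact ⟨w, by rw [pow_add, hw]; ring⟩
    refine h2.trans ?_
    rw [← map_pow_congrUnits ϖ hn hN le_rfl]
    rintro _ ⟨u, _, rfl⟩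
    exact ⟨u, rfl⟩
  intro h0
  have h3 := Subgroup.index_dvd_of_le h1
  rw [h0, zero_dvd_iff] at h3
  exact congrUnits_index_ne_zero (ϖ ^ (v + 1 + v)) h3

end Complete

end Fermat.Agent.S55.H424

end
-- ===== PACK-END S55/H424/PowIndex.lean

-- ===== PACK-BEGIN S55/G/Rec/Spec.lean
section


/-!
# S55 / layer G / block REC : FROZEN INTERFACE (cochain level, Prelude style)

Sub-architect: helper1.  Blueprint: `origin/helper1:coord/S55-G-REC.md`.

* `LocalInvSystem` : what REC consumes from the local layer (invariant maps on the Brauer groups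
  `lBr q V` of ALL finite extensions of `ℚ_q` inside `PadicAlgCl q`: injective, restriction
  multiplies by the degree, vanishing on unramified unit cocycles, normalisation on unramified
  cyclic classes).
* `HassePrincipleSpec p` : what REC consumes from the inequalities
  (`Br(K)(p) ↪ ∏_v Br(K_v)`, `K` any number field inside `ℚ̄`).
* `ReciprocitySpec I p` : the deliverable, `∑_v inv_v (x_v) = 0` for `x ∈ Br(K)(p)`.

All statements are about level-constant cochains on subgroups of `G_ℚ`, `G_{ℚ_q}` with values in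
`ℚ̄ˣ`, `ℚ̄_qˣ` (see `Defs.lean`); inflation is invisible, restriction is restriction of functions.
-/

set_option autoImplicit false

noncomputable section

namespace Fermat.Agent.S55.G.Rec

open groupCohomology

local notation "Qb" => AlgebraicClosure ℚ
local notation "GQ" => (AlgebraicClosure ℚ ≃ₐ[ℚ] AlgebraicClosure ℚ)

/-! ## Cyclic ("cup with a character") cocycles -/

/-- `c` is the 2-cochain `(g, h) ↦ ε_χ(g, h) • a`, where `ε_χ(g, h) = (χ̃ g + χ̃ h) / n ∈ {0, 1}`
is the carry of the canonical lifts `χ̃ ∈ {0, …, n-1}` of the character `χ : G → ℤ/n`.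
(For `a` invariant this is the cup product of `a` with `δχ ∈ H²(G, ℤ)`.) -/
def IsCupChar {G A : Type*} [Group G] [AddCommGroup A] {n : ℕ} (a : A)
    (χ : G →* Multiplicative (ZMod n)) (c : G × G → A) : Prop :=
  ∀ g h : G, c (g, h) =
    (((Multiplicative.toAdd (χ g)).val + (Multiplicative.toAdd (χ h)).val) / n) • a

/-! ## Local arithmetic vocabulary (inside `PadicAlgCl q`, norm = the `q`-adic norm) -/

section Local

variable (q : ℕ) [Fact q.Prime]

local notation "Gq" => (PadicAlgCl q ≃ₐ[ℚ_[q]] PadicAlgCl q)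

/-- `τ` acts trivially on the residue field of `ℚ̄_q`. -/
def IsInertial (τ : Gq) : Prop := ∀ x : PadicAlgCl q, ‖x‖ ≤ 1 → ‖τ x - x‖ < 1

/-- `x` lies in the fixed field `K_v` of `V`. -/
def IsFixedBy (V : Subgroup Gq) (x : PadicAlgCl q) : Prop := ∀ τ ∈ V, τ x = x

/-- `f` is the residue degree of the fixed field of `V`: its residue field is `𝔽_{q^f}`. -/
def IsResidueDegree (V : Subgroup Gq) (f : ℕ) : Prop :=
  0 < f ∧ (∀ x, IsFixedBy q V x → ‖x‖ ≤ 1 → ‖x ^ (q ^ f) - x‖ < 1) ∧
    ∀ m, 0 < m → (∀ x, IsFixedBy q V x → ‖x‖ ≤ 1 → ‖x ^ (q ^ m) - x‖ < 1) → f ≤ m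

/-- `φ ∈ V` is an (arithmetic) Frobenius element of the fixed field of `V`: it acts on the
residue field of `ℚ̄_q` by `x ↦ x ^ (q ^ f)`, `f` the residue degree. -/
def IsFrobenius (V : Subgroup Gq) (φ : Gq) : Prop :=
  φ ∈ V ∧ ∃ f, IsResidueDegree q V f ∧ ∀ x : PadicAlgCl q, ‖x‖ ≤ 1 → ‖φ x - x ^ (q ^ f)‖ < 1

/-- `π` is a uniformizer of the fixed field of `V`. -/
def IsUniformizer (V : Subgroup Gq) (π : PadicAlgCl q) : Prop :=
  IsFixedBy q V π ∧ π ≠ 0 ∧ ‖π‖ < 1 ∧ ∀ x, IsFixedBy q V x → ‖x‖ < 1 → ‖x‖ ≤ ‖π‖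

end Local

/-! ## The local interface -/

/-- A system of local invariant maps `inv_{K_v} : Br(K_v) → ℚ/ℤ` for all finite extensions
`K_v = ℚ̄_q^V` of `ℚ_q` (all primes `q`). -/
structure LocalInvSystem where
  /-- the invariant map -/
  inv : ∀ (q : ℕ) [Fact q.Prime] (V : Subgroup (PadicAlgCl q ≃ₐ[ℚ_[q]] PadicAlgCl q)),
    lBr q V →+ AddCircle (1 : ℚ)
  /-- `inv` is injective -/
  inv_injective : ∀ (q : ℕ) [Fact q.Prime] (V : Subgroup (PadicAlgCl q ≃ₐ[ℚ_[q]] PadicAlgCl q)),
    IsOpenL q V → Function.Injective (inv q V)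
  /-- restriction multiplies the invariant by the degree -/
  inv_res : ∀ (q : ℕ) [Fact q.Prime] (V V' : Subgroup (PadicAlgCl q ≃ₐ[ℚ_[q]] PadicAlgCl q))
    (h : V' ≤ V), IsOpenL q V' → ∀ x : lBr q V,
      inv q V' (lRes q h x) = V'.relIndex V • inv q V x
  /-- unramified cocycles with unit values are trivial (`H²(Gal(K^{ur}/K), 𝒪^×) = 0`):
  if `c` has values of norm `1`, is invariant under right translation by inertial elements and
  its values are fixed by the inertial elements of `V`, then `inv c = 0`. -/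
  inv_unram : ∀ (q : ℕ) [Fact q.Prime] (V : Subgroup (PadicAlgCl q ≃ₐ[ℚ_[q]] PadicAlgCl q)),
    IsOpenL q V → ∀ c : ↥(levelCocycles₂ (lHom q V) (lModOn q V)),
      (∀ g h : ↥V, ‖((Additive.toMul ((c : ↥V × ↥V → lModOn q V) (g, h)) :
        (PadicAlgCl q)ˣ) : PadicAlgCl q)‖ = 1) →
      (∀ g h i j : ↥V, IsInertial q (i : PadicAlgCl q ≃ₐ[ℚ_[q]] PadicAlgCl q) →
        IsInertial q (j : PadicAlgCl q ≃ₐ[ℚ_[q]] PadicAlgCl q) →
        (c : ↥V × ↥V → lModOn q V) (g * i, h * j) = (c : ↥V × ↥V → lModOn q V) (g, h)) →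
      (∀ g h i : ↥V, IsInertial q (i : PadicAlgCl q ≃ₐ[ℚ_[q]] PadicAlgCl q) →
        (lModOn q V).ρ i ((c : ↥V × ↥V → lModOn q V) (g, h)) =
          (c : ↥V × ↥V → lModOn q V) (g, h)) →
      inv q V (continuousH2π (lHom q V) (lModOn q V) c) = 0
  /-- normalisation: `inv (π ∪ δχ) = χ(Frob)` for unramified `χ` -/
  inv_unif : ∀ (q : ℕ) [Fact q.Prime] (V : Subgroup (PadicAlgCl q ≃ₐ[ℚ_[q]] PadicAlgCl q)),
    IsOpenL q V → ∀ (n : ℕ) [NeZero n] (χ : ↥V →* Multiplicative (ZMod n)),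
      (∀ τ : ↥V, IsInertial q (τ : PadicAlgCl q ≃ₐ[ℚ_[q]] PadicAlgCl q) → χ τ = 1) →
      ∀ (φ : PadicAlgCl q ≃ₐ[ℚ_[q]] PadicAlgCl q) (hφ : IsFrobenius q V φ),
      ∀ π : (PadicAlgCl q)ˣ, IsUniformizer q V (π : PadicAlgCl q) →
      ∀ c : ↥(levelCocycles₂ (lHom q V) (lModOn q V)),
        IsCupChar (toLMod q V π) χ
          (c : ↥V × ↥V → lModOn q V) →
        inv q V (continuousH2π (lHom q V) (lModOn q V) c) =
          (((((Multiplicative.toAdd (χ ⟨φ, hφ.1⟩)).val : ℚ) / (n : ℚ) : ℚ)) : AddCircle (1 : ℚ))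

/-! ## Global statements -/

/-- The local invariant of a global class at the place of `ℚ̄^U` induced by `ι_q ∘ g⁻¹`. -/
def LocalInvSystem.invAt (I : LocalInvSystem) (q : Nat.Primes) (g : GQ) (U : Subgroup GQ)
    (x : gBr U) : AddCircle (1 : ℚ) :=
  haveI : Fact (q : ℕ).Prime := ⟨q.2⟩
  I.inv (q : ℕ) (locSub (q : ℕ) g U) (locBr (q : ℕ) g U x)

/-- **Hasse principle** (`p`-primary part): a class of `p`-power order in `Br(K)` which is
trivial at all finite places is trivial.  (`K = ℚ̄^U` any number field.) -/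
def HassePrincipleSpec (p : ℕ) : Prop :=
  ∀ (U : Subgroup GQ), IsOpenQ U → ∀ x : gBr U, (∃ k : ℕ, p ^ k • x = 0) →
    (∀ (q : ℕ) [Fact q.Prime] (g : GQ), locBr q g U x = 0) → x = 0

/-- **Reciprocity law** (`p`-primary part): for `x ∈ Br(K)` of `p`-power order, almost all local
invariants vanish and `∑_v inv_v (x_v) = 0`, the sum over all finite places `v` of `K`
(= over all primes `q` and representatives of `U \\ G_ℚ / D_q`). -/
def ReciprocitySpec (I : LocalInvSystem) (p : ℕ) : Prop :=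
  ∀ (U : Subgroup GQ), IsOpenQ U → ∀ x : gBr U, (∃ k : ℕ, p ^ k • x = 0) →
    ∀ R : Nat.Primes → Finset GQ,
      (∀ q : Nat.Primes,
        haveI : Fact (q : ℕ).Prime := ⟨q.2⟩
        IsDoubleCosetReps U (localGaloisToGlobal (q : ℕ)).range (R q)) →
      (Function.support fun q : Nat.Primes => ∑ r ∈ R q, I.invAt q r U x).Finite ∧
        ∑ᶠ q : Nat.Primes, ∑ r ∈ R q, I.invAt q r U x = 0

end Fermat.Agent.S55.G.Rec

end
end
-- ===== PACK-END S55/G/Rec/Spec.lean

-- ===== PACK-BEGIN S55/Spec/Tower2.lean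
section
/-
S55 moonshot — frozen shared definitions, part 2: finiteness, transition maps, S-units,
diagonal embedding.  Chief architect: helper55.  NO sorry.  Namespace `Fermat.Agent.S55.Tow`.
-/



set_option autoImplicit false

open CategoryTheory

namespace Fermat.Agent.S55.Tow

noncomputable section

variable {S : Finset Nat.Primes}

/-- `q` is prime (instance for `q : Nat.Primes`). -/
instance factPrimes (q : Nat.Primes) : Fact (q : ℕ).Prime := ⟨q.2⟩

/-! ## Finiteness -/

instance Level.finiteGal (L : Level S) : Finite L.Gal := by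
  have : FiniteDimensional ℚ L.F := L.unram.1
  have hopen : IsOpen (L.F.fixingSubgroup : Set GQ) := IntermediateField.fixingSubgroup_isOpen L.F
  have := Fermat.Agent.S55.Bridge.isAlgebraic_Qbar
  have := Fermat.Agent.S55.Bridge.isGalois_Qbar
  exact Subgroup.quotient_finite_of_isOpen (L.F.fixingSubgroup) hopen

theorem Level.decHom_injective (L : Level S) (q : Nat.Primes) :
    Function.Injective (L.decHom q) := by
  rw [injective_iff_map_eq_one]
  intro x
  induction x using QuotientGroup.induction_on with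
  | H g =>
    intro h
    have h' : (QuotientGroup.mk (locQ q g) : L.Gal) = 1 := h
    rw [QuotientGroup.eq_one_iff] at h' ⊢
    exact h'

instance Level.finiteDec (L : Level S) (q : Nat.Primes) : Finite (L.Dec q) :=
  Finite.of_injective _ (L.decHom_injective q)

/-! ## Transition maps of groups -/

lemma Level.V_anti {L L' : Level S} (h : L ≤ L') (q : Nat.Primes) : L'.V q ≤ L.V q :=
  Subgroup.comap_mono (Level.U_anti h)

/-- The projection `Gal(F'_q/ℚ_q) → Gal(F_q/ℚ_q)` for `F ≤ F'`. -/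
def Level.projDec {L L' : Level S} (h : L ≤ L') (q : Nat.Primes) : L'.Dec q →* L.Dec q :=
  QuotientGroup.map (L'.V q) (L.V q) (MonoidHom.id (GQp q)) (Level.V_anti h q)

@[simp] lemma Level.proj_mk {L L' : Level S} (h : L ≤ L') (g : GQ) :
    Level.proj h (QuotientGroup.mk g) = QuotientGroup.mk g := rfl

@[simp] lemma Level.projDec_mk {L L' : Level S} (h : L ≤ L') (q : Nat.Primes) (g : GQp q) :
    Level.projDec h q (QuotientGroup.mk g) = QuotientGroup.mk g := rfl

@[simp] lemma Level.decHom_mk (L : Level S) (q : Nat.Primes) (g : GQp q) :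
    L.decHom q (QuotientGroup.mk g) = QuotientGroup.mk (locQ q g) := rfl

lemma Level.proj_decHom {L L' : Level S} (h : L ≤ L') (q : Nat.Primes) (d : L'.Dec q) :
    Level.proj h (L'.decHom q d) = L.decHom q (Level.projDec h q d) := by
  induction d using QuotientGroup.induction_on with
  | H g => rfl

/-! ## Underlying elements -/

/-- The element of `ℚ̄ˣ` underlying `x ∈ Fˣ`. -/
def Level.val (L : Level S) (x : L.units.V) : Qbarˣ := Additive.toMul x.1

/-- The element of `ℚ̄_qˣ` underlying `x ∈ F_qˣ`. -/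
def Level.locVal (L : Level S) (q : Nat.Primes) (x : (L.locUnits q).V) :
    (PadicAlgCl (q : ℕ))ˣ := Additive.toMul x.1

/-- `x ∈ Fˣ` is an `S`-unit: a unit at every place of `ℚ̄` over a prime `ℓ ∉ S`. -/
def Level.IsSUnit (L : Level S) (x : L.units.V) : Prop :=
  ∀ ℓ : Nat.Primes, ℓ ∉ S → ∀ A : ValuationSubring Qbar, A.LiesOverPrime (ℓ : ℕ) →
    ((L.val x : Qbarˣ) : Qbar) ∈ A ∧ (((L.val x)⁻¹ : Qbarˣ) : Qbar) ∈ A

end

end Fermat.Agent.S55.Tow

end
-- ===== PACK-END S55/Spec/Tower2.lean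

-- ===== PACK-BEGIN S55/G/DefsLocal.lean
section
/-
S55 (Poitou–Tate), layer G — DEFINITIONS, part 2: the places above `S` in the tensor model.
Sub-architect: helper421.

`AS S L = L ⊗[ℚ] ℚ_S` is a finite product of local fields.  We use its maximal ideals as the
places of `L` above `S`:

* `SPlace S L        = MaximalSpectrum (AS S L)`            (the places of `L` above `S`);
* `sPlaceSMul S G L g 𝔪`                                    (Galois action on the places);
* `decomp S G L 𝔪 : Subgroup G`                             (decomposition group);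
* `LocField S L 𝔪   = AS S L ⧸ 𝔪`                           (the completion `L_𝔪`, a field);
* `locAut S G L 𝔪 : decomp 𝔪 →* (L_𝔪 ≃+* L_𝔪)`, `LocRep S G L 𝔪 : Rep ℤ (decomp 𝔪)` (`= L_𝔪ˣ`);
* `toLoc S L 𝔪 : L →+* L_𝔪`,  `jToLoc`, `lToLoc` and the morphisms
  `jToLocRepHom : res_{D_𝔪} J_S(L) ⟶ L_𝔪ˣ`, `lToLocRepHom : res_{D_𝔪} Lˣ ⟶ L_𝔪ˣ`;
* `locMapJ S G L 𝔪 n : Hⁿ(G, J_S(L)) ⟶ Hⁿ(D_𝔪, L_𝔪ˣ)`,
  `locMapL S G L 𝔪 n : Hⁿ(G, Lˣ) ⟶ Hⁿ(D_𝔪, L_𝔪ˣ)`           (localisation maps).

No `sorry`.  Mathlib + `Defs.lean` only.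
-/


set_option autoImplicit false
set_option linter.unusedSectionVars false

open scoped NumberField TensorProduct
open IsDedekindDomain CategoryTheory

noncomputable section

namespace Fermat.Agent.S55.G

variable (S : Finset Nat.Primes) (G L : Type) [Group G] [Field L] [CharZero L]
  [MulSemiringAction G L]

/-- The places of `L` above `S`: the maximal ideals of `L ⊗[ℚ] ℚ_S`. -/
abbrev SPlace : Type := MaximalSpectrum (AS S L)

variable {L} in
/-- The Galois action on the places above `S`: `g 𝔪 = (g ⊗ 1)(𝔪)`. -/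
def sPlaceSMul (g : G) (𝔪 : SPlace S L) : SPlace S L where
  asIdeal := 𝔪.asIdeal.map (asRingAut G S L g)
  isMaximal :=
    haveI := 𝔪.isMaximal
    Ideal.map_isMaximal_of_equiv (asRingAut G S L g)

variable {L} in
lemma mem_sPlaceSMul_iff (g : G) (𝔪 : SPlace S L) (x : AS S L) :
    x ∈ (sPlaceSMul S G g 𝔪).asIdeal ↔ asAut S G L g⁻¹ x ∈ 𝔪.asIdeal := by
  change x ∈ 𝔪.asIdeal.map (asRingAut G S L g) ↔ _
  rw [← Ideal.comap_symm, Ideal.mem_comap]
  have : (asRingAut G S L g).symm x = asAut S G L g⁻¹ x := by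
    rw [← asRingAut_apply, map_inv]
    rfl
  rw [← this]

/-- The action of `G` on the places above `S` (a definition, NOT a global instance). -/
abbrev sPlaceAction : MulAction G (SPlace S L) where
  smul g 𝔪 := sPlaceSMul S G g 𝔪
  one_smul 𝔪 := by
    refine MaximalSpectrum.ext (Ideal.ext fun x => ?_)
    change x ∈ (sPlaceSMul S G 1 𝔪).asIdeal ↔ _
    rw [mem_sPlaceSMul_iff, inv_one, map_one]
    rfl
  mul_smul g h 𝔪 := by
    refine MaximalSpectrum.ext (Ideal.ext fun x => ?_)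
    change x ∈ (sPlaceSMul S G (g * h) 𝔪).asIdeal ↔
      x ∈ (sPlaceSMul S G g (sPlaceSMul S G h 𝔪)).asIdeal
    rw [mem_sPlaceSMul_iff, mem_sPlaceSMul_iff, mem_sPlaceSMul_iff, mul_inv_rev, map_mul]
    rfl

variable {L} in
/-- The decomposition group of the place `𝔪`. -/
def decomp (𝔪 : SPlace S L) : Subgroup G where
  carrier := {g | sPlaceSMul S G g 𝔪 = 𝔪}
  one_mem' := (sPlaceAction S G L).one_smul 𝔪
  mul_mem' {g h} hg hh := by
    change sPlaceSMul S G (g * h) 𝔪 = 𝔪
    have := (sPlaceAction S G L).mul_smul g h 𝔪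
    change sPlaceSMul S G (g * h) 𝔪 = sPlaceSMul S G g (sPlaceSMul S G h 𝔪) at this
    rw [this, show sPlaceSMul S G h 𝔪 = 𝔪 from hh, show sPlaceSMul S G g 𝔪 = 𝔪 from hg]
  inv_mem' {g} hg := by
    change sPlaceSMul S G g⁻¹ 𝔪 = 𝔪
    have := (sPlaceAction S G L).mul_smul g⁻¹ g 𝔪
    change sPlaceSMul S G (g⁻¹ * g) 𝔪 = sPlaceSMul S G g⁻¹ (sPlaceSMul S G g 𝔪) at this
    rw [show sPlaceSMul S G g 𝔪 = 𝔪 from hg, inv_mul_cancel] at this
    rw [← this]
    exact (sPlaceAction S G L).one_smul 𝔪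

variable {L} in
lemma mem_decomp_iff (𝔪 : SPlace S L) (g : G) :
    g ∈ decomp S G 𝔪 ↔ sPlaceSMul S G g 𝔪 = 𝔪 := Iff.rfl

variable {L} in
lemma map_eq_of_mem_decomp (𝔪 : SPlace S L) (g : decomp S G 𝔪) :
    𝔪.asIdeal = 𝔪.asIdeal.map (asRingAut G S L (g : G)) :=
  (congrArg MaximalSpectrum.asIdeal g.2).symm

variable {L} in
/-- The local field `L_𝔪 = (L ⊗[ℚ] ℚ_S) ⧸ 𝔪` at the place `𝔪`. -/
def LocField (𝔪 : SPlace S L) : Type := AS S L ⧸ 𝔪.asIdeal

variable {L} in
instance LocField.instField (𝔪 : SPlace S L) : Field (LocField S 𝔪) :=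
  haveI := 𝔪.isMaximal
  Ideal.Quotient.field 𝔪.asIdeal

variable {L} in
/-- The projection `L ⊗[ℚ] ℚ_S → L_𝔪`. -/
def LocField.mk (𝔪 : SPlace S L) : AS S L →+* LocField S 𝔪 := Ideal.Quotient.mk 𝔪.asIdeal

variable {L} in
lemma LocField.mk_surjective (𝔪 : SPlace S L) : Function.Surjective (LocField.mk S 𝔪) :=
  Ideal.Quotient.mk_surjective

variable {L} in
lemma LocField.mk_eq_zero_iff (𝔪 : SPlace S L) (x : AS S L) :
    LocField.mk S 𝔪 x = 0 ↔ x ∈ 𝔪.asIdeal :=
  Ideal.Quotient.eq_zero_iff_mem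

variable {L} in
/-- The `ℚ_S`-algebra structure of `L_𝔪` (it factors through exactly one `ℚ_q`, `q ∈ S`). -/
def LocField.ofQS (𝔪 : SPlace S L) : QS S →+* LocField S 𝔪 :=
  (LocField.mk S 𝔪).comp (asIncl S L : QS S →ₐ[ℚ] AS S L)

variable {L} in
/-- The embedding `L → L_𝔪`. -/
def toLoc (𝔪 : SPlace S L) : L →+* LocField S 𝔪 :=
  (LocField.mk S 𝔪).comp (asDiag S L : L →ₐ[ℚ] AS S L)

variable {L} in
/-- The action of the decomposition group on the local field. -/
def locAut (𝔪 : SPlace S L) : decomp S G 𝔪 →* (LocField S 𝔪 ≃+* LocField S 𝔪) where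
  toFun g := Ideal.quotientEquiv 𝔪.asIdeal 𝔪.asIdeal (asRingAut G S L (g : G))
    (map_eq_of_mem_decomp S G 𝔪 g)
  map_one' := by
    refine RingEquiv.ext fun x => ?_
    obtain ⟨x, rfl⟩ := Ideal.Quotient.mk_surjective x
    change Ideal.Quotient.mk _ (asRingAut G S L ((1 : decomp S G 𝔪) : G) x) = _
    rw [Subgroup.coe_one, map_one]
    rfl
  map_mul' g h := by
    refine RingEquiv.ext fun x => ?_
    obtain ⟨x, rfl⟩ := Ideal.Quotient.mk_surjective x
    change Ideal.Quotient.mk _ (asRingAut G S L ((g * h : decomp S G 𝔪) : G) x) = _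
    rw [Subgroup.coe_mul, map_mul]
    rfl

variable {L} in
@[simp] lemma locAut_mk (𝔪 : SPlace S L) (g : decomp S G 𝔪) (x : AS S L) :
    locAut S G 𝔪 g (LocField.mk S 𝔪 x) = LocField.mk S 𝔪 (asAut S G L (g : G) x) := rfl

variable {L} in
lemma locAut_toLoc (𝔪 : SPlace S L) (g : decomp S G 𝔪) (x : L) :
    locAut S G 𝔪 g (toLoc S 𝔪 x) = toLoc S 𝔪 ((g : G) • x) := by
  change locAut S G 𝔪 g (LocField.mk S 𝔪 (asDiag S L x)) = LocField.mk S 𝔪 (asDiag S L _)
  rw [locAut_mk, asAut_asDiag]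

variable {L} in
/-- The representation of the decomposition group on `L_𝔪ˣ`. -/
def locRepr (𝔪 : SPlace S L) : Representation ℤ (decomp S G 𝔪) (Additive (LocField S 𝔪)ˣ) :=
  unitsRepr (decomp S G 𝔪) (locAut S G 𝔪)

variable {L} in
/-- `L_𝔪ˣ` as an object of `Rep ℤ (decomp 𝔪)`. -/
def LocRep (𝔪 : SPlace S L) : Rep ℤ (decomp S G 𝔪) := Rep.of (locRepr S G 𝔪)

variable {L} in
/-- The projection `J_S(L) → L_𝔪ˣ`, additively. -/
def jToLoc (𝔪 : SPlace S L) : Additive (AS S L)ˣ →+ Additive (LocField S 𝔪)ˣ :=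
  MonoidHom.toAdditive (Units.map (LocField.mk S 𝔪 : AS S L →* LocField S 𝔪))

variable {L} in
/-- The localisation `Lˣ → L_𝔪ˣ`, additively. -/
def lToLoc (𝔪 : SPlace S L) : Additive Lˣ →+ Additive (LocField S 𝔪)ˣ :=
  MonoidHom.toAdditive (Units.map (toLoc S 𝔪 : L →* LocField S 𝔪))

variable {L} in
lemma jToLoc_unitsDiag (𝔪 : SPlace S L) (x : Additive Lˣ) :
    jToLoc S 𝔪 (unitsDiag S L x) = lToLoc S 𝔪 x := rfl

variable {L} in
lemma jToLoc_equivariant (𝔪 : SPlace S L) (g : decomp S G 𝔪) (x : Additive (AS S L)ˣ) :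
    jToLoc S 𝔪 (jRepr G S L (g : G) x) = locRepr S G 𝔪 g (jToLoc S 𝔪 x) := rfl

variable {L} in
lemma lToLoc_equivariant (𝔪 : SPlace S L) (g : decomp S G 𝔪) (x : Additive Lˣ) :
    lToLoc S 𝔪 (lRepr G L (g : G) x) = locRepr S G 𝔪 g (lToLoc S 𝔪 x) := by
  rw [← jToLoc_unitsDiag, unitsDiag_equivariant, jToLoc_equivariant, jToLoc_unitsDiag]

variable {L} in
/-- `res_{D_𝔪} J_S(L) ⟶ L_𝔪ˣ` in `Rep ℤ (decomp 𝔪)`. -/
def jToLocRepHom (𝔪 : SPlace S L) :
    Rep.res (decomp S G 𝔪).subtype (JRep G S L) ⟶ LocRep S G 𝔪 :=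
  Rep.ofHom ⟨(jToLoc S 𝔪).toIntLinearMap,
    fun g => LinearMap.ext fun x => jToLoc_equivariant S G 𝔪 g x⟩

variable {L} in
/-- `res_{D_𝔪} Lˣ ⟶ L_𝔪ˣ` in `Rep ℤ (decomp 𝔪)`. -/
def lToLocRepHom (𝔪 : SPlace S L) :
    Rep.res (decomp S G 𝔪).subtype (LRep G L) ⟶ LocRep S G 𝔪 :=
  Rep.ofHom ⟨(lToLoc S 𝔪).toIntLinearMap,
    fun g => LinearMap.ext fun x => lToLoc_equivariant S G 𝔪 g x⟩

variable {L} in
/-- The localisation map `Hⁿ(G, J_S(L)) ⟶ Hⁿ(D_𝔪, L_𝔪ˣ)`. -/
def locMapJ (𝔪 : SPlace S L) (n : ℕ) :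
    groupCohomology (JRep G S L) n ⟶ groupCohomology (LocRep S G 𝔪) n :=
  groupCohomology.map (decomp S G 𝔪).subtype (jToLocRepHom S G 𝔪) n

variable {L} in
/-- The localisation map `Hⁿ(G, Lˣ) ⟶ Hⁿ(D_𝔪, L_𝔪ˣ)`. -/
def locMapL (𝔪 : SPlace S L) (n : ℕ) :
    groupCohomology (LRep G L) n ⟶ groupCohomology (LocRep S G 𝔪) n :=
  groupCohomology.map (decomp S G 𝔪).subtype (lToLocRepHom S G 𝔪) n

end Fermat.Agent.S55.G

end
end
-- ===== PACK-END S55/G/DefsLocal.lean

-- ===== PACK-BEGIN S55/H713/Lattice.lean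
section


/-!
# Units of a complete local ring: an exact open subgroup from a good lattice

`O` is an adically complete local domain with an action of a finite group `G` by ring
automorphisms.  A *good lattice* `(σ, π, M)` is an additive subgroup `M ⊆ 𝔪` stable under `G`
and `π`, open, with `M * M ⊆ π M`, such that `σ - 1` and the trace are exact on `M / π M`.
Then on `W 0 = 1 + M ≤ Oˣ` the maps `u ↦ σ u / u` and the norm are exact.
-/

set_option autoImplicit false
set_option linter.unusedSectionVars false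

open IsLocalRing

namespace Fermat.Agent.S55.H713

variable {O : Type*} [CommRing O]

section Basic

/-- `π ^ k * M`. -/
def lat (π : O) (M : AddSubgroup O) (k : ℕ) : AddSubgroup O :=
  M.map (AddMonoidHom.mulLeft (π ^ k))

lemma mem_lat {π : O} {M : AddSubgroup O} {k : ℕ} {x : O} :
    x ∈ lat π M k ↔ ∃ a ∈ M, π ^ k * a = x := by
  simp [lat, AddSubgroup.mem_map]

lemma lat_zero (π : O) (M : AddSubgroup O) : lat π M 0 = M := by
  ext x; simp [mem_lat]

end Basic

variable [IsDomain O] [IsLocalRing O]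
variable {G : Type*} [Group G] [Fintype G] [MulSemiringAction G O]

/-- A good lattice. -/
structure IsGoodLattice (σ : G) (π : O) (M : AddSubgroup O) : Prop where
  pi_fixed : ∀ g : G, g • π = π
  pi_mem : π ∈ maximalIdeal O
  pi_ne : π ≠ 0
  smul_mem : ∀ g : G, ∀ a ∈ M, g • a ∈ M
  pi_mul_mem : ∀ a ∈ M, π * a ∈ M
  mul_mem : ∀ a ∈ M, ∀ b ∈ M, ∃ c ∈ M, a * b = π * c
  isOpen : ∀ k, ∃ j, ∀ x ∈ maximalIdeal O ^ j, x ∈ lat π M k
  le_max : ∀ a ∈ M, a ∈ maximalIdeal O
  ex1 : ∀ a ∈ M, σ • a - a ∈ lat π M 1 → ∃ b ∈ M, a - ∑ g : G, g • b ∈ lat π M 1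
  ex2 : ∀ a ∈ M, ∑ g : G, g • a ∈ lat π M 1 → ∃ b ∈ M, a - (σ • b - b) ∈ lat π M 1

namespace IsGoodLattice

variable {σ : G} {π : O} {M : AddSubgroup O} (h : IsGoodLattice σ π M)
include h

lemma lat_succ_le (k : ℕ) : lat π M (k + 1) ≤ lat π M k := by
  intro x hx
  obtain ⟨a, ha, rfl⟩ := mem_lat.1 hx
  exact mem_lat.2 ⟨π * a, h.pi_mul_mem a ha, by ring⟩

lemma lat_antitone : Antitone (lat π M) :=
  antitone_nat_of_succ_le h.lat_succ_le

lemma lat_le_M (k : ℕ) : lat π M k ≤ M := by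
  have := h.lat_antitone (Nat.zero_le k)
  rwa [lat_zero] at this

lemma lat_mul_lat {i j : ℕ} {x y : O} (hx : x ∈ lat π M i) (hy : y ∈ lat π M j) :
    x * y ∈ lat π M (i + j + 1) := by
  obtain ⟨a, ha, rfl⟩ := mem_lat.1 hx
  obtain ⟨b, hb, rfl⟩ := mem_lat.1 hy
  obtain ⟨c, hc, hab⟩ := h.mul_mem a ha b hb
  refine mem_lat.2 ⟨c, hc, ?_⟩
  calc π ^ (i + j + 1) * c = π ^ i * π ^ j * (π * c) := by ring
    _ = π ^ i * a * (π ^ j * b) := by rw [← hab]; ring

lemma lat_mul_lat_left {i j : ℕ} {x y : O} (hx : x ∈ lat π M i) (hy : y ∈ lat π M j) :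
    x * y ∈ lat π M i :=
  h.lat_antitone (by omega) (h.lat_mul_lat hx hy)

lemma lat_mul_lat_right {i j : ℕ} {x y : O} (hx : x ∈ lat π M i) (hy : y ∈ lat π M j) :
    x * y ∈ lat π M j :=
  h.lat_antitone (by omega) (h.lat_mul_lat hx hy)

/-- `lat k * lat k ⊆ lat (k+1)`. -/
lemma lat_mul_self {k : ℕ} {x y : O} (hx : x ∈ lat π M k) (hy : y ∈ lat π M k) :
    x * y ∈ lat π M (k + 1) :=
  h.lat_antitone (by omega) (h.lat_mul_lat hx hy)

lemma lat_le_pow (k : ℕ) : ∀ x ∈ lat π M k, x ∈ maximalIdeal O ^ k := by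
  intro x hx
  obtain ⟨a, -, rfl⟩ := mem_lat.1 hx
  exact Ideal.mul_mem_right _ _ (Ideal.pow_mem_pow h.pi_mem k)

lemma lat_le_max (k : ℕ) : ∀ x ∈ lat π M k, x ∈ maximalIdeal O :=
  fun x hx => h.le_max x (h.lat_le_M k hx)

lemma smul_mem_lat (g : G) {k : ℕ} {x : O} (hx : x ∈ lat π M k) : g • x ∈ lat π M k := by
  obtain ⟨a, ha, rfl⟩ := mem_lat.1 hx
  refine mem_lat.2 ⟨g • a, h.smul_mem g a ha, ?_⟩
  rw [smul_mul', smul_pow', h.pi_fixed]

lemma cancel_pow {k j : ℕ} {x : O} (hx : π ^ k * x ∈ lat π M (k + j)) : x ∈ lat π M j := by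
  obtain ⟨a, ha, hax⟩ := mem_lat.1 hx
  refine mem_lat.2 ⟨a, ha, ?_⟩
  have hk : π ^ k ≠ 0 := pow_ne_zero _ h.pi_ne
  apply mul_left_cancel₀ hk
  rw [← hax]; ring

/-- Multiplying by an element of `1 + M` preserves `lat k`. -/
lemma lat_mul_one_add {k : ℕ} {x y : O} (hx : x ∈ lat π M k) (hy : y - 1 ∈ M) :
    x * y ∈ lat π M k := by
  have : x * y = x + x * (y - 1) := by ring
  rw [this]
  have hy' : y - 1 ∈ lat π M 0 := by rwa [lat_zero]
  exact (lat π M k).add_mem hx (h.lat_mul_lat_left hx hy')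

end IsGoodLattice

end Fermat.Agent.S55.H713

end
-- ===== PACK-END S55/H713/Lattice.lean

-- ===== PACK-BEGIN S55/G/LocH897/ASRing.lean
section


/-!
# S55 / layer G / leaf G-LOC (helper897), part 3: `L ⊗[ℚ] ℚ_S` is a reduced Artinian ring

For a number field `L` and a finite set `S` of primes, the `S`-adèle ring
`AS S L = L ⊗[ℚ] ℚ_S` is Artinian and reduced, i.e. a finite product of fields.
-/

set_option autoImplicit false
set_option linter.style.haveILetI false

open scoped TensorProduct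

namespace Fermat.Agent.S55.G.LocH897

/-- `L ⊗_ℚ F` is reduced for a number field `L` and a field `F` of characteristic `0`. -/
lemma isReduced_tensor_field (L F : Type) [Field L] [NumberField L] [Field F] [Algebra ℚ F] :
    IsReduced (L ⊗[ℚ] F) := by
  haveI : Algebra.FormallyUnramified ℚ L := Algebra.FormallyUnramified.of_isSeparable ℚ L
  haveI : IsReduced (F ⊗[ℚ] L) := Algebra.FormallyUnramified.isReduced_of_field F (F ⊗[ℚ] L)
  exact isReduced_of_injective (Algebra.TensorProduct.comm ℚ L F)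
    (Algebra.TensorProduct.comm ℚ L F).injective

/-- `L ⊗_ℚ F` is Artinian for a number field `L` and a field `F` of characteristic `0`. -/
lemma isArtinianRing_tensor_field (L F : Type) [Field L] [NumberField L] [Field F]
    [Algebra ℚ F] : IsArtinianRing (L ⊗[ℚ] F) := by
  haveI : IsArtinianRing (F ⊗[ℚ] L) := IsArtinianRing.of_finite F (F ⊗[ℚ] L)
  exact (Algebra.TensorProduct.comm ℚ F L).toRingEquiv.isArtinianRing

lemma isReduced_pi' {ι : Type} (R : ι → Type) [∀ i, CommRing (R i)] [∀ i, IsReduced (R i)] :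
    IsReduced (∀ i, R i) :=
  ⟨fun x ⟨n, hn⟩ => funext fun i => IsReduced.eq_zero _ ⟨n, by simpa using congrFun hn i⟩⟩

variable (S : Finset Nat.Primes) (L : Type) [Field L] [NumberField L]

/-- `L ⊗[ℚ] ℚ_S ≃ ∏_{q ∈ S} L ⊗[ℚ] ℚ_q`. -/
noncomputable def asEquivPi : AS S L ≃ₐ[ℚ] (∀ q : S, L ⊗[ℚ] Qq q.1) :=
  letI : DecidableEq S := Classical.decEq _
  (Algebra.TensorProduct.congr AlgEquiv.refl (QS.toPi S)).trans
    (Algebra.TensorProduct.piRight ℚ ℚ L (fun q : S => Qq q.1))

lemma asEquivPi_tmul (x : L) (y : QS S) (q : S) :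
    asEquivPi S L (x ⊗ₜ[ℚ] y) q = x ⊗ₜ[ℚ] (QS.proj S q y) := rfl

theorem isReduced_AS : IsReduced (AS S L) := by
  haveI : ∀ q : S, IsReduced (L ⊗[ℚ] Qq q.1) := fun q => isReduced_tensor_field L (Qq q.1)
  haveI := isReduced_pi' (fun q : S => L ⊗[ℚ] Qq q.1)
  exact isReduced_of_injective (asEquivPi S L) (asEquivPi S L).injective

theorem isArtinianRing_AS : IsArtinianRing (AS S L) := by
  haveI : ∀ q : S, IsArtinianRing (L ⊗[ℚ] Qq q.1) :=
    fun q => isArtinianRing_tensor_field L (Qq q.1)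
  exact (asEquivPi S L).symm.toRingEquiv.isArtinianRing

end Fermat.Agent.S55.G.LocH897

end
-- ===== PACK-END S55/G/LocH897/ASRing.lean

-- ===== PACK-BEGIN S55/G/ClsH604.lean
section
/-
S55, layer G, leaf G-SES part (b) (helper604), on top of helper421's `G/Defs.lean`.

The divisor map `ordHom S L : Lˣ → Div^S(L)` has FINITE cokernel (finiteness of the class group),
hence `C_S(L) / C'_S(L)` (`C'_S = jImage = J_S / E_S`) is finite.
-/



set_option autoImplicit false
set_option linter.unusedSectionVars false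

open scoped NumberField nonZeroDivisors
open IsDedekindDomain FractionalIdeal

noncomputable section

namespace Fermat.Agent.S55.G.ClsH604

open Fermat.Agent.S55.G

variable (S : Finset Nat.Primes) (L : Type) [Field L] [NumberField L]

variable {L} in
/-- `ord_w x` is the multiplicity of `w` in the principal fractional ideal `(x)`. -/
lemma ordAt_eq_count (w : HeightOneSpectrum (𝓞 L)) (x : Additive Lˣ) :
    ordAt w x = count L w (spanSingleton (𝓞 L)⁰ ((x.toMul : Lˣ) : L)) := by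
  rw [ordAt_apply, ← HeightOneSpectrum.valuationOfNeZero_eq,
    Fermat.Agent.S55.H901.valuationOfNeZero_eq_count]
  simp
  rfl

/-- The prime `w`, as a unit of the monoid of fractional ideals. -/
def primeUnit (w : HeightOneSpectrum (𝓞 L)) : (FractionalIdeal (𝓞 L)⁰ L)ˣ :=
  FractionalIdeal.mk0 L ⟨w.asIdeal, mem_nonZeroDivisors_of_ne_zero w.ne_bot⟩

lemma coe_primeUnit (w : HeightOneSpectrum (𝓞 L)) :
    ((primeUnit L w : (FractionalIdeal (𝓞 L)⁰ L)ˣ) : FractionalIdeal (𝓞 L)⁰ L) =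
      (w.asIdeal : FractionalIdeal (𝓞 L)⁰ L) := rfl

/-- The fractional ideal `∏ w ^ (d w)` attached to a divisor prime to `S`, as a homomorphism. -/
def divIdeal : (PrimeOut S L →₀ ℤ) →+ Additive (FractionalIdeal (𝓞 L)⁰ L)ˣ :=
  Finsupp.liftAddHom fun w : PrimeOut S L =>
    (zmultiplesHom (Additive (FractionalIdeal (𝓞 L)⁰ L)ˣ)) (Additive.ofMul (primeUnit L w.1))

lemma divIdeal_single (w : PrimeOut S L) (n : ℤ) :
    divIdeal S L (Finsupp.single w n) = Additive.ofMul (primeUnit L w.1 ^ n) := by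
  simp [divIdeal]

/-- the multiplicity of `v` in the fractional ideal attached to `d`. -/
def cnt (v : HeightOneSpectrum (𝓞 L)) : Additive (FractionalIdeal (𝓞 L)⁰ L)ˣ →+ ℤ where
  toFun I := count L v ((I.toMul : (FractionalIdeal (𝓞 L)⁰ L)ˣ) : FractionalIdeal (𝓞 L)⁰ L)
  map_zero' := by simp [count_one]
  map_add' I J := by
    simp only [toMul_add, Units.val_mul]
    exact count_mul L v (Units.ne_zero _) (Units.ne_zero _)

lemma cnt_apply (v : HeightOneSpectrum (𝓞 L)) (I : Additive (FractionalIdeal (𝓞 L)⁰ L)ˣ) :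
    cnt L v I = count L v ((I.toMul : (FractionalIdeal (𝓞 L)⁰ L)ˣ) : FractionalIdeal (𝓞 L)⁰ L) :=
  rfl

lemma cnt_divIdeal (v : PrimeOut S L) (d : PrimeOut S L →₀ ℤ) :
    cnt L v.1 (divIdeal S L d) = d v := by
  classical
  induction d using Finsupp.induction_linear with
  | zero => simp
  | add f g hf hg => rw [map_add, map_add, hf, hg, Finsupp.add_apply]
  | single w n =>
    rw [divIdeal_single, cnt_apply, toMul_ofMul, Units.val_zpow_eq_zpow_val, coe_primeUnit,
      count_zpow]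
    by_cases h : w = v
    · subst h
      rw [count_self, mul_one, Finsupp.single_eq_same]
    · have h' : w.1 ≠ v.1 := fun h' => h (Subtype.ext h')
      rw [count_maximal_coprime L v.1 h', mul_zero, Finsupp.single_eq_of_ne (Ne.symm h)]

/-- The class of a divisor in the class group. -/
def divClass : (PrimeOut S L →₀ ℤ) →+ Additive (ClassGroup (𝓞 L)) :=
  (MonoidHom.toAdditive (ClassGroup.mk L)).comp (divIdeal S L)

/-- A divisor prime to `S` whose class is trivial is the divisor of an element of `Lˣ`. -/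
theorem ker_divClass_le : (divClass S L).ker ≤ (ordHom S L).range := by
  intro d hd
  have h1 : ClassGroup.mk L ((divIdeal S L d).toMul) = 1 := hd
  rw [ClassGroup.mk_eq_one_iff] at h1
  obtain ⟨x, hx⟩ := h1.principal
  have hx' : (((divIdeal S L d).toMul : (FractionalIdeal (𝓞 L)⁰ L)ˣ) :
      FractionalIdeal (𝓞 L)⁰ L) = spanSingleton (𝓞 L)⁰ x := by
    apply Subtype.coe_injective
    simp only [val_eq_coe, hx, coe_spanSingleton]
  have hx0 : x ≠ 0 := by
    rintro rfl
    have : (((divIdeal S L d).toMul : (FractionalIdeal (𝓞 L)⁰ L)ˣ) :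
      FractionalIdeal (𝓞 L)⁰ L) = 0 := by rw [hx']; simp
    exact Units.ne_zero _ this
  refine ⟨Additive.ofMul (Units.mk0 x hx0), ?_⟩
  ext w
  rw [ordHom_apply, ordAt_eq_count, toMul_ofMul, Units.val_mk0, ← hx', ← cnt_apply, cnt_divIdeal]

/-- **G-SES (b).** The image of the divisor map `Lˣ → Div^S(L)` has finite index
(the quotient is the `S`-class group). -/
instance ordHom_range_finiteIndex : (ordHom S L).range.FiniteIndex :=
  AddSubgroup.finiteIndex_of_le (ker_divClass_le S L)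

/-- the index of the image of the divisor map is nonzero. -/
theorem ordHom_range_index_ne_zero : (ordHom S L).range.index ≠ 0 :=
  AddSubgroup.FiniteIndex.index_ne_zero

instance finite_div_quotient : Finite ((PrimeOut S L →₀ ℤ) ⧸ (ordHom S L).range) :=
  AddSubgroup.finite_quotient_of_finiteIndex

end Fermat.Agent.S55.G.ClsH604

end
end
-- ===== PACK-END S55/G/ClsH604.lean

-- ===== PACK-BEGIN S55/H604/SUnitFinite.lean
section


/-!
# S55 / HQU (B): finiteness — `logS` has finite fibres over bounded sets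
-/

set_option autoImplicit false

open NumberField IsDedekindDomain

namespace Fermat.Agent.S55.H604

variable {L : Type*} [Field L] [NumberField L]

/-- the absolute norm of `v` has `v`-adic absolute value at most `1/2`. -/
lemma finitePlace_mk_absNorm_le (v : HeightOneSpectrum (𝓞 L)) :
    FinitePlace.mk v ((Ideal.absNorm v.asIdeal : ℕ) : L) ≤ 1 / 2 := by
  set N : ℕ := Ideal.absNorm v.asIdeal with hN
  have hN2 : 2 ≤ N := NumberField.HeightOneSpectrum.one_lt_absNorm v
  have hmem : ((N : ℕ) : 𝓞 L) ∈ v.asIdeal := Ideal.absNorm_mem v.asIdeal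
  have hne : ((N : ℕ) : 𝓞 L) ≠ 0 := by
    have : (N : 𝓞 L) = ((N : ℤ) : 𝓞 L) := by push_cast; rfl
    rw [this]
    intro h
    have := (FaithfulSMul.algebraMap_injective ℤ (𝓞 L)) (by simpa using h : algebraMap ℤ (𝓞 L) (N : ℤ) = algebraMap ℤ (𝓞 L) 0)
    omega
  have h1 := FinitePlace.apply_mul_absNorm_pow_eq_one (FinitePlace.mk v) hne
  rw [FinitePlace.maximalIdeal_mk] at h1
  have hcast : ((((N : ℕ) : 𝓞 L) : L)) = ((N : ℕ) : L) := by simp
  rw [hcast] at h1
  have hm : 1 ≤ multiplicity v.asIdeal (Ideal.span {((N : ℕ) : 𝓞 L)}) := by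
    have hdvd : v.asIdeal ∣ Ideal.span {((N : ℕ) : 𝓞 L)} := by
      rw [Ideal.dvd_span_singleton]
      exact hmem
    have hfin : FiniteMultiplicity v.asIdeal (Ideal.span {((N : ℕ) : 𝓞 L)}) := by
      apply FiniteMultiplicity.of_not_isUnit
      · exact fun h => v.isPrime.ne_top (Ideal.isUnit_iff.1 h)
      · simpa using hne
    exact hfin.le_multiplicity_of_pow_dvd (by simpa using hdvd)
  set m := multiplicity v.asIdeal (Ideal.span {((N : ℕ) : 𝓞 L)}) with hmdef
  have hNpos : (0 : ℝ) < N := by positivity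
  have hNm : (2 : ℝ) ≤ (N : ℝ) ^ m := by
    calc (2 : ℝ) ≤ N := by exact_mod_cast hN2
      _ = (N : ℝ) ^ 1 := (pow_one _).symm
      _ ≤ (N : ℝ) ^ m := pow_le_pow_right₀ (by exact_mod_cast (by omega : 1 ≤ N)) hm
  have hval : FinitePlace.mk v ((N : ℕ) : L) = 1 / (N : ℝ) ^ m := by
    rw [eq_div_iff (by positivity)]
    exact h1
  rw [hval]
  exact one_div_le_one_div_of_le (by norm_num) hNm


/-- natural numbers have finite absolute values `≤ 1`. -/
lemma finitePlace_mk_natCast_le_one (v : HeightOneSpectrum (𝓞 L)) (n : ℕ) :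
    FinitePlace.mk v (n : L) ≤ 1 := by
  rw [FinitePlace.mk_apply, FinitePlace.norm_embedding]
  exact NumberField.HeightOneSpectrum.adicAbv_natCast_le_one L v n

variable (S : Finset (HeightOneSpectrum (𝓞 L)))

/-- the clearing denominator `d = (∏_{v ∈ S} N v)^k`. -/
noncomputable def clearDenom (k : ℕ) : ℕ := (∏ v ∈ S, Ideal.absNorm v.asIdeal) ^ k

lemma clearDenom_ne_zero (k : ℕ) : clearDenom S k ≠ 0 := by
  unfold clearDenom
  refine pow_ne_zero _ (Finset.prod_ne_zero_iff.2 fun v _ => ?_)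
  have := NumberField.HeightOneSpectrum.one_lt_absNorm v
  omega

lemma finitePlace_mk_clearDenom_le {v : HeightOneSpectrum (𝓞 L)} (hv : v ∈ S) (k : ℕ) :
    FinitePlace.mk v ((clearDenom S k : ℕ) : L) ≤ (1 / 2) ^ k := by
  classical
  unfold clearDenom
  rw [Nat.cast_pow, map_pow]
  refine pow_le_pow_left₀ (apply_nonneg _ _) ?_ k
  rw [← Finset.mul_prod_erase S _ hv, Nat.cast_mul, map_mul]
  calc FinitePlace.mk v ((Ideal.absNorm v.asIdeal : ℕ) : L) *
        FinitePlace.mk v ((∏ x ∈ S.erase v, Ideal.absNorm x.asIdeal : ℕ) : L)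
      ≤ (1 / 2) * 1 := by
        refine mul_le_mul (finitePlace_mk_absNorm_le v) (finitePlace_mk_natCast_le_one v _)
          (apply_nonneg _ _) (by norm_num)
    _ = 1 / 2 := mul_one _

variable (L)

/-- **(B2)+(B3)** only finitely many `S`-units have all logarithmic coordinates bounded by `r`.
In particular `logS` has finite kernel and discrete image. -/
theorem finite_logS_le (r : ℝ) :
    {x : Additive (SUnit L S) | ∀ t, |logS L S x t| ≤ r}.Finite := by
  classical
  obtain ⟨k, hk⟩ : ∃ k : ℕ, Real.exp r ≤ 2 ^ k := by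
    obtain ⟨k, hk⟩ := pow_unbounded_of_one_lt (Real.exp r) (by norm_num : (1 : ℝ) < 2)
    exact ⟨k, hk.le⟩
  set d : ℕ := clearDenom S k with hd
  have hd0 : (d : L) ≠ 0 := Nat.cast_ne_zero.2 (clearDenom_ne_zero S k)
  set B : ℝ := d * Real.exp r with hB
  have hfin := Embeddings.finite_of_norm_le L ℂ B
  let f : Additive (SUnit L S) → L := fun x => (d : L) * (((Additive.toMul x : SUnit L S) : Lˣ) : L)
  have hf : Function.Injective f := by
    intro x y hxy
    have h1 : (((Additive.toMul x : SUnit L S) : Lˣ) : L) =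
        (((Additive.toMul y : SUnit L S) : Lˣ) : L) := mul_left_cancel₀ hd0 hxy
    have h2 : (Additive.toMul x : SUnit L S) = Additive.toMul y :=
      Subtype.ext (Units.ext h1)
    exact Additive.toMul.injective h2
  refine (hfin.preimage hf.injOn).subset ?_
  intro x hx
  simp only [Set.mem_ofPred_eq] at hx
  set y : SUnit L S := Additive.toMul x with hy
  have hy0 : ((y : Lˣ) : L) ≠ 0 := Units.ne_zero _
  simp only [Set.mem_preimage, Set.mem_ofPred_eq, f]
  constructor
  · -- integrality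
    have hmem : (d : L) * ((y : Lˣ) : L) ∈ (algebraMap (𝓞 L) L).range := by
      refine HeightOneSpectrum.mem_integers_of_valuation_le_one L _ fun v => ?_
      rw [← finitePlace_mk_le_one_iff]
      rw [map_mul]
      by_cases hv : v ∈ S
      · have h1 := finitePlace_mk_clearDenom_le S hv k
        have h2 : FinitePlace.mk v ((y : Lˣ) : L) ≤ Real.exp r := by
          have h3 := hx (Sum.inr ⟨v, hv⟩)
          rw [logS_apply, logComp_inr] at h3
          have h4 := (abs_le.1 h3).2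
          calc FinitePlace.mk v ((y : Lˣ) : L)
              = Real.exp (Real.log (FinitePlace.mk v ((y : Lˣ) : L))) :=
                (Real.exp_log (finitePlace_mk_pos v hy0)).symm
            _ ≤ Real.exp r := Real.exp_le_exp.2 h4
        calc FinitePlace.mk v ((d : ℕ) : L) * FinitePlace.mk v ((y : Lˣ) : L)
            ≤ (1 / 2) ^ k * 2 ^ k :=
              mul_le_mul h1 (h2.trans hk) (apply_nonneg _ _) (by positivity)
          _ = 1 := by rw [← mul_pow]; norm_num
      · rw [sUnit_finitePlace_eq_one y hv, mul_one]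
        exact finitePlace_mk_natCast_le_one v d
    obtain ⟨z, hz⟩ := hmem
    rw [← hz]
    exact z.isIntegral_coe
  · intro φ
    rw [map_mul, norm_mul, map_natCast, Complex.norm_natCast, hB]
    refine mul_le_mul_of_nonneg_left ?_ (Nat.cast_nonneg _)
    have h3 := hx (Sum.inl (InfinitePlace.mk φ))
    rw [logS_apply, logComp_inl] at h3
    have h4 := (abs_le.1 h3).2
    have hpos : 0 < (InfinitePlace.mk φ) ((y : Lˣ) : L) :=
      (InfinitePlace.pos_iff).2 hy0
    rw [← InfinitePlace.apply φ]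
    by_cases hlog : Real.log ((InfinitePlace.mk φ) ((y : Lˣ) : L)) ≤ 0
    · calc (InfinitePlace.mk φ) ((y : Lˣ) : L)
          = Real.exp (Real.log ((InfinitePlace.mk φ) ((y : Lˣ) : L))) := (Real.exp_log hpos).symm
        _ ≤ Real.exp 0 := Real.exp_le_exp.2 hlog
        _ ≤ Real.exp r := Real.exp_le_exp.2 ((abs_nonneg _).trans h3)
    · push Not at hlog
      have h5 : Real.log ((InfinitePlace.mk φ) ((y : Lˣ) : L)) ≤ r := by
        calc Real.log ((InfinitePlace.mk φ) ((y : Lˣ) : L))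
            = 1 * Real.log ((InfinitePlace.mk φ) ((y : Lˣ) : L)) := (one_mul _).symm
          _ ≤ ((InfinitePlace.mk φ).mult : ℝ) * Real.log ((InfinitePlace.mk φ) ((y : Lˣ) : L)) :=
              mul_le_mul_of_nonneg_right InfinitePlace.one_le_mult hlog.le
          _ ≤ r := h4
      calc (InfinitePlace.mk φ) ((y : Lˣ) : L)
          = Real.exp (Real.log ((InfinitePlace.mk φ) ((y : Lˣ) : L))) := (Real.exp_log hpos).symm
        _ ≤ Real.exp r := Real.exp_le_exp.2 h5

end Fermat.Agent.S55.H604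

end
-- ===== PACK-END S55/H604/SUnitFinite.lean

-- ===== PACK-BEGIN S55/H963/BrComplete.lean
section


/-!
# S55 / G-SI bridge (helper963): `P`-adic completeness, module form, and transfer

`MHaus P M`, `MPrec P M` for an abelian group `M` and an integer `P`: separation and
precompleteness for the filtration `Pᵏ M`.  Stable under additive equivalences and arbitrary
products; hold for `ℤ_[q]` when `P = q * unit`.
-/

set_option autoImplicit false
set_option linter.style.haveILetI false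

namespace Fermat.Agent.S55.H963.Br

section Module

variable (P : ℤ) (M : Type*) [AddCommGroup M]

/-- `⋂ₖ Pᵏ M = 0`. -/
def MHaus : Prop := ∀ y : M, (∀ k : ℕ, ∃ u : M, y = P ^ k • u) → y = 0

/-- Every `P`-adic Cauchy sequence of `M` has a limit. -/
def MPrec : Prop :=
  ∀ f : ℕ → M, (∀ k : ℕ, ∃ u : M, f (k + 1) - f k = P ^ k • u) →
    ∃ L : M, ∀ k : ℕ, ∃ u : M, L - f k = P ^ k • u

variable {P M}

theorem MHaus.of_addEquiv {N : Type*} [AddCommGroup N] (e : M ≃+ N) (h : MHaus P N) :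
    MHaus P M := by
  intro y hy
  have : e y = 0 := h (e y) fun k => by
    obtain ⟨u, hu⟩ := hy k
    exact ⟨e u, by rw [hu, map_zsmul]⟩
  simpa using this

theorem MPrec.of_addEquiv {N : Type*} [AddCommGroup N] (e : M ≃+ N) (h : MPrec P N) :
    MPrec P M := by
  intro f hf
  obtain ⟨L, hL⟩ := h (fun k => e (f k)) fun k => by
    obtain ⟨u, hu⟩ := hf k
    exact ⟨e u, by rw [← map_sub, hu, map_zsmul]⟩
  refine ⟨e.symm L, fun k => ?_⟩
  obtain ⟨u, hu⟩ := hL k
  refine ⟨e.symm u, ?_⟩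
  apply e.injective
  rw [map_sub, map_zsmul, e.apply_symm_apply, e.apply_symm_apply, hu]

theorem MHaus.pi {ι : Type*} {N : ι → Type*} [∀ i, AddCommGroup (N i)]
    (h : ∀ i, MHaus P (N i)) : MHaus P (∀ i, N i) := by
  intro y hy
  funext i
  refine h i (y i) fun k => ?_
  obtain ⟨u, hu⟩ := hy k
  exact ⟨u i, by rw [hu]; rfl⟩

theorem MPrec.pi {ι : Type*} {N : ι → Type*} [∀ i, AddCommGroup (N i)]
    (h : ∀ i, MPrec P (N i)) : MPrec P (∀ i, N i) := by
  intro f hf
  have h1 : ∀ i, ∃ L : N i, ∀ k : ℕ, ∃ u : N i, L - f k i = P ^ k • u := fun i =>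
    h i (fun k => f k i) fun k => by
      obtain ⟨u, hu⟩ := hf k
      exact ⟨u i, by rw [← Pi.sub_apply, hu]; rfl⟩
  choose L hL using h1
  refine ⟨L, fun k => ?_⟩
  choose u hu using fun i => hL i k
  exact ⟨u, funext fun i => by rw [Pi.sub_apply, hu i]; rfl⟩

end Module

section Ring

variable {R : Type*} [CommRing R]

theorem pHaus_of_mHaus {P : ℤ} (h : MHaus P R) : PHaus ((P : ℤ) : R) := by
  intro y hy
  refine h y fun k => ?_
  obtain ⟨u, hu⟩ := hy k
  exact ⟨u, by rw [hu, zsmul_eq_mul]; push_cast; rfl⟩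

theorem pPrec_of_mPrec {P : ℤ} (h : MPrec P R) : PPrec ((P : ℤ) : R) := by
  intro f hf
  obtain ⟨L, hL⟩ := h f fun k => by
    obtain ⟨u, hu⟩ := hf k
    exact ⟨u, by rw [hu, zsmul_eq_mul]; push_cast; rfl⟩
  refine ⟨L, fun k => ?_⟩
  obtain ⟨u, hu⟩ := hL k
  exact ⟨u, by rw [hu, zsmul_eq_mul]; push_cast; rfl⟩

theorem mHaus_of_pHaus {P : ℤ} (h : PHaus ((P : ℤ) : R)) : MHaus P R := by
  intro y hy
  refine h y fun k => ?_
  obtain ⟨u, hu⟩ := hy k
  exact ⟨u, by rw [hu, zsmul_eq_mul]; push_cast; rfl⟩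

theorem mPrec_of_pPrec {P : ℤ} (h : PPrec ((P : ℤ) : R)) : MPrec P R := by
  intro f hf
  obtain ⟨L, hL⟩ := h f fun k => by
    obtain ⟨u, hu⟩ := hf k
    exact ⟨u, by rw [hu, zsmul_eq_mul]; push_cast; rfl⟩
  refine ⟨L, fun k => ?_⟩
  obtain ⟨u, hu⟩ := hL k
  exact ⟨u, by rw [hu, zsmul_eq_mul]; push_cast; rfl⟩

theorem mem_span_pow_smul_top_iff (P : R) (k : ℕ) (y : R) :
    y ∈ ((Ideal.span {P}) ^ k • ⊤ : Submodule R R) ↔ P ^ k ∣ y := by
  rw [Ideal.span_singleton_pow, smul_eq_mul, Ideal.mul_top, Ideal.mem_span_singleton]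

theorem pHaus_of_isAdicComplete (P : R) [IsAdicComplete (Ideal.span {P}) R] : PHaus P := by
  intro y hy
  refine IsHausdorff.haus (I := Ideal.span {P}) inferInstance y fun k => ?_
  rw [SModEq.zero, mem_span_pow_smul_top_iff]
  exact hy k

theorem pPrec_of_isAdicComplete (P : R) [IsAdicComplete (Ideal.span {P}) R] : PPrec P := by
  intro f hf
  have hmn : ∀ m n : ℕ, m ≤ n → P ^ m ∣ f n - f m := by
    intro m n hmn
    induction n, hmn using Nat.le_induction with
    | base => simp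
    | succ n hn ih =>
      have : f (n + 1) - f m = (f (n + 1) - f n) + (f n - f m) := by ring
      rw [this]
      exact dvd_add (dvd_trans (pow_dvd_pow P hn) (hf n)) ih
  obtain ⟨L, hL⟩ := IsPrecomplete.prec (I := Ideal.span {P}) inferInstance (f := f)
    (fun {m n} h => by
      rw [SModEq.sub_mem, mem_span_pow_smul_top_iff]
      have := hmn m n h
      rw [← neg_sub]
      exact (dvd_neg).mpr this)
  refine ⟨L, fun k => ?_⟩
  have := hL k
  rw [SModEq.sub_mem, mem_span_pow_smul_top_iff] at this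
  rw [← neg_sub]
  exact (dvd_neg).mpr this

end Ring

section Padic

variable (q : ℕ) [Fact q.Prime]

theorem isAdicComplete_padicInt_span {P : ℤ_[q]} (hP : Associated (q : ℤ_[q]) P) :
    IsAdicComplete (Ideal.span {P}) ℤ_[q] := by
  have : Ideal.span {P} = IsLocalRing.maximalIdeal ℤ_[q] := by
    rw [PadicInt.maximalIdeal_eq_span_p, Ideal.span_singleton_eq_span_singleton]
    exact hP.symm
  rw [this]
  infer_instance

theorem mHaus_padicInt {P : ℤ} (hP : Associated (q : ℤ_[q]) ((P : ℤ) : ℤ_[q])) :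
    MHaus P ℤ_[q] := by
  haveI := isAdicComplete_padicInt_span q hP
  exact mHaus_of_pHaus (pHaus_of_isAdicComplete _)

theorem mPrec_padicInt {P : ℤ} (hP : Associated (q : ℤ_[q]) ((P : ℤ) : ℤ_[q])) :
    MPrec P ℤ_[q] := by
  haveI := isAdicComplete_padicInt_span q hP
  exact mPrec_of_pPrec (pPrec_of_isAdicComplete _)

end Padic

end Fermat.Agent.S55.H963.Br

end
-- ===== PACK-END S55/H963/BrComplete.lean

-- ===== PACK-BEGIN S59/TW/H206/WeierstrassCore.lean
section


/-!
# Row S59, cell TW, leaf WEIERSTRASS: the abstract core (helper206)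

`A = 𝒪⟦X₁..X_r⟧`, `𝒪` a Noetherian local ring which is precomplete for its maximal ideal, `p` a
prime number lying in the maximal ideal, `d = p ^ n`, `J = ((1 + X_j) ^ d - 1 : j)`.  Then every
power series is congruent modulo `J` to an `𝒪`-combination of the monomials
`∏ (1 + X_i) ^ a_i`, `a_i < d`.

Steps:
* `sub_boxPart_mem`: `f - (box part of f) ∈ (X_j ^ d : j)` (coefficientwise, any ring, any `d`);
* `boxPart_univ_mem_span`: the box part is an `𝒪`-combination of the `∏ (1 + X_i) ^ a_i`;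
* `exists_step`: hence `f ≡ ∑ c_a m_a + p h` modulo `J` (`X ^ d ≡ (1 + X) ^ d - 1` modulo `p`);
* iterate, pass to the limit of the coefficients in `𝒪` and use Krull's intersection theorem in
  `A ⧸ J`.
-/

set_option autoImplicit false

namespace Fermat.Agent.S59.TW.H206

open MvPowerSeries

section Box

variable {O : Type*} [CommRing O] {r : ℕ}

/-- Keep the coefficients at the exponents `α` with `α j < d` for all `j ∈ S`. -/
noncomputable def boxPart (d : ℕ) (S : Finset (Fin r)) (f : MvPowerSeries (Fin r) O) :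
    MvPowerSeries (Fin r) O :=
  fun α => if ∀ j ∈ S, α j < d then coeff α f else 0

theorem coeff_boxPart (d : ℕ) (S : Finset (Fin r)) (f : MvPowerSeries (Fin r) O)
    (α : Fin r →₀ ℕ) :
    coeff α (boxPart d S f) = if ∀ j ∈ S, α j < d then coeff α f else 0 := rfl

/-- `f` minus its box part lies in the ideal `(X_j ^ d : j)`. -/
theorem sub_boxPart_mem (d : ℕ) (S : Finset (Fin r)) (f : MvPowerSeries (Fin r) O) :
    f - boxPart d S f ∈
      Ideal.span (Set.range fun j : Fin r => (X j : MvPowerSeries (Fin r) O) ^ d) := by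
  classical
  induction S using Finset.induction_on with
  | empty =>
    have h : boxPart d ∅ f = f := by
      ext α
      rw [coeff_boxPart]
      simp
    rw [h, sub_self]
    exact Ideal.zero_mem _
  | insert j S _ ih =>
    have h2 : (X j : MvPowerSeries (Fin r) O) ^ d ∣
        boxPart d S f - boxPart d (insert j S) f := by
      rw [X_pow_dvd_iff]
      intro α hα
      rw [map_sub, coeff_boxPart, coeff_boxPart]
      have hiff : (∀ i ∈ insert j S, α i < d) ↔ (∀ i ∈ S, α i < d) := by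
        rw [Finset.forall_mem_insert]
        exact ⟨fun h => h.2, fun h => ⟨hα, h⟩⟩
      rw [if_congr hiff rfl rfl, sub_self]
    have h3 : boxPart d S f - boxPart d (insert j S) f ∈
        Ideal.span (Set.range fun j : Fin r => (X j : MvPowerSeries (Fin r) O) ^ d) :=
      Ideal.mem_of_dvd _ h2 (Ideal.subset_span ⟨j, rfl⟩)
    have h4 := Ideal.add_mem _ ih h3
    have e : f - boxPart d (insert j S) f =
        (f - boxPart d S f) + (boxPart d S f - boxPart d (insert j S) f) := by ring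
    rw [e]
    exact h4

/-- The monomials `∏ (1 + X_i) ^ a_i`, `a_i < d`. -/
noncomputable def mono (O : Type*) [CommRing O] {r : ℕ} (d : ℕ) (a : Fin r → Fin d) :
    MvPowerSeries (Fin r) O :=
  ∏ i, (1 + X i) ^ (a i : ℕ)

/-- `∏ X_i ^ a_i` is an `𝒪`-combination of the `∏ (1 + X_i) ^ b_i`. -/
theorem prod_X_pow_mem_span (d : ℕ) (a : Fin r → Fin d) :
    (∏ i, (X i : MvPowerSeries (Fin r) O) ^ (a i : ℕ)) ∈
      Submodule.span O (Set.range (mono O (r := r) d)) := by
  classical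
  have hX : ∀ i : Fin r, (X i : MvPowerSeries (Fin r) O) ^ (a i : ℕ) =
      ∑ m ∈ Finset.range ((a i : ℕ) + 1),
        (1 + X i : MvPowerSeries (Fin r) O) ^ m *
          algebraMap O (MvPowerSeries (Fin r) O)
            ((-1) ^ ((a i : ℕ) - m) * (((a i : ℕ).choose m : ℕ) : O)) := by
    intro i
    have h1 : (X i : MvPowerSeries (Fin r) O) = (1 + X i) + (-1) := by ring
    conv_lhs => rw [h1, add_pow]
    refine Finset.sum_congr rfl fun m _ => ?_
    rw [map_mul, map_pow, map_neg, map_one, map_natCast, mul_assoc]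
  rw [Finset.prod_congr rfl fun i _ => hX i, Finset.prod_univ_sum]
  refine Submodule.sum_mem _ fun k hk => ?_
  rw [Fintype.mem_piFinset] at hk
  have hk' : ∀ i, k i < d := fun i =>
    lt_of_le_of_lt (Nat.lt_succ_iff.mp (Finset.mem_range.mp (hk i))) (a i).2
  rw [Finset.prod_mul_distrib, ← map_prod, mul_comm, ← Algebra.smul_def]
  refine Submodule.smul_mem _ _ (Submodule.subset_span ⟨fun i => ⟨k i, hk' i⟩, ?_⟩)
  rfl

/-- The exponent attached to a point of the box. -/
noncomputable def boxExp {d : ℕ} (a : Fin r → Fin d) : Fin r →₀ ℕ :=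
  Finsupp.equivFunOnFinite.symm fun i => (a i : ℕ)

theorem boxExp_apply {d : ℕ} (a : Fin r → Fin d) (i : Fin r) : boxExp a i = (a i : ℕ) := rfl

theorem monomial_boxExp {d : ℕ} (a : Fin r → Fin d) :
    monomial (boxExp a) (1 : O) = ∏ i, (X i : MvPowerSeries (Fin r) O) ^ (a i : ℕ) := by
  rw [monomial_one_eq, Finsupp.prod_fintype _ _ fun i => pow_zero _]
  rfl

/-- The full box part is the finite sum of its monomials. -/
theorem boxPart_univ_eq (d : ℕ) (f : MvPowerSeries (Fin r) O) :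
    boxPart d Finset.univ f =
      ∑ a : Fin r → Fin d, coeff (boxExp a) f • ∏ i, (X i : MvPowerSeries (Fin r) O) ^ (a i : ℕ) := by
  classical
  ext α
  rw [coeff_boxPart, map_sum]
  have hterm : ∀ a : Fin r → Fin d,
      coeff α (coeff (boxExp a) f • ∏ i, (X i : MvPowerSeries (Fin r) O) ^ (a i : ℕ)) =
        if α = boxExp a then coeff (boxExp a) f else 0 := by
    intro a
    rw [← monomial_boxExp, map_smul, coeff_monomial, smul_eq_mul]
    split_ifs <;> simp
  rw [Finset.sum_congr rfl fun a _ => hterm a]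
  by_cases h : ∀ j ∈ (Finset.univ : Finset (Fin r)), α j < d
  · rw [if_pos h]
    set a0 : Fin r → Fin d := fun i => ⟨α i, h i (Finset.mem_univ i)⟩ with ha0
    have hα : α = boxExp a0 := by
      ext i
      rfl
    rw [Finset.sum_eq_single a0]
    · rw [if_pos hα, ← hα]
    · intro b _ hb
      rw [if_neg]
      intro hαb
      apply hb
      funext i
      apply Fin.ext
      have := congrArg (fun e : Fin r →₀ ℕ => e i) hαb
      simp only [boxExp_apply] at this
      exact this.symm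
    · intro h0
      exact absurd (Finset.mem_univ a0) h0
  · rw [if_neg h]
    symm
    apply Finset.sum_eq_zero
    intro a _
    rw [if_neg]
    intro hαa
    apply h
    intro j _
    rw [hαa, boxExp_apply]
    exact (a j).2

theorem boxPart_univ_mem_span (d : ℕ) (f : MvPowerSeries (Fin r) O) :
    boxPart d Finset.univ f ∈ Submodule.span O (Set.range (mono O (r := r) d)) := by
  rw [boxPart_univ_eq]
  exact Submodule.sum_mem _ fun a _ => Submodule.smul_mem _ _ (prod_X_pow_mem_span d a)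

end Box

section Step

variable {O : Type*} [CommRing O] {r : ℕ}

/-- The ideal `J = ((1 + X_j) ^ d - 1 : j)`. -/
noncomputable def idealJ (O : Type*) [CommRing O] (r d : ℕ) : Ideal (MvPowerSeries (Fin r) O) :=
  Ideal.span (Set.range fun j : Fin r => ((1 + X j) ^ d - 1 : MvPowerSeries (Fin r) O))

/-- `X_j ^ (p ^ n) ∈ J + p A`. -/
theorem X_pow_mem (p : ℕ) (hp : p.Prime) (n : ℕ) (j : Fin r) :
    ∃ h : MvPowerSeries (Fin r) O,
      (X j : MvPowerSeries (Fin r) O) ^ (p ^ n) - (p : MvPowerSeries (Fin r) O) * h ∈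
        idealJ O r (p ^ n) := by
  obtain ⟨s, hs⟩ := (Commute.all (1 : MvPowerSeries (Fin r) O) (X j)).exists_add_pow_prime_pow_eq
    hp n
  refine ⟨-(X j * s), ?_⟩
  have e : (X j : MvPowerSeries (Fin r) O) ^ (p ^ n) - (p : MvPowerSeries (Fin r) O) * -(X j * s) =
      (1 + X j) ^ (p ^ n) - 1 := by
    rw [hs]
    ring
  rw [e]
  exact Ideal.subset_span ⟨j, rfl⟩

/-- Everything in `(X_j ^ (p ^ n) : j)` lies in `J + p A`. -/
theorem exists_of_mem_span_X_pow (p : ℕ) (hp : p.Prime) (n : ℕ)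
    (g : MvPowerSeries (Fin r) O)
    (hg : g ∈ Ideal.span
      (Set.range fun j : Fin r => (X j : MvPowerSeries (Fin r) O) ^ (p ^ n))) :
    ∃ h : MvPowerSeries (Fin r) O,
      g - (p : MvPowerSeries (Fin r) O) * h ∈ idealJ O r (p ^ n) := by
  induction hg using Submodule.span_induction with
  | mem x hx =>
    obtain ⟨j, rfl⟩ := hx
    exact X_pow_mem p hp n j
  | zero => exact ⟨0, by simp⟩
  | add x y _ _ hx hy =>
    obtain ⟨h1, hh1⟩ := hx
    obtain ⟨h2, hh2⟩ := hy
    refine ⟨h1 + h2, ?_⟩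
    have e : x + y - (p : MvPowerSeries (Fin r) O) * (h1 + h2) =
        (x - (p : MvPowerSeries (Fin r) O) * h1) + (y - (p : MvPowerSeries (Fin r) O) * h2) := by
      ring
    rw [e]
    exact Ideal.add_mem _ hh1 hh2
  | smul a x _ hx =>
    obtain ⟨h1, hh1⟩ := hx
    refine ⟨a * h1, ?_⟩
    have e : a • x - (p : MvPowerSeries (Fin r) O) * (a * h1) =
        a * (x - (p : MvPowerSeries (Fin r) O) * h1) := by
      rw [smul_eq_mul]
      ring
    rw [e]
    exact Ideal.mul_mem_left _ _ hh1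

/-- **One step**: `f ≡ ∑ c_a m_a + p h` modulo `J`. -/
theorem exists_step (p : ℕ) (hp : p.Prime) (n : ℕ) (f : MvPowerSeries (Fin r) O) :
    ∃ (c : (Fin r → Fin (p ^ n)) → O) (h : MvPowerSeries (Fin r) O),
      f - ∑ a, c a • mono O (p ^ n) a - (p : MvPowerSeries (Fin r) O) * h ∈
        idealJ O r (p ^ n) := by
  obtain ⟨c, hc⟩ := (Submodule.mem_span_range_iff_exists_fun O).mp
    (boxPart_univ_mem_span (p ^ n) f)
  obtain ⟨h, hh⟩ := exists_of_mem_span_X_pow p hp n _ (sub_boxPart_mem (p ^ n) Finset.univ f)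
  refine ⟨c, h, ?_⟩
  rw [hc]
  exact hh

end Step

section Limit

variable {O : Type*} [CommRing O] [IsLocalRing O] {r : ℕ}

open IsLocalRing

theorem C_mem_maximalIdeal {x : O} (hx : x ∈ maximalIdeal O) :
    (C x : MvPowerSeries (Fin r) O) ∈ maximalIdeal (MvPowerSeries (Fin r) O) := by
  rw [mem_maximalIdeal, mem_nonunits_iff, isUnit_iff_constantCoeff, constantCoeff_C]
  exact (mem_maximalIdeal x).mp hx

theorem C_mem_maximalIdeal_pow (K : ℕ) {x : O} (hx : x ∈ maximalIdeal O ^ K) :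
    (C x : MvPowerSeries (Fin r) O) ∈ maximalIdeal (MvPowerSeries (Fin r) O) ^ K := by
  have h1 : Ideal.map (C : O →+* MvPowerSeries (Fin r) O) (maximalIdeal O) ≤
      maximalIdeal (MvPowerSeries (Fin r) O) := by
    rw [Ideal.map_le_iff_le_comap]
    intro y hy
    exact C_mem_maximalIdeal hy
  have h2 : (C x : MvPowerSeries (Fin r) O) ∈
      Ideal.map (C : O →+* MvPowerSeries (Fin r) O) (maximalIdeal O ^ K) :=
    Ideal.mem_map_of_mem _ hx
  rw [Ideal.map_pow] at h2
  exact Ideal.pow_right_mono h1 K h2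

/-- Ideals of `A` are closed: Krull's intersection theorem in `A ⧸ J`. -/
theorem mem_of_forall_mem_sup_pow [IsNoetherianRing O] (J : Ideal (MvPowerSeries (Fin r) O))
    (e : MvPowerSeries (Fin r) O)
    (he : ∀ K : ℕ, e ∈ J ⊔ maximalIdeal (MvPowerSeries (Fin r) O) ^ K) : e ∈ J := by
  have hkrull := Ideal.iInf_pow_smul_eq_bot_of_isLocalRing
    (M := MvPowerSeries (Fin r) O ⧸ J) (maximalIdeal (MvPowerSeries (Fin r) O))
    (Ideal.IsMaximal.ne_top inferInstance)
  have hmem : (Submodule.Quotient.mk e : MvPowerSeries (Fin r) O ⧸ J) ∈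
      ⨅ i : ℕ, maximalIdeal (MvPowerSeries (Fin r) O) ^ i •
        (⊤ : Submodule (MvPowerSeries (Fin r) O) (MvPowerSeries (Fin r) O ⧸ J)) := by
    rw [Submodule.mem_iInf]
    intro K
    obtain ⟨a, ha, b, hb, hab⟩ := Submodule.mem_sup.mp (he K)
    have h1 : (Submodule.Quotient.mk e : MvPowerSeries (Fin r) O ⧸ J) =
        b • (Submodule.Quotient.mk 1 : MvPowerSeries (Fin r) O ⧸ J) := by
      rw [← Submodule.Quotient.mk_smul, smul_eq_mul, mul_one, ← hab,
        Submodule.Quotient.mk_add, (Submodule.Quotient.mk_eq_zero J).mpr ha, zero_add]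
    rw [h1]
    exact Submodule.smul_mem_smul hb Submodule.mem_top
  rw [hkrull, Submodule.mem_bot] at hmem
  exact (Submodule.Quotient.mk_eq_zero J).mp hmem

/-- **WEIERSTRASS, abstract form.** -/
theorem weierstrass_core [IsNoetherianRing O] [IsPrecomplete (maximalIdeal O) O] (p : ℕ) (hp : p.Prime)
    (hpO : (p : O) ∈ maximalIdeal O) (n r : ℕ) (f : MvPowerSeries (Fin r) O) :
    ∃ c : (Fin r → Fin (p ^ n)) → O,
      f - ∑ a, c a • mono O (p ^ n) a ∈ idealJ O r (p ^ n) := by
  classical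
  -- the recursion
  choose cf hf hstep using fun g : MvPowerSeries (Fin r) O => exists_step (O := O) p hp n g
  let hs : ℕ → MvPowerSeries (Fin r) O := fun k => Nat.rec f (fun _ g => hf g) k
  have hs0 : hs 0 = f := rfl
  have hsS : ∀ k, hs (k + 1) = hf (hs k) := fun _ => rfl
  let s : ℕ → (Fin r → Fin (p ^ n)) → O := fun K a =>
    ∑ k ∈ Finset.range K, (p : O) ^ k * cf (hs k) a
  have hmain : ∀ K : ℕ,
      f - ∑ a, s K a • mono O (p ^ n) a - (p : MvPowerSeries (Fin r) O) ^ K * hs K ∈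
        idealJ O r (p ^ n) := by
    intro K
    induction K with
    | zero =>
      have e : f - ∑ a, s 0 a • mono O (p ^ n) a -
          (p : MvPowerSeries (Fin r) O) ^ 0 * hs 0 = 0 := by
        simp [s, hs0]
      rw [e]
      exact Ideal.zero_mem _
    | succ K ih =>
      have h1 := hstep (hs K)
      have e : f - ∑ a, s (K + 1) a • mono O (p ^ n) a -
          (p : MvPowerSeries (Fin r) O) ^ (K + 1) * hs (K + 1) =
          (f - ∑ a, s K a • mono O (p ^ n) a - (p : MvPowerSeries (Fin r) O) ^ K * hs K) +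
          (p : MvPowerSeries (Fin r) O) ^ K *
            (hs K - ∑ a, cf (hs K) a • mono O (p ^ n) a -
              (p : MvPowerSeries (Fin r) O) * hf (hs K)) := by
        have e1 : ∑ a, s (K + 1) a • mono O (p ^ n) a =
            ∑ a, s K a • mono O (p ^ n) a +
              (p : MvPowerSeries (Fin r) O) ^ K * ∑ a, cf (hs K) a • mono O (p ^ n) a := by
          rw [Finset.mul_sum, ← Finset.sum_add_distrib]
          refine Finset.sum_congr rfl fun a _ => ?_
          simp only [s, Finset.sum_range_succ, add_smul]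
          congr 1
          rw [Algebra.smul_def, Algebra.smul_def, map_mul, map_pow, map_natCast, mul_assoc]
        rw [e1, hsS]
        ring
      rw [e]
      exact Ideal.add_mem _ ih (Ideal.mul_mem_left _ _ h1)
  -- the limit of the coefficients
  have hcauchy : ∀ a : Fin r → Fin (p ^ n), ∀ {m k : ℕ}, m ≤ k →
      s m a ≡ s k a [SMOD (maximalIdeal O ^ m • ⊤ : Submodule O O)] := by
    intro a m k hmk
    rw [SModEq.sub_mem, smul_eq_mul, Ideal.mul_top]
    have e : s m a - s k a = -∑ i ∈ Finset.Ico m k, (p : O) ^ i * cf (hs i) a := by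
      simp only [s]
      rw [Finset.sum_Ico_eq_sub _ hmk]
      ring
    rw [e]
    refine Ideal.neg_mem_iff _ |>.mpr (Ideal.sum_mem _ fun i hi => ?_)
    have him : m ≤ i := (Finset.mem_Ico.mp hi).1
    exact Ideal.mul_mem_right _ _ (Ideal.pow_le_pow_right him (Ideal.pow_mem_pow hpO i))
  choose c hc using fun a : Fin r → Fin (p ^ n) =>
    IsPrecomplete.prec (I := maximalIdeal O) (M := O) inferInstance (hcauchy a)
  refine ⟨c, mem_of_forall_mem_sup_pow _ _ fun K => ?_⟩
  have e : f - ∑ a, c a • mono O (p ^ n) a =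
      (f - ∑ a, s K a • mono O (p ^ n) a - (p : MvPowerSeries (Fin r) O) ^ K * hs K) +
      ((p : MvPowerSeries (Fin r) O) ^ K * hs K + ∑ a, (s K a - c a) • mono O (p ^ n) a) := by
    simp only [sub_smul, Finset.sum_sub_distrib]
    ring
  rw [e]
  refine Submodule.add_mem_sup (hmain K) (Ideal.add_mem _ ?_ (Ideal.sum_mem _ fun a _ => ?_))
  · refine Ideal.mul_mem_right _ _ (Ideal.pow_mem_pow ?_ K)
    have := C_mem_maximalIdeal (r := r) hpO
    rwa [map_natCast] at this
  · have h1 : s K a - c a ∈ maximalIdeal O ^ K := by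
      have := hc a K
      rw [SModEq.sub_mem, smul_eq_mul, Ideal.mul_top] at this
      exact this
    rw [Algebra.smul_def]
    exact Ideal.mul_mem_right _ _ (C_mem_maximalIdeal_pow K h1)

end Limit

end Fermat.Agent.S59.TW.H206

end
-- ===== PACK-END S59/TW/H206/WeierstrassCore.lean

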