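import Mathlib
import Fermat.Prelude.Def_ExtEndgame_ProductionDatum
import Fermat.Prelude.Def_ModularCurve_PeriodMap
import Fermat.Agent.Pack.S44C.G0E6L0
import Fermat.Agent.Pack.S43GC.G0E3L0
import Fermat.Agent.Pack.S43GC.G0E3L2
import Fermat.Agent.Pack.S43GC.G0E0L0
import Fermat.Agent.Pack.S43GC.G0E3L1
import Fermat.Agent.Pack.S43GC.G0E0L3
import Fermat.Agent.Pack.S43GC.G0E3L3
import Fermat.Agent.Pack.S44C.G0E1L3
import Fermat.Agent.Pack.Fast891

-- ===== PACK-BEGIN S55/Bridge/DualTwist.lean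
section


/-!
# S55 bridge, part B2c: `M.dualTwist (cycloChar p)` satisfies the hypotheses of S55 again,
and both `M` and `M.dualTwist (cycloChar p)` factor through one finite Galois level
unramified outside `S` (when `p ∈ S`).
-/

set_option autoImplicit false

namespace Fermat.Agent.S55.Bridge

open ExtCitation IntermediateField

attribute [local instance] isAlgebraic_Qbar isGalois_Qbar

/-- If `g` acts trivially on `A` and `χ g = 1` then `g` acts trivially on `A.dualTwist χ`. -/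
theorem dualTwist_ρ_eq_one {k G : Type} [CommRing k] [Group G] (A : Rep.{0, 0, 0} k G)
    (χ : G →* kˣ) (g : G) (hA : A.ρ g = 1) (hχ : χ g = 1) : (A.dualTwist χ).ρ g = 1 := by
  have hinv : A.ρ g⁻¹ = 1 := by
    have h : A.ρ g⁻¹ * A.ρ g = 1 := by rw [← map_mul, inv_mul_cancel, map_one]
    rwa [hA, mul_one] at h
  apply LinearMap.ext
  intro f
  rw [Rep.dualTwist_ρ_apply, hχ, hinv, Units.val_one, one_smul]
  rfl

section cyclo

variable (p : ℕ) [Fact p.Prime]

/-- The field generated by the `p`-th roots of unity. -/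
noncomputable def cycloLevel : IntermediateField ℚ (AlgebraicClosure ℚ) :=
  IntermediateField.adjoin ℚ {x : AlgebraicClosure ℚ | x ^ p = 1}

theorem cycloLevel_finiteDimensional : FiniteDimensional ℚ (cycloLevel p) := by
  have hp : p.Prime := Fact.out
  have hfin : Set.Finite {x : AlgebraicClosure ℚ | x ^ p = 1} := by
    have h := (Polynomial.X ^ p - 1 : Polynomial (AlgebraicClosure ℚ)).roots.toFinset.finite_toSet
    refine h.subset fun x hx => ?_
    have hne : (Polynomial.X ^ p - 1 : Polynomial (AlgebraicClosure ℚ)) ≠ 0 :=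
      Polynomial.X_pow_sub_C_ne_zero hp.pos 1
    simp only [Finset.mem_coe, Multiset.mem_toFinset, Polynomial.mem_roots hne,
      Polynomial.IsRoot, Polynomial.eval_sub, Polynomial.eval_pow, Polynomial.eval_X,
      Polynomial.eval_one]
    exact sub_eq_zero.2 hx
  haveI : Finite {x : AlgebraicClosure ℚ | x ^ p = 1} := hfin
  exact IntermediateField.finiteDimensional_adjoin
    (fun x _ => Algebra.IsIntegral.isIntegral x)

theorem cycloChar_eq_one_of_mem_fixingSubgroup
    (σ : AlgebraicClosure ℚ ≃ₐ[ℚ] AlgebraicClosure ℚ) (hσ : σ ∈ (cycloLevel p).fixingSubgroup) :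
    cycloChar p σ = 1 := by
  apply cycloChar_eq_one_of_fixes
  intro t ht
  have htp : (t : AlgebraicClosure ℚ) ^ p = 1 := by
    have := (mem_rootsOfUnity p t).1 ht
    rw [← Units.val_pow_eq_pow_val, this, Units.val_one]
  exact (IntermediateField.mem_fixingSubgroup_iff _ σ).1 hσ t
    (IntermediateField.subset_adjoin ℚ _ htp)

end cyclo

section Rep

variable {p : ℕ} [Fact p.Prime]
  (M : Rep.{0, 0, 0} (ZMod p) (AlgebraicClosure ℚ ≃ₐ[ℚ] AlgebraicClosure ℚ))

/-- Smoothness passes to the Tate-twisted dual. -/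
theorem dualTwist_smooth [FiniteDimensional (ZMod p) M]
    (hsm : ∀ m : M, ∃ F : IntermediateField ℚ (AlgebraicClosure ℚ), FiniteDimensional ℚ F ∧
      ∀ s ∈ F.fixingSubgroup, M.ρ s m = m) :
    ∀ f : M.dualTwist (cycloChar p), ∃ F : IntermediateField ℚ (AlgebraicClosure ℚ),
      FiniteDimensional ℚ F ∧ ∀ s ∈ F.fixingSubgroup, (M.dualTwist (cycloChar p)).ρ s f = f := by
  obtain ⟨F, hFfin, hF⟩ := exists_finite_level_of_smooth M hsm
  intro f
  haveI := hFfin
  haveI := cycloLevel_finiteDimensional p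
  refine ⟨F ⊔ cycloLevel p, IntermediateField.finiteDimensional_sup F (cycloLevel p), ?_⟩
  intro s hs
  rw [IntermediateField.fixingSubgroup_sup] at hs
  rw [dualTwist_ρ_eq_one M (cycloChar p) s (hF s hs.1)
    (cycloChar_eq_one_of_mem_fixingSubgroup p s hs.2)]
  rfl

/-- Unramifiedness outside `S ∋ p` passes to the Tate-twisted dual. -/
theorem dualTwist_unramified (S : Finset Nat.Primes) (hpS : pPrime p ∈ S)
    (hMur : ∀ q : Nat.Primes, q ∉ S → ∀ A : ValuationSubring (AlgebraicClosure ℚ),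
      A.LiesOverPrime (q : ℕ) → ∀ g ∈ A.inertiaSubgroupIn ℚ, M.ρ g = 1) :
    ∀ q : Nat.Primes, q ∉ S → ∀ A : ValuationSubring (AlgebraicClosure ℚ),
      A.LiesOverPrime (q : ℕ) → ∀ g ∈ A.inertiaSubgroupIn ℚ,
        (M.dualTwist (cycloChar p)).ρ g = 1 := by
  intro q hq A hA g hg
  have hqp : (q : ℕ) ≠ p := by
    intro h
    apply hq
    have : q = pPrime p := Subtype.ext h
    rw [this]
    exact hpS
  exact dualTwist_ρ_eq_one M (cycloChar p) g (hMur q hq A hA g hg)
    (cycloChar_eq_one_of_mem_inertia p q.2 hqp A hA g hg)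

/-- **B2.** Under the hypotheses of S55 there is a single finite Galois extension `L/ℚ`,
unramified outside `S`, such that `G_L` acts trivially on `M` and on `M.dualTwist (cycloChar p)`
and `cycloChar p` is trivial on `G_L`. -/
theorem exists_common_galois_level [FiniteDimensional (ZMod p) M]
    (S : Finset Nat.Primes) (hpS : pPrime p ∈ S)
    (hsm : ∀ m : M, ∃ F : IntermediateField ℚ (AlgebraicClosure ℚ), FiniteDimensional ℚ F ∧
      ∀ s ∈ F.fixingSubgroup, M.ρ s m = m)
    (hMur : ∀ q : Nat.Primes, q ∉ S → ∀ A : ValuationSubring (AlgebraicClosure ℚ),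
      A.LiesOverPrime (q : ℕ) → ∀ g ∈ A.inertiaSubgroupIn ℚ, M.ρ g = 1) :
    ∃ L : IntermediateField ℚ (AlgebraicClosure ℚ),
      L.IsUnramifiedOutside S ∧ IsGalois ℚ L ∧
      (∀ s ∈ L.fixingSubgroup, M.ρ s = 1) ∧
      (∀ s ∈ L.fixingSubgroup, cycloChar p s = 1) ∧
      (∀ s ∈ L.fixingSubgroup, (M.dualTwist (cycloChar p)).ρ s = 1) := by
  obtain ⟨F, hFfin, hF⟩ := exists_finite_level_of_smooth M hsm
  haveI := hFfin
  haveI := cycloLevel_finiteDimensional p
  have hsupfin : FiniteDimensional ℚ ↥(F ⊔ cycloLevel p) :=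
    IntermediateField.finiteDimensional_sup F (cycloLevel p)
  obtain ⟨L, hL, hgal, hfix, -⟩ := exists_galois_level_of_subgroup S
    (MonoidHom.ker M.ρ ⊓ MonoidHom.ker (cycloChar p)) (F ⊔ cycloLevel p) hsupfin
    (fun s hs => by
      rw [IntermediateField.fixingSubgroup_sup] at hs
      exact ⟨MonoidHom.mem_ker.2 (hF s hs.1),
        MonoidHom.mem_ker.2 (cycloChar_eq_one_of_mem_fixingSubgroup p s hs.2)⟩)
    (fun q hq A hA g hg => by
      have hqp : (q : ℕ) ≠ p := by
        intro h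
        apply hq
        have : q = pPrime p := Subtype.ext h
        rw [this]
        exact hpS
      exact ⟨MonoidHom.mem_ker.2 (hMur q hq A hA g hg),
        MonoidHom.mem_ker.2 (cycloChar_eq_one_of_mem_inertia p q.2 hqp A hA g hg)⟩)
  have hmem : ∀ s ∈ L.fixingSubgroup, M.ρ s = 1 ∧ cycloChar p s = 1 := by
    intro s hs
    rw [hfix] at hs
    exact ⟨MonoidHom.mem_ker.1 hs.1, MonoidHom.mem_ker.1 hs.2⟩
  exact ⟨L, hL, hgal, fun s hs => (hmem s hs).1, fun s hs => (hmem s hs).2,
    fun s hs => dualTwist_ρ_eq_one M (cycloChar p) s (hmem s hs).1 (hmem s hs).2⟩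

end Rep

end Fermat.Agent.S55.Bridge

end
-- ===== PACK-END S55/Bridge/DualTwist.lean

-- ===== PACK-BEGIN S55/KL/DevCdGlueH593.lean
section


/-!
# S55 / layer KB: the two glue leaves KB-DEV and KB-CD   (helper593)

* `devissage_of (hB : DevSylowSpec) (hC : DevPGroupSpec) : DevissageSpec`
  (Sylow reduction + filtration induction ⇒ dévissage; the only extra input is the elementary
  fact that a `p`-group acts trivially on a module of order `p`);
* `cd_of (hK : KummerH3Spec) (hD : DevissageSpec) : CdSpec`;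
* `cd_of_leaves (hK) (hB) (hC) : CdSpec`.

Reusable lemmas: `exists_lvl_le_forall` (common lower bound of finitely many levels),
`exists_lvl_actsTrivially` (a finite smooth module is fixed by a level, below any given level),
`isSmooth_res`, `isSmooth_tors`, `isDivisibleBy_res`, `actsTrivially_of_isPGroup`.
Mathlib + `KL/Spec.lean` only.
-/

set_option autoImplicit false
set_option linter.style.haveILetI false

open CategoryTheory groupCohomology

namespace Fermat.Agent.S55.KL.H593

open Fermat.Agent.S55.KL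

variable {k : Type} [CommRing k] {Γ : Type} [Group Γ]

/-! ## Levels -/

/-- Finitely many levels have a common lower bound. -/
theorem exists_lvl_le_forall (N : NLevels Γ) {ι : Type*} [Finite ι] (V : ι → N.Lvl) :
    ∃ X : N.Lvl, ∀ i, X.W ≤ (V i).W := by
  classical
  haveI := Fintype.ofFinite ι
  suffices h : ∀ s : Finset ι, ∃ X : N.Lvl, ∀ i ∈ s, X.W ≤ (V i).W by
    obtain ⟨X, hX⟩ := h Finset.univ
    exact ⟨X, fun i => hX i (Finset.mem_univ i)⟩
  intro s
  induction s using Finset.induction_on with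
  | empty =>
    obtain ⟨X⟩ := (inferInstance : Nonempty N.Lvl)
    exact ⟨X, fun i hi => absurd hi (Finset.notMem_empty i)⟩
  | insert a s _ ih =>
    obtain ⟨X, hX⟩ := ih
    obtain ⟨Y, hY1, hY2⟩ := N.exists_le X (V a)
    refine ⟨Y, fun i hi => ?_⟩
    rcases Finset.mem_insert.1 hi with rfl | hi
    · exact hY2
    · exact hY1.trans (hX i hi)

/-- A finite smooth module is fixed pointwise by some level, which may be chosen below any
given level. -/
theorem exists_lvl_actsTrivially (N : NLevels Γ) (R : Rep.{0} k Γ) [Finite R.V]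
    (hR : IsSmooth N R) (V₀ : N.Lvl) : ∃ V : N.Lvl, V.W ≤ V₀.W ∧ ActsTrivially V.W R := by
  classical
  choose W hW hfix using hR
  obtain ⟨X, hX⟩ := exists_lvl_le_forall N (fun r : R.V => (⟨W r, hW r⟩ : N.Lvl))
  obtain ⟨Y, hY1, hY2⟩ := N.exists_le X V₀
  exact ⟨Y, hY2, fun w hw r => hfix r w (hX r (hY1 hw))⟩

/-- Smoothness passes to subgroups. -/
theorem isSmooth_res (N : NLevels Γ) (B : Rep.{0} k Γ) (U : Subgroup Γ) (hB : IsSmooth N B) :
    IsSmooth (N.restrict U) (Rep.res U.subtype B) := by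
  intro b
  obtain ⟨W, hW, h⟩ := hB b
  exact ⟨W.subgroupOf U, ⟨W, hW, rfl⟩, fun w hw => h w.1 (Subgroup.mem_subgroupOf.1 hw)⟩

/-- Smoothness passes to the `p`-torsion. -/
theorem isSmooth_tors (N : NLevels Γ) (A : Rep.{0} k Γ) (p : ℕ) (hA : IsSmooth N A) :
    IsSmooth N (tors A p) := by
  intro b
  obtain ⟨W, hW, h⟩ := hA b.1
  exact ⟨W, hW, fun w hw => Subtype.ext (h w hw)⟩

/-- Divisibility passes to subgroups. -/
theorem isDivisibleBy_res (A : Rep.{0} k Γ) (p : ℕ) (U : Subgroup Γ) (hA : IsDivisibleBy A p) :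
    IsDivisibleBy (Rep.res U.subtype A) p := hA

/-! ## A `p`-group acts trivially on a module of order `p` -/

/-- An additive endomorphism `T` of a group of prime order `p` whose `p^n`-th iterate is the
identity is the identity. -/
theorem addMonoidHom_eq_id_of_iterate {M : Type*} [AddCommGroup M] {p : ℕ} (hp : p.Prime)
    (hcard : Nat.card M = p) (T : M →+ M) (n : ℕ) (hT : ∀ m, T^[p ^ n] m = m) (m : M) :
    T m = m := by
  classical
  haveI : Fact p.Prime := ⟨hp⟩
  haveI : Fact (Nat.card M).Prime := ⟨by rw [hcard]; exact hp⟩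
  by_cases hm : m = 0
  · rw [hm, map_zero]
  -- `m` generates `M`
  have htop : AddSubgroup.zmultiples m = ⊤ := by
    rcases AddSubgroup.eq_bot_or_eq_top_of_prime_card (AddSubgroup.zmultiples m) with h | h
    · exact absurd (AddSubgroup.zmultiples_eq_bot.1 h) hm
    · exact h
  have hgen : ∀ x : M, ∃ a : ℤ, a • m = x := fun x => by
    have : x ∈ AddSubgroup.zmultiples m := by rw [htop]; trivial
    exact AddSubgroup.mem_zmultiples_iff.1 this
  obtain ⟨a, ha⟩ := hgen (T m)
  have hpow : ∀ j : ℕ, T^[j] m = (a ^ j) • m := by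
    intro j
    induction j with
    | zero => simp
    | succ j ih =>
      rw [Function.iterate_succ_apply', ih, map_zsmul, ← ha, smul_smul, pow_succ]
  have hpm : ∀ b : ℤ, b • m = 0 → (p : ℤ) ∣ b := by
    intro b hb
    have hord : addOrderOf m = p := by
      have h1 : addOrderOf m ∣ p := by
        rw [← hcard]
        exact addOrderOf_dvd_natCard m
      rcases (Nat.dvd_prime hp).1 h1 with h | h
      · exact absurd (AddMonoid.addOrderOf_eq_one_iff.1 h) hm
      · exact h
    rw [← hord]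
    exact (addOrderOf_dvd_iff_zsmul_eq_zero).2 hb
  have h1 : (a ^ p ^ n - 1) • m = 0 := by
    rw [sub_smul, one_smul, ← hpow, hT, sub_self]
  have h2 : ((a ^ p ^ n - 1 : ℤ) : ZMod p) = 0 :=
    (ZMod.intCast_zmod_eq_zero_iff_dvd _ p).2 (hpm _ h1)
  have h3 : ((a - 1 : ℤ) : ZMod p) = 0 := by
    have h4 : ((a : ZMod p)) ^ p ^ n = (a : ZMod p) := ZMod.pow_card_pow (a : ZMod p)
    push_cast at h2 ⊢
    rw [h4] at h2
    exact h2
  have h5 : (p : ℤ) ∣ a - 1 := (ZMod.intCast_zmod_eq_zero_iff_dvd _ p).1 h3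
  obtain ⟨c, hc⟩ := h5
  have hpz : (p : ℤ) • m = 0 := by
    rw [natCast_zsmul, ← hcard]
    exact card_nsmul_eq_zero'
  have : (a - 1) • m = 0 := by rw [hc, mul_comm, mul_smul, hpz, smul_zero]
  rw [sub_smul, one_smul, sub_eq_zero] at this
  rw [← ha, this]

/-- If `V ≤ U` acts trivially on a module `μ` of order `p` and `U/V` is a `p`-group, then `U`
acts trivially on `μ`. -/
theorem actsTrivially_of_isPGroup (μ : Rep.{0} k Γ) {p : ℕ} (hp : p.Prime)
    (hcard : Nat.card μ.V = p) (U V : Subgroup Γ) [V.Normal] (hV : ActsTrivially V μ)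
    (hP : IsPGroup p (↥U ⧸ V.subgroupOf U)) (u : ↥U) (m : μ.V) :
    (Rep.res U.subtype μ).ρ u m = m := by
  obtain ⟨n, hn⟩ := hP (QuotientGroup.mk u)
  have hmem : (u ^ p ^ n : ↥U) ∈ V.subgroupOf U := by
    rw [← QuotientGroup.eq_one_iff, QuotientGroup.mk_pow]
    exact hn
  have hmem' : ((u : Γ) ^ p ^ n) ∈ V := by
    have := Subgroup.mem_subgroupOf.1 hmem
    simpa using this
  let T : μ.V →+ μ.V := (μ.ρ (u : Γ)).toAddMonoidHom
  have hTpow : ∀ (j : ℕ) (x : μ.V), T^[j] x = μ.ρ ((u : Γ) ^ j) x := by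
    intro j
    induction j with
    | zero => intro x; simp
    | succ j ih =>
      intro x
      rw [Function.iterate_succ_apply', ih, pow_succ', map_mul]
      rfl
  have hT : ∀ x, T^[p ^ n] x = x := fun x => by rw [hTpow]; exact hV _ hmem' x
  exact addMonoidHom_eq_id_of_iterate hp hcard T n hT m

/-! ## KB-DEV -/

/-- **KB-DEV** from KB-DEV-B (Sylow) and KB-DEV-C (filtration). -/
theorem devissage_of (hB : DevSylowSpec) (hC : DevPGroupSpec) : DevissageSpec := by
  intro k Γ _ _ hk N μ p hp hcard hμ hU R hRfin hRp hRsm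
  haveI : Finite μ.V := Nat.finite_of_card_ne_zero (by rw [hcard]; exact hp.ne_zero)
  obtain ⟨V₁⟩ := (inferInstance : Nonempty N.Lvl)
  obtain ⟨V₀, -, hV₀⟩ := exists_lvl_actsTrivially N μ hμ V₁
  refine hB k Γ N p hp R hRfin hRp hRsm V₀ ?_
  intro U V hVU hVV₀ hVR hPg
  have hVμ : ActsTrivially V.W μ := fun w hw m => hV₀ w (hVV₀ hw) m
  refine hC k ↥U hk (N.restrict U) (Rep.res U.subtype μ) p hp hcard
    (fun u m => actsTrivially_of_isPGroup μ hp hcard U V.W hVμ hPg u m)
    (hU U ⟨V.W, V.mem, hVU⟩) (Rep.res U.subtype R) hRfin hRp ⟨V.restrict U, ?_, hPg⟩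
  intro w hw r
  exact hVR w.1 (Subgroup.mem_subgroupOf.1 hw) r

/-! ## KB-CD -/

/-- **KB-CD** from KB-KUM3 and KB-DEV. -/
theorem cd_of (hK : KummerH3Spec) (hD : DevissageSpec) : CdSpec := by
  intro k Γ _ _ hk N A p hp hA
  obtain ⟨hsm, hdiv, hcard, hU⟩ := hA
  refine hD k Γ hk N (tors A p) p hp hcard (isSmooth_tors N A p hsm) ?_
  intro U hUo
  exact hK k ↥U (N.restrict U) (Rep.res U.subtype A) p hp (isSmooth_res N A U hsm)
    (isDivisibleBy_res A p U hdiv) (hU U hUo).1 (hU U hUo).2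

/-- **KB-CD** from the three leaves KUM3, DEV-B, DEV-C. -/
theorem cd_of_leaves (hK : KummerH3Spec) (hB : DevSylowSpec) (hC : DevPGroupSpec) : CdSpec :=
  cd_of hK (devissage_of hB hC)

end Fermat.Agent.S55.KL.H593

end
-- ===== PACK-END S55/KL/DevCdGlueH593.lean

-- ===== PACK-BEGIN S55/Local/H724/Ramification.lean
section


/-!
# S55, layer L, piece LF7 : `RamificationStatement`   (helper724)

`theorem ramification724 : Fermat.Agent.S55.Local.RamificationStatement`.

The proof needs NO structure theory of the ring of integers (no LF0): the two uniformizer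
hypotheses `IsUnif` already contain all the valuation theory.  With `n = [L : K]`:

* `ϖK = u' * ϖL ^ e` in `Lˣ` with `u' ∈ U_L`, `e : ℤ`        (`IsUnif ϖL`),
* `N(ϖL) = u * ϖK ^ m` in `Kˣ` with `u ∈ U_K`, `m : ℤ`        (`IsUnif ϖK`),
* `ϖK ^ n = N(ϖK) = N(u') * N(ϖL) ^ e = N(u') * u ^ e * ϖK ^ (m * e)`, and `N(u') ∈ U_K`
  (norms of integral elements are integral), hence `ϖK ^ (n - m * e) ∈ U_K`, hence `n = m * e`
  because `ϖK` is an integral non-unit,
* `e ≥ 1` because otherwise `ϖK` would be a unit of the ring of integers of `L`, hence of `K`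
  (integrality over the base is intrinsic).

By-products (valid for ANY base `A → F`, no DVR hypotheses):
`isInt_algebraMap_iff724` (integrality is intrinsic), `isInt_norm724`,
`unitsIncl_mem_intUnits_iff724` (= LF3), `normUnits_mem_intUnits724` (= LF8),
`normUnits_unitsIncl724`, `zpow_mem_intUnits724`.
-/

set_option autoImplicit false

namespace Fermat.Agent.S55.Local.H724

open Fermat.Agent.S55.Local

section Basic

variable (A F : Type) [CommRing A] [Field F] [Algebra A F]
variable (K : Type) [Field K] [Algebra F K]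
variable (L : Type) [Field L] [Algebra F L] [Algebra K L] [IsScalarTower F K L]

/-- `toL A F L` factors through `K`. -/
lemma toL_eq_comp724 : toL A F L = (algebraMap K L).comp (toL A F K) := by
  ext a
  simp [toL, IsScalarTower.algebraMap_apply F K L]

/-- Integrality over the base is intrinsic: `y : K` is integral iff its image in `L` is. -/
lemma isInt_algebraMap_iff724 (y : K) :
    IsInt A F L (algebraMap K L y) ↔ IsInt A F K y := by
  unfold IsInt
  rw [toL_eq_comp724 A F K L]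
  constructor
  · rintro ⟨p, hp, h⟩
    refine ⟨p, hp, ?_⟩
    rw [← Polynomial.hom_eval₂] at h
    exact (map_eq_zero_iff _ (algebraMap K L).injective).mp h
  · rintro ⟨p, hp, h⟩
    refine ⟨p, hp, ?_⟩
    rw [← Polynomial.hom_eval₂, h, map_zero]

/-- Powers of integral elements are integral. -/
lemma isInt_pow724 {x : L} (hx : IsInt A F L x) (n : ℕ) : IsInt A F L (x ^ n) := by
  induction n with
  | zero => simpa using isInt_one A F L
  | succ k ih => rw [pow_succ]; exact ih.mul hx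

/-- The norm of an integral element is integral. -/
lemma isInt_norm724 {x : L} (hx : IsInt A F L x) :
    IsInt A F K (Algebra.norm K x) := by
  let _ : Algebra A K := (toL A F K).toAlgebra
  let _ : Algebra A L := (toL A F L).toAlgebra
  have : IsScalarTower A K L := IsScalarTower.of_algebraMap_eq (fun a => by
    show toL A F L a = algebraMap K L (toL A F K a)
    rw [toL_eq_comp724 A F K L]; rfl)
  exact Algebra.isIntegral_norm K (R := A) hx

/-- (= LF3, without any hypothesis on the base) `U_L ∩ Kˣ = U_K`. -/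
lemma unitsIncl_mem_intUnits_iff724 (y : Kˣ) :
    unitsIncl L K y ∈ intUnits A F L ↔ y ∈ intUnits A F K := by
  rw [mem_intUnits, mem_intUnits]
  have h1 : ((unitsIncl L K y : Lˣ) : L) = algebraMap K L (y : K) := rfl
  have h2 : (((unitsIncl L K y)⁻¹ : Lˣ) : L) = algebraMap K L ((y⁻¹ : Kˣ) : K) := by
    rw [← map_inv]; rfl
  rw [h1, h2, isInt_algebraMap_iff724, isInt_algebraMap_iff724]

/-- (= LF8, without any hypothesis on the base) norms of integral units are integral units. -/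
lemma normUnits_mem_intUnits724 {x : Lˣ} (hx : x ∈ intUnits A F L) :
    normUnits L K x ∈ intUnits A F K := by
  rw [mem_intUnits] at hx ⊢
  refine ⟨isInt_norm724 A F K L hx.1, ?_⟩
  have h : (((normUnits L K x)⁻¹ : Kˣ) : K) = Algebra.norm K (((x⁻¹ : Lˣ)) : L) := by
    rw [← map_inv]; rfl
  rw [h]
  exact isInt_norm724 A F K L hx.2

/-- The norm of an element of `K` is its `[L : K]`-th power. -/
lemma normUnits_unitsIncl724 (y : Kˣ) :
    normUnits L K (unitsIncl L K y) = y ^ Module.finrank K L := by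
  ext
  simp [Algebra.norm_algebraMap]

end Basic

section Unif

variable (A F : Type) [CommRing A] [Field F] [Algebra A F]
variable (K : Type) [Field K] [Algebra F K]

/-- A positive power of an integral non-unit is not a unit of the ring of integers. -/
lemma pow_not_mem_intUnits724 {ϖ : Kˣ} (h1 : IsInt A F K (ϖ : K)) (h2 : ϖ ∉ intUnits A F K)
    {n : ℕ} (hn : 0 < n) : ϖ ^ n ∉ intUnits A F K := by
  intro h
  apply h2
  rw [mem_intUnits]
  refine ⟨h1, ?_⟩
  obtain ⟨k, rfl⟩ : ∃ k, n = k + 1 := ⟨n - 1, by omega⟩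
  have e : (ϖ⁻¹ : Kˣ) = ϖ ^ k * (ϖ ^ (k + 1))⁻¹ := by
    rw [pow_succ, mul_inv_rev, mul_comm (ϖ⁻¹), ← mul_assoc, mul_inv_cancel, one_mul]
  rw [e, Units.val_mul, Units.val_pow_eq_pow_val]
  exact (isInt_pow724 A F K h1 k).mul ((mem_intUnits A F K).mp h).2

/-- If an integral power of an integral non-unit is a unit of the ring of integers, the
exponent is zero. -/
lemma zpow_mem_intUnits724 {ϖ : Kˣ} (h1 : IsInt A F K (ϖ : K)) (h2 : ϖ ∉ intUnits A F K)
    {j : ℤ} (hj : ϖ ^ j ∈ intUnits A F K) : j = 0 := by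
  by_contra hne
  rcases lt_or_gt_of_ne hne with hlt | hgt
  · have h := (intUnits A F K).inv_mem hj
    rw [← zpow_neg] at h
    obtain ⟨n, hn⟩ : ∃ n : ℕ, -j = (n : ℤ) := ⟨(-j).toNat, by omega⟩
    rw [hn, zpow_natCast] at h
    exact pow_not_mem_intUnits724 A F K h1 h2 (by omega) h
  · obtain ⟨n, hn⟩ : ∃ n : ℕ, j = (n : ℤ) := ⟨j.toNat, by omega⟩
    rw [hn, zpow_natCast] at hj
    exact pow_not_mem_intUnits724 A F K h1 h2 (by omega) hj

end Unif

/-- **LF7** (`RamificationStatement`): for uniformizers `ϖK`, `ϖL` of local fields `K ⊆ L` there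
are `e f : ℕ` with `e * f = [L : K]`, `ϖK ~ ϖL ^ e` and `N_{L/K}(ϖL) ~ ϖK ^ f`.
The proof uses only the two `IsUnif` hypotheses (no hypothesis on the base is needed). -/
theorem ramification_core724 (A F : Type) [CommRing A] [Field F] [Algebra A F]
    (K : Type) [Field K] [Algebra F K]
    (L : Type) [Field L] [Algebra F L] [Algebra K L] [IsScalarTower F K L]
    [FiniteDimensional K L] (ϖK : Kˣ) (ϖL : Lˣ)
    (hK : IsUnif A F K ϖK) (hL : IsUnif A F L ϖL) :
    ∃ e f : ℕ, e * f = Module.finrank K L ∧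
      unitsIncl L K ϖK * ϖL ^ (-(e : ℤ)) ∈ intUnits A F L ∧
      normUnits L K ϖL * ϖK ^ (-(f : ℤ)) ∈ intUnits A F K := by
  obtain ⟨hK1, hK2, hK3⟩ := hK
  obtain ⟨hL1, hL2, hL3⟩ := hL
  obtain ⟨e, he⟩ := hL3 (unitsIncl L K ϖK)
  obtain ⟨m, hm⟩ := hK3 (normUnits L K ϖL)
  have hnpos : 0 < Module.finrank K L := Module.finrank_pos
  -- the norm relation
  have hN := normUnits_mem_intUnits724 A F K L he
  rw [map_mul, map_zpow, normUnits_unitsIncl724] at hN
  have hme := (intUnits A F K).zpow_mem hm e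
  have hprod := (intUnits A F K).mul_mem hN hme
  have hcalc : ϖK ^ Module.finrank K L * normUnits L K ϖL ^ (-e) *
      (normUnits L K ϖL * ϖK ^ (-m)) ^ e = ϖK ^ ((Module.finrank K L : ℤ) - m * e) := by
    rw [mul_zpow, ← zpow_mul, sub_eq_add_neg, zpow_add, zpow_natCast, zpow_neg (normUnits L K ϖL),
      neg_mul]
    rw [mul_assoc, ← mul_assoc ((normUnits L K ϖL ^ e)⁻¹), inv_mul_cancel, one_mul]
  rw [hcalc] at hprod
  have hrel : (Module.finrank K L : ℤ) = m * e := by
    have := zpow_mem_intUnits724 A F K hK1 hK2 hprod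
    omega
  -- `e ≥ 1`
  have hepos : 0 < e := by
    by_contra hle
    have hle : e ≤ 0 := not_lt.mp hle
    apply hK2
    rw [← unitsIncl_mem_intUnits_iff724 A F K L, mem_intUnits]
    refine ⟨(isInt_algebraMap_iff724 A F K L _).mpr hK1, ?_⟩
    obtain ⟨k, hk⟩ : ∃ k : ℕ, -e = (k : ℤ) := ⟨(-e).toNat, by omega⟩
    have e1 : (unitsIncl L K ϖK)⁻¹ = (unitsIncl L K ϖK * ϖL ^ (-e))⁻¹ * ϖL ^ k := by
      rw [hk, zpow_natCast, mul_inv, mul_assoc, inv_mul_cancel, mul_one]
    rw [e1, Units.val_mul, Units.val_pow_eq_pow_val]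
    exact ((mem_intUnits A F L).mp he).2.mul (isInt_pow724 A F L hL1 k)
  have hmpos : 0 < m := by
    by_contra hle
    have hle : m ≤ 0 := not_lt.mp hle
    have : m * e ≤ 0 := mul_nonpos_of_nonpos_of_nonneg hle hepos.le
    omega
  refine ⟨e.toNat, m.toNat, ?_, ?_, ?_⟩
  · have : ((e.toNat * m.toNat : ℕ) : ℤ) = (Module.finrank K L : ℤ) := by
      rw [Nat.cast_mul, Int.toNat_of_nonneg hepos.le, Int.toNat_of_nonneg hmpos.le, hrel, mul_comm]
    exact_mod_cast this
  · rw [Int.toNat_of_nonneg hepos.le]; exact he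
  · rw [Int.toNat_of_nonneg hmpos.le]; exact hm

/-- **LF7** in the exact form of the frozen interface. -/
theorem ramification724 : RamificationStatement := by
  intro A F _ _ _ _ _ _ _ _ _ K _ _ _ L _ _ _ _ _ ϖK ϖL hK hL
  exact ramification_core724 A F K L ϖK ϖL hK hL

/-- **LF3** (`IntUnitsComapStatement`) in the exact form of the frozen interface (by-product). -/
theorem intUnitsComap724 : IntUnitsComapStatement := by
  intro A F _ _ _ _ _ _ _ _ _ K _ _ _ L _ _ _ _ _ y
  exact unitsIncl_mem_intUnits_iff724 A F K L y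

/-- **LF8** (`NormUnitsIntStatement`) in the exact form of the frozen interface (by-product). -/
theorem normUnitsInt724 : NormUnitsIntStatement := by
  intro A F _ _ _ _ _ _ _ _ _ K _ _ _ L _ _ _ _ _ x hx
  exact normUnits_mem_intUnits724 A F K L hx

end Fermat.Agent.S55.Local.H724

end
-- ===== PACK-END S55/Local/H724/Ramification.lean

-- ===== PACK-BEGIN S55/Local/H478/FiltH1.lean
section



/-!
# S55, layer L, piece A1 (helper478): successive approximation for 1-cocycles

`theorem filtH1 : Fermat.Agent.S55.Local.FiltH1Statement`.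
-/

set_option autoImplicit false

namespace Fermat.Agent.S55.Local.H478

open Finset groupCohomology

section H1

variable {G M : Type} [Group G] [CommGroup M] [MulDistribMulAction G M]

/-- The multiplicative coboundary map `m ↦ (g ↦ g • m / m)`. -/
def dZero (G M : Type) [Group G] [CommGroup M] [MulDistribMulAction G M] : M →* (G → M) where
  toFun m := fun g => g • m / m
  map_one' := by funext g; simp
  map_mul' a b := by
    funext g
    simp only [Pi.mul_apply, smul_mul']
    rw [mul_div_mul_comm]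

@[simp] lemma dZero_apply (m : M) (g : G) : dZero G M m g = g • m / m := rfl

/-- Functions with values in a subgroup, as a subgroup of the function group. -/
def piFil (X : Type) (H : Subgroup M) : Subgroup (X → M) where
  carrier := {c | ∀ x, c x ∈ H}
  one_mem' := fun _ => H.one_mem
  mul_mem' := fun ha hb x => H.mul_mem (ha x) (hb x)
  inv_mem' := fun ha x => H.inv_mem (ha x)

@[simp] lemma mem_piFil {X : Type} {H : Subgroup M} {c : X → M} :
    c ∈ piFil X H ↔ ∀ x, c x ∈ H := Iff.rfl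

/-- Pointwise completeness implies completeness of the function group. -/
lemma piFil_complete (X : Type) (Fil : ℕ → Subgroup M)
    (hcomplete : ∀ u : ℕ → M, (∀ j, u j ∈ Fil j) →
      ∃ s : M, ∀ n, s / ∏ j ∈ range n, u j ∈ Fil n)
    (u : ℕ → X → M) (hu : ∀ j, u j ∈ piFil X (Fil j)) :
    ∃ s : X → M, ∀ n, s / ∏ j ∈ range n, u j ∈ piFil X (Fil n) := by
  choose s hs using fun x => hcomplete (fun j => u j x) (fun j => hu j x)
  refine ⟨s, fun n x => ?_⟩
  simpa [Finset.prod_apply] using hs x n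

/-- Pointwise separatedness implies separatedness of the function group. -/
lemma piFil_separated (X : Type) (Fil : ℕ → Subgroup M)
    (hsep : ∀ x : M, (∀ j, x ∈ Fil j) → x = 1)
    (c : X → M) (hc : ∀ j, c ∈ piFil X (Fil j)) : c = 1 := by
  funext x
  exact hsep _ fun j => hc j x

/-- The subgroup of multiplicative 1-cocycles. -/
def mulCocycles₁ (G M : Type) [Group G] [CommGroup M] [MulDistribMulAction G M] :
    Subgroup (G → M) where
  carrier := {c | IsMulCocycle₁ c}
  one_mem' := by intro g h; simp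
  mul_mem' := by
    intro a b ha hb g h
    simp only [Pi.mul_apply, ha g h, hb g h, smul_mul']
    exact mul_mul_mul_comm _ _ _ _
  inv_mem' := by
    intro a ha g h
    simp only [Pi.inv_apply, ha g h, smul_inv', mul_inv]

@[simp] lemma mem_mulCocycles₁ {c : G → M} : c ∈ mulCocycles₁ G M ↔ IsMulCocycle₁ c := Iff.rfl

lemma dZero_mem_mulCocycles₁ (m : M) : dZero G M m ∈ mulCocycles₁ G M := by
  intro g h
  simp only [dZero_apply, smul_div', mul_smul]
  rw [div_mul_div_cancel]

end H1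

/-- **A1.** Successive approximation for 1-cocycles. -/
theorem filtH1 : Fermat.Agent.S55.Local.FiltH1Statement := by
  intro G M _ _ _ Fil _hanti hstab hcomplete hsep hgraded c hc hc0
  have key := approx_exists (dZero G M) Fil (fun j => piFil G (Fil j)) (mulCocycles₁ G M)
    (fun j m hm g => by
      simp only [dZero_apply]
      exact (Fil j).div_mem (hstab j g m hm) hm)
    (fun m => dZero_mem_mulCocycles₁ m)
    hcomplete
    (piFil_separated G Fil hsep)
    (fun j c' hc'Z hc'j => by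
      obtain ⟨m, hm, h⟩ := hgraded j c' hc'Z hc'j
      exact ⟨m, hm, fun g => by simpa using h g⟩)
    c hc hc0
  obtain ⟨m, hm, h⟩ := key
  exact ⟨m, hm, fun g => by rw [← h]; rfl⟩

end Fermat.Agent.S55.Local.H478

end
-- ===== PACK-END S55/Local/H478/FiltH1.lean

-- ===== PACK-BEGIN S55/Local/H593/CycCocycleA4a.lean
section


/-!
# S55, layer L, piece A4a: the standard cyclic 2-cocycle is a 2-cocycle

Deliverable: `Fermat.Agent.S55.Local.H593.cycCocycle_isMulCocycle₂ :
  Fermat.Agent.S55.Local.CycCocycleIsCocycleStatement`.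

Also exported (useful for A4b / A4c / A4d): basic API for the discrete logarithm `cycIdx`.
-/

set_option autoImplicit false

namespace Fermat.Agent.S55.Local.H593

open groupCohomology Fermat.Agent.S55.Local

section Idx

variable {G : Type} [Group G]

/-- If `g` is a power of `σ` (natural exponent), then `σ ^ cycIdx σ g = g`. -/
lemma pow_cycIdx_of_exists {σ g : G} (h : ∃ k : ℕ, σ ^ k = g) : σ ^ cycIdx σ g = g :=
  Nat.sInf_mem (s := {k : ℕ | σ ^ k = g}) h

/-- `cycIdx σ g` is the least exponent. -/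
lemma cycIdx_le {σ g : G} {k : ℕ} (h : σ ^ k = g) : cycIdx σ g ≤ k :=
  Nat.sInf_le (s := {k : ℕ | σ ^ k = g}) h

variable [Finite G]

/-- In a finite group, every element of `zpowers σ` is a natural power of `σ`. -/
lemma exists_pow_eq_of_mem_zpowers {σ g : G} (hg : g ∈ Subgroup.zpowers σ) :
    ∃ k : ℕ, σ ^ k = g := by
  have h := (mem_powers_iff_mem_zpowers (x := σ) (y := g)).2 hg
  exact Submonoid.mem_powers_iff _ _ |>.1 h

omit [Finite G] in
/-- If `σ` generates the group `G`, then `orderOf σ = Nat.card G`. -/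
lemma orderOf_eq_card_of_gen {σ : G} (hσ : ∀ g, g ∈ Subgroup.zpowers σ) :
    orderOf σ = Nat.card G :=
  orderOf_eq_card_of_forall_mem_zpowers hσ

lemma pow_cycIdx {σ : G} (hσ : ∀ g, g ∈ Subgroup.zpowers σ) (g : G) : σ ^ cycIdx σ g = g :=
  pow_cycIdx_of_exists (exists_pow_eq_of_mem_zpowers (hσ g))

lemma cycIdx_lt_card {σ : G} (hσ : ∀ g, g ∈ Subgroup.zpowers σ) (g : G) :
    cycIdx σ g < Nat.card G := by
  have hn : 0 < orderOf σ := orderOf_pos σ
  have h1 : σ ^ (cycIdx σ g % orderOf σ) = g := by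
    rw [pow_mod_orderOf, pow_cycIdx hσ g]
  have h2 : cycIdx σ g ≤ cycIdx σ g % orderOf σ := cycIdx_le h1
  have h3 : cycIdx σ g % orderOf σ < orderOf σ := Nat.mod_lt _ hn
  rw [← orderOf_eq_card_of_gen hσ]
  omega

/-- The discrete logarithm of `σ ^ k` is `k % n`. -/
lemma cycIdx_pow {σ : G} (hσ : ∀ g, g ∈ Subgroup.zpowers σ) (k : ℕ) :
    cycIdx σ (σ ^ k) = k % Nat.card G := by
  have hn : orderOf σ = Nat.card G := orderOf_eq_card_of_gen hσ
  have h1 : σ ^ cycIdx σ (σ ^ k) = σ ^ k := pow_cycIdx hσ _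
  have h2 := (pow_eq_pow_iff_modEq (x := σ)).1 h1
  rw [hn] at h2
  have h3 : cycIdx σ (σ ^ k) < Nat.card G := cycIdx_lt_card hσ _
  have h4 : cycIdx σ (σ ^ k) % Nat.card G = k % Nat.card G := h2
  rw [Nat.mod_eq_of_lt h3] at h4
  exact h4

/-- Additivity of the discrete logarithm modulo `n`. -/
lemma cycIdx_mul {σ : G} (hσ : ∀ g, g ∈ Subgroup.zpowers σ) (g h : G) :
    cycIdx σ (g * h) = (cycIdx σ g + cycIdx σ h) % Nat.card G := by
  have : g * h = σ ^ (cycIdx σ g + cycIdx σ h) := by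
    rw [pow_add, pow_cycIdx hσ g, pow_cycIdx hσ h]
  rw [this, cycIdx_pow hσ]

omit [Finite G] in
lemma cycIdx_one (σ : G) : cycIdx σ (1 : G) = 0 := by
  have h : σ ^ 0 = (1 : G) := pow_zero σ
  exact Nat.le_zero.1 (cycIdx_le h)

/-- The carry formula: `i(g) + i(h) = i(gh) + n * ⌊(i(g) + i(h)) / n⌋`. -/
lemma cycIdx_add_eq {σ : G} (hσ : ∀ g, g ∈ Subgroup.zpowers σ) (g h : G) :
    cycIdx σ g + cycIdx σ h =
      cycIdx σ (g * h) + Nat.card G * ((cycIdx σ g + cycIdx σ h) / Nat.card G) := by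
  rw [cycIdx_mul hσ]
  exact (Nat.mod_add_div _ _).symm

end Idx

section Action

variable {G M : Type} [Group G] [CommGroup M] [MulDistribMulAction G M]

/-- An element fixed by a generator is fixed by the whole group. -/
lemma smul_eq_of_gen {σ : G} (hσ : ∀ g, g ∈ Subgroup.zpowers σ) {x : M} (hx : σ • x = x)
    (g : G) : g • x = x := by
  have hmem : g ∈ MulAction.stabilizer G x := by
    have hle : Subgroup.zpowers σ ≤ MulAction.stabilizer G x := by
      rw [Subgroup.zpowers_le]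
      exact hx
    exact hle (hσ g)
  exact hmem

end Action

/-- A purely arithmetic identity behind the cocycle condition. -/
lemma carry_identity (n a b c : ℕ) :
    ((a + b) % n + c) / n + (a + b) / n = (b + c) / n + (a + (b + c) % n) / n := by
  rcases Nat.eq_zero_or_pos n with rfl | hn
  · simp
  · have h1 : ((a + b) % n + c) / n + (a + b) / n = (a + b + c) / n := by
      have : a + b + c = ((a + b) % n + c) + n * ((a + b) / n) := by
        have := Nat.mod_add_div (a + b) n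
        omega
      rw [this, Nat.add_mul_div_left _ _ hn]
    have h2 : (b + c) / n + (a + (b + c) % n) / n = (a + b + c) / n := by
      have : a + b + c = (a + (b + c) % n) + n * ((b + c) / n) := by
        have := Nat.mod_add_div (b + c) n
        omega
      rw [this, Nat.add_mul_div_left _ _ hn]
      ring
    rw [h1, h2]

/-- **(A4a)** The standard cyclic 2-cocycle is a 2-cocycle. -/
theorem cycCocycle_isMulCocycle₂ : CycCocycleIsCocycleStatement := by
  intro G M _ _ _ _ σ hσ x hx g h j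
  have hfix : ∀ (g : G) (k : ℕ), g • (x ^ k) = x ^ k := by
    intro g k
    rw [smul_pow', smul_eq_of_gen hσ hx g]
  simp only [cycCocycle]
  rw [hfix, ← pow_add, ← pow_add, cycIdx_mul hσ g h, cycIdx_mul hσ h j]
  congr 1
  exact carry_identity (Nat.card G) (cycIdx σ g) (cycIdx σ h) (cycIdx σ j)

end Fermat.Agent.S55.Local.H593

end
-- ===== PACK-END S55/Local/H593/CycCocycleA4a.lean

-- ===== PACK-BEGIN S55/Local/H542/CycPullback.lean
section
/-
S55, layer L, piece A4d (helper542): functoriality of the standard cyclic 2-cocycle under an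
injective homomorphism of finite cyclic groups.

  theorem cycCocyclePullback : Fermat.Agent.S55.Local.CycCocyclePullbackStatement
-/


set_option autoImplicit false

namespace Fermat.Agent.S55.Local.H542

open Fermat.Agent.S55.Local

/-- `cycIdx σ (σ ^ k) = k` for `k < orderOf σ`. -/
theorem cycIdx_pow_of_lt {G : Type} [Group G] (σ : G) {k : ℕ} (hk : k < orderOf σ) :
    cycIdx σ (σ ^ k) = k := by
  unfold cycIdx
  apply le_antisymm
  · exact Nat.sInf_le (by simp)
  · apply le_csInf ⟨k, by simp⟩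
    intro m hm
    by_contra hlt
    push Not at hlt
    have hm' : σ ^ m = σ ^ k := hm
    have hmo : m < orderOf σ := lt_trans hlt hk
    exact hlt.ne (pow_injOn_Iio_orderOf (by simpa using hmo) (by simpa using hk) hm')

/-- Every element of a finite cyclic group generated by `σ` is `σ ^ k` with `k < orderOf σ`,
and then `cycIdx σ g = k`. -/
theorem exists_pow_eq_of_generator {G : Type} [Group G] [Finite G] (σ : G)
    (hσ : ∀ g, g ∈ Subgroup.zpowers σ) (g : G) :
    ∃ k : ℕ, k < orderOf σ ∧ σ ^ k = g := by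
  have hg := hσ g
  rw [← mem_powers_iff_mem_zpowers] at hg
  obtain ⟨m, hm⟩ := hg
  refine ⟨m % orderOf σ, Nat.mod_lt _ (orderOf_pos σ), ?_⟩
  rw [pow_mod_orderOf]
  exact hm

theorem orderOf_eq_card_of_generator {G : Type} [Group G] [Finite G] (σ : G)
    (hσ : ∀ g, g ∈ Subgroup.zpowers σ) : orderOf σ = Nat.card G :=
  orderOf_eq_card_of_forall_mem_zpowers hσ

/-- **A4d.** -/
theorem cycCocyclePullback : CycCocyclePullbackStatement := by
  intro G H M _ _ _ _ _ σ τ ρ hσ hτ hρ hρτ x p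
  have hoσ : orderOf σ = Nat.card G := orderOf_eq_card_of_generator σ hσ
  have hoτ : orderOf τ = Nat.card H := orderOf_eq_card_of_generator τ hτ
  have hGpos : 0 < Nat.card G := Nat.card_pos
  have hHpos : 0 < Nat.card H := Nat.card_pos
  -- `|H|` divides `|G|`
  have hdvd : Nat.card H ∣ Nat.card G := by
    have h1 : Nat.card H = Nat.card ρ.range :=
      Nat.card_congr (MonoidHom.ofInjective hρ).toEquiv
    rw [h1]
    exact Subgroup.card_subgroup_dvd_card ρ.range
  obtain ⟨d, hd⟩ := hdvd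
  have hdpos : 0 < d := by
    rcases Nat.eq_zero_or_pos d with h0 | h0
    · rw [h0, Nat.mul_zero] at hd; omega
    · exact h0
  have hdiv : Nat.card G / Nat.card H = d := by
    rw [hd, Nat.mul_div_cancel_left d hHpos]
  -- index computation
  have key : ∀ a : H, cycIdx σ (ρ a) = d * cycIdx τ a := by
    intro a
    obtain ⟨i, hi, rfl⟩ := exists_pow_eq_of_generator τ hτ a
    rw [cycIdx_pow_of_lt τ hi, map_pow, hρτ, hdiv, ← pow_mul]
    apply cycIdx_pow_of_lt
    rw [hoσ, hd, Nat.mul_comm (Nat.card H) d]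
    rw [hoτ] at hi
    exact Nat.mul_lt_mul_of_pos_left hi hdpos
  unfold cycCocycle
  simp only
  rw [key p.1, key p.2, ← Nat.mul_add, hd, Nat.mul_comm (Nat.card H) d,
    Nat.mul_div_mul_left _ _ hdpos]

end Fermat.Agent.S55.Local.H542

end
-- ===== PACK-END S55/Local/H542/CycPullback.lean

-- ===== PACK-BEGIN S55/H954/Devissage.lean
section



/-!
# Dévissage along a normal subgroup (degrees 1 and 2)

`A : Rep k G`, `N ⊴ G`.

* `H1_eq_zero_of_normal`: `H¹(N, A) = 0` and `H¹(G ⧸ N, A^N) = 0` imply `H¹(G, A) = 0`.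
* `card_H2_dvd_of_normal`: if moreover `H²(N, A)` and `H²(G ⧸ N, A^N)` are finite, then `H²(G, A)`
  is finite and `|H²(G, A)|` divides `|H²(G ⧸ N, A^N)| * |H²(N, A)|`.

These are the induction steps in the proof that a module whose prime-degree cyclic subquotients
satisfy `H¹ = 0`, `|H²| ∣ p` satisfies `H¹ = 0`, `|H²| ∣ |G|` (local and global class field theory).
-/

set_option autoImplicit false
set_option linter.unusedSectionVars false
set_option linter.style.haveILetI false

namespace Fermat.Agent.S55.H954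

open CategoryTheory groupCohomology Rep

section Counting

variable {X₁ X₂ X₃ : Type*} [AddCommGroup X₁] [AddCommGroup X₂] [AddCommGroup X₃]

/-- Counting in a left exact sequence `0 → X₁ → X₂ → X₃` of abelian groups. -/
theorem finite_and_card_dvd_of_exact (f : X₁ →+ X₂) (g : X₂ →+ X₃)
    (hf : Function.Injective f) (hex : ∀ x, g x = 0 → ∃ y, f y = x)
    [Finite X₁] [Finite X₃] :
    Finite X₂ ∧ Nat.card X₂ ∣ Nat.card X₁ * Nat.card X₃ := by
  have hker : g.ker ≤ f.range := fun x hx => by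
    obtain ⟨y, hy⟩ := hex x (AddMonoidHom.mem_ker.1 hx)
    exact ⟨y, hy⟩
  haveI hfr : Finite f.range := Finite.of_surjective (fun y : X₁ => (⟨f y, y, rfl⟩ : f.range))
    (fun ⟨_, y, rfl⟩ => ⟨y, rfl⟩)
  haveI : Finite g.ker := Finite.of_injective (fun x : g.ker => (⟨x.1, hker x.2⟩ : f.range))
    (fun a b h => Subtype.ext (by simpa using congrArg Subtype.val h))
  haveI : Finite g.range := inferInstance
  have e := QuotientAddGroup.quotientKerEquivRange g
  haveI : Finite (X₂ ⧸ g.ker) := Finite.of_equiv _ e.symm.toEquiv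
  haveI hX₂ : Finite X₂ := by
    have := AddSubgroup.card_eq_card_quotient_mul_card_addSubgroup g.ker
    refine Nat.finite_of_card_ne_zero ?_
    rw [this]
    exact Nat.mul_ne_zero Nat.card_pos.ne' Nat.card_pos.ne'
  refine ⟨hX₂, ?_⟩
  rw [AddSubgroup.card_eq_card_quotient_mul_card_addSubgroup g.ker, mul_comm]
  refine Nat.mul_dvd_mul ?_ ?_
  · -- `|ker g| ∣ |X₁|`: `ker g` is a subgroup of `range f ≅ X₁`
    have h1 : Nat.card g.ker ∣ Nat.card f.range := by
      have := AddSubgroup.card_dvd_of_le hker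
      simpa using this
    have h2 : Nat.card f.range = Nat.card X₁ :=
      (Nat.card_congr (AddMonoidHom.ofInjective hf).toEquiv).symm
    rwa [h2] at h1
  · rw [Nat.card_congr e.toEquiv]
    exact AddSubgroup.card_addSubgroup_dvd_card g.range

end Counting

universe u

variable {k G : Type u} [CommRing k] [Group G] (A : Rep k G) (N : Subgroup G) [N.Normal]

/-- Dévissage for `H¹`: if `H¹(N, A) = 0` and `H¹(G ⧸ N, A^N) = 0` then `H¹(G, A) = 0`. -/
theorem H1_eq_zero_of_normal (hN : ∀ x : H1 (res N.subtype A), x = 0)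
    (hQ : ∀ x : H1 (A.quotientToInvariants N), x = 0) (x : H1 A) : x = 0 := by
  have hex := H1InfRes_exact A N
  rw [ShortComplex.moduleCat_exact_iff_ker_sub_range] at hex
  obtain ⟨y, hy⟩ := hex (LinearMap.mem_ker.2 (hN ((H1InfRes A N).g.hom x)))
  have hy0 : y = 0 := hQ y
  rw [← hy, hy0]
  exact map_zero (H1InfRes A N).f.hom

/-- Dévissage for `H²`: if `H¹(N, A) = 0` and `H²(N, A)`, `H²(G ⧸ N, A^N)` are finite, then
`H²(G, A)` is finite and its order divides `|H²(G ⧸ N, A^N)| * |H²(N, A)|`. -/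
theorem card_H2_dvd_of_normal (hN : ∀ x : H1 (res N.subtype A), x = 0)
    [Finite (H2 (res N.subtype A))] [Finite (H2 (A.quotientToInvariants N))] :
    Finite (H2 A) ∧
      Nat.card (H2 A) ∣ Nat.card (H2 (A.quotientToInvariants N)) * Nat.card (H2 (res N.subtype A)) :=
  finite_and_card_dvd_of_exact
    (X₁ := H2 (A.quotientToInvariants N)) (X₂ := H2 A) (X₃ := H2 (res N.subtype A))
    (H2InfRes A N).f.hom.toAddMonoidHom (H2InfRes A N).g.hom.toAddMonoidHom
    (inf_injective A N hN)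
    (fun x hx => exists_inf_eq_of_res_eq_zero A N hN x hx)

/-- Combined form with explicit bounds. -/
theorem H2_card_dvd_mul_of_normal (hN : ∀ x : H1 (res N.subtype A), x = 0) {a b : ℕ}
    (hfN : Finite (H2 (res N.subtype A))) (hfQ : Finite (H2 (A.quotientToInvariants N)))
    (ha : Nat.card (H2 (res N.subtype A)) ∣ a)
    (hb : Nat.card (H2 (A.quotientToInvariants N)) ∣ b) :
    Finite (H2 A) ∧ Nat.card (H2 A) ∣ b * a := by
  obtain ⟨h1, h2⟩ := card_H2_dvd_of_normal A N hN
  exact ⟨h1, h2.trans (Nat.mul_dvd_mul hb ha)⟩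

end Fermat.Agent.S55.H954

end
-- ===== PACK-END S55/H954/Devissage.lean

-- ===== PACK-BEGIN S55/T/InfRes2H954.lean
section



/-!
# T3: inflation–restriction in degree 2 — `InfRes2Spec` (helper954)
-/

set_option autoImplicit false

namespace Fermat.Agent.S55.T.H954

open CategoryTheory groupCohomology Fermat.Agent.S55.H954

/-- **T3** (`InfRes2Spec`), unconditional. -/
theorem infRes2 : InfRes2Spec := by
  intro k G _ _ _ A S _ hz
  have h : ∀ x : H1 (Rep.res S.subtype A), x = 0 := fun x =>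
    (ModuleCat.isZero_iff_subsingleton.1 hz).elim x 0
  refine ⟨inf_injective A S h, fun y => ?_, fun x hx => exists_inf_eq_of_res_eq_zero A S h x hx⟩
  have := (H2InfRes A S).zero
  exact congr($this y)

end Fermat.Agent.S55.T.H954

end
-- ===== PACK-END S55/T/InfRes2H954.lean

-- ===== PACK-BEGIN S55/T/RecipH539.lean
section


/-!
# S55, layer T, leaves T5a' (`H1TrivIntSpec`) and T5c (`TateReciprocitySpec`)

* `h1TrivInt : H1TrivIntSpec` (unconditional): `H¹(G, ℤ) = 0` for finite `G`.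
* `tateNegTwoEquivAb`: `Ĥ⁻²(G, ℤ) ≃+ G^ab`.
* `tateReciprocity_of (h : TateSpec) : TateReciprocitySpec`.
-/

set_option autoImplicit false

namespace Fermat.Agent.S55.T.H539

open CategoryTheory groupCohomology groupHomology

/-- **T5a'.**  `H¹(G, ℤ) = 0` for a finite group `G`. -/
theorem h1TrivInt : H1TrivIntSpec := by
  intro G _ _
  have hsub : Subsingleton (Additive G →+ ℤ) := by
    refine ⟨fun f g => ?_⟩
    have key : ∀ f : Additive G →+ ℤ, f = 0 := by
      intro f
      refine AddMonoidHom.ext fun x => ?_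
      have hx : Nat.card G • x = 0 :=
        card_nsmul_eq_zero' (G := Additive G) (x := x)
      have h3 : Nat.card G • f x = 0 := by rw [← map_nsmul, hx, map_zero]
      have hpos : Nat.card G ≠ 0 := Nat.card_pos.ne'
      simpa [hpos] using h3
    rw [key f, key g]
  have e := (H1IsoOfIsTrivial (Rep.trivial ℤ G ℤ)).toLinearEquiv
  have : Subsingleton (groupCohomology (Rep.trivial ℤ G ℤ) 1) := e.toEquiv.subsingleton
  exact ModuleCat.isZero_of_subsingleton _

/-- `Ĥ⁻²(G, ℤ) ≃+ G^ab`. -/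
noncomputable def tateNegTwoEquivAb (G : Type) [Group G] [Fintype G] :
    tateCohomology (Rep.trivial ℤ G ℤ) (-2) ≃+ Additive (Abelianization G) :=
  ((moduleIsoToAddEquiv ((TateCohomology.isoGroupHomology (R := ℤ) (G := G) (-2) 1
      (by norm_num)).app (Rep.trivial ℤ G ℤ))).trans
    (H1AddEquivOfIsTrivial (Rep.trivial ℤ G ℤ))).trans
    (TensorProduct.rid ℤ (Additive (Abelianization G))).toAddEquiv

/-- **T5c.**  Abstract reciprocity isomorphism `H^ab ≃ C^H / N_H C` of a class module, from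
Tate's theorem. -/
theorem tateReciprocity_of (h : TateSpec) : TateReciprocitySpec := by
  intro G _ _ C γ hC H _
  obtain ⟨e⟩ := h ℤ G C γ (fun K => h1TrivInt K) hC H (-2)
  have e' : tateCohomology (Rep.trivial ℤ H ℤ) (-2) ≅ tateCohomology (resSub C H) 0 := e
  exact ⟨(tateNegTwoEquivAb H).symm.trans
    ((moduleIsoToAddEquiv e').trans (tateZeroAddEquivHat0 (resSub C H)))⟩

end Fermat.Agent.S55.T.H539

end
-- ===== PACK-END S55/T/RecipH539.lean

-- ===== PACK-BEGIN S55/T/Spec3.lean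
section


/-!
# S55, layer T: interface additions (v3) — Shapiro in explicit form, products / sums,
permutation modules.  Nothing in `Spec.lean`, `Spec2.lean` changes.  (Besides definitions and `Prop`-valued specs this
file contains one auxiliary lemma, `permCoeffLin_single`, and the equivariance proof inside
`permCoeff`.)

These are the statements needed to compute the cohomology of semi-local modules
(`∏_{w | v} L_wˣ ≅ Coind`, `Div^S = ℤ[primes]`) through the NATURAL localisation maps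
(restriction to the decomposition group followed by projection to one factor).
-/

set_option autoImplicit false

open CategoryTheory groupCohomology

namespace Fermat.Agent.S55.T

/-- Evaluation at `1`: the `S`-equivariant map `Res_S Coind_S^G A ⟶ A`
(counit of Mathlib's adjunction `Res ⊣ Coind`). -/
noncomputable abbrev coindEv {k G : Type} [CommRing k] [Group G] (S : Subgroup G)
    (A : Rep.{0} k S) : Rep.res S.subtype (Rep.coind S.subtype A) ⟶ A :=
  (Rep.resCoindAdjunction k S.subtype).counit.app A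

/-- **T8.**  Shapiro's lemma in explicit form: the composite
`Hⁿ(G, Coind_S^G A) --res--> Hⁿ(S, Coind_S^G A) --ev₁--> Hⁿ(S, A)` is bijective. -/
def ShapiroExplicitSpec : Prop :=
  ∀ (k G : Type) [CommRing k] [Group G] (S : Subgroup G) (A : Rep.{0} k S) (n : ℕ),
    Function.Bijective (groupCohomology.map S.subtype (coindEv S A) n).hom

/-- **T8'.**  Shapiro, recognition form: if `B : Rep k G` and `π : Res_S B ⟶ A` are such that
`b ↦ (g ↦ π (g • b))` is a bijection from `B` onto `Coind_S^G A`, then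
`Hⁿ(G, B) --res--> Hⁿ(S, B) --π--> Hⁿ(S, A)` is bijective. -/
def ShapiroRecognitionSpec : Prop :=
  ∀ (k G : Type) [CommRing k] [Group G] (S : Subgroup G) (A : Rep.{0} k S) (B : Rep.{0} k G)
    (π : Rep.res S.subtype B ⟶ A),
    (∀ f : G → A.V, (∀ (s : S) (g : G), f (s * g) = A.ρ s (f g)) →
      ∃! b : B.V, ∀ g : G, π.hom (B.ρ g b) = f g) →
    ∀ n : ℕ, Function.Bijective (groupCohomology.map S.subtype π n).hom

/-- **T9a.**  Finite products: if `C.V → ∏ᵢ (A i).V` (components `p i`) is bijective, `ι` finite,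
then `Hⁿ(G, C) → ∏ᵢ Hⁿ(G, A i)` is bijective. -/
def FiniteProdSpec : Prop :=
  ∀ (k G : Type) [CommRing k] [Group G] (ι : Type) [Finite ι] (A : ι → Rep.{0} k G)
    (C : Rep.{0} k G) (p : ∀ i, C ⟶ A i),
    Function.Bijective (fun (c : C.V) (i : ι) => (p i).hom c) →
    ∀ n : ℕ, Function.Bijective
      (fun (x : groupCohomology C n) (i : ι) => (coeffMap (p i) n).hom x)

/-- **T9b.**  Direct sums over a finite group: if `C` is the internal direct sum of the images of
the injective morphisms `inc i : A i ⟶ C` (`ι` arbitrary), then `Hⁿ(G, C)` is the internal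
direct sum of the `Hⁿ(G, A i)`: every class is a finite sum of classes coming from the `A i`,
and a family of classes `x i` (almost all zero) with `∑ᵢ inc_i(x i) = 0` vanishes. -/
def DirectSumSpec : Prop :=
  ∀ (k G : Type) [CommRing k] [Group G] [Finite G] (ι : Type) [DecidableEq ι]
    (A : ι → Rep.{0} k G) (C : Rep.{0} k G) (inc : ∀ i, A i ⟶ C),
    Function.Bijective
      (DirectSum.toModule k ι C.V (fun i => (inc i).hom.toLinearMap)) →
    ∀ n : ℕ, Function.Bijective
      (DirectSum.toModule k ι (groupCohomology C n) (fun i => (coeffMap (inc i) n).hom))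

/-- The coefficient-at-`x` linear map `k[X] → k`. -/
noncomputable def permCoeffLin (k : Type) [CommRing k] (X : Type) (x : X) :
    MonoidAlgebra k X →ₗ[k] k :=
  Finsupp.lapply x ∘ₗ (MonoidAlgebra.coeffLinearEquiv k).toLinearMap

lemma permCoeffLin_single (k : Type) [CommRing k] (X : Type) [DecidableEq X] (x y : X) (r : k) :
    permCoeffLin k X x (MonoidAlgebra.single y r) = if y = x then r else 0 := by
  simp [permCoeffLin, Finsupp.single_apply]

/-- The coefficient-at-`x` map `k[X] → k`, equivariant for the stabiliser of `x`. -/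
noncomputable def permCoeff {k G : Type} [CommRing k] [Group G] (X : Type) [MulAction G X]
    (x : X) :
    Rep.res (MulAction.stabilizer G x).subtype (Rep.ofMulAction k G X) ⟶
      Rep.trivial k (MulAction.stabilizer G x) k :=
  Rep.ofHom
    { toLinearMap := permCoeffLin k X x
      isIntertwining' := fun s => by
        classical
        refine MonoidAlgebra.lhom_ext' fun y => LinearMap.ext_ring ?_
        have hs : (s : G) • x = x := MulAction.mem_stabilizer_iff.1 s.2
        have key : ((s : G) • y = x) ↔ (y = x) := by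
          constructor
          · intro h
            have := congrArg (fun z => (s : G)⁻¹ • z) h
            simp only [inv_smul_smul] at this
            rw [this, inv_smul_eq_iff, hs]
          · intro h; rw [h, hs]
        simp [permCoeffLin_single, key] }

/-- The localisation map `Hⁿ(G, k[X]) ⟶ Hⁿ(G_x, k)` at a point `x : X`. -/
noncomputable abbrev permLoc {k G : Type} [CommRing k] [Group G] (X : Type) [MulAction G X]
    (x : X) (n : ℕ) :
    groupCohomology (Rep.ofMulAction k G X) n ⟶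
      groupCohomology (Rep.trivial k (MulAction.stabilizer G x) k) n :=
  groupCohomology.map (MulAction.stabilizer G x).subtype (permCoeff X x) n

/-- **T10.**  Permutation modules over a finite group (`X` possibly infinite): a class in
`Hⁿ(G, k[X])` vanishes iff all its localisations vanish; every family of local classes supported
on finitely many orbits, one point per orbit, is the localisation of a global class. -/
def PermSpec : Prop :=
  ∀ (k G : Type) [CommRing k] [Group G] [Finite G] (X : Type) [MulAction G X] (n : ℕ),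
    (∀ c : groupCohomology (Rep.ofMulAction k G X) n,
      (∀ x : X, (permLoc X x n).hom c = 0) → c = 0) ∧
    (∀ (x : X) (y : groupCohomology (Rep.trivial k (MulAction.stabilizer G x) k) n),
      ∃ c : groupCohomology (Rep.ofMulAction k G X) n,
        (permLoc X x n).hom c = y ∧
        ∀ x' : X, x' ∉ MulAction.orbit G x → (permLoc X x' n).hom c = 0)

/-- **T10'.**  `H¹(G, ℤ[X]) = 0` for a finite group `G`. -/
def PermH1Spec : Prop :=
  ∀ (G : Type) [Group G] [Finite G] (X : Type) [MulAction G X],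
    Limits.IsZero (groupCohomology (Rep.ofMulAction ℤ G X) 1)

end Fermat.Agent.S55.T

end
-- ===== PACK-END S55/T/Spec3.lean

-- ===== PACK-BEGIN S55/H424/FinH1Core.lean
section


/-!
# Finiteness of level-constant `H¹` from Kummer theory (abstract core of `FIN-loc`)

`k₀` a field of characteristic zero with algebraic closure `Ω`, `G = Gal(Ω/k₀)`, such that
`Eˣ / (Eˣ)^p` is finite for every finite `E / k₀` inside `Ω`.  Let `N` be an `𝔽_p[G]`-module on
which `Gal(Ω/E₀)` acts trivially for some finite `E₀`.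

* `cocycle_right_invariant_of_kummer` : there is ONE finite `E₁ ⊇ E₀` such that every
  level-constant 1-cocycle `G → N` is right-invariant under `Gal(Ω/E₁)`.
* `finiteDimensional_of_kummer` : if moreover `N` is finite-dimensional, any submodule of
  level-constant 1-cocycles is finite-dimensional.
-/

set_option autoImplicit false
set_option linter.unusedSectionVars false
set_option linter.style.haveILetI false

namespace Fermat.Agent.S55.H424

open groupCohomology

section Abstract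

/-- A space of functions `G → N` which are right-invariant under a subgroup of finite index
is finite-dimensional. -/
theorem finite_of_right_invariant {k G N : Type*} [Field k] [Group G] [AddCommGroup N]
    [Module k N] [FiniteDimensional k N] (W : Subgroup G) [W.FiniteIndex]
    (C : Submodule k (G → N)) (hC : ∀ c ∈ C, ∀ g : G, ∀ s ∈ W, c (g * s) = c g) :
    FiniteDimensional k C := by
  classical
  haveI : Finite (G ⧸ W) := Subgroup.finite_quotient_of_finiteIndex
  let Φ : C →ₗ[k] (G ⧸ W → N) :=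
    { toFun := fun c x => (c : G → N) (Quotient.out x)
      map_add' := fun c c' => rfl
      map_smul' := fun a c => rfl }
  have hΦ : Function.Injective Φ := by
    rw [injective_iff_map_eq_zero]
    intro c hc
    apply Subtype.ext
    funext g
    obtain ⟨h, hh⟩ := QuotientGroup.mk_out_eq_mul W g
    have h1 : (c : G → N) (Quotient.out (QuotientGroup.mk g : G ⧸ W)) = 0 :=
      congrFun hc (QuotientGroup.mk g)
    rw [hh, hC c c.2 g h h.2] at h1
    exact h1
  exact Module.Finite.of_injective Φ hΦ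

/-- The Galois group of `Ω` over a finite subextension has finite index. -/
theorem fixingSubgroup_finiteIndex {k₀ Ω : Type*} [Field k₀] [Field Ω] [Algebra k₀ Ω]
    [Normal k₀ Ω] (E : IntermediateField k₀ Ω) [FiniteDimensional k₀ E] :
    E.fixingSubgroup.FiniteIndex := by
  let M : IntermediateField k₀ Ω := IntermediateField.normalClosure k₀ E Ω
  haveI : FiniteDimensional k₀ M := normalClosure.is_finiteDimensional k₀ E Ω
  haveI : Normal k₀ M := normalClosure.normal k₀ E Ω
  haveI : Finite (M ≃ₐ[k₀] M) := inferInstance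
  haveI : (AlgEquiv.restrictNormalHom (F := k₀) (K₁ := Ω) M).ker.FiniteIndex :=
    Subgroup.finiteIndex_ker _
  refine Subgroup.finiteIndex_of_le (H := (AlgEquiv.restrictNormalHom (F := k₀) (K₁ := Ω) M).ker) ?_
  rw [IntermediateField.restrictNormalHom_ker]
  exact IntermediateField.fixingSubgroup_le (IntermediateField.le_normalClosure E)

end Abstract

section Kummer

variable {k₀ Ω : Type} [Field k₀] [Field Ω] [Algebra k₀ Ω] [CharZero k₀] [IsAlgClosure k₀ Ω]

theorem cocycle_right_invariant_of_kummer (p : ℕ) [Fact p.Prime]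
    (hLPI : ∀ E : IntermediateField k₀ Ω, FiniteDimensional k₀ E →
      (powMonoidHom p : (↥E)ˣ →* (↥E)ˣ).range.index ≠ 0)
    (N : Rep.{0, 0, 0} (ZMod p) (Ω ≃ₐ[k₀] Ω))
    (E₀ : IntermediateField k₀ Ω) [FiniteDimensional k₀ E₀]
    (hN : ∀ s ∈ E₀.fixingSubgroup, ∀ a : N, N.ρ s a = a) :
    ∃ E₁ : IntermediateField k₀ Ω, FiniteDimensional k₀ E₁ ∧ E₀ ≤ E₁ ∧
      ∀ c ∈ cocycles₁ N,
        (∃ E' : IntermediateField k₀ Ω, FiniteDimensional k₀ E' ∧
          ∀ g s : Ω ≃ₐ[k₀] Ω, s ∈ E'.fixingSubgroup → c (g * s) = c g) →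
        ∀ g s : Ω ≃ₐ[k₀] Ω, s ∈ E₁.fixingSubgroup → c (g * s) = c g := by
  classical
  obtain ⟨E₁, hE₁fin, hle, hE₁⟩ :=
    exists_kummer_level_intermediate (k₀ := k₀) (Ω := Ω) p (Fact.out : p.Prime).ne_zero hLPI E₀
  refine ⟨E₁, hE₁fin, hle, ?_⟩
  rintro c hc ⟨E', hE'fin, hE'⟩ g s hs
  have hcoc := (mem_cocycles₁_iff c).1 hc
  have hc1 : c 1 = 0 := cocycles₁_map_one ⟨c, hc⟩
  have hsE₀ : s ∈ E₀.fixingSubgroup := IntermediateField.fixingSubgroup_le hle hs
  -- `c s = 0`
  have hcs : c s = 0 := by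
    rw [← Module.forall_dual_apply_eq_zero_iff (ZMod p) (c s)]
    intro l
    refine hE₁ (fun t => l (c t)) ?_ ⟨E', hE'fin, ?_⟩ s hs
    · intro g' hg' h' _
      show l (c (g' * h')) = l (c g') + l (c h')
      rw [hcoc g' h', hN g' hg', map_add, add_comm]
    · intro t ht
      show l (c t) = 0
      have h1 := hE' 1 t ht
      rw [one_mul, hc1] at h1
      rw [h1, map_zero]
  rw [hcoc g s, hcs, map_zero, zero_add]

theorem finiteDimensional_of_kummer (p : ℕ) [Fact p.Prime]
    (hLPI : ∀ E : IntermediateField k₀ Ω, FiniteDimensional k₀ E →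
      (powMonoidHom p : (↥E)ˣ →* (↥E)ˣ).range.index ≠ 0)
    (N : Rep.{0, 0, 0} (ZMod p) (Ω ≃ₐ[k₀] Ω)) [FiniteDimensional (ZMod p) N]
    (E₀ : IntermediateField k₀ Ω) [FiniteDimensional k₀ E₀]
    (hN : ∀ s ∈ E₀.fixingSubgroup, ∀ a : N, N.ρ s a = a)
    (C : Submodule (ZMod p) ((Ω ≃ₐ[k₀] Ω) → N))
    (hC : ∀ c ∈ C, c ∈ cocycles₁ N ∧
      ∃ E' : IntermediateField k₀ Ω, FiniteDimensional k₀ E' ∧
        ∀ g s : Ω ≃ₐ[k₀] Ω, s ∈ E'.fixingSubgroup → c (g * s) = c g) :
    FiniteDimensional (ZMod p) C := by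
  haveI : Normal k₀ Ω := IsAlgClosure.normal k₀ Ω
  obtain ⟨E₁, hE₁fin, -, hE₁⟩ := cocycle_right_invariant_of_kummer p hLPI N E₀ hN
  haveI := hE₁fin
  haveI : E₁.fixingSubgroup.FiniteIndex := fixingSubgroup_finiteIndex E₁
  exact finite_of_right_invariant E₁.fixingSubgroup C
    (fun c hc g s hs => hE₁ c (hC c hc).1 (hC c hc).2 g s hs)

end Kummer

end Fermat.Agent.S55.H424

end
-- ===== PACK-END S55/H424/FinH1Core.lean

-- ===== PACK-BEGIN S55/H424/FieldIndex.lean
section


/-!
# LPI (local power index), part 3: the index of `n`-th powers in `Kˣ`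

* `H424.index_range_pow_of_split` : abstract form.  If `G = π^ℤ × ι(H)` then
  `[G : Gⁿ] = n * [H : Hⁿ]`.
* `H424.index_range_pow_units_dvr` : for a complete discrete valuation ring `A` with finite
  residue field and `(n : A) ≠ 0`: `[Aˣ : (Aˣ)ⁿ] = |μ_n(A)| * |A ⧸ (n)|`.
* `H424.index_range_pow_units_field` : for its fraction field `K`:
  `[Kˣ : (Kˣ)ⁿ] = n * (|μ_n(K)| * |A ⧸ (n)|)`.
-/

set_option autoImplicit false
set_option linter.unusedSectionVars false

namespace Fermat.Agent.S55.H424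

section Abstract

/-- The index of `n`-th powers in `Multiplicative ℤ` is `n`. -/
lemma index_range_pow_int (n : ℕ) :
    (powMonoidHom n : Multiplicative ℤ →* Multiplicative ℤ).range.index = n := by
  have h1 : (powMonoidHom n : Multiplicative ℤ →* Multiplicative ℤ).range
      = AddSubgroup.toSubgroup (AddSubgroup.zmultiples (n : ℤ)) := by
    ext x
    constructor
    · rintro ⟨y, rfl⟩
      show Multiplicative.toAdd (y ^ n) ∈ AddSubgroup.zmultiples (n : ℤ)
      rw [toAdd_pow, AddSubgroup.mem_zmultiples_iff]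
      exact ⟨Multiplicative.toAdd y, by rw [smul_eq_mul, nsmul_eq_mul]; ring⟩
    · intro hx
      have hx' : Multiplicative.toAdd x ∈ AddSubgroup.zmultiples (n : ℤ) := hx
      obtain ⟨k, hk⟩ := AddSubgroup.mem_zmultiples_iff.1 hx'
      refine ⟨Multiplicative.ofAdd k, ?_⟩
      show (Multiplicative.ofAdd k) ^ n = x
      rw [← ofAdd_nsmul]
      apply Multiplicative.toAdd.injective
      rw [toAdd_ofAdd, ← hk, smul_eq_mul, nsmul_eq_mul]; ring
  rw [h1, AddSubgroup.index_toSubgroup, Int.index_zmultiples, Int.natAbs_natCast]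

variable {G H : Type*} [CommGroup G] [CommGroup H]

/-- The homomorphism `(k, h) ↦ π ^ k * ι h`. -/
noncomputable def splitHom (ι : H →* G) (π : G) : Multiplicative ℤ × H →* G :=
  (zpowersHom G π).coprod ι

lemma splitHom_apply (ι : H →* G) (π : G) (p : Multiplicative ℤ × H) :
    splitHom ι π p = π ^ (Multiplicative.toAdd p.1) * ι p.2 := by
  simp [splitHom]

lemma splitHom_bijective (ι : H →* G) (hι : Function.Injective ι) (π : G)
    (h1 : ∀ g : G, ∃ (k : ℤ) (h : H), g = π ^ k * ι h)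
    (h2 : ∀ (k : ℤ) (h : H), π ^ k = ι h → k = 0) : Function.Bijective (splitHom ι π) := by
  constructor
  · rw [injective_iff_map_eq_one]
    rintro ⟨k, h⟩ hkh
    rw [splitHom_apply] at hkh
    have h3 : π ^ (Multiplicative.toAdd k) = ι h⁻¹ := by
      rw [map_inv]; exact eq_inv_of_mul_eq_one_left hkh
    have h4 : Multiplicative.toAdd k = 0 := h2 _ _ h3
    rw [h4, zpow_zero, one_mul] at hkh
    have h6 : h = 1 := hι (by rw [hkh, map_one])
    have h5 : k = 1 := Multiplicative.toAdd.injective (by rw [h4]; rfl)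
    rw [h5, h6]; rfl
  · intro g
    obtain ⟨k, h, rfl⟩ := h1 g
    exact ⟨(Multiplicative.ofAdd k, h), by rw [splitHom_apply]; rfl⟩

/-- **Abstract split form.** If every element of `G` is uniquely `π ^ k * ι h`, then
`[G : Gⁿ] = n * [H : Hⁿ]`. -/
theorem index_range_pow_of_split (ι : H →* G) (hι : Function.Injective ι) (π : G)
    (h1 : ∀ g : G, ∃ (k : ℤ) (h : H), g = π ^ k * ι h)
    (h2 : ∀ (k : ℤ) (h : H), π ^ k = ι h → k = 0) (n : ℕ) :
    (powMonoidHom n : G →* G).range.index = n * (powMonoidHom n : H →* H).range.index := by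
  have hb := splitHom_bijective ι hι π h1 h2
  have e1 : (powMonoidHom n : G →* G).range
      = ((powMonoidHom n : Multiplicative ℤ →* Multiplicative ℤ).range.prod
          (powMonoidHom n : H →* H).range).map (splitHom ι π) := by
    ext g
    constructor
    · rintro ⟨x, rfl⟩
      obtain ⟨p, rfl⟩ := hb.2 x
      refine ⟨p ^ n, ?_, ?_⟩
      · exact ⟨⟨p.1, rfl⟩, ⟨p.2, rfl⟩⟩
      · rw [map_pow]; rfl
    · rintro ⟨p, ⟨⟨a, ha⟩, ⟨b, hb'⟩⟩, rfl⟩
      refine ⟨splitHom ι π (a, b), ?_⟩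
      show (splitHom ι π (a, b)) ^ n = _
      rw [← map_pow]
      congr 1
      exact Prod.ext ha hb'
  rw [e1, Subgroup.index_map_of_bijective hb, Subgroup.index_prod, index_range_pow_int]

/-- In the split situation, the `n`-torsion of `G` is that of `H` (for `n ≠ 0`). -/
theorem map_ker_pow_of_split (ι : H →* G) (π : G)
    (h1 : ∀ g : G, ∃ (k : ℤ) (h : H), g = π ^ k * ι h)
    (h2 : ∀ (k : ℤ) (h : H), π ^ k = ι h → k = 0) {n : ℕ} (hn : n ≠ 0)
    (hι : Function.Injective ι) :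
    (powMonoidHom n : H →* H).ker.map ι = (powMonoidHom n : G →* G).ker := by
  ext g
  constructor
  · rintro ⟨h, hh, rfl⟩
    have hh' : h ^ n = 1 := MonoidHom.mem_ker.1 hh
    apply MonoidHom.mem_ker.2
    show (ι h) ^ n = 1
    rw [← map_pow, hh', map_one]
  · intro hg
    have hg' : g ^ n = 1 := hg
    obtain ⟨k, h, rfl⟩ := h1 g
    have h3 : π ^ (k * (n : ℤ)) = ι ((h ^ n)⁻¹) := by
      rw [map_inv, map_pow]
      apply eq_inv_of_mul_eq_one_left
      rw [zpow_mul, zpow_natCast, ← mul_pow]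
      exact hg'
    have h4 := h2 _ _ h3
    have h5 : k = 0 := by
      rcases mul_eq_zero.1 h4 with h | h
      · exact h
      · exact absurd (by exact_mod_cast h) hn
    subst h5
    rw [zpow_zero, one_mul] at hg' ⊢
    refine ⟨h, MonoidHom.mem_ker.2 ?_, rfl⟩
    show h ^ n = 1
    apply hι
    rw [map_pow, hg', map_one]

end Abstract

section DVR

open IsLocalRing

variable {A : Type*} [CommRing A] [IsDomain A] [IsDiscreteValuationRing A]

/-- **Local power index, DVR form.** For a complete discrete valuation ring `A` with finite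
residue field and `(n : A) ≠ 0`: `[Aˣ : (Aˣ)ⁿ] = |μ_n(A)| * |A ⧸ (n)|`. -/
theorem index_range_pow_units_dvr [IsAdicComplete (maximalIdeal A) A]
    [Finite (ResidueField A)] {n : ℕ} (hn : (n : A) ≠ 0) :
    (powMonoidHom n : Aˣ →* Aˣ).range.index
      = Nat.card (rootsOfUnity n A) * Nat.card (A ⧸ Ideal.span {(n : A)}) := by
  obtain ⟨ϖ, hϖ⟩ := IsDiscreteValuationRing.exists_irreducible A
  have hmax : maximalIdeal A = Ideal.span {ϖ} := hϖ.maximalIdeal_eq
  have hc : IsAdicComplete (Ideal.span {ϖ}) A :=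
    hmax ▸ (inferInstance : IsAdicComplete (maximalIdeal A) A)
  have hf : Finite (A ⧸ Ideal.span {ϖ}) := by
    rw [← hmax]; exact (inferInstance : Finite (ResidueField A))
  obtain ⟨v, u, hu⟩ := IsDiscreteValuationRing.eq_unit_mul_pow_irreducible hn hϖ
  have hN : (n : A) ∣ ϖ ^ v := ⟨((u⁻¹ : Aˣ) : A), by
    rw [hu, mul_comm (u : A), mul_assoc, Units.mul_inv, mul_one]⟩
  have hn0 : n ≠ 0 := by rintro rfl; exact hn (by simp)
  exact index_range_pow_units ϖ (fun x hx => (mul_eq_zero.1 hx).resolve_left hϖ.ne_zero) hn0 hN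

variable {K : Type*} [Field K] [Algebra A K] [IsFractionRing A K]

/-- The inclusion `Aˣ → Kˣ`. -/
noncomputable def unitsToField (A K : Type*) [CommRing A] [Field K] [Algebra A K] : Aˣ →* Kˣ :=
  Units.map (algebraMap A K : A →* K)

lemma coe_unitsToField (u : Aˣ) : ((unitsToField A K u : Kˣ) : K) = algebraMap A K (u : A) := rfl

lemma unitsToField_injective : Function.Injective (unitsToField A K) :=
  Units.map_injective (IsFractionRing.injective A K)

/-- A uniformiser, as a unit of `K`. -/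
noncomputable def unifUnit (K : Type*) [Field K] [Algebra A K] [IsFractionRing A K] {ϖ : A}
    (hϖ : Irreducible ϖ) : Kˣ :=
  Units.mk0 (algebraMap A K ϖ) (by
    intro h0
    exact hϖ.ne_zero ((IsFractionRing.injective A K) (by rw [h0, map_zero])))

lemma coe_unifUnit {ϖ : A} (hϖ : Irreducible ϖ) :
    ((unifUnit K hϖ : Kˣ) : K) = algebraMap A K ϖ := rfl

lemma exists_eq_unif_zpow_mul {ϖ : A} (hϖ : Irreducible ϖ) (g : Kˣ) :
    ∃ (k : ℤ) (h : Aˣ), g = unifUnit K hϖ ^ k * unitsToField A K h := by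
  obtain ⟨a, b, hb, hab⟩ := IsFractionRing.div_surjective A (g : K)
  have hb0 : b ≠ 0 := nonZeroDivisors.ne_zero hb
  have ha0 : a ≠ 0 := by
    rintro rfl
    rw [map_zero, zero_div] at hab
    exact g.ne_zero hab.symm
  obtain ⟨i, u, hu⟩ := IsDiscreteValuationRing.eq_unit_mul_pow_irreducible ha0 hϖ
  obtain ⟨j, u', hu'⟩ := IsDiscreteValuationRing.eq_unit_mul_pow_irreducible hb0 hϖ
  refine ⟨(i : ℤ) - (j : ℤ), u * u'⁻¹, ?_⟩
  apply Units.ext
  have hX : algebraMap A K ϖ ≠ 0 := (unifUnit K hϖ).ne_zero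
  have hU' : algebraMap A K (u' : A) ≠ 0 := (unitsToField A K u').ne_zero
  have hinv : algebraMap A K ((u'⁻¹ : Aˣ) : A) = (algebraMap A K (u' : A))⁻¹ := by
    apply eq_inv_of_mul_eq_one_left
    rw [← map_mul, Units.inv_mul, map_one]
  rw [Units.val_mul, Units.val_zpow_eq_zpow_val, coe_unifUnit, coe_unitsToField, ← hab, hu, hu',
    Units.val_mul, map_mul, map_mul, map_mul, map_pow, map_pow, hinv, zpow_sub₀ hX,
    zpow_natCast, zpow_natCast]
  field_simp

lemma unif_zpow_eq_unit {ϖ : A} (hϖ : Irreducible ϖ) (k : ℤ) (h : Aˣ)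
    (hk : unifUnit K hϖ ^ k = unitsToField A K h) : k = 0 := by
  have key : ∀ (i : ℕ) (h : Aˣ), unifUnit K hϖ ^ (i + 1) ≠ unitsToField A K h := by
    intro i h heq
    have h1 := congrArg (fun z : Kˣ => (z : K)) heq
    simp only [Units.val_pow_eq_pow_val, coe_unifUnit, coe_unitsToField] at h1
    rw [← map_pow] at h1
    have h2 : ϖ ^ (i + 1) = (h : A) := IsFractionRing.injective A K h1
    have h3 : IsUnit (ϖ ^ (i + 1)) := by rw [h2]; exact h.isUnit
    exact hϖ.not_isUnit ((isUnit_pow_iff (Nat.succ_ne_zero i)).1 h3)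
  rcases Int.eq_nat_or_neg k with ⟨m, rfl | rfl⟩
  · rcases m with _ | i
    · rfl
    · exfalso
      rw [zpow_natCast] at hk
      exact key i h hk
  · rcases m with _ | i
    · simp
    · exfalso
      rw [zpow_neg, zpow_natCast, inv_eq_iff_eq_inv, ← map_inv] at hk
      exact key i h⁻¹ hk

/-- Roots of unity of `K` lie in `A`. -/
theorem card_rootsOfUnity_dvr_eq {n : ℕ} (hn : n ≠ 0) :
    Nat.card (rootsOfUnity n A) = Nat.card (rootsOfUnity n K) := by
  obtain ⟨ϖ, hϖ⟩ := IsDiscreteValuationRing.exists_irreducible A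
  have h1 := map_ker_pow_of_split (unitsToField A K) (unifUnit K hϖ)
    (exists_eq_unif_zpow_mul hϖ) (unif_zpow_eq_unit hϖ) hn unitsToField_injective
  rw [ker_powMonoidHom_units, ker_powMonoidHom_units] at h1
  rw [← h1, Subgroup.card_map_of_injective unitsToField_injective]

/-- **Local power index, field form.** For a complete discrete valuation ring `A` with
finite residue field, fraction field `K` and `(n : A) ≠ 0`:
`[Kˣ : (Kˣ)ⁿ] = n * (|μ_n(K)| * |A ⧸ (n)|)`. -/
theorem index_range_pow_units_field [IsAdicComplete (maximalIdeal A) A]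
    [Finite (ResidueField A)] {n : ℕ} (hn : (n : A) ≠ 0) :
    (powMonoidHom n : Kˣ →* Kˣ).range.index
      = n * (Nat.card (rootsOfUnity n K) * Nat.card (A ⧸ Ideal.span {(n : A)})) := by
  obtain ⟨ϖ, hϖ⟩ := IsDiscreteValuationRing.exists_irreducible A
  have hn0 : n ≠ 0 := by rintro rfl; exact hn (by simp)
  rw [index_range_pow_of_split (unitsToField A K) unitsToField_injective (unifUnit K hϖ)
    (exists_eq_unif_zpow_mul hϖ) (unif_zpow_eq_unit hϖ) n, index_range_pow_units_dvr hn,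
    card_rootsOfUnity_dvr_eq (K := K) hn0]

end DVR

end Fermat.Agent.S55.H424

end
-- ===== PACK-END S55/H424/FieldIndex.lean

-- ===== PACK-BEGIN S55/KL/H510/KummerH3Core.lean
section


/-!
# S55 / layer KC (helper53), leaf K3 (`KummerH3Spec`): core, independent of the location of the
interface (imports only the landed `PT` layer)

`H³_lc(G, M) = 0` if `B` is smooth and `p`-divisible, `M ≅ B[p]` (via `ι`), `H³_lc(G, B) = 0` and
`H²_lc(G, B)` is `p`-divisible.

`kummerH3_core_h510` is the statement of `KummerH3Spec` with `H3Vanish`, `H2Divisible`, `IsLC₃`,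
`IsCocycle₃`, `IsPDivisible` unfolded and the three fields of `IsKummerEmb` as hypotheses.
Adapter (one line, wherever the Spec lives):

  `theorem kummerH3 : KummerH3Spec := fun G _ L p _ M B ι hNC hFI hsm hdiv hK hH3 hH2 =>`
  `  Fermat.Agent.S55.KL.H510.kummerH3_core_h510 G L p M B ι hNC hFI hsm hdiv`
  `    hK.injective hK.equivariant hK.range_eq hH3 hH2`
-/

set_option autoImplicit false
set_option linter.style.haveILetI false

noncomputable section

namespace Fermat.Agent.S55.KL.H510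

open groupCohomology ExtCitation Fermat.Agent.S55.PT

variable {G : Type} [Group G]

/-- Finitely many levels have a common lower bound among the levels. -/
theorem exists_level_le_finset_h510 (L : LevelSys G) {ι : Type*} (s : Finset ι)
    (f : ι → Subgroup G) (hf : ∀ i ∈ s, f i ∈ L.levels) :
    ∃ W ∈ L.levels, ∀ i ∈ s, W ≤ f i := by
  classical
  induction s using Finset.induction_on with
  | empty =>
    obtain ⟨U, hU⟩ := L.nonempty
    exact ⟨U, hU, fun i hi => absurd hi (Finset.notMem_empty i)⟩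
  | insert a s _ ih =>
    obtain ⟨W, hW, hWs⟩ := ih (fun i hi => hf i (Finset.mem_insert_of_mem hi))
    obtain ⟨W', hW', hle⟩ := L.directed W hW (f a) (hf a (Finset.mem_insert_self a s))
    refine ⟨W', hW', fun i hi => ?_⟩
    rcases Finset.mem_insert.1 hi with rfl | hi
    · exact fun x hx => (hle hx).2
    · exact fun x hx => hWs i hi (hle hx).1

/-- A level-constant 1-cochain with values in a smooth module has all its values fixed by one
level (levels of finite index). -/
theorem exists_level_fixing_values_h510 {k : Type} [CommRing k] (L : LevelSys G)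
    (B : Rep.{0, 0, 0} k G) (hFI : L.FiniteIndex) (hsm : L.IsSmooth B) {y : G → B}
    (hy : L.IsLC₁ y) : ∃ W ∈ L.levels, ∀ (g s : G), s ∈ W → B.ρ s (y g) = y g := by
  classical
  obtain ⟨U, hU, hyU⟩ := hy
  haveI : U.FiniteIndex := hFI U hU
  haveI : Finite (G ⧸ U) := Subgroup.finite_quotient_of_finiteIndex
  haveI : Fintype (G ⧸ U) := Fintype.ofFinite _
  -- a level fixing `y (rep q)` for every coset `q`
  let rep : G ⧸ U → G := fun q => Quotient.out q
  choose lev hlev hfix using fun q : G ⧸ U => hsm (y (rep q))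
  obtain ⟨W, hW, hWle⟩ := exists_level_le_finset_h510 L (Finset.univ : Finset (G ⧸ U)) lev
    (fun q _ => hlev q)
  refine ⟨W, hW, fun g s hs => ?_⟩
  have hg : y g = y (rep (g : G ⧸ U)) := by
    have h1 : ((rep (g : G ⧸ U) : G) : G ⧸ U) = (g : G ⧸ U) := Quotient.out_eq _
    have h2 : (rep (g : G ⧸ U))⁻¹ * g ∈ U := QuotientGroup.eq.1 h1
    have h3 := hyU (rep (g : G ⧸ U)) _ h2
    rw [mul_inv_cancel_left] at h3
    exact h3
  rw [hg]
  exact hfix _ s (hWle _ (Finset.mem_univ _) hs)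

/-- `d₁₂` of a level-constant 1-cochain with values in a smooth module is level-constant. -/
theorem d₁₂_isLC₂_of_smooth_h510 {k : Type} [CommRing k] (L : LevelSys G)
    (B : Rep.{0, 0, 0} k G) (hNC : L.NormalCofinal) (hFI : L.FiniteIndex) (hsm : L.IsSmooth B)
    {y : G → B} (hy : L.IsLC₁ y) : L.IsLC₂ ((d₁₂ B).hom y) := by
  obtain ⟨U, hU, hfix⟩ := exists_level_fixing_values_h510 L B hFI hsm hy
  obtain ⟨V, hV, hyV⟩ := hy
  obtain ⟨W, hW, hWle⟩ := L.directed U hU V hV
  obtain ⟨N, hNl, hNW, hNn⟩ := hNC W hW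
  refine ⟨N, hNl, fun g g' s s' hs hs' => ?_⟩
  have hsU : s ∈ U := (hWle (hNW hs)).1
  have hs'V : s' ∈ V := (hWle (hNW hs')).2
  have hconj : g'⁻¹ * s * g' ∈ N := by
    have := hNn.conj_mem s hs g'⁻¹
    simpa using this
  have hmem : g'⁻¹ * s * g' * s' ∈ V := (hWle (hNW (N.mul_mem hconj hs'))).2
  have e1 : g * s * (g' * s') = g * g' * (g'⁻¹ * s * g' * s') := by group
  simp only [d₁₂_hom_apply]
  rw [e1, hyV (g * g') _ hmem, hyV g' s' hs'V, hyV g s (hWle (hNW hs)).2, map_mul,
    Module.End.mul_apply, hfix g' s hsU]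

/-- **KC-K3** (`KummerH3Spec`, unfolded). -/
theorem kummerH3_core_h510 (G : Type) [Group G] (L : LevelSys G) (p : ℕ) [Fact p.Prime]
    (M : Rep.{0, 0, 0} (ZMod p) G) (B : Rep.{0, 0, 0} ℤ G) (ι : M →+ B)
    (hNC : L.NormalCofinal) (hFI : L.FiniteIndex) (hsm : L.IsSmooth B)
    (hdiv : ∀ b : B, ∃ c : B, p • c = b)
    (hinj : Function.Injective ι)
    (heq : ∀ (g : G) (m : M), ι (M.ρ g m) = B.ρ g (ι m))
    (hrange : ∀ b : B, p • b = 0 ↔ b ∈ Set.range ι)
    (hH3 : ∀ z : G × G × G → B,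
      (∃ U ∈ L.levels, ∀ g₁ g₂ g₃ s₁ s₂ s₃ : G, s₁ ∈ U → s₂ ∈ U → s₃ ∈ U →
        z (g₁ * s₁, g₂ * s₂, g₃ * s₃) = z (g₁, g₂, g₃)) →
      (∀ g h i j : G,
        B.ρ g (z (h, i, j)) - z (g * h, i, j) + z (g, h * i, j) - z (g, h, i * j)
          + z (g, h, i) = 0) →
      ∃ b : G × G → B, L.IsLC₂ b ∧ (d₂₃ B).hom b = z)
    (hH2 : ∀ a : G × G → B, a ∈ L.Z2 B → ∃ a' : G × G → B, a' ∈ L.Z2 B ∧ a - p • a' ∈ L.B2 B) :
    ∀ z : G × G × G → M,
      (∃ U ∈ L.levels, ∀ g₁ g₂ g₃ s₁ s₂ s₃ : G, s₁ ∈ U → s₂ ∈ U → s₃ ∈ U →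
        z (g₁ * s₁, g₂ * s₂, g₃ * s₃) = z (g₁, g₂, g₃)) →
      (∀ g h i j : G,
        M.ρ g (z (h, i, j)) - z (g * h, i, j) + z (g, h * i, j) - z (g, h, i * j)
          + z (g, h, i) = 0) →
      ∃ b : G × G → M, L.IsLC₂ b ∧ (d₂₃ M).hom b = z := by
  intro z hzLC hzcoc
  -- Step 1: push `z` to `B`
  obtain ⟨b, hbLC, hb⟩ := hH3 (fun x => ι (z x))
    (by
      obtain ⟨U, hU, h⟩ := hzLC
      exact ⟨U, hU, fun g₁ g₂ g₃ s₁ s₂ s₃ h₁ h₂ h₃ => by
        show ι (z _) = ι (z _)
        rw [h g₁ g₂ g₃ s₁ s₂ s₃ h₁ h₂ h₃]⟩)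
    (by
      intro g h i j
      have := congrArg ι (hzcoc g h i j)
      simpa only [map_add, map_sub, map_zero, heq] using this)
  -- Step 2: `p • b` is a level-constant cocycle
  have hpz : ∀ x, p • ι (z x) = 0 := fun x => by
    rw [← map_nsmul, ZModModule.char_nsmul_eq_zero p (z x), map_zero]
  have hpb : p • b ∈ L.Z2 B := by
    refine ⟨?_, hbLC.comp (p • ·)⟩
    show (d₂₃ B).hom (p • b) = 0
    rw [map_nsmul, hb]
    funext x
    exact hpz x
  obtain ⟨a', ha', x, hxLC, hx⟩ := hH2 (p • b) hpb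
  -- Step 3: divide `x` by `p`
  choose root hroot using hdiv
  let y : G → B := fun g => root (x g)
  have hyLC : L.IsLC₁ y := LevelSys.IsLC₁.comp hxLC root
  have hpy : p • y = x := by
    funext g
    exact hroot (x g)
  have hdy : L.IsLC₂ ((d₁₂ B).hom y) := d₁₂_isLC₂_of_smooth_h510 L B hNC hFI hsm hyLC
  -- Step 4: the corrected cochain has values in `B[p]`
  let c : G × G → B := b - a' - (d₁₂ B).hom y
  have hcLC : L.IsLC₂ c :=
    (L.C2 B).sub_mem ((L.C2 B).sub_mem (show b ∈ L.C2 B from hbLC) ha'.2)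
      (show (d₁₂ B).hom y ∈ L.C2 B from hdy)
  have hpc : ∀ u, p • c u = 0 := by
    intro u
    have h1 : p • c = 0 := by
      show p • (b - a' - (d₁₂ B).hom y) = 0
      rw [smul_sub, smul_sub, ← map_nsmul, hpy, hx, sub_self]
    exact congrFun h1 u
  have hdd : (d₂₃ B).hom ((d₁₂ B).hom y) = 0 := by
    have := d₁₂_comp_d₂₃ B
    have h2 := congrArg (fun f => f.hom y) this
    simpa using h2
  have hdc : (d₂₃ B).hom c = fun u => ι (z u) := by
    show (d₂₃ B).hom (b - a' - (d₁₂ B).hom y) = _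
    rw [map_sub, map_sub, hb, hdd, show (d₂₃ B).hom a' = 0 from ha'.1, sub_zero, sub_zero]
  -- Step 5: descend to `M`
  choose m hm using fun u => (hrange (c u)).1 (hpc u)
  refine ⟨m, ?_, ?_⟩
  · obtain ⟨U, hU, h⟩ := hcLC
    refine ⟨U, hU, fun g g' s s' hs hs' => hinj ?_⟩
    rw [hm, hm, h g g' s s' hs hs']
  · funext u
    apply hinj
    have h1 := congrFun hdc u
    rw [← h1]
    obtain ⟨g, h, i⟩ := u
    simp only [d₂₃_hom_apply, map_add, map_sub, heq, hm]

end Fermat.Agent.S55.KL.H510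

end
end
-- ===== PACK-END S55/KL/H510/KummerH3Core.lean

-- ===== PACK-BEGIN S55/H175/LocalDecompPrime.lean
section




set_option autoImplicit false
set_option linter.style.haveILetI false

/-!
# `primeLocalToGlobal` is an isomorphism onto the decomposition group of `primeLocalPlace`
-/

open scoped Pointwise

namespace Fermat.Agent.S55.H175

open ExtCitation

theorem range_primeLocalToGlobal (q : Nat.Primes) :
    (primeLocalToGlobal q).range = (primeLocalPlace q).decompositionSubgroup ℚ :=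
  letI : Fact (q : ℕ).Prime := ⟨q.2⟩
  range_localGaloisToGlobal (q : ℕ)

theorem primeLocalToGlobal_injective (q : Nat.Primes) :
    Function.Injective (primeLocalToGlobal q) :=
  letI : Fact (q : ℕ).Prime := ⟨q.2⟩
  localGaloisToGlobal_injective (q : ℕ)

theorem primeLocalToGlobal_mem_decomposition (q : Nat.Primes) (τ : primeLocalGaloisGroup q) :
    primeLocalToGlobal q τ ∈ (primeLocalPlace q).decompositionSubgroup ℚ := by
  rw [← range_primeLocalToGlobal]
  exact ⟨τ, rfl⟩

theorem exists_primeLocal_of_mem_decomposition (q : Nat.Primes)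
    (σ : AlgebraicClosure ℚ ≃ₐ[ℚ] AlgebraicClosure ℚ)
    (hσ : σ ∈ (primeLocalPlace q).decompositionSubgroup ℚ) :
    ∃ τ : primeLocalGaloisGroup q, primeLocalToGlobal q τ = σ := by
  rw [← range_primeLocalToGlobal] at hσ
  exact hσ

theorem primeLocalPlace_liesOverPrime (q : Nat.Primes) :
    (primeLocalPlace q).LiesOverPrime (q : ℕ) := by
  letI : Fact (q : ℕ).Prime := ⟨q.2⟩
  show ((q : ℕ) : AlgebraicClosure ℚ) ∈ (padicPlace (q : ℕ)).nonunits
  rw [ValuationSubring.mem_nonunits_iff_exists_mem_maximalIdeal]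
  have hmem : ((q : ℕ) : AlgebraicClosure ℚ) ∈ padicPlace (q : ℕ) := by
    rw [mem_padicPlace_iff_norm, norm_padicEmbedding_natCast_self]
    have : (1 : ℝ) ≤ (q : ℕ) := by exact_mod_cast q.2.one_lt.le
    exact inv_le_one_of_one_le₀ this
  refine ⟨hmem, ?_⟩
  rw [IsLocalRing.mem_maximalIdeal, mem_nonunits_iff]
  intro hu
  obtain ⟨u, hu⟩ := hu
  have h1 : ((u⁻¹ : (padicPlace (q : ℕ))ˣ) : padicPlace (q : ℕ)) * u = 1 := by simp
  have h2 : (((u⁻¹ : (padicPlace (q : ℕ))ˣ) : padicPlace (q : ℕ)) : AlgebraicClosure ℚ) *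
      ((q : ℕ) : AlgebraicClosure ℚ) = 1 := by
    have := congrArg (Subtype.val) h1
    rw [hu] at this
    simpa using this
  have h3 := ((u⁻¹ : (padicPlace (q : ℕ))ˣ) : padicPlace (q : ℕ)).2
  rw [mem_padicPlace_iff_norm] at h3
  have h4 := congrArg (fun z => ‖padicEmbedding (q : ℕ) z‖) h2
  simp only [map_mul, norm_mul, map_one, norm_one] at h4
  rw [norm_padicEmbedding_natCast_self] at h4
  have hq : (1 : ℝ) < (q : ℕ) := by exact_mod_cast q.2.one_lt
  have hinv : ((q : ℕ) : ℝ)⁻¹ < 1 := inv_lt_one_of_one_lt₀ hq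
  have hpos : (0 : ℝ) < ((q : ℕ) : ℝ)⁻¹ := by positivity
  nlinarith [norm_nonneg (padicEmbedding (q : ℕ)
    (((u⁻¹ : (padicPlace (q : ℕ))ˣ) : padicPlace (q : ℕ)) : AlgebraicClosure ℚ))]

end Fermat.Agent.S55.H175

end
-- ===== PACK-END S55/H175/LocalDecompPrime.lean

-- ===== PACK-BEGIN S55/E1/H354/Alg3.lean
section
/-
S55 engine E1, block ALG, leaf ALG3 (helper354).
Blueprint: coord/S55-E1.md §3.  Mathlib + E1/Defs only.

For a `k`-projective representation `R` and a short exact sequence `0 → X' → X → X'' → 0` of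
representations we construct the boundary map `∂ : Hom_G(R, X'') → H¹(G, Hom_k(R, X'))` by the
explicit cocycle formula and prove exactness of
`Hom_G(R, X) → Hom_G(R, X'') → H¹(G, Hom_k(R, X')) → H¹(G, Hom_k(R, X))`.
-/


set_option autoImplicit false

open CategoryTheory CategoryTheory.Limits groupCohomology

namespace Fermat.Agent.S55.E1.H354

noncomputable section

variable {k G : Type} [CommRing k] [Group G]

/-- An element of `Hom_k(R, X)` (the underlying module of `ihom R X`) as a linear map. -/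
abbrev ihomLin {R X : Rep.{0} k G} (x : ((Rep.ihom R).obj X).V) : R.V →ₗ[k] X.V := x

/-- A linear map as an element of the underlying module of `ihom R X`. -/
abbrev ihomMk {R X : Rep.{0} k G} (x : R.V →ₗ[k] X.V) : ((Rep.ihom R).obj X).V := x

theorem ihom_ρ_apply {R X : Rep.{0} k G} (g : G) (x : ((Rep.ihom R).obj X).V) (r : R.V) :
    ihomLin (((Rep.ihom R).obj X).ρ g x) r = X.ρ g (ihomLin x (R.ρ g⁻¹ r)) := rfl

/-- `c` is a boundary cocycle of `f'' : R ⟶ X''`: there is a `k`-linear lift `φ : R → X` of `f''`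
with `f ∘ c g = g • φ - φ`, i.e. `f (c g r) = g φ(g⁻¹ r) - φ r`. -/
def IsBdryCocycle (R : Rep.{0} k G) (S : ShortComplex (Rep.{0} k G)) (f'' : R ⟶ S.X₃)
    (c : cocycles₁ ((Rep.ihom R).obj S.X₁)) : Prop :=
  ∃ φ : R.V →ₗ[k] S.X₂.V, (∀ r, S.g.hom (φ r) = f''.hom r) ∧
    ∀ (g : G) (r : R.V), S.f.hom (ihomLin (c g) r) = S.X₂.ρ g (φ (R.ρ g⁻¹ r)) - φ r

section basic

variable {S : ShortComplex (Rep.{0} k G)} (hS : S.ShortExact)
include hS

theorem f_injective : Function.Injective S.f.hom :=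
  (Rep.mono_iff_injective S.f).1 hS.mono_f

theorem g_surjective : Function.Surjective S.g.hom :=
  (Rep.epi_iff_surjective S.g).1 hS.epi_g

theorem range_f_eq_ker_g :
    LinearMap.range S.f.hom.toLinearMap = LinearMap.ker S.g.hom.toLinearMap :=
  (hS.exact.map (forget₂ (Rep k G) (ModuleCat k))).moduleCat_range_eq_ker

theorem exists_of_g_eq_zero (x : S.X₂.V) (hx : S.g.hom x = 0) : ∃ y : S.X₁.V, S.f.hom y = x := by
  have : x ∈ LinearMap.ker S.g.hom.toLinearMap := hx
  rw [← range_f_eq_ker_g hS] at this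
  exact this

theorem g_f (y : S.X₁.V) : S.g.hom (S.f.hom y) = 0 := by
  have : S.f.hom y ∈ LinearMap.range S.f.hom.toLinearMap := ⟨y, rfl⟩
  rw [range_f_eq_ker_g hS] at this
  exact this

end basic


/-- Factor a linear map through an injective linear map, elementwise. -/
theorem exists_linearMap_factor {M N P : Type} [AddCommGroup M] [AddCommGroup N] [AddCommGroup P]
    [Module k M] [Module k N] [Module k P] (f : N →ₗ[k] P) (hf : Function.Injective f)
    (ψ : M →ₗ[k] P) (h : ∀ m, ∃ n, f n = ψ m) : ∃ c : M →ₗ[k] N, ∀ m, f (c m) = ψ m := by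
  have hr : ∀ m, ψ m ∈ LinearMap.range f := fun m => h m
  refine ⟨((LinearEquiv.ofInjective f hf).symm : LinearMap.range f →ₗ[k] N) ∘ₗ
    ψ.codRestrict (LinearMap.range f) hr, fun m => ?_⟩
  have := (LinearEquiv.ofInjective f hf).apply_symm_apply (ψ.codRestrict (LinearMap.range f) hr m)
  exact congrArg Subtype.val this

section bdry

variable {R : Rep.{0} k G} {S : ShortComplex (Rep.{0} k G)}

/-- The cocycle attached to a `k`-linear lift `φ` of `f''`. -/
theorem exists_cocycle_of_lift (hS : S.ShortExact) (f'' : R ⟶ S.X₃) (φ : R.V →ₗ[k] S.X₂.V)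
    (hφ : ∀ r, S.g.hom (φ r) = f''.hom r) :
    ∃ c : cocycles₁ ((Rep.ihom R).obj S.X₁),
      ∀ (g : G) (r : R.V), S.f.hom (ihomLin (c g) r) = S.X₂.ρ g (φ (R.ρ g⁻¹ r)) - φ r := by
  have hinj := f_injective hS
  have key : ∀ g : G, ∃ c : R.V →ₗ[k] S.X₁.V,
      ∀ r, S.f.hom.toLinearMap (c r) = (S.X₂.ρ g ∘ₗ φ ∘ₗ R.ρ g⁻¹ - φ) r := by
    intro g
    refine exists_linearMap_factor S.f.hom.toLinearMap hinj _ fun r => ?_
    refine exists_of_g_eq_zero hS _ ?_
    simp only [LinearMap.sub_apply, LinearMap.comp_apply, map_sub, hφ]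
    rw [Rep.hom_comm_apply, hφ, ← Rep.hom_comm_apply, ← Module.End.mul_apply, ← map_mul]
    simp
  choose c hc using key
  refine ⟨⟨fun g => ihomMk (c g), ?_⟩, fun g r => hc g r⟩
  rw [mem_cocycles₁_iff]
  intro g h
  apply LinearMap.ext
  intro r
  apply hinj
  show S.f.hom.toLinearMap (c (g * h) r) = S.f.hom
    ((ihomLin (((Rep.ihom R).obj S.X₁).ρ g (ihomMk (c h))) + c g) r)
  rw [hc, LinearMap.add_apply, map_add, ihom_ρ_apply, Rep.hom_comm_apply]
  show _ = S.X₂.ρ g (S.f.hom.toLinearMap (c h (R.ρ g⁻¹ r))) + S.f.hom.toLinearMap (c g r)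
  rw [hc, hc]
  simp only [LinearMap.sub_apply, LinearMap.comp_apply, map_sub, mul_inv_rev, map_mul,
    Module.End.mul_apply]
  abel

theorem exists_isBdryCocycle (hS : S.ShortExact) [Module.Projective k R.V] (f'' : R ⟶ S.X₃) :
    ∃ c, IsBdryCocycle R S f'' c := by
  obtain ⟨φ, hφ⟩ := Module.projective_lifting_property S.g.hom.toLinearMap f''.hom.toLinearMap
    (g_surjective hS)
  have hφ' : ∀ r, S.g.hom (φ r) = f''.hom r := fun r => LinearMap.congr_fun hφ r
  obtain ⟨c, hc⟩ := exists_cocycle_of_lift hS f'' φ hφ'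
  exact ⟨c, φ, hφ', hc⟩


/-- Two boundary cocycles of the same morphism are cohomologous. -/
theorem H1π_eq_of_isBdryCocycle (hS : S.ShortExact) {f'' : R ⟶ S.X₃}
    {c₁ c₂ : cocycles₁ ((Rep.ihom R).obj S.X₁)} (h₁ : IsBdryCocycle R S f'' c₁)
    (h₂ : IsBdryCocycle R S f'' c₂) :
    H1π ((Rep.ihom R).obj S.X₁) c₁ = H1π ((Rep.ihom R).obj S.X₁) c₂ := by
  have hinj := f_injective hS
  obtain ⟨φ₁, hφ₁, hc₁⟩ := h₁
  obtain ⟨φ₂, hφ₂, hc₂⟩ := h₂
  obtain ⟨ψ, hψ⟩ := exists_linearMap_factor S.f.hom.toLinearMap hinj (φ₁ - φ₂) fun r =>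
    exists_of_g_eq_zero hS _ (by simp [hφ₁, hφ₂])
  rw [H1π_eq_iff]
  refine ⟨ihomMk ψ, ?_⟩
  funext g
  apply LinearMap.ext
  intro r
  apply hinj
  show S.f.hom ((ihomLin (((Rep.ihom R).obj S.X₁).ρ g (ihomMk ψ)) - ψ) r) =
    S.f.hom ((ihomLin (c₁ g) - ihomLin (c₂ g)) r)
  rw [LinearMap.sub_apply, LinearMap.sub_apply, map_sub, map_sub, hc₁, hc₂, ihom_ρ_apply,
    Rep.hom_comm_apply]
  have h1 := hψ r
  have h2 := hψ (R.ρ g⁻¹ r)
  simp only [LinearMap.sub_apply] at h1 h2
  show S.X₂.ρ g (S.f.hom.toLinearMap (ψ (R.ρ g⁻¹ r))) - S.f.hom.toLinearMap (ψ r) = _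
  rw [h1, h2, map_sub]
  abel

open Classical in
/-- The boundary map `∂ : Hom_G(R, X'') → H¹(G, Hom_k(R, X'))` as a function: the class of any
boundary cocycle (`0` if there is none, which does not happen for `k`-projective `R`). -/
def bdryFun (R : Rep.{0} k G) (S : ShortComplex (Rep.{0} k G)) (f'' : R ⟶ S.X₃) :
    H1 ((Rep.ihom R).obj S.X₁) :=
  if h : ∃ c, IsBdryCocycle R S f'' c then H1π ((Rep.ihom R).obj S.X₁) h.choose else 0

/-- **Explicit formula for `∂`.** -/
theorem bdryFun_eq (hS : S.ShortExact) {f'' : R ⟶ S.X₃}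
    {c : cocycles₁ ((Rep.ihom R).obj S.X₁)} (hc : IsBdryCocycle R S f'' c) :
    bdryFun R S f'' = H1π ((Rep.ihom R).obj S.X₁) c := by
  have h : ∃ c, IsBdryCocycle R S f'' c := ⟨c, hc⟩
  rw [bdryFun, dif_pos h]
  exact H1π_eq_of_isBdryCocycle hS h.choose_spec hc

theorem isBdryCocycle_add {f₁ f₂ : R ⟶ S.X₃} {c₁ c₂ : cocycles₁ ((Rep.ihom R).obj S.X₁)}
    (h₁ : IsBdryCocycle R S f₁ c₁) (h₂ : IsBdryCocycle R S f₂ c₂) :
    IsBdryCocycle R S (f₁ + f₂) (c₁ + c₂) := by
  obtain ⟨φ₁, hφ₁, hc₁⟩ := h₁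
  obtain ⟨φ₂, hφ₂, hc₂⟩ := h₂
  refine ⟨φ₁ + φ₂, fun r => ?_, fun g r => ?_⟩
  · simp [hφ₁, hφ₂, Rep.add_hom]
  · show S.f.hom ((ihomLin (c₁ g) + ihomLin (c₂ g)) r) = _
    rw [LinearMap.add_apply, map_add, hc₁, hc₂]
    simp only [LinearMap.add_apply, map_add]
    abel

theorem isBdryCocycle_zero : IsBdryCocycle R S (0 : R ⟶ S.X₃) 0 :=
  ⟨0, fun r => by simp, fun g r => by
    show S.f.hom ((0 : R.V →ₗ[k] S.X₁.V) r) = _
    simp⟩

/-- The boundary map `∂ : Hom_G(R, X'') →+ H¹(G, Hom_k(R, X'))`. -/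
def bdry (hS : S.ShortExact) (R : Rep.{0} k G) [Module.Projective k R.V] :
    (R ⟶ S.X₃) →+ H1 ((Rep.ihom R).obj S.X₁) where
  toFun := bdryFun R S
  map_zero' := by
    rw [bdryFun_eq hS isBdryCocycle_zero, map_zero]
  map_add' f₁ f₂ := by
    obtain ⟨c₁, h₁⟩ := exists_isBdryCocycle hS f₁
    obtain ⟨c₂, h₂⟩ := exists_isBdryCocycle hS f₂
    rw [bdryFun_eq hS h₁, bdryFun_eq hS h₂, bdryFun_eq hS (isBdryCocycle_add h₁ h₂), map_add]

theorem bdry_apply (hS : S.ShortExact) [Module.Projective k R.V] (f'' : R ⟶ S.X₃) :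
    bdry hS R f'' = bdryFun R S f'' := rfl

/-- **Explicit formula for `∂`**: `∂ f''` is the class of `g ↦ f⁻¹ ∘ (g • φ - φ)` for ANY
`k`-linear lift `φ` of `f''`. -/
theorem bdry_eq (hS : S.ShortExact) [Module.Projective k R.V] {f'' : R ⟶ S.X₃}
    {c : cocycles₁ ((Rep.ihom R).obj S.X₁)} (hc : IsBdryCocycle R S f'' c) :
    bdry hS R f'' = H1π ((Rep.ihom R).obj S.X₁) c :=
  bdryFun_eq hS hc


/-- A `G`-equivariant lift gives the zero boundary cocycle. -/
theorem isBdryCocycle_zero_of_lift (f : R ⟶ S.X₂) : IsBdryCocycle R S (f ≫ S.g) 0 := by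
  refine ⟨f.hom.toLinearMap, fun r => rfl, fun g r => ?_⟩
  show S.f.hom ((0 : R.V →ₗ[k] S.X₁.V) r) = S.X₂.ρ g (f.hom (R.ρ g⁻¹ r)) - f.hom r
  rw [← Rep.hom_comm_apply, ← Module.End.mul_apply, ← map_mul]
  simp

/-- **Exactness at `Hom_G(R, X'')`**: `∂ f'' = 0` iff `f''` lifts to a `G`-map `R → X`. -/
theorem bdry_eq_zero_iff (hS : S.ShortExact) [Module.Projective k R.V] (f'' : R ⟶ S.X₃) :
    bdry hS R f'' = 0 ↔ ∃ f : R ⟶ S.X₂, f ≫ S.g = f'' := by
  constructor
  · intro h0
    obtain ⟨c, hc⟩ := exists_isBdryCocycle hS f''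
    rw [bdry_eq hS hc, H1π_eq_zero_iff] at h0
    obtain ⟨φ, hφ, hcφ⟩ := hc
    obtain ⟨ψ, hψ⟩ := h0
    have hψ' : ∀ (g : G) (r : R.V),
        S.X₁.ρ g (ihomLin ψ (R.ρ g⁻¹ r)) - ihomLin ψ r = ihomLin (c g) r := by
      intro g r
      have := congrFun hψ g
      rw [d₀₁_hom_apply] at this
      have h2 := congrArg (fun x => ihomLin x r) this
      exact h2
    let φ' : R.V →ₗ[k] S.X₂.V := φ - S.f.hom.toLinearMap ∘ₗ ihomLin ψ
    have hinv : ∀ (g : G) (r : R.V), S.X₂.ρ g (φ' (R.ρ g⁻¹ r)) = φ' r := by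
      intro g r
      have h1 := hcφ g r
      rw [← hψ' g r, map_sub, Rep.hom_comm_apply] at h1
      simp only [φ', LinearMap.sub_apply, LinearMap.comp_apply, map_sub]
      simp only [Representation.IntertwiningMap.toLinearMap_apply]
      rw [← sub_eq_zero] at h1 ⊢
      rw [← neg_eq_zero, ← h1]
      abel
    have heq : ∀ (g : G) (r : R.V), φ' (R.ρ g r) = S.X₂.ρ g (φ' r) := by
      intro g r
      rw [← hinv g (R.ρ g r), ← Module.End.mul_apply, ← map_mul]
      simp
    refine ⟨Rep.ofHom (LinearMap.intertwiningMap_of_isIntertwiningMap R.ρ S.X₂.ρ φ' heq), ?_⟩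
    apply Rep.hom_ext
    apply Representation.IntertwiningMap.ext
    apply LinearMap.ext
    intro r
    show S.g.hom (φ' r) = f''.hom r
    simp only [φ', LinearMap.sub_apply, LinearMap.comp_apply, map_sub, hφ]
    rw [Representation.IntertwiningMap.toLinearMap_apply, g_f hS, sub_zero]
  · rintro ⟨f, rfl⟩
    rw [bdry_eq hS (isBdryCocycle_zero_of_lift f), map_zero]

/-- The map `H¹(G, Hom_k(R, X)) → H¹(G, Hom_k(R, Y))` induced by `u : X ⟶ Y`. -/
abbrev ihomH1Map (R : Rep.{0} k G) {X Y : Rep.{0} k G} (u : X ⟶ Y) :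
    H1 ((Rep.ihom R).obj X) ⟶ H1 ((Rep.ihom R).obj Y) :=
  groupCohomology.map (MonoidHom.id G) ((Rep.ihom R).map u) 1

theorem ihomH1Map_H1π (R : Rep.{0} k G) {X Y : Rep.{0} k G} (u : X ⟶ Y)
    (c : cocycles₁ ((Rep.ihom R).obj X)) :
    (ihomH1Map R u).hom (H1π _ c) =
      H1π _ (mapCocycles₁ (MonoidHom.id G) ((Rep.ihom R).map u) c) := by
  have h := H1π_comp_map_apply (MonoidHom.id G) ((Rep.ihom R).map u) c
  exact h

theorem mapCocycles₁_ihom_apply (R : Rep.{0} k G) {X Y : Rep.{0} k G} (u : X ⟶ Y)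
    (c : cocycles₁ ((Rep.ihom R).obj X)) (g : G) (r : R.V) :
    ihomLin (mapCocycles₁ (MonoidHom.id G) ((Rep.ihom R).map u) c g) r =
      u.hom (ihomLin (c g) r) := rfl

/-- **Exactness at `H¹(G, Hom_k(R, X'))`**: `y ↦ 0` in `H¹(G, Hom_k(R, X))` iff `y = ∂ f''`. -/
theorem ihomH1Map_eq_zero_iff (hS : S.ShortExact) [Module.Projective k R.V]
    (y : H1 ((Rep.ihom R).obj S.X₁)) :
    (ihomH1Map R S.f).hom y = 0 ↔ ∃ f'' : R ⟶ S.X₃, bdry hS R f'' = y := by
  constructor
  · induction y using H1_induction_on with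
    | h c =>
      intro h0
      rw [ihomH1Map_H1π, H1π_eq_zero_iff] at h0
      obtain ⟨φ, hφ⟩ := h0
      have hφ' : ∀ (g : G) (r : R.V),
          S.X₂.ρ g (ihomLin φ (R.ρ g⁻¹ r)) - ihomLin φ r = S.f.hom (ihomLin (c g) r) := by
        intro g r
        have := congrFun hφ g
        rw [d₀₁_hom_apply] at this
        exact congrArg (fun x => ihomLin x r) this
      let φ'' : R.V →ₗ[k] S.X₃.V := S.g.hom.toLinearMap ∘ₗ ihomLin φ
      have hinv : ∀ (g : G) (r : R.V), S.X₃.ρ g (φ'' (R.ρ g⁻¹ r)) = φ'' r := by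
        intro g r
        have h1 := congrArg S.g.hom (hφ' g r)
        rw [g_f hS, map_sub, sub_eq_zero, Rep.hom_comm_apply] at h1
        exact h1
      have heq : ∀ (g : G) (r : R.V), φ'' (R.ρ g r) = S.X₃.ρ g (φ'' r) := by
        intro g r
        rw [← hinv g (R.ρ g r), ← Module.End.mul_apply, ← map_mul]
        simp
      refine ⟨Rep.ofHom (LinearMap.intertwiningMap_of_isIntertwiningMap R.ρ S.X₃.ρ φ'' heq), ?_⟩
      refine bdry_eq hS ⟨ihomLin φ, fun r => rfl, fun g r => (hφ' g r).symm⟩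
  · rintro ⟨f'', rfl⟩
    obtain ⟨c, hc⟩ := exists_isBdryCocycle hS f''
    rw [bdry_eq hS hc, ihomH1Map_H1π, H1π_eq_zero_iff]
    obtain ⟨φ, hφ, hcφ⟩ := hc
    refine ⟨ihomMk φ, ?_⟩
    funext g
    rw [d₀₁_hom_apply]
    apply LinearMap.ext
    intro r
    exact (hcφ g r).symm


/-- `ker ∂ = im(Hom_G(R, X) → Hom_G(R, X''))`. -/
theorem ker_bdry (hS : S.ShortExact) [Module.Projective k R.V] :
    (bdry hS R).ker = (Preadditive.rightComp R S.g).range := by
  ext f''
  rw [AddMonoidHom.mem_ker, bdry_eq_zero_iff, AddMonoidHom.mem_range]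
  rfl

/-- `im ∂ = ker(H¹(G, Hom_k(R, X')) → H¹(G, Hom_k(R, X)))`. -/
theorem range_bdry (hS : S.ShortExact) [Module.Projective k R.V] :
    (bdry hS R).range = (ihomH1Map R S.f).hom.toAddMonoidHom.ker := by
  ext y
  rw [AddMonoidHom.mem_range, AddMonoidHom.mem_ker]
  exact (ihomH1Map_eq_zero_iff hS y).symm

/-- **ALG3, final form**: `Hom_G(R, X'') / im Hom_G(R, X) ≃ ker(H¹(Hom(R, X')) → H¹(Hom(R, X)))`,
induced by `∂`. -/
def bdryEquiv (hS : S.ShortExact) (R : Rep.{0} k G) [Module.Projective k R.V] :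
    ((R ⟶ S.X₃) ⧸ (Preadditive.rightComp R S.g).range) ≃+
      (ihomH1Map R S.f).hom.toAddMonoidHom.ker :=
  (QuotientAddGroup.quotientAddEquivOfEq (ker_bdry hS).symm).trans <|
    (QuotientAddGroup.quotientKerEquivRange (bdry hS R)).trans <|
      AddEquiv.addSubgroupCongr (range_bdry hS)

theorem bdryEquiv_mk (hS : S.ShortExact) [Module.Projective k R.V] (f'' : R ⟶ S.X₃) :
    ((bdryEquiv hS R (QuotientAddGroup.mk f'') : (ihomH1Map R S.f).hom.toAddMonoidHom.ker) :
      H1 ((Rep.ihom R).obj S.X₁)) = bdry hS R f'' := rfl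

end bdry

/-! ### Free representations: `Hom_G(k[G]^{(α)}, X) → Hom_G(k[G]^{(α)}, X'')` is onto -/

theorem free_hom_surjective {S : ShortComplex (Rep.{0} k G)} (hS : S.ShortExact) (α : Type)
    (h'' : Rep.free k G α ⟶ S.X₃) : ∃ h : Rep.free k G α ⟶ S.X₂, h ≫ S.g = h'' := by
  have hsurj := g_surjective hS
  choose x hx using fun a : α => hsurj (h''.hom (Finsupp.single a (.single 1 1)))
  refine ⟨Rep.freeLift k G S.X₂ x, Rep.free_ext k G S.X₃ _ _ fun i => ?_⟩
  rw [← hx i]
  show S.g.hom (Representation.freeLift S.X₂.ρ x (Finsupp.single i (.single 1 1))) = _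
  rw [Representation.freeLift_single_single]
  simp


/-! ### ALG3 for the standard presentation `0 → R → P → N → 0` (`k = ℤ`) -/

section std

variable {G : Type} [Group G]

/-- `Bc(X) → Bc(X'')` is onto. -/
theorem homB_surjective (N : Rep.{0} ℤ G) {S : ShortComplex (Rep.{0} ℤ G)} (hS : S.ShortExact)
    (h'' : homB N S.X₃) : ∃ h : homB N S.X₂, h ≫ S.g = h'' :=
  free_hom_surjective hS N.V h''

/-- The boundary map `∂ : A(X'') → 𝔈²(X')` of ALG3 for the standard presentation. -/
def stdBdry (N : Rep.{0} ℤ G) (hR : @Module.Projective ℤ _ (stdR N).V _ (stdR N).hV2)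
    {S : ShortComplex (Rep.{0} ℤ G)} (hS : S.ShortExact) : homA N S.X₃ →+ E2 N S.X₁ :=
  haveI := hR
  bdry hS (stdR N)

variable (N : Rep.{0} ℤ G) (hR : @Module.Projective ℤ _ (stdR N).V _ (stdR N).hV2)
  {S : ShortComplex (Rep.{0} ℤ G)} (hS : S.ShortExact)
include hR hS

/-- Explicit formula: `∂ f''` is the class of the cocycle `g ↦ f⁻¹ ∘ (g • φ - φ)` for any additive
lift `φ : R → X` of `f''`. -/
theorem stdBdry_eq {f'' : homA N S.X₃} {c : cocycles₁ ((Rep.ihom (stdR N)).obj S.X₁)}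
    (hc : IsBdryCocycle (stdR N) S f'' c) : stdBdry N hR hS f'' = H1π _ c :=
  haveI := hR
  bdry_eq hS hc

theorem exists_isBdryCocycle_std (f'' : homA N S.X₃) :
    ∃ c, IsBdryCocycle (stdR N) S f'' c :=
  haveI := hR
  exists_isBdryCocycle hS f''

/-- Exactness at `A(X'')`. -/
theorem stdBdry_eq_zero_iff (f'' : homA N S.X₃) :
    stdBdry N hR hS f'' = 0 ↔ ∃ f : homA N S.X₂, f ≫ S.g = f'' :=
  haveI := hR
  bdry_eq_zero_iff hS f''

/-- Exactness at `𝔈²(X')`. -/
theorem E2map_eq_zero_iff (y : E2 N S.X₁) :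
    (T.coeffMap ((Rep.ihom (stdR N)).map S.f) 1).hom y = 0 ↔
      ∃ f'' : homA N S.X₃, stdBdry N hR hS f'' = y :=
  haveI := hR
  ihomH1Map_eq_zero_iff hS y

/-- `∂ ∘ res = 0`. -/
theorem stdBdry_resBA (h'' : homB N S.X₃) : stdBdry N hR hS (resBA N S.X₃ h'') = 0 := by
  obtain ⟨h, rfl⟩ := homB_surjective N hS h''
  rw [stdBdry_eq_zero_iff]
  exact ⟨stdι N ≫ h, by simp [resBA]⟩

/-- `A(X'') / im A(X) ≃ ker(𝔈²(X') → 𝔈²(X))`, induced by `∂`. -/
def stdBdryEquiv : (homA N S.X₃ ⧸ (Preadditive.rightComp (stdR N) S.g).range) ≃+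
    (ihomH1Map (stdR N) S.f).hom.toAddMonoidHom.ker :=
  haveI := hR
  bdryEquiv hS (stdR N)

theorem stdBdryEquiv_mk (f'' : homA N S.X₃) :
    ((stdBdryEquiv N hR hS (QuotientAddGroup.mk f'') :
      (ihomH1Map (stdR N) S.f).hom.toAddMonoidHom.ker) : E2 N S.X₁) = stdBdry N hR hS f'' := rfl

end std

/-- **ALG3** (blueprint coord/S55-E1.md §3), Spec form. -/
def ALG3Spec : Prop :=
  ∀ (G : Type) [Group G] (N : Rep.{0} ℤ G), @Module.Projective ℤ _ (stdR N).V _ (stdR N).hV2 →
  ∀ (S : ShortComplex (Rep.{0} ℤ G)), S.ShortExact →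
    (∀ h'' : homB N S.X₃, ∃ h : homB N S.X₂, h ≫ S.g = h'') ∧
    ∃ d : homA N S.X₃ →+ E2 N S.X₁,
      (∀ (f'' : homA N S.X₃) (c : cocycles₁ ((Rep.ihom (stdR N)).obj S.X₁)),
          IsBdryCocycle (stdR N) S f'' c → d f'' = H1π _ c) ∧
      (∀ f'' : homA N S.X₃, d f'' = 0 ↔ ∃ f : homA N S.X₂, f ≫ S.g = f'') ∧
      (∀ y : E2 N S.X₁, (T.coeffMap ((Rep.ihom (stdR N)).map S.f) 1).hom y = 0 ↔
          ∃ f'' : homA N S.X₃, d f'' = y) ∧
      (∀ h'' : homB N S.X₃, d (resBA N S.X₃ h'') = 0)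

theorem alg3 : ALG3Spec := fun _ _ N hR _ hS =>
  ⟨homB_surjective N hS, stdBdry N hR hS, fun _ _ hc => stdBdry_eq N hR hS hc,
    stdBdry_eq_zero_iff N hR hS, E2map_eq_zero_iff N hR hS, stdBdry_resBA N hR hS⟩

end

end Fermat.Agent.S55.E1.H354

end
-- ===== PACK-END S55/E1/H354/Alg3.lean

-- ===== PACK-BEGIN S41/Spec/HK.lean
section




/-!
# Row S41, block HK — frozen interface (sub-architect helper761)

Definitions of the operators on `X_n(A) = Hom(Γ₀(n), A)` (Lean: `Additive (Gamma0 n) →+ A`) used by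
the cohomological proof of level raising, and the exact statements (`Prop`s) of the Betti relations
between them.  Plan: `coord/S41.md` (origin/helper41) and `coord/S41-HK.md` (origin/helper761).

* `IsCuspidal φ` : `φ` kills the `γ` with `(tr γ)² = 4` (Prelude `IsParabolicHom`) and the `γ` of
  finite order;
* `incl N q`, `conjDelta N q : Γ₀(N q) →* Γ₀(N)` : the inclusion and
  `γ ↦ δ γ δ⁻¹ = [[a, q b], [c / q, d]]`, `δ = diag(q, 1)`;
* `r₁ N q φ = φ ∘ incl`, `r₂ N q φ = φ ∘ conjDelta` (degeneracy maps `X_N → X_{N q}`);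
* `t₁ N q ψ`, `t₂ N q ψ` : Mathlib's transfer along `incl`, `conjDelta` (`X_{N q} → X_N`);
* `T_l` is `Fermat.Agent.S29.H642.heckeTransfer` (on main).

All definitions are hypothesis-free (junk value `0` for the transfer along a map that is not
injective with finite-index range).
-/

set_option autoImplicit false

namespace Fermat.Agent.S41.Spec

open CongruenceSubgroup Matrix.SpecialLinearGroup ModularCurve.Period
open Fermat.Agent.S29.H642
open scoped MatrixGroups

section Defs

variable {A : Type*} [AddCommGroup A]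

/-- Cuspidal classes: homomorphisms `Γ₀(n) → A` vanishing on all `γ` with `(tr γ)² = 4` and on all
`γ` of finite order. -/
def IsCuspidal {n : ℕ} (φ : Additive (Gamma0 n) →+ A) : Prop :=
  IsParabolicHom (Gamma0 n) φ ∧ ∀ γ : Gamma0 n, IsOfFinOrder γ → φ (Additive.ofMul γ) = 0

theorem gamma0_mul_le (N q : ℕ) : Gamma0 (N * q) ≤ Gamma0 N := by
  intro g hg
  rw [Gamma0_mem, ZMod.intCast_zmod_eq_zero_iff_dvd] at hg ⊢
  exact dvd_trans (by push_cast; exact dvd_mul_right _ _) hg

/-- The inclusion `Γ₀(N q) → Γ₀(N)`. -/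
def incl (N q : ℕ) : Gamma0 (N * q) →* Gamma0 N := Subgroup.inclusion (gamma0_mul_le N q)

theorem dvd_of_mem_gamma0_mul {N q : ℕ} (γ : Gamma0 (N * q)) :
    (q : ℤ) ∣ (γ : SL(2, ℤ)) 1 0 ∧ (N : ℤ) ∣ (γ : SL(2, ℤ)) 1 0 / q := by
  have h : ((N * q : ℕ) : ℤ) ∣ (γ : SL(2, ℤ)) 1 0 :=
    (ZMod.intCast_zmod_eq_zero_iff_dvd _ _).mp (Gamma0_mem.mp γ.2)
  obtain ⟨k, hk⟩ := h
  refine ⟨⟨N * k, by rw [hk]; push_cast; ring⟩, ?_⟩
  rcases eq_or_ne q 0 with rfl | hq
  · simp
  · refine ⟨k, ?_⟩
    rw [hk]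
    push_cast
    rw [mul_assoc, mul_comm (q : ℤ) k, ← mul_assoc, Int.mul_ediv_cancel _ (by exact_mod_cast hq)]

/-- The matrix `[[a, q b], [c / q, d]]`. -/
def conjDeltaMatrix (q : ℕ) (γ : SL(2, ℤ)) : Matrix (Fin 2) (Fin 2) ℤ :=
  !![γ 0 0, q * γ 0 1; γ 1 0 / q, γ 1 1]

theorem det_conjDeltaMatrix {q : ℕ} {γ : SL(2, ℤ)} (h : (q : ℤ) ∣ γ 1 0) :
    (conjDeltaMatrix q γ).det = 1 := by
  have hdet := γ.det_coe
  rw [Matrix.det_fin_two] at hdet
  rw [conjDeltaMatrix, Matrix.det_fin_two_of]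
  obtain ⟨k, hk⟩ := h
  rcases eq_or_ne q 0 with rfl | hq
  · simp only [Nat.cast_zero, zero_mul] at hk ⊢
    rw [hk] at hdet
    simpa using hdet
  · have hq' : (q : ℤ) ≠ 0 := by exact_mod_cast hq
    rw [hk, Int.mul_ediv_cancel_left _ hq']
    rw [hk] at hdet
    linear_combination hdet

theorem conjDeltaMatrix_one (q : ℕ) : conjDeltaMatrix q 1 = 1 := by
  ext i j
  fin_cases i <;> fin_cases j <;> simp [conjDeltaMatrix]

theorem conjDeltaMatrix_mul {q : ℕ} {γ γ' : SL(2, ℤ)} (h : (q : ℤ) ∣ γ 1 0)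
    (h' : (q : ℤ) ∣ γ' 1 0) :
    conjDeltaMatrix q (γ * γ') = conjDeltaMatrix q γ * conjDeltaMatrix q γ' := by
  obtain ⟨k, hk⟩ := h
  obtain ⟨k', hk'⟩ := h'
  have e00 : (γ * γ') 0 0 = γ 0 0 * γ' 0 0 + γ 0 1 * γ' 1 0 := by
    simp [Matrix.mul_apply, Fin.sum_univ_two]
  have e01 : (γ * γ') 0 1 = γ 0 0 * γ' 0 1 + γ 0 1 * γ' 1 1 := by
    simp [Matrix.mul_apply, Fin.sum_univ_two]
  have e10 : (γ * γ') 1 0 = γ 1 0 * γ' 0 0 + γ 1 1 * γ' 1 0 := by
    simp [Matrix.mul_apply, Fin.sum_univ_two]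
  have e11 : (γ * γ') 1 1 = γ 1 0 * γ' 0 1 + γ 1 1 * γ' 1 1 := by
    simp [Matrix.mul_apply, Fin.sum_univ_two]
  rcases eq_or_ne q 0 with rfl | hq
  · simp only [Nat.cast_zero, zero_mul] at hk hk'
    ext i j
    fin_cases i <;> fin_cases j <;>
      simp [conjDeltaMatrix, Matrix.mul_apply, Fin.sum_univ_two, e00, e11, hk, hk']
  · have hq' : (q : ℤ) ≠ 0 := by exact_mod_cast hq
    have hd : ((q : ℤ) * k * γ' 0 0 + γ 1 1 * (q * k')) / q = k * γ' 0 0 + γ 1 1 * k' := by
      rw [show (q : ℤ) * k * γ' 0 0 + γ 1 1 * (q * k') = q * (k * γ' 0 0 + γ 1 1 * k') by ring,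
        Int.mul_ediv_cancel_left _ hq']
    ext i j
    fin_cases i <;> fin_cases j <;>
      simp [conjDeltaMatrix, Matrix.mul_apply, Fin.sum_univ_two, e00, e01, e10, e11, hk, hk',
        Int.mul_ediv_cancel_left _ hq', hd] <;> ring

/-- `c_δ : Γ₀(N q) →* Γ₀(N)`, `[[a, b], [c, d]] ↦ [[a, q b], [c / q, d]]`
(conjugation by `δ = diag(q, 1)`). -/
def conjDelta (N q : ℕ) : Gamma0 (N * q) →* Gamma0 N where
  toFun γ := ⟨⟨conjDeltaMatrix q γ, det_conjDeltaMatrix (dvd_of_mem_gamma0_mul γ).1⟩,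
    mem_Gamma0_of_dvd (by simpa [conjDeltaMatrix] using (dvd_of_mem_gamma0_mul γ).2)⟩
  map_one' := by
    apply Subtype.ext
    apply Subtype.ext
    exact conjDeltaMatrix_one q
  map_mul' γ γ' := by
    apply Subtype.ext
    apply Subtype.ext
    exact conjDeltaMatrix_mul (dvd_of_mem_gamma0_mul γ).1 (dvd_of_mem_gamma0_mul γ').1

/-- Degeneracy map `r₁ : X_N → X_{N q}`, restriction to `Γ₀(N q)`. -/
def r₁ (N q : ℕ) (φ : Additive (Gamma0 N) →+ A) : Additive (Gamma0 (N * q)) →+ A :=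
  φ.comp (MonoidHom.toAdditive (incl N q))

/-- Degeneracy map `r₂ : X_N → X_{N q}`, `φ ↦ φ ∘ c_δ`. -/
def r₂ (N q : ℕ) (φ : Additive (Gamma0 N) →+ A) : Additive (Gamma0 (N * q)) →+ A :=
  φ.comp (MonoidHom.toAdditive (conjDelta N q))

/-- The transfer (corestriction) `Hom(H, A) → Hom(G, A)` along a group homomorphism `f : H →* G`
which is injective with range of finite index (Mathlib's `MonoidHom.transfer` for the subgroup
`f.range`, transported along `H ≃* f.range`); `0` otherwise. -/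
noncomputable def transferAlong {H G : Type*} [Group H] [Group G] (f : H →* G)
    (ψ : Additive H →+ A) : Additive G →+ A :=
  open Classical in
  if h : Function.Injective f ∧ f.range.FiniteIndex then
    haveI := h.2
    MonoidHom.toAdditiveLeft (MonoidHom.transfer
      ((AddMonoidHom.toMultiplicativeRight ψ).comp
        (MonoidHom.ofInjective h.1).symm.toMonoidHom))
  else 0

/-- `t₁ : X_{N q} → X_N`, the transfer along `Γ₀(N q) ≤ Γ₀(N)`. -/
noncomputable def t₁ (N q : ℕ) (ψ : Additive (Gamma0 (N * q)) →+ A) : Additive (Gamma0 N) →+ A :=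
  transferAlong (incl N q) ψ

/-- `t₂ : X_{N q} → X_N`, the transfer along `c_δ : Γ₀(N q) → Γ₀(N)`. -/
noncomputable def t₂ (N q : ℕ) (ψ : Additive (Gamma0 (N * q)) →+ A) : Additive (Gamma0 N) →+ A :=
  transferAlong (conjDelta N q) ψ

end Defs

/-! ## Statements of block HK -/

universe u

/-- (HK-0) additivity and naturality in the coefficients of `r₁, r₂, t₁, t₂`. -/
def FunctorialityStatement : Prop :=
  ∀ (N q : ℕ) (A B : Type u) [AddCommGroup A] [AddCommGroup B] (π : A →+ B),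
    (∀ φ φ' : Additive (Gamma0 N) →+ A,
      r₁ N q (φ + φ') = r₁ N q φ + r₁ N q φ' ∧ r₂ N q (φ + φ') = r₂ N q φ + r₂ N q φ') ∧
    (∀ ψ ψ' : Additive (Gamma0 (N * q)) →+ A,
      t₁ N q (ψ + ψ') = t₁ N q ψ + t₁ N q ψ' ∧ t₂ N q (ψ + ψ') = t₂ N q ψ + t₂ N q ψ') ∧
    (∀ φ : Additive (Gamma0 N) →+ A,
      r₁ N q (π.comp φ) = π.comp (r₁ N q φ) ∧ r₂ N q (π.comp φ) = π.comp (r₂ N q φ)) ∧
    (∀ ψ : Additive (Gamma0 (N * q)) →+ A,
      t₁ N q (π.comp ψ) = π.comp (t₁ N q ψ) ∧ t₂ N q (π.comp ψ) = π.comp (t₂ N q ψ))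

/-- (HK-1a) `r₁, r₂` preserve cuspidal classes. -/
def RestrictCuspStatement : Prop :=
  ∀ (N q : ℕ) (A : Type u) [AddCommGroup A] (φ : Additive (Gamma0 N) →+ A),
    IsCuspidal φ → IsCuspidal (r₁ N q φ) ∧ IsCuspidal (r₂ N q φ)

/-- (HK-1b) `t₁, t₂` preserve cuspidal classes. -/
def TransferCuspStatement : Prop :=
  ∀ (N q : ℕ) (A : Type u) [AddCommGroup A] (ψ : Additive (Gamma0 (N * q)) →+ A),
    IsCuspidal ψ → IsCuspidal (t₁ N q ψ) ∧ IsCuspidal (t₂ N q ψ)

/-- (HK-1c) `T_l` preserves cuspidal classes. -/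
def HeckeCuspStatement : Prop :=
  ∀ (N l : ℕ) [Fact l.Prime] (hl : ¬ l ∣ N) (A : Type u) [AddCommGroup A]
    (φ : Additive (Gamma0 N) →+ A), IsCuspidal φ → IsCuspidal (heckeTransfer hl φ)

/-- (HK-2a) `T_l` commutes with `r₁, r₂` (`l ∤ N q`). -/
def HeckeRestrictStatement : Prop :=
  ∀ (N q l : ℕ) [Fact l.Prime] (hl : ¬ l ∣ N) (hl' : ¬ l ∣ N * q) (A : Type u) [AddCommGroup A]
    (φ : Additive (Gamma0 N) →+ A),
    heckeTransfer hl' (r₁ N q φ) = r₁ N q (heckeTransfer hl φ) ∧
    heckeTransfer hl' (r₂ N q φ) = r₂ N q (heckeTransfer hl φ)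

/-- (HK-2b) `T_l` commutes with `t₁, t₂` (`l ∤ N q`, `N q ≠ 0`). -/
def HeckeTransferStatement : Prop :=
  ∀ (N q l : ℕ) [Fact l.Prime] (hl : ¬ l ∣ N) (hl' : ¬ l ∣ N * q), N * q ≠ 0 →
    ∀ (A : Type u) [AddCommGroup A] (ψ : Additive (Gamma0 (N * q)) →+ A),
    heckeTransfer hl (t₁ N q ψ) = t₁ N q (heckeTransfer hl' ψ) ∧
    heckeTransfer hl (t₂ N q ψ) = t₂ N q (heckeTransfer hl' ψ)

/-- (HK-3) `t₁ r₁ = q + 1 = t₂ r₂` (`q` prime, `q ∤ N`, `N ≠ 0`). -/
def TransferRestrictStatement : Prop :=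
  ∀ (N q : ℕ), N ≠ 0 → q.Prime → ¬ q ∣ N → ∀ (A : Type u) [AddCommGroup A]
    (φ : Additive (Gamma0 N) →+ A),
    t₁ N q (r₁ N q φ) = (q + 1) • φ ∧ t₂ N q (r₂ N q φ) = (q + 1) • φ

/-- (HK-4) `t₁ r₂ = T_q = t₂ r₁` (`q` prime, `q ∤ N`, `N ≠ 0`). -/
def TransferRestrictHeckeStatement : Prop :=
  ∀ (N q : ℕ) [Fact q.Prime] (hq : ¬ q ∣ N), N ≠ 0 → ∀ (A : Type u) [AddCommGroup A]
    (φ : Additive (Gamma0 N) →+ A),
    t₁ N q (r₂ N q φ) = heckeTransfer hq φ ∧ t₂ N q (r₁ N q φ) = heckeTransfer hq φ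

/-- (HK-5) the `T_l` commute. -/
def HeckeCommStatement : Prop :=
  ∀ (N l l' : ℕ) [Fact l.Prime] [Fact l'.Prime] (hl : ¬ l ∣ N) (hl' : ¬ l' ∣ N)
    (A : Type u) [AddCommGroup A] (φ : Additive (Gamma0 N) →+ A),
    heckeTransfer hl (heckeTransfer hl' φ) = heckeTransfer hl' (heckeTransfer hl φ)

/-- Block HK. -/
def HKStatement : Prop :=
  FunctorialityStatement.{u} ∧ RestrictCuspStatement.{u} ∧ TransferCuspStatement.{u} ∧
  HeckeCuspStatement.{u} ∧ HeckeRestrictStatement.{u} ∧ HeckeTransferStatement.{u} ∧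
  TransferRestrictStatement.{u} ∧ TransferRestrictHeckeStatement.{u} ∧ HeckeCommStatement.{u}

end Fermat.Agent.S41.Spec

end
-- ===== PACK-END S41/Spec/HK.lean

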