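import Mathlib
import Fermat.Prelude.Def_GaloisRep_Flat
import Fermat.Prelude.Def_ModularCurve_ArithmeticGalois
import Fermat.Prelude.Def_WeierstrassCurve_Mlc1RowStatement
import Fermat.Prelude.Def_WeierstrassCurve_ConductorLevel
import Fermat.Prelude.Def_FLTPrelim_ModularRep
import Fermat.Prelude.Def_CuspForm_HeckeAlgebra
import Fermat.Prelude.Def_GaloisRep_DeformationCondition
import Fermat.Prelude.Thm_IsLocalRing_isAdicComplete_of_module_finite
import Fermat.Agent.Pack.S44C.G0E19L3
import Fermat.Agent.Pack.S43GC.G2E0L0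
import Fermat.Agent.Pack.Fast891

-- ===== PACK-BEGIN S56/H384/ApproxVal.lean
section


/-!
# S56 / W2-SS piece A5 (helper384): valuation-theoretic tools for `exists_point_near`

* `val_le_one_of_isIntegral` : elements integral over a ring with `v`-integral image are
  `v`-integral;
* `exists_unit_diff_finset` : in an algebraically closed valued field there are arbitrarily large
  finite sets of integral elements with pairwise unit differences;
* `exists_avoid` : avoidance lemma (a finite family of "proper" conditions `v (φ x c) ≤ γ` on an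
  integral lattice can be avoided simultaneously).
-/

set_option autoImplicit false

namespace Fermat.Agent.S56.H384

open Polynomial

section Val

variable {Ω : Type*} [Field Ω] {Γ : Type*} [LinearOrderedCommGroupWithZero Γ] (v : Valuation Ω Γ)

/-- Elements integral over a ring whose image is `v`-integral are `v`-integral. -/
theorem val_le_one_of_isIntegral {R : Type*} [CommRing R] [Algebra R Ω]
    (hR : ∀ r : R, v (algebraMap R Ω r) ≤ 1) {y : Ω} (hy : IsIntegral R y) : v y ≤ 1 := by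
  obtain ⟨p, hp, hpy⟩ := hy
  let φ : R →+* v.integer := (algebraMap R Ω).codRestrict v.integer (fun r => hR r)
  have hy' : IsIntegral v.integer y := by
    refine ⟨p.map φ, hp.map φ, ?_⟩
    rw [Polynomial.eval₂_map]
    exact hpy
  exact (Valuation.integer.integers v).mem_of_integral hy'

/-- A product of two elements `≤ 1` which equals `1` forces both factors to be `1`. -/
theorem eq_one_of_mul_eq_one_of_le {a b : Γ} (ha : a ≤ 1) (hb : b ≤ 1) (h : a * b = 1) :
    a = 1 ∧ b = 1 := by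
  constructor
  · refine le_antisymm ha ?_
    calc (1 : Γ) = a * b := h.symm
      _ ≤ a * 1 := by gcongr
      _ = a := mul_one a
  · refine le_antisymm hb ?_
    calc (1 : Γ) = a * b := h.symm
      _ ≤ 1 * b := by gcongr
      _ = b := one_mul b

/-- In an algebraically closed valued field there are arbitrarily large finite sets of integral
elements with pairwise unit differences. -/
theorem exists_unit_diff_finset [IsAlgClosed Ω] (k : ℕ) :
    ∃ S : Finset Ω, S.card = k ∧ (∀ s ∈ S, v s ≤ 1) ∧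
      ∀ s ∈ S, ∀ t ∈ S, s ≠ t → v (s - t) = 1 := by
  classical
  induction k with
  | zero => exact ⟨∅, rfl, by simp, by simp⟩
  | succ k ih =>
    obtain ⟨S, hcard, hint, hdiff⟩ := ih
    set Q : Polynomial Ω := X * ∏ s ∈ S, (X - C s) with hQ
    have hQm : Q.Monic := monic_X.mul (monic_prod_of_monic _ _ fun s _ => monic_X_sub_C s)
    have hQd : 0 < Q.degree := by
      have h1 : Q.natDegree = 1 + (∏ s ∈ S, (X - C s)).natDegree := by
        rw [hQ, (monic_X (R := Ω)).natDegree_mul
          (monic_prod_of_monic _ _ fun s _ => monic_X_sub_C s), natDegree_X]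
      exact natDegree_pos_iff_degree_pos.mp (by omega)
    obtain ⟨t, ht⟩ := IsAlgClosed.exists_root (Q - C 1) (by rw [degree_sub_C hQd]; exact hQd.ne')
    have ht' : t * ∏ s ∈ S, (t - s) = 1 := by
      have := ht
      simp only [IsRoot, hQ, eval_sub, eval_mul, eval_X, eval_prod, eval_C, sub_eq_zero] at this
      exact this
    have hvt : v t * ∏ s ∈ S, v (t - s) = 1 := by
      rw [← map_prod, ← map_mul, ht', map_one]
    have htint : v t ≤ 1 := by
      by_contra hlt
      push Not at hlt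
      have h1 : ∀ s ∈ S, 1 ≤ v (t - s) := fun s hs => by
        rw [Valuation.map_sub_eq_of_lt_left v ((hint s hs).trans_lt hlt)]
        exact hlt.le
      have h2 : (1 : Γ) ≤ ∏ s ∈ S, v (t - s) := Finset.one_le_prod' h1
      have h3 : v t ≤ v t * ∏ s ∈ S, v (t - s) := by
        calc v t = v t * 1 := (mul_one _).symm
          _ ≤ v t * ∏ s ∈ S, v (t - s) := by gcongr
      rw [hvt] at h3
      exact absurd hlt (not_lt.mpr h3)
    have hle : ∀ s ∈ S, v (t - s) ≤ 1 := fun s hs => Valuation.map_sub_le v htint (hint s hs)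
    have hprod : ∏ s ∈ S, v (t - s) = 1 :=
      (eq_one_of_mul_eq_one_of_le htint (Finset.prod_le_one' hle) hvt).2
    have hts : ∀ s ∈ S, v (t - s) = 1 := (Finset.prod_eq_one_iff_of_le_one' hle).mp hprod
    have htS : t ∉ S := by
      intro h
      have := hts t h
      simp at this
    refine ⟨insert t S, by rw [Finset.card_insert_of_notMem htS, hcard], ?_, ?_⟩
    · intro s hs
      rcases Finset.mem_insert.mp hs with rfl | hs
      · exact htint
      · exact hint s hs
    · intro s hs s' hs' hne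
      rcases Finset.mem_insert.mp hs with h1 | h1 <;>
        rcases Finset.mem_insert.mp hs' with h2 | h2
      · exact absurd (h1.trans h2.symm) hne
      · rw [h1]; exact hts s' h2
      · rw [h2, Valuation.map_sub_swap]; exact hts s h1
      · exact hdiff s h1 s' h2 hne

/-- **Avoidance lemma.** Let `M` be a lattice (closed under addition and integral scalars) in an
`Ω`-vector space and `φ x` linear functionals.  If for each `x ∈ T` some element of `M` has
`γ < v (φ x c)`, then a single element of `M` works for all `x ∈ T`. -/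
theorem exists_avoid [IsAlgClosed Ω] {V : Type*} [AddCommGroup V] [Module Ω V] (M : V → Prop)
    (hM0 : M 0) (hMadd : ∀ x y, M x → M y → M (x + y))
    (hMsmul : ∀ (s : Ω) x, v s ≤ 1 → M x → M (s • x))
    {X : Type*} (φ : X → V →ₗ[Ω] Ω) (γ : Γ) (T : Finset X)
    (hbad : ∀ x ∈ T, ∃ c, M c ∧ γ < v (φ x c)) :
    ∃ c, M c ∧ ∀ x ∈ T, γ < v (φ x c) := by
  classical
  induction T using Finset.induction_on with
  | empty => exact ⟨0, hM0, by simp⟩
  | insert x0 T hx0 ih =>
    obtain ⟨c1, hc1M, hc1⟩ := ih (fun x hx => hbad x (Finset.mem_insert_of_mem hx))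
    obtain ⟨c0, hc0M, hc0⟩ := hbad x0 (Finset.mem_insert_self _ _)
    by_cases h1 : γ < v (φ x0 c1)
    · refine ⟨c1, hc1M, fun x hx => ?_⟩
      rcases Finset.mem_insert.mp hx with rfl | hxT
      · exact h1
      · exact hc1 x hxT
    · push Not at h1
      obtain ⟨S, hScard, hSint, hSdiff⟩ := exists_unit_diff_finset v (T.card + 1)
      let Bad : X → Finset Ω := fun x => S.filter (fun s => v (φ x (c0 + s • c1)) ≤ γ)
      have hBad1 : ∀ x ∈ T, (Bad x).card ≤ 1 := by
        intro x hx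
        rw [Finset.card_le_one]
        intro s hs s' hs'
        by_contra hne
        simp only [Bad, Finset.mem_filter] at hs hs'
        have hunit := hSdiff s hs.1 s' hs'.1 hne
        have h2 : v (φ x ((s - s') • c1)) ≤ γ := by
          have e : (s - s') • c1 = (c0 + s • c1) - (c0 + s' • c1) := by rw [sub_smul]; abel
          rw [e, map_sub]
          exact Valuation.map_sub_le v hs.2 hs'.2
        rw [map_smul, smul_eq_mul, map_mul, hunit, one_mul] at h2
        exact absurd h2 (not_le.mpr (hc1 x hx))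
      have hcard : (T.biUnion Bad).card < S.card := by
        calc (T.biUnion Bad).card ≤ ∑ x ∈ T, (Bad x).card := Finset.card_biUnion_le
          _ ≤ ∑ x ∈ T, 1 := Finset.sum_le_sum hBad1
          _ = T.card := by simp
          _ < S.card := by omega
      obtain ⟨s, hsS, hsn⟩ := Finset.exists_mem_notMem_of_card_lt_card hcard
      refine ⟨c0 + s • c1, hMadd _ _ hc0M (hMsmul s c1 (hSint s hsS) hc1M), ?_⟩
      intro x hx
      rcases Finset.mem_insert.mp hx with rfl | hxT
      · rw [map_add, map_smul, smul_eq_mul]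
        have h2 : v (s * φ x c1) ≤ γ := by
          rw [map_mul]
          exact mul_le_of_le_one_of_le (hSint s hsS) h1
        rw [Valuation.map_add_eq_of_lt_left v (h2.trans_lt hc0)]
        exact hc0
      · by_contra hle
        push Not at hle
        exact hsn (Finset.mem_biUnion.mpr ⟨x, hxT, Finset.mem_filter.mpr ⟨hsS, hle⟩⟩)

end Val

end Fermat.Agent.S56.H384

end
-- ===== PACK-END S56/H384/ApproxVal.lean

-- ===== PACK-BEGIN S56/H334/RamBasic.lean
section


/-!
# S56 / W-FLAT-SS, piece FL-RAM (helper334), part 1: lower ramification groups, abstractly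

Setting: a discrete valuation ring `B` and a group `Γ` acting on `B` by ring automorphisms
(`MulSemiringAction Γ B`).  No fields, no completeness.

* `ramGroup Γ B n` : the `n`-th lower ramification group `Γ_n = {σ | ∀ x, σ x - x ∈ 𝔪 ^ (n+1)}`
  (`Γ_0` = inertia, `Γ_1` = wild inertia); Mathlib's `AddSubgroup.inertia` of `𝔪 ^ (n+1)`.
* `ramGroup_normal`, `ramGroup_antitone`.
* `mem_ramGroup_iff_dvd` : membership in terms of divisibility by powers of a uniformizer.
* `mem_ramGroup_of_adjoin` : if `B = A[x]` with `A` fixed by `Γ`, then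
  `σ ∈ Γ_n ↔ σ x - x ∈ 𝔪 ^ (n+1)`   (Serre, Local Fields IV §1 Lemma 1).
* `exists_ramGroup_eq_bot` : for a finite group acting faithfully, `Γ_n = 1` for `n ≫ 0`.
-/

set_option autoImplicit false
set_option linter.unusedSectionVars false

open IsLocalRing

namespace Fermat.Agent.S56.H334

variable {B : Type*} [CommRing B] [IsDomain B] [IsDiscreteValuationRing B]
variable {Γ : Type*} [Group Γ] [MulSemiringAction Γ B]

/-! ### Automorphisms and uniformizers -/

theorem irreducible_smul (g : Γ) {π : B} (hπ : Irreducible π) : Irreducible (g • π) :=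
  (MulEquiv.irreducible_iff (MulSemiringAction.toRingEquiv Γ B g).toMulEquiv).2 hπ

theorem associated_smul (g : Γ) {π : B} (hπ : Irreducible π) : Associated (g • π) π :=
  IsDiscreteValuationRing.associated_of_irreducible B (irreducible_smul g hπ) hπ

theorem dvd_smul_of_dvd (g : Γ) {a b : B} (h : a ∣ b) : g • a ∣ g • b := by
  obtain ⟨c, rfl⟩ := h
  exact ⟨g • c, smul_mul' g a c⟩

theorem pow_dvd_smul_iff (g : Γ) {π : B} (hπ : Irreducible π) (n : ℕ) (x : B) :
    π ^ n ∣ g • x ↔ π ^ n ∣ x := by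
  have key : ∀ (h : Γ) (y : B), π ^ n ∣ y → π ^ n ∣ h • y := by
    intro h y hy
    have h1 : h • (π ^ n) ∣ h • y := dvd_smul_of_dvd h hy
    rw [smul_pow'] at h1
    exact ((associated_smul h hπ).pow_pow (n := n)).symm.dvd.trans h1
  constructor
  · intro h
    have := key g⁻¹ _ h
    rwa [inv_smul_smul] at this
  · exact key g x

theorem mem_maximalIdeal_pow_iff_dvd {π : B} (hπ : Irreducible π) (n : ℕ) (x : B) :
    x ∈ maximalIdeal B ^ n ↔ π ^ n ∣ x := by
  rw [hπ.maximalIdeal_eq, Ideal.span_singleton_pow, Ideal.mem_span_singleton]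

theorem smul_mem_maximalIdeal_pow_iff (g : Γ) (n : ℕ) (x : B) :
    g • x ∈ maximalIdeal B ^ n ↔ x ∈ maximalIdeal B ^ n := by
  obtain ⟨π, hπ⟩ := IsDiscreteValuationRing.exists_irreducible B
  rw [mem_maximalIdeal_pow_iff_dvd hπ, mem_maximalIdeal_pow_iff_dvd hπ, pow_dvd_smul_iff g hπ]

/-! ### Ramification groups -/

/-- The `n`-th lower ramification group `Γ_n` (`n ≥ 0`): the elements acting trivially on
`B / 𝔪 ^ (n+1)`. -/
def ramGroup (Γ : Type*) (B : Type*) [CommRing B] [IsDomain B] [IsDiscreteValuationRing B]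
    [Group Γ] [MulSemiringAction Γ B] (n : ℕ) : Subgroup Γ :=
  (maximalIdeal B ^ (n + 1)).toAddSubgroup.inertia Γ

theorem mem_ramGroup_iff {σ : Γ} {n : ℕ} :
    σ ∈ ramGroup Γ B n ↔ ∀ x : B, σ • x - x ∈ maximalIdeal B ^ (n + 1) :=
  Iff.rfl

theorem mem_ramGroup_iff_dvd {π : B} (hπ : Irreducible π) {σ : Γ} {n : ℕ} :
    σ ∈ ramGroup Γ B n ↔ ∀ x : B, π ^ (n + 1) ∣ σ • x - x := by
  rw [mem_ramGroup_iff]
  exact forall_congr' fun x => mem_maximalIdeal_pow_iff_dvd hπ (n + 1) _

theorem ramGroup_antitone : Antitone (ramGroup Γ B) := by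
  intro m n hmn σ hσ x
  exact Ideal.pow_le_pow_right (Nat.succ_le_succ hmn) (hσ x)

instance ramGroup_normal (n : ℕ) : (ramGroup Γ B n).Normal := by
  constructor
  intro σ hσ g x
  have h1 : (g * σ * g⁻¹) • x - x = g • (σ • (g⁻¹ • x) - g⁻¹ • x) := by
    rw [smul_sub, smul_inv_smul, mul_smul, mul_smul]
  show (g * σ * g⁻¹) • x - x ∈ maximalIdeal B ^ (n + 1)
  rw [h1, smul_mem_maximalIdeal_pow_iff]
  exact hσ _

/-! ### Generators -/

section Adjoin

variable {A : Type*} [CommRing A] [Algebra A B] [SMulCommClass Γ A B]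

omit [IsDomain B] [IsDiscreteValuationRing B] in
/-- `σ y - y` is divisible by `σ x - x` for every `y ∈ A[x]` (`A` fixed by `σ`). -/
theorem sub_dvd_smul_sub_of_mem_adjoin (σ : Γ) (x : B) {y : B}
    (hy : y ∈ Algebra.adjoin A {x}) : σ • x - x ∣ σ • y - y := by
  induction hy using Algebra.adjoin_induction with
  | mem z hz =>
    rw [Set.mem_singleton_iff] at hz
    rw [hz]
  | algebraMap a =>
    rw [smul_algebraMap, sub_self]
    exact dvd_zero _
  | add y z _ _ hy hz =>
    have : σ • (y + z) - (y + z) = (σ • y - y) + (σ • z - z) := by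
      rw [smul_add]; ring
    rw [this]
    exact dvd_add hy hz
  | mul y z _ _ hy hz =>
    have : σ • (y * z) - y * z = (σ • y - y) * σ • z + y * (σ • z - z) := by
      rw [smul_mul']; ring
    rw [this]
    exact dvd_add (Dvd.dvd.mul_right hy _) (Dvd.dvd.mul_left hz _)

/-- **Serre, Local Fields IV §1 Lemma 1.**  If `B = A[x]`, then `σ ∈ Γ_n ↔ σ x - x ∈ 𝔪^(n+1)`. -/
theorem mem_ramGroup_of_adjoin {x : B} (hx : Algebra.adjoin A {x} = ⊤) {σ : Γ} {n : ℕ} :
    σ ∈ ramGroup Γ B n ↔ σ • x - x ∈ maximalIdeal B ^ (n + 1) := by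
  constructor
  · intro h
    exact h x
  · intro h y
    have hy : y ∈ Algebra.adjoin A {x} := by rw [hx]; exact Algebra.mem_top
    obtain ⟨c, hc⟩ := sub_dvd_smul_sub_of_mem_adjoin (A := A) σ x hy
    rw [hc]
    exact Ideal.mul_mem_right _ _ h

end Adjoin

/-! ### Faithful actions of finite groups -/

theorem eq_one_of_forall_mem_ramGroup [FaithfulSMul Γ B] {σ : Γ}
    (h : ∀ n, σ ∈ ramGroup Γ B n) : σ = 1 := by
  apply FaithfulSMul.eq_of_smul_eq_smul (α := B)
  intro x
  rw [one_smul]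
  have h0 : σ • x - x ∈ (⨅ n : ℕ, maximalIdeal B ^ n : Ideal B) := by
    rw [Ideal.mem_iInf]
    intro n
    exact Ideal.pow_le_pow_right (Nat.le_succ n) (h n x)
  rw [Ideal.iInf_pow_eq_bot_of_isLocalRing (maximalIdeal B) (IsLocalRing.maximalIdeal.isMaximal B).ne_top,
    Ideal.mem_bot, sub_eq_zero] at h0
  exact h0

theorem exists_ramGroup_eq_bot [Finite Γ] [FaithfulSMul Γ B] : ∃ n, ramGroup Γ B n = ⊥ := by
  classical
  by_contra hne
  rw [not_exists] at hne
  -- every `Γ_n` contains a non-trivial element; by finiteness some element lies in all of them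
  have h1 : ∀ n, ∃ σ : Γ, σ ≠ 1 ∧ σ ∈ ramGroup Γ B n := by
    intro n
    obtain ⟨σ, hσ1⟩ := (Subgroup.ne_bot_iff_exists_ne_one).1 (hne n)
    exact ⟨σ.1, fun h => hσ1 (Subtype.ext h), σ.2⟩
  choose f hf1 hf using h1
  obtain ⟨σ, hσ⟩ := Finite.exists_infinite_fiber f
  have hall : ∀ n, σ ∈ ramGroup Γ B n := by
    intro n
    obtain ⟨m, hm, hnm⟩ := (Set.infinite_coe_iff.1 hσ).exists_gt n
    rw [Set.mem_preimage, Set.mem_singleton_iff] at hm
    have := hf m
    rw [hm] at this
    exact ramGroup_antitone hnm.le this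
  have hσ1 := eq_one_of_forall_mem_ramGroup hall
  obtain ⟨m, hm⟩ := (Set.infinite_coe_iff.1 hσ).nonempty
  rw [Set.mem_preimage, Set.mem_singleton_iff] at hm
  exact hf1 m (hm.trans hσ1)

end Fermat.Agent.S56.H334

end
-- ===== PACK-END S56/H334/RamBasic.lean

-- ===== PACK-BEGIN S19/Defs.lean
section




/-!
# Cell A3 (S19) — FROZEN top-level interface (row-lead helper15)

Route Z (origin/helper15:coord/A3.md, origin/helper19:coord/A3-route-helper19.md):

    frozen S19  <==  FIN (torsion finite)  +  ORDER (an `OrderDatum` for the torsion)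
    ORD block   :  `OrdStatement`   : OrderDatum  ==>  HopfModel          (pure algebra)
    glue        :  `S19_of_hopfModel` (file `Glue.lean`)                  (unfolding)

Everything here is definitions only.  Interfaces are frozen; ask helper15 (note kind 'interface')
before proposing a change.
-/

set_option autoImplicit false

noncomputable section

namespace Fermat.Agent.S19

/-- `Q̄`. -/
abbrev Qb : Type := AlgebraicClosure ℚ

/-- `Gal(Q̄/Q)`. -/
abbrev GalQ : Type := Qb ≃ₐ[ℚ] Qb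

/-- `Z_(ℓ)` as a subring of `ℚ` (the Prelude ring). -/
abbrev Rl (ℓ : ℕ) : Subring ℚ := GaloisRep.ratLocalizedAt ℓ

/-- The integral closure of `Z_(ℓ)` in `Q̄`. -/
abbrev Zb (ℓ : ℕ) : Subalgebra (Rl ℓ) Qb := integralClosure (Rl ℓ) Qb

/-- The S19-shaped conclusion for an abstract module `M` with a map `act : Gal → M → M`:
a finite flat commutative cocommutative Hopf algebra over `Z_(ℓ)` whose `Q̄`-points are `M`,
additively and Galois-equivariantly. -/
def HopfModel (ℓ : ℕ) (M : Type) [AddCommGroup M] (act : GalQ → M → M) : Prop :=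
  ∃ (H : Type) (_ : CommRing H) (_ : HopfAlgebra (Rl ℓ) H),
    Module.Finite (Rl ℓ) H ∧ Module.Flat (Rl ℓ) H ∧ Coalgebra.IsCocomm (Rl ℓ) H ∧
    ∃ e : WithConv (H →ₐ[Rl ℓ] Qb) ≃ M,
      (∀ f g, e (f * g) = e f + e g) ∧
      ∀ (σ : GalQ) (f g : WithConv (H →ₐ[Rl ℓ] Qb)),
        (∀ h : H, g h = σ (f h)) → e g = act σ (e f)

/-- The two families of "coordinate functions" on `M × M` coming from a set of functions on `M`. -/
def coordFunctions {M : Type} (S : Set (M → Qb)) : Set (M × M → Qb) :=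
  {g | ∃ h ∈ S, g = fun p => h p.1} ∪ {g | ∃ h ∈ S, g = fun p => h p.2}

/-- **ORDER datum** (route Z, §0): a set `gens` of functions `M → Q̄` which are
Galois-equivariant, have values integral over `Z_(ℓ)`, separate the points of `M`, and whose
translates `(s,t) ↦ f (s+t)` are `Z̄_(ℓ)`-polynomial in the coordinate functions
`(s,t) ↦ h s`, `(s,t) ↦ h t`  (`h ∈ gens`).

* The only axiom on `act` is additivity `act_add` (v2, 18:30Z: without it `OrdStatement` is
  false — counterexamples by helper979, helper259, helper79); no finiteness of `gens`, no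
  closure of `gens` under anything.
* `add_mem` is over `Zb ℓ` (integral closure in `Q̄`), which is WEAKER than over `Z_(ℓ)`;
  the ORD block proves that it implies the statement over `Z_(ℓ)`. -/
structure OrderDatum (ℓ : ℕ) (M : Type) [AddCommGroup M] (act : GalQ → M → M) where
  act_add : ∀ (σ : GalQ) (a b : M), act σ (a + b) = act σ a + act σ b
  gens : Set (M → Qb)
  equivariant : ∀ f ∈ gens, ∀ (σ : GalQ) (m : M), f (act σ m) = σ (f m)
  integral : ∀ f ∈ gens, ∀ m : M, IsIntegral (Rl ℓ) (f m)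
  separates : ∀ m m' : M, (∀ f ∈ gens, f m = f m') → m = m'
  add_mem : ∀ f ∈ gens, (fun p : M × M => f (p.1 + p.2)) ∈
    Algebra.adjoin (Zb ℓ) (coordFunctions gens)

/-- **ORD block** (pure algebra): an order datum on a finite module gives a Hopf model. -/
def OrdStatement : Prop :=
  ∀ (ℓ : ℕ) [Fact ℓ.Prime] (M : Type) [AddCommGroup M] [Finite M] (act : GalQ → M → M),
    Nonempty (OrderDatum ℓ M act) → HopfModel ℓ M act

/-- The torsion module of S19 with its Galois action. -/
abbrev Tors (N ℓ k : ℕ) : Type := ↥(Submodule.torsionBy ℤ (ModularCurve.JZero N) ((ℓ : ℤ) ^ k))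

/-- Galois action on the torsion. -/
def torsAct (N ℓ k : ℕ) (σ : GalQ) (m : Tors N ℓ k) : Tors N ℓ k :=
  ⟨σ • (m : ModularCurve.JZero N), by
    have h := m.2
    rw [Submodule.mem_torsionBy_iff] at h ⊢
    have h2 := (DistribSMul.toAddMonoidHom (ModularCurve.JZero N) σ).map_zsmul
      ((ℓ : ℤ) ^ k) (m : ModularCurve.JZero N)
    rw [h, map_zero] at h2
    exact h2.symm⟩

@[simp] theorem coe_torsAct (N ℓ k : ℕ) (σ : GalQ) (m : Tors N ℓ k) :
    ((torsAct N ℓ k σ m : Tors N ℓ k) : ModularCurve.JZero N) = σ • (m : ModularCurve.JZero N) :=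
  rfl

/-- **FIN block**: the torsion is finite. -/
def FinStatement : Prop :=
  ∀ (N : ℕ) [NeZero N] (ℓ : ℕ) [Fact ℓ.Prime] (k : ℕ), Finite (Tors N ℓ k)

theorem torsAct_add (N ℓ k : ℕ) (σ : GalQ) (a b : Tors N ℓ k) :
    torsAct N ℓ k σ (a + b) = torsAct N ℓ k σ a + torsAct N ℓ k σ b :=
  Subtype.ext (smul_add σ (a : ModularCurve.JZero N) (b : ModularCurve.JZero N))

/-- **ORDER block** (the geometric wall): the torsion carries an order datum. -/
def OrderStatement : Prop :=
  ∀ (N : ℕ) [NeZero N] (ℓ : ℕ) [Fact ℓ.Prime], ¬ ℓ ∣ N → ∀ k : ℕ,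
    Nonempty (OrderDatum ℓ (Tors N ℓ k) (torsAct N ℓ k))

end Fermat.Agent.S19

end

end
-- ===== PACK-END S19/Defs.lean

-- ===== PACK-BEGIN S56/H734/Hilbert90Level.lean
section


/-!
# S56 / H734 : Hilbert 90 for cocycles of finite level on an infinite Galois group

`Ω / K` Galois (possibly infinite), `f : Gal(Ω/K) → Ω` a nowhere vanishing `1`-cocycle,
`f (σ τ) = f σ · σ (f τ)`, which is right-invariant under the fixing subgroup of a finite
subextension `E` ("finite level").  Then `f σ = σ α / α` for some `α ≠ 0`.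
Proof: Poincaré series over `Gal(E'/K)`, `E'` the normal closure of `E`, and Dedekind's
independence of characters.  Mathlib only.
-/

set_option autoImplicit false
set_option linter.style.haveILetI false

namespace Fermat.Agent.S56.H734

open IntermediateField

/-- **Hilbert 90 at finite level.** -/
theorem hilbert90_of_level {K Ω : Type*} [Field K] [Field Ω] [Algebra K Ω] [IsGalois K Ω]
    (f : (Ω ≃ₐ[K] Ω) → Ω) (hf0 : ∀ σ, f σ ≠ 0)
    (hf : ∀ σ τ, f (σ * τ) = f σ * σ (f τ))
    (E : IntermediateField K Ω) [FiniteDimensional K E]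
    (hlev : ∀ σ τ : Ω ≃ₐ[K] Ω, (∀ x ∈ E, τ x = x) → f (σ * τ) = f σ) :
    ∃ α : Ω, α ≠ 0 ∧ ∀ σ : Ω ≃ₐ[K] Ω, f σ * σ α = α := by
  classical
  -- pass to the normal closure
  let E' : IntermediateField K Ω := IntermediateField.normalClosure K E Ω
  have : Normal K E' := normalClosure.normal K E Ω
  have : FiniteDimensional K E' := normalClosure.is_finiteDimensional K E Ω
  have hEE' : E ≤ E' := E.le_normalClosure
  let res : (Ω ≃ₐ[K] Ω) →* (E' ≃ₐ[K] E') := AlgEquiv.restrictNormalHom E'
  have hres : Function.Surjective res := AlgEquiv.restrictNormalHom_surjective Ω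
  let s : (E' ≃ₐ[K] E') → (Ω ≃ₐ[K] Ω) := Function.surjInv hres
  have hs : ∀ γ, res (s γ) = γ := Function.surjInv_eq hres
  have hres_apply : ∀ (σ : Ω ≃ₐ[K] Ω) (x : E'), ((res σ x : E') : Ω) = σ (x : Ω) :=
    fun σ x => AlgEquiv.restrictNormal_commutes σ E' x
  -- `f` depends only on the restriction to `E'`
  have hdep : ∀ σ σ' : Ω ≃ₐ[K] Ω, res σ = res σ' → f σ = f σ' := by
    intro σ σ' h
    have h0 : σ' = σ * (σ⁻¹ * σ') := by group
    rw [h0]
    symm
    apply hlev
    intro x hx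
    have h1 : res (σ⁻¹ * σ') = 1 := by rw [map_mul, map_inv, h, inv_mul_cancel]
    have h2 := hres_apply (σ⁻¹ * σ') ⟨x, hEE' hx⟩
    rw [h1] at h2
    exact h2.symm
  letI : Fintype (E' ≃ₐ[K] E') := Fintype.ofFinite _
  -- Dedekind independence of the characters `γ : E' → Ω`
  let χ : (E' ≃ₐ[K] E') → (E' →* Ω) := fun γ =>
    ((algebraMap E' Ω).comp ((γ : E' →ₐ[K] E') : E' →+* E') : E' →+* Ω)
  have hχ : Function.Injective χ := by
    intro γ γ' h
    apply AlgEquiv.ext
    intro x
    have := DFunLike.congr_fun h x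
    exact (algebraMap E' Ω).injective this
  have hli : LinearIndependent Ω (fun γ : E' ≃ₐ[K] E' => (χ γ : E' → Ω)) :=
    (linearIndependent_monoidHom E' Ω).comp χ hχ
  have hne : ∑ γ : E' ≃ₐ[K] E', f (s γ) • (χ γ : E' → Ω) ≠ 0 := by
    intro h
    have := Fintype.linearIndependent_iff.1 hli (fun γ => f (s γ)) h 1
    exact hf0 _ this
  obtain ⟨θ, hθ⟩ : ∃ θ : E', ∑ γ : E' ≃ₐ[K] E', f (s γ) * ((γ θ : E') : Ω) ≠ 0 := by
    by_contra hcon
    push Not at hcon
    apply hne
    funext θ
    simpa [χ] using hcon θ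
  refine ⟨_, hθ, fun τ => ?_⟩
  rw [map_sum, Finset.mul_sum]
  have key : ∀ γ : E' ≃ₐ[K] E', f τ * τ (f (s γ) * ((γ θ : E') : Ω)) =
      f (s (res τ * γ)) * (((res τ * γ) θ : E') : Ω) := by
    intro γ
    have h1 : f (s (res τ * γ)) = f (τ * s γ) := by
      apply hdep
      rw [hs, map_mul, hs]
    rw [h1, hf, map_mul, ← mul_assoc]
    congr 1
    rw [AlgEquiv.mul_apply, hres_apply]
  simp only [key]
  exact Fintype.sum_bijective (fun γ => res τ * γ) (Group.mulLeft_bijective _) _ _ (fun γ => rfl)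

end Fermat.Agent.S56.H734

end
-- ===== PACK-END S56/H734/Hilbert90Level.lean

-- ===== PACK-BEGIN S56/H956/TWPLinAlg.lean
section


/-!
# S56 / TWP — linear algebra: distinct eigenvalues pass from a power to the element (helper956)

If `g = f ^ j` has two distinct eigenvalues in `k` (on a two-dimensional space) and the
characteristic polynomial of `f` splits as `(X - a) (X - b)`, then `a ≠ b`.
-/

set_option autoImplicit false

open Polynomial

namespace Fermat.Agent.S56.H956

variable {k : Type*} [Field k] {V : Type*} [AddCommGroup V] [Module k V] [Module.Finite k V]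

/-- A root of the characteristic polynomial of `g` is a root of every polynomial killing `g`. -/
theorem isRoot_of_isRoot_charpoly_of_aeval_eq_zero (g : Module.End k V) (P : k[X])
    (hP : aeval g P = 0) {α : k} (hα : (LinearMap.charpoly g).IsRoot α) : P.IsRoot α := by
  have hev : g.HasEigenvalue α := (Module.End.hasEigenvalue_iff_isRoot_charpoly g α).mpr hα
  obtain ⟨v, hv⟩ := hev.exists_hasEigenvector
  have h1 := Module.End.aeval_apply_of_hasEigenvector (p := P) hv
  rw [hP, LinearMap.zero_apply] at h1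
  rcases smul_eq_zero.mp h1.symm with h | h
  · exact h
  · exact absurd h hv.2

/-- If `charpoly f = (X - a)^2` then `(f ^ j - a ^ j)^2 = 0`. -/
theorem aeval_pow_sub_sq_eq_zero (f : Module.End k V) (a : k)
    (hf : LinearMap.charpoly f = (X - C a) * (X - C a)) (j : ℕ) :
    aeval (f ^ j) ((X - C (a ^ j)) * (X - C (a ^ j)) : k[X]) = 0 := by
  have hCH : aeval f ((X - C a) * (X - C a) : k[X]) = 0 := by
    rw [← hf]
    exact LinearMap.aeval_self_charpoly f
  obtain ⟨h, hh⟩ : (X - C a : k[X]) ∣ X ^ j - C (a ^ j) := by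
    rw [C_pow]
    exact sub_dvd_pow_sub_pow X (C a) j
  have h2 : aeval (f ^ j) (X - C (a ^ j) : k[X]) = aeval f (X ^ j - C (a ^ j) : k[X]) := by
    simp
  rw [map_mul, h2, hh, ← map_mul]
  have h3 : ((X - C a) * h * ((X - C a) * h) : k[X]) = (X - C a) * (X - C a) * (h * h) := by
    ring
  rw [h3, map_mul, hCH, zero_mul]

/-- **Distinct eigenvalues descend along powers.** -/
theorem ne_of_pow_charpoly (f : Module.End k V) (j : ℕ) {a b α β : k}
    (hf : LinearMap.charpoly f = (X - C a) * (X - C b))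
    (hg : LinearMap.charpoly (f ^ j) = (X - C α) * (X - C β)) (hαβ : α ≠ β) : a ≠ b := by
  rintro rfl
  have h0 := aeval_pow_sub_sq_eq_zero f a hf j
  have hα : (LinearMap.charpoly (f ^ j)).IsRoot α := by
    rw [hg, IsRoot.def, eval_mul, eval_sub, eval_X, eval_C, sub_self, zero_mul]
  have hβ : (LinearMap.charpoly (f ^ j)).IsRoot β := by
    rw [hg, IsRoot.def, eval_mul, eval_sub, eval_X, eval_C, eval_sub, eval_X, eval_C, sub_self,
      mul_zero]
  have h1 := isRoot_of_isRoot_charpoly_of_aeval_eq_zero (f ^ j) _ h0 hα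
  have h2 := isRoot_of_isRoot_charpoly_of_aeval_eq_zero (f ^ j) _ h0 hβ
  rw [IsRoot.def, eval_mul, eval_sub, eval_X, eval_C, mul_self_eq_zero, sub_eq_zero] at h1 h2
  exact hαβ (h1.trans h2.symm)

end Fermat.Agent.S56.H956

end
-- ===== PACK-END S56/H956/TWPLinAlg.lean

-- ===== PACK-BEGIN S56/H794/Nilp2.lean
section


/-!
# S56 / LOC-MIN (helper794): a 2×2 computation

`V` two-dimensional over a field `k` with `2 ≠ 0`, `N ≠ 0` nilpotent (`N² = 0`),
`C` of trace zero with `N C (1+N) + C (1+N) N = 0` (the `ε`-part of `((1+εC)(1+N) − 1)² = 0`).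
Then `C = (1+N) m (1−N) − m` for some `m` of trace zero: the first-order deformation
`(1+εC)(1+N)` of the unipotent element `1+N` is conjugate to `1+N` by `1+εm`.
-/

set_option autoImplicit false

noncomputable section

namespace Fermat.Agent.S56.H794

open Matrix

theorem mat_entry_eq_zero {k : Type*} [Field k] (a b c d : k)
    (h : !![0, 1; 0, 0] * !![a, b; c, d] * (1 + !![0, 1; 0, 0]) +
      !![a, b; c, d] * (1 + !![0, 1; 0, 0]) * !![0, 1; 0, 0]
      = (0 : Matrix (Fin 2) (Fin 2) k)) : c = 0 := by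
  simp only [Matrix.one_fin_two, Matrix.mul_fin_two, Matrix.of_add_of, Matrix.cons_add_cons,
    Matrix.empty_add_empty] at h
  simp at h
  have := congrFun (congrFun h 0) 0
  simp at this
  exact this

theorem mat_conj_sub_eq {k : Type*} [Field k] (hchar : (2 : k) ≠ 0) (a b c d : k) (hc : c = 0)
    (hd : a + d = 0) :
    !![a, b; c, d] = (1 + !![0, 1; 0, 0]) * !![-(a + b) / 2, 0; a, (a + b) / 2] *
      (1 - !![0, 1; 0, 0]) - !![-(a + b) / 2, 0; a, (a + b) / 2] := by
  simp only [Matrix.one_fin_two, Matrix.mul_fin_two, Matrix.of_add_of, Matrix.of_sub_of,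
    Matrix.cons_add_cons, Matrix.cons_sub_cons, Matrix.empty_add_empty, Matrix.empty_sub_empty]
  ext i j
  fin_cases i <;> fin_cases j
  · simp
  · simp
    field_simp
    ring
  · simp [hc]
  · simp
    linear_combination hd

/-- The matrix form of the computation. -/
theorem mat_exists_trace_zero_conj_sub {k : Type*} [Field k] (hchar : (2 : k) ≠ 0)
    (Cm : Matrix (Fin 2) (Fin 2) k) (htr : Cm.trace = 0)
    (h : !![0, 1; 0, 0] * Cm * (1 + !![0, 1; 0, 0]) + Cm * (1 + !![0, 1; 0, 0]) * !![0, 1; 0, 0]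
      = (0 : Matrix (Fin 2) (Fin 2) k)) :
    ∃ mm : Matrix (Fin 2) (Fin 2) k, mm.trace = 0 ∧
      Cm = (1 + !![0, 1; 0, 0]) * mm * (1 - !![0, 1; 0, 0]) - mm := by
  have htr' : Cm 0 0 + Cm 1 1 = 0 := by
    rw [Matrix.trace_fin_two] at htr
    exact htr
  rw [Matrix.eta_fin_two Cm] at h
  have hc := mat_entry_eq_zero _ _ _ _ h
  refine ⟨!![-(Cm 0 0 + Cm 0 1) / 2, 0; Cm 0 0, (Cm 0 0 + Cm 0 1) / 2], ?_, ?_⟩
  · rw [Matrix.trace_fin_two]
    simp only [Matrix.of_apply, Matrix.cons_val', Matrix.cons_val_zero, Matrix.cons_val_one]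
    ring
  · conv_lhs => rw [Matrix.eta_fin_two Cm]
    exact mat_conj_sub_eq hchar _ _ _ _ hc htr'

variable {k : Type*} [Field k] {V : Type*} [AddCommGroup V] [Module k V]

/-- **The 2×2 lemma.** -/
theorem exists_trace_zero_conj_sub (h2 : Module.finrank k V = 2) (hchar : (2 : k) ≠ 0)
    (N C : Module.End k V) (hN2 : N * N = 0) (hN0 : N ≠ 0)
    (hC : LinearMap.trace k V C = 0)
    (hNC : N * C * (1 + N) + C * (1 + N) * N = 0) :
    ∃ m : Module.End k V, LinearMap.trace k V m = 0 ∧ C = (1 + N) * m * (1 - N) - m := by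
  classical
  have : Module.Finite k V := Module.finite_of_finrank_eq_succ h2
  -- adapted basis
  obtain ⟨v, hv⟩ : ∃ v, N v ≠ 0 := by
    by_contra hcon
    apply hN0
    apply LinearMap.ext
    intro v
    by_contra hv
    exact hcon ⟨v, hv⟩
  have hNN : N (N v) = 0 := by
    have := congrArg (fun f : Module.End k V => f v) hN2
    simpa using this
  have hli : LinearIndependent k ![N v, v] := by
    rw [LinearIndependent.pair_iff]
    intro s t hst
    have h1 : t • N v = 0 := by
      have := congrArg N hst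
      rw [map_add, map_smul, map_smul, hNN, smul_zero, zero_add, map_zero] at this
      exact this
    have ht : t = 0 := by
      rcases smul_eq_zero.mp h1 with h | h
      · exact h
      · exact absurd h hv
    rw [ht, zero_smul, add_zero] at hst
    have hs : s = 0 := by
      rcases smul_eq_zero.mp hst with h | h
      · exact h
      · exact absurd h hv
    exact ⟨hs, ht⟩
  let b : Module.Basis (Fin 2) k V :=
    basisOfLinearIndependentOfCardEqFinrank hli (by rw [Fintype.card_fin, h2])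
  have hb0 : b 0 = N v := by
    simp [b]
  have hb1 : b 1 = v := by
    simp [b]
  let M := LinearMap.toMatrixAlgEquiv b
  have hMN : M N = !![0, 1; 0, 0] := by
    ext i j
    simp only [M, LinearMap.toMatrixAlgEquiv_apply]
    fin_cases j
    · have : N (b 0) = 0 := by rw [hb0, hNN]
      fin_cases i <;> simp [this]
    · have : N (b 1) = b 0 := by rw [hb1, hb0]
      fin_cases i <;> simp [this]
  have hMtr : ∀ f : Module.End k V, LinearMap.trace k V f = (M f).trace := by
    intro f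
    rw [LinearMap.trace_eq_matrix_trace k b f]
    rfl
  have hMC : (M C).trace = 0 := by rw [← hMtr, hC]
  have hM : !![0, 1; 0, 0] * M C * (1 + !![0, 1; 0, 0]) +
      M C * (1 + !![0, 1; 0, 0]) * !![0, 1; 0, 0] = (0 : Matrix (Fin 2) (Fin 2) k) := by
    have := congrArg M hNC
    rw [map_add, map_mul, map_mul, map_mul, map_mul, map_add, map_one, hMN, map_zero] at this
    exact this
  obtain ⟨mm, hmm, hmm2⟩ := mat_exists_trace_zero_conj_sub hchar (M C) hMC hM
  refine ⟨M.symm mm, ?_, ?_⟩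
  · rw [hMtr, AlgEquiv.apply_symm_apply, hmm]
  · apply M.injective
    rw [map_sub, map_mul, map_mul, map_add, map_sub, map_one, hMN, AlgEquiv.apply_symm_apply]
    exact hmm2

end Fermat.Agent.S56.H794

end

end
-- ===== PACK-END S56/H794/Nilp2.lean

-- ===== PACK-BEGIN S59/H239/Top.lean
section





/-!
# Row S59 — top layer glue (helper239)

Architecture: `coord/S59-arch-helper239.md` (origin/helper239).

* `S58Statement`, `S59Statement` : the frozen statements S58, S59 as `Prop`s.
* `MLStatement`  : modularity at SOME cube-free level (output of the `R = T` machine).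
* `RTStatement`  : the `R = T` output in Hecke-algebra form (an integral character of the anemic
  Hecke algebra with values `a_ℓ(W)`).
* `EigenformOfCharStatement` : (E1) an integral character gives a normalised eigenform after
  stabilisation at the primes of `S` not dividing the level.
* `s59_of : S58Statement → MLStatement → S59Statement`   (T0)
* `ml_of : RTStatement → EigenformOfCharStatement → MLStatement`   (T1)
-/

set_option autoImplicit false

namespace Fermat.Agent.S59.H239

open WeierstrassCurve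

/-- The frozen statement S58 (conductor-level matching). -/
def S58Statement : Prop :=
  ∀ (W : WeierstrassCurve ℤ) (_hss : W.IsSemistableModel) (N : ℕ)
    (p : ℕ) [Fact p.Prime] (_hp2 : p ≠ 2) (_hirr : W.ModRepIsIrreducible p)
    (_hp2N : ¬ p ^ 2 ∣ N)
    (_hN : W.IsModularModelOfLevel N) (_hbad : ∀ ℓ : ℕ, ℓ.Prime → (ℓ : ℤ) ∣ W.Δ → ℓ ∣ N)
    (_hN3 : ∀ q : ℕ, q.Prime → ¬ q ^ 3 ∣ N),
    W.IsModularModelOfLevel W.conductorLevel

/-- The frozen statement S59 (modularity lifting at `p = 3, 5`). -/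
def S59Statement : Prop :=
  ∀ (p : ℕ) (_hp : p = 3 ∨ p = 5)
    (W : WeierstrassCurve ℤ) (_hΔ : W.Δ ≠ 0) (_hW : W.IsSemistableModel)
    (_hirr : W.ModRepIsIrreducible p)
    (M₀ : ℕ) [NeZero M₀] (_hres₀ : W.IsResiduallyModularOfLevel p M₀)
    (_hM₀ : ¬ p ^ 2 ∣ M₀)
    (_hM₀3 : ∀ q : ℕ, q.Prime → q ≠ p → ¬ q ^ 3 ∣ M₀),
    Mlc1IsModularModelOfExactConductorLevel W

/-- (ML) modularity of `W` at some cube-free level, prime-to-`p²`, divisible by the bad primes. -/
def MLStatement : Prop :=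
  ∀ (p : ℕ) (_hp : p = 3 ∨ p = 5)
    (W : WeierstrassCurve ℤ) (_hΔ : W.Δ ≠ 0) (_hW : W.IsSemistableModel)
    (_hirr : W.ModRepIsIrreducible p)
    (M₀ : ℕ) [NeZero M₀] (_hres₀ : W.IsResiduallyModularOfLevel p M₀)
    (_hM₀ : ¬ p ^ 2 ∣ M₀)
    (_hM₀3 : ∀ q : ℕ, q.Prime → q ≠ p → ¬ q ^ 3 ∣ M₀),
    ∃ N : ℕ, ¬ p ^ 2 ∣ N ∧ (∀ q : ℕ, q.Prime → ¬ q ^ 3 ∣ N) ∧
      (∀ ℓ : ℕ, ℓ.Prime → (ℓ : ℤ) ∣ W.Δ → ℓ ∣ N) ∧ W.IsModularModelOfLevel N

/-- **T0**: S59 from S58 and (ML). -/
theorem s59_of (h58 : S58Statement) (hML : MLStatement) : S59Statement := by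
  intro p hp W hΔ hW hirr M₀ _ hres hM₀ hM₀3
  obtain ⟨N, hpN, hN3, hbad, hmod⟩ := hML p hp W hΔ hW hirr M₀ hres hM₀ hM₀3
  have hpp : p.Prime := by
    rcases hp with rfl | rfl
    · exact Nat.prime_three
    · exact Nat.prime_five
  haveI : Fact p.Prime := ⟨hpp⟩
  have hp2 : p ≠ 2 := by
    rcases hp with rfl | rfl <;> decide
  have h := h58 W hW N p hp2 hirr hpN hmod hbad hN3
  exact ⟨W.conductorLevel, W.conductorLevel_pos, W.squarefree_conductorLevel,
    fun q hq => W.prime_dvd_conductorLevel_iff hΔ hq, h⟩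

/-- The set of primes of `S` not dividing `N`, multiplied into the level. -/
noncomputable def stabLevel (N : ℕ) (S : Finset ℕ) : ℕ :=
  N * ∏ ℓ ∈ S.filter (fun ℓ => ℓ.Prime ∧ ¬ ℓ ∣ N), ℓ

/-- (RT) the output of `R = T`: an integral character of the anemic Hecke algebra of a cube-free
level `N` (prime to `p²`, divisible by the bad primes), away from a finite set `S` of primes
containing the primes of `N`, with `χ(T_ℓ) = a_ℓ(W)` for all primes `ℓ ∉ S`. -/
def RTStatement : Prop :=
  ∀ (p : ℕ) (_hp : p = 3 ∨ p = 5)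
    (W : WeierstrassCurve ℤ) (_hΔ : W.Δ ≠ 0) (_hW : W.IsSemistableModel)
    (_hirr : W.ModRepIsIrreducible p)
    (M₀ : ℕ) [NeZero M₀] (_hres₀ : W.IsResiduallyModularOfLevel p M₀)
    (_hM₀ : ¬ p ^ 2 ∣ M₀)
    (_hM₀3 : ∀ q : ℕ, q.Prime → q ≠ p → ¬ q ^ 3 ∣ M₀),
    ∃ (N : ℕ) (_ : NeZero N) (S : Finset ℕ),
      ¬ p ^ 2 ∣ N ∧ (∀ q : ℕ, q.Prime → ¬ q ^ 3 ∣ N) ∧
      (∀ ℓ : ℕ, ℓ.Prime → (ℓ : ℤ) ∣ W.Δ → ℓ ∣ N) ∧
      (∀ ℓ ∈ S, ℓ.Prime) ∧ (∀ ℓ ∈ S, ℓ = p ∨ ℓ ∣ N) ∧
      ∃ χ : CuspForm.heckeAlgebra N 2 (↑S : Set ℕ) →+* ℤ,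
        ∀ (ℓ : ℕ) (hℓ : ℓ.Prime) (hℓN : ¬ ℓ ∣ N) (hℓS : ℓ ∉ (↑S : Set ℕ)),
          χ (CuspForm.heckeAlgebra.T hℓ hℓN hℓS) = W.apOfModel ℓ

/-- (E1) An integral character of the anemic Hecke algebra of level `N` away from `S` with values
`a_ℓ(W)` gives a normalised eigenform of level `N` (if `p ∣ N`) or `N * p`, whose coefficients at
the good primes not dividing the level are the `a_ℓ(W)`. -/
def EigenformOfCharStatement : Prop :=
  ∀ (W : WeierstrassCurve ℤ) (N : ℕ) [NeZero N] (S : Finset ℕ) (p : ℕ), p.Prime →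
    (∀ ℓ ∈ S, ℓ.Prime) → (∀ ℓ ∈ S, ℓ = p ∨ ℓ ∣ N) →
    (χ : CuspForm.heckeAlgebra N 2 (↑S : Set ℕ) →+* ℤ) →
    (∀ (ℓ : ℕ) (hℓ : ℓ.Prime) (hℓN : ¬ ℓ ∣ N) (hℓS : ℓ ∉ (↑S : Set ℕ)),
      χ (CuspForm.heckeAlgebra.T hℓ hℓN hℓS) = W.apOfModel ℓ) →
    W.IsModularModelOfLevel (if p ∣ N then N else N * p)

/-- **T1**: (ML) from (RT) and (E1). -/
theorem ml_of (hRT : RTStatement) (hE1 : EigenformOfCharStatement) : MLStatement := by
  intro p hp W hΔ hW hirr M₀ _ hres hM₀ hM₀3
  obtain ⟨N, hNZ, S, hpN, hN3, hbad, hSprime, hSN, χ, hχ⟩ :=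
    hRT p hp W hΔ hW hirr M₀ hres hM₀ hM₀3
  have hpp : p.Prime := by
    rcases hp with rfl | rfl
    · exact Nat.prime_three
    · exact Nat.prime_five
  have hmod := hE1 W N S p hpp hSprime hSN χ hχ
  by_cases hdvd : p ∣ N
  · rw [if_pos hdvd] at hmod
    exact ⟨N, hpN, hN3, hbad, hmod⟩
  · rw [if_neg hdvd] at hmod
    refine ⟨N * p, ?_, ?_, fun ℓ hℓ hℓΔ => Dvd.dvd.mul_right (hbad ℓ hℓ hℓΔ) p, hmod⟩
    · -- `p² ∤ N p` since `p ∤ N`
      intro h
      rw [pow_two] at h
      exact hdvd ((Nat.mul_dvd_mul_iff_right hpp.pos).mp h)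
    · intro q hq h
      by_cases hqp : q = p
      · subst hqp
        -- `q³ ∣ N q` forces `q ∣ N`
        have h2 : q ^ 2 ∣ N := by
          have : q ^ 2 * q ∣ N * q := by rwa [← pow_succ]
          exact (Nat.mul_dvd_mul_iff_right hq.pos).mp this
        exact hdvd (dvd_trans (dvd_pow_self q two_ne_zero) h2)
      · -- `q ≠ p`: `q³` is coprime to `p`
        have hcop : Nat.Coprime (q ^ 3) p :=
          Nat.Coprime.pow_left 3 ((Nat.coprime_primes hq hpp).mpr hqp)
        exact hN3 q hq (hcop.dvd_of_dvd_mul_right h)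

end Fermat.Agent.S59.H239

end
-- ===== PACK-END S59/H239/Top.lean

-- ===== PACK-BEGIN S59/NC/Defs.lean
section


/-!
# Numerical criterion (Wiles–Lenstra, de Smit–Rubin–Schoof): definitions

For an augmented `𝒪`-algebra `π : A →ₐ[𝒪] 𝒪` we define the augmentation ideal `𝔭 = ker π`,
the ideal `Ann_A 𝔭`, the congruence ideal `η = π (Ann_A 𝔭)` and the cotangent module
`Φ = 𝔭 / 𝔭²` (an `𝒪`-module).
-/

set_option autoImplicit false

namespace Fermat.Agent.S59.NC

variable {𝒪 : Type*} [CommRing 𝒪] {A : Type*} [CommRing A] [Algebra 𝒪 A]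

/-- The augmentation ideal `𝔭 = ker π`. -/
def augIdeal (π : A →ₐ[𝒪] 𝒪) : Ideal A := RingHom.ker π

/-- The annihilator `Ann_A (ker π)`. -/
def annAug (π : A →ₐ[𝒪] 𝒪) : Ideal A := Submodule.annihilator (augIdeal π)

/-- The congruence ideal `η = π (Ann_A (ker π))`. -/
def congIdeal (π : A →ₐ[𝒪] 𝒪) : Ideal 𝒪 := (annAug π).map π

/-- The cotangent module `Φ = 𝔭 / 𝔭²` at the augmentation. -/
abbrev Cot (π : A →ₐ[𝒪] 𝒪) : Type _ := (augIdeal π).Cotangent

theorem mem_augIdeal {π : A →ₐ[𝒪] 𝒪} {x : A} : x ∈ augIdeal π ↔ π x = 0 := RingHom.mem_ker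

theorem mem_annAug {π : A →ₐ[𝒪] 𝒪} {x : A} : x ∈ annAug π ↔ ∀ y ∈ augIdeal π, x * y = 0 := by
  unfold annAug
  rw [Submodule.mem_annihilator]
  exact Iff.rfl

theorem aug_surjective (π : A →ₐ[𝒪] 𝒪) : Function.Surjective π := fun c =>
  ⟨algebraMap 𝒪 A c, by simp⟩

theorem mem_congIdeal {π : A →ₐ[𝒪] 𝒪} {c : 𝒪} : c ∈ congIdeal π ↔ ∃ x ∈ annAug π, π x = c := by
  unfold congIdeal
  rw [Ideal.mem_map_iff_of_surjective _ (aug_surjective π)]

/-- `x - π x ∈ 𝔭`. -/
theorem sub_algebraMap_mem_augIdeal (π : A →ₐ[𝒪] 𝒪) (x : A) :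
    x - algebraMap 𝒪 A (π x) ∈ augIdeal π := by
  rw [mem_augIdeal]; simp

/-- For `e ∈ Ann 𝔭`: `e * x = π x • e`. -/
theorem annAug_mul (π : A →ₐ[𝒪] 𝒪) {e : A} (he : e ∈ annAug π) (x : A) :
    e * x = π x • e := by
  have h := mem_annAug.mp he _ (sub_algebraMap_mem_augIdeal π x)
  rw [mul_sub, sub_eq_zero] at h
  rw [h, Algebra.smul_def, mul_comm]

end Fermat.Agent.S59.NC

end
-- ===== PACK-END S59/NC/Defs.lean

-- ===== PACK-BEGIN S53/Rigid/Basic.lean
section


/-!
# Rigidification of 2x2 matrix liftings over local rings (pure algebra, no Galois theory)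

Interface for statement S53 (team route #382).
-/

set_option autoImplicit false

namespace Fermat.Agent.S53.Rigid

open IsLocalRing

universe u v w

section EntriesIn

variable {B : Type v} [CommRing B]

/-- All entries of `X` lie in the ideal `I`. -/
def EntriesIn (I : Ideal B) (X : Matrix (Fin 2) (Fin 2) B) : Prop :=
  ∀ p q, X p q ∈ I

theorem EntriesIn.mono {I J : Ideal B} (h : I ≤ J) {X : Matrix (Fin 2) (Fin 2) B}
    (hX : EntriesIn I X) : EntriesIn J X := fun p q => h (hX p q)

theorem EntriesIn.zero (I : Ideal B) : EntriesIn I (0 : Matrix (Fin 2) (Fin 2) B) :=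
  fun _ _ => I.zero_mem

theorem EntriesIn.add {I : Ideal B} {X Y : Matrix (Fin 2) (Fin 2) B}
    (hX : EntriesIn I X) (hY : EntriesIn I Y) : EntriesIn I (X + Y) :=
  fun p q => I.add_mem (hX p q) (hY p q)

theorem EntriesIn.sub {I : Ideal B} {X Y : Matrix (Fin 2) (Fin 2) B}
    (hX : EntriesIn I X) (hY : EntriesIn I Y) : EntriesIn I (X - Y) :=
  fun p q => I.sub_mem (hX p q) (hY p q)

theorem EntriesIn.neg {I : Ideal B} {X : Matrix (Fin 2) (Fin 2) B}
    (hX : EntriesIn I X) : EntriesIn I (-X) :=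
  fun p q => I.neg_mem (hX p q)

theorem EntriesIn.smul {I : Ideal B} {X : Matrix (Fin 2) (Fin 2) B} (c : B)
    (hX : EntriesIn I X) : EntriesIn I (c • X) :=
  fun p q => I.mul_mem_left c (hX p q)

theorem EntriesIn.smul_of_mem {I : Ideal B} {c : B} (hc : c ∈ I)
    (X : Matrix (Fin 2) (Fin 2) B) : EntriesIn I (c • X) :=
  fun p q => I.mul_mem_right (X p q) hc

theorem EntriesIn.smul_mul {I J : Ideal B} {c : B} (hc : c ∈ I)
    {X : Matrix (Fin 2) (Fin 2) B} (hX : EntriesIn J X) : EntriesIn (I * J) (c • X) :=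
  fun p q => Ideal.mul_mem_mul hc (hX p q)

theorem EntriesIn.sum {I : Ideal B} {ι : Type*} (s : Finset ι)
    {X : ι → Matrix (Fin 2) (Fin 2) B} (hX : ∀ a ∈ s, EntriesIn I (X a)) :
    EntriesIn I (∑ a ∈ s, X a) := by
  intro p q
  rw [Matrix.sum_apply]
  exact I.sum_mem fun a ha => hX a ha p q

theorem EntriesIn.mul {I J : Ideal B} {X Y : Matrix (Fin 2) (Fin 2) B}
    (hX : EntriesIn I X) (hY : EntriesIn J Y) : EntriesIn (I * J) (X * Y) := by
  intro p q
  rw [Matrix.mul_apply]
  exact (I * J).sum_mem fun a _ => Ideal.mul_mem_mul (hX p a) (hY a q)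

theorem EntriesIn.mul_right {I : Ideal B} {X : Matrix (Fin 2) (Fin 2) B}
    (hX : EntriesIn I X) (Y : Matrix (Fin 2) (Fin 2) B) : EntriesIn I (X * Y) := by
  intro p q
  rw [Matrix.mul_apply]
  exact I.sum_mem fun a _ => I.mul_mem_right _ (hX p a)

theorem EntriesIn.mul_left {I : Ideal B} {X : Matrix (Fin 2) (Fin 2) B}
    (hX : EntriesIn I X) (Y : Matrix (Fin 2) (Fin 2) B) : EntriesIn I (Y * X) := by
  intro p q
  rw [Matrix.mul_apply]
  exact I.sum_mem fun a _ => I.mul_mem_left _ (hX a q)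

theorem entriesIn_iff_map_mk_eq_zero {I : Ideal B} {X : Matrix (Fin 2) (Fin 2) B} :
    EntriesIn I X ↔ X.map (Ideal.Quotient.mk I) = 0 := by
  constructor
  · intro h
    ext p q
    simpa [Ideal.Quotient.eq_zero_iff_mem] using h p q
  · intro h p q
    have := congrFun (congrFun h p) q
    simpa [Ideal.Quotient.eq_zero_iff_mem] using this

/-- `X` is a scalar matrix modulo the ideal `I`. -/
def IsScalarMod (I : Ideal B) (X : Matrix (Fin 2) (Fin 2) B) : Prop :=
  X 0 1 ∈ I ∧ X 1 0 ∈ I ∧ X 0 0 - X 1 1 ∈ I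

theorem IsScalarMod.mono {I J : Ideal B} (h : I ≤ J) {X : Matrix (Fin 2) (Fin 2) B}
    (hX : IsScalarMod I X) : IsScalarMod J X :=
  ⟨h hX.1, h hX.2.1, h hX.2.2⟩

theorem EntriesIn.isScalarMod {I : Ideal B} {X : Matrix (Fin 2) (Fin 2) B}
    (hX : EntriesIn I X) : IsScalarMod I X :=
  ⟨hX 0 1, hX 1 0, I.sub_mem (hX 0 0) (hX 1 1)⟩

theorem IsScalarMod.zero (I : Ideal B) : IsScalarMod I (0 : Matrix (Fin 2) (Fin 2) B) :=
  (EntriesIn.zero I).isScalarMod

theorem IsScalarMod.add {I : Ideal B} {X Y : Matrix (Fin 2) (Fin 2) B}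
    (hX : IsScalarMod I X) (hY : IsScalarMod I Y) : IsScalarMod I (X + Y) := by
  refine ⟨I.add_mem hX.1 hY.1, I.add_mem hX.2.1 hY.2.1, ?_⟩
  have : (X + Y) 0 0 - (X + Y) 1 1 = (X 0 0 - X 1 1) + (Y 0 0 - Y 1 1) := by
    simp only [Matrix.add_apply]; ring
  rw [this]
  exact I.add_mem hX.2.2 hY.2.2

theorem IsScalarMod.sum {I : Ideal B} {ι : Type*} (s : Finset ι)
    {X : ι → Matrix (Fin 2) (Fin 2) B} (hX : ∀ a ∈ s, IsScalarMod I (X a)) :
    IsScalarMod I (∑ a ∈ s, X a) := by
  classical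
  induction s using Finset.induction_on with
  | empty => simpa using IsScalarMod.zero I
  | insert a s ha ih =>
    rw [Finset.sum_insert ha]
    exact (hX a (Finset.mem_insert_self a s)).add
      (ih fun b hb => hX b (Finset.mem_insert_of_mem hb))

theorem IsScalarMod.smul_mul {I J : Ideal B} {c : B} (hc : c ∈ I)
    {X : Matrix (Fin 2) (Fin 2) B} (hX : IsScalarMod J X) : IsScalarMod (I * J) (c • X) := by
  refine ⟨Ideal.mul_mem_mul hc hX.1, Ideal.mul_mem_mul hc hX.2.1, ?_⟩
  have : (c • X) 0 0 - (c • X) 1 1 = c * (X 0 0 - X 1 1) := by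
    simp only [Matrix.smul_apply, smul_eq_mul]; ring
  rw [this]
  exact Ideal.mul_mem_mul hc hX.2.2

end EntriesIn

section Coord

variable {B : Type v} [CommRing B]

/-- The `a`-th coordinate functional `X ↦ [X, M a]_{i a, j a}`. -/
def ellCoord (M : Fin 3 → Matrix (Fin 2) (Fin 2) B)
    (i j : Fin 3 → Fin 2) (a : Fin 3) (X : Matrix (Fin 2) (Fin 2) B) : B :=
  (X * M a - M a * X) (i a) (j a)

/-- `X - ∑ a, ℓ_a(X) • E a`. -/
def Tmap (M E : Fin 3 → Matrix (Fin 2) (Fin 2) B)
    (i j : Fin 3 → Fin 2) (X : Matrix (Fin 2) (Fin 2) B) : Matrix (Fin 2) (Fin 2) B :=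
  X - ∑ a, ellCoord M i j a X • E a

variable (M E : Fin 3 → Matrix (Fin 2) (Fin 2) B) (i j : Fin 3 → Fin 2)

theorem ellCoord_add (a : Fin 3) (X Y : Matrix (Fin 2) (Fin 2) B) :
    ellCoord M i j a (X + Y) = ellCoord M i j a X + ellCoord M i j a Y := by
  simp only [ellCoord, add_mul, mul_add, Matrix.sub_apply, Matrix.add_apply]; ring

theorem ellCoord_smul (a : Fin 3) (c : B) (X : Matrix (Fin 2) (Fin 2) B) :
    ellCoord M i j a (c • X) = c * ellCoord M i j a X := by
  simp only [ellCoord, Matrix.smul_mul, Matrix.mul_smul, Matrix.sub_apply, Matrix.smul_apply,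
    smul_eq_mul]; ring

theorem ellCoord_zero (a : Fin 3) : ellCoord M i j a 0 = 0 := by
  simp [ellCoord]

theorem ellCoord_neg (a : Fin 3) (X : Matrix (Fin 2) (Fin 2) B) :
    ellCoord M i j a (-X) = - ellCoord M i j a X := by
  simp only [ellCoord, Matrix.neg_mul, Matrix.mul_neg, Matrix.sub_apply, Matrix.neg_apply]; ring

theorem ellCoord_sum {ι : Type*} (s : Finset ι) (a : Fin 3)
    (X : ι → Matrix (Fin 2) (Fin 2) B) :
    ellCoord M i j a (∑ b ∈ s, X b) = ∑ b ∈ s, ellCoord M i j a (X b) := by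
  classical
  induction s using Finset.induction_on with
  | empty => simp [ellCoord_zero]
  | insert b s hb ih => rw [Finset.sum_insert hb, Finset.sum_insert hb, ellCoord_add, ih]

theorem Tmap_add (X Y : Matrix (Fin 2) (Fin 2) B) :
    Tmap M E i j (X + Y) = Tmap M E i j X + Tmap M E i j Y := by
  simp only [Tmap, ellCoord_add, add_smul, Finset.sum_add_distrib]; abel

theorem Tmap_smul (c : B) (X : Matrix (Fin 2) (Fin 2) B) :
    Tmap M E i j (c • X) = c • Tmap M E i j X := by
  simp only [Tmap, ellCoord_smul, smul_sub, Finset.smul_sum, smul_smul]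

theorem Tmap_zero : Tmap M E i j 0 = 0 := by
  simp [Tmap, ellCoord_zero]

theorem Tmap_sum {ι : Type*} (s : Finset ι) (X : ι → Matrix (Fin 2) (Fin 2) B) :
    Tmap M E i j (∑ b ∈ s, X b) = ∑ b ∈ s, Tmap M E i j (X b) := by
  classical
  induction s using Finset.induction_on with
  | empty => simp [Tmap_zero]
  | insert b s hb ih => rw [Finset.sum_insert hb, Finset.sum_insert hb, Tmap_add, ih]

theorem ellCoord_mem_of_entriesIn {I : Ideal B} (a : Fin 3) {X : Matrix (Fin 2) (Fin 2) B}
    (hX : EntriesIn I X) : ellCoord M i j a X ∈ I :=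
  ((hX.mul_right (M a)).sub (hX.mul_left (M a))) (i a) (j a)

/-- Compatibility of `ellCoord` with ring homomorphisms. -/
theorem ellCoord_map {B' : Type w} [CommRing B'] (f : B →+* B') (a : Fin 3)
    (X : Matrix (Fin 2) (Fin 2) B) :
    ellCoord (fun a => (M a).map f) i j a (X.map f) = f (ellCoord M i j a X) := by
  simp only [ellCoord]
  rw [← Matrix.map_mul, ← Matrix.map_mul, Matrix.sub_apply, Matrix.map_apply, Matrix.map_apply,
    Matrix.sub_apply, map_sub]

/-- Compatibility of `Tmap` with ring homomorphisms. -/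
theorem Tmap_map {B' : Type w} [CommRing B'] (f : B →+* B')
    (X : Matrix (Fin 2) (Fin 2) B) :
    Tmap (fun a => (M a).map f) (fun a => (E a).map f) i j (X.map f) =
      (Tmap M E i j X).map f := by
  ext p q
  simp only [Tmap, ellCoord_map, Matrix.sub_apply, Matrix.map_apply, Matrix.sum_apply,
    Matrix.smul_apply, smul_eq_mul, map_sub, map_sum, map_mul]

/-- Key one-step lemma: if `Tmap` sends the elementary matrices to scalars mod `𝔪`, then a
matrix `X` with entries in `I` all of whose coordinates `ℓ_a(X)` lie in `𝔪 * I` is scalar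
modulo `𝔪 * I`. -/
theorem isScalarMod_of_ellCoord_mem (𝔪 I : Ideal B)
    (hD2 : ∀ p q, IsScalarMod 𝔪 (Tmap M E i j (Matrix.single p q 1)))
    (X : Matrix (Fin 2) (Fin 2) B) (hX : EntriesIn I X)
    (hℓ : ∀ a, ellCoord M i j a X ∈ 𝔪 * I) : IsScalarMod (𝔪 * I) X := by
  have hdec : X = ∑ p, ∑ q, X p q • Matrix.single p q (1 : B) := by
    conv_lhs => rw [Matrix.matrix_eq_sum_single X]
    refine Finset.sum_congr rfl fun p _ => Finset.sum_congr rfl fun q _ => ?_
    rw [Matrix.smul_single, smul_eq_mul, mul_one]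
  have h1 : IsScalarMod (𝔪 * I) (Tmap M E i j X) := by
    rw [hdec, Tmap_sum]
    refine IsScalarMod.sum _ fun p _ => ?_
    rw [Tmap_sum]
    refine IsScalarMod.sum _ fun q _ => ?_
    rw [Tmap_smul, mul_comm]
    exact IsScalarMod.smul_mul (hX p q) (hD2 p q)
  have h2 : X = Tmap M E i j X + ∑ a, ellCoord M i j a X • E a := by
    simp [Tmap]
  rw [h2]
  refine h1.add (EntriesIn.isScalarMod ?_)
  exact EntriesIn.sum _ fun a _ => EntriesIn.smul_of_mem (hℓ a) _

end Coord

section Data

variable {Γ : Type u} [Monoid Γ]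
variable (𝒪 : Type v) [CommRing 𝒪] [IsLocalRing 𝒪]

/-- Rigidification data for a residual matrix representation. -/
structure RigidData (rbar : Γ →* Matrix (Fin 2) (Fin 2) (ResidueField 𝒪)) where
  g : Fin 3 → Γ
  i : Fin 3 → Fin 2
  j : Fin 3 → Fin 2
  E : Fin 3 → Matrix (Fin 2) (Fin 2) 𝒪
  c : Fin 3 → 𝒪
  hc : ∀ a, residue 𝒪 (c a) = rbar (g a) (i a) (j a)
  dual : ∀ a b, ellCoord (fun a => rbar (g a)) i j a ((E b).map (residue 𝒪)) =
    if a = b then 1 else 0
  decomp : ∀ p q, IsScalarMod ⊥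
    (Tmap (fun a => rbar (g a)) (fun a => (E a).map (residue 𝒪)) i j (Matrix.single p q 1))

variable {𝒪}
variable {rbar : Γ →* Matrix (Fin 2) (Fin 2) (ResidueField 𝒪)}
variable {A : Type w} [CommRing A] [IsLocalRing A] [Algebra 𝒪 A] [IsLocalHom (algebraMap 𝒪 A)]

/-- `r` lifts `rbar` (entrywise, through the canonical map of residue fields). -/
def IsLift (rbar : Γ →* Matrix (Fin 2) (Fin 2) (ResidueField 𝒪))
    (r : Γ →* Matrix (Fin 2) (Fin 2) A) : Prop :=
  ∀ γ, (r γ).map (residue A) = (rbar γ).map (ResidueField.map (algebraMap 𝒪 A))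

/-- `r` is normalized with respect to the rigidification data `D`. -/
def RigidData.Normalized (D : RigidData 𝒪 rbar) (r : Γ →* Matrix (Fin 2) (Fin 2) A) : Prop :=
  ∀ a, r (D.g a) (D.i a) (D.j a) = algebraMap 𝒪 A (D.c a)

theorem IsLift.sub_entriesIn {r r' : Γ →* Matrix (Fin 2) (Fin 2) A} (hr : IsLift rbar r)
    (hr' : IsLift rbar r') (γ : Γ) : EntriesIn (maximalIdeal A) (r' γ - r γ) := by
  intro p q
  rw [← residue_eq_zero_iff, Matrix.sub_apply, map_sub, sub_eq_zero]
  have h1 := congrFun (congrFun (hr γ) p) q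
  have h2 := congrFun (congrFun (hr' γ) p) q
  simp only [Matrix.map_apply] at h1 h2
  rw [h1, h2]

/-- The lifted dual matrices in `A`. -/
def RigidData.EA (D : RigidData 𝒪 rbar) (A : Type w) [CommRing A] [Algebra 𝒪 A] (a : Fin 3) :
    Matrix (Fin 2) (Fin 2) A :=
  (D.E a).map (algebraMap 𝒪 A)

theorem RigidData.EA_map_residue (D : RigidData 𝒪 rbar) (a : Fin 3) :
    (D.EA A a).map (residue A) =
      ((D.E a).map (residue 𝒪)).map (ResidueField.map (algebraMap 𝒪 A)) := by
  ext p q
  simp only [RigidData.EA, Matrix.map_apply]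
  exact (ResidueField.map_residue (algebraMap 𝒪 A) _).symm

theorem RigidData.dual_lift (D : RigidData 𝒪 rbar) {r : Γ →* Matrix (Fin 2) (Fin 2) A}
    (hr : IsLift rbar r) (a b : Fin 3) :
    ellCoord (fun a => r (D.g a)) D.i D.j a (D.EA A b) - (if a = b then 1 else 0) ∈
      maximalIdeal A := by
  rw [← residue_eq_zero_iff, map_sub, ← ellCoord_map, D.EA_map_residue]
  have h1 : (fun a => (r (D.g a)).map (residue A)) =
      fun a => (rbar (D.g a)).map (ResidueField.map (algebraMap 𝒪 A)) := by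
    funext a; exact hr (D.g a)
  rw [h1, ellCoord_map (fun a => rbar (D.g a)), D.dual a b]
  split_ifs <;> simp

theorem RigidData.decomp_lift (D : RigidData 𝒪 rbar) {r : Γ →* Matrix (Fin 2) (Fin 2) A}
    (hr : IsLift rbar r) (p q : Fin 2) :
    IsScalarMod (maximalIdeal A)
      (Tmap (fun a => r (D.g a)) (D.EA A) D.i D.j (Matrix.single p q 1)) := by
  have key : (Tmap (fun a => r (D.g a)) (D.EA A) D.i D.j (Matrix.single p q 1)).map (residue A) =
      (Tmap (fun a => rbar (D.g a)) (fun a => (D.E a).map (residue 𝒪)) D.i D.j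
        (Matrix.single p q 1)).map (ResidueField.map (algebraMap 𝒪 A)) := by
    rw [← Tmap_map, ← Tmap_map]
    have h1 : (fun a => (r (D.g a)).map (residue A)) =
        fun a => (rbar (D.g a)).map (ResidueField.map (algebraMap 𝒪 A)) := by
      funext a; exact hr (D.g a)
    have h2 : (fun a => (D.EA A a).map (residue A)) =
        fun a => ((D.E a).map (residue 𝒪)).map (ResidueField.map (algebraMap 𝒪 A)) := by
      funext a; exact D.EA_map_residue a
    rw [h1, h2]
    congr 1
    ext p' q'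
    simp only [Matrix.map_apply, Matrix.single_apply]
    split_ifs <;> simp
  have hd := D.decomp p q
  have e := fun p' q' => congrFun (congrFun key p') q'
  simp only [Matrix.map_apply] at e
  obtain ⟨h01, h10, hdiag⟩ := hd
  simp only [Ideal.mem_bot] at h01 h10 hdiag
  refine ⟨?_, ?_, ?_⟩
  · rw [← residue_eq_zero_iff, e, h01, map_zero]
  · rw [← residue_eq_zero_iff, e, h10, map_zero]
  · rw [← residue_eq_zero_iff, map_sub, e, e, ← map_sub, hdiag, map_zero]

/-- Rigidity: two normalized lifts which are conjugate are equal, and the conjugating matrix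
is a scalar. -/
theorem RigidData.rigid (D : RigidData 𝒪 rbar) [IsHausdorff (maximalIdeal A) A]
    {r r' : Γ →* Matrix (Fin 2) (Fin 2) A} (hr : IsLift rbar r) (hr' : IsLift rbar r')
    (hn : D.Normalized r) (hn' : D.Normalized r') (P : Matrix (Fin 2) (Fin 2) A)
    (hP : IsUnit P) (h : ∀ γ, P * r γ = r' γ * P) :
    r = r' ∧ ∃ u : A, IsUnit u ∧ P = u • (1 : Matrix (Fin 2) (Fin 2) A) := by
  obtain ⟨t, ht⟩ : ∃ t : A, t = P 1 1 := ⟨_, rfl⟩
  obtain ⟨X, hX⟩ : ∃ X : Matrix (Fin 2) (Fin 2) A,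
      X = P - t • (1 : Matrix (Fin 2) (Fin 2) A) := ⟨_, rfl⟩
  have hX11 : X 1 1 = 0 := by simp [hX, ht]
  have hPX : P = X + t • (1 : Matrix (Fin 2) (Fin 2) A) := by simp [hX]
  -- the commutation relation in terms of `X`
  have hcomm : ∀ γ, X * r γ - r' γ * X = t • (r' γ - r γ) := by
    intro γ
    have := h γ
    rw [hPX, add_mul, mul_add, Matrix.smul_mul, Matrix.mul_smul, one_mul, mul_one] at this
    rw [smul_sub, sub_eq_sub_iff_add_eq_add, this]
    abel
  have hell : ∀ a, ellCoord (fun a => r (D.g a)) D.i D.j a X =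
      ((r' (D.g a) - r (D.g a)) * X) (D.i a) (D.j a) := by
    intro a
    have h1 := congrFun (congrFun (hcomm (D.g a)) (D.i a)) (D.j a)
    rw [Matrix.smul_apply, Matrix.sub_apply (r' (D.g a)), hn a, hn' a, sub_self, smul_zero] at h1
    simp only [ellCoord]
    have h2 : X * r (D.g a) - r (D.g a) * X =
        (X * r (D.g a) - r' (D.g a) * X) + (r' (D.g a) - r (D.g a)) * X := by
      rw [sub_mul]; abel
    rw [h2, Matrix.add_apply, h1, zero_add]
  have hind : ∀ n : ℕ, EntriesIn (maximalIdeal A ^ n) X := by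
    intro n
    induction n with
    | zero => intro p q; simp
    | succ n ih =>
      have hs := isScalarMod_of_ellCoord_mem (fun a => r (D.g a)) (D.EA A) D.i D.j
        (maximalIdeal A) (maximalIdeal A ^ n) (fun p q => D.decomp_lift hr p q) X ih
        (fun a => by
          rw [hell a]
          exact ((hr.sub_entriesIn hr' (D.g a)).mul ih) (D.i a) (D.j a))
      rw [← pow_succ'] at hs
      obtain ⟨h01, h10, hd⟩ := hs
      rw [hX11, sub_zero] at hd
      intro p q
      fin_cases p <;> fin_cases q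
      · exact hd
      · exact h01
      · exact h10
      · show X 1 1 ∈ _
        rw [hX11]; exact Ideal.zero_mem _
  have hX0 : X = 0 := by
    ext p q
    refine IsHausdorff.haus (I := maximalIdeal A) inferInstance (X p q) fun n => ?_
    rw [SModEq.zero, smul_eq_mul, Ideal.mul_top]
    exact hind n p q
  have hPt : P = t • (1 : Matrix (Fin 2) (Fin 2) A) := by rw [hPX, hX0, zero_add]
  have htu : IsUnit t := by
    have hdet := (Matrix.isUnit_iff_isUnit_det P).mp hP
    rw [hPt, Matrix.det_smul, Matrix.det_one, mul_one, Fintype.card_fin] at hdet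
    simpa using hdet
  refine ⟨?_, t, htu, hPt⟩
  ext γ : 1
  have := h γ
  rw [hPt, Matrix.smul_mul, Matrix.mul_smul, one_mul, mul_one] at this
  obtain ⟨u, hu⟩ := htu
  have h3 : (↑u⁻¹ : A) • (t • r γ) = (↑u⁻¹ : A) • (t • r' γ) := by rw [this]
  rw [smul_smul, smul_smul, ← hu, Units.inv_mul, one_smul, one_smul] at h3
  exact h3

/-- Conjugation of a matrix-valued monoid homomorphism by an invertible matrix. -/
def conjHom (P : (Matrix (Fin 2) (Fin 2) A)ˣ) (r : Γ →* Matrix (Fin 2) (Fin 2) A) :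
    Γ →* Matrix (Fin 2) (Fin 2) A where
  toFun γ := (P : Matrix (Fin 2) (Fin 2) A) * r γ * (↑P⁻¹ : Matrix (Fin 2) (Fin 2) A)
  map_one' := by simp
  map_mul' x y := by
    simp only [map_mul]
    have h : (↑P⁻¹ : Matrix (Fin 2) (Fin 2) A) *
        ((P : Matrix (Fin 2) (Fin 2) A) * r y * (↑P⁻¹ : Matrix (Fin 2) (Fin 2) A)) =
        r y * (↑P⁻¹ : Matrix (Fin 2) (Fin 2) A) := by
      rw [← mul_assoc, ← mul_assoc, Units.inv_mul, one_mul]
    rw [mul_assoc ((P : Matrix (Fin 2) (Fin 2) A) * r x), h]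
    simp only [mul_assoc]

omit [IsLocalRing A] [IsLocalHom (algebraMap 𝒪 A)] [Algebra 𝒪 A] in
@[simp] theorem conjHom_apply (P : (Matrix (Fin 2) (Fin 2) A)ˣ)
    (r : Γ →* Matrix (Fin 2) (Fin 2) A) (γ : Γ) :
    conjHom P r γ = (P : Matrix (Fin 2) (Fin 2) A) * r γ * (↑P⁻¹ : Matrix (Fin 2) (Fin 2) A) :=
  rfl

omit [IsLocalRing A] [IsLocalHom (algebraMap 𝒪 A)] [Algebra 𝒪 A] in
theorem conjHom_mul_eq (P : (Matrix (Fin 2) (Fin 2) A)ˣ)
    (r : Γ →* Matrix (Fin 2) (Fin 2) A) (γ : Γ) :
    conjHom P r γ * (P : Matrix (Fin 2) (Fin 2) A) = P * r γ := by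
  rw [conjHom_apply, mul_assoc, Units.inv_mul, mul_one]

omit [IsLocalRing A] [IsLocalHom (algebraMap 𝒪 A)] [Algebra 𝒪 A] in
theorem conjHom_one (r : Γ →* Matrix (Fin 2) (Fin 2) A) : conjHom 1 r = r := by
  ext γ : 1
  simp

omit [IsLocalRing A] [IsLocalHom (algebraMap 𝒪 A)] [Algebra 𝒪 A] in
theorem conjHom_conjHom (P Q : (Matrix (Fin 2) (Fin 2) A)ˣ)
    (r : Γ →* Matrix (Fin 2) (Fin 2) A) : conjHom P (conjHom Q r) = conjHom (P * Q) r := by
  ext γ : 1
  simp only [conjHom_apply, Units.val_mul, mul_inv_rev, mul_assoc]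

omit [IsLocalRing A] [IsLocalHom (algebraMap 𝒪 A)] [Algebra 𝒪 A] in
/-- If `Q' ≡ Q` mod `J` then the conjugates by `Q'` and `Q` agree mod `J`. -/
theorem conjHom_sub_entriesIn {J : Ideal A} (Q Q' : (Matrix (Fin 2) (Fin 2) A)ˣ)
    (hQ : EntriesIn J ((Q' : Matrix (Fin 2) (Fin 2) A) - Q))
    (r : Γ →* Matrix (Fin 2) (Fin 2) A) (γ : Γ) :
    EntriesIn J (conjHom Q' r γ - conjHom Q r γ) := by
  have key : conjHom Q' r γ - conjHom Q r γ =
      (((Q' : Matrix (Fin 2) (Fin 2) A) - Q) * r γ -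
        conjHom Q r γ * ((Q' : Matrix (Fin 2) (Fin 2) A) - Q)) *
          (↑Q'⁻¹ : Matrix (Fin 2) (Fin 2) A) := by
    rw [mul_sub (conjHom Q r γ), conjHom_mul_eq, sub_mul ((Q' : Matrix (Fin 2) (Fin 2) A)),
      sub_sub_sub_cancel_right, sub_mul, mul_assoc (conjHom Q r γ), Units.mul_inv, mul_one,
      conjHom_apply]
  rw [key]
  exact ((hQ.mul_right _).sub (hQ.mul_left _)).mul_right _

omit [IsLocalHom (algebraMap 𝒪 A)] [Algebra 𝒪 A] in
theorem isUnit_of_sub_one_entriesIn {P : Matrix (Fin 2) (Fin 2) A}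
    (hP : EntriesIn (maximalIdeal A) (P - 1)) : IsUnit P := by
  rw [Matrix.isUnit_iff_isUnit_det, Matrix.det_fin_two]
  have h00 := hP 0 0
  have h01 := hP 0 1
  have h10 := hP 1 0
  have h11 := hP 1 1
  simp only [Matrix.sub_apply, Matrix.one_apply_eq, Matrix.one_apply_ne, ne_eq, zero_ne_one,
    one_ne_zero, not_false_eq_true, sub_zero] at h00 h01 h10 h11
  have hmem : 1 - (P 0 0 * P 1 1 - P 0 1 * P 1 0) ∈ maximalIdeal A := by
    have : 1 - (P 0 0 * P 1 1 - P 0 1 * P 1 0) =
        -((P 0 0 - 1) * P 1 1) - (P 1 1 - 1) + P 0 1 * P 1 0 := by ring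
    rw [this]
    exact Ideal.add_mem _ (Ideal.sub_mem _ (neg_mem (Ideal.mul_mem_right _ _ h00)) h11)
      (Ideal.mul_mem_right _ _ h01)
  by_contra hnu
  have h1 : (P 0 0 * P 1 1 - P 0 1 * P 1 0) ∈ maximalIdeal A := by
    rwa [IsLocalRing.mem_maximalIdeal, mem_nonunits_iff]
  have : (1 : A) ∈ maximalIdeal A := by
    have := Ideal.add_mem _ hmem h1
    simp at this
  exact (Ideal.ne_top_iff_one (maximalIdeal A)).mp (maximalIdeal.isMaximal A).ne_top this

theorem IsLift.conjHom {r : Γ →* Matrix (Fin 2) (Fin 2) A} (hr : IsLift rbar r)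
    (P : (Matrix (Fin 2) (Fin 2) A)ˣ)
    (hP : EntriesIn (maximalIdeal A) ((P : Matrix (Fin 2) (Fin 2) A) - 1)) :
    IsLift rbar (conjHom P r) := by
  intro γ
  rw [← hr γ]
  have h := conjHom_sub_entriesIn (1 : (Matrix (Fin 2) (Fin 2) A)ˣ) P (by simpa using hP) r γ
  rw [conjHom_one] at h
  ext p q
  have := h p q
  rw [← residue_eq_zero_iff, Matrix.sub_apply, map_sub, sub_eq_zero] at this
  simpa using this

/-- The normalization defect of `r` at the coordinate `a`. -/
def RigidData.defect (D : RigidData 𝒪 rbar) (r : Γ →* Matrix (Fin 2) (Fin 2) A) (a : Fin 3) : A :=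
  r (D.g a) (D.i a) (D.j a) - algebraMap 𝒪 A (D.c a)

theorem RigidData.defect_mem (D : RigidData 𝒪 rbar) {r : Γ →* Matrix (Fin 2) (Fin 2) A}
    (hr : IsLift rbar r) (a : Fin 3) : D.defect r a ∈ maximalIdeal A := by
  rw [RigidData.defect, ← residue_eq_zero_iff, map_sub, sub_eq_zero]
  have h1 := congrFun (congrFun (hr (D.g a)) (D.i a)) (D.j a)
  simp only [Matrix.map_apply] at h1
  rw [h1, ← D.hc a]
  exact ResidueField.map_residue (algebraMap 𝒪 A) _

omit [IsLocalRing A] [IsLocalHom (algebraMap 𝒪 A)] in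
theorem RigidData.normalized_iff_defect (D : RigidData 𝒪 rbar)
    (r : Γ →* Matrix (Fin 2) (Fin 2) A) : D.Normalized r ↔ ∀ a, D.defect r a = 0 := by
  simp only [RigidData.Normalized, RigidData.defect, sub_eq_zero]

/-- One step of the successive approximation. -/
theorem RigidData.step (D : RigidData 𝒪 rbar) {s : Γ →* Matrix (Fin 2) (Fin 2) A}
    (hs : IsLift rbar s) {I : Ideal A} (hI : I ≤ maximalIdeal A)
    (hν : ∀ a, D.defect s a ∈ I) :
    ∃ P : (Matrix (Fin 2) (Fin 2) A)ˣ, EntriesIn I ((P : Matrix (Fin 2) (Fin 2) A) - 1) ∧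
      ∀ a, D.defect (conjHom P s) a ∈ maximalIdeal A * I := by
  obtain ⟨Y, hY⟩ : ∃ Y : Matrix (Fin 2) (Fin 2) A, Y = -∑ b, D.defect s b • D.EA A b := ⟨_, rfl⟩
  have hYI : EntriesIn I Y := by
    rw [hY]
    exact (EntriesIn.sum _ fun b _ => EntriesIn.smul_of_mem (hν b) _).neg
  have hPu : IsUnit (1 + Y) := isUnit_of_sub_one_entriesIn (by simpa using hYI.mono hI)
  obtain ⟨P, hP⟩ := hPu
  have hP1 : (P : Matrix (Fin 2) (Fin 2) A) - 1 = Y := by rw [hP]; simp
  refine ⟨P, by rw [hP1]; exact hYI, fun a => ?_⟩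
  -- notation
  obtain ⟨s', hs'⟩ : ∃ s' : Γ →* Matrix (Fin 2) (Fin 2) A, s' = conjHom P s := ⟨_, rfl⟩
  rw [← hs']
  have hrel : ∀ γ, s' γ - s γ = Y * s γ - s' γ * Y := by
    intro γ
    have := conjHom_mul_eq P s γ
    rw [← hs', hP, mul_add, add_mul, mul_one, one_mul] at this
    rw [sub_eq_sub_iff_add_eq_add, this, add_comm]
  have hdiff : ∀ γ, EntriesIn I (s' γ - s γ) := by
    intro γ
    rw [hrel γ]
    exact (hYI.mul_right _).sub (hYI.mul_left _)
  have hrel2 : s' (D.g a) - s (D.g a) =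
      (Y * s (D.g a) - s (D.g a) * Y) - (s' (D.g a) - s (D.g a)) * Y := by
    rw [sub_mul, hrel (D.g a)]
    abel
  have hell : ellCoord (fun a => s (D.g a)) D.i D.j a Y + D.defect s a ∈ maximalIdeal A * I := by
    rw [hY, ellCoord_neg, ellCoord_sum]
    simp only [ellCoord_smul]
    have : -∑ b, D.defect s b * ellCoord (fun a => s (D.g a)) D.i D.j a (D.EA A b) +
        D.defect s a = -∑ b, D.defect s b *
          (ellCoord (fun a => s (D.g a)) D.i D.j a (D.EA A b) - if a = b then 1 else 0) := by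
      simp only [mul_sub, Finset.sum_sub_distrib, mul_ite, mul_one, mul_zero,
        Finset.sum_ite_eq, Finset.mem_univ, if_true]
      ring
    rw [this]
    refine neg_mem (Ideal.sum_mem _ fun b _ => ?_)
    rw [mul_comm (D.defect s b)]
    exact Ideal.mul_mem_mul (D.dual_lift hs a b) (hν b)
  have hfinal : D.defect s' a =
      (ellCoord (fun a => s (D.g a)) D.i D.j a Y + D.defect s a) -
        ((s' (D.g a) - s (D.g a)) * Y) (D.i a) (D.j a) := by
    have h1 := congrFun (congrFun hrel2 (D.i a)) (D.j a)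
    simp only [Matrix.sub_apply] at h1
    simp only [RigidData.defect, ellCoord, Matrix.sub_apply]
    linear_combination h1
  rw [hfinal]
  refine Ideal.sub_mem _ hell ?_
  have := ((hdiff (D.g a)).mul hYI) (D.i a) (D.j a)
  exact Ideal.mul_mono_left hI this

/-- Existence of a normalized conjugate, by successive approximation. -/
theorem RigidData.exists_normalized (D : RigidData 𝒪 rbar) [IsAdicComplete (maximalIdeal A) A]
    {r : Γ →* Matrix (Fin 2) (Fin 2) A} (hr : IsLift rbar r) :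
    ∃ (P : (Matrix (Fin 2) (Fin 2) A)ˣ) (r' : Γ →* Matrix (Fin 2) (Fin 2) A),
      EntriesIn (maximalIdeal A) ((P : Matrix (Fin 2) (Fin 2) A) - 1) ∧
      IsLift rbar r' ∧ D.Normalized r' ∧
      ∀ γ, (P : Matrix (Fin 2) (Fin 2) A) * r γ = r' γ * P := by
  classical
  -- the predicate along the iteration
  let Good : ℕ → (Matrix (Fin 2) (Fin 2) A)ˣ → Prop := fun n Q =>
    EntriesIn (maximalIdeal A) ((Q : Matrix (Fin 2) (Fin 2) A) - 1) ∧
      ∀ a, D.defect (conjHom Q r) a ∈ maximalIdeal A ^ (n + 1)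
  have hbase : Good 0 1 := by
    refine ⟨by simpa using EntriesIn.zero _, fun a => ?_⟩
    rw [conjHom_one, zero_add, pow_one]
    exact D.defect_mem hr a
  have hstep : ∀ n Q, Good n Q → ∃ Q', Good (n + 1) Q' ∧
      EntriesIn (maximalIdeal A ^ (n + 1))
        ((Q' : Matrix (Fin 2) (Fin 2) A) - (Q : Matrix (Fin 2) (Fin 2) A)) := by
    intro n Q hQ
    have hI : maximalIdeal A ^ (n + 1) ≤ maximalIdeal A := Ideal.pow_le_self (Nat.succ_ne_zero n)
    obtain ⟨P, hP1, hP2⟩ := D.step (hr.conjHom Q hQ.1) hI hQ.2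
    have hdiff : EntriesIn (maximalIdeal A ^ (n + 1))
        (((P * Q : (Matrix (Fin 2) (Fin 2) A)ˣ) : Matrix (Fin 2) (Fin 2) A) -
          (Q : Matrix (Fin 2) (Fin 2) A)) := by
      have : ((P * Q : (Matrix (Fin 2) (Fin 2) A)ˣ) : Matrix (Fin 2) (Fin 2) A) -
          (Q : Matrix (Fin 2) (Fin 2) A) = ((P : Matrix (Fin 2) (Fin 2) A) - 1) * Q := by
        rw [sub_mul, one_mul, Units.val_mul]
      rw [this]
      exact hP1.mul_right _
    refine ⟨P * Q, ⟨?_, fun a => ?_⟩, hdiff⟩
    · have : ((P * Q : (Matrix (Fin 2) (Fin 2) A)ˣ) : Matrix (Fin 2) (Fin 2) A) - 1 =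
          (((P * Q : (Matrix (Fin 2) (Fin 2) A)ˣ) : Matrix (Fin 2) (Fin 2) A) -
            (Q : Matrix (Fin 2) (Fin 2) A)) + ((Q : Matrix (Fin 2) (Fin 2) A) - 1) := by abel
      rw [this]
      exact (hdiff.mono hI).add hQ.1
    · rw [← conjHom_conjHom, pow_succ']
      exact hP2 a
  -- build the sequence
  let seq : (n : ℕ) → {Q : (Matrix (Fin 2) (Fin 2) A)ˣ // Good n Q} := fun n =>
    Nat.rec (motive := fun n => {Q : (Matrix (Fin 2) (Fin 2) A)ˣ // Good n Q}) ⟨1, hbase⟩
      (fun n Q => ⟨(hstep n Q.1 Q.2).choose, (hstep n Q.1 Q.2).choose_spec.1⟩) n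
  have hseq : ∀ n, EntriesIn (maximalIdeal A ^ (n + 1))
      (((seq (n + 1)).1 : Matrix (Fin 2) (Fin 2) A) - ((seq n).1 : Matrix (Fin 2) (Fin 2) A)) :=
    fun n => (hstep n (seq n).1 (seq n).2).choose_spec.2
  -- entrywise limits
  have hcauchy : ∀ p q, ∃ L : A, ∀ n,
      ((seq n).1 : Matrix (Fin 2) (Fin 2) A) p q ≡ L
        [SMOD (maximalIdeal A ^ n • ⊤ : Submodule A A)] := by
    intro p q
    refine IsPrecomplete.prec (IsAdicComplete.toIsPrecomplete) ?_
    intro m n hmn
    induction n, hmn using Nat.le_induction with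
    | base => rfl
    | succ n hmn ih =>
      refine ih.trans ?_
      rw [SModEq.sub_mem, smul_eq_mul, Ideal.mul_top]
      have := hseq n p q
      rw [Matrix.sub_apply] at this
      have h2 : ((seq n).1 : Matrix (Fin 2) (Fin 2) A) p q -
          ((seq (n + 1)).1 : Matrix (Fin 2) (Fin 2) A) p q ∈ maximalIdeal A ^ (n + 1) := by
        rw [← neg_sub]; exact neg_mem this
      exact Ideal.pow_le_pow_right (by omega) h2
  choose L hL using hcauchy
  obtain ⟨Qm, hQm⟩ : ∃ Qm : Matrix (Fin 2) (Fin 2) A, Qm = Matrix.of L := ⟨_, rfl⟩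
  have hQmn : ∀ n, EntriesIn (maximalIdeal A ^ n)
      (Qm - ((seq n).1 : Matrix (Fin 2) (Fin 2) A)) := by
    intro n p q
    have := hL p q n
    rw [SModEq.sub_mem, smul_eq_mul, Ideal.mul_top] at this
    rw [Matrix.sub_apply, hQm, Matrix.of_apply, ← neg_sub]
    exact neg_mem this
  have hQm1 : EntriesIn (maximalIdeal A) (Qm - 1) := by
    have h1 := hQmn 1
    rw [pow_one] at h1
    have : Qm - 1 = (Qm - ((seq 1).1 : Matrix (Fin 2) (Fin 2) A)) +
        (((seq 1).1 : Matrix (Fin 2) (Fin 2) A) - 1) := by abel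
    rw [this]
    exact h1.add (seq 1).2.1
  obtain ⟨Q, hQ⟩ := isUnit_of_sub_one_entriesIn hQm1
  rw [← hQ] at hQm1 hQmn
  refine ⟨Q, conjHom Q r, hQm1, hr.conjHom Q hQm1, ?_, fun γ => (conjHom_mul_eq Q r γ).symm⟩
  rw [D.normalized_iff_defect]
  intro a
  refine IsHausdorff.haus (I := maximalIdeal A) inferInstance _ fun n => ?_
  rw [SModEq.zero, smul_eq_mul, Ideal.mul_top]
  have h1 := conjHom_sub_entriesIn (seq n).1 Q (hQmn n) r (D.g a) (D.i a) (D.j a)
  have h2 : D.defect (conjHom Q r) a =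
      (conjHom Q r (D.g a) - conjHom (seq n).1 r (D.g a)) (D.i a) (D.j a) +
        D.defect (conjHom (seq n).1 r) a := by
    simp only [RigidData.defect, Matrix.sub_apply]; ring
  rw [h2]
  exact Ideal.add_mem _ h1 (Ideal.pow_le_pow_right (Nat.le_succ n) ((seq n).2.2 a))

end Data

end Fermat.Agent.S53.Rigid

end
-- ===== PACK-END S53/Rigid/Basic.lean

-- ===== PACK-BEGIN S53/GlueInj.lean
section



set_option autoImplicit false
set_option linter.style.haveILetI false
set_option linter.unusedSectionVars false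

noncomputable section

namespace Fermat.Agent.S53.H113

open IsLocalRing GaloisRep
open scoped TensorProduct

/-! ### Transitivity of base change -/

theorem cancelBaseChange_baseChange {A B C V : Type} [CommRing A] [CommRing B] [CommRing C]
    [Algebra A B] [Algebra B C] [Algebra A C] [IsScalarTower A B C]
    [AddCommGroup V] [Module A V] (f : Module.End A V) (x : C ⊗[B] (B ⊗[A] V)) :
    TensorProduct.AlgebraTensorModule.cancelBaseChange A B C C V
      ((f.baseChange B).baseChange C x) =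
    f.baseChange C (TensorProduct.AlgebraTensorModule.cancelBaseChange A B C C V x) := by
  induction x using TensorProduct.induction_on with
  | zero => simp only [map_zero]
  | tmul c y =>
    induction y using TensorProduct.induction_on with
    | zero => simp only [TensorProduct.tmul_zero, map_zero]
    | tmul b v =>
      simp only [LinearMap.baseChange_tmul,
        TensorProduct.AlgebraTensorModule.cancelBaseChange_tmul]
    | add y z hy hz =>
      simp only [TensorProduct.tmul_add, map_add, hy, hz]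
  | add x y hx hy => simp only [map_add, hx, hy]

/-- Base change of adic Galois representations is transitive (up to equivalence). -/
theorem baseChangeAlong_comp_isEquiv {A B C : Type} [CommRing A] [IsLocalRing A]
    [CommRing B] [IsLocalRing B] [CommRing C] [IsLocalRing C]
    (φ : A →+* B) (hφ : IsLocalHom φ) (ψ : B →+* C) (hψ : IsLocalHom ψ)
    (hψφ : IsLocalHom (ψ.comp φ)) (ρ : GaloisRepAdic A) :
    ((ρ.baseChangeAlong φ hφ).baseChangeAlong ψ hψ).IsEquiv (ρ.baseChangeAlong (ψ.comp φ) hψφ) := by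
  letI : Algebra A B := φ.toAlgebra
  letI : Algebra B C := ψ.toAlgebra
  letI : Algebra A C := (ψ.comp φ).toAlgebra
  haveI : IsScalarTower A B C := IsScalarTower.of_algebraMap_eq (fun _ => rfl)
  exact ⟨⟨TensorProduct.AlgebraTensorModule.cancelBaseChange A B C C ρ.V,
    fun σ x => cancelBaseChange_baseChange (ρ.ρ σ) x⟩⟩

/-- Variant with the composite given up to equality. -/
theorem baseChangeAlong_comp_isEquiv' {A B C : Type} [CommRing A] [IsLocalRing A]
    [CommRing B] [IsLocalRing B] [CommRing C] [IsLocalRing C]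
    (φ : A →+* B) (hφ : IsLocalHom φ) (ψ : B →+* C) (hψ : IsLocalHom ψ)
    (χ : A →+* C) (hχ : IsLocalHom χ) (h : ψ.comp φ = χ) (ρ : GaloisRepAdic A) :
    ((ρ.baseChangeAlong φ hφ).baseChangeAlong ψ hψ).IsEquiv (ρ.baseChangeAlong χ hχ) := by
  subst h
  exact baseChangeAlong_comp_isEquiv φ hφ ψ hψ hχ ρ

theorem isEquiv_symm {A : Type} [CommRing A] [IsLocalRing A] {ρ ρ' : GaloisRepAdic A}
    (h : ρ.IsEquiv ρ') : ρ'.IsEquiv ρ := h.elim fun e => ⟨e.symm⟩

theorem isEquiv_trans {A : Type} [CommRing A] [IsLocalRing A] {ρ ρ' ρ'' : GaloisRepAdic A}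
    (h : ρ.IsEquiv ρ') (h' : ρ'.IsEquiv ρ'') : ρ.IsEquiv ρ'' :=
  h.elim fun e => h'.elim fun e' => ⟨e.trans e'⟩

theorem isEquiv_refl {A : Type} [CommRing A] [IsLocalRing A] (ρ : GaloisRepAdic A) :
    ρ.IsEquiv ρ := ⟨GaloisRepAdic.Equiv.refl ρ⟩

theorem isEquiv_baseChangeAlong {A B : Type} [CommRing A] [IsLocalRing A]
    [CommRing B] [IsLocalRing B] (φ : A →+* B) (hφ : IsLocalHom φ) {ρ ρ' : GaloisRepAdic A}
    (h : ρ.IsEquiv ρ') : (ρ.baseChangeAlong φ hφ).IsEquiv (ρ'.baseChangeAlong φ hφ) :=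
  h.elim fun e => ⟨e.baseChangeAlong φ hφ⟩

/-! ### Test algebras -/

section TestAlgebra

variable {𝒪 : Type} [CommRing 𝒪] [IsLocalRing 𝒪]

/-- Any `𝒪`-algebra homomorphism from a local `𝒪`-algebra to a local `𝒪`-algebra `B` with
`𝒪 → B` local and residue field generated by `𝒪` is a local homomorphism. -/
theorem isLocalHom_algHom {A B : Type} [CommRing A] [IsLocalRing A] [Algebra 𝒪 A]
    [CommRing B] [IsLocalRing B] [Algebra 𝒪 B]
    (hloc : IsLocalHom (algebraMap 𝒪 B))
    (hB : Function.Surjective (IsLocalRing.residue B ∘ algebraMap 𝒪 B))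
    (φ : A →ₐ[𝒪] B) : IsLocalHom (φ : A →+* B) := by
  refine ⟨fun a ha => ?_⟩
  have ha' : IsUnit (φ a) := ha
  by_contra hna
  have ham : a ∈ maximalIdeal A := hna
  obtain ⟨c, hc⟩ := hB (residue B (φ a))
  have hc' : residue B (algebraMap 𝒪 B c) = residue B (φ a) := hc
  have hcB : IsUnit (algebraMap 𝒪 B c) := by
    by_contra hn
    have h0 : residue B (algebraMap 𝒪 B c) = 0 := (IsLocalRing.residue_eq_zero_iff _).mpr hn
    rw [hc'] at h0
    exact (IsLocalRing.residue_eq_zero_iff _).mp h0 ha'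
  have hcu : IsUnit c := hloc.map_nonunit c hcB
  have hcA : IsUnit (algebraMap 𝒪 A c) := hcu.map _
  have hu : IsUnit (a - algebraMap 𝒪 A c) := by
    by_contra hn
    have hn' : a - algebraMap 𝒪 A c ∈ maximalIdeal A := hn
    have : algebraMap 𝒪 A c ∈ maximalIdeal A := by
      have := (maximalIdeal A).sub_mem ham hn'
      simpa using this
    exact this hcA
  have hu' : IsUnit (φ (a - algebraMap 𝒪 A c)) := hu.map φ
  have h0 : residue B (φ (a - algebraMap 𝒪 A c)) = 0 := by
    rw [map_sub, φ.commutes, map_sub, hc', sub_self]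
  exact (IsLocalRing.residue_eq_zero_iff _).mp h0 hu'

theorem isLocalHom_algHom_of_test {A B : Type} [CommRing A] [IsLocalRing A] [Algebra 𝒪 A]
    [CommRing B] [IsLocalRing B] [Algebra 𝒪 B] (hB : IsArtinianTestAlgebra 𝒪 B)
    (φ : A →ₐ[𝒪] B) : IsLocalHom (φ : A →+* B) :=
  isLocalHom_algHom hB.isLocalHom hB.residue_surjective φ

/-- The residue field of `𝒪` is an Artinian test algebra. -/
theorem isArtinianTestAlgebra_residueField :
    IsArtinianTestAlgebra 𝒪 (ResidueField 𝒪) where
  isLocalHom := by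
    rw [IsLocalRing.ResidueField.algebraMap_eq]
    infer_instance
  residue_surjective := by
    apply Function.Surjective.comp
    · exact IsLocalRing.residue_surjective
    · rw [IsLocalRing.ResidueField.algebraMap_eq]
      exact IsLocalRing.residue_surjective
  isArtinian := inferInstance

section resk

variable {A : Type} [CommRing A] [IsLocalRing A] [Algebra 𝒪 A]

theorem residueField_map_bijective (hloc : IsLocalHom (algebraMap 𝒪 A))
    (hsurj : Function.Surjective (IsLocalRing.residue A ∘ algebraMap 𝒪 A)) :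
    Function.Bijective (IsLocalRing.ResidueField.map (algebraMap 𝒪 A)) := by
  refine ⟨RingHom.injective _, fun y => ?_⟩
  obtain ⟨c, hc⟩ := hsurj y
  exact ⟨residue 𝒪 c, by rw [IsLocalRing.ResidueField.map_residue]; exact hc⟩

/-- The residue map of a test algebra, with values in the residue field of `𝒪`. -/
def resk (hloc : IsLocalHom (algebraMap 𝒪 A))
    (hsurj : Function.Surjective (IsLocalRing.residue A ∘ algebraMap 𝒪 A)) :
    A →ₐ[𝒪] ResidueField 𝒪 :=
  { ((RingEquiv.ofBijective (IsLocalRing.ResidueField.map (algebraMap 𝒪 A))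
        (_root_.Fermat.Agent.S53.H113.residueField_map_bijective hloc hsurj)).symm : ResidueField A →+* ResidueField 𝒪).comp
      (residue A) with
    commutes' := fun c => by
      show (RingEquiv.ofBijective (IsLocalRing.ResidueField.map (algebraMap 𝒪 A))
        (_root_.Fermat.Agent.S53.H113.residueField_map_bijective hloc hsurj)).symm (residue A (algebraMap 𝒪 A c)) =
          algebraMap 𝒪 (ResidueField 𝒪) c
      rw [RingEquiv.symm_apply_eq]
      show _ = IsLocalRing.ResidueField.map (algebraMap 𝒪 A) (residue 𝒪 c)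
      rw [IsLocalRing.ResidueField.map_residue] }

theorem resk_eq_zero_iff (hloc : IsLocalHom (algebraMap 𝒪 A))
    (hsurj : Function.Surjective (IsLocalRing.residue A ∘ algebraMap 𝒪 A)) (a : A) :
    resk hloc hsurj a = 0 ↔ a ∈ maximalIdeal A := by
  show (RingEquiv.ofBijective (IsLocalRing.ResidueField.map (algebraMap 𝒪 A))
        (_root_.Fermat.Agent.S53.H113.residueField_map_bijective hloc hsurj)).symm (residue A a) = 0 ↔ _
  rw [RingEquiv.map_eq_zero_iff, IsLocalRing.residue_eq_zero_iff]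

theorem isUnit_iff_resk_ne_zero (hloc : IsLocalHom (algebraMap 𝒪 A))
    (hsurj : Function.Surjective (IsLocalRing.residue A ∘ algebraMap 𝒪 A)) (a : A) :
    IsUnit a ↔ resk hloc hsurj a ≠ 0 := by
  rw [Ne, resk_eq_zero_iff, IsLocalRing.mem_maximalIdeal, mem_nonunits_iff, not_not]

theorem resk_surjective (hloc : IsLocalHom (algebraMap 𝒪 A))
    (hsurj : Function.Surjective (IsLocalRing.residue A ∘ algebraMap 𝒪 A)) :
    Function.Surjective (resk hloc hsurj) := by
  intro y
  obtain ⟨c, rfl⟩ := IsLocalRing.residue_surjective y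
  exact ⟨algebraMap 𝒪 A c, (resk hloc hsurj).commutes c⟩

end resk

section Finite

variable [Finite (ResidueField 𝒪)] {A : Type} [CommRing A] [IsLocalRing A] [Algebra 𝒪 A]

/-- An Artinian test algebra over `𝒪` (with finite residue field) is a finite ring. -/
theorem finite_of_isArtinianTestAlgebra (hA : IsArtinianTestAlgebra 𝒪 A) : Finite A := by
  haveI := hA.isArtinian
  haveI : Finite (ResidueField A) :=
    Finite.of_surjective _ (_root_.Fermat.Agent.S53.H113.residueField_map_bijective hA.isLocalHom hA.residue_surjective).2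
  haveI : Finite (A ⧸ maximalIdeal A) := ‹Finite (ResidueField A)›
  obtain ⟨n, hn⟩ : ∃ n, maximalIdeal A ^ n = ⊥ := by
    have h := IsArtinianRing.isNilpotent_jacobson_bot (R := A)
    rw [IsLocalRing.jacobson_eq_maximalIdeal ⊥ bot_ne_top] at h
    obtain ⟨n, hn⟩ := h
    exact ⟨n, hn⟩
  have hfin : Finite (A ⧸ maximalIdeal A ^ n) :=
    Ideal.finite_quotient_pow (IsNoetherian.noetherian (maximalIdeal A)) n
  rw [hn] at hfin
  exact Finite.of_equiv _ (RingEquiv.quotientBot A).toEquiv

end Finite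

section FibreProduct

variable {A B : Type} [CommRing A] [IsLocalRing A] [Algebra 𝒪 A]
  [CommRing B] [IsLocalRing B] [Algebra 𝒪 B]

/-- The fibre product `A ×_k B` over the residue field `k` of `𝒪`. -/
def fibProd (hA : IsArtinianTestAlgebra 𝒪 A) (hB : IsArtinianTestAlgebra 𝒪 B) :
    Subalgebra 𝒪 (A × B) :=
  AlgHom.equalizer ((resk hA.isLocalHom hA.residue_surjective).comp (AlgHom.fst 𝒪 A B))
    ((resk hB.isLocalHom hB.residue_surjective).comp (AlgHom.snd 𝒪 A B))

variable (hA : IsArtinianTestAlgebra 𝒪 A) (hB : IsArtinianTestAlgebra 𝒪 B)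

theorem mem_fibProd (x : A × B) :
    x ∈ _root_.Fermat.Agent.S53.H113.fibProd hA hB ↔ resk hA.isLocalHom hA.residue_surjective x.1 =
      resk hB.isLocalHom hB.residue_surjective x.2 := Iff.rfl

def fibProdFst : _root_.Fermat.Agent.S53.H113.fibProd hA hB →ₐ[𝒪] A := (AlgHom.fst 𝒪 A B).comp (_root_.Fermat.Agent.S53.H113.fibProd hA hB).val

def fibProdSnd : _root_.Fermat.Agent.S53.H113.fibProd hA hB →ₐ[𝒪] B := (AlgHom.snd 𝒪 A B).comp (_root_.Fermat.Agent.S53.H113.fibProd hA hB).val

theorem fibProdFst_apply (x : _root_.Fermat.Agent.S53.H113.fibProd hA hB) : _root_.Fermat.Agent.S53.H113.fibProdFst hA hB x = x.1.1 := rfl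

theorem fibProdSnd_apply (x : _root_.Fermat.Agent.S53.H113.fibProd hA hB) : _root_.Fermat.Agent.S53.H113.fibProdSnd hA hB x = x.1.2 := rfl

theorem isUnit_fibProd_iff (x : _root_.Fermat.Agent.S53.H113.fibProd hA hB) : IsUnit x ↔ IsUnit x.1.1 := by
  constructor
  · intro h
    exact h.map (_root_.Fermat.Agent.S53.H113.fibProdFst hA hB)
  · intro h
    have hx := (_root_.Fermat.Agent.S53.H113.mem_fibProd hA hB x.1).mp x.2
    have h2 : IsUnit x.1.2 := by
      rw [isUnit_iff_resk_ne_zero hB.isLocalHom hB.residue_surjective, ← hx,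
        ← isUnit_iff_resk_ne_zero hA.isLocalHom hA.residue_surjective]
      exact h
    obtain ⟨u, hu⟩ := h
    obtain ⟨v, hv⟩ := h2
    have hmem : ((↑u⁻¹ : A), (↑v⁻¹ : B)) ∈ _root_.Fermat.Agent.S53.H113.fibProd hA hB := by
      rw [_root_.Fermat.Agent.S53.H113.mem_fibProd]
      show resk hA.isLocalHom hA.residue_surjective (↑u⁻¹ : A) =
        resk hB.isLocalHom hB.residue_surjective (↑v⁻¹ : B)
      have e1 : resk hA.isLocalHom hA.residue_surjective (↑u⁻¹ : A) *
          resk hA.isLocalHom hA.residue_surjective (u : A) = 1 := by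
        rw [← map_mul, Units.inv_mul, map_one]
      have e2 : resk hB.isLocalHom hB.residue_surjective (↑v⁻¹ : B) *
          resk hB.isLocalHom hB.residue_surjective (v : B) = 1 := by
        rw [← map_mul, Units.inv_mul, map_one]
      rw [hu, hx, ← hv] at e1
      have hne : resk hB.isLocalHom hB.residue_surjective (v : B) ≠ 0 := by
        intro h0
        rw [h0, mul_zero] at e2
        exact zero_ne_one e2
      exact mul_right_cancel₀ hne (e1.trans e2.symm)
    refine ⟨⟨x, ⟨_, hmem⟩, ?_, ?_⟩, rfl⟩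
    · apply Subtype.ext
      show ((x.1.1 * (↑u⁻¹ : A), x.1.2 * (↑v⁻¹ : B)) : A × B) = (1, 1)
      rw [← hu, ← hv, Units.mul_inv, Units.mul_inv]
    · apply Subtype.ext
      show (((↑u⁻¹ : A) * x.1.1, (↑v⁻¹ : B) * x.1.2) : A × B) = (1, 1)
      rw [← hu, ← hv, Units.inv_mul, Units.inv_mul]

theorem isLocalHom_fibProdFst : IsLocalHom (_root_.Fermat.Agent.S53.H113.fibProdFst hA hB : _root_.Fermat.Agent.S53.H113.fibProd hA hB →+* A) :=
  ⟨fun x hx => (isUnit_fibProd_iff hA hB x).mpr hx⟩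

instance isLocalRing_fibProd : IsLocalRing (_root_.Fermat.Agent.S53.H113.fibProd hA hB) :=
  haveI := _root_.Fermat.Agent.S53.H113.isLocalHom_fibProdFst hA hB
  RingHom.domain_isLocalRing (_root_.Fermat.Agent.S53.H113.fibProdFst hA hB : _root_.Fermat.Agent.S53.H113.fibProd hA hB →+* A)

theorem isArtinianTestAlgebra_fibProd [Finite (ResidueField 𝒪)] :
    IsArtinianTestAlgebra 𝒪 (_root_.Fermat.Agent.S53.H113.fibProd hA hB) where
  isLocalHom := by
    refine ⟨fun c hc => ?_⟩
    have h1 : IsUnit (_root_.Fermat.Agent.S53.H113.fibProdFst hA hB (algebraMap 𝒪 (_root_.Fermat.Agent.S53.H113.fibProd hA hB) c)) :=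
      hc.map (_root_.Fermat.Agent.S53.H113.fibProdFst hA hB)
    rw [AlgHom.commutes] at h1
    exact hA.isLocalHom.map_nonunit c h1
  residue_surjective := by
    intro y
    obtain ⟨x, rfl⟩ := IsLocalRing.residue_surjective y
    obtain ⟨c, hc⟩ := hA.residue_surjective (residue A x.1.1)
    refine ⟨c, ?_⟩
    show residue _ (algebraMap 𝒪 (_root_.Fermat.Agent.S53.H113.fibProd hA hB) c) = residue _ x
    rw [← sub_eq_zero, ← map_sub, IsLocalRing.residue_eq_zero_iff, IsLocalRing.mem_maximalIdeal,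
      mem_nonunits_iff, isUnit_fibProd_iff]
    have : residue A (algebraMap 𝒪 A c - x.1.1) = 0 := by
      rw [map_sub, sub_eq_zero]
      exact hc
    rw [IsLocalRing.residue_eq_zero_iff] at this
    exact this
  isArtinian := by
    haveI := finite_of_isArtinianTestAlgebra hA
    haveI := finite_of_isArtinianTestAlgebra hB
    haveI : Finite (_root_.Fermat.Agent.S53.H113.fibProd hA hB) := Subtype.finite
    infer_instance

theorem isLocalHom_fibProdSnd [Finite (ResidueField 𝒪)] :
    IsLocalHom (_root_.Fermat.Agent.S53.H113.fibProdSnd hA hB : _root_.Fermat.Agent.S53.H113.fibProd hA hB →+* B) :=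
  isLocalHom_algHom_of_test hB _

end FibreProduct

section Descent

variable [Finite (ResidueField 𝒪)]
variable {𝒟 : ∀ ⦃A : Type⦄ [CommRing A] [IsLocalRing A] [Algebra 𝒪 A], GaloisRepAdic A → Prop}

/-- Any two `𝒪`-algebra homomorphisms from a test algebra to the residue field of `𝒪` agree. -/
theorem algHom_residueField_eq {Q : Type} [CommRing Q] [IsLocalRing Q] [Algebra 𝒪 Q]
    (hsurj : Function.Surjective (IsLocalRing.residue Q ∘ algebraMap 𝒪 Q))
    (h h' : Q →ₐ[𝒪] ResidueField 𝒪) : h = h' := by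
  have key : ∀ (g : Q →ₐ[𝒪] ResidueField 𝒪) (x : Q), x ∈ maximalIdeal Q → g x = 0 := by
    intro g x hx
    haveI := isLocalHom_algHom_of_test (_root_.Fermat.Agent.S53.H113.isArtinianTestAlgebra_residueField (𝒪 := 𝒪)) g
    by_contra hne
    have hu : IsUnit ((g : Q →+* ResidueField 𝒪) x) := (isUnit_iff_ne_zero).mpr hne
    exact hx (isUnit_of_map_unit (g : Q →+* ResidueField 𝒪) x hu)
  ext x
  obtain ⟨c, hc⟩ := hsurj (residue Q x)
  have hx : x - algebraMap 𝒪 Q c ∈ maximalIdeal Q := by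
    rw [← IsLocalRing.residue_eq_zero_iff, map_sub, sub_eq_zero]
    exact hc.symm
  have e1 := key h _ hx
  have e2 := key h' _ hx
  rw [map_sub, AlgHom.commutes, sub_eq_zero] at e1 e2
  rw [e1, e2]

/-- **Joint-injective descent.** If `pA : Q → A`, `pB : Q → B` are jointly injective
`𝒪`-algebra homomorphisms of Artinian test algebras and the base changes of `ρ` to `A` and `B`
satisfy the deformation condition, then so does `ρ`. -/
theorem of_jointly_injective (h𝒟 : IsDeformationCondition 𝒪 𝒟)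
    {Q A B : Type} [CommRing Q] [IsLocalRing Q] [Algebra 𝒪 Q]
    [CommRing A] [IsLocalRing A] [Algebra 𝒪 A] [CommRing B] [IsLocalRing B] [Algebra 𝒪 B]
    (hQ : IsArtinianTestAlgebra 𝒪 Q) (hA : IsArtinianTestAlgebra 𝒪 A)
    (hB : IsArtinianTestAlgebra 𝒪 B)
    (pA : Q →ₐ[𝒪] A) (pB : Q →ₐ[𝒪] B)
    (hpA : IsLocalHom (pA : Q →+* A)) (hpB : IsLocalHom (pB : Q →+* B))
    (hinj : Function.Injective (fun x => (pA x, pB x)))
    (ρ : GaloisRepAdic Q)
    (h1 : 𝒟 (ρ.baseChangeAlong (pA : Q →+* A) hpA))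
    (h2 : 𝒟 (ρ.baseChangeAlong (pB : Q →+* B) hpB)) : 𝒟 ρ := by
  -- the fibre product and the induced map
  have hF := _root_.Fermat.Agent.S53.H113.isArtinianTestAlgebra_fibProd hA hB
  let ι : Q →ₐ[𝒪] _root_.Fermat.Agent.S53.H113.fibProd hA hB :=
    AlgHom.codRestrict (AlgHom.prod pA pB) (_root_.Fermat.Agent.S53.H113.fibProd hA hB) (fun x => by
      rw [_root_.Fermat.Agent.S53.H113.mem_fibProd]
      exact DFunLike.congr_fun (algHom_residueField_eq hQ.residue_surjective
        ((resk hA.isLocalHom hA.residue_surjective).comp pA)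
        ((resk hB.isLocalHom hB.residue_surjective).comp pB)) x)
  have hι : IsLocalHom (ι : Q →+* _root_.Fermat.Agent.S53.H113.fibProd hA hB) := isLocalHom_algHom_of_test hF ι
  have hιinj : Function.Injective ι := by
    intro x y hxy
    apply hinj
    have := congrArg Subtype.val hxy
    exact this
  have hFst := _root_.Fermat.Agent.S53.H113.isLocalHom_fibProdFst hA hB
  have hSnd := _root_.Fermat.Agent.S53.H113.isLocalHom_fibProdSnd hA hB
  -- 𝒟 on the fibre product
  have hρF : 𝒟 (ρ.baseChangeAlong (ι : Q →+* _root_.Fermat.Agent.S53.H113.fibProd hA hB) hι) := by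
    refine h𝒟.of_fibreProduct hA hB (_root_.Fermat.Agent.S53.H113.isArtinianTestAlgebra_residueField (𝒪 := 𝒪)) hF
      (resk hA.isLocalHom hA.residue_surjective) (resk hB.isLocalHom hB.residue_surjective)
      (_root_.Fermat.Agent.S53.H113.fibProdFst hA hB) (_root_.Fermat.Agent.S53.H113.fibProdSnd hA hB) hFst hSnd ?_ ?_ ?_ ?_ ?_
    · ext x
      exact x.2
    · intro x y hxy
      apply Subtype.ext
      exact hxy
    · intro a b hab
      exact ⟨⟨(a, b), hab⟩, rfl, rfl⟩
    · refine h𝒟.of_isEquiv hA (isEquiv_symm ?_) h1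
      exact baseChangeAlong_comp_isEquiv' _ hι _ hFst _ hpA rfl ρ
    · refine h𝒟.of_isEquiv hB (isEquiv_symm ?_) h2
      exact baseChangeAlong_comp_isEquiv' _ hι _ hSnd _ hpB rfl ρ
  exact h𝒟.of_baseChangeAlong_injective hQ hF ι hι hιinj hρF

end Descent

end TestAlgebra

end Fermat.Agent.S53.H113

end
end
-- ===== PACK-END S53/GlueInj.lean

-- ===== PACK-BEGIN S53/H173/PowerSeries.lean
section



set_option autoImplicit false

/-!
# Commutative algebra of power series rings over a complete local ring (block [C] of S53)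
-/

namespace Fermat.Agent.S53.H173

open MvPowerSeries IsLocalRing

section CoeffIdeal

variable {σ : Type*} {R : Type*} [CommRing R]

/-- Power series `f` with `coeff e f ∈ I ^ (n - degree e)` for all exponents `e`. -/
def coeffIdeal (σ : Type*) {R : Type*} [CommRing R] (I : Ideal R) (n : ℕ) :
    Ideal (MvPowerSeries σ R) where
  carrier := {f | ∀ e : σ →₀ ℕ, coeff e f ∈ I ^ (n - e.degree)}
  add_mem' := fun {f g} hf hg e => by
    rw [map_add]; exact Ideal.add_mem _ (hf e) (hg e)
  zero_mem' := fun e => by rw [map_zero]; exact Ideal.zero_mem _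
  smul_mem' := fun c f hf e => by
    classical
    rw [smul_eq_mul, MvPowerSeries.coeff_mul]
    refine Ideal.sum_mem _ fun p hp => ?_
    have hp' : p.1 + p.2 = e := by simpa using hp
    have hle : p.2.degree ≤ e.degree := by
      rw [← hp', map_add]; exact Nat.le_add_left _ _
    exact Ideal.mul_mem_left _ _ (Ideal.pow_le_pow_right (by omega) (hf p.2))

theorem mem_coeffIdeal {I : Ideal R} {n : ℕ} {f : MvPowerSeries σ R} :
    f ∈ coeffIdeal σ I n ↔ ∀ e : σ →₀ ℕ, coeff e f ∈ I ^ (n - e.degree) := Iff.rfl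

theorem coeffIdeal_mul_le (I : Ideal R) (a b : ℕ) :
    coeffIdeal σ I a * coeffIdeal σ I b ≤ coeffIdeal σ I (a + b) := by
  classical
  rw [Ideal.mul_le]
  intro f hf g hg e
  rw [MvPowerSeries.coeff_mul]
  refine Ideal.sum_mem _ fun p hp => ?_
  have hp' : p.1 + p.2 = e := by simpa using hp
  have hdeg : p.1.degree + p.2.degree = e.degree := by rw [← hp', map_add]
  have h1 := hf p.1
  have h2 := hg p.2
  have h3 : coeff p.1 f * coeff p.2 g ∈ I ^ ((a - p.1.degree) + (b - p.2.degree)) := by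
    rw [pow_add]; exact Ideal.mul_mem_mul h1 h2
  exact Ideal.pow_le_pow_right (by omega) h3

theorem coeffIdeal_zero (I : Ideal R) : coeffIdeal σ I 0 = ⊤ := by
  rw [Ideal.eq_top_iff_one]
  intro e
  simp

theorem pow_coeffIdeal_one_le (I : Ideal R) (n : ℕ) :
    (coeffIdeal σ I 1) ^ n ≤ coeffIdeal σ I n := by
  induction n with
  | zero => rw [coeffIdeal_zero]; exact le_top
  | succ n ih =>
    rw [pow_succ]
    exact (Ideal.mul_mono_left ih).trans (coeffIdeal_mul_le I n 1)

end CoeffIdeal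

section SpanX

variable {σ : Type*} [Finite σ] {R : Type*} [CommRing R]

omit [Finite σ] in
theorem coe_mem_span_X_pow (n : ℕ) (p : MvPolynomial σ R)
    (hp : p ∈ MvPolynomial.idealOfVars σ R ^ n) :
    (p : MvPowerSeries σ R) ∈ (Ideal.span (Set.range (X : σ → MvPowerSeries σ R))) ^ n := by
  have h1 : Ideal.map (MvPolynomial.coeToMvPowerSeries.ringHom (σ := σ) (R := R))
      (MvPolynomial.idealOfVars σ R) = Ideal.span (Set.range (X : σ → MvPowerSeries σ R)) := by
    rw [MvPolynomial.idealOfVars, Ideal.map_span, ← Set.range_comp]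
    congr 2
    funext i
    exact MvPolynomial.coe_X i
  rw [← h1, ← Ideal.map_pow]
  exact Ideal.mem_map_of_mem _ hp

/-- A power series all of whose coefficients in degree `< n` vanish lies in `(X)^n`. -/
theorem mem_span_X_pow_of_coeff_eq_zero (n : ℕ) (g : MvPowerSeries σ R)
    (hg : ∀ e : σ →₀ ℕ, e.degree < n → coeff e g = 0) :
    g ∈ (Ideal.span (Set.range (X : σ → MvPowerSeries σ R))) ^ n := by
  have h0 : truncTotal n g = 0 := by
    ext e
    rw [coeff_truncTotal_eq_ite]
    split_ifs with h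
    · rw [hg e h]; simp
    · simp
  have h1 : toAdicCompletionAlgEquiv σ R g ∈
      LinearMap.ker (AdicCompletion.eval (MvPolynomial.idealOfVars σ R) (MvPolynomial σ R) n) := by
    rw [LinearMap.mem_ker, AdicCompletion.eval_apply, toAdicCompletionAlgEquiv_apply]
    change (toAdicCompletion σ R g).val n = 0
    rw [toAdicCompletion_apply_eq_mk_truncTotal, h0]
    simp
  rw [← AdicCompletion.pow_smul_top_eq_ker_eval (MvPolynomial.idealOfVars_fg σ R)] at h1
  have h2 : ∀ y ∈ (MvPolynomial.idealOfVars σ R ^ n • ⊤ :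
      Submodule (MvPolynomial σ R)
        (AdicCompletion (MvPolynomial.idealOfVars σ R) (MvPolynomial σ R))),
      (toAdicCompletionAlgEquiv σ R).symm y ∈
        (Ideal.span (Set.range (X : σ → MvPowerSeries σ R))) ^ n := by
    intro y hy
    refine Submodule.smul_induction_on hy ?_ ?_
    · intro p hp x _
      rw [map_smul, Algebra.smul_def]
      exact Ideal.mul_mem_right _ _ (coe_mem_span_X_pow n p hp)
    · intro x y hx hy
      rw [map_add]
      exact Ideal.add_mem _ hx hy
  have h3 := h2 _ h1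
  rwa [AlgEquiv.symm_apply_apply] at h3

end SpanX

section MaxIdeal

variable {σ : Type*} {R : Type*} [CommRing R] [IsLocalRing R]

theorem mem_maximalIdeal_iff_constantCoeff (f : MvPowerSeries σ R) :
    f ∈ maximalIdeal (MvPowerSeries σ R) ↔ constantCoeff f ∈ maximalIdeal R := by
  rw [IsLocalRing.mem_maximalIdeal, IsLocalRing.mem_maximalIdeal, mem_nonunits_iff,
    mem_nonunits_iff, isUnit_iff_constantCoeff]

theorem maximalIdeal_eq_coeffIdeal :
    maximalIdeal (MvPowerSeries σ R) = coeffIdeal σ (maximalIdeal R) 1 := by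
  ext f
  rw [mem_maximalIdeal_iff_constantCoeff, mem_coeffIdeal]
  constructor
  · intro h e
    by_cases he : e = 0
    · subst he
      simpa using h
    · have h1 : e.degree ≠ 0 := fun h0 => he ((Finsupp.degree_eq_zero_iff e).mp h0)
      have h2 : 1 - e.degree = 0 := by omega
      rw [h2]
      simp
  · intro h
    simpa using h 0

theorem maximalIdeal_pow_le_coeffIdeal (n : ℕ) :
    maximalIdeal (MvPowerSeries σ R) ^ n ≤ coeffIdeal σ (maximalIdeal R) n := by
  rw [maximalIdeal_eq_coeffIdeal]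
  exact pow_coeffIdeal_one_le _ n

theorem X_mem_maximalIdeal (i : σ) :
    (X i : MvPowerSeries σ R) ∈ maximalIdeal (MvPowerSeries σ R) := by
  classical
  rw [mem_maximalIdeal_iff_constantCoeff]
  simp

theorem span_X_le_maximalIdeal :
    Ideal.span (Set.range (X : σ → MvPowerSeries σ R)) ≤ maximalIdeal (MvPowerSeries σ R) := by
  rw [Ideal.span_le]
  rintro _ ⟨i, rfl⟩
  exact X_mem_maximalIdeal i

theorem C_mem_maximalIdeal_pow {c : R} {j : ℕ} (hc : c ∈ maximalIdeal R ^ j) :
    (C c : MvPowerSeries σ R) ∈ maximalIdeal (MvPowerSeries σ R) ^ j := by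
  have h1 : Ideal.map (C : R →+* MvPowerSeries σ R) (maximalIdeal R) ≤
      maximalIdeal (MvPowerSeries σ R) := by
    rw [Ideal.map_le_iff_le_comap]
    intro x hx
    rw [Ideal.mem_comap, mem_maximalIdeal_iff_constantCoeff]
    simpa using hx
  have h2 := Ideal.mem_map_of_mem (C : R →+* MvPowerSeries σ R) hc
  rw [Ideal.map_pow] at h2
  exact Ideal.pow_right_mono h1 j h2

theorem coe_monomial_mem_maximalIdeal_pow {c : R} {j : ℕ} (e : σ →₀ ℕ)
    (hc : c ∈ maximalIdeal R ^ j) :
    ((MvPolynomial.monomial e c : MvPolynomial σ R) : MvPowerSeries σ R) ∈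
      maximalIdeal (MvPowerSeries σ R) ^ (j + e.degree) := by
  rw [MvPolynomial.coe_monomial, MvPowerSeries.monomial_eq', pow_add]
  refine Ideal.mul_mem_mul (C_mem_maximalIdeal_pow hc) ?_
  rw [Finsupp.prod, Finsupp.degree_apply, ← Finset.prod_pow_eq_pow_sum]
  refine Ideal.prod_mem_prod fun i _ => ?_
  exact Ideal.pow_mem_pow (X_mem_maximalIdeal i) _

theorem coeffIdeal_le_maximalIdeal_pow [Finite σ] (n : ℕ) :
    coeffIdeal σ (maximalIdeal R) n ≤ maximalIdeal (MvPowerSeries σ R) ^ n := by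
  intro f hf
  have h1 : f - (truncTotal n f : MvPolynomial σ R) ∈ maximalIdeal (MvPowerSeries σ R) ^ n := by
    refine Ideal.pow_right_mono span_X_le_maximalIdeal n
      (mem_span_X_pow_of_coeff_eq_zero n _ fun e he => ?_)
    rw [map_sub, MvPolynomial.coeff_coe, coeff_truncTotal _ he, sub_self]
  have h2 : ((truncTotal n f : MvPolynomial σ R) : MvPowerSeries σ R) ∈
      maximalIdeal (MvPowerSeries σ R) ^ n := by
    rw [MvPolynomial.as_sum (truncTotal n f)]
    rw [← MvPolynomial.coeToMvPowerSeries.ringHom_apply, map_sum]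
    refine Ideal.sum_mem _ fun e he => ?_
    rw [MvPolynomial.coeToMvPowerSeries.ringHom_apply]
    have hdeg : e.degree < n := by
      by_contra hcon
      rw [MvPolynomial.mem_support_iff] at he
      exact he (coeff_truncTotal_eq_zero _ (not_lt.mp hcon))
    have h3 := coe_monomial_mem_maximalIdeal_pow (σ := σ) (j := n - e.degree) e
      (c := MvPolynomial.coeff e (truncTotal n f)) (by
        rw [coeff_truncTotal _ hdeg]; exact hf e)
    have h4 : n - e.degree + e.degree = n := by omega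
    rwa [h4] at h3
  have := Ideal.add_mem _ h1 h2
  rwa [sub_add_cancel] at this

theorem maximalIdeal_pow_eq_coeffIdeal [Finite σ] (n : ℕ) :
    maximalIdeal (MvPowerSeries σ R) ^ n = coeffIdeal σ (maximalIdeal R) n :=
  le_antisymm (maximalIdeal_pow_le_coeffIdeal n) (coeffIdeal_le_maximalIdeal_pow n)

theorem mem_maximalIdeal_pow_iff [Finite σ] (n : ℕ) (f : MvPowerSeries σ R) :
    f ∈ maximalIdeal (MvPowerSeries σ R) ^ n ↔
      ∀ e : σ →₀ ℕ, coeff e f ∈ maximalIdeal R ^ (n - e.degree) := by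
  rw [maximalIdeal_pow_eq_coeffIdeal]; rfl

end MaxIdeal

section Complete

variable {σ : Type*} [Finite σ] {R : Type*} [CommRing R] [IsLocalRing R]

theorem isHausdorff_mvPowerSeries [IsHausdorff (maximalIdeal R) R] :
    IsHausdorff (maximalIdeal (MvPowerSeries σ R)) (MvPowerSeries σ R) := by
  refine ⟨fun f hf => ?_⟩
  ext e
  rw [map_zero]
  refine IsHausdorff.haus (I := maximalIdeal R) inferInstance _ fun n => ?_
  have h1 := hf (n + e.degree)
  rw [SModEq.zero, smul_eq_mul, Ideal.mul_top, mem_maximalIdeal_pow_iff] at h1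
  have h2 := h1 e
  rw [Nat.add_sub_cancel] at h2
  rw [SModEq.zero, smul_eq_mul, Ideal.mul_top]
  exact h2

omit [Finite σ] [IsLocalRing R] in
/-- Build a power series from its coefficient function. -/
def mkPS (c : (σ →₀ ℕ) → R) : MvPowerSeries σ R := c

omit [Finite σ] [IsLocalRing R] in
theorem coeff_mkPS (c : (σ →₀ ℕ) → R) (e : σ →₀ ℕ) : coeff e (mkPS c) = c e := rfl

theorem isPrecomplete_mvPowerSeries [IsPrecomplete (maximalIdeal R) R] :
    IsPrecomplete (maximalIdeal (MvPowerSeries σ R)) (MvPowerSeries σ R) := by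
  refine ⟨fun f hf => ?_⟩
  have hf' : ∀ {m n : ℕ}, m ≤ n → f m - f n ∈ maximalIdeal (MvPowerSeries σ R) ^ m := by
    intro m n hmn
    have := hf hmn
    rwa [SModEq.sub_mem, smul_eq_mul, Ideal.mul_top] at this
  have key : ∀ e : σ →₀ ℕ, ∃ c : R, ∀ k : ℕ,
      coeff e (f (k + e.degree)) - c ∈ maximalIdeal R ^ k := by
    intro e
    obtain ⟨c, hc⟩ := IsPrecomplete.prec (I := maximalIdeal R) inferInstance
      (f := fun k => coeff e (f (k + e.degree))) (by
        intro m n hmn
        rw [SModEq.sub_mem, smul_eq_mul, Ideal.mul_top]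
        have h1 := hf' (Nat.add_le_add_right hmn e.degree)
        rw [mem_maximalIdeal_pow_iff] at h1
        have h2 := h1 e
        rwa [Nat.add_sub_cancel, map_sub] at h2)
    refine ⟨c, fun k => ?_⟩
    have := hc k
    rwa [SModEq.sub_mem, smul_eq_mul, Ideal.mul_top] at this
  choose c hc using key
  refine ⟨mkPS c, fun n => ?_⟩
  rw [SModEq.sub_mem, smul_eq_mul, Ideal.mul_top, mem_maximalIdeal_pow_iff]
  intro e
  by_cases hle : e.degree ≤ n
  · have h1 := hc e (n - e.degree)
    rw [Nat.sub_add_cancel hle] at h1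
    rw [map_sub, coeff_mkPS]
    exact h1
  · have h2 : n - e.degree = 0 := by omega
    rw [h2]
    simp

/-- The power series ring in finitely many variables over a complete local ring is complete
with respect to its maximal ideal. -/
theorem isAdicComplete_mvPowerSeries [IsAdicComplete (maximalIdeal R) R] :
    IsAdicComplete (maximalIdeal (MvPowerSeries σ R)) (MvPowerSeries σ R) :=
  { toIsHausdorff := isHausdorff_mvPowerSeries
    toIsPrecomplete := isPrecomplete_mvPowerSeries }

end Complete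

end Fermat.Agent.S53.H173

end
-- ===== PACK-END S53/H173/PowerSeries.lean

-- ===== PACK-BEGIN S59/Patch/H967/Ulim.lean
section


/-!
# Adic limits along an ultrafilter (helper967, row S59, piece PATCH)

For a commutative ring `A` which is `I`-adically complete and has finite quotients `A ⧸ I ^ k`,
every sequence `a : ℕ → A` has a unique `I`-adic limit along a given ultrafilter on `ℕ`.
Taking this limit is a ring homomorphism `(ℕ → A) →+* A`.
-/

set_option autoImplicit false

namespace Fermat.Agent.S59.Patch.H967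

open Filter

section Ulim

variable {A : Type*} [CommRing A]

/-- `L` is an `I`-adic limit of the sequence `a` along the ultrafilter `𝔉`. -/
def IsUlim (I : Ideal A) (𝔉 : Ultrafilter ℕ) (a : ℕ → A) (L : A) : Prop :=
  ∀ k : ℕ, ∀ᶠ n in (𝔉 : Filter ℕ), a n - L ∈ I ^ k

variable {I : Ideal A} {𝔉 : Ultrafilter ℕ}

theorem IsUlim.const (c : A) : IsUlim I 𝔉 (fun _ => c) c := fun k => by simp

theorem IsUlim.add {a b : ℕ → A} {L L' : A} (ha : IsUlim I 𝔉 a L) (hb : IsUlim I 𝔉 b L') :
    IsUlim I 𝔉 (fun n => a n + b n) (L + L') := fun k => by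
  filter_upwards [ha k, hb k] with n h1 h2
  have : a n + b n - (L + L') = (a n - L) + (b n - L') := by ring
  rw [this]; exact Ideal.add_mem _ h1 h2

theorem IsUlim.neg {a : ℕ → A} {L : A} (ha : IsUlim I 𝔉 a L) :
    IsUlim I 𝔉 (fun n => - a n) (- L) := fun k => by
  filter_upwards [ha k] with n h1
  have : - a n - (- L) = - (a n - L) := by ring
  rw [this]; exact Ideal.neg_mem_iff _ |>.mpr h1

theorem IsUlim.sub {a b : ℕ → A} {L L' : A} (ha : IsUlim I 𝔉 a L) (hb : IsUlim I 𝔉 b L') :
    IsUlim I 𝔉 (fun n => a n - b n) (L - L') := fun k => by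
  filter_upwards [ha k, hb k] with n h1 h2
  have : a n - b n - (L - L') = (a n - L) - (b n - L') := by ring
  rw [this]; exact Ideal.sub_mem _ h1 h2

theorem IsUlim.mul {a b : ℕ → A} {L L' : A} (ha : IsUlim I 𝔉 a L) (hb : IsUlim I 𝔉 b L') :
    IsUlim I 𝔉 (fun n => a n * b n) (L * L') := fun k => by
  filter_upwards [ha k, hb k] with n h1 h2
  have : a n * b n - L * L' = (a n - L) * b n + L * (b n - L') := by ring
  rw [this]
  exact Ideal.add_mem _ (Ideal.mul_mem_right _ _ h1) (Ideal.mul_mem_left _ _ h2)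

theorem IsUlim.sum {ι : Type*} (s : Finset ι) {a : ι → ℕ → A} {L : ι → A}
    (ha : ∀ i ∈ s, IsUlim I 𝔉 (a i) (L i)) :
    IsUlim I 𝔉 (fun n => ∑ i ∈ s, a i n) (∑ i ∈ s, L i) := by
  classical
  induction s using Finset.induction_on with
  | empty => simpa using IsUlim.const (I := I) (𝔉 := 𝔉) (0 : A)
  | insert i s hi ih =>
    have h1 := (ha i (Finset.mem_insert_self i s)).add
      (ih fun j hj => ha j (Finset.mem_insert_of_mem hj))
    simpa [Finset.sum_insert hi] using h1

theorem IsUlim.congr {a b : ℕ → A} {L : A} (ha : IsUlim I 𝔉 a L)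
    (h : ∀ k : ℕ, ∀ᶠ n in (𝔉 : Filter ℕ), a n - b n ∈ I ^ k) : IsUlim I 𝔉 b L := fun k => by
  filter_upwards [ha k, h k] with n h1 h2
  have : b n - L = (a n - L) - (a n - b n) := by ring
  rw [this]; exact Ideal.sub_mem _ h1 h2

theorem IsUlim.unique [IsHausdorff I A] {a : ℕ → A} {L L' : A} (h : IsUlim I 𝔉 a L)
    (h' : IsUlim I 𝔉 a L') : L = L' := by
  rw [← sub_eq_zero]
  refine IsHausdorff.haus ‹IsHausdorff I A› _ fun k => ?_
  rw [SModEq.zero, smul_eq_mul, Ideal.mul_top]
  obtain ⟨n, h1, h2⟩ := ((h k).and (h' k)).exists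
  have : L - L' = (a n - L') - (a n - L) := by ring
  rw [this]; exact Ideal.sub_mem _ h2 h1

/-- A sequence whose `n`-th term lies in `I ^ n` tends to zero along the hyperfilter. -/
theorem isUlim_zero_of_mem_pow {a : ℕ → A} (h : ∀ n, a n ∈ I ^ n) :
    IsUlim I (hyperfilter ℕ) a 0 := fun k => by
  have h1 : ∀ᶠ n in ((hyperfilter ℕ : Ultrafilter ℕ) : Filter ℕ), k ≤ n :=
    Nat.hyperfilter_le_atTop (eventually_ge_atTop k)
  filter_upwards [h1] with n hn
  rw [sub_zero]
  exact Ideal.pow_le_pow_right hn (h n)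

/-- Sequences which agree modulo `I ^ n` at index `n` have the same limits along the
hyperfilter. -/
theorem IsUlim.congr_of_mem_pow {a b : ℕ → A} {L : A} (ha : IsUlim I (hyperfilter ℕ) a L)
    (h : ∀ n, a n - b n ∈ I ^ n) : IsUlim I (hyperfilter ℕ) b L :=
  ha.congr fun k => by simpa using isUlim_zero_of_mem_pow (I := I) h k

theorem exists_isUlim [IsPrecomplete I A] (hfin : ∀ k, Finite (A ⧸ I ^ k)) (a : ℕ → A) :
    ∃ L, IsUlim I 𝔉 a L := by
  have h1 : ∀ k, ∃ c : A, ∀ᶠ n in (𝔉 : Filter ℕ), a n - c ∈ I ^ k := by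
    intro k
    haveI := hfin k
    obtain ⟨q, hq⟩ :=
      Ultrafilter.eq_pure_of_finite (𝔉.map fun n => Ideal.Quotient.mk (I ^ k) (a n))
    obtain ⟨c, rfl⟩ := Ideal.Quotient.mk_surjective q
    refine ⟨c, ?_⟩
    have h2 : ∀ᶠ x in ((𝔉.map fun n => Ideal.Quotient.mk (I ^ k) (a n) :
        Ultrafilter (A ⧸ I ^ k)) : Filter (A ⧸ I ^ k)), x = Ideal.Quotient.mk (I ^ k) c := by
      rw [hq]
      exact Filter.eventually_pure.mpr rfl
    rw [Ultrafilter.coe_map, Filter.eventually_map] at h2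
    filter_upwards [h2] with n hn
    exact Ideal.Quotient.eq.mp hn
  choose c hc using h1
  have hcauchy : ∀ {m n : ℕ}, m ≤ n → c m ≡ c n [SMOD (I ^ m • ⊤ : Submodule A A)] := by
    intro m n hmn
    rw [SModEq.sub_mem, smul_eq_mul, Ideal.mul_top]
    obtain ⟨j, h1, h2⟩ := ((hc m).and (hc n)).exists
    have : c m - c n = (a j - c n) - (a j - c m) := by ring
    rw [this]
    exact Ideal.sub_mem _ (Ideal.pow_le_pow_right hmn h2) h1
  obtain ⟨L, hL⟩ := IsPrecomplete.prec ‹IsPrecomplete I A› hcauchy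
  refine ⟨L, fun k => ?_⟩
  have hk := hL k
  rw [SModEq.sub_mem, smul_eq_mul, Ideal.mul_top] at hk
  filter_upwards [hc k] with n hn
  have : a n - L = (a n - c k) + (c k - L) := by ring
  rw [this]; exact Ideal.add_mem _ hn hk

end Ulim

section UlimHom

variable {A : Type*} [CommRing A] (I : Ideal A)

/-- The ring `A` is `I`-adically complete with finite quotients `A ⧸ I ^ k`. -/
structure IsProfiniteAdic : Prop where
  haus : IsHausdorff I A
  prec : IsPrecomplete I A
  fin : ∀ k : ℕ, Finite (A ⧸ I ^ k)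

variable {I}

/-- The limit of a sequence along the hyperfilter. -/
noncomputable def ulim (h : IsProfiniteAdic I) (a : ℕ → A) : A :=
  (haveI := h.prec; exists_isUlim (𝔉 := hyperfilter ℕ) h.fin a).choose

theorem isUlim_ulim (h : IsProfiniteAdic I) (a : ℕ → A) :
    IsUlim I (hyperfilter ℕ) a (ulim h a) :=
  (haveI := h.prec; exists_isUlim (𝔉 := hyperfilter ℕ) h.fin a).choose_spec

theorem IsUlim.eq_ulim (h : IsProfiniteAdic I) {a : ℕ → A} {L : A}
    (ha : IsUlim I (hyperfilter ℕ) a L) : ulim h a = L :=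
  haveI := h.haus
  (isUlim_ulim h a).unique ha

theorem ulim_const (h : IsProfiniteAdic I) (c : A) : ulim h (fun _ => c) = c :=
  (IsUlim.const c).eq_ulim h

theorem ulim_eq_zero_of_mem_pow (h : IsProfiniteAdic I) {a : ℕ → A} (ha : ∀ n, a n ∈ I ^ n) :
    ulim h a = 0 :=
  (isUlim_zero_of_mem_pow ha).eq_ulim h

theorem ulim_congr_of_mem_pow (h : IsProfiniteAdic I) {a b : ℕ → A}
    (hab : ∀ n, a n - b n ∈ I ^ n) : ulim h a = ulim h b :=
  (((isUlim_ulim h a).congr_of_mem_pow hab).eq_ulim h).symm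

theorem ulim_add (h : IsProfiniteAdic I) (a b : ℕ → A) :
    ulim h (fun n => a n + b n) = ulim h a + ulim h b :=
  ((isUlim_ulim h a).add (isUlim_ulim h b)).eq_ulim h

theorem ulim_sub (h : IsProfiniteAdic I) (a b : ℕ → A) :
    ulim h (fun n => a n - b n) = ulim h a - ulim h b :=
  ((isUlim_ulim h a).sub (isUlim_ulim h b)).eq_ulim h

theorem ulim_mul (h : IsProfiniteAdic I) (a b : ℕ → A) :
    ulim h (fun n => a n * b n) = ulim h a * ulim h b :=
  ((isUlim_ulim h a).mul (isUlim_ulim h b)).eq_ulim h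

theorem ulim_sum (h : IsProfiniteAdic I) {ι : Type*} (s : Finset ι) (a : ι → ℕ → A) :
    ulim h (fun n => ∑ i ∈ s, a i n) = ∑ i ∈ s, ulim h (a i) :=
  (IsUlim.sum s fun i _ => isUlim_ulim h (a i)).eq_ulim h

/-- Taking limits along the hyperfilter, as a ring homomorphism. -/
noncomputable def ulimHom (h : IsProfiniteAdic I) : (ℕ → A) →+* A where
  toFun a := ulim h a
  map_one' := ulim_const h 1
  map_mul' a b := ulim_mul h a b
  map_zero' := ulim_const h 0
  map_add' a b := ulim_add h a b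

@[simp] theorem ulimHom_apply (h : IsProfiniteAdic I) (a : ℕ → A) : ulimHom h a = ulim h a := rfl

end UlimHom

end Fermat.Agent.S59.Patch.H967

end
-- ===== PACK-END S59/Patch/H967/Ulim.lean

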