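import Mathlib
import Fermat.Prelude.Def_GaloisRep_Flat
import Fermat.Prelude.Def_ModularCurve_IgusaScheme
import Fermat.Prelude.Def_ModularCurve_X0ModL
import Fermat.Prelude.Def_GaloisRep_DeformationCondition
import Fermat.Prelude.Thm_IsLocalRing_isAdicComplete_of_module_finite
import Fermat.Agent.Pack.S43GC.G0E2L0
import Fermat.Agent.Pack.Fast891

-- ===== PACK-BEGIN S56/H254/FlatMod.lean
section



/-!
# S56 / W-FLAT, bridge piece FL-BR (core): flat Galois modules (helper254)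

The Prelude's `GaloisRepAdic.IsFlatAt` says: every finite quotient `V ⧸ I V` of the representation
is, as a `G_ℚ`-module, the group of `ℚ̄`-points of a finite flat commutative (= cocommutative Hopf
algebra) group scheme over `ℤ_(p) = GaloisRep.ratLocalizedAt p`.  We isolate the property of ONE
module:

* `IsFlatMod p X act` — the additive group `X` with the action `act : G_ℚ → X → X` is the group
  of `ℚ̄`-points of a finite flat cocommutative Hopf algebra over `ℤ_(p)`;
* `isFlatAt_iff` — `ρ.IsFlatAt p ↔ (finite residue field) ∧ ∀ I of finite index,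
  IsFlatMod p (V ⧸ I V) (levelAction I)`  (definitional);
* `IsFlatMod.of_equiv` — transport along an equivariant additive isomorphism;
* `IsFlatMod.prod` — (PROD) the product of two flat modules is flat (`H₁ ⊗ H₂`);
* `isIntegral_point`, `point_mem_valuationSubring` — (INT) points are integral: they take values
  in every valuation subring `P` of `ℚ̄` lying over `p`.

Everything is sorry-free; only Mathlib + the Prelude are used.
-/

set_option autoImplicit false

open scoped TensorProduct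
open WithConv

noncomputable section

namespace Fermat.Agent.S56.H254

local notation "Qb" => AlgebraicClosure ℚ
local notation "GQ" => (AlgebraicClosure ℚ ≃ₐ[ℚ] AlgebraicClosure ℚ)
local notation "Zloc" => GaloisRep.ratLocalizedAt

/-- The additive group `X` with the `G_ℚ`-action `act` is the group of `ℚ̄`-points of a finite
flat cocommutative Hopf algebra over `ℤ_(p)`. -/
def IsFlatMod (p : ℕ) (X : Type) [AddCommGroup X] (act : GQ → X → X) : Prop :=
  ∃ (H : Type) (_ : CommRing H) (_ : HopfAlgebra (Zloc p) H),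
    Module.Finite (Zloc p) H ∧ Module.Flat (Zloc p) H ∧ Coalgebra.IsCocomm (Zloc p) H ∧
    ∃ e : WithConv (H →ₐ[Zloc p] Qb) ≃ X,
      (∀ f g : WithConv (H →ₐ[Zloc p] Qb), e (f * g) = e f + e g) ∧
      ∀ (σ : GQ) (f g : WithConv (H →ₐ[Zloc p] Qb)),
        (∀ h : H, g h = σ (f h)) → e g = act σ (e f)

/-- The Prelude's `IsFlatAt` in terms of `IsFlatMod` (definitional unfolding). -/
theorem isFlatAt_iff {A : Type} [CommRing A] [IsLocalRing A] (ρ : GaloisRepAdic A) (p : ℕ) :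
    ρ.IsFlatAt p ↔ Finite (IsLocalRing.ResidueField A) ∧ ∀ I : Ideal A, Finite (A ⧸ I) →
      IsFlatMod p (ρ.V ⧸ (I • (⊤ : Submodule A ρ.V))) (fun σ => ρ.levelAction I σ) :=
  Iff.rfl

section transport

variable {p : ℕ} {X Y : Type} [AddCommGroup X] [AddCommGroup Y]

/-- Transport of flatness along an equivariant additive isomorphism. -/
theorem IsFlatMod.of_equiv {act : GQ → X → X} (h : IsFlatMod p X act) (φ : X ≃+ Y)
    (act' : GQ → Y → Y) (hφ : ∀ σ x, φ (act σ x) = act' σ (φ x)) : IsFlatMod p Y act' := by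
  obtain ⟨H, i1, i2, hfin, hflat, hco, e, hadd, heq⟩ := h
  refine ⟨H, i1, i2, hfin, hflat, hco, e.trans φ.toEquiv, fun f g => ?_, fun σ f g hfg => ?_⟩
  · show φ (e (f * g)) = φ (e f) + φ (e g)
    rw [hadd, map_add]
  · show φ (e g) = act' σ (φ (e f))
    rw [heq σ f g hfg, hφ]

end transport

section points

variable {p : ℕ} {H : Type} [CommRing H] [Algebra (Zloc p) H]

/-- The action of `G_ℚ` on points. -/
def galPoint (σ : GQ) (f : H →ₐ[Zloc p] Qb) : H →ₐ[Zloc p] Qb :=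
  ((σ : Qb →ₐ[ℚ] Qb).restrictScalars (Zloc p)).comp f

@[simp] theorem galPoint_apply (σ : GQ) (f : H →ₐ[Zloc p] Qb) (h : H) :
    galPoint σ f h = σ (f h) := rfl

/-- (INT) points of a finite algebra are integral over `ℤ_(p)`. -/
theorem isIntegral_point [Module.Finite (Zloc p) H] (f : H →ₐ[Zloc p] Qb) (h : H) :
    IsIntegral (Zloc p) (f h) :=
  (Algebra.IsIntegral.isIntegral (R := Zloc p) h).map f

/-- Integers lie in every valuation subring. -/
theorem val_intCast_le_one' (P : ValuationSubring Qb) (n : ℤ) : P.valuation ((n : ℤ) : Qb) ≤ 1 :=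
  (P.valuation_le_one_iff _).mpr (intCast_mem P n)

/-- A natural number prime to `p` is a unit in every valuation subring over `p`. -/
theorem val_natCast_eq_one_of_coprime (P : ValuationSubring Qb)
    (hP : P.LiesOverPrime p) {d : ℕ} (hd : d.Coprime p) : P.valuation ((d : ℕ) : Qb) = 1 := by
  have hle : P.valuation ((d : ℕ) : Qb) ≤ 1 := by
    have := val_intCast_le_one' P (d : ℤ)
    simpa using this
  rcases lt_or_eq_of_le hle with hlt | heq
  · exfalso
    have hgcd : IsCoprime (d : ℤ) (p : ℤ) := Nat.isCoprime_iff_coprime.mpr hd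
    obtain ⟨u, v, huv⟩ := hgcd
    have h1 : ((u : ℤ) : Qb) * ((d : ℕ) : Qb) + ((v : ℤ) : Qb) * ((p : ℕ) : Qb) = 1 := by
      have := congrArg (fun z : ℤ => (z : Qb)) huv
      simpa using this
    have hp1 : P.valuation ((p : ℕ) : Qb) < 1 := (ValuationSubring.mem_nonunits_iff P).mp hP
    have h2 : P.valuation (((u : ℤ) : Qb) * ((d : ℕ) : Qb)) < 1 := by
      rw [map_mul]
      exact mul_lt_one_of_nonneg_of_lt_one_right (val_intCast_le_one' P u) zero_le hlt
    have h3 : P.valuation (((v : ℤ) : Qb) * ((p : ℕ) : Qb)) < 1 := by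
      rw [map_mul]
      exact mul_lt_one_of_nonneg_of_lt_one_right (val_intCast_le_one' P v) zero_le hp1
    have h4 : P.valuation (1 : Qb) < 1 := by
      rw [← h1]
      exact lt_of_le_of_lt (Valuation.map_add _ _ _) (max_lt h2 h3)
    rw [map_one] at h4
    exact lt_irrefl _ h4
  · exact heq

/-- Elements of `ℤ_(p)` lie in every valuation subring over `p`. -/
theorem algebraMap_mem_valuationSubring (P : ValuationSubring Qb)
    (hP : P.LiesOverPrime p) (a : Zloc p) : algebraMap (Zloc p) Qb a ∈ P := by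
  obtain ⟨a, ha⟩ := a
  have hden : a.den.Coprime p := ha
  have hval := val_natCast_eq_one_of_coprime P hP hden
  have hq : algebraMap (Zloc p) Qb ⟨a, ha⟩ = ((a.num : ℤ) : Qb) / ((a.den : ℕ) : Qb) := by
    have h1 : algebraMap (Zloc p) Qb ⟨a, ha⟩ = algebraMap ℚ Qb a := rfl
    rw [h1]
    conv_lhs => rw [← Rat.num_div_den a]
    rw [map_div₀, map_intCast, map_natCast]
  rw [hq, ← ValuationSubring.valuation_le_one_iff, map_div₀, hval, div_one]
  exact val_intCast_le_one' P a.num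

/-- (INT) points take values in every valuation subring over `p`. -/
theorem point_mem_valuationSubring [Module.Finite (Zloc p) H]
    (P : ValuationSubring Qb) (hP : P.LiesOverPrime p) (f : H →ₐ[Zloc p] Qb) (h : H) :
    f h ∈ P := by
  obtain ⟨g, hg, hgf⟩ := isIntegral_point f h
  -- `f h` is integral over the subring `P`
  have h1 : IsIntegral P.toSubring (f h) := by
    let ι : Zloc p →+* P.toSubring :=
      (algebraMap (Zloc p) Qb).codRestrict P.toSubring
        (fun a => algebraMap_mem_valuationSubring P hP a)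
    refine ⟨g.map ι, hg.map _, ?_⟩
    rw [Polynomial.eval₂_map]
    have : (algebraMap P.toSubring Qb).comp ι = algebraMap (Zloc p) Qb := by
      ext a
      rfl
    rw [this]
    exact hgf
  obtain ⟨y, hy⟩ := (IsIntegrallyClosed.isIntegral_iff (R := P) (K := Qb)).mp h1
  rw [← hy]
  exact y.2

end points

end Fermat.Agent.S56.H254

end

end
-- ===== PACK-END S56/H254/FlatMod.lean

-- ===== PACK-BEGIN S28/H865Reduction.lean
section
/-
S28 helper (helper865): the REDUCTION MAP (V0).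

* `resZl ℓ : ℤ_(ℓ) →+* 𝔽_ℓ`, the residue map;
* `igV ℓ ⊆ ℚ((q))`, the localisation of `ℤ_(ℓ)((q))` at the prime `(ℓ)` (a discrete valuation
  ring with uniformiser `ℓ`), realised as a subring of `ℚ((q))`;
* `igRed ℓ : igV ℓ →+* 𝔽_ℓ((q))`, reduction of `q`-expansions modulo `ℓ`, with kernel `ℓ · igV ℓ`;
* `igE ℓ ⊆ ℚ((q))`, the fraction field of `igV ℓ`; it contains every `modularFunctionFieldFull N`;
* `igV ℓ` is integrally closed in `igE ℓ`; hence all charts `chartAlg N ℓ S`, `S ⊆ {j, j⁻¹}`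
  are contained in `igV ℓ`, which gives the reduction maps `chartRed`.
-/




set_option autoImplicit false

noncomputable section

namespace Fermat.Agent.S28.H865

open ModularCurve

section Residue

variable (ℓ : ℕ) [Fact ℓ.Prime]

theorem den_ne_zero_zmod (x : ↥(GaloisRep.ratLocalizedAt ℓ)) : ((x.1.den : ℕ) : ZMod ℓ) ≠ 0 := by
  rw [Ne, ZMod.natCast_eq_zero_iff]
  intro h
  have hc : Nat.Coprime x.1.den ℓ := x.2
  exact ((Nat.Prime.coprime_iff_not_dvd (Fact.out : ℓ.Prime)).mp hc.symm) h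

/-- The residue map `ℤ_(ℓ) → 𝔽_ℓ`. -/
def resZl : ↥(GaloisRep.ratLocalizedAt ℓ) →+* ZMod ℓ where
  toFun x := ((x.1 : ℚ) : ZMod ℓ)
  map_one' := by simp
  map_zero' := by simp
  map_mul' x y := by
    show (((x.1 * y.1 : ℚ)) : ZMod ℓ) = _
    exact Rat.cast_mul_of_ne_zero (den_ne_zero_zmod ℓ x) (den_ne_zero_zmod ℓ y)
  map_add' x y := by
    show (((x.1 + y.1 : ℚ)) : ZMod ℓ) = _
    exact Rat.cast_add_of_ne_zero (den_ne_zero_zmod ℓ x) (den_ne_zero_zmod ℓ y)

theorem resZl_apply (x : ↥(GaloisRep.ratLocalizedAt ℓ)) : resZl ℓ x = ((x.1 : ℚ) : ZMod ℓ) := rfl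

/-- The kernel of the residue map is `ℓ · ℤ_(ℓ)`. -/
theorem resZl_eq_zero_iff (x : ↥(GaloisRep.ratLocalizedAt ℓ)) :
    resZl ℓ x = 0 ↔ ∃ y : ↥(GaloisRep.ratLocalizedAt ℓ), x = (ℓ : ↥(GaloisRep.ratLocalizedAt ℓ)) * y := by
  constructor
  · intro h
    rw [resZl_apply, Rat.cast_def, div_eq_zero_iff] at h
    have hnum : ((x.1.num : ℤ) : ZMod ℓ) = 0 := h.resolve_right (den_ne_zero_zmod ℓ x)
    rw [ZMod.intCast_zmod_eq_zero_iff_dvd] at hnum
    obtain ⟨m, hm⟩ := hnum
    have hmem : (Rat.divInt m x.1.den) ∈ GaloisRep.ratLocalizedAt ℓ := by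
      show (Rat.divInt m x.1.den).den.Coprime ℓ
      have hdvd : (Rat.divInt m x.1.den).den ∣ x.1.den := by
        exact_mod_cast Rat.den_dvd m x.1.den
      exact Nat.Coprime.coprime_dvd_left hdvd x.2
    refine ⟨⟨Rat.divInt m x.1.den, hmem⟩, Subtype.ext ?_⟩
    have hd : ((x.1.den : ℕ) : ℚ) ≠ 0 := by exact_mod_cast x.1.den_ne_zero
    show x.1 = (((ℓ : ℕ) : ↥(GaloisRep.ratLocalizedAt ℓ)) : ℚ) * Rat.divInt m x.1.den
    rw [Rat.divInt_eq_div]
    conv_lhs => rw [← Rat.num_div_den x.1, hm]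
    push_cast
    ring
  · rintro ⟨y, rfl⟩
    rw [map_mul, map_natCast, ZMod.natCast_self, zero_mul]

theorem natCast_ne_zero_ratLocalizedAt : ((ℓ : ℕ) : ↥(GaloisRep.ratLocalizedAt ℓ)) ≠ 0 := by
  intro h
  have h2 := congrArg (Subtype.val : ↥(GaloisRep.ratLocalizedAt ℓ) → ℚ) h
  have h3 : ((ℓ : ℕ) : ℚ) = 0 := by simpa using h2
  exact (Fact.out : ℓ.Prime).ne_zero (by exact_mod_cast h3)

theorem padicValRat_nonneg_of_mem (x : ↥(GaloisRep.ratLocalizedAt ℓ)) :
    0 ≤ padicValRat ℓ x.1 := by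
  rw [padicValRat_def]
  have hc : Nat.Coprime x.1.den ℓ := x.2
  have hnd : ¬ ℓ ∣ x.1.den := (Nat.Prime.coprime_iff_not_dvd (Fact.out : ℓ.Prime)).mp hc.symm
  rw [padicValNat.eq_zero_of_not_dvd hnd]
  simp

/-- A nonzero element of `ℤ_(ℓ)` is not divisible by all powers of `ℓ`. -/
theorem exists_not_pow_dvd (r : ↥(GaloisRep.ratLocalizedAt ℓ)) (hr : r ≠ 0) :
    ∃ n : ℕ, ¬ ∃ s : ↥(GaloisRep.ratLocalizedAt ℓ),
      r = ((ℓ : ℕ) : ↥(GaloisRep.ratLocalizedAt ℓ)) ^ n * s := by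
  by_contra hcon
  push Not at hcon
  have hr1 : r.1 ≠ 0 := fun h => hr (Subtype.ext h)
  obtain ⟨s, hs⟩ := hcon ((padicValRat ℓ r.1).toNat + 1)
  have hs0 : s.1 ≠ 0 := by
    intro h
    apply hr
    rw [hs, show s = 0 from Subtype.ext h, mul_zero]
  have hℓ0 : ((ℓ : ℕ) : ℚ) ≠ 0 := by
    exact_mod_cast (Fact.out : ℓ.Prime).ne_zero
  have hval : padicValRat ℓ r.1 =
      (((padicValRat ℓ r.1).toNat + 1 : ℕ) : ℤ) + padicValRat ℓ s.1 := by
    have h1 : r.1 = ((ℓ : ℕ) : ℚ) ^ ((padicValRat ℓ r.1).toNat + 1) * s.1 := by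
      have := congrArg (Subtype.val : ↥(GaloisRep.ratLocalizedAt ℓ) → ℚ) hs
      simpa using this
    conv_lhs => rw [h1]
    rw [padicValRat.mul (pow_ne_zero _ hℓ0) hs0, padicValRat.pow,
      padicValRat.self (Fact.out : ℓ.Prime).one_lt, mul_one]
  have h2 := padicValRat_nonneg_of_mem ℓ s
  have h3 := Int.self_le_toNat (padicValRat ℓ r.1)
  push_cast at hval
  omega

end Residue

section Laurent

variable (ℓ : ℕ) [Fact ℓ.Prime]

/-- Coefficientwise inclusion `ℤ_(ℓ)((q)) → ℚ((q))`. -/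
def toQ : LaurentSeries ↥(GaloisRep.ratLocalizedAt ℓ) →+* LaurentSeries ℚ :=
  coeffMap (GaloisRep.ratLocalizedAt ℓ).subtype

/-- Coefficientwise reduction `ℤ_(ℓ)((q)) → 𝔽_ℓ((q))`. -/
def toRes : LaurentSeries ↥(GaloisRep.ratLocalizedAt ℓ) →+* LaurentSeries (ZMod ℓ) :=
  coeffMap (resZl ℓ)

omit [Fact ℓ.Prime] in
@[simp]
theorem toQ_coeff (a : LaurentSeries ↥(GaloisRep.ratLocalizedAt ℓ)) (k : ℤ) :
    (toQ ℓ a).coeff k = ((a.coeff k : ↥(GaloisRep.ratLocalizedAt ℓ)) : ℚ) := rfl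

@[simp]
theorem toRes_coeff (a : LaurentSeries ↥(GaloisRep.ratLocalizedAt ℓ)) (k : ℤ) :
    (toRes ℓ a).coeff k = resZl ℓ (a.coeff k) := rfl

omit [Fact ℓ.Prime] in
theorem toQ_injective : Function.Injective (toQ ℓ) := by
  intro a b h
  ext k
  have := congrArg (fun z => HahnSeries.coeff z k) h
  exact this

omit [Fact ℓ.Prime] in
theorem toQ_eq_zero_iff (a : LaurentSeries ↥(GaloisRep.ratLocalizedAt ℓ)) :
    toQ ℓ a = 0 ↔ a = 0 :=
  map_eq_zero_iff (toQ ℓ) (toQ_injective ℓ)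

theorem natCast_mul_coeff {S : Type*} [CommRing S] (n : ℕ) (a : LaurentSeries S) (k : ℤ) :
    (((n : ℕ) : LaurentSeries S) * a).coeff k = (n : S) * a.coeff k := by
  rw [← map_natCast (HahnSeries.C : S →+* LaurentSeries S) n, HahnSeries.C_mul_eq_smul,
    HahnSeries.coeff_smul, smul_eq_mul]

/-- Division by `ℓ` on `ℤ_(ℓ)` (junk value `0` on non-multiples). -/
def divL (r : ↥(GaloisRep.ratLocalizedAt ℓ)) : ↥(GaloisRep.ratLocalizedAt ℓ) :=
  if h : resZl ℓ r = 0 then Classical.choose ((resZl_eq_zero_iff ℓ r).mp h) else 0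

theorem divL_spec {r : ↥(GaloisRep.ratLocalizedAt ℓ)} (h : resZl ℓ r = 0) :
    r = ((ℓ : ℕ) : ↥(GaloisRep.ratLocalizedAt ℓ)) * divL ℓ r := by
  rw [divL, dif_pos h]
  exact Classical.choose_spec ((resZl_eq_zero_iff ℓ r).mp h)

theorem divL_zero : divL ℓ 0 = 0 := by
  have h := divL_spec ℓ (r := 0) (map_zero _)
  rcases mul_eq_zero.mp h.symm with h1 | h1
  · exact absurd h1 (natCast_ne_zero_ratLocalizedAt ℓ)
  · exact h1

/-- The kernel of `ℤ_(ℓ)((q)) → 𝔽_ℓ((q))` is generated by `ℓ`. -/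
theorem toRes_eq_zero_iff (a : LaurentSeries ↥(GaloisRep.ratLocalizedAt ℓ)) :
    toRes ℓ a = 0 ↔
      ∃ a' : LaurentSeries ↥(GaloisRep.ratLocalizedAt ℓ),
        a = ((ℓ : ℕ) : LaurentSeries ↥(GaloisRep.ratLocalizedAt ℓ)) * a' := by
  constructor
  · intro h
    refine ⟨a.map (⟨divL ℓ, divL_zero ℓ⟩ : ZeroHom _ _), ?_⟩
    ext k
    rw [natCast_mul_coeff, HahnSeries.map_coeff]
    have hk : resZl ℓ (a.coeff k) = 0 := by
      have := congrArg (fun z => HahnSeries.coeff z k) h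
      simpa using this
    exact congrArg Subtype.val (divL_spec ℓ hk)
  · rintro ⟨a', rfl⟩
    rw [map_mul, map_natCast]
    have : ((ℓ : ℕ) : LaurentSeries (ZMod ℓ)) = 0 := by
      rw [← map_natCast (HahnSeries.C : ZMod ℓ →+* LaurentSeries (ZMod ℓ)) ℓ, ZMod.natCast_self,
        map_zero]
    rw [this, zero_mul]

/-- Every nonzero element of `ℤ_(ℓ)((q))` is `ℓ ^ n` times an element with nonzero reduction. -/
theorem exists_eq_pow_mul (a : LaurentSeries ↥(GaloisRep.ratLocalizedAt ℓ)) (ha : a ≠ 0) :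
    ∃ (n : ℕ) (a' : LaurentSeries ↥(GaloisRep.ratLocalizedAt ℓ)),
      a = ((ℓ : ℕ) : LaurentSeries ↥(GaloisRep.ratLocalizedAt ℓ)) ^ n * a' ∧ toRes ℓ a' ≠ 0 := by
  by_contra hcon
  push Not at hcon
  have hall : ∀ n : ℕ, ∃ a' : LaurentSeries ↥(GaloisRep.ratLocalizedAt ℓ),
      a = ((ℓ : ℕ) : LaurentSeries ↥(GaloisRep.ratLocalizedAt ℓ)) ^ n * a' := by
    intro n
    induction n with
    | zero => exact ⟨a, by simp⟩
    | succ n ih =>
      obtain ⟨a', ha'⟩ := ih
      obtain ⟨a'', ha''⟩ := (toRes_eq_zero_iff ℓ a').mp (hcon n a' ha')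
      exact ⟨a'', by rw [ha', ha'']; ring⟩
  obtain ⟨k, hk⟩ : ∃ k, a.coeff k ≠ 0 := by
    by_contra hc
    push Not at hc
    exact ha (HahnSeries.ext (funext hc))
  obtain ⟨n, hn⟩ := exists_not_pow_dvd ℓ (a.coeff k) hk
  obtain ⟨a', ha'⟩ := hall n
  apply hn
  refine ⟨a'.coeff k, ?_⟩
  conv_lhs => rw [ha']
  rw [← Nat.cast_pow, natCast_mul_coeff, Nat.cast_pow]

end Laurent

section ValuationRing

variable (ℓ : ℕ) [Fact ℓ.Prime]

/-- The localisation of `ℤ_(ℓ)((q))` at the prime `(ℓ)`, as a subring of `ℚ((q))`. -/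
def igV : Subring (LaurentSeries ℚ) where
  carrier := {x | ∃ a b : LaurentSeries ↥(GaloisRep.ratLocalizedAt ℓ),
    toRes ℓ b ≠ 0 ∧ x * toQ ℓ b = toQ ℓ a}
  mul_mem' := by
    rintro x y ⟨a, b, hb, hx⟩ ⟨a', b', hb', hy⟩
    refine ⟨a * a', b * b', ?_, ?_⟩
    · rw [map_mul]; exact mul_ne_zero hb hb'
    · rw [map_mul, map_mul, ← hx, ← hy]; ring
  one_mem' := ⟨1, 1, by simp, by simp⟩
  add_mem' := by
    rintro x y ⟨a, b, hb, hx⟩ ⟨a', b', hb', hy⟩
    refine ⟨a * b' + a' * b, b * b', ?_, ?_⟩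
    · rw [map_mul]; exact mul_ne_zero hb hb'
    · rw [map_mul, map_add, map_mul, map_mul, ← hx, ← hy]; ring
  zero_mem' := ⟨0, 1, by simp, by simp⟩
  neg_mem' := by
    rintro x ⟨a, b, hb, hx⟩
    exact ⟨-a, b, hb, by rw [map_neg, ← hx]; ring⟩

theorem mem_igV_iff {x : LaurentSeries ℚ} :
    x ∈ igV ℓ ↔ ∃ a b : LaurentSeries ↥(GaloisRep.ratLocalizedAt ℓ),
      toRes ℓ b ≠ 0 ∧ x * toQ ℓ b = toQ ℓ a := Iff.rfl

theorem toQ_mem_igV (a : LaurentSeries ↥(GaloisRep.ratLocalizedAt ℓ)) : toQ ℓ a ∈ igV ℓ :=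
  ⟨a, 1, by simp, by simp⟩

theorem toRes_ne_zero_imp_ne_zero {b : LaurentSeries ↥(GaloisRep.ratLocalizedAt ℓ)}
    (hb : toRes ℓ b ≠ 0) : b ≠ 0 := by
  rintro rfl
  exact hb (map_zero _)

theorem toQ_ne_zero_of_toRes_ne_zero {b : LaurentSeries ↥(GaloisRep.ratLocalizedAt ℓ)}
    (hb : toRes ℓ b ≠ 0) : toQ ℓ b ≠ 0 := fun h =>
  toRes_ne_zero_imp_ne_zero ℓ hb ((toQ_eq_zero_iff ℓ b).mp h)

/-- A chosen numerator of an element of `igV`. -/
def igNum (x : igV ℓ) : LaurentSeries ↥(GaloisRep.ratLocalizedAt ℓ) := Classical.choose x.2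

/-- A chosen denominator of an element of `igV`. -/
def igDen (x : igV ℓ) : LaurentSeries ↥(GaloisRep.ratLocalizedAt ℓ) :=
  Classical.choose (Classical.choose_spec x.2)

theorem toRes_igDen_ne_zero (x : igV ℓ) : toRes ℓ (igDen ℓ x) ≠ 0 :=
  (Classical.choose_spec (Classical.choose_spec x.2)).1

theorem mul_toQ_igDen (x : igV ℓ) : x.1 * toQ ℓ (igDen ℓ x) = toQ ℓ (igNum ℓ x) :=
  (Classical.choose_spec (Classical.choose_spec x.2)).2

/-- The underlying function of the reduction map. -/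
def igRedFun (x : igV ℓ) : LaurentSeries (ZMod ℓ) :=
  toRes ℓ (igNum ℓ x) / toRes ℓ (igDen ℓ x)

theorem igRedFun_eq (x : igV ℓ) (a b : LaurentSeries ↥(GaloisRep.ratLocalizedAt ℓ))
    (hb : toRes ℓ b ≠ 0) (h : x.1 * toQ ℓ b = toQ ℓ a) :
    igRedFun ℓ x = toRes ℓ a / toRes ℓ b := by
  rw [igRedFun, div_eq_div_iff (toRes_igDen_ne_zero ℓ x) hb, ← map_mul, ← map_mul]
  congr 1
  apply toQ_injective ℓ
  rw [map_mul, map_mul, ← h, ← mul_toQ_igDen ℓ x]
  ring

/-- **Reduction of `q`-expansions modulo `ℓ`**, `igV ℓ → 𝔽_ℓ((q))`. -/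
def igRed : igV ℓ →+* LaurentSeries (ZMod ℓ) where
  toFun := igRedFun ℓ
  map_one' := by
    rw [igRedFun_eq ℓ 1 1 1 (by simp) (by simp)]
    simp
  map_zero' := by
    rw [igRedFun_eq ℓ 0 0 1 (by simp) (by simp)]
    simp
  map_mul' x y := by
    rw [igRedFun_eq ℓ (x * y) (igNum ℓ x * igNum ℓ y) (igDen ℓ x * igDen ℓ y)
      (by rw [map_mul]; exact mul_ne_zero (toRes_igDen_ne_zero ℓ x) (toRes_igDen_ne_zero ℓ y))
      (by rw [map_mul, map_mul, ← mul_toQ_igDen ℓ x, ← mul_toQ_igDen ℓ y, Subring.coe_mul]; ring)]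
    rw [igRedFun, igRedFun, map_mul, map_mul, mul_div_mul_comm]
  map_add' x y := by
    rw [igRedFun_eq ℓ (x + y) (igNum ℓ x * igDen ℓ y + igNum ℓ y * igDen ℓ x)
      (igDen ℓ x * igDen ℓ y)
      (by rw [map_mul]; exact mul_ne_zero (toRes_igDen_ne_zero ℓ x) (toRes_igDen_ne_zero ℓ y))
      (by rw [map_mul, map_add, map_mul, map_mul, ← mul_toQ_igDen ℓ x, ← mul_toQ_igDen ℓ y,
            Subring.coe_add]; ring)]
    rw [igRedFun, igRedFun, map_mul, map_add, map_mul, map_mul,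
      div_add_div _ _ (toRes_igDen_ne_zero ℓ x) (toRes_igDen_ne_zero ℓ y)]
    congr 1
    ring

theorem igRed_eq (x : igV ℓ) (a b : LaurentSeries ↥(GaloisRep.ratLocalizedAt ℓ))
    (hb : toRes ℓ b ≠ 0) (h : x.1 * toQ ℓ b = toQ ℓ a) :
    igRed ℓ x = toRes ℓ a / toRes ℓ b :=
  igRedFun_eq ℓ x a b hb h

@[simp]
theorem igRed_toQ (a : LaurentSeries ↥(GaloisRep.ratLocalizedAt ℓ)) :
    igRed ℓ ⟨toQ ℓ a, toQ_mem_igV ℓ a⟩ = toRes ℓ a := by
  rw [igRed_eq ℓ _ a 1 (by simp) (by simp)]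
  simp

theorem natCast_laurent_zmod_eq_zero : ((ℓ : ℕ) : LaurentSeries (ZMod ℓ)) = 0 := by
  rw [← map_natCast (HahnSeries.C : ZMod ℓ →+* LaurentSeries (ZMod ℓ)) ℓ, ZMod.natCast_self,
    map_zero]

theorem natCast_laurent_rat_ne_zero : ((ℓ : ℕ) : LaurentSeries ℚ) ≠ 0 := by
  rw [← map_natCast (HahnSeries.C : ℚ →+* LaurentSeries ℚ) ℓ, Ne,
    map_eq_zero_iff _ HahnSeries.C_injective]
  exact_mod_cast (Fact.out : ℓ.Prime).ne_zero

/-- The kernel of the reduction map is `ℓ · igV`. -/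
theorem igRed_eq_zero_iff (x : igV ℓ) :
    igRed ℓ x = 0 ↔ ∃ y : igV ℓ, x = ((ℓ : ℕ) : igV ℓ) * y := by
  constructor
  · intro h
    rw [igRed_eq ℓ x _ _ (toRes_igDen_ne_zero ℓ x) (mul_toQ_igDen ℓ x), div_eq_zero_iff] at h
    have h0 := h.resolve_right (toRes_igDen_ne_zero ℓ x)
    obtain ⟨a', ha'⟩ := (toRes_eq_zero_iff ℓ _).mp h0
    have hℓ := natCast_laurent_rat_ne_zero ℓ
    have hy : x.1 / ((ℓ : ℕ) : LaurentSeries ℚ) ∈ igV ℓ := by
      refine ⟨a', igDen ℓ x, toRes_igDen_ne_zero ℓ x, ?_⟩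
      have h1 := mul_toQ_igDen ℓ x
      rw [ha', map_mul, map_natCast] at h1
      field_simp
      rw [h1]
    refine ⟨⟨_, hy⟩, Subtype.ext ?_⟩
    simp only [Subring.coe_mul, Subring.coe_natCast]
    field_simp
  · rintro ⟨y, rfl⟩
    rw [map_mul, map_natCast, natCast_laurent_zmod_eq_zero, zero_mul]

/-- Elements of `igV` with nonzero reduction are units. -/
theorem inv_mem_igV_of_igRed_ne_zero (x : igV ℓ) (h : igRed ℓ x ≠ 0) : (x.1)⁻¹ ∈ igV ℓ := by
  rw [igRed_eq ℓ x _ _ (toRes_igDen_ne_zero ℓ x) (mul_toQ_igDen ℓ x)] at h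
  have hnum : toRes ℓ (igNum ℓ x) ≠ 0 := fun h0 => h (by rw [h0, zero_div])
  refine ⟨igDen ℓ x, igNum ℓ x, hnum, ?_⟩
  have hb := toQ_ne_zero_of_toRes_ne_zero ℓ (toRes_igDen_ne_zero ℓ x)
  have ha := toQ_ne_zero_of_toRes_ne_zero ℓ hnum
  have h1 := mul_toQ_igDen ℓ x
  have hx : x.1 ≠ 0 := by
    intro hx
    rw [hx, zero_mul] at h1
    exact ha h1.symm
  rw [← h1]
  field_simp

/-- General fact: if `x` is integral over a subring `V` of a field and `x⁻¹ ∈ V`, then `x ∈ V`. -/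
theorem mem_of_isIntegral_of_inv_mem {L : Type*} [Field L] (V : Subring L) {x : L}
    (hint : IsIntegral V x) (hinv : x⁻¹ ∈ V) : x ∈ V := by
  obtain ⟨p, hmonic, hp⟩ := hint
  by_cases hx : x = 0
  · rw [hx]; exact V.zero_mem
  rw [Polynomial.eval₂_eq_sum_range, Finset.sum_range_succ, hmonic.coeff_natDegree, map_one,
    one_mul] at hp
  rcases Nat.eq_zero_or_pos p.natDegree with h0 | hpos
  · rw [h0] at hp
    simp at hp
  obtain ⟨m, hm⟩ : ∃ m, p.natDegree = m + 1 := ⟨p.natDegree - 1, by omega⟩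
  rw [hm] at hp
  have hxm : x = -∑ i ∈ Finset.range (m + 1), (algebraMap V L (p.coeff i)) * (x⁻¹) ^ (m - i) := by
    have h1 : x ^ (m + 1) = -∑ i ∈ Finset.range (m + 1), (algebraMap V L (p.coeff i)) * x ^ i :=
      eq_neg_of_add_eq_zero_right hp
    have h2 : x = x ^ (m + 1) * (x⁻¹) ^ m := by
      rw [pow_succ, mul_assoc, mul_comm x, ← mul_assoc, ← mul_pow, mul_inv_cancel₀ hx, one_pow,
        one_mul]
    conv_lhs => rw [h2, h1]
    rw [neg_mul, Finset.sum_mul]
    congr 1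
    refine Finset.sum_congr rfl fun i hi => ?_
    have hi' : i ≤ m := Nat.lt_succ_iff.mp (Finset.mem_range.mp hi)
    rw [mul_assoc]
    congr 1
    obtain ⟨k, rfl⟩ := Nat.exists_eq_add_of_le hi'
    rw [Nat.add_sub_cancel_left, pow_add, ← mul_assoc, ← mul_pow, mul_inv_cancel₀ hx, one_pow,
      one_mul]
  rw [hxm]
  refine V.neg_mem (V.sum_mem fun i _ => V.mul_mem ?_ (V.pow_mem hinv _))
  exact (p.coeff i).2

/-- The fraction field of `igV ℓ` inside `ℚ((q))`. -/
def igE : IntermediateField ℚ (LaurentSeries ℚ) where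
  carrier := {x | ∃ a b : LaurentSeries ↥(GaloisRep.ratLocalizedAt ℓ),
    b ≠ 0 ∧ x * toQ ℓ b = toQ ℓ a}
  mul_mem' := by
    rintro x y ⟨a, b, hb, hx⟩ ⟨a', b', hb', hy⟩
    refine ⟨a * a', b * b', mul_ne_zero hb hb', ?_⟩
    rw [map_mul, map_mul, ← hx, ← hy]; ring
  one_mem' := ⟨1, 1, one_ne_zero, by simp⟩
  add_mem' := by
    rintro x y ⟨a, b, hb, hx⟩ ⟨a', b', hb', hy⟩
    refine ⟨a * b' + a' * b, b * b', mul_ne_zero hb hb', ?_⟩
    rw [map_mul, map_add, map_mul, map_mul, ← hx, ← hy]; ring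
  zero_mem' := ⟨0, 1, one_ne_zero, by simp⟩
  algebraMap_mem' := by
    intro c
    refine ⟨((c.num : ℤ) : LaurentSeries ↥(GaloisRep.ratLocalizedAt ℓ)),
      ((c.den : ℕ) : LaurentSeries ↥(GaloisRep.ratLocalizedAt ℓ)), ?_, ?_⟩
    · intro h
      have h2 := congrArg (toQ ℓ) h
      rw [map_natCast, map_zero,
        ← map_natCast (HahnSeries.C : ℚ →+* LaurentSeries ℚ) c.den,
        map_eq_zero_iff _ HahnSeries.C_injective] at h2
      exact c.den_ne_zero (by exact_mod_cast h2)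
    · rw [map_natCast, map_intCast, algebraMap_apply_eq_single,
        ← map_natCast (HahnSeries.C : ℚ →+* LaurentSeries ℚ) c.den,
        ← map_intCast (HahnSeries.C : ℚ →+* LaurentSeries ℚ) c.num, ← HahnSeries.C_apply,
        ← map_mul, Rat.mul_den_eq_num]
  inv_mem' := by
    rintro x ⟨a, b, hb, hx⟩
    by_cases hx0 : x = 0
    · rw [hx0, inv_zero]
      exact ⟨0, 1, one_ne_zero, by simp⟩
    have hb' : toQ ℓ b ≠ 0 := fun h => hb ((toQ_eq_zero_iff ℓ b).mp h)
    have ha : a ≠ 0 := by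
      rintro rfl
      rw [map_zero] at hx
      exact (mul_ne_zero hx0 hb') hx
    refine ⟨b, a, ha, ?_⟩
    rw [← hx]
    field_simp

omit [Fact ℓ.Prime] in
theorem mem_igE_iff {x : LaurentSeries ℚ} :
    x ∈ igE ℓ ↔ ∃ a b : LaurentSeries ↥(GaloisRep.ratLocalizedAt ℓ),
      b ≠ 0 ∧ x * toQ ℓ b = toQ ℓ a := Iff.rfl

theorem igV_le_igE {x : LaurentSeries ℚ} (hx : x ∈ igV ℓ) : x ∈ igE ℓ := by
  obtain ⟨a, b, hb, h⟩ := hx
  exact ⟨a, b, toRes_ne_zero_imp_ne_zero ℓ hb, h⟩

theorem toQ_mem_igE (a : LaurentSeries ↥(GaloisRep.ratLocalizedAt ℓ)) : toQ ℓ a ∈ igE ℓ :=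
  igV_le_igE ℓ (toQ_mem_igV ℓ a)

/-- **Valuation ring dichotomy.** An element of the fraction field `igE` either lies in `igV`,
or its inverse lies in `ℓ · igV`. -/
theorem mem_igV_or_inv_eq_mul {x : LaurentSeries ℚ} (hx : x ∈ igE ℓ) :
    x ∈ igV ℓ ∨ ∃ y ∈ igV ℓ, x⁻¹ = ((ℓ : ℕ) : LaurentSeries ℚ) * y := by
  obtain ⟨a, b, hb, h⟩ := hx
  by_cases hx0 : x = 0
  · left
    rw [hx0]
    exact (igV ℓ).zero_mem
  have hbQ : toQ ℓ b ≠ 0 := fun h0 => hb ((toQ_eq_zero_iff ℓ b).mp h0)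
  have ha : a ≠ 0 := by
    rintro rfl
    rw [map_zero] at h
    exact (mul_ne_zero hx0 hbQ) h
  obtain ⟨n, a', rfl, ha'⟩ := exists_eq_pow_mul ℓ a ha
  obtain ⟨m, b', rfl, hb'⟩ := exists_eq_pow_mul ℓ b hb
  have hℓ := natCast_laurent_rat_ne_zero ℓ
  have ha'Q := toQ_ne_zero_of_toRes_ne_zero ℓ ha'
  have hb'Q := toQ_ne_zero_of_toRes_ne_zero ℓ hb'
  simp only [map_mul, map_pow, map_natCast] at h
  rcases le_or_gt m n with hmn | hmn
  · left
    obtain ⟨k, rfl⟩ := Nat.exists_eq_add_of_le hmn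
    refine ⟨((ℓ : ℕ) : LaurentSeries ↥(GaloisRep.ratLocalizedAt ℓ)) ^ k * a', b', hb', ?_⟩
    simp only [map_mul, map_pow, map_natCast]
    have hpow : ((ℓ : ℕ) : LaurentSeries ℚ) ^ m ≠ 0 := pow_ne_zero _ hℓ
    apply mul_left_cancel₀ hpow
    rw [← mul_assoc, mul_comm _ x, mul_assoc, h, pow_add]
    ring
  · right
    obtain ⟨k, rfl⟩ := Nat.exists_eq_add_of_lt hmn
    refine ⟨((ℓ : ℕ) : LaurentSeries ℚ) ^ k * toQ ℓ b' / toQ ℓ a', ?_, ?_⟩
    · refine ⟨((ℓ : ℕ) : LaurentSeries ↥(GaloisRep.ratLocalizedAt ℓ)) ^ k * b', a', ha', ?_⟩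
      simp only [map_mul, map_pow, map_natCast]
      field_simp
    · have hpow : ((ℓ : ℕ) : LaurentSeries ℚ) ^ n ≠ 0 := pow_ne_zero _ hℓ
      have hx' : x = toQ ℓ a' / (((ℓ : ℕ) : LaurentSeries ℚ) ^ (k + 1) * toQ ℓ b') := by
        rw [eq_div_iff (mul_ne_zero (pow_ne_zero _ hℓ) hb'Q)]
        apply mul_left_cancel₀ hpow
        rw [← h, pow_add, pow_add]
        ring
      rw [hx', inv_div, pow_succ]
      field_simp

/-- `igV ℓ` is integrally closed in its fraction field `igE ℓ`. -/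
theorem mem_igV_of_isIntegral {x : LaurentSeries ℚ} (hx : x ∈ igE ℓ)
    (hint : IsIntegral (igV ℓ) x) : x ∈ igV ℓ := by
  rcases mem_igV_or_inv_eq_mul ℓ hx with h | ⟨y, hy, hxy⟩
  · exact h
  · refine mem_of_isIntegral_of_inv_mem (igV ℓ) hint ?_
    rw [hxy]
    exact (igV ℓ).mul_mem (natCast_mem _ _) hy

end ValuationRing

end Fermat.Agent.S28.H865

end
end
-- ===== PACK-END S28/H865Reduction.lean

-- ===== PACK-BEGIN S56/H116/RootEta.lean
section


/-!
# S56, wall FLAT, leaf ROOT, step R1: the Eisenstein perturbation map in a valued field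

`Ω` a field with a valuation `v`, `B' ⊆ Ω` a subring of integral elements whose nonzero elements
have valuation in `v(π) ^ ℕ` ("unramified"), `ϖ` with `v(ϖ) ^ e = v(π) < 1`.

* `EisPres.val_sum_le_iff`: `v(∑_{i<e} a_i ϖ^i) ≤ g ↔ ∀ i, v(a_i ϖ^i) ≤ g` for `a_i ∈ B'`
  (the valuations of the nonzero terms are pairwise distinct);
* `EisPres.eq_zero_of_sum_eq_zero`: uniqueness of the expansion;
* `val_root_pow`: a root of `G + c X^j` (`G` Eisenstein-like) has valuation `v(π)^(1/e)`;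
* `eta`: the map `∑ a_i ϖ^i ↦ ∑ a_i ϖ'^i`; `EisPres.eta_add`, `eta_mul`, `eta_of_mem`, `val_eta`.
-/

set_option autoImplicit false
set_option linter.unusedSectionVars false

namespace Fermat.Agent.S56.H116.Root

open Polynomial

variable {Ω : Type*} [Field Ω] {Γ₀ : Type*} [LinearOrderedCommGroupWithZero Γ₀]
  (v : Valuation Ω Γ₀)

/-- `B'` is an unramified subring of integers with "uniformizer" `π`, and `ϖ` is an element with
`v(ϖ) ^ e = v(π)`. -/
structure EisPres (B' : Subring Ω) (π : Ω) (e : ℕ) (ϖ : Ω) : Prop where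
  int : ∀ b ∈ B', v b ≤ 1
  val : ∀ b ∈ B', b ≠ 0 → ∃ n : ℕ, v b = v π ^ n
  vpow : v ϖ ^ e = v π
  lt_one : v π < 1
  ne_zero : v π ≠ 0
  epos : 0 < e

namespace EisPres

variable {v} {B' : Subring Ω} {π : Ω} {e : ℕ} {ϖ : Ω} (h : EisPres v B' π e ϖ)
include h

theorem vϖ_ne_zero : v ϖ ≠ 0 := by
  intro h0
  have := h.vpow
  rw [h0, zero_pow h.epos.ne'] at this
  exact h.ne_zero this.symm

theorem vϖ_pos : 0 < v ϖ := zero_lt_iff.mpr h.vϖ_ne_zero

theorem vϖ_lt_one : v ϖ < 1 := by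
  by_contra hcon
  have h1 : 1 ≤ v ϖ := not_lt.mp hcon
  have h2 : 1 ≤ v ϖ ^ e := one_le_pow₀ h1
  rw [h.vpow] at h2
  exact absurd h.lt_one (not_lt.mpr h2)

theorem vϖ_le_one : v ϖ ≤ 1 := h.vϖ_lt_one.le

theorem pow_injective : Function.Injective (fun n : ℕ => v ϖ ^ n) :=
  (pow_right_strictAnti₀ h.vϖ_pos h.vϖ_lt_one).injective

/-- The valuation of a nonzero term `b ϖ^i`. -/
theorem val_term {b : Ω} (hb : b ∈ B') (hb0 : b ≠ 0) (i : ℕ) :
    ∃ n : ℕ, v (b * ϖ ^ i) = v ϖ ^ (e * n + i) := by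
  obtain ⟨n, hn⟩ := h.val b hb hb0
  refine ⟨n, ?_⟩
  rw [map_mul, map_pow, hn, ← h.vpow, ← pow_mul, ← pow_add]

/-- Nonzero terms of different degrees `< e` have different valuations. -/
theorem val_term_ne {b b' : Ω} (hb : b ∈ B') (hb0 : b ≠ 0) (hb' : b' ∈ B') (hb0' : b' ≠ 0)
    {i i' : ℕ} (hi : i < e) (hi' : i' < e) (hne : i ≠ i') :
    v (b * ϖ ^ i) ≠ v (b' * ϖ ^ i') := by
  obtain ⟨n, hn⟩ := h.val_term hb hb0 i
  obtain ⟨n', hn'⟩ := h.val_term hb' hb0' i'
  rw [hn, hn']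
  intro heq
  have h1 : e * n + i = e * n' + i' := h.pow_injective heq
  apply hne
  have h2 : (e * n + i) % e = (e * n' + i') % e := by rw [h1]
  rwa [Nat.mul_add_mod, Nat.mul_add_mod, Nat.mod_eq_of_lt hi, Nat.mod_eq_of_lt hi'] at h2

theorem ϖ_ne_zero : ϖ ≠ 0 := fun h0 => h.vϖ_ne_zero (by rw [h0, map_zero])

/-- **Valuation of an expansion**: `v(∑_{i<e} a_i ϖ^i) ≤ g` iff every term is `≤ g`. -/
theorem val_sum_le_iff (a : ℕ → Ω) (ha : ∀ i, a i ∈ B') (g : Γ₀) :
    v (∑ i ∈ Finset.range e, a i * ϖ ^ i) ≤ g ↔ ∀ i < e, v (a i * ϖ ^ i) ≤ g := by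
  classical
  constructor
  · intro hsum
    obtain ⟨i₀, hi₀, hmax⟩ := Finset.exists_max_image (Finset.range e)
      (fun i => v (a i * ϖ ^ i)) ⟨0, Finset.mem_range.mpr h.epos⟩
    by_cases hM : v (a i₀ * ϖ ^ i₀) = 0
    · intro i hi
      have := hmax i (Finset.mem_range.mpr hi)
      rw [hM] at this
      exact this.trans zero_le
    · have hai₀ : a i₀ ≠ 0 := fun h0 => hM (by rw [h0, zero_mul, map_zero])
      have hlt : ∀ i ∈ Finset.range e \ {i₀}, v (a i * ϖ ^ i) < v (a i₀ * ϖ ^ i₀) := by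
        intro i hi
        rw [Finset.mem_sdiff, Finset.mem_singleton] at hi
        by_cases hai : a i = 0
        · rw [hai, zero_mul, map_zero]
          exact zero_lt_iff.mpr hM
        · exact lt_of_le_of_ne (hmax i hi.1) (h.val_term_ne (ha i) hai (ha i₀) hai₀
            (Finset.mem_range.mp hi.1) (Finset.mem_range.mp hi₀) hi.2)
      have heq := v.map_sum_eq_of_lt hi₀ hlt
      intro i hi
      exact (hmax i (Finset.mem_range.mpr hi)).trans (heq ▸ hsum)
  · intro hterm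
    exact v.map_sum_le fun i hi => hterm i (Finset.mem_range.mp hi)

/-- Uniqueness of the expansion. -/
theorem eq_zero_of_sum_eq_zero (a : ℕ → Ω) (ha : ∀ i, a i ∈ B')
    (hsum : ∑ i ∈ Finset.range e, a i * ϖ ^ i = 0) (i : ℕ) (hi : i < e) : a i = 0 := by
  have h1 := (h.val_sum_le_iff a ha 0).mp (by rw [hsum, map_zero]) i hi
  have h2 : v (a i * ϖ ^ i) = 0 := le_antisymm h1 zero_le
  rw [map_eq_zero] at h2
  exact (mul_eq_zero.mp h2).resolve_right (pow_ne_zero _ h.ϖ_ne_zero)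

/-- Expansions are integral. -/
theorem val_sum_le_one (a : ℕ → Ω) (ha : ∀ i, a i ∈ B') :
    v (∑ i ∈ Finset.range e, a i * ϖ ^ i) ≤ 1 := by
  rw [h.val_sum_le_iff a ha]
  intro i _
  rw [map_mul, map_pow]
  exact mul_le_one' (h.int _ (ha i)) (pow_le_one₀ zero_le h.vϖ_le_one)

/-- Another element of the same valuation gives another presentation. -/
theorem of_val_eq {ϖ' : Ω} (hv : v ϖ' = v ϖ) : EisPres v B' π e ϖ' where
  int := h.int
  val := h.val
  vpow := by rw [hv, h.vpow]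
  lt_one := h.lt_one
  ne_zero := h.ne_zero
  epos := h.epos

/-- The valuation of an expansion depends only on the valuation of `ϖ`. -/
theorem val_sum_eq {ϖ' : Ω} (hv : v ϖ' = v ϖ) (a : ℕ → Ω) (ha : ∀ i, a i ∈ B') :
    v (∑ i ∈ Finset.range e, a i * ϖ' ^ i) = v (∑ i ∈ Finset.range e, a i * ϖ ^ i) := by
  have h' := h.of_val_eq hv
  have key : ∀ g, v (∑ i ∈ Finset.range e, a i * ϖ' ^ i) ≤ g ↔
      v (∑ i ∈ Finset.range e, a i * ϖ ^ i) ≤ g := by
    intro g
    rw [h.val_sum_le_iff a ha, h'.val_sum_le_iff a ha]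
    simp only [map_mul, map_pow, hv]
  exact le_antisymm ((key _).mpr le_rfl) ((key _).mp le_rfl)

end EisPres

section ValRoot


open Polynomial

variable {Ω : Type*} [Field Ω] {Γ₀ : Type*} [LinearOrderedCommGroupWithZero Γ₀]
  {v : Valuation Ω Γ₀}

/-- A root of an Eisenstein-type polynomial `G + c X^j` (`v(c) ≤ v(π)`, `0 < j < e`) has
valuation `v(π)^(1/e)`. -/
theorem val_root_pow {π : Ω} {e : ℕ} {G : Polynomial Ω} (hm : G.Monic) (hdeg : G.natDegree = e)
    (hc : ∀ i < e, v (G.coeff i) ≤ v π) (hc0 : v (G.coeff 0) = v π) (hlt : v π < 1)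
    (hne : v π ≠ 0) {j : ℕ} (hj0 : 0 < j) (hje : j < e) {c : Ω} (hcv : v c ≤ v π)
    {z : Ω} (hroot : G.eval z + c * z ^ j = 0) : v z ^ e = v π := by
  have he : 0 < e := lt_trans hj0 hje
  have hπpos : 0 < v π := zero_lt_iff.mpr hne
  -- split off the leading term
  have hsplit : G.eval z = ∑ i ∈ Finset.range e, G.coeff i * z ^ i + z ^ e := by
    rw [Polynomial.eval_eq_sum_range, hdeg, Finset.sum_range_succ]
    congr 1
    have : G.coeff e = 1 := by rw [← hdeg]; exact hm.coeff_natDegree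
    rw [this, one_mul]
  have hz : z ^ e = -(∑ i ∈ Finset.range e, G.coeff i * z ^ i + c * z ^ j) := by
    rw [hsplit] at hroot
    linear_combination hroot
  -- step 1 : `v z ≤ 1`
  have h1 : v z ≤ 1 := by
    by_contra hcon
    have hgt : 1 < v z := not_le.mp hcon
    have hpos : 0 < v z ^ e := pow_pos (lt_trans zero_lt_one hgt) e
    have hterm : ∀ i ≤ e, ∀ a : Ω, v a ≤ v π → v (a * z ^ i) < v z ^ e := by
      intro i hi a ha
      rw [map_mul, map_pow]
      calc v a * v z ^ i ≤ v π * v z ^ e :=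
            mul_le_mul' ha (pow_le_pow_right₀ hgt.le hi)
        _ < 1 * v z ^ e := by
            exact mul_lt_mul_of_pos_right hlt hpos
        _ = v z ^ e := one_mul _
    have hsum : v (∑ i ∈ Finset.range e, G.coeff i * z ^ i + c * z ^ j) < v z ^ e := by
      apply v.map_add_lt
      · exact v.map_sum_lt hpos.ne' fun i hi =>
          hterm i (Finset.mem_range.mp hi).le _ (hc i (Finset.mem_range.mp hi))
      · exact hterm j hje.le c hcv
    have := congrArg v hz
    rw [Valuation.map_neg, map_pow] at this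
    rw [← this] at hsum
    exact lt_irrefl _ hsum
  -- step 2 : `v z < 1`
  have hle : v z ^ e ≤ v π := by
    have := congrArg v hz
    rw [Valuation.map_neg, map_pow] at this
    rw [this]
    apply v.map_add_le
    · exact v.map_sum_le fun i hi => by
        rw [map_mul, map_pow]
        calc v (G.coeff i) * v z ^ i ≤ v π * 1 :=
              mul_le_mul' (hc i (Finset.mem_range.mp hi)) (pow_le_one₀ zero_le h1)
          _ = v π := mul_one _
    · rw [map_mul, map_pow]
      calc v c * v z ^ j ≤ v π * 1 := mul_le_mul' hcv (pow_le_one₀ zero_le h1)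
        _ = v π := mul_one _
  have h2 : v z < 1 := by
    rcases lt_or_eq_of_le h1 with h | h
    · exact h
    · exfalso
      rw [h, one_pow] at hle
      exact absurd hlt (not_lt.mpr hle)
  -- step 3 : the constant term dominates
  have hsmall : ∀ i, 0 < i → ∀ a : Ω, v a ≤ v π → v (a * z ^ i) < v π := by
    intro i hi a ha
    rw [map_mul, map_pow]
    calc v a * v z ^ i ≤ v π * v z ^ i := mul_le_mul' ha le_rfl
      _ ≤ v π * v z := by
          apply mul_le_mul' le_rfl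
          calc v z ^ i ≤ v z ^ 1 := pow_le_pow_of_le_one zero_le h1 hi
            _ = v z := pow_one _
      _ < v π * 1 := by
          exact mul_lt_mul_of_pos_left h2 hπpos
      _ = v π := mul_one _
  obtain ⟨e', rfl⟩ : ∃ e', e = e' + 1 := ⟨e - 1, by omega⟩
  have hsum' : ∑ i ∈ Finset.range (e' + 1), G.coeff i * z ^ i =
      ∑ i ∈ Finset.range e', G.coeff (i + 1) * z ^ (i + 1) + G.coeff 0 := by
    rw [Finset.sum_range_succ', pow_zero, mul_one]
  have := congrArg v hz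
  rw [Valuation.map_neg, map_pow, hsum'] at this
  rw [this]
  have hrest : v (∑ i ∈ Finset.range e', G.coeff (i + 1) * z ^ (i + 1) + c * z ^ j) < v π := by
    apply v.map_add_lt
    · exact v.map_sum_lt hne fun i hi =>
        hsmall (i + 1) (Nat.succ_pos i) _ (hc (i + 1) (by
          have := Finset.mem_range.mp hi; omega))
    · exact hsmall j hj0 c hcv
  have e1 : ∑ i ∈ Finset.range e', G.coeff (i + 1) * z ^ (i + 1) + G.coeff 0 + c * z ^ j =
      G.coeff 0 + (∑ i ∈ Finset.range e', G.coeff (i + 1) * z ^ (i + 1) + c * z ^ j) := by ring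
  rw [e1, v.map_add_eq_of_lt_left (by rw [hc0]; exact hrest), hc0]


end ValRoot

section EtaSec


open Polynomial

variable {K : Type*} [Field K] {Γ₀ : Type*} [LinearOrderedCommGroupWithZero Γ₀]
  {v : Valuation K Γ₀}

section Eta

variable (B' : Subring K)

/-- Evaluation of polynomials over the subring `B'` at `z`. -/
def ev (z : K) : Polynomial B' →+* K := Polynomial.eval₂RingHom B'.subtype z

theorem ev_apply (z : K) (f : Polynomial B') : ev B' z f = f.eval₂ B'.subtype z := rfl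

theorem ev_C (z : K) (b : B') : ev B' z (C b) = (b : K) := by
  rw [ev_apply, eval₂_C]; rfl

theorem ev_X (z : K) : ev B' z X = z := by
  rw [ev_apply, eval₂_X]

theorem ev_eq_sum (z : K) {e : ℕ} (r : Polynomial B') (hr : r.natDegree < e) :
    ev B' z r = ∑ i ∈ Finset.range e, ((r.coeff i : B') : K) * z ^ i := by
  rw [ev_apply, Polynomial.eval₂_eq_sum_range' _ hr]
  rfl

theorem val_ev_le_one {z : K} (hB : ∀ b ∈ B', v b ≤ 1) (hz : v z ≤ 1) (f : Polynomial B') :
    v (ev B' z f) ≤ 1 := by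
  rw [ev_apply, Polynomial.eval₂_eq_sum_range]
  refine v.map_sum_le fun i _ => ?_
  rw [map_mul, map_pow]
  exact mul_le_one' (hB _ (SetLike.coe_mem _)) (pow_le_one₀ zero_le hz)

variable {B'} {π : K} {e : ℕ} {ϖ ϖ' : K}

theorem EisPres.ev_eq_zero (h : EisPres v B' π e ϖ) (r : Polynomial B') (hr : r.natDegree < e)
    (h0 : ev B' ϖ r = 0) : r = 0 := by
  rw [ev_eq_sum B' ϖ r hr] at h0
  apply Polynomial.ext
  intro i
  rw [coeff_zero]
  by_cases hi : i < e
  · have := h.eq_zero_of_sum_eq_zero (fun i => ((r.coeff i : B') : K))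
      (fun i => SetLike.coe_mem _) h0 i hi
    exact Subtype.ext (this.trans (Subring.coe_zero B').symm)
  · exact Polynomial.coeff_eq_zero_of_natDegree_lt (lt_of_lt_of_le hr (not_lt.mp hi))

theorem EisPres.val_ev_eq (h : EisPres v B' π e ϖ) (hv' : v ϖ' = v ϖ) (r : Polynomial B')
    (hr : r.natDegree < e) : v (ev B' ϖ' r) = v (ev B' ϖ r) := by
  rw [ev_eq_sum B' ϖ' r hr, ev_eq_sum B' ϖ r hr]
  exact h.val_sum_eq hv' _ (fun i => SetLike.coe_mem _)

variable (B' ϖ ϖ') (G₀ : Polynomial B')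

/-- The perturbation map `η : B'[ϖ] → B'[ϖ']`, `∑ a_i ϖ^i ↦ ∑ a_i ϖ'^i` (extended by `0`). -/
noncomputable def eta (x : K) : K :=
  open Classical in
  if hx : ∃ f : Polynomial B', ev B' ϖ f = x then ev B' ϖ' (hx.choose %ₘ G₀) else 0

variable {B' ϖ ϖ' G₀}

theorem natDegree_mod_lt (hm : G₀.Monic) (hdeg : G₀.natDegree = e) (he : 0 < e)
    (f : Polynomial B') : (f %ₘ G₀).natDegree < e := by
  rw [← hdeg]
  apply Polynomial.natDegree_modByMonic_lt f hm
  intro h1
  rw [h1, natDegree_one] at hdeg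
  omega

theorem ev_mod (hroot : ev B' ϖ G₀ = 0) (f : Polynomial B') :
    ev B' ϖ (f %ₘ G₀) = ev B' ϖ f := by
  have := Polynomial.modByMonic_add_div f G₀
  have e1 := congrArg (ev B' ϖ) this
  rw [map_add, map_mul, hroot, zero_mul, add_zero] at e1
  exact e1

theorem EisPres.mod_eq_of_ev_eq (h : EisPres v B' π e ϖ) (hm : G₀.Monic)
    (hdeg : G₀.natDegree = e) (hroot : ev B' ϖ G₀ = 0) {f f' : Polynomial B'}
    (hff : ev B' ϖ f = ev B' ϖ f') : f %ₘ G₀ = f' %ₘ G₀ := by
  rw [← sub_eq_zero]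
  apply h.ev_eq_zero
  · refine lt_of_le_of_lt (Polynomial.natDegree_sub_le _ _) (max_lt ?_ ?_)
    · exact natDegree_mod_lt hm hdeg h.epos f
    · exact natDegree_mod_lt hm hdeg h.epos f'
  · rw [map_sub, ev_mod hroot, ev_mod hroot, hff, sub_self]

theorem EisPres.eta_ev (h : EisPres v B' π e ϖ) (hm : G₀.Monic)
    (hdeg : G₀.natDegree = e) (hroot : ev B' ϖ G₀ = 0) (f : Polynomial B') :
    eta B' ϖ ϖ' G₀ (ev B' ϖ f) = ev B' ϖ' (f %ₘ G₀) := by
  have hx : ∃ f' : Polynomial B', ev B' ϖ f' = ev B' ϖ f := ⟨f, rfl⟩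
  unfold eta
  rw [dif_pos hx]
  rw [h.mod_eq_of_ev_eq hm hdeg hroot hx.choose_spec]

theorem EisPres.eta_add (h : EisPres v B' π e ϖ) (hm : G₀.Monic)
    (hdeg : G₀.natDegree = e) (hroot : ev B' ϖ G₀ = 0) (f g : Polynomial B') :
    eta B' ϖ ϖ' G₀ (ev B' ϖ f + ev B' ϖ g) =
      eta B' ϖ ϖ' G₀ (ev B' ϖ f) + eta B' ϖ ϖ' G₀ (ev B' ϖ g) := by
  rw [← map_add, h.eta_ev hm hdeg hroot, h.eta_ev hm hdeg hroot, h.eta_ev hm hdeg hroot,
    Polynomial.add_modByMonic, map_add]

theorem EisPres.eta_mul (h : EisPres v B' π e ϖ) (hm : G₀.Monic)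
    (hdeg : G₀.natDegree = e) (hroot : ev B' ϖ G₀ = 0) (f g : Polynomial B') :
    ∃ Q : Polynomial B', eta B' ϖ ϖ' G₀ (ev B' ϖ f * ev B' ϖ g) -
      eta B' ϖ ϖ' G₀ (ev B' ϖ f) * eta B' ϖ ϖ' G₀ (ev B' ϖ g) =
      ev B' ϖ' G₀ * ev B' ϖ' Q := by
  rw [← map_mul, h.eta_ev hm hdeg hroot, h.eta_ev hm hdeg hroot, h.eta_ev hm hdeg hroot]
  -- `(f g) % G = ((f % G) (g % G)) % G`
  have e1 : (f * g) %ₘ G₀ = ((f %ₘ G₀) * (g %ₘ G₀)) %ₘ G₀ := by
    apply h.mod_eq_of_ev_eq hm hdeg hroot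
    rw [map_mul, map_mul, ev_mod hroot, ev_mod hroot]
  refine ⟨-(((f %ₘ G₀) * (g %ₘ G₀)) /ₘ G₀), ?_⟩
  have e2 := Polynomial.modByMonic_add_div ((f %ₘ G₀) * (g %ₘ G₀)) G₀
  have e3 := congrArg (ev B' ϖ') e2
  rw [map_add, map_mul, map_mul] at e3
  rw [e1, map_neg]
  linear_combination e3

theorem EisPres.eta_of_mem (h : EisPres v B' π e ϖ) (hm : G₀.Monic)
    (hdeg : G₀.natDegree = e) (hroot : ev B' ϖ G₀ = 0) {b : K} (hb : b ∈ B') :
    eta B' ϖ ϖ' G₀ b = b := by
  have e1 : b = ev B' ϖ (C ⟨b, hb⟩) := (ev_C B' ϖ ⟨b, hb⟩).symm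
  have e2 : (C (⟨b, hb⟩ : B') : Polynomial B') %ₘ G₀ = C ⟨b, hb⟩ := by
    rw [Polynomial.modByMonic_eq_self_iff hm]
    apply lt_of_le_of_lt Polynomial.degree_C_le
    rw [Polynomial.degree_eq_natDegree hm.ne_zero, hdeg]
    exact_mod_cast h.epos
  conv_lhs => rw [e1]
  rw [h.eta_ev hm hdeg hroot, e2, ev_C]

theorem EisPres.val_eta (h : EisPres v B' π e ϖ) (hv' : v ϖ' = v ϖ) (hm : G₀.Monic)
    (hdeg : G₀.natDegree = e) (hroot : ev B' ϖ G₀ = 0) (f : Polynomial B') :
    v (eta B' ϖ ϖ' G₀ (ev B' ϖ f)) = v (ev B' ϖ f) := by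
  rw [h.eta_ev hm hdeg hroot, h.val_ev_eq hv' _ (natDegree_mod_lt hm hdeg h.epos f),
    ev_mod hroot]

end Eta


end EtaSec

section ExistsEta


open Polynomial

variable {K : Type*} [Field K] {Γ₀ : Type*} [LinearOrderedCommGroupWithZero Γ₀]
  {v : Valuation K Γ₀}

/-- Elements with an expansion are values of polynomials over `B'`. -/
theorem exists_ev_eq_of_expansion (B' : Subring K) (ϖ : K) {e : ℕ} {x : K}
    (hx : ∃ a : Fin e → K, (∀ i, a i ∈ B') ∧ x = ∑ i, a i * ϖ ^ (i : ℕ)) :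
    ∃ f : Polynomial B', ev B' ϖ f = x := by
  obtain ⟨a, ha, rfl⟩ := hx
  refine ⟨∑ i : Fin e, C (⟨a i, ha i⟩ : B') * X ^ (i : ℕ), ?_⟩
  rw [map_sum]
  refine Finset.sum_congr rfl fun i _ => ?_
  rw [map_mul, map_pow, ev_C, ev_X]

/-- **ROOT, step R1.**  The perturbation map `η` attached to an Eisenstein presentation
`T = B'[ϖ]`, `G(ϖ) = 0`, and a root `ϖ'` of `G + π X^j`. -/
theorem exists_eta (B' : Subring K) {π : K} {e : ℕ} {ϖ : K} (h : EisPres v B' π e ϖ)
    {G : Polynomial K} (hm : G.Monic) (hdeg : G.natDegree = e) (hG : ∀ i, G.coeff i ∈ B')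
    (hc : ∀ i < e, v (G.coeff i) ≤ v π) (hc0 : v (G.coeff 0) = v π) (hroot : G.eval ϖ = 0)
    {j : ℕ} (hj0 : 0 < j) (hje : j < e) {ϖ' : K} (hroot' : G.eval ϖ' + π * ϖ' ^ j = 0)
    (T : Set K)
    (hT : ∀ x ∈ T, ∃ a : Fin e → K, (∀ i, a i ∈ B') ∧ x = ∑ i, a i * ϖ ^ (i : ℕ)) :
    v ϖ' = v ϖ ∧ ∃ η : K → K,
      (∀ a ∈ T, v (η a) ≤ 1) ∧
      (∀ a ∈ T, ∀ b ∈ T, η (a + b) = η a + η b) ∧
      (∀ a ∈ T, ∀ b ∈ T, v (η (a * b) - η a * η b) ≤ v π * v ϖ ^ j) ∧
      (∀ b ∈ B', η b = b) ∧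
      (∀ a ∈ T, v (η a) = v a) ∧
      (∀ a ∈ T, ∃ f : Polynomial B', η a = ev B' ϖ' f) := by
  have hv' : v ϖ' = v ϖ := by
    have h1 := val_root_pow hm hdeg hc hc0 h.lt_one h.ne_zero hj0 hje le_rfl hroot'
    have h2 : v ϖ' ^ e = v ϖ ^ e := by rw [h1, h.vpow]
    exact (pow_left_inj h.epos.ne').mp h2
  refine ⟨hv', ?_⟩
  -- lift `G` to `B'`
  have hlift : G ∈ Polynomial.lifts B'.subtype := by
    rw [Polynomial.lifts_iff_coeff_lifts]
    intro n
    exact ⟨⟨G.coeff n, hG n⟩, rfl⟩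
  obtain ⟨G₀, hG₀, hdeg₀, hm₀⟩ := Polynomial.lifts_and_natDegree_eq_and_monic hlift hm
  have hdeg₀' : G₀.natDegree = e := hdeg₀.trans hdeg
  have hev : ∀ z, ev B' z G₀ = G.eval z := by
    intro z
    rw [ev_apply, ← hG₀, Polynomial.eval_map]
  have hroot₀ : ev B' ϖ G₀ = 0 := by rw [hev, hroot]
  have hroot₀' : ev B' ϖ' G₀ = -(π * ϖ' ^ j) := by
    rw [hev]
    linear_combination hroot'
  have hTev : ∀ x ∈ T, ∃ f : Polynomial B', ev B' ϖ f = x := fun x hx =>
    exists_ev_eq_of_expansion B' ϖ (hT x hx)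
  have hvϖ' : v ϖ' ≤ 1 := hv' ▸ h.vϖ_le_one
  refine ⟨eta B' ϖ ϖ' G₀, ?_, ?_, ?_, ?_, ?_, ?_⟩
  · intro a ha
    obtain ⟨f, rfl⟩ := hTev a ha
    rw [h.eta_ev hm₀ hdeg₀' hroot₀]
    exact val_ev_le_one B' h.int hvϖ' _
  · intro a ha b hb
    obtain ⟨f, rfl⟩ := hTev a ha
    obtain ⟨g, rfl⟩ := hTev b hb
    exact h.eta_add hm₀ hdeg₀' hroot₀ f g
  · intro a ha b hb
    obtain ⟨f, rfl⟩ := hTev a ha
    obtain ⟨g, rfl⟩ := hTev b hb
    obtain ⟨Q, hQ⟩ := h.eta_mul (ϖ' := ϖ') hm₀ hdeg₀' hroot₀ f g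
    rw [hQ, hroot₀', map_mul, Valuation.map_neg, map_mul, map_pow, hv']
    calc v π * v ϖ ^ j * v (ev B' ϖ' Q) ≤ v π * v ϖ ^ j * 1 :=
          mul_le_mul' le_rfl (val_ev_le_one B' h.int hvϖ' Q)
      _ = v π * v ϖ ^ j := mul_one _
  · intro b hb
    exact h.eta_of_mem hm₀ hdeg₀' hroot₀ hb
  · intro a ha
    obtain ⟨f, rfl⟩ := hTev a ha
    exact h.val_eta hv' hm₀ hdeg₀' hroot₀ f
  · intro a ha
    obtain ⟨f, rfl⟩ := hTev a ha
    exact ⟨_, h.eta_ev hm₀ hdeg₀' hroot₀ f⟩


end ExistsEta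

end Fermat.Agent.S56.H116.Root

end
-- ===== PACK-END S56/H116/RootEta.lean

-- ===== PACK-BEGIN S56/H434/UNorm.lean
section


/-!
# S56 / W2-SS, piece A (helper434): abstract ultrametric "norms" on commutative rings

Mathlib-only.  `UNorm C Γ` is an ultrametric submultiplicative norm on a commutative ring with
values in a linearly ordered commutative group with zero.  The results are

* `UNorm.mul_sub_le_pow_sub_pow` (QLL): if `a ≡ b mod γ` with `γ^(p-1) < π = N p`, `b^p ≡ 1`,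
  then `π * N (a - b) ≤ N (a^p - b^p)`;
* `UNorm.eq_of_pow_eq_one` (LL): `a^p = b^p = 1`, `N (a - b) ≤ γ` implies `a = b`;
* `UNorm.exists_newton` : Newton iteration for `X^p = 1`.
-/

set_option autoImplicit false

namespace Fermat.Agent.S56.H434

/-- An ultrametric, submultiplicative norm on a commutative ring. -/
structure UNorm (C : Type*) [CommRing C] (Γ : Type*) [LinearOrderedCommGroupWithZero Γ] where
  /-- the norm -/
  N : C → Γ
  zero : N 0 = 0
  eq_zero : ∀ a, N a = 0 → a = 0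
  add_le : ∀ a b, N (a + b) ≤ max (N a) (N b)
  neg : ∀ a, N (-a) = N a
  mul_le : ∀ a b, N (a * b) ≤ N a * N b
  one_le : N 1 ≤ 1

/-- In any commutative ring, for a prime `p`, the binomial expansion of `(b + y) ^ p` with the
intermediate terms collected: all the data stay in any subring containing `b` and `y`. -/
theorem add_pow_prime_expand {C : Type*} [CommRing C] {p : ℕ} (hp : p.Prime) (S : Subring C)
    {b y : C} (hb : b ∈ S) (hy : y ∈ S) :
    ∃ w ∈ S, (b + y) ^ p = b ^ p + p * y * b ^ (p - 1) + p * y * (y * w) + y ^ p := by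
  obtain ⟨q, rfl⟩ : ∃ q, p = q + 2 := ⟨p - 2, by have := hp.two_le; omega⟩
  refine ⟨∑ i ∈ Finset.range q,
    y ^ i * b ^ (q - i) * (((q + 2).choose (i + 2) / (q + 2) : ℕ) : C), ?_, ?_⟩
  · exact S.sum_mem fun i _ =>
      S.mul_mem (S.mul_mem (S.pow_mem hy _) (S.pow_mem hb _)) (natCast_mem S _)
  · have key : ∀ i ∈ Finset.range q,
        y ^ (i + 1 + 1) * b ^ (q + 2 - (i + 1 + 1)) * ((q + 2).choose (i + 1 + 1) : C)
          = ((q + 2 : ℕ) : C) * y *
            (y * (y ^ i * b ^ (q - i) * (((q + 2).choose (i + 2) / (q + 2) : ℕ) : C))) := by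
      intro i hi
      have hi' : i < q := Finset.mem_range.mp hi
      have hdvd : (q + 2) ∣ (q + 2).choose (i + 2) :=
        hp.dvd_choose_self (by omega) (by omega)
      obtain ⟨c, hc⟩ := hdvd
      have h1 : (q + 2).choose (i + 1 + 1) = (q + 2) * c := hc
      rw [h1, Nat.mul_div_cancel_left c (by omega : 0 < q + 2),
        show q + 2 - (i + 1 + 1) = q - i by omega]
      push_cast
      ring
    rw [add_comm b y, add_pow, Finset.sum_range_succ, Finset.sum_range_succ',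
      Finset.sum_range_succ', Finset.sum_congr rfl key, ← Finset.mul_sum, ← Finset.mul_sum]
    simp only [zero_add, pow_one, Nat.choose_one_right, Nat.choose_self, Nat.cast_one, mul_one,
      pow_zero, one_mul, Nat.sub_zero, Nat.choose_zero_right, Nat.sub_self]
    push_cast
    ring

namespace UNorm

variable {C : Type*} [CommRing C] {Γ : Type*} [LinearOrderedCommGroupWithZero Γ] (ν : UNorm C Γ)

theorem sub_le (a b : C) : ν.N (a - b) ≤ max (ν.N a) (ν.N b) := by
  rw [sub_eq_add_neg]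
  exact (ν.add_le a (-b)).trans (by rw [ν.neg])

theorem sub_comm (a b : C) : ν.N (a - b) = ν.N (b - a) := by
  rw [← ν.neg (a - b), neg_sub]

theorem add_le_of_le {a b : C} {γ : Γ} (ha : ν.N a ≤ γ) (hb : ν.N b ≤ γ) : ν.N (a + b) ≤ γ :=
  (ν.add_le a b).trans (max_le ha hb)

theorem sub_le_of_le {a b : C} {γ : Γ} (ha : ν.N a ≤ γ) (hb : ν.N b ≤ γ) : ν.N (a - b) ≤ γ :=
  (ν.sub_le a b).trans (max_le ha hb)

theorem neg_le_of_le {a : C} {γ : Γ} (ha : ν.N a ≤ γ) : ν.N (-a) ≤ γ := by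
  rwa [ν.neg]

theorem mul_le_of_le {a b : C} {γ δ : Γ} (ha : ν.N a ≤ γ) (hb : ν.N b ≤ δ) :
    ν.N (a * b) ≤ γ * δ :=
  (ν.mul_le a b).trans (mul_le_mul' ha hb)

theorem mul_le_one {a b : C} (ha : ν.N a ≤ 1) (hb : ν.N b ≤ 1) : ν.N (a * b) ≤ 1 := by
  simpa using ν.mul_le_of_le ha hb

theorem mul_le_left {a b : C} {γ : Γ} (ha : ν.N a ≤ γ) (hb : ν.N b ≤ 1) : ν.N (a * b) ≤ γ := by
  simpa using ν.mul_le_of_le ha hb

theorem mul_le_right {a b : C} {γ : Γ} (ha : ν.N a ≤ 1) (hb : ν.N b ≤ γ) : ν.N (a * b) ≤ γ := by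
  simpa using ν.mul_le_of_le ha hb

theorem pow_le {a : C} {γ : Γ} (ha : ν.N a ≤ γ) (n : ℕ) (hn : n ≠ 0) : ν.N (a ^ n) ≤ γ ^ n := by
  induction n with
  | zero => exact absurd rfl hn
  | succ n ih =>
    rcases Nat.eq_zero_or_pos n with rfl | hpos
    · simpa using ha
    · rw [pow_succ, pow_succ]
      exact ν.mul_le_of_le (ih hpos.ne') ha

theorem pow_le_one {a : C} (ha : ν.N a ≤ 1) (n : ℕ) : ν.N (a ^ n) ≤ 1 := by
  induction n with
  | zero => simpa using ν.one_le
  | succ n ih => rw [pow_succ]; exact ν.mul_le_one ih ha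

theorem sum_le {ι : Type*} (s : Finset ι) (f : ι → C) {γ : Γ} (h : ∀ i ∈ s, ν.N (f i) ≤ γ) :
    ν.N (∑ i ∈ s, f i) ≤ γ := by
  classical
  induction s using Finset.induction_on with
  | empty => simp [ν.zero]
  | insert i s hi ih =>
    rw [Finset.sum_insert hi]
    exact ν.add_le_of_le (h i (Finset.mem_insert_self i s))
      (ih fun j hj => h j (Finset.mem_insert_of_mem hj))

/-- The unit ball of a `UNorm` as a subring. -/
def ball : Subring C where
  carrier := {a | ν.N a ≤ 1}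
  mul_mem' ha hb := ν.mul_le_one ha hb
  one_mem' := ν.one_le
  add_mem' ha hb := ν.add_le_of_le ha hb
  zero_mem' := by simp [ν.zero]
  neg_mem' ha := by simpa [ν.neg] using ha

theorem mem_ball {a : C} : a ∈ ν.ball ↔ ν.N a ≤ 1 := Iff.rfl

theorem natCast_le_one (n : ℕ) : ν.N (n : C) ≤ 1 := natCast_mem ν.ball n

/-- The data making a prime `p` "uniformly of size `π`" in a normed ring. -/
structure PData (p : ℕ) (π : Γ) : Prop where
  prime : p.Prime
  π_le : π ≤ 1
  N_p_mul : ∀ a : C, ν.N ((p : C) * a) = π * ν.N a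

variable {ν} {p : ℕ} {π : Γ}

theorem PData.lt_one_of_pow_lt (hp : ν.PData p π) {γ : Γ} (hγ : γ ^ (p - 1) < π) : γ < 1 := by
  by_contra h
  rw [not_lt] at h
  have : (1 : Γ) ≤ γ ^ (p - 1) := one_le_pow_of_one_le' h _
  exact absurd (hγ.trans_le hp.π_le) (not_lt.mpr this)

/-- **Quantitative lifting lemma.** -/
theorem mul_sub_le_pow_sub_pow (hp : ν.PData p π) {γ : Γ} (hγ : γ ^ (p - 1) < π)
    {a b : C} (hb : ν.N b ≤ 1) (hab : ν.N (a - b) ≤ γ)
    (hb1 : ν.N (b ^ p - 1) < 1) : π * ν.N (a - b) ≤ ν.N (a ^ p - b ^ p) := by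
  have hγ1 : γ < 1 := hp.lt_one_of_pow_lt hγ
  have hπ0 : 0 < π := lt_of_le_of_lt zero_le hγ
  set y := a - b with hy
  have hy1 : ν.N y ≤ 1 := hab.trans hγ1.le
  obtain ⟨w, hw, hexp⟩ := add_pow_prime_expand hp.prime ν.ball (b := b) (y := y) hb hy1
  have hw1 : ν.N w ≤ 1 := hw
  have hbya : b + y = a := by rw [hy]; ring
  rw [hbya] at hexp
  -- the key identity
  have hp1 : p - 1 + 1 = p := Nat.sub_add_cancel hp.prime.one_le
  have hid : (p : C) * y = b * (a ^ p - b ^ p) - (p : C) * (y * (b ^ p - 1))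
      - (p : C) * (y * (b * (y * w))) - b * y ^ p := by
    have hbp : b ^ p = b ^ (p - 1) * b := by rw [← pow_succ, hp1]
    rw [hexp, hbp]
    ring
  rcases eq_or_ne (ν.N y) 0 with h0 | h0
  · rw [h0, mul_zero]; exact zero_le
  have hY : 0 < ν.N y := lt_of_le_of_ne zero_le (Ne.symm h0)
  have hπY : 0 < π * ν.N y := mul_pos hπ0 hY
  by_contra hcon
  rw [not_le] at hcon
  have h1 : ν.N (b * (a ^ p - b ^ p)) < π * ν.N y :=
    lt_of_le_of_lt (ν.mul_le_right hb le_rfl) hcon
  have h2 : ν.N ((p : C) * (y * (b ^ p - 1))) < π * ν.N y := by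
    rw [hp.N_p_mul]
    refine mul_lt_mul_of_pos_left ?_ hπ0
    calc ν.N (y * (b ^ p - 1)) ≤ ν.N y * ν.N (b ^ p - 1) := ν.mul_le _ _
      _ < ν.N y * 1 := mul_lt_mul_of_pos_left hb1 hY
      _ = ν.N y := mul_one _
  have h3 : ν.N ((p : C) * (y * (b * (y * w)))) < π * ν.N y := by
    rw [hp.N_p_mul]
    refine mul_lt_mul_of_pos_left ?_ hπ0
    have : ν.N (b * (y * w)) ≤ γ := ν.mul_le_right hb (ν.mul_le_left hab hw1)
    calc ν.N (y * (b * (y * w))) ≤ ν.N y * ν.N (b * (y * w)) := ν.mul_le _ _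
      _ ≤ ν.N y * γ := mul_le_mul' le_rfl this
      _ < ν.N y * 1 := mul_lt_mul_of_pos_left hγ1 hY
      _ = ν.N y := mul_one _
  have h4 : ν.N (b * y ^ p) < π * ν.N y := by
    have hyp : y ^ p = y ^ (p - 1) * y := by rw [← pow_succ, hp1]
    have hle : ν.N (y ^ (p - 1)) ≤ γ ^ (p - 1) := by
      rcases Nat.eq_zero_or_pos (p - 1) with h | h
      · have := hp.prime.two_le; omega
      · exact ν.pow_le hab _ h.ne'
    calc ν.N (b * y ^ p) ≤ ν.N (y ^ p) := ν.mul_le_right hb le_rfl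
      _ = ν.N (y ^ (p - 1) * y) := by rw [hyp]
      _ ≤ ν.N (y ^ (p - 1)) * ν.N y := ν.mul_le _ _
      _ ≤ γ ^ (p - 1) * ν.N y := mul_le_mul' hle le_rfl
      _ < π * ν.N y := mul_lt_mul_of_pos_right hγ hY
  have hfin : ν.N ((p : C) * y) < π * ν.N y := by
    rw [hid]
    refine lt_of_le_of_lt (ν.sub_le _ _) (max_lt ?_ h4)
    refine lt_of_le_of_lt (ν.sub_le _ _) (max_lt ?_ h3)
    exact lt_of_le_of_lt (ν.sub_le _ _) (max_lt h1 h2)
  rw [hp.N_p_mul] at hfin
  exact lt_irrefl _ hfin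

/-- **Lifting lemma, uniqueness.** Two `p`-th roots of unity which are congruent modulo `γ`
with `γ ^ (p - 1) < π` are equal. -/
theorem eq_of_pow_eq_one (hp : ν.PData p π) {γ : Γ} (hγ : γ ^ (p - 1) < π)
    {a b : C} (hb : ν.N b ≤ 1) (hab : ν.N (a - b) ≤ γ)
    (hap : a ^ p = 1) (hbp : b ^ p = 1) : a = b := by
  have hπ0 : 0 < π := lt_of_le_of_lt zero_le hγ
  have h := mul_sub_le_pow_sub_pow hp hγ hb hab (by rw [hbp, sub_self, ν.zero]; exact one_pos)
  rw [hap, hbp, sub_self, ν.zero] at h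
  have h0 : π * ν.N (a - b) = 0 := le_antisymm h zero_le
  rcases mul_eq_zero.mp h0 with h1 | h1
  · exact absurd h1 hπ0.ne'
  · exact sub_eq_zero.mp (ν.eq_zero _ h1)

/-- One Newton step for `X ^ p = 1`. -/
theorem newton_step (hp : ν.PData p π) (hdiv : ∀ a : C, ∃ z, (p : C) * z = a)
    (S₀ : Subring C) (hS₀ : ∀ a : C, (p : C) * a ∈ S₀ → a ∈ S₀)
    {γ γ' : Γ} (hγ : γ ^ (p - 1) < π) (hγ' : γ' ≤ γ)
    {f : C} (hfS : f ∈ S₀) (hf : ν.N f ≤ 1) (hfp : ν.N (f ^ p - 1) ≤ π * γ') :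
    ∃ g ∈ S₀, ν.N g ≤ 1 ∧ ν.N (g - f) ≤ γ' ∧
      ν.N (g ^ p - 1) ≤ π * γ' * max γ (γ ^ (p - 1) * π⁻¹) := by
  have hγ1 : γ < 1 := hp.lt_one_of_pow_lt hγ
  have hπ0 : 0 < π := lt_of_le_of_lt zero_le hγ
  have hγ'1 : γ' ≤ 1 := hγ'.trans hγ1.le
  have hp1 : p - 1 + 1 = p := Nat.sub_add_cancel hp.prime.one_le
  obtain ⟨z, hz⟩ := hdiv (f ^ p - 1)
  have hzS : z ∈ S₀ := hS₀ z (by rw [hz]; exact S₀.sub_mem (S₀.pow_mem hfS _) S₀.one_mem)
  have hzN : ν.N z ≤ γ' := by
    have : π * ν.N z ≤ π * γ' := by rw [← hp.N_p_mul, hz]; exact hfp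
    exact le_of_mul_le_mul_left this hπ0
  have hz1 : ν.N z ≤ 1 := hzN.trans hγ'1
  have hpz : ν.N ((p : C) * z) ≤ π * γ' := by rw [hz]; exact hfp
  obtain ⟨w, hw, hexp⟩ := add_pow_prime_expand hp.prime ν.ball (b := (1 : C)) (y := -z)
    ν.one_le (by simpa [mem_ball, ν.neg] using hz1)
  have hw1 : ν.N w ≤ 1 := hw
  refine ⟨f * (1 - z), S₀.mul_mem hfS (S₀.sub_mem S₀.one_mem hzS),
    ν.mul_le_one hf (ν.sub_le_of_le ν.one_le hz1), ?_, ?_⟩
  · have : f * (1 - z) - f = -(f * z) := by ring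
    rw [this, ν.neg]
    exact ν.mul_le_right hf hzN
  · have hfp' : f ^ p = 1 + (p : C) * z := by rw [hz]; ring
    have hid : (f * (1 - z)) ^ p - 1 = -((p : C) * z * ((p : C) * z))
        + (1 + (p : C) * z) * ((p : C) * (z * (z * w)) + (-z) ^ p) := by
      rw [mul_pow, hfp', sub_eq_add_neg 1 z, hexp]
      simp only [one_pow, mul_one]
      ring
    rw [hid]
    have hδ1 : π * γ' * γ ≤ π * γ' * max γ (γ ^ (p - 1) * π⁻¹) :=
      mul_le_mul' le_rfl (le_max_left _ _)
    have hδ2 : γ' * γ ^ (p - 1) ≤ π * γ' * max γ (γ ^ (p - 1) * π⁻¹) := by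
      calc γ' * γ ^ (p - 1) = π * γ' * (γ ^ (p - 1) * π⁻¹) := by
            rw [mul_comm π γ', mul_assoc, mul_comm π, mul_assoc, inv_mul_cancel₀ hπ0.ne',
              mul_one]
        _ ≤ π * γ' * max γ (γ ^ (p - 1) * π⁻¹) := mul_le_mul' le_rfl (le_max_right _ _)
    have hA : ν.N ((p : C) * z * ((p : C) * z)) ≤ π * γ' * γ := by
      calc ν.N ((p : C) * z * ((p : C) * z)) ≤ ν.N ((p : C) * z) * ν.N ((p : C) * z) :=
            ν.mul_le _ _
        _ ≤ (π * γ') * γ := by
            refine mul_le_mul' hpz ?_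
            calc ν.N ((p : C) * z) ≤ π * γ' := hpz
              _ ≤ 1 * γ' := mul_le_mul' hp.π_le le_rfl
              _ = γ' := one_mul _
              _ ≤ γ := hγ'
    have hB : ν.N ((p : C) * (z * (z * w))) ≤ π * γ' * γ := by
      rw [hp.N_p_mul, mul_assoc]
      refine mul_le_mul' le_rfl ?_
      calc ν.N (z * (z * w)) ≤ ν.N z * ν.N (z * w) := ν.mul_le _ _
        _ ≤ γ' * γ := mul_le_mul' hzN ((ν.mul_le_left hzN hw1).trans hγ')
    have hC : ν.N ((-z) ^ p) ≤ γ' * γ ^ (p - 1) := by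
      have hzp : (-z) ^ p = (-z) * (-z) ^ (p - 1) := by rw [← pow_succ', hp1]
      have hle : ν.N ((-z) ^ (p - 1)) ≤ γ ^ (p - 1) := by
        rcases Nat.eq_zero_or_pos (p - 1) with h | h
        · have := hp.prime.two_le; omega
        · exact ν.pow_le (by rw [ν.neg]; exact hzN.trans hγ') _ h.ne'
      rw [hzp]
      calc ν.N (-z * (-z) ^ (p - 1)) ≤ ν.N (-z) * ν.N ((-z) ^ (p - 1)) := ν.mul_le _ _
        _ ≤ γ' * γ ^ (p - 1) := mul_le_mul' (by rw [ν.neg]; exact hzN) hle
    have h1pz : ν.N (1 + (p : C) * z) ≤ 1 :=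
      ν.add_le_of_le ν.one_le (ν.mul_le_one (ν.natCast_le_one p) hz1)
    refine ν.add_le_of_le (by rw [ν.neg]; exact hA.trans hδ1) ?_
    refine ν.mul_le_right h1pz ?_
    exact ν.add_le_of_le (hB.trans hδ1) (hC.trans hδ2)

/-- **Newton iteration** for `X ^ p = 1`: an approximate `p`-th root of unity modulo `π γ` can be
improved to arbitrary precision `π γ δ ^ k`, staying congruent modulo `γ`, and staying inside any
subring closed under division by `p`. -/
theorem exists_newton (hp : ν.PData p π) (hdiv : ∀ a : C, ∃ z, (p : C) * z = a)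
    (S₀ : Subring C) (hS₀ : ∀ a : C, (p : C) * a ∈ S₀ → a ∈ S₀)
    {γ : Γ} (hγ : γ ^ (p - 1) < π)
    {f : C} (hfS : f ∈ S₀) (hf : ν.N f ≤ 1) (hfp : ν.N (f ^ p - 1) ≤ π * γ) (k : ℕ) :
    ∃ g ∈ S₀, ν.N g ≤ 1 ∧ ν.N (g - f) ≤ γ ∧
      ν.N (g ^ p - 1) ≤ π * γ * max γ (γ ^ (p - 1) * π⁻¹) ^ k := by
  have hγ1 : γ < 1 := hp.lt_one_of_pow_lt hγ
  have hπ0 : 0 < π := lt_of_le_of_lt zero_le hγ
  have hδ : max γ (γ ^ (p - 1) * π⁻¹) ≤ 1 := by
    refine max_le hγ1.le ?_
    calc γ ^ (p - 1) * π⁻¹ ≤ π * π⁻¹ := mul_le_mul' hγ.le le_rfl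
      _ = 1 := mul_inv_cancel₀ hπ0.ne'
  induction k with
  | zero => exact ⟨f, hfS, hf, by simp [ν.zero], by simpa using hfp⟩
  | succ k ih =>
    obtain ⟨g, hgS, hg1, hgf, hgp⟩ := ih
    have hγ' : γ * max γ (γ ^ (p - 1) * π⁻¹) ^ k ≤ γ := by
      calc γ * max γ (γ ^ (p - 1) * π⁻¹) ^ k ≤ γ * 1 :=
            mul_le_mul' le_rfl (pow_le_one' hδ k)
        _ = γ := mul_one _
    obtain ⟨g', hg'S, hg'1, hg'g, hg'p⟩ := newton_step hp hdiv S₀ hS₀ hγ hγ' hgS hg1
      (by rw [← mul_assoc]; exact hgp)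
    refine ⟨g', hg'S, hg'1, ?_, ?_⟩
    · have : g' - f = (g' - g) + (g - f) := by ring
      rw [this]
      exact ν.add_le_of_le (hg'g.trans hγ') hgf
    · rw [pow_succ, ← mul_assoc]
      rw [← mul_assoc] at hg'p
      exact hg'p

end UNorm

end Fermat.Agent.S56.H434

end
-- ===== PACK-END S56/H434/UNorm.lean

-- ===== PACK-BEGIN S56/H734/KumCount.lean
section


/-!
# S56 / FLAT-O, leaf KUM (helper734), part 1: fixed points of a `p`-semilinear map

`κ` a field, `V` a finite-dimensional `κ`-vector space, `T : V →+ V` additive with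
`T (a • x) = a ^ p • T x`, `1 < p`.  Then `T` has at most `p ^ dim V` fixed points
(`card_fixed_le`).  (Lang's count; only the upper bound, no characteristic assumption.)
-/

set_option autoImplicit false
set_option linter.style.haveILetI false

namespace Fermat.Agent.S56.H734

open Polynomial

/-- The solutions of `a ^ p = a` in a field: at most `p` of them. -/
theorem card_pow_eq_self_le {κ : Type*} [Field κ] {p : ℕ} (hp : 1 < p) :
    Finite {a : κ // a ^ p = a} ∧ Nat.card {a : κ // a ^ p = a} ≤ p := by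
  classical
  have hne : (X ^ p - X : κ[X]) ≠ 0 := FiniteField.X_pow_card_sub_X_ne_zero κ hp
  have hdeg : (X ^ p - X : κ[X]).natDegree = p := FiniteField.X_pow_card_sub_X_natDegree_eq κ hp
  have hsub : {a : κ | a ^ p = a} ⊆ ((X ^ p - X : κ[X]).roots.toFinset : Set κ) := by
    intro a ha
    simp only [Finset.mem_coe, Multiset.mem_toFinset, mem_roots hne, IsRoot.def, eval_sub,
      eval_pow, eval_X]
    rw [Set.mem_ofPred_eq] at ha
    rw [ha, sub_self]
  have hfin : {a : κ | a ^ p = a}.Finite := (Finset.finite_toSet _).subset hsub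
  refine ⟨hfin.to_subtype, ?_⟩
  have h1 : Nat.card {a : κ // a ^ p = a} = {a : κ | a ^ p = a}.ncard := rfl
  rw [h1]
  calc {a : κ | a ^ p = a}.ncard
      ≤ ((X ^ p - X : κ[X]).roots.toFinset : Set κ).ncard :=
        Set.ncard_le_ncard hsub (Finset.finite_toSet _)
    _ = (X ^ p - X : κ[X]).roots.toFinset.card := Set.ncard_coe_finset _
    _ ≤ Multiset.card (X ^ p - X : κ[X]).roots := Multiset.toFinset_card_le _
    _ ≤ (X ^ p - X : κ[X]).natDegree := card_roots' _
    _ = p := hdeg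

/-- **Lang's count, upper bound.**  A `p`-semilinear additive endomorphism of a
finite-dimensional vector space has at most `p ^ dim` fixed points. -/
theorem card_fixed_le {κ V : Type*} [Field κ] [AddCommGroup V] [Module κ V]
    [Module.Finite κ V] {p : ℕ} (hp : 1 < p) (T : V →+ V)
    (hT : ∀ (a : κ) (x : V), T (a • x) = a ^ p • T x) :
    Finite {x : V // T x = x} ∧ Nat.card {x : V // T x = x} ≤ p ^ Module.finrank κ V := by
  classical
  obtain ⟨b, hbS, hspan, hli⟩ := exists_linearIndependent κ {x : V | T x = x}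
  haveI : Finite b := hli.finite
  haveI : Fintype b := Fintype.ofFinite b
  have hcard : Fintype.card b ≤ Module.finrank κ V := hli.fintype_card_le_finrank
  obtain ⟨hRfin, hRcard⟩ := card_pow_eq_self_le (κ := κ) hp
  haveI := hRfin
  -- coefficients of a fixed point
  have hrep : ∀ x : {x : V // T x = x}, ∃ l : b → {a : κ // a ^ p = a},
      ∑ i, (l i : κ) • (i : V) = (x : V) := by
    rintro ⟨x, hx⟩
    have hxs : x ∈ Submodule.span κ (Set.range (Subtype.val : b → V)) := by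
      rw [Subtype.range_coe, hspan]
      exact Submodule.subset_span hx
    obtain ⟨c, hc⟩ := (Submodule.mem_span_range_iff_exists_fun κ).mp hxs
    have hTx : T x = ∑ i, (c i) ^ p • (i : V) := by
      rw [← hc, map_sum]
      refine Finset.sum_congr rfl fun i _ => ?_
      rw [hT, (hbS i.2 : T (i : V) = (i : V))]
    have hzero : ∑ i, ((c i) ^ p - c i) • (i : V) = 0 := by
      simp only [sub_smul, Finset.sum_sub_distrib]
      rw [← hTx, hc, hx, sub_self]
    have hci := Fintype.linearIndependent_iff.mp hli _ hzero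
    refine ⟨fun i => ⟨c i, sub_eq_zero.mp (hci i)⟩, hc⟩
  choose l hl using hrep
  have hinj : Function.Injective l := by
    intro x y hxy
    apply Subtype.ext
    rw [← hl x, ← hl y, hxy]
  haveI : Finite {x : V // T x = x} := Finite.of_injective l hinj
  refine ⟨inferInstance, ?_⟩
  have hR1 : 0 < Nat.card {a : κ // a ^ p = a} :=
    Nat.card_pos_iff.mpr ⟨⟨⟨0, zero_pow (by omega)⟩⟩, hRfin⟩
  calc Nat.card {x : V // T x = x}
      ≤ Nat.card (b → {a : κ // a ^ p = a}) := Nat.card_le_card_of_injective l hinj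
    _ = Nat.card {a : κ // a ^ p = a} ^ Fintype.card b := by
        rw [Nat.card_fun, Nat.card_eq_fintype_card (α := b)]
    _ ≤ p ^ Fintype.card b := Nat.pow_le_pow_left hRcard _
    _ ≤ p ^ Module.finrank κ V := Nat.pow_le_pow_right (by omega) hcard

end Fermat.Agent.S56.H734

end
-- ===== PACK-END S56/H734/KumCount.lean

-- ===== PACK-BEGIN S56/H726/Mat2.lean
section


/-!
# S56 / P3(b) — `2 × 2` matrix identities (helper726)

Elementary identities for `2 × 2` matrices over a field used in the classification-free proof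
of `H¹(Gal(F_n/ℚ), ad⁰ρ̄(1)) = 0`.
-/

set_option autoImplicit false

namespace Fermat.Agent.S56.H726

open Matrix

variable {k : Type*} [Field k]

/-- Cayley–Hamilton for `2 × 2` matrices. -/
theorem m2_sq (B : Matrix (Fin 2) (Fin 2) k) :
    B * B = B.trace • B - B.det • (1 : Matrix (Fin 2) (Fin 2) k) := by
  ext i j
  fin_cases i <;> fin_cases j <;>
    simp [Matrix.mul_apply, Fin.sum_univ_two, Matrix.trace_fin_two, Matrix.det_fin_two] <;> ring

/-- Polarised Cayley–Hamilton for `2 × 2` matrices. -/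
theorem m2_polar (X Y : Matrix (Fin 2) (Fin 2) k) :
    X * Y + Y * X = X.trace • Y + Y.trace • X +
      ((X * Y).trace - X.trace * Y.trace) • (1 : Matrix (Fin 2) (Fin 2) k) := by
  ext i j
  fin_cases i <;> fin_cases j <;>
    simp [Matrix.mul_apply, Fin.sum_univ_two, Matrix.trace_fin_two] <;> ring

/-- The inverse of a matrix of determinant one. -/
theorem m2_inv_of_det_one {B B' : Matrix (Fin 2) (Fin 2) k} (hdet : B.det = 1)
    (h : B * B' = 1) : B' = B.trace • (1 : Matrix (Fin 2) (Fin 2) k) - B := by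
  have h1 : B * (B.trace • (1 : Matrix (Fin 2) (Fin 2) k) - B) = 1 := by
    rw [mul_sub, m2_sq, hdet]
    simp
  have h2 : B' * B = 1 := mul_eq_one_comm.mp h
  calc B' = B' * (B * (B.trace • (1 : Matrix (Fin 2) (Fin 2) k) - B)) := by rw [h1, mul_one]
    _ = (B' * B) * (B.trace • (1 : Matrix (Fin 2) (Fin 2) k) - B) := by rw [mul_assoc]
    _ = _ := by rw [h2, one_mul]

/-- `B + B⁻¹ = tr B` for `det B = 1`. -/
theorem m2_add_inv {B B' : Matrix (Fin 2) (Fin 2) k} (hdet : B.det = 1)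
    (h : B * B' = 1) : B + B' = B.trace • (1 : Matrix (Fin 2) (Fin 2) k) := by
  rw [m2_inv_of_det_one hdet h]; abel

/-- `Z - B⁻¹ Z B⁻¹ = tr(Z) • 1` when `tr (Z B⁻¹) = 0`, `det B = 1`. -/
theorem m2_sub_conj {B B' Z : Matrix (Fin 2) (Fin 2) k} (hdet : B.det = 1)
    (h : B * B' = 1) (hZ : (Z * B').trace = 0) :
    Z - B' * Z * B' = Z.trace • (1 : Matrix (Fin 2) (Fin 2) k) := by
  have h2 : B' * B = 1 := mul_eq_one_comm.mp h
  have hYB : Z * B' * B = Z := by rw [mul_assoc, h2, mul_one]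
  have hB' := m2_inv_of_det_one hdet h
  have hpol := m2_polar B (Z * B')
  have htr : (B * (Z * B')).trace = Z.trace := by rw [Matrix.trace_mul_comm, hYB]
  rw [hZ, htr, hYB] at hpol
  have e1 : B' * Z * B' = B.trace • (Z * B') - B * (Z * B') := by
    rw [mul_assoc]; nth_rewrite 1 [hB']; rw [sub_mul, smul_mul_assoc, one_mul]
  rw [e1]
  linear_combination (norm := module) hpol

/-- `n X n = tr(n X) • n` for a nilpotent `2 × 2` matrix `n` (`n² = 0`, `tr n = 0`). -/
theorem m2_nil_sandwich {n : Matrix (Fin 2) (Fin 2) k} (hn : n * n = 0) (htr : n.trace = 0)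
    (X : Matrix (Fin 2) (Fin 2) k) : n * X * n = (n * X).trace • n := by
  have hpol := m2_polar n (X * n)
  have h1 : X * n * n = 0 := by rw [mul_assoc, hn, mul_zero]
  have h2 : (n * (X * n)).trace = 0 := by
    rw [Matrix.trace_mul_comm, h1, Matrix.trace_zero]
  rw [h1, add_zero, htr, h2, Matrix.trace_mul_comm X n] at hpol
  rw [mul_assoc, hpol]
  module

/-- A square-zero `2 × 2` matrix has trace zero. -/
theorem m2_trace_of_sq_zero {n : Matrix (Fin 2) (Fin 2) k} (hn : n * n = 0) : n.trace = 0 := by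
  have h := m2_sq n
  rw [hn] at h
  have hdet : n.det = 0 := by
    have : (n * n).det = 0 := by rw [hn]; simp
    rw [Matrix.det_mul] at this
    exact mul_self_eq_zero.mp this
  rw [hdet, zero_smul, sub_zero] at h
  by_contra ht
  have hn0 : n = 0 := by
    have := h.symm
    rcases smul_eq_zero.mp this with h' | h'
    · exact absurd h' ht
    · exact h'
  exact ht (by rw [hn0, Matrix.trace_zero])

/-- Nondegeneracy of the trace form on `2 × 2` matrices. -/
theorem m2_eq_zero_of_trace_mul {Y : Matrix (Fin 2) (Fin 2) k}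
    (h : ∀ X : Matrix (Fin 2) (Fin 2) k, (X * Y).trace = 0) : Y = 0 := by
  ext i j
  have key : (Matrix.single j i (1 : k) * Y).trace = Y i j := by
    fin_cases i <;> fin_cases j <;>
      simp [Matrix.trace_fin_two, Matrix.mul_apply, Fin.sum_univ_two, Matrix.single_apply]
  rw [← key, h]; rfl

end Fermat.Agent.S56.H726

end
-- ===== PACK-END S56/H726/Mat2.lean

-- ===== PACK-BEGIN S56/H726/Seq.lean
section


/-!
# S56 / P3(b) — the second order recurrence (helper726)

Pure algebra over a field `k` of characteristic `p`: sequences `F : ℕ → k` with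
`F (j+2) - 2 F (j+1) + F j = μ (t₀ + (j+1) c)` which vanish whenever `(t₀ + j c)² ≠ 4`.
-/

set_option autoImplicit false

namespace Fermat.Agent.S56.H726

open Polynomial

variable {k : Type*} [Field k]

/-- Small natural numbers are nonzero in characteristic `p`. -/
theorem natCast_ne_zero_of_lt (p : ℕ) [CharP k p] {n : ℕ} (h0 : n ≠ 0) (hn : n < p) :
    (n : k) ≠ 0 := by
  intro h
  have := (CharP.cast_eq_zero_iff k p n).mp h
  exact absurd (Nat.le_of_dvd (Nat.pos_of_ne_zero h0) this) (not_le.mpr hn)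

/-- The case `p = 3`. -/
theorem seq_three [CharP k 3] (F : ℕ → k) (μ t₀ c : k)
    (hrec : ∀ j : ℕ, F (j + 2) - 2 * F (j + 1) + F j = μ * (t₀ + ((j : k) + 1) * c))
    (hper : ∀ j, F (j + 3) = F j) : μ * c = 0 := by
  have h3 : (3 : k) = 0 := by
    have := CharP.cast_eq_zero k 3
    exact_mod_cast this
  have e0 := hrec 0
  have e1 := hrec 1
  have e3 := hper 0
  simp only [zero_add, Nat.cast_zero, Nat.cast_one] at e0 e1 e3
  norm_num at e0 e1
  rw [e3] at e1
  linear_combination e0 - e1 + (F 1 - F 2) * h3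

/-- The cubic polynomial interpolating the sequence. -/
noncomputable def seqPoly (A B μ t₀ c : k) : k[X] :=
  C A + C B * X + C (μ * t₀ / 2) * (X * (X - 1)) + C (μ * c / 6) * ((X + 1) * X * (X - 1))

theorem seqPoly_eval (A B μ t₀ c x : k) :
    (seqPoly A B μ t₀ c).eval x =
      A + B * x + (μ * t₀ / 2) * (x * (x - 1)) + (μ * c / 6) * ((x + 1) * x * (x - 1)) := by
  simp [seqPoly]

theorem seqPoly_natDegree_le (A B μ t₀ c : k) : (seqPoly A B μ t₀ c).natDegree ≤ 3 := by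
  unfold seqPoly
  compute_degree

/-- The sequence is given by the cubic polynomial. -/
theorem seq_eq_eval (h2 : (2 : k) ≠ 0) (h6 : (6 : k) ≠ 0) (F : ℕ → k) (μ t₀ c : k)
    (hrec : ∀ j : ℕ, F (j + 2) - 2 * F (j + 1) + F j = μ * (t₀ + ((j : k) + 1) * c)) :
    ∀ j : ℕ, F j = (seqPoly (F 0) (F 1 - F 0) μ t₀ c).eval (j : k) := by
  have key : ∀ j : ℕ, F j = (seqPoly (F 0) (F 1 - F 0) μ t₀ c).eval (j : k) ∧
      F (j + 1) = (seqPoly (F 0) (F 1 - F 0) μ t₀ c).eval ((j + 1 : ℕ) : k) := by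
    intro j
    induction j with
    | zero =>
      refine ⟨?_, ?_⟩
      · simp [seqPoly_eval]
      · simp [seqPoly_eval]
    | succ j ih =>
      refine ⟨ih.2, ?_⟩
      have hr := hrec j
      have e : F (j + 1 + 1) = 2 * F (j + 1) - F j + μ * (t₀ + ((j : k) + 1) * c) := by
        linear_combination hr
      rw [e, ih.1, ih.2]
      simp only [seqPoly_eval]
      push_cast
      field_simp
      ring
  exact fun j => (key j).1

/-- The case `p ≥ 7`. -/
theorem seq_cubic (p : ℕ) [Fact p.Prime] [CharP k p] (hp : 7 ≤ p)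
    (F : ℕ → k) (μ t₀ c : k)
    (hrec : ∀ j : ℕ, F (j + 2) - 2 * F (j + 1) + F j = μ * (t₀ + ((j : k) + 1) * c))
    (hvan : ∀ j : ℕ, (t₀ + (j : k) * c) ^ 2 ≠ 4 → F j = 0) : μ * c = 0 := by
  have h2 : (2 : k) ≠ 0 := by
    have := natCast_ne_zero_of_lt (k := k) p (n := 2) (by norm_num) (by omega)
    exact_mod_cast this
  have h6 : (6 : k) ≠ 0 := by
    have := natCast_ne_zero_of_lt (k := k) p (n := 6) (by norm_num) (by omega)
    exact_mod_cast this
  have hF := seq_eq_eval h2 h6 F μ t₀ c hrec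
  have hPdeg := seqPoly_natDegree_le (F 0) (F 1 - F 0) μ t₀ c
  generalize seqPoly (F 0) (F 1 - F 0) μ t₀ c = P at hF hPdeg
  set R : k[X] := (C t₀ + C c * X) ^ 2 - C 4 with hR
  have hRdeg : R.natDegree ≤ 2 := by
    rw [hR]; compute_degree
  have hReval : ∀ x : k, R.eval x = (t₀ + x * c) ^ 2 - 4 := by
    intro x
    rw [hR]
    simp only [Polynomial.eval_sub, Polynomial.eval_pow, Polynomial.eval_add,
      Polynomial.eval_mul, Polynomial.eval_C, Polynomial.eval_X]
    ring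
  have hQdeg : (P * R).natDegree ≤ 5 :=
    (Polynomial.natDegree_mul_le).trans (by omega)
  have hinj : Function.Injective (fun i : Fin p => ((i : ℕ) : k)) := by
    intro i j hij
    have := (CharP.natCast_eq_natCast k p).mp hij
    apply Fin.ext
    have hi := Nat.mod_eq_of_lt i.isLt
    have hj := Nat.mod_eq_of_lt j.isLt
    unfold Nat.ModEq at this
    omega
  have heval : ∀ i : Fin p, (P * R).eval ((i : ℕ) : k) = 0 := by
    intro i
    rw [Polynomial.eval_mul]
    by_cases h : (t₀ + ((i : ℕ) : k) * c) ^ 2 = 4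
    · rw [hReval, h, sub_self, mul_zero]
    · rw [← hF, hvan _ h, zero_mul]
  have hQ : P * R = 0 :=
    Polynomial.eq_zero_of_natDegree_lt_card_of_eval_eq_zero _ hinj heval (by
      rw [Fintype.card_fin]; omega)
  rcases mul_eq_zero.mp hQ with hP0 | hR0
  · have hF0 : ∀ j, F j = 0 := fun j => by rw [hF j, hP0, Polynomial.eval_zero]
    have e0 := hrec 0
    have e1 := hrec 1
    simp only [hF0, Nat.cast_zero, Nat.cast_one] at e0 e1
    linear_combination e0 - e1
  · have r0 : R.eval 0 = 0 := by rw [hR0, Polynomial.eval_zero]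
    have r1 : R.eval 1 = 0 := by rw [hR0, Polynomial.eval_zero]
    have r2 : R.eval 2 = 0 := by rw [hR0, Polynomial.eval_zero]
    rw [hReval] at r0 r1 r2
    have hc2 : 2 * c ^ 2 = 0 := by linear_combination r2 - 2 * r1 + r0
    have hc : c = 0 := by
      rcases mul_eq_zero.mp hc2 with h | h
      · exact absurd h h2
      · exact pow_eq_zero_iff (by norm_num) |>.mp h
    rw [hc, mul_zero]

/-- The case `p = 5` (with `t₀ = 2`). -/
theorem seq_five [CharP k 5] (F : ℕ → k) (μ e : k)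
    (hrec : ∀ j : ℕ, F (j + 2) - 2 * F (j + 1) + F j = μ * (2 + ((j : k) + 1) * e))
    (hper : ∀ j, F (j + 5) = F j)
    (hvan : ∀ j : ℕ, (2 + (j : k) * e) ^ 2 ≠ 4 → F j = 0)
    (he : e ≠ 0) (hμ : μ ≠ 0) : F 0 = μ ∨ F 0 = -μ := by
  have h5 : (5 : k) = 0 := by
    have := CharP.cast_eq_zero k 5
    exact_mod_cast this
  have n1 : (1 : k) ≠ 0 := one_ne_zero
  have n2 : (2 : k) ≠ 0 := by
    have := natCast_ne_zero_of_lt (k := k) 5 (n := 2) (by norm_num) (by norm_num)
    exact_mod_cast this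
  have n3 : (3 : k) ≠ 0 := by
    have := natCast_ne_zero_of_lt (k := k) 5 (n := 3) (by norm_num) (by norm_num)
    exact_mod_cast this
  have n4 : (4 : k) ≠ 0 := by
    have := natCast_ne_zero_of_lt (k := k) 5 (n := 4) (by norm_num) (by norm_num)
    exact_mod_cast this
  -- vanishing criterion
  have van : ∀ j : ℕ, (j : k) ≠ 0 → (j : k) * e ≠ 1 → F j = 0 := by
    intro j hj hje
    apply hvan
    intro h
    have : (j : k) * e * ((j : k) * e - 1) = 0 := by
      linear_combination h - (j : k) * e * h5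
    rcases mul_eq_zero.mp this with h' | h'
    · exact (mul_ne_zero hj he) h'
    · exact hje (sub_eq_zero.mp h')
  have e0 := hrec 0
  have e1 := hrec 1
  have e2 := hrec 2
  have e3 := hrec 3
  have p0 := hper 0
  simp only [zero_add, Nat.cast_zero, Nat.cast_one, Nat.cast_ofNat] at e0 e1 e2 e3 p0
  norm_num at e0 e1 e2 e3
  rw [p0] at e3
  have v1 := van 1
  have v2 := van 2
  have v3 := van 3
  have v4 := van 4
  simp only [Nat.cast_one, Nat.cast_ofNat, one_mul] at v1 v2 v3 v4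
  by_cases c1 : e = 1
  · -- m = 1
    have f2 : F 2 = 0 := v2 n2 (by rw [c1]; intro h; apply n1; linear_combination h)
    have f3 : F 3 = 0 := v3 n3 (by rw [c1]; intro h; apply n2; linear_combination h)
    have f4 : F 4 = 0 := v4 n4 (by rw [c1]; intro h; apply n3; linear_combination h)
    left
    rw [f2, f3] at e1
    rw [f2] at e0
    rw [c1] at e0 e1
    linear_combination e0 + 2 * e1 + 2 * μ * h5
  by_cases c2 : 2 * e = 1
  · have f1 : F 1 = 0 := v1 n1 c1
    have f3 : F 3 = 0 := v3 n3 (by intro h; apply he; linear_combination h - c2)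
    have f4 : F 4 = 0 := v4 n4 (by intro h; apply n1; linear_combination h - 2 * c2)
    right
    rw [f3, f4] at e3
    linear_combination e3 + 2 * μ * c2 + μ * h5
  by_cases c3 : 3 * e = 1
  · have f1 : F 1 = 0 := v1 n1 c1
    have f2 : F 2 = 0 := v2 n2 c2
    right
    rw [f1, f2] at e0
    -- e = 2 : from 3 e = 1, 6 e = 2, e = 2
    linear_combination e0 + 2 * μ * c3 + μ * (1 - e) * h5
  by_cases c4 : 4 * e = 1
  · have f1 : F 1 = 0 := v1 n1 c1
    have f2 : F 2 = 0 := v2 n2 c2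
    left
    rw [f1, f2] at e0
    -- e = -1 = 4
    linear_combination e0 - μ * c4 + μ * e * h5
  · exfalso
    have f1 : F 1 = 0 := v1 n1 c1
    have f2 : F 2 = 0 := v2 n2 c2
    have f3 : F 3 = 0 := v3 n3 c3
    rw [f1, f2, f3] at e1
    have : μ * (2 + 2 * e) = 0 := by linear_combination -e1
    rcases mul_eq_zero.mp this with h | h
    · exact hμ h
    · apply c4
      linear_combination 2 * h - h5

end Fermat.Agent.S56.H726

end
-- ===== PACK-END S56/H726/Seq.lean

-- ===== PACK-BEGIN S56/H794/DualEnd.lean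
section


/-!
# S56 / LOC-MIN (helper794): endomorphisms of `k[ε] ⊗ V`

`dualEnd A B = A ⊗ 1 + ε • (B ⊗ 1)` for `A B : End_k V`.  This is an injective map
`End_k V × End_k V → End_{k[ε]} (k[ε] ⊗_k V)` with
`dualEnd A B * dualEnd A' B' = dualEnd (A A') (A B' + B A')`.
-/

set_option autoImplicit false

open scoped TensorProduct

noncomputable section

namespace Fermat.Agent.S56.H794

variable {k : Type*} [Field k] {V : Type*} [AddCommGroup V] [Module k V]

/-- `A ⊗ 1 + ε • (B ⊗ 1)` as an endomorphism of `k[ε] ⊗ V`. -/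
def dualEnd (A B : Module.End k V) : Module.End (DualNumber k) (DualNumber k ⊗[k] V) :=
  A.baseChange (DualNumber k) + (DualNumber.eps : DualNumber k) • B.baseChange (DualNumber k)

theorem dualEnd_apply_tmul (A B : Module.End k V) (x : DualNumber k) (v : V) :
    dualEnd A B (x ⊗ₜ[k] v) = x ⊗ₜ[k] A v + (DualNumber.eps * x) ⊗ₜ[k] B v := by
  simp only [dualEnd, LinearMap.add_apply, LinearMap.smul_apply, LinearMap.baseChange_tmul,
    TensorProduct.smul_tmul', smul_eq_mul]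

theorem dualEnd_ext {f g : Module.End (DualNumber k) (DualNumber k ⊗[k] V)}
    (h : ∀ (x : DualNumber k) (v : V), f (x ⊗ₜ[k] v) = g (x ⊗ₜ[k] v)) : f = g := by
  apply LinearMap.ext
  intro w
  induction w using TensorProduct.induction_on with
  | zero => simp only [map_zero]
  | tmul x v => exact h x v
  | add x y hx hy => rw [map_add, map_add, hx, hy]

theorem dualEnd_one_zero : dualEnd (1 : Module.End k V) 0 = 1 := by
  apply dualEnd_ext
  intro x v
  rw [dualEnd_apply_tmul, Module.End.one_apply, Module.End.one_apply, LinearMap.zero_apply,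
    TensorProduct.tmul_zero, add_zero]

theorem dualEnd_zero_zero : dualEnd (0 : Module.End k V) 0 = 0 := by
  apply dualEnd_ext
  intro x v
  rw [dualEnd_apply_tmul, LinearMap.zero_apply, LinearMap.zero_apply,
    TensorProduct.tmul_zero, TensorProduct.tmul_zero, add_zero]

theorem dualEnd_add (A B A' B' : Module.End k V) :
    dualEnd A B + dualEnd A' B' = dualEnd (A + A') (B + B') := by
  apply dualEnd_ext
  intro x v
  rw [LinearMap.add_apply, dualEnd_apply_tmul, dualEnd_apply_tmul, dualEnd_apply_tmul,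
    LinearMap.add_apply, LinearMap.add_apply, TensorProduct.tmul_add, TensorProduct.tmul_add]
  abel

theorem dualEnd_sub (A B A' B' : Module.End k V) :
    dualEnd A B - dualEnd A' B' = dualEnd (A - A') (B - B') := by
  apply dualEnd_ext
  intro x v
  rw [LinearMap.sub_apply, dualEnd_apply_tmul, dualEnd_apply_tmul, dualEnd_apply_tmul,
    LinearMap.sub_apply, LinearMap.sub_apply, TensorProduct.tmul_sub, TensorProduct.tmul_sub]
  abel

theorem dualEnd_mul (A B A' B' : Module.End k V) :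
    dualEnd A B * dualEnd A' B' = dualEnd (A * A') (A * B' + B * A') := by
  apply dualEnd_ext
  intro x v
  rw [Module.End.mul_apply, dualEnd_apply_tmul, map_add, dualEnd_apply_tmul,
    dualEnd_apply_tmul, dualEnd_apply_tmul]
  have h0 : (DualNumber.eps : DualNumber k) * (DualNumber.eps * x) = 0 := by
    rw [← mul_assoc, DualNumber.eps_mul_eps, zero_mul]
  rw [h0, TensorProduct.zero_tmul, add_zero, Module.End.mul_apply, LinearMap.add_apply,
    Module.End.mul_apply, Module.End.mul_apply, TensorProduct.tmul_add]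
  abel

/-- The `k`-linear projection `k[ε] ⊗ V → V` onto the constant part. -/
def dualFst : (DualNumber k ⊗[k] V) →ₗ[k] V :=
  (TensorProduct.lid k V).toLinearMap ∘ₗ
    LinearMap.rTensor V (TrivSqZeroExt.fstHom k k k).toLinearMap

/-- The `k`-linear projection `k[ε] ⊗ V → V` onto the `ε`-part. -/
def dualSnd : (DualNumber k ⊗[k] V) →ₗ[k] V :=
  (TensorProduct.lid k V).toLinearMap ∘ₗ
    LinearMap.rTensor V (TrivSqZeroExt.sndHom k k)

theorem dualFst_tmul (x : DualNumber k) (v : V) :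
    dualFst (x ⊗ₜ[k] v) = TrivSqZeroExt.fst x • v := by
  simp [dualFst]

theorem dualSnd_tmul (x : DualNumber k) (v : V) :
    dualSnd (x ⊗ₜ[k] v) = TrivSqZeroExt.snd x • v := by
  simp [dualSnd]

theorem dualFst_dualEnd (A B : Module.End k V) (v : V) :
    dualFst (dualEnd A B ((1 : DualNumber k) ⊗ₜ[k] v)) = A v := by
  rw [dualEnd_apply_tmul, map_add, dualFst_tmul, dualFst_tmul]
  simp

theorem dualSnd_dualEnd (A B : Module.End k V) (v : V) :
    dualSnd (dualEnd A B ((1 : DualNumber k) ⊗ₜ[k] v)) = B v := by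
  rw [dualEnd_apply_tmul, map_add, dualSnd_tmul, dualSnd_tmul]
  simp

theorem dualEnd_injective {A B A' B' : Module.End k V} (h : dualEnd A B = dualEnd A' B') :
    A = A' ∧ B = B' := by
  constructor
  · apply LinearMap.ext
    intro v
    rw [← dualFst_dualEnd A B v, h, dualFst_dualEnd]
  · apply LinearMap.ext
    intro v
    rw [← dualSnd_dualEnd A B v, h, dualSnd_dualEnd]

theorem dualEnd_eq_zero {A B : Module.End k V} (h : dualEnd A B = 0) : A = 0 ∧ B = 0 := by
  rw [← dualEnd_zero_zero] at h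
  exact dualEnd_injective h

theorem dualEnd_eq_one {A B : Module.End k V} (h : dualEnd A B = 1) : A = 1 ∧ B = 0 := by
  rw [← dualEnd_one_zero] at h
  exact dualEnd_injective h

/-- `(1 + N) ^ n = 1 + n • N` when `N ^ 2 = 0`. -/
theorem one_add_pow_of_sq_zero {R : Type*} [Ring R] (N : R) (hN : N * N = 0) (n : ℕ) :
    (1 + N) ^ n = 1 + n • N := by
  induction n with
  | zero => simp
  | succ n ih =>
    rw [pow_succ, ih, add_mul, mul_add, mul_add, one_mul, one_mul, mul_one, smul_mul_assoc, hN,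
      smul_zero, add_zero, succ_nsmul]
    abel

end Fermat.Agent.S56.H794

end

end
-- ===== PACK-END S56/H794/DualEnd.lean

-- ===== PACK-BEGIN S53/CommAlgBasic.lean
section




set_option autoImplicit false

namespace Fermat.Agent.S53

open IsLocalRing

section TestAlgebra

variable {𝒪 : Type} [CommRing 𝒪] [IsLocalRing 𝒪]
variable {A : Type} [CommRing A] [IsLocalRing A] [Algebra 𝒪 A]

/-- In an Artinian local ring the maximal ideal is nilpotent. -/
theorem exists_maximalIdeal_pow_eq_bot_of_isArtinianRing (B : Type) [CommRing B] [IsLocalRing B]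
    [IsArtinianRing B] : ∃ n : ℕ, maximalIdeal B ^ n = ⊥ := by
  obtain ⟨n, hn⟩ := IsArtinianRing.isNilpotent_jacobson_bot (R := B)
  rw [jacobson_eq_maximalIdeal _ bot_ne_top] at hn
  exact ⟨n, hn⟩

theorem exists_maximalIdeal_pow_eq_bot (h : GaloisRep.IsArtinianTestAlgebra 𝒪 A) :
    ∃ n : ℕ, maximalIdeal A ^ n = ⊥ :=
  haveI := h.isArtinian
  exists_maximalIdeal_pow_eq_bot_of_isArtinianRing A

/-- The residue field of a test algebra is finite when that of `𝒪` is. -/
theorem finite_residueField_of_testAlgebra [Finite (ResidueField 𝒪)]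
    (h : GaloisRep.IsArtinianTestAlgebra 𝒪 A) : Finite (ResidueField A) := by
  have hsurj : Function.Surjective
      ((IsLocalRing.residue A).comp (algebraMap 𝒪 A)) := h.residue_surjective
  haveI := h.isLocalHom
  have hsurj' : Function.Surjective (ResidueField.map (algebraMap 𝒪 A)) := by
    intro x
    obtain ⟨o, rfl⟩ := hsurj x
    exact ⟨residue 𝒪 o, by simp [ResidueField.map_residue]⟩
  exact Finite.of_surjective _ hsurj'

/-- A test algebra over `𝒪` (finite residue field) is a finite ring. -/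
theorem finite_of_testAlgebra [Finite (ResidueField 𝒪)]
    (h : GaloisRep.IsArtinianTestAlgebra 𝒪 A) : Finite A := by
  haveI := h.isArtinian
  haveI := finite_residueField_of_testAlgebra h
  have h1 : Finite (A ⧸ (⊥ : Ideal A)) :=
    (IsLocalRing.finite_quotient_iff (R := A) (I := ⊥)).mpr
      (by obtain ⟨n, hn⟩ := exists_maximalIdeal_pow_eq_bot h; exact ⟨n, hn.le⟩)
  exact Finite.of_equiv _ (RingEquiv.quotientBot A).toEquiv

end TestAlgebra

section NilIdeal

variable {𝒪 : Type} [CommRing 𝒪] [IsLocalRing 𝒪]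
variable {C : Type} [CommRing C] [Algebra 𝒪 C]

/-- Every element of `C` is a unit or lies in `𝔫`, under the hypotheses of the lemmas below. -/
theorem isUnit_or_mem_of_nil_ideal (𝔫 : Ideal C) (h1 : ∀ x ∈ 𝔫, IsNilpotent x)
    (h2 : ∀ c : C, ∃ o : 𝒪, c - algebraMap 𝒪 C o ∈ 𝔫)
    (h4 : ∀ o ∈ maximalIdeal 𝒪, algebraMap 𝒪 C o ∈ 𝔫) (c : C) : IsUnit c ∨ c ∈ 𝔫 := by
  obtain ⟨o, ho⟩ := h2 c
  by_cases hom : o ∈ maximalIdeal 𝒪
  · right
    have := 𝔫.add_mem ho (h4 o hom)
    simpa using this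
  · left
    have hu : IsUnit (algebraMap 𝒪 C o) := by
      have : IsUnit o := by
        by_contra hcon
        exact hom ((IsLocalRing.mem_maximalIdeal o).mpr hcon)
      exact this.map _
    have hnil : IsNilpotent (c - algebraMap 𝒪 C o) := h1 _ ho
    have hcomm : Commute (c - algebraMap 𝒪 C o) (algebraMap 𝒪 C o) := Commute.all _ _
    have := hnil.isUnit_add_right_of_commute hu hcomm
    simpa using this

theorem isLocalRing_of_nil_ideal [Nontrivial C] (𝔫 : Ideal C) (h1 : ∀ x ∈ 𝔫, IsNilpotent x)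
    (h2 : ∀ c : C, ∃ o : 𝒪, c - algebraMap 𝒪 C o ∈ 𝔫)
    (h4 : ∀ o ∈ maximalIdeal 𝒪, algebraMap 𝒪 C o ∈ 𝔫) : IsLocalRing C := by
  refine IsLocalRing.of_nonunits_add ?_
  intro a b ha hb
  have ha' : a ∈ 𝔫 := (isUnit_or_mem_of_nil_ideal 𝔫 h1 h2 h4 a).resolve_left ha
  have hb' : b ∈ 𝔫 := (isUnit_or_mem_of_nil_ideal 𝔫 h1 h2 h4 b).resolve_left hb
  have hab : a + b ∈ 𝔫 := 𝔫.add_mem ha' hb'
  intro hu
  have hnil := h1 _ hab
  exact hnil.not_isUnit hu

theorem maximalIdeal_eq_of_nil_ideal [IsLocalRing C] (𝔫 : Ideal C) (h1 : ∀ x ∈ 𝔫, IsNilpotent x)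
    (h2 : ∀ c : C, ∃ o : 𝒪, c - algebraMap 𝒪 C o ∈ 𝔫)
    (h4 : ∀ o ∈ maximalIdeal 𝒪, algebraMap 𝒪 C o ∈ 𝔫) : maximalIdeal C = 𝔫 := by
  ext c
  rw [IsLocalRing.mem_maximalIdeal, mem_nonunits_iff]
  constructor
  · intro hc
    exact (isUnit_or_mem_of_nil_ideal 𝔫 h1 h2 h4 c).resolve_left hc
  · intro hc hu
    exact (h1 c hc).not_isUnit hu

theorem isLocalHom_of_nil_ideal [IsLocalRing C] (𝔫 : Ideal C) (h1 : ∀ x ∈ 𝔫, IsNilpotent x)
    (h4 : ∀ o ∈ maximalIdeal 𝒪, algebraMap 𝒪 C o ∈ 𝔫) : IsLocalHom (algebraMap 𝒪 C) := by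
  constructor
  intro o ho
  by_contra hcon
  have hom : o ∈ maximalIdeal 𝒪 := (IsLocalRing.mem_maximalIdeal o).mpr hcon
  exact (h1 _ (h4 o hom)).not_isUnit ho

theorem residue_surjective_of_nil_ideal [IsLocalRing C] (𝔫 : Ideal C)
    (h1 : ∀ x ∈ 𝔫, IsNilpotent x)
    (h2 : ∀ c : C, ∃ o : 𝒪, c - algebraMap 𝒪 C o ∈ 𝔫) :
    Function.Surjective (IsLocalRing.residue C ∘ algebraMap 𝒪 C) := by
  intro x
  obtain ⟨c, rfl⟩ := IsLocalRing.residue_surjective x
  obtain ⟨o, ho⟩ := h2 c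
  refine ⟨o, ?_⟩
  have hmem : c - algebraMap 𝒪 C o ∈ maximalIdeal C := by
    rw [IsLocalRing.mem_maximalIdeal, mem_nonunits_iff]
    intro hu
    exact (h1 _ ho).not_isUnit hu
  have := (IsLocalRing.residue_eq_zero_iff _).mpr hmem
  rw [map_sub, sub_eq_zero] at this
  exact this.symm

/-- A finite `𝒪`-algebra with a nil ideal `𝔫 ⊇ m_𝒪` such that `𝒪 → C/𝔫` is onto is a test
algebra. -/
theorem isArtinianTestAlgebra_of_nil_ideal [IsLocalRing C] [Finite C] (𝔫 : Ideal C)
    (h1 : ∀ x ∈ 𝔫, IsNilpotent x)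
    (h2 : ∀ c : C, ∃ o : 𝒪, c - algebraMap 𝒪 C o ∈ 𝔫)
    (h4 : ∀ o ∈ maximalIdeal 𝒪, algebraMap 𝒪 C o ∈ 𝔫) : GaloisRep.IsArtinianTestAlgebra 𝒪 C where
  isLocalHom := isLocalHom_of_nil_ideal 𝔫 h1 h4
  residue_surjective := residue_surjective_of_nil_ideal 𝔫 h1 h2
  isArtinian := inferInstance

end NilIdeal

end Fermat.Agent.S53

end
-- ===== PACK-END S53/CommAlgBasic.lean

-- ===== PACK-BEGIN S59/H540/DetCong.lean
section


/-!
# S59 / G-DET, algebra part (helper540) — Mathlib only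

* `mem_of_forall_mem_sup_pow` : in a noetherian local ring every ideal is closed for the
  `𝔪`-adic topology (Krull's intersection theorem for `A ⧸ J`).
* `det_sub_one_mem` : an endomorphism of a finite free module which is congruent to the identity
  modulo `I` has determinant congruent to `1` modulo `I`.
* `det_eq_coeff_zero_of_charpoly` : the determinant of an endomorphism of a free module of rank `2`
  with characteristic polynomial `X² - tX + d` is `d`.
-/

set_option autoImplicit false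

namespace Fermat.Agent.S59.H540

open IsLocalRing

/-- In a noetherian local ring, an element lying in `J ⊔ 𝔪 ^ k` for every `k` lies in `J`. -/
theorem mem_of_forall_mem_sup_pow {A : Type*} [CommRing A] [IsLocalRing A] [IsNoetherianRing A]
    (J : Ideal A) (x : A) (h : ∀ k : ℕ, x ∈ J ⊔ maximalIdeal A ^ k) : x ∈ J := by
  have hbot := Ideal.iInf_pow_smul_eq_bot_of_isLocalRing (R := A) (M := A ⧸ J)
    (maximalIdeal A) (Ideal.IsPrime.ne_top')
  have hx : (Ideal.Quotient.mk J x : A ⧸ J) ∈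
      (⨅ i : ℕ, maximalIdeal A ^ i • (⊤ : Submodule A (A ⧸ J))) := by
    rw [Submodule.mem_iInf]
    intro k
    obtain ⟨j, hj, t, ht, rfl⟩ := Submodule.mem_sup.mp (h k)
    have e : (Ideal.Quotient.mk J (j + t) : A ⧸ J) = t • (1 : A ⧸ J) := by
      rw [map_add, Ideal.Quotient.eq_zero_iff_mem.mpr hj, zero_add, Algebra.smul_def, mul_one]
      rfl
    rw [e]
    exact Submodule.smul_mem_smul ht Submodule.mem_top
  rw [hbot] at hx
  exact Ideal.Quotient.eq_zero_iff_mem.mp ((Submodule.mem_bot A).mp hx)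

/-- Coordinates of an element of `I • ⊤` lie in `I`. -/
theorem repr_mem_of_mem_smul_top {A : Type*} [CommRing A] {V : Type*} [AddCommGroup V]
    [Module A V] {ι : Type*} (b : Module.Basis ι A V) (I : Ideal A) {x : V}
    (hx : x ∈ I • (⊤ : Submodule A V)) (i : ι) : b.repr x i ∈ I := by
  refine Submodule.smul_induction_on (p := fun x => b.repr x i ∈ I) hx ?_ ?_
  · intro r hr m _
    rw [map_smul, Finsupp.smul_apply, smul_eq_mul]
    exact I.mul_mem_right _ hr
  · intro x y hx hy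
    rw [map_add, Finsupp.add_apply]
    exact I.add_mem hx hy

/-- An endomorphism congruent to the identity modulo `I` has determinant `≡ 1` modulo `I`. -/
theorem det_sub_one_mem {A : Type*} [CommRing A] {V : Type*} [AddCommGroup V] [Module A V]
    [Module.Free A V] [Module.Finite A V] (I : Ideal A) (f : V →ₗ[A] V)
    (hf : ∀ v : V, f v - v ∈ I • (⊤ : Submodule A V)) : LinearMap.det f - 1 ∈ I := by
  classical
  let b := Module.Free.chooseBasis A V
  have hM : (Ideal.Quotient.mk I).mapMatrix (LinearMap.toMatrix b b f) = 1 := by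
    ext i j
    rw [RingHom.mapMatrix_apply, Matrix.map_apply, LinearMap.toMatrix_apply, Matrix.one_apply]
    have h1 : b.repr (f (b j)) i = b.repr (f (b j) - b j) i + b.repr (b j) i := by
      rw [map_sub, Finsupp.sub_apply, sub_add_cancel]
    have h2 : b.repr (f (b j) - b j) i ∈ I := repr_mem_of_mem_smul_top b I (hf (b j)) i
    rw [h1, map_add, Ideal.Quotient.eq_zero_iff_mem.mpr h2, zero_add, Module.Basis.repr_self,
      Finsupp.single_apply]
    by_cases hij : i = j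
    · subst hij; simp
    · have hji : ¬ j = i := fun h => hij h.symm
      simp [hij, hji]
  have hdet : Ideal.Quotient.mk I (LinearMap.det f) = 1 := by
    rw [← LinearMap.det_toMatrix b f, RingHom.map_det, hM, Matrix.det_one]
  rw [← Ideal.Quotient.eq_zero_iff_mem, map_sub, hdet, map_one, sub_self]

/-- Determinant from a characteristic polynomial of the shape `X² - t X + d`. -/
theorem det_eq_of_charpoly {A : Type*} [CommRing A] [Nontrivial A] {V : Type*} [AddCommGroup V]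
    [Module A V] [Module.Free A V] [Module.Finite A V] (hrank : Module.finrank A V = 2)
    (f : V →ₗ[A] V) (t d : A)
    (h : LinearMap.charpoly f = Polynomial.X ^ 2 - Polynomial.C t * Polynomial.X + Polynomial.C d) :
    LinearMap.det f = d := by
  rw [LinearMap.det_eq_sign_charpoly_coeff, hrank, h]
  simp [Polynomial.coeff_X, Polynomial.coeff_C]

end Fermat.Agent.S59.H540

end
-- ===== PACK-END S59/H540/DetCong.lean

-- ===== PACK-BEGIN S19/H19/Indep.lean
section
/-
A3 / S19, helper19 — piece ORD, part 1: Galois descent for equivariant functions.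

`M` a set with an action of `G = Gal(ℚ̄/ℚ)`; functions `f : M → ℚ̄` with
`f (σ m) = σ (f m)` which are linearly independent over `ℚ` are linearly independent over `ℚ̄`.
Also: a `ℚ̄`-subalgebra of `M → ℚ̄` (`M` finite) separating points is everything.
Mathlib only.
-/


set_option autoImplicit false

noncomputable section

namespace Fermat.Agent.S19.H19

open scoped BigOperators

/-- `ℚ̄`. -/
abbrev Qb : Type := AlgebraicClosure ℚ

/-- The absolute Galois group of `ℚ`. -/
abbrev GalQ : Type := _root_.Fermat.Agent.S19.H19.Qb ≃ₐ[ℚ] _root_.Fermat.Agent.S19.H19.Qb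

theorem isGalois_Qb_rat : IsGalois ℚ _root_.Fermat.Agent.S19.H19.Qb := by
  have : Algebra.IsAlgebraic ℚ (AlgebraicClosure ℚ) := AlgebraicClosure.isAlgebraic ℚ
  have : IsAlgClosure ℚ (AlgebraicClosure ℚ) := ⟨inferInstance, inferInstance⟩
  have : Normal ℚ (AlgebraicClosure ℚ) := IsAlgClosure.normal ℚ (AlgebraicClosure ℚ)
  exact isGalois_iff.mpr ⟨inferInstance, inferInstance⟩

theorem exists_rat_of_fixed (x : _root_.Fermat.Agent.S19.H19.Qb) (hx : ∀ σ : _root_.Fermat.Agent.S19.H19.GalQ, σ x = x) :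
    ∃ q : ℚ, algebraMap ℚ _root_.Fermat.Agent.S19.H19.Qb q = x := by
  have := isGalois_Qb_rat
  exact (InfiniteGalois.mem_range_algebraMap_iff_fixed (k := ℚ) (K := _root_.Fermat.Agent.S19.H19.Qb) x).mpr hx

variable {M : Type*} (act : _root_.Fermat.Agent.S19.H19.GalQ → M → M)

/-- Equivariant functions. -/
def IsEquivariant (f : M → _root_.Fermat.Agent.S19.H19.Qb) : Prop := ∀ (σ : _root_.Fermat.Agent.S19.H19.GalQ) (m : M), f (act σ m) = σ (f m)

variable {act}

/-- **Galois descent of linear relations.**  A `ℚ̄`-linear relation between equivariant functions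
which are linearly independent over `ℚ` is trivial. -/
theorem linearIndependent_of_equivariant
    (hone : ∀ m, act 1 m = m)
    (hact : ∀ σ τ m, act σ (act τ m) = act (σ * τ) m)
    {ι : Type*} [Finite ι] (f : ι → M → _root_.Fermat.Agent.S19.H19.Qb) (hf : ∀ i, IsEquivariant act (f i))
    (hQ : LinearIndependent ℚ f) : LinearIndependent _root_.Fermat.Agent.S19.H19.Qb f := by
  classical
  have := Fintype.ofFinite ι
  rw [Fintype.linearIndependent_iff]
  -- strong induction on the size of the support of a relation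
  suffices H : ∀ (n : ℕ) (c : ι → _root_.Fermat.Agent.S19.H19.Qb), (Finset.univ.filter fun i => c i ≠ 0).card = n →
      ∑ i, c i • f i = 0 → ∀ i, c i = 0 from fun c hc i => H _ c rfl hc i
  intro n
  induction n using Nat.strong_induction_on with
  | _ n ih =>
    intro c hn hc
    by_contra hne
    push Not at hne
    obtain ⟨i₀, hi₀⟩ := hne
    -- normalise `c i₀ = 1`
    set d : ι → _root_.Fermat.Agent.S19.H19.Qb := fun i => c i / c i₀ with hd
    have hd₀ : d i₀ = 1 := div_self hi₀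
    have hdsupp : ∀ i, d i ≠ 0 ↔ c i ≠ 0 := fun i => by
      simp only [hd, ne_eq, div_eq_zero_iff, hi₀, or_false]
    have hdrel : ∑ i, d i • f i = 0 := by
      have : ∑ i, d i • f i = (c i₀)⁻¹ • ∑ i, c i • f i := by
        rw [Finset.smul_sum]
        refine Finset.sum_congr rfl fun i _ => ?_
        rw [smul_smul, hd]
        congr 1
        field_simp
      rw [this, hc, smul_zero]
    -- the conjugate relation
    have hconj : ∀ σ : _root_.Fermat.Agent.S19.H19.GalQ, ∑ i, (σ (d i)) • f i = 0 := by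
      intro σ
      funext m
      have h1 := congrFun hdrel (act σ⁻¹ m)
      simp only [Finset.sum_apply, Pi.smul_apply, smul_eq_mul, Pi.zero_apply] at h1 ⊢
      have h2 := congrArg σ h1
      rw [map_sum, map_zero] at h2
      rw [← h2]
      refine Finset.sum_congr rfl fun i _ => ?_
      rw [map_mul, ← hf i σ (act σ⁻¹ m), hact, mul_inv_cancel, hone]
    -- the difference has smaller support
    have hfix : ∀ (σ : _root_.Fermat.Agent.S19.H19.GalQ) (i : ι), σ (d i) = d i := by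
      intro σ
      have hrel : ∑ i, (σ (d i) - d i) • f i = 0 := by
        have : ∑ i, (σ (d i) - d i) • f i = ∑ i, (σ (d i)) • f i - ∑ i, d i • f i := by
          rw [← Finset.sum_sub_distrib]
          refine Finset.sum_congr rfl fun i _ => ?_
          rw [sub_smul]
        rw [this, hconj σ, hdrel, sub_zero]
      have hsub : (Finset.univ.filter fun i => σ (d i) - d i ≠ 0) ⊂
          (Finset.univ.filter fun i => c i ≠ 0) := by
        rw [Finset.ssubset_iff_of_subset]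
        · refine ⟨i₀, by simp [hi₀], ?_⟩
          simp [hd₀]
        · intro i hi
          simp only [Finset.mem_filter, Finset.mem_univ, true_and] at hi ⊢
          rw [← hdsupp]
          intro h0
          apply hi
          rw [h0, map_zero, sub_zero]
      have hlt := Finset.card_lt_card hsub
      rw [hn] at hlt
      intro i
      have := ih _ hlt (fun i => σ (d i) - d i) rfl hrel i
      exact sub_eq_zero.mp this
    -- so the `d i` are rational
    have hrat : ∀ i, ∃ q : ℚ, algebraMap ℚ _root_.Fermat.Agent.S19.H19.Qb q = d i := fun i =>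
      exists_rat_of_fixed (d i) fun σ => hfix σ i
    choose q hq using hrat
    have hqrel : ∑ i, q i • f i = 0 := by
      rw [← hdrel]
      refine Finset.sum_congr rfl fun i _ => ?_
      rw [← hq i]
      funext m
      simp [Algebra.smul_def]
    have h0 := (Fintype.linearIndependent_iff.mp hQ) q hqrel i₀
    have h1 : d i₀ = 0 := by rw [← hq i₀, h0, map_zero]
    rw [hd₀] at h1
    exact one_ne_zero h1

/-- A `K`-subalgebra of `M → K`, `M` finite, which separates points is everything. -/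
theorem subalgebra_eq_top_of_separates {K : Type*} [Field K] {M : Type*} [Finite M]
    (S : Subalgebra K (M → K))
    (hsep : ∀ m m' : M, m ≠ m' → ∃ f ∈ S, f m ≠ f m') : S = ⊤ := by
  classical
  have := Fintype.ofFinite M
  -- indicator functions
  have hind : ∀ m : M, (Pi.single m (1 : K) : M → K) ∈ S := by
    intro m
    -- for each `m' ≠ m` a function in `S` which is `1` at `m` and `0` at `m'`
    have h1 : ∀ m' : M, ∃ g ∈ S, g m = 1 ∧ (m' ≠ m → g m' = 0) := by
      intro m'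
      by_cases h : m' = m
      · exact ⟨1, S.one_mem, rfl, fun h' => absurd h h'⟩
      · obtain ⟨f, hfS, hf⟩ := hsep m m' (Ne.symm h)
        refine ⟨(f m - f m')⁻¹ • (f - algebraMap K (M → K) (f m')), ?_, ?_, ?_⟩
        · exact S.smul_mem (S.sub_mem hfS (S.algebraMap_mem _)) _
        · simp only [Pi.smul_apply, Pi.sub_apply, Pi.algebraMap_apply, Algebra.algebraMap_self,
            RingHom.id_apply, smul_eq_mul]
          exact inv_mul_cancel₀ (sub_ne_zero.mpr hf)
        · intro _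
          simp
    choose g hgS hg1 hg0 using h1
    have hprod : (Pi.single m (1 : K) : M → K) = ∏ m', g m' := by
      funext x
      rw [Finset.prod_apply]
      by_cases hx : x = m
      · subst hx
        rw [Pi.single_eq_same]
        exact (Finset.prod_eq_one (f := fun m' => g m' x) fun m' _ => hg1 m').symm
      · rw [Pi.single_eq_of_ne hx]
        exact (Finset.prod_eq_zero (f := fun m' => g m' x) (Finset.mem_univ x) (hg0 x hx)).symm
    rw [hprod]
    exact S.prod_mem fun m' _ => hgS m'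
  rw [eq_top_iff]
  intro f _
  have hf : f = ∑ m, f m • (Pi.single m (1 : K) : M → K) := by
    funext x
    simp [Finset.sum_apply, Pi.single_apply]
  rw [hf]
  exact S.sum_mem fun m _ => S.smul_mem (hind m) _

end Fermat.Agent.S19.H19

end

end
-- ===== PACK-END S19/H19/Indep.lean

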