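import Mathlib
import Fermat.Prelude.Def_GaloisRep_DeformationRingData
import Fermat.Prelude.Def_GaloisRep_DeformationCondition
import Fermat.Agent.Pack.S43GC.G0E0L2
import Fermat.Agent.Pack.S43GC.G0E1L0
import Fermat.Agent.Pack.S44C.G0E1L1
import Fermat.Agent.Pack.S43GC.G0E1L2
import Fermat.Agent.Pack.S43GC.G0E2L3
import Fermat.Agent.Pack.S43GC.G0E2L0
import Fermat.Agent.Pack.S43GC.G0E1L1
import Fermat.Agent.Pack.S43GC.G0E0L3
import Fermat.Agent.Pack.S44C.G0E0L3
import Fermat.Agent.Pack.S43GC.G0E2L2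
import Fermat.Agent.Pack.S43GC.G0E2L1
import Fermat.Agent.Pack.Fast891

-- ===== PACK-BEGIN S55/Local/H64/InfResMul.lean
section



/-!
# Inflation–restriction in degree 2, multiplicative cocycle form (S55, layer L; helper64)

`G → Q` a surjective group homomorphism with kernel `S`, `M` a multiplicative `G`-module, `MQ` a
multiplicative `Q`-module, `ι : MQ → M` an equivariant embedding onto the `S`-invariants of `M`,
and `H¹(S, M) = 0` (cocycle form).  Then

* `isMulCoboundary₂_of_inflation` : inflation is injective on `H²`;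
* `exists_inflation_of_restriction` : a 2-cocycle of `G` whose restriction to `S` is a coboundary is
  cohomologous to an inflated 2-cocycle.

Everything is stated with Mathlib's `IsMulCocycle₂` / `IsMulCoboundary₂`.  The cochain-level core is
helper954's `Fermat.Agent.S55.H954` (`exists_inflated_of_res_coboundary`,
`exists_invariant_cochain_of_inf_coboundary`).
-/

set_option autoImplicit false

namespace Fermat.Agent.S55.Local.H64

open groupCohomology Fermat.Agent.S55.H954

section Abstract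

variable {G M : Type} [Group G] [CommGroup M] [MulDistribMulAction G M]

/-- The representation of `G` on `Additive M`. -/
noncomputable abbrev addRep (G M : Type) [Group G] [CommGroup M] [MulDistribMulAction G M] :
    Representation ℤ G (Additive M) :=
  Representation.ofMulDistribMulAction G M

lemma addRep_apply (g : G) (m : Additive M) :
    addRep G M g m = Additive.ofMul (g • Additive.toMul m) := rfl

/-- additive version of a multiplicative cochain -/
def toAdd₂ (c : G × G → M) : G × G → Additive M := fun p => Additive.ofMul (c p)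

/-- additive version of a multiplicative 1-cochain -/
def toAdd₁ (b : G → M) : G → Additive M := fun g => Additive.ofMul (b g)

lemma isTwoCocycle_toAdd₂ {c : G × G → M} (hc : IsMulCocycle₂ c) :
    IsTwoCocycle (addRep G M) (toAdd₂ c) := by
  intro g h j
  exact congrArg Additive.ofMul (hc g h j)

lemma isMulCocycle₂_of_isTwoCocycle {f : G × G → Additive M}
    (hf : IsTwoCocycle (addRep G M) f) : IsMulCocycle₂ (fun p => Additive.toMul (f p)) := by
  intro g h j
  exact congrArg Additive.toMul (hf g h j)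

lemma dOne_toAdd₁ (b : G → M) (g h : G) :
    dOne (addRep G M) (toAdd₁ b) (g, h) = Additive.ofMul (g • b h / b (g * h) * b g) := rfl

end Abstract

section Main

variable {G Q M MQ : Type} [Group G] [Group Q] [CommGroup M] [CommGroup MQ]
  [MulDistribMulAction G M] [MulDistribMulAction Q MQ]

/-- `H¹(ker π, M) = 0` in multiplicative cocycle form gives helper954's `HOneVanishes`. -/
lemma hOneVanishes_of_mul (π : G →* Q)
    (hH1 : ∀ w : π.ker → M, (∀ s t : π.ker, w (s * t) = (s : G) • w t * w s) →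
      ∃ m : M, ∀ s : π.ker, w s = (s : G) • m / m) :
    HOneVanishes (addRep G M) π.ker := by
  intro w hw
  obtain ⟨m, hm⟩ := hH1 (fun s => Additive.toMul (w s)) (fun s t => by
    have := hw s t
    exact congrArg Additive.toMul this)
  exact ⟨Additive.ofMul m, fun s => congrArg Additive.ofMul (hm s)⟩

/-- The data of an inflation situation. -/
structure InflData (π : G →* Q) (ι : MQ →* M) : Prop where
  surj : Function.Surjective π
  inj : Function.Injective ι
  equiv : ∀ (g : G) (x : MQ), ι (π g • x) = g • ι x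
  inv : ∀ m : M, (∀ s ∈ π.ker, s • m = m) → ∃ x : MQ, ι x = m
  h1 : ∀ w : π.ker → M, (∀ s t : π.ker, w (s * t) = (s : G) • w t * w s) →
      ∃ m : M, ∀ s : π.ker, w s = (s : G) • m / m

variable {π : G →* Q} {ι : MQ →* M}

/-- a set-theoretic section of `π` -/
noncomputable def InflData.lift (D : InflData π ι) (q : Q) : G := (D.surj q).choose

lemma InflData.π_lift (D : InflData π ι) (q : Q) : π (D.lift q) = q := (D.surj q).choose_spec

lemma InflData.exists_mul_eq (D : InflData π ι) (g : G) :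
    ∃ s ∈ π.ker, g = D.lift (π g) * s := by
  refine ⟨(D.lift (π g))⁻¹ * g, ?_, by group⟩
  rw [MonoidHom.mem_ker, map_mul, map_inv, D.π_lift, inv_mul_cancel]

/-- **Inflation is injective on `H²`** (multiplicative cocycle form). -/
theorem isMulCoboundary₂_of_inflation (D : InflData π ι) {c' : Q × Q → MQ}
    (h : IsMulCoboundary₂ (fun p : G × G => ι (c' (π p.1, π p.2)))) :
    IsMulCoboundary₂ c' := by
  classical
  obtain ⟨x, hx⟩ := h
  set f' : G × G → Additive M := toAdd₂ (fun p : G × G => ι (c' (π p.1, π p.2))) with hf'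
  have hinv2 : ∀ s ∈ π.ker, ∀ g h : G, f' (g, h * s) = f' (g, h) := by
    intro s hs g h
    simp only [hf', toAdd₂, map_mul, MonoidHom.mem_ker.1 hs, mul_one]
  have hinv1 : ∀ s ∈ π.ker, ∀ g h : G, f' (g * s, h) = f' (g, h) := by
    intro s hs g h
    simp only [hf', toAdd₂, map_mul, MonoidHom.mem_ker.1 hs, mul_one]
  have hval : ∀ s ∈ π.ker, ∀ g h : G, addRep G M s (f' (g, h)) = f' (g, h) := by
    intro s hs g h
    change Additive.ofMul (s • ι (c' (π g, π h))) = Additive.ofMul (ι (c' (π g, π h)))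
    rw [← D.equiv, MonoidHom.mem_ker.1 hs, one_smul]
  have hc : f' = dOne (addRep G M) (toAdd₁ x) := by
    funext ⟨g, h⟩
    rw [dOne_toAdd₁, hx g h]
    rfl
  obtain ⟨c₁, hd, hright, hfix⟩ :=
    exists_invariant_cochain_of_inf_coboundary (addRep G M) π.ker
      (hOneVanishes_of_mul π D.h1) hinv2 hinv1 hval (toAdd₁ x) hc
  -- descend `c₁` to `Q`
  have hex : ∀ g : G, ∃ y : MQ, ι y = Additive.toMul (c₁ g) := fun g =>
    D.inv _ (fun s hs => congrArg Additive.toMul (hfix s hs g))
  choose y₀ hy₀ using hex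
  set y : Q → MQ := fun q => y₀ (D.lift q) with hy
  have hyπ : ∀ g : G, ι (y (π g)) = Additive.toMul (c₁ g) := by
    intro g
    obtain ⟨s, hs, hg⟩ := D.exists_mul_eq g
    rw [hy, hy₀]
    conv_rhs => rw [hg, hright s hs]
  refine ⟨y, fun q r => D.inj ?_⟩
  obtain ⟨g, rfl⟩ := D.surj q
  obtain ⟨h, rfl⟩ := D.surj r
  rw [map_mul, map_div, D.equiv, ← map_mul π, hyπ, hyπ, hyπ]
  have := congrFun hd (g, h)
  exact (congrArg Additive.toMul this).symm

/-- **Exactness of inflation–restriction at `H²(G, M)`** (multiplicative cocycle form): a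
2-cocycle whose restriction to `ker π` is a coboundary is cohomologous to an inflated
2-cocycle. -/
theorem exists_inflation_of_restriction (D : InflData π ι) {c : G × G → M}
    (hc : IsMulCocycle₂ c)
    (hres : ∃ b : π.ker → M, ∀ s t : π.ker,
      c ((s : G), (t : G)) = (s : G) • b t / b (s * t) * b s) :
    ∃ c' : Q × Q → MQ, IsMulCocycle₂ c' ∧
      IsMulCoboundary₂ (fun p : G × G => c p / ι (c' (π p.1, π p.2))) := by
  classical
  obtain ⟨b, hb⟩ := hres
  obtain ⟨x, f', hff', hf'coc, hinv2, hinv1, hval⟩ :=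
    exists_inflated_of_res_coboundary (addRep G M) π.ker (hOneVanishes_of_mul π D.h1)
      (isTwoCocycle_toAdd₂ hc) (fun s => Additive.ofMul (b s))
      (fun s t => congrArg Additive.ofMul (hb s t))
  have hex : ∀ g h : G, ∃ y : MQ, ι y = Additive.toMul (f' (g, h)) := fun g h =>
    D.inv _ (fun s hs => congrArg Additive.toMul (hval s hs g h))
  choose y₀ hy₀ using hex
  set c' : Q × Q → MQ := fun p => y₀ (D.lift p.1) (D.lift p.2) with hc'
  have hc'π : ∀ g h : G, ι (c' (π g, π h)) = Additive.toMul (f' (g, h)) := by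
    intro g h
    obtain ⟨s, hs, hg⟩ := D.exists_mul_eq g
    obtain ⟨t, ht, hh⟩ := D.exists_mul_eq h
    rw [hc', hy₀]
    conv_rhs => rw [hg, hh, hinv1 s hs, hinv2 t ht]
  refine ⟨c', ?_, ?_⟩
  · intro q r u
    obtain ⟨g, rfl⟩ := D.surj q
    obtain ⟨h, rfl⟩ := D.surj r
    obtain ⟨j, rfl⟩ := D.surj u
    apply D.inj
    rw [map_mul, map_mul, D.equiv, ← map_mul π, ← map_mul π, hc'π, hc'π, hc'π, hc'π]
    exact congrArg Additive.toMul (hf'coc g h j)
  · refine ⟨fun g => Additive.toMul (x g), fun g h => ?_⟩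
    show g • Additive.toMul (x h) / Additive.toMul (x (g * h)) * Additive.toMul (x g) =
      c (g, h) / ι (c' (π g, π h))
    rw [hc'π]
    have := congrFun hff' (g, h)
    have h2 : c (g, h) = Additive.toMul (f' (g, h)) *
        (g • Additive.toMul (x h) / Additive.toMul (x (g * h)) * Additive.toMul (x g)) :=
      congrArg Additive.toMul this
    rw [h2]
    simp

end Main

end Fermat.Agent.S55.Local.H64

end
-- ===== PACK-END S55/Local/H64/InfResMul.lean

-- ===== PACK-BEGIN S55/L/Unram784/AdjoinRootDVR.lean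
section


/-!
# S55, layer L, leaf L-A2 (helper784): `R[X]/(g)` for `g` monic with irreducible reduction

Let `R` be a complete discrete valuation ring with finite residue field `k`, and `g : R[X]` monic
with irreducible reduction.  Then `S = R[X]/(g)` is a complete discrete valuation ring with
maximal ideal `𝔪_R S`, and its residue field is finite of degree `deg g` over `k`.
-/

set_option autoImplicit false
set_option linter.unusedSectionVars false

namespace Fermat.Agent.S55.L

open IsLocalRing Polynomial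

section Transfer

variable {R : Type*} [CommRing R] (I : Ideal R) {M N : Type*} [AddCommGroup M] [Module R M]
  [AddCommGroup N] [Module R N]

theorem u784_mem_smul_top_map (e : M ≃ₗ[R] N) (n : ℕ) (x : M) :
    e x ∈ (I ^ n • ⊤ : Submodule R N) ↔ x ∈ (I ^ n • ⊤ : Submodule R M) := by
  have h : (I ^ n • ⊤ : Submodule R N) = (I ^ n • ⊤ : Submodule R M).map e.toLinearMap := by
    rw [Submodule.map_smul'', Submodule.map_top, LinearMap.range_eq_top.mpr e.surjective]
  rw [h]
  constructor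
  · rintro ⟨y, hy, hxy⟩
    have : y = x := e.injective hxy
    rwa [← this]
  · intro hx
    exact ⟨x, hx, rfl⟩

theorem u784_isPrecomplete_of_linearEquiv (e : M ≃ₗ[R] N) [IsPrecomplete I M] :
    IsPrecomplete I N := by
  refine ⟨fun f hf => ?_⟩
  obtain ⟨L, hL⟩ := IsPrecomplete.prec ‹IsPrecomplete I M› (f := fun n => e.symm (f n)) (by
    intro m n hmn
    have h1 := hf hmn
    rw [SModEq.sub_mem] at h1 ⊢
    rw [← u784_mem_smul_top_map I e, map_sub, e.apply_symm_apply, e.apply_symm_apply]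
    exact h1)
  refine ⟨e L, fun n => ?_⟩
  have h1 := hL n
  rw [SModEq.sub_mem] at h1 ⊢
  rw [← u784_mem_smul_top_map I e, map_sub, e.apply_symm_apply] at h1
  exact h1

end Transfer

section AdjoinRoot

variable {R : Type} [CommRing R] [IsDomain R] [IsDiscreteValuationRing R]
  [IsAdicComplete (maximalIdeal R) R] [Finite (ResidueField R)]
  (g : R[X]) (hg : g.Monic) (hirr : Irreducible (g.map (residue R)))

include hg in
theorem u784_adjoinRoot_isAdicComplete :
    IsAdicComplete ((maximalIdeal R).map (algebraMap R (AdjoinRoot g))) (AdjoinRoot g) := by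
  rw [IsAdicComplete.map_algebraMap_iff]
  have hfin : Module.Finite R (AdjoinRoot g) := (AdjoinRoot.powerBasis' hg).finite
  have hpre : IsPrecomplete (maximalIdeal R) (AdjoinRoot g) := by
    have := u784_isPrecomplete_pi (maximalIdeal R) (R := R)
      (ι := Fin (AdjoinRoot.powerBasis' hg).dim)
    exact u784_isPrecomplete_of_linearEquiv (maximalIdeal R)
      (AdjoinRoot.powerBasis' hg).basis.equivFun.symm
  exact { toIsHausdorff := inferInstance, toIsPrecomplete := hpre }

include hirr in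
theorem u784_adjoinRoot_isMaximal :
    ((maximalIdeal R).map (algebraMap R (AdjoinRoot g))).IsMaximal := by
  apply Ideal.Quotient.maximal_of_isField
  have hmax : (Ideal.span {g.map (residue R)} : Ideal (ResidueField R)[X]).IsMaximal :=
    PrincipalIdealRing.isMaximal_of_irreducible hirr
  have hfield : IsField ((ResidueField R)[X] ⧸
      (Ideal.span {g.map (residue R)} : Ideal (ResidueField R)[X])) :=
    (Ideal.Quotient.maximal_ideal_iff_isField_quotient _).mp hmax
  exact (AdjoinRoot.quotEquivQuotMap g (maximalIdeal R)).toRingEquiv.toMulEquiv.isField hfield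

include hg hirr in
theorem u784_adjoinRoot_isDomain : IsDomain (AdjoinRoot g) := by
  have h1 : Irreducible g := Monic.irreducible_of_irreducible_map (residue R) g hg hirr
  exact AdjoinRoot.isDomain_of_prime h1.prime

include hg hirr in
theorem u784_adjoinRoot_degree_ne_zero : g.degree ≠ 0 := by
  have h1 : 0 < (g.map (residue R)).degree := Polynomial.degree_pos_of_irreducible hirr
  rw [hg.degree_map] at h1
  exact h1.ne'

include hg hirr in
/-- `R[X]/(g)` is a complete discrete valuation ring, unramified over `R`, with finite residue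
field of cardinality `|k| ^ deg g`. -/
theorem u784_adjoinRoot_package :
    ∃ (_ : IsDomain (AdjoinRoot g)) (_ : IsDiscreteValuationRing (AdjoinRoot g)),
      (maximalIdeal R).map (algebraMap R (AdjoinRoot g)) = maximalIdeal (AdjoinRoot g) ∧
      IsAdicComplete (maximalIdeal (AdjoinRoot g)) (AdjoinRoot g) ∧
      Finite (ResidueField (AdjoinRoot g)) ∧
      Nat.card (ResidueField (AdjoinRoot g)) = Nat.card (ResidueField R) ^ g.natDegree ∧
      IsLocalHom (algebraMap R (AdjoinRoot g)) := by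
  have hdom : IsDomain (AdjoinRoot g) := u784_adjoinRoot_isDomain g hg hirr
  have hmaxI := u784_adjoinRoot_isMaximal g hirr
  have hcomp := u784_adjoinRoot_isAdicComplete g hg
  have hloc : IsLocalRing (AdjoinRoot g) := isLocalRing_of_isAdicComplete_maximal
    ((maximalIdeal R).map (algebraMap R (AdjoinRoot g)))
  have hmeq : (maximalIdeal R).map (algebraMap R (AdjoinRoot g)) =
      maximalIdeal (AdjoinRoot g) := IsLocalRing.eq_maximalIdeal hmaxI
  have hfin : Module.Finite R (AdjoinRoot g) := (AdjoinRoot.powerBasis' hg).finite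
  have hnoeth : IsNoetherianRing (AdjoinRoot g) := IsNoetherianRing.of_finite R _
  obtain ⟨π, hπ⟩ := IsDiscreteValuationRing.exists_irreducible R
  have hspan : maximalIdeal (AdjoinRoot g) = Ideal.span {algebraMap R (AdjoinRoot g) π} := by
    rw [← hmeq, (IsDiscreteValuationRing.irreducible_iff_uniformizer π).mp hπ, Ideal.map_span,
      Set.image_singleton]
  have hinj : Function.Injective (algebraMap R (AdjoinRoot g)) :=
    AdjoinRoot.of.injective_of_degree_ne_zero (u784_adjoinRoot_degree_ne_zero g hg hirr)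
  have hπ0 : algebraMap R (AdjoinRoot g) π ≠ 0 := by
    rw [Ne, map_eq_zero_iff _ hinj]
    exact hπ.ne_zero
  have hprinc : Submodule.IsPrincipal (maximalIdeal (AdjoinRoot g)) := ⟨⟨_, hspan⟩⟩
  have hpir : IsPrincipalIdealRing (AdjoinRoot g) :=
    ((tfae_of_isNoetherianRing_of_isLocalRing_of_isDomain (AdjoinRoot g)).out 4 0).mp hprinc
  have hdvr : IsDiscreteValuationRing (AdjoinRoot g) := by
    refine IsDiscreteValuationRing.mk ?_
    rw [hspan, Ne, Ideal.span_singleton_eq_bot]
    exact hπ0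
  -- the residue field
  have hne : g.map (residue R) ≠ 0 := (hg.map _).ne_zero
  have hFfin : Module.Finite (ResidueField R)
      ((ResidueField R)[X] ⧸ (Ideal.span {g.map (residue R)} : Ideal (ResidueField R)[X])) :=
    (AdjoinRoot.powerBasis hne).finite
  have hFfinite : Finite
      ((ResidueField R)[X] ⧸ (Ideal.span {g.map (residue R)} : Ideal (ResidueField R)[X])) :=
    Module.finite_of_finite (ResidueField R)
  have hFcard : Nat.card
      ((ResidueField R)[X] ⧸ (Ideal.span {g.map (residue R)} : Ideal (ResidueField R)[X])) =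
      Nat.card (ResidueField R) ^ g.natDegree := by
    rw [Module.natCard_eq_pow_finrank (K := ResidueField R), finrank_quotient_span_eq_natDegree,
      hg.natDegree_map]
  let e : ResidueField (AdjoinRoot g) ≃
      ((ResidueField R)[X] ⧸ (Ideal.span {g.map (residue R)} : Ideal (ResidueField R)[X])) :=
    (Ideal.quotEquivOfEq hmeq.symm).toEquiv.trans
      (AdjoinRoot.quotEquivQuotMap g (maximalIdeal R)).toEquiv
  refine ⟨hdom, hdvr, hmeq, hmeq ▸ hcomp, Finite.of_equiv _ e.symm, ?_, ?_⟩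
  · rw [Nat.card_congr e, hFcard]
  · refine ⟨fun a ha => ?_⟩
    by_contra hna
    have h1 : a ∈ maximalIdeal R := (IsLocalRing.mem_maximalIdeal a).mpr hna
    have h2 : algebraMap R (AdjoinRoot g) a ∈ maximalIdeal (AdjoinRoot g) := by
      rw [← hmeq]
      exact Ideal.mem_map_of_mem _ h1
    exact (IsLocalRing.mem_maximalIdeal _).mp h2 ha

end AdjoinRoot

end Fermat.Agent.S55.L

end
-- ===== PACK-END S55/L/Unram784/AdjoinRootDVR.lean

-- ===== PACK-BEGIN S55/H654/H1Fin.lean
section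


set_option autoImplicit false
set_option linter.style.haveILetI false
set_option linter.unusedSectionVars false
set_option linter.unusedVariables false

/-!
# S55, leaf G5-FIN (helper654), part 1: reduction of the finiteness of `continuousH1S`

`continuousH1S S M` is finite as soon as the set of `S`-level additive characters
`G_L → 𝔽_p` is finite, for one finite `L/ℚ` with `G_L` acting trivially on `M`.
-/

namespace Fermat.Agent.S55.H654

open groupCohomology IntermediateField

attribute [local instance] Fermat.Agent.S55.Bridge.isAlgebraic_Qbar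
  Fermat.Agent.S55.Bridge.isGalois_Qbar

/-- `S`-level additive characters of `G_L` with values in an additive group `X`. -/
def LevelChar (S : Finset Nat.Primes) (L : IntermediateField ℚ (AlgebraicClosure ℚ))
    (X : Type) [AddCommGroup X] : Set (L.fixingSubgroup → X) :=
  {χ | (∀ a b, χ (a * b) = χ a + χ b) ∧
    ∃ F : IntermediateField ℚ (AlgebraicClosure ℚ), F.IsUnramifiedOutside S ∧
      ∀ s : L.fixingSubgroup,
        (s : AlgebraicClosure ℚ ≃ₐ[ℚ] AlgebraicClosure ℚ) ∈ F.fixingSubgroup → χ s = 0}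

variable {p : ℕ} [Fact p.Prime] (S : Finset Nat.Primes)

/-- Finiteness of vector-valued level characters from the scalar case. -/
theorem finite_levelChar_of_scalar (L : IntermediateField ℚ (AlgebraicClosure ℚ))
    (M : Type) [AddCommGroup M] [Module (ZMod p) M] [FiniteDimensional (ZMod p) M]
    (hY : (LevelChar S L (ZMod p)).Finite) : (LevelChar S L M).Finite := by
  classical
  let b := Module.finBasis (ZMod p) M
  let Φ : (L.fixingSubgroup → M) → (Fin (Module.finrank (ZMod p) M) → L.fixingSubgroup → ZMod p) :=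
    fun ψ i n => b.repr (ψ n) i
  have hmaps : Set.MapsTo Φ (LevelChar S L M) (Set.pi Set.univ fun _ => LevelChar S L (ZMod p)) := by
    rintro ψ ⟨hadd, F, hF, hvan⟩ i -
    refine ⟨fun a b' => ?_, F, hF, fun s hs => ?_⟩
    · simp only [Φ, hadd, map_add, Finsupp.coe_add, Pi.add_apply]
    · simp only [Φ, hvan s hs, map_zero, Finsupp.coe_zero, Pi.zero_apply]
  have hinj : Set.InjOn Φ (LevelChar S L M) := by
    intro ψ _ ψ' _ h
    funext n
    apply b.repr.injective
    ext i
    exact congrFun (congrFun h i) n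
  exact Set.Finite.of_injOn hmaps hinj (Set.Finite.pi fun _ => hY)

/-- The set of `S`-level `1`-cocycles is finite if the set of scalar level characters of `G_L`
is. -/
theorem finite_levelCocycles (M : Rep.{0, 0, 0} (ZMod p) (AlgebraicClosure ℚ ≃ₐ[ℚ] AlgebraicClosure ℚ))
    [FiniteDimensional (ZMod p) M]
    (L : IntermediateField ℚ (AlgebraicClosure ℚ)) (hLfin : FiniteDimensional ℚ L)
    (hLM : ∀ s ∈ L.fixingSubgroup, M.ρ s = 1)
    (hY : (LevelChar S L (ZMod p)).Finite) :
    {f : (AlgebraicClosure ℚ ≃ₐ[ℚ] AlgebraicClosure ℚ) → M |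
      f ∈ cocycles₁ M ∧ IsLevelConstantS₁ S f}.Finite := by
  classical
  haveI : Finite M := Module.finite_of_finite (ZMod p)
  have hidx : L.fixingSubgroup.index ≠ 0 := by
    rw [← finrank_eq_fixingSubgroup_index]
    exact Module.finrank_pos.ne'
  haveI : L.fixingSubgroup.FiniteIndex := ⟨hidx⟩
  haveI : Finite ((AlgebraicClosure ℚ ≃ₐ[ℚ] AlgebraicClosure ℚ) ⧸ L.fixingSubgroup) :=
    Subgroup.finite_quotient_of_finiteIndex
  have hYM := finite_levelChar_of_scalar (p := p) S L M hY
  let Φ : ((AlgebraicClosure ℚ ≃ₐ[ℚ] AlgebraicClosure ℚ) → M) →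
      (L.fixingSubgroup → M) ×
        (((AlgebraicClosure ℚ ≃ₐ[ℚ] AlgebraicClosure ℚ) ⧸ L.fixingSubgroup) → M) :=
    fun f => (fun n => f n, fun x => f x.out)
  have hmaps : Set.MapsTo Φ {f | f ∈ cocycles₁ M ∧ IsLevelConstantS₁ S f}
      ((LevelChar S L M) ×ˢ Set.univ) := by
    rintro f ⟨hf, F, hF, hconst⟩
    refine ⟨⟨fun a b => ?_, F, hF, fun s hs => ?_⟩, Set.mem_univ _⟩
    · have h := (mem_cocycles₁_iff f).1 hf (a : AlgebraicClosure ℚ ≃ₐ[ℚ] AlgebraicClosure ℚ) b
      simp only [Φ, Subgroup.coe_mul]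
      rw [h, hLM a a.2, Module.End.one_apply, add_comm]
    · have h := hconst 1 s hs
      have h1 : f 1 = 0 := cocycles₁_map_one (⟨f, hf⟩ : cocycles₁ M)
      simp only [Φ]
      rw [one_mul] at h
      rw [h, h1]
  have hinj : Set.InjOn Φ {f | f ∈ cocycles₁ M ∧ IsLevelConstantS₁ S f} := by
    rintro f ⟨hf, -⟩ f' ⟨hf', -⟩ h
    have h1 : ∀ n : L.fixingSubgroup, f n = f' n := fun n => congrFun (congrArg Prod.fst h) n
    have h2 : ∀ x : (AlgebraicClosure ℚ ≃ₐ[ℚ] AlgebraicClosure ℚ) ⧸ L.fixingSubgroup,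
        f x.out = f' x.out := fun x => congrFun (congrArg Prod.snd h) x
    funext g
    obtain ⟨n, hn⟩ := QuotientGroup.mk_out_eq_mul L.fixingSubgroup g
    have hg : g = (QuotientGroup.mk g :
        (AlgebraicClosure ℚ ≃ₐ[ℚ] AlgebraicClosure ℚ) ⧸ L.fixingSubgroup).out *
          ((n⁻¹ : L.fixingSubgroup) : AlgebraicClosure ℚ ≃ₐ[ℚ] AlgebraicClosure ℚ) := by
      rw [hn, Subgroup.coe_inv, mul_inv_cancel_right]
    rw [hg, (mem_cocycles₁_iff f).1 hf, (mem_cocycles₁_iff f').1 hf', h1, h2]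
  exact Set.Finite.of_injOn hmaps hinj (hYM.prod Set.finite_univ)

/-- **Reduction.**  `continuousH1S S M` is finite-dimensional if the set of scalar level characters
of `G_L` is finite. -/
theorem finiteDimensional_continuousH1S_of_levelChar
    (M : Rep.{0, 0, 0} (ZMod p) (AlgebraicClosure ℚ ≃ₐ[ℚ] AlgebraicClosure ℚ))
    [FiniteDimensional (ZMod p) M]
    (L : IntermediateField ℚ (AlgebraicClosure ℚ)) (hLfin : FiniteDimensional ℚ L)
    (hLM : ∀ s ∈ L.fixingSubgroup, M.ρ s = 1)
    (hY : (LevelChar S L (ZMod p)).Finite) :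
    FiniteDimensional (ZMod p) (continuousH1S S M) := by
  have hfin := finite_levelCocycles S M L hLfin hLM hY
  have hsub : ((continuousH1S S M : Submodule (ZMod p) (H1 M)) : Set (H1 M)) ⊆
      (fun f : {f : (AlgebraicClosure ℚ ≃ₐ[ℚ] AlgebraicClosure ℚ) → M |
          f ∈ cocycles₁ M ∧ IsLevelConstantS₁ S f} =>
        (H1π M).hom (⟨f.1, f.2.1⟩ : cocycles₁ M)) '' Set.univ := by
    intro x hx
    obtain ⟨c, hc, rfl⟩ := (mem_continuousH1S_iff S M x).1 hx
    exact ⟨⟨(c : (AlgebraicClosure ℚ ≃ₐ[ℚ] AlgebraicClosure ℚ) → M), c.2, hc⟩, Set.mem_univ _, rfl⟩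
  haveI := hfin.to_subtype
  have hfin2 : ((continuousH1S S M : Submodule (ZMod p) (H1 M)) : Set (H1 M)).Finite :=
    (Set.finite_univ.image _).subset hsub
  haveI : Finite (continuousH1S S M) := hfin2.to_subtype
  exact Module.Finite.of_finite

end Fermat.Agent.S55.H654

end
-- ===== PACK-END S55/H654/H1Fin.lean

-- ===== PACK-BEGIN S56/Euler/H896/HerbAlg.lean
section
/-
S56 / W-BASE / leaf EUL-HERB (helper896), part 1: pure algebra (Mathlib + the landed
Mathlib-only file `S56/H486/T4Charpoly`).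

* `charpoly_of_exact`     : multiplicativity of the characteristic polynomial in short exact
                            sequences of finite free modules;
* `cpMod p f`             : the characteristic polynomial of `f ⊗ 𝔽_p` on `𝔽_p ⊗ A` for an
                            endomorphism `f` of a finitely generated abelian group `A`;
* `cpMod_free`            : `cpMod p f = f.charpoly mod p` for a lattice;
* `cpMod_of_exact`        : multiplicativity of `cpMod` in short exact sequences with FREE cokernel;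
* `charpoly_eq_cpMod_of_model` : any model `π : A ↠ V`, `ker π = pA` of `A/pA` computes `cpMod`.
-/



set_option autoImplicit false
set_option linter.style.haveILetI false
set_option linter.unusedSimpArgs false

namespace Fermat.Agent.S56.Euler.H896

open Polynomial TensorProduct

/-! ## 1. Short exact sequences -/

section SES

variable {R : Type*} [CommRing R]
  {V' V V'' : Type*} [AddCommGroup V'] [AddCommGroup V] [AddCommGroup V'']
  [Module R V'] [Module R V] [Module R V'']
  [Module.Free R V'] [Module.Finite R V'] [Module.Free R V] [Module.Finite R V]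
  [Module.Free R V''] [Module.Finite R V'']

/-- The characteristic polynomial is multiplicative in short exact sequences of finite free
modules with compatible endomorphisms. -/
theorem charpoly_of_exact (i : V' →ₗ[R] V) (q : V →ₗ[R] V'')
    (hi : Function.Injective i) (hq : Function.Surjective q) (hex : Function.Exact i q)
    (f' : V' →ₗ[R] V') (f : V →ₗ[R] V) (f'' : V'' →ₗ[R] V'')
    (h1 : ∀ x, i (f' x) = f (i x)) (h2 : ∀ x, q (f x) = f'' (q x)) :
    f.charpoly = f'.charpoly * f''.charpoly := by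
  classical
  set W : Submodule R V := LinearMap.range i with hW
  have hker : LinearMap.ker q = W := (LinearMap.exact_iff.mp hex)
  let e1 : V' ≃ₗ[R] W := LinearEquiv.ofInjective i hi
  let e2 : (V ⧸ W) ≃ₗ[R] V'' :=
    (Submodule.quotEquivOfEq W (LinearMap.ker q) hker.symm).trans (q.quotKerEquivOfSurjective hq)
  haveI : Module.Free R W := Module.Free.of_equiv e1
  haveI : Module.Finite R W := Module.Finite.equiv e1
  haveI : Module.Free R (V ⧸ W) := Module.Free.of_equiv e2.symm
  have he : W ≤ W.comap f := by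
    rintro _ ⟨x, rfl⟩
    exact ⟨f' x, h1 x⟩
  rw [Fermat.Agent.S56.H486.t4_charpoly_eq_restrict_mul_mapQ W f he]
  congr 1
  · symm
    apply Fermat.Agent.S56.H486.t4_charpoly_eq_of_equiv e1
    intro x
    apply Subtype.ext
    change i (f' x) = f (i x)
    exact h1 x
  · apply Fermat.Agent.S56.H486.t4_charpoly_eq_of_equiv e2
    intro x
    induction x using Submodule.Quotient.induction_on with
    | _ x =>
      simp only [Submodule.mapQ_apply]
      change q (f x) = f'' (q x)
      exact h2 x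

end SES

/-! ## 2. The characteristic polynomial mod `p` of an endomorphism of a f.g. abelian group -/

section CpMod

variable (p : ℕ) [Fact p.Prime]

/-- The characteristic polynomial of `f ⊗ 𝔽_p` acting on `𝔽_p ⊗_ℤ A`. -/
noncomputable def cpMod {A : Type*} [AddCommGroup A] [Module.Finite ℤ A] (f : A →ₗ[ℤ] A) :
    (ZMod p)[X] :=
  (f.baseChange (ZMod p)).charpoly

/-- For a lattice, `cpMod` is the reduction of the integral characteristic polynomial. -/
theorem cpMod_free {A : Type*} [AddCommGroup A] [Module.Finite ℤ A] [Module.Free ℤ A]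
    (f : A →ₗ[ℤ] A) : cpMod p f = f.charpoly.map (Int.castRingHom (ZMod p)) := by
  unfold cpMod
  rw [LinearMap.charpoly_baseChange]
  rfl

/-- Equivariantly isomorphic endomorphisms have the same `cpMod`. -/
theorem cpMod_congr {A B : Type*} [AddCommGroup A] [Module.Finite ℤ A] [AddCommGroup B]
    [Module.Finite ℤ B] (e : A ≃ₗ[ℤ] B) (f : A →ₗ[ℤ] A) (g : B →ₗ[ℤ] B)
    (h : ∀ x, e (f x) = g (e x)) : cpMod p f = cpMod p g := by
  unfold cpMod
  apply Fermat.Agent.S56.H486.t4_charpoly_eq_of_equiv (e.baseChange ℤ (ZMod p) A B)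
  intro x
  induction x using TensorProduct.induction_on with
  | zero => simp
  | tmul a x => simp [h]
  | add x y hx hy => simp only [map_add, hx, hy]

/-- `cpMod` is multiplicative in short exact sequences with free cokernel. -/
theorem cpMod_of_exact {A' A A'' : Type*} [AddCommGroup A'] [AddCommGroup A] [AddCommGroup A'']
    [Module.Finite ℤ A'] [Module.Finite ℤ A] [Module.Finite ℤ A''] [Module.Free ℤ A'']
    (i : A' →ₗ[ℤ] A) (q : A →ₗ[ℤ] A'')
    (hi : Function.Injective i) (hq : Function.Surjective q) (hex : Function.Exact i q)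
    (f' : A' →ₗ[ℤ] A') (f : A →ₗ[ℤ] A) (f'' : A'' →ₗ[ℤ] A'')
    (h1 : ∀ x, i (f' x) = f (i x)) (h2 : ∀ x, q (f x) = f'' (q x)) :
    cpMod p f = cpMod p f' * cpMod p f'' := by
  classical
  unfold cpMod
  -- a section of `q` and the induced retraction of `i`
  obtain ⟨s, hs⟩ := Module.projective_lifting_property q LinearMap.id hq
  have hs' : ∀ x, q (s x) = x := fun x => by
    have := congrArg (fun l => l x) hs
    simpa using this
  have hmem : ∀ a : A, a - s (q a) ∈ LinearMap.range i := by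
    intro a
    rw [← LinearMap.exact_iff.mp hex, LinearMap.mem_ker, map_sub, hs', sub_self]
  let e1 : A' ≃ₗ[ℤ] LinearMap.range i := LinearEquiv.ofInjective i hi
  let r : A →ₗ[ℤ] A' :=
    e1.symm.toLinearMap ∘ₗ
      (LinearMap.codRestrict (LinearMap.range i) (LinearMap.id - s ∘ₗ q) hmem)
  have hr : r ∘ₗ i = LinearMap.id := by
    ext x
    have h0 : q (i x) = 0 := hex.apply_apply_eq_zero x
    have : LinearMap.codRestrict (LinearMap.range i) (LinearMap.id - s ∘ₗ q) hmem (i x) =
        e1 x := by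
      apply Subtype.ext
      simp [e1, h0]
    simp [r, this]
  have hinj : Function.Injective (i.baseChange (ZMod p)) := by
    have h : (r.baseChange (ZMod p)) ∘ₗ (i.baseChange (ZMod p)) = LinearMap.id := by
      rw [← LinearMap.baseChange_comp, hr, LinearMap.baseChange_id]
    exact Function.LeftInverse.injective (g := r.baseChange (ZMod p))
      (fun x => by
        have := congrArg (fun l => l x) h
        simpa using this)
  have hsurj : Function.Surjective (q.baseChange (ZMod p)) := by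
    rw [LinearMap.baseChange_eq_ltensor]
    exact LinearMap.lTensor_surjective _ hq
  have hexact : Function.Exact (i.baseChange (ZMod p)) (q.baseChange (ZMod p)) := by
    rw [LinearMap.baseChange_eq_ltensor, LinearMap.baseChange_eq_ltensor]
    exact lTensor_exact (ZMod p) hex hq
  apply charpoly_of_exact (i.baseChange (ZMod p)) (q.baseChange (ZMod p)) hinj hsurj hexact
  · intro x
    induction x using TensorProduct.induction_on with
    | zero => simp
    | tmul a x => simp [h1]
    | add x y hx hy => simp only [map_add, hx, hy]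
  · intro x
    induction x using TensorProduct.induction_on with
    | zero => simp
    | tmul a x => simp [h2]
    | add x y hx hy => simp only [map_add, hx, hy]

/-- Every element of `𝔽_p ⊗ A` is of the form `1 ⊗ a`. -/
theorem exists_one_tmul {A : Type*} [AddCommGroup A] (x : ZMod p ⊗[ℤ] A) :
    ∃ a : A, x = (1 : ZMod p) ⊗ₜ[ℤ] a := by
  induction x using TensorProduct.induction_on with
  | zero => exact ⟨0, by simp⟩
  | tmul c a =>
    obtain ⟨n, rfl⟩ := ZMod.intCast_surjective c
    refine ⟨n • a, ?_⟩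
    rw [TensorProduct.tmul_smul, TensorProduct.smul_tmul', zsmul_one]
  | add x y hx hy =>
    obtain ⟨a, rfl⟩ := hx
    obtain ⟨b, rfl⟩ := hy
    exact ⟨a + b, by rw [TensorProduct.tmul_add]⟩

/-- **Models.** If `π : A ↠ V` is a surjection onto an `𝔽_p`-vector space with kernel `pA` and
`g` is the endomorphism of `V` induced by `f`, then `g.charpoly = cpMod p f`. -/
theorem charpoly_eq_cpMod_of_model {A : Type*} [AddCommGroup A] [Module.Finite ℤ A]
    (f : A →ₗ[ℤ] A)
    {V : Type*} [AddCommGroup V] [Module (ZMod p) V] [Module.Finite (ZMod p) V]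
    (g : V →ₗ[ZMod p] V) (π : A →+ V) (hπ : Function.Surjective π)
    (hπk : ∀ a, π a = 0 → ∃ b, a = p • b) (hg : ∀ a, π (f a) = g (π a)) :
    g.charpoly = cpMod p f := by
  classical
  unfold cpMod
  symm
  let l : ZMod p ⊗[ℤ] A →ₗ[ZMod p] V := LinearMap.liftBaseChange (ZMod p) π.toIntLinearMap
  have hl : ∀ (c : ZMod p) (a : A), l (c ⊗ₜ a) = c • π a := by
    intro c a
    simp [l]
  have hlinj : Function.Injective l := by
    rw [injective_iff_map_eq_zero]
    intro x hx
    obtain ⟨a, rfl⟩ := exists_one_tmul p x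
    rw [hl, one_smul] at hx
    obtain ⟨b, rfl⟩ := hπk a hx
    rw [← Nat.cast_smul_eq_nsmul ℤ, TensorProduct.tmul_smul, TensorProduct.smul_tmul']
    simp
  have hlsurj : Function.Surjective l := by
    intro v
    obtain ⟨a, rfl⟩ := hπ v
    exact ⟨1 ⊗ₜ a, by rw [hl, one_smul]⟩
  apply Fermat.Agent.S56.H486.t4_charpoly_eq_of_equiv (LinearEquiv.ofBijective l ⟨hlinj, hlsurj⟩)
  intro x
  obtain ⟨a, rfl⟩ := exists_one_tmul p x
  rw [LinearMap.baseChange_tmul]
  change l (1 ⊗ₜ f a) = g (l (1 ⊗ₜ a))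
  rw [hl, hl, one_smul, one_smul, hg]

end CpMod

/-! ## 3. Lattices: comparison of characteristic polynomials -/

section Lattice

/-- **Base change along a basis.**  If `j : Λ → W` is an `R`-linear equivariant map from a free
`R`-module to a free `S`-module carrying a basis to a basis, the characteristic polynomial on `W`
is the image of the one on `Λ`. -/
theorem charpoly_map_of_basis {R S : Type*} [CommRing R] [CommRing S] [Algebra R S]
    {Λ W : Type*} [AddCommGroup Λ] [Module R Λ] [AddCommGroup W] [Module S W] [Module R W]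
    [IsScalarTower R S W]
    [Module.Free R Λ] [Module.Finite R Λ] [Module.Free S W] [Module.Finite S W]
    {ι : Type*} [Fintype ι] [DecidableEq ι] (bΛ : Module.Basis ι R Λ) (bW : Module.Basis ι S W)
    (j : Λ →ₗ[R] W) (hj : ∀ i, j (bΛ i) = bW i)
    (f : Λ →ₗ[R] Λ) (F : W →ₗ[S] W) (hf : ∀ x, j (f x) = F (j x)) :
    F.charpoly = f.charpoly.map (algebraMap R S) := by
  have key : ∀ x : Λ, ∀ i, bW.repr (j x) i = algebraMap R S (bΛ.repr x i) := by
    intro x i
    have hx : j x = ∑ l, (algebraMap R S (bΛ.repr x l)) • bW l := by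
      conv_lhs => rw [← bΛ.sum_repr x]
      rw [map_sum]
      refine Finset.sum_congr rfl fun l _ => ?_
      rw [map_smul, hj, algebraMap_smul]
    rw [hx, bW.repr_sum_self]
  rw [← F.charpoly_toMatrix bW, ← f.charpoly_toMatrix bΛ, ← Matrix.charpoly_map]
  congr 1
  ext i k
  rw [LinearMap.toMatrix_apply, Matrix.map_apply, LinearMap.toMatrix_apply, ← hj, ← hf, key]

/-- **Isogenous lattices.**  Two lattices related by equivariant maps `j`, `k` with
`j ∘ k = m`, `k ∘ j = m` (`m ≠ 0`) have the same characteristic polynomial. -/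
theorem charpoly_eq_of_isogeny {Λ' Λ₀ : Type*} [AddCommGroup Λ'] [AddCommGroup Λ₀]
    [Module.Free ℤ Λ'] [Module.Finite ℤ Λ'] [Module.Free ℤ Λ₀] [Module.Finite ℤ Λ₀]
    (j : Λ' →ₗ[ℤ] Λ₀) (k : Λ₀ →ₗ[ℤ] Λ') (m : ℤ) (hm : m ≠ 0)
    (hjk : ∀ x, j (k x) = m • x) (hkj : ∀ x, k (j x) = m • x)
    (f' : Λ' →ₗ[ℤ] Λ') (f₀ : Λ₀ →ₗ[ℤ] Λ₀) (h : ∀ x, j (f' x) = f₀ (j x)) :
    f'.charpoly = f₀.charpoly := by
  apply Polynomial.map_injective (Int.castRingHom ℚ) Int.cast_injective
  have e1 := LinearMap.charpoly_baseChange f' ℚ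
  have e2 := LinearMap.charpoly_baseChange f₀ ℚ
  change _ = f'.charpoly.map (Int.castRingHom ℚ) at e1
  change _ = f₀.charpoly.map (Int.castRingHom ℚ) at e2
  rw [← e1, ← e2]
  have hmQ : (m : ℚ) ≠ 0 := by exact_mod_cast hm
  have h1 : (j.baseChange ℚ) ∘ₗ ((m : ℚ)⁻¹ • k.baseChange ℚ) = LinearMap.id := by
    ext x
    simp only [TensorProduct.AlgebraTensorModule.curry_apply, LinearMap.restrictScalars_comp,
      TensorProduct.curry_apply, LinearMap.coe_comp, LinearMap.coe_restrictScalars,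
      Function.comp_apply, LinearMap.smul_apply, LinearMap.baseChange_tmul, map_smul, hjk,
      LinearMap.id_coe, id_eq]
    rw [TensorProduct.tmul_smul, ← Int.cast_smul_eq_zsmul ℚ, smul_smul, inv_mul_cancel₀ hmQ,
      one_smul]
  have h2 : ((m : ℚ)⁻¹ • k.baseChange ℚ) ∘ₗ (j.baseChange ℚ) = LinearMap.id := by
    ext x
    simp only [TensorProduct.AlgebraTensorModule.curry_apply, LinearMap.restrictScalars_comp,
      TensorProduct.curry_apply, LinearMap.coe_comp, LinearMap.coe_restrictScalars,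
      Function.comp_apply, LinearMap.smul_apply, LinearMap.baseChange_tmul, hkj,
      LinearMap.id_coe, id_eq]
    rw [TensorProduct.tmul_smul, ← Int.cast_smul_eq_zsmul ℚ, smul_smul, inv_mul_cancel₀ hmQ,
      one_smul]
  apply Fermat.Agent.S56.H486.t4_charpoly_eq_of_equiv
    (LinearEquiv.ofLinearMap (j.baseChange ℚ) ((m : ℚ)⁻¹ • k.baseChange ℚ) h1 h2)
  intro x
  induction x using TensorProduct.induction_on with
  | zero => simp
  | tmul a x => simp [h]
  | add x y hx hy => simp only [map_add, hx, hy]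

/-- The permutation-type endomorphism `a ↦ a ∘ s` of `X → R`. -/
abbrev permLin (R : Type*) [CommRing R] {X : Type*} (s : X → X) : (X → R) →ₗ[R] (X → R) :=
  LinearMap.funLeft R R s

/-- The characteristic polynomial of `permLin` is compatible with change of rings. -/
theorem permLin_charpoly_map (R S : Type*) [CommRing R] [CommRing S] [Algebra R S]
    {X : Type*} [Fintype X] (s : X → X) :
    (permLin S s).charpoly = (permLin R s).charpoly.map (algebraMap R S) := by
  classical
  letI : Module R (X → S) := Pi.module _ _ _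
  apply charpoly_map_of_basis (Pi.basisFun R X) (Pi.basisFun S X)
    ((Algebra.linearMap R S).compLeft X)
  · intro i
    ext x
    by_cases hx : x = i
    · subst hx; simp
    · simp [hx]
  · intro a
    ext x
    simp [LinearMap.funLeft]

end Lattice

end Fermat.Agent.S56.Euler.H896

end
-- ===== PACK-END S56/Euler/H896/HerbAlg.lean

-- ===== PACK-BEGIN S56/H254/FlatProd.lean
section


/-!
# S56 / W-FLAT, bridge piece FL-BR (PROD): products of flat Galois modules (helper254)

`IsFlatMod.prod` : if `X₁`, `X₂` are flat (points of `H₁`, `H₂`) then `X₁ × X₂` with the diagonal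
action is flat (points of `H₁ ⊗ H₂`).
-/

set_option autoImplicit false

open scoped TensorProduct
open WithConv

noncomputable section

namespace Fermat.Agent.S56.H254

local notation "Qb" => AlgebraicClosure ℚ
local notation "GQ" => (AlgebraicClosure ℚ ≃ₐ[ℚ] AlgebraicClosure ℚ)
local notation "Zloc" => GaloisRep.ratLocalizedAt

section incl

variable (R : Type) [CommRing R] (A B : Type) [CommRing A] [CommRing B]
  [Bialgebra R A] [Bialgebra R B]

/-- `a ↦ a ⊗ 1` as a bialgebra homomorphism. -/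
def inclLeftBialg : A →ₐc[R] A ⊗[R] B :=
  (Bialgebra.TensorProduct.map (BialgHom.id R A) (Bialgebra.unitBialgHom R B)).comp
    ((Bialgebra.TensorProduct.rid R R A).symm : A →ₐc[R] A ⊗[R] R)

/-- `b ↦ 1 ⊗ b` as a bialgebra homomorphism. -/
def inclRightBialg : B →ₐc[R] A ⊗[R] B :=
  (Bialgebra.TensorProduct.map (Bialgebra.unitBialgHom R A) (BialgHom.id R B)).comp
    ((Bialgebra.TensorProduct.lid R B).symm : B →ₐc[R] R ⊗[R] B)

@[simp] theorem inclLeftBialg_apply (a : A) : inclLeftBialg R A B a = a ⊗ₜ[R] (1 : B) := by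
  show (Bialgebra.TensorProduct.map (BialgHom.id R A) (Bialgebra.unitBialgHom R B))
    ((Bialgebra.TensorProduct.rid R R A).symm a) = _
  rw [Bialgebra.TensorProduct.rid_symm_apply, Bialgebra.TensorProduct.map_tmul]
  simp [Bialgebra.unitBialgHom]

@[simp] theorem inclRightBialg_apply (b : B) : inclRightBialg R A B b = (1 : A) ⊗ₜ[R] b := by
  show (Bialgebra.TensorProduct.map (Bialgebra.unitBialgHom R A) (BialgHom.id R B))
    ((Bialgebra.TensorProduct.lid R B).symm b) = _
  rw [Bialgebra.TensorProduct.lid_symm_apply, Bialgebra.TensorProduct.map_tmul]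
  simp [Bialgebra.unitBialgHom]

end incl

section prod

variable {p : ℕ} {X₁ X₂ : Type} [AddCommGroup X₁] [AddCommGroup X₂]

/-- **(PROD)** the product of two flat Galois modules is flat. -/
theorem IsFlatMod.prod {act₁ : GQ → X₁ → X₁} {act₂ : GQ → X₂ → X₂}
    (h₁ : IsFlatMod p X₁ act₁) (h₂ : IsFlatMod p X₂ act₂) :
    IsFlatMod p (X₁ × X₂) (fun σ x => (act₁ σ x.1, act₂ σ x.2)) := by
  obtain ⟨H₁, i1, i2, hfin₁, hflat₁, hco₁, e₁, hadd₁, heq₁⟩ := h₁
  obtain ⟨H₂, j1, j2, hfin₂, hflat₂, hco₂, e₂, hadd₂, heq₂⟩ := h₂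
  let ι₁ : H₁ →ₐc[Zloc p] H₁ ⊗[Zloc p] H₂ := inclLeftBialg (Zloc p) H₁ H₂
  let ι₂ : H₂ →ₐc[Zloc p] H₁ ⊗[Zloc p] H₂ := inclRightBialg (Zloc p) H₁ H₂
  -- restriction of points to the two factors
  let r₁ : WithConv (H₁ ⊗[Zloc p] H₂ →ₐ[Zloc p] Qb) → WithConv (H₁ →ₐ[Zloc p] Qb) :=
    fun f => toConv (f.ofConv.comp (ι₁ : H₁ →ₐ[Zloc p] H₁ ⊗[Zloc p] H₂))
  let r₂ : WithConv (H₁ ⊗[Zloc p] H₂ →ₐ[Zloc p] Qb) → WithConv (H₂ →ₐ[Zloc p] Qb) :=
    fun f => toConv (f.ofConv.comp (ι₂ : H₂ →ₐ[Zloc p] H₁ ⊗[Zloc p] H₂))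
  have hr₁ : ∀ f g, r₁ (f * g) = r₁ f * r₁ g := by
    intro f g
    apply WithConv.ofConv_injective
    exact AlgHom.convMul_comp_bialgHom_distrib f g ι₁
  have hr₂ : ∀ f g, r₂ (f * g) = r₂ f * r₂ g := by
    intro f g
    apply WithConv.ofConv_injective
    exact AlgHom.convMul_comp_bialgHom_distrib f g ι₂
  have hr₁a : ∀ (f : WithConv (H₁ ⊗[Zloc p] H₂ →ₐ[Zloc p] Qb)) (a : H₁),
      r₁ f a = f (a ⊗ₜ[Zloc p] (1 : H₂)) := by
    intro f a
    show f.ofConv (ι₁ a) = _
    rw [inclLeftBialg_apply]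
  have hr₂a : ∀ (f : WithConv (H₁ ⊗[Zloc p] H₂ →ₐ[Zloc p] Qb)) (b : H₂),
      r₂ f b = f ((1 : H₁) ⊗ₜ[Zloc p] b) := by
    intro f b
    show f.ofConv (ι₂ b) = _
    rw [inclRightBialg_apply]
  -- the equivalence `Hom(H₁ ⊗ H₂, ℚ̄) ≃ Hom(H₁, ℚ̄) × Hom(H₂, ℚ̄)`
  let E : WithConv (H₁ ⊗[Zloc p] H₂ →ₐ[Zloc p] Qb) ≃ X₁ × X₂ :=
    { toFun := fun f => (e₁ (r₁ f), e₂ (r₂ f))
      invFun := fun x => toConv (Algebra.TensorProduct.productMap (e₁.symm x.1).ofConv
        (e₂.symm x.2).ofConv)
      left_inv := by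
        intro f
        apply WithConv.ofConv_injective
        simp only [Equiv.symm_apply_apply]
        apply Algebra.TensorProduct.ext'
        intro a b
        rw [Algebra.TensorProduct.productMap_apply_tmul]
        have h1 : (r₁ f).ofConv a = f (a ⊗ₜ[Zloc p] (1 : H₂)) := hr₁a f a
        have h2 : (r₂ f).ofConv b = f ((1 : H₁) ⊗ₜ[Zloc p] b) := hr₂a f b
        rw [h1, h2]
        show f.ofConv _ * f.ofConv _ = f.ofConv _
        rw [← map_mul, Algebra.TensorProduct.tmul_mul_tmul, mul_one, one_mul]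
      right_inv := by
        rintro ⟨x₁, x₂⟩
        have h1 : r₁ (toConv (Algebra.TensorProduct.productMap (e₁.symm x₁).ofConv
            (e₂.symm x₂).ofConv)) = e₁.symm x₁ := by
          apply WithConv.ofConv_injective
          ext a
          have := hr₁a (toConv (Algebra.TensorProduct.productMap (e₁.symm x₁).ofConv
            (e₂.symm x₂).ofConv)) a
          rw [show (r₁ (toConv (Algebra.TensorProduct.productMap (e₁.symm x₁).ofConv
            (e₂.symm x₂).ofConv))).ofConv a = _ from this]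
          show Algebra.TensorProduct.productMap (e₁.symm x₁).ofConv (e₂.symm x₂).ofConv
            (a ⊗ₜ[Zloc p] (1 : H₂)) = _
          rw [Algebra.TensorProduct.productMap_apply_tmul, map_one, mul_one]
        have h2 : r₂ (toConv (Algebra.TensorProduct.productMap (e₁.symm x₁).ofConv
            (e₂.symm x₂).ofConv)) = e₂.symm x₂ := by
          apply WithConv.ofConv_injective
          ext b
          have := hr₂a (toConv (Algebra.TensorProduct.productMap (e₁.symm x₁).ofConv
            (e₂.symm x₂).ofConv)) b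
          rw [show (r₂ (toConv (Algebra.TensorProduct.productMap (e₁.symm x₁).ofConv
            (e₂.symm x₂).ofConv))).ofConv b = _ from this]
          show Algebra.TensorProduct.productMap (e₁.symm x₁).ofConv (e₂.symm x₂).ofConv
            ((1 : H₁) ⊗ₜ[Zloc p] b) = _
          rw [Algebra.TensorProduct.productMap_apply_tmul, map_one, one_mul]
        show (e₁ (r₁ _), e₂ (r₂ _)) = (x₁, x₂)
        rw [h1, h2, Equiv.apply_symm_apply, Equiv.apply_symm_apply] }
  refine ⟨H₁ ⊗[Zloc p] H₂, inferInstance, inferInstance, inferInstance, inferInstance,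
    inferInstance, E, fun f g => ?_, fun σ f g hfg => ?_⟩
  · show (e₁ (r₁ (f * g)), e₂ (r₂ (f * g))) = (e₁ (r₁ f), e₂ (r₂ f)) + (e₁ (r₁ g), e₂ (r₂ g))
    rw [hr₁, hr₂, hadd₁, hadd₂]
    rfl
  · show (e₁ (r₁ g), e₂ (r₂ g)) = (act₁ σ (e₁ (r₁ f)), act₂ σ (e₂ (r₂ f)))
    rw [heq₁ σ (r₁ f) (r₁ g) (fun a => by rw [hr₁a, hr₁a]; exact hfg _),
      heq₂ σ (r₂ f) (r₂ g) (fun b => by rw [hr₂a, hr₂a]; exact hfg _)]

end prod

end Fermat.Agent.S56.H254

end

end
-- ===== PACK-END S56/H254/FlatProd.lean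

-- ===== PACK-BEGIN S56/H384/ApproxAlg.lean
section


/-!
# S56 / W2-SS piece A5 (helper384): finite commutative algebras over an algebraically closed
valued field

* `exists_algHom_of_isRoot_charpoly` : every root of the characteristic polynomial of
  multiplication by `a` is the value at `a` of a character;
* `IntC` : elements with integral coordinates in a basis, and the approximate Cayley-Hamilton
  estimate `approx_prod` / `exists_root_near` for an approximately multiplicative functional.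
-/

set_option autoImplicit false
set_option linter.unusedSectionVars false
set_option linter.style.haveILetI false

namespace Fermat.Agent.S56.H384

open Polynomial

section Char

variable {Ω : Type*} [Field Ω] [IsAlgClosed Ω] {A : Type*} [CommRing A] [Algebra Ω A]
  [Module.Finite Ω A]

/-- Every root of the characteristic polynomial of multiplication by `a` in a finite
commutative algebra over an algebraically closed field is `χ a` for a character `χ`. -/
theorem exists_algHom_of_isRoot_charpoly (a : A) {lam : Ω}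
    (h : (LinearMap.mulLeft Ω a).charpoly.IsRoot lam) : ∃ χ : A →ₐ[Ω] Ω, χ a = lam := by
  have hev := (Module.End.hasEigenvalue_iff_isRoot_charpoly (LinearMap.mulLeft Ω a) lam).mpr h
  obtain ⟨y, hy⟩ := hev.exists_hasEigenvector
  have hy1 : a * y = lam • y := hy.apply_eq_smul
  have hy0 : y ≠ 0 := hy.2
  have hnu : a - algebraMap Ω A lam ∈ nonunits A := by
    intro hu
    apply hy0
    have h0 : (a - algebraMap Ω A lam) * y = 0 := by
      rw [sub_mul, hy1, Algebra.smul_def, sub_self]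
    exact (hu.mul_right_eq_zero).mp h0
  obtain ⟨m, hm, ham⟩ := exists_max_ideal_of_mem_nonunits hnu
  letI := Ideal.Quotient.field m
  have hbij : Function.Bijective (algebraMap Ω (A ⧸ m)) :=
    IsAlgClosed.algebraMap_bijective_of_isIntegral
  let e : Ω ≃ₐ[Ω] (A ⧸ m) := AlgEquiv.ofBijective (Algebra.ofId Ω (A ⧸ m)) hbij
  refine ⟨(e.symm : (A ⧸ m) →ₐ[Ω] Ω).comp (Ideal.Quotient.mkₐ Ω m), ?_⟩
  have h0 : ((e.symm : (A ⧸ m) →ₐ[Ω] Ω).comp (Ideal.Quotient.mkₐ Ω m))
      (a - algebraMap Ω A lam) = 0 := by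
    have : (Ideal.Quotient.mkₐ Ω m) (a - algebraMap Ω A lam) = 0 :=
      Ideal.Quotient.eq_zero_iff_mem.mpr ham
    rw [AlgHom.comp_apply, this, map_zero]
  rw [map_sub, AlgHom.commutes, sub_eq_zero] at h0
  simpa using h0

end Char

section Approx

variable {Ω : Type*} [Field Ω] {Γ : Type*} [LinearOrderedCommGroupWithZero Γ] (v : Valuation Ω Γ)
variable {A : Type*} [CommRing A] [Algebra Ω A] {ι : Type*} [Fintype ι]
  (B : Module.Basis ι Ω A)

/-- Elements of `A` with `v`-integral coordinates in the basis `B`. -/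
def IntC (a : A) : Prop := ∀ i, v (B.repr a i) ≤ 1

variable {v B}

theorem IntC.zero : IntC v B 0 := fun i => by simp

theorem IntC.add {a a' : A} (ha : IntC v B a) (ha' : IntC v B a') : IntC v B (a + a') :=
  fun i => by
    rw [map_add, Finsupp.add_apply]
    exact v.map_add_le (ha i) (ha' i)

theorem IntC.sub {a a' : A} (ha : IntC v B a) (ha' : IntC v B a') : IntC v B (a - a') :=
  fun i => by
    rw [map_sub, Finsupp.sub_apply]
    exact v.map_sub_le (ha i) (ha' i)

theorem IntC.smul {s : Ω} (hs : v s ≤ 1) {a : A} (ha : IntC v B a) : IntC v B (s • a) :=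
  fun i => by
    rw [map_smul, Finsupp.smul_apply, smul_eq_mul, map_mul]
    exact mul_le_one' hs (ha i)

theorem IntC.sum {κ : Type*} (s : Finset κ) (g : κ → A) (hg : ∀ k ∈ s, IntC v B (g k)) :
    IntC v B (∑ k ∈ s, g k) := fun i => by
  rw [map_sum, Finsupp.coe_finsetSum, Finset.sum_apply]
  exact v.map_sum_le fun k hk => hg k hk i

theorem mul_eq_sum_sum (a a' : A) :
    a * a' = ∑ i, ∑ j, (B.repr a i * B.repr a' j) • (B i * B j) := by
  conv_lhs => rw [← B.sum_repr a, ← B.sum_repr a']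
  rw [Finset.sum_mul_sum]
  refine Finset.sum_congr rfl fun i _ => Finset.sum_congr rfl fun j _ => ?_
  rw [smul_mul_smul_comm]

theorem IntC.mul (hBmul : ∀ i j, IntC v B (B i * B j)) {a a' : A} (ha : IntC v B a)
    (ha' : IntC v B a') : IntC v B (a * a') := by
  rw [mul_eq_sum_sum (B := B) a a']
  refine IntC.sum _ _ fun i _ => IntC.sum _ _ fun j _ => IntC.smul ?_ (hBmul i j)
  rw [map_mul]
  exact mul_le_one' (ha i) (ha' j)

variable (φ : A →ₗ[Ω] Ω) {μ : Γ}

theorem apply_eq_sum (a : A) : φ a = ∑ i, B.repr a i * φ (B i) := by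
  conv_lhs => rw [← B.sum_repr a]
  rw [map_sum]
  refine Finset.sum_congr rfl fun i _ => ?_
  rw [map_smul, smul_eq_mul]

theorem IntC.val_apply_le (hφ : ∀ i, v (φ (B i)) ≤ 1) {a : A} (ha : IntC v B a) :
    v (φ a) ≤ 1 := by
  rw [apply_eq_sum (B := B) φ a]
  refine v.map_sum_le fun i _ => ?_
  rw [map_mul]
  exact mul_le_one' (ha i) (hφ i)

/-- Approximate multiplicativity on the basis extends to the integral lattice. -/
theorem IntC.approx_mul (hmul : ∀ i j, v (φ (B i * B j) - φ (B i) * φ (B j)) ≤ μ)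
    {a a' : A} (ha : IntC v B a) (ha' : IntC v B a') :
    v (φ (a * a') - φ a * φ a') ≤ μ := by
  have e : φ (a * a') - φ a * φ a' =
      ∑ i, ∑ j, (B.repr a i * B.repr a' j) * (φ (B i * B j) - φ (B i) * φ (B j)) := by
    rw [mul_eq_sum_sum (B := B) a a', apply_eq_sum (B := B) φ a, apply_eq_sum (B := B) φ a',
      Finset.sum_mul_sum, map_sum, ← Finset.sum_sub_distrib]
    refine Finset.sum_congr rfl fun i _ => ?_
    rw [map_sum, ← Finset.sum_sub_distrib]
    refine Finset.sum_congr rfl fun j _ => ?_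
    rw [map_smul, smul_eq_mul]
    ring
  rw [e]
  refine v.map_sum_le fun i _ => v.map_sum_le fun j _ => ?_
  rw [map_mul, map_mul]
  exact mul_le_of_le_one_of_le (mul_le_one' (ha i) (ha' j)) (hmul i j)

/-- The approximate Cayley-Hamilton estimate: for integral `a` and integral scalars `lam`,
`φ (∏ (a - lam)) ≈ ∏ (φ a - lam)` up to `μ`. -/
theorem IntC.approx_prod (h1 : IntC v B 1) (hBmul : ∀ i j, IntC v B (B i * B j))
    (hφ : ∀ i, v (φ (B i)) ≤ 1) (hone : v (φ 1 - 1) ≤ μ)
    (hmul : ∀ i j, v (φ (B i * B j) - φ (B i) * φ (B j)) ≤ μ)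
    {a : A} (ha : IntC v B a) (s : Multiset Ω) (hs : ∀ lam ∈ s, v lam ≤ 1) :
    IntC v B (s.map fun lam => a - algebraMap Ω A lam).prod ∧
      v (s.map fun lam => φ a - lam).prod ≤ 1 ∧
      v (φ (s.map fun lam => a - algebraMap Ω A lam).prod - (s.map fun lam => φ a - lam).prod)
        ≤ μ := by
  induction s using Multiset.induction_on with
  | empty => simpa using ⟨h1, hone⟩
  | cons lam s ih =>
    obtain ⟨ihP, ihp, ihd⟩ := ih fun l hl => hs l (Multiset.mem_cons_of_mem hl)
    have hlam : v lam ≤ 1 := hs lam (Multiset.mem_cons_self _ _)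
    have hal : IntC v B (a - algebraMap Ω A lam) := by
      rw [Algebra.algebraMap_eq_smul_one]
      exact ha.sub (IntC.smul hlam h1)
    have hφa : v (φ a) ≤ 1 := ha.val_apply_le φ hφ
    have hφal : v (φ (a - algebraMap Ω A lam)) ≤ 1 := hal.val_apply_le φ hφ
    simp only [Multiset.map_cons, Multiset.prod_cons]
    set P := (s.map fun lam => a - algebraMap Ω A lam).prod with hP
    set p := (s.map fun lam => φ a - lam).prod with hp
    refine ⟨hal.mul hBmul ihP, ?_, ?_⟩
    · rw [map_mul]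
      exact mul_le_one' (v.map_sub_le hφa hlam) ihp
    · have e : φ ((a - algebraMap Ω A lam) * P) - (φ a - lam) * p =
          (φ ((a - algebraMap Ω A lam) * P) - φ (a - algebraMap Ω A lam) * φ P) +
            (φ (a - algebraMap Ω A lam) * (φ P - p) + (-(lam * (φ 1 - 1))) * p) := by
        have : φ (a - algebraMap Ω A lam) = φ a - lam * φ 1 := by
          rw [map_sub, Algebra.algebraMap_eq_smul_one, map_smul, smul_eq_mul]
        rw [this]
        ring
      rw [e]
      refine v.map_add_le (hal.approx_mul φ hmul ihP) (v.map_add_le ?_ ?_)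
      · rw [map_mul]
        exact mul_le_of_le_one_of_le hφal ihd
      · rw [map_mul, Valuation.map_neg, map_mul, mul_comm]
        exact mul_le_of_le_one_of_le ihp (mul_le_of_le_one_of_le hlam hone)

/-- For integral `a` some root `lam` of the characteristic polynomial of multiplication by `a`
has `v (φ a - lam) < γ`, provided the defect `μ` is `< γ ^ rank` and all roots are integral. -/
theorem IntC.exists_root_near [IsAlgClosed Ω] [Module.Finite Ω A] (h1 : IntC v B 1)
    (hBmul : ∀ i j, IntC v B (B i * B j))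
    (hφ : ∀ i, v (φ (B i)) ≤ 1) (hone : v (φ 1 - 1) ≤ μ)
    (hmul : ∀ i j, v (φ (B i * B j) - φ (B i) * φ (B j)) ≤ μ)
    {γ : Γ} (hγ : γ ≤ 1) (hμ : μ < γ ^ Fintype.card ι)
    {a : A} (ha : IntC v B a)
    (hroots : ∀ lam ∈ (LinearMap.mulLeft Ω a).charpoly.roots, v lam ≤ 1) :
    ∃ lam ∈ (LinearMap.mulLeft Ω a).charpoly.roots, v (φ a - lam) < γ := by
  set s := (LinearMap.mulLeft Ω a).charpoly.roots with hs
  have hsplit : (LinearMap.mulLeft Ω a).charpoly.Splits := IsAlgClosed.splits _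
  have hcp : (LinearMap.mulLeft Ω a).charpoly = (s.map (X - C ·)).prod :=
    hsplit.eq_prod_roots_of_monic (LinearMap.charpoly_monic _)
  have hzero : (s.map fun lam => a - algebraMap Ω A lam).prod = 0 := by
    have h0 : aeval (LinearMap.mulLeft Ω a) (LinearMap.mulLeft Ω a).charpoly = 0 :=
      LinearMap.aeval_self_charpoly _
    have h2 : aeval (Algebra.lmul Ω A a) (LinearMap.mulLeft Ω a).charpoly
        = Algebra.lmul Ω A (aeval a (LinearMap.mulLeft Ω a).charpoly) :=
      Polynomial.aeval_algHom_apply (Algebra.lmul Ω A) a _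
    have h3 : aeval a (LinearMap.mulLeft Ω a).charpoly = 0 := by
      have h4 : Algebra.lmul Ω A (aeval a (LinearMap.mulLeft Ω a).charpoly) 1 = 0 := by
        rw [← h2]
        have : (Algebra.lmul Ω A a) = LinearMap.mulLeft Ω a := rfl
        rw [this, h0]
        rfl
      simpa using h4
    rw [hcp, map_multiset_prod, Multiset.map_map] at h3
    simpa using h3
  obtain ⟨-, -, hd⟩ := IntC.approx_prod φ h1 hBmul hφ hone hmul ha s hroots
  rw [hzero, map_zero, zero_sub, Valuation.map_neg] at hd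
  by_contra hcon
  push Not at hcon
  have hcard : Multiset.card s ≤ Fintype.card ι := by
    have := Polynomial.card_roots' (LinearMap.mulLeft Ω a).charpoly
    rwa [LinearMap.charpoly_natDegree, Module.finrank_eq_card_basis B] at this
  have hge : γ ^ Multiset.card s ≤ v (s.map fun lam => φ a - lam).prod := by
    rw [map_multiset_prod, Multiset.map_map]
    have := Multiset.pow_card_le_prod (s := s.map (fun lam => v (φ a - lam))) (a := γ)
      (by
        intro x hx
        obtain ⟨lam, hl, rfl⟩ := Multiset.mem_map.mp hx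
        exact hcon lam hl)
    simpa using this
  have : γ ^ Fintype.card ι ≤ μ :=
    (pow_le_pow_right_of_le_one' hγ hcard).trans (hge.trans hd)
  exact absurd hμ (not_lt.mpr this)

end Approx

end Fermat.Agent.S56.H384

end
-- ===== PACK-END S56/H384/ApproxAlg.lean

-- ===== PACK-BEGIN S56/H734/PadicPow.lean
section



/-!
# S56 / H734 : `ℚ_pˣ = ⟨p, 1 + p⟩ · (ℚ_pˣ)^p` for odd `p`

Every nonzero `p`-adic number is of the form `p ^ i * (1 + p) ^ j * w ^ p`.
(Input of the Kummer count `dim H¹(G_{ℚ_p}, k(1)) ≤ 2`, sub-leaf KUMMER-P of LOC-SO / FLAT-O.)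
-/

set_option autoImplicit false

namespace Fermat.Agent.S56.H734

theorem neg_le_natAbs' (i : ℤ) : -i ≤ (i.natAbs : ℤ) := by
  omega

/-- `(1 + a) ^ j = 1 + j a + a² r` in any commutative ring. -/
theorem one_add_pow_eq (R : Type*) [CommRing R] (a : R) (j : ℕ) :
    ∃ r : R, (1 + a) ^ j = 1 + j * a + a ^ 2 * r := by
  induction j with
  | zero => exact ⟨0, by simp⟩
  | succ j ih =>
    obtain ⟨r, hr⟩ := ih
    refine ⟨r + r * a + j, ?_⟩
    rw [pow_succ, hr]
    push_cast
    ring

variable (p : ℕ) [hp : Fact p.Prime]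

/-- Units of `ℤ_p` (odd `p`) are of the form `(1 + p) ^ j * w ^ p`. -/
theorem padicInt_unit_eq (hp2 : p ≠ 2) (u : ℤ_[p]ˣ) :
    ∃ (j : ℕ) (w : ℤ_[p]ˣ), (u : ℤ_[p]) = (1 + (p : ℤ_[p])) ^ j * (w : ℤ_[p]) ^ p := by
  have hp1 : 1 ≤ p := hp.out.one_lt.le
  -- `v = u ^ (-(p - 1))`, `u = u ^ p * v`
  set v : ℤ_[p]ˣ := (u ^ (p - 1))⁻¹ with hv
  have huv : u = u ^ p * v := by
    rw [hv]
    have : u ^ p = u * u ^ (p - 1) := by
      rw [← pow_succ', Nat.sub_add_cancel hp1]
    rw [this, mul_assoc, mul_inv_cancel, mul_one]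
  -- `v ≡ 1 mod p`
  have hv1 : PadicInt.toZMod ((v : ℤ_[p])) = 1 := by
    have hu0 : PadicInt.toZMod (u : ℤ_[p]) ≠ 0 := by
      have : IsUnit (PadicInt.toZMod (u : ℤ_[p])) := (u.isUnit).map _
      exact this.ne_zero
    have h1 : PadicInt.toZMod ((u ^ (p - 1) : ℤ_[p]ˣ) : ℤ_[p]) = 1 := by
      rw [Units.val_pow_eq_pow_val, map_pow]
      exact ZMod.pow_card_sub_one_eq_one hu0
    have h2 : PadicInt.toZMod ((u ^ (p - 1) : ℤ_[p]ˣ) : ℤ_[p]) *
        PadicInt.toZMod ((v : ℤ_[p])) = 1 := by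
      rw [← map_mul, ← Units.val_mul, hv, mul_inv_cancel, Units.val_one, map_one]
    rw [h1, one_mul] at h2
    exact h2
  -- `v = 1 + p s`
  obtain ⟨s, hs⟩ : ∃ s : ℤ_[p], (v : ℤ_[p]) = 1 + p * s := by
    have hmem : (v : ℤ_[p]) - 1 ∈ RingHom.ker (PadicInt.toZModPow (p := p) 1) := by
      rw [PadicInt.ker_toZModPow, pow_one, ← PadicInt.maximalIdeal_eq_span_p,
        ← PadicInt.ker_toZMod, RingHom.mem_ker, map_sub, hv1, map_one, sub_self]
    rw [PadicInt.ker_toZModPow, pow_one, Ideal.mem_span_singleton] at hmem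
    obtain ⟨s, hs⟩ := hmem
    exact ⟨s, by rw [← hs]; ring⟩
  -- `s = j + p s'`
  obtain ⟨j, -, hj⟩ := PadicInt.exists_mem_range (p := p) s
  obtain ⟨s', hs'⟩ : ∃ s' : ℤ_[p], s = j + p * s' := by
    rw [PadicInt.maximalIdeal_eq_span_p, Ideal.mem_span_singleton] at hj
    obtain ⟨s', hs'⟩ := hj
    exact ⟨s', by rw [← hs']; ring⟩
  obtain ⟨r, hr⟩ := one_add_pow_eq ℤ_[p] (p : ℤ_[p]) j
  -- the unit `e = (1 + p) ^ j`
  have he1 : IsUnit ((1 + (p : ℤ_[p])) ^ j) := by
    apply IsUnit.pow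
    rw [PadicInt.isUnit_iff]
    have hlt : ‖(p : ℤ_[p])‖ < 1 := by
      rw [PadicInt.norm_p]
      exact inv_lt_one_of_one_lt₀ (by exact_mod_cast hp.out.one_lt)
    have h1 : ‖(1 : ℤ_[p])‖ = 1 := norm_one
    have hne : ‖(1 : ℤ_[p])‖ ≠ ‖(p : ℤ_[p])‖ := by rw [h1]; exact hlt.ne'
    rw [PadicInt.norm_add_eq_max_of_ne hne, h1]
    exact max_eq_left hlt.le
  obtain ⟨e, he⟩ := he1
  -- `v e⁻¹ ≡ 1 mod p²`
  have hve : PadicInt.toZModPow 2 ((v * e⁻¹ : ℤ_[p]ˣ) : ℤ_[p]) = 1 := by
    have hdiff : (v : ℤ_[p]) - e = p ^ 2 * (s' - r) := by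
      rw [hs, he, hr, hs']
      ring
    have hmem : ((v * e⁻¹ : ℤ_[p]ˣ) : ℤ_[p]) - 1 ∈
        RingHom.ker (PadicInt.toZModPow (p := p) 2) := by
      rw [PadicInt.ker_toZModPow, Ideal.mem_span_singleton]
      refine ⟨(s' - r) * ((e⁻¹ : ℤ_[p]ˣ) : ℤ_[p]), ?_⟩
      have h1 : ((v * e⁻¹ : ℤ_[p]ˣ) : ℤ_[p]) - 1 =
          ((v : ℤ_[p]) - e) * ((e⁻¹ : ℤ_[p]ˣ) : ℤ_[p]) := by
        rw [Units.val_mul, sub_mul, Units.mul_inv]
      rw [h1, hdiff]
      ring
    rw [RingHom.mem_ker, map_sub, map_one, sub_eq_zero] at hmem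
    exact hmem
  obtain ⟨w₀, hw₀⟩ := Fermat.Agent.S55.H413.exists_pow_totient_eq p hp2 2 (by norm_num)
    (v * e⁻¹) hve
  have htot : (p ^ 2).totient = (p - 1) * p := by
    rw [Nat.totient_prime_pow hp.out (by norm_num : 0 < 2)]
    simp [mul_comm]
  refine ⟨j, u * w₀ ^ (p - 1), ?_⟩
  have hfinal : u = e * (u * w₀ ^ (p - 1)) ^ p := by
    have hv' : v = e * (w₀ ^ (p - 1)) ^ p := by
      rw [← pow_mul, ← htot, hw₀]
      simp
    calc u = u ^ p * v := huv
      _ = u ^ p * (e * (w₀ ^ (p - 1)) ^ p) := by rw [← hv']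
      _ = e * (u * w₀ ^ (p - 1)) ^ p := by rw [mul_pow]; ac_rfl
  have := congrArg (fun z : ℤ_[p]ˣ => (z : ℤ_[p])) hfinal
  simp only [Units.val_mul, Units.val_pow_eq_pow_val] at this
  rw [he] at this
  simpa [Units.val_mul, Units.val_pow_eq_pow_val] using this

/-- **`ℚ_pˣ = ⟨p, 1 + p⟩ · (ℚ_pˣ)^p`** for odd `p`. -/
theorem padic_eq_pow_mul (hp2 : p ≠ 2) (x : ℚ_[p]) (hx : x ≠ 0) :
    ∃ (i : ℤ) (j : ℕ) (w : ℚ_[p]), w ≠ 0 ∧
      x = (p : ℚ_[p]) ^ i * (1 + (p : ℚ_[p])) ^ j * w ^ p := by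
  have hp0 : (p : ℚ_[p]) ≠ 0 := by exact_mod_cast hp.out.ne_zero
  set n : ℤ := x.valuation with hn
  set y : ℚ_[p] := x * (p : ℚ_[p]) ^ (-n) with hy
  have hynorm : ‖y‖ = 1 := by
    rw [hy, norm_mul, Padic.norm_eq_zpow_neg_valuation hx, norm_zpow, Padic.norm_p,
      ← hn, inv_zpow', neg_neg, ← zpow_add₀ (by exact_mod_cast hp.out.ne_zero : (p : ℝ) ≠ 0)]
    simp
  obtain ⟨j, w, hw⟩ := padicInt_unit_eq p hp2 (PadicInt.mkUnits hynorm)
  refine ⟨n, j, (w : ℤ_[p]), ?_, ?_⟩
  · have : (w : ℤ_[p]) ≠ 0 := w.ne_zero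
    exact fun h => this (PadicInt.coe_eq_zero.mp h)
  · have hy' : y = (1 + (p : ℚ_[p])) ^ j * ((w : ℤ_[p]) : ℚ_[p]) ^ p := by
      have h1 := congrArg (fun z : ℤ_[p] => (z : ℚ_[p])) hw
      simp only [PadicInt.mkUnits_eq] at h1
      rw [h1]
      push_cast
      rfl
    have hx' : x = (p : ℚ_[p]) ^ n * y := by
      rw [hy, mul_comm x, ← mul_assoc, ← zpow_add₀ hp0]
      simp
    rw [hx', hy', mul_assoc]

/-- Variant with a natural exponent of `p`. -/
theorem padic_eq_pow_mul_nat (hp2 : p ≠ 2) (x : ℚ_[p]) (hx : x ≠ 0) :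
    ∃ (i j : ℕ) (w : ℚ_[p]), w ≠ 0 ∧
      x = (p : ℚ_[p]) ^ i * (1 + (p : ℚ_[p])) ^ j * w ^ p := by
  have hp0 : (p : ℚ_[p]) ≠ 0 := by exact_mod_cast hp.out.ne_zero
  obtain ⟨i, j, w, hw, hx'⟩ := padic_eq_pow_mul p hp2 x hx
  -- `i = i' - p * N` with `i' ≥ 0`
  set N : ℕ := i.natAbs with hN
  have hi' : 0 ≤ i + p * N := by
    have h1 : (1 : ℤ) ≤ p := by exact_mod_cast hp.out.one_lt.le
    have h2 : -i ≤ (N : ℤ) := by rw [hN]; exact neg_le_natAbs' i
    have h3 : (0 : ℤ) ≤ (N : ℤ) := Int.natCast_nonneg N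
    nlinarith [neg_le_natAbs' i]
  obtain ⟨i', hi'eq⟩ := Int.eq_ofNat_of_zero_le hi'
  refine ⟨i', j, w * ((p : ℚ_[p]) ^ N)⁻¹, mul_ne_zero hw (inv_ne_zero (pow_ne_zero _ hp0)), ?_⟩
  have h3 : (p : ℚ_[p]) ^ i = (p : ℚ_[p]) ^ i' * (((p : ℚ_[p]) ^ N)⁻¹) ^ p := by
    have : i = (i' : ℤ) - p * N := by rw [← hi'eq]; ring
    rw [this, zpow_sub₀ hp0, zpow_natCast, inv_pow, ← pow_mul, div_eq_mul_inv]
    congr 2
    rw [mul_comm, ← zpow_natCast]
    push_cast
    rfl
  rw [hx', h3, mul_pow]
  ring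

end Fermat.Agent.S56.H734

end
-- ===== PACK-END S56/H734/PadicPow.lean

-- ===== PACK-BEGIN S56/H786/KummerH90.lean
section



/-!
# S56 / LOC-SO, sub-leaf KUMMER-P (helper786), part 2: Hilbert 90 for `μ_p`-valued cocycles

`D` any subgroup of `G_ℚ`, `ζ` a primitive `p`-th root of unity, `f : G_ℚ → ZMod p` a twisted
cocycle on `D` (`f(στ) = f(σ) + ω(σ) f(τ)`) of finite level.  Then there is `β ≠ 0` in `ℚ̄` with
`σ β = ζ ^ f(σ) · β` for all `σ ∈ D` (`hilbert90`).  Proof: Poincaré series on a finite normal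
level, Dedekind independence of characters.
-/

set_option autoImplicit false
set_option linter.style.haveILetI false

namespace Fermat.Agent.S56.H786

open Fermat.Agent.S56

section Zp

variable {p : ℕ}

/-- `ζ ^ n` for `n : ZMod p`. -/
noncomputable def zp (ζ : Qb) (n : ZMod p) : Qb := ζ ^ n.val

theorem zp_natCast [NeZero p] {ζ : Qb} (h1 : ζ ^ p = 1) (k : ℕ) :
    zp ζ (k : ZMod p) = ζ ^ k := by
  unfold zp
  rw [ZMod.val_natCast]
  exact (pow_eq_pow_mod k h1).symm

theorem zp_add [NeZero p] {ζ : Qb} (h1 : ζ ^ p = 1) (m n : ZMod p) :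
    zp ζ (m + n) = zp ζ m * zp ζ n := by
  conv_lhs => rw [← ZMod.natCast_zmod_val m, ← ZMod.natCast_zmod_val n, ← Nat.cast_add]
  rw [zp_natCast h1, pow_add]
  rfl

theorem zp_natCast_mul [NeZero p] {ζ : Qb} (h1 : ζ ^ p = 1) (a : ℕ) (n : ZMod p) :
    zp ζ ((a : ZMod p) * n) = zp ζ n ^ a := by
  conv_lhs => rw [← ZMod.natCast_zmod_val n, ← Nat.cast_mul]
  rw [zp_natCast h1, mul_comm, pow_mul]
  rfl

theorem zp_zero [NeZero p] (ζ : Qb) : zp ζ (0 : ZMod p) = 1 := by
  unfold zp
  rw [ZMod.val_zero, pow_zero]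

theorem zp_ne_zero {ζ : Qb} (h0 : ζ ≠ 0) (n : ZMod p) : zp ζ n ≠ 0 :=
  pow_ne_zero _ h0

theorem zp_pow_self {ζ : Qb} (h1 : ζ ^ p = 1) (n : ZMod p) : zp ζ n ^ p = 1 := by
  unfold zp
  rw [← pow_mul, mul_comm, pow_mul, h1, one_pow]

theorem zp_neg_mul_self [NeZero p] {ζ : Qb} (h1 : ζ ^ p = 1) (n : ZMod p) :
    zp ζ (-n) * zp ζ n = 1 := by
  rw [← zp_add h1, neg_add_cancel, zp_zero]

theorem zp_injective [NeZero p] {ζ : Qb} (hζ : IsPrimitiveRoot ζ p) :
    Function.Injective (zp (p := p) ζ) := by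
  intro m n h
  have := hζ.pow_inj (ZMod.val_lt m) (ZMod.val_lt n) h
  exact ZMod.val_injective p this

theorem exists_zp_eq [NeZero p] {ζ : Qb} (hζ : IsPrimitiveRoot ζ p) {ξ : Qb} (hξ : ξ ^ p = 1) :
    ∃ n : ZMod p, ξ = zp ζ n := by
  obtain ⟨i, -, hi⟩ := hζ.eq_pow_of_pow_eq_one hξ
  exact ⟨(i : ZMod p), by rw [zp_natCast hζ.pow_eq_one, hi]⟩

theorem apply_zp [NeZero p] {ζ : Qb} (h1 : ζ ^ p = 1) {σ : GQ} {a : ℕ} (hσ : IsCycExp p σ a)
    (n : ZMod p) : σ (zp ζ n) = zp ζ ((a : ZMod p) * n) := by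
  rw [zp_natCast_mul h1]
  exact hσ _ (zp_pow_self h1 n)

/-- Every element of `G_ℚ` has a cyclotomic exponent. -/
theorem exists_isCycExp [NeZero p] {ζ : Qb} (hζ : IsPrimitiveRoot ζ p) (σ : GQ) :
    ∃ a : ℕ, IsCycExp p σ a := by
  have h1 : (σ ζ) ^ p = 1 := by rw [← map_pow, hζ.pow_eq_one, map_one]
  obtain ⟨a, -, ha⟩ := hζ.eq_pow_of_pow_eq_one h1
  refine ⟨a, fun μ hμ => ?_⟩
  obtain ⟨j, -, hj⟩ := hζ.eq_pow_of_pow_eq_one hμ
  rw [← hj, map_pow, ← ha, ← pow_mul, ← pow_mul, mul_comm]

/-- Two cyclotomic exponents of the same element agree modulo `p`. -/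
theorem isCycExp_unique [NeZero p] {ζ : Qb} (hζ : IsPrimitiveRoot ζ p) {σ : GQ} {a b : ℕ}
    (ha : IsCycExp p σ a) (hb : IsCycExp p σ b) : (a : ZMod p) = (b : ZMod p) := by
  have h1 := ha ζ hζ.pow_eq_one
  have h2 := hb ζ hζ.pow_eq_one
  rw [h1] at h2
  apply zp_injective hζ
  rw [zp_natCast hζ.pow_eq_one, zp_natCast hζ.pow_eq_one, h2]

end Zp

section H90

variable {p : ℕ}

/-- **Hilbert 90** for twisted `ZMod p`-valued cocycles of finite level on a subgroup of `G_ℚ`. -/
theorem hilbert90 [NeZero p] {ζ : Qb} (hζ : IsPrimitiveRoot ζ p) (D : Subgroup GQ)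
    (f : GQ → ZMod p)
    (hcoc : ∀ σ ∈ D, ∀ τ ∈ D, ∀ a : ℕ, IsCycExp p σ a → f (σ * τ) = f σ + (a : ZMod p) * f τ)
    (hlev : ∃ L : IntermediateField ℚ Qb, FiniteDimensional ℚ L ∧
      ∀ σ ∈ D, ∀ τ ∈ D, (∀ x ∈ L, τ x = x) → f (σ * τ) = f σ) :
    ∃ β : Qb, β ≠ 0 ∧ ∀ σ ∈ D, σ β = zp ζ (f σ) * β := by
  classical
  have hζ1 : ζ ^ p = 1 := hζ.pow_eq_one
  have hζ0 : ζ ≠ 0 := hζ.ne_zero (NeZero.ne p)
  obtain ⟨L, hL, hlev⟩ := hlev
  let M : IntermediateField ℚ Qb := IntermediateField.normalClosure ℚ L Qb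
  haveI : Algebra.IsAlgebraic ℚ Qb := AlgebraicClosure.isAlgebraic ℚ
  haveI : IsAlgClosure ℚ Qb := ⟨inferInstance, inferInstance⟩
  haveI : Normal ℚ Qb := IsAlgClosure.normal ℚ Qb
  haveI : Normal ℚ M := normalClosure.normal ℚ L Qb
  haveI : FiniteDimensional ℚ M := normalClosure.is_finiteDimensional ℚ L Qb
  have hLM : L ≤ M := IntermediateField.le_normalClosure L
  let r : GQ →* (M ≃ₐ[ℚ] M) := AlgEquiv.restrictNormalHom M
  have hr : ∀ (σ : GQ) (x : M), ((r σ x : M) : Qb) = σ (x : Qb) :=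
    fun σ x => AlgEquiv.restrictNormal_commutes σ M x
  let Φ : Subgroup (M ≃ₐ[ℚ] M) := D.map r
  let F : (M ≃ₐ[ℚ] M) → ZMod p := fun g => if h : ∃ σ ∈ D, r σ = g then f h.choose else 0
  have hF : ∀ σ ∈ D, F (r σ) = f σ := by
    intro σ hσ
    have h : ∃ σ' ∈ D, r σ' = r σ := ⟨σ, hσ, rfl⟩
    simp only [F, dif_pos h]
    obtain ⟨hσ', hrσ'⟩ := h.choose_spec
    have hτD : h.choose⁻¹ * σ ∈ D := D.mul_mem (D.inv_mem hσ') hσ
    have hτfix : ∀ x ∈ L, (h.choose⁻¹ * σ) x = x := by
      intro x hx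
      have h1 : σ x = h.choose x := by
        have := congrArg (fun g : M ≃ₐ[ℚ] M => ((g ⟨x, hLM hx⟩ : M) : Qb)) hrσ'
        simp only [hr] at this
        exact this.symm
      rw [AlgEquiv.mul_apply, h1]
      exact h.choose.symm_apply_apply x
    have := hlev _ hσ' _ hτD hτfix
    rw [mul_inv_cancel_left] at this
    exact this.symm
  let c : (M ≃ₐ[ℚ] M) → Qb := fun g => if g ∈ Φ then zp ζ (-(F g)) else 0
  let β : M → Qb := fun θ => ∑ g : M ≃ₐ[ℚ] M, c g * ((g θ : M) : Qb)
  -- equivariance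
  have hc : ∀ σ ∈ D, ∀ g : M ≃ₐ[ℚ] M, σ (c g) = zp ζ (f σ) * c (r σ * g) := by
    intro σ hσ g
    obtain ⟨a, ha⟩ := exists_isCycExp hζ σ
    by_cases hg : g ∈ Φ
    · obtain ⟨σg, hσg, rfl⟩ := hg
      have hmem : r σ * r σg ∈ Φ := ⟨σ * σg, D.mul_mem hσ hσg, map_mul r σ σg⟩
      have hmem' : r σg ∈ Φ := ⟨σg, hσg, rfl⟩
      simp only [c, if_pos hmem, if_pos hmem']
      rw [← map_mul, hF _ (D.mul_mem hσ hσg), hF _ hσg, hcoc σ hσ σg hσg a ha,
        apply_zp hζ1 ha, ← zp_add hζ1]
      congr 1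
      ring
    · have hmem : r σ * g ∉ Φ := by
        intro h
        apply hg
        have h2 : (r σ)⁻¹ ∈ Φ := Φ.inv_mem ⟨σ, hσ, rfl⟩
        have := Φ.mul_mem h2 h
        rwa [inv_mul_cancel_left] at this
      simp only [c, if_neg hg, if_neg hmem, map_zero, mul_zero]
  have hβ : ∀ σ ∈ D, ∀ θ : M, σ (β θ) = zp ζ (f σ) * β θ := by
    intro σ hσ θ
    simp only [β]
    rw [map_sum, Finset.mul_sum]
    rw [← Equiv.sum_comp (Equiv.mulLeft (r σ))
      (fun g => zp ζ (f σ) * (c g * ((g θ : M) : Qb)))]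
    refine Finset.sum_congr rfl fun g _ => ?_
    rw [map_mul, hc σ hσ g, ← hr σ (g θ)]
    simp only [Equiv.coe_mulLeft, AlgEquiv.mul_apply]
    ring
  -- non-vanishing
  have hne : ∃ θ : M, β θ ≠ 0 := by
    by_contra hall
    push Not at hall
    let m : (M ≃ₐ[ℚ] M) → (M →* Qb) := fun g =>
      ((algebraMap M Qb).comp (g : M →+* M) : M →+* Qb)
    have hm : Function.Injective m := by
      intro g g' h
      ext x
      have := congrArg (fun φ : M →* Qb => φ x) h
      exact this
    have hli : LinearIndependent Qb (fun g : M ≃ₐ[ℚ] M => ((m g : M →* Qb) : M → Qb)) :=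
      (linearIndependent_monoidHom M Qb).comp m hm
    have h0 := Fintype.linearIndependent_iff.mp hli c (by
      funext θ
      have := hall θ
      simp only [β] at this
      simpa [m, Finset.sum_apply, Pi.smul_apply, smul_eq_mul] using this) 1
    have h1 : c 1 = zp ζ (-(F 1)) := by
      simp only [c, if_pos Φ.one_mem]
    rw [h1] at h0
    exact zp_ne_zero hζ0 _ h0
  obtain ⟨θ, hθ⟩ := hne
  exact ⟨β θ, hθ, fun σ hσ => hβ σ hσ θ⟩

end H90

end Fermat.Agent.S56.H786

end
-- ===== PACK-END S56/H786/KummerH90.lean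

-- ===== PACK-BEGIN S53/CommAlgTest.lean
section



set_option autoImplicit false

namespace Fermat.Agent.S53

open IsLocalRing

section ResK

variable {𝒪 : Type} [CommRing 𝒪] [IsLocalRing 𝒪]
variable {A : Type} [CommRing A] [IsLocalRing A] [Algebra 𝒪 A]
variable {B : Type} [CommRing B] [IsLocalRing B] [Algebra 𝒪 B]

theorem isLocalHom_algebraMap_residueField :
    IsLocalHom (algebraMap 𝒪 (ResidueField 𝒪)) := by
  rw [ResidueField.algebraMap_eq]
  infer_instance

/-- The residue field of `𝒪` is itself a test algebra. -/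
theorem isArtinianTestAlgebra_residueField :
    GaloisRep.IsArtinianTestAlgebra 𝒪 (ResidueField 𝒪) where
  isLocalHom := isLocalHom_algebraMap_residueField
  residue_surjective := by
    intro x
    obtain ⟨y, rfl⟩ := IsLocalRing.residue_surjective x
    obtain ⟨o, rfl⟩ := IsLocalRing.residue_surjective y
    exact ⟨o, by simp [ResidueField.algebraMap_eq]⟩
  isArtinian := inferInstance

/-- Any `𝒪`-algebra homomorphism out of a local ring with nil maximal ideal is local. -/
theorem isLocalHom_of_nil (hnil : ∃ n : ℕ, maximalIdeal A ^ n = ⊥) (φ : A →+* B) :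
    IsLocalHom φ := by
  constructor
  intro a ha
  by_contra hcon
  have hm : a ∈ maximalIdeal A := (IsLocalRing.mem_maximalIdeal a).mpr hcon
  obtain ⟨n, hn⟩ := hnil
  have h0 : a ^ n = 0 := by
    have : a ^ n ∈ maximalIdeal A ^ n := Ideal.pow_mem_pow hm n
    rw [hn] at this
    simpa using this
  have h1 : IsUnit (φ a ^ n) := ha.pow n
  rw [← map_pow, h0, map_zero] at h1
  exact not_isUnit_zero h1

theorem isLocalHom_of_testAlgebra (hA : GaloisRep.IsArtinianTestAlgebra 𝒪 A) (φ : A →+* B) :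
    IsLocalHom φ :=
  isLocalHom_of_nil (exists_maximalIdeal_pow_eq_bot hA) φ

theorem residueField_map_bijective (hloc : IsLocalHom (algebraMap 𝒪 A))
    (hsurj : Function.Surjective (IsLocalRing.residue A ∘ algebraMap 𝒪 A)) :
    Function.Bijective (ResidueField.map (algebraMap 𝒪 A)) := by
  refine ⟨(ResidueField.map (algebraMap 𝒪 A)).injective, ?_⟩
  intro x
  obtain ⟨o, rfl⟩ := hsurj x
  exact ⟨residue 𝒪 o, by simp [ResidueField.map_residue]⟩

/-- The canonical `𝒪`-algebra map `A → k = ResidueField 𝒪` of a local `𝒪`-algebra with residue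
field `k`. -/
noncomputable def resK (hloc : IsLocalHom (algebraMap 𝒪 A))
    (hsurj : Function.Surjective (IsLocalRing.residue A ∘ algebraMap 𝒪 A)) :
    A →ₐ[𝒪] ResidueField 𝒪 where
  toRingHom := ((RingEquiv.ofBijective (ResidueField.map (algebraMap 𝒪 A))
      (residueField_map_bijective hloc hsurj)).symm : ResidueField A →+* ResidueField 𝒪).comp
      (IsLocalRing.residue A)
  commutes' := by
    intro o
    simp only [RingHom.toMonoidHom_eq_coe, OneHom.toFun_eq_coe, MonoidHom.toOneHom_coe,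
      MonoidHom.coe_coe, RingHom.coe_comp, RingHom.coe_coe, Function.comp_apply]
    rw [RingEquiv.symm_apply_eq]
    simp [ResidueField.algebraMap_eq, ResidueField.map_residue]

theorem resK_apply_eq_iff (hloc : IsLocalHom (algebraMap 𝒪 A))
    (hsurj : Function.Surjective (IsLocalRing.residue A ∘ algebraMap 𝒪 A)) (a : A)
    (x : ResidueField 𝒪) :
    resK hloc hsurj a = x ↔ IsLocalRing.residue A a = ResidueField.map (algebraMap 𝒪 A) x := by
  show (RingEquiv.ofBijective (ResidueField.map (algebraMap 𝒪 A))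
      (residueField_map_bijective hloc hsurj)).symm (IsLocalRing.residue A a) = x ↔ _
  rw [RingEquiv.symm_apply_eq]
  rfl

theorem resK_eq_zero_iff (hloc : IsLocalHom (algebraMap 𝒪 A))
    (hsurj : Function.Surjective (IsLocalRing.residue A ∘ algebraMap 𝒪 A)) (a : A) :
    resK hloc hsurj a = 0 ↔ a ∈ maximalIdeal A := by
  rw [resK_apply_eq_iff, map_zero, IsLocalRing.residue_eq_zero_iff]

theorem resK_algebraMap (hloc : IsLocalHom (algebraMap 𝒪 A))
    (hsurj : Function.Surjective (IsLocalRing.residue A ∘ algebraMap 𝒪 A)) (o : 𝒪) :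
    resK hloc hsurj (algebraMap 𝒪 A o) = IsLocalRing.residue 𝒪 o := by
  rw [AlgHom.commutes, ResidueField.algebraMap_eq]

theorem resK_surjective (hloc : IsLocalHom (algebraMap 𝒪 A))
    (hsurj : Function.Surjective (IsLocalRing.residue A ∘ algebraMap 𝒪 A)) :
    Function.Surjective (resK hloc hsurj) := by
  intro x
  obtain ⟨o, rfl⟩ := IsLocalRing.residue_surjective x
  exact ⟨algebraMap 𝒪 A o, resK_algebraMap hloc hsurj o⟩

theorem isLocalHom_resK (hloc : IsLocalHom (algebraMap 𝒪 A))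
    (hsurj : Function.Surjective (IsLocalRing.residue A ∘ algebraMap 𝒪 A)) :
    IsLocalHom ((resK hloc hsurj : A →ₐ[𝒪] ResidueField 𝒪) : A →+* ResidueField 𝒪) := by
  constructor
  intro a ha
  by_contra hcon
  have hm : a ∈ maximalIdeal A := (IsLocalRing.mem_maximalIdeal a).mpr hcon
  have h0 : resK hloc hsurj a = 0 := (resK_eq_zero_iff hloc hsurj a).mpr hm
  have ha' : IsUnit (resK hloc hsurj a) := ha
  rw [h0] at ha'
  exact not_isUnit_zero ha'

/-- Decomposition `a = o + (element of m_A)`. -/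
theorem exists_sub_algebraMap_mem_maximalIdeal
    (hsurj : Function.Surjective (IsLocalRing.residue A ∘ algebraMap 𝒪 A)) (a : A) :
    ∃ o : 𝒪, a - algebraMap 𝒪 A o ∈ maximalIdeal A := by
  obtain ⟨o, ho⟩ := hsurj (IsLocalRing.residue A a)
  refine ⟨o, ?_⟩
  rw [← IsLocalRing.residue_eq_zero_iff, map_sub, sub_eq_zero]
  exact ho.symm

/-- `𝒪`-algebra maps which are local commute with `resK`. -/
theorem resK_comp (hlocA : IsLocalHom (algebraMap 𝒪 A))
    (hsurjA : Function.Surjective (IsLocalRing.residue A ∘ algebraMap 𝒪 A))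
    (hlocB : IsLocalHom (algebraMap 𝒪 B))
    (hsurjB : Function.Surjective (IsLocalRing.residue B ∘ algebraMap 𝒪 B))
    (φ : A →ₐ[𝒪] B) (hφ : IsLocalHom (φ : A →+* B)) (a : A) :
    resK hlocB hsurjB (φ a) = resK hlocA hsurjA a := by
  obtain ⟨o, ho⟩ := exists_sub_algebraMap_mem_maximalIdeal hsurjA a
  have h1 : resK hlocA hsurjA (a - algebraMap 𝒪 A o) = 0 :=
    (resK_eq_zero_iff hlocA hsurjA _).mpr ho
  have h2 : φ (a - algebraMap 𝒪 A o) ∈ maximalIdeal B := by
    rw [IsLocalRing.mem_maximalIdeal, mem_nonunits_iff]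
    intro hu
    have : IsUnit (a - algebraMap 𝒪 A o) := hφ.map_nonunit _ hu
    exact (IsLocalRing.mem_maximalIdeal _).mp ho this
  have h3 : resK hlocB hsurjB (φ (a - algebraMap 𝒪 A o)) = 0 :=
    (resK_eq_zero_iff hlocB hsurjB _).mpr h2
  rw [map_sub, map_sub, AlgHom.commutes, AlgHom.commutes, sub_eq_zero] at h3
  rw [map_sub, AlgHom.commutes, sub_eq_zero] at h1
  rw [h3, h1]

end ResK

section FibProd

variable (𝒪 : Type) [CommRing 𝒪] [IsLocalRing 𝒪]
variable (A : Type) [CommRing A] [IsLocalRing A] [Algebra 𝒪 A]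
variable (B : Type) [CommRing B] [IsLocalRing B] [Algebra 𝒪 B]

/-- The fibre product `A ×_k B` over the common residue field, as a subalgebra of `A × B`. -/
def fibProd : Subalgebra 𝒪 (A × B) where
  carrier := {p | ∃ o : 𝒪, p.1 - algebraMap 𝒪 A o ∈ maximalIdeal A ∧
    p.2 - algebraMap 𝒪 B o ∈ maximalIdeal B}
  mul_mem' := by
    rintro ⟨a, b⟩ ⟨a', b'⟩ ⟨o, ho1, ho2⟩ ⟨o', ho1', ho2'⟩
    refine ⟨o * o', ?_, ?_⟩
    · have : a * a' - algebraMap 𝒪 A (o * o') =
          (a - algebraMap 𝒪 A o) * a' + algebraMap 𝒪 A o * (a' - algebraMap 𝒪 A o') := by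
        rw [map_mul]; ring
      show a * a' - algebraMap 𝒪 A (o * o') ∈ maximalIdeal A
      rw [this]
      exact Ideal.add_mem _ (Ideal.mul_mem_right _ _ ho1) (Ideal.mul_mem_left _ _ ho1')
    · have : b * b' - algebraMap 𝒪 B (o * o') =
          (b - algebraMap 𝒪 B o) * b' + algebraMap 𝒪 B o * (b' - algebraMap 𝒪 B o') := by
        rw [map_mul]; ring
      show b * b' - algebraMap 𝒪 B (o * o') ∈ maximalIdeal B
      rw [this]
      exact Ideal.add_mem _ (Ideal.mul_mem_right _ _ ho2) (Ideal.mul_mem_left _ _ ho2')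
  add_mem' := by
    rintro ⟨a, b⟩ ⟨a', b'⟩ ⟨o, ho1, ho2⟩ ⟨o', ho1', ho2'⟩
    refine ⟨o + o', ?_, ?_⟩
    · have : a + a' - algebraMap 𝒪 A (o + o') =
          (a - algebraMap 𝒪 A o) + (a' - algebraMap 𝒪 A o') := by
        rw [map_add]; ring
      show a + a' - algebraMap 𝒪 A (o + o') ∈ maximalIdeal A
      rw [this]
      exact Ideal.add_mem _ ho1 ho1'
    · have : b + b' - algebraMap 𝒪 B (o + o') =
          (b - algebraMap 𝒪 B o) + (b' - algebraMap 𝒪 B o') := by
        rw [map_add]; ring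
      show b + b' - algebraMap 𝒪 B (o + o') ∈ maximalIdeal B
      rw [this]
      exact Ideal.add_mem _ ho2 ho2'
  algebraMap_mem' := by
    intro o
    refine ⟨o, ?_, ?_⟩
    · show algebraMap 𝒪 A o - algebraMap 𝒪 A o ∈ maximalIdeal A
      rw [sub_self]; exact Ideal.zero_mem _
    · show algebraMap 𝒪 B o - algebraMap 𝒪 B o ∈ maximalIdeal B
      rw [sub_self]; exact Ideal.zero_mem _

variable {𝒪 A B}

theorem mem_fibProd {p : A × B} :
    p ∈ fibProd 𝒪 A B ↔ ∃ o : 𝒪, p.1 - algebraMap 𝒪 A o ∈ maximalIdeal A ∧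
      p.2 - algebraMap 𝒪 B o ∈ maximalIdeal B := Iff.rfl

/-- First projection of the fibre product. -/
def fibProdFst : ↥(fibProd 𝒪 A B) →ₐ[𝒪] A := (AlgHom.fst 𝒪 A B).comp (fibProd 𝒪 A B).val

/-- Second projection of the fibre product. -/
def fibProdSnd : ↥(fibProd 𝒪 A B) →ₐ[𝒪] B := (AlgHom.snd 𝒪 A B).comp (fibProd 𝒪 A B).val

@[simp] theorem fibProdFst_apply (x : ↥(fibProd 𝒪 A B)) : fibProdFst x = x.1.1 := rfl
@[simp] theorem fibProdSnd_apply (x : ↥(fibProd 𝒪 A B)) : fibProdSnd x = x.1.2 := rfl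

theorem fibProd_injective :
    Function.Injective (fun x : ↥(fibProd 𝒪 A B) => (fibProdFst x, fibProdSnd x)) := by
  intro x y h
  apply Subtype.ext
  exact h

theorem mem_fibProd_iff_resK (hlocA : IsLocalHom (algebraMap 𝒪 A))
    (hsurjA : Function.Surjective (IsLocalRing.residue A ∘ algebraMap 𝒪 A))
    (hlocB : IsLocalHom (algebraMap 𝒪 B))
    (hsurjB : Function.Surjective (IsLocalRing.residue B ∘ algebraMap 𝒪 B)) {p : A × B} :
    p ∈ fibProd 𝒪 A B ↔ resK hlocA hsurjA p.1 = resK hlocB hsurjB p.2 := by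
  rw [mem_fibProd]
  constructor
  · rintro ⟨o, h1, h2⟩
    have e1 := (resK_eq_zero_iff hlocA hsurjA _).mpr h1
    have e2 := (resK_eq_zero_iff hlocB hsurjB _).mpr h2
    rw [map_sub, AlgHom.commutes, sub_eq_zero] at e1 e2
    rw [e1, e2]
  · intro h
    obtain ⟨o, ho⟩ := exists_sub_algebraMap_mem_maximalIdeal hsurjA p.1
    refine ⟨o, ho, ?_⟩
    have e1 := (resK_eq_zero_iff hlocA hsurjA _).mpr ho
    rw [map_sub, AlgHom.commutes, sub_eq_zero] at e1
    rw [← resK_eq_zero_iff hlocB hsurjB, map_sub, AlgHom.commutes, sub_eq_zero, ← h, e1]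

theorem fibProd_resK_comm (hlocA : IsLocalHom (algebraMap 𝒪 A))
    (hsurjA : Function.Surjective (IsLocalRing.residue A ∘ algebraMap 𝒪 A))
    (hlocB : IsLocalHom (algebraMap 𝒪 B))
    (hsurjB : Function.Surjective (IsLocalRing.residue B ∘ algebraMap 𝒪 B)) :
    (resK hlocA hsurjA).comp (fibProdFst (𝒪 := 𝒪) (A := A) (B := B)) =
      (resK hlocB hsurjB).comp fibProdSnd := by
  ext x
  exact (mem_fibProd_iff_resK hlocA hsurjA hlocB hsurjB).mp x.2

theorem fibProd_exists_of_resK_eq (hlocA : IsLocalHom (algebraMap 𝒪 A))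
    (hsurjA : Function.Surjective (IsLocalRing.residue A ∘ algebraMap 𝒪 A))
    (hlocB : IsLocalHom (algebraMap 𝒪 B))
    (hsurjB : Function.Surjective (IsLocalRing.residue B ∘ algebraMap 𝒪 B))
    (a : A) (b : B) (h : resK hlocA hsurjA a = resK hlocB hsurjB b) :
    ∃ x : ↥(fibProd 𝒪 A B), fibProdFst x = a ∧ fibProdSnd x = b :=
  ⟨⟨(a, b), (mem_fibProd_iff_resK hlocA hsurjA hlocB hsurjB).mpr h⟩, rfl, rfl⟩

/-- The nil ideal of the fibre product (pairs in `m_A × m_B`). -/
def fibProdNil : Ideal ↥(fibProd 𝒪 A B) :=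
  Ideal.comap (fibProdFst (𝒪 := 𝒪) (A := A) (B := B) : ↥(fibProd 𝒪 A B) →+* A) (maximalIdeal A)

theorem mem_fibProdNil_iff (hlocB : IsLocalHom (algebraMap 𝒪 B)) (x : ↥(fibProd 𝒪 A B)) :
    x ∈ fibProdNil (𝒪 := 𝒪) (A := A) (B := B) ↔
      x.1.1 ∈ maximalIdeal A ∧ x.1.2 ∈ maximalIdeal B := by
  constructor
  · intro hx
    have hx1 : x.1.1 ∈ maximalIdeal A := hx
    refine ⟨hx1, ?_⟩
    obtain ⟨o, ho1, ho2⟩ := x.2
    have hoA : algebraMap 𝒪 A o ∈ maximalIdeal A := by
      have := Ideal.sub_mem _ hx1 ho1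
      simpa using this
    have hom : o ∈ maximalIdeal 𝒪 := by
      rw [IsLocalRing.mem_maximalIdeal, mem_nonunits_iff]
      intro hu
      exact (IsLocalRing.mem_maximalIdeal _).mp hoA (hu.map _)
    have hoB : algebraMap 𝒪 B o ∈ maximalIdeal B := by
      rw [IsLocalRing.mem_maximalIdeal, mem_nonunits_iff]
      intro hu
      exact (IsLocalRing.mem_maximalIdeal _).mp hom (hlocB.map_nonunit _ hu)
    have := Ideal.add_mem _ ho2 hoB
    simpa using this
  · intro hx
    exact hx.1

theorem fibProdNil_nilpotent (hlocB : IsLocalHom (algebraMap 𝒪 B))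
    (hnA : ∃ n : ℕ, maximalIdeal A ^ n = ⊥) (hnB : ∃ n : ℕ, maximalIdeal B ^ n = ⊥)
    (x : ↥(fibProd 𝒪 A B)) (hx : x ∈ fibProdNil (𝒪 := 𝒪) (A := A) (B := B)) :
    IsNilpotent x := by
  obtain ⟨hxA, hxB⟩ := (mem_fibProdNil_iff hlocB x).mp hx
  obtain ⟨n, hn⟩ := hnA
  obtain ⟨m, hm⟩ := hnB
  refine ⟨n + m, ?_⟩
  apply Subtype.ext
  have h1 : x.1.1 ^ (n + m) = 0 := by
    have : x.1.1 ^ n ∈ maximalIdeal A ^ n := Ideal.pow_mem_pow hxA n
    rw [hn] at this
    rw [pow_add, (Ideal.mem_bot.mp this), zero_mul]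
  have h2 : x.1.2 ^ (n + m) = 0 := by
    have : x.1.2 ^ m ∈ maximalIdeal B ^ m := Ideal.pow_mem_pow hxB m
    rw [hm] at this
    rw [pow_add, (Ideal.mem_bot.mp this), mul_zero]
  show ((x ^ (n + m) : ↥(fibProd 𝒪 A B)) : A × B) = 0
  rw [SubmonoidClass.coe_pow]
  exact Prod.ext (by simpa using h1) (by simpa using h2)

theorem fibProd_exists_sub_mem_nil (x : ↥(fibProd 𝒪 A B)) :
    ∃ o : 𝒪, x - algebraMap 𝒪 ↥(fibProd 𝒪 A B) o ∈
      fibProdNil (𝒪 := 𝒪) (A := A) (B := B) := by
  obtain ⟨o, ho1, _⟩ := x.2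
  exact ⟨o, ho1⟩

theorem fibProd_algebraMap_mem_nil (hlocA : IsLocalHom (algebraMap 𝒪 A)) (o : 𝒪)
    (ho : o ∈ maximalIdeal 𝒪) :
    algebraMap 𝒪 ↥(fibProd 𝒪 A B) o ∈ fibProdNil (𝒪 := 𝒪) (A := A) (B := B) := by
  show algebraMap 𝒪 A o ∈ maximalIdeal A
  rw [IsLocalRing.mem_maximalIdeal, mem_nonunits_iff]
  intro hu
  exact (IsLocalRing.mem_maximalIdeal _).mp ho (hlocA.map_nonunit _ hu)

instance nontrivial_fibProd : Nontrivial ↥(fibProd 𝒪 A B) :=
  ⟨⟨0, 1, fun h => by
    have := congrArg (fun x : ↥(fibProd 𝒪 A B) => x.1.1) h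
    simp at this⟩⟩

/-- The fibre product of two test algebras is a local ring. -/
theorem isLocalRing_fibProd (hA : GaloisRep.IsArtinianTestAlgebra 𝒪 A)
    (hB : GaloisRep.IsArtinianTestAlgebra 𝒪 B) : IsLocalRing ↥(fibProd 𝒪 A B) :=
  isLocalRing_of_nil_ideal (fibProdNil (𝒪 := 𝒪) (A := A) (B := B))
    (fibProdNil_nilpotent hB.isLocalHom (exists_maximalIdeal_pow_eq_bot hA)
      (exists_maximalIdeal_pow_eq_bot hB))
    fibProd_exists_sub_mem_nil
    (fun o ho => fibProd_algebraMap_mem_nil hA.isLocalHom o ho)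

theorem maximalIdeal_fibProd [IsLocalRing ↥(fibProd 𝒪 A B)]
    (hA : GaloisRep.IsArtinianTestAlgebra 𝒪 A)
    (hB : GaloisRep.IsArtinianTestAlgebra 𝒪 B) :
    maximalIdeal ↥(fibProd 𝒪 A B) = fibProdNil (𝒪 := 𝒪) (A := A) (B := B) :=
  maximalIdeal_eq_of_nil_ideal (fibProdNil (𝒪 := 𝒪) (A := A) (B := B))
    (fibProdNil_nilpotent hB.isLocalHom (exists_maximalIdeal_pow_eq_bot hA)
      (exists_maximalIdeal_pow_eq_bot hB))
    fibProd_exists_sub_mem_nil
    (fun o ho => fibProd_algebraMap_mem_nil hA.isLocalHom o ho)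

/-- The fibre product of two test algebras is a test algebra. -/
theorem isArtinianTestAlgebra_fibProd [Finite (ResidueField 𝒪)] [IsLocalRing ↥(fibProd 𝒪 A B)]
    (hA : GaloisRep.IsArtinianTestAlgebra 𝒪 A)
    (hB : GaloisRep.IsArtinianTestAlgebra 𝒪 B) :
    GaloisRep.IsArtinianTestAlgebra 𝒪 ↥(fibProd 𝒪 A B) := by
  haveI := finite_of_testAlgebra hA
  haveI := finite_of_testAlgebra hB
  exact isArtinianTestAlgebra_of_nil_ideal (fibProdNil (𝒪 := 𝒪) (A := A) (B := B))
    (fibProdNil_nilpotent hB.isLocalHom (exists_maximalIdeal_pow_eq_bot hA)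
      (exists_maximalIdeal_pow_eq_bot hB))
    fibProd_exists_sub_mem_nil
    (fun o ho => fibProd_algebraMap_mem_nil hA.isLocalHom o ho)

theorem isLocalHom_fibProdFst [IsLocalRing ↥(fibProd 𝒪 A B)]
    (hA : GaloisRep.IsArtinianTestAlgebra 𝒪 A) (hB : GaloisRep.IsArtinianTestAlgebra 𝒪 B) :
    IsLocalHom ((fibProdFst : ↥(fibProd 𝒪 A B) →ₐ[𝒪] A) : ↥(fibProd 𝒪 A B) →+* A) := by
  constructor
  intro x hx
  by_contra hcon
  have hm : x ∈ maximalIdeal ↥(fibProd 𝒪 A B) := (IsLocalRing.mem_maximalIdeal x).mpr hcon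
  rw [maximalIdeal_fibProd hA hB] at hm
  have : fibProdFst x ∈ maximalIdeal A := hm
  exact (IsLocalRing.mem_maximalIdeal _).mp this hx

theorem isLocalHom_fibProdSnd [IsLocalRing ↥(fibProd 𝒪 A B)]
    (hA : GaloisRep.IsArtinianTestAlgebra 𝒪 A) (hB : GaloisRep.IsArtinianTestAlgebra 𝒪 B) :
    IsLocalHom ((fibProdSnd : ↥(fibProd 𝒪 A B) →ₐ[𝒪] B) : ↥(fibProd 𝒪 A B) →+* B) := by
  constructor
  intro x hx
  by_contra hcon
  have hm : x ∈ maximalIdeal ↥(fibProd 𝒪 A B) := (IsLocalRing.mem_maximalIdeal x).mpr hcon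
  rw [maximalIdeal_fibProd hA hB] at hm
  have : fibProdSnd x ∈ maximalIdeal B := ((mem_fibProdNil_iff hB.isLocalHom x).mp hm).2
  exact (IsLocalRing.mem_maximalIdeal _).mp this hx

end FibProd

section SubalgebraTest

variable {𝒪 : Type} [CommRing 𝒪] [IsLocalRing 𝒪]
variable {A : Type} [CommRing A] [IsLocalRing A] [Algebra 𝒪 A]

/-- The nil ideal of a subalgebra of a test algebra. -/
def subalgNil (C : Subalgebra 𝒪 A) : Ideal ↥C :=
  Ideal.comap (C.val : ↥C →+* A) (maximalIdeal A)

theorem subalgNil_nilpotent (hn : ∃ n : ℕ, maximalIdeal A ^ n = ⊥) (C : Subalgebra 𝒪 A)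
    (x : ↥C) (hx : x ∈ subalgNil C) : IsNilpotent x := by
  obtain ⟨n, hn⟩ := hn
  refine ⟨n, ?_⟩
  apply Subtype.ext
  have hx' : (x : A) ∈ maximalIdeal A := hx
  have : (x : A) ^ n ∈ maximalIdeal A ^ n := Ideal.pow_mem_pow hx' n
  rw [hn] at this
  show ((x ^ n : ↥C) : A) = 0
  rw [SubmonoidClass.coe_pow]
  exact Ideal.mem_bot.mp this

theorem subalg_exists_sub_mem_nil
    (hsurj : Function.Surjective (IsLocalRing.residue A ∘ algebraMap 𝒪 A))
    (C : Subalgebra 𝒪 A) (x : ↥C) :
    ∃ o : 𝒪, x - algebraMap 𝒪 ↥C o ∈ subalgNil C := by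
  obtain ⟨o, ho⟩ := exists_sub_algebraMap_mem_maximalIdeal hsurj (x : A)
  exact ⟨o, ho⟩

theorem subalg_algebraMap_mem_nil (hloc : IsLocalHom (algebraMap 𝒪 A)) (C : Subalgebra 𝒪 A)
    (o : 𝒪) (ho : o ∈ maximalIdeal 𝒪) : algebraMap 𝒪 ↥C o ∈ subalgNil C := by
  show algebraMap 𝒪 A o ∈ maximalIdeal A
  rw [IsLocalRing.mem_maximalIdeal, mem_nonunits_iff]
  intro hu
  exact (IsLocalRing.mem_maximalIdeal _).mp ho (hloc.map_nonunit _ hu)

/-- Every `𝒪`-subalgebra of a test algebra is a local ring. -/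
theorem isLocalRing_subalgebra (hA : GaloisRep.IsArtinianTestAlgebra 𝒪 A)
    (C : Subalgebra 𝒪 A) : IsLocalRing ↥C :=
  isLocalRing_of_nil_ideal (subalgNil C)
    (subalgNil_nilpotent (exists_maximalIdeal_pow_eq_bot hA) C)
    (subalg_exists_sub_mem_nil hA.residue_surjective C)
    (fun o ho => subalg_algebraMap_mem_nil hA.isLocalHom C o ho)

theorem maximalIdeal_subalgebra (hA : GaloisRep.IsArtinianTestAlgebra 𝒪 A)
    (C : Subalgebra 𝒪 A) [IsLocalRing ↥C] : maximalIdeal ↥C = subalgNil C :=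
  maximalIdeal_eq_of_nil_ideal (subalgNil C)
    (subalgNil_nilpotent (exists_maximalIdeal_pow_eq_bot hA) C)
    (subalg_exists_sub_mem_nil hA.residue_surjective C)
    (fun o ho => subalg_algebraMap_mem_nil hA.isLocalHom C o ho)

theorem mem_maximalIdeal_subalgebra_iff (hA : GaloisRep.IsArtinianTestAlgebra 𝒪 A)
    (C : Subalgebra 𝒪 A) [IsLocalRing ↥C] (x : ↥C) :
    x ∈ maximalIdeal ↥C ↔ (x : A) ∈ maximalIdeal A := by
  rw [maximalIdeal_subalgebra hA C]
  rfl

/-- Every `𝒪`-subalgebra of a test algebra is a test algebra. -/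
theorem isArtinianTestAlgebra_subalgebra [Finite (ResidueField 𝒪)]
    (hA : GaloisRep.IsArtinianTestAlgebra 𝒪 A)
    (C : Subalgebra 𝒪 A) [IsLocalRing ↥C] : GaloisRep.IsArtinianTestAlgebra 𝒪 ↥C := by
  haveI := finite_of_testAlgebra hA
  exact isArtinianTestAlgebra_of_nil_ideal (subalgNil C)
    (subalgNil_nilpotent (exists_maximalIdeal_pow_eq_bot hA) C)
    (subalg_exists_sub_mem_nil hA.residue_surjective C)
    (fun o ho => subalg_algebraMap_mem_nil hA.isLocalHom C o ho)

theorem isLocalHom_subalgebra_val (hA : GaloisRep.IsArtinianTestAlgebra 𝒪 A)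
    (C : Subalgebra 𝒪 A) [IsLocalRing ↥C] : IsLocalHom ((C.val : ↥C →ₐ[𝒪] A) : ↥C →+* A) := by
  constructor
  intro x hx
  by_contra hcon
  have hm : x ∈ maximalIdeal ↥C := (IsLocalRing.mem_maximalIdeal x).mpr hcon
  rw [mem_maximalIdeal_subalgebra_iff hA C] at hm
  exact (IsLocalRing.mem_maximalIdeal _).mp hm hx

end SubalgebraTest

section QuotientTest

variable {𝒪 : Type} [CommRing 𝒪] [IsLocalRing 𝒪]
variable {A : Type} [CommRing A] [IsLocalRing A] [Algebra 𝒪 A]

theorem isLocalRing_quotient (J : Ideal A) (hJ : J ≠ ⊤) : IsLocalRing (A ⧸ J) :=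
  haveI : Nontrivial (A ⧸ J) := Ideal.Quotient.nontrivial_iff.mpr hJ
  IsLocalRing.of_surjective' (Ideal.Quotient.mk J) Ideal.Quotient.mk_surjective

theorem isLocalHom_quotient_mk (J : Ideal A) [IsLocalRing (A ⧸ J)] :
    IsLocalHom (Ideal.Quotient.mk J) :=
  IsLocalHom.of_surjective (Ideal.Quotient.mk J) Ideal.Quotient.mk_surjective

theorem isLocalHom_algebraMap_quotient (hloc : IsLocalHom (algebraMap 𝒪 A)) (J : Ideal A)
    [IsLocalRing (A ⧸ J)] : IsLocalHom (algebraMap 𝒪 (A ⧸ J)) := by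
  haveI := hloc
  haveI := isLocalHom_quotient_mk J
  have : algebraMap 𝒪 (A ⧸ J) = (Ideal.Quotient.mk J).comp (algebraMap 𝒪 A) := rfl
  rw [this]
  infer_instance

theorem residue_surjective_quotient
    (hsurj : Function.Surjective (IsLocalRing.residue A ∘ algebraMap 𝒪 A)) (J : Ideal A)
    [IsLocalRing (A ⧸ J)] :
    Function.Surjective (IsLocalRing.residue (A ⧸ J) ∘ algebraMap 𝒪 (A ⧸ J)) := by
  haveI := isLocalHom_quotient_mk J
  intro x
  obtain ⟨y, rfl⟩ := IsLocalRing.residue_surjective x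
  obtain ⟨a, rfl⟩ := Ideal.Quotient.mk_surjective y
  obtain ⟨o, ho⟩ := exists_sub_algebraMap_mem_maximalIdeal hsurj a
  refine ⟨o, ?_⟩
  have h1 : Ideal.Quotient.mk J (a - algebraMap 𝒪 A o) ∈ maximalIdeal (A ⧸ J) := by
    rw [IsLocalRing.mem_maximalIdeal, mem_nonunits_iff]
    intro hu
    exact (IsLocalRing.mem_maximalIdeal _).mp ho
      ((isLocalHom_quotient_mk J).map_nonunit _ hu)
  have h2 := (IsLocalRing.residue_eq_zero_iff _).mpr h1
  rw [map_sub, map_sub, sub_eq_zero] at h2
  exact h2.symm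

/-- A proper quotient of a test algebra is a test algebra. -/
theorem isArtinianTestAlgebra_quotient (hA : GaloisRep.IsArtinianTestAlgebra 𝒪 A) (J : Ideal A)
    [IsLocalRing (A ⧸ J)] : GaloisRep.IsArtinianTestAlgebra 𝒪 (A ⧸ J) where
  isLocalHom := isLocalHom_algebraMap_quotient hA.isLocalHom J
  residue_surjective := residue_surjective_quotient hA.residue_surjective J
  isArtinian :=
    haveI := hA.isArtinian
    (Ideal.Quotient.mk_surjective (I := J)).isArtinianRing

/-- For a Noetherian local `𝒪`-algebra `A` with residue field `k` (finite), `A ⧸ J` is a test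
algebra whenever `m_A ^ n ≤ J ≠ ⊤`. -/
theorem isArtinianTestAlgebra_quotient_of_pow_le [Finite (ResidueField 𝒪)] [IsNoetherianRing A]
    (hloc : IsLocalHom (algebraMap 𝒪 A))
    (hsurj : Function.Surjective (IsLocalRing.residue A ∘ algebraMap 𝒪 A)) (J : Ideal A)
    [IsLocalRing (A ⧸ J)] (n : ℕ) (hn : maximalIdeal A ^ n ≤ J) :
    GaloisRep.IsArtinianTestAlgebra 𝒪 (A ⧸ J) where
  isLocalHom := isLocalHom_algebraMap_quotient hloc J
  residue_surjective := residue_surjective_quotient hsurj J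
  isArtinian := by
    haveI : Finite (ResidueField A) :=
      Finite.of_surjective _ (residueField_map_bijective hloc hsurj).2
    haveI : Finite (A ⧸ J) := (IsLocalRing.finite_quotient_iff).mpr ⟨n, hn⟩
    infer_instance

theorem finite_quotient_of_pow_le [Finite (ResidueField 𝒪)] [IsNoetherianRing A]
    (hloc : IsLocalHom (algebraMap 𝒪 A))
    (hsurj : Function.Surjective (IsLocalRing.residue A ∘ algebraMap 𝒪 A)) (J : Ideal A)
    (n : ℕ) (hn : maximalIdeal A ^ n ≤ J) : Finite (A ⧸ J) := by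
  haveI : Finite (ResidueField A) :=
    Finite.of_surjective _ (residueField_map_bijective hloc hsurj).2
  exact (IsLocalRing.finite_quotient_iff).mpr ⟨n, hn⟩

theorem maximalIdeal_pow_ne_top (n : ℕ) (hn : n ≠ 0) : maximalIdeal A ^ n ≠ ⊤ := by
  intro h
  have h1 : maximalIdeal A ^ n ≤ maximalIdeal A := Ideal.pow_le_self hn
  rw [h] at h1
  exact (IsLocalRing.maximalIdeal.isMaximal A).ne_top (top_le_iff.mp h1)

end QuotientTest

section ToFibProd

variable {𝒪 : Type} [CommRing 𝒪] [IsLocalRing 𝒪]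
variable {A : Type} [CommRing A] [IsLocalRing A] [Algebra 𝒪 A]
variable {B : Type} [CommRing B] [IsLocalRing B] [Algebra 𝒪 B]
variable {Q : Type} [CommRing Q] [IsLocalRing Q] [Algebra 𝒪 Q]

theorem mem_fibProd_self_iff
    (hsurj : Function.Surjective (IsLocalRing.residue A ∘ algebraMap 𝒪 A)) {p : A × A} :
    p ∈ fibProd 𝒪 A A ↔ p.1 - p.2 ∈ maximalIdeal A := by
  rw [mem_fibProd]
  constructor
  · rintro ⟨o, h1, h2⟩
    have := Ideal.sub_mem _ h1 h2
    simpa using this
  · intro h
    obtain ⟨o, ho⟩ := exists_sub_algebraMap_mem_maximalIdeal hsurj p.2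
    refine ⟨o, ?_, ho⟩
    have := Ideal.add_mem _ h ho
    simpa using this

theorem prod_mem_fibProd
    (hsurjQ : Function.Surjective (IsLocalRing.residue Q ∘ algebraMap 𝒪 Q))
    (pA : Q →ₐ[𝒪] A) (pB : Q →ₐ[𝒪] B)
    (hpA : IsLocalHom (pA : Q →+* A)) (hpB : IsLocalHom (pB : Q →+* B)) (q : Q) :
    (pA.prod pB) q ∈ fibProd 𝒪 A B := by
  obtain ⟨o, ho⟩ := exists_sub_algebraMap_mem_maximalIdeal hsurjQ q
  refine ⟨o, ?_, ?_⟩
  · show pA q - algebraMap 𝒪 A o ∈ maximalIdeal A
    rw [← AlgHom.commutes pA, ← map_sub, IsLocalRing.mem_maximalIdeal, mem_nonunits_iff]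
    intro hu
    exact (IsLocalRing.mem_maximalIdeal _).mp ho (hpA.map_nonunit _ hu)
  · show pB q - algebraMap 𝒪 B o ∈ maximalIdeal B
    rw [← AlgHom.commutes pB, ← map_sub, IsLocalRing.mem_maximalIdeal, mem_nonunits_iff]
    intro hu
    exact (IsLocalRing.mem_maximalIdeal _).mp ho (hpB.map_nonunit _ hu)

/-- The canonical map of a local `𝒪`-algebra `Q` (residue field `k`) with two local maps to
`A` and `B` into the fibre product `A ×_k B`. -/
def toFibProd (hsurjQ : Function.Surjective (IsLocalRing.residue Q ∘ algebraMap 𝒪 Q))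
    (pA : Q →ₐ[𝒪] A) (pB : Q →ₐ[𝒪] B)
    (hpA : IsLocalHom (pA : Q →+* A)) (hpB : IsLocalHom (pB : Q →+* B)) :
    Q →ₐ[𝒪] ↥(fibProd 𝒪 A B) :=
  AlgHom.codRestrict (pA.prod pB) (fibProd 𝒪 A B) (prod_mem_fibProd hsurjQ pA pB hpA hpB)

theorem fibProdFst_comp_toFibProd
    (hsurjQ : Function.Surjective (IsLocalRing.residue Q ∘ algebraMap 𝒪 Q))
    (pA : Q →ₐ[𝒪] A) (pB : Q →ₐ[𝒪] B)
    (hpA : IsLocalHom (pA : Q →+* A)) (hpB : IsLocalHom (pB : Q →+* B)) :
    fibProdFst.comp (toFibProd hsurjQ pA pB hpA hpB) = pA := by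
  ext q; rfl

theorem fibProdSnd_comp_toFibProd
    (hsurjQ : Function.Surjective (IsLocalRing.residue Q ∘ algebraMap 𝒪 Q))
    (pA : Q →ₐ[𝒪] A) (pB : Q →ₐ[𝒪] B)
    (hpA : IsLocalHom (pA : Q →+* A)) (hpB : IsLocalHom (pB : Q →+* B)) :
    fibProdSnd.comp (toFibProd hsurjQ pA pB hpA hpB) = pB := by
  ext q; rfl

theorem toFibProd_injective
    (hsurjQ : Function.Surjective (IsLocalRing.residue Q ∘ algebraMap 𝒪 Q))
    (pA : Q →ₐ[𝒪] A) (pB : Q →ₐ[𝒪] B)
    (hpA : IsLocalHom (pA : Q →+* A)) (hpB : IsLocalHom (pB : Q →+* B))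
    (hinj : Function.Injective (fun x => (pA x, pB x))) :
    Function.Injective (toFibProd hsurjQ pA pB hpA hpB) := by
  intro x y h
  apply hinj
  have := congrArg (fun z : ↥(fibProd 𝒪 A B) => (z : A × B)) h
  exact this

end ToFibProd

end Fermat.Agent.S53

end
-- ===== PACK-END S53/CommAlgTest.lean

-- ===== PACK-BEGIN S56/H186/TameVal.lean
section



/-!
# S56 / leaf TAME-CYC (helper186), part 1: value group facts

`A` a valuation subring of a field `L`, algebraic over `K`.

* `exists_ne_valuation_eq_of_sum_eq_zero` : in a vanishing sum with a nonzero term, two different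
  terms have the same nonzero valuation.
* `exists_pow_valuation_eq` : for `x ≠ 0` algebraic over `K` there are `0 < n ≤ deg (minpoly x)` and
  `a ∈ Kˣ` with `v x ^ n = v a`.
* `valuation_natCast_eq_one_of_coprime`, `exists_valuation_rat_eq_zpow` : if `A` lies over the prime
  `q`, then `v (ℚˣ) = v q ^ ℤ`.
* `exists_valuation_eq_zpow_root` : if `c ^ N = q` and `N` is divisible by all `n ≤ d`, then
  `v x ∈ v c ^ ℤ` for every `x ≠ 0` whose minimal polynomial has degree `≤ d`.
-/

set_option autoImplicit false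
set_option linter.unusedSectionVars false

namespace Fermat.Agent.S56.H186

open Polynomial

section General

variable {R : Type*} [Ring R] {Γ₀ : Type*} [LinearOrderedCommGroupWithZero Γ₀]
  (v : Valuation R Γ₀)

/-- In a vanishing finite sum having a term of nonzero valuation, two different terms have the
same nonzero valuation. -/
theorem exists_ne_valuation_eq_of_sum_eq_zero {ι : Type*} [DecidableEq ι] (s : Finset ι)
    (f : ι → R) (hsum : ∑ i ∈ s, f i = 0) (hne : ∃ i ∈ s, v (f i) ≠ 0) :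
    ∃ i ∈ s, ∃ j ∈ s, i ≠ j ∧ v (f i) = v (f j) ∧ v (f i) ≠ 0 := by
  obtain ⟨i₀, hi₀, hv₀⟩ := hne
  obtain ⟨j, hj, hmax⟩ := Finset.exists_max_image s (fun i => v (f i)) ⟨i₀, hi₀⟩
  have hj0 : v (f j) ≠ 0 := by
    intro h0
    have := hmax i₀ hi₀
    rw [h0] at this
    exact hv₀ (le_antisymm this zero_le)
  by_contra hcon
  push Not at hcon
  have hlt : ∀ i ∈ s \ {j}, v (f i) < v (f j) := by
    intro i hi
    rw [Finset.mem_sdiff, Finset.mem_singleton] at hi
    rcases lt_or_eq_of_le (hmax i hi.1) with h | h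
    · exact h
    · exfalso
      exact hj0 (hcon j hj i hi.1 (Ne.symm hi.2) h.symm)
  have := v.map_sum_eq_of_lt hj hlt
  rw [hsum, map_zero] at this
  exact hj0 this.symm

end General

section Algebraic

variable {K L : Type*} [Field K] [Field L] [Algebra K L] (A : ValuationSubring L)

/-- For `x ≠ 0` algebraic over `K`, a positive power `n ≤ deg (minpoly x)` of `v x` is the
valuation of a nonzero element of `K`. -/
theorem exists_pow_valuation_eq {x : L} (hx : x ≠ 0) (hint : IsIntegral K x) :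
    ∃ n : ℕ, 0 < n ∧ n ≤ (minpoly K x).natDegree ∧
      ∃ a : K, a ≠ 0 ∧ A.valuation x ^ n = A.valuation (algebraMap K L a) := by
  classical
  set f := minpoly K x with hf
  set d := f.natDegree with hd
  have hsum : ∑ i ∈ Finset.range (d + 1), algebraMap K L (f.coeff i) * x ^ i = 0 := by
    have h := minpoly.aeval K x
    rw [← hf, aeval_eq_sum_range] at h
    simpa [Algebra.smul_def] using h
  have hvx : A.valuation x ≠ 0 := (Valuation.ne_zero_iff _).mpr hx
  have hmonic : f.coeff d = 1 := (minpoly.monic hint).coeff_natDegree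
  have hne : ∃ i ∈ Finset.range (d + 1),
      A.valuation (algebraMap K L (f.coeff i) * x ^ i) ≠ 0 := by
    refine ⟨d, Finset.mem_range.mpr (Nat.lt_succ_self d), ?_⟩
    rw [hmonic, map_one, one_mul, map_pow]
    exact pow_ne_zero _ hvx
  obtain ⟨i, hi, j, hj, hij, heq, hne0⟩ :=
    exists_ne_valuation_eq_of_sum_eq_zero A.valuation _ _ hsum hne
  -- symmetric statement: wlog i < j
  have key : ∀ i j : ℕ, i < j → j < d + 1 →
      A.valuation (algebraMap K L (f.coeff i) * x ^ i) =
        A.valuation (algebraMap K L (f.coeff j) * x ^ j) →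
      A.valuation (algebraMap K L (f.coeff i) * x ^ i) ≠ 0 →
      ∃ n : ℕ, 0 < n ∧ n ≤ d ∧
        ∃ a : K, a ≠ 0 ∧ A.valuation x ^ n = A.valuation (algebraMap K L a) := by
    intro i j hlt hjd heq hne0
    have hci : f.coeff i ≠ 0 := by
      intro h0
      apply hne0
      rw [h0, map_zero, zero_mul, map_zero]
    have hcj : f.coeff j ≠ 0 := by
      intro h0
      apply hne0
      rw [heq, h0, map_zero, zero_mul, map_zero]
    refine ⟨j - i, Nat.sub_pos_of_lt hlt, by omega, f.coeff i / f.coeff j,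
      div_ne_zero hci hcj, ?_⟩
    have hvj : A.valuation (algebraMap K L (f.coeff j)) ≠ 0 :=
      (Valuation.ne_zero_iff _).mpr (by simpa using hcj)
    have hxi : A.valuation x ^ i ≠ 0 := pow_ne_zero _ hvx
    rw [map_mul, map_mul, map_pow, map_pow] at heq
    rw [map_div₀, map_div₀, eq_div_iff hvj]
    have hji : j = (j - i) + i := by omega
    have h2 : A.valuation x ^ j = A.valuation x ^ (j - i) * A.valuation x ^ i := by
      conv_lhs => rw [hji, pow_add]
    rw [h2] at heq
    have h3 : A.valuation (algebraMap K L (f.coeff i)) * A.valuation x ^ i =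
        (A.valuation x ^ (j - i) * A.valuation (algebraMap K L (f.coeff j))) *
          A.valuation x ^ i := by
      rw [heq]; ac_rfl
    exact (mul_right_cancel₀ hxi h3).symm
  rcases lt_or_gt_of_ne hij with h | h
  · exact key i j h (Finset.mem_range.mp hj) heq hne0
  · exact key j i h (Finset.mem_range.mp hi) heq.symm (heq ▸ hne0)

/-- General form: if the valuations of `Kˣ` are powers of `v π`, `c ^ N = π` and `N` is divisible
by every `0 < n ≤ d`, then the valuation of every nonzero `x` of degree `≤ d` over `K` is an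
integral power of `v c`. -/
theorem exists_valuation_eq_zpow_root_of {π : L}
    (hK : ∀ a : K, a ≠ 0 → ∃ m : ℤ, A.valuation (algebraMap K L a) = A.valuation π ^ m)
    {N d : ℕ} (hN : ∀ n : ℕ, 0 < n → n ≤ d → n ∣ N) {c : L} (hc : c ^ N = π) {x : L}
    (hx : x ≠ 0) (hint : IsIntegral K x) (hdeg : (minpoly K x).natDegree ≤ d) :
    ∃ m : ℤ, A.valuation x = A.valuation c ^ m := by
  obtain ⟨n, hn0, hnd, a, ha, hxa⟩ := exists_pow_valuation_eq A hx hint
  obtain ⟨m, hm⟩ := hK a ha
  obtain ⟨N', rfl⟩ := hN n hn0 (hnd.trans hdeg)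
  refine ⟨N' * m, ?_⟩
  have h1 : A.valuation x ^ n = (A.valuation c ^ ((N' : ℤ) * m)) ^ n := by
    rw [hxa, hm, ← hc, map_pow, ← zpow_natCast (A.valuation c ^ ((N' : ℤ) * m)) n,
      ← zpow_natCast (A.valuation c) (n * N'), ← zpow_mul, ← zpow_mul]
    congr 1
    push_cast; ring
  exact (pow_left_inj hn0.ne').mp h1

end Algebraic

section Rat

variable {L : Type*} [Field L] [Algebra ℚ L] (A : ValuationSubring L) {q : ℕ}

theorem valuation_natCast_le_one (n : ℕ) : A.valuation (n : L) ≤ 1 :=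
  (A.valuation_le_one_iff _).mpr (natCast_mem A n)

theorem valuation_intCast_le_one (n : ℤ) : A.valuation (n : L) ≤ 1 :=
  (A.valuation_le_one_iff _).mpr (intCast_mem A n)

/-- Integers prime to `q` are units of a valuation subring lying over `q`. -/
theorem valuation_natCast_eq_one_of_coprime (hq : A.LiesOverPrime q) {n : ℕ}
    (hn : Nat.Coprime n q) : A.valuation (n : L) = 1 := by
  obtain ⟨a, b, hab⟩ := Nat.isCoprime_iff_coprime.mpr hn
  have hq1 : A.valuation (q : L) < 1 := A.mem_nonunits_iff.mp hq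
  have hL : (a : L) * (n : L) = 1 - (b : L) * (q : L) := by
    have := congrArg (Int.cast : ℤ → L) hab
    push_cast at this
    rw [← this]; ring
  have hbq : A.valuation ((b : L) * (q : L)) < 1 := by
    rw [map_mul]
    calc A.valuation (b : L) * A.valuation (q : L) ≤ 1 * A.valuation (q : L) :=
          mul_le_mul' (valuation_intCast_le_one A b) le_rfl
      _ = A.valuation (q : L) := one_mul _
      _ < 1 := hq1
  have h1 : A.valuation ((a : L) * (n : L)) = 1 := by
    rw [hL]; exact Valuation.map_one_sub_of_lt _ hbq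
  rw [map_mul] at h1
  refine le_antisymm (valuation_natCast_le_one A n) ?_
  calc (1 : A.ValueGroup) = A.valuation (a : L) * A.valuation (n : L) := h1.symm
    _ ≤ 1 * A.valuation (n : L) := mul_le_mul' (valuation_intCast_le_one A a) le_rfl
    _ = A.valuation (n : L) := one_mul _

theorem exists_valuation_natCast_eq_pow (hq : A.LiesOverPrime q) (hqp : q.Prime) {n : ℕ}
    (hn : n ≠ 0) : ∃ i : ℕ, A.valuation (n : L) = A.valuation (q : L) ^ i := by
  obtain ⟨i, n', hn', rfl⟩ := Nat.exists_eq_pow_mul_and_not_dvd hn q hqp.ne_one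
  refine ⟨i, ?_⟩
  have hc : Nat.Coprime n' q := ((Nat.Prime.coprime_iff_not_dvd hqp).mpr hn').symm
  rw [Nat.cast_mul, Nat.cast_pow, map_mul, map_pow, valuation_natCast_eq_one_of_coprime A hq hc,
    mul_one]

theorem exists_valuation_intCast_eq_pow (hq : A.LiesOverPrime q) (hqp : q.Prime) {n : ℤ}
    (hn : n ≠ 0) : ∃ i : ℕ, A.valuation (n : L) = A.valuation (q : L) ^ i := by
  obtain ⟨i, hi⟩ := exists_valuation_natCast_eq_pow A hq hqp (Int.natAbs_ne_zero.mpr hn)
  refine ⟨i, ?_⟩
  rw [← hi]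
  rcases Int.natAbs_eq n with h | h
  · conv_lhs => rw [h]
    simp
  · conv_lhs => rw [h]
    simp

/-- The valuation of a nonzero rational number is an integral power of `v q`. -/
theorem exists_valuation_rat_eq_zpow (hq : A.LiesOverPrime q) (hqp : q.Prime) {a : ℚ}
    (ha : a ≠ 0) : ∃ m : ℤ, A.valuation (algebraMap ℚ L a) = A.valuation (q : L) ^ m := by
  obtain ⟨i, hi⟩ := exists_valuation_intCast_eq_pow A hq hqp (Rat.num_ne_zero.mpr ha)
  obtain ⟨j, hj⟩ := exists_valuation_natCast_eq_pow A hq hqp a.den_ne_zero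
  refine ⟨(i : ℤ) - j, ?_⟩
  have h1 : algebraMap ℚ L a = (a.num : L) / (a.den : L) := by
    rw [eq_ratCast, Rat.cast_def]
  have hq0 : A.valuation (q : L) ≠ 0 := by
    haveI : CharZero L := charZero_of_injective_ringHom (algebraMap ℚ L).injective
    exact (Valuation.ne_zero_iff _).mpr (Nat.cast_ne_zero.mpr hqp.ne_zero)
  rw [h1, map_div₀, hi, hj, zpow_sub₀ hq0, zpow_natCast, zpow_natCast]

/-- If `c ^ N = q` with `N` divisible by every `0 < n ≤ d`, then the valuation of every nonzero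
`x` of degree `≤ d` over `ℚ` is an integral power of `v c`. -/
theorem exists_valuation_eq_zpow_root (hq : A.LiesOverPrime q) (hqp : q.Prime) {N d : ℕ}
    (hN : ∀ n : ℕ, 0 < n → n ≤ d → n ∣ N) {c : L} (hc : c ^ N = (q : L)) {x : L} (hx : x ≠ 0)
    (hint : IsIntegral ℚ x) (hdeg : (minpoly ℚ x).natDegree ≤ d) :
    ∃ m : ℤ, A.valuation x = A.valuation c ^ m :=
  exists_valuation_eq_zpow_root_of A (fun _ ha => exists_valuation_rat_eq_zpow A hq hqp ha)
    hN hc hx hint hdeg

end Rat

end Fermat.Agent.S56.H186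

end
-- ===== PACK-END S56/H186/TameVal.lean

-- ===== PACK-BEGIN S19/H135/OfFlatModel.lean
section
/-
Cell A3 / WP-C (helper135): a flat model yields a Hopf lattice (image of the Hopf algebra under
evaluation at its `ℚ̄`-points).  No reducedness of `H ⊗ ℚ` is needed.
-/


set_option autoImplicit false

namespace Fermat.Agent.S19.H135

open TensorProduct

theorem FlatModel.hasHopfLattice {ℓ : ℕ} {M : Type} [AddCommGroup M]
    {act : (AlgebraicClosure ℚ ≃ₐ[ℚ] AlgebraicClosure ℚ) → M → M}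
    (h : FlatModel ℓ M act) : HasHopfLattice ℓ M act := by
  obtain ⟨H, _, _, hfin, -, -, e, hadd, hgal⟩ := h
  let ev : H →ₐ[GaloisRep.ratLocalizedAt ℓ] (M → AlgebraicClosure ℚ) :=
    AlgHom.pi (fun m => (e.symm m).ofConv)
  have ev_apply : ∀ (x : H) (m : M), ev x m = (e.symm m).ofConv x := fun _ _ => rfl
  refine ⟨ev.range, ?_, ?_, ?_, ?_⟩
  · -- finitely generated
    have h1 : Subalgebra.toSubmodule ev.range = LinearMap.range ev.toLinearMap := rfl
    rw [h1, LinearMap.range_eq_map]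
    exact Submodule.FG.map _ hfin.fg_top
  · -- equivariance
    rintro f ⟨x, rfl⟩ σ m
    let g₀ : WithConv (H →ₐ[GaloisRep.ratLocalizedAt ℓ] AlgebraicClosure ℚ) :=
      WithConv.toConv (((σ : AlgebraicClosure ℚ →ₐ[ℚ] AlgebraicClosure ℚ).restrictScalars
        (GaloisRep.ratLocalizedAt ℓ)).comp (e.symm m).ofConv)
    have h2 : e g₀ = act σ (e (e.symm m)) := hgal σ (e.symm m) g₀ (fun _ => rfl)
    rw [Equiv.apply_symm_apply] at h2
    have h3 : e.symm (act σ m) = g₀ := by rw [← h2, Equiv.symm_apply_apply]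
    show (e.symm (act σ m)).ofConv x = σ ((e.symm m).ofConv x)
    rw [h3]
    rfl
  · -- separation
    intro m n hmn
    have : e.symm m = e.symm n := by
      apply WithConv.ofConv_injective
      apply AlgHom.ext
      intro x
      exact hmn (ev x) ⟨x, rfl⟩
    exact e.symm.injective this
  · -- comultiplication
    rintro F ⟨f, ⟨x, rfl⟩, rfl⟩
    set S := Subalgebra.map (pull (GaloisRep.ratLocalizedAt ℓ) (AlgebraicClosure ℚ)
        (Prod.fst : M × M → M)) ev.range ⊔
      Subalgebra.map (pull (GaloisRep.ratLocalizedAt ℓ) (AlgebraicClosure ℚ)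
        (Prod.snd : M × M → M)) ev.range with hS
    have hsymm : ∀ m n : M, e.symm (m + n) = e.symm m * e.symm n := by
      intro m n
      apply e.injective
      rw [hadd]
      simp
    have key : ∀ t : H ⊗[GaloisRep.ratLocalizedAt ℓ] H,
        (fun p : M × M => Algebra.TensorProduct.lift (e.symm p.1).ofConv (e.symm p.2).ofConv
          (fun _ _ => Commute.all _ _) t) ∈ S := by
      intro t
      induction t using TensorProduct.induction_on with
      | zero =>
        have : (fun p : M × M => Algebra.TensorProduct.lift (e.symm p.1).ofConv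
            (e.symm p.2).ofConv (fun _ _ => Commute.all _ _)
            (0 : H ⊗[GaloisRep.ratLocalizedAt ℓ] H)) = 0 := by
          funext p; simp
        rw [this]; exact S.zero_mem
      | tmul a b =>
        have : (fun p : M × M => Algebra.TensorProduct.lift (e.symm p.1).ofConv
            (e.symm p.2).ofConv (fun _ _ => Commute.all _ _) (a ⊗ₜ[GaloisRep.ratLocalizedAt ℓ] b))
            = pull (GaloisRep.ratLocalizedAt ℓ) (AlgebraicClosure ℚ) (Prod.fst : M × M → M) (ev a)
              * pull (GaloisRep.ratLocalizedAt ℓ) (AlgebraicClosure ℚ)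
                (Prod.snd : M × M → M) (ev b) := by
          funext p
          simp [ev_apply]
        rw [this]
        refine S.mul_mem ?_ ?_
        · exact (le_sup_left : _ ≤ S) ⟨ev a, ⟨a, rfl⟩, rfl⟩
        · exact (le_sup_right : _ ≤ S) ⟨ev b, ⟨b, rfl⟩, rfl⟩
      | add t₁ t₂ h₁ h₂ =>
        have : (fun p : M × M => Algebra.TensorProduct.lift (e.symm p.1).ofConv
            (e.symm p.2).ofConv (fun _ _ => Commute.all _ _) (t₁ + t₂)) =
            (fun p : M × M => Algebra.TensorProduct.lift (e.symm p.1).ofConv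
              (e.symm p.2).ofConv (fun _ _ => Commute.all _ _) t₁) +
            (fun p : M × M => Algebra.TensorProduct.lift (e.symm p.1).ofConv
              (e.symm p.2).ofConv (fun _ _ => Commute.all _ _) t₂) := by
          funext p; simp
        rw [this]; exact S.add_mem h₁ h₂
    have hF : pull (GaloisRep.ratLocalizedAt ℓ) (AlgebraicClosure ℚ)
        (fun p : M × M => p.1 + p.2) (ev x) =
        (fun p : M × M => Algebra.TensorProduct.lift (e.symm p.1).ofConv (e.symm p.2).ofConv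
          (fun _ _ => Commute.all _ _) (Coalgebra.comul x)) := by
      funext p
      show (e.symm (p.1 + p.2)).ofConv x = _
      rw [hsymm]
      exact AlgHom.convMul_apply _ _ _
    show pull (GaloisRep.ratLocalizedAt ℓ) (AlgebraicClosure ℚ)
        (fun p : M × M => p.1 + p.2) (ev x) ∈ S
    rw [hF]
    exact key _

end Fermat.Agent.S19.H135

end
-- ===== PACK-END S19/H135/OfFlatModel.lean

-- ===== PACK-BEGIN S53/GlueDefs.lean
section






set_option autoImplicit false
set_option linter.unusedSectionVars false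
set_option linter.unusedVariables false

open IsLocalRing GaloisRep

noncomputable section

namespace Fermat.Agent.S53

/-- Index type of matrix-entry coordinates. -/
abbrev Idx : Type := GQ × Fin 2 × Fin 2

/-- The entry function of a matrix representation. -/
def entries {A : Type} [CommRing A] (r : GQ →* M2 A) : Idx → A := fun t => r t.1 t.2.1 t.2.2

lemma entries_apply {A : Type} [CommRing A] (r : GQ →* M2 A) (σ : GQ) (i j : Fin 2) :
    entries r (σ, i, j) = r σ i j := rfl

lemma entries_injective {A : Type} [CommRing A] {r r' : GQ →* M2 A}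
    (h : entries r = entries r') : r = r' := by
  ext σ i j
  exact congrFun h (σ, i, j)

lemma entries_mapRep {A B : Type} [CommRing A] [CommRing B] (φ : A →+* B) (r : GQ →* M2 A) :
    entries (mapRep φ r) = fun t => φ (entries r t) := rfl

section Basic

variable {𝒪 : Type} [CommRing 𝒪]

/-- `x` lifts the fixed family `c` modulo the maximal ideal. -/
def IsLiftC (c : Idx → 𝒪) {A : Type} [CommRing A] [IsLocalRing A] [Algebra 𝒪 A]
    (x : Idx → A) : Prop :=
  ∀ t, x t - algebraMap 𝒪 A (c t) ∈ maximalIdeal A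

/-- `x` takes prescribed constant values at finitely many coordinates. -/
def NormC {m : ℕ} (coord : Fin m → Idx) (cst : Fin m → 𝒪) {A : Type} [CommRing A] [Algebra 𝒪 A]
    (x : Idx → A) : Prop :=
  ∀ a, x (coord a) = algebraMap 𝒪 A (cst a)

end Basic

/-- The rigidification kit: three coordinates and constants such that normalized lifts are
rigid and exist. -/
structure RigidKit (𝒪 : Type) [CommRing 𝒪] [IsLocalRing 𝒪] (c : Idx → 𝒪) where
  m : ℕ
  coord : Fin m → Idx
  cst : Fin m → 𝒪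
  cst_res : ∀ a, residue 𝒪 (cst a) = residue 𝒪 (c (coord a))
  rigid : ∀ ⦃A : Type⦄ [CommRing A] [IsLocalRing A] [Algebra 𝒪 A]
    [IsLocalHom (algebraMap 𝒪 A)] [IsAdicComplete (maximalIdeal A) A] (r r' : GQ →* M2 A),
    IsLiftC c (entries r) → IsLiftC c (entries r') →
    NormC coord cst (entries r) → NormC coord cst (entries r') →
    ∀ P : (M2 A)ˣ, (∀ σ, (P : M2 A) * r σ = r' σ * P) → r = r'
  exists_norm : ∀ ⦃A : Type⦄ [CommRing A] [IsLocalRing A] [Algebra 𝒪 A]
    [IsLocalHom (algebraMap 𝒪 A)] [IsAdicComplete (maximalIdeal A) A] (r : GQ →* M2 A),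
    IsLiftC c (entries r) →
    ∃ P : (M2 A)ˣ, IsLiftC c (entries (conjRep P r)) ∧ NormC coord cst (entries (conjRep P r))

/-- The predicate "`x` is the entry function of a normalized `𝒟`-lifting". -/
def Lpred {𝒪 : Type} [CommRing 𝒪] [IsLocalRing 𝒪]
    (𝒟 : ∀ ⦃A : Type⦄ [CommRing A] [IsLocalRing A] [Algebra 𝒪 A], GaloisRepAdic A → Prop)
    {c : Idx → 𝒪} (K : RigidKit 𝒪 c) : PointFamily 𝒪 Idx :=
  fun A _ _ _ x => ∃ (r : GQ →* M2 A) (hr : MatCont r), entries r = x ∧ 𝒟 (toAdic r hr) ∧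
    IsLiftC c x ∧ NormC K.coord K.cst x

end Fermat.Agent.S53

end

end
-- ===== PACK-END S53/GlueDefs.lean

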