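import Fermat.Prelude.Thm_Algebra_finite_maximalSpectrum_and_bijective_localization_of_module_finite
import Fermat.Prelude.Thm_IsLocalRing_isAdicComplete_of_module_finite
import Fermat.Prelude.Def_ExtEndgame_ProductionDatum
import Mathlib
import Mathlib.NumberTheory.ModularForms.NormTrace
import Fermat.Prelude.Def_ModularForm_HeckeOperatorForms
import Fermat.Prelude.Thm_CongruenceSubgroup_one_mem_strictPeriods_Gamma0
import Fermat.Agent.Pack.S43GC.G0E3L1
import Fermat.Agent.Pack.S44C.G0E6L0
import Fermat.Agent.Pack.S43GC.G0E3L0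
import Fermat.Agent.Pack.S43GC.G0E3L2
import Fermat.Agent.Pack.S43GC.G0E0L0
import Fermat.Agent.Pack.S43GC.G0E3L3
import Fermat.Agent.Pack.S43GC.G0E0L3
import Fermat.Agent.Pack.S43GC.G0E2L0
import Fermat.Agent.Pack.S44C.G0E1L0
import Fermat.Agent.Pack.S43GC.G0E4L0
import Fermat.Agent.Pack.Fast891

-- ===== PACK-BEGIN S55/PT/EngineH476.lean
section


/-!
# S55 / layer D, leaf D-E1 (helper476): the abstract engine, version 3

`engine : EngineSpec`.  Pure linear algebra over a field.

* `θ : T² → Dual X¹`, `θ x (δ f) = ΘR (∂T x) f`, is well defined (`ΘR (∂T x)` kills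
  `ker δ = im r₀` by naturality and `tT ∘ ∂T = 0`), onto (`ΘR` onto, `ΘP` injective,
  `im ∂T = ker tT`) and `ker θ = ker ∂T ≤ ker u = im j` (CAP).
* `Ann_{X¹} (θ (j L¹)) = ker loc` (local top-degree data, `LocalTop.ann_iff`).
* `F = rest ∘ θ : T² → Dual (ker loc)` is onto with kernel `im j` (double annihilator), hence
  `ker loc₂ = im u ≃ T² / im j ≃ Dual (ker loc)`.
-/

set_option autoImplicit false

namespace Fermat.Agent.S55.PT.H476

open Module Fermat.Agent.S55.H244 Fermat.Agent.S55.PT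

section Theta

variable {k : Type*} [Field k]
variable {T2 T3R T3P H0R H0P X1 : Type*}
  [AddCommGroup T2] [Module k T2] [AddCommGroup T3R] [Module k T3R]
  [AddCommGroup T3P] [Module k T3P] [AddCommGroup H0R] [Module k H0R]
  [AddCommGroup H0P] [Module k H0P] [AddCommGroup X1] [Module k X1]

/-- The shifted map `θ : T² → Dual X¹`, `θ x (δ f) = ΘR (∂T x) f`: it exists, is onto, and its
kernel is the kernel of `∂T` (no injectivity of `∂T` is assumed). -/
theorem exists_theta_of_shift
    (dT : T2 →ₗ[k] T3R) (tT : T3R →ₗ[k] T3P) (hdT : LinearMap.range dT = LinearMap.ker tT)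
    (r0 : H0P →ₗ[k] H0R) (del : H0R →ₗ[k] X1)
    (hdel : Function.Surjective del) (hdelker : LinearMap.ker del = LinearMap.range r0)
    (ThR : T3R →ₗ[k] Dual k H0R) (ThP : T3P →ₗ[k] Dual k H0P)
    (hThR : Function.Bijective ThR) (hThP : Function.Injective ThP)
    (hnat : ∀ (t : T3R) (g : H0P), ThP (tT t) g = ThR t (r0 g)) :
    ∃ θ : T2 →ₗ[k] Dual k X1, (∀ x f, θ x (del f) = ThR (dT x) f) ∧
      Function.Surjective θ ∧ ∀ x, θ x = 0 → dT x = 0 := by
  classical
  have htd : ∀ x : T2, tT (dT x) = 0 := by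
    intro x
    have h : dT x ∈ LinearMap.ker tT := by
      rw [← hdT]
      exact ⟨x, rfl⟩
    exact h
  have hkill : ∀ x : T2, LinearMap.ker del ≤ LinearMap.ker (ThR (dT x)) := by
    intro x f hf
    rw [hdelker] at hf
    obtain ⟨g, rfl⟩ := hf
    rw [LinearMap.mem_ker, ← hnat, htd, map_zero, LinearMap.zero_apply]
  -- a linear section-free description: `θ x y := ΘR (∂T x) f` for any `f` with `δ f = y`
  have hwd : ∀ (x : T2) (f f' : H0R), del f = del f' → ThR (dT x) f = ThR (dT x) f' := by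
    intro x f f' h
    have h1 : f - f' ∈ LinearMap.ker del := by
      rw [LinearMap.mem_ker, map_sub, h, sub_self]
    have h2 := hkill x h1
    rw [LinearMap.mem_ker, map_sub, sub_eq_zero] at h2
    exact h2
  choose s hs using hdel
  let θ : T2 →ₗ[k] Dual k X1 :=
    { toFun := fun x =>
        { toFun := fun y => ThR (dT x) (s y)
          map_add' := fun y y' => by
            rw [← map_add]
            apply hwd
            rw [map_add, hs, hs, hs]
          map_smul' := fun a y => by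
            rw [RingHom.id_apply, ← map_smul]
            apply hwd
            rw [map_smul, hs, hs] }
      map_add' := fun x x' => by
        apply LinearMap.ext
        intro y
        show ThR (dT (x + x')) (s y) = ThR (dT x) (s y) + ThR (dT x') (s y)
        rw [map_add, map_add, LinearMap.add_apply]
      map_smul' := fun a x => by
        apply LinearMap.ext
        intro y
        show ThR (dT (a • x)) (s y) = a • ThR (dT x) (s y)
        rw [map_smul, map_smul, LinearMap.smul_apply] }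
  have hθ : ∀ x f, θ x (del f) = ThR (dT x) f := by
    intro x f
    show ThR (dT x) (s (del f)) = ThR (dT x) f
    apply hwd
    rw [hs]
  refine ⟨θ, hθ, ?_, ?_⟩
  · intro φ
    obtain ⟨z, hz⟩ := hThR.2 (φ ∘ₗ del)
    have hz3 : tT z = 0 := by
      apply hThP
      rw [map_zero]
      apply LinearMap.ext
      intro g
      rw [hnat, hz, LinearMap.comp_apply]
      have h : r0 g ∈ LinearMap.ker del := by
        rw [hdelker]
        exact ⟨g, rfl⟩
      rw [LinearMap.mem_ker.1 h, map_zero, LinearMap.zero_apply]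
    have hzr : z ∈ LinearMap.range dT := by
      rw [hdT]
      exact hz3
    obtain ⟨x, rfl⟩ := hzr
    refine ⟨x, ?_⟩
    apply LinearMap.ext
    intro y
    obtain ⟨f, rfl⟩ := (fun y => (⟨s y, hs y⟩ : ∃ f, del f = y)) y
    rw [hθ, hz, LinearMap.comp_apply]
  · intro x hx
    apply hThR.1
    rw [map_zero]
    apply LinearMap.ext
    intro f
    rw [← hθ, hx, LinearMap.zero_apply, LinearMap.zero_apply]

end Theta

section Final

variable {k : Type*} [Field k]
variable {T2 H2 L1 L2 X1 Y1 : Type*}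
  [AddCommGroup T2] [Module k T2] [AddCommGroup H2] [Module k H2]
  [AddCommGroup L1] [Module k L1] [AddCommGroup L2] [Module k L2]
  [AddCommGroup X1] [Module k X1] [AddCommGroup Y1] [Module k Y1]

/-- **Final step, annihilator form, for a surjection `θ` with `ker θ ≤ im j`.** -/
theorem sha_equiv_of_ann_surj [FiniteDimensional k X1]
    (j : L1 →ₗ[k] T2) (u : T2 →ₗ[k] H2) (loc2 : H2 →ₗ[k] L2) (loc : X1 →ₗ[k] Y1)
    (hju : LinearMap.ker u = LinearMap.range j)
    (hu2 : LinearMap.range u = LinearMap.ker loc2)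
    (θ : T2 →ₗ[k] Dual k X1) (hθs : Function.Surjective θ)
    (hθk : ∀ x, θ x = 0 → x ∈ LinearMap.range j)
    (hann : ∀ y : X1, (∀ b : L1, θ (j b) y = 0) ↔ loc y = 0) :
    Nonempty (LinearMap.ker loc2 ≃ₗ[k] Dual k (LinearMap.ker loc)) := by
  classical
  let rest : Dual k X1 →ₗ[k] Dual k (LinearMap.ker loc) :=
    Module.Dual.transpose (R := k) (LinearMap.ker loc).subtype
  have hrest : ∀ (φ : Dual k X1) (y : LinearMap.ker loc), rest φ y = φ y.1 := fun _ _ => rfl
  have hrest_surj : Function.Surjective rest := by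
    intro φ
    obtain ⟨ψ, hψ⟩ := LinearMap.exists_extend (p := LinearMap.ker loc) φ
    refine ⟨ψ, ?_⟩
    apply LinearMap.ext
    intro x
    rw [hrest, ← hψ]
    rfl
  let F : T2 →ₗ[k] Dual k (LinearMap.ker loc) := rest ∘ₗ θ
  have hF : ∀ (x : T2) (y : LinearMap.ker loc), F x y = θ x y.1 := fun _ _ => rfl
  have hF_surj : Function.Surjective F := hrest_surj.comp hθs
  have hF_ker : LinearMap.ker F = LinearMap.range j := by
    apply le_antisymm
    · intro x hx
      have hx' : ∀ y : X1, loc y = 0 → θ x y = 0 := by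
        intro y hy
        have h1 := hF x ⟨y, hy⟩
        rw [LinearMap.mem_ker.1 hx, LinearMap.zero_apply] at h1
        exact h1.symm
      have hmem : θ x ∈ (LinearMap.range j).map θ := by
        apply mem_of_forall_ker_le
        intro y hy
        apply hx'
        rw [← hann]
        intro b
        exact hy _ ⟨j b, ⟨b, rfl⟩, rfl⟩
      obtain ⟨x', hx'j, hx'x⟩ := hmem
      have h2 : θ (x - x') = 0 := by
        rw [map_sub, hx'x, sub_self]
      have h3 := hθk _ h2
      have h4 := (LinearMap.range j).add_mem h3 hx'j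
      rwa [sub_add_cancel] at h4
    · rintro x ⟨b, rfl⟩
      rw [LinearMap.mem_ker]
      apply LinearMap.ext
      rintro ⟨y, hy⟩
      rw [hF, LinearMap.zero_apply]
      exact (hann y).2 hy b
  have e1 : (T2 ⧸ LinearMap.ker u) ≃ₗ[k] LinearMap.range u := u.quotKerEquivRange
  have e2 : (T2 ⧸ LinearMap.ker F) ≃ₗ[k] Dual k (LinearMap.ker loc) :=
    F.quotKerEquivOfSurjective hF_surj
  have hk : LinearMap.ker u = LinearMap.ker F := by rw [hju, hF_ker]
  have e3 : (T2 ⧸ LinearMap.ker u) ≃ₗ[k] (T2 ⧸ LinearMap.ker F) :=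
    Submodule.quotEquivOfEq _ _ hk
  have e4 : LinearMap.range u ≃ₗ[k] LinearMap.ker loc2 := LinearEquiv.ofEq _ _ hu2
  exact ⟨e4.symm.trans (e1.symm.trans (e3.trans e2))⟩

end Final

/-- **D-E1 (engine v3).** -/
theorem engine : EngineSpec := by
  intro k _ ι _ _ T2 H2 L2 X1 T3R T3P H0R H0P _ _ _ _ _ _ _ _ _ _ _ _ _ _ _ _
    L1 T2R T2P H0Rv H0Pv Y1 _ _ _ _ _ _ _ _ _ _ _ _ _
    j u loc2 loc hju hu2 dT tT hdT r0 del hdel hdelker ThR ThP hThR hThP hnat hcap D res hloc
    c hc hform
  classical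
  obtain ⟨θ, hθ, hθs, hθk⟩ :=
    exists_theta_of_shift dT tT hdT r0 del hdel hdelker ThR ThP hThR hThP hnat
  refine sha_equiv_of_ann_surj j u loc2 loc hju hu2 θ hθs ?_ ?_
  · intro x hx
    rw [← hju]
    exact hcap x (hθk x hx)
  · intro y
    obtain ⟨f, rfl⟩ := hdel y
    constructor
    · intro h
      funext v
      rw [← hloc, Pi.zero_apply, ← (D v).ann_iff]
      intro bv
      have h1 := h (Pi.single v bv)
      rw [hθ, hform] at h1
      have h2 : ∑ w, (D w).ThR ((D w).dv ((Pi.single v bv : ∀ v, L1 v) w)) (res w f) =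
          (D v).ThR ((D v).dv bv) (res v f) := by
        rw [Finset.sum_eq_single v]
        · rw [Pi.single_eq_same]
        · intro w _ hw
          rw [Pi.single_eq_of_ne hw, map_zero, map_zero, LinearMap.zero_apply]
        · intro hv
          exact absurd (Finset.mem_univ v) hv
      rw [h2] at h1
      exact (mul_eq_zero.1 h1).resolve_left hc
    · intro h b
      rw [hθ, hform]
      have h3 : ∀ v, (D v).ThR ((D v).dv (b v)) (res v f) = 0 := by
        intro v
        apply ((D v).ann_iff (res v f)).2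
        rw [hloc, h, Pi.zero_apply]
      rw [Finset.sum_eq_zero (fun v _ => h3 v), mul_zero]

end Fermat.Agent.S55.PT.H476

end
-- ===== PACK-END S55/PT/EngineH476.lean

-- ===== PACK-BEGIN S55/Bridge/MuP.lean
section


/-!
# S55 bridge, part B13: `μ_p` as a Galois module and `M.dualTwist (cycloChar p) ≅ Hom(M, μ_p)`

* `MuP p` : the group `μ_p(ℚ̄)` of `p`-th roots of unity written additively, an `𝔽_p`-vector space
  of dimension one.
* `muPRep p` : the Galois representation on it.  It is *defined* as "multiply by `cycloChar p σ`"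
  and `muPRep_apply` shows that this is the natural action `σ • t = σ(t)`.
* `muP p : Rep (ZMod p) G_ℚ`, `muPIsoOfChar : muP p ≅ ofChar (cycloChar p)`.
* `homMuP M := Hom_{𝔽_p}(M, μ_p)` with the conjugation action `(σ f)(m) = σ (f (σ⁻¹ m))`, and
  `dualTwistIsoHomMuP : M.dualTwist (cycloChar p) ≅ homMuP M`.
* `evalMuP` : the evaluation pairing `M × M^*(1) → μ_p`, Galois equivariant (`evalMuP_equivariant`).
* `dualTwistDualTwistIso : (M.dualTwist χ).dualTwist χ ≅ M` for finite dimensional `M` (any field,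
  any group, any character).
-/

set_option autoImplicit false
set_option linter.unusedSectionVars false
set_option linter.style.haveILetI false

namespace Fermat.Agent.S55.Bridge

open ExtCitation Module

section MuP

variable (p : ℕ) [Fact p.Prime]

/-- `μ_p(ℚ̄)`, written additively. -/
def MuP : Type := Additive (rootsOfUnity p (AlgebraicClosure ℚ))

noncomputable instance MuP.instAddCommGroup : AddCommGroup (MuP p) :=
  inferInstanceAs (AddCommGroup (Additive (rootsOfUnity p (AlgebraicClosure ℚ))))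

/-- The element of `MuP p` attached to a `p`-th root of unity. -/
def MuP.of (t : rootsOfUnity p (AlgebraicClosure ℚ)) : MuP p := Additive.ofMul t

/-- The root of unity underlying an element of `MuP p`. -/
def MuP.root (x : MuP p) : rootsOfUnity p (AlgebraicClosure ℚ) := Additive.toMul x

variable {p}

@[simp] theorem MuP.root_of (t : rootsOfUnity p (AlgebraicClosure ℚ)) :
    (MuP.of p t).root = t := rfl

@[simp] theorem MuP.of_root (x : MuP p) : MuP.of p x.root = x := rfl

theorem MuP.root_injective : Function.Injective (MuP.root (p := p)) := fun _ _ h => h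

@[simp] theorem MuP.root_add (x y : MuP p) : (x + y).root = x.root * y.root := rfl

@[simp] theorem MuP.root_zero : (0 : MuP p).root = 1 := rfl

@[simp] theorem MuP.root_nsmul (n : ℕ) (x : MuP p) : (n • x).root = x.root ^ n := rfl

theorem MuP.nsmul_p (x : MuP p) : p • x = 0 := by
  apply MuP.root_injective
  rw [MuP.root_nsmul, MuP.root_zero]
  have h := (mem_rootsOfUnity p (x.root : (AlgebraicClosure ℚ)ˣ)).1 x.root.2
  exact Subtype.ext (by simpa using h)

variable (p)

noncomputable instance MuP.instModule : Module (ZMod p) (MuP p) :=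
  AddCommGroup.zmodModule MuP.nsmul_p

variable {p}

theorem MuP.zmod_smul (a : ZMod p) (x : MuP p) : a • x = a.val • x := by
  haveI : NeZero p := ⟨(Fact.out : p.Prime).ne_zero⟩
  conv_lhs => rw [← ZMod.natCast_zmod_val a]
  exact Nat.cast_smul_eq_nsmul (ZMod p) a.val x

theorem MuP.root_zmod_smul (a : ZMod p) (x : MuP p) : (a • x).root = x.root ^ a.val := by
  rw [MuP.zmod_smul, MuP.root_nsmul]

variable (p)

theorem MuP.natCard : Nat.card (MuP p) = p := card_rootsOfUnity_eq_self p

noncomputable instance MuP.instFinite : Finite (MuP p) :=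
  Nat.finite_of_card_ne_zero (by rw [MuP.natCard]; exact (Fact.out : p.Prime).ne_zero)

theorem MuP.finrank_eq_one : finrank (ZMod p) (MuP p) = 1 := by
  have h := Module.natCard_eq_pow_finrank (K := ZMod p) (V := MuP p)
  rw [MuP.natCard, Nat.card_zmod] at h
  have hp : p.Prime := Fact.out
  have h' : p ^ 1 = p ^ finrank (ZMod p) (MuP p) := by rw [pow_one]; exact h
  exact (Nat.pow_right_injective hp.two_le h').symm

/-- The Galois representation on `μ_p`: multiplication by the mod `p` cyclotomic character. -/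
noncomputable def muPRep :
    Representation (ZMod p) (AlgebraicClosure ℚ ≃ₐ[ℚ] AlgebraicClosure ℚ) (MuP p) :=
  (Representation.trivial (ZMod p) (AlgebraicClosure ℚ ≃ₐ[ℚ] AlgebraicClosure ℚ) (MuP p)).twist
    (cycloChar p)

theorem muPRep_apply_smul (σ : AlgebraicClosure ℚ ≃ₐ[ℚ] AlgebraicClosure ℚ) (x : MuP p) :
    muPRep p σ x = ((cycloChar p σ : (ZMod p)ˣ) : ZMod p) • x := rfl

/-- `muPRep` is the natural Galois action on roots of unity. -/
theorem muPRep_apply (σ : AlgebraicClosure ℚ ≃ₐ[ℚ] AlgebraicClosure ℚ) (x : MuP p) :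
    (((muPRep p σ x).root : (AlgebraicClosure ℚ)ˣ) : AlgebraicClosure ℚ)
      = σ ((x.root : (AlgebraicClosure ℚ)ˣ) : AlgebraicClosure ℚ) := by
  rw [muPRep_apply_smul, MuP.root_zmod_smul, cycloChar_spec p σ x.root.2]
  simp

/-- `μ_p` as an object of `Rep (ZMod p) G_ℚ`. -/
noncomputable def muP : Rep.{0, 0, 0} (ZMod p) (AlgebraicClosure ℚ ≃ₐ[ℚ] AlgebraicClosure ℚ) :=
  Rep.of (muPRep p)

/-- A (non canonical) `𝔽_p`-linear identification `𝔽_p ≃ μ_p`. -/
noncomputable def muPLinearEquiv : ZMod p ≃ₗ[ZMod p] MuP p :=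
  LinearEquiv.ofFinrankEq (ZMod p) (MuP p) (by rw [Module.finrank_self, MuP.finrank_eq_one])

end MuP

section Iso

variable (p : ℕ) [Fact p.Prime]

/-- `μ_p ≅ 𝔽_p(χ_p)` (non canonically: a choice of a primitive `p`-th root of unity). -/
noncomputable def muPRepEquivOfChar :
    ((Representation.trivial (ZMod p) (AlgebraicClosure ℚ ≃ₐ[ℚ] AlgebraicClosure ℚ)
      (ZMod p)).twist (cycloChar p)).Equiv (muPRep p) :=
  Representation.Equiv.mk (muPLinearEquiv p) (fun g => by
    ext
    simp only [LinearMap.coe_comp, LinearEquiv.coe_coe, Function.comp_apply,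
      Representation.twist_apply_apply, Representation.trivial_apply, muPRep_apply_smul]
    exact map_smul _ _ _)

/-- `𝔽_p(χ_p) ≅ μ_p` in `Rep (ZMod p) G_ℚ`. -/
noncomputable def ofCharIsoMuP :
    groupCohomology.ofChar (k := ZMod p) (cycloChar p) ≅ muP p :=
  Rep.mkIso (muPRepEquivOfChar p)

variable {p}
variable (M : Rep.{0, 0, 0} (ZMod p) (AlgebraicClosure ℚ ≃ₐ[ℚ] AlgebraicClosure ℚ))

/-- `Hom_{𝔽_p}(M, μ_p)` with the action `(σ f)(m) = σ (f (σ⁻¹ m))`. -/
noncomputable def homMuPRep :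
    Representation (ZMod p) (AlgebraicClosure ℚ ≃ₐ[ℚ] AlgebraicClosure ℚ)
      (M →ₗ[ZMod p] MuP p) :=
  Representation.linHom M.ρ (muPRep p)

theorem homMuPRep_apply (σ : AlgebraicClosure ℚ ≃ₐ[ℚ] AlgebraicClosure ℚ)
    (f : M →ₗ[ZMod p] MuP p) (m : M) :
    homMuPRep M σ f m = muPRep p σ (f (M.ρ σ⁻¹ m)) := rfl

/-- `Hom(M, μ_p)` as an object of `Rep (ZMod p) G_ℚ`. -/
noncomputable def homMuP : Rep.{0, 0, 0} (ZMod p) (AlgebraicClosure ℚ ≃ₐ[ℚ] AlgebraicClosure ℚ) :=
  Rep.of (homMuPRep M)

/-- The linear equivalence `M^* ≃ Hom(M, μ_p)`, `f ↦ e ∘ f`. -/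
noncomputable def dualEquivHomMuP : Module.Dual (ZMod p) M ≃ₗ[ZMod p] (M →ₗ[ZMod p] MuP p) :=
  LinearEquiv.arrowCongr (LinearEquiv.refl (ZMod p) M) (muPLinearEquiv p)

theorem dualEquivHomMuP_apply (f : Module.Dual (ZMod p) M) (m : M) :
    dualEquivHomMuP M f m = muPLinearEquiv p (f m) := rfl

/-- **B13.** `M^*(1) = M.dualTwist (cycloChar p)` is `Hom(M, μ_p)` as a representation. -/
noncomputable def dualTwistEquivHomMuP :
    (M.ρ.dual.twist (cycloChar p)).Equiv (homMuPRep M) :=
  Representation.Equiv.mk (dualEquivHomMuP M) (fun g => by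
    ext f m
    simp only [LinearMap.coe_comp, LinearEquiv.coe_coe, Function.comp_apply,
      dualEquivHomMuP_apply, homMuPRep_apply, muPRep_apply_smul,
      Representation.twist_apply_apply, LinearMap.smul_apply, Representation.dual_apply,
      map_smul]
    rfl)

/-- **B13.** `M.dualTwist (cycloChar p) ≅ Hom(M, μ_p)` in `Rep (ZMod p) G_ℚ`. -/
noncomputable def dualTwistIsoHomMuP : M.dualTwist (cycloChar p) ≅ homMuP M :=
  Rep.mkIso (dualTwistEquivHomMuP M)

/-- The evaluation pairing `M × M^*(1) → μ_p`. -/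
noncomputable def evalMuP : M →ₗ[ZMod p] (M.dualTwist (cycloChar p)) →ₗ[ZMod p] MuP p :=
  LinearMap.mk₂ (ZMod p) (fun m f => muPLinearEquiv p ((f : Module.Dual (ZMod p) M) m))
    (fun m m' f => by simp only [map_add])
    (fun c m f => by
      simp only [map_smul])
    (fun m f f' => by
      exact map_add _ _ _)
    (fun c m f => by
      change muPLinearEquiv p (c • ((f : Module.Dual (ZMod p) M) m)) = _
      rw [map_smul])

theorem evalMuP_apply (m : M) (f : M.dualTwist (cycloChar p)) :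
    evalMuP M m f = muPLinearEquiv p ((f : Module.Dual (ZMod p) M) m) := rfl

/-- The evaluation pairing is Galois equivariant: `⟨σ m, σ f⟩ = σ ⟨m, f⟩`. -/
theorem evalMuP_equivariant (σ : AlgebraicClosure ℚ ≃ₐ[ℚ] AlgebraicClosure ℚ)
    (m : M) (f : M.dualTwist (cycloChar p)) :
    evalMuP M (M.ρ σ m) ((M.dualTwist (cycloChar p)).ρ σ f) = muPRep p σ (evalMuP M m f) := by
  rw [evalMuP_apply, evalMuP_apply, Rep.dualTwist_ρ_apply, muPRep_apply_smul]
  have h : M.ρ σ⁻¹ (M.ρ σ m) = m := by
    rw [← Module.End.mul_apply, ← map_mul, inv_mul_cancel, map_one, Module.End.one_apply]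
  simp only [LinearMap.smul_apply, LinearMap.coe_comp, Function.comp_apply, h, map_smul]

/-- The evaluation pairing is perfect on the left: `⟨m, f⟩ = 0` for all `f` forces `m = 0`. -/
theorem evalMuP_left_injective (m : M) (h : ∀ f : M.dualTwist (cycloChar p), evalMuP M m f = 0) :
    m = 0 := by
  by_contra hm
  obtain ⟨f, hf⟩ : ∃ f : Module.Dual (ZMod p) M, f m ≠ 0 := by
    by_contra hcon
    exact hm ((Module.forall_dual_apply_eq_zero_iff (ZMod p) m).1
      (fun f => not_not.1 (fun hf => hcon ⟨f, hf⟩)))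
  have := h f
  rw [evalMuP_apply, LinearEquiv.map_eq_zero_iff] at this
  exact hf this

/-- The evaluation pairing is perfect on the right. -/
theorem evalMuP_right_injective (f : M.dualTwist (cycloChar p)) (h : ∀ m : M, evalMuP M m f = 0) :
    f = 0 := by
  apply LinearMap.ext
  intro m
  have := h m
  rw [evalMuP_apply, LinearEquiv.map_eq_zero_iff] at this
  exact this

end Iso

section DoubleDual

universe u

variable {k G : Type u} [Field k] [Group G]

/-- The evaluation map `M → M^{**}` intertwines `M` and `(M.dualTwist χ).dualTwist χ`. -/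
theorem dualTwist_dualTwist_ρ_eval (M : Rep.{u, u, u} k G) (χ : G →* kˣ) (g : G) (m : M) :
    ((M.dualTwist χ).dualTwist χ).ρ g (Module.Dual.eval k M m)
      = Module.Dual.eval k M (M.ρ g m) := by
  apply LinearMap.ext
  intro f
  rw [Rep.dualTwist_ρ_apply]
  simp only [LinearMap.smul_apply, LinearMap.coe_comp, Function.comp_apply,
    Module.Dual.eval_apply]
  have h1 : (M.dualTwist χ).ρ g⁻¹ f = ((χ g⁻¹ : kˣ) : k) • (f ∘ₗ M.ρ g⁻¹⁻¹) :=
    Rep.dualTwist_ρ_apply M χ g⁻¹ f
  rw [h1, inv_inv]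
  simp only [LinearMap.smul_apply, LinearMap.coe_comp, Function.comp_apply, smul_eq_mul]
  rw [← mul_assoc, ← Units.val_mul, ← map_mul, mul_inv_cancel, map_one, Units.val_one, one_mul]

/-- `M ≃ (M^*(χ))^*(χ)` as representations, for finite dimensional `M`. -/
noncomputable def dualTwistDualTwistEquiv (M : Rep.{u, u, u} k G) (χ : G →* kˣ)
    [FiniteDimensional k M] :
    M.ρ.Equiv ((M.dualTwist χ).ρ.dual.twist χ) :=
  Representation.Equiv.mk (Module.evalEquiv k M) (fun g => by
    ext m : 1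
    exact (dualTwist_dualTwist_ρ_eval M χ g m).symm)

/-- `(M^*(χ))^*(χ) ≅ M` in `Rep k G`, for finite dimensional `M`. -/
noncomputable def dualTwistDualTwistIso (M : Rep.{u, u, u} k G) (χ : G →* kˣ)
    [FiniteDimensional k M] :
    (M.dualTwist χ).dualTwist χ ≅ M :=
  (Rep.mkIso (ρ := M.ρ) (σ := (M.dualTwist χ).ρ.dual.twist χ)
    (dualTwistDualTwistEquiv M χ)).symm ≪≫ (Rep.mkIso (Representation.Equiv.mk
      (LinearEquiv.refl k M) (fun _ => rfl) : M.ρ.Equiv M.ρ) : Rep.of M.ρ ≅ M) 

end DoubleDual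

end Fermat.Agent.S55.Bridge

end
-- ===== PACK-END S55/Bridge/MuP.lean

-- ===== PACK-BEGIN S55/KL/Spec2.lean
section


/-!
# S55, layer KB (abstract Kummer bridge), part 2: degrees 1 and 2, change of scalars

Interface statements only (Spec pattern, no `sorry`).  Architect: helper183.
Blueprint: `coord/S55-KL.md` on `origin/helper183`.

* `ScalarsSpec`   : effaceability does not depend on the coefficient ring (`k` versus `ℤ`);
* `FinH1Spec`     : finiteness of level-constant `H¹` (input A1 / A2 of layer D), elementwise;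
* `DimH2LeSpec`   : `dim H²_LC(Γ, μ) ≤ 1` (input A5 / A6 of layer D), elementwise;
* `DimH2GeSpec`   : `H²_LC(Γ, μ) ≠ 0`.
-/

set_option autoImplicit false

open CategoryTheory groupCohomology

namespace Fermat.Agent.S55.KL

variable {k : Type} [CommRing k] {Γ : Type} [Group Γ]

/-! ## Change of scalars -/

/-- Restriction of scalars to `ℤ` of a representation. -/
noncomputable def toInt (R : Rep.{0} k Γ) : Rep.{0} ℤ Γ :=
  Rep.of (k := ℤ) (X := R.V)
    { toFun := fun g => (R.ρ g).toAddMonoidHom.toIntLinearMap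
      map_one' := by
        ext x
        simp
      map_mul' := fun g h => by
        ext x
        simp }

/-- **KB-SCAL.**  `colim Hⁿ(Γ, R) = 0` may be checked after restriction of scalars to `ℤ`
(inhomogeneous cochains do not depend on the coefficient ring). -/
def ScalarsSpec : Prop :=
  ∀ (k Γ : Type) [CommRing k] [Group Γ] (N : NLevels Γ) (R : Rep.{0} k Γ) (n : ℕ),
    EffAll N (toInt R) n → EffAll N R n

/-- **KB-SCAL'.**  `cd_p ≤ 2` over `ℤ` implies `cd_p ≤ 2` over any `k`. -/
def CdScalarsSpec : Prop :=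
  ∀ (k Γ : Type) [CommRing k] [Group Γ] (N : NLevels Γ) (p : ℕ),
    CdLeTwo N ℤ p → CdLeTwo N k p

/-! ## Degree 1: finiteness -/

/-- `(A^U)/p` is finite for every open subgroup `U` (elementwise form). -/
def PowFinite (N : NLevels Γ) (A : Rep.{0} k Γ) (p : ℕ) : Prop :=
  ∀ U : Subgroup Γ, N.IsOpen U →
    ∃ F : Finset A.V, ∀ a : A.V, (∀ u ∈ U, A.ρ u a = a) →
      ∃ f ∈ F, ∃ b : A.V, (∀ u ∈ U, A.ρ u b = b) ∧ a = f + p • b

/-- The level-constant `H¹(Γ, R)` is finite (elementwise form: finitely many level-constant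
1-cocycles represent all classes). -/
def FinLC₁ (N : NLevels Γ) (R : Rep.{0} k Γ) : Prop :=
  ∃ F : Finset (Γ → R.V), ∀ c ∈ cocycles₁ R, IsLC₁ N c →
    ∃ f ∈ F, ∃ r : R.V, ∀ g : Γ, c g = f g + (R.ρ g r - r)

/-- **KB-A2.**  If `A` is smooth and `p`-divisible with `|A[p]| = p`, `colim H¹(U, A) = 0` for
every open subgroup `U` (Hilbert 90) and `(A^U)/p` is finite for every open `U`, then the
level-constant `H¹(Γ, R)` is finite for every finite smooth `p`-torsion module `R`.
(inflation–restriction to a level `V` acting trivially on `R` and `A[p]`; `Hom_LC(V, A[p])`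
injects into `(A^V)/p` by the Kummer map.) -/
def FinH1Spec : Prop :=
  ∀ (kA k Γ : Type) [CommRing kA] [CommRing k] [Group Γ] (N : NLevels Γ) (A : Rep.{0} kA Γ)
    (p : ℕ), p.Prime → IsSmooth N A → IsDivisibleBy A p → Nat.card (tors A p).V = p →
    (∀ U : Subgroup Γ, N.IsOpen U → EffAll (N.restrict U) (Rep.res U.subtype A) 1) →
    PowFinite N A p →
    ∀ R : Rep.{0} k Γ, Finite R.V → (∀ r : R.V, p • r = 0) → IsSmooth N R → FinLC₁ N R

/-! ## Degree 2: `H²(μ)` is one-dimensional -/

/-- `dim_{𝔽_p} H²_LC(Γ, R) ≤ 1` (elementwise form): any two level-constant 2-cocycles are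
linearly dependent modulo coboundaries of level-constant cochains. -/
def DimLC₂Le (N : NLevels Γ) (R : Rep.{0} k Γ) (p : ℕ) : Prop :=
  ∀ c₁ ∈ cocycles₂ R, ∀ c₂ ∈ cocycles₂ R, IsLC₂ N c₁ → IsLC₂ N c₂ →
    ∃ a₁ a₂ : ℤ, (¬ (p : ℤ) ∣ a₁ ∨ ¬ (p : ℤ) ∣ a₂) ∧
      ∃ b : Γ → R.V, IsLC₁ N b ∧ a₁ • c₁ + a₂ • c₂ = (d₁₂ R).hom b

/-- `H²_LC(Γ, R) ≠ 0` (elementwise form). -/
def DimLC₂Ge (N : NLevels Γ) (R : Rep.{0} k Γ) : Prop :=
  ∃ c ∈ cocycles₂ R, IsLC₂ N c ∧ ¬ ∃ b : Γ → R.V, IsLC₁ N b ∧ c = (d₁₂ R).hom b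

/-- **KB-A5a.**  If `A` is smooth and `p`-divisible, `colim H¹(Γ, A) = 0` and every
`H²(Γ/V, A^V)` is cyclic, then `dim H²_LC(Γ, A[p]) ≤ 1`.
(Kummer chase in degree 2: `ker(H²(μ) → H²(A))` is effaceable; the `p`-torsion of a cyclic
group has order `≤ p`.) -/
def DimH2LeSpec : Prop :=
  ∀ (k Γ : Type) [CommRing k] [Group Γ] (N : NLevels Γ) (A : Rep.{0} k Γ) (p : ℕ), p.Prime →
    IsSmooth N A → IsDivisibleBy A p → Finite (tors A p).V → EffAll N A 1 →
    (∀ V : N.Lvl, IsAddCyclic (HL A V.W 2)) →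
      DimLC₂Le N (tors A p) p

/-- **KB-A5b.**  If moreover some `p`-torsion class of `H²(Γ/V, A^V)` is not effaceable, then
`H²_LC(Γ, A[p]) ≠ 0`. -/
def DimH2GeSpec : Prop :=
  ∀ (k Γ : Type) [CommRing k] [Group Γ] (N : NLevels Γ) (A : Rep.{0} k Γ) (p : ℕ), p.Prime →
    IsSmooth N A → IsDivisibleBy A p → Finite (tors A p).V →
    (∃ (V : N.Lvl) (x : HL A V.W 2), p • x = 0 ∧ ¬ IsEff N A 2 V x) →
      DimLC₂Ge N (tors A p)

end Fermat.Agent.S55.KL

end
-- ===== PACK-END S55/KL/Spec2.lean

-- ===== PACK-BEGIN S55/Local/Spec2.lean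
section


/-!
# S55, layer L (local class field theory, cohomological core) : interface, part 2

Additions to the frozen interface `Spec.lean` found necessary in review (helper483, helper244,
helper964, helper64): the proof of the lower bound in T5 uses `|I| = e(N/K)` for the inertia
subgroup `I` of UR6, which `InertiaStatement` alone does not export.

* `IsInertiaSubgroup A F K N I` : the property of `I` in `InertiaStatement`, verbatim.
* `InertiaCardStatement` (UR6') : UR6 together with `ϖK = unit * ϖN ^ |I|` for the SAME `I`.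
  This is the statement the UR6 producers should prove; the T5 glue consumes it.
* `inertiaStatement_of_inertiaCard` : UR6' implies UR6.
* `IsInertiaSubgroup.unique` : a subgroup with the UR6 property is unique.
* `inertiaCard_forall` : UR6' implies the cardinality clause for EVERY subgroup with the UR6
  property (the form used by consumers that already hold some `I` from UR6).
-/

set_option autoImplicit false

namespace Fermat.Agent.S55.Local

/-- The property of the subgroup `I` in `InertiaStatement` (UR6), verbatim: for every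
intermediate field `E` of `N / K`, `N / E` is unramified iff `Gal(N/E) ⊓ I = ⊥`, and `E / K` is
unramified iff `I ≤ Gal(N/E)`. -/
def IsInertiaSubgroup (A F : Type) [CommRing A] [Field F] [Algebra A F]
    (K : Type) [Field K] [Algebra F K]
    (N : Type) [Field N] [Algebra F N] [Algebra K N]
    (I : Subgroup (N ≃ₐ[K] N)) : Prop :=
  ∀ E : IntermediateField K N,
    letI : Algebra F E := ((algebraMap K E).comp (algebraMap F K)).toAlgebra
    (IsUnram A F N E ↔ E.fixingSubgroup ⊓ I = ⊥) ∧
    (IsUnram A F E K ↔ I ≤ E.fixingSubgroup)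

/-- (UR6') inertia with cardinality: UR6, and moreover the order of the inertia subgroup is the
ramification index, i.e. if `ϖK`, `ϖN` are uniformizers of `K`, `N` then
`ϖK = unit * ϖN ^ |I|`. -/
def InertiaCardStatement : Prop :=
  ∀ (A F : Type) [CommRing A] [IsDomain A] [IsDiscreteValuationRing A]
    [IsAdicComplete (IsLocalRing.maximalIdeal A) A] [Finite (IsLocalRing.ResidueField A)]
    [Field F] [CharZero F] [Algebra A F] [IsFractionRing A F]
    (K : Type) [Field K] [Algebra F K] [FiniteDimensional F K]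
    (N : Type) [Field N] [Algebra F N] [Algebra K N] [IsScalarTower F K N]
    [FiniteDimensional K N] [IsGalois K N],
    ∃ I : Subgroup (N ≃ₐ[K] N), I.Normal ∧ IsInertiaSubgroup A F K N I ∧
      ∀ (ϖK : Kˣ) (ϖN : Nˣ), IsUnif A F K ϖK → IsUnif A F N ϖN →
        unitsIncl N K ϖK * ϖN ^ (-(Nat.card I : ℤ)) ∈ intUnits A F N

/-- UR6' implies UR6. -/
theorem inertiaStatement_of_inertiaCard (h : InertiaCardStatement) : InertiaStatement := by
  intro A F _ _ _ _ _ _ _ _ _ K _ _ _ N _ _ _ _ _ _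
  obtain ⟨I, hI, hprop, -⟩ := h A F K N
  exact ⟨I, hI, hprop⟩

/-- A subgroup with the UR6 property is unique (only the second clause is needed). -/
theorem IsInertiaSubgroup.unique {A F : Type} [CommRing A] [Field F] [Algebra A F]
    {K : Type} [Field K] [Algebra F K]
    {N : Type} [Field N] [Algebra F N] [Algebra K N] [FiniteDimensional K N]
    {I I' : Subgroup (N ≃ₐ[K] N)}
    (h : IsInertiaSubgroup A F K N I) (h' : IsInertiaSubgroup A F K N I') : I = I' := by
  have key : ∀ {J J' : Subgroup (N ≃ₐ[K] N)}, IsInertiaSubgroup A F K N J →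
      IsInertiaSubgroup A F K N J' → J ≤ J' := by
    intro J J' hJ hJ'
    have h1 := (hJ' (IntermediateField.fixedField J')).2
    have h2 := (hJ (IntermediateField.fixedField J')).2
    rw [IntermediateField.fixingSubgroup_fixedField] at h1 h2
    exact h2.mp (h1.mpr le_rfl)
  exact le_antisymm (key h h') (key h' h)

/-- UR6' gives the cardinality clause for every subgroup with the UR6 property. -/
theorem inertiaCard_forall (h : InertiaCardStatement)
    (A F : Type) [CommRing A] [IsDomain A] [IsDiscreteValuationRing A]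
    [IsAdicComplete (IsLocalRing.maximalIdeal A) A] [Finite (IsLocalRing.ResidueField A)]
    [Field F] [CharZero F] [Algebra A F] [IsFractionRing A F]
    (K : Type) [Field K] [Algebra F K] [FiniteDimensional F K]
    (N : Type) [Field N] [Algebra F N] [Algebra K N] [IsScalarTower F K N]
    [FiniteDimensional K N] [IsGalois K N] (I : Subgroup (N ≃ₐ[K] N))
    (hI : IsInertiaSubgroup A F K N I) (ϖK : Kˣ) (ϖN : Nˣ)
    (hK : IsUnif A F K ϖK) (hN : IsUnif A F N ϖN) :
    unitsIncl N K ϖK * ϖN ^ (-(Nat.card I : ℤ)) ∈ intUnits A F N := by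
  obtain ⟨I', -, hprop, hcard⟩ := h A F K N
  rw [hI.unique hprop]
  exact hcard ϖK ϖN hK hN

end Fermat.Agent.S55.Local

end
-- ===== PACK-END S55/Local/Spec2.lean

-- ===== PACK-BEGIN S55/Local/H964/Descent.lean
section



/-!
# S55, layer L, T5 glue: descent of cochains from `Gal(N/K)` to `Gal(L/K)` (helper964)

Tower `K ⊆ L ⊆ N`, `N / K` finite Galois, `L / K` normal, `S = kerRes K L N`.
Cochains on `Gal(N/K)` with values in `Nˣ` which are right-`S`-invariant and have `S`-invariant
values descend to cochains on `Gal(L/K)` with values in `Lˣ`.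
-/

set_option autoImplicit false
set_option linter.style.haveILetI false
set_option linter.unusedSectionVars false

namespace Fermat.Agent.S55.Local.H964

open groupCohomology Fermat.Agent.S55.Local

variable {K L N : Type} [Field K] [Field L] [Field N] [Algebra K L] [Algebra K N] [Algebra L N]
  [IsScalarTower K L N] [Normal K L] [FiniteDimensional K N] [IsGalois K N]

lemma inv_mul_mem_kerRes {g g' : N ≃ₐ[K] N} (h : resHom K L N g = resHom K L N g') :
    g⁻¹ * g' ∈ kerRes K L N := by
  unfold kerRes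
  rw [MonoidHom.mem_ker, map_mul, map_inv, h, inv_mul_cancel]

/-- Hilbert 90 in the form needed by the inflation–restriction lemmas. -/
lemma mulHOneVanishes_kerRes : MulHOneVanishes (G := N ≃ₐ[K] N) Nˣ (kerRes K L N) :=
  fun w hw => hilbert90_kerRes w hw

/-- Descent of a 2-cochain. -/
theorem exists_descend₂ (f' : (N ≃ₐ[K] N) × (N ≃ₐ[K] N) → Nˣ)
    (hinv2 : ∀ s ∈ kerRes K L N, ∀ g h, f' (g, h * s) = f' (g, h))
    (hinv1 : ∀ s ∈ kerRes K L N, ∀ g h, f' (g * s, h) = f' (g, h))
    (hval : ∀ s ∈ kerRes K L N, ∀ g h, s • f' (g, h) = f' (g, h)) :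
    ∃ cL : (L ≃ₐ[K] L) × (L ≃ₐ[K] L) → Lˣ,
      ∀ g h, unitsIncl N L (cL (resHom K L N g, resHom K L N h)) = f' (g, h) := by
  classical
  have hsurj := resHom_surjective (K := K) (L := L) (N := N)
  have hex : ∀ p : (L ≃ₐ[K] L) × (L ≃ₐ[K] L), ∃ y : Lˣ,
      unitsIncl N L y = f' (Function.surjInv hsurj p.1, Function.surjInv hsurj p.2) :=
    fun p => exists_unitsIncl_eq_of_fixed _ (fun s hs => hval s hs _ _)
  choose cL hcL using hex
  refine ⟨cL, fun g h => ?_⟩
  rw [hcL]
  simp only
  set g₀ := Function.surjInv hsurj (resHom K L N g) with hg₀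
  set h₀ := Function.surjInv hsurj (resHom K L N h) with hh₀
  have e1 : resHom K L N g₀ = resHom K L N g := Function.surjInv_eq hsurj _
  have e2 : resHom K L N h₀ = resHom K L N h := Function.surjInv_eq hsurj _
  have m1 := inv_mul_mem_kerRes e1
  have m2 := inv_mul_mem_kerRes e2
  have := hinv1 _ m1 g₀ h₀
  rw [mul_inv_cancel_left] at this
  rw [← this]
  have := hinv2 _ m2 g h₀
  rw [mul_inv_cancel_left] at this
  rw [← this]

/-- Descent of a 1-cochain. -/
theorem exists_descend₁ (c' : (N ≃ₐ[K] N) → Nˣ)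
    (hinv : ∀ s ∈ kerRes K L N, ∀ g, c' (g * s) = c' g)
    (hval : ∀ s ∈ kerRes K L N, ∀ g, s • c' g = c' g) :
    ∃ b : (L ≃ₐ[K] L) → Lˣ, ∀ g, unitsIncl N L (b (resHom K L N g)) = c' g := by
  classical
  have hsurj := resHom_surjective (K := K) (L := L) (N := N)
  have hex : ∀ σ : L ≃ₐ[K] L, ∃ y : Lˣ, unitsIncl N L y = c' (Function.surjInv hsurj σ) :=
    fun σ => exists_unitsIncl_eq_of_fixed _ (fun s hs => hval s hs _)
  choose b hb using hex
  refine ⟨b, fun g => ?_⟩
  rw [hb]
  set g₀ := Function.surjInv hsurj (resHom K L N g) with hg₀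
  have e1 : resHom K L N g₀ = resHom K L N g := Function.surjInv_eq hsurj _
  have m1 := inv_mul_mem_kerRes e1
  have := hinv _ m1 g₀
  rw [mul_inv_cancel_left] at this
  rw [← this]

/-- A descended 2-cocycle is a 2-cocycle. -/
theorem isMulCocycle₂_of_descend {f' : (N ≃ₐ[K] N) × (N ≃ₐ[K] N) → Nˣ}
    (hf' : IsMulCocycle₂ f') {cL : (L ≃ₐ[K] L) × (L ≃ₐ[K] L) → Lˣ}
    (hcL : ∀ g h, unitsIncl N L (cL (resHom K L N g, resHom K L N h)) = f' (g, h)) :
    IsMulCocycle₂ cL := by
  have hsurj := resHom_surjective (K := K) (L := L) (N := N)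
  intro σ τ υ
  obtain ⟨g, rfl⟩ := hsurj σ
  obtain ⟨h, rfl⟩ := hsurj τ
  obtain ⟨j, rfl⟩ := hsurj υ
  apply unitsIncl_injective (N := N) (L := L)
  have := hf' g h j
  rw [map_mul, map_mul, ← map_mul (resHom K L N), ← map_mul (resHom K L N),
    unitsIncl_resHom_smul, hcL, hcL, hcL, hcL]
  exact this

/-- The inflation of a coboundary is a coboundary. -/
theorem inflate_dMul {f' : (N ≃ₐ[K] N) × (N ≃ₐ[K] N) → Nˣ}
    {cL : (L ≃ₐ[K] L) × (L ≃ₐ[K] L) → Lˣ}
    (hcL : ∀ g h, unitsIncl N L (cL (resHom K L N g, resHom K L N h)) = f' (g, h))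
    (b : (L ≃ₐ[K] L) → Lˣ) (hb : ∀ σ τ, cL (σ, τ) = dMul b (σ, τ)) :
    ∀ g h, f' (g, h) = dMul (fun g => unitsIncl N L (b (resHom K L N g))) (g, h) := by
  intro g h
  rw [← hcL, hb, dMul_apply, dMul_apply, map_mul, map_div, unitsIncl_resHom_smul, map_mul]

/-- The descent of a coboundary of a descended cochain is a coboundary. -/
theorem descend_dMul {f' : (N ≃ₐ[K] N) × (N ≃ₐ[K] N) → Nˣ}
    {cL : (L ≃ₐ[K] L) × (L ≃ₐ[K] L) → Lˣ}
    (hcL : ∀ g h, unitsIncl N L (cL (resHom K L N g, resHom K L N h)) = f' (g, h))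
    {c' : (N ≃ₐ[K] N) → Nˣ} (hc' : ∀ g h, f' (g, h) = dMul c' (g, h))
    {b : (L ≃ₐ[K] L) → Lˣ} (hb : ∀ g, unitsIncl N L (b (resHom K L N g)) = c' g) :
    ∀ σ τ, cL (σ, τ) = dMul b (σ, τ) := by
  have hsurj := resHom_surjective (K := K) (L := L) (N := N)
  intro σ τ
  obtain ⟨g, rfl⟩ := hsurj σ
  obtain ⟨h, rfl⟩ := hsurj τ
  apply unitsIncl_injective (N := N) (L := L)
  rw [hcL, hc', dMul_apply, dMul_apply, map_mul, map_div, unitsIncl_resHom_smul,
    ← map_mul (resHom K L N), hb, hb, hb]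

end Fermat.Agent.S55.Local.H964

end
-- ===== PACK-END S55/Local/H964/Descent.lean

-- ===== PACK-BEGIN S55/Local/H542/FF2.lean
section
/-
S55, layer L, piece FF2 (helper542): the multiplicative `H²` of an extension of finite fields
vanishes.

  theorem mulH2FiniteField_of (h4b : CycCocycleCoboundaryIffStatement)
      (h4c : CycCocycleSurjStatement) : MulH2FiniteFieldStatement

(glue form: takes the abstract cyclic-cocycle pieces A4b, A4c as hypotheses).
-/


set_option autoImplicit false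

namespace Fermat.Agent.S55.Local.H542

open Fermat.Agent.S55.Local groupCohomology

/-- The product of two multiplicative 2-coboundaries is a 2-coboundary. -/
theorem isMulCoboundary₂_mul {G M : Type} [Group G] [CommGroup M] [MulDistribMulAction G M]
    {c₁ c₂ : G × G → M} (h₁ : IsMulCoboundary₂ c₁) (h₂ : IsMulCoboundary₂ c₂) :
    IsMulCoboundary₂ (fun p => c₁ p * c₂ p) := by
  obtain ⟨x₁, hx₁⟩ := h₁
  obtain ⟨x₂, hx₂⟩ := h₂
  refine ⟨fun g => x₁ g * x₂ g, fun g h => ?_⟩
  simp only
  rw [← hx₁ g h, ← hx₂ g h, smul_mul']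
  simp only [div_eq_mul_inv, mul_inv]
  ac_rfl

/-- In a finite Galois extension, the product over the Galois group of the conjugates of a unit
is the image of its norm. -/
theorem prod_smul_units_eq_norm {k l : Type} [Field k] [Field l] [Algebra k l]
    [FiniteDimensional k l] [IsGalois k l] [Fintype (l ≃ₐ[k] l)] (y : lˣ) :
    ((∏ g : l ≃ₐ[k] l, g • y : lˣ) : l) = algebraMap k l (Algebra.norm k (y : l)) := by
  rw [Algebra.norm_eq_prod_automorphisms, Units.coe_prod]
  exact Finset.prod_congr (by ext; simp) fun g _ => rfl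

/-- **FF2** (glue form). -/
theorem mulH2FiniteField_of (h4b : CycCocycleCoboundaryIffStatement)
    (h4c : CycCocycleSurjStatement) : MulH2FiniteFieldStatement := by
  intro k l _ _ _ _ _ c hc
  have : Finite l := Module.finite_of_finite k
  have : IsGalois k l := inferInstance
  have : Finite (l ≃ₐ[k] l) := inferInstance
  let _ : Fintype (l ≃ₐ[k] l) := Fintype.ofFinite _
  obtain ⟨σ, hσ⟩ := IsCyclic.exists_generator (α := l ≃ₐ[k] l)
  obtain ⟨x, hx, hcob⟩ := h4c (l ≃ₐ[k] l) lˣ σ hσ c hc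
  -- `x` is fixed by the whole Galois group, hence lies in `k`
  have hfix : ∀ g : l ≃ₐ[k] l, g • x = x := by
    intro g
    obtain ⟨n, rfl⟩ := Subgroup.mem_zpowers_iff.mp (hσ g)
    have hsub : σ ∈ MulAction.stabilizer (l ≃ₐ[k] l) x := hx
    exact (MulAction.stabilizer (l ≃ₐ[k] l) x).zpow_mem hsub n
  have hxk : (x : l) ∈ (⊥ : IntermediateField k l) := by
    rw [← IsGalois.fixedField_top (F := k) (E := l), IntermediateField.mem_fixedField_iff]
    intro g _
    have := congrArg (fun u : lˣ => (u : l)) (hfix g)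
    simpa using this
  obtain ⟨x₀, hx₀⟩ := IntermediateField.mem_bot.mp hxk
  have hx₀ne : x₀ ≠ 0 := by
    rintro rfl
    rw [map_zero] at hx₀
    exact x.ne_zero hx₀.symm
  obtain ⟨y, hy⟩ := FiniteField.unitsMap_norm_surjective k l (Units.mk0 x₀ hx₀ne)
  have hnorm : ∏ g : l ≃ₐ[k] l, g • y = x := by
    apply Units.ext
    rw [prod_smul_units_eq_norm, ← hx₀]
    congr 1
    have := congrArg (fun u : kˣ => (u : k)) hy
    simpa using this
  have hstd : IsMulCoboundary₂ (cycCocycle σ x) :=
    (h4b (l ≃ₐ[k] l) lˣ σ hσ x hx).mpr ⟨y, hnorm⟩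
  have := isMulCoboundary₂_mul hcob hstd
  convert this using 1
  funext p
  simp

end Fermat.Agent.S55.Local.H542

end
-- ===== PACK-END S55/Local/H542/FF2.lean

-- ===== PACK-BEGIN S55/Local/H608/Core.lean
section




/-!
# S55 layer L, piece LF (helper608): the ring of integers of a local field

Core facts (an independent version of piece LF0): for a complete DVR `A` with fraction field `F`
of characteristic zero and a finite extension `L / F`, the integral closure `B` of `A` in `L`
is a discrete valuation ring, module-finite over `A`, with fraction field `L`.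
-/

set_option autoImplicit false
set_option linter.unusedSectionVars false
set_option linter.style.haveILetI false

namespace Fermat.Agent.S55.Local.H608

open IsLocalRing

/-- A module-finite domain over a complete Noetherian local ring is local. -/
theorem isLocalRing_of_finite_of_isDomain (𝒪 : Type) [CommRing 𝒪] [IsLocalRing 𝒪]
    [IsNoetherianRing 𝒪] [IsAdicComplete (maximalIdeal 𝒪) 𝒪] (B : Type) [CommRing B]
    [IsDomain B] [Algebra 𝒪 B] [Module.Finite 𝒪 B] : IsLocalRing B := by
  classical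
  obtain ⟨-, hbij, -, -⟩ :=
    Algebra.finite_maximalSpectrum_and_bijective_localization_of_module_finite (𝒪 := 𝒪) B
  have : Subsingleton (MaximalSpectrum B) := by
    constructor
    intro I J
    by_contra hIJ
    obtain ⟨eI, heI⟩ := hbij.2 (Pi.single I 1)
    obtain ⟨eJ, heJ⟩ := hbij.2 (Pi.single J 1)
    have h0 : eI * eJ = 0 := by
      apply hbij.1
      rw [map_mul, heI, heJ, map_zero]
      funext K
      by_cases hK : K = I
      · subst hK
        simp [hIJ]
      · simp [hK]
    rcases mul_eq_zero.mp h0 with h | h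
    · have := congrFun heI I
      rw [h, map_zero] at this
      simp at this
    · have := congrFun heJ J
      rw [h, map_zero] at this
      simp at this
  have : Nonempty (MaximalSpectrum B) := by
    obtain ⟨m, hm⟩ := Ideal.exists_maximal B
    exact ⟨⟨m, hm⟩⟩
  exact IsLocalRing.of_singleton_maximalSpectrum

section Tower

variable (A F : Type) [CommRing A] [IsDomain A] [IsDiscreteValuationRing A]
  [IsAdicComplete (maximalIdeal A) A]
  [Field F] [CharZero F] [Algebra A F] [IsFractionRing A F]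
  (L : Type) [Field L] [Algebra F L] [FiniteDimensional F L]
  [Algebra A L] [IsScalarTower A F L]

include F

theorem finite_intCl : Module.Finite A (integralClosure A L) :=
  IsIntegralClosure.finite A F L (integralClosure A L)

theorem isDedekindDomain_intCl : IsDedekindDomain (integralClosure A L) :=
  integralClosure.isDedekindDomain A F L

theorem isFractionRing_intCl : IsFractionRing (integralClosure A L) L :=
  IsIntegralClosure.isFractionRing_of_finite_extension A F L (integralClosure A L)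

theorem isLocalRing_intCl : IsLocalRing (integralClosure A L) :=
  haveI := finite_intCl A F L
  isLocalRing_of_finite_of_isDomain A (integralClosure A L)

theorem not_isField_intCl : ¬ IsField (integralClosure A L) := by
  intro h
  have hinj : Function.Injective (algebraMap A (integralClosure A L)) := by
    have h1 : Function.Injective (algebraMap A L) := by
      rw [IsScalarTower.algebraMap_eq A F L]
      exact (algebraMap F L).injective.comp (IsFractionRing.injective A F)
    intro a b hab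
    apply h1
    have := congrArg (algebraMap (integralClosure A L) L) hab
    simpa [← IsScalarTower.algebraMap_apply] using this
  exact IsDiscreteValuationRing.not_isField A
    ((Algebra.IsIntegral.isField_iff_isField hinj).mpr h)

theorem isDVR_intCl : IsDiscreteValuationRing (integralClosure A L) := by
  haveI := isDedekindDomain_intCl A F L
  haveI := isLocalRing_intCl A F L
  exact ((IsDiscreteValuationRing.TFAE (integralClosure A L)
    (not_isField_intCl A F L)).out 0 2).mpr (isDedekindDomain_intCl A F L)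

end Tower

end Fermat.Agent.S55.Local.H608

end
-- ===== PACK-END S55/Local/H608/Core.lean

-- ===== PACK-BEGIN S55/H119/ResCoresCor.lean
section


/-!
# Corollaries of restriction–corestriction in degrees 1 and 2 (helper119)

* `Hⁿ(G, A)` is killed by `|G|` (`n = 1, 2`, `G` finite);
* Sylow criterion: a class whose restrictions to one Sylow `p`-subgroup for each prime `p`
  vanish is zero;
* the `p`-primary part of `Hⁿ(G, A)` injects into `Hⁿ(P, A)`, `P` a Sylow `p`-subgroup.
-/

set_option autoImplicit false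
set_option linter.style.haveILetI false

namespace Fermat.Agent.S55.H119

open groupCohomology Rep CategoryTheory

section Abstract

variable {G : Type*} [Group G] {M : Type*} [AddCommGroup M]

/-- An element killed by the index of a Sylow `p`-subgroup for every prime `p` is zero. -/
theorem eq_zero_of_forall_sylow_index_nsmul [Finite G] (x : M)
    (h : ∀ p : ℕ, p.Prime → ∃ P : Sylow p G, (P : Subgroup G).index • x = 0) : x = 0 := by
  by_contra hx
  have h1 : addOrderOf x ≠ 1 := fun h1 => hx (AddMonoid.addOrderOf_eq_one_iff.mp h1)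
  obtain ⟨q, hq, hqd⟩ := Nat.exists_prime_and_dvd h1
  haveI : Fact q.Prime := ⟨hq⟩
  obtain ⟨P, hP⟩ := h q hq
  have h2 : addOrderOf x ∣ (P : Subgroup G).index := addOrderOf_dvd_of_nsmul_eq_zero hP
  exact P.not_dvd_index (hqd.trans h2)

/-- An element killed by a power of `p` and by the index of a Sylow `p`-subgroup is zero. -/
theorem eq_zero_of_pow_nsmul_of_sylow_index_nsmul [Finite G] {p : ℕ} [Fact p.Prime]
    (P : Sylow p G) (x : M) (k : ℕ) (h1 : p ^ k • x = 0)
    (h2 : (P : Subgroup G).index • x = 0) : x = 0 := by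
  have hcop : Nat.Coprime (p ^ k) (P : Subgroup G).index :=
    Nat.Coprime.pow_left k ((Nat.Prime.coprime_iff_not_dvd Fact.out).mpr P.not_dvd_index)
  have h3 : addOrderOf x ∣ Nat.gcd (p ^ k) (P : Subgroup G).index :=
    Nat.dvd_gcd (addOrderOf_dvd_of_nsmul_eq_zero h1) (addOrderOf_dvd_of_nsmul_eq_zero h2)
  rw [hcop.gcd_eq_one, Nat.dvd_one] at h3
  exact AddMonoid.addOrderOf_eq_one_iff.mp h3

end Abstract

section Concrete

variable {G : Type*} [Group G] {A : Type*} [AddCommGroup A] [DistribMulAction G A]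

/-- 1-cocycles of a finite group are killed by the order of the group, up to coboundaries. -/
theorem isCoboundary₁_card_nsmul [Finite G] {f : G → A} (hf : IsCocycle₁ f) :
    IsCoboundary₁ (fun g => Nat.card G • f g) := by
  have h := isCoboundary₁_index_nsmul (⊥ : Subgroup G) hf (by
    refine ⟨0, fun h => ?_⟩
    have h1 : (h : G) = 1 := Subgroup.mem_bot.mp h.2
    simp [h1, map_one_of_isCocycle₁ hf])
  rwa [Subgroup.index_bot] at h

/-- 2-cocycles of a finite group are killed by the order of the group, up to coboundaries. -/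
theorem isCoboundary₂_card_nsmul [Finite G] {f : G × G → A} (hf : IsCocycle₂ f) :
    IsCoboundary₂ (fun p => Nat.card G • f p) := by
  have h := isCoboundary₂_index_nsmul (⊥ : Subgroup G) hf (by
    refine ⟨fun _ => f (1, 1), fun h₁ h₂ => ?_⟩
    have h1 : (h₁ : G) = 1 := Subgroup.mem_bot.mp h₁.2
    have h2 : (h₂ : G) = 1 := Subgroup.mem_bot.mp h₂.2
    simp [h1, h2, Subgroup.smul_def])
  rwa [Subgroup.index_bot] at h

end Concrete

section Rep

universe u

variable {k G : Type u} [CommRing k] [Group G] (A : Rep k G)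

theorem card_nsmul_eq_zero_one [Finite G] (x : H1 A) : Nat.card G • x = 0 := by
  letI := repDistribMulAction A
  induction x using H1_induction_on with
  | h c =>
    rw [← map_nsmul, H1π_eq_zero_iff]
    have hc : IsCocycle₁ (c : G → A.V) := fun g h => (mem_cocycles₁_iff (c : G → A.V)).1 c.2 g h
    obtain ⟨z, hz⟩ := isCoboundary₁_card_nsmul hc
    exact ⟨z, funext fun g => hz g⟩

theorem card_nsmul_eq_zero_two [Finite G] (x : H2 A) : Nat.card G • x = 0 := by
  letI := repDistribMulAction A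
  induction x using H2_induction_on with
  | h c =>
    rw [← map_nsmul, H2π_eq_zero_iff]
    have hc : IsCocycle₂ (c : G × G → A.V) :=
      fun g h j => (mem_cocycles₂_iff (c : G × G → A.V)).1 c.2 g h j
    obtain ⟨z, hz⟩ := isCoboundary₂_card_nsmul hc
    exact ⟨z, funext fun g => hz g.1 g.2⟩

/-- **Sylow criterion, degree 1.** -/
theorem eq_zero_of_forall_sylow_resMap_eq_zero_one [Finite G] (x : H1 A)
    (h : ∀ p : ℕ, p.Prime → ∃ P : Sylow p G, resMap A (P : Subgroup G) 1 x = 0) : x = 0 :=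
  eq_zero_of_forall_sylow_index_nsmul (G := G) x fun p hp => by
    obtain ⟨P, hP⟩ := h p hp
    exact ⟨P, index_nsmul_eq_zero_of_resMap_eq_zero_one A (P : Subgroup G) x hP⟩

/-- **Sylow criterion, degree 2.** -/
theorem eq_zero_of_forall_sylow_resMap_eq_zero_two [Finite G] (x : H2 A)
    (h : ∀ p : ℕ, p.Prime → ∃ P : Sylow p G, resMap A (P : Subgroup G) 2 x = 0) : x = 0 :=
  eq_zero_of_forall_sylow_index_nsmul (G := G) x fun p hp => by
    obtain ⟨P, hP⟩ := h p hp
    exact ⟨P, index_nsmul_eq_zero_of_resMap_eq_zero_two A (P : Subgroup G) x hP⟩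

/-- The `p`-primary part of `H¹(G, A)` injects into `H¹(P, A)` for a Sylow `p`-subgroup `P`. -/
theorem eq_zero_of_pow_nsmul_of_resMap_sylow_one [Finite G] {p : ℕ} [Fact p.Prime]
    (P : Sylow p G) (x : H1 A) (k : ℕ) (h1 : p ^ k • x = 0)
    (h2 : resMap A (P : Subgroup G) 1 x = 0) : x = 0 :=
  eq_zero_of_pow_nsmul_of_sylow_index_nsmul P x k h1
    (index_nsmul_eq_zero_of_resMap_eq_zero_one A (P : Subgroup G) x h2)

/-- The `p`-primary part of `H²(G, A)` injects into `H²(P, A)` for a Sylow `p`-subgroup `P`. -/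
theorem eq_zero_of_pow_nsmul_of_resMap_sylow_two [Finite G] {p : ℕ} [Fact p.Prime]
    (P : Sylow p G) (x : H2 A) (k : ℕ) (h1 : p ^ k • x = 0)
    (h2 : resMap A (P : Subgroup G) 2 x = 0) : x = 0 :=
  eq_zero_of_pow_nsmul_of_sylow_index_nsmul P x k h1
    (index_nsmul_eq_zero_of_resMap_eq_zero_two A (P : Subgroup G) x h2)

end Rep

end Fermat.Agent.S55.H119

end
-- ===== PACK-END S55/H119/ResCoresCor.lean

-- ===== PACK-BEGIN S55/T/ClassModuleOfCyclicH53.lean
section




/-!
# T5d: `ClassModuleOfCyclicSpec` (helper53)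

Bridge from the numerical class-module statement (`H¹(H, C) = 0`, `H²(H, C) ≃+ ZMod |H|` for all
`H ≤ G`) to `IsClassModule C γ` for every generator `γ` of `H²(G, C)`.
-/

set_option autoImplicit false
set_option linter.style.haveILetI false

open CategoryTheory groupCohomology

namespace Fermat.Agent.S55.T.H53

/-- In a group isomorphic to `ZMod m`, every element is killed by `m`. -/
lemma nsmul_eq_zero_of_equiv_zmod {M : Type*} [AddCommGroup M] {m : ℕ} (e : M ≃+ ZMod m)
    (x : M) : m • x = 0 := by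
  apply e.injective
  rw [map_nsmul, map_zero]
  simp

/-- In a group isomorphic to `ZMod m` (`m ≠ 0`), an element of additive order `m` generates. -/
lemma exists_zsmul_of_addOrderOf_eq {M : Type*} [AddCommGroup M] {m : ℕ} (hm : m ≠ 0)
    (e : M ≃+ ZMod m) (y : M) (hy : addOrderOf y = m) (x : M) : ∃ c : ℤ, x = c • y := by
  haveI : NeZero m := ⟨hm⟩
  haveI : Finite M := Finite.of_equiv _ e.symm.toEquiv
  have hcard : Nat.card M = m := by
    rw [Nat.card_congr e.toEquiv, Nat.card_eq_fintype_card, ZMod.card]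
  have htop : AddSubgroup.zmultiples y = ⊤ := by
    apply AddSubgroup.eq_top_of_card_eq
    rw [Nat.card_zmultiples, hy, hcard]
  have hx : x ∈ AddSubgroup.zmultiples y := htop ▸ AddSubgroup.mem_top x
  obtain ⟨c, hc⟩ := AddSubgroup.mem_zmultiples_iff.1 hx
  exact ⟨c, hc.symm⟩

/-- A generator of a group isomorphic to `ZMod m` has additive order `m`. -/
lemma addOrderOf_eq_of_generates {M : Type*} [AddCommGroup M] {m : ℕ} (hm : m ≠ 0)
    (e : M ≃+ ZMod m) (γ : M) (hγ : ∀ x : M, ∃ c : ℤ, x = c • γ) : addOrderOf γ = m := by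
  haveI : NeZero m := ⟨hm⟩
  haveI : Finite M := Finite.of_equiv _ e.symm.toEquiv
  have hcard : Nat.card M = m := by
    rw [Nat.card_congr e.toEquiv, Nat.card_eq_fintype_card, ZMod.card]
  have htop : AddSubgroup.zmultiples γ = ⊤ := by
    rw [eq_top_iff]
    intro x _
    obtain ⟨c, hc⟩ := hγ x
    exact AddSubgroup.mem_zmultiples_iff.2 ⟨c, hc.symm⟩
  rw [← Nat.card_zmultiples, htop, ← hcard]
  exact AddSubgroup.card_top (G := M)


section Top

variable {k G : Type} [CommRing k] [Group G] (C : Rep.{0} k G)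

/-- `Hⁿ(⊤, C) ≅ Hⁿ(G, C)` (restriction to the top subgroup is an isomorphism). -/
noncomputable def topIso (n : ℕ) :
    groupCohomology (resSub C (⊤ : Subgroup G)) n ≅ groupCohomology C n :=
  groupCohomology.mapIso (A := C) (B := resSub C (⊤ : Subgroup G))
    (Subgroup.topEquiv (G := G)) (LinearEquiv.refl k C.V) (fun _ => rfl) n

end Top

section Main

variable {G : Type} [Group G] [Finite G] (C : Rep.{0} ℤ G)

theorem classModule_of_generator
    (hH1 : ∀ H : Subgroup G, Limits.IsZero (groupCohomology (resSub C H) 1))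
    (hH2 : ∀ H : Subgroup G, Nonempty (groupCohomology (resSub C H) 2 ≃+ ZMod (Nat.card H)))
    (γ : groupCohomology C 2) (hγ : ∀ x : groupCohomology C 2, ∃ c : ℤ, x = c • γ) :
    IsClassModule C γ := by
  classical
  -- the order of `γ` is `|G|`
  have hG0 : Nat.card G ≠ 0 := Nat.card_pos.ne'
  obtain ⟨eT⟩ := hH2 ⊤
  have eG : groupCohomology C 2 ≃+ ZMod (Nat.card G) :=
    ((topIso C 2).symm.toLinearEquiv.toAddEquiv.trans eT).trans
      (ZMod.ringEquivCongr (Subgroup.card_top (G := G))).toAddEquiv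
  have hord : addOrderOf γ = Nat.card G := addOrderOf_eq_of_generates hG0 eG γ hγ
  intro H
  obtain ⟨eH⟩ := hH2 H
  have hH0 : Nat.card H ≠ 0 := Nat.card_pos.ne'
  set y := (resMap C H 2).hom γ with hy
  have h4 : Nat.card H • y = 0 := nsmul_eq_zero_of_equiv_zmod eH y
  have h3 : ∀ c : ℤ, c • y = 0 → (Nat.card H : ℤ) ∣ c := by
    intro c hc
    have hres : (resMap C H 2).hom (c • γ) = 0 := by
      rw [map_zsmul]; exact hc
    have hidx : H.index • (c • γ) = 0 :=
      Fermat.Agent.S55.H119.index_nsmul_eq_zero_of_resMap_eq_zero_two C H (c • γ) hres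
    have hz : ((H.index : ℤ) * c) • γ = 0 := by
      rw [mul_smul, natCast_zsmul]; exact hidx
    have hdvd : (Nat.card G : ℤ) ∣ (H.index : ℤ) * c := by
      rw [← hord]; exact (addOrderOf_dvd_iff_zsmul_eq_zero).2 hz
    have hmul : (Nat.card G : ℤ) = (H.index : ℤ) * (Nat.card H : ℤ) := by
      rw [← Nat.cast_mul, mul_comm, Subgroup.card_mul_index]
    rw [hmul] at hdvd
    have hidx0 : (H.index : ℤ) ≠ 0 := by
      exact_mod_cast (Subgroup.index_ne_zero_of_finite (H := H))
    exact (mul_dvd_mul_iff_left hidx0).1 hdvd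
  have hordy : addOrderOf y = Nat.card H := by
    apply Nat.dvd_antisymm
    · exact addOrderOf_dvd_of_nsmul_eq_zero h4
    · have := h3 (addOrderOf y) (by rw [natCast_zsmul]; exact addOrderOf_nsmul_eq_zero y)
      exact_mod_cast this
  refine ⟨hH1 H, ?_, ?_, ?_⟩
  · intro x
    obtain ⟨c, hc⟩ := exists_zsmul_of_addOrderOf_eq hH0 eH y hordy x
    exact ⟨c, by rw [modSMul_eq_zsmul]; exact hc⟩
  · intro c hc
    rw [modSMul_eq_zsmul] at hc
    obtain ⟨d, hd⟩ := h3 c hc
    exact ⟨d, by rw [hd]⟩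
  · rw [modSMul_eq_zsmul]
    have : ((Nat.card H : ℕ) : ℤ) • y = 0 := by rw [natCast_zsmul]; exact h4
    simpa using this

theorem classModuleOfCyclic : ClassModuleOfCyclicSpec := by
  intro G _ _ C hH1 hH2
  have hG0 : Nat.card G ≠ 0 := Nat.card_pos.ne'
  obtain ⟨eT⟩ := hH2 ⊤
  have eG : groupCohomology C 2 ≃+ ZMod (Nat.card G) :=
    ((topIso C 2).symm.toLinearEquiv.toAddEquiv.trans eT).trans
      (ZMod.ringEquivCongr (Subgroup.card_top (G := G))).toAddEquiv
  refine ⟨⟨eG.symm 1, classModule_of_generator C hH1 hH2 _ ?_⟩,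
    fun γ hγ => classModule_of_generator C hH1 hH2 γ hγ⟩
  intro x
  haveI : NeZero (Nat.card G) := ⟨hG0⟩
  refine ⟨((eG x).val : ℤ), ?_⟩
  apply eG.injective
  rw [map_zsmul, AddEquiv.apply_symm_apply]
  simp

end Main

end Fermat.Agent.S55.T.H53

end
-- ===== PACK-END S55/T/ClassModuleOfCyclicH53.lean

-- ===== PACK-BEGIN S55/H593/Dev/Main.lean
section


/-!
# S55: abstract dévissage, part 3: the theorem (helper593)

`G` any group, `𝓛` a directed family of finite-index subgroups with cofinal normal members,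
`k = ZMod p`, `μ` a `G`-module of order `p` on which some level acts trivially.

**Theorem** (`H3V_of_ind`).  If `H³_lc(G, Ind_H μ) = 0` for every open subgroup `H`, then
`H³_lc(G, R) = 0` for every finite-dimensional `R` on which some level acts trivially.

Proof.  `U` a normal level acting trivially on `R` and `μ`, `P ⊇ U` the preimage of a Sylow
`p`-subgroup of `G ⧸ U`.  `R` is a retract of `Ind_P R` (`[G : P]` is prime to `p`); `Ind_P R` has
a filtration by the `G`-stable submodules `subI P R N` (`N` running through a `P`-stable flag of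
`R` with trivial one-dimensional quotients: fixed point theorem for the `p`-group `P/U` acting on
the dual) with successive quotients `≅ k[G/P]`; `k[G/P]` is a retract of `Ind_P μ` (`P` acts
trivially on `μ`); `H3V` is closed under extensions and retracts.

Mathlib only.
-/

set_option autoImplicit false
set_option linter.style.haveILetI false

noncomputable section

namespace Fermat.Agent.S55.H593.Dev

open groupCohomology

variable {G : Type} [Group G] {p : ℕ} [Fact p.Prime]

/-! ## Invariant functionals -/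

/-- **Fixed point theorem.**  Let `P` act on `A` through a `p`-group (some subgroup `U` acts
trivially and every element of `P` has a `p`-power in `U`), and let `N ≠ 0` be a `P`-stable
subspace of the finite-dimensional `𝔽_p`-space `A`.  Then there is a linear functional `φ` on `A`
which is `P`-invariant on `N` and takes the value `1` on `N`. -/
theorem exists_invariant_functional (A : Rep.{0, 0, 0} (ZMod p) G)
    [FiniteDimensional (ZMod p) A] (P U : Subgroup G)
    (hPU : ∀ h ∈ P, ∃ n : ℕ, h ^ p ^ n ∈ U) (hU : ∀ s ∈ U, ∀ a : A, A.ρ s a = a)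
    (N : Submodule (ZMod p) A) (hN : ∀ h ∈ P, ∀ n ∈ N, A.ρ h n ∈ N) (hN0 : N ≠ ⊥) :
    ∃ φ : A →ₗ[ZMod p] ZMod p, (∀ h ∈ P, ∀ n ∈ N, φ (A.ρ h n) = φ n) ∧ ∃ n₀ ∈ N, φ n₀ = 1 := by
  classical
  -- the representation of `P` on `N` and on its dual `X`
  let ρP : Representation (ZMod p) ↥P A := A.ρ.comp P.subtype
  let ρN : Representation (ZMod p) ↥P ↥N :=
    ρP.subrepresentation N (fun h n hn => hN h.1 h.2 n hn)
  let Φ : ↥P →* (Module.End (ZMod p) (Module.Dual (ZMod p) ↥N))ˣ := ρN.dual.asGroupHom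
  have hΦ : ∀ (h : ↥P) (ψ : Module.Dual (ZMod p) ↥N) (n : ↥N),
      ((Φ h : Module.End (ZMod p) (Module.Dual (ZMod p) ↥N)) ψ) n =
        ψ ⟨A.ρ (h⁻¹ : ↥P).1 n.1, hN _ (h⁻¹ : ↥P).2 _ n.2⟩ := by
    intro h ψ n
    show (ρN.dual h ψ) n = _
    rw [Representation.dual_apply]
    rfl
  -- its image is a `p`-group
  have hT : IsPGroup p ↥Φ.range := by
    rintro ⟨t, h, rfl⟩
    obtain ⟨n, hn⟩ := hPU h.1 h.2
    refine ⟨n, ?_⟩
    apply Subtype.ext
    show (Φ h) ^ p ^ n = 1
    rw [← map_pow]
    apply Units.ext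
    apply LinearMap.ext
    intro ψ
    apply LinearMap.ext
    intro m
    rw [hΦ]
    show ψ _ = ψ m
    congr 1
    apply Subtype.ext
    show A.ρ ((h ^ p ^ n)⁻¹ : ↥P).1 m.1 = m.1
    have : (((h ^ p ^ n)⁻¹ : ↥P) : G) ∈ U := by
      have h1 : (((h ^ p ^ n)⁻¹ : ↥P) : G) = ((h : G) ^ p ^ n)⁻¹ := by simp
      rw [h1]
      exact U.inv_mem hn
    exact hU _ this _
  -- cardinality of the dual
  haveI : Module.Finite (ZMod p) ↥N := inferInstance
  haveI : Finite (Module.Dual (ZMod p) ↥N) := Module.finite_of_finite (ZMod p)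
  have hpos : 0 < Module.finrank (ZMod p) ↥N := by
    rw [Nat.pos_iff_ne_zero, Ne, Submodule.finrank_eq_zero]
    exact hN0
  have hcard : p ∣ Nat.card (Module.Dual (ZMod p) ↥N) := by
    rw [Module.natCard_eq_pow_finrank (K := ZMod p), Subspace.dual_finrank_eq, Nat.card_zmod]
    exact dvd_pow_self p hpos.ne'
  have h0 : (0 : Module.Dual (ZMod p) ↥N) ∈
      MulAction.fixedPoints ↥Φ.range (Module.Dual (ZMod p) ↥N) := by
    rw [MulAction.mem_fixedPoints]
    rintro ⟨t, ht⟩
    show (t : Module.End (ZMod p) (Module.Dual (ZMod p) ↥N)) 0 = 0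
    rw [map_zero]
  obtain ⟨ψ, hψfix, hψ0⟩ :=
    hT.exists_fixed_point_of_prime_dvd_card_of_fixed_point (Module.Dual (ZMod p) ↥N) hcard h0
  rw [MulAction.mem_fixedPoints] at hψfix
  -- `ψ` is `P`-invariant
  have hψinv : ∀ (h : ↥P) (n : ↥N), ψ ⟨A.ρ h.1 n.1, hN _ h.2 _ n.2⟩ = ψ n := by
    intro h n
    have h1 := hψfix ⟨Φ h⁻¹, h⁻¹, rfl⟩
    have h2 : (Φ h⁻¹ : Module.End (ZMod p) (Module.Dual (ZMod p) ↥N)) ψ = ψ := h1
    have h3 := hΦ h⁻¹ ψ n
    rw [h2] at h3
    rw [h3]
    congr 1
    apply Subtype.ext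
    show A.ρ h.1 n.1 = A.ρ ((h⁻¹)⁻¹ : ↥P).1 n.1
    rw [inv_inv]
  -- extend `ψ` to `A`
  obtain ⟨φ, hφ⟩ := LinearMap.exists_extend ψ
  have hφN : ∀ (n : A) (hn : n ∈ N), φ n = ψ ⟨n, hn⟩ := fun n hn => by
    rw [← hφ]
    rfl
  refine ⟨φ, fun h hh n hn => ?_, ?_⟩
  · rw [hφN _ (hN h hh n hn), hφN _ hn]
    exact hψinv ⟨h, hh⟩ ⟨n, hn⟩
  · have hne : ∃ n : ↥N, ψ n ≠ 0 := by
      by_contra hcon
      apply hψ0
      symm
      apply LinearMap.ext
      intro n
      by_contra hne
      exact hcon ⟨n, hne⟩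
    obtain ⟨n₁, hn₁⟩ := hne
    refine ⟨(ψ n₁)⁻¹ • n₁.1, N.smul_mem _ n₁.2, ?_⟩
    rw [map_smul, hφN _ n₁.2, smul_eq_mul]
    exact inv_mul_cancel₀ hn₁

/-- A `p`-group acts trivially on a module of order `p`. -/
theorem acts_trivially_of_card (μ : Rep.{0, 0, 0} (ZMod p) G) (hμ : Nat.card μ = p)
    (P U : Subgroup G) (hPU : ∀ h ∈ P, ∃ n : ℕ, h ^ p ^ n ∈ U)
    (hU : ∀ s ∈ U, ∀ a : μ, μ.ρ s a = a) :
    ∃ (φ : μ →ₗ[ZMod p] ZMod p) (m₀ : μ), φ m₀ = 1 ∧ (∀ h ∈ P, ∀ m : μ, μ.ρ h m = m) := by
  classical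
  have hp : p.Prime := Fact.out
  haveI : Finite μ := Nat.finite_of_card_ne_zero (by rw [hμ]; exact hp.ne_zero)
  haveI : FiniteDimensional (ZMod p) μ := Module.Finite.of_finite
  have htop : (⊤ : Submodule (ZMod p) μ) ≠ ⊥ := by
    intro h
    have h1 : ∀ m : μ, m = 0 := fun m => by
      have : m ∈ (⊤ : Submodule (ZMod p) μ) := Submodule.mem_top
      rw [h] at this
      exact (Submodule.mem_bot _).1 this
    haveI : Subsingleton μ := ⟨fun a b => by rw [h1 a, h1 b]⟩
    have h2 : Nat.card μ = 1 := Nat.card_of_subsingleton 0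
    rw [hμ] at h2
    exact hp.one_lt.ne' h2
  obtain ⟨φ, hφ, m₀, -, hm₀⟩ := exists_invariant_functional μ P U hPU hU ⊤
    (fun _ _ _ _ => Submodule.mem_top) htop
  have hsurj : Function.Surjective φ := fun c => ⟨c • m₀, by rw [map_smul, hm₀, smul_eq_mul, mul_one]⟩
  have hbij : Function.Bijective φ :=
    hsurj.bijective_of_nat_card_le (by rw [hμ, Nat.card_zmod])
  exact ⟨φ, m₀, hm₀, fun h hh m => hbij.1 (hφ h hh m Submodule.mem_top)⟩

/-! ## The filtration induction -/

/-- A normal subgroup `U ≤ P` acting trivially on `A` acts trivially on `Ind_P A`. -/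
theorem dIndρ_eq_self_of_normal (k : Type) [CommRing k] (A : Rep.{0, 0, 0} k G)
    (P U : Subgroup G) [U.Normal] (hUP : U ≤ P) (hU : ∀ s ∈ U, ∀ a : A, A.ρ s a = a)
    (s : G) (hs : s ∈ U) (f : (G ⧸ P) →₀ A) : dIndρ P A s f = f := by
  ext y
  induction y using QuotientGroup.induction_on with
  | H g =>
    rw [dIndρ_apply, hU s hs]
    congr 1
    show ((s⁻¹ * g : G) : G ⧸ P) = (g : G ⧸ P)
    rw [QuotientGroup.eq]
    have h1 : (s⁻¹ * g)⁻¹ * g = g⁻¹ * s * g := by group
    rw [h1]
    apply hUP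
    have := (inferInstance : U.Normal).conj_mem s hs g⁻¹
    simpa using this

/-- **Filtration step.**  `H3V (k[G/P]) ⇒ H3V (subI P A N)` for every `P`-stable subspace `N`. -/
theorem H3V_subIRep {𝓛 : Set (Subgroup G)} (hd : Directed' 𝓛) (hn : NormalCofinal' 𝓛)
    (P : Subgroup G) [Finite (G ⧸ P)] (U : Subgroup G) (hU𝓛 : U ∈ 𝓛) [U.Normal] (hUP : U ≤ P)
    (hPU : ∀ h ∈ P, ∃ n : ℕ, h ^ p ^ n ∈ U)
    (A : Rep.{0, 0, 0} (ZMod p) G) [FiniteDimensional (ZMod p) A]
    (hUA : ∀ s ∈ U, ∀ a : A, A.ρ s a = a)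
    (hperm : H3V 𝓛 (dInd P (trivK (ZMod p) G))) :
    ∀ (d : ℕ) (N : Submodule (ZMod p) A), (∀ h ∈ P, ∀ n ∈ N, A.ρ h n ∈ N) →
      Module.finrank (ZMod p) ↥N < d → H3V 𝓛 (subIRep P A N) := by
  intro d
  induction d with
  | zero => intro N _ h; exact absurd h (Nat.not_lt_zero _)
  | succ d ih =>
    intro N hN hd'
    by_cases hN0 : N = ⊥
    · subst hN0
      haveI : Subsingleton ↥(subI P A (⊥ : Submodule (ZMod p) A)) := by
        rw [subI_bot]
        infer_instance
      haveI : Subsingleton (subIRep P A (⊥ : Submodule (ZMod p) A)) :=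
        (inferInstance : Subsingleton ↥(subI P A (⊥ : Submodule (ZMod p) A)))
      exact H3V.of_subsingleton 𝓛 ⟨U, hU𝓛⟩ _
    · obtain ⟨φ, hφ, n₀, hn₀, hφn₀⟩ := exists_invariant_functional A P U hPU hUA N hN hN0
      -- the smaller subspace
      have hN' : ∀ h ∈ P, ∀ n ∈ N ⊓ LinearMap.ker φ, A.ρ h n ∈ N ⊓ LinearMap.ker φ := by
        rintro h hh n ⟨hn1, hn2⟩
        refine ⟨hN h hh n hn1, ?_⟩
        show φ (A.ρ h n) = 0
        rw [hφ h hh n hn1]
        exact hn2
      have hlt : N ⊓ LinearMap.ker φ < N := by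
        refine lt_of_le_of_ne inf_le_left (fun h => ?_)
        have h1 : n₀ ∈ N ⊓ LinearMap.ker φ := by rw [h]; exact hn₀
        have h2 : φ n₀ = 0 := h1.2
        rw [hφn₀] at h2
        exact one_ne_zero h2
      have hrank : Module.finrank (ZMod p) ↥(N ⊓ LinearMap.ker φ) < d :=
        lt_of_lt_of_le (Submodule.finrank_lt_finrank_of_lt hlt) (Nat.lt_succ_iff.1 hd')
      have h' := ih (N ⊓ LinearMap.ker φ) hN' hrank
      -- the extension `0 → subI N' → subI N → k[G/P] → 0`
      have hsm : USmooth 𝓛 (subIRep P A N) :=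
        ⟨U, hU𝓛, fun s hs f => Subtype.ext (dIndρ_eq_self_of_normal (ZMod p) A P U hUP hUA s hs f.1)⟩
      let i : subIRep P A (N ⊓ LinearMap.ker φ) →ₗ[ZMod p] subIRep P A N :=
        Submodule.inclusion (subI_mono A inf_le_left)
      let π : subIRep P A N →ₗ[ZMod p] dInd P (trivK (ZMod p) G) :=
        (piFull P A φ) ∘ₗ (subI P A N).subtype
      refine H3V.of_extension hd hn hsm i π (fun g a => rfl) ?_ ?_ ?_ ?_ h' hperm
      · intro g f
        exact piFull_equivariant hφ f.2 g
      · exact Submodule.inclusion_injective _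
      · intro F
        refine ⟨⟨theta P A n₀ F, theta_mem_subI hN hn₀ F⟩, ?_⟩
        exact piFull_theta_of_eq_one P A φ n₀ hφn₀ F
      · intro f hf
        have hf' : piFull P A φ f.1 = 0 := hf
        exact ⟨⟨f.1, (piFull_eq_zero_iff hφ f.2).1 hf'⟩, rfl⟩

/-! ## The theorem -/

/-- **Abstract dévissage** (sharp form).  If `H³_lc(G, Ind_H μ) = 0` for every open subgroup
`H` ACTING TRIVIALLY ON `μ` (`μ` of order `p`, fixed by some level), then `H³_lc(G, R) = 0` for
every finite-dimensional `R` fixed by some level. -/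
theorem H3V_of_ind_triv {𝓛 : Set (Subgroup G)} (hd : Directed' 𝓛) (hn : NormalCofinal' 𝓛)
    (hfi : ∀ U ∈ 𝓛, U.FiniteIndex)
    (μ : Rep.{0, 0, 0} (ZMod p) G) (hμcard : Nat.card μ = p) (hμ : USmooth 𝓛 μ)
    (hInd : ∀ H : Subgroup G, IsOpenSub 𝓛 H → (∀ s ∈ H, ∀ m : μ, μ.ρ s m = m) →
      H3V 𝓛 (dInd H μ))
    (R : Rep.{0, 0, 0} (ZMod p) G) [FiniteDimensional (ZMod p) R] (hR : USmooth 𝓛 R) :
    H3V 𝓛 R := by
  classical
  have hp : p.Prime := Fact.out
  -- a normal level acting trivially on `R` and `μ`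
  obtain ⟨U₁, hU₁, hU₁R⟩ := hR
  obtain ⟨U₂, hU₂, hU₂μ⟩ := hμ
  obtain ⟨W, hW, hWle⟩ := hd U₁ hU₁ U₂ hU₂
  obtain ⟨U, hU, hUW, hUn⟩ := hn W hW
  haveI := hUn
  have hUR : ∀ s ∈ U, ∀ a : R, R.ρ s a = a := fun s hs => hU₁R s (hWle (hUW hs)).1
  have hUμ : ∀ s ∈ U, ∀ a : μ, μ.ρ s a = a := fun s hs => hU₂μ s (hWle (hUW hs)).2
  haveI := hfi U hU
  haveI : Finite (G ⧸ U) := Subgroup.finite_quotient_of_finiteIndex
  -- the Sylow preimage
  obtain ⟨Pbar⟩ := (Sylow.nonempty : Nonempty (Sylow p (G ⧸ U)))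
  let P : Subgroup G := (Pbar : Subgroup (G ⧸ U)).comap (QuotientGroup.mk' U)
  have hUP : U ≤ P := by
    intro s hs
    show (QuotientGroup.mk' U) s ∈ (Pbar : Subgroup (G ⧸ U))
    have : (QuotientGroup.mk' U) s = 1 := (QuotientGroup.eq_one_iff s).2 hs
    rw [this]
    exact Subgroup.one_mem _
  have hPU : ∀ h ∈ P, ∃ n : ℕ, h ^ p ^ n ∈ U := by
    intro h hh
    obtain ⟨n, hn⟩ := Pbar.isPGroup' ⟨(QuotientGroup.mk' U) h, hh⟩
    refine ⟨n, ?_⟩
    have h1 : ((QuotientGroup.mk' U) h) ^ p ^ n = 1 := congrArg Subtype.val hn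
    rw [← map_pow] at h1
    exact (QuotientGroup.eq_one_iff _).1 h1
  haveI : (Pbar : Subgroup (G ⧸ U)).FiniteIndex := Subgroup.finiteIndex_of_finite_quotient
  have hindex : P.index = (Pbar : Subgroup (G ⧸ U)).index :=
    Subgroup.index_comap_of_surjective _ (QuotientGroup.mk'_surjective U)
  have hpidx : ¬ p ∣ P.index := by
    rw [hindex]
    exact Pbar.not_dvd_index
  haveI : P.FiniteIndex := ⟨by rw [hindex]; exact Subgroup.FiniteIndex.index_ne_zero⟩
  haveI : Finite (G ⧸ P) := Subgroup.finite_quotient_of_finiteIndex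
  -- `k[G/P]` is a retract of `Ind_P μ`
  obtain ⟨φ₀, m₀, hφ₀, hPμ⟩ := acts_trivially_of_card μ hμcard P U hPU hUμ
  have hperm : H3V 𝓛 (dInd P (trivK (ZMod p) G)) := by
    refine H3V.of_retract (A := dInd P (trivK (ZMod p) G)) (B := dInd P μ)
      (theta P μ m₀) (piFull P μ φ₀) ?_ ?_ ?_ (hInd P ⟨U, hU, hUP⟩ hPμ)
    · intro g F
      exact theta_equivariant (fun h hh => hPμ h hh m₀) g F
    · intro g f
      exact piFull_equivariant (N := ⊤) (fun h hh n _ => by rw [hPμ h hh n])
        (by rw [subI_top]; exact Submodule.mem_top) g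
    · intro F
      exact piFull_theta_of_eq_one P μ φ₀ m₀ hφ₀ F
  -- filtration
  have hfil : H3V 𝓛 (subIRep P R ⊤) :=
    H3V_subIRep hd hn P U hU hUP hPU R hUR hperm (Module.finrank (ZMod p) ↥(⊤ : Submodule (ZMod p) R) + 1)
      ⊤ (fun _ _ _ _ => Submodule.mem_top) (Nat.lt_succ_self _)
  -- `Ind_P R ≅ subI P R ⊤`
  have hIndR : H3V 𝓛 (dInd P R) := by
    let i : dInd P R →ₗ[ZMod p] subIRep P R ⊤ :=
      LinearMap.codRestrict (subI P R ⊤) LinearMap.id
        (fun f => by rw [subI_top]; exact Submodule.mem_top)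
    let r : subIRep P R ⊤ →ₗ[ZMod p] dInd P R := (subI P R ⊤).subtype
    exact H3V.of_retract i r (fun g a => rfl) (fun g b => rfl) (fun a => rfl) hfil
  -- `R` is a retract of `Ind_P R`
  have hc : ((P.index : ℕ) : ZMod p) ≠ 0 := by
    rw [Ne, ZMod.natCast_eq_zero_iff]
    exact hpidx
  have hc' : ((P.index : ZMod p)⁻¹) * ((Nat.card (G ⧸ P) : ℕ) : ZMod p) = 1 := by
    have : Nat.card (G ⧸ P) = P.index := rfl
    rw [this]
    exact inv_mul_cancel₀ hc
  exact H3V.of_retract (diag P R) (((P.index : ZMod p)⁻¹) • aug P R)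
    (fun g a => diag_equivariant P R g a)
    (fun g f => smul_aug_equivariant P R _ g f)
    (fun a => smul_aug_diag P R _ hc' a) hIndR

/-- **Abstract dévissage.**  If `H³_lc(G, Ind_H μ) = 0` for every open subgroup `H`
(`μ` of order `p`, fixed by some level), then `H³_lc(G, R) = 0` for every finite-dimensional
`R` fixed by some level. -/
theorem H3V_of_ind {𝓛 : Set (Subgroup G)} (hd : Directed' 𝓛) (hn : NormalCofinal' 𝓛)
    (hfi : ∀ U ∈ 𝓛, U.FiniteIndex)
    (μ : Rep.{0, 0, 0} (ZMod p) G) (hμcard : Nat.card μ = p) (hμ : USmooth 𝓛 μ)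
    (hInd : ∀ H : Subgroup G, IsOpenSub 𝓛 H → H3V 𝓛 (dInd H μ))
    (R : Rep.{0, 0, 0} (ZMod p) G) [FiniteDimensional (ZMod p) R] (hR : USmooth 𝓛 R) :
    H3V 𝓛 R :=
  H3V_of_ind_triv hd hn hfi μ hμcard hμ (fun H hH _ => hInd H hH) R hR

/-- A module of `𝔽_p`-dimension one has order `p`. -/
theorem natCard_eq_of_finrank_eq_one (μ : Rep.{0, 0, 0} (ZMod p) G)
    (h : Module.finrank (ZMod p) μ = 1) : Nat.card μ = p := by
  haveI : Module.Finite (ZMod p) μ := Module.finite_of_finrank_pos (by rw [h]; exact one_pos)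
  rw [Module.natCard_eq_pow_finrank (K := ZMod p), h, pow_one, Nat.card_zmod]

end Fermat.Agent.S55.H593.Dev

end

end
-- ===== PACK-END S55/H593/Dev/Main.lean

-- ===== PACK-BEGIN S55/BLocal/Prime.lean
section



/-!
# S55, layer B-local: Prelude wrappers

The image of `primeLocalToGlobal q` is the decomposition group of `primeLocalPlace q`; a cochain
condition on the local group is therefore a condition on the decomposition group.
-/

set_option autoImplicit false
set_option linter.style.haveILetI false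

open scoped Pointwise
open ExtCitation

namespace Fermat.Agent.S55.BLocal

/-- The image of the local Galois group at `q` in `Gal(ℚ̄/ℚ)` is the decomposition group of the
`q`-adic place. -/
theorem range_primeLocalToGlobal (q : Nat.Primes) :
    (primeLocalToGlobal q).range = (primeLocalPlace q).decompositionSubgroup ℚ := by
  haveI : Fact (q : ℕ).Prime := ⟨q.2⟩
  exact range_localGaloisToGlobal (q : ℕ)

theorem primeLocalToGlobal_mem (q : Nat.Primes) (τ : primeLocalGaloisGroup q) :
    primeLocalToGlobal q τ ∈ (primeLocalPlace q).decompositionSubgroup ℚ := by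
  rw [← range_primeLocalToGlobal]
  exact ⟨τ, rfl⟩

theorem exists_primeLocalToGlobal_eq (q : Nat.Primes) (σ : GQ)
    (hσ : σ ∈ (primeLocalPlace q).decompositionSubgroup ℚ) :
    ∃ τ : primeLocalGaloisGroup q, primeLocalToGlobal q τ = σ := by
  rw [← range_primeLocalToGlobal] at hσ
  exact hσ

/-- The `q`-adic place lies over `q`. -/
theorem primeLocalPlace_liesOver (q : Nat.Primes) : (primeLocalPlace q).LiesOverPrime (q : ℕ) := by
  haveI : Fact (q : ℕ).Prime := ⟨q.2⟩
  show ((q : ℕ) : Qb) ∈ (padicPlace (q : ℕ)).nonunits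
  rw [ValuationSubring.mem_nonunits_iff_exists_mem_maximalIdeal]
  have hq1 : (1 : ℝ) < (q : ℕ) := by exact_mod_cast q.2.one_lt
  have hlt : qnorm (q : ℕ) ((q : ℕ) : Qb) < 1 := by
    rw [qnorm_natCast_self]
    exact inv_lt_one_of_one_lt₀ hq1
  have hmem : ((q : ℕ) : Qb) ∈ padicPlace (q : ℕ) :=
    (mem_padicPlace_iff_qnorm (q : ℕ) _).mpr hlt.le
  refine ⟨hmem, ?_⟩
  rw [IsLocalRing.mem_maximalIdeal, mem_nonunits_iff]
  intro hu
  obtain ⟨u, hu⟩ := hu
  have hinv : (((u⁻¹ : (padicPlace (q : ℕ))ˣ) : padicPlace (q : ℕ)) : Qb) * ((q : ℕ) : Qb) = 1 := by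
    have h1 : ((u⁻¹ : (padicPlace (q : ℕ))ˣ) : padicPlace (q : ℕ)) * (u : padicPlace (q : ℕ)) = 1 :=
      Units.inv_mul u
    rw [hu] at h1
    exact congrArg Subtype.val h1
  have h2 := congrArg (qnorm (q : ℕ)) hinv
  rw [qnorm_mul] at h2
  have h3 : qnorm (q : ℕ) (1 : Qb) = 1 := by
    unfold qnorm
    rw [map_one, norm_one]
  rw [h3] at h2
  have h4 : qnorm (q : ℕ) (((u⁻¹ : (padicPlace (q : ℕ))ˣ) : padicPlace (q : ℕ)) : Qb) ≤ 1 :=
    (mem_padicPlace_iff_qnorm (q : ℕ) _).mp (Subtype.property _)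
  have h5 := qnorm_nonneg (q : ℕ) ((q : ℕ) : Qb)
  nlinarith

end Fermat.Agent.S55.BLocal

end
-- ===== PACK-END S55/BLocal/Prime.lean

-- ===== PACK-BEGIN S55/Spec/Tower3.lean
section
/-
S55 moonshot — frozen shared definitions, part 3: maps in the tower.
Chief architect: helper55.  NO sorry.  Namespace `Fermat.Agent.S55.Tow`.

* `Level.unitsCoe`, `Level.locCoe`, `unitsMk`, `locMk` : underlying elements of `ℚ̄ˣ`, `ℚ̄_qˣ`;
* `embQbar`, `Level.emb q : Fˣ → F_qˣ` (Prelude `padicEmbedding`);
* `Level.trUnits h : Fˣ → F'ˣ`, `Level.trLoc h q : F_qˣ → F'_qˣ`, `Level.trJ h q : J_q(F) → J_q(F')`;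
* `Level.diag q : Fˣ → J_q(F)`, `x ↦ (g ↦ emb (g x))`;
* `Level.ofLE : Level S → Level S'` for `S ⊆ S'`.
-/


set_option autoImplicit false

open CategoryTheory

namespace Fermat.Agent.S55.Tow

noncomputable section

variable {S : Finset Nat.Primes}

/-- The embedding `ℚ̄ˣ → ℚ̄_qˣ` (additively written), induced by the Prelude `padicEmbedding`. -/
def embQbar (q : Nat.Primes) : unitsQbar.V →ₗ[ℤ] (unitsQpbar q).V :=
  (Units.map (padicEmbedding (q : ℕ)).toRingHom.toMonoidHom).toAdditive.toIntLinearMap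

lemma embQbar_equivariant (q : Nat.Primes) (τ : GQp q) (x : unitsQbar.V) :
    embQbar q (unitsQbar.ρ (locQ q τ) x) = (unitsQpbar q).ρ τ (embQbar q x) := by
  apply Additive.toMul.injective
  apply Units.ext
  exact padicEmbedding_localGaloisToGlobal (q : ℕ) τ _

/-- The underlying element of `ℚ̄ˣ` (additively written) of `x ∈ Fˣ`. -/
def Level.unitsCoe (L : Level S) : L.units.V →ₗ[ℤ] unitsQbar.V :=
  Submodule.subtype (Representation.invariants (unitsQbar.ρ.comp L.U.subtype))

/-- The underlying element of `ℚ̄_qˣ` (additively written) of `x ∈ F_qˣ`. -/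
def Level.locCoe (L : Level S) (q : Nat.Primes) : (L.locUnits q).V →ₗ[ℤ] (unitsQpbar q).V :=
  Submodule.subtype (Representation.invariants ((unitsQpbar q).ρ.comp (L.V q).subtype))

lemma Level.unitsCoe_injective (L : Level S) : Function.Injective L.unitsCoe :=
  Subtype.val_injective

lemma Level.locCoe_injective (L : Level S) (q : Nat.Primes) : Function.Injective (L.locCoe q) :=
  Subtype.val_injective

lemma Level.unitsCoe_fixed (L : Level S) (x : L.units.V) (g : GQ) (hg : g ∈ L.U) :
    unitsQbar.ρ g (L.unitsCoe x) = L.unitsCoe x := x.2 ⟨g, hg⟩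

lemma Level.locCoe_fixed (L : Level S) (q : Nat.Primes) (x : (L.locUnits q).V) (g : GQp q)
    (hg : g ∈ L.V q) : (unitsQpbar q).ρ g (L.locCoe q x) = L.locCoe q x := x.2 ⟨g, hg⟩

/-- Constructor for elements of `Fˣ`. -/
def Level.unitsMk (L : Level S) (a : unitsQbar.V) (ha : ∀ g ∈ L.U, unitsQbar.ρ g a = a) :
    L.units.V := ⟨a, fun g => ha g.1 g.2⟩

/-- Constructor for elements of `F_qˣ`. -/
def Level.locMk (L : Level S) (q : Nat.Primes) (a : (unitsQpbar q).V)
    (ha : ∀ g ∈ L.V q, (unitsQpbar q).ρ g a = a) : (L.locUnits q).V := ⟨a, fun g => ha g.1 g.2⟩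

@[simp] lemma Level.unitsCoe_mk (L : Level S) (a : unitsQbar.V) (ha) :
    L.unitsCoe (L.unitsMk a ha) = a := rfl

@[simp] lemma Level.locCoe_mk (L : Level S) (q : Nat.Primes) (a : (unitsQpbar q).V) (ha) :
    L.locCoe q (L.locMk q a ha) = a := rfl

lemma Level.units_ρ_coe (L : Level S) (g : GQ) (x : L.units.V) :
    L.unitsCoe (L.units.ρ (QuotientGroup.mk g) x) = unitsQbar.ρ g (L.unitsCoe x) := rfl

lemma Level.locUnits_ρ_coe (L : Level S) (q : Nat.Primes) (g : GQp q) (x : (L.locUnits q).V) :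
    L.locCoe q ((L.locUnits q).ρ (QuotientGroup.mk g) x) = (unitsQpbar q).ρ g (L.locCoe q x) := rfl

/-- The embedding `Fˣ → F_qˣ` (linear). -/
def Level.embFun (L : Level S) (q : Nat.Primes) : L.units.V →ₗ[ℤ] (L.locUnits q).V where
  toFun x := L.locMk q (embQbar q (L.unitsCoe x)) (fun g hg => by
    rw [← embQbar_equivariant, L.unitsCoe_fixed x _ hg])
  map_add' x y := by
    apply L.locCoe_injective q
    simp [map_add]
  map_smul' c x := by
    apply L.locCoe_injective q
    simp [map_smul]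

@[simp] lemma Level.locCoe_embFun (L : Level S) (q : Nat.Primes) (x : L.units.V) :
    L.locCoe q (L.embFun q x) = embQbar q (L.unitsCoe x) := rfl

/-- The embedding `Fˣ → F_qˣ` as a morphism of `Gal(F_q/ℚ_q)`-modules. -/
def Level.emb (L : Level S) (q : Nat.Primes) : Rep.res (L.decHom q) L.units ⟶ L.locUnits q :=
  Rep.ofHom ⟨L.embFun q, fun g => by
    induction g using QuotientGroup.induction_on with
    | H g =>
      refine LinearMap.ext fun x => ?_
      apply L.locCoe_injective q
      exact embQbar_equivariant q g (L.unitsCoe x)⟩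

/-- The inclusion `Fˣ ⊂ F'ˣ` (linear). -/
def Level.inclUnits {L L' : Level S} (h : L ≤ L') : L.units.V →ₗ[ℤ] L'.units.V where
  toFun x := L'.unitsMk (L.unitsCoe x) (fun g hg => L.unitsCoe_fixed x g (Level.U_anti h hg))
  map_add' _ _ := rfl
  map_smul' _ _ := rfl

@[simp] lemma Level.unitsCoe_inclUnits {L L' : Level S} (h : L ≤ L') (x : L.units.V) :
    L'.unitsCoe (Level.inclUnits h x) = L.unitsCoe x := rfl

/-- The inclusion `Fˣ ⊂ F'ˣ` as a morphism of `Gal(F'/ℚ)`-modules. -/
def Level.trUnits {L L' : Level S} (h : L ≤ L') : Rep.res (Level.proj h) L.units ⟶ L'.units :=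
  Rep.ofHom ⟨Level.inclUnits h, fun g => by
    induction g using QuotientGroup.induction_on with
    | H g => exact LinearMap.ext fun x => rfl⟩

/-- The inclusion `F_qˣ ⊂ F'_qˣ` (linear). -/
def Level.inclLoc {L L' : Level S} (h : L ≤ L') (q : Nat.Primes) :
    (L.locUnits q).V →ₗ[ℤ] (L'.locUnits q).V where
  toFun x := L'.locMk q (L.locCoe q x) (fun g hg => L.locCoe_fixed q x g (Level.V_anti h q hg))
  map_add' _ _ := rfl
  map_smul' _ _ := rfl

@[simp] lemma Level.locCoe_inclLoc {L L' : Level S} (h : L ≤ L') (q : Nat.Primes)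
    (x : (L.locUnits q).V) : L'.locCoe q (Level.inclLoc h q x) = L.locCoe q x := rfl

/-- The inclusion `F_qˣ ⊂ F'_qˣ` as a morphism of `Gal(F'_q/ℚ_q)`-modules. -/
def Level.trLoc {L L' : Level S} (h : L ≤ L') (q : Nat.Primes) :
    Rep.res (Level.projDec h q) (L.locUnits q) ⟶ L'.locUnits q :=
  Rep.ofHom ⟨Level.inclLoc h q, fun g => by
    induction g using QuotientGroup.induction_on with
    | H g => exact LinearMap.ext fun x => rfl⟩

/-- The diagonal embedding `Fˣ → J_q(F) = Coind F_qˣ`, `x ↦ (g ↦ emb (g x))`. -/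
def Level.diagFun (L : Level S) (q : Nat.Primes) : L.units.V →ₗ[ℤ] (L.J q).V where
  toFun x := ⟨fun g => L.embFun q (L.units.ρ g x), fun d g => by
    have := Rep.hom_comm_apply (L.emb q) d (L.units.ρ g x)
    show L.embFun q (L.units.ρ (L.decHom q d * g) x) = _
    rw [map_mul]
    exact this⟩
  map_add' x y := by
    apply Subtype.ext
    funext g
    show L.embFun q (L.units.ρ g (x + y)) = L.embFun q (L.units.ρ g x) + L.embFun q (L.units.ρ g y)
    rw [map_add, map_add]
  map_smul' c x := by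
    apply Subtype.ext
    funext g
    show L.embFun q (L.units.ρ g (c • x)) = c • L.embFun q (L.units.ρ g x)
    rw [map_smul, map_smul]

/-- The diagonal embedding `Fˣ → J_q(F)` as a morphism of `Gal(F/ℚ)`-modules. -/
def Level.diag (L : Level S) (q : Nat.Primes) : L.units ⟶ L.J q :=
  Rep.ofHom ⟨L.diagFun q, fun g => by
    refine LinearMap.ext fun x => ?_
    apply Subtype.ext
    funext g'
    show L.embFun q (L.units.ρ g' (L.units.ρ g x)) = L.embFun q (L.units.ρ (g' * g) x)
    rw [map_mul]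
    rfl⟩

/-- Evaluation of an element of `J_q(F) = Coind F_qˣ` at `g ∈ Gal(F/ℚ)`. -/
def Level.Jeval (L : Level S) (q : Nat.Primes) (f : (L.J q).V) (g : L.Gal) : (L.locUnits q).V :=
  f.1 g

lemma Level.Jeval_mul (L : Level S) (q : Nat.Primes) (f : (L.J q).V) (d : L.Dec q) (g : L.Gal) :
    L.Jeval q f (L.decHom q d * g) = (L.locUnits q).ρ d (L.Jeval q f g) := f.2 d g

lemma Level.J_ext (L : Level S) (q : Nat.Primes) {f f' : (L.J q).V}
    (h : ∀ g, L.Jeval q f g = L.Jeval q f' g) : f = f' := Subtype.ext (funext h)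

lemma Level.Jeval_ρ (L : Level S) (q : Nat.Primes) (f : (L.J q).V) (g g' : L.Gal) :
    L.Jeval q ((L.J q).ρ g f) g' = L.Jeval q f (g' * g) := rfl

@[simp] lemma Level.Jeval_diag (L : Level S) (q : Nat.Primes) (x : L.units.V) (g : L.Gal) :
    L.Jeval q ((L.diag q).hom x) g = L.embFun q (L.units.ρ g x) := rfl

/-- The inclusion `J_q(F) → J_q(F')` (linear): `f ↦ (g' ↦ f (proj g'))`. -/
def Level.inclJ {L L' : Level S} (h : L ≤ L') (q : Nat.Primes) : (L.J q).V →ₗ[ℤ] (L'.J q).V where
  toFun f := ⟨fun g' => Level.inclLoc h q (L.Jeval q f (Level.proj h g')), fun d g' => by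
    show Level.inclLoc h q (L.Jeval q f (Level.proj h (L'.decHom q d * g'))) = _
    rw [map_mul, Level.proj_decHom, L.Jeval_mul]
    exact Rep.hom_comm_apply (Level.trLoc h q) d _⟩
  map_add' _ _ := rfl
  map_smul' _ _ := rfl

@[simp] lemma Level.Jeval_inclJ {L L' : Level S} (h : L ≤ L') (q : Nat.Primes) (f : (L.J q).V)
    (g' : L'.Gal) :
    L'.Jeval q (Level.inclJ h q f) g' = Level.inclLoc h q (L.Jeval q f (Level.proj h g')) := rfl

/-- The inclusion `J_q(F) → J_q(F')` as a morphism of `Gal(F'/ℚ)`-modules. -/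
def Level.trJ {L L' : Level S} (h : L ≤ L') (q : Nat.Primes) :
    Rep.res (Level.proj h) (L.J q) ⟶ L'.J q :=
  Rep.ofHom ⟨Level.inclJ h q, fun g => by
    refine LinearMap.ext fun f => ?_
    apply L'.J_ext q
    intro g'
    show Level.inclLoc h q (L.Jeval q ((L.J q).ρ (Level.proj h g) f) (Level.proj h g')) =
      Level.inclLoc h q (L.Jeval q f (Level.proj h (g' * g)))
    rw [L.Jeval_ρ, map_mul]⟩

/-- A level for `S` is a level for every `S' ⊇ S`. -/
def Level.ofLE {S' : Finset Nat.Primes} (hS : S ⊆ S') (L : Level S) : Level S' where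
  F := L.F
  unram := L.unram.mono hS
  normalU := L.normalU

@[simp] lemma Level.ofLE_F {S' : Finset Nat.Primes} (hS : S ⊆ S') (L : Level S) :
    (Level.ofLE hS L).F = L.F := rfl

end

end Fermat.Agent.S55.Tow

end
-- ===== PACK-END S55/Spec/Tower3.lean

-- ===== PACK-BEGIN S55/G/Spec.lean
section
/-
S55 (Poitou–Tate), layer G (global class field theory) — INTERFACE, part 1.
Sub-architect: helper421.   Plan and leaves: `coord/S55-G.md` on `origin/helper421`.

Only definitions and `def XxxSpec : Prop` (no `sorry`).  Producers prove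
`theorem xxx : XxxSpec`; consumers take `(h : XxxSpec)` as a hypothesis.

Vocabulary: `Defs.lean`, `DefsLocal.lean` (this layer), `T/Spec.lean` (`resSub`, `CardDvd`, …),
`L/Spec.lean` (`IsLocalFld`).

Standing conventions.
* `S : Finset Nat.Primes` is a VARIABLE finite set of rational primes.
* `G : Type` is a finite group acting on the number field `L : Type` by field automorphisms;
  "`L/K` is Galois with group `G`" is Mathlib's `[IsGaloisGroup G K L]`
  (instances: `G = L ≃ₐ[K] L`, subgroups with their fixed fields, quotients, …).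
* The archimedean places are NOT part of `J_S`; this is harmless exactly because all groups in
  the specs below have ODD order (they are `p`-groups, `p ≠ 2`).
-/




set_option autoImplicit false

open scoped NumberField TensorProduct
open IsDedekindDomain CategoryTheory groupCohomology

noncomputable section

namespace Fermat.Agent.S55.G

/-! ## 0. Hypotheses -/

/-- `L/L^G` is unramified outside `S`: for every finite prime `w` of `L` not above `S`, the
inertia group `{g | g x ≡ x mod w for all integral x}` acts trivially on `L`. -/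
def IsUnramOut (S : Finset Nat.Primes) (G L : Type) [Group G] [Field L] [NumberField L]
    [MulSemiringAction G L] : Prop :=
  ∀ w : HeightOneSpectrum (𝓞 L), ¬ IsAbove S L w →
    ∀ g : G, (∀ x : 𝓞 L, g • x - x ∈ w.asIdeal) → ∀ x : L, g • x = x

/-- `L` contains a primitive `p`-th root of unity fixed by `G` (i.e. `μ_p ⊂ L^G`). -/
def HasFixedRootOfUnity (p : ℕ) (G L : Type) [Group G] [Field L] [MulSemiringAction G L] : Prop :=
  ∃ ζ : L, IsPrimitiveRoot ζ p ∧ ∀ g : G, g • ζ = ζ

/-! ## 1. Structure of the modules -/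

/-- **G-SES.**  For `S ≠ ∅` the sequence `0 → Lˣ → J_S(L) × Div^S(L) → C_S(L) → 0` is short
exact in `Rep ℤ G`. -/
def ClassShortExactSpec : Prop :=
  ∀ (S : Finset Nat.Primes) (G L : Type) [Group G] [Field L] [NumberField L]
    [MulSemiringAction G L], S.Nonempty → (classShortComplex S G L).ShortExact

/-- **G-CL.**  Finiteness of the `S`-class group: the image `C'_S(L) = J_S(L)/E_S(L)` of `J_S(L)`
has finite index in `C_S(L)`; and for `T ⊇ S` large enough it is everything
(`Cl_T(L) = 1`), where we may moreover require `T` to contain any given finite set. -/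
def ClassGroupFiniteSpec : Prop :=
  ∀ (S : Finset Nat.Primes) (L : Type) [Field L] [NumberField L],
    (jImage S L).toAddSubgroup.index ≠ 0 ∧
    ∃ T : Finset Nat.Primes, S ⊆ T ∧ ∀ T' : Finset Nat.Primes, T ⊆ T' → jImage T' L = ⊤

/-- **G-PL0.**  There are finitely many places above `S`, and each local field `L_𝔪` is a local
field in the sense of layer `L`. -/
def LocFieldSpec : Prop :=
  ∀ (S : Finset Nat.Primes) (L : Type) [Field L] [NumberField L],
    Finite (SPlace S L) ∧ ∀ 𝔪 : SPlace S L, _root_.Fermat.Agent.S55.L.IsLocalFld (LocField S 𝔪)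

/-- **G-PL1.**  The places above `S` are the primes above `S`: a `G`-equivariant bijection
`β : SPlace S L ≃ PrimeIn S L` such that an integer `x ∈ 𝒪_L` lies in the prime `β 𝔪` iff its image
in `L_𝔪` is a non-unit of the ring of integers of `L_𝔪`. -/
def PlacePrimeSpec : Prop :=
  ∀ (S : Finset Nat.Primes) (L : Type) [Field L] [NumberField L],
    ∃ β : SPlace S L ≃ PrimeIn S L,
      (∀ (G : Type) [Group G] [MulSemiringAction G L] (g : G) (𝔪 : SPlace S L),
        (β (sPlaceSMul S G g 𝔪)).1 = primeSMul G g (β 𝔪).1) ∧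
      (∀ (𝔪 : SPlace S L) (A : ValuationSubring (LocField S 𝔪)), _root_.Fermat.Agent.S55.L.IsLocalRingOfIntegers A →
        ∀ x : 𝓞 L, x ∈ (β 𝔪).1.asIdeal ↔ toLoc S 𝔪 (x : L) ∈ A.nonunits)

/-- **G-LOC (Shapiro).**  For a finite group `G` acting on `L` and a set `R` of representatives
of the `G`-orbits of places above `S`, the localisation maps induce
`Hⁿ(G, J_S(L)) ≅ ∏_{𝔪 ∈ R} Hⁿ(D_𝔪, L_𝔪ˣ)`   (all `n`). -/
def ShapiroJSpec : Prop :=
  ∀ (S : Finset Nat.Primes) (G L : Type) [Group G] [Finite G] [Field L] [NumberField L]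
    [MulSemiringAction G L] (R : Finset (SPlace S L)),
    (∀ 𝔪 : SPlace S L, ∃! r : SPlace S L, r ∈ R ∧ ∃ g : G, sPlaceSMul S G g r = 𝔪) →
    ∀ n : ℕ, Function.Bijective
      (fun (x : groupCohomology (JRep G S L) n) (r : R) => (locMapJ S G r.1 n).hom x)

/-- **G-H1J.**  `H¹(G, J_S(L)) = 0` (Hilbert 90 for the semi-local algebra `L ⊗ ℚ_S`). -/
def H1JSpec : Prop :=
  ∀ (S : Finset Nat.Primes) (G L : Type) [Group G] [Finite G] [Field L] [NumberField L]
    [MulSemiringAction G L] [FaithfulSMul G L],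
    Limits.IsZero (groupCohomology (JRep G S L) 1)

/-! ## 2. Galois descent -/

/-- **G-DESC.**  Galois descent for the `S`-idèle class group.  Let `G` act faithfully on `L`,
unramified outside `S ≠ ∅`, let `N ⊴ G` and let `L'` be a number field with an embedding
`L' → L` whose image is the fixed field of `N`, with `G ⧸ N` acting on `L'` compatibly.
Then there is an injective additive map `ι : C_S(L') → C_S(L)`, equivariant (`ι ∘ gN = g ∘ ι`),
with image exactly the `N`-invariants `C_S(L)^N`, and which on the image of `J_S(L')` is the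
natural base-change map.  (Proof: Hilbert 90 for `L/L'`, `(L ⊗ ℚ_S)^N = L' ⊗ ℚ_S`,
`Div^S(L)^N = Div^S(L')` because `L/L'` is unramified outside `S`.) -/
def DescentSpec : Prop :=
  ∀ (S : Finset Nat.Primes) (G L L' : Type) [Group G] [Finite G] [Field L] [NumberField L]
    [Field L'] [NumberField L'] [Algebra L' L] [MulSemiringAction G L] [FaithfulSMul G L]
    (N : Subgroup G) [N.Normal] [MulSemiringAction (G ⧸ N) L'],
    S.Nonempty → IsUnramOut S G L →
    (∀ x : L, (∀ n : N, (n : G) • x = x) ↔ x ∈ (algebraMap L' L).range) →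
    (∀ (g : G) (x : L'), algebraMap L' L ((g : G ⧸ N) • x) = g • algebraMap L' L x) →
    ∃ ι : CS S L' →+ CS S L,
      Function.Injective ι ∧
      (∀ (g : G) (c : CS S L'), ι (cRepr S (G ⧸ N) L' (g : G ⧸ N) c) = cRepr S G L g (ι c)) ∧
      (∀ c : CS S L, (∀ n : N, cRepr S G L (n : G) c = c) ↔ c ∈ Set.range ι) ∧
      (∀ y : Additive (AS S L')ˣ,
        ι ((principal S L').mkQ (y, 0)) = (principal S L).mkQ (jMap S L' L y, 0))

/-! ## 3. The two inequalities (cyclic layers of degree `p`) -/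

/-- **G-FI (first inequality).**  Let `p` be an odd prime and `G` a group of order `p` acting
faithfully on the number field `L`, `S ≠ ∅`.  Then `H¹(G, C_S(L))` and `H²(G, C_S(L))` are finite
and `|H²(G, C_S(L))| = p · |H¹(G, C_S(L))|`   (Herbrand quotient `h(C_S(L)) = p`).
NO ramification hypothesis. -/
def FirstInequalitySpec : Prop :=
  ∀ (p : ℕ) [Fact p.Prime], p ≠ 2 →
  ∀ (S : Finset Nat.Primes) (G L : Type) [Group G] [Finite G] [Field L] [NumberField L]
    [MulSemiringAction G L] [FaithfulSMul G L],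
    S.Nonempty → Nat.card G = p →
    Finite (groupCohomology (CRep S G L) 1) ∧ Finite (groupCohomology (CRep S G L) 2) ∧
    Nat.card (groupCohomology (CRep S G L) 2) = p * Nat.card (groupCohomology (CRep S G L) 1)

/-- **G-SI (second inequality).**  Let `p` be an odd prime, `p ∈ S`, and `G` a group of order `p`
acting faithfully on `L`, unramified outside `S`, with `μ_p ⊂ L^G`.  Then
`|H²(G, C_S(L))|` divides `p`   (`[C_S(K) : N C_S(L)] ≤ p`, Kummer theory). -/
def SecondInequalitySpec : Prop :=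
  ∀ (p : ℕ) [hp : Fact p.Prime], p ≠ 2 →
  ∀ (S : Finset Nat.Primes) (G L : Type) [Group G] [Finite G] [Field L] [NumberField L]
    [MulSemiringAction G L] [FaithfulSMul G L],
    (⟨p, hp.out⟩ : Nat.Primes) ∈ S → Nat.card G = p → IsUnramOut S G L →
    HasFixedRootOfUnity p G L →
    T.CardDvd (groupCohomology (CRep S G L) 2) p

/-- **G-CYC.**  Consequence of G-FI and G-SI: for a cyclic layer of degree `p`,
`H¹(G, C_S(L)) = 0` and `|H²(G, C_S(L))| = p`. -/
def CyclicLayerSpec : Prop :=
  ∀ (p : ℕ) [hp : Fact p.Prime], p ≠ 2 →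
  ∀ (S : Finset Nat.Primes) (G L : Type) [Group G] [Finite G] [Field L] [NumberField L]
    [MulSemiringAction G L] [FaithfulSMul G L],
    (⟨p, hp.out⟩ : Nat.Primes) ∈ S → Nat.card G = p → IsUnramOut S G L →
    HasFixedRootOfUnity p G L →
    Limits.IsZero (groupCohomology (CRep S G L) 1) ∧
      Nat.card (groupCohomology (CRep S G L) 2) = p

/-! ## 4. The class module property for `p`-groups (OUTPUT of the layer) -/

/-- **G-UP (upper bound).**  Let `p` be an odd prime, `p ∈ S`, `G` a finite `p`-group acting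
faithfully on `L`, unramified outside `S`, with `μ_p ⊂ L^G`.  Then for every subgroup `H ≤ G`:
`H¹(H, C_S(L)) = 0` and `|H²(H, C_S(L))|` divides `|H|`.
(From G-CYC + G-DESC by inflation–restriction and `T.UglySpec`.) -/
def PClassUpperSpec : Prop :=
  ∀ (p : ℕ) [hp : Fact p.Prime], p ≠ 2 →
  ∀ (S : Finset Nat.Primes) (G L : Type) [Group G] [Finite G] [Field L] [NumberField L]
    [MulSemiringAction G L] [FaithfulSMul G L],
    (⟨p, hp.out⟩ : Nat.Primes) ∈ S → IsPGroup p G → IsUnramOut S G L →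
    HasFixedRootOfUnity p G L →
    ∀ H : Subgroup G,
      Limits.IsZero (groupCohomology (T.resSub (CRep S G L) H) 1) ∧
      T.CardDvd (groupCohomology (T.resSub (CRep S G L) H) 2) (Nat.card H)

/-- **G-CM (class module, numerical form).**  Same hypotheses: for every subgroup `H ≤ G`,
`H¹(H, C_S(L)) = 0` and `H²(H, C_S(L)) ≅ ℤ/|H|`.  This is exactly the hypothesis of
`T.ClassModuleOfCyclicSpec`, which turns it into `T.IsClassModule (CRep S G L) γ`.
(Upper bound: G-UP.  Lower bound: invariant maps + reciprocity, interface part 2.) -/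
def PClassModuleSpec : Prop :=
  ∀ (p : ℕ) [hp : Fact p.Prime], p ≠ 2 →
  ∀ (S : Finset Nat.Primes) (G L : Type) [Group G] [Finite G] [Field L] [NumberField L]
    [MulSemiringAction G L] [FaithfulSMul G L],
    (⟨p, hp.out⟩ : Nat.Primes) ∈ S → IsPGroup p G → IsUnramOut S G L →
    HasFixedRootOfUnity p G L →
    ∀ H : Subgroup G,
      Limits.IsZero (groupCohomology (T.resSub (CRep S G L) H) 1) ∧
      Nonempty (groupCohomology (T.resSub (CRep S G L) H) 2 ≃+ ZMod (Nat.card H))

end Fermat.Agent.S55.G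

end
end
-- ===== PACK-END S55/G/Spec.lean

-- ===== PACK-BEGIN S53/Rigid/Exists.lean
section



/-!
# Existence of rigidification data from Schur's lemma
-/

set_option autoImplicit false

namespace Fermat.Agent.S53.Rigid

open IsLocalRing Module

universe u v w

/-- In a finite-dimensional space of dimension `n`, a family of functionals with trivial common
kernel contains `n` functionals admitting a dual basis. -/
theorem exists_dual_coordinates {k : Type v} {Q : Type w} {ι : Type u} [Field k] [AddCommGroup Q]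
    [Module k Q] [FiniteDimensional k Q] {n : ℕ} (hQ : finrank k Q = n)
    (ℓ : ι → Module.Dual k Q) (hℓ : ∀ q, (∀ x, ℓ x q = 0) → q = 0) :
    ∃ (x : Fin n → ι) (e : Fin n → Q), (∀ a b, ℓ (x a) (e b) = if a = b then 1 else 0) ∧
      ∀ q, q = ∑ a, ℓ (x a) q • e a := by
  classical
  have hspan : Submodule.span k (Set.range ℓ) = ⊤ := by
    have h1 : (Submodule.span k (Set.range ℓ)).dualCoannihilator = ⊥ := by
      rw [eq_bot_iff]
      intro q hq
      rw [Submodule.mem_dualCoannihilator] at hq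
      exact hℓ q fun x => hq _ (Submodule.subset_span ⟨x, rfl⟩)
    rw [← Subspace.dualCoannihilator_dualAnnihilator_eq (W := Submodule.span k (Set.range ℓ)), h1,
      Submodule.dualAnnihilator_bot]
  obtain ⟨b, hbS, hbspan, hbli⟩ := exists_linearIndependent k (Set.range ℓ)
  let B : Basis b k (Module.Dual k Q) := Basis.mk hbli (by
    rw [Subtype.range_coe, hbspan, hspan])
  have : Finite b := Module.Finite.finite_basis B
  have hcard : Nat.card b = n := by
    rw [← finrank_eq_nat_card_basis B, Subspace.dual_finrank_eq, hQ]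
  let eqv : b ≃ Fin n := Finite.equivFinOfCardEq hcard
  let B' : Basis (Fin n) k (Module.Dual k Q) := B.reindex eqv
  have hB'mem : ∀ a, ∃ x, ℓ x = B' a := by
    intro a
    have : B' a = ((eqv.symm a : b) : Module.Dual k Q) := by
      simp [B', B]
    rw [this]
    exact hbS (eqv.symm a).2
  choose x hx using hB'mem
  refine ⟨x, fun b => (Module.evalEquiv k Q).symm (B'.dualBasis b), ?_, ?_⟩
  · intro a b
    rw [hx, Module.apply_evalEquiv_symm_apply, Basis.dualBasis_apply_self]
  · intro q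
    rw [← sub_eq_zero, ← Module.forall_dual_apply_eq_zero_iff k]
    intro φ
    have hφ : φ ∈ Submodule.span k (Set.range B') := by
      rw [B'.span_eq]; trivial
    induction hφ using Submodule.span_induction with
    | mem φ hφ =>
      obtain ⟨c, rfl⟩ := hφ
      rw [map_sub, map_sum, sub_eq_zero]
      simp only [map_smul, smul_eq_mul, hx, Module.apply_evalEquiv_symm_apply,
        Basis.dualBasis_apply_self, mul_ite, mul_one, mul_zero, Finset.sum_ite_eq,
        Finset.mem_univ, if_true]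
    | zero => simp
    | add φ ψ _ _ hφ hψ => rw [LinearMap.add_apply, hφ, hψ, add_zero]
    | smul c φ _ hφ => rw [LinearMap.smul_apply, hφ, smul_zero]

section

variable {Γ : Type u} [Monoid Γ]

/-- The linear functional `X ↦ (X * M - M * X) p q`. -/
def commL {k : Type v} [Field k] (M : Matrix (Fin 2) (Fin 2) k) (p q : Fin 2) :
    Matrix (Fin 2) (Fin 2) k →ₗ[k] k :=
  (Matrix.entryLinearMap k k p q) ∘ₗ (LinearMap.mulRight k M - LinearMap.mulLeft k M)

@[simp] theorem commL_apply {k : Type v} [Field k] (M : Matrix (Fin 2) (Fin 2) k) (p q : Fin 2)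
    (X : Matrix (Fin 2) (Fin 2) k) : commL M p q X = (X * M - M * X) p q := rfl

theorem finrank_quot_scalars (k : Type v) [Field k] :
    finrank k (Matrix (Fin 2) (Fin 2) k ⧸
      Submodule.span k {(1 : Matrix (Fin 2) (Fin 2) k)}) = 3 := by
  have h1 := Submodule.finrank_quotient_add_finrank
    (Submodule.span k {(1 : Matrix (Fin 2) (Fin 2) k)})
  rw [finrank_span_singleton (one_ne_zero), Module.finrank_matrix] at h1
  simp only [Fintype.card_fin, Module.finrank_self, mul_one] at h1
  omega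

variable (𝒪 : Type v) [CommRing 𝒪] [IsLocalRing 𝒪]

theorem exists_rigidData (rbar : Γ →* Matrix (Fin 2) (Fin 2) (ResidueField 𝒪))
    (hschur : ∀ X : Matrix (Fin 2) (Fin 2) (ResidueField 𝒪),
      (∀ γ, X * rbar γ = rbar γ * X) → ∃ c : ResidueField 𝒪, X = c • 1) :
    Nonempty (RigidData 𝒪 rbar) := by
  classical
  obtain ⟨W, hW⟩ : ∃ W : Submodule (ResidueField 𝒪) (Matrix (Fin 2) (Fin 2) (ResidueField 𝒪)),
    W = Submodule.span (ResidueField 𝒪) {(1 : Matrix (Fin 2) (Fin 2) (ResidueField 𝒪))} :=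
      ⟨_, rfl⟩
  have hWker : ∀ (x : Γ × Fin 2 × Fin 2), W ≤ LinearMap.ker (commL (rbar x.1) x.2.1 x.2.2) := by
    intro x X hX
    rw [hW, Submodule.mem_span_singleton] at hX
    obtain ⟨c, rfl⟩ := hX
    simp [commL_apply]
  let ℓ : Γ × Fin 2 × Fin 2 → Module.Dual (ResidueField 𝒪)
      (Matrix (Fin 2) (Fin 2) (ResidueField 𝒪) ⧸ W) :=
    fun x => W.liftQ (commL (rbar x.1) x.2.1 x.2.2) (hWker x)
  have hℓmk : ∀ x X, ℓ x (Submodule.Quotient.mk X) = (X * rbar x.1 - rbar x.1 * X) x.2.1 x.2.2 :=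
    fun x X => rfl
  have hℓ : ∀ q, (∀ x, ℓ x q = 0) → q = 0 := by
    intro q hq
    obtain ⟨X, rfl⟩ := Submodule.Quotient.mk_surjective W q
    rw [Submodule.Quotient.mk_eq_zero, hW, Submodule.mem_span_singleton]
    obtain ⟨c, hc⟩ := hschur X (fun γ => by
      ext p q
      have := hq (γ, p, q)
      rw [hℓmk, Matrix.sub_apply, sub_eq_zero] at this
      exact this)
    exact ⟨c, hc.symm⟩
  have hfr : finrank (ResidueField 𝒪) (Matrix (Fin 2) (Fin 2) (ResidueField 𝒪) ⧸ W) = 3 := by
    rw [hW]; exact finrank_quot_scalars _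
  obtain ⟨x, e, hdual, hdec⟩ := exists_dual_coordinates hfr ℓ hℓ
  have hlift : ∀ b, ∃ Eb : Matrix (Fin 2) (Fin 2) 𝒪,
      Submodule.Quotient.mk (p := W) (Eb.map (residue 𝒪)) = e b := by
    intro b
    obtain ⟨Ē, hĒ⟩ := Submodule.Quotient.mk_surjective W (e b)
    refine ⟨Matrix.of fun p q => Function.surjInv (residue_surjective (R := 𝒪)) (Ē p q), ?_⟩
    rw [← hĒ]
    congr 1
    ext p q
    simp [Function.surjInv_eq]
  choose E hE using hlift
  refine ⟨{
    g := fun a => (x a).1
    i := fun a => (x a).2.1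
    j := fun a => (x a).2.2
    E := E
    c := fun a => Function.surjInv (residue_surjective (R := 𝒪)) (rbar (x a).1 (x a).2.1 (x a).2.2)
    hc := fun a => Function.surjInv_eq _ _
    dual := ?_
    decomp := ?_ }⟩
  · intro a b
    rw [← hdual a b, ← hE b]
    rfl
  · intro p q
    have hmem : Tmap (fun a => rbar (x a).1) (fun a => (E a).map (residue 𝒪))
        (fun a => (x a).2.1) (fun a => (x a).2.2) (Matrix.single p q 1) ∈ W := by
      rw [← Submodule.Quotient.mk_eq_zero, Tmap, Submodule.Quotient.mk_sub, sub_eq_zero]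
      conv_lhs => rw [hdec (Submodule.Quotient.mk (Matrix.single p q 1))]
      have hsum : ∀ (f : Fin 3 → Matrix (Fin 2) (Fin 2) (ResidueField 𝒪)),
          Submodule.Quotient.mk (p := W) (∑ a, f a) = ∑ a, Submodule.Quotient.mk (p := W) (f a) :=
        fun f => map_sum W.mkQ f Finset.univ
      rw [hsum]
      refine Finset.sum_congr rfl fun a _ => ?_
      rw [Submodule.Quotient.mk_smul, hE a]
      rfl
    rw [hW, Submodule.mem_span_singleton] at hmem
    obtain ⟨c, hc⟩ := hmem
    rw [← hc]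
    refine ⟨?_, ?_, ?_⟩ <;> simp

end

end Fermat.Agent.S53.Rigid

end
-- ===== PACK-END S53/Rigid/Exists.lean

-- ===== PACK-BEGIN Lib/Newform/H863/Degeneracy.lean
section





/-!
# NEWFORM library, layer 0 (helper863): level inclusion and degeneracy maps

For weight 2 cusp forms on `Γ₀(M)`:

* `levelIncl (h : M ∣ N) : S₂(Γ₀(M)) →ₗ S₂(Γ₀(N))`, same function, same `q`-coefficients;
* `degen d : S₂(Γ₀(M)) →ₗ S₂(Γ₀(M * d))`, `(degen d f) τ = f (d τ)`,
  `qCoeff (degen d f) n = if d ∣ n then qCoeff f (n / d) else 0`.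
-/

set_option autoImplicit false

open UpperHalfPlane ModularForm CongruenceSubgroup Matrix.SpecialLinearGroup ModularFormClass
open scoped MatrixGroups ModularForm Manifold

namespace Fermat.Agent.Lib.Newform.H863

noncomputable section

/-- Restriction of a cusp form to a smaller subgroup. -/
def restrictCF {Γ Γ' : Subgroup (GL (Fin 2) ℝ)} {k : ℤ} (h : Γ ≤ Γ') (f : CuspForm Γ' k) :
    CuspForm Γ k where
  toFun := f
  slash_action_eq' γ hγ := f.slash_action_eq' γ (h hγ)
  holo' := f.holo'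
  zero_at_cusps' hc := f.zero_at_cusps' (hc.mono h)

@[simp] theorem coe_restrictCF {Γ Γ' : Subgroup (GL (Fin 2) ℝ)} {k : ℤ} (h : Γ ≤ Γ')
    (f : CuspForm Γ' k) : ⇑(restrictCF h f) = ⇑f := rfl

theorem Gamma0_le_of_dvd {M N : ℕ} (h : M ∣ N) : Gamma0 N ≤ Gamma0 M := by
  intro g hg
  rw [Gamma0_mem] at hg ⊢
  have h1 : (N : ℤ) ∣ g 1 0 := (ZMod.intCast_zmod_eq_zero_iff_dvd _ _).mp hg
  exact (ZMod.intCast_zmod_eq_zero_iff_dvd _ _).mpr ((Int.natCast_dvd_natCast.mpr h).trans h1)

theorem Gamma0_map_le_of_dvd {M N : ℕ} (h : M ∣ N) :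
    (Gamma0 N : Subgroup (GL (Fin 2) ℝ)) ≤ (Gamma0 M : Subgroup (GL (Fin 2) ℝ)) :=
  Subgroup.map_mono (Gamma0_le_of_dvd h)

/-- Level inclusion `S₂(Γ₀(M)) → S₂(Γ₀(N))` for `M ∣ N`. -/
def levelIncl {M N : ℕ} (h : M ∣ N) :
    CuspForm (Gamma0 M) 2 →ₗ[ℂ] CuspForm (Gamma0 N) 2 where
  toFun f := restrictCF (Gamma0_map_le_of_dvd h) f
  map_add' _ _ := DFunLike.coe_injective rfl
  map_smul' _ _ := DFunLike.coe_injective rfl

@[simp] theorem coe_levelIncl {M N : ℕ} (h : M ∣ N) (f : CuspForm (Gamma0 M) 2) :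
    ⇑(levelIncl h f) = ⇑f := rfl

theorem qCoeff_levelIncl {M N : ℕ} (h : M ∣ N) (f : CuspForm (Gamma0 M) 2) (n : ℕ) :
    qCoeff ⇑(levelIncl h f) n = qCoeff ⇑f n := rfl

theorem levelIncl_injective {M N : ℕ} (h : M ∣ N) : Function.Injective (levelIncl h) := by
  intro f g hfg
  apply DFunLike.coe_injective
  have := congrArg (fun F : CuspForm (Gamma0 N) 2 => (⇑F : ℍ → ℂ)) hfg
  simpa using this

/-! ### The degeneracy map `f(τ) ↦ f(d τ)` -/

theorem degen_det_eq (g : SL(2, ℤ)) : g 0 0 * g 1 1 - g 0 1 * g 1 0 = 1 := by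
  have := g.det_coe
  rw [Matrix.det_fin_two] at this
  exact this

/-- `diag(d,1) g = g' diag(d,1)` with explicit `g'`, when `d ∣ g 1 0`. -/
theorem degen_diag_mul {d : ℕ} (hd : d ≠ 0) (g : SL(2, ℤ)) (e : ℤ) (he : g 1 0 = d * e) :
    ∃ g' : SL(2, ℤ), g' 1 0 = e ∧
      heckeDiagMatrix d * mapGL ℝ g = mapGL ℝ g' * heckeDiagMatrix d := by
  have hdet := degen_det_eq g
  refine ⟨⟨!![g 0 0, d * g 0 1; e, g 1 1], ?_⟩, ?_, ?_⟩
  · rw [Matrix.det_fin_two_of]
    linear_combination hdet + (g 0 1) * he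
  · simp
  · ext i j
    fin_cases i <;> fin_cases j <;>
      simp [hd, Matrix.mul_apply, Fin.sum_univ_two]
    all_goals first
      | (have := congrArg (Int.cast : ℤ → ℝ) he; push_cast at this ⊢; linear_combination this)
      | (have := congrArg (Int.cast : ℤ → ℝ) he; push_cast at this ⊢; linear_combination -this)
      | ring1

open ConjAct Pointwise in
theorem Gamma0_mul_le_conj {M d : ℕ} (hd : d ≠ 0) :
    (Gamma0 (M * d) : Subgroup (GL (Fin 2) ℝ)) ≤
      toConjAct (heckeDiagMatrix d)⁻¹ • (Gamma0 M : Subgroup (GL (Fin 2) ℝ)) := by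
  rintro γ ⟨g, hg, rfl⟩
  rw [Subgroup.mem_pointwise_smul_iff_inv_smul_mem, ← map_inv, inv_inv, ConjAct.smul_def,
    ConjAct.ofConjAct_toConjAct]
  have hg' : ((g 1 0 : ℤ) : ZMod (M * d)) = 0 := by simpa [Gamma0_mem] using hg
  obtain ⟨e', he'⟩ := (ZMod.intCast_zmod_eq_zero_iff_dvd _ _).mp hg'
  have he : g 1 0 = d * (M * e') := by rw [he']; push_cast; ring
  obtain ⟨g', hg'10, hg'⟩ := degen_diag_mul hd g (M * e') he
  rw [hg', mul_inv_cancel_right]
  refine ⟨g', Gamma0_mem.mpr ?_, rfl⟩
  rw [hg'10]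
  push_cast
  simp

/-- The degeneracy map `B_d : S₂(Γ₀(M)) → S₂(Γ₀(M d))`, `f(τ) ↦ f(d τ)`. -/
def degen (d : ℕ) [NeZero d] {M : ℕ} :
    CuspForm (Gamma0 M) 2 →ₗ[ℂ] CuspForm (Gamma0 (M * d)) 2 where
  toFun f := (d : ℂ)⁻¹ • restrictCF (Gamma0_mul_le_conj (NeZero.ne d))
    (CuspForm.translate f (heckeDiagMatrix d))
  map_add' f g := by
    apply DFunLike.coe_injective
    ext τ
    simp only [CuspForm.IsGLPos.coe_smul, coe_restrictCF, CuspForm.coe_add, Pi.smul_apply,
      Pi.add_apply, smul_eq_mul]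
    change _ * ((⇑(f + g)) ∣[(2 : ℤ)] heckeDiagMatrix d) τ = _ * ((⇑f) ∣[(2 : ℤ)] heckeDiagMatrix d) τ
      + _ * ((⇑g) ∣[(2 : ℤ)] heckeDiagMatrix d) τ
    rw [CuspForm.coe_add, SlashAction.add_slash, Pi.add_apply, mul_add]
  map_smul' c f := by
    apply DFunLike.coe_injective
    ext τ
    simp only [CuspForm.IsGLPos.coe_smul, coe_restrictCF, Pi.smul_apply, smul_eq_mul,
      RingHom.id_apply]
    change _ * ((⇑(c • f)) ∣[(2 : ℤ)] heckeDiagMatrix d) τ
      = c * (_ * ((⇑f) ∣[(2 : ℤ)] heckeDiagMatrix d) τ)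
    rw [slash_heckeDiagMatrix_apply 2 (NeZero.ne d), slash_heckeDiagMatrix_apply 2 (NeZero.ne d),
      CuspForm.IsGLPos.coe_smul, Pi.smul_apply, smul_eq_mul]
    ring

theorem degen_apply (d : ℕ) [NeZero d] {M : ℕ} (f : CuspForm (Gamma0 M) 2) (τ : ℍ) :
    degen d f τ = f (heckeDiagMatrix d • τ) := by
  change ((d : ℂ)⁻¹ • restrictCF (Gamma0_mul_le_conj (NeZero.ne d))
    (CuspForm.translate f (heckeDiagMatrix d))) τ = _
  rw [CuspForm.IsGLPos.coe_smul, Pi.smul_apply, smul_eq_mul, coe_restrictCF]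
  change _ * ((⇑f) ∣[(2 : ℤ)] heckeDiagMatrix d) τ = _
  rw [slash_heckeDiagMatrix_apply 2 (NeZero.ne d)]
  have hd : (d : ℂ) ≠ 0 := Nat.cast_ne_zero.mpr (NeZero.ne d)
  norm_num
  field_simp

theorem qParam_diag_smul (d : ℕ) [NeZero d] (τ : ℍ) :
    Function.Periodic.qParam 1 ((heckeDiagMatrix d • τ : ℍ) : ℂ) =
      Function.Periodic.qParam 1 (τ : ℂ) ^ d := by
  rw [coe_heckeDiagMatrix_smul (NeZero.ne d), Function.Periodic.qParam, Function.Periodic.qParam,
    ← Complex.exp_nat_mul]
  congr 1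
  push_cast
  ring

/-- The `q`-expansion of `f(d τ)`. -/
theorem qCoeff_degen (d : ℕ) [NeZero d] {M : ℕ} (f : CuspForm (Gamma0 M) 2) (n : ℕ) :
    qCoeff ⇑(degen d f) n = if d ∣ n then qCoeff ⇑f (n / d) else 0 := by
  set c : ℕ → ℂ := fun n ↦ if d ∣ n then qCoeff ⇑f (n / d) else 0 with hc
  have hd : 0 < d := Nat.pos_of_ne_zero (NeZero.ne d)
  have hinj : Function.Injective (fun m : ℕ ↦ d * m) := fun a b h ↦
    Nat.eq_of_mul_eq_mul_left hd h
  haveI : Fact (IsCusp OnePoint.infty
      (Subgroup.map (Matrix.SpecialLinearGroup.mapGL ℝ) (Gamma0 M))) :=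
    ⟨Subgroup.isCusp_of_mem_strictPeriods one_pos (one_mem_strictPeriods_Gamma0 M)⟩
  have key : ∀ τ : ℍ, HasSum (fun m ↦ c m • Function.Periodic.qParam 1 (τ : ℂ) ^ m)
      (degen d f τ) := by
    intro τ
    have h1 := ModularForm.hasSum_qExpansion (f := f) one_pos (one_mem_strictPeriods_Gamma0 M)
      (heckeDiagMatrix d • τ)
    rw [qParam_diag_smul] at h1
    rw [← degen_apply] at h1
    rw [← hinj.hasSum_iff]
    · have hfun : ((fun m ↦ c m • Function.Periodic.qParam 1 (τ : ℂ) ^ m) ∘ fun m : ℕ ↦ d * m) =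
          fun i ↦ (qExpansion 1 ⇑f).coeff i * (Function.Periodic.qParam 1 (τ : ℂ) ^ d) ^ i := by
        funext m
        simp only [Function.comp_apply, hc, dvd_mul_right, if_true,
          Nat.mul_div_cancel_left m hd, smul_eq_mul, qCoeff]
        rw [pow_mul]
      rw [hfun]
      exact h1
    · intro x hx
      have : ¬ d ∣ x := fun ⟨m, hm⟩ ↦ hx ⟨m, hm.symm⟩
      simp [hc, this]
  exact (ModularFormClass.qExpansion_coeff_unique one_pos
    (one_mem_strictPeriods_Gamma0 (M * d)) key n).symm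

theorem degen_injective (d : ℕ) [NeZero d] {M : ℕ} :
    Function.Injective (degen d : CuspForm (Gamma0 M) 2 → CuspForm (Gamma0 (M * d)) 2) := by
  intro f g hfg
  have h0 : f - g = 0 := by
    apply Fermat.Agent.S49.glue_eq_zero_of_qCoeff
    intro n
    have h1 := congrArg (fun F : CuspForm (Gamma0 (M * d)) 2 => qCoeff ⇑F (d * n)) hfg
    simp only [qCoeff_degen, dvd_mul_right, if_true,
      Nat.mul_div_cancel_left n (Nat.pos_of_ne_zero (NeZero.ne d))] at h1
    rw [Fermat.Agent.S49.glue_qCoeff_sub, h1, sub_self]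
  exact sub_eq_zero.mp h0

end

end Fermat.Agent.Lib.Newform.H863

end
-- ===== PACK-END Lib/Newform/H863/Degeneracy.lean

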