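import Mathlib
import Fermat.Prelude.Def_FLTPrelim_Ramification
import Fermat.Prelude.Def_CuspForm_HeckeGaloisRepDatum
import Fermat.Prelude.Def_GaloisRep_DeformationRingData
import Fermat.Prelude.Def_GaloisRep_DeformationCondition
import Fermat.Prelude.Def_GaloisRep_LocalConditions
import Fermat.Prelude.Def_GaloisRep_StrictOrdinary
import Fermat.Prelude.Def_GaloisRep_Flat
import Fermat.Prelude.Def_Algebra_PatchingDatum
import Fermat.Prelude.Def_FLTPrelim_ModularRep
import Fermat.Agent.Pack.S43GC.G0E1L1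
import Fermat.Agent.Pack.S43GC.G0E1L2
import Fermat.Agent.Pack.S43GC.G0E1L0
import Fermat.Agent.Pack.S43GC.G0E0L1
import Fermat.Agent.Pack.S43GC.G0E1L3
import Fermat.Agent.Pack.S43GC.G0E2L0
import Fermat.Agent.Pack.S44C.G0E0L3
import Fermat.Agent.Pack.S43GC.G0E3L2
import Fermat.Agent.Pack.Fast891

-- ===== PACK-BEGIN S14/H34/Interface.lean
section


/-!
# S14, block DENSITY (helper34): the four interface statements

`ZetaBounds`, `GoodMass`, `CharBound`, `KummerBound` are the four pieces from which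
`Fermat.Agent.S14.H34.exists_prime_of_density_of` (file `Density.lean`) is assembled.
-/

set_option autoImplicit false

namespace Fermat.Agent.S14.H34

open NumberField Ideal nonZeroDivisors IsDedekindDomain

noncomputable section

variable (K : Type*) [Field K] [NumberField K]

/-- (Z) the pole of the zeta function: two-sided bound near `1`. -/
def ZetaBounds : Prop :=
  ∃ c C δ : ℝ, 0 < c ∧ 0 < δ ∧ ∀ s : ℝ, 1 < s → s < 1 + δ →
    c / (s - 1) ≤ zetaI K s ∧ zetaI K s ≤ C / (s - 1)

/-- (A) the primes of degree one outside a finite set carry the mass of the zeta function. -/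
def GoodMass : Prop :=
  ∀ Bad : Finset (HeightOneSpectrum (𝓞 K)),
    ∃ C : ℝ, 0 < C ∧ ∀ s : ℝ, 1 < s → s ≤ 2 → ∃ T : Finset (HeightOneSpectrum (𝓞 K)),
      (∀ v ∈ T, (absNorm v.asIdeal).Prime ∧ v ∉ Bad) ∧
        zetaI K s ≤ C * ∏ v ∈ T, (1 + pN s v)

/-- (C) primes in the kernel of a character of order `p` have density at most `1/p`. -/
def CharBound : Prop :=
  ∀ (p : ℕ), p.Prime → ∀ χ : ClassGroup (𝓞 K) →* ℂˣ, χ ^ p = 1 →
    (∀ k : ℕ, 0 < k → k < p → LBounded K (χ ^ k)) →
    ∃ C : ℝ, 0 < C ∧ ∀ s : ℝ, 1 < s → s ≤ 2 → ∀ T : Finset (HeightOneSpectrum (𝓞 K)),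
      (∀ v ∈ T, χ (ClassGroup.mk0 (primeNZ v)) = 1) →
        (∏ v ∈ T, (1 + pN s v)) ^ p ≤ C * zetaI K s

/-- (N3) primes modulo which `η` is a `p`-th power have density at most `1/p`. -/
def KummerBound : Prop :=
  ∀ (p : ℕ), p.Prime → ∀ ζ : K, IsPrimitiveRoot ζ p →
    ∀ η : 𝓞 K, (∀ y : K, y ^ p ≠ (η : K)) →
    ∃ C δ : ℝ, 0 < C ∧ 0 < δ ∧ ∀ s : ℝ, 1 < s → s < 1 + δ →
      ∀ T : Finset (HeightOneSpectrum (𝓞 K)),
        (∀ v ∈ T, (p : 𝓞 K) ∉ v.asIdeal ∧ η ∉ v.asIdeal ∧ ∃ y : 𝓞 K, y ^ p - η ∈ v.asIdeal) →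
          (∏ v ∈ T, (1 + pN s v)) ^ p ≤ C / (s - 1)

end

end Fermat.Agent.S14.H34

end
-- ===== PACK-END S14/H34/Interface.lean

-- ===== PACK-BEGIN S55/G/Rec/H473CupChar.lean
section



/-!
# S55 / layer G / block REC, leaves A1–A3: the cocycle `cupChar a χ`

`G` a group, `n ≠ 0`, `χ : G →* Multiplicative (ZMod n)` a character, `A : Rep k G`,
`a ∈ A^G`.  The function `(g, h) ↦ ε_χ(g,h) • a` (`ε_χ = carry χ ∈ {0,1}`) is a 2-cocycle
(`cupChar`), whose class `cc A χ a ∈ H²(G, A)` is

* `k`-linear in `a` (`cc A χ` is a linear map `A^G →ₗ[k] H²(G,A)`),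
* additive in `χ` (`cc_mul`, `cc_one`, packaged as `ccHom`), killed by `n`,
* functorial in `(G, A)` (`map_cc`; special cases: restriction `map_cc_subtype`,
  coefficient maps `map_cc_id`).

Everything is generic in the coefficient ring `k` (consumers use `k = ℤ`).
-/

set_option autoImplicit false

open CategoryTheory groupCohomology

namespace Fermat.Agent.S55.G.Rec

variable {k G : Type} [CommRing k] [Group G] {n : ℕ} [NeZero n]

section Cocycle

variable (A : Rep.{0} k G) (χ χ' : G →* Multiplicative (ZMod n))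

/-- The function `(g, h) ↦ ε_χ(g, h) • a`. -/
def cupCharFun (a : A.V) : G × G → A.V :=
  fun p => carry χ p.1 p.2 • a

omit [NeZero n] in
@[simp] theorem cupCharFun_apply (a : A.V) (g h : G) :
    cupCharFun A χ a (g, h) = carry χ g h • a := rfl

theorem cupCharFun_mem_cocycles₂ {a : A.V} (ha : a ∈ A.ρ.invariants) :
    cupCharFun A χ a ∈ cocycles₂ A := by
  rw [mem_cocycles₂_iff]
  intro g h j
  simp only [cupCharFun_apply, map_nsmul, ha g, ← add_nsmul]
  rw [carry_cocycle]

/-- **A1.** The 2-cocycle `cupChar a χ`, as a `k`-linear map in `a ∈ A^G`. -/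
def cupChar : A.ρ.invariants →ₗ[k] cocycles₂ A where
  toFun a := ⟨cupCharFun A χ a, cupCharFun_mem_cocycles₂ A χ a.2⟩
  map_add' a b := by
    apply cocycles₂_ext
    intro g h
    change carry χ g h • ((a : A.V) + b) = carry χ g h • (a : A.V) + carry χ g h • (b : A.V)
    exact nsmul_add _ _ _
  map_smul' c a := by
    apply cocycles₂_ext
    intro g h
    change carry χ g h • (c • (a : A.V)) = c • (carry χ g h • (a : A.V))
    exact (smul_comm c (carry χ g h) (a : A.V)).symm

@[simp] theorem cupChar_apply (a : A.ρ.invariants) (g h : G) :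
    cupChar A χ a (g, h) = carry χ g h • (a : A.V) := rfl

/-- The class `cc a χ ∈ H²(G, A)` of `cupChar a χ`, as a `k`-linear map in `a ∈ A^G`. -/
noncomputable def cc : A.ρ.invariants →ₗ[k] H2 A :=
  (H2π A).hom ∘ₗ cupChar A χ

theorem cc_apply (a : A.ρ.invariants) : cc A χ a = H2π A (cupChar A χ a) := rfl

/-- `cupChar a 1 = 0`. -/
theorem cupChar_one (a : A.ρ.invariants) :
    cupChar A (1 : G →* Multiplicative (ZMod n)) a = 0 := by
  apply cocycles₂_ext
  intro g h
  rw [cupChar_apply, carry_one_char, zero_smul]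
  rfl

theorem cc_one (a : A.ρ.invariants) : cc A (1 : G →* Multiplicative (ZMod n)) a = 0 := by
  rw [cc_apply, cupChar_one, map_zero]

/-- **A2** (cochain level): `cupChar a χ + cupChar a χ' - cupChar a (χχ') = d (g ↦ η(g) • a)`. -/
theorem cupChar_mul_eq (a : A.ρ.invariants) :
    (cupChar A χ a : G × G → A.V) + cupChar A χ' a - cupChar A (χ * χ') a =
      (d₁₂ A).hom (fun g => carryChar χ χ' g • (a : A.V)) := by
  funext ⟨g, h⟩
  have ha : ∀ g : G, A.ρ g (a : A.V) = a := a.2
  have key := carry_mul χ χ' g h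
  have key' : carry χ g h • (a : A.V) + carry χ' g h • (a : A.V) +
      carryChar χ χ' (g * h) • (a : A.V) =
      carry (χ * χ') g h • (a : A.V) + carryChar χ χ' g • (a : A.V) +
        carryChar χ χ' h • (a : A.V) := by
    rw [← add_nsmul, ← add_nsmul, ← add_nsmul, ← add_nsmul, key]
  simp only [Pi.add_apply, Pi.sub_apply, cupChar_apply, d₁₂_hom_apply, map_nsmul, ha]
  rw [eq_sub_of_add_eq key']
  abel

/-- **A2.** `cc a (χ χ') = cc a χ + cc a χ'`. -/
theorem cc_mul (a : A.ρ.invariants) : cc A (χ * χ') a = cc A χ a + cc A χ' a := by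
  rw [cc_apply, cc_apply, cc_apply, ← map_add, eq_comm, H2π_eq_iff]
  change (cupChar A χ a : G × G → A.V) + cupChar A χ' a - cupChar A (χ * χ') a ∈ coboundaries₂ A
  rw [cupChar_mul_eq]
  exact LinearMap.mem_range_self _ _

variable (n) in
/-- `cc a · ` as a homomorphism from the character group. -/
noncomputable def ccHom (a : A.ρ.invariants) :
    Additive (G →* Multiplicative (ZMod n)) →+ H2 A where
  toFun χ := cc A (Additive.toMul χ) a
  map_zero' := cc_one A a
  map_add' χ χ' := cc_mul A (Additive.toMul χ) (Additive.toMul χ') a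

@[simp] theorem ccHom_apply (a : A.ρ.invariants) (χ : G →* Multiplicative (ZMod n)) :
    ccHom n A a (Additive.ofMul χ) = cc A χ a := rfl

theorem cc_pow (a : A.ρ.invariants) (m : ℕ) : cc A (χ ^ m) a = m • cc A χ a := by
  exact map_nsmul (ccHom n A a) m (Additive.ofMul χ)

theorem cc_inv (a : A.ρ.invariants) : cc A χ⁻¹ a = - cc A χ a := by
  exact map_neg (ccHom n A a) (Additive.ofMul χ)

/-- `n` kills `cc a χ`. -/
theorem nsmul_cc (a : A.ρ.invariants) : n • cc A χ a = 0 := by
  rw [← cc_pow]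
  have : χ ^ n = 1 := by
    ext g
    rw [MonoidHom.pow_apply, MonoidHom.one_apply]
    apply Multiplicative.toAdd.injective
    rw [toAdd_pow, toAdd_one]
    simp
  rw [this, cc_one]

end Cocycle

section Functoriality

variable {G' : Type} [Group G'] (A : Rep.{0} k G) (B : Rep.{0} k G')
  (f : G' →* G) (φ : Rep.res f A ⟶ B) (χ : G →* Multiplicative (ZMod n))

/-- The image of an invariant under an equivariant map is invariant. -/
theorem map_mem_invariants {a : A.V} (ha : a ∈ A.ρ.invariants) :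
    φ.hom a ∈ B.ρ.invariants := by
  intro g'
  have := Rep.hom_comm_apply φ g' a
  rw [← this]
  congr 1
  exact ha (f g')

/-- The map `A^G → B^{G'}` induced by `(f, φ)`. -/
def mapInvariants : A.ρ.invariants →ₗ[k] B.ρ.invariants where
  toFun a := ⟨φ.hom (a : A.V), map_mem_invariants A B f φ a.2⟩
  map_add' a b := Subtype.ext (map_add φ.hom (a : A.V) b)
  map_smul' c a := Subtype.ext (map_smul φ.hom c (a : A.V))

@[simp] theorem coe_mapInvariants (a : A.ρ.invariants) :
    (mapInvariants A B f φ a : B.V) = φ.hom (a : A.V) := rfl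

/-- **A3** (cocycle level). -/
theorem mapCocycles₂_cupChar (a : A.ρ.invariants) :
    mapCocycles₂ f φ (cupChar A χ a) = cupChar B (χ.comp f) (mapInvariants A B f φ a) := by
  apply cocycles₂_ext
  intro g h
  rw [coe_mapCocycles₂]
  change φ.hom (carry χ (f g) (f h) • (a : A.V)) = carry (χ.comp f) g h • φ.hom (a : A.V)
  rw [map_nsmul, carry_comp]

/-- **A3.** Functoriality of `cc`: `(f, φ)_* (cc a χ) = cc (φ a) (χ ∘ f)`. -/
theorem map_cc (a : A.ρ.invariants) :
    (groupCohomology.map f φ 2).hom (cc A χ a) =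
      cc B (χ.comp f) (mapInvariants A B f φ a) := by
  rw [cc_apply, cc_apply, ← mapCocycles₂_cupChar]
  exact congr($(H2π_comp_map f φ) (cupChar A χ a))

/-- **A3**, coefficient maps: `f_* (cc a χ) = cc (f a) χ` for `f : A ⟶ B`. -/
theorem map_cc_id {A B : Rep.{0} k G} (f : A ⟶ B) (χ : G →* Multiplicative (ZMod n))
    (a : A.ρ.invariants) :
    (groupCohomology.map (MonoidHom.id G) f 2).hom (cc A χ a) =
      cc B χ (mapInvariants A B (MonoidHom.id G) f a) :=
  map_cc A B (MonoidHom.id G) f χ a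

/-- **A3**, restriction to a subgroup: `res_H (cc a χ) = cc a (χ|_H)`. -/
theorem map_cc_subtype (H : Subgroup G) (a : A.ρ.invariants) :
    (groupCohomology.map H.subtype (𝟙 (Rep.res H.subtype A)) 2).hom (cc A χ a) =
      cc (Rep.res H.subtype A) (χ.comp H.subtype)
        (mapInvariants A (Rep.res H.subtype A) H.subtype (𝟙 _) a) :=
  map_cc A (Rep.res H.subtype A) H.subtype (𝟙 _) χ a

/-- **A3**, inflation from a quotient: `inf (cc ā χ̄) = cc a (χ̄ ∘ π)`. -/
theorem map_cc_quotient (S : Subgroup G) [S.Normal] (χbar : G ⧸ S →* Multiplicative (ZMod n))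
    (a : (A.quotientToInvariants S).ρ.invariants) :
    (groupCohomology.map (QuotientGroup.mk' S)
        (Rep.ofHom <| A.ρ.quotientToInvariants_lift S) 2).hom
        (cc (A.quotientToInvariants S) χbar a) =
      cc A (χbar.comp (QuotientGroup.mk' S))
        (mapInvariants (A.quotientToInvariants S) A (QuotientGroup.mk' S)
          (Rep.ofHom <| A.ρ.quotientToInvariants_lift S) a) :=
  map_cc (A.quotientToInvariants S) A (QuotientGroup.mk' S) _ χbar a

end Functoriality

section Multiplicative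

variable {M : Type} [CommGroup M] [MulDistribMulAction G M]

/-- A `G`-fixed element of a multiplicative `G`-module, as an invariant of
`Rep.ofMulDistribMulAction G M`. -/
def invariantOfFixed (a : M) (ha : ∀ g : G, g • a = a) :
    (Rep.ofMulDistribMulAction G M).ρ.invariants :=
  ⟨Additive.ofMul a, fun g => congrArg Additive.ofMul (ha g)⟩

/-- In multiplicative notation `cupChar a χ (g, h) = a ^ ε_χ(g, h)`. -/
theorem cupChar_invariantOfFixed (χ : G →* Multiplicative (ZMod n)) (a : M)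
    (ha : ∀ g : G, g • a = a) (g h : G) :
    cupChar (Rep.ofMulDistribMulAction G M) χ (invariantOfFixed a ha) (g, h) =
      Additive.ofMul (a ^ carry χ g h) := rfl

end Multiplicative

end Fermat.Agent.S55.G.Rec

end
-- ===== PACK-END S55/G/Rec/H473CupChar.lean

-- ===== PACK-BEGIN S55/H413/WRGlobal.lean
section


/-!
# S55, leaf WR (weak reciprocity), part 2: the elementary product formula

For a prime `p` and `m : ℕ` we define explicit local characters with values in `(ZMod (p ^ m))ˣ`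
(the Galois group of `ℚ(ζ_{p^m})/ℚ`):
* `tameChar p m ℓ : ℚ_[ℓ]ˣ →* (ZMod (p ^ m))ˣ`, `x ↦ ℓ ^ v_ℓ(x)` for `ℓ ≠ p`,
* `wildChar p m : ℚ_[p]ˣ →* (ZMod (p ^ m))ˣ`, `x ↦ (unit part of x mod p ^ m)⁻¹`,
* `signChar p m : ℚˣ →* (ZMod (p ^ m))ˣ`, the sign,
and prove the product formula `signChar b * wildChar b * ∏ᶠ ℓ ≠ p, tameChar ℓ b = 1` for `b : ℚˣ`.
-/

set_option autoImplicit false

namespace Fermat.Agent.S55.H413

open Padic

/-- Two homomorphisms on `ℚˣ` which agree on `-1` and on all primes are equal. -/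
theorem ratUnits_hom_ext {G : Type*} [CommGroup G] (f g : ℚˣ →* G)
    (hneg : f (-1) = g (-1))
    (hprime : ∀ q : ℕ, q.Prime → ∀ u : ℚˣ, (u : ℚ) = q → f u = g u) : f = g := by
  have hnat : ∀ n : ℕ, n ≠ 0 → ∀ u : ℚˣ, (u : ℚ) = n → f u = g u := by
    intro n
    induction n using Nat.recOnMul with
    | zero => intro h; exact absurd rfl h
    | one =>
      intro _ u hu
      have : u = 1 := Units.ext (by simpa using hu)
      rw [this, map_one, map_one]
    | prime q hq => intro _ u hu; exact hprime q hq u hu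
    | mul a b iha ihb =>
      intro hab u hu
      have ha : a ≠ 0 := fun h => hab (by simp [h])
      have hb : b ≠ 0 := fun h => hab (by simp [h])
      have hu' : u = Units.mk0 (a : ℚ) (by exact_mod_cast ha) *
          Units.mk0 (b : ℚ) (by exact_mod_cast hb) := by
        apply Units.ext
        simp [hu]
      rw [hu', map_mul, map_mul, iha ha _ rfl, ihb hb _ rfl]
  have hint : ∀ z : ℤ, z ≠ 0 → ∀ u : ℚˣ, (u : ℚ) = z → f u = g u := by
    intro z hz u hu
    have hn : z.natAbs ≠ 0 := Int.natAbs_ne_zero.mpr hz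
    rcases Int.natAbs_eq z with h | h
    · apply hnat z.natAbs hn u
      rw [hu]
      conv_lhs => rw [h]
      simp
    · have hu' : u = -1 * Units.mk0 (z.natAbs : ℚ) (by exact_mod_cast hn) := by
        apply Units.ext
        rw [hu]
        conv_lhs => rw [h]
        simp
      rw [hu', map_mul, map_mul, hneg, hnat z.natAbs hn _ rfl]
  ext b
  have hnum : (b : ℚ).num ≠ 0 := Rat.num_ne_zero.mpr b.ne_zero
  have hden : ((b : ℚ).den : ℤ) ≠ 0 := by exact_mod_cast (b : ℚ).den_nz
  have hb : b = Units.mk0 ((b : ℚ).num : ℚ) (by exact_mod_cast hnum) *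
      (Units.mk0 (((b : ℚ).den : ℤ) : ℚ) (by exact_mod_cast hden))⁻¹ := by
    apply Units.ext
    simp only [Units.val_mul, Units.val_mk0, Units.val_inv_eq_inv_val, Int.cast_natCast]
    rw [← div_eq_mul_inv, Rat.num_div_den]
  rw [hb, map_mul, map_mul, map_inv, map_inv, hint _ hnum _ rfl, hint _ hden _ rfl]

variable (p : ℕ) [hp : Fact p.Prime] (m : ℕ)

/-- A prime `ℓ ≠ p` as a unit of `ZMod (p ^ m)`. -/
noncomputable def primeUnit (ℓ : ℕ) [hℓ : Fact ℓ.Prime] (h : ℓ ≠ p) : (ZMod (p ^ m))ˣ :=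
  ZMod.unitOfCoprime ℓ (Nat.Coprime.pow_right m ((Nat.coprime_primes hℓ.out hp.out).mpr h))

@[simp] lemma coe_primeUnit (ℓ : ℕ) [hℓ : Fact ℓ.Prime] (h : ℓ ≠ p) :
    ((primeUnit p m ℓ h : (ZMod (p ^ m))ˣ) : ZMod (p ^ m)) = (ℓ : ZMod (p ^ m)) := rfl

/-- The explicit (tame) local character at `ℓ ≠ p`: `x ↦ ℓ ^ v_ℓ(x)`. -/
noncomputable def tameChar (ℓ : ℕ) [hℓ : Fact ℓ.Prime] (h : ℓ ≠ p) : ℚ_[ℓ]ˣ →* (ZMod (p ^ m))ˣ :=
  (zpowersHom (ZMod (p ^ m))ˣ (primeUnit p m ℓ h)).comp (valHom ℓ)

lemma tameChar_apply (ℓ : ℕ) [hℓ : Fact ℓ.Prime] (h : ℓ ≠ p) (x : ℚ_[ℓ]ˣ) :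
    tameChar p m ℓ h x = primeUnit p m ℓ h ^ (x : ℚ_[ℓ]).valuation := rfl

/-- The explicit (wild) local character at `p`: `x ↦ (unit part of x mod p ^ m)⁻¹`. -/
noncomputable def wildChar : ℚ_[p]ˣ →* (ZMod (p ^ m))ˣ :=
  (unitResidue p m).comp (MonoidHom.id _) |>.comp (invMonoidHom (α := ℚ_[p]ˣ))

lemma wildChar_apply (x : ℚ_[p]ˣ) : wildChar p m x = (unitResidue p m x)⁻¹ := by
  simp [wildChar]

/-- The sign of a nonzero rational, with values in `(ZMod (p ^ m))ˣ`. -/
noncomputable def signChar : ℚˣ →* (ZMod (p ^ m))ˣ where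
  toFun b := if 0 < (b : ℚ) then 1 else -1
  map_one' := by simp
  map_mul' a b := by
    rcases lt_or_gt_of_ne a.ne_zero with ha | ha <;> rcases lt_or_gt_of_ne b.ne_zero with hb | hb
    · simp [mul_pos_of_neg_of_neg ha hb, not_lt.mpr ha.le, not_lt.mpr hb.le]
    · simp [not_lt.mpr (mul_neg_of_neg_of_pos ha hb).le, not_lt.mpr ha.le, hb]
    · simp [not_lt.mpr (mul_neg_of_pos_of_neg ha hb).le, not_lt.mpr hb.le, ha]
    · simp [mul_pos ha hb, ha, hb]

omit hp in
lemma signChar_of_pos (b : ℚˣ) (hb : 0 < (b : ℚ)) : signChar p m b = 1 := by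
  simp [signChar, hb]

omit hp in
lemma signChar_neg_one : signChar p m (-1) = -1 := by
  simp [signChar]

/-- The image of a nonzero rational in `ℚ_[ℓ]ˣ`. -/
noncomputable def toPadicUnits (ℓ : ℕ) [Fact ℓ.Prime] : ℚˣ →* ℚ_[ℓ]ˣ :=
  Units.map (Rat.castHom ℚ_[ℓ]).toMonoidHom

@[simp] lemma coe_toPadicUnits (ℓ : ℕ) [Fact ℓ.Prime] (b : ℚˣ) :
    ((toPadicUnits ℓ b : ℚ_[ℓ]ˣ) : ℚ_[ℓ]) = ((b : ℚ) : ℚ_[ℓ]) := rfl

/-- The tame character at the prime `q` evaluated on a global element (and `1` if `q = p`). -/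
noncomputable def tameGlobal (q : Nat.Primes) (b : ℚˣ) : (ZMod (p ^ m))ˣ :=
  haveI : Fact (q : ℕ).Prime := ⟨q.2⟩
  if h : (q : ℕ) = p then 1 else tameChar p m (q : ℕ) h (toPadicUnits (q : ℕ) b)

lemma tameGlobal_of_ne (q : Nat.Primes) (h : (q : ℕ) ≠ p) (b : ℚˣ) :
    tameGlobal p m q b =
      (haveI : Fact (q : ℕ).Prime := ⟨q.2⟩; primeUnit p m (q : ℕ) h) ^ padicValRat (q : ℕ) (b : ℚ) := by
  have : Fact (q : ℕ).Prime := ⟨q.2⟩
  rw [tameGlobal, dif_neg h, tameChar_apply, coe_toPadicUnits, Padic.valuation_ratCast]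

lemma tameGlobal_of_eq (q : Nat.Primes) (h : (q : ℕ) = p) (b : ℚˣ) :
    tameGlobal p m q b = 1 := by
  rw [tameGlobal, dif_pos h]

lemma tameGlobal_mul (q : Nat.Primes) (a b : ℚˣ) :
    tameGlobal p m q (a * b) = tameGlobal p m q a * tameGlobal p m q b := by
  have : Fact (q : ℕ).Prime := ⟨q.2⟩
  by_cases h : (q : ℕ) = p
  · simp [tameGlobal, h]
  · simp [tameGlobal, h, map_mul]

lemma tameGlobal_one (q : Nat.Primes) : tameGlobal p m q 1 = 1 := by
  have : Fact (q : ℕ).Prime := ⟨q.2⟩
  by_cases h : (q : ℕ) = p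
  · simp [tameGlobal, h]
  · simp [tameGlobal, h, map_one]

/-- `tameGlobal q b = 1` unless `q` divides the numerator or the denominator of `b`. -/
lemma tameGlobal_eq_one_of_not_dvd (q : Nat.Primes) (b : ℚˣ)
    (h : ¬ (q : ℕ) ∣ (b : ℚ).num.natAbs * (b : ℚ).den) : tameGlobal p m q b = 1 := by
  have : Fact (q : ℕ).Prime := ⟨q.2⟩
  by_cases hq : (q : ℕ) = p
  · exact tameGlobal_of_eq p m q hq b
  · rw [tameGlobal_of_ne p m q hq]
    have h1 : ¬ (q : ℕ) ∣ (b : ℚ).num.natAbs := fun hh => h (hh.mul_right _)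
    have h2 : ¬ (q : ℕ) ∣ (b : ℚ).den := fun hh => h (hh.mul_left _)
    have : padicValRat (q : ℕ) (b : ℚ) = 0 := by
      rw [padicValRat, padicValInt, padicValNat.eq_zero_of_not_dvd h1,
        padicValNat.eq_zero_of_not_dvd h2]
      simp
    rw [this, zpow_zero]

lemma finite_mulSupport_tameGlobal (b : ℚˣ) :
    (Function.mulSupport fun q : Nat.Primes => tameGlobal p m q b).Finite := by
  have hfin : {n : ℕ | n ∣ (b : ℚ).num.natAbs * (b : ℚ).den}.Finite := by
    apply Set.Finite.subset (Set.finite_Iic ((b : ℚ).num.natAbs * (b : ℚ).den))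
    intro n hn
    apply Nat.le_of_dvd _ hn
    exact Nat.mul_pos (Int.natAbs_pos.mpr (Rat.num_ne_zero.mpr b.ne_zero)) (b : ℚ).den_pos
  apply Set.Finite.subset (hfin.preimage (Nat.Primes.coe_nat_injective.injOn))
  intro q hq
  by_contra hh
  exact hq (tameGlobal_eq_one_of_not_dvd p m q b hh)

/-- The product of all tame characters, as a homomorphism on `ℚˣ`. -/
noncomputable def tameProd : ℚˣ →* (ZMod (p ^ m))ˣ where
  toFun b := ∏ᶠ q : Nat.Primes, tameGlobal p m q b
  map_one' := by simp [tameGlobal_one]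
  map_mul' a b := by
    simp only [tameGlobal_mul]
    exact finprod_mul_distrib (finite_mulSupport_tameGlobal p m a)
      (finite_mulSupport_tameGlobal p m b)

lemma tameProd_apply (b : ℚˣ) : tameProd p m b = ∏ᶠ q : Nat.Primes, tameGlobal p m q b := rfl

/-- **Elementary product formula** for the explicit local characters of `ℚ(ζ_{p^m})/ℚ`. -/
theorem signChar_mul_wildChar_mul_tameProd (b : ℚˣ) :
    signChar p m b * wildChar p m (toPadicUnits p b) * tameProd p m b = 1 := by
  have key : (signChar p m * (wildChar p m).comp (toPadicUnits p) * tameProd p m) = 1 := by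
    apply ratUnits_hom_ext
    · -- `-1`
      simp only [MonoidHom.mul_apply, MonoidHom.comp_apply, MonoidHom.one_apply, signChar_neg_one,
        wildChar_apply, tameProd_apply]
      have h1 : unitResidue p m (toPadicUnits p (-1)) = -1 := by
        apply Units.ext
        rw [unitResidue_intCast p m (-1) _ _ (by simp)]
        · simp
        · intro h
          have := Int.natAbs_dvd_natAbs.mpr h
          simp only [Int.natAbs_natCast, Int.natAbs_neg, Int.natAbs_one, Nat.dvd_one] at this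
          exact hp.out.ne_one this
      have h2 : ∀ q : Nat.Primes, tameGlobal p m q (-1) = 1 := by
        intro q
        apply tameGlobal_eq_one_of_not_dvd
        have e1 : ((-1 : ℚˣ) : ℚ).num.natAbs = 1 := by
          rw [Units.val_neg, Units.val_one]; rfl
        have e2 : ((-1 : ℚˣ) : ℚ).den = 1 := by
          rw [Units.val_neg, Units.val_one]; rfl
        rw [e1, e2, mul_one, Nat.dvd_one]
        exact q.2.ne_one
      simp [h1, h2]
    · intro q hq u hu
      simp only [MonoidHom.mul_apply, MonoidHom.comp_apply, MonoidHom.one_apply, wildChar_apply,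
        tameProd_apply]
      have hupos : 0 < (u : ℚ) := by rw [hu]; exact_mod_cast hq.pos
      rw [signChar_of_pos p m u hupos, one_mul]
      have hsingle : ∀ q' : Nat.Primes, (q' : ℕ) ≠ q → tameGlobal p m q' u = 1 := by
        intro q' hq'
        apply tameGlobal_eq_one_of_not_dvd
        rw [hu]
        simp only [Rat.num_natCast, Int.natAbs_natCast, Rat.den_natCast, mul_one]
        intro hdvd
        exact hq' ((Nat.prime_dvd_prime_iff_eq q'.2 hq).mp hdvd)
      by_cases hqp : q = p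
      · -- `q = p`: unit part is `1`, all tame characters are trivial
        have h1 : unitResidue p m (toPadicUnits p u) = 1 := by
          rw [unitResidue, MonoidHom.comp_apply, unitPart_self p _ (by simp [hu, hqp]), map_one]
        have h2 : ∀ q' : Nat.Primes, tameGlobal p m q' u = 1 := by
          intro q'
          by_cases h : (q' : ℕ) = p
          · exact tameGlobal_of_eq p m q' h u
          · exact hsingle q' (by rw [hqp]; exact h)
        simp [h1, h2]
      · -- `q ≠ p`
        have : Fact q.Prime := ⟨hq⟩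
        have h1 : unitResidue p m (toPadicUnits p u) = primeUnit p m q hqp := by
          apply Units.ext
          rw [unitResidue_intCast p m (q : ℤ) _ _ (by simp [hu])]
          · simp
          · intro h
            have h' : p ∣ q := by exact_mod_cast h
            exact hqp ((Nat.prime_dvd_prime_iff_eq hp.out hq).mp h').symm
        have h2 : (∏ᶠ q' : Nat.Primes, tameGlobal p m q' u) = primeUnit p m q hqp := by
          rw [finprod_eq_single (fun q' : Nat.Primes => tameGlobal p m q' u) (⟨q, hq⟩ : Nat.Primes)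
            (fun q' hq' => hsingle q' (fun h => hq' (Subtype.ext h)))]
          rw [tameGlobal_of_ne p m ⟨q, hq⟩ hqp, hu]
          have : padicValRat q (q : ℚ) = 1 := by
            have := padicValRat.self (p := q) hq.one_lt
            simpa using this
          simp [this]
        rw [h1, h2, inv_mul_cancel]
  have := congrArg (fun f : ℚˣ →* (ZMod (p ^ m))ˣ => f b) key
  simpa using this

end Fermat.Agent.S55.H413

end
-- ===== PACK-END S55/H413/WRGlobal.lean

-- ===== PACK-BEGIN S14/H714/Val.lean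
section


/-!
# S14, block LOCAL (helper714): valuation subrings of `ℚ̄` and primes of `ℤ̄`

Dictionary between a valuation subring `A` of `ℚ̄` lying over a prime `ℓ` and the prime
`primeOf A = 𝔪_A ∩ ℤ̄` of the ring `ℤ̄` of all algebraic integers: `A` is the localisation of
`ℤ̄` at `primeOf A`.
-/

set_option autoImplicit false
set_option linter.style.haveILetI false
set_option linter.unusedSectionVars false
set_option linter.unusedVariables false

namespace Fermat.Agent.S14.H714

open Polynomial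
open scoped Pointwise

/-- The ring of all algebraic integers. -/
noncomputable abbrev Zbar := integralClosure ℤ Qb

instance instIsAlgebraicIntQb : Algebra.IsAlgebraic ℤ Qb :=
  (IsFractionRing.comap_isAlgebraic_iff (A := ℤ) (K := ℚ) (C := Qb)).mpr inferInstance

theorem coe_smul_Zbar (σ : G) (x : Zbar) : ((σ • x : Zbar) : Qb) = σ (x : Qb) := rfl

/-- Algebraic integers lie in every valuation subring. -/
theorem mem_of_isIntegral (A : ValuationSubring Qb) {x : Qb} (hx : IsIntegral ℤ x) : x ∈ A := by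
  have h : IsIntegral A x := hx.tower_top
  obtain ⟨y, hy⟩ := (IsIntegrallyClosed.isIntegral_iff (R := A) (K := Qb)).mp h
  rw [← hy]
  exact y.2

theorem coe_mem (A : ValuationSubring Qb) (b : Zbar) : (b : Qb) ∈ A := mem_of_isIntegral A b.2

theorem nonunits_mul_mem (A : ValuationSubring Qb) {m x : Qb} (hm : m ∈ A.nonunits)
    (hx : x ∈ A) : m * x ∈ A.nonunits := by
  rw [ValuationSubring.mem_nonunits_iff] at hm ⊢
  rw [map_mul]
  have hx' := (A.valuation_le_one_iff x).mpr hx
  exact mul_lt_one_of_lt_of_le hm hx'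

theorem inv_mem_of_not_mem_nonunits (A : ValuationSubring Qb) {s : Qb}
    (hs : s ∉ A.nonunits) : s ≠ 0 ∧ s⁻¹ ∈ A := by
  rw [ValuationSubring.mem_nonunits_iff_or] at hs
  push Not at hs
  exact hs

theorem one_not_mem_nonunits (A : ValuationSubring Qb) : (1 : Qb) ∉ A.nonunits := by
  rw [ValuationSubring.mem_nonunits_iff, map_one]
  exact lt_irrefl _

theorem nonunits_add_mem (A : ValuationSubring Qb) {x y : Qb} (hx : x ∈ A.nonunits)
    (hy : y ∈ A.nonunits) : x + y ∈ A.nonunits := by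
  rw [ValuationSubring.mem_nonunits_iff] at hx hy ⊢
  exact A.valuation.map_add_lt hx hy

theorem nonunits_neg_mem (A : ValuationSubring Qb) {x : Qb} (hx : x ∈ A.nonunits) :
    -x ∈ A.nonunits := by
  rw [ValuationSubring.mem_nonunits_iff] at hx ⊢
  rwa [Valuation.map_neg]

theorem nonunits_sub_mem (A : ValuationSubring Qb) {x y : Qb} (hx : x ∈ A.nonunits)
    (hy : y ∈ A.nonunits) : x - y ∈ A.nonunits := by
  rw [sub_eq_add_neg]
  exact nonunits_add_mem A hx (nonunits_neg_mem A hy)

theorem mem_of_mem_nonunits (A : ValuationSubring Qb) {x : Qb} (hx : x ∈ A.nonunits) : x ∈ A := by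
  rw [ValuationSubring.mem_nonunits_iff] at hx
  exact (A.valuation_le_one_iff x).mp hx.le

/-- The inclusion of the ring of algebraic integers into a valuation subring. -/
noncomputable def inclZ (A : ValuationSubring Qb) : Zbar →+* A where
  toFun b := ⟨(b : Qb), coe_mem A b⟩
  map_one' := rfl
  map_mul' _ _ := rfl
  map_zero' := rfl
  map_add' _ _ := rfl

/-- The prime of `ℤ̄` cut out by the maximal ideal of the valuation subring `A`. -/
noncomputable def primeOf (A : ValuationSubring Qb) : Ideal Zbar :=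
  (IsLocalRing.maximalIdeal A).comap (inclZ A)

instance primeOf_isPrime (A : ValuationSubring Qb) : (primeOf A).IsPrime :=
  Ideal.comap_isPrime _ _

theorem mem_primeOf {A : ValuationSubring Qb} {b : Zbar} :
    b ∈ primeOf A ↔ (b : Qb) ∈ A.nonunits := by
  rw [primeOf, Ideal.mem_comap, ← ValuationSubring.coe_mem_nonunits_iff]
  rfl

/-- Key induction: if `x ∈ A` is a root of a polynomial over `ℤ̄` with some coefficient
outside `primeOf A`, then `x` is a fraction `b / s` with `b, s ∈ ℤ̄` and `s ∉ primeOf A`. -/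
theorem exists_fraction_aux (A : ValuationSubring Qb) {x : Qb} (hx : x ∈ A) :
    ∀ (n : ℕ) (p : Zbar[X]), p.natDegree ≤ n → aeval x p = 0 → (∃ i, p.coeff i ∉ primeOf A) →
      ∃ b s : Zbar, s ∉ primeOf A ∧ x * (s : Qb) = (b : Qb) := by
  intro n
  induction n with
  | zero =>
    intro p hp h0 ⟨i, hi⟩
    exfalso
    rw [eq_C_of_natDegree_le_zero hp, aeval_C] at h0
    have hc : p.coeff 0 = 0 := by
      have : ((p.coeff 0 : Zbar) : Qb) = 0 := h0
      exact Subtype.ext this
    apply hi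
    rw [eq_C_of_natDegree_le_zero hp, coeff_C, hc]
    split_ifs <;> exact zero_mem _
  | succ n ih =>
    intro p hp h0 ⟨i, hi⟩
    by_cases hdeg : p.natDegree ≤ n
    · exact ih p hdeg h0 ⟨i, hi⟩
    have hdeg' : p.natDegree = n + 1 := le_antisymm hp (by omega)
    have hint : IsIntegral ℤ (p.leadingCoeff • x) :=
      isIntegral_trans _ (isIntegral_leadingCoeff_smul p x h0)
    let y : Zbar := ⟨p.leadingCoeff • x, hint⟩
    have hy : (y : Qb) = (p.leadingCoeff : Qb) * x := rfl
    by_cases ha : p.leadingCoeff ∈ primeOf A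
    · -- the leading coefficient is in the prime: lower the degree
      have hyQ : y ∈ primeOf A := by
        rw [mem_primeOf, hy]
        exact nonunits_mul_mem A (mem_primeOf.mp ha) hx
      let q : Zbar[X] := p.eraseLead + C y * X ^ n
      have hqdeg : q.natDegree ≤ n := by
        refine (natDegree_add_le _ _).trans (max_le ?_ (natDegree_C_mul_X_pow_le _ _))
        have := eraseLead_natDegree_le p
        omega
      have hq0 : aeval x q = 0 := by
        have h1 : aeval x p = aeval x p.eraseLead + (p.leadingCoeff : Qb) * x ^ (n + 1) := by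
          conv_lhs => rw [← eraseLead_add_C_mul_X_pow p]
          rw [map_add, map_mul, aeval_C, map_pow, aeval_X, hdeg']
          rfl
        have h2 : aeval x q = aeval x p.eraseLead + (y : Qb) * x ^ n := by
          simp only [q]
          rw [map_add, map_mul, aeval_C, map_pow, aeval_X]
          rfl
        rw [h2, hy]
        rw [h0] at h1
        rw [h1]
        ring
      have hi' : i ≠ n + 1 := by
        rintro rfl
        apply hi
        rw [← hdeg']
        exact ha
      have hqi : q.coeff i ∉ primeOf A := by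
        have hc : q.coeff i = p.coeff i + (if i = n then y else 0) := by
          simp only [q]
          rw [coeff_add, eraseLead_coeff_of_ne i (by rw [hdeg']; exact hi'), coeff_C_mul_X_pow]
        rw [hc]
        split_ifs with hin
        · intro h
          apply hi
          have := sub_mem h hyQ
          simpa using this
        · simpa using hi
      exact ih q hqdeg hq0 ⟨i, hqi⟩
    · exact ⟨y, p.leadingCoeff, ha, by rw [hy, mul_comm]⟩

/-- An integer prime to `ℓ` is a unit in a valuation subring above `ℓ`. -/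
theorem intCast_not_mem_nonunits (A : ValuationSubring Qb) {ℓ : ℕ} (hℓ : ℓ.Prime)
    (hA : (ℓ : Qb) ∈ A.nonunits) {n : ℤ} (hn : ¬ (ℓ : ℤ) ∣ n) : (n : Qb) ∉ A.nonunits := by
  intro hmem
  have hcop : IsCoprime (ℓ : ℤ) n := (Nat.prime_iff_prime_int.mp hℓ).coprime_iff_not_dvd.mpr hn
  obtain ⟨u, v, huv⟩ := hcop
  apply one_not_mem_nonunits A
  have h1 : ((u * (ℓ : ℤ) + v * n : ℤ) : Qb) = 1 := by
    rw [huv]
    simp
  rw [← h1]
  push_cast
  refine nonunits_add_mem A ?_ ?_
  · rw [mul_comm]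
    exact nonunits_mul_mem A hA (intCast_mem A u)
  · rw [mul_comm]
    exact nonunits_mul_mem A hmem (intCast_mem A v)

/-- Every element of a valuation subring `A` of `ℚ̄` above `ℓ` is a fraction `b / s` of
algebraic integers with `s` a unit of `A`. -/
theorem exists_fraction (A : ValuationSubring Qb) {ℓ : ℕ} (hℓ : ℓ.Prime)
    (hA : (ℓ : Qb) ∈ A.nonunits) {x : Qb} (hx : x ∈ A) :
    ∃ b s : Zbar, s ∉ primeOf A ∧ x * (s : Qb) = (b : Qb) := by
  obtain ⟨p, hp0, hp⟩ := Algebra.IsAlgebraic.isAlgebraic (R := ℤ) x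
  have hprim := p.isPrimitive_primPart
  have hroot : aeval x p.primPart = 0 := aeval_primPart_eq_zero hp0 hp
  have hex : ∃ i, ¬ ((ℓ : ℤ) ∣ p.primPart.coeff i) := by
    by_contra hcon
    push Not at hcon
    have := hprim (ℓ : ℤ) ((C_dvd_iff_dvd_coeff _ _).mpr hcon)
    exact (Nat.prime_iff_prime_int.mp hℓ).not_isUnit this
  obtain ⟨i, hi⟩ := hex
  refine exists_fraction_aux A hx _ (p.primPart.map (algebraMap ℤ Zbar)) le_rfl ?_ ⟨i, ?_⟩
  · rw [aeval_map_algebraMap]
    exact hroot
  · rw [coeff_map, mem_primeOf]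
    intro hmem
    have hmem' : ((p.primPart.coeff i : ℤ) : Qb) ∈ A.nonunits := by
      simpa using hmem
    exact intCast_not_mem_nonunits A hℓ hA hi hmem'

/-- A ring automorphism mapping units (among algebraic integers) of `A` to units of `A'`
maps `A` into `A'`. -/
theorem map_mem_of_forall (A A' : ValuationSubring Qb) {ℓ : ℕ} (hℓ : ℓ.Prime)
    (hA : (ℓ : Qb) ∈ A.nonunits) (τ : G)
    (hτ : ∀ s : Zbar, s ∉ primeOf A → τ • s ∉ primeOf A') {x : Qb} (hx : x ∈ A) :
    τ x ∈ A' := by
  obtain ⟨b, s, hs, hxs⟩ := exists_fraction A hℓ hA hx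
  have hτs := hτ s hs
  rw [mem_primeOf, coe_smul_Zbar] at hτs
  obtain ⟨hne, hinv⟩ := inv_mem_of_not_mem_nonunits A' hτs
  have h1 : τ x * τ (s : Qb) = τ (b : Qb) := by rw [← map_mul, hxs]
  have h2 : τ x = τ (b : Qb) * (τ (s : Qb))⁻¹ := by
    rw [← h1, mul_assoc, mul_inv_cancel₀ hne, mul_one]
  rw [h2]
  exact A'.mul_mem _ _ (coe_mem A' (τ • b)) hinv

/-- If `τ` maps the prime of `A'` onto the prime of `A`, it maps `A'` onto `A`. -/
theorem smul_eq_of_primeOf (A A' : ValuationSubring Qb) {ℓ : ℕ} (hℓ : ℓ.Prime)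
    (hA : (ℓ : Qb) ∈ A.nonunits) (hA' : (ℓ : Qb) ∈ A'.nonunits) (τ : G)
    (hτ : ∀ s : Zbar, s ∈ primeOf A' ↔ τ • s ∈ primeOf A) : τ • A' = A := by
  apply le_antisymm
  · intro x hx
    rw [ValuationSubring.mem_pointwise_smul_iff_inv_smul_mem] at hx
    have h5 := map_mem_of_forall A' A hℓ hA' τ (fun s hs h => hs ((hτ s).mpr h)) hx
    have h6 : τ (τ⁻¹ • x) = x := by
      show τ (τ⁻¹ x) = x
      exact τ.apply_symm_apply x
    rwa [h6] at h5
  · intro x hx
    rw [ValuationSubring.mem_pointwise_smul_iff_inv_smul_mem]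
    refine map_mem_of_forall A A' hℓ hA τ⁻¹ (fun s hs h => hs ?_) hx
    have := (hτ (τ⁻¹ • s)).mp h
    rwa [smul_inv_smul] at this

/-- Conversely a `τ` mapping `A'` onto `A` maps the prime of `A'` onto the prime of `A`. -/
theorem mem_primeOf_smul_iff {A A' : ValuationSubring Qb} {τ : G} (h : τ • A' = A) (s : Zbar) :
    s ∈ primeOf A' ↔ τ • s ∈ primeOf A := by
  rw [mem_primeOf, mem_primeOf, coe_smul_Zbar]
  have key : ∀ x : Qb, x ∈ A' ↔ τ x ∈ A := by
    intro x
    rw [← h, ValuationSubring.mem_pointwise_smul_iff_inv_smul_mem]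
    have : τ⁻¹ • τ x = x := by
      show τ⁻¹ (τ x) = x
      exact τ.symm_apply_apply x
    rw [this]
  rw [ValuationSubring.mem_nonunits_iff_or, ValuationSubring.mem_nonunits_iff_or, key,
    map_inv₀]
  simp

/-- A valuation subring of `ℚ̄` is either everything, or lies over a prime number. -/
theorem eq_top_or_liesOver (A : ValuationSubring Qb) :
    A = ⊤ ∨ ∃ ℓ : ℕ, ℓ.Prime ∧ (ℓ : Qb) ∈ A.nonunits := by
  by_cases h : ∃ ℓ : ℕ, ℓ.Prime ∧ (ℓ : Qb) ∈ A.nonunits
  · exact Or.inr h
  left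
  push Not at h
  -- every nonzero natural number is a unit of `A`
  have hnat : ∀ n : ℕ, n ≠ 0 → ((n : Qb))⁻¹ ∈ A := by
    intro n
    induction n using Nat.recOnMul with
    | zero => intro h0; exact absurd rfl h0
    | one => intro _; simp
    | prime ℓ hℓ =>
      intro _
      exact (inv_mem_of_not_mem_nonunits A (h ℓ hℓ)).2
    | mul a b iha ihb =>
      intro hab
      have ha : a ≠ 0 := left_ne_zero_of_mul hab
      have hb : b ≠ 0 := right_ne_zero_of_mul hab
      rw [Nat.cast_mul, mul_inv]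
      exact A.mul_mem _ _ (iha ha) (ihb hb)
  have hrat : ∀ q : ℚ, (algebraMap ℚ Qb q) ∈ A := by
    intro q
    have hq : algebraMap ℚ Qb q = (q.num : Qb) * ((q.den : Qb))⁻¹ := by
      conv_lhs => rw [← Rat.num_div_den q]
      rw [map_div₀, div_eq_mul_inv]
      simp
    rw [hq]
    exact A.mul_mem _ _ (intCast_mem A _) (hnat q.den q.den_nz)
  rw [eq_top_iff]
  intro x _
  -- `x` is integral over `ℚ ⊆ A`
  have hint : IsIntegral ℚ x := Algebra.IsIntegral.isIntegral x
  obtain ⟨P, hP, hroot⟩ := hint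
  have h : IsIntegral A x := by
    refine ⟨P.map (RingHom.codRestrict (algebraMap ℚ Qb) A.toSubring hrat), hP.map _, ?_⟩
    rw [eval₂_map]
    have : (A.subtype : A →+* Qb).comp (RingHom.codRestrict (algebraMap ℚ Qb) A.toSubring hrat) =
        algebraMap ℚ Qb := rfl
    have h2 : (algebraMap A Qb) = (A.subtype : A →+* Qb) := rfl
    rw [h2, this]
    exact hroot
  obtain ⟨y, hy⟩ := (IsIntegrallyClosed.isIntegral_iff (R := A) (K := Qb)).mp h
  rw [← hy]
  exact y.2

end Fermat.Agent.S14.H714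

end
-- ===== PACK-END S14/H714/Val.lean

-- ===== PACK-BEGIN S55/G/Rec/NormExtractH844.lean
section



/-!
# S55 / G / REC, leaf K5 (helper844): norm extraction from a trivialised cup cocycle

Abstract (Mathlib-only + `H379.carry`) statement.  Let `G` act on a commutative group `M`, let
`χ : G →* ℤ/n` be a character (not necessarily surjective), `a ∈ M^G`, and let `X : G → M` be a
1-cochain with

  `g • X h * X g = X (g * h) * a ^ carry n (χ g) (χ h)`      (i.e. `d X = a ∪ δχ`)

which is trivial on `ker χ`.  Then `a` is the norm of an element `b` fixed by `ker χ`: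
`a = ∏_{t ∈ G / ker χ} t • b`.
-/

set_option autoImplicit false
set_option linter.unusedSectionVars false
set_option linter.style.haveILetI false

namespace Fermat.Agent.S55.G.Rec.H844

open Fermat.Agent.S55.G.Rec.H379

section NormExtract

variable {G M : Type*} [Group G] [CommGroup M] [MulDistribMulAction G M]
variable {n : ℕ} [NeZero n] (χ : G →* Multiplicative (ZMod n))

/-- the value of `χ` as a natural number `< n`. -/
def chiVal844 (g : G) : ℕ := (Multiplicative.toAdd (χ g)).val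

lemma chiVal844_lt (g : G) : chiVal844 χ g < n := ZMod.val_lt _

lemma chiVal844_mul (g h : G) : chiVal844 χ (g * h) = (chiVal844 χ g + chiVal844 χ h) % n := by
  unfold chiVal844
  rw [map_mul, toAdd_mul, ZMod.val_add]

lemma chiVal844_eq_zero_iff (g : G) : chiVal844 χ g = 0 ↔ g ∈ χ.ker := by
  unfold chiVal844
  rw [ZMod.val_eq_zero, MonoidHom.mem_ker]
  constructor
  · intro h
    exact Multiplicative.toAdd.injective h
  · intro h
    rw [h]; rfl

lemma chiVal844_congr {g h : G} (hgh : g⁻¹ * h ∈ χ.ker) : chiVal844 χ g = chiVal844 χ h := by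
  unfold chiVal844
  rw [MonoidHom.mem_ker, map_mul, map_inv, inv_mul_eq_one] at hgh
  rw [hgh]

variable {χ}

/-- Fact A: `X` is constant on the cosets `g * ker χ`. -/
lemma X_mul_ker844 {a : M} {X : G → M}
    (hR : ∀ g h, g • X h * X g =
      X (g * h) * a ^ _root_.Fermat.Agent.S55.G.Rec.H379.carry n (Multiplicative.toAdd (χ g)) (Multiplicative.toAdd (χ h)))
    (h1 : ∀ h ∈ χ.ker, X h = 1) (g : G) {h : G} (hh : h ∈ χ.ker) : X (g * h) = X g := by
  have := hR g h
  rw [h1 h hh, smul_one, one_mul] at this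
  have hc : _root_.Fermat.Agent.S55.G.Rec.H379.carry n (Multiplicative.toAdd (χ g)) (Multiplicative.toAdd (χ h)) = 0 := by
    rw [MonoidHom.mem_ker] at hh
    rw [hh]
    exact carry_zero_right n _
  rw [hc, pow_zero, mul_one] at this
  exact this.symm

/-- Fact B: the values of `X` are fixed by `ker χ`. -/
lemma ker_smul_X844 {a : M} {X : G → M}
    (hR : ∀ g h, g • X h * X g =
      X (g * h) * a ^ _root_.Fermat.Agent.S55.G.Rec.H379.carry n (Multiplicative.toAdd (χ g)) (Multiplicative.toAdd (χ h)))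
    (h1 : ∀ h ∈ χ.ker, X h = 1) (g : G) {h : G} (hh : h ∈ χ.ker) : h • X g = X g := by
  have := hR h g
  rw [h1 h hh, mul_one] at this
  have hc : _root_.Fermat.Agent.S55.G.Rec.H379.carry n (Multiplicative.toAdd (χ h)) (Multiplicative.toAdd (χ g)) = 0 := by
    rw [MonoidHom.mem_ker] at hh
    rw [hh]
    exact carry_zero_left n _
  rw [hc, pow_zero, mul_one] at this
  rw [this]
  have hconj : g⁻¹ * h * g ∈ χ.ker := by
    have := (inferInstance : χ.ker.Normal).conj_mem h hh g⁻¹
    simpa using this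
  have := X_mul_ker844 hR h1 g hconj
  rw [← this]
  congr 1
  group

/-- **Norm extraction.**  If `d X = a ∪ δχ` and `X` is trivial on `ker χ`, then `a` is the norm
from the fixed points of `ker χ` of an element `b` (namely `b = X σ`, where `χ σ` is the minimal
positive value of `χ`). -/
theorem exists_norm_of_trivialized844 {a : M} (ha : ∀ g : G, g • a = a) {X : G → M}
    (hR : ∀ g h, g • X h * X g =
      X (g * h) * a ^ _root_.Fermat.Agent.S55.G.Rec.H379.carry n (Multiplicative.toAdd (χ g)) (Multiplicative.toAdd (χ h)))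
    (h1 : ∀ h ∈ χ.ker, X h = 1) :
    ∃ b : M, (∀ h ∈ χ.ker, h • b = b) ∧
      a = ∏ᶠ t : G ⧸ χ.ker, (Quotient.out t : G) • b := by
  classical
  haveI : Finite (G ⧸ χ.ker) := Finite.of_injective _ (QuotientGroup.kerLift_injective χ)
  haveI : Fintype (G ⧸ χ.ker) := Fintype.ofFinite _
  by_cases htriv : ∀ g, chiVal844 χ g = 0
  · -- trivial character
    refine ⟨a, fun h _ => ha h, ?_⟩
    rw [finprod_eq_prod_of_fintype]
    have hsub : Subsingleton (G ⧸ χ.ker) := by
      refine ⟨fun s t => ?_⟩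
      induction s using QuotientGroup.induction_on with
      | H g =>
        induction t using QuotientGroup.induction_on with
        | H h =>
          rw [QuotientGroup.eq]
          rw [← chiVal844_eq_zero_iff]
          exact htriv _
    haveI : Unique (G ⧸ χ.ker) := ⟨⟨1⟩, fun t => Subsingleton.elim _ _⟩
    rw [Fintype.prod_unique, ha]
  · push Not at htriv
    obtain ⟨g₀, hg₀⟩ := htriv
    have hex : ∃ m, 0 < m ∧ ∃ g, chiVal844 χ g = m := ⟨_, Nat.pos_of_ne_zero hg₀, g₀, rfl⟩
    obtain ⟨hm0, σ, hσ⟩ := Nat.find_spec hex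
    have hmin : ∀ g, chiVal844 χ g ≠ 0 → Nat.find hex ≤ chiVal844 χ g := fun g hg =>
      Nat.find_min' hex ⟨Nat.pos_of_ne_zero hg, g, rfl⟩
    generalize Nat.find hex = m at hm0 hσ hmin
    have hmn : m < n := hσ ▸ chiVal844_lt χ σ
    -- carry characterisation
    have hcarry : ∀ g, _root_.Fermat.Agent.S55.G.Rec.H379.carry n (Multiplicative.toAdd (χ g)) (Multiplicative.toAdd (χ σ)) =
        if g * σ ∈ χ.ker then 1 else 0 := by
      intro g
      have hv := chiVal844_mul χ g σ
      have hg := chiVal844_lt χ g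
      show (chiVal844 χ g + chiVal844 χ σ) / n = _
      rw [hσ] at hv ⊢
      split_ifs with hk
      · rw [← chiVal844_eq_zero_iff] at hk
        rw [hk] at hv
        obtain ⟨k, hk'⟩ := Nat.dvd_of_mod_eq_zero hv.symm
        rw [hk']
        have hn0 : 0 < n := by omega
        rw [Nat.mul_div_cancel_left _ hn0]
        have h1 : 0 < n * k := by omega
        have h2 : n * k < n * 2 := by omega
        have h3 : 0 < k := Nat.pos_of_mul_pos_left h1
        have h4 : k < 2 := Nat.lt_of_mul_lt_mul_left h2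
        omega
      · rw [← chiVal844_eq_zero_iff] at hk
        have := hmin _ hk
        rw [hv] at this
        rw [Nat.div_eq_zero_iff]
        right
        by_contra hlt
        push Not at hlt
        have h5 : (chiVal844 χ g + m) % n = chiVal844 χ g + m - n := by
          rw [Nat.mod_eq_sub_mod hlt, Nat.mod_eq_of_lt (by omega)]
        omega
    refine ⟨X σ, fun h hh => ker_smul_X844 hR h1 σ hh, ?_⟩
    rw [finprod_eq_prod_of_fintype]
    have hprod : (∏ t : G ⧸ χ.ker, ((Quotient.out t : G) • X σ)) *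
        ∏ t : G ⧸ χ.ker, X (Quotient.out t) =
        (∏ t : G ⧸ χ.ker, X (Quotient.out t * σ)) *
          a ^ (∑ t : G ⧸ χ.ker,
            _root_.Fermat.Agent.S55.G.Rec.H379.carry n (Multiplicative.toAdd (χ (Quotient.out t))) (Multiplicative.toAdd (χ σ))) := by
      rw [← Finset.prod_mul_distrib, ← Finset.prod_pow_eq_pow_sum, ← Finset.prod_mul_distrib]
      exact Finset.prod_congr rfl fun t _ => hR _ _
    have hXbar : ∀ g : G, X g = X (Quotient.out (g : G ⧸ χ.ker)) := by
      intro g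
      have hmem : g⁻¹ * Quotient.out (g : G ⧸ χ.ker) ∈ χ.ker := by
        rw [← QuotientGroup.eq, QuotientGroup.out_eq']
      have := X_mul_ker844 hR h1 g hmem
      rw [← this]
      congr 1
      group
    have hreindex : ∏ t : G ⧸ χ.ker, X (Quotient.out t * σ) =
        ∏ t : G ⧸ χ.ker, X (Quotient.out t) := by
      calc ∏ t : G ⧸ χ.ker, X (Quotient.out t * σ)
          = ∏ t : G ⧸ χ.ker, X (Quotient.out (t * (σ : G ⧸ χ.ker))) := by
            refine Finset.prod_congr rfl fun t _ => ?_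
            rw [hXbar (Quotient.out t * σ)]
            congr 2
            rw [QuotientGroup.mk_mul, QuotientGroup.out_eq']
        _ = ∏ t : G ⧸ χ.ker, X (Quotient.out t) :=
            Equiv.prod_comp (Equiv.mulRight (σ : G ⧸ χ.ker)) (fun t => X (Quotient.out t))
    have hsum : ∑ t : G ⧸ χ.ker,
        _root_.Fermat.Agent.S55.G.Rec.H379.carry n (Multiplicative.toAdd (χ (Quotient.out t))) (Multiplicative.toAdd (χ σ)) = 1 := by
      simp_rw [hcarry]
      have hiff : ∀ t : G ⧸ χ.ker, (Quotient.out t * σ ∈ χ.ker) ↔ t = (σ : G ⧸ χ.ker)⁻¹ := by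
        intro t
        rw [← QuotientGroup.eq_one_iff, QuotientGroup.mk_mul, QuotientGroup.out_eq',
          mul_eq_one_iff_eq_inv]
      simp_rw [hiff]
      simp
    rw [hreindex, hsum, pow_one, mul_comm] at hprod
    exact (mul_left_cancel hprod).symm

end NormExtract

end Fermat.Agent.S55.G.Rec.H844

end
-- ===== PACK-END S55/G/Rec/NormExtractH844.lean

-- ===== PACK-BEGIN S56/H614/Lattice.lean
section



/-!
# S56 / W-BASE / W3-UNITS (helper614): characteristic polynomials of lattices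

* `permCharpoly R σ` : characteristic polynomial of `a ↦ a ∘ σ` on `X → R`; compatible with
  ring homomorphisms (`permCharpoly_map`).
* `charpoly_restrict_of_smul_mem` : a stable sublattice of finite index has the same
  characteristic polynomial.
* `charpoly_of_real_lattice` : a lattice `Λ₀ → W` in a real vector space, spanning a subspace
  `H`: the characteristic polynomial on `H` is the one on `Λ₀`.
* `charpoly_of_exact` : characteristic polynomials in exact sequences of vector spaces.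
-/

set_option autoImplicit false

noncomputable section

namespace Fermat.Agent.S56.H614

open Polynomial Module

open scoped TensorProduct

section Perm

variable (R : Type*) [CommRing R] {X : Type*} [Finite X]

/-- The characteristic polynomial of the map `a ↦ a ∘ σ` on `X → R`. -/
def permCharpoly (σ : X → X) : R[X] := (LinearMap.funLeft R R σ).charpoly

lemma permCharpoly_eq_matrix [Fintype X] [DecidableEq X] (σ : X → X) :
    permCharpoly R σ =
      (Matrix.of fun i j : X => if σ i = j then (1 : R) else 0).charpoly := by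
  rw [permCharpoly, ← LinearMap.charpoly_toMatrix _ (Pi.basisFun R X)]
  congr 1
  ext i j
  simp [LinearMap.funLeft_apply, Pi.single_apply, eq_comm]

theorem permCharpoly_map {S : Type*} [CommRing S] (f : R →+* S) (σ : X → X) :
    (permCharpoly R σ).map f = permCharpoly S σ := by
  classical
  let _ : Fintype X := Fintype.ofFinite X
  rw [permCharpoly_eq_matrix, permCharpoly_eq_matrix, ← Matrix.charpoly_map]
  congr 1
  ext i j
  simp only [Matrix.map_apply, Matrix.of_apply]
  split_ifs <;> simp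

end Perm

section Field

variable {k : Type*} [Field k] {N E F : Type*}
  [AddCommGroup N] [Module k N] [Module.Finite k N]
  [AddCommGroup E] [Module k E] [Module.Finite k E]
  [AddCommGroup F] [Module k F] [Module.Finite k F]

/-- Characteristic polynomials in an exact sequence of finite-dimensional vector spaces. -/
theorem charpoly_of_exact (i : N →ₗ[k] E) (hi : Function.Injective i) (g : E →ₗ[k] F)
    (hg : Function.Surjective g) (hex : LinearMap.range i = LinearMap.ker g)
    (fN : N →ₗ[k] N) (fE : E →ₗ[k] E) (fF : F →ₗ[k] F)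
    (h1 : i ∘ₗ fN = fE ∘ₗ i) (h2 : g ∘ₗ fE = fF ∘ₗ g) :
    fE.charpoly = fN.charpoly * fF.charpoly := by
  have h := charpoly_baseChange_of_exact' (R := k) k i hi g hg hex fN fE fF h1 h2
  rw [LinearMap.charpoly_baseChange, LinearMap.charpoly_baseChange,
    LinearMap.charpoly_baseChange] at h
  simpa using h

end Field

section FiniteIndex

variable {M : Type*} [AddCommGroup M] [Module.Free ℤ M] [Module.Finite ℤ M]

/-- A stable sublattice of finite index has the same characteristic polynomial. -/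
theorem charpoly_restrict_of_smul_mem (f : M →ₗ[ℤ] M) (Λ : Submodule ℤ M)
    (hΛ : Λ ≤ Λ.comap f) (m : ℤ) (hm : m ≠ 0) (hmem : ∀ x : M, m • x ∈ Λ) :
    (f.restrict hΛ).charpoly = f.charpoly := by
  have hinj : Function.Injective (Λ.subtype.baseChange ℚ) := by
    rw [LinearMap.baseChange_eq_ltensor]
    exact Module.Flat.lTensor_preserves_injective_linearMap _ Λ.injective_subtype
  have hsurj : Function.Surjective (Λ.subtype.baseChange ℚ) := by
    intro y
    induction y using TensorProduct.induction_on with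
    | zero => exact ⟨0, map_zero _⟩
    | tmul q x =>
      refine ⟨(q / (m : ℚ)) ⊗ₜ[ℤ] (⟨m • x, hmem x⟩ : Λ), ?_⟩
      rw [LinearMap.baseChange_tmul]
      simp only [Submodule.subtype_apply]
      rw [TensorProduct.tmul_smul, TensorProduct.smul_tmul']
      congr 1
      have hm' : (m : ℚ) ≠ 0 := by exact_mod_cast hm
      rw [zsmul_eq_mul]
      field_simp
    | add a b ha hb =>
      obtain ⟨a', rfl⟩ := ha
      obtain ⟨b', rfl⟩ := hb
      exact ⟨a' + b', map_add _ _ _⟩
  let e : (ℚ ⊗[ℤ] Λ) ≃ₗ[ℚ] (ℚ ⊗[ℤ] M) :=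
    LinearEquiv.ofBijective (Λ.subtype.baseChange ℚ) ⟨hinj, hsurj⟩
  have hconj : e.conj ((f.restrict hΛ).baseChange ℚ) = f.baseChange ℚ := by
    apply LinearMap.ext
    intro y
    obtain ⟨x, rfl⟩ := e.surjective y
    rw [LinearEquiv.conj_apply_apply, LinearEquiv.symm_apply_apply]
    change (Λ.subtype.baseChange ℚ) (((f.restrict hΛ).baseChange ℚ) x) =
      (f.baseChange ℚ) ((Λ.subtype.baseChange ℚ) x)
    rw [← LinearMap.comp_apply, ← LinearMap.comp_apply, ← LinearMap.baseChange_comp,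
      ← LinearMap.baseChange_comp]
    rfl
  have h := LinearEquiv.charpoly_conj e ((f.restrict hΛ).baseChange ℚ)
  rw [hconj, LinearMap.charpoly_baseChange, LinearMap.charpoly_baseChange] at h
  exact (Polynomial.map_injective (algebraMap ℤ ℚ) (algebraMap ℤ ℚ).injective_int h).symm

end FiniteIndex

section RealLattice

variable {Λ₀ W ι : Type*} [Fintype ι] [DecidableEq ι] [AddCommGroup Λ₀] [Module.Free ℤ Λ₀]
  [Module.Finite ℤ Λ₀] [AddCommGroup W] [Module ℝ W]

/-- A lattice `j : Λ₀ → W` in a real vector space whose `ℤ`-basis is `ℝ`-linearly independent,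
spanning the subspace `H`; `P` an endomorphism of `W` inducing `f₀` on `Λ₀`.  Then the
characteristic polynomial of `P` on `H` is the one of `f₀`. -/
theorem charpoly_of_real_lattice (bΛ : Basis ι ℤ Λ₀) (j : Λ₀ →ₗ[ℤ] W)
    (hb : LinearIndependent ℝ (fun i => j (bΛ i)))
    (f₀ : Λ₀ →ₗ[ℤ] Λ₀) (P : W →ₗ[ℝ] W) (hP : ∀ x, P (j x) = j (f₀ x))
    (H : Submodule ℝ W) (hH : Submodule.span ℝ (Set.range fun i => j (bΛ i)) = H)
    [Module.Finite ℝ H] (hHP : H ≤ H.comap P) :
    (P.restrict hHP).charpoly = f₀.charpoly.map (Int.castRingHom ℝ) := by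
  let bH : Basis ι ℝ H := (Basis.span hb).map (LinearEquiv.ofEq _ _ hH)
  have hbH : ∀ i, ((bH i : H) : W) = j (bΛ i) := by
    intro i
    simp [bH, Basis.span_apply]
  have key : ∀ k, (P.restrict hHP) (bH k) =
      ∑ i, ((bΛ.repr (f₀ (bΛ k)) i : ℤ) : ℝ) • bH i := by
    intro k
    apply Subtype.ext
    rw [LinearMap.coe_restrict_apply, hbH, hP]
    conv_lhs => rw [← bΛ.sum_repr (f₀ (bΛ k))]
    rw [map_sum, Submodule.coe_sum]
    refine Finset.sum_congr rfl fun i _ => ?_
    rw [map_zsmul, Submodule.coe_smul, hbH, Int.cast_smul_eq_zsmul]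
  rw [← LinearMap.charpoly_toMatrix (P.restrict hHP) bH, ← LinearMap.charpoly_toMatrix f₀ bΛ,
    ← Matrix.charpoly_map]
  congr 1
  ext i k
  rw [LinearMap.toMatrix_apply, key, Matrix.map_apply, LinearMap.toMatrix_apply]
  simp [Finsupp.single_apply]

end RealLattice

end Fermat.Agent.S56.H614

end

end
-- ===== PACK-END S56/H614/Lattice.lean

-- ===== PACK-BEGIN S56/H486/T4.lean
section
/-
S56 / W-BASE leaf T4 (helper486): for a finite abelian group `A` with an endomorphism `g`,
the characteristic polynomials of `g` on `A[p]` and on `A / pA` coincide (Mathlib-only).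

The `p`-torsion and the `p`-cotorsion are presented abstractly: `V₁` (resp. `V₂`) is any finite
`ZMod p`-module with an injection `ι : V₁ →+ A` whose range is `A[p]` (resp. a surjection
`π : A →+ V₂` whose kernel is `pA`), so that the consumer can plug in whatever model is at hand.
-/


namespace Fermat.Agent.S56.H486

open Module

universe u v w

/-- Induction engine for `t4_charpoly_torsion_eq_cotorsion` (strong induction on `Nat.card A`). -/
theorem t4_charpoly_torsion_eq_cotorsion_aux (p : ℕ) [Fact p.Prime] (n : ℕ) :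
    ∀ (A : Type u) [AddCommGroup A] [Finite A]
      (V₁ : Type v) [AddCommGroup V₁] [Module (ZMod p) V₁] [Finite V₁]
      (V₂ : Type w) [AddCommGroup V₂] [Module (ZMod p) V₂] [Finite V₂]
      (g : A →+ A) (g₁ : V₁ →ₗ[ZMod p] V₁) (g₂ : V₂ →ₗ[ZMod p] V₂)
      (ι : V₁ →+ A) (π : A →+ V₂),
      Nat.card A = n →
      Function.Injective ι → (∀ a, a ∈ ι.range ↔ p • a = 0) →
      Function.Surjective π → (∀ a, π a = 0 ↔ ∃ b, a = p • b) →
      (∀ v, ι (g₁ v) = g (ι v)) → (∀ a, π (g a) = g₂ (π a)) →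
      g₁.charpoly = g₂.charpoly := by
  induction n using Nat.strong_induction_on with
  | _ n ih =>
  intro A _ _ V₁ _ _ _ V₂ _ _ _ g g₁ g₂ ι π hcard hι hιr hπ hπk hg₁ hg₂
  let pm : A →+ A := nsmulAddMonoidHom p
  have hpm : ∀ a, pm a = p • a := fun a => rfl
  let B : AddSubgroup A := pm.range
  have hBmem : ∀ a, a ∈ B ↔ ∃ b, a = p • b := fun a =>
    ⟨fun ⟨b, hb⟩ => ⟨b, hb.symm⟩, fun ⟨b, hb⟩ => ⟨b, hb.symm⟩⟩
  by_cases hB : B = ⊤
  · -- multiplication by `p` is bijective: both sides are trivial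
    have hsurj : Function.Surjective pm := AddMonoidHom.range_eq_top.mp hB
    have hinj : Function.Injective pm := Finite.injective_iff_surjective.mpr hsurj
    have h1 : Subsingleton V₁ := ⟨fun x y => hι (hinj (by
      have hx : p • ι x = 0 := (hιr _).1 ⟨x, rfl⟩
      have hy : p • ι y = 0 := (hιr _).1 ⟨y, rfl⟩
      rw [hpm, hpm, hx, hy]))⟩
    have h0 : ∀ x : V₂, x = 0 := fun x => by
      obtain ⟨a, rfl⟩ := hπ x
      obtain ⟨c, hc⟩ := hsurj a
      exact (hπk a).2 ⟨c, hc.symm⟩
    have h2 : Subsingleton V₂ := ⟨fun x y => by rw [h0 x, h0 y]⟩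
    rw [t4_charpoly_of_subsingleton g₁, t4_charpoly_of_subsingleton g₂]
  · -- `B = pA` is a proper subgroup
    have hlt : Nat.card B < n := by
      rw [← hcard]
      refine lt_of_le_of_ne (Nat.card_le_card_of_injective _ Subtype.val_injective) ?_
      exact fun h => hB ((AddSubgroup.card_eq_iff_eq_top B).1 h)
    let L : V₁ →ₗ[ZMod p] V₂ := (π.comp ι).toZModLinearMap p
    have hL : ∀ v, L v = π (ι v) := fun v => rfl
    let K : Submodule (ZMod p) V₁ := LinearMap.ker L
    let W : Submodule (ZMod p) V₂ := LinearMap.range L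
    have hKmem : ∀ v, v ∈ K ↔ π (ι v) = 0 := fun v => Iff.rfl
    have hWmem : ∀ x, x ∈ W ↔ ∃ v, π (ι v) = x := fun x => Iff.rfl
    have hK : K ≤ K.comap g₁ := by
      intro v hv
      rw [Submodule.mem_comap, hKmem, hg₁, hg₂, (hKmem v).1 hv, map_zero]
    have hW : W ≤ W.comap g₂ := by
      rintro _ ⟨v, rfl⟩
      exact ⟨g₁ v, by rw [hL, hL, hg₁, hg₂]⟩
    -- the two filtrations
    have e1 := t4_charpoly_eq_restrict_mul_mapQ K g₁ hK
    have e2 := t4_charpoly_eq_restrict_mul_mapQ W g₂ hW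
    -- `V₁ / K ≃ W`, equivariantly
    have e3 : (K.mapQ K g₁ hK).charpoly = (g₂.restrict hW).charpoly :=
      t4_charpoly_eq_of_equiv L.quotKerEquivRange _ _ (by
        intro x
        obtain ⟨v, rfl⟩ := Submodule.mkQ_surjective _ x
        apply Subtype.ext
        rw [Submodule.mkQ_apply, Submodule.mapQ_apply, LinearMap.quotKerEquivRange_apply_mk,
          LinearMap.coe_restrict_apply, LinearMap.quotKerEquivRange_apply_mk, hL, hL, hg₁, hg₂])
    -- the induction hypothesis for `B`, `K`, `V₂ ⧸ W`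
    let g' : B →+ B := (g.comp B.subtype).codRestrict B (fun b => by
      obtain ⟨a, ha⟩ := (hBmem _).1 b.2
      exact (hBmem _).2 ⟨g a, by
        rw [AddMonoidHom.comp_apply, AddSubgroup.coe_subtype, ha, map_nsmul]⟩)
    have hg' : ∀ b : B, (g' b : A) = g b := fun b => rfl
    let ι' : K →+ B := (ι.comp K.subtype.toAddMonoidHom).codRestrict B (fun v =>
      (hBmem _).2 ((hπk _).1 ((hKmem _).1 v.2)))
    have hι' : ∀ v : K, (ι' v : A) = ι v := fun v => rfl
    let φ : A →+ V₂ ⧸ W := (W.mkQ.toAddMonoidHom).comp π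
    have hφ' : ∀ a, φ a = W.mkQ (π a) := fun a => rfl
    have hφ : pm.ker ≤ φ.ker := by
      intro a ha
      obtain ⟨v, rfl⟩ := (hιr a).2 ha
      rw [AddMonoidHom.mem_ker, hφ', Submodule.mkQ_apply, Submodule.Quotient.mk_eq_zero]
      exact ⟨v, rfl⟩
    let π' : B →+ V₂ ⧸ W := (QuotientAddGroup.lift pm.ker φ hφ).comp
      (QuotientAddGroup.quotientKerEquivRange pm).symm.toAddMonoidHom
    have hπ' : ∀ (a : A) (ha : p • a ∈ B), π' ⟨p • a, ha⟩ = W.mkQ (π a) := by
      intro a ha
      have h1 : (QuotientAddGroup.quotientKerEquivRange pm).symm ⟨p • a, ha⟩ =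
          (QuotientAddGroup.mk a : A ⧸ pm.ker) := by
        rw [AddEquiv.symm_apply_eq]
        rfl
      show QuotientAddGroup.lift pm.ker φ hφ
        ((QuotientAddGroup.quotientKerEquivRange pm).symm ⟨p • a, ha⟩) = _
      rw [h1, QuotientAddGroup.lift_mk, hφ']
    have hBrep : ∀ b : B, ∃ (a : A) (ha : p • a ∈ B), b = ⟨p • a, ha⟩ := fun b => by
      obtain ⟨a, ha⟩ := (hBmem _).1 b.2
      exact ⟨a, (hBmem _).2 ⟨a, rfl⟩, Subtype.ext ha⟩
    have : Finite (V₂ ⧸ W) := Finite.of_surjective _ (Submodule.mkQ_surjective W)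
    have e4 : (g₁.restrict hK).charpoly = (W.mapQ W g₂ hW).charpoly := by
      refine ih (Nat.card B) hlt B K (V₂ ⧸ W) g' (g₁.restrict hK) (W.mapQ W g₂ hW) ι' π' rfl
        ?_ ?_ ?_ ?_ ?_ ?_
      · -- injectivity of `ι'`
        intro x y hxy
        exact Subtype.ext (hι (congrArg Subtype.val hxy))
      · -- range of `ι'` is `B[p]`
        intro b
        constructor
        · rintro ⟨v, rfl⟩
          apply Subtype.ext
          rw [AddSubgroup.coe_nsmul, hι', AddSubgroup.coe_zero]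
          exact (hιr _).1 ⟨v, rfl⟩
        · intro hb
          have hb' : p • (b : A) = 0 := by
            rw [← AddSubgroup.coe_nsmul, hb, AddSubgroup.coe_zero]
          obtain ⟨v, hv⟩ := (hιr _).2 hb'
          have hvK : v ∈ K := by
            rw [hKmem, hv]
            exact (hπk _).2 ((hBmem _).1 b.2)
          exact ⟨⟨v, hvK⟩, Subtype.ext hv⟩
      · -- surjectivity of `π'`
        intro x
        obtain ⟨y, rfl⟩ := Submodule.mkQ_surjective _ x
        obtain ⟨a, rfl⟩ := hπ y
        exact ⟨⟨p • a, (hBmem _).2 ⟨a, rfl⟩⟩, hπ' a _⟩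
      · -- kernel of `π'` is `pB`
        intro b
        obtain ⟨a, ha, rfl⟩ := hBrep b
        rw [hπ', Submodule.mkQ_apply, Submodule.Quotient.mk_eq_zero, hWmem]
        constructor
        · rintro ⟨v, hv⟩
          have h0 : π (a - ι v) = 0 := by rw [map_sub, hv, sub_self]
          obtain ⟨c, hc⟩ := (hπk _).1 h0
          refine ⟨⟨p • c, (hBmem _).2 ⟨c, rfl⟩⟩, Subtype.ext ?_⟩
          rw [AddSubgroup.coe_nsmul]
          show p • a = p • (p • c)
          have hv0 : p • ι v = 0 := (hιr _).1 ⟨v, rfl⟩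
          rw [← hc, smul_sub, hv0, sub_zero]
        · rintro ⟨b', hb'⟩
          obtain ⟨c, hc, rfl⟩ := hBrep b'
          have h1 : p • a = p • (p • c) := by
            have := congrArg Subtype.val hb'
            rwa [AddSubgroup.coe_nsmul] at this
          have h2 : p • (a - p • c) = 0 := by rw [smul_sub, h1, sub_self]
          obtain ⟨v, hv⟩ := (hιr _).2 h2
          refine ⟨v, ?_⟩
          rw [hv, map_sub, (hπk (p • c)).2 ⟨c, rfl⟩, sub_zero]
      · -- equivariance of `ι'`
        intro v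
        apply Subtype.ext
        rw [hι', hg', hι', LinearMap.coe_restrict_apply, hg₁]
      · -- equivariance of `π'`
        intro b
        obtain ⟨a, ha, rfl⟩ := hBrep b
        have h1 : g' ⟨p • a, ha⟩ = ⟨p • g a, (hBmem _).2 ⟨g a, rfl⟩⟩ :=
          Subtype.ext (by rw [hg']; exact map_nsmul g p a)
        rw [h1, hπ', hπ', hg₂, Submodule.mkQ_apply, Submodule.mkQ_apply, Submodule.mapQ_apply]
    rw [e1, e2, e3, e4, mul_comm]

/-- **T4.** Let `A` be a finite abelian group with an endomorphism `g`, let `V₁` be (a model of)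
its `p`-torsion `A[p]` and `V₂` (a model of) its `p`-cotorsion `A / pA`, with the induced
endomorphisms `g₁`, `g₂`.  Then `g₁` and `g₂` have the same characteristic polynomial. -/
theorem t4_charpoly_torsion_eq_cotorsion (p : ℕ) [Fact p.Prime]
    {A : Type u} [AddCommGroup A] [Finite A]
    {V₁ : Type v} [AddCommGroup V₁] [Module (ZMod p) V₁] [Finite V₁]
    {V₂ : Type w} [AddCommGroup V₂] [Module (ZMod p) V₂] [Finite V₂]
    (g : A →+ A) (g₁ : V₁ →ₗ[ZMod p] V₁) (g₂ : V₂ →ₗ[ZMod p] V₂)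
    (ι : V₁ →+ A) (π : A →+ V₂)
    (hι : Function.Injective ι) (hιr : ∀ a, a ∈ ι.range ↔ p • a = 0)
    (hπ : Function.Surjective π) (hπk : ∀ a, π a = 0 ↔ ∃ b, a = p • b)
    (hg₁ : ∀ v, ι (g₁ v) = g (ι v)) (hg₂ : ∀ a, π (g a) = g₂ (π a)) :
    g₁.charpoly = g₂.charpoly :=
  t4_charpoly_torsion_eq_cotorsion_aux p (Nat.card A) A V₁ V₂ g g₁ g₂ ι π rfl hι hιr hπ hπk hg₁ hg₂

/-- Consequence of **T4**: `A[p]` and `A / pA` have the same dimension over `ZMod p`. -/
theorem t4_finrank_torsion_eq_cotorsion (p : ℕ) [Fact p.Prime]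
    {A : Type u} [AddCommGroup A] [Finite A]
    {V₁ : Type v} [AddCommGroup V₁] [Module (ZMod p) V₁] [Finite V₁]
    {V₂ : Type w} [AddCommGroup V₂] [Module (ZMod p) V₂] [Finite V₂]
    (ι : V₁ →+ A) (π : A →+ V₂)
    (hι : Function.Injective ι) (hιr : ∀ a, a ∈ ι.range ↔ p • a = 0)
    (hπ : Function.Surjective π) (hπk : ∀ a, π a = 0 ↔ ∃ b, a = p • b) :
    Module.finrank (ZMod p) V₁ = Module.finrank (ZMod p) V₂ := by
  have h := t4_charpoly_torsion_eq_cotorsion p (AddMonoidHom.id A) (LinearMap.id : V₁ →ₗ[ZMod p] V₁)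
    (LinearMap.id : V₂ →ₗ[ZMod p] V₂) ι π hι hιr hπ hπk (fun _ => rfl) (fun _ => rfl)
  have := congrArg Polynomial.natDegree h
  rwa [LinearMap.charpoly_natDegree, LinearMap.charpoly_natDegree] at this

end Fermat.Agent.S56.H486

end
-- ===== PACK-END S56/H486/T4.lean

-- ===== PACK-BEGIN S56/Euler/IndSpec.lean
section


/-!
# Row S56 / wall W-BASE / Euler characteristic — leaf IND: FROZEN statements (helper366)

`IndStatement` (modular Artin induction): an additive `ℤ`-valued invariant of finite-dimensional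
`𝔽_p[G]`-modules (`G` finite) which vanishes on all `𝔽_p[G/B] ⊗ N`, `B` cyclic of order prime to
`p`, vanishes identically.

    IND ⇐ KEY + PERM + ARTIN        KEY ⇐ COMP + UNIQ        UNIQ ⇐ TRIND + TRSS
    (glue: `Euler/IndGlue.lean`)

Leaves (all Mathlib-only, independent of each other):
* `TraceIndepStatement` (TRIND): the trace functions `g ↦ tr(g | S_i)` of pairwise non-isomorphic
  simple modules are linearly independent over `𝔽_p`
  (Jacobson density `jacobson_density` + little Wedderburn + separability of finite fields).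
* `TraceSSStatement` (TRSS): `tr(g | W) = tr(g_s | W)`, `g_s` the `p`-regular part of `g`.
* `CompSeriesStatement` (COMP): composition factors `T_1..T_n` of `W`: every additive invariant
  satisfies `f W = ∑ f T_j`, and `charpoly(g | W) = ∏ charpoly(g | T_j)`.
* `PermCharpolyStatement` (PERM): for permutations `σ_i` of finite sets and one operator `T`:
  the (weighted) numbers of fixed points of all powers determine the (weighted) product of the
  characteristic polynomials of `σ_i ⊗ T` (cycle decomposition).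
* `ArtinCountStatement` (ARTIN): Artin's formula on `p`-regular elements:
  `|G| = ∑_B a_B · |(G/B)^g|`, `B` cyclic of order prime to `p`, `a_B ∈ ℤ`.

Plan and proofs on paper: `coord/S56-EULER-helper366.md` §2.  Nothing unproved in this file.
-/

set_option autoImplicit false

open Polynomial

noncomputable section

namespace Fermat.Agent.S56.Euler

/-- (IND) modular Artin induction for additive invariants. -/
def IndStatement : Prop :=
  ∀ (p : ℕ) [Fact p.Prime] (G : Type) [Group G] [Finite G] (f : RepInv (ZMod p) G),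
    IsAdditiveInv f →
    (∀ B : Subgroup G, IsCyclic B → ¬ p ∣ Nat.card B →
      ∀ N : FDRepData (ZMod p) G, f (permData B N) = 0) →
    ∀ N : FDRepData (ZMod p) G, f N = 0

/-- (TRIND) linear independence of the traces of pairwise non-isomorphic simple modules. -/
def TraceIndepStatement : Prop :=
  ∀ (p : ℕ) [Fact p.Prime] (G : Type) [Group G] [Finite G] (ι : Type) [Fintype ι]
    (S : ι → FDRepData (ZMod p) G),
    (∀ i, IsSimpleRep (S i)) → (∀ i j, RepIso (S i) (S j) → i = j) →
    ∀ a : ι → ZMod p,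
      (∀ g : G, ∑ i, a i * LinearMap.trace (ZMod p) (S i).V ((S i).ρ g) = 0) →
      ∀ i, a i = 0

/-- (TRSS) the trace of `g` is the trace of a `p`-regular element (a power of `g`). -/
def TraceSSStatement : Prop :=
  ∀ (p : ℕ) [Fact p.Prime] (G : Type) [Group G] [Finite G] (g : G),
    ∃ h : G, IsPRegular p h ∧ ∀ W : FDRepData (ZMod p) G,
      LinearMap.trace (ZMod p) W.V (W.ρ g) = LinearMap.trace (ZMod p) W.V (W.ρ h)

/-- (COMP) composition factors. -/
def CompSeriesStatement : Prop :=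
  ∀ (k : Type) [Field k] (G : Type) [Group G] (W : FDRepData k G),
    ∃ (n : ℕ) (T : Fin n → FDRepData k G), (∀ j, IsSimpleRep (T j)) ∧
      (∀ f : RepInv k G, IsAdditiveInv f → f W = ∑ j, f (T j)) ∧
      (∀ g : G, LinearMap.charpoly (W.ρ g) = ∏ j, LinearMap.charpoly ((T j).ρ g))

/-- (UNIQ) multiplicative independence of the characteristic polynomials on `p`-regular elements
(= uniqueness of composition multiplicities = independence of Brauer characters). -/
def UniqStatement : Prop :=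
  ∀ (p : ℕ) [Fact p.Prime] (G : Type) [Group G] [Finite G] (ι : Type) [Fintype ι]
    (S : ι → FDRepData (ZMod p) G),
    (∀ i, IsSimpleRep (S i)) → (∀ i j, RepIso (S i) (S j) → i = j) →
    ∀ m m' : ι → ℕ,
      (∀ g : G, IsPRegular p g →
        ∏ i, LinearMap.charpoly ((S i).ρ g) ^ m i = ∏ i, LinearMap.charpoly ((S i).ρ g) ^ m' i) →
      m = m'

/-- (KEY) additive invariants only see the characteristic polynomials of `p`-regular elements
(weighted form). -/
def KeyStatement : Prop :=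
  ∀ (p : ℕ) [Fact p.Prime] (G : Type) [Group G] [Finite G] (I : Type) [Fintype I]
    (W : I → FDRepData (ZMod p) G) (n n' : I → ℕ),
    (∀ g : G, IsPRegular p g →
      ∏ i, LinearMap.charpoly ((W i).ρ g) ^ n i = ∏ i, LinearMap.charpoly ((W i).ρ g) ^ n' i) →
    ∀ f : RepInv (ZMod p) G, IsAdditiveInv f →
      ∑ i, (n i : ℤ) * f (W i) = ∑ i, (n' i : ℤ) * f (W i)

/-- (PERM) characteristic polynomials of `σ ⊗ T` from fixed-point counts. -/
def PermCharpolyStatement : Prop :=
  ∀ (k : Type) [Field k] (N : Type) [AddCommGroup N] [Module k N] [Module.Finite k N]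
    (T : N →ₗ[k] N) (I : Type) [Fintype I] (X : I → Type) [∀ i, Fintype (X i)]
    (σ : ∀ i, Equiv.Perm (X i)) (n n' : I → ℕ),
    (∀ t : ℕ, ∑ i, n i * Nat.card {x : X i // (σ i ^ t) x = x} =
      ∑ i, n' i * Nat.card {x : X i // (σ i ^ t) x = x}) →
    ∏ i, LinearMap.charpoly (permTensor (⇑(σ i)) T) ^ n i =
      ∏ i, LinearMap.charpoly (permTensor (⇑(σ i)) T) ^ n' i

/-- (ARTIN) Artin's counting formula on `p`-regular elements. -/
def ArtinCountStatement : Prop :=
  ∀ (p : ℕ) [Fact p.Prime] (G : Type) [Group G] [Finite G],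
    ∃ (s : Finset (Subgroup G)) (a : Subgroup G → ℤ),
      (∀ B ∈ s, IsCyclic B ∧ ¬ p ∣ Nat.card B) ∧
      ∀ g : G, IsPRegular p g →
        ∑ B ∈ s, a B * (Nat.card {x : G ⧸ B // g • x = x} : ℤ) = (Nat.card G : ℤ)

end Fermat.Agent.S56.Euler

end

end
-- ===== PACK-END S56/Euler/IndSpec.lean

-- ===== PACK-BEGIN S56/H334/RamTheta.lean
section


/-!
# S56 / W-FLAT-SS, piece FL-RAM (helper334), part 2: the maps `θ₀`, `θ_n`

Setting as in `RamBasic`: a DVR `B`, a group `Γ` acting by ring automorphisms, `π` a uniformizer.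

* `InertiaResidue Γ B` (hypothesis (H)): every residue class of `B` contains an element fixed by
  the inertia group `Γ₀`.  `inertiaResidue_of_finite`: (H) holds if `Γ` and the residue field are
  finite.
* `mem_ramGroup_iff_dvd_smul_sub` (Serre LF IV §2 Prop. 5): under (H), for `σ ∈ Γ₀`:
  `σ ∈ Γ_n ↔ π^(n+1) ∣ σ π - π`.
* `cOf hπ σ` : the unit `σ π / π` (a crossed homomorphism `Γ → Bˣ`: `cOf_mul`).
* `theta0 hπ : Γ₀ →* κˣ`, `σ ↦ σ π / π mod 𝔪`, with kernel `Γ₁` (`theta0_eq_one_iff`).
* `theta hπ n : Γ_{n+1} →* Multiplicative κ`, `σ ↦ (σ π / π - 1) / π^(n+1) mod 𝔪`, with kernel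
  `Γ_{n+2}` (`theta_eq_zero_iff`).
* equivariance: `theta0_conj`, `theta_conj`:
  `θ_n (g σ g⁻¹) = (g π / π)^n · g • θ_n σ` (`g • ` = induced action on the residue field);
  for `g ∈ Γ₀`: `θ_n (g σ g⁻¹) = θ₀(g)^n · θ_n σ`.
* `isPGroup_ramGroup_one` : `Γ₁` is a `p`-group (`p` = residue characteristic; `Γ` finite, faithful).
* `pow_card_mem` ... : `Γ₀/Γ₁` is cyclic of order prime to `p`.
-/

set_option autoImplicit false
set_option linter.unusedSectionVars false
set_option linter.style.haveILetI false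

open IsLocalRing

namespace Fermat.Agent.S56.H334

variable {B : Type*} [CommRing B] [IsDomain B] [IsDiscreteValuationRing B]
variable {Γ : Type*} [Group Γ] [MulSemiringAction Γ B]

/-! ### Hypothesis (H) -/

/-- Hypothesis (H): every residue class contains an element fixed by the inertia group. -/
def InertiaResidue (Γ : Type*) (B : Type*) [CommRing B] [IsDomain B] [IsDiscreteValuationRing B]
    [Group Γ] [MulSemiringAction Γ B] : Prop :=
  ∀ b : B, ∃ a : B, (∀ σ ∈ ramGroup Γ B 0, σ • a = a) ∧ b - a ∈ maximalIdeal B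

theorem isInvariant_fixedPoints (H : Type*) [Group H] [MulSemiringAction H B] :
    Algebra.IsInvariant (FixedPoints.subring B H) B H :=
  ⟨fun b hb => ⟨⟨b, hb⟩, rfl⟩⟩

attribute [local instance] Ideal.Quotient.field in
/-- (H) holds when `Γ` and the residue field are finite. -/
theorem inertiaResidue_of_finite [Finite Γ] [Finite (ResidueField B)] : InertiaResidue Γ B := by
  classical
  intro b
  let H := ramGroup Γ B 0
  let B₀ := FixedPoints.subring B H
  let Q : Ideal B := maximalIdeal B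
  let P : Ideal B₀ := Q.under B₀
  haveI : Algebra.IsInvariant B₀ B H := isInvariant_fixedPoints H
  haveI : Q.LiesOver P := ⟨rfl⟩
  haveI hQ : Q.IsMaximal := maximalIdeal.isMaximal B
  haveI : Algebra.IsIntegral B₀ B := Algebra.IsInvariant.isIntegral B₀ B H
  haveI hP : P.IsMaximal := Ideal.isMaximal_comap_of_isIntegral_of_isMaximal Q
  haveI : Finite (B ⧸ Q) := inferInstanceAs (Finite (ResidueField B))
  have hinj : Function.Injective (algebraMap (B₀ ⧸ P) (B ⧸ Q)) :=
    (algebraMap (B₀ ⧸ P) (B ⧸ Q)).injective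
  haveI : Finite (B₀ ⧸ P) := Finite.of_injective _ hinj
  haveI : Normal (B₀ ⧸ P) (B ⧸ Q) := Ideal.Quotient.normal H P Q
  haveI : IsGalois (B₀ ⧸ P) (B ⧸ Q) := { }
  have hsurj := Ideal.Quotient.stabilizerHom_surjective H P Q
  have hfix : ∀ f : (B ⧸ Q) ≃ₐ[B₀ ⧸ P] (B ⧸ Q),
      f (Ideal.Quotient.mk Q b) = Ideal.Quotient.mk Q b := by
    intro f
    obtain ⟨σ, rfl⟩ := hsurj f
    rw [Ideal.Quotient.stabilizerHom_apply, Ideal.Quotient.eq]
    have h := (σ : H).2 b
    rw [zero_add, pow_one] at h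
    exact h
  have hbot : Ideal.Quotient.mk Q b ∈ (⊥ : IntermediateField (B₀ ⧸ P) (B ⧸ Q)) :=
    (IsGalois.mem_bot_iff_fixed _).2 hfix
  obtain ⟨a', ha'⟩ := IntermediateField.mem_bot.1 hbot
  obtain ⟨a, rfl⟩ := Ideal.Quotient.mk_surjective a'
  refine ⟨(a : B), fun σ hσ => a.2 ⟨σ, hσ⟩, ?_⟩
  have h2 : Ideal.Quotient.mk Q (a : B) = Ideal.Quotient.mk Q b := ha'
  exact (Ideal.Quotient.eq.1 h2.symm)

/-! ### The key lemma -/

/-- **Serre, Local Fields IV §2 Prop. 5.**  Under (H), for `σ` in the inertia group: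
`σ ∈ Γ_n ↔ π^(n+1) ∣ σ π - π`. -/
theorem mem_ramGroup_iff_dvd_smul_sub (hH : InertiaResidue Γ B) {π : B} (hπ : Irreducible π)
    {σ : Γ} (hσ : σ ∈ ramGroup Γ B 0) (n : ℕ) :
    σ ∈ ramGroup Γ B n ↔ π ^ (n + 1) ∣ σ • π - π := by
  constructor
  · intro h
    exact (mem_ramGroup_iff_dvd hπ).1 h π
  · intro h
    rw [mem_ramGroup_iff_dvd hπ]
    have key : ∀ m, m ≤ n + 1 → ∀ x : B, π ^ m ∣ σ • x - x := by
      intro m
      induction m with
      | zero =>
        intro _ x
        rw [pow_zero]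
        exact one_dvd _
      | succ m ih =>
        intro hm x
        obtain ⟨a, ha, hxa⟩ := hH x
        rw [hπ.maximalIdeal_eq, Ideal.mem_span_singleton] at hxa
        obtain ⟨y, hy⟩ := hxa
        have hx : x = a + π * y := by rw [← hy]; ring
        have h1 : σ • x - x = (σ • π - π) * σ • y + π * (σ • y - y) := by
          rw [hx, smul_add, smul_mul', ha σ hσ]; ring
        rw [h1]
        apply dvd_add
        · exact ((pow_dvd_pow π hm).trans h).mul_right _
        · rw [pow_succ']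
          exact mul_dvd_mul_left π (ih (by omega) y)
    exact key (n + 1) le_rfl

/-! ### The crossed homomorphism `σ ↦ σ π / π` -/

section cOf

variable {π : B} (hπ : Irreducible π)

/-- The unit `σ π / π`. -/
noncomputable def cOf (σ : Γ) : B :=
  Classical.choose (associated_smul σ hπ).symm.dvd

theorem smul_eq_mul_cOf (σ : Γ) : σ • π = π * cOf hπ σ :=
  Classical.choose_spec (associated_smul σ hπ).symm.dvd

theorem isUnit_cOf (σ : Γ) : IsUnit (cOf hπ σ) := by
  have h := irreducible_smul σ hπ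
  rw [smul_eq_mul_cOf hπ σ] at h
  exact (h.isUnit_or_isUnit rfl).resolve_left hπ.not_isUnit

theorem cOf_mul (σ τ : Γ) : cOf hπ (σ * τ) = cOf hπ σ * σ • cOf hπ τ := by
  have h1 : (σ * τ) • π = π * (cOf hπ σ * σ • cOf hπ τ) := by
    rw [mul_smul, smul_eq_mul_cOf hπ τ, smul_mul', smul_eq_mul_cOf hπ σ, mul_assoc]
  rw [smul_eq_mul_cOf hπ (σ * τ)] at h1
  exact mul_left_cancel₀ hπ.ne_zero h1

theorem cOf_one : cOf hπ (1 : Γ) = 1 := by
  have h1 := smul_eq_mul_cOf hπ (1 : Γ)
  rw [one_smul] at h1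
  have h2 : π * 1 = π * cOf hπ (1 : Γ) := by rw [mul_one]; exact h1
  exact (mul_left_cancel₀ hπ.ne_zero h2).symm

theorem smul_sub_eq (σ : Γ) : σ • π - π = π * (cOf hπ σ - 1) := by
  rw [smul_eq_mul_cOf hπ σ]; ring

theorem pow_dvd_cOf_sub_one_iff (σ : Γ) (n : ℕ) :
    π ^ n ∣ cOf hπ σ - 1 ↔ π ^ (n + 1) ∣ σ • π - π := by
  rw [smul_sub_eq hπ σ, pow_succ']
  exact (mul_dvd_mul_iff_left hπ.ne_zero).symm

theorem residue_smul_eq_of_mem {σ : Γ} (hσ : σ ∈ ramGroup Γ B 0) (x : B) :
    residue B (σ • x) = residue B x := by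
  have h := hσ x
  rw [zero_add, pow_one] at h
  rw [← sub_eq_zero, ← map_sub]
  exact (residue_eq_zero_iff _).2 h

include hπ in
theorem residue_eq_zero_iff_dvd (x : B) : residue B x = 0 ↔ π ∣ x := by
  rw [residue_eq_zero_iff, hπ.maximalIdeal_eq, Ideal.mem_span_singleton]

include hπ in
theorem residue_pi : residue B π = 0 :=
  (residue_eq_zero_iff_dvd hπ π).2 dvd_rfl

/-- Comparison of `σ π' / π'` with `σ π / π` for another uniformizer: congruent modulo
`𝔪^(n+1)` when `σ ∈ Γ_n`. -/
theorem cOf_conj_sub_dvd (g : Γ) {σ : Γ} {n : ℕ} (hσ : σ ∈ ramGroup Γ B n) :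
    π ^ (n + 1) ∣ cOf hπ (g * σ * g⁻¹) - g • cOf hπ σ := by
  -- `c_{gσg⁻¹} = c_g · g(c_σ) · gσ(c_{g⁻¹})` and `c_g · g(c_{g⁻¹}) = 1`
  have h1 : cOf hπ (g * σ * g⁻¹) = cOf hπ g * g • cOf hπ σ * (g * σ) • cOf hπ g⁻¹ := by
    rw [cOf_mul, cOf_mul]
  have h2 : cOf hπ g * g • cOf hπ g⁻¹ = 1 := by
    rw [← cOf_mul, mul_inv_cancel, cOf_one]
  have h3 : π ^ (n + 1) ∣ σ • cOf hπ g⁻¹ - cOf hπ g⁻¹ := (mem_ramGroup_iff_dvd hπ).1 hσ _
  have h4 : π ^ (n + 1) ∣ g • (σ • cOf hπ g⁻¹ - cOf hπ g⁻¹) :=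
    (pow_dvd_smul_iff g hπ (n + 1) _).2 h3
  have h5 : cOf hπ (g * σ * g⁻¹) - g • cOf hπ σ =
      cOf hπ g * g • cOf hπ σ * (g • (σ • cOf hπ g⁻¹ - cOf hπ g⁻¹)) := by
    rw [h1, smul_sub, mul_smul]
    have : cOf hπ g * g • cOf hπ σ * (g • σ • cOf hπ g⁻¹ - g • cOf hπ g⁻¹) =
        cOf hπ g * g • cOf hπ σ * g • σ • cOf hπ g⁻¹ -
          (cOf hπ g * g • cOf hπ g⁻¹) * g • cOf hπ σ := by ring
    rw [this, h2, one_mul]
  rw [h5]
  exact Dvd.dvd.mul_left h4 _

end cOf

/-! ### `θ₀` -/

section theta0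

variable {π : B} (hπ : Irreducible π)

/-- `θ₀ : Γ₀ → κ`, `σ ↦ σ π / π mod 𝔪` (as a monoid homomorphism into `κ`). -/
noncomputable def theta0Hom : ramGroup Γ B 0 →* ResidueField B where
  toFun σ := residue B (cOf hπ (σ : Γ))
  map_one' := by
    show residue B (cOf hπ ((1 : ramGroup Γ B 0) : Γ)) = 1
    rw [Subgroup.coe_one, cOf_one, map_one]
  map_mul' σ τ := by
    show residue B (cOf hπ ((σ * τ : ramGroup Γ B 0) : Γ)) =
      residue B (cOf hπ (σ : Γ)) * residue B (cOf hπ (τ : Γ))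
    rw [Subgroup.coe_mul, cOf_mul, map_mul, residue_smul_eq_of_mem σ.2]

/-- `θ₀ : Γ₀ →* κˣ`. -/
noncomputable def theta0 : ramGroup Γ B 0 →* (ResidueField B)ˣ :=
  (theta0Hom hπ).toHomUnits

theorem theta0_apply (σ : ramGroup Γ B 0) :
    ((theta0 hπ σ : (ResidueField B)ˣ) : ResidueField B) = residue B (cOf hπ (σ : Γ)) :=
  rfl

/-- The kernel of `θ₀` is `Γ₁`. -/
theorem theta0_eq_one_iff (hH : InertiaResidue Γ B) (σ : ramGroup Γ B 0) :
    theta0 hπ σ = 1 ↔ (σ : Γ) ∈ ramGroup Γ B 1 := by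
  rw [mem_ramGroup_iff_dvd_smul_sub hH hπ σ.2 1, ← pow_dvd_cOf_sub_one_iff hπ, pow_one,
    ← residue_eq_zero_iff_dvd hπ, map_sub, map_one, sub_eq_zero, ← theta0_apply hπ σ]
  constructor
  · intro h
    rw [h, Units.val_one]
  · intro h
    exact Units.ext h

/-- Equivariance of `θ₀`: `θ₀(g σ g⁻¹) = g • θ₀(σ)`. -/
theorem theta0_conj (g : Γ) (σ : ramGroup Γ B 0) :
    residue B (cOf hπ (g * (σ : Γ) * g⁻¹)) = g • residue B (cOf hπ (σ : Γ)) := by
  have h := cOf_conj_sub_dvd hπ g σ.2
  rw [zero_add, pow_one, ← residue_eq_zero_iff_dvd hπ, map_sub, sub_eq_zero] at h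
  rw [h, IsLocalRing.ResidueField.residue_smul]

end theta0

/-! ### `θ_n`, `n ≥ 1` -/

section theta

variable {π : B} (hπ : Irreducible π)

/-- `(σ π / π - 1) / π^(n+1)` (and `0` if `σ π / π - 1` is not divisible by `π^(n+1)`). -/
noncomputable def aOf (n : ℕ) (σ : Γ) : B :=
  open Classical in
  if h : π ^ (n + 1) ∣ cOf hπ σ - 1 then Classical.choose h else 0

theorem cOf_eq_of_mem {n : ℕ} {σ : Γ} (hσ : σ ∈ ramGroup Γ B (n + 1)) :
    cOf hπ σ = 1 + π ^ (n + 1) * aOf hπ n σ := by
  have h : π ^ (n + 1) ∣ cOf hπ σ - 1 :=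
    (pow_dvd_cOf_sub_one_iff hπ σ (n + 1)).2 ((mem_ramGroup_iff_dvd hπ).1 hσ π)
  rw [aOf, dif_pos h, ← Classical.choose_spec h]
  ring

/-- Characterisation of the residue of `aOf`. -/
theorem residue_aOf_eq {n : ℕ} {σ : Γ} (hσ : σ ∈ ramGroup Γ B (n + 1)) {a : B}
    (ha : π ^ (n + 2) ∣ cOf hπ σ - 1 - π ^ (n + 1) * a) :
    residue B (aOf hπ n σ) = residue B a := by
  rw [cOf_eq_of_mem hπ hσ] at ha
  have h1 : 1 + π ^ (n + 1) * aOf hπ n σ - 1 - π ^ (n + 1) * a =
      π ^ (n + 1) * (aOf hπ n σ - a) := by ring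
  rw [h1, pow_succ π (n + 1)] at ha
  have h2 : π ∣ aOf hπ n σ - a := (mul_dvd_mul_iff_left (pow_ne_zero _ hπ.ne_zero)).1 ha
  rw [← sub_eq_zero, ← map_sub]
  exact (residue_eq_zero_iff_dvd hπ _).2 h2

theorem residue_aOf_mul {n : ℕ} (σ τ : ramGroup Γ B (n + 1)) :
    residue B (aOf hπ n ((σ * τ : ramGroup Γ B (n + 1)) : Γ)) =
      residue B (aOf hπ n (σ : Γ)) + residue B (aOf hπ n (τ : Γ)) := by
  rw [← map_add]
  apply residue_aOf_eq hπ (σ * τ).2
  rw [Subgroup.coe_mul, cOf_mul, cOf_eq_of_mem hπ σ.2, cOf_eq_of_mem hπ τ.2]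
  set a := aOf hπ n (σ : Γ) with ha
  set b := aOf hπ n (τ : Γ) with hb
  have hσa : π ^ (n + 2) ∣ (σ : Γ) • b - b := (mem_ramGroup_iff_dvd hπ).1 σ.2 _
  obtain ⟨d, hd⟩ := hσa
  have hd' : (σ : Γ) • b = b + π ^ (n + 2) * d := by rw [← hd]; ring
  have hσπ : (σ : Γ) • π = π * (1 + π ^ (n + 1) * a) := by
    rw [ha, ← cOf_eq_of_mem hπ σ.2]
    exact smul_eq_mul_cOf hπ _
  obtain ⟨s, hs⟩ : ∃ s : B, (1 + π ^ (n + 1) * a) ^ (n + 1) = 1 + π ^ (n + 1) * a * s := by
    obtain ⟨s, hs⟩ := sub_dvd_pow_sub_pow (1 + π ^ (n + 1) * a) 1 (n + 1)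
    refine ⟨s, ?_⟩
    rw [one_pow] at hs
    have : (1 + π ^ (n + 1) * a) ^ (n + 1) = 1 + (1 + π ^ (n + 1) * a - 1) * s := by
      rw [← hs]; ring
    rw [this]; ring
  have e1 : (σ : Γ) • (1 + π ^ (n + 1) * b) =
      1 + π ^ (n + 1) * (1 + π ^ (n + 1) * a * s) * (b + π ^ (n + 2) * d) := by
    rw [smul_add, smul_one, smul_mul', smul_pow', hσπ, hd', mul_pow, hs]
  rw [e1]
  refine ⟨π ^ n * a * s * b + π ^ (n + 1) * d * (1 + π ^ (n + 1) * a * s)
    + π ^ n * a * (1 + π ^ (n + 1) * a * s) * (b + π ^ (n + 2) * d), ?_⟩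
  ring

/-- `θ_{n+1} : Γ_{n+1} →* (κ, +)`, `σ ↦ (σ π / π - 1) / π^(n+1) mod 𝔪`. -/
noncomputable def theta (n : ℕ) : ramGroup Γ B (n + 1) →* Multiplicative (ResidueField B) where
  toFun σ := Multiplicative.ofAdd (residue B (aOf hπ n (σ : Γ)))
  map_one' := by
    have h : residue B (aOf hπ n ((1 : ramGroup Γ B (n + 1)) : Γ)) = residue B 0 := by
      apply residue_aOf_eq hπ (1 : ramGroup Γ B (n + 1)).2
      rw [Subgroup.coe_one, cOf_one, sub_self, mul_zero, sub_zero]
      exact dvd_zero _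
    rw [h, map_zero]
    rfl
  map_mul' σ τ := by
    rw [residue_aOf_mul hπ σ τ]
    rfl

theorem theta_apply (n : ℕ) (σ : ramGroup Γ B (n + 1)) :
    Multiplicative.toAdd (theta hπ n σ) = residue B (aOf hπ n (σ : Γ)) :=
  rfl

/-- The kernel of `θ_{n+1}` is `Γ_{n+2}`. -/
theorem theta_eq_one_iff (hH : InertiaResidue Γ B) (n : ℕ) (σ : ramGroup Γ B (n + 1)) :
    theta hπ n σ = 1 ↔ (σ : Γ) ∈ ramGroup Γ B (n + 2) := by
  have hσ0 : (σ : Γ) ∈ ramGroup Γ B 0 := ramGroup_antitone (Nat.zero_le _) σ.2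
  rw [mem_ramGroup_iff_dvd_smul_sub hH hπ hσ0 (n + 2), ← pow_dvd_cOf_sub_one_iff hπ]
  have h1 : cOf hπ (σ : Γ) - 1 = π ^ (n + 1) * aOf hπ n (σ : Γ) := by
    rw [cOf_eq_of_mem hπ σ.2]; ring
  rw [h1, pow_succ' π (n + 1), mul_comm π (π ^ (n + 1)),
    mul_dvd_mul_iff_left (pow_ne_zero _ hπ.ne_zero), ← residue_eq_zero_iff_dvd hπ,
    ← theta_apply hπ n σ]
  constructor
  · intro h
    rw [h]
    rfl
  · intro h
    exact Multiplicative.toAdd.injective h

/-- Equivariance of `θ_{n+1}`: `θ(g σ g⁻¹) = (g π / π)^(n+1) · g • θ(σ)`. -/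
theorem theta_conj (n : ℕ) (g : Γ) (σ : ramGroup Γ B (n + 1)) :
    residue B (aOf hπ n (g * (σ : Γ) * g⁻¹)) =
      residue B (cOf hπ g) ^ (n + 1) * g • residue B (aOf hπ n (σ : Γ)) := by
  have hmem : g * (σ : Γ) * g⁻¹ ∈ ramGroup Γ B (n + 1) :=
    (ramGroup_normal (n + 1)).conj_mem _ σ.2 g
  rw [← IsLocalRing.ResidueField.residue_smul, ← map_pow, ← map_mul]
  apply residue_aOf_eq hπ hmem
  have h := cOf_conj_sub_dvd hπ g σ.2
  have h2 : g • cOf hπ (σ : Γ) = 1 + π ^ (n + 1) * (cOf hπ g ^ (n + 1) * g • aOf hπ n (σ : Γ)) := by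
    rw [cOf_eq_of_mem hπ σ.2, smul_add, smul_one, smul_mul', smul_pow', smul_eq_mul_cOf hπ g,
      mul_pow]
    ring
  have h3 : cOf hπ (g * (σ : Γ) * g⁻¹) - 1 -
      π ^ (n + 1) * (cOf hπ g ^ (n + 1) * g • aOf hπ n (σ : Γ)) =
      cOf hπ (g * (σ : Γ) * g⁻¹) - g • cOf hπ (σ : Γ) := by
    rw [h2]; ring
  rw [h3]
  exact h

/-- For `g` in the inertia group: `θ(g σ g⁻¹) = θ₀(g)^(n+1) · θ(σ)`. -/
theorem theta_conj_of_mem (n : ℕ) {g : Γ} (hg : g ∈ ramGroup Γ B 0)
    (σ : ramGroup Γ B (n + 1)) :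
    residue B (aOf hπ n (g * (σ : Γ) * g⁻¹)) =
      residue B (cOf hπ g) ^ (n + 1) * residue B (aOf hπ n (σ : Γ)) := by
  rw [theta_conj hπ n g σ, ← IsLocalRing.ResidueField.residue_smul, residue_smul_eq_of_mem hg]

end theta

/-! ### Consequences for the group structure -/

section Structure

variable {π : B} (hπ : Irreducible π)

include hπ in
/-- `σ ∈ Γ_{n+1}` implies `σ ^ p ∈ Γ_{n+2}` (`p` the residue characteristic). -/
theorem pow_char_mem_ramGroup (hH : InertiaResidue Γ B) (p : ℕ) [CharP (ResidueField B) p]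
    {n : ℕ} {σ : Γ} (hσ : σ ∈ ramGroup Γ B (n + 1)) : σ ^ p ∈ ramGroup Γ B (n + 2) := by
  have h := (theta_eq_one_iff hπ hH n (⟨σ, hσ⟩ ^ p)).1 (by
    rw [map_pow]
    apply Multiplicative.toAdd.injective
    rw [toAdd_pow, toAdd_one, nsmul_eq_mul, CharP.cast_eq_zero, zero_mul])
  exact h

/-- `Γ₁` is a `p`-group (`Γ` finite acting faithfully, `p` the residue characteristic). -/
theorem isPGroup_ramGroup_one (hH : InertiaResidue Γ B) (p : ℕ) [CharP (ResidueField B) p]
    [Finite Γ] [FaithfulSMul Γ B] : IsPGroup p (ramGroup Γ B 1) := by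
  obtain ⟨π, hπ⟩ := IsDiscreteValuationRing.exists_irreducible B
  obtain ⟨N, hN⟩ := exists_ramGroup_eq_bot (Γ := Γ) (B := B)
  have key : ∀ k : ℕ, ∀ σ : Γ, σ ∈ ramGroup Γ B 1 → σ ^ (p ^ k) ∈ ramGroup Γ B (k + 1) := by
    intro k
    induction k with
    | zero =>
      intro σ hσ
      rwa [pow_zero, pow_one]
    | succ k ih =>
      intro σ hσ
      rw [pow_succ, pow_mul]
      exact pow_char_mem_ramGroup hπ hH p (ih σ hσ)
  intro σ
  refine ⟨N, ?_⟩
  have h := key N σ σ.2
  have h' : (σ : Γ) ^ (p ^ N) ∈ ramGroup Γ B N := ramGroup_antitone (Nat.le_succ N) h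
  rw [hN, Subgroup.mem_bot] at h'
  exact Subtype.ext h'

/-- `θ₀` separates the cosets of `Γ₁` in `Γ₀`. -/
theorem theta0_eq_iff (hH : InertiaResidue Γ B) (σ τ : ramGroup Γ B 0) :
    theta0 hπ σ = theta0 hπ τ ↔ ((σ⁻¹ * τ : ramGroup Γ B 0) : Γ) ∈ ramGroup Γ B 1 := by
  rw [← theta0_eq_one_iff hπ hH, map_mul, map_inv, inv_mul_eq_one]

/-- `Γ₀ / Γ₁` embeds into `κˣ`. -/
noncomputable def theta0Quot (hH : InertiaResidue Γ B) :
    (ramGroup Γ B 0 ⧸ (ramGroup Γ B 1).subgroupOf (ramGroup Γ B 0)) →* (ResidueField B)ˣ :=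
  QuotientGroup.lift _ (theta0 hπ) (fun σ hσ => (theta0_eq_one_iff hπ hH σ).2 hσ)

theorem theta0Quot_injective (hH : InertiaResidue Γ B) :
    Function.Injective (theta0Quot hπ hH) := by
  rw [injective_iff_map_eq_one]
  intro x hx
  obtain ⟨σ, rfl⟩ := QuotientGroup.mk_surjective x
  have h1 : theta0 hπ σ = 1 := hx
  rw [QuotientGroup.eq_one_iff]
  exact (theta0_eq_one_iff hπ hH σ).1 h1

/-- `Γ₀ / Γ₁` is cyclic. -/
theorem isCyclic_inertia_quotient (hH : InertiaResidue Γ B) [Finite Γ] :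
    IsCyclic (ramGroup Γ B 0 ⧸ (ramGroup Γ B 1).subgroupOf (ramGroup Γ B 0)) := by
  obtain ⟨π, hπ⟩ := IsDiscreteValuationRing.exists_irreducible B
  exact isCyclic_of_injective_ringHom
    ((Units.coeHom (ResidueField B)).comp (theta0Quot hπ hH))
    (Units.val_injective.comp (theta0Quot_injective hπ hH))

/-- The order of `Γ₀ / Γ₁` is prime to the residue characteristic. -/
theorem not_dvd_card_inertia_quotient (hH : InertiaResidue Γ B) [Finite Γ] (p : ℕ)
    [hp : Fact p.Prime] [CharP (ResidueField B) p] :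
    ¬ p ∣ Nat.card (ramGroup Γ B 0 ⧸ (ramGroup Γ B 1).subgroupOf (ramGroup Γ B 0)) := by
  obtain ⟨π, hπ⟩ := IsDiscreteValuationRing.exists_irreducible B
  intro hdvd
  obtain ⟨x, hx⟩ := exists_prime_orderOf_dvd_card' p hdvd
  have h1 : x ^ p = 1 := by rw [← hx]; exact pow_orderOf_eq_one x
  have h2 : ((theta0Quot hπ hH x : (ResidueField B)ˣ) : ResidueField B) ^ p = 1 := by
    rw [← Units.val_pow_eq_pow_val, ← map_pow, h1, map_one, Units.val_one]
  have h3 : ((theta0Quot hπ hH x : (ResidueField B)ˣ) : ResidueField B) = 1 := by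
    have h4 : (((theta0Quot hπ hH x : (ResidueField B)ˣ) : ResidueField B) - 1) ^ p = 0 := by
      rw [sub_pow_char, one_pow, h2, sub_self]
    exact sub_eq_zero.1 (pow_eq_zero_iff (hp.out.ne_zero) |>.1 h4)
  have h5 : theta0Quot hπ hH x = 1 := Units.ext h3
  have h6 : x = 1 := theta0Quot_injective hπ hH (h5.trans (map_one _).symm)
  rw [h6, orderOf_one] at hx
  exact hp.out.one_lt.ne hx

end Structure

end Fermat.Agent.S56.H334

end
-- ===== PACK-END S56/H334/RamTheta.lean

-- ===== PACK-BEGIN S56/H794/TameFaithful.lean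
section




/-!
# S56 / LOC-TAME (helper794), part 1: the tame character is faithful on prime-to-residue-char
quotients of inertia

`L/K` algebraic, `A` a valuation subring of `L`, `τ ∈ A.inertiaSubgroupIn K`.
`tameHom A hτ : Lˣ →* kˣ` is the tame character of `Fermat.Agent.A2.H708`.

* `tameHom_pow` : `tame(τ ^ n) = tame(τ) ^ n`.
* `tameHom_ne_one_of_pow_apply_eq` : if `τ ^ m` fixes `x`, `m` is a unit of `A` (i.e. prime to the
  residue characteristic) and `τ x ≠ x`, then the tame character of `τ` is nontrivial on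
  `τ x - x`.  (Proof: `y = τ x - x` has `∑_{i<m} τ^i y = 0`; if `tame τ y = 1` then every
  `τ^i y ≡ y mod y𝔪`, so `m y ∈ y𝔪`.)
* `exists_tameHom_ne_one` : for a homomorphism `f` of finite level (open kernel) on
  `Gal(L/K)`: if `f τ ≠ 1` and `f τ ^ m = 1` with `m` a unit of `A`, then the tame character of
  `τ` is nontrivial.
-/

set_option autoImplicit false

namespace Fermat.Agent.S56.H794

open Fermat.Agent.A2.H708

section general

variable {K L : Type*} [Field K] [Field L] [Algebra K L] [Algebra.IsAlgebraic K L]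
  (A : ValuationSubring L)

/-- The tame character only depends on the automorphism (proof irrelevance helper). -/
theorem tameHom_congr {σ τ : L ≃ₐ[K] L} (h : σ = τ) (hσ : σ ∈ A.inertiaSubgroupIn K)
    (hτ : τ ∈ A.inertiaSubgroupIn K) (c : Lˣ) : tameHom A hσ c = tameHom A hτ c := by
  subst h
  rfl

/-- The tame character of the identity is trivial. -/
theorem tameHom_one (c : Lˣ) : tameHom A (one_mem (A.inertiaSubgroupIn K)) c = 1 :=
  tameHom_eq_one_of_fixed A _ c rfl

/-- The tame character of a power. -/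
theorem tameHom_pow {τ : L ≃ₐ[K] L} (hτ : τ ∈ A.inertiaSubgroupIn K) (n : ℕ) (c : Lˣ) :
    tameHom A (pow_mem hτ n) c = tameHom A hτ c ^ n := by
  induction n with
  | zero =>
    exact (tameHom_congr A (pow_zero τ) (pow_mem hτ 0) (one_mem _) c).trans
      ((tameHom_one A c).trans (pow_zero _).symm)
  | succ n ih =>
    calc tameHom A (pow_mem hτ (n + 1)) c
        = tameHom A (mul_mem (pow_mem hτ n) hτ) c :=
          tameHom_congr A (pow_succ τ n) _ _ c
      _ = tameHom A (pow_mem hτ n) c * tameHom A hτ c := tameHom_mul A _ _ c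
      _ = tameHom A hτ c ^ n * tameHom A hτ c := congrArg (· * tameHom A hτ c) ih
      _ = tameHom A hτ c ^ (n + 1) := (pow_succ _ _).symm

omit [Algebra.IsAlgebraic K L] in
/-- Telescoping sum: `∑_{i<m} τ^i (τ x - x) = τ^m x - x`. -/
theorem sum_pow_apply_sub (τ : L ≃ₐ[K] L) (x : L) (m : ℕ) :
    ∑ i ∈ Finset.range m, (τ ^ i) (τ x - x) = (τ ^ m) x - x := by
  induction m with
  | zero => simp
  | succ m ih =>
    rw [Finset.sum_range_succ, ih, map_sub]
    have h1 : (τ ^ m) (τ x) = (τ ^ (m + 1)) x := by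
      rw [pow_succ]
      rfl
    rw [h1]
    ring

/-- **Faithfulness of the tame character.**  If `τ ^ m` fixes `x`, where `m` is prime to the
residue characteristic (`v m = 1`), and `τ x ≠ x`, then the tame character of `τ` is
nontrivial on `τ x - x`. -/
theorem tameHom_ne_one_of_pow_apply_eq {τ : L ≃ₐ[K] L} (hτ : τ ∈ A.inertiaSubgroupIn K)
    {x : L} {m : ℕ} (hm : A.valuation (m : L) = 1) (hx : (τ ^ m) x = x) (hne : τ x ≠ x) :
    tameHom A hτ (Units.mk0 (τ x - x) (sub_ne_zero.mpr hne)) ≠ 1 := by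
  intro h1
  have hy : τ x - x ≠ 0 := sub_ne_zero.mpr hne
  have hvy : A.valuation (τ x - x) ≠ 0 := (Valuation.ne_zero_iff _).mpr hy
  have hi : ∀ i : ℕ, A.valuation ((τ ^ i) (τ x - x) - (τ x - x)) < A.valuation (τ x - x) := by
    intro i
    have h2 := tameHom_pow A hτ i (Units.mk0 (τ x - x) hy)
    rw [h1, one_pow] at h2
    exact (tameHom_eq_one_iff A (pow_mem hτ i) _).mp h2
  have hsum : ∑ i ∈ Finset.range m, ((τ ^ i) (τ x - x) - (τ x - x)) = - ((m : L) * (τ x - x)) := by
    rw [Finset.sum_sub_distrib, sum_pow_apply_sub, hx, sub_self, Finset.sum_const,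
      Finset.card_range, nsmul_eq_mul, zero_sub]
  have hlt : A.valuation (∑ i ∈ Finset.range m, ((τ ^ i) (τ x - x) - (τ x - x))) <
      A.valuation (τ x - x) :=
    Valuation.map_sum_lt _ hvy (fun i _ => hi i)
  rw [hsum, Valuation.map_neg, map_mul, hm, one_mul] at hlt
  exact lt_irrefl _ hlt

end general

/-- A homomorphism on `Gal(L/K)` is of *finite level* if it is trivial on the subgroup fixing
some finite subextension. -/
def FiniteLevel {K L : Type*} [Field K] [Field L] [Algebra K L] {G : Type*} [Group G]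
    (f : (L ≃ₐ[K] L) →* G) : Prop :=
  ∃ E : IntermediateField K L, FiniteDimensional K E ∧ ∀ τ : L ≃ₐ[K] L, (∀ x ∈ E, τ x = x) → f τ = 1

section finiteLevel

variable {K L : Type*} [Field K] [Field L] [Algebra K L] [IsGalois K L]
  (A : ValuationSubring L)

/-- The kernel of a homomorphism of finite level is the group fixing its fixed field. -/
theorem mem_ker_of_fixes_fixedField {G : Type*} [Group G] {f : (L ≃ₐ[K] L) →* G}
    (hf : FiniteLevel f) {τ : L ≃ₐ[K] L}
    (hτ : ∀ x ∈ IntermediateField.fixedField f.ker, τ x = x) : f τ = 1 := by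
  obtain ⟨E, hE, hEf⟩ := hf
  have hle : E.fixingSubgroup ≤ f.ker := by
    intro σ hσ
    rw [MonoidHom.mem_ker]
    apply hEf
    intro x hx
    exact (IntermediateField.mem_fixingSubgroup_iff E σ).mp hσ x hx
  have hopen : IsOpen (f.ker : Set (L ≃ₐ[K] L)) :=
    Subgroup.isOpen_mono hle E.fixingSubgroup_isOpen
  have hclosed : IsClosed (f.ker : Set (L ≃ₐ[K] L)) :=
    OpenSubgroup.isClosed ⟨f.ker, hopen⟩
  have h := InfiniteGalois.fixingSubgroup_fixedField (k := K) (K := L) ⟨f.ker, hclosed⟩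
  have hmem : τ ∈ (IntermediateField.fixedField f.ker).fixingSubgroup := by
    rw [IntermediateField.mem_fixingSubgroup_iff]
    exact hτ
  have h2 : τ ∈ f.ker := by
    have h3 : (IntermediateField.fixedField (⟨f.ker, hclosed⟩ : ClosedSubgroup (L ≃ₐ[K] L)).1).fixingSubgroup
        = f.ker := h
    rw [← h3]
    exact hmem
  exact MonoidHom.mem_ker.mp h2

/-- **Faithfulness, finite-level form.**  If `f τ ≠ 1` but `f τ ^ m = 1` with `m` prime to the
residue characteristic, then the tame character of `τ` is nontrivial on some element of the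
fixed field of `ker f`. -/
theorem exists_tameHom_ne_one {G : Type*} [Group G] {f : (L ≃ₐ[K] L) →* G}
    (hf : FiniteLevel f) {τ : L ≃ₐ[K] L} (hτ : τ ∈ A.inertiaSubgroupIn K)
    {m : ℕ} (hm : A.valuation (m : L) = 1) (hfm : f τ ^ m = 1) (hne : f τ ≠ 1) :
    ∃ c : Lˣ, (c : L) ∈ IntermediateField.fixedField f.ker ∧ tameHom A hτ c ≠ 1 := by
  by_contra hcon
  have hcon' : ∀ c : Lˣ, (c : L) ∈ IntermediateField.fixedField f.ker → tameHom A hτ c = 1 := by
    intro c hc
    by_contra h
    exact hcon ⟨c, hc, h⟩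
  apply hne
  apply mem_ker_of_fixes_fixedField hf
  intro x hx
  by_contra hx'
  have hτm : τ ^ m ∈ f.ker := by
    rw [MonoidHom.mem_ker, map_pow, hfm]
  have hxm : (τ ^ m) x = x := by
    have := (IntermediateField.mem_fixedField_iff f.ker x).mp hx
    exact this (τ ^ m) hτm
  have hτx : τ x ∈ IntermediateField.fixedField f.ker := by
    rw [IntermediateField.mem_fixedField_iff]
    intro σ hσ
    -- σ (τ x) = τ ((τ⁻¹ σ τ) x) = τ x since ker is normal
    have hconj : τ⁻¹ * σ * τ ∈ f.ker := by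
      have := f.normal_ker.conj_mem σ hσ τ⁻¹
      simpa [mul_assoc] using this
    have h1 : (τ⁻¹ * σ * τ) x = x :=
      (IntermediateField.mem_fixedField_iff f.ker x).mp hx _ hconj
    have h2 : τ ((τ⁻¹ * σ * τ) x) = σ (τ x) := by
      show (τ * (τ⁻¹ * σ * τ)) x = (σ * τ) x
      congr 1
      group
    rw [← h2, h1]
  have hmem : (τ x - x) ∈ IntermediateField.fixedField f.ker := sub_mem hτx hx
  exact tameHom_ne_one_of_pow_apply_eq A hτ hm hxm hx' (hcon' _ hmem)

end finiteLevel

end Fermat.Agent.S56.H794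

end
-- ===== PACK-END S56/H794/TameFaithful.lean

-- ===== PACK-BEGIN S56/H186/TameWild.lean
section



/-!
# S56 / leaf TAME-CYC (helper186), part 2: the kernel of the tame character is "wild"

`L/K` algebraic, `A` a valuation subring of `L`, `τ` in the inertia group of `A` (Prelude form).

* `valuation_pow_apply_sub_lt` : if `v (τ x - x) < v x` then `v (τ ^ j x - x) < v x` for all `j`.
* `apply_eq_of_pow_apply_eq` : if `τ ^ ℓ` fixes `y`, `ℓ` is a unit of `A`, and the tame character of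
  `τ` is trivial at `τ y - y`, then `τ` fixes `y` (trace argument).
* `exists_pow_fixes_of_tame_trivial` : if the tame character of `τ` is trivial on a `τ`-stable
  subfield `E` on which `τ ^ n` is trivial (`n > 0`), and all primes `≠ q` are units of `A`, then
  `τ ^ (q ^ a)` is trivial on `E` for some `a`.
-/

set_option autoImplicit false
set_option linter.unusedSectionVars false

namespace Fermat.Agent.S56.H186

open Fermat.Agent.A2.H708

variable {K L : Type*} [Field K] [Field L] [Algebra K L] [Algebra.IsAlgebraic K L]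
  (A : ValuationSubring L)

theorem pow_succ_apply' (τ : L ≃ₐ[K] L) (j : ℕ) (x : L) : (τ ^ (j + 1)) x = τ ((τ ^ j) x) := by
  rw [pow_succ']; rfl

/-- If `τ` moves `x` by less than `v x`, so does every power of `τ`. -/
theorem valuation_pow_apply_sub_lt {τ : L ≃ₐ[K] L} (hτ : τ ∈ A.decompositionSubgroup K) {x : L}
    (hx : A.valuation (τ x - x) < A.valuation x) (j : ℕ) :
    A.valuation ((τ ^ j) x - x) < A.valuation x := by
  induction j with
  | zero =>
    have h0 : (τ ^ 0) x - x = 0 := by simp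
    rw [h0, map_zero]
    exact lt_of_le_of_lt zero_le hx
  | succ j ih =>
    have h1 : (τ ^ (j + 1)) x - x = τ ((τ ^ j) x - x) + (τ x - x) := by
      rw [pow_succ_apply', map_sub]; ring
    rw [h1]
    refine lt_of_le_of_lt (Valuation.map_add _ _ _) (max_lt ?_ hx)
    rw [valuation_apply_of_mem_decomposition A hτ]
    exact ih

/-- Trace argument: an inertia element `τ` such that `τ ^ ℓ` fixes `y`, with `ℓ` a unit of `A`
and trivial tame character at `τ y - y`, fixes `y`. -/
theorem apply_eq_of_pow_apply_eq {τ : L ≃ₐ[K] L} (hτ : τ ∈ A.decompositionSubgroup K) {ℓ : ℕ}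
    (hℓ : A.valuation (ℓ : L) = 1) {y : L} (hy : (τ ^ ℓ) y = y)
    (htame : τ y - y ≠ 0 →
      A.valuation (τ (τ y - y) - (τ y - y)) < A.valuation (τ y - y)) :
    τ y = y := by
  by_contra hne
  set x := τ y - y with hx
  have hx0 : x ≠ 0 := sub_ne_zero.mpr hne
  have hvx : A.valuation x ≠ 0 := (Valuation.ne_zero_iff _).mpr hx0
  have hlt := htame hx0
  -- telescoping sum
  have htel : ∀ n : ℕ, ∑ j ∈ Finset.range n, (τ ^ j) x = (τ ^ n) y - y := by
    intro n
    induction n with
    | zero => simp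
    | succ n ih =>
      rw [Finset.sum_range_succ, ih, hx, map_sub]
      have : (τ ^ n) (τ y) = (τ ^ (n + 1)) y := by
        rw [pow_succ]; rfl
      rw [this]; ring
  have hsum : ∑ j ∈ Finset.range ℓ, (τ ^ j) x = 0 := by rw [htel, hy, sub_self]
  have hsplit : (ℓ : L) * x = - ∑ j ∈ Finset.range ℓ, ((τ ^ j) x - x) := by
    rw [Finset.sum_sub_distrib, hsum, Finset.sum_const, Finset.card_range, nsmul_eq_mul]
    ring
  have h1 : A.valuation ((ℓ : L) * x) = A.valuation x := by rw [map_mul, hℓ, one_mul]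
  have h2 : A.valuation (∑ j ∈ Finset.range ℓ, ((τ ^ j) x - x)) < A.valuation x :=
    Valuation.map_sum_lt _ hvx (fun j _ => valuation_pow_apply_sub_lt A hτ hlt j)
  rw [hsplit, Valuation.map_neg] at h1
  exact absurd h1 (ne_of_lt h2)

/-- The kernel of the tame character acts through a `q`-group: if the tame character of `τ` is
trivial on a `τ`-stable subfield `E` on which some positive power of `τ` is trivial, and all
primes different from `q` are units of `A`, then `τ ^ (q ^ a)` is trivial on `E` for some `a`. -/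
theorem exists_pow_fixes_of_tame_trivial {τ : L ≃ₐ[K] L} (hτ : τ ∈ A.decompositionSubgroup K)
    (E : IntermediateField K L) (hE : ∀ y ∈ E, τ y ∈ E)
    (htame : ∀ x ∈ E, x ≠ 0 → A.valuation (τ x - x) < A.valuation x)
    {q : ℕ} (hq : q.Prime) (hunit : ∀ ℓ : ℕ, ℓ.Prime → ℓ ≠ q → A.valuation (ℓ : L) = 1)
    {n : ℕ} (hn : n ≠ 0) (hfix : ∀ y ∈ E, (τ ^ n) y = y) :
    ∃ a : ℕ, ∀ y ∈ E, (τ ^ (q ^ a)) y = y := by
  obtain ⟨a, m, hm, rfl⟩ := Nat.exists_eq_pow_mul_and_not_dvd hn q hq.ne_one
  refine ⟨a, ?_⟩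
  -- stability under powers
  have hEpow : ∀ (k : ℕ), ∀ y ∈ E, (τ ^ k) y ∈ E := by
    intro k
    induction k with
    | zero => intro y hy; simpa using hy
    | succ k ih => intro y hy; rw [pow_succ_apply']; exact hE _ (ih y hy)
  -- strong induction on m
  have key : ∀ m : ℕ, m ≠ 0 → ¬ q ∣ m → (∀ y ∈ E, (τ ^ (q ^ a * m)) y = y) →
      ∀ y ∈ E, (τ ^ (q ^ a)) y = y := by
    intro m
    induction m using Nat.strong_induction_on with
    | _ m ih =>
      intro hm0 hqm hfix
      rcases eq_or_ne m 1 with rfl | hm1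
      · simpa using hfix
      obtain ⟨ℓ, hℓ, m', hm'⟩ : ∃ ℓ : ℕ, ℓ.Prime ∧ ℓ ∣ m :=
        ⟨m.minFac, Nat.minFac_prime hm1, Nat.minFac_dvd m⟩
      have hℓq : ℓ ≠ q := by
        rintro rfl
        exact hqm ⟨m', hm'⟩
      have hm'0 : m' ≠ 0 := by
        rintro rfl
        rw [mul_zero] at hm'
        exact hm0 hm'
      have hm'lt : m' < m := by
        have h2 : 2 ≤ ℓ := hℓ.two_le
        have hpos : 0 < m' := Nat.pos_of_ne_zero hm'0
        calc m' < 2 * m' := by omega
          _ ≤ ℓ * m' := Nat.mul_le_mul_right _ h2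
          _ = m := hm'.symm
      have hqm' : ¬ q ∣ m' := fun h => hqm (hm' ▸ Dvd.dvd.mul_left h _)
      apply ih m' hm'lt hm'0 hqm'
      intro y hy
      set σ := τ ^ (q ^ a * m') with hσ
      have hσD : σ ∈ A.decompositionSubgroup K := pow_mem hτ _
      have hσℓ : (σ ^ ℓ) y = y := by
        rw [hσ, ← pow_mul]
        have : q ^ a * m' * ℓ = q ^ a * m := by rw [hm']; ring
        rw [this]
        exact hfix y hy
      refine apply_eq_of_pow_apply_eq A hσD (hunit _ hℓ hℓq) hσℓ ?_
      intro hx0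
      have hxE : σ y - y ∈ E := E.sub_mem (hEpow _ y hy) hy
      exact valuation_pow_apply_sub_lt A hτ (htame _ hxE hx0) _
  have hm0 : m ≠ 0 := by
    rintro rfl
    simp at hn
  exact key m hm0 hm hfix

end Fermat.Agent.S56.H186

end
-- ===== PACK-END S56/H186/TameWild.lean

-- ===== PACK-BEGIN S59/Arch/Spec.lean
section











/-!
# Row S59 — middle-layer interfaces (architecture draft, helper239)

Plan: `coord/S59-arch-helper239.md` on origin/helper239.  Only sorry-free definitions here.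
Every `...Statement : Prop` is a deliverable (prove `theorem foo : ...Statement`), every
structure is an interface between layers.

* `CurveRep p W 𝒪`        : the `p`-adic Tate module of `W` with all its local properties (layer E).
* `PointOfDatum H ρ`       : `ρ` is the specialisation of the Hecke–Galois datum `H` at an
                             `𝒪`-point of `T` ("`ρ` is modular of the level of `H`").
* `FrobExistsStatement`    : Frobenius elements exist at every prime.
* `semistableCond`         : the deformation condition satisfied by `CurveRep`.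
* `SemistableMLTStatement` : the modularity lifting theorem in "point" form.
-/

set_option autoImplicit false

namespace Fermat.Agent.S59.Arch

open Polynomial WeierstrassCurve WeierstrassCurve.Affine WeierstrassCurve.Affine.Point
open scoped WeierstrassCurve.Affine

/-- `ℚ̄` -/
abbrev Qb : Type := AlgebraicClosure ℚ

/-- `Gal(ℚ̄/ℚ)` -/
abbrev GQ : Type := Qb ≃ₐ[ℚ] Qb

/-- Frobenius elements exist: over every prime `ℓ` there is a valuation subring of `ℚ̄` and an
(arithmetic) Frobenius element for it. -/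
def FrobExistsStatement : Prop :=
  ∀ ℓ : ℕ, ℓ.Prime → ∃ (A : ValuationSubring Qb) (σ : GQ), A.LiesOverPrime ℓ ∧
    A.IsFrobeniusAt σ ℓ

section CurveRep

variable (p : ℕ) [Fact p.Prime] (W : WeierstrassCurve ℤ)
  (𝒪 : Type) [CommRing 𝒪] [IsLocalRing 𝒪]

/-- **Interface I0 (layer E).**  The `p`-adic Galois representation of the semistable curve `W`
(its Tate module, base changed to `𝒪`), with the local properties needed to make it a deformation
of `E[p]` of "semistable type". -/
structure CurveRep : Type 1 where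
  /-- the representation -/
  ρ : GaloisRepAdic 𝒪
  /-- `E[p]` has `p²` points -/
  hcard : Nat.card (Submodule.torsionBy ℤ
      ((W.map (Int.castRingHom ℚ))⁄(AlgebraicClosure ℚ)).Point p) = p ^ 2
  /-- the action on `E[p]` factors through a finite quotient -/
  hker : GaloisFactorsThroughFiniteLevel
      (WeierstrassCurve.Affine.Point.galoisRepModuleEnd (K := AlgebraicClosure ℚ) ℚ
        (W.map (Int.castRingHom ℚ)) p)
  /-- the residue field of `𝒪` is an extension of `𝔽_p` -/
  ι : ZMod p →+* IsLocalRing.ResidueField 𝒪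
  /-- the reduction of `ρ` is `E[p]` -/
  residual : ρ.residual.IsEquiv
    (((W.map (Int.castRingHom ℚ)).residualGaloisRepOf p hcard hker).baseChangeAlong ι)
  /-- Frobenius at the good primes `ℓ ≠ p` -/
  charpoly_frob : ∀ ℓ : ℕ, ℓ.Prime → W.IsGoodPrimeFor ℓ → ℓ ≠ p →
    ∀ A : ValuationSubring Qb, A.LiesOverPrime ℓ → ∀ σ : GQ, A.IsFrobeniusAt σ ℓ →
      LinearMap.charpoly (ρ.ρ σ) = X ^ 2 - C ((W.apOfModel ℓ : ℤ) : 𝒪) * X + C ((ℓ : 𝒪))
  /-- the determinant is the cyclotomic character -/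
  det : ρ.DetIsCyclotomic p
  /-- unramified at the good primes `ℓ ≠ p` -/
  unram : ∀ ℓ : ℕ, ℓ.Prime → W.IsGoodPrimeFor ℓ → ℓ ≠ p → ρ.IsUnramifiedAt ℓ
  /-- unipotent inertia at the bad primes `ℓ ≠ p` (semistability) -/
  unip : ∀ ℓ : ℕ, ℓ.Prime → ¬ W.IsGoodPrimeFor ℓ → ℓ ≠ p → ρ.IsUnipotentOnInertiaAt ℓ
  /-- flat at `p` if `W` has good reduction at `p` -/
  flat : W.IsGoodPrimeFor p → ρ.IsFlatAt p
  /-- strictly ordinary at `p` if `W` has multiplicative reduction at `p` -/
  ord : ¬ W.IsGoodPrimeFor p → ρ.IsStrictOrdinaryAt p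

end CurveRep

/-- **Layer E deliverable.**  Every semistable `W` with irreducible `E[p]` (`p` odd) has a
`CurveRep` over every complete DVR `𝒪` of characteristic zero and residue characteristic `p`
with finite residue field (in particular over `ℤ_p`). -/
def CurveRepStatement : Prop :=
  ∀ (p : ℕ) [Fact p.Prime] (_hp2 : p ≠ 2) (W : WeierstrassCurve ℤ) (_hΔ : W.Δ ≠ 0)
    (_hW : W.IsSemistableModel) (_hirr : W.ModRepIsIrreducible p)
    (𝒪 : Type) [CommRing 𝒪] [IsDomain 𝒪] [IsDiscreteValuationRing 𝒪]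
    [IsAdicComplete (IsLocalRing.maximalIdeal 𝒪) 𝒪] [Finite (IsLocalRing.ResidueField 𝒪)]
    [CharZero 𝒪] (_hp𝒪 : (p : 𝒪) ∈ IsLocalRing.maximalIdeal 𝒪),
    Nonempty (CurveRep p W 𝒪)

section Point

variable {N : ℕ} [NeZero N] {S : Set ℕ}
  {𝒪 : Type} [CommRing 𝒪] [IsDomain 𝒪] [IsDiscreteValuationRing 𝒪]
  [IsAdicComplete (IsLocalRing.maximalIdeal 𝒪) 𝒪]
  {θ : CuspForm.heckeAlgebra N 2 S →+* IsLocalRing.ResidueField 𝒪}
  {T : Type} [CommRing T] [IsLocalRing T] [IsNoetherianRing T]
  [IsAdicComplete (IsLocalRing.maximalIdeal T) T] [Algebra 𝒪 T] [IsLocalHom (algebraMap 𝒪 T)]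
  [Module.Finite 𝒪 T] [Module.Free 𝒪 T]

/-- `ρ` is the specialisation of the Hecke–Galois datum `H` at an `𝒪`-point of `T`. -/
def PointOfDatum (H : CuspForm.HeckeGaloisRepDatum N S 𝒪 θ T) (ρ : GaloisRepAdic 𝒪) : Prop :=
  ∃ (ψ : T →ₐ[𝒪] 𝒪) (hψ : IsLocalHom (ψ : T →+* 𝒪)),
    (H.ρ.baseChangeAlong (ψ : T →+* 𝒪) hψ).IsEquiv ρ

end Point

/-- The deformation condition of "semistable type" relative to a finite set `Σ` of primes
(`p ∈ Σ`): determinant cyclotomic, unramified outside `Σ`, unipotent inertia at the primes of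
`Σ` different from `p`, and at `p`: flat (`ord = false`) or strictly ordinary (`ord = true`).
For `Σ = Smin ∪ Q` with the unipotent condition only at `Smin` one gets the conditions of S56;
here the unipotent condition is imposed on ALL of `Σ` (this is the type of `CurveRep` with
`Σ = {p} ∪ bad primes`). -/
def semistableCond (𝒪 : Type) [CommRing 𝒪] (p : ℕ) (Sig : Finset ℕ) (ord : Bool) :
    ∀ ⦃A : Type⦄ [CommRing A] [IsLocalRing A] [Algebra 𝒪 A], GaloisRepAdic A → Prop :=
  fun _A _ _ _ ρ =>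
    (if ord then GaloisRep.minimalStrictOrdinaryCondition 𝒪 p Sig ρ
      else GaloisRep.minimalFlatCondition 𝒪 p Sig ρ)

/-- **The modularity lifting theorem in point form** (this is where `R = T` lives).
For `p ∈ {3, 5}` and `W` as in S59 there are a cube-free level `N` (prime to `p²`, divisible by
the bad primes), a finite set `S` of primes (`= {p} ∪ primes of N`) and a Hecke–Galois datum `H`
of level `N` away from `S` over `𝒪 = ` any complete DVR as above, such that every `CurveRep` of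
`W` over `𝒪` is a point of `H`. -/
def SemistableMLTStatement : Prop :=
  ∀ (p : ℕ) [Fact p.Prime] (_hp : p = 3 ∨ p = 5)
    (W : WeierstrassCurve ℤ) (_hΔ : W.Δ ≠ 0) (_hW : W.IsSemistableModel)
    (_hirr : W.ModRepIsIrreducible p)
    (M₀ : ℕ) [NeZero M₀] (_hres₀ : W.IsResiduallyModularOfLevel p M₀)
    (_hM₀ : ¬ p ^ 2 ∣ M₀)
    (_hM₀3 : ∀ q : ℕ, q.Prime → q ≠ p → ¬ q ^ 3 ∣ M₀)
    (𝒪 : Type) [CommRing 𝒪] [IsDomain 𝒪] [IsDiscreteValuationRing 𝒪]
    [IsAdicComplete (IsLocalRing.maximalIdeal 𝒪) 𝒪] [Finite (IsLocalRing.ResidueField 𝒪)]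
    [CharZero 𝒪] (_hp𝒪 : (p : 𝒪) ∈ IsLocalRing.maximalIdeal 𝒪)
    (ρW : CurveRep p W 𝒪),
    ∃ (N : ℕ) (_ : NeZero N) (S : Finset ℕ),
      ¬ p ^ 2 ∣ N ∧ (∀ q : ℕ, q.Prime → ¬ q ^ 3 ∣ N) ∧
      (∀ ℓ : ℕ, ℓ.Prime → (ℓ : ℤ) ∣ W.Δ → ℓ ∣ N) ∧
      (∀ ℓ ∈ S, ℓ.Prime) ∧ (∀ ℓ ∈ S, ℓ = p ∨ ℓ ∣ N) ∧ p ∈ S ∧
      (∀ q : ℕ, q.Prime → q ∣ N → q ∈ S) ∧
      ∃ (θ : CuspForm.heckeAlgebra N 2 (↑S : Set ℕ) →+* IsLocalRing.ResidueField 𝒪)
        (T : Type) (_ : CommRing T) (_ : IsLocalRing T) (_ : IsNoetherianRing T)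
        (_ : IsAdicComplete (IsLocalRing.maximalIdeal T) T) (_ : Algebra 𝒪 T)
        (_ : IsLocalHom (algebraMap 𝒪 T)) (_ : Module.Finite 𝒪 T) (_ : Module.Free 𝒪 T)
        (H : CuspForm.HeckeGaloisRepDatum N (↑S : Set ℕ) 𝒪 θ T),
        PointOfDatum H ρW.ρ

end Fermat.Agent.S59.Arch

end
-- ===== PACK-END S59/Arch/Spec.lean

-- ===== PACK-BEGIN S31/Defs.lean
section




/-!
# Row S31 — frozen interface definitions (row-lead helper22)

S31: in a Hecke–Galois datum of level `N` away from `S`, the representation `H.ρ` is unramified at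
every prime `q ∉ S`.

Route (plan: `coord/S31.md` on `origin/helper22`):
`S31 ⇐ S30 + Lib/Cheb (FrobeniusDivisionStatement) + PTS (p-adic points of the Hecke algebra are
topologically separating; from S22 + SS) + ALG (trace criterion, trace of powers, continuity)`.

This file contains ONLY sorry-free definitions.  It is FROZEN once published.
-/

set_option autoImplicit false

open Polynomial

namespace Fermat.Agent.S31

/-- `ℚ̄`. -/
abbrev Qb : Type := AlgebraicClosure ℚ

/-- `Gal(ℚ̄/ℚ)`. -/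
abbrev GQ : Type := Qb ≃ₐ[ℚ] Qb

/-- The exact type of the frozen statement S30 (existence of the Galois representation attached
to a `p`-adic point of the Hecke algebra).  Input of the row, provided by the S30 row. -/
def S30Statement : Prop :=
  ∀ (p : ℕ) [Fact p.Prime] (N : ℕ) [NeZero N] (S : Finset ℕ)
    (_hpS : p ∈ S) (_hNS : ∀ q : ℕ, q.Prime → q ∣ N → q ∈ S)
    (𝒪' : Type) [CommRing 𝒪'] [IsDomain 𝒪'] [IsDiscreteValuationRing 𝒪']
    [IsAdicComplete (IsLocalRing.maximalIdeal 𝒪') 𝒪'] [Finite (IsLocalRing.ResidueField 𝒪')]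
    [CharZero 𝒪'] (_hp𝒪' : (p : 𝒪') ∈ IsLocalRing.maximalIdeal 𝒪')
    (χ : CuspForm.heckeAlgebra N 2 (↑S : Set ℕ) →+* 𝒪'),
    ∃ (𝒪'' : Type) (_ : CommRing 𝒪'') (_ : IsDomain 𝒪'') (_ : IsDiscreteValuationRing 𝒪'')
      (_ : IsAdicComplete (IsLocalRing.maximalIdeal 𝒪'') 𝒪'')
      (_ : Finite (IsLocalRing.ResidueField 𝒪'')) (_ : CharZero 𝒪'')
      (_ : Algebra 𝒪' 𝒪'') (_ : Module.Finite 𝒪' 𝒪'') (_ : IsLocalHom (algebraMap 𝒪' 𝒪'')),
    Function.Injective (algebraMap 𝒪' 𝒪'') ∧
    ∃ ρ : GaloisRepAdic 𝒪'',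
      (∀ (ℓ : ℕ) (hℓ : ℓ.Prime) (hℓN : ¬ ℓ ∣ N) (hℓS : ℓ ∉ (↑S : Set ℕ)),
        ∀ A : ValuationSubring (AlgebraicClosure ℚ), A.LiesOverPrime ℓ →
          ∀ σ : AlgebraicClosure ℚ ≃ₐ[ℚ] AlgebraicClosure ℚ, A.IsFrobeniusAt σ ℓ →
            LinearMap.charpoly (ρ.ρ σ) =
              X ^ 2 - C (algebraMap 𝒪' 𝒪'' (χ (CuspForm.heckeAlgebra.T hℓ hℓN hℓS))) * X
                + C ((ℓ : 𝒪''))) ∧
      (∀ q : ℕ, q.Prime → ¬ q ∣ N → q ≠ p → ρ.IsUnramifiedAt q)

/-- Frobenius density input (Tier 1 of the shared library CHEB, frozen on main). -/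
abbrev ChebStatement : Prop := Fermat.Agent.Lib.Cheb.Spec.FrobeniusDivisionStatement

/-- A `p`-adic point of a commutative ring `R`: a ring hom to a complete DVR of characteristic zero
with finite residue field and residue characteristic `p`. -/
structure PadicPoint (p : ℕ) (R : Type) [CommRing R] : Type 1 where
  /-- the coefficient ring -/
  O : Type
  [commRing : CommRing O]
  [isDomain : IsDomain O]
  [isDVR : IsDiscreteValuationRing O]
  [isComplete : IsAdicComplete (IsLocalRing.maximalIdeal O) O]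
  [finiteResidue : Finite (IsLocalRing.ResidueField O)]
  [charZero : CharZero O]
  hp : (p : O) ∈ IsLocalRing.maximalIdeal O
  /-- the point -/
  χ : R →+* O

attribute [instance] PadicPoint.commRing PadicPoint.isDomain PadicPoint.isDVR
  PadicPoint.isComplete PadicPoint.finiteResidue PadicPoint.charZero

/-- **PTS**: the `p`-adic points of `R` are topologically separating at every prime `m ∋ p`:
for every `n` there are finitely many `p`-adic points and `n'` such that an element of `R` lying in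
the `n'`-th power of the maximal ideal at each of these points lies in `m ^ n`. -/
def PTS (p : ℕ) (R : Type) [CommRing R] : Prop :=
  ∀ (m : Ideal R), m.IsPrime → (p : R) ∈ m → ∀ n : ℕ,
    ∃ (F : List (PadicPoint p R)) (n' : ℕ), ∀ t : R,
      (∀ P ∈ F, P.χ t ∈ IsLocalRing.maximalIdeal P.O ^ n') → t ∈ m ^ n

/-- The universal polynomial `tr (f ^ j)` in terms of `a = tr f`, `d = det f` for `2 × 2`
matrices: `P₀ = 2`, `P₁ = a`, `P_{j+2} = a P_{j+1} - d P_j`. -/
def powTr {R : Type*} [CommRing R] (a d : R) : ℕ → R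
  | 0 => 2
  | 1 => a
  | (j + 2) => a * powTr a d (j + 1) - d * powTr a d j

/-- The conclusion of S31 for a given datum, as a `Prop` (to shorten statements). -/
def UnramifiedOutside {T : Type} [CommRing T] [IsLocalRing T] (ρ : GaloisRepAdic T)
    (S : Finset ℕ) : Prop :=
  ∀ q : ℕ, q.Prime → q ∉ S → ρ.IsUnramifiedAt q

end Fermat.Agent.S31

end
-- ===== PACK-END S31/Defs.lean

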