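import Mathlib
import Fermat.Prelude.Def_FLTPrelim_Ramification
import Fermat.Prelude.Def_GaloisRep_DeformationCondition
import Fermat.Agent.Pack.S43GC.G0E1L1
import Fermat.Agent.Pack.S43GC.G0E1L0
import Fermat.Agent.Pack.S43GC.G0E0L1
import Fermat.Agent.Pack.S43GC.G0E2L2
import Fermat.Agent.Pack.S44C.G0E0L2
import Fermat.Agent.Pack.S44C.G0E5L3
import Fermat.Agent.Pack.S43GC.G0E1L3
import Fermat.Agent.Pack.S43GC.G0E2L0
import Fermat.Agent.Pack.S43GC.G0E0L2
import Fermat.Agent.Pack.S43GC.G0E0L3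
import Fermat.Agent.Pack.S43GC.G0E2L1
import Fermat.Agent.Pack.S43GC.G0E3L1
import Fermat.Agent.Pack.Fast891

-- ===== PACK-BEGIN S14/H163/ZetaIdeal.lean
section



/-!
# Ideal-indexed Dirichlet series of a number field (helper163, S14 density block)
-/

set_option autoImplicit false
set_option linter.unusedSectionVars false

namespace Fermat.Agent.S14.H163

open NumberField IsDedekindDomain Filter Topology
open scoped nonZeroDivisors

variable (K : Type*) [Field K] [NumberField K]

theorem countable_ideal : Countable (Ideal (𝓞 K)) := by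
  have h : (Set.univ : Set (Ideal (𝓞 K))) = ⋃ n : ℕ, {I | Ideal.absNorm I = n} := by
    ext I
    simp
  have hc : (Set.univ : Set (Ideal (𝓞 K))).Countable := by
    rw [h]
    exact Set.countable_iUnion fun n => (Ideal.finite_setOfPred_absNorm_eq n).countable
  exact Set.countable_univ_iff.mp hc

theorem exists_coding : ∃ c : Ideal (𝓞 K) → ℕ, Function.Injective c ∧ ∀ I, (c I).Prime := by
  haveI := countable_ideal K
  obtain ⟨e, he⟩ := exists_injective_nat (Ideal (𝓞 K))
  refine ⟨fun I => Nat.nth Nat.Prime (e I), ?_, fun I => Nat.prime_nth_prime _⟩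
  exact (Nat.nth_injective Nat.infinite_setOfPred_prime).comp he

variable {K}

/-- **Euler product** for a monoid homomorphism on the nonzero ideals of `𝓞 K` whose norms are
summable. -/
theorem hasProd_ideal {𝔽 : Type*} [NormedField 𝔽] [CompleteSpace 𝔽]
    (F : (Ideal (𝓞 K))⁰ →* 𝔽) (hsum : Summable (fun I : (Ideal (𝓞 K))⁰ => ‖F I‖)) :
    HasProd (fun v : HeightOneSpectrum (𝓞 K) => (1 - F (toI0 v))⁻¹)
      (∑' I : (Ideal (𝓞 K))⁰, F I) := by
  obtain ⟨c, hinj, hc⟩ := exists_coding K
  exact hasProd_of_coding F hinj hc hsum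

/-- The norm of a nonzero ideal is a positive natural number. -/
theorem absNorm_pos (I : (Ideal (𝓞 K))⁰) : 0 < Ideal.absNorm (I : Ideal (𝓞 K)) := by
  rw [Nat.pos_iff_ne_zero, Ne, Ideal.absNorm_eq_zero_iff]
  exact nonZeroDivisors.ne_zero I.2

theorem one_le_absNorm (I : (Ideal (𝓞 K))⁰) : (1 : ℝ) ≤ Ideal.absNorm (I : Ideal (𝓞 K)) := by
  exact_mod_cast absNorm_pos I

/-- `I ↦ N(I)^(-s)` as a monoid hom to `ℝ`. -/
noncomputable def normPow (s : ℝ) : (Ideal (𝓞 K))⁰ →* ℝ where
  toFun I := (Ideal.absNorm (I : Ideal (𝓞 K)) : ℝ) ^ (-s)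
  map_one' := by simp
  map_mul' I J := by
    simp only [Submonoid.coe_mul, map_mul, Nat.cast_mul]
    rw [Real.mul_rpow (Nat.cast_nonneg _) (Nat.cast_nonneg _)]

theorem normPow_apply (s : ℝ) (I : (Ideal (𝓞 K))⁰) :
    normPow s I = (Ideal.absNorm (I : Ideal (𝓞 K)) : ℝ) ^ (-s) := rfl

theorem normPow_pos (s : ℝ) (I : (Ideal (𝓞 K))⁰) : 0 < normPow s I := by
  rw [normPow_apply]
  exact Real.rpow_pos_of_pos (by exact_mod_cast absNorm_pos I) _

theorem normPow_le_one {s : ℝ} (hs : 0 ≤ s) (I : (Ideal (𝓞 K))⁰) : normPow s I ≤ 1 := by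
  rw [normPow_apply]
  exact Real.rpow_le_one_of_one_le_of_nonpos (one_le_absNorm I) (by linarith)

theorem normPow_anti {s t : ℝ} (hst : s ≤ t) (I : (Ideal (𝓞 K))⁰) : normPow t I ≤ normPow s I := by
  rw [normPow_apply, normPow_apply]
  exact Real.rpow_le_rpow_of_exponent_le (one_le_absNorm I) (by linarith)

section Summability

open Ideal in
theorem tendsto_sum_card_div (K : Type*) [Field K] [NumberField K] :
    Tendsto (fun n : ℕ => (∑ k ∈ Finset.Icc 1 n,
      (Nat.card {I : Ideal (𝓞 K) // absNorm I = k} : ℝ)) / (n : ℝ)) atTop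
      (𝓝 (dedekindZeta_residue K)) := by
  refine ((Ideal.tendsto_norm_le_div_atTop₀ K).comp tendsto_natCast_atTop_atTop).congr fun n ↦ ?_
  simp only [Function.comp_apply, Nat.cast_le, ← Nat.cast_sum]
  congr
  rw [← add_left_inj 1, ← card_norm_le_eq_card_norm_le_add_one,
    show Finset.Icc 1 n = Finset.Ioc 0 n from Finset.Icc_succ_left_eq_Ioc _ _,
    show 1 = Nat.card {I : Ideal (𝓞 K) // absNorm I = 0} by simp [Ideal.absNorm_eq_zero_iff],
    Finset.sum_Ioc_add_eq_sum_Icc (n.zero_le),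
    ← Finset.card_preimage_eq_sum_card_image_eq (fun k _ ↦ finite_setOfPred_absNorm_eq k)]
  simp [Set.coe_eq_subtype]

theorem lseriesSummable_card (K : Type*) [Field K] [NumberField K] {s : ℝ} (hs : 1 < s) :
    LSeriesSummable (fun n => (Nat.card {I : Ideal (𝓞 K) // Ideal.absNorm I = n} : ℂ)) (s : ℂ) := by
  have := LSeriesSummable_of_sum_norm_bigO_and_nonneg
    (f := fun n => (Nat.card {I : Ideal (𝓞 K) // Ideal.absNorm I = n} : ℝ)) (r := 1) (s := (s : ℂ))
    ?_ (fun _ => Nat.cast_nonneg _) zero_le_one (by simpa using hs)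
  · simpa using this
  · exact Asymptotics.isBigO_atTop_natCast_rpow_of_tendsto_div_rpow (a := dedekindZeta_residue K)
      (by simpa using tendsto_sum_card_div K)

/-- The fibre of the norm on nonzero ideals over `n ≠ 0` is the fibre on all ideals. -/
noncomputable def fiberEquiv (K : Type*) [Field K] [NumberField K] {n : ℕ} (hn : n ≠ 0) :
    {I : (Ideal (𝓞 K))⁰ // Ideal.absNorm (I : Ideal (𝓞 K)) = n} ≃
      {I : Ideal (𝓞 K) // Ideal.absNorm I = n} where
  toFun I := ⟨I.1.1, I.2⟩
  invFun I := ⟨⟨I.1, mem_nonZeroDivisors_of_ne_zero (by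
    intro h
    apply hn
    rw [← I.2, h]
    simp)⟩, I.2⟩
  left_inv I := rfl
  right_inv I := rfl

instance fiber_finite (K : Type*) [Field K] [NumberField K] (n : ℕ) :
    Finite {I : (Ideal (𝓞 K))⁰ // Ideal.absNorm (I : Ideal (𝓞 K)) = n} := by
  have : Finite {I : Ideal (𝓞 K) // Ideal.absNorm I = n} :=
    (Ideal.finite_setOfPred_absNorm_eq n).to_subtype
  refine Finite.of_injective
    (fun I => (⟨I.1.1, I.2⟩ : {I : Ideal (𝓞 K) // Ideal.absNorm I = n})) (fun I J h => ?_)
  have h' := congrArg Subtype.val h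
  exact Subtype.ext (Subtype.ext h')

theorem fiber_empty (K : Type*) [Field K] [NumberField K] :
    IsEmpty {I : (Ideal (𝓞 K))⁰ // Ideal.absNorm (I : Ideal (𝓞 K)) = 0} :=
  ⟨fun I => (absNorm_pos I.1).ne' I.2⟩

theorem tsum_fiber (s : ℝ) (n : ℕ) :
    (∑' I : {I : (Ideal (𝓞 K))⁰ // Ideal.absNorm (I : Ideal (𝓞 K)) = n}, normPow s I.1) =
      (Nat.card {I : (Ideal (𝓞 K))⁰ // Ideal.absNorm (I : Ideal (𝓞 K)) = n} : ℝ) *
        (n : ℝ) ^ (-s) := by
  have : ∀ I : {I : (Ideal (𝓞 K))⁰ // Ideal.absNorm (I : Ideal (𝓞 K)) = n},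
      normPow s I.1 = (n : ℝ) ^ (-s) := fun I => by rw [normPow_apply, I.2]
  simp_rw [this]
  rw [tsum_const, nsmul_eq_mul]

theorem norm_term_card (s : ℝ) (n : ℕ) :
    ‖LSeries.term (fun n => (Nat.card {I : Ideal (𝓞 K) // Ideal.absNorm I = n} : ℂ)) (s : ℂ) n‖ =
      (Nat.card {I : (Ideal (𝓞 K))⁰ // Ideal.absNorm (I : Ideal (𝓞 K)) = n} : ℝ) *
        (n : ℝ) ^ (-s) := by
  rw [LSeries.norm_term_eq]
  by_cases hn : n = 0
  · subst hn
    haveI := fiber_empty K
    simp
  · rw [if_neg hn, Nat.card_congr (fiberEquiv K hn)]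
    simp only [Complex.norm_natCast, Complex.ofReal_re]
    rw [Real.rpow_neg (Nat.cast_nonneg _), div_eq_mul_inv]

/-- `∑ N(I)^(-s)` over nonzero ideals converges for `s > 1`. -/
theorem summable_sigma_normPow {s : ℝ} (hs : 1 < s) :
    Summable (fun p : (Σ n : ℕ, {I : (Ideal (𝓞 K))⁰ // Ideal.absNorm (I : Ideal (𝓞 K)) = n}) =>
      normPow s p.2.1) := by
  refine (summable_sigma_of_nonneg (fun x => (normPow_pos s _).le)).mpr
    ⟨fun n => Summable.of_finite, ?_⟩
  have h := (lseriesSummable_card K hs).norm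
  refine h.congr fun n => ?_
  rw [norm_term_card s n]
  exact (tsum_fiber s n).symm

theorem summable_normPow {s : ℝ} (hs : 1 < s) :
    Summable (fun I : (Ideal (𝓞 K))⁰ => normPow s I) := by
  rw [← (Equiv.sigmaFiberEquiv
    (fun I : (Ideal (𝓞 K))⁰ => Ideal.absNorm (I : Ideal (𝓞 K)))).summable_iff]
  exact summable_sigma_normPow hs

theorem summable_norm_normPow {s : ℝ} (hs : 1 < s) :
    Summable (fun I : (Ideal (𝓞 K))⁰ => ‖normPow s I‖) :=
  (summable_normPow hs).norm

/-- The real Dedekind zeta function as a sum over nonzero ideals. -/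
noncomputable def zetaR (K : Type*) [Field K] [NumberField K] (s : ℝ) : ℝ :=
  ∑' I : (Ideal (𝓞 K))⁰, normPow s I

theorem dedekindZeta_eq_zetaR {s : ℝ} (hs : 1 < s) :
    dedekindZeta K (s : ℂ) = (zetaR K s : ℂ) := by
  unfold dedekindZeta zetaR LSeries
  have e1 : (∑' I : (Ideal (𝓞 K))⁰, normPow s I) =
      ∑' p : (Σ n : ℕ, {I : (Ideal (𝓞 K))⁰ // Ideal.absNorm (I : Ideal (𝓞 K)) = n}),
        normPow s p.2.1 :=
    ((Equiv.sigmaFiberEquiv
      (fun I : (Ideal (𝓞 K))⁰ => Ideal.absNorm (I : Ideal (𝓞 K)))).tsum_eq _).symm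
  rw [e1, Summable.tsum_sigma' (fun n => Summable.of_finite) (summable_sigma_normPow hs)]
  rw [Complex.ofReal_tsum]
  refine tsum_congr fun n => ?_
  have h1 := tsum_fiber (K := K) s n
  rw [h1]
  by_cases hn : n = 0
  · subst hn
    haveI := fiber_empty K
    simp
  · rw [LSeries.term_of_ne_zero hn, Nat.card_congr (fiberEquiv K hn)]
    rw [Complex.ofReal_mul, Complex.ofReal_natCast, Complex.ofReal_cpow (Nat.cast_nonneg _),
      Complex.ofReal_natCast, Complex.ofReal_neg, Complex.cpow_neg, div_eq_mul_inv]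

theorem zetaR_pos {s : ℝ} (hs : 1 < s) : 0 < zetaR K s :=
  (summable_normPow hs).tsum_pos (fun I => (normPow_pos s I).le) 1 (normPow_pos s 1)

/-- `(s - 1) ζ_K(s) → residue` as `s → 1⁺`, in terms of `zetaR`. -/
theorem tendsto_sub_one_mul_zetaR (K : Type*) [Field K] [NumberField K] :
    Tendsto (fun s : ℝ => (s - 1) * zetaR K s) (𝓝[>] 1) (𝓝 (dedekindZeta_residue K)) := by
  have h := tendsto_sub_one_mul_dedekindZeta_nhdsGT K
  have h2 : Tendsto (fun s : ℝ => (((s - 1) * zetaR K s : ℝ) : ℂ)) (𝓝[>] 1)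
      (𝓝 (dedekindZeta_residue K : ℂ)) := by
    refine h.congr' ?_
    filter_upwards [self_mem_nhdsWithin] with s hs
    rw [dedekindZeta_eq_zetaR (Set.mem_Ioi.mp hs)]
    push_cast
    rfl
  exact (Complex.continuous_re.tendsto _).comp h2 |>.congr (fun s => by simp) |>.mono_right
    (by simp)

end Summability

end Fermat.Agent.S14.H163

end
-- ===== PACK-END S14/H163/ZetaIdeal.lean

-- ===== PACK-BEGIN S55/L/Unram784/Core.lean
section


/-!
# S55, layer L, leaf L-A2 (helper784): structure of unramified extensions, ring level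

Setting: `R → S` a local homomorphism of complete discrete valuation rings with finite residue
fields `k → l`, unramified (`𝔪_R S = 𝔪_S`).  For a monic `g : R[X]` whose reduction is
irreducible of degree `[l : k]`:
* the reduction of `g` splits in `l` with distinct roots, each of which lifts uniquely to a root
  of `g` in `S` (Hensel);
* `S = R[β]` for every root `β` of `g` in `S` (complete Nakayama).
-/

set_option autoImplicit false

namespace Fermat.Agent.S55.L

open IsLocalRing Polynomial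

section Residue

variable {R S : Type} [CommRing R] [CommRing S] [IsLocalRing R] [IsLocalRing S]
  [Algebra R S] [IsLocalHom (algebraMap R S)]

theorem u784_map_map_residue (g : R[X]) :
    (g.map (algebraMap R S)).map (residue S) =
      (g.map (residue R)).map (algebraMap (ResidueField R) (ResidueField S)) := by
  rw [Polynomial.map_map, Polynomial.map_map]
  congr 1

theorem u784_residue_eval (p : S[X]) (a : S) :
    residue S (p.eval a) = (p.map (residue S)).eval (residue S a) := by
  rw [Polynomial.eval_map, Polynomial.eval₂_at_apply]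

variable [Finite (ResidueField R)] [Finite (ResidueField S)]

/-- An irreducible polynomial of degree `[l : k]` over the finite field `k` splits in `l`. -/
theorem u784_splits_of_natDegree_eq (f : (ResidueField R)[X]) (hirr : Irreducible f)
    (hdeg : f.natDegree = Module.finrank (ResidueField R) (ResidueField S)) :
    (f.map (algebraMap (ResidueField R) (ResidueField S))).Splits := by
  have hdvd := (hirr.natDegree_dvd_iff_dvd_X_pow_card_pow_sub_X
    (n := Module.finrank (ResidueField R) (ResidueField S))).mp (hdeg ▸ dvd_rfl)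
  have := Fintype.ofFinite (ResidueField S)
  have hcard : Nat.card (ResidueField R) ^ Module.finrank (ResidueField R) (ResidueField S) =
      Fintype.card (ResidueField S) := by
    rw [← Module.natCard_eq_pow_finrank, Nat.card_eq_fintype_card]
  rw [hcard] at hdvd
  have hsp := (FiniteField.isSplittingField_sub (ResidueField S) (ResidueField R)).splits
  refine Splits.of_dvd hsp ?_ (Polynomial.map_dvd _ hdvd)
  exact (Polynomial.map_ne_zero_iff
    (algebraMap (ResidueField R) (ResidueField S)).injective).mpr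
    (FiniteField.X_pow_card_sub_X_ne_zero _ Fintype.one_lt_card)

end Residue

section Hensel

variable {R S : Type} [CommRing R] [CommRing S] [IsLocalRing R] [IsLocalRing S]
  [Algebra R S] [IsLocalHom (algebraMap R S)] [IsAdicComplete (maximalIdeal S) S]

/-- Hensel: simple roots of the reduction lift to roots in `S`. -/
theorem u784_exists_lift_root (g : R[X]) (hg : g.Monic) (hsep : (g.map (residue R)).Separable)
    (r : ResidueField S)
    (hr : ((g.map (residue R)).map (algebraMap (ResidueField R) (ResidueField S))).IsRoot r) :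
    ∃ a : S, (g.map (algebraMap R S)).IsRoot a ∧ residue S a = r := by
  obtain ⟨a₀, rfl⟩ := residue_surjective r
  have hH : HenselianRing S (maximalIdeal S) := IsAdicComplete.henselianRing S _
  have hsep' : ((g.map (algebraMap R S)).map (residue S)).Separable := by
    rw [u784_map_map_residue]
    exact hsep.map
  have hm : eval a₀ (g.map (algebraMap R S)) ∈ maximalIdeal S := by
    rw [← residue_eq_zero_iff, u784_residue_eval, u784_map_map_residue]
    exact hr
  have hu : IsUnit (Ideal.Quotient.mk (maximalIdeal S)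
      (eval a₀ (derivative (g.map (algebraMap R S))))) := by
    have h1 : residue S (eval a₀ (derivative (g.map (algebraMap R S)))) ≠ 0 := by
      rw [u784_residue_eval, ← Polynomial.derivative_map]
      have h2 := hsep'.eval₂_derivative_ne_zero (RingHom.id _) (x := residue S a₀) (by
        rw [Polynomial.eval₂_id, u784_map_map_residue]
        exact hr)
      rwa [Polynomial.eval₂_id] at h2
    exact (isUnit_iff_ne_zero.mpr h1 :)
  obtain ⟨a, ha, haa⟩ := hH.is_henselian (g.map (algebraMap R S)) (hg.map _) a₀ hm hu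
  refine ⟨a, ha, ?_⟩
  rw [← sub_eq_zero, ← map_sub, residue_eq_zero_iff]
  exact haa

omit [IsAdicComplete (maximalIdeal S) S] in
/-- Uniqueness of the Hensel lift. -/
theorem u784_lift_root_unique (g : R[X]) (hsep : (g.map (residue R)).Separable)
    (a b : S) (ha : (g.map (algebraMap R S)).IsRoot a) (hb : (g.map (algebraMap R S)).IsRoot b)
    (hab : residue S a = residue S b) : a = b := by
  have hsep' : ((g.map (algebraMap R S)).map (residue S)).Separable := by
    rw [u784_map_map_residue]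
    exact hsep.map
  refine IsLocalRing.eq_of_eval_eq_zero_of_not_isUnit_sub ha hb ?_ ?_
  · rw [← mem_nonunits_iff, ← mem_maximalIdeal, ← residue_eq_zero_iff, map_sub, hab, sub_self]
  · have h1 : residue S (eval a (derivative (g.map (algebraMap R S)))) ≠ 0 := by
      rw [u784_residue_eval, ← Polynomial.derivative_map]
      have h2 := hsep'.eval₂_derivative_ne_zero (RingHom.id _) (x := residue S a) (by
        rw [Polynomial.eval₂_id, ← u784_residue_eval, ha, map_zero])
      rwa [Polynomial.eval₂_id] at h2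
    by_contra hnu
    exact h1 ((residue_eq_zero_iff _).mpr ((mem_maximalIdeal _).mpr hnu))

end Hensel

section Field

/-- In an extension `l/k` of degree `deg f`, with `f` monic irreducible, every element of `l` is a
polynomial of degree `< deg f` in any root of `f`. -/
theorem u784_exists_aeval_eq {k l : Type} [Field k] [Field l] [Algebra k l]
    [FiniteDimensional k l] (f : k[X]) (hf : f.Monic) (hirr : Irreducible f)
    (hdeg : f.natDegree = Module.finrank k l) (r₀ : l) (hr₀ : aeval r₀ f = 0) (x : l) :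
    ∃ p : k[X], p.natDegree < f.natDegree ∧ aeval r₀ p = x := by
  have hmin : minpoly k r₀ = f := (minpoly.eq_of_irreducible_of_monic hirr hr₀ hf).symm
  have hint : IsIntegral k r₀ := Algebra.IsIntegral.isIntegral r₀
  have htop : IntermediateField.adjoin k {r₀} = ⊤ :=
    (Field.primitive_element_iff_minpoly_natDegree_eq k r₀).mpr (by rw [hmin, hdeg])
  have hx : x ∈ (IntermediateField.adjoin k {r₀}).toSubalgebra := by
    rw [htop]
    exact Algebra.mem_top
  rw [IntermediateField.adjoin_simple_toSubalgebra_of_isAlgebraic hint.isAlgebraic,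
    Algebra.adjoin_singleton_eq_range_aeval] at hx
  obtain ⟨p, rfl⟩ := hx
  refine ⟨p %ₘ f, Polynomial.natDegree_modByMonic_lt p hf ?_, ?_⟩
  · rintro rfl
    exact hirr.not_isUnit isUnit_one
  · exact Polynomial.aeval_modByMonic_eq_self_of_root hr₀

end Field

section Span

variable {R S : Type} [CommRing R] [CommRing S] [IsLocalRing R] [IsLocalRing S]
  [Algebra R S] [IsLocalHom (algebraMap R S)]
  [IsAdicComplete (maximalIdeal R) R] [IsAdicComplete (maximalIdeal S) S]
  [Finite (ResidueField R)] [Finite (ResidueField S)]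

omit [IsAdicComplete (maximalIdeal R) R] [IsAdicComplete (maximalIdeal S) S]
  [Finite (ResidueField R)] [Finite (ResidueField S)] in
theorem u784_aeval_residue_eq_zero (g : R[X]) (β : S)
    (hβ : (g.map (algebraMap R S)).IsRoot β) : aeval (residue S β) (g.map (residue R)) = 0 := by
  have h1 : residue S (eval β (g.map (algebraMap R S))) = 0 := by rw [hβ, map_zero]
  rw [u784_residue_eval, u784_map_map_residue] at h1
  rw [Polynomial.aeval_def, Polynomial.eval₂_eq_eval_map]
  exact h1

/-- `S = R[β]` for a root `β` of a monic polynomial whose reduction is irreducible of degree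
`[l : k]`. -/
theorem u784_span_pow (hunr : (maximalIdeal R).map (algebraMap R S) = maximalIdeal S)
    (g : R[X]) (hg : g.Monic) (hirr : Irreducible (g.map (residue R)))
    (hdeg : g.natDegree = Module.finrank (ResidueField R) (ResidueField S))
    (β : S) (hβ : (g.map (algebraMap R S)).IsRoot β) (x : S) :
    ∃ a : Fin g.natDegree → R, x = ∑ i, a i • β ^ (i : ℕ) := by
  refine u784_exists_eq_sum_smul hunr (fun i : Fin g.natDegree => β ^ (i : ℕ)) ?_ x
  intro x
  have hr₀ := u784_aeval_residue_eq_zero g β hβ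
  have hdeg' : (g.map (residue R)).natDegree =
      Module.finrank (ResidueField R) (ResidueField S) := by
    rw [hg.natDegree_map, hdeg]
  obtain ⟨p, hpdeg, hp⟩ := u784_exists_aeval_eq (g.map (residue R)) (hg.map _) hirr hdeg'
    (residue S β) hr₀ (residue S x)
  rw [hg.natDegree_map] at hpdeg
  choose c hc using fun i : ℕ => residue_surjective (p.coeff i)
  refine ⟨fun i => c i, ?_⟩
  rw [← residue_eq_zero_iff, map_sub, map_sum, sub_eq_zero, ← hp,
    Polynomial.aeval_eq_sum_range' hpdeg, ← Fin.sum_univ_eq_sum_range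
      (fun i => p.coeff i • residue S β ^ i)]
  refine Finset.sum_congr rfl fun i _ => ?_
  rw [Algebra.smul_def, Algebra.smul_def, map_mul, map_pow, ← hc,
    ResidueField.algebraMap_residue]

end Span

end Fermat.Agent.S55.L

end
-- ===== PACK-END S55/L/Unram784/Core.lean

-- ===== PACK-BEGIN S55/Cap/Chase.lean
section


/-!
# S55 / layer K, input A8 (CAP): the abstract capitulation chase   (helper303)

Pure algebra.  `G` a group with a level system `L`; two rows of `G`-modules

```
   M  --ι-->  E  --i-->  J            ("level U":  Ind_U μ_p, Ind_U 𝔼, Ind_U 𝕁)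
   |lM        |lE        |lJ
   v          v          v
   M' --ι'--> E' --i'--> J'           ("level V")
```

(`𝔼` = `S`-units of the maximal `S`-unramified extension, `𝕁` = `S`-idèles).  Hypotheses:
`i, i', ι'` injective, `p M = p M' = 0`, `E'[p] ⊆ ι'(M')`, `E'` `p`-divisible, smoothness,

* `h1J` : level-constant `E`-valued 1-cocycles are coboundaries in `J`   (Hilbert 90 + Shapiro);
* `hC1` : `H¹(J/E)` has no `p`-part (class module + capitulation), in cochain form;
* `hC2` : the "norm" `lJ` maps `(J/E)^G` into `p (J'/E')^G` up to a prime-to-`p` factor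
          (existence theorem mod `p` + capitulation), in element form.

Conclusion (`chase`): if a 2-cochain `c : G × G → M` becomes the coboundary of a level-constant
1-cochain in `J`, then `lM ∘ c` is the coboundary of a level-constant 1-cochain in `M'`.

Classical meaning: `cores : Ш²(G_S(K'), μ_p) → Ш²(G_S(K), μ_p)` is zero as soon as
`N_{K'/K} C_S(K') ⊆ p C_S(K)`.
-/

set_option autoImplicit false

namespace Fermat.Agent.S55.Cap

open Fermat.Agent.S55.PT

section LC

variable {G : Type} [Group G] (L : LevelSys G)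

lemma isLC₁_of_comp_injective {X Y : Type} {f : G → X} (φ : X → Y)
    (hφ : Function.Injective φ) (h : L.IsLC₁ (fun g => φ (f g))) : L.IsLC₁ f := by
  obtain ⟨U, hU, hf⟩ := h
  exact ⟨U, hU, fun g s hs => hφ (hf g s hs)⟩

lemma isLC₁_congr {X : Type} {f f' : G → X} (h : L.IsLC₁ f') (hff : ∀ g, f g = f' g) :
    L.IsLC₁ f := by
  obtain ⟨U, hU, hf⟩ := h
  exact ⟨U, hU, fun g s hs => by rw [hff, hff, hf g s hs]⟩

lemma isLC₁_map {X Y : Type} {f : G → X} (φ : X → Y) (h : L.IsLC₁ f) :
    L.IsLC₁ (fun g => φ (f g)) := by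
  obtain ⟨U, hU, hf⟩ := h
  exact ⟨U, hU, fun g s hs => by
    show φ (f (g * s)) = φ (f g)
    rw [hf g s hs]⟩

lemma isLC₁_map₂ {X Y Z : Type} {f : G → X} {f' : G → Y} (φ : X → Y → Z)
    (h : L.IsLC₁ f) (h' : L.IsLC₁ f') : L.IsLC₁ (fun g => φ (f g) (f' g)) := by
  obtain ⟨U, hU, hf⟩ := h
  obtain ⟨V, hV, hf'⟩ := h'
  obtain ⟨W, hW, hle⟩ := L.directed U hU V hV
  exact ⟨W, hW, fun g s hs => by
    show φ (f (g * s)) (f' (g * s)) = φ (f g) (f' g)
    rw [hf g s (hle hs).1, hf' g s (hle hs).2]⟩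

lemma isLC₁_d0 {A : Type} [AddCommGroup A] [DistribMulAction G A] (a : A)
    (ha : ∃ U ∈ L.levels, ∀ s ∈ U, s • a = a) : L.IsLC₁ (fun g : G => g • a - a) := by
  obtain ⟨U, hU, h⟩ := ha
  exact ⟨U, hU, fun g s hs => by
    show (g * s) • a - a = g • a - a
    rw [mul_smul, h s hs]⟩

end LC

section Chase

variable {G : Type} [Group G] (L : LevelSys G)
variable {M E J M' E' J' : Type}
  [AddCommGroup M] [AddCommGroup E] [AddCommGroup J]
  [AddCommGroup M'] [AddCommGroup E'] [AddCommGroup J']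
  [DistribMulAction G E] [DistribMulAction G J]
  [DistribMulAction G M'] [DistribMulAction G E'] [DistribMulAction G J']

/-- `d⁰ d⁰ = 0`-type identity: the coboundary of `g ↦ g a - a` vanishes. -/
lemma d1_d0 {A : Type} [AddCommGroup A] [DistribMulAction G A] (a : A) (g h : G) :
    g • (h • a - a) - ((g * h) • a - a) + (g • a - a) = 0 := by
  rw [smul_sub, mul_smul]
  abel

lemma nsmul_eq_of_mod_eq_one {A : Type} [AddCommGroup A] {p N : ℕ} (h : N % p = 1) (x : A)
    (hx : p • x = 0) : N • x = x := by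
  conv_lhs => rw [← Nat.div_add_mod N p, h]
  rw [add_nsmul, mul_nsmul, one_nsmul, hx, nsmul_zero, zero_add]

/-- **The capitulation chase.** -/
theorem chase (p : ℕ) (hp : p.Prime)
    (ι : M →+ E) (i : E →+ J) (ι' : M' →+ E') (i' : E' →+ J')
    (lM : M →+ M') (lE : E →+ E') (lJ : J →+ J')
    (hi : ∀ (g : G) (e : E), i (g • e) = g • i e)
    (hι' : ∀ (g : G) (m : M'), ι' (g • m) = g • ι' m)
    (hi' : ∀ (g : G) (e : E'), i' (g • e) = g • i' e)
    (hlE : ∀ (g : G) (e : E), lE (g • e) = g • lE e)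
    (hlJ : ∀ (g : G) (x : J), lJ (g • x) = g • lJ x)
    (hιl : ∀ m : M, lE (ι m) = ι' (lM m))
    (hil : ∀ e : E, lJ (i e) = i' (lE e))
    (i_inj : Function.Injective i) (i'_inj : Function.Injective i')
    (ι'_inj : Function.Injective ι')
    (hpM : ∀ m : M, p • m = 0) (hpM' : ∀ m : M', p • m = 0)
    (htors' : ∀ e : E', p • e = 0 → ∃ m : M', ι' m = e)
    (hdiv' : ∀ e : E', ∃ η : E', p • η = e)
    (smJ : ∀ x : J, ∃ U ∈ L.levels, ∀ s ∈ U, s • x = x)
    (smJ' : ∀ x : J', ∃ U ∈ L.levels, ∀ s ∈ U, s • x = x)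
    (smE' : ∀ x : E', ∃ U ∈ L.levels, ∀ s ∈ U, s • x = x)
    (h1J : ∀ u : G → E, L.IsLC₁ u → (∀ g h, u (g * h) = u g + g • u h) →
      ∃ q : J, ∀ g, i (u g) = g • q - q)
    (hC1 : ∀ b : G → J, L.IsLC₁ b → (∀ g h, ∃ e : E, i e = g • b h - b (g * h) + b g) →
      ∃ (m : ℕ) (q₁ : J), m.Coprime p ∧ ∀ g, ∃ e : E, i e = m • b g - (g • q₁ - q₁))
    (hC2 : ∀ q : J, (∀ g : G, ∃ e : E, i e = g • q - q) →
      ∃ (n : ℕ) (q₂ : J'), n.Coprime p ∧ (∀ g : G, ∃ e : E', i' e = g • q₂ - q₂) ∧
        ∃ ε : E', i' ε = n • lJ q - p • q₂)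
    (c : G × G → M) (b : G → J) (hb : L.IsLC₁ b)
    (hcb : ∀ g h, i (ι (c (g, h))) = g • b h - b (g * h) + b g) :
    ∃ β : G → M', L.IsLC₁ β ∧ ∀ g h, lM (c (g, h)) = g • β h - β (g * h) + β g := by
  classical
  have hpιc : ∀ g h, p • ι (c (g, h)) = 0 := fun g h => by rw [← map_nsmul, hpM, map_zero]
  -- Step 2: lift `m • b` to `E` modulo a coboundary
  obtain ⟨m, q₁, hm, hq₁⟩ := hC1 b hb (fun g h => ⟨ι (c (g, h)), hcb g h⟩)
  choose bE hbE using hq₁
  have bE_LC : L.IsLC₁ bE := by
    apply isLC₁_of_comp_injective L i i_inj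
    refine isLC₁_congr L (f' := fun g => m • b g - (g • q₁ - q₁)) ?_ hbE
    exact isLC₁_map₂ L (fun x y => m • x - y) hb (isLC₁_d0 L q₁ (smJ q₁))
  have dbE : ∀ g h, g • bE h - bE (g * h) + bE g = m • ι (c (g, h)) := by
    intro g h
    apply i_inj
    rw [map_add, map_sub, hi, hbE, hbE, hbE, map_nsmul, hcb]
    simp only [smul_sub, smul_add, mul_smul, smul_comm g m]
    abel
  -- Step 3: divide by `m` modulo `p`
  obtain ⟨m', -, hm'⟩ := Nat.exists_mul_mod_eq_one_of_coprime hm hp.one_lt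
  have db' : ∀ g h, g • (m' • bE h) - m' • bE (g * h) + m' • bE g = ι (c (g, h)) := by
    intro g h
    have h1 : g • (m' • bE h) - m' • bE (g * h) + m' • bE g
        = m' • (g • bE h - bE (g * h) + bE g) := by
      simp only [smul_sub, smul_add, smul_comm g m']
    rw [h1, dbE, ← mul_nsmul, nsmul_eq_of_mod_eq_one hm' _ (hpιc g h)]
  -- Step 4: `u = p • b'` is a cocycle in `E`, hence a coboundary in `J`
  have hu_coc : ∀ g h, p • (m' • bE (g * h)) = p • (m' • bE g) + g • (p • (m' • bE h)) := by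
    intro g h
    have h1 : p • (g • (m' • bE h) - m' • bE (g * h) + m' • bE g) = 0 := by
      rw [db', hpιc]
    have h2 : g • (p • (m' • bE h)) = p • (g • (m' • bE h)) := smul_comm g p _
    rw [h2]
    rw [smul_add, smul_sub, sub_add_eq_add_sub, sub_eq_zero] at h1
    rw [← h1]
    abel
  have hu_LC : L.IsLC₁ (fun g => p • (m' • bE g)) :=
    isLC₁_map L (fun x => p • (m' • x)) bE_LC
  obtain ⟨q, hq⟩ := h1J (fun g => p • (m' • bE g)) hu_LC hu_coc
  -- Step 5: the norm step
  obtain ⟨n, q₂, hn, hq₂, ε, hε⟩ := hC2 q (fun g => ⟨p • (m' • bE g), hq g⟩)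
  choose w hw using hq₂
  have w_LC : L.IsLC₁ w := by
    apply isLC₁_of_comp_injective L i' i'_inj
    exact isLC₁_congr L (isLC₁_d0 L q₂ (smJ' q₂)) hw
  have dw : ∀ g h, g • w h - w (g * h) + w g = 0 := by
    intro g h
    apply i'_inj
    rw [map_add, map_sub, hi', hw, hw, hw, map_zero]
    exact d1_d0 q₂ g h
  obtain ⟨η, hη⟩ := hdiv' ε
  have key : ∀ g, p • (n • lE (m' • bE g) - w g - (g • η - η)) = 0 := by
    intro g
    apply i'_inj
    have h1 : p • i' (lE (m' • bE g)) = g • lJ q - lJ q := by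
      rw [← hil, ← map_nsmul, ← map_nsmul, hq g, map_sub, hlJ]
    have h3 : p • i' η = n • lJ q - p • q₂ := by rw [← map_nsmul, hη, hε]
    rw [map_zero, map_nsmul, map_sub, map_sub, map_sub, map_nsmul, hi', hw]
    have h4 : p • (n • i' (lE (m' • bE g)) - (g • q₂ - q₂) - (g • i' η - i' η))
        = n • (p • i' (lE (m' • bE g))) - (g • (p • q₂) - p • q₂)
          - (g • (p • i' η) - p • i' η) := by
      simp only [smul_sub, smul_comm g p, smul_comm p n]
    rw [h4, h1, h3]
    simp only [smul_sub, smul_comm g n, smul_comm g p]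
    abel
  choose β₀ hβ₀ using fun g => htors' _ (key g)
  have β₀_LC : L.IsLC₁ β₀ := by
    apply isLC₁_of_comp_injective L ι' ι'_inj
    refine isLC₁_congr L (f' := fun g => (n • lE (m' • bE g) - w g) - (g • η - η)) ?_ hβ₀
    refine isLC₁_map₂ L (fun x y => x - y) ?_ (isLC₁_d0 L η (smE' η))
    exact isLC₁_map₂ L (fun x y => n • lE (m' • x) - y) bE_LC w_LC
  have dβ₀ : ∀ g h, g • β₀ h - β₀ (g * h) + β₀ g = n • lM (c (g, h)) := by
    intro g h
    apply ι'_inj
    have hR : ι' (n • lM (c (g, h)))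
        = n • (g • lE (m' • bE h) - lE (m' • bE (g * h)) + lE (m' • bE g)) := by
      rw [map_nsmul, ← hιl, ← db' g h, map_add, map_sub, hlE]
    rw [map_add, map_sub, hι', hβ₀, hβ₀, hβ₀, hR]
    have hw0 := dw g h
    have hη0 := d1_d0 η g h
    have e1 : g • (n • lE (m' • bE h) - w h - (h • η - η))
          - (n • lE (m' • bE (g * h)) - w (g * h) - ((g * h) • η - η))
          + (n • lE (m' • bE g) - w g - (g • η - η))
        = n • (g • lE (m' • bE h) - lE (m' • bE (g * h)) + lE (m' • bE g))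
          - (g • w h - w (g * h) + w g)
          - (g • (h • η - η) - ((g * h) • η - η) + (g • η - η)) := by
      simp only [smul_sub, smul_add, smul_comm g n]
      abel
    rw [e1, hw0, hη0, sub_zero, sub_zero]
  obtain ⟨n', -, hn'⟩ := Nat.exists_mul_mod_eq_one_of_coprime hn hp.one_lt
  refine ⟨fun g => n' • β₀ g, isLC₁_map L (fun x => n' • x) β₀_LC, fun g h => ?_⟩
  have h1 : g • (n' • β₀ h) - n' • β₀ (g * h) + n' • β₀ g
      = n' • (g • β₀ h - β₀ (g * h) + β₀ g) := by
    simp only [smul_sub, smul_add, smul_comm g n']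
  show lM (c (g, h)) = g • (n' • β₀ h) - n' • β₀ (g * h) + n' • β₀ g
  rw [h1, dβ₀, ← mul_nsmul, nsmul_eq_of_mod_eq_one hn' _ (hpM' _)]

end Chase

end Fermat.Agent.S55.Cap

end
-- ===== PACK-END S55/Cap/Chase.lean

-- ===== PACK-BEGIN S56/H176/FLDUnrTot.lean
section



/-!
# S56 / FL-D-UNR, part 3: equal residue fields imply total ramification

`A' ⊂ B` discrete valuation rings, `B` finite over `A'`, with the same residue field
(`hres : ∀ b, ∃ a, b - a ∈ 𝔪_B`).  Then `v_B(a) = n · v_{A'}(a)` for `a ∈ A'` with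
`n = [Frac B : Frac A']` (`FLD_tot_hram`): the extension is totally ramified, and
`1, ϖ, …, ϖ^(n-1)` is an `A'`-basis of `B` for every uniformiser `ϖ` of `B`.
-/

set_option autoImplicit false
set_option linter.unusedSectionVars false
set_option linter.style.haveILetI false

namespace Fermat.Agent.S56.H176

open IsDiscreteValuationRing

attribute [local instance] FractionRing.liftAlgebra FractionRing.isScalarTower_liftAlgebra

section Tot

variable {A' : Type*} [CommRing A'] [IsDomain A'] [IsDiscreteValuationRing A']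
  {B : Type*} [CommRing B] [IsDomain B] [IsDiscreteValuationRing B] [Algebra A' B]
  [Module.Finite A' B] [FaithfulSMul A' B]

variable (A' B) in
/-- The ramification index. -/
theorem FLD_tot_exists_ramIdx :
    ∃ e : ℕ, 0 < e ∧ ∀ a : A', addVal B (algebraMap A' B a) = e • addVal A' a := by
  obtain ⟨ϖ', hϖ'⟩ := exists_irreducible A'
  have hne : algebraMap A' B ϖ' ≠ 0 := by
    intro h0
    exact hϖ'.ne_zero (FaithfulSMul.algebraMap_injective A' B (by rw [h0, map_zero]))
  have htop : addVal B (algebraMap A' B ϖ') ≠ ⊤ := fun h => hne (addVal_eq_top_iff.mp h)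
  obtain ⟨e, he⟩ := ENat.ne_top_iff_exists.mp htop
  have he0 : 0 < e := by
    rcases Nat.eq_zero_or_pos e with h0 | h0
    · exfalso
      rw [h0] at he
      have hu : IsUnit (algebraMap A' B ϖ') := addVal_eq_zero_iff.mp (by rw [← he]; rfl)
      exact hϖ'.not_isUnit (IsLocalHom.map_nonunit (f := algebraMap A' B) ϖ' hu)
    · exact h0
  refine ⟨e, he0, fun a => ?_⟩
  by_cases ha : a = 0
  · rw [ha, map_zero, addVal_zero, addVal_zero]
    have : e ≠ 0 := by omega
    simp [this]
  · obtain ⟨m, u, hu⟩ := eq_unit_mul_pow_irreducible ha hϖ'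
    rw [hu, addVal_def' u hϖ' m, map_mul, map_pow, addVal_mul, addVal_pow, ← he,
      addVal_eq_zero_iff.mpr (u.isUnit.map (algebraMap A' B)), zero_add]
    simp [mul_comm]

/-- `ϖ'` and `ϖ ^ e` are associated in `B`. -/
theorem FLD_tot_associated {e : ℕ}
    (hram : ∀ a : A', addVal B (algebraMap A' B a) = e • addVal A' a)
    {ϖ : B} (hϖ : addVal B ϖ = 1) {ϖ' : A'} (hϖ' : Irreducible ϖ') :
    Associated (ϖ ^ e) (algebraMap A' B ϖ') := by
  rw [← addVal_eq_iff_associated, addVal_pow, hϖ, hram, addVal_uniformizer hϖ']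

/-- Approximation of `b : B` by `A'`-combinations of powers of a uniformiser. -/
theorem FLD_tot_approx (hres : ∀ b : B, ∃ a : A', b - algebraMap A' B a ∈ IsLocalRing.maximalIdeal B)
    {ϖ : B} (hϖ : addVal B ϖ = 1) (e : ℕ) (b : B) (n : ℕ) (hn : n ≤ e) :
    ∃ s ∈ Submodule.span A' (Set.range fun j : Fin e => ϖ ^ (j : ℕ)), ∃ c : B,
      b - s = ϖ ^ n * c := by
  have hirr : Irreducible ϖ := by
    rw [irreducible_iff_uniformizer]
    apply le_antisymm
    · intro x hx
      rw [Ideal.mem_span_singleton, ← addVal_le_iff_dvd, hϖ]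
      rw [IsLocalRing.mem_maximalIdeal, mem_nonunits_iff, ← addVal_eq_zero_iff] at hx
      exact Order.one_le_iff_pos.mpr (pos_iff_ne_zero.mpr hx)
    · rw [Ideal.span_le]
      intro x hx
      rw [Set.mem_singleton_iff] at hx
      rw [hx, SetLike.mem_coe, IsLocalRing.mem_maximalIdeal, mem_nonunits_iff, ← addVal_eq_zero_iff, hϖ]
      exact one_ne_zero
  have hmax : IsLocalRing.maximalIdeal B = Ideal.span {ϖ} := (irreducible_iff_uniformizer ϖ).mp hirr
  induction n with
  | zero => exact ⟨0, Submodule.zero_mem _, b, by simp⟩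
  | succ n ih =>
    obtain ⟨s, hs, c, hc⟩ := ih (by omega)
    obtain ⟨a, ha⟩ := hres c
    rw [hmax, Ideal.mem_span_singleton] at ha
    obtain ⟨c', hc'⟩ := ha
    refine ⟨s + a • ϖ ^ n, Submodule.add_mem _ hs
      (Submodule.smul_mem _ _ (Submodule.subset_span ⟨⟨n, by omega⟩, rfl⟩)), c', ?_⟩
    have : b - (s + a • ϖ ^ n) = (b - s) - a • ϖ ^ n := by ring
    rw [this, hc, Algebra.smul_def, pow_succ, mul_assoc, ← hc']
    ring

/-- The powers `ϖ^j`, `j < e`, span `B` over `A'`. -/
theorem FLD_tot_span (hres : ∀ b : B, ∃ a : A', b - algebraMap A' B a ∈ IsLocalRing.maximalIdeal B)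
    {e : ℕ} (hram : ∀ a : A', addVal B (algebraMap A' B a) = e • addVal A' a)
    {ϖ : B} (hϖ : addVal B ϖ = 1) :
    Submodule.span A' (Set.range fun j : Fin e => ϖ ^ (j : ℕ)) = ⊤ := by
  obtain ⟨ϖ', hϖ'⟩ := exists_irreducible A'
  rw [← top_le_iff]
  apply Submodule.le_of_le_smul_of_le_jacobson_bot (I := IsLocalRing.maximalIdeal A')
  · exact Module.finite_def.mp inferInstance
  · exact (IsLocalRing.jacobson_eq_maximalIdeal ⊥ bot_ne_top).ge
  · intro b _
    obtain ⟨s, hs, c, hc⟩ := FLD_tot_approx hres hϖ e b e le_rfl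
    obtain ⟨u, hu⟩ := FLD_tot_associated hram hϖ hϖ'
    have hb : b = s + ϖ' • ((u⁻¹ : Bˣ) * c) := by
      rw [Algebra.smul_def, ← hu]
      have : ϖ ^ e * ↑u * (↑u⁻¹ * c) = ϖ ^ e * c := by
        rw [mul_assoc, ← mul_assoc (u : B), Units.mul_inv, one_mul]
      rw [this, ← hc]
      ring
    rw [hb]
    apply Submodule.add_mem_sup hs
    apply Submodule.smul_mem_smul _ Submodule.mem_top
    exact (IsLocalRing.mem_maximalIdeal _).mpr hϖ'.not_isUnit

/-- The powers `ϖ^j`, `j < e`, are linearly independent over `A'`. -/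
theorem FLD_tot_linearIndependent
    {e : ℕ} (hram : ∀ a : A', addVal B (algebraMap A' B a) = e • addVal A' a)
    {ϖ : B} (hϖ : addVal B ϖ = 1) :
    LinearIndependent A' (fun j : Fin e => ϖ ^ (j : ℕ)) := by
  rw [Fintype.linearIndependent_iff]
  intro c hc i
  have h1 := Fin.sum_univ_eq_sum_range
    (fun j => algebraMap A' B (if h : j < e then c ⟨j, h⟩ else 0) * ϖ ^ j) e
  have h2 : ∑ j ∈ Finset.range e,
      algebraMap A' B (if h : j < e then c ⟨j, h⟩ else 0) * ϖ ^ j = 0 := by
    rw [← h1, ← hc]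
    refine Finset.sum_congr rfl fun j _ => ?_
    rw [Algebra.smul_def]
    simp
  have := FLD_coeff_eq_zero hram hϖ (fun j => if h : j < e then c ⟨j, h⟩ else 0) h2 i.2
  simpa using this

/-- `[B : A'] = e`. -/
theorem FLD_tot_finrank (hres : ∀ b : B, ∃ a : A', b - algebraMap A' B a ∈ IsLocalRing.maximalIdeal B)
    {e : ℕ} (hram : ∀ a : A', addVal B (algebraMap A' B a) = e • addVal A' a) :
    Module.finrank A' B = e := by
  obtain ⟨ϖ, hϖ⟩ := exists_irreducible B
  have hϖ1 := addVal_uniformizer hϖ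
  have b := Module.Basis.mk (FLD_tot_linearIndependent hram hϖ1)
    (FLD_tot_span hres hram hϖ1).ge
  rw [Module.finrank_eq_card_basis b, Fintype.card_fin]

/-- `[Frac B : Frac A'] = e`. -/
theorem FLD_tot_finrank_frac
    (hres : ∀ b : B, ∃ a : A', b - algebraMap A' B a ∈ IsLocalRing.maximalIdeal B)
    {e : ℕ} (hram : ∀ a : A', addVal B (algebraMap A' B a) = e • addVal A' a) :
    Module.finrank (FractionRing A') (FractionRing B) = e := by
  rw [IsFractionRing.finrank_eq A' (FractionRing A') B (FractionRing B)]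
  exact FLD_tot_finrank hres hram

/-- **Total ramification**: `v_B(a) = [Frac B : Frac A'] · v_{A'}(a)`. -/
theorem FLD_tot_hram (hres : ∀ b : B, ∃ a : A', b - algebraMap A' B a ∈ IsLocalRing.maximalIdeal B)
    (a : A') : addVal B (algebraMap A' B a) =
      (Module.finrank (FractionRing A') (FractionRing B)) • addVal A' a := by
  obtain ⟨e, -, hram⟩ := FLD_tot_exists_ramIdx A' B
  rw [FLD_tot_finrank_frac hres hram]
  exact hram a

end Tot

end Fermat.Agent.S56.H176

end
-- ===== PACK-END S56/H176/FLDUnrTot.lean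

-- ===== PACK-BEGIN S14/H366/ValQ.lean
section




/-!
# S14, block LOCAL-D (helper366): valuations of rational numbers and of `ζ - 1`

`A` is a valuation subring of a field `L` of characteristic zero lying over the prime `p`.
-/

set_option autoImplicit false
set_option linter.style.haveILetI false

namespace Fermat.Agent.S14.H366

variable {L : Type*} [Field L] {A : ValuationSubring L} {p : ℕ}

theorem val_prime_lt_one (hA : A.LiesOverPrime p) : A.valuation (p : L) < 1 :=
  (ValuationSubring.mem_nonunits_iff (A := A)).mp hA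

theorem val_int_le_one (n : ℤ) : A.valuation (n : L) ≤ 1 :=
  (A.valuation_le_one_iff _).mpr (intCast_mem A n)

theorem val_nat_le_one (n : ℕ) : A.valuation (n : L) ≤ 1 :=
  (A.valuation_le_one_iff _).mpr (natCast_mem A n)

theorem val_int_eq_one (hp : p.Prime) (hA : A.LiesOverPrime p) (n : ℤ) (hn : ¬ (p : ℤ) ∣ n) :
    A.valuation (n : L) = 1 := by
  refine le_antisymm (val_int_le_one n) (not_lt.mp fun hlt => hn ?_)
  exact Fermat.Agent.S54.dvd_of_intCast_mem_nonunits A p hp hA n
    ((ValuationSubring.mem_nonunits_iff (A := A)).mpr hlt)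

theorem val_int_eq_pow (hp : p.Prime) (hA : A.LiesOverPrime p) (n : ℤ) (hn : n ≠ 0) :
    ∃ k : ℕ, A.valuation (n : L) = A.valuation (p : L) ^ k := by
  have hfin : FiniteMultiplicity (p : ℤ) n := by
    rw [Int.finiteMultiplicity_iff]
    exact ⟨by
      intro h
      have := hp.one_lt
      omega, hn⟩
  obtain ⟨c, hc, hcn⟩ := hfin.exists_eq_pow_mul_and_not_dvd
  refine ⟨multiplicity (p : ℤ) n, ?_⟩
  conv_lhs => rw [hc]
  push_cast
  rw [map_mul, map_pow, val_int_eq_one hp hA c hcn, mul_one]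

variable [CharZero L]

theorem val_prime_ne_zero (hp : p.Prime) : A.valuation (p : L) ≠ 0 :=
  (Valuation.ne_zero_iff _).mpr (Nat.cast_ne_zero.mpr hp.ne_zero)

/-- The valuation of a nonzero rational is an integral power of the valuation of `p`. -/
theorem val_rat_eq_zpow (hp : p.Prime) (hA : A.LiesOverPrime p) (q : ℚ) (hq : q ≠ 0) :
    ∃ k : ℤ, A.valuation (q : L) = A.valuation (p : L) ^ k := by
  obtain ⟨k₁, h₁⟩ := val_int_eq_pow (L := L) hp hA q.num (Rat.num_ne_zero.mpr hq)
  obtain ⟨k₂, h₂⟩ := val_int_eq_pow (L := L) hp hA (q.den : ℤ) (by exact_mod_cast q.den_ne_zero)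
  refine ⟨(k₁ : ℤ) - k₂, ?_⟩
  have hq' : (q : L) = (q.num : L) / ((q.den : ℤ) : L) := by
    conv_lhs => rw [← Rat.num_div_den q]
    push_cast
    rfl
  rw [hq', map_div₀, h₁, h₂, zpow_sub₀ (val_prime_ne_zero hp), zpow_natCast, zpow_natCast]

/-- A rational number in `A` is congruent to an integer modulo `p`. -/
theorem exists_int_sub_rat (hp : p.Prime) (hA : A.LiesOverPrime p) (q : ℚ)
    (hq : A.valuation (q : L) ≤ 1) :
    ∃ m : ℤ, A.valuation ((q : L) - (m : L)) ≤ A.valuation (p : L) := by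
  have hden : ¬ (p : ℤ) ∣ (q.den : ℤ) := by
    intro hd
    have hnum : ¬ (p : ℤ) ∣ q.num := by
      intro hn
      have h1 : (p : ℤ) ∣ Int.gcd q.num (q.den : ℤ) := Int.dvd_coe_gcd hn hd
      have h2 : Int.gcd q.num (q.den : ℤ) = 1 := by
        have := q.reduced
        simpa [Int.gcd, Nat.Coprime] using this
      rw [h2] at h1
      have := Int.le_of_dvd one_pos h1
      have := hp.one_lt
      omega
    have h3 : A.valuation ((q.den : ℤ) : L) < 1 := by
      obtain ⟨c, hc⟩ := hd
      rw [hc]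
      push_cast
      rw [map_mul]
      calc A.valuation (p : L) * A.valuation (c : L)
          ≤ A.valuation (p : L) * 1 := by
            gcongr
            exact val_int_le_one c
        _ < 1 := by
            rw [mul_one]
            exact val_prime_lt_one hA
    have h4 : (q : L) * ((q.den : ℤ) : L) = (q.num : L) := by
      have := Rat.mul_den_eq_num q
      have h5 : ((q * (q.den : ℚ) : ℚ) : L) = ((q.num : ℚ) : L) := by rw [this]
      push_cast at h5 ⊢
      exact h5
    have h6 := congrArg A.valuation h4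
    rw [map_mul, val_int_eq_one hp hA _ hnum] at h6
    have h7 : A.valuation (q : L) * A.valuation ((q.den : ℤ) : L) < 1 := by
      calc A.valuation (q : L) * A.valuation ((q.den : ℤ) : L)
          ≤ 1 * A.valuation ((q.den : ℤ) : L) := by
            gcongr
        _ < 1 := by
            rw [one_mul]
            exact h3
    rw [h6] at h7
    exact lt_irrefl _ h7
  have hcop : IsCoprime (p : ℤ) (q.den : ℤ) :=
    (Nat.prime_iff_prime_int.mp hp).coprime_iff_not_dvd.mpr hden
  obtain ⟨u, t, hut⟩ := hcop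
  refine ⟨q.num * t, ?_⟩
  have hdv : A.valuation ((q.den : ℤ) : L) = 1 := val_int_eq_one hp hA _ hden
  have hd0 : ((q.den : ℤ) : L) ≠ 0 := by
    have := q.den_ne_zero
    exact_mod_cast this
  have h4 : (q : L) * ((q.den : ℤ) : L) = (q.num : L) := by
    have := Rat.mul_den_eq_num q
    have h5 : ((q * (q.den : ℚ) : ℚ) : L) = ((q.num : ℚ) : L) := by rw [this]
    push_cast at h5 ⊢
    exact h5
  have key : ((q : L) - ((q.num * t : ℤ) : L)) * ((q.den : ℤ) : L) =
      (q.num : L) * (u : L) * (p : L) := by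
    have h8 : ((u * (p : ℤ) + t * (q.den : ℤ) : ℤ) : L) = 1 := by rw [hut]; simp
    push_cast at h8 h4 ⊢
    linear_combination h4 - (q.num : L) * h8
  have h9 := congrArg A.valuation key
  rw [map_mul, hdv, mul_one, map_mul, map_mul] at h9
  rw [h9]
  calc A.valuation (q.num : L) * A.valuation (u : L) * A.valuation (p : L)
      ≤ 1 * 1 * A.valuation (p : L) := by
        gcongr
        · exact val_int_le_one _
        · exact val_int_le_one _
    _ = A.valuation (p : L) := by rw [one_mul, one_mul]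

end Fermat.Agent.S14.H366

end
-- ===== PACK-END S14/H366/ValQ.lean

-- ===== PACK-BEGIN S56/H434/RootGalois.lean
section



/-!
# S56 / W-FLAT-SS / ROOT, part R3 (helper434): the Galois-theoretic steps

* `isClosed_decompositionSubgroup`, `mem_decompositionSubgroup_of_fixes` (G1): an automorphism
  of `ℚ̄` fixing the decomposition ring `P ∩ ℚ̄^{D_P}` pointwise lies in `D_P`.
* `fracField B` : the fraction field of a subring `B ⊆ ℚ̄` as an intermediate field.
* `fixes_of_fixes` (G2): degree count.  `G`, `G'` monic of degree `e` with coefficients in `B`,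
  `G(ϖ) = 0`, `G'(ϖ') = 0`, `1, ϖ, …, ϖ^(e-1)` linearly independent over `B`.  If every
  automorphism fixing `B` and `ϖ'` fixes `ϖ`, then every automorphism fixing `B` and `ϖ` fixes `ϖ'`.
-/

set_option autoImplicit false
set_option linter.style.haveILetI false

open scoped Pointwise
open Polynomial

namespace Fermat.Agent.S56.H434

/-- `ℚ̄/ℚ` is algebraic (for the `Algebra ℚ ℚ̄` instance found by instance search). -/
theorem isAlgebraic_Qb434 : Algebra.IsAlgebraic ℚ (AlgebraicClosure ℚ) :=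
  AlgebraicClosure.isAlgebraic ℚ

/-- `ℚ̄/ℚ` is Galois (for the `Algebra ℚ ℚ̄` instance found by instance search). -/
theorem isGalois_Qb434 : IsGalois ℚ (AlgebraicClosure ℚ) := by
  haveI : Algebra.IsAlgebraic ℚ (AlgebraicClosure ℚ) := isAlgebraic_Qb434
  haveI : IsAlgClosure ℚ (AlgebraicClosure ℚ) := ⟨inferInstance, inferInstance⟩
  haveI : Normal ℚ (AlgebraicClosure ℚ) := IsAlgClosure.normal ℚ (AlgebraicClosure ℚ)
  exact isGalois_iff.mpr ⟨inferInstance, inferInstance⟩

attribute [local instance] isAlgebraic_Qb434 isGalois_Qb434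

section G1

/-- The decomposition group is closed in the Krull topology. -/
theorem isClosed_decompositionSubgroup (P : ValuationSubring (AlgebraicClosure ℚ)) :
    IsClosed ((P.decompositionSubgroup ℚ : Subgroup (AlgebraicClosure ℚ ≃ₐ[ℚ] AlgebraicClosure ℚ)) :
      Set (AlgebraicClosure ℚ ≃ₐ[ℚ] AlgebraicClosure ℚ)) := by
  have : ((P.decompositionSubgroup ℚ : Subgroup (AlgebraicClosure ℚ ≃ₐ[ℚ] AlgebraicClosure ℚ)) :
      Set (AlgebraicClosure ℚ ≃ₐ[ℚ] AlgebraicClosure ℚ))
      = ⋂ x ∈ (P : Set (AlgebraicClosure ℚ)),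
        {σ : AlgebraicClosure ℚ ≃ₐ[ℚ] AlgebraicClosure ℚ | σ x ∈ (P : Set (AlgebraicClosure ℚ))} := by
    ext σ
    simp only [SetLike.mem_coe, Set.mem_iInter, Set.mem_ofPred_eq]
    constructor
    · intro hσ x hx
      exact Fermat.Agent.A2.IF.H9.apply_mem_of_smul_eq (MulAction.mem_stabilizer_iff.mp hσ) hx
    · intro h
      exact MulAction.mem_stabilizer_iff.mpr (Fermat.Agent.A2.IF.H9.smul_eq_of_forall_mem P σ h)
  rw [this]
  exact isClosed_biInter fun x _ => Fermat.Agent.A2.IF.H9.isClosed_setOf_apply_mem x _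

/-- **(G1)** An automorphism fixing pointwise the decomposition ring `P ∩ ℚ̄^{D_P}` lies in the
decomposition group `D_P`. -/
theorem mem_decompositionSubgroup_of_fixes (P : ValuationSubring (AlgebraicClosure ℚ))
    (σ : AlgebraicClosure ℚ ≃ₐ[ℚ] AlgebraicClosure ℚ)
    (h : ∀ x ∈ P, (∀ τ ∈ P.decompositionSubgroup ℚ, τ x = x) → σ x = x) :
    σ ∈ P.decompositionSubgroup ℚ := by
  let Hc : ClosedSubgroup (AlgebraicClosure ℚ ≃ₐ[ℚ] AlgebraicClosure ℚ) :=
    ⟨P.decompositionSubgroup ℚ, isClosed_decompositionSubgroup P⟩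
  have hH := InfiniteGalois.fixingSubgroup_fixedField Hc
  have hσ : σ ∈ (IntermediateField.fixedField
      (Hc : Subgroup (AlgebraicClosure ℚ ≃ₐ[ℚ] AlgebraicClosure ℚ))).fixingSubgroup := by
    rw [IntermediateField.mem_fixingSubgroup_iff]
    intro x hx
    have hxfix : ∀ τ ∈ P.decompositionSubgroup ℚ, τ x = x := by
      intro τ hτ
      exact (IntermediateField.mem_fixedField_iff _ x).mp hx τ hτ
    rcases P.mem_or_inv_mem x with hxP | hxP
    · exact h x hxP hxfix
    · have h1 := h x⁻¹ hxP (fun τ hτ => by rw [map_inv₀, hxfix τ hτ])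
      rw [map_inv₀] at h1
      exact inv_injective h1
  rw [hH] at hσ
  exact hσ

end G1

section G2

/-- The fraction field of a subring of `ℚ̄`, as an intermediate field. -/
def fracField (B : Subring (AlgebraicClosure ℚ)) : IntermediateField ℚ (AlgebraicClosure ℚ) where
  carrier := {x | ∃ a ∈ B, ∃ d ∈ B, d ≠ 0 ∧ x * d = a}
  mul_mem' := by
    rintro x y ⟨a, ha, d, hd, hd0, hx⟩ ⟨a', ha', d', hd', hd'0, hy⟩
    refine ⟨a * a', B.mul_mem ha ha', d * d', B.mul_mem hd hd', mul_ne_zero hd0 hd'0, ?_⟩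
    rw [← hx, ← hy]; ring
  one_mem' := ⟨1, B.one_mem, 1, B.one_mem, one_ne_zero, by ring⟩
  add_mem' := by
    rintro x y ⟨a, ha, d, hd, hd0, hx⟩ ⟨a', ha', d', hd', hd'0, hy⟩
    refine ⟨a * d' + a' * d, B.add_mem (B.mul_mem ha hd') (B.mul_mem ha' hd), d * d',
      B.mul_mem hd hd', mul_ne_zero hd0 hd'0, ?_⟩
    rw [← hx, ← hy]; ring
  zero_mem' := ⟨0, B.zero_mem, 1, B.one_mem, one_ne_zero, by ring⟩
  algebraMap_mem' := by
    intro q
    refine ⟨(q.num : AlgebraicClosure ℚ), intCast_mem B _, (q.den : AlgebraicClosure ℚ),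
      natCast_mem B _, by exact_mod_cast q.den_nz, ?_⟩
    have h1 : (algebraMap ℚ (AlgebraicClosure ℚ)) q * ((q.den : ℚ) : AlgebraicClosure ℚ)
        = ((q.num : ℚ) : AlgebraicClosure ℚ) := by
      have h2 : q * (q.den : ℚ) = (q.num : ℚ) := Rat.mul_den_eq_num q
      have h3 := congrArg (algebraMap ℚ (AlgebraicClosure ℚ)) h2
      rw [map_mul] at h3
      simpa using h3
    simpa using h1
  inv_mem' := by
    rintro x ⟨a, ha, d, hd, hd0, hx⟩
    rcases eq_or_ne a 0 with rfl | ha0
    · have hx0 : x = 0 := by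
        rcases mul_eq_zero.mp hx with h | h
        · exact h
        · exact absurd h hd0
      refine ⟨0, B.zero_mem, 1, B.one_mem, one_ne_zero, ?_⟩
      rw [hx0]; simp
    · refine ⟨d, hd, a, ha, ha0, ?_⟩
      have hx0 : x ≠ 0 := by
        rintro rfl
        rw [zero_mul] at hx
        exact ha0 hx.symm
      rw [← hx]
      field_simp

theorem mem_fracField {B : Subring (AlgebraicClosure ℚ)} {x : AlgebraicClosure ℚ} :
    x ∈ fracField B ↔ ∃ a ∈ B, ∃ d ∈ B, d ≠ 0 ∧ x * d = a := Iff.rfl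

theorem subring_le_fracField (B : Subring (AlgebraicClosure ℚ)) {b : AlgebraicClosure ℚ}
    (hb : b ∈ B) : b ∈ fracField B :=
  ⟨b, hb, 1, B.one_mem, one_ne_zero, mul_one b⟩

/-- An automorphism fixing `B` pointwise fixes its fraction field pointwise. -/
theorem fixes_fracField (B : Subring (AlgebraicClosure ℚ))
    (σ : AlgebraicClosure ℚ ≃ₐ[ℚ] AlgebraicClosure ℚ) (hσ : ∀ b ∈ B, σ b = b)
    {x : AlgebraicClosure ℚ} (hx : x ∈ fracField B) : σ x = x := by
  obtain ⟨a, ha, d, hd, hd0, hxd⟩ := hx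
  have h1 : σ x * d = x * d := by
    have := congrArg σ hxd
    rw [map_mul, hσ d hd, hσ a ha] at this
    rw [this, hxd]
  exact mul_right_cancel₀ hd0 h1

/-- Clearing the denominators of a finite family of elements of the fraction field. -/
theorem exists_common_denominator (B : Subring (AlgebraicClosure ℚ)) (s : Finset ℕ)
    (c : ℕ → AlgebraicClosure ℚ) (hc : ∀ i ∈ s, c i ∈ fracField B) :
    ∃ D ∈ B, D ≠ 0 ∧ ∀ i ∈ s, c i * D ∈ B := by
  classical
  induction s using Finset.induction_on with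
  | empty => exact ⟨1, B.one_mem, one_ne_zero, by simp⟩
  | insert j s hj ih =>
    obtain ⟨D, hD, hD0, hDs⟩ := ih fun i hi => hc i (Finset.mem_insert_of_mem hi)
    obtain ⟨a, ha, d, hd, hd0, hjd⟩ := hc j (Finset.mem_insert_self j s)
    refine ⟨D * d, B.mul_mem hD hd, mul_ne_zero hD0 hd0, fun i hi => ?_⟩
    rcases Finset.mem_insert.mp hi with rfl | hi
    · have : c i * (D * d) = D * a := by rw [← hjd]; ring
      rw [this]
      exact B.mul_mem hD ha
    · have : c i * (D * d) = c i * D * d := by ring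
      rw [this]
      exact B.mul_mem (hDs i hi) hd

/-- **(G2)** degree count. -/
theorem fixes_of_fixes (B : Subring (AlgebraicClosure ℚ)) (ϖ ϖ' : AlgebraicClosure ℚ) (e : ℕ)
    (G' : (AlgebraicClosure ℚ)[X]) (hG'm : G'.Monic) (hG'deg : G'.natDegree = e)
    (hG'coef : ∀ i, G'.coeff i ∈ B) (hroot' : G'.eval ϖ' = 0)
    (hindep : ∀ a : Fin e → AlgebraicClosure ℚ, (∀ i, a i ∈ B) →
      ∑ i, a i * ϖ ^ (i : ℕ) = 0 → ∀ i, a i = 0)
    (h : ∀ σ : AlgebraicClosure ℚ ≃ₐ[ℚ] AlgebraicClosure ℚ,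
      (∀ b ∈ B, σ b = b) → σ ϖ' = ϖ' → σ ϖ = ϖ) :
    ∀ τ : AlgebraicClosure ℚ ≃ₐ[ℚ] AlgebraicClosure ℚ,
      (∀ b ∈ B, τ b = b) → τ ϖ = ϖ → τ ϖ' = ϖ' := by
  classical
  set K : IntermediateField ℚ (AlgebraicClosure ℚ) := fracField B with hK
  haveI : IsGalois K (AlgebraicClosure ℚ) := IsGalois.tower_top_intermediateField K
  haveI : Algebra.IsAlgebraic K (AlgebraicClosure ℚ) := inferInstance
  have hint : ∀ x : AlgebraicClosure ℚ, IsIntegral K x :=
    fun x => (Algebra.IsAlgebraic.isAlgebraic x).isIntegral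
  -- Step A: the degree of `ϖ'` over `K` is at most `e`
  have hlifts : G' ∈ Polynomial.lifts (algebraMap K (AlgebraicClosure ℚ)) := by
    rw [Polynomial.lifts_iff_coeff_lifts]
    intro i
    exact ⟨⟨G'.coeff i, subring_le_fracField B (hG'coef i)⟩, rfl⟩
  obtain ⟨q, hqmap, hqdeg, hqm⟩ := Polynomial.lifts_and_natDegree_eq_and_monic hlifts hG'm
  have hqroot : Polynomial.aeval ϖ' q = 0 := by
    rw [Polynomial.aeval_def, ← Polynomial.eval_map, hqmap, hroot']
  have hA : (minpoly K ϖ').natDegree ≤ e := by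
    rw [← hG'deg, ← hqdeg]
    exact Polynomial.natDegree_le_of_dvd (minpoly.dvd K ϖ' hqroot) hqm.ne_zero
  -- Step B: the degree of `ϖ` over `K` is at least `e`
  have hB : e ≤ (minpoly K ϖ).natDegree := by
    by_contra hcon
    rw [not_le] at hcon
    set m := (minpoly K ϖ).natDegree with hm
    have hmonic : (minpoly K ϖ).Monic := minpoly.monic (hint ϖ)
    let c : ℕ → AlgebraicClosure ℚ := fun i => ((minpoly K ϖ).coeff i : AlgebraicClosure ℚ)
    obtain ⟨D, hD, hD0, hDc⟩ := exists_common_denominator B (Finset.range (m + 1)) c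
      (fun i _ => ((minpoly K ϖ).coeff i).2)
    have hsum : ∑ i ∈ Finset.range (m + 1), c i * ϖ ^ i = 0 := by
      have h1 := minpoly.aeval K ϖ
      rw [Polynomial.aeval_eq_sum_range] at h1
      rw [← h1]
      refine Finset.sum_congr rfl fun i _ => ?_
      rw [Algebra.smul_def]
      rfl
    have key := hindep (fun i : Fin e => if (i : ℕ) ≤ m then c i * D else 0)
      (fun i => by
        by_cases hi : (i : ℕ) ≤ m
        · simp only [hi, if_true]
          exact hDc i (Finset.mem_range.mpr (Nat.lt_succ_of_le hi))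
        · simp only [hi, if_false]
          exact B.zero_mem)
      (by
        have h2 : ∑ i : Fin e, (if (i : ℕ) ≤ m then c i * D else 0) * ϖ ^ (i : ℕ)
            = ∑ i ∈ Finset.range e, (if i ≤ m then c i * D else 0) * ϖ ^ i :=
          (Finset.sum_range (fun i => (if i ≤ m then c i * D else 0) * ϖ ^ i)).symm
        rw [h2]
        have h3 : ∑ i ∈ Finset.range e, (if i ≤ m then c i * D else 0) * ϖ ^ i
            = ∑ i ∈ Finset.range (m + 1), c i * D * ϖ ^ i := by
          have hsub : Finset.range (m + 1) ⊆ Finset.range e :=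
            Finset.range_subset_range.mpr hcon
          rw [← Finset.sum_subset hsub (f := fun i => (if i ≤ m then c i * D else 0) * ϖ ^ i)]
          · refine Finset.sum_congr rfl fun i hi => ?_
            have : i ≤ m := Nat.lt_succ_iff.mp (Finset.mem_range.mp hi)
            simp only [this, if_true]
          · intro i _ hi
            have : ¬ i ≤ m := fun h => hi (Finset.mem_range.mpr (Nat.lt_succ_of_le h))
            simp only [this, if_false, zero_mul]
        rw [h3]
        have h4 : ∑ i ∈ Finset.range (m + 1), c i * D * ϖ ^ i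
            = D * ∑ i ∈ Finset.range (m + 1), c i * ϖ ^ i := by
          rw [Finset.mul_sum]
          refine Finset.sum_congr rfl fun i _ => ?_
          ring
        rw [h4, hsum, mul_zero])
      ⟨m, hcon⟩
    simp only [le_refl, if_true] at key
    have hcm : c m = 1 := by
      show (((minpoly K ϖ).coeff m : K) : AlgebraicClosure ℚ) = 1
      rw [hm, Polynomial.coeff_natDegree, hmonic.leadingCoeff]
      rfl
    rw [hcm, one_mul] at key
    exact hD0 key
  -- Step C: `ϖ ∈ K(ϖ')`
  have hC : ϖ ∈ IntermediateField.adjoin K {ϖ'} := by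
    have hfix := InfiniteGalois.fixedField_fixingSubgroup (IntermediateField.adjoin K {ϖ'})
    rw [← hfix, IntermediateField.mem_fixedField_iff]
    intro σ hσ
    have hσ' := (IntermediateField.mem_fixingSubgroup_iff _ σ).mp hσ
    have h1 : ∀ b ∈ B, (σ.restrictScalars ℚ) b = b := by
      intro b hb
      exact σ.commutes ⟨b, subring_le_fracField B hb⟩
    have h2 : (σ.restrictScalars ℚ) ϖ' = ϖ' :=
      hσ' ϖ' (IntermediateField.subset_adjoin K _ (Set.mem_singleton _))
    exact h (σ.restrictScalars ℚ) h1 h2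
  -- Step D: `K(ϖ) = K(ϖ')`
  have hle : IntermediateField.adjoin K {ϖ} ≤ IntermediateField.adjoin K {ϖ'} := by
    rw [IntermediateField.adjoin_le_iff]
    rintro x hx
    rw [Set.mem_singleton_iff] at hx
    rw [hx]
    exact hC
  haveI : FiniteDimensional K (IntermediateField.adjoin K {ϖ'}) :=
    IntermediateField.adjoin.finiteDimensional (hint ϖ')
  have hfr : Module.finrank K (IntermediateField.adjoin K {ϖ'})
      ≤ Module.finrank K (IntermediateField.adjoin K {ϖ}) := by
    rw [IntermediateField.adjoin.finrank (hint ϖ'), IntermediateField.adjoin.finrank (hint ϖ)]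
    exact hA.trans hB
  have heq : IntermediateField.adjoin K {ϖ} = IntermediateField.adjoin K {ϖ'} :=
    IntermediateField.eq_of_le_of_finrank_le hle hfr
  have hϖ' : ϖ' ∈ IntermediateField.adjoin K {ϖ} := by
    rw [heq]
    exact IntermediateField.subset_adjoin K _ (Set.mem_singleton _)
  -- Step E
  intro τ hτB hτϖ
  let τ' : AlgebraicClosure ℚ ≃ₐ[K] AlgebraicClosure ℚ :=
    { τ.toRingEquiv with
      commutes' := fun x => fixes_fracField B τ hτB x.2 }
  have hτ'app : ∀ x, τ' x = τ x := fun x => rfl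
  have hmem : ϖ ∈ IntermediateField.fixedField (Subgroup.zpowers τ') := by
    rw [IntermediateField.mem_fixedField_iff]
    intro g hg
    obtain ⟨n, rfl⟩ := Subgroup.mem_zpowers_iff.mp hg
    have hfix1 : τ' ϖ = ϖ := hτϖ
    have : ∀ n : ℕ, (τ' ^ n) ϖ = ϖ := by
      intro n
      induction n with
      | zero => rfl
      | succ n ih => rw [pow_succ, AlgEquiv.mul_apply, hfix1, ih]
    have hinv : ∀ n : ℕ, ((τ' ^ n)⁻¹) ϖ = ϖ := by
      intro n
      have h1 := this n
      have h2 : ((τ' ^ n)⁻¹) ((τ' ^ n) ϖ) = ϖ := by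
        rw [← AlgEquiv.mul_apply, inv_mul_cancel]
        rfl
      rw [h1] at h2
      exact h2
    cases n with
    | ofNat n => simpa using this n
    | negSucc n => simpa [zpow_negSucc] using hinv (n + 1)
  have hle2 : IntermediateField.adjoin K {ϖ} ≤ IntermediateField.fixedField (Subgroup.zpowers τ') := by
    rw [IntermediateField.adjoin_le_iff]
    rintro x hx
    rw [Set.mem_singleton_iff] at hx
    rw [hx]
    exact hmem
  have h3 := hle2 hϖ'
  rw [IntermediateField.mem_fixedField_iff] at h3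
  exact h3 τ' (Subgroup.mem_zpowers τ')

end G2

end Fermat.Agent.S56.H434

end
-- ===== PACK-END S56/H434/RootGalois.lean

-- ===== PACK-BEGIN S56/H846/FLCnt/Basic.lean
section


/-!
# FL-CNT: basic consequences of `FLCnt.Hyp` and step C1 (`W = Γ₁`)
(helper846)  Mathlib only, nothing unproved.
-/

set_option autoImplicit false
set_option linter.unusedSectionVars false
set_option linter.style.haveILetI false
set_option linter.unusedVariables false

namespace Fermat.Agent.S56.H846.FLCnt

variable {Γ k Z : Type} [Group Γ] [Field k] [AddCommGroup Z] [Module k Z]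

/-- If `x ^ a` and `x ^ b` lie in a subgroup and `a`, `b` are coprime, then so does `x`. -/
theorem mem_of_pow_mem_coprime (H : Subgroup Γ) (x : Γ) {a b : ℕ} (hab : Nat.Coprime a b)
    (ha : x ^ a ∈ H) (hb : x ^ b ∈ H) : x ∈ H := by
  have h1 : (1 : ℤ) = a * Nat.gcdA a b + b * Nat.gcdB a b := by
    have := Nat.gcd_eq_gcd_ab a b
    rw [hab.gcd_eq_one] at this
    exact_mod_cast this
  have h2 : x = (x ^ a) ^ (Nat.gcdA a b) * (x ^ b) ^ (Nat.gcdB a b) := by
    rw [← zpow_natCast, ← zpow_natCast, ← zpow_mul, ← zpow_mul, ← zpow_add, ← h1, zpow_one]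
  rw [h2]
  exact H.mul_mem (H.zpow_mem ha _) (H.zpow_mem hb _)

/-- `c` is additive and equivariant on `W`. -/
structure IsCoc (D : Data Γ k Z) (c : Γ → Z) : Prop where
  mul : ∀ w ∈ D.W, ∀ w' ∈ D.W, c (w * w') = c w + c w'
  conj : ∀ (g : Γ), ∀ w ∈ D.W, c (g * w * g⁻¹) = D.ρ g (c w)

namespace IsCoc

variable {D : Data Γ k Z} {c : Γ → Z} (hc : IsCoc D c)
include hc

theorem one : c 1 = 0 := by
  have := hc.mul 1 D.W.one_mem 1 D.W.one_mem
  simpa using this

theorem inv {w : Γ} (hw : w ∈ D.W) : c w⁻¹ = - c w := by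
  have := hc.mul w hw w⁻¹ (D.W.inv_mem hw)
  rw [mul_inv_cancel, hc.one] at this
  exact eq_neg_of_add_eq_zero_right this.symm

theorem div {w w' : Γ} (hw : w ∈ D.W) (hw' : w' ∈ D.W) : c (w * w'⁻¹) = c w - c w' := by
  rw [hc.mul w hw _ (D.W.inv_mem hw'), hc.inv hw', sub_eq_add_neg]

theorem pow {w : Γ} (hw : w ∈ D.W) (n : ℕ) : c (w ^ n) = n • c w := by
  induction n with
  | zero => simp [hc.one]
  | succ n ih => rw [pow_succ, hc.mul _ (D.W.pow_mem hw n) _ hw, ih, succ_nsmul]

theorem comm (hW : D.W.Normal) (g : Γ) {w : Γ} (hw : w ∈ D.W) :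
    c (g * w * g⁻¹ * w⁻¹) = D.ρ g (c w) - c w := by
  rw [hc.div (hW.conj_mem w hw g) hw, hc.conj g w hw]

end IsCoc

namespace Hyp

variable {p : ℕ} [Fact p.Prime] {D : Data Γ k Z} (h : _root_.Fermat.Agent.S56.H846.FLCnt.Hyp p D)
include h

theorem isCoc₁ : IsCoc D D.c₁ := ⟨h.c₁_mul, h.c₁_conj⟩
theorem isCoc₂ : IsCoc D D.c₂ := ⟨h.c₂_mul, h.c₂_conj⟩

theorem eq_of_c_eq {w w' : Γ} (hw : w ∈ D.W) (hw' : w' ∈ D.W) (h1 : D.c₁ w = D.c₁ w')
    (h2 : D.c₂ w = D.c₂ w') : w = w' := by
  have := h.c_inj (w * w'⁻¹) (D.W.mul_mem hw (D.W.inv_mem hw'))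
    (by rw [h.isCoc₁.div hw hw', h1, sub_self]) (by rw [h.isCoc₂.div hw hw', h2, sub_self])
  exact mul_inv_eq_one.mp this

/-- equality of elements of `Z` can be checked on coordinates -/
theorem eq_of_coord {z z' : Z} (h1 : D.ℓ₁ z = D.ℓ₁ z') (h2 : D.ℓp z = D.ℓp z')
    (h3 : D.ℓm z = D.ℓm z') : z = z' := by
  have := h.coord_inj (z - z') (by rw [map_sub, h1, sub_self]) (by rw [map_sub, h2, sub_self])
    (by rw [map_sub, h3, sub_self])
  exact sub_eq_zero.mp this

theorem W_comm {w w' : Γ} (hw : w ∈ D.W) (hw' : w' ∈ D.W) : w * w' = w' * w :=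
  h.eq_of_c_eq (D.W.mul_mem hw hw') (D.W.mul_mem hw' hw)
    (by rw [h.c₁_mul w hw w' hw', h.c₁_mul w' hw' w hw, add_comm])
    (by rw [h.c₂_mul w hw w' hw', h.c₂_mul w' hw' w hw, add_comm])

theorem p_nsmul (z : Z) : p • z = 0 := by
  haveI := h.charP
  rw [← Nat.cast_smul_eq_nsmul k, CharP.cast_eq_zero, zero_smul]

theorem pow_p_eq_one {w : Γ} (hw : w ∈ D.W) : w ^ p = 1 :=
  h.c_inj _ (D.W.pow_mem hw p) (by rw [h.isCoc₁.pow hw, h.p_nsmul])
    (by rw [h.isCoc₂.pow hw, h.p_nsmul])

theorem p_prime : p.Prime := Fact.out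

theorem p_ge_three : 3 ≤ p := by
  have h2 := (h.p_prime).two_le
  have := h.p_odd
  omega

theorem p_odd' : Odd p := (h.p_prime).odd_of_ne_two h.p_odd

theorem m_pos : 0 < D.m := by
  rcases Nat.eq_zero_or_pos D.m with h0 | h0
  · have := h.m_dvd
    rw [h0, zero_dvd_iff] at this
    omega
  · exact h0

theorem m_even : 2 ∣ D.m := by
  obtain ⟨t, ht⟩ := h.m_dvd
  have hodd := h.m_odd
  rw [ht, Nat.mul_div_cancel_left _ h.m_pos] at hodd
  have hp := h.p_odd'
  have hev : Even (D.m * t) := by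
    rw [← ht]
    exact hp.add_one
  rcases Nat.even_mul.mp hev with h1 | h1
  · exact even_iff_two_dvd.mp h1
  · exact absurd h1 (Nat.not_even_iff_odd.mpr hodd)

theorem m_ge_two : 2 ≤ D.m := Nat.le_of_dvd h.m_pos h.m_even

theorem m_le : D.m ≤ p + 1 := Nat.le_of_dvd (by omega) h.m_dvd

theorem m_coprime_p : Nat.Coprime D.m p := by
  have h1 : Nat.Coprime (p + 1) p := by simp
  exact Nat.Coprime.coprime_dvd_left h.m_dvd h1

theorem ψ₀_pow_m : D.ψ₀ ^ D.m = 1 := (h.ψ₀_pow D.m).2 dvd_rfl

theorem ψ₀_ne_zero : D.ψ₀ ≠ 0 := by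
  intro h0
  have := h.ψ₀_pow_m
  rw [h0, zero_pow (by have := h.m_pos; omega)] at this
  exact zero_ne_one this

theorem ψ₀_inv_pow (j : ℕ) : D.ψ₀⁻¹ ^ j = 1 ↔ D.m ∣ j := by
  rw [inv_pow, inv_eq_one, h.ψ₀_pow]

theorem ψ₀_ne_one : D.ψ₀ ≠ 1 := by
  intro h1
  have := (h.ψ₀_pow 1).1 (by rw [pow_one, h1])
  have := Nat.le_of_dvd one_pos this
  have := h.m_ge_two
  omega

/-! ### the action of tame inertia on coordinates -/

theorem tame_pow_ℓ₁ (j : ℕ) (z : Z) : D.ℓ₁ ((D.ρ D.τ₀ ^ j) z) = D.ℓ₁ z := by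
  induction j generalizing z with
  | zero => simp
  | succ j ih => rw [pow_succ, Module.End.mul_apply, ih, h.tame_ℓ₁]

theorem tame_pow_ℓp (j : ℕ) (z : Z) : D.ℓp ((D.ρ D.τ₀ ^ j) z) = D.ψ₀ ^ j * D.ℓp z := by
  induction j generalizing z with
  | zero => simp
  | succ j ih => rw [pow_succ, Module.End.mul_apply, ih, h.tame_ℓp, pow_succ, mul_assoc]

theorem tame_pow_ℓm (j : ℕ) (z : Z) : D.ℓm ((D.ρ D.τ₀ ^ j) z) = D.ψ₀⁻¹ ^ j * D.ℓm z := by
  induction j generalizing z with
  | zero => simp
  | succ j ih => rw [pow_succ, Module.End.mul_apply, ih, h.tame_ℓm, pow_succ, mul_assoc]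

/-! ### inertia and wild inertia -/

theorem F_anti (N : Subgroup Γ) (hN : N.Normal) (hNW : N ≤ D.W) (hN1 : N ≤ D.F ⊥ 1) (n : ℕ) :
    D.F N (n + 1) ≤ D.F N n := by
  intro σ hσ
  rw [h.mem_F N hN hNW hN1] at hσ ⊢
  rcases hσ with hσ | hσ
  · exact Or.inl hσ
  · exact Or.inr (by omega)

theorem F_anti' (N : Subgroup Γ) (hN : N.Normal) (hNW : N ≤ D.W) (hN1 : N ≤ D.F ⊥ 1) {n n' : ℕ}
    (hn : n ≤ n') : D.F N n' ≤ D.F N n := by
  intro σ hσ
  rw [h.mem_F N hN hNW hN1] at hσ ⊢
  rcases hσ with hσ | hσ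
  · exact Or.inl hσ
  · exact Or.inr (by omega)

theorem le_F (N : Subgroup Γ) (hN : N.Normal) (hNW : N ≤ D.W) (hN1 : N ≤ D.F ⊥ 1) (n : ℕ) :
    N ≤ D.F N n := by
  intro σ hσ
  rw [h.mem_F N hN hNW hN1]
  exact Or.inl hσ

theorem bot_normal : (⊥ : Subgroup Γ).Normal := Subgroup.normal_bot

theorem wild_le_inertia : D.F ⊥ 1 ≤ D.F ⊥ 0 :=
  h.F_anti ⊥ Subgroup.normal_bot bot_le bot_le 0

theorem inertia_normal : (D.F ⊥ 0).Normal := h.F_normal ⊥ Subgroup.normal_bot bot_le bot_le 0

theorem wild_normal : (D.F ⊥ 1).Normal := h.F_normal ⊥ Subgroup.normal_bot bot_le bot_le 1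

theorem wild_le_W : D.F ⊥ 1 ≤ D.W := by
  intro γ hγ
  haveI := h.W_normal
  obtain ⟨r, hr⟩ := h.wild_pgroup ⟨γ, hγ⟩
  have hr' : γ ^ (p ^ r) = 1 := by
    have := congrArg Subtype.val hr
    simpa using this
  have h1 : γ ^ D.W.index ∈ D.W := Subgroup.pow_index_mem D.W γ
  have h2 : γ ^ (p ^ r) ∈ D.W := by rw [hr']; exact D.W.one_mem
  have hcop : Nat.Coprime D.W.index (p ^ r) :=
    Nat.Coprime.pow_right r (((h.p_prime).coprime_iff_not_dvd.mpr h.W_index).symm)
  exact mem_of_pow_mem_coprime D.W γ hcop h1 h2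

theorem W_inf_inertia_le : D.W ⊓ D.F ⊥ 0 ≤ D.F ⊥ 1 := by
  intro w hw
  refine h.tame_no_p w hw.2 ?_
  rw [h.pow_p_eq_one hw.1]
  exact (D.F ⊥ 1).one_mem

theorem W_inf_inertia : D.W ⊓ D.F ⊥ 0 = D.F ⊥ 1 :=
  le_antisymm h.W_inf_inertia_le (le_inf h.wild_le_W h.wild_le_inertia)

/-- commutators of inertia elements with `W` lie in wild inertia -/
theorem comm_tame_mem {τ w : Γ} (hτ : τ ∈ D.F ⊥ 0) (hw : w ∈ D.W) :
    τ * w * τ⁻¹ * w⁻¹ ∈ D.F ⊥ 1 := by
  apply h.W_inf_inertia_le
  refine ⟨D.W.mul_mem (h.W_normal.conj_mem w hw τ) (D.W.inv_mem hw), ?_⟩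
  have h1 : w * τ⁻¹ * w⁻¹ ∈ D.F ⊥ 0 :=
    h.inertia_normal.conj_mem τ⁻¹ ((D.F ⊥ 0).inv_mem hτ) w
  have h2 : τ * w * τ⁻¹ * w⁻¹ = τ * (w * τ⁻¹ * w⁻¹) := by group
  rw [h2]
  exact (D.F ⊥ 0).mul_mem hτ h1

theorem comm_frob_mem {w : Γ} (hw : w ∈ D.W) : D.φ * w * D.φ⁻¹ * w⁻¹ ∈ D.F ⊥ 1 := by
  apply h.W_inf_inertia_le
  exact ⟨D.W.mul_mem (h.W_normal.conj_mem w hw D.φ) (D.W.inv_mem hw), h.frob_comm w hw⟩

theorem τ₀_pow_mem (j : ℕ) : D.τ₀ ^ j ∈ D.F ⊥ 0 := (D.F ⊥ 0).pow_mem h.τ₀_mem j

/-! ### Step C1: `W ≤ Γ₀`, hence `W = Γ₁` -/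

/-- the product `∏_{j < n} τ ^ j w τ ^ (-j)` -/
def avg (τ w : Γ) : ℕ → Γ
  | 0 => 1
  | n + 1 => avg τ w n * (τ ^ n * w * (τ ^ n)⁻¹)

omit h in
theorem avg_zero (τ w : Γ) : avg τ w 0 = 1 := rfl

omit h in
theorem avg_succ (τ w : Γ) (n : ℕ) : avg τ w (n + 1) = avg τ w n * (τ ^ n * w * (τ ^ n)⁻¹) :=
  rfl

theorem avg_mem (τ : Γ) {w : Γ} (hw : w ∈ D.W) (n : ℕ) : avg τ w n ∈ D.W := by
  induction n with
  | zero => exact D.W.one_mem
  | succ n ih => exact D.W.mul_mem ih (h.W_normal.conj_mem w hw _)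

theorem coc_avg {c : Γ → Z} (hc : IsCoc D c) (τ : Γ) {w : Γ} (hw : w ∈ D.W) (n : ℕ) :
    c (avg τ w n) = ∑ j ∈ Finset.range n, (D.ρ τ ^ j) (c w) := by
  induction n with
  | zero => simp [Hyp.avg_zero, hc.one]
  | succ n ih =>
    rw [Hyp.avg_succ, hc.mul _ (h.avg_mem τ hw n) _ (h.W_normal.conj_mem w hw _), ih,
      Finset.sum_range_succ, hc.conj _ w hw, map_pow]

omit h in
/-- pure group theory: if all `[τ ^ n, w]` lie in a normal subgroup `H`, then
`avg τ w n ≡ w ^ n` modulo `H`. -/
theorem avg_mul_inv_mem_of (H : Subgroup Γ) (hH : H.Normal) (τ w : Γ)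
    (hcomm : ∀ n : ℕ, τ ^ n * w * (τ ^ n)⁻¹ * w⁻¹ ∈ H) (n : ℕ) :
    avg τ w n * (w ^ n)⁻¹ ∈ H := by
  induction n with
  | zero => simp [avg_zero, H.one_mem]
  | succ n ih =>
    have h2 : w ^ n * (τ ^ n * w * (τ ^ n)⁻¹ * w⁻¹) * (w ^ n)⁻¹ ∈ H :=
      hH.conj_mem _ (hcomm n) _
    have h3 : avg τ w (n + 1) * (w ^ (n + 1))⁻¹ =
        (avg τ w n * (w ^ n)⁻¹) * (w ^ n * (τ ^ n * w * (τ ^ n)⁻¹ * w⁻¹) * (w ^ n)⁻¹) := by
      rw [avg_succ, pow_succ]
      group
    rw [h3]
    exact H.mul_mem ih h2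

theorem avg_mul_inv_mem {w : Γ} (hw : w ∈ D.W) (n : ℕ) :
    avg D.τ₀ w n * (w ^ n)⁻¹ ∈ D.F ⊥ 1 :=
  avg_mul_inv_mem_of _ h.wild_normal _ _ (fun n => h.comm_tame_mem (h.τ₀_pow_mem n) hw) n

omit h in
theorem geom_zero {r : k} {n : ℕ} (h1 : r ^ n = 1) (h2 : r ≠ 1) :
    ∑ j ∈ Finset.range n, r ^ j = 0 := by
  have h3 := geom_sum_mul r n
  rw [h1, sub_self] at h3
  rcases mul_eq_zero.mp h3 with h4 | h4
  · exact h4
  · exact absurd (sub_eq_zero.mp h4) h2

theorem ρ_tame_pow (j i : ℕ) : D.ρ (D.τ₀ ^ j) ^ i = D.ρ D.τ₀ ^ (j * i) := by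
  rw [map_pow, ← pow_mul]

theorem coc_avg_ℓ₁ {c : Γ → Z} (hc : IsCoc D c) (j : ℕ) {w : Γ} (hw : w ∈ D.W) (n : ℕ) :
    D.ℓ₁ (c (avg (D.τ₀ ^ j) w n)) = n * D.ℓ₁ (c w) := by
  rw [h.coc_avg hc _ hw, map_sum]
  simp_rw [h.ρ_tame_pow, h.tame_pow_ℓ₁]
  simp

theorem coc_avg_ℓp {c : Γ → Z} (hc : IsCoc D c) (j : ℕ) (hj : D.ψ₀ ^ j ≠ 1) {w : Γ}
    (hw : w ∈ D.W) : D.ℓp (c (avg (D.τ₀ ^ j) w D.m)) = 0 := by
  rw [h.coc_avg hc _ hw, map_sum]
  simp_rw [h.ρ_tame_pow, h.tame_pow_ℓp, pow_mul]
  rw [← Finset.sum_mul, geom_zero (by rw [← pow_mul, mul_comm, pow_mul, h.ψ₀_pow_m, one_pow]) hj,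
    zero_mul]

theorem coc_avg_ℓm {c : Γ → Z} (hc : IsCoc D c) (j : ℕ) (hj : D.ψ₀ ^ j ≠ 1) {w : Γ}
    (hw : w ∈ D.W) : D.ℓm (c (avg (D.τ₀ ^ j) w D.m)) = 0 := by
  rw [h.coc_avg hc _ hw, map_sum]
  simp_rw [h.ρ_tame_pow, h.tame_pow_ℓm, pow_mul]
  have hj' : D.ψ₀⁻¹ ^ j ≠ 1 := by
    rw [inv_pow]
    exact fun h' => hj (inv_eq_one.mp h')
  rw [← Finset.sum_mul, geom_zero (by
    rw [← pow_mul, mul_comm, pow_mul, (h.ψ₀_inv_pow D.m).2 dvd_rfl, one_pow]) hj', zero_mul]

/-- coordinates of commutators with tame inertia -/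
theorem coc_comm_ℓ₁ {c : Γ → Z} (hc : IsCoc D c) (j : ℕ) {w : Γ} (hw : w ∈ D.W) :
    D.ℓ₁ (c (D.τ₀ ^ j * w * (D.τ₀ ^ j)⁻¹ * w⁻¹)) = 0 := by
  rw [hc.comm h.W_normal _ hw, map_sub, map_pow, h.tame_pow_ℓ₁, sub_self]

theorem coc_comm_ℓp {c : Γ → Z} (hc : IsCoc D c) (j : ℕ) {w : Γ} (hw : w ∈ D.W) :
    D.ℓp (c (D.τ₀ ^ j * w * (D.τ₀ ^ j)⁻¹ * w⁻¹)) = (D.ψ₀ ^ j - 1) * D.ℓp (c w) := by
  rw [hc.comm h.W_normal _ hw, map_sub, map_pow, h.tame_pow_ℓp]
  ring

theorem coc_comm_ℓm {c : Γ → Z} (hc : IsCoc D c) (j : ℕ) {w : Γ} (hw : w ∈ D.W) :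
    D.ℓm (c (D.τ₀ ^ j * w * (D.τ₀ ^ j)⁻¹ * w⁻¹)) = (D.ψ₀⁻¹ ^ j - 1) * D.ℓm (c w) := by
  rw [hc.comm h.W_normal _ hw, map_sub, map_pow, h.tame_pow_ℓm]
  ring

/-- for `w'` in `W` with vanishing `ψ`-coordinates, `[φ, w'] = w' ^ (-2)` -/
theorem coc_frob_comm_eq {c : Γ → Z} (hc : IsCoc D c) {w : Γ} (hw : w ∈ D.W)
    (h1 : D.ℓp (c w) = 0) (h2 : D.ℓm (c w) = 0) :
    c (D.φ * w * D.φ⁻¹ * w⁻¹) = c (w ^ 2)⁻¹ := by
  rw [hc.comm h.W_normal _ hw, hc.inv (D.W.pow_mem hw 2), hc.pow hw]
  apply h.eq_of_coord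
  · rw [map_sub, h.frob_ℓ₁, map_neg, map_nsmul]
    simp only [nsmul_eq_mul]
    ring
  · rw [map_sub, h.frob_ℓp, map_neg, map_nsmul, h1, h2]
    simp
  · rw [map_sub, h.frob_ℓm, map_neg, map_nsmul, h1, h2]
    simp

/-- **C1**: `W` is contained in wild inertia. -/
theorem W_le_wild : D.W ≤ D.F ⊥ 1 := by
  intro w hw
  have hψ1 : D.ψ₀ ^ 1 ≠ 1 := by rw [pow_one]; exact h.ψ₀_ne_one
  set w' := avg D.τ₀ w D.m with hw'def
  have hw'eq : w' = avg (D.τ₀ ^ 1) w D.m := by rw [pow_one]
  have hw' : w' ∈ D.W := h.avg_mem _ hw _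
  -- `[φ, w'] = w' ^ (-2)`
  have e1 : D.φ * w' * D.φ⁻¹ * w'⁻¹ = (w' ^ 2)⁻¹ :=
    h.eq_of_c_eq (D.W.mul_mem (h.W_normal.conj_mem w' hw' _) (D.W.inv_mem hw'))
      (D.W.inv_mem (D.W.pow_mem hw' 2))
      (h.coc_frob_comm_eq h.isCoc₁ hw' (by rw [hw'eq]; exact h.coc_avg_ℓp h.isCoc₁ 1 hψ1 hw)
        (by rw [hw'eq]; exact h.coc_avg_ℓm h.isCoc₁ 1 hψ1 hw))
      (h.coc_frob_comm_eq h.isCoc₂ hw' (by rw [hw'eq]; exact h.coc_avg_ℓp h.isCoc₂ 1 hψ1 hw)
        (by rw [hw'eq]; exact h.coc_avg_ℓm h.isCoc₂ 1 hψ1 hw))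
  have e2 : w' ^ 2 ∈ D.F ⊥ 1 := by
    have := h.comm_frob_mem hw'
    rw [e1] at this
    exact (Subgroup.inv_mem_iff _).mp this
  have e3 : w' ^ p ∈ D.F ⊥ 1 := by
    rw [h.pow_p_eq_one hw']
    exact (D.F ⊥ 1).one_mem
  have e4 : w' ∈ D.F ⊥ 1 :=
    mem_of_pow_mem_coprime _ w' ((Nat.coprime_primes Nat.prime_two h.p_prime).mpr
      (Ne.symm h.p_odd)) e2 e3
  have e5 : w ^ D.m ∈ D.F ⊥ 1 := by
    have := h.avg_mul_inv_mem hw D.m
    have h6 : w ^ D.m = (avg D.τ₀ w D.m * (w ^ D.m)⁻¹)⁻¹ * w' := by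
      rw [hw'def]; group
    rw [h6]
    exact (D.F ⊥ 1).mul_mem ((D.F ⊥ 1).inv_mem this) e4
  have e6 : w ^ p ∈ D.F ⊥ 1 := by
    rw [h.pow_p_eq_one hw]
    exact (D.F ⊥ 1).one_mem
  exact mem_of_pow_mem_coprime _ w h.m_coprime_p e5 e6

theorem W_eq_wild : D.W = D.F ⊥ 1 := le_antisymm h.W_le_wild h.wild_le_W

theorem W_le_inertia : D.W ≤ D.F ⊥ 0 := h.W_le_wild.trans h.wild_le_inertia

theorem card_inertia' : Nat.card (D.F ⊥ 0) = (p - 1) * D.m * Nat.card D.W := by
  have := h.card_inertia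
  rwa [inf_eq_left.mpr h.W_le_inertia] at this

end Hyp

end Fermat.Agent.S56.H846.FLCnt

end
-- ===== PACK-END S56/H846/FLCnt/Basic.lean

-- ===== PACK-BEGIN S56/H334/RamIdx.lean
section


/-!
# S56 / W-FLAT-SS, piece FL-RAM (helper334), part 7: the ramification index of DVRs

`R ⊆ S` discrete valuation rings (`algebraMap R S` injective and local).

* `exists_map_maximalIdeal_eq_pow` : `𝔪_R S = 𝔪_S ^ e` for some `e ≥ 1`.
* `mem_maximalIdeal_pow_iff_of_map_eq` : `x ∈ 𝔪_R ^ k ↔ x ∈ 𝔪_S ^ (e k)`.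
* `map_maximalIdeal_pow_of_map_eq` : `(𝔪_R ^ k) S = 𝔪_S ^ (e k)`.
* `maximalIdeal_pow_injective` : `𝔪_S ^ a = 𝔪_S ^ b → a = b`.
* `card_ramGroup_zero_eq` : if `Γ` is a finite Galois group of `S/R` and the residue field of `R`
  is finite, then `|Γ₀| = e`.
-/

set_option autoImplicit false
set_option linter.unusedSectionVars false

open IsLocalRing

namespace Fermat.Agent.S56.H334

section PowInj

variable {S : Type*} [CommRing S] [IsDomain S] [IsDiscreteValuationRing S]

theorem maximalIdeal_pow_injective {a b : ℕ} (h : maximalIdeal S ^ a = maximalIdeal S ^ b) :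
    a = b := by
  obtain ⟨ϖ, hϖ⟩ := IsDiscreteValuationRing.exists_irreducible S
  rw [hϖ.maximalIdeal_eq, Ideal.span_singleton_pow, Ideal.span_singleton_pow,
    Ideal.span_singleton_eq_span_singleton] at h
  obtain ⟨u, hu⟩ := h
  exact IsDiscreteValuationRing.unit_mul_pow_congr_pow hϖ hϖ u 1 a b (by
    rw [Units.val_one, one_mul, mul_comm]; exact hu)

theorem maximalIdeal_pow_le_iff {a b : ℕ} : maximalIdeal S ^ a ≤ maximalIdeal S ^ b ↔ b ≤ a := by
  constructor
  · intro h
    by_contra hlt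
    push Not at hlt
    have h5 : maximalIdeal S ^ b ≤ maximalIdeal S ^ a := Ideal.pow_le_pow_right hlt.le
    exact absurd (maximalIdeal_pow_injective (le_antisymm h h5)) hlt.ne
  · exact fun h => Ideal.pow_le_pow_right h

end PowInj

section RamIdx

variable {R : Type*} [CommRing R] [IsDomain R] [IsDiscreteValuationRing R]
variable {S : Type*} [CommRing S] [IsDomain S] [IsDiscreteValuationRing S]
  [Algebra R S] [FaithfulSMul R S] [IsLocalHom (algebraMap R S)]

variable (R S) in
theorem exists_map_maximalIdeal_eq_pow :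
    ∃ e : ℕ, 0 < e ∧ Ideal.map (algebraMap R S) (maximalIdeal R) = maximalIdeal S ^ e := by
  obtain ⟨π, hπ⟩ := IsDiscreteValuationRing.exists_irreducible R
  obtain ⟨ϖ, hϖ⟩ := IsDiscreteValuationRing.exists_irreducible S
  have hπ0 : algebraMap R S π ≠ 0 := by
    rw [Ne, FaithfulSMul.algebraMap_eq_zero_iff]; exact hπ.ne_zero
  obtain ⟨e, he⟩ := IsDiscreteValuationRing.associated_pow_irreducible hπ0 hϖ
  refine ⟨e, ?_, ?_⟩
  · rcases Nat.eq_zero_or_pos e with h0 | h0
    · exfalso
      rw [h0, pow_zero] at he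
      have hu : IsUnit (algebraMap R S π) := he.symm.isUnit isUnit_one
      exact hπ.not_isUnit (isUnit_of_map_unit (algebraMap R S) π hu)
    · exact h0
  · rw [hπ.maximalIdeal_eq, Ideal.map_span, Set.image_singleton, hϖ.maximalIdeal_eq,
      Ideal.span_singleton_pow, Ideal.span_singleton_eq_span_singleton]
    exact he

variable {e : ℕ} (he : Ideal.map (algebraMap R S) (maximalIdeal R) = maximalIdeal S ^ e)

include he in
theorem map_maximalIdeal_pow_of_map_eq (k : ℕ) :
    Ideal.map (algebraMap R S) (maximalIdeal R ^ k) = maximalIdeal S ^ (e * k) := by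
  rw [Ideal.map_pow, he, ← pow_mul]

include he in
theorem ramIdx_pos_of_map_eq : 0 < e := by
  obtain ⟨e', he', h⟩ := exists_map_maximalIdeal_eq_pow R S
  rw [he] at h
  rw [maximalIdeal_pow_injective h]
  exact he'

include he in
theorem map_span_eq_pow_of_span_eq {y : R} {k : ℕ} (hy : Ideal.span {y} = maximalIdeal R ^ k) :
    Ideal.span {algebraMap R S y} = maximalIdeal S ^ (e * k) := by
  rw [← map_maximalIdeal_pow_of_map_eq he, ← hy, Ideal.map_span, Set.image_singleton]

include he in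
theorem mem_maximalIdeal_pow_iff_of_map_eq (x : R) (k : ℕ) :
    x ∈ maximalIdeal R ^ k ↔ algebraMap R S x ∈ maximalIdeal S ^ (e * k) := by
  constructor
  · intro h
    rw [← map_maximalIdeal_pow_of_map_eq he]
    exact Ideal.mem_map_of_mem _ h
  · intro h
    by_cases hx : x = 0
    · rw [hx]; exact Ideal.zero_mem _
    obtain ⟨π, hπ⟩ := IsDiscreteValuationRing.exists_irreducible R
    obtain ⟨j, u, hu⟩ := IsDiscreteValuationRing.eq_unit_mul_pow_irreducible hx hπ
    have hspan : Ideal.span {x} = maximalIdeal R ^ j := by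
      rw [hπ.maximalIdeal_eq, Ideal.span_singleton_pow, hu]
      exact Ideal.span_singleton_eq_span_singleton.2 (associated_unit_mul_left _ _ u.isUnit)
    have h2 := map_span_eq_pow_of_span_eq he hspan
    have h3 : maximalIdeal S ^ (e * j) ≤ maximalIdeal S ^ (e * k) := by
      rw [← h2, Ideal.span_singleton_le_iff_mem]
      exact h
    have h4 : e * k ≤ e * j := maximalIdeal_pow_le_iff.1 h3
    have h6 : k ≤ j := Nat.le_of_mul_le_mul_left h4 (ramIdx_pos_of_map_eq he)
    have : Ideal.span {x} ≤ maximalIdeal R ^ k := by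
      rw [hspan]; exact Ideal.pow_le_pow_right h6
    exact this (Ideal.mem_span_singleton_self x)

end RamIdx

section CardInertia

variable {R : Type*} [CommRing R] [IsDomain R] [IsDiscreteValuationRing R]
variable {S : Type*} [CommRing S] [IsDomain S] [IsDiscreteValuationRing S]
  [Algebra R S] [FaithfulSMul R S] [Module.Finite R S]
  {Γ : Type*} [Group Γ] [Finite Γ] [MulSemiringAction Γ S] [IsGaloisGroup Γ R S]

theorem perfectField_residueField_of_finite [Finite (ResidueField R)] :
    PerfectField (maximalIdeal R).ResidueField := by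
  have hbij := Ideal.bijective_algebraMap_quotient_residueField (maximalIdeal R)
  have : Finite (R ⧸ maximalIdeal R) := ‹Finite (ResidueField R)›
  have : Finite (maximalIdeal R).ResidueField :=
    Finite.of_surjective _ hbij.2
  infer_instance

/-- The order of the inertia group is the ramification index. -/
theorem card_ramGroup_zero_eq [Finite (ResidueField R)] {e : ℕ}
    (he : Ideal.map (algebraMap R S) (maximalIdeal R) = maximalIdeal S ^ e) :
    Nat.card (ramGroup Γ S 0) = e := by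
  have := perfectField_residueField_of_finite (R := R)
  have h1 := Ideal.card_inertia_eq_ramificationIdxIn (G := Γ) (maximalIdeal R) (maximalIdeal S)
  have h2 := Ideal.ramificationIdxIn_eq_ramificationIdx (maximalIdeal R) (maximalIdeal S) Γ
  have hne : maximalIdeal R ≠ ⊥ := IsDiscreteValuationRing.not_a_field R
  have h3 := Ideal.ramificationIdx'_eq_ramificationIdx (maximalIdeal R) (maximalIdeal S) hne
  have h4 : Ideal.ramificationIdx' (maximalIdeal R) (maximalIdeal S) = e := by
    apply Ideal.ramificationIdx'_spec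
    · rw [he]
    · rw [he, maximalIdeal_pow_le_iff]; omega
  have h5 : ramGroup Γ S 0 = (maximalIdeal S).inertia Γ := by
    unfold ramGroup
    rw [zero_add, pow_one]
  rw [h5, h1, h2, ← h3, h4]

end CardInertia

end Fermat.Agent.S56.H334

end
-- ===== PACK-END S56/H334/RamIdx.lean

-- ===== PACK-BEGIN S53/DictTan.lean
section



set_option autoImplicit false
set_option linter.unusedSectionVars false

namespace Fermat.Agent.S53

open IsLocalRing GaloisRep

section Tan

variable (𝒪 : Type) [CommRing 𝒪] [IsLocalRing 𝒪]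

/-- The `𝒪`-algebra structure on the dual numbers over the residue field which is used in the
Prelude definition `GaloisRep.TangentFinite` (there it is a `letI`). -/
@[reducible] noncomputable def dualAlgebra : Algebra 𝒪 (DualNumber (ResidueField 𝒪)) :=
  ((algebraMap (ResidueField 𝒪) (DualNumber (ResidueField 𝒪))).comp
    (algebraMap 𝒪 (ResidueField 𝒪))).toAlgebra

/-- The `k`-algebra structure on the residue field of the dual numbers which is used in the
Prelude definition `GaloisRep.TangentFinite` (there it is a `letI`). -/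
@[reducible] noncomputable def dualResAlgebra :
    Algebra (ResidueField 𝒪) (ResidueField (DualNumber (ResidueField 𝒪))) :=
  ((IsLocalRing.residue (DualNumber (ResidueField 𝒪))).comp
    (algebraMap (ResidueField 𝒪) (DualNumber (ResidueField 𝒪)))).toAlgebra

lemma dualAlgebra_algebraMap_apply (x : 𝒪) :
    @algebraMap 𝒪 (DualNumber (ResidueField 𝒪)) _ _ (dualAlgebra 𝒪) x =
      algebraMap (ResidueField 𝒪) (DualNumber (ResidueField 𝒪)) (residue 𝒪 x) := rfl

theorem isLocalHom_dualAlgebra :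
    IsLocalHom (@algebraMap 𝒪 (DualNumber (ResidueField 𝒪)) _ _ (dualAlgebra 𝒪)) := by
  refine ⟨fun x hx => ?_⟩
  rw [dualAlgebra_algebraMap_apply] at hx
  rw [← residue_ne_zero_iff_isUnit]
  intro h0
  rw [h0, map_zero] at hx
  exact not_isUnit_zero hx

theorem residue_dualAlgebra_surjective :
    Function.Surjective (IsLocalRing.residue (DualNumber (ResidueField 𝒪)) ∘
      @algebraMap 𝒪 (DualNumber (ResidueField 𝒪)) _ _ (dualAlgebra 𝒪)) := by
  intro y
  obtain ⟨z, rfl⟩ := residue_surjective y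
  obtain ⟨a, ha⟩ := residue_surjective (TrivSqZeroExt.fst z)
  refine ⟨a, ?_⟩
  rw [Function.comp_apply, dualAlgebra_algebraMap_apply, ha, ← sub_eq_zero, ← map_sub,
    residue_eq_zero_iff, DualNumber.maximalIdeal_eq_span_singleton_eps,
    Ideal.mem_span_singleton, ← DualNumber.fst_eq_zero_iff_eps_dvd]
  simp [TrivSqZeroExt.algebraMap_eq_inl]

/-- The two ring homomorphisms `k → ResidueField k[ε]` (the one of `TangentFinite` and the one of
`DeformationRingData`) agree. -/
theorem dual_residueMap_eq :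
    (IsLocalRing.residue (DualNumber (ResidueField 𝒪))).comp
      (algebraMap (ResidueField 𝒪) (DualNumber (ResidueField 𝒪))) =
    @ResidueField.map 𝒪 (DualNumber (ResidueField 𝒪)) _ _ _ _
      (@algebraMap 𝒪 (DualNumber (ResidueField 𝒪)) _ _ (dualAlgebra 𝒪))
      (isLocalHom_dualAlgebra 𝒪) := by
  have _ := isLocalHom_dualAlgebra 𝒪
  apply RingHom.ext
  intro y
  obtain ⟨a, rfl⟩ := residue_surjective y
  rw [ResidueField.map_residue]
  rfl

theorem isArtinianRing_dualNumber (k : Type) [Field k] : IsArtinianRing (DualNumber k) := by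
  have _ : Module.Finite k (DualNumber k) := inferInstanceAs (Module.Finite k (k × k))
  exact IsArtinianRing.of_finite k (DualNumber k)

/-- The dual numbers, with the algebra structure of `TangentFinite`, are an Artinian test
algebra. -/
theorem isArtinianTestAlgebra_dualNumber :
    @IsArtinianTestAlgebra 𝒪 _ (DualNumber (ResidueField 𝒪)) _ _ (dualAlgebra 𝒪) := by
  letI : Algebra 𝒪 (DualNumber (ResidueField 𝒪)) := dualAlgebra 𝒪
  exact ⟨isLocalHom_dualAlgebra 𝒪, residue_dualAlgebra_surjective 𝒪,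
    isArtinianRing_dualNumber (ResidueField 𝒪)⟩

variable {𝒪}

/-- **Tangent bridge.** From `TangentFinite`, any family of pairwise inequivalent matrix liftings
of type `𝒟` to the dual numbers (with the algebra structure `dualAlgebra 𝒪`) is finite. -/
theorem finite_of_tangentFinite (ρbar : ResidualGaloisRep (ResidueField 𝒪))
    (𝒟 : ∀ ⦃A : Type⦄ [CommRing A] [IsLocalRing A] [Algebra 𝒪 A], GaloisRepAdic A → Prop)
    (hfin : TangentFinite 𝒪 ρbar 𝒟)
    (rb : GQ →* M2 (ResidueField 𝒪)) (hrb : GaloisFactorsThroughFiniteLevel rb)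
    (hρbar : ρbar.IsEquiv (toRes rb hrb))
    (X : Type) (f : X → GQ →* M2 (DualNumber (ResidueField 𝒪))) (hc : ∀ x, MatCont (f x))
    (hl : ∀ x σ, (f x σ).map (IsLocalRing.residue (DualNumber (ResidueField 𝒪))) =
      (rb σ).map (@ResidueField.map 𝒪 (DualNumber (ResidueField 𝒪)) _ _ _ _
        (@algebraMap 𝒪 (DualNumber (ResidueField 𝒪)) _ _ (dualAlgebra 𝒪))
        (isLocalHom_dualAlgebra 𝒪)))
    (hD : ∀ x, @𝒟 (DualNumber (ResidueField 𝒪)) _ _ (dualAlgebra 𝒪) (toAdic (f x) (hc x)))
    (hinj : ∀ x y, (toAdic (f x) (hc x)).IsEquiv (toAdic (f y) (hc y)) → x = y) :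
    Finite X := by
  let _ : Algebra 𝒪 (DualNumber (ResidueField 𝒪)) := dualAlgebra 𝒪
  have _ : IsLocalHom (algebraMap 𝒪 (DualNumber (ResidueField 𝒪))) := isLocalHom_dualAlgebra 𝒪
  have hres : ∀ x, (toAdic (f x) (hc x)).residual.IsEquiv
      (ρbar.baseChangeAlong ((IsLocalRing.residue (DualNumber (ResidueField 𝒪))).comp
        (algebraMap (ResidueField 𝒪) (DualNumber (ResidueField 𝒪))))) := by
    intro x
    rw [dual_residueMap_eq]
    exact residual_isEquiv_of_lift ρbar rb hrb hρbar (f x) (hc x) (hl x)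
  unfold TangentFinite at hfin
  refine @Finite.of_injective _ _ hfin (fun x => Quotient.mk _ ⟨toAdic (f x) (hc x), hD x, hres x⟩)
    ?_
  intro x y hxy
  exact hinj x y (Quotient.exact hxy)

end Tan

end Fermat.Agent.S53

end
-- ===== PACK-END S53/DictTan.lean

-- ===== PACK-BEGIN S56/H554/TameLevel.lean
section




/-!
# S56 / local engine at `q ≠ p` (helper554): finite levels are discretely valued

`P` a valuation subring of `ℚ̄` over the prime `q`, `L ⊆ ℚ̄` a finite extension of `ℚ`.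

* `primeAt P L` : the prime of `𝓞 L` below `P`, as a `HeightOneSpectrum`;
* `valuation_le_one_of_primeAt`, `valuation_eq_one_of_primeAt` : the `primeAt`-adic valuation
  controls `P.valuation` on `L`;
* `exists_uniformizer` : there is `ϖ ∈ L`, `ϖ ≠ 0`, with `v_P(c) ∈ v_P(ϖ)^ℤ` for all `c ∈ Lˣ`,
  and `v_P(ϖ) < 1`;
* `exists_int_approx` : every element of `L ∩ P` is congruent mod `𝔪_P` to an element of `𝓞 L`.
-/

set_option autoImplicit false

open IsDedekindDomain NumberField

namespace Fermat.Agent.S56.H554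

variable (P : ValuationSubring Qb) (L : IntermediateField ℚ Qb)

/-- A finite subextension of `ℚ̄/ℚ` is a number field. -/
theorem numberField_level [FiniteDimensional ℚ L] : NumberField L :=
  { to_charZero := inferInstance, to_finiteDimensional := inferInstance }

attribute [local instance] numberField_level

theorem int_mem [FiniteDimensional ℚ L] (x : 𝓞 L) : (((x : L) : Qb)) ∈ P :=
  Fermat.Agent.S54.isIntegral_mem_valuationSubring P
    (map_isIntegral_int (algebraMap L Qb) (RingOfIntegers.isIntegral_coe x))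

theorem int_val_le [FiniteDimensional ℚ L] (x : 𝓞 L) : P.valuation (((x : L) : Qb)) ≤ 1 :=
  (P.valuation_le_one_iff _).mpr (int_mem P L x)

/-- The prime ideal of `𝓞 L` below `P`. -/
def idealAt [FiniteDimensional ℚ L] : Ideal (𝓞 L) where
  carrier := {x | P.valuation (((x : L) : Qb)) < 1}
  add_mem' := by
    intro a b ha hb
    simp only [Set.mem_ofPred_eq] at ha hb ⊢
    have : (((a + b : 𝓞 L) : L) : Qb) = ((a : L) : Qb) + ((b : L) : Qb) := by
      push_cast; rfl
    rw [this]
    exact lt_of_le_of_lt (P.valuation.map_add _ _) (max_lt ha hb)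
  zero_mem' := by
    simp only [Set.mem_ofPred_eq]
    have : (((0 : 𝓞 L) : L) : Qb) = 0 := by push_cast; rfl
    rw [this, map_zero]
    exact zero_lt_one
  smul_mem' := by
    intro c x hx
    simp only [Set.mem_ofPred_eq, smul_eq_mul] at hx ⊢
    have : (((c * x : 𝓞 L) : L) : Qb) = ((c : L) : Qb) * ((x : L) : Qb) := by
      push_cast; rfl
    rw [this, map_mul]
    exact mul_lt_one_of_nonneg_of_lt_one_right (int_val_le P L c) zero_le hx

theorem mem_idealAt [FiniteDimensional ℚ L] (x : 𝓞 L) :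
    x ∈ idealAt P L ↔ P.valuation (((x : L) : Qb)) < 1 := Iff.rfl

theorem idealAt_isPrime [FiniteDimensional ℚ L] : (idealAt P L).IsPrime := by
  refine ⟨?_, ?_⟩
  · intro h
    have h1 : (1 : 𝓞 L) ∈ idealAt P L := by rw [h]; trivial
    rw [mem_idealAt] at h1
    have : (((1 : 𝓞 L) : L) : Qb) = 1 := by push_cast; rfl
    rw [this, map_one] at h1
    exact lt_irrefl _ h1
  · intro x y hxy
    rw [mem_idealAt] at hxy
    have : (((x * y : 𝓞 L) : L) : Qb) = ((x : L) : Qb) * ((y : L) : Qb) := by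
      push_cast; rfl
    rw [this, map_mul] at hxy
    by_contra hcon
    push Not at hcon
    have hx : P.valuation (((x : L) : Qb)) = 1 :=
      le_antisymm (int_val_le P L x) (not_lt.mp hcon.1)
    have hy : P.valuation (((y : L) : Qb)) = 1 :=
      le_antisymm (int_val_le P L y) (not_lt.mp hcon.2)
    rw [hx, hy, one_mul] at hxy
    exact lt_irrefl _ hxy

variable {P} in
theorem natCast_mem_idealAt [FiniteDimensional ℚ L] {q : ℕ} (hP : P.LiesOverPrime q) :
    (q : 𝓞 L) ∈ idealAt P L := by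
  rw [mem_idealAt]
  have : (((q : 𝓞 L) : L) : Qb) = (q : Qb) := by push_cast; rfl
  rw [this]
  exact P.mem_nonunits_iff.mp hP

variable {P} in
/-- The prime of `𝓞 L` below `P`. -/
noncomputable def primeAt [FiniteDimensional ℚ L] {q : ℕ} (hq : q.Prime)
    (hP : P.LiesOverPrime q) : HeightOneSpectrum (𝓞 L) where
  asIdeal := idealAt P L
  isPrime := idealAt_isPrime P L
  ne_bot := by
    intro h
    have h1 := natCast_mem_idealAt L hP
    rw [h, Ideal.mem_bot] at h1
    exact hq.ne_zero (by exact_mod_cast h1)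

variable {P} {L}
variable [FiniteDimensional ℚ L] {q : ℕ}

section
variable (hq : q.Prime) (hP : P.LiesOverPrime q)

theorem val_eq_one_of_notMem {d : 𝓞 L} (hd : d ∉ (primeAt L hq hP).asIdeal) :
    P.valuation (((d : L) : Qb)) = 1 :=
  le_antisymm (int_val_le P L d) (not_lt.mp hd)

/-- Dictionary: `primeAt`-integral elements of `L` lie in `P`. -/
theorem valuation_le_one_of_primeAt {x : L}
    (hx : (primeAt L hq hP).valuation L x ≤ 1) : P.valuation (x : Qb) ≤ 1 := by
  obtain ⟨n, d, hnd⟩ := (primeAt L hq hP).exists_primeCompl_mul_eq_of_integer x hx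
  have hd := val_eq_one_of_notMem hq hP d.2
  have h1 : (x : Qb) * (((d : 𝓞 L) : L) : Qb) = ((n : L) : Qb) := by
    have := congrArg (fun t : L => (t : Qb)) hnd
    simpa using this
  have h2 := congrArg P.valuation h1
  rw [map_mul, hd, mul_one] at h2
  rw [h2]
  exact int_val_le P L n

/-- Dictionary: `primeAt`-units of `L` are units of `P`. -/
theorem valuation_eq_one_of_primeAt {x : L}
    (hx : (primeAt L hq hP).valuation L x = 1) : P.valuation (x : Qb) = 1 := by
  have hx0 : x ≠ 0 := by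
    rintro rfl
    simp at hx
  have hx0' : (x : Qb) ≠ 0 := by
    intro h
    exact hx0 (by exact_mod_cast h)
  have h1 := valuation_le_one_of_primeAt hq hP hx.le
  have h2 : P.valuation ((x⁻¹ : L) : Qb) ≤ 1 := by
    apply valuation_le_one_of_primeAt hq hP
    rw [map_inv₀, hx, inv_one]
  have h3 : ((x⁻¹ : L) : Qb) = (x : Qb)⁻¹ := by push_cast; rfl
  rw [h3, map_inv₀] at h2
  refine le_antisymm h1 ?_
  have hv0 : P.valuation (x : Qb) ≠ 0 := (Valuation.ne_zero_iff _).mpr hx0'
  exact (inv_le_one₀ (lt_of_le_of_ne zero_le (Ne.symm hv0))).mp h2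

end

/-- **Discreteness at finite level.** -/
theorem exists_uniformizer (hq : q.Prime) (hP : P.LiesOverPrime q) :
    ∃ ϖ : L, ϖ ≠ 0 ∧ P.valuation (ϖ : Qb) < 1 ∧
      ∀ c : L, c ≠ 0 → ∃ n : ℤ, P.valuation (c : Qb) = P.valuation (ϖ : Qb) ^ n := by
  obtain ⟨π, hπ⟩ := (primeAt L hq hP).valuation_exists_uniformizer' L
  set ϖ : L := algebraMap (𝓞 L) L π with hϖ
  have hϖv : (primeAt L hq hP).valuation L ϖ = WithZero.exp (-1 : ℤ) := hπ
  have hϖ0 : ϖ ≠ 0 := by
    have h1 : (primeAt L hq hP).valuation L ϖ ≠ 0 := by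
      rw [hϖv]
      exact WithZero.exp_ne_zero
    exact (Valuation.ne_zero_iff _).mp h1
  have hπmem : π ∈ (primeAt L hq hP).asIdeal := by
    rw [← (primeAt L hq hP).valuation_lt_one_iff_mem (K := L)]
    change (primeAt L hq hP).valuation L ϖ < 1
    rw [hϖv, ← WithZero.exp_zero]
    exact WithZero.exp_lt_exp.mpr (by norm_num)
  have hϖlt : P.valuation (ϖ : Qb) < 1 := hπmem
  refine ⟨ϖ, hϖ0, hϖlt, fun c hc => ?_⟩
  have hc0 : (primeAt L hq hP).valuation L c ≠ 0 := (Valuation.ne_zero_iff _).mpr hc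
  obtain ⟨m, hm⟩ : ∃ m : ℤ, (primeAt L hq hP).valuation L c = WithZero.exp m :=
    ⟨WithZero.log ((primeAt L hq hP).valuation L c), (WithZero.exp_log hc0).symm⟩
  have h1 : (primeAt L hq hP).valuation L (c * ϖ ^ m) = 1 := by
    rw [map_mul, map_zpow₀, hm, hϖv, ← WithZero.exp_zsmul, ← WithZero.exp_add]
    simp
  have h2 := valuation_eq_one_of_primeAt hq hP h1
  have h3 : ((c * ϖ ^ m : L) : Qb) = (c : Qb) * (ϖ : Qb) ^ m := by
    push_cast; rfl
  rw [h3, map_mul, map_zpow₀] at h2
  refine ⟨-m, ?_⟩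
  rw [zpow_neg]
  exact eq_inv_of_mul_eq_one_left h2

end Fermat.Agent.S56.H554

end
-- ===== PACK-END S56/H554/TameLevel.lean

-- ===== PACK-BEGIN S59/H779/FlatSpec.lean
section


/-!
# S59 / MLT-DC-FLAT (helper779): closure interface for Hopf models

The flat deformation condition is a deformation condition as soon as the class of finite Galois
modules having a finite flat Hopf model over `ℤ_(p)` (frozen `Fermat.Agent.S19.HopfModel`) is
closed under equivariant subquotients and binary products ("Raynaud closure"; cell A3, WP-C).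
Here: the two closure statements as `Prop`s (Spec pattern) and their formal consequences
(transport, subobjects, quotients, finite powers).
-/

set_option autoImplicit false

namespace Fermat.Agent.S59.H779

open Fermat.Agent.S19

/-- **Closure under subquotients.**  If `M` has a Hopf model, `M' ↪ M` is an equivariant additive
embedding and `M' ↠ N` an equivariant additive surjection, then `N` has a Hopf model. -/
def HopfSubquotSpec (p : ℕ) : Prop :=
  ∀ (M M' N : Type) [AddCommGroup M] [AddCommGroup M'] [AddCommGroup N]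
    (actM : GalQ → M → M) (actM' : GalQ → M' → M') (actN : GalQ → N → N)
    (i : M' →+ M) (q : M' →+ N), Function.Injective i → Function.Surjective q →
    (∀ σ x, i (actM' σ x) = actM σ (i x)) → (∀ σ x, q (actM' σ x) = actN σ (q x)) →
    HopfModel p M actM → HopfModel p N actN

/-- **Closure under binary products.** -/
def HopfProdSpec (p : ℕ) : Prop :=
  ∀ (M M' : Type) [AddCommGroup M] [AddCommGroup M']
    (actM : GalQ → M → M) (actM' : GalQ → M' → M'),
    HopfModel p M actM → HopfModel p M' actM' →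
    HopfModel p (M × M') (fun σ x => (actM σ x.1, actM' σ x.2))

section Consequences

variable {p : ℕ}

/-- Transport of a Hopf model along an equivariant additive bijection (no closure needed). -/
theorem HopfModel.transport {M N : Type} [AddCommGroup M] [AddCommGroup N]
    {actM : GalQ → M → M} {actN : GalQ → N → N} (e : M ≃+ N)
    (he : ∀ σ x, e (actM σ x) = actN σ (e x)) (h : HopfModel p M actM) :
    HopfModel p N actN := by
  obtain ⟨H, i1, i2, hfin, hflat, hco, f, hadd, hgal⟩ := h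
  refine ⟨H, i1, i2, hfin, hflat, hco, f.trans e.toEquiv, ?_, ?_⟩
  · intro a b
    change e (f (a * b)) = e (f a) + e (f b)
    rw [hadd, map_add]
  · intro σ a b hab
    change e (f b) = actN σ (e (f a))
    rw [hgal σ a b hab, he]

theorem HopfModel.quotient (hSub : HopfSubquotSpec p) {M N : Type} [AddCommGroup M]
    [AddCommGroup N] {actM : GalQ → M → M} {actN : GalQ → N → N} (q : M →+ N)
    (hq : Function.Surjective q) (he : ∀ σ x, q (actM σ x) = actN σ (q x))
    (h : HopfModel p M actM) : HopfModel p N actN :=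
  hSub M M N actM actM actN (AddMonoidHom.id M) q Function.injective_id hq (fun _ _ => rfl) he h

theorem HopfModel.sub (hSub : HopfSubquotSpec p) {M M' : Type} [AddCommGroup M]
    [AddCommGroup M'] {actM : GalQ → M → M} {actM' : GalQ → M' → M'} (i : M' →+ M)
    (hi : Function.Injective i) (he : ∀ σ x, i (actM' σ x) = actM σ (i x))
    (h : HopfModel p M actM) : HopfModel p M' actM' :=
  hSub M M' M' actM actM' actM' i (AddMonoidHom.id M') hi Function.surjective_id he
    (fun _ _ => rfl) h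

/-- Finite powers of a module with a Hopf model have a Hopf model. -/
theorem HopfModel.pi (hSub : HopfSubquotSpec p) (hProd : HopfProdSpec p) {M : Type}
    [AddCommGroup M] {act : GalQ → M → M} (h : HopfModel p M act) (ι : Type) [Finite ι] :
    HopfModel p (ι → M) (fun σ f i => act σ (f i)) := by
  induction ι using Finite.induction_empty_option with
  | of_equiv e ih =>
    rename_i α β
    refine HopfModel.transport (p := p) (actM := fun σ (f : α → M) i => act σ (f i))
      (AddEquiv.mk' (e.arrowCongr (Equiv.refl M)) (fun f g => rfl)) (fun σ x => rfl) ih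
  | h_empty =>
    refine HopfModel.quotient hSub (0 : M →+ (PEmpty → M)) (fun f => ⟨0, ?_⟩) (fun σ x => ?_) h
    · funext i; exact i.elim
    · funext i; exact i.elim
  | h_option ih =>
    rename_i α _
    have h2 := hProd M (α → M) act (fun σ f i => act σ (f i)) h ih
    refine HopfModel.transport (p := p)
      (actM := fun σ (x : M × (α → M)) => (act σ x.1, fun i => act σ (x.2 i)))
      (AddEquiv.mk' (Equiv.piOptionEquivProd (β := fun _ => M)).symm (fun f g => ?_))
      (fun σ x => ?_) h2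
    · funext i; cases i <;> rfl
    · funext i; cases i <;> rfl

end Consequences

end Fermat.Agent.S59.H779

end
-- ===== PACK-END S59/H779/FlatSpec.lean

-- ===== PACK-BEGIN S19/H19/Order.lean
section
/-
A3 / S19, helper19 — piece ORD, part 3: the Hopf algebra structure on an order of functions.

`M` an abelian group, `K` a field, `R → K` injective, `H ⊂ (M → K)` an `R`-subalgebra which is
"good" (finite free with `K`-independent basis) and closed under `f ↦ f(s+t)` (with values in the
image of `H ⊗ H`), `f ↦ f 0` (with values in `R`) and `f ↦ f(-t)`.  Then `H` is a commutative,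
cocommutative Hopf algebra over `R`.  Mathlib only.
-/


set_option autoImplicit false
set_option linter.unusedSectionVars false
set_option linter.style.haveILetI false

noncomputable section

namespace Fermat.Agent.S19.H19

open scoped BigOperators TensorProduct

variable {R : Type} [CommRing R] {K : Type} [Field K] [Algebra R K]
variable {M : Type} [AddCommGroup M]

/-- An `R`-subalgebra of functions on an abelian group which is a "Hopf order". -/
structure IsOrder (H : Subalgebra R (M → K)) : Prop where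
  alg_inj : Function.Injective (algebraMap R K)
  good : Good H.val
  comul_mem : ∀ f ∈ H, (fun p : M × M => f (p.1 + p.2)) ∈ (prodMap H.val H.val).range
  counit_mem : ∀ f ∈ H, f 0 ∈ (Algebra.ofId R K).range
  anti_mem : ∀ f ∈ H, (fun m => f (-m)) ∈ H

namespace IsOrder

variable {H : Subalgebra R (M → K)} (hH : IsOrder H)

/-- Evaluation `H ⊗ H → (M × M → K)`. -/
abbrev E₂ (H : Subalgebra R (M → K)) : H ⊗[R] H →ₐ[R] (M × M → K) := prodMap H.val H.val

/-- Evaluation `H ⊗ (H ⊗ H) → (M × (M × M) → K)`. -/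
abbrev E₃ (H : Subalgebra R (M → K)) : H ⊗[R] (H ⊗[R] H) →ₐ[R] (M × (M × M) → K) :=
  prodMap H.val (E₂ H)

include hH in
theorem E₂_injective : Function.Injective (E₂ H) := (hH.good.prod hH.good).injective hH.alg_inj

include hH in
theorem E₃_injective : Function.Injective (E₃ H) :=
  (hH.good.prod (hH.good.prod hH.good)).injective hH.alg_inj

/-- `f ↦ ((s,t) ↦ f (s+t))`. -/
def addFun (H : Subalgebra R (M → K)) : H →ₐ[R] (M × M → K) :=
  (pullback R K (fun p : M × M => p.1 + p.2)).comp H.val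

/-- The comultiplication. -/
def comul : H →ₐ[R] H ⊗[R] H :=
  ((AlgEquiv.ofInjective (E₂ H) hH.E₂_injective).symm : (E₂ H).range →ₐ[R] H ⊗[R] H).comp
    ((addFun H).codRestrict (E₂ H).range (fun f => hH.comul_mem f f.2))

theorem E₂_comul (h : H) (p : M × M) : E₂ H (hH.comul h) p = (h : M → K) (p.1 + p.2) := by
  have h1 : E₂ H (hH.comul h) = ((addFun H).codRestrict (E₂ H).range
      (fun f => hH.comul_mem f f.2) h : M × M → K) := by
    have := (AlgEquiv.ofInjective (E₂ H) hH.E₂_injective).apply_symm_apply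
      ((addFun H).codRestrict (E₂ H).range (fun f => hH.comul_mem f f.2) h)
    exact congrArg Subtype.val this
  rw [h1]
  rfl

/-- The counit. -/
def counit : H →ₐ[R] R :=
  ((AlgEquiv.ofInjective (Algebra.ofId R K) hH.alg_inj).symm :
      (Algebra.ofId R K).range →ₐ[R] R).comp
    (((Pi.evalAlgHom R (fun _ : M => K) 0).comp H.val).codRestrict (Algebra.ofId R K).range
      (fun f => hH.counit_mem f f.2))

theorem algebraMap_counit (h : H) : algebraMap R K (hH.counit h) = (h : M → K) 0 := by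
  have := (AlgEquiv.ofInjective (Algebra.ofId R K) hH.alg_inj).apply_symm_apply
      (((Pi.evalAlgHom R (fun _ : M => K) 0).comp H.val).codRestrict (Algebra.ofId R K).range
      (fun f => hH.counit_mem f f.2) h)
  exact congrArg Subtype.val this

/-- The antipode. -/
def antipode : H →ₐ[R] H :=
  ((pullback R K (fun m : M => -m)).comp H.val).codRestrict H (fun f => hH.anti_mem f f.2)

theorem antipode_apply (h : H) (m : M) : (hH.antipode h : M → K) m = (h : M → K) (-m) := rfl

/-! ### Naturality lemmas -/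

theorem E₂_tmul (a b : H) (p : M × M) :
    E₂ H (a ⊗ₜ[R] b) p = (a : M → K) p.1 * (b : M → K) p.2 := by
  simp [E₂]

theorem E₃_tmul (a : H) (y : H ⊗[R] H) (p : M × (M × M)) :
    E₃ H (a ⊗ₜ[R] y) p = (a : M → K) p.1 * E₂ H y p.2 := by
  simp [E₃]

theorem E₃_assoc_tmul (y : H ⊗[R] H) (b : H) (p : M × (M × M)) :
    E₃ H (Algebra.TensorProduct.assoc R R R H H H (y ⊗ₜ[R] b)) p =
      E₂ H y (p.1, p.2.1) * (b : M → K) p.2.2 := by
  induction y using TensorProduct.induction_on with
  | zero => simp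
  | tmul a a' =>
    rw [Algebra.TensorProduct.assoc_tmul, E₃_tmul, E₂_tmul, E₂_tmul, mul_assoc]
  | add x y hx hy =>
    rw [TensorProduct.add_tmul, map_add, map_add, map_add, Pi.add_apply, Pi.add_apply, hx, hy,
      add_mul]

theorem E₃_assoc_map (x : H ⊗[R] H) (p : M × (M × M)) :
    E₃ H (Algebra.TensorProduct.assoc R R R H H H
        (Algebra.TensorProduct.map hH.comul (AlgHom.id R H) x)) p =
      E₂ H x (p.1 + p.2.1, p.2.2) := by
  induction x using TensorProduct.induction_on with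
  | zero => simp
  | tmul a b =>
    rw [Algebra.TensorProduct.map_tmul, E₃_assoc_tmul, hH.E₂_comul, E₂_tmul]
    rfl
  | add x y hx hy =>
    rw [map_add, map_add, map_add, map_add, Pi.add_apply, Pi.add_apply, hx, hy]

theorem E₃_map (x : H ⊗[R] H) (p : M × (M × M)) :
    E₃ H (Algebra.TensorProduct.map (AlgHom.id R H) hH.comul x) p =
      E₂ H x (p.1, p.2.1 + p.2.2) := by
  induction x using TensorProduct.induction_on with
  | zero => simp
  | tmul a b =>
    rw [Algebra.TensorProduct.map_tmul, E₃_tmul, hH.E₂_comul, E₂_tmul]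
    rfl
  | add x y hx hy =>
    rw [map_add, map_add, map_add, Pi.add_apply, Pi.add_apply, hx, hy]

theorem lid_map (x : H ⊗[R] H) (m : M) :
    ((Algebra.TensorProduct.lid R H
        (Algebra.TensorProduct.map hH.counit (AlgHom.id R H) x) : H) : M → K) m =
      E₂ H x (0, m) := by
  induction x using TensorProduct.induction_on with
  | zero => simp
  | tmul a b =>
    rw [Algebra.TensorProduct.map_tmul, Algebra.TensorProduct.lid_tmul, E₂_tmul,
      ← hH.algebraMap_counit]
    simp [Algebra.smul_def]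
  | add x y hx hy =>
    rw [map_add, map_add, map_add]
    simp only [Subalgebra.coe_add, Pi.add_apply]
    rw [hx, hy]

theorem rid_map (x : H ⊗[R] H) (m : M) :
    ((Algebra.TensorProduct.rid R R H
        (Algebra.TensorProduct.map (AlgHom.id R H) hH.counit x) : H) : M → K) m =
      E₂ H x (m, 0) := by
  induction x using TensorProduct.induction_on with
  | zero => simp
  | tmul a b =>
    rw [Algebra.TensorProduct.map_tmul, Algebra.TensorProduct.rid_tmul, E₂_tmul,
      ← hH.algebraMap_counit]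
    simp [Algebra.smul_def, mul_comm]
  | add x y hx hy =>
    rw [map_add, map_add, map_add]
    simp only [Subalgebra.coe_add, Pi.add_apply]
    rw [hx, hy]

theorem E₂_comm (x : H ⊗[R] H) (p : M × M) :
    E₂ H (TensorProduct.comm R H H x) p = E₂ H x (p.2, p.1) := by
  induction x using TensorProduct.induction_on with
  | zero => simp
  | tmul a b =>
    rw [TensorProduct.comm_tmul, E₂_tmul, E₂_tmul, mul_comm]
  | add x y hx hy =>
    rw [map_add, map_add, map_add, Pi.add_apply, Pi.add_apply, hx, hy]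

theorem lift_tmul_apply (f g : H →ₐ[R] H) (x : H ⊗[R] H) (m : M) :
    ((Algebra.TensorProduct.lift f g (fun _ _ => Commute.all _ _) x : H) : M → K) m =
      E₂ H (Algebra.TensorProduct.map f g x) (m, m) := by
  induction x using TensorProduct.induction_on with
  | zero => simp
  | tmul a b =>
    rw [Algebra.TensorProduct.lift_tmul, Algebra.TensorProduct.map_tmul, E₂_tmul]
    rfl
  | add x y hx hy =>
    rw [map_add, map_add, map_add]
    simp only [Subalgebra.coe_add, Pi.add_apply]
    rw [hx, hy]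

theorem E₂_map_antipode_id (x : H ⊗[R] H) (p : M × M) :
    E₂ H (Algebra.TensorProduct.map hH.antipode (AlgHom.id R H) x) p = E₂ H x (-p.1, p.2) := by
  induction x using TensorProduct.induction_on with
  | zero => simp
  | tmul a b =>
    rw [Algebra.TensorProduct.map_tmul, E₂_tmul, E₂_tmul]
    rfl
  | add x y hx hy =>
    rw [map_add, map_add, map_add, Pi.add_apply, Pi.add_apply, hx, hy]

theorem E₂_map_id_antipode (x : H ⊗[R] H) (p : M × M) :
    E₂ H (Algebra.TensorProduct.map (AlgHom.id R H) hH.antipode x) p = E₂ H x (p.1, -p.2) := by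
  induction x using TensorProduct.induction_on with
  | zero => simp
  | tmul a b =>
    rw [Algebra.TensorProduct.map_tmul, E₂_tmul, E₂_tmul]
    rfl
  | add x y hx hy =>
    rw [map_add, map_add, map_add, Pi.add_apply, Pi.add_apply, hx, hy]

/-! ### The structures -/

/-- The bialgebra structure on an order. -/
@[reducible] def bialgebra : Bialgebra R H :=
  Bialgebra.ofAlgHom hH.comul hH.counit
    (by
      refine AlgHom.ext fun h => hH.E₃_injective (funext fun p => ?_)
      refine (hH.E₃_assoc_map (hH.comul h) p).trans ?_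
      refine Eq.trans ?_ (hH.E₃_map (hH.comul h) p).symm
      rw [hH.E₂_comul, hH.E₂_comul, add_assoc])
    (by
      refine AlgHom.ext fun h => (Algebra.TensorProduct.lid R H).injective
        (Subtype.ext (funext fun m => ?_))
      have h1 : (Algebra.TensorProduct.lid R H) ((Algebra.TensorProduct.lid R H).symm h) = h :=
        AlgEquiv.apply_symm_apply _ _
      refine (hH.lid_map (hH.comul h) m).trans ?_
      refine Eq.trans ?_ (congrArg (fun x : H => (x : M → K) m) h1).symm
      rw [hH.E₂_comul]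
      simp only [zero_add])
    (by
      refine AlgHom.ext fun h => (Algebra.TensorProduct.rid R R H).injective
        (Subtype.ext (funext fun m => ?_))
      have h1 : (Algebra.TensorProduct.rid R R H) ((Algebra.TensorProduct.rid R R H).symm h) = h :=
        AlgEquiv.apply_symm_apply _ _
      refine (hH.rid_map (hH.comul h) m).trans ?_
      refine Eq.trans ?_ (congrArg (fun x : H => (x : M → K) m) h1).symm
      rw [hH.E₂_comul]
      simp only [add_zero])

theorem bialgebra_comul (h : H) :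
    letI := hH.bialgebra
    Coalgebra.comul (R := R) h = hH.comul h := rfl

theorem bialgebra_counit (h : H) :
    letI := hH.bialgebra
    Coalgebra.counit (R := R) h = hH.counit h := rfl

/-- The Hopf algebra structure on an order. -/
@[reducible] def hopfAlgebra : HopfAlgebra R H :=
  letI := hH.bialgebra
  HopfAlgebra.ofAlgHom hH.antipode
    (by
      refine AlgHom.ext fun h => Subtype.ext (funext fun m => ?_)
      simp only [AlgHom.comp_apply, Bialgebra.comulAlgHom_apply, Bialgebra.counitAlgHom_apply]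
      rw [lift_tmul_apply, hH.bialgebra_comul, hH.bialgebra_counit, hH.E₂_map_antipode_id,
        hH.E₂_comul]
      simp only [neg_add_cancel]
      rw [← hH.algebraMap_counit]
      rfl)
    (by
      refine AlgHom.ext fun h => Subtype.ext (funext fun m => ?_)
      simp only [AlgHom.comp_apply, Bialgebra.comulAlgHom_apply, Bialgebra.counitAlgHom_apply]
      rw [lift_tmul_apply, hH.bialgebra_comul, hH.bialgebra_counit, hH.E₂_map_id_antipode,
        hH.E₂_comul]
      simp only [add_neg_cancel]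
      rw [← hH.algebraMap_counit]
      rfl)

theorem isCocomm :
    letI := hH.bialgebra
    Coalgebra.IsCocomm R H := by
  let _ := hH.bialgebra
  refine ⟨LinearMap.ext fun h => hH.E₂_injective (funext fun p => ?_)⟩
  simp only [LinearMap.comp_apply, LinearEquiv.coe_coe]
  rw [hH.bialgebra_comul, E₂_comm, hH.E₂_comul, hH.E₂_comul, add_comm]

end IsOrder

end Fermat.Agent.S19.H19

end

end
-- ===== PACK-END S19/H19/Order.lean

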