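import Mathlib.RingTheory.MvPowerSeries.Basic
import Mathlib.RingTheory.MvPowerSeries.Inverse
import Mathlib.RingTheory.MvPowerSeries.Equiv
import Mathlib.RingTheory.Regular.RegularSequence
import Mathlib.RingTheory.DiscreteValuationRing.Basic

-- ===== PACK-BEGIN S57/RegSeq.lean
section






set_option autoImplicit false

namespace Fermat.Agent.S57

open MvPowerSeries

section vanish

variable {σ : Type*} {A : Type*} [CommRing A]

/-- The ideal of power series all of whose coefficients at exponents vanishing on `s` are zero.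
It is the ideal generated by the `X j`, `j ∈ s` (for finite `s`). -/
def vanishIdeal (s : Set σ) : Ideal (MvPowerSeries σ A) where
  carrier := {f | ∀ m : σ →₀ ℕ, (∀ j ∈ s, m j = 0) → coeff m f = 0}
  zero_mem' := by intro m _; simp
  add_mem' := by
    intro f g hf hg m hm
    simp [hf m hm, hg m hm]
  smul_mem' := by
    classical
    intro c f hf m hm
    rw [smul_eq_mul, coeff_mul]
    refine Finset.sum_eq_zero ?_
    rintro ⟨a, b⟩ hab
    rw [Finset.mem_antidiagonal] at hab
    have hb : ∀ j ∈ s, b j = 0 := by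
      intro j hj
      have h1 := hm j hj
      have h2 : a j + b j = m j := by rw [← hab]; rfl
      omega
    simp [hf b hb]

lemma mem_vanishIdeal {s : Set σ} {f : MvPowerSeries σ A} :
    f ∈ vanishIdeal (A := A) s ↔ ∀ m : σ →₀ ℕ, (∀ j ∈ s, m j = 0) → coeff m f = 0 :=
  Iff.rfl

lemma X_mem_vanishIdeal {s : Set σ} {j : σ} (hj : j ∈ s) :
    (X j : MvPowerSeries σ A) ∈ vanishIdeal (A := A) s := by
  classical
  intro m hm
  rw [coeff_X, if_neg]
  intro h
  have := hm j hj
  rw [h] at this
  simp at this

lemma span_X_le_vanishIdeal (s : Set σ) :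
    Ideal.span ((fun j => (X j : MvPowerSeries σ A)) '' s) ≤ vanishIdeal (A := A) s := by
  rw [Ideal.span_le]
  rintro _ ⟨j, hj, rfl⟩
  exact X_mem_vanishIdeal hj

lemma vanishIdeal_finset_le_span (s : Finset σ) :
    vanishIdeal (A := A) (s : Set σ) ≤
      Ideal.span ((fun j => (X j : MvPowerSeries σ A)) '' (s : Set σ)) := by
  classical
  induction s using Finset.induction_on with
  | empty =>
    intro f hf
    have : f = 0 := by
      ext m
      simpa using hf m (by simp)
    rw [this]
    exact Ideal.zero_mem _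
  | insert i s his ih =>
    intro f hf
    -- `g` is the "derivative-free division" of `f` by `X i`
    let g : MvPowerSeries σ A := fun m => coeff (m + Finsupp.single i 1) f
    have hg : ∀ m, coeff m g = coeff (m + Finsupp.single i 1) f := fun m => rfl
    have hXg : ∀ m, coeff m (X i * g) =
        if Finsupp.single i 1 ≤ m then coeff m f else 0 := by
      intro m
      rw [X_def, coeff_monomial_mul]
      split_ifs with h
      · rw [one_mul, hg, tsub_add_cancel_of_le h]
      · rfl
    have hh : f - X i * g ∈ vanishIdeal (A := A) (s : Set σ) := by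
      intro m hm
      rw [map_sub, hXg]
      split_ifs with h
      · simp
      · rw [sub_zero]
        apply hf
        intro j hj
        rw [Finset.coe_insert, Set.mem_insert_iff] at hj
        rcases hj with rfl | hj
        · by_contra hne
          apply h
          rw [Finsupp.single_le_iff]
          omega
        · exact hm j hj
    have h1 : f - X i * g ∈
        Ideal.span ((fun j => (X j : MvPowerSeries σ A)) '' ((insert i s : Finset σ) : Set σ)) :=
      Ideal.span_mono (Set.image_mono (by simp)) (ih hh)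
    have h2 : X i * g ∈
        Ideal.span ((fun j => (X j : MvPowerSeries σ A)) '' ((insert i s : Finset σ) : Set σ)) :=
      Ideal.mul_mem_right _ _ (Ideal.subset_span ⟨i, by simp, rfl⟩)
    have := Ideal.add_mem _ h1 h2
    simpa using this

lemma vanishIdeal_eq_span_of_finite {s : Set σ} (hs : s.Finite) :
    vanishIdeal (A := A) s = Ideal.span ((fun j => (X j : MvPowerSeries σ A)) '' s) := by
  apply le_antisymm
  · have := vanishIdeal_finset_le_span (A := A) hs.toFinset
    simpa using this
  · exact span_X_le_vanishIdeal s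

/-- `X i` is a non-zero-divisor modulo `vanishIdeal s` if `i ∉ s`. -/
lemma mem_vanishIdeal_of_X_mul_mem {s : Set σ} {i : σ} (hi : i ∉ s) {f : MvPowerSeries σ A}
    (h : X i * f ∈ vanishIdeal (A := A) s) : f ∈ vanishIdeal (A := A) s := by
  classical
  intro m hm
  have h1 := h (Finsupp.single i 1 + m) (by
    intro j hj
    have hji : j ≠ i := fun h => hi (h ▸ hj)
    simp [hm j hj, Finsupp.single_eq_of_ne hji])
  rwa [X_def, coeff_add_monomial_mul, one_mul] at h1

/-- `C a` is a non-zero-divisor modulo `vanishIdeal s` if `a` is a non-zero-divisor. -/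
lemma mem_vanishIdeal_of_C_mul_mem {s : Set σ} {a : A} (ha : IsSMulRegular A a)
    {f : MvPowerSeries σ A}
    (h : C a * f ∈ vanishIdeal (A := A) s) : f ∈ vanishIdeal (A := A) s := by
  intro m hm
  have h1 := h m hm
  rw [coeff_C_mul] at h1
  exact ha.right_eq_zero_of_smul (by simpa using h1)

end vanish

end Fermat.Agent.S57

namespace Fermat.Agent.S57

open MvPowerSeries RingTheory.Sequence

section paramList

variable (r : ℕ) (A : Type*) [CommRing A]

/-- The list `[X 0, …, X (r-1)]` of variables in `A⟦X_0, …, X_{r-1}⟧`. -/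
noncomputable def varList : List (MvPowerSeries (Fin r) A) :=
  List.ofFn (fun j : Fin r => (X j : MvPowerSeries (Fin r) A))

/-- The list `[X 0, …, X (r-1), C ϖ]` in `A⟦X_0, …, X_{r-1}⟧`. -/
noncomputable def paramList (ϖ : A) : List (MvPowerSeries (Fin r) A) :=
  varList r A ++ [C ϖ]

@[simp] lemma length_varList : (varList r A).length = r := by
  simp [varList]

@[simp] lemma length_paramList (ϖ : A) : (paramList r A ϖ).length = r + 1 := by
  simp [paramList]

lemma ofList_take_varList (i : ℕ) :
    Ideal.ofList ((varList r A).take i) =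
      vanishIdeal (A := A) {j : Fin r | (j : ℕ) < i} := by
  rw [vanishIdeal_eq_span_of_finite (Set.toFinite _)]
  unfold Ideal.ofList
  congr 1
  ext x
  simp only [Set.mem_ofPred_eq, List.mem_take_iff_getElem, varList, List.getElem_ofFn,
    Set.mem_image, List.length_ofFn]
  constructor
  · rintro ⟨j, hj, rfl⟩
    rw [lt_min_iff] at hj
    exact ⟨⟨j, hj.2⟩, hj.1, rfl⟩
  · rintro ⟨j, hj, rfl⟩
    exact ⟨j, lt_min hj j.2, rfl⟩

lemma ofList_varList :
    Ideal.ofList (varList r A) = vanishIdeal (A := A) (Set.univ : Set (Fin r)) := by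
  have h := ofList_take_varList r A r
  have h1 : (varList r A).take r = varList r A := by
    apply List.take_of_length_le
    simp
  have h2 : {j : Fin r | (j : ℕ) < r} = Set.univ := by
    ext j
    simp
  rw [h1, h2] at h
  exact h

lemma isWeaklyRegular_varList :
    IsWeaklyRegular (MvPowerSeries (Fin r) A) (varList r A) := by
  rw [isWeaklyRegular_iff]
  intro i hi
  rw [isSMulRegular_quotient_iff_mem_of_smul_mem]
  intro f hf
  rw [smul_eq_mul, Ideal.mul_top, ofList_take_varList] at hf ⊢
  have hi' : i < r := by simpa using hi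
  have hX : (varList r A)[i] = X (⟨i, hi'⟩ : Fin r) := by
    simp [varList]
  rw [hX, smul_eq_mul] at hf
  exact mem_vanishIdeal_of_X_mul_mem (by simp) hf

lemma isWeaklyRegular_paramList {ϖ : A} (hϖ : IsSMulRegular A ϖ) :
    IsWeaklyRegular (MvPowerSeries (Fin r) A) (paramList r A ϖ) := by
  unfold paramList
  rw [isWeaklyRegular_append_iff]
  refine ⟨isWeaklyRegular_varList r A, ?_⟩
  rw [isWeaklyRegular_singleton_iff, isSMulRegular_quotient_iff_mem_of_smul_mem]
  intro f hf
  rw [smul_eq_mul, Ideal.mul_top, ofList_varList] at hf ⊢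
  rw [smul_eq_mul] at hf
  exact mem_vanishIdeal_of_C_mul_mem hϖ hf

end paramList

end Fermat.Agent.S57

namespace Fermat.Agent.S57

open MvPowerSeries RingTheory.Sequence

section maximalIdeal

variable (r : ℕ) (A : Type*) [CommRing A]

lemma mem_vanishIdeal_univ_iff {σ : Type*} {f : MvPowerSeries σ A} :
    f ∈ vanishIdeal (A := A) (Set.univ : Set σ) ↔ constantCoeff f = 0 := by
  rw [mem_vanishIdeal, ← coeff_zero_eq_constantCoeff_apply]
  constructor
  · intro h
    exact h 0 (by simp)
  · intro h m hm
    have : m = 0 := by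
      ext j
      simpa using hm j (Set.mem_univ j)
    rw [this]
    exact h

lemma mem_maximalIdeal_iff_constantCoeff [IsLocalRing A] {σ : Type*} {f : MvPowerSeries σ A} :
    f ∈ IsLocalRing.maximalIdeal (MvPowerSeries σ A) ↔
      constantCoeff f ∈ IsLocalRing.maximalIdeal A := by
  rw [IsLocalRing.mem_maximalIdeal, IsLocalRing.mem_maximalIdeal, mem_nonunits_iff,
    mem_nonunits_iff, isUnit_iff_constantCoeff]

lemma ofList_paramList_eq_maximalIdeal [IsLocalRing A] {ϖ : A}
    (hϖ : IsLocalRing.maximalIdeal A = Ideal.span {ϖ}) :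
    Ideal.ofList (paramList r A ϖ) = IsLocalRing.maximalIdeal (MvPowerSeries (Fin r) A) := by
  unfold paramList
  rw [Ideal.ofList_append, ofList_varList, Ideal.ofList_singleton]
  apply le_antisymm
  · rw [sup_le_iff]
    constructor
    · intro f hf
      rw [mem_vanishIdeal_univ_iff] at hf
      rw [mem_maximalIdeal_iff_constantCoeff, hf]
      exact Ideal.zero_mem _
    · rw [Ideal.span_le]
      intro f hf
      rw [Set.mem_singleton_iff] at hf
      subst hf
      rw [SetLike.mem_coe, mem_maximalIdeal_iff_constantCoeff, constantCoeff_C, hϖ]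
      exact Ideal.subset_span rfl
  · intro f hf
    rw [mem_maximalIdeal_iff_constantCoeff, hϖ, Ideal.mem_span_singleton'] at hf
    obtain ⟨a, ha⟩ := hf
    have h1 : f - C (constantCoeff f) ∈ vanishIdeal (A := A) (Set.univ : Set (Fin r)) := by
      rw [mem_vanishIdeal_univ_iff]
      simp
    have h2 : C (constantCoeff f) ∈ Ideal.span {(C ϖ : MvPowerSeries (Fin r) A)} := by
      rw [Ideal.mem_span_singleton']
      exact ⟨C a, by rw [← map_mul, ha]⟩
    have := Submodule.add_mem_sup h1 h2
    simpa using this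

lemma paramList_subset_maximalIdeal [IsLocalRing A] {ϖ : A}
    (hϖ : IsLocalRing.maximalIdeal A = Ideal.span {ϖ}) :
    ∀ x ∈ paramList r A ϖ, x ∈ IsLocalRing.maximalIdeal (MvPowerSeries (Fin r) A) := by
  intro x hx
  rw [← ofList_paramList_eq_maximalIdeal r A hϖ]
  exact Ideal.subset_span hx

/-- **Subtask (a), general form.** In `A⟦X_0,…,X_{r-1}⟧` over a local ring `A` whose maximal
ideal is generated by a non-zero-divisor `ϖ`, the sequence `X_0, …, X_{r-1}, ϖ` is regular. -/
theorem isRegular_paramList [IsLocalRing A] {ϖ : A}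
    (hϖ : IsLocalRing.maximalIdeal A = Ideal.span {ϖ}) (hreg : IsSMulRegular A ϖ) :
    IsRegular (MvPowerSeries (Fin r) A) (paramList r A ϖ) :=
  IsRegular.of_isWeaklyRegular_of_mem_maximalIdeal _
    (paramList_subset_maximalIdeal r A hϖ) (isWeaklyRegular_paramList r A hreg)

end maximalIdeal

section DVR

variable (r : ℕ) (𝒪 : Type*) [CommRing 𝒪] [IsDomain 𝒪] [IsDiscreteValuationRing 𝒪]

/-- **Subtask (a), DVR form.** For a DVR `𝒪` there is a uniformizer `ϖ` such that
`paramList r 𝒪 ϖ = [X 0, …, X (r-1), C ϖ]` is a regular sequence on `𝒪⟦X_0,…,X_{r-1}⟧`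
generating its maximal ideal. -/
theorem exists_isRegular_paramList :
    ∃ ϖ : 𝒪, Irreducible ϖ ∧
      IsRegular (MvPowerSeries (Fin r) 𝒪) (paramList r 𝒪 ϖ) ∧
      Ideal.ofList (paramList r 𝒪 ϖ) = IsLocalRing.maximalIdeal (MvPowerSeries (Fin r) 𝒪) ∧
      (paramList r 𝒪 ϖ).length = r + 1 := by
  obtain ⟨ϖ, hϖ⟩ := IsDiscreteValuationRing.exists_irreducible 𝒪
  have hmax : IsLocalRing.maximalIdeal 𝒪 = Ideal.span {ϖ} := hϖ.maximalIdeal_eq
  have hreg : IsSMulRegular 𝒪 ϖ := by
    intro a b hab
    simpa [hϖ.ne_zero] using hab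
  exact ⟨ϖ, hϖ, isRegular_paramList r 𝒪 hmax hreg,
    ofList_paramList_eq_maximalIdeal r 𝒪 hmax, length_paramList r 𝒪 ϖ⟩

end DVR

end Fermat.Agent.S57

end
-- ===== PACK-END S57/RegSeq.lean

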