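import Mathlib
import Fermat.Prelude.Thm_IsAdicComplete_of_module_finite
import Fermat.Agent.Pack.S43GC.G0E0L3
import Fermat.Agent.Pack.S43GC.G0E1L1
import Fermat.Agent.Pack.S43GC.G0E2L2
import Fermat.Agent.Pack.S43GC.G0E2L3
import Fermat.Agent.Pack.S43GC.G0E2L0
import Fermat.Agent.Pack.S44C.G0E0L3
import Fermat.Agent.Pack.S43GC.G0E0L0
import Fermat.Agent.Pack.S43GC.G4E0L0
import Fermat.Agent.Pack.S43GC.G0E2L1
import Fermat.Agent.Pack.S44C.G0E0L2
import Fermat.Agent.Pack.S44C.G0E21L3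
import Fermat.Agent.Pack.S43GC.G2E0L0
import Fermat.Agent.Pack.Fast891

-- ===== PACK-BEGIN S55/Bridge/DecompLift.lean
section


set_option autoImplicit false

namespace Fermat.Agent.S55.Bridge

open Polynomial IntermediateField
open scoped Pointwise NNReal

variable (q : ℕ) [Fact q.Prime]

/-- The absolute value on `ℚ̄` induced by `padicEmbedding q`. -/
noncomputable def padicAbs : AbsoluteValue (AlgebraicClosure ℚ) ℝ where
  toFun x := ‖padicEmbedding q x‖
  map_mul' x y := by simp [map_mul]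
  nonneg' x := norm_nonneg _
  eq_zero' x := by simp
  add_le' x y := by
    simp only [map_add]
    exact norm_add_le _ _

theorem padicAbs_apply (x : AlgebraicClosure ℚ) : padicAbs q x = ‖padicEmbedding q x‖ := rfl

/-- Twisting `padicAbs` by an automorphism. -/
noncomputable def padicAbsTwist (σ : AlgebraicClosure ℚ ≃ₐ[ℚ] AlgebraicClosure ℚ) :
    AbsoluteValue (AlgebraicClosure ℚ) ℝ where
  toFun x := ‖padicEmbedding q (σ x)‖
  map_mul' x y := by simp [map_mul]
  nonneg' x := norm_nonneg _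
  eq_zero' x := by simp
  add_le' x y := by
    simp only [map_add]
    exact norm_add_le _ _

theorem mem_padicPlace_iff_norm {x : AlgebraicClosure ℚ} :
    x ∈ padicPlace q ↔ ‖padicEmbedding q x‖ ≤ 1 := by
  rw [mem_padicPlace_iff]
  exact Iff.rfl

theorem mem_padicPlace_of_mem_decomposition {σ : AlgebraicClosure ℚ ≃ₐ[ℚ] AlgebraicClosure ℚ}
    (hσ : σ ∈ (padicPlace q).decompositionSubgroup ℚ) (x : AlgebraicClosure ℚ) :
    σ x ∈ padicPlace q ↔ x ∈ padicPlace q := by
  have hinv : σ⁻¹ ∈ (padicPlace q).decompositionSubgroup ℚ := Subgroup.inv_mem _ hσ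
  rw [MulAction.mem_stabilizer_iff] at hinv
  have h := ValuationSubring.mem_pointwise_smul_iff_inv_smul_mem (S := padicPlace q)
    (g := σ⁻¹) (x := x)
  rw [hinv, inv_inv] at h
  rw [h]
  rfl

end Fermat.Agent.S55.Bridge

namespace Fermat.Agent.S55.Bridge

open Polynomial IntermediateField
open scoped Pointwise NNReal

variable (q : ℕ) [Fact q.Prime]

theorem norm_padicEmbedding_natCast_self :
    ‖padicEmbedding q ((q : ℕ) : AlgebraicClosure ℚ)‖ = (q : ℝ)⁻¹ := by
  rw [map_natCast]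
  have h : ((q : ℕ) : PadicAlgCl q) = algebraMap ℚ_[q] (PadicAlgCl q) (q : ℚ_[q]) := by
    rw [map_natCast]
  rw [h, PadicAlgCl.norm_extends, Padic.norm_p]

/-- Elements of the decomposition group of `padicPlace q` are isometries for the `q`-adic norm. -/
theorem norm_padicEmbedding_of_mem_decomposition
    {σ : AlgebraicClosure ℚ ≃ₐ[ℚ] AlgebraicClosure ℚ}
    (hσ : σ ∈ (padicPlace q).decompositionSubgroup ℚ) (x : AlgebraicClosure ℚ) :
    ‖padicEmbedding q (σ x)‖ = ‖padicEmbedding q x‖ := by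
  have hq : (q : ℕ).Prime := Fact.out
  have hequiv : (padicAbs q).IsEquiv (padicAbsTwist q σ) := by
    rw [AbsoluteValue.isEquiv_iff_lt_one_iff]
    intro y
    show ‖padicEmbedding q y‖ < 1 ↔ ‖padicEmbedding q (σ y)‖ < 1
    rcases eq_or_ne y 0 with rfl | hy
    · simp
    · have hσy : σ y ≠ 0 := by simpa using hy
      have key : ∀ z : AlgebraicClosure ℚ, z ≠ 0 →
          (‖padicEmbedding q z‖ < 1 ↔ z⁻¹ ∉ padicPlace q) := by
        intro z hz
        rw [mem_padicPlace_iff_norm, map_inv₀, norm_inv, not_le]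
        have hpos : 0 < ‖padicEmbedding q z‖ := by
          rw [norm_pos_iff]
          simpa using hz
        rw [one_lt_inv₀ hpos]
      rw [key y hy, key (σ y) hσy, ← map_inv₀, mem_padicPlace_of_mem_decomposition q hσ]
  obtain ⟨c, hc, hvw⟩ := AbsoluteValue.isEquiv_iff_exists_rpow_eq.1 hequiv
  have hq' : padicAbs q (q : AlgebraicClosure ℚ) ^ c = padicAbsTwist q σ (q : AlgebraicClosure ℚ) :=
    congrFun hvw _
  have h1 : padicAbs q (q : AlgebraicClosure ℚ) = (q : ℝ)⁻¹ := norm_padicEmbedding_natCast_self q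
  have h2 : padicAbsTwist q σ (q : AlgebraicClosure ℚ) = (q : ℝ)⁻¹ := by
    show ‖padicEmbedding q (σ (q : AlgebraicClosure ℚ))‖ = _
    rw [map_natCast]
    exact norm_padicEmbedding_natCast_self q
  rw [h1, h2] at hq'
  have hq0 : (0 : ℝ) < (q : ℝ)⁻¹ := inv_pos.2 (by exact_mod_cast hq.pos)
  have hq1 : (q : ℝ)⁻¹ ≠ 1 := by
    rw [ne_eq, inv_eq_one]
    exact_mod_cast hq.one_lt.ne'
  have hc1 : c = 1 := by
    have h3 : (q : ℝ)⁻¹ ^ c = (q : ℝ)⁻¹ ^ (1 : ℝ) := by rw [hq', Real.rpow_one]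
    exact (Real.rpow_right_inj hq0 hq1).1 h3
  have := congrFun hvw x
  rw [hc1] at this
  simp only [Real.rpow_one] at this
  exact this.symm

end Fermat.Agent.S55.Bridge

namespace Fermat.Agent.S55.Bridge

open Polynomial IntermediateField
open scoped Pointwise NNReal

variable (q : ℕ) [Fact q.Prime]

section Extend

/-- The ring hom `ℚ̄ → ℂ_q`. -/
noncomputable def toPadicComplex : AlgebraicClosure ℚ →+* ℂ_[q] :=
  (UniformSpace.Completion.coeRingHom : PadicAlgCl q →+* ℂ_[q]).comp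
    ((padicEmbedding q : AlgebraicClosure ℚ →ₐ[ℚ] PadicAlgCl q) : AlgebraicClosure ℚ →+* PadicAlgCl q)

theorem toPadicComplex_apply (x : AlgebraicClosure ℚ) :
    toPadicComplex q x = ((padicEmbedding q x : PadicAlgCl q) : ℂ_[q]) := rfl

/-- The uniform structure on `ℚ̄` induced by the `q`-adic embedding. -/
@[reducible] noncomputable def padicUniformSpace : UniformSpace (AlgebraicClosure ℚ) :=
  UniformSpace.comap (padicEmbedding q) inferInstance

theorem isUniformInducing_toPadicComplex :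
    @IsUniformInducing _ _ (padicUniformSpace q) _ (toPadicComplex q) := by
  letI := padicUniformSpace q
  have h1 : IsUniformInducing (padicEmbedding q : AlgebraicClosure ℚ → PadicAlgCl q) := ⟨rfl⟩
  have h2 : IsUniformInducing ((↑) : PadicAlgCl q → ℂ_[q]) :=
    UniformSpace.Completion.isUniformInducing_coe _
  exact h2.comp h1

theorem denseRange_padicEmbedding :
    DenseRange (padicEmbedding q : AlgebraicClosure ℚ → PadicAlgCl q) := by
  rw [Metric.denseRange_iff]
  intro x r hr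
  obtain ⟨b, hb⟩ := exists_global_near q x hr
  exact ⟨b, by rw [dist_eq_norm]; exact hb⟩

theorem denseRange_toPadicComplex : DenseRange (toPadicComplex q) := by
  have h2 : DenseRange ((↑) : PadicAlgCl q → ℂ_[q]) := UniformSpace.Completion.denseRange_coe
  exact h2.comp (denseRange_padicEmbedding q) (UniformSpace.Completion.continuous_coe _)

variable {q} in
theorem uniformContinuous_toPadicComplex_comp
    {σ : AlgebraicClosure ℚ ≃ₐ[ℚ] AlgebraicClosure ℚ}
    (hσ : σ ∈ (padicPlace q).decompositionSubgroup ℚ) :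
    @UniformContinuous _ _ (padicUniformSpace q) _
      ((toPadicComplex q).comp (σ : AlgebraicClosure ℚ →+* AlgebraicClosure ℚ)) := by
  letI := padicUniformSpace q
  have h2 : UniformContinuous ((↑) : PadicAlgCl q → ℂ_[q]) :=
    UniformSpace.Completion.uniformContinuous_coe _
  have h1 : UniformContinuous (fun x : AlgebraicClosure ℚ => padicEmbedding q (σ x)) := by
    have hU : uniformity (AlgebraicClosure ℚ)
        = Filter.comap (Prod.map (padicEmbedding q) (padicEmbedding q))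
          (uniformity (PadicAlgCl q)) := rfl
    rw [UniformContinuous, hU]
    rw [(Metric.uniformity_basis_dist.comap _).tendsto_iff Metric.uniformity_basis_dist]
    intro ε hε
    refine ⟨ε, hε, ?_⟩
    rintro ⟨a, b⟩ hab
    simp only [Set.mem_preimage, Prod.map_apply, Set.mem_ofPred_eq] at hab ⊢
    rw [dist_eq_norm] at hab ⊢
    rw [← map_sub, ← map_sub, norm_padicEmbedding_of_mem_decomposition q hσ, map_sub]
    exact hab
  exact h2.comp h1

variable {q} in
/-- The continuous extension of `ι ∘ σ ∘ ι⁻¹` to `ℂ_q`. -/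
noncomputable def extendToPadicComplex
    {σ : AlgebraicClosure ℚ ≃ₐ[ℚ] AlgebraicClosure ℚ}
    (hσ : σ ∈ (padicPlace q).decompositionSubgroup ℚ) : ℂ_[q] →+* ℂ_[q] :=
  letI := padicUniformSpace q
  IsDenseInducing.extendRingHom (i := toPadicComplex q)
    (f := (toPadicComplex q).comp (σ : AlgebraicClosure ℚ →+* AlgebraicClosure ℚ))
    (isUniformInducing_toPadicComplex q) (denseRange_toPadicComplex q)
    (uniformContinuous_toPadicComplex_comp hσ)

variable {q} in
theorem extendToPadicComplex_apply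
    {σ : AlgebraicClosure ℚ ≃ₐ[ℚ] AlgebraicClosure ℚ}
    (hσ : σ ∈ (padicPlace q).decompositionSubgroup ℚ) (x : AlgebraicClosure ℚ) :
    extendToPadicComplex hσ (toPadicComplex q x) = toPadicComplex q (σ x) := by
  letI := padicUniformSpace q
  exact IsDenseInducing.extend_eq
    ((isUniformInducing_toPadicComplex q).isDenseInducing (denseRange_toPadicComplex q))
    (uniformContinuous_toPadicComplex_comp hσ).continuous x

variable {q} in
theorem continuous_extendToPadicComplex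
    {σ : AlgebraicClosure ℚ ≃ₐ[ℚ] AlgebraicClosure ℚ}
    (hσ : σ ∈ (padicPlace q).decompositionSubgroup ℚ) :
    Continuous (extendToPadicComplex hσ) := by
  letI := padicUniformSpace q
  exact (uniformContinuous_uniformly_extend (isUniformInducing_toPadicComplex q)
    (denseRange_toPadicComplex q) (uniformContinuous_toPadicComplex_comp hσ)).continuous

/-- The ring hom `ℚ_q → ℂ_q`. -/
noncomputable def padicToComplex : ℚ_[q] →+* ℂ_[q] :=
  (UniformSpace.Completion.coeRingHom : PadicAlgCl q →+* ℂ_[q]).comp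
    (algebraMap ℚ_[q] (PadicAlgCl q))

theorem continuous_padicToComplex : Continuous (padicToComplex q) := by
  have h1 : Continuous (algebraMap ℚ_[q] (PadicAlgCl q)) := by
    have hiso : Isometry (algebraMap ℚ_[q] (PadicAlgCl q)) := by
      refine AddMonoidHomClass.isometry_of_norm _ fun x => ?_
      exact PadicAlgCl.norm_extends q x
    exact hiso.continuous
  exact (UniformSpace.Completion.continuous_coe _).comp h1

variable {q} in
/-- The extension fixes `ℚ_q`. -/
theorem extendToPadicComplex_padicToComplex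
    {σ : AlgebraicClosure ℚ ≃ₐ[ℚ] AlgebraicClosure ℚ}
    (hσ : σ ∈ (padicPlace q).decompositionSubgroup ℚ) (c : ℚ_[q]) :
    extendToPadicComplex hσ (padicToComplex q c) = padicToComplex q c := by
  have hd : DenseRange ((↑) : ℚ → ℚ_[q]) := Padic.denseRange_ratCast q
  have hcont1 : Continuous fun c : ℚ_[q] => extendToPadicComplex hσ (padicToComplex q c) :=
    (continuous_extendToPadicComplex hσ).comp (continuous_padicToComplex q)
  have heq : (fun c : ℚ_[q] => extendToPadicComplex hσ (padicToComplex q c))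
      = fun c => padicToComplex q c := by
    refine hd.equalizer hcont1 (continuous_padicToComplex q) ?_
    funext r
    simp only [Function.comp_apply, map_ratCast]
  exact congrFun heq c

/-- Elements of `ℂ_q` algebraic over `ℚ_q` lie in `ℚ̄_q`. -/
theorem mem_range_coe_of_root (m : Polynomial ℚ_[q]) (hm : m ≠ 0) (z : ℂ_[q])
    (hz : m.eval₂ (padicToComplex q) z = 0) : ∃ y : PadicAlgCl q, (y : ℂ_[q]) = z := by
  have hsplit : (m.map (algebraMap ℚ_[q] (PadicAlgCl q))).Splits := IsAlgClosed.splits _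
  have hmap : (m.map (algebraMap ℚ_[q] (PadicAlgCl q))).map
      (UniformSpace.Completion.coeRingHom : PadicAlgCl q →+* ℂ_[q])
      = m.map (padicToComplex q) := by
    rw [Polynomial.map_map]
    rfl
  have hroot : z ∈ (m.map (padicToComplex q)).roots := by
    rw [Polynomial.mem_roots (Polynomial.map_ne_zero hm), Polynomial.IsRoot.def,
      Polynomial.eval_map]
    exact hz
  rw [← hmap, hsplit.roots_map, Multiset.mem_map] at hroot
  obtain ⟨y, -, hy⟩ := hroot
  exact ⟨y, hy⟩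

variable {q} in
theorem exists_eq_extendToPadicComplex
    {σ : AlgebraicClosure ℚ ≃ₐ[ℚ] AlgebraicClosure ℚ}
    (hσ : σ ∈ (padicPlace q).decompositionSubgroup ℚ) (y : PadicAlgCl q) :
    ∃ z : PadicAlgCl q, (z : ℂ_[q]) = extendToPadicComplex hσ (y : ℂ_[q]) := by
  have hyint : IsIntegral ℚ_[q] y := Algebra.IsIntegral.isIntegral y
  apply mem_range_coe_of_root q (minpoly ℚ_[q] y) (minpoly.ne_zero hyint)
  have h0 : (minpoly ℚ_[q] y).eval₂ (padicToComplex q) (y : ℂ_[q]) = 0 := by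
    have h1 : (minpoly ℚ_[q] y).eval₂ (algebraMap ℚ_[q] (PadicAlgCl q)) y = 0 := by
      have := minpoly.aeval ℚ_[q] y
      rwa [Polynomial.aeval_def] at this
    have h2 := congrArg (UniformSpace.Completion.coeRingHom : PadicAlgCl q →+* ℂ_[q]) h1
    rw [Polynomial.hom_eval₂, map_zero] at h2
    exact h2
  have h3 := congrArg (extendToPadicComplex hσ) h0
  rw [Polynomial.hom_eval₂, map_zero] at h3
  have hcomp : (extendToPadicComplex hσ).comp (padicToComplex q) = padicToComplex q :=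
    RingHom.ext (extendToPadicComplex_padicToComplex hσ)
  rw [hcomp] at h3
  exact h3

variable {q} in
/-- The lift of `σ ∈ D_A` as a function `ℚ̄_q → ℚ̄_q`. -/
noncomputable def liftFun
    {σ : AlgebraicClosure ℚ ≃ₐ[ℚ] AlgebraicClosure ℚ}
    (hσ : σ ∈ (padicPlace q).decompositionSubgroup ℚ) (y : PadicAlgCl q) : PadicAlgCl q :=
  (exists_eq_extendToPadicComplex hσ y).choose

variable {q} in
theorem coe_liftFun
    {σ : AlgebraicClosure ℚ ≃ₐ[ℚ] AlgebraicClosure ℚ}
    (hσ : σ ∈ (padicPlace q).decompositionSubgroup ℚ) (y : PadicAlgCl q) :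
    ((liftFun hσ y : PadicAlgCl q) : ℂ_[q]) = extendToPadicComplex hσ (y : ℂ_[q]) :=
  (exists_eq_extendToPadicComplex hσ y).choose_spec

theorem coe_padicAlgCl_injective :
    Function.Injective ((↑) : PadicAlgCl q → ℂ_[q]) :=
  UniformSpace.Completion.coe_injective _

variable {q} in
/-- The lift of `σ ∈ D_A` as a `ℚ_q`-algebra endomorphism of `ℚ̄_q`. -/
noncomputable def liftAlgHom
    {σ : AlgebraicClosure ℚ ≃ₐ[ℚ] AlgebraicClosure ℚ}
    (hσ : σ ∈ (padicPlace q).decompositionSubgroup ℚ) : PadicAlgCl q →ₐ[ℚ_[q]] PadicAlgCl q where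
  toFun := liftFun hσ
  map_one' := by
    apply coe_padicAlgCl_injective q
    rw [coe_liftFun, UniformSpace.Completion.coe_one, map_one]
  map_mul' x y := by
    apply coe_padicAlgCl_injective q
    rw [coe_liftFun, UniformSpace.Completion.coe_mul, UniformSpace.Completion.coe_mul, map_mul,
      coe_liftFun, coe_liftFun]
  map_zero' := by
    apply coe_padicAlgCl_injective q
    rw [coe_liftFun, UniformSpace.Completion.coe_zero, map_zero]
  map_add' x y := by
    apply coe_padicAlgCl_injective q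
    rw [coe_liftFun, UniformSpace.Completion.coe_add, UniformSpace.Completion.coe_add, map_add,
      coe_liftFun, coe_liftFun]
  commutes' c := by
    apply coe_padicAlgCl_injective q
    rw [coe_liftFun]
    exact extendToPadicComplex_padicToComplex hσ c

variable {q} in
theorem liftAlgHom_padicEmbedding
    {σ : AlgebraicClosure ℚ ≃ₐ[ℚ] AlgebraicClosure ℚ}
    (hσ : σ ∈ (padicPlace q).decompositionSubgroup ℚ) (x : AlgebraicClosure ℚ) :
    liftAlgHom hσ (padicEmbedding q x) = padicEmbedding q (σ x) := by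
  apply coe_padicAlgCl_injective q
  show ((liftFun hσ (padicEmbedding q x) : PadicAlgCl q) : ℂ_[q]) = _
  rw [coe_liftFun]
  exact extendToPadicComplex_apply hσ x

variable {q} in
/-- The lift of `σ ∈ D_A` to `Gal(ℚ̄_q/ℚ_q)`. -/
noncomputable def liftAlgEquiv
    {σ : AlgebraicClosure ℚ ≃ₐ[ℚ] AlgebraicClosure ℚ}
    (hσ : σ ∈ (padicPlace q).decompositionSubgroup ℚ) : PadicAlgCl q ≃ₐ[ℚ_[q]] PadicAlgCl q :=
  AlgEquiv.ofBijective (liftAlgHom hσ) (Algebra.IsAlgebraic.algHom_bijective (liftAlgHom hσ))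

variable {q} in
theorem localGaloisToGlobal_liftAlgEquiv
    {σ : AlgebraicClosure ℚ ≃ₐ[ℚ] AlgebraicClosure ℚ}
    (hσ : σ ∈ (padicPlace q).decompositionSubgroup ℚ) :
    localGaloisToGlobal q (liftAlgEquiv hσ) = σ := by
  apply AlgEquiv.ext
  intro x
  have hinj : Function.Injective (padicEmbedding q) := (padicEmbedding q).injective
  apply hinj
  rw [padicEmbedding_localGaloisToGlobal]
  exact liftAlgHom_padicEmbedding hσ x

end Extend

/-- **B9.** The image of `Gal(ℚ̄_q/ℚ_q) → Gal(ℚ̄/ℚ)` is exactly the decomposition group of the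
place `padicPlace q` of `ℚ̄`. -/
theorem range_localGaloisToGlobal :
    (localGaloisToGlobal q).range = (padicPlace q).decompositionSubgroup ℚ := by
  apply le_antisymm
  · rintro _ ⟨τ, rfl⟩
    exact localGaloisToGlobal_mem_decompositionSubgroup q τ
  · intro σ hσ
    exact ⟨liftAlgEquiv hσ, localGaloisToGlobal_liftAlgEquiv hσ⟩

/-- Same for `primeLocalToGlobal`. -/
theorem range_primeLocalToGlobal (q : Nat.Primes) :
    (ExtCitation.primeLocalToGlobal q).range
      = (ExtCitation.primeLocalPlace q).decompositionSubgroup ℚ := by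
  letI : Fact (q : ℕ).Prime := ⟨q.2⟩
  exact range_localGaloisToGlobal (q : ℕ)

end Fermat.Agent.S55.Bridge

end
-- ===== PACK-END S55/Bridge/DecompLift.lean

-- ===== PACK-BEGIN S55/L/UnrInv/CycInv.lean
section


/-!
# S55, layer L, unramified invariants: the abstract invariant map of a cyclic datum

Data: `σ : G`, `n > 0` with `σ ^ n = 1`, an additive `G`-invariant `w : A → ℤ`.
`cycInv σ n hσ w hw : H2 A →+ ℚ/ℤ` is the additive map with
`cycInv (class of c) = w (∑_{i<n} c (σ^i, σ)) / n  mod ℤ`.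
-/

set_option autoImplicit false

namespace Fermat.Agent.S55.L.UnrInv

open groupCohomology CategoryTheory

variable {G : Type} [Group G] {A : Rep.{0} ℤ G}

/-- The invariant on cocycles. -/
noncomputable def cycInvCocycle (σ : G) (n : ℕ) (w : A →+ ℤ) :
    cocycles₂ A →+ AddCircle (1 : ℚ) where
  toFun c := (((w (cycSum σ n (c : G × G → A)) : ℤ) : ℚ) / (n : ℚ) : ℚ)
  map_zero' := by
    have : ((0 : cocycles₂ A) : G × G → A) = 0 := rfl
    simp [this, cycSum_zero]
  map_add' c c' := by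
    have : ((c + c' : cocycles₂ A) : G × G → A) = (c : G × G → A) + (c' : G × G → A) := rfl
    rw [this, cycSum_add, map_add, Int.cast_add, add_div, AddCircle.coe_add]

theorem cycInvCocycle_apply (σ : G) (n : ℕ) (w : A →+ ℤ) (c : cocycles₂ A) :
    cycInvCocycle σ n w c = (((w (cycSum σ n (c : G × G → A)) : ℤ) : ℚ) / (n : ℚ) : ℚ) := rfl

theorem coe_eq_zero_of_dvd {n : ℕ} (hn : 0 < n) {k : ℤ} (h : (n : ℤ) ∣ k) :
    (((k : ℚ) / (n : ℚ) : ℚ) : AddCircle (1 : ℚ)) = 0 := by
  obtain ⟨t, rfl⟩ := h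
  rw [AddCircle.coe_eq_zero_iff]
  refine ⟨t, ?_⟩
  have hn' : (n : ℚ) ≠ 0 := by exact_mod_cast hn.ne'
  push_cast
  field_simp
  simp

theorem cycInvCocycle_eq_zero_of_mem_coboundaries₂ (σ : G) (n : ℕ) (hn : 0 < n) (hσ : σ ^ n = 1)
    (w : A →+ ℤ) (hw : ∀ (g : G) (x : A), w (A.ρ g x) = w x) (c : cocycles₂ A)
    (hc : (c : G × G → A) ∈ coboundaries₂ A) : cycInvCocycle σ n w c = 0 := by
  rw [cycInvCocycle_apply]
  exact coe_eq_zero_of_dvd hn (w_cycSum_of_mem_coboundaries₂ σ n hσ w hw _ hc)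

theorem H2π_surjective : Function.Surjective (H2π A).hom :=
  (ModuleCat.epi_iff_surjective (H2π A)).1 inferInstance

/-- The invariant map on `H²`. -/
noncomputable def cycInv (σ : G) (n : ℕ) (hn : 0 < n) (hσ : σ ^ n = 1)
    (w : A →+ ℤ) (hw : ∀ (g : G) (x : A), w (A.ρ g x) = w x) :
    H2 A →+ AddCircle (1 : ℚ) :=
  AddMonoidHom.liftOfRightInverse (H2π A).hom.toAddMonoidHom
    (Function.surjInv (H2π_surjective (A := A)))
    (Function.rightInverse_surjInv (H2π_surjective (A := A)))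
    ⟨cycInvCocycle σ n w, by
      intro c hc
      rw [AddMonoidHom.mem_ker] at hc ⊢
      have hc' : (H2π A).hom c = 0 := hc
      rw [H2π_eq_zero_iff] at hc'
      exact cycInvCocycle_eq_zero_of_mem_coboundaries₂ σ n hn hσ w hw c hc'⟩

theorem cycInv_H2π (σ : G) (n : ℕ) (hn : 0 < n) (hσ : σ ^ n = 1)
    (w : A →+ ℤ) (hw : ∀ (g : G) (x : A), w (A.ρ g x) = w x) (c : cocycles₂ A) :
    cycInv σ n hn hσ w hw ((H2π A).hom c) =
      (((w (cycSum σ n (c : G × G → A)) : ℤ) : ℚ) / (n : ℚ) : ℚ) :=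
  AddMonoidHom.liftOfRightInverse_comp_apply _ _ _ _ c

end Fermat.Agent.S55.L.UnrInv

end
-- ===== PACK-END S55/L/UnrInv/CycInv.lean

-- ===== PACK-BEGIN S56/H176/FLDBasis.lean
section



/-!
# S56 / FL-D, part 2: a totally ramified extension of DVRs is generated by a uniformiser

`A ⊂ B` discrete valuation rings, `K = Frac A`, `L ⊇ K` finite of degree `n`, `B` the integral
closure of `A` in `L`, and `v_B(a) = n · v_A(a)` for `a ∈ A` (total ramification).  For a
uniformiser `ϖ` of `B`: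

* `FLD_natDegree_minpoly`  : `deg (minpoly A ϖ) = n`;
* `FLD_adjoin_field_eq_top`: `K[ϖ] = L`;
* `FLD_exists_comb`        : every `x ∈ B` is `∑_{j<n} b_j ϖ^j` with `b_j ∈ A`;
* `FLD_adjoin_eq_top`      : `A[ϖ] = B`.
-/

set_option autoImplicit false

namespace Fermat.Agent.S56.H176

open IsDiscreteValuationRing Polynomial

section Basis

variable {A : Type*} [CommRing A] [IsDomain A] [IsDiscreteValuationRing A]
  {B : Type*} [CommRing B] [IsDomain B] [IsDiscreteValuationRing B] [Algebra A B]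

omit [IsDomain A] [IsDiscreteValuationRing A] [IsDomain B] [IsDiscreteValuationRing B] in
/-- `aeval` as a sum over `range n`. -/
theorem FLD_aeval_eq_sum {n : ℕ} (q : A[X]) (hq : q.natDegree < n) (x : B) :
    aeval x q = ∑ i ∈ Finset.range n, algebraMap A B (q.coeff i) * x ^ i := by
  rw [aeval_eq_sum_range' hq]
  simp [Algebra.smul_def]

/-- A nonzero polynomial over `A` killing a uniformiser of `B` has degree at least `n`. -/
theorem FLD_le_natDegree_of_aeval_eq_zero {n : ℕ}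
    (hram : ∀ a : A, addVal B (algebraMap A B a) = n • addVal A a)
    {ϖ : B} (hϖ : addVal B ϖ = 1) (q : A[X]) (hq0 : q ≠ 0) (h : aeval ϖ q = 0) :
    n ≤ q.natDegree := by
  by_contra hlt
  rw [not_le] at hlt
  rw [FLD_aeval_eq_sum q hlt] at h
  have := FLD_coeff_eq_zero hram hϖ (fun i => q.coeff i) h hlt
  exact hq0 (leadingCoeff_eq_zero.mp this)

end Basis

section Field

variable (A K : Type*) [CommRing A] [IsDomain A] [IsDiscreteValuationRing A]
  [Field K] [Algebra A K] [IsFractionRing A K]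
  (L : Type*) [Field L] [Algebra K L] [FiniteDimensional K L]
  [Algebra A L] [IsScalarTower A K L]
  (B : Type*) [CommRing B] [IsDomain B] [IsDiscreteValuationRing B] [Algebra B L]
  [IsIntegralClosure B A L] [Algebra A B] [IsScalarTower A B L]

include K L in
/-- The minimal polynomial of a uniformiser has degree `[L : K]`. -/
theorem FLD_natDegree_minpoly
    (hram : ∀ a : A, addVal B (algebraMap A B a) = (Module.finrank K L) • addVal A a)
    {ϖ : B} (hϖ : addVal B ϖ = 1) :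
    (minpoly A ϖ).natDegree = Module.finrank K L := by
  have hint : IsIntegral A ϖ := IsIntegralClosure.isIntegral A L ϖ
  apply le_antisymm
  · have h1 : minpoly K (algebraMap B L ϖ) = (minpoly A ϖ).map (algebraMap A K) :=
      minpoly.isIntegrallyClosed_eq_field_fractions K L hint
    have h2 : ((minpoly A ϖ).map (algebraMap A K)).natDegree = (minpoly A ϖ).natDegree :=
      (minpoly.monic hint).natDegree_map _
    rw [← h2, ← h1]
    exact minpoly.natDegree_le _
  · exact FLD_le_natDegree_of_aeval_eq_zero hram hϖ _ (minpoly.ne_zero hint) (minpoly.aeval A ϖ)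

include A in
/-- A uniformiser generates `L` over `K`. -/
theorem FLD_adjoin_field_eq_top
    (hram : ∀ a : A, addVal B (algebraMap A B a) = (Module.finrank K L) • addVal A a)
    {ϖ : B} (hϖ : addVal B ϖ = 1) :
    Algebra.adjoin K {algebraMap B L ϖ} = ⊤ := by
  have hint : IsIntegral A ϖ := IsIntegralClosure.isIntegral A L ϖ
  have hintK : IsIntegral K (algebraMap B L ϖ) := Algebra.IsIntegral.isIntegral _
  have h1 : minpoly K (algebraMap B L ϖ) = (minpoly A ϖ).map (algebraMap A K) :=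
    minpoly.isIntegrallyClosed_eq_field_fractions K L hint
  have h2 : (minpoly K (algebraMap B L ϖ)).natDegree = Module.finrank K L := by
    rw [h1, (minpoly.monic hint).natDegree_map, FLD_natDegree_minpoly A K L B hram hϖ]
  have h3 := (Field.primitive_element_iff_minpoly_natDegree_eq K (algebraMap B L ϖ)).mpr h2
  rw [← IntermediateField.adjoin_simple_toSubalgebra_of_isAlgebraic hintK.isAlgebraic, h3]
  rfl

include K L in
/-- Every element of `B` is an `A`-polynomial of degree `< n` in a uniformiser. -/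
theorem FLD_exists_comb
    (hram : ∀ a : A, addVal B (algebraMap A B a) = (Module.finrank K L) • addVal A a)
    {ϖ : B} (hϖ : addVal B ϖ = 1) (x : B) :
    ∃ r : A[X], r.natDegree < Module.finrank K L ∧ aeval ϖ r = x := by
  classical
  set n := Module.finrank K L with hn
  have hnpos : 0 < n := Module.finrank_pos
  have hint : IsIntegral A ϖ := IsIntegralClosure.isIntegral A L ϖ
  have hinj : Function.Injective (algebraMap B L) := IsIntegralClosure.algebraMap_injective B A L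
  have hinjA : Function.Injective (algebraMap A B) := by
    intro a b hab
    have h1 : addVal B (algebraMap A B (a - b)) = ⊤ := by
      rw [map_sub, hab, sub_self, addVal_zero]
    rw [hram] at h1
    have h2 : addVal A (a - b) = ⊤ := by
      by_contra hne
      obtain ⟨t, ht⟩ := ENat.ne_top_iff_exists.mp hne
      rw [← ht] at h1
      have : ((n * t : ℕ) : ℕ∞) ≠ ⊤ := ENat.natCast_ne_top _
      apply this
      simpa using h1
    exact sub_eq_zero.mp (addVal_eq_top_iff.mp h2)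
  -- step 1: a `K`-polynomial
  have htop := FLD_adjoin_field_eq_top A K L B hram hϖ
  have hx : algebraMap B L x ∈ Algebra.adjoin K {algebraMap B L ϖ} := by
    rw [htop]; exact Algebra.mem_top
  rw [Algebra.adjoin_singleton_eq_range_aeval] at hx
  obtain ⟨q0, hq0⟩ := hx
  -- step 2: reduce the degree
  have h1 : minpoly K (algebraMap B L ϖ) = (minpoly A ϖ).map (algebraMap A K) :=
    minpoly.isIntegrallyClosed_eq_field_fractions K L hint
  have hintK : IsIntegral K (algebraMap B L ϖ) := Algebra.IsIntegral.isIntegral _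
  have hmon : (minpoly K (algebraMap B L ϖ)).Monic := minpoly.monic hintK
  have hdeg : (minpoly K (algebraMap B L ϖ)).natDegree = n := by
    rw [h1, (minpoly.monic hint).natDegree_map, FLD_natDegree_minpoly A K L B hram hϖ]
  have hne1 : minpoly K (algebraMap B L ϖ) ≠ 1 := by
    intro h
    rw [h, natDegree_one] at hdeg
    omega
  set q1 := q0 %ₘ minpoly K (algebraMap B L ϖ) with hq1
  have hq1deg : q1.natDegree < n := by
    rw [← hdeg]
    exact natDegree_modByMonic_lt q0 hmon hne1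
  have hq1ev : aeval (algebraMap B L ϖ) q1 = algebraMap B L x := by
    rw [hq1, aeval_modByMonic_eq_self_of_root (minpoly.aeval K _)]
    exact hq0
  -- step 3: clear denominators
  obtain ⟨d, hd, hr⟩ := IsLocalization.integerNormalization_spec (nonZeroDivisors A) q1
  set r := IsLocalization.integerNormalization (nonZeroDivisors A) q1 with hrdef
  have hd0 : d ≠ 0 := nonZeroDivisors.ne_zero hd
  have hrdeg : r.natDegree < n := by
    refine lt_of_le_of_lt ?_ hq1deg
    rw [natDegree_le_iff_coeff_eq_zero]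
    intro N hN
    have hsupp := IsLocalization.integerNormalization_support (nonZeroDivisors A) q1
    by_contra hne
    have : N ∈ q1.support := hsupp (mem_support_iff.mpr hne)
    exact (mem_support_iff.mp this) (coeff_eq_zero_of_natDegree_lt hN)
  -- step 4: `aeval ϖ r = d • x`
  have hrx : aeval ϖ r = algebraMap A B d * x := by
    apply hinj
    rw [map_mul, ← hq1ev, ← aeval_algebraMap_apply, ← aeval_map_algebraMap K, hr,
      ← IsScalarTower.algebraMap_apply, IsScalarTower.algebraMap_apply A K L,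
      Algebra.smul_def, map_mul]
    congr 1
    simp
  -- step 5: all coefficients of `r` are divisible by `d`
  have hdvd : ∀ i, d ∣ r.coeff i := by
    intro i
    by_cases hi : i < n
    · rw [← addVal_le_iff_dvd]
      have h2 := FLD_addVal_sum_le hram hϖ (fun j => r.coeff j) hi
      rw [← FLD_aeval_eq_sum r hrdeg ϖ, hrx, addVal_mul, hram] at h2
      have hdv : addVal A d ≠ ⊤ := fun h => hd0 (addVal_eq_top_iff.mp h)
      obtain ⟨m, hm⟩ := ENat.ne_top_iff_exists.mp hdv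
      by_cases hc : addVal A (r.coeff i) = ⊤
      · rw [hc]; exact le_top
      obtain ⟨t, ht⟩ := ENat.ne_top_iff_exists.mp hc
      rw [← hm, ← ht] at h2 ⊢
      have h3 : ((n * m : ℕ) : ℕ∞) ≤ ((n * t + i : ℕ) : ℕ∞) := by
        refine le_trans ?_ (le_trans h2 ?_)
        · have : ((n * m : ℕ) : ℕ∞) = n • (m : ℕ∞) := by simp
          rw [this]
          exact le_self_add
        · have : ((n * t + i : ℕ) : ℕ∞) = n • (t : ℕ∞) + (i : ℕ∞) := by simp
          rw [this]
      have h4 : n * m ≤ n * t + i := by exact_mod_cast h3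
      have h5 : m ≤ t := by
        by_contra hlt
        rw [not_le] at hlt
        have : n * (t + 1) ≤ n * m := Nat.mul_le_mul_left n hlt
        nlinarith
      exact_mod_cast h5
    · rw [coeff_eq_zero_of_natDegree_lt (lt_of_lt_of_le hrdeg (not_lt.mp hi))]
      exact dvd_zero d
  obtain ⟨r', hr'⟩ := (C_dvd_iff_dvd_coeff d r).mpr hdvd
  refine ⟨r', ?_, ?_⟩
  · rw [← natDegree_C_mul (p := r') hd0, ← hr']
    exact hrdeg
  · have hdB : algebraMap A B d ≠ 0 := fun h => hd0 (hinjA (by rw [h, map_zero]))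
    apply mul_left_cancel₀ hdB
    rw [← hrx, hr', map_mul, aeval_C]

include K L in
/-- A uniformiser generates `B` as an `A`-algebra. -/
theorem FLD_adjoin_eq_top
    (hram : ∀ a : A, addVal B (algebraMap A B a) = (Module.finrank K L) • addVal A a)
    {ϖ : B} (hϖ : addVal B ϖ = 1) :
    Algebra.adjoin A {ϖ} = ⊤ := by
  rw [eq_top_iff]
  intro x _
  obtain ⟨r, -, hr⟩ := FLD_exists_comb A K L B hram hϖ x
  rw [← hr]
  exact aeval_mem_adjoin_singleton A ϖ

end Field

end Fermat.Agent.S56.H176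

end
-- ===== PACK-END S56/H176/FLDBasis.lean

-- ===== PACK-BEGIN S28/H865Dvr.lean
section
/-
S28 helper (helper865): `ℤ_(ℓ) = GaloisRep.ratLocalizedAt ℓ` is a discrete valuation ring with
uniformiser `ℓ`; in particular it is integrally closed and `ℓ` is a prime element.
-/



set_option autoImplicit false

noncomputable section

namespace Fermat.Agent.S28.H865

variable (ℓ : ℕ) [Fact ℓ.Prime]

theorem span_natCast_eq_ker_resZl :
    Ideal.span {((ℓ : ℕ) : ↥(GaloisRep.ratLocalizedAt ℓ))} = RingHom.ker (resZl ℓ) := by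
  ext x
  rw [RingHom.mem_ker, resZl_eq_zero_iff, Ideal.mem_span_singleton']
  constructor
  · rintro ⟨a, rfl⟩
    exact ⟨a, mul_comm _ _⟩
  · rintro ⟨y, rfl⟩
    exact ⟨y, mul_comm _ _⟩

/-- `ℓ` is a prime element of `ℤ_(ℓ)`. -/
theorem prime_natCast_ratLocalizedAt : Prime ((ℓ : ℕ) : ↥(GaloisRep.ratLocalizedAt ℓ)) := by
  rw [← Ideal.span_singleton_prime (natCast_ne_zero_ratLocalizedAt ℓ), span_natCast_eq_ker_resZl]
  exact RingHom.ker_isPrime _

/-- Elements of `ℤ_(ℓ)` with nonzero residue are units. -/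
theorem isUnit_of_resZl_ne_zero {u : ↥(GaloisRep.ratLocalizedAt ℓ)} (hu : resZl ℓ u ≠ 0) :
    IsUnit u := by
  have hu0 : u.1 ≠ 0 := by
    intro h
    apply hu
    rw [show u = 0 from Subtype.ext h, map_zero]
  have hnum : ((u.1.num : ℤ) : ZMod ℓ) ≠ 0 := by
    intro h
    apply hu
    rw [resZl_apply, Rat.cast_def, h, zero_div]
  have hmem : (u.1)⁻¹ ∈ GaloisRep.ratLocalizedAt ℓ := by
    show ((u.1)⁻¹).den.Coprime ℓ
    rw [Rat.den_inv_of_ne_zero hu0]
    rw [Nat.coprime_comm, Nat.Prime.coprime_iff_not_dvd (Fact.out : ℓ.Prime)]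
    intro hdvd
    apply hnum
    rw [ZMod.intCast_zmod_eq_zero_iff_dvd]
    exact Int.natCast_dvd.mpr hdvd
  exact IsUnit.of_mul_eq_one ⟨(u.1)⁻¹, hmem⟩ (Subtype.ext (mul_inv_cancel₀ hu0))

/-- Every nonzero element of `ℤ_(ℓ)` is a unit times a power of `ℓ`. -/
theorem exists_eq_pow_mul_unit (x : ↥(GaloisRep.ratLocalizedAt ℓ)) (hx : x ≠ 0) :
    ∃ (n : ℕ) (u : ↥(GaloisRep.ratLocalizedAt ℓ)),
      x = ((ℓ : ℕ) : ↥(GaloisRep.ratLocalizedAt ℓ)) ^ n * u ∧ IsUnit u := by
  classical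
  by_contra hcon
  push Not at hcon
  have hall : ∀ n : ℕ, ∃ s : ↥(GaloisRep.ratLocalizedAt ℓ),
      x = ((ℓ : ℕ) : ↥(GaloisRep.ratLocalizedAt ℓ)) ^ n * s := by
    intro n
    induction n with
    | zero => exact ⟨x, by simp⟩
    | succ n ih =>
      obtain ⟨s, hs⟩ := ih
      have hres : resZl ℓ s = 0 := by
        by_contra h
        exact hcon n s hs (isUnit_of_resZl_ne_zero ℓ h)
      obtain ⟨s', hs'⟩ := (resZl_eq_zero_iff ℓ s).mp hres
      exact ⟨s', by rw [hs, hs']; ring⟩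
  obtain ⟨n, hn⟩ := exists_not_pow_dvd ℓ x hx
  exact hn (hall n)

instance isDiscreteValuationRing_ratLocalizedAt :
    IsDiscreteValuationRing ↥(GaloisRep.ratLocalizedAt ℓ) :=
  IsDiscreteValuationRing.ofHasUnitMulPowIrreducibleFactorization
    ⟨((ℓ : ℕ) : ↥(GaloisRep.ratLocalizedAt ℓ)), (prime_natCast_ratLocalizedAt ℓ).irreducible,
      fun {x} hx => by
        obtain ⟨n, u, hxu, hu⟩ := exists_eq_pow_mul_unit ℓ x hx
        refine ⟨n, ?_⟩
        rw [hxu]
        exact ⟨hu.unit, by simp⟩⟩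

theorem isIntegrallyClosed_ratLocalizedAt :
    IsIntegrallyClosed ↥(GaloisRep.ratLocalizedAt ℓ) := inferInstance

theorem isIntegrallyClosed_polynomial_ratLocalizedAt :
    IsIntegrallyClosed (Polynomial ↥(GaloisRep.ratLocalizedAt ℓ)) := inferInstance

theorem prime_C_natCast :
    Prime (Polynomial.C ((ℓ : ℕ) : ↥(GaloisRep.ratLocalizedAt ℓ))) :=
  Polynomial.prime_C_iff.mpr (prime_natCast_ratLocalizedAt ℓ)

end Fermat.Agent.S28.H865

end
end
-- ===== PACK-END S28/H865Dvr.lean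

-- ===== PACK-BEGIN S56/H434/ConvNorm.lean
section



/-!
# S56 / W2-SS, piece A (helper434): the sup-norm on the convolution ring `Hom_R(M, Ω)`

`M` is a finite free cocommutative `R`-coalgebra with a basis `b`, `Ω` a field with a valuation
`v` such that the image of `R` is integral.  `convNorm v b hR` is the sup-norm with respect to the
basis, an ultrametric submultiplicative norm (`UNorm`) on `WithConv (M →ₗ[R] Ω)`.
-/

set_option autoImplicit false

open WithConv

namespace Fermat.Agent.S56.H434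

section SupNorm

variable {R : Type*} [CommRing R] {Ω : Type*} [Field Ω] [Algebra R Ω]
  {Γ : Type*} [LinearOrderedCommGroupWithZero Γ] (v : Valuation Ω Γ)
  {M : Type*} [AddCommGroup M] [Module R M] {ι : Type*} [Fintype ι] (b : Module.Basis ι R M)

/-- The sup-norm of a linear functional with respect to a basis. -/
noncomputable def supN (f : M →ₗ[R] Ω) : Γ := Finset.univ.sup fun i => v (f (b i))

theorem supN_le_iff {f : M →ₗ[R] Ω} {γ : Γ} : supN v b f ≤ γ ↔ ∀ i, v (f (b i)) ≤ γ := by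
  simp [supN, Finset.sup_le_iff]

theorem le_supN (f : M →ₗ[R] Ω) (i : ι) : v (f (b i)) ≤ supN v b f :=
  Finset.le_sup (f := fun i => v (f (b i))) (Finset.mem_univ i)

theorem apply_le_of_forall (hR : ∀ r : R, v (algebraMap R Ω r) ≤ 1) (f : M →ₗ[R] Ω) {γ : Γ}
    (hf : ∀ i, v (f (b i)) ≤ γ) (h : M) : v (f h) ≤ γ := by
  conv_lhs => rw [← b.sum_repr h]
  rw [map_sum]
  refine v.map_sum_le fun i _ => ?_
  rw [map_smul, Algebra.smul_def, map_mul]
  calc v (algebraMap R Ω (b.repr h i)) * v (f (b i)) ≤ 1 * γ := mul_le_mul' (hR _) (hf i)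
    _ = γ := one_mul _

theorem apply_le_supN (hR : ∀ r : R, v (algebraMap R Ω r) ≤ 1) (f : M →ₗ[R] Ω) (h : M) :
    v (f h) ≤ supN v b f :=
  apply_le_of_forall v b hR f (le_supN v b f) h

variable [Coalgebra R M] [Coalgebra.IsCocomm R M]

/-- The sup-norm on the convolution ring. -/
noncomputable def convNorm (hR : ∀ r : R, v (algebraMap R Ω r) ≤ 1) :
    UNorm (WithConv (M →ₗ[R] Ω)) Γ where
  N f := supN v b f.ofConv
  zero := by simp [supN]
  eq_zero f hf := by
    apply WithConv.ext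
    apply b.ext
    intro i
    have h1 := le_supN v b f.ofConv i
    rw [hf] at h1
    have h2 : v (f.ofConv (b i)) = 0 := le_antisymm h1 zero_le
    simpa using h2
  add_le f g := by
    rw [supN_le_iff]
    intro i
    simp only [ofConv_add, LinearMap.add_apply]
    exact (v.map_add _ _).trans (max_le_max (le_supN v b _ i) (le_supN v b _ i))
  neg f := by simp [supN, Valuation.map_neg]
  mul_le f g := by
    rw [supN_le_iff]
    intro i
    have := (Coalgebra.Repr.arbitrary R (b i)).convMul_apply f g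
    rw [show (f * g).ofConv (b i) = (f * g) (b i) from rfl, this]
    refine v.map_sum_le fun α _ => ?_
    rw [map_mul]
    exact mul_le_mul' (apply_le_supN v b hR _ _) (apply_le_supN v b hR _ _)
  one_le := by
    rw [supN_le_iff]
    intro i
    exact hR _

variable (hR : ∀ r : R, v (algebraMap R Ω r) ≤ 1)

theorem convNorm_N (f : WithConv (M →ₗ[R] Ω)) : (convNorm v b hR).N f = supN v b f.ofConv := rfl

theorem convNorm_le_iff {f : WithConv (M →ₗ[R] Ω)} {γ : Γ} :
    (convNorm v b hR).N f ≤ γ ↔ ∀ i, v (f.ofConv (b i)) ≤ γ :=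
  supN_le_iff v b

theorem apply_le_convNorm (f : WithConv (M →ₗ[R] Ω)) (h : M) :
    v (f.ofConv h) ≤ (convNorm v b hR).N f :=
  apply_le_supN v b hR _ h

omit [Fintype ι] [Coalgebra.IsCocomm R M] in
theorem natCast_mul_apply (n : ℕ) (a : WithConv (M →ₗ[R] Ω)) (h : M) :
    ((n : WithConv (M →ₗ[R] Ω)) * a).ofConv h = (n : Ω) * a.ofConv h := by
  rw [← nsmul_eq_mul]
  have : (n • a).ofConv = n • a.ofConv := map_nsmul (WithConv.addEquiv _) n a
  rw [this, LinearMap.smul_apply, nsmul_eq_mul]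

theorem convNorm_natCast_mul (n : ℕ) (a : WithConv (M →ₗ[R] Ω)) :
    (convNorm v b hR).N ((n : WithConv (M →ₗ[R] Ω)) * a) = v (n : Ω) * (convNorm v b hR).N a := by
  refine le_antisymm ?_ ?_
  · rw [convNorm_le_iff]
    intro i
    rw [natCast_mul_apply, map_mul]
    exact mul_le_mul' le_rfl (apply_le_convNorm v b hR a (b i))
  · rcases eq_or_ne (v (n : Ω)) 0 with h0 | h0
    · rw [h0, zero_mul]; exact zero_le
    · have hpos : 0 < v (n : Ω) := lt_of_le_of_ne zero_le (Ne.symm h0)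
      have : (convNorm v b hR).N a
          ≤ (v (n : Ω))⁻¹ * (convNorm v b hR).N ((n : WithConv (M →ₗ[R] Ω)) * a) := by
        rw [convNorm_le_iff]
        intro i
        have h1 := apply_le_convNorm v b hR ((n : WithConv (M →ₗ[R] Ω)) * a) (b i)
        rw [natCast_mul_apply, map_mul] at h1
        calc v (a.ofConv (b i)) = (v (n : Ω))⁻¹ * (v (n : Ω) * v (a.ofConv (b i))) := by
              rw [← mul_assoc, inv_mul_cancel₀ h0, one_mul]
          _ ≤ _ := mul_le_mul' le_rfl h1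
      calc v (n : Ω) * (convNorm v b hR).N a
          ≤ v (n : Ω) * ((v (n : Ω))⁻¹ *
              (convNorm v b hR).N ((n : WithConv (M →ₗ[R] Ω)) * a)) := mul_le_mul' le_rfl this
        _ = _ := by rw [← mul_assoc, mul_inv_cancel₀ h0, one_mul]

theorem convNorm_pdata {p : ℕ} (hp : p.Prime) : (convNorm v b hR).PData p (v (p : Ω)) where
  prime := hp
  π_le := by
    have := hR (p : R)
    simpa using this
  N_p_mul a := convNorm_natCast_mul v b hR p a

omit [Fintype ι] in
theorem exists_natCast_mul_eq {p : ℕ} (hp0 : (p : Ω) ≠ 0) (a : WithConv (M →ₗ[R] Ω)) :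
    ∃ z : WithConv (M →ₗ[R] Ω), (p : WithConv (M →ₗ[R] Ω)) * z = a := by
  refine ⟨toConv ((p : Ω)⁻¹ • a.ofConv), ?_⟩
  apply WithConv.ext
  apply LinearMap.ext
  intro h
  rw [natCast_mul_apply]
  simp only [LinearMap.smul_apply, smul_eq_mul]
  rw [← mul_assoc, mul_inv_cancel₀ hp0, one_mul]

end SupNorm

end Fermat.Agent.S56.H434

end
-- ===== PACK-END S56/H434/ConvNorm.lean

-- ===== PACK-BEGIN S56/H194/SSAd.lean
section


/-!
# S56 / W-FLAT-SS, piece FL-SS: corollaries of the structure theorem for `ad⁰`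
(helper194; Mathlib only, on top of `SSAbs.lean`)

In the situation of `SS.Hyp` (`ρ` two-dimensional, irreducible on `D`, eigenvalues in `k`,
`D ⊇ I ⊇ W`, Frobenius `φ`):

* `Hyp.frob_sq`             : `ρ φ * ρ φ = c • 1`, `c ≠ 0`.
* `Hyp.image_pow`           : `ρ σ ^ (2 * (Nat.card k - 1)) = 1` for `σ ∈ D`; the exponent is prime to `p`.
* `Hyp.exists_exponent`     : `∃ N, ¬ p ∣ N ∧ ∀ σ ∈ D, ρ σ ^ N = 1`.
* `Hyp.ad_coords`           : coordinates of `Ad ρ` in the basis of the structure theorem: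
  inertia multiplies the `(0,1)`-coefficient by `ψ = χ/χ'` and the `(1,0)`-coefficient by `ψ⁻¹`,
  `ψ ≠ 1`, `ψ ^ (p + 1) = 1`; Frobenius exchanges the two diagonal coefficients and exchanges the
  off-diagonal ones up to `u`, `u⁻¹`.
* `Hyp.commutant_scalar`    : an endomorphism commuting with `ρ D` is a scalar.
* `Hyp.ad_invariant_eq_zero`: for `p ≠ 2` a trace-zero endomorphism commuting with `ρ D` is `0`.
-/

set_option autoImplicit false

open Polynomial

namespace Fermat.Agent.S56.H194.SS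

variable {k : Type*} [Field k] {V : Type*} [AddCommGroup V] [Module k V]

/-! ### Coordinates in a basis of a plane -/

section Coords

variable (b : Module.Basis (Fin 2) k V)

theorem eq_repr_smul_add (v : V) : v = b.repr v 0 • b 0 + b.repr v 1 • b 1 := by
  conv_lhs => rw [← b.sum_repr v, Fin.sum_univ_two]

theorem repr_smul_add_zero (x y : k) : b.repr (x • b 0 + y • b 1) 0 = x := by
  simp

theorem repr_smul_add_one (x y : k) : b.repr (x • b 0 + y • b 1) 1 = y := by
  simp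

theorem repr_diag {f : Module.End k V} {c₀ c₁ : k} (h₀ : f (b 0) = c₀ • b 0)
    (h₁ : f (b 1) = c₁ • b 1) (v : V) :
    b.repr (f v) 0 = c₀ * b.repr v 0 ∧ b.repr (f v) 1 = c₁ * b.repr v 1 := by
  have hv : f v = (c₀ * b.repr v 0) • b 0 + (c₁ * b.repr v 1) • b 1 := by
    conv_lhs => rw [eq_repr_smul_add b v]
    rw [map_add, map_smul, map_smul, h₀, h₁, smul_smul, smul_smul, mul_comm, mul_comm _ c₁]
  rw [hv]
  exact ⟨repr_smul_add_zero b _ _, repr_smul_add_one b _ _⟩

theorem repr_antidiag {f : Module.End k V} {c₀ c₁ : k} (h₀ : f (b 0) = c₀ • b 1)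
    (h₁ : f (b 1) = c₁ • b 0) (v : V) :
    b.repr (f v) 0 = c₁ * b.repr v 1 ∧ b.repr (f v) 1 = c₀ * b.repr v 0 := by
  have hv : f v = (c₁ * b.repr v 1) • b 0 + (c₀ * b.repr v 0) • b 1 := by
    conv_lhs => rw [eq_repr_smul_add b v]
    rw [map_add, map_smul, map_smul, h₀, h₁, smul_smul, smul_smul, mul_comm, mul_comm _ c₁,
      add_comm]
  rw [hv]
  exact ⟨repr_smul_add_zero b _ _, repr_smul_add_one b _ _⟩

theorem ext_basis_two {f g : Module.End k V} (h₀ : f (b 0) = g (b 0)) (h₁ : f (b 1) = g (b 1)) :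
    f = g := by
  apply b.ext
  intro i
  fin_cases i
  · exact h₀
  · exact h₁

/-- `f` is monomial in the basis `b`: diagonal or anti-diagonal with non-zero entries. -/
def IsMonomial (f : Module.End k V) : Prop :=
  (∃ c₀ c₁ : k, c₀ ≠ 0 ∧ c₁ ≠ 0 ∧ f (b 0) = c₀ • b 0 ∧ f (b 1) = c₁ • b 1) ∨
  (∃ c₀ c₁ : k, c₀ ≠ 0 ∧ c₁ ≠ 0 ∧ f (b 0) = c₀ • b 1 ∧ f (b 1) = c₁ • b 0)

theorem IsMonomial.one : IsMonomial b (1 : Module.End k V) :=
  Or.inl ⟨1, 1, one_ne_zero, one_ne_zero, by simp, by simp⟩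

theorem IsMonomial.mul {f g : Module.End k V} (hf : IsMonomial b f) (hg : IsMonomial b g) :
    IsMonomial b (f * g) := by
  rcases hf with ⟨c₀, c₁, hc₀, hc₁, hf₀, hf₁⟩ | ⟨c₀, c₁, hc₀, hc₁, hf₀, hf₁⟩ <;>
  rcases hg with ⟨d₀, d₁, hd₀, hd₁, hg₀, hg₁⟩ | ⟨d₀, d₁, hd₀, hd₁, hg₀, hg₁⟩
  · exact Or.inl ⟨d₀ * c₀, d₁ * c₁, mul_ne_zero hd₀ hc₀, mul_ne_zero hd₁ hc₁,
      by rw [Module.End.mul_apply, hg₀, map_smul, hf₀, smul_smul],
      by rw [Module.End.mul_apply, hg₁, map_smul, hf₁, smul_smul]⟩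
  · exact Or.inr ⟨d₀ * c₁, d₁ * c₀, mul_ne_zero hd₀ hc₁, mul_ne_zero hd₁ hc₀,
      by rw [Module.End.mul_apply, hg₀, map_smul, hf₁, smul_smul],
      by rw [Module.End.mul_apply, hg₁, map_smul, hf₀, smul_smul]⟩
  · exact Or.inr ⟨d₀ * c₀, d₁ * c₁, mul_ne_zero hd₀ hc₀, mul_ne_zero hd₁ hc₁,
      by rw [Module.End.mul_apply, hg₀, map_smul, hf₀, smul_smul],
      by rw [Module.End.mul_apply, hg₁, map_smul, hf₁, smul_smul]⟩
  · exact Or.inl ⟨d₀ * c₁, d₁ * c₀, mul_ne_zero hd₀ hc₁, mul_ne_zero hd₁ hc₀,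
      by rw [Module.End.mul_apply, hg₀, map_smul, hf₁, smul_smul],
      by rw [Module.End.mul_apply, hg₁, map_smul, hf₀, smul_smul]⟩

theorem IsMonomial.pow {f : Module.End k V} (hf : IsMonomial b f) (n : ℕ) :
    IsMonomial b (f ^ n) := by
  induction n with
  | zero => rw [pow_zero]; exact IsMonomial.one b
  | succ n ih => rw [pow_succ]; exact ih.mul b hf

theorem pow_eq_one_of_diag [Finite k] {f : Module.End k V} {c₀ c₁ : k} (hc₀ : c₀ ≠ 0)
    (hc₁ : c₁ ≠ 0) (h₀ : f (b 0) = c₀ • b 0) (h₁ : f (b 1) = c₁ • b 1) :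
    f ^ (Nat.card k - 1) = 1 := by
  have key : ∀ c : k, c ≠ 0 → c ^ (Nat.card k - 1) = 1 := by
    intro c hc
    let _ := Fintype.ofFinite k
    rw [Nat.card_eq_fintype_card]
    exact FiniteField.pow_card_sub_one_eq_one c hc
  apply ext_basis_two b
  · rw [Hyp.pow_apply_eigen h₀, key c₀ hc₀, one_smul, Module.End.one_apply]
  · rw [Hyp.pow_apply_eigen h₁, key c₁ hc₁, one_smul, Module.End.one_apply]

theorem IsMonomial.pow_eq_one [Finite k] {f : Module.End k V} (hf : IsMonomial b f) :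
    f ^ (2 * (Nat.card k - 1)) = 1 := by
  rcases hf with ⟨c₀, c₁, hc₀, hc₁, hf₀, hf₁⟩ | ⟨c₀, c₁, hc₀, hc₁, hf₀, hf₁⟩
  · rw [mul_comm, pow_mul, pow_eq_one_of_diag b hc₀ hc₁ hf₀ hf₁, one_pow]
  · rw [pow_mul]
    apply pow_eq_one_of_diag b (mul_ne_zero hc₀ hc₁) (mul_ne_zero hc₁ hc₀)
    · rw [pow_two, Module.End.mul_apply, hf₀, map_smul, hf₁, smul_smul]
    · rw [pow_two, Module.End.mul_apply, hf₁, map_smul, hf₀, smul_smul]

end Coords

namespace Hyp

variable [Module.Finite k V] {p : ℕ} [Fact p.Prime] [CharP k p] {G : Type*} [Group G]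
  {ρ : G →* Module.End k V} {D I W : Subgroup G} {φ : G}

variable (h : _root_.Fermat.Agent.S56.H194.SS.Hyp p ρ D I W φ)

include h

/-- Matrix-free form of the structure theorem: explicit action on the basis, characters
multiplicative. -/
theorem structure_thm' [Finite k] :
    ∃ (b : Module.Basis (Fin 2) k V) (χ χ' : G → k) (a a' : k),
      (∀ τ ∈ I, ρ τ (b 0) = χ τ • b 0 ∧ ρ τ (b 1) = χ' τ • b 1) ∧
      (∃ τ ∈ I, χ τ ≠ χ' τ) ∧
      (∀ τ ∈ I, χ' τ = χ τ ^ p ∧ χ τ = χ' τ ^ p) ∧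
      (∀ τ ∈ I, χ τ ≠ 0 ∧ χ' τ ≠ 0) ∧
      a ≠ 0 ∧ a' ≠ 0 ∧ ρ φ (b 0) = a • b 1 ∧ ρ φ (b 1) = a' • b 0 := by
  obtain ⟨b, χ, χ', a, a', h1, h2, h3, ha, ha', h4, h5⟩ := h.structure_thm
  refine ⟨b, χ, χ', a, a', h1, h2, h3, ?_, ha, ha', h4, h5⟩
  intro τ hτ
  constructor
  · intro h0
    have := (h1 τ hτ).1
    rw [h0, zero_smul] at this
    exact b.ne_zero 0 (rho_injective τ (this.trans (map_zero _).symm))
  · intro h0
    have := (h1 τ hτ).2
    rw [h0, zero_smul] at this
    exact b.ne_zero 1 (rho_injective τ (this.trans (map_zero _).symm))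

/-- `ρ φ * ρ φ` is a non-zero scalar. -/
theorem frob_sq [Finite k] : ∃ c : k, c ≠ 0 ∧ ρ φ * ρ φ = c • (1 : Module.End k V) := by
  obtain ⟨b, χ, χ', a, a', -, -, -, -, ha, ha', h4, h5⟩ := h.structure_thm'
  refine ⟨a * a', mul_ne_zero ha ha', ?_⟩
  apply ext_basis_two b
  · rw [Module.End.mul_apply, h4, map_smul, h5, smul_smul, LinearMap.smul_apply,
      Module.End.one_apply]
  · rw [Module.End.mul_apply, h5, map_smul, h4, smul_smul, LinearMap.smul_apply,
      Module.End.one_apply, mul_comm]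

/-- Every `ρ σ`, `σ ∈ D`, is monomial in the basis of the structure theorem. -/
theorem exists_basis_monomial [Finite k] :
    ∃ b : Module.Basis (Fin 2) k V, ∀ σ ∈ D, IsMonomial b (ρ σ) := by
  obtain ⟨b, χ, χ', a, a', h1, -, -, hne, ha, ha', h4, h5⟩ := h.structure_thm'
  refine ⟨b, fun σ hσ => ?_⟩
  obtain ⟨n, τ, hτ, hστ⟩ := h.gen σ hσ
  rw [hστ, map_mul, map_pow]
  refine IsMonomial.mul b (IsMonomial.pow b (Or.inr ⟨a, a', ha, ha', h4, h5⟩) n) ?_
  exact Or.inl ⟨χ τ, χ' τ, (hne τ hτ).1, (hne τ hτ).2, (h1 τ hτ).1, (h1 τ hτ).2⟩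

/-- The image `ρ D` has exponent dividing `2 (|k| - 1)`. -/
theorem image_pow [Finite k] : ∀ σ ∈ D, ρ σ ^ (2 * (Nat.card k - 1)) = 1 := by
  obtain ⟨b, hb⟩ := h.exists_basis_monomial
  exact fun σ hσ => (hb σ hσ).pow_eq_one b

omit h in
theorem not_dvd_two_mul_card_sub_one [Finite k] (hp : p ≠ 2) :
    ¬ p ∣ 2 * (Nat.card k - 1) := by
  have hpp : p.Prime := Fact.out
  intro hdvd
  rcases (Nat.Prime.dvd_mul hpp).mp hdvd with h2 | h2
  · exact hp ((Nat.prime_dvd_prime_iff_eq hpp Nat.prime_two).mp h2)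
  · let _ := Fintype.ofFinite k
    obtain ⟨n, hn⟩ := FiniteField.card k p
    rw [Nat.card_eq_fintype_card, hn.2] at h2
    have h3 : p ∣ p ^ (n : ℕ) := dvd_pow_self p n.ne_zero
    have h4 : 1 ≤ p ^ (n : ℕ) := Nat.one_le_pow _ _ hpp.pos
    have h5 : p ∣ 1 := by
      have := Nat.dvd_sub h3 h2
      rwa [Nat.sub_sub_self h4] at this
    exact hpp.one_lt.ne' (Nat.dvd_one.mp h5)

/-- The image `ρ D` has exponent prime to `p` (for `p` odd). -/
theorem exists_exponent [Finite k] (hp : p ≠ 2) : ∃ N : ℕ, ¬ p ∣ N ∧ ∀ σ ∈ D, ρ σ ^ N = 1 :=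
  ⟨_, not_dvd_two_mul_card_sub_one hp, h.image_pow⟩

/-- Schur: an endomorphism commuting with `ρ D` is a scalar. -/
theorem commutant_scalar [Finite k] (m : Module.End k V)
    (hm : ∀ σ ∈ D, ρ σ * m = m * ρ σ) : ∃ c : k, m = c • (1 : Module.End k V) := by
  obtain ⟨b, χ, χ', a, a', h1, ⟨τ₀, hτ₀, hreg⟩, -, -, ha, ha', h4, h5⟩ := h.structure_thm'
  have hτ := hm τ₀ (h.I_le hτ₀)
  -- `m` is diagonal
  have e0 := congrArg (fun u : Module.End k V => b.repr (u (b 0)) 1) hτ
  have e1 := congrArg (fun u : Module.End k V => b.repr (u (b 1)) 0) hτ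
  simp only [Module.End.mul_apply] at e0 e1
  rw [(repr_diag b (h1 τ₀ hτ₀).1 (h1 τ₀ hτ₀).2 _).2, (h1 τ₀ hτ₀).1, map_smul, map_smul,
    Finsupp.smul_apply, smul_eq_mul] at e0
  rw [(repr_diag b (h1 τ₀ hτ₀).1 (h1 τ₀ hτ₀).2 _).1, (h1 τ₀ hτ₀).2, map_smul, map_smul,
    Finsupp.smul_apply, smul_eq_mul] at e1
  have z0 : b.repr (m (b 0)) 1 = 0 := by
    have : (χ' τ₀ - χ τ₀) * b.repr (m (b 0)) 1 = 0 := by rw [sub_mul, e0, sub_self]
    rcases mul_eq_zero.mp this with h0 | h0
    · exact (hreg (sub_eq_zero.mp h0).symm).elim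
    · exact h0
  have z1 : b.repr (m (b 1)) 0 = 0 := by
    have : (χ τ₀ - χ' τ₀) * b.repr (m (b 1)) 0 = 0 := by rw [sub_mul, e1, sub_self]
    rcases mul_eq_zero.mp this with h0 | h0
    · exact (hreg (sub_eq_zero.mp h0)).elim
    · exact h0
  have hm0 : m (b 0) = b.repr (m (b 0)) 0 • b 0 := by
    conv_lhs => rw [eq_repr_smul_add b (m (b 0)), z0, zero_smul, add_zero]
  have hm1 : m (b 1) = b.repr (m (b 1)) 1 • b 1 := by
    conv_lhs => rw [eq_repr_smul_add b (m (b 1)), z1, zero_smul, zero_add]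
  -- Frobenius identifies the two diagonal entries
  have hφ := congrArg (fun u : Module.End k V => u (b 0)) (hm φ h.phi_mem)
  simp only [Module.End.mul_apply] at hφ
  rw [hm0, map_smul, h4, map_smul, hm1, smul_smul, smul_smul] at hφ
  have hxy : b.repr (m (b 0)) 0 * a = a * b.repr (m (b 1)) 1 :=
    smul_left_injective k (b.ne_zero 1) hφ
  have hxy' : b.repr (m (b 0)) 0 = b.repr (m (b 1)) 1 :=
    mul_left_cancel₀ ha ((mul_comm _ _).trans hxy)
  refine ⟨b.repr (m (b 0)) 0, ext_basis_two b ?_ ?_⟩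
  · rw [LinearMap.smul_apply, Module.End.one_apply]; exact hm0
  · rw [LinearMap.smul_apply, Module.End.one_apply, hxy']; exact hm1

/-- For `p ≠ 2`, `ad⁰` has no invariants: a trace-zero endomorphism commuting with `ρ D`
vanishes. -/
theorem ad_invariant_eq_zero [Finite k] (hp : p ≠ 2) (m : Module.End k V)
    (htr : LinearMap.trace k V m = 0) (hm : ∀ σ ∈ D, ρ σ * m = m * ρ σ) : m = 0 := by
  obtain ⟨c, rfl⟩ := h.commutant_scalar m hm
  rw [map_smul, LinearMap.trace_one, h.finrank_eq, smul_eq_mul] at htr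
  have h2 : ((2 : ℕ) : k) ≠ 0 := by
    intro h0
    have hpp : p.Prime := Fact.out
    have := (CharP.cast_eq_zero_iff k p 2).mp h0
    exact hp ((Nat.prime_dvd_prime_iff_eq hpp Nat.prime_two).mp this)
  rcases mul_eq_zero.mp htr with h0 | h0
  · rw [h0, zero_smul]
  · exact (h2 h0).elim

/-- **Coordinates of `Ad ρ`.**  With `M i j := b.repr (m (b j)) i` the matrix coefficients of an
endomorphism `m` in the basis of the structure theorem: inertia `τ` fixes the diagonal
coefficients, multiplies `M 0 1` by `ψ τ` and `M 1 0` by `(ψ τ)⁻¹`, where `ψ = χ / χ'` is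
non-trivial on `I` and `ψ ^ (p + 1) = 1`, `ψ ^ p = ψ⁻¹`; Frobenius exchanges the diagonal
coefficients and maps `M 1 0` to `u * M 1 0` in position `(0, 1)`, `M 0 1` to `u⁻¹ * M 0 1` in
position `(1, 0)`. -/
theorem ad_coords [Finite k] :
    ∃ (b : Module.Basis (Fin 2) k V) (ψ : G → k) (u : k), u ≠ 0 ∧
      (∃ τ ∈ I, ψ τ ≠ 1) ∧
      (∀ τ ∈ I, ψ τ ≠ 0 ∧ ψ τ ^ (p + 1) = 1 ∧ ψ τ ^ p = (ψ τ)⁻¹) ∧
      (∀ τ ∈ I, ∀ m : Module.End k V,
        b.repr ((ρ τ * m * ρ τ⁻¹) (b 0)) 0 = b.repr (m (b 0)) 0 ∧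
        b.repr ((ρ τ * m * ρ τ⁻¹) (b 1)) 1 = b.repr (m (b 1)) 1 ∧
        b.repr ((ρ τ * m * ρ τ⁻¹) (b 1)) 0 = ψ τ * b.repr (m (b 1)) 0 ∧
        b.repr ((ρ τ * m * ρ τ⁻¹) (b 0)) 1 = (ψ τ)⁻¹ * b.repr (m (b 0)) 1) ∧
      (∀ m : Module.End k V,
        b.repr ((ρ φ * m * ρ φ⁻¹) (b 0)) 0 = b.repr (m (b 1)) 1 ∧
        b.repr ((ρ φ * m * ρ φ⁻¹) (b 1)) 1 = b.repr (m (b 0)) 0 ∧
        b.repr ((ρ φ * m * ρ φ⁻¹) (b 1)) 0 = u * b.repr (m (b 0)) 1 ∧
        b.repr ((ρ φ * m * ρ φ⁻¹) (b 0)) 1 = u⁻¹ * b.repr (m (b 1)) 0) := by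
  obtain ⟨b, χ, χ', a, a', h1, ⟨τ₀, hτ₀, hreg⟩, h3, hne, ha, ha', h4, h5⟩ := h.structure_thm'
  -- inverse images of the basis vectors
  have inv_diag : ∀ τ ∈ I, ρ τ⁻¹ (b 0) = (χ τ)⁻¹ • b 0 ∧ ρ τ⁻¹ (b 1) = (χ' τ)⁻¹ • b 1 := by
    intro τ hτ
    constructor
    · apply rho_injective (ρ := ρ) τ
      rw [← Module.End.mul_apply, rho_mul_inv, Module.End.one_apply, map_smul, (h1 τ hτ).1,
        smul_smul, inv_mul_cancel₀ (hne τ hτ).1, one_smul]
    · apply rho_injective (ρ := ρ) τ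
      rw [← Module.End.mul_apply, rho_mul_inv, Module.End.one_apply, map_smul, (h1 τ hτ).2,
        smul_smul, inv_mul_cancel₀ (hne τ hτ).2, one_smul]
  have inv_φ : ρ φ⁻¹ (b 0) = a'⁻¹ • b 1 ∧ ρ φ⁻¹ (b 1) = a⁻¹ • b 0 := by
    constructor
    · apply rho_injective (ρ := ρ) φ
      rw [← Module.End.mul_apply, rho_mul_inv, Module.End.one_apply, map_smul, h5,
        smul_smul, inv_mul_cancel₀ ha', one_smul]
    · apply rho_injective (ρ := ρ) φ
      rw [← Module.End.mul_apply, rho_mul_inv, Module.End.one_apply, map_smul, h4,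
        smul_smul, inv_mul_cancel₀ ha, one_smul]
  refine ⟨b, fun τ => χ τ * (χ' τ)⁻¹, a' * a⁻¹, mul_ne_zero ha' (inv_ne_zero ha),
    ⟨τ₀, hτ₀, ?_⟩, ?_, ?_, ?_⟩
  · intro h0
    apply hreg
    have := congrArg (· * χ' τ₀) h0
    simpa [mul_assoc, inv_mul_cancel₀ (hne τ₀ hτ₀).2] using this
  · intro τ hτ
    have hx := (hne τ hτ).1
    have hy := (hne τ hτ).2
    have e1 : χ' τ = χ τ ^ p := (h3 τ hτ).1
    have e2 : χ τ = χ' τ ^ p := (h3 τ hτ).2
    refine ⟨mul_ne_zero hx (inv_ne_zero hy), ?_, ?_⟩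
    · rw [mul_pow, inv_pow, pow_succ, pow_succ, ← e1, ← e2]
      field_simp
    · rw [mul_pow, inv_pow, ← e1, ← e2, mul_inv, inv_inv, mul_comm]
  · intro τ hτ m
    have d := repr_diag b (h1 τ hτ).1 (h1 τ hτ).2
    have hx := (hne τ hτ).1
    have hy := (hne τ hτ).2
    refine ⟨?_, ?_, ?_, ?_⟩
    · rw [Module.End.mul_apply, Module.End.mul_apply, (inv_diag τ hτ).1, map_smul, map_smul,
        map_smul, Finsupp.smul_apply, smul_eq_mul, (d _).1, ← mul_assoc, inv_mul_cancel₀ hx,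
        one_mul]
    · rw [Module.End.mul_apply, Module.End.mul_apply, (inv_diag τ hτ).2, map_smul, map_smul,
        map_smul, Finsupp.smul_apply, smul_eq_mul, (d _).2, ← mul_assoc, inv_mul_cancel₀ hy,
        one_mul]
    · rw [Module.End.mul_apply, Module.End.mul_apply, (inv_diag τ hτ).2, map_smul, map_smul,
        map_smul, Finsupp.smul_apply, smul_eq_mul, (d _).1, ← mul_assoc, mul_comm (χ' τ)⁻¹]
    · rw [Module.End.mul_apply, Module.End.mul_apply, (inv_diag τ hτ).1, map_smul, map_smul,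
        map_smul, Finsupp.smul_apply, smul_eq_mul, (d _).2, ← mul_assoc, mul_inv, inv_inv,
        mul_comm (χ τ)⁻¹]
  · intro m
    have d := repr_antidiag b h4 h5
    refine ⟨?_, ?_, ?_, ?_⟩
    · rw [Module.End.mul_apply, Module.End.mul_apply, inv_φ.1, map_smul, map_smul,
        map_smul, Finsupp.smul_apply, smul_eq_mul, (d _).1, ← mul_assoc, inv_mul_cancel₀ ha',
        one_mul]
    · rw [Module.End.mul_apply, Module.End.mul_apply, inv_φ.2, map_smul, map_smul,
        map_smul, Finsupp.smul_apply, smul_eq_mul, (d _).2, ← mul_assoc, inv_mul_cancel₀ ha,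
        one_mul]
    · rw [Module.End.mul_apply, Module.End.mul_apply, inv_φ.2, map_smul, map_smul,
        map_smul, Finsupp.smul_apply, smul_eq_mul, (d _).1, ← mul_assoc, mul_comm a⁻¹]
    · rw [Module.End.mul_apply, Module.End.mul_apply, inv_φ.1, map_smul, map_smul,
        map_smul, Finsupp.smul_apply, smul_eq_mul, (d _).2, ← mul_assoc, mul_inv, inv_inv,
        mul_comm a'⁻¹]

end Hyp

end Fermat.Agent.S56.H194.SS

end
-- ===== PACK-END S56/H194/SSAd.lean

-- ===== PACK-BEGIN S56/H334/RamFixed.lean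
section


/-!
# S56 / W-FLAT-SS, piece FL-RAM (helper334), part 6: the fixed ring `B^H` of a DVR

`A ⊆ B` discrete valuation rings, `B` finite over `A`, `H` a group acting on `B` by
`A`-algebra automorphisms.  Then `B^H = FixedPoints.subalgebra A B H` is a discrete valuation
ring, finite over `A`, and `B` is finite over `B^H`.

* `finite_fixedPoints`, `finite_over_fixedPoints`, `isNoetherianRing_fixedPoints`
* `isDiscreteValuationRing_fixedPoints`
* `fixedPoints_dvd_iff` : divisibility in `B^H` is divisibility in `B`.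
* `fixedPoints_isUnit_iff`, `fixedPoints_mem_maximalIdeal_iff`
-/

set_option autoImplicit false
set_option linter.unusedSectionVars false

open IsLocalRing

namespace Fermat.Agent.S56.H334

section FixedRing

variable (A B : Type*) [CommRing A] [CommRing B] [IsDomain B] [Algebra A B]
  (H : Type*) [Group H] [MulSemiringAction H B] [SMulCommClass H A B]

/-- Divisibility in `B^H` is divisibility in `B`. -/
theorem fixedPoints_dvd_iff (a b : FixedPoints.subalgebra A B H) :
    a ∣ b ↔ (a : B) ∣ (b : B) := by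
  constructor
  · rintro ⟨c, rfl⟩
    exact ⟨c, rfl⟩
  · rintro ⟨c, hc⟩
    by_cases ha : (a : B) = 0
    · refine ⟨0, ?_⟩
      apply Subtype.ext
      rw [hc, ha, zero_mul]
      simp
    · have hfix : ∀ h : H, h • c = c := by
        intro h
        have h1 : h • (b : B) = b := b.2 h
        rw [hc, smul_mul', a.2 h] at h1
        exact mul_left_cancel₀ ha h1
      exact ⟨⟨c, hfix⟩, Subtype.ext hc⟩

theorem fixedPoints_isUnit_iff (a : FixedPoints.subalgebra A B H) :
    IsUnit a ↔ IsUnit (a : B) := by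
  rw [isUnit_iff_dvd_one, isUnit_iff_dvd_one, fixedPoints_dvd_iff]
  rfl

/-- `B^H` is a valuation ring if `B` is. -/
theorem valuationRing_fixedPoints [ValuationRing B] :
    ValuationRing (FixedPoints.subalgebra A B H) := by
  haveI : PreValuationRing (FixedPoints.subalgebra A B H) := ⟨fun a b => ?_⟩
  · exact {}
  obtain ⟨c, hc | hc⟩ := ValuationRing.cond (a : B) (b : B)
  · obtain ⟨c', hc'⟩ := (fixedPoints_dvd_iff A B H a b).2 ⟨c, hc.symm⟩
    exact ⟨c', Or.inl hc'.symm⟩
  · obtain ⟨c', hc'⟩ := (fixedPoints_dvd_iff A B H b a).2 ⟨c, hc.symm⟩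
    exact ⟨c', Or.inr hc'.symm⟩

variable [IsDomain A] [IsDiscreteValuationRing A] [IsDiscreteValuationRing B]
  [Module.Finite A B] [FaithfulSMul A B]

theorem finite_fixedPoints : Module.Finite A (FixedPoints.subalgebra A B H) := by
  have : IsNoetherian A B := isNoetherian_of_isNoetherianRing_of_finite A B
  have : IsNoetherian A (FixedPoints.subalgebra A B H).toSubmodule := inferInstance
  exact Module.IsNoetherian.finite A (FixedPoints.subalgebra A B H).toSubmodule

theorem finite_over_fixedPoints : Module.Finite (FixedPoints.subalgebra A B H) B :=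
  Module.Finite.of_restrictScalars_finite A (FixedPoints.subalgebra A B H) B

theorem isNoetherianRing_fixedPoints : IsNoetherianRing (FixedPoints.subalgebra A B H) := by
  have := finite_fixedPoints A B H
  exact IsNoetherianRing.of_finite A (FixedPoints.subalgebra A B H)

/-- The fixed ring `B^H` is a discrete valuation ring. -/
theorem isDiscreteValuationRing_fixedPoints :
    IsDiscreteValuationRing (FixedPoints.subalgebra A B H) := by
  have := valuationRing_fixedPoints A B H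
  have := isNoetherianRing_fixedPoints A B H
  have hpid : IsPrincipalIdealRing (FixedPoints.subalgebra A B H) := inferInstance
  have hloc : IsLocalRing (FixedPoints.subalgebra A B H) := inferInstance
  refine { hpid, hloc with not_a_field' := ?_ }
  obtain ⟨π, hπ⟩ := IsDiscreteValuationRing.exists_irreducible A
  intro hbot
  have hmem : algebraMap A (FixedPoints.subalgebra A B H) π ∈
      maximalIdeal (FixedPoints.subalgebra A B H) := by
    rw [mem_maximalIdeal, mem_nonunits_iff, fixedPoints_isUnit_iff]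
    intro hu
    have hloc : IsLocalHom (algebraMap A B) := inferInstance
    exact hπ.not_isUnit (hloc.map_nonunit π hu)
  rw [hbot, Ideal.mem_bot] at hmem
  have h2 : algebraMap A B π = 0 := congrArg Subtype.val hmem
  rw [FaithfulSMul.algebraMap_eq_zero_iff] at h2
  exact hπ.ne_zero h2

end FixedRing

end Fermat.Agent.S56.H334

end
-- ===== PACK-END S56/H334/RamFixed.lean

-- ===== PACK-BEGIN S56/H726/Coc.lean
section


/-!
# S56 / P3(b) — twisted cocycles in `Ψ`-form (helper726)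

`G` a group, `ρ : G →* M₂(k)`, `ψ : G → sl₂(k)` a cocycle for the twisted adjoint action
`g · X = det ρ(g) · ρ(g) X ρ(g)⁻¹`.  We work with `Ψ g = ψ g * ρ g`, which satisfies
`Ψ (g h) = Ψ g * ρ h + det ρ(g) • ρ g * Ψ h`.  `H` is a normal subgroup on which `det ρ = 1`
and `ρ(H)` spans `M₂(k)`; `Ψ` vanishes on `H ∩ ker ρ`.
-/

set_option autoImplicit false

namespace Fermat.Agent.S56.H726

open Matrix

/-- The data of a twisted cocycle in `Ψ`-form. -/
structure TwData (k : Type*) [Field k] (G : Type*) [Group G] where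
  /-- the representation -/
  ρ : G →* Matrix (Fin 2) (Fin 2) k
  /-- the cocycle, multiplied on the right by `ρ` -/
  Ψ : G → Matrix (Fin 2) (Fin 2) k
  /-- the normal subgroup -/
  H : Subgroup G
  normal : H.Normal
  det_H : ∀ h ∈ H, (ρ h).det = 1
  Ψ_mul : ∀ g h, Ψ (g * h) = Ψ g * ρ h + (ρ g).det • (ρ g * Ψ h)
  tr_zero : ∀ g, (Ψ g * ρ g⁻¹).trace = 0
  Ψ_N : ∀ h ∈ H, ρ h = 1 → Ψ h = 0
  span : Submodule.span k (ρ '' (H : Set G)) = ⊤
  split : ∀ h ∈ H, ∃ α β : k, (ρ h).trace = α + β ∧ α * β = 1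

namespace TwData

variable {k : Type*} [Field k] {G : Type*} [Group G] (D : TwData k G)

theorem ρ_mul_inv (g : G) : D.ρ g * D.ρ g⁻¹ = 1 := by
  rw [← map_mul, mul_inv_cancel, map_one]

theorem ρ_inv_mul (g : G) : D.ρ g⁻¹ * D.ρ g = 1 := by
  rw [← map_mul, inv_mul_cancel, map_one]

theorem det_ne_zero (g : G) : (D.ρ g).det ≠ 0 := by
  intro h
  have := congrArg Matrix.det (D.ρ_mul_inv g)
  rw [Matrix.det_mul, h, zero_mul, Matrix.det_one] at this
  exact zero_ne_one this

theorem Ψ_one : D.Ψ 1 = 0 := by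
  have := D.Ψ_mul 1 1
  simp only [mul_one, map_one, Matrix.det_one, one_smul, one_mul] at this
  exact left_eq_add.mp this |>.symm ▸ rfl

/-- `Ψ (h⁻¹) = - ρ(h)⁻¹ Ψ(h) ρ(h)⁻¹` on `H`. -/
theorem Ψ_inv {h : G} (hh : h ∈ D.H) : D.Ψ h⁻¹ = -(D.ρ h⁻¹ * D.Ψ h * D.ρ h⁻¹) := by
  have e := D.Ψ_mul h h⁻¹
  rw [mul_inv_cancel, D.Ψ_one, D.det_H h hh, one_smul] at e
  have e2 : D.ρ h * D.Ψ h⁻¹ = -(D.Ψ h * D.ρ h⁻¹) := by
    rw [eq_neg_iff_add_eq_zero, add_comm]; exact e.symm
  calc D.Ψ h⁻¹ = (D.ρ h⁻¹ * D.ρ h) * D.Ψ h⁻¹ := by rw [D.ρ_inv_mul, one_mul]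
    _ = D.ρ h⁻¹ * (D.ρ h * D.Ψ h⁻¹) := by rw [mul_assoc]
    _ = _ := by rw [e2, mul_neg, mul_assoc]

/-- General form: `det ρ(g) • Ψ (g⁻¹) = - ρ(g)⁻¹ Ψ(g) ρ(g)⁻¹`. -/
theorem Ψ_inv' (g : G) : (D.ρ g).det • D.Ψ g⁻¹ = -(D.ρ g⁻¹ * D.Ψ g * D.ρ g⁻¹) := by
  have e := D.Ψ_mul g g⁻¹
  rw [mul_inv_cancel, D.Ψ_one] at e
  have e2 : (D.ρ g).det • (D.ρ g * D.Ψ g⁻¹) = -(D.Ψ g * D.ρ g⁻¹) := by
    rw [eq_neg_iff_add_eq_zero, add_comm]; exact e.symm
  calc (D.ρ g).det • D.Ψ g⁻¹ = (D.ρ g).det • ((D.ρ g⁻¹ * D.ρ g) * D.Ψ g⁻¹) := by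
        rw [D.ρ_inv_mul, one_mul]
    _ = D.ρ g⁻¹ * ((D.ρ g).det • (D.ρ g * D.Ψ g⁻¹)) := by
        rw [mul_assoc, Matrix.mul_smul]
    _ = _ := by rw [e2, mul_neg, mul_assoc]

/-- (I) the trace identity. -/
theorem f_add {σ τ : G} (hσ : σ ∈ D.H) (hτ : τ ∈ D.H) :
    (D.Ψ (σ * τ)).trace + (D.Ψ (σ * τ⁻¹)).trace =
      (D.ρ σ).trace * (D.Ψ τ).trace + (D.ρ τ).trace * (D.Ψ σ).trace := by
  have h1 := D.Ψ_mul σ τ
  have h2 := D.Ψ_mul σ τ⁻¹
  rw [D.det_H σ hσ, one_smul] at h1 h2
  rw [D.Ψ_inv hτ] at h2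
  have hadd := m2_add_inv (D.det_H τ hτ) (D.ρ_mul_inv τ)
  have hsub := m2_sub_conj (D.det_H τ hτ) (D.ρ_mul_inv τ) (D.tr_zero τ)
  have e : D.Ψ (σ * τ) + D.Ψ (σ * τ⁻¹) =
      (D.ρ τ).trace • D.Ψ σ + (D.Ψ τ).trace • D.ρ σ := by
    rw [h1, h2]
    calc _ = D.Ψ σ * (D.ρ τ + D.ρ τ⁻¹) +
          D.ρ σ * (D.Ψ τ - D.ρ τ⁻¹ * D.Ψ τ * D.ρ τ⁻¹) := by noncomm_ring
      _ = _ := by rw [hadd, hsub]; simp
  have := congrArg Matrix.trace e
  simp only [Matrix.trace_add, Matrix.trace_smul, smul_eq_mul] at this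
  rw [this]; ring

/-- (II) conjugation by `G`. -/
theorem f_conj (g : G) {σ : G} (hσ : σ ∈ D.H) :
    (D.Ψ (g * σ * g⁻¹)).trace = (D.ρ g).det * (D.Ψ σ).trace := by
  have h1 := D.Ψ_mul (g * σ) g⁻¹
  have h2 := D.Ψ_mul g σ
  have h3 := D.Ψ_inv' g
  have hdet : (D.ρ (g * σ)).det = (D.ρ g).det := by
    rw [map_mul, Matrix.det_mul, D.det_H σ hσ, mul_one]
  rw [hdet, map_mul, mul_assoc (D.ρ g) (D.ρ σ), ← Matrix.mul_smul, ← Matrix.mul_smul, h3, h2]
    at h1
  rw [h1]
  simp only [Matrix.trace_add, Matrix.add_mul, Matrix.mul_neg, Matrix.trace_neg,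
    Matrix.smul_mul, Matrix.trace_smul, smul_eq_mul]
  have t1 : (D.ρ g * D.Ψ σ * D.ρ g⁻¹).trace = (D.Ψ σ).trace := by
    rw [Matrix.trace_mul_comm, ← mul_assoc, D.ρ_inv_mul, one_mul]
  have t2 : (D.ρ g * (D.ρ σ * (D.ρ g⁻¹ * D.Ψ g * D.ρ g⁻¹))).trace =
      (D.Ψ g * D.ρ σ * D.ρ g⁻¹).trace := by
    rw [Matrix.trace_mul_comm]
    have : D.ρ σ * (D.ρ g⁻¹ * D.Ψ g * D.ρ g⁻¹) * D.ρ g = (D.ρ σ * D.ρ g⁻¹) * D.Ψ g := by
      rw [mul_assoc, mul_assoc, mul_assoc, D.ρ_inv_mul, mul_one, mul_assoc]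
    rw [this, Matrix.trace_mul_comm, mul_assoc]
  rw [t1, t2]; ring

/-- `Ψ` is right invariant under `H ∩ ker ρ`. -/
theorem Ψ_mul_N (σ : G) {ν : G} (hν : ν ∈ D.H) (h1 : D.ρ ν = 1) : D.Ψ (σ * ν) = D.Ψ σ := by
  rw [D.Ψ_mul, h1, D.Ψ_N ν hν h1, mul_one, mul_zero, smul_zero, add_zero]

theorem det_pow {σ : G} (hσ : σ ∈ D.H) (m : ℕ) : (D.ρ (σ ^ m)).det = 1 :=
  D.det_H _ (D.H.pow_mem hσ m)

/-- (III), trace form. -/
theorem trace_pow {σ : G} (hσ : σ ∈ D.H) (m : ℕ) :
    (D.Ψ (σ ^ m) * D.ρ σ⁻¹ ^ m * D.ρ σ).trace = (m : k) * (D.Ψ σ).trace := by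
  induction m with
  | zero => simp [D.Ψ_one]
  | succ m ih =>
    have hc : Commute (D.ρ σ) (D.ρ σ⁻¹) := by
      rw [Commute, SemiconjBy, D.ρ_mul_inv, D.ρ_inv_mul]
    have e := D.Ψ_mul (σ ^ m) σ
    rw [D.det_pow hσ, one_smul, ← pow_succ, map_pow] at e
    rw [e, add_mul, add_mul, Matrix.trace_add]
    have a1 : D.Ψ (σ ^ m) * D.ρ σ * D.ρ σ⁻¹ ^ (m + 1) * D.ρ σ =
        D.Ψ (σ ^ m) * D.ρ σ⁻¹ ^ m * D.ρ σ := by
      rw [pow_succ', mul_assoc (D.Ψ (σ ^ m)), ← mul_assoc (D.ρ σ) (D.ρ σ⁻¹), D.ρ_mul_inv,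
        one_mul]
    have a2 : (D.ρ σ ^ m * D.Ψ σ * D.ρ σ⁻¹ ^ (m + 1) * D.ρ σ).trace = (D.Ψ σ).trace := by
      rw [pow_succ, mul_assoc _ (D.ρ σ⁻¹ ^ m * D.ρ σ⁻¹), mul_assoc (D.ρ σ⁻¹ ^ m),
        D.ρ_inv_mul, mul_one, mul_assoc, Matrix.trace_mul_comm, mul_assoc,
        ← hc.symm.mul_pow m, D.ρ_inv_mul, one_pow, mul_one]
    rw [a1, a2, ih]; push_cast; ring

/-- (III): if `ρ(σ)^m = 1` then `m • f(σ) = 0`. -/
theorem natCast_mul_f_eq_zero {σ : G} (hσ : σ ∈ D.H) (m : ℕ) (hm : D.ρ σ ^ m = 1) :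
    (m : k) * (D.Ψ σ).trace = 0 := by
  rw [← D.trace_pow hσ m, D.Ψ_N (σ ^ m) (D.H.pow_mem hσ m) (by rw [map_pow, hm])]
  simp

end TwData

end Fermat.Agent.S56.H726

end
-- ===== PACK-END S56/H726/Coc.lean

-- ===== PACK-BEGIN S56/H726/Mat2b.lean
section


/-!
# S56 / P3(b) — more `2 × 2` matrix lemmas (helper726)

* `m2_pow_card_sub_one` : a matrix of determinant one with distinct eigenvalues in the finite
  field `k` has order dividing `|k| - 1`.
* `m2_nil_prop` : two square-zero matrices which are orthogonal for the trace form are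
  proportional.
* `m2_unip_pow` : `(1 + n)^j = 1 + j • n` for `n² = 0`.
* `m2_scalar_of_commute`, `m2_inner_of_derivation`.
-/

set_option autoImplicit false

namespace Fermat.Agent.S56.H726

open Matrix

variable {k : Type*} [Field k]

theorem m2_eigen_pow {B : Matrix (Fin 2) (Fin 2) k} {α β : k}
    (hdet : B.det = 1) (htr : B.trace = α + β) (hαβ : α * β = 1) (m : ℕ) :
    B ^ m * (B - β • (1 : Matrix (Fin 2) (Fin 2) k)) =
      α ^ m • (B - β • (1 : Matrix (Fin 2) (Fin 2) k)) := by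
  have hB := m2_sq B
  rw [hdet, htr] at hB
  have h1 : B * (B - β • (1 : Matrix (Fin 2) (Fin 2) k)) =
      α • (B - β • (1 : Matrix (Fin 2) (Fin 2) k)) := by
    rw [mul_sub, hB, smul_sub, smul_smul, hαβ]
    simp only [Matrix.mul_smul, mul_one]
    module
  induction m with
  | zero => simp
  | succ m ih =>
    rw [pow_succ, mul_assoc, h1, Matrix.mul_smul, ih, smul_smul, pow_succ, mul_comm]

/-- A matrix of determinant one with distinct eigenvalues in the finite field `k` has order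
dividing `|k| - 1`. -/
theorem m2_pow_card_sub_one [Fintype k] {B : Matrix (Fin 2) (Fin 2) k} {α β : k}
    (hdet : B.det = 1) (htr : B.trace = α + β) (hαβ : α * β = 1) (hne : α ≠ β) :
    B ^ (Fintype.card k - 1) = 1 := by
  have hα : α ≠ 0 := left_ne_zero_of_mul_eq_one hαβ
  have hβ : β ≠ 0 := right_ne_zero_of_mul_eq_one hαβ
  have e1 := m2_eigen_pow hdet htr hαβ (Fintype.card k - 1)
  have e2 := m2_eigen_pow (α := β) (β := α) hdet (by rw [htr, add_comm])
    (by rw [mul_comm]; exact hαβ) (Fintype.card k - 1)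
  rw [FiniteField.pow_card_sub_one_eq_one α hα, one_smul] at e1
  rw [FiniteField.pow_card_sub_one_eq_one β hβ, one_smul] at e2
  have e3 : (α - β) • B ^ (Fintype.card k - 1) =
      (α - β) • (1 : Matrix (Fin 2) (Fin 2) k) := by
    have : (α - β) • B ^ (Fintype.card k - 1) =
        B ^ (Fintype.card k - 1) * (B - β • (1 : Matrix (Fin 2) (Fin 2) k)) -
          B ^ (Fintype.card k - 1) * (B - α • (1 : Matrix (Fin 2) (Fin 2) k)) := by
      rw [← mul_sub]
      have : (B - β • (1 : Matrix (Fin 2) (Fin 2) k)) - (B - α • 1) =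
          (α - β) • (1 : Matrix (Fin 2) (Fin 2) k) := by module
      rw [this, Matrix.mul_smul, mul_one]
    rw [this, e1, e2]; module
  exact smul_right_injective _ (sub_ne_zero.mpr hne) e3

/-- `(1 + n)^j = 1 + j • n` for `n² = 0`. -/
theorem m2_unip_pow {n : Matrix (Fin 2) (Fin 2) k} (hn : n * n = 0) (j : ℕ) :
    (1 + n) ^ j = 1 + (j : k) • n := by
  induction j with
  | zero => simp
  | succ j ih =>
    rw [pow_succ, ih, add_mul, one_mul, mul_add, mul_one, Matrix.smul_mul, hn, smul_zero,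
      add_zero]
    push_cast
    module

/-- Two square-zero `2 × 2` matrices which are orthogonal for the trace form are
proportional. -/
theorem m2_nil_prop {n n' : Matrix (Fin 2) (Fin 2) k} (hn : n * n = 0) (hn' : n' * n' = 0)
    (h : (n' * n).trace = 0) (h0 : n ≠ 0) : ∃ y : k, n' = y • n := by
  have ht := m2_trace_of_sq_zero hn
  have ht' := m2_trace_of_sq_zero hn'
  rw [Matrix.trace_fin_two] at ht ht'
  have hd : n 1 1 = -n 0 0 := by linear_combination ht
  have hd' : n' 1 1 = -n' 0 0 := by linear_combination ht'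
  have h1 : n 0 0 ^ 2 + n 0 1 * n 1 0 = 0 := by
    have := congrFun (congrFun hn 0) 0
    simp only [Matrix.mul_apply, Fin.sum_univ_two, Matrix.zero_apply] at this
    linear_combination this
  have h1' : n' 0 0 ^ 2 + n' 0 1 * n' 1 0 = 0 := by
    have := congrFun (congrFun hn' 0) 0
    simp only [Matrix.mul_apply, Fin.sum_univ_two, Matrix.zero_apply] at this
    linear_combination this
  have h2 : 2 * n 0 0 * n' 0 0 + n' 0 1 * n 1 0 + n' 1 0 * n 0 1 = 0 := by
    rw [Matrix.trace_fin_two] at h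
    simp only [Matrix.mul_apply, Fin.sum_univ_two] at h
    rw [hd, hd'] at h
    linear_combination h
  by_cases hb : n 0 1 = 0
  · -- `b = 0`
    have ha : n 0 0 = 0 := by
      rw [hb, zero_mul, add_zero] at h1
      exact pow_eq_zero_iff (by norm_num) |>.mp h1
    have hdz : n 1 1 = 0 := by rw [hd, ha, neg_zero]
    have hc : n 1 0 ≠ 0 := by
      intro hc
      apply h0
      ext i j
      fin_cases i <;> fin_cases j <;> simp [ha, hb, hc, hdz]
    have hb' : n' 0 1 = 0 := by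
      rw [ha, hb] at h2
      simp only [mul_zero, zero_mul, zero_add, add_zero] at h2
      rcases mul_eq_zero.mp h2 with h' | h'
      · exact h'
      · exact absurd h' hc
    have ha' : n' 0 0 = 0 := by
      rw [hb', zero_mul, add_zero] at h1'
      exact pow_eq_zero_iff (by norm_num) |>.mp h1'
    refine ⟨n' 1 0 / n 1 0, ?_⟩
    ext i j
    fin_cases i <;> fin_cases j
    · simp [ha, ha']
    · simp [hb, hb']
    · simp only [Fin.mk_one, Fin.isValue, Fin.zero_eta, Matrix.smul_apply, smul_eq_mul]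
      field_simp
    · simp [hd, hd', ha, ha']
  · -- `b ≠ 0`
    have e1 : (n' 0 0 * n 0 1 - n 0 0 * n' 0 1) ^ 2 = 0 := by
      linear_combination (n 0 1) ^ 2 * h1' - n 0 1 * n' 0 1 * h2 + (n' 0 1) ^ 2 * h1
    have e1' : n' 0 0 * n 0 1 - n 0 0 * n' 0 1 = 0 := pow_eq_zero_iff (by norm_num) |>.mp e1
    have e2 : n 0 1 * (n' 1 0 * n 0 1 - n' 0 1 * n 1 0) = 0 := by
      linear_combination n 0 1 * h2 - 2 * n 0 0 * e1' - 2 * n' 0 1 * h1
    have e2' : n' 1 0 * n 0 1 - n' 0 1 * n 1 0 = 0 := by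
      rcases mul_eq_zero.mp e2 with h' | h'
      · exact absurd h' hb
      · exact h'
    refine ⟨n' 0 1 / n 0 1, ?_⟩
    ext i j
    fin_cases i <;> fin_cases j
    · simp only [Fin.zero_eta, Fin.isValue, Matrix.smul_apply, smul_eq_mul]
      field_simp
      linear_combination e1'
    · simp only [Fin.zero_eta, Fin.isValue, Fin.mk_one, Matrix.smul_apply, smul_eq_mul]
      field_simp
    · simp only [Fin.zero_eta, Fin.isValue, Fin.mk_one, Matrix.smul_apply, smul_eq_mul]
      field_simp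
      linear_combination e2'
    · simp only [Fin.isValue, Fin.mk_one, Matrix.smul_apply, smul_eq_mul]
      rw [hd, hd']
      field_simp
      linear_combination -e1'

/-- A `2 × 2` matrix commuting with all matrices is scalar. -/
theorem m2_scalar_of_commute {Y : Matrix (Fin 2) (Fin 2) k}
    (h : ∀ X : Matrix (Fin 2) (Fin 2) k, Y * X = X * Y) :
    Y = (Y 0 0) • (1 : Matrix (Fin 2) (Fin 2) k) := by
  have h01 := h (Matrix.single 0 1 1)
  have h10 := h (Matrix.single 1 0 1)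
  have a1 := congrFun (congrFun h01 0) 1
  have a2 := congrFun (congrFun h01 0) 0
  have a3 := congrFun (congrFun h10 1) 1
  simp [Matrix.mul_apply, Matrix.single_apply] at a1 a2 a3
  ext i j
  fin_cases i <;> fin_cases j
  · simp
  · simp [← a3]
  · simp [← a2]
  · simp [a1]

/-- A trace-zero `2 × 2` matrix commuting with all matrices vanishes (`2 ≠ 0`). -/
theorem m2_eq_zero_of_commute (h2 : (2 : k) ≠ 0) {Y : Matrix (Fin 2) (Fin 2) k}
    (h : ∀ X : Matrix (Fin 2) (Fin 2) k, Y * X = X * Y) (ht : Y.trace = 0) : Y = 0 := by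
  have hs := m2_scalar_of_commute h
  have : Y 0 0 = 0 := by
    have e := congrArg Matrix.trace hs
    rw [ht, Matrix.trace_smul, Matrix.trace_one, Fintype.card_fin, smul_eq_mul] at e
    rcases mul_eq_zero.mp e.symm with h' | h'
    · exact h'
    · exact absurd (by exact_mod_cast h') h2
  rw [hs, this, zero_smul]

/-- Every derivation of `M₂(k)` is inner. -/
theorem m2_inner_of_derivation
    (Dv : Matrix (Fin 2) (Fin 2) k →ₗ[k] Matrix (Fin 2) (Fin 2) k)
    (hD : ∀ X Y, Dv (X * Y) = Dv X * Y + X * Dv Y) :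
    ∃ m : Matrix (Fin 2) (Fin 2) k, ∀ X, Dv X = m * X - X * m := by
  refine ⟨Dv (Matrix.single 0 0 1) * Matrix.single 0 0 1 +
    Dv (Matrix.single 1 0 1) * Matrix.single 0 1 1, fun X => ?_⟩
  have hone : (Matrix.single 0 0 1 : Matrix (Fin 2) (Fin 2) k) * Matrix.single 0 0 1 +
      Matrix.single 1 0 1 * Matrix.single 0 1 1 = 1 := by
    ext i j
    fin_cases i <;> fin_cases j <;> simp
  have hX0 : X * Matrix.single 0 0 1 =
      X 0 0 • (Matrix.single 0 0 1 : Matrix (Fin 2) (Fin 2) k) + X 1 0 • Matrix.single 1 0 1 := by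
    ext i j
    fin_cases i <;> fin_cases j <;> simp [Matrix.mul_apply, Matrix.single_apply]
  have hX1 : X * Matrix.single 1 0 1 =
      X 0 1 • (Matrix.single 0 0 1 : Matrix (Fin 2) (Fin 2) k) + X 1 1 • Matrix.single 1 0 1 := by
    ext i j
    fin_cases i <;> fin_cases j <;> simp [Matrix.mul_apply, Matrix.single_apply]
  have hY0 : (Matrix.single 0 0 1 : Matrix (Fin 2) (Fin 2) k) * X =
      X 0 0 • (Matrix.single 0 0 1 : Matrix (Fin 2) (Fin 2) k) + X 0 1 • Matrix.single 0 1 1 := by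
    ext i j
    fin_cases i <;> fin_cases j <;> simp [Matrix.mul_apply, Matrix.single_apply]
  have hY1 : (Matrix.single 0 1 1 : Matrix (Fin 2) (Fin 2) k) * X =
      X 1 0 • (Matrix.single 0 0 1 : Matrix (Fin 2) (Fin 2) k) + X 1 1 • Matrix.single 0 1 1 := by
    ext i j
    fin_cases i <;> fin_cases j <;> simp [Matrix.mul_apply, Matrix.single_apply]
  have d0 := hD X (Matrix.single 0 0 1)
  have d1 := hD X (Matrix.single 1 0 1)
  rw [hX0, map_add, map_smul, map_smul] at d0
  rw [hX1, map_add, map_smul, map_smul] at d1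
  -- `Dv X = Dv X * 1`
  have key : Dv X = Dv X * (Matrix.single 0 0 1 * Matrix.single 0 0 1 +
      Matrix.single 1 0 1 * Matrix.single 0 1 1) := by rw [hone, mul_one]
  have k0 : Dv X * Matrix.single 0 0 1 =
      X 0 0 • Dv (Matrix.single 0 0 1) + X 1 0 • Dv (Matrix.single 1 0 1) -
        X * Dv (Matrix.single 0 0 1) := by rw [d0]; abel
  have k1 : Dv X * Matrix.single 1 0 1 =
      X 0 1 • Dv (Matrix.single 0 0 1) + X 1 1 • Dv (Matrix.single 1 0 1) -
        X * Dv (Matrix.single 1 0 1) := by rw [d1]; abel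
  rw [key, mul_add, ← mul_assoc, ← mul_assoc, k0, k1, add_mul, mul_assoc _ _ X,
    mul_assoc _ _ X, hY0, hY1, mul_add X, ← mul_assoc X, ← mul_assoc X]
  simp only [sub_mul, add_mul, mul_add, Matrix.smul_mul, Matrix.mul_smul]
  abel

end Fermat.Agent.S56.H726

end
-- ===== PACK-END S56/H726/Mat2b.lean

-- ===== PACK-BEGIN S56/H554/TameWild.lean
section



/-!
# S56 / local engine at `q ≠ p` (helper554): wild elements of inertia act through order prime to `p`

`L/K` algebraic, `A` a valuation subring of `L`, `τ` in the inertia group of `A`.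
`τ` is *wild on* a set `E ⊆ L` if `v (τ c - c) < v c` for all nonzero `c ∈ E`
(equivalently the tame character `tameHom A hτ` of `A2/H708/Tame.lean` is trivial on `E`).

* `IsWildOn.pow` : powers of wild elements of the decomposition group are wild.
* `fixes_of_pow_fixes` : if `τ` is wild on a `τ`-stable intermediate field `E`, `τ ^ n` fixes `E`
  pointwise and `n` is a unit of `A`, then `τ` fixes `E` pointwise.  (Norm argument:
  `∏_{j<n} τ^j (τ x / x) = 1`; no ramification theory, no discreteness.)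
* `map_eq_one_of_wild` : a group hom `f` on `Gal(L/K)`, trivial on the fixing subgroup of a
  finite-dimensional `τ`-stable `E`, kills a wild `τ` as soon as `f τ ^ p ^ k = 1` with `p` prime
  and a unit of `A`.
-/

set_option autoImplicit false

namespace Fermat.Agent.S56.H554

open Fermat.Agent.A2.H708

variable {K L : Type*} [Field K] [Field L] [Algebra K L] (A : ValuationSubring L)

/-- `τ` is wild on `E`: it moves every nonzero `c ∈ E` by something of smaller valuation. -/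
def IsWildOn (τ : L ≃ₐ[K] L) (E : Set L) : Prop :=
  ∀ c ∈ E, c ≠ 0 → A.valuation (τ c - c) < A.valuation c

variable {A}

theorem pow_succ_apply' (τ : L ≃ₐ[K] L) (j : ℕ) (x : L) : (τ ^ (j + 1)) x = τ ((τ ^ j) x) := by
  rw [pow_succ']
  rfl

theorem pow_succ_apply (τ : L ≃ₐ[K] L) (j : ℕ) (x : L) : (τ ^ (j + 1)) x = (τ ^ j) (τ x) := by
  rw [pow_succ]
  rfl

theorem IsWildOn.pow [Algebra.IsAlgebraic K L] {τ : L ≃ₐ[K] L}
    (hτ : τ ∈ A.decompositionSubgroup K) {E : Set L} (h : IsWildOn A τ E) (j : ℕ) :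
    IsWildOn A (τ ^ j) E := by
  intro c hc hc0
  have hpos : 0 < A.valuation c := pos_iff_ne_zero.mpr ((Valuation.ne_zero_iff _).mpr hc0)
  induction j with
  | zero =>
    have : (τ ^ 0) c - c = 0 := by
      rw [pow_zero]
      show c - c = 0
      exact sub_self c
    rw [this, map_zero]
    exact hpos
  | succ j ih =>
    have h1 : (τ ^ (j + 1)) c - c = τ ((τ ^ j) c - c) + (τ c - c) := by
      rw [pow_succ_apply', map_sub]
      ring
    rw [h1]
    refine lt_of_le_of_lt (A.valuation.map_add _ _) (max_lt ?_ (h c hc hc0))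
    rw [valuation_apply_of_mem_decomposition A hτ]
    exact ih

/-- Expansion of `∏ (1 + a * b i)` to first order in `a`, with remainder in `A`. -/
theorem exists_prod_one_add_mul {ι : Type*} (s : Finset ι) (a : L) (ha : a ∈ A) (b : ι → L)
    (hb : ∀ i ∈ s, b i ∈ A) :
    ∃ t ∈ A, ∏ i ∈ s, (1 + a * b i) = 1 + a * ∑ i ∈ s, b i + a ^ 2 * t := by
  classical
  induction s using Finset.induction_on with
  | empty => exact ⟨0, A.zero_mem, by simp⟩
  | insert i s hi ih =>
    obtain ⟨t, ht, hprod⟩ := ih (fun j hj => hb j (Finset.mem_insert_of_mem hj))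
    have hbi : b i ∈ A := hb i (Finset.mem_insert_self i s)
    have hsum : ∑ j ∈ s, b j ∈ A :=
      A.toSubring.sum_mem (fun j hj => hb j (Finset.mem_insert_of_mem hj))
    refine ⟨t + b i * ∑ j ∈ s, b j + a * b i * t, ?_, ?_⟩
    · exact A.add_mem _ _ (A.add_mem _ _ ht (A.mul_mem _ _ hbi hsum))
        (A.mul_mem _ _ (A.mul_mem _ _ ha hbi) ht)
    · rw [Finset.prod_insert hi, Finset.sum_insert hi, hprod]
      ring

/-- Telescoping: `∏_{j<n} τ^j (τ x / x) = τ^n x / x`. -/
theorem prod_pow_apply_ratio (τ : L ≃ₐ[K] L) {x : L} (hx : x ≠ 0) (n : ℕ) :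
    ∏ j ∈ Finset.range n, (τ ^ j) (τ x / x) = (τ ^ n) x / x := by
  induction n with
  | zero =>
    rw [Finset.range_zero, Finset.prod_empty, pow_zero]
    show 1 = x / x
    rw [div_self hx]
  | succ n ih =>
    rw [Finset.prod_range_succ, ih, map_div₀, ← pow_succ_apply]
    have h0 : (τ ^ n) x ≠ 0 := fun h =>
      hx ((map_eq_zero_iff (τ ^ n) (τ ^ n).injective).mp h)
    field_simp

/-- **Wild lemma.** If `τ` (in the inertia group) is wild on the `τ`-stable intermediate field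
`E`, `τ ^ n` fixes `E` pointwise and `n` is a unit of `A`, then `τ` fixes `E` pointwise. -/
theorem fixes_of_pow_fixes [Algebra.IsAlgebraic K L] {τ : L ≃ₐ[K] L}
    (hτ : τ ∈ A.inertiaSubgroupIn K) (E : IntermediateField K L)
    (hstab : ∀ x ∈ E, τ x ∈ E) (hwild : IsWildOn A τ (E : Set L))
    (n : ℕ) (hn : A.valuation (n : L) = 1) (hfix : ∀ x ∈ E, (τ ^ n) x = x) :
    ∀ x ∈ E, τ x = x := by
  have hD : τ ∈ A.decompositionSubgroup K := mem_decomposition_of_mem_inertiaIn A hτ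
  intro x hxE
  by_contra hne
  have hx0 : x ≠ 0 := by
    rintro rfl
    exact hne (map_zero τ)
  -- the element `a = τ x / x - 1`
  set a : L := τ x / x - 1 with ha
  have haE : a ∈ E := E.sub_mem (E.div_mem (hstab x hxE) hxE) E.one_mem
  have ha0 : a ≠ 0 := by
    intro h0
    apply hne
    have h1 : τ x / x = 1 := by
      rw [ha] at h0
      exact sub_eq_zero.mp h0
    rwa [div_eq_one_iff_eq hx0] at h1
  have hax : a = (τ x - x) / x := by
    rw [ha]
    field_simp
  have hva : A.valuation a < 1 := by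
    rw [hax, map_div₀,
      div_lt_one₀ (pos_iff_ne_zero.mpr ((Valuation.ne_zero_iff _).mpr hx0))]
    exact hwild x hxE hx0
  have haA : a ∈ A := (A.valuation_le_one_iff a).mp hva.le
  -- the conjugates of `a`
  set m : ℕ → L := fun j => ((τ ^ j) a - a) / a with hm
  have hmv : ∀ j, A.valuation (m j) < 1 := by
    intro j
    rw [hm]
    show A.valuation (((τ ^ j) a - a) / a) < 1
    rw [map_div₀, div_lt_one₀ (pos_iff_ne_zero.mpr ((Valuation.ne_zero_iff _).mpr ha0))]
    exact (hwild.pow hD j) a haE ha0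
  have hconj : ∀ j, (τ ^ j) (τ x / x) = 1 + a * (1 + m j) := by
    intro j
    have h1 : τ x / x = 1 + a := by rw [ha]; ring
    rw [h1, map_add, map_one, hm]
    show 1 + (τ ^ j) a = 1 + a * (1 + ((τ ^ j) a - a) / a)
    field_simp
    ring
  have hprod : ∏ j ∈ Finset.range n, (1 + a * (1 + m j)) = 1 := by
    have h1 := prod_pow_apply_ratio τ hx0 n
    rw [hfix x hxE, div_self hx0] at h1
    exact (Finset.prod_congr rfl fun j _ => (hconj j).symm).trans h1
  obtain ⟨t, ht, hexp⟩ := exists_prod_one_add_mul (A := A) (Finset.range n) a haA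
    (fun j => 1 + m j)
    (fun j _ => A.add_mem _ _ A.one_mem ((A.valuation_le_one_iff _).mp (hmv j).le))
  rw [hprod] at hexp
  -- `n + ∑ m j + a t = 0`
  have hsum : ∑ j ∈ Finset.range n, (1 + m j) = (n : L) + ∑ j ∈ Finset.range n, m j := by
    rw [Finset.sum_add_distrib, Finset.sum_const, Finset.card_range, nsmul_eq_mul, mul_one]
  have hzero : (n : L) + (∑ j ∈ Finset.range n, m j + a * t) = 0 := by
    have h2 : a * ((n : L) + (∑ j ∈ Finset.range n, m j + a * t)) = 0 := by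
      have h3 : (1 : L) = 1 + a * ((n : L) + ∑ j ∈ Finset.range n, m j) + a ^ 2 * t := by
        rw [← hsum]
        exact hexp
      linear_combination -h3
    exact (mul_eq_zero.mp h2).resolve_left ha0
  have hlt : A.valuation (∑ j ∈ Finset.range n, m j + a * t) < 1 := by
    refine lt_of_le_of_lt (A.valuation.map_add _ _) (max_lt ?_ ?_)
    · exact A.valuation.map_sum_lt (zero_ne_one' _).symm fun j _ => hmv j
    · rw [map_mul]
      exact mul_lt_one_of_nonneg_of_lt_one_left zero_le hva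
        ((A.valuation_le_one_iff t).mpr ht)
  have hn' : (n : L) = -(∑ j ∈ Finset.range n, m j + a * t) := eq_neg_of_add_eq_zero_left hzero
  rw [hn', Valuation.map_neg] at hn
  exact absurd hn hlt.ne

/-- Some positive power of `τ` fixes a finite-dimensional intermediate field pointwise. -/
theorem exists_pow_fixes (τ : L ≃ₐ[K] L) (E : IntermediateField K L) [FiniteDimensional K E] :
    ∃ N : ℕ, 0 < N ∧ ∀ x ∈ E, (τ ^ N) x = x := by
  have : Finite (E →ₐ[K] L) := Finite.of_fintype _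
  let g : ℕ → (E →ₐ[K] L) := fun n => ((τ ^ n : L ≃ₐ[K] L) : L →ₐ[K] L).comp E.val
  obtain ⟨a, b, hab, h⟩ := Finite.exists_ne_map_eq_of_infinite g
  wlog hlt : a < b generalizing a b
  · exact this b a hab.symm h.symm (lt_of_le_of_ne (not_lt.mp hlt) hab.symm)
  refine ⟨b - a, Nat.sub_pos_of_lt hlt, fun x hx => ?_⟩
  have h1 : (τ ^ a) x = (τ ^ b) x := congrArg (fun φ : E →ₐ[K] L => φ ⟨x, hx⟩) h
  have hb : b = a + (b - a) := by omega
  have h2 : (τ ^ b) x = (τ ^ a) ((τ ^ (b - a)) x) := by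
    conv_lhs => rw [hb, pow_add]
    rfl
  rw [h2] at h1
  exact ((τ ^ a).injective h1).symm

theorem pow_mul_apply (τ : L ≃ₐ[K] L) (a b : ℕ) (x : L) :
    ((τ ^ a) ^ b) x = (τ ^ (a * b)) x := by
  rw [pow_mul]

theorem pow_apply_mem (τ : L ≃ₐ[K] L) (E : IntermediateField K L) (hstab : ∀ x ∈ E, τ x ∈ E)
    (j : ℕ) : ∀ x ∈ E, (τ ^ j) x ∈ E := by
  induction j with
  | zero => intro x hx; rw [pow_zero]; exact hx
  | succ j ih => intro x hx; rw [pow_succ_apply']; exact hstab _ (ih x hx)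

/-- **Wild elements die in `p`-groups.**  A group hom `f` on `Gal(L/K)` which is trivial on the
fixing subgroup of a finite-dimensional `τ`-stable intermediate field `E` kills every element
`τ` of the inertia group which is wild on `E` and such that `f τ` has `p`-power order, `p` a
prime which is a unit of `A`. -/
theorem map_eq_one_of_wild [Algebra.IsAlgebraic K L] {Γ : Type*} [Group Γ]
    (f : (L ≃ₐ[K] L) →* Γ) (E : IntermediateField K L) [FiniteDimensional K E]
    (hf : ∀ σ : L ≃ₐ[K] L, (∀ x ∈ E, σ x = x) → f σ = 1)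
    {τ : L ≃ₐ[K] L} (hτ : τ ∈ A.inertiaSubgroupIn K)
    (hstab : ∀ x ∈ E, τ x ∈ E) (hwild : IsWildOn A τ (E : Set L))
    (p : ℕ) (hp : p.Prime) (hpA : A.valuation (p : L) = 1) (k : ℕ) (hk : f τ ^ p ^ k = 1) :
    f τ = 1 := by
  have hD : τ ∈ A.decompositionSubgroup K := mem_decomposition_of_mem_inertiaIn A hτ
  obtain ⟨N, hN, hfix⟩ := exists_pow_fixes τ E
  obtain ⟨j, m', hm', hNeq⟩ := Nat.exists_eq_pow_mul_and_not_dvd hN.ne' p hp.ne_one
  -- `τ ^ m'` fixes `E`
  have hfix' : ∀ x ∈ E, (τ ^ m') x = x := by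
    refine fixes_of_pow_fixes (A := A) (pow_mem hτ m') E (pow_apply_mem τ E hstab m')
      (hwild.pow hD m') (p ^ j) ?_ ?_
    · rw [Nat.cast_pow, map_pow, hpA, one_pow]
    · intro x hx
      rw [pow_mul_apply, mul_comm, ← hNeq]
      exact hfix x hx
  have h1 : f τ ^ m' = 1 := by
    rw [← map_pow]
    exact hf _ hfix'
  have ho1 : orderOf (f τ) ∣ m' := orderOf_dvd_of_pow_eq_one h1
  have ho2 : orderOf (f τ) ∣ p ^ k := orderOf_dvd_of_pow_eq_one hk
  have hcop : Nat.Coprime m' (p ^ k) :=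
    Nat.Coprime.pow_right k ((Nat.Prime.coprime_iff_not_dvd hp).mpr hm').symm
  have ho : orderOf (f τ) = 1 :=
    Nat.Coprime.eq_one_of_dvd (Nat.Coprime.coprime_dvd_left ho1 hcop) ho2
  exact orderOf_eq_one_iff.mp ho

/-- **Wild elements die in `p`-groups, subgroup version.**  Same as `map_eq_one_of_wild` for a
hom `f` defined only on a subgroup `H` of `Gal(L/K)` containing `τ` (e.g. the inertia or the
decomposition group). -/
theorem map_eq_one_of_wild_subgroup [Algebra.IsAlgebraic K L] {Γ : Type*} [Group Γ]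
    (H : Subgroup (L ≃ₐ[K] L)) (f : H →* Γ) (E : IntermediateField K L) [FiniteDimensional K E]
    (hf : ∀ σ : H, (∀ x ∈ E, (σ : L ≃ₐ[K] L) x = x) → f σ = 1)
    {τ : L ≃ₐ[K] L} (hτH : τ ∈ H) (hτ : τ ∈ A.inertiaSubgroupIn K)
    (hstab : ∀ x ∈ E, τ x ∈ E) (hwild : IsWildOn A τ (E : Set L))
    (p : ℕ) (hp : p.Prime) (hpA : A.valuation (p : L) = 1) (k : ℕ)
    (hk : f ⟨τ, hτH⟩ ^ p ^ k = 1) :
    f ⟨τ, hτH⟩ = 1 := by
  have hD : τ ∈ A.decompositionSubgroup K := mem_decomposition_of_mem_inertiaIn A hτ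
  obtain ⟨N, hN, hfix⟩ := exists_pow_fixes τ E
  obtain ⟨j, m', hm', hNeq⟩ := Nat.exists_eq_pow_mul_and_not_dvd hN.ne' p hp.ne_one
  have hfix' : ∀ x ∈ E, (τ ^ m') x = x := by
    refine fixes_of_pow_fixes (A := A) (pow_mem hτ m') E (pow_apply_mem τ E hstab m')
      (hwild.pow hD m') (p ^ j) ?_ ?_
    · rw [Nat.cast_pow, map_pow, hpA, one_pow]
    · intro x hx
      rw [pow_mul_apply, mul_comm, ← hNeq]
      exact hfix x hx
  have h1 : f ⟨τ, hτH⟩ ^ m' = 1 := by
    rw [← map_pow]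
    exact hf _ hfix'
  have ho1 : orderOf (f ⟨τ, hτH⟩) ∣ m' := orderOf_dvd_of_pow_eq_one h1
  have ho2 : orderOf (f ⟨τ, hτH⟩) ∣ p ^ k := orderOf_dvd_of_pow_eq_one hk
  have hcop : Nat.Coprime m' (p ^ k) :=
    Nat.Coprime.pow_right k ((Nat.Prime.coprime_iff_not_dvd hp).mpr hm').symm
  have ho : orderOf (f ⟨τ, hτH⟩) = 1 :=
    Nat.Coprime.eq_one_of_dvd (Nat.Coprime.coprime_dvd_left ho1 hcop) ho2
  exact orderOf_eq_one_iff.mp ho

/-- Wildness in terms of the tame character of `A2/H708/Tame.lean`. -/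
theorem isWildOn_iff_tameHom [Algebra.IsAlgebraic K L] {τ : L ≃ₐ[K] L}
    (hτ : τ ∈ A.inertiaSubgroupIn K) (E : Set L) :
    IsWildOn A τ E ↔ ∀ c : Lˣ, (c : L) ∈ E → tameHom A hτ c = 1 := by
  constructor
  · intro h c hc
    rw [tameHom_eq_one_iff]
    exact h c hc c.ne_zero
  · intro h c hc hc0
    have := h (Units.mk0 c hc0) hc
    rw [tameHom_eq_one_iff] at this
    exact this

end Fermat.Agent.S56.H554

end
-- ===== PACK-END S56/H554/TameWild.lean

-- ===== PACK-BEGIN S59/H607/PSeries.lean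
section






/-!
# Power series rings over a complete local ring with finite residue field (helper607, row S59)

`P = 𝒪⟦X₁,…,X_r⟧` is a "profinite" adic ring: complete for its maximal ideal with finite
quotients `P / 𝔪^K`; the same holds for every finite `P`-module.  Also: the relation ideals
`((1 + X_j)^(ℓ^n) - 1)_j` of Taylor–Wiles patching tend to zero.
-/

set_option autoImplicit false

namespace Fermat.Agent.S59.H607

open IsLocalRing MvPowerSeries

/-- `(1 + u)^(ℓ^n) ≡ 1` modulo `𝔪^(n+1)` when `ℓ, u ∈ 𝔪`. -/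
theorem one_add_pow_sub_one_mem {B : Type*} [CommRing B] (𝔪 : Ideal B) {ℓ : ℕ}
    (hℓ : (ℓ : B) ∈ 𝔪) {u : B} (hu : u ∈ 𝔪) (n : ℕ) :
    (1 + u) ^ (ℓ ^ n) - 1 ∈ 𝔪 ^ (n + 1) := by
  induction n with
  | zero => simpa using hu
  | succ n ih =>
    set x : B := (1 + u) ^ (ℓ ^ n) with hx
    have h1 : (1 + u) ^ (ℓ ^ (n + 1)) - 1 = (x - 1) * ∑ i ∈ Finset.range ℓ, x ^ i := by
      rw [mul_geom_sum, hx, ← pow_mul, ← pow_succ]
    have hx1 : x - 1 ∈ 𝔪 := Ideal.pow_le_self (Nat.succ_ne_zero n) ih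
    have h2 : ∑ i ∈ Finset.range ℓ, x ^ i ∈ 𝔪 := by
      rw [← Ideal.Quotient.eq_zero_iff_mem, map_sum]
      have hxq : Ideal.Quotient.mk 𝔪 x = 1 := by
        rw [← sub_eq_zero, ← map_one (Ideal.Quotient.mk 𝔪), ← map_sub]
        exact Ideal.Quotient.eq_zero_iff_mem.mpr hx1
      simp only [map_pow, hxq, one_pow, Finset.sum_const, Finset.card_range, nsmul_eq_mul, mul_one]
      rw [← map_natCast (Ideal.Quotient.mk 𝔪)]
      exact Ideal.Quotient.eq_zero_iff_mem.mpr hℓ
    rw [h1, pow_succ]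
    exact Ideal.mul_mem_mul ih h2

section PowerSeries

variable {𝒪 : Type*} [CommRing 𝒪] [IsLocalRing 𝒪] {r : ℕ}

/-- The Taylor–Wiles relation ideal of level `n`. -/
noncomputable def twIdeal (𝒪 : Type*) [CommRing 𝒪] (ℓ r n : ℕ) : Ideal (MvPowerSeries (Fin r) 𝒪) :=
  Ideal.span (Set.range fun j : Fin r =>
    ((1 + MvPowerSeries.X j) ^ (ℓ ^ n) - 1 : MvPowerSeries (Fin r) 𝒪))

theorem natCast_mem_maximalIdeal_mvPowerSeries {ℓ : ℕ} (hℓ : (ℓ : 𝒪) ∈ maximalIdeal 𝒪) :
    ((ℓ : ℕ) : MvPowerSeries (Fin r) 𝒪) ∈ maximalIdeal (MvPowerSeries (Fin r) 𝒪) := by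
  rw [Fermat.Agent.S57.mem_maximalIdeal_iff_constantCoeff, map_natCast]
  exact hℓ

theorem twIdeal_le {ℓ : ℕ} (hℓ : (ℓ : 𝒪) ∈ maximalIdeal 𝒪) (n : ℕ) :
    twIdeal 𝒪 ℓ r n ≤ maximalIdeal (MvPowerSeries (Fin r) 𝒪) ^ (n + 1) := by
  unfold twIdeal
  rw [Ideal.span_le]
  rintro _ ⟨j, rfl⟩
  exact one_add_pow_sub_one_mem _ (natCast_mem_maximalIdeal_mvPowerSeries hℓ)
    (Fermat.Agent.S53.H596.X_mem_maximalIdeal_mvPowerSeries j) n

omit [IsLocalRing 𝒪] in
theorem constantCoeff_eq_zero_of_mem_twIdeal {ℓ n : ℕ} {f : MvPowerSeries (Fin r) 𝒪}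
    (hf : f ∈ twIdeal 𝒪 ℓ r n) : constantCoeff f = 0 := by
  have hle : twIdeal 𝒪 ℓ r n ≤ RingHom.ker (constantCoeff (σ := Fin r) (R := 𝒪)) := by
    unfold twIdeal
    rw [Ideal.span_le]
    rintro _ ⟨j, rfl⟩
    simp [RingHom.mem_ker]
  exact hle hf

omit [IsLocalRing 𝒪] in
/-- A power series without constant term is a combination of the variables. -/
theorem exists_eq_sum_X_mul {f : MvPowerSeries (Fin r) 𝒪} (hf : constantCoeff f = 0) :
    ∃ g : Fin r → MvPowerSeries (Fin r) 𝒪, f = ∑ i, g i * X i := by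
  have h1 : f ∈ Fermat.Agent.S57.vanishIdeal (A := 𝒪) (Set.univ : Set (Fin r)) :=
    (Fermat.Agent.S57.mem_vanishIdeal_univ_iff 𝒪).mpr hf
  rw [Fermat.Agent.S57.vanishIdeal_eq_span_of_finite Set.finite_univ, Set.image_univ] at h1
  obtain ⟨g, hg⟩ := (Ideal.mem_span_range_iff_exists_fun).mp h1
  exact ⟨g, hg.symm⟩

theorem C_mem_maximalIdeal_pow {K : ℕ} {a : 𝒪} (ha : a ∈ maximalIdeal 𝒪 ^ K) :
    (C a : MvPowerSeries (Fin r) 𝒪) ∈ maximalIdeal (MvPowerSeries (Fin r) 𝒪) ^ K := by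
  have h1 : Ideal.map (C (σ := Fin r) (R := 𝒪)) (maximalIdeal 𝒪) ≤
      maximalIdeal (MvPowerSeries (Fin r) 𝒪) := by
    rw [Ideal.map_le_iff_le_comap]
    intro x hx
    exact Fermat.Agent.S53.H596.C_mem_maximalIdeal_mvPowerSeries hx
  have h2 : Ideal.map (C (σ := Fin r) (R := 𝒪)) (maximalIdeal 𝒪 ^ K) ≤
      maximalIdeal (MvPowerSeries (Fin r) 𝒪) ^ K := by
    rw [Ideal.map_pow]
    exact Ideal.pow_right_mono h1 K
  exact h2 (Ideal.mem_map_of_mem _ ha)

theorem constantCoeff_mem_maximalIdeal_pow {K : ℕ} {f : MvPowerSeries (Fin r) 𝒪}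
    (hf : f ∈ maximalIdeal (MvPowerSeries (Fin r) 𝒪) ^ K) :
    constantCoeff f ∈ maximalIdeal 𝒪 ^ K := by
  have h1 : Ideal.map (constantCoeff (σ := Fin r) (R := 𝒪))
      (maximalIdeal (MvPowerSeries (Fin r) 𝒪)) ≤ maximalIdeal 𝒪 := by
    rw [Ideal.map_le_iff_le_comap]
    intro x hx
    exact (Fermat.Agent.S57.mem_maximalIdeal_iff_constantCoeff 𝒪).mp hx
  have h2 : Ideal.map (constantCoeff (σ := Fin r) (R := 𝒪))
      (maximalIdeal (MvPowerSeries (Fin r) 𝒪) ^ K) ≤ maximalIdeal 𝒪 ^ K := by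
    rw [Ideal.map_pow]
    exact Ideal.pow_right_mono h1 K
  exact h2 (Ideal.mem_map_of_mem _ hf)

variable [IsNoetherianRing 𝒪] [Finite (ResidueField 𝒪)]

omit [IsNoetherianRing 𝒪] in
theorem finite_quotient_maximalIdeal_mvPowerSeries :
    Finite (MvPowerSeries (Fin r) 𝒪 ⧸ maximalIdeal (MvPowerSeries (Fin r) 𝒪)) := by
  haveI : IsLocalHom (algebraMap 𝒪 (MvPowerSeries (Fin r) 𝒪)) :=
    Fermat.Agent.S53.H596.isLocalHom_algebraMap_mvPowerSeries
  have hs : Function.Surjective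
      (ResidueField.map (algebraMap 𝒪 (MvPowerSeries (Fin r) 𝒪))) := by
    intro y
    obtain ⟨a, ha⟩ := Fermat.Agent.S53.H596.residue_surjective_mvPowerSeries (σ := Fin r) (R := 𝒪) y
    exact ⟨residue 𝒪 a, by rw [ResidueField.map_residue]; exact ha⟩
  exact Finite.of_surjective _ hs

theorem finite_quotient_maximalIdeal_pow_mvPowerSeries (K : ℕ) :
    Finite (MvPowerSeries (Fin r) 𝒪 ⧸ maximalIdeal (MvPowerSeries (Fin r) 𝒪) ^ K) := by
  haveI := finite_quotient_maximalIdeal_mvPowerSeries (𝒪 := 𝒪) (r := r)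
  exact Ideal.finite_quotient_pow (IsNoetherian.noetherian _) K

variable [IsAdicComplete (maximalIdeal 𝒪) 𝒪]

/-- Finite modules over `P = 𝒪⟦X₁,…,X_r⟧` are profinite for the `𝔪_P`-adic topology. -/
theorem isProfiniteAdic_of_finite (V : Type*) [AddCommGroup V]
    [Module (MvPowerSeries (Fin r) 𝒪) V] [Module.Finite (MvPowerSeries (Fin r) 𝒪) V] :
    IsProfiniteAdic (maximalIdeal (MvPowerSeries (Fin r) 𝒪)) (V := V) := by
  haveI : IsAdicComplete (maximalIdeal (MvPowerSeries (Fin r) 𝒪)) (MvPowerSeries (Fin r) 𝒪) :=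
    Fermat.Agent.S53.H596.isAdicComplete_mvPowerSeries
  haveI : IsAdicComplete (maximalIdeal (MvPowerSeries (Fin r) 𝒪)) V :=
    IsAdicComplete.of_module_finite _ V
  refine ⟨inferInstance, inferInstance, fun K => ?_⟩
  haveI := finite_quotient_maximalIdeal_pow_mvPowerSeries (𝒪 := 𝒪) (r := r) K
  haveI : Module.Finite
      (MvPowerSeries (Fin r) 𝒪 ⧸ maximalIdeal (MvPowerSeries (Fin r) 𝒪) ^ K)
      (V ⧸ (maximalIdeal (MvPowerSeries (Fin r) 𝒪) ^ K • ⊤ :
        Submodule (MvPowerSeries (Fin r) 𝒪) V)) :=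
    Module.Finite.of_restrictScalars_finite (MvPowerSeries (Fin r) 𝒪) _ _
  exact Module.finite_of_finite
    (MvPowerSeries (Fin r) 𝒪 ⧸ maximalIdeal (MvPowerSeries (Fin r) 𝒪) ^ K)

theorem isProfiniteAdic_mvPowerSeries :
    IsProfiniteAdic (maximalIdeal (MvPowerSeries (Fin r) 𝒪))
      (V := MvPowerSeries (Fin r) 𝒪) :=
  isProfiniteAdic_of_finite (MvPowerSeries (Fin r) 𝒪)

end PowerSeries

end Fermat.Agent.S59.H607

end
-- ===== PACK-END S59/H607/PSeries.lean

-- ===== PACK-BEGIN S19/H135/Basic.lean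
section
/-
Cell A3 / WP-C (helper135): basic consequences of the Hopf lattice axioms.
-/


set_option autoImplicit false

namespace Fermat.Agent.S19.H135

section Box

variable {R : Type*} [CommRing R] {K : Type*} [CommRing K] [Algebra R K]
variable {X Y : Type*}

/-- Induction principle for the "box product" `pr₁^* Λ₁ ⊔ pr₂^* Λ₂` of two subalgebras of
function algebras: its elements are sums of products `a(x) b(y)`. -/
theorem box_induction {Λ₁ : Subalgebra R (X → K)} {Λ₂ : Subalgebra R (Y → K)}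
    {C : (X × Y → K) → Prop} {F : X × Y → K}
    (hF : F ∈ Λ₁.map (pull R K (Prod.fst : X × Y → X)) ⊔
      Λ₂.map (pull R K (Prod.snd : X × Y → Y)))
    (hmul : ∀ a ∈ Λ₁, ∀ b ∈ Λ₂, C (fun p => a p.1 * b p.2))
    (hadd : ∀ F₁ F₂, C F₁ → C F₂ → C (F₁ + F₂)) : C F := by
  rw [← Subalgebra.mem_toSubmodule, ← Subalgebra.mul_toSubmodule] at hF
  refine Submodule.mul_induction_on hF ?_ hadd
  rintro _ ⟨a, ha, rfl⟩ _ ⟨b, hb, rfl⟩
  exact hmul a ha b hb

theorem mul_mem_box {Λ₁ : Subalgebra R (X → K)} {Λ₂ : Subalgebra R (Y → K)}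
    {a : X → K} (ha : a ∈ Λ₁) {b : Y → K} (hb : b ∈ Λ₂) :
    (fun p : X × Y => a p.1 * b p.2) ∈ Λ₁.map (pull R K (Prod.fst : X × Y → X)) ⊔
      Λ₂.map (pull R K (Prod.snd : X × Y → Y)) :=
  Subalgebra.mul_mem _ ((le_sup_left : Λ₁.map (pull R K (Prod.fst : X × Y → X)) ≤ _)
      ⟨a, ha, rfl⟩)
    ((le_sup_right : Λ₂.map (pull R K (Prod.snd : X × Y → Y)) ≤ _) ⟨b, hb, rfl⟩)

end Box

namespace IsHopfLattice

variable {ℓ : ℕ} {M : Type} [AddCommGroup M]
  {act : (AlgebraicClosure ℚ ≃ₐ[ℚ] AlgebraicClosure ℚ) → M → M}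
  {Λ : Subalgebra (GaloisRep.ratLocalizedAt ℓ) (M → AlgebraicClosure ℚ)}

theorem comul_mem (hΛ : IsHopfLattice ℓ act Λ) {f : M → AlgebraicClosure ℚ} (hf : f ∈ Λ) :
    (fun p : M × M => f (p.1 + p.2)) ∈
      Λ.map (pull (GaloisRep.ratLocalizedAt ℓ) (AlgebraicClosure ℚ) (Prod.fst : M × M → M)) ⊔
      Λ.map (pull (GaloisRep.ratLocalizedAt ℓ) (AlgebraicClosure ℚ) (Prod.snd : M × M → M)) :=
  hΛ.comul ⟨f, hf, rfl⟩

theorem box_equivariant (hΛ : IsHopfLattice ℓ act Λ) {F : M × M → AlgebraicClosure ℚ}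
    (hF : F ∈ Λ.map (pull (GaloisRep.ratLocalizedAt ℓ) (AlgebraicClosure ℚ)
        (Prod.fst : M × M → M)) ⊔
      Λ.map (pull (GaloisRep.ratLocalizedAt ℓ) (AlgebraicClosure ℚ) (Prod.snd : M × M → M)))
    (σ : AlgebraicClosure ℚ ≃ₐ[ℚ] AlgebraicClosure ℚ) (m n : M) :
    F (act σ m, act σ n) = σ (F (m, n)) := by
  refine box_induction (C := fun F => F (act σ m, act σ n) = σ (F (m, n))) hF ?_ ?_
  · intro a ha b hb
    simp only [hΛ.equivariant a ha, hΛ.equivariant b hb, map_mul]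
  · intro F₁ F₂ h₁ h₂
    simp only [Pi.add_apply, h₁, h₂, map_add]

theorem act_add (hΛ : IsHopfLattice ℓ act Λ) (σ : AlgebraicClosure ℚ ≃ₐ[ℚ] AlgebraicClosure ℚ)
    (m n : M) : act σ (m + n) = act σ m + act σ n := by
  apply hΛ.separates
  intro f hf
  rw [hΛ.equivariant f hf]
  exact (hΛ.box_equivariant (hΛ.comul_mem hf) σ m n).symm

theorem act_one (hΛ : IsHopfLattice ℓ act Λ) (m : M) : act 1 m = m := by
  apply hΛ.separates
  intro f hf
  rw [hΛ.equivariant f hf]
  rfl

theorem act_mul (hΛ : IsHopfLattice ℓ act Λ)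
    (σ τ : AlgebraicClosure ℚ ≃ₐ[ℚ] AlgebraicClosure ℚ) (m : M) :
    act (σ * τ) m = act σ (act τ m) := by
  apply hΛ.separates
  intro f hf
  rw [hΛ.equivariant f hf, hΛ.equivariant f hf, hΛ.equivariant f hf]
  rfl

theorem act_zero (hΛ : IsHopfLattice ℓ act Λ)
    (σ : AlgebraicClosure ℚ ≃ₐ[ℚ] AlgebraicClosure ℚ) : act σ 0 = 0 := by
  have h := hΛ.act_add σ 0 0
  rw [add_zero] at h
  exact left_eq_add.mp h

/-- The action as a family of additive automorphisms. -/
noncomputable def actEquiv (hΛ : IsHopfLattice ℓ act Λ) (σ : AlgebraicClosure ℚ ≃ₐ[ℚ] AlgebraicClosure ℚ) :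
    M ≃+ M where
  toFun := act σ
  invFun := act σ⁻¹
  left_inv m := by rw [← hΛ.act_mul, inv_mul_cancel, hΛ.act_one]
  right_inv m := by rw [← hΛ.act_mul, mul_inv_cancel, hΛ.act_one]
  map_add' := hΛ.act_add σ

@[simp] theorem actEquiv_apply (hΛ : IsHopfLattice ℓ act Λ)
    (σ : AlgebraicClosure ℚ ≃ₐ[ℚ] AlgebraicClosure ℚ) (m : M) : hΛ.actEquiv σ m = act σ m := rfl

theorem act_bijective (hΛ : IsHopfLattice ℓ act Λ)
    (σ : AlgebraicClosure ℚ ≃ₐ[ℚ] AlgebraicClosure ℚ) : Function.Bijective (act σ) :=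
  (hΛ.actEquiv σ).bijective

theorem act_neg (hΛ : IsHopfLattice ℓ act Λ)
    (σ : AlgebraicClosure ℚ ≃ₐ[ℚ] AlgebraicClosure ℚ) (m : M) : act σ (-m) = -act σ m :=
  map_neg (hΛ.actEquiv σ) m

theorem act_sub (hΛ : IsHopfLattice ℓ act Λ)
    (σ : AlgebraicClosure ℚ ≃ₐ[ℚ] AlgebraicClosure ℚ) (m n : M) :
    act σ (m - n) = act σ m - act σ n :=
  map_sub (hΛ.actEquiv σ) m n

/-- Elements of a Hopf lattice are integral over `ℤ_(ℓ)`. -/
theorem isIntegral (hΛ : IsHopfLattice ℓ act Λ) {f : M → AlgebraicClosure ℚ} (hf : f ∈ Λ) :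
    IsIntegral (GaloisRep.ratLocalizedAt ℓ) f :=
  IsIntegral.of_mem_of_fg Λ hΛ.fg f hf

/-- Values of elements of a Hopf lattice are integral over `ℤ_(ℓ)`. -/
theorem isIntegral_apply (hΛ : IsHopfLattice ℓ act Λ) {f : M → AlgebraicClosure ℚ} (hf : f ∈ Λ)
    (m : M) : IsIntegral (GaloisRep.ratLocalizedAt ℓ) (f m) :=
  (hΛ.isIntegral hf).map (Pi.evalAlgHom (GaloisRep.ratLocalizedAt ℓ)
    (fun _ : M => AlgebraicClosure ℚ) m)

/-- The group carrying a Hopf lattice is finite. -/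
theorem finite (hΛ : IsHopfLattice ℓ act Λ) : Finite M := by
  classical
  obtain ⟨s, hs⟩ := hΛ.fg
  have hsΛ : ∀ f ∈ s, f ∈ Λ := fun f hf => by
    have : f ∈ Submodule.span (GaloisRep.ratLocalizedAt ℓ) (s : Set (M → AlgebraicClosure ℚ)) :=
      Submodule.subset_span hf
    rw [hs] at this
    exact this
  -- for each generator, a monic polynomial killing it
  have hpoly : ∀ f : s, ∃ P : Polynomial (GaloisRep.ratLocalizedAt ℓ), P.Monic ∧
      ∀ m : M, Polynomial.eval₂ (algebraMap _ (AlgebraicClosure ℚ)) (f.1 m) P = 0 := by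
    intro f
    obtain ⟨P, hP, hP0⟩ := hΛ.isIntegral (hsΛ f.1 f.2)
    refine ⟨P, hP, fun m => ?_⟩
    have := congrArg (Pi.evalAlgHom (GaloisRep.ratLocalizedAt ℓ)
      (fun _ : M => AlgebraicClosure ℚ) m) hP0
    rw [map_zero, ← Polynomial.aeval_def, ← Polynomial.aeval_algHom_apply] at this
    rw [← Polynomial.aeval_def]
    exact this
  choose P hPm hP0 using hpoly
  -- the target: tuples of roots
  let T : s → Set (AlgebraicClosure ℚ) := fun f =>
    {z | Polynomial.eval₂ (algebraMap _ (AlgebraicClosure ℚ)) z (P f) = 0}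
  have hTfin : ∀ f, (T f).Finite := by
    intro f
    have hne : (P f).map (algebraMap _ (AlgebraicClosure ℚ)) ≠ 0 :=
      ((hPm f).map _).ne_zero
    refine Set.Finite.subset (((P f).map (algebraMap _ (AlgebraicClosure ℚ))).roots.toFinset
      ).finite_toSet ?_
    intro z hz
    simp only [Finset.mem_coe, Multiset.mem_toFinset, Polynomial.mem_roots hne,
      Polynomial.IsRoot.def, Polynomial.eval_map]
    exact hz
  have : ∀ f, Finite (T f) := fun f => (hTfin f).to_subtype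
  let Φ : M → (∀ f : s, T f) := fun m f => ⟨f.1 m, hP0 f m⟩
  have hΦ : Function.Injective Φ := by
    intro m n hmn
    apply hΛ.separates
    intro f hf
    have hf' : f ∈ Submodule.span (GaloisRep.ratLocalizedAt ℓ)
        (s : Set (M → AlgebraicClosure ℚ)) := by rw [hs]; exact hf
    refine Submodule.span_induction (p := fun f _ => f m = f n) ?_ ?_ ?_ ?_ hf'
    · intro g hg
      have := congrFun hmn ⟨g, hg⟩
      exact congrArg Subtype.val this
    · rfl
    · intro g₁ g₂ _ _ h₁ h₂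
      simp only [Pi.add_apply, h₁, h₂]
    · intro c g _ hg
      simp only [Pi.smul_apply, hg]
  exact Finite.of_injective Φ hΦ

end IsHopfLattice

end Fermat.Agent.S19.H135

end
-- ===== PACK-END S19/H135/Basic.lean

-- ===== PACK-BEGIN S59/H247/TFKummer.lean
section



/-!
# S59 / G3-TF, part 2: a Kummer generator whose valuation is not in the value group of the base
generates a totally (tamely or wildly) ramified extension — elementwise form

Let `A` be a valuation subring of `ℚ̄`, `F ⊆ ℚ̄` a subfield, `α ^ p = a ∈ F` and assume that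
`v(α) ^ k ∉ v(Fˣ)` for `0 < k < p`.  If `σ` fixes `F` and `σ α = ζ' α` with `ζ' ^ p = 1`, then
`σ x - x ∈ 𝔪_A` for every `x ∈ F(α) ∩ A`.
-/

set_option autoImplicit false

namespace Fermat.Agent.S59.H247

open Polynomial Fermat.Agent.S54

variable (A : ValuationSubring (AlgebraicClosure ℚ))
  (F : IntermediateField ℚ (AlgebraicClosure ℚ))

/-- Every element of `F(α)`, `α ^ p ∈ F`, is a polynomial of degree `< p` in `α`. -/
theorem exists_coeff_of_mem_adjoin {p : ℕ} (hp : 0 < p) {α : AlgebraicClosure ℚ} (a : F)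
    (hα : α ^ p = (a : AlgebraicClosure ℚ)) {x : AlgebraicClosure ℚ}
    (hx : x ∈ IntermediateField.adjoin F {α}) :
    ∃ c : ℕ → F, x = ∑ i ∈ Finset.range p, (c i : AlgebraicClosure ℚ) * α ^ i := by
  set g : F[X] := X ^ p - C a with hg
  have hgm : g.Monic := monic_X_pow_sub_C a hp.ne'
  have hgα : aeval α g = 0 := by
    rw [hg, map_sub, map_pow, aeval_X, aeval_C, hα]
    exact sub_self _
  have hint : IsIntegral F α := ⟨g, hgm, hgα⟩
  have hx' : x ∈ (IntermediateField.adjoin F {α}).toSubalgebra := hx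
  rw [IntermediateField.adjoin_simple_toSubalgebra_of_isAlgebraic hint.isAlgebraic,
    Algebra.adjoin_singleton_eq_range_aeval] at hx'
  obtain ⟨f, rfl⟩ := hx'
  set r := f %ₘ g with hr
  have hfr : aeval α f = aeval α r := by
    conv_lhs => rw [← modByMonic_add_div f g]
    rw [map_add, map_mul, hgα, zero_mul, add_zero]
  have hdeg : r.natDegree < p := by
    have h1 : g.natDegree = p := natDegree_X_pow_sub_C
    have hg1 : g ≠ 1 := by
      intro h
      rw [h, natDegree_one] at h1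
      exact hp.ne h1
    have := natDegree_modByMonic_lt f hgm hg1
    rwa [h1] at this
  refine ⟨fun i => r.coeff i, ?_⟩
  show (aeval α) f = _
  rw [hfr, aeval_eq_sum_range' hdeg]
  refine Finset.sum_congr rfl fun i _ => ?_
  rw [Algebra.smul_def]
  rfl

variable {A F}

/-- The terms `c_i α^i` with `c_i ≠ 0` have pairwise distinct valuations. -/
theorem valuation_term_ne {p : ℕ} {α : AlgebraicClosure ℚ} (hα0 : α ≠ 0)
    (hval : ∀ c : F, c ≠ 0 → ∀ k : ℕ, 0 < k → k < p →
      A.valuation α ^ k ≠ A.valuation (c : AlgebraicClosure ℚ))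
    {i j : ℕ} (hij : i < j) (hj : j < p) {ci cj : F} (hci : ci ≠ 0) (hcj : cj ≠ 0) :
    A.valuation ((ci : AlgebraicClosure ℚ) * α ^ i) ≠
      A.valuation ((cj : AlgebraicClosure ℚ) * α ^ j) := by
  intro h
  have hvα : A.valuation α ≠ 0 := (Valuation.ne_zero_iff _).2 hα0
  have hcj' : A.valuation (cj : AlgebraicClosure ℚ) ≠ 0 :=
    (Valuation.ne_zero_iff _).2 (by exact_mod_cast hcj)
  have hk : 0 < j - i := Nat.sub_pos_of_lt hij
  have hk' : j - i < p := lt_of_le_of_lt (Nat.sub_le j i) hj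
  apply hval (cj⁻¹ * ci) (mul_ne_zero (inv_ne_zero hcj) hci) (j - i) hk hk'
  have hji : j = i + (j - i) := by omega
  rw [map_mul, map_mul, map_pow, map_pow] at h
  have h2 : A.valuation α ^ j = A.valuation α ^ i * A.valuation α ^ (j - i) := by
    conv_lhs => rw [hji, pow_add]
  rw [h2] at h
  have h3 : A.valuation (ci : AlgebraicClosure ℚ) =
      A.valuation (cj : AlgebraicClosure ℚ) * A.valuation α ^ (j - i) := by
    have hvi : A.valuation α ^ i ≠ 0 := pow_ne_zero _ hvα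
    apply mul_right_cancel₀ hvi
    rw [h, mul_assoc, mul_comm (A.valuation α ^ (j - i))]
  push_cast
  rw [map_mul, map_inv₀, h3, ← mul_assoc, inv_mul_cancel₀ hcj', one_mul]

/-- **Kummer generators of non-divisible valuation are moved by inertia.** -/
theorem kummer_sub_mem_nonunits {p : ℕ} (hp : 0 < p) {α ζ' : AlgebraicClosure ℚ} (a : F)
    (hα : α ^ p = (a : AlgebraicClosure ℚ)) (hα0 : α ≠ 0) (hζ' : ζ' ^ p = 1)
    (σ : AlgebraicClosure ℚ ≃ₐ[ℚ] AlgebraicClosure ℚ) (hσF : ∀ x ∈ F, σ x = x)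
    (hσα : σ α = ζ' * α)
    (hval : ∀ c : F, c ≠ 0 → ∀ k : ℕ, 0 < k → k < p →
      A.valuation α ^ k ≠ A.valuation (c : AlgebraicClosure ℚ))
    {x : AlgebraicClosure ℚ} (hx : x ∈ IntermediateField.adjoin F {α}) (hxA : x ∈ A) :
    σ x - x ∈ A.nonunits := by
  classical
  obtain ⟨c, rfl⟩ := exists_coeff_of_mem_adjoin F hp a hα hx
  set t : ℕ → AlgebraicClosure ℚ := fun i => (c i : AlgebraicClosure ℚ) * α ^ i with ht
  have hvα : A.valuation α ≠ 0 := (Valuation.ne_zero_iff _).2 hα0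
  have hc0 : ∀ i, c i = 0 → A.valuation (t i) = 0 := by
    intro i hi
    simp [ht, hi]
  have hcne : ∀ i, c i ≠ 0 → A.valuation (t i) ≠ 0 := by
    intro i hi
    rw [Valuation.ne_zero_iff]
    exact mul_ne_zero (by exact_mod_cast hi) (pow_ne_zero _ hα0)
  have hdist : ∀ i j, i < p → j < p → i ≠ j → c i ≠ 0 → c j ≠ 0 →
      A.valuation (t i) ≠ A.valuation (t j) := by
    intro i j hi hj hij hci hcj
    rcases lt_or_gt_of_ne hij with h | h
    · exact valuation_term_ne hα0 hval h hj hci hcj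
    · exact (valuation_term_ne hα0 hval h hi hcj hci).symm
  -- step 1: all terms are integral at `A`
  have hle : ∀ i ∈ Finset.range p, A.valuation (t i) ≤ 1 := by
    obtain ⟨i₀, hi₀, hmax⟩ := Finset.exists_max_image (Finset.range p)
      (fun i => A.valuation (t i)) ⟨0, Finset.mem_range.2 hp⟩
    by_cases h1 : A.valuation (t i₀) ≤ 1
    · exact fun i hi => (hmax i hi).trans h1
    · exfalso
      rw [not_le] at h1
      have hci₀ : c i₀ ≠ 0 := by
        intro h
        rw [hc0 i₀ h] at h1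
        exact not_lt.2 zero_le_one h1
      have hlt : ∀ i ∈ Finset.range p \ {i₀}, A.valuation (t i) < A.valuation (t i₀) := by
        intro i hi
        rw [Finset.mem_sdiff, Finset.mem_singleton] at hi
        refine lt_of_le_of_ne (hmax i hi.1) ?_
        by_cases hci : c i = 0
        · rw [hc0 i hci]
          exact (hcne i₀ hci₀).symm
        · exact hdist i i₀ (Finset.mem_range.1 hi.1) (Finset.mem_range.1 hi₀) hi.2 hci hci₀
      have hsum := Valuation.map_sum_eq_of_lt A.valuation hi₀ hlt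
      have hxle : A.valuation (∑ i ∈ Finset.range p, t i) ≤ 1 :=
        (A.valuation_le_one_iff _).2 hxA
      rw [hsum] at hxle
      exact not_lt.2 hxle h1
  -- step 2: formula for `σ x - x`
  have hσt : ∀ i, σ (t i) = t i * ζ' ^ i := by
    intro i
    simp only [ht]
    rw [map_mul, map_pow, hσα, hσF _ (c i).2, mul_pow]
    ring
  have hdiff : σ (∑ i ∈ Finset.range p, t i) - ∑ i ∈ Finset.range p, t i
      = ∑ i ∈ Finset.range p, t i * (ζ' ^ i - 1) := by
    rw [map_sum, ← Finset.sum_sub_distrib]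
    refine Finset.sum_congr rfl fun i _ => ?_
    rw [hσt]
    ring
  -- step 3: each term has valuation `< 1`
  have hζle : A.valuation ζ' ≤ 1 := by
    by_contra h
    rw [not_le] at h
    have := one_lt_pow₀ h hp.ne'
    rw [← map_pow, hζ', map_one] at this
    exact lt_irrefl _ this
  have hζi : ∀ i : ℕ, A.valuation (ζ' ^ i - 1) ≤ 1 := by
    intro i
    refine (Valuation.map_sub _ _ _).trans (max_le ?_ ?_)
    · rw [map_pow]
      exact pow_le_one₀ zero_le hζle
    · rw [map_one]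
  rw [ValuationSubring.mem_nonunits_iff, hdiff]
  refine Valuation.map_sum_lt _ one_ne_zero fun i hi => ?_
  rcases Nat.eq_zero_or_pos i with rfl | hi0
  · simp
  · have hti : A.valuation (t i) < 1 := by
      refine lt_of_le_of_ne (hle i hi) ?_
      by_cases hci : c i = 0
      · rw [hc0 i hci]
        exact zero_ne_one
      · intro h1
        apply hval (c i)⁻¹ (inv_ne_zero hci) i hi0 (Finset.mem_range.1 hi)
        have hcv : A.valuation ((c i : F) : AlgebraicClosure ℚ) ≠ 0 :=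
          (Valuation.ne_zero_iff _).2 (by exact_mod_cast hci)
        simp only [ht] at h1
        rw [map_mul, map_pow] at h1
        push_cast
        rw [map_inv₀]
        exact eq_inv_of_mul_eq_one_right h1
    rw [map_mul]
    calc A.valuation (t i) * A.valuation (ζ' ^ i - 1) ≤ A.valuation (t i) * 1 :=
          mul_le_mul_right (hζi i) _
      _ = A.valuation (t i) := mul_one _
      _ < 1 := hti

end Fermat.Agent.S59.H247

end
-- ===== PACK-END S59/H247/TFKummer.lean

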