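import Mathlib
import Fermat.Agent.Pack.S43GC.G0E3L2
import Fermat.Agent.Pack.S43GC.G0E3L3
import Fermat.Agent.Pack.S43GC.G0E3L0
import Fermat.Agent.Pack.S43GC.G0E4L2
import Fermat.Agent.Pack.S43GC.G0E4L1
import Fermat.Agent.Pack.S43GC.G0E1L2
import Fermat.Agent.Pack.S43GC.G0E1L1
import Fermat.Agent.Pack.S43GC.G0E3L1
import Fermat.Agent.Pack.S43GC.G0E4L3
import Fermat.Agent.Pack.S43GC.G0E2L2
import Fermat.Agent.Pack.Fast891

-- ===== PACK-BEGIN S55/G/Exist121/Abstract.lean
section


/-!
# S55, layer G, block EXIST: abstract group theory for the existence theorem mod `p`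

Mathlib only.  Author: helper121.

* `ker_le_pMul_of_equiv` : if `A / N ≃ Q`, `[A : pA]` is finite and `[A : pA] ≤ [Q : pQ]`, then
  `N ≤ pA`.  (Applied to `A = C(L)^G`, `N = N_G C(L)`, `Q = G^ab`: the reciprocity isomorphism.)
* `relIndex_le_of_kummer` : Kummer bound.  If `κ : V → Hom(G, Mˣ)` has values killed by `p` and
  separates the cosets of `P` in `V`, then `[V : P] ≤ [G^ab : p G^ab]`.
-/

set_option autoImplicit false

namespace Fermat.Agent.S55.G.Exist121

section Quotient

variable {A : Type*} [AddCommGroup A]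

lemma comap_pMul_of_surjective {B : Type*} [AddCommGroup B] (π : A →+ B)
    (hπ : Function.Surjective π) (p : ℕ) :
    (pMul B p).comap π = pMul A p ⊔ π.ker := by
  apply le_antisymm
  · intro a ha
    obtain ⟨b, hb⟩ := ha
    obtain ⟨b', rfl⟩ := hπ b
    have h1 : π (p • b') = π a := by
      rw [map_nsmul]; exact hb
    have h2 : a - p • b' ∈ π.ker := by
      rw [AddMonoidHom.mem_ker, map_sub, h1, sub_self]
    have h4 : a = p • b' + (a - p • b') := by abel
    rw [h4]
    exact AddSubgroup.add_mem_sup (nsmul_mem_pMul p b') h2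
  · rw [sup_le_iff]
    constructor
    · rintro _ ⟨b, rfl⟩
      exact ⟨π b, by simp⟩
    · intro a ha
      have h0 : π a = 0 := ha
      show π a ∈ pMul B p
      rw [h0]
      exact zero_mem _

lemma index_pMul_of_surjective {B : Type*} [AddCommGroup B] (π : A →+ B)
    (hπ : Function.Surjective π) (p : ℕ) :
    (pMul B p).index = (pMul A p ⊔ π.ker).index := by
  rw [← comap_pMul_of_surjective π hπ, AddSubgroup.index_comap_of_surjective _ hπ]

lemma map_pMul_of_equiv {Q Q' : Type*} [AddCommGroup Q] [AddCommGroup Q'] (e : Q ≃+ Q') (p : ℕ) :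
    (pMul Q' p).comap e.toAddMonoidHom = pMul Q p := by
  ext q
  constructor
  · rintro ⟨b, hb⟩
    refine ⟨e.symm b, ?_⟩
    apply e.injective
    show e (p • e.symm b) = e q
    rw [map_nsmul, e.apply_symm_apply]
    exact hb
  · rintro ⟨b, rfl⟩
    exact ⟨e b, by simp⟩

lemma index_pMul_congr {Q Q' : Type*} [AddCommGroup Q] [AddCommGroup Q'] (e : Q ≃+ Q') (p : ℕ) :
    (pMul Q p).index = (pMul Q' p).index := by
  rw [← map_pMul_of_equiv e p, AddSubgroup.index_comap_of_surjective _ e.surjective]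

/-- **Reciprocity + counting.**  If `π : A → B` is onto, `B ≃ Q`, `[A : pA] ≠ 0` and
`[A : pA] ≤ [Q : pQ]`, then `ker π ≤ pA`. -/
theorem ker_le_pMul_of_equiv {B Q : Type*} [AddCommGroup B] [AddCommGroup Q] (π : A →+ B)
    (hπ : Function.Surjective π) (e : Q ≃+ B)
    (p : ℕ) (hA : (pMul A p).index ≠ 0) (hle : (pMul A p).index ≤ (pMul Q p).index) :
    π.ker ≤ pMul A p := by
  have h1 : (pMul A p ⊔ π.ker).index = (pMul Q p).index := by
    rw [← index_pMul_of_surjective π hπ, index_pMul_congr e p]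
  have h2 : pMul A p = pMul A p ⊔ π.ker :=
    eq_of_le_of_index_le le_sup_left hA (h1 ▸ hle)
  rw [h2]
  exact le_sup_right

end Quotient

section Kummer

open scoped Classical in
/-- `[G^ab : p G^ab]` as the cardinality of the multiplicative quotient. -/
lemma index_pMul_abelianization (G : Type*) [Group G] (p : ℕ) :
    (pMul (Additive (Abelianization G)) p).index =
      (powMonoidHom p : Abelianization G →* Abelianization G).range.index := by
  have h : pMul (Additive (Abelianization G)) p =
      Subgroup.toAddSubgroup (powMonoidHom p : Abelianization G →* Abelianization G).range := by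
    ext x
    constructor
    · rintro ⟨b, rfl⟩
      exact ⟨b.toMul, rfl⟩
    · rintro ⟨b, hb⟩
      exact ⟨Additive.ofMul b, hb⟩
  rw [h]
  rfl

/-- **Kummer bound.**  Let `P ≤ V` be subgroups of an abelian group `X`, `G` a finite group, `M` a
commutative monoid with enough `p`-th roots of unity, and `κ : V → Hom(G, Mˣ)` a map with values
killed by `p` which separates the cosets of `P`.  Then `[V : P] ≤ [G^ab : p G^ab]`. -/
theorem relIndex_le_of_kummer {X : Type*} [AddCommGroup X] (V P : AddSubgroup X)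
    {G M : Type*} [Group G] [Finite G] [CommMonoid M] (p : ℕ) [NeZero p]
    [HasEnoughRootsOfUnity M p]
    (κ : V → (G →* Mˣ)) (hκp : ∀ v g, κ v g ^ p = 1)
    (hκ : ∀ v v' : V, κ v = κ v' → (v : X) - (v' : X) ∈ P) :
    P.relIndex V ≤ (pMul (Additive (Abelianization G)) p).index := by
  classical
  rw [index_pMul_abelianization]
  set R : Subgroup (Abelianization G) :=
    (powMonoidHom p : Abelianization G →* Abelianization G).range with hR
  -- the quotient `Ā = G^ab / p`
  have hexp : Monoid.exponent (Abelianization G ⧸ R) ∣ p := by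
    apply Monoid.exponent_dvd_of_forall_pow_eq_one
    intro a
    obtain ⟨b, rfl⟩ := QuotientGroup.mk_surjective a
    rw [← QuotientGroup.mk_pow, QuotientGroup.eq_one_iff]
    exact ⟨b, rfl⟩
  have : HasEnoughRootsOfUnity M (Monoid.exponent (Abelianization G ⧸ R)) :=
    HasEnoughRootsOfUnity.of_dvd M hexp
  have hcard : Nat.card ((Abelianization G ⧸ R) →* Mˣ) = Nat.card (Abelianization G ⧸ R) :=
    CommGroup.card_monoidHom_of_hasEnoughRootsOfUnity (Abelianization G ⧸ R) M
  have : Finite ((Abelianization G ⧸ R) →* Mˣ) := by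
    apply Nat.finite_of_card_ne_zero
    rw [hcard]
    exact Nat.card_pos.ne'
  -- the induced characters
  let κ1 : V → (Abelianization G →* Mˣ) := fun v => Abelianization.lift (κ v)
  have hκ1 : ∀ v, R ≤ (κ1 v).ker := by
    rintro v _ ⟨b, rfl⟩
    rw [MonoidHom.mem_ker]
    show κ1 v (b ^ p) = 1
    rw [map_pow]
    obtain ⟨g, rfl⟩ := QuotientGroup.mk_surjective b
    show (Abelianization.lift (κ v)) (Abelianization.of g) ^ p = 1
    rw [Abelianization.lift_apply_of]
    exact hκp v g
  let κ2 : V → ((Abelianization G ⧸ R) →* Mˣ) := fun v => QuotientGroup.lift R (κ1 v) (hκ1 v)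
  have hκ2 : ∀ v v' : V, κ2 v = κ2 v' → κ v = κ v' := by
    intro v v' h
    ext g
    have h1 := congrArg (fun φ : (Abelianization G ⧸ R) →* Mˣ =>
      φ (QuotientGroup.mk (Abelianization.of g))) h
    simp only [κ2, κ1, QuotientGroup.lift_mk, Abelianization.lift_apply_of] at h1
    rw [h1]
  -- injection of `V / P` into the character group
  let f : (V ⧸ P.addSubgroupOf V) → ((Abelianization G ⧸ R) →* Mˣ) := fun q => κ2 q.out
  have hf : Function.Injective f := by
    intro q q' h
    have h1 := hκ _ _ (hκ2 _ _ h)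
    have h2 : q.out - q'.out ∈ P.addSubgroupOf V := by
      rw [AddSubgroup.mem_addSubgroupOf]
      simpa using h1
    have h3 : (QuotientAddGroup.mk q.out : V ⧸ P.addSubgroupOf V) = QuotientAddGroup.mk q'.out := by
      rw [QuotientAddGroup.eq]
      have : -q.out + q'.out = -(q.out - q'.out) := by abel
      rw [this]
      exact neg_mem h2
    simpa using h3
  have h1 : Nat.card (V ⧸ P.addSubgroupOf V) ≤ Nat.card ((Abelianization G ⧸ R) →* Mˣ) :=
    Nat.card_le_card_of_injective f hf
  rw [hcard] at h1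
  exact h1

end Kummer

end Fermat.Agent.S55.G.Exist121

end
-- ===== PACK-END S55/G/Exist121/Abstract.lean

-- ===== PACK-BEGIN S55/G/SpecUnits.lean
section
/-
S55, layer G (global class field theory), block **G-U : Herbrand quotient of units and S-units**
(arithmetic input of the FIRST INEQUALITY).      Sub-architect: helper595.

This file contains ONLY definitions and `Spec` propositions (no `sorry`).
Producers prove `theorem xxx : XxxSpec`; the assembly files prove the two top specs
`UnitsHerbrandSpec`, `SUnitsHerbrandSpec` from the leaf specs.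

Vocabulary: helper895's `Fermat.Agent.S55.Herbrand` (on main):
  `hIndex f g = [ker f : im g]`,  `hIndexSub f g A = [A ∩ ker f : g A]`  (`0` = infinite).
-/



set_option autoImplicit false

namespace Fermat.Agent.S55.G

open Fermat.Agent.S55.Herbrand NumberField

universe u v

/-! ## 1. Permutation lattices -/

section Perm

variable (G : Type u) [Group G] (X : Type v) [MulAction G X]

/-- Permutation action of `τ` on `ℤ`-valued functions: `(permHom τ a) x = a (τ⁻¹ • x)`. -/
def permHom (τ : G) : (X → ℤ) →+ (X → ℤ) where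
  toFun a x := a (τ⁻¹ • x)
  map_zero' := rfl
  map_add' _ _ := rfl

/-- Permutation action of `τ` on `ℝ`-valued functions. -/
def permHomR (τ : G) : (X → ℝ) →+ (X → ℝ) where
  toFun a x := a (τ⁻¹ • x)
  map_zero' := rfl
  map_add' _ _ := rfl

/-- `σ - 1` on `ℤ^X`. -/
def permAug (σ : G) : (X → ℤ) →+ (X → ℤ) := permHom G X σ - AddMonoidHom.id _

/-- `σ - 1` on `ℝ^X`. -/
def permAugR (σ : G) : (X → ℝ) →+ (X → ℝ) := permHomR G X σ - AddMonoidHom.id _

/-- The norm `∑_τ τ` on `ℤ^X`. -/
noncomputable def permNorm [Fintype G] : (X → ℤ) →+ (X → ℤ) := ∑ τ : G, permHom G X τ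

/-- The norm `∑_τ τ` on `ℝ^X`. -/
noncomputable def permNormR [Fintype G] : (X → ℝ) →+ (X → ℝ) := ∑ τ : G, permHomR G X τ

/-- The sum of all coordinates. -/
def sumHom [Fintype X] : (X → ℤ) →+ ℤ where
  toFun a := ∑ x, a x
  map_zero' := by simp
  map_add' a b := by simp [Finset.sum_add_distrib]

/-- The trace-zero sublattice of `ℤ^X`. -/
def traceZero [Fintype X] : AddSubgroup (X → ℤ) := (sumHom X).ker

/-- The product over the `G`-orbits of `X` of the orders of the stabilisers. -/
noncomputable def stabProd [Fintype X] : ℕ :=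
  letI := Classical.decEq (MulAction.orbitRel.Quotient G X)
  haveI : Fintype (MulAction.orbitRel.Quotient G X) := Fintype.ofFinite _
  ∏ o : MulAction.orbitRel.Quotient G X, Nat.card (MulAction.stabilizer G o.out)

end Perm

/-- **(P1) permutation modules.** `G = ⟨σ⟩` finite cyclic, `X` a finite `G`-set:
`Ĥ⁰(G, ℤ^X)` has order `∏_{orbits} |Stab|` and `Ĥ⁻¹(G, ℤ^X) = 0`. -/
def PermSpec : Prop :=
  ∀ (G : Type u) [Group G] [Fintype G] (X : Type v) [Fintype X] [MulAction G X] (σ : G),
    (∀ τ : G, τ ∈ Subgroup.zpowers σ) →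
      hIndex (permAug G X σ) (permNorm G X) = stabProd G X ∧
      hIndex (permNorm G X) (permAug G X σ) = 1

/-- **(P2) trace-zero sublattice.** For nonempty `X`:
`h(Λ₀) = ∏_{orbits} |Stab| / |G|`, both indices finite. -/
def TraceZeroSpec : Prop :=
  ∀ (G : Type u) [Group G] [Fintype G] (X : Type v) [Fintype X] [Nonempty X] [MulAction G X]
    (σ : G), (∀ τ : G, τ ∈ Subgroup.zpowers σ) →
      hIndexSub (permAug G X σ) (permNorm G X) (traceZero X) ≠ 0 ∧
      hIndexSub (permNorm G X) (permAug G X σ) (traceZero X) ≠ 0 ∧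
      hIndexSub (permAug G X σ) (permNorm G X) (traceZero X) * Fintype.card G =
        hIndexSub (permNorm G X) (permAug G X σ) (traceZero X) * stabProd G X

/-! ## 2. The lattice lemma -/

/-- **(LAT) lattice lemma.** Two `s`-stable `ℤ`-lattices `Λ₁ = ⊕ ℤ b₁ i`, `Λ₂ = ⊕ ℤ b₂ i` spanning
the same real subspace of `V` (where `s` is a linear map of finite order) have finite Herbrand
indices with respect to `(s - 1, 1 + s + ⋯ + s^(n-1))` and the same Herbrand quotient. -/
def LatticeSpec : Prop :=
  ∀ (V : Type u) [AddCommGroup V] [Module ℝ V] (s : V →ₗ[ℝ] V) (n r : ℕ), 0 < n → s ^ n = 1 →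
    ∀ (b₁ b₂ : Fin r → V), LinearIndependent ℝ b₁ → LinearIndependent ℝ b₂ →
      Submodule.span ℝ (Set.range b₁) = Submodule.span ℝ (Set.range b₂) →
      (∀ i, s (b₁ i) ∈ Submodule.span ℤ (Set.range b₁)) →
      (∀ i, s (b₂ i) ∈ Submodule.span ℤ (Set.range b₂)) →
      let F : V →+ V := (s - 1 : V →ₗ[ℝ] V).toAddMonoidHom
      let N : V →+ V := (∑ k ∈ Finset.range n, s ^ k : V →ₗ[ℝ] V).toAddMonoidHom
      let Λ₁ : AddSubgroup V := (Submodule.span ℤ (Set.range b₁)).toAddSubgroup
      let Λ₂ : AddSubgroup V := (Submodule.span ℤ (Set.range b₂)).toAddSubgroup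
      hIndexSub F N Λ₁ ≠ 0 ∧ hIndexSub N F Λ₁ ≠ 0 ∧ hIndexSub F N Λ₂ ≠ 0 ∧ hIndexSub N F Λ₂ ≠ 0 ∧
        hIndexSub F N Λ₁ * hIndexSub N F Λ₂ = hIndexSub F N Λ₂ * hIndexSub N F Λ₁

/-! ## 3. Units of number fields -/

section Units

variable (K : Type u) (L : Type v) [Field K] [Field L] [Algebra K L]

/-- The action of `τ ∈ Gal(L/K)` on `Lˣ`, additively. -/
def unitsHom (τ : L ≃ₐ[K] L) : Additive Lˣ →+ Additive Lˣ :=
  MonoidHom.toAdditive (Units.map ((τ : L →+* L) : L →* L))

/-- `x ↦ σ x / x` on `Lˣ`, additively. -/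
def unitsAug (σ : L ≃ₐ[K] L) : Additive Lˣ →+ Additive Lˣ :=
  unitsHom K L σ - AddMonoidHom.id _

/-- The norm `x ↦ ∏_τ τ x` on `Lˣ`, additively. -/
noncomputable def unitsNorm [FiniteDimensional K L] : Additive Lˣ →+ Additive Lˣ :=
  ∑ τ : (L ≃ₐ[K] L), unitsHom K L τ

variable [NumberField L]

/-- The units of the ring of integers, as a subgroup of `Lˣ` (additively). -/
def intUnits : AddSubgroup (Additive Lˣ) :=
  (Units.map ((algebraMap (𝓞 L) L : 𝓞 L →+* L) : 𝓞 L →* L)).range.toAddSubgroup

variable [NumberField K]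

/-- The primes of `L` lying over a prime of `K` in the finite set `T`. -/
def primesAbove (T : Finset (IsDedekindDomain.HeightOneSpectrum (𝓞 K))) :
    Set (IsDedekindDomain.HeightOneSpectrum (𝓞 L)) :=
  {w | ∃ v ∈ T, w.asIdeal.under (𝓞 K) = v.asIdeal}

/-- The `T`-units of `L` (units outside the primes above `T`), as a subgroup of `Lˣ`
(additively). -/
noncomputable def sUnits (T : Finset (IsDedekindDomain.HeightOneSpectrum (𝓞 K))) :
    AddSubgroup (Additive Lˣ) :=
  ((primesAbove K L T).unit L).toAddSubgroup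

/-- The product of the local degrees at the infinite places of `K`. -/
noncomputable def infDegProd : ℕ :=
  ∏ v : InfinitePlace K, (letI := Classical.propDecidable (v.IsUnramifiedIn L)
    if v.IsUnramifiedIn L then 1 else 2)

/-- The product of the local degrees `e_v f_v` at the primes in `T`. -/
noncomputable def finDegProd (T : Finset (IsDedekindDomain.HeightOneSpectrum (𝓞 K))) : ℕ :=
  ∏ v ∈ T, (v.asIdeal.ramificationIdxIn (𝓞 L) * v.asIdeal.inertiaDegIn (𝓞 L))

/-- The real hyperplane of trace-zero functions on the infinite places. -/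
noncomputable def traceZeroR : Submodule ℝ (InfinitePlace L → ℝ) :=
  LinearMap.ker (∑ w : InfinitePlace L, LinearMap.proj w : (InfinitePlace L → ℝ) →ₗ[ℝ] ℝ)

end Units

/-- **(U-LOG) equivariant logarithmic lattice of the units.** -/
def UnitsLogSpec : Prop :=
  ∀ (K : Type u) (L : Type v) [Field K] [Field L] [NumberField K] [NumberField L] [Algebra K L]
    [IsGalois K L],
    ∃ φ : Additive Lˣ →+ (InfinitePlace L → ℝ),
      (∀ (τ : L ≃ₐ[K] L) (x : Additive Lˣ),
        φ (unitsHom K L τ x) = permHomR (L ≃ₐ[K] L) (InfinitePlace L) τ (φ x)) ∧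
      Finite ↥(φ.ker ⊓ intUnits L) ∧
      ∃ (r : ℕ) (b : Fin r → (InfinitePlace L → ℝ)), LinearIndependent ℝ b ∧
        Submodule.span ℝ (Set.range b) = traceZeroR L ∧
        (intUnits L).map φ = (Submodule.span ℤ (Set.range b)).toAddSubgroup

/-- **(U-ORB) orbits of the infinite places.** -/
def OrbitInfSpec : Prop :=
  ∀ (K : Type u) (L : Type v) [Field K] [Field L] [NumberField K] [NumberField L] [Algebra K L]
    [IsGalois K L], stabProd (L ≃ₐ[K] L) (InfinitePlace L) = infDegProd K L

/-- **(U) Herbrand quotient of the units**: for `L/K` cyclic of degree `n`,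
`h(𝒪_L^×) = (∏_{v | ∞} n_v) / n`. -/
def UnitsHerbrandSpec : Prop :=
  ∀ (K : Type u) (L : Type v) [Field K] [Field L] [NumberField K] [NumberField L] [Algebra K L]
    [IsGalois K L] (σ : L ≃ₐ[K] L), (∀ τ : L ≃ₐ[K] L, τ ∈ Subgroup.zpowers σ) →
      hIndexSub (unitsAug K L σ) (unitsNorm K L) (intUnits L) ≠ 0 ∧
      hIndexSub (unitsNorm K L) (unitsAug K L σ) (intUnits L) ≠ 0 ∧
      hIndexSub (unitsAug K L σ) (unitsNorm K L) (intUnits L) * Module.finrank K L =
        hIndexSub (unitsNorm K L) (unitsAug K L σ) (intUnits L) * infDegProd K L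

/-- **(S-ORD) the valuation map on `T`-units.**  There is an equivariant map from `Lˣ` to the
permutation lattice on the primes above `T` whose kernel on the `T`-units is the group of
units and whose image on the `T`-units has finite index; the stabiliser product of the
`G`-set of primes above `T` is `∏_{v ∈ T} e_v f_v`. -/
def SUnitsOrdSpec : Prop :=
  ∀ (K : Type u) (L : Type v) [Field K] [Field L] [NumberField K] [NumberField L] [Algebra K L]
    [IsGalois K L] (T : Finset (IsDedekindDomain.HeightOneSpectrum (𝓞 K))),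
    ∃ (_ : MulAction (L ≃ₐ[K] L) ↥(primesAbove K L T)) (_ : Fintype ↥(primesAbove K L T))
      (ψ : Additive Lˣ →+ (↥(primesAbove K L T) → ℤ)),
      (∀ (τ : L ≃ₐ[K] L) (x : Additive Lˣ),
        ψ (unitsHom K L τ x) = permHom (L ≃ₐ[K] L) ↥(primesAbove K L T) τ (ψ x)) ∧
      ψ.ker ⊓ sUnits K L T = intUnits L ∧
      ((sUnits K L T).map ψ).index ≠ 0 ∧
      stabProd (L ≃ₐ[K] L) ↥(primesAbove K L T) = finDegProd K L T

/-- **(S) Herbrand quotient of the `T`-units**: for `L/K` cyclic of degree `n`,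
`h(𝒪_{L,T}^×) = (∏_{v | ∞} n_v) (∏_{v ∈ T} e_v f_v) / n`. -/
def SUnitsHerbrandSpec : Prop :=
  ∀ (K : Type u) (L : Type v) [Field K] [Field L] [NumberField K] [NumberField L] [Algebra K L]
    [IsGalois K L] (σ : L ≃ₐ[K] L), (∀ τ : L ≃ₐ[K] L, τ ∈ Subgroup.zpowers σ) →
    ∀ T : Finset (IsDedekindDomain.HeightOneSpectrum (𝓞 K)),
      hIndexSub (unitsAug K L σ) (unitsNorm K L) (sUnits K L T) ≠ 0 ∧
      hIndexSub (unitsNorm K L) (unitsAug K L σ) (sUnits K L T) ≠ 0 ∧
      hIndexSub (unitsAug K L σ) (unitsNorm K L) (sUnits K L T) * Module.finrank K L =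
        hIndexSub (unitsNorm K L) (unitsAug K L σ) (sUnits K L T) *
          (infDegProd K L * finDegProd K L T)

end Fermat.Agent.S55.G

end
-- ===== PACK-END S55/G/SpecUnits.lean

-- ===== PACK-BEGIN S55/L/Inv481/Pair.lean
section


/-!
# S55 / layer L / leaf L-C2 (helper481): compatible pairs and pull-backs on `H²(Gal(L/K), Lˣ)`

A *Galois pair morphism* `(K, L) → (K', L')` is a ring homomorphism `ι : L →+* L'` together with a
group homomorphism `f : Gal(L'/K') →* Gal(L/K)` such that `ι (f g x) = g (ι x)`.  It induces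
`pull : H²(Gal(L/K), Lˣ) →+ H²(Gal(L'/K'), L'ˣ)`.  Inflation, restriction and transport are
special cases.
-/

set_option autoImplicit false

namespace Fermat.Agent.S55.L.Inv481

open groupCohomology CategoryTheory

/-- A morphism of Galois pairs `(K, L) → (K', L')`. -/
structure GalPair (K L K' L' : Type) [Field K] [Field L] [Algebra K L] [Field K'] [Field L']
    [Algebra K' L'] where
  /-- the ring homomorphism on the top fields -/
  ι : L →+* L'
  /-- the group homomorphism on the Galois groups -/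
  f : (L' ≃ₐ[K'] L') →* (L ≃ₐ[K] L)
  /-- compatibility -/
  comm : ∀ (g : L' ≃ₐ[K'] L') (x : L), ι (f g x) = g (ι x)

variable {K L K' L' : Type} [Field K] [Field L] [Algebra K L] [Field K'] [Field L']
  [Algebra K' L']

namespace GalPair

/-- A pair is determined by its ring homomorphism. -/
theorem f_eq_of_ι_eq {P Q : GalPair K L K' L'} (h : P.ι = Q.ι) : P.f = Q.f := by
  ext g x
  apply P.ι.injective
  rw [P.comm, h, Q.comm]

@[ext]
theorem ext' {P Q : GalPair K L K' L'} (h : P.ι = Q.ι) : P = Q := by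
  have hf := f_eq_of_ι_eq h
  cases P; cases Q
  simp only at h hf
  subst h; subst hf
  rfl

/-- The map on units, additively. -/
noncomputable def unitsMap (P : GalPair K L K' L') : Additive Lˣ →+ Additive L'ˣ :=
  MonoidHom.toAdditive (Units.map (P.ι : L →* L'))

@[simp] theorem unitsMap_apply (P : GalPair K L K' L') (x : Additive Lˣ) :
    P.unitsMap x = Additive.ofMul (Units.map (P.ι : L →* L') (Additive.toMul x)) := rfl

/-- The morphism of representations induced by a pair. -/
noncomputable def repHom (P : GalPair K L K' L') :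
    Rep.res P.f (unitsRep K L) ⟶ unitsRep K' L' :=
  Rep.ofHom
    (LinearMap.intertwiningMap_of_isIntertwiningMap _ _ P.unitsMap.toIntLinearMap (by
        intro g v
        apply Additive.toMul.injective
        apply Units.ext
        exact P.comm g _))

/-- The pull-back on `H²`. -/
noncomputable def pull (P : GalPair K L K' L') :
    H2 (unitsRep K L) →+ H2 (unitsRep K' L') :=
  (groupCohomology.map P.f P.repHom 2).hom.toAddMonoidHom

/-- `f'` is the pull-back of the cocycle `f` along `P`. -/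
def IsPull (P : GalPair K L K' L') (c : cocycles₂ (unitsRep K L))
    (c' : cocycles₂ (unitsRep K' L')) : Prop :=
  ∀ g h : L' ≃ₐ[K'] L',
    (c' : (L' ≃ₐ[K'] L') × (L' ≃ₐ[K'] L') → unitsRep K' L') (g, h) =
      Additive.ofMul (Units.map (P.ι : L →* L')
        (Additive.toMul ((c : (L ≃ₐ[K] L) × (L ≃ₐ[K] L) → unitsRep K L) (P.f g, P.f h))))

/-- The pull-back of a cocycle. -/
noncomputable def pullCocycle (P : GalPair K L K' L') (c : cocycles₂ (unitsRep K L)) :
    cocycles₂ (unitsRep K' L') :=
  (mapCocycles₂ P.f P.repHom).hom c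

theorem isPull_pullCocycle (P : GalPair K L K' L') (c : cocycles₂ (unitsRep K L)) :
    P.IsPull c (P.pullCocycle c) := by
  intro g h
  rfl

theorem pull_cls (P : GalPair K L K' L') (c : cocycles₂ (unitsRep K L)) :
    P.pull (cls c) = cls (P.pullCocycle c) := by
  have := H2π_comp_map_apply P.f P.repHom c
  exact this

theorem IsPull.eq_pullCocycle {P : GalPair K L K' L'} {c : cocycles₂ (unitsRep K L)}
    {c' : cocycles₂ (unitsRep K' L')} (h : P.IsPull c c') : c' = P.pullCocycle c := by
  apply cocycles₂_ext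
  intro g k
  rw [h g k]
  rfl

theorem IsPull.pull_cls {P : GalPair K L K' L'} {c : cocycles₂ (unitsRep K L)}
    {c' : cocycles₂ (unitsRep K' L')} (h : P.IsPull c c') : P.pull (cls c) = cls c' := by
  rw [h.eq_pullCocycle, GalPair.pull_cls]

end GalPair

end Fermat.Agent.S55.L.Inv481

namespace Fermat.Agent.S55.L.Inv481

open groupCohomology CategoryTheory

section Comp

variable {K L K' L' K'' L'' : Type} [Field K] [Field L] [Algebra K L] [Field K'] [Field L']
  [Algebra K' L'] [Field K''] [Field L''] [Algebra K'' L'']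

/-- every class is the class of a cocycle -/
theorem exists_cls_eq (x : H2 (unitsRep K L)) : ∃ c : cocycles₂ (unitsRep K L), cls c = x := by
  induction x using H2_induction_on with | @h c =>
  exact ⟨c, rfl⟩

/-- Composition of pairs. -/
def GalPair.comp (P : GalPair K L K' L') (Q : GalPair K' L' K'' L'') : GalPair K L K'' L'' where
  ι := Q.ι.comp P.ι
  f := P.f.comp Q.f
  comm g x := by
    simp only [RingHom.comp_apply, MonoidHom.comp_apply]
    rw [P.comm, Q.comm]

@[simp] theorem GalPair.comp_ι (P : GalPair K L K' L') (Q : GalPair K' L' K'' L'') :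
    (P.comp Q).ι = Q.ι.comp P.ι := rfl

@[simp] theorem GalPair.comp_f (P : GalPair K L K' L') (Q : GalPair K' L' K'' L'') :
    (P.comp Q).f = P.f.comp Q.f := rfl

theorem GalPair.pull_comp (P : GalPair K L K' L') (Q : GalPair K' L' K'' L'')
    (x : H2 (unitsRep K L)) : (P.comp Q).pull x = Q.pull (P.pull x) := by
  obtain ⟨c, rfl⟩ := exists_cls_eq x
  rw [GalPair.pull_cls, GalPair.pull_cls, GalPair.pull_cls]
  congr 1

/-- if two pairs have the same ring homomorphism, they have the same pull-back -/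
theorem GalPair.pull_congr {P Q : GalPair K L K' L'} (h : P.ι = Q.ι) : P.pull = Q.pull := by
  rw [GalPair.ext' h]

/-- The identity pair. -/
def GalPair.id (K L : Type) [Field K] [Field L] [Algebra K L] : GalPair K L K L where
  ι := RingHom.id L
  f := MonoidHom.id _
  comm _ _ := rfl

theorem GalPair.pull_id (x : H2 (unitsRep K L)) : (GalPair.id K L).pull x = x := by
  obtain ⟨c, rfl⟩ := exists_cls_eq x
  rw [GalPair.pull_cls]
  congr 1

theorem GalPair.pull_eq_self_of_ι_eq_id (P : GalPair K L K L) (h : P.ι = RingHom.id L)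
    (x : H2 (unitsRep K L)) : P.pull x = x := by
  have : P = GalPair.id K L := GalPair.ext' h
  rw [this, GalPair.pull_id]

end Comp

end Fermat.Agent.S55.L.Inv481

end
-- ===== PACK-END S55/L/Inv481/Pair.lean

-- ===== PACK-BEGIN S55/L/Unram784/Basic.lean
section


/-!
# S55, layer L, leaf L-A2 (helper784): comparison of rings of integers

Basic facts on complete discrete valuation subrings with finite residue field
(`IsLocalRingOfIntegers`): elements of `1 + 𝔪` are `N`-th powers for many `N`, hence have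
valuation one for every other ring of integers; the ring of integers of an extension restricts
to the ring of integers of the base (given a common uniformizer).  By-product: uniqueness of the
ring of integers (`RingOfIntegersUniqueSpec`, leaf L-A0).
-/

set_option autoImplicit false

namespace Fermat.Agent.S55.L

open IsLocalRing Polynomial

section Roots

variable {K : Type} [Field K] {A : ValuationSubring K}

/-- Hensel: in a complete local ring, an element of `1 + 𝔪` is an `N`-th power as soon as `N` is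
a unit. -/
theorem u784_exists_pow_eq_of_sub_one_mem {R : Type} [CommRing R] [IsLocalRing R]
    [IsAdicComplete (maximalIdeal R) R] (u : R) (hu : u - 1 ∈ maximalIdeal R) (N : ℕ)
    (hN : IsUnit (N : R)) : ∃ w : R, w ^ N = u := by
  have hN0 : N ≠ 0 := by
    rintro rfl
    simp at hN
  have : HenselianRing R (maximalIdeal R) := IsAdicComplete.henselianRing R _
  obtain ⟨a, ha, -⟩ := HenselianRing.is_henselian (I := maximalIdeal R) (X ^ N - C u)
    (monic_X_pow_sub_C u hN0) 1
    (by
      have : eval 1 (X ^ N - C u : R[X]) = -(u - 1) := by simp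
      rw [this]
      exact neg_mem hu)
    (by
      have : eval 1 (derivative (X ^ N - C u : R[X])) = (N : R) := by
        simp [derivative_X_pow]
      rw [this]
      exact hN.map _)
  refine ⟨a, ?_⟩
  have := ha
  simp only [IsRoot.def, eval_sub, eval_pow, eval_X, eval_C] at this
  exact sub_eq_zero.mp this

/-- The cardinality of the residue field, as an element of the ring, is in the maximal ideal. -/
theorem u784_card_residue_mem {R : Type} [CommRing R] [IsLocalRing R]
    [Finite (ResidueField R)] : ((Nat.card (ResidueField R) : ℕ) : R) ∈ maximalIdeal R := by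
  have := Fintype.ofFinite (ResidueField R)
  rw [← IsLocalRing.residue_eq_zero_iff, map_natCast, Nat.card_eq_fintype_card]
  exact FiniteField.cast_card_eq_zero _

theorem u784_two_le_card_residue {R : Type} [CommRing R] [IsLocalRing R]
    [Finite (ResidueField R)] : 2 ≤ Nat.card (ResidueField R) :=
  Finite.one_lt_card

/-- In a complete local ring with finite residue field, elements of `1 + 𝔪` are `N`-th powers for
arbitrarily large `N`. -/
theorem u784_exists_large_root {R : Type} [CommRing R] [IsLocalRing R]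
    [IsAdicComplete (maximalIdeal R) R] [Finite (ResidueField R)]
    (u : R) (hu : u - 1 ∈ maximalIdeal R) (n : ℕ) : ∃ N ≥ n, ∃ w : R, w ^ N = u := by
  refine ⟨Nat.card (ResidueField R) * n + 1, ?_, ?_⟩
  · have := u784_two_le_card_residue (R := R)
    nlinarith
  · apply u784_exists_pow_eq_of_sub_one_mem u hu
    have h1 : ((Nat.card (ResidueField R) * n + 1 : ℕ) : R) - 1 ∈ maximalIdeal R := by
      push_cast
      simpa using Ideal.mul_mem_right (n : R) _ (u784_card_residue_mem (R := R))
    by_contra hnu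
    have h2 : ((Nat.card (ResidueField R) * n + 1 : ℕ) : R) ∈ maximalIdeal R :=
      (IsLocalRing.mem_maximalIdeal _).mpr hnu
    have h3 : (1 : R) ∈ maximalIdeal R := by
      have := sub_mem h2 h1
      simp at this
    exact (Ideal.ne_top_iff_one _).mp (IsLocalRing.maximalIdeal.isMaximal R).ne_top h3

end Roots

section Val

variable {L : Type} [Field L] {B : ValuationSubring L}

theorem u784_not_valuation_lt_one_of_roots (hB : IsLocalRingOfIntegers B) (y : L) (hy : y ≠ 0)
    (hroots : ∀ n : ℕ, ∃ N ≥ n, ∃ w : L, w ^ N = y) : ¬ B.valuation y < 1 := by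
  obtain ⟨hdvr, -, -⟩ := hB
  intro hlt
  have hyB : y ∈ B := (B.valuation_le_one_iff y).mp hlt.le
  have hmem : ∀ n : ℕ, (⟨y, hyB⟩ : B) ∈ (maximalIdeal B) ^ n := by
    intro n
    obtain ⟨N, hN, w, hw⟩ := hroots n
    have hwlt : B.valuation w < 1 := by
      by_contra hcon
      rw [not_lt] at hcon
      have h1 : 1 ≤ B.valuation w ^ N := one_le_pow₀ hcon
      rw [← map_pow, hw] at h1
      exact absurd hlt (not_lt.mpr h1)
    have hwB : w ∈ B := (B.valuation_le_one_iff w).mp hwlt.le
    have hwm : (⟨w, hwB⟩ : B) ∈ maximalIdeal B := (B.valuation_lt_one_iff _).mpr hwlt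
    have hyw : (⟨y, hyB⟩ : B) = ⟨w, hwB⟩ ^ N := Subtype.ext (by simp [hw])
    rw [hyw]
    exact Ideal.pow_le_pow_right hN (Ideal.pow_mem_pow hwm N)
  have h0 : (⟨y, hyB⟩ : B) ∈ (⨅ n, (maximalIdeal B) ^ n : Ideal B) := by
    simpa [Ideal.mem_iInf] using hmem
  rw [Ideal.iInf_pow_eq_bot_of_isLocalRing _ (IsLocalRing.maximalIdeal.isMaximal _).ne_top] at h0
  have h1 : (⟨y, hyB⟩ : B) = 0 := by simpa using h0
  exact hy (congrArg Subtype.val h1)

/-- An element of `L` which has `N`-th roots for arbitrarily large `N` is a unit of every ring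
of integers of `L`. -/
theorem u784_valuation_eq_one_of_roots (hB : IsLocalRingOfIntegers B) (x : L) (hx : x ≠ 0)
    (h : ∀ n : ℕ, ∃ N ≥ n, ∃ w : L, w ^ N = x) : B.valuation x = 1 := by
  rcases lt_trichotomy (B.valuation x) 1 with hlt | heq | hgt
  · exact absurd hlt (u784_not_valuation_lt_one_of_roots hB x hx h)
  · exact heq
  · exfalso
    refine u784_not_valuation_lt_one_of_roots hB x⁻¹ (inv_ne_zero hx) ?_ ?_
    · intro n
      obtain ⟨N, hN, w, hw⟩ := h n
      exact ⟨N, hN, w⁻¹, by rw [inv_pow, hw]⟩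
    · rw [map_inv₀]
      exact inv_lt_one_of_one_lt₀ hgt

end Val

section Compare

variable {K L : Type} [Field K] [Field L] [Algebra K L] {A : ValuationSubring K}
  {B : ValuationSubring L}

theorem u784_pow_eq_one_imp {Γ : Type*} [LinearOrderedCommGroupWithZero Γ] (v : Γ) (n : ℕ)
    (hn : n ≠ 0) (h : v ^ n = 1) : v = 1 := by
  rcases lt_trichotomy v 1 with hlt | heq | hgt
  · exact absurd h (pow_lt_one₀ zero_le hlt hn).ne
  · exact heq
  · exact absurd h (one_lt_pow₀ hgt hn).ne'

/-- Units of a ring of integers of `K` are units of every ring of integers of every extension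
`L` of `K`. -/
theorem u784_valuation_algebraMap_unit (hA : IsLocalRingOfIntegers A)
    (hB : IsLocalRingOfIntegers B) (u : K) (hu : A.valuation u = 1) :
    B.valuation (algebraMap K L u) = 1 := by
  obtain ⟨hdvrA, hcA, hfA⟩ := hA
  have huA : u ∈ A := (A.valuation_le_one_iff u).mp hu.le
  have hunit : IsUnit (⟨u, huA⟩ : A) := (A.valuation_eq_one_iff _).mpr hu
  have hu0 : u ≠ 0 := by
    rintro rfl
    simp at hu
  have hQ : 2 ≤ Nat.card (ResidueField A) := u784_two_le_card_residue
  have hres : (⟨u, huA⟩ : A) ^ (Nat.card (ResidueField A) - 1) - 1 ∈ maximalIdeal A := by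
    rw [← IsLocalRing.residue_eq_zero_iff, map_sub, map_pow, map_one, sub_eq_zero]
    have := Fintype.ofFinite (ResidueField A)
    rw [Nat.card_eq_fintype_card]
    refine FiniteField.pow_card_sub_one_eq_one _ ?_
    intro h0
    rw [IsLocalRing.residue_eq_zero_iff] at h0
    exact (IsLocalRing.mem_maximalIdeal _).mp h0 hunit
  have hroots : ∀ n, ∃ N ≥ n, ∃ w : L,
      w ^ N = algebraMap K L (u ^ (Nat.card (ResidueField A) - 1)) := by
    intro n
    obtain ⟨N, hN, w, hw⟩ := u784_exists_large_root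
      ((⟨u, huA⟩ : A) ^ (Nat.card (ResidueField A) - 1)) hres n
    refine ⟨N, hN, algebraMap K L (w : K), ?_⟩
    rw [← map_pow]
    congr 1
    have := congrArg (Subtype.val) hw
    simpa using this
  have h1 := u784_valuation_eq_one_of_roots hB _
    ((map_ne_zero (algebraMap K L)).mpr (pow_ne_zero _ hu0)) hroots
  rw [map_pow, map_pow] at h1
  exact u784_pow_eq_one_imp _ _ (by omega) h1

/-- Decomposition `x = u * π ^ n` in a discrete valuation subring. -/
theorem u784_exists_unit_mul_pow (hA : IsLocalRingOfIntegers A) (π : K)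
    (hπA : IsUniformizer A π) (x : K) (hx : x ∈ A) (hx0 : x ≠ 0) :
    ∃ (n : ℕ) (u : K), A.valuation u = 1 ∧ x = u * π ^ n ∧ (x ∈ A.nonunits → n ≠ 0) := by
  obtain ⟨hdvrA, -, -⟩ := hA
  obtain ⟨hπ, hirr⟩ := hπA
  have hx0' : (⟨x, hx⟩ : A) ≠ 0 := fun h => hx0 (congrArg Subtype.val h)
  obtain ⟨n, u, hu⟩ := IsDiscreteValuationRing.eq_unit_mul_pow_irreducible hx0' hirr
  refine ⟨n, ((u : A) : K), (A.valuation_eq_one_iff _).mp u.isUnit, ?_, ?_⟩
  · have := congrArg Subtype.val hu
    simpa using this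
  · intro hxn hn
    subst hn
    rw [pow_zero, mul_one] at hu
    have h1 : A.valuation x = 1 := by
      have := (A.valuation_eq_one_iff (u : A)).mp u.isUnit
      rw [← hu] at this
      exact this
    exact (A.mem_nonunits_iff.mp hxn).ne h1

theorem u784_valuation_uniformizer_lt_one {M : Type} [Field M] {C : ValuationSubring M} (ϖ : M)
    (h : IsUniformizer C ϖ) : C.valuation ϖ < 1 := by
  obtain ⟨hπ, hirr⟩ := h
  rcases C.valuation_lt_one_or_eq_one ⟨ϖ, hπ⟩ with h1 | h1
  · exact h1
  · exact absurd ((C.valuation_eq_one_iff _).mpr h1) hirr.not_isUnit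

theorem u784_uniformizer_ne_zero {M : Type} [Field M] {C : ValuationSubring M} (ϖ : M)
    (h : IsUniformizer C ϖ) : ϖ ≠ 0 := by
  obtain ⟨hπ, hirr⟩ := h
  rintro rfl
  exact hirr.ne_zero rfl

variable (hA : IsLocalRingOfIntegers A) (hB : IsLocalRingOfIntegers B) (π : K)
  (hπA : IsUniformizer A π) (hπB : IsUniformizer B (algebraMap K L π))

include hA hB hπA hπB

theorem u784_algebraMap_mem {x : K} (hx : x ∈ A) : algebraMap K L x ∈ B := by
  rw [← B.valuation_le_one_iff]
  by_cases hx0 : x = 0
  · simp [hx0]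
  obtain ⟨n, u, hu, hxu, -⟩ := u784_exists_unit_mul_pow hA π hπA x hx hx0
  rw [hxu, map_mul, map_pow, map_mul, map_pow, u784_valuation_algebraMap_unit hA hB u hu, one_mul]
  exact pow_le_one₀ zero_le (u784_valuation_uniformizer_lt_one _ hπB).le

theorem u784_algebraMap_mem_nonunits {x : K} (hx : x ∈ A.nonunits) :
    algebraMap K L x ∈ B.nonunits := by
  rw [B.mem_nonunits_iff]
  by_cases hx0 : x = 0
  · simp [hx0]
  have hxA : x ∈ A := (A.valuation_le_one_iff x).mp (A.mem_nonunits_iff.mp hx).le
  obtain ⟨n, u, hu, hxu, hn⟩ := u784_exists_unit_mul_pow hA π hπA x hxA hx0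
  rw [hxu, map_mul, map_pow, map_mul, map_pow, u784_valuation_algebraMap_unit hA hB u hu, one_mul]
  exact pow_lt_one₀ zero_le (u784_valuation_uniformizer_lt_one _ hπB) (hn hx)

theorem u784_algebraMap_mem_iff (x : K) : algebraMap K L x ∈ B ↔ x ∈ A := by
  refine ⟨fun h => ?_, u784_algebraMap_mem hA hB π hπA hπB⟩
  by_contra hx
  have hgt : 1 < A.valuation x := by
    rw [← not_le, A.valuation_le_one_iff]
    exact hx
  have hx0 : x ≠ 0 := by
    rintro rfl
    simp at hgt
  have hinv : x⁻¹ ∈ A.nonunits := by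
    rw [A.mem_nonunits_iff, map_inv₀]
    exact inv_lt_one_of_one_lt₀ hgt
  have h1 := B.mem_nonunits_iff.mp (u784_algebraMap_mem_nonunits hA hB π hπA hπB hinv)
  rw [map_inv₀, map_inv₀] at h1
  have h2 : B.valuation (algebraMap K L x) ≤ 1 := (B.valuation_le_one_iff _).mpr h
  have h3 : B.valuation (algebraMap K L x) ≠ 0 := by
    rw [Ne, map_eq_zero, map_eq_zero]
    exact hx0
  have h4 : 1 ≤ (B.valuation (algebraMap K L x))⁻¹ := (one_le_inv₀ (zero_lt_iff.mpr h3)).mpr h2
  exact absurd h1 (not_lt.mpr h4)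

theorem u784_algebraMap_mem_nonunits_iff (x : K) :
    algebraMap K L x ∈ B.nonunits ↔ x ∈ A.nonunits := by
  refine ⟨fun h => ?_, u784_algebraMap_mem_nonunits hA hB π hπA hπB⟩
  have hB1 : B.valuation (algebraMap K L x) < 1 := B.mem_nonunits_iff.mp h
  have hxA : x ∈ A := (u784_algebraMap_mem_iff hA hB π hπA hπB x).mp
    ((B.valuation_le_one_iff _).mp hB1.le)
  rw [A.mem_nonunits_iff]
  rcases (A.valuation_lt_one_or_eq_one ⟨x, hxA⟩) with h1 | h1
  · exact h1
  · exact absurd (u784_valuation_algebraMap_unit hA hB x h1) hB1.ne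

end Compare

section Unique

theorem u784_le_of_isLocalRingOfIntegers {K : Type} [Field K] (A A' : ValuationSubring K)
    (hA : IsLocalRingOfIntegers A) (hA' : IsLocalRingOfIntegers A') : A ≤ A' := by
  intro x hx
  rw [← A'.valuation_le_one_iff]
  rcases A.valuation_lt_one_or_eq_one ⟨x, hx⟩ with h1 | h1
  · have h2 : A.valuation (1 + x) = 1 := Valuation.map_one_add_of_lt (v := A.valuation) h1
    have h3 := u784_valuation_algebraMap_unit (L := K) hA hA' (1 + x) h2
    rw [Algebra.algebraMap_self, RingHom.id_apply] at h3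
    have h4 : x = (1 + x) - 1 := by ring
    rw [h4]
    refine (Valuation.map_sub _ _ _).trans ?_
    simp [h3]
  · have h3 := u784_valuation_algebraMap_unit (L := K) hA hA' x h1
    rw [Algebra.algebraMap_self, RingHom.id_apply] at h3
    exact h3.le

/-- **L-A0** (by-product): the ring of integers of a local field is unique. -/
theorem u784_ringOfIntegersUnique : RingOfIntegersUniqueSpec := by
  intro K _ _ A A' hA hA'
  exact le_antisymm (u784_le_of_isLocalRingOfIntegers A A' hA hA')
    (u784_le_of_isLocalRingOfIntegers A' A hA' hA)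

end Unique

end Fermat.Agent.S55.L

end
-- ===== PACK-END S55/L/Unram784/Basic.lean

-- ===== PACK-BEGIN S55/L/Unram784/FieldLevel.lean
section


/-!
# S55, layer L, leaf L-A2 (helper784): structure of unramified extensions, field level

Setting (AKLB): `R ⊆ K`, `S ⊆ L` complete discrete valuation rings with finite residue fields and
their fraction fields, `R → S` local and unramified.  Then `L = K(β)` is finite Galois over `K`
of degree `[l : k]`, with cyclic Galois group generated by a Frobenius element.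
-/

set_option autoImplicit false
set_option linter.unusedSectionVars false

namespace Fermat.Agent.S55.L

open IsLocalRing Polynomial

section FieldLevel

variable {R S K L : Type} [CommRing R] [CommRing S] [IsDomain R] [IsDomain S]
  [IsDiscreteValuationRing R] [IsDiscreteValuationRing S]
  [Algebra R S] [IsLocalHom (algebraMap R S)]
  [IsAdicComplete (maximalIdeal R) R] [IsAdicComplete (maximalIdeal S) S]
  [Finite (ResidueField R)] [Finite (ResidueField S)]
  [Field K] [Field L] [Algebra R K] [IsFractionRing R K] [Algebra S L] [IsFractionRing S L]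
  [Algebra K L] [Algebra R L] [IsScalarTower R K L] [IsScalarTower R S L]

omit [IsDomain R] [IsDiscreteValuationRing R] [IsDomain S] [IsDiscreteValuationRing S]
  [IsLocalHom (algebraMap R S)] [IsAdicComplete (maximalIdeal R) R]
  [IsAdicComplete (maximalIdeal S) S] [Finite (ResidueField R)] [Finite (ResidueField S)]
  [IsFractionRing R K] [IsFractionRing S L] in
theorem u784_algebraMap_smul (a : R) (s : S) :
    algebraMap S L (a • s) = algebraMap R K a • algebraMap S L s := by
  rw [Algebra.smul_def, map_mul, ← IsScalarTower.algebraMap_apply R S L,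
    IsScalarTower.algebraMap_apply R K L, Algebra.smul_def]

omit [IsLocalHom (algebraMap R S)] [IsAdicComplete (maximalIdeal R) R]
  [IsAdicComplete (maximalIdeal S) S] [Finite (ResidueField R)] [Finite (ResidueField S)]
  [IsFractionRing R K] [IsFractionRing S L] [Algebra R L] [IsScalarTower R K L]
  [IsScalarTower R S L] [Algebra K L] [Algebra R K] [Algebra S L] in
/-- The image of a uniformizer of `R` is a uniformizer of `S`. -/
theorem u784_irreducible_algebraMap
    (hunr : (maximalIdeal R).map (algebraMap R S) = maximalIdeal S) (π : R)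
    (hπ : Irreducible π) : Irreducible (algebraMap R S π) := by
  rw [IsDiscreteValuationRing.irreducible_iff_uniformizer] at hπ ⊢
  rw [← hunr, hπ, Ideal.map_span, Set.image_singleton]

/-- Every element of `L` is a `K`-linear combination of powers of `β`. -/
theorem u784_field_span_pow (hunr : (maximalIdeal R).map (algebraMap R S) = maximalIdeal S)
    (g : R[X]) (hg : g.Monic) (hirr : Irreducible (g.map (residue R)))
    (hdeg : g.natDegree = Module.finrank (ResidueField R) (ResidueField S))
    (β : S) (hβ : (g.map (algebraMap R S)).IsRoot β) (y : L) :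
    ∃ c : Fin g.natDegree → K, y = ∑ i, c i • (algebraMap S L β) ^ (i : ℕ) := by
  obtain ⟨π, hπ⟩ := IsDiscreteValuationRing.exists_irreducible R
  have hϖ := u784_irreducible_algebraMap hunr π hπ
  obtain ⟨s, t, ht, rfl⟩ := IsFractionRing.div_surjective (A := S) y
  have ht0 : t ≠ 0 := nonZeroDivisors.ne_zero ht
  obtain ⟨m, u, hu⟩ := IsDiscreteValuationRing.eq_unit_mul_pow_irreducible ht0 hϖ
  obtain ⟨a, ha⟩ := u784_span_pow hunr g hg hirr hdeg β hβ (s * ((u⁻¹ : Sˣ) : S))
  have hπK : algebraMap R K π ≠ 0 := by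
    rw [Ne, map_eq_zero_iff _ (IsFractionRing.injective R K)]
    exact hπ.ne_zero
  refine ⟨fun i => algebraMap R K (a i) / (algebraMap R K π) ^ m, ?_⟩
  have hs : algebraMap S L s = algebraMap S L (s * ((u⁻¹ : Sˣ) : S)) * algebraMap S L (u : S) := by
    rw [← map_mul, mul_assoc, Units.inv_mul, mul_one]
  have htL : algebraMap S L t =
      algebraMap K L ((algebraMap R K π) ^ m) * algebraMap S L (u : S) := by
    rw [hu, map_mul, map_pow, map_pow, ← IsScalarTower.algebraMap_apply R S L,
      IsScalarTower.algebraMap_apply R K L, mul_comm]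
  have huL : algebraMap S L (u : S) ≠ 0 := by
    rw [Ne, map_eq_zero_iff _ (IsFractionRing.injective S L)]
    exact u.ne_zero
  have hπL : algebraMap K L ((algebraMap R K π) ^ m) ≠ 0 := by
    rw [Ne, map_eq_zero]
    exact pow_ne_zero _ hπK
  rw [hs, htL, mul_div_mul_right _ _ huL, ha, map_sum, Finset.sum_div]
  refine Finset.sum_congr rfl fun i _ => ?_
  rw [u784_algebraMap_smul (K := K), map_pow, Algebra.smul_def, Algebra.smul_def, map_div₀]
  field_simp

omit [IsLocalHom (algebraMap R S)] [IsAdicComplete (maximalIdeal R) R]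
  [IsAdicComplete (maximalIdeal S) S] [Finite (ResidueField R)] [Finite (ResidueField S)]
  [IsFractionRing S L] [Algebra R L] [IsScalarTower R K L]
  [IsScalarTower R S L] [Algebra K L] [Algebra S L] [Algebra R S] [IsDomain S]
  [IsDiscreteValuationRing S] in
theorem u784_irreducible_map_fraction (g : R[X]) (hg : g.Monic)
    (hirr : Irreducible (g.map (residue R))) : Irreducible (g.map (algebraMap R K)) :=
  (Monic.irreducible_iff_irreducible_map_fraction_map hg).mp
    (Monic.irreducible_of_irreducible_map (residue R) g hg hirr)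

omit [IsDomain R] [IsDiscreteValuationRing R] [IsDomain S] [IsDiscreteValuationRing S]
  [IsLocalHom (algebraMap R S)] [IsAdicComplete (maximalIdeal R) R]
  [IsAdicComplete (maximalIdeal S) S] [Finite (ResidueField R)] [Finite (ResidueField S)]
  [IsFractionRing R K] [IsFractionRing S L] in
theorem u784_aeval_algebraMap_eq_zero (g : R[X]) (β : S)
    (hβ : (g.map (algebraMap R S)).IsRoot β) :
    aeval (algebraMap S L β) (g.map (algebraMap R K)) = 0 := by
  rw [Polynomial.aeval_map_algebraMap, Polynomial.aeval_algebraMap_apply, Polynomial.aeval_def,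
    Polynomial.eval₂_eq_eval_map, hβ, map_zero]

theorem u784_minpoly_eq (g : R[X]) (hg : g.Monic)
    (hirr : Irreducible (g.map (residue R))) (β : S)
    (hβ : (g.map (algebraMap R S)).IsRoot β) :
    minpoly K (algebraMap S L β) = g.map (algebraMap R K) :=
  (minpoly.eq_of_irreducible_of_monic (u784_irreducible_map_fraction g hg hirr)
    (u784_aeval_algebraMap_eq_zero g β hβ) (hg.map _)).symm

theorem u784_isIntegral (g : R[X]) (hg : g.Monic) (β : S)
    (hβ : (g.map (algebraMap R S)).IsRoot β) : IsIntegral K (algebraMap S L β) :=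
  ⟨g.map (algebraMap R K), hg.map _, by
    rw [← Polynomial.aeval_def]
    exact u784_aeval_algebraMap_eq_zero g β hβ⟩

theorem u784_adjoin_eq_top (hunr : (maximalIdeal R).map (algebraMap R S) = maximalIdeal S)
    (g : R[X]) (hg : g.Monic) (hirr : Irreducible (g.map (residue R)))
    (hdeg : g.natDegree = Module.finrank (ResidueField R) (ResidueField S))
    (β : S) (hβ : (g.map (algebraMap R S)).IsRoot β) :
    IntermediateField.adjoin K {algebraMap S L β} = ⊤ := by
  rw [eq_top_iff]
  intro y _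
  obtain ⟨c, rfl⟩ := u784_field_span_pow (K := K) hunr g hg hirr hdeg β hβ y
  refine sum_mem fun i _ => ?_
  rw [Algebra.smul_def]
  exact mul_mem (IntermediateField.algebraMap_mem _ _)
    (pow_mem (IntermediateField.mem_adjoin_simple_self K _) _)

theorem u784_finiteDimensional (hunr : (maximalIdeal R).map (algebraMap R S) = maximalIdeal S)
    (g : R[X]) (hg : g.Monic) (hirr : Irreducible (g.map (residue R)))
    (hdeg : g.natDegree = Module.finrank (ResidueField R) (ResidueField S))
    (β : S) (hβ : (g.map (algebraMap R S)).IsRoot β) : FiniteDimensional K L := by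
  have h1 : FiniteDimensional K (IntermediateField.adjoin K {algebraMap S L β}) :=
    IntermediateField.adjoin.finiteDimensional (u784_isIntegral (K := K) (L := L) g hg β hβ)
  rw [u784_adjoin_eq_top hunr g hg hirr hdeg β hβ] at h1
  exact Module.Finite.equiv (IntermediateField.topEquiv (F := K) (E := L)).toLinearEquiv

theorem u784_finrank_eq (hunr : (maximalIdeal R).map (algebraMap R S) = maximalIdeal S)
    (g : R[X]) (hg : g.Monic) (hirr : Irreducible (g.map (residue R)))
    (hdeg : g.natDegree = Module.finrank (ResidueField R) (ResidueField S))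
    (β : S) (hβ : (g.map (algebraMap R S)).IsRoot β) :
    Module.finrank K L = g.natDegree := by
  have h1 := IntermediateField.adjoin.finrank (K := K)
    (u784_isIntegral (K := K) (L := L) g hg β hβ)
  rw [u784_adjoin_eq_top hunr g hg hirr hdeg β hβ, u784_minpoly_eq g hg hirr β hβ,
    hg.natDegree_map] at h1
  rw [← h1, IntermediateField.finrank_top']

/-- The reduction of `g` has `deg g` distinct roots in `l`. -/
theorem u784_card_roots_residue (g : R[X]) (hg : g.Monic)
    (hirr : Irreducible (g.map (residue R)))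
    (hdeg : g.natDegree = Module.finrank (ResidueField R) (ResidueField S)) :
    ((g.map (residue R)).map (algebraMap (ResidueField R) (ResidueField S))).roots.Nodup ∧
    Multiset.card ((g.map (residue R)).map
      (algebraMap (ResidueField R) (ResidueField S))).roots = g.natDegree := by
  have hdeg' : (g.map (residue R)).natDegree =
      Module.finrank (ResidueField R) (ResidueField S) := by
    rw [hg.natDegree_map, hdeg]
  have hsp := u784_splits_of_natDegree_eq (S := S) (g.map (residue R)) hirr hdeg'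
  have hsep : ((g.map (residue R)).map
      (algebraMap (ResidueField R) (ResidueField S))).Separable :=
    (PerfectField.separable_of_irreducible hirr).map
  refine ⟨Polynomial.nodup_roots hsep, ?_⟩
  rw [splits_iff_card_roots.mp hsp, (hg.map _).natDegree_map, hg.natDegree_map]

/-- `g` splits in `L`. -/
theorem u784_splits (g : R[X]) (hg : g.Monic)
    (hirr : Irreducible (g.map (residue R)))
    (hdeg : g.natDegree = Module.finrank (ResidueField R) (ResidueField S)) :
    ((g.map (algebraMap R K)).map (algebraMap K L)).Splits := by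
  classical
  have hsep : (g.map (residue R)).Separable := PerfectField.separable_of_irreducible hirr
  have hne : (g.map (residue R)).map (algebraMap (ResidueField R) (ResidueField S)) ≠ 0 :=
    ((hg.map _).map _).ne_zero
  have hlift : ∀ r : ResidueField S, ∃ a : S,
      ((g.map (residue R)).map (algebraMap (ResidueField R) (ResidueField S))).IsRoot r →
        ((g.map (algebraMap R S)).IsRoot a ∧ residue S a = r) := by
    intro r
    by_cases hr : ((g.map (residue R)).map
        (algebraMap (ResidueField R) (ResidueField S))).IsRoot r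
    · obtain ⟨a, ha⟩ := u784_exists_lift_root g hg hsep r hr
      exact ⟨a, fun _ => ha⟩
    · exact ⟨0, fun h => absurd h hr⟩
  choose lift hlift' using hlift
  have hgL : (g.map (algebraMap R K)).map (algebraMap K L) ≠ 0 := ((hg.map _).map _).ne_zero
  have hcard : ((g.map (residue R)).map
      (algebraMap (ResidueField R) (ResidueField S))).roots.toFinset.card ≤
      ((g.map (algebraMap R K)).map (algebraMap K L)).roots.toFinset.card := by
    refine Finset.card_le_card_of_injOn (fun r => algebraMap S L (lift r)) ?_ ?_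
    · intro r hr
      rw [Finset.mem_coe, Multiset.mem_toFinset, Polynomial.mem_roots hne] at hr
      rw [Finset.mem_coe, Multiset.mem_toFinset, Polynomial.mem_roots hgL, IsRoot.def,
        Polynomial.eval_map, ← Polynomial.aeval_def]
      exact u784_aeval_algebraMap_eq_zero g (lift r) (hlift' r hr).1
    · intro r hr r' hr' heq
      rw [Finset.mem_coe, Multiset.mem_toFinset, Polynomial.mem_roots hne] at hr hr'
      have h1 : lift r = lift r' := IsFractionRing.injective S L heq
      rw [← (hlift' r hr).2, ← (hlift' r' hr').2, h1]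
  rw [Multiset.toFinset_card_of_nodup (u784_card_roots_residue (S := S) g hg hirr hdeg).1,
    (u784_card_roots_residue (S := S) g hg hirr hdeg).2] at hcard
  rw [splits_iff_card_roots]
  refine le_antisymm (Polynomial.card_roots' _) ?_
  rw [(hg.map _).natDegree_map, hg.natDegree_map]
  exact hcard.trans (Multiset.toFinset_card_le _)

/-- An unramified extension of complete discretely valued fields (char. 0, finite residue
fields) is Galois. -/
theorem u784_isGalois [CharZero K]
    (hunr : (maximalIdeal R).map (algebraMap R S) = maximalIdeal S)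
    (g : R[X]) (hg : g.Monic) (hirr : Irreducible (g.map (residue R)))
    (hdeg : g.natDegree = Module.finrank (ResidueField R) (ResidueField S))
    (β : S) (hβ : (g.map (algebraMap R S)).IsRoot β) : IsGalois K L := by
  have hirrK := u784_irreducible_map_fraction (K := K) g hg hirr
  have hsplit : IsSplittingField K L (g.map (algebraMap R K)) := by
    refine ⟨u784_splits g hg hirr hdeg, ?_⟩
    have h1 := u784_adjoin_eq_top (K := K) (L := L) hunr g hg hirr hdeg β hβ
    have h2 := congrArg IntermediateField.toSubalgebra h1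
    rw [IntermediateField.adjoin_simple_toSubalgebra_of_isAlgebraic
      (u784_isIntegral (K := K) (L := L) g hg β hβ).isAlgebraic,
      IntermediateField.top_toSubalgebra] at h2
    rw [eq_top_iff, ← h2]
    refine Algebra.adjoin_mono ?_
    rw [Set.singleton_subset_iff, Polynomial.mem_rootSet]
    exact ⟨(hg.map _).ne_zero, u784_aeval_algebraMap_eq_zero g β hβ⟩
  exact IsGalois.of_separable_splitting_field (p := g.map (algebraMap R K)) hirrK.separable

end FieldLevel

end Fermat.Agent.S55.L

end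
-- ===== PACK-END S55/L/Unram784/FieldLevel.lean

-- ===== PACK-BEGIN S56/Euler/IndGlueH809.lean
section


/-!
# Row S56 / wall W-BASE / Euler characteristic — leaf IND, GLUE (helper809)

`ind_of : KeyStatement → PermCharpolyStatement → ArtinCountStatement → IndStatement`.

Index type `Option s` (`s` the finite set of cyclic `p'`-subgroups of ARTIN): `none ↦ ⊤`,
`some B ↦ B`; `W i = permData (Bs i) N`; weights `|G|` / `0` at `none` and `a_B^-` / `a_B^+` at
`some B`.  PERM (with `T = N.ρ g`, `σ_i = g` acting on `G ⧸ Bs i`) turns ARTIN (applied to all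
powers `g ^ t`) into the hypothesis of KEY; KEY plus the vanishing on `permData B N` gives
`|G| • f (permData ⊤ N) = 0`, and `permData ⊤ N ≅ N`.
-/

set_option autoImplicit false
set_option linter.style.haveILetI false

open Polynomial

noncomputable section

namespace Fermat.Agent.S56.Euler.H809

open Fermat.Agent.S56.Euler

variable {k G : Type} [Field k] [Group G]

/-- The zero representation. -/
def zeroData (k G : Type) [Field k] [Group G] : FDRepData k G where
  V := PUnit
  ρ := 1

/-- An additive invariant vanishes on the zero representation. -/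
lemma additive_zeroData {f : RepInv k G} (hf : IsAdditiveInv f) : f (zeroData k G) = 0 := by
  have h := hf (zeroData k G) (zeroData k G) (zeroData k G) LinearMap.id 0
    { equivar_i := fun g a => rfl
      equivar_q := fun g a => rfl
      inj := Function.injective_id
      surj := fun y => ⟨y, rfl⟩
      exact := by
        rw [LinearMap.range_id, LinearMap.ker_zero] }
  linarith

/-- Additive invariants are invariant under isomorphism. -/
lemma additive_iso {f : RepInv k G} (hf : IsAdditiveInv f) {A B : FDRepData k G}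
    (h : RepIso A B) : f A = f B := by
  obtain ⟨e, he⟩ := h
  have h := hf A B (zeroData k G) e.toLinearMap 0
    { equivar_i := fun g a => he g a
      equivar_q := fun g a => rfl
      inj := e.injective
      surj := fun y => ⟨0, rfl⟩
      exact := by
        rw [LinearMap.ker_zero]
        exact LinearEquiv.range e }
  rw [h, additive_zeroData hf, add_zero]

/-- `k[G/⊤] ⊗ N ≅ N`. -/
lemma permData_top_iso [Finite G] (N : FDRepData k G) :
    RepIso (permData (⊤ : Subgroup G) N) N := by
  haveI : Subsingleton (G ⧸ (⊤ : Subgroup G)) := QuotientGroup.subsingleton_quotient_top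
  let x₀ : G ⧸ (⊤ : Subgroup G) := ((1 : G) : G ⧸ (⊤ : Subgroup G))
  let e : ((G ⧸ (⊤ : Subgroup G)) →₀ N.V) ≃ₗ[k] N.V := Finsupp.uniqueLinearEquiv k N.V x₀
  refine ⟨e, fun g v => ?_⟩
  change e (diagRho (G ⧸ (⊤ : Subgroup G)) N.ρ g v) = N.ρ g (e v)
  induction v using Finsupp.induction_linear with
  | zero => simp
  | add v w hv hw => simp only [map_add, hv, hw]
  | single x n =>
    rw [diagRho_single]
    simp only [e, Finsupp.uniqueLinearEquiv_apply]
    rw [Subsingleton.elim (g • x) x₀, Subsingleton.elim x x₀]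
    simp

/-- fixed points of a power of `toPerm g` are the fixed points of `g ^ t`. -/
lemma card_fixed_toPerm_pow {X : Type} [MulAction G X] (g : G) (t : ℕ) :
    Nat.card {x : X // (MulAction.toPerm g ^ t) x = x} = Nat.card {x : X // g ^ t • x = x} := by
  have h : (MulAction.toPerm g ^ t : Equiv.Perm X) = MulAction.toPerm (g ^ t) :=
    (map_pow (MulAction.toPermHom G X) g t).symm
  simp only [h, MulAction.toPerm_apply]

/-- `a = a⁺ - a⁻`, multiplied by `c`. -/
lemma int_pos_neg_parts (a c : ℤ) :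
    a * c + (((-a).toNat : ℕ) : ℤ) * c = ((a.toNat : ℕ) : ℤ) * c := by
  have hB : ((a.toNat : ℕ) : ℤ) - (((-a).toNat : ℕ) : ℤ) = a := Int.toNat_sub_toNat_neg a
  linear_combination (-c) * hB

/-- **IND glue**: modular Artin induction from KEY, PERM and ARTIN. -/
theorem ind_of (hKey : KeyStatement) (hPerm : PermCharpolyStatement)
    (hArtin : ArtinCountStatement) : IndStatement := by
  intro p _ G _ _ f hf hvan N
  obtain ⟨s, a, hs, hcount⟩ := hArtin p G
  -- the data
  let I := Option {B : Subgroup G // B ∈ s}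
  let Bs : I → Subgroup G := fun i => i.elim ⊤ (fun B => B.1)
  let W : I → FDRepData (ZMod p) G := fun i => permData (Bs i) N
  let n : I → ℕ := fun i => i.elim (Nat.card G) (fun B => (- a B.1).toNat)
  let n' : I → ℕ := fun i => i.elim 0 (fun B => (a B.1).toNat)
  -- hypothesis of KEY from PERM + ARTIN
  have hchar : ∀ g : G, IsPRegular p g →
      ∏ i, LinearMap.charpoly ((W i).ρ g) ^ n i = ∏ i, LinearMap.charpoly ((W i).ρ g) ^ n' i := by
    intro g hg
    letI : ∀ i : I, Fintype (G ⧸ Bs i) := fun i => Fintype.ofFinite _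
    have hP := hPerm (ZMod p) N.V (N.ρ g) I (fun i => G ⧸ Bs i)
      (fun i => MulAction.toPerm g) n n' ?_
    · exact hP
    · intro t
      have hgt : IsPRegular p (g ^ t) := fun h => hg (h.trans (orderOf_pow_dvd t))
      have hA := hcount (g ^ t) hgt
      simp only [card_fixed_toPerm_pow]
      rw [Fintype.sum_option, Fintype.sum_option]
      have h1 : Nat.card {x : G ⧸ Bs none // g ^ t • x = x} = 1 := by
        haveI : Subsingleton (G ⧸ (⊤ : Subgroup G)) := QuotientGroup.subsingleton_quotient_top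
        haveI : Subsingleton (G ⧸ Bs none) := ‹Subsingleton (G ⧸ (⊤ : Subgroup G))›
        haveI : Nonempty {x : G ⧸ Bs none // g ^ t • x = x} :=
          ⟨⟨((1 : G) : G ⧸ Bs none), Subsingleton.elim _ _⟩⟩
        exact Nat.card_unique
      rw [h1]
      have hA' : ∑ B : {B : Subgroup G // B ∈ s},
          a B.1 * (Nat.card {x : G ⧸ B.1 // g ^ t • x = x} : ℤ) = (Nat.card G : ℤ) := by
        rw [← hA]
        exact Finset.sum_coe_sort s
          (fun B => a B * (Nat.card {x : G ⧸ B // g ^ t • x = x} : ℤ))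
      have hcast : ((n none * 1 + ∑ B : {B : Subgroup G // B ∈ s},
            n (some B) * Nat.card {x : G ⧸ Bs (some B) // g ^ t • x = x} : ℕ) : ℤ) =
          ((n' none * 1 + ∑ B : {B : Subgroup G // B ∈ s},
            n' (some B) * Nat.card {x : G ⧸ Bs (some B) // g ^ t • x = x} : ℕ) : ℤ) := by
        push_cast
        have hn : (n none : ℤ) = (Nat.card G : ℤ) := rfl
        have hn' : (n' none : ℤ) = 0 := by simp [n']
        rw [hn, hn', ← hA']
        simp only [zero_add, mul_one]
        rw [← Finset.sum_add_distrib]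
        refine Finset.sum_congr rfl (fun B _ => ?_)
        exact int_pos_neg_parts (a B.1) _
      exact_mod_cast hcast
  have hkey := hKey p G I W n n' hchar f hf
  rw [Fintype.sum_option, Fintype.sum_option] at hkey
  have hz : ∀ B : {B : Subgroup G // B ∈ s}, f (W (some B)) = 0 := fun B =>
    hvan B.1 (hs B.1 B.2).1 (hs B.1 B.2).2 N
  simp only [hz, mul_zero, Finset.sum_const_zero, add_zero] at hkey
  have hn : (n none : ℤ) = (Nat.card G : ℤ) := rfl
  have hn' : (n' none : ℤ) = 0 := by simp [n']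
  rw [hn, hn', zero_mul] at hkey
  have hG : (Nat.card G : ℤ) ≠ 0 := by
    exact_mod_cast Nat.card_pos.ne'
  have htop : f (permData (⊤ : Subgroup G) N) = 0 := by
    rcases mul_eq_zero.mp hkey with h | h
    · exact absurd h hG
    · exact h
  rw [← additive_iso hf (permData_top_iso N)]
  exact htop

end Fermat.Agent.S56.Euler.H809

end

end
-- ===== PACK-END S56/Euler/IndGlueH809.lean

-- ===== PACK-BEGIN S56/Euler/CompH486.lean
section
/-
S56 / W-BASE / Euler characteristic, leaf EUL-IND:COMP (helper486): composition factors.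
`compSeries : CompSeriesStatement` (verbatim target of `Euler/IndSpec.lean`), Mathlib-only
(uses the multiplicativity of the characteristic polynomial along an invariant submodule from
`S56/H486/T4Charpoly.lean`).
-/



set_option autoImplicit false

noncomputable section

namespace Fermat.Agent.S56.Euler.H486

open Fermat.Agent.S56.Euler

variable {k G : Type} [Field k] [Group G]

/-- The sub-representation on an invariant submodule, bundled. -/
def subData (W : FDRepData k G) (S : Submodule k W.V) (hS : ∀ g, S ≤ S.comap (W.ρ g)) :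
    FDRepData k G where
  V := S
  ρ := W.ρ.subrepresentation S hS

/-- The quotient representation by an invariant submodule, bundled. -/
def quotData (W : FDRepData k G) (S : Submodule k W.V) (hS : ∀ g, S ≤ S.comap (W.ρ g)) :
    FDRepData k G where
  V := W.V ⧸ S
  ρ := W.ρ.quotient S hS

lemma isShortExact_sub_quot (W : FDRepData k G) (S : Submodule k W.V)
    (hS : ∀ g, S ≤ S.comap (W.ρ g)) :
    IsShortExact (subData W S hS) W (quotData W S hS) S.subtype S.mkQ where
  equivar_i := fun _ _ => rfl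
  equivar_q := fun _ _ => rfl
  inj := Subtype.val_injective
  surj := Submodule.mkQ_surjective S
  exact := (Submodule.range_subtype S).trans (Submodule.ker_mkQ S).symm

lemma charpoly_sub_quot (W : FDRepData k G) (S : Submodule k W.V)
    (hS : ∀ g, S ≤ S.comap (W.ρ g)) (g : G) :
    LinearMap.charpoly (W.ρ g) =
      LinearMap.charpoly ((subData W S hS).ρ g) * LinearMap.charpoly ((quotData W S hS).ρ g) :=
  Fermat.Agent.S56.H486.t4_charpoly_eq_restrict_mul_mapQ S (W.ρ g) (hS g)

/-- An additive invariant vanishes on the zero representation. -/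
lemma additive_zero (W : FDRepData k G) [Subsingleton W.V] (f : RepInv k G)
    (hf : IsAdditiveInv f) : f W = 0 := by
  have h : IsShortExact W W W (LinearMap.id) (LinearMap.id) :=
    { equivar_i := fun _ _ => rfl
      equivar_q := fun _ _ => rfl
      inj := Function.injective_id
      surj := Function.surjective_id
      exact := Subsingleton.elim _ _ }
  have := hf W W W _ _ h
  omega

/-- Induction engine for `compSeries` (strong induction on the dimension). -/
theorem compSeries_aux (k : Type) [Field k] (G : Type) [Group G] (d : ℕ) :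
    ∀ W : FDRepData k G, Module.finrank k W.V = d →
    ∃ (n : ℕ) (T : Fin n → FDRepData k G), (∀ j, IsSimpleRep (T j)) ∧
      (∀ f : RepInv k G, IsAdditiveInv f → f W = ∑ j, f (T j)) ∧
      (∀ g : G, LinearMap.charpoly (W.ρ g) = ∏ j, LinearMap.charpoly ((T j).ρ g)) := by
  induction d using Nat.strong_induction_on with
  | _ d ih =>
  intro W hd
  by_cases h0 : Subsingleton W.V
  · -- the zero representation: no factors
    refine ⟨0, Fin.elim0, fun j => j.elim0, fun f hf => ?_, fun g => ?_⟩
    · rw [additive_zero W f hf, Finset.univ_eq_empty, Finset.sum_empty]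
    · rw [Finset.univ_eq_empty, Finset.prod_empty]
      exact Fermat.Agent.S56.H486.t4_charpoly_of_subsingleton (W.ρ g)
  have hnt : Nontrivial W.V := not_subsingleton_iff_nontrivial.mp h0
  by_cases hs : IsSimpleRep W
  · -- a simple representation: one factor
    refine ⟨1, fun _ => W, fun _ => hs, fun f _ => ?_, fun g => ?_⟩
    · rw [Fin.sum_univ_one]
    · rw [Fin.prod_univ_one]
  -- otherwise there is a proper nonzero invariant submodule
  have hex : ∃ S : Submodule k W.V, (∀ g, ∀ w ∈ S, W.ρ g w ∈ S) ∧ S ≠ ⊥ ∧ S ≠ ⊤ := by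
    by_contra hne
    apply hs
    refine ⟨hnt, fun S hS => ?_⟩
    by_contra hc
    rw [not_or] at hc
    exact hne ⟨S, hS, hc.1, hc.2⟩
  obtain ⟨S, hS', hbot, htop⟩ := hex
  have hS : ∀ g, S ≤ S.comap (W.ρ g) := fun g w hw => hS' g w hw
  have hlt1 : Module.finrank k (subData W S hS).V < d := by
    rw [← hd]
    exact Submodule.finrank_lt htop
  have hlt2 : Module.finrank k (quotData W S hS).V < d := by
    rw [← hd]
    have h1 : Module.finrank k (W.V ⧸ S) + Module.finrank k S = Module.finrank k W.V :=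
      Submodule.finrank_quotient_add_finrank S
    have h2 : 0 < Module.finrank k S := by
      rw [Module.finrank_pos_iff]
      exact Submodule.nontrivial_iff_ne_bot.mpr hbot
    change Module.finrank k (W.V ⧸ S) < Module.finrank k W.V
    omega
  obtain ⟨n₁, T₁, hT₁, hf₁, hc₁⟩ := ih _ hlt1 (subData W S hS) rfl
  obtain ⟨n₂, T₂, hT₂, hf₂, hc₂⟩ := ih _ hlt2 (quotData W S hS) rfl
  refine ⟨n₁ + n₂, Fin.append T₁ T₂, fun j => ?_, fun f hf => ?_, fun g => ?_⟩
  · refine Fin.addCases (fun i => ?_) (fun i => ?_) j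
    · rw [Fin.append_left]
      exact hT₁ i
    · rw [Fin.append_right]
      exact hT₂ i
  · rw [hf _ _ _ _ _ (isShortExact_sub_quot W S hS), hf₁ f hf, hf₂ f hf, Fin.sum_univ_add]
    congr 1
    · exact Finset.sum_congr rfl (fun i _ => by rw [Fin.append_left])
    · exact Finset.sum_congr rfl (fun i _ => by rw [Fin.append_right])
  · rw [charpoly_sub_quot W S hS g, hc₁ g, hc₂ g, Fin.prod_univ_add]
    congr 1
    · exact Finset.prod_congr rfl (fun i _ => by rw [Fin.append_left])
    · exact Finset.prod_congr rfl (fun i _ => by rw [Fin.append_right])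

/-- **EUL-IND:COMP.** Composition factors of a finite-dimensional representation. -/
theorem compSeries : CompSeriesStatement :=
  fun k _ G _ W => compSeries_aux k G _ W rfl

end Fermat.Agent.S56.Euler.H486

end

end
-- ===== PACK-END S56/Euler/CompH486.lean

-- ===== PACK-BEGIN S56/Euler/UniqH939.lean
section


/-!
# Row S56 / Euler characteristic / leaf EUL-IND:UNIQ (helper939)

`uniq_of : TraceIndepStatement → TraceSSStatement → UniqStatement`.

Multiplicative independence of the characteristic polynomials of pairwise non-isomorphic simple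
`𝔽_p[G]`-modules on `p`-regular elements, from the linear independence of their traces (TRIND)
and `tr(g) = tr(g_s)` (TRSS).

Proof (induction on `∑ (m i + m' i)`): cancel `min (m i) (m' i)` (`𝔽_p[T]` is a domain, the
characteristic polynomials are monic).  If the supports are disjoint, the next-to-leading
coefficients give `∑ (m i - m' i) tr_i = 0` on `p`-regular elements, hence everywhere by TRSS,
hence `p ∣ m i, m' i` by TRIND; the Frobenius of `𝔽_p[T]` is injective, so the relation holds
for `m / p`, `m' / p`.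
-/

set_option autoImplicit false

open Polynomial

noncomputable section

namespace Fermat.Agent.S56.Euler.H939

/-- The trace is minus the next-to-leading coefficient of the characteristic polynomial. -/
lemma trace_eq_neg_nextCoeff_charpoly {k V : Type} [Field k] [AddCommGroup V] [Module k V]
    [Module.Finite k V] (f : V →ₗ[k] V) :
    LinearMap.trace k V f = -(LinearMap.charpoly f).nextCoeff := by
  rw [LinearMap.charpoly_def, ← Matrix.trace_eq_neg_charpoly_nextCoeff,
    ← LinearMap.trace_eq_matrix_trace]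

/-- the weighted sum of traces from the weighted product of characteristic polynomials -/
lemma sum_trace_of_prod_charpoly {k : Type} [Field k] {ι : Type} [Fintype ι]
    (V : ι → Type) [∀ i, AddCommGroup (V i)] [∀ i, Module k (V i)] [∀ i, Module.Finite k (V i)]
    (f : ∀ i, V i →ₗ[k] V i) (m m' : ι → ℕ)
    (h : ∏ i, LinearMap.charpoly (f i) ^ m i = ∏ i, LinearMap.charpoly (f i) ^ m' i) :
    ∑ i, (m i : k) * LinearMap.trace k (V i) (f i) =
      ∑ i, (m' i : k) * LinearMap.trace k (V i) (f i) := by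
  have key : ∀ n : ι → ℕ, (∏ i, LinearMap.charpoly (f i) ^ n i).nextCoeff =
      -∑ i, (n i : k) * LinearMap.trace k (V i) (f i) := by
    intro n
    rw [Monic.nextCoeff_prod _ _ (fun i _ => (LinearMap.charpoly_monic (f i)).pow (n i)),
      ← Finset.sum_neg_distrib]
    refine Finset.sum_congr rfl fun i _ => ?_
    rw [(LinearMap.charpoly_monic (f i)).nextCoeff_pow, trace_eq_neg_nextCoeff_charpoly,
      nsmul_eq_mul, mul_neg, neg_neg]
  have h1 := key m
  rw [h, key m'] at h1
  exact (neg_injective h1).symm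

theorem uniq_of (hTI : TraceIndepStatement) (hSS : TraceSSStatement) : UniqStatement := by
  intro p _ G _ _ ι _ S hsimple hniso
  have hp : p.Prime := Fact.out
  suffices H : ∀ (N : ℕ) (m m' : ι → ℕ), ∑ i, (m i + m' i) = N →
      (∀ g : G, IsPRegular p g →
        ∏ i, LinearMap.charpoly ((S i).ρ g) ^ m i =
          ∏ i, LinearMap.charpoly ((S i).ρ g) ^ m' i) → m = m' by
    intro m m' h
    exact H _ m m' rfl h
  intro N
  induction N using Nat.strong_induction_on with
  | _ N ih =>
  intro m m' hN h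
  by_cases hd : ∃ i, 0 < m i ∧ 0 < m' i
  · -- cancel the common part
    obtain ⟨i₀, h1, h2⟩ := hd
    set d : ι → ℕ := fun i => min (m i) (m' i) with hd_def
    set m₁ : ι → ℕ := fun i => m i - d i with hm₁
    set m₁' : ι → ℕ := fun i => m' i - d i with hm₁'
    have e1 : ∀ i, m i = d i + m₁ i := fun i => by
      simp only [hm₁, hd_def]; omega
    have e2 : ∀ i, m' i = d i + m₁' i := fun i => by
      simp only [hm₁', hd_def]; omega
    have hlt : ∑ i, (m₁ i + m₁' i) < N := by
      rw [← hN]
      refine Finset.sum_lt_sum (fun i _ => ?_) ⟨i₀, Finset.mem_univ _, ?_⟩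
      · rw [e1 i, e2 i]; omega
      · have hdpos : 0 < d i₀ := by simp only [hd_def]; omega
        rw [e1 i₀, e2 i₀]; omega
    have hrel : ∀ g : G, IsPRegular p g →
        ∏ i, LinearMap.charpoly ((S i).ρ g) ^ m₁ i =
          ∏ i, LinearMap.charpoly ((S i).ρ g) ^ m₁' i := by
      intro g hg
      have hg' := h g hg
      have s1 : ∀ n n₁ : ι → ℕ, (∀ i, n i = d i + n₁ i) →
          ∏ i, LinearMap.charpoly ((S i).ρ g) ^ n i =
            (∏ i, LinearMap.charpoly ((S i).ρ g) ^ d i) *
              ∏ i, LinearMap.charpoly ((S i).ρ g) ^ n₁ i := by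
        intro n n₁ hn
        rw [← Finset.prod_mul_distrib]
        refine Finset.prod_congr rfl fun i _ => ?_
        rw [hn i, pow_add]
      rw [s1 m m₁ e1, s1 m' m₁' e2] at hg'
      have hne : (∏ i, LinearMap.charpoly ((S i).ρ g) ^ d i) ≠ 0 :=
        (monic_prod_of_monic _ _ fun i _ => (LinearMap.charpoly_monic _).pow _).ne_zero
      exact mul_left_cancel₀ hne hg'
    have := ih _ hlt m₁ m₁' rfl hrel
    funext i
    rw [e1 i, e2 i, congrFun this i]
  · -- disjoint supports
    have hdis : ∀ i, m i = 0 ∨ m' i = 0 := by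
      intro i
      rcases Nat.eq_zero_or_pos (m i) with h0 | h0
      · exact Or.inl h0
      · rcases Nat.eq_zero_or_pos (m' i) with h0' | h0'
        · exact Or.inr h0'
        · exact absurd ⟨i, h0, h0'⟩ hd
    -- trace relation on `p`-regular elements, then everywhere
    have htr : ∀ g : G, ∑ i, ((m i : ZMod p) - (m' i : ZMod p)) *
        LinearMap.trace (ZMod p) (S i).V ((S i).ρ g) = 0 := by
      intro g
      obtain ⟨g', hg', hgg'⟩ := hSS p G g
      have := sum_trace_of_prod_charpoly (fun i => (S i).V) (fun i => (S i).ρ g') m m' (h g' hg')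
      simp only [sub_mul, Finset.sum_sub_distrib, sub_eq_zero, hgg']
      exact this
    have hzero := hTI p G ι S hsimple hniso (fun i => (m i : ZMod p) - (m' i : ZMod p)) htr
    have hdvd : ∀ i, p ∣ m i ∧ p ∣ m' i := by
      intro i
      have hi := hzero i
      rcases hdis i with h0 | h0
      · rw [h0, Nat.cast_zero, zero_sub, neg_eq_zero, ZMod.natCast_eq_zero_iff] at hi
        exact ⟨h0 ▸ dvd_zero p, hi⟩
      · rw [h0, Nat.cast_zero, sub_zero, ZMod.natCast_eq_zero_iff] at hi
        exact ⟨hi, h0 ▸ dvd_zero p⟩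
    by_cases hN0 : N = 0
    · subst hN0
      have hall : ∀ i, m i + m' i = 0 := fun i =>
        (Finset.sum_eq_zero_iff.mp hN) i (Finset.mem_univ _)
      funext i
      have := hall i
      omega
    set m₁ : ι → ℕ := fun i => m i / p with hm₁
    set m₁' : ι → ℕ := fun i => m' i / p with hm₁'
    have e1 : ∀ i, m i = p * m₁ i := fun i => (Nat.mul_div_cancel' (hdvd i).1).symm
    have e2 : ∀ i, m' i = p * m₁' i := fun i => (Nat.mul_div_cancel' (hdvd i).2).symm
    have hNeq : N = p * ∑ i, (m₁ i + m₁' i) := by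
      rw [← hN, Finset.mul_sum]
      refine Finset.sum_congr rfl fun i _ => ?_
      rw [mul_add, ← e1 i, ← e2 i]
    have hlt : ∑ i, (m₁ i + m₁' i) < N := by
      have hpos : 0 < ∑ i, (m₁ i + m₁' i) := by
        rcases Nat.eq_zero_or_pos (∑ i, (m₁ i + m₁' i)) with h0 | h0
        · rw [h0, mul_zero] at hNeq
          exact absurd hNeq hN0
        · exact h0
      have h2 : 2 ≤ p := hp.two_le
      calc ∑ i, (m₁ i + m₁' i) < 2 * ∑ i, (m₁ i + m₁' i) := by omega
        _ ≤ p * ∑ i, (m₁ i + m₁' i) := Nat.mul_le_mul_right _ h2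
        _ = N := hNeq.symm
    have hrel : ∀ g : G, IsPRegular p g →
        ∏ i, LinearMap.charpoly ((S i).ρ g) ^ m₁ i =
          ∏ i, LinearMap.charpoly ((S i).ρ g) ^ m₁' i := by
      intro g hg
      have hg' := h g hg
      have s1 : ∀ n n₁ : ι → ℕ, (∀ i, n i = p * n₁ i) →
          ∏ i, LinearMap.charpoly ((S i).ρ g) ^ n i =
            (∏ i, LinearMap.charpoly ((S i).ρ g) ^ n₁ i) ^ p := by
        intro n n₁ hn
        rw [← Finset.prod_pow]
        refine Finset.prod_congr rfl fun i _ => ?_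
        rw [hn i, mul_comm, pow_mul]
      rw [s1 m m₁ e1, s1 m' m₁' e2] at hg'
      exact frobenius_inj (ZMod p)[X] p hg'
    have := ih _ hlt m₁ m₁' rfl hrel
    funext i
    rw [e1 i, e2 i, congrFun this i]

end Fermat.Agent.S56.Euler.H939

end

end
-- ===== PACK-END S56/Euler/UniqH939.lean

-- ===== PACK-BEGIN S56/Euler/TrIndH206.lean
section


/-!
# Row S56 / Euler characteristic / leaf EUL-IND:TRIND — `TraceIndepStatement` (helper206)

The trace functions `g ↦ tr(g | S_i)` of pairwise non-isomorphic simple `𝔽_p[G]`-modules are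
linearly independent over `𝔽_p`.

Route (memo `coord/S56-EULER-helper366.md` §2 (I2)), all Mathlib-only:

* `exists_smul_eq_single` — Jacobson density (`jacobson_density`) on the semisimple module
  `Π i, V i`; by Schur its endomorphisms are diagonal, so every additive endomorphism of `V i₀`
  commuting with `End_A (V i₀)` is induced by some `r : A` killing the other `V j`;
* `exists_commuting_trace_ne_zero` — `D = End_A V` is a finite division ring, hence a field
  (`littleWedderburn`), separable over the finite field `k`, so `Algebra.trace k D` is onto; the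
  rank-one map `v ↦ (λ * h v) • v₀` has `k`-trace `Tr_{D/k} λ`;
* `trace_indep` — the abstract statement for modules over a `k`-algebra;
* `traceIndep : TraceIndepStatement` — transfer through `Representation.asModule`.
-/

set_option autoImplicit false
set_option linter.style.haveILetI false

noncomputable section

namespace Fermat.Agent.S56.Euler.TrIndH206

open Module

section Density

variable {A : Type*} [Ring A]

/-- Schur: an endomorphism of a product of pairwise non-isomorphic simple modules has no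
off-diagonal components. -/
theorem end_pi_single_apply_of_ne {ι : Type*} [DecidableEq ι] (V : ι → Type*)
    [∀ i, AddCommGroup (V i)] [∀ i, Module A (V i)] [∀ i, IsSimpleModule A (V i)]
    (hne : ∀ i j, Nonempty (V i ≃ₗ[A] V j) → i = j)
    (u : (∀ i, V i) →ₗ[A] (∀ i, V i)) {i j : ι} (hij : i ≠ j) (v : V i) :
    u (Pi.single i v) j = 0 := by
  let w : V i →ₗ[A] V j := (LinearMap.proj j) ∘ₗ u ∘ₗ (LinearMap.single A V i)
  rcases w.bijective_or_eq_zero with hw | hw
  · exact absurd (hne i j ⟨LinearEquiv.ofBijective w hw⟩) hij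
  · have := congrArg (fun f => f v) hw
    simpa [w] using this

/-- Jacobson density for finitely many pairwise non-isomorphic finite simple modules: every
additive endomorphism of `V i₀` commuting with `End_A (V i₀)` is induced by an element of `A`
killing all the other `V j`. -/
theorem exists_smul_eq_single {ι : Type*} [Fintype ι] (V : ι → Type*)
    [∀ i, AddCommGroup (V i)] [∀ i, Module A (V i)] [∀ i, Finite (V i)]
    [∀ i, IsSimpleModule A (V i)]
    (hne : ∀ i j, Nonempty (V i ≃ₗ[A] V j) → i = j) (i₀ : ι)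
    (φ : V i₀ →+ V i₀) (hφ : ∀ (d : Module.End A (V i₀)) (v : V i₀), φ (d v) = d (φ v)) :
    ∃ r : A, (∀ v : V i₀, r • v = φ v) ∧ ∀ j, j ≠ i₀ → ∀ v : V j, r • v = 0 := by
  classical
  let M := ∀ i, V i
  have key : ∀ (u : M →ₗ[A] M) (w : V i₀),
      u (Pi.single i₀ w) = Pi.single i₀ (u (Pi.single i₀ w) i₀) := by
    intro u w
    funext j
    by_cases hj : j = i₀
    · subst hj; simp
    · rw [Pi.single_eq_of_ne hj]
      exact end_pi_single_apply_of_ne V hne u (Ne.symm hj) w
  have key2 : ∀ (u : M →ₗ[A] M) (m : M), u m i₀ = u (Pi.single i₀ (m i₀)) i₀ := by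
    intro u m
    conv_lhs => rw [← Finset.univ_sum_single m]
    rw [map_sum, Finset.sum_apply]
    refine Finset.sum_eq_single i₀ ?_ ?_
    · intro j _ hj
      exact end_pi_single_apply_of_ne V hne u hj (m j)
    · intro h; exact absurd (Finset.mem_univ _) h
  let f : M →ₗ[Module.End A M] M :=
    { toFun := fun m => Pi.single i₀ (φ (m i₀))
      map_add' := fun m m' => by
        show Pi.single i₀ (φ (m i₀ + m' i₀)) = _
        rw [map_add, Pi.single_add]
      map_smul' := fun u m => by
        show Pi.single i₀ (φ (u m i₀)) = u (Pi.single i₀ (φ (m i₀)))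
        let u₀ : Module.End A (V i₀) := (LinearMap.proj i₀) ∘ₗ u ∘ₗ (LinearMap.single A V i₀)
        have h1 : u m i₀ = u₀ (m i₀) := key2 u m
        have h2 : u (Pi.single i₀ (φ (m i₀))) = Pi.single i₀ (u₀ (φ (m i₀))) := key u _
        rw [h1, h2, hφ] }
  haveI : Finite M := inferInstance
  letI : Fintype M := Fintype.ofFinite M
  obtain ⟨r, hr⟩ := jacobson_density f Finset.univ
  refine ⟨r, fun v => ?_, fun j hj v => ?_⟩
  · have := congrFun (hr (Pi.single i₀ v) (Finset.mem_univ _)) i₀
    have h3 : f (Pi.single i₀ v) i₀ = φ v := by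
      show (Pi.single i₀ (φ ((Pi.single i₀ v : M) i₀)) : M) i₀ = φ v
      simp
    rw [h3] at this
    rw [this]
    show r • v = r • (Pi.single i₀ v : ∀ i, V i) i₀
    rw [Pi.single_eq_same]
  · have := congrFun (hr (Pi.single j v) (Finset.mem_univ _)) j
    have h3 : f (Pi.single j v) j = 0 := by
      show (Pi.single i₀ (φ ((Pi.single j v : M) i₀)) : M) j = 0
      rw [Pi.single_eq_of_ne hj]
    rw [h3] at this
    have h4 : r • (Pi.single j v : ∀ i, V i) j = 0 := this.symm
    rwa [Pi.single_eq_same] at h4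

end Density

section Abstract

variable {k A : Type*} [Field k] [Finite k] [Ring A] [Algebra k A]

/-- On a simple module `V` over an algebra over a finite field `k` (finite-dimensional over `k`)
there is a `k`-linear endomorphism commuting with `End_A V` whose `k`-trace is nonzero. -/
theorem exists_commuting_trace_ne_zero (V : Type*) [AddCommGroup V] [Module k V] [Module A V]
    [IsScalarTower k A V] [Module.Finite k V] [IsSimpleModule A V] :
    ∃ ψ : V →ₗ[k] V, (∀ (d : Module.End A V) (v : V), ψ (d v) = d (ψ v)) ∧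
      LinearMap.trace k V ψ ≠ 0 := by
  classical
  haveI : Finite V := Module.finite_of_finite k
  haveI : Nontrivial V := IsSimpleModule.nontrivial A V
  let D := Module.End A V
  haveI : Finite D := Finite.of_injective (fun d : D => (d : V → V)) DFunLike.coe_injective
  letI : Field D := littleWedderburn D
  haveI i3 : IsScalarTower k D V := ⟨fun c d v => rfl⟩
  obtain ⟨lam, hlam⟩ := Algebra.trace_surjective k D 1
  obtain ⟨v₀, hv₀⟩ := exists_ne (0 : V)
  let g : D →ₗ[D] V := LinearMap.toSpanSingleton D V v₀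
  have hg : LinearMap.ker g = ⊥ := LinearMap.ker_toSpanSingleton D hv₀
  obtain ⟨h, hh⟩ := g.exists_leftInverse_of_injective hg
  let gk : D →ₗ[k] V := g.restrictScalars k
  let hk : V →ₗ[k] D := h.restrictScalars k
  let mk : D →ₗ[k] D := Algebra.lmul k D lam
  refine ⟨gk ∘ₗ mk ∘ₗ hk, ?_, ?_⟩
  · intro d v
    have h1 : h (d v) = d * h v := h.map_smul d v
    show g (lam * h (d v)) = d (g (lam * h v))
    rw [h1]
    show (lam * (d * h v)) v₀ = d ((lam * h v) v₀)
    rw [← mul_assoc, mul_comm lam d, mul_assoc]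
    rfl
  · rw [LinearMap.trace_comp_comm']
    have : (mk ∘ₗ hk) ∘ₗ gk = mk := by
      refine LinearMap.ext fun d => ?_
      have h2 : h (g d) = d := by
        have := congrArg (fun f => f d) hh
        simpa using this
      show lam * h (g d) = lam * d
      rw [h2]
    rw [this]
    show Algebra.trace k D lam ≠ 0
    rw [hlam]
    exact one_ne_zero

/-- **Linear independence of traces**, abstract form: pairwise non-isomorphic simple modules
`V i` over an algebra `A` over a finite field `k`, finite-dimensional over `k`. -/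
theorem trace_indep {ι : Type*} [Fintype ι] (V : ι → Type*) [∀ i, AddCommGroup (V i)]
    [∀ i, Module k (V i)] [∀ i, Module A (V i)] [∀ i, IsScalarTower k A (V i)]
    [∀ i, Module.Finite k (V i)] [∀ i, IsSimpleModule A (V i)]
    (hne : ∀ i j, Nonempty (V i ≃ₗ[A] V j) → i = j) (a : ι → k)
    (h : ∀ r : A, ∑ i, a i * LinearMap.trace k (V i) (Algebra.lsmul k k (V i) r) = 0) (i₀ : ι) :
    a i₀ = 0 := by
  classical
  haveI : ∀ i, Finite (V i) := fun i => Module.finite_of_finite k
  obtain ⟨ψ, hψ, htr⟩ := exists_commuting_trace_ne_zero (k := k) (A := A) (V i₀)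
  obtain ⟨r, hr, hr0⟩ := exists_smul_eq_single V hne i₀ ψ.toAddMonoidHom hψ
  have h1 := h r
  rw [Finset.sum_eq_single i₀] at h1
  · have h2 : Algebra.lsmul k k (V i₀) r = ψ := LinearMap.ext fun v => hr v
    rw [h2] at h1
    exact (mul_eq_zero.mp h1).resolve_right htr
  · intro j _ hj
    have h2 : Algebra.lsmul k k (V j) r = 0 := LinearMap.ext fun v => hr0 j hj v
    rw [h2, map_zero, mul_zero]
  · intro hi; exact absurd (Finset.mem_univ _) hi

end Abstract

section Transfer

variable {k G : Type} [Field k] [Group G]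

/-- A simple representation gives a simple module over the group algebra. -/
theorem isSimpleModule_asModule (S : FDRepData k G) (hS : IsSimpleRep S) :
    IsSimpleModule (MonoidAlgebra k G) S.ρ.asModule := by
  haveI : Nontrivial S.ρ.asModule := hS.1
  rw [isSimpleModule_iff]
  refine { exists_pair_ne := exists_pair_ne _, eq_bot_or_eq_top := fun W => ?_ }
  let W' : Submodule k S.V :=
    (W.restrictScalars k).comap S.ρ.asModuleEquiv.symm.toLinearMap
  have hmem : ∀ x : S.V, x ∈ W' ↔ S.ρ.asModuleEquiv.symm x ∈ W := fun x => Iff.rfl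
  have hinv : ∀ g, ∀ w ∈ W', S.ρ g w ∈ W' := by
    intro g w hw
    rw [hmem] at hw ⊢
    rw [Representation.asModuleEquiv_symm_map_rho]
    exact W.smul_mem _ hw
  rcases hS.2 W' hinv with h | h
  · left
    refine (Submodule.eq_bot_iff _).mpr fun x hx => ?_
    have h1 : S.ρ.asModuleEquiv x ∈ W' := by
      rw [hmem, LinearEquiv.symm_apply_apply]; exact hx
    rw [h, Submodule.mem_bot] at h1
    exact (LinearEquiv.map_eq_zero_iff _).mp h1
  · right
    refine Submodule.eq_top_iff'.mpr fun x => ?_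
    have h1 : S.ρ.asModuleEquiv x ∈ W' := by rw [h]; exact Submodule.mem_top
    rw [hmem, LinearEquiv.symm_apply_apply] at h1
    exact h1

/-- An isomorphism of the associated modules gives an isomorphism of representations. -/
theorem repIso_of_linearEquiv (S T : FDRepData k G)
    (e : S.ρ.asModule ≃ₗ[MonoidAlgebra k G] T.ρ.asModule) : RepIso S T := by
  refine ⟨(S.ρ.asModuleEquiv.symm.trans (e.restrictScalars k)).trans T.ρ.asModuleEquiv,
    fun g a => ?_⟩
  show T.ρ.asModuleEquiv (e (S.ρ.asModuleEquiv.symm (S.ρ g a))) =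
    T.ρ g (T.ρ.asModuleEquiv (e (S.ρ.asModuleEquiv.symm a)))
  rw [Representation.asModuleEquiv_symm_map_rho, map_smul,
    Representation.asModuleEquiv_map_smul, Representation.asAlgebraHom_of]

/-- The trace of a group element on the associated module. -/
theorem trace_lsmul_of (S : FDRepData k G) (g : G) :
    LinearMap.trace k S.ρ.asModule
        (Algebra.lsmul k k S.ρ.asModule (MonoidAlgebra.of k G g)) =
      LinearMap.trace k S.V (S.ρ g) := by
  rw [← LinearMap.trace_conj' _ S.ρ.asModuleEquiv]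
  congr 1
  refine LinearMap.ext fun v => ?_
  rw [LinearEquiv.conj_apply_apply]
  show S.ρ.asModuleEquiv (MonoidAlgebra.of k G g • S.ρ.asModuleEquiv.symm v) = _
  rw [Representation.asModuleEquiv_map_smul, Representation.asAlgebraHom_of,
    LinearEquiv.apply_symm_apply]

/-- Extension of the trace relation from `G` to the group algebra. -/
theorem sum_trace_lsmul_eq_zero {ι : Type} [Fintype ι] (S : ι → FDRepData k G) (a : ι → k)
    (h : ∀ g : G, ∑ i, a i * LinearMap.trace k (S i).V ((S i).ρ g) = 0)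
    (r : MonoidAlgebra k G) :
    ∑ i, a i * LinearMap.trace k (S i).ρ.asModule
      (Algebra.lsmul k k (S i).ρ.asModule r) = 0 := by
  induction r using MonoidAlgebra.induction_linear with
  | zero => simp
  | add x y hx hy =>
    simp only [map_add, mul_add, Finset.sum_add_distrib, hx, hy, add_zero]
  | single g c =>
    have h1 : (MonoidAlgebra.single g c : MonoidAlgebra k G) = c • MonoidAlgebra.of k G g := by
      rw [MonoidAlgebra.smul_of]
    simp only [h1, map_smul, smul_eq_mul, trace_lsmul_of]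
    have h2 : ∀ i, a i * (c * LinearMap.trace k (S i).V ((S i).ρ g)) =
        c * (a i * LinearMap.trace k (S i).V ((S i).ρ g)) := fun i => by ring
    simp only [h2, ← Finset.mul_sum, h g, mul_zero]

end Transfer

/-- **TRIND**: the traces of pairwise non-isomorphic simple `𝔽_p[G]`-modules are linearly
independent over `𝔽_p`. -/
theorem traceIndep : TraceIndepStatement := by
  intro p _ G _ _ ι _ S hS hne a h i₀
  haveI : ∀ i, IsSimpleModule (MonoidAlgebra (ZMod p) G) (S i).ρ.asModule :=
    fun i => isSimpleModule_asModule (S i) (hS i)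
  exact trace_indep (k := ZMod p) (A := MonoidAlgebra (ZMod p) G)
    (fun i => (S i).ρ.asModule)
    (fun i j ⟨e⟩ => hne i j (repIso_of_linearEquiv (S i) (S j) e)) a
    (sum_trace_lsmul_eq_zero S a h) i₀

end Fermat.Agent.S56.Euler.TrIndH206

end

end
-- ===== PACK-END S56/Euler/TrIndH206.lean

-- ===== PACK-BEGIN S56/Euler/TrSSH635.lean
section


/-!
# Row S56 / Euler characteristic / leaf IND — TRSS (helper635)

`traceSS : TraceSSStatement`: for `g` in a finite group, `h := g ^ (p ^ orderOf g)` is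
`p`-regular and `tr(ρ g) = tr(ρ h)` for every finite-dimensional representation over `ZMod p`
(`tr(M ^ p) = (tr M) ^ p = tr M` over `ZMod p`).
-/

set_option autoImplicit false

namespace Fermat.Agent.S56.Euler.H635

open Fermat.Agent.S56.Euler

/-- Over `ZMod p`, `tr (f ^ p) = tr f`. -/
theorem trace_pow_prime (p : ℕ) [Fact p.Prime] {V : Type*} [AddCommGroup V] [Module (ZMod p) V]
    [Module.Finite (ZMod p) V] (f : V →ₗ[ZMod p] V) :
    LinearMap.trace (ZMod p) V (f ^ p) = LinearMap.trace (ZMod p) V f := by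
  classical
  let b := Module.finBasis (ZMod p) V
  rw [LinearMap.trace_eq_matrix_trace (ZMod p) b, LinearMap.trace_eq_matrix_trace (ZMod p) b,
    ← LinearMap.toMatrix_pow, ZMod.trace_pow_card, ZMod.pow_card]

/-- Over `ZMod p`, `tr (f ^ (p ^ N)) = tr f`. -/
theorem trace_pow_prime_pow (p : ℕ) [Fact p.Prime] {V : Type*} [AddCommGroup V]
    [Module (ZMod p) V] [Module.Finite (ZMod p) V] (f : V →ₗ[ZMod p] V) (N : ℕ) :
    LinearMap.trace (ZMod p) V (f ^ (p ^ N)) = LinearMap.trace (ZMod p) V f := by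
  induction N with
  | zero => simp
  | succ N ih => rw [pow_succ, pow_mul, trace_pow_prime, ih]

/-- `g ^ (p ^ N)` is `p`-regular as soon as `orderOf g ∣ p ^ N * m` with `p ∤ m`. -/
theorem isPRegular_pow (p : ℕ) [Fact p.Prime] {G : Type} [Group G] [Finite G] (g : G) :
    IsPRegular p (g ^ (p ^ orderOf g)) := by
  have hp : p.Prime := Fact.out
  have hn : orderOf g ≠ 0 := (orderOf_pos g).ne'
  obtain ⟨e, m, hm, hnm⟩ := Nat.exists_eq_pow_mul_and_not_dvd hn p hp.ne_one
  have he : e ≤ orderOf g := by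
    have h1 : p ^ e ≤ orderOf g := Nat.le_of_dvd (orderOf_pos g) ⟨m, hnm⟩
    exact (Nat.lt_pow_self hp.one_lt).le.trans h1
  have hdvd : orderOf g ∣ p ^ orderOf g * m := by
    conv_lhs => rw [hnm]
    exact Nat.mul_dvd_mul (pow_dvd_pow p he) dvd_rfl
  have h1 : (g ^ (p ^ orderOf g)) ^ m = 1 := by
    rw [← pow_mul]
    exact orderOf_dvd_iff_pow_eq_one.1 hdvd
  intro hdiv
  exact hm (hdiv.trans (orderOf_dvd_of_pow_eq_one h1))

/-- **TRSS.** -/
theorem traceSS : TraceSSStatement := by
  intro p _ G _ _ g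
  refine ⟨g ^ (p ^ orderOf g), isPRegular_pow p g, fun W => ?_⟩
  rw [map_pow, trace_pow_prime_pow]

end Fermat.Agent.S56.Euler.H635

end
-- ===== PACK-END S56/Euler/TrSSH635.lean

-- ===== PACK-BEGIN S56/P3/Spec.lean
section



/-!
# S56, piece P3 (`Fermat.Agent.S56.TWElementStatement`) : FROZEN SUB-INTERFACE

Sub-architect: helper306.  Plan + mathematics of every piece: `origin/helper306:coord/S56-P3.md`.
Top glue (PROVED, sorry-free): `Fermat/Agent/S56/P3/Glue.lean`

    twElement_of_pieces : AbstractTWElementStatement → ExistsRegularStatement →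
      CycloQuotientStatement → CycExpExistsStatement → DetOrderStatement →
      Fermat.Agent.S56.TWElementStatement

Every `...Statement : Prop` below is a deliverable: a piece is DONE when some file proves
`theorem <name> : Fermat.Agent.S56.P3.<Name>Statement` (sorry-free, standard axioms).
Glue pieces take the statements they need as hypotheses.
-/

set_option autoImplicit false

open Polynomial

namespace Fermat.Agent.S56.P3

/-! ## Part A : abstract group theory (`Γ` any group, `ρ : Γ →* End V`, `dim V = 2`) -/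

/-- (IRR) under `TWHyp`, `ad⁰ρ` is irreducible: a nonzero conjugation-stable subspace of the
trace-zero endomorphisms contains every trace-zero endomorphism. -/
def Ad0IrreducibleStatement : Prop :=
  ∀ (k : Type) [Field k] (V : Type) [AddCommGroup V] [Module k V] [Module.Finite k V]
    (Γ : Type) [Group Γ] (ρ : Γ →* Module.End k V) (p : ℕ) [Fact p.Prime], p ≠ 2 → TWHyp ρ p →
    ∀ W : Submodule k (Module.End k V), (∀ A ∈ W, LinearMap.trace k V A = 0) →
      (∀ g : Γ, ∀ A ∈ W, ρ g * A * ρ g⁻¹ ∈ W) → W ≠ ⊥ →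
      ∀ A : Module.End k V, LinearMap.trace k V A = 0 → A ∈ W

/-- (SPAN) `ρ|_Δ` is absolutely irreducible for `Δ ⊴ Γ` with cyclic quotient, in Burnside form:
the `k`-span of `ρ(Δ)` is all of `End V`. -/
def SpanDeltaStatement : Prop :=
  ∀ (k : Type) [Field k] (V : Type) [AddCommGroup V] [Module k V] [Module.Finite k V]
    (Γ : Type) [Group Γ] (ρ : Γ →* Module.End k V) (p : ℕ) [Fact p.Prime], p ≠ 2 → TWHyp ρ p →
    ∀ (Δ : Subgroup Γ) [Δ.Normal], IsCyclic (Γ ⧸ Δ) →
      Submodule.span k (Set.range fun δ : Δ => ρ (δ : Γ)) = ⊤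

/-- (REG) `Δ` contains an element with two distinct eigenvalues. -/
def ExistsRegularStatement : Prop :=
  ∀ (k : Type) [Field k] (V : Type) [AddCommGroup V] [Module k V] [Module.Finite k V]
    (Γ : Type) [Group Γ] (ρ : Γ →* Module.End k V) (p : ℕ) [Fact p.Prime], p ≠ 2 → TWHyp ρ p →
    ∀ (Δ : Subgroup Γ) [Δ.Normal], IsCyclic (Γ ⧸ Δ) → ∃ σ ∈ Δ, IsRegular ρ σ

/-- (H1-CORE) the matrix core of `H¹(Gal(F_n/ℚ), ad⁰ρ̄(1)) = 0` (helper726's classification-free
theorem): `ρ : G →* M₂(k)`, `H ⊴ G` with `det ρ = 1` on `H` and `span ρ(H) = M₂(k)`, some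
`det ρ(g) ∉ {1, -1}` if `p = 5`; a twisted trace-zero cocycle vanishing on `H ∩ ker ρ` is a
coboundary. -/
def H1CoreStatement : Prop :=
  ∀ (k : Type) [Field k] [Finite k] (p : ℕ) [Fact p.Prime], p ≠ 2 → (p : k) = 0 →
    ∀ (G : Type) [Group G] (ρ : G →* Matrix (Fin 2) (Fin 2) k) (H : Subgroup G) [H.Normal],
    (∀ h ∈ H, (ρ h).det = 1) → Submodule.span k (Set.range fun h : H => ρ (h : G)) = ⊤ →
    (p = 5 → ∃ g : G, (ρ g).det ≠ 1 ∧ (ρ g).det ≠ -1) →
    ∀ ψ : G → Matrix (Fin 2) (Fin 2) k, (∀ g, (ψ g).trace = 0) →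
      (∀ g h, ψ (g * h) = ψ g + (ρ g).det • (ρ g * ψ h * ρ g⁻¹)) →
      (∀ h ∈ H, ρ h = 1 → ψ h = 0) →
      ∃ m : Matrix (Fin 2) (Fin 2) k, m.trace = 0 ∧
        ∀ g, ψ g = (ρ g).det • (ρ g * m * ρ g⁻¹) - m

/-- (H1) `H¹(Gal(F_n/ℚ), ad⁰ρ̄(1)) = 0`: a cocycle vanishing on `Δ ∩ ker ρ` is a coboundary. -/
def H1VanishStatement : Prop :=
  ∀ (k : Type) [Field k] [Finite k] (V : Type) [AddCommGroup V] [Module k V]
    [Module.Finite k V] (Γ : Type) [Group Γ] (ρ : Γ →* Module.End k V) (p : ℕ)
    [Fact p.Prime], p ≠ 2 → TWHyp ρ p →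
    ∀ (Δ : Subgroup Γ) [Δ.Normal], IsCyclic (Γ ⧸ Δ) → (∀ δ ∈ Δ, LinearMap.det (ρ δ) = 1) →
    (∃ γ : Γ, orderOf (LinearMap.det (ρ γ)) = p - 1) →
    ∀ ψ : Γ → Module.End k V, _root_.Fermat.Agent.S56.P3.IsTwCocycle ρ ψ → (∀ δ ∈ Δ, ρ δ = 1 → ψ δ = 0) →
      _root_.Fermat.Agent.S56.P3.IsTwCoboundary ρ ψ

/-- (SEL) selection of a Taylor–Wiles element for a non-trivial class. -/
def AbstractTWElementStatement : Prop :=
  ∀ (k : Type) [Field k] [Finite k] (V : Type) [AddCommGroup V] [Module k V]
    [Module.Finite k V] (Γ : Type) [Group Γ] (ρ : Γ →* Module.End k V) (p : ℕ)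
    [Fact p.Prime], p ≠ 2 → TWHyp ρ p →
    ∀ (Δ : Subgroup Γ) [Δ.Normal], IsCyclic (Γ ⧸ Δ) → (∀ δ ∈ Δ, LinearMap.det (ρ δ) = 1) →
    (∃ γ : Γ, orderOf (LinearMap.det (ρ γ)) = p - 1) →
    ∀ ψ : Γ → Module.End k V, _root_.Fermat.Agent.S56.P3.IsTwCocycle ρ ψ → ¬ _root_.Fermat.Agent.S56.P3.IsTwCoboundary ρ ψ →
      ∃ σ ∈ Δ, IsTWElement ρ ψ σ

/-! ## Part B : arithmetic inputs for `Γ = G_ℚ` -/

/-- (CYC) `G_{ℚ(ζ_{p^(n+1)})}` is normal in `G_ℚ` with cyclic quotient (`p` odd). -/
def CycloQuotientStatement : Prop :=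
  ∀ (p : ℕ) [Fact p.Prime], p ≠ 2 → ∀ n : ℕ,
    ∃ _ : (fixRootsSubgroup p n).Normal, IsCyclic (_root_.Fermat.Agent.S56.P3.GQ ⧸ fixRootsSubgroup p n)

/-- (CYCEXP) every `σ ∈ G_ℚ` has a cyclotomic exponent on `μ_p`. -/
def CycExpExistsStatement : Prop :=
  ∀ (p : ℕ) [Fact p.Prime] (σ : _root_.Fermat.Agent.S56.P3.GQ), ∃ a : ℕ, Fermat.Agent.S56.IsCycExp p σ a

/-- (DETORD) the mod `p` cyclotomic character is onto `𝔽_p^×`: if `det ρ̄` is cyclotomic, it
takes a value of exact order `p - 1`. -/
def DetOrderStatement : Prop :=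
  ∀ (k : Type) [Field k] (p : ℕ) [Fact p.Prime] (ρbar : ResidualGaloisRep k),
    (GaloisRepAdic.ofResidualGaloisRep ρbar).DetIsCyclotomic p →
      ∃ γ : _root_.Fermat.Agent.S56.P3.GQ, orderOf (LinearMap.det (ρbar.ρ γ)) = p - 1

end Fermat.Agent.S56.P3

end
-- ===== PACK-END S56/P3/Spec.lean

-- ===== PACK-BEGIN S56/H176/FLDDiff.lean
section



/-!
# S56 / FL-D, part 3: the different of a totally ramified extension and Eisenstein perturbation

Setting of `FLDBasis`.  For a uniformiser `ϖ` of `B` with minimal polynomial `G` over `A`: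

* `FLD_differentIdeal_eq` : `differentIdeal A B = (G'(ϖ))`;
* `FLD_addVal_deriv_le`   : `v_B(G'(ϖ)) ≤ n · v_A(k · G_k) + (k - 1)` for `1 ≤ k ≤ n`;
* `FLD_addVal_deriv_le_of_perturb` : if a second uniformiser `ϖ'` has minimal polynomial
  `G + p X^k` (`1 ≤ k < n`, `k` a unit of `A`), then `v_B(G'(ϖ)) ≤ n · v_A(p) + (k - 1)`.
-/

set_option autoImplicit false

namespace Fermat.Agent.S56.H176

open IsDiscreteValuationRing Polynomial

section Diff

variable (A K : Type*) [CommRing A] [IsDomain A] [IsDiscreteValuationRing A]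
  [Field K] [Algebra A K] [IsFractionRing A K]
  (L : Type*) [Field L] [Algebra K L] [FiniteDimensional K L]
  [Algebra A L] [IsScalarTower A K L]
  (B : Type*) [CommRing B] [IsDomain B] [IsDiscreteValuationRing B] [Algebra B L]
  [IsIntegralClosure B A L] [Algebra A B] [IsScalarTower A B L]

include K L in
/-- The different is generated by `G'(ϖ)`. -/
theorem FLD_differentIdeal_eq [Algebra.IsSeparable K L] [Module.IsTorsionFree A B]
    (hram : ∀ a : A, addVal B (algebraMap A B a) = (Module.finrank K L) • addVal A a)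
    {ϖ : B} (hϖ : addVal B ϖ = 1) :
    differentIdeal A B = Ideal.span {aeval ϖ (derivative (minpoly A ϖ))} := by
  have h1 := conductor_mul_differentIdeal A K L ϖ (FLD_adjoin_field_eq_top A K L B hram hϖ)
  rw [conductor_eq_top_of_adjoin_eq_top (FLD_adjoin_eq_top A K L B hram hϖ), Ideal.top_mul] at h1
  exact h1

include K L in
/-- `v_B(G'(ϖ)) ≤ n v_A(k G_k) + (k - 1)`. -/
theorem FLD_addVal_deriv_le
    (hram : ∀ a : A, addVal B (algebraMap A B a) = (Module.finrank K L) • addVal A a)
    {ϖ : B} (hϖ : addVal B ϖ = 1) {k : ℕ} (hk1 : 1 ≤ k) (hkn : k ≤ Module.finrank K L) :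
    addVal B (aeval ϖ (derivative (minpoly A ϖ))) ≤
      (Module.finrank K L) • addVal A ((minpoly A ϖ).coeff k * (k : A)) + ((k - 1 : ℕ) : ℕ∞) := by
  have hdeg := FLD_natDegree_minpoly A K L B hram hϖ
  have hnpos : 0 < Module.finrank K L := Module.finrank_pos
  have hdlt : (derivative (minpoly A ϖ)).natDegree < Module.finrank K L := by
    rw [← hdeg]
    apply natDegree_derivative_lt
    rw [hdeg]
    omega
  rw [FLD_aeval_eq_sum _ hdlt]
  have hk' : k - 1 < Module.finrank K L := by omega
  have := FLD_addVal_sum_le hram hϖ (fun i => (derivative (minpoly A ϖ)).coeff i) hk'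
  refine le_trans this ?_
  rw [coeff_derivative]
  have hkk : k - 1 + 1 = k := by omega
  rw [hkk]
  have : ((k - 1 : ℕ) : A) + 1 = (k : A) := by
    have : ((k - 1 + 1 : ℕ) : A) = (k : A) := by rw [hkk]
    rw [← this]
    push_cast
    rfl
  rw [this]

end Diff

end Fermat.Agent.S56.H176

end
-- ===== PACK-END S56/H176/FLDDiff.lean

-- ===== PACK-BEGIN S56/H846/FLCnt/Quot.lean
section



/-!
# FL-CNT, step C2: an irreducible quotient of `W` has its unique break at `p - 1`
(helper846)  Mathlib only, nothing unproved.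
-/

set_option autoImplicit false
set_option linter.unusedSectionVars false
set_option linter.style.haveILetI false
set_option linter.unusedVariables false

namespace Fermat.Agent.S56.H846.FLCnt

variable {Γ k Z : Type} [Group Γ] [Field k] [AddCommGroup Z] [Module k Z]

/-- `N` is a maximal proper `Γ`-normal subgroup of `W` -/
structure IsMaxNormal (D : Data Γ k Z) (N : Subgroup Γ) : Prop where
  normal : N.Normal
  le : N ≤ D.W
  ne : N ≠ D.W
  max : ∀ N' : Subgroup Γ, N'.Normal → N ≤ N' → N' ≤ D.W → N' = N ∨ N' = D.W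

/-- `u` is the break of the quotient `W / N` -/
structure IsBreak (D : Data Γ k Z) (N : Subgroup Γ) (u : ℕ) : Prop where
  pos : 1 ≤ u
  le : D.W ≤ D.F N u
  inf : D.F N (u + 1) ⊓ D.W = N

namespace Hyp

variable {p : ℕ} [Fact p.Prime] {D : Data Γ k Z} (h : _root_.Fermat.Agent.S56.H846.FLCnt.Hyp p D)
include h

theorem max_exists_not_mem {N : Subgroup Γ} (M : IsMaxNormal D N) :
    ∃ σ ∈ D.W, σ ∉ N := by
  by_contra hcon
  push Not at hcon
  exact M.ne (le_antisymm M.le hcon)

theorem max_le_wild {N : Subgroup Γ} (M : IsMaxNormal D N) : N ≤ D.F ⊥ 1 :=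
  M.le.trans h.W_le_wild

theorem exists_break [Finite Γ] {N : Subgroup Γ} (M : IsMaxNormal D N) :
    ∃ u, IsBreak D N u := by
  classical
  have hN1 := h.max_le_wild M
  -- the filtration is eventually `N`
  have hB : ∃ B, D.F N B ≤ N := by
    haveI : Fintype Γ := Fintype.ofFinite Γ
    refine ⟨∑ σ : Γ, D.i N σ, fun σ hσ => ?_⟩
    rw [h.mem_F N M.normal M.le hN1] at hσ
    rcases hσ with hσ | hσ
    · exact hσ
    · exfalso
      have : D.i N σ ≤ ∑ σ : Γ, D.i N σ :=
        Finset.single_le_sum (f := fun σ => D.i N σ) (fun _ _ => Nat.zero_le _)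
          (Finset.mem_univ σ)
      omega
  have hex : ∃ n, ¬ D.W ≤ D.F N n := by
    obtain ⟨B, hB⟩ := hB
    exact ⟨B, fun hW => M.ne (le_antisymm M.le (hW.trans hB))⟩
  have h1 : D.W ≤ D.F N 1 := by
    rw [h.W_eq_wild]
    exact h.F_one N M.normal M.le hN1
  have h0 : D.W ≤ D.F N 0 := h1.trans (h.F_anti N M.normal M.le hN1 0)
  set n₀ := Nat.find hex with hn₀
  have hn₀1 : ¬ D.W ≤ D.F N n₀ := Nat.find_spec hex
  have hn₀2 : 2 ≤ n₀ := by
    by_contra hlt
    have : n₀ = 0 ∨ n₀ = 1 := by omega
    rcases this with h' | h'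
    · rw [h'] at hn₀1; exact hn₀1 h0
    · rw [h'] at hn₀1; exact hn₀1 h1
  have hu : D.W ≤ D.F N (n₀ - 1) := by
    by_contra hcon
    have := Nat.find_min' hex hcon
    omega
  refine ⟨n₀ - 1, by omega, hu, ?_⟩
  have hn : n₀ - 1 + 1 = n₀ := by omega
  rw [hn]
  haveI := h.F_normal N M.normal M.le hN1 n₀
  haveI := h.W_normal
  have hnorm : (D.F N n₀ ⊓ D.W).Normal := inferInstance
  rcases M.max _ hnorm (le_inf (h.le_F N M.normal M.le hN1 n₀) M.le) inf_le_right with h' | h'
  · exact h'
  · exfalso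
    exact hn₀1 (by rw [← h']; exact inf_le_left)

theorem break_not_mem {N : Subgroup Γ} {u : ℕ} (hu : IsBreak D N u) {σ : Γ} (hσ : σ ∈ D.W)
    (hσN : σ ∉ N) : σ ∉ D.F N (u + 1) := fun h' => hσN (by rw [← hu.inf]; exact ⟨h', hσ⟩)

theorem i_eq_of_break {N : Subgroup Γ} (M : IsMaxNormal D N) {u : ℕ} (hu : IsBreak D N u)
    {σ : Γ} (hσ : σ ∈ D.W) (hσN : σ ∉ N) : D.i N σ = u + 1 := by
  have hN1 := h.max_le_wild M
  have h1 := hu.le hσ
  have h2 := h.break_not_mem hu hσ hσN
  rw [h.mem_F N M.normal M.le hN1] at h1 h2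
  push Not at h2
  rcases h1 with h1 | h1
  · exact absurd h1 hσN
  · omega

/-- the commutator rule in the quotient `W / N` -/
theorem comm_rule_max {N : Subgroup Γ} (M : IsMaxNormal D N) {u : ℕ} (hu : IsBreak D N u)
    {σ : Γ} (hσ : σ ∈ D.W) (hσN : σ ∉ N) (j : ℕ) :
    D.τ₀ ^ j * σ * (D.τ₀ ^ j)⁻¹ * σ⁻¹ ∈ N ↔ (p - 1) * D.m ∣ j * u := by
  have hN1 := h.max_le_wild M
  have hrule := h.comm_rule N M.normal M.le hN1 u hu.pos σ (hu.le hσ)
    (h.break_not_mem hu hσ hσN) (D.τ₀ ^ j) (h.τ₀_pow_mem j)
  have hW : D.τ₀ ^ j * σ * (D.τ₀ ^ j)⁻¹ * σ⁻¹ ∈ D.W :=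
    D.W.mul_mem (h.W_normal.conj_mem σ hσ _) (D.W.inv_mem hσ)
  have e1 : D.τ₀ ^ j * σ * (D.τ₀ ^ j)⁻¹ * σ⁻¹ ∈ N ↔
      D.τ₀ ^ j * σ * (D.τ₀ ^ j)⁻¹ * σ⁻¹ ∈ D.F N (u + 1) :=
    ⟨fun h' => h.le_F N M.normal M.le hN1 _ h', fun h' => by rw [← hu.inf]; exact ⟨h', hW⟩⟩
  have e2 : (D.τ₀ ^ j) ^ u ∈ D.F N 1 ↔ D.τ₀ ^ (j * u) ∈ D.W := by
    rw [← pow_mul, h.W_eq_wild]
    exact ⟨fun h' => h.F_one' N M.normal M.le hN1 ⟨h', h.τ₀_pow_mem _⟩,
      fun h' => h.F_one N M.normal M.le hN1 h'⟩
  rw [e1, hrule, e2, h.τ₀_pow]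

/-- conjugates and commutators with elements of `N` stay in `N` -/
theorem comm_mem_of_mem {N : Subgroup Γ} (hN : N.Normal) {σ : Γ} (hσ : σ ∈ N) (g : Γ) :
    g * σ * g⁻¹ * σ⁻¹ ∈ N := N.mul_mem (hN.conj_mem σ hσ g) (N.inv_mem hσ)

/-- If `m ∣ j` then `τ₀ ^ j` commutes with `W`. -/
theorem comm_eq_one_of_dvd {j : ℕ} (hj : D.m ∣ j) {σ : Γ} (hσ : σ ∈ D.W) :
    D.τ₀ ^ j * σ * (D.τ₀ ^ j)⁻¹ * σ⁻¹ = 1 := by
  have h1 : D.ψ₀ ^ j = 1 := (h.ψ₀_pow j).2 hj
  have h2 : D.ψ₀⁻¹ ^ j = 1 := (h.ψ₀_inv_pow j).2 hj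
  refine h.c_inj _ (D.W.mul_mem (h.W_normal.conj_mem σ hσ _) (D.W.inv_mem hσ)) ?_ ?_
  · apply h.eq_of_coord
    · rw [h.coc_comm_ℓ₁ h.isCoc₁ j hσ, map_zero]
    · rw [h.coc_comm_ℓp h.isCoc₁ j hσ, h1, sub_self, zero_mul, map_zero]
    · rw [h.coc_comm_ℓm h.isCoc₁ j hσ, h2, sub_self, zero_mul, map_zero]
  · apply h.eq_of_coord
    · rw [h.coc_comm_ℓ₁ h.isCoc₂ j hσ, map_zero]
    · rw [h.coc_comm_ℓp h.isCoc₂ j hσ, h1, sub_self, zero_mul, map_zero]
    · rw [h.coc_comm_ℓm h.isCoc₂ j hσ, h2, sub_self, zero_mul, map_zero]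

/-- Claim B: `e₀ ∣ j u ↔ m ∣ j`, provided `e₀ ∤ u`. -/
theorem claim_B {N : Subgroup Γ} (M : IsMaxNormal D N) {u : ℕ} (hu : IsBreak D N u)
    (hA : ¬ (p - 1) * D.m ∣ u) (j : ℕ) : (p - 1) * D.m ∣ j * u ↔ D.m ∣ j := by
  obtain ⟨σ₀, hσ₀, hσ₀N⟩ := h.max_exists_not_mem M
  constructor
  · intro hdvd
    by_contra hmj
    have hψ : D.ψ₀ ^ j ≠ 1 := fun h' => hmj ((h.ψ₀_pow j).1 h')
    -- `σ' = [τ₀, σ₀]` is not in `N`
    set σ' := D.τ₀ ^ 1 * σ₀ * (D.τ₀ ^ 1)⁻¹ * σ₀⁻¹ with hσ'
    have hσ'W : σ' ∈ D.W := D.W.mul_mem (h.W_normal.conj_mem σ₀ hσ₀ _) (D.W.inv_mem hσ₀)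
    have hσ'N : σ' ∉ N := by
      intro h'
      have := (h.comm_rule_max M hu hσ₀ hσ₀N 1).1 h'
      rw [one_mul] at this
      exact hA this
    -- all `[τ₀ ^ (j i), σ']` lie in `N`
    have hcomm : ∀ n : ℕ, (D.τ₀ ^ j) ^ n * σ' * ((D.τ₀ ^ j) ^ n)⁻¹ * σ'⁻¹ ∈ N := by
      intro n
      rw [← pow_mul]
      refine (h.comm_rule_max M hu hσ'W hσ'N (j * n)).2 ?_
      rw [mul_assoc, mul_comm n u, ← mul_assoc]
      exact Dvd.dvd.mul_right hdvd n
    have h1 := avg_mul_inv_mem_of N M.normal (D.τ₀ ^ j) σ' hcomm D.m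
    -- the average is trivial
    have h2 : avg (D.τ₀ ^ j) σ' D.m = 1 := by
      refine h.c_inj _ (h.avg_mem _ hσ'W _) ?_ ?_
      · apply h.eq_of_coord
        · rw [h.coc_avg_ℓ₁ h.isCoc₁ j hσ'W, h.coc_comm_ℓ₁ h.isCoc₁ 1 hσ₀, mul_zero, map_zero]
        · rw [h.coc_avg_ℓp h.isCoc₁ j hψ hσ'W, map_zero]
        · rw [h.coc_avg_ℓm h.isCoc₁ j hψ hσ'W, map_zero]
      · apply h.eq_of_coord
        · rw [h.coc_avg_ℓ₁ h.isCoc₂ j hσ'W, h.coc_comm_ℓ₁ h.isCoc₂ 1 hσ₀, mul_zero, map_zero]
        · rw [h.coc_avg_ℓp h.isCoc₂ j hψ hσ'W, map_zero]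
        · rw [h.coc_avg_ℓm h.isCoc₂ j hψ hσ'W, map_zero]
    rw [h2, one_mul] at h1
    have h3 : σ' ^ D.m ∈ N := (Subgroup.inv_mem_iff _).mp h1
    have h4 : σ' ^ p ∈ N := by
      rw [h.pow_p_eq_one hσ'W]
      exact N.one_mem
    exact hσ'N (mem_of_pow_mem_coprime N σ' h.m_coprime_p h3 h4)
  · intro hmj
    refine (h.comm_rule_max M hu hσ₀ hσ₀N j).1 ?_
    rw [h.comm_eq_one_of_dvd hmj hσ₀]
    exact N.one_mem

/-! ### cardinalities -/

omit h in
theorem card_eq_filter [Fintype Γ] [DecidableEq Γ] (H : Subgroup Γ) [DecidablePred (· ∈ H)] :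
    Nat.card H = (Finset.univ.filter (· ∈ H)).card := by
  rw [Nat.card_eq_fintype_card, Fintype.card_subtype]

omit h in
theorem finsum_mem_eq_sum [Fintype Γ] (P : Γ → Prop) [DecidablePred P] (f : Γ → ℕ) :
    ∑ᶠ (σ : Γ) (_ : P σ), f σ = ∑ σ ∈ Finset.univ.filter P, f σ := by
  rw [finsum_eq_sum_of_fintype, Finset.sum_filter]
  refine Finset.sum_congr rfl (fun σ _ => ?_)
  by_cases h1 : P σ <;> simp [h1]

omit h in
theorem finsum_mem_mem_eq_sum [Fintype Γ] (P Q : Γ → Prop) [DecidablePred P] [DecidablePred Q]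
    (f : Γ → ℕ) :
    ∑ᶠ (σ : Γ) (_ : P σ) (_ : Q σ), f σ = ∑ σ ∈ Finset.univ.filter (fun σ => P σ ∧ Q σ), f σ := by
  rw [finsum_eq_sum_of_fintype, Finset.sum_filter]
  refine Finset.sum_congr rfl (fun σ _ => ?_)
  by_cases h1 : P σ <;> by_cases h2 : Q σ <;> simp [h1, h2]

omit h in
/-- reindexing a double sum over cosets -/
theorem sum_sum_mul [Fintype Γ] [DecidableEq Γ] (G₀ N : Subgroup Γ) [DecidablePred (· ∈ G₀)]
    [DecidablePred (· ∈ N)] (hN : N ≤ G₀) (f : Γ → ℕ) :
    ∑ σ ∈ Finset.univ.filter (fun σ => σ ∈ G₀ ∧ σ ∉ N),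
      ∑ w ∈ Finset.univ.filter (· ∈ N), f (σ * w) =
    Nat.card N * ∑ σ ∈ Finset.univ.filter (fun σ => σ ∈ G₀ ∧ σ ∉ N), f σ := by
  rw [Finset.sum_comm]
  have : ∀ w ∈ Finset.univ.filter (· ∈ N),
      ∑ σ ∈ Finset.univ.filter (fun σ => σ ∈ G₀ ∧ σ ∉ N), f (σ * w) =
      ∑ σ ∈ Finset.univ.filter (fun σ => σ ∈ G₀ ∧ σ ∉ N), f σ := by
    intro w hw
    have hwN : w ∈ N := (Finset.mem_filter.mp hw).2
    refine Finset.sum_equiv (Equiv.mulRight w) (fun σ => ?_) (fun σ _ => by simp)
    simp only [Finset.mem_filter, Finset.mem_univ, true_and, Equiv.coe_mulRight]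
    rw [Subgroup.mul_mem_cancel_right _ (hN hwN), Subgroup.mul_mem_cancel_right _ hwN]
  rw [Finset.sum_congr rfl this, Finset.sum_const, smul_eq_mul, card_eq_filter]

/-- The numerical bound for the break of an irreducible quotient. -/
theorem break_bound [Finite Γ] {N : Subgroup Γ} (M : IsMaxNormal D N) {u : ℕ}
    (hu : IsBreak D N u) {y : ℕ} (hy : Nat.card D.W = Nat.card N * (y + 1)) :
    y * (u + 1) ≤ (D.m + 1) * (y + 1) := by
  classical
  haveI : Fintype Γ := Fintype.ofFinite Γ
  have hN1 := h.max_le_wild M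
  have hNΓ₀ : N ≤ D.F ⊥ 0 := hN1.trans h.wild_le_inertia
  have hW1 : D.F ⊥ 1 ≠ ⊥ := by
    rw [← h.W_eq_wild]
    intro hbot
    obtain ⟨σ, hσ, hσN⟩ := h.max_exists_not_mem M
    rw [hbot, Subgroup.mem_bot] at hσ
    exact hσN (hσ ▸ N.one_mem)
  -- the sets
  set A := Finset.univ.filter (fun σ : Γ => σ ∈ D.F ⊥ 0 ∧ σ ∉ N) with hA
  set S₀ := Finset.univ.filter (fun σ : Γ => σ ∈ D.F ⊥ 0 ∧ σ ≠ 1) with hS₀
  -- the different bound
  have hD := h.D_bound hW1
  rw [finsum_mem_mem_eq_sum] at hD
  -- quotient formula summed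
  have e1 : ∑ σ ∈ A, Nat.card N * D.i N σ = Nat.card N * ∑ σ ∈ A, D.i ⊥ σ := by
    rw [← sum_sum_mul (D.F ⊥ 0) N hNΓ₀ (D.i ⊥)]
    refine Finset.sum_congr rfl (fun σ hσ => ?_)
    have hσN : σ ∉ N := (Finset.mem_filter.mp hσ).2.2
    rw [← h.quot_formula N M.normal M.le hN1 σ hσN, finsum_mem_eq_sum]
  have hNpos : 0 < Nat.card N := Nat.card_pos
  have e2 : ∑ σ ∈ A, D.i N σ = ∑ σ ∈ A, D.i ⊥ σ := by
    rw [← Finset.mul_sum] at e1
    exact Nat.eq_of_mul_eq_mul_left hNpos e1
  have e3 : ∑ σ ∈ A, D.i ⊥ σ ≤ ∑ σ ∈ S₀, D.i ⊥ σ := by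
    refine Finset.sum_le_sum_of_subset (fun σ hσ => ?_)
    rw [hA, Finset.mem_filter] at hσ
    rw [hS₀, Finset.mem_filter]
    exact ⟨hσ.1, hσ.2.1, fun h1 => hσ.2.2 (h1 ▸ N.one_mem)⟩
  -- lower bound
  have e4 : ∑ σ ∈ A, (if σ ∈ D.W then u + 1 else 1) ≤ ∑ σ ∈ A, D.i N σ := by
    refine Finset.sum_le_sum (fun σ hσ => ?_)
    rw [hA, Finset.mem_filter] at hσ
    by_cases hσW : σ ∈ D.W
    · rw [if_pos hσW, h.i_eq_of_break M hu hσW hσ.2.2]
    · rw [if_neg hσW]
      have := h.F_zero N M.normal M.le hN1 hσ.2.1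
      rw [h.mem_F N M.normal M.le hN1] at this
      rcases this with h' | h'
      · exact absurd h' hσ.2.2
      · omega
  have e5 : ∑ σ ∈ A, (if σ ∈ D.W then u + 1 else 1) =
      (A.filter (· ∈ D.W)).card * (u + 1) + (A.filter (· ∉ D.W)).card := by
    rw [Finset.sum_ite, Finset.sum_const, Finset.sum_const, smul_eq_mul, smul_eq_mul, mul_one]
  -- cardinalities
  have c1 : (A.filter (· ∈ D.W)).card + Nat.card N = Nat.card D.W := by
    rw [card_eq_filter N, card_eq_filter D.W,
      ← Finset.card_filter_add_card_filter_not (s := Finset.univ.filter (· ∈ D.W)) (· ∈ N),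
      add_comm]
    congr 1
    · congr 1
      ext σ
      simp only [Finset.mem_filter, Finset.mem_univ, true_and]
      exact ⟨fun h1 => ⟨M.le h1, h1⟩, fun h1 => h1.2⟩
    · congr 1
      ext σ
      simp only [hA, Finset.mem_filter, Finset.mem_univ, true_and]
      exact ⟨fun h1 => ⟨h1.2, h1.1.2⟩, fun h1 => ⟨⟨h.W_le_inertia h1.1, h1.2⟩, h1.1⟩⟩
  have c2 : (A.filter (· ∉ D.W)).card + Nat.card D.W = Nat.card (D.F ⊥ 0) := by
    rw [card_eq_filter D.W, card_eq_filter (D.F ⊥ 0),
      ← Finset.card_filter_add_card_filter_not (s := Finset.univ.filter (· ∈ D.F ⊥ 0)) (· ∈ D.W),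
      add_comm]
    congr 1
    · congr 1
      ext σ
      simp only [Finset.mem_filter, Finset.mem_univ, true_and]
      exact ⟨fun h1 => ⟨h.W_le_inertia h1, h1⟩, fun h1 => h1.2⟩
    · congr 1
      ext σ
      simp only [hA, Finset.mem_filter, Finset.mem_univ, true_and]
      exact ⟨fun h1 => ⟨h1.1.1, h1.2⟩, fun h1 => ⟨⟨h1.1, fun h2 => h1.2 (M.le h2)⟩, h1.2⟩⟩
  have c3 := h.card_inertia'
  -- arithmetic
  set a := Nat.card N with ha
  set b := Nat.card D.W with hb
  set g := Nat.card (D.F ⊥ 0) with hg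
  set cW := (A.filter (· ∈ D.W)).card with hcW
  set cG := (A.filter (· ∉ D.W)).card with hcG
  set S := ∑ σ ∈ S₀, D.i ⊥ σ with hS
  have hp1 : 1 ≤ p := (h.p_prime).one_le
  obtain ⟨P, hP⟩ : ∃ P, p = P + 1 := ⟨p - 1, by omega⟩
  have hPpos : 0 < P := by have := h.p_ge_three; omega
  rw [hP] at hD c3
  simp only [Nat.add_sub_cancel] at hD c3
  have e6 : cW * (u + 1) + cG ≤ S := by
    rw [← e5]
    exact e4.trans (e2 ▸ e3)
  have hcW' : cW = a * y := by
    have : cW + a = a * y + a := by rw [c1, hy]; ring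
    omega
  have e7 : P * (cW * (u + 1) + cG) ≤ (P + 1) * g := (Nat.mul_le_mul le_rfl e6).trans hD
  have e8 : P * a * (y * (u + 1)) ≤ P * a * ((D.m + 1) * (y + 1)) := by
    have hg' : g = cG + b := c2.symm
    have hb' : b = a * (y + 1) := hy
    have h1 : P * (a * y * (u + 1)) + P * cG ≤ P * cG + P * b + P * D.m * b := by
      calc P * (a * y * (u + 1)) + P * cG = P * (cW * (u + 1) + cG) := by rw [hcW']; ring
        _ ≤ (P + 1) * g := e7
        _ = P * g + g := by ring
        _ = P * (cG + b) + P * D.m * b := by rw [← hg', ← c3]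
        _ = P * cG + P * b + P * D.m * b := by ring
    have h2 : P * (a * y * (u + 1)) ≤ P * b + P * D.m * b := by omega
    calc P * a * (y * (u + 1)) = P * (a * y * (u + 1)) := by ring
      _ ≤ P * b + P * D.m * b := h2
      _ = P * a * ((D.m + 1) * (y + 1)) := by rw [hb']; ring
  exact Nat.le_of_mul_le_mul_left e8 (Nat.mul_pos hPpos hNpos)

/-! ### the index of `N` in `W` -/

theorem W_isPGroup : IsPGroup p D.W := fun w =>
  ⟨1, by rw [pow_one]; exact Subtype.ext (by simpa using h.pow_p_eq_one w.2)⟩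

theorem exists_card_quot [Finite Γ] {N : Subgroup Γ} (M : IsMaxNormal D N) :
    ∃ y d, 1 ≤ d ∧ y + 1 = p ^ d ∧ Nat.card D.W = Nat.card N * (y + 1) := by
  obtain ⟨β, hβ⟩ := IsPGroup.iff_card.mp h.W_isPGroup
  obtain ⟨α, hα⟩ := IsPGroup.iff_card.mp (h.W_isPGroup.to_le M.le)
  have hp1 : 1 < p := (h.p_prime).one_lt
  have hlt : α < β := by
    by_contra hcon
    have h1 : Nat.card D.W ≤ Nat.card N := by
      rw [hα, hβ]
      exact Nat.pow_le_pow_right (by omega) (by omega)
    exact M.ne (Subgroup.eq_of_le_of_card_ge M.le h1)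
  have hpos : 0 < p ^ (β - α) := Nat.pos_of_ne_zero (by positivity)
  refine ⟨p ^ (β - α) - 1, β - α, by omega, by omega, ?_⟩
  have : p ^ (β - α) - 1 + 1 = p ^ (β - α) := by omega
  rw [this, hα, hβ, ← pow_add]
  congr 1
  omega

/-- Claim C: if `N` has index `p` in `W`, then `τ₀ ^ (p - 1)` acts trivially on `W / N`. -/
theorem claim_C [Finite Γ] {N : Subgroup Γ} (M : IsMaxNormal D N)
    (hcard : Nat.card D.W = Nat.card N * p) {σ : Γ} (hσ : σ ∈ D.W) :
    D.τ₀ ^ (p - 1) * σ * (D.τ₀ ^ (p - 1))⁻¹ * σ⁻¹ ∈ N := by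
  classical
  haveI := M.normal
  obtain ⟨σ₀, hσ₀, hσ₀N⟩ := h.max_exists_not_mem M
  -- Step 1: `W` is generated by `σ₀` modulo `N`
  have step1 : ∀ w ∈ D.W, ∃ i : ℕ, (σ₀ ^ i)⁻¹ * w ∈ N := by
    intro w hw
    haveI : (N.subgroupOf D.W).Normal := inferInstance
    have hQ : Nat.card (↥D.W ⧸ N.subgroupOf D.W) = p := by
      have h1 := Subgroup.card_eq_card_quotient_mul_card_subgroup (N.subgroupOf D.W)
      have h2 : Nat.card (N.subgroupOf D.W) = Nat.card N :=
        Nat.card_congr (Subgroup.subgroupOfEquivOfLe M.le).toEquiv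
      rw [h2, hcard, mul_comm] at h1
      have hNpos : 0 < Nat.card N := Nat.card_pos
      exact (Nat.eq_of_mul_eq_mul_right hNpos h1).symm
    have hq₀ : (QuotientGroup.mk ⟨σ₀, hσ₀⟩ : ↥D.W ⧸ N.subgroupOf D.W) ≠ 1 := by
      rw [Ne, QuotientGroup.eq_one_iff]
      simpa [Subgroup.mem_subgroupOf] using hσ₀N
    have htop := zpowers_eq_top_of_prime_card hQ hq₀
    have hmem : (QuotientGroup.mk ⟨w, hw⟩ : ↥D.W ⧸ N.subgroupOf D.W) ∈
        Subgroup.zpowers (QuotientGroup.mk ⟨σ₀, hσ₀⟩ : ↥D.W ⧸ N.subgroupOf D.W) := by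
      rw [htop]; trivial
    rw [← mem_powers_iff_mem_zpowers] at hmem
    obtain ⟨i, hi⟩ := hmem
    refine ⟨i, ?_⟩
    have h3 : ((⟨σ₀, hσ₀⟩ : D.W) ^ i)⁻¹ * ⟨w, hw⟩ ∈ N.subgroupOf D.W := by
      rw [← QuotientGroup.eq, QuotientGroup.mk_pow]
      exact hi
    simpa [Subgroup.mem_subgroupOf] using h3
  -- work in `Γ ⧸ N`
  have hπ : ∀ x : Γ, (QuotientGroup.mk' N x = 1) ↔ x ∈ N := fun x => by
    rw [QuotientGroup.mk'_apply, QuotientGroup.eq_one_iff]
  set π := QuotientGroup.mk' N with hπdef
  set t := π D.τ₀ with ht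
  set s := π σ₀ with hs
  have hs_ne : s ≠ 1 := fun h' => hσ₀N ((hπ σ₀).1 h')
  have hsp : s ^ p = 1 := by rw [hs, ← map_pow, h.pow_p_eq_one hσ₀, map_one]
  have hpow : ∀ w ∈ D.W, ∃ i : ℕ, π w = s ^ i := by
    intro w hw
    obtain ⟨i, hi⟩ := step1 w hw
    refine ⟨i, ?_⟩
    have h1 : π ((σ₀ ^ i)⁻¹ * w) = 1 := (hπ _).2 hi
    rw [map_mul, map_inv, map_pow, inv_mul_eq_one] at h1
    exact h1.symm
  obtain ⟨a, ha⟩ := hpow (D.τ₀ * σ₀ * D.τ₀⁻¹) (h.W_normal.conj_mem σ₀ hσ₀ _)
  have ha' : t * s * t⁻¹ = s ^ a := by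
    rw [← ha, map_mul, map_mul, map_inv]
  have hind : ∀ j : ℕ, t ^ j * s * (t ^ j)⁻¹ = s ^ (a ^ j) := by
    intro j
    induction j with
    | zero => simp
    | succ j ih =>
      have h1 : t ^ (j + 1) * s * (t ^ (j + 1))⁻¹ = t * (t ^ j * s * (t ^ j)⁻¹) * t⁻¹ := by
        rw [pow_succ']; group
      rw [h1, ih, ← conj_pow, ha', ← pow_mul, ← pow_succ']
  have hpa : ¬ p ∣ a := by
    rintro ⟨b, rfl⟩
    rw [pow_mul, hsp, one_pow] at ha'
    apply hs_ne
    have h1 : s = t⁻¹ * (t * s * t⁻¹) * t := by group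
    rw [h1, ha']
    group
  have hfermat : a ^ (p - 1) ≡ 1 [MOD p] := by
    rw [← ZMod.natCast_eq_natCast_iff]
    push_cast
    exact ZMod.pow_card_sub_one_eq_one (fun h0 => hpa ((ZMod.natCast_eq_zero_iff a p).1 h0))
  have hord : orderOf s = p := orderOf_eq_prime hsp hs_ne
  have hs_pow : s ^ (a ^ (p - 1)) = s := by
    have h1 := (pow_eq_pow_iff_modEq (x := s) (n := a ^ (p - 1)) (m := 1)).2
      (by rw [hord]; exact hfermat)
    rwa [pow_one] at h1
  have hts : t ^ (p - 1) * s * (t ^ (p - 1))⁻¹ = s := by rw [hind, hs_pow]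
  obtain ⟨i, hi⟩ := hpow σ hσ
  refine (hπ _).1 ?_
  rw [map_mul, map_mul, map_mul, map_inv, map_inv, map_pow, hi, ← conj_pow, hts, mul_inv_cancel]

/-- **C2**: the break of an irreducible quotient of `W` is `p - 1`; moreover `m ≠ 2`. -/
theorem break_eq [Finite Γ] {N : Subgroup Γ} (M : IsMaxNormal D N) {u : ℕ}
    (hu : IsBreak D N u) : u = p - 1 ∧ D.m ≠ 2 := by
  obtain ⟨y, d, hd1, hyd, hy⟩ := h.exists_card_quot M
  have hb := h.break_bound M hu hy
  have hp3 := h.p_ge_three
  have hy2 : 2 ≤ y := by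
    have : p ^ 1 ≤ p ^ d := Nat.pow_le_pow_right (by omega) hd1
    rw [pow_one] at this
    omega
  have hA : ¬ (p - 1) * D.m ∣ u := arith_A hp3 h.m_ge_two hy2 hu.pos hb
  obtain ⟨σ₀, hσ₀, hσ₀N⟩ := h.max_exists_not_mem M
  refine arith_main h.p_prime hp3 h.m_even h.m_dvd h.m_odd ⟨d, hd1, hyd⟩ ?_ hu.pos
    (h.claim_B M hu hA) hb
  intro hyp
  rw [hyp] at hy
  have h1 := h.claim_C M hy hσ₀
  have h2 := (h.comm_rule_max M hu hσ₀ hσ₀N (p - 1)).1 h1
  have h3 : D.m ∣ p - 1 := (h.claim_B M hu hA (p - 1)).1 h2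
  have h4 : D.m ∣ (p + 1) - (p - 1) := Nat.dvd_sub h.m_dvd h3
  have h5 : (p + 1) - (p - 1) = 2 := by omega
  rwa [h5] at h4

theorem i_eq_p [Finite Γ] {N : Subgroup Γ} (M : IsMaxNormal D N) {σ : Γ} (hσ : σ ∈ D.W)
    (hσN : σ ∉ N) : D.i N σ = p := by
  obtain ⟨u, hu⟩ := h.exists_break M
  rw [h.i_eq_of_break M hu hσ hσN, (h.break_eq M hu).1]
  have := h.p_ge_three
  omega

theorem m_ne_two_of_max [Finite Γ] {N : Subgroup Γ} (M : IsMaxNormal D N) : D.m ≠ 2 := by
  obtain ⟨u, hu⟩ := h.exists_break M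
  exact (h.break_eq M hu).2

end Hyp

end Fermat.Agent.S56.H846.FLCnt

end
-- ===== PACK-END S56/H846/FLCnt/Quot.lean

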