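import Fermat.Statements.S54
import Fermat.Agent.Pack.S43GC.G0E3L3
import Fermat.Agent.Pack.S43GC.G0E3L1
import Fermat.Agent.Pack.S44C.G0E6L2
import Fermat.Agent.Pack.S43GC.G0E3L0
import Fermat.Agent.Pack.S43GC.G2E0L0
import Fermat.Agent.Pack.S43GC.G0E3L2
import Fermat.Agent.Pack.S43GC.G0E0L1
import Fermat.Agent.Pack.S43GC.G0E1L1
import Fermat.Agent.Pack.Fast891

-- ===== PACK-BEGIN Ribet/H678/QuadPS.lean
section


/-!
# The ring `A₀ = O⟦y,z⟧[v]/(v² = c - 4yz)` (helper678)

`O` is a noetherian domain, `λ` a prime element with `λ ∤ 2`, `c ≠ 0` divisible by `λ`.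
We show that `A₀` is a noetherian domain in which `(y, z, v)` is a regular sequence.
(For `c = (ζ - ζ⁻¹)²` this is the ring of `2 × 2` matrices `Σ₀ = [[v/2, y], [z, -v/2]]`,
`Σ₀ ≡ 0`, with `det Σ₀ = -c/4`.)
-/

set_option autoImplicit false
set_option linter.unusedSectionVars false

namespace Fermat.Agent.Ribet.H678

open MvPowerSeries

section PS

variable {O : Type*} [CommRing O]

/-- The element `g = c - 4yz` of `O⟦y,z⟧`. -/
noncomputable def psG (c : O) : MvPowerSeries (Fin 2) O :=
  C c - 4 * X 0 * X 1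

theorem constantCoeff_psG (c : O) : constantCoeff (psG c) = c := by
  simp [psG]

theorem span_X_pair_eq :
    Ideal.span {(X 0 : MvPowerSeries (Fin 2) O), X 1} =
      RingHom.ker (constantCoeff (σ := Fin 2) (R := O)) := by
  apply le_antisymm
  · rw [Ideal.span_le]
    rintro f (rfl | rfl) <;> simp [RingHom.mem_ker]
  · intro f hf
    rw [RingHom.mem_ker] at hf
    have h := mem_span_X_of_constantCoeff_eq_zero f hf
    have hr : Set.range (X : Fin 2 → MvPowerSeries (Fin 2) O) = {X 0, X 1} := by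
      ext g
      constructor
      · rintro ⟨i, rfl⟩
        fin_cases i
        · exact Or.inl rfl
        · exact Or.inr rfl
      · rintro (rfl | rfl)
        · exact ⟨0, rfl⟩
        · exact ⟨1, rfl⟩
    rwa [hr] at h

theorem psG_regular [IsDomain O] {c : O} (hc : c ≠ 0) (a : MvPowerSeries (Fin 2) O)
    (h : psG c * a ∈ Ideal.span {(X 0 : MvPowerSeries (Fin 2) O), X 1}) :
    a ∈ Ideal.span {(X 0 : MvPowerSeries (Fin 2) O), X 1} := by
  rw [span_X_pair_eq, RingHom.mem_ker] at h ⊢
  rw [map_mul, constantCoeff_psG] at h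
  exact (mul_eq_zero.1 h).resolve_left hc

theorem X_one_regular_mod_X_zero (a : MvPowerSeries (Fin 2) O)
    (h : X 1 * a ∈ Ideal.span {(X 0 : MvPowerSeries (Fin 2) O)}) :
    a ∈ Ideal.span {(X 0 : MvPowerSeries (Fin 2) O)} := by
  classical
  rw [Ideal.mem_span_singleton, X_dvd_iff] at h ⊢
  intro m hm
  have h1 := h (Finsupp.single 1 1 + m) (by simp [hm])
  rw [X_def, coeff_add_monomial_mul, one_mul] at h1
  exact h1

theorem X_zero_regular [IsDomain O] (a : MvPowerSeries (Fin 2) O)
    (h : (X 0 : MvPowerSeries (Fin 2) O) * a = 0) : a = 0 := by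
  rcases mul_eq_zero.1 h with h0 | h0
  · exfalso
    have := congrArg (coeff (Finsupp.single 0 1)) h0
    simp [coeff_X] at this
  · exact h0

end PS

section Norm

variable {O : Type*} [CommRing O] [IsDomain O] (l : O)

/-- Reduction of coefficients modulo `l`. -/
noncomputable def psRed :
    MvPowerSeries (Fin 2) O →+* MvPowerSeries (Fin 2) (O ⧸ Ideal.span {l}) :=
  MvPowerSeries.map (Ideal.Quotient.mk (Ideal.span {l}))

omit [IsDomain O] in
theorem psRed_eq_zero_iff (f : MvPowerSeries (Fin 2) O) : psRed l f = 0 ↔ C l ∣ f := by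
  classical
  constructor
  · intro h
    have h1 : ∀ e, ∃ q, coeff e f = l * q := by
      intro e
      have := congrArg (coeff e) h
      rw [psRed, coeff_map, map_zero, Ideal.Quotient.eq_zero_iff_mem,
        Ideal.mem_span_singleton] at this
      exact this
    choose q hq using h1
    refine ⟨(show MvPowerSeries (Fin 2) O from q), ?_⟩
    ext e
    rw [coeff_C_mul, hq e]
    rfl
  · rintro ⟨f', rfl⟩
    rw [map_mul, psRed, map_C]
    have : (Ideal.Quotient.mk (Ideal.span {l})) l = 0 :=
      Ideal.Quotient.eq_zero_iff_mem.2 (Ideal.mem_span_singleton_self l)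
    rw [this, map_zero, zero_mul]

variable {l}

omit [IsDomain O] in
theorem isDomain_quot (hl : Prime l) : IsDomain (O ⧸ Ideal.span {l}) := by
  have : (Ideal.span {l}).IsPrime := (Ideal.span_singleton_prime hl.ne_zero).2 hl
  exact Ideal.Quotient.isDomain _

theorem prime_C (hl : Prime l) : Prime (C l : MvPowerSeries (Fin 2) O) := by
  have := isDomain_quot hl
  refine ⟨?_, ?_, ?_⟩
  · intro h
    have := congrArg constantCoeff h
    simp at this
    exact hl.ne_zero this
  · intro h
    rw [isUnit_iff_constantCoeff] at h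
    simp at h
    exact hl.not_isUnit h
  · intro a b hab
    rw [← psRed_eq_zero_iff] at hab ⊢
    rw [← psRed_eq_zero_iff]
    rw [map_mul] at hab
    exact mul_eq_zero.1 hab

/-- Parity argument in characteristic `l`: `a² = -4yz b²` forces `b = 0`. -/
theorem parity_aux {k : Type*} [CommRing k] [IsDomain k] (h2 : (2 : k) ≠ 0)
    (a b : MvPowerSeries (Fin 2) k) (h : a * a = (-(4 * X 0 * X 1)) * b * b) : b = 0 := by
  by_contra hb
  let e := MvPowerSeries.finSuccEquiv k 1
  have he : e a * e a = PowerSeries.C (-(4 * X 0)) * PowerSeries.X * e b * e b := by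
    have h1 := congrArg e h
    rw [map_mul, map_mul, map_mul, map_neg, map_mul, map_mul] at h1
    have hX0 : e (X 0) = PowerSeries.X := finSuccEquiv_X_zero
    have hX1 : e (X 1) = PowerSeries.C (X 0) := finSuccEquiv_X_succ (0 : Fin 1)
    have h4 : e 4 = PowerSeries.C 4 := by
      simp [map_ofNat]
    rw [hX0, hX1, h4] at h1
    rw [h1]
    simp only [map_neg, map_mul]
    ring
  have hw : (-(4 * X 0) : MvPowerSeries (Fin 1) k) ≠ 0 := by
    intro h0
    have := congrArg (coeff (Finsupp.single 0 1)) h0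
    have h4 : (4 : MvPowerSeries (Fin 1) k) = C 4 := by simp [map_ofNat]
    rw [map_neg, h4, coeff_C_mul, coeff_X] at this
    simp at this
    have h44 : (4 : k) = 2 * 2 := by norm_num
    rw [h44] at this
    exact h2 (by simpa using this)
  have hordC : (PowerSeries.C (-(4 * X 0) : MvPowerSeries (Fin 1) k)).order = 0 := by
    apply le_antisymm
    · have := PowerSeries.order_le (φ := PowerSeries.C (-(4 * X 0) : MvPowerSeries (Fin 1) k)) 0
        (by simpa using hw)
      simpa using this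
    · exact bot_le
  have heb : e b ≠ 0 := fun h0 => hb (e.injective (by rw [h0, map_zero]))
  have hord := congrArg PowerSeries.order he
  rw [PowerSeries.order_mul, PowerSeries.order_mul, PowerSeries.order_mul, PowerSeries.order_mul,
    hordC, PowerSeries.order_X, zero_add] at hord
  obtain ⟨m, hm⟩ := ENat.ne_top_iff_exists.1 (fun h => heb (PowerSeries.order_eq_top.1 h))
  rw [← hm] at hord
  rcases ENat.ne_top_iff_exists.1 (show (e a).order ≠ ⊤ from fun h => by
    rw [h] at hord
    have h1 : (1 + (m : ℕ∞) + m) = ((1 + m + m : ℕ) : ℕ∞) := by push_cast; rfl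
    rw [h1] at hord
    simp at hord
    exact ENat.top_ne_natCast _ hord) with ⟨n, hn⟩
  rw [← hn] at hord
  have : n + n = 1 + m + m := by exact_mod_cast hord
  omega

theorem psRed_psG {c : O} (hcl : l ∣ c) : psRed l (psG c) = -(4 * X 0 * X 1) := by
  have hc : (Ideal.Quotient.mk (Ideal.span {l})) c = 0 :=
    Ideal.Quotient.eq_zero_iff_mem.2 (Ideal.mem_span_singleton.2 hcl)
  rw [psG, map_sub, map_mul, map_mul, psRed, map_C, map_X, map_X, hc, map_zero, zero_sub]
  simp [map_ofNat]

theorem norm_aux (hl : Prime l) (h2 : ¬ l ∣ 2) {c : O} (hcl : l ∣ c) :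
    ∀ (n : ℕ) (α β' : MvPowerSeries (Fin 2) O), ¬ C l ∣ β' →
      α * α = psG c * (C l ^ n * β') * (C l ^ n * β') → False := by
  have hdom := isDomain_quot hl
  have h2' : (2 : O ⧸ Ideal.span {l}) ≠ 0 := by
    intro h
    have h' : (Ideal.Quotient.mk (Ideal.span {l})) 2 = 0 := by rw [map_ofNat]; exact h
    rw [Ideal.Quotient.eq_zero_iff_mem, Ideal.mem_span_singleton] at h'
    exact h2 h'
  intro n
  induction n with
  | zero =>
    intro α β' hβ' h
    rw [pow_zero, one_mul] at h
    have h1 := congrArg (psRed l) h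
    rw [map_mul, map_mul, map_mul, psRed_psG hcl] at h1
    have := parity_aux h2' _ _ h1
    exact hβ' ((psRed_eq_zero_iff l β').1 this)
  | succ n ih =>
    intro α β' hβ' h
    have hl0 : psRed l (C l) = 0 := (psRed_eq_zero_iff l _).2 dvd_rfl
    have h1 := congrArg (psRed l) h
    have hz : psRed l (C l ^ (n + 1) * β') = 0 := by
      rw [map_mul, map_pow, hl0, pow_succ, mul_zero, zero_mul]
    rw [map_mul (psRed l) α α, map_mul (psRed l) (psG c * _) _, hz, mul_zero] at h1
    have h3 : psRed l α = 0 := by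
      rcases mul_eq_zero.1 h1 with h | h <;> exact h
    obtain ⟨α₁, rfl⟩ := (psRed_eq_zero_iff l α).1 h3
    apply ih α₁ β' hβ'
    have hC : (C l : MvPowerSeries (Fin 2) O) ≠ 0 := (prime_C hl).ne_zero
    have hCC : (C l * C l : MvPowerSeries (Fin 2) O) ≠ 0 := mul_ne_zero hC hC
    apply mul_left_cancel₀ hCC
    rw [pow_succ] at h
    linear_combination h

theorem psNorm [IsNoetherianRing O] (hl : Prime l) (h2 : ¬ l ∣ 2) {c : O} (hcl : l ∣ c)
    (α β : MvPowerSeries (Fin 2) O) (h : α * α = psG c * β * β) : β = 0 := by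
  by_contra hβ
  have : IsDomain (MvPowerSeries (Fin 2) O) := NoZeroDivisors.to_isDomain _
  obtain ⟨n, β', hβ', rfl⟩ := WfDvdMonoid.max_power_factor hβ (prime_C hl).irreducible
  exact norm_aux hl h2 hcl n α β' hβ' h

end Norm

section Final

variable {O : Type*} [CommRing O] [IsDomain O] [IsNoetherianRing O]

/-- The ring `A₀ = O⟦y,z⟧[v]/(v² = c - 4yz)`. -/
abbrev RingA0 (c : O) : Type _ := QuadraticAlgebra (MvPowerSeries (Fin 2) O) (psG c) 0

theorem ringA0_isDomain {l c : O} (hl : Prime l) (h2 : ¬ l ∣ 2) (hcl : l ∣ c) :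
    IsDomain (RingA0 c) := by
  have : IsDomain (MvPowerSeries (Fin 2) O) := NoZeroDivisors.to_isDomain _
  exact quad_isDomain _ (psNorm hl h2 hcl)

theorem ringA0_isNoetherianRing (c : O) : IsNoetherianRing (RingA0 c) :=
  quad_isNoetherianRing _

/-- The sequence `(y, z, v)` of `A₀`. -/
noncomputable def seqA0 (c : O) : Fin 3 → RingA0 c := quadSeq (psG c) (X 0) (X 1)

theorem seqA0_isRegSeq {c : O} (hc : c ≠ 0) : IsRegSeq (seqA0 c) :=
  isRegSeq_quadSeq _ _ _ X_zero_regular X_one_regular_mod_X_zero (psG_regular hc)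

/-- **`R_χ` is a domain** (model `A₀⟦b,c,u⟧ ⧸ ((b,c,u) ∥ (y,z,v))`). -/
theorem koszul_seqA0_isPrime {l c : O} (hl : Prime l) (h2 : ¬ l ∣ 2) (hcl : l ∣ c) (hc : c ≠ 0) :
    (koszul (seqA0 c)).IsPrime := by
  have := ringA0_isDomain hl h2 hcl
  have := ringA0_isNoetherianRing c
  exact koszul_isPrime _ (seqA0_isRegSeq hc)

end Final

end Fermat.Agent.Ribet.H678
end
-- ===== PACK-END Ribet/H678/QuadPS.lean

-- ===== PACK-BEGIN S56/H716/TBDefs.lean
section


/-!
# Row S56 — tangent bound (TB), layer 1: FROZEN definitions (deputy helper716)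

Same conventions as the frozen layer 0 (`Fermat/Agent/S56/Defs.lean`): cocycles are plain functions
`c : G_ℚ → End_k V`, `V = ρbar.V`.

* `IsAdCocycle ρbar c`   — `c ∈ Z¹(G_ℚ, ad⁰ρ̄)` (UNTWISTED): `tr c(σ) = 0`,
  `c(στ) = c(σ) + ρ̄(σ) c(τ) ρ̄(σ)⁻¹`, finite level.
* `IsAdCoboundary ρbar c` — `c(σ) = ρ̄(σ) m ρ̄(σ)⁻¹ − m` for some `m`.
* `liftEnd ρbar c σ`     — the endomorphism `(1 + ε c(σ)) ρ̄(σ)` of `k[ε] ⊗ V`.
* `IsLiftOf ρbar c ρ'`   — `ρ' : GaloisRepAdic k[ε]` is isomorphic to `σ ↦ liftEnd ρbar c σ`.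
* `IsTanCocycle 𝒪 ρbar 𝒟 c` — `c` is an ad⁰-cocycle whose lift to `k[ε]` is of type `𝒟`
  (for the `𝒪`-algebra structure `tanAlgebra 𝒪` on `k[ε]`).

Nothing unproved in this file.  Plan: `coord/S56-TB.md` on `origin/helper716`.
-/

set_option autoImplicit false

open Polynomial IsLocalRing
open scoped TensorProduct

noncomputable section

namespace Fermat.Agent.S56.H716

open Fermat.Agent.S56

section Cocycles

variable {k : Type} [Field k] (ρbar : ResidualGaloisRep k)

/-- `c` is an (untwisted) cocycle with values in trace-zero endomorphisms, of finite level. -/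
structure IsAdCocycle (c : GQ → Module.End k ρbar.V) : Prop where
  trace_eq_zero : ∀ σ, LinearMap.trace k ρbar.V (c σ) = 0
  map_mul : ∀ σ τ, c (σ * τ) = c σ + ρbar.ρ σ * c τ * ρbar.ρ σ⁻¹
  level : ∃ L : IntermediateField ℚ Qb, FiniteDimensional ℚ L ∧
    ∀ σ τ : GQ, (∀ x ∈ L, τ x = x) → c (σ * τ) = c σ

/-- `c` is the (untwisted) coboundary of some endomorphism `m`. -/
def IsAdCoboundary (c : GQ → Module.End k ρbar.V) : Prop :=
  ∃ m : Module.End k ρbar.V, ∀ σ, c σ = ρbar.ρ σ * m * ρbar.ρ σ⁻¹ - m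

/-- The endomorphism `(1 + ε c(σ)) ρ̄(σ)` of `k[ε] ⊗_k V`. -/
def liftEnd (c : GQ → Module.End k ρbar.V) (σ : GQ) :
    Module.End (DualNumber k) (DualNumber k ⊗[k] ρbar.V) :=
  (ρbar.ρ σ).baseChange (DualNumber k) +
    (DualNumber.eps : DualNumber k) • (c σ * ρbar.ρ σ).baseChange (DualNumber k)

/-- `ρ'` is (isomorphic to) the lift `σ ↦ (1 + ε c(σ)) ρ̄(σ)` of `ρ̄` to the dual numbers. -/
def IsLiftOf (c : GQ → Module.End k ρbar.V) (ρ' : GaloisRepAdic (DualNumber k)) : Prop :=
  ∃ e : ρ'.V ≃ₗ[DualNumber k] (DualNumber k ⊗[k] ρbar.V),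
    ∀ (σ : GQ) (v : ρ'.V), e (ρ'.ρ σ v) = liftEnd ρbar c σ (e v)

end Cocycles

section Tan

variable (𝒪 : Type) [CommRing 𝒪] [IsLocalRing 𝒪]
  (ρbar : ResidualGaloisRep (ResidueField 𝒪))

/-- `c` is an ad⁰-cocycle whose lift to the dual numbers is a deformation of type `𝒟`. -/
def IsTanCocycle (𝒟 : DefCond 𝒪) (c : GQ → Module.End (ResidueField 𝒪) ρbar.V) : Prop :=
  IsAdCocycle ρbar c ∧
    ∃ ρ' : GaloisRepAdic (DualNumber (ResidueField 𝒪)),
      IsLiftOf ρbar c ρ' ∧ @𝒟 (DualNumber (ResidueField 𝒪)) _ _ (tanAlgebra 𝒪) ρ'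

end Tan

end Fermat.Agent.S56.H716

end

end
-- ===== PACK-END S56/H716/TBDefs.lean

-- ===== PACK-BEGIN S54.lean
section



set_option autoImplicit false
open GaloisRep GaloisRep.DeformationRingData

namespace Fermat.Agent.S54

open Polynomial in
/-- Characteristic polynomials of equivalent adic representations agree. -/
theorem charpoly_eq_of_equiv {A : Type} [CommRing A] [IsLocalRing A] {ρ₁ ρ₂ : GaloisRepAdic A}
    (e : GaloisRepAdic.Equiv ρ₁ ρ₂) (σ : AlgebraicClosure ℚ ≃ₐ[ℚ] AlgebraicClosure ℚ) :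
    LinearMap.charpoly (ρ₁.ρ σ) = LinearMap.charpoly (ρ₂.ρ σ) := by
  have h : ρ₂.ρ σ = e.toLinearEquiv.conj (ρ₁.ρ σ) := by
    ext x
    simp only [LinearEquiv.conj_apply, LinearMap.comp_apply, LinearEquiv.coe_coe]
    rw [e.map_apply, LinearEquiv.apply_symm_apply]
  rw [h, LinearEquiv.charpoly_conj]

open Polynomial in
/-- The characteristic polynomial of a base change is the image of the characteristic
polynomial. -/
theorem charpoly_baseChangeAlong {A B : Type} [CommRing A] [IsLocalRing A] [CommRing B]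
    [IsLocalRing B] (φ : A →+* B) (hφ : IsLocalHom φ) (ρ : GaloisRepAdic A)
    (σ : AlgebraicClosure ℚ ≃ₐ[ℚ] AlgebraicClosure ℚ) :
    LinearMap.charpoly ((ρ.baseChangeAlong φ hφ).ρ σ) = (LinearMap.charpoly (ρ.ρ σ)).map φ := by
  let _ : Algebra A B := φ.toAlgebra
  exact LinearMap.charpoly_baseChange (ρ.ρ σ) B

open Polynomial in
theorem result {𝒪 : Type} [CommRing 𝒪] [IsDomain 𝒪] [IsDiscreteValuationRing 𝒪] [IsAdicComplete (IsLocalRing.maximalIdeal 𝒪) 𝒪] {ρbar : ResidualGaloisRep (IsLocalRing.ResidueField 𝒪)} {𝒟 : ∀ ⦃A : Type⦄ [CommRing A] [IsLocalRing A] [Algebra 𝒪 A], GaloisRepAdic A → Prop} (D : GaloisRep.DeformationRingData 𝒪 ρbar 𝒟) {N : ℕ} [NeZero N] {S : Set ℕ} {θ : CuspForm.heckeAlgebra N 2 S →+* IsLocalRing.ResidueField 𝒪} {T : Type} [CommRing T] [IsLocalRing T] [IsNoetherianRing T] [IsAdicComplete (IsLocalRing.maximalIdeal T) T] [Algebra 𝒪 T] [IsLocalHom (algebraMap 𝒪 T)] [Module.Finite 𝒪 T] [Module.Free 𝒪 T] (H : CuspForm.HeckeGaloisRepDatum N S 𝒪 θ T) (hS : ∀ q : ℕ, q.Prime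 → q ∣ N → q ∈ S) (h𝒟 : 𝒟 H.ρ) (hres : H.ρ.residual.IsEquiv (ρbar.baseChangeAlong (IsLocalRing.ResidueField.map (algebraMap 𝒪 T)))) : ∃ φ : D.R →ₐ[𝒪] T, Function.Surjective φ ∧ ∃ hφ : IsLocalHom (φ : D.R →+* T), (D.ρ.baseChangeAlong (φ : D.R →+* T) hφ).IsEquiv H.ρ := by
  obtain ⟨φ, ⟨hφ, ⟨e⟩⟩, -⟩ := D.universal T H.residue_surjective H.ρ h𝒟 hres
  refine ⟨φ, ?_, hφ, ⟨e⟩⟩
  -- the image of every `T_ℓ` is a Frobenius trace, hence in the range of `φ`
  have hT : ∀ (ℓ : ℕ) (hℓ : ℓ.Prime) (hℓN : ¬ ℓ ∣ N) (hℓS : ℓ ∉ S),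
      H.π (CuspForm.heckeAlgebra.T hℓ hℓN hℓS) ∈ φ.range := by
    intro ℓ hℓ hℓN hℓS
    obtain ⟨A, σ, hA, hσ⟩ := exists_frobenius ℓ hℓ
    have h1 := H.charpoly_frob ℓ hℓ hℓN hℓS A hA σ hσ
    have h2 := charpoly_eq_of_equiv e σ
    rw [charpoly_baseChangeAlong, h1] at h2
    have h3 := congrArg (fun p => p.coeff 1) h2
    simp only [coeff_map, coeff_sub, coeff_add, coeff_X_pow, coeff_C_mul, coeff_X_one, coeff_C]
      at h3
    norm_num at h3
    refine ⟨-(LinearMap.charpoly (D.ρ.ρ σ)).coeff 1, ?_⟩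
    change φ (-(LinearMap.charpoly (D.ρ.ρ σ)).coeff 1) = _
    rw [map_neg, h3, neg_neg]
  have hπ : ∀ t : CuspForm.heckeAlgebra N 2 S, H.π t ∈ φ.range := by
    rintro ⟨t, ht⟩
    induction ht using Algebra.adjoin_induction with
    | mem x hx =>
      rcases hx with ⟨ℓ, hℓ, hℓN, hℓS, rfl⟩ | ⟨q, hqN, hq, hqS, rfl⟩
      · exact hT ℓ hℓ hℓN hℓS
      · exact absurd (hS q hq hqN) hqS
    | algebraMap r =>
      have : (⟨algebraMap ℤ _ r, Subalgebra.algebraMap_mem _ r⟩ : CuspForm.heckeAlgebra N 2 S)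
          = algebraMap ℤ (CuspForm.heckeAlgebra N 2 S) r := rfl
      rw [this]
      simp only [eq_intCast, map_intCast]
      exact intCast_mem _ r
    | add x y hx hy hx' hy' =>
      have : (⟨x + y, Subalgebra.add_mem _ hx hy⟩ : CuspForm.heckeAlgebra N 2 S)
          = ⟨x, hx⟩ + ⟨y, hy⟩ := rfl
      rw [this, map_add]
      exact add_mem hx' hy'
    | mul x y hx hy hx' hy' =>
      have : (⟨x * y, Subalgebra.mul_mem _ hx hy⟩ : CuspForm.heckeAlgebra N 2 S)
          = ⟨x, hx⟩ * ⟨y, hy⟩ := rfl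
      rw [this, map_mul]
      exact mul_mem hx' hy'
  have htop : (⊤ : Subalgebra 𝒪 T) ≤ φ.range := by
    rw [← H.adjoin_range_π]
    apply Algebra.adjoin_le
    rintro _ ⟨t, rfl⟩
    exact hπ t
  intro x
  exact htop Algebra.mem_top

end Fermat.Agent.S54

end
-- ===== PACK-END S54.lean

-- ===== PACK-BEGIN S55/L/SpecClass.lean
section


/-!
# S55, layer L (local class field theory): frozen interface, part 3

Output statements consumed by the layers T (Tate's theorem), G and D, and the instantiation at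
the `q`-adic fields of the Prelude.
-/

set_option autoImplicit false

namespace Fermat.Agent.S55.L

open groupCohomology

/-- **L-CM** `(Gal(L/K), Lˣ)` is a class module: for every subgroup `H`, `H¹(H, Lˣ) = 0` and
`H²(H, Lˣ)` is cyclic of order `|H|`.  (Input of Tate's theorem, layer T.) -/
def ClassModuleSpec : Prop :=
  ∀ (K L : Type) [Field K] [Field L] [Algebra K L] [FiniteDimensional K L] [IsGalois K L]
    [IsLocalFld K] (H : Subgroup (L ≃ₐ[K] L)),
    Subsingleton (H1 (Rep.res H.subtype (unitsRep K L))) ∧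
      Nonempty (H2 (Rep.res H.subtype (unitsRep K L)) ≃+ ZMod (Nat.card H))

/-- **L-D1a** `H³(Gal(L/K), Lˣ) = 0`. -/
def H3Spec : Prop :=
  ∀ (K L : Type) [Field K] [Field L] [Algebra K L] [FiniteDimensional K L] [IsGalois K L]
    [IsLocalFld K], Subsingleton (groupCohomology (unitsRep K L) 3)

/-- **L-D1b** norm index: `[Kˣ : N Lˣ] = |Gal(L/K)^ab|`. -/
def NormIndexSpec : Prop :=
  ∀ (K L : Type) [Field K] [Field L] [Algebra K L] [FiniteDimensional K L] [IsGalois K L]
    [IsLocalFld K],
    (MonoidHom.range (Units.map (Algebra.norm K : L →* K))).index =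
      Nat.card (Abelianization (L ≃ₐ[K] L))

/-- **L-INST1** `ℚ_q` is a local field. -/
def PadicInstSpec : Prop :=
  ∀ (q : ℕ) [Fact q.Prime], IsLocalFld ℚ_[q]

/-- **L-INST2** the finite extensions of `ℚ_q` inside `PadicAlgCl q` are local fields, with ring
of integers the unit ball of the norm. -/
def PadicExtInstSpec : Prop :=
  ∀ (q : ℕ) [Fact q.Prime] (E : IntermediateField ℚ_[q] (PadicAlgCl q)),
    FiniteDimensional ℚ_[q] E →
      IsLocalFld E ∧ ∀ A : ValuationSubring E, IsLocalRingOfIntegers A →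
        ∀ x : E, x ∈ A ↔ ‖(x : PadicAlgCl q)‖ ≤ 1

end Fermat.Agent.S55.L

end
-- ===== PACK-END S55/L/SpecClass.lean

-- ===== PACK-BEGIN S55/KL/DeltaNatH304.lean
section



/-!
# S55, layer KB, leaf KB-NAT (helper304): naturality of `δ` along group homomorphisms

`deltaNat : DeltaNatSpec`, a repackaging of `H783.δ_naturality_map` (on main): the three
morphisms `φ₁, φ₂, φ₃` with the two commuting squares form a morphism of short complexes
`X.map (Rep.resFunctor f) ⟶ Y`.
-/

set_option autoImplicit false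

open CategoryTheory groupCohomology

namespace Fermat.Agent.S55.KL.H304

open Fermat.Agent.S55.KL

/-- **KB-NAT.** -/
theorem deltaNat : DeltaNatSpec := by
  intro k G H _ _ _ f X hX Y hY φ₁ φ₂ φ₃ h₁₂ h₂₃ i j hij
  let Φ : X.map (Rep.resFunctor f) ⟶ Y :=
    { τ₁ := φ₁
      τ₂ := φ₂
      τ₃ := φ₃
      comm₁₂ := h₁₂.symm
      comm₂₃ := h₂₃.symm }
  exact Fermat.Agent.S55.H783.δ_naturality_map f hX hY Φ i j hij

end Fermat.Agent.S55.KL.H304

end
-- ===== PACK-END S55/KL/DeltaNatH304.lean

-- ===== PACK-BEGIN S55/KL/DevCH783.lean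
section


/-!
# S55, layer KB, leaf KB-DEV-C (helper783): filtration induction

`devPGroup : DevPGroupSpec`: if `Γ` acts on the finite `p`-torsion module `R` through a finite
`p`-group, and `μ` is a module of order `p` with trivial action and `colim H³(Γ, μ) = 0`, then
`colim H³(Γ, R) = 0`.

Proof: induction on `|R|`.  A `p`-group acting on `R ≠ 0` fixes some `r ≠ 0`; this gives an
exact sequence `0 → μ → R → Q → 0` with `|Q| < |R|`, which stays exact on the invariants of every
level acting trivially on `R`; chase in the exact sequence `H³(μ) → H³(R) → H³(Q)`.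
-/

set_option autoImplicit false

open CategoryTheory CategoryTheory.Limits groupCohomology

namespace Fermat.Agent.S55.KL.H783

open Fermat.Agent.S55.KL

variable {k : Type} [CommRing k]

/-! ### functoriality of `HLmap` -/

section Functoriality

variable {Γ Γ' Γ'' : Type} [Group Γ] [Group Γ'] [Group Γ'']

lemma HLmap_comp {B : Rep.{0} k Γ} {B' : Rep.{0} k Γ'} {B'' : Rep.{0} k Γ''}
    (f : Γ' →* Γ) (f' : Γ'' →* Γ') {W : Subgroup Γ} [W.Normal] {W' : Subgroup Γ'} [W'.Normal]
    {W'' : Subgroup Γ''} [W''.Normal] (hf : W' ≤ W.comap f) (hf' : W'' ≤ W'.comap f')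
    (φ : Rep.res f B ⟶ B') (φ' : Rep.res f' B' ⟶ B'') (n : ℕ) :
    HLmap f hf φ n ≫ HLmap f' hf' φ' n =
      HLmap (f.comp f') (W := W) (W' := W'') (fun _ hx => hf (hf' hx))
        ((Rep.resFunctor f').map φ ≫ φ') n := by
  unfold HLmap
  rw [← groupCohomology.map_comp]
  refine groupCohomology.map_congr ?_ ?_ n
  · exact QuotientGroup.map_comp_map W'' W' W f' f hf' hf
  · rfl

variable {B B' : Rep.{0} k Γ}

lemma infl_infl (B : Rep.{0} k Γ) {W'' W' W : Subgroup Γ} [W''.Normal] [W'.Normal] [W.Normal]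
    (h : W' ≤ W) (h' : W'' ≤ W') (n : ℕ) :
    infl B h n ≫ infl B h' n = infl B (h'.trans h) n := by
  unfold infl
  rw [HLmap_comp]
  refine groupCohomology.map_congr rfl ?_ n
  rfl

lemma infl_infl_apply (B : Rep.{0} k Γ) {W'' W' W : Subgroup Γ} [W''.Normal] [W'.Normal]
    [W.Normal] (h : W' ≤ W) (h' : W'' ≤ W') (n : ℕ) (y : HL B W n) :
    (infl B h' n).hom ((infl B h n).hom y) = (infl B (h'.trans h) n).hom y :=
  congrArg (fun f => f.hom y) (infl_infl B h h' n)

lemma push_infl (φ : B ⟶ B') {W' W : Subgroup Γ} [W'.Normal] [W.Normal] (h : W' ≤ W) (n : ℕ) :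
    push φ W n ≫ infl B' h n = infl B h n ≫ push φ W' n := by
  unfold push infl
  rw [HLmap_comp, HLmap_comp]
  refine groupCohomology.map_congr rfl ?_ n
  rfl

lemma push_infl_apply (φ : B ⟶ B') {W' W : Subgroup Γ} [W'.Normal] [W.Normal] (h : W' ≤ W)
    (n : ℕ) (y : HL B W n) :
    (infl B' h n).hom ((push φ W n).hom y) = (push φ W' n).hom ((infl B h n).hom y) :=
  congrArg (fun f => f.hom y) (push_infl φ h n)

lemma push_eq_functor_map (φ : B ⟶ B') (W : Subgroup Γ) [W.Normal] (n : ℕ) :
    push φ W n =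
      (groupCohomology.functor k (Γ ⧸ W) n).map ((Rep.quotientToInvariantsFunctor k W).map φ) := by
  unfold push HLmap
  refine groupCohomology.map_congr ?_ ?_ n
  · exact QuotientGroup.map_id W
  · rfl

end Functoriality

/-! ### exactness on the invariants of a level acting trivially -/

section Exact

variable {Γ : Type} [Group Γ] (X : ShortComplex (Rep.{0} k Γ)) (W : Subgroup Γ) [W.Normal]

/-- The sequence of `W`-invariants, as a short complex of `Γ ⧸ W`-modules. -/
noncomputable def invComplex : ShortComplex (Rep.{0} k (Γ ⧸ W)) :=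
  ShortComplex.mk ((Rep.quotientToInvariantsFunctor k W).map X.f)
    ((Rep.quotientToInvariantsFunctor k W).map X.g) (by
      rw [← Functor.map_comp, X.zero]
      ext x
      rfl)

lemma invariants_shortExact (hX : X.ShortExact) (hW : ActsTrivially W X.X₂) :
    (invComplex X W).ShortExact where
  exact := by
    rw [← ShortComplex.exact_map_iff_of_faithful _ (forget₂ (Rep k (Γ ⧸ W)) (ModuleCat k)),
      ShortComplex.moduleCat_exact_iff_ker_sub_range]
    intro x hx
    have hx1 : X.g.hom (x : Representation.invariants (X.X₂.ρ.comp W.subtype)).1 = 0 :=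
      congrArg Subtype.val hx
    have hex := hX.exact
    rw [← ShortComplex.exact_map_iff_of_faithful _ (forget₂ (Rep k Γ) (ModuleCat k)),
      ShortComplex.moduleCat_exact_iff_ker_sub_range] at hex
    have hex' : ∃ a : X.X₁.V,
        X.f.hom a = (x : Representation.invariants (X.X₂.ρ.comp W.subtype)).1 := hex hx1
    obtain ⟨a, ha'⟩ := hex'
    have hinj : Function.Injective X.f.hom := (Rep.mono_iff_injective X.f).1 hX.mono_f
    have haW : a ∈ Representation.invariants (X.X₁.ρ.comp W.subtype) := by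
      intro w
      apply hinj
      change X.f.hom (X.X₁.ρ (w : Γ) a) = X.f.hom a
      rw [Rep.hom_comm_apply, ha']
      exact hW w w.2 _
    exact ⟨⟨a, haW⟩, Subtype.ext ha'⟩
  mono_f := by
    rw [Rep.mono_iff_injective]
    have hinj : Function.Injective X.f.hom := (Rep.mono_iff_injective X.f).1 hX.mono_f
    intro x y h
    exact Subtype.ext (hinj (congrArg Subtype.val h))
  epi_g := by
    rw [Rep.epi_iff_surjective]
    have hsurj : Function.Surjective X.g.hom := (Rep.epi_iff_surjective X.g).1 hX.epi_g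
    intro q
    obtain ⟨x, hx⟩ := hsurj (q : Representation.invariants (X.X₃.ρ.comp W.subtype)).1
    exact ⟨⟨x, fun w => hW w w.2 x⟩, Subtype.ext hx⟩

/-- Exactness of `Hⁿ(Γ/W, X₁^W) → Hⁿ(Γ/W, X₂^W) → Hⁿ(Γ/W, X₃^W)` if `W` acts trivially on
`X₂`. -/
lemma exists_push_eq (hX : X.ShortExact) (hW : ActsTrivially W X.X₂) (n : ℕ)
    (y : HL X.X₂ W n) (hy : (push X.g W n).hom y = 0) :
    ∃ z : HL X.X₁ W n, (push X.f W n).hom z = y := by
  have hex := mapShortComplex₂_exact (invariants_shortExact X W hX hW) n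
  rw [push_eq_functor_map] at hy
  obtain ⟨z, hz⟩ := (ShortComplex.moduleCat_exact_iff _).1 hex y hy
  refine ⟨z, ?_⟩
  rw [push_eq_functor_map]
  exact hz

end Exact

/-! ### the zero module -/

section Zero

variable {Γ : Type} [Group Γ]

lemma HL_eq_zero_of_subsingleton (R : Rep.{0} k Γ) [Subsingleton R.V] (W : Subgroup Γ)
    [W.Normal] (n : ℕ) (y : HL R W n) : y = 0 := by
  have h0 : IsZero (R.quotientToInvariants W) := by
    rw [IsZero.iff_id_eq_zero]
    ext x
    exact Subsingleton.elim (α := R.V) _ _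
  have h1 : IsZero (HL R W n) := (groupCohomology.functor k (Γ ⧸ W) n).map_isZero h0
  exact (ModuleCat.subsingleton_of_isZero h1).elim _ _

end Zero

/-! ### the exact sequence `0 → μ → R → Q → 0` attached to a fixed vector -/

section Construct

variable {Γ : Type} [Group Γ]

/-- An additive map between `k`-modules is `k`-linear if `ℤ → k` is surjective. -/
def linOfAdd (hk : Function.Surjective (Int.cast : ℤ → k)) {M M' : Type} [AddCommGroup M]
    [Module k M] [AddCommGroup M'] [Module k M'] (ψ : M →+ M') : M →ₗ[k] M' where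
  toFun := ψ
  map_add' := ψ.map_add
  map_smul' c m := by
    obtain ⟨n, rfl⟩ := hk c
    simp only [RingHom.id_apply]
    rw [Int.cast_smul_eq_zsmul, Int.cast_smul_eq_zsmul, map_zsmul]

@[simp]
lemma linOfAdd_apply (hk : Function.Surjective (Int.cast : ℤ → k)) {M M' : Type}
    [AddCommGroup M] [Module k M] [AddCommGroup M'] [Module k M'] (ψ : M →+ M') (m : M) :
    linOfAdd hk ψ m = ψ m := rfl

variable (p : ℕ) [Fact p.Prime]

/-- A group of order `p` is isomorphic to `ZMod p`. -/
noncomputable def zmodEquiv {M : Type} [AddCommGroup M] (hM : Nat.card M = p) : M ≃+ ZMod p :=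
  addEquivOfPrimeCardEq hM (Nat.card_zmod p)

/-- The additive map `ZMod p → R`, `1 ↦ r`, for `p • r = 0`. -/
noncomputable def zmodLift {M' : Type} [AddCommGroup M'] (r : M') (hr : p • r = 0) :
    ZMod p →+ M' :=
  ZMod.lift p ⟨zmultiplesHom M' r, by simpa using hr⟩

lemma zmodLift_intCast {M' : Type} [AddCommGroup M'] (r : M') (hr : p • r = 0) (n : ℤ) :
    zmodLift p r hr (n : ZMod p) = n • r := by
  unfold zmodLift
  rw [ZMod.lift_coe]
  simp

/-- The additive map `μ → R` attached to `r ∈ R` with `p • r = 0`, for `|μ| = p`. -/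
noncomputable def fixAdd {M M' : Type} [AddCommGroup M] [AddCommGroup M'] (hM : Nat.card M = p)
    (r : M') (hr : p • r = 0) : M →+ M' :=
  (zmodLift p r hr).comp (zmodEquiv p hM).toAddMonoidHom

lemma fixAdd_mem {M M' : Type} [AddCommGroup M] [AddCommGroup M'] (hM : Nat.card M = p)
    (r : M') (hr : p • r = 0) (m : M) : ∃ n : ℤ, fixAdd p hM r hr m = n • r := by
  obtain ⟨n, hn⟩ := ZMod.intCast_surjective (zmodEquiv p hM m)
  refine ⟨n, ?_⟩
  change zmodLift p r hr (zmodEquiv p hM m) = _
  rw [← hn, zmodLift_intCast]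

lemma fixAdd_injective {M M' : Type} [AddCommGroup M] [AddCommGroup M'] (hM : Nat.card M = p)
    (r : M') (hr : p • r = 0) (hr0 : r ≠ 0) : Function.Injective (fixAdd p hM r hr) := by
  rw [injective_iff_map_eq_zero]
  intro m hm
  by_contra hm0
  have h1 : zmodEquiv p hM m ≠ 0 := by
    intro h
    exact hm0 ((AddEquiv.map_eq_zero_iff _).1 h)
  have h2 : zmodLift p r hr (zmodEquiv p hM m) = 0 := hm
  have h3 : zmodLift p r hr ((zmodEquiv p hM m)⁻¹ * zmodEquiv p hM m) = 0 := by
    obtain ⟨n, hn⟩ := ZMod.intCast_surjective (zmodEquiv p hM m)⁻¹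
    rw [← hn, ← zsmul_eq_mul, map_zsmul, h2, smul_zero]
  rw [inv_mul_cancel₀ h1] at h3
  have h4 : zmodLift p r hr ((1 : ℤ) : ZMod p) = 0 := by
    simpa using h3
  rw [zmodLift_intCast, one_smul] at h4
  exact hr0 h4

end Construct

/-! ### fixed vectors of `p`-groups -/

section Fixed

variable {Γ : Type} [Group Γ] (p : ℕ) [Fact p.Prime]

lemma exists_fixed_ne_zero (R : Rep.{0} k Γ) [Finite R.V] (htors : ∀ r : R.V, p • r = 0)
    (hnt : ¬ Subsingleton R.V) (W : Subgroup Γ) [W.Normal] (hW : ActsTrivially W R)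
    (hPG : IsPGroup p (Γ ⧸ W)) : ∃ r : R.V, r ≠ 0 ∧ ∀ g : Γ, R.ρ g r = r := by
  classical
  let X := Representation.invariants (R.ρ.comp W.subtype)
  let _ : MulAction (Γ ⧸ W) X := MulAction.compHom X (R.quotientToInvariants W).ρ
  have hsmul : ∀ (q : Γ ⧸ W) (x : X), q • x = (R.quotientToInvariants W).ρ q x := fun _ _ => rfl
  -- a nonzero element
  obtain ⟨a, ha⟩ : ∃ a : R.V, a ≠ 0 := by
    by_contra h
    have h' : ∀ a : R.V, a = 0 := fun a => by
      by_contra ha
      exact h ⟨a, ha⟩
    exact hnt ⟨fun x y => by rw [h' x, h' y]⟩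
  have haX : a ∈ X := fun w => hW w w.2 a
  have hx0 : (⟨a, haX⟩ : X) ≠ 0 := fun h => ha (congrArg Subtype.val h)
  have hpx : p • (⟨a, haX⟩ : X) = 0 := Subtype.ext (htors a)
  have hdvd : p ∣ Nat.card X := by
    have h1 := addOrderOf_eq_prime hpx hx0
    rw [← h1]
    exact addOrderOf_dvd_natCard _
  have h0 : (0 : X) ∈ MulAction.fixedPoints (Γ ⧸ W) X := by
    intro q
    rw [hsmul, map_zero]
  obtain ⟨b, hb, hb0⟩ := hPG.exists_fixed_point_of_prime_dvd_card_of_fixed_point X hdvd h0
  refine ⟨b.1, fun h => hb0 (Subtype.ext h.symm), fun g => ?_⟩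
  have h2 : ((g : Γ ⧸ W) • b : X) = b := hb (g : Γ ⧸ W)
  exact congrArg Subtype.val h2

end Fixed

/-! ### the extension attached to a fixed vector -/

section Seq

variable {Γ : Type} [Group Γ] (hk : Function.Surjective (Int.cast : ℤ → k)) (p : ℕ)
  [Fact p.Prime] (μ : Rep.{0} k Γ) (hμ : Nat.card μ.V = p)
  (hμtriv : ∀ (g : Γ) (m : μ.V), μ.ρ g m = m)
  (R : Rep.{0} k Γ) (r : R.V) (hr : p • r = 0) (hfix : ∀ g : Γ, R.ρ g r = r)

include hfix in
lemma fixAdd_fixed (g : Γ) (m : μ.V) : R.ρ g (fixAdd p hμ r hr m) = fixAdd p hμ r hr m := by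
  obtain ⟨n, hn⟩ := fixAdd_mem p hμ r hr m
  rw [hn, map_zsmul, hfix]

/-- The morphism `μ ⟶ R` attached to a fixed vector `r`. -/
noncomputable def fixHom : μ ⟶ R :=
  Rep.ofHom (ρ := μ.ρ) (σ := R.ρ) ⟨linOfAdd hk (fixAdd p hμ r hr), fun g => by
    refine LinearMap.ext fun m => ?_
    have h1 : R.ρ g (fixAdd p hμ r hr m) = fixAdd p hμ r hr m := fixAdd_fixed p μ hμ R r hr hfix g m
    have h2 : μ.ρ g m = m := hμtriv g m
    simp [h1, h2]⟩

lemma fixHom_apply (m : μ.V) :
    (fixHom hk p μ hμ hμtriv R r hr hfix).hom m = fixAdd p hμ r hr m := rfl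

/-- The image of `μ` in `R`. -/
noncomputable def fixRange : Submodule k R.V :=
  LinearMap.range (fixHom hk p μ hμ hμtriv R r hr hfix).hom.toLinearMap

lemma fixRange_le_comap (g : Γ) :
    fixRange hk p μ hμ hμtriv R r hr hfix ≤
      (fixRange hk p μ hμ hμtriv R r hr hfix).comap (R.ρ g) := by
  rintro _ ⟨m, rfl⟩
  rw [Submodule.mem_comap]
  refine ⟨m, ?_⟩
  exact (fixAdd_fixed p μ hμ R r hr hfix g m).symm

/-- The quotient `Q = R / μ`. -/
noncomputable abbrev fixQuot : Rep.{0} k Γ :=
  Rep.quotient R (fixRange hk p μ hμ hμtriv R r hr hfix)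
    (fixRange_le_comap hk p μ hμ hμtriv R r hr hfix)

/-- The projection `R ⟶ Q`. -/
noncomputable abbrev fixProj : R ⟶ fixQuot hk p μ hμ hμtriv R r hr hfix :=
  Rep.mkQ R (fixRange hk p μ hμ hμtriv R r hr hfix)
    (fixRange_le_comap hk p μ hμ hμtriv R r hr hfix)

lemma fixProj_surjective : Function.Surjective (fixProj hk p μ hμ hμtriv R r hr hfix).hom :=
  Submodule.mkQ_surjective _

lemma fixProj_eq_zero_iff (x : R.V) :
    (fixProj hk p μ hμ hμtriv R r hr hfix).hom x = 0 ↔
      x ∈ fixRange hk p μ hμ hμtriv R r hr hfix :=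
  Submodule.Quotient.mk_eq_zero _

lemma fixHom_comp_fixProj :
    fixHom hk p μ hμ hμtriv R r hr hfix ≫ fixProj hk p μ hμ hμtriv R r hr hfix = 0 := by
  ext m
  exact (fixProj_eq_zero_iff hk p μ hμ hμtriv R r hr hfix _).2 ⟨m, rfl⟩

/-- The short complex `μ ⟶ R ⟶ Q`. -/
noncomputable def fixSC : ShortComplex (Rep.{0} k Γ) :=
  ShortComplex.mk (fixHom hk p μ hμ hμtriv R r hr hfix) (fixProj hk p μ hμ hμtriv R r hr hfix)
    (fixHom_comp_fixProj hk p μ hμ hμtriv R r hr hfix)

lemma fixSC_shortExact (hr0 : r ≠ 0) : (fixSC hk p μ hμ hμtriv R r hr hfix).ShortExact where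
  exact := by
    rw [← ShortComplex.exact_map_iff_of_faithful _ (forget₂ (Rep k Γ) (ModuleCat k)),
      ShortComplex.moduleCat_exact_iff_ker_sub_range]
    intro x hx
    exact (fixProj_eq_zero_iff hk p μ hμ hμtriv R r hr hfix x).1 hx
  mono_f := (Rep.mono_iff_injective _).2 (fixAdd_injective p hμ r hr hr0)
  epi_g := (Rep.epi_iff_surjective _).2 (fixProj_surjective hk p μ hμ hμtriv R r hr hfix)

lemma card_fixQuot_lt [Finite R.V] (hr0 : r ≠ 0) :
    Nat.card (fixQuot hk p μ hμ hμtriv R r hr hfix).V < Nat.card R.V := by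
  classical
  let _ : Fintype R.V := Fintype.ofFinite _
  have hfinQ : Finite (fixQuot hk p μ hμ hμtriv R r hr hfix).V :=
    Finite.of_surjective _ (fixProj_surjective hk p μ hμ hμtriv R r hr hfix)
  let _ : Fintype (fixQuot hk p μ hμ hμtriv R r hr hfix).V := Fintype.ofFinite _
  rw [Nat.card_eq_fintype_card, Nat.card_eq_fintype_card]
  refine Fintype.card_lt_of_surjective_not_injective _
    (fixProj_surjective hk p μ hμ hμtriv R r hr hfix) (fun hinj => ?_)
  -- a nonzero element of `μ`
  have hμ1 : 1 < Nat.card μ.V := by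
    rw [hμ]
    exact (Fact.out (p := p.Prime)).one_lt
  have hfinμ : Finite μ.V := Nat.finite_of_card_ne_zero (by omega)
  obtain ⟨m, hm⟩ : ∃ m : μ.V, m ≠ 0 := by
    rw [Finite.one_lt_card_iff_nontrivial] at hμ1
    exact exists_ne 0
  have h1 : (fixProj hk p μ hμ hμtriv R r hr hfix).hom (fixAdd p hμ r hr m) = 0 :=
    (fixProj_eq_zero_iff hk p μ hμ hμtriv R r hr hfix _).2 ⟨m, rfl⟩
  have h2 : fixAdd p hμ r hr m = 0 := hinj (by rw [h1, map_zero])
  exact hm (fixAdd_injective p hμ r hr hr0 (by rw [h2, map_zero]))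

lemma fixQuot_tors (htors : ∀ x : R.V, p • x = 0)
    (q : (fixQuot hk p μ hμ hμtriv R r hr hfix).V) : p • q = 0 := by
  obtain ⟨x, rfl⟩ := fixProj_surjective hk p μ hμ hμtriv R r hr hfix q
  rw [← map_nsmul, htors, map_zero]

lemma fixQuot_actsTrivially (W : Subgroup Γ) (hW : ActsTrivially W R) :
    ActsTrivially W (fixQuot hk p μ hμ hμtriv R r hr hfix) := by
  intro w hw q
  obtain ⟨x, rfl⟩ := fixProj_surjective hk p μ hμ hμtriv R r hr hfix q
  have h := Rep.hom_comm_apply (fixProj hk p μ hμ hμtriv R r hr hfix) w x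
  rw [← h, hW w hw x]

end Seq

/-! ### the induction -/

/-- **KB-DEV-C.** -/
theorem devPGroup : DevPGroupSpec := by
  intro k Γ _ _ hk N μ p hp hμ hμtriv hμeff
  have : Fact p.Prime := ⟨hp⟩
  have key : ∀ n : ℕ, ∀ R : Rep.{0} k Γ, Nat.card R.V = n → Finite R.V →
      (∀ r : R.V, p • r = 0) →
      (∃ V : N.Lvl, ActsTrivially V.W R ∧ IsPGroup p (Γ ⧸ V.W)) → EffAll N R 3 := by
    intro n
    induction n using Nat.strong_induction_on with
    | _ n ih =>
      rintro R hcard hfin htors ⟨V₀, hV₀, hPG⟩ V y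
      by_cases hsub : Subsingleton R.V
      · exact ⟨V, le_rfl, HL_eq_zero_of_subsingleton R _ 3 _⟩
      · obtain ⟨r, hr0, hfix⟩ := exists_fixed_ne_zero p R htors hsub V₀.W hV₀ hPG
        have hr : p • r = 0 := htors r
        -- the exact sequence `0 → μ → R → Q → 0`
        have hX := fixSC_shortExact hk p μ hμ hμtriv R r hr hfix hr0
        have hQfin : Finite (fixQuot hk p μ hμ hμtriv R r hr hfix).V :=
          Finite.of_surjective _ (fixProj_surjective hk p μ hμ hμtriv R r hr hfix)
        have hQ : EffAll N (fixQuot hk p μ hμ hμtriv R r hr hfix) 3 :=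
          ih _ (hcard ▸ card_fixQuot_lt hk p μ hμ hμtriv R r hr hfix hr0) _ rfl hQfin
            (fixQuot_tors hk p μ hμ hμtriv R r hr hfix htors)
            ⟨V₀, fixQuot_actsTrivially hk p μ hμ hμtriv R r hr hfix V₀.W hV₀, hPG⟩
        -- go to a level acting trivially on `R`
        obtain ⟨V₁, hV₁V, hV₁V₀⟩ := N.exists_le V V₀
        -- efface the image in `H³(Q)`
        obtain ⟨V₂, hV₂, h2⟩ := hQ V₁
          ((push (fixProj hk p μ hμ hμtriv R r hr hfix) V₁.W 3).hom
            ((infl R hV₁V 3).hom y))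
        rw [push_infl_apply, infl_infl_apply] at h2
        have hV₂triv : ActsTrivially V₂.W R := fun w hw => hV₀ w (hV₁V₀ (hV₂ hw))
        obtain ⟨z, hz⟩ := exists_push_eq (fixSC hk p μ hμ hμtriv R r hr hfix) V₂.W hX hV₂triv 3
          ((infl R (hV₂.trans hV₁V) 3).hom y) h2
        -- efface `z`
        obtain ⟨V₃, hV₃, h3⟩ := hμeff V₂ z
        refine ⟨V₃, hV₃.trans (hV₂.trans hV₁V), ?_⟩
        have h4 := push_infl_apply (fixHom hk p μ hμ hμtriv R r hr hfix) hV₃ 3 z
        rw [h3, map_zero] at h4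
        have h5 : (push (fixSC hk p μ hμ hμtriv R r hr hfix).f V₂.W 3).hom z =
            (push (fixHom hk p μ hμ hμtriv R r hr hfix) V₂.W 3).hom z := rfl
        rw [h5] at hz
        rw [hz, infl_infl_apply] at h4
        exact h4
  intro R hfin htors hV
  exact key _ R rfl hfin htors hV

end Fermat.Agent.S55.KL.H783

end
-- ===== PACK-END S55/KL/DevCH783.lean

-- ===== PACK-BEGIN S55/L/H715/Dict1.lean
section




/-!
# S55, layer L : DICTIONARY between the core (`Fermat.Agent.S55.Local`) and the outer layer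
(`Fermat.Agent.S55.L`), part 1 : a fixed base `(A, F)`   (helper715)

Core vocabulary (`Local/Defs.lean`): base `(A, F)` (complete DVR with finite residue field and its
fraction field), `IsInt A F L x`, `intUnits A F L`, `IsUnif A F L ϖ`, `IsUnram A F L K`.
Outer vocabulary (`L/Spec.lean`, `L/SpecInv.lean`): `ValuationSubring`, `IsLocalRingOfIntegers B`,
`B.unitGroup`, `IsUniformizer B π`, `IsUnramifiedExt K L`.

This file: for a finite extension `L / F`
* `intVS A F L : ValuationSubring L`, the ring of integers (integral closure of `A`), with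
  `mem_intVS_iff : x ∈ intVS A F L ↔ IsInt A F L x` (by `Iff.rfl`),
* `isLocalRingOfIntegers_intVS : IsLocalRingOfIntegers (intVS A F L)`,
* `mem_unitGroup_intVS_iff : u ∈ (intVS A F L).unitGroup ↔ u ∈ intUnits A F L`,
* `isUniformizer_intVS_iff : IsUniformizer (intVS A F L) π ↔ IsUnif A F L π`.
-/

set_option autoImplicit false
set_option linter.unusedSectionVars false
set_option linter.style.haveILetI false

namespace Fermat.Agent.S55.L.H715

open Fermat.Agent.S55.Local Fermat.Agent.S55.Local.H715 IsLocalRing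

section Base

variable (A F : Type) [CommRing A] [IsDomain A] [IsDiscreteValuationRing A]
  [IsAdicComplete (IsLocalRing.maximalIdeal A) A] [Finite (IsLocalRing.ResidueField A)]
  [Field F] [CharZero F] [Algebra A F] [IsFractionRing A F]
  (L : Type) [Field L] [Algebra F L] [FiniteDimensional F L]

/-- (= LF1) the integers of a local field form a valuation ring. -/
lemma isInt_or_isInt_inv (x : L) : IsInt A F L x ∨ IsInt A F L x⁻¹ := by
  letI := algAL A F L
  haveI := isScalarTower_algAL A F L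
  haveI := isDiscreteValuationRing_OL A F L
  haveI := isFractionRing_OL A F L
  rcases ValuationRing.isInteger_or_isInteger (integralClosure A L) x with ⟨y, hy⟩ | ⟨y, hy⟩
  · left
    have : (y : L) = x := hy
    rw [← this]
    exact y.2
  · right
    have : (y : L) = x⁻¹ := hy
    rw [← this]
    exact y.2

/-- The ring of integers of `L` (integral closure of `A`) as a valuation subring of `L`. -/
noncomputable def intVS : ValuationSubring L :=
  letI := algAL A F L
  { (integralClosure A L).toSubring with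
    mem_or_inv_mem' := fun x => isInt_or_isInt_inv A F L x }

lemma mem_intVS_iff (x : L) : x ∈ intVS A F L ↔ IsInt A F L x := Iff.rfl

/-- The ring of integers is a complete DVR with finite residue field. -/
theorem isLocalRingOfIntegers_intVS : IsLocalRingOfIntegers (intVS A F L) :=
  letI := algAL A F L
  haveI := isScalarTower_algAL A F L
  ⟨isDiscreteValuationRing_OL A F L, isAdicComplete_OL A F L, finite_residueField_OL A F L⟩

lemma mem_unitGroup_iff_mem_and_inv_mem {M : Type} [Field M] (B : ValuationSubring M) (u : Mˣ) :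
    u ∈ B.unitGroup ↔ (u : M) ∈ B ∧ ((u⁻¹ : Mˣ) : M) ∈ B := by
  rw [ValuationSubring.mem_unitGroup_iff, ← ValuationSubring.valuation_le_one_iff,
    ← ValuationSubring.valuation_le_one_iff]
  constructor
  · intro h
    refine ⟨h.le, ?_⟩
    rw [Units.val_inv_eq_inv_val, map_inv₀, h, inv_one]
  · rintro ⟨h1, h2⟩
    rw [Units.val_inv_eq_inv_val, map_inv₀] at h2
    have hne : B.valuation (u : M) ≠ 0 := (map_ne_zero _).2 u.ne_zero
    refine le_antisymm h1 ?_
    have := (inv_le_one₀ (zero_lt_iff.2 hne)).1 h2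
    exact this

/-- Units of the ring of integers: outer `unitGroup` = core `intUnits`. -/
theorem mem_unitGroup_intVS_iff (u : Lˣ) :
    u ∈ (intVS A F L).unitGroup ↔ u ∈ intUnits A F L := by
  rw [mem_unitGroup_iff_mem_and_inv_mem, mem_intUnits, mem_intVS_iff, mem_intVS_iff]

end Base

section Generic

variable {M : Type} [Field M] (B : ValuationSubring M)

/-- In a valuation subring which is a DVR: `π` is a uniformizer (irreducible element) iff it is
integral, not a unit, and every `x : Mˣ` is a unit times a power of `π`. -/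
theorem isUniformizer_iff_aux [IsDiscreteValuationRing B] (π : Mˣ) :
    IsUniformizer B (π : M) ↔
      ((π : M) ∈ B ∧ π ∉ B.unitGroup ∧ ∀ x : Mˣ, ∃ n : ℤ, x * π ^ (-n) ∈ B.unitGroup) := by
  have hπ0 : B.valuation (π : M) ≠ 0 := (map_ne_zero _).2 π.ne_zero
  constructor
  · rintro ⟨h, hirr⟩
    refine ⟨h, ?_, ?_⟩
    · intro hu
      rw [ValuationSubring.mem_unitGroup_iff] at hu
      exact hirr.not_isUnit ((B.valuation_eq_one_iff ⟨π, h⟩).2 hu)
    · have key : ∀ x : Mˣ, (x : M) ∈ B → ∃ n : ℕ, B.valuation (x : M) = B.valuation (π : M) ^ n := by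
        intro x hx
        have hy0 : (⟨x, hx⟩ : B) ≠ 0 := fun h0 => x.ne_zero (congrArg Subtype.val h0)
        obtain ⟨n, u, hu⟩ := IsDiscreteValuationRing.eq_unit_mul_pow_irreducible hy0 hirr
        refine ⟨n, ?_⟩
        have hx_eq : (x : M) = ((u : B) : M) * (π : M) ^ n := by
          have := congrArg Subtype.val hu
          simpa using this
        have hvu : B.valuation ((u : B) : M) = 1 := (B.valuation_eq_one_iff (u : B)).1 u.isUnit
        rw [hx_eq, map_mul, map_pow, hvu, one_mul]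
      intro x
      rcases B.mem_or_inv_mem (x : M) with hx | hx
      · obtain ⟨n, hn⟩ := key x hx
        refine ⟨n, ?_⟩
        rw [ValuationSubring.mem_unitGroup_iff, Units.val_mul, Units.val_zpow_eq_zpow_val, map_mul,
          map_zpow₀, hn, zpow_neg, zpow_natCast]
        exact mul_inv_cancel₀ (pow_ne_zero _ hπ0)
      · obtain ⟨n, hn⟩ := key x⁻¹ (by rwa [Units.val_inv_eq_inv_val])
        refine ⟨-(n : ℤ), ?_⟩
        rw [Units.val_inv_eq_inv_val, map_inv₀] at hn
        rw [ValuationSubring.mem_unitGroup_iff, Units.val_mul, Units.val_zpow_eq_zpow_val, map_mul,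
          map_zpow₀, neg_neg, zpow_natCast, ← hn]
        exact mul_inv_cancel₀ ((map_ne_zero _).2 x.ne_zero)
  · rintro ⟨h, hnu, hall⟩
    refine ⟨h, ?_⟩
    rw [IsDiscreteValuationRing.irreducible_iff_uniformizer]
    have hvπ : B.valuation (π : M) < 1 :=
      lt_of_le_of_ne ((B.valuation_le_one_iff _).2 h)
        (fun h1 => hnu ((B.mem_unitGroup_iff π).2 h1))
    apply le_antisymm
    · intro y hy
      rw [Ideal.mem_span_singleton]
      by_cases hy0 : y = 0
      · rw [hy0]; exact dvd_zero _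
      have hyM : (y : M) ≠ 0 := fun h0 => hy0 (Subtype.ext h0)
      have hvy : B.valuation (y : M) < 1 :=
        (B.mem_nonunits_iff).1 (ValuationSubring.coe_mem_nonunits_iff.2 hy)
      obtain ⟨n, hn⟩ := hall (Units.mk0 (y : M) hyM)
      rw [ValuationSubring.mem_unitGroup_iff, Units.val_mul, Units.val_zpow_eq_zpow_val, map_mul,
        map_zpow₀, Units.val_mk0, zpow_neg] at hn
      have hvy' : B.valuation (y : M) = B.valuation (π : M) ^ n := by
        have h2 := congrArg (· * B.valuation (π : M) ^ n) hn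
        simp only [one_mul] at h2
        rwa [mul_assoc, inv_mul_cancel₀ (zpow_ne_zero _ hπ0), mul_one] at h2
      have hdiv : (y : M) / (π : M) ∈ B := by
        rw [← B.valuation_le_one_iff, map_div₀, hvy']
        rcases n with k | k
        · rcases k with _ | j
          · exfalso
            rw [hvy'] at hvy
            simp at hvy
          · rw [Int.ofNat_eq_natCast, zpow_natCast, pow_succ,
              mul_div_assoc, div_self hπ0, mul_one]
            exact pow_le_one₀ zero_le hvπ.le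
        · exfalso
          rw [hvy', zpow_negSucc] at hvy
          have h3 : B.valuation (π : M) ^ (k + 1) ≤ 1 := pow_le_one₀ zero_le hvπ.le
          have h4 : (1 : B.ValueGroup) ≤ (B.valuation (π : M) ^ (k + 1))⁻¹ :=
            (one_le_inv₀ (zero_lt_iff.2 (pow_ne_zero _ hπ0))).2 h3
          exact absurd hvy (not_lt.2 h4)
      refine ⟨⟨(y : M) / (π : M), hdiv⟩, Subtype.ext ?_⟩
      show (y : M) = (π : M) * ((y : M) / (π : M))
      field_simp
    · rw [Ideal.span_singleton_le_iff_mem]
      exact ValuationSubring.coe_mem_nonunits_iff.1 ((B.mem_nonunits_iff).2 hvπ)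

end Generic

section Base2

variable (A F : Type) [CommRing A] [IsDomain A] [IsDiscreteValuationRing A]
  [IsAdicComplete (IsLocalRing.maximalIdeal A) A] [Finite (IsLocalRing.ResidueField A)]
  [Field F] [CharZero F] [Algebra A F] [IsFractionRing A F]
  (L : Type) [Field L] [Algebra F L] [FiniteDimensional F L]

/-- Uniformizers: outer `IsUniformizer` = core `IsUnif`. -/
theorem isUniformizer_intVS_iff (π : Lˣ) :
    IsUniformizer (intVS A F L) (π : L) ↔ IsUnif A F L π := by
  haveI : IsDiscreteValuationRing (intVS A F L) := (isLocalRingOfIntegers_intVS A F L).1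
  rw [isUniformizer_iff_aux]
  unfold IsUnif
  simp only [mem_unitGroup_intVS_iff, mem_intVS_iff]

end Base2

end Fermat.Agent.S55.L.H715

end
-- ===== PACK-END S55/L/H715/Dict1.lean

-- ===== PACK-BEGIN S55/L/UnramNormUnits423.lean
section




/-!
# S55, layer L, leaf L-B1 in Spec form: `UnramifiedNormUnitsSpec`

`unramifiedNormUnits_of423 (h0 : RingOfIntegersUniqueSpec) : UnramifiedNormUnitsSpec`.

Bridge from the abstract norm theorem of helper661
(`H661.unitsMap_norm_surjective_of_map_maximalIdeal_eq`, Galois-free) to the valuation-subring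
interface of helper54's Spec:

* by uniqueness of the ring of integers (`h0`, leaf L-A0) the rings `A`, `B` of the statement are
  the ones carrying the common uniformizer, and `B` is the valuation subring of elements of `L`
  integral over `A` (which is a ring of integers by `H661.intClosure_*`);
* `B` is finite free over `A`, and `𝔪_A B = 𝔪_B` since a uniformizer of `A` is one of `B`;
* `Algebra.norm K` restricted to `B` is `Algebra.norm A` (`Algebra.norm_localization`).
-/

set_option autoImplicit false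
set_option linter.style.haveILetI false

namespace Fermat.Agent.S55.L.H423

open IsLocalRing

/-- **L-B1** (Spec form, modulo uniqueness of the ring of integers L-A0): in an unramified
extension of local fields every unit of `K` is the norm of a unit of `L`. -/
theorem unramifiedNormUnits_of423 (h0 : RingOfIntegersUniqueSpec) : UnramifiedNormUnitsSpec := by
  intro K L _ _ _ _ hK hun A B hA hB u hu
  classical
  obtain ⟨A₁, B₁, π, hA₁, hB₁, hπA, hπB⟩ := hun
  haveI hchar : CharZero K := hK.charZero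
  haveI hcharL : CharZero L := charZero_of_injective_algebraMap (algebraMap K L).injective
  haveI hL : IsLocalFld L := ⟨hcharL, ⟨B, hB⟩⟩
  obtain rfl : A₁ = A := h0 K A₁ A hA₁ hA
  obtain rfl : B₁ = B := h0 L B₁ B hB₁ hB
  obtain ⟨hdvr, hcomp, hfin⟩ := hA
  haveI := hdvr
  haveI := hcomp
  haveI := hfin
  letI algAL : Algebra A₁ L := ((algebraMap K L).comp (algebraMap A₁ K)).toAlgebra
  haveI : IsScalarTower A₁ K L := IsScalarTower.of_algebraMap_eq (fun _ => rfl)
  haveI : Algebra.IsSeparable K L := inferInstance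
  -- the valuation subring of integral elements
  haveI : IsDomain (integralClosure A₁ L) := inferInstance
  haveI : IsDiscreteValuationRing (integralClosure A₁ L) :=
    H661.intClosure_isDVR A₁ K L (integralClosure A₁ L)
  haveI hFrac : IsFractionRing (integralClosure A₁ L) L :=
    IsIntegralClosure.isFractionRing_of_finite_extension A₁ K L _
  have hval : ∀ x : L, x ∈ integralClosure A₁ L ∨ x⁻¹ ∈ integralClosure A₁ L := by
    intro x
    rcases ValuationRing.isInteger_or_isInteger (integralClosure A₁ L) x with ⟨b, hb⟩ | ⟨b, hb⟩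
    · left; rw [← hb]; exact b.2
    · right; rw [← hb]; exact b.2
  let BV : ValuationSubring L :=
    { (integralClosure A₁ L).toSubring with mem_or_inv_mem' := hval }
  have hmem : ∀ x : L, x ∈ BV ↔ IsIntegral A₁ x := fun x => Iff.rfl
  letI algABV : Algebra A₁ BV :=
    ((algebraMap A₁ L).codRestrict BV (fun a => (hmem _).mpr isIntegral_algebraMap)).toAlgebra
  haveI : IsScalarTower A₁ BV L := IsScalarTower.of_algebraMap_eq (fun _ => rfl)
  haveI : IsIntegralClosure BV A₁ L :=
    ⟨Subtype.val_injective, fun {x} => ⟨fun h => ⟨⟨x, (hmem x).mpr h⟩, rfl⟩,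
      fun ⟨y, hy⟩ => hy ▸ (hmem _).mp y.2⟩⟩
  haveI : IsDiscreteValuationRing BV := H661.intClosure_isDVR A₁ K L BV
  haveI : IsAdicComplete (maximalIdeal BV) BV := H661.intClosure_isAdicComplete A₁ K L BV
  haveI : Finite (ResidueField BV) := H661.intClosure_finite_residueField A₁ K L BV
  haveI : Module.Finite A₁ BV := H661.intClosure_finite A₁ K L BV
  haveI : Module.Free A₁ BV := H661.intClosure_free A₁ K L BV
  have hBV : IsLocalRingOfIntegers BV := ⟨inferInstance, inferInstance, inferInstance⟩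
  have hBB : B₁ = BV := h0 L B₁ BV hB hBV
  rw [hBB] at hπB ⊢
  -- unramified: `𝔪_A B = 𝔪_B`
  obtain ⟨hπmem, hπirr⟩ := hπA
  obtain ⟨hπmemB, hπirrB⟩ := hπB
  have hunr : Ideal.map (algebraMap A₁ BV) (maximalIdeal A₁) = maximalIdeal BV := by
    rw [hπirr.maximalIdeal_eq, hπirrB.maximalIdeal_eq, Ideal.map_span, Set.image_singleton]
    rfl
  obtain ⟨v, hv⟩ := H661.unitsMap_norm_surjective_of_map_maximalIdeal_eq (A := A₁) (B := BV) hunr
    (A₁.unitGroupMulEquiv ⟨u, hu⟩)
  refine ⟨(BV.unitGroupMulEquiv.symm v : BV.unitGroup).1, (BV.unitGroupMulEquiv.symm v).2, ?_⟩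
  haveI : IsLocalization (Algebra.algebraMapSubmonoid BV (nonZeroDivisors A₁)) L :=
    IsIntegralClosure.isLocalization A₁ K L BV
  have hnorm := Algebra.norm_localization (R := A₁) (Rₘ := K) (S := BV) (Sₘ := L)
    (nonZeroDivisors A₁) (v : BV)
  have hv' : Algebra.norm A₁ (v : BV) = (A₁.unitGroupMulEquiv ⟨u, hu⟩ : A₁) := by
    simpa using congrArg Units.val hv
  have h1 : (((BV.unitGroupMulEquiv.symm v : BV.unitGroup) : Lˣ) : L) = algebraMap BV L v := rfl
  rw [h1, hnorm, hv']
  rfl

end Fermat.Agent.S55.L.H423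

end
-- ===== PACK-END S55/L/UnramNormUnits423.lean

-- ===== PACK-BEGIN S55/Local/H585/IntBridge.lean
section


/-!
# S55, layer L (helper585): dictionary `IsInt / intUnits / higherUnits` <-> `integralClosure A L`

General setting: `[Algebra A L] [IsScalarTower A F L]` (no completeness needed here).
-/

set_option autoImplicit false
set_option linter.unusedSectionVars false

namespace Fermat.Agent.S55.Local.H585

section Bridge

variable {A F L : Type} [CommRing A] [Field F] [Algebra A F] [Field L] [Algebra F L]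
  [Algebra A L] [IsScalarTower A F L]

theorem isInt_iff {x : L} : IsInt A F L x ↔ IsIntegral A x := by
  unfold IsInt IsIntegral
  rw [show toL A F L = algebraMap A L from (IsScalarTower.algebraMap_eq A F L).symm]

theorem isInt_iff_mem {x : L} : IsInt A F L x ↔ x ∈ integralClosure A L := isInt_iff

theorem isInt_coe (b : integralClosure A L) : IsInt A F L (b : L) := isInt_iff.mpr b.2

variable (A L) in
/-- The inclusion of the units of the ring of integers into `Lˣ`. -/
def unitsIncB : (integralClosure A L)ˣ →* Lˣ :=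
  Units.map ((integralClosure A L).val : integralClosure A L →* L)

@[simp] theorem unitsIncB_coe (b : (integralClosure A L)ˣ) :
    ((unitsIncB A L b : Lˣ) : L) = ((b : integralClosure A L) : L) := rfl

theorem unitsIncB_inv_coe (b : (integralClosure A L)ˣ) :
    (((unitsIncB A L b)⁻¹ : Lˣ) : L) = (((b⁻¹ : (integralClosure A L)ˣ) : integralClosure A L) : L) := by
  rw [← map_inv]; rfl

theorem unitsIncB_injective : Function.Injective (unitsIncB A L) := by
  intro b c h
  apply Units.ext
  apply Subtype.ext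
  have := congrArg (fun x : Lˣ => (x : L)) h
  simpa using this

theorem unitsIncB_mem (b : (integralClosure A L)ˣ) : unitsIncB A L b ∈ intUnits A F L := by
  refine ⟨isInt_coe _, ?_⟩
  rw [unitsIncB_inv_coe]
  exact isInt_coe _

/-- An element of `intUnits` as a unit of the ring of integers. -/
def toUnitsB {x : Lˣ} (hx : x ∈ intUnits A F L) : (integralClosure A L)ˣ where
  val := ⟨(x : L), isInt_iff_mem.mp hx.1⟩
  inv := ⟨((x⁻¹ : Lˣ) : L), isInt_iff_mem.mp hx.2⟩
  val_inv := by apply Subtype.ext; simp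
  inv_val := by apply Subtype.ext; simp

@[simp] theorem unitsIncB_toUnitsB {x : Lˣ} (hx : x ∈ intUnits A F L) :
    unitsIncB A L (toUnitsB hx) = x := by
  apply Units.ext; rfl

theorem mem_intUnits_iff {x : Lˣ} :
    x ∈ intUnits A F L ↔ ∃ b : (integralClosure A L)ˣ, unitsIncB A L b = x :=
  ⟨fun hx => ⟨toUnitsB hx, unitsIncB_toUnitsB hx⟩, fun ⟨b, hb⟩ => hb ▸ unitsIncB_mem b⟩

theorem intUnits_eq_range : intUnits A F L = (unitsIncB A L).range := by
  ext x; rw [mem_intUnits_iff]; rfl

theorem intUnits_eq_map_top : intUnits A F L = (⊤ : Subgroup (integralClosure A L)ˣ).map (unitsIncB A L) := by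
  rw [intUnits_eq_range, MonoidHom.range_eq_map]

/-- `x ∈ higherUnits ϖ j` iff `x` is the image of a unit of `B` congruent to `1` modulo `ϖ^j`. -/
theorem mem_higherUnits_iff (ϖ : integralClosure A L) (j : ℕ) {x : Lˣ} :
    x ∈ higherUnits A F L (ϖ : L) j ↔
      ∃ b : (integralClosure A L)ˣ, unitsIncB A L b = x ∧
        ((b : integralClosure A L) - 1) ∈ Ideal.span {ϖ ^ j} := by
  constructor
  · rintro ⟨hx, c, hc, hxc⟩
    refine ⟨toUnitsB hx, unitsIncB_toUnitsB hx, ?_⟩
    rw [Ideal.mem_span_singleton']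
    refine ⟨⟨c, isInt_iff_mem.mp hc⟩, ?_⟩
    apply Subtype.ext
    simp only [toUnitsB]
    push_cast
    rw [hxc]; ring
  · rintro ⟨b, rfl, hb⟩
    refine ⟨unitsIncB_mem b, ?_⟩
    rw [Ideal.mem_span_singleton'] at hb
    obtain ⟨c, hc⟩ := hb
    refine ⟨(c : L), isInt_coe c, ?_⟩
    have := congrArg (fun y : integralClosure A L => (y : L)) hc
    push_cast at this
    rw [unitsIncB_coe]
    linear_combination -this

theorem higherUnits_eq_map (ϖ : integralClosure A L) (j : ℕ) :
    higherUnits A F L (ϖ : L) j =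
      (Units.map ((Ideal.Quotient.mk (Ideal.span {ϖ ^ j})) :
        integralClosure A L →* (integralClosure A L ⧸ Ideal.span {ϖ ^ j}))).ker.map
        (unitsIncB A L) := by
  ext x
  rw [mem_higherUnits_iff, Subgroup.mem_map]
  constructor
  · rintro ⟨b, hb, hmem⟩
    refine ⟨b, ?_, hb⟩
    rw [MonoidHom.mem_ker]
    apply Units.ext
    simp only [Units.coe_map, MonoidHom.coe_coe, Units.val_one]
    rw [← map_one (Ideal.Quotient.mk (Ideal.span {ϖ ^ j})), Ideal.Quotient.eq]
    exact hmem
  · rintro ⟨b, hb, hbx⟩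
    refine ⟨b, hbx, ?_⟩
    rw [MonoidHom.mem_ker] at hb
    have := congrArg (fun y : (integralClosure A L ⧸ Ideal.span {ϖ ^ j})ˣ =>
      (y : integralClosure A L ⧸ Ideal.span {ϖ ^ j})) hb
    simp only [Units.coe_map, MonoidHom.coe_coe, Units.val_one] at this
    rw [← map_one (Ideal.Quotient.mk (Ideal.span {ϖ ^ j})), Ideal.Quotient.eq] at this
    exact this

end Bridge

end Fermat.Agent.S55.Local.H585

end
-- ===== PACK-END S55/Local/H585/IntBridge.lean

-- ===== PACK-BEGIN S55/Local/H312/UnramCore.lean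
section



/-!
# S55 layer L, piece UR0/UR1 (helper312): abstract core

`G` a finite group acting on a Dedekind domain `S` with invariant ring `R` (`IsGaloisGroup G R S`).
Unramifiedness hypothesis `hunr`: every nonzero element of `S` is an element of `R` times a unit
of `S`.  Then every prime of `S` is `G`-stable, has ramification index `1` and trivial inertia
group, and `G` embeds into the automorphism group of the residue field extension; if the residue
fields are finite, `G` is cyclic.
-/

set_option autoImplicit false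
set_option linter.overlappingInstances false
set_option linter.style.haveILetI false
set_option linter.unusedSectionVars false

namespace Fermat.Agent.S55.Local.H312

open Fermat.Agent.S55.Local
open scoped Pointwise

section Core

variable {R S G : Type} [CommRing R] [CommRing S] [Algebra R S] [Group G]
  [MulSemiringAction G S] [IsGaloisGroup G R S]

/-- If every nonzero element of `S` is an element of `R` times a unit of `S`, then every prime
ideal of `S` is `G`-stable. -/
theorem smul_mem_of_unram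
    (hunr : ∀ x : S, x ≠ 0 → ∃ (y : R) (u : Sˣ), x = algebraMap R S y * u)
    (Q : Ideal S) [Q.IsPrime] (σ : G) (x : S) (hx : x ∈ Q) : σ • x ∈ Q := by
  by_cases hx0 : x = 0
  · subst hx0; simp
  obtain ⟨y, u, rfl⟩ := hunr x hx0
  have hy : algebraMap R S y ∈ Q := by
    rcases Ideal.IsPrime.mem_or_mem ‹Q.IsPrime› hx with h | h
    · exact h
    · exact absurd (Q.eq_top_of_isUnit_mem h u.isUnit) (Ideal.IsPrime.ne_top ‹_›)
  rw [smul_mul', smul_algebraMap]
  exact Q.mul_mem_right _ hy

theorem stabilizer_eq_top_of_unram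
    (hunr : ∀ x : S, x ≠ 0 → ∃ (y : R) (u : Sˣ), x = algebraMap R S y * u)
    (Q : Ideal S) [Q.IsPrime] :
    MulAction.stabilizer G Q = ⊤ := by
  rw [eq_top_iff]
  intro σ _
  rw [MulAction.mem_stabilizer_iff]
  apply le_antisymm
  · intro x hx
    have h1 : σ⁻¹ • x ∈ Q := by
      rw [← Ideal.smul_mem_pointwise_smul_iff (a := σ), smul_inv_smul]
      exact hx
    have := smul_mem_of_unram hunr Q σ _ h1
    rwa [smul_inv_smul] at this
  · intro x hx
    have h1 := smul_mem_of_unram hunr Q σ⁻¹ x hx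
    rw [← Ideal.smul_mem_pointwise_smul_iff (a := σ), smul_inv_smul] at h1
    exact h1


variable [IsDomain R] [IsDomain S] [IsDedekindDomain S] [Module.Finite R S] [Finite G]

theorem ramificationIdx_eq_one_of_unram
    (hunr : ∀ x : S, x ≠ 0 → ∃ (y : R) (u : Sˣ), x = algebraMap R S y * u)
    (P : Ideal R) (Q : Ideal S) [Q.IsPrime] [Q.LiesOver P] (hQ0 : Q ≠ ⊥) :
    Q.ramificationIdx R = 1 := by
  have hQ1 : Q ≠ ⊤ := Ideal.IsPrime.ne_top ‹_›
  obtain ⟨x, hx1, hx2⟩ := Ideal.exists_mem_pow_notMem_pow_succ Q hQ0 hQ1 1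
  rw [pow_one] at hx1
  have hx0 : x ≠ 0 := by
    rintro rfl
    exact hx2 (Ideal.zero_mem _)
  obtain ⟨y, u, rfl⟩ := hunr x hx0
  have hy : algebraMap R S y ∈ Q := by
    rcases Ideal.IsPrime.mem_or_mem ‹Q.IsPrime› hx1 with h | h
    · exact h
    · exact absurd (Q.eq_top_of_isUnit_mem h u.isUnit) hQ1
  have hyP : y ∈ P := by
    rw [Ideal.LiesOver.over (p := P) (P := Q)]
    exact hy
  have hymap : algebraMap R S y ∈ P.map (algebraMap R S) := Ideal.mem_map_of_mem _ hyP
  have hpS : P.map (algebraMap R S) ≠ ⊥ := by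
    intro h
    rw [h, Ideal.mem_bot] at hymap
    rw [hymap, zero_mul] at hx0
    exact hx0 rfl
  rw [← Ideal.ramificationIdx'_eq_ramificationIdx' P Q hpS]
  apply Ideal.ramificationIdx'_spec
  · rw [pow_one, Ideal.map_le_iff_le_comap, Ideal.LiesOver.over (p := P) (P := Q)]
  · intro hle
    exact hx2 (Ideal.mul_mem_right _ _ (hle hymap))

theorem inertia_eq_bot_of_unram
    (hunr : ∀ x : S, x ≠ 0 → ∃ (y : R) (u : Sˣ), x = algebraMap R S y * u)
    (P : Ideal R) [P.IsPrime] (Q : Ideal S) [Q.IsPrime] [Q.LiesOver P] (hQ0 : Q ≠ ⊥)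
    [PerfectField P.ResidueField] [Module.Flat R S] :
    Ideal.inertia G Q = ⊥ := by
  have h1 := Ideal.card_inertia_eq_ramificationIdxIn (G := G) P Q
  rw [Ideal.ramificationIdxIn_eq_ramificationIdx P Q G,
    ramificationIdx_eq_one_of_unram hunr P Q hQ0] at h1
  exact (Subgroup.card_eq_one).1 h1


attribute [local instance] Ideal.Quotient.field in
theorem isCyclic_of_unram
    (hunr : ∀ x : S, x ≠ 0 → ∃ (y : R) (u : Sˣ), x = algebraMap R S y * u)
    (hS : ¬ IsField S) (hfin : ∀ P : Ideal R, P.IsMaximal → Finite (R ⧸ P))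
    [Module.Flat R S] : IsCyclic G := by
  obtain ⟨Q, hQ⟩ := Ideal.exists_maximal S
  have hQ0 : Q ≠ ⊥ := Ring.ne_bot_of_isMaximal_of_not_isField hQ hS
  have hint : Algebra.IsIntegral R S := inferInstance
  let P : Ideal R := Q.under R
  have hPmax : P.IsMaximal := Ideal.isMaximal_comap_of_isIntegral_of_isMaximal Q
  have hfinP : Finite (R ⧸ P) := hfin P hPmax
  have hfinQ : Finite (S ⧸ Q) := Module.finite_of_finite (R ⧸ P)
  have hstab := stabilizer_eq_top_of_unram (G := G) hunr Q
  have hin := inertia_eq_bot_of_unram (G := G) hunr P Q hQ0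
  have hinj : Function.Injective (Ideal.Quotient.stabilizerHom Q P G) := by
    rw [← MonoidHom.ker_eq_bot_iff, Ideal.Quotient.ker_stabilizerHom, eq_bot_iff]
    intro σ hσ
    have : (σ : G) ∈ Ideal.inertia G Q := fun x => hσ x
    rw [hin, Subgroup.mem_bot] at this
    exact Subtype.ext this
  have hcyc : IsCyclic (MulAction.stabilizer G Q) :=
    isCyclic_of_injective (Ideal.Quotient.stabilizerHom Q P G) hinj
  refine isCyclic_of_surjective (MulAction.stabilizer G Q).subtype ?_
  intro g
  exact ⟨⟨g, by rw [hstab]; trivial⟩, rfl⟩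

end Core
end Fermat.Agent.S55.Local.H312

end
-- ===== PACK-END S55/Local/H312/UnramCore.lean

-- ===== PACK-BEGIN S55/L/H661/UnramNormField.lean
section



/-!
# Norms of units in unramified extensions of complete discretely valued fields
(S55, layer L, leaf UR4 -- field form)

`R` a complete DVR with finite residue field, `K = Frac R`, `L / K` finite separable.
"Unramified" is expressed as `Lˣ = Kˣ · U_L`.  Then every unit of `R` is the norm of a unit of
the ring of integers of `L`.
-/

set_option linter.unusedSectionVars false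

namespace Fermat.Agent.S55.L.H661

open IsLocalRing

section Core

variable (R K L : Type) [CommRing R] [IsDomain R] [IsDiscreteValuationRing R]
  [IsAdicComplete (maximalIdeal R) R] [Finite (ResidueField R)]
  [Field K] [Algebra R K] [IsFractionRing R K]
  [Field L] [Algebra K L] [FiniteDimensional K L] [Algebra.IsSeparable K L]
  [Algebra R L] [IsScalarTower R K L]

/-- If `Lˣ = Kˣ · U_L` then the maximal ideal of `R` generates the maximal ideal of the
integral closure of `R` in `L`. -/
theorem map_maximalIdeal_eq_of_isUnram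
    (hunr : ∀ x : Lˣ, ∃ y : Kˣ, IsIntegral R ((x : L) * (algebraMap K L (y : K))⁻¹) ∧
      IsIntegral R ((algebraMap K L (y : K)) * ((x⁻¹ : Lˣ) : L)))
    [IsLocalRing (integralClosure R L)] :
    (maximalIdeal R).map (algebraMap R (integralClosure R L)) =
      maximalIdeal (integralClosure R L) := by
  have hdvr : IsDiscreteValuationRing (integralClosure R L) :=
    intClosure_isDVR R K L (integralClosure R L)
  refine le_antisymm (intClosure_map_maximalIdeal_le R K L (integralClosure R L)) ?_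
  obtain ⟨ϖ, hϖ⟩ := IsDiscreteValuationRing.exists_irreducible (integralClosure R L)
  rw [hϖ.maximalIdeal_eq, Ideal.span_singleton_le_iff_mem]
  have hϖ0 : (ϖ : L) ≠ 0 := by
    intro h
    exact hϖ.ne_zero (Subtype.ext h)
  obtain ⟨y, hz, hz'⟩ := hunr (Units.mk0 (ϖ : L) hϖ0)
  rw [Units.val_mk0] at hz
  have hy0 : algebraMap K L (y : K) ≠ 0 := by
    simp
  -- the unit `z = ϖ / y` of the integral closure
  let z : integralClosure R L := ⟨(ϖ : L) * (algebraMap K L (y : K))⁻¹, hz⟩
  let z' : integralClosure R L :=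
    ⟨algebraMap K L (y : K) * ((Units.mk0 (ϖ : L) hϖ0)⁻¹ : Lˣ), hz'⟩
  have hzz' : z * z' = 1 := by
    apply Subtype.ext
    change (ϖ : L) * (algebraMap K L (y : K))⁻¹ *
      (algebraMap K L (y : K) * ((Units.mk0 (ϖ : L) hϖ0)⁻¹ : Lˣ)) = 1
    rw [Units.val_inv_eq_inv_val, Units.val_mk0]
    field_simp
  -- `y` is integral, hence in `R`
  have hyint : IsIntegral R (algebraMap K L (y : K)) := by
    have h1 : algebraMap K L (y : K) = ((ϖ * z' : integralClosure R L) : L) := by
      change algebraMap K L (y : K) =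
        (ϖ : L) * (algebraMap K L (y : K) * ((Units.mk0 (ϖ : L) hϖ0)⁻¹ : Lˣ))
      rw [Units.val_inv_eq_inv_val, Units.val_mk0]
      field_simp
    rw [h1]
    exact (ϖ * z').2
  have hyintK : IsIntegral R (y : K) :=
    (isIntegral_algebraMap_iff (algebraMap K L).injective).mp hyint
  obtain ⟨r, hr⟩ := IsIntegrallyClosed.isIntegral_iff.mp hyintK
  have hrz : algebraMap R (integralClosure R L) r * z = ϖ := by
    apply Subtype.ext
    change algebraMap R L r * ((ϖ : L) * (algebraMap K L (y : K))⁻¹) = ϖ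
    rw [IsScalarTower.algebraMap_apply R K L, hr]
    field_simp
  have hrnonunit : r ∈ maximalIdeal R := by
    rw [mem_maximalIdeal, mem_nonunits_iff]
    intro hru
    have h1 : IsUnit (algebraMap R (integralClosure R L) r) := hru.map _
    have h2 : IsUnit z := IsUnit.of_mul_eq_one _ hzz'
    exact hϖ.not_isUnit (hrz ▸ h1.mul h2)
  rw [← hrz]
  exact Ideal.mul_mem_right _ _ (Ideal.mem_map_of_mem _ hrnonunit)

/-- **UR4, field form.** -/
theorem exists_unit_norm_eq_of_isUnram
    (hunr : ∀ x : Lˣ, ∃ y : Kˣ, IsIntegral R ((x : L) * (algebraMap K L (y : K))⁻¹) ∧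
      IsIntegral R ((algebraMap K L (y : K)) * ((x⁻¹ : Lˣ) : L)))
    (u : Rˣ) :
    ∃ w : Lˣ, IsIntegral R (w : L) ∧ IsIntegral R ((w⁻¹ : Lˣ) : L) ∧
      Algebra.norm K (w : L) = algebraMap R K u := by
  have hloc : IsLocalRing (integralClosure R L) :=
    intClosure_isLocalRing R K L (integralClosure R L)
  have hfin : Module.Finite R (integralClosure R L) :=
    intClosure_finite R K L (integralClosure R L)
  have hfree : Module.Free R (integralClosure R L) :=
    intClosure_free R K L (integralClosure R L)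
  have hmax : ((maximalIdeal R).map (algebraMap R (integralClosure R L))).IsMaximal := by
    rw [map_maximalIdeal_eq_of_isUnram R K L hunr]
    infer_instance
  obtain ⟨v, hv⟩ := exists_unit_norm_eq_of_unramified (A := R) (B := integralClosure R L) hmax u
  have hlocz : IsLocalization (Algebra.algebraMapSubmonoid (integralClosure R L)
      (nonZeroDivisors R)) L := IsIntegralClosure.isLocalization R K L (integralClosure R L)
  have hnorm := Algebra.norm_localization (R := R) (S := integralClosure R L) (Rₘ := K)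
    (Sₘ := L) (nonZeroDivisors R) (v : integralClosure R L)
  refine ⟨Units.map (algebraMap (integralClosure R L) L).toMonoidHom v, ?_, ?_, ?_⟩
  · exact (v : integralClosure R L).2
  · have : ((Units.map (algebraMap (integralClosure R L) L).toMonoidHom v)⁻¹ : Lˣ) =
        Units.map (algebraMap (integralClosure R L) L).toMonoidHom v⁻¹ := by
      rw [map_inv]
    rw [this]
    exact ((v⁻¹ : (integralClosure R L)ˣ) : integralClosure R L).2
  · change Algebra.norm K (algebraMap (integralClosure R L) L (v : integralClosure R L)) = _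
    rw [hnorm, hv]

end Core

end Fermat.Agent.S55.L.H661

end
-- ===== PACK-END S55/L/H661/UnramNormField.lean

-- ===== PACK-BEGIN S55/Local/H530/Basic.lean
section


/-!
# S55 layer L — small integrality helpers used by the glue pieces T1a/T1b/T2 (helper530)
-/

set_option autoImplicit false

namespace Fermat.Agent.S55.Local.H530

open Fermat.Agent.S55.Local

section aux

variable (A F : Type) [CommRing A] [Field F] [Algebra A F]
variable (K : Type) [Field K] [Algebra F K]
variable (L : Type) [Field L] [Algebra F L] [Algebra K L] [IsScalarTower F K L]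

lemma toL_eq_comp : toL A F L = (algebraMap K L).comp (toL A F K) := by
  ext a
  simp [toL, IsScalarTower.algebraMap_apply F K L]

variable {A F K L}

/-- Integrality over `A` passes from `K` to `L`. -/
lemma isInt_algebraMap {x : K} (hx : IsInt A F K x) : IsInt A F L (algebraMap K L x) := by
  obtain ⟨p, hp, hpx⟩ := hx
  refine ⟨p, hp, ?_⟩
  rw [toL_eq_comp A F K L, ← Polynomial.hom_eval₂, hpx, map_zero]

/-- Integrality over `A` is intrinsic: it can be tested in the bigger field. -/
lemma isInt_of_isInt_algebraMap {x : K} (hx : IsInt A F L (algebraMap K L x)) : IsInt A F K x := by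
  obtain ⟨p, hp, hpx⟩ := hx
  refine ⟨p, hp, ?_⟩
  rw [toL_eq_comp A F K L, ← Polynomial.hom_eval₂] at hpx
  exact (algebraMap K L).injective (by rw [hpx, map_zero])

lemma isInt_algebraMap_iff {x : K} : IsInt A F L (algebraMap K L x) ↔ IsInt A F K x :=
  ⟨isInt_of_isInt_algebraMap, isInt_algebraMap⟩

/-- A `K`-algebra automorphism of `L` preserves integrality over `A`. -/
lemma isInt_algEquiv (σ : L ≃ₐ[K] L) {x : L} (hx : IsInt A F L x) : IsInt A F L (σ x) := by
  obtain ⟨p, hp, hpx⟩ := hx
  refine ⟨p, hp, ?_⟩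
  have hσ : (σ : L →+* L).comp (toL A F L) = toL A F L := by
    ext a
    simp only [RingHom.comp_apply, toL_apply, RingHom.coe_coe]
    rw [IsScalarTower.algebraMap_apply F K L, σ.commutes]
  have := Polynomial.hom_eval₂ p (toL A F L) (σ : L →+* L) x
  rw [hσ, hpx, map_zero] at this
  simpa using this.symm

lemma smul_mem_intUnits (σ : L ≃ₐ[K] L) {x : Lˣ} (hx : x ∈ intUnits A F L) :
    σ • x ∈ intUnits A F L := by
  refine ⟨?_, ?_⟩
  · have : ((σ • x : Lˣ) : L) = σ (x : L) := rfl
    rw [this]; exact isInt_algEquiv σ hx.1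
  · have : (((σ • x)⁻¹ : Lˣ) : L) = σ ((x⁻¹ : Lˣ) : L) := by
      rw [← smul_inv']; rfl
    rw [this]; exact isInt_algEquiv σ hx.2

lemma smul_mem_higherUnits (σ : L ≃ₐ[K] L) (ϖ : K) (j : ℕ) {x : Lˣ}
    (hx : x ∈ higherUnits A F L (algebraMap K L ϖ) j) :
    σ • x ∈ higherUnits A F L (algebraMap K L ϖ) j := by
  obtain ⟨hxu, b, hb, hxb⟩ := hx
  refine ⟨smul_mem_intUnits σ hxu, σ b, isInt_algEquiv σ hb, ?_⟩
  have : ((σ • x : Lˣ) : L) = σ (x : L) := rfl
  rw [this, hxb]
  simp [σ.commutes]

lemma higherUnits_succ_le {ϖ : L} (hϖ : IsInt A F L ϖ) (j : ℕ) :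
    higherUnits A F L ϖ (j + 1) ≤ higherUnits A F L ϖ j := by
  rintro x ⟨hxu, b, hb, hxb⟩
  exact ⟨hxu, ϖ * b, hϖ.mul hb, by rw [hxb]; ring⟩

lemma higherUnits_zero (ϖ : L) : higherUnits A F L ϖ 0 = intUnits A F L := by
  ext x
  constructor
  · rintro ⟨hxu, -⟩; exact hxu
  · intro hx
    refine ⟨hx, (x : L) - 1, ?_, by ring⟩
    have := hx.1.add (isInt_one A F L).neg
    simpa [sub_eq_add_neg] using this

/-- A uniformizer of `K`, viewed in `L`, is integral, nonzero, with non-integral inverse. -/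
lemma unif_algebraMap_props {ϖK : Kˣ} (h : IsUnif A F K ϖK) :
    IsInt A F L (algebraMap K L ϖK) ∧ algebraMap K L (ϖK : K) ≠ 0 ∧
      ¬ IsInt A F L (algebraMap K L (ϖK : K))⁻¹ := by
  refine ⟨isInt_algebraMap h.1, ?_, ?_⟩
  · simp
  · intro hinv
    apply h.2.1
    refine ⟨h.1, ?_⟩
    rw [← map_inv₀] at hinv
    have := isInt_of_isInt_algebraMap (A := A) (F := F) hinv
    simpa using this

end aux

end Fermat.Agent.S55.Local.H530

end
-- ===== PACK-END S55/Local/H530/Basic.lean

-- ===== PACK-BEGIN S55/Herbrand/FiniteIndex.lean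
section


/-!
# Herbrand quotient: invariance under finite kernels and finite cokernels

* `isDefined_iff_of_finite_coker`, `q_eq_of_finite_coker` : if `i : A → B` is injective,
  compatible with the endomorphisms, and `i.range` has finite index, then `q A = q B`;
* `isDefined_iff_of_finite_ker`, `q_eq_of_finite_ker` : if `p : B → C` is surjective,
  compatible with the endomorphisms, and `p.ker` is finite, then `q B = q C`;
* `q_eq_zero_of_not_isDefined` : the junk value of `q` is `0`.
-/

set_option autoImplicit false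

namespace Fermat.Agent.S55.Herbrand

open AddSubgroup

variable {A B C : Type*} [AddCommGroup A] [AddCommGroup B] [AddCommGroup C]

lemma q_eq_zero_of_not_isDefined {f g : B →+ B} (h : ¬ IsDefined f g) : q f g = 0 := by
  unfold IsDefined at h
  unfold q
  by_cases h1 : hIndex f g = 0
  · rw [h1]; simp
  · have h2 : hIndex g f = 0 := by
      by_contra h2
      exact h ⟨h1, h2⟩
    rw [h2]; simp

lemma isDefined_iff_q_ne_zero {f g : B →+ B} : IsDefined f g ↔ q f g ≠ 0 :=
  ⟨fun h => h.q_ne_zero, fun h => by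
    by_contra h'
    exact h (q_eq_zero_of_not_isDefined h')⟩

section Equiv

variable {fA gA : A →+ A} {fB gB : B →+ B}

/-- an isomorphism compatible with the endomorphisms preserves the Herbrand indices. -/
theorem hIndex_eq_of_equiv (e : A ≃+ B) (hef : ∀ a, e (fA a) = fB (e a))
    (heg : ∀ a, e (gA a) = gB (e a)) : hIndex fA gA = hIndex fB gB := by
  rw [hIndex_eq_hIndexSub (i := e.toAddMonoidHom) e.injective hef heg]
  unfold hIndexSub hIndex
  have h : (e.toAddMonoidHom).range = ⊤ := AddMonoidHom.range_eq_top.2 e.surjective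
  rw [h, top_inf_eq, ← AddMonoidHom.range_eq_map]

theorem isDefined_iff_of_equiv (e : A ≃+ B) (hef : ∀ a, e (fA a) = fB (e a))
    (heg : ∀ a, e (gA a) = gB (e a)) : IsDefined fA gA ↔ IsDefined fB gB := by
  unfold IsDefined
  rw [hIndex_eq_of_equiv e hef heg, hIndex_eq_of_equiv e heg hef]

theorem q_eq_of_equiv (e : A ≃+ B) (hef : ∀ a, e (fA a) = fB (e a))
    (heg : ∀ a, e (gA a) = gB (e a)) : q fA gA = q fB gB := by
  unfold q
  rw [hIndex_eq_of_equiv e hef heg, hIndex_eq_of_equiv e heg hef]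

end Equiv

section FiniteCoker

variable {fA gA : A →+ A} {fB gB : B →+ B} {i : A →+ B}

/-- the endomorphism induced on `B ⧸ i.range` by an endomorphism of `B` compatible with `i`. -/
noncomputable def quotEnd (fA : A →+ A) (fB : B →+ B) (i : A →+ B)
    (hif : ∀ a, i (fA a) = fB (i a)) : (B ⧸ i.range) →+ (B ⧸ i.range) :=
  QuotientAddGroup.map i.range i.range fB (by
    rintro _ ⟨a, rfl⟩
    exact ⟨fA a, hif a⟩)

lemma quotEnd_mk (hif : ∀ a, i (fA a) = fB (i a)) (b : B) :
    quotEnd fA fB i hif (QuotientAddGroup.mk' i.range b) = QuotientAddGroup.mk' i.range (fB b) :=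
  rfl

variable (hfg : ∀ b, fB (gB b) = 0) (hgf : ∀ b, gB (fB b) = 0)
    (hi : Function.Injective i) (hfin : i.range.FiniteIndex)
    (hif : ∀ a, i (fA a) = fB (i a)) (hig : ∀ a, i (gA a) = gB (i a))

include hfg hgf hi hfin hif hig

theorem isDefined_iff_of_finite_coker : IsDefined fA gA ↔ IsDefined fB gB := by
  have : Finite (B ⧸ i.range) := AddSubgroup.finite_quotient_of_finiteIndex
  have hC : IsDefined (quotEnd fA fB i hif) (quotEnd gA gB i hig) := isDefined_of_finite _ _
  have hp : Function.Surjective (QuotientAddGroup.mk' i.range) :=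
    QuotientAddGroup.mk'_surjective _
  have hex : (QuotientAddGroup.mk' i.range).ker = i.range := QuotientAddGroup.ker_mk' _
  constructor
  · intro hA
    exact isDefined_mid hfg hgf hi hp hex hif hig (fun _ => rfl) (fun _ => rfl) hA hC
  · intro hB
    exact isDefined_left hfg hgf hi hp hex hif hig (fun _ => rfl) (fun _ => rfl) hB hC

theorem q_eq_of_finite_coker : q fA gA = q fB gB := by
  have : Finite (B ⧸ i.range) := AddSubgroup.finite_quotient_of_finiteIndex
  have hC : IsDefined (quotEnd fA fB i hif) (quotEnd gA gB i hig) := isDefined_of_finite _ _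
  have hp : Function.Surjective (QuotientAddGroup.mk' i.range) :=
    QuotientAddGroup.mk'_surjective _
  have hex : (QuotientAddGroup.mk' i.range).ker = i.range := QuotientAddGroup.ker_mk' _
  by_cases hA : IsDefined fA gA
  · rw [q_mul_of_exact hfg hgf hi hp hex hif hig (fun _ => rfl) (fun _ => rfl) hA hC]
    have h1 : q (quotEnd fA fB i hif) (quotEnd gA gB i hig) = 1 := by
      refine q_eq_one_of_finite _ _ ?_ ?_
      · intro c
        obtain ⟨b, rfl⟩ := hp c
        rw [quotEnd_mk, quotEnd_mk, hfg, map_zero]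
      · intro c
        obtain ⟨b, rfl⟩ := hp c
        rw [quotEnd_mk, quotEnd_mk, hgf, map_zero]
    rw [h1, mul_one]
  · have hB : ¬ IsDefined fB gB := fun hB =>
      hA ((isDefined_iff_of_finite_coker hfg hgf hi hfin hif hig).2 hB)
    rw [q_eq_zero_of_not_isDefined hA, q_eq_zero_of_not_isDefined hB]

end FiniteCoker

section FiniteKer

variable {fB gB : B →+ B} {fC gC : C →+ C} {p : B →+ C}

/-- the endomorphism induced on `p.ker` by an endomorphism of `B` compatible with `p`. -/
def kerEnd (fB : B →+ B) (fC : C →+ C) (p : B →+ C)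
    (hpf : ∀ b, p (fB b) = fC (p b)) : p.ker →+ p.ker :=
  (fB.comp p.ker.subtype).codRestrict p.ker (by
    rintro ⟨b, hb⟩
    rw [AddMonoidHom.mem_ker] at hb ⊢
    simp only [AddMonoidHom.coe_comp, AddSubgroup.coe_subtype, Function.comp_apply]
    rw [hpf, hb, map_zero])

lemma kerEnd_coe (hpf : ∀ b, p (fB b) = fC (p b)) (x : p.ker) :
    (kerEnd fB fC p hpf x : B) = fB x := rfl

variable (hfg : ∀ b, fB (gB b) = 0) (hgf : ∀ b, gB (fB b) = 0)
    (hp : Function.Surjective p) (hfin : Finite p.ker)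
    (hpf : ∀ b, p (fB b) = fC (p b)) (hpg : ∀ b, p (gB b) = gC (p b))

include hfg hgf hp hfin hpf hpg

theorem isDefined_iff_of_finite_ker : IsDefined fB gB ↔ IsDefined fC gC := by
  have hA : IsDefined (kerEnd fB fC p hpf) (kerEnd gB gC p hpg) := isDefined_of_finite _ _
  have hi : Function.Injective p.ker.subtype := Subtype.val_injective
  have hex : p.ker = p.ker.subtype.range := by
    rw [AddSubgroup.range_subtype]
  constructor
  · intro hB
    exact isDefined_right hfg hgf hi hp hex (fun _ => rfl) (fun _ => rfl) hpf hpg hA hB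
  · intro hC
    exact isDefined_mid hfg hgf hi hp hex (fun _ => rfl) (fun _ => rfl) hpf hpg hA hC

theorem q_eq_of_finite_ker : q fB gB = q fC gC := by
  have hA : IsDefined (kerEnd fB fC p hpf) (kerEnd gB gC p hpg) := isDefined_of_finite _ _
  have hi : Function.Injective p.ker.subtype := Subtype.val_injective
  have hex : p.ker = p.ker.subtype.range := by
    rw [AddSubgroup.range_subtype]
  by_cases hC : IsDefined fC gC
  · rw [q_mul_of_exact hfg hgf hi hp hex (fun _ => rfl) (fun _ => rfl) hpf hpg hA hC]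
    have h1 : q (kerEnd fB fC p hpf) (kerEnd gB gC p hpg) = 1 := by
      refine q_eq_one_of_finite _ _ ?_ ?_
      · intro x
        apply Subtype.ext
        rw [kerEnd_coe, kerEnd_coe, hfg]; rfl
      · intro x
        apply Subtype.ext
        rw [kerEnd_coe, kerEnd_coe, hgf]; rfl
    rw [h1, one_mul]
  · have hB : ¬ IsDefined fB gB := fun hB =>
      hC ((isDefined_iff_of_finite_ker hfg hgf hp hfin hpf hpg).1 hB)
    rw [q_eq_zero_of_not_isDefined hB, q_eq_zero_of_not_isDefined hC]

end FiniteKer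

end Fermat.Agent.S55.Herbrand

end
-- ===== PACK-END S55/Herbrand/FiniteIndex.lean

-- ===== PACK-BEGIN S55/Local/H775/Ord.lean
section


/-!
# S55 layer L (helper775): the order function attached to a uniformizer

For a uniformizer `ϖ` of `L` (`IsUnif A F L ϖ`) we define `ord ϖ x : ℤ` for `x : Lˣ` by
`x * ϖ ^ (-ord ϖ x) ∈ intUnits A F L`, and prove its basic properties.  Everything here is formal
(no hypotheses on `A`, `F`, `L` besides the existence of the uniformizer).
-/

set_option autoImplicit false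
set_option linter.unusedSectionVars false

namespace Fermat.Agent.S55.Local.H775

open Fermat.Agent.S55.Local

section Ord

variable (A F : Type) [CommRing A] [Field F] [Algebra A F]
variable (L : Type) [Field L] [Algebra F L]

lemma isInt_pow {x : L} (hx : IsInt A F L x) (n : ℕ) : IsInt A F L (x ^ n) := by
  induction n with
  | zero => simpa using isInt_one A F L
  | succ k ih => rw [pow_succ]; exact ih.mul hx

/-- The order of `x` with respect to `ϖ` (junk value `0` if `x` is not a unit times a power of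
`ϖ`). -/
noncomputable def ord (ϖ x : Lˣ) : ℤ :=
  open Classical in
  if h : ∃ n : ℤ, x * ϖ ^ (-n) ∈ intUnits A F L then h.choose else 0

variable {A F L}
variable {ϖ : Lˣ} (hϖ : IsUnif A F L ϖ)

include hϖ

lemma zpow_mem_intUnits_iff {j : ℤ} : ϖ ^ j ∈ intUnits A F L ↔ j = 0 := by
  obtain ⟨h1, h2, -⟩ := hϖ
  constructor
  · intro hj
    -- a positive power of `ϖ` is not a unit
    have key : ∀ n : ℕ, 0 < n → ϖ ^ n ∉ intUnits A F L := by
      intro n hn h
      apply h2
      rw [mem_intUnits]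
      refine ⟨h1, ?_⟩
      obtain ⟨k, rfl⟩ : ∃ k, n = k + 1 := ⟨n - 1, by omega⟩
      have e : (ϖ⁻¹ : Lˣ) = ϖ ^ k * (ϖ ^ (k + 1))⁻¹ := by
        rw [pow_succ, mul_inv_rev, mul_comm (ϖ⁻¹), ← mul_assoc, mul_inv_cancel, one_mul]
      rw [e, Units.val_mul, Units.val_pow_eq_pow_val]
      exact (isInt_pow A F L h1 k).mul ((mem_intUnits A F L).mp h).2
    by_contra hne
    rcases lt_or_gt_of_ne hne with hlt | hgt
    · have h := (intUnits A F L).inv_mem hj
      rw [← zpow_neg] at h
      obtain ⟨n, hn⟩ : ∃ n : ℕ, -j = (n : ℤ) := ⟨(-j).toNat, by omega⟩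
      rw [hn, zpow_natCast] at h
      exact key n (by omega) h
    · obtain ⟨n, hn⟩ : ∃ n : ℕ, j = (n : ℤ) := ⟨j.toNat, by omega⟩
      rw [hn, zpow_natCast] at hj
      exact key n (by omega) hj
  · rintro rfl
    simp

lemma ord_spec (x : Lˣ) : x * ϖ ^ (-(ord A F L ϖ x)) ∈ intUnits A F L := by
  have h : ∃ n : ℤ, x * ϖ ^ (-n) ∈ intUnits A F L := hϖ.2.2 x
  unfold ord
  rw [dif_pos h]
  exact h.choose_spec

lemma ord_eq_of {x : Lˣ} {n : ℤ} (h : x * ϖ ^ (-n) ∈ intUnits A F L) : ord A F L ϖ x = n := by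
  have h1 := ord_spec hϖ x
  have h2 : ϖ ^ (n - ord A F L ϖ x) ∈ intUnits A F L := by
    have := (intUnits A F L).mul_mem ((intUnits A F L).inv_mem h) h1
    have e : (x * ϖ ^ (-n))⁻¹ * (x * ϖ ^ (-(ord A F L ϖ x))) = ϖ ^ (n - ord A F L ϖ x) := by
      rw [mul_inv, ← zpow_neg, neg_neg, sub_eq_add_neg, zpow_add]
      rw [mul_comm x⁻¹, mul_assoc, ← mul_assoc x⁻¹, inv_mul_cancel, one_mul]
    rwa [e] at this
  have := (zpow_mem_intUnits_iff hϖ).mp h2
  omega

lemma ord_eq_iff {x : Lˣ} {n : ℤ} : ord A F L ϖ x = n ↔ x * ϖ ^ (-n) ∈ intUnits A F L :=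
  ⟨fun h => h ▸ ord_spec hϖ x, ord_eq_of hϖ⟩

lemma ord_eq_zero_iff {x : Lˣ} : ord A F L ϖ x = 0 ↔ x ∈ intUnits A F L := by
  rw [ord_eq_iff hϖ]
  simp

lemma ord_mul (x y : Lˣ) : ord A F L ϖ (x * y) = ord A F L ϖ x + ord A F L ϖ y := by
  apply ord_eq_of hϖ
  have := (intUnits A F L).mul_mem (ord_spec hϖ x) (ord_spec hϖ y)
  have e : x * ϖ ^ (-(ord A F L ϖ x)) * (y * ϖ ^ (-(ord A F L ϖ y))) =
      x * y * ϖ ^ (-(ord A F L ϖ x + ord A F L ϖ y)) := by
    rw [neg_add, zpow_add]
    exact mul_mul_mul_comm _ _ _ _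
  rwa [e] at this

lemma ord_one : ord A F L ϖ 1 = 0 := (ord_eq_zero_iff hϖ).mpr (intUnits A F L).one_mem

lemma ord_inv (x : Lˣ) : ord A F L ϖ x⁻¹ = -ord A F L ϖ x := by
  have h := ord_mul hϖ x x⁻¹
  rw [mul_inv_cancel, ord_one hϖ] at h
  omega

lemma ord_div (x y : Lˣ) : ord A F L ϖ (x / y) = ord A F L ϖ x - ord A F L ϖ y := by
  rw [div_eq_mul_inv, ord_mul hϖ, ord_inv hϖ, sub_eq_add_neg]

lemma ord_pow (x : Lˣ) (n : ℕ) : ord A F L ϖ (x ^ n) = n * ord A F L ϖ x := by
  induction n with
  | zero => simp [ord_one hϖ]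
  | succ k ih => rw [pow_succ, ord_mul hϖ, ih]; push_cast; ring

lemma ord_zpow (x : Lˣ) (n : ℤ) : ord A F L ϖ (x ^ n) = n * ord A F L ϖ x := by
  obtain ⟨k, rfl | rfl⟩ := n.eq_nat_or_neg
  · rw [zpow_natCast, ord_pow hϖ]
  · rw [zpow_neg, zpow_natCast, ord_inv hϖ, ord_pow hϖ]; ring

lemma ord_self : ord A F L ϖ ϖ = 1 := by
  apply ord_eq_of hϖ
  rw [zpow_neg, zpow_one, mul_inv_cancel]
  exact (intUnits A F L).one_mem

lemma ord_eq_of_div_mem {x y : Lˣ} (h : x * y⁻¹ ∈ intUnits A F L) :
    ord A F L ϖ x = ord A F L ϖ y := by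
  have := (ord_eq_zero_iff hϖ).mpr h
  rw [ord_mul hϖ, ord_inv hϖ] at this
  omega

lemma div_mem_of_ord_eq {x y : Lˣ} (h : ord A F L ϖ x = ord A F L ϖ y) :
    x * y⁻¹ ∈ intUnits A F L := by
  apply (ord_eq_zero_iff hϖ).mp
  rw [ord_mul hϖ, ord_inv hϖ]
  omega

/-- An element is integral iff its order is nonnegative. -/
lemma isInt_iff_ord_nonneg (x : Lˣ) : IsInt A F L (x : L) ↔ 0 ≤ ord A F L ϖ x := by
  have hx := ord_spec hϖ x
  set n := ord A F L ϖ x with hn
  constructor
  · intro hint
    by_contra hneg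
    have hneg : n < 0 := not_le.mp hneg
    -- `ϖ⁻¹` would be integral
    obtain ⟨k, hk⟩ : ∃ k : ℕ, -n = (k : ℤ) + 1 := ⟨(-n - 1).toNat, by omega⟩
    apply hϖ.2.1
    rw [mem_intUnits]
    refine ⟨hϖ.1, ?_⟩
    have e : (ϖ⁻¹ : Lˣ) = (x * ϖ ^ (-n))⁻¹ * x * ϖ ^ k := by
      rw [hk, zpow_add, zpow_one, zpow_natCast, mul_inv, mul_inv, mul_comm x⁻¹,
        mul_assoc, mul_assoc, ← mul_assoc x⁻¹, inv_mul_cancel, one_mul, mul_comm (ϖ ^ k)⁻¹,
        mul_assoc, inv_mul_cancel, mul_one]
    rw [e, Units.val_mul, Units.val_mul, Units.val_pow_eq_pow_val]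
    exact (((mem_intUnits A F L).mp hx).2.mul hint).mul (isInt_pow A F L hϖ.1 k)
  · intro hnn
    obtain ⟨k, hk⟩ : ∃ k : ℕ, n = (k : ℤ) := ⟨n.toNat, by omega⟩
    have e : x = x * ϖ ^ (-n) * ϖ ^ k := by
      rw [hk, zpow_neg, zpow_natCast, mul_assoc, inv_mul_cancel, mul_one]
    rw [e, Units.val_mul, Units.val_pow_eq_pow_val]
    exact ((mem_intUnits A F L).mp hx).1.mul (isInt_pow A F L hϖ.1 k)

/-- `x / ϖ ^ n` is integral iff `n ≤ ord x`. -/
lemma isInt_div_pow_iff (x : Lˣ) (n : ℕ) :
    IsInt A F L ((x : L) / (ϖ : L) ^ n) ↔ (n : ℤ) ≤ ord A F L ϖ x := by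
  have e : ((x : L) / (ϖ : L) ^ n) = ((x * (ϖ ^ n)⁻¹ : Lˣ) : L) := by
    rw [Units.val_mul, Units.val_inv_eq_inv_val, Units.val_pow_eq_pow_val, div_eq_mul_inv]
  rw [e, isInt_iff_ord_nonneg hϖ, ord_mul hϖ, ord_inv hϖ, ord_pow hϖ, ord_self hϖ]
  constructor <;> intro h <;> omega

/-- Any two uniformizers have the same order function. -/
lemma ord_eq_ord {ϖ' : Lˣ} (hϖ' : IsUnif A F L ϖ') (x : Lˣ) :
    ord A F L ϖ' x = ord A F L ϖ x := by
  -- `ord ϖ ϖ' = 1`
  have h1 : 0 < ord A F L ϖ ϖ' := by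
    have h0 : 0 ≤ ord A F L ϖ ϖ' := (isInt_iff_ord_nonneg hϖ ϖ').mp hϖ'.1
    rcases h0.lt_or_eq with h | h
    · exact h
    · exact absurd ((ord_eq_zero_iff hϖ).mp h.symm) hϖ'.2.1
  have h2 : 0 < ord A F L ϖ' ϖ := by
    have h0 : 0 ≤ ord A F L ϖ' ϖ := (isInt_iff_ord_nonneg hϖ' ϖ).mp hϖ.1
    rcases h0.lt_or_eq with h | h
    · exact h
    · exact absurd ((ord_eq_zero_iff hϖ').mp h.symm) hϖ.2.1
  -- `ϖ = u * ϖ' ^ a` gives `1 = a * ord ϖ ϖ'`
  have h3 : ord A F L ϖ ϖ = ord A F L ϖ' ϖ * ord A F L ϖ ϖ' := by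
    have := ord_spec hϖ' ϖ
    have := (ord_eq_zero_iff hϖ).mpr this
    rw [ord_mul hϖ, ord_zpow hϖ] at this
    linarith
  rw [ord_self hϖ] at h3
  have h4 : ord A F L ϖ ϖ' = 1 := by
    have : ord A F L ϖ ϖ' ∣ 1 := ⟨ord A F L ϖ' ϖ, by rw [h3]; ring⟩
    exact Int.eq_one_of_dvd_one h1.le this
  have := ord_spec hϖ' x
  have := (ord_eq_zero_iff hϖ).mpr this
  rw [ord_mul hϖ, ord_zpow hϖ, h4] at this
  linarith

end Ord

end Fermat.Agent.S55.Local.H775

end
-- ===== PACK-END S55/Local/H775/Ord.lean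

-- ===== PACK-BEGIN S55/T/LatDualH359.lean
section


/-!
# S55 / layer T / leaf T6b (helper359): elementary duality of `G`-lattices in degree `0`

`latticeDuality : LatticeDualitySpec`.

Abstract form: `V` a finitely generated free abelian group with an action `a : G → V →+ V` of a
finite group `G` of order `n`, `Nrm = ∑_g a g`.
* an invariant `r` is a norm iff `n ∣ f r` for every invariant functional `f : V →+ ℤ`
  (`exists_norm_eq_iff`);
* an invariant functional `f` is of the form `ψ ∘ Nrm` iff `n ∣ f r` for every invariant `r`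
  (`exists_functional_norm_iff`).
-/

set_option autoImplicit false
set_option linter.unusedSectionVars false

namespace Fermat.Agent.S55.T.H359

section Abstract

variable {G : Type} [Group G] [Fintype G] {V : Type} [AddCommGroup V]
  (a : G → V →+ V)

/-- the norm `∑_g a g` -/
noncomputable def latNorm : V →+ V := ∑ g : G, a g

lemma latNorm_apply (x : V) : latNorm a x = ∑ g : G, a g x := by
  unfold latNorm
  rw [AddMonoidHom.finsetSum_apply]

variable {a}

lemma latNorm_act (hmul : ∀ g h x, a (g * h) x = a g (a h x)) (h : G) (x : V) :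
    latNorm a (a h x) = latNorm a x := by
  rw [latNorm_apply, latNorm_apply]
  simp_rw [← hmul]
  exact Fintype.sum_equiv (Equiv.mulRight h) _ _ (fun g => rfl)

lemma act_latNorm (hmul : ∀ g h x, a (g * h) x = a g (a h x)) (h : G) (x : V) :
    a h (latNorm a x) = latNorm a x := by
  rw [latNorm_apply, map_sum]
  simp_rw [← hmul]
  exact Fintype.sum_equiv (Equiv.mulLeft h) _ _ (fun g => rfl)

lemma latNorm_of_inv {r : V} (hr : ∀ g, a g r = r) :
    latNorm a r = (Fintype.card G : ℤ) • r := by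
  rw [latNorm_apply]
  simp_rw [hr]
  rw [Finset.sum_const, Finset.card_univ, natCast_zsmul]

lemma functional_latNorm {f : V →+ ℤ} (hf : ∀ g x, f (a g x) = f x) (x : V) :
    f (latNorm a x) = (Fintype.card G : ℤ) * f x := by
  rw [latNorm_apply, map_sum]
  simp_rw [hf]
  rw [Finset.sum_const, Finset.card_univ, nsmul_eq_mul]

/-- In a finitely generated free abelian group, an element all of whose images under
functionals are divisible by `n` is divisible by `n`. -/
lemma exists_zsmul_eq_of_forall_dvd {M : Type} [AddCommGroup M] [Module.Free ℤ M]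
    [Module.Finite ℤ M] (n : ℤ) (y : M) (h : ∀ φ : M →+ ℤ, n ∣ φ y) : ∃ z : M, y = n • z := by
  classical
  let b := Module.Free.chooseBasis ℤ M
  have hc : ∀ i, n ∣ b.repr y i := fun i => h ((b.coord i).toAddMonoidHom)
  choose c hc' using hc
  refine ⟨∑ i, c i • b i, ?_⟩
  conv_lhs => rw [← b.sum_repr y]
  rw [Finset.smul_sum]
  refine Finset.sum_congr rfl fun i _ => ?_
  rw [hc' i, mul_smul]

variable [Module.Free ℤ V] [Module.Finite ℤ V]

/-- **(1)** an invariant element is a norm iff all invariant functionals take values in `nℤ`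
on it. -/
theorem exists_norm_eq_iff (hmul : ∀ g h x, a (g * h) x = a g (a h x))
    {r : V} (hr : ∀ g, a g r = r) :
    (∃ s : V, r = latNorm a s) ↔
      ∀ f : V →+ ℤ, (∀ g x, f (a g x) = f x) → (Fintype.card G : ℤ) ∣ f r := by
  constructor
  · rintro ⟨s, rfl⟩ f hf
    rw [functional_latNorm hf]
    exact dvd_mul_right _ _
  · intro h
    -- the lattice `M = Nrm V`
    let Nl : V →ₗ[ℤ] V := (latNorm a).toIntLinearMap
    let M : Submodule ℤ V := LinearMap.range Nl
    let y : M := ⟨latNorm a r, ⟨r, rfl⟩⟩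
    have hy : ∀ φ : M →+ ℤ, (Fintype.card G : ℤ) ∣ φ y := by
      intro φ
      let f : V →+ ℤ := φ.comp (Nl.rangeRestrict).toAddMonoidHom
      have hf : ∀ g x, f (a g x) = f x := by
        intro g x
        change φ (Nl.rangeRestrict (a g x)) = φ (Nl.rangeRestrict x)
        congr 1
        apply Subtype.ext
        exact latNorm_act hmul g x
      have h1 := h f hf
      have h2 : f r = φ y := rfl
      rwa [h2] at h1
    obtain ⟨z, hz⟩ := exists_zsmul_eq_of_forall_dvd _ y hy
    obtain ⟨s, hs⟩ := z.2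
    refine ⟨s, ?_⟩
    have h3 : (Fintype.card G : ℤ) • r = (Fintype.card G : ℤ) • (z : V) := by
      rw [← latNorm_of_inv hr]
      exact congrArg Subtype.val hz
    have hn : (Fintype.card G : ℤ) ≠ 0 := by
      exact_mod_cast Fintype.card_ne_zero
    have h4 : r = (z : V) := smul_right_injective V hn h3
    rw [h4, ← hs]
    rfl

/-- the invariants as a `ℤ`-submodule -/
def latInv (a : G → V →+ V) : Submodule ℤ V where
  carrier := {r | ∀ g, a g r = r}
  add_mem' := fun {x y} hx hy g => by rw [map_add, hx g, hy g]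
  zero_mem' := fun g => map_zero _
  smul_mem' := fun c x hx g => by rw [map_zsmul, hx g]

omit [Fintype G] [Module.Free ℤ V] [Module.Finite ℤ V] in
lemma mem_latInv {r : V} : r ∈ latInv a ↔ ∀ g, a g r = r := Iff.rfl

omit [Fintype G] [Group G] in
/-- the invariants form a saturated sublattice, so the quotient is torsion-free -/
lemma isTorsionFree_quot_latInv : Module.IsTorsionFree ℤ (V ⧸ latInv a) := by
  refine Module.IsTorsionFree.of_smul_eq_zero fun c m h => ?_
  by_cases hc : c = 0
  · exact Or.inl hc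
  · right
    obtain ⟨x, rfl⟩ := Submodule.Quotient.mk_surjective _ m
    rw [← Submodule.Quotient.mk_smul, Submodule.Quotient.mk_eq_zero] at h
    rw [Submodule.Quotient.mk_eq_zero]
    intro g
    have h1 := h g
    rw [map_zsmul] at h1
    exact smul_right_injective V hc h1

omit [Fintype G] [Group G] in
/-- a retraction of `V` onto the invariants -/
lemma exists_retraction_latInv :
    ∃ π : V →ₗ[ℤ] latInv a, ∀ r : latInv a, π r = r := by
  have : Module.IsTorsionFree ℤ (V ⧸ latInv a) := isTorsionFree_quot_latInv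
  have : Module.Free ℤ (V ⧸ latInv a) := Module.free_of_finite_type_torsion_free'
  obtain ⟨σ, hσ⟩ := (latInv a).mkQ.exists_rightInverse_of_surjective
    (LinearMap.range_eq_top.2 (Submodule.mkQ_surjective _))
  have hmem : ∀ x : V, x - σ ((latInv a).mkQ x) ∈ latInv a := by
    intro x
    rw [← Submodule.Quotient.mk_eq_zero, Submodule.Quotient.mk_sub]
    have := LinearMap.congr_fun hσ ((latInv a).mkQ x)
    simp only [LinearMap.coe_comp, Function.comp_apply, LinearMap.id_coe, id_eq] at this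
    change (latInv a).mkQ x - (latInv a).mkQ (σ ((latInv a).mkQ x)) = 0
    rw [this, sub_self]
  refine ⟨LinearMap.codRestrict (latInv a) (LinearMap.id - σ.comp (latInv a).mkQ) hmem, ?_⟩
  intro r
  apply Subtype.ext
  change (r : V) - σ ((latInv a).mkQ r) = r
  have : (latInv a).mkQ (r : V) = 0 := (Submodule.Quotient.mk_eq_zero _).2 r.2
  rw [this, map_zero, sub_zero]

/-- **(2)** an invariant functional is a norm `ψ ∘ Nrm` iff it takes values in `nℤ` on the
invariants. -/
theorem exists_functional_norm_iff (hmul : ∀ g h x, a (g * h) x = a g (a h x))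
    {f : V →+ ℤ} (hf : ∀ g x, f (a g x) = f x) :
    (∃ ψ : V →+ ℤ, ∀ x, f x = ψ (latNorm a x)) ↔
      ∀ r : V, (∀ g, a g r = r) → (Fintype.card G : ℤ) ∣ f r := by
  have hn : (Fintype.card G : ℤ) ≠ 0 := by exact_mod_cast Fintype.card_ne_zero
  constructor
  · rintro ⟨ψ, hψ⟩ r hr
    rw [hψ r, latNorm_of_inv hr, map_zsmul, smul_eq_mul]
    exact dvd_mul_right _ _
  · intro h
    obtain ⟨π, hπ⟩ := exists_retraction_latInv (a := a)
    -- `ψ₁ r = f r / n` on the invariants
    let ψ₁ : latInv a →+ ℤ :=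
      { toFun := fun r => f r / (Fintype.card G : ℤ)
        map_zero' := by simp
        map_add' := fun x y => by
          obtain ⟨c, hc⟩ := h x x.2
          obtain ⟨d, hd⟩ := h y y.2
          change f ((x : V) + (y : V)) / _ = f x / _ + f y / _
          rw [map_add, hc, hd, ← mul_add, Int.mul_ediv_cancel_left _ hn,
            Int.mul_ediv_cancel_left _ hn, Int.mul_ediv_cancel_left _ hn] }
    refine ⟨ψ₁.comp π.toAddMonoidHom, fun x => ?_⟩
    have hx : latNorm a x ∈ latInv a := fun g => act_latNorm hmul g x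
    have h1 : π (latNorm a x) = ⟨latNorm a x, hx⟩ := hπ ⟨latNorm a x, hx⟩
    change f x = ψ₁ (π (latNorm a x))
    rw [h1]
    change f x = f (latNorm a x) / (Fintype.card G : ℤ)
    rw [functional_latNorm hf, Int.mul_ediv_cancel_left _ hn]

end Abstract

/-- **T6b.** Elementary lattice duality in degree `0`. -/
theorem latticeDuality : LatticeDualitySpec := by
  intro G _ _ R hfree hfin
  have e : R.hV2 = AddCommGroup.toIntModule R.V := Subsingleton.elim _ _
  have : Module.Free ℤ R.V := e ▸ hfree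
  have : Module.Finite ℤ R.V := e ▸ hfin
  let a : G → R.V →+ R.V := fun g => (R.ρ g).toAddMonoidHom
  have ha : ∀ g x, a g x = R.ρ g x := fun g x => rfl
  have hmul : ∀ g h x, a (g * h) x = a g (a h x) := fun g h x => by
    rw [ha, ha, ha, map_mul]; rfl
  refine ⟨fun r hr => ?_, fun f hf => ?_⟩
  · have h := exists_norm_eq_iff (a := a) hmul (r := r) hr
    simp only [latNorm_apply, ha] at h
    exact h
  · have h := exists_functional_norm_iff (a := a) hmul (f := f) hf
    simp only [ha] at h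
    rw [← h]
    have key : ∀ (ψ : R.V →+ ℤ) (x : R.V),
        ψ (latNorm a x) = ∑ g : G, ψ (R.ρ g⁻¹ x) := by
      intro ψ x
      rw [latNorm_apply, map_sum]
      exact Fintype.sum_equiv (Equiv.inv G) _ _ (fun g => by simp [ha])
    constructor
    · rintro ⟨ψ, hψ⟩
      exact ⟨ψ, fun x => by rw [hψ x, key]⟩
    · rintro ⟨ψ, hψ⟩
      exact ⟨ψ, fun x => by rw [hψ x, key]⟩

end Fermat.Agent.S55.T.H359

end
-- ===== PACK-END S55/T/LatDualH359.lean

-- ===== PACK-BEGIN S55/E1/H594/LevelUnits.lean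
section
/-
S55 / engine E1 / G-ADAPTER leaf LVL (helper594), part 3.

The tower module `Tow.Level.units L` (= the `U_F`-invariants of `ℚ̄ˣ`, frozen `Spec/Tower.lean`)
is the layer-G module `G.LRep L.Gal L.F` (= `Fˣ`, `G/Defs.lean`):
`levelUnitsIso : G.LRep L.Gal L.F ≅ Tow.Level.units L` in `Rep ℤ L.Gal`.
No `sorry`.
-/



set_option autoImplicit false
set_option linter.unusedSectionVars false
set_option linter.style.haveILetI false

namespace Fermat.Agent.S55.E1.H594

open Fermat.Agent.S55 Fermat.Agent.S55.Tow Fermat.Agent.S55.Bridge NumberField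

attribute [local instance] isAlgebraic_Qbar isGalois_Qbar

noncomputable section

variable {S : Finset Nat.Primes} (L : Level S)

/-- An element of `ℚ̄` fixed by `U_F` lies in `F`. -/
theorem mem_level_of_fixed (x : Qbar) (hx : ∀ s ∈ L.U, s x = x) : x ∈ L.F := by
  have h := InfiniteGalois.fixedField_fixingSubgroup L.F
  rw [← h]
  intro s
  exact hx s.1 s.2

/-- An element of `F` is fixed by `U_F`. -/
theorem fixed_of_mem_level (x : Qbar) (hx : x ∈ L.F) (s : _root_.Fermat.Agent.S55.Tow.GQ) (hs : s ∈ L.U) : s x = x :=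
  (IntermediateField.mem_fixingSubgroup_iff L.F s).1 hs x hx

/-- The `ℤ`-module of `U_F`-invariants of `ℚ̄ˣ` (the carrier of `Level.units L`). -/
abbrev levelInv : Submodule ℤ (Additive Qbarˣ) :=
  Representation.invariants (unitsQbar.ρ.comp L.U.subtype)

theorem mem_levelInv_iff (u : Additive Qbarˣ) :
    u ∈ levelInv L ↔ ∀ s ∈ L.U, s ((u.toMul : Qbarˣ) : Qbar) = ((u.toMul : Qbarˣ) : Qbar) := by
  constructor
  · intro h s hs
    have := h ⟨s, hs⟩
    exact congrArg (fun v : Additive Qbarˣ => ((v.toMul : Qbarˣ) : Qbar)) this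
  · intro h s
    apply Additive.toMul.injective
    apply Units.ext
    exact h s.1 s.2

/-- The element of `ℚ̄` underlying an invariant unit. -/
def levelInvVal (u : levelInv L) : Qbar :=
  ((Additive.toMul (α := Qbarˣ) (u.1 : Additive Qbarˣ) : Qbarˣ) : Qbar)

theorem levelInvVal_injective : Function.Injective (levelInvVal L) := by
  intro u v h
  apply Subtype.ext
  apply Additive.toMul.injective
  apply Units.ext
  exact h

theorem levelInvVal_mem (u : levelInv L) : levelInvVal L u ∈ L.F :=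
  mem_level_of_fixed L _ ((mem_levelInv_iff L u.1).1 u.2)

/-- The inclusion `Fˣ → (ℚ̄ˣ)^{U_F}`. -/
def levelUnitsFwd : Additive (L.F)ˣ →+ levelInv L where
  toFun u := ⟨Additive.ofMul (Units.map ((algebraMap L.F Qbar : L.F →+* Qbar) : L.F →* Qbar)
      u.toMul), by
    rw [mem_levelInv_iff]
    intro s hs
    exact fixed_of_mem_level L _ (u.toMul : (L.F)ˣ).1.2 s hs⟩
  map_zero' := by
    apply Subtype.ext
    apply Additive.toMul.injective
    apply Units.ext
    simp
  map_add' u v := by
    apply Subtype.ext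
    apply Additive.toMul.injective
    apply Units.ext
    simp

theorem coe_levelUnitsFwd (u : Additive (L.F)ˣ) :
    levelInvVal L (levelUnitsFwd L u) = (((u.toMul : (L.F)ˣ) : L.F) : Qbar) := rfl

theorem levelUnitsFwd_injective : Function.Injective (levelUnitsFwd L) := by
  intro u v h
  apply Additive.toMul.injective
  apply Units.ext
  apply Subtype.ext
  have := congrArg (fun w : levelInv L => (((w.1).toMul : Qbarˣ) : Qbar)) h
  exact this

theorem levelUnitsFwd_surjective : Function.Surjective (levelUnitsFwd L) := by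
  rintro ⟨u, hu⟩
  rw [mem_levelInv_iff] at hu
  have h1 : ((u.toMul : Qbarˣ) : Qbar) ∈ L.F := mem_level_of_fixed L _ hu
  have h0 : (⟨((u.toMul : Qbarˣ) : Qbar), h1⟩ : L.F) ≠ 0 := by
    intro h
    have := congrArg (fun y : L.F => (y : Qbar)) h
    exact (u.toMul : Qbarˣ).ne_zero this
  refine ⟨Additive.ofMul (Units.mk0 ⟨((u.toMul : Qbarˣ) : Qbar), h1⟩ h0), ?_⟩
  apply Subtype.ext
  apply Additive.toMul.injective
  apply Units.ext
  rfl

/-- `Fˣ ≃ (ℚ̄ˣ)^{U_F}` as `ℤ`-modules. -/
def levelUnitsLinearEquiv : Additive (L.F)ˣ ≃ₗ[ℤ] levelInv L :=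
  (AddEquiv.ofBijective (levelUnitsFwd L)
    ⟨levelUnitsFwd_injective L, levelUnitsFwd_surjective L⟩).toIntLinearEquiv

theorem levelUnitsLinearEquiv_apply (u : Additive (L.F)ˣ) :
    levelUnitsLinearEquiv L u = levelUnitsFwd L u := rfl

/-- The action of `mk σ` on the invariants is the action of `σ`. -/
theorem coe_quotientToInvariants_mk (σ : _root_.Fermat.Agent.S55.Tow.GQ) (u : levelInv L) :
    levelInvVal L ((unitsQbar.ρ.quotientToInvariants L.U) (QuotientGroup.mk σ : L.Gal) u) =
      σ (levelInvVal L u) := rfl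

/-- Equivariance of `Fˣ → (ℚ̄ˣ)^{U_F}`. -/
theorem levelUnitsFwd_equivariant (g : L.Gal) (u : Additive (L.F)ˣ) :
    levelUnitsFwd L (G.lRepr L.Gal L.F g u) =
      (unitsQbar.ρ.quotientToInvariants L.U) g (levelUnitsFwd L u) := by
  induction g using QuotientGroup.induction_on with
  | H σ =>
    apply levelInvVal_injective
    rw [coe_quotientToInvariants_mk, coe_levelUnitsFwd, coe_levelUnitsFwd, G.coe_lRepr_apply]
    exact level_mk_smul L σ _

/-- `Fˣ ≃ (ℚ̄ˣ)^{U_F}` as representations of `L.Gal`. -/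
def levelUnitsEquiv :
    (G.lRepr L.Gal L.F).Equiv (unitsQbar.ρ.quotientToInvariants L.U) :=
  Representation.Equiv.mk (levelUnitsLinearEquiv L) (fun g =>
    LinearMap.ext fun u => levelUnitsFwd_equivariant L g u)

/-- **LVL (4)**: the tower module `Level.units L` is the layer-G module `Fˣ`. -/
def levelUnitsIso : G.LRep L.Gal L.F ≅ Level.units L :=
  Rep.mkIso (levelUnitsEquiv L)

theorem levelUnitsIso_hom_apply (u : Additive (L.F)ˣ) :
    (levelUnitsIso L).hom.hom u = levelUnitsFwd L u := rfl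

theorem coe_levelUnitsIso_hom_apply (u : Additive (L.F)ˣ) :
    levelInvVal L ((levelUnitsIso L).hom.hom u) = (((u.toMul : (L.F)ˣ) : L.F) : Qbar) := rfl

end

end Fermat.Agent.S55.E1.H594

end
-- ===== PACK-END S55/E1/H594/LevelUnits.lean

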