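import Mathlib
import Fermat.Prelude.Def_GaloisRep_CompletionBridge
import Fermat.Agent.Pack.S43GC.G0E3L1
import Fermat.Agent.Pack.S43GC.G0E3L0
import Fermat.Agent.Pack.S43GC.G0E3L2
import Fermat.Agent.Pack.S43GC.G0E0L0
import Fermat.Agent.Pack.S43GC.G0E0L2
import Fermat.Agent.Pack.S43GC.G0E0L1
import Fermat.Agent.Pack.S43GC.G0E3L3
import Fermat.Agent.Pack.S43GC.G0E0L3
import Fermat.Agent.Pack.S43GC.G0E2L1
import Fermat.Agent.Pack.S43GC.G0E2L0
import Fermat.Agent.Pack.S43GC.G0E2L2
import Fermat.Agent.Pack.S43GC.G0E4L2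
import Fermat.Agent.Pack.Fast891

-- ===== PACK-BEGIN S55/PT/Les.lean
section


/-!
# S55 / PT layer, part 3: connecting homomorphisms `δ⁰ : H⁰(C) → H¹(A)`, `δ¹ : H¹(C) → H²(A)`
for a short exact sequence `0 → A → B → C → 0` of uniformly smooth representations.

Everything is `k`-linear because we use `k`-linear (non-equivariant) splittings `sec`, `ret`.
The exactness statements are leaves (see `Spec.lean`).
-/

set_option autoImplicit false

noncomputable section

namespace Fermat.Agent.S55.PT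

open groupCohomology

variable {k : Type} [Field k] {G : Type} [Group G]

/-! ### level-constancy of coboundaries -/

namespace LevelSys

variable (L : LevelSys G) {A : Rep.{0, 0, 0} k G}

lemma d₀₁_isLC₁ (hA : L.IsUSmooth A) (m : A) : L.IsLC₁ ((d₀₁ A).hom m) := by
  obtain ⟨U, hU, h⟩ := hA
  refine ⟨U, hU, fun g s hs => ?_⟩
  simp only [d₀₁_hom_apply, map_mul, Module.End.mul_apply, h s hs m]

lemma B1_le_C1 (hA : L.IsUSmooth A) : B1 A ≤ L.C1 A := by
  rintro f ⟨m, rfl⟩
  exact L.d₀₁_isLC₁ hA m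

lemma d₁₂_isLC₂ (hN : L.NormalCofinal) (hA : L.IsUSmooth A) {x : G → A} (hx : L.IsLC₁ x) :
    L.IsLC₂ ((d₁₂ A).hom x) := by
  obtain ⟨U, hU, h⟩ := hA
  obtain ⟨V, hV, hx⟩ := hx
  obtain ⟨W, hW, hWle⟩ := L.directed U hU V hV
  obtain ⟨N, hNl, hNW, hNn⟩ := hN W hW
  refine ⟨N, hNl, fun g g' s s' hs hs' => ?_⟩
  have hsU : s ∈ U := (hWle (hNW hs)).1
  have hs'V : s' ∈ V := (hWle (hNW hs')).2
  have hconj : g'⁻¹ * s * g' ∈ N := by
    have := hNn.conj_mem s hs g'⁻¹
    simpa using this
  have hmem : g'⁻¹ * s * g' * s' ∈ V := (hWle (hNW (N.mul_mem hconj hs'))).2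
  have e1 : g * s * (g' * s') = g * g' * (g'⁻¹ * s * g' * s') := by group
  simp only [d₁₂_hom_apply]
  rw [e1, hx (g * g') _ hmem, hx g' s' hs'V, hx g s (hWle (hNW hs)).2, map_mul,
    Module.End.mul_apply, h s hsU]

lemma B2_le_C2 (hN : L.NormalCofinal) (hA : L.IsUSmooth A) : L.B2 A ≤ L.C2 A := by
  rintro f ⟨x, hx, rfl⟩
  exact L.d₁₂_isLC₂ hN hA hx

lemma B2_le_Z2 (hN : L.NormalCofinal) (hA : L.IsUSmooth A) : L.B2 A ≤ L.Z2 A := by
  rintro f hf
  refine ⟨?_, L.B2_le_C2 hN hA hf⟩
  obtain ⟨x, -, rfl⟩ := hf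
  show (d₂₃ A).hom ((d₁₂ A).hom x) = 0
  have := d₁₂_comp_d₂₃ A
  have h2 := congrArg (fun f => f.hom x) this
  simpa using h2

lemma B1_le_Z1 (hA : L.IsUSmooth A) : B1 A ≤ L.Z1 A := by
  rintro f hf
  refine ⟨?_, L.B1_le_C1 hA hf⟩
  obtain ⟨m, rfl⟩ := hf
  show (d₁₂ A).hom ((d₀₁ A).hom m) = 0
  have := d₀₁_comp_d₁₂ A
  have h2 := congrArg (fun f => f.hom m) this
  simpa using h2

end LevelSys

/-- A short exact sequence `0 → A → B → C → 0` of representations (maps are plain linear maps
together with equivariance proofs). -/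
structure SES (A B C : Rep.{0, 0, 0} k G) where
  /-- the injection -/
  i : A →ₗ[k] B
  /-- the surjection -/
  π : B →ₗ[k] C
  hi : IsEquivariant i
  hπ : IsEquivariant π
  inj : Function.Injective i
  surj : Function.Surjective π
  exact : LinearMap.range i = LinearMap.ker π

namespace SES

variable {A B C : Rep.{0, 0, 0} k G} (E : SES A B C)

/-- a `k`-linear section of `π` -/
def sec : C →ₗ[k] B := Classical.choose (LinearMap.exists_rightInverse_of_surjective E.π
  (LinearMap.range_eq_top.2 E.surj))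

lemma π_sec (c : C) : E.π (E.sec c) = c :=
  LinearMap.congr_fun (Classical.choose_spec (LinearMap.exists_rightInverse_of_surjective E.π
    (LinearMap.range_eq_top.2 E.surj))) c

/-- a `k`-linear retraction of `i` -/
def ret : B →ₗ[k] A := Classical.choose (LinearMap.exists_leftInverse_of_injective E.i
  (LinearMap.ker_eq_bot.2 E.inj))

lemma ret_i (a : A) : E.ret (E.i a) = a :=
  LinearMap.congr_fun (Classical.choose_spec (LinearMap.exists_leftInverse_of_injective E.i
    (LinearMap.ker_eq_bot.2 E.inj))) a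

lemma i_ret {b : B} (hb : E.π b = 0) : E.i (E.ret b) = b := by
  have : b ∈ LinearMap.range E.i := by rw [E.exact]; exact hb
  obtain ⟨a, rfl⟩ := this
  rw [E.ret_i]

lemma π_i (a : A) : E.π (E.i a) = 0 := by
  have : E.i a ∈ LinearMap.ker E.π := by rw [← E.exact]; exact ⟨a, rfl⟩
  exact this

lemma i_comp_ret_comp {X : Type*} {f : X → B} (hf : ∀ x, E.π (f x) = 0) :
    (E.i ∘ (E.ret ∘ f) : X → B) = f := by
  funext x
  exact E.i_ret (hf x)

variable (L : LevelSys G)

/-- cochain-level `δ⁰`: `c ↦ (g ↦ ret (g • sec c - sec c))` -/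
def del0Fun : C →ₗ[k] (G → A) :=
  (E.ret.compLeft G) ∘ₗ (d₀₁ B).hom ∘ₗ E.sec

/-- cochain-level `δ¹`: `c ↦ ret ∘ d(sec ∘ c)` -/
def del1Fun : (G → C) →ₗ[k] (G × G → A) :=
  (E.ret.compLeft (G × G)) ∘ₗ (d₁₂ B).hom ∘ₗ (E.sec.compLeft G)

lemma del0Fun_apply (c : C) : E.del0Fun c = E.ret ∘ (d₀₁ B).hom (E.sec c) := rfl

lemma del1Fun_apply (c : G → C) : E.del1Fun c = E.ret ∘ (d₁₂ B).hom (E.sec ∘ c) := rfl

lemma π_d₀₁_sec (c : ↥(LevelSys.H0 C)) (g : G) : E.π ((d₀₁ B).hom (E.sec (c : C)) g) = 0 := by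
  have hπ : ∀ (g : G) (b : B), E.π (B.ρ g b) = C.ρ g (E.π b) := E.hπ
  simp only [d₀₁_hom_apply, map_sub, hπ, E.π_sec]
  rw [c.2 g, sub_self]

lemma i_comp_del0Fun (c : ↥(LevelSys.H0 C)) :
    (E.i ∘ E.del0Fun (c : C) : G → B) = (d₀₁ B).hom (E.sec (c : C)) :=
  E.i_comp_ret_comp (E.π_d₀₁_sec c)

lemma π_d₁₂_sec {c : G → C} (hc : c ∈ cocycles₁ C) (x : G × G) :
    E.π ((d₁₂ B).hom (E.sec ∘ c) x) = 0 := by
  have h1 : (E.π ∘ (d₁₂ B).hom (E.sec ∘ c) : G × G → C) = (d₁₂ C).hom (E.π ∘ (E.sec ∘ c)) :=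
    (push_d₁₂ E.π E.hπ (E.sec ∘ c)).symm
  have h2 : (E.π ∘ (E.sec ∘ c) : G → C) = c := by
    funext g
    exact E.π_sec (c g)
  have h3 : (d₁₂ C).hom c = 0 := hc
  have := congrFun h1 x
  rw [h2, h3] at this
  exact this

lemma i_comp_del1Fun {c : G → C} (hc : c ∈ cocycles₁ C) :
    (E.i ∘ E.del1Fun c : G × G → B) = (d₁₂ B).hom (E.sec ∘ c) :=
  E.i_comp_ret_comp (E.π_d₁₂_sec hc)

/-- `δ⁰` of an invariant is a level-constant cocycle. -/
theorem del0Fun_mem_Z1 (hB : L.IsUSmooth B) (c : ↥(LevelSys.H0 C)) :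
    E.del0Fun (c : C) ∈ L.Z1 A := by
  refine ⟨?_, ?_⟩
  · show (d₁₂ A).hom (E.del0Fun (c : C)) = 0
    have h1 : (E.i ∘ (d₁₂ A).hom (E.del0Fun (c : C)) : G × G → B) = 0 := by
      rw [← push_d₁₂ E.i E.hi, E.i_comp_del0Fun c]
      have := d₀₁_comp_d₁₂ B
      have h2 := congrArg (fun f => f.hom (E.sec (c : C))) this
      simpa using h2
    funext x
    apply E.inj
    rw [Pi.zero_apply, map_zero]
    exact congrFun h1 x
  · exact LevelSys.IsLC₁.comp (L.d₀₁_isLC₁ hB (E.sec (c : C))) E.ret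

/-- `δ¹` of a level-constant cocycle is a level-constant cocycle. -/
theorem del1Fun_mem_Z2 (hN : L.NormalCofinal) (hB : L.IsUSmooth B) (c : ↥(L.Z1 C)) :
    E.del1Fun (c : G → C) ∈ L.Z2 A := by
  refine ⟨?_, ?_⟩
  · show (d₂₃ A).hom (E.del1Fun (c : G → C)) = 0
    have h1 : (E.i ∘ (d₂₃ A).hom (E.del1Fun (c : G → C)) : G × G × G → B) = 0 := by
      rw [← push_d₂₃ E.i E.hi, E.i_comp_del1Fun c.2.1]
      have := d₁₂_comp_d₂₃ B
      have h2 := congrArg (fun f => f.hom (E.sec ∘ (c : G → C))) this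
      simpa using h2
    funext x
    apply E.inj
    rw [Pi.zero_apply, map_zero]
    exact congrFun h1 x
  · exact LevelSys.IsLC₂.comp (L.d₁₂_isLC₂ hN hB (LevelSys.IsLC₁.comp c.2.2 E.sec)) E.ret

/-- `δ¹` of a coboundary is a level-constant coboundary. -/
theorem del1Fun_mem_B2 (hB : L.IsUSmooth B) (hC : L.IsUSmooth C) (c : ↥(L.Z1 C))
    (hc : (c : G → C) ∈ LevelSys.B1 C) :
    E.del1Fun (c : G → C) ∈ L.B2 A := by
  obtain ⟨m, hm⟩ := hc
  -- `y := sec ∘ d m - d (sec m)` has values in `ker π`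
  set y : G → B := (E.sec ∘ (c : G → C)) - (d₀₁ B).hom (E.sec m) with hy
  have hπy : ∀ g, E.π (y g) = 0 := by
    intro g
    have hπ : ∀ (g : G) (b : B), E.π (B.ρ g b) = C.ρ g (E.π b) := E.hπ
    have hmg : (c : G → C) g = C.ρ g m - m := by
      rw [← hm]; simp only [d₀₁_hom_apply]
    simp only [hy, Pi.sub_apply, Function.comp_apply, map_sub, E.π_sec, d₀₁_hom_apply, hπ]
    rw [hmg, sub_self]
  have hyLC : L.IsLC₁ y := by
    have h1 : L.IsLC₁ (E.sec ∘ (c : G → C)) := LevelSys.IsLC₁.comp c.2.2 E.sec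
    have h2 : L.IsLC₁ ((d₀₁ B).hom (E.sec m)) := L.d₀₁_isLC₁ hB (E.sec m)
    obtain ⟨U, hU, h⟩ := h1
    obtain ⟨V, hV, h'⟩ := h2
    obtain ⟨W, hW, hle⟩ := L.directed U hU V hV
    refine ⟨W, hW, fun g s hs => ?_⟩
    simp only [hy, Pi.sub_apply]
    rw [h g s (hle hs).1, h' g s (hle hs).2]
  refine ⟨E.ret ∘ y, LevelSys.IsLC₁.comp hyLC E.ret, ?_⟩
  -- `d (ret ∘ y) = ret ∘ d y = ret ∘ d (sec ∘ c)`
  have hdy : (d₁₂ B).hom y = (d₁₂ B).hom (E.sec ∘ (c : G → C)) := by
    have h0 : (d₁₂ B).hom ((d₀₁ B).hom (E.sec m)) = 0 := by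
      have := d₀₁_comp_d₁₂ B
      have h2 := congrArg (fun f => f.hom (E.sec m)) this
      simpa using h2
    rw [hy, map_sub, h0, sub_zero]
  have h1 : (E.i ∘ (d₁₂ A).hom (E.ret ∘ y) : G × G → B) = (d₁₂ B).hom y := by
    rw [← push_d₁₂ E.i E.hi, E.i_comp_ret_comp hπy]
  funext x
  apply E.inj
  have h2 := congrFun h1 x
  have h3 := congrFun (E.i_comp_del1Fun c.2.1) x
  simp only [Function.comp_apply] at h2 h3
  rw [h2, h3, hdy]

/-- The connecting homomorphism `δ⁰ : H⁰(C) → H¹(A)`. -/
def del0 (hB : L.IsUSmooth B) : ↥(LevelSys.H0 C) →ₗ[k] L.H1 A :=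
  L.H1π A ∘ₗ (E.del0Fun ∘ₗ (LevelSys.H0 C).subtype).codRestrict (L.Z1 A)
    (fun c => E.del0Fun_mem_Z1 L hB c)

/-- The connecting homomorphism `δ¹ : H¹(C) → H²(A)`. -/
def del1 (hN : L.NormalCofinal) (hB : L.IsUSmooth B) (hC : L.IsUSmooth C) :
    L.H1 C →ₗ[k] L.H2 A :=
  Submodule.liftQ ((LevelSys.B1 C).comap (L.Z1 C).subtype)
    (L.H2π A ∘ₗ (E.del1Fun ∘ₗ (L.Z1 C).subtype).codRestrict (L.Z2 A)
      (fun c => E.del1Fun_mem_Z2 L hN hB c))
    (fun c hc => by
      rw [LinearMap.mem_ker, LinearMap.comp_apply, LevelSys.H2π_eq_zero_iff]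
      exact E.del1Fun_mem_B2 L hB hC c hc)

lemma del0_apply (hB : L.IsUSmooth B) (c : ↥(LevelSys.H0 C)) :
    E.del0 L hB c = L.H1π A ⟨E.del0Fun (c : C), E.del0Fun_mem_Z1 L hB c⟩ := rfl

lemma del1_mk (hN : L.NormalCofinal) (hB : L.IsUSmooth B) (hC : L.IsUSmooth C) (c : ↥(L.Z1 C)) :
    E.del1 L hN hB hC (L.H1π C c) =
      L.H2π A ⟨E.del1Fun (c : G → C), E.del1Fun_mem_Z2 L hN hB c⟩ := rfl

/-! ### Restriction of a short exact sequence along `r : G' → G` -/

variable {G' : Type} [Group G'] (r : G' →* G)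

/-- The restricted short exact sequence. NB: `sec` and `ret` of the restricted sequence are
again CHOSEN, so they may differ from those of `E`; compatibility statements are therefore
formulated on cohomology classes. -/
def res : SES (Rep.res r A) (Rep.res r B) (Rep.res r C) where
  i := E.i
  π := E.π
  hi := fun g a => E.hi (r g) a
  hπ := fun g b => E.hπ (r g) b
  inj := E.inj
  surj := E.surj
  exact := E.exact

end SES

end Fermat.Agent.S55.PT

end

end
-- ===== PACK-END S55/PT/Les.lean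

-- ===== PACK-BEGIN S55/H572/ResCoind.lean
section


/-!
# Restriction of a module coinduced from the trivial subgroup is again coinduced

For any group `G`, subgroup `H ≤ G` and `A₀ : Rep R (⊥ : Subgroup G)`:
`res H (coind_1^G A₀) ≅ coind_1^H (Fun(G ⧸ H, A₀))` (`resCoindBotIso`).

Consequences (`H` finite for Tate cohomology, arbitrary for group cohomology):
the restriction to **every** subgroup of a module coinduced from the trivial subgroup has
vanishing (Tate) cohomology.
-/

set_option autoImplicit false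

open CategoryTheory groupCohomology groupHomology Rep Limits

universe u

namespace Fermat.Agent.S55.H572

noncomputable section

variable {R G : Type u} [CommRing R] [Group G] (H : Subgroup G)

/-- The `H`-component of `x : G` with respect to the chosen representatives of `G ⧸ H`:
`x = (x H).out * hPart H x`. -/
def hPart (x : G) : H :=
  ⟨(QuotientGroup.mk x : G ⧸ H).out⁻¹ * x,
    QuotientGroup.leftRel_apply.mp (Quotient.exact' (QuotientGroup.out_eq' _))⟩

lemma out_mul_hPart (x : G) : (QuotientGroup.mk x : G ⧸ H).out * (hPart H x : G) = x := by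
  simp [hPart]

lemma mk_out_mul (q : G ⧸ H) (h : H) : (QuotientGroup.mk (q.out * (h : G)) : G ⧸ H) = q := by
  rw [QuotientGroup.mk_mul_of_mem _ h.2, QuotientGroup.out_eq']

lemma hPart_out_mul (q : G ⧸ H) (h : H) : hPart H (q.out * (h : G)) = h := by
  apply Subtype.ext
  simp only [hPart]
  rw [mk_out_mul]
  simp

/-- Coefficients of the restricted coinduced module: functions `G ⧸ H → A₀`. -/
abbrev coeffRes (A₀ : Rep.{u} R (⊥ : Subgroup G)) : Rep.{u} R (⊥ : Subgroup H) :=
  Rep.trivial R (⊥ : Subgroup H) ((G ⧸ H) → A₀.V)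

/-- The underlying linear equivalence of `resCoindBotIso`. -/
def resCoindBotLinearEquiv (A₀ : Rep.{u} R (⊥ : Subgroup G)) :
    (coind (⊥ : Subgroup G).subtype A₀).V ≃ₗ[R]
      (coind (⊥ : Subgroup H).subtype (coeffRes H A₀)).V where
  toFun f := mkCoind (coeffRes H A₀) (fun h q => f.1 (q.out * (h : G)))
  map_add' f g := rfl
  map_smul' r f := rfl
  invFun F := mkCoind A₀ (fun x => F.1 (hPart H x) (QuotientGroup.mk x))
  left_inv f := by
    apply Subtype.ext
    funext x
    change f.1 ((QuotientGroup.mk x : G ⧸ H).out * (hPart H x : G)) = f.1 x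
    rw [out_mul_hPart]
  right_inv F := by
    apply Subtype.ext
    funext h q
    change F.1 (hPart H (q.out * (h : G))) (QuotientGroup.mk (q.out * (h : G))) = F.1 h q
    rw [hPart_out_mul, mk_out_mul]

/-- `res H (coind_1^G A₀) ≅ coind_1^H (Fun(G ⧸ H, A₀))`. -/
def resCoindBotIso (A₀ : Rep.{u} R (⊥ : Subgroup G)) :
    res H.subtype (coind (⊥ : Subgroup G).subtype A₀) ≅
      coind (⊥ : Subgroup H).subtype (coeffRes H A₀) :=
  Rep.mkIso (Representation.Equiv.mk (resCoindBotLinearEquiv H A₀) (fun h' => by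
    apply LinearMap.ext
    intro f
    apply Subtype.ext
    funext h q
    change f.1 (q.out * (h : G) * (h' : G)) = f.1 (q.out * ((h * h' : H) : G))
    rw [Subgroup.coe_mul, mul_assoc]))

/-- Restriction to any subgroup of a module coinduced from the trivial subgroup has vanishing
group cohomology in positive degrees. -/
theorem isZero_groupCohomology_res_coind_bot (A₀ : Rep.{u} R (⊥ : Subgroup G)) (n : ℕ) :
    IsZero (groupCohomology (res H.subtype (coind (⊥ : Subgroup G).subtype A₀)) (n + 1)) :=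
  IsZero.of_iso (IsZero.of_iso (isZero_groupCohomology_succ_of_subsingleton (coeffRes H A₀) n)
      (groupCohomology.coindIso (coeffRes H A₀) (n + 1)))
    ((groupCohomology.functor R H (n + 1)).mapIso (resCoindBotIso H A₀))

/-- Restriction to any finite subgroup of a module coinduced from the trivial subgroup has
vanishing Tate cohomology in all degrees. -/
theorem isZero_tateCohomology_res_coind_bot [Fintype H] (A₀ : Rep.{u} R (⊥ : Subgroup G))
    (n : ℤ) :
    IsZero (tateCohomology (res H.subtype (coind (⊥ : Subgroup G).subtype A₀)) n) :=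
  IsZero.of_iso (isZero_tateCohomology_coind_bot (coeffRes H A₀) n)
    ((tateCohomologyFunctor n).mapIso (resCoindBotIso H A₀))

end

end Fermat.Agent.S55.H572

end
-- ===== PACK-END S55/H572/ResCoind.lean

-- ===== PACK-BEGIN S55/KL/H289/PImage.lean
section


/-!
# S55, layer KB, leaf KB-KUM3 (helper289), part 1: image and cokernel of `p` on a representation

For `B : Rep k G` and `p : ℕ`:
* `pSub B p = p • B` (a `G`-stable submodule), `pImg B p` the subrepresentation, `pCok B p` the
  quotient `B ⧸ p • B`;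
* the short exact sequence `0 → p • B → B → B ⧸ p • B → 0` (`ses2`);
* `pMul : B ⟶ pImg B p` (multiplication by `p`), with `pMul ≫ pIncl = p • 𝟙`;
* functoriality in `(f, φ)`, `f : G' →* G`, `φ : res f B ⟶ B'`.
-/

set_option autoImplicit false
set_option linter.style.haveILetI false

open CategoryTheory groupCohomology

namespace Fermat.Agent.S55.KL.H289

open Fermat.Agent.S55.KL

variable {k : Type} [CommRing k] {G G' G'' : Type} [Group G] [Group G'] [Group G'']

/-- The submodule `p • B`. -/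
def pSub (B : Rep.{0} k G) (p : ℕ) : Submodule k B.V where
  carrier := {b | ∃ c : B.V, p • c = b}
  add_mem' := by
    rintro _ _ ⟨c, rfl⟩ ⟨d, rfl⟩
    exact ⟨c + d, smul_add _ _ _⟩
  zero_mem' := ⟨0, smul_zero _⟩
  smul_mem' := by
    rintro r _ ⟨c, rfl⟩
    exact ⟨r • c, smul_comm _ _ _⟩

lemma mem_pSub {B : Rep.{0} k G} {p : ℕ} {b : B.V} : b ∈ pSub B p ↔ ∃ c : B.V, p • c = b :=
  Iff.rfl

lemma pSub_le_comap (B : Rep.{0} k G) (p : ℕ) (g : G) :
    pSub B p ≤ (pSub B p).comap (B.ρ g) := by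
  rintro _ ⟨c, rfl⟩
  exact ⟨B.ρ g c, (map_nsmul _ _ _).symm⟩

/-- The subrepresentation `p • B`. -/
noncomputable def pImg (B : Rep.{0} k G) (p : ℕ) : Rep.{0} k G :=
  Rep.subrepresentation B (pSub B p) (pSub_le_comap B p)

/-- The quotient representation `B ⧸ p • B`. -/
noncomputable def pCok (B : Rep.{0} k G) (p : ℕ) : Rep.{0} k G :=
  Rep.quotient B (pSub B p) (pSub_le_comap B p)

/-- The inclusion `p • B ⟶ B`. -/
noncomputable def pIncl (B : Rep.{0} k G) (p : ℕ) : pImg B p ⟶ B :=
  Rep.subtype B (pSub B p) (pSub_le_comap B p)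

/-- The projection `B ⟶ B ⧸ p • B`. -/
noncomputable def pProj (B : Rep.{0} k G) (p : ℕ) : B ⟶ pCok B p :=
  Rep.mkQ B (pSub B p) (pSub_le_comap B p)

/-- Multiplication by `p`, as a linear map `B → p • B`. -/
def pMulLin (B : Rep.{0} k G) (p : ℕ) : B.V →ₗ[k] ↥(pSub B p) where
  toFun b := ⟨p • b, b, rfl⟩
  map_add' _ _ := Subtype.ext (smul_add _ _ _)
  map_smul' _ _ := Subtype.ext (smul_comm _ _ _)

/-- Multiplication by `p`, `B ⟶ p • B`. -/
noncomputable def pMul (B : Rep.{0} k G) (p : ℕ) : B ⟶ pImg B p :=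
  Rep.ofHom ⟨pMulLin B p, fun g => by
    ext b
    exact (map_nsmul (B.ρ g) p b).symm⟩

@[simp] lemma pIncl_apply (B : Rep.{0} k G) (p : ℕ) (x : (pImg B p).V) :
    (pIncl B p).hom x = (show ↥(pSub B p) from x).1 := rfl

@[simp] lemma pMul_apply_coe (B : Rep.{0} k G) (p : ℕ) (b : B.V) :
    ((show ↥(pSub B p) from (pMul B p).hom b) : B.V) = p • b := rfl

lemma pProj_apply (B : Rep.{0} k G) (p : ℕ) (b : B.V) :
    (pProj B p).hom b = (show B.V ⧸ pSub B p from Submodule.Quotient.mk b) := rfl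

lemma pProj_eq_zero_iff (B : Rep.{0} k G) (p : ℕ) (b : B.V) :
    (pProj B p).hom b = 0 ↔ ∃ c : B.V, p • c = b := by
  rw [pProj_apply]
  exact (Submodule.Quotient.mk_eq_zero (pSub B p)).trans mem_pSub

lemma pProj_surjective (B : Rep.{0} k G) (p : ℕ) : Function.Surjective (pProj B p).hom :=
  fun x => Submodule.Quotient.mk_surjective (pSub B p) x

lemma pIncl_injective (B : Rep.{0} k G) (p : ℕ) : Function.Injective (pIncl B p).hom :=
  fun _ _ h => Subtype.ext h

lemma pMul_surjective (B : Rep.{0} k G) (p : ℕ) : Function.Surjective (pMul B p).hom := by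
  rintro ⟨_, c, rfl⟩
  exact ⟨c, rfl⟩

lemma pMul_comp_pIncl (B : Rep.{0} k G) (p : ℕ) : pMul B p ≫ pIncl B p = p • 𝟙 B := by
  apply Rep.hom_ext
  apply DFunLike.ext
  intro b
  rfl

lemma pIncl_comp_pProj (B : Rep.{0} k G) (p : ℕ) : pIncl B p ≫ pProj B p = 0 := by
  apply Rep.hom_ext
  apply DFunLike.ext
  intro b
  show (pProj B p).hom ((pIncl B p).hom b) = 0
  rw [pProj_eq_zero_iff]
  exact (show ↥(pSub B p) from b).2

/-- The short complex `p • B ⟶ B ⟶ B ⧸ p • B`. -/
noncomputable def ses2 (B : Rep.{0} k G) (p : ℕ) : ShortComplex (Rep.{0} k G) :=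
  ShortComplex.mk (pIncl B p) (pProj B p) (pIncl_comp_pProj B p)

lemma ses2_shortExact (B : Rep.{0} k G) (p : ℕ) : (ses2 B p).ShortExact where
  exact := by
    rw [← ShortComplex.exact_map_iff_of_faithful _ (forget₂ (Rep k G) (ModuleCat k)),
      ShortComplex.moduleCat_exact_iff_ker_sub_range]
    intro b hb
    have hb' : (pProj B p).hom (show B.V from b) = 0 := hb
    have hb'' := (pProj_eq_zero_iff B p (show B.V from b)).1 hb'
    exact ⟨(⟨(show B.V from b), hb''⟩ : ↥(pSub B p)), rfl⟩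
  mono_f := by
    rw [Rep.mono_iff_injective]
    exact pIncl_injective B p
  epi_g := by
    rw [Rep.epi_iff_surjective]
    exact pProj_surjective B p

end Fermat.Agent.S55.KL.H289

end
-- ===== PACK-END S55/KL/H289/PImage.lean

-- ===== PACK-BEGIN S55/Local/H478/FiltKerIm.lean
section



/-!
# S55, layer L, piece A3 (helper478): successive approximation for `ker f ⊆ im g`

`theorem filtKerIm : Fermat.Agent.S55.Local.FiltKerImStatement`.
-/

set_option autoImplicit false

namespace Fermat.Agent.S55.Local.H478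

/-- **A3.** Successive approximation for `ker f ⊆ im g`. -/
theorem filtKerIm : Fermat.Agent.S55.Local.FiltKerImStatement := by
  intro M _ f g Fil _hanti hg hcomplete hsep hfg hstep x hx hfx
  exact approx_exists g Fil Fil f.ker hg (fun m => MonoidHom.mem_ker.mpr (hfg m)) hcomplete hsep
    (fun j c hcZ hcj => hstep j c hcj (MonoidHom.mem_ker.mp hcZ)) x (MonoidHom.mem_ker.mpr hfx) hx

end Fermat.Agent.S55.Local.H478

end
-- ===== PACK-END S55/Local/H478/FiltKerIm.lean

-- ===== PACK-BEGIN S55/Local/H535/CycIdx.lean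
section


/-!
# S55 layer L, cyclic groups: the discrete logarithm `cycIdx` — helper535

Basic facts about `Fermat.Agent.S55.Local.cycIdx σ g` for a generator `σ` of a finite cyclic
group, used by the pieces A4a–A4d.
-/

set_option autoImplicit false

namespace Fermat.Agent.S55.Local.H535

open Fermat.Agent.S55.Local

section

variable {G : Type} [Group G] [Finite G] {σ : G}

lemma orderOf_eq_card (hσ : ∀ g, g ∈ Subgroup.zpowers σ) : orderOf σ = Nat.card G :=
  orderOf_eq_card_of_forall_mem_zpowers hσ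

lemma card_pos' : 0 < Nat.card G := Nat.card_pos

lemma exists_pow_eq (hσ : ∀ g, g ∈ Subgroup.zpowers σ) (g : G) : ∃ k : ℕ, σ ^ k = g := by
  have h := hσ g
  rw [← mem_powers_iff_mem_zpowers] at h
  exact Submonoid.mem_powers_iff g σ |>.1 h

lemma pow_cycIdx (hσ : ∀ g, g ∈ Subgroup.zpowers σ) (g : G) : σ ^ cycIdx σ g = g :=
  Nat.sInf_mem (s := {k : ℕ | σ ^ k = g}) (exists_pow_eq hσ g)

lemma pow_mod_card (hσ : ∀ g, g ∈ Subgroup.zpowers σ) (k : ℕ) :
    σ ^ (k % Nat.card G) = σ ^ k := by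
  rw [← orderOf_eq_card hσ, pow_mod_orderOf]

lemma cycIdx_lt (hσ : ∀ g, g ∈ Subgroup.zpowers σ) (g : G) : cycIdx σ g < Nat.card G := by
  obtain ⟨k, hk⟩ := exists_pow_eq hσ g
  have h1 : k % Nat.card G ∈ {k : ℕ | σ ^ k = g} := by
    show σ ^ (k % Nat.card G) = g
    rw [pow_mod_card hσ, hk]
  exact lt_of_le_of_lt (Nat.sInf_le h1) (Nat.mod_lt _ card_pos')

lemma cycIdx_pow (hσ : ∀ g, g ∈ Subgroup.zpowers σ) (k : ℕ) :
    cycIdx σ (σ ^ k) = k % Nat.card G := by
  have h1 := pow_cycIdx hσ (σ ^ k)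
  have h2 := cycIdx_lt hσ (σ ^ k)
  rw [pow_eq_pow_iff_modEq, orderOf_eq_card hσ] at h1
  have h3 : cycIdx σ (σ ^ k) % Nat.card G = k % Nat.card G := h1
  rwa [Nat.mod_eq_of_lt h2] at h3

lemma cycIdx_pow_of_lt (hσ : ∀ g, g ∈ Subgroup.zpowers σ) {k : ℕ} (hk : k < Nat.card G) :
    cycIdx σ (σ ^ k) = k := by
  rw [cycIdx_pow hσ, Nat.mod_eq_of_lt hk]

lemma cycIdx_one (hσ : ∀ g, g ∈ Subgroup.zpowers σ) : cycIdx σ (1 : G) = 0 := by
  have := cycIdx_pow hσ 0
  simpa using this

lemma cycIdx_mul (hσ : ∀ g, g ∈ Subgroup.zpowers σ) (g h : G) :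
    cycIdx σ (g * h) = (cycIdx σ g + cycIdx σ h) % Nat.card G := by
  conv_lhs => rw [← pow_cycIdx hσ g, ← pow_cycIdx hσ h, ← pow_add]
  exact cycIdx_pow hσ _

lemma cycIdx_self (hσ : ∀ g, g ∈ Subgroup.zpowers σ) (h2 : 2 ≤ Nat.card G) :
    cycIdx σ σ = 1 := by
  have := cycIdx_pow hσ 1
  rw [pow_one] at this
  rw [this, Nat.mod_eq_of_lt h2]

lemma cycIdx_injective (hσ : ∀ g, g ∈ Subgroup.zpowers σ) :
    Function.Injective (cycIdx σ) := by
  intro g h hgh
  rw [← pow_cycIdx hσ g, ← pow_cycIdx hσ h, hgh]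

/-- Arithmetic of carries. -/
lemma carry_add (n a k : ℕ) (hn : 0 < n) : (a % n + k) / n + a / n = (a + k) / n := by
  conv_rhs => rw [← Nat.mod_add_div a n]
  rw [show a % n + n * (a / n) + k = a % n + k + n * (a / n) by ring,
    Nat.add_mul_div_left _ _ hn]

/-- `G`-invariance from `σ`-invariance. -/
lemma smul_eq_of_generator {M : Type} [CommGroup M] [MulDistribMulAction G M]
    (hσ : ∀ g, g ∈ Subgroup.zpowers σ) {x : M} (hx : σ • x = x) (g : G) : g • x = x := by
  obtain ⟨k, rfl⟩ := exists_pow_eq hσ g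
  induction k with
  | zero => simp
  | succ k ih => rw [pow_succ, mul_smul, hx, ih]

/-- Products over `G` are products over `range n` of powers of the generator. -/
lemma prod_univ_eq_prod_range [Fintype G] {M : Type} [CommMonoid M]
    (hσ : ∀ g, g ∈ Subgroup.zpowers σ) (F : G → M) :
    ∏ g : G, F g = ∏ k ∈ Finset.range (Nat.card G), F (σ ^ k) := by
  symm
  apply Finset.prod_bij (fun k _ => σ ^ k)
  · intro k _; exact Finset.mem_univ _
  · intro a ha b hb hab
    rw [Finset.mem_range] at ha hb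
    have := congrArg (cycIdx σ) hab
    rwa [cycIdx_pow_of_lt hσ ha, cycIdx_pow_of_lt hσ hb] at this
  · intro g _
    exact ⟨cycIdx σ g, Finset.mem_range.2 (cycIdx_lt hσ g), pow_cycIdx hσ g⟩
  · intro k _; rfl

end

end Fermat.Agent.S55.Local.H535

end
-- ===== PACK-END S55/Local/H535/CycIdx.lean

-- ===== PACK-BEGIN S55/Local/H535/A12.lean
section



/-!
# S55 layer L, pieces A1 (`FiltH1Statement`) and A2 (`FiltH2Statement`) — helper535

Successive approximation for `1`- and `2`-cocycles along a complete separated `G`-stable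
filtration, deduced from `Fermat.Agent.S55.H535.exact_of_graded_exact` applied to the
(multiplicative) inhomogeneous cochain complex `M → (G → M) → (G × G → M) → (G × G × G → M)`.
-/

set_option autoImplicit false

namespace Fermat.Agent.S55.Local.H535

open Fermat.Agent.S55.H535 groupCohomology

section

variable {G M : Type} [Group G] [CommGroup M] [MulDistribMulAction G M]

/-- The pointwise filtration on functions `X → M`. -/
def funFil (X : Type) (Fil : ℕ → Subgroup M) (j : ℕ) : Subgroup (X → M) where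
  carrier := {c | ∀ x, c x ∈ Fil j}
  one_mem' := fun _ => (Fil j).one_mem
  mul_mem' := fun ha hb x => (Fil j).mul_mem (ha x) (hb x)
  inv_mem' := fun ha x => (Fil j).inv_mem (ha x)

lemma mem_funFil {X : Type} {Fil : ℕ → Subgroup M} {j : ℕ} {c : X → M} :
    c ∈ funFil X Fil j ↔ ∀ x, c x ∈ Fil j := Iff.rfl

lemma funFil_sep (X : Type) (Fil : ℕ → Subgroup M) (hsep : ∀ x : M, (∀ j, x ∈ Fil j) → x = 1) :
    MulSeparated (funFil X Fil) := by
  intro c hc
  funext x
  exact hsep (c x) (fun j => hc j x)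

lemma funFil_complete (X : Type) (Fil : ℕ → Subgroup M)
    (hcomp : ∀ u : ℕ → M, (∀ j, u j ∈ Fil j) →
      ∃ s : M, ∀ n, s / ∏ j ∈ Finset.range n, u j ∈ Fil n) :
    MulComplete (funFil X Fil) := by
  intro a ha
  choose s hs using fun x => hcomp (fun j => a j x) (fun j => ha j x)
  refine ⟨s, fun n x => ?_⟩
  have := hs x n
  simpa [Finset.prod_apply] using this

/-- `d⁰ : M → (G → M)`, `m ↦ (g ↦ g • m / m)`. -/
def d0 : M →* (G → M) where
  toFun m := fun g => g • m / m
  map_one' := by funext g; simp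
  map_mul' a b := by funext g; simp [smul_mul', mul_div_mul_comm]

/-- `d¹ : (G → M) → (G × G → M)`, `c ↦ ((g, h) ↦ g • c h * c g / c (g h))`. -/
def d1 : (G → M) →* (G × G → M) where
  toFun c := fun p => p.1 • c p.2 * c p.1 / c (p.1 * p.2)
  map_one' := by funext p; simp
  map_mul' a b := by
    funext p
    simp only [Pi.mul_apply, smul_mul']
    apply Additive.ofMul.injective
    simp only [ofMul_mul, ofMul_div]
    abel

/-- `d²' : (G → M) → (G × G → M)`, `x ↦ ((g, h) ↦ g • x h / x (g h) * x g)`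
(the convention of `IsMulCoboundary₂`). -/
def d1' : (G → M) →* (G × G → M) where
  toFun c := fun p => p.1 • c p.2 / c (p.1 * p.2) * c p.1
  map_one' := by funext p; simp
  map_mul' a b := by
    funext p
    simp only [Pi.mul_apply, smul_mul']
    apply Additive.ofMul.injective
    simp only [ofMul_mul, ofMul_div]
    abel

/-- `d² : (G × G → M) → (G × G × G → M)`. -/
def d2 : (G × G → M) →* (G × G × G → M) where
  toFun c := fun t => c (t.1 * t.2.1, t.2.2) * c (t.1, t.2.1) /
    (t.1 • c (t.2.1, t.2.2) * c (t.1, t.2.1 * t.2.2))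
  map_one' := by funext t; simp
  map_mul' a b := by
    funext t
    simp only [Pi.mul_apply, smul_mul']
    apply Additive.ofMul.injective
    simp only [ofMul_mul, ofMul_div]
    abel

lemma d1_eq_one_iff (c : G → M) : d1 c = 1 ↔ IsMulCocycle₁ c := by
  constructor
  · intro h g k
    have := congrFun h (g, k)
    simp only [d1, MonoidHom.coe_mk, OneHom.coe_mk, Pi.one_apply] at this
    exact (div_eq_one.1 this).symm
  · intro h
    funext p
    simp only [d1, MonoidHom.coe_mk, OneHom.coe_mk, Pi.one_apply]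
    exact div_eq_one.2 (h p.1 p.2).symm

lemma d2_eq_one_iff (c : G × G → M) : d2 c = 1 ↔ IsMulCocycle₂ c := by
  constructor
  · intro h g k j
    have := congrFun h (g, k, j)
    simp only [d2, MonoidHom.coe_mk, OneHom.coe_mk, Pi.one_apply] at this
    exact div_eq_one.1 this
  · intro h
    funext t
    simp only [d2, MonoidHom.coe_mk, OneHom.coe_mk, Pi.one_apply]
    exact div_eq_one.2 (h t.1 t.2.1 t.2.2)

lemma d1_d0 (m : M) : d1 (d0 (G := G) m) = 1 := by
  funext p
  simp only [d1, d0, MonoidHom.coe_mk, OneHom.coe_mk, Pi.one_apply, smul_div', mul_smul]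
  rw [div_mul_div_cancel, div_self']

lemma d2_d1' (x : G → M) : d2 (d1' x) = 1 := by
  funext t
  obtain ⟨g, h, j⟩ := t
  simp only [d2, d1', MonoidHom.coe_mk, OneHom.coe_mk, Pi.one_apply, smul_div', smul_mul',
    mul_smul, mul_assoc]
  apply Additive.ofMul.injective
  simp only [ofMul_mul, ofMul_div, ofMul_one]
  abel

end

/-- **A1.** Successive approximation for `1`-cocycles. -/
theorem filtH1 : Fermat.Agent.S55.Local.FiltH1Statement := by
  intro G M _ _ _ Fil _ hstab hcomp hsep hgr c hc hc0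
  have key := exact_of_graded_exact (funFil G Fil) Fil (d0 (G := G) (M := M)) d1 d1_d0
    (fun j b hb g => (Fil j).div_mem (hstab j g b hb) hb)
    (funFil_sep G Fil hsep) hcomp
    (fun j x hx hx1 => by
      obtain ⟨m, hm, h⟩ := hgr j x ((d1_eq_one_iff x).1 hx1) hx
      exact ⟨m, hm, fun g => h g⟩)
    c hc0 ((d1_eq_one_iff c).2 hc)
  obtain ⟨m, hm, h⟩ := key
  exact ⟨m, hm, fun g => congrFun h g⟩

/-- **A2.** Successive approximation for `2`-cocycles. -/
theorem filtH2 : Fermat.Agent.S55.Local.FiltH2Statement := by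
  intro G M _ _ _ _ Fil _ hstab hcomp hsep hgr c hc hc0
  have key := exact_of_graded_exact (funFil (G × G) Fil) (funFil G Fil)
    (d1' (G := G) (M := M)) d2 d2_d1'
    (fun j b hb p => (Fil j).mul_mem
      ((Fil j).div_mem (hstab j p.1 _ (hb p.2)) (hb (p.1 * p.2))) (hb p.1))
    (funFil_sep (G × G) Fil hsep) (funFil_complete G Fil hcomp)
    (fun j x hx hx1 => by
      obtain ⟨y, hy, h⟩ := hgr j x ((d2_eq_one_iff x).1 hx1) hx
      exact ⟨y, hy, fun p => h p.1 p.2⟩)
    c hc0 ((d2_eq_one_iff c).2 hc)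
  obtain ⟨x, hx, h⟩ := key
  exact ⟨x, hx, fun g k => congrFun h (g, k)⟩

end Fermat.Agent.S55.Local.H535

end
-- ===== PACK-END S55/Local/H535/A12.lean

-- ===== PACK-BEGIN S55/Local/H169/AddCoh.lean
section


/-!
# S55, layer L, pieces FF1a / FF1b (helper169)

Additive `H¹` and `H²` of a finite Galois extension vanish (contracting homotopy from an element
of trace one).

* `Fermat.Agent.S55.Local.H169.addH1 : Fermat.Agent.S55.Local.AddH1Statement`
* `Fermat.Agent.S55.Local.H169.addH2 : Fermat.Agent.S55.Local.AddH2Statement`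
-/

set_option autoImplicit false

namespace Fermat.Agent.S55.Local.H169

open groupCohomology

section

variable {k l : Type} [Field k] [Field l] [Algebra k l] [FiniteDimensional k l] [IsGalois k l]

/-- An element of trace one, in the form `∑ σ, σ θ = 1`. -/
theorem exists_sum_aut_eq_one : ∃ θ : l, ∑ σ : l ≃ₐ[k] l, σ θ = 1 := by
  obtain ⟨θ, hθ⟩ := Algebra.trace_surjective k l 1
  refine ⟨θ, ?_⟩
  rw [← trace_eq_sum_automorphisms (K := k) (L := l) θ, hθ, map_one]

omit [IsGalois k l] in
/-- Reindexing the sum over the group by left translation. -/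
theorem sum_mul_left_aut (g : l ≃ₐ[k] l) (f : (l ≃ₐ[k] l) → l) :
    ∑ σ : l ≃ₐ[k] l, f (g * σ) = ∑ σ : l ≃ₐ[k] l, f σ :=
  Fintype.sum_equiv (Equiv.mulLeft g) _ _ (fun _ => rfl)

end

/-- **FF1a**: additive `H¹` of a finite Galois extension vanishes. -/
theorem addH1 : Fermat.Agent.S55.Local.AddH1Statement := by
  intro k l _ _ _ _ _ c hc
  obtain ⟨θ, hθ⟩ := exists_sum_aut_eq_one (k := k) (l := l)
  refine ⟨-∑ τ : l ≃ₐ[k] l, τ θ * c τ, fun g => ?_⟩
  have h1 : g • (-∑ τ : l ≃ₐ[k] l, τ θ * c τ) = -∑ τ : l ≃ₐ[k] l, (g * τ) θ * (g • c τ) := by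
    rw [AlgEquiv.smul_def, map_neg, map_sum]
    congr 1
    refine Finset.sum_congr rfl fun τ _ => ?_
    rw [map_mul, AlgEquiv.smul_def, AlgEquiv.mul_apply]
  have h2 : ∑ τ : l ≃ₐ[k] l, (g * τ) θ * (g • c τ)
      = ∑ τ : l ≃ₐ[k] l, (g * τ) θ * c (g * τ) - c g * ∑ τ : l ≃ₐ[k] l, (g * τ) θ := by
    rw [Finset.mul_sum, ← Finset.sum_sub_distrib]
    refine Finset.sum_congr rfl fun τ _ => ?_
    rw [hc g τ]
    ring
  have h3 : ∑ τ : l ≃ₐ[k] l, (g * τ) θ * c (g * τ) = ∑ τ : l ≃ₐ[k] l, τ θ * c τ :=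
    sum_mul_left_aut g (fun σ => σ θ * c σ)
  have h4 : ∑ τ : l ≃ₐ[k] l, (g * τ) θ = 1 := by
    rw [sum_mul_left_aut g (fun σ => σ θ), hθ]
  rw [h1, h2, h3, h4]
  ring

/-- **FF1b**: additive `H²` of a finite Galois extension vanishes. -/
theorem addH2 : Fermat.Agent.S55.Local.AddH2Statement := by
  intro k l _ _ _ _ _ c hc
  obtain ⟨θ, hθ⟩ := exists_sum_aut_eq_one (k := k) (l := l)
  refine ⟨fun g => ∑ τ : l ≃ₐ[k] l, (g * τ) θ * c (g, τ), fun g h => ?_⟩
  have h1 : g • (∑ τ : l ≃ₐ[k] l, (h * τ) θ * c (h, τ))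
      = ∑ τ : l ≃ₐ[k] l, (g * h * τ) θ * (g • c (h, τ)) := by
    rw [AlgEquiv.smul_def, map_sum]
    refine Finset.sum_congr rfl fun τ _ => ?_
    rw [map_mul, AlgEquiv.smul_def, mul_assoc g h τ, AlgEquiv.mul_apply g (h * τ)]
  have h3 : ∑ τ : l ≃ₐ[k] l, (g * τ) θ * c (g, τ)
      = ∑ τ : l ≃ₐ[k] l, (g * h * τ) θ * c (g, h * τ) := by
    rw [← sum_mul_left_aut h (fun σ => (g * σ) θ * c (g, σ))]
    refine Finset.sum_congr rfl fun τ _ => ?_
    rw [mul_assoc]
  have h4 : ∑ τ : l ≃ₐ[k] l, (g * h * τ) θ = 1 := by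
    rw [sum_mul_left_aut (g * h) (fun σ => σ θ), hθ]
  have key : ∀ τ : l ≃ₐ[k] l,
      (g * h * τ) θ * (g • c (h, τ)) - (g * h * τ) θ * c (g * h, τ)
        + (g * h * τ) θ * c (g, h * τ) = (g * h * τ) θ * c (g, h) := by
    intro τ
    have := hc g h τ
    linear_combination (-(g * h * τ) θ) * this
  calc g • (∑ τ : l ≃ₐ[k] l, (h * τ) θ * c (h, τ))
        - ∑ τ : l ≃ₐ[k] l, (g * h * τ) θ * c (g * h, τ)
        + ∑ τ : l ≃ₐ[k] l, (g * τ) θ * c (g, τ)
      = ∑ τ : l ≃ₐ[k] l, ((g * h * τ) θ * (g • c (h, τ)) - (g * h * τ) θ * c (g * h, τ)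
          + (g * h * τ) θ * c (g, h * τ)) := by
        rw [h1, h3, Finset.sum_add_distrib, Finset.sum_sub_distrib]
    _ = ∑ τ : l ≃ₐ[k] l, (g * h * τ) θ * c (g, h) := Finset.sum_congr rfl fun τ _ => key τ
    _ = c (g, h) := by rw [← Finset.sum_mul, h4, one_mul]

end Fermat.Agent.S55.Local.H169

end
-- ===== PACK-END S55/Local/H169/AddCoh.lean

-- ===== PACK-BEGIN S55/Local/H415/T1.lean
section


/-!
# S55, layer L, glue T1a + T1b by the cyclic shortcut (helper415)

* `unramUnitsH1 : UnramUnitsH1Statement` is proved UNCONDITIONALLY: Hilbert 90 (Mathlib) gives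
  `c g = g • m₀ / m₀` with `m₀ : Lˣ`; `IsUnram` writes `m₀ = y * u` with `y ∈ Kˣ`, `u ∈ U_L`, and
  `g • m₀ / m₀ = g • u / u`.  No completeness, no filtration.
* `unramUnitsH2_of : UnramCyclicStatement → CycCocycleCoboundaryIffStatement →
    CycCocycleSurjStatement → UnramNormUnitsStatement → UnramUnitsH2Statement`:
  the Galois group is cyclic (UR1); in the `G`-module `U_L` every 2-cocycle is cohomologous to a
  standard cyclic cocycle `cycCocycle σ x`, `x ∈ U_L^G = U_K` (A4c); `x` is the norm of a unit (UR4),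
  hence the standard cocycle is a coboundary in `U_L` (A4b).

So the pieces UR2, UR3, A1, A2, FF1a, FF1b, FF2 are not needed for T1a/T1b.
-/

set_option autoImplicit false

namespace Fermat.Agent.S55.Local.H415

open groupCohomology Fermat.Agent.S55.Local

section Basic

variable (A F : Type) [CommRing A] [Field F] [Algebra A F]
variable (K : Type) [Field K] [Algebra F K]
variable (L : Type) [Field L] [Algebra F L] [Algebra K L] [IsScalarTower F K L]

/-- `toL A F L` factors through `K`. -/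
lemma toL_eq_comp (a : A) : toL A F L a = algebraMap K L (toL A F K a) := by
  simp only [toL_apply]
  exact IsScalarTower.algebraMap_apply F K L _

variable {A F K L} in
/-- A `K`-algebra automorphism of `L` preserves integrality over `A`. -/
lemma isInt_algEquiv (σ : L ≃ₐ[K] L) {x : L} (hx : IsInt A F L x) : IsInt A F L (σ x) := by
  obtain ⟨p, hp, hpx⟩ := hx
  refine ⟨p, hp, ?_⟩
  have h1 : (σ : L →+* L).comp (toL A F L) = toL A F L := by
    ext a
    simp only [RingHom.comp_apply, toL_eq_comp A F K L a]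
    exact σ.commutes _
  have h2 := Polynomial.hom_eval₂ p (toL A F L) (σ : L →+* L) x
  rw [h1] at h2
  rw [← show (σ : L →+* L) x = σ x from rfl, ← h2, hpx, map_zero]

variable {A F K L} in
/-- Integrality over `A` of an element of `K` can be tested in `L`. -/
lemma isInt_of_isInt_algebraMap {y : K} (hy : IsInt A F L (algebraMap K L y)) : IsInt A F K y := by
  obtain ⟨p, hp, hpx⟩ := hy
  refine ⟨p, hp, ?_⟩
  have h1 : (algebraMap K L).comp (toL A F K) = toL A F L := by
    ext a
    simp only [RingHom.comp_apply, toL_eq_comp A F K L a]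
  have h2 := Polynomial.hom_eval₂ p (toL A F K) (algebraMap K L) y
  rw [h1, hpx] at h2
  exact (algebraMap K L).injective (by rw [h2, map_zero])

variable {A F K L} in
/-- The Galois group preserves the integral units. -/
lemma smul_mem_intUnits (σ : L ≃ₐ[K] L) {x : Lˣ} (hx : x ∈ intUnits A F L) :
    σ • x ∈ intUnits A F L := by
  refine ⟨?_, ?_⟩
  · have : ((σ • x : Lˣ) : L) = σ (x : L) := rfl
    rw [this]
    exact isInt_algEquiv σ hx.1
  · have : (((σ • x)⁻¹ : Lˣ) : L) = σ ((x⁻¹ : Lˣ) : L) := by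
      rw [← smul_inv']
      rfl
    rw [this]
    exact isInt_algEquiv σ hx.2

end Basic

/-- **(T1a)** `H¹(Gal(L/K), U_L) = 0` for `L / K` unramified: unconditional. -/
theorem unramUnitsH1 : UnramUnitsH1Statement := by
  intro A F _ _ _ _ _ _ _ _ _ K _ _ _ L _ _ _ _ _ _ hur c hc _
  obtain ⟨m₀, hm₀⟩ := isMulCoboundary₁_of_isMulCocycle₁_of_aut_to_units c hc
  obtain ⟨y, hy⟩ := hur m₀
  refine ⟨m₀ * (unitsIncl L K y)⁻¹, hy, fun g => ?_⟩
  have hfix : g • unitsIncl L K y = unitsIncl L K y := by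
    ext
    change g (algebraMap K L y) = algebraMap K L y
    exact g.commutes _
  rw [smul_mul', smul_inv', hfix, ← hm₀ g]
  rw [div_eq_mul_inv, div_eq_mul_inv, mul_inv, inv_inv]
  rw [mul_mul_mul_comm, mul_comm (unitsIncl L K y)⁻¹, mul_inv_cancel, mul_one]

section T1b

variable (A F : Type) [CommRing A] [Field F] [Algebra A F]
variable (K : Type) [Field K] [Algebra F K]
variable (L : Type) [Field L] [Algebra F L] [Algebra K L] [IsScalarTower F K L]

/-- The Galois group acts on the integral units `U_L`. -/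
@[reducible] noncomputable def intUnitsAction :
    MulDistribMulAction (L ≃ₐ[K] L) (intUnits A F L) where
  smul g x := ⟨g • (x : Lˣ), smul_mem_intUnits g x.2⟩
  one_smul x := Subtype.ext (one_smul _ _)
  mul_smul g h x := Subtype.ext (mul_smul _ _ _)
  smul_mul g x y := Subtype.ext (smul_mul' _ _ _)
  smul_one g := Subtype.ext (smul_one _)

end T1b

/-- **(T1b)** `H²(Gal(L/K), U_L) = 0` for `L / K` unramified, from the cyclic pieces
UR1, A4b, A4c and UR4. -/
theorem unramUnitsH2_of (hUR1 : UnramCyclicStatement)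
    (hA4b : CycCocycleCoboundaryIffStatement) (hA4c : CycCocycleSurjStatement)
    (hUR4 : UnramNormUnitsStatement) : UnramUnitsH2Statement := by
  intro A F _ _ _ _ _ _ _ _ _ K _ _ _ L _ _ _ _ _ _ hur c hc hcU
  haveI : IsCyclic (L ≃ₐ[K] L) := hUR1 A F K L hur
  obtain ⟨σ, hσ⟩ := IsCyclic.exists_generator (α := L ≃ₐ[K] L)
  letI : MulDistribMulAction (L ≃ₐ[K] L) (intUnits A F L) := intUnitsAction A F K L
  have hsmul : ∀ (g : L ≃ₐ[K] L) (x : intUnits A F L), ((g • x : intUnits A F L) : Lˣ) = g • (x : Lˣ) :=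
    fun _ _ => rfl
  -- the cocycle with values in `U_L`
  let c' : (L ≃ₐ[K] L) × (L ≃ₐ[K] L) → intUnits A F L := fun p => ⟨c p, hcU p⟩
  have hc' : IsMulCocycle₂ c' := by
    intro g h j
    apply Subtype.ext
    simp only [Subgroup.coe_mul, hsmul]
    exact hc g h j
  obtain ⟨x, hσx, b, hb⟩ := hA4c (L ≃ₐ[K] L) (intUnits A F L) σ hσ c' hc'
  -- `x` is fixed by the whole group
  have hfix : ∀ g : L ≃ₐ[K] L, g • x = x := by
    intro g
    obtain ⟨k, rfl⟩ := Subgroup.mem_zpowers_iff.1 (hσ g)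
    have hstab : σ ∈ MulAction.stabilizer (L ≃ₐ[K] L) x := hσx
    exact (MulAction.stabilizer (L ≃ₐ[K] L) x).zpow_mem hstab k
  -- hence `x` comes from `K`
  have hxK : ((x : Lˣ) : L) ∈ Set.range (algebraMap K L) := by
    rw [IsGalois.mem_range_algebraMap_iff_fixed]
    intro g
    have := congrArg (fun u : intUnits A F L => ((u : Lˣ) : L)) (hfix g)
    exact this
  obtain ⟨y, hy⟩ := hxK
  have hy0 : y ≠ 0 := by
    rintro rfl
    rw [map_zero] at hy
    exact (x : Lˣ).ne_zero hy.symm
  let yu : Kˣ := Units.mk0 y hy0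
  have hyu : unitsIncl L K yu = (x : Lˣ) := Units.ext hy
  have hyuU : yu ∈ intUnits A F K := by
    refine ⟨isInt_of_isInt_algebraMap (L := L) ?_, isInt_of_isInt_algebraMap (L := L) ?_⟩
    · change IsInt A F L (algebraMap K L y)
      rw [hy]; exact x.2.1
    · have : algebraMap K L ((yu⁻¹ : Kˣ) : K) = (((x : Lˣ)⁻¹ : Lˣ) : L) := by
        rw [← hyu]; rfl
      rw [this]; exact x.2.2
  obtain ⟨w, hw, hNw⟩ := hUR4 A F K L hur yu hyuU
  -- the norm is the product over the Galois group
  have hprod : ∏ g : L ≃ₐ[K] L, g • (⟨w, hw⟩ : intUnits A F L) = x := by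
    apply Subtype.ext
    apply Units.ext
    have h1 : (((∏ g : L ≃ₐ[K] L, g • (⟨w, hw⟩ : intUnits A F L) : intUnits A F L) : Lˣ) : L)
        = ∏ g : L ≃ₐ[K] L, g (w : L) := by
      rw [Subgroup.val_finsetProd, Units.coe_prod]
      rfl
    rw [h1, ← Algebra.norm_eq_prod_automorphisms K (w : L), ← hy]
    have := congrArg (fun u : Kˣ => (u : K)) hNw
    simp only [normUnits_coe] at this
    rw [this]
    rfl
  obtain ⟨b', hb'⟩ := ((hA4b (L ≃ₐ[K] L) (intUnits A F L) σ hσ x hσx).2 ⟨⟨w, hw⟩, hprod⟩)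
  refine ⟨fun g => ((b g * b' g : intUnits A F L) : Lˣ), fun g => (b g * b' g).2, fun g h => ?_⟩
  have e1 := congrArg (fun u : intUnits A F L => (u : Lˣ)) (hb g h)
  have e2 := congrArg (fun u : intUnits A F L => (u : Lˣ)) (hb' g h)
  simp only [Subgroup.coe_mul, Subgroup.coe_div, hsmul] at e1 e2
  have e3 : c (g, h) = ((c' (g, h) : intUnits A F L) : Lˣ) := rfl
  rw [e3]
  have e4 : ((c' (g, h) : intUnits A F L) : Lˣ)
      = (g • (b h : Lˣ) / (b (g * h) : Lˣ) * (b g : Lˣ)) *
        (g • (b' h : Lˣ) / (b' (g * h) : Lˣ) * (b' g : Lˣ)) := by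
    rw [e1, e2, div_mul_cancel]
  rw [e4]
  simp only [Subgroup.coe_mul, smul_mul', div_eq_mul_inv, mul_inv]
  ac_rfl

end Fermat.Agent.S55.Local.H415

end
-- ===== PACK-END S55/Local/H415/T1.lean

-- ===== PACK-BEGIN S55/Local/H543/UR5.lean
section




/-!
# S55, layer L, piece UR5 (helper543): `ExistsUnramExtStatement`

For `L / K` finite Galois and `n ≥ 1` the cyclotomic extension `N = L(ζ_m)`, `m = q_L ^ n - 1`,
is Galois over `K`, and unramified of degree `n` over `L`.
-/

set_option autoImplicit false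
set_option linter.unusedSectionVars false
set_option linter.unusedVariables false
set_option linter.style.haveILetI false

namespace Fermat.Agent.S55.Local.H543

open IsLocalRing Polynomial

section Aux

variable (A F : Type) [CommRing A] [IsDomain A] [IsDiscreteValuationRing A]
  [IsAdicComplete (IsLocalRing.maximalIdeal A) A] [Finite (IsLocalRing.ResidueField A)]
  [Field F] [CharZero F] [Algebra A F] [IsFractionRing A F]
  (L : Type) [Field L] [Algebra F L] [FiniteDimensional F L]
  [Algebra A L] [IsScalarTower A F L]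

/-- The residue cardinality of the integers of `L`. -/
noncomputable def qL : ℕ :=
  haveI := isLocalRing_integralClosure A F L
  qq (integralClosure A L)

/-- `m = q_L ^ n - 1`. -/
noncomputable def mL (n : ℕ) : ℕ := qL A F L ^ n - 1

theorem mL_pos (n : ℕ) (hn : 0 < n) : 0 < mL A F L n := by
  haveI := isLocalRing_integralClosure A F L
  haveI := finite_residueField_integralClosure A F L
  exact mm_pos (integralClosure A L) n hn

/-- Elements of the ring of integers of `N` over `integralClosure A L` are integral over `A`. -/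
theorem isIntegralElem_of_mem (N : Type) [Field N] [Algebra L N]
    (x : N) (hx : ((algebraMap L N).comp (algebraMap (integralClosure A L) L)).IsIntegralElem x) :
    ((algebraMap L N).comp (algebraMap A L)).IsIntegralElem x := by
  letI : Algebra A N := ((algebraMap L N).comp (algebraMap A L)).toAlgebra
  haveI : IsScalarTower A L N := IsScalarTower.of_algebraMap_eq (fun _ => rfl)
  have h1 : IsIntegral (integralClosure A L) x := hx
  have h2 : IsIntegral A x := isIntegral_trans x h1
  exact h2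

theorem cyclo_unram (n : ℕ) (hn : 0 < n) (N : Type) [Field N] [Algebra L N]
    [IsCyclotomicExtension {mL A F L n} L N] :
    Module.finrank L N = n ∧
    ∀ x : N, x ≠ 0 → ∃ y : L, y ≠ 0 ∧
      ((algebraMap L N).comp (algebraMap A L)).IsIntegralElem (x * (algebraMap L N y)⁻¹) ∧
      ((algebraMap L N).comp (algebraMap A L)).IsIntegralElem (x⁻¹ * algebraMap L N y) := by
  haveI : CharZero L := charZero_of_injective_algebraMap (algebraMap F L).injective
  haveI hRloc : IsLocalRing (integralClosure A L) := isLocalRing_integralClosure A F L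
  haveI : IsDiscreteValuationRing (integralClosure A L) :=
    isDiscreteValuationRing_integralClosure A F L
  haveI : IsAdicComplete (maximalIdeal (integralClosure A L)) (integralClosure A L) :=
    isAdicComplete_integralClosure A F L
  haveI : Finite (ResidueField (integralClosure A L)) :=
    finite_residueField_integralClosure A F L
  haveI : IsFractionRing (integralClosure A L) L := isFractionRing_integralClosure A F L
  have hm : 0 < mL A F L n := mL_pos A F L n hn
  haveI : NeZero (mL A F L n) := ⟨hm.ne'⟩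
  haveI : FiniteDimensional L N := IsCyclotomicExtension.finiteDimensional {mL A F L n} L N
  haveI hSloc : IsLocalRing (integralClosure (integralClosure A L) N) :=
    isLocalRing_integralClosure (integralClosure A L) L N
  haveI : IsDiscreteValuationRing (integralClosure (integralClosure A L) N) :=
    isDiscreteValuationRing_integralClosure (integralClosure A L) L N
  haveI : Module.Finite (integralClosure A L) (integralClosure (integralClosure A L) N) :=
    finite_integralClosure (integralClosure A L) L N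
  haveI : IsLocalHom (algebraMap (integralClosure A L) (integralClosure (integralClosure A L) N)) :=
    isLocalHom_integralClosure (integralClosure A L) L N
  haveI : IsFractionRing (integralClosure (integralClosure A L) N) N :=
    isFractionRing_integralClosure (integralClosure A L) L N
  haveI : IsCyclotomicExtension {mm (integralClosure A L) n} L N := ‹_›
  obtain ⟨hdeg, hmap⟩ := cyclo_unram_core (integralClosure A L)
    (integralClosure (integralClosure A L) N) L N n hn
  refine ⟨hdeg, ?_⟩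
  obtain ⟨ϖ, hϖ⟩ := IsDiscreteValuationRing.exists_irreducible (integralClosure A L)
  have hπ : Irreducible (algebraMap (integralClosure A L)
      (integralClosure (integralClosure A L) N) ϖ) := by
    rw [IsDiscreteValuationRing.irreducible_iff_uniformizer, ← hmap,
      (IsDiscreteValuationRing.irreducible_iff_uniformizer ϖ).1 hϖ, Ideal.map_span,
      Set.image_singleton]
  intro x hx
  obtain ⟨a, b, hb, hab⟩ :=
    IsFractionRing.div_surjective (A := integralClosure (integralClosure A L) N) x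
  have hb0 : b ≠ 0 := nonZeroDivisors.ne_zero hb
  have ha0 : a ≠ 0 := by
    rintro rfl
    rw [map_zero, zero_div] at hab
    exact hx hab.symm
  obtain ⟨i, u, hu⟩ := IsDiscreteValuationRing.eq_unit_mul_pow_irreducible ha0 hπ
  obtain ⟨j, v, hv⟩ := IsDiscreteValuationRing.eq_unit_mul_pow_irreducible hb0 hπ
  have hp0 : algebraMap (integralClosure A L) L ϖ ≠ 0 := by
    intro h0
    exact hϖ.ne_zero ((IsFractionRing.injective (integralClosure A L) L)
      (by rw [h0, map_zero]))
  have hP : algebraMap (integralClosure (integralClosure A L) N) N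
      (algebraMap (integralClosure A L) (integralClosure (integralClosure A L) N) ϖ) =
      algebraMap L N (algebraMap (integralClosure A L) L ϖ) := by
    rw [← IsScalarTower.algebraMap_apply, ← IsScalarTower.algebraMap_apply]
  have hP0 : algebraMap L N (algebraMap (integralClosure A L) L ϖ) ≠ 0 := by
    rw [Ne, map_eq_zero]; exact hp0
  have hU0 : algebraMap (integralClosure (integralClosure A L) N) N (u : _) ≠ 0 := by
    rw [Ne, map_eq_zero_iff _ (IsFractionRing.injective _ N)]; exact u.ne_zero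
  have hV0 : algebraMap (integralClosure (integralClosure A L) N) N (v : _) ≠ 0 := by
    rw [Ne, map_eq_zero_iff _ (IsFractionRing.injective _ N)]; exact v.ne_zero
  have hx' : x = (algebraMap (integralClosure (integralClosure A L) N) N u *
      algebraMap L N (algebraMap (integralClosure A L) L ϖ) ^ i) /
      (algebraMap (integralClosure (integralClosure A L) N) N v *
      algebraMap L N (algebraMap (integralClosure A L) L ϖ) ^ j) := by
    rw [← hab, hu, hv, map_mul, map_mul, map_pow, map_pow, hP]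
  refine ⟨algebraMap (integralClosure A L) L ϖ ^ i / algebraMap (integralClosure A L) L ϖ ^ j,
    div_ne_zero (pow_ne_zero _ hp0) (pow_ne_zero _ hp0), ?_, ?_⟩
  · apply isIntegralElem_of_mem A L N
    have h1 : x * (algebraMap L N (algebraMap (integralClosure A L) L ϖ ^ i /
        algebraMap (integralClosure A L) L ϖ ^ j))⁻¹ =
        algebraMap (integralClosure (integralClosure A L) N) N ((u * v⁻¹ : _ˣ) : _) := by
      have hv1 : algebraMap (integralClosure (integralClosure A L) N) N ((v⁻¹ : _ˣ) : _) =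
          (algebraMap (integralClosure (integralClosure A L) N) N (v : _))⁻¹ := by
        exact eq_inv_of_mul_eq_one_left (by rw [← map_mul, Units.inv_mul, map_one])
      rw [Units.val_mul, map_mul, hv1, hx', map_div₀, map_pow, map_pow]
      field_simp
    rw [h1]
    exact (IsIntegralClosure.isIntegral (integralClosure A L) N _).algebraMap
  · apply isIntegralElem_of_mem A L N
    have h1 : x⁻¹ * algebraMap L N (algebraMap (integralClosure A L) L ϖ ^ i /
        algebraMap (integralClosure A L) L ϖ ^ j) =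
        algebraMap (integralClosure (integralClosure A L) N) N ((v * u⁻¹ : _ˣ) : _) := by
      have hu1 : algebraMap (integralClosure (integralClosure A L) N) N ((u⁻¹ : _ˣ) : _) =
          (algebraMap (integralClosure (integralClosure A L) N) N (u : _))⁻¹ := by
        exact eq_inv_of_mul_eq_one_left (by rw [← map_mul, Units.inv_mul, map_one])
      rw [Units.val_mul, map_mul, hu1, hx', map_div₀, map_pow, map_pow]
      field_simp
    rw [h1]
    exact (IsIntegralClosure.isIntegral (integralClosure A L) N _).algebraMap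

end Aux

/-- **UR5**: existence of unramified extensions on top of a given Galois extension. -/
theorem existsUnramExt : ExistsUnramExtStatement := by
  intro A F _ _ _ _ _ _ _ _ _ K _ _ _ L _ _ _ _ _ _ n hn
  letI algAL : Algebra A L := (toL A F L).toAlgebra
  haveI : IsScalarTower A F L := IsScalarTower.of_algebraMap_eq (fun _ => rfl)
  haveI : FiniteDimensional F L := FiniteDimensional.trans F K L
  haveI : CharZero K := charZero_of_injective_algebraMap (algebraMap F K).injective
  haveI : CharZero L := charZero_of_injective_algebraMap (algebraMap F L).injective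
  have hm : 0 < mL A F L n := mL_pos A F L n hn
  haveI : NeZero (mL A F L n) := ⟨hm.ne'⟩
  haveI : NeZero ((mL A F L n : ℕ) : L) := ⟨Nat.cast_ne_zero.2 hm.ne'⟩
  haveI tFKN : IsScalarTower F K (CyclotomicField (mL A F L n) L) :=
    IsScalarTower.of_algebraMap_eq (fun x => by
      rw [IsScalarTower.algebraMap_apply F L (CyclotomicField (mL A F L n) L),
        IsScalarTower.algebraMap_apply K L (CyclotomicField (mL A F L n) L),
        ← IsScalarTower.algebraMap_apply F K L])
  haveI : IsCyclotomicExtension {mL A F L n} L (CyclotomicField (mL A F L n) L) :=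
    CyclotomicField.isCyclotomicExtension _ _
  haveI : FiniteDimensional L (CyclotomicField (mL A F L n) L) :=
    IsCyclotomicExtension.finiteDimensional {mL A F L n} L _
  haveI fdKN : FiniteDimensional K (CyclotomicField (mL A F L n) L) :=
    FiniteDimensional.trans K L _
  haveI galKN : IsGalois K (CyclotomicField (mL A F L n) L) := by
    obtain ⟨p, hpsep, hp⟩ := IsGalois.is_separable_splitting_field K L
    haveI := hp
    have hp0 : p ≠ 0 := hpsep.ne_zero
    have hX0 : (X ^ (mL A F L n) - 1 : K[X]) ≠ 0 := X_pow_sub_C_ne_zero hm (1 : K)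
    haveI hsp : Polynomial.IsSplittingField L (CyclotomicField (mL A F L n) L)
        ((X ^ (mL A F L n) - 1 : K[X]).map (algebraMap K L)) := by
      have h1 : (X ^ (mL A F L n) - 1 : K[X]).map (algebraMap K L) = X ^ (mL A F L n) - 1 := by
        simp
      rw [h1]
      exact IsCyclotomicExtension.isSplittingField_X_pow_sub_one (mL A F L n) L _
    haveI : Polynomial.IsSplittingField K (CyclotomicField (mL A F L n) L)
        (p * (X ^ (mL A F L n) - 1)) :=
      Polynomial.IsSplittingField.mul (K := L) _ p (X ^ (mL A F L n) - 1) hp0 hX0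
    haveI : Normal K (CyclotomicField (mL A F L n) L) :=
      Normal.of_isSplittingField (p * (X ^ (mL A F L n) - 1))
    exact IsGalois.mk
  obtain ⟨hdeg, hunr⟩ := cyclo_unram A F L n hn (CyclotomicField (mL A F L n) L)
  refine ⟨CyclotomicField (mL A F L n) L, inferInstance, inferInstance, inferInstance,
    inferInstance, tFKN, inferInstance, inferInstance, fdKN, galKN, ?_, hdeg⟩
  have hcomp : toL A F (CyclotomicField (mL A F L n) L) =
      (algebraMap L (CyclotomicField (mL A F L n) L)).comp (algebraMap A L) := by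
    ext a
    show algebraMap F (CyclotomicField (mL A F L n) L) (algebraMap A F a) =
      algebraMap L (CyclotomicField (mL A F L n) L) (algebraMap F L (algebraMap A F a))
    rw [← IsScalarTower.algebraMap_apply F L (CyclotomicField (mL A F L n) L)]
  intro x
  obtain ⟨y, hy0, h1, h2⟩ := hunr (x : CyclotomicField (mL A F L n) L) x.ne_zero
  refine ⟨Units.mk0 y hy0, ?_⟩
  rw [mem_intUnits]
  constructor
  · have : ((x * (unitsIncl (CyclotomicField (mL A F L n) L) L (Units.mk0 y hy0))⁻¹ :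
        (CyclotomicField (mL A F L n) L)ˣ) : CyclotomicField (mL A F L n) L) =
        (x : CyclotomicField (mL A F L n) L) *
          (algebraMap L (CyclotomicField (mL A F L n) L) y)⁻¹ := by
      simp
    rw [this]
    show (toL A F (CyclotomicField (mL A F L n) L)).IsIntegralElem _
    rw [hcomp]
    exact h1
  · have : (((x * (unitsIncl (CyclotomicField (mL A F L n) L) L (Units.mk0 y hy0))⁻¹)⁻¹ :
        (CyclotomicField (mL A F L n) L)ˣ) : CyclotomicField (mL A F L n) L) =
        (x : CyclotomicField (mL A F L n) L)⁻¹ *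
          (algebraMap L (CyclotomicField (mL A F L n) L) y) := by
      simp [mul_comm]
    rw [this]
    show (toL A F (CyclotomicField (mL A F L n) L)).IsIntegralElem _
    rw [hcomp]
    exact h2

end Fermat.Agent.S55.Local.H543

end
-- ===== PACK-END S55/Local/H543/UR5.lean

-- ===== PACK-BEGIN S55/G/Rec/Defs2.lean
section



/-!
# S55 / layer G / block REC : definitions, part 2 (cup classes, norms, local degree-valuation)

* `gcc U n χ a : gBr U`, `lcc q V n χ a : lBr q V` : the classes of the explicit cocycles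
  `(g, h) ↦ a ^ ε_χ(g, h)` (`H379.cupChar`), for a continuous character `χ` of `U` (resp. `V`)
  with values in `ℤ/n` and an invariant element `a`  (junk value `0` if `χ` is not
  continuous, `a` is not invariant or `n = 0`).
* `relNorm H b = ∏_{t ∈ G/H} t • b` : the norm from the fixed field of `H` (junk unless `b` is fixed
  by `H` and `H` has finite index).
* `vdeg q V a : ℤ` : `q ^ (-vdeg) = ‖a‖ ^ [G_{ℚ_q} : V]`, i.e. `vdeg = f_v · ord_v (a)`,
  `N(v) ^ ord_v(a) = q ^ vdeg`.
* `IsCycloChar m χ` : `χ` is trivial on the elements acting trivially on `μ_m`.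
-/

set_option autoImplicit false

noncomputable section

namespace Fermat.Agent.S55.G.Rec

open groupCohomology

local notation "Qb" => AlgebraicClosure ℚ
local notation "GQ" => (AlgebraicClosure ℚ ≃ₐ[ℚ] AlgebraicClosure ℚ)

/-! ## Characters -/

/-- The additive function `G → ℤ/n` underlying a character `χ : G →* Multiplicative (ZMod n)`. -/
def chiAdd {G : Type*} [Monoid G] {n : ℕ} (χ : G →* Multiplicative (ZMod n)) : G → ZMod n :=
  fun g => Multiplicative.toAdd (χ g)

lemma chiAdd_mul {G : Type*} [Monoid G] {n : ℕ} (χ : G →* Multiplicative (ZMod n)) (g h : G) :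
    chiAdd χ (g * h) = chiAdd χ g + chiAdd χ h := by
  simp [chiAdd]

lemma isCupChar_iff {G A : Type*} [Group G] [AddCommGroup A] {n : ℕ} (a : A)
    (χ : G →* Multiplicative (ZMod n)) (c : G × G → A) :
    IsCupChar a χ c ↔ c = H379.cupChar n (chiAdd χ) a := by
  constructor
  · intro h
    funext ⟨g, k⟩
    exact h g k
  · rintro rfl g k
    rfl

/-- A general norm: `∏_{t ∈ G/H} t • b` (product over coset representatives). -/
def relNorm {G M : Type*} [Group G] [CommGroup M] [MulDistribMulAction G M] (H : Subgroup G)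
    (b : M) : M :=
  ∏ᶠ t : G ⧸ H, (Quotient.out t : G) • b

/-! ## Global cup classes -/

section Global

/-- `a ∈ ℚ̄ˣ` lies in the fixed field of `U`. -/
def GFixed (U : Subgroup GQ) (a : Qbˣ) : Prop := ∀ u ∈ U, u • a = a

lemma toGMod_mem_invariants {U : Subgroup GQ} {a : Qbˣ} (ha : GFixed U a) :
    toGMod U a ∈ (gModOn U).ρ.invariants := by
  intro u
  show Additive.ofMul ((u : GQ) • a) = Additive.ofMul a
  rw [ha u u.2]

lemma cupChar_isLevelConstant₂ {G A : Type} [Group G] [AddCommGroup A]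
    (r : G →* GQ) {n : ℕ} (χ : G →* Multiplicative (ZMod n)) (hχ : IsLevelConstant₁ r χ) (a : A) :
    IsLevelConstant₂ r (H379.cupChar n (chiAdd χ) a) := by
  obtain ⟨F, hF, h⟩ := hχ
  refine ⟨F, hF, fun g g' s s' hs hs' => ?_⟩
  simp only [H379.cupChar_apply, chiAdd, h g s hs, h g' s' hs']

lemma gcupChar_mem (U : Subgroup GQ) (n : ℕ) (χ : ↥U →* Multiplicative (ZMod n)) (a : Qbˣ)
    (h : n ≠ 0 ∧ IsLevelConstant₁ U.subtype χ ∧ GFixed U a) :
    H379.cupChar n (chiAdd χ) (toGMod U a) ∈ levelCocycles₂ U.subtype (gModOn U) := by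
  haveI : NeZero n := ⟨h.1⟩
  exact ⟨H379.cupChar_mem_cocycles₂ (gModOn U) (chiAdd χ) (chiAdd_mul χ)
    (toGMod_mem_invariants h.2.2), cupChar_isLevelConstant₂ _ χ h.2.1 _⟩

open Classical in
/-- The global cup class `a ∪ δχ ∈ Br(K)`, `K = ℚ̄^U`. -/
def gcc (U : Subgroup GQ) (n : ℕ) (χ : ↥U →* Multiplicative (ZMod n)) (a : Qbˣ) : gBr U :=
  if h : n ≠ 0 ∧ IsLevelConstant₁ U.subtype χ ∧ GFixed U a then
    continuousH2π U.subtype (gModOn U) ⟨_, gcupChar_mem U n χ a h⟩
  else 0

lemma gcc_eq (U : Subgroup GQ) (n : ℕ) (χ : ↥U →* Multiplicative (ZMod n)) (a : Qbˣ)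
    (h : n ≠ 0 ∧ IsLevelConstant₁ U.subtype χ ∧ GFixed U a) :
    gcc U n χ a = continuousH2π U.subtype (gModOn U) ⟨_, gcupChar_mem U n χ a h⟩ := by
  unfold gcc
  rw [dif_pos h]

/-- `χ` is cyclotomic mod `m`: trivial on the elements of `U` acting trivially on `μ_m`. -/
def IsCycloChar (U : Subgroup GQ) (m : ℕ) {n : ℕ} (χ : ↥U →* Multiplicative (ZMod n)) : Prop :=
  ∀ σ : ↥U, (∀ ζ : Qb, ζ ^ m = 1 → (σ : GQ) ζ = ζ) → χ σ = 1

end Global

/-! ## Local cup classes -/

section Local

variable (q : ℕ) [Fact q.Prime]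

local notation "Gq" => (PadicAlgCl q ≃ₐ[ℚ_[q]] PadicAlgCl q)

/-- `a ∈ ℚ̄_qˣ` lies in the fixed field of `V`. -/
def LFixed (V : Subgroup Gq) (a : (PadicAlgCl q)ˣ) : Prop := ∀ τ ∈ V, τ • a = a

variable {q} in
lemma toLMod_mem_invariants {V : Subgroup Gq} {a : (PadicAlgCl q)ˣ} (ha : LFixed q V a) :
    toLMod q V a ∈ (lModOn q V).ρ.invariants := by
  intro τ
  show Additive.ofMul ((τ : Gq) • a) = Additive.ofMul a
  rw [ha τ τ.2]

lemma lcupChar_mem (V : Subgroup Gq) (n : ℕ) (χ : ↥V →* Multiplicative (ZMod n))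
    (a : (PadicAlgCl q)ˣ) (h : n ≠ 0 ∧ IsLevelConstant₁ (lHom q V) χ ∧ LFixed q V a) :
    H379.cupChar n (chiAdd χ) (toLMod q V a) ∈ levelCocycles₂ (lHom q V) (lModOn q V) := by
  haveI : NeZero n := ⟨h.1⟩
  exact ⟨H379.cupChar_mem_cocycles₂ (lModOn q V) (chiAdd χ) (chiAdd_mul χ)
    (toLMod_mem_invariants h.2.2), cupChar_isLevelConstant₂ _ χ h.2.1 _⟩

open Classical in
/-- The local cup class `a ∪ δχ ∈ Br(K_v)`, `K_v = ℚ̄_q^V`. -/
def lcc (V : Subgroup Gq) (n : ℕ) (χ : ↥V →* Multiplicative (ZMod n)) (a : (PadicAlgCl q)ˣ) :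
    lBr q V :=
  if h : n ≠ 0 ∧ IsLevelConstant₁ (lHom q V) χ ∧ LFixed q V a then
    continuousH2π (lHom q V) (lModOn q V) ⟨_, lcupChar_mem q V n χ a h⟩
  else 0

lemma lcc_eq (V : Subgroup Gq) (n : ℕ) (χ : ↥V →* Multiplicative (ZMod n)) (a : (PadicAlgCl q)ˣ)
    (h : n ≠ 0 ∧ IsLevelConstant₁ (lHom q V) χ ∧ LFixed q V a) :
    lcc q V n χ a = continuousH2π (lHom q V) (lModOn q V) ⟨_, lcupChar_mem q V n χ a h⟩ := by
  unfold lcc
  rw [dif_pos h]

/-- The degree-valuation of `a` at the place with group `V`: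
`vdeg = - log_q (‖a‖ ^ [G_{ℚ_q} : V]) = f_v · ord_v (a)`, so that `N(v) ^ ord_v (a) = q ^ vdeg`. -/
def vdeg (V : Subgroup Gq) (a : (PadicAlgCl q)ˣ) : ℤ :=
  - Int.log q (‖(a : PadicAlgCl q)‖ ^ V.index)

end Local

end Fermat.Agent.S55.G.Rec

end
end
-- ===== PACK-END S55/G/Rec/Defs2.lean

-- ===== PACK-BEGIN S55/Bridge/H175/LocalLevel.lean
section




set_option autoImplicit false
set_option linter.style.haveILetI false

/-!
# B11, part 1: the local level `F_q = ℚ_q · ι(F)` of a global level `F ⊆ ℚ̄`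

For an intermediate field `F` of `ℚ̄/ℚ` and a prime `q`, `localLevel q F` is the subfield of
`ℚ̄_q = PadicAlgCl q` generated over `ℚ_q` by the image of `F` under the Prelude embedding
`padicEmbedding q : ℚ̄ → ℚ̄_q`.

* `localLevel_adjoin` : `(ℚ(s))_q = ℚ_q(ι s)`;
* `finiteDimensional_localLevel` : `F/ℚ` finite ⇒ `F_q/ℚ_q` finite;
* `normal_localLevel`, `isGalois_localLevel` : `F/ℚ` normal ⇒ `F_q/ℚ_q` normal (Galois);
* `comap_fixingSubgroup` : `(localGaloisToGlobal q)⁻¹ (G_F) = Gal(ℚ̄_q / F_q)`.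
-/

open scoped NNReal Pointwise

namespace Fermat.Agent.S55.Bridge.H175

variable (q : ℕ) [Fact q.Prime]

/-- The local level `F_q := ℚ_q · ι(F) ⊆ ℚ̄_q` attached to a global level `F ⊆ ℚ̄`. -/
noncomputable def localLevel (F : IntermediateField ℚ (AlgebraicClosure ℚ)) :
    IntermediateField ℚ_[q] (PadicAlgCl q) :=
  IntermediateField.adjoin ℚ_[q] ((padicEmbedding q) '' (F : Set (AlgebraicClosure ℚ)))

variable {q}

theorem padicEmbedding_mem_localLevel {F : IntermediateField ℚ (AlgebraicClosure ℚ)}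
    {x : AlgebraicClosure ℚ} (hx : x ∈ F) : padicEmbedding q x ∈ localLevel q F :=
  IntermediateField.subset_adjoin _ _ ⟨x, hx, rfl⟩

theorem localLevel_mono {F F' : IntermediateField ℚ (AlgebraicClosure ℚ)} (h : F ≤ F') :
    localLevel q F ≤ localLevel q F' :=
  IntermediateField.adjoin.mono _ _ _ (Set.image_mono h)

variable (q)

/-- `ι⁻¹` of an intermediate field of `ℚ̄_q/ℚ_q` is an intermediate field of `ℚ̄/ℚ`. -/
noncomputable def globalTrace (E : IntermediateField ℚ_[q] (PadicAlgCl q)) :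
    IntermediateField ℚ (AlgebraicClosure ℚ) where
  carrier := {x | padicEmbedding q x ∈ E}
  mul_mem' := fun {a b} ha hb => by
    change padicEmbedding q (a * b) ∈ E
    rw [map_mul]
    exact E.mul_mem ha hb
  one_mem' := by
    change padicEmbedding q 1 ∈ E
    rw [map_one]
    exact E.one_mem
  add_mem' := fun {a b} ha hb => by
    change padicEmbedding q (a + b) ∈ E
    rw [map_add]
    exact E.add_mem ha hb
  zero_mem' := by
    change padicEmbedding q 0 ∈ E
    rw [map_zero]
    exact E.zero_mem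
  algebraMap_mem' := fun r => by
    change padicEmbedding q (algebraMap ℚ (AlgebraicClosure ℚ) r) ∈ E
    rw [AlgHom.commutes]
    have : (algebraMap ℚ (PadicAlgCl q)) r = algebraMap ℚ_[q] (PadicAlgCl q) (r : ℚ_[q]) := by
      simp
    rw [this]
    exact E.algebraMap_mem _
  inv_mem' := fun x hx => by
    change padicEmbedding q x⁻¹ ∈ E
    rw [map_inv₀]
    exact E.inv_mem hx

variable {q}

theorem mem_globalTrace {E : IntermediateField ℚ_[q] (PadicAlgCl q)} {x : AlgebraicClosure ℚ} :
    x ∈ globalTrace q E ↔ padicEmbedding q x ∈ E := Iff.rfl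

theorem localLevel_le_iff {F : IntermediateField ℚ (AlgebraicClosure ℚ)}
    {E : IntermediateField ℚ_[q] (PadicAlgCl q)} :
    localLevel q F ≤ E ↔ F ≤ globalTrace q E := by
  unfold localLevel
  rw [IntermediateField.adjoin_le_iff]
  constructor
  · intro h x hx
    exact h ⟨x, hx, rfl⟩
  · rintro h _ ⟨x, hx, rfl⟩
    exact h hx

variable (q)

/-- `(ℚ(s))_q = ℚ_q(ι(s))`. -/
theorem localLevel_adjoin (s : Set (AlgebraicClosure ℚ)) :
    localLevel q (IntermediateField.adjoin ℚ s) =
      IntermediateField.adjoin ℚ_[q] ((padicEmbedding q) '' s) := by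
  apply le_antisymm
  · rw [localLevel_le_iff, IntermediateField.adjoin_le_iff]
    intro x hx
    exact IntermediateField.subset_adjoin _ _ ⟨x, hx, rfl⟩
  · exact IntermediateField.adjoin.mono _ _ _
      (Set.image_mono (IntermediateField.subset_adjoin ℚ s))

/-- A finite global level has a finite local level. -/
theorem finiteDimensional_localLevel (F : IntermediateField ℚ (AlgebraicClosure ℚ))
    [FiniteDimensional ℚ F] : FiniteDimensional ℚ_[q] (localLevel q F) := by
  obtain ⟨β, hβ⟩ := Field.exists_primitive_element ℚ F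
  have hF : F = IntermediateField.adjoin ℚ {(β : AlgebraicClosure ℚ)} := by
    have h1 : IntermediateField.lift (IntermediateField.adjoin ℚ {β})
        = IntermediateField.adjoin ℚ {(β : AlgebraicClosure ℚ)} := by
      rw [IntermediateField.lift_adjoin, Set.image_singleton]
    apply le_antisymm
    · intro y hy
      have hy' : (⟨y, hy⟩ : F) ∈ IntermediateField.adjoin ℚ {β} := by rw [hβ]; trivial
      rw [← h1]
      exact (IntermediateField.mem_lift (⟨y, hy⟩ : F)).2 hy'
    · rw [IntermediateField.adjoin_le_iff]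
      intro y hy
      rw [Set.mem_singleton_iff] at hy
      subst hy
      exact β.2
  rw [hF, localLevel_adjoin, Set.image_singleton]
  exact IntermediateField.adjoin.finiteDimensional (Algebra.IsIntegral.isIntegral _)

/-- `τ(ι x) = ι(σ_τ x)`, restated. -/
theorem algEquiv_padicEmbedding (τ : PadicAlgCl q ≃ₐ[ℚ_[q]] PadicAlgCl q)
    (x : AlgebraicClosure ℚ) :
    τ (padicEmbedding q x) = padicEmbedding q (localGaloisToGlobal q τ x) :=
  (padicEmbedding_localGaloisToGlobal q τ x).symm

/-- A normal global level is stable under `Gal(ℚ̄/ℚ)`. -/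
theorem apply_mem_of_normal (F : IntermediateField ℚ (AlgebraicClosure ℚ)) [hF : Normal ℚ F]
    (σ : AlgebraicClosure ℚ ≃ₐ[ℚ] AlgebraicClosure ℚ) {x : AlgebraicClosure ℚ} (hx : x ∈ F) :
    σ x ∈ F := by
  have : Algebra.IsAlgebraic ℚ (AlgebraicClosure ℚ) := AlgebraicClosure.isAlgebraic ℚ
  have : IsAlgClosure ℚ (AlgebraicClosure ℚ) := ⟨inferInstance, inferInstance⟩
  have : Normal ℚ (AlgebraicClosure ℚ) := IsAlgClosure.normal ℚ (AlgebraicClosure ℚ)
  have h := (IntermediateField.normal_iff_forall_map_le' (K := F)).mp hF σ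
  exact h ⟨x, hx, rfl⟩

theorem normal_padicAlgCl : Normal ℚ_[q] (PadicAlgCl q) := by
  haveI : IsAlgClosure ℚ_[q] (PadicAlgCl q) := inferInstance
  exact IsAlgClosure.normal ℚ_[q] (PadicAlgCl q)

/-- The local level of a normal global level is normal over `ℚ_q`. -/
theorem normal_localLevel (F : IntermediateField ℚ (AlgebraicClosure ℚ)) [Normal ℚ F] :
    Normal ℚ_[q] (localLevel q F) := by
  haveI := normal_padicAlgCl q
  rw [IntermediateField.normal_iff_forall_map_le']
  intro τ
  unfold localLevel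
  rw [IntermediateField.adjoin_map, IntermediateField.adjoin_le_iff]
  rintro _ ⟨_, ⟨x, hx, rfl⟩, rfl⟩
  have h1 : ((τ : PadicAlgCl q ≃ₐ[ℚ_[q]] PadicAlgCl q) : PadicAlgCl q →ₐ[ℚ_[q]] PadicAlgCl q)
      (padicEmbedding q x) = padicEmbedding q (localGaloisToGlobal q τ x) :=
    algEquiv_padicEmbedding q τ x
  rw [h1]
  exact IntermediateField.subset_adjoin _ _ ⟨_, apply_mem_of_normal F _ hx, rfl⟩

/-- The local level of a normal global level is Galois over `ℚ_q`. -/
theorem isGalois_localLevel (F : IntermediateField ℚ (AlgebraicClosure ℚ)) [Normal ℚ F] :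
    IsGalois ℚ_[q] (localLevel q F) := by
  haveI := normal_localLevel q F
  exact isGalois_iff.mpr ⟨inferInstance, inferInstance⟩

/-- `τ ∈ Gal(ℚ̄_q/ℚ_q)` fixes `F_q` iff its restriction to `ℚ̄` fixes `F`. -/
theorem mem_fixingSubgroup_localLevel_iff (F : IntermediateField ℚ (AlgebraicClosure ℚ))
    (τ : PadicAlgCl q ≃ₐ[ℚ_[q]] PadicAlgCl q) :
    τ ∈ (localLevel q F).fixingSubgroup ↔ localGaloisToGlobal q τ ∈ F.fixingSubgroup := by
  rw [IntermediateField.mem_fixingSubgroup_iff, IntermediateField.mem_fixingSubgroup_iff]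
  constructor
  · intro h x hx
    apply Fermat.Agent.S55.H175.padicEmbedding_injective q
    rw [padicEmbedding_localGaloisToGlobal]
    exact h _ (padicEmbedding_mem_localLevel hx)
  · intro h
    have hle : localLevel q F ≤ IntermediateField.fixedField (Subgroup.zpowers τ) := by
      unfold localLevel
      rw [IntermediateField.adjoin_le_iff]
      rintro _ ⟨x, hx, rfl⟩
      rintro ⟨σ, hσ⟩
      obtain ⟨n, rfl⟩ := Subgroup.mem_zpowers_iff.1 hσ
      show (τ ^ n) (padicEmbedding q x) = padicEmbedding q x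
      have hfix : τ ∈ MulAction.stabilizer (PadicAlgCl q ≃ₐ[ℚ_[q]] PadicAlgCl q)
          (padicEmbedding q x) := by
        rw [MulAction.mem_stabilizer_iff]
        show τ (padicEmbedding q x) = padicEmbedding q x
        rw [algEquiv_padicEmbedding, h x hx]
      exact (Subgroup.zpow_mem _ hfix n : _)
    intro y hy
    exact hle hy ⟨τ, Subgroup.mem_zpowers τ⟩

/-- **`(localGaloisToGlobal q)⁻¹(G_F) = Gal(ℚ̄_q/F_q)`.** -/
theorem comap_fixingSubgroup (F : IntermediateField ℚ (AlgebraicClosure ℚ)) :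
    F.fixingSubgroup.comap (localGaloisToGlobal q) = (localLevel q F).fixingSubgroup := by
  ext τ
  rw [Subgroup.mem_comap, mem_fixingSubgroup_localLevel_iff]

end Fermat.Agent.S55.Bridge.H175

end
-- ===== PACK-END S55/Bridge/H175/LocalLevel.lean

-- ===== PACK-BEGIN S55/E1/SpecAlg.lean
section
/-
S55 engine E1 — block ALG, part 1: frozen Spec statements ALG1, ALG2, ALG4, ALG5.
Chief architect: helper55.  Blueprint: coord/S55-E1.md §3.  NO sorry: specs are `def … : Prop`.
Producers prove `theorem algN : ALGnSpec`; consumers take hypotheses.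
-/


set_option autoImplicit false

open CategoryTheory CategoryTheory.Limits

namespace Fermat.Agent.S55.E1

/-- **ALG1.** For finite `G` and finite `N`: `R` is a lattice (f.g. free over `ℤ`) and the
connecting map `δ : H¹(G, N) → H²(G, R)` is bijective (`Hⁿ(G, ℤ[G]^{(N)}) = 0` for `n ≥ 1`). -/
def ALG1Spec : Prop :=
  ∀ (G : Type) [Group G] [Finite G] (N : Rep.{0} ℤ G), Finite N.V →
    @Module.Free ℤ (stdR N).V _ _ (stdR N).hV2 ∧ @Module.Finite ℤ (stdR N).V _ _ (stdR N).hV2 ∧
    Function.Bijective (stdδ N)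

/-- **ALG2.** If `p N = 0` then `p • f` extends to `P` for every `f ∈ Hom_G(R, X)`
(extension: `x ↦ f (p x)`).  No finiteness needed. -/
def ALG2Spec : Prop :=
  ∀ (p : ℕ) (G : Type) [Group G] (N X : Rep.{0} ℤ G), (∀ n : N.V, p • n = 0) →
    ∀ f : homA N X, Extends (p • f)

/-- The hypothesis of the norm-kill lemma: `N_H(C) ⊆ p • C^H`. -/
def NormInP (p : ℕ) {G : Type} [Group G] (H : Subgroup G) [Fintype H] (C : Rep.{0} ℤ G) : Prop :=
  ∀ c : C.V, ∃ c₀ : C.V, (∀ h ∈ H, C.ρ h c₀ = c₀) ∧ ∑ h : H, C.ρ (h : G) c = p • c₀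

/-- **ALG4 (norm-kill).** `H ⊴ G` acts trivially on `N`, `p N = 0`, `N_H(C) ⊆ p • C^H`.
Then for every additive `ψ : R → C` the norm `N_G ψ = ∑_σ σ ψ σ⁻¹` extends to a `G`-map `P → C`. -/
def ALG4Spec : Prop :=
  ∀ (p : ℕ), p.Prime → ∀ (G : Type) [Group G] [Fintype G] (H : Subgroup G) [H.Normal] [Fintype H]
    (N C : Rep.{0} ℤ G), Finite N.V → (∀ n : N.V, p • n = 0) →
    (∀ h ∈ H, ∀ n : N.V, N.ρ h n = n) → NormInP p H C →
    ∀ ψ : (stdR N).V →+ C.V, ∃ k : homB N C,
      ∀ r : (stdR N).V, k.hom ((stdι N).hom r) = T.normAdd ψ r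

/-- **ALG5 (α¹).** For a class module `(C, γ)` at `p` and T6p:
(a) `⟨res h, x⟩ = 0`; (b) every additive `χ : H¹(G, N) → H²(G, C)` is `⟨f, ·⟩`;
(c) under the norm-kill hypotheses, `⟨f, ·⟩ = 0` implies that `f` extends to `P`.
Hence `Hom_G(R, C) / res Hom_G(P, C) ≅ Hom(H¹(G, N), H²(G, C))`. -/
def ALG5Spec : Prop :=
  ∀ (p : ℕ), p.Prime → ∀ (G : Type) [Group G] [Fintype G] (N C : Rep.{0} ℤ G)
    (γ : groupCohomology C 2), Finite N.V → (∀ n : N.V, p • n = 0) →
    IsClassModuleAt p C γ → TateNakayamaAtSpec →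
    (∀ (h : homB N C) (x : groupCohomology N 1), pair (resBA N C h) x = 0) ∧
    (∀ χ : groupCohomology N 1 →+ groupCohomology C 2,
      ∃ f : homA N C, ∀ x, pair f x = χ x) ∧
    (∀ (H : Subgroup G) [H.Normal] [Fintype H], (∀ h ∈ H, ∀ n : N.V, N.ρ h n = n) →
      NormInP p H C → ∀ f : homA N C, (∀ x, pair f x = 0) → Extends f)

/-- ALG5 from ALG1, ALG2, ALG4 (assembly leaf). -/
def ALG5AssemblySpec : Prop := ALG1Spec → ALG2Spec → ALG4Spec → ALG5Spec

end Fermat.Agent.S55.E1

end
-- ===== PACK-END S55/E1/SpecAlg.lean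

-- ===== PACK-BEGIN S55/LocalSpec/H964/ClassAt.lean
section





/-!
# S55, `Tow.LocalSpec` (helper964): a class module is a class module at every `p`

`isClassModuleAt_of_isClassModule : T.IsClassModule C γ → E1.IsClassModuleAt p C γ`
(the `p`-group hypothesis of `IsClassModuleAt` is not even used).
-/

set_option autoImplicit false
set_option linter.style.haveILetI false

open CategoryTheory groupCohomology

namespace Fermat.Agent.S55.LocalSpec.H964

open Fermat.Agent.S55

/-- Abstract form: an additive group generated by `g`, with `n • g = 0` and `c • g = 0 → n ∣ c`,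
has cardinality `n`, and every element is a natural multiple of `g`. -/
theorem card_eq_of_generator {M : Type*} [AddCommGroup M] (g : M) (n : ℕ) (hn : 0 < n)
    (hgen : ∀ x : M, ∃ c : ℤ, x = c • g) (hann : ∀ c : ℤ, c • g = 0 → (n : ℤ) ∣ c)
    (hkill : (n : ℤ) • g = 0) :
    Nat.card M = n ∧ ∀ x : M, ∃ m : ℕ, x = m • g := by
  have hkill' : n • g = 0 := by rwa [natCast_zsmul] at hkill
  have h1 : addOrderOf g ∣ n := addOrderOf_dvd_of_nsmul_eq_zero hkill'
  have h2 : n ∣ addOrderOf g := by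
    have h0 : ((addOrderOf g : ℕ) : ℤ) • g = 0 := by
      rw [natCast_zsmul]; exact addOrderOf_nsmul_eq_zero g
    exact Int.natCast_dvd_natCast.1 (hann _ h0)
  have hord : addOrderOf g = n := Nat.dvd_antisymm h1 h2
  have htop : AddSubgroup.zmultiples g = ⊤ := by
    rw [eq_top_iff]
    intro x _
    obtain ⟨c, hc⟩ := hgen x
    exact AddSubgroup.mem_zmultiples_iff.2 ⟨c, hc.symm⟩
  constructor
  · rw [← AddSubgroup.card_top (G := M), ← htop, Nat.card_zmultiples, hord]
  · intro x
    obtain ⟨c, hc⟩ := hgen x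
    refine ⟨(c % n).toNat, ?_⟩
    have hnz : (n : ℤ) ≠ 0 := by exact_mod_cast hn.ne'
    have hpos : 0 ≤ c % (n : ℤ) := Int.emod_nonneg c hnz
    have e1 : (((c % (n : ℤ)).toNat : ℕ) : ℤ) = c % n := Int.toNat_of_nonneg hpos
    have e2 : c = c % n + n * (c / n) := (Int.emod_add_mul_ediv c n).symm
    rw [hc, ← natCast_zsmul, e1]
    conv_lhs => rw [e2]
    rw [add_zsmul, mul_comm, mul_zsmul, hkill, zsmul_zero, add_zero]

/-- A class module (in the sense of layer T) is a class module at `p` (in the sense of the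
engine E1). -/
theorem isClassModuleAt_of_isClassModule {G : Type} [Group G] [Finite G] (p : ℕ)
    (C : Rep.{0} ℤ G) (γ : groupCohomology C 2) (h : T.IsClassModule C γ) :
    E1.IsClassModuleAt p C γ := by
  intro H _
  obtain ⟨h1, hgen, hann, hkill⟩ := h H
  have hnpos : 0 < Nat.card H := Nat.card_pos
  have key := card_eq_of_generator ((T.resMap C H 2).hom γ) (Nat.card H) hnpos
    (fun x => by
      obtain ⟨c, hc⟩ := hgen x
      exact ⟨c, by rw [hc, T.modSMul_eq_zsmul]⟩)
    (fun c hc => by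
      have hc' := hc
      rw [← T.modSMul_eq_zsmul (inferInstance : Module ℤ
        (groupCohomology (T.resSub C H) 2))] at hc'
      obtain ⟨d, hd⟩ := hann c hc'
      exact ⟨d, hd⟩)
    (by
      have := hkill
      rw [T.modSMul_eq_zsmul] at this
      exact this)
  exact ⟨h1, key.1, key.2⟩

end Fermat.Agent.S55.LocalSpec.H964

end
-- ===== PACK-END S55/LocalSpec/H964/ClassAt.lean

-- ===== PACK-BEGIN S53/H416/TangentBridge.lean
section


set_option autoImplicit false

/-!
# Tangent bridge (helper416)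

From finiteness of the set of `L`-points over the dual numbers `k[ε]` (taken with the
`Algebra 𝒪 k[ε]` instance used by `GaloisRep.TangentFinite`) to the field `tangent` (H6) of
`IsRigidFamily`.
-/

namespace Fermat.Agent.S53.H416

open IsLocalRing GaloisRep TrivSqZeroExt

section TanAlg

variable (𝒪 : Type) [CommRing 𝒪] [IsLocalRing 𝒪]

/-- The `Algebra 𝒪 k[ε]` instance used in `GaloisRep.TangentFinite`. -/
@[reducible] noncomputable def tanAlg : Algebra 𝒪 (DualNumber (ResidueField 𝒪)) :=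
  ((algebraMap (ResidueField 𝒪) (DualNumber (ResidueField 𝒪))).comp
      (algebraMap 𝒪 (ResidueField 𝒪))).toAlgebra

theorem tanAlg_algebraMap_apply (a : 𝒪) :
    @algebraMap 𝒪 (DualNumber (ResidueField 𝒪)) _ _ (tanAlg 𝒪) a
      = TrivSqZeroExt.inl (residue 𝒪 a) := rfl

/-- `k[ε]` with the `TangentFinite` algebra structure is an Artinian test algebra. -/
theorem isArtinianTestAlgebra_dualNumber :
    @IsArtinianTestAlgebra 𝒪 _ (DualNumber (ResidueField 𝒪)) _ _ (tanAlg 𝒪) := by
  let _i : Algebra 𝒪 (DualNumber (ResidueField 𝒪)) := tanAlg 𝒪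
  refine ⟨⟨fun a ha => ?_⟩, fun y => ?_, ?_⟩
  · -- local hom
    have h1 : IsUnit (TrivSqZeroExt.fst (algebraMap 𝒪 (DualNumber (ResidueField 𝒪)) a)) :=
      (TrivSqZeroExt.isUnit_iff_isUnit_fst).1 ha
    rw [tanAlg_algebraMap_apply, TrivSqZeroExt.fst_inl] at h1
    by_contra hna
    have : residue 𝒪 a = 0 := (residue_eq_zero_iff a).2 ((mem_maximalIdeal a).2 hna)
    rw [this] at h1
    exact not_isUnit_zero h1
  · -- residue surjective
    obtain ⟨b, rfl⟩ := residue_surjective y
    obtain ⟨a, ha⟩ := residue_surjective (TrivSqZeroExt.fst b)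
    refine ⟨a, ?_⟩
    show residue _ (algebraMap 𝒪 (DualNumber (ResidueField 𝒪)) a) = residue _ b
    rw [tanAlg_algebraMap_apply, ← sub_eq_zero, ← map_sub, residue_eq_zero_iff, mem_maximalIdeal,
      mem_nonunits_iff, TrivSqZeroExt.isUnit_iff_isUnit_fst]
    simp [ha]
  · have : Module.Finite (ResidueField 𝒪) (DualNumber (ResidueField 𝒪)) :=
      inferInstanceAs (Module.Finite (ResidueField 𝒪) (ResidueField 𝒪 × ResidueField 𝒪))
    exact IsArtinianRing.of_finite (ResidueField 𝒪) (DualNumber (ResidueField 𝒪))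

end TanAlg

section Bridge

variable {𝒪 : Type} [CommRing 𝒪] [IsLocalRing 𝒪]
variable {B : Type} [CommRing B] [IsLocalRing B] [Algebra 𝒪 B]

/-- For a test algebra `B` killed by `m_𝒪` with `m_B ^ 2 = 0` and `0 ≠ d ∈ m_B`, there is a
local `𝒪`-algebra hom `B → k[ε]` (for the `TangentFinite` algebra structure) not killing `d`. -/
theorem exists_algHom_dualNumber (hB : IsArtinianTestAlgebra 𝒪 B)
    (hsq : maximalIdeal B ^ 2 = ⊥) (hO : (maximalIdeal 𝒪).map (algebraMap 𝒪 B) = ⊥)
    {d : B} (hd : d ∈ maximalIdeal B) (hd0 : d ≠ 0) :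
    ∃ φ : @AlgHom 𝒪 B (DualNumber (ResidueField 𝒪)) _ _ _ _ (tanAlg 𝒪),
      IsLocalHom (φ : B →+* DualNumber (ResidueField 𝒪)) ∧ φ d ≠ 0 := by
  classical
  let _i : Algebra 𝒪 (DualNumber (ResidueField 𝒪)) := tanAlg 𝒪
  have := hB.isLocalHom
  -- the section σ : k → B
  have hker : ∀ a ∈ maximalIdeal 𝒪, algebraMap 𝒪 B a = 0 := fun a ha => by
    have := Ideal.mem_map_of_mem (algebraMap 𝒪 B) ha
    rw [hO] at this
    exact (Ideal.mem_bot.1 this)
  let σ : ResidueField 𝒪 →+* B := Ideal.Quotient.lift (maximalIdeal 𝒪) (algebraMap 𝒪 B) hker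
  have hσ : ∀ a : 𝒪, σ (residue 𝒪 a) = algebraMap 𝒪 B a := fun a => rfl
  -- the retraction ψ : B → k
  have hbij : Function.Bijective ((residue B).comp σ) := by
    refine ⟨RingHom.injective _, fun y => ?_⟩
    obtain ⟨a, ha⟩ := hB.residue_surjective y
    exact ⟨residue 𝒪 a, ha⟩
  let e : ResidueField 𝒪 ≃+* ResidueField B := RingEquiv.ofBijective _ hbij
  let ψ : B →+* ResidueField 𝒪 := (e.symm : ResidueField B →+* ResidueField 𝒪).comp (residue B)
  have hψσ : ∀ t, ψ (σ t) = t := fun t => by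
    show e.symm (residue B (σ t)) = t
    exact e.symm_apply_apply t
  have hψ0 : ∀ b, ψ b = 0 ↔ b ∈ maximalIdeal B := fun b => by
    show e.symm (residue B b) = 0 ↔ _
    rw [map_eq_zero_iff _ e.symm.injective, residue_eq_zero_iff]
  have hμ : ∀ b, b - σ (ψ b) ∈ maximalIdeal B := fun b => by
    rw [← hψ0, map_sub, hψσ, sub_self]
  have hmm : ∀ {u v : B}, u ∈ maximalIdeal B → v ∈ maximalIdeal B → u * v = 0 := by
    intro u v hu hv
    have : u * v ∈ maximalIdeal B ^ 2 := by
      rw [pow_two]; exact Ideal.mul_mem_mul hu hv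
    rw [hsq] at this
    exact Ideal.mem_bot.1 this
  -- `B` as a `k`-vector space and a functional not killing `d`
  let _ia : Algebra (ResidueField 𝒪) B := σ.toAlgebra
  obtain ⟨lam, hlam⟩ : ∃ lam : Module.Dual (ResidueField 𝒪) B, lam d ≠ 0 := by
    by_contra hcon
    push Not at hcon
    exact hd0 ((Module.forall_dual_apply_eq_zero_iff (ResidueField 𝒪) d).1 hcon)
  have hlin : ∀ (t : ResidueField 𝒪) (v : B), lam (σ t * v) = t * lam v := fun t v => by
    have : σ t * v = t • v := (Algebra.smul_def t v).symm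
    rw [this, map_smul, smul_eq_mul]
  let D : B → ResidueField 𝒪 := fun b => lam (b - σ (ψ b))
  have hD_add : ∀ a b, D (a + b) = D a + D b := fun a b => by
    show lam _ = lam _ + lam _
    rw [← map_add]
    congr 1
    rw [map_add, map_add]; ring
  have hD_mul : ∀ a b, D (a * b) = ψ a * D b + ψ b * D a := fun a b => by
    show lam _ = ψ a * lam _ + ψ b * lam _
    rw [← hlin, ← hlin, ← map_add]
    congr 1
    have h0 := hmm (hμ a) (hμ b)
    rw [map_mul, map_mul]
    linear_combination h0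
  have hD_one : D 1 = 0 := by
    show lam _ = 0
    rw [map_one, map_one, sub_self, map_zero]
  have hD_alg : ∀ a : 𝒪, D (algebraMap 𝒪 B a) = 0 := fun a => by
    show lam _ = 0
    rw [← hσ a, hψσ, sub_self, map_zero]
  have hψ_alg : ∀ a : 𝒪, ψ (algebraMap 𝒪 B a) = residue 𝒪 a := fun a => by
    rw [← hσ a, hψσ]
  let φ₀ : B →+* DualNumber (ResidueField 𝒪) :=
    { toFun := fun b => TrivSqZeroExt.inl (ψ b) + TrivSqZeroExt.inr (D b)
      map_one' := by
        rw [hD_one, map_one, TrivSqZeroExt.inr_zero, add_zero]; rfl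
      map_mul' := fun a b => by
        rw [hD_mul, map_mul]
        ext
        · simp
        · simp [mul_comm]
      map_zero' := by
        have : D 0 = 0 := by
          show lam _ = 0
          rw [map_zero, map_zero, sub_self, map_zero]
        rw [this, map_zero, TrivSqZeroExt.inr_zero, add_zero]; rfl
      map_add' := fun a b => by
        rw [hD_add, map_add]
        ext <;> simp [add_add_add_comm] }
  have hφ₀ : ∀ b, φ₀ b = TrivSqZeroExt.inl (ψ b) + TrivSqZeroExt.inr (D b) := fun b => rfl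
  let φ : B →ₐ[𝒪] DualNumber (ResidueField 𝒪) :=
    { φ₀ with
      commutes' := fun a => by
        show φ₀ (algebraMap 𝒪 B a) = _
        rw [hφ₀, hD_alg, hψ_alg, TrivSqZeroExt.inr_zero, add_zero]
        rfl }
  refine ⟨φ, ⟨fun b hb => ?_⟩, ?_⟩
  · have h1 : IsUnit (TrivSqZeroExt.fst (φ₀ b)) := (TrivSqZeroExt.isUnit_iff_isUnit_fst).1 hb
    rw [hφ₀] at h1
    simp only [TrivSqZeroExt.fst_add, TrivSqZeroExt.fst_inl, TrivSqZeroExt.fst_inr, add_zero] at h1
    by_contra hnb
    have : ψ b = 0 := (hψ0 b).2 ((mem_maximalIdeal b).2 hnb)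
    rw [this] at h1
    exact not_isUnit_zero h1
  · intro h0
    have h1 : TrivSqZeroExt.snd (φ₀ d) = 0 := by
      have : φ₀ d = 0 := h0
      rw [this]; rfl
    rw [hφ₀] at h1
    simp only [TrivSqZeroExt.snd_add, TrivSqZeroExt.snd_inl, TrivSqZeroExt.snd_inr, zero_add] at h1
    have hψd : ψ d = 0 := (hψ0 d).2 hd
    have : D d = lam d := by
      show lam (d - σ (ψ d)) = lam d
      rw [hψd, map_zero, sub_zero]
    rw [this] at h1
    exact hlam h1

end Bridge

section Main

variable {𝒪 : Type} [CommRing 𝒪] [IsLocalRing 𝒪]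

/-- **Tangent bridge.** If `L` satisfies (H1) and (H3) and has finitely many points over `k[ε]`
(with the `TangentFinite` algebra structure), then `L` satisfies (H6). -/
theorem tangent_of_finite (ι : Type) (c : ι → 𝒪) (L : PointFamily 𝒪 ι)
    (hres : ∀ ⦃A : Type⦄ [CommRing A] [IsLocalRing A] [Algebra 𝒪 A],
      IsArtinianTestAlgebra 𝒪 A → ∀ ⦃x : ι → A⦄, L x →
        ∀ i, x i - algebraMap 𝒪 A (c i) ∈ maximalIdeal A)
    (hmap : ∀ ⦃A B : Type⦄ [CommRing A] [IsLocalRing A] [Algebra 𝒪 A]
      [CommRing B] [IsLocalRing B] [Algebra 𝒪 B],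
      IsArtinianTestAlgebra 𝒪 A → IsArtinianTestAlgebra 𝒪 B →
      ∀ (φ : A →ₐ[𝒪] B), IsLocalHom (φ : A →+* B) → ∀ ⦃x : ι → A⦄,
        L x → L (fun i => φ (x i)))
    (hfin : Finite {x : ι → DualNumber (ResidueField 𝒪) //
      @L (DualNumber (ResidueField 𝒪)) _ _ (tanAlg 𝒪) x}) :
    ∃ F : Finset ι, ∀ ⦃B : Type⦄ [CommRing B] [IsLocalRing B] [Algebra 𝒪 B],
      IsArtinianTestAlgebra 𝒪 B → maximalIdeal B ^ 2 = ⊥ →
      (maximalIdeal 𝒪).map (algebraMap 𝒪 B) = ⊥ →
      ∀ ⦃x : ι → B⦄, L x → (∀ i ∈ F, x i = algebraMap 𝒪 B (c i)) →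
        ∀ i, x i = algebraMap 𝒪 B (c i) := by
  classical
  let _i : Algebra 𝒪 (DualNumber (ResidueField 𝒪)) := tanAlg 𝒪
  have : Fintype {x : ι → DualNumber (ResidueField 𝒪) // L x} := Fintype.ofFinite _
  let c' : ι → DualNumber (ResidueField 𝒪) :=
    fun i => algebraMap 𝒪 (DualNumber (ResidueField 𝒪)) (c i)
  let pick : {x : ι → DualNumber (ResidueField 𝒪) // L x} → Finset ι := fun y =>
    if h : ∃ i, y.1 i ≠ c' i then {h.choose} else ∅
  refine ⟨Finset.univ.biUnion pick, ?_⟩
  intro B _ _ _ hB hsq hO x hx hF i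
  by_contra hne
  have hd : x i - algebraMap 𝒪 B (c i) ∈ maximalIdeal B := hres hB hx i
  have hd0 : x i - algebraMap 𝒪 B (c i) ≠ 0 := sub_ne_zero.2 hne
  obtain ⟨φ, hφloc, hφd⟩ := exists_algHom_dualNumber hB hsq hO hd hd0
  have hy : L (fun j => φ (x j)) :=
    hmap hB (_root_.Fermat.Agent.S53.H416.isArtinianTestAlgebra_dualNumber 𝒪) φ hφloc hx
  set y : {x : ι → DualNumber (ResidueField 𝒪) // L x} := ⟨fun j => φ (x j), hy⟩ with hydef
  have hyne : ∃ j, y.1 j ≠ c' j := by
    refine ⟨i, fun h => hφd ?_⟩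
    have h' : φ (x i) = algebraMap 𝒪 (DualNumber (ResidueField 𝒪)) (c i) := h
    rw [map_sub, h', AlgHom.commutes, sub_self]
  have hmem : hyne.choose ∈ Finset.univ.biUnion pick := by
    refine Finset.mem_biUnion.2 ⟨y, Finset.mem_univ _, ?_⟩
    show hyne.choose ∈ pick y
    simp only [pick, dif_pos hyne, Finset.mem_singleton]
  have h1 := hF _ hmem
  apply hyne.choose_spec
  show φ (x hyne.choose) = algebraMap 𝒪 (DualNumber (ResidueField 𝒪)) (c hyne.choose)
  rw [h1, AlgHom.commutes]

end Main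

end Fermat.Agent.S53.H416

end
-- ===== PACK-END S53/H416/TangentBridge.lean

-- ===== PACK-BEGIN S53/H173/Eval.lean
section



set_option autoImplicit false

/-!
# Evaluation maps from power series rings to complete local rings (block [C] of S53)
-/

namespace Fermat.Agent.S53.H173

open MvPowerSeries IsLocalRing

section Eval

variable {σ : Type*} {R : Type*} [CommRing R]
variable {A : Type*} [CommRing A] [Algebra R A] [IsLocalRing A]

theorem aeval_mem_pow_of_mem_idealOfVars_pow (a : σ → A) (ha : ∀ i, a i ∈ maximalIdeal A)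
    (n : ℕ) (p : MvPolynomial σ R) (hp : p ∈ MvPolynomial.idealOfVars σ R ^ n) :
    MvPolynomial.aeval a p ∈ maximalIdeal A ^ n := by
  have h1 : Ideal.map (MvPolynomial.aeval a : MvPolynomial σ R →ₐ[R] A)
      (MvPolynomial.idealOfVars σ R) ≤ maximalIdeal A := by
    rw [MvPolynomial.idealOfVars, Ideal.map_span, Ideal.span_le]
    rintro _ ⟨_, ⟨i, rfl⟩, rfl⟩
    simpa using ha i
  have h2 := Ideal.mem_map_of_mem (MvPolynomial.aeval a : MvPolynomial σ R →ₐ[R] A) hp
  rw [Ideal.map_pow] at h2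
  exact Ideal.pow_right_mono h1 n h2

variable [Finite σ]

/-- Level-`n` evaluation `R⟦X⟧ → A ⧸ m_A ^ n` at a point `a` with coordinates in `m_A`. -/
noncomputable def evalLevel (a : σ → A) (ha : ∀ i, a i ∈ maximalIdeal A) (n : ℕ) :
    MvPowerSeries σ R →ₐ[R] A ⧸ (maximalIdeal A) ^ n :=
  (Ideal.Quotient.liftₐ (MvPolynomial.idealOfVars σ R ^ n)
      ((Ideal.Quotient.mkₐ R (maximalIdeal A ^ n)).comp (MvPolynomial.aeval a))
      (fun p hp => by
        rw [AlgHom.comp_apply, Ideal.Quotient.mkₐ_eq_mk, Ideal.Quotient.eq_zero_iff_mem]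
        exact aeval_mem_pow_of_mem_idealOfVars_pow a ha n p hp)).comp
    ((truncTotalAlgHom σ R n).restrictScalars R)

theorem evalLevel_apply (a : σ → A) (ha : ∀ i, a i ∈ maximalIdeal A) (n : ℕ)
    (f : MvPowerSeries σ R) :
    evalLevel a ha n f =
      Ideal.Quotient.mk (maximalIdeal A ^ n) (MvPolynomial.aeval a (truncTotal n f)) := by
  rfl

theorem evalLevel_compat (a : σ → A) (ha : ∀ i, a i ∈ maximalIdeal A) {m n : ℕ} (hle : m ≤ n) :
    (Ideal.Quotient.factorₐ R (Ideal.pow_le_pow_right (I := maximalIdeal A) hle)).comp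
      (evalLevel a ha n) = evalLevel (R := R) a ha m := by
  ext f
  rw [AlgHom.comp_apply, evalLevel_apply, evalLevel_apply, Ideal.Quotient.factorₐ_apply_mk,
    Ideal.Quotient.eq, ← map_sub]
  exact aeval_mem_pow_of_mem_idealOfVars_pow a ha m _
    (truncTotal_sub_truncTotal_mem_pow_idealOfVars hle le_rfl f)

variable [IsAdicComplete (maximalIdeal A) A]

/-- The `R`-algebra map `R⟦X₁,…,X_d⟧ → A`, `X i ↦ a i`, for `a i ∈ m_A` and `A` complete local. -/
noncomputable def evalLocal (a : σ → A) (ha : ∀ i, a i ∈ maximalIdeal A) :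
    MvPowerSeries σ R →ₐ[R] A :=
  IsAdicComplete.liftAlgHom (maximalIdeal A) (evalLevel a ha)
    (fun hle => evalLevel_compat a ha hle)

theorem mk_evalLocal (a : σ → A) (ha : ∀ i, a i ∈ maximalIdeal A) (n : ℕ)
    (f : MvPowerSeries σ R) :
    Ideal.Quotient.mk (maximalIdeal A ^ n) (evalLocal a ha f) =
      Ideal.Quotient.mk (maximalIdeal A ^ n) (MvPolynomial.aeval a (truncTotal n f)) := by
  rw [evalLocal, IsAdicComplete.mk_liftAlgHom, evalLevel_apply]

theorem evalLocal_sub_mem (a : σ → A) (ha : ∀ i, a i ∈ maximalIdeal A) (n : ℕ)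
    (f : MvPowerSeries σ R) :
    evalLocal a ha f - MvPolynomial.aeval a (truncTotal n f) ∈ maximalIdeal A ^ n := by
  rw [← Ideal.Quotient.eq]
  exact mk_evalLocal a ha n f

theorem eq_of_forall_sub_mem_pow {x y : A} (h : ∀ n, x - y ∈ maximalIdeal A ^ n) : x = y := by
  rw [← sub_eq_zero]
  refine IsHausdorff.haus (I := maximalIdeal A) inferInstance _ fun n => ?_
  rw [SModEq.zero, smul_eq_mul, Ideal.mul_top]
  exact h n

theorem evalLocal_coe (a : σ → A) (ha : ∀ i, a i ∈ maximalIdeal A) (p : MvPolynomial σ R) :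
    evalLocal a ha (p : MvPowerSeries σ R) = MvPolynomial.aeval a p := by
  refine _root_.Fermat.Agent.S53.H173.eq_of_forall_sub_mem_pow fun n => ?_
  have h1 := evalLocal_sub_mem a ha n (p : MvPowerSeries σ R)
  have h2 : MvPolynomial.aeval a (truncTotal n (p : MvPowerSeries σ R)) -
      MvPolynomial.aeval a p ∈ maximalIdeal A ^ n := by
    rw [← map_sub]
    refine aeval_mem_pow_of_mem_idealOfVars_pow a ha n _ ?_
    rw [MvPolynomial.mem_pow_idealOfVars_iff']
    intro e he
    rw [MvPolynomial.coeff_sub, coeff_truncTotal _ he, MvPolynomial.coeff_coe, sub_self]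
  have := Ideal.add_mem _ h1 h2
  rwa [sub_add_sub_cancel] at this

@[simp]
theorem evalLocal_X (a : σ → A) (ha : ∀ i, a i ∈ maximalIdeal A) (i : σ) :
    evalLocal (R := R) a ha (X i) = a i := by
  rw [← MvPolynomial.coe_X, evalLocal_coe, MvPolynomial.aeval_X]

omit [Finite σ] [IsAdicComplete (maximalIdeal A) A] in
theorem map_mem_pow_of_mem_span_X_pow (φ : MvPowerSeries σ R →ₐ[R] A)
    (hφ : ∀ i, φ (X i) ∈ maximalIdeal A) (n : ℕ) (g : MvPowerSeries σ R)
    (hg : g ∈ (Ideal.span (Set.range (X : σ → MvPowerSeries σ R))) ^ n) :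
    φ g ∈ maximalIdeal A ^ n := by
  have h1 : Ideal.map φ (Ideal.span (Set.range (X : σ → MvPowerSeries σ R))) ≤
      maximalIdeal A := by
    rw [Ideal.map_span, Ideal.span_le]
    rintro _ ⟨_, ⟨i, rfl⟩, rfl⟩
    exact hφ i
  have h2 := Ideal.mem_map_of_mem φ hg
  rw [Ideal.map_pow] at h2
  exact Ideal.pow_right_mono h1 n h2

omit [IsAdicComplete (maximalIdeal A) A] in
/-- Two `R`-algebra maps out of the power series ring which agree on the variables, and send
them into the maximal ideal of the (separated) local target, are equal. -/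
theorem algHom_ext_of_X [IsHausdorff (maximalIdeal A) A]
    (φ ψ : MvPowerSeries σ R →ₐ[R] A)
    (hφ : ∀ i, φ (X i) ∈ maximalIdeal A) (h : ∀ i, φ (X i) = ψ (X i)) : φ = ψ := by
  have hψ : ∀ i, ψ (X i) ∈ maximalIdeal A := fun i => h i ▸ hφ i
  have hpoly : ∀ p : MvPolynomial σ R, φ (p : MvPowerSeries σ R) = ψ (p : MvPowerSeries σ R) := by
    intro p
    have : (φ.comp (MvPolynomial.coeToMvPowerSeries.algHom (σ := σ) (R := R) R)) =
        (ψ.comp (MvPolynomial.coeToMvPowerSeries.algHom (σ := σ) (R := R) R)) := by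
      apply MvPolynomial.algHom_ext
      intro i
      simpa using h i
    simpa using DFunLike.congr_fun this p
  ext f
  rw [← sub_eq_zero]
  refine IsHausdorff.haus (I := maximalIdeal A) inferInstance _ fun n => ?_
  rw [SModEq.zero, smul_eq_mul, Ideal.mul_top]
  have hg : f - (truncTotal n f : MvPolynomial σ R) ∈
      (Ideal.span (Set.range (X : σ → MvPowerSeries σ R))) ^ n := by
    refine mem_span_X_pow_of_coeff_eq_zero n _ fun e he => ?_
    rw [map_sub, MvPolynomial.coeff_coe, coeff_truncTotal _ he, sub_self]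
  have h1 := map_mem_pow_of_mem_span_X_pow φ hφ n _ hg
  have h2 := map_mem_pow_of_mem_span_X_pow ψ hψ n _ hg
  rw [map_sub] at h1 h2
  have := Ideal.sub_mem _ h1 h2
  rwa [hpoly, sub_sub_sub_cancel_right] at this

theorem eq_evalLocal (a : σ → A) (ha : ∀ i, a i ∈ maximalIdeal A)
    (φ : MvPowerSeries σ R →ₐ[R] A) (h : ∀ i, φ (X i) = a i) : φ = evalLocal a ha :=
  algHom_ext_of_X φ _ (fun i => h i ▸ ha i) (fun i => by rw [h i, evalLocal_X])

end Eval

section Local

variable {σ : Type*} [Finite σ] {R : Type*} [CommRing R] [IsLocalRing R]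
variable {A : Type*} [CommRing A] [Algebra R A] [IsLocalRing A]

/-- An `R`-algebra map from the power series ring sending the variables into `m_A` maps
`m_S` into `m_A`, provided `R → A` is local. -/
theorem map_mem_maximalIdeal [IsLocalHom (algebraMap R A)]
    (φ : MvPowerSeries σ R →ₐ[R] A) (hφ : ∀ i, φ (X i) ∈ maximalIdeal A)
    (f : MvPowerSeries σ R) (hf : f ∈ maximalIdeal (MvPowerSeries σ R)) :
    φ f ∈ maximalIdeal A := by
  have hg : f - (truncTotal 1 f : MvPolynomial σ R) ∈
      (Ideal.span (Set.range (X : σ → MvPowerSeries σ R))) ^ 1 := by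
    refine mem_span_X_pow_of_coeff_eq_zero 1 _ fun e he => ?_
    rw [map_sub, MvPolynomial.coeff_coe, coeff_truncTotal _ he, sub_self]
  have h1 := map_mem_pow_of_mem_span_X_pow φ hφ 1 _ hg
  rw [pow_one, map_sub] at h1
  have h2 : (truncTotal 1 f : MvPolynomial σ R) = MvPolynomial.C (constantCoeff f) := by
    classical
    ext e
    rw [coeff_truncTotal_eq_ite, MvPolynomial.coeff_C]
    by_cases he : e = 0
    · subst he
      simp
    · have h1 : e.degree ≠ 0 := fun h0 => he ((Finsupp.degree_eq_zero_iff e).mp h0)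
      rw [if_neg (by omega), if_neg (Ne.symm he)]
  have h3 : φ ((truncTotal 1 f : MvPolynomial σ R) : MvPowerSeries σ R) ∈ maximalIdeal A := by
    rw [h2, MvPolynomial.coe_C]
    have : (C (constantCoeff f) : MvPowerSeries σ R) =
        algebraMap R (MvPowerSeries σ R) (constantCoeff f) := rfl
    rw [this, AlgHom.commutes]
    rw [mem_maximalIdeal_iff_constantCoeff] at hf
    exact (IsLocalRing.mem_maximalIdeal _).mpr
      (fun hu => (IsLocalRing.mem_maximalIdeal _).mp hf (isUnit_of_map_unit _ _ hu))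
  have := Ideal.add_mem _ h1 h3
  rwa [sub_add_cancel] at this

theorem isLocalHom_of_X_mem [IsLocalHom (algebraMap R A)]
    (φ : MvPowerSeries σ R →ₐ[R] A) (hφ : ∀ i, φ (X i) ∈ maximalIdeal A) :
    IsLocalHom (φ : MvPowerSeries σ R →+* A) := by
  refine ⟨fun f hf => ?_⟩
  by_contra hcon
  have h1 : f ∈ maximalIdeal (MvPowerSeries σ R) := (IsLocalRing.mem_maximalIdeal _).mpr hcon
  exact (IsLocalRing.mem_maximalIdeal _).mp (map_mem_maximalIdeal φ hφ f h1) hf

theorem isLocalHom_evalLocal [IsLocalHom (algebraMap R A)] [IsAdicComplete (maximalIdeal A) A]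
    (a : σ → A) (ha : ∀ i, a i ∈ maximalIdeal A) :
    IsLocalHom (evalLocal (R := R) a ha : MvPowerSeries σ R →+* A) :=
  isLocalHom_of_X_mem _ fun i => by rw [evalLocal_X]; exact ha i

omit [Finite σ] in
/-- Any local `R`-algebra hom out of the power series ring sends the variables to `m_A`. -/
theorem X_mem_of_isLocalHom (φ : MvPowerSeries σ R →ₐ[R] A)
    (hφ : IsLocalHom (φ : MvPowerSeries σ R →+* A)) (i : σ) : φ (X i) ∈ maximalIdeal A := by
  rw [IsLocalRing.mem_maximalIdeal, mem_nonunits_iff]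
  intro hu
  have := hφ.map_nonunit (X i) hu
  exact (IsLocalRing.mem_maximalIdeal _).mp (X_mem_maximalIdeal (R := R) i) this

theorem map_maximalIdeal_eq [IsLocalHom (algebraMap R A)]
    (φ : MvPowerSeries σ R →ₐ[R] A) (hφ : ∀ i, φ (X i) ∈ maximalIdeal A)
    (hgen : maximalIdeal A ≤ Ideal.map (algebraMap R A) (maximalIdeal R) ⊔
      Ideal.span (Set.range fun i => φ (X i))) :
    Ideal.map φ (maximalIdeal (MvPowerSeries σ R)) = maximalIdeal A := by
  apply le_antisymm
  · rw [Ideal.map_le_iff_le_comap]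
    intro f hf
    exact map_mem_maximalIdeal φ hφ f hf
  · refine hgen.trans (sup_le ?_ ?_)
    · rw [Ideal.map_le_iff_le_comap]
      intro c hc
      rw [Ideal.mem_comap, ← φ.commutes]
      refine Ideal.mem_map_of_mem φ ?_
      rw [mem_maximalIdeal_iff_constantCoeff]
      simpa [MvPowerSeries.algebraMap_apply] using hc
    · rw [Ideal.span_le]
      rintro _ ⟨i, rfl⟩
      exact Ideal.mem_map_of_mem φ (X_mem_maximalIdeal i)

/-- Surjectivity criterion: if `R → A` is surjective on residue fields and `m_A` is generated by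
the image of `m_R` and the `φ (X i)`, then `φ : R⟦X⟧ → A` is surjective (`R`, `A` complete). -/
theorem surjective_of_maximalIdeal_le [IsAdicComplete (maximalIdeal R) R]
    [IsLocalHom (algebraMap R A)] [IsHausdorff (maximalIdeal A) A]
    (φ : MvPowerSeries σ R →ₐ[R] A) (hφ : ∀ i, φ (X i) ∈ maximalIdeal A)
    (hres : Function.Surjective (IsLocalRing.residue A ∘ algebraMap R A))
    (hgen : maximalIdeal A ≤ Ideal.map (algebraMap R A) (maximalIdeal R) ⊔
      Ideal.span (Set.range fun i => φ (X i))) :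
    Function.Surjective φ := by
  have hmap := map_maximalIdeal_eq φ hφ hgen
  haveI : IsPrecomplete (maximalIdeal (MvPowerSeries σ R)) (MvPowerSeries σ R) :=
    isPrecomplete_mvPowerSeries
  haveI haus : IsHausdorff (Ideal.map (φ : MvPowerSeries σ R →+* A)
      (maximalIdeal (MvPowerSeries σ R))) A := by
    have : Ideal.map (φ : MvPowerSeries σ R →+* A) (maximalIdeal (MvPowerSeries σ R)) =
        maximalIdeal A := hmap
    rw [this]
    infer_instance
  have key := surjective_of_mk_map_comp_surjective (I := maximalIdeal (MvPowerSeries σ R))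
    (f := (φ : MvPowerSeries σ R →+* A)) ?_
  · exact key
  · intro y
    obtain ⟨y', rfl⟩ := Ideal.Quotient.mk_surjective y
    obtain ⟨c, hc⟩ := hres (IsLocalRing.residue A y')
    refine ⟨C c, ?_⟩
    rw [RingHom.comp_apply, Ideal.Quotient.eq]
    have h1 : (φ : MvPowerSeries σ R →+* A) (C c) = algebraMap R A c := by
      have : (C c : MvPowerSeries σ R) = algebraMap R (MvPowerSeries σ R) c := rfl
      rw [this]
      exact φ.commutes c
    rw [h1]
    have h2 : algebraMap R A c - y' ∈ maximalIdeal A := by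
      rw [← Ideal.Quotient.eq]
      exact hc
    have : Ideal.map (φ : MvPowerSeries σ R →+* A) (maximalIdeal (MvPowerSeries σ R)) =
        maximalIdeal A := hmap
    rw [this]
    exact h2

theorem evalLocal_surjective [IsAdicComplete (maximalIdeal R) R]
    [IsLocalHom (algebraMap R A)] [IsAdicComplete (maximalIdeal A) A]
    (a : σ → A) (ha : ∀ i, a i ∈ maximalIdeal A)
    (hres : Function.Surjective (IsLocalRing.residue A ∘ algebraMap R A))
    (hgen : maximalIdeal A ≤ Ideal.map (algebraMap R A) (maximalIdeal R) ⊔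
      Ideal.span (Set.range a)) :
    Function.Surjective (evalLocal (R := R) a ha) := by
  refine surjective_of_maximalIdeal_le _ (fun i => by rw [evalLocal_X]; exact ha i) hres ?_
  simpa using hgen

/-- Noetherian variant: it suffices that the `a i` and `m_R` generate `m_A` modulo `m_A ^ 2`. -/
theorem evalLocal_surjective' [IsAdicComplete (maximalIdeal R) R]
    [IsLocalHom (algebraMap R A)] [IsAdicComplete (maximalIdeal A) A] [IsNoetherianRing A]
    (a : σ → A) (ha : ∀ i, a i ∈ maximalIdeal A)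
    (hres : Function.Surjective (IsLocalRing.residue A ∘ algebraMap R A))
    (hgen : maximalIdeal A ≤ Ideal.map (algebraMap R A) (maximalIdeal R) ⊔
      Ideal.span (Set.range a) ⊔ maximalIdeal A ^ 2) :
    Function.Surjective (evalLocal (R := R) a ha) := by
  refine evalLocal_surjective a ha hres ?_
  have hN : Ideal.map (algebraMap R A) (maximalIdeal R) ⊔ Ideal.span (Set.range a) ≤
      maximalIdeal A := by
    refine sup_le ?_ ?_
    · rw [Ideal.map_le_iff_le_comap]
      intro c hc
      exact (IsLocalRing.mem_maximalIdeal _).mpr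
        (fun hu => (IsLocalRing.mem_maximalIdeal _).mp hc (isUnit_of_map_unit _ _ hu))
    · rw [Ideal.span_le]
      rintro _ ⟨i, rfl⟩
      exact ha i
  refine Submodule.le_of_le_smul_of_le_jacobson_bot (I := maximalIdeal A)
    (IsNoetherian.noetherian _) (IsLocalRing.maximalIdeal_le_jacobson _) ?_
  rw [smul_eq_mul, ← pow_two]
  exact hgen

end Local

end Fermat.Agent.S53.H173

end
-- ===== PACK-END S53/H173/Eval.lean

-- ===== PACK-BEGIN S41/H761/CosetSystem2.lean
section



/-!
# Coset systems, part 2 (helper761, row S41, block HK)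

* `transfer_eq_of_le_of_card` : comparison of two coset systems with index sets of the same
  cardinality;
* `IsCosetSystem.conj` : conjugation of a coset system by an element of the ambient group.
-/

set_option autoImplicit false

namespace Fermat.Agent.S41.H761

namespace IsCosetSystem

variable {𝒢 Γ Γ' : Type*} [Group 𝒢] [Group Γ] [Group Γ']
variable {I J : Type*} {ι : Γ →* 𝒢} {ι' : Γ' →* 𝒢} {ρ : I → 𝒢} {ρ' : J → 𝒢}
variable {A : Type*} [AddCommGroup A]

/-- **Comparison** (cardinality version).  Two coset systems with index sets of the same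
cardinality such that every coset of the first is a coset of the second have the same transfer. -/
theorem transfer_eq_of_le_of_card [Fintype I] [Fintype J] (h : IsCosetSystem ι ι' ρ)
    (h' : IsCosetSystem ι ι' ρ') (hcard : Fintype.card I = Fintype.card J)
    (hle : ∀ i, ∃ (j : J) (g : Γ), ρ i = ι g * ρ' j) (φ : Additive Γ →+ A) :
    h.transfer φ = h'.transfer φ := by
  classical
  choose e β hβ using hle
  have key : ∀ (i : I) (g' : Γ'), h'.act (e i) g' = e (h.act i g') ∧
      h'.coc (e i) g' = (β i)⁻¹ * h.coc i g' * β (h.act i g') := by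
    intro i g'
    apply h'.unique
    have h1 : ρ' (e i) = ι (β i)⁻¹ * ρ i := by
      rw [hβ i, map_inv, inv_mul_cancel_left]
    rw [h1, mul_assoc, h.spec i g', hβ (h.act i g')]
    simp only [map_mul, map_inv, mul_assoc]
  have einj : Function.Injective e := by
    intro i i' hii
    apply h.eq_of_mul i i' (β i * (β i')⁻¹)
    rw [hβ i, hii, map_mul, map_inv, mul_assoc, hβ i', inv_mul_cancel_left]
  have ebij : Function.Bijective e :=
    (Fintype.bijective_iff_injective_and_card e).mpr ⟨einj, hcard⟩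
  let E : I ≃ J := Equiv.ofBijective e ebij
  refine AddMonoidHom.ext fun g' => ?_
  obtain ⟨g, rfl⟩ : ∃ g : Γ', Additive.ofMul g = g' := ⟨Additive.toMul g', rfl⟩
  rw [transfer_apply, transfer_apply, ← Equiv.sum_comp E]
  have hE : ∀ i, E i = e i := fun _ => rfl
  simp only [hE, (key _ g).2, ofMul_mul, ofMul_inv, map_add, map_neg, Finset.sum_add_distrib,
    Finset.sum_neg_distrib]
  have hperm : ∑ i, φ (Additive.ofMul (β (h.act i g))) = ∑ i, φ (Additive.ofMul (β i)) :=
    Equiv.sum_comp (h.actEquiv g) (fun i => φ (Additive.ofMul (β i)))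
  rw [hperm]
  abel

/-- Conjugation of a coset system: if `d * ι g = κ g * d` and `d * ι' g' = κ' g' * d`, then
`i ↦ d * ρ i * d⁻¹` is a coset system for `κ, κ'`. -/
theorem conj (h : IsCosetSystem ι ι' ρ) (d : 𝒢) {κ : Γ →* 𝒢} {κ' : Γ' →* 𝒢}
    (hκ : ∀ g, d * ι g = κ g * d) (hκ' : ∀ g', d * ι' g' = κ' g' * d) :
    IsCosetSystem κ κ' (fun i => d * ρ i * d⁻¹) where
  inj := by
    intro g g' e
    apply h.inj
    have h1 := hκ g
    have h2 := hκ g'
    rw [e, ← h2] at h1
    exact mul_left_cancel h1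
  exists_mul := by
    intro i g'
    refine ⟨h.act i g', h.coc i g', ?_⟩
    have h1 : κ' g' = d * ι' g' * d⁻¹ := by rw [hκ' g', mul_inv_cancel_right]
    have h2 : κ (h.coc i g') = d * ι (h.coc i g') * d⁻¹ := by rw [hκ _, mul_inv_cancel_right]
    rw [h1, h2]
    simp only [mul_assoc, inv_mul_cancel_left]
    rw [← mul_assoc (ρ i), h.spec i g']
    simp only [mul_assoc]
  eq_of_mul := by
    intro i j g e
    apply h.eq_of_mul i j g
    have h2 : κ g = d * ι g * d⁻¹ := by rw [hκ _, mul_inv_cancel_right]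
    rw [h2] at e
    simp only [mul_assoc, inv_mul_cancel_left] at e
    have e2 := mul_left_cancel e
    rw [← mul_assoc] at e2
    exact mul_right_cancel e2

theorem conj_coc (h : IsCosetSystem ι ι' ρ) (d : 𝒢) {κ : Γ →* 𝒢} {κ' : Γ' →* 𝒢}
    (hκ : ∀ g, d * ι g = κ g * d) (hκ' : ∀ g', d * ι' g' = κ' g' * d) (i : I) (g' : Γ') :
    (h.conj d hκ hκ').coc i g' = h.coc i g' := by
  apply (h.conj d hκ hκ').coc_eq (j := h.act i g')
  have h1 : κ' g' = d * ι' g' * d⁻¹ := by rw [hκ' g', mul_inv_cancel_right]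
  have h2 : κ (h.coc i g') = d * ι (h.coc i g') * d⁻¹ := by rw [hκ _, mul_inv_cancel_right]
  rw [h1, h2]
  simp only [mul_assoc, inv_mul_cancel_left]
  rw [← mul_assoc (ρ i), h.spec i g']
  simp only [mul_assoc]

theorem conj_transfer [Fintype I] (h : IsCosetSystem ι ι' ρ) (d : 𝒢) {κ : Γ →* 𝒢}
    {κ' : Γ' →* 𝒢} (hκ : ∀ g, d * ι g = κ g * d) (hκ' : ∀ g', d * ι' g' = κ' g' * d)
    (φ : Additive Γ →+ A) : (h.conj d hκ hκ').transfer φ = h.transfer φ := by
  refine AddMonoidHom.ext fun g' => ?_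
  obtain ⟨g, rfl⟩ : ∃ g : Γ', Additive.ofMul g = g' := ⟨Additive.toMul g', rfl⟩
  rw [transfer_apply, transfer_apply]
  exact Finset.sum_congr rfl fun i _ => by rw [conj_coc h d hκ hκ']

/-- A coset system only depends on the values of the embeddings. -/
theorem congr (h : IsCosetSystem ι ι' ρ) {κ : Γ →* 𝒢} {κ' : Γ' →* 𝒢} (hκ : ∀ g, ι g = κ g)
    (hκ' : ∀ g', ι' g' = κ' g') : IsCosetSystem κ κ' ρ := by
  have e1 : ι = κ := MonoidHom.ext hκ
  have e2 : ι' = κ' := MonoidHom.ext hκ'
  rw [← e1, ← e2]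
  exact h

end IsCosetSystem

end Fermat.Agent.S41.H761

end
-- ===== PACK-END S41/H761/CosetSystem2.lean

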