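import Mathlib
import Fermat.Prelude.Def_FLTPrelim_Ramification
import Fermat.Prelude.Def_EllipticCurve_FrobeniusTrace
import Fermat.Prelude.Def_GaloisRep_DeformationCondition
import Fermat.Agent.Pack.S43GC.G0E5L3
import Fermat.Agent.Pack.S43GC.G0E5L2
import Fermat.Agent.Pack.S43GC.G0E5L1
import Fermat.Agent.Pack.S43GC.G0E0L3
import Fermat.Agent.Pack.S43GC.G0E3L2
import Fermat.Agent.Pack.S43GC.G0E5L0
import Fermat.Agent.Pack.S43GC.G0E4L0
import Fermat.Agent.Pack.S43GC.G0E2L0
import Fermat.Agent.Pack.S44C.G0E0L3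
import Fermat.Agent.Pack.S44C.G0E6L2
import Fermat.Agent.Pack.S43GC.G0E4L1
import Fermat.Agent.Pack.S43GC.G0E3L1
import Fermat.Agent.Pack.S43GC.G0E0L2
import Fermat.Agent.Pack.Fast891

-- ===== PACK-BEGIN S55/KL/H289/PFunct.lean
section


/-!
# S55, layer KB, leaf KB-KUM3 (helper289), part 2: functoriality

* general lemmas on `groupCohomology.map` (`map_tri`, `map_sq`, `map_nsmul_id`, `nsmul_eq_zero`);
* functoriality of `pImg`, `pCok` in `(f, φ)`.
-/

set_option autoImplicit false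
set_option linter.style.haveILetI false

open CategoryTheory groupCohomology

namespace Fermat.Agent.S55.KL.H289

open Fermat.Agent.S55.KL

variable {k : Type} [CommRing k]

section General

/-- Composition of `groupCohomology.map`s, in "triangle" form. -/
lemma map_tri {G H K : Type} [Group G] [Group H] [Group K]
    {A : Rep.{0} k K} {B : Rep.{0} k H} {C : Rep.{0} k G} (f : H →* K) (g : G →* H)
    (e : G →* K) (φ : Rep.res f A ⟶ B) (ψ : Rep.res g B ⟶ C) (χ : Rep.res e A ⟶ C)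
    (hfg : f.comp g = e) (h : ∀ a : A.V, ψ.hom (φ.hom a) = χ.hom a) (n : ℕ) :
    groupCohomology.map f φ n ≫ groupCohomology.map g ψ n = groupCohomology.map e χ n := by
  rw [← groupCohomology.map_comp]
  exact groupCohomology.map_congr hfg (LinearMap.ext h) n

/-- Composition of `groupCohomology.map`s, in "square" form. -/
lemma map_sq {G H₁ H₂ K : Type} [Group G] [Group H₁] [Group H₂] [Group K]
    {A : Rep.{0} k K} {B₁ : Rep.{0} k H₁} {B₂ : Rep.{0} k H₂} {C : Rep.{0} k G}
    (f₁ : H₁ →* K) (g₁ : G →* H₁) (f₂ : H₂ →* K) (g₂ : G →* H₂)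
    (φ₁ : Rep.res f₁ A ⟶ B₁) (ψ₁ : Rep.res g₁ B₁ ⟶ C)
    (φ₂ : Rep.res f₂ A ⟶ B₂) (ψ₂ : Rep.res g₂ B₂ ⟶ C)
    (hfg : f₁.comp g₁ = f₂.comp g₂)
    (h : ∀ a : A.V, ψ₁.hom (φ₁.hom a) = ψ₂.hom (φ₂.hom a)) (n : ℕ) :
    groupCohomology.map f₁ φ₁ n ≫ groupCohomology.map g₁ ψ₁ n =
      groupCohomology.map f₂ φ₂ n ≫ groupCohomology.map g₂ ψ₂ n := by
  rw [← groupCohomology.map_comp, ← groupCohomology.map_comp]
  exact groupCohomology.map_congr hfg (LinearMap.ext h) n

lemma map_tri_apply {G H K : Type} [Group G] [Group H] [Group K]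
    {A : Rep.{0} k K} {B : Rep.{0} k H} {C : Rep.{0} k G} (f : H →* K) (g : G →* H)
    (e : G →* K) (φ : Rep.res f A ⟶ B) (ψ : Rep.res g B ⟶ C) (χ : Rep.res e A ⟶ C)
    (hfg : f.comp g = e) (h : ∀ a : A.V, ψ.hom (φ.hom a) = χ.hom a) (n : ℕ)
    (x : groupCohomology A n) :
    (groupCohomology.map g ψ n).hom ((groupCohomology.map f φ n).hom x) =
      (groupCohomology.map e χ n).hom x := by
  rw [← map_tri f g e φ ψ χ hfg h n]
  rfl

lemma map_sq_apply {G H₁ H₂ K : Type} [Group G] [Group H₁] [Group H₂] [Group K]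
    {A : Rep.{0} k K} {B₁ : Rep.{0} k H₁} {B₂ : Rep.{0} k H₂} {C : Rep.{0} k G}
    (f₁ : H₁ →* K) (g₁ : G →* H₁) (f₂ : H₂ →* K) (g₂ : G →* H₂)
    (φ₁ : Rep.res f₁ A ⟶ B₁) (ψ₁ : Rep.res g₁ B₁ ⟶ C)
    (φ₂ : Rep.res f₂ A ⟶ B₂) (ψ₂ : Rep.res g₂ B₂ ⟶ C)
    (hfg : f₁.comp g₁ = f₂.comp g₂)
    (h : ∀ a : A.V, ψ₁.hom (φ₁.hom a) = ψ₂.hom (φ₂.hom a)) (n : ℕ)
    (x : groupCohomology A n) :
    (groupCohomology.map g₁ ψ₁ n).hom ((groupCohomology.map f₁ φ₁ n).hom x) =
      (groupCohomology.map g₂ ψ₂ n).hom ((groupCohomology.map f₂ φ₂ n).hom x) := by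
  have := map_sq f₁ g₁ f₂ g₂ φ₁ ψ₁ φ₂ ψ₂ hfg h n
  exact congrArg (fun F => F.hom x) this

variable {G : Type} [Group G]

lemma map_id_add {A B : Rep.{0} k G} (φ ψ : A ⟶ B) (n : ℕ) :
    groupCohomology.map (MonoidHom.id G) (φ + ψ) n =
      groupCohomology.map (MonoidHom.id G) φ n + groupCohomology.map (MonoidHom.id G) ψ n := by
  have h : cochainsMap (MonoidHom.id G) (φ + ψ) =
      cochainsMap (MonoidHom.id G) φ + cochainsMap (MonoidHom.id G) ψ :=
    (cochainsFunctor k G).map_add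
  change HomologicalComplex.homologyMap (cochainsMap (MonoidHom.id G) (φ + ψ)) n = _
  rw [h, HomologicalComplex.homologyMap_add]
  rfl

lemma map_id_zero (A B : Rep.{0} k G) (n : ℕ) :
    groupCohomology.map (MonoidHom.id G) (0 : A ⟶ B) n = 0 :=
  (groupCohomology.functor k G n).map_zero A B

lemma map_id_nsmul {A B : Rep.{0} k G} (φ : A ⟶ B) (m n : ℕ) :
    groupCohomology.map (MonoidHom.id G) (m • φ) n =
      m • groupCohomology.map (MonoidHom.id G) φ n := by
  induction m with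
  | zero => rw [zero_smul, zero_smul, map_id_zero]
  | succ m ih => rw [succ_nsmul, succ_nsmul, map_id_add, ih]

/-- Multiplication by `m` on coefficients is multiplication by `m` on cohomology. -/
lemma map_id_nsmul_id_apply (A : Rep.{0} k G) (m n : ℕ) (x : groupCohomology A n) :
    (groupCohomology.map (MonoidHom.id G) (m • 𝟙 A) n).hom x = m • x := by
  rw [map_id_nsmul, groupCohomology.map_id]
  rfl

/-- If `m` kills `A`, it kills the cohomology of `A`. -/
lemma nsmul_eq_zero_of_kills (A : Rep.{0} k G) (m n : ℕ) (hA : ∀ a : A.V, m • a = 0)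
    (x : groupCohomology A n) : m • x = 0 := by
  rw [← map_id_nsmul_id_apply]
  have h0 : (m • 𝟙 A : A ⟶ A) = 0 := by
    apply Rep.hom_ext
    apply DFunLike.ext
    intro a
    exact hA a
  rw [h0, map_id_zero]
  rfl

end General

section Funct

variable {G G' : Type} [Group G] [Group G']

/-- Functoriality of `p • B`. -/
noncomputable def pImgMap {B : Rep.{0} k G} {B' : Rep.{0} k G'} (f : G' →* G)
    (φ : Rep.res f B ⟶ B') (p : ℕ) : Rep.res f (pImg B p) ⟶ pImg B' p :=
  Rep.ofHom ⟨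
    { toFun := fun x => (⟨φ.hom (show ↥(pSub B p) from x).1, by
          obtain ⟨c, hc⟩ := (show ↥(pSub B p) from x).2
          exact ⟨φ.hom c, by rw [← hc]; exact (map_nsmul φ.hom p c).symm⟩⟩ : ↥(pSub B' p))
      map_add' := fun x y => Subtype.ext (map_add φ.hom _ _)
      map_smul' := fun r x => Subtype.ext (map_smul φ.hom _ _) },
    fun g => by
      ext x
      exact Rep.hom_comm_apply φ g (show ↥(pSub B p) from x).1⟩

lemma pImgMap_apply_coe {B : Rep.{0} k G} {B' : Rep.{0} k G'} (f : G' →* G)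
    (φ : Rep.res f B ⟶ B') (p : ℕ) (x : (pImg B p).V) :
    (show ↥(pSub B' p) from (pImgMap f φ p).hom x).1 = φ.hom (show ↥(pSub B p) from x).1 := rfl

/-- Functoriality of `B ⧸ p • B`. -/
noncomputable def pCokMap {B : Rep.{0} k G} {B' : Rep.{0} k G'} (f : G' →* G)
    (φ : Rep.res f B ⟶ B') (p : ℕ) : Rep.res f (pCok B p) ⟶ pCok B' p :=
  Rep.ofHom ⟨(pSub B p).mapQ (pSub B' p) φ.hom.toLinearMap (by
      rintro _ ⟨c, rfl⟩
      exact ⟨φ.hom c, (map_nsmul φ.hom p c).symm⟩),
    fun g => by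
      apply LinearMap.ext
      intro x
      obtain ⟨b, rfl⟩ := Submodule.Quotient.mk_surjective (pSub B p) x
      exact congrArg (Submodule.Quotient.mk (p := pSub B' p)) (Rep.hom_comm_apply φ g b)⟩

lemma pCokMap_pProj {B : Rep.{0} k G} {B' : Rep.{0} k G'} (f : G' →* G)
    (φ : Rep.res f B ⟶ B') (p : ℕ) (b : B.V) :
    (pCokMap f φ p).hom ((pProj B p).hom b) = (pProj B' p).hom (φ.hom b) := rfl

lemma pImgMap_pMul {B : Rep.{0} k G} {B' : Rep.{0} k G'} (f : G' →* G)
    (φ : Rep.res f B ⟶ B') (p : ℕ) (b : B.V) :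
    (pImgMap f φ p).hom ((pMul B p).hom b) = (pMul B' p).hom (φ.hom b) :=
  Subtype.ext (map_nsmul φ.hom p b)

lemma pIncl_pImgMap {B : Rep.{0} k G} {B' : Rep.{0} k G'} (f : G' →* G)
    (φ : Rep.res f B ⟶ B') (p : ℕ) (x : (pImg B p).V) :
    (pIncl B' p).hom ((pImgMap f φ p).hom x) = φ.hom ((pIncl B p).hom x) := rfl

end Funct

end Fermat.Agent.S55.KL.H289

end
-- ===== PACK-END S55/KL/H289/PFunct.lean

-- ===== PACK-BEGIN S55/KL/ScalarsH795.lean
section


/-!
# S55 / KL : leaf KL:SCAL (subtask 406)                                      (helper795)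

    theorem Fermat.Agent.S55.KL.H795.scalars   : ScalarsSpec
    theorem Fermat.Agent.S55.KL.H795.cdScalars : CdScalarsSpec

Both unconditional.  Reusable tools in ANY degree `n` (no low-degree API needed):

* `IsCobdry A n f` : the `n`-cochain `f` is a coboundary (for `n = 0`: `f = 0`);
* `π_eq_zero_iff_isCobdry` : the class of a cocycle `c` vanishes iff its cochain is a coboundary;
* `map_π_eq_zero_iff` : `map f φ n (π c) = 0` iff the cochain `x ↦ φ (c (f ∘ x))` is a coboundary;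
* `d_comp_eq` : an additive equivariant map between representations over possibly DIFFERENT
  coefficient rings commutes with the inhomogeneous differential;
* `isCobdry_of_comp` : coboundaries can be detected after an equivariant additive equivalence.
-/


set_option autoImplicit false

open CategoryTheory groupCohomology

namespace Fermat.Agent.S55.KL.H795

section Criterion

variable {k : Type} [CommRing k] {G : Type} [Group G]

/-- The cochain `f` is a coboundary (in the complex of inhomogeneous cochains; in degree `0`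
this means `f = 0`). -/
def IsCobdry (A : Rep.{0} k G) (n : ℕ) (f : (Fin n → G) → A.V) : Prop :=
  ∃ b : (inhomogeneousCochains A).X ((ComplexShape.up ℕ).prev n),
    ((inhomogeneousCochains A).d ((ComplexShape.up ℕ).prev n) n).hom b = f

theorem π_eq_zero_iff_isCobdry (A : Rep.{0} k G) (n : ℕ) (c : cocycles A n) :
    (π A n).hom c = 0 ↔ IsCobdry A n ((iCocycles A n).hom c) := by
  set K := inhomogeneousCochains A with hK
  set i := (ComplexShape.up ℕ).prev n with hi
  have hex : (ShortComplex.mk (K.toCycles i n) (K.homologyπ n)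
      (K.toCycles_comp_homologyπ i n)).Exact :=
    ShortComplex.exact_of_g_is_cokernel _ (K.homologyIsCokernel i n hi.symm)
  rw [ShortComplex.moduleCat_exact_iff] at hex
  have hti : ∀ b, (K.iCycles n).hom ((K.toCycles i n).hom b) = (K.d i n).hom b := by
    intro b
    have := K.toCycles_i i n
    exact congrArg (fun φ => φ.hom b) this
  constructor
  · intro h
    obtain ⟨b, hb⟩ := hex c h
    refine ⟨b, ?_⟩
    rw [← hti]
    exact congrArg _ hb
  · rintro ⟨b, hb⟩
    have hinj : Function.Injective (K.iCycles n).hom :=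
      (ModuleCat.mono_iff_injective (K.iCycles n)).1 inferInstance
    have hc : (K.toCycles i n).hom b = c := hinj (by rw [hti]; exact hb)
    rw [← hc]
    have := K.toCycles_comp_homologyπ i n
    exact congrArg (fun φ => φ.hom b) this

end Criterion



section Compare

variable {k k' : Type} [CommRing k] [CommRing k'] {G : Type} [Group G]

lemma map_neg_one_pow_smul {M M' : Type} [AddCommGroup M] [AddCommGroup M'] [Module k M]
    [Module k' M'] (e : M →+ M') (m : ℕ) (x : M) :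
    e ((-1 : k) ^ m • x) = (-1 : k') ^ m • e x := by
  rcases Nat.even_or_odd m with h | h
  · rw [h.neg_one_pow, h.neg_one_pow, one_smul, one_smul]
  · rw [h.neg_one_pow, h.neg_one_pow, neg_one_smul, neg_one_smul, map_neg]

/-- An additive equivariant map between the underlying groups of two representations of `G`
(possibly over different coefficient rings) commutes with the inhomogeneous differential. -/
theorem d_comp_eq (A : Rep.{0} k G) (B : Rep.{0} k' G) (e : A.V →+ B.V)
    (he : ∀ g x, e (A.ρ g x) = B.ρ g (e x)) (n : ℕ) (f : (Fin n → G) → A.V) :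
    (inhomogeneousCochains.d B n).hom (fun x => e (f x)) =
      fun x => e ((inhomogeneousCochains.d A n).hom f x) := by
  funext g
  rw [inhomogeneousCochains.d_hom_apply, inhomogeneousCochains.d_hom_apply, map_add, he, map_sum]
  congr 1
  refine Finset.sum_congr rfl fun j _ => ?_
  exact (map_neg_one_pow_smul (k := k) (k' := k') e _ _).symm

theorem isCobdry_of_comp (A : Rep.{0} k G) (B : Rep.{0} k' G) (e : A.V ≃+ B.V)
    (he : ∀ g x, e (A.ρ g x) = B.ρ g (e x)) (n : ℕ) (f : (Fin n → G) → A.V)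
    (h : IsCobdry B n (fun x => e (f x))) : IsCobdry A n f := by
  cases n with
  | zero =>
    obtain ⟨b, hb⟩ := h
    have h0 : ((inhomogeneousCochains B).d ((ComplexShape.up ℕ).prev 0) 0) = 0 := by
      apply HomologicalComplex.shape
      simp
    rw [h0] at hb
    have hf : f = 0 := by
      funext x
      have := congrFun hb x
      apply e.injective
      show e (f x) = e 0
      rw [map_zero, ← this]
      rfl
    refine ⟨0, ?_⟩
    rw [map_zero, hf]
  | succ m =>
    obtain ⟨b, hb⟩ := h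
    have hp : (ComplexShape.up ℕ).prev (m + 1) = m := CochainComplex.prev_nat_succ m
    have key : ∀ (i : ℕ) (hi : i = m) (b : (inhomogeneousCochains B).X i),
        ((inhomogeneousCochains B).d i (m + 1)).hom b = (fun x => e (f x)) →
        ∃ b' : (inhomogeneousCochains A).X i,
          ((inhomogeneousCochains A).d i (m + 1)).hom b' = f := by
      rintro i rfl b hb
      refine ⟨fun x => e.symm (b x), ?_⟩
      rw [inhomogeneousCochains.d_def] at hb ⊢
      have h1 := d_comp_eq A B e.toAddMonoidHom he i (fun x => e.symm (b x))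
      funext g
      apply e.injective
      have h2 := congrFun h1 g
      have h3 := congrFun hb g
      simp only [AddEquiv.toAddMonoidHom_eq_coe, AddMonoidHom.coe_coe,
        AddEquiv.apply_symm_apply] at h2
      rw [← h3]
      exact h2.symm
    exact key _ hp b hb

end Compare


section MapCriterion

variable {k : Type} [CommRing k] {G G' : Type} [Group G] [Group G']

theorem map_π_eq_zero_iff {A : Rep.{0} k G} {B : Rep.{0} k G'} (f : G' →* G)
    (φ : Rep.res f A ⟶ B) (n : ℕ) (c : cocycles A n) :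
    (groupCohomology.map f φ n).hom ((π A n).hom c) = 0 ↔
      IsCobdry B n (fun x => φ.hom ((iCocycles A n).hom c (fun i => f (x i)))) := by
  have h1 : (groupCohomology.map f φ n).hom ((π A n).hom c) =
      (π B n).hom ((cocyclesMap f φ n).hom c) := π_map_apply f φ n c
  rw [h1, π_eq_zero_iff_isCobdry]
  have h2 : (iCocycles B n).hom ((cocyclesMap f φ n).hom c) =
      ((cochainsMap f φ).f n).hom ((iCocycles A n).hom c) := by
    have := HomologicalComplex.cyclesMap_i (cochainsMap f φ) n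
    exact congrArg (fun ψ => ψ.hom c) this
  rw [h2]
  rfl

end MapCriterion

section Scalars

variable {k : Type} [CommRing k] {Γ : Type} [Group Γ]

/-- The invariants of `R` and of `toInt R` are the same additive group. -/
def invEquiv (R : Rep.{0} k Γ) (W : Subgroup Γ) [W.Normal] :
    (R.quotientToInvariants W).V ≃+ ((toInt R).quotientToInvariants W).V where
  toFun x := ⟨x.1, fun w => x.2 w⟩
  invFun x := ⟨x.1, fun w => x.2 w⟩
  left_inv _ := rfl
  right_inv _ := rfl
  map_add' _ _ := rfl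

lemma invEquiv_val (R : Rep.{0} k Γ) (W : Subgroup Γ) [W.Normal]
    (x : (R.quotientToInvariants W).V) : (invEquiv R W x).1 = x.1 := rfl

lemma invEquiv_equivariant (R : Rep.{0} k Γ) (W : Subgroup Γ) [W.Normal] (g : Γ ⧸ W)
    (x : (R.quotientToInvariants W).V) :
    invEquiv R W ((R.quotientToInvariants W).ρ g x) =
      ((toInt R).quotientToInvariants W).ρ g (invEquiv R W x) := by
  induction g using QuotientGroup.induction_on with
  | H g => rfl

theorem d_iCocycles {G : Type} [Group G] (A : Rep.{0} k G) (n : ℕ) (c : cocycles A n) :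
    (inhomogeneousCochains.d A n).hom ((iCocycles A n).hom c) = 0 := by
  have h := (inhomogeneousCochains A).iCycles_d n (n + 1)
  rw [inhomogeneousCochains.d_def] at h
  exact congrArg (fun φ => φ.hom c) h

theorem scalars : ScalarsSpec := by
  intro k Γ _ _ N R n hZ V y
  induction y using groupCohomology_induction_on with
  | h c =>
    have hdf' : (inhomogeneousCochains.d ((toInt R).quotientToInvariants V.W) n).hom
        (fun x => invEquiv R V.W ((iCocycles (R.quotientToInvariants V.W) n).hom c x)) = 0 := by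
      have h0 := d_comp_eq (R.quotientToInvariants V.W) ((toInt R).quotientToInvariants V.W)
        (invEquiv R V.W).toAddMonoidHom (invEquiv_equivariant R V.W) n
        ((iCocycles (R.quotientToInvariants V.W) n).hom c)
      rw [d_iCocycles] at h0
      refine h0.trans ?_
      funext x
      exact map_zero _
    obtain ⟨V', h, hV'⟩ := hZ V ((π ((toInt R).quotientToInvariants V.W) n).hom
      (cocyclesMk _ hdf'))
    refine ⟨V', h, ?_⟩
    have h1 := (map_π_eq_zero_iff _ _ n _).1 hV'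
    rw [iCocycles_mk] at h1
    refine (map_π_eq_zero_iff _ _ n c).2 ?_
    refine isCobdry_of_comp _ _ (invEquiv R V'.W) (invEquiv_equivariant R V'.W) n _ ?_
    exact h1

theorem cdScalars : CdScalarsSpec := by
  intro k Γ _ _ N p hZ R hfin hp hsm
  refine scalars k Γ N R 3 (hZ (toInt R) hfin hp ?_)
  intro b
  obtain ⟨W, hW, h⟩ := hsm b
  exact ⟨W, hW, fun w hw => h w hw⟩

end Scalars

end Fermat.Agent.S55.KL.H795

end
-- ===== PACK-END S55/KL/ScalarsH795.lean

-- ===== PACK-BEGIN S55/L/ClassModule.lean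
section


/-!
# S55, layer L: transport to subgroups and the class-module statement

* `transportIso` : for `H ≤ Gal(L/K)` with fixed field `F`, `Hⁿ(H, Lˣ) ≅ Hⁿ(Gal(L/F), Lˣ)`.
* `classModule_of` : `H2CyclicSpec → FiniteExtSpec → ClassModuleSpec`.
-/

set_option autoImplicit false
set_option linter.style.haveILetI false

namespace Fermat.Agent.S55.L

open groupCohomology CategoryTheory

variable (K L : Type) [Field K] [Field L] [Algebra K L] [FiniteDimensional K L]

/-- **L-TR** The cohomology of a subgroup `H ≤ Gal(L/K)` with coefficients in `Lˣ` is the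
cohomology of `Gal(L/F)`, `F` the fixed field of `H`. -/
noncomputable def transportIso (H : Subgroup (L ≃ₐ[K] L)) (n : ℕ) :
    groupCohomology (Rep.res H.subtype (unitsRep K L)) n ≅
      groupCohomology (unitsRep (IntermediateField.fixedField H) L) n :=
  groupCohomology.mapIso (IntermediateField.subgroupEquivAlgEquiv H)
    (LinearEquiv.refl ℤ _) (fun _ => rfl) n

/-- Additive version of `transportIso`. -/
noncomputable def transportAddEquiv (H : Subgroup (L ≃ₐ[K] L)) (n : ℕ) :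
    groupCohomology (Rep.res H.subtype (unitsRep K L)) n ≃+
      groupCohomology (unitsRep (IntermediateField.fixedField H) L) n :=
  (transportIso K L H n).toLinearEquiv.toAddEquiv

/-- **L-CM** from the cyclicity of `H²` for all finite Galois extensions of local fields. -/
theorem classModule_of (h2 : H2CyclicSpec) (h1 : FiniteExtSpec) : ClassModuleSpec := by
  intro K L _ _ _ _ _ _ H
  haveI : IsLocalFld (IntermediateField.fixedField H) :=
    h1 K (IntermediateField.fixedField H)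
  haveI : IsGalois (IntermediateField.fixedField H) L := IsGalois.tower_top_of_isGalois K _ L
  constructor
  · haveI : Subsingleton (H1 (unitsRep (IntermediateField.fixedField H) L)) :=
      (inferInstance : Subsingleton (H1 (Rep.ofAlgebraAutOnUnits (IntermediateField.fixedField H) L)))
    exact (transportAddEquiv K L H 1).toEquiv.subsingleton
  · obtain ⟨e⟩ := h2 (IntermediateField.fixedField H) L
    rw [IntermediateField.finrank_fixedField_eq_card] at e
    exact ⟨(transportAddEquiv K L H 2).trans e⟩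

end Fermat.Agent.S55.L

end
-- ===== PACK-END S55/L/ClassModule.lean

-- ===== PACK-BEGIN S55/L/D1H301.lean
section




/-!
# S55, layer L, leaf L-D1 (helper301): `H3Spec` and `NormIndexSpec`

From the class-module statement `ClassModuleSpec` of layer L and Tate's theorem (layer T:
`TateH3Spec`, `TateReciprocitySpec`) we deduce `H³(Gal(L/K), Lˣ) = 0` and the norm index formula
`[Kˣ : N Lˣ] = |Gal(L/K)^ab|`.
-/

set_option autoImplicit false

namespace Fermat.Agent.S55.L

open CategoryTheory groupCohomology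

section TopIso

variable {k G : Type} [CommRing k] [Group G] (A : Rep.{0} k G)

/-- `Hⁿ(⊤, A|⊤) ≅ Hⁿ(G, A)`. -/
noncomputable def topIsoH301 (n : ℕ) :
    groupCohomology (T.resSub A (⊤ : Subgroup G)) n ≅ groupCohomology A n :=
  groupCohomology.mapIso (A := A) (B := T.resSub A (⊤ : Subgroup G))
    (Subgroup.topEquiv : (⊤ : Subgroup G) ≃* G) (LinearEquiv.refl k A.V)
    (fun g => by
      show (LinearEquiv.refl k A.V : A.V →ₗ[k] A.V) ∘ₗ (T.resSub A ⊤).ρ g =
        A.ρ (Subgroup.topEquiv g) ∘ₗ (LinearEquiv.refl k A.V : A.V →ₗ[k] A.V)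
      ext x; rfl) n

theorem topIsoH301_inv (n : ℕ) : (topIsoH301 A n).inv = T.resMap A ⊤ n := by
  exact groupCohomology.map_congr rfl rfl n

theorem resMap_topIsoH301_hom (n : ℕ) (x : groupCohomology (T.resSub A (⊤ : Subgroup G)) n) :
    (T.resMap A ⊤ n).hom ((topIsoH301 A n).hom.hom x) = x := by
  rw [← topIsoH301_inv]
  exact congrArg (fun f => f.hom x) (topIsoH301 A n).hom_inv_id

theorem topIsoH301_hom_resMap (n : ℕ) (x : groupCohomology A n) :
    (topIsoH301 A n).hom.hom ((T.resMap A ⊤ n).hom x) = x := by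
  rw [← topIsoH301_inv]
  exact congrArg (fun f => f.hom x) (topIsoH301 A n).inv_hom_id

end TopIso

section Abstract

/-- In a group isomorphic to `ZMod n`, the preimage of `1` has exact order `n`. -/
theorem dvd_of_zsmul_symm_one_h301 {M : Type*} [AddCommGroup M] (n : ℕ) (e : M ≃+ ZMod n)
    (c : ℤ) (hc : c • e.symm 1 = 0) : (n : ℤ) ∣ c := by
  have h3 : e (c • e.symm 1) = 0 := by rw [hc, map_zero]
  rw [map_zsmul, AddEquiv.apply_symm_apply, zsmul_one] at h3
  exact (ZMod.intCast_zmod_eq_zero_iff_dvd c n).1 h3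

/-- Pure group theory behind "the restriction of a fundamental class is a fundamental class". -/
theorem cyclic_res_gen_h301 {M N : Type*} [AddCommGroup M] [AddCommGroup N] (n m idx : ℕ)
    (hn : idx * m = n) (hidx : idx ≠ 0) (hm : 0 < m)
    (γ : M) (hγ : ∀ c : ℤ, c • γ = 0 → (n : ℤ) ∣ c)
    (res : M →+ N) (hres : ∀ x : M, res x = 0 → idx • x = 0)
    (e : N ≃+ ZMod m) :
    (∀ x : N, ∃ c : ℤ, x = c • res γ) ∧ (∀ c : ℤ, c • res γ = 0 → ∃ d : ℤ, c = (m : ℤ) * d) ∧
      (m : ℤ) • res γ = 0 := by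
  classical
  have : NeZero m := ⟨hm.ne'⟩
  have : Finite N := Finite.of_equiv _ e.symm.toEquiv
  have hcard : Nat.card N = m := by rw [Nat.card_congr e.toEquiv, Nat.card_zmod]
  have p4 : (m : ℤ) • res γ = 0 := by
    rw [natCast_zsmul, ← hcard]
    exact card_nsmul_eq_zero'
  have p3 : ∀ c : ℤ, c • res γ = 0 → ∃ d : ℤ, c = (m : ℤ) * d := by
    intro c hc
    have h5 : res (c • γ) = 0 := by rw [map_zsmul]; exact hc
    have h6 : idx • (c • γ) = 0 := hres _ h5
    have h7 : ((idx : ℤ) * c) • γ = 0 := by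
      rw [mul_smul, natCast_zsmul]; exact h6
    have h8 := hγ _ h7
    rw [← hn] at h8
    push_cast at h8
    have hidx' : (idx : ℤ) ≠ 0 := by exact_mod_cast hidx
    exact (mul_dvd_mul_iff_left hidx').1 h8
  refine ⟨fun x => ?_, p3, p4⟩
  have hord : addOrderOf (res γ) = m := by
    apply Nat.dvd_antisymm
    · apply addOrderOf_dvd_of_nsmul_eq_zero
      rw [← natCast_zsmul]; exact p4
    · obtain ⟨d, hd⟩ := p3 (addOrderOf (res γ))
        (by rw [natCast_zsmul]; exact addOrderOf_nsmul_eq_zero _)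
      exact Int.natCast_dvd_natCast.1 ⟨d, hd⟩
  have htop : AddSubgroup.zmultiples (res γ) = ⊤ := by
    apply AddSubgroup.eq_top_of_card_eq
    rw [Nat.card_zmultiples, hord, hcard]
  have hx : x ∈ AddSubgroup.zmultiples (res γ) := htop ▸ AddSubgroup.mem_top x
  obtain ⟨c, hc⟩ := AddSubgroup.mem_zmultiples_iff.1 hx
  exact ⟨c, hc.symm⟩

end Abstract

section ClassModule

variable {G : Type} [Group G] [Finite G] (C : Rep.{0} ℤ G)

/-- If all `H¹(H, C)` vanish and every `H²(H, C)` is cyclic of order `|H|`, then `C` has a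
fundamental class. -/
theorem exists_isClassModule_h301
    (h1 : ∀ H : Subgroup G, Subsingleton (groupCohomology (T.resSub C H) 1))
    (h2 : ∀ H : Subgroup G, Nonempty (groupCohomology (T.resSub C H) 2 ≃+ ZMod (Nat.card H))) :
    ∃ γ : groupCohomology C 2, T.IsClassModule C γ := by
  classical
  obtain ⟨eT⟩ := h2 ⊤
  set γ₀ : groupCohomology (T.resSub C (⊤ : Subgroup G)) 2 := eT.symm 1 with hγ₀
  set γ : groupCohomology C 2 := (topIsoH301 C 2).hom.hom γ₀ with hγ
  have hcardT : Nat.card (⊤ : Subgroup G) = Nat.card G := Subgroup.card_top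
  have key : ∀ c : ℤ, c • γ = 0 → (Nat.card G : ℤ) ∣ c := by
    intro c hc
    have h0 : c • γ₀ = 0 := by
      have := congrArg (T.resMap C ⊤ 2).hom.toAddMonoidHom hc
      rw [map_zsmul, map_zero] at this
      rw [hγ] at this
      have h' : (T.resMap C ⊤ 2).hom.toAddMonoidHom ((topIsoH301 C 2).hom.hom γ₀) = γ₀ :=
        resMap_topIsoH301_hom C 2 γ₀
      rwa [h'] at this
    have := dvd_of_zsmul_symm_one_h301 _ eT c h0
    rwa [hcardT] at this
  refine ⟨γ, fun H => ?_⟩
  obtain ⟨eH⟩ := h2 H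
  obtain ⟨q2, q3, q4⟩ := cyclic_res_gen_h301 (Nat.card G) (Nat.card H) H.index
    (Subgroup.index_mul_card H) Subgroup.index_ne_zero_of_finite Nat.card_pos γ key
    (T.resMap C H 2).hom.toAddMonoidHom
    (fun x hx => Fermat.Agent.S55.H119.index_nsmul_eq_zero_of_resMap_eq_zero_two C H x hx) eH
  refine ⟨ModuleCat.isZero_of_subsingleton _, ?_, ?_, ?_⟩
  · intro x
    obtain ⟨c, hc⟩ := q2 x
    exact ⟨c, hc.trans (int_smul_eq_zsmul _ c _).symm⟩
  · intro c hc
    exact q3 c ((int_smul_eq_zsmul _ c _).symm.trans hc)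
  · exact (int_smul_eq_zsmul _ _ _).trans q4

end ClassModule

section Local

variable (K L : Type) [Field K] [Field L] [Algebra K L] [FiniteDimensional K L] [IsGalois K L]
  [IsLocalFld K]

/-- A fundamental class for `(Gal(L/K), Lˣ)` from `ClassModuleSpec`. -/
theorem exists_isClassModule_unitsRep_h301 (hCM : ClassModuleSpec) :
    ∃ γ : groupCohomology (unitsRep K L) 2, T.IsClassModule (unitsRep K L) γ :=
  exists_isClassModule_h301 (unitsRep K L) (fun H => (hCM K L H).1) (fun H => (hCM K L H).2)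

end Local

/-- **L-D1a** `H³(Gal(L/K), Lˣ) = 0`, from the class-module statement and Tate's theorem. -/
theorem h3Spec_of_h301 (hCM : ClassModuleSpec) (hT : T.TateH3Spec) : H3Spec := by
  intro K L _ _ _ _ _ _
  obtain ⟨γ, hγ⟩ := exists_isClassModule_unitsRep_h301 K L hCM
  have h := hT (L ≃ₐ[K] L) (unitsRep K L) γ hγ ⊤
  have h' : Limits.IsZero (groupCohomology (unitsRep K L) 3) :=
    h.of_iso (topIsoH301 (unitsRep K L) 3).symm
  exact ModuleCat.subsingleton_of_isZero h'

section NormIndex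

open Additive

/-- The norm of a restricted multiplicative representation. -/
theorem norm_comp_ofMulDistribMulAction_h301 {G H M : Type} [Group G] [Group H] [Fintype H]
    [CommGroup M] [MulDistribMulAction G M] (f : H →* G) (x : Additive M) :
    toMul (Representation.norm
      ((Representation.ofMulDistribMulAction G M).comp f : Representation ℤ H (Additive M)) x) =
      ∏ h : H, (f h) • toMul x := by
  simp [Representation.norm]

variable (K L : Type) [Field K] [Field L] [Algebra K L] [FiniteDimensional K L] [IsGalois K L]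

/-- The norm of the restriction to `⊤` of `Lˣ` is the field norm. -/
theorem resTop_norm_h301 [Fintype (⊤ : Subgroup (L ≃ₐ[K] L))] (y : Lˣ) :
    ((toMul (Representation.norm ((Representation.ofMulDistribMulAction (L ≃ₐ[K] L) Lˣ).comp
      (⊤ : Subgroup (L ≃ₐ[K] L)).subtype : Representation ℤ (⊤ : Subgroup (L ≃ₐ[K] L)) (Additive Lˣ))
        (ofMul y)) : Lˣ) : L) =
      algebraMap K L (Algebra.norm K (y : L)) := by
  classical
  rw [Algebra.norm_eq_prod_automorphisms, norm_comp_ofMulDistribMulAction_h301, Units.coe_prod]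
  refine Fintype.prod_equiv (Subgroup.topEquiv : (⊤ : Subgroup (L ≃ₐ[K] L)) ≃* _).toEquiv _ _ ?_
  intro g
  rfl

omit [FiniteDimensional K L] [IsGalois K L] in
theorem resTop_ρ_h301 :
    (T.resSub (unitsRep K L) (⊤ : Subgroup (L ≃ₐ[K] L))).ρ =
      ((Representation.ofMulDistribMulAction (L ≃ₐ[K] L) Lˣ).comp
        (⊤ : Subgroup (L ≃ₐ[K] L)).subtype) := rfl

end NormIndex

section Hat0

/-- Abstract computation of `|Ĥ⁰|` as an index. -/
theorem card_hat0_eq_index_h301 {k H : Type} [CommRing k] [Group H] [Fintype H]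
    (A : Rep.{0} k H)
    {Q : Type} [Group Q] (ι : Additive Q →+ A.V)
    (hinv : ∀ x : A.V, x ∈ A.ρ.invariants ↔ ∃ u, ι u = x)
    (S : Subgroup Q)
    (hS : ∀ u : Q, u ∈ S ↔ ∃ y : A.V, A.ρ.norm y = ι (Additive.ofMul u)) :
    Nat.card (T.hat0 A) = S.index := by
  classical
  -- the map `Additive Q →+ Ĥ⁰`
  let ι' : Additive Q →+ A.ρ.invariants :=
    { toFun := fun u => ⟨ι u, (hinv _).2 ⟨u, rfl⟩⟩
      map_zero' := by ext; simp
      map_add' := fun u v => by ext; simp }
  let ψ : Additive Q →+ T.hat0 A :=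
    ((Submodule.mkQ ((LinearMap.range A.ρ.norm).comap A.ρ.invariants.subtype)).toAddMonoidHom).comp ι'
  have hsurj : Function.Surjective ψ := by
    intro z
    obtain ⟨⟨x, hx⟩, rfl⟩ := Submodule.Quotient.mk_surjective _ z
    obtain ⟨u, hu⟩ := (hinv x).1 hx
    refine ⟨u, ?_⟩
    show Submodule.Quotient.mk (ι' u) = _
    congr 1
    exact Subtype.ext hu
  have hker : ψ.ker = Subgroup.toAddSubgroup S := by
    ext u
    rw [AddMonoidHom.mem_ker]
    show Submodule.Quotient.mk (ι' u) = 0 ↔ _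
    rw [Submodule.Quotient.mk_eq_zero, Submodule.mem_comap, LinearMap.mem_range]
    exact (hS (Additive.toMul u)).symm
  have h1 : ψ.ker.index = Nat.card (T.hat0 A) := by
    rw [AddSubgroup.index_ker, AddMonoidHom.range_eq_top.2 hsurj]
    exact Nat.card_congr (Equiv.Set.univ _)
  rw [← h1, hker, Subgroup.index_toAddSubgroup]

end Hat0

section NormIndexFinal

open Additive

variable (K L : Type) [Field K] [Field L] [Algebra K L] [FiniteDimensional K L] [IsGalois K L]

/-- `|Ĥ⁰(Gal(L/K), Lˣ)| = [Kˣ : N Lˣ]` (computed on the restriction to `⊤`). -/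
theorem card_hat0_unitsRep_h301 [Fintype (⊤ : Subgroup (L ≃ₐ[K] L))] :
    Nat.card (T.hat0 (T.resSub (unitsRep K L) (⊤ : Subgroup (L ≃ₐ[K] L)))) =
      (MonoidHom.range (Units.map (Algebra.norm K : L →* K))).index := by
  classical
  refine card_hat0_eq_index_h301 (T.resSub (unitsRep K L) (⊤ : Subgroup (L ≃ₐ[K] L)))
    (Q := Kˣ) (show Additive Kˣ →+ Additive Lˣ from
      (Units.map (algebraMap K L : K →* L)).toAdditive) ?_ _ ?_
  · intro x
    constructor
    · intro hx
      have hfix : ∀ σ : L ≃ₐ[K] L, σ ((toMul (show Additive Lˣ from x) : Lˣ) : L) =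
          ((toMul (show Additive Lˣ from x) : Lˣ) : L) := by
        intro σ
        have := hx ⟨σ, Subgroup.mem_top σ⟩
        exact congrArg (fun z : Additive Lˣ => ((toMul z : Lˣ) : L)) this
      obtain ⟨a, ha⟩ := (IsGalois.mem_range_algebraMap_iff_fixed _).2 hfix
      have ha0 : a ≠ 0 := by
        rintro rfl
        rw [map_zero] at ha
        exact (Units.ne_zero _) ha.symm
      refine ⟨ofMul (Units.mk0 a ha0), ?_⟩
      show ofMul (Units.map (algebraMap K L : K →* L) (Units.mk0 a ha0)) = _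
      apply congrArg ofMul
      apply Units.ext
      exact ha
    · rintro ⟨u, rfl⟩ g
      show ofMul ((g : L ≃ₐ[K] L) • Units.map (algebraMap K L : K →* L) (toMul u)) = _
      apply congrArg ofMul
      apply Units.ext
      exact (g : L ≃ₐ[K] L).commutes _
  · intro u
    constructor
    · rintro ⟨w, rfl⟩
      refine ⟨(show Additive Lˣ from ofMul w), ?_⟩
      show Representation.norm ((Representation.ofMulDistribMulAction (L ≃ₐ[K] L) Lˣ).comp
        (⊤ : Subgroup (L ≃ₐ[K] L)).subtype : Representation ℤ (⊤ : Subgroup (L ≃ₐ[K] L))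
          (Additive Lˣ)) (ofMul w) =
        ofMul (Units.map (algebraMap K L : K →* L) (Units.map (Algebra.norm K : L →* K) w))
      apply toMul.injective
      apply Units.ext
      rw [resTop_norm_h301]
      rfl
    · rintro ⟨y, hy⟩
      refine ⟨toMul (show Additive Lˣ from y), ?_⟩
      have hy' : Representation.norm ((Representation.ofMulDistribMulAction (L ≃ₐ[K] L) Lˣ).comp
        (⊤ : Subgroup (L ≃ₐ[K] L)).subtype : Representation ℤ (⊤ : Subgroup (L ≃ₐ[K] L))
          (Additive Lˣ)) (ofMul (toMul (show Additive Lˣ from y))) =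
        ofMul (Units.map (algebraMap K L : K →* L) u) := hy
      have h2 := congrArg (fun z : Additive Lˣ => ((toMul z : Lˣ) : L)) hy'
      simp only [resTop_norm_h301] at h2
      apply Units.ext
      apply (algebraMap K L).injective
      exact h2

end NormIndexFinal

/-- **L-D1b** the norm index formula `[Kˣ : N Lˣ] = |Gal(L/K)^ab|`, from the class-module
statement and Tate's reciprocity isomorphism. -/
theorem normIndexSpec_of_h301 (hCM : ClassModuleSpec) (hT : T.TateReciprocitySpec) :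
    NormIndexSpec := by
  intro K L _ _ _ _ _ _
  classical
  obtain ⟨γ, hγ⟩ := exists_isClassModule_unitsRep_h301 K L hCM
  let _ : Fintype (⊤ : Subgroup (L ≃ₐ[K] L)) := Fintype.ofFinite _
  obtain ⟨e⟩ := hT (L ≃ₐ[K] L) (unitsRep K L) γ hγ ⊤
  rw [← card_hat0_unitsRep_h301 K L, ← Nat.card_congr e.toEquiv]
  exact Nat.card_congr
    ((Additive.ofMul.symm).trans
      (Subgroup.topEquiv : (⊤ : Subgroup (L ≃ₐ[K] L)) ≃* _).abelianizationCongr.toEquiv)



end Fermat.Agent.S55.L

end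
-- ===== PACK-END S55/L/D1H301.lean

-- ===== PACK-BEGIN S55/L/H661/UR4.lean
section



/-!
# UR4 : `Fermat.Agent.S55.Local.UnramNormUnitsStatement`

In an unramified extension of local fields every unit of `K` is the norm of a unit of `L`.
(helper715's frozen interface, exact statement.)
-/

set_option linter.unusedSectionVars false
set_option linter.style.haveILetI false

namespace Fermat.Agent.S55.L.H661

open IsLocalRing Fermat.Agent.S55.Local

/-- **UR4** (exact frozen statement). -/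
theorem unramNormUnits : Fermat.Agent.S55.Local.UnramNormUnitsStatement := by
  intro A F _ _ _ _ _ _ _ _ _ K _ _ _ L _ _ _ _ _ _ hunr u hu
  -- algebra structures over `A`
  letI algAK : Algebra A K := (toL A F K).toAlgebra
  haveI towAFK : IsScalarTower A F K := IsScalarTower.of_algebraMap_eq (fun _ => rfl)
  letI algAL : Algebra A L := (toL A F L).toAlgebra
  haveI towAFL : IsScalarTower A F L := IsScalarTower.of_algebraMap_eq (fun _ => rfl)
  haveI towAKL : IsScalarTower A K L := IsScalarTower.of_algebraMap_eq (fun a => by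
    change algebraMap F L (algebraMap A F a) = algebraMap K L (algebraMap F K (algebraMap A F a))
    rw [← IsScalarTower.algebraMap_apply F K L])
  haveI : CharZero K := charZero_of_injective_algebraMap (algebraMap F K).injective
  haveI : CharZero L := charZero_of_injective_algebraMap (algebraMap F L).injective
  -- the ring of integers of `K`
  haveI hRloc : IsLocalRing (integralClosure A K) :=
    intClosure_isLocalRing A F K (integralClosure A K)
  haveI hRdvr : IsDiscreteValuationRing (integralClosure A K) :=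
    intClosure_isDVR A F K (integralClosure A K)
  haveI hRcomp : IsAdicComplete (maximalIdeal (integralClosure A K)) (integralClosure A K) :=
    intClosure_isAdicComplete A F K (integralClosure A K)
  haveI hRfin : Finite (ResidueField (integralClosure A K)) :=
    intClosure_finite_residueField A F K (integralClosure A K)
  haveI hRfrac : IsFractionRing (integralClosure A K) K :=
    intClosure_isFractionRing A F K (integralClosure A K)
  haveI hRint : Algebra.IsIntegral A (integralClosure A K) :=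
    intClosure_isIntegral A F K (integralClosure A K)
  -- integrality over `A` and over the ring of integers of `K` agree
  have hint : ∀ x : L, IsIntegral (integralClosure A K) x ↔ IsInt A F L x := by
    intro x
    constructor
    · intro hx
      exact isIntegral_trans (R := A) (A := integralClosure A K) x hx
    · intro hx
      exact IsIntegral.tower_top (R := A) (A := integralClosure A K) hx
  -- the unramifiedness hypothesis
  have hunr' : ∀ x : Lˣ, ∃ y : Kˣ,
      IsIntegral (integralClosure A K) ((x : L) * (algebraMap K L (y : K))⁻¹) ∧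
      IsIntegral (integralClosure A K) ((algebraMap K L (y : K)) * ((x⁻¹ : Lˣ) : L)) := by
    intro x
    obtain ⟨y, hy⟩ := hunr x
    rw [mem_intUnits] at hy
    refine ⟨y, (hint _).mpr ?_, (hint _).mpr ?_⟩
    · have := hy.1
      simpa [unitsIncl, Units.val_inv_eq_inv_val] using this
    · have := hy.2
      simpa [unitsIncl, Units.val_inv_eq_inv_val, mul_comm] using this
  -- the unit `u` of the ring of integers of `K`
  rw [mem_intUnits] at hu
  let u₀ : integralClosure A K := ⟨(u : K), hu.1⟩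
  let u₁ : integralClosure A K := ⟨((u⁻¹ : Kˣ) : K), hu.2⟩
  have hu01 : u₀ * u₁ = 1 := Subtype.ext (by change (u : K) * ((u⁻¹ : Kˣ) : K) = 1; simp)
  have hu10 : u₁ * u₀ = 1 := by rw [mul_comm]; exact hu01
  let uR : (integralClosure A K)ˣ := ⟨u₀, u₁, hu01, hu10⟩
  obtain ⟨w, hw1, hw2, hw3⟩ :=
    exists_unit_norm_eq_of_isUnram (integralClosure A K) K L hunr' uR
  refine ⟨w, ?_, ?_⟩
  · rw [mem_intUnits]
    exact ⟨(hint _).mp hw1, (hint _).mp hw2⟩
  · apply Units.ext
    rw [normUnits_coe, hw3]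
    rfl

end Fermat.Agent.S55.L.H661

end
-- ===== PACK-END S55/L/H661/UR4.lean

-- ===== PACK-BEGIN S55/Local/H530/GlueT2.lean
section


/-!
# S55 layer L — GLUE T2 (helper530, subtask 273)

Norm group of an unramified extension `L / K` of degree `n`: for a unit `u` of `K` and a
uniformizer `ϖK` of `K`, `u * ϖK ^ m` is a norm from `L` iff `n ∣ m`.

Inputs: UR4 (`UnramNormUnitsStatement`: units of `K` are norms of units of `L`) and
LF8 (`NormUnitsIntStatement`: norms of integral units are integral units).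
(`IsUnram` itself and `Algebra.norm_algebraMap` replace the use of LF7/LF3.)
-/

set_option autoImplicit false

namespace Fermat.Agent.S55.Local.H530

open Fermat.Agent.S55.Local

section aux

variable {A F : Type} [CommRing A] [Field F] [Algebra A F]
variable {K : Type} [Field K] [Algebra F K]

/-- A power of a uniformizer is an integral unit only for the exponent `0`. -/
lemma eq_zero_of_unif_zpow_mem {ϖ : Kˣ} (h : IsUnif A F K ϖ) {j : ℤ}
    (hj : ϖ ^ j ∈ intUnits A F K) : j = 0 := by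
  -- positive exponent case
  have pos : ∀ d : ℕ, ϖ ^ (d + 1) ∉ intUnits A F K := by
    intro d hd
    apply h.2.1
    refine ⟨h.1, ?_⟩
    have e : ((ϖ⁻¹ : Kˣ) : K) = ((ϖ ^ d : Kˣ) : K) * (((ϖ ^ (d + 1))⁻¹ : Kˣ) : K) := by
      rw [← Units.val_mul]
      congr 1
      rw [pow_succ, mul_inv_rev, ← mul_assoc, mul_comm (ϖ ^ d) ϖ⁻¹, mul_assoc,
        mul_inv_cancel, mul_one]
    rw [e]
    refine IsInt.mul ?_ hd.2
    rw [Units.val_pow_eq_pow_val]
    clear e hd
    induction d with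
    | zero => simpa using isInt_one A F K
    | succ d ih => rw [pow_succ]; exact ih.mul h.1
  rcases lt_trichotomy j 0 with hlt | heq | hgt
  · exfalso
    obtain ⟨d, hd⟩ : ∃ d : ℕ, j = -((d : ℤ) + 1) := ⟨(-j - 1).toNat, by omega⟩
    have := (intUnits A F K).inv_mem hj
    rw [← zpow_neg, hd, neg_neg] at this
    have h2 : ϖ ^ ((d : ℤ) + 1) = ϖ ^ (d + 1) := by
      rw [← zpow_natCast]; congr 1
    rw [h2] at this
    exact pos d this
  · exact heq
  · exfalso
    obtain ⟨d, hd⟩ : ∃ d : ℕ, j = (d : ℤ) + 1 := ⟨(j - 1).toNat, by omega⟩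
    have h2 : ϖ ^ ((d : ℤ) + 1) = ϖ ^ (d + 1) := by
      rw [← zpow_natCast]; congr 1
    rw [hd, h2] at hj
    exact pos d hj

variable {L : Type} [Field L] [Algebra F L] [Algebra K L]

lemma normUnits_unitsIncl (y : Kˣ) :
    normUnits L K (unitsIncl L K y) = y ^ Module.finrank K L := by
  ext
  simp [Algebra.norm_algebraMap]

end aux

/-- **T2** (glue): norm group of an unramified extension. -/
theorem unramNormRange_of (hUR4 : UnramNormUnitsStatement) (hLF8 : NormUnitsIntStatement) :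
    UnramNormRangeStatement := by
  intro A F _ _ _ _ _ _ _ _ _ K _ _ _ L _ _ _ _ _ _ ϖK hur hϖK u m hu
  constructor
  · -- a norm has valuation divisible by `n`
    rintro ⟨x, hx⟩
    obtain ⟨y, hy⟩ := hur x
    obtain ⟨k, hk⟩ := hϖK.2.2 y
    have hNv := hLF8 A F K L _ hy
    refine ⟨k, ?_⟩
    -- `ϖK ^ (m - n * k)` is an integral unit
    have key : ϖK ^ (m - (Module.finrank K L : ℤ) * k) ∈ intUnits A F K := by
      have hN : normUnits L K (x * (unitsIncl L K y)⁻¹) =
          u * ϖK ^ m * (y ^ Module.finrank K L)⁻¹ := by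
        rw [map_mul, map_inv, normUnits_unitsIncl, hx]
      have hb : (y * ϖK ^ (-k)) ^ Module.finrank K L =
          y ^ Module.finrank K L * ϖK ^ (-((Module.finrank K L : ℤ) * k)) := by
        rw [mul_pow, ← zpow_natCast (ϖK ^ (-k)), ← zpow_mul]
        congr 2
        ring
      have e : ϖK ^ (m - (Module.finrank K L : ℤ) * k) =
          u⁻¹ * (normUnits L K (x * (unitsIncl L K y)⁻¹) *
            (y * ϖK ^ (-k)) ^ Module.finrank K L) := by
        rw [hN, hb, sub_eq_add_neg, zpow_add]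
        generalize y ^ Module.finrank K L = Y
        generalize ϖK ^ m = P
        generalize ϖK ^ (-((Module.finrank K L : ℤ) * k)) = Q
        group
      rw [e]
      exact (intUnits A F K).mul_mem ((intUnits A F K).inv_mem hu)
        ((intUnits A F K).mul_mem hNv ((intUnits A F K).pow_mem hk _))
    have := eq_zero_of_unif_zpow_mem hϖK key
    linarith
  · -- conversely
    rintro ⟨k, rfl⟩
    obtain ⟨w, -, hw⟩ := hUR4 A F K L hur u hu
    refine ⟨w * (unitsIncl L K ϖK) ^ k, ?_⟩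
    rw [map_mul, map_zpow, normUnits_unitsIncl, hw, ← zpow_natCast, ← zpow_mul]

end Fermat.Agent.S55.Local.H530

end
-- ===== PACK-END S55/Local/H530/GlueT2.lean

-- ===== PACK-BEGIN S55/Herbrand/Cyclic.lean
section


/-!
# Herbrand quotient of a module over a finite cyclic group

For an additive commutative group `A` with an endomorphism `σ` such that `σ ^ n = 1`, put
`delta σ = σ - 1` and `normN σ n = 1 + σ + ⋯ + σ ^ (n - 1)`.  Then
`h0 σ n = [ker (σ - 1) : im N]` (the order of `Ĥ⁰ ≅ H²`) and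
`h1 σ n = [ker N : im (σ - 1)]` (the order of `Ĥ⁻¹ ≅ H¹`), and the Herbrand quotient is
`herbrand σ n = h0 / h1`.

* `herbrand_mul_of_exact` : multiplicativity in short exact sequences;
* `herbrand_eq_one_of_finite`;
* `herbrand_eq_of_finite_coker`, `herbrand_eq_of_finite_ker`;
* `herbrand_one` : for the trivial action, `herbrand 1 n = [A : nA] / |A[n]|`;
* `herbrand_int` : `herbrand (1 : End ℤ) n = n`.
-/

set_option autoImplicit false

namespace Fermat.Agent.S55.Herbrand

open AddSubgroup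

variable {A B C : Type*} [AddCommGroup A] [AddCommGroup B] [AddCommGroup C]

/-- `σ - 1` as an endomorphism. -/
def delta (σ : AddMonoid.End A) : A →+ A := (σ - 1 : AddMonoid.End A)

/-- The norm `1 + σ + ⋯ + σ^(n-1)` as an endomorphism. -/
def normN (σ : AddMonoid.End A) (n : ℕ) : A →+ A :=
  (∑ i ∈ Finset.range n, σ ^ i : AddMonoid.End A)

@[simp] lemma delta_apply (σ : AddMonoid.End A) (a : A) : delta σ a = σ a - a := rfl

lemma normN_apply (σ : AddMonoid.End A) (n : ℕ) (a : A) :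
    normN σ n a = ∑ i ∈ Finset.range n, (σ ^ i) a := by
  simp only [normN]
  exact map_sum (AddMonoidHom.eval a) _ _

lemma delta_normN {σ : AddMonoid.End A} {n : ℕ} (hσ : σ ^ n = 1) (a : A) :
    delta σ (normN σ n a) = 0 := by
  have h : (σ - 1) * ∑ i ∈ Finset.range n, σ ^ i = 0 := by
    rw [mul_geom_sum, hσ, sub_self]
  exact DFunLike.congr_fun h a

lemma normN_delta {σ : AddMonoid.End A} {n : ℕ} (hσ : σ ^ n = 1) (a : A) :
    normN σ n (delta σ a) = 0 := by
  have h : (∑ i ∈ Finset.range n, σ ^ i) * (σ - 1) = 0 := by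
    rw [geom_sum_mul, hσ, sub_self]
  exact DFunLike.congr_fun h a

/-- `h⁰ = [ker (σ - 1) : im N]`, the order of `Ĥ⁰(⟨σ⟩, A)` (`0` if infinite). -/
noncomputable def h0 (σ : AddMonoid.End A) (n : ℕ) : ℕ := hIndex (delta σ) (normN σ n)

/-- `h¹ = [ker N : im (σ - 1)]`, the order of `H¹(⟨σ⟩, A)` (`0` if infinite). -/
noncomputable def h1 (σ : AddMonoid.End A) (n : ℕ) : ℕ := hIndex (normN σ n) (delta σ)

/-- The Herbrand quotient is defined: `h⁰` and `h¹` are finite. -/
def HerbrandDefined (σ : AddMonoid.End A) (n : ℕ) : Prop := IsDefined (delta σ) (normN σ n)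

/-- Herbrand quotient `h⁰/h¹ = [ker (σ-1) : im N] / [ker N : im (σ-1)]`. -/
noncomputable def herbrand (σ : AddMonoid.End A) (n : ℕ) : ℚ := q (delta σ) (normN σ n)

lemma herbrand_eq_div (σ : AddMonoid.End A) (n : ℕ) :
    herbrand σ n = (h0 σ n : ℚ) / (h1 σ n : ℚ) := rfl

lemma herbrandDefined_iff (σ : AddMonoid.End A) (n : ℕ) :
    HerbrandDefined σ n ↔ h0 σ n ≠ 0 ∧ h1 σ n ≠ 0 := Iff.rfl

lemma h0_eq_relIndex (σ : AddMonoid.End A) (n : ℕ) :
    h0 σ n = (AddMonoidHom.range (normN σ n)).relIndex (AddMonoidHom.ker (delta σ)) := rfl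

lemma h1_eq_relIndex (σ : AddMonoid.End A) (n : ℕ) :
    h1 σ n = (AddMonoidHom.range (delta σ)).relIndex (AddMonoidHom.ker (normN σ n)) := rfl

section Equivariant

variable {σA : AddMonoid.End A} {σB : AddMonoid.End B} {σC : AddMonoid.End C}

lemma map_pow_of_comm {i : A →+ B} (hiσ : ∀ a, i (σA a) = σB (i a)) (k : ℕ) (a : A) :
    i ((σA ^ k) a) = (σB ^ k) (i a) := by
  induction k generalizing a with
  | zero => simp
  | succ k ih =>
    rw [pow_succ, pow_succ]
    change i ((σA ^ k) (σA a)) = (σB ^ k) (σB (i a))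
    rw [ih, hiσ]

lemma map_delta_of_comm {i : A →+ B} (hiσ : ∀ a, i (σA a) = σB (i a)) (a : A) :
    i (delta σA a) = delta σB (i a) := by
  simp [hiσ]

lemma map_normN_of_comm {i : A →+ B} (hiσ : ∀ a, i (σA a) = σB (i a)) (n : ℕ) (a : A) :
    i (normN σA n a) = normN σB n (i a) := by
  rw [normN_apply, normN_apply, map_sum]
  exact Finset.sum_congr rfl fun k _ => map_pow_of_comm hiσ k a

variable {n : ℕ} {i : A →+ B} {p : B →+ C}

/-- **Multiplicativity of the Herbrand quotient** for an equivariant short exact sequence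
`0 → A → B → C → 0` of modules over a cyclic group. -/
theorem herbrand_mul_of_exact (hσ : σB ^ n = 1)
    (hi : Function.Injective i) (hp : Function.Surjective p) (hex : p.ker = i.range)
    (hiσ : ∀ a, i (σA a) = σB (i a)) (hpσ : ∀ b, p (σB b) = σC (p b))
    (hA : HerbrandDefined σA n) (hC : HerbrandDefined σC n) :
    herbrand σB n = herbrand σA n * herbrand σC n :=
  q_mul_of_exact (delta_normN hσ) (normN_delta hσ) hi hp hex (map_delta_of_comm hiσ)
    (map_normN_of_comm hiσ n) (map_delta_of_comm hpσ) (map_normN_of_comm hpσ n) hA hC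

theorem herbrandDefined_mid (hσ : σB ^ n = 1)
    (hi : Function.Injective i) (hp : Function.Surjective p) (hex : p.ker = i.range)
    (hiσ : ∀ a, i (σA a) = σB (i a)) (hpσ : ∀ b, p (σB b) = σC (p b))
    (hA : HerbrandDefined σA n) (hC : HerbrandDefined σC n) : HerbrandDefined σB n :=
  isDefined_mid (delta_normN hσ) (normN_delta hσ) hi hp hex (map_delta_of_comm hiσ)
    (map_normN_of_comm hiσ n) (map_delta_of_comm hpσ) (map_normN_of_comm hpσ n) hA hC

theorem herbrandDefined_left (hσ : σB ^ n = 1)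
    (hi : Function.Injective i) (hp : Function.Surjective p) (hex : p.ker = i.range)
    (hiσ : ∀ a, i (σA a) = σB (i a)) (hpσ : ∀ b, p (σB b) = σC (p b))
    (hB : HerbrandDefined σB n) (hC : HerbrandDefined σC n) : HerbrandDefined σA n :=
  isDefined_left (delta_normN hσ) (normN_delta hσ) hi hp hex (map_delta_of_comm hiσ)
    (map_normN_of_comm hiσ n) (map_delta_of_comm hpσ) (map_normN_of_comm hpσ n) hB hC

theorem herbrandDefined_right (hσ : σB ^ n = 1)
    (hi : Function.Injective i) (hp : Function.Surjective p) (hex : p.ker = i.range)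
    (hiσ : ∀ a, i (σA a) = σB (i a)) (hpσ : ∀ b, p (σB b) = σC (p b))
    (hA : HerbrandDefined σA n) (hB : HerbrandDefined σB n) : HerbrandDefined σC n :=
  isDefined_right (delta_normN hσ) (normN_delta hσ) hi hp hex (map_delta_of_comm hiσ)
    (map_normN_of_comm hiσ n) (map_delta_of_comm hpσ) (map_normN_of_comm hpσ n) hA hB

/-- An equivariant injection with finite cokernel preserves the Herbrand quotient. -/
theorem herbrand_eq_of_finite_coker (hσ : σB ^ n = 1)
    (hi : Function.Injective i) (hfin : i.range.FiniteIndex)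
    (hiσ : ∀ a, i (σA a) = σB (i a)) : herbrand σA n = herbrand σB n :=
  q_eq_of_finite_coker (delta_normN hσ) (normN_delta hσ) hi hfin (map_delta_of_comm hiσ)
    (map_normN_of_comm hiσ n)

theorem herbrandDefined_iff_of_finite_coker (hσ : σB ^ n = 1)
    (hi : Function.Injective i) (hfin : i.range.FiniteIndex)
    (hiσ : ∀ a, i (σA a) = σB (i a)) : HerbrandDefined σA n ↔ HerbrandDefined σB n :=
  isDefined_iff_of_finite_coker (delta_normN hσ) (normN_delta hσ) hi hfin
    (map_delta_of_comm hiσ) (map_normN_of_comm hiσ n)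

/-- An equivariant surjection with finite kernel preserves the Herbrand quotient. -/
theorem herbrand_eq_of_finite_ker (hσ : σB ^ n = 1)
    (hp : Function.Surjective p) (hfin : Finite p.ker)
    (hpσ : ∀ b, p (σB b) = σC (p b)) : herbrand σB n = herbrand σC n :=
  q_eq_of_finite_ker (delta_normN hσ) (normN_delta hσ) hp hfin (map_delta_of_comm hpσ)
    (map_normN_of_comm hpσ n)

theorem herbrandDefined_iff_of_finite_ker (hσ : σB ^ n = 1)
    (hp : Function.Surjective p) (hfin : Finite p.ker)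
    (hpσ : ∀ b, p (σB b) = σC (p b)) : HerbrandDefined σB n ↔ HerbrandDefined σC n :=
  isDefined_iff_of_finite_ker (delta_normN hσ) (normN_delta hσ) hp hfin
    (map_delta_of_comm hpσ) (map_normN_of_comm hpσ n)

/-- An equivariant isomorphism preserves `h⁰`. -/
theorem h0_eq_of_equiv (e : A ≃+ B) (heσ : ∀ a, e (σA a) = σB (e a)) (n : ℕ) :
    h0 σA n = h0 σB n :=
  hIndex_eq_of_equiv e (map_delta_of_comm (i := e.toAddMonoidHom) heσ)
    (map_normN_of_comm (i := e.toAddMonoidHom) heσ n)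

/-- An equivariant isomorphism preserves `h¹`. -/
theorem h1_eq_of_equiv (e : A ≃+ B) (heσ : ∀ a, e (σA a) = σB (e a)) (n : ℕ) :
    h1 σA n = h1 σB n :=
  hIndex_eq_of_equiv e (map_normN_of_comm (i := e.toAddMonoidHom) heσ n)
    (map_delta_of_comm (i := e.toAddMonoidHom) heσ)

theorem herbrand_eq_of_equiv (e : A ≃+ B) (heσ : ∀ a, e (σA a) = σB (e a)) (n : ℕ) :
    herbrand σA n = herbrand σB n := by
  rw [herbrand_eq_div, herbrand_eq_div, h0_eq_of_equiv e heσ n, h1_eq_of_equiv e heσ n]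

end Equivariant

section Finite

theorem herbrand_eq_one_of_finite [Finite A] {σ : AddMonoid.End A} {n : ℕ} (hσ : σ ^ n = 1) :
    herbrand σ n = 1 :=
  q_eq_one_of_finite _ _ (delta_normN hσ) (normN_delta hσ)

theorem herbrandDefined_of_finite [Finite A] (σ : AddMonoid.End A) (n : ℕ) :
    HerbrandDefined σ n :=
  isDefined_of_finite _ _

theorem h0_eq_h1_of_finite [Finite A] {σ : AddMonoid.End A} {n : ℕ} (hσ : σ ^ n = 1) :
    h0 σ n = h1 σ n :=
  hIndex_comm_of_finite _ _ (delta_normN hσ) (normN_delta hσ)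

end Finite

section Trivial

lemma delta_one : delta (1 : AddMonoid.End A) = 0 := by
  unfold delta; rw [sub_self]; rfl

lemma normN_one_apply (n : ℕ) (a : A) : normN (1 : AddMonoid.End A) n a = n • a := by
  rw [normN_apply]
  simp

/-- for the trivial action `h⁰ = [A : nA]`. -/
lemma h0_one (n : ℕ) :
    h0 (1 : AddMonoid.End A) n = (AddMonoidHom.range (nsmulAddMonoidHom (α := A) n)).index := by
  rw [h0_eq_relIndex, delta_one]
  have h1 : AddMonoidHom.ker (0 : A →+ A) = ⊤ := by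
    ext x
    simp only [AddSubgroup.mem_top, iff_true]
    exact AddMonoidHom.mem_ker.2 rfl
  have h2 : AddMonoidHom.range (normN (1 : AddMonoid.End A) n)
      = AddMonoidHom.range (nsmulAddMonoidHom (α := A) n) := by
    ext x
    constructor
    · rintro ⟨y, rfl⟩
      exact ⟨y, (normN_one_apply n y).symm⟩
    · rintro ⟨y, rfl⟩
      exact ⟨y, normN_one_apply n y⟩
  rw [h1, h2, relIndex_top_right]

/-- for the trivial action `h¹ = |A[n]|`. -/
lemma h1_one (n : ℕ) :
    h1 (1 : AddMonoid.End A) n = Nat.card (AddMonoidHom.ker (nsmulAddMonoidHom (α := A) n)) := by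
  rw [h1_eq_relIndex, delta_one]
  have h1 : AddMonoidHom.range (0 : A →+ A) = ⊥ := by
    ext x
    simp only [AddSubgroup.mem_bot]
    constructor
    · rintro ⟨y, rfl⟩; rfl
    · rintro rfl; exact ⟨0, rfl⟩
  have h2 : AddMonoidHom.ker (normN (1 : AddMonoid.End A) n)
      = AddMonoidHom.ker (nsmulAddMonoidHom (α := A) n) := by
    ext x
    rw [AddMonoidHom.mem_ker, AddMonoidHom.mem_ker, normN_one_apply, nsmulAddMonoidHom_apply]
  rw [h1, h2, relIndex_bot_left]

theorem h0_int (n : ℕ) : h0 (1 : AddMonoid.End ℤ) n = n := by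
  rw [h0_one]
  have : AddMonoidHom.range (nsmulAddMonoidHom (α := ℤ) n) = AddSubgroup.zmultiples (n : ℤ) := by
    ext x
    simp only [AddMonoidHom.mem_range, nsmulAddMonoidHom_apply, AddSubgroup.mem_zmultiples_iff,
      nsmul_eq_mul, smul_eq_mul]
    constructor
    · rintro ⟨y, rfl⟩; exact ⟨y, mul_comm _ _⟩
    · rintro ⟨y, rfl⟩; exact ⟨y, mul_comm _ _⟩
  rw [this, Int.index_zmultiples]
  simp

theorem h1_int {n : ℕ} (hn : n ≠ 0) : h1 (1 : AddMonoid.End ℤ) n = 1 := by
  rw [h1_one]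
  have : AddMonoidHom.ker (nsmulAddMonoidHom (α := ℤ) n) = ⊥ := by
    ext x
    simp only [AddMonoidHom.mem_ker, nsmulAddMonoidHom_apply, AddSubgroup.mem_bot, nsmul_eq_mul]
    constructor
    · intro h
      rcases mul_eq_zero.1 h with h | h
      · exact absurd (by exact_mod_cast h) hn
      · exact h
    · rintro rfl; simp
  rw [this]
  simp

/-- **The Herbrand quotient of `ℤ` with trivial action of a cyclic group of order `n` is `n`.** -/
theorem herbrand_int {n : ℕ} (hn : n ≠ 0) : herbrand (1 : AddMonoid.End ℤ) n = n := by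
  rw [herbrand_eq_div, h0_int, h1_int hn]
  simp

theorem herbrandDefined_int {n : ℕ} (hn : n ≠ 0) : HerbrandDefined (1 : AddMonoid.End ℤ) n := by
  rw [herbrandDefined_iff, h0_int, h1_int hn]
  exact ⟨hn, one_ne_zero⟩

end Trivial

end Fermat.Agent.S55.Herbrand

end
-- ===== PACK-END S55/Herbrand/Cyclic.lean

-- ===== PACK-BEGIN S55/H424/FiniteIndexComap.lean
section


/-!
# Pull-backs of Galois groups of finite subextensions have finite index
-/

set_option autoImplicit false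
set_option linter.unusedSectionVars false
set_option linter.style.haveILetI false

namespace Fermat.Agent.S55.H424

/-- For `r : G → Gal(Ω/k₀)` and `E/k₀` finite, `r⁻¹(Gal(Ω/E))` has finite index in `G`. -/
theorem comap_fixingSubgroup_finiteIndex {G : Type*} [Group G] {k₀ Ω : Type*} [Field k₀]
    [Field Ω] [Algebra k₀ Ω] [Normal k₀ Ω] (r : G →* (Ω ≃ₐ[k₀] Ω))
    (E : IntermediateField k₀ Ω) [FiniteDimensional k₀ E] :
    (E.fixingSubgroup.comap r).FiniteIndex := by
  let M : IntermediateField k₀ Ω := IntermediateField.normalClosure k₀ E Ω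
  haveI : FiniteDimensional k₀ M := normalClosure.is_finiteDimensional k₀ E Ω
  haveI : Normal k₀ M := normalClosure.normal k₀ E Ω
  haveI : Finite (M ≃ₐ[k₀] M) := inferInstance
  let ψ : G →* (M ≃ₐ[k₀] M) := (AlgEquiv.restrictNormalHom (F := k₀) (K₁ := Ω) M).comp r
  haveI : ψ.ker.FiniteIndex := Subgroup.finiteIndex_ker ψ
  refine Subgroup.finiteIndex_of_le (H := ψ.ker) ?_
  intro g hg
  rw [Subgroup.mem_comap]
  have h1 : r g ∈ (AlgEquiv.restrictNormalHom (F := k₀) (K₁ := Ω) M).ker := hg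
  rw [IntermediateField.restrictNormalHom_ker] at h1
  exact IntermediateField.fixingSubgroup_le (IntermediateField.le_normalClosure E) h1

end Fermat.Agent.S55.H424

end
-- ===== PACK-END S55/H424/FiniteIndexComap.lean

-- ===== PACK-BEGIN S56/H734/KummerCore.lean
section





/-!
# S56 / H734 : Kummer count at `p`, core (`𝔽_p`-coefficients, abstract local datum)

`D ≤ G_ℚ` is the image of `loc : Gal(ℚ̄_p/ℚ_p) → G_ℚ`, compatible with an embedding
`ι : ℚ̄ → ℚ̄_p`.  Every twisted cocycle `c : D → 𝔽_p(1)` of finite level is, on `D`,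
`x κ₁ + y κ₂ + coboundary`, where `κ₁, κ₂` are the Kummer cocycles of `p` and `1 + p`.
-/

set_option autoImplicit false
set_option linter.style.haveILetI false

namespace Fermat.Agent.S56.H734

open Fermat.Agent.S56

section Roots

variable {p : ℕ} [hp : Fact p.Prime]

theorem pow_mod_of_isPrimitiveRoot {F : Type*} [Field F] {ζ : F} (hζ : IsPrimitiveRoot ζ p)
    (n : ℕ) : ζ ^ n = ζ ^ (n % p) := by
  conv_lhs => rw [← Nat.div_add_mod n p, pow_add, pow_mul, hζ.pow_eq_one, one_pow, one_mul]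

/-- Powers of a primitive `p`-th root of unity are equal iff the exponents agree in `ZMod p`. -/
theorem pow_eq_pow_iff_zmod {F : Type*} [Field F] {ζ : F} (hζ : IsPrimitiveRoot ζ p)
    (n m : ℕ) : ζ ^ n = ζ ^ m ↔ (n : ZMod p) = (m : ZMod p) := by
  rw [pow_mod_of_isPrimitiveRoot hζ n, pow_mod_of_isPrimitiveRoot hζ m,
    ZMod.natCast_eq_natCast_iff']
  constructor
  · intro h
    exact hζ.pow_inj (Nat.mod_lt _ hp.out.pos) (Nat.mod_lt _ hp.out.pos) h
  · intro h
    rw [h]

theorem pow_val_eq {F : Type*} [Field F] {ζ : F} (hζ : IsPrimitiveRoot ζ p)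
    (j : ZMod p) (n : ℕ) (h : (n : ZMod p) = j) : ζ ^ j.val = ζ ^ n := by
  rw [pow_eq_pow_iff_zmod hζ, ZMod.natCast_zmod_val, h]

/-- Every element of `G_ℚ` has a cyclotomic exponent. -/
theorem exists_isCycExp {ζ : Qb} (hζ : IsPrimitiveRoot ζ p) (σ : GQ) :
    ∃ a : ℕ, IsCycExp p σ a := by
  haveI : NeZero p := ⟨hp.out.ne_zero⟩
  have h1 : (σ ζ) ^ p = 1 := by rw [← map_pow, hζ.pow_eq_one, map_one]
  obtain ⟨a, -, ha⟩ := hζ.eq_pow_of_pow_eq_one h1
  refine ⟨a, fun μ hμ => ?_⟩
  obtain ⟨i, -, hi⟩ := hζ.eq_pow_of_pow_eq_one hμ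
  rw [← hi, map_pow, ← ha, ← pow_mul, ← pow_mul, mul_comm]

/-- The Kummer exponent of `σ` on a `p`-th root `θ` of a rational number. -/
theorem exists_kummer_exp {ζ : Qb} (hζ : IsPrimitiveRoot ζ p) (θ : Qb) (hθ : θ ≠ 0)
    (r : ℚ) (hr : θ ^ p = algebraMap ℚ Qb r) (σ : GQ) :
    ∃ j : ZMod p, σ θ = ζ ^ j.val * θ := by
  haveI : NeZero p := ⟨hp.out.ne_zero⟩
  have h1 : (σ θ / θ) ^ p = 1 := by
    rw [div_pow, ← map_pow, hr, AlgEquiv.commutes, div_self]
    rw [← hr]
    exact pow_ne_zero _ hθ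
  obtain ⟨i, -, hi⟩ := hζ.eq_pow_of_pow_eq_one h1
  refine ⟨(i : ZMod p), ?_⟩
  rw [pow_val_eq hζ (i : ZMod p) i rfl, hi, div_mul_cancel₀ _ hθ]

/-- A Kummer exponent function is a twisted cocycle on all of `G_ℚ`. -/
theorem kummer_exp_cocycle {ζ : Qb} (hζ : IsPrimitiveRoot ζ p) (θ : Qb) (hθ : θ ≠ 0)
    (κ : GQ → ZMod p) (hκ : ∀ σ, σ θ = ζ ^ (κ σ).val * θ) (σ τ : GQ) (a : ℕ)
    (ha : IsCycExp p σ a) : κ (σ * τ) = κ σ + (a : ZMod p) * κ τ := by
  haveI : NeZero p := ⟨hp.out.ne_zero⟩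
  have h1 : (σ * τ) θ = σ (τ θ) := rfl
  rw [hκ (σ * τ), hκ τ, map_mul, map_pow, ha ζ hζ.pow_eq_one, hκ σ, ← mul_assoc, ← pow_mul,
    ← pow_add] at h1
  have h2 := mul_right_cancel₀ hθ h1
  rw [pow_eq_pow_iff_zmod hζ] at h2
  push_cast at h2
  rw [ZMod.natCast_zmod_val, ZMod.natCast_zmod_val, ZMod.natCast_zmod_val] at h2
  rw [h2]
  ring

/-- A Kummer exponent function has finite level. -/
theorem kummer_exp_level {ζ : Qb} (hζ : IsPrimitiveRoot ζ p) (θ : Qb) (hθ : θ ≠ 0)
    (κ : GQ → ZMod p) (hκ : ∀ σ, σ θ = ζ ^ (κ σ).val * θ) :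
    ∃ L : IntermediateField ℚ Qb, FiniteDimensional ℚ L ∧
      ∀ σ τ : GQ, (∀ x ∈ L, τ x = x) → κ (σ * τ) = κ σ := by
  haveI : NeZero p := ⟨hp.out.ne_zero⟩
  haveI : Algebra.IsAlgebraic ℚ Qb := AlgebraicClosure.isAlgebraic ℚ
  refine ⟨IntermediateField.adjoin ℚ {θ},
    IntermediateField.adjoin.finiteDimensional (Algebra.IsIntegral.isIntegral θ), ?_⟩
  intro σ τ hτ
  have h0 : τ θ = θ := hτ θ (IntermediateField.subset_adjoin ℚ _ (Set.mem_singleton θ))
  have h1 : (σ * τ) θ = σ θ := by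
    show σ (τ θ) = σ θ
    rw [h0]
  rw [hκ (σ * τ), hκ σ] at h1
  have h2 := mul_right_cancel₀ hθ h1
  rw [pow_eq_pow_iff_zmod hζ, ZMod.natCast_zmod_val, ZMod.natCast_zmod_val] at h2
  exact h2

end Roots

section Core

variable (p : ℕ) [hp : Fact p.Prime]

/-- **Kummer count, core form.**  Abstract local datum `(ι, loc)` with image `D`. -/
theorem kummer_core (hp2 : p ≠ 2) (D : Subgroup GQ)
    (ι : Qb →+* PadicAlgCl p) (loc : (PadicAlgCl p ≃ₐ[ℚ_[p]] PadicAlgCl p) →* GQ)
    (compat : ∀ τ x, ι (loc τ x) = τ (ι x)) (hrange : loc.range = D)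
    (hlevel : ∀ L : IntermediateField ℚ Qb, FiniteDimensional ℚ L →
      ∃ E : IntermediateField ℚ_[p] (PadicAlgCl p), FiniteDimensional ℚ_[p] E ∧
        ∀ τ : PadicAlgCl p ≃ₐ[ℚ_[p]] PadicAlgCl p, (∀ y ∈ E, τ y = y) →
          ∀ x ∈ L, loc τ x = x)
    (ζ π β : Qb) (hζ : IsPrimitiveRoot ζ p) (hπ : π ^ p = (p : Qb)) (hβ : β ^ p = 1 + (p : Qb))
    (κ₁ κ₂ : GQ → ZMod p) (hκ₁ : ∀ σ, σ π = ζ ^ (κ₁ σ).val * π)
    (hκ₂ : ∀ σ, σ β = ζ ^ (κ₂ σ).val * β)
    (c : GQ → ZMod p)
    (hcoc : ∀ σ ∈ D, ∀ τ ∈ D, ∀ a, IsCycExp p σ a → c (σ * τ) = c σ + (a : ZMod p) * c τ)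
    (hlev : ∃ L : IntermediateField ℚ Qb, FiniteDimensional ℚ L ∧
      ∀ σ ∈ D, ∀ τ ∈ D, (∀ x ∈ L, τ x = x) → c (σ * τ) = c σ) :
    ∃ x y m : ZMod p, ∀ σ ∈ D, ∀ a, IsCycExp p σ a →
      c σ = x * κ₁ σ + y * κ₂ σ + ((a : ZMod p) - 1) * m := by
  haveI : NeZero p := ⟨hp.out.ne_zero⟩
  have hιinj : Function.Injective ι := ι.injective
  have hmemD : ∀ τ, loc τ ∈ D := fun τ => hrange ▸ ⟨τ, rfl⟩
  have hζ0 : ζ ≠ 0 := hζ.ne_zero hp.out.ne_zero
  have hp0 : (p : Qb) ≠ 0 := by exact_mod_cast hp.out.ne_zero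
  have hπ0 : π ≠ 0 := by
    intro h
    rw [h, zero_pow hp.out.ne_zero] at hπ
    exact hp0 hπ.symm
  have h1p : (1 : Qb) + (p : Qb) ≠ 0 := by
    have : ((1 + p : ℕ) : Qb) ≠ 0 := by exact_mod_cast (Nat.succ_ne_zero p ∘ (by omega))
    simpa using this
  have hβ0 : β ≠ 0 := by
    intro h
    rw [h, zero_pow hp.out.ne_zero] at hβ
    exact h1p hβ.symm
  -- the multiplicative cocycle on the local Galois group
  set F : (PadicAlgCl p ≃ₐ[ℚ_[p]] PadicAlgCl p) → PadicAlgCl p :=
    fun τ => ι (ζ ^ (c (loc τ)).val) with hF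
  have hF0 : ∀ τ, F τ ≠ 0 := fun τ => by
    rw [hF]
    exact (map_ne_zero ι).mpr (pow_ne_zero _ hζ0)
  have hFp : ∀ τ, F τ ^ p = 1 := fun τ => by
    rw [hF]
    simp only
    rw [← map_pow, ← pow_mul, mul_comm, pow_mul, hζ.pow_eq_one, one_pow, map_one]
  have hFcoc : ∀ τ₁ τ₂, F (τ₁ * τ₂) = F τ₁ * τ₁ (F τ₂) := by
    intro τ₁ τ₂
    obtain ⟨a, ha⟩ := exists_isCycExp hζ (loc τ₁)
    have h1 := hcoc (loc τ₁) (hmemD τ₁) (loc τ₂) (hmemD τ₂) a ha
    rw [hF]
    simp only
    rw [← compat, ← map_mul, map_mul loc, h1]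
    congr 1
    have h2 : loc τ₁ (ζ ^ (c (loc τ₂)).val) = (ζ ^ (c (loc τ₂)).val) ^ a := by
      apply ha
      rw [← pow_mul, mul_comm, pow_mul, hζ.pow_eq_one, one_pow]
    rw [h2, ← pow_mul, ← pow_add]
    apply pow_val_eq hζ
    push_cast
    rw [ZMod.natCast_zmod_val, ZMod.natCast_zmod_val, mul_comm]
  obtain ⟨L, hLfin, hL⟩ := hlev
  obtain ⟨E, hEfin, hE⟩ := hlevel L hLfin
  have hFlev : ∀ τ₁ τ₂ : PadicAlgCl p ≃ₐ[ℚ_[p]] PadicAlgCl p, (∀ y ∈ E, τ₂ y = y) →
      F (τ₁ * τ₂) = F τ₁ := by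
    intro τ₁ τ₂ h
    rw [hF]
    simp only
    rw [map_mul loc, hL (loc τ₁) (hmemD τ₁) (loc τ₂) (hmemD τ₂) (hE τ₂ h)]
  obtain ⟨α, hα0, hα⟩ := hilbert90_of_level F hF0 hFcoc E hFlev
  -- `A = α⁻¹` satisfies `τ A = F τ * A`
  set A : PadicAlgCl p := α⁻¹ with hA
  have hA0 : A ≠ 0 := inv_ne_zero hα0
  have hAτ : ∀ τ : PadicAlgCl p ≃ₐ[ℚ_[p]] PadicAlgCl p, τ A = F τ * A := by
    intro τ
    have h1 : τ α ≠ 0 := (map_ne_zero τ).mpr hα0
    rw [hA, map_inv₀]
    field_simp
    rw [mul_comm]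
    exact (hα τ).symm
  -- `A ^ p ∈ ℚ_p`
  have hfix : ∀ τ : PadicAlgCl p ≃ₐ[ℚ_[p]] PadicAlgCl p, τ (A ^ p) = A ^ p := by
    intro τ
    rw [map_pow, hAτ, mul_pow, hFp, one_mul]
  obtain ⟨x, hx⟩ : ∃ x : ℚ_[p], algebraMap ℚ_[p] (PadicAlgCl p) x = A ^ p := by
    have := (InfiniteGalois.mem_bot_iff_fixed (k := ℚ_[p]) (K := PadicAlgCl p) (A ^ p)).2 hfix
    exact IntermediateField.mem_bot.1 this
  have hx0 : x ≠ 0 := by
    intro h
    rw [h, map_zero] at hx
    exact pow_ne_zero _ hA0 hx.symm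
  obtain ⟨i, j, w, hw0, hxw⟩ := padic_eq_pow_mul_nat p hp2 x hx0
  set W : PadicAlgCl p := algebraMap ℚ_[p] (PadicAlgCl p) w with hW
  have hW0 : W ≠ 0 := (map_ne_zero _).mpr hw0
  have hWτ : ∀ τ : PadicAlgCl p ≃ₐ[ℚ_[p]] PadicAlgCl p, τ W = W := fun τ => τ.commutes w
  -- the `p`-th root of unity `γ`
  set γ : PadicAlgCl p := A / (ι π ^ i * ι β ^ j * W) with hγ
  have hden0 : ι π ^ i * ι β ^ j * W ≠ 0 :=
    mul_ne_zero (mul_ne_zero (pow_ne_zero _ ((map_ne_zero ι).mpr hπ0))
      (pow_ne_zero _ ((map_ne_zero ι).mpr hβ0))) hW0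
  have hιπ : ι π ^ p = (p : PadicAlgCl p) := by rw [← map_pow, hπ, map_natCast]
  have hιβ : ι β ^ p = 1 + (p : PadicAlgCl p) := by
    rw [← map_pow, hβ, map_add, map_one, map_natCast]
  have hAp : A ^ p = (p : PadicAlgCl p) ^ i * (1 + (p : PadicAlgCl p)) ^ j * W ^ p := by
    rw [← hx, hxw, hW]
    simp only [map_mul, map_pow, map_add, map_one, map_natCast]
  have hγp : γ ^ p = 1 := by
    have h1 : (ι π ^ i * ι β ^ j * W) ^ p =
        (p : PadicAlgCl p) ^ i * (1 + (p : PadicAlgCl p)) ^ j * W ^ p := by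
      rw [mul_pow, mul_pow, ← pow_mul, ← pow_mul, mul_comm i p, mul_comm j p, pow_mul, pow_mul,
        hιπ, hιβ]
    rw [hγ, div_pow, h1, hAp, div_self]
    rw [← h1]
    exact pow_ne_zero _ hden0
  have hιζ : IsPrimitiveRoot (ι ζ) p := hζ.map_of_injective hιinj
  obtain ⟨m, -, hm⟩ := hιζ.eq_pow_of_pow_eq_one hγp
  -- `A = ι ξ * W`
  set ξ : Qb := ζ ^ m * π ^ i * β ^ j with hξ
  have hξ0 : ξ ≠ 0 := mul_ne_zero (mul_ne_zero (pow_ne_zero _ hζ0) (pow_ne_zero _ hπ0))
    (pow_ne_zero _ hβ0)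
  have hAξ : A = ι ξ * W := by
    have h1 : A = γ * (ι π ^ i * ι β ^ j * W) := by
      rw [hγ, div_mul_cancel₀ _ hden0]
    rw [h1, ← hm, hξ]
    simp only [map_mul, map_pow]
    ring
  have hkey : ∀ τ : PadicAlgCl p ≃ₐ[ℚ_[p]] PadicAlgCl p,
      loc τ ξ = ζ ^ (c (loc τ)).val * ξ := by
    intro τ
    apply hιinj
    have h1 := hAτ τ
    rw [hAξ, map_mul, hWτ, ← compat, ← mul_assoc] at h1
    have h2 := mul_right_cancel₀ hW0 h1
    rw [h2, hF]
    simp only [map_mul]
  refine ⟨(i : ZMod p), (j : ZMod p), (m : ZMod p), ?_⟩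
  intro σ hσ a ha
  obtain ⟨τ, rfl⟩ : ∃ τ, loc τ = σ := by
    rw [← hrange] at hσ
    exact hσ
  have h1 := hkey τ
  have hζa : loc τ ζ = ζ ^ a := ha ζ hζ.pow_eq_one
  rw [hξ, map_mul, map_mul, map_pow, map_pow, map_pow, hζa, hκ₁, hκ₂, mul_pow, mul_pow] at h1
  have h2 : ζ ^ (a * m + (κ₁ (loc τ)).val * i + (κ₂ (loc τ)).val * j) * (π ^ i * β ^ j) =
      ζ ^ ((c (loc τ)).val + m) * (π ^ i * β ^ j) := by
    rw [pow_add, pow_add, pow_add, pow_mul, pow_mul, pow_mul]
    rw [← mul_assoc] at h1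
    linear_combination h1
  have h3 := mul_right_cancel₀ (mul_ne_zero (pow_ne_zero _ hπ0) (pow_ne_zero _ hβ0)) h2
  rw [pow_eq_pow_iff_zmod hζ] at h3
  push_cast at h3
  rw [ZMod.natCast_zmod_val, ZMod.natCast_zmod_val, ZMod.natCast_zmod_val] at h3
  linear_combination -h3

end Core

end Fermat.Agent.S56.H734

end
-- ===== PACK-END S56/H734/KummerCore.lean

-- ===== PACK-BEGIN Lib/Cheb/H643/FrobAt.lean
section




/-!
# Frobenius elements at a *given* valuation subring of `ℚ̄`

`Fermat.Agent.S54.exists_frobenius` produces some valuation subring over `ℓ` together with a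
Frobenius element.  Here: every valuation subring `A` over `ℓ` has a Frobenius element
(same proof), and the consequences of `IsFrobeniusAt` / of membership in the inertia group on
algebraic integers.
-/

set_option autoImplicit false

namespace Fermat.Agent.Lib.Cheb.H643

open scoped Pointwise
open Fermat.Agent.S54
open Fermat.Agent.Lib.Cheb.Spec

/-- Every valuation subring of `ℚ̄` over the prime `ℓ` has a Frobenius element. -/
theorem exists_isFrobeniusAt (ℓ : ℕ) (hℓ : ℓ.Prime) (A : ValuationSubring Qb)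
    (hA : A.LiesOverPrime ℓ) : ∃ σ : GQ, A.IsFrobeniusAt σ ℓ := by
  have : Algebra.IsAlgebraic ℚ (AlgebraicClosure ℚ) := AlgebraicClosure.isAlgebraic ℚ
  have := primeBelow_isPrime A
  have hℓQ : (ℓ : integralClosure ℤ (AlgebraicClosure ℚ)) ∈ primeBelow A := by
    rw [mem_primeBelow]
    exact hA
  obtain ⟨σ, hσQ', hσF⟩ := exists_frob_integralClosure ℓ hℓ (primeBelow A) hℓQ
  have hσQ : ∀ x, σ • x ∈ primeBelow A ↔ x ∈ primeBelow A := by
    intro x
    conv_lhs => rw [← hσQ']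
    exact Ideal.smul_mem_pointwise_smul_iff
  have key : ∀ τ : AlgebraicClosure ℚ ≃ₐ[ℚ] AlgebraicClosure ℚ,
      (∀ x, τ • x ∈ primeBelow A ↔ x ∈ primeBelow A) → ∀ x ∈ A, τ x ∈ A := by
    intro τ hτ x hx
    obtain ⟨b, s, hb, hs, hsA, hxs⟩ := (mem_valuationSubring_iff A ℓ hℓ hA x).mp hx
    refine (mem_valuationSubring_iff A ℓ hℓ hA (τ x)).mpr
      ⟨τ b, τ s, hb.map τ, hs.map τ, ?_, ?_⟩
    · exact (hτ ⟨s, hs⟩).not.mpr hsA
    · rw [← map_mul, hxs]
  have hσA : σ ∈ A.decompositionSubgroup ℚ := by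
    rw [MulAction.mem_stabilizer_iff]
    ext x
    rw [ValuationSubring.mem_smul_pointwise_iff_exists]
    constructor
    · rintro ⟨s, hs, rfl⟩
      exact key σ hσQ s hs
    · intro hx
      refine ⟨σ⁻¹ • x, key σ⁻¹ ?_ x hx, by simp⟩
      intro y
      rw [← hσQ (σ⁻¹ • y)]
      simp
  refine ⟨σ, hσA, ?_⟩
  intro x
  obtain ⟨a, rfl⟩ := IsLocalRing.residue_surjective x
  obtain ⟨b, s, hb, hs, hsA, hxs⟩ := (mem_valuationSubring_iff A ℓ hℓ hA a).mp a.2
  have hbA : b ∈ A := isIntegral_mem_valuationSubring A hb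
  have hsA' : s ∈ A := isIntegral_mem_valuationSubring A hs
  have hint : ∀ (y : AlgebraicClosure ℚ) (hy : IsIntegral ℤ y),
      (⟨σ, hσA⟩ : A.decompositionSubgroup ℚ) •
        IsLocalRing.residue A ⟨y, isIntegral_mem_valuationSubring A hy⟩ =
      (IsLocalRing.residue A ⟨y, isIntegral_mem_valuationSubring A hy⟩) ^ ℓ := by
    intro y hy
    rw [← IsLocalRing.ResidueField.residue_smul, ← map_pow, ← sub_eq_zero, ← map_sub,
      IsLocalRing.residue_eq_zero_iff, ← ValuationSubring.coe_mem_nonunits_iff]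
    exact hσF ⟨y, hy⟩
  have h1 : IsLocalRing.residue A a * IsLocalRing.residue A ⟨s, hsA'⟩ =
      IsLocalRing.residue A ⟨b, hbA⟩ := by
    rw [← map_mul]
    congr 1
    exact Subtype.ext hxs
  have h2 : IsLocalRing.residue A ⟨s, hsA'⟩ ≠ 0 := by
    rw [Ne, IsLocalRing.residue_eq_zero_iff, ← ValuationSubring.coe_mem_nonunits_iff]
    exact hsA
  have h3 := congrArg (fun z => (⟨σ, hσA⟩ : A.decompositionSubgroup ℚ) • z) h1
  simp only [smul_mul'] at h3
  rw [hint s hs, hint b hb, ← h1, mul_pow] at h3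
  exact mul_right_cancel₀ (pow_ne_zero _ h2) h3

/-- A Frobenius element at `A` is congruent to `x ↦ x ^ ℓ` on `A`. -/
theorem IsFrobeniusAt_sub_pow_mem {A : ValuationSubring Qb} {σ : GQ} {ℓ : ℕ}
    (h : A.IsFrobeniusAt σ ℓ) {x : Qb} (hx : x ∈ A) : σ x - x ^ ℓ ∈ A.nonunits := by
  obtain ⟨hσ, hF⟩ := h
  have h1 := hF (IsLocalRing.residue A ⟨x, hx⟩)
  rw [← IsLocalRing.ResidueField.residue_smul, ← map_pow, ← sub_eq_zero, ← map_sub,
    IsLocalRing.residue_eq_zero_iff, ← ValuationSubring.coe_mem_nonunits_iff] at h1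
  exact h1

/-- An element of the inertia group at `A` is congruent to the identity on `A`. -/
theorem inertia_sub_mem {A : ValuationSubring Qb} {ι : GQ}
    (h : ι ∈ A.inertiaSubgroupIn ℚ) {x : Qb} (hx : x ∈ A) : ι x - x ∈ A.nonunits := by
  obtain ⟨g, hg, rfl⟩ := h
  have hg' : ∀ r : IsLocalRing.ResidueField A, g • r = r := by
    intro r
    have := MonoidHom.mem_ker.mp hg
    exact congrArg (fun e : RingAut (IsLocalRing.ResidueField A) => e r) this
  have h1 := hg' (IsLocalRing.residue A ⟨x, hx⟩)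
  rw [← IsLocalRing.ResidueField.residue_smul, ← sub_eq_zero, ← map_sub,
    IsLocalRing.residue_eq_zero_iff, ← ValuationSubring.coe_mem_nonunits_iff] at h1
  exact h1

end Fermat.Agent.Lib.Cheb.H643

end
-- ===== PACK-END Lib/Cheb/H643/FrobAt.lean

-- ===== PACK-BEGIN S56/H794/TameFrob.lean
section






/-!
# S56 / LOC-TAME (helper794), part 2: commutativity and the Frobenius relation

`L/K` Galois, `A` a valuation subring of `L`, `I = A.inertiaSubgroupIn K`, `f` a homomorphism of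
finite level on `Gal(L/K)` such that every `f τ`, `τ ∈ I`, has order prime to the residue
characteristic (`PrimeToResChar A f`).

* `conj_mem_inertiaIn` : inertia is normalised by the decomposition group.
* `tameHom_conj_frobenius` : `tame(φ τ φ⁻¹) = tame(τ) ^ q` for a Frobenius `φ` (Prelude
  `IsFrobeniusAt φ q`).
* `map_eq_one_of_tameHom_eq_one` : faithfulness in the form used below.
* `map_mul_comm_of_mem_inertiaIn` : `f` is commutative on `I`.
* `map_conj_frobenius` : `f (φ τ φ⁻¹) = f τ ^ q`.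
-/

set_option autoImplicit false

namespace Fermat.Agent.S56.H794

open Fermat.Agent.A2.H708

section general

variable {K L : Type*} [Field K] [Field L] [Algebra K L] (A : ValuationSubring L)

/-- The inertia group (Prelude form) is normalised by the decomposition group. -/
theorem conj_mem_inertiaIn {φ τ : L ≃ₐ[K] L} (hφ : φ ∈ A.decompositionSubgroup K)
    (hτ : τ ∈ A.inertiaSubgroupIn K) : φ * τ * φ⁻¹ ∈ A.inertiaSubgroupIn K := by
  obtain ⟨τ', hτ', rfl⟩ := hτ
  have hn : (A.inertiaSubgroup K).Normal := MonoidHom.normal_ker _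
  have h := hn.conj_mem τ' hτ' ⟨φ, hφ⟩
  exact Subgroup.mem_map_of_mem (A.decompositionSubgroup K).subtype h

variable [Algebra.IsAlgebraic K L]

/-- The value of the tame character as a residue class. -/
theorem coe_tameHom {τ : L ≃ₐ[K] L} (hτ : τ ∈ A.inertiaSubgroupIn K) (c : Lˣ)
    (h : τ (c : L) / c ∈ A) :
    ((tameHom A hτ c : (IsLocalRing.ResidueField A)ˣ) : IsLocalRing.ResidueField A) =
      IsLocalRing.residue A ⟨τ (c : L) / c, h⟩ := by
  unfold tameHom
  rw [MonoidHom.comp_apply, ValuationSubring.coe_unitGroupToResidueFieldUnits_apply]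
  show IsLocalRing.residue A _ = IsLocalRing.residue A _
  congr 1
  apply Subtype.ext
  rw [ValuationSubring.coe_unitGroupMulEquiv_apply, coe_ratioHom]

theorem apply_div_mem {τ : L ≃ₐ[K] L} (hτ : τ ∈ A.decompositionSubgroup K) (c : Lˣ) :
    τ (c : L) / c ∈ A := by
  rw [← A.valuation_le_one_iff]
  exact (valuation_apply_div_self A hτ c.ne_zero).le

/-- **Frobenius acts on the tame character by the `q`-th power.** -/
theorem tameHom_conj_frobenius {φ τ : L ≃ₐ[K] L} {q : ℕ} (hφ : A.IsFrobeniusAt φ q)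
    (hτ : τ ∈ A.inertiaSubgroupIn K) (c : Lˣ) :
    tameHom A (conj_mem_inertiaIn A hφ.mem_decompositionSubgroup hτ) c = tameHom A hτ c ^ q := by
  have hφD := hφ.mem_decompositionSubgroup
  have hτD := mem_decomposition_of_mem_inertiaIn A hτ
  set c' : Lˣ := Units.map ((φ⁻¹ : L ≃ₐ[K] L) : L →* L) c with hc'
  have hc'v : (c' : L) = φ⁻¹ (c : L) := rfl
  have hv : A.valuation (c' : L) = A.valuation (c : L) := by
    rw [hc'v]
    exact valuation_apply_of_mem_decomposition A (inv_mem hφD) (c : L)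
  rw [← tameHom_eq_of_valuation_eq A hτ c' c hv]
  apply Units.ext
  rw [Units.val_pow_eq_pow_val, ← hφ.smul_residue_eq,
    coe_tameHom A _ c (apply_div_mem A (mem_decomposition_of_mem_inertiaIn A
      (conj_mem_inertiaIn A hφD hτ)) c),
    coe_tameHom A hτ c' (apply_div_mem A hτD c'),
    ← IsLocalRing.ResidueField.residue_smul]
  congr 1
  apply Subtype.ext
  show (φ * τ * φ⁻¹) (c : L) / c = φ (τ (c' : L) / c')
  rw [map_div₀, hc'v]
  have h1 : φ (φ⁻¹ (c : L)) = c := by
    show (φ * φ⁻¹) (c : L) = c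
    rw [mul_inv_cancel]; rfl
  rw [h1]
  rfl

end general

/-- Every element of `f(I)` has order prime to the residue characteristic of `A`. -/
def PrimeToResChar {K L : Type*} [Field K] [Field L] [Algebra K L] (A : ValuationSubring L)
    {G : Type*} [Group G] (f : (L ≃ₐ[K] L) →* G) : Prop :=
  ∀ τ ∈ A.inertiaSubgroupIn K, ∃ m : ℕ, A.valuation (m : L) = 1 ∧ f τ ^ m = 1

section finiteLevel

variable {K L : Type*} [Field K] [Field L] [Algebra K L] [IsGalois K L]
  (A : ValuationSubring L)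

variable {A}

/-- Faithfulness: an element of inertia with trivial tame character on the fixed field of
`ker f` is killed by `f`. -/
theorem map_eq_one_of_tameHom_eq_one {G : Type*} [Group G] {f : (L ≃ₐ[K] L) →* G}
    (hf : FiniteLevel f) (hp : PrimeToResChar A f) {τ : L ≃ₐ[K] L}
    (hτ : τ ∈ A.inertiaSubgroupIn K)
    (h : ∀ c : Lˣ, (c : L) ∈ IntermediateField.fixedField f.ker → tameHom A hτ c = 1) :
    f τ = 1 := by
  by_contra hne
  obtain ⟨m, hm, hfm⟩ := hp τ hτ
  obtain ⟨c, hc, hc1⟩ := exists_tameHom_ne_one A hf hτ hm hfm hne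
  exact hc1 (h c hc)

/-- `f` is commutative on inertia. -/
theorem map_mul_comm_of_mem_inertiaIn {G : Type*} [Group G] {f : (L ≃ₐ[K] L) →* G}
    (hf : FiniteLevel f) (hp : PrimeToResChar A f) {σ τ : L ≃ₐ[K] L}
    (hσ : σ ∈ A.inertiaSubgroupIn K) (hτ : τ ∈ A.inertiaSubgroupIn K) :
    f σ * f τ = f τ * f σ := by
  have hγ : σ * τ * (σ⁻¹ * τ⁻¹) ∈ A.inertiaSubgroupIn K :=
    mul_mem (mul_mem hσ hτ) (mul_mem (inv_mem hσ) (inv_mem hτ))
  have h1 : f (σ * τ * (σ⁻¹ * τ⁻¹)) = 1 := by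
    apply map_eq_one_of_tameHom_eq_one hf hp hγ
    intro c _
    rw [tameHom_mul A (mul_mem hσ hτ) (mul_mem (inv_mem hσ) (inv_mem hτ)),
      tameHom_mul A hσ hτ, tameHom_mul A (inv_mem hσ) (inv_mem hτ), tameHom_inv A hσ,
      tameHom_inv A hτ]
    rw [mul_mul_mul_comm, mul_inv_cancel, mul_inv_cancel, one_mul]
  rw [map_mul, map_mul, map_mul, map_inv, map_inv] at h1
  have h2 : f σ * f τ = (f σ * f τ * ((f σ)⁻¹ * (f τ)⁻¹)) * (f τ * f σ) := by group
  rw [h2, h1, one_mul]

/-- **Frobenius relation**: `f (φ τ φ⁻¹) = f τ ^ q` for `τ` in inertia and `φ` a Frobenius. -/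
theorem map_conj_frobenius {G : Type*} [Group G] {f : (L ≃ₐ[K] L) →* G}
    (hf : FiniteLevel f) (hp : PrimeToResChar A f) {φ τ : L ≃ₐ[K] L} {q : ℕ}
    (hφ : A.IsFrobeniusAt φ q) (hτ : τ ∈ A.inertiaSubgroupIn K) :
    f (φ * τ * φ⁻¹) = f τ ^ q := by
  have hc := conj_mem_inertiaIn A hφ.mem_decompositionSubgroup hτ
  have hγ : φ * τ * φ⁻¹ * (τ ^ q)⁻¹ ∈ A.inertiaSubgroupIn K :=
    mul_mem hc (inv_mem (pow_mem hτ q))
  have h1 : f (φ * τ * φ⁻¹ * (τ ^ q)⁻¹) = 1 := by
    apply map_eq_one_of_tameHom_eq_one hf hp hγ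
    intro c _
    rw [tameHom_mul A hc (inv_mem (pow_mem hτ q)), tameHom_inv A (pow_mem hτ q),
      tameHom_pow A hτ, tameHom_conj_frobenius A hφ hτ, mul_inv_cancel]
  rw [map_mul, map_inv, map_pow, mul_inv_eq_one] at h1
  exact h1

end finiteLevel

end Fermat.Agent.S56.H794

end
-- ===== PACK-END S56/H794/TameFrob.lean

-- ===== PACK-BEGIN S56/Glue.lean
section


/-!
# Row S56 — top glue (sorry-free): `TB(ord) + TB(flat) + P1 + TWP ⇒ S56`
-/

set_option autoImplicit false

open Polynomial IsLocalRing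

namespace Fermat.Agent.S56

/-- One half of S56 from the layer-0 inputs, for a family of conditions `cond`. -/
theorem half_of_inputs (hP1 : PowerSeriesSurjStatement) (hTWP : TWPrimesStatement)
    {𝒪 : Type} [CommRing 𝒪] [IsDomain 𝒪] [IsDiscreteValuationRing 𝒪]
    [IsAdicComplete (maximalIdeal 𝒪) 𝒪] [Finite (ResidueField 𝒪)]
    (p : ℕ) (ρbar : ResidualGaloisRep (ResidueField 𝒪)) (S Smin : Finset ℕ)
    (H : Hyp 𝒪 p ρbar S Smin) (cond : Finset ℕ → DefCond 𝒪)
    (hTB : TangentBound 𝒪 p ρbar S cond) :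
    ∃ r : ℕ, ∀ n : ℕ, ∃ qv : Fin r → ℕ, Function.Injective qv ∧
      (∀ i, (qv i).Prime ∧ qv i ∉ S ∧ p ^ (n + 1) ∣ qv i - 1) ∧
      (∀ i, ∀ P : ValuationSubring (AlgebraicClosure ℚ), P.LiesOverPrime (qv i) →
        ∀ φ : AlgebraicClosure ℚ ≃ₐ[ℚ] AlgebraicClosure ℚ, P.IsFrobeniusAt φ (qv i) →
          ∃ α β : ResidueField 𝒪, α ≠ β ∧
            LinearMap.charpoly (ρbar.ρ φ) = (X - C α) * (X - C β)) ∧
      ∀ DQ : GaloisRep.DeformationRingData 𝒪 ρbar (cond (Finset.univ.image qv)),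
        ∃ γ : MvPowerSeries (Fin r) 𝒪 →ₐ[𝒪] DQ.R, Function.Surjective γ := by
  obtain ⟨D, hD, hbound⟩ := hTB
  refine ⟨Module.finrank (ResidueField 𝒪) D, fun n => ?_⟩
  obtain ⟨qv, hinj, hq, hfrob, hkill⟩ := hTWP 𝒪 p ρbar S Smin H D hD n
  refine ⟨qv, hinj, hq, hfrob, fun DQ => ?_⟩
  have hTWQ : ∀ q ∈ Finset.univ.image qv, IsTWPrime ρbar p S q := by
    intro q hqQ
    obtain ⟨i, -, rfl⟩ := Finset.mem_image.mp hqQ
    refine ⟨(hq i).1, (hq i).2.1, ?_, hfrob i⟩
    exact dvd_trans (dvd_pow_self p (Nat.succ_ne_zero n)) (hq i).2.2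
  obtain ⟨hfin, hcard⟩ := hbound (Finset.univ.image qv) hTWQ hkill DQ
  have hQcard : (Finset.univ.image qv).card = Module.finrank (ResidueField 𝒪) D := by
    rw [Finset.card_image_of_injective _ hinj, Finset.card_univ, Fintype.card_fin]
  rw [hQcard] at hcard
  exact hP1 𝒪 DQ.R DQ.residue_surjective _ hfin hcard

/-- **S56 from the layer-0 inputs.** -/
theorem result_of_inputs (hTBo : TangentBoundOrdStatement) (hTBf : TangentBoundFlatStatement)
    (hP1 : PowerSeriesSurjStatement) (hTWP : TWPrimesStatement)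
    {𝒪 : Type} [CommRing 𝒪] [IsDomain 𝒪] [IsDiscreteValuationRing 𝒪]
    [IsAdicComplete (maximalIdeal 𝒪) 𝒪] [Finite (ResidueField 𝒪)]
    (p : ℕ) [Fact p.Prime] (hp2 : p ≠ 2) (hp𝒪 : (p : 𝒪) ∈ maximalIdeal 𝒪)
    (ρbar : ResidualGaloisRep (ResidueField 𝒪))
    (habs : ρbar.IsAbsolutelyIrreducible)
    (hdet : (GaloisRepAdic.ofResidualGaloisRep ρbar).DetIsCyclotomic p)
    (hsplit : ∀ σ : AlgebraicClosure ℚ ≃ₐ[ℚ] AlgebraicClosure ℚ,
      ∃ α β : ResidueField 𝒪, LinearMap.charpoly (ρbar.ρ σ) = (X - C α) * (X - C β))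
    (hTW : ∀ (K : Type) [Field K] [Algebra (ResidueField 𝒪) K]
      (G : Subgroup (AlgebraicClosure ℚ ≃ₐ[ℚ] AlgebraicClosure ℚ)), G.index = 2 →
      ∀ V : Submodule K (ρbar.baseChange K).V,
        (∀ σ ∈ G, ∀ x ∈ V, (ρbar.baseChange K).ρ σ x ∈ V) → V = ⊥ ∨ V = ⊤)
    (S Smin : Finset ℕ) (hpSmin : p ∈ Smin) (hSmin : Smin ⊆ S) (hS : ∀ q ∈ S, q.Prime)
    (hmin : ∀ q : ℕ, q.Prime → q ≠ p → (q ∈ Smin ↔ ¬ ρbar.IsUnramifiedAt q)) :
    (∃ r : ℕ, ∀ n : ℕ, ∃ qv : Fin r → ℕ, Function.Injective qv ∧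
      (∀ i, (qv i).Prime ∧ qv i ∉ S ∧ p ^ (n + 1) ∣ qv i - 1) ∧
      (∀ i, ∀ P : ValuationSubring (AlgebraicClosure ℚ), P.LiesOverPrime (qv i) →
        ∀ φ : AlgebraicClosure ℚ ≃ₐ[ℚ] AlgebraicClosure ℚ, P.IsFrobeniusAt φ (qv i) →
          ∃ α β : ResidueField 𝒪, α ≠ β ∧ LinearMap.charpoly (ρbar.ρ φ) = (X - C α) * (X - C β)) ∧
      ∀ DQ : GaloisRep.DeformationRingData 𝒪 ρbar (fun _A _ _ _ ρ =>
          GaloisRep.strictOrdinaryCondition 𝒪 p (Smin ∪ Finset.univ.image qv) ρ ∧
            ∀ q ∈ Smin, q.Prime → q ≠ p → ρ.IsUnipotentOnInertiaAt q),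
        ∃ γ : MvPowerSeries (Fin r) 𝒪 →ₐ[𝒪] DQ.R, Function.Surjective γ) ∧
    (∃ r : ℕ, ∀ n : ℕ, ∃ qv : Fin r → ℕ, Function.Injective qv ∧
      (∀ i, (qv i).Prime ∧ qv i ∉ S ∧ p ^ (n + 1) ∣ qv i - 1) ∧
      (∀ i, ∀ P : ValuationSubring (AlgebraicClosure ℚ), P.LiesOverPrime (qv i) →
        ∀ φ : AlgebraicClosure ℚ ≃ₐ[ℚ] AlgebraicClosure ℚ, P.IsFrobeniusAt φ (qv i) →
          ∃ α β : ResidueField 𝒪, α ≠ β ∧ LinearMap.charpoly (ρbar.ρ φ) = (X - C α) * (X - C β)) ∧
      ∀ DQ : GaloisRep.DeformationRingData 𝒪 ρbar (fun _A _ _ _ ρ =>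
          GaloisRep.flatCondition 𝒪 p (Smin ∪ Finset.univ.image qv) ρ ∧
            ∀ q ∈ Smin, q.Prime → q ≠ p → ρ.IsUnipotentOnInertiaAt q),
        ∃ γ : MvPowerSeries (Fin r) 𝒪 →ₐ[𝒪] DQ.R, Function.Surjective γ) := by
  have H : Hyp 𝒪 p ρbar S Smin :=
    ⟨Fact.out, hp2, hp𝒪, habs, hdet, hsplit, hTW, hpSmin, hSmin, hS, hmin⟩
  exact ⟨half_of_inputs hP1 hTWP p ρbar S Smin H (ordCond 𝒪 p Smin)
      (hTBo 𝒪 p ρbar S Smin H),
    half_of_inputs hP1 hTWP p ρbar S Smin H (flatCond 𝒪 p Smin) (hTBf 𝒪 p ρbar S Smin H)⟩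

end Fermat.Agent.S56

end
-- ===== PACK-END S56/Glue.lean

-- ===== PACK-BEGIN S59/H659/Core.lean
section




/-!
# S59, piece G3 (helper659): deformation conditions, the formal core

`GaloisRep.IsDeformationCondition 𝒪 𝒟` for a predicate `𝒟 = fun _A _ _ _ ρ => Q ρ` which does not
depend on the `𝒪`-algebra structure is reduced to four properties of `Q` (`IsCoreCond Q`):

* invariance under equivalence and stability under base change along local homomorphisms
  (for all local rings);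
* descent along jointly injective pairs of local homomorphisms of Artinian local rings, for
  representations given by matrices (`of_fibre`); this contains descent along injective
  homomorphisms;
* descent from the quotients `A ⧸ 𝔪ⁿ` of a complete Noetherian local ring, for representations
  given by matrices (`of_quotients`).

Closure of `IsCoreCond` and of `IsDeformationCondition` under conjunctions and families.
-/

set_option autoImplicit false
set_option linter.unusedSectionVars false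
set_option linter.style.haveILetI false

namespace Fermat.Agent.S59.H659

open Fermat.Agent.S53 IsLocalRing

/-- Predicates on adic Galois representations over all local rings. -/
abbrev AdicPred : Type 1 :=
  ∀ ⦃A : Type⦄ [CommRing A] [IsLocalRing A], GaloisRepAdic A → Prop

/-- The properties of a predicate on adic Galois representations making it a deformation
condition. -/
structure IsCoreCond (Q : AdicPred) : Prop where
  of_isEquiv : ∀ ⦃A : Type⦄ [CommRing A] [IsLocalRing A] ⦃ρ ρ' : GaloisRepAdic A⦄,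
    ρ.IsEquiv ρ' → Q ρ → Q ρ'
  baseChangeAlong : ∀ ⦃A B : Type⦄ [CommRing A] [IsLocalRing A] [CommRing B] [IsLocalRing B]
    (φ : A →+* B) (hφ : IsLocalHom φ) ⦃ρ : GaloisRepAdic A⦄, Q ρ → Q (ρ.baseChangeAlong φ hφ)
  of_fibre : ∀ ⦃P A B : Type⦄ [CommRing P] [IsLocalRing P] [CommRing A] [IsLocalRing A]
    [CommRing B] [IsLocalRing B] [IsArtinianRing P] [IsArtinianRing A] [IsArtinianRing B]
    (pA : P →+* A) (pB : P →+* B) (hpA : IsLocalHom pA) (hpB : IsLocalHom pB),
    Function.Injective (fun x => (pA x, pB x)) →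
    ∀ (r : GQ →* M2 P) (hr : MatCont r), Q (toAdic (mapRep pA r) (hr.map pA hpA)) →
      Q (toAdic (mapRep pB r) (hr.map pB hpB)) → Q (toAdic r hr)
  of_quotients : ∀ ⦃A : Type⦄ [CommRing A] [IsLocalRing A] [IsNoetherianRing A]
    [IsAdicComplete (maximalIdeal A) A] (r : GQ →* M2 A) (hr : MatCont r),
    (∀ n : ℕ, n ≠ 0 → ∀ (hloc : IsLocalRing (A ⧸ maximalIdeal A ^ n))
      (hq : IsLocalHom (Ideal.Quotient.mk (maximalIdeal A ^ n))),
      Q (@toAdic (A ⧸ maximalIdeal A ^ n) _ hloc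
        (mapRep (Ideal.Quotient.mk (maximalIdeal A ^ n)) r)
        (@MatCont.map A (A ⧸ maximalIdeal A ^ n) _ _ _ hloc r hr _ hq))) →
    Q (toAdic r hr)

/-- The push-forward of a representation with a matrix model has the push-forward model. -/
theorem baseChangeAlong_isEquiv_toAdic {A B : Type} [CommRing A] [IsLocalRing A] [CommRing B]
    [IsLocalRing B] (φ : A →+* B) (hφ : IsLocalHom φ) (ρ : GaloisRepAdic A)
    (r : GQ →* M2 A) (hr : MatCont r) (h : ρ.IsEquiv (toAdic r hr)) :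
    (ρ.baseChangeAlong φ hφ).IsEquiv (toAdic (mapRep φ r) (hr.map φ hφ)) := by
  obtain ⟨e⟩ := h
  obtain ⟨e'⟩ := baseChangeAlong_toAdic φ hφ r hr
  exact ⟨(e.baseChangeAlong φ hφ).trans e'⟩

theorem isEquiv_symm {A : Type} [CommRing A] [IsLocalRing A] {ρ ρ' : GaloisRepAdic A}
    (h : ρ.IsEquiv ρ') : ρ'.IsEquiv ρ := by
  obtain ⟨e⟩ := h
  exact ⟨e.symm⟩

section Main

variable (𝒪 : Type) [CommRing 𝒪] [IsLocalRing 𝒪]

/-- **Deformation conditions from core conditions.** -/
theorem IsCoreCond.isDeformationCondition [Finite (ResidueField 𝒪)] {Q : AdicPred}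
    (hQ : IsCoreCond Q) :
    GaloisRep.IsDeformationCondition 𝒪 (fun _A _ _ _ ρ => Q ρ) where
  of_isEquiv := by
    intro A _ _ _ _ ρ ρ' hρ h
    exact hQ.of_isEquiv hρ h
  baseChangeAlong := by
    intro A B _ _ _ _ _ _ _ _ φ hφ ρ h
    exact hQ.baseChangeAlong (φ : A →+* B) hφ h
  of_baseChangeAlong_injective := by
    intro A B _ _ _ _ _ _ hA hB φ hφ hinj ρ h
    haveI := hA.isArtinian
    haveI := hB.isArtinian
    obtain ⟨r, hr, he⟩ := exists_toAdic ρ
    have h1 : Q (toAdic (mapRep (φ : A →+* B) r) (hr.map _ hφ)) :=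
      hQ.of_isEquiv (baseChangeAlong_isEquiv_toAdic (φ : A →+* B) hφ ρ r hr he) h
    have hinj' : Function.Injective (fun x : A => ((φ : A →+* B) x, (φ : A →+* B) x)) :=
      fun x y hxy => hinj (congrArg Prod.fst hxy)
    exact hQ.of_isEquiv (isEquiv_symm he)
      (hQ.of_fibre (φ : A →+* B) (φ : A →+* B) hφ hφ hinj' r hr h1 h1)
  of_fibreProduct := by
    intro A B C' P _ _ _ _ _ _ _ _ _ _ _ _ hA hB _ hP f g pA pB hpA hpB _ hinj _ ρ h1 h2
    haveI := hA.isArtinian
    haveI := hB.isArtinian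
    haveI := hP.isArtinian
    obtain ⟨r, hr, he⟩ := exists_toAdic ρ
    exact hQ.of_isEquiv (isEquiv_symm he)
      (hQ.of_fibre (pA : P →+* A) (pB : P →+* B) hpA hpB hinj r hr
        (hQ.of_isEquiv (baseChangeAlong_isEquiv_toAdic (pA : P →+* A) hpA ρ r hr he) h1)
        (hQ.of_isEquiv (baseChangeAlong_isEquiv_toAdic (pB : P →+* B) hpB ρ r hr he) h2))
  iff_forall_surjective := by
    intro A _ _ _ _ _ hloc hsurj ρ
    constructor
    · intro h B _ _ _ _ q hq _
      exact hQ.baseChangeAlong (q : A →+* B) hq h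
    · intro h
      obtain ⟨r, hr, he⟩ := exists_toAdic ρ
      refine hQ.of_isEquiv (isEquiv_symm he) (hQ.of_quotients r hr fun n hn hlocQ hq => ?_)
      letI := hlocQ
      have hT : GaloisRep.IsArtinianTestAlgebra 𝒪 (A ⧸ maximalIdeal A ^ n) :=
        isArtinianTestAlgebra_quotient_of_pow_le hloc hsurj _ n le_rfl
      have h1 := h hT (Ideal.Quotient.mkₐ 𝒪 (maximalIdeal A ^ n)) hq
        (Ideal.Quotient.mkₐ_surjective 𝒪 _)
      exact hQ.of_isEquiv (baseChangeAlong_isEquiv_toAdic _ hq ρ r hr he) h1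

end Main

/-! ### Closure properties -/

theorem IsCoreCond.and {Q₁ Q₂ : AdicPred} (h₁ : IsCoreCond Q₁) (h₂ : IsCoreCond Q₂) :
    IsCoreCond (fun _A _ _ ρ => Q₁ ρ ∧ Q₂ ρ) where
  of_isEquiv := fun _ _ _ _ _ he h => ⟨h₁.of_isEquiv he h.1, h₂.of_isEquiv he h.2⟩
  baseChangeAlong := fun _ _ _ _ _ _ φ hφ _ h =>
    ⟨h₁.baseChangeAlong φ hφ h.1, h₂.baseChangeAlong φ hφ h.2⟩
  of_fibre := fun _ _ _ _ _ _ _ _ _ _ _ _ pA pB hpA hpB hinj r hr hA hB =>
    ⟨h₁.of_fibre pA pB hpA hpB hinj r hr hA.1 hB.1,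
      h₂.of_fibre pA pB hpA hpB hinj r hr hA.2 hB.2⟩
  of_quotients := fun _ _ _ _ _ r hr h =>
    ⟨h₁.of_quotients r hr fun n hn hloc hq => (h n hn hloc hq).1,
      h₂.of_quotients r hr fun n hn hloc hq => (h n hn hloc hq).2⟩

theorem IsCoreCond.forall {ι : Sort*} {Q : ι → AdicPred} (h : ∀ i, IsCoreCond (Q i)) :
    IsCoreCond (fun _A _ _ ρ => ∀ i, Q i ρ) where
  of_isEquiv := fun _ _ _ _ _ he hρ i => (h i).of_isEquiv he (hρ i)
  baseChangeAlong := fun _ _ _ _ _ _ φ hφ _ hρ i => (h i).baseChangeAlong φ hφ (hρ i)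
  of_fibre := fun _ _ _ _ _ _ _ _ _ _ _ _ pA pB hpA hpB hinj r hr hA hB i =>
    (h i).of_fibre pA pB hpA hpB hinj r hr (hA i) (hB i)
  of_quotients := fun _ _ _ _ _ r hr hρ i =>
    (h i).of_quotients r hr fun n hn hloc hq => hρ n hn hloc hq i

section Closure

variable (𝒪 : Type) [CommRing 𝒪] [IsLocalRing 𝒪]

/-- Deformation conditions are closed under conjunction. -/
theorem isDeformationCondition_and
    {𝒟₁ 𝒟₂ : ∀ ⦃A : Type⦄ [CommRing A] [IsLocalRing A] [Algebra 𝒪 A], GaloisRepAdic A → Prop}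
    (h₁ : GaloisRep.IsDeformationCondition 𝒪 𝒟₁) (h₂ : GaloisRep.IsDeformationCondition 𝒪 𝒟₂) :
    GaloisRep.IsDeformationCondition 𝒪 (fun _A _ _ _ ρ => 𝒟₁ ρ ∧ 𝒟₂ ρ) where
  of_isEquiv := fun _ _ _ _ hA _ _ he h => ⟨h₁.of_isEquiv hA he h.1, h₂.of_isEquiv hA he h.2⟩
  baseChangeAlong := fun _ _ _ _ _ _ _ _ hA hB φ hφ _ h =>
    ⟨h₁.baseChangeAlong hA hB φ hφ h.1, h₂.baseChangeAlong hA hB φ hφ h.2⟩
  of_baseChangeAlong_injective := fun _ _ _ _ _ _ _ _ hA hB φ hφ hinj _ h =>
    ⟨h₁.of_baseChangeAlong_injective hA hB φ hφ hinj h.1,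
      h₂.of_baseChangeAlong_injective hA hB φ hφ hinj h.2⟩
  of_fibreProduct := fun _ _ _ _ _ _ _ _ _ _ _ _ _ _ _ _ hA hB hC hP f g pA pB hpA hpB hfg hinj
      hsurj _ hρA hρB =>
    ⟨h₁.of_fibreProduct hA hB hC hP f g pA pB hpA hpB hfg hinj hsurj hρA.1 hρB.1,
      h₂.of_fibreProduct hA hB hC hP f g pA pB hpA hpB hfg hinj hsurj hρA.2 hρB.2⟩
  iff_forall_surjective := by
    intro A _ _ _ _ _ hloc hsurj ρ
    constructor
    · intro h B _ _ _ hB q hq hqs
      exact ⟨(h₁.iff_forall_surjective hloc hsurj ρ).mp h.1 hB q hq hqs,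
        (h₂.iff_forall_surjective hloc hsurj ρ).mp h.2 hB q hq hqs⟩
    · intro h
      exact ⟨(h₁.iff_forall_surjective hloc hsurj ρ).mpr fun B _ _ _ hB q hq hqs =>
          (h hB q hq hqs).1,
        (h₂.iff_forall_surjective hloc hsurj ρ).mpr fun B _ _ _ hB q hq hqs =>
          (h hB q hq hqs).2⟩

/-- Deformation conditions are closed under arbitrary intersections. -/
theorem isDeformationCondition_forall {ι : Sort*}
    {𝒟 : ι → ∀ ⦃A : Type⦄ [CommRing A] [IsLocalRing A] [Algebra 𝒪 A], GaloisRepAdic A → Prop}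
    (h : ∀ i, GaloisRep.IsDeformationCondition 𝒪 (𝒟 i)) :
    GaloisRep.IsDeformationCondition 𝒪 (fun _A _ _ _ ρ => ∀ i, 𝒟 i ρ) where
  of_isEquiv := fun _ _ _ _ hA _ _ he hρ i => (h i).of_isEquiv hA he (hρ i)
  baseChangeAlong := fun _ _ _ _ _ _ _ _ hA hB φ hφ _ hρ i =>
    (h i).baseChangeAlong hA hB φ hφ (hρ i)
  of_baseChangeAlong_injective := fun _ _ _ _ _ _ _ _ hA hB φ hφ hinj _ hρ i =>
    (h i).of_baseChangeAlong_injective hA hB φ hφ hinj (hρ i)
  of_fibreProduct := fun _ _ _ _ _ _ _ _ _ _ _ _ _ _ _ _ hA hB hC hP f g pA pB hpA hpB hfg hinj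
      hsurj _ hρA hρB i =>
    (h i).of_fibreProduct hA hB hC hP f g pA pB hpA hpB hfg hinj hsurj (hρA i) (hρB i)
  iff_forall_surjective := by
    intro A _ _ _ _ _ hloc hsurj ρ
    constructor
    · intro hρ B _ _ _ hB q hq hqs i
      exact ((h i).iff_forall_surjective hloc hsurj ρ).mp (hρ i) hB q hq hqs
    · intro hρ i
      exact ((h i).iff_forall_surjective hloc hsurj ρ).mpr fun B _ _ _ hB q hq hqs =>
        hρ hB q hq hqs i

end Closure

end Fermat.Agent.S59.H659

end
-- ===== PACK-END S59/H659/Core.lean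

-- ===== PACK-BEGIN S53/Glue.lean
section


set_option autoImplicit false
set_option linter.unusedSectionVars false
set_option linter.unusedVariables false
set_option linter.style.haveILetI false

open IsLocalRing GaloisRep

noncomputable section

namespace Fermat.Agent.S53

section Generic

variable {A : Type} [CommRing A] [IsLocalRing A]

lemma matCont_of_factors {r : GQ →* M2 A}
    (h : GaloisFactorsThroughFiniteLevel r) : MatCont r := by
  intro n
  obtain ⟨L, hL, h1⟩ := h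
  refine ⟨L, hL, fun σ hσ i j => ?_⟩
  rw [h1 σ hσ, sub_self]
  exact Ideal.zero_mem _

lemma MatCont.factors_of_pow_eq_bot {r : GQ →* M2 A} (hr : MatCont r) {N : ℕ}
    (hN : maximalIdeal A ^ N = ⊥) : GaloisFactorsThroughFiniteLevel r := by
  obtain ⟨L, hL, h⟩ := hr N
  refine ⟨L, hL, fun σ hσ => ?_⟩
  ext i j
  have h1 := h σ hσ i j
  rw [hN, Ideal.mem_bot, Matrix.sub_apply, sub_eq_zero] at h1
  exact h1

lemma exists_pow_eq_bot_of_isArtinianRing [IsArtinianRing A] :
    ∃ N : ℕ, maximalIdeal A ^ N = ⊥ := by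
  obtain ⟨n, hn⟩ := IsArtinianRing.isNilpotent_jacobson_bot (R := A)
  refine ⟨n, ?_⟩
  rwa [IsLocalRing.jacobson_eq_maximalIdeal ⊥ bot_ne_top] at hn

lemma toAdic_congr {r r' : GQ →* M2 A} (h : r = r') (hr : MatCont r) (hr' : MatCont r') :
    (toAdic r hr).IsEquiv (toAdic r' hr') := by
  subst h
  exact ⟨GaloisRepAdic.Equiv.refl _⟩

lemma factors_sup {M N : Type} [MulOneClass M] [MulOneClass N] {r : GQ →* M} {s : GQ →* N}
    (hr : GaloisFactorsThroughFiniteLevel r) (hs : GaloisFactorsThroughFiniteLevel s) :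
    ∃ L : IntermediateField ℚ (AlgebraicClosure ℚ), FiniteDimensional ℚ L ∧
      ∀ σ : GQ, (∀ x ∈ L, σ x = x) → r σ = 1 ∧ s σ = 1 := by
  obtain ⟨L1, hL1, h1⟩ := hr
  obtain ⟨L2, hL2, h2⟩ := hs
  refine ⟨L1 ⊔ L2, IntermediateField.finiteDimensional_sup L1 L2, fun σ hσ => ⟨?_, ?_⟩⟩
  · exact h1 σ fun x hx => hσ x ((le_sup_left : L1 ≤ L1 ⊔ L2) hx)
  · exact h2 σ fun x hx => hσ x ((le_sup_right : L2 ≤ L1 ⊔ L2) hx)

end Generic

section JointInj

variable {Q A B : Type} [CommRing Q] [CommRing A] [CommRing B]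

lemma mat_eq_of_joint_injective (pA : Q →+* A) (pB : Q →+* B)
    (hinj : Function.Injective (fun q => (pA q, pB q))) (X Y : M2 Q)
    (h1 : X.map pA = Y.map pA) (h2 : X.map pB = Y.map pB) : X = Y := by
  ext i j
  apply hinj
  simp only [Prod.mk.injEq]
  exact ⟨by simpa using congrFun (congrFun h1 i) j, by simpa using congrFun (congrFun h2 i) j⟩

lemma mat_eq_one_of_joint_injective (pA : Q →+* A) (pB : Q →+* B)
    (hinj : Function.Injective (fun q => (pA q, pB q))) (X : M2 Q)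
    (h1 : X.map pA = 1) (h2 : X.map pB = 1) : X = 1 := by
  apply mat_eq_of_joint_injective pA pB hinj
  · rw [h1]; exact (pA.mapMatrix.map_one).symm
  · rw [h2]; exact (pB.mapMatrix.map_one).symm

/-- A family of entries over `Q` whose images under two jointly injective ring homs are
representations is itself a representation. -/
lemma exists_rep_of_joint_injective (pA : Q →+* A) (pB : Q →+* B)
    (hinj : Function.Injective (fun q => (pA q, pB q)))
    (x : Idx → Q) (rA : GQ →* M2 A) (rB : GQ →* M2 B)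
    (hA : entries rA = fun t => pA (x t)) (hB : entries rB = fun t => pB (x t)) :
    ∃ r : GQ →* M2 Q, entries r = x ∧ mapRep pA r = rA ∧ mapRep pB r = rB := by
  have hAe : ∀ σ i j, rA σ i j = pA (x (σ, i, j)) := fun σ i j => congrFun hA (σ, i, j)
  have hBe : ∀ σ i j, rB σ i j = pB (x (σ, i, j)) := fun σ i j => congrFun hB (σ, i, j)
  let m : GQ → M2 Q := fun σ => Matrix.of fun i j => x (σ, i, j)
  have hmA : ∀ σ, (m σ).map pA = rA σ := fun σ => by
    ext i j; simp [m, hAe]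
  have hmB : ∀ σ, (m σ).map pB = rB σ := fun σ => by
    ext i j; simp [m, hBe]
  have hmat : ∀ X Y : M2 Q, X.map pA = Y.map pA → X.map pB = Y.map pB → X = Y := by
    intro X Y h1 h2
    ext i j
    apply hinj
    simp only [Prod.mk.injEq]
    exact ⟨by simpa using congrFun (congrFun h1 i) j, by simpa using congrFun (congrFun h2 i) j⟩
  refine ⟨⟨⟨m, ?_⟩, ?_⟩, rfl, ?_, ?_⟩
  · apply hmat
    · rw [hmA, map_one]; exact (pA.mapMatrix.map_one).symm
    · rw [hmB, map_one]; exact (pB.mapMatrix.map_one).symm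
  · intro σ τ
    apply hmat
    · rw [Matrix.map_mul, hmA, hmA, hmA, map_mul]
    · rw [Matrix.map_mul, hmB, hmB, hmB, map_mul]
  · ext σ i j
    exact (hAe σ i j).symm
  · ext σ i j
    exact (hBe σ i j).symm

end JointInj

section LiftNorm

variable {𝒪 : Type} [CommRing 𝒪] {c : Idx → 𝒪} {m : ℕ} {coord : Fin m → Idx} {cst : Fin m → 𝒪}
variable {A B Q : Type} [CommRing A] [IsLocalRing A] [Algebra 𝒪 A]
  [CommRing B] [IsLocalRing B] [Algebra 𝒪 B] [CommRing Q] [IsLocalRing Q] [Algebra 𝒪 Q]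

lemma IsLiftC.map (φ : A →ₐ[𝒪] B) (hφ : IsLocalHom (φ : A →+* B)) {x : Idx → A}
    (hl : IsLiftC c x) : IsLiftC c (fun t => φ (x t)) := by
  intro t
  have h1 : φ (x t) - algebraMap 𝒪 B (c t) = (φ : A →+* B) (x t - algebraMap 𝒪 A (c t)) := by
    simp [map_sub, AlgHom.commutes]
  rw [h1]
  exact haveI := hφ; map_nonunit (φ : A →+* B) _ (hl t)

lemma IsLiftC.of_map (φ : A →ₐ[𝒪] B) {x : Idx → A}
    (hl : IsLiftC c (fun t => φ (x t))) : IsLiftC c x := by
  intro t
  have h1 : φ (x t) - algebraMap 𝒪 B (c t) = φ (x t - algebraMap 𝒪 A (c t)) := by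
    simp [map_sub, AlgHom.commutes]
  have h2 := hl t
  rw [h1] at h2
  rw [mem_maximalIdeal, mem_nonunits_iff] at h2 ⊢
  exact fun hu => h2 (hu.map φ)

lemma NormC.map (φ : A →ₐ[𝒪] B) {x : Idx → A}
    (hn : NormC coord cst x) : NormC coord cst (fun t => φ (x t)) := by
  intro a
  show φ (x (coord a)) = _
  rw [hn a, AlgHom.commutes]

lemma NormC.of_joint (pA : Q →ₐ[𝒪] A) (pB : Q →ₐ[𝒪] B)
    (hinj : Function.Injective (fun q => (pA q, pB q))) {x : Idx → Q}
    (hA : NormC coord cst (fun t => pA (x t))) (hB : NormC coord cst (fun t => pB (x t))) :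
    NormC coord cst x := by
  intro a
  apply hinj
  simp only [Prod.mk.injEq, AlgHom.commutes]
  exact ⟨hA a, hB a⟩

end LiftNorm

section Fields

variable {𝒪 : Type} [CommRing 𝒪] [IsLocalRing 𝒪]
  {𝒟 : ∀ ⦃A : Type⦄ [CommRing A] [IsLocalRing A] [Algebra 𝒪 A], GaloisRepAdic A → Prop}
  (h𝒟 : IsDeformationCondition 𝒪 𝒟)
  {c : Idx → 𝒪} (K : RigidKit 𝒪 c)

include h𝒟

lemma Lpred_map {A B : Type} [CommRing A] [IsLocalRing A] [Algebra 𝒪 A]
    [CommRing B] [IsLocalRing B] [Algebra 𝒪 B]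
    (hA : IsArtinianTestAlgebra 𝒪 A) (hB : IsArtinianTestAlgebra 𝒪 B)
    (φ : A →ₐ[𝒪] B) (hφ : IsLocalHom (φ : A →+* B)) {x : Idx → A} (hx : Lpred 𝒟 K x) :
    Lpred 𝒟 K (fun i => φ (x i)) := by
  obtain ⟨r, hr, rfl, hD, hl, hn⟩ := hx
  refine ⟨mapRep (φ : A →+* B) r, hr.map _ hφ, rfl, ?_, hl.map φ hφ, hn.map φ⟩
  exact h𝒟.of_isEquiv hB (baseChangeAlong_toAdic (φ : A →+* B) hφ r hr)
    (h𝒟.baseChangeAlong hA hB φ hφ hD)

lemma Lpred_fibre {A B C P : Type} [CommRing A] [IsLocalRing A] [Algebra 𝒪 A]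
    [CommRing B] [IsLocalRing B] [Algebra 𝒪 B] [CommRing C] [IsLocalRing C] [Algebra 𝒪 C]
    [CommRing P] [IsLocalRing P] [Algebra 𝒪 P]
    (hA : IsArtinianTestAlgebra 𝒪 A) (hB : IsArtinianTestAlgebra 𝒪 B)
    (hC : IsArtinianTestAlgebra 𝒪 C) (hP : IsArtinianTestAlgebra 𝒪 P)
    (f : A →ₐ[𝒪] C) (g : B →ₐ[𝒪] C) (pA : P →ₐ[𝒪] A) (pB : P →ₐ[𝒪] B)
    (hpA : IsLocalHom (pA : P →+* A)) (hpB : IsLocalHom (pB : P →+* B))
    (hfg : f.comp pA = g.comp pB)
    (hinj : Function.Injective (fun x => (pA x, pB x)))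
    (hsurj : ∀ a b, f a = g b → ∃ x, pA x = a ∧ pB x = b)
    {x : Idx → P} (hxA : Lpred 𝒟 K (fun i => pA (x i))) (hxB : Lpred 𝒟 K (fun i => pB (x i))) :
    Lpred 𝒟 K x := by
  obtain ⟨rA, hrA, hentA, hDA, hlA, hnA⟩ := hxA
  obtain ⟨rB, hrB, hentB, hDB, hlB, hnB⟩ := hxB
  obtain ⟨r, hr_ent, hmA, hmB⟩ := exists_rep_of_joint_injective (pA : P →+* A) (pB : P →+* B)
    hinj x rA rB hentA hentB
  subst hmA hmB
  have := hA.isArtinian
  have := hB.isArtinian
  obtain ⟨NA, hNA⟩ := exists_pow_eq_bot_of_isArtinianRing (A := A)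
  obtain ⟨NB, hNB⟩ := exists_pow_eq_bot_of_isArtinianRing (A := B)
  obtain ⟨L, hL, h1⟩ := factors_sup (hrA.factors_of_pow_eq_bot hNA) (hrB.factors_of_pow_eq_bot hNB)
  have hf : GaloisFactorsThroughFiniteLevel r := by
    refine ⟨L, hL, fun σ hσ => ?_⟩
    obtain ⟨h2, h3⟩ := h1 σ hσ
    exact mat_eq_one_of_joint_injective (pA : P →+* A) (pB : P →+* B) hinj _ h2 h3
  have hr : MatCont r := matCont_of_factors hf
  refine ⟨r, hr, hr_ent, ?_, ?_, NormC.of_joint pA pB hinj hnA hnB⟩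
  · apply h𝒟.of_fibreProduct hA hB hC hP f g pA pB hpA hpB hfg hinj hsurj
    · obtain ⟨e⟩ := baseChangeAlong_toAdic (pA : P →+* A) hpA r hr
      exact h𝒟.of_isEquiv hA ⟨e.symm⟩ hDA
    · obtain ⟨e⟩ := baseChangeAlong_toAdic (pB : P →+* B) hpB r hr
      exact h𝒟.of_isEquiv hB ⟨e.symm⟩ hDB
  · exact IsLiftC.of_map pA hlA

lemma Lpred_inj {A B : Type} [CommRing A] [IsLocalRing A] [Algebra 𝒪 A]
    [CommRing B] [IsLocalRing B] [Algebra 𝒪 B]
    (hA : IsArtinianTestAlgebra 𝒪 A) (hB : IsArtinianTestAlgebra 𝒪 B)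
    (φ : A →ₐ[𝒪] B) (hφ : IsLocalHom (φ : A →+* B)) (hinj : Function.Injective φ)
    {x : Idx → A} (hx : Lpred 𝒟 K (fun i => φ (x i))) : Lpred 𝒟 K x := by
  obtain ⟨rB, hrB, hentB, hDB, hlB, hnB⟩ := hx
  have hinj2 : Function.Injective (fun q => ((φ : A →+* B) q, (φ : A →+* B) q)) :=
    fun a b hab => hinj (congrArg Prod.fst hab)
  obtain ⟨r, hr_ent, hmA, -⟩ := exists_rep_of_joint_injective (φ : A →+* B) (φ : A →+* B)
    hinj2 x rB rB hentB hentB
  subst hmA
  have := hB.isArtinian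
  obtain ⟨NB, hNB⟩ := exists_pow_eq_bot_of_isArtinianRing (A := B)
  obtain ⟨L, hL, h1⟩ := hrB.factors_of_pow_eq_bot hNB
  have hf : GaloisFactorsThroughFiniteLevel r := by
    refine ⟨L, hL, fun σ hσ => ?_⟩
    have h2 := h1 σ hσ
    exact mat_eq_one_of_joint_injective (φ : A →+* B) (φ : A →+* B) hinj2 _ h2 h2
  have hr : MatCont r := matCont_of_factors hf
  refine ⟨r, hr, hr_ent, ?_, IsLiftC.of_map φ hlB, NormC.of_joint φ φ hinj2 hnB hnB⟩
  apply h𝒟.of_baseChangeAlong_injective hA hB φ hφ hinj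
  obtain ⟨e⟩ := baseChangeAlong_toAdic (φ : A →+* B) hφ r hr
  exact h𝒟.of_isEquiv hB ⟨e.symm⟩ hDB

omit h𝒟 in
lemma isArtinianTestAlgebra_residueField_h953 :
    IsArtinianTestAlgebra 𝒪 (ResidueField 𝒪) where
  isLocalHom := by
    rw [IsLocalRing.ResidueField.algebraMap_eq]
    infer_instance
  residue_surjective := by
    rw [IsLocalRing.ResidueField.algebraMap_eq]
    exact (IsLocalRing.residue_surjective).comp IsLocalRing.residue_surjective
  isArtinian := inferInstance

lemma Lpred_base (ρbar : ResidualGaloisRep (ResidueField 𝒪))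
    (hbar : 𝒟 (GaloisRepAdic.ofResidualGaloisRep ρbar))
    (rbar : GQ →* M2 (ResidueField 𝒪)) (hrbar : GaloisFactorsThroughFiniteLevel rbar)
    (e0 : ρbar.IsEquiv (toRes rbar hrbar)) (hc : ∀ t, residue 𝒪 (c t) = entries rbar t) :
    Lpred 𝒟 K (fun i => algebraMap 𝒪 (ResidueField 𝒪) (c i)) := by
  have hent : entries rbar = fun i => algebraMap 𝒪 (ResidueField 𝒪) (c i) := by
    funext t
    rw [IsLocalRing.ResidueField.algebraMap_eq, hc t]
  refine ⟨rbar, matCont_of_factors hrbar, hent, ?_, ?_, ?_⟩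
  · obtain ⟨e⟩ := e0
    exact h𝒟.of_isEquiv isArtinianTestAlgebra_residueField_h953
      ⟨⟨e.toLinearEquiv, e.map_apply⟩⟩ hbar
  · intro t
    simp
  · intro a
    show algebraMap 𝒪 (ResidueField 𝒪) (c (K.coord a)) = algebraMap 𝒪 (ResidueField 𝒪) (K.cst a)
    rw [IsLocalRing.ResidueField.algebraMap_eq, K.cst_res a]

section Limit

variable {A : Type} [CommRing A] [IsLocalRing A] [IsNoetherianRing A]
  [IsAdicComplete (maximalIdeal A) A] [Algebra 𝒪 A]

omit h𝒟 in
lemma pow_succ_ne_top (n : ℕ) : maximalIdeal A ^ (n + 1) ≠ ⊤ := by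
  intro h
  have h1 : maximalIdeal A ^ (n + 1) ≤ maximalIdeal A := Ideal.pow_le_self (Nat.succ_ne_zero n)
  rw [h] at h1
  exact (maximalIdeal.isMaximal A).ne_top (top_le_iff.1 h1)

omit h𝒟 in
lemma isLocalRing_quot_pow (n : ℕ) : IsLocalRing (A ⧸ maximalIdeal A ^ (n + 1)) :=
  haveI : Nontrivial (A ⧸ maximalIdeal A ^ (n + 1)) :=
    Ideal.Quotient.nontrivial_iff.2 (pow_succ_ne_top n)
  IsLocalRing.of_surjective' (Ideal.Quotient.mk _) Ideal.Quotient.mk_surjective

omit h𝒟 in
lemma isLocalHom_mk_pow (n : ℕ) :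
    haveI := isLocalRing_quot_pow (A := A) n
    IsLocalHom (Ideal.Quotient.mk (maximalIdeal A ^ (n + 1))) :=
  haveI := isLocalRing_quot_pow (A := A) n
  IsLocalHom.of_surjective _ Ideal.Quotient.mk_surjective

omit h𝒟 in
lemma maximalIdeal_quot_pow (n : ℕ) :
    haveI := isLocalRing_quot_pow (A := A) n
    maximalIdeal (A ⧸ maximalIdeal A ^ (n + 1)) ^ (n + 1) = ⊥ := by
  haveI := isLocalRing_quot_pow (A := A) n
  rw [← IsLocalRing.map_maximalIdeal_of_surjective (Ideal.Quotient.mk (maximalIdeal A ^ (n + 1)))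
    Ideal.Quotient.mk_surjective, ← Ideal.map_pow, Ideal.map_quotient_self]

omit h𝒟 in
lemma isArtinianTestAlgebra_quot_pow (hloc : IsLocalHom (algebraMap 𝒪 A))
    (hsurj : Function.Surjective (IsLocalRing.residue A ∘ algebraMap 𝒪 A)) (n : ℕ) :
    haveI := isLocalRing_quot_pow (A := A) n
    IsArtinianTestAlgebra 𝒪 (A ⧸ maximalIdeal A ^ (n + 1)) := by
  haveI := isLocalRing_quot_pow (A := A) n
  haveI := isLocalHom_mk_pow (A := A) n
  refine ⟨?_, ?_, ?_⟩
  · have : algebraMap 𝒪 (A ⧸ maximalIdeal A ^ (n + 1)) =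
        (Ideal.Quotient.mk (maximalIdeal A ^ (n + 1))).comp (algebraMap 𝒪 A) := rfl
    rw [this]
    infer_instance
  · intro y
    obtain ⟨z, rfl⟩ := IsLocalRing.residue_surjective y
    obtain ⟨a, rfl⟩ := Ideal.Quotient.mk_surjective z
    obtain ⟨o, ho⟩ := hsurj (IsLocalRing.residue A a)
    refine ⟨o, ?_⟩
    simp only [Function.comp_apply] at ho ⊢
    rw [← sub_eq_zero, ← map_sub, IsLocalRing.residue_eq_zero_iff] at ho ⊢
    have : algebraMap 𝒪 (A ⧸ maximalIdeal A ^ (n + 1)) o - Ideal.Quotient.mk _ a =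
        Ideal.Quotient.mk (maximalIdeal A ^ (n + 1)) (algebraMap 𝒪 A o - a) := by
      rw [map_sub]; rfl
    rw [this]
    exact map_nonunit _ _ ho
  · rw [isArtinianRing_iff_isNilpotent_maximalIdeal]
    exact ⟨n + 1, maximalIdeal_quot_pow n⟩

omit h𝒟 in
lemma eq_of_forall_mk_eq {a b : A}
    (h : ∀ n : ℕ, Ideal.Quotient.mk (maximalIdeal A ^ (n + 1)) a =
      Ideal.Quotient.mk (maximalIdeal A ^ (n + 1)) b) : a = b := by
  rw [← sub_eq_zero, ← Ideal.mem_bot,
    ← Ideal.iInf_pow_eq_bot_of_isLocalRing (maximalIdeal A) (maximalIdeal.isMaximal A).ne_top,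
    Ideal.mem_iInf]
  intro n
  have h1 := h n
  rw [Ideal.Quotient.eq] at h1
  exact Ideal.pow_le_pow_right (Nat.le_succ n) h1

lemma Lpred_limit_mp (hloc : IsLocalHom (algebraMap 𝒪 A))
    (hsurj : Function.Surjective (IsLocalRing.residue A ∘ algebraMap 𝒪 A))
    {x : Idx → A} (hx : Lpred 𝒟 K x)
    {B : Type} [CommRing B] [IsLocalRing B] [Algebra 𝒪 B] (hB : IsArtinianTestAlgebra 𝒪 B)
    (q : A →ₐ[𝒪] B) (hq : IsLocalHom (q : A →+* B)) (hqs : Function.Surjective q) :
    Lpred 𝒟 K (fun i => q (x i)) := by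
  obtain ⟨r, hr, rfl, hD, hl, hn⟩ := hx
  refine ⟨mapRep (q : A →+* B) r, hr.map _ hq, rfl, ?_, hl.map q hq, hn.map q⟩
  exact h𝒟.of_isEquiv hB (baseChangeAlong_toAdic _ hq r hr)
    ((h𝒟.iff_forall_surjective hloc hsurj (toAdic r hr)).1 hD hB q hq hqs)

lemma Lpred_limit_mpr (hloc : IsLocalHom (algebraMap 𝒪 A))
    (hsurj : Function.Surjective (IsLocalRing.residue A ∘ algebraMap 𝒪 A))
    {x : Idx → A}
    (h : ∀ ⦃B : Type⦄ [CommRing B] [IsLocalRing B] [Algebra 𝒪 B], IsArtinianTestAlgebra 𝒪 B →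
        ∀ (q : A →ₐ[𝒪] B), IsLocalHom (q : A →+* B) → Function.Surjective q →
          Lpred 𝒟 K (fun i => q (x i))) :
    Lpred 𝒟 K x := by
  -- the levels
  have hlev : ∀ n : ℕ, haveI := isLocalRing_quot_pow (A := A) n
      Lpred 𝒟 K (fun i => Ideal.Quotient.mkₐ 𝒪 (maximalIdeal A ^ (n + 1)) (x i)) := by
    intro n
    haveI := isLocalRing_quot_pow (A := A) n
    exact h (isArtinianTestAlgebra_quot_pow hloc hsurj n)
      (Ideal.Quotient.mkₐ 𝒪 (maximalIdeal A ^ (n + 1))) (isLocalHom_mk_pow n)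
      (Ideal.Quotient.mkₐ_surjective 𝒪 _)
  let m : GQ → M2 A := fun σ => Matrix.of fun i j => x (σ, i, j)
  have hm : ∀ (n : ℕ), haveI := isLocalRing_quot_pow (A := A) n
      ∀ (rn : GQ →* M2 (A ⧸ maximalIdeal A ^ (n + 1))),
      entries rn = (fun i => Ideal.Quotient.mkₐ 𝒪 (maximalIdeal A ^ (n + 1)) (x i)) →
      ∀ σ, (m σ).map (Ideal.Quotient.mk (maximalIdeal A ^ (n + 1))) = rn σ := by
    intro n rn hrn σ
    ext i j
    have := congrFun hrn (σ, i, j)
    simpa [m, entries] using this.symm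
  have hmat : ∀ X Y : M2 A, (∀ n : ℕ, X.map (Ideal.Quotient.mk (maximalIdeal A ^ (n + 1))) =
      Y.map (Ideal.Quotient.mk (maximalIdeal A ^ (n + 1)))) → X = Y := by
    intro X Y hXY
    ext i j
    exact eq_of_forall_mk_eq fun n => by simpa using congrFun (congrFun (hXY n) i) j
  let r : GQ →* M2 A :=
    { toFun := m
      map_one' := by
        apply hmat
        intro n
        haveI := isLocalRing_quot_pow (A := A) n
        obtain ⟨rn, hrn, hent, -⟩ := hlev n
        rw [hm n rn hent, map_one]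
        exact ((Ideal.Quotient.mk (maximalIdeal A ^ (n + 1))).mapMatrix.map_one).symm
      map_mul' := by
        intro σ τ
        apply hmat
        intro n
        haveI := isLocalRing_quot_pow (A := A) n
        obtain ⟨rn, hrn, hent, -⟩ := hlev n
        rw [Matrix.map_mul, hm n rn hent, hm n rn hent, hm n rn hent, map_mul] }
  have hr_ent : entries r = x := rfl
  have hmap : ∀ (n : ℕ), haveI := isLocalRing_quot_pow (A := A) n
      ∀ (rn : GQ →* M2 (A ⧸ maximalIdeal A ^ (n + 1))),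
      entries rn = (fun i => Ideal.Quotient.mkₐ 𝒪 (maximalIdeal A ^ (n + 1)) (x i)) →
      mapRep (Ideal.Quotient.mk (maximalIdeal A ^ (n + 1))) r = rn := by
    intro n rn hrn
    ext σ i j
    exact (congrFun hrn (σ, i, j)).symm
  have hr : MatCont r := by
    intro n
    haveI := isLocalRing_quot_pow (A := A) n
    obtain ⟨rn, hrn, hent, -⟩ := hlev n
    obtain ⟨L, hL, h1⟩ := hrn.factors_of_pow_eq_bot (maximalIdeal_quot_pow n)
    refine ⟨L, hL, fun σ hσ i j => ?_⟩
    have h2 := h1 σ hσ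
    rw [← hmap n rn hent] at h2
    have h3 : Ideal.Quotient.mk (maximalIdeal A ^ (n + 1)) ((r σ - 1) i j) = 0 := by
      have := congrFun (congrFun h2 i) j
      rw [mapRep_apply_apply] at this
      rw [Matrix.sub_apply, map_sub, this]
      by_cases hij : i = j
      · subst hij; simp
      · simp [hij]
    rw [Ideal.Quotient.eq_zero_iff_mem] at h3
    exact Ideal.pow_le_pow_right (Nat.le_succ n) h3
  refine ⟨r, hr, hr_ent, ?_, ?_, ?_⟩
  · rw [h𝒟.iff_forall_surjective hloc hsurj (toAdic r hr)]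
    intro B _ _ _ hB q hq hqs
    obtain ⟨rB, hrB, hentB, hDB, -, -⟩ := h hB q hq hqs
    have hrB_eq : mapRep (q : A →+* B) r = rB := by
      ext σ i j
      exact (congrFun hentB (σ, i, j)).symm
    subst hrB_eq
    obtain ⟨e⟩ := baseChangeAlong_toAdic (q : A →+* B) hq r hr
    exact h𝒟.of_isEquiv hB ⟨e.symm⟩ hDB
  · haveI := isLocalRing_quot_pow (A := A) 0
    obtain ⟨-, -, -, -, hl0, -⟩ := hlev 0
    exact IsLiftC.of_map (Ideal.Quotient.mkₐ 𝒪 (maximalIdeal A ^ (0 + 1))) hl0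
  · intro a
    apply eq_of_forall_mk_eq
    intro n
    haveI := isLocalRing_quot_pow (A := A) n
    obtain ⟨-, -, -, -, -, hnn⟩ := hlev n
    exact hnn a

end Limit

end Fields

end Fermat.Agent.S53

end

end
-- ===== PACK-END S53/Glue.lean

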