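import Fermat.Prelude.Def_FLTPrelim_Modularity
import Fermat.Agent.Pack.S43GC.G0E5L3
import Fermat.Agent.Pack.S43GC.G0E3L1
import Fermat.Agent.Pack.S43GC.G0E0L0
import Fermat.Agent.Pack.S43GC.G0E5L2
import Fermat.Agent.Pack.S44C.G0E12L3
import Fermat.Agent.Pack.S43GC.G0E5L1
import Fermat.Agent.Pack.S43GC.G0E0L3
import Fermat.Agent.Pack.S43GC.G0E3L2
import Fermat.Agent.Pack.S43GC.G0E5L0
import Fermat.Agent.Pack.S43GC.G0E3L0
import Fermat.Agent.Pack.S43GC.G0E4L3
import Fermat.Agent.Pack.S43GC.G0E2L3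
import Fermat.Agent.Pack.S43GC.G0E4L2
import Fermat.Agent.Pack.S43GC.G0E6L1
import Fermat.Agent.Pack.Fast891

-- ===== PACK-BEGIN S55/PT/Cone.lean
section


/-!
# S55 / PT layer, part 4: localisation maps, Ш¹, Ш², the cone `H²_c` and `T³`

Global group `G` with levels `L`; finitely many local groups `Gv v` with levels `Lv v` and
level-compatible maps `r v : Gv v → G`.

* `loc1`, `loc2`, `Sha1`, `Sha2`, `T3 = coker loc2`;
* cone cocycles `Zc2`, coboundaries `Bc2`, `Hc2`;
* `jH : ∏_v H¹(G_v, A) → H²_c(A)`, `uH : H²_c(A) → H²(A)`;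
* push-forwards `pushHc2`, `pushT3`, `pushSha1`, `pushSha2`, `pushLoc1`, `pushLoc2`.

Exactness statements are leaves (see `Spec.lean`).
-/

set_option autoImplicit false

noncomputable section

namespace Fermat.Agent.S55.PT

open groupCohomology

variable {k : Type} [Field k] {G : Type} [Group G]
variable {ι : Type} [Fintype ι] [DecidableEq ι] {Gv : ι → Type} [∀ v, Group (Gv v)]
variable {L : LevelSys G} {Lv : ∀ v, LevelSys (Gv v)} {r : ∀ v, Gv v →* G}
variable (hr : ∀ v, IsLevelCompatible (r v) L (Lv v))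
variable (A : Rep.{0, 0, 0} k G)

/-- restriction of an equivariant map is equivariant -/
lemma IsEquivariant.res {G' : Type} [Group G'] (s : G' →* G) {A B : Rep.{0, 0, 0} k G}
    {φ : A →ₗ[k] B} (hφ : IsEquivariant φ) :
    IsEquivariant (A := Rep.res s A) (B := Rep.res s B) φ :=
  fun g a => hφ (s g) a

/-- total localisation on `H¹` -/
def loc1 : L.H1 A →ₗ[k] ((v : ι) → (Lv v).H1 (Rep.res (r v) A)) :=
  LinearMap.pi fun v => resH1 (hr v) A

/-- total localisation on `H²` -/
def loc2 : L.H2 A →ₗ[k] ((v : ι) → (Lv v).H2 (Rep.res (r v) A)) :=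
  LinearMap.pi fun v => resH2 (hr v) A

@[simp] lemma loc1_apply (x : L.H1 A) (v : ι) : loc1 hr A x v = resH1 (hr v) A x := rfl
@[simp] lemma loc2_apply (x : L.H2 A) (v : ι) : loc2 hr A x v = resH2 (hr v) A x := rfl

/-- `Ш¹ = ker loc1` -/
abbrev Sha1 : Submodule k (L.H1 A) := LinearMap.ker (loc1 hr A)

/-- `Ш² = ker loc2` -/
abbrev Sha2 : Submodule k (L.H2 A) := LinearMap.ker (loc2 hr A)

/-- `T³(A) = coker (H²(G, A) → ∏_v H²(G_v, A))` (this is `H³_c` when `H³` vanishes) -/
def T3 : Type := ((v : ι) → (Lv v).H2 (Rep.res (r v) A)) ⧸ LinearMap.range (loc2 hr A)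

instance : AddCommGroup (T3 hr A) :=
  inferInstanceAs (AddCommGroup
    (((v : ι) → (Lv v).H2 (Rep.res (r v) A)) ⧸ LinearMap.range (loc2 hr A)))

instance : Module k (T3 hr A) :=
  inferInstanceAs (Module k
    (((v : ι) → (Lv v).H2 (Rep.res (r v) A)) ⧸ LinearMap.range (loc2 hr A)))

/-- the class map `∏_v H²(G_v, A) → T³(A)` -/
def T3π : ((v : ι) → (Lv v).H2 (Rep.res (r v) A)) →ₗ[k] T3 hr A :=
  Submodule.mkQ (LinearMap.range (loc2 hr A))

lemma T3π_surjective : Function.Surjective (T3π hr A) := Submodule.mkQ_surjective _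

lemma ker_T3π : LinearMap.ker (T3π hr A) = LinearMap.range (loc2 hr A) := Submodule.ker_mkQ _

lemma T3π_eq_zero_iff (x : (v : ι) → (Lv v).H2 (Rep.res (r v) A)) :
    T3π hr A x = 0 ↔ x ∈ LinearMap.range (loc2 hr A) := by
  rw [← ker_T3π, LinearMap.mem_ker]

variable (r) in
/-- The differential `C¹_c → C²_c` of the cone:
`(x, m) ↦ (d x, (x ∘ r_v + d m_v)_v)`, `x` a global 1-cochain, `m_v ∈ A`. -/
def coneD : ((G → A) × (ι → A)) →ₗ[k] ((G × G → A) × ((v : ι) → Gv v → A)) where
  toFun x := ((d₁₂ A).hom x.1,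
    fun v => (x.1 ∘ r v : Gv v → A) + ((d₀₁ (Rep.res (r v) A)).hom (x.2 v) : Gv v → A))
  map_add' x y := by
    ext1
    · simp
    · funext v g
      simp only [Prod.fst_add, Prod.snd_add, Pi.add_apply, Function.comp_apply, map_add]
      abel
  map_smul' c x := by
    ext1
    · simp
    · funext v g
      simp only [Prod.smul_fst, Prod.smul_snd, Pi.smul_apply, Pi.add_apply, Function.comp_apply,
        map_smul, RingHom.id_apply, smul_add]

variable (L Lv r) in
/-- Cone 2-cocycles: `(a, b)` with `a` a level-constant global 2-cocycle, `b_v` level-constant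
local 1-cochains with `d b_v = a ∘ r_v`. -/
def Zc2 : Submodule k ((G × G → A) × ((v : ι) → Gv v → A)) where
  carrier := {x | x.1 ∈ L.Z2 A ∧
    ∀ v, (x.2 v : Gv v → Rep.res (r v) A) ∈ (Lv v).C1 (Rep.res (r v) A) ∧
    (d₁₂ (Rep.res (r v) A)).hom (x.2 v) = (x.1 ∘ Prod.map (r v) (r v) : Gv v × Gv v → A)}
  add_mem' := by
    rintro x y ⟨hx1, hx2⟩ ⟨hy1, hy2⟩
    refine ⟨(L.Z2 A).add_mem hx1 hy1, fun v => ⟨((Lv v).C1 _).add_mem (hx2 v).1 (hy2 v).1, ?_⟩⟩
    have h1 := (hx2 v).2
    have h2 := (hy2 v).2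
    simp only [Prod.snd_add, Prod.fst_add, Pi.add_apply] at h1 h2 ⊢
    rw [map_add, h1, h2]
    rfl
  zero_mem' := by
    refine ⟨(L.Z2 A).zero_mem, fun v => ⟨((Lv v).C1 _).zero_mem, ?_⟩⟩
    simp only [Prod.snd_zero, Prod.fst_zero, Pi.zero_apply, map_zero]
    rfl
  smul_mem' := by
    rintro c x ⟨hx1, hx2⟩
    refine ⟨(L.Z2 A).smul_mem c hx1, fun v => ⟨((Lv v).C1 _).smul_mem c (hx2 v).1, ?_⟩⟩
    have h1 := (hx2 v).2
    simp only [Prod.smul_snd, Prod.smul_fst, Pi.smul_apply] at h1 ⊢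
    rw [map_smul, h1]
    rfl

lemma mem_Zc2_iff (x : (G × G → A) × ((v : ι) → Gv v → A)) :
    x ∈ Zc2 L Lv r A ↔ x.1 ∈ L.Z2 A ∧
      ∀ v, (x.2 v : Gv v → Rep.res (r v) A) ∈ (Lv v).C1 (Rep.res (r v) A) ∧
      (d₁₂ (Rep.res (r v) A)).hom (x.2 v) = (x.1 ∘ Prod.map (r v) (r v) : Gv v × Gv v → A) :=
  Iff.rfl

variable (L r) in
/-- Cone 2-coboundaries: `coneD (x, m)` with `x` level-constant. -/
def Bc2 : Submodule k ((G × G → A) × ((v : ι) → Gv v → A)) :=
  ((L.C1 A).prod ⊤).map (coneD r A)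

lemma mem_Bc2_iff (z : (G × G → A) × ((v : ι) → Gv v → A)) :
    z ∈ Bc2 L r A ↔ ∃ (x : G → A) (m : ι → A), L.IsLC₁ x ∧ coneD r A (x, m) = z := by
  constructor
  · rintro ⟨⟨x, m⟩, ⟨hx, -⟩, rfl⟩
    exact ⟨x, m, hx, rfl⟩
  · rintro ⟨x, m, hx, rfl⟩
    exact ⟨(x, m), ⟨hx, trivial⟩, rfl⟩

variable (L Lv r) in
/-- The cone cohomology `H²_c`. -/
def Hc2 : Type := ↥(Zc2 L Lv r A) ⧸ (Bc2 L r A).comap (Zc2 L Lv r A).subtype

instance : AddCommGroup (Hc2 L Lv r A) :=
  inferInstanceAs (AddCommGroup (↥(Zc2 L Lv r A) ⧸ (Bc2 L r A).comap (Zc2 L Lv r A).subtype))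

instance : Module k (Hc2 L Lv r A) :=
  inferInstanceAs (Module k (↥(Zc2 L Lv r A) ⧸ (Bc2 L r A).comap (Zc2 L Lv r A).subtype))

variable (L Lv r) in
/-- class of a cone cocycle -/
def Hc2π : ↥(Zc2 L Lv r A) →ₗ[k] Hc2 L Lv r A :=
  Submodule.mkQ ((Bc2 L r A).comap (Zc2 L Lv r A).subtype)

lemma Hc2π_surjective : Function.Surjective (Hc2π L Lv r A) := Submodule.mkQ_surjective _

lemma ker_Hc2π : LinearMap.ker (Hc2π L Lv r A) = (Bc2 L r A).comap (Zc2 L Lv r A).subtype :=
  Submodule.ker_mkQ _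

lemma Hc2π_eq_zero_iff (z : ↥(Zc2 L Lv r A)) :
    Hc2π L Lv r A z = 0 ↔ (z : (G × G → A) × ((v : ι) → Gv v → A)) ∈ Bc2 L r A := by
  rw [← LinearMap.mem_ker, ker_Hc2π, Submodule.mem_comap, Submodule.subtype_apply]

/-! ### the maps `j` and `u` -/

/-- `(0, b)` is a cone cocycle when all `b_v` are level-constant cocycles. -/
theorem zero_pair_mem_Zc2 (b : (v : ι) → ↥((Lv v).Z1 (Rep.res (r v) A))) :
    ((0 : G × G → A), fun v => ((b v : Gv v → Rep.res (r v) A) : Gv v → A)) ∈ Zc2 L Lv r A := by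
  refine ⟨(L.Z2 A).zero_mem, fun v => ⟨(b v).2.2, ?_⟩⟩
  have h : (d₁₂ (Rep.res (r v) A)).hom (b v : Gv v → Rep.res (r v) A) = 0 := (b v).2.1
  rw [h]
  rfl

/-- the linear map `∏_v Z¹(G_v, A) → Z²_c`, `b ↦ (0, b)` -/
def jZ : ((v : ι) → ↥((Lv v).Z1 (Rep.res (r v) A))) →ₗ[k] ↥(Zc2 L Lv r A) where
  toFun b := ⟨((0 : G × G → A), fun v => ((b v : Gv v → Rep.res (r v) A) : Gv v → A)),
    zero_pair_mem_Zc2 A b⟩
  map_add' _ _ := by
    apply Subtype.ext
    ext1
    · simp
    · rfl
  map_smul' _ _ := by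
    apply Subtype.ext
    ext1
    · simp
    · rfl

/-- `(a, b) ↦ a` on cone cocycles -/
def uZ : ↥(Zc2 L Lv r A) →ₗ[k] ↥(L.Z2 A) :=
  ((LinearMap.fst k (G × G → A) ((v : ι) → Gv v → A)).restrict
    (p := Zc2 L Lv r A) (q := L.Z2 A) fun _ hx => hx.1)

@[simp] lemma coe_uZ (z : ↥(Zc2 L Lv r A)) :
    (uZ A z : G × G → A) = (z : (G × G → A) × ((v : ι) → Gv v → A)).1 := rfl

/-- `u : H²_c(A) → H²(A)`, `[(a, b)] ↦ [a]`. -/
def uH : Hc2 L Lv r A →ₗ[k] L.H2 A :=
  Submodule.mapQ ((Bc2 L r A).comap (Zc2 L Lv r A).subtype)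
    ((L.B2 A).comap (L.Z2 A).subtype) (uZ A) (by
    intro z hz
    simp only [Submodule.mem_comap, Submodule.subtype_apply] at hz ⊢
    obtain ⟨x, m, hx, hxz⟩ := (mem_Bc2_iff A _).1 hz
    refine ⟨x, hx, ?_⟩
    rw [coe_uZ, ← hxz]
    rfl)

@[simp] lemma uH_mk (z : ↥(Zc2 L Lv r A)) :
    uH A (Hc2π L Lv r A z) = L.H2π A (uZ A z) := rfl

/-- the `v`-component of `j`, on cocycles: `b ↦ (0, single v b)` -/
def jZv (v : ι) : ↥((Lv v).Z1 (Rep.res (r v) A)) →ₗ[k] ↥(Zc2 L Lv r A) :=
  jZ A ∘ₗ LinearMap.single k (fun w => ↥((Lv w).Z1 (Rep.res (r w) A))) v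

/-- the `v`-component of `j`: `H¹(G_v, A) → H²_c(A)` -/
def jHv (v : ι) : (Lv v).H1 (Rep.res (r v) A) →ₗ[k] Hc2 L Lv r A :=
  Submodule.liftQ _ (Hc2π L Lv r A ∘ₗ jZv (L := L) A v) (by
    intro b hb
    rw [LinearMap.mem_ker, LinearMap.comp_apply, Hc2π_eq_zero_iff]
    simp only [Submodule.mem_comap, Submodule.subtype_apply] at hb
    obtain ⟨m, hm⟩ := hb
    refine (mem_Bc2_iff A _).2 ⟨0, Pi.single v m, L.isLC₁_const (0 : A), ?_⟩
    ext1
    · simp [coneD, jZv, jZ]
    · funext w
      by_cases hw : w = v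
      · subst hw
        simp only [coneD, jZv, jZ, LinearMap.coe_mk, AddHom.coe_mk, LinearMap.comp_apply,
          LinearMap.single_apply, Pi.single_eq_same]
        rw [← hm]
        funext g
        simp
      · simp only [coneD, jZv, jZ, LinearMap.coe_mk, AddHom.coe_mk, LinearMap.comp_apply,
          LinearMap.single_apply, Pi.single_eq_of_ne hw]
        funext g
        simp only [ZeroMemClass.coe_zero, Pi.zero_comp, Pi.add_apply, Pi.zero_apply, map_zero,
          add_zero]
        exact (zero_add _).trans rfl)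

/-- `j : ∏_v H¹(G_v, A) → H²_c(A)`, `([b_v])_v ↦ [(0, (b_v)_v)]`. -/
def jH : ((v : ι) → (Lv v).H1 (Rep.res (r v) A)) →ₗ[k] Hc2 L Lv r A :=
  ∑ v : ι, jHv (L := L) A v ∘ₗ LinearMap.proj v

lemma jH_mk (b : (v : ι) → ↥((Lv v).Z1 (Rep.res (r v) A))) :
    jH (L := L) A (fun v => (Lv v).H1π _ (b v)) = Hc2π L Lv r A (jZ A b) := by
  have hb : b = ∑ v : ι, Pi.single v (b v) := (Finset.univ_sum_single b).symm
  conv_rhs => rw [hb, map_sum, map_sum]
  simp only [jH, LinearMap.sum_apply, LinearMap.comp_apply, LinearMap.proj_apply]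
  rfl

/-! ### push-forwards -/

section Push

variable {A} {B : Rep.{0, 0, 0} k G} (φ : A →ₗ[k] B) (hφ : IsEquivariant φ)

/-- push-forward on cone cochains -/
def pushC : ((G × G → A) × ((v : ι) → Gv v → A)) →ₗ[k] ((G × G → B) × ((v : ι) → Gv v → B)) :=
  LinearMap.prodMap (φ.compLeft (G × G)) (LinearMap.pi fun v => (φ.compLeft (Gv v)) ∘ₗ
    LinearMap.proj v)

@[simp] lemma pushC_fst (z : (G × G → A) × ((v : ι) → Gv v → A)) :
    (pushC (Gv := Gv) φ z).1 = φ ∘ z.1 := rfl

@[simp] lemma pushC_snd (z : (G × G → A) × ((v : ι) → Gv v → A)) (v : ι) :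
    (pushC (Gv := Gv) φ z).2 v = φ ∘ z.2 v := rfl

include hφ in
lemma pushC_mem_Zc2 {z : (G × G → A) × ((v : ι) → Gv v → A)} (hz : z ∈ Zc2 L Lv r A) :
    pushC (Gv := Gv) φ z ∈ Zc2 L Lv r B := by
  refine ⟨push_mem_Z2 φ hφ L hz.1, fun v => ⟨LevelSys.IsLC₁.comp (hz.2 v).1 φ, ?_⟩⟩
  have h1 := (hz.2 v).2
  have h2 := push_d₁₂ (A := Rep.res (r v) A) (B := Rep.res (r v) B) φ (hφ.res (r v)) (z.2 v)
  rw [pushC_snd, pushC_fst]
  rw [h2, h1]
  rfl

include hφ in
lemma pushC_mem_Bc2 {z : (G × G → A) × ((v : ι) → Gv v → A)} (hz : z ∈ Bc2 L r A) :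
    pushC (Gv := Gv) φ z ∈ Bc2 L r B := by
  obtain ⟨x, m, hx, rfl⟩ := (mem_Bc2_iff A _).1 hz
  refine (mem_Bc2_iff B _).2 ⟨φ ∘ x, φ ∘ m, LevelSys.IsLC₁.comp hx φ, ?_⟩
  ext1
  · exact push_d₁₂ φ hφ x
  · funext v g
    have h2 := congrFun (push_d₀₁ (A := Rep.res (r v) A) (B := Rep.res (r v) B) φ
      (hφ.res (r v)) (m v)) g
    simp only [coneD, LinearMap.coe_mk, AddHom.coe_mk, Pi.add_apply, Function.comp_apply,
      pushC_snd, map_add] at h2 ⊢
    rw [h2]

/-- push-forward of cone cocycles -/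
def pushZc2 : ↥(Zc2 L Lv r A) →ₗ[k] ↥(Zc2 L Lv r B) :=
  (pushC (Gv := Gv) φ).restrict fun _ hz => pushC_mem_Zc2 φ hφ hz

/-- push-forward on `H²_c` -/
def pushHc2 : Hc2 L Lv r A →ₗ[k] Hc2 L Lv r B :=
  Submodule.mapQ _ _ (pushZc2 (L := L) (Lv := Lv) (r := r) φ hφ) (by
    intro z hz
    simp only [Submodule.mem_comap, Submodule.subtype_apply] at hz ⊢
    exact pushC_mem_Bc2 φ hφ hz)

@[simp] lemma pushHc2_mk (z : ↥(Zc2 L Lv r A)) :
    pushHc2 φ hφ (Hc2π L Lv r A z) = Hc2π L Lv r B (pushZc2 φ hφ z) := rfl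

/-- push-forward on `∏_v H¹(G_v, −)` -/
def pushLoc1 : ((v : ι) → (Lv v).H1 (Rep.res (r v) A)) →ₗ[k]
    ((v : ι) → (Lv v).H1 (Rep.res (r v) B)) :=
  LinearMap.pi fun v => pushH1 (A := Rep.res (r v) A) (B := Rep.res (r v) B) φ (hφ.res (r v))
    (Lv v) ∘ₗ LinearMap.proj v

/-- push-forward on `∏_v H²(G_v, −)` -/
def pushLoc2 : ((v : ι) → (Lv v).H2 (Rep.res (r v) A)) →ₗ[k]
    ((v : ι) → (Lv v).H2 (Rep.res (r v) B)) :=
  LinearMap.pi fun v => pushH2 (A := Rep.res (r v) A) (B := Rep.res (r v) B) φ (hφ.res (r v))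
    (Lv v) ∘ₗ LinearMap.proj v

@[simp] lemma pushLoc1_apply (x : (v : ι) → (Lv v).H1 (Rep.res (r v) A)) (v : ι) :
    pushLoc1 φ hφ x v = pushH1 (A := Rep.res (r v) A) (B := Rep.res (r v) B) φ (hφ.res (r v))
      (Lv v) (x v) := rfl

@[simp] lemma pushLoc2_apply (x : (v : ι) → (Lv v).H2 (Rep.res (r v) A)) (v : ι) :
    pushLoc2 φ hφ x v = pushH2 (A := Rep.res (r v) A) (B := Rep.res (r v) B) φ (hφ.res (r v))
      (Lv v) (x v) := rfl

lemma resH1_pushH1 {G' : Type} [Group G'] {s : G' →* G} {L' : LevelSys G'}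
    (hs : IsLevelCompatible s L L') (x : L.H1 A) :
    resH1 hs B (pushH1 φ hφ L x) =
      pushH1 (A := Rep.res s A) (B := Rep.res s B) φ (hφ.res s) L' (resH1 hs A x) := by
  obtain ⟨c, rfl⟩ := L.H1π_surjective A x
  rfl

lemma resH2_pushH2 {G' : Type} [Group G'] {s : G' →* G} {L' : LevelSys G'}
    (hs : IsLevelCompatible s L L') (x : L.H2 A) :
    resH2 hs B (pushH2 φ hφ L x) =
      pushH2 (A := Rep.res s A) (B := Rep.res s B) φ (hφ.res s) L' (resH2 hs A x) := by
  obtain ⟨c, rfl⟩ := L.H2π_surjective A x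
  rfl

lemma loc1_pushH1 (x : L.H1 A) :
    loc1 hr B (pushH1 φ hφ L x) = pushLoc1 φ hφ (loc1 hr A x) := by
  funext v
  exact resH1_pushH1 φ hφ (hr v) x

lemma loc2_pushH2 (x : L.H2 A) :
    loc2 hr B (pushH2 φ hφ L x) = pushLoc2 φ hφ (loc2 hr A x) := by
  funext v
  exact resH2_pushH2 φ hφ (hr v) x

/-- push-forward on `Ш¹` -/
def pushSha1 : ↥(Sha1 hr A) →ₗ[k] ↥(Sha1 hr B) :=
  (pushH1 φ hφ L).restrict fun x hx => by
    rw [LinearMap.mem_ker] at hx ⊢
    rw [loc1_pushH1, hx, map_zero]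

/-- push-forward on `Ш²` -/
def pushSha2 : ↥(Sha2 hr A) →ₗ[k] ↥(Sha2 hr B) :=
  (pushH2 φ hφ L).restrict fun x hx => by
    rw [LinearMap.mem_ker] at hx ⊢
    rw [loc2_pushH2, hx, map_zero]

@[simp] lemma coe_pushSha1 (x : ↥(Sha1 hr A)) :
    (pushSha1 hr φ hφ x : L.H1 B) = pushH1 φ hφ L (x : L.H1 A) := rfl

@[simp] lemma coe_pushSha2 (x : ↥(Sha2 hr A)) :
    (pushSha2 hr φ hφ x : L.H2 B) = pushH2 φ hφ L (x : L.H2 A) := rfl

/-- push-forward on `T³` -/
def pushT3 : T3 hr A →ₗ[k] T3 hr B :=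
  Submodule.mapQ _ _ (pushLoc2 φ hφ) (by
    rintro x ⟨y, rfl⟩
    rw [Submodule.mem_comap, ← loc2_pushH2]
    exact ⟨_, rfl⟩)

@[simp] lemma pushT3_mk (x : (v : ι) → (Lv v).H2 (Rep.res (r v) A)) :
    pushT3 hr φ hφ (T3π hr A x) = T3π hr B (pushLoc2 φ hφ x) := rfl

end Push

end Fermat.Agent.S55.PT

end

end
-- ===== PACK-END S55/PT/Cone.lean

-- ===== PACK-BEGIN S55/K/Defs.lean
section
/-
S55 moonshot — LAYER K (global Kummer bridge), definitions.   Architect: helper4.
Namespace `Fermat.Agent.S55.K`.  Mathlib + Prelude + `PT/Levels`, `PT/Coh` (helper835), `Spec/Tower`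
(helper55), `Bridge/MuP` (helper655).  NO sorry.  Blueprint: `coord/S55-K.md` (origin/helper4).

Contents
* `IsLC₃`, `d34`, `H3Vanish`, `H3TorsVanish` : level-constant 3-cochains (PT stops in degree 2);
* `ind φ V A`                                 : the induced module `(G ⧸ V →₀ A)`, diagonal action,
                                                for ANY coefficient ring (we need `ℤ` and `𝔽_p`);
* `sUnits S : Rep ℤ G_ℚ`                      : the `S`-units `𝔼` of `ℚ̄`;
* `muToE`, `powE`                             : the Kummer sequence `0 → μ_p → 𝔼 → 𝔼`;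
* `locUnitsMap q`                             : `ℚ̄ˣ → ℚ̄_qˣ`, equivariant along `G_{ℚ_q} → G_ℚ`.
-/





set_option autoImplicit false

noncomputable section

namespace Fermat.Agent.S55.K

open groupCohomology Fermat.Agent.S55.PT Fermat.Agent.S55.Bridge
open scoped Pointwise

/-- `ℚ̄`. -/
abbrev Qbar : Type := AlgebraicClosure ℚ

/-! ### 1. Degree 3 -/

section Deg3

variable {G : Type} [Group G]

/-- Level-constant 3-cochains. -/
def IsLC₃ (L : LevelSys G) {X : Type*} (f : G × G × G → X) : Prop :=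
  ∃ U ∈ L.levels, ∀ g₁ g₂ g₃ s₁ s₂ s₃ : G, s₁ ∈ U → s₂ ∈ U → s₃ ∈ U →
    f (g₁ * s₁, g₂ * s₂, g₃ * s₃) = f (g₁, g₂, g₃)

variable {k : Type} [CommRing k]

/-- The differential `C³ → C⁴` of inhomogeneous cochains. -/
def d34 (A : Rep.{0, 0, 0} k G) (f : G × G × G → A) : G × G × G × G → A := fun x =>
  A.ρ x.1 (f (x.2.1, x.2.2.1, x.2.2.2)) - f (x.1 * x.2.1, x.2.2.1, x.2.2.2)
    + f (x.1, x.2.1 * x.2.2.1, x.2.2.2) - f (x.1, x.2.1, x.2.2.1 * x.2.2.2)
    + f (x.1, x.2.1, x.2.2.1)

/-- `H³_L(A) = 0`: every level-constant 3-cocycle is the coboundary of a level-constant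
2-cochain. -/
def H3Vanish (L : LevelSys G) (A : Rep.{0, 0, 0} k G) : Prop :=
  ∀ f : G × G × G → A, IsLC₃ L f → d34 A f = 0 → ∃ b ∈ L.C2 A, (d₂₃ A).hom b = f

/-- `H³_L(A)[n] = 0`. -/
def H3TorsVanish (L : LevelSys G) (A : Rep.{0, 0, 0} k G) (n : ℕ) : Prop :=
  ∀ f : G × G × G → A, IsLC₃ L f → d34 A f = 0 →
    (∃ b ∈ L.C2 A, (d₂₃ A).hom b = n • f) → ∃ b ∈ L.C2 A, (d₂₃ A).hom b = f

/-- `H²_L(A)` is `n`-divisible (cochain form). -/
def H2Divisible (L : LevelSys G) (A : Rep.{0, 0, 0} k G) (n : ℕ) : Prop :=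
  ∀ f ∈ L.Z2 A, ∃ f' ∈ L.Z2 A, f - n • f' ∈ L.B2 A

end Deg3

/-! ### 2. Induced modules -/

section Ind

variable {k : Type} [CommRing k] {G H : Type} [Group G] [Group H]

/-- The representation of `H` on `(G ⧸ V →₀ A)`: `h • (x ⊗ a) = (φ h • x) ⊗ (h • a)`. -/
def indρ (φ : H →* G) (V : Subgroup G) (A : Rep.{0, 0, 0} k H) :
    Representation k H ((G ⧸ V) →₀ A) where
  toFun h := (Finsupp.lmapDomain A k (fun x : G ⧸ V => φ h • x)).comp
    (Finsupp.mapRange.linearMap (A.ρ h))
  map_one' := by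
    ext x a : 2
    simp
  map_mul' h h' := by
    ext x a : 2
    simp [mul_smul]

@[simp] lemma indρ_single (φ : H →* G) (V : Subgroup G) (A : Rep.{0, 0, 0} k H) (h : H)
    (x : G ⧸ V) (a : A) :
    indρ φ V A h (Finsupp.single x a) = Finsupp.single (φ h • x) (A.ρ h a) := by
  simp [indρ]

/-- `Ind_V A = (G ⧸ V →₀ A)` as a representation of `H` (`H` acts on `G ⧸ V` through `φ`). -/
def ind (φ : H →* G) (V : Subgroup G) (A : Rep.{0, 0, 0} k H) : Rep.{0, 0, 0} k H :=
  Rep.of (indρ φ V A)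

/-- Global induced module: `Ind_V A` for `A : Rep k G`. -/
abbrev indG (V : Subgroup G) (A : Rep.{0, 0, 0} k G) : Rep.{0, 0, 0} k G :=
  ind (MonoidHom.id G) V A

/-- The augmentation `Ind_V A → A`, `x ⊗ a ↦ a`. -/
def aug (φ : H →* G) (V : Subgroup G) (A : Rep.{0, 0, 0} k H) : ind φ V A →ₗ[k] A :=
  Finsupp.lsum k (fun _ : G ⧸ V => (LinearMap.id : A →ₗ[k] A))

/-- The transition map `Ind_U A → Ind_V A` for `U ≤ V`. -/
def indProj (φ : H →* G) {U V : Subgroup G} (h : U ≤ V) (A : Rep.{0, 0, 0} k H) :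
    ind φ U A →ₗ[k] ind φ V A :=
  Finsupp.lmapDomain A k (Quotient.map' id fun a b hab => by
    rw [QuotientGroup.leftRel_apply] at hab ⊢
    exact h hab)

/-- Functoriality in the coefficients. -/
def indMap (φ : H →* G) (V : Subgroup G) {A B : Rep.{0, 0, 0} k H} (f : A →ₗ[k] B) :
    ind φ V A →ₗ[k] ind φ V B :=
  Finsupp.mapRange.linearMap f

end Ind

/-! ### 3. `S`-units, Kummer maps, local maps -/

section SUnits

variable (S : Finset Nat.Primes)

/-- A valuation subring of `ℚ̄` is *outside `S`* if it lies over no prime of `S`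
(this includes the trivial valuation subring). -/
def OutsideS (A : ValuationSubring Qbar) : Prop := ∀ q ∈ S, ¬ A.LiesOverPrime ((q : Nat.Primes) : ℕ)

/-- `x ∈ ℚ̄ˣ` is an `S`-unit: a unit of every valuation subring of `ℚ̄` outside `S`. -/
def IsSUnit (x : Qbarˣ) : Prop :=
  ∀ A : ValuationSubring Qbar, OutsideS S A → (x : Qbar) ∈ A ∧ ((x⁻¹ : Qbarˣ) : Qbar) ∈ A

variable {S}

lemma OutsideS.smul {A : ValuationSubring Qbar} (hA : OutsideS S A) (σ : _root_.Fermat.Agent.S55.PT.GQ) :
    OutsideS S (σ • A) := by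
  intro q hq h
  apply hA q hq
  have := liesOverPrime_smul (σ • A) σ⁻¹ (q : ℕ) h
  rwa [inv_smul_smul] at this

lemma IsSUnit.smul {x : Qbarˣ} (hx : IsSUnit S x) (σ : _root_.Fermat.Agent.S55.PT.GQ) : IsSUnit S (σ • x) := by
  intro A hA
  have h := hx (σ⁻¹ • A) (hA.smul σ⁻¹)
  have key : ∀ y : Qbar, y ∈ σ⁻¹ • A → σ y ∈ A := by
    intro y hy
    rw [ValuationSubring.mem_pointwise_smul_iff_inv_smul_mem, inv_inv] at hy
    exact hy
  refine ⟨key _ h.1, ?_⟩
  have := key _ h.2
  simpa using this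

variable (S)

/-- The `S`-units, as a `ℤ`-submodule of `Additive ℚ̄ˣ`. -/
def sUnitsSub : Submodule ℤ (Additive Qbarˣ) where
  carrier := {x | IsSUnit S x.toMul}
  add_mem' := by
    intro a b ha hb A hA
    obtain ⟨h1, h2⟩ := ha A hA
    obtain ⟨h3, h4⟩ := hb A hA
    refine ⟨?_, ?_⟩
    · simpa using A.mul_mem _ _ h1 h3
    · simpa [mul_comm] using A.mul_mem _ _ h2 h4
  zero_mem' := by
    intro A _
    simp
  smul_mem' := by
    intro n a ha
    have hneg : ∀ b : Additive Qbarˣ, IsSUnit S b.toMul → IsSUnit S (-b).toMul := by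
      intro b hb A hA
      obtain ⟨h1, h2⟩ := hb A hA
      exact ⟨by simpa using h2, by simpa using h1⟩
    have hnat : ∀ m : ℕ, IsSUnit S (m • a).toMul := by
      intro m A hA
      obtain ⟨h1, h2⟩ := ha A hA
      refine ⟨?_, ?_⟩
      · simpa using pow_mem h1 m
      · simpa using pow_mem h2 m
    obtain ⟨m, rfl | rfl⟩ := Int.eq_nat_or_neg n
    · simpa using hnat m
    · simpa using hneg _ (hnat m)

/-- `𝔼 = 𝒪_S(ℚ̄)ˣ`, the `S`-units of `ℚ̄`, as a representation of `G_ℚ`. -/
def sUnits : Rep.{0, 0, 0} ℤ _root_.Fermat.Agent.S55.PT.GQ :=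
  Rep.of ((Representation.ofMulDistribMulAction _root_.Fermat.Agent.S55.PT.GQ Qbarˣ).subrepresentation (sUnitsSub S)
    (fun σ _ hx => IsSUnit.smul hx σ))

/-- The inclusion `𝔼 → ℚ̄ˣ`. -/
def sUnitsIncl : sUnits S →ₗ[ℤ] Tow.unitsQbar := (sUnitsSub S).subtype

end SUnits

section Kummer

variable (p : ℕ) [Fact p.Prime] (S : Finset Nat.Primes)

lemma isSUnit_of_pow_eq_one {x : Qbarˣ} {n : ℕ} (hn : n ≠ 0) (hx : x ^ n = 1) : IsSUnit S x := by
  intro A _
  have h1 : A.valuation (x : Qbar) ^ n = 1 := by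
    rw [← map_pow, ← Units.val_pow_eq_pow_val, hx, Units.val_one, map_one]
  have h2 : A.valuation (x : Qbar) = 1 := (pow_eq_one_iff_of_nonneg zero_le hn).1 h1
  have h3 : A.valuation ((x⁻¹ : Qbarˣ) : Qbar) = 1 := by
    rw [Units.val_inv_eq_inv_val, map_inv₀, h2, inv_one]
  exact ⟨(A.valuation_le_one_iff _).1 h2.le, (A.valuation_le_one_iff _).1 h3.le⟩

/-- The inclusion `μ_p → 𝔼` (additive; `μ_p` is an `𝔽_p`-module, `𝔼` a `ℤ`-module). -/
def muToE : Bridge.muP p →+ sUnits S where
  toFun x := ⟨Additive.ofMul ((Bridge.MuP.root (p := p) x : rootsOfUnity p Qbar) : Qbarˣ),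
    isSUnit_of_pow_eq_one S (Fact.out : p.Prime).ne_zero
      ((mem_rootsOfUnity p _).1 (Bridge.MuP.root (p := p) x).2)⟩
  map_zero' := rfl
  map_add' _ _ := rfl

lemma muToE_injective : Function.Injective (muToE p S) := by
  intro x y h
  have h1 : ((Bridge.MuP.root (p := p) x : rootsOfUnity p Qbar) : Qbarˣ)
      = ((Bridge.MuP.root (p := p) y : rootsOfUnity p Qbar) : Qbarˣ) :=
    congrArg (fun z : sUnits S => Additive.toMul (sUnitsIncl S z)) h
  exact Bridge.MuP.root_injective (Subtype.ext h1)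

end Kummer

section Local

variable (q : Nat.Primes)

/-- The map `ℚ̄ˣ → ℚ̄_qˣ` induced by the Prelude's `padicEmbedding`. -/
def locUnitsMap : Tow.unitsQbar →ₗ[ℤ] Tow.unitsQpbar q :=
  letI : Fact (q : ℕ).Prime := ⟨q.2⟩
  (MonoidHom.toAdditive (Units.map (padicEmbedding (q : ℕ)).toRingHom.toMonoidHom)).toIntLinearMap

/-- `𝔼 → ℚ̄_qˣ`. -/
def locE (S : Finset Nat.Primes) : sUnits S →ₗ[ℤ] Tow.unitsQpbar q :=
  (locUnitsMap q).comp (sUnitsIncl S)

/-- `Ind_V 𝔼 → Ind_V ℚ̄_qˣ` (equivariant along `G_{ℚ_q} → G_ℚ`). -/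
def indLocE (S : Finset Nat.Primes) (V : Subgroup _root_.Fermat.Agent.S55.PT.GQ) :
    indG V (sUnits S) →ₗ[ℤ] ind (rl q) V (Tow.unitsQpbar q) :=
  Finsupp.mapRange.linearMap (locE q S)

end Local

section IndKummer

variable (p : ℕ) [Fact p.Prime] (S : Finset Nat.Primes)

/-- `Ind_V μ_p → Ind_V 𝔼`. -/
def indMuToE (V : Subgroup _root_.Fermat.Agent.S55.PT.GQ) : indG V (muP p) →+ indG V (sUnits S) :=
  Finsupp.mapRange.addMonoidHom (muToE p S)

end IndKummer


end Fermat.Agent.S55.K

end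

end
-- ===== PACK-END S55/K/Defs.lean

-- ===== PACK-BEGIN S55/KL/SpecLocal.lean
section




/-!
# S55, layer KL (local Kummer bridge): the local instantiation of the abstract machine

`Γ = Gal(Ω/K)` for a Galois extension `Ω/K` (in the application `K = ℚ_q`, `Ω = PadicAlgCl q`),
levels `galLevels K Ω`, module `A = Ωˣ = Rep.ofAlgebraAutOnUnits K Ω : Rep ℤ Γ`.

Interface statements only (Spec pattern, no `sorry`).  Architect: helper183.
Blueprint: `coord/S55-KL.md` on `origin/helper183`.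
-/

set_option autoImplicit false

open CategoryTheory groupCohomology

namespace Fermat.Agent.S55.KL

/-! ## Vocabulary -/

/-- `Ωˣ` as a `Gal(Ω/K)`-module. -/
noncomputable abbrev unitsOm (K Ω : Type) [Field K] [Field Ω] [Algebra K Ω] :
    Rep.{0} ℤ (Ω ≃ₐ[K] Ω) :=
  Rep.ofAlgebraAutOnUnits K Ω

/-- The compositum `E·E'` as an extension of `E`. -/
abbrev compositumOver {K Ω : Type} [Field K] [Field Ω] [Algebra K Ω]
    (E E' : IntermediateField K Ω) : IntermediateField ↥E Ω :=
  IntermediateField.extendScalars (le_sup_left : E ≤ E ⊔ E')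

/-! ## Formal leaves (any Galois extension `Ω/K`) -/

/-- **KL-SM.**  `Ωˣ` is smooth. -/
def UnitsSmoothSpec : Prop :=
  ∀ (K Ω : Type) [Field K] [Field Ω] [Algebra K Ω] [IsGalois K Ω],
    IsSmooth (galLevels K Ω) (unitsOm K Ω)

/-- **KL-DIV.**  `Ωˣ` is `p`-divisible if `Ω` is algebraically closed. -/
def UnitsDivSpec : Prop :=
  ∀ (K Ω : Type) [Field K] [Field Ω] [Algebra K Ω] [IsAlgClosed Ω] (p : ℕ), 0 < p →
    IsDivisibleBy (unitsOm K Ω) p

/-- **KL-MU.**  `μ_p(Ω)` has order `p` if `Ω` is algebraically closed of characteristic zero. -/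
def UnitsTorsSpec : Prop :=
  ∀ (K Ω : Type) [Field K] [Field Ω] [Algebra K Ω] [IsAlgClosed Ω] [CharZero Ω] (p : ℕ),
    p.Prime → Nat.card (tors (unitsOm K Ω) p).V = p

/-- **KL-OPEN.**  The open subgroups of `Gal(Ω/K)` are the `Gal(Ω/E)`, `E/K` finite. -/
def OpenSubgroupSpec : Prop :=
  ∀ (K Ω : Type) [Field K] [Field Ω] [Algebra K Ω] [IsGalois K Ω] (U : Subgroup (Ω ≃ₐ[K] Ω)),
    (galLevels K Ω).IsOpen U ↔
      ∃ E : IntermediateField K Ω, FiniteDimensional K E ∧ U = E.fixingSubgroup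

/-- **KL-TR** (transport).  For `U = Gal(Ω/E)` and the level `V = Gal(Ω/E')` (`E'/K` finite
Galois): `M = E·E'` is finite Galois over `E`, `U/(V ∩ U) ≅ Gal(M/E)` has order `[M : E]`, and
`Hⁿ(U/(V ∩ U), (Ωˣ)^{V ∩ U}) ≅ Hⁿ(Gal(M/E), Mˣ)` for all `n`. -/
def TransportSpec : Prop :=
  ∀ (K Ω : Type) [Field K] [Field Ω] [Algebra K Ω] [IsGalois K Ω]
    (E : IntermediateField K Ω) (E' : FiniteGaloisIntermediateField K Ω),
    FiniteDimensional ↥E ↥(compositumOver E E'.toIntermediateField) ∧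
    IsGalois ↥E ↥(compositumOver E E'.toIntermediateField) ∧
    Nat.card (↥E.fixingSubgroup ⧸ (galLvl K Ω E').W.subgroupOf E.fixingSubgroup) =
      Module.finrank ↥E ↥(compositumOver E E'.toIntermediateField) ∧
    ∀ n : ℕ, Nonempty
      (HL (Rep.res E.fixingSubgroup.subtype (unitsOm K Ω))
          ((galLvl K Ω E').W.subgroupOf E.fixingSubgroup) n ≅
        groupCohomology
          (Rep.ofAlgebraAutOnUnits ↥E ↥(compositumOver E E'.toIntermediateField)) n)

/-! ## Arithmetic leaves: `K = ℚ_q`, `Ω = PadicAlgCl q` -/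

/-- **KL-H1** (Hilbert 90 at every level of every open subgroup). -/
def LocalH1Spec : Prop :=
  ∀ (q : ℕ) [Fact q.Prime] (U : Subgroup (PadicAlgCl q ≃ₐ[ℚ_[q]] PadicAlgCl q)),
    (galLevels ℚ_[q] (PadicAlgCl q)).IsOpen U →
    ∀ V : ((galLevels ℚ_[q] (PadicAlgCl q)).restrict U).Lvl,
      Subsingleton (HL (Rep.res U.subtype (unitsOm ℚ_[q] (PadicAlgCl q))) V.W 1)

/-- **KL-H2** (`H²(U/V, (Ωˣ)^V)` is cyclic of order `[U : V]`). -/
def LocalH2Spec : Prop :=
  ∀ (q : ℕ) [Fact q.Prime] (U : Subgroup (PadicAlgCl q ≃ₐ[ℚ_[q]] PadicAlgCl q)),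
    (galLevels ℚ_[q] (PadicAlgCl q)).IsOpen U →
    ∀ V : ((galLevels ℚ_[q] (PadicAlgCl q)).restrict U).Lvl,
      Nonempty (HL (Rep.res U.subtype (unitsOm ℚ_[q] (PadicAlgCl q))) V.W 2 ≃+
        ZMod (Nat.card (↥U ⧸ V.W)))

/-- **KL-H3** (Tate: `H³(U/V, (Ωˣ)^V) = 0`). -/
def LocalH3Spec : Prop :=
  ∀ (q : ℕ) [Fact q.Prime] (U : Subgroup (PadicAlgCl q ≃ₐ[ℚ_[q]] PadicAlgCl q)),
    (galLevels ℚ_[q] (PadicAlgCl q)).IsOpen U →
    ∀ V : ((galLevels ℚ_[q] (PadicAlgCl q)).restrict U).Lvl,
      Subsingleton (HL (Rep.res U.subtype (unitsOm ℚ_[q] (PadicAlgCl q))) V.W 3)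

/-- **KL-DEG** (degrees are unbounded at `p`): below every level there is a level `V'` such that
`p · [U : V]` divides `[U : V']`. -/
def LocalDegreeSpec : Prop :=
  ∀ (q : ℕ) [Fact q.Prime] (p : ℕ), p.Prime →
    ∀ U : Subgroup (PadicAlgCl q ≃ₐ[ℚ_[q]] PadicAlgCl q),
    (galLevels ℚ_[q] (PadicAlgCl q)).IsOpen U →
    ∀ V : ((galLevels ℚ_[q] (PadicAlgCl q)).restrict U).Lvl,
      ∃ V' : ((galLevels ℚ_[q] (PadicAlgCl q)).restrict U).Lvl, V'.W ≤ V.W ∧
        p * Nat.card (↥U ⧸ V.W) ∣ Nat.card (↥U ⧸ V'.W)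

/-- **KL-FIN** (`Eˣ/(Eˣ)^p` is finite for every finite extension `E/ℚ_q`; from L-LPI). -/
def LocalPowFiniteSpec : Prop :=
  ∀ (q : ℕ) [Fact q.Prime] (p : ℕ), p.Prime →
    PowFinite (galLevels ℚ_[q] (PadicAlgCl q)) (unitsOm ℚ_[q] (PadicAlgCl q)) p

/-- **KL-NE** (the Brauer group of an open subgroup has non-effaceable `p`-torsion). -/
def LocalNonEffSpec : Prop :=
  ∀ (q : ℕ) [Fact q.Prime] (p : ℕ), p.Prime →
    ∀ U : Subgroup (PadicAlgCl q ≃ₐ[ℚ_[q]] PadicAlgCl q),
    (galLevels ℚ_[q] (PadicAlgCl q)).IsOpen U →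
    ∃ (V : ((galLevels ℚ_[q] (PadicAlgCl q)).restrict U).Lvl)
      (x : HL (Rep.res U.subtype (unitsOm ℚ_[q] (PadicAlgCl q))) V.W 2),
      p • x = 0 ∧
        ¬ IsEff ((galLevels ℚ_[q] (PadicAlgCl q)).restrict U)
          (Rep.res U.subtype (unitsOm ℚ_[q] (PadicAlgCl q))) 2 V x

/-- **KL-HYP** (goal of the local instantiation): the hypotheses of the abstract machine hold for
`(Gal(ℚ̄_q/ℚ_q), ℚ̄_qˣ, p)`. -/
def LocalKummerHypSpec : Prop :=
  ∀ (q : ℕ) [Fact q.Prime] (p : ℕ), p.Prime →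
    KummerHyp (galLevels ℚ_[q] (PadicAlgCl q)) (unitsOm ℚ_[q] (PadicAlgCl q)) p

/-- **KL-CD** (goal): `cd_p(Gal(ℚ̄_q/ℚ_q)) ≤ 2` in finite-level form, coefficients over `ZMod p`
(and over `ℤ`). -/
def LocalCdSpec : Prop :=
  ∀ (q : ℕ) [Fact q.Prime] (p : ℕ), p.Prime →
    CdLeTwo (galLevels ℚ_[q] (PadicAlgCl q)) ℤ p ∧
      CdLeTwo (galLevels ℚ_[q] (PadicAlgCl q)) (ZMod p) p

/-- **KL-A4** (goal = input A4 of layer D, elementwise): `H²` is right exact on level-constant
cohomology of `Gal(ℚ̄_q/ℚ_q)` with finite `𝔽_p`-coefficients. -/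
def LocalSurjH2Spec : Prop :=
  ∀ (q : ℕ) [Fact q.Prime] (p : ℕ), p.Prime →
    ∀ (P Q : Rep.{0} (ZMod p) (PadicAlgCl q ≃ₐ[ℚ_[q]] PadicAlgCl q)) (φ : P ⟶ Q),
      Function.Surjective φ.hom → Finite P.V → IsSmooth (galLevels ℚ_[q] (PadicAlgCl q)) P →
      ∀ c ∈ cocycles₂ Q, IsLC₂ (galLevels ℚ_[q] (PadicAlgCl q)) c →
        ∃ c' ∈ cocycles₂ P, IsLC₂ (galLevels ℚ_[q] (PadicAlgCl q)) c' ∧
          ∃ b : (PadicAlgCl q ≃ₐ[ℚ_[q]] PadicAlgCl q) → Q.V,
            IsLC₁ (galLevels ℚ_[q] (PadicAlgCl q)) b ∧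
              ∀ g h, φ.hom (c' (g, h)) = c (g, h) + (d₁₂ Q).hom b (g, h)

/-- **KL-A2** (goal = input A2 of layer D, elementwise): the level-constant `H¹` of
`Gal(ℚ̄_q/ℚ_q)` with finite `𝔽_p`-coefficients is finite. -/
def LocalFinH1Spec : Prop :=
  ∀ (q : ℕ) [Fact q.Prime] (p : ℕ), p.Prime →
    ∀ R : Rep.{0} (ZMod p) (PadicAlgCl q ≃ₐ[ℚ_[q]] PadicAlgCl q), Finite R.V →
      IsSmooth (galLevels ℚ_[q] (PadicAlgCl q)) R → FinLC₁ (galLevels ℚ_[q] (PadicAlgCl q)) R

/-- **KL-A5** (goal = inputs A5/A6 of layer D, elementwise): for every open subgroup `U` of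
`Gal(ℚ̄_q/ℚ_q)`, `dim H²_LC(U, μ_p) ≤ 1`; and `H²_LC(U, μ_p) ≠ 0`. -/
def LocalDimH2Spec : Prop :=
  ∀ (q : ℕ) [Fact q.Prime] (p : ℕ), p.Prime →
    ∀ U : Subgroup (PadicAlgCl q ≃ₐ[ℚ_[q]] PadicAlgCl q),
    (galLevels ℚ_[q] (PadicAlgCl q)).IsOpen U →
      DimLC₂Le ((galLevels ℚ_[q] (PadicAlgCl q)).restrict U)
          (tors (Rep.res U.subtype (unitsOm ℚ_[q] (PadicAlgCl q))) p) p ∧
        DimLC₂Ge ((galLevels ℚ_[q] (PadicAlgCl q)).restrict U)
          (tors (Rep.res U.subtype (unitsOm ℚ_[q] (PadicAlgCl q))) p)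

end Fermat.Agent.S55.KL

end
-- ===== PACK-END S55/KL/SpecLocal.lean

-- ===== PACK-BEGIN S55/H572/DimShift.lean
section


/-!
# Dimension shifting

For `A : Rep R G` we construct short exact sequences of `G`-representations

* `upSC A   : 0 → A → coind₁ A → up A → 0`       (any group `G`),
* `downSC A : 0 → down A → coind₁ A → A → 0`     (`G` finite),

where `coind₁ A = Fun(G, A)` has vanishing (Tate) cohomology over **every** subgroup `H ≤ G`.
Hence for every subgroup `H` the connecting maps are isomorphisms: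

* `groupCohomology`: `Hⁿ⁺¹(H, up A) ≅ Hⁿ⁺²(H, A)`, and `H⁰(H, up A) → H¹(H, A)` is epi;
* Tate cohomology (`H` finite): `Ĥⁿ(H, up A) ≅ Ĥⁿ⁺¹(H, A)`, `Ĥⁿ(H, A) ≅ Ĥⁿ⁺¹(H, down A)`, all `n : ℤ`.
-/

set_option autoImplicit false

open CategoryTheory groupCohomology groupHomology Rep Limits

universe u

namespace Fermat.Agent.S55.H572

noncomputable section

section up

variable {R G : Type u} [CommRing R] [Group G]

/-- `coind₁ A = Fun(G, A)` with `G` acting by right translation. -/
abbrev coind₁ (A : Rep.{u} R G) : Rep.{u} R G :=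
  coind (⊥ : Subgroup G).subtype (res (⊥ : Subgroup G).subtype A)

/-- Underlying linear map of `coind₁ι`: `a ↦ (x ↦ ρ x a)`. -/
def coind₁ιLin (A : Rep.{u} R G) : A.V →ₗ[R] (coind₁ A).V where
  toFun a := mkCoind (res (⊥ : Subgroup G).subtype A) (fun x => A.ρ x a)
  map_add' a b := by
    apply Subtype.ext
    funext x
    exact map_add (A.ρ x) a b
  map_smul' r a := by
    apply Subtype.ext
    funext x
    exact map_smul (A.ρ x) r a

lemma coind₁ιLin_apply (A : Rep.{u} R G) (a : A.V) (x : G) :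
    (coind₁ιLin A a).1 x = A.ρ x a := rfl

/-- The embedding `A ⟶ coind₁ A`, `a ↦ (x ↦ ρ x a)`. -/
def coind₁ι (A : Rep.{u} R G) : A ⟶ coind₁ A :=
  Rep.ofHom (ρ := A.ρ) (σ := (coind₁ A).ρ) ⟨coind₁ιLin A, fun g => by
    apply LinearMap.ext
    intro a
    apply Subtype.ext
    funext x
    change A.ρ x (A.ρ g a) = A.ρ (x * g) a
    rw [map_mul]
    rfl⟩

lemma coind₁ι_hom_apply (A : Rep.{u} R G) (a : A.V) (x : G) :
    ((coind₁ι A).hom a).1 x = A.ρ x a := rfl

instance coind₁ι_mono (A : Rep.{u} R G) : Mono (coind₁ι A) := by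
  rw [Rep.mono_iff_injective]
  intro a b h
  have h1 : ((coind₁ι A).hom a).1 1 = ((coind₁ι A).hom b).1 1 := by rw [h]
  rw [coind₁ι_hom_apply, coind₁ι_hom_apply, map_one] at h1
  exact h1

/-- The dimension shift `up A = coind₁ A / A`. -/
def up (A : Rep.{u} R G) : Rep.{u} R G := cokernel (coind₁ι A)

/-- The projection `coind₁ A ⟶ up A`. -/
def upπ (A : Rep.{u} R G) : coind₁ A ⟶ up A := cokernel.π (coind₁ι A)

instance upπ_epi (A : Rep.{u} R G) : Epi (upπ A) :=
  coequalizer.π_epi

/-- The short complex `A ⟶ coind₁ A ⟶ up A`. -/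
def upSC (A : Rep.{u} R G) : ShortComplex (Rep.{u} R G) :=
  ShortComplex.mk (coind₁ι A) (upπ A) (cokernel.condition _)

lemma upSC_shortExact (A : Rep.{u} R G) : (upSC A).ShortExact where
  exact := ShortComplex.exact_of_g_is_cokernel _ (cokernelIsCokernel _)
  mono_f := coind₁ι_mono A
  epi_g := upπ_epi A

variable (H : Subgroup G)

/-- The restriction of `upSC A` to a subgroup. -/
abbrev upSCRes (A : Rep.{u} R G) : ShortComplex (Rep.{u} R H) :=
  (upSC A).map (resFunctor H.subtype)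

lemma upSCRes_shortExact (A : Rep.{u} R G) : (upSCRes H A).ShortExact :=
  (Rep.shortExact_res H.subtype).2 (upSC_shortExact A)

/-- `coind₁ A` has vanishing cohomology in positive degrees over every subgroup. -/
theorem isZero_groupCohomology_res_coind₁ (A : Rep.{u} R G) (n : ℕ) :
    IsZero (groupCohomology (res H.subtype (coind₁ A)) (n + 1)) :=
  isZero_groupCohomology_res_coind_bot H _ n

/-- `coind₁ A` has vanishing Tate cohomology in all degrees over every finite subgroup. -/
theorem isZero_tateCohomology_res_coind₁ [Fintype H] (A : Rep.{u} R G) (n : ℤ) :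
    IsZero (tateCohomology (res H.subtype (coind₁ A)) n) :=
  isZero_tateCohomology_res_coind_bot H _ n

/-- Dimension shifting: `δ : Hⁿ⁺¹(H, up A) → Hⁿ⁺²(H, A)` is an isomorphism. -/
theorem isIso_δ_up (A : Rep.{u} R G) (n : ℕ) :
    IsIso (groupCohomology.δ (upSCRes_shortExact H A) (n + 1) (n + 2) rfl) :=
  groupCohomology.isIso_δ_of_isZero (upSCRes_shortExact H A) (n + 1)
    (isZero_groupCohomology_res_coind₁ H A n) (isZero_groupCohomology_res_coind₁ H A (n + 1))

/-- Dimension shifting: `δ : H⁰(H, up A) → H¹(H, A)` is an epimorphism. -/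
theorem epi_δ_up_zero (A : Rep.{u} R G) :
    Epi (groupCohomology.δ (upSCRes_shortExact H A) 0 1 rfl) :=
  groupCohomology.epi_δ_of_isZero (upSCRes_shortExact H A) 0
    (isZero_groupCohomology_res_coind₁ H A 0)

/-- Dimension shifting isomorphism `Hⁿ⁺¹(H, up A) ≅ Hⁿ⁺²(H, A)`. -/
def upIso (A : Rep.{u} R G) (n : ℕ) :
    groupCohomology (res H.subtype (up A)) (n + 1) ≅
      groupCohomology (res H.subtype A) (n + 2) :=
  @asIso _ _ _ _ (groupCohomology.δ (upSCRes_shortExact H A) (n + 1) (n + 2) rfl)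
    (isIso_δ_up H A n)

/-- Dimension shifting in Tate cohomology: `δ : Ĥⁿ(H, up A) → Ĥⁿ⁺¹(H, A)` is an isomorphism. -/
theorem isIso_tate_δ_up [Fintype H] (A : Rep.{u} R G) (n : ℤ) :
    IsIso (TateCohomology.δ (upSCRes_shortExact H A) n) :=
  ShortComplex.SnakeInput.isIso_δ _ (isZero_tateCohomology_res_coind₁ H A n)
    (isZero_tateCohomology_res_coind₁ H A (n + 1))

/-- Dimension shifting isomorphism `Ĥⁿ(H, up A) ≅ Ĥⁿ⁺¹(H, A)`. -/
def tateUpIso [Fintype H] (A : Rep.{u} R G) (n : ℤ) :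
    tateCohomology (res H.subtype (up A)) n ≅ tateCohomology (res H.subtype A) (n + 1) :=
  @asIso _ _ _ _ (TateCohomology.δ (upSCRes_shortExact H A) n) (isIso_tate_δ_up H A n)

/-! ### Functoriality of `up` -/

/-- Functoriality of `coind₁`. -/
def coind₁Map {A B : Rep.{u} R G} (f : A ⟶ B) : coind₁ A ⟶ coind₁ B :=
  coindMap (⊥ : Subgroup G).subtype ((resFunctor (⊥ : Subgroup G).subtype).map f)

lemma coind₁Map_hom_apply {A B : Rep.{u} R G} (f : A ⟶ B) (F : (coind₁ A).V) (x : G) :
    ((coind₁Map f).hom F).1 x = f.hom (F.1 x) := rfl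

lemma coind₁ι_naturality {A B : Rep.{u} R G} (f : A ⟶ B) :
    coind₁ι A ≫ coind₁Map f = f ≫ coind₁ι B := by
  apply Rep.hom_ext
  apply Representation.IntertwiningMap.ext
  apply LinearMap.ext
  intro a
  apply Subtype.ext
  funext x
  change f.hom (A.ρ x a) = B.ρ x (f.hom a)
  exact Rep.hom_comm_apply f x a

/-- Functoriality of `up`. -/
def upMap {A B : Rep.{u} R G} (f : A ⟶ B) : up A ⟶ up B :=
  cokernel.map (coind₁ι A) (coind₁ι B) f (coind₁Map f) (coind₁ι_naturality f)

lemma upπ_naturality {A B : Rep.{u} R G} (f : A ⟶ B) :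
    upπ A ≫ upMap f = coind₁Map f ≫ upπ B := by
  exact cokernel.π_desc _ _ _

/-- The morphism of short complexes `upSC A ⟶ upSC B` induced by `f : A ⟶ B`. -/
def upSCMap {A B : Rep.{u} R G} (f : A ⟶ B) : upSC A ⟶ upSC B where
  τ₁ := f
  τ₂ := coind₁Map f
  τ₃ := upMap f
  comm₁₂ := (coind₁ι_naturality f).symm
  comm₂₃ := (upπ_naturality f).symm

end up

section down

variable {R G : Type u} [CommRing R] [Group G] [Fintype G]

/-- Underlying linear map of `coind₁ε`: `f ↦ ∑ x, ρ x⁻¹ (f x)`. -/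
def coind₁εLin (A : Rep.{u} R G) : (coind₁ A).V →ₗ[R] A.V where
  toFun f := ∑ x : G, A.ρ x⁻¹ (f.1 x)
  map_add' f g := by
    rw [← Finset.sum_add_distrib]
    refine Finset.sum_congr rfl fun x _ => ?_
    exact map_add (A.ρ x⁻¹) (f.1 x) (g.1 x)
  map_smul' r f := by
    rw [RingHom.id_apply, Finset.smul_sum]
    refine Finset.sum_congr rfl fun x _ => ?_
    exact map_smul (A.ρ x⁻¹) r (f.1 x)

lemma coind₁εLin_apply (A : Rep.{u} R G) (f : (coind₁ A).V) :
    coind₁εLin A f = ∑ x : G, A.ρ x⁻¹ (f.1 x) := rfl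

/-- The projection `coind₁ A ⟶ A`, `f ↦ ∑ x, ρ x⁻¹ (f x)` (for finite `G`). -/
def coind₁ε (A : Rep.{u} R G) : coind₁ A ⟶ A :=
  Rep.ofHom (ρ := (coind₁ A).ρ) (σ := A.ρ) ⟨coind₁εLin A, fun g => by
    apply LinearMap.ext
    intro f
    change ∑ x : G, A.ρ x⁻¹ (f.1 (x * g)) = A.ρ g (∑ x : G, A.ρ x⁻¹ (f.1 x))
    rw [map_sum]
    refine Fintype.sum_equiv (Equiv.mulRight g) _ _ fun x => ?_
    change A.ρ x⁻¹ (f.1 (x * g)) = A.ρ g (A.ρ (x * g)⁻¹ (f.1 (x * g)))
    rw [← Module.End.mul_apply, ← map_mul, mul_inv_rev, mul_inv_cancel_left]⟩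

lemma coind₁ε_hom_apply (A : Rep.{u} R G) (f : (coind₁ A).V) :
    (coind₁ε A).hom f = ∑ x : G, A.ρ x⁻¹ (f.1 x) := rfl

instance coind₁ε_epi (A : Rep.{u} R G) : Epi (coind₁ε A) := by
  classical
  rw [Rep.epi_iff_surjective]
  intro a
  refine ⟨mkCoind (res (⊥ : Subgroup G).subtype A) (fun x => if x = 1 then a else 0), ?_⟩
  rw [coind₁ε_hom_apply]
  rw [Finset.sum_eq_single (1 : G)]
  · simp
  · intro x _ hx
    simp [hx]
  · intro h; exact absurd (Finset.mem_univ _) h

/-- The dimension shift `down A = ker (coind₁ A ⟶ A)`. -/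
def down (A : Rep.{u} R G) : Rep.{u} R G := kernel (coind₁ε A)

/-- The inclusion `down A ⟶ coind₁ A`. -/
def downι (A : Rep.{u} R G) : down A ⟶ coind₁ A := kernel.ι (coind₁ε A)

instance downι_mono (A : Rep.{u} R G) : Mono (downι A) :=
  equalizer.ι_mono

/-- The short complex `down A ⟶ coind₁ A ⟶ A`. -/
def downSC (A : Rep.{u} R G) : ShortComplex (Rep.{u} R G) :=
  ShortComplex.mk (downι A) (coind₁ε A) (kernel.condition _)

lemma downSC_shortExact (A : Rep.{u} R G) : (downSC A).ShortExact where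
  exact := ShortComplex.exact_of_f_is_kernel _ (kernelIsKernel _)
  mono_f := downι_mono A
  epi_g := coind₁ε_epi A

variable (H : Subgroup G)

/-- The restriction of `downSC A` to a subgroup. -/
abbrev downSCRes (A : Rep.{u} R G) : ShortComplex (Rep.{u} R H) :=
  (downSC A).map (resFunctor H.subtype)

lemma downSCRes_shortExact (A : Rep.{u} R G) : (downSCRes H A).ShortExact :=
  (Rep.shortExact_res H.subtype).2 (downSC_shortExact A)

/-- Dimension shifting: `δ : Hⁿ⁺¹(H, A) → Hⁿ⁺²(H, down A)` is an isomorphism. -/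
theorem isIso_δ_down (A : Rep.{u} R G) (n : ℕ) :
    IsIso (groupCohomology.δ (downSCRes_shortExact H A) (n + 1) (n + 2) rfl) :=
  groupCohomology.isIso_δ_of_isZero (downSCRes_shortExact H A) (n + 1)
    (isZero_groupCohomology_res_coind₁ H A n) (isZero_groupCohomology_res_coind₁ H A (n + 1))

/-- Dimension shifting isomorphism `Hⁿ⁺¹(H, A) ≅ Hⁿ⁺²(H, down A)`. -/
def downIso (A : Rep.{u} R G) (n : ℕ) :
    groupCohomology (res H.subtype A) (n + 1) ≅
      groupCohomology (res H.subtype (down A)) (n + 2) :=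
  @asIso _ _ _ _ (groupCohomology.δ (downSCRes_shortExact H A) (n + 1) (n + 2) rfl)
    (isIso_δ_down H A n)

/-- Dimension shifting in Tate cohomology: `δ : Ĥⁿ(H, A) → Ĥⁿ⁺¹(H, down A)` is an isomorphism. -/
theorem isIso_tate_δ_down [Fintype H] (A : Rep.{u} R G) (n : ℤ) :
    IsIso (TateCohomology.δ (downSCRes_shortExact H A) n) :=
  ShortComplex.SnakeInput.isIso_δ _ (isZero_tateCohomology_res_coind₁ H A n)
    (isZero_tateCohomology_res_coind₁ H A (n + 1))

/-- Dimension shifting isomorphism `Ĥⁿ(H, A) ≅ Ĥⁿ⁺¹(H, down A)`. -/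
def tateDownIso [Fintype H] (A : Rep.{u} R G) (n : ℤ) :
    tateCohomology (res H.subtype A) n ≅ tateCohomology (res H.subtype (down A)) (n + 1) :=
  @asIso _ _ _ _ (TateCohomology.δ (downSCRes_shortExact H A) n) (isIso_tate_δ_down H A n)

end down

end

end Fermat.Agent.S55.H572

end
-- ===== PACK-END S55/H572/DimShift.lean

-- ===== PACK-BEGIN S55/Local/H964/AuxLemmas.lean
section



/-!
# S55, layer L, T5 glue: auxiliary lemmas (helper964)
-/

set_option autoImplicit false
set_option linter.style.haveILetI false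
set_option linter.unusedSectionVars false

namespace Fermat.Agent.S55.Local.H964

open groupCohomology Fermat.Agent.S55.Local

section Cyc

variable {G : Type} [Group G] {M M' : Type} [CommGroup M] [CommGroup M']

lemma cycCocycle_map (j : M →* M') (σ : G) (x : M) (p : G × G) :
    cycCocycle σ (j x) p = j (cycCocycle σ x p) := by
  simp only [cycCocycle, map_pow]

lemma cycCocycle_pow (σ : G) (x : M) (k : ℕ) (p : G × G) :
    cycCocycle σ (x ^ k) p = cycCocycle σ x p ^ k := by
  simp only [cycCocycle, ← pow_mul, mul_comm]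

end Cyc

section DMul

variable {G M : Type} [Group G] [CommGroup M] [MulDistribMulAction G M]

lemma dMul_mul (c₁ c₂ : G → M) (g h : G) :
    dMul (fun g => c₁ g * c₂ g) (g, h) = dMul c₁ (g, h) * dMul c₂ (g, h) := by
  simp only [dMul_apply, smul_mul']
  rw [← div_mul_div_comm, mul_mul_mul_comm]

lemma dMul_pow (c : G → M) (k : ℕ) (g h : G) :
    dMul (fun g => c g ^ k) (g, h) = dMul c (g, h) ^ k := by
  simp only [dMul_apply, smul_pow']
  rw [mul_pow, div_pow]

end DMul

section Base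

variable {K L : Type} [Field K] [Field L] [Algebra K L]

lemma smul_unitsIncl_base (σ : L ≃ₐ[K] L) (y : Kˣ) :
    σ • unitsIncl L K y = unitsIncl L K y := by
  apply Units.ext
  rw [AlgEquiv.smul_units_def]
  simp only [unitsIncl_coe, Units.coe_map, MonoidHom.coe_coe]
  exact σ.commutes _

lemma unitsIncl_injective_base : Function.Injective (unitsIncl L K) := by
  intro a b h
  apply Units.ext
  apply (algebraMap K L).injective
  have := congrArg (fun u : Lˣ => (u : L)) h
  simpa using this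

lemma prod_gal_smul [FiniteDimensional K L] [IsGalois K L] [Fintype (L ≃ₐ[K] L)] (y : Lˣ) :
    ∏ σ : L ≃ₐ[K] L, σ • y = unitsIncl L K (normUnits L K y) := by
  classical
  apply Units.ext
  rw [unitsIncl_coe, normUnits_coe, Algebra.norm_eq_prod_automorphisms K (y : L),
    Units.coe_prod]
  refine Finset.prod_congr ?_ ?_
  · ext σ; simp
  · intro σ _
    rw [AlgEquiv.smul_units_def]
    rfl

end Base

section Tower

variable {K L N : Type} [Field K] [Field L] [Field N] [Algebra K L] [Algebra K N] [Algebra L N]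
  [IsScalarTower K L N]

lemma unitsIncl_unitsIncl (y : Kˣ) : unitsIncl N L (unitsIncl L K y) = unitsIncl N K y := by
  apply Units.ext
  simp only [unitsIncl_coe]
  exact (IsScalarTower.algebraMap_apply K L N _).symm

variable [Normal K L] [FiniteDimensional K N] [IsGalois K N]

/-- The inflation of a 2-cocycle is a 2-cocycle. -/
theorem isMulCocycle₂_inflate {cL : (L ≃ₐ[K] L) × (L ≃ₐ[K] L) → Lˣ} (hcL : IsMulCocycle₂ cL) :
    IsMulCocycle₂ (fun p : (N ≃ₐ[K] N) × (N ≃ₐ[K] N) =>
      unitsIncl N L (cL (resHom K L N p.1, resHom K L N p.2))) := by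
  intro g h j
  have := hcL (resHom K L N g) (resHom K L N h) (resHom K L N j)
  have h2 := congrArg (unitsIncl N L) this
  simp only [map_mul, unitsIncl_resHom_smul] at h2 ⊢
  exact h2

lemma inflate_inv2 (cL : (L ≃ₐ[K] L) × (L ≃ₐ[K] L) → Lˣ) :
    ∀ s ∈ kerRes K L N, ∀ g h : N ≃ₐ[K] N,
      unitsIncl N L (cL (resHom K L N g, resHom K L N (h * s))) =
        unitsIncl N L (cL (resHom K L N g, resHom K L N h)) := by
  intro s hs g h
  have : resHom K L N s = 1 := hs
  rw [map_mul, this, mul_one]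

lemma inflate_inv1 (cL : (L ≃ₐ[K] L) × (L ≃ₐ[K] L) → Lˣ) :
    ∀ s ∈ kerRes K L N, ∀ g h : N ≃ₐ[K] N,
      unitsIncl N L (cL (resHom K L N (g * s), resHom K L N h)) =
        unitsIncl N L (cL (resHom K L N g, resHom K L N h)) := by
  intro s hs g h
  have : resHom K L N s = 1 := hs
  rw [map_mul, this, mul_one]

end Tower

section Integrality

variable (A F : Type) [CommRing A] [Field F] [Algebra A F]
variable {L N : Type} [Field L] [Field N] [Algebra F L] [Algebra F N] [Algebra L N]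
  [IsScalarTower F L N]

lemma isInt_algebraMap {x : L} (hx : IsInt A F L x) : IsInt A F N (algebraMap L N x) := by
  obtain ⟨p, hp, hpx⟩ := hx
  refine ⟨p, hp, ?_⟩
  have e : toL A F N = (algebraMap L N).comp (toL A F L) := by
    ext a
    simp only [toL_apply, RingHom.comp_apply]
    exact IsScalarTower.algebraMap_apply F L N _
  rw [e, ← Polynomial.hom_eval₂, hpx, map_zero]

lemma unitsIncl_mem_intUnits {y : Lˣ} (hy : y ∈ intUnits A F L) :
    unitsIncl N L y ∈ intUnits A F N := by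
  refine ⟨isInt_algebraMap A F hy.1, ?_⟩
  have : ((unitsIncl N L y)⁻¹ : Nˣ) = unitsIncl N L y⁻¹ := (map_inv _ _).symm
  rw [this]
  exact isInt_algebraMap A F hy.2

end Integrality

end Fermat.Agent.S55.Local.H964

end
-- ===== PACK-END S55/Local/H964/AuxLemmas.lean

-- ===== PACK-BEGIN S55/Local/H593/CycCocycleA4d.lean
section


/-!
# S55, layer L, piece A4d: pull-back of the standard cyclic 2-cocycle

Deliverable: `Fermat.Agent.S55.Local.H593.cycCocycle_pullback :
  Fermat.Agent.S55.Local.CycCocyclePullbackStatement`.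
-/

set_option autoImplicit false

namespace Fermat.Agent.S55.Local.H593

open groupCohomology Fermat.Agent.S55.Local

/-- Discrete logarithms along an injective homomorphism `ρ : H → G` of finite cyclic groups with
`ρ τ = σ ^ (|G| / |H|)`: `cycIdx σ (ρ a) = (|G| / |H|) * cycIdx τ a`. -/
lemma cycIdx_map {G H : Type} [Group G] [Finite G] [Group H] [Finite H] {σ : G} {τ : H}
    (ρ : H →* G) (hσ : ∀ g, g ∈ Subgroup.zpowers σ) (hτ : ∀ h, h ∈ Subgroup.zpowers τ)
    (hinj : Function.Injective ρ) (hρ : ρ τ = σ ^ (Nat.card G / Nat.card H)) (a : H) :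
    cycIdx σ (ρ a) = Nat.card G / Nat.card H * cycIdx τ a := by
  have hdvd : Nat.card H ∣ Nat.card G := Subgroup.card_dvd_of_injective ρ hinj
  have hHpos : 0 < Nat.card H := Nat.card_pos
  have hlt : cycIdx τ a < Nat.card H := cycIdx_lt_card hτ a
  have h1 : ρ a = σ ^ (Nat.card G / Nat.card H * cycIdx τ a) := by
    conv_lhs => rw [← pow_cycIdx hτ a]
    rw [map_pow, hρ, ← pow_mul]
  rw [h1, cycIdx_pow hσ]
  apply Nat.mod_eq_of_lt
  calc Nat.card G / Nat.card H * cycIdx τ a
      < Nat.card G / Nat.card H * Nat.card H := by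
        apply Nat.mul_lt_mul_of_pos_left hlt
        exact Nat.div_pos (Nat.le_of_dvd Nat.card_pos hdvd) hHpos
    _ = Nat.card G := Nat.div_mul_cancel hdvd

/-- **(A4d)** Functoriality of the standard cyclic cocycle under an injective homomorphism of
cyclic groups. -/
theorem cycCocycle_pullback : CycCocyclePullbackStatement := by
  intro G H M _ _ _ _ _ σ τ ρ hσ hτ hinj hρ x p
  have hdvd : Nat.card H ∣ Nat.card G := Subgroup.card_dvd_of_injective ρ hinj
  have hHpos : 0 < Nat.card H := Nat.card_pos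
  have hdpos : 0 < Nat.card G / Nat.card H :=
    Nat.div_pos (Nat.le_of_dvd Nat.card_pos hdvd) hHpos
  simp only [cycCocycle]
  rw [cycIdx_map ρ hσ hτ hinj hρ, cycIdx_map ρ hσ hτ hinj hρ, ← Nat.mul_add]
  congr 1
  have hn : Nat.card G = Nat.card G / Nat.card H * Nat.card H := (Nat.div_mul_cancel hdvd).symm
  generalize Nat.card G / Nat.card H = d at hn hdpos ⊢
  rw [hn]
  exact Nat.mul_div_mul_left _ _ hdpos

end Fermat.Agent.S55.Local.H593

end
-- ===== PACK-END S55/Local/H593/CycCocycleA4d.lean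

-- ===== PACK-BEGIN S55/Local/H542/CycBasic.lean
section
/-
S55, layer L (helper542): basic facts about the discrete logarithm `cycIdx` of a finite cyclic
group and a small commutative-group toolbox, shared by the pieces A4b / A4c.
-/


set_option autoImplicit false

namespace Fermat.Agent.S55.Local.H542

open Fermat.Agent.S55.Local

section Idx

variable {G : Type} [Group G] [Finite G] (σ : G) (hσ : ∀ g, g ∈ Subgroup.zpowers σ)

include hσ

theorem pow_card_eq_one_of_generator : σ ^ Nat.card G = 1 := by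
  rw [← orderOf_eq_card_of_generator σ hσ]
  exact pow_orderOf_eq_one σ

theorem cycIdx_lt_card (g : G) : cycIdx σ g < Nat.card G := by
  obtain ⟨k, hk, rfl⟩ := exists_pow_eq_of_generator σ hσ g
  rw [cycIdx_pow_of_lt σ hk, ← orderOf_eq_card_of_generator σ hσ]
  exact hk

theorem pow_cycIdx (g : G) : σ ^ cycIdx σ g = g := by
  obtain ⟨k, hk, rfl⟩ := exists_pow_eq_of_generator σ hσ g
  rw [cycIdx_pow_of_lt σ hk]

theorem cycIdx_pow (k : ℕ) : cycIdx σ (σ ^ k) = k % Nat.card G := by
  have h1 : σ ^ k = σ ^ (k % Nat.card G) := by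
    rw [← orderOf_eq_card_of_generator σ hσ, pow_mod_orderOf]
  rw [h1]
  apply cycIdx_pow_of_lt
  rw [orderOf_eq_card_of_generator σ hσ]
  exact Nat.mod_lt _ Nat.card_pos

theorem cycIdx_mul (g h : G) :
    cycIdx σ (g * h) = (cycIdx σ g + cycIdx σ h) % Nat.card G := by
  conv_lhs => rw [← pow_cycIdx σ hσ g, ← pow_cycIdx σ hσ h, ← pow_add]
  exact cycIdx_pow σ hσ _

theorem cycIdx_add_eq (g h : G) :
    cycIdx σ g + cycIdx σ h =
      cycIdx σ (g * h) + Nat.card G * ((cycIdx σ g + cycIdx σ h) / Nat.card G) := by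
  rw [cycIdx_mul σ hσ]
  exact (Nat.mod_add_div _ _).symm

theorem cycIdx_one : cycIdx σ (1 : G) = 0 := by
  have := cycIdx_pow σ hσ 0
  simpa using this

end Idx

section Comm

/-- Additive bookkeeping lemma behind `coboundary_bookkeeping`. -/
theorem coboundary_bookkeeping_add {A : Type} [AddCommGroup A] (c Bi gBj gu Bk xq u : A)
    (h : c + Bi + gBj = gu + Bk + xq) : gu - gBj - (u - Bk) + (u - Bi) = c - xq := by
  have hc : c = gu + Bk + xq - Bi - gBj := by rw [← h]; abel
  rw [hc]; abel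

/-- Bookkeeping in a commutative group. -/
theorem coboundary_bookkeeping {M : Type} [CommGroup M] (c Bi gBj gu Bk xq u : M)
    (h : c * Bi * gBj = gu * Bk * xq) : gu / gBj / (u / Bk) * (u / Bi) = c / xq :=
  coboundary_bookkeeping_add (A := Additive M) c Bi gBj gu Bk xq u h

theorem mul_right_cancel_comm_add {A : Type} [AddCommGroup A] (a b c d : A)
    (h : a + b + c = a + (b + d)) : c = d := by
  have : c = (a + b + c) - a - b := by abel
  rw [this, h]; abel

end Comm

end Fermat.Agent.S55.Local.H542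

end
-- ===== PACK-END S55/Local/H542/CycBasic.lean

-- ===== PACK-BEGIN S55/Local/H312/UR1.lean
section




/-!
# S55 layer L, piece UR1 (helper312): an unramified Galois extension of local fields is cyclic

`unramCyclic : Fermat.Agent.S55.Local.UnramCyclicStatement`.
Route: `R = integralClosure A K`, `S = integralClosure R L`; `IsUnram` gives that every nonzero
element of `S` is (element of `R`) * (unit of `S`); then `UnramCore.isCyclic_of_unram`.
(No completeness of `A` is used beyond what `H715.Integers` needs for finiteness of quotients.)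
-/

set_option autoImplicit false
set_option linter.overlappingInstances false
set_option linter.style.haveILetI false
set_option linter.unusedSectionVars false

namespace Fermat.Agent.S55.Local.H312

open Fermat.Agent.S55.Local
open scoped Pointwise

section Generic

variable (A K L : Type) [CommRing A] [Field K] [Field L] [Algebra A K] [Algebra K L]
  [Algebra A L] [IsScalarTower A K L]

lemma isScalarTower_intClosure : IsScalarTower A (integralClosure A K) L :=
  IsScalarTower.of_algebraMap_eq (fun a => IsScalarTower.algebraMap_apply A K L a)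

attribute [local instance] isScalarTower_intClosure

/-- elements of `integralClosure (integralClosure A K) L` are integral over `A`. -/
lemma isIntegral_of_mem_OL (x : integralClosure (integralClosure A K) L) :
    IsIntegral A (x : L) :=
  isIntegral_trans (R := A) (A := integralClosure A K) (x : L) x.2

lemma hunr_of_units
    (h : ∀ x : Lˣ, ∃ y : Kˣ,
      IsIntegral A ((x * (Units.map (algebraMap K L).toMonoidHom y)⁻¹ : Lˣ) : L) ∧
      IsIntegral A (((x * (Units.map (algebraMap K L).toMonoidHom y)⁻¹)⁻¹ : Lˣ) : L))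
    (x : integralClosure (integralClosure A K) L) (hx : x ≠ 0) :
    ∃ (y : integralClosure A K) (u : (integralClosure (integralClosure A K) L)ˣ),
      x = algebraMap (integralClosure A K) (integralClosure (integralClosure A K) L) y * u := by
  have hxL : (x : L) ≠ 0 := fun h => hx (Subtype.ext h)
  obtain ⟨yK, hu1, hu2⟩ := h (Units.mk0 (x : L) hxL)
  set v : Lˣ := Units.map (algebraMap K L).toMonoidHom yK with hv
  set u₀ : Lˣ := Units.mk0 (x : L) hxL * v⁻¹ with hu₀
  have hv1 : (v : L) = algebraMap K L (yK : K) := rfl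
  have h2 : (Units.mk0 (x : L) hxL) * u₀⁻¹ = v := by
    rw [hu₀, mul_inv_rev, inv_inv, mul_comm v _, ← mul_assoc, mul_inv_cancel, one_mul]
  have h3 : v * u₀ = Units.mk0 (x : L) hxL := by
    rw [hu₀, mul_comm (Units.mk0 (x : L) hxL) _, ← mul_assoc, mul_inv_cancel, one_mul]
  have hyint : IsIntegral A (algebraMap K L (yK : K)) := by
    have e : algebraMap K L (yK : K) = (x : L) * ((u₀⁻¹ : Lˣ) : L) := by
      rw [← hv1, ← h2]; rfl
    rw [e]
    exact (isIntegral_of_mem_OL A K L x).mul hu2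
  rw [isIntegral_algebraMap_iff (algebraMap K L).injective] at hyint
  let u : (integralClosure (integralClosure A K) L)ˣ :=
    { val := ⟨(u₀ : L), hu1.tower_top⟩
      inv := ⟨((u₀⁻¹ : Lˣ) : L), hu2.tower_top⟩
      val_inv := Subtype.ext (by simp)
      inv_val := Subtype.ext (by simp) }
  refine ⟨⟨(yK : K), hyint⟩, u, Subtype.ext ?_⟩
  have h4 : (x : L) = algebraMap K L (yK : K) * (u₀ : L) := by
    rw [← hv1, ← Units.val_mul, h3, Units.val_mk0]
  rw [Subalgebra.coe_mul, Subalgebra.coe_algebraMap]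
  exact h4

lemma algebraMap_OK_OL_injective :
    Function.Injective
      (algebraMap (integralClosure A K) (integralClosure (integralClosure A K) L)) := by
  intro a b hab
  have h' : algebraMap (integralClosure A K) L a = algebraMap (integralClosure A K) L b := by
    rw [IsScalarTower.algebraMap_apply (integralClosure A K)
      (integralClosure (integralClosure A K) L) L, hab,
      ← IsScalarTower.algebraMap_apply (integralClosure A K)
      (integralClosure (integralClosure A K) L) L]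
  exact Subtype.ext ((algebraMap K L).injective h')

end Generic

section AKLB

variable (R K L S : Type) [CommRing R] [IsDomain R] [IsDedekindDomain R]
  [Field K] [Field L] [Algebra R K] [IsFractionRing R K] [Algebra K L] [Algebra R L]
  [IsScalarTower R K L] [FiniteDimensional K L] [IsGalois K L]
  [CommRing S] [IsDomain S] [IsDedekindDomain S] [Algebra R S] [Algebra S L]
  [IsScalarTower R S L] [IsIntegralClosure S R L] [Module.Finite R S] [IsFractionRing S L]
  [Module.Flat R S]

theorem isCyclic_gal_of_hunr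
    (hunr : ∀ x : S, x ≠ 0 → ∃ (y : R) (u : Sˣ), x = algebraMap R S y * u)
    (hS : ¬ IsField S) (hfin : ∀ P : Ideal R, P.IsMaximal → Finite (R ⧸ P)) :
    IsCyclic Gal(L/K) := by
  letI : MulSemiringAction Gal(L/K) S := IsIntegralClosure.MulSemiringAction R K L S
  haveI : IsGaloisGroup Gal(L/K) R S := IsGaloisGroup.of_isFractionRing _ _ _ K L
  exact isCyclic_of_unram hunr hS hfin

end AKLB

section Bridge

variable (A F : Type) [CommRing A] [IsDomain A] [IsDiscreteValuationRing A]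
    [IsAdicComplete (IsLocalRing.maximalIdeal A) A] [Finite (IsLocalRing.ResidueField A)]
    [Field F] [CharZero F] [Algebra A F] [IsFractionRing A F]
    (K : Type) [Field K] [Algebra F K] [FiniteDimensional F K]
    (L : Type) [Field L] [Algebra F L] [Algebra K L] [IsScalarTower F K L]
    [FiniteDimensional K L] [IsGalois K L]

theorem unramCyclic_aux (hunram : IsUnram A F L K) : IsCyclic (L ≃ₐ[K] L) := by
  letI : Algebra A K := H715.algAL A F K
  haveI : IsScalarTower A F K := H715.isScalarTower_algAL A F K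
  letI : Algebra A L := H715.algAL A F L
  haveI : IsScalarTower A F L := H715.isScalarTower_algAL A F L
  haveI : IsScalarTower A K L := IsScalarTower.of_algebraMap_eq (fun a => by
    show toL A F L a = algebraMap K L (algebraMap F K (algebraMap A F a))
    rw [toL_apply, ← IsScalarTower.algebraMap_apply F K L])
  haveI : IsFractionRing (integralClosure A K) K := H715.isFractionRing_OL A F K
  haveI : IsDedekindDomain (integralClosure A K) := H715.isDedekindDomain_OL A F K
  haveI : IsDedekindDomain (integralClosure (integralClosure A K) L) :=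
    IsIntegralClosure.isDedekindDomain (integralClosure A K) K L _
  haveI : Module.Finite (integralClosure A K) (integralClosure (integralClosure A K) L) :=
    IsIntegralClosure.finite (integralClosure A K) K L _
  haveI : IsFractionRing (integralClosure (integralClosure A K) L) L :=
    IsIntegralClosure.isFractionRing_of_finite_extension (integralClosure A K) K L _
  refine isCyclic_gal_of_hunr (integralClosure A K) K L (integralClosure (integralClosure A K) L)
    ?_ ?_ ?_
  · refine hunr_of_units A K L ?_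
    intro x
    obtain ⟨y, hy1, hy2⟩ := hunram x
    rw [H715.isInt_iff] at hy1 hy2
    exact ⟨y, hy1, hy2⟩
  · intro h
    have hint : Algebra.IsIntegral (integralClosure A K)
      (integralClosure (integralClosure A K) L) := inferInstance
    exact H715.not_isField_OL A F K
      (isField_of_isIntegral_of_isField (algebraMap_OK_OL_injective A K L) h)
  · intro P hP
    exact H715.finite_quotient_OL A F K P
      (Ring.ne_bot_of_isMaximal_of_not_isField hP (H715.not_isField_OL A F K))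

theorem unramCyclic : UnramCyclicStatement := by
  intro A F _ _ _ _ _ _ _ _ _ K _ _ _ L _ _ _ _ _ _ h
  exact unramCyclic_aux A F K L h

end Bridge

end Fermat.Agent.S55.Local.H312

end
-- ===== PACK-END S55/Local/H312/UR1.lean

-- ===== PACK-BEGIN S55/T/PermH652.lean
section


/-!
# S55, layer T, piece T10 (helper652): permutation modules

`permSpec_of : ShapiroRecognitionSpec → DirectSumSpec → PermSpec` and
`permH1Spec_of : ShapiroRecognitionSpec → DirectSumSpec → PermH1Spec`.
-/

set_option autoImplicit false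

open CategoryTheory groupCohomology

namespace Fermat.Agent.S55.T.H652

open Fermat.Agent.S55.T

section Basic

variable {k G : Type} [CommRing k] [Group G]

/-- `groupCohomology.map` of the zero morphism is zero. -/
lemma map_zero_h652 {H : Type} [Group H] {A : Rep.{0} k H} {B : Rep.{0} k G} (f : G →* H) (n : ℕ) :
    groupCohomology.map f (0 : Rep.res f A ⟶ B) n = 0 := by
  unfold groupCohomology.map
  rw [groupCohomology.cochainsMap_zero]
  exact HomologicalComplex.homologyMap_zero _ _ _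

variable {X : Type} [MulAction G X]

/-- The inclusion `k[O] → k[X]` of the permutation module of an orbit, as a linear map. -/
noncomputable def incLin (k : Type) [CommRing k] (ω : MulAction.orbitRel.Quotient G X) :
    MonoidAlgebra k ω.orbit →ₗ[k] MonoidAlgebra k X :=
  (MonoidAlgebra.coeffLinearEquiv k).symm.toLinearMap ∘ₗ
    Finsupp.lmapDomain k k (Subtype.val : ω.orbit → X) ∘ₗ
      (MonoidAlgebra.coeffLinearEquiv k).toLinearMap

lemma incLin_single (ω : MulAction.orbitRel.Quotient G X) (y : ω.orbit) (r : k) :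
    incLin k ω (MonoidAlgebra.single y r) = MonoidAlgebra.single (y : X) r := by
  apply MonoidAlgebra.ext
  simp [incLin, MonoidAlgebra.coeff_single]

/-- The projection `k[X] → k[O]` onto the permutation module of an orbit. -/
noncomputable def projLin (k : Type) [CommRing k] (ω : MulAction.orbitRel.Quotient G X) :
    MonoidAlgebra k X →ₗ[k] MonoidAlgebra k ω.orbit :=
  (MonoidAlgebra.coeffLinearEquiv k).symm.toLinearMap ∘ₗ
    Finsupp.lcomapDomain (Subtype.val : ω.orbit → X) Subtype.val_injective ∘ₗ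
      (MonoidAlgebra.coeffLinearEquiv k).toLinearMap

lemma projLin_coeff (ω : MulAction.orbitRel.Quotient G X) (v : MonoidAlgebra k X) (y : ω.orbit) :
    (projLin k ω v).coeff y = v.coeff (y : X) := by
  simp [projLin]

lemma projLin_incLin (ω : MulAction.orbitRel.Quotient G X) (v : MonoidAlgebra k ω.orbit) :
    projLin k ω (incLin k ω v) = v := by
  induction v using MonoidAlgebra.induction_linear with
  | zero => simp
  | add x y hx hy => simp [hx, hy]
  | single y r =>
    apply MonoidAlgebra.ext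
    ext z
    classical
    rw [incLin_single, projLin_coeff, MonoidAlgebra.coeff_single, MonoidAlgebra.coeff_single,
      Finsupp.single_apply, Finsupp.single_apply]
    simp only [Subtype.ext_iff]

lemma projLin_incLin_of_ne {ω ω' : MulAction.orbitRel.Quotient G X} (h : ω' ≠ ω)
    (v : MonoidAlgebra k ω'.orbit) : projLin k ω (incLin k ω' v) = 0 := by
  induction v using MonoidAlgebra.induction_linear with
  | zero => simp
  | add x y hx hy => simp [hx, hy]
  | single y r =>
    apply MonoidAlgebra.ext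
    ext z
    classical
    rw [incLin_single, projLin_coeff, MonoidAlgebra.coeff_single, Finsupp.single_apply]
    have hne : (y : X) ≠ (z : X) := by
      intro hyz
      apply h
      have hy := MulAction.orbitRel.Quotient.mem_orbit.1 y.2
      have hz := MulAction.orbitRel.Quotient.mem_orbit.1 z.2
      rw [← hy, ← hz, hyz]
    simp [hne]

/-- The inclusion `k[O] ⟶ k[X]` as a morphism of representations. -/
noncomputable def inc (k : Type) [CommRing k] (ω : MulAction.orbitRel.Quotient G X) :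
    Rep.ofMulAction k G ω.orbit ⟶ Rep.ofMulAction k G X :=
  Rep.ofHom
    { toLinearMap := incLin k ω
      isIntertwining' := fun g => by
        refine MonoidAlgebra.lhom_ext' fun y => LinearMap.ext_ring ?_
        simp only [LinearMap.comp_apply, MonoidAlgebra.lsingle_apply]
        rw [Representation.ofMulAction_single, incLin_single, incLin_single,
          Representation.ofMulAction_single]
        rfl }

lemma inc_hom_apply (ω : MulAction.orbitRel.Quotient G X) (v : MonoidAlgebra k ω.orbit) :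
    (inc k ω).hom v = incLin k ω v := rfl

section DirectSumDecomposition

variable (k G X)

/-- `k[X]` is the internal direct sum of the `k[O]`, `O` running over the orbits. -/
lemma toModule_inc_bijective [DecidableEq (MulAction.orbitRel.Quotient G X)] :
    Function.Bijective
      (DirectSum.toModule k (MulAction.orbitRel.Quotient G X) (Rep.ofMulAction k G X).V
        (fun ω => (inc k ω).hom.toLinearMap)) := by
  constructor
  · rw [injective_iff_map_eq_zero]
    intro d hd
    have key : ∀ ω : MulAction.orbitRel.Quotient G X,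
        (projLin k ω) ∘ₗ (DirectSum.toModule k (MulAction.orbitRel.Quotient G X)
          (Rep.ofMulAction k G X).V (fun ω => (inc k ω).hom.toLinearMap)) =
        DirectSum.component k (MulAction.orbitRel.Quotient G X)
          (fun ω => (Rep.ofMulAction k G ω.orbit).V) ω := by
      intro ω
      apply DirectSum.linearMap_ext
      intro ω'
      refine LinearMap.ext fun v => ?_
      simp only [LinearMap.comp_apply, DirectSum.toModule_lof, DirectSum.component.of]
      by_cases h : ω' = ω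
      · subst h
        simp only [dif_pos]
        exact projLin_incLin ω' v
      · rw [dif_neg h]
        exact projLin_incLin_of_ne h v
    apply DFinsupp.ext
    intro ω
    have := congrArg (fun L => L d) (key ω)
    simp only [LinearMap.comp_apply, hd, map_zero] at this
    exact this.symm
  · intro v
    induction v using MonoidAlgebra.induction_linear with
    | zero => exact ⟨0, map_zero _⟩
    | add x y hx hy =>
      obtain ⟨a, ha⟩ := hx
      obtain ⟨b, hb⟩ := hy
      exact ⟨a + b, by rw [map_add, ha, hb]⟩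
    | single x r =>
      refine ⟨DirectSum.lof k _ _ (Quotient.mk'' x : MulAction.orbitRel.Quotient G X)
        (MonoidAlgebra.single ⟨x, MulAction.orbitRel.Quotient.mem_orbit.2 rfl⟩ r), ?_⟩
      rw [DirectSum.toModule_lof]
      exact incLin_single _ _ r

end DirectSumDecomposition

lemma incLin_coeff (ω : MulAction.orbitRel.Quotient G X) (v : MonoidAlgebra k ω.orbit)
    (y : ω.orbit) : (incLin k ω v).coeff (y : X) = v.coeff y := by
  rw [← projLin_coeff, projLin_incLin]

lemma incLin_coeff_of_notMem (ω : MulAction.orbitRel.Quotient G X) (v : MonoidAlgebra k ω.orbit)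
    (x : X) (hx : x ∉ ω.orbit) : (incLin k ω v).coeff x = 0 := by
  induction v using MonoidAlgebra.induction_linear with
  | zero => simp
  | add a b ha hb => simp [ha, hb]
  | single y r =>
    classical
    rw [incLin_single, MonoidAlgebra.coeff_single, Finsupp.single_apply]
    have : (y : X) ≠ x := fun h => hx (h ▸ y.2)
    simp [this]

lemma permCoeffLin_apply (x : X) (w : MonoidAlgebra k X) : permCoeffLin k X x w = w.coeff x := by
  simp [permCoeffLin]

/-- The localisation morphism `k[O] ⟶ k` at a point `x`, equivariant for the stabiliser. -/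
noncomputable def piMor (k : Type) [CommRing k] (ω : MulAction.orbitRel.Quotient G X) (x : X) :
    Rep.res (MulAction.stabilizer G x).subtype (Rep.ofMulAction k G ω.orbit) ⟶
      Rep.trivial k (MulAction.stabilizer G x) k :=
  (Rep.resFunctor (MulAction.stabilizer G x).subtype).map (inc k ω) ≫ permCoeff X x

lemma piMor_hom_apply (ω : MulAction.orbitRel.Quotient G X) (x : X)
    (v : MonoidAlgebra k ω.orbit) :
    (piMor k ω x).hom v = (incLin k ω v).coeff x := by
  rw [← permCoeffLin_apply]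
  rfl

lemma piMor_eq_zero (ω : MulAction.orbitRel.Quotient G X) (x : X) (hx : x ∉ ω.orbit) :
    piMor k ω x = 0 := by
  apply Rep.hom_ext
  rw [Rep.zero_hom]
  refine DFunLike.ext _ _ fun v => ?_
  rw [piMor_hom_apply, incLin_coeff_of_notMem ω v x hx]
  rfl

/-- Factorisation of the localisation map through the orbit of the point. -/
lemma coeffMap_inc_comp_permLoc (ω : MulAction.orbitRel.Quotient G X) (x : X) (n : ℕ) :
    coeffMap (inc k ω) n ≫ permLoc X x n =
      groupCohomology.map (MulAction.stabilizer G x).subtype (piMor k ω x) n := by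
  have h := groupCohomology.map_comp (A := Rep.ofMulAction k G ω.orbit)
    (B := Rep.ofMulAction k G X) (C := Rep.trivial k (MulAction.stabilizer G x) k)
    (MonoidHom.id G) (MulAction.stabilizer G x).subtype
    (inc k ω) (permCoeff X x) n
  exact h.symm

end Basic

section Finite

variable {k G : Type} [CommRing k] [Group G] [Finite G] {X : Type} [MulAction G X]

lemma finite_orbit_h652 (ω : MulAction.orbitRel.Quotient G X) : Finite ω.orbit := by
  obtain ⟨x, hx⟩ : ∃ x : X, x ∈ ω.orbit := by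
    rcases Quotient.exists_rep ω with ⟨x, rfl⟩
    exact ⟨x, MulAction.orbitRel.Quotient.mem_orbit.2 rfl⟩
  exact Finite.of_surjective (fun g : G => g • (⟨x, hx⟩ : ω.orbit))
    (MulAction.exists_smul_eq G _)

/-- The hypothesis of Shapiro's lemma (recognition form) for the orbit module `k[O]`. -/
lemma shapiro_hyp (ω : MulAction.orbitRel.Quotient G X) (x : X) (hx : x ∈ ω.orbit)
    (f : G → (Rep.trivial k (MulAction.stabilizer G x) k).V)
    (hf : ∀ (s : MulAction.stabilizer G x) (g : G),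
      f (s * g) = (Rep.trivial k (MulAction.stabilizer G x) k).ρ s (f g)) :
    ∃! b : (Rep.ofMulAction k G ω.orbit).V,
      ∀ g : G, (piMor k ω x).hom ((Rep.ofMulAction k G ω.orbit).ρ g b) = f g := by
  have := finite_orbit_h652 ω
  set xO : ω.orbit := ⟨x, hx⟩ with hxO
  have hkey : ∀ (g : G) (b : MonoidAlgebra k ω.orbit),
      (piMor k ω x).hom ((Rep.ofMulAction k G ω.orbit).ρ g b) = b.coeff (g⁻¹ • xO) := by
    intro g b
    rw [piMor_hom_apply]
    have h1 := incLin_coeff ω ((Rep.ofMulAction k G ω.orbit).ρ g b) xO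
    rw [show ((xO : ω.orbit) : X) = x from rfl] at h1
    rw [h1]
    simp
  have hf' : ∀ (g g' : G), g⁻¹ • xO = g'⁻¹ • xO → f g = f g' := by
    intro g g' h
    have hs : (g * g'⁻¹) • x = x := by
      have h2 : g • (g'⁻¹ • xO) = xO := by rw [← h, smul_inv_smul]
      have h3 := congrArg (Subtype.val) h2
      simpa [mul_smul] using h3
    have := hf ⟨g * g'⁻¹, hs⟩ g'
    simp only [inv_mul_cancel_right] at this
    rw [this]
    simp
  have hex : ∀ y : ω.orbit, ∃ g : G, g⁻¹ • xO = y := by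
    intro y
    obtain ⟨h, hh⟩ := MulAction.exists_smul_eq G xO y
    exact ⟨h⁻¹, by rw [inv_inv]; exact hh⟩
  choose gy hgy using hex
  refine ⟨MonoidAlgebra.ofCoeff (Finsupp.equivFunOnFinite.symm (fun y => f (gy y))), ?_, ?_⟩
  · intro g
    rw [hkey, MonoidAlgebra.coeff_ofCoeff]
    simp only [Finsupp.equivFunOnFinite_symm_apply_apply]
    exact hf' _ _ (hgy _)
  · intro b' hb'
    apply MonoidAlgebra.ext
    ext y
    rw [MonoidAlgebra.coeff_ofCoeff]
    simp only [Finsupp.equivFunOnFinite_symm_apply_apply]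
    have := hb' (gy y)
    rw [hkey, hgy] at this
    exact this

omit [Finite G] in
lemma exists_mem_orbit_h652 (ω : MulAction.orbitRel.Quotient G X) : ∃ x : X, x ∈ ω.orbit := by
  rcases Quotient.exists_rep ω with ⟨x, rfl⟩
  exact ⟨x, MulAction.orbitRel.Quotient.mem_orbit.2 rfl⟩

omit [Finite G] in
lemma notMem_orbit_of_ne {ω ω' : MulAction.orbitRel.Quotient G X} (h : ω' ≠ ω) {x : X}
    (hx : x ∈ ω.orbit) : x ∉ ω'.orbit := by
  intro hx'
  apply h
  rw [← MulAction.orbitRel.Quotient.mem_orbit.1 hx, ← MulAction.orbitRel.Quotient.mem_orbit.1 hx']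

end Finite

/-- **T10** from Shapiro (recognition form) and the direct sum spec. -/
theorem permSpec_of (hS : ShapiroRecognitionSpec) (hD : DirectSumSpec) : PermSpec := by
  intro k G _ _ _ X _ n
  classical
  have hSh : ∀ (ω : MulAction.orbitRel.Quotient G X) (x : X), x ∈ ω.orbit →
      Function.Bijective
        (groupCohomology.map (MulAction.stabilizer G x).subtype (piMor k ω x) n).hom :=
    fun ω x hx => hS k G (MulAction.stabilizer G x) (Rep.trivial k (MulAction.stabilizer G x) k)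
      (Rep.ofMulAction k G ω.orbit) (piMor k ω x) (shapiro_hyp ω x hx) n
  have hfac : ∀ (ω : MulAction.orbitRel.Quotient G X) (x : X)
      (v : groupCohomology (Rep.ofMulAction k G ω.orbit) n),
      (permLoc X x n).hom ((coeffMap (inc k ω) n).hom v) =
        (groupCohomology.map (MulAction.stabilizer G x).subtype (piMor k ω x) n).hom v := by
    intro ω x v
    rw [← coeffMap_inc_comp_permLoc]
    rfl
  have hzero : ∀ (ω : MulAction.orbitRel.Quotient G X) (x : X), x ∉ ω.orbit →
      ∀ v : groupCohomology (Rep.ofMulAction k G ω.orbit) n,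
      (permLoc X x n).hom ((coeffMap (inc k ω) n).hom v) = 0 := by
    intro ω x hx v
    rw [hfac, piMor_eq_zero ω x hx, map_zero_h652]
    rfl
  constructor
  · intro c hc
    obtain ⟨d, rfl⟩ := (hD k G (MulAction.orbitRel.Quotient G X)
      (fun ω => Rep.ofMulAction k G ω.orbit) (Rep.ofMulAction k G X) (fun ω => inc k ω)
      (toModule_inc_bijective k G X) n).2 c
    suffices hd : d = 0 by rw [hd, map_zero]
    apply DFinsupp.ext
    intro ω
    obtain ⟨x, hx⟩ := exists_mem_orbit_h652 ω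
    have key : (permLoc X x n).hom.comp
        (DirectSum.toModule k (MulAction.orbitRel.Quotient G X)
          (groupCohomology (Rep.ofMulAction k G X) n)
          (fun ω => (coeffMap (inc k ω) n).hom)) =
        (groupCohomology.map (MulAction.stabilizer G x).subtype (piMor k ω x) n).hom.comp
          (DirectSum.component k (MulAction.orbitRel.Quotient G X)
            (fun ω => groupCohomology (Rep.ofMulAction k G ω.orbit) n) ω) := by
      apply DirectSum.linearMap_ext
      intro ω'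
      refine LinearMap.ext fun v => ?_
      simp only [LinearMap.comp_apply, DirectSum.toModule_lof, DirectSum.component.of]
      by_cases h : ω' = ω
      · subst h
        simp only [dif_pos]
        exact hfac ω' x v
      · rw [dif_neg h, map_zero]
        exact hzero ω' x (notMem_orbit_of_ne h hx) v
    have h1 := congrArg (fun L => L d) key
    simp only [LinearMap.comp_apply] at h1
    rw [hc x] at h1
    have h2 := (hSh ω x hx).1
    apply h2
    rw [DirectSum.zero_apply, map_zero]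
    exact h1.symm
  · intro x y
    set ω : MulAction.orbitRel.Quotient G X := Quotient.mk'' x with hω
    have hx : x ∈ ω.orbit := MulAction.orbitRel.Quotient.mem_orbit.2 rfl
    obtain ⟨c₀, hc₀⟩ := (hSh ω x hx).2 y
    refine ⟨(coeffMap (inc k ω) n).hom c₀, ?_, ?_⟩
    · rw [hfac, hc₀]
    · intro x' hx'
      apply hzero
      rw [hω, MulAction.orbitRel.Quotient.orbit_mk]
      exact hx'

/-- `H¹(S, ℤ) = 0` for a finite group `S` (trivial action). -/
lemma h1_trivial_int_eq_zero (S : Type) [Group S] [Finite S]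
    (c : groupCohomology (Rep.trivial ℤ S ℤ) 1) : c = 0 := by
  have e := groupCohomology.H1IsoOfIsTrivial (Rep.trivial ℤ S ℤ)
  have hsub : Subsingleton (Additive S →+ ℤ) := by
    constructor
    intro a b
    have hz : ∀ φ : Additive S →+ ℤ, φ = 0 := by
      intro φ
      refine AddMonoidHom.ext fun s => ?_
      have hfin : Finite (Additive S) := inferInstanceAs (Finite S)
      obtain ⟨m, hm, hms⟩ := (isOfFinAddOrder_of_finite s).exists_nsmul_eq_zero
      have : m • φ s = 0 := by rw [← map_nsmul, hms, map_zero]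
      simpa [hm.ne'] using this
    rw [hz a, hz b]
  have hinj : Function.Injective e.hom.hom := by
    have := (ConcreteCategory.bijective_of_isIso e.hom).1
    exact this
  apply hinj
  exact Subsingleton.elim _ _

/-- **T10'** from Shapiro (recognition form) and the direct sum spec. -/
theorem permH1Spec_of (hS : ShapiroRecognitionSpec) (hD : DirectSumSpec) : PermH1Spec := by
  intro G _ _ X _
  rw [ModuleCat.isZero_iff_subsingleton]
  have hz : ∀ c : groupCohomology (Rep.ofMulAction ℤ G X) 1, c = 0 := by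
    intro c
    apply (permSpec_of hS hD ℤ G X 1).1 c
    intro x
    exact h1_trivial_int_eq_zero _ _
  exact ⟨fun a b => by rw [hz a, hz b]⟩

end Fermat.Agent.S55.T.H652

end
-- ===== PACK-END S55/T/PermH652.lean

-- ===== PACK-BEGIN S19/H135/SubProd.lean
section
/-
Cell A3 / WP-C (helper135): Hopf lattices restrict along equivariant injections (sub-objects,
transport along isomorphisms) and are stable under binary products.
-/


set_option autoImplicit false

namespace Fermat.Agent.S19.H135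

section Sub

variable {ℓ : ℕ} {M M₁ : Type} [AddCommGroup M] [AddCommGroup M₁]
  {act : (AlgebraicClosure ℚ ≃ₐ[ℚ] AlgebraicClosure ℚ) → M → M}
  {act₁ : (AlgebraicClosure ℚ ≃ₐ[ℚ] AlgebraicClosure ℚ) → M₁ → M₁}

/-- Restriction of a Hopf lattice along an equivariant additive injection. -/
theorem IsHopfLattice.restrict {Λ : Subalgebra (GaloisRep.ratLocalizedAt ℓ) (M → AlgebraicClosure ℚ)}
    (hΛ : IsHopfLattice ℓ act Λ) (i : M₁ →+ M) (hi : Function.Injective i)
    (heq : ∀ σ m, i (act₁ σ m) = act σ (i m)) :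
    IsHopfLattice ℓ act₁ (Λ.map (pull (GaloisRep.ratLocalizedAt ℓ) (AlgebraicClosure ℚ) i)) := by
  refine ⟨?_, ?_, ?_, ?_⟩
  · rw [Subalgebra.map_toSubmodule]
    exact hΛ.fg.map _
  · rintro _ ⟨a, ha, rfl⟩ σ m
    simp only [AlgHom.coe_toRingHom, pull_apply, heq]
    exact hΛ.equivariant a ha σ (i m)
  · intro m n hmn
    apply hi
    apply hΛ.separates
    intro a ha
    exact hmn _ ⟨a, ha, rfl⟩
  · rintro _ ⟨_, ⟨a, ha, rfl⟩, rfl⟩
    have h1 := hΛ.comul_mem ha
    have h2 : pull (GaloisRep.ratLocalizedAt ℓ) (AlgebraicClosure ℚ)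
        (fun p : M₁ × M₁ => p.1 + p.2)
        (pull (GaloisRep.ratLocalizedAt ℓ) (AlgebraicClosure ℚ) i a) =
        fun p : M₁ × M₁ => (fun q : M × M => a (q.1 + q.2)) (i p.1, i p.2) := by
      funext p
      simp only [pull_apply, map_add]
    show pull (GaloisRep.ratLocalizedAt ℓ) (AlgebraicClosure ℚ)
        (fun p : M₁ × M₁ => p.1 + p.2)
        (pull (GaloisRep.ratLocalizedAt ℓ) (AlgebraicClosure ℚ) i a) ∈ _
    rw [h2]
    refine box_induction (C := fun F => (fun p : M₁ × M₁ => F (i p.1, i p.2)) ∈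
      Subalgebra.map (pull (GaloisRep.ratLocalizedAt ℓ) (AlgebraicClosure ℚ)
        (Prod.fst : M₁ × M₁ → M₁))
        (Λ.map (pull (GaloisRep.ratLocalizedAt ℓ) (AlgebraicClosure ℚ) i)) ⊔
      Subalgebra.map (pull (GaloisRep.ratLocalizedAt ℓ) (AlgebraicClosure ℚ)
        (Prod.snd : M₁ × M₁ → M₁))
        (Λ.map (pull (GaloisRep.ratLocalizedAt ℓ) (AlgebraicClosure ℚ) i))) h1 ?_ ?_
    · intro a' ha' b' hb'
      exact mul_mem_box (Λ₁ := Λ.map (pull (GaloisRep.ratLocalizedAt ℓ) (AlgebraicClosure ℚ) i))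
        (Λ₂ := Λ.map (pull (GaloisRep.ratLocalizedAt ℓ) (AlgebraicClosure ℚ) i))
        ⟨a', ha', rfl⟩ ⟨b', hb', rfl⟩
    · intro F₁ F₂ h₁ h₂
      exact Subalgebra.add_mem _ h₁ h₂

theorem HasHopfLattice.of_injective (h : HasHopfLattice ℓ M act) (i : M₁ →+ M)
    (hi : Function.Injective i) (heq : ∀ σ m, i (act₁ σ m) = act σ (i m)) :
    HasHopfLattice ℓ M₁ act₁ := by
  obtain ⟨Λ, hΛ⟩ := h
  exact ⟨_, hΛ.restrict i hi heq⟩

/-- Transport along an equivariant additive isomorphism. -/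
theorem HasHopfLattice.of_addEquiv (h : HasHopfLattice ℓ M act) (e : M ≃+ M₁)
    (heq : ∀ σ m, e (act σ m) = act₁ σ (e m)) : HasHopfLattice ℓ M₁ act₁ := by
  refine h.of_injective e.symm.toAddMonoidHom e.symm.injective ?_
  intro σ m
  apply e.injective
  simp only [AddEquiv.toAddMonoidHom_eq_coe, AddMonoidHom.coe_coe, AddEquiv.apply_symm_apply, heq]

/-- Restriction to a stable subgroup. -/
theorem HasHopfLattice.addSubgroup (h : HasHopfLattice ℓ M act) (M' : AddSubgroup M)
    (hM' : ∀ σ, ∀ m ∈ M', act σ m ∈ M') :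
    HasHopfLattice ℓ M' (fun σ m => ⟨act σ m.1, hM' σ m.1 m.2⟩) :=
  h.of_injective M'.subtype Subtype.val_injective (fun _ _ => rfl)

end Sub

section Prod

variable {ℓ : ℕ} {M₁ M₂ : Type} [AddCommGroup M₁] [AddCommGroup M₂]
  {act₁ : (AlgebraicClosure ℚ ≃ₐ[ℚ] AlgebraicClosure ℚ) → M₁ → M₁}
  {act₂ : (AlgebraicClosure ℚ ≃ₐ[ℚ] AlgebraicClosure ℚ) → M₂ → M₂}

/-- The box product of two Hopf lattices is a Hopf lattice on the product. -/
theorem IsHopfLattice.prod
    {Λ₁ : Subalgebra (GaloisRep.ratLocalizedAt ℓ) (M₁ → AlgebraicClosure ℚ)}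
    {Λ₂ : Subalgebra (GaloisRep.ratLocalizedAt ℓ) (M₂ → AlgebraicClosure ℚ)}
    (h₁ : IsHopfLattice ℓ act₁ Λ₁) (h₂ : IsHopfLattice ℓ act₂ Λ₂) :
    IsHopfLattice ℓ (fun σ (m : M₁ × M₂) => (act₁ σ m.1, act₂ σ m.2))
      (Λ₁.map (pull (GaloisRep.ratLocalizedAt ℓ) (AlgebraicClosure ℚ)
          (Prod.fst : M₁ × M₂ → M₁)) ⊔
        Λ₂.map (pull (GaloisRep.ratLocalizedAt ℓ) (AlgebraicClosure ℚ)
          (Prod.snd : M₁ × M₂ → M₂))) := by
  refine ⟨?_, ?_, ?_, ?_⟩
  · rw [← Subalgebra.mul_toSubmodule, Subalgebra.map_toSubmodule, Subalgebra.map_toSubmodule]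
    exact (h₁.fg.map _).mul (h₂.fg.map _)
  · intro F hF σ m
    refine box_induction (C := fun F => F (act₁ σ m.1, act₂ σ m.2) = σ (F m)) hF ?_ ?_
    · intro a ha b hb
      simp only [h₁.equivariant a ha, h₂.equivariant b hb, map_mul]
    · intro F₁ F₂ e₁ e₂
      simp only [Pi.add_apply, e₁, e₂, map_add]
  · intro m n hmn
    refine Prod.ext ?_ ?_
    · apply h₁.separates
      intro a ha
      exact hmn _ ((le_sup_left : Λ₁.map (pull (GaloisRep.ratLocalizedAt ℓ) (AlgebraicClosure ℚ)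
          (Prod.fst : M₁ × M₂ → M₁)) ≤ _) ⟨a, ha, rfl⟩)
    · apply h₂.separates
      intro b hb
      exact hmn _ ((le_sup_right : Λ₂.map (pull (GaloisRep.ratLocalizedAt ℓ) (AlgebraicClosure ℚ)
          (Prod.snd : M₁ × M₂ → M₂)) ≤ _) ⟨b, hb, rfl⟩)
  · set Λ := Λ₁.map (pull (GaloisRep.ratLocalizedAt ℓ) (AlgebraicClosure ℚ)
          (Prod.fst : M₁ × M₂ → M₁)) ⊔
        Λ₂.map (pull (GaloisRep.ratLocalizedAt ℓ) (AlgebraicClosure ℚ)
          (Prod.snd : M₁ × M₂ → M₂)) with hΛdef
    set B := Λ.map (pull (GaloisRep.ratLocalizedAt ℓ) (AlgebraicClosure ℚ)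
          (Prod.fst : (M₁ × M₂) × (M₁ × M₂) → M₁ × M₂)) ⊔
        Λ.map (pull (GaloisRep.ratLocalizedAt ℓ) (AlgebraicClosure ℚ)
          (Prod.snd : (M₁ × M₂) × (M₁ × M₂) → M₁ × M₂)) with hBdef
    rw [Subalgebra.map_le, hΛdef]
    refine sup_le ?_ ?_
    · rw [Subalgebra.map_le]
      intro a ha
      show (fun p : (M₁ × M₂) × (M₁ × M₂) => a ((p.1 + p.2).1)) ∈ B
      have h := h₁.comul_mem ha
      refine box_induction (C := fun F =>
        (fun p : (M₁ × M₂) × (M₁ × M₂) => F (p.1.1, p.2.1)) ∈ B) h ?_ ?_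
      · intro a' ha' a'' ha''
        exact mul_mem_box (Λ₁ := Λ) (Λ₂ := Λ)
          (a := fun m : M₁ × M₂ => a' m.1) (b := fun m : M₁ × M₂ => a'' m.1)
          ((le_sup_left : Λ₁.map (pull (GaloisRep.ratLocalizedAt ℓ) (AlgebraicClosure ℚ)
            (Prod.fst : M₁ × M₂ → M₁)) ≤ _) ⟨a', ha', rfl⟩)
          ((le_sup_left : Λ₁.map (pull (GaloisRep.ratLocalizedAt ℓ) (AlgebraicClosure ℚ)
            (Prod.fst : M₁ × M₂ → M₁)) ≤ _) ⟨a'', ha'', rfl⟩)
      · intro F₁ F₂ e₁ e₂
        exact Subalgebra.add_mem _ e₁ e₂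
    · rw [Subalgebra.map_le]
      intro b hb
      show (fun p : (M₁ × M₂) × (M₁ × M₂) => b ((p.1 + p.2).2)) ∈ B
      have h := h₂.comul_mem hb
      refine box_induction (C := fun F =>
        (fun p : (M₁ × M₂) × (M₁ × M₂) => F (p.1.2, p.2.2)) ∈ B) h ?_ ?_
      · intro b' hb' b'' hb''
        exact mul_mem_box (Λ₁ := Λ) (Λ₂ := Λ)
          (a := fun m : M₁ × M₂ => b' m.2) (b := fun m : M₁ × M₂ => b'' m.2)
          ((le_sup_right : Λ₂.map (pull (GaloisRep.ratLocalizedAt ℓ) (AlgebraicClosure ℚ)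
            (Prod.snd : M₁ × M₂ → M₂)) ≤ _) ⟨b', hb', rfl⟩)
          ((le_sup_right : Λ₂.map (pull (GaloisRep.ratLocalizedAt ℓ) (AlgebraicClosure ℚ)
            (Prod.snd : M₁ × M₂ → M₂)) ≤ _) ⟨b'', hb'', rfl⟩)
      · intro F₁ F₂ e₁ e₂
        exact Subalgebra.add_mem _ e₁ e₂

theorem HasHopfLattice.prod (h₁ : HasHopfLattice ℓ M₁ act₁) (h₂ : HasHopfLattice ℓ M₂ act₂) :
    HasHopfLattice ℓ (M₁ × M₂) (fun σ m => (act₁ σ m.1, act₂ σ m.2)) := by
  obtain ⟨Λ₁, hΛ₁⟩ := h₁
  obtain ⟨Λ₂, hΛ₂⟩ := h₂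
  exact ⟨_, hΛ₁.prod hΛ₂⟩

end Prod

end Fermat.Agent.S19.H135

end
-- ===== PACK-END S19/H135/SubProd.lean

-- ===== PACK-BEGIN S19/H19/Points.lean
section
/-
A3 / S19, helper19 — piece ORD, part 4: the points of an order of functions.

For an order `H ⊂ (M → K)` (`M` finite) separating points, the `R`-algebra maps `H → K` are
exactly the evaluations at the points of `M`, convolution is addition, and semilinear twists
correspond to the action on `M`.  Final packaging `exists_hopf_of_isOrder`.  Mathlib only.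
-/



set_option autoImplicit false
set_option linter.unusedSectionVars false
set_option linter.style.haveILetI false

noncomputable section

namespace Fermat.Agent.S19.H19

open scoped BigOperators TensorProduct

variable {R : Type} [CommRing R] {K : Type} [Field K] [Algebra R K]
variable {M : Type} [AddCommGroup M]

namespace IsOrder

variable {H : Subalgebra R (M → K)} (hH : IsOrder H)

/-- Evaluation at a point, as an algebra map `H → K`. -/
def evPt (H : Subalgebra R (M → K)) (m : M) : H →ₐ[R] K :=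
  (Pi.evalAlgHom R (fun _ : M => K) m).comp H.val

@[simp] theorem evPt_apply (m : M) (h : H) : evPt H m h = (h : M → K) m := rfl

theorem evPt_injective (hsep : ∀ m m' : M, m ≠ m' → ∃ f ∈ H, f m ≠ f m') :
    Function.Injective (evPt H) := by
  intro m m' hmm
  by_contra hne
  obtain ⟨f, hf, hfm⟩ := hsep m m' hne
  exact hfm (congrArg (fun χ : H →ₐ[R] K => χ ⟨f, hf⟩) hmm)

include hH in
/-- The `K`-span of a separating order is everything. -/
theorem span_eq_top [Finite M] (hsep : ∀ m m' : M, m ≠ m' → ∃ f ∈ H, f m ≠ f m') :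
    Submodule.span K (H : Set (M → K)) = ⊤ := by
  have h1 : Algebra.adjoin K (H : Set (M → K)) = ⊤ := by
    apply subalgebra_eq_top_of_separates
    intro m m' hne
    obtain ⟨f, hf, hfm⟩ := hsep m m' hne
    exact ⟨f, Algebra.subset_adjoin hf, hfm⟩
  have h2 := Algebra.adjoin_eq_span K (H : Set (M → K))
  have h3 : Submonoid.closure (H : Set (M → K)) = H.toSubmonoid :=
    Submonoid.closure_eq H.toSubmonoid
  rw [h3, h1] at h2
  rw [eq_top_iff]
  intro x _
  have : x ∈ Subalgebra.toSubmodule (⊤ : Subalgebra K (M → K)) := by simp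
  rw [h2] at this
  exact this

include hH in
theorem evPt_surjective [Finite M] (hsep : ∀ m m' : M, m ≠ m' → ∃ f ∈ H, f m ≠ f m') :
    Function.Surjective (evPt H) := by
  classical
  have := Fintype.ofFinite M
  intro χ
  obtain ⟨ι, hι, b, hb⟩ := hH.good
  have := Fintype.ofFinite ι
  -- expansion of elements of `H`
  have key : ∀ x : H, (x : M → K) = ∑ i, algebraMap R K (b.repr x i) • ((b i : H) : M → K) := by
    intro x
    change H.val x = _
    conv_lhs => rw [← b.sum_repr x]
    rw [map_sum]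
    refine Finset.sum_congr rfl fun i _ => ?_
    rw [map_smul]
    funext m
    simp [Algebra.smul_def]
  have keyχ : ∀ x : H, χ x = ∑ i, algebraMap R K (b.repr x i) * χ (b i) := by
    intro x
    conv_lhs => rw [← b.sum_repr x]
    rw [map_sum]
    refine Finset.sum_congr rfl fun i _ => ?_
    rw [map_smul, Algebra.smul_def]
  have hspan : ⊤ ≤ Submodule.span K (Set.range fun i => H.val (b i)) := by
    rw [← hH.span_eq_top hsep]
    apply Submodule.span_le.mpr
    intro x hx
    have := key ⟨x, hx⟩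
    simp only at this
    rw [SetLike.mem_coe, this]
    exact Submodule.sum_mem _ fun i _ =>
      Submodule.smul_mem _ _ (Submodule.subset_span ⟨i, rfl⟩)
  let B : Module.Basis ι K (M → K) := Module.Basis.mk hb hspan
  have hB : ∀ i, B i = ((b i : H) : M → K) := fun i => by
    simp [B]
  let χ' : (M → K) →ₗ[K] K := B.constr K (fun i => χ (b i))
  have hχ'B : ∀ i, χ' (B i) = χ (b i) := fun i => by
    simp [χ']
  have hχ' : ∀ x : H, χ' (x : M → K) = χ x := by
    intro x
    rw [key x, keyχ x, map_sum]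
    refine Finset.sum_congr rfl fun i _ => ?_
    rw [map_smul, ← hB, hχ'B, smul_eq_mul]
  -- multiplicativity
  have hmul1 : ∀ j, χ' ∘ₗ LinearMap.mulRight K (B j) = LinearMap.mulRight K (χ' (B j)) ∘ₗ χ' := by
    intro j
    apply B.ext
    intro i
    simp only [LinearMap.comp_apply, LinearMap.mulRight_apply]
    rw [hB, hB]
    have : ((b i : H) : M → K) * ((b j : H) : M → K) = ((b i * b j : H) : M → K) := rfl
    rw [this, hχ', hχ', hχ', map_mul]
  have hmul2 : ∀ f : M → K, χ' ∘ₗ LinearMap.mulLeft K f = LinearMap.mulLeft K (χ' f) ∘ₗ χ' := by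
    intro f
    apply B.ext
    intro j
    simp only [LinearMap.comp_apply, LinearMap.mulLeft_apply]
    have := congrArg (fun L : (M → K) →ₗ[K] K => L f) (hmul1 j)
    simpa only [LinearMap.comp_apply, LinearMap.mulRight_apply] using this
  have hmul : ∀ f g : M → K, χ' (f * g) = χ' f * χ' g := by
    intro f g
    have := congrArg (fun L : (M → K) →ₗ[K] K => L g) (hmul2 f)
    simpa only [LinearMap.comp_apply, LinearMap.mulLeft_apply] using this
  have hone : χ' 1 = 1 := by
    have := hχ' 1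
    rw [map_one] at this
    exact this
  -- find the point
  have hsum : ∑ m : M, χ' (Pi.single m (1 : K)) = 1 := by
    have h1 : (∑ m : M, Pi.single m (1 : K)) = (1 : M → K) := by
      funext x
      simp [Finset.sum_apply, Pi.single_apply]
    rw [← map_sum, h1, hone]
  have hex : ∃ m : M, χ' (Pi.single m (1 : K)) ≠ 0 := by
    by_contra hcon
    push Not at hcon
    rw [Finset.sum_eq_zero fun m _ => hcon m] at hsum
    exact zero_ne_one hsum
  obtain ⟨m, hm⟩ := hex
  refine ⟨m, ?_⟩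
  apply AlgHom.ext
  intro x
  rw [evPt_apply, ← hχ']
  have h1 : (x : M → K) * Pi.single m (1 : K) = ((x : M → K) m) • Pi.single m (1 : K) := by
    funext y
    by_cases hy : y = m
    · subst hy; simp
    · simp [Pi.single_eq_of_ne hy]
  have h2 := hmul (x : M → K) (Pi.single m (1 : K))
  rw [h1, map_smul, smul_eq_mul] at h2
  exact (mul_right_cancel₀ hm h2)

theorem lift_evPt (s t : M) (x : H ⊗[R] H) :
    Algebra.TensorProduct.lift (evPt H s) (evPt H t) (fun _ _ => Commute.all _ _) x =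
      E₂ H x (s, t) := by
  induction x using TensorProduct.induction_on with
  | zero => simp
  | tmul a b =>
    rw [Algebra.TensorProduct.lift_tmul, E₂_tmul]
    rfl
  | add x y hx hy =>
    rw [map_add, map_add, Pi.add_apply, hx, hy]

theorem evPt_add (s t : M) :
    letI := hH.hopfAlgebra
    (WithConv.toConv (evPt H s) * WithConv.toConv (evPt H t) : WithConv (H →ₐ[R] K)) =
      WithConv.toConv (evPt H (s + t)) := by
  letI := hH.hopfAlgebra
  apply WithConv.ext
  apply AlgHom.ext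
  intro h
  have := AlgHom.convMul_apply (WithConv.toConv (evPt H s)) (WithConv.toConv (evPt H t)) h
  refine this.trans ?_
  rw [lift_evPt]
  exact hH.E₂_comul h (s, t)

end IsOrder

/-- **Piece ORD.**  A separating Hopf order of functions on a finite abelian group `M` is a
finite flat commutative cocommutative Hopf algebra over `R` whose `K`-points are `M`. -/
theorem exists_hopf_of_isOrder [Finite M] {H : Subalgebra R (M → K)} (hH : IsOrder H)
    (hsep : ∀ m m' : M, m ≠ m' → ∃ f ∈ H, f m ≠ f m') :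
    ∃ (H' : Type) (_ : CommRing H') (_ : HopfAlgebra R H'),
      Module.Finite R H' ∧ Module.Flat R H' ∧ Coalgebra.IsCocomm R H' ∧
      ∃ e : WithConv (H' →ₐ[R] K) ≃ M, (∀ f g, e (f * g) = e f + e g) ∧
        ∀ (τ : K → K) (a : M → M), (∀ h ∈ H, ∀ m, h (a m) = τ (h m)) →
          ∀ f g : WithConv (H' →ₐ[R] K), (∀ h : H', g h = τ (f h)) → e g = a (e f) := by
  have hbij : Function.Bijective (fun m : M => WithConv.toConv (IsOrder.evPt H m)) := by
    constructor
    · intro m m' hmm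
      exact IsOrder.evPt_injective hsep (congrArg WithConv.ofConv hmm)
    · intro χ
      obtain ⟨m, hm⟩ := hH.evPt_surjective hsep χ.ofConv
      exact ⟨m, by simp only [hm, WithConv.toConv_ofConv]⟩
  refine ⟨H, H.toCommRing, hH.hopfAlgebra, hH.good.finite, ?_, hH.isCocomm,
    (Equiv.ofBijective _ hbij).symm, ?_, ?_⟩
  · haveI := hH.good.free
    infer_instance
  · intro f g
    rw [Equiv.symm_apply_eq]
    have h1 := hH.evPt_add ((Equiv.ofBijective _ hbij).symm f) ((Equiv.ofBijective _ hbij).symm g)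
    have hf : WithConv.toConv (IsOrder.evPt H ((Equiv.ofBijective _ hbij).symm f)) = f :=
      (Equiv.ofBijective _ hbij).apply_symm_apply f
    have hg : WithConv.toConv (IsOrder.evPt H ((Equiv.ofBijective _ hbij).symm g)) = g :=
      (Equiv.ofBijective _ hbij).apply_symm_apply g
    rw [hf, hg] at h1
    exact h1
  · intro τ a ha f g hfg
    rw [Equiv.symm_apply_eq]
    have hf : WithConv.toConv (IsOrder.evPt H ((Equiv.ofBijective _ hbij).symm f)) = f :=
      (Equiv.ofBijective _ hbij).apply_symm_apply f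
    apply WithConv.ext
    apply AlgHom.ext
    intro h
    have h1 : g.ofConv h = τ (f.ofConv h) := hfg h
    rw [h1]
    have h2 : f.ofConv h = (h : M → K) ((Equiv.ofBijective _ hbij).symm f) := by
      conv_lhs => rw [← hf]
      rfl
    rw [h2, ← ha h h.2]
    rfl

end Fermat.Agent.S19.H19

end

end
-- ===== PACK-END S19/H19/Points.lean

-- ===== PACK-BEGIN S19/H19/Anti.lean
section
/-
A3 / S19, helper19 — piece ORD, part 5: the antipode is automatic on a finite group.
Mathlib only.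
-/


set_option autoImplicit false
set_option linter.unusedSectionVars false

noncomputable section

namespace Fermat.Agent.S19.H19

open scoped BigOperators TensorProduct

variable {R : Type} [CommRing R] {K : Type} [Field K] [Algebra R K]
variable {M : Type} [AddCommGroup M]

theorem nsmul_mem_of_comul_mem (H : Subalgebra R (M → K))
    (hcomul : ∀ f ∈ H, (fun p : M × M => f (p.1 + p.2)) ∈ (prodMap H.val H.val).range)
    (hcounit : ∀ f ∈ H, f 0 ∈ (Algebra.ofId R K).range) (k : ℕ) :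
    ∀ f ∈ H, (fun m : M => f (k • m)) ∈ H := by
  induction k with
  | zero =>
    intro f hf
    obtain ⟨r, hr⟩ := hcounit f hf
    have : (fun m : M => f (0 • m)) = algebraMap R (M → K) r := by
      funext m
      rw [zero_smul, ← hr]
      rfl
    rw [this]
    exact H.algebraMap_mem r
  | succ k ih =>
    intro f hf
    obtain ⟨x, hx⟩ := hcomul f hf
    replace hx : prodMap H.val H.val x = fun p : M × M => f (p.1 + p.2) := hx
    have key : ∀ y : H ⊗[R] H, (fun m : M => prodMap H.val H.val y (k • m, m)) ∈ H := by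
      intro y
      induction y using TensorProduct.induction_on with
      | zero =>
        simp only [map_zero, Pi.zero_apply]
        exact H.zero_mem
      | tmul a b =>
        have h1 : (fun m : M => prodMap H.val H.val (a ⊗ₜ[R] b) (k • m, m)) =
            (fun m : M => (a : M → K) (k • m)) * (b : M → K) := by
          funext m
          rw [prodMap_tmul]
          rfl
        rw [h1]
        exact H.mul_mem (ih _ a.2) b.2
      | add y z hy hz =>
        have h1 : (fun m : M => prodMap H.val H.val (y + z) (k • m, m)) =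
            (fun m : M => prodMap H.val H.val y (k • m, m)) +
              (fun m : M => prodMap H.val H.val z (k • m, m)) := by
          funext m
          rw [map_add]
          rfl
        rw [h1]
        exact H.add_mem hy hz
    have h2 : (fun m : M => f ((k + 1) • m)) = fun m : M => prodMap H.val H.val x (k • m, m) := by
      funext m
      rw [hx, succ_nsmul]
    rw [h2]
    exact key x

theorem neg_mem_of_comul_mem [Finite M] (H : Subalgebra R (M → K))
    (hcomul : ∀ f ∈ H, (fun p : M × M => f (p.1 + p.2)) ∈ (prodMap H.val H.val).range)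
    (hcounit : ∀ f ∈ H, f 0 ∈ (Algebra.ofId R K).range) :
    ∀ f ∈ H, (fun m : M => f (-m)) ∈ H := by
  intro f hf
  have hpos : 0 < Nat.card M := Nat.card_pos
  have h1 : ∀ m : M, -m = (Nat.card M - 1) • m := by
    intro m
    have h2 : (Nat.card M - 1) • m + m = 0 := by
      rw [← succ_nsmul, Nat.sub_add_cancel hpos]
      exact card_nsmul_eq_zero'
    exact (eq_neg_of_add_eq_zero_left h2).symm
  have h3 : (fun m : M => f (-m)) = fun m : M => f ((Nat.card M - 1) • m) := by
    funext m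
    rw [h1]
  rw [h3]
  exact nsmul_mem_of_comul_mem H hcomul hcounit _ f hf

end Fermat.Agent.S19.H19

end

end
-- ===== PACK-END S19/H19/Anti.lean

-- ===== PACK-BEGIN Lib/Newform/H863/OldForms.lean
section



/-!
# NEWFORM library, layer 1 (helper863): Hecke operators and oldforms

Compatibility of `levelIncl`, `degen` with the Hecke operators (all proofs through
`q`-coefficients).
-/

set_option autoImplicit false

open UpperHalfPlane ModularForm CongruenceSubgroup ModularFormClass CuspForm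
open Fermat.Agent.S49

namespace Fermat.Agent.Lib.Newform.H863

/-- Cusp forms of weight 2 on `Γ₀(N)` are determined by their `q`-coefficients. -/
theorem cuspForm_ext_qCoeff {N : ℕ} {f g : CuspForm (Gamma0 N) 2}
    (h : ∀ n, qCoeff ⇑f n = qCoeff ⇑g n) : f = g := by
  have h0 : f - g = 0 := glue_eq_zero_of_qCoeff _ (fun n => by rw [glue_qCoeff_sub, h n, sub_self])
  exact sub_eq_zero.mp h0

theorem heckeTLin_levelIncl {M N ℓ : ℕ} (h : M ∣ N) (hℓ : ℓ.Prime) (hℓN : ¬ ℓ ∣ N)
    (f : CuspForm (Gamma0 M) 2) :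
    CuspForm.heckeTLin 2 hℓ hℓN (levelIncl h f)
      = levelIncl h (CuspForm.heckeTLin 2 hℓ (fun hd => hℓN (hd.trans h)) f) :=
  DFunLike.coe_injective rfl

theorem heckeULin_levelIncl {M N q : ℕ} [NeZero M] [NeZero N] (h : M ∣ N) (hqM : q ∣ M)
    (f : CuspForm (Gamma0 M) 2) :
    CuspForm.heckeULin 2 (hqM.trans h) (levelIncl h f)
      = levelIncl h (CuspForm.heckeULin 2 hqM f) :=
  DFunLike.coe_injective rfl

/-- For a prime `q ∤ M`: `U_q ∘ incl = incl ∘ T_q - q • B_q` from level `M` to level `M q`. -/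
theorem heckeULin_levelIncl_of_not_dvd {M q : ℕ} [NeZero M] [NeZero q] [NeZero (M * q)]
    (hq : q.Prime) (hqM : ¬ q ∣ M) (f : CuspForm (Gamma0 M) 2) :
    CuspForm.heckeULin 2 (Dvd.intro_left M rfl : q ∣ M * q) (levelIncl (Dvd.intro q rfl) f)
      = levelIncl (Dvd.intro q rfl) (CuspForm.heckeTLin 2 hq hqM f) - (q : ℂ) • degen q f := by
  apply cuspForm_ext_qCoeff
  intro n
  rw [glue_qCoeff_heckeULin hq, glue_qCoeff_sub, glue_qCoeff_smul, qCoeff_levelIncl,
    qCoeff_levelIncl, glue_qCoeff_heckeTLin hq hqM, qCoeff_degen]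
  split_ifs <;> ring

/-- `U_q ∘ B_q = incl`. -/
theorem heckeULin_degen {M q : ℕ} [NeZero q] [NeZero (M * q)] (hq : q.Prime)
    (f : CuspForm (Gamma0 M) 2) :
    CuspForm.heckeULin 2 (Dvd.intro_left M rfl : q ∣ M * q) (degen q f)
      = levelIncl (Dvd.intro q rfl) f := by
  apply cuspForm_ext_qCoeff
  intro n
  rw [glue_qCoeff_heckeULin hq, qCoeff_degen, qCoeff_levelIncl, if_pos (Dvd.intro_left n rfl),
    Nat.mul_div_cancel n hq.pos]

/-- `T_ℓ` commutes with `B_d` for `ℓ ∤ M d`. -/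
theorem heckeTLin_degen {M d ℓ : ℕ} [NeZero d] (hℓ : ℓ.Prime) (hℓN : ¬ ℓ ∣ M * d)
    (f : CuspForm (Gamma0 M) 2) :
    CuspForm.heckeTLin 2 hℓ hℓN (degen d f)
      = degen d (CuspForm.heckeTLin 2 hℓ (fun hd => hℓN (hd.mul_right d)) f) := by
  have hℓd : ¬ ℓ ∣ d := fun hd => hℓN (hd.mul_left M)
  have hcop : Nat.Coprime d ℓ := ((Nat.Prime.coprime_iff_not_dvd hℓ).mpr hℓd).symm
  apply cuspForm_ext_qCoeff
  intro n
  rw [glue_qCoeff_heckeTLin hℓ hℓN, qCoeff_degen, qCoeff_degen, qCoeff_degen]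
  by_cases hdn : d ∣ n
  · obtain ⟨m, rfl⟩ := hdn
    have hd0 : 0 < d := Nat.pos_of_ne_zero (NeZero.ne d)
    rw [if_pos (Dvd.intro _ rfl), if_pos ((Dvd.intro m rfl).mul_right ℓ),
      glue_qCoeff_heckeTLin hℓ, Nat.mul_div_cancel_left m hd0, mul_assoc,
      Nat.mul_div_cancel_left (m * ℓ) hd0]
    by_cases hℓm : ℓ ∣ m
    · obtain ⟨r, rfl⟩ := hℓm
      rw [if_pos (Dvd.intro r rfl), if_pos ((Dvd.intro r rfl).mul_left d),
        Nat.mul_div_cancel_left r hℓ.pos,
        show d * (ℓ * r) / ℓ = d * r by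
          rw [Nat.mul_left_comm, Nat.mul_div_cancel_left _ hℓ.pos],
        if_pos (Dvd.intro r rfl), Nat.mul_div_cancel_left r hd0]
    · have : ¬ ℓ ∣ d * m := fun h => hℓm ((Nat.Coprime.dvd_mul_left hcop.symm).mp h)
      rw [if_neg hℓm, if_neg this]
  · have h1 : ¬ d ∣ n * ℓ := fun h => hdn ((Nat.Coprime.dvd_mul_right hcop).mp h)
    rw [if_neg hdn, if_neg h1, zero_add]
    by_cases hℓn : ℓ ∣ n
    · obtain ⟨r, rfl⟩ := hℓn
      have h2 : ¬ d ∣ r := fun h => hdn (h.mul_left ℓ)
      rw [if_pos (Dvd.intro r rfl), Nat.mul_div_cancel_left r hℓ.pos, if_neg h2, mul_zero]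
    · rw [if_neg hℓn]

end Fermat.Agent.Lib.Newform.H863

end
-- ===== PACK-END Lib/Newform/H863/OldForms.lean

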