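import Fermat.Prelude.Thm_Algebra_finite_maximalSpectrum_and_bijective_localization_of_module_finite
import Fermat.Prelude.Thm_IsLocalRing_isAdicComplete_of_module_finite
import Mathlib
import Fermat.Prelude.Def_GaloisRep_ComplexConjugation
import Fermat.Agent.Pack.S43GC.G0E3L0
import Fermat.Agent.Pack.S43GC.G0E3L2
import Fermat.Agent.Pack.S43GC.G0E3L3
import Fermat.Agent.Pack.S43GC.G0E1L1
import Fermat.Agent.Pack.S44C.G0E6L0
import Fermat.Agent.Pack.S43GC.G0E3L1
import Fermat.Agent.Pack.S43GC.G0E2L2
import Fermat.Agent.Pack.S43GC.G0E4L2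
import Fermat.Agent.Pack.S43GC.G0E4L3
import Fermat.Agent.Pack.S43GC.G0E4L0
import Fermat.Agent.Pack.S43GC.G0E4L1
import Fermat.Agent.Pack.Fast891

-- ===== PACK-BEGIN S55/KL/DevPGroupH784.lean
section


/-!
# S55, layer KB, leaf KB-DEV-C (helper784): the filtration induction `DevPGroupSpec`

`devPGroup : DevPGroupSpec`.  Let `μ` be a module of order `p` with trivial action such that
`colim_V H³(Γ ⧸ V, μ) = 0`, and let `R` be a finite `p`-torsion module on which `Γ` acts through
a finite `p`-group `Γ ⧸ V₀`.  Then `colim_V H³(Γ ⧸ V, R^V) = 0`.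

Proof: induction on `|R|`.  If `R ≠ 0`, the `p`-group `Γ ⧸ V₀` has a fixed point `r ≠ 0` on `R`
(fixed point congruence); `ℤ r ≅ μ` (both have order `p` and trivial action, and every additive
map is `k`-linear because `ℤ → k` is surjective), so there is a short exact sequence
`0 → μ → R → R₂ → 0` with `|R₂| < |R|`.  Given a class `y` at level `V`, inflate to a level below
`V₀`, kill its image in `H³(R₂)` by a further inflation (induction hypothesis), lift to `H³(μ)`
(exactness of the middle of the long exact sequence at a level acting trivially on `R`) and kill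
the lift by a last inflation.  Only exactness in the middle is used (no connecting map).

Also provided (reusable): `infl_infl`, `push_infl` (functoriality of `HLmap` along `id`),
`push_eq_map`, `exact_push`.

No `sorry`; Mathlib + `KL/Defs`, `KL/Spec` only.
-/

set_option autoImplicit false
set_option linter.style.haveILetI false

open CategoryTheory groupCohomology

namespace Fermat.Agent.S55.KL.H784

open Fermat.Agent.S55.KL

variable {k : Type} [CommRing k] {Γ : Type} [Group Γ]

/-! ## Functoriality of `HLmap` along the identity -/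

/-- Composition of two `HLmap`s along the identity of `Γ`. -/
lemma HLmap_id_comp {B B' B'' : Rep.{0} k Γ} {W W' W'' : Subgroup Γ} [W.Normal] [W'.Normal]
    [W''.Normal] (h₁ : W' ≤ W.comap (MonoidHom.id Γ)) (h₂ : W'' ≤ W'.comap (MonoidHom.id Γ))
    (h₃ : W'' ≤ W.comap (MonoidHom.id Γ))
    (φ : Rep.res (MonoidHom.id Γ) B ⟶ B') (ψ : Rep.res (MonoidHom.id Γ) B' ⟶ B'')
    (χ : Rep.res (MonoidHom.id Γ) B ⟶ B'') (hχ : ∀ b, χ.hom b = ψ.hom (φ.hom b)) (n : ℕ) :
    HLmap (MonoidHom.id Γ) h₁ φ n ≫ HLmap (MonoidHom.id Γ) h₂ ψ n =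
      HLmap (MonoidHom.id Γ) h₃ χ n := by
  unfold HLmap
  rw [← groupCohomology.map_comp]
  apply groupCohomology.map_congr
  · ext g
    rfl
  · ext b
    exact (hχ b.1).symm

/-- Inflation is transitive. -/
lemma infl_infl (B : Rep.{0} k Γ) {W W' W'' : Subgroup Γ} [W.Normal] [W'.Normal] [W''.Normal]
    (h₁ : W' ≤ W) (h₂ : W'' ≤ W') (n : ℕ) :
    infl B h₁ n ≫ infl B h₂ n = infl B (h₂.trans h₁) n :=
  HLmap_id_comp _ _ _ _ _ _ (fun _ => rfl) n

/-- Inflation is transitive (elementwise). -/
lemma infl_infl_apply (B : Rep.{0} k Γ) {W W' W'' : Subgroup Γ} [W.Normal] [W'.Normal]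
    [W''.Normal] (h₁ : W' ≤ W) (h₂ : W'' ≤ W') (n : ℕ) (y : HL B W n) :
    (infl B h₂ n).hom ((infl B h₁ n).hom y) = (infl B (h₂.trans h₁) n).hom y := by
  rw [← infl_infl B h₁ h₂ n]
  rfl

/-- Push-forward commutes with inflation. -/
lemma push_infl {B B' : Rep.{0} k Γ} (φ : B ⟶ B') {W W' : Subgroup Γ} [W.Normal] [W'.Normal]
    (h : W' ≤ W) (n : ℕ) :
    push φ W n ≫ infl B' h n = infl B h n ≫ push φ W' n := by
  have e1 : push φ W n ≫ infl B' h n =
      HLmap (MonoidHom.id Γ) (W := W) (W' := W') (by simpa using h) φ n :=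
    HLmap_id_comp _ _ _ _ _ _ (fun _ => rfl) n
  have e2 : infl B h n ≫ push φ W' n =
      HLmap (MonoidHom.id Γ) (W := W) (W' := W') (by simpa using h) φ n :=
    HLmap_id_comp _ _ _ _ _ _ (fun _ => rfl) n
  rw [e1, e2]

/-- Push-forward commutes with inflation (elementwise). -/
lemma push_infl_apply {B B' : Rep.{0} k Γ} (φ : B ⟶ B') {W W' : Subgroup Γ} [W.Normal]
    [W'.Normal] (h : W' ≤ W) (n : ℕ) (y : HL B W n) :
    (infl B' h n).hom ((push φ W n).hom y) = (push φ W' n).hom ((infl B h n).hom y) :=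
  congrArg (fun f => f.hom y) (push_infl φ h n)

/-- `push` is the functorial map of Mathlib's `quotientToInvariantsFunctor`. -/
lemma push_eq_map {B B' : Rep.{0} k Γ} (φ : B ⟶ B') (W : Subgroup Γ) [W.Normal] (n : ℕ) :
    push φ W n =
      groupCohomology.map (MonoidHom.id (Γ ⧸ W))
        ((Rep.quotientToInvariantsFunctor k W).map φ) n := by
  unfold push HLmap
  apply groupCohomology.map_congr
  · ext g
    rfl
  · ext b
    rfl

/-! ## Exactness in the middle at a level acting trivially -/

/-- A short complex of representations is short exact if it is so on underlying modules. -/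
lemma shortExact_of {G : Type} [Group G] (X : ShortComplex (Rep.{0} k G))
    (h1 : Function.Injective X.f.hom)
    (h2 : ∀ x : X.X₂, X.g.hom x = 0 → ∃ y : X.X₁, X.f.hom y = x)
    (h3 : Function.Surjective X.g.hom) : X.ShortExact where
  exact := by
    rw [← ShortComplex.exact_map_iff_of_faithful X (forget₂ (Rep.{0} k G) (ModuleCat.{0} k)),
      ShortComplex.moduleCat_exact_iff]
    exact h2
  mono_f := (Rep.mono_iff_injective _).2 h1
  epi_g := (Rep.epi_iff_surjective _).2 h3

/-- Exactness of `Hⁿ(Γ/W, R₁^W) → Hⁿ(Γ/W, R^W) → Hⁿ(Γ/W, R₂^W)` for a short exact sequence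
`0 → R₁ → R → R₂ → 0` when `W` acts trivially on `R`. -/
lemma exact_push {R₁ R R₂ : Rep.{0} k Γ} (ι : R₁ ⟶ R) (π : R ⟶ R₂) (W : Subgroup Γ) [W.Normal]
    (hι : Function.Injective ι.hom) (hπ : Function.Surjective π.hom)
    (hex : ∀ x, π.hom x = 0 → ∃ y, ι.hom y = x) (hzero : ∀ y, π.hom (ι.hom y) = 0)
    (hW : ActsTrivially W R) (n : ℕ)
    (y : HL R W n) (hy : (push π W n).hom y = 0) : ∃ z : HL R₁ W n, (push ι W n).hom z = y := by
  let X : ShortComplex (Rep.{0} k (Γ ⧸ W)) :=
    ShortComplex.mk ((Rep.quotientToInvariantsFunctor k W).map ι)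
      ((Rep.quotientToInvariantsFunctor k W).map π) (by
        ext b
        exact Subtype.ext (hzero b.1))
  have hX : X.ShortExact := by
    apply shortExact_of
    · intro a b hab
      apply Subtype.ext
      apply hι
      exact congrArg Subtype.val hab
    · intro x hx
      obtain ⟨m, hm⟩ := hex x.1 (congrArg Subtype.val hx)
      refine ⟨⟨m, fun w => ?_⟩, Subtype.ext hm⟩
      apply hι
      have h1 := Rep.hom_comm_apply ι w.1 m
      have h2 : R.ρ w.1 x.1 = x.1 := x.2 w
      show ι.hom (R₁.ρ w.1 m) = ι.hom m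
      rw [h1, hm, h2]
    · intro x
      obtain ⟨r, hr⟩ := hπ x.1
      exact ⟨⟨r, fun w => hW w.1 w.2 r⟩, Subtype.ext hr⟩
  have hE := mapShortComplex₂_exact hX n
  rw [ShortComplex.moduleCat_exact_iff] at hE
  rw [push_eq_map] at hy
  obtain ⟨z, hz⟩ := hE y hy
  refine ⟨z, ?_⟩
  rw [push_eq_map]
  exact hz

/-- The cohomology of the zero module vanishes. -/
lemma H_eq_zero_of_subsingleton {G : Type} [Group G] (A : Rep.{0} k G) [Subsingleton A.V]
    (n : ℕ) (y : groupCohomology A n) : y = 0 := by
  have h1 : (𝟙 A : A ⟶ A) = 0 := by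
    ext b
    exact Subsingleton.elim _ _
  have h2 : groupCohomology.map (MonoidHom.id G) (𝟙 A) n = 𝟙 _ :=
    groupCohomology.map_id n
  have h3 : groupCohomology.map (MonoidHom.id G) (0 : A ⟶ A) n = 0 := by
    unfold groupCohomology.map
    rw [cochainsMap_zero, HomologicalComplex.homologyMap_zero]
    rfl
  have h4 : (𝟙 (groupCohomology A n) : groupCohomology A n ⟶ groupCohomology A n) = 0 := by
    rw [← h2, h1, h3]
  calc y = (𝟙 (groupCohomology A n) : groupCohomology A n ⟶ groupCohomology A n).hom y := rfl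
    _ = 0 := by rw [h4]; rfl

/-- The finite-level cohomology of the zero module vanishes. -/
lemma HL_eq_zero_of_subsingleton (R : Rep.{0} k Γ) [Subsingleton R.V] (W : Subgroup Γ)
    [W.Normal] (n : ℕ) (y : HL R W n) : y = 0 := by
  haveI : Subsingleton (R.quotientToInvariants W).V :=
    ⟨fun a b => Subtype.ext (Subsingleton.elim _ _)⟩
  exact H_eq_zero_of_subsingleton _ n y

/-! ## The dévissage step -/

/-- An additive map between `k`-modules is `k`-linear when `ℤ → k` is surjective. -/
def linOfAdd (hk : Function.Surjective (Int.cast : ℤ → k)) {M M' : Type} [AddCommGroup M]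
    [Module k M] [AddCommGroup M'] [Module k M'] (f : M →+ M') : M →ₗ[k] M' where
  toFun := f
  map_add' := f.map_add
  map_smul' c x := by
    obtain ⟨n, rfl⟩ := hk c
    simp only [RingHom.id_apply]
    rw [Int.cast_smul_eq_zsmul, Int.cast_smul_eq_zsmul, map_zsmul]

/-- A finite nontrivial `p`-torsion abelian group has order divisible by `p`. -/
lemma dvd_card_of_torsion (p : ℕ) [Fact p.Prime] (M : Type) [AddCommGroup M] [Nontrivial M]
    [Finite M] (hM : ∀ r : M, p • r = 0) : p ∣ Nat.card M := by
  have hPR : IsPGroup p (Multiplicative M) := fun x => ⟨1, by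
    rw [pow_one]
    exact congrArg Multiplicative.ofAdd (hM x.toAdd)⟩
  have hc : Nat.card (Multiplicative M) = Nat.card M := Nat.card_congr Multiplicative.toAdd
  rcases hPR.card_eq_or_dvd with h | h
  · exfalso
    rw [hc] at h
    have := Finite.one_lt_card_iff_nontrivial.2 (inferInstance : Nontrivial M)
    omega
  · rwa [hc] at h

/-- The dévissage step: a nonzero finite `p`-torsion module on which `Γ` acts through a `p`-group
contains a copy of `μ` (order `p`, trivial action), with strictly smaller quotient. -/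
lemma exists_step (hk : Function.Surjective (Int.cast : ℤ → k)) (μ : Rep.{0} k Γ) (p : ℕ)
    (hp : p.Prime) (hμ : Nat.card μ.V = p) (hμtriv : ∀ (g : Γ) (m : μ.V), μ.ρ g m = m)
    (R : Rep.{0} k Γ) [Finite R.V] (hR : ∀ r : R.V, p • r = 0) (W : Subgroup Γ) [W.Normal]
    (hW : ActsTrivially W R) (hP : IsPGroup p (Γ ⧸ W)) [Nontrivial R.V] :
    ∃ (R₂ : Rep.{0} k Γ) (ι : μ ⟶ R) (π : R ⟶ R₂), Function.Injective ι.hom ∧
      Function.Surjective π.hom ∧ (∀ x, π.hom x = 0 → ∃ y, ι.hom y = x) ∧
      (∀ y, π.hom (ι.hom y) = 0) ∧ Nat.card R₂.V < Nat.card R.V := by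
  haveI : Fact p.Prime := ⟨hp⟩
  -- the action of `Γ ⧸ W`
  let ρ' : Γ ⧸ W →* (R.V →ₗ[k] R.V) := QuotientGroup.lift W R.ρ (fun w hw => by
    rw [MonoidHom.mem_ker]
    ext b
    exact hW w hw b)
  letI : MulAction (Γ ⧸ W) R.V :=
    { smul := fun g x => ρ' g x
      one_smul := fun x => by
        show ρ' 1 x = x
        rw [map_one]
        rfl
      mul_smul := fun g h x => by
        show ρ' (g * h) x = ρ' g (ρ' h x)
        rw [map_mul]
        rfl }
  have hcard : p ∣ Nat.card R.V := dvd_card_of_torsion p R.V hR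
  obtain ⟨r, hrfix, hr0⟩ :=
    hP.exists_fixed_point_of_prime_dvd_card_of_fixed_point R.V hcard (a := 0) (by
      rw [MulAction.mem_fixedPoints]
      intro g
      show ρ' g 0 = 0
      exact map_zero _)
  have hr : ∀ g : Γ, R.ρ g r = r := fun g =>
    MulAction.mem_fixedPoints.1 hrfix (g : Γ ⧸ W)
  have hord : addOrderOf r = p := addOrderOf_eq_prime (hR r) (Ne.symm hr0)
  have hZ : Nat.card (AddSubgroup.zmultiples r) = p := by rw [Nat.card_zmultiples, hord]
  let e : μ.V ≃+ AddSubgroup.zmultiples r := addEquivOfPrimeCardEq hμ hZ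
  let ι₀ : μ.V →+ R.V := (AddSubgroup.zmultiples r).subtype.comp e.toAddMonoidHom
  have hι₀fix : ∀ g m, R.ρ g (ι₀ m) = ι₀ m := by
    intro g m
    obtain ⟨n, hn⟩ := AddSubgroup.mem_zmultiples_iff.1 (e m).2
    show R.ρ g (e m : R.V) = (e m : R.V)
    rw [← hn, map_zsmul, hr g]
  have hι₀inj : Function.Injective ι₀ := fun a b hab =>
    e.injective (Subtype.ext hab)
  let ιl : μ.V →ₗ[k] R.V := linOfAdd hk ι₀
  let ι : μ ⟶ R := Rep.ofHom ⟨ιl, fun g => by
    ext m
    show ιl (μ.ρ g m) = R.ρ g (ιl m)
    rw [hμtriv]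
    exact (hι₀fix g m).symm⟩
  let S : Submodule k R.V := LinearMap.range ιl
  have hS : ∀ g, S ≤ S.comap (R.ρ g) := by
    rintro g x ⟨m, rfl⟩
    show R.ρ g (ιl m) ∈ S
    rw [show R.ρ g (ιl m) = ιl m from hι₀fix g m]
    exact ⟨m, rfl⟩
  refine ⟨R.quotient S hS, ι, R.mkQ S hS, hι₀inj, Submodule.mkQ_surjective S, ?_, ?_, ?_⟩
  · intro x hx
    have hx' : S.mkQ x = 0 := hx
    rw [Submodule.mkQ_apply, Submodule.Quotient.mk_eq_zero] at hx'
    exact hx'
  · intro y
    show S.mkQ (ιl y) = 0
    rw [Submodule.mkQ_apply, Submodule.Quotient.mk_eq_zero]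
    exact ⟨y, rfl⟩
  · show Nat.card (R.V ⧸ S) < Nat.card R.V
    have h1 := Submodule.card_eq_card_quotient_mul_card S
    have h2 : 1 < Nat.card S := by
      haveI : Nontrivial S := by
        obtain ⟨m, hm⟩ : ∃ m, ι₀ m = r := by
          have hrZ : r ∈ AddSubgroup.zmultiples r := AddSubgroup.mem_zmultiples r
          exact ⟨e.symm ⟨r, hrZ⟩, by simp [ι₀]⟩
        exact ⟨⟨⟨r, ⟨m, hm⟩⟩, 0, fun h => hr0 (congrArg Subtype.val h).symm⟩⟩
      exact Finite.one_lt_card_iff_nontrivial.2 inferInstance
    haveI : Finite (R.V ⧸ S) := Finite.of_surjective S.mkQ (Submodule.mkQ_surjective S)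
    have h3 : 0 < Nat.card (R.V ⧸ S) := Nat.card_pos
    nlinarith

/-! ## The induction -/

/-- **KB-DEV-C.** -/
theorem devPGroup : DevPGroupSpec := by
  intro k Γ _ _ hk N μ p hp hμ hμtriv hμeff
  suffices H : ∀ n : ℕ, ∀ R : Rep.{0} k Γ, Finite R.V → Nat.card R.V ≤ n →
      (∀ r : R.V, p • r = 0) →
      (∃ V : N.Lvl, ActsTrivially V.W R ∧ IsPGroup p (Γ ⧸ V.W)) → EffAll N R 3 from
    fun R hfin hR hV => H _ R hfin le_rfl hR hV
  intro n
  induction n with
  | zero =>
    intro R hfin hcard hR hV V y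
    exfalso
    have := Nat.card_pos (α := R.V)
    omega
  | succ n ih =>
    intro R hfin hcard hR hV V y
    obtain ⟨V₀, hV₀, hP⟩ := hV
    by_cases hsub : Subsingleton R.V
    · exact ⟨V, le_rfl, HL_eq_zero_of_subsingleton R V.W 3 _⟩
    · haveI : Nontrivial R.V := not_subsingleton_iff_nontrivial.1 hsub
      obtain ⟨R₂, ι, π, hι, hπ, hex, hzero, hlt⟩ :=
        exists_step hk μ p hp hμ hμtriv R hR V₀.W hV₀ hP
      have hfin₂ : Finite R₂.V := Finite.of_surjective π.hom hπ
      have hR₂ : ∀ r : R₂.V, p • r = 0 := by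
        intro r
        obtain ⟨x, rfl⟩ := hπ r
        rw [← map_nsmul, hR, map_zero]
      have hV₀₂ : ActsTrivially V₀.W R₂ := by
        intro w hw r
        obtain ⟨x, rfl⟩ := hπ r
        rw [← Rep.hom_comm_apply, hV₀ w hw]
      have hE₂ : EffAll N R₂ 3 := ih R₂ hfin₂ (by omega) hR₂ ⟨V₀, hV₀₂, hP⟩
      obtain ⟨V₁, h1V, h1V₀⟩ := N.exists_le V V₀
      obtain ⟨V₂, h21, hz₁⟩ := hE₂ V₁ ((push π V₁.W 3).hom ((infl R h1V 3).hom y))
      have hpy₂ : (push π V₂.W 3).hom ((infl R h21 3).hom ((infl R h1V 3).hom y)) = 0 := by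
        rw [← push_infl_apply]
        exact hz₁
      have hW₂ : ActsTrivially V₂.W R := fun w hw b => hV₀ w (h1V₀ (h21 hw)) b
      obtain ⟨z, hz⟩ := exact_push ι π V₂.W hι hπ hex hzero hW₂ 3 _ hpy₂
      obtain ⟨V₃, h32, hz₃⟩ := hμeff V₂ z
      refine ⟨V₃, h32.trans (h21.trans h1V), ?_⟩
      have h5 : (infl R h32 3).hom ((infl R h21 3).hom ((infl R h1V 3).hom y)) = 0 := by
        rw [← hz, push_infl_apply, hz₃, map_zero]
      rw [infl_infl_apply, infl_infl_apply] at h5
      exact h5

end Fermat.Agent.S55.KL.H784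

end
-- ===== PACK-END S55/KL/DevPGroupH784.lean

-- ===== PACK-BEGIN S55/Local/H904/Integers.lean
section




/-!
# S55, layer L, piece LF0 (helper904): the ring of integers of a local field

Setting: `A` a complete DVR with finite residue field, `F = Frac A` of characteristic `0`,
`L / F` a finite extension, and ANY `Algebra A L` instance compatible with the tower
(`IsScalarTower A F L`).  `B := integralClosure A L`.

Main results (all about `B = integralClosure A L`):
* `lf0_finite`            : `Module.Finite A B`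
* `lf0_isDedekindDomain`  : `IsDedekindDomain B`
* `lf0_isFractionRing`    : `IsFractionRing B L`
* `lf0_isLocalRing`       : `IsLocalRing B`
* `lf0_isDVR`             : `IsDiscreteValuationRing B`
* `lf0_finite_residueField` : `Finite (ResidueField B)`
* `lf0_isAdicComplete`    : `IsAdicComplete (maximalIdeal B) B`

To use them with the conventions of `Defs.lean`:
`letI : Algebra A L := (toL A F L).toAlgebra`
`haveI : IsScalarTower A F L := IsScalarTower.of_algebraMap_eq (fun _ => rfl)`.
-/

set_option autoImplicit false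
set_option linter.unusedSectionVars false
set_option linter.style.haveILetI false

namespace Fermat.Agent.S55.Local.H904

open IsLocalRing

/-- A module-finite domain over a complete Noetherian local ring is local. -/
theorem isLocalRing_of_finite_of_complete (R : Type) [CommRing R] [IsLocalRing R]
    [IsNoetherianRing R] [IsAdicComplete (maximalIdeal R) R]
    (B : Type) [CommRing B] [IsDomain B] [Algebra R B] [Module.Finite R B] :
    IsLocalRing B := by
  classical
  obtain ⟨-, hbij, -, -⟩ :=
    Algebra.finite_maximalSpectrum_and_bijective_localization_of_module_finite (𝒪 := R) B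
  have hsub : ∀ I J : MaximalSpectrum B, I = J := by
    intro I J
    by_contra hIJ
    obtain ⟨e, he⟩ := hbij.2 (Pi.single I 1)
    have heI : algebraMap B (Localization.AtPrime I.asIdeal) e = 1 := by
      have := congrFun he I
      simpa using this
    have heJ : algebraMap B (Localization.AtPrime J.asIdeal) e = 0 := by
      have := congrFun he J
      simpa [Pi.single_eq_of_ne (Ne.symm hIJ)] using this
    have hprod : e * (1 - e) = 0 := by
      apply hbij.1
      funext K
      by_cases hK : K = I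
      · subst hK
        simp [heI]
      · have : algebraMap B (Localization.AtPrime K.asIdeal) e = 0 := by
          have := congrFun he K
          simpa [Pi.single_eq_of_ne hK] using this
        simp [this]
    rcases mul_eq_zero.mp hprod with h0 | h1
    · rw [h0, map_zero] at heI
      exact zero_ne_one heI
    · have : e = 1 := (sub_eq_zero.mp h1).symm
      rw [this, map_one] at heJ
      exact one_ne_zero heJ
  obtain ⟨m, hm⟩ := Ideal.exists_maximal B
  refine IsLocalRing.of_unique_max_ideal ⟨m, hm, fun m' hm' => ?_⟩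
  exact congrArg MaximalSpectrum.asIdeal (hsub ⟨m', hm'⟩ ⟨m, hm⟩)

section Generic

variable (A F : Type) [CommRing A] [IsDomain A] [IsDiscreteValuationRing A]
  [IsAdicComplete (IsLocalRing.maximalIdeal A) A]
  [Field F] [CharZero F] [Algebra A F] [IsFractionRing A F]
  (L : Type) [Field L] [Algebra F L] [FiniteDimensional F L]
  [Algebra A L] [IsScalarTower A F L]

include F in
theorem lf0_finite : Module.Finite A (integralClosure A L) :=
  IsIntegralClosure.finite A F L _

include F in
theorem lf0_isDedekindDomain : IsDedekindDomain (integralClosure A L) :=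
  IsIntegralClosure.isDedekindDomain A F L _

include F in
theorem lf0_isFractionRing : IsFractionRing (integralClosure A L) L :=
  IsIntegralClosure.isFractionRing_of_finite_extension A F L _

include F in
theorem lf0_algebraMap_injective : Function.Injective (algebraMap A L) := by
  rw [IsScalarTower.algebraMap_eq A F L]
  exact (algebraMap F L).injective.comp (IsFractionRing.injective A F)

include F in
theorem lf0_isLocalRing : IsLocalRing (integralClosure A L) := by
  haveI := lf0_finite A F L
  exact isLocalRing_of_finite_of_complete A (integralClosure A L)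

include F in
theorem lf0_algebraMap_injective' :
    Function.Injective (algebraMap A (integralClosure A L)) := by
  intro x y hxy
  apply lf0_algebraMap_injective A F L
  have := congrArg (algebraMap (integralClosure A L) L) hxy
  simpa [← IsScalarTower.algebraMap_apply] using this

include F in
theorem lf0_not_isField : ¬ IsField (integralClosure A L) := by
  intro h
  have hA : IsField A :=
    isField_of_isIntegral_of_isField (lf0_algebraMap_injective' A F L) h
  exact IsDiscreteValuationRing.not_isField A hA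

include F in
theorem lf0_isDVR : IsDiscreteValuationRing (integralClosure A L) := by
  haveI := lf0_isLocalRing A F L
  haveI := lf0_isDedekindDomain A F L
  haveI : IsNoetherianRing (integralClosure A L) := IsDedekindRing.toIsNoetherian
  exact ((IsDiscreteValuationRing.TFAE (integralClosure A L) (lf0_not_isField A F L)).out 0 2).mpr
    (lf0_isDedekindDomain A F L)

include F in
theorem lf0_isLocalHom :
    haveI := lf0_isLocalRing A F L
    IsLocalHom (algebraMap A (integralClosure A L)) := by
  haveI : FaithfulSMul A (integralClosure A L) :=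
    (faithfulSMul_iff_algebraMap_injective _ _).mpr (lf0_algebraMap_injective' A F L)
  exact Algebra.IsIntegral.isLocalHom A (integralClosure A L)

include F in
theorem lf0_finite_residueField [Finite (ResidueField A)] :
    haveI := lf0_isLocalRing A F L
    Finite (ResidueField (integralClosure A L)) := by
  haveI := lf0_isLocalRing A F L
  haveI := lf0_isLocalHom A F L
  haveI := lf0_finite A F L
  exact IsLocalRing.ResidueField.finite_of_finite (R := A) inferInstance

include F in
theorem lf0_isAdicComplete :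
    haveI := lf0_isLocalRing A F L
    IsAdicComplete (maximalIdeal (integralClosure A L)) (integralClosure A L) := by
  haveI := lf0_isLocalRing A F L
  haveI := lf0_isLocalHom A F L
  haveI := lf0_finite A F L
  exact IsLocalRing.isAdicComplete_of_module_finite (𝒪 := A)

end Generic

end Fermat.Agent.S55.Local.H904

end
-- ===== PACK-END S55/Local/H904/Integers.lean

-- ===== PACK-BEGIN S55/H713/HerbrandSub.lean
section


/-!
# Herbrand quotient: a stable exact subgroup of finite index
-/

set_option autoImplicit false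
set_option linter.unusedSectionVars false

namespace Fermat.Agent.S55.H713

open Fermat.Agent.S55.Herbrand

variable {B : Type*} [AddCommGroup B]

/-- If `A ≤ B` is stable under `f, g`, the pairs `(f, g)` and `(g, f)` are exact on `A`, and
`B ⧸ A` is finite, then the Herbrand quotient of `B` is defined and equal to `1`. -/
theorem q_eq_one_of_exact_of_finite (f g : B →+ B)
    (hfg : ∀ b, f (g b) = 0) (hgf : ∀ b, g (f b) = 0) (A : AddSubgroup B)
    (hfA : ∀ a ∈ A, f a ∈ A) (hgA : ∀ a ∈ A, g a ∈ A)
    (hex1 : ∀ a ∈ A, f a = 0 → ∃ y ∈ A, g y = a)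
    (hex2 : ∀ a ∈ A, g a = 0 → ∃ y ∈ A, f y = a)
    [Finite (B ⧸ A)] : IsDefined f g ∧ q f g = 1 := by
  -- restricted maps
  let fA : A →+ A := (f.comp A.subtype).codRestrict A (fun a => hfA a a.2)
  let gA : A →+ A := (g.comp A.subtype).codRestrict A (fun a => hgA a a.2)
  -- induced maps
  let fC : B ⧸ A →+ B ⧸ A := QuotientAddGroup.map A A f (fun a ha => hfA a ha)
  let gC : B ⧸ A →+ B ⧸ A := QuotientAddGroup.map A A g (fun a ha => hgA a ha)
  have hi : Function.Injective A.subtype := A.subtype_injective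
  have hp : Function.Surjective (QuotientAddGroup.mk' A) := QuotientAddGroup.mk'_surjective A
  have hex : (QuotientAddGroup.mk' A).ker = A.subtype.range := by
    rw [QuotientAddGroup.ker_mk', AddSubgroup.range_subtype]
  have hif : ∀ a, A.subtype (fA a) = f (A.subtype a) := fun a => rfl
  have hig : ∀ a, A.subtype (gA a) = g (A.subtype a) := fun a => rfl
  have hpf : ∀ b, QuotientAddGroup.mk' A (f b) = fC (QuotientAddGroup.mk' A b) := fun b => rfl
  have hpg : ∀ b, QuotientAddGroup.mk' A (g b) = gC (QuotientAddGroup.mk' A b) := fun b => rfl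
  -- exactness on `A`
  have h1 : hIndex fA gA = 1 := by
    unfold hIndex
    rw [AddSubgroup.relIndex_eq_one]
    intro a ha
    obtain ⟨y, hy, hya⟩ := hex1 a a.2 (by
      have := AddMonoidHom.mem_ker.1 ha
      exact congrArg Subtype.val this)
    exact ⟨⟨y, hy⟩, Subtype.ext hya⟩
  have h2 : hIndex gA fA = 1 := by
    unfold hIndex
    rw [AddSubgroup.relIndex_eq_one]
    intro a ha
    obtain ⟨y, hy, hya⟩ := hex2 a a.2 (by
      have := AddMonoidHom.mem_ker.1 ha
      exact congrArg Subtype.val this)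
    exact ⟨⟨y, hy⟩, Subtype.ext hya⟩
  have hA : IsDefined fA gA := ⟨by rw [h1]; exact one_ne_zero, by rw [h2]; exact one_ne_zero⟩
  have hqA : q fA gA = 1 := by unfold q; rw [h1, h2]; simp
  have hfgC : ∀ c, fC (gC c) = 0 := by
    intro c
    obtain ⟨b, rfl⟩ := hp c
    rw [← hpg, ← hpf, hfg, map_zero]
  have hgfC : ∀ c, gC (fC c) = 0 := by
    intro c
    obtain ⟨b, rfl⟩ := hp c
    rw [← hpf, ← hpg, hgf, map_zero]
  have hC : IsDefined fC gC := isDefined_of_finite fC gC
  have hqC : q fC gC = 1 := q_eq_one_of_finite fC gC hfgC hgfC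
  refine ⟨isDefined_mid hfg hgf hi hp hex hif hig hpf hpg hA hC, ?_⟩
  rw [q_mul_of_exact hfg hgf hi hp hex hif hig hpf hpg hA hC, hqA, hqC, one_mul]

/-- The Herbrand quotient of `ℤ` with `f = 0`, `g = n`. -/
theorem q_int (n : ℕ) (hn : n ≠ 0) :
    IsDefined (0 : ℤ →+ ℤ) (n • AddMonoidHom.id ℤ) ∧
      q (0 : ℤ →+ ℤ) (n • AddMonoidHom.id ℤ) = n := by
  have hr : (n • AddMonoidHom.id ℤ).range = AddSubgroup.zmultiples (n : ℤ) := by
    ext x
    simp only [AddMonoidHom.mem_range, AddMonoidHom.smul_apply, AddMonoidHom.id_apply,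
      nsmul_eq_mul, Int.mem_zmultiples_iff]
    constructor
    · rintro ⟨y, rfl⟩; exact ⟨y, rfl⟩
    · rintro ⟨y, rfl⟩; exact ⟨y, rfl⟩
  have hk : (n • AddMonoidHom.id ℤ).ker = ⊥ := by
    ext x
    simp only [AddMonoidHom.mem_ker, AddMonoidHom.smul_apply, AddMonoidHom.id_apply,
      nsmul_eq_mul, AddSubgroup.mem_bot]
    constructor
    · intro h
      rcases mul_eq_zero.1 h with h | h
      · exact absurd (by exact_mod_cast h) hn
      · exact h
    · rintro rfl; simp
  have h1 : hIndex (0 : ℤ →+ ℤ) (n • AddMonoidHom.id ℤ) = n := by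
    unfold hIndex
    rw [hr, AddMonoidHom.ker_zero, AddSubgroup.relIndex_top_right, Int.index_zmultiples]
    simp
  have h2 : hIndex (n • AddMonoidHom.id ℤ) (0 : ℤ →+ ℤ) = 1 := by
    unfold hIndex
    rw [hk, AddSubgroup.relIndex_eq_one]
    exact bot_le
  refine ⟨⟨by rw [h1]; exact hn, by rw [h2]; exact one_ne_zero⟩, ?_⟩
  unfold q
  rw [h1, h2]; simp

end Fermat.Agent.S55.H713

end
-- ===== PACK-END S55/H713/HerbrandSub.lean

-- ===== PACK-BEGIN S55/G/DescH537/Div.lean
section
/-
S55, layer G, leaf G-DESC (Galois descent for the `S`-idèle class group), helper537.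
Part 2: base change of divisors prime to `S` and Galois-invariant divisors.

`K ⊂ L` number fields, `G` finite with `IsGaloisGroup G K L`.
* `belowOut S K L : PrimeOut S L → PrimeOut S K` (the prime below), surjective, finite fibres,
  fibres = `G`-orbits (`exists_primeOutMap_eq_of_belowOut_eq`);
* `eIdx K L w` the ramification index of `w` over `K`; `ordAt_unitsBC`;
* `divBC S K L : Div^S(K) →+ Div^S(L)`, `v ↦ ∑_{w | v} e(w|v) w`; `ordHom_unitsBC`,
  `divBC_injective`, `divRepr_divBC`;
* `exists_divBC_eq_of_invariant` : if `L/K` is unramified outside `S` then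
  `Div^S(L)^G = Div^S(K)`.
-/




set_option autoImplicit false
set_option linter.unusedSectionVars false

open scoped NumberField
open IsDedekindDomain

noncomputable section

namespace Fermat.Agent.S55.G.DescH537

section Below

variable (S : Finset Nat.Primes) (G K L : Type) [Group G] [Field K] [Field L]
  [NumberField K] [NumberField L] [Algebra K L] [MulSemiringAction G L]

/-- The prime of `K` below a prime of `L`. -/
def below (w : HeightOneSpectrum (𝓞 L)) : HeightOneSpectrum (𝓞 K) := w.under (𝓞 K)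

lemma below_asIdeal (w : HeightOneSpectrum (𝓞 L)) :
    (below K L w).asIdeal = w.asIdeal.under (𝓞 K) := rfl

instance liesOver_below (w : HeightOneSpectrum (𝓞 L)) :
    w.asIdeal.LiesOver (below K L w).asIdeal := ⟨rfl⟩

lemma isAbove_below_iff (w : HeightOneSpectrum (𝓞 L)) :
    IsAbove S K (below K L w) ↔ IsAbove S L w := by
  unfold IsAbove
  refine exists_congr fun q => and_congr_right fun _ => ?_
  rw [below_asIdeal, Ideal.under_def, Ideal.mem_comap, map_natCast]

/-- The prime of `K` below a prime of `L` not above `S`. -/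
def belowOut (w : PrimeOut S L) : PrimeOut S K :=
  ⟨below K L w.1, fun h => w.2 ((isAbove_below_iff S K L w.1).1 h)⟩

lemma belowOut_val (w : PrimeOut S L) : (belowOut S K L w).1 = below K L w.1 := rfl

lemma belowOut_surjective : Function.Surjective (belowOut S K L) := by
  rintro ⟨v, hv⟩
  obtain ⟨P, hP, hPv⟩ := Ideal.exists_ideal_over_prime_of_isIntegral_of_isDomain (S := 𝓞 L)
    v.asIdeal (by simp)
  have hP0 : P ≠ ⊥ := by
    rintro rfl
    apply v.ne_bot
    rw [← hPv]
    exact Ideal.comap_bot_of_injective _ (FaithfulSMul.algebraMap_injective (𝓞 K) (𝓞 L))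
  let w : HeightOneSpectrum (𝓞 L) := ⟨P, hP, hP0⟩
  have hwv : below K L w = v := HeightOneSpectrum.ext hPv
  exact ⟨⟨w, fun h => hv (hwv ▸ (isAbove_below_iff S K L w).2 h)⟩, Subtype.ext hwv⟩

lemma finite_fiber_belowOut (v : PrimeOut S K) : {w : PrimeOut S L | belowOut S K L w = v}.Finite := by
  have hfin := IsDedekindDomain.primesOver_finite v.1.asIdeal (𝓞 L)
  have hinj : Function.Injective (fun w : PrimeOut S L => w.1.asIdeal) := fun a b h =>
    Subtype.ext (HeightOneSpectrum.ext h)
  refine Set.Finite.of_finite_image (hfin.subset ?_) hinj.injOn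
  rintro _ ⟨w, hw, rfl⟩
  refine ⟨w.1.isPrime, ⟨?_⟩⟩
  have : (belowOut S K L w).1 = v.1 := congrArg Subtype.val hw
  rw [← this]
  rfl

variable [IsGaloisGroup G K L]

lemma below_primeSMul (g : G) (w : HeightOneSpectrum (𝓞 L)) :
    below K L (primeSMul G g w) = below K L w :=
  HeightOneSpectrum.ext (Ideal.under_smul (𝓞 K) w.asIdeal g)

lemma belowOut_primeOutMap (g : G) (w : PrimeOut S L) :
    belowOut S K L (primeOutMap S G L g w) = belowOut S K L w :=
  Subtype.ext (below_primeSMul G K L g w.1)

variable [Finite G]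

/-- The fibres of `belowOut` are `G`-orbits. -/
lemma exists_primeOutMap_eq_of_belowOut_eq (w w' : PrimeOut S L)
    (h : belowOut S K L w = belowOut S K L w') : ∃ g : G, primeOutMap S G L g w = w' := by
  have h' : w.1.asIdeal.under (𝓞 K) = w'.1.asIdeal.under (𝓞 K) :=
    congrArg (fun v : PrimeOut S K => v.1.asIdeal) h
  have := w.1.isPrime
  have := w'.1.isPrime
  obtain ⟨g, hg⟩ := Algebra.IsInvariant.exists_smul_of_under_eq (𝓞 K) (𝓞 L) G
    w.1.asIdeal w'.1.asIdeal h'
  exact ⟨g, Subtype.ext (HeightOneSpectrum.ext hg.symm)⟩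

end Below

section Ord

variable (S : Finset Nat.Primes) (G K L : Type) [Group G] [Field K] [Field L]
  [NumberField K] [NumberField L] [Algebra K L] [MulSemiringAction G L]

/-- The ramification index of the prime `w` of `L` over `K`. -/
def eIdx (w : HeightOneSpectrum (𝓞 L)) : ℕ :=
  (below K L w).asIdeal.ramificationIdx' w.asIdeal

lemma eIdx_ne_zero (w : HeightOneSpectrum (𝓞 L)) : eIdx K L w ≠ 0 :=
  Ideal.IsDedekindDomain.ramificationIdx'_ne_zero_of_liesOver w.asIdeal (below K L w).ne_bot

/-- `ord_w(x) = e(w|v) ord_v(x)` for `x ∈ Kˣ`. -/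
lemma ordAt_unitsBC (w : HeightOneSpectrum (𝓞 L)) (x : Additive Kˣ) :
    ordAt w (unitsBC K L x) = eIdx K L w * ordAt (below K L w) x := by
  rw [ordAt_apply, ordAt_apply, coe_unitsBC_apply,
    ← HeightOneSpectrum.valuation_liesOver L (below K L w) w, WithZero.log_pow]
  simp only [eIdx, nsmul_eq_mul, mul_neg]

variable [IsGaloisGroup G K L]

/-- The ramification index is constant on Galois orbits. -/
lemma eIdx_primeSMul (g : G) (w : HeightOneSpectrum (𝓞 L)) :
    eIdx K L (primeSMul G g w) = eIdx K L w := by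
  obtain ⟨π, hπ⟩ := HeightOneSpectrum.valuation_exists_uniformizer K (below K L w)
  have hπ0 : π ≠ 0 := by
    rintro rfl
    rw [map_zero] at hπ
    exact WithZero.exp_ne_zero hπ.symm
  let x : Additive Kˣ := Additive.ofMul (Units.mk0 π hπ0)
  have hx : ordAt (below K L w) x = 1 := by
    rw [ordAt_apply]
    change -WithZero.log ((below K L w).valuation K π) = 1
    rw [hπ]
    simp
  have h1 := ordAt_unitsBC K L w x
  have h2 := ordAt_unitsBC K L (primeSMul G g w) x
  rw [below_primeSMul, hx, mul_one] at h2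
  rw [hx, mul_one] at h1
  have h3 : ordAt (primeSMul G g w) (unitsBC K L x) = ordAt w (unitsBC K L x) := by
    conv_lhs => rw [← lRepr_unitsBC G K L g x]
    exact ordAt_primeSMul G g w _
  exact_mod_cast (h2.symm.trans (h3.trans h1))

end Ord

section DivBC

variable (S : Finset Nat.Primes) (G K L : Type) [Group G] [Field K] [Field L]
  [NumberField K] [NumberField L] [Algebra K L] [MulSemiringAction G L]

lemma finite_support_divBC (d : PrimeOut S K →₀ ℤ) :
    (Function.support fun w : PrimeOut S L =>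
      (eIdx K L w.1 : ℤ) * d (belowOut S K L w)).Finite := by
  have hsub : (Function.support fun w : PrimeOut S L =>
      (eIdx K L w.1 : ℤ) * d (belowOut S K L w)) ⊆
      ⋃ v ∈ d.support, {w : PrimeOut S L | belowOut S K L w = v} := by
    intro w hw
    simp only [Function.mem_support, ne_eq, mul_eq_zero, not_or] at hw
    simp only [Set.mem_iUnion]
    exact ⟨belowOut S K L w, Finsupp.mem_support_iff.2 hw.2, rfl⟩
  exact (Set.Finite.biUnion d.support.finite_toSet
    (fun v _ => finite_fiber_belowOut S K L v)).subset hsub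

/-- Base change of divisors prime to `S`: `v ↦ ∑_{w | v} e(w|v) w`, i.e.
`(divBC d) w = e(w) * d (w ∩ K)`. -/
def divBC : (PrimeOut S K →₀ ℤ) →+ (PrimeOut S L →₀ ℤ) where
  toFun d := Finsupp.ofSupportFinite _ (finite_support_divBC S K L d)
  map_zero' := by
    ext w
    simp [Finsupp.ofSupportFinite_coe]
  map_add' a b := by
    ext w
    simp [Finsupp.ofSupportFinite_coe, mul_add]

@[simp] lemma divBC_apply (d : PrimeOut S K →₀ ℤ) (w : PrimeOut S L) :
    divBC S K L d w = eIdx K L w.1 * d (belowOut S K L w) := rfl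

/-- Compatibility of the divisor maps with base change. -/
lemma ordHom_unitsBC (x : Additive Kˣ) :
    ordHom S L (unitsBC K L x) = divBC S K L (ordHom S K x) := by
  ext w
  rw [ordHom_apply, divBC_apply, ordHom_apply, ordAt_unitsBC]
  rfl

lemma divBC_injective : Function.Injective (divBC S K L) := by
  rw [injective_iff_map_eq_zero]
  intro d hd
  ext v
  obtain ⟨w, rfl⟩ := belowOut_surjective S K L v
  have := DFunLike.congr_fun hd w
  rw [divBC_apply] at this
  simpa [eIdx_ne_zero] using this

variable [IsGaloisGroup G K L]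

/-- The image of base change consists of Galois-invariant divisors. -/
lemma divRepr_divBC (g : G) (d : PrimeOut S K →₀ ℤ) :
    divRepr S G L g (divBC S K L d) = divBC S K L d := by
  ext w
  have hw : w = primeOutMap S G L g (primeOutMap S G L g⁻¹ w) := by
    rw [← primeOutMap_mul, mul_inv_cancel, primeOutMap_one]
  rw [hw, divRepr_apply_apply, divBC_apply, divBC_apply]
  simp only [belowOut_primeOutMap, primeOutMap_val, eIdx_primeSMul]

variable [Finite G]

/-- **Galois-invariant divisors.** If `L/K` is unramified outside `S`, every `G`-invariant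
divisor of `L` prime to `S` comes from `K`. -/
theorem exists_divBC_eq_of_invariant (hunr : ∀ w : PrimeOut S L, eIdx K L w.1 = 1)
    (d : PrimeOut S L →₀ ℤ) (hd : ∀ g : G, divRepr S G L g d = d) :
    ∃ d' : PrimeOut S K →₀ ℤ, divBC S K L d' = d := by
  classical
  have hinv : ∀ (g : G) (w : PrimeOut S L), d (primeOutMap S G L g w) = d w := by
    intro g w
    conv_lhs => rw [← hd g]
    exact divRepr_apply_apply S G L g d w
  let σ : PrimeOut S K → PrimeOut S L := fun v => (belowOut_surjective S K L v).choose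
  have hσ : ∀ v, belowOut S K L (σ v) = v := fun v => (belowOut_surjective S K L v).choose_spec
  have hfin : (Function.support fun v => d (σ v)).Finite := by
    refine (d.support.finite_toSet.image (belowOut S K L)).subset ?_
    intro v hv
    exact ⟨σ v, Finsupp.mem_support_iff.2 hv, hσ v⟩
  refine ⟨Finsupp.ofSupportFinite _ hfin, ?_⟩
  ext w
  rw [divBC_apply, hunr w, Nat.cast_one, one_mul, Finsupp.ofSupportFinite_coe]
  obtain ⟨g, hg⟩ := exists_primeOutMap_eq_of_belowOut_eq S G K L (σ (belowOut S K L w)) w (hσ _)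
  conv_rhs => rw [← hg]
  exact (hinv g _).symm

end DivBC

end Fermat.Agent.S55.G.DescH537

end
end
-- ===== PACK-END S55/G/DescH537/Div.lean

-- ===== PACK-BEGIN S55/H893/Kummer.lean
section


/-!
# S55, global leaf KUM (helper893): Kummer extensions stay unramified outside `S`

Everything is stated in the Prelude's language (`IntermediateField.IsUnramifiedOutside`,
valuation subrings of `ℚ̄`, `inertiaSubgroupIn`).

* `val_natCast_eq_one_of_coprime` : an integer prime to the residue characteristic is a unit.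
* `kummer_fixed_of_mem_inertia` : the local core. If `σ` lies in the inertia group of a place
  `A` of residue characteristic `q ∤ n`, `σ` fixes `β ^ n` and `t`, and `v(β) = v(t)`, then
  `σ β = β`.
* `isUnramifiedOutside_sup_adjoin_root` (**KUM**) : if `F` is unramified outside `S`, all prime
  factors of `n` lie in `S`, `β ^ n ∈ F`, and at every place outside `S` the valuation of `β` is the
  valuation of an element of `F`, then `F(β)` is unramified outside `S`.
* `isUnramifiedOutside_sup_adjoin_root_of_unit` : the case of `S`-units (`E_S` is `n`-divisible).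
-/

set_option autoImplicit false
set_option linter.style.haveILetI false

namespace Fermat.Agent.S55.H893

open IntermediateField Fermat.Agent.S55.Bridge

section local_core

variable {A : ValuationSubring (AlgebraicClosure ℚ)}

/-- An integer prime to the residue characteristic is a unit at `A`. -/
theorem val_natCast_eq_one_of_coprime {q n : ℕ} (hq : A.LiesOverPrime q)
    (hcop : Nat.Coprime q n) : A.valuation (n : AlgebraicClosure ℚ) = 1 := by
  have hq' : A.valuation (q : AlgebraicClosure ℚ) < 1 := (A.mem_nonunits_iff).mp hq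
  have hcop' : IsCoprime (q : ℤ) (n : ℤ) := by
    rw [Int.isCoprime_iff_gcd_eq_one, Int.gcd_natCast_natCast]
    exact hcop
  obtain ⟨u, w, huw⟩ := hcop'
  have h1 : (u : AlgebraicClosure ℚ) * (q : AlgebraicClosure ℚ)
      + (w : AlgebraicClosure ℚ) * (n : AlgebraicClosure ℚ) = 1 := by
    exact_mod_cast congrArg (Int.cast : ℤ → AlgebraicClosure ℚ) huw
  have hsmall : A.valuation ((u : AlgebraicClosure ℚ) * (q : AlgebraicClosure ℚ)) < 1 := by
    rw [map_mul]
    exact (mul_le_of_le_one_left' (val_intCast_le_one u)).trans_lt hq'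
  have hwn : A.valuation ((w : AlgebraicClosure ℚ) * (n : AlgebraicClosure ℚ)) = 1 := by
    have : (w : AlgebraicClosure ℚ) * (n : AlgebraicClosure ℚ)
        = 1 + -((u : AlgebraicClosure ℚ) * (q : AlgebraicClosure ℚ)) := by linear_combination h1
    rw [this, (A.valuation).map_add_eq_of_lt_left
      (by rw [Valuation.map_neg, map_one]; exact hsmall), map_one]
  rw [map_mul] at hwn
  have hp1 : A.valuation (n : AlgebraicClosure ℚ) ≤ 1 := by
    have := val_intCast_le_one (A := A) (n : ℤ)
    rwa [Int.cast_natCast] at this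
  refine le_antisymm hp1 ?_
  calc (1 : A.ValueGroup)
      = A.valuation (w : AlgebraicClosure ℚ) * A.valuation (n : AlgebraicClosure ℚ) := hwn.symm
    _ ≤ 1 * A.valuation (n : AlgebraicClosure ℚ) := mul_le_mul_left (val_intCast_le_one w) _
    _ = A.valuation (n : AlgebraicClosure ℚ) := one_mul _

/-- **Local core of KUM.** Inertia at a place of residue characteristic prime to `n` fixes an
`n`-th root `β` of a fixed element, as soon as the valuation of `β` is attained by a fixed
element. -/
theorem kummer_fixed_of_mem_inertia {n : ℕ} (hn0 : n ≠ 0)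
    (hnv : A.valuation (n : AlgebraicClosure ℚ) = 1)
    {σ : AlgebraicClosure ℚ ≃ₐ[ℚ] AlgebraicClosure ℚ} (hσ : σ ∈ A.inertiaSubgroupIn ℚ)
    {β t : AlgebraicClosure ℚ} (hβ : σ (β ^ n) = β ^ n) (ht : σ t = t)
    (hv : A.valuation β = A.valuation t) : σ β = β := by
  by_cases hβ0 : β = 0
  · rw [hβ0, map_zero]
  have ht0 : t ≠ 0 := by
    intro h
    rw [h, map_zero] at hv
    exact hβ0 ((map_eq_zero _).1 hv)
  by_contra hne
  -- `ζ = σ β / β` is a nontrivial `n`-th root of unity
  have hζ : (σ β / β) ^ n = 1 := by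
    rw [div_pow, ← map_pow, hβ, div_self (pow_ne_zero n hβ0)]
  have hζ1 : σ β / β ≠ 1 := fun h => hne ((div_eq_one_iff_eq hβ0).1 h)
  have h1 : A.valuation (σ β / β - 1) = 1 :=
    val_sub_roots_eq_one (A := A) hn0 hnv hζ (one_pow n) hζ1
  -- `u = β / t` is a unit, so `σ u - u` is small
  have hu : A.valuation (β / t) ≤ 1 := by
    rw [map_div₀, hv, div_self ((map_ne_zero _).2 ht0)]
  have h2 := inertia_val_sub_lt_one A hσ (β / t) hu
  have h3 : σ (β / t) - β / t = (β / t) * (σ β / β - 1) := by
    rw [map_div₀, ht]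
    field_simp
  rw [h3, map_mul, h1, mul_one, map_div₀, hv, div_self ((map_ne_zero _).2 ht0)] at h2
  exact lt_irrefl _ h2

end local_core

section global

variable {S : Finset Nat.Primes}

/-- If every prime factor of `n` lies in `S` and `q ∉ S`, then `n` is a unit at places over `q`. -/
theorem val_natCast_eq_one_of_primeFactors_mem {n : ℕ}
    (hn : ∀ ℓ : Nat.Primes, (ℓ : ℕ) ∣ n → ℓ ∈ S) {q : Nat.Primes} (hq : q ∉ S)
    {A : ValuationSubring (AlgebraicClosure ℚ)} (hA : A.LiesOverPrime (q : ℕ)) :
    A.valuation (n : AlgebraicClosure ℚ) = 1 := by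
  apply val_natCast_eq_one_of_coprime hA
  rw [Nat.Prime.coprime_iff_not_dvd q.2]
  exact fun hdvd => hq (hn q hdvd)

/-- **KUM.** Let `F` be unramified outside `S`, `n ≠ 0` with all prime factors in `S`, and
`β ∈ ℚ̄` with `β ^ n ∈ F` such that at every place `A` of `ℚ̄` over a prime `q ∉ S` the valuation of
`β` is the valuation of an element of `F` (i.e. the principal ideal `(β ^ n)` is locally an
`n`-th power outside `S`). Then `F(β)` is unramified outside `S`. -/
theorem isUnramifiedOutside_sup_adjoin_root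
    {F : IntermediateField ℚ (AlgebraicClosure ℚ)} (hF : F.IsUnramifiedOutside S)
    {n : ℕ} (hn0 : n ≠ 0) (hn : ∀ ℓ : Nat.Primes, (ℓ : ℕ) ∣ n → ℓ ∈ S)
    {β : AlgebraicClosure ℚ} (hβ : β ^ n ∈ F)
    (hloc : ∀ q : Nat.Primes, q ∉ S → ∀ A : ValuationSubring (AlgebraicClosure ℚ),
      A.LiesOverPrime (q : ℕ) → ∃ t ∈ F, A.valuation β = A.valuation t) :
    (F ⊔ ℚ⟮β⟯).IsUnramifiedOutside S := by
  haveI := hF.1
  haveI : FiniteDimensional ℚ ℚ⟮β⟯ :=
    IntermediateField.adjoin.finiteDimensional
      ((AlgebraicClosure.isAlgebraic ℚ).isIntegral.isIntegral β)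
  refine ⟨IntermediateField.finiteDimensional_sup F ℚ⟮β⟯, fun q hq A hA σ hσ => ?_⟩
  have hσF : σ ∈ F.fixingSubgroup := hF.2 q hq A hA hσ
  rw [IntermediateField.fixingSubgroup_sup]
  refine ⟨hσF, ?_⟩
  show σ ∈ ℚ⟮β⟯.fixingSubgroup
  obtain ⟨t, htF, hv⟩ := hloc q hq A hA
  have hfixF : ∀ x ∈ F, σ x = x := fun x hx =>
    (IntermediateField.mem_fixingSubgroup_iff F σ).1 hσF x hx
  have hσβ : σ β = β :=
    kummer_fixed_of_mem_inertia hn0 (val_natCast_eq_one_of_primeFactors_mem hn hq hA) hσ
      (hfixF _ hβ) (hfixF _ htF) hv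
  rw [IntermediateField.mem_fixingSubgroup_iff]
  intro x hx
  -- `x ∈ ℚ⟮β⟯` is fixed by `σ` as `β` is
  have hle : ℚ⟮β⟯ ≤ IntermediateField.fixedField (Subgroup.zpowers σ) := by
    rw [IntermediateField.adjoin_simple_le_iff]
    rintro ⟨τ, hτ⟩
    obtain ⟨k, rfl⟩ := Subgroup.mem_zpowers_iff.1 hτ
    show (σ ^ k) • β = β
    have hstab : σ ∈ MulAction.stabilizer (AlgebraicClosure ℚ ≃ₐ[ℚ] AlgebraicClosure ℚ) β :=
      MulAction.mem_stabilizer_iff.2 hσβ
    exact MulAction.mem_stabilizer_iff.1 (Subgroup.zpow_mem _ hstab k)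
  have := hle hx
  exact this ⟨σ, Subgroup.mem_zpowers σ⟩

/-- **`E_S` is `n`-divisible.** If `β ^ n ∈ F` is a unit at all places outside `S`, then `F(β)` is
unramified outside `S`. -/
theorem isUnramifiedOutside_sup_adjoin_root_of_unit
    {F : IntermediateField ℚ (AlgebraicClosure ℚ)} (hF : F.IsUnramifiedOutside S)
    {n : ℕ} (hn0 : n ≠ 0) (hn : ∀ ℓ : Nat.Primes, (ℓ : ℕ) ∣ n → ℓ ∈ S)
    {β : AlgebraicClosure ℚ} (hβ : β ^ n ∈ F)
    (hunit : ∀ q : Nat.Primes, q ∉ S → ∀ A : ValuationSubring (AlgebraicClosure ℚ),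
      A.LiesOverPrime (q : ℕ) → A.valuation (β ^ n) = 1) :
    (F ⊔ ℚ⟮β⟯).IsUnramifiedOutside S := by
  refine isUnramifiedOutside_sup_adjoin_root hF hn0 hn hβ (fun q hq A hA => ⟨1, F.one_mem, ?_⟩)
  have h := hunit q hq A hA
  rw [map_pow] at h
  rw [map_one]
  exact (pow_eq_one_iff.1 h).resolve_right hn0

end global

end Fermat.Agent.S55.H893

end
-- ===== PACK-END S55/H893/Kummer.lean

-- ===== PACK-BEGIN S55/G/DescH773/Descent.lean
section
/-
S55 (Poitou–Tate), layer G, leaf G-DESC (helper773): Galois descent for the `S`-idèle class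
group.  For a finite Galois extension `L/K` of number fields with group `G`
(`IsGaloisGroup G K L`), `S ≠ ∅`, and `L/K` unramified outside `S`:

  `cBase S K L : C_S(K) → C_S(L)` is injective with image `C_S(L)^G`.

Ingredients: Hilbert 90, `(L ⊗ ℚ_S)^G = K ⊗ ℚ_S` (averaging), transitivity of `G` on the primes
above a prime of `K`.
-/


set_option autoImplicit false
set_option linter.unusedSectionVars false
set_option linter.style.haveILetI false

open scoped NumberField TensorProduct Pointwise
open IsDedekindDomain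

noncomputable section

namespace Fermat.Agent.S55.G.DescH773

open Fermat.Agent.S55.G

/-! ## 1. Averaging over `G` -/

section Average

variable (S : Finset Nat.Primes) (G K L : Type) [Group G] [Finite G] [Field K] [CharZero K]
  [Field L] [CharZero L] [Algebra K L] [MulSemiringAction G L] [IsGaloisGroup G K L]

/-- The averaging operator `x ↦ |G|⁻¹ ∑_g g x` on `L`. -/
def avgL : L →ₗ[ℚ] L :=
  letI := Fintype.ofFinite G
  (Nat.card G : ℚ)⁻¹ • ∑ g : G, (fieldAut G L g).toLinearMap

lemma avgL_apply [Fintype G] (x : L) :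
    avgL G L x = (Nat.card G : ℚ)⁻¹ • ∑ g : G, g • x := by
  unfold avgL
  rw [LinearMap.smul_apply, LinearMap.sum_apply]
  congr 1
  refine Finset.sum_congr (by ext; simp) fun g _ => rfl

lemma card_ne_zero : (Nat.card G : ℚ) ≠ 0 := by
  exact_mod_cast (Nat.card_pos (α := G)).ne'

lemma smul_avgL (g : G) (x : L) : g • avgL G L x = avgL G L x := by
  let _ := Fintype.ofFinite G
  rw [avgL_apply, smul_comm, Finset.smul_sum]
  congr 1
  simp only [smul_smul]
  exact Fintype.sum_bijective (fun h => g * h) (Group.mulLeft_bijective g) _ _ (fun _ => rfl)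

lemma avgL_of_fixed (x : L) (hx : ∀ g : G, g • x = x) : avgL G L x = x := by
  let _ := Fintype.ofFinite G
  rw [avgL_apply]
  simp only [hx, Finset.sum_const, Finset.card_univ, ← Nat.card_eq_fintype_card]
  rw [← Nat.cast_smul_eq_nsmul ℚ, smul_smul, inv_mul_cancel₀ (card_ne_zero G), one_smul]

lemma avgL_algebraMap (k : K) : avgL G L (algebraMap K L k) = algebraMap K L k := by
  have := IsGaloisGroup.commutes (G := G) (A := K) (B := L)
  exact avgL_of_fixed G L _ fun g => smul_algebraMap g k

lemma exists_algebraMap_eq_avgL (x : L) : ∃ k : K, algebraMap K L k = avgL G L x :=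
  (IsGaloisGroup.isInvariant (G := G) (A := K) (B := L)).isInvariant _ (fun g => smul_avgL G L g x)

lemma exists_algebraMap_eq_of_fixed (x : L) (hx : ∀ g : G, g • x = x) :
    ∃ k : K, algebraMap K L k = x :=
  (IsGaloisGroup.isInvariant (G := G) (A := K) (B := L)).isInvariant _ hx

/-- A `ℚ`-linear retraction `L → K` of the inclusion (the normalised trace). -/
def retrL : L →ₗ[ℚ] K :=
  (LinearEquiv.ofInjective (fieldBase K L).toLinearMap (algebraMap K L).injective).symm.toLinearMap ∘ₗ
    (avgL G L).codRestrict (LinearMap.range (fieldBase K L).toLinearMap) (fun x => by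
      obtain ⟨k, hk⟩ := exists_algebraMap_eq_avgL G K L x
      exact ⟨k, hk⟩)

lemma algebraMap_retrL (x : L) : algebraMap K L (retrL G K L x) = avgL G L x := by
  unfold retrL
  have := LinearEquiv.apply_symm_apply
    (LinearEquiv.ofInjective (fieldBase K L).toLinearMap (algebraMap K L).injective)
    ((avgL G L).codRestrict (LinearMap.range (fieldBase K L).toLinearMap) (fun x => by
      obtain ⟨k, hk⟩ := exists_algebraMap_eq_avgL G K L x
      exact ⟨k, hk⟩) x)
  exact congrArg Subtype.val this

lemma fieldBase_comp_retrL :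
    (fieldBase K L).toLinearMap ∘ₗ retrL G K L = avgL G L :=
  LinearMap.ext fun x => algebraMap_retrL G K L x

lemma retrL_comp_fieldBase :
    retrL G K L ∘ₗ (fieldBase K L).toLinearMap = LinearMap.id := by
  refine LinearMap.ext fun k => (algebraMap K L).injective ?_
  change algebraMap K L (retrL G K L (algebraMap K L k)) = algebraMap K L k
  rw [algebraMap_retrL, avgL_algebraMap]

end Average

/-! ## 2. Invariants of `L ⊗ ℚ_S` and of the `S`-idèles -/

section Tensor

variable (S : Finset Nat.Primes) (G K L : Type) [Group G] [Finite G] [Field K] [CharZero K]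
  [Field L] [CharZero L] [Algebra K L] [MulSemiringAction G L] [IsGaloisGroup G K L]

lemma asAut_toLinearMap (g : G) :
    (asAut S G L g).toLinearMap = LinearMap.rTensor (QS S) (fieldAut G L g).toLinearMap := by
  ext x y
  simp

lemma asBase_toLinearMap :
    (asBase S K L).toLinearMap = LinearMap.rTensor (QS S) (fieldBase K L).toLinearMap := by
  ext x y
  simp

lemma rTensor_avgL_of_fixed (t : AS S L) (ht : ∀ g : G, asAut S G L g t = t) :
    LinearMap.rTensor (QS S) (avgL G L) t = t := by
  letI := Fintype.ofFinite G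
  have h1 : LinearMap.rTensor (QS S) (avgL G L) =
      (Nat.card G : ℚ)⁻¹ • ∑ g : G, (asAut S G L g).toLinearMap := by
    refine TensorProduct.ext' fun x y => ?_
    rw [LinearMap.rTensor_tmul, avgL_apply, LinearMap.smul_apply, LinearMap.sum_apply,
      ← TensorProduct.smul_tmul', TensorProduct.sum_tmul]
    simp
  rw [h1, LinearMap.smul_apply, LinearMap.sum_apply]
  simp only [AlgEquiv.toLinearMap_apply, ht, Finset.sum_const, Finset.card_univ,
    ← Nat.card_eq_fintype_card]
  rw [← Nat.cast_smul_eq_nsmul ℚ, smul_smul, inv_mul_cancel₀ (card_ne_zero G), one_smul]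

include G in
lemma asBase_injective : Function.Injective (asBase S K L) := by
  have h : LinearMap.rTensor (QS S) (retrL G K L) ∘ₗ (asBase S K L).toLinearMap =
      LinearMap.id := by
    rw [asBase_toLinearMap, ← LinearMap.rTensor_comp, retrL_comp_fieldBase, LinearMap.rTensor_id]
  exact Function.LeftInverse.injective (g := LinearMap.rTensor (QS S) (retrL G K L))
    fun x => LinearMap.congr_fun h x

lemma exists_asBase_eq_of_fixed (t : AS S L) (ht : ∀ g : G, asAut S G L g t = t) :
    ∃ s : AS S K, asBase S K L s = t := by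
  refine ⟨LinearMap.rTensor (QS S) (retrL G K L) t, ?_⟩
  have h : (asBase S K L).toLinearMap ∘ₗ LinearMap.rTensor (QS S) (retrL G K L) =
      LinearMap.rTensor (QS S) (avgL G L) := by
    rw [asBase_toLinearMap, ← LinearMap.rTensor_comp, fieldBase_comp_retrL]
  exact (LinearMap.congr_fun h t).trans (rTensor_avgL_of_fixed S G L t ht)

lemma asAut_asBase (g : G) (s : AS S K) : asAut S G L g (asBase S K L s) = asBase S K L s := by
  have := IsGaloisGroup.commutes (G := G) (A := K) (B := L)
  induction s using TensorProduct.induction_on with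
  | zero => simp
  | tmul a b => simp [smul_algebraMap]
  | add a b ha hb => simp only [map_add, ha, hb]

/-- `(L ⊗ ℚ_S)^G = K ⊗ ℚ_S`. -/
lemma mem_range_asBase_iff (t : AS S L) :
    (∃ s : AS S K, asBase S K L s = t) ↔ ∀ g : G, asAut S G L g t = t :=
  ⟨by rintro ⟨s, rfl⟩ g; exact asAut_asBase S G K L g s, exists_asBase_eq_of_fixed S G K L t⟩

/-- `J_S(L)^G = J_S(K)`. -/
lemma exists_jBase_eq_of_fixed (u : Additive (AS S L)ˣ) (hu : ∀ g : G, jRepr G S L g u = u) :
    ∃ u' : Additive (AS S K)ˣ, jBase S K L u' = u := by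
  have h1 : ∀ g : G, asAut S G L g ((u.toMul : (AS S L)ˣ) : AS S L) = (u.toMul : (AS S L)ˣ) := by
    intro g
    rw [← coe_jRepr_apply, hu g]
  have h2 : ∀ g : G, asAut S G L g (((u.toMul)⁻¹ : (AS S L)ˣ) : AS S L) =
      ((u.toMul)⁻¹ : (AS S L)ˣ) := by
    intro g
    have := hu g
    have h3 : jRepr G S L g (-u) = -u := by rw [map_neg, hu g]
    have := coe_jRepr_apply G S L g (-u)
    rw [h3] at this
    exact this.symm
  obtain ⟨s, hs⟩ := exists_asBase_eq_of_fixed S G K L _ h1
  obtain ⟨s', hs'⟩ := exists_asBase_eq_of_fixed S G K L _ h2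
  have hss' : s * s' = 1 := by
    apply asBase_injective S G K L
    rw [map_mul, hs, hs', map_one, Units.mul_inv]
  refine ⟨Additive.ofMul (Units.mkOfMulEqOne s s' hss'), ?_⟩
  apply Additive.toMul.injective
  apply Units.ext
  rw [coe_jBase_apply]
  exact hs

lemma jRepr_jBase (g : G) (u : Additive (AS S K)ˣ) :
    jRepr G S L g (jBase S K L u) = jBase S K L u := by
  apply Additive.toMul.injective
  apply Units.ext
  rw [coe_jRepr_apply, coe_jBase_apply, asAut_asBase]

include G in
lemma jBase_injective : Function.Injective (jBase S K L) := by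
  intro x y h
  apply Additive.toMul.injective
  apply Units.ext
  apply asBase_injective S G K L
  have := congrArg (fun z : Additive (AS S L)ˣ => ((z.toMul : (AS S L)ˣ) : AS S L)) h
  simpa only [coe_jBase_apply] using this

end Tensor

/-! ## 3. Invariants of the divisors -/

section Div

variable (S : Finset Nat.Primes) (G K L : Type) [Group G] [Finite G] [Field K] [NumberField K]
  [Field L] [NumberField L] [Algebra K L] [MulSemiringAction G L] [IsGaloisGroup G K L]

variable {L} in
lemma primeUnder_primeSMul (g : G) (w : HeightOneSpectrum (𝓞 L)) :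
    primeUnder K (primeSMul G g w) = primeUnder K w := by
  apply HeightOneSpectrum.ext
  have := IsGaloisGroup.commutes (G := G) (A := 𝓞 K) (B := 𝓞 L)
  ext x
  rw [mem_primeUnder_iff, mem_primeUnder_iff, mem_primeSMul_iff, smul_algebraMap]

lemma primeOutUnder_primeOutMap (g : G) (w : PrimeOut S L) :
    primeOutUnder S K L (primeOutMap S G L g w) = primeOutUnder S K L w :=
  Subtype.ext (primeUnder_primeSMul G K g w.1)

variable {L} in
/-- `G` acts transitively on the primes of `L` above a prime of `K`. -/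
lemma exists_primeSMul_eq (w w' : HeightOneSpectrum (𝓞 L))
    (h : primeUnder K w = primeUnder K w') : ∃ g : G, primeSMul G g w = w' := by
  haveI : w'.asIdeal.LiesOver (primeUnder K w).asIdeal := by rw [h]; infer_instance
  obtain ⟨g, hg⟩ := Ideal.exists_smul_eq_of_isGaloisGroup (primeUnder K w).asIdeal
    w.asIdeal w'.asIdeal G
  exact ⟨g, HeightOneSpectrum.ext hg⟩

lemma exists_primeOutMap_eq (w w' : PrimeOut S L)
    (h : primeOutUnder S K L w = primeOutUnder S K L w') :
    ∃ g : G, primeOutMap S G L g w = w' := by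
  obtain ⟨g, hg⟩ := exists_primeSMul_eq G K w.1 w'.1 (congrArg Subtype.val h)
  exact ⟨g, Subtype.ext hg⟩

lemma apply_primeOutMap_of_fixed (d : PrimeOut S L →₀ ℤ) (hd : ∀ g : G, divRepr S G L g d = d)
    (g : G) (w : PrimeOut S L) : d (primeOutMap S G L g w) = d w := by
  conv_lhs => rw [← hd g]
  exact divRepr_apply_apply S G L g d w

lemma apply_eq_of_fixed (d : PrimeOut S L →₀ ℤ) (hd : ∀ g : G, divRepr S G L g d = d)
    (w w' : PrimeOut S L) (h : primeOutUnder S K L w = primeOutUnder S K L w') : d w = d w' := by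
  obtain ⟨g, rfl⟩ := exists_primeOutMap_eq S G K L w w' h
  exact (apply_primeOutMap_of_fixed S G L d hd g w).symm

/-- `Div^S(L)^G = Div^S(K)` when `L/K` is unramified outside `S`. -/
lemma exists_divBase_eq_of_fixed (hur : ∀ w : PrimeOut S L, eAt K w.1 = 1)
    (d : PrimeOut S L →₀ ℤ) (hd : ∀ g : G, divRepr S G L g d = d) :
    ∃ d' : PrimeOut S K →₀ ℤ, divBase S K L d' = d := by
  classical
  let sec : PrimeOut S K → PrimeOut S L := Function.surjInv (primeOutUnder_surjective S K L)
  have hsec : ∀ v, primeOutUnder S K L (sec v) = v :=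
    Function.surjInv_eq (primeOutUnder_surjective S K L)
  refine ⟨Finsupp.onFinset (d.support.image (primeOutUnder S K L)) (fun v => d (sec v)) ?_, ?_⟩
  · intro v hv
    rw [Finset.mem_image]
    exact ⟨sec v, Finsupp.mem_support_iff.2 hv, hsec v⟩
  · ext w
    rw [divBase_apply, hur w, Finsupp.onFinset_apply, Nat.cast_one, one_mul]
    exact apply_eq_of_fixed S G K L d hd _ _ (hsec _)

variable {L} in
lemma eAt_primeSMul (g : G) (w : HeightOneSpectrum (𝓞 L)) :
    eAt K (primeSMul G g w) = eAt K w := by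
  -- both are characterised by `ord_w(x) = e · ord_v(x)` for `x ∈ Kˣ`
  obtain ⟨π, hπ⟩ := (primeUnder K w).valuation_exists_uniformizer K
  have hπ0 : π ≠ 0 := by
    rintro rfl
    rw [map_zero] at hπ
    exact WithZero.exp_ne_zero hπ.symm
  have := IsGaloisGroup.commutes (G := G) (A := K) (B := L)
  let x : Additive Kˣ := Additive.ofMul (Units.mk0 π hπ0)
  have hx : lRepr G L g (lBase K L x) = lBase K L x := by
    apply Additive.toMul.injective
    apply Units.ext
    rw [coe_lRepr_apply, coe_lBase_apply, smul_algebraMap]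
  have h1 := ordAt_primeSMul G g w (lBase K L x)
  rw [hx, ordAt_lBase, ordAt_lBase, primeUnder_primeSMul] at h1
  have h2 : ordAt (primeUnder K w) x ≠ 0 := by
    rw [ordAt_apply]
    change -WithZero.log ((primeUnder K w).valuation K π) ≠ 0
    rw [hπ]
    simp
  exact_mod_cast mul_right_cancel₀ h2 h1

lemma divRepr_divBase (g : G) (d : PrimeOut S K →₀ ℤ) :
    divRepr S G L g (divBase S K L d) = divBase S K L d := by
  ext w
  have hw : w = primeOutMap S G L g (primeOutMap S G L g⁻¹ w) := by
    rw [← primeOutMap_mul, mul_inv_cancel, primeOutMap_one]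
  conv_lhs => rw [hw]
  rw [divRepr_apply_apply, divBase_apply, divBase_apply, primeOutUnder_primeOutMap,
    primeOutMap_val, eAt_primeSMul]

end Div

/-! ## 4. Hilbert 90 and injectivity of the diagonal -/

section Hilbert90

variable (G K L : Type) [Group G] [Finite G] [Field K] [Field L] [Algebra K L]
  [MulSemiringAction G L] [IsGaloisGroup G K L]

include K in
/-- Hilbert 90 for `Lˣ` in the additive notation of `lRepr`: every `1`-cocycle
`x (g h) = x g + g • x h` is a coboundary `x g = g • β - β`. -/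
lemma hilbert90 (x : G → Additive Lˣ)
    (hx : ∀ g h : G, x (g * h) = x g + lRepr G L g (x h)) :
    ∃ β : Additive Lˣ, ∀ g : G, x g = lRepr G L g β - β := by
  haveI : FiniteDimensional K L := IsGaloisGroup.finiteDimensional G K L
  let e : G ≃* Gal(L/K) := IsGaloisGroup.mulEquivAlgEquiv G K L
  have he : ∀ (g : G) (y : L), e g y = g • y := fun g y => rfl
  let f : Gal(L/K) → Lˣ := fun σ => (x (e.symm σ)).toMul
  have hf : groupCohomology.IsMulCocycle₁ f := by
    intro σ τ
    change (x (e.symm (σ * τ))).toMul = σ • (x (e.symm τ)).toMul * (x (e.symm σ)).toMul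
    rw [map_mul, hx, mul_comm]
    apply Units.ext
    change _ = ((x (e.symm σ)).toMul : L) * σ ((x (e.symm τ)).toMul : L)
    rw [toMul_add, Units.val_mul, coe_lRepr_apply, ← he, MulEquiv.apply_symm_apply]
  obtain ⟨β, hβ⟩ := groupCohomology.isMulCoboundary₁_of_isMulCocycle₁_of_aut_to_units f hf
  refine ⟨Additive.ofMul β, fun g => ?_⟩
  have h := hβ (e g)
  simp only [f, MulEquiv.symm_apply_apply] at h
  apply Additive.toMul.injective
  rw [← h]
  apply Units.ext
  rw [toMul_sub, div_eq_mul_inv, div_eq_mul_inv]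
  rfl

end Hilbert90

section DiagInj

variable (S : Finset Nat.Primes) (L : Type) [Field L] [CharZero L]

lemma nontrivial_QS (hS : S.Nonempty) : Nontrivial (QS S) := by
  obtain ⟨q, hq⟩ := hS
  haveI : Nonempty S := ⟨⟨q, hq⟩⟩
  exact inferInstanceAs (Nontrivial (∀ q : S, Qq q.1))

lemma asDiag_injective (hS : S.Nonempty) : Function.Injective (asDiag S L) := by
  haveI := nontrivial_QS S hS
  exact Algebra.TensorProduct.includeLeft_injective (algebraMap ℚ (QS S)).injective

lemma unitsDiag_injective (hS : S.Nonempty) : Function.Injective (unitsDiag S L) := by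
  intro x y h
  apply Additive.toMul.injective
  apply Units.ext
  apply asDiag_injective S L hS
  have := congrArg (fun z : Additive (AS S L)ˣ => ((z.toMul : (AS S L)ˣ) : AS S L)) h
  simpa only [coe_unitsDiag_apply] using this

end DiagInj

/-! ## 5. Galois descent for `C_S` -/

section Main

variable (S : Finset Nat.Primes) (G K L : Type) [Group G] [Finite G] [Field K] [NumberField K]
  [Field L] [NumberField L] [Algebra K L] [MulSemiringAction G L] [IsGaloisGroup G K L]

lemma diagHom_injective (hS : S.Nonempty) : Function.Injective (diagHom S L) := fun _ _ h =>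
  unitsDiag_injective S L hS (congrArg Prod.fst h)

lemma jdRepr_jdBase (g : G) (y : JD S K) :
    jdRepr S G L g (jdBase S K L y) = jdBase S K L y := by
  rw [jdRepr_apply]
  exact Prod.ext (jRepr_jBase S G K L g y.1) (divRepr_divBase S G K L g y.2)

include G in
lemma jdBase_injective : Function.Injective (jdBase S K L) := fun _ _ h =>
  Prod.ext (jBase_injective S G K L (congrArg Prod.fst h))
    (divBase_injective S K L (congrArg Prod.snd h))

lemma exists_jdBase_eq_of_fixed (hur : ∀ w : PrimeOut S L, eAt K w.1 = 1) (y : JD S L)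
    (hy : ∀ g : G, jdRepr S G L g y = y) : ∃ y' : JD S K, jdBase S K L y' = y := by
  obtain ⟨u, hu⟩ := exists_jBase_eq_of_fixed S G K L y.1 (fun g => congrArg Prod.fst (hy g))
  obtain ⟨d, hd⟩ := exists_divBase_eq_of_fixed S G K L hur y.2
    (fun g => congrArg Prod.snd (hy g))
  exact ⟨(u, d), Prod.ext hu hd⟩

lemma exists_lBase_eq_of_fixed (x : Additive Lˣ) (hx : ∀ g : G, lRepr G L g x = x) :
    ∃ x' : Additive Kˣ, lBase K L x' = x := by
  obtain ⟨k, hk⟩ := exists_algebraMap_eq_of_fixed G K L ((x.toMul : Lˣ) : L) (fun g => by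
    rw [← coe_lRepr_apply, hx g])
  have hk0 : k ≠ 0 := by
    rintro rfl
    rw [map_zero] at hk
    exact (x.toMul : Lˣ).ne_zero hk.symm
  refine ⟨Additive.ofMul (Units.mk0 k hk0), ?_⟩
  apply Additive.toMul.injective
  apply Units.ext
  rw [coe_lBase_apply]
  exact hk

/-- The image of `C_S(K)` in `C_S(L)` consists of `G`-invariant classes. -/
theorem cRepr_cBase (g : G) (c : CS S K) : cRepr S G L g (cBase S K L c) = cBase S K L c := by
  obtain ⟨y, rfl⟩ := Submodule.Quotient.mk_surjective _ c
  rw [cBase_mk, cRepr_mk, jdRepr_jdBase]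

include G in
/-- **Galois descent, injectivity**: `C_S(K) → C_S(L)` is injective (`S ≠ ∅`). -/
theorem cBase_injective (hS : S.Nonempty) : Function.Injective (cBase S K L) := by
  rw [injective_iff_map_eq_zero]
  intro c hc
  obtain ⟨y, rfl⟩ := Submodule.Quotient.mk_surjective _ c
  rw [cBase_mk, Submodule.Quotient.mk_eq_zero] at hc
  obtain ⟨x, hx⟩ := hc
  change diagHom S L x = jdBase S K L y at hx
  have hfix : ∀ g : G, lRepr G L g x = x := by
    intro g
    apply diagHom_injective S L hS
    rw [diagHom_equivariant, hx, jdRepr_jdBase]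
  obtain ⟨x', rfl⟩ := exists_lBase_eq_of_fixed G K L x hfix
  rw [← jdBase_diagHom] at hx
  have := jdBase_injective S G K L hx
  rw [Submodule.Quotient.mk_eq_zero]
  exact ⟨x', this⟩

/-- **Galois descent, surjectivity**: every `G`-invariant class of `C_S(L)` comes from `C_S(K)`
(`S ≠ ∅`, `L/K` unramified outside `S`). -/
theorem exists_cBase_eq_of_fixed (hS : S.Nonempty) (hur : ∀ w : PrimeOut S L, eAt K w.1 = 1)
    (c : CS S L) (hc : ∀ g : G, cRepr S G L g c = c) : ∃ c' : CS S K, cBase S K L c' = c := by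
  obtain ⟨y, rfl⟩ := Submodule.Quotient.mk_surjective _ c
  have h1 : ∀ g : G, ∃ x : Additive Lˣ, diagHom S L x = jdRepr S G L g y - y := by
    intro g
    have := hc g
    rw [cRepr_mk, Submodule.Quotient.eq] at this
    exact this
  choose x hx using h1
  have hcoc : ∀ g h : G, x (g * h) = x g + lRepr G L g (x h) := by
    intro g h
    apply diagHom_injective S L hS
    rw [map_add, diagHom_equivariant, hx, hx, hx, map_sub, map_mul]
    change jdRepr S G L g (jdRepr S G L h y) - y = _
    abel
  obtain ⟨β, hβ⟩ := hilbert90 G K L x hcoc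
  have hfix : ∀ g : G, jdRepr S G L g (y - diagHom S L β) = y - diagHom S L β := by
    intro g
    have h2 := hx g
    rw [hβ g, map_sub, diagHom_equivariant] at h2
    rw [map_sub]
    rw [sub_eq_sub_iff_add_eq_add] at h2 ⊢
    rw [← h2]
    abel
  obtain ⟨y', hy'⟩ := exists_jdBase_eq_of_fixed S G K L hur _ hfix
  refine ⟨Submodule.Quotient.mk y', ?_⟩
  rw [cBase_mk, hy', Submodule.Quotient.eq]
  refine ⟨-β, ?_⟩
  change diagHom S L (-β) = _
  rw [map_neg]
  abel

/-- **Galois descent** for the `S`-idèle class group: the image of `C_S(K) → C_S(L)` is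
exactly `C_S(L)^G`. -/
theorem mem_range_cBase_iff (hS : S.Nonempty) (hur : ∀ w : PrimeOut S L, eAt K w.1 = 1)
    (c : CS S L) : c ∈ (cBase S K L).range ↔ ∀ g : G, cRepr S G L g c = c :=
  ⟨by rintro ⟨c', rfl⟩ g; exact cRepr_cBase S G K L g c',
    exists_cBase_eq_of_fixed S G K L hS hur c⟩

/-- **Galois descent** as an isomorphism `C_S(K) ≃ C_S(L)^G`. -/
def descEquiv (hS : S.Nonempty) (hur : ∀ w : PrimeOut S L, eAt K w.1 = 1) :
    CS S K ≃ₗ[ℤ] (cRepr S G L).invariants :=
  LinearEquiv.ofBijective
    ((cBaseₗ S K L).codRestrict (cRepr S G L).invariants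
      (fun c g => cRepr_cBase S G K L g c))
    ⟨fun a b h => cBase_injective S G K L hS (congrArg Subtype.val h),
      fun c => by
        obtain ⟨c', hc'⟩ := exists_cBase_eq_of_fixed S G K L hS hur c.1 c.2
        exact ⟨c', Subtype.ext hc'⟩⟩

@[simp] lemma descEquiv_apply (hS : S.Nonempty) (hur : ∀ w : PrimeOut S L, eAt K w.1 = 1)
    (c : CS S K) : ((descEquiv S G K L hS hur c : (cRepr S G L).invariants) : CS S L) =
      cBase S K L c := rfl

end Main

end Fermat.Agent.S55.G.DescH773

end
end
-- ===== PACK-END S55/G/DescH773/Descent.lean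

-- ===== PACK-BEGIN S55/G/CM/H514/SubCMCore.lean
section


/-!
# S55 / layer G / block CM, leaf SUBCM (helper514): class modules at `p` restrict to subgroups

Pure algebra (Mathlib + `T/Spec` + `E1/Defs`).  For `Γ' ≤ Γ` and `H ≤ Γ'` let `H' ≤ Γ` be the
image of `H`.  Then `Hⁿ(H, (C|Γ')|H) ≅ Hⁿ(H', C|H')` (`subIso`, Mathlib `groupCohomology.mapIso`
along `H ≃* H'`), compatibly with the restriction maps from `Hⁿ(Γ, C)` (`subIso_inv_res`).
Hence `E1.IsClassModuleAt p C γ → E1.IsClassModuleAt p (C|Γ') (res γ)` (`subClassModule`).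
-/

set_option autoImplicit false

open CategoryTheory groupCohomology

noncomputable section

namespace Fermat.Agent.S55.G.CM.H514

open Fermat.Agent.S55

section Generic

variable {k Γ : Type} [CommRing k] [Group Γ] (C : Rep.{0} k Γ) (Γ' : Subgroup Γ)
  (H : Subgroup Γ')

/-- `H ≃* H'`, `H'` the image of `H ≤ Γ'` in `Γ`. -/
def subEquiv : H ≃* H.map Γ'.subtype :=
  H.equivMapOfInjective Γ'.subtype Γ'.subtype_injective

@[simp] theorem coe_subEquiv (g : H) : ((subEquiv Γ' H g : H.map Γ'.subtype) : Γ) = ((g : Γ') : Γ) :=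
  rfl

/-- `Hⁿ(H, (C|Γ')|H) ≅ Hⁿ(H', C|H')`. -/
def subIso (n : ℕ) :
    groupCohomology (T.resSub (T.resSub C Γ') H) n ≅
      groupCohomology (T.resSub C (H.map Γ'.subtype)) n :=
  groupCohomology.mapIso (A := T.resSub C (H.map Γ'.subtype))
    (B := T.resSub (T.resSub C Γ') H) (subEquiv Γ' H) (LinearEquiv.refl k C.V)
    (fun _ => rfl) n

/-- `subIso` is compatible with the restrictions from `Γ`. -/
theorem resMap_comp_subIso_inv (n : ℕ) :
    T.resMap C (H.map Γ'.subtype) n ≫ (subIso C Γ' H n).inv =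
      T.resMap C Γ' n ≫ T.resMap (T.resSub C Γ') H n := by
  change groupCohomology.map _ _ n ≫ groupCohomology.map _ _ n =
    groupCohomology.map _ _ n ≫ groupCohomology.map _ _ n
  rw [← groupCohomology.map_comp, ← groupCohomology.map_comp]
  exact groupCohomology.map_congr (by ext g; rfl) rfl n

theorem subIso_inv_res (n : ℕ) (γ : groupCohomology C n) :
    (subIso C Γ' H n).inv.hom ((T.resMap C (H.map Γ'.subtype) n).hom γ) =
      (T.resMap (T.resSub C Γ') H n).hom ((T.resMap C Γ' n).hom γ) := by
  have h := congrArg (fun f => f.hom γ) (resMap_comp_subIso_inv C Γ' H n)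
  simpa using h

end Generic

variable {Γ : Type} [Group Γ] (C : Rep.{0} ℤ Γ)

/-- **SUBCM**: a class module at `p` restricts to a class module at `p` on every subgroup. -/
theorem subClassModule (p : ℕ) [Finite Γ] (γ : groupCohomology C 2)
    (h : E1.IsClassModuleAt p C γ) (Γ' : Subgroup Γ) :
    E1.IsClassModuleAt p (T.resSub C Γ') ((T.resMap C Γ' 2).hom γ) := by
  intro H hH
  have hH' : IsPGroup p (H.map Γ'.subtype) := hH.map Γ'.subtype
  obtain ⟨h1, h2, h3⟩ := h (H.map Γ'.subtype) hH'
  refine ⟨?_, ?_, ?_⟩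
  · exact Limits.IsZero.of_iso h1 (subIso C Γ' H 1)
  · rw [Nat.card_congr (subIso C Γ' H 2).toLinearEquiv.toEquiv, h2]
    exact Nat.card_congr (subEquiv Γ' H).symm.toEquiv
  · intro x
    obtain ⟨n, hn⟩ := h3 ((subIso C Γ' H 2).hom.hom x)
    refine ⟨n, ?_⟩
    have h4 := congrArg (subIso C Γ' H 2).inv.hom hn
    rw [map_nsmul, subIso_inv_res] at h4
    rw [← h4]
    exact ((subIso C Γ' H 2).toLinearEquiv.symm_apply_apply x).symm

end Fermat.Agent.S55.G.CM.H514

end
end
-- ===== PACK-END S55/G/CM/H514/SubCMCore.lean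

-- ===== PACK-BEGIN S55/L/UnrInv/Inputs.lean
section


/-!
# S55, layer L, unramified invariants (`UnrInvSpec`): number-theoretic INPUT INTERFACE

Architect / owner of the glue: helper54.  The glue `unrInv_of … : Inv481.UnrInvSpec` (file
`UnrInv/Main.lean`) takes the frozen specs `RingOfIntegersUniqueSpec`, `FiniteExtSpec`,
`UnramifiedCyclicSpec`, `H2CyclicSpec` and the three statements below.  All three are standard
facts about complete discretely valued fields with finite residue field.

* `IntegersComapSpec` (**UI-INT**): for a finite extension `L/K` of local fields with rings of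
  integers `B`, `A`: `B ∩ K = A`.
* `UnramifiedInertiaSpec` (**UI-INERTIA**): in an unramified extension the inertia group is
  trivial: an automorphism inducing the identity on the residue field is the identity.
* `ResidueDegreeSpec` (**UI-EF**): `e f = n` for a finite extension `K'/K` of local fields, where
  `π = unit * π' ^ e` and `|k'| = |k| ^ f`.
-/

set_option autoImplicit false

namespace Fermat.Agent.S55.L.UnrInv

/-- **UI-INT** `B ∩ K = A` for a finite extension of local fields. -/
def IntegersComapSpec : Prop :=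
  ∀ (K L : Type) [Field K] [Field L] [Algebra K L] [FiniteDimensional K L] [IsLocalFld K]
    (A : ValuationSubring K) (B : ValuationSubring L),
    IsLocalRingOfIntegers A → IsLocalRingOfIntegers B →
      ∀ x : K, algebraMap K L x ∈ B ↔ x ∈ A

/-- **UI-INERTIA** the inertia group of an unramified extension is trivial. -/
def UnramifiedInertiaSpec : Prop :=
  ∀ (K E : Type) [Field K] [Field E] [Algebra K E] [FiniteDimensional K E] [IsLocalFld K],
    IsUnramifiedExt K E → ∀ B : ValuationSubring E, IsLocalRingOfIntegers B →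
      ∀ g : E ≃ₐ[K] E, (∀ x ∈ B, g x - x ∈ B.nonunits) → g = 1

/-- **UI-EF** ramification index and residue degree of a finite extension of local fields:
`π = u π'^e` with `u` a unit, `|k'| = |k|^f`, and `e f = [K' : K]`. -/
def ResidueDegreeSpec : Prop :=
  ∀ (K K' : Type) [Field K] [Field K'] [Algebra K K'] [FiniteDimensional K K'] [IsLocalFld K]
    (A : ValuationSubring K) (A' : ValuationSubring K') (π : K) (π' : K'),
    IsLocalRingOfIntegers A → IsLocalRingOfIntegers A' →
    IsUniformizer A π → IsUniformizer A' π' →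
    ∃ e f : ℕ, e * f = Module.finrank K K' ∧
      (∃ u : K', u ∈ A' ∧ u⁻¹ ∈ A' ∧ algebraMap K K' π = u * π' ^ e) ∧
      Nat.card (IsLocalRing.ResidueField A') = Nat.card (IsLocalRing.ResidueField A) ^ f

end Fermat.Agent.S55.L.UnrInv

end
-- ===== PACK-END S55/L/UnrInv/Inputs.lean

-- ===== PACK-BEGIN S56/H596/Odd.lean
section



/-!
# S56, TB layer 2, leaf ODD (helper596): complex conjugation

Under the standing hypotheses `Hyp` of S56:
* `isCycExp_complexConjugation` : complex conjugation acts on `μ_p` by `μ ↦ μ ^ (p - 1)`;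
* `det_rho_complexConjugation`  : `det ρ̄(c) = -1`;
* `trace_rho_complexConjugation` : `tr ρ̄(c) = 0`;
* `rho_complexConjugation_sq`   : `ρ̄(c)² = 1`;
* `eq_smul_of_commute_complexConjugation` : a trace-zero endomorphism commuting with `ρ̄(c)` is a
  multiple of `ρ̄(c)`  (so `H⁰(G_∞, ad⁰ρ̄)` is the line spanned by `ρ̄(c)`);
* `trace_mul_eq_zero_of_anticommute` : a trace-zero endomorphism anticommuting with `ρ̄(c)` is
  orthogonal to `ρ̄(c)` for the trace form.
-/

set_option autoImplicit false
set_option linter.unusedSectionVars false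
set_option linter.unusedVariables false
set_option linter.style.haveILetI false

namespace Fermat.Agent.S56.H596

noncomputable section

open IsLocalRing Polynomial
open Fermat.Agent.S56

/-! ### Matrices -/

section Mat

variable {k : Type} [Field k]

theorem mat2_trace_eq_zero_of_sq (A : Matrix (Fin 2) (Fin 2) k) (hsq : A * A = 1)
    (hdet : A.det = -1) : A.trace = 0 := by
  by_contra ht
  rw [Matrix.trace_fin_two] at ht
  rw [Matrix.det_fin_two] at hdet
  have h00 := congrFun (congrFun hsq 0) 0
  have h01 := congrFun (congrFun hsq 0) 1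
  have h10 := congrFun (congrFun hsq 1) 0
  have h11 := congrFun (congrFun hsq 1) 1
  simp only [Matrix.mul_apply, Fin.sum_univ_two, Matrix.one_apply_eq, Matrix.one_apply_ne,
    ne_eq, one_ne_zero, not_false_eq_true, zero_ne_one, Fin.isValue] at h00 h01 h10 h11
  have ha : A 0 0 * (A 0 0 + A 1 1) = 0 := by linear_combination h00 + hdet
  have hd : A 1 1 * (A 0 0 + A 1 1) = 0 := by linear_combination h11 + hdet
  have ha0 : A 0 0 = 0 := (mul_eq_zero.1 ha).resolve_right ht
  have hd0 : A 1 1 = 0 := (mul_eq_zero.1 hd).resolve_right ht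
  exact ht (by rw [ha0, hd0, add_zero])

theorem mat2_mul_add_mul (X Y : Matrix (Fin 2) (Fin 2) k) (hX : X.trace = 0)
    (hY : Y.trace = 0) : X * Y + Y * X = (X * Y).trace • (1 : Matrix (Fin 2) (Fin 2) k) := by
  rw [Matrix.trace_fin_two] at hX hY
  have hX' : X 1 1 = - X 0 0 := by linear_combination hX
  have hY' : Y 1 1 = - Y 0 0 := by linear_combination hY
  ext i j
  fin_cases i <;> fin_cases j <;>
    simp [Matrix.mul_apply, Fin.sum_univ_two, Matrix.trace_fin_two, hX', hY'] <;> ring

end Mat

/-! ### Endomorphisms of a plane -/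

section End2

variable {k : Type} [Field k] {V : Type} [AddCommGroup V] [Module k V]

theorem end2_trace_eq_zero_of_sq (hV : Module.finrank k V = 2) (f : Module.End k V)
    (hsq : f * f = 1) (hdet : LinearMap.det f = -1) : LinearMap.trace k V f = 0 := by
  haveI : Module.Finite k V := Module.finite_of_finrank_eq_succ hV
  let b : Module.Basis (Fin 2) k V := Module.finBasisOfFinrankEq k V hV
  rw [LinearMap.trace_eq_matrix_trace k b]
  apply mat2_trace_eq_zero_of_sq
  · rw [← LinearMap.toMatrix_mul, hsq, LinearMap.toMatrix_one]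
  · rw [LinearMap.det_toMatrix, hdet]

theorem end2_mul_add_mul (hV : Module.finrank k V = 2) (f g : Module.End k V)
    (hf : LinearMap.trace k V f = 0) (hg : LinearMap.trace k V g = 0) :
    f * g + g * f = LinearMap.trace k V (f * g) • (1 : Module.End k V) := by
  haveI : Module.Finite k V := Module.finite_of_finrank_eq_succ hV
  let b : Module.Basis (Fin 2) k V := Module.finBasisOfFinrankEq k V hV
  rw [LinearMap.trace_eq_matrix_trace k b] at hf hg
  apply (LinearMap.toMatrix b b).injective
  rw [map_add, LinearMap.toMatrix_mul, LinearMap.toMatrix_mul, map_smul, LinearMap.toMatrix_one,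
    LinearMap.trace_eq_matrix_trace k b (f * g), LinearMap.toMatrix_mul]
  exact mat2_mul_add_mul _ _ hf hg

end End2

/-! ### Complex conjugation -/

section CC

/-- Complex conjugation inverts roots of unity. -/
theorem complexConjugation_rootOfUnity {N : ℕ} (hN : N ≠ 0) {z : Qb} (hz : z ^ N = 1) :
    complexConjugation z = z⁻¹ := by
  apply complexEmbedding.toRingHom.injective
  show complexEmbedding (complexConjugation z) = complexEmbedding z⁻¹
  rw [complexEmbedding_complexConjugation, map_inv₀]
  have h1 : (complexEmbedding z) ^ N = 1 := by rw [← map_pow, hz, map_one]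
  exact (Complex.inv_eq_conj (Complex.norm_eq_one_of_pow_eq_one h1 hN)).symm

theorem isCycExp_complexConjugation (p : ℕ) (hp : p ≠ 0) :
    IsCycExp p complexConjugation (p - 1) := by
  intro μ hμ
  rw [complexConjugation_rootOfUnity hp hμ]
  have hμ0 : μ ≠ 0 := by
    rintro rfl
    rw [zero_pow hp] at hμ
    exact zero_ne_one hμ
  apply mul_left_cancel₀ hμ0
  rw [mul_inv_cancel₀ hμ0, ← pow_succ', Nat.sub_add_cancel (Nat.pos_of_ne_zero hp), hμ]

variable {𝒪 : Type} [CommRing 𝒪] [IsDomain 𝒪] [IsDiscreteValuationRing 𝒪] {p : ℕ}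
  {ρbar : ResidualGaloisRep (ResidueField 𝒪)} {S Smin : Finset ℕ}

theorem natCast_p_eq_zero (hyp : Hyp 𝒪 p ρbar S Smin) : (p : ResidueField 𝒪) = 0 := by
  have := (residue_eq_zero_iff _).2 hyp.hp𝒪
  rwa [map_natCast] at this

theorem two_ne_zero_of_hyp (hyp : Hyp 𝒪 p ρbar S Smin) : (2 : ResidueField 𝒪) ≠ 0 := by
  intro h2
  have hodd : Odd p := hyp.hp.odd_of_ne_two hyp.hp2
  obtain ⟨m, hm⟩ := hodd
  have h := natCast_p_eq_zero hyp
  rw [hm, Nat.cast_add, Nat.cast_mul, Nat.cast_ofNat, h2, zero_mul, zero_add, Nat.cast_one] at h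
  exact one_ne_zero h

theorem rho_complexConjugation_sq (ρbar : ResidualGaloisRep (ResidueField 𝒪)) :
    ρbar.ρ complexConjugation * ρbar.ρ complexConjugation = 1 := by
  rw [← map_mul, complexConjugation_mul_self, map_one]

theorem det_rho_complexConjugation (hyp : Hyp 𝒪 p ρbar S Smin) :
    LinearMap.det (ρbar.ρ complexConjugation) = -1 := by
  have h1 := hyp.hdet.2 1 complexConjugation (p - 1) (by
    intro μ hμ
    rw [pow_one] at hμ
    exact isCycExp_complexConjugation p hyp.hp.ne_zero μ hμ)
  have hp0 := natCast_p_eq_zero hyp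
  rw [pow_one, hp0, Ideal.span_singleton_eq_bot.2 rfl, Ideal.mem_bot, sub_eq_zero] at h1
  have h2 : ((p - 1 : ℕ) : ResidueField 𝒪) = -1 := by
    rw [Nat.cast_sub hyp.hp.one_le, hp0, Nat.cast_one, zero_sub]
  rw [← h2]
  exact h1

theorem trace_rho_complexConjugation (hyp : Hyp 𝒪 p ρbar S Smin) :
    LinearMap.trace (ResidueField 𝒪) ρbar.V (ρbar.ρ complexConjugation) = 0 :=
  end2_trace_eq_zero_of_sq ρbar.finrank_eq _ (rho_complexConjugation_sq ρbar)
    (det_rho_complexConjugation hyp)

/-- **ODD**: a trace-zero endomorphism commuting with `ρ̄(c)` is a multiple of `ρ̄(c)`. -/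
theorem eq_smul_of_commute_complexConjugation (hyp : Hyp 𝒪 p ρbar S Smin)
    (m : Module.End (ResidueField 𝒪) ρbar.V)
    (htr : LinearMap.trace (ResidueField 𝒪) ρbar.V m = 0)
    (hcomm : ρbar.ρ complexConjugation * m = m * ρbar.ρ complexConjugation) :
    m = (LinearMap.trace (ResidueField 𝒪) ρbar.V (m * ρbar.ρ complexConjugation) / 2) •
      ρbar.ρ complexConjugation := by
  have h2 := two_ne_zero_of_hyp hyp
  have h1 := end2_mul_add_mul ρbar.finrank_eq m (ρbar.ρ complexConjugation) htr
    (trace_rho_complexConjugation hyp)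
  generalize LinearMap.trace (ResidueField 𝒪) ρbar.V (m * ρbar.ρ complexConjugation) = t at h1 ⊢
  rw [hcomm] at h1
  have h3 := congrArg (fun x => x * ρbar.ρ complexConjugation) h1
  simp only [add_mul, mul_assoc, rho_complexConjugation_sq, mul_one, smul_mul_assoc,
    one_mul] at h3
  rw [div_eq_inv_mul, mul_smul, ← h3, ← two_smul (ResidueField 𝒪) m, smul_smul,
    inv_mul_cancel₀ h2, one_smul]

/-- **ODD (anti-invariants)**: a trace-zero endomorphism anticommuting with `ρ̄(c)` is orthogonal
to `ρ̄(c)` for the trace form. -/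
theorem trace_mul_eq_zero_of_anticommute (hyp : Hyp 𝒪 p ρbar S Smin)
    (m : Module.End (ResidueField 𝒪) ρbar.V)
    (htr : LinearMap.trace (ResidueField 𝒪) ρbar.V m = 0)
    (hanti : ρbar.ρ complexConjugation * m = -(m * ρbar.ρ complexConjugation)) :
    LinearMap.trace (ResidueField 𝒪) ρbar.V (m * ρbar.ρ complexConjugation) = 0 := by
  have h1 := end2_mul_add_mul ρbar.finrank_eq m (ρbar.ρ complexConjugation) htr
    (trace_rho_complexConjugation hyp)
  rw [hanti, add_neg_cancel] at h1
  have h2 := congrArg (LinearMap.trace (ResidueField 𝒪) ρbar.V) h1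
  rw [map_zero, map_smul, LinearMap.trace_one, ρbar.finrank_eq, smul_eq_mul] at h2
  rcases mul_eq_zero.1 h2.symm with h | h
  · exact h
  · exact absurd (by exact_mod_cast h) (two_ne_zero_of_hyp hyp)

end CC

end

end Fermat.Agent.S56.H596

end
-- ===== PACK-END S56/H596/Odd.lean

-- ===== PACK-BEGIN S37/H700/Arch.lean
section



/-!
# S37 / R-a, helper700: valuation rings of `ℚ̄` over a prime have archimedean value group

`L` a field of characteristic zero, algebraic over `ℚ`; `A` a valuation subring lying over the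
prime `ℓ`.  Then

* `exists_pow_le_prime` : for a non-unit `a` of `A` some power `a ^ n` is divisible by `ℓ`;
* `exists_prime_pow_le` : every `d ≠ 0` divides some power of `ℓ`;
* **`archVal_of_liesOverPrime`** : `ArchVal A` (the hypothesis of `Cic.lean`).
-/

set_option autoImplicit false

noncomputable section

namespace Fermat.Agent.S37.H700

open Polynomial Fermat.Agent.S14.H366

variable {L : Type*} [Field L] [CharZero L] [Algebra.IsAlgebraic ℚ L]
  (A : ValuationSubring L) {ℓ : ℕ}

omit [CharZero L] [Algebra.IsAlgebraic ℚ L] in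
theorem val_int_le_prime (n : ℤ) (hn : (ℓ : ℤ) ∣ n) :
    A.valuation (n : L) ≤ A.valuation (ℓ : L) := by
  obtain ⟨m, rfl⟩ := hn
  push_cast
  rw [map_mul]
  calc A.valuation (ℓ : L) * A.valuation (m : L)
      ≤ A.valuation (ℓ : L) * 1 := by gcongr; exact val_int_le_one m
    _ = A.valuation (ℓ : L) := mul_one _

/-- every element is a root of a primitive integer polynomial -/
theorem exists_primitive_aeval_eq_zero (x : L) :
    ∃ p : ℤ[X], p.IsPrimitive ∧ p ≠ 0 ∧ aeval x p = 0 := by
  have halg : IsAlgebraic ℤ x :=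
    (IsFractionRing.isAlgebraic_iff ℤ ℚ L).mpr (Algebra.IsAlgebraic.isAlgebraic x)
  obtain ⟨f, hf0, hfx⟩ := halg
  refine ⟨f.primPart, f.isPrimitive_primPart, Polynomial.primPart_ne_zero f, ?_⟩
  have h1 : f = C f.content * f.primPart := f.eq_C_content_mul_primPart
  rw [h1, map_mul, aeval_C] at hfx
  rcases mul_eq_zero.mp hfx with h | h
  · exfalso
    have : f.content = 0 := by simpa using h
    exact hf0 (Polynomial.content_eq_zero_iff.mp this)
  · exact h

/-- a power of a non-unit is divisible by `ℓ` -/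
theorem exists_pow_le_prime (hℓ : ℓ.Prime) (hA : A.LiesOverPrime ℓ) (a : L)
    (ha : a ∈ A.nonunits) : ∃ n : ℕ, A.valuation a ^ n ≤ A.valuation (ℓ : L) := by
  classical
  by_cases ha0 : a = 0
  · refine ⟨1, ?_⟩
    rw [ha0, map_zero, pow_one]
    exact zero_le
  have hav : A.valuation a < 1 := (ValuationSubring.mem_nonunits_iff (A := A)).mp ha
  have hav0 : 0 < A.valuation a := zero_lt_iff.mpr ((Valuation.ne_zero_iff _).mpr ha0)
  obtain ⟨p, hprim, hp0, hpa⟩ := exists_primitive_aeval_eq_zero a
  have hex : ∃ i, ¬ (ℓ : ℤ) ∣ p.coeff i := by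
    by_contra hcon
    push Not at hcon
    have hdvd : C (ℓ : ℤ) ∣ p := by
      rw [Polynomial.C_dvd_iff_dvd_coeff]
      exact hcon
    have hu := hprim _ hdvd
    have := Int.isUnit_iff.mp hu
    have h2 := hℓ.two_le
    omega
  set i₀ := Nat.find hex with hi₀
  have hi₀spec : ¬ (ℓ : ℤ) ∣ p.coeff i₀ := Nat.find_spec hex
  have hi₀min : ∀ i, i < i₀ → (ℓ : ℤ) ∣ p.coeff i := fun i hi => by
    by_contra h
    exact Nat.find_min hex hi h
  refine ⟨i₀, ?_⟩
  have hi₀le : i₀ ≤ p.natDegree := by
    by_contra h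
    push Not at h
    apply hi₀spec
    rw [Polynomial.coeff_eq_zero_of_natDegree_lt h]
    exact dvd_zero _
  -- split the sum
  have hsum : ∑ i ∈ Finset.range (p.natDegree + 1), ((p.coeff i : ℤ) : L) * a ^ i = 0 := by
    have := hpa
    rw [Polynomial.aeval_eq_sum_range] at this
    simpa [zsmul_eq_mul] using this
  have hmem : i₀ ∈ Finset.range (p.natDegree + 1) := Finset.mem_range.mpr (by omega)
  rw [← Finset.add_sum_erase _ _ hmem] at hsum
  have hT : ((p.coeff i₀ : ℤ) : L) * a ^ i₀ =
      -∑ i ∈ (Finset.range (p.natDegree + 1)).erase i₀, ((p.coeff i : ℤ) : L) * a ^ i :=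
    eq_neg_of_add_eq_zero_left hsum
  have hvT : A.valuation (((p.coeff i₀ : ℤ) : L) * a ^ i₀) = A.valuation a ^ i₀ := by
    rw [map_mul, map_pow, val_int_eq_one hℓ hA _ hi₀spec, one_mul]
  have hbound : ∀ i ∈ (Finset.range (p.natDegree + 1)).erase i₀,
      A.valuation (((p.coeff i : ℤ) : L) * a ^ i) ≤
        max (A.valuation (ℓ : L)) (A.valuation a ^ (i₀ + 1)) := by
    intro i hi
    have hne : i ≠ i₀ := (Finset.mem_erase.mp hi).1
    rw [map_mul, map_pow]
    rcases Nat.lt_or_gt_of_ne hne with hlt | hgt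
    · refine le_max_of_le_left ?_
      calc A.valuation ((p.coeff i : ℤ) : L) * A.valuation a ^ i
          ≤ A.valuation (ℓ : L) * 1 :=
            mul_le_mul' (val_int_le_prime A _ (hi₀min i hlt)) (pow_le_one₀ zero_le hav.le)
        _ = A.valuation (ℓ : L) := mul_one _
    · refine le_max_of_le_right ?_
      calc A.valuation ((p.coeff i : ℤ) : L) * A.valuation a ^ i
          ≤ 1 * A.valuation a ^ (i₀ + 1) :=
            mul_le_mul' (val_int_le_one _)
              (pow_le_pow_of_le_one zero_le hav.le (Nat.succ_le_of_lt hgt))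
        _ = A.valuation a ^ (i₀ + 1) := one_mul _
  have hvR : A.valuation (∑ i ∈ (Finset.range (p.natDegree + 1)).erase i₀,
      ((p.coeff i : ℤ) : L) * a ^ i) ≤ max (A.valuation (ℓ : L)) (A.valuation a ^ (i₀ + 1)) :=
    Valuation.map_sum_le _ hbound
  rw [← hvT, hT, Valuation.map_neg]
  have hlt : A.valuation a ^ (i₀ + 1) < A.valuation a ^ i₀ := by
    rw [pow_succ]
    calc A.valuation a ^ i₀ * A.valuation a < A.valuation a ^ i₀ * 1 := by
          exact mul_lt_mul_of_pos_left hav (pow_pos hav0 _)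
      _ = A.valuation a ^ i₀ := mul_one _
  rcases le_max_iff.mp hvR with h | h
  · exact h
  · exfalso
    have h1 : A.valuation (∑ i ∈ (Finset.range (p.natDegree + 1)).erase i₀,
        ((p.coeff i : ℤ) : L) * a ^ i) = A.valuation a ^ i₀ := by
      rw [← hvT, hT, Valuation.map_neg]
    rw [h1] at h
    exact absurd h (not_le.mpr hlt)

/-- every nonzero element divides a power of `ℓ` -/
theorem exists_prime_pow_le (hℓ : ℓ.Prime) (hA : A.LiesOverPrime ℓ) (d : L) (hd : d ≠ 0) :
    ∃ m : ℕ, A.valuation (ℓ : L) ^ m ≤ A.valuation d := by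
  by_cases hdA : d ∈ A
  · obtain ⟨f, -, hf0, hfd⟩ := exists_primitive_aeval_eq_zero d
    obtain ⟨g, hfg, hg⟩ := Polynomial.exists_eq_pow_rootMultiplicity_mul_and_not_dvd f hf0 0
    have hgd : aeval d g = 0 := by
      rw [hfg, map_mul, map_pow, map_sub, aeval_X, map_zero, map_zero, sub_zero] at hfd
      rcases mul_eq_zero.mp hfd with h | h
      · exact absurd (eq_zero_of_pow_eq_zero h) hd
      · exact h
    have hg0 : g.coeff 0 ≠ 0 := by
      intro h
      apply hg
      rw [map_zero, sub_zero]
      exact Polynomial.X_dvd_iff.mpr h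
    have hdecomp : aeval d g = aeval d g.divX * d + ((g.coeff 0 : ℤ) : L) := by
      conv_lhs => rw [← Polynomial.divX_mul_X_add g]
      rw [map_add, map_mul, aeval_X, aeval_C]
      rfl
    rw [hgd] at hdecomp
    have hg0eq : ((g.coeff 0 : ℤ) : L) = -(aeval d g.divX * d) := by
      rw [eq_neg_iff_add_eq_zero, add_comm]
      exact hdecomp.symm
    obtain ⟨k, hk⟩ := val_int_eq_pow (L := L) hℓ hA (g.coeff 0) hg0
    refine ⟨k, ?_⟩
    rw [← hk, hg0eq, Valuation.map_neg, map_mul]
    calc A.valuation (aeval d g.divX) * A.valuation d ≤ 1 * A.valuation d := by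
          gcongr
          exact (A.valuation_le_one_iff _).mpr
            (Fermat.Agent.S54.aeval_mem_valuationSubring A hdA _)
      _ = A.valuation d := one_mul _
  · refine ⟨0, ?_⟩
    rw [pow_zero]
    have := (A.valuation_le_one_iff d).not.mpr hdA
    exact (not_le.mp this).le

/-- **The value group of a valuation subring of `ℚ̄` over `ℓ` is archimedean.** -/
theorem archVal_of_liesOverPrime (hℓ : ℓ.Prime) (hA : A.LiesOverPrime ℓ) : ArchVal A := by
  intro a ha d hd
  obtain ⟨n, hn⟩ := exists_pow_le_prime A hℓ hA a ha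
  obtain ⟨m, hm⟩ := exists_prime_pow_le A hℓ hA d hd
  have hdv : 0 < A.valuation d := zero_lt_iff.mpr ((Valuation.ne_zero_iff _).mpr hd)
  by_cases ha0 : a = 0
  · refine ⟨1, ?_⟩
    rw [ha0, map_zero, pow_one]
    exact hdv
  have hav : A.valuation a < 1 := (ValuationSubring.mem_nonunits_iff (A := A)).mp ha
  have hav0 : 0 < A.valuation a := zero_lt_iff.mpr ((Valuation.ne_zero_iff _).mpr ha0)
  refine ⟨n * m + 1, ?_⟩
  have h1 : A.valuation a ^ (n * m) ≤ A.valuation d := by
    rw [pow_mul]
    exact (pow_le_pow_left₀ zero_le hn m).trans hm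
  rw [pow_succ]
  calc A.valuation a ^ (n * m) * A.valuation a < A.valuation a ^ (n * m) * 1 :=
        mul_lt_mul_of_pos_left hav (pow_pos hav0 _)
    _ = A.valuation a ^ (n * m) := mul_one _
    _ ≤ A.valuation d := h1

end Fermat.Agent.S37.H700

end
end
-- ===== PACK-END S37/H700/Arch.lean

-- ===== PACK-BEGIN S56/H434/Mult.lean
section



/-!
# S56 / W2-SS, piece A (helper434): multiplicativity defect in the convolution ring of `H ⊗ H`

For a commutative cocommutative bialgebra `H` and `f : H →ₗ[R] Ω` we put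
`mA f = f ∘ mul` and `mB f = μ ∘ (f ⊗ f)`, two multiplicative maps
`WithConv (H →ₗ[R] Ω) → WithConv (H ⊗[R] H →ₗ[R] Ω)`; `f` is an algebra homomorphism iff
`mA f = mB f` and `f 1 = 1`.  The quantitative lifting lemma in the convolution ring of `H ⊗ H`
bounds the multiplicativity defect `mA f - mB f` by the defect of `f ^ p = 1`.
-/

set_option autoImplicit false

open WithConv TensorProduct

namespace Fermat.Agent.S56.H434

section Mult

variable {R : Type*} [CommRing R] {Ω : Type*} [Field Ω] [Algebra R Ω]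
  {H : Type*} [CommRing H] [Bialgebra R H] [Coalgebra.IsCocomm R H]

/-- `f ↦ f ∘ mul`. -/
noncomputable def mA (f : WithConv (H →ₗ[R] Ω)) : WithConv (H ⊗[R] H →ₗ[R] Ω) :=
  toConv (f.ofConv ∘ₗ (Bialgebra.mulCoalgHom R H).toLinearMap)

/-- `f ↦ μ ∘ (f ⊗ f)`. -/
noncomputable def mB (f : WithConv (H →ₗ[R] Ω)) : WithConv (H ⊗[R] H →ₗ[R] Ω) :=
  toConv ((Algebra.TensorProduct.lmul' R (S := Ω)).toLinearMap ∘ₗ
    TensorProduct.map f.ofConv f.ofConv)

omit [Coalgebra.IsCocomm R H] in
@[simp] theorem mA_apply_tmul (f : WithConv (H →ₗ[R] Ω)) (h h' : H) :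
    (mA f).ofConv (h ⊗ₜ[R] h') = f.ofConv (h * h') := by
  simp [mA]

omit [Coalgebra.IsCocomm R H] in
@[simp] theorem mB_apply_tmul (f : WithConv (H →ₗ[R] Ω)) (h h' : H) :
    (mB f).ofConv (h ⊗ₜ[R] h') = f.ofConv h * f.ofConv h' := by
  simp [mB]

omit [Coalgebra.IsCocomm R H] in
theorem mA_mul (f g : WithConv (H →ₗ[R] Ω)) : mA (f * g) = mA f * mA g := by
  apply WithConv.ext
  exact LinearMap.convMul_comp_coalgHom_distrib f g (Bialgebra.mulCoalgHom R H)

omit [Coalgebra.IsCocomm R H] in
theorem mA_one : mA (1 : WithConv (H →ₗ[R] Ω)) = 1 := by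
  apply WithConv.ext
  apply TensorProduct.ext'
  intro h h'
  rw [mA_apply_tmul]
  simp [LinearMap.convOne_def, mul_comm]

omit [Coalgebra.IsCocomm R H] in
theorem mA_pow (f : WithConv (H →ₗ[R] Ω)) (n : ℕ) : mA (f ^ n) = mA f ^ n := by
  induction n with
  | zero => simpa using mA_one (R := R) (Ω := Ω) (H := H)
  | succ n ih => rw [pow_succ, pow_succ, mA_mul, ih]

omit [Coalgebra.IsCocomm R H] in
theorem mA_sub (f g : WithConv (H →ₗ[R] Ω)) : mA (f - g) = mA f - mA g := by
  apply WithConv.ext
  apply TensorProduct.ext'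
  intro h h'
  simp [mA]

omit [Coalgebra.IsCocomm R H] in
theorem mB_mul (f g : WithConv (H →ₗ[R] Ω)) : mB (f * g) = mB f * mB g := by
  apply WithConv.ext
  have h1 := TensorProduct.map_convMul_map (R := R) (f := f) (h := g) (g := f) (k := g)
  have h2 := LinearMap.algHom_comp_convMul_distrib (R := R) (Algebra.TensorProduct.lmul' R (S := Ω))
    (toConv (TensorProduct.map f.ofConv f.ofConv)) (toConv (TensorProduct.map g.ofConv g.ofConv))
  rw [h1] at h2
  exact h2

omit [Coalgebra.IsCocomm R H] in
theorem mB_one : mB (1 : WithConv (H →ₗ[R] Ω)) = 1 := by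
  apply WithConv.ext
  apply TensorProduct.ext'
  intro h h'
  rw [mB_apply_tmul]
  simp [LinearMap.convOne_def, mul_comm]

omit [Coalgebra.IsCocomm R H] in
theorem mB_pow (f : WithConv (H →ₗ[R] Ω)) (n : ℕ) : mB (f ^ n) = mB f ^ n := by
  induction n with
  | zero => simpa using mB_one (R := R) (Ω := Ω) (H := H)
  | succ n ih => rw [pow_succ, pow_succ, mB_mul, ih]

end Mult

section Norm

variable {R : Type*} [CommRing R] {Ω : Type*} [Field Ω] [Algebra R Ω]
  {Γ : Type*} [LinearOrderedCommGroupWithZero Γ] (v : Valuation Ω Γ)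
  {H : Type*} [CommRing H] [Bialgebra R H] [Coalgebra.IsCocomm R H]
  {ι : Type*} [Fintype ι] (b : Module.Basis ι R H)
  (hR : ∀ r : R, v (algebraMap R Ω r) ≤ 1)

theorem convNorm_mA_le (f : WithConv (H →ₗ[R] Ω)) :
    (convNorm v (b.tensorProduct b) hR).N (mA f) ≤ (convNorm v b hR).N f := by
  rw [convNorm_le_iff]
  rintro ⟨i, j⟩
  rw [Module.Basis.tensorProduct_apply, mA_apply_tmul]
  exact apply_le_convNorm v b hR f _

theorem convNorm_mB_sub_le {f g : WithConv (H →ₗ[R] Ω)} (hf : (convNorm v b hR).N f ≤ 1)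
    (hg : (convNorm v b hR).N g ≤ 1) :
    (convNorm v (b.tensorProduct b) hR).N (mB f - mB g) ≤ (convNorm v b hR).N (f - g) := by
  rw [convNorm_le_iff]
  rintro ⟨i, j⟩
  rw [Module.Basis.tensorProduct_apply, ofConv_sub, LinearMap.sub_apply, mB_apply_tmul,
    mB_apply_tmul]
  have hid : f.ofConv (b i) * f.ofConv (b j) - g.ofConv (b i) * g.ofConv (b j)
      = (f - g).ofConv (b i) * f.ofConv (b j) + g.ofConv (b i) * (f - g).ofConv (b j) := by
    simp only [ofConv_sub, LinearMap.sub_apply]
    ring
  rw [hid]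
  refine (v.map_add _ _).trans (max_le ?_ ?_)
  · rw [map_mul]
    calc v ((f - g).ofConv (b i)) * v (f.ofConv (b j))
        ≤ (convNorm v b hR).N (f - g) * 1 :=
          mul_le_mul' (apply_le_convNorm v b hR _ _) ((apply_le_convNorm v b hR _ _).trans hf)
      _ = _ := mul_one _
  · rw [map_mul]
    calc v (g.ofConv (b i)) * v ((f - g).ofConv (b j))
        ≤ 1 * (convNorm v b hR).N (f - g) :=
          mul_le_mul' ((apply_le_convNorm v b hR _ _).trans hg) (apply_le_convNorm v b hR _ _)
      _ = _ := one_mul _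

theorem convNorm_mB_le_one {f : WithConv (H →ₗ[R] Ω)} (hf : (convNorm v b hR).N f ≤ 1) :
    (convNorm v (b.tensorProduct b) hR).N (mB f) ≤ 1 := by
  rw [convNorm_le_iff]
  rintro ⟨i, j⟩
  rw [Module.Basis.tensorProduct_apply, mB_apply_tmul, map_mul]
  calc v (f.ofConv (b i)) * v (f.ofConv (b j)) ≤ 1 * 1 :=
        mul_le_mul' ((apply_le_convNorm v b hR _ _).trans hf)
          ((apply_le_convNorm v b hR _ _).trans hf)
    _ = 1 := one_mul _

/-- The multiplicativity defect of an approximate `p`-th root of unity `f` in the convolution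
ring is controlled by the defect of `f ^ p = 1`. -/
theorem mul_defect_le {p : ℕ} (hp : p.Prime) {γ τ : Γ} (hγ : γ ^ (p - 1) < v (p : Ω))
    {f : WithConv (H →ₗ[R] Ω)} (hf : (convNorm v b hR).N f ≤ 1)
    (hAB : (convNorm v (b.tensorProduct b) hR).N (mA f - mB f) ≤ γ)
    (hτ : τ < 1) (hfp : (convNorm v b hR).N (f ^ p - 1) ≤ τ) :
    v (p : Ω) * (convNorm v (b.tensorProduct b) hR).N (mA f - mB f) ≤ τ := by
  set ν := convNorm v b hR with hν
  set ν₂ := convNorm v (b.tensorProduct b) hR with hν₂
  have hfp1 : ν.N (f ^ p) ≤ 1 := ν.pow_le_one hf p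
  have hBp : ν₂.N (mB f ^ p - 1) ≤ τ := by
    rw [← mB_pow, ← mB_one (R := R) (Ω := Ω) (H := H)]
    exact (convNorm_mB_sub_le v b hR hfp1 ν.one_le).trans hfp
  have hAp : ν₂.N (mA f ^ p - 1) ≤ τ := by
    rw [← mA_pow, ← mA_one (R := R) (Ω := Ω) (H := H), ← mA_sub]
    exact (convNorm_mA_le v b hR _).trans hfp
  have key := UNorm.mul_sub_le_pow_sub_pow (convNorm_pdata v (b.tensorProduct b) hR hp) hγ
    (convNorm_mB_le_one v b hR hf) hAB (lt_of_le_of_lt hBp hτ)
  refine key.trans ?_
  have : mA f ^ p - mB f ^ p = (mA f ^ p - 1) - (mB f ^ p - 1) := by ring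
  rw [this]
  exact ν₂.sub_le_of_le hAp hBp

end Norm

end Fermat.Agent.S56.H434

end
-- ===== PACK-END S56/H434/Mult.lean

-- ===== PACK-BEGIN S56/H384/ApproxPoint.lean
section


/-!
# S56 / W2-SS piece A5 (helper384): an approximate point is close to an exact point

`exists_point_near` has VERBATIM the statement of
`Fermat.Agent.S56.H434.exists_point_near` (origin/helper434, `S56/H434/ApproxPoint.lean`).

Proof: in `A = Ω ⊗[R] H` (basis `1 ⊗ b i`, functional `φ = f.liftBaseChange Ω`) the elements with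
`v`-integral coordinates form a subring on which `φ` is multiplicative up to `μ`; by
Cayley-Hamilton for multiplication by `a = ∑ c i • (1 ⊗ b i)` and the fact that the roots of its
characteristic polynomial are the values `χ a` of characters (`= ∑ c i * x (b i)` for points `x`),
some point `x` has `v (∑ c i * (f (b i) - x (b i))) < γ`; the avoidance lemma `exists_avoid`
makes `x` independent of `c`.
-/

set_option autoImplicit false
set_option linter.style.haveILetI false

namespace Fermat.Agent.S56.H384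

open TensorProduct

/-- An approximately multiplicative functional is close to a point. -/
theorem exists_point_near
    {Ω : Type*} [Field Ω] [IsAlgClosed Ω] {Γ : Type*} [LinearOrderedCommGroupWithZero Γ]
    (v : Valuation Ω Γ) {R : Type*} [CommRing R] [Algebra R Ω]
    (hR : ∀ r : R, v (algebraMap R Ω r) ≤ 1)
    {H : Type*} [CommRing H] [Algebra R H] [Finite (H →ₐ[R] Ω)]
    {ι : Type*} [Fintype ι] (b : Module.Basis ι R H)
    (f : H →ₗ[R] Ω) {γ μ : Γ} (hγ : γ ≤ 1) (hμ : μ < γ ^ Fintype.card ι)
    (hf : ∀ i, v (f (b i)) ≤ 1)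
    (hone : v (f 1 - 1) ≤ μ)
    (hmul : ∀ i j, v (f (b i * b j) - f (b i) * f (b j)) ≤ μ) :
    ∃ x : H →ₐ[R] Ω, ∀ i, v (f (b i) - x (b i)) ≤ γ := by
  classical
  let B : Module.Basis ι Ω (Ω ⊗[R] H) := Algebra.TensorProduct.basis Ω b
  let φ : (Ω ⊗[R] H) →ₗ[Ω] Ω := f.liftBaseChange Ω
  haveI : Module.Finite Ω (Ω ⊗[R] H) := Module.Finite.of_basis B
  haveI : Module.Finite R H := Module.Finite.of_basis b
  have hBapp : ∀ i, B i = (1 : Ω) ⊗ₜ[R] b i := fun i => Algebra.TensorProduct.basis_apply b i
  have hφt : ∀ h : H, φ ((1 : Ω) ⊗ₜ[R] h) = f h := fun h => by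
    simp [φ, LinearMap.liftBaseChange_tmul]
  have hIntT : ∀ h : H, IntC v B ((1 : Ω) ⊗ₜ[R] h) := fun h i => by
    rw [Algebra.TensorProduct.basis_repr_tmul]
    simpa using hR _
  have h1 : IntC v B 1 := hIntT 1
  have hBmul : ∀ i j, IntC v B (B i * B j) := fun i j => by
    rw [hBapp, hBapp, Algebra.TensorProduct.tmul_mul_tmul, one_mul]
    exact hIntT _
  have hφB : ∀ i, v (φ (B i)) ≤ 1 := fun i => by
    rw [hBapp, hφt]
    exact hf i
  have hφ1 : v (φ 1 - 1) ≤ μ := by
    rw [Algebra.TensorProduct.one_def, hφt]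
    exact hone
  have hφmul : ∀ i j, v (φ (B i * B j) - φ (B i) * φ (B j)) ≤ μ := fun i j => by
    rw [hBapp, hBapp, Algebra.TensorProduct.tmul_mul_tmul, one_mul, hφt, hφt, hφt]
    exact hmul i j
  -- points from characters
  let pt : ((Ω ⊗[R] H) →ₐ[Ω] Ω) → (H →ₐ[R] Ω) := fun χ =>
    (χ.restrictScalars R).comp Algebra.TensorProduct.includeRight
  have hpt : ∀ χ i, pt χ (b i) = χ (B i) := fun χ i => by
    rw [hBapp]
    rfl
  have hint : ∀ (x : H →ₐ[R] Ω) (h : H), v (x h) ≤ 1 := fun x h =>
    val_le_one_of_isIntegral v hR ((IsIntegral.of_finite R h).map x)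
  -- (5c): for integral `c` some point is `γ`-close in the direction `c`
  have key : ∀ c : ι → Ω, (∀ i, v (c i) ≤ 1) →
      ∃ x : H →ₐ[R] Ω, v (∑ i, c i * (f (b i) - x (b i))) ≤ γ := by
    intro c hc
    set a : Ω ⊗[R] H := ∑ i, c i • B i with ha
    have hrepr : ∀ i, B.repr a i = c i := fun i => by
      rw [ha, B.repr_sum_self]
    have haInt : IntC v B a := fun i => by
      rw [hrepr]
      exact hc i
    have hχa : ∀ χ : (Ω ⊗[R] H) →ₐ[Ω] Ω, χ a = ∑ i, c i * pt χ (b i) := fun χ => by
      rw [ha, map_sum]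
      refine Finset.sum_congr rfl fun i _ => ?_
      rw [map_smul, smul_eq_mul, hpt]
    have hroots : ∀ lam ∈ (LinearMap.mulLeft Ω a).charpoly.roots, v lam ≤ 1 := by
      intro lam hlam
      obtain ⟨χ, hχ⟩ := exists_algHom_of_isRoot_charpoly a (Polynomial.isRoot_of_mem_roots hlam)
      rw [← hχ, hχa]
      refine v.map_sum_le fun i _ => ?_
      rw [map_mul]
      exact mul_le_one' (hc i) (hint _ _)
    obtain ⟨lam, hlam, hnear⟩ :=
      IntC.exists_root_near φ h1 hBmul hφB hφ1 hφmul hγ hμ haInt hroots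
    obtain ⟨χ, hχ⟩ := exists_algHom_of_isRoot_charpoly a (Polynomial.isRoot_of_mem_roots hlam)
    refine ⟨pt χ, ?_⟩
    have e : φ a - lam = ∑ i, c i * (f (b i) - pt χ (b i)) := by
      rw [← hχ, hχa, ha, map_sum, ← Finset.sum_sub_distrib]
      refine Finset.sum_congr rfl fun i _ => ?_
      rw [map_smul, smul_eq_mul, hBapp, hφt, mul_sub]
    rw [← e]
    exact hnear.le
  -- (5d): avoidance
  by_contra hcon
  push Not at hcon
  haveI := Fintype.ofFinite (H →ₐ[R] Ω)
  let ψ : (H →ₐ[R] Ω) → (ι → Ω) →ₗ[Ω] Ω := fun x =>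
    ∑ i, (f (b i) - x (b i)) • (LinearMap.proj i : (ι → Ω) →ₗ[Ω] Ω)
  have hψ : ∀ x c, ψ x c = ∑ i, c i * (f (b i) - x (b i)) := fun x c => by
    simp only [ψ, LinearMap.sum_apply, LinearMap.smul_apply, LinearMap.proj_apply, smul_eq_mul]
    exact Finset.sum_congr rfl fun i _ => mul_comm _ _
  obtain ⟨c, hcM, hc⟩ := exists_avoid v (fun c : ι → Ω => ∀ i, v (c i) ≤ 1)
    (fun i => by simp)
    (fun x y hx hy i => v.map_add_le (hx i) (hy i))
    (fun s x hs hx i => by
      rw [Pi.smul_apply, smul_eq_mul, map_mul]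
      exact mul_le_one' hs (hx i))
    ψ γ Finset.univ (fun x _ => by
      obtain ⟨i, hi⟩ := hcon x
      refine ⟨Pi.single i 1, fun j => ?_, ?_⟩
      · by_cases hji : j = i
        · subst hji
          simp
        · simp [Pi.single_eq_of_ne hji]
      · rw [hψ]
        simpa [Pi.single_apply] using hi)
  obtain ⟨x, hx⟩ := key c hcM
  rw [← hψ] at hx
  exact absurd (hc x (Finset.mem_univ _)) (not_lt.mpr hx)

end Fermat.Agent.S56.H384

end
-- ===== PACK-END S56/H384/ApproxPoint.lean

-- ===== PACK-BEGIN S56/H334/RamHilbert.lean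
section


/-!
# S56 / W-FLAT-SS, piece FL-RAM (helper334), part 3: Hilbert's formula for the different

AKLB setting: `A ⊆ B` integrally closed domains with fraction fields `K ⊆ L`, `L/K` finite
separable, `B` Dedekind and the integral closure of `A` in `L`, `Γ` a finite group with
`IsGaloisGroup Γ A B`, and `B = A[x]` monogenic.

* `eval_derivative_charpoly` : `f'(x) = ∏_{σ ≠ 1} (x - σ x)` for `f = ∏_σ (X - σ x)`.
* `minpoly_map_eq_charpoly` : the minimal polynomial of `x` over `A` is `∏_σ (X - σ x)`.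
* `differentIdeal_eq_span_prod` : `𝔇_{B/A} = (∏_{σ ≠ 1} (x - σ x))`.
* `lowIdx Γ B σ` : the lower index `i_Γ(σ) = min {n | σ ∉ Γ_n}` (so `σ ∈ Γ_n ↔ n < i_Γ(σ)`).
* `differentIdeal_eq_pow_sum_lowIdx` (**Hilbert's formula**, Serre LF IV §1 Prop. 4):
  for `B` a DVR, `𝔇_{B/A} = 𝔪_B ^ (∑_{σ ≠ 1} i_Γ(σ))`.
-/

set_option autoImplicit false
set_option linter.unusedSectionVars false
set_option linter.style.haveILetI false

open IsLocalRing Polynomial

namespace Fermat.Agent.S56.H334

section Charpoly

variable {B : Type*} [CommRing B] {Γ : Type*} [Group Γ] [Fintype Γ] [MulSemiringAction Γ B]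

/-- `f'(x) = ∏_{σ ≠ 1} (x - σ x)` for `f = ∏_σ (X - σ x)`. -/
theorem eval_derivative_charpoly [DecidableEq Γ] (x : B) :
    (derivative (MulSemiringAction.charpoly Γ x)).eval x =
      ∏ σ ∈ Finset.univ.erase (1 : Γ), (x - σ • x) := by
  rw [MulSemiringAction.charpoly_eq, derivative_prod_finset, eval_finsetSum]
  rw [Finset.sum_eq_single (1 : Γ)]
  · rw [eval_mul, eval_prod]
    simp
  · intro σ _ hσ
    rw [eval_mul, eval_prod]
    have : (1 : Γ) ∈ Finset.univ.erase σ := Finset.mem_erase.2 ⟨hσ.symm, Finset.mem_univ _⟩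
    rw [Finset.prod_eq_zero this (by simp), zero_mul]
  · intro h
    exact absurd (Finset.mem_univ _) h

end Charpoly

section Minpoly

variable (A B : Type*) [CommRing A] [CommRing B] [Algebra A B] [IsDomain A] [IsIntegrallyClosed A]
  [IsDomain B] [Module.IsTorsionFree A B] [Module.Finite A B]
  (Γ : Type*) [Group Γ] [Fintype Γ] [MulSemiringAction Γ B] [IsGaloisGroup Γ A B]

/-- If `B = A[x]` and `Γ` is a Galois group of `B/A`, then the minimal polynomial of `x` is
`∏_σ (X - σ x)`. -/
theorem minpoly_map_eq_charpoly {x : B} (hx : Algebra.adjoin A {x} = ⊤) :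
    (minpoly A x).map (algebraMap A B) = MulSemiringAction.charpoly Γ x := by
  classical
  have hint : IsIntegral A x := Algebra.IsIntegral.isIntegral x
  -- a monic lift of the characteristic polynomial
  obtain ⟨M, hM, hMdeg, hMmonic⟩ := Polynomial.lifts_and_natDegree_eq_and_monic
    (Algebra.IsInvariant.charpoly_mem_lifts A B Γ x) (MulSemiringAction.monic_charpoly Γ x)
  have hroot : aeval x M = 0 := by
    rw [aeval_def, ← eval_map, hM, MulSemiringAction.eval_charpoly]
  have hdvd : minpoly A x ∣ M := minpoly.isIntegrallyClosed_dvd hint hroot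
  -- degrees
  have hdeg1 : M.natDegree = Nat.card Γ := by
    rw [hMdeg, MulSemiringAction.charpoly_eq,
      natDegree_prod_of_monic _ _ (fun σ _ => monic_X_sub_C _)]
    simp
  have hdeg2 : (minpoly A x).natDegree = Module.finrank A B := by
    rw [← Algebra.adjoin.powerBasis'_dim hint, ← PowerBasis.finrank]
    exact LinearEquiv.finrank_eq
      ((Subalgebra.equivOfEq _ _ hx).trans Subalgebra.topEquiv).toLinearEquiv
  have hcard : Nat.card Γ = Module.finrank A B := IsGaloisGroup.card_eq_finrank' Γ A B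
  have heq : M = minpoly A x := by
    refine Polynomial.eq_of_monic_of_dvd_of_natDegree_le (minpoly.monic hint) hMmonic hdvd ?_
    rw [hdeg1, hdeg2, hcard]
  rw [← heq, hM]

end Minpoly

section Different

variable (A K L : Type*) {B : Type*} [CommRing A] [Field K] [CommRing B] [Field L]
  [Algebra A K] [Algebra B L] [Algebra A B] [Algebra K L] [Algebra A L]
  [IsScalarTower A K L] [IsScalarTower A B L]
  [IsDomain A] [IsFractionRing A K] [IsFractionRing B L] [FiniteDimensional K L]

omit [IsDomain A] [IsFractionRing A K] in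
/-- If `B = A[x]`, then `L = K[x]`. -/
theorem adjoin_field_eq_top [IsDomain B] {x : B} (hx : Algebra.adjoin A {x} = ⊤) :
    Algebra.adjoin K {algebraMap B L x} = ⊤ := by
  rw [eq_top_iff]
  intro y _
  have hB : ∀ b : B, algebraMap B L b ∈ Algebra.adjoin K {algebraMap B L x} := by
    intro b
    have hb : b ∈ Algebra.adjoin A {x} := by rw [hx]; exact Algebra.mem_top
    induction hb using Algebra.adjoin_induction with
    | mem z hz =>
      rw [Set.mem_singleton_iff] at hz
      rw [hz]
      exact Algebra.subset_adjoin (Set.mem_singleton _)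
    | algebraMap a =>
      rw [← IsScalarTower.algebraMap_apply A B L, IsScalarTower.algebraMap_apply A K L]
      exact Subalgebra.algebraMap_mem _ _
    | add y z _ _ hy hz =>
      rw [map_add]
      exact add_mem hy hz
    | mul y z _ _ hy hz =>
      rw [map_mul]
      exact mul_mem hy hz
  obtain ⟨b, s, hs, rfl⟩ := IsFractionRing.div_surjective (A := B) y
  rw [div_eq_mul_inv]
  refine mul_mem (hB b) ?_
  have halg : IsAlgebraic K ((⟨algebraMap B L s, hB s⟩ :
      Algebra.adjoin K {algebraMap B L x}) : L) := Algebra.IsAlgebraic.isAlgebraic _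
  exact Subalgebra.inv_mem_of_algebraic (Algebra.adjoin K {algebraMap B L x})
    (x := ⟨algebraMap B L s, hB s⟩) halg

variable [Algebra.IsSeparable K L] [IsIntegralClosure B A L] [IsIntegrallyClosed A]
  [IsDedekindDomain B] [Module.IsTorsionFree A B] [Module.Finite A B]
  (Γ : Type*) [Group Γ] [Fintype Γ] [MulSemiringAction Γ B] [IsGaloisGroup Γ A B]

include K L in
/-- `𝔇_{B/A} = (∏_{σ ≠ 1} (x - σ x))` if `B = A[x]`. -/
theorem differentIdeal_eq_span_prod [DecidableEq Γ] {x : B} (hx : Algebra.adjoin A {x} = ⊤) :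
    differentIdeal A B = Ideal.span {∏ σ ∈ Finset.univ.erase (1 : Γ), (x - σ • x)} := by
  have h := conductor_mul_differentIdeal A K L x (adjoin_field_eq_top A K L hx)
  rw [conductor_eq_top_of_adjoin_eq_top hx, Ideal.top_mul] at h
  rw [h, aeval_def, ← eval_map, ← derivative_map, minpoly_map_eq_charpoly A B Γ hx,
    eval_derivative_charpoly]

end Different

/-! ### The lower index and Hilbert's formula -/

section LowIdx

variable {B : Type*} [CommRing B] [IsDomain B] [IsDiscreteValuationRing B]
variable {Γ : Type*} [Group Γ] [MulSemiringAction Γ B]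

/-- The lower index `i_Γ(σ) = min {n | σ ∉ Γ_n}` (and `0` if `σ` lies in all `Γ_n`). -/
noncomputable def lowIdx (Γ : Type*) (B : Type*) [CommRing B] [IsDomain B]
    [IsDiscreteValuationRing B] [Group Γ] [MulSemiringAction Γ B] (σ : Γ) : ℕ :=
  open Classical in
  if h : ∃ n, σ ∉ ramGroup Γ B n then Nat.find h else 0

theorem exists_not_mem_ramGroup [FaithfulSMul Γ B] {σ : Γ} (hσ : σ ≠ 1) :
    ∃ n, σ ∉ ramGroup Γ B n := by
  by_contra h
  rw [not_exists] at h
  exact hσ (eq_one_of_forall_mem_ramGroup fun n => not_not.1 (h n))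

/-- `σ ∈ Γ_n ↔ n < i_Γ(σ)` for `σ ≠ 1`. -/
theorem mem_ramGroup_iff_lt_lowIdx [FaithfulSMul Γ B] {σ : Γ} (hσ : σ ≠ 1) (n : ℕ) :
    σ ∈ ramGroup Γ B n ↔ n < lowIdx Γ B σ := by
  classical
  have h := exists_not_mem_ramGroup (B := B) hσ
  rw [lowIdx, dif_pos h, Nat.lt_find_iff]
  constructor
  · intro hn m hm
    rw [not_not]
    exact ramGroup_antitone hm hn
  · intro hn
    exact not_not.1 (hn n le_rfl)

theorem span_eq_maximalIdeal_pow {y : B} {k : ℕ} (h1 : y ∈ maximalIdeal B ^ k)
    (h2 : y ∉ maximalIdeal B ^ (k + 1)) : Ideal.span {y} = maximalIdeal B ^ k := by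
  obtain ⟨π, hπ⟩ := IsDiscreteValuationRing.exists_irreducible B
  rw [mem_maximalIdeal_pow_iff_dvd hπ] at h1 h2
  obtain ⟨u, rfl⟩ := h1
  have hu : IsUnit u := by
    by_contra hu
    have : π ∣ u := by
      have hmem : u ∈ maximalIdeal B := (mem_maximalIdeal u).2 hu
      rwa [hπ.maximalIdeal_eq, Ideal.mem_span_singleton] at hmem
    exact h2 (by rw [pow_succ]; exact mul_dvd_mul_left _ this)
  rw [hπ.maximalIdeal_eq, Ideal.span_singleton_pow]
  exact Ideal.span_singleton_eq_span_singleton.2 (associated_mul_unit_left _ _ hu)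

variable {A : Type*} [CommRing A] [Algebra A B] [SMulCommClass Γ A B]

/-- If `B = A[x]`, then `(σ x - x) = 𝔪 ^ i_Γ(σ)` for `σ ≠ 1`. -/
theorem span_smul_sub_eq [FaithfulSMul Γ B] {x : B} (hx : Algebra.adjoin A {x} = ⊤) {σ : Γ}
    (hσ : σ ≠ 1) : Ideal.span {σ • x - x} = maximalIdeal B ^ lowIdx Γ B σ := by
  apply span_eq_maximalIdeal_pow
  · rcases Nat.eq_zero_or_pos (lowIdx Γ B σ) with h0 | hpos
    · rw [h0, pow_zero, Ideal.one_eq_top]
      exact Submodule.mem_top (R := B) (M := B)
    · have h1 : σ ∈ ramGroup Γ B (lowIdx Γ B σ - 1) :=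
        (mem_ramGroup_iff_lt_lowIdx hσ _).2 (by omega)
      have h2 := (mem_ramGroup_of_adjoin (A := A) hx).1 h1
      rwa [Nat.sub_add_cancel hpos] at h2
  · intro h
    have h1 : σ ∈ ramGroup Γ B (lowIdx Γ B σ) := (mem_ramGroup_of_adjoin (A := A) hx).2 h
    exact lt_irrefl _ ((mem_ramGroup_iff_lt_lowIdx hσ _).1 h1)

end LowIdx

section Hilbert

variable (A K L : Type*) {B : Type*} [CommRing A] [Field K] [CommRing B] [Field L]
  [Algebra A K] [Algebra B L] [Algebra A B] [Algebra K L] [Algebra A L]
  [IsScalarTower A K L] [IsScalarTower A B L]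
  [IsDomain A] [IsFractionRing A K] [IsFractionRing B L] [FiniteDimensional K L]
  [Algebra.IsSeparable K L] [IsIntegralClosure B A L] [IsIntegrallyClosed A]
  [IsDomain B] [IsDiscreteValuationRing B] [Module.IsTorsionFree A B] [Module.Finite A B]
  (Γ : Type*) [Group Γ] [Fintype Γ] [MulSemiringAction Γ B] [IsGaloisGroup Γ A B]

include K L in
/-- **Hilbert's formula** (Serre, Local Fields IV §1 Prop. 4): if `B = A[x]` is a DVR and `Γ` is
a Galois group of `B/A`, then `𝔇_{B/A} = 𝔪_B ^ (∑_{σ ≠ 1} i_Γ(σ))`. -/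
theorem differentIdeal_eq_pow_sum_lowIdx [DecidableEq Γ] {x : B}
    (hx : Algebra.adjoin A {x} = ⊤) :
    differentIdeal A B = maximalIdeal B ^ (∑ σ ∈ Finset.univ.erase (1 : Γ), lowIdx Γ B σ) := by
  haveI : FaithfulSMul Γ B := IsGaloisGroup.faithful A
  haveI : SMulCommClass Γ A B := IsGaloisGroup.commutes
  rw [differentIdeal_eq_span_prod A K L Γ hx, ← Ideal.prod_span_singleton,
    ← Finset.prod_pow_eq_pow_sum]
  refine Finset.prod_congr rfl fun σ hσ => ?_
  have hσ1 : σ ≠ 1 := (Finset.mem_erase.1 hσ).1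
  rw [← span_smul_sub_eq (A := A) hx hσ1, ← neg_sub, Ideal.span_singleton_neg]

end Hilbert

end Fermat.Agent.S56.H334

end
-- ===== PACK-END S56/H334/RamHilbert.lean

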