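import Mathlib
import Fermat.Prelude.Def_GroupCohomology_ContinuousUnramified
import Fermat.Prelude.Def_GaloisRep_DeformationRingData
import Fermat.Prelude.Def_GaloisRep_DeformationCondition
import Fermat.Prelude.Thm_IsLocalRing_isAdicComplete_of_module_finite
import Fermat.Agent.Pack.S43GC.G0E5L1
import Fermat.Agent.Pack.S43GC.G0E5L3
import Fermat.Agent.Pack.S44C.G0E12L3
import Fermat.Agent.Pack.S43GC.G0E3L3
import Fermat.Agent.Pack.S43GC.G0E0L3
import Fermat.Agent.Pack.S43GC.G0E5L0
import Fermat.Agent.Pack.S43GC.G0E5L2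
import Fermat.Agent.Pack.S43GC.G0E0L0
import Fermat.Agent.Pack.S43GC.G0E3L0
import Fermat.Agent.Pack.S43GC.G2E0L0
import Fermat.Agent.Pack.S43GC.G0E4L3
import Fermat.Agent.Pack.S43GC.G0E2L3
import Fermat.Agent.Pack.S43GC.G0E2L2
import Fermat.Agent.Pack.S43GC.G0E4L0
import Fermat.Agent.Pack.S43GC.G0E2L0
import Fermat.Agent.Pack.S43GC.G0E2L1
import Fermat.Agent.Pack.S43GC.G0E6L0
import Fermat.Agent.Pack.Fast891

-- ===== PACK-BEGIN S56/H716/TBSpec.lean
section


/-!
# Row S56 — tangent bound (TB), layer 1: FROZEN statements (deputy helper716)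

`TB(cond)  ⇐  DICT(cond) + SELBOUND(cond)`     (glue: `H716/TBGlue.lean`, proved)

* `DictOrdStatement`, `DictFlatStatement` (DICT): for every universal ring `DQ` of type `cond Q`
  there is a map `f : Hom_𝒪(R_Q, k[ε]) → {functions G_ℚ → End_k V}` whose values are tangent cocycles
  of type `cond Q` (or the zero function: so the trivial tangent vector needs no base change along
  the non-surjective map `R_Q → k → k[ε]`) and which is injective modulo coboundaries.
* `SelBoundOrdStatement`, `SelBoundFlatStatement` (SELBOUND = the cohomological wall): there is a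
  dual Selmer frame `D` such that for every set `Q` of Taylor–Wiles primes killing `D`, all tangent
  cocycles of type `cond Q` lie, modulo coboundaries, in a `k`-space of cocycles of dimension
  `≤ #Q`.

Nothing unproved in this file.
-/

set_option autoImplicit false

open Polynomial IsLocalRing

noncomputable section

namespace Fermat.Agent.S56.H716

open Fermat.Agent.S56

section

variable (𝒪 : Type) [CommRing 𝒪] [IsDomain 𝒪] [IsDiscreteValuationRing 𝒪]
  [IsAdicComplete (maximalIdeal 𝒪) 𝒪]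
  (p : ℕ) (ρbar : ResidualGaloisRep (ResidueField 𝒪)) (S : Finset ℕ)

/-- (DICT) for one condition `𝒟` and one universal ring of type `𝒟`. -/
def Dict (𝒟 : DefCond 𝒪) : Prop :=
  ∀ DQ : GaloisRep.DeformationRingData 𝒪 ρbar 𝒟,
    ∃ f : TanHom 𝒪 DQ.R → (GQ → Module.End (ResidueField 𝒪) ρbar.V),
      (∀ φ, IsTanCocycle 𝒪 ρbar 𝒟 (f φ) ∨ f φ = 0) ∧
      ∀ φ φ', IsAdCoboundary ρbar (f φ - f φ') → φ = φ'

/-- (SELBOUND) for a family of conditions indexed by the auxiliary set `Q`. -/
def SelBound (cond : Finset ℕ → DefCond 𝒪) : Prop :=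
  ∃ D : Submodule (ResidueField 𝒪) (GQ → Module.End (ResidueField 𝒪) ρbar.V),
    IsDualFrame ρbar p D ∧
    ∀ Q : Finset ℕ, (∀ q ∈ Q, IsTWPrime ρbar p S q) → Kills ρbar p D Q →
      ∃ T : Submodule (ResidueField 𝒪) (GQ → Module.End (ResidueField 𝒪) ρbar.V),
        Module.Finite (ResidueField 𝒪) T ∧ Module.finrank (ResidueField 𝒪) T ≤ Q.card ∧
        ∀ c, IsTanCocycle 𝒪 ρbar (cond Q) c → ∃ t ∈ T, IsAdCoboundary ρbar (c - t)

end

/-- (DICT-ord). -/
def DictOrdStatement : Prop :=
  ∀ (𝒪 : Type) [CommRing 𝒪] [IsDomain 𝒪] [IsDiscreteValuationRing 𝒪]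
    [IsAdicComplete (maximalIdeal 𝒪) 𝒪] [Finite (ResidueField 𝒪)]
    (p : ℕ) (ρbar : ResidualGaloisRep (ResidueField 𝒪)) (S Smin : Finset ℕ),
    Hyp 𝒪 p ρbar S Smin → ∀ Q : Finset ℕ, Dict 𝒪 ρbar (ordCond 𝒪 p Smin Q)

/-- (DICT-flat). -/
def DictFlatStatement : Prop :=
  ∀ (𝒪 : Type) [CommRing 𝒪] [IsDomain 𝒪] [IsDiscreteValuationRing 𝒪]
    [IsAdicComplete (maximalIdeal 𝒪) 𝒪] [Finite (ResidueField 𝒪)]
    (p : ℕ) (ρbar : ResidualGaloisRep (ResidueField 𝒪)) (S Smin : Finset ℕ),
    Hyp 𝒪 p ρbar S Smin → ∀ Q : Finset ℕ, Dict 𝒪 ρbar (flatCond 𝒪 p Smin Q)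

/-- (SELBOUND-ord): the cohomological wall, strict-ordinary half. -/
def SelBoundOrdStatement : Prop :=
  ∀ (𝒪 : Type) [CommRing 𝒪] [IsDomain 𝒪] [IsDiscreteValuationRing 𝒪]
    [IsAdicComplete (maximalIdeal 𝒪) 𝒪] [Finite (ResidueField 𝒪)]
    (p : ℕ) (ρbar : ResidualGaloisRep (ResidueField 𝒪)) (S Smin : Finset ℕ),
    Hyp 𝒪 p ρbar S Smin → SelBound 𝒪 p ρbar S (ordCond 𝒪 p Smin)

/-- (SELBOUND-flat): the cohomological wall, flat half. -/
def SelBoundFlatStatement : Prop :=
  ∀ (𝒪 : Type) [CommRing 𝒪] [IsDomain 𝒪] [IsDiscreteValuationRing 𝒪]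
    [IsAdicComplete (maximalIdeal 𝒪) 𝒪] [Finite (ResidueField 𝒪)]
    (p : ℕ) (ρbar : ResidualGaloisRep (ResidueField 𝒪)) (S Smin : Finset ℕ),
    Hyp 𝒪 p ρbar S Smin → SelBound 𝒪 p ρbar S (flatCond 𝒪 p Smin)

end Fermat.Agent.S56.H716

end

end
-- ===== PACK-END S56/H716/TBSpec.lean

-- ===== PACK-BEGIN S55/PT/LesExactH113.lean
section


/-!
# S55 / PT layer, leaves D-F1, D-F2, D-F3 (helper113): the long exact sequence in low degrees

For a short exact sequence `E : SES A B C` of uniformly smooth representations: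

* `ker_del0`, `range_del0`   : exactness at `H⁰(C)` and `H¹(A)`        (D-F1)
* `ker_del1`, `range_del1`   : exactness at `H¹(C)` and `H²(A)`        (D-F2)
* `ker_pushH1`, `ker_pushH2` : exactness at `H¹(B)` and `H²(B)`        (D-F3)
-/

set_option autoImplicit false

noncomputable section

namespace Fermat.Agent.S55.PT.H113

open groupCohomology Fermat.Agent.S55.PT

variable {k : Type} [Field k] {G : Type} [Group G]
variable {A B C : Rep.{0, 0, 0} k G} (E : SES A B C) (L : LevelSys G)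

/-! ### helpers -/

lemma ses_hi (g : G) (a : A) : E.i (A.ρ g a) = B.ρ g (E.i a) := E.hi g a

lemma ses_hπ (g : G) (b : B) : E.π (B.ρ g b) = C.ρ g (E.π b) := E.hπ g b

lemma ses_π_sec_sub (b : B) : E.π (E.sec (E.π b) - b) = 0 := by
  rw [map_sub, E.π_sec, sub_self]

lemma ses_comp_injective {X : Type*} {f f' : X → A} (h : E.i ∘ f = E.i ∘ f') : f = f' := by
  funext x
  exact E.inj (congrFun h x)

lemma d₁₂_d₀₁ (b : B) : (d₁₂ B).hom ((d₀₁ B).hom b) = 0 :=
  d₀₁_apply_mem_cocycles₁ b

lemma d₂₃_d₁₂ (x : G → B) : (d₂₃ B).hom ((d₁₂ B).hom x) = 0 :=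
  d₁₂_apply_mem_cocycles₂ x

/-! ### D-F1 -/

/-- (D-F1) exactness at `H⁰(C)`: `ker δ⁰ = im (H⁰(B) → H⁰(C))`. -/
theorem ker_del0 (hB : L.IsUSmooth B) :
    LinearMap.ker (E.del0 L hB) = LinearMap.range (pushH0 E.π E.hπ) := by
  ext c
  rw [LinearMap.mem_ker, LinearMap.mem_range, SES.del0_apply, LevelSys.H1π_eq_zero_iff]
  constructor
  · rintro ⟨a, ha⟩
    have ha' : (d₀₁ A).hom a = E.del0Fun (c : C) := ha
    have hkey : (d₀₁ B).hom (E.i a) = (d₀₁ B).hom (E.sec (c : C)) := by
      rw [push_d₀₁ E.i E.hi, ha', E.i_comp_del0Fun c]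
    refine ⟨⟨E.sec (c : C) - E.i a, ?_⟩, ?_⟩
    · intro g
      have h := congrFun hkey g
      rw [d₀₁_hom_apply, d₀₁_hom_apply] at h
      rw [map_sub]
      have : B.ρ g (E.sec (c : C)) - B.ρ g (E.i a) - (E.sec (c : C) - E.i a) = 0 := by
        rw [sub_sub_sub_comm, h, sub_self]
      exact sub_eq_zero.1 this
    · apply Subtype.ext
      rw [coe_pushH0]
      simp only [map_sub, E.π_sec, E.π_i, sub_zero]
  · rintro ⟨b, rfl⟩
    have hb : ∀ g, B.ρ g (b : B) = b := b.2
    refine ⟨E.ret (E.sec (E.π (b : B)) - b), ?_⟩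
    apply ses_comp_injective E
    rw [← push_d₀₁ E.i E.hi, E.i_ret (ses_π_sec_sub E (b : B))]
    have hc := E.i_comp_del0Fun (pushH0 E.π E.hπ b)
    rw [coe_pushH0] at hc
    show _ = E.i ∘ E.del0Fun (E.π (b : B))
    rw [hc, map_sub]
    have h0 : (d₀₁ B).hom (b : B) = 0 := by
      funext g
      rw [d₀₁_hom_apply, hb g, sub_self]
      rfl
    rw [h0, sub_zero]

/-- (D-F1) exactness at `H¹(A)`: `im δ⁰ = ker (H¹(A) → H¹(B))`. -/
theorem range_del0 (hB : L.IsUSmooth B) :
    LinearMap.range (E.del0 L hB) = LinearMap.ker (pushH1 E.i E.hi L) := by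
  ext x
  rw [LinearMap.mem_range, LinearMap.mem_ker]
  constructor
  · rintro ⟨c, rfl⟩
    rw [SES.del0_apply, pushH1_mk, LevelSys.H1π_eq_zero_iff, coe_pushZ1]
    exact ⟨E.sec (c : C), (E.i_comp_del0Fun c).symm⟩
  · intro hx
    obtain ⟨f, rfl⟩ := L.H1π_surjective A x
    rw [pushH1_mk, LevelSys.H1π_eq_zero_iff, coe_pushZ1] at hx
    obtain ⟨b, hb⟩ := hx
    have hb' : (d₀₁ B).hom b = E.i ∘ (f : G → A) := hb
    have hinv : ∀ g, C.ρ g (E.π b) = E.π b := by
      intro g
      have h := congrFun hb' g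
      rw [d₀₁_hom_apply] at h
      have h2 : E.π (B.ρ g b - b) = 0 := by
        rw [h]
        exact E.π_i _
      rw [map_sub, ses_hπ] at h2
      exact sub_eq_zero.1 h2
    refine ⟨⟨E.π b, hinv⟩, ?_⟩
    rw [SES.del0_apply, ← sub_eq_zero, ← map_sub, LevelSys.H1π_eq_zero_iff]
    refine ⟨E.ret (E.sec (E.π b) - b), ?_⟩
    apply ses_comp_injective E
    rw [← push_d₀₁ E.i E.hi, E.i_ret (ses_π_sec_sub E b), map_sub, hb']
    have hc := E.i_comp_del0Fun ⟨E.π b, hinv⟩
    funext g
    have hcg := congrFun hc g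
    simp only [Function.comp_apply] at hcg
    simp only [Pi.sub_apply, Function.comp_apply, Submodule.coe_sub, map_sub]
    rw [← hcg]

/-! ### D-F2 -/

/-- (D-F2) exactness at `H¹(C)`: `ker δ¹ = im (H¹(B) → H¹(C))`. -/
theorem ker_del1 (hN : L.NormalCofinal) (hB : L.IsUSmooth B) (hC : L.IsUSmooth C) :
    LinearMap.ker (E.del1 L hN hB hC) = LinearMap.range (pushH1 E.π E.hπ L) := by
  ext x
  rw [LinearMap.mem_ker, LinearMap.mem_range]
  constructor
  · intro hx
    obtain ⟨c, rfl⟩ := L.H1π_surjective C x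
    rw [SES.del1_mk, LevelSys.H2π_eq_zero_iff] at hx
    obtain ⟨z, hz, hzc⟩ := hx
    have hzc' : (d₁₂ A).hom z = E.del1Fun (c : G → C) := hzc
    have hzlc : L.IsLC₁ z := hz
    have hclc : L.IsLC₁ (c : G → C) := c.2.2
    have hf : (E.sec ∘ (c : G → C) - E.i ∘ z) ∈ L.Z1 B := by
      refine ⟨?_, (L.C1 B).sub_mem (hclc.comp E.sec) (hzlc.comp E.i)⟩
      show (d₁₂ B).hom (E.sec ∘ (c : G → C) - E.i ∘ z) = 0
      rw [map_sub, push_d₁₂ E.i E.hi, hzc', E.i_comp_del1Fun c.2.1, sub_self]
    refine ⟨L.H1π B ⟨_, hf⟩, ?_⟩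
    rw [pushH1_mk]
    congr 1
    apply Subtype.ext
    rw [coe_pushZ1]
    funext g
    simp only [Function.comp_apply, Pi.sub_apply, map_sub, E.π_sec, E.π_i, sub_zero]
  · rintro ⟨y, rfl⟩
    obtain ⟨f, rfl⟩ := L.H1π_surjective B y
    rw [pushH1_mk, SES.del1_mk, LevelSys.H2π_eq_zero_iff]
    show E.del1Fun (E.π ∘ (f : G → B)) ∈ L.B2 A
    have hflc : L.IsLC₁ (f : G → B) := f.2.2
    have hfc : (d₁₂ B).hom (f : G → B) = 0 := f.2.1
    have hπ0 : ∀ g, E.π ((E.sec ∘ (E.π ∘ (f : G → B)) - (f : G → B)) g) = 0 := by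
      intro g
      simp only [Pi.sub_apply, Function.comp_apply, map_sub, E.π_sec, sub_self]
    refine ⟨E.ret ∘ (E.sec ∘ (E.π ∘ (f : G → B)) - (f : G → B)),
      (((L.C1 B).sub_mem ((hflc.comp E.π).comp E.sec) hflc) : L.IsLC₁ _).comp E.ret, ?_⟩
    apply ses_comp_injective E
    have hcoc : E.π ∘ (f : G → B) ∈ cocycles₁ C := push_mem_cocycles₁ E.π E.hπ f.2.1
    rw [← push_d₁₂ E.i E.hi, E.i_comp_ret_comp hπ0, E.i_comp_del1Fun hcoc, map_sub, hfc,
      sub_zero]

/-- (D-F2) exactness at `H²(A)`: `im δ¹ = ker (H²(A) → H²(B))`. -/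
theorem range_del1 (hN : L.NormalCofinal) (hB : L.IsUSmooth B) (hC : L.IsUSmooth C) :
    LinearMap.range (E.del1 L hN hB hC) = LinearMap.ker (pushH2 E.i E.hi L) := by
  ext x
  rw [LinearMap.mem_range, LinearMap.mem_ker]
  constructor
  · rintro ⟨y, rfl⟩
    obtain ⟨c, rfl⟩ := L.H1π_surjective C y
    rw [SES.del1_mk, pushH2_mk, LevelSys.H2π_eq_zero_iff, coe_pushZ2]
    have hclc : L.IsLC₁ (c : G → C) := c.2.2
    exact ⟨E.sec ∘ (c : G → C), hclc.comp E.sec, (E.i_comp_del1Fun c.2.1).symm⟩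
  · intro hx
    obtain ⟨f, rfl⟩ := L.H2π_surjective A x
    rw [pushH2_mk, LevelSys.H2π_eq_zero_iff, coe_pushZ2] at hx
    obtain ⟨w, hw, hwf⟩ := hx
    have hwlc : L.IsLC₁ w := hw
    have hwf' : (d₁₂ B).hom w = E.i ∘ (f : G × G → A) := hwf
    have hcoc : E.π ∘ w ∈ cocycles₁ C := by
      show (d₁₂ C).hom (E.π ∘ w) = 0
      rw [push_d₁₂ E.π E.hπ, hwf']
      funext x
      simp only [Function.comp_apply, E.π_i]
      rfl
    have hc : E.π ∘ w ∈ L.Z1 C := ⟨hcoc, hwlc.comp E.π⟩
    refine ⟨L.H1π C ⟨_, hc⟩, ?_⟩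
    rw [SES.del1_mk, ← sub_eq_zero, ← map_sub, LevelSys.H2π_eq_zero_iff]
    have hπ0 : ∀ g, E.π ((E.sec ∘ (E.π ∘ w) - w) g) = 0 := by
      intro g
      simp only [Pi.sub_apply, Function.comp_apply, map_sub, E.π_sec, sub_self]
    refine ⟨E.ret ∘ (E.sec ∘ (E.π ∘ w) - w),
      (((L.C1 B).sub_mem ((hwlc.comp E.π).comp E.sec) hwlc) : L.IsLC₁ _).comp E.ret, ?_⟩
    apply ses_comp_injective E
    rw [← push_d₁₂ E.i E.hi, E.i_comp_ret_comp hπ0, map_sub, hwf']
    have h1 := E.i_comp_del1Fun hcoc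
    funext g
    have h1g := congrFun h1 g
    simp only [Function.comp_apply] at h1g
    simp only [Pi.sub_apply, Function.comp_apply, Submodule.coe_sub, map_sub]
    rw [← h1g]

/-! ### D-F3: exactness in the middle -/

/-- the composite `H¹(A) → H¹(B) → H¹(C)` is zero. -/
theorem pushH1_comp (x : L.H1 A) : pushH1 E.π E.hπ L (pushH1 E.i E.hi L x) = 0 := by
  obtain ⟨f, rfl⟩ := L.H1π_surjective A x
  rw [pushH1_mk, pushH1_mk, LevelSys.H1π_eq_zero_iff]
  refine ⟨0, ?_⟩
  rw [map_zero]
  funext g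
  show (0 : C) = E.π (E.i ((f : G → A) g))
  rw [E.π_i]

/-- the composite `H²(A) → H²(B) → H²(C)` is zero. -/
theorem pushH2_comp (x : L.H2 A) : pushH2 E.π E.hπ L (pushH2 E.i E.hi L x) = 0 := by
  obtain ⟨f, rfl⟩ := L.H2π_surjective A x
  rw [pushH2_mk, pushH2_mk, LevelSys.H2π_eq_zero_iff]
  refine ⟨0, (L.C1 C).zero_mem, ?_⟩
  rw [map_zero]
  funext g
  show (0 : C) = E.π (E.i ((f : G × G → A) g))
  rw [E.π_i]

/-- (D-F3) exactness at `H¹(B)`. -/
theorem ker_pushH1 (hB : L.IsUSmooth B) :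
    LinearMap.ker (pushH1 E.π E.hπ L) = LinearMap.range (pushH1 E.i E.hi L) := by
  ext x
  rw [LinearMap.mem_ker, LinearMap.mem_range]
  constructor
  · intro hx
    obtain ⟨f, rfl⟩ := L.H1π_surjective B x
    rw [pushH1_mk, LevelSys.H1π_eq_zero_iff, coe_pushZ1] at hx
    obtain ⟨m, hm⟩ := hx
    have hm' : (d₀₁ C).hom m = E.π ∘ (f : G → B) := hm
    have hflc : L.IsLC₁ (f : G → B) := f.2.2
    have hfc : (d₁₂ B).hom (f : G → B) = 0 := f.2.1
    have hπ0 : ∀ g, E.π (((f : G → B) - (d₀₁ B).hom (E.sec m)) g) = 0 := by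
      intro g
      have h := congrFun hm' g
      rw [d₀₁_hom_apply] at h
      simp only [Pi.sub_apply, map_sub, d₀₁_hom_apply, ses_hπ, E.π_sec]
      rw [h]
      simp
    have hiz := E.i_comp_ret_comp hπ0
    have hz : E.ret ∘ ((f : G → B) - (d₀₁ B).hom (E.sec m)) ∈ L.Z1 A := by
      refine ⟨?_, (((L.C1 B).sub_mem hflc (L.d₀₁_isLC₁ hB _)) : L.IsLC₁ _).comp E.ret⟩
      show (d₁₂ A).hom _ = 0
      apply ses_comp_injective E
      rw [← push_d₁₂ E.i E.hi, hiz, map_sub, hfc, d₁₂_d₀₁, sub_zero]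
      funext x
      exact (map_zero E.i).symm
    refine ⟨L.H1π A ⟨_, hz⟩, ?_⟩
    rw [pushH1_mk, ← sub_eq_zero, ← map_sub, LevelSys.H1π_eq_zero_iff]
    refine ⟨-E.sec m, ?_⟩
    rw [map_neg]
    funext g
    have h := congrFun hiz g
    simp only [Function.comp_apply, Pi.sub_apply] at h
    simp only [Submodule.coe_sub, Pi.sub_apply, Pi.neg_apply, coe_pushZ1, Function.comp_apply]
    rw [h]
    abel
  · rintro ⟨y, rfl⟩
    exact pushH1_comp E L y

/-- (D-F3) exactness at `H²(B)`. -/
theorem ker_pushH2 (hN : L.NormalCofinal) (hB : L.IsUSmooth B) :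
    LinearMap.ker (pushH2 E.π E.hπ L) = LinearMap.range (pushH2 E.i E.hi L) := by
  ext x
  rw [LinearMap.mem_ker, LinearMap.mem_range]
  constructor
  · intro hx
    obtain ⟨f, rfl⟩ := L.H2π_surjective B x
    rw [pushH2_mk, LevelSys.H2π_eq_zero_iff, coe_pushZ2] at hx
    obtain ⟨w, hw, hwf⟩ := hx
    have hwlc : L.IsLC₁ w := hw
    have hwf' : (d₁₂ C).hom w = E.π ∘ (f : G × G → B) := hwf
    have hflc : L.IsLC₂ (f : G × G → B) := f.2.2
    have hfc : (d₂₃ B).hom (f : G × G → B) = 0 := f.2.1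
    have hπ0 : ∀ g, E.π (((f : G × G → B) - (d₁₂ B).hom (E.sec ∘ w)) g) = 0 := by
      intro g
      have h1 : E.π ∘ (d₁₂ B).hom (E.sec ∘ w) = (d₁₂ C).hom w := by
        rw [← push_d₁₂ E.π E.hπ]
        congr 1
        funext x
        exact E.π_sec _
      have h := congrFun hwf' g
      have h1g := congrFun h1 g
      simp only [Function.comp_apply] at h h1g
      simp only [Pi.sub_apply, map_sub]
      rw [h1g, h, sub_self]
    have hiz := E.i_comp_ret_comp hπ0
    have hz : E.ret ∘ ((f : G × G → B) - (d₁₂ B).hom (E.sec ∘ w)) ∈ L.Z2 A := by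
      refine ⟨?_, (((L.C2 B).sub_mem hflc
        (L.d₁₂_isLC₂ hN hB (hwlc.comp E.sec))) : L.IsLC₂ _).comp E.ret⟩
      show (d₂₃ A).hom _ = 0
      apply ses_comp_injective E
      rw [← push_d₂₃ E.i E.hi, hiz, map_sub, hfc, d₂₃_d₁₂, sub_zero]
      funext x
      exact (map_zero E.i).symm
    refine ⟨L.H2π A ⟨_, hz⟩, ?_⟩
    rw [pushH2_mk, ← sub_eq_zero, ← map_sub, LevelSys.H2π_eq_zero_iff]
    refine ⟨-(E.sec ∘ w), (L.C1 B).neg_mem (hwlc.comp E.sec), ?_⟩
    rw [map_neg]
    funext g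
    have h := congrFun hiz g
    simp only [Function.comp_apply, Pi.sub_apply] at h
    simp only [Submodule.coe_sub, Pi.sub_apply, Pi.neg_apply, coe_pushZ2, Function.comp_apply]
    rw [h]
    abel
  · rintro ⟨y, rfl⟩
    exact _root_.Fermat.Agent.S55.PT.H113.pushH2_comp E L y

end Fermat.Agent.S55.PT.H113

end

end
-- ===== PACK-END S55/PT/LesExactH113.lean

-- ===== PACK-BEGIN S55/PT/LevelsNormal.lean
section




/-!
# S55 / PT layer: normal levels are cofinal (subtasks PT-N1, PT-N2)   (helper724)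

* `globalLevels_normal_cofinal724` : every level `G_F`, `F` unramified outside `S`, contains a
  normal level `G_L`, `L/ℚ` Galois and unramified outside `S`
  (uses `Bridge.exists_galois_level_ge`).
* `pullbackLevels_normal_cofinal724` : same for levels pulled back along `r : G → G_ℚ`
  (normal closure of `F`).

These are the two `sorry`s of `PT/Levels.lean` (helper835's skeleton), stated with the
abbreviation `GQ` unfolded so that this file does not depend on `Levels.lean`.
-/

set_option autoImplicit false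

namespace Fermat.Agent.S55.PT

open Fermat.Agent.S55.Bridge

attribute [local instance] isAlgebraic_Qbar isGalois_Qbar

/-- (PT-N1) Every level `G_F`, `F` unramified outside `S`, contains a normal level `G_{F'}`,
`F'/ℚ` Galois and unramified outside `S`. -/
theorem globalLevels_normal_cofinal724 (S : Finset Nat.Primes) :
    ∀ U ∈ {U : Subgroup (AlgebraicClosure ℚ ≃ₐ[ℚ] AlgebraicClosure ℚ) |
        ∃ F : IntermediateField ℚ (AlgebraicClosure ℚ),
        F.IsUnramifiedOutside S ∧ U = F.fixingSubgroup},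
      ∃ V ∈ {U : Subgroup (AlgebraicClosure ℚ ≃ₐ[ℚ] AlgebraicClosure ℚ) |
        ∃ F : IntermediateField ℚ (AlgebraicClosure ℚ),
        F.IsUnramifiedOutside S ∧ U = F.fixingSubgroup}, V ≤ U ∧ V.Normal := by
  rintro U ⟨F, hF, rfl⟩
  obtain ⟨L, hL, hgal, hle⟩ := exists_galois_level_ge S F hF
  refine ⟨L.fixingSubgroup, ⟨L, hL, rfl⟩, IntermediateField.fixingSubgroup_antitone hle, ?_⟩
  exact (InfiniteGalois.normal_iff_isGalois L).2 hgal

/-- (PT-N2) Same for pulled-back levels (normal closure of `F`). -/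
theorem pullbackLevels_normal_cofinal724 {G : Type} [Group G]
    (r : G →* (AlgebraicClosure ℚ ≃ₐ[ℚ] AlgebraicClosure ℚ)) :
    ∀ U ∈ {U : Subgroup G | ∃ F : IntermediateField ℚ (AlgebraicClosure ℚ),
        FiniteDimensional ℚ F ∧ U = F.fixingSubgroup.comap r},
      ∃ V ∈ {U : Subgroup G | ∃ F : IntermediateField ℚ (AlgebraicClosure ℚ),
        FiniteDimensional ℚ F ∧ U = F.fixingSubgroup.comap r}, V ≤ U ∧ V.Normal := by
  rintro U ⟨F, hF, rfl⟩
  have := hF
  have hfinN : FiniteDimensional ℚ (IntermediateField.normalClosure ℚ F (AlgebraicClosure ℚ)) :=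
    normalClosure.is_finiteDimensional ℚ F (AlgebraicClosure ℚ)
  have hgalN : IsGalois ℚ (IntermediateField.normalClosure ℚ F (AlgebraicClosure ℚ)) :=
    IsGalois.normalClosure ℚ F (AlgebraicClosure ℚ)
  have hle : F ≤ IntermediateField.normalClosure ℚ F (AlgebraicClosure ℚ) :=
    IntermediateField.le_normalClosure F
  have hnormal : (IntermediateField.normalClosure ℚ F
      (AlgebraicClosure ℚ)).fixingSubgroup.Normal :=
    (InfiniteGalois.normal_iff_isGalois _).2 hgalN
  refine ⟨_, ⟨IntermediateField.normalClosure ℚ F (AlgebraicClosure ℚ), hfinN, rfl⟩,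
    Subgroup.comap_mono (IntermediateField.fixingSubgroup_antitone hle), ?_⟩
  exact Subgroup.Normal.comap hnormal r

end Fermat.Agent.S55.PT

end
-- ===== PACK-END S55/PT/LevelsNormal.lean

-- ===== PACK-BEGIN S55/Bridge/Cochain.lean
section




/-!
# S55 bridge: cochain-level description of the Prelude objects

Everything is expressed through functions on `G_ℚ` (resp. on the local Galois group) that are
constant modulo `F.fixingSubgroup` for a finite GALOIS extension `F/ℚ` unramified outside `S`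
(resp. modulo `E.fixingSubgroup`, `E/ℚ_q` finite).

* `isLevelConstantS₁_iff_galois`, `isLevelConstantS₂_iff_galois`
* `exists_rep_continuousH2S`, `continuousH2Sπ_eq_zero_iff_galois`
* `locRes₂S_mk_eq_zero_iff`
* `mem_sha₂_mk_iff`, `mem_sha₁_iff_cocycle`
-/

set_option autoImplicit false

namespace Fermat.Agent.S55.Bridge

open groupCohomology CategoryTheory ExtCitation IntermediateField

/-- `f` is constant on right cosets of `N`. -/
def IsConstMod₁ {G X : Type*} [Group G] (N : Subgroup G) (f : G → X) : Prop :=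
  ∀ g s, s ∈ N → f (g * s) = f g

/-- `f` is constant on right cosets of `N` in both variables. -/
def IsConstMod₂ {G X : Type*} [Group G] (N : Subgroup G) (f : G × G → X) : Prop :=
  ∀ g g' s s', s ∈ N → s' ∈ N → f (g * s, g' * s') = f (g, g')

theorem IsConstMod₁.mono {G X : Type*} [Group G] {N N' : Subgroup G} (h : N' ≤ N) {f : G → X}
    (hf : IsConstMod₁ N f) : IsConstMod₁ N' f := fun g s hs => hf g s (h hs)

theorem IsConstMod₂.mono {G X : Type*} [Group G] {N N' : Subgroup G} (h : N' ≤ N)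
    {f : G × G → X} (hf : IsConstMod₂ N f) : IsConstMod₂ N' f :=
  fun g g' s s' hs hs' => hf g g' s s' (h hs) (h hs')

variable (S : Finset Nat.Primes)

section Global

/-- S-level-constancy can be tested on finite Galois levels (above any given level `F₀`). -/
theorem isLevelConstantS₁_iff_galois {X : Type*}
    (f : (AlgebraicClosure ℚ ≃ₐ[ℚ] AlgebraicClosure ℚ) → X)
    (F₀ : IntermediateField ℚ (AlgebraicClosure ℚ)) (hF₀ : F₀.IsUnramifiedOutside S) :
    IsLevelConstantS₁ S f ↔ ∃ F : IntermediateField ℚ (AlgebraicClosure ℚ),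
      F.IsUnramifiedOutside S ∧ IsGalois ℚ F ∧ F₀ ≤ F ∧ IsConstMod₁ F.fixingSubgroup f := by
  constructor
  · rintro ⟨F₁, hF₁, h⟩
    obtain ⟨L, hL, hgal, hle⟩ := exists_galois_level_ge S (F₁ ⊔ F₀) (hF₁.sup hF₀)
    refine ⟨L, hL, hgal, le_sup_right.trans hle, fun g s hs => h g s ?_⟩
    exact IntermediateField.fixingSubgroup_antitone (le_sup_left.trans hle) hs
  · rintro ⟨F, hF, -, -, h⟩
    exact ⟨F, hF, h⟩

theorem isLevelConstantS₂_iff_galois {X : Type*}
    (f : (AlgebraicClosure ℚ ≃ₐ[ℚ] AlgebraicClosure ℚ) ×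
      (AlgebraicClosure ℚ ≃ₐ[ℚ] AlgebraicClosure ℚ) → X)
    (F₀ : IntermediateField ℚ (AlgebraicClosure ℚ)) (hF₀ : F₀.IsUnramifiedOutside S) :
    IsLevelConstantS₂ S f ↔ ∃ F : IntermediateField ℚ (AlgebraicClosure ℚ),
      F.IsUnramifiedOutside S ∧ IsGalois ℚ F ∧ F₀ ≤ F ∧ IsConstMod₂ F.fixingSubgroup f := by
  constructor
  · rintro ⟨F₁, hF₁, h⟩
    obtain ⟨L, hL, hgal, hle⟩ := exists_galois_level_ge S (F₁ ⊔ F₀) (hF₁.sup hF₀)
    refine ⟨L, hL, hgal, le_sup_right.trans hle, fun g g' s s' hs hs' => h g g' s s' ?_ ?_⟩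
    · exact IntermediateField.fixingSubgroup_antitone (le_sup_left.trans hle) hs
    · exact IntermediateField.fixingSubgroup_antitone (le_sup_left.trans hle) hs'
  · rintro ⟨F, hF, -, -, h⟩
    exact ⟨F, hF, h⟩

variable {k : Type} [CommRing k]
  (M : Rep.{0, 0, 0} k (AlgebraicClosure ℚ ≃ₐ[ℚ] AlgebraicClosure ℚ))

/-- Every class in `continuousH2S S M` is represented by a 2-cocycle which is constant modulo
`G_F` for a finite Galois `F ⊇ F₀` unramified outside `S`. -/
theorem exists_rep_continuousH2S (x : continuousH2S S M)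
    (F₀ : IntermediateField ℚ (AlgebraicClosure ℚ)) (hF₀ : F₀.IsUnramifiedOutside S) :
    ∃ F : IntermediateField ℚ (AlgebraicClosure ℚ),
      F.IsUnramifiedOutside S ∧ IsGalois ℚ F ∧ F₀ ≤ F ∧
      ∃ f : ↥(levelCocyclesS₂ S M), IsConstMod₂ F.fixingSubgroup
        (f : (AlgebraicClosure ℚ ≃ₐ[ℚ] AlgebraicClosure ℚ) ×
          (AlgebraicClosure ℚ ≃ₐ[ℚ] AlgebraicClosure ℚ) → M) ∧
        continuousH2Sπ S M f = x := by
  obtain ⟨f, rfl⟩ := Submodule.mkQ_surjective _ x
  obtain ⟨F, hF, hgal, hle, hc⟩ := (isLevelConstantS₂_iff_galois S _ F₀ hF₀).1 f.2.2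
  exact ⟨F, hF, hgal, hle, f, hc, rfl⟩

/-- A class in `continuousH2S S M` vanishes iff a representing cocycle is the coboundary of a
1-cochain constant modulo `G_F` for a finite Galois `F ⊇ F₀` unramified outside `S`. -/
theorem continuousH2Sπ_eq_zero_iff_galois (f : ↥(levelCocyclesS₂ S M))
    (F₀ : IntermediateField ℚ (AlgebraicClosure ℚ)) (hF₀ : F₀.IsUnramifiedOutside S) :
    continuousH2Sπ S M f = 0 ↔
      ∃ F : IntermediateField ℚ (AlgebraicClosure ℚ),
        F.IsUnramifiedOutside S ∧ IsGalois ℚ F ∧ F₀ ≤ F ∧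
        ∃ c : (AlgebraicClosure ℚ ≃ₐ[ℚ] AlgebraicClosure ℚ) → M,
          IsConstMod₁ F.fixingSubgroup c ∧ (d₁₂ M).hom c = f := by
  rw [continuousH2Sπ_eq_zero_iff, mem_levelCoboundariesS₂_iff]
  constructor
  · rintro ⟨c, hc, hd⟩
    obtain ⟨F, hF, hgal, hle, hcF⟩ := (isLevelConstantS₁_iff_galois S c F₀ hF₀).1 hc
    exact ⟨F, hF, hgal, hle, c, hcF, hd⟩
  · rintro ⟨F, hF, -, -, c, hc, hd⟩
    exact ⟨c, ⟨F, hF, hc⟩, hd⟩

end Global

section Local

variable {k : Type} [CommRing k]
  (M : Rep.{0, 0, 0} k (AlgebraicClosure ℚ ≃ₐ[ℚ] AlgebraicClosure ℚ))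

/-- The localisation at `r : H → G_ℚ` of the class of `f` vanishes iff `f ∘ (r × r)` is the
coboundary of a level-constant 1-cochain on `H`. -/
theorem locRes₂S_mk_eq_zero_iff {H : Type} [Group H]
    (r : H →* (AlgebraicClosure ℚ ≃ₐ[ℚ] AlgebraicClosure ℚ)) (f : ↥(levelCocyclesS₂ S M)) :
    locRes₂S S M r (continuousH2Sπ S M f) = 0 ↔
      ∃ c : H → M, IsLevelConstant₁ r c ∧
        ∀ h h' : H, M.ρ (r h) (c h') - c (h * h') + c h
          = (f : (AlgebraicClosure ℚ ≃ₐ[ℚ] AlgebraicClosure ℚ) ×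
              (AlgebraicClosure ℚ ≃ₐ[ℚ] AlgebraicClosure ℚ) → M) (r h, r h') := by
  have h1 : locRes₂S S M r (continuousH2Sπ S M f)
      = continuousH2π r (Rep.res r M)
          (levelCocycles₂Map (rH := MonoidHom.id _) (rG := r) r (fun _ => rfl)
            (LinearMap.id : M →ₗ[k] Rep.res r M) (fun _ _ => rfl)
            (levelCocyclesS₂ToLevelCocycles₂ S M f)) := rfl
  rw [h1, continuousH2π_eq_zero_iff, mem_levelCoboundaries₂_iff]
  constructor
  · rintro ⟨c, hc, hd⟩
    refine ⟨c, hc, fun h h' => ?_⟩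
    have := congrFun hd (h, h')
    rw [d₁₂_hom_apply] at this
    exact this
  · rintro ⟨c, hc, hd⟩
    refine ⟨c, hc, ?_⟩
    funext ⟨h, h'⟩
    rw [d₁₂_hom_apply]
    exact hd h h'

/-- Membership in `sha₂` on representatives (for `2` invertible the archimedean place is
automatic). -/
theorem mem_sha₂_mk_iff {K : Type} [Field K] (h2 : (2 : K) ≠ 0)
    (M : Rep.{0, 0, 0} K (AlgebraicClosure ℚ ≃ₐ[ℚ] AlgebraicClosure ℚ))
    (f : ↥(levelCocyclesS₂ S M)) :
    continuousH2Sπ S M f ∈ sha₂ S M ↔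
      ∀ q : ↥S, ∃ c : primeLocalGaloisGroup q.1 → M,
        IsLevelConstant₁ (primeLocalToGlobal q.1) c ∧
        ∀ h h' : primeLocalGaloisGroup q.1,
          M.ρ (primeLocalToGlobal q.1 h) (c h') - c (h * h') + c h
          = (f : (AlgebraicClosure ℚ ≃ₐ[ℚ] AlgebraicClosure ℚ) ×
              (AlgebraicClosure ℚ ≃ₐ[ℚ] AlgebraicClosure ℚ) → M)
            (primeLocalToGlobal q.1 h, primeLocalToGlobal q.1 h') := by
  rw [mem_sha₂_iff S h2]
  exact forall_congr' fun q => locRes₂S_mk_eq_zero_iff S M (primeLocalToGlobal q.1) f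

/-- Membership in `sha₁` on cocycles: `x ∈ sha₁ S A` iff `x` is the class of an
`S`-level-constant 1-cocycle `c` whose restriction to every local Galois group, `q ∈ S`, is a
coboundary. -/
theorem mem_sha₁_iff_cocycle {K : Type} [Field K] (h2 : (2 : K) ≠ 0)
    (A : Rep.{0, 0, 0} K (AlgebraicClosure ℚ ≃ₐ[ℚ] AlgebraicClosure ℚ)) (x : H1 A) :
    x ∈ sha₁ S A ↔ ∃ c : cocycles₁ A, IsLevelConstantS₁ S c ∧ (H1π A).hom c = x ∧
      ∀ q : ↥S, ∃ a : A, ∀ h : primeLocalGaloisGroup q.1,
        c (primeLocalToGlobal q.1 h) = A.ρ (primeLocalToGlobal q.1 h) a - a := by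
  rw [mem_sha₁_iff S h2, mem_continuousH1S_iff]
  have key : ∀ (c : cocycles₁ A) (q : ↥S),
      (groupCohomology.map (primeLocalToGlobal q.1)
        (𝟙 (Rep.res (primeLocalToGlobal q.1) A)) 1).hom ((H1π A).hom c) = 0 ↔
      ∃ a : A, ∀ h : primeLocalGaloisGroup q.1,
        c (primeLocalToGlobal q.1 h) = A.ρ (primeLocalToGlobal q.1 h) a - a := by
    intro c q
    have hcomp := congrArg (fun φ => φ.hom c)
      (H1π_comp_map (A := A) (B := Rep.res (primeLocalToGlobal q.1) A)
        (primeLocalToGlobal q.1) (𝟙 (Rep.res (primeLocalToGlobal q.1) A)))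
    simp only [ModuleCat.hom_comp, LinearMap.comp_apply] at hcomp
    rw [hcomp]
    rw [H1π_eq_zero_iff]
    constructor
    · rintro ⟨a, ha⟩
      refine ⟨a, fun h => ?_⟩
      have := congrFun ha h
      rw [d₀₁_hom_apply] at this
      exact this.symm
    · rintro ⟨a, ha⟩
      refine ⟨a, ?_⟩
      funext h
      rw [d₀₁_hom_apply]
      exact (ha h).symm
  constructor
  · rintro ⟨⟨c, hc, rfl⟩, hloc⟩
    exact ⟨c, hc, rfl, fun q => (key c q).1 (hloc q)⟩
  · rintro ⟨c, hc, rfl, hloc⟩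
    exact ⟨⟨c, hc, rfl⟩, fun q => (key c q).2 (hloc q)⟩

end Local

end Fermat.Agent.S55.Bridge

end
-- ===== PACK-END S55/Bridge/Cochain.lean

-- ===== PACK-BEGIN S55/L/H715/Dict2.lean
section



/-!
# S55, layer L : DICTIONARY core ↔ outer, part 2 : intrinsic local fields   (helper715)

`K` a field of characteristic zero, `A : ValuationSubring K` with `IsLocalRingOfIntegers A`.
The core is used with base `(↥A, K)`; local fields = finite extensions `L / K`.

* `isInt_self_iff : IsInt ↥A K K x ↔ x ∈ A`,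
  `mem_intUnits_self_iff : u ∈ intUnits ↥A K K ↔ u ∈ A.unitGroup`,
  `isUnif_self_iff : IsUnif ↥A K K π ↔ IsUniformizer A π`  (no uniqueness needed);
* `eq_intVS_of_unique` : given `RingOfIntegersUniqueSpec`, every ring of integers `B` of `L` is
  `intVS ↥A K L`; hence `mem_iff_isInt`, `mem_unitGroup_iff_mem_intUnits`,
  `isUniformizer_iff_isUnif` for an arbitrary ring of integers `B` of `L`;
* `isUnramifiedExt_of_isUnram : IsUnram ↥A K L K → IsUnramifiedExt K L` (no uniqueness needed),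
  `isUnram_of_isUnramifiedExt` (with uniqueness), `isUnramifiedExt_iff_isUnram`.
-/

set_option autoImplicit false
set_option linter.unusedSectionVars false
set_option linter.style.haveILetI false

namespace Fermat.Agent.S55.L.H715

open Fermat.Agent.S55.Local Fermat.Agent.S55.Local.H715 IsLocalRing

section Self

variable {K : Type} [Field K] (A : ValuationSubring K)

/-- Over the base `(↥A, K)`, the integers of `K` itself are `A`. -/
theorem isInt_self_iff (x : K) : IsInt (↥A) K K x ↔ x ∈ A := by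
  rw [isInt_iff (↥A) K K x]
  constructor
  · intro h
    obtain ⟨y, hy⟩ := IsIntegrallyClosed.isIntegral_iff.1 h
    rw [← hy]
    exact y.2
  · intro h
    have : x = algebraMap (↥A) K ⟨x, h⟩ := rfl
    rw [this]
    exact isIntegral_algebraMap

theorem mem_intUnits_self_iff (u : Kˣ) : u ∈ intUnits (↥A) K K ↔ u ∈ A.unitGroup := by
  rw [mem_unitGroup_iff_mem_and_inv_mem, mem_intUnits, isInt_self_iff, isInt_self_iff]

theorem isUnif_self_iff [IsDiscreteValuationRing A] (π : Kˣ) :
    IsUnif (↥A) K K π ↔ IsUniformizer A (π : K) := by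
  rw [isUniformizer_iff_aux]
  unfold IsUnif
  simp only [mem_intUnits_self_iff, isInt_self_iff]

end Self

section Ext

variable {K : Type} [Field K] [CharZero K] (A : ValuationSubring K)
  [IsDiscreteValuationRing A] [IsAdicComplete (IsLocalRing.maximalIdeal A) A]
  [Finite (IsLocalRing.ResidueField A)]
  (L : Type) [Field L] [Algebra K L] [FiniteDimensional K L]

/-- The hypotheses of this section, packaged. -/
theorem isLocalRingOfIntegers_self {K : Type} [Field K] (A : ValuationSubring K)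
    [IsDiscreteValuationRing A] [IsAdicComplete (IsLocalRing.maximalIdeal A) A]
    [Finite (IsLocalRing.ResidueField A)] : IsLocalRingOfIntegers A :=
  ⟨inferInstance, inferInstance, inferInstance⟩

/-- `K` is a local field in the sense of the outer layer. -/
theorem isLocalFld_self {K : Type} [Field K] [CharZero K] (A : ValuationSubring K)
    [IsDiscreteValuationRing A] [IsAdicComplete (IsLocalRing.maximalIdeal A) A]
    [Finite (IsLocalRing.ResidueField A)] : IsLocalFld K :=
  ⟨inferInstance, ⟨A, isLocalRingOfIntegers_self A⟩⟩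

/-- A finite extension of `K` is a local field in the sense of the outer layer
(with ring of integers `intVS ↥A K L`). -/
theorem isLocalFld_ext {K : Type} [Field K] [CharZero K] (A : ValuationSubring K)
    [IsDiscreteValuationRing A] [IsAdicComplete (IsLocalRing.maximalIdeal A) A]
    [Finite (IsLocalRing.ResidueField A)]
    (L : Type) [Field L] [Algebra K L] [FiniteDimensional K L] : IsLocalFld L :=
  ⟨charZero_of_injective_algebraMap (algebraMap K L).injective,
    ⟨intVS (↥A) K L, isLocalRingOfIntegers_intVS (↥A) K L⟩⟩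

/-- Given uniqueness of the ring of integers, every ring of integers of `L` is the integral
closure of `A`. -/
theorem eq_intVS_of_unique (h0 : RingOfIntegersUniqueSpec) (B : ValuationSubring L)
    (hB : IsLocalRingOfIntegers B) : B = intVS (↥A) K L := by
  haveI : IsLocalFld L := isLocalFld_ext A L
  exact h0 L B _ hB (isLocalRingOfIntegers_intVS (↥A) K L)

theorem mem_iff_isInt (h0 : RingOfIntegersUniqueSpec) (B : ValuationSubring L)
    (hB : IsLocalRingOfIntegers B) (x : L) : x ∈ B ↔ IsInt (↥A) K L x := by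
  rw [eq_intVS_of_unique A L h0 B hB, mem_intVS_iff]

theorem mem_unitGroup_iff_mem_intUnits (h0 : RingOfIntegersUniqueSpec) (B : ValuationSubring L)
    (hB : IsLocalRingOfIntegers B) (u : Lˣ) : u ∈ B.unitGroup ↔ u ∈ intUnits (↥A) K L := by
  rw [eq_intVS_of_unique A L h0 B hB, mem_unitGroup_intVS_iff]

theorem isUniformizer_iff_isUnif (h0 : RingOfIntegersUniqueSpec) (B : ValuationSubring L)
    (hB : IsLocalRingOfIntegers B) (π : Lˣ) : IsUniformizer B (π : L) ↔ IsUnif (↥A) K L π := by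
  rw [eq_intVS_of_unique A L h0 B hB, isUniformizer_intVS_iff]

/-- Core unramified (`Lˣ = Kˣ · U_L`) implies outer unramified (a uniformizer of `K` is a
uniformizer of `L`).  No uniqueness needed. -/
theorem isUnramifiedExt_of_isUnram (h : IsUnram (↥A) K L K) : IsUnramifiedExt K L := by
  obtain ⟨ϖ, hϖ⟩ := IsDiscreteValuationRing.exists_irreducible (↥A)
  have hπ0 : (ϖ : K) ≠ 0 := fun h0 => hϖ.ne_zero (Subtype.ext h0)
  have hπA : IsUniformizer A (ϖ : K) := ⟨ϖ.2, hϖ⟩
  set πu : Kˣ := Units.mk0 (ϖ : K) hπ0 with hπu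
  have hunifK : IsUnif (↥A) K K πu := (isUnif_self_iff A πu).2 hπA
  refine ⟨A, intVS (↥A) K L, (ϖ : K), isLocalRingOfIntegers_self A,
    isLocalRingOfIntegers_intVS (↥A) K L, hπA, ?_⟩
  have hcoe : algebraMap K L (ϖ : K) = ((unitsIncl L K πu : Lˣ) : L) := rfl
  rw [hcoe, isUniformizer_intVS_iff]
  refine ⟨?_, ?_, ?_⟩
  · exact (H724.isInt_algebraMap_iff724 (↥A) K K L (πu : K)).2 hunifK.1
  · intro hmem
    exact hunifK.2.1 ((H724.unitsIncl_mem_intUnits_iff724 (↥A) K K L πu).1 hmem)
  · intro x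
    obtain ⟨y, hy⟩ := h x
    obtain ⟨n, hn⟩ := hunifK.2.2 y
    refine ⟨n, ?_⟩
    have h1 : unitsIncl L K (y * πu ^ (-n)) ∈ intUnits (↥A) K L :=
      (H724.unitsIncl_mem_intUnits_iff724 (↥A) K K L _).2 hn
    have h2 : x * (unitsIncl L K πu) ^ (-n) =
        (x * (unitsIncl L K y)⁻¹) * unitsIncl L K (y * πu ^ (-n)) := by
      rw [map_mul, map_zpow]
      group
    rw [h2]
    exact (intUnits (↥A) K L).mul_mem hy h1

/-- Outer unramified implies core unramified, given uniqueness of the ring of integers. -/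
theorem isUnram_of_isUnramifiedExt (h0 : RingOfIntegersUniqueSpec) (h : IsUnramifiedExt K L) :
    IsUnram (↥A) K L K := by
  obtain ⟨A', B', π, hA', hB', hπA, hπB⟩ := h
  haveI : IsLocalFld K := isLocalFld_self A
  have e2 : B' = intVS (↥A) K L := eq_intVS_of_unique A L h0 B' hB'
  rw [e2] at hπB
  have hπ0 : π ≠ 0 := by
    obtain ⟨hmem, hirr⟩ := hπA
    intro h0'
    apply hirr.ne_zero
    exact Subtype.ext h0'
  set πu : Kˣ := Units.mk0 π hπ0 with hπu
  have hcoe : algebraMap K L π = ((unitsIncl L K πu : Lˣ) : L) := rfl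
  rw [hcoe, isUniformizer_intVS_iff] at hπB
  intro x
  obtain ⟨n, hn⟩ := hπB.2.2 x
  refine ⟨πu ^ n, ?_⟩
  rwa [map_zpow, ← zpow_neg]

theorem isUnramifiedExt_iff_isUnram (h0 : RingOfIntegersUniqueSpec) :
    IsUnramifiedExt K L ↔ IsUnram (↥A) K L K :=
  ⟨isUnram_of_isUnramifiedExt A L h0, isUnramifiedExt_of_isUnram A L⟩

end Ext

end Fermat.Agent.S55.L.H715

end
-- ===== PACK-END S55/L/H715/Dict2.lean

-- ===== PACK-BEGIN S55/Local/H608/LF.lean
section


/-!
# S55 layer L, pieces LF1, LF2, LF3, LF4, LF8 (helper608)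

* `intOrInv      : IntOrInvStatement`        (LF1)
* `existsUnif    : ExistsUnifStatement`      (LF2)
* `intUnitsComap : IntUnitsComapStatement`   (LF3)
* `galoisInv     : GaloisInvStatement`       (LF4)
* `normUnitsInt  : NormUnitsIntStatement`    (LF8)
-/

set_option autoImplicit false
set_option linter.unusedSectionVars false
set_option linter.style.haveILetI false

namespace Fermat.Agent.S55.Local.H608

open IsLocalRing

section Base

variable (A F : Type) [CommRing A] [Field F] [Algebra A F]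
variable (L : Type) [Field L] [Algebra F L]

/-- `IsInt` is integrality for the algebra structure induced by `toL`. -/
theorem isInt_iff_isIntegral (x : L) :
    IsInt A F L x ↔ @IsIntegral A L _ _ (toL A F L).toAlgebra x := Iff.rfl

variable (K : Type) [Field K] [Algebra F K] [Algebra K L] [IsScalarTower F K L]

theorem toL_eq_algebraMap_toL (a : A) : toL A F L a = algebraMap K L (toL A F K a) := by
  simp only [toL_apply]
  exact IsScalarTower.algebraMap_apply F K L _

/-- Integrality over `A` of the image of `y : K` in `L`. -/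
theorem isInt_algebraMap_iff (y : K) : IsInt A F L (algebraMap K L y) ↔ IsInt A F K y := by
  letI : Algebra A K := (toL A F K).toAlgebra
  letI : Algebra A L := (toL A F L).toAlgebra
  haveI : IsScalarTower A K L :=
    IsScalarTower.of_algebraMap_eq (fun a => toL_eq_algebraMap_toL A F L K a)
  exact isIntegral_algebraMap_iff (R := A) (algebraMap K L).injective

/-- A `K`-automorphism of `L` preserves integrality over `A`. -/
theorem isInt_algEquiv (σ : L ≃ₐ[K] L) {x : L} (hx : IsInt A F L x) : IsInt A F L (σ x) := by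
  obtain ⟨P, hP, hPx⟩ := hx
  refine ⟨P, hP, ?_⟩
  have hσ : (σ : L →+* L).comp (toL A F L) = toL A F L := by
    ext a
    simp only [RingHom.comp_apply, RingHom.coe_coe]
    rw [toL_eq_algebraMap_toL A F L K a, σ.commutes]
  have h := Polynomial.hom_eval₂ P (toL A F L) (σ : L →+* L) x
  rw [hPx, map_zero, hσ] at h
  exact h.symm

end Base

section LF38

/-- (LF3) -/
theorem intUnitsComap : IntUnitsComapStatement := by
  intro A F _ _ _ _ _ _ _ _ _ K _ _ _ L _ _ _ _ _ y
  rw [mem_intUnits, mem_intUnits]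
  have h1 : ((unitsIncl L K y : Lˣ) : L) = algebraMap K L (y : K) := rfl
  have h2 : (((unitsIncl L K y)⁻¹ : Lˣ) : L) = algebraMap K L ((y⁻¹ : Kˣ) : K) := by
    rw [← map_inv]; rfl
  rw [h1, h2, isInt_algebraMap_iff, isInt_algebraMap_iff]

/-- Norms of integral elements are integral. -/
theorem isInt_norm (A F : Type) [CommRing A] [Field F] [Algebra A F]
    (K : Type) [Field K] [Algebra F K]
    (L : Type) [Field L] [Algebra F L] [Algebra K L] [IsScalarTower F K L]
    {x : L} (hx : IsInt A F L x) : IsInt A F K (Algebra.norm K x) := by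
  letI : Algebra A K := (toL A F K).toAlgebra
  letI : Algebra A L := (toL A F L).toAlgebra
  haveI : IsScalarTower A K L :=
    IsScalarTower.of_algebraMap_eq (fun a => toL_eq_algebraMap_toL A F L K a)
  exact Algebra.isIntegral_norm (R := A) K hx

/-- (LF8) -/
theorem normUnitsInt : NormUnitsIntStatement := by
  intro A F _ _ _ _ _ _ _ _ _ K _ _ _ L _ _ _ _ _ x hx
  rw [mem_intUnits] at hx ⊢
  refine ⟨isInt_norm A F K L hx.1, ?_⟩
  have : (((normUnits L K x)⁻¹ : Kˣ) : K) = Algebra.norm K ((x⁻¹ : Lˣ) : L) := by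
    rw [← map_inv]; rfl
  rw [this]
  exact isInt_norm A F K L hx.2

end LF38

section LF12

variable (A F : Type) [CommRing A] [IsDomain A] [IsDiscreteValuationRing A]
  [IsAdicComplete (maximalIdeal A) A]
  [Field F] [CharZero F] [Algebra A F] [IsFractionRing A F]
  (L : Type) [Field L] [Algebra F L] [FiniteDimensional F L]

/-- (LF1), unbundled. -/
theorem isInt_or_isInt_inv (x : L) : IsInt A F L x ∨ IsInt A F L x⁻¹ := by
  letI : Algebra A L := (toL A F L).toAlgebra
  haveI : IsScalarTower A F L := IsScalarTower.of_algebraMap_eq (fun _ => rfl)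
  haveI := isDVR_intCl A F L
  haveI := isFractionRing_intCl A F L
  rcases ValuationRing.isInteger_or_isInteger (integralClosure A L) x with ⟨b, hb⟩ | ⟨b, hb⟩
  · left
    rw [← hb]
    exact b.2
  · right
    rw [← hb]
    exact b.2

/-- If `x` is integral and `x⁻¹` is not, every unit is... (structure of `Lˣ`):
there is a uniformizer. (LF2), unbundled. -/
theorem exists_isUnif : ∃ ϖ : Lˣ, IsUnif A F L ϖ := by
  letI : Algebra A L := (toL A F L).toAlgebra
  haveI : IsScalarTower A F L := IsScalarTower.of_algebraMap_eq (fun _ => rfl)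
  haveI := isDVR_intCl A F L
  haveI := isFractionRing_intCl A F L
  obtain ⟨ϖ, hϖ⟩ := IsDiscreteValuationRing.exists_irreducible (integralClosure A L)
  have hϖ0 : (ϖ : L) ≠ 0 := by
    intro h
    exact hϖ.ne_zero (Subtype.ext h)
  -- units of `B` give integral units of `L`
  have hunit : ∀ u : (integralClosure A L)ˣ, ∀ x : Lˣ, (x : L) = ((u : integralClosure A L) : L) →
      x ∈ intUnits A F L := by
    intro u x hx
    rw [mem_intUnits]
    refine ⟨by rw [hx]; exact (u : integralClosure A L).2, ?_⟩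
    have : ((x⁻¹ : Lˣ) : L) = (((u⁻¹ : (integralClosure A L)ˣ) : integralClosure A L) : L) := by
      rw [Units.val_inv_eq_inv_val, hx]
      symm
      apply eq_inv_of_mul_eq_one_left
      have h2 : ((((u⁻¹ : (integralClosure A L)ˣ) : integralClosure A L) * u :
          integralClosure A L) : L) = ((1 : integralClosure A L) : L) :=
        congrArg Subtype.val u.inv_mul
      rw [Subalgebra.coe_mul, Subalgebra.coe_one] at h2
      exact h2
    rw [this]
    exact ((u⁻¹ : (integralClosure A L)ˣ) : integralClosure A L).2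
  refine ⟨Units.mk0 (ϖ : L) hϖ0, ϖ.2, ?_, ?_⟩
  · intro hmem
    rw [mem_intUnits] at hmem
    apply hϖ.not_isUnit
    refine IsUnit.of_mul_eq_one (⟨_, hmem.2⟩ : integralClosure A L) ?_
    apply Subtype.ext
    simp [hϖ0]
  · intro x
    obtain ⟨a, b, hb, hab⟩ := IsFractionRing.div_surjective (A := integralClosure A L) (x : L)
    have hb0 : b ≠ 0 := nonZeroDivisors.ne_zero hb
    have ha0 : a ≠ 0 := by
      rintro rfl
      rw [map_zero, zero_div] at hab
      exact x.ne_zero hab.symm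
    obtain ⟨m, u, hu⟩ := IsDiscreteValuationRing.eq_unit_mul_pow_irreducible ha0 hϖ
    obtain ⟨k, v, hv⟩ := IsDiscreteValuationRing.eq_unit_mul_pow_irreducible hb0 hϖ
    refine ⟨(m : ℤ) - k, ?_⟩
    apply hunit (u * v⁻¹)
    have hvL : (((v : integralClosure A L) : L)) ≠ 0 := by
      intro h
      exact v.ne_zero (Subtype.ext h)
    have hvinv : ((((v⁻¹ : (integralClosure A L)ˣ) : integralClosure A L) : L)) =
        (((v : integralClosure A L) : L))⁻¹ := by
      apply eq_inv_of_mul_eq_one_left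
      have h2 : ((((v⁻¹ : (integralClosure A L)ˣ) : integralClosure A L) * v :
          integralClosure A L) : L) = ((1 : integralClosure A L) : L) :=
        congrArg Subtype.val v.inv_mul
      rw [Subalgebra.coe_mul, Subalgebra.coe_one] at h2
      exact h2
    have hx : (x : L) = (((u : integralClosure A L) : L) * (ϖ : L) ^ m) /
        (((v : integralClosure A L) : L) * (ϖ : L) ^ k) := by
      rw [← hab, hu, hv]
      simp
    rw [Units.val_mul, Units.val_zpow_eq_zpow_val, Units.val_mk0, hx, Units.val_mul,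
      Subalgebra.coe_mul, hvinv, neg_sub, zpow_sub₀ hϖ0, zpow_natCast, zpow_natCast]
    field_simp

end LF12

/-- (LF1) -/
theorem intOrInv : IntOrInvStatement := by
  intro A F _ _ _ _ _ _ _ _ _ L _ _ _ x
  exact isInt_or_isInt_inv A F L x

/-- (LF2) -/
theorem existsUnif : ExistsUnifStatement := by
  intro A F _ _ _ _ _ _ _ _ _ L _ _ _
  exact exists_isUnif A F L

/-- (LF4) -/
theorem galoisInv : GaloisInvStatement := by
  intro A F _ _ _ _ _ _ _ _ _ K _ _ _ L _ _ _ _ _ σ x
  haveI : FiniteDimensional F L := FiniteDimensional.trans F K L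
  -- `y = σ x / x`
  set y : Lˣ := σ • x / x with hy
  -- the product of the `σ^i y`, `i < n`, telescopes to `σ^n x / x`
  have htel : ∀ n : ℕ, ∏ i ∈ Finset.range n, (σ ^ i) • y = (σ ^ n) • x / x := by
    intro n
    induction n with
    | zero => simp
    | succ n ih =>
      rw [Finset.prod_range_succ, ih, hy, smul_div', ← mul_smul, ← pow_succ]
      rw [div_mul_div_comm, mul_comm ((σ ^ n) • x), mul_div_mul_right_eq_div]
  have hfin : IsOfFinOrder σ := isOfFinOrder_of_finite σ
  have hn : 0 < orderOf σ := hfin.orderOf_pos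
  have hprod : ∏ i ∈ Finset.range (orderOf σ), (σ ^ i) • y = 1 := by
    rw [htel, pow_orderOf_eq_one, one_smul, div_self']
  -- split off the factor `i = 0`
  obtain ⟨n, hn'⟩ : ∃ n, orderOf σ = n + 1 := ⟨orderOf σ - 1, by omega⟩
  rw [hn', Finset.prod_range_succ'] at hprod
  simp only [pow_zero, one_smul] at hprod
  -- integrality of a product of conjugates
  have hint : ∀ z : Lˣ, IsInt A F L (z : L) →
      IsInt A F L ((∏ i ∈ Finset.range n, (σ ^ (i + 1)) • z : Lˣ) : L) := by
    intro z hz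
    rw [Units.coe_prod]
    induction Finset.range n using Finset.induction_on with
    | empty => simpa using isInt_one A F L
    | insert a s has ih =>
      rw [Finset.prod_insert has]
      refine IsInt.mul ?_ ih
      exact isInt_algEquiv A F L K (σ ^ (a + 1)) hz
  rw [mem_intUnits]
  rcases isInt_or_isInt_inv A F L (y : L) with h | h
  · refine ⟨h, ?_⟩
    have : (y⁻¹ : Lˣ) = ∏ i ∈ Finset.range n, (σ ^ (i + 1)) • y :=
      inv_eq_of_mul_eq_one_left hprod
    rw [this]
    exact hint y h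
  · have h' : IsInt A F L ((y⁻¹ : Lˣ) : L) := by simpa using h
    refine ⟨?_, h'⟩
    have hprod' : (∏ i ∈ Finset.range n, (σ ^ (i + 1)) • y⁻¹) * y⁻¹ = 1 := by
      have := congrArg (fun t : Lˣ => t⁻¹) hprod
      simp only [mul_inv, inv_one] at this
      rw [← this, ← Finset.prod_inv_distrib]
      simp only [smul_inv']
    have : y = ∏ i ∈ Finset.range n, (σ ^ (i + 1)) • y⁻¹ := by
      have h3 := inv_eq_of_mul_eq_one_left hprod'
      rw [inv_inv] at h3
      exact h3
    rw [this]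
    exact hint y⁻¹ h'

end Fermat.Agent.S55.Local.H608

end
-- ===== PACK-END S55/Local/H608/LF.lean

-- ===== PACK-BEGIN S55/H295/Shift.lean
section



/-!
# Cohomological triviality, part 1: upward dimension shifting

For `A : Rep k G` we embed `A` into `coindBot A = coind_1^G(A)` (all functions `G → A`, with
`G` acting by right translation) via `a ↦ (x ↦ ρ(x) a)` and let `up A` be the cokernel.
Since `coindBot A` is acyclic for every subgroup (Shapiro; `helper572`), we get
`Hⁿ⁺¹(H, A) = 0 ↔ Hⁿ(H, up A) = 0` for `n ≥ 1` and every injective `f : H →* G`.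
-/

set_option autoImplicit false

open CategoryTheory groupCohomology Rep Limits

universe u

namespace Fermat.Agent.S55.H295

open Fermat.Agent.S55.H572

noncomputable section

variable {k G : Type u} [CommRing k] [Group G]

/-- The coefficient module of `coindBot`. -/
abbrev botRes (A : Rep.{u} k G) : Rep.{u} k (⊥ : Subgroup G) := res (⊥ : Subgroup G).subtype A

/-- `coind_1^G(A)`: all functions `G → A`, with `G` acting by right translation. -/
abbrev coindBot (A : Rep.{u} k G) : Rep.{u} k G := coind (⊥ : Subgroup G).subtype (botRes A)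

/-- The canonical embedding `A → coind_1^G(A)`, `a ↦ (x ↦ ρ(x) a)`. -/
def upι (A : Rep.{u} k G) : A ⟶ coindBot A :=
  Rep.ofHom
    { toFun := fun a => mkCoind (botRes A) (fun x => A.ρ x a)
      map_add' := fun a b => by
        apply Subtype.ext
        funext x
        exact map_add (A.ρ x) a b
      map_smul' := fun r a => by
        apply Subtype.ext
        funext x
        exact map_smul (A.ρ x) r a
      isIntertwining' := fun g => by
        apply LinearMap.ext
        intro a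
        apply Subtype.ext
        funext x
        change A.ρ x (A.ρ g a) = A.ρ (x * g) a
        rw [map_mul]
        rfl }

lemma upι_apply_coe (A : Rep.{u} k G) (a : A) (x : G) :
    ((upι A).hom a).1 x = A.ρ x a := rfl

lemma upι_injective (A : Rep.{u} k G) : Function.Injective (upι A).hom := by
  intro a b h
  have h1 : ((upι A).hom a).1 1 = ((upι A).hom b).1 1 := by rw [h]
  rw [upι_apply_coe, upι_apply_coe, map_one] at h1
  exact h1

instance (A : Rep.{u} k G) : Mono (upι A) := (Rep.mono_iff_injective _).2 (upι_injective A)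

/-- The short exact sequence `0 → A → coind_1^G(A) → up A → 0`. -/
def upSES (A : Rep.{u} k G) : ShortComplex (Rep.{u} k G) :=
  ShortComplex.mk (upι A) (cokernel.π (upι A)) (cokernel.condition _)

/-- The upward shift `A⁺ = coind_1^G(A) / A`. -/
abbrev up (A : Rep.{u} k G) : Rep.{u} k G := (upSES A).X₃

lemma upSES_shortExact (A : Rep.{u} k G) : (upSES A).ShortExact where
  exact := ShortComplex.exact_cokernel (upι A)
  mono_f := inferInstanceAs (Mono (upι A))
  epi_g := inferInstanceAs (Epi (cokernel.π (upι A)))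

/-- `coind_1^G(A)` is acyclic. -/
theorem isZero_H_coindBot (A : Rep.{u} k G) (n : ℕ) :
    IsZero (groupCohomology (coindBot A) (n + 1)) :=
  IsZero.of_iso (isZero_groupCohomology_succ_of_subsingleton (botRes A) n)
    (groupCohomology.coindIso (botRes A) (n + 1))

/-- `coind_1^G(A)` is acyclic on every subgroup, in hom-form. -/
theorem isZero_H_res_coindBot {H : Type u} [Group H] (f : H →* G) (hf : Function.Injective f)
    (A : Rep.{u} k G) (n : ℕ) :
    IsZero (groupCohomology (res f (coindBot A)) (n + 1)) :=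
  isZero_res_of_range f hf _ _ (isZero_groupCohomology_res_coind_bot f.range (botRes A) n)

/-- The restriction of the shifting sequence. -/
lemma upSES_res_shortExact {H : Type u} [Group H] (f : H →* G) (A : Rep.{u} k G) :
    ((upSES A).map (resFunctor f)).ShortExact :=
  (Rep.shortExact_res f).2 (upSES_shortExact A)

/-- Dimension shifting, upward: `Hⁿ⁺²(H, A) = 0 ↔ Hⁿ⁺¹(H, A⁺) = 0`. -/
theorem isZero_H_up_iff {H : Type u} [Group H] (f : H →* G) (hf : Function.Injective f)
    (A : Rep.{u} k G) (n : ℕ) :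
    IsZero (groupCohomology (res f (_root_.Fermat.Agent.S55.H295.up A)) (n + 1)) ↔
      IsZero (groupCohomology (res f A) (n + 2)) := by
  constructor
  · intro h
    exact isZero_H_left (upSES_res_shortExact f A) (n + 1) h (isZero_H_res_coindBot f hf A (n + 1))
  · intro h
    exact isZero_H_right (upSES_res_shortExact f A) (n + 1) (isZero_H_res_coindBot f hf A n) h

/-- Dimension shifting for the group itself. -/
theorem isZero_H_up_iff_self (A : Rep.{u} k G) (n : ℕ) :
    IsZero (groupCohomology (_root_.Fermat.Agent.S55.H295.up A) (n + 1)) ↔ IsZero (groupCohomology A (n + 2)) := by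
  constructor
  · intro h
    exact isZero_H_left (upSES_shortExact A) (n + 1) h (isZero_H_coindBot A (n + 1))
  · intro h
    exact isZero_H_right (upSES_shortExact A) (n + 1) (isZero_H_coindBot A n) h

end

end Fermat.Agent.S55.H295

end
-- ===== PACK-END S55/H295/Shift.lean

-- ===== PACK-BEGIN S55/H295/SplitCoh.lean
section



/-!
# The splitting module of a 2-cocycle: cohomology

For every subgroup `H ≤ G`:

* `exists_cohomologous_augu` : every 1-cocycle `H → I` is cohomologous to a multiple of the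
  canonical cocycle `u(h) = h δ₁ - δ₁`;
* `δ_split_augu` : the connecting homomorphism `H¹(H, I) → H²(H, C)` of
  `0 → C → C(c) → I → 0` sends the class of `u` to `res_H [c]`.
-/

set_option autoImplicit false
set_option linter.unusedSectionVars false

open CategoryTheory groupCohomology Rep Limits

universe u

namespace Fermat.Agent.S55.H295

open Fermat.Agent.S55.H783

noncomputable section

variable (k G : Type u) [CommRing k] [Group G] [Fintype G]

open scoped Classical in
/-- The indicator function of `1 : G`. -/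
def augδ : G → k := fun x => if x = 1 then 1 else 0

lemma augδ_apply_one : augδ k G 1 = 1 := by simp [augδ]

lemma sum_augδ : ∑ x : G, augδ k G x = 1 := by
  classical
  simp [augδ]

lemma sum_funRho_augδ (g : G) : ∑ x : G, funRho k G k g (augδ k G) x = 1 := by
  have := augLin_funRho k G g (augδ k G)
  rw [augLin_apply, augLin_apply, sum_augδ] at this
  exact this

/-- The canonical 1-cocycle `u : G → I`, `u(g) = g δ₁ - δ₁`. -/
def augu (g : G) : augIsub k G :=
  ⟨funRho k G k g (augδ k G) - augδ k G, by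
    rw [mem_augIsub]
    simp only [Pi.sub_apply, Finset.sum_sub_distrib]
    rw [sum_funRho_augδ, sum_augδ, sub_self]⟩

lemma augu_coe (g : G) : (augu k G g).1 = funRho k G k g (augδ k G) - augδ k G := rfl

variable {k G}

section Beta

variable {C : Rep.{u} k G}

lemma splitβ_augδ (c : G × G → C.V) (g : G) : splitβ c g (augδ k G) = c (g, 1) := by
  classical
  rw [splitβ_apply]
  rw [Finset.sum_eq_single (1 : G)]
  · simp [augδ]
  · intro x _ hx
    simp [augδ, hx]
  · intro h
    exact absurd (Finset.mem_univ _) h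

lemma splitβ_funRho_augδ (c : G × G → C.V) (g h : G) :
    splitβ c g (funRho k G k h (augδ k G)) = c (g, h) := by
  classical
  rw [splitβ_apply]
  rw [Finset.sum_eq_single (h⁻¹ : G)]
  · simp [augδ]
  · intro x _ hx
    have : x * h ≠ 1 := fun hxh => hx (eq_inv_of_mul_eq_one_left hxh)
    simp [augδ, this]
  · intro h'
    exact absurd (Finset.mem_univ _) h'

lemma splitβ_augu (c : G × G → C.V) (g h : G) :
    splitβ c g (augu k G h).1 = c (g, h) - c (g, 1) := by
  rw [augu_coe, map_sub, splitβ_funRho_augδ, splitβ_augδ]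

end Beta

section Sub

variable (H : Subgroup G)

/-- The augmentation sequence restricted to `H`. -/
abbrev augSESres : ShortComplex (Rep.{u} k H) := (augSES k G).map (resFunctor H.subtype)

lemma augSESres_shortExact : (augSESres (k := k) H).ShortExact :=
  (Rep.shortExact_res H.subtype).2 (augSES_shortExact k G)

/-- `H²(H, I) = 0` as soon as `H¹(H, k) = 0`. -/
lemma isZero_H2_augI (hk : IsZero (groupCohomology (res H.subtype (Rep.trivial k G k)) 1)) :
    IsZero (groupCohomology (res H.subtype (augI k G)) 2) :=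
  isZero_H_left (augSESres_shortExact H) 1 hk (isZero_res_funRep H k 1)

/-- The canonical cocycle restricted to `H`. -/
def auguH : cocycles₁ (res H.subtype (augI k G)) :=
  ⟨fun h => augu k G (h : G), by
    rw [mem_cocycles₁_iff]
    intro g h
    apply Subtype.ext
    funext x
    change (augu k G ((g : G) * (h : G))).1 x =
      (augu k G (h : G)).1 (x * (g : G)) + (augu k G (g : G)).1 x
    simp only [augu_coe, Pi.sub_apply, funRho_apply, mul_assoc]
    ring⟩

lemma auguH_apply (h : H) : (auguH (k := k) H) h = augu k G (h : G) := rfl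

/-- Every 1-cocycle `H → I` is cohomologous to a multiple of the canonical cocycle. -/
lemma exists_cohomologous_augu (z : cocycles₁ (res H.subtype (augI k G))) :
    ∃ r : k, H1π (res H.subtype (augI k G)) z = r • H1π (res H.subtype (augI k G)) (auguH H) := by
  -- push `z` to `P`, where it is a coboundary
  have hz := (mem_cocycles₁_iff (A := res H.subtype (augI k G)) z).1 z.2
  let zP : H → (G → k) := fun h => (z h).1
  have hzP : zP ∈ cocycles₁ (res H.subtype (augP k G)) := by
    rw [mem_cocycles₁_iff]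
    intro g h
    exact congrArg Subtype.val (hz g h)
  have h0 : H1π (res H.subtype (augP k G)) ⟨zP, hzP⟩ = 0 :=
    (ModuleCat.subsingleton_of_isZero (isZero_res_funRep H k 0)).elim _ _
  rw [H1π_eq_zero_iff] at h0
  obtain ⟨ψ, hψ⟩ := h0
  have hψ' : ∀ (h : H) (x : G), ψ (x * (h : G)) - ψ x = (z h).1 x := fun h x =>
    congrFun (congrFun hψ h) x
  let r : k := ∑ x : G, ψ x
  refine ⟨r, ?_⟩
  have hψ₀ : ψ - r • augδ k G ∈ augIsub k G := by
    rw [mem_augIsub]
    simp only [Pi.sub_apply, Pi.smul_apply, smul_eq_mul, Finset.sum_sub_distrib,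
      ← Finset.mul_sum, sum_augδ, mul_one]
    exact sub_self r
  rw [← map_smul, H1π_eq_iff]
  refine ⟨(⟨ψ - r • augδ k G, hψ₀⟩ : augIsub k G), ?_⟩
  funext h
  apply Subtype.ext
  funext x
  change (ψ (x * (h : G)) - r • augδ k G (x * (h : G))) - (ψ x - r • augδ k G x) =
    (z h).1 x - r • (augδ k G (x * (h : G)) - augδ k G x)
  rw [← hψ' h x]
  simp only [smul_eq_mul]
  ring

end Sub

section Delta

variable {C : Rep.{u} k G} (c : cocycles₂ C) (H : Subgroup G)

/-- The splitting sequence restricted to `H`. -/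
abbrev splitSESres : ShortComplex (Rep.{u} k H) := (splitSES c).map (resFunctor H.subtype)

lemma splitSESres_shortExact : (splitSESres c H).ShortExact :=
  (Rep.shortExact_res H.subtype).2 (splitSES_shortExact c)

/-- The 2-cochain `(g, h) ↦ β_g(z h)` attached to a 1-cochain `z : H → I`. -/
def splitCochain (z : H → augIsub k G) : H × H → C.V :=
  fun p => splitβ (c : G × G → C.V) (p.1 : G) (z p.2).1

lemma splitCochain_apply (z : H → augIsub k G) (g h : H) :
    splitCochain c H z (g, h) = splitβ (c : G × G → C.V) (g : G) (z h).1 := rfl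

lemma split_comp_eq_d₁₂ (z : cocycles₁ (res H.subtype (augI k G))) :
    (splitSESres c H).f.hom ∘ splitCochain c H z =
      d₁₂ (splitSESres c H).X₂ (fun h => ((0 : C.V), z h)) := by
  have hz := (mem_cocycles₁_iff (A := res H.subtype (augI k G)) z).1 z.2
  funext p
  obtain ⟨g, h⟩ := p
  change ((splitCochain c H z (g, h), (0 : augIsub k G)) : C.V × augIsub k G) =
    splitRho c (g : G) ((0 : C.V), z h) - ((0 : C.V), z (g * h)) + ((0 : C.V), z g)
  rw [splitRho_apply, splitCochain_apply]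
  refine Prod.ext ?_ ?_
  · simp
  · change (0 : augIsub k G) = augIrho k G (g : G) (z h) - z (g * h) + z g
    rw [hz g h]
    change (0 : augIsub k G) = augIrho k G (g : G) (z h) - (augIrho k G (g : G) (z h) + z g) + z g
    abel

/-- The connecting homomorphism of the splitting sequence on a 1-cocycle `z : H → I`. -/
theorem δ_split (z : cocycles₁ (res H.subtype (augI k G))) :
    δ (splitSESres_shortExact c H) 1 2 rfl (H1π _ z) =
      H2π (res H.subtype C) ⟨splitCochain c H z,
        mem_cocycles₂_of_comp_eq_d₁₂ (splitSESres_shortExact c H) (split_comp_eq_d₁₂ c H z)⟩ :=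
  δ₁_apply (splitSESres_shortExact c H) z (fun h => ((0 : C.V), z h)) rfl
    (splitCochain c H z) (split_comp_eq_d₁₂ c H z)

/-- **Key computation**: the connecting homomorphism sends the canonical class to `res_H [c]`. -/
theorem δ_split_auguH :
    δ (splitSESres_shortExact c H) 1 2 rfl (H1π _ (auguH H)) =
      (groupCohomology.map H.subtype (𝟙 (res H.subtype C)) 2).hom (H2π C c) := by
  rw [δ_split, H2π_comp_map_apply]
  refine (H2π_eq_iff (A := res H.subtype C) _ _).2 ⟨fun _ => -(c : G × G → C.V) (1, 1), ?_⟩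
  funext p
  obtain ⟨g, h⟩ := p
  change C.ρ (g : G) (-(c : G × G → C.V) (1, 1)) - (-(c : G × G → C.V) (1, 1)) +
      (-(c : G × G → C.V) (1, 1)) =
    splitβ (c : G × G → C.V) (g : G) (augu k G (h : G)).1 - (c : G × G → C.V) ((g : G), (h : G))
  rw [splitβ_augu, cocycles₂_map_one_snd c (g : G), map_neg]
  abel

end Delta

end

end Fermat.Agent.S55.H295

end
-- ===== PACK-END S55/H295/SplitCoh.lean

-- ===== PACK-BEGIN S55/T/SumH635.lean
section


/-!
# S55, layer T, T9: finite products and direct sums in group cohomology (helper635)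

* `finiteProd : FiniteProdSpec` — `Hⁿ(G, ∏ᵢ A i) = ∏ᵢ Hⁿ(G, A i)` for a finite index set.
* `directSum : DirectSumSpec` — `Hⁿ(G, ⨁ᵢ A i) = ⨁ᵢ Hⁿ(G, A i)` for a finite group `G`
  and an arbitrary index set.

Both are proved from additivity of `coeffMap` in the coefficient morphism; for the direct sum
the point is that a cocycle `Gⁿ → ⨁ᵢ A i` of a finite group takes values in a finite
sub-sum.
-/

set_option autoImplicit false

open CategoryTheory groupCohomology

namespace Fermat.Agent.S55.T.H635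

variable {k G : Type} [CommRing k] [Group G]

/-- `coeffMap` is additive in the coefficient morphism. -/
theorem coeffMap_add {A B : Rep.{0} k G} (f g : A ⟶ B) (n : ℕ) :
    coeffMap (f + g) n = coeffMap f n + coeffMap g n := by
  have h : cochainsMap (MonoidHom.id G) (f + g)
      = cochainsMap (MonoidHom.id G) f + cochainsMap (MonoidHom.id G) g :=
    (cochainsFunctor k G).map_add
  show HomologicalComplex.homologyMap (cochainsMap (MonoidHom.id G) (f + g)) n = _
  rw [h, HomologicalComplex.homologyMap_add]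
  rfl

theorem coeffMap_zero {A B : Rep.{0} k G} (n : ℕ) :
    coeffMap (0 : A ⟶ B) n = 0 := by
  have h : cochainsMap (MonoidHom.id G) (0 : A ⟶ B) = 0 :=
    (cochainsFunctor k G).map_zero _ _
  show HomologicalComplex.homologyMap (cochainsMap (MonoidHom.id G) (0 : A ⟶ B)) n = _
  rw [h, HomologicalComplex.homologyMap_zero]
  rfl

theorem coeffMap_id (A : Rep.{0} k G) (n : ℕ) :
    coeffMap (𝟙 A) n = 𝟙 _ := groupCohomology.map_id (B := A) (n := n)

theorem coeffMap_comp {A B C : Rep.{0} k G} (f : A ⟶ B) (g : B ⟶ C) (n : ℕ) :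
    coeffMap (f ≫ g) n = coeffMap f n ≫ coeffMap g n :=
  groupCohomology.map_id_comp f g n

/-- `coeffMap` as an additive monoid homomorphism. -/
noncomputable def coeffMapAddHom (A B : Rep.{0} k G) (n : ℕ) :
    (A ⟶ B) →+ (groupCohomology A n ⟶ groupCohomology B n) where
  toFun f := coeffMap f n
  map_zero' := coeffMap_zero n
  map_add' f g := coeffMap_add f g n

theorem coeffMap_sum {A B : Rep.{0} k G} {ι : Type} (s : Finset ι) (f : ι → (A ⟶ B)) (n : ℕ) :
    coeffMap (∑ i ∈ s, f i) n = ∑ i ∈ s, coeffMap (f i) n :=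
  map_sum (coeffMapAddHom A B n) f s

theorem coeffMap_comp_apply {A B C : Rep.{0} k G} (f : A ⟶ B) (g : B ⟶ C) (n : ℕ)
    (x : groupCohomology A n) :
    (coeffMap g n).hom ((coeffMap f n).hom x) = (coeffMap (f ≫ g) n).hom x := by
  rw [coeffMap_comp]; rfl

theorem coeffMap_id_apply (A : Rep.{0} k G) (n : ℕ) (x : groupCohomology A n) :
    (coeffMap (𝟙 A) n).hom x = x := by
  rw [coeffMap_id]; rfl

theorem coeffMap_zero_apply {A B : Rep.{0} k G} (n : ℕ) (x : groupCohomology A n) :
    (coeffMap (0 : A ⟶ B) n).hom x = 0 := by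
  rw [coeffMap_zero]; rfl

theorem coeffMap_sum_apply {A B : Rep.{0} k G} {ι : Type} (s : Finset ι) (f : ι → (A ⟶ B))
    (n : ℕ) (x : groupCohomology A n) :
    (coeffMap (∑ i ∈ s, f i) n).hom x = ∑ i ∈ s, (coeffMap (f i) n).hom x := by
  classical
  rw [coeffMap_sum]
  induction s using Finset.induction_on with
  | empty => simp
  | insert a s ha ih =>
    rw [Finset.sum_insert ha, Finset.sum_insert ha, ← ih]
    rfl

theorem hom_apply_ext {A B : Rep.{0} k G} {f g : A ⟶ B}
    (h : ∀ a : A.V, f.hom a = g.hom a) : f = g :=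
  Rep.hom_ext (Representation.IntertwiningMap.ext (LinearMap.ext h))

theorem comp_hom_apply {A B C : Rep.{0} k G} (f : A ⟶ B) (g : B ⟶ C) (a : A.V) :
    (f ≫ g).hom a = g.hom (f.hom a) := by
  rw [Rep.hom_comp]; rfl

theorem id_hom_apply (A : Rep.{0} k G) (a : A.V) : (𝟙 A : A ⟶ A).hom a = a := by
  rw [Rep.hom_id]; rfl

theorem zero_hom_apply {A B : Rep.{0} k G} (a : A.V) : (0 : A ⟶ B).hom a = 0 := by
  rw [Rep.zero_hom]; rfl

theorem sum_hom_apply {A B : Rep.{0} k G} {ι : Type} (s : Finset ι) (f : ι → (A ⟶ B))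
    (a : A.V) : (∑ i ∈ s, f i).hom a = ∑ i ∈ s, (f i).hom a := by
  rw [Rep.sum_hom]
  exact Representation.IntertwiningMap.sum_apply _ _ _ _ _

section FiniteProd

set_option linter.unusedSectionVars false
variable {ι : Type} [Fintype ι] [DecidableEq ι] {A : ι → Rep.{0} k G} {C : Rep.{0} k G}
  (p : ∀ i, C ⟶ A i)

/-- The linear map `C → ∏ᵢ A i` with components `p i`. -/
noncomputable def prodLin : C.V →ₗ[k] (∀ i, (A i).V) :=
  LinearMap.pi (fun i => (p i).hom.toLinearMap)

theorem prodLin_apply (c : C.V) (i : ι) : prodLin p c i = (p i).hom c := rfl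

variable (hp : Function.Bijective (fun (c : C.V) (i : ι) => (p i).hom c))

/-- The linear equivalence `C ≃ ∏ᵢ A i`. -/
noncomputable def prodEquiv : C.V ≃ₗ[k] (∀ i, (A i).V) :=
  LinearEquiv.ofBijective (prodLin p) hp

theorem prodEquiv_apply (c : C.V) (i : ι) : prodEquiv p hp c i = (p i).hom c := rfl

theorem p_prodEquiv_symm (x : ∀ i, (A i).V) (i : ι) :
    (p i).hom ((prodEquiv p hp).symm x) = x i := by
  rw [← prodEquiv_apply p hp, LinearEquiv.apply_symm_apply]

/-- The section `A i → C`. -/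
noncomputable def prodSec (i : ι) : A i ⟶ C :=
  Rep.ofHom
    { toLinearMap := (prodEquiv p hp).symm.toLinearMap ∘ₗ LinearMap.single k (fun i => (A i).V) i
      isIntertwining' := fun g => by
        refine LinearMap.ext fun a => ?_
        apply (prodEquiv p hp).injective
        funext j
        simp only [LinearMap.coe_comp, Function.comp_apply, LinearEquiv.coe_coe,
          LinearMap.coe_single, prodEquiv_apply]
        rw [p_prodEquiv_symm, Rep.hom_comm_apply, p_prodEquiv_symm]
        by_cases h : j = i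
        · subst h; simp
        · simp [Pi.single_eq_of_ne h] }

theorem prodSec_apply (i : ι) (a : (A i).V) :
    (prodSec p hp i).hom a = (prodEquiv p hp).symm (Pi.single i a) := rfl

theorem prodSec_comp_self (i : ι) : prodSec p hp i ≫ p i = 𝟙 (A i) := by
  refine hom_apply_ext fun a => ?_
  rw [comp_hom_apply, id_hom_apply, prodSec_apply, p_prodEquiv_symm, Pi.single_eq_same]

theorem prodSec_comp_of_ne {i j : ι} (h : i ≠ j) : prodSec p hp i ≫ p j = 0 := by
  refine hom_apply_ext fun a => ?_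
  rw [comp_hom_apply, zero_hom_apply, prodSec_apply, p_prodEquiv_symm,
    Pi.single_eq_of_ne (Ne.symm h)]

theorem sum_comp_prodSec : ∑ i, p i ≫ prodSec p hp i = 𝟙 C := by
  refine hom_apply_ext fun c => ?_
  rw [sum_hom_apply, id_hom_apply]
  apply (prodEquiv p hp).injective
  rw [map_sum]
  funext j
  rw [Finset.sum_apply, prodEquiv_apply]
  rw [Finset.sum_eq_single j]
  · rw [comp_hom_apply, prodSec_apply, LinearEquiv.apply_symm_apply, Pi.single_eq_same]
  · intro i _ hij
    rw [comp_hom_apply, prodSec_apply, LinearEquiv.apply_symm_apply, Pi.single_eq_of_ne (Ne.symm hij)]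
  · intro h; exact absurd (Finset.mem_univ j) h

end FiniteProd

/-- **T9a.** -/
theorem finiteProd : FiniteProdSpec := by
  intro k G _ _ ι _ A C p hp n
  classical
  have : Fintype ι := Fintype.ofFinite ι
  have hrec : ∀ x : groupCohomology C n,
      x = ∑ i, (coeffMap (prodSec p hp i) n).hom ((coeffMap (p i) n).hom x) := by
    intro x
    conv_lhs => rw [← coeffMap_id_apply C n x, ← sum_comp_prodSec p hp, coeffMap_sum_apply]
    refine Finset.sum_congr rfl fun i _ => ?_
    rw [coeffMap_comp_apply]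
  constructor
  · intro x y hxy
    rw [hrec x, hrec y]
    refine Finset.sum_congr rfl fun i _ => ?_
    have := congrFun hxy i
    simp only at this
    rw [this]
  · intro y
    refine ⟨∑ i, (coeffMap (prodSec p hp i) n).hom (y i), ?_⟩
    funext j
    simp only
    rw [map_sum, Finset.sum_eq_single j]
    · rw [coeffMap_comp_apply, prodSec_comp_self, coeffMap_id_apply]
    · intro i _ hij
      rw [coeffMap_comp_apply, prodSec_comp_of_ne p hp hij, coeffMap_zero_apply]
    · intro h; exact absurd (Finset.mem_univ j) h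

theorem iCocycles_cocyclesMap_apply {A B : Rep.{0} k G} (e : A ⟶ B) (n : ℕ)
    (z : cocycles A n) (g : Fin n → G) :
    (iCocycles B n).hom ((cocyclesMap (MonoidHom.id G) e n).hom z) g
      = e.hom ((iCocycles A n).hom z g) := by
  have h1 : cocyclesMap (MonoidHom.id G) e n ≫ iCocycles B n
      = iCocycles A n ≫ (cochainsMap (MonoidHom.id G) e).f n :=
    HomologicalComplex.cyclesMap_i _ _
  have h2 := congrArg (fun φ => φ.hom z) h1
  simp only [ModuleCat.hom_comp, LinearMap.coe_comp, Function.comp_apply] at h2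
  rw [h2, cochainsMap_id_f_hom_eq_compLeft]
  rfl

theorem cocyclesMap_eq_self_of_fix {C : Rep.{0} k G} (e : C ⟶ C) (n : ℕ)
    (z : cocycles C n) (h : ∀ g : Fin n → G, e.hom ((iCocycles C n).hom z g) = (iCocycles C n).hom z g) :
    (cocyclesMap (MonoidHom.id G) e n).hom z = z := by
  apply (ModuleCat.mono_iff_injective (iCocycles C n)).1 inferInstance
  funext g
  rw [iCocycles_cocyclesMap_apply, h]

theorem coeffMap_π_eq_self_of_fix {C : Rep.{0} k G} (e : C ⟶ C) (n : ℕ)
    (z : cocycles C n) (h : ∀ g : Fin n → G, e.hom ((iCocycles C n).hom z g) = (iCocycles C n).hom z g) :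
    (coeffMap e n).hom ((π C n).hom z) = (π C n).hom z := by
  have := groupCohomology.π_map_apply (MonoidHom.id G) e n z
  rw [cocyclesMap_eq_self_of_fix e n z h] at this
  exact this

section DirectSum

set_option linter.unusedSectionVars false

variable {ι : Type} [DecidableEq ι] {A : ι → Rep.{0} k G} {C : Rep.{0} k G}
  (inc : ∀ i, A i ⟶ C)

theorem component_lof_of_ne {M : ι → Type} [∀ i, AddCommGroup (M i)] [∀ i, Module k (M i)]
    {i j : ι} (h : i ≠ j) (b : M i) :
    DirectSum.component k ι M j (DirectSum.lof k ι M i b) = 0 := by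
  rw [DirectSum.component.of, dif_neg h]

variable
  (hinc : Function.Bijective (DirectSum.toModule k ι C.V (fun i => (inc i).hom.toLinearMap)))

/-- The linear equivalence `⨁ᵢ A i ≃ C`. -/
noncomputable def sumEquiv : (DirectSum ι fun i => (A i).V) ≃ₗ[k] C.V :=
  LinearEquiv.ofBijective (DirectSum.toModule k ι C.V (fun i => (inc i).hom.toLinearMap)) hinc

theorem sumEquiv_lof (i : ι) (a : (A i).V) :
    sumEquiv inc hinc (DirectSum.lof k ι (fun i => (A i).V) i a) = (inc i).hom a := by
  show DirectSum.toModule k ι C.V (fun i => (inc i).hom.toLinearMap)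
    (DirectSum.lof k ι (fun i => (A i).V) i a) = (inc i).hom a
  rw [DirectSum.toModule_lof]
  rfl

theorem sumEquiv_symm_inc (i : ι) (a : (A i).V) :
    (sumEquiv inc hinc).symm ((inc i).hom a) = DirectSum.lof k ι (fun i => (A i).V) i a := by
  rw [← sumEquiv_lof inc hinc, LinearEquiv.symm_apply_apply]

/-- The `j`-th projection `C → A j`, as a linear map. -/
noncomputable def sumProjLin (j : ι) : C.V →ₗ[k] (A j).V :=
  DirectSum.component k ι (fun i => (A i).V) j ∘ₗ (sumEquiv inc hinc).symm.toLinearMap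

theorem sumProjLin_apply (j : ι) (c : C.V) :
    sumProjLin inc hinc j c = ((sumEquiv inc hinc).symm c) j := rfl

theorem sumProjLin_inc_self (i : ι) (a : (A i).V) :
    sumProjLin inc hinc i ((inc i).hom a) = a := by
  show DirectSum.component k ι (fun i => (A i).V) i ((sumEquiv inc hinc).symm ((inc i).hom a)) = a
  rw [sumEquiv_symm_inc, DirectSum.component.lof_self]

theorem sumProjLin_inc_of_ne {i j : ι} (h : i ≠ j) (a : (A i).V) :
    sumProjLin inc hinc j ((inc i).hom a) = 0 := by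
  show DirectSum.component k ι (fun i => (A i).V) j ((sumEquiv inc hinc).symm ((inc i).hom a)) = 0
  rw [sumEquiv_symm_inc, component_lof_of_ne h]

/-- The `j`-th projection `C ⟶ A j`. -/
noncomputable def sumProj (j : ι) : C ⟶ A j :=
  Rep.ofHom
    { toLinearMap := sumProjLin inc hinc j
      isIntertwining' := fun g => by
        have key : (sumProjLin inc hinc j ∘ₗ C.ρ g) ∘ₗ (sumEquiv inc hinc).toLinearMap
            = ((A j).ρ g ∘ₗ sumProjLin inc hinc j) ∘ₗ (sumEquiv inc hinc).toLinearMap := by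
          refine DirectSum.linearMap_ext k fun i => LinearMap.ext fun a => ?_
          simp only [LinearMap.coe_comp, Function.comp_apply, LinearEquiv.coe_coe]
          rw [sumEquiv_lof, ← Rep.hom_comm_apply]
          by_cases h : i = j
          · subst h
            rw [sumProjLin_inc_self, sumProjLin_inc_self]
          · rw [sumProjLin_inc_of_ne inc hinc h, sumProjLin_inc_of_ne inc hinc h, map_zero]
        refine LinearMap.ext fun c => ?_
        obtain ⟨x, rfl⟩ := (sumEquiv inc hinc).surjective c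
        exact LinearMap.congr_fun key x }

theorem sumProj_apply (j : ι) (c : C.V) :
    (sumProj inc hinc j).hom c = ((sumEquiv inc hinc).symm c) j := rfl

theorem inc_comp_sumProj_self (i : ι) : inc i ≫ sumProj inc hinc i = 𝟙 (A i) := by
  refine hom_apply_ext fun a => ?_
  rw [comp_hom_apply, id_hom_apply]
  exact sumProjLin_inc_self inc hinc i a

theorem inc_comp_sumProj_of_ne {i j : ι} (h : i ≠ j) : inc i ≫ sumProj inc hinc j = 0 := by
  refine hom_apply_ext fun a => ?_
  rw [comp_hom_apply, zero_hom_apply]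
  exact sumProjLin_inc_of_ne inc hinc h a

/-- The idempotent `e_S = ∑_{i ∈ S} q_i ≫ inc_i` fixes every vector supported in `S`. -/
theorem sum_sumProj_inc_apply_of_support [∀ i (x : (A i).V), Decidable (x ≠ 0)]
    (S : Finset ι) (v : C.V)
    (hv : DFinsupp.support ((sumEquiv inc hinc).symm v) ⊆ S) :
    (∑ i ∈ S, sumProj inc hinc i ≫ inc i).hom v = v := by
  rw [sum_hom_apply]
  have h1 : ∀ i ∈ S, (sumProj inc hinc i ≫ inc i).hom v
      = sumEquiv inc hinc (DirectSum.of (fun i => (A i).V) i (((sumEquiv inc hinc).symm v) i)) := by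
    intro i _
    rw [comp_hom_apply, sumProj_apply]
    exact (sumEquiv_lof inc hinc i _).symm
  rw [Finset.sum_congr rfl h1, ← map_sum]
  have h2 : ∑ i ∈ S, DirectSum.of (fun i => (A i).V) i (((sumEquiv inc hinc).symm v) i)
      = (sumEquiv inc hinc).symm v := by
    rw [← Finset.sum_subset hv]
    · exact DirectSum.sum_support_of _
    · intro i _ hi
      rw [DFinsupp.notMem_support_iff] at hi
      rw [hi, map_zero]
  rw [h2, LinearEquiv.apply_symm_apply]

end DirectSum

/-- **T9b.** -/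
theorem directSum : DirectSumSpec := by
  intro k G _ _ _ ι _ A C inc hinc n
  classical
  have : Fintype (Fin n → G) := Fintype.ofFinite _
  -- projections recover components
  have hcomp : ∀ j : ι,
      (coeffMap (sumProj inc hinc j) n).hom.comp
        (DirectSum.toModule k ι (groupCohomology C n) (fun i => (coeffMap (inc i) n).hom))
      = DirectSum.component k ι (fun i => groupCohomology (A i) n) j := by
    intro j
    refine DirectSum.linearMap_ext k fun i => LinearMap.ext fun x => ?_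
    simp only [LinearMap.coe_comp, Function.comp_apply]
    rw [DirectSum.toModule_lof, coeffMap_comp_apply]
    by_cases h : i = j
    · subst h
      rw [inc_comp_sumProj_self, coeffMap_id_apply, DirectSum.component.lof_self]
    · rw [inc_comp_sumProj_of_ne inc hinc h, coeffMap_zero_apply, component_lof_of_ne h]
  constructor
  · intro x y hxy
    refine DirectSum.ext_component k fun j => ?_
    rw [← hcomp j]
    simp only [LinearMap.coe_comp, Function.comp_apply]
    rw [hxy]
  · intro c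
    induction c using groupCohomology_induction_on with
    | h z =>
      let S : Finset ι := Finset.univ.biUnion fun g : Fin n → G =>
        DFinsupp.support ((sumEquiv inc hinc).symm ((iCocycles C n).hom z g))
      have hfix : ∀ g : Fin n → G,
          (∑ i ∈ S, sumProj inc hinc i ≫ inc i).hom ((iCocycles C n).hom z g)
            = (iCocycles C n).hom z g := by
        intro g
        refine sum_sumProj_inc_apply_of_support inc hinc S _ ?_
        exact Finset.subset_biUnion_of_mem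
          (fun g : Fin n → G =>
            DFinsupp.support ((sumEquiv inc hinc).symm ((iCocycles C n).hom z g)))
          (Finset.mem_univ g)
      have hz := coeffMap_π_eq_self_of_fix (∑ i ∈ S, sumProj inc hinc i ≫ inc i) n z hfix
      refine ⟨∑ i ∈ S, DirectSum.lof k ι (fun i => groupCohomology (A i) n) i
        ((coeffMap (sumProj inc hinc i) n).hom ((π C n).hom z)), ?_⟩
      rw [map_sum]
      conv_rhs => rw [← hz, coeffMap_sum_apply]
      refine Finset.sum_congr rfl fun i _ => ?_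
      rw [DirectSum.toModule_lof, coeffMap_comp_apply]

end Fermat.Agent.S55.T.H635

end
-- ===== PACK-END S55/T/SumH635.lean

-- ===== PACK-BEGIN S55/T/H415/Additive.lean
section


/-!
# S55, layer T, leaf T9 (helper415): additivity of `Hⁿ(G, -)`, finite products

* `coeffMap_add`, `coeffMap_zero`, `coeffMap_sum`, `coeffMap_comp`, `coeffMap_id`;
* `finiteProd : FiniteProdSpec`.
-/

set_option autoImplicit false

open CategoryTheory groupCohomology

namespace Fermat.Agent.S55.T.H415

open Fermat.Agent.S55.T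

variable {k G : Type} [CommRing k] [Group G]

lemma coeffMap_add {A B : Rep.{0} k G} (f g : A ⟶ B) (n : ℕ) :
    coeffMap (f + g) n = coeffMap f n + coeffMap g n := by
  have h : cochainsMap (MonoidHom.id G) (f + g) =
      cochainsMap (MonoidHom.id G) f + cochainsMap (MonoidHom.id G) g :=
    (cochainsFunctor k G).map_add
  change HomologicalComplex.homologyMap (cochainsMap (MonoidHom.id G) (f + g)) n = _
  rw [h, HomologicalComplex.homologyMap_add]
  rfl

lemma coeffMap_zero (A B : Rep.{0} k G) (n : ℕ) :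
    coeffMap (0 : A ⟶ B) n = 0 :=
  (groupCohomology.functor k G n).map_zero A B

lemma coeffMap_id (A : Rep.{0} k G) (n : ℕ) : coeffMap (𝟙 A) n = 𝟙 _ :=
  HomologicalComplex.homologyMap_id _ _

lemma coeffMap_comp {A B C : Rep.{0} k G} (f : A ⟶ B) (g : B ⟶ C) (n : ℕ) :
    coeffMap (f ≫ g) n = coeffMap f n ≫ coeffMap g n :=
  groupCohomology.map_id_comp f g n

lemma coeffMap_sum {A B : Rep.{0} k G} {ι : Type} (s : Finset ι) (f : ι → (A ⟶ B)) (n : ℕ) :
    coeffMap (∑ i ∈ s, f i) n = ∑ i ∈ s, coeffMap (f i) n := by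
  classical
  induction s using Finset.induction_on with
  | empty => simp [coeffMap_zero]
  | insert a s ha ih => rw [Finset.sum_insert ha, Finset.sum_insert ha, coeffMap_add, ih]

lemma coeffMap_comp_apply {A B C : Rep.{0} k G} (f : A ⟶ B) (g : B ⟶ C) (n : ℕ)
    (x : groupCohomology A n) :
    (coeffMap (f ≫ g) n).hom x = (coeffMap g n).hom ((coeffMap f n).hom x) := by
  rw [coeffMap_comp]; rfl

lemma coeffMap_sum_apply {A B : Rep.{0} k G} {ι : Type} (s : Finset ι) (f : ι → (A ⟶ B)) (n : ℕ)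
    (x : groupCohomology A n) :
    (coeffMap (∑ i ∈ s, f i) n).hom x = ∑ i ∈ s, (coeffMap (f i) n).hom x := by
  rw [coeffMap_sum]
  simp

/-- **T9a.** Finite products. -/
theorem finiteProd : FiniteProdSpec := by
  intro k G _ _ ι _ A C p hbij n
  classical
  have : Fintype ι := Fintype.ofFinite ι
  -- the linear equivalence `C ≃ ∏ A i`
  let P : C.V →ₗ[k] (∀ i, (A i).V) := LinearMap.pi fun i => (p i).hom.toLinearMap
  have hP : Function.Bijective P := hbij
  let e : C.V ≃ₗ[k] (∀ i, (A i).V) := LinearEquiv.ofBijective P hP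
  have he : ∀ c i, e c i = (p i).hom c := fun _ _ => rfl
  -- the inclusions
  let jlin : ∀ i, (A i).V →ₗ[k] C.V := fun i =>
    e.symm.toLinearMap ∘ₗ LinearMap.single k (fun i => (A i).V) i
  have hpj : ∀ i i' (a : (A i).V),
      (p i').hom (jlin i a) = (Pi.single i a : ∀ i, (A i).V) i' := by
    intro i i' a
    rw [← he]
    simp [jlin]
  have hj_equiv : ∀ i (g : G) (a : (A i).V), jlin i ((A i).ρ g a) = C.ρ g (jlin i a) := by
    intro i g a
    apply e.injective
    funext i'
    rw [he, he, hpj, Rep.hom_comm_apply, hpj]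
    by_cases h : i' = i
    · subst h; simp
    · simp [Pi.single_eq_of_ne h]
  let j : ∀ i, A i ⟶ C := fun i =>
    ConcreteCategory.ofHom (C := Rep.{0} k G)
      ({ toLinearMap := jlin i
         isIntertwining' := fun g => LinearMap.ext fun a => hj_equiv i g a } :
        (A i).ρ.IntertwiningMap C.ρ)
  have hj_apply : ∀ i (a : (A i).V), (j i).hom a = jlin i a := fun _ _ => rfl
  have hjp_same : ∀ i, j i ≫ p i = 𝟙 (A i) := by
    intro i
    apply Rep.hom_ext
    apply DFunLike.ext
    intro a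
    change (p i).hom ((j i).hom a) = a
    rw [hj_apply, hpj]; simp
  have hjp_ne : ∀ i i', i ≠ i' → j i ≫ p i' = 0 := by
    intro i i' h
    apply Rep.hom_ext
    apply DFunLike.ext
    intro a
    change (p i').hom ((j i).hom a) = 0
    rw [hj_apply, hpj]; simp [Pi.single_eq_of_ne (Ne.symm h)]
  have hsum : ∑ i, p i ≫ j i = 𝟙 C := by
    apply Rep.hom_ext
    apply DFunLike.ext
    intro c
    change ((∑ i, p i ≫ j i : C ⟶ C)).hom c = c
    have h1 : ((∑ i, p i ≫ j i : C ⟶ C)).hom c = ∑ i, (j i).hom ((p i).hom c) := by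
      rw [Rep.sum_hom, Representation.IntertwiningMap.sum_apply]
      rfl
    rw [h1]
    apply e.injective
    funext i'
    rw [he, map_sum]
    simp only [hj_apply, hpj]
    rw [Finset.sum_eq_single i']
    · simp [he]
    · intro b _ hb; simp [Pi.single_eq_of_ne (Ne.symm hb)]
    · intro h; exact absurd (Finset.mem_univ _) h
  constructor
  · -- injective
    intro x y hxy
    have hx : ∀ i, (coeffMap (p i) n).hom x = (coeffMap (p i) n).hom y := fun i => congrFun hxy i
    have key : ∀ z : groupCohomology C n,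
        z = ∑ i, (coeffMap (j i) n).hom ((coeffMap (p i) n).hom z) := by
      intro z
      have := coeffMap_sum_apply Finset.univ (fun i => p i ≫ j i) n z
      rw [hsum, coeffMap_id] at this
      simp only [coeffMap_comp_apply] at this
      exact this
    rw [key x, key y]
    exact Finset.sum_congr rfl fun i _ => by rw [hx i]
  · -- surjective
    intro y
    refine ⟨∑ i, (coeffMap (j i) n).hom (y i), ?_⟩
    funext i'
    simp only [map_sum]
    rw [Finset.sum_eq_single i']
    · rw [← coeffMap_comp_apply, hjp_same, coeffMap_id]; rfl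
    · intro b _ hb
      rw [← coeffMap_comp_apply, hjp_ne b i' hb, coeffMap_zero]; rfl
    · intro h; exact absurd (Finset.mem_univ _) h

end Fermat.Agent.S55.T.H415

end
-- ===== PACK-END S55/T/H415/Additive.lean

-- ===== PACK-BEGIN S56/H726/Rec.lean
section




/-!
# S56 / P3(b) — the recurrence along a unipotent element (helper726)

(IV) `f = tr Ψ` vanishes on elements of `H` with distinct eigenvalues; the sequence
`F j = f (σ₀ τ^j)` for a unipotent `ρ τ = 1 + n` satisfies the recurrence of `Seq.lean`.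
-/

set_option autoImplicit false

namespace Fermat.Agent.S56.H726

open Matrix

namespace TwData

variable {k : Type*} [Field k] {G : Type*} [Group G] (D : TwData k G)

/-- (IV) `f` vanishes on regular elements of `H`. -/
theorem f_eq_zero_of_trace_sq_ne [Finite k] {σ : G} (hσ : σ ∈ D.H)
    (h : (D.ρ σ).trace ^ 2 ≠ 4) : (D.Ψ σ).trace = 0 := by
  haveI := Fintype.ofFinite k
  obtain ⟨α, β, htr, hαβ⟩ := D.split σ hσ
  have hne : α ≠ β := by
    intro hab
    apply h
    rw [htr, hab]
    rw [hab] at hαβ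
    linear_combination 4 * hαβ
  have hpow := m2_pow_card_sub_one (D.det_H σ hσ) htr hαβ hne
  have h0 := D.natCast_mul_f_eq_zero hσ _ hpow
  have hcard : ((Fintype.card k - 1 : ℕ) : k) = -1 := by
    rw [Nat.cast_sub Fintype.card_pos, FiniteField.cast_card_eq_zero]
    simp
  rw [hcard] at h0
  linear_combination -h0

variable {τ σ₀ : G} {n : Matrix (Fin 2) (Fin 2) k}

theorem ρ_pow_unip (hn : D.ρ τ = 1 + n) (hn2 : n * n = 0) (j : ℕ) :
    D.ρ (τ ^ j) = 1 + (j : k) • n := by
  rw [map_pow, hn, m2_unip_pow hn2]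

theorem trace_mul_pow_unip (hn : D.ρ τ = 1 + n) (hn2 : n * n = 0) (j : ℕ) :
    (D.ρ (σ₀ * τ ^ j)).trace = (D.ρ σ₀).trace + (j : k) * (D.ρ σ₀ * n).trace := by
  rw [map_mul, D.ρ_pow_unip hn hn2, mul_add, mul_one, Matrix.mul_smul, Matrix.trace_add,
    Matrix.trace_smul, smul_eq_mul]

/-- The recurrence (R). -/
theorem rec_step (hτ : τ ∈ D.H) (hσ₀ : σ₀ ∈ D.H) (hn : D.ρ τ = 1 + n) (hn2 : n * n = 0)
    (j : ℕ) :
    (D.Ψ (σ₀ * τ ^ (j + 2))).trace - 2 * (D.Ψ (σ₀ * τ ^ (j + 1))).trace +
      (D.Ψ (σ₀ * τ ^ j)).trace =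
      (D.Ψ τ).trace * ((D.ρ σ₀).trace + ((j : k) + 1) * (D.ρ σ₀ * n).trace) := by
  have h := D.f_add (D.H.mul_mem hσ₀ (D.H.pow_mem hτ (j + 1))) hτ
  have e1 : σ₀ * τ ^ (j + 1) * τ = σ₀ * τ ^ (j + 2) := by
    rw [mul_assoc, ← pow_succ]
  have e2 : σ₀ * τ ^ (j + 1) * τ⁻¹ = σ₀ * τ ^ j := by
    rw [pow_succ, ← mul_assoc, mul_inv_cancel_right]
  have e3 : (D.ρ τ).trace = 2 := by
    rw [hn, Matrix.trace_add, m2_trace_of_sq_zero hn2, Matrix.trace_one, Fintype.card_fin]
    norm_num
  rw [e1, e2, e3, D.trace_mul_pow_unip hn hn2] at h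
  push_cast at h
  linear_combination h

/-- Periodicity. -/
theorem periodic (p : ℕ) [CharP k p] (hτ : τ ∈ D.H) (hn : D.ρ τ = 1 + n) (hn2 : n * n = 0)
    (j : ℕ) : D.Ψ (σ₀ * τ ^ (j + p)) = D.Ψ (σ₀ * τ ^ j) := by
  rw [pow_add, ← mul_assoc]
  apply D.Ψ_mul_N _ (D.H.pow_mem hτ p)
  rw [D.ρ_pow_unip hn hn2, CharP.cast_eq_zero, zero_smul, add_zero]

/-- Vanishing. -/
theorem vanish [Finite k] (hτ : τ ∈ D.H) (hσ₀ : σ₀ ∈ D.H) (hn : D.ρ τ = 1 + n)
    (hn2 : n * n = 0) (j : ℕ)
    (h : ((D.ρ σ₀).trace + (j : k) * (D.ρ σ₀ * n).trace) ^ 2 ≠ 4) :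
    (D.Ψ (σ₀ * τ ^ j)).trace = 0 := by
  apply D.f_eq_zero_of_trace_sq_ne (D.H.mul_mem hσ₀ (D.H.pow_mem hτ j))
  rw [D.trace_mul_pow_unip hn hn2]
  exact h

/-- The cases `p = 3` and `p ≥ 7`: `f(τ) · tr(ρ(σ₀) n) = 0`. -/
theorem unip_contra [Finite k] (p : ℕ) [Fact p.Prime] [CharP k p] (hp : p = 3 ∨ 7 ≤ p)
    (hτ : τ ∈ D.H) (hσ₀ : σ₀ ∈ D.H) (hn : D.ρ τ = 1 + n) (hn2 : n * n = 0) :
    (D.Ψ τ).trace * (D.ρ σ₀ * n).trace = 0 := by
  rcases hp with hp | hp
  · subst hp
    exact seq_three (fun j => (D.Ψ (σ₀ * τ ^ j)).trace) _ (D.ρ σ₀).trace _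
      (fun j => D.rec_step hτ hσ₀ hn hn2 j)
      (fun j => by
        show (D.Ψ (σ₀ * τ ^ (j + 3))).trace = _
        rw [D.periodic 3 hτ hn hn2])
  · exact seq_cubic p hp (fun j => (D.Ψ (σ₀ * τ ^ j)).trace) _ (D.ρ σ₀).trace _
      (fun j => D.rec_step hτ hσ₀ hn hn2 j)
      (fun j h => D.vanish hτ hσ₀ hn hn2 j h)

end TwData

end Fermat.Agent.S56.H726

end
-- ===== PACK-END S56/H726/Rec.lean

-- ===== PACK-BEGIN S19/H135/Zl.lean
section
/-
Cell A3 / WP-C (helper135): arithmetic of `ℤ_(ℓ) = GaloisRep.ratLocalizedAt ℓ` inside `ℚ̄`: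
fraction field, Galois-fixed integral elements.
-/



set_option autoImplicit false

namespace Fermat.Agent.S19.H135

variable (ℓ : ℕ)

theorem intCast_mem_ratLocalizedAt (n : ℤ) : (n : ℚ) ∈ GaloisRep.ratLocalizedAt ℓ := by
  show ((n : ℚ)).den.Coprime ℓ
  simp

theorem isFractionRing_ratLocalizedAt : IsFractionRing (GaloisRep.ratLocalizedAt ℓ) ℚ := by
  refine IsFractionRing.of_field _ _ (fun z => ?_)
  refine ⟨⟨(z.num : ℚ), intCast_mem_ratLocalizedAt ℓ z.num⟩,
    ⟨((z.den : ℤ) : ℚ), intCast_mem_ratLocalizedAt ℓ z.den⟩, ?_⟩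
  show z = (z.num : ℚ) / (((z.den : ℤ) : ℚ))
  rw [Int.cast_natCast]
  exact (Rat.num_div_den z).symm

theorem algebraMap_ratLocalizedAt_apply (r : GaloisRep.ratLocalizedAt ℓ) :
    algebraMap (GaloisRep.ratLocalizedAt ℓ) (AlgebraicClosure ℚ) r =
      algebraMap ℚ (AlgebraicClosure ℚ) (r : ℚ) := rfl

theorem algebraMap_ratLocalizedAt_injective :
    Function.Injective (algebraMap (GaloisRep.ratLocalizedAt ℓ) (AlgebraicClosure ℚ)) := by
  intro r s h
  rw [algebraMap_ratLocalizedAt_apply, algebraMap_ratLocalizedAt_apply] at h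
  exact Subtype.ext ((algebraMap ℚ (AlgebraicClosure ℚ)).injective h)

/-- `ℚ̄ / ℚ` is Galois. -/
theorem isGalois_Qb_h135 : IsGalois ℚ (AlgebraicClosure ℚ) := by
  have h1 : Algebra.IsAlgebraic ℚ (AlgebraicClosure ℚ) := AlgebraicClosure.isAlgebraic ℚ
  have h2 : IsAlgClosure ℚ (AlgebraicClosure ℚ) := ⟨inferInstance, inferInstance⟩
  have h3 : Normal ℚ (AlgebraicClosure ℚ) := IsAlgClosure.normal ℚ (AlgebraicClosure ℚ)
  exact isGalois_iff.mpr ⟨inferInstance, inferInstance⟩

/-- Galois-fixed elements of `ℚ̄` are rational. -/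
theorem exists_rat_of_fixed {z : AlgebraicClosure ℚ}
    (hfix : ∀ σ : AlgebraicClosure ℚ ≃ₐ[ℚ] AlgebraicClosure ℚ, σ z = z) :
    ∃ x : ℚ, algebraMap ℚ (AlgebraicClosure ℚ) x = z := by
  have := isGalois_Qb_h135
  exact (InfiniteGalois.mem_range_algebraMap_iff_fixed (k := ℚ)
    (K := AlgebraicClosure ℚ) z).mpr hfix

variable [Fact ℓ.Prime]

/-- A rational number which is integral over `ℤ_(ℓ)` lies in `ℤ_(ℓ)`. -/
theorem mem_ratLocalizedAt_of_isIntegral {x : ℚ} (hx : IsIntegral (GaloisRep.ratLocalizedAt ℓ) x) :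
    ∃ r : GaloisRep.ratLocalizedAt ℓ, (r : ℚ) = x := by
  have := isFractionRing_ratLocalizedAt ℓ
  exact IsIntegrallyClosed.isIntegral_iff.mp hx

/-- An element of `ℚ̄` which is integral over `ℤ_(ℓ)` and fixed by the absolute Galois group
lies in `ℤ_(ℓ)`. -/
theorem exists_ratLocalizedAt_of_fixed_of_isIntegral {z : AlgebraicClosure ℚ}
    (hfix : ∀ σ : AlgebraicClosure ℚ ≃ₐ[ℚ] AlgebraicClosure ℚ, σ z = z)
    (hint : IsIntegral (GaloisRep.ratLocalizedAt ℓ) z) :
    ∃ r : GaloisRep.ratLocalizedAt ℓ, algebraMap _ (AlgebraicClosure ℚ) r = z := by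
  obtain ⟨x, rfl⟩ := exists_rat_of_fixed hfix
  have hx : IsIntegral (GaloisRep.ratLocalizedAt ℓ) x :=
    (isIntegral_algebraMap_iff (algebraMap ℚ (AlgebraicClosure ℚ)).injective).mp hint
  obtain ⟨r, rfl⟩ := mem_ratLocalizedAt_of_isIntegral ℓ hx
  exact ⟨r, rfl⟩

end Fermat.Agent.S19.H135

end
-- ===== PACK-END S19/H135/Zl.lean

-- ===== PACK-BEGIN S53/AbstractCA.lean
section










set_option autoImplicit false

/-!
# Commutative algebra consumed by `Abstract.lean`

All statements needed by the abstract pro-representability proof, in the exact shape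
in which they are used.  Statements: helper353 (verbatim).  Proofs: helper393, by reduction to
the finished comm-alg block (helper713 `CommAlgBasic`/`CommAlgTest`, helper173 `H173/*`,
helper596 `H596/*`, helper113 `GlueInj`).
-/

namespace Fermat.Agent.S53.CA

open IsLocalRing GaloisRep

section Test

variable {𝒪 : Type} [CommRing 𝒪] [IsLocalRing 𝒪]

/-- local ring structure on the quotient by a proper ideal -/
theorem isLocalRing_quot {A : Type} [CommRing A] [IsLocalRing A] {J : Ideal A} (hJ : J ≠ ⊤) :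
    IsLocalRing (A ⧸ J) :=
  haveI : Nontrivial (A ⧸ J) := Ideal.Quotient.nontrivial_iff.mpr hJ
  IsLocalRing.of_surjective' (Ideal.Quotient.mk J) Ideal.Quotient.mk_surjective

/-- (CA1) the maximal ideal of a test algebra is nilpotent -/
theorem test_pow_eq_bot {A : Type} [CommRing A] [IsLocalRing A] [Algebra 𝒪 A]
    (hA : IsArtinianTestAlgebra 𝒪 A) : ∃ n : ℕ, maximalIdeal A ^ n = ⊥ :=
  Fermat.Agent.S53.exists_maximalIdeal_pow_eq_bot hA

/-- (CA2a) a subalgebra of a test algebra is local -/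
theorem test_subalgebra_isLocalRing [Finite (ResidueField 𝒪)]
    {A : Type} [CommRing A] [IsLocalRing A] [Algebra 𝒪 A]
    (hA : IsArtinianTestAlgebra 𝒪 A) (A' : Subalgebra 𝒪 A) : IsLocalRing A' :=
  Fermat.Agent.S53.isLocalRing_subalgebra hA A'

/-- (CA2b) a subalgebra of a test algebra is a test algebra -/
theorem test_subalgebra [Finite (ResidueField 𝒪)]
    {A : Type} [CommRing A] [IsLocalRing A] [Algebra 𝒪 A]
    (hA : IsArtinianTestAlgebra 𝒪 A) (A' : Subalgebra 𝒪 A) [IsLocalRing A'] :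
    IsArtinianTestAlgebra 𝒪 A' :=
  Fermat.Agent.S53.isArtinianTestAlgebra_subalgebra hA A'

/-- (CA3) a quotient of a test algebra by a proper ideal is a test algebra -/
theorem test_quotient {A : Type} [CommRing A] [IsLocalRing A] [Algebra 𝒪 A]
    (hA : IsArtinianTestAlgebra 𝒪 A) (J : Ideal A) [IsLocalRing (A ⧸ J)] :
    IsArtinianTestAlgebra 𝒪 (A ⧸ J) :=
  Fermat.Agent.S53.isArtinianTestAlgebra_quotient hA J

/-- the fibre product `A ×_k A` as a subalgebra of `A × A` -/
def fibreSq (𝒪 : Type) [CommRing 𝒪] (A : Type) [CommRing A] [IsLocalRing A] [Algebra 𝒪 A] :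
    Subalgebra 𝒪 (A × A) where
  carrier := {p | p.1 - p.2 ∈ maximalIdeal A}
  mul_mem' := by
    intro a b ha hb
    simp only [Set.mem_ofPred_eq, Prod.fst_mul, Prod.snd_mul] at *
    have : a.1 * b.1 - a.2 * b.2 = a.1 * (b.1 - b.2) + (a.1 - a.2) * b.2 := by ring
    rw [this]
    exact Ideal.add_mem _ (Ideal.mul_mem_left _ _ hb) (Ideal.mul_mem_right _ _ ha)
  add_mem' := by
    intro a b ha hb
    simp only [Set.mem_ofPred_eq, Prod.fst_add, Prod.snd_add] at *
    have : a.1 + b.1 - (a.2 + b.2) = (a.1 - a.2) + (b.1 - b.2) := by ring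
    rw [this]
    exact Ideal.add_mem _ ha hb
  algebraMap_mem' := by
    intro r
    simp

theorem mem_fibreSq {A : Type} [CommRing A] [IsLocalRing A] [Algebra 𝒪 A] {p : A × A} :
    p ∈ fibreSq 𝒪 A ↔ p.1 - p.2 ∈ maximalIdeal A := Iff.rfl

/-- the ideal of pairs with both coordinates in the maximal ideal -/
def fibreSqNil (𝒪 : Type) [CommRing 𝒪] (A : Type) [CommRing A] [IsLocalRing A] [Algebra 𝒪 A] :
    Ideal ↥(fibreSq 𝒪 A) :=
  Ideal.comap (((AlgHom.fst 𝒪 A A).comp (fibreSq 𝒪 A).val : ↥(fibreSq 𝒪 A) →ₐ[𝒪] A) :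
    ↥(fibreSq 𝒪 A) →+* A) (maximalIdeal A)

theorem mem_fibreSqNil {A : Type} [CommRing A] [IsLocalRing A] [Algebra 𝒪 A]
    (x : ↥(fibreSq 𝒪 A)) : x ∈ fibreSqNil 𝒪 A ↔ x.1.1 ∈ maximalIdeal A := Iff.rfl

theorem snd_mem_of_mem_fibreSqNil {A : Type} [CommRing A] [IsLocalRing A] [Algebra 𝒪 A]
    (x : ↥(fibreSq 𝒪 A)) (hx : x ∈ fibreSqNil 𝒪 A) : x.1.2 ∈ maximalIdeal A := by
  have h1 : x.1.1 ∈ maximalIdeal A := hx
  have h2 : x.1.1 - x.1.2 ∈ maximalIdeal A := x.2
  have := (maximalIdeal A).sub_mem h1 h2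
  simpa using this

theorem isUnit_of_not_mem_fibreSqNil {A : Type} [CommRing A] [IsLocalRing A] [Algebra 𝒪 A]
    (x : ↥(fibreSq 𝒪 A)) (hx : x ∉ fibreSqNil 𝒪 A) : IsUnit x := by
  have h1 : IsUnit x.1.1 := by
    by_contra h
    exact hx ((IsLocalRing.mem_maximalIdeal _).mpr h)
  have h2 : IsUnit x.1.2 := by
    by_contra h
    have h2' : x.1.2 ∈ maximalIdeal A := (IsLocalRing.mem_maximalIdeal _).mpr h
    have h3 : x.1.1 - x.1.2 ∈ maximalIdeal A := x.2
    have := (maximalIdeal A).add_mem h3 h2'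
    rw [sub_add_cancel] at this
    exact (IsLocalRing.mem_maximalIdeal _).mp this h1
  obtain ⟨u, hu⟩ := h1
  obtain ⟨v, hv⟩ := h2
  have hmem : (((u⁻¹ : Aˣ) : A), ((v⁻¹ : Aˣ) : A)) ∈ fibreSq 𝒪 A := by
    rw [mem_fibreSq]
    show ((u⁻¹ : Aˣ) : A) - ((v⁻¹ : Aˣ) : A) ∈ maximalIdeal A
    have h3 : x.1.1 - x.1.2 ∈ maximalIdeal A := x.2
    have e : ((u⁻¹ : Aˣ) : A) - ((v⁻¹ : Aˣ) : A) =
        -(((u⁻¹ : Aˣ) : A) * ((v⁻¹ : Aˣ) : A) * (x.1.1 - x.1.2)) := by
      rw [← hu, ← hv]
      have e1 : ((u⁻¹ : Aˣ) : A) * (u : A) = 1 := by simp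
      have e2 : ((v⁻¹ : Aˣ) : A) * (v : A) = 1 := by simp
      calc ((u⁻¹ : Aˣ) : A) - ((v⁻¹ : Aˣ) : A)
          = ((u⁻¹ : Aˣ) : A) * (((v⁻¹ : Aˣ) : A) * (v : A)) -
              ((v⁻¹ : Aˣ) : A) * (((u⁻¹ : Aˣ) : A) * (u : A)) := by rw [e1, e2]; ring
        _ = -(((u⁻¹ : Aˣ) : A) * ((v⁻¹ : Aˣ) : A) * ((u : A) - (v : A))) := by ring
    rw [e]
    exact (maximalIdeal A).neg_mem (Ideal.mul_mem_left _ _ h3)
  refine isUnit_iff_exists_inv.mpr ⟨⟨_, hmem⟩, ?_⟩
  apply Subtype.ext
  apply Prod.ext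
  · show x.1.1 * ((u⁻¹ : Aˣ) : A) = 1
    rw [← hu]; simp
  · show x.1.2 * ((v⁻¹ : Aˣ) : A) = 1
    rw [← hv]; simp

theorem not_isUnit_of_mem_fibreSqNil {A : Type} [CommRing A] [IsLocalRing A] [Algebra 𝒪 A]
    (x : ↥(fibreSq 𝒪 A)) (hx : x ∈ fibreSqNil 𝒪 A) : ¬ IsUnit x := by
  intro hu
  have h1 : IsUnit (((AlgHom.fst 𝒪 A A).comp (fibreSq 𝒪 A).val : ↥(fibreSq 𝒪 A) →ₐ[𝒪] A) x) :=
    hu.map _
  have h2 : x.1.1 ∈ maximalIdeal A := hx
  exact (IsLocalRing.mem_maximalIdeal _).mp h2 h1

/-- (CA4a) the fibre product is local -/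
theorem fibreSq_isLocalRing {A : Type} [CommRing A] [IsLocalRing A] [Algebra 𝒪 A] :
    IsLocalRing (fibreSq 𝒪 A) := by
  haveI : Nontrivial ↥(fibreSq 𝒪 A) :=
    ⟨⟨0, 1, fun h => by
      have := congrArg (fun x : ↥(fibreSq 𝒪 A) => x.1.1) h
      simp at this⟩⟩
  refine IsLocalRing.of_nonunits_add ?_
  intro a b ha hb
  have ha' : a ∈ fibreSqNil 𝒪 A := by
    by_contra h
    exact ha (isUnit_of_not_mem_fibreSqNil a h)
  have hb' : b ∈ fibreSqNil 𝒪 A := by
    by_contra h
    exact hb (isUnit_of_not_mem_fibreSqNil b h)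
  exact not_isUnit_of_mem_fibreSqNil _ ((fibreSqNil 𝒪 A).add_mem ha' hb')

theorem fibreSq_maximalIdeal {A : Type} [CommRing A] [IsLocalRing A] [Algebra 𝒪 A]
    [IsLocalRing (fibreSq 𝒪 A)] : maximalIdeal ↥(fibreSq 𝒪 A) = fibreSqNil 𝒪 A := by
  ext x
  rw [IsLocalRing.mem_maximalIdeal, mem_nonunits_iff]
  constructor
  · intro h
    by_contra h'
    exact h (isUnit_of_not_mem_fibreSqNil x h')
  · exact not_isUnit_of_mem_fibreSqNil x

/-- (CA4b) the fibre product of a test algebra is a test algebra -/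
theorem test_fibreSq [Finite (ResidueField 𝒪)] {A : Type} [CommRing A] [IsLocalRing A]
    [Algebra 𝒪 A] (hA : IsArtinianTestAlgebra 𝒪 A) [IsLocalRing (fibreSq 𝒪 A)] :
    IsArtinianTestAlgebra 𝒪 (fibreSq 𝒪 A) := by
  haveI : Finite A := Fermat.Agent.S53.finite_of_testAlgebra hA
  haveI : Finite ↥(fibreSq 𝒪 A) := Subtype.finite
  refine Fermat.Agent.S53.isArtinianTestAlgebra_of_nil_ideal (fibreSqNil 𝒪 A) ?_ ?_ ?_
  · intro x hx
    obtain ⟨n, hn⟩ := Fermat.Agent.S53.exists_maximalIdeal_pow_eq_bot hA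
    have h1 : x.1.1 ∈ maximalIdeal A := hx
    have h2 : x.1.2 ∈ maximalIdeal A := snd_mem_of_mem_fibreSqNil x hx
    refine ⟨n, ?_⟩
    apply Subtype.ext
    apply Prod.ext
    · show x.1.1 ^ n = 0
      have := Ideal.pow_mem_pow h1 n
      rwa [hn, Ideal.mem_bot] at this
    · show x.1.2 ^ n = 0
      have := Ideal.pow_mem_pow h2 n
      rwa [hn, Ideal.mem_bot] at this
  · intro c
    obtain ⟨o, ho⟩ := Fermat.Agent.S53.exists_sub_algebraMap_mem_maximalIdeal
      hA.residue_surjective c.1.1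
    exact ⟨o, ho⟩
  · intro o ho
    show algebraMap 𝒪 A o ∈ maximalIdeal A
    rw [IsLocalRing.mem_maximalIdeal, mem_nonunits_iff]
    intro hu
    exact (IsLocalRing.mem_maximalIdeal _).mp ho (hA.isLocalHom.map_nonunit _ hu)

/-- (CA5) Artinian quotients of a complete Noetherian local algebra -/
theorem test_quotient_pow {A : Type} [CommRing A] [IsLocalRing A] [IsNoetherianRing A]
    [Algebra 𝒪 A] (hloc : IsLocalHom (algebraMap 𝒪 A))
    (hres : Function.Surjective (IsLocalRing.residue A ∘ algebraMap 𝒪 A))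
    (n : ℕ) [IsLocalRing (A ⧸ maximalIdeal A ^ n)] :
    IsArtinianTestAlgebra 𝒪 (A ⧸ maximalIdeal A ^ n) where
  isLocalHom := Fermat.Agent.S53.isLocalHom_algebraMap_quotient hloc _
  residue_surjective := Fermat.Agent.S53.residue_surjective_quotient hres _
  isArtinian := by
    rw [isArtinianRing_iff_isNilpotent_maximalIdeal]
    haveI : IsLocalHom (Ideal.Quotient.mk (maximalIdeal A ^ n)) :=
      Fermat.Agent.S53.isLocalHom_quotient_mk _
    refine ⟨n, ?_⟩
    have h1 : maximalIdeal (A ⧸ maximalIdeal A ^ n) =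
        (maximalIdeal A).map (Ideal.Quotient.mk (maximalIdeal A ^ n)) := by
      apply le_antisymm
      · intro y hy
        obtain ⟨a, rfl⟩ := Ideal.Quotient.mk_surjective y
        refine Ideal.mem_map_of_mem _ ?_
        rw [IsLocalRing.mem_maximalIdeal, mem_nonunits_iff] at hy ⊢
        intro hu
        exact hy (hu.map _)
      · rw [Ideal.map_le_iff_le_comap]
        intro a ha
        rw [Ideal.mem_comap, IsLocalRing.mem_maximalIdeal, mem_nonunits_iff]
        intro hu
        exact (IsLocalRing.mem_maximalIdeal _).mp ha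
          (isUnit_of_map_unit (Ideal.Quotient.mk (maximalIdeal A ^ n)) a hu)
    rw [h1, ← Ideal.map_pow, Ideal.zero_eq_bot, Ideal.map_quotient_self]

/-- (CA6) a test algebra is adically complete -/
theorem test_isAdicComplete {A : Type} [CommRing A] [IsLocalRing A] [Algebra 𝒪 A]
    (hA : IsArtinianTestAlgebra 𝒪 A) : IsAdicComplete (maximalIdeal A) A :=
  haveI := hA.isArtinian
  inferInstance

/-- any ring hom out of a test algebra into a local ring is local -/
theorem test_isLocalHom {A B : Type} [CommRing A] [IsLocalRing A] [Algebra 𝒪 A]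
    [CommRing B] [IsLocalRing B]
    (hA : IsArtinianTestAlgebra 𝒪 A) (φ : A →+* B) : IsLocalHom φ :=
  Fermat.Agent.S53.isLocalHom_of_nil (Fermat.Agent.S53.exists_maximalIdeal_pow_eq_bot hA) φ

end Test

section PowerSeries

variable (𝒪 : Type) [CommRing 𝒪] [IsDomain 𝒪] [IsDiscreteValuationRing 𝒪]
  [IsAdicComplete (IsLocalRing.maximalIdeal 𝒪) 𝒪] [Finite (IsLocalRing.ResidueField 𝒪)]

/-- the power series ring in `d` variables -/
abbrev PS (d : ℕ) : Type := MvPowerSeries (Fin d) 𝒪

/-- (CA7a) -/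
theorem ps_isAdicComplete (d : ℕ) : IsAdicComplete (maximalIdeal (PS 𝒪 d)) (PS 𝒪 d) :=
  Fermat.Agent.S53.H173.isAdicComplete_mvPowerSeries

/-- (CA7b) -/
theorem ps_isLocalHom (d : ℕ) : IsLocalHom (algebraMap 𝒪 (PS 𝒪 d)) :=
  Fermat.Agent.S53.H596.isLocalHom_algebraMap_mvPowerSeries

/-- (CA7c) -/
theorem ps_residue_surjective (d : ℕ) :
    Function.Surjective (IsLocalRing.residue (PS 𝒪 d) ∘ algebraMap 𝒪 (PS 𝒪 d)) :=
  Fermat.Agent.S53.H596.residue_surjective_mvPowerSeries

/-- (CA7d) -/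
theorem ps_finite_quotient (d n : ℕ) : Finite (PS 𝒪 d ⧸ maximalIdeal (PS 𝒪 d) ^ n) :=
  Fermat.Agent.S53.finite_quotient_of_pow_le (𝒪 := 𝒪) (ps_isLocalHom 𝒪 d)
    (ps_residue_surjective 𝒪 d) _ n le_rfl

/-- (CA7e) the variables lie in the maximal ideal -/
theorem ps_X_mem (d : ℕ) (l : Fin d) :
    (MvPowerSeries.X l : PS 𝒪 d) ∈ maximalIdeal (PS 𝒪 d) :=
  Fermat.Agent.S53.H173.X_mem_maximalIdeal l

variable {𝒪}

/-- (CA8a) evaluation maps into complete local algebras -/
theorem exists_evalS {d : ℕ} {A : Type} [CommRing A] [IsLocalRing A] [Algebra 𝒪 A]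
    [IsAdicComplete (maximalIdeal A) A] (hloc : IsLocalHom (algebraMap 𝒪 A))
    (b : Fin d → A) (hb : ∀ l, b l ∈ maximalIdeal A) :
    ∃ φ : PS 𝒪 d →ₐ[𝒪] A, IsLocalHom (φ : PS 𝒪 d →+* A) ∧ ∀ l, φ (MvPowerSeries.X l) = b l :=
  haveI := hloc
  ⟨Fermat.Agent.S53.H173.evalLocal b hb, Fermat.Agent.S53.H173.isLocalHom_evalLocal b hb,
    fun l => Fermat.Agent.S53.H173.evalLocal_X b hb l⟩

/-- (CA8b) local algebra maps out of the power series ring are determined by the variables -/
theorem evalS_ext {d : ℕ} {A : Type} [CommRing A] [IsLocalRing A] [Algebra 𝒪 A]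
    [IsHausdorff (maximalIdeal A) A]
    (φ ψ : PS 𝒪 d →ₐ[𝒪] A) (hφ : ∀ l, φ (MvPowerSeries.X l) ∈ maximalIdeal A)
    (h : ∀ l, φ (MvPowerSeries.X l) = ψ (MvPowerSeries.X l)) : φ = ψ :=
  Fermat.Agent.S53.H173.algHom_ext_of_X φ ψ hφ h

/-- (CA8c) surjectivity criterion (target a test algebra) -/
theorem evalS_surjective {d : ℕ} {A : Type} [CommRing A] [IsLocalRing A] [Algebra 𝒪 A]
    (hA : IsArtinianTestAlgebra 𝒪 A)
    (φ : PS 𝒪 d →ₐ[𝒪] A)
    (h : maximalIdeal A ≤ (maximalIdeal 𝒪).map (algebraMap 𝒪 A) ⊔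
      Ideal.span (Set.range fun l => φ (MvPowerSeries.X l)) ⊔ maximalIdeal A ^ 2) :
    Function.Surjective φ := by
  haveI := hA.isArtinian
  haveI := hA.isLocalHom
  have hφloc : IsLocalHom (φ : PS 𝒪 d →+* A) :=
    Fermat.Agent.S53.H113.isLocalHom_algHom hA.isLocalHom hA.residue_surjective φ
  have hφ : ∀ l, φ (MvPowerSeries.X l) ∈ maximalIdeal A :=
    fun l => Fermat.Agent.S53.H173.X_mem_of_isLocalHom φ hφloc l
  refine Fermat.Agent.S53.H173.surjective_of_maximalIdeal_le φ hφ hA.residue_surjective ?_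
  exact Fermat.Agent.S53.H596.maximalIdeal_le_of_le_sup_sq _ h

/-- (CA9) tower lemma -/
theorem tower {d : ℕ} (I : ℕ → Ideal (PS 𝒪 d))
    (hI : ∀ n, I n = I (n + 1) ⊔ maximalIdeal (PS 𝒪 d) ^ n) (n : ℕ) :
    I n = (⨅ j, I j) ⊔ maximalIdeal (PS 𝒪 d) ^ n := by
  haveI : IsAdicComplete (maximalIdeal (PS 𝒪 d)) (PS 𝒪 d) := ps_isAdicComplete 𝒪 d
  refine (Fermat.Agent.S53.H596.tower_eq (maximalIdeal (PS 𝒪 d)) I ?_ ?_ ?_ n).symm
  · refine antitone_nat_of_succ_le fun k => ?_
    rw [hI k]
    exact le_sup_left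
  · intro k
    rw [hI k]
    exact le_sup_right
  · intro k
    exact (hI k).le

theorem ne_top_of_isLocalRing_quot {S : Type} [CommRing S] (I : Ideal S)
    [IsLocalRing (S ⧸ I)] : I ≠ ⊤ := by
  intro h
  have : Nontrivial (S ⧸ I) := inferInstance
  exact (Ideal.Quotient.nontrivial_iff.mp this) h

/-- (CA10a) quotients of the power series ring are complete -/
theorem ps_quot_isAdicComplete {d : ℕ} (I : Ideal (PS 𝒪 d)) [IsLocalRing (PS 𝒪 d ⧸ I)] :
    IsAdicComplete (maximalIdeal (PS 𝒪 d ⧸ I)) (PS 𝒪 d ⧸ I) := by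
  haveI : IsAdicComplete (maximalIdeal (PS 𝒪 d)) (PS 𝒪 d) := ps_isAdicComplete 𝒪 d
  exact Fermat.Agent.S53.H596.isAdicComplete_quotient I (ne_top_of_isLocalRing_quot I)

/-- (CA10b) -/
theorem ps_quot_isLocalHom {d : ℕ} (I : Ideal (PS 𝒪 d)) [IsLocalRing (PS 𝒪 d ⧸ I)] :
    IsLocalHom (algebraMap 𝒪 (PS 𝒪 d ⧸ I)) :=
  Fermat.Agent.S53.isLocalHom_algebraMap_quotient (ps_isLocalHom 𝒪 d) I

/-- (CA10c) -/
theorem ps_quot_residue_surjective {d : ℕ} (I : Ideal (PS 𝒪 d)) [IsLocalRing (PS 𝒪 d ⧸ I)] :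
    Function.Surjective
      (IsLocalRing.residue (PS 𝒪 d ⧸ I) ∘ algebraMap 𝒪 (PS 𝒪 d ⧸ I)) :=
  Fermat.Agent.S53.residue_surjective_quotient (ps_residue_surjective 𝒪 d) I

/-- (CA10d) quotients by open proper ideals are test algebras -/
theorem ps_quot_test {d : ℕ} (I : Ideal (PS 𝒪 d)) [IsLocalRing (PS 𝒪 d ⧸ I)] (n : ℕ)
    (hn : maximalIdeal (PS 𝒪 d) ^ n ≤ I) : IsArtinianTestAlgebra 𝒪 (PS 𝒪 d ⧸ I) :=
  Fermat.Agent.S53.isArtinianTestAlgebra_quotient_of_pow_le (ps_isLocalHom 𝒪 d)
    (ps_residue_surjective 𝒪 d) I n hn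

end PowerSeries

end Fermat.Agent.S53.CA

namespace Fermat.Agent.S53.CA

open IsLocalRing GaloisRep

/-- (CA11) the residue field is a test algebra -/
theorem test_residueField (𝒪 : Type) [CommRing 𝒪] [IsLocalRing 𝒪] :
    IsArtinianTestAlgebra 𝒪 (ResidueField 𝒪) :=
  Fermat.Agent.S53.isArtinianTestAlgebra_residueField

end Fermat.Agent.S53.CA

end
-- ===== PACK-END S53/AbstractCA.lean

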