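import Mathlib
import Fermat.Prelude.Def_FLTPrelim_Ramification
import Fermat.Prelude.Def_GaloisRep_Flat
import Fermat.Agent.Pack.S44C.G0E6L2
import Fermat.Agent.Pack.S43GC.G0E3L3
import Fermat.Agent.Pack.S43GC.G0E1L1
import Fermat.Agent.Pack.S43GC.G0E3L1
import Fermat.Agent.Pack.S43GC.G0E4L0
import Fermat.Agent.Pack.S43GC.G0E3L0
import Fermat.Agent.Pack.S43GC.G0E1L3
import Fermat.Agent.Pack.S43GC.G0E4L2
import Fermat.Agent.Pack.S43GC.G0E4L1
import Fermat.Agent.Pack.S43GC.G0E4L3
import Fermat.Agent.Pack.S43GC.G0E2L2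
import Fermat.Agent.Pack.S43GC.G0E5L0
import Fermat.Agent.Pack.Fast891

-- ===== PACK-BEGIN S14/H894/Profinite.lean
section




/-!
# S14 / H894 : profinite lifting for closed subgroups of `Gal(ℚ̄/ℚ)` acting on `ℤ̄`

Two wrappers around Mathlib's `RingTheory/Invariant/Profinite`, specialised to a closed subgroup
`H` of the absolute Galois group of `ℚ` acting on the ring `ℤ̄` of all algebraic integers, with
the ring of `H`-invariants as base ring (no Galois correspondence needed at this stage).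
-/

set_option autoImplicit false
set_option linter.style.haveILetI false

open scoped Pointwise

namespace Fermat.Agent.S14.H894

local notation "Qb" => AlgebraicClosure ℚ
local notation "GQ" => (AlgebraicClosure ℚ ≃ₐ[ℚ] AlgebraicClosure ℚ)
local notation "Zb" => integralClosure ℤ (AlgebraicClosure ℚ)

/-- Transitivity: a closed subgroup `H` of `Gal(ℚ̄/ℚ)` acts transitively on the primes of `ℤ̄`
having the same intersection with the ring of `H`-invariants. -/
theorem exists_smul_eq_of_closed (H : Subgroup GQ) (hH : IsClosed (H : Set GQ))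
    (P Q : Ideal Zb) [P.IsPrime] [Q.IsPrime]
    (hPQ : ∀ y : Zb, (∀ h ∈ H, h • y = y) → (y ∈ P ↔ y ∈ Q)) :
    ∃ g ∈ H, Q = g • P := by
  haveI := Fermat.Agent.S54.isGalois_algebraicClosure_rat
  letI : TopologicalSpace Zb := ⊥
  haveI : DiscreteTopology Zb := ⟨rfl⟩
  haveI := Fermat.Agent.S54.continuousSMul_integralClosure
  haveI : CompactSpace H := isCompact_iff_compactSpace.mp hH.isCompact
  haveI : TotallyDisconnectedSpace H := Subtype.totallyDisconnectedSpace
  haveI : SMulCommClass H ℤ Zb := ⟨fun g n x => smul_comm (g : GQ) n x⟩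
  let A0 := FixedPoints.subalgebra ℤ Zb H
  haveI : SMulCommClass H A0 Zb :=
    ⟨fun g a x => by
      show g • ((a : Zb) * x) = (a : Zb) * g • x
      rw [smul_mul', a.2 g]⟩
  haveI : Algebra.IsInvariant A0 Zb H := ⟨fun b hb => ⟨⟨b, hb⟩, rfl⟩⟩
  have hunder : P.under A0 = Q.under A0 := by
    ext y
    simp only [Ideal.under_def, Ideal.mem_comap]
    exact hPQ y.1 (fun h hh => y.2 ⟨h, hh⟩)
  obtain ⟨g, hg⟩ :=
    Algebra.IsInvariant.exists_smul_of_under_eq_of_profinite (A := A0) (G := H) P Q hunder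
  exact ⟨g.1, g.2, hg⟩

/-- Surjectivity of the stabiliser onto residue automorphisms, in elementwise form: if `σ`
stabilises the prime `Q` of `ℤ̄` and acts trivially modulo `Q` on the `H`-invariants, then some
`g ∈ H` stabilises `Q` and acts on `ℤ̄ / Q` like `σ`. -/
theorem exists_mem_stabilizer_of_closed (H : Subgroup GQ) (hH : IsClosed (H : Set GQ))
    (Q : Ideal Zb) [Q.IsPrime] (σ : GQ) (hσQ : σ • Q = Q)
    (hσ : ∀ y : Zb, (∀ h ∈ H, h • y = y) → σ • y - y ∈ Q) :
    ∃ g ∈ H, g • Q = Q ∧ ∀ x : Zb, g • x - σ • x ∈ Q := by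
  haveI := Fermat.Agent.S54.isGalois_algebraicClosure_rat
  letI : TopologicalSpace Zb := ⊥
  haveI : DiscreteTopology Zb := ⟨rfl⟩
  haveI := Fermat.Agent.S54.continuousSMul_integralClosure
  haveI : CompactSpace H := isCompact_iff_compactSpace.mp hH.isCompact
  haveI : TotallyDisconnectedSpace H := Subtype.totallyDisconnectedSpace
  haveI : SMulCommClass H ℤ Zb := ⟨fun g n x => smul_comm (g : GQ) n x⟩
  let A0 := FixedPoints.subalgebra ℤ Zb H
  haveI : SMulCommClass H A0 Zb :=
    ⟨fun g a x => by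
      show g • ((a : Zb) * x) = (a : Zb) * g • x
      rw [smul_mul', a.2 g]⟩
  haveI : Algebra.IsInvariant A0 Zb H := ⟨fun b hb => ⟨⟨b, hb⟩, rfl⟩⟩
  let P : Ideal A0 := Q.under A0
  haveI : Q.LiesOver P := ⟨rfl⟩
  let eσ : Zb ≃+* Zb := MulSemiringAction.toRingEquiv GQ Zb σ
  have hmap : Q = Q.map (eσ : Zb →+* Zb) := by
    conv_lhs => rw [← hσQ]
    rfl
  let f : (Zb ⧸ Q) ≃+* (Zb ⧸ Q) := Ideal.quotientEquiv Q Q eσ hmap
  have hf : ∀ x : Zb, f (Ideal.Quotient.mk Q x) = Ideal.Quotient.mk Q (σ • x) := fun x => rfl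
  let e : (Zb ⧸ Q) ≃ₐ[A0 ⧸ P] (Zb ⧸ Q) :=
    AlgEquiv.ofRingEquiv (f := f) (by
      intro x
      obtain ⟨a, rfl⟩ := Ideal.Quotient.mk_surjective x
      have h1 : algebraMap (A0 ⧸ P) (Zb ⧸ Q) (Ideal.Quotient.mk P a) =
          Ideal.Quotient.mk Q (a : Zb) :=
        Ideal.Quotient.algebraMap_mk_of_liesOver Q P a
      rw [h1, hf, Ideal.Quotient.eq]
      exact hσ a.1 (fun h hh => a.2 ⟨h, hh⟩))
  obtain ⟨g, hg⟩ := Ideal.Quotient.stabilizerHom_surjective_of_profinite (G := H) P Q e
  refine ⟨g.1.1, g.1.2, g.2, fun x => ?_⟩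
  have h2 := congrArg (fun t => t (Ideal.Quotient.mk Q x)) hg
  simp only [Ideal.Quotient.stabilizerHom_apply] at h2
  rw [← Ideal.Quotient.eq]
  exact h2

end Fermat.Agent.S14.H894

end
-- ===== PACK-END S14/H894/Profinite.lean

-- ===== PACK-BEGIN S14/H894/InertiaMem.lean
section




/-!
# S14 / H894 : membership criteria for the decomposition / inertia subgroup of a valuation
subring of `ℚ̄`, in terms of the prime of `ℤ̄` below it.
-/

set_option autoImplicit false
set_option linter.style.haveILetI false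

open scoped Pointwise

namespace Fermat.Agent.S14.H894

open Fermat.Agent.S54

local notation "Qb" => AlgebraicClosure ℚ
local notation "GQ" => (AlgebraicClosure ℚ ≃ₐ[ℚ] AlgebraicClosure ℚ)
local notation "Zb" => integralClosure ℤ (AlgebraicClosure ℚ)

theorem smul_mem_primeBelow_iff (A : ValuationSubring Qb) (σ : GQ)
    (hQ : σ • primeBelow A = primeBelow A) (x : Zb) :
    σ • x ∈ primeBelow A ↔ x ∈ primeBelow A := by
  conv_lhs => rw [← hQ]
  exact Ideal.smul_mem_pointwise_smul_iff

theorem map_mem_of_smul_primeBelow (A : ValuationSubring Qb) (ℓ : ℕ) (hℓ : ℓ.Prime)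
    (hA : A.LiesOverPrime ℓ) (τ : GQ)
    (hτ : ∀ x : Zb, τ • x ∈ primeBelow A ↔ x ∈ primeBelow A) (x : Qb) (hx : x ∈ A) :
    τ x ∈ A := by
  haveI : Algebra.IsAlgebraic ℚ Qb := AlgebraicClosure.isAlgebraic ℚ
  obtain ⟨b, s, hb, hs, hsA, hxs⟩ := (mem_valuationSubring_iff A ℓ hℓ hA x).mp hx
  refine (mem_valuationSubring_iff A ℓ hℓ hA (τ x)).mpr
    ⟨τ b, τ s, hb.map τ, hs.map τ, ?_, ?_⟩
  · exact (hτ ⟨s, hs⟩).not.mpr hsA
  · rw [← map_mul, hxs]

/-- An automorphism stabilising the prime of `ℤ̄` below `A` lies in the decomposition group. -/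
theorem mem_decompositionSubgroup_of_smul_primeBelow (A : ValuationSubring Qb) (ℓ : ℕ)
    (hℓ : ℓ.Prime) (hA : A.LiesOverPrime ℓ) (σ : GQ)
    (hQ : σ • primeBelow A = primeBelow A) : σ ∈ A.decompositionSubgroup ℚ := by
  have hσQ := smul_mem_primeBelow_iff A σ hQ
  rw [MulAction.mem_stabilizer_iff]
  ext x
  rw [ValuationSubring.mem_smul_pointwise_iff_exists]
  constructor
  · rintro ⟨s, hs, rfl⟩
    exact map_mem_of_smul_primeBelow A ℓ hℓ hA σ hσQ s hs
  · intro hx
    refine ⟨σ⁻¹ • x, map_mem_of_smul_primeBelow A ℓ hℓ hA σ⁻¹ ?_ x hx, by simp⟩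
    intro y
    rw [← hσQ (σ⁻¹ • y)]
    simp

/-- An automorphism stabilising the prime `Q` of `ℤ̄` below `A` and acting trivially on `ℤ̄ / Q`
lies in the inertia group of `A`. -/
theorem mem_inertiaSubgroupIn_of_forall (A : ValuationSubring Qb) (ℓ : ℕ)
    (hℓ : ℓ.Prime) (hA : A.LiesOverPrime ℓ) (σ : GQ)
    (hQ : σ • primeBelow A = primeBelow A)
    (h : ∀ x : Zb, σ • x - x ∈ primeBelow A) : σ ∈ A.inertiaSubgroupIn ℚ := by
  haveI : Algebra.IsAlgebraic ℚ Qb := AlgebraicClosure.isAlgebraic ℚ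
  have hσA := mem_decompositionSubgroup_of_smul_primeBelow A ℓ hℓ hA σ hQ
  have hσQ := smul_mem_primeBelow_iff A σ hQ
  refine ⟨⟨σ, hσA⟩, ?_, rfl⟩
  show (⟨σ, hσA⟩ : A.decompositionSubgroup ℚ) ∈ MonoidHom.ker _
  rw [MonoidHom.mem_ker]
  ext x
  show (⟨σ, hσA⟩ : A.decompositionSubgroup ℚ) • x = x
  obtain ⟨a, rfl⟩ := IsLocalRing.residue_surjective x
  obtain ⟨b, s, hb, hs, hsA, hxs⟩ := (mem_valuationSubring_iff A ℓ hℓ hA a).mp a.2
  have hbA : b ∈ A := isIntegral_mem_valuationSubring A hb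
  have hsA' : s ∈ A := isIntegral_mem_valuationSubring A hs
  have hint : ∀ (y : Qb) (hy : IsIntegral ℤ y),
      (⟨σ, hσA⟩ : A.decompositionSubgroup ℚ) •
        IsLocalRing.residue A ⟨y, isIntegral_mem_valuationSubring A hy⟩ =
      IsLocalRing.residue A ⟨y, isIntegral_mem_valuationSubring A hy⟩ := by
    intro y hy
    rw [← IsLocalRing.ResidueField.residue_smul, ← sub_eq_zero, ← map_sub,
      IsLocalRing.residue_eq_zero_iff, ← ValuationSubring.coe_mem_nonunits_iff]
    exact h ⟨y, hy⟩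
  have h1 : IsLocalRing.residue A a * IsLocalRing.residue A ⟨s, hsA'⟩ =
      IsLocalRing.residue A ⟨b, hbA⟩ := by
    rw [← map_mul]
    congr 1
    exact Subtype.ext hxs
  have h2 : IsLocalRing.residue A ⟨s, hsA'⟩ ≠ 0 := by
    rw [Ne, IsLocalRing.residue_eq_zero_iff, ← ValuationSubring.coe_mem_nonunits_iff]
    exact hsA
  have h3 := congrArg (fun z => (⟨σ, hσA⟩ : A.decompositionSubgroup ℚ) • z) h1
  simp only [smul_mul'] at h3
  rw [hint s hs, hint b hb, ← h1] at h3
  exact mul_right_cancel₀ h2 h3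

end Fermat.Agent.S14.H894

end
-- ===== PACK-END S14/H894/InertiaMem.lean

-- ===== PACK-BEGIN S55/H963/BrRing.lean
section



/-!
# S55 / G-SI bridge (helper963): the complete ring `ℤ_S ⊗ 𝓞 K`

`ZS S = ∏_{q ∈ S} ℤ_q`, `PS S = ∏_{q ∈ S} q`, `RS S K = ZS S ⊗[ℤ] 𝓞 K`.
`RS S K` is `PS S`-adically separated and complete, and `n ∣ (PS S) ^ n` in it.
-/

set_option autoImplicit false
set_option linter.style.haveILetI false
set_option linter.unusedSectionVars false

open scoped NumberField TensorProduct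

noncomputable section

namespace Fermat.Agent.S55.H963.Br

open Fermat.Agent.S55.G

/-- `ℤ_q` for a bundled prime. -/
abbrev Zq (q : Nat.Primes) : Type := @PadicInt (q : ℕ) ⟨q.2⟩

/-- `ℤ_S = ∏_{q ∈ S} ℤ_q`. -/
def ZS (S : Finset Nat.Primes) : Type := ∀ q : S, Zq q.1

instance ZS.instCommRing (S : Finset Nat.Primes) : CommRing (ZS S) :=
  inferInstanceAs (CommRing (∀ q : S, Zq q.1))

/-- The product of the primes in `S`. -/
def PS (S : Finset Nat.Primes) : ℕ := ∏ q ∈ S, (q : ℕ)

theorem PS_pos (S : Finset Nat.Primes) : 0 < PS S :=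
  Finset.prod_pos fun q _ => q.2.pos

theorem dvd_PS {S : Finset Nat.Primes} {q : Nat.Primes} (hq : q ∈ S) : (q : ℕ) ∣ PS S :=
  Finset.dvd_prod_of_mem (fun q : Nat.Primes => (q : ℕ)) hq

theorem PS_eq_mul {S : Finset Nat.Primes} {q : Nat.Primes} (hq : q ∈ S) :
    PS S = (q : ℕ) * ∏ r ∈ S.erase q, (r : ℕ) := by
  unfold PS
  rw [Finset.mul_prod_erase S (fun q : Nat.Primes => (q : ℕ)) hq]

theorem coprime_prod_erase {S : Finset Nat.Primes} {q : Nat.Primes} :
    Nat.Coprime (q : ℕ) (∏ r ∈ S.erase q, (r : ℕ)) := by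
  refine Nat.Coprime.prod_right fun r hr => ?_
  rw [Nat.coprime_primes q.2 r.2]
  intro h
  exact (Finset.ne_of_mem_erase hr) (Subtype.ext h.symm)

/-- In `ℤ_q`, `q ∈ S`, the integer `PS S` is `q` times a unit. -/
theorem associated_PS {S : Finset Nat.Primes} {q : Nat.Primes} (hq : q ∈ S) :
    letI : Fact (q : ℕ).Prime := ⟨q.2⟩
    Associated ((q : ℕ) : ℤ_[(q : ℕ)]) (((PS S : ℕ) : ℤ) : ℤ_[(q : ℕ)]) := by
  letI : Fact (q : ℕ).Prime := ⟨q.2⟩
  have hu : IsUnit (((∏ r ∈ S.erase q, (r : ℕ) : ℕ)) : ℤ_[(q : ℕ)]) := by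
    rw [PadicInt.isUnit_iff, PadicInt.norm_natCast_eq_one_iff]
    exact coprime_prod_erase
  obtain ⟨u, hu⟩ := hu
  refine ⟨u, ?_⟩
  rw [hu, Int.cast_natCast, PS_eq_mul hq, Nat.cast_mul]

theorem mHaus_ZS (S : Finset Nat.Primes) : MHaus (PS S : ℤ) (ZS S) :=
  MHaus.pi (N := fun q : S => Zq q.1) fun q =>
    letI : Fact ((q.1 : Nat.Primes) : ℕ).Prime := ⟨q.1.2⟩
    mHaus_padicInt _ (associated_PS q.2)

theorem mPrec_ZS (S : Finset Nat.Primes) : MPrec (PS S : ℤ) (ZS S) :=
  MPrec.pi (N := fun q : S => Zq q.1) fun q =>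
    letI : Fact ((q.1 : Nat.Primes) : ℕ).Prime := ⟨q.1.2⟩
    mPrec_padicInt _ (associated_PS q.2)

/-- `n` divides `q ^ n` in `ℤ_q`... more precisely `n ∣ (PS S) ^ n` in `ℤ_q` for `q ∈ S`. -/
theorem natCast_dvd_PS_pow_padic {S : Finset Nat.Primes} {q : Nat.Primes} (hq : q ∈ S)
    {n : ℕ} (hn : 0 < n) :
    letI : Fact (q : ℕ).Prime := ⟨q.2⟩
    (n : ℤ_[(q : ℕ)]) ∣ ((PS S : ℕ) : ℤ_[(q : ℕ)]) ^ n := by
  letI : Fact (q : ℕ).Prime := ⟨q.2⟩
  obtain ⟨v, m, hm, rfl⟩ := Nat.exists_eq_pow_mul_and_not_dvd hn.ne' (q : ℕ) q.2.ne_one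
  set N := (q : ℕ) ^ v * m with hN
  have hu : IsUnit ((m : ℕ) : ℤ_[(q : ℕ)]) := by
    rw [PadicInt.isUnit_iff, PadicInt.norm_natCast_eq_one_iff]
    exact (Nat.Prime.coprime_iff_not_dvd q.2).mpr hm
  have hvN : v ≤ N := by
    have h1 : v < (q : ℕ) ^ v := Nat.lt_pow_self q.2.one_lt
    have hm0 : 0 < m := Nat.pos_of_ne_zero fun h => hm (h ▸ dvd_zero _)
    calc v ≤ (q : ℕ) ^ v := h1.le
      _ ≤ (q : ℕ) ^ v * m := Nat.le_mul_of_pos_right _ hm0
  have h1 : ((N : ℕ) : ℤ_[(q : ℕ)]) ∣ ((q : ℕ) : ℤ_[(q : ℕ)]) ^ v := by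
    rw [hN, Nat.cast_mul, Nat.cast_pow]
    exact (hu.mul_right_dvd).mpr dvd_rfl
  have h2 : ((q : ℕ) : ℤ_[(q : ℕ)]) ^ v ∣ ((PS S : ℕ) : ℤ_[(q : ℕ)]) ^ N := by
    refine dvd_trans (pow_dvd_pow _ hvN) (pow_dvd_pow_of_dvd ?_ N)
    exact Nat.cast_dvd_cast (dvd_PS hq)
  exact dvd_trans h1 h2

theorem exists_PS_pow_eq_ZS (S : Finset Nat.Primes) {n : ℕ} (hn : 0 < n) :
    ∃ t : ZS S, ((PS S : ℕ) : ZS S) ^ n = (n : ZS S) * t := by
  choose t ht using fun q : S => natCast_dvd_PS_pow_padic q.2 hn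
  exact ⟨t, funext fun q => ht q⟩

variable (S : Finset Nat.Primes) (K : Type) [Field K] [NumberField K]

/-- The complete ring `ℤ_S ⊗ 𝓞 K`. -/
abbrev RS : Type := ZS S ⊗[ℤ] 𝓞 K

/-- The additive equivalence `ℤ_S ⊗ 𝓞 K ≃ (ℤ_S)^d` given by an integral basis. -/
def rsEquiv : RS S K ≃+ (Module.Free.ChooseBasisIndex ℤ (𝓞 K) → ZS S) :=
  ((Algebra.TensorProduct.basis (ZS S) (NumberField.RingOfIntegers.basis K)).equivFun).toAddEquiv

theorem mHaus_RS : MHaus (PS S : ℤ) (RS S K) :=
  MHaus.of_addEquiv (rsEquiv S K) (MHaus.pi fun _ => mHaus_ZS S)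

theorem mPrec_RS : MPrec (PS S : ℤ) (RS S K) :=
  MPrec.of_addEquiv (rsEquiv S K) (MPrec.pi fun _ => mPrec_ZS S)

theorem pHaus_RS : PHaus ((PS S : ℕ) : RS S K) := by
  have := pHaus_of_mHaus (R := RS S K) (mHaus_RS S K)
  rwa [Int.cast_natCast] at this

theorem pPrec_RS : PPrec ((PS S : ℕ) : RS S K) := by
  have := pPrec_of_mPrec (R := RS S K) (mPrec_RS S K)
  rwa [Int.cast_natCast] at this

theorem exists_PS_pow_eq_RS {n : ℕ} (hn : 0 < n) :
    ∃ t : RS S K, ((PS S : ℕ) : RS S K) ^ n = (n : RS S K) * t := by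
  obtain ⟨t, ht⟩ := exists_PS_pow_eq_ZS S hn
  refine ⟨algebraMap (ZS S) (RS S K) t, ?_⟩
  have := congrArg (algebraMap (ZS S) (RS S K)) ht
  rwa [map_pow, map_mul, map_natCast, map_natCast] at this

/-- **`n`-th roots in `ℤ_S ⊗ 𝓞 K`.** -/
theorem exists_pow_eq_RS {n : ℕ} (hn : 0 < n) (z : RS S K) :
    ∃ y : RS S K, y ^ n = 1 + ((PS S : ℕ) : RS S K) ^ (2 * n + 2) * z := by
  obtain ⟨t, ht⟩ := exists_PS_pow_eq_RS S K hn
  obtain ⟨Y, hY⟩ := exists_pow_eq (pHaus_RS S K) (pPrec_RS S K) n n t ht z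
  exact ⟨_, hY⟩

/-- `1 + P w` is a unit of `ℤ_S ⊗ 𝓞 K`. -/
theorem isUnit_one_add_RS (w : RS S K) : IsUnit (1 + ((PS S : ℕ) : RS S K) * w) := by
  obtain ⟨u, hu⟩ := exists_mul_eq_one (pHaus_RS S K) (pPrec_RS S K) w
  exact IsUnit.of_mul_eq_one _ hu

end Fermat.Agent.S55.H963.Br

end
end
-- ===== PACK-END S55/H963/BrRing.lean

-- ===== PACK-BEGIN S55/H963/Ray.lean
section


/-!
# S55 / leaf RAY-N1 (helper963): ray data and smoothed sums over congruence classes

A `RayDatum K A` is a modulus `m` together with a map `ψ` from ideals to a commutative group `A`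
which is multiplicative on ideals coprime to `m` and trivial on principal ideals `(x)` with
`x ≡ 1 mod m` (a "ray class character datum").

For an ideal `J₀` coprime to `m` and `b : A` we show
`N(J₀) N(m) ∑_{x ∈ J₀, (x) coprime to m, ψ(x) = b} F s x = #Θ_b * Φ(s) + O(1)`
where `Θ_b ⊆ 𝓞 K / m` does not depend on `J₀`.
-/

set_option autoImplicit false

namespace Fermat.Agent.S55.H963

open NumberField

/-- A ray class datum: a modulus and a map on ideals, multiplicative on ideals coprime to the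
modulus and trivial on the ray `x ≡ 1 mod m`. -/
structure RayDatum (K : Type*) [Field K] [NumberField K] (A : Type*) [CommGroup A] where
  /-- the modulus -/
  m : Ideal (𝓞 K)
  m_ne_bot : m ≠ ⊥
  /-- the class map; only its values on ideals coprime to `m` matter -/
  ψ : Ideal (𝓞 K) → A
  map_mul : ∀ I J : Ideal (𝓞 K), IsCoprime I m → IsCoprime J m → ψ (I * J) = ψ I * ψ J
  map_principal : ∀ x : 𝓞 K, x - 1 ∈ m → ψ (Ideal.span {x}) = 1

variable {K : Type*} [Field K] [NumberField K] {A : Type*} [CommGroup A]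

namespace RayDatum

variable (D : RayDatum K A)

theorem isCoprime_span_iff {x : 𝓞 K} :
    IsCoprime (Ideal.span {x}) D.m ↔ ∃ z : 𝓞 K, x * z - 1 ∈ D.m := by
  rw [Ideal.isCoprime_iff_exists]
  constructor
  · rintro ⟨i, hi, j, hj, hij⟩
    obtain ⟨z, rfl⟩ := Ideal.mem_span_singleton'.mp hi
    refine ⟨z, ?_⟩
    have : x * z - 1 = -j := by rw [← hij, mul_comm]; ring
    rw [this]
    exact D.m.neg_mem hj
  · rintro ⟨z, hz⟩
    refine ⟨x * z, Ideal.mem_span_singleton'.mpr ⟨z, mul_comm _ _⟩, -(x * z - 1),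
      D.m.neg_mem hz, by ring⟩

/-- `x` is prime to the modulus and its principal ideal has class `b`. -/
def Good (x : 𝓞 K) (b : A) : Prop :=
  IsCoprime (Ideal.span {x}) D.m ∧ D.ψ (Ideal.span {x}) = b

theorem good_of_sub_mem {x y : 𝓞 K} {b : A} (h : x - y ∈ D.m) (hx : D.Good x b) :
    D.Good y b := by
  obtain ⟨hcx, hψ⟩ := hx
  obtain ⟨z, hz⟩ := D.isCoprime_span_iff.mp hcx
  have hyz : y * z - 1 ∈ D.m := by
    have : y * z - 1 = (x * z - 1) - (x - y) * z := by ring
    rw [this]
    exact D.m.sub_mem hz (D.m.mul_mem_right _ h)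
  have hcy : IsCoprime (Ideal.span {y}) D.m := D.isCoprime_span_iff.mpr ⟨z, hyz⟩
  have hcz : IsCoprime (Ideal.span {z}) D.m :=
    D.isCoprime_span_iff.mpr ⟨x, by rwa [mul_comm]⟩
  refine ⟨hcy, ?_⟩
  have h1 : D.ψ (Ideal.span {x}) * D.ψ (Ideal.span {z}) = 1 := by
    rw [← D.map_mul _ _ hcx hcz, Ideal.span_singleton_mul_span_singleton]
    exact D.map_principal _ hz
  have h2 : D.ψ (Ideal.span {y}) * D.ψ (Ideal.span {z}) = 1 := by
    rw [← D.map_mul _ _ hcy hcz, Ideal.span_singleton_mul_span_singleton]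
    exact D.map_principal _ hyz
  rw [← hψ]
  exact mul_right_cancel (h2.trans h1.symm)

theorem good_iff_of_sub_mem {x y : 𝓞 K} {b : A} (h : x - y ∈ D.m) :
    D.Good x b ↔ D.Good y b :=
  ⟨D.good_of_sub_mem h, D.good_of_sub_mem (by
    have : y - x = -(x - y) := by ring
    rw [this]; exact D.m.neg_mem h)⟩

/-- The residues mod `m` of the elements prime to `m` whose principal ideal has class `b`. -/
def theta (b : A) : Set (𝓞 K ⧸ D.m) :=
  {r | ∃ x : 𝓞 K, Ideal.Quotient.mk D.m x = r ∧ D.Good x b}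

/-- The set of ideals contained in `J₀`, prime to `m`, of class `b`. -/
def below (J₀ : Ideal (𝓞 K)) (b : A) : Set (Ideal (𝓞 K)) :=
  {J | J ≤ J₀ ∧ IsCoprime J D.m ∧ D.ψ J = b}

/-- The condition cutting out the cosets of `J₀ ⊓ m` inside `{x ∈ J₀ | Good x b}`. -/
def CosetCond (J₀ : Ideal (𝓞 K)) (b : A) (q : 𝓞 K ⧸ (J₀ ⊓ D.m)) : Prop :=
  Quotient.out q ∈ J₀ ∧ D.Good (Quotient.out q) b

theorem mem_and_good_add_iff (J₀ : Ideal (𝓞 K)) (b : A) (t : 𝓞 K) (y : (J₀ ⊓ D.m : Ideal (𝓞 K))) :
    (((y : 𝓞 K) + t) ∈ J₀ ∧ D.Good ((y : 𝓞 K) + t) b) ↔ (t ∈ J₀ ∧ D.Good t b) := by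
  have hy0 : (y : 𝓞 K) ∈ J₀ := (Ideal.mem_inf.mp y.2).1
  have hym : (y : 𝓞 K) ∈ D.m := (Ideal.mem_inf.mp y.2).2
  have h1 : ((y : 𝓞 K) + t) ∈ J₀ ↔ t ∈ J₀ := by
    constructor
    · intro h
      have : t = ((y : 𝓞 K) + t) - y := by ring
      rw [this]
      exact J₀.sub_mem h hy0
    · intro h
      exact J₀.add_mem hy0 h
  have h2 : D.Good ((y : 𝓞 K) + t) b ↔ D.Good t b :=
    D.good_iff_of_sub_mem (by
      have : (y : 𝓞 K) + t - t = y := by ring
      rw [this]; exact hym)
  rw [h1, h2]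

/-- The counting bijection between the good cosets of `J₀ ⊓ m` in `J₀` and `theta b`. -/
theorem card_cosetCond (J₀ : Ideal (𝓞 K)) (hJ₀ : IsCoprime J₀ D.m) (b : A) :
    Nat.card {q : 𝓞 K ⧸ (J₀ ⊓ D.m) // D.CosetCond J₀ b q} = Nat.card (D.theta b) := by
  refine Nat.card_congr (Equiv.ofBijective
    (fun q => ⟨Ideal.Quotient.mk D.m (Quotient.out q.1), Quotient.out q.1, rfl, q.2.2⟩) ⟨?_, ?_⟩)
  · rintro ⟨q, hq⟩ ⟨q', hq'⟩ h
    have h' : Ideal.Quotient.mk D.m (Quotient.out q) = Ideal.Quotient.mk D.m (Quotient.out q') :=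
      congrArg Subtype.val h
    rw [Ideal.Quotient.eq] at h'
    have h2 : Quotient.out q - Quotient.out q' ∈ J₀ ⊓ D.m :=
      Ideal.mem_inf.mpr ⟨J₀.sub_mem hq.1 hq'.1, h'⟩
    apply Subtype.ext
    have h3 := (Ideal.Quotient.eq (I := J₀ ⊓ D.m)).mpr h2
    rwa [Ideal.Quotient.mk_out, Ideal.Quotient.mk_out] at h3
  · rintro ⟨r, x, rfl, hx⟩
    obtain ⟨i, hi, j, hj, hij⟩ := Ideal.isCoprime_iff_exists.mp hJ₀
    set t : 𝓞 K := x * i with ht
    have htJ : t ∈ J₀ := J₀.mul_mem_left _ hi
    have htx : t - x ∈ D.m := by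
      have : t - x = -(x * j) := by rw [ht]; linear_combination x * hij
      rw [this]
      exact D.m.neg_mem (D.m.mul_mem_left _ hj)
    set q : 𝓞 K ⧸ (J₀ ⊓ D.m) := Ideal.Quotient.mk _ t with hq
    have hout : Quotient.out q - t ∈ J₀ ⊓ D.m := by
      rw [← Ideal.Quotient.eq, Ideal.Quotient.mk_out]
    have hout0 : Quotient.out q ∈ J₀ := by
      have : Quotient.out q = (Quotient.out q - t) + t := by ring
      rw [this]
      exact J₀.add_mem (Ideal.mem_inf.mp hout).1 htJ
    have houtx : Quotient.out q - x ∈ D.m := by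
      have : Quotient.out q - x = (Quotient.out q - t) + (t - x) := by ring
      rw [this]
      exact D.m.add_mem (Ideal.mem_inf.mp hout).2 htx
    have hgood : D.Good (Quotient.out q) b :=
      D.good_of_sub_mem (by
        have : x - Quotient.out q = -(Quotient.out q - x) := by ring
        rw [this]; exact D.m.neg_mem houtx) hx
    refine ⟨⟨q, hout0, hgood⟩, ?_⟩
    apply Subtype.ext
    exact (Ideal.Quotient.eq (I := D.m)).mpr houtx

theorem inf_ne_bot {J₀ : Ideal (𝓞 K)} (hJ₀ : J₀ ≠ ⊥) : J₀ ⊓ D.m ≠ ⊥ := by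
  intro h
  have h1 : J₀ * D.m ≤ J₀ ⊓ D.m := Ideal.mul_le_inf
  rw [h, le_bot_iff] at h1
  rcases mul_eq_zero.mp h1 with h2 | h2
  · exact hJ₀ h2
  · exact D.m_ne_bot h2

theorem absNorm_inf {J₀ : Ideal (𝓞 K)} (hJ₀ : IsCoprime J₀ D.m) :
    Ideal.absNorm (J₀ ⊓ D.m) = Ideal.absNorm J₀ * Ideal.absNorm D.m := by
  rw [← Ideal.mul_eq_inf_of_isCoprime hJ₀, _root_.map_mul]

end RayDatum

end Fermat.Agent.S55.H963

end
-- ===== PACK-END S55/H963/Ray.lean

-- ===== PACK-BEGIN S55/Local/H64/GalInfRes.lean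
section


/-!
# Inflation–restriction in degree 2 for Galois extensions, cocycle form (S55, layer L; helper64)

Tower of fields `K ⊆ E ⊆ N` (types with algebra instances), `N / K` finite Galois, `E / K` normal.
`G = Gal(N/K)`, `Q = Gal(E/K)`, `S = Gal(N/E)`.  With Hilbert 90 (Mathlib) for `N / E`:

* `inflCochain K E N c'` : inflation of a cochain of `Gal(E/K)` (values in `Eˣ`) to `Gal(N/K)`;
* `resCochain K E N c` : restriction of a cochain of `Gal(N/K)` to `Gal(N/E)`;
* `isMulCoboundary₂_of_inflCochain` : inflation is injective on `H²`;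
* `exists_inflCochain_of_resCochain` : exactness of `H²(E/K) → H²(N/K) → H²(N/E)`.

All statements use Mathlib's `IsMulCocycle₂` / `IsMulCoboundary₂` for the natural actions of the
Galois groups on the unit groups (`AlgEquiv.smul_units_def`).
-/

set_option autoImplicit false

namespace Fermat.Agent.S55.Local.H64

open groupCohomology

section Gal

variable (K E N : Type) [Field K] [Field E] [Field N]
  [Algebra K E] [Algebra K N] [Algebra E N] [IsScalarTower K E N]

/-- The inclusion `Eˣ → Nˣ`. -/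
def unitsInc : Eˣ →* Nˣ := Units.map (algebraMap E N).toMonoidHom

@[simp] lemma unitsInc_coe (y : Eˣ) : ((unitsInc E N y : Nˣ) : N) = algebraMap E N y := rfl

lemma unitsInc_injective : Function.Injective (unitsInc E N) := by
  intro a b h
  apply Units.ext
  apply (algebraMap E N).injective
  have := congrArg (fun u : Nˣ => (u : N)) h
  simpa using this

/-- Restriction of a 2-cochain of `Gal(N/K)` to `Gal(N/E)`. -/
def resCochain (c : (N ≃ₐ[K] N) × (N ≃ₐ[K] N) → Nˣ) : (N ≃ₐ[E] N) × (N ≃ₐ[E] N) → Nˣ :=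
  fun p => c (p.1.restrictScalars K, p.2.restrictScalars K)

variable [Normal K E]

/-- Inflation of a 2-cochain of `Gal(E/K)` to `Gal(N/K)`. -/
noncomputable def inflCochain (c' : (E ≃ₐ[K] E) × (E ≃ₐ[K] E) → Eˣ) :
    (N ≃ₐ[K] N) × (N ≃ₐ[K] N) → Nˣ :=
  fun p => unitsInc E N
    (c' (AlgEquiv.restrictNormalHom E p.1, AlgEquiv.restrictNormalHom E p.2))

lemma inflCochain_apply (c' : (E ≃ₐ[K] E) × (E ≃ₐ[K] E) → Eˣ) (g h : N ≃ₐ[K] N) :
    inflCochain K E N c' (g, h) =
      unitsInc E N (c' (AlgEquiv.restrictNormalHom E g, AlgEquiv.restrictNormalHom E h)) := rfl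

lemma unitsInc_smul (g : N ≃ₐ[K] N) (x : Eˣ) :
    unitsInc E N (AlgEquiv.restrictNormalHom E g • x) = g • unitsInc E N x := by
  apply Units.ext
  simp only [unitsInc_coe, AlgEquiv.smul_units_def, Units.coe_map, MonoidHom.coe_coe]
  exact AlgEquiv.restrictNormal_commutes g E (x : E)

/-- An element of `Gal(N/E)`, viewed in `Gal(N/K)`, lies in the kernel of restriction to `E`. -/
lemma restrictScalars_mem_ker (σ : N ≃ₐ[E] N) :
    σ.restrictScalars K ∈ (AlgEquiv.restrictNormalHom (F := K) (K₁ := N) E).ker := by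
  rw [MonoidHom.mem_ker]
  ext x
  apply (algebraMap E N).injective
  change algebraMap E N ((σ.restrictScalars K).restrictNormal E x) = algebraMap E N x
  rw [AlgEquiv.restrictNormal_commutes]
  simp

/-- An element of the kernel of restriction to `E` is `E`-linear. -/
def kerToGal (s : (AlgEquiv.restrictNormalHom (F := K) (K₁ := N) E).ker) : N ≃ₐ[E] N :=
  { (s : N ≃ₐ[K] N).toRingEquiv with
    commutes' := by
      intro x
      have h := s.2
      rw [MonoidHom.mem_ker] at h
      have h' : (s : N ≃ₐ[K] N).restrictNormal E = 1 := h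
      have := AlgEquiv.restrictNormal_commutes (s : N ≃ₐ[K] N) E x
      rw [h'] at this
      simpa using this.symm }

lemma kerToGal_apply (s : (AlgEquiv.restrictNormalHom (F := K) (K₁ := N) E).ker) (x : N) :
    kerToGal K E N s x = (s : N ≃ₐ[K] N) x := rfl

lemma kerToGal_restrictScalars (s : (AlgEquiv.restrictNormalHom (F := K) (K₁ := N) E).ker) :
    (kerToGal K E N s).restrictScalars K = (s : N ≃ₐ[K] N) := by
  ext x; rfl

lemma kerToGal_mul (s t : (AlgEquiv.restrictNormalHom (F := K) (K₁ := N) E).ker) :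
    kerToGal K E N (s * t) = kerToGal K E N s * kerToGal K E N t := by
  ext x; rfl

lemma kerToGal_smul (s : (AlgEquiv.restrictNormalHom (F := K) (K₁ := N) E).ker) (m : Nˣ) :
    kerToGal K E N s • m = (s : N ≃ₐ[K] N) • m := by
  apply Units.ext; rfl

/-- The inflation of a 2-cocycle is a 2-cocycle. -/
theorem isMulCocycle₂_inflCochain {c' : (E ≃ₐ[K] E) × (E ≃ₐ[K] E) → Eˣ}
    (hc' : IsMulCocycle₂ c') : IsMulCocycle₂ (inflCochain K E N c') := by
  intro g h j
  simp only [inflCochain_apply, map_mul]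
  rw [← map_mul, hc', map_mul, unitsInc_smul]

/-- The inflation of a 2-coboundary is a 2-coboundary. -/
theorem isMulCoboundary₂_inflCochain {c' : (E ≃ₐ[K] E) × (E ≃ₐ[K] E) → Eˣ}
    (hc' : IsMulCoboundary₂ c') : IsMulCoboundary₂ (inflCochain K E N c') := by
  obtain ⟨x, hx⟩ := hc'
  refine ⟨fun g => unitsInc E N (x (AlgEquiv.restrictNormalHom E g)), fun g h => ?_⟩
  show g • unitsInc E N (x (AlgEquiv.restrictNormalHom E h)) /
      unitsInc E N (x (AlgEquiv.restrictNormalHom E (g * h))) *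
      unitsInc E N (x (AlgEquiv.restrictNormalHom E g)) = _
  rw [inflCochain_apply, ← hx, map_mul, map_mul, map_div, unitsInc_smul]

omit [Normal K E] in
/-- The restriction of a 2-cocycle is a 2-cocycle. -/
theorem isMulCocycle₂_resCochain {c : (N ≃ₐ[K] N) × (N ≃ₐ[K] N) → Nˣ}
    (hc : IsMulCocycle₂ c) : IsMulCocycle₂ (resCochain K E N c) := by
  intro g h j
  exact hc (g.restrictScalars K) (h.restrictScalars K) (j.restrictScalars K)

omit [Normal K E] in
/-- The restriction of a 2-coboundary is a 2-coboundary. -/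
theorem isMulCoboundary₂_resCochain {c : (N ≃ₐ[K] N) × (N ≃ₐ[K] N) → Nˣ}
    (hc : IsMulCoboundary₂ c) : IsMulCoboundary₂ (resCochain K E N c) := by
  obtain ⟨x, hx⟩ := hc
  exact ⟨fun g => x (g.restrictScalars K), fun g h =>
    hx (g.restrictScalars K) (h.restrictScalars K)⟩

/-- The restriction of an inflated 2-cocycle is a 2-coboundary. -/
theorem isMulCoboundary₂_resCochain_inflCochain (c' : (E ≃ₐ[K] E) × (E ≃ₐ[K] E) → Eˣ) :
    IsMulCoboundary₂ (resCochain K E N (inflCochain K E N c')) := by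
  refine ⟨fun _ => unitsInc E N (c' (1, 1)), fun g h => ?_⟩
  have hg : AlgEquiv.restrictNormalHom E (g.restrictScalars K) = 1 :=
    MonoidHom.mem_ker.1 (restrictScalars_mem_ker K E N g)
  have hh : AlgEquiv.restrictNormalHom E (h.restrictScalars K) = 1 :=
    MonoidHom.mem_ker.1 (restrictScalars_mem_ker K E N h)
  have hfix : g • unitsInc E N (c' (1, 1)) = unitsInc E N (c' (1, 1)) := by
    have := unitsInc_smul K E N (g.restrictScalars K) (c' (1, 1))
    rw [hg, one_smul] at this
    conv_rhs => rw [this]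
    apply Units.ext; rfl
  simp only [resCochain, inflCochain_apply, hg, hh, hfix]
  simp

variable [FiniteDimensional K N] [IsGalois K N]

/-- The inflation data for the tower `K ⊆ E ⊆ N`. -/
theorem inflData :
    InflData (AlgEquiv.restrictNormalHom (F := K) (K₁ := N) E) (unitsInc E N) where
  surj := AlgEquiv.restrictNormalHom_surjective (F := K) (K₁ := E) N
  inj := unitsInc_injective E N
  equiv := unitsInc_smul K E N
  inv := by
    intro m hm
    have : FiniteDimensional E N := FiniteDimensional.right K E N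
    have : IsGalois E N := IsGalois.tower_top_of_isGalois K E N
    have hfix : ∀ σ : N ≃ₐ[E] N, σ (m : N) = m := by
      intro σ
      have := hm _ (restrictScalars_mem_ker K E N σ)
      have h2 := congrArg (fun u : Nˣ => (u : N)) this
      simpa [AlgEquiv.smul_units_def] using h2
    obtain ⟨e, he⟩ := (IsGalois.mem_range_algebraMap_iff_fixed (F := E) (E := N) (m : N)).2 hfix
    have hne : e ≠ 0 := by
      rintro rfl
      rw [map_zero] at he
      exact m.ne_zero he.symm
    refine ⟨Units.mk0 e hne, ?_⟩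
    apply Units.ext
    simpa using he
  h1 := by
    intro w hw
    have : FiniteDimensional E N := FiniteDimensional.right K E N
    have hcoc : IsMulCocycle₁ (fun σ : N ≃ₐ[E] N =>
        w ⟨σ.restrictScalars K, restrictScalars_mem_ker K E N σ⟩) := by
      intro σ τ
      have := hw ⟨σ.restrictScalars K, restrictScalars_mem_ker K E N σ⟩
        ⟨τ.restrictScalars K, restrictScalars_mem_ker K E N τ⟩
      have e1 : (⟨(σ * τ).restrictScalars K, restrictScalars_mem_ker K E N (σ * τ)⟩ :
          (AlgEquiv.restrictNormalHom (F := K) (K₁ := N) E).ker) =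
          ⟨σ.restrictScalars K, restrictScalars_mem_ker K E N σ⟩ *
            ⟨τ.restrictScalars K, restrictScalars_mem_ker K E N τ⟩ := by
        apply Subtype.ext; ext x; rfl
      show w ⟨(σ * τ).restrictScalars K, restrictScalars_mem_ker K E N (σ * τ)⟩ =
        σ • w ⟨τ.restrictScalars K, restrictScalars_mem_ker K E N τ⟩ *
          w ⟨σ.restrictScalars K, restrictScalars_mem_ker K E N σ⟩
      rw [e1, this]
      congr 1
    obtain ⟨β, hβ⟩ := isMulCoboundary₁_of_isMulCocycle₁_of_aut_to_units _ hcoc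
    refine ⟨β, fun s => ?_⟩
    have := hβ (kerToGal K E N s)
    rw [kerToGal_smul] at this
    rw [this]
    show w s = w ⟨(kerToGal K E N s).restrictScalars K, _⟩
    congr 1

/-- **Inflation `H²(Gal(E/K), Eˣ) → H²(Gal(N/K), Nˣ)` is injective** (cocycle form). -/
theorem isMulCoboundary₂_of_inflCochain {c' : (E ≃ₐ[K] E) × (E ≃ₐ[K] E) → Eˣ}
    (h : IsMulCoboundary₂ (inflCochain K E N c')) : IsMulCoboundary₂ c' :=
  isMulCoboundary₂_of_inflation (inflData K E N) h

/-- **Exactness of `H²(Gal(E/K), Eˣ) → H²(Gal(N/K), Nˣ) → H²(Gal(N/E), Nˣ)`** (cocycle form). -/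
theorem exists_inflCochain_of_resCochain {c : (N ≃ₐ[K] N) × (N ≃ₐ[K] N) → Nˣ}
    (hc : IsMulCocycle₂ c) (h : IsMulCoboundary₂ (resCochain K E N c)) :
    ∃ c' : (E ≃ₐ[K] E) × (E ≃ₐ[K] E) → Eˣ, IsMulCocycle₂ c' ∧
      IsMulCoboundary₂ (fun p => c p / inflCochain K E N c' p) := by
  obtain ⟨b, hb⟩ := h
  refine exists_inflation_of_restriction (inflData K E N) hc
    ⟨fun s => b (kerToGal K E N s), fun s t => ?_⟩
  have := hb (kerToGal K E N s) (kerToGal K E N t)
  simp only [resCochain, kerToGal_restrictScalars] at this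
  show c ((s : N ≃ₐ[K] N), (t : N ≃ₐ[K] N)) =
    (s : N ≃ₐ[K] N) • b (kerToGal K E N t) / b (kerToGal K E N (s * t)) * b (kerToGal K E N s)
  rw [← this, kerToGal_smul, kerToGal_mul]

end Gal

end Fermat.Agent.S55.Local.H64

end
-- ===== PACK-END S55/Local/H64/GalInfRes.lean

-- ===== PACK-BEGIN S55/L/H355/LocBasic.lean
section


/-!
# S55, layer L, helper355: the normalised valuation `ordZ` of a discrete valuation subring

For a valuation subring `B` of `L` which is a DVR with uniformizer `ϖ`, `ordZ B ϖ : Lˣ → ℤ` is the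
normalised valuation; `ordHom` is the corresponding homomorphism `Lˣ →* Multiplicative ℤ`.
-/

set_option autoImplicit false

namespace Fermat.Agent.S55.L.H355

open Fermat.Agent.S55.L

section

variable {L : Type} [Field L] {B : ValuationSubring L} {ϖ : L}

theorem isUniformizer_mem (h : IsUniformizer B ϖ) : ϖ ∈ B := h.1

theorem isUniformizer_ne_zero (h : IsUniformizer B ϖ) : ϖ ≠ 0 := by
  obtain ⟨hm, hirr⟩ := h
  intro h0
  apply hirr.ne_zero
  exact Subtype.ext h0

theorem isUniformizer_val_lt_one (h : IsUniformizer B ϖ) : B.valuation ϖ < 1 := by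
  obtain ⟨hm, hirr⟩ := h
  have h1 : ¬ IsUnit (⟨ϖ, hm⟩ : B) := hirr.not_isUnit
  have h2 : (⟨ϖ, hm⟩ : B) ∈ IsLocalRing.maximalIdeal B := by
    rw [IsLocalRing.mem_maximalIdeal]
    exact h1
  exact (B.valuation_lt_one_iff _).1 h2

theorem isUniformizer_val_pos (h : IsUniformizer B ϖ) : 0 < B.valuation ϖ := by
  rw [Valuation.pos_iff]
  exact isUniformizer_ne_zero h

theorem exists_isUniformizer (hB : IsDiscreteValuationRing B) : ∃ ϖ : L, IsUniformizer B ϖ := by
  obtain ⟨p, hp⟩ := IsDiscreteValuationRing.exists_irreducible B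
  exact ⟨p.1, p.2, hp⟩

/-- Every nonzero element is a power of the uniformizer up to a unit (valuation form). -/
theorem exists_val_eq_zpow (hB : IsDiscreteValuationRing B) (h : IsUniformizer B ϖ) (x : Lˣ) :
    ∃ m : ℤ, B.valuation (x : L) = B.valuation ϖ ^ m := by
  obtain ⟨hm, hirr⟩ := h
  have key : ∀ y : L, y ≠ 0 → y ∈ B → ∃ n : ℕ, B.valuation y = B.valuation ϖ ^ n := by
    intro y hy0 hyB
    have hy' : (⟨y, hyB⟩ : B) ≠ 0 := fun h0 => hy0 (congrArg Subtype.val h0)
    obtain ⟨n, u, hu⟩ := IsDiscreteValuationRing.eq_unit_mul_pow_irreducible hy' hirr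
    refine ⟨n, ?_⟩
    have h1 : y = (u : B) * ϖ ^ n := by
      have := congrArg Subtype.val hu
      simpa using this
    rw [h1, map_mul, map_pow, B.valuation_unit u, one_mul]
  rcases B.mem_or_inv_mem (x : L) with hx | hx
  · obtain ⟨n, hn⟩ := key x x.ne_zero hx
    exact ⟨n, by rw [hn, zpow_natCast]⟩
  · obtain ⟨n, hn⟩ := key (x : L)⁻¹ (inv_ne_zero x.ne_zero) hx
    refine ⟨-n, ?_⟩
    rw [map_inv₀] at hn
    rw [zpow_neg, zpow_natCast, ← hn, inv_inv]

open Classical in
/-- The normalised valuation of `x : Lˣ` (junk `0` if `B` is not a DVR with uniformizer `ϖ`). -/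
noncomputable def ordZ (B : ValuationSubring L) (ϖ : L) (x : Lˣ) : ℤ :=
  if h : ∃ m : ℤ, B.valuation (x : L) = B.valuation ϖ ^ m then h.choose else 0

theorem val_eq_zpow_ordZ (hB : IsDiscreteValuationRing B) (h : IsUniformizer B ϖ) (x : Lˣ) :
    B.valuation (x : L) = B.valuation ϖ ^ ordZ B ϖ x := by
  classical
  unfold ordZ
  rw [dif_pos (exists_val_eq_zpow hB h x)]
  exact (exists_val_eq_zpow hB h x).choose_spec

theorem ordZ_eq_of_val_eq (hB : IsDiscreteValuationRing B) (h : IsUniformizer B ϖ) (x : Lˣ)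
    {m : ℤ} (hm : B.valuation (x : L) = B.valuation ϖ ^ m) : ordZ B ϖ x = m := by
  have h1 := val_eq_zpow_ordZ hB h x
  rw [hm] at h1
  exact ((zpow_right_inj₀ (isUniformizer_val_pos h) (isUniformizer_val_lt_one h).ne).1 h1).symm

theorem ordZ_mul (hB : IsDiscreteValuationRing B) (h : IsUniformizer B ϖ) (x y : Lˣ) :
    ordZ B ϖ (x * y) = ordZ B ϖ x + ordZ B ϖ y := by
  apply ordZ_eq_of_val_eq hB h
  rw [Units.val_mul, map_mul, val_eq_zpow_ordZ hB h x, val_eq_zpow_ordZ hB h y,
    zpow_add₀ (isUniformizer_val_pos h).ne']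

theorem ordZ_one (hB : IsDiscreteValuationRing B) (h : IsUniformizer B ϖ) :
    ordZ B ϖ (1 : Lˣ) = 0 := by
  apply ordZ_eq_of_val_eq hB h
  simp

/-- The normalised valuation as a homomorphism. -/
noncomputable def ordHom (hB : IsDiscreteValuationRing B) (h : IsUniformizer B ϖ) :
    Lˣ →* Multiplicative ℤ where
  toFun x := Multiplicative.ofAdd (ordZ B ϖ x)
  map_one' := by rw [ordZ_one hB h]; rfl
  map_mul' x y := by rw [ordZ_mul hB h, ofAdd_add]

@[simp] theorem ordHom_apply (hB : IsDiscreteValuationRing B) (h : IsUniformizer B ϖ) (x : Lˣ) :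
    Multiplicative.toAdd (ordHom hB h x) = ordZ B ϖ x := rfl

theorem ordZ_inv (hB : IsDiscreteValuationRing B) (h : IsUniformizer B ϖ) (x : Lˣ) :
    ordZ B ϖ x⁻¹ = -ordZ B ϖ x := by
  have := ordZ_mul hB h x x⁻¹
  rw [mul_inv_cancel, ordZ_one hB h] at this
  omega

theorem ordZ_pow (hB : IsDiscreteValuationRing B) (h : IsUniformizer B ϖ) (x : Lˣ) (n : ℕ) :
    ordZ B ϖ (x ^ n) = n * ordZ B ϖ x := by
  induction n with
  | zero => simp [ordZ_one hB h]
  | succ n ih => rw [pow_succ, ordZ_mul hB h, ih]; push_cast; ring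

theorem ordZ_zpow (hB : IsDiscreteValuationRing B) (h : IsUniformizer B ϖ) (x : Lˣ) (n : ℤ) :
    ordZ B ϖ (x ^ n) = n * ordZ B ϖ x := by
  cases n with
  | ofNat n => simpa using ordZ_pow hB h x n
  | negSucc n =>
    rw [zpow_negSucc, ordZ_inv hB h, ordZ_pow hB h]
    push_cast
    rw [Int.negSucc_eq]
    ring

theorem ordZ_eq_zero_iff (hB : IsDiscreteValuationRing B) (h : IsUniformizer B ϖ) (x : Lˣ) :
    ordZ B ϖ x = 0 ↔ x ∈ B.unitGroup := by
  rw [B.mem_unitGroup_iff, val_eq_zpow_ordZ hB h x]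
  constructor
  · intro h0; rw [h0, zpow_zero]
  · intro h1
    have : B.valuation ϖ ^ ordZ B ϖ x = B.valuation ϖ ^ (0 : ℤ) := by rw [h1, zpow_zero]
    exact (zpow_right_inj₀ (isUniformizer_val_pos h) (isUniformizer_val_lt_one h).ne).1 this

theorem ordZ_nonneg_iff (hB : IsDiscreteValuationRing B) (h : IsUniformizer B ϖ) (x : Lˣ) :
    0 ≤ ordZ B ϖ x ↔ (x : L) ∈ B := by
  rw [← B.valuation_le_one_iff, val_eq_zpow_ordZ hB h x,
    zpow_le_one_iff_right_of_lt_one₀ (isUniformizer_val_pos h) (isUniformizer_val_lt_one h)]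

theorem ordZ_pos_iff (hB : IsDiscreteValuationRing B) (h : IsUniformizer B ϖ) (x : Lˣ) :
    0 < ordZ B ϖ x ↔ (x : L) ∈ B.nonunits := by
  rw [B.mem_nonunits_iff, val_eq_zpow_ordZ hB h x,
    zpow_lt_one_iff_right_of_lt_one₀ (isUniformizer_val_pos h) (isUniformizer_val_lt_one h)]

theorem ordZ_uniformizer (hB : IsDiscreteValuationRing B) (h : IsUniformizer B ϖ) (u : Lˣ)
    (hu : (u : L) = ϖ) : ordZ B ϖ u = 1 := by
  apply ordZ_eq_of_val_eq hB h
  rw [hu, zpow_one]

/-- `ordZ` of a second uniformizer is `1`. -/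
theorem ordZ_of_isUniformizer (hB : IsDiscreteValuationRing B) (h : IsUniformizer B ϖ) (u : Lˣ)
    (hu : IsUniformizer B (u : L)) : ordZ B ϖ u = 1 := by
  obtain ⟨hm, hirr⟩ := h
  obtain ⟨hm', hirr'⟩ := hu
  have hass : Associated (⟨(u : L), hm'⟩ : B) ⟨ϖ, hm⟩ :=
    IsDiscreteValuationRing.associated_of_irreducible B hirr' hirr
  obtain ⟨w, hw⟩ := hass
  apply ordZ_eq_of_val_eq hB ⟨hm, hirr⟩
  have h1 : ϖ = (u : L) * (w : B) := by
    have := congrArg Subtype.val hw
    simpa using this.symm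
  have h2 : B.valuation ϖ = B.valuation (u : L) := by
    conv_lhs => rw [h1]
    rw [map_mul, B.valuation_unit w, mul_one]
  rw [zpow_one, h2]

/-- Elements of `L` are integral iff they are `0` or have nonnegative `ordZ`. -/
theorem mem_iff_ordZ (hB : IsDiscreteValuationRing B) (h : IsUniformizer B ϖ) (x : L) :
    x ∈ B ↔ x = 0 ∨ ∃ u : Lˣ, (u : L) = x ∧ 0 ≤ ordZ B ϖ u := by
  constructor
  · intro hx
    by_cases h0 : x = 0
    · exact Or.inl h0
    · exact Or.inr ⟨Units.mk0 x h0, rfl, (ordZ_nonneg_iff hB h _).2 hx⟩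
  · rintro (rfl | ⟨u, rfl, hu⟩)
    · exact B.zero_mem
    · exact (ordZ_nonneg_iff hB h u).1 hu

end

end Fermat.Agent.S55.L.H355

end
-- ===== PACK-END S55/L/H355/LocBasic.lean

-- ===== PACK-BEGIN S55/G/Rec/H541/Tame.lean
section



/-!
# S55 / layer G / block REC — leaf `REC-Ltame` (helper541), part 2: fields

Skew-symmetry of the Kummer symbol on cocycles, and the tame symbol formula, in the vocabulary
of the layer-L interface (`Fermat.Agent.S55.L`: `unitsRep`, `cls`, `IsCyclicCocycle`,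
`IsInflation`, `InvFamily`).
-/

set_option autoImplicit false

namespace Fermat.Agent.S55.G.Rec.H541

open groupCohomology Fermat.Agent.S55.L

section Inflation

variable {K L L' : Type} [Field K] [Field L] [Field L'] [Algebra K L] [Algebra K L']
  [Algebra L L'] [IsScalarTower K L L'] [Normal K L]

/-- The additive map `Lˣ → L'ˣ` (on `Additive`), typed on the carriers of `unitsRep`. -/
noncomputable def unitsIncl (K L L' : Type) [Field K] [Field L] [Field L'] [Algebra K L]
    [Algebra K L'] [Algebra L L'] : (unitsRep K L : Type) →+ (unitsRep K L' : Type) :=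
  (Rep.toAdditive (M := L' ≃ₐ[K] L') (G := L'ˣ)).symm.toAddMonoidHom.comp
    ((MonoidHom.toAdditive (Units.map (algebraMap L L' : L →* L'))).comp
      (Rep.toAdditive (M := L ≃ₐ[K] L) (G := Lˣ)).toAddMonoidHom)

omit [IsScalarTower K L L'] [Normal K L] in
theorem unitsIncl_apply (y : unitsRep K L) :
    unitsIncl K L L' y =
      Additive.ofMul (Units.map (algebraMap L L' : L →* L') (Additive.toMul y)) :=
  rfl

theorem unitsIncl_rho (g : L' ≃ₐ[K] L') (y : unitsRep K L) :
    (unitsRep K L').ρ g (unitsIncl K L L' y) =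
      unitsIncl K L L' ((unitsRep K L).ρ (AlgEquiv.restrictNormalHom L g) y) := by
  apply Additive.toMul.injective
  apply Units.ext
  exact (AlgEquiv.restrictNormal_commutes g L _).symm

/-- Inflation of a 2-cocycle along `K ⊆ L ⊆ L'`. -/
noncomputable def inflCocycle (f : cocycles₂ (unitsRep K L)) : cocycles₂ (unitsRep K L') :=
  ⟨fun p => unitsIncl K L L'
      ((f : (L ≃ₐ[K] L) × (L ≃ₐ[K] L) → unitsRep K L)
        (AlgEquiv.restrictNormalHom L p.1, AlgEquiv.restrictNormalHom L p.2)), by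
    rw [mem_cocycles₂_iff]
    intro g h j
    have hf := (mem_cocycles₂_iff (f : (L ≃ₐ[K] L) × (L ≃ₐ[K] L) → unitsRep K L)).1 f.2
      (AlgEquiv.restrictNormalHom L g) (AlgEquiv.restrictNormalHom L h)
      (AlgEquiv.restrictNormalHom L j)
    have h2 := congrArg (unitsIncl K L L') hf
    rw [map_add, map_add, ← unitsIncl_rho] at h2
    simpa only [map_mul] using h2⟩

theorem inflCocycle_apply (f : cocycles₂ (unitsRep K L)) (g h : L' ≃ₐ[K] L') :
    (inflCocycle (L' := L') f : (L' ≃ₐ[K] L') × (L' ≃ₐ[K] L') → unitsRep K L') (g, h) =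
      unitsIncl K L L' ((f : (L ≃ₐ[K] L) × (L ≃ₐ[K] L) → unitsRep K L)
        (AlgEquiv.restrictNormalHom L g, AlgEquiv.restrictNormalHom L h)) :=
  rfl

theorem isInflation_inflCocycle (f : cocycles₂ (unitsRep K L)) :
    IsInflation f (inflCocycle (L' := L') f) :=
  fun _ _ => rfl

end Inflation


section ToRep

variable (K : Type) {M : Type} [Field K] [Field M] [Algebra K M]

/-- A unit of `M`, as an element of the carrier of `unitsRep K M`. -/
noncomputable def toRep (u : Mˣ) : (unitsRep K M : Type) :=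
  (Rep.toAdditive (M := M ≃ₐ[K] M) (G := Mˣ)).symm (Additive.ofMul u)

theorem toRep_one : toRep K (1 : Mˣ) = 0 := rfl

theorem toRep_mul (u v : Mˣ) : toRep K (u * v) = toRep K u + toRep K v := rfl

theorem toRep_pow (u : Mˣ) (k : ℕ) : toRep K (u ^ k) = k • toRep K u := rfl

theorem toRep_injective : Function.Injective (toRep K : Mˣ → (unitsRep K M : Type)) :=
  fun _ _ h => h

theorem rho_toRep (g : M ≃ₐ[K] M) (u : Mˣ) :
    (unitsRep K M).ρ g (toRep K u) = toRep K (Units.map (g : M →* M) u) := rfl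

theorem unitsIncl_toRep {L : Type} [Field L] [Algebra K L] [Algebra L M] (u : Lˣ) :
    unitsIncl K L M (toRep K u) = toRep K (Units.map (algebraMap L M : L →* M) u) := rfl

end ToRep


section Cyclic

variable {K L : Type} [Field K] [Field L] [Algebra K L] [FiniteDimensional K L] [IsGalois K L]

theorem orderOf_eq_finrank (σ : L ≃ₐ[K] L) (hσ : ∀ g, g ∈ Subgroup.zpowers σ) :
    orderOf σ = Module.finrank K L := by
  rw [orderOf_eq_card_of_forall_mem_zpowers hσ, IsGalois.card_aut_eq_finrank]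

/-- Pointwise description of a cyclic cocycle: `f (g, h) = carry (g, h) • a`. -/
theorem cyclicCocycle_apply (σ : L ≃ₐ[K] L) (hσ : ∀ g, g ∈ Subgroup.zpowers σ) (a : Kˣ)
    (f : cocycles₂ (unitsRep K L)) (hf : IsCyclicCocycle σ a f) (g h : L ≃ₐ[K] L) :
    (f : (L ≃ₐ[K] L) × (L ≃ₐ[K] L) → unitsRep K L) (g, h) =
      ((cexp σ hσ g + cexp σ hσ h) / Module.finrank K L) •
        toRep K (Units.map (algebraMap K L : K →* L) a) := by
  have hd := orderOf_eq_finrank σ hσ
  have hg := cexp_lt σ hσ g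
  have hh := cexp_lt σ hσ h
  rw [hd] at hg hh
  have key := hf (cexp σ hσ g) (cexp σ hσ h) hg hh
  rw [pow_cexp, pow_cexp] at key
  rw [key]
  split_ifs with hlt
  · rw [Nat.div_eq_of_lt hlt, zero_smul]
    rfl
  · have h1 : (cexp σ hσ g + cexp σ hσ h) / Module.finrank K L = 1 := by
      have hpos : 0 < Module.finrank K L := by omega
      apply Nat.div_eq_of_lt_le
      · omega
      · omega
    rw [h1, one_smul]
    rfl

end Cyclic


section Main

theorem algEquiv_pow_apply_eq {K E : Type} [Field K] [Field E] [Algebra K E]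
    (σ : E ≃ₐ[K] E) (ζ : K) (α : E) (s : ℕ)
    (hσα : σ α = algebraMap K E ζ ^ s * α) (k : ℕ) :
    (σ ^ k) α = algebraMap K E ζ ^ (s * k) * α := by
  induction k with
  | zero => simp
  | succ k ih =>
    rw [pow_succ, AlgEquiv.mul_apply, hσα, map_mul, map_pow, AlgEquiv.commutes, ih]
    ring

variable {K E E' M : Type} [Field K] [Field E] [Field E'] [Field M]
  [Algebra K E] [Algebra K E'] [Algebra K M] [Algebra E M] [Algebra E' M]
  [IsScalarTower K E M] [IsScalarTower K E' M]
  [FiniteDimensional K E] [FiniteDimensional K E'] [IsGalois K E] [IsGalois K E']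

omit [FiniteDimensional K E'] [IsGalois K E'] [Algebra K E'] [Algebra E' M]
  [IsScalarTower K E' M] in
/-- Galois action on the image in `M` of a Kummer generator `α ∈ E`. -/
theorem map_kummer_generator (ζ : Kˣ) (σ : E ≃ₐ[K] E) (hσ : ∀ g, g ∈ Subgroup.zpowers σ)
    (αu : Eˣ) (s : ℕ) (hσα : σ (αu : E) = algebraMap K E ζ ^ s * αu) (g : M ≃ₐ[K] M) :
    (unitsRep K M).ρ g (toRep K (Units.map (algebraMap E M : E →* M) αu)) =
      toRep K (Units.map (algebraMap E M : E →* M) αu) +
        (s * cexp σ hσ (AlgEquiv.restrictNormalHom E g)) •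
          toRep K (Units.map (algebraMap K M : K →* M) ζ) := by
  rw [rho_toRep, ← toRep_pow, ← toRep_mul]
  congr 1
  apply Units.ext
  simp only [Units.coe_map, MonoidHom.coe_coe, Units.val_mul, Units.val_pow_eq_pow_val]
  have h1 : g (algebraMap E M (αu : E)) =
      algebraMap E M ((AlgEquiv.restrictNormalHom E g) (αu : E)) :=
    (AlgEquiv.restrictNormal_commutes g E _).symm
  have h2 : (AlgEquiv.restrictNormalHom E g) (αu : E) =
      algebraMap K E ζ ^ (s * cexp σ hσ (AlgEquiv.restrictNormalHom E g)) * αu := by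
    conv_lhs => rw [← pow_cexp σ hσ (AlgEquiv.restrictNormalHom E g)]
    exact algEquiv_pow_apply_eq σ ζ αu s hσα _
  calc g (algebraMap E M (αu : E)) = algebraMap E M ((AlgEquiv.restrictNormalHom E g) (αu : E)) := h1
    _ = algebraMap E M (αu : E) * algebraMap K M ζ ^ (s * cexp σ hσ (AlgEquiv.restrictNormalHom E g)) := by
        rw [h2, map_mul, map_pow, ← IsScalarTower.algebraMap_apply, mul_comm]

omit [FiniteDimensional K E'] [IsGalois K E'] [Algebra K E'] [Algebra E' M]
  [IsScalarTower K E' M] in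
/-- Pointwise description of the inflation of a cyclic cocycle. -/
theorem inflCocycle_cyclic_apply (σ : E ≃ₐ[K] E) (hσ : ∀ g, g ∈ Subgroup.zpowers σ) (b : Kˣ)
    (f : cocycles₂ (unitsRep K E)) (hf : IsCyclicCocycle σ b f) (g h : M ≃ₐ[K] M) :
    (inflCocycle (L' := M) f : (M ≃ₐ[K] M) × (M ≃ₐ[K] M) → unitsRep K M) (g, h) =
      ((cexp σ hσ (AlgEquiv.restrictNormalHom E g) + cexp σ hσ (AlgEquiv.restrictNormalHom E h))
        / Module.finrank K E) • toRep K (Units.map (algebraMap K M : K →* M) b) := by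
  rw [inflCocycle_apply, cyclicCocycle_apply σ hσ b f hf, map_nsmul, unitsIncl_toRep]
  congr 2
  apply Units.ext
  simp only [Units.coe_map, MonoidHom.coe_coe]
  exact (IsScalarTower.algebraMap_apply K E M _).symm

omit [FiniteDimensional K E'] [IsGalois K E'] [Algebra K E'] [Algebra E' M]
  [IsScalarTower K E' M] in
theorem cexp_restrict_mul (σ : E ≃ₐ[K] E) (hσ : ∀ g, g ∈ Subgroup.zpowers σ)
    (g h : M ≃ₐ[K] M) :
    cexp σ hσ (AlgEquiv.restrictNormalHom E (g * h)) + Module.finrank K E *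
      ((cexp σ hσ (AlgEquiv.restrictNormalHom E g) + cexp σ hσ (AlgEquiv.restrictNormalHom E h))
        / Module.finrank K E) =
      cexp σ hσ (AlgEquiv.restrictNormalHom E g) + cexp σ hσ (AlgEquiv.restrictNormalHom E h) := by
  rw [map_mul, cexp_mul, orderOf_eq_finrank σ hσ]
  exact Nat.mod_add_div _ _

/-- **Skew-symmetry of the Kummer symbol, on cocycles.**
`K ⊆ E, E' ⊆ M`, `E/K` and `E'/K` cyclic with generators `σ`, `φ`; `α ∈ E`, `β ∈ E'` with
`αⁿ = a`, `βⁿ = b ∈ Kˣ`, `σ α = ζ^s α`, `φ β = ζ^t β` (`ζ ∈ K`, `ζⁿ = 1`),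
`n m = s [E:K]`, `n m' = t [E':K]`.
Then `m • inf [σ, b] + m' • inf [φ, a] = 0` in `H²(Gal(M/K), Mˣ)`, where `[σ, b]` is the class of
the cyclic cocycle of `(σ, b)`. -/
theorem cls_kummer_skew (n s t m m' : ℕ) (hn : 0 < n) (ζ a b : Kˣ) (hζ : ζ ^ n = 1)
    (σ : E ≃ₐ[K] E) (hσ : ∀ g, g ∈ Subgroup.zpowers σ)
    (φ : E' ≃ₐ[K] E') (hφ : ∀ g, g ∈ Subgroup.zpowers φ)
    (α : E) (β : E')
    (hα : α ^ n = algebraMap K E a) (hβ : β ^ n = algebraMap K E' b)
    (hσα : σ α = algebraMap K E ζ ^ s * α) (hφβ : φ β = algebraMap K E' ζ ^ t * β)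
    (hm : n * m = s * Module.finrank K E) (hm' : n * m' = t * Module.finrank K E')
    (f : cocycles₂ (unitsRep K E)) (hf : IsCyclicCocycle σ b f)
    (f' : cocycles₂ (unitsRep K E')) (hf' : IsCyclicCocycle φ a f') :
    m • cls (inflCocycle (L' := M) f) + m' • cls (inflCocycle (L' := M) f') = 0 := by
  have hα0 : α ≠ 0 := by
    rintro rfl
    rw [zero_pow hn.ne'] at hα
    exact a.ne_zero ((algebraMap K E).injective (by rw [← hα, map_zero]))
  have hβ0 : β ≠ 0 := by
    rintro rfl
    rw [zero_pow hn.ne'] at hβ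
    exact b.ne_zero ((algebraMap K E').injective (by rw [← hβ, map_zero]))
  set αu : Eˣ := Units.mk0 α hα0 with hαu
  set βu : E'ˣ := Units.mk0 β hβ0 with hβu
  have key := kummer_sum_mem_coboundaries (unitsRep K M)
    (toRep K (Units.map (algebraMap K M : K →* M) ζ))
    (toRep K (Units.map (algebraMap E M : E →* M) αu))
    (toRep K (Units.map (algebraMap E' M : E' →* M) βu))
    n (Module.finrank K E) (Module.finrank K E') s t m m'
    (fun g => cexp σ hσ (AlgEquiv.restrictNormalHom E g))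
    (fun g => cexp φ hφ (AlgEquiv.restrictNormalHom E' g))
    (by rw [← toRep_pow, ← map_pow, hζ, map_one, toRep_one])
    (fun g => map_kummer_generator ζ σ hσ αu s hσα g)
    (fun g => map_kummer_generator ζ φ hφ βu t hφβ g)
    (fun g => by
      rw [rho_toRep]
      congr 1
      apply Units.ext
      simp only [Units.coe_map, MonoidHom.coe_coe, AlgEquiv.commutes])
    (fun g h => cexp_restrict_mul σ hσ g h)
    (fun g h => cexp_restrict_mul φ hφ g h)
    hm hm'
    (⇑(m • inflCocycle (L' := M) f + m' • inflCocycle (L' := M) f'))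
    (fun g h => by
      have e1 : n • toRep K (Units.map (algebraMap E' M : E' →* M) βu) =
          toRep K (Units.map (algebraMap K M : K →* M) b) := by
        rw [← toRep_pow]
        congr 1
        apply Units.ext
        simp only [Units.coe_map, MonoidHom.coe_coe, Units.val_pow_eq_pow_val, hβu,
          Units.val_mk0, ← map_pow, hβ]
        exact (IsScalarTower.algebraMap_apply K E' M _).symm
      have e2 : n • toRep K (Units.map (algebraMap E M : E →* M) αu) =
          toRep K (Units.map (algebraMap K M : K →* M) a) := by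
        rw [← toRep_pow]
        congr 1
        apply Units.ext
        simp only [Units.coe_map, MonoidHom.coe_coe, Units.val_pow_eq_pow_val, hαu,
          Units.val_mk0, ← map_pow, hα]
        exact (IsScalarTower.algebraMap_apply K E M _).symm
      rw [e1, e2, mul_smul, mul_smul,
        ← inflCocycle_cyclic_apply σ hσ b f hf g h, ← inflCocycle_cyclic_apply φ hφ a f' hf' g h]
      rfl)
  have h0 := (H2π_eq_zero_iff (m • inflCocycle (L' := M) f + m' • inflCocycle (L' := M) f')).2 key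
  rw [map_add, map_nsmul, map_nsmul] at h0
  exact h0

end Main


section Overfield

/-- Two finite Galois extensions of `K` have a common finite Galois overfield. -/
theorem exists_common_overfield (K E E' : Type) [Field K] [Field E] [Field E']
    [Algebra K E] [Algebra K E'] [FiniteDimensional K E] [FiniteDimensional K E']
    [IsGalois K E] [IsGalois K E'] :
    ∃ (M : Type) (_ : Field M) (_ : Algebra K M) (_ : Algebra E M) (_ : Algebra E' M),
      IsScalarTower K E M ∧ IsScalarTower K E' M ∧ FiniteDimensional K M ∧ IsGalois K M := by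
  let Ω := AlgebraicClosure K
  let ι : E →ₐ[K] Ω := IsAlgClosed.lift
  let ι' : E' →ₐ[K] Ω := IsAlgClosed.lift
  let F1 : IntermediateField K Ω := ι.fieldRange
  let F2 : IntermediateField K Ω := ι'.fieldRange
  let e1 : E ≃ₐ[K] F1 := AlgEquiv.ofInjectiveField ι
  let e2 : E' ≃ₐ[K] F2 := AlgEquiv.ofInjectiveField ι'
  have : FiniteDimensional K F1 := e1.toLinearEquiv.finiteDimensional
  have : FiniteDimensional K F2 := e2.toLinearEquiv.finiteDimensional
  have : IsGalois K F1 := IsGalois.of_algEquiv e1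
  have : IsGalois K F2 := IsGalois.of_algEquiv e2
  let j1 : E →ₐ[K] ↥(F1 ⊔ F2) := (IntermediateField.inclusion le_sup_left).comp e1.toAlgHom
  let j2 : E' →ₐ[K] ↥(F1 ⊔ F2) := (IntermediateField.inclusion le_sup_right).comp e2.toAlgHom
  refine ⟨↥(F1 ⊔ F2), inferInstance, inferInstance, j1.toRingHom.toAlgebra,
    j2.toRingHom.toAlgebra, ?_, ?_, inferInstance, ⟨⟩⟩
  · let _ : Algebra E ↥(F1 ⊔ F2) := j1.toRingHom.toAlgebra
    exact IsScalarTower.of_algebraMap_eq (fun x => (j1.commutes x).symm)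
  · let _ : Algebra E' ↥(F1 ⊔ F2) := j2.toRingHom.toAlgebra
    exact IsScalarTower.of_algebraMap_eq (fun x => (j2.commutes x).symm)

end Overfield

section Inv

variable {K E E' : Type} [Field K] [Field E] [Field E']
  [Algebra K E] [Algebra K E'] [FiniteDimensional K E] [FiniteDimensional K E']
  [IsGalois K E] [IsGalois K E'] [IsLocalFld K]

/-- **Skew-symmetry of the Kummer symbol** for a family of invariant maps (only compatibility
with inflation is used).  `E/K`, `E'/K` cyclic with generators `σ`, `φ`; `αⁿ = a`, `βⁿ = b`,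
`σ α = ζ^s α`, `φ β = ζ^t β`, `n m = s [E:K]`, `n m' = t [E':K]`:
`m • inv_{E/K} [σ, b] + m' • inv_{E'/K} [φ, a] = 0`. -/
theorem inv_kummer_skew (I : InvFamily) (n s t m m' : ℕ) (hn : 0 < n) (ζ a b : Kˣ)
    (hζ : ζ ^ n = 1)
    (σ : E ≃ₐ[K] E) (hσ : ∀ g, g ∈ Subgroup.zpowers σ)
    (φ : E' ≃ₐ[K] E') (hφ : ∀ g, g ∈ Subgroup.zpowers φ)
    (α : E) (β : E')
    (hα : α ^ n = algebraMap K E a) (hβ : β ^ n = algebraMap K E' b)
    (hσα : σ α = algebraMap K E ζ ^ s * α) (hφβ : φ β = algebraMap K E' ζ ^ t * β)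
    (hm : n * m = s * Module.finrank K E) (hm' : n * m' = t * Module.finrank K E')
    (f : cocycles₂ (unitsRep K E)) (hf : IsCyclicCocycle σ b f)
    (f' : cocycles₂ (unitsRep K E')) (hf' : IsCyclicCocycle φ a f') :
    m • I.inv K E (cls f) + m' • I.inv K E' (cls f') = 0 := by
  obtain ⟨M, hM1, hM2, hM3, hM4, h1, h2, h3, h4⟩ := exists_common_overfield K E E'
  have key := cls_kummer_skew (M := M) n s t m m' hn ζ a b hζ σ hσ φ hφ α β hα hβ hσα hφβ
    hm hm' f hf f' hf'
  have key2 := congrArg (I.inv K M) key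
  rw [map_add, map_nsmul, map_nsmul, map_zero,
    I.inv_inflation K E M f _ (isInflation_inflCocycle f),
    I.inv_inflation K E' M f' _ (isInflation_inflCocycle f')] at key2
  exact key2

end Inv


section CyclicCocycle

variable {K L : Type} [Field K] [Field L] [Algebra K L] [FiniteDimensional K L] [IsGalois K L]

theorem carry_assoc (a b c d : ℕ) :
    ((a + b) % d + c) / d + (a + b) / d = (b + c) / d + (a + (b + c) % d) / d := by
  rcases Nat.eq_zero_or_pos d with rfl | hd
  · simp
  have h1 : ((a + b) % d + c) / d + (a + b) / d = (a + b + c) / d := by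
    conv_rhs => rw [← Nat.mod_add_div (a + b) d]
    rw [show (a + b) % d + d * ((a + b) / d) + c = ((a + b) % d + c) + d * ((a + b) / d) by ring,
      Nat.add_mul_div_left _ _ hd]
  have h2 : (b + c) / d + (a + (b + c) % d) / d = (a + b + c) / d := by
    conv_rhs => rw [add_assoc, ← Nat.mod_add_div (b + c) d]
    rw [show a + ((b + c) % d + d * ((b + c) / d)) = (a + (b + c) % d) + d * ((b + c) / d) by
      ring, Nat.add_mul_div_left _ _ hd, add_comm]
  rw [h1, h2]

/-- The cyclic cocycle of `(σ, a)`: `(g, h) ↦ carry (g, h) • a`, for a generator `σ` of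
`Gal(L/K)` and `a ∈ Kˣ`. -/
noncomputable def cyclicCocycle (σ : L ≃ₐ[K] L) (hσ : ∀ g, g ∈ Subgroup.zpowers σ) (a : Kˣ) :
    cocycles₂ (unitsRep K L) :=
  ⟨fun p => ((cexp σ hσ p.1 + cexp σ hσ p.2) / Module.finrank K L) •
      toRep K (Units.map (algebraMap K L : K →* L) a), by
    rw [mem_cocycles₂_iff]
    intro g h j
    have hfix : (unitsRep K L).ρ g (toRep K (Units.map (algebraMap K L : K →* L) a)) =
        toRep K (Units.map (algebraMap K L : K →* L) a) := by
      rw [rho_toRep]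
      congr 1
      apply Units.ext
      simp only [Units.coe_map, MonoidHom.coe_coe, AlgEquiv.commutes]
    simp only [map_nsmul, hfix, ← add_smul, cexp_mul, orderOf_eq_finrank σ hσ]
    rw [carry_assoc]⟩

theorem cyclicCocycle_apply' (σ : L ≃ₐ[K] L) (hσ : ∀ g, g ∈ Subgroup.zpowers σ) (a : Kˣ)
    (g h : L ≃ₐ[K] L) :
    (cyclicCocycle σ hσ a : (L ≃ₐ[K] L) × (L ≃ₐ[K] L) → unitsRep K L) (g, h) =
      ((cexp σ hσ g + cexp σ hσ h) / Module.finrank K L) •
        toRep K (Units.map (algebraMap K L : K →* L) a) :=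
  rfl

theorem isCyclicCocycle_cyclicCocycle (σ : L ≃ₐ[K] L) (hσ : ∀ g, g ∈ Subgroup.zpowers σ)
    (a : Kˣ) : IsCyclicCocycle σ a (cyclicCocycle σ hσ a) := by
  intro i j hi hj
  have hd := orderOf_eq_finrank σ hσ
  rw [cyclicCocycle_apply', cexp_pow σ hσ i (hd ▸ hi), cexp_pow σ hσ j (hd ▸ hj)]
  split_ifs with hlt
  · rw [Nat.div_eq_of_lt hlt, zero_smul]
    rfl
  · have h1 : (i + j) / Module.finrank K L = 1 := by
      apply Nat.div_eq_of_lt_le
      · omega
      · omega
    rw [h1, one_smul]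
    rfl

/-- A cocycle satisfying `IsCyclicCocycle σ a` is the standard one. -/
theorem eq_cyclicCocycle (σ : L ≃ₐ[K] L) (hσ : ∀ g, g ∈ Subgroup.zpowers σ) (a : Kˣ)
    (f : cocycles₂ (unitsRep K L)) (hf : IsCyclicCocycle σ a f) : f = cyclicCocycle σ hσ a := by
  apply cocycles₂_ext
  intro g h
  rw [cyclicCocycle_apply σ hσ a f hf, cyclicCocycle_apply']

end CyclicCocycle

section TameSymbol

variable {K E E' : Type} [Field K] [Field E] [Field E']
  [Algebra K E] [Algebra K E'] [FiniteDimensional K E] [FiniteDimensional K E']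
  [IsGalois K E] [IsGalois K E'] [IsLocalFld K]

/-- **Tame symbol formula.**  `K` local, `π` a uniformizer, `E/K` cyclic of degree `n` with
generator `σ`, `α ∈ E`, `αⁿ = π`, `σ α = ζ α`; `E'/K` unramified with Frobenius `φ` (a generator),
`β ∈ E'` with `βⁿ = u`, `φ β = ζ^t β`.  Then the cyclic class `[σ, u] ∈ H²(Gal(E/K), Eˣ)` has
invariant `- t / n`. -/
theorem inv_tame (I : InvFamily) (n t m' : ℕ) (hn : 0 < n) (ζ : Kˣ) (hζ : ζ ^ n = 1)
    (σ : E ≃ₐ[K] E) (hσ : ∀ g, g ∈ Subgroup.zpowers σ) (hE : Module.finrank K E = n)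
    (A : ValuationSubring K) (hA : IsLocalRingOfIntegers A) (π : Kˣ)
    (hπ : _root_.Fermat.Agent.S55.L.IsUniformizer A (π : K))
    (hE' : IsUnramifiedExt K E') (φ : E' ≃ₐ[K] E') (hφ : IsFrobeniusElt K E' φ)
    (hφgen : ∀ g, g ∈ Subgroup.zpowers φ)
    (α : E) (hα : α ^ n = algebraMap K E π) (hσα : σ α = algebraMap K E ζ * α)
    (u : Kˣ) (β : E') (hβ : β ^ n = algebraMap K E' u)
    (hφβ : φ β = algebraMap K E' ζ ^ t * β)
    (hm' : n * m' = t * Module.finrank K E')
    (f : cocycles₂ (unitsRep K E)) (hf : IsCyclicCocycle σ u f) :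
    I.inv K E (cls f) = -((((t : ℚ) / (n : ℚ) : ℚ)) : AddCircle (1 : ℚ)) := by
  have key := inv_kummer_skew I n 1 t 1 m' hn ζ π u hζ σ hσ φ hφgen α β hα hβ
    (by rw [pow_one]; exact hσα) hφβ (by rw [hE, one_mul, mul_one]) hm' f hf
    (cyclicCocycle φ hφgen π) (isCyclicCocycle_cyclicCocycle φ hφgen π)
  rw [one_smul, I.inv_unramified K E' hE' A hA φ hφ π hπ _
    (isCyclicCocycle_cyclicCocycle φ hφgen π)] at key
  rw [eq_neg_iff_add_eq_zero, ← key]
  congr 1
  rw [← AddCircle.coe_nsmul]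
  congr 1
  have hd' : (0 : ℚ) < Module.finrank K E' := by
    exact_mod_cast Module.finrank_pos
  have hn' : (0 : ℚ) < n := by exact_mod_cast hn
  have hq : (n : ℚ) * m' = t * Module.finrank K E' := by exact_mod_cast hm'
  rw [nsmul_eq_mul]
  field_simp
  linarith

end TameSymbol

end Fermat.Agent.S55.G.Rec.H541

end
-- ===== PACK-END S55/G/Rec/H541/Tame.lean

-- ===== PACK-BEGIN S55/Cap/IndM.lean
section


/-!
# S55 / A8 (CAP): induced modules of `G`-modules over `ℤ`   (helper303)

`IndM U X = (G ⧸ U →₀ X)` with the diagonal action `g • single x a = single (g • x) (g • a)`,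
for an additive group `X` with a `DistribMulAction G X`.  (Type synonym: Mathlib's pointwise
action on `Finsupp` is NOT used.)  Functoriality in `X` (`IndM.map`), level change (`IndM.le`),
smoothness, `p`-divisibility and `p`-torsion.
-/

set_option autoImplicit false
set_option linter.unusedVariables false

noncomputable section

namespace Fermat.Agent.S55.Cap

open Fermat.Agent.S55.PT

variable {G : Type} [Group G]

/-- `Ind_U X = (G ⧸ U →₀ X)` with the diagonal action. -/
def IndM (U : Subgroup G) (X : Type) [AddCommGroup X] : Type := (G ⧸ U) →₀ X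

namespace IndM

variable (U : Subgroup G) {X Y Z : Type} [AddCommGroup X] [AddCommGroup Y] [AddCommGroup Z]

instance instAddCommGroup : AddCommGroup (IndM U X) :=
  inferInstanceAs (AddCommGroup ((G ⧸ U) →₀ X))

/-- the underlying finitely supported function -/
def toF : IndM U X →+ ((G ⧸ U) →₀ X) := AddMonoidHom.id _

/-- the element of `IndM U X` given by a finitely supported function -/
def ofF : ((G ⧸ U) →₀ X) →+ IndM U X := AddMonoidHom.id _

@[simp] lemma toF_ofF (F : (G ⧸ U) →₀ X) : toF U (ofF U F) = F := rfl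
@[simp] lemma ofF_toF (F : IndM U X) : ofF U (toF U F) = F := rfl

/-- `single x a` -/
def single (x : G ⧸ U) (a : X) : IndM U X := ofF U (Finsupp.single x a)

lemma single_add (x : G ⧸ U) (a b : X) : single U x (a + b) = single U x a + single U x b :=
  Finsupp.single_add x a b

lemma single_zero (x : G ⧸ U) : single U x (0 : X) = 0 := Finsupp.single_zero x

variable {U} in
@[elab_as_elim]
lemma induction_on {motive : IndM U X → Prop} (F : IndM U X) (h0 : motive 0)
    (hadd : ∀ F F', motive F → motive F' → motive (F + F'))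
    (hsingle : ∀ x a, motive (single U x a)) : motive F :=
  Finsupp.induction_linear (motive := fun F => motive (ofF U F)) (toF U F) h0 hadd hsingle

variable {U} in
/-- two additive maps out of `IndM U X` agreeing on `single`s are equal -/
lemma addHom_ext {φ ψ : IndM U X →+ Y} (h : ∀ x a, φ (single U x a) = ψ (single U x a)) :
    φ = ψ := by
  ext F
  induction F using induction_on with
  | h0 => rw [map_zero, map_zero]
  | hadd F F' hF hF' => rw [map_add, map_add, hF, hF']
  | hsingle x a => exact h x a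

/-! ### functoriality in the module -/

/-- `Ind_U φ` -/
def map (φ : X →+ Y) : IndM U X →+ IndM U Y :=
  (ofF U).comp ((Finsupp.mapRange.addMonoidHom φ).comp (toF U))

@[simp] lemma map_single (φ : X →+ Y) (x : G ⧸ U) (a : X) :
    map U φ (single U x a) = single U x (φ a) := by
  show ofF U (Finsupp.mapRange φ (map_zero φ) (Finsupp.single x a)) = ofF U (Finsupp.single x (φ a))
  rw [Finsupp.mapRange_single]

lemma map_apply (φ : X →+ Y) (F : IndM U X) (x : G ⧸ U) :
    toF U (map U φ F) x = φ (toF U F x) := rfl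

lemma map_injective (φ : X →+ Y) (hφ : Function.Injective φ) :
    Function.Injective (map U φ) := fun F F' h =>
  Finsupp.mapRange_injective φ (map_zero φ) hφ h

lemma map_comp (ψ : Y →+ Z) (φ : X →+ Y) (F : IndM U X) :
    map U (ψ.comp φ) F = map U ψ (map U φ F) := by
  have : map U (ψ.comp φ) = (map U ψ).comp (map U φ) := by
    apply addHom_ext
    intro x a
    rw [AddMonoidHom.comp_apply, map_single, map_single, map_single, AddMonoidHom.comp_apply]
  rw [this, AddMonoidHom.comp_apply]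

/-! ### level change -/

variable {U} in
/-- push-forward along a map of coset spaces -/
def dom {V : Subgroup G} (f : G ⧸ U → G ⧸ V) : IndM U X →+ IndM V X :=
  (ofF V).comp ((Finsupp.mapDomain.addMonoidHom f).comp (toF U))

variable {U} in
@[simp] lemma dom_single {V : Subgroup G} (f : G ⧸ U → G ⧸ V) (x : G ⧸ U) (a : X) :
    dom f (single U x a) = single V (f x) a := by
  show ofF V (Finsupp.mapDomain f (Finsupp.single x a)) = ofF V (Finsupp.single (f x) a)
  rw [Finsupp.mapDomain_single]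

variable {U} in
/-- level change `Ind_U X → Ind_V X` for `U ≤ V` -/
def le {V : Subgroup G} (h : U ≤ V) : IndM U X →+ IndM V X :=
  dom (Subgroup.quotientMapOfLE h)

variable {U} in
@[simp] lemma le_single {V : Subgroup G} (h : U ≤ V) (x : G ⧸ U) (a : X) :
    le h (single U x a) = single V (Subgroup.quotientMapOfLE h x) a :=
  dom_single _ x a

variable {U} in
lemma le_map {V : Subgroup G} (h : U ≤ V) (φ : X →+ Y) (F : IndM U X) :
    le h (map U φ F) = map V φ (le h F) := by
  have : (le h).comp (map U φ) = (map V φ).comp (le (X := X) h) := by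
    apply addHom_ext
    intro x a
    rw [AddMonoidHom.comp_apply, AddMonoidHom.comp_apply, map_single, le_single, le_single,
      map_single]
  exact DFunLike.congr_fun this F

/-! ### the diagonal action -/

section Action

variable [DistribMulAction G X] [DistribMulAction G Y]

/-- the action of `g`: `single x a ↦ single (g • x) (g • a)` -/
def act (g : G) : IndM U X →+ IndM U X :=
  (dom (fun x : G ⧸ U => g • x)).comp (map U (DistribSMul.toAddMonoidHom X g))

lemma act_single (g : G) (x : G ⧸ U) (a : X) :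
    act U g (single U x a) = single U (g • x) (g • a) := by
  rw [act, AddMonoidHom.comp_apply, map_single, dom_single]
  rfl

instance instDistribMulAction : DistribMulAction G (IndM U X) where
  smul g F := act U g F
  one_smul F := by
    show act U (1 : G) F = F
    have : act (X := X) U (1 : G) = AddMonoidHom.id _ := by
      apply addHom_ext
      intro x a
      rw [act_single, one_smul, one_smul, AddMonoidHom.id_apply]
    rw [this, AddMonoidHom.id_apply]
  mul_smul g h F := by
    show act U (g * h) F = act U g (act U h F)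
    have : act (X := X) U (g * h) = (act U g).comp (act U h) := by
      apply addHom_ext
      intro x a
      rw [AddMonoidHom.comp_apply, act_single, act_single, act_single, mul_smul, mul_smul]
    rw [this, AddMonoidHom.comp_apply]
  smul_zero g := map_zero (act U g)
  smul_add g F F' := map_add (act U g) F F'

lemma smul_def (g : G) (F : IndM U X) : g • F = act U g F := rfl

@[simp] lemma smul_single (g : G) (x : G ⧸ U) (a : X) :
    g • single U x a = single U (g • x) (g • a) := act_single U g x a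

lemma map_smul' (φ : X →+ Y) (hφ : ∀ (g : G) (a : X), φ (g • a) = g • φ a) (g : G)
    (F : IndM U X) : map U φ (g • F) = g • map U φ F := by
  have : (map U φ).comp (act U g) = (act U g).comp (map U φ) := by
    apply addHom_ext
    intro x a
    rw [AddMonoidHom.comp_apply, AddMonoidHom.comp_apply, act_single, map_single, map_single,
      act_single, hφ]
  exact DFunLike.congr_fun this F

variable {U} in
lemma le_smul {V : Subgroup G} (h : U ≤ V) (g : G) (F : IndM U X) :
    le h (g • F) = g • le h F := by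
  have : (le h).comp (act U g) = (act V g).comp (le (X := X) h) := by
    apply addHom_ext
    intro x a
    rw [AddMonoidHom.comp_apply, AddMonoidHom.comp_apply, act_single, le_single, le_single,
      act_single]
    congr 1
    induction x using QuotientGroup.induction_on with
    | H a => rfl
  exact DFunLike.congr_fun this F

/-- smoothness of `Ind_U X` for a normal level `U` and a smooth module `X` -/
lemma smooth (L : LevelSys G) (hU : U ∈ L.levels) [hUn : U.Normal]
    (hX : ∀ a : X, ∃ W ∈ L.levels, ∀ s ∈ W, s • a = a) (F : IndM U X) :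
    ∃ W ∈ L.levels, ∀ s ∈ W, s • F = F := by
  induction F using induction_on with
  | h0 =>
    obtain ⟨W, hW⟩ := L.nonempty
    exact ⟨W, hW, fun s _ => smul_zero s⟩
  | hadd F F' hF hF' =>
    obtain ⟨W, hW, h⟩ := hF
    obtain ⟨W', hW', h'⟩ := hF'
    obtain ⟨W'', hW'', hle⟩ := L.directed W hW W' hW'
    exact ⟨W'', hW'', fun s hs => by rw [smul_add, h s (hle hs).1, h' s (hle hs).2]⟩
  | hsingle x a =>
    obtain ⟨W, hW, h⟩ := hX a
    obtain ⟨W', hW', hle⟩ := L.directed U hU W hW
    refine ⟨W', hW', fun s hs => ?_⟩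
    rw [smul_single, h s (hle hs).2]
    congr 1
    induction x using QuotientGroup.induction_on with
    | H g =>
      show ((s * g : G) : G ⧸ U) = (g : G ⧸ U)
      rw [QuotientGroup.eq]
      have : (s * g)⁻¹ * g = g⁻¹ * s⁻¹ * g := by group
      rw [this]
      have hs' : s⁻¹ ∈ U := U.inv_mem (hle hs).1
      have := hUn.conj_mem s⁻¹ hs' g⁻¹
      simpa using this

end Action

/-! ### divisibility and torsion -/

lemma nsmul_apply (n : ℕ) (F : IndM U X) (x : G ⧸ U) : toF U (n • F) x = n • toF U F x := rfl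

lemma exists_nsmul_eq (p : ℕ) (hdiv : ∀ a : X, ∃ b : X, p • b = a) (F : IndM U X) :
    ∃ F' : IndM U X, p • F' = F := by
  induction F using induction_on with
  | h0 => exact ⟨0, nsmul_zero p⟩
  | hadd F F' hF hF' =>
    obtain ⟨F₁, h₁⟩ := hF
    obtain ⟨F₂, h₂⟩ := hF'
    exact ⟨F₁ + F₂, by rw [nsmul_add, h₁, h₂]⟩
  | hsingle x a =>
    obtain ⟨b, hb⟩ := hdiv a
    refine ⟨single U x b, ?_⟩
    rw [← hb]
    show ofF U (p • Finsupp.single x b) = ofF U (Finsupp.single x (p • b))
    rw [Finsupp.smul_single]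

lemma exists_map_eq_of_nsmul_eq_zero (p : ℕ) (φ : X →+ Y)
    (hφ : ∀ y : Y, p • y = 0 → ∃ a : X, φ a = y) (F : IndM U Y) (hF : p • F = 0) :
    ∃ F' : IndM U X, map U φ F' = F := by
  classical
  have hF' : ∀ x, p • toF U F x = 0 := fun x => by
    rw [← nsmul_apply, hF]
    rfl
  choose s hs using fun x => hφ (toF U F x) (hF' x)
  refine ⟨ofF U (Finsupp.onFinset (toF U F).support (fun x => if toF U F x = 0 then 0 else s x)
    (fun x hx => ?_)), ?_⟩
  · rw [Finsupp.mem_support_iff]
    intro h0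
    exact hx (by rw [if_pos h0])
  · apply Finsupp.ext
    intro x
    show φ (if toF U F x = 0 then 0 else s x) = toF U F x
    split_ifs with h0
    · rw [map_zero, h0]
    · exact hs x

end IndM

end Fermat.Agent.S55.Cap

end
end
-- ===== PACK-END S55/Cap/IndM.lean

-- ===== PACK-BEGIN S56/Euler/PermH635.lean
section


/-!
# Row S56 / Euler characteristic / leaf IND — PERM (helper635)

`permCharpoly : PermCharpolyStatement`.

For a permutation `σ` of a finite set `X`, `charpoly (σ ⊗ T) = ∏_l P_l ^ (c_σ(l) / l)` where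
`c_σ(l)` is the number of points of exact period `l` and `P_l` is the characteristic polynomial of
`(standard l-cycle) ⊗ T`; and `#Fix(σ^t) = ∑_{l ∣ t} c_σ(l)`.
-/

set_option autoImplicit false

open Polynomial

noncomputable section

namespace Fermat.Agent.S56.Euler.H635

open Fermat.Agent.S56.Euler

section Alg

variable {k : Type} [Field k] {N : Type} [AddCommGroup N] [Module k N] [Module.Finite k N]
  (T : N →ₗ[k] N)

/-- Multiplicativity of `charpoly (σ ⊗ T)` over a `σ`-stable decomposition `X ≃ A ⊕ B`. -/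
theorem charpoly_permTensor_sum {A B X : Type} [Finite A] [Finite B] [Finite X]
    (e : A ⊕ B ≃ X) (α : A → A) (β : B → B) (σ : X → X)
    (hα : ∀ a, σ (e (Sum.inl a)) = e (Sum.inl (α a)))
    (hβ : ∀ b, σ (e (Sum.inr b)) = e (Sum.inr (β b))) :
    LinearMap.charpoly (permTensor σ T) =
      LinearMap.charpoly (permTensor α T) * LinearMap.charpoly (permTensor β T) := by
  classical
  let E : (X →₀ N) ≃ₗ[k] (A →₀ N) × (B →₀ N) :=
    (Finsupp.domLCongr e.symm) ≪≫ₗ (Finsupp.sumFinsuppLEquivProdFinsupp k)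
  have hE_inl : ∀ (a : A) (n : N), E (Finsupp.single (e (Sum.inl a)) n) =
      (Finsupp.single a n, 0) := by
    intro a n
    simp [E, Finsupp.sumFinsuppLEquivProdFinsupp,
      Finsupp.sumFinsuppAddEquivProdFinsupp, Finsupp.sumFinsuppEquivProdFinsupp]
  have hE_inr : ∀ (b : B) (n : N), E (Finsupp.single (e (Sum.inr b)) n) =
      (0, Finsupp.single b n) := by
    intro b n
    simp [E, Finsupp.sumFinsuppLEquivProdFinsupp,
      Finsupp.sumFinsuppAddEquivProdFinsupp, Finsupp.sumFinsuppEquivProdFinsupp]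
  have hcomm : (E : (X →₀ N) →ₗ[k] _) ∘ₗ permTensor σ T =
      ((permTensor α T).prodMap (permTensor β T)) ∘ₗ (E : (X →₀ N) →ₗ[k] _) := by
    apply Finsupp.lhom_ext
    intro x n
    obtain ⟨y, rfl⟩ := e.surjective x
    rcases y with a | b
    · simp only [LinearMap.comp_apply, LinearEquiv.coe_coe, permTensor_single, hα, hE_inl,
        LinearMap.prodMap_apply, map_zero]
    · simp only [LinearMap.comp_apply, LinearEquiv.coe_coe, permTensor_single, hβ, hE_inr,
        LinearMap.prodMap_apply, map_zero]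
  have hconj : E.conj (permTensor σ T) = (permTensor α T).prodMap (permTensor β T) := by
    apply LinearMap.ext
    intro z
    have h1 := LinearMap.congr_fun hcomm (E.symm z)
    simp only [LinearMap.comp_apply, LinearEquiv.coe_coe, LinearEquiv.apply_symm_apply] at h1
    rw [LinearEquiv.conj_apply]
    simpa using h1
  rw [← LinearEquiv.charpoly_conj E (permTensor σ T), hconj, LinearMap.charpoly_prodMap]

/-- `charpoly (σ ⊗ T) = 1` on the empty set. -/
theorem charpoly_permTensor_empty {X : Type} [Finite X] [IsEmpty X] (σ : X → X) :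
    LinearMap.charpoly (permTensor σ T) = 1 := by
  have h0 : Module.finrank k (X →₀ N) = 0 := Module.finrank_zero_of_subsingleton
  apply Polynomial.eq_one_of_monic_natDegree_zero (LinearMap.charpoly_monic _)
  rw [LinearMap.charpoly_natDegree, h0]

end Alg

/-! ## Periods -/

section Comb

/-- An injective semiconjugacy preserves minimal periods. -/
theorem minimalPeriod_of_semiconj {A X : Type} (g : A → X) (hg : Function.Injective g)
    (α : A → A) (σ : X → X) (h : ∀ a, σ (g a) = g (α a)) (a : A) :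
    Function.minimalPeriod σ (g a) = Function.minimalPeriod α a := by
  have hit : ∀ n : ℕ, σ^[n] (g a) = g (α^[n] a) := by
    intro n
    induction n with
    | zero => rfl
    | succ n ih => rw [Function.iterate_succ_apply', Function.iterate_succ_apply', ih, h]
  refine Function.minimalPeriod_eq_minimalPeriod_iff.2 (fun n => ?_)
  show σ^[n] (g a) = g a ↔ α^[n] a = a
  rw [hit n]
  exact hg.eq_iff

/-- The number of points of exact period `l`. -/
def cnt {X : Type} [Fintype X] (σ : X → X) (l : ℕ) : ℕ :=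
  ∑ x : X, if Function.minimalPeriod σ x = l then 1 else 0

/-- `cnt` is additive over a stable decomposition. -/
theorem cnt_sum {A B X : Type} [Fintype A] [Fintype B] [Fintype X]
    (e : A ⊕ B ≃ X) (α : A → A) (β : B → B) (σ : X → X)
    (hα : ∀ a, σ (e (Sum.inl a)) = e (Sum.inl (α a)))
    (hβ : ∀ b, σ (e (Sum.inr b)) = e (Sum.inr (β b))) (l : ℕ) :
    cnt σ l = cnt α l + cnt β l := by
  unfold cnt
  rw [← Equiv.sum_comp e, Fintype.sum_sum_type]
  congr 1
  · refine Finset.sum_congr rfl (fun a _ => ?_)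
    rw [minimalPeriod_of_semiconj (fun a => e (Sum.inl a))
      (fun a b hab => Sum.inl_injective (e.injective hab)) α σ hα a]
  · refine Finset.sum_congr rfl (fun b _ => ?_)
    rw [minimalPeriod_of_semiconj (fun b => e (Sum.inr b))
      (fun a b hab => Sum.inr_injective (e.injective hab)) β σ hβ b]

/-- The standard cycle on `Fin l`. -/
def stdCyc (l : ℕ) : Fin l → Fin l :=
  fun j => if h : j.val + 1 < l then ⟨j.val + 1, h⟩ else ⟨0, j.pos⟩

/-- Splitting off the orbit of a point. -/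
theorem exists_split {X : Type} [Fintype X] (σ : X → X) (hσ : Function.Injective σ) (x₀ : X) :
    ∃ (l : ℕ) (B : Type) (_ : Fintype B) (β : B → B) (e : Fin l ⊕ B ≃ X),
      Function.Injective β ∧
      Fintype.card B + l = Fintype.card X ∧
      0 < l ∧
      (∀ a, σ (e (Sum.inl a)) = e (Sum.inl (stdCyc l a))) ∧
      (∀ b, σ (e (Sum.inr b)) = e (Sum.inr (β b))) ∧
      (∀ a, Function.minimalPeriod σ (e (Sum.inl a)) = l) := by
  classical
  obtain ⟨l, hl⟩ : ∃ l, l = Function.minimalPeriod σ x₀ := ⟨_, rfl⟩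
  have hper : x₀ ∈ Function.periodicPts σ := hσ.mem_periodicPts x₀
  have hlpos : 0 < l := hl ▸ Function.minimalPeriod_pos_of_mem_periodicPts hper
  have hitl : σ^[l] x₀ = x₀ := hl ▸ Function.iterate_minimalPeriod
  let f : Fin l → X := fun j => σ^[j.val] x₀
  have hf : Function.Injective f := by
    intro a b hab
    apply Fin.ext
    exact Function.iterate_injOn_Iio_minimalPeriod (f := σ) (x := x₀)
      (Set.mem_Iio.2 (hl ▸ a.isLt)) (Set.mem_Iio.2 (hl ▸ b.isLt)) hab
  have hstep : ∀ a : Fin l, σ (f a) = f (stdCyc l a) := by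
    intro a
    show σ (σ^[a.val] x₀) = σ^[(stdCyc l a).val] x₀
    rw [← Function.iterate_succ_apply' σ a.val x₀]
    unfold stdCyc
    by_cases h : a.val + 1 < l
    · rw [dif_pos h]
    · rw [dif_neg h]
      have h1 : a.val + 1 = l := le_antisymm a.isLt (not_lt.1 h)
      show σ^[a.val + 1] x₀ = σ^[0] x₀
      rw [h1]
      exact hitl
  have hcompl : ∀ x : X, x ∉ Set.range f → σ x ∉ Set.range f := by
    rintro x hx ⟨j, hj⟩
    apply hx
    have hj' : σ^[j.val] x₀ = σ x := hj
    rcases Nat.eq_zero_or_pos j.val with h0 | hpos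
    · have h1 : σ (σ^[l - 1] x₀) = σ x := by
        rw [← Function.iterate_succ_apply' σ (l - 1) x₀, Nat.succ_eq_add_one,
          Nat.sub_add_cancel hlpos, ← hj', h0]
        exact hitl
      exact ⟨⟨l - 1, Nat.sub_lt hlpos Nat.one_pos⟩, hσ h1⟩
    · have h1 : σ (σ^[j.val - 1] x₀) = σ x := by
        rw [← Function.iterate_succ_apply' σ (j.val - 1) x₀, Nat.succ_eq_add_one,
          Nat.sub_add_cancel hpos, hj']
      exact ⟨⟨j.val - 1, lt_of_le_of_lt (Nat.sub_le _ _) j.isLt⟩, hσ h1⟩
  let B : Type := ↥((Set.range f)ᶜ : Set X)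
  let β : B → B := fun b => ⟨σ b.val, hcompl b.val b.2⟩
  let e : Fin l ⊕ B ≃ X :=
    ((Equiv.ofInjective f hf).sumCongr (Equiv.refl B)).trans (Equiv.Set.sumCompl (Set.range f))
  have he_inl : ∀ a, e (Sum.inl a) = f a := fun a => rfl
  have he_inr : ∀ b : B, e (Sum.inr b) = b.val := fun b => rfl
  refine ⟨l, B, inferInstance, β, e, ?_, ?_, hlpos, ?_, ?_, ?_⟩
  · intro a b hab
    apply Subtype.ext
    exact hσ (congrArg Subtype.val hab)
  · have h1 := Fintype.card_congr e
    rw [Fintype.card_sum, Fintype.card_fin] at h1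
    omega
  · intro a
    rw [he_inl, he_inl]
    exact hstep a
  · intro b
    rw [he_inr, he_inr]
  · intro a
    rw [he_inl, hl]
    exact Function.minimalPeriod_apply_iterate hper a.val

/-- Every point of the standard cycle has period `l` (from any realisation). -/
theorem cnt_stdCyc_of_split {X : Type} (σ : X → X) (l : ℕ) (g : Fin l → X)
    (hg : Function.Injective g) (h : ∀ a, σ (g a) = g (stdCyc l a))
    (hp : ∀ a, Function.minimalPeriod σ (g a) = l) (l' : ℕ) :
    cnt (stdCyc l) l' = if l' = l then l else 0 := by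
  unfold cnt
  have h1 : ∀ a : Fin l, Function.minimalPeriod (stdCyc l) a = l := fun a => by
    rw [← minimalPeriod_of_semiconj g hg (stdCyc l) σ h a, hp a]
  simp only [h1]
  by_cases hl : l' = l
  · subst hl
    simp
  · have hl' : ¬ l = l' := fun h => hl h.symm
    simp [hl, hl']

end Comb

section Main

variable {k : Type} [Field k] {N : Type} [AddCommGroup N] [Module k N] [Module.Finite k N]
  (T : N →ₗ[k] N)

/-- The characteristic polynomial of `(standard l-cycle) ⊗ T`. -/
def cycPoly (l : ℕ) : k[X] := LinearMap.charpoly (permTensor (stdCyc l) T)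

/-- The structure theorem: `charpoly (σ ⊗ T) = ∏_l P_l ^ (c_σ(l) / l)`, and `l ∣ c_σ(l)`. -/
theorem charpoly_permTensor_eq (n : ℕ) :
    ∀ (X : Type) [Fintype X] (σ : X → X), Function.Injective σ → Fintype.card X = n →
      (∀ l, l ∣ cnt σ l) ∧
      ∀ M, n < M → LinearMap.charpoly (permTensor σ T) =
        ∏ l ∈ Finset.range M, cycPoly T l ^ (cnt σ l / l) := by
  induction n using Nat.strong_induction_on with
  | _ n ih =>
    intro X _ σ hσ hX
    rcases isEmpty_or_nonempty X with hE | ⟨⟨x₀⟩⟩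
    · have hc : ∀ l, cnt σ l = 0 := fun l => by
        unfold cnt
        exact Finset.sum_eq_zero (fun x _ => (hE.false x).elim)
      refine ⟨fun l => by rw [hc l]; exact dvd_zero l, fun M _ => ?_⟩
      rw [charpoly_permTensor_empty]
      symm
      apply Finset.prod_eq_one
      intro l _
      rw [hc l, Nat.zero_div, pow_zero]
    · obtain ⟨l, B, hB, β, e, hβ, hcard, hlpos, hα, hβe, hper⟩ := exists_split σ hσ x₀
      have hlt : Fintype.card B < n := by omega
      obtain ⟨hdvdB, hprodB⟩ := ih (Fintype.card B) hlt B β hβ rfl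
      have hcs : ∀ l', cnt σ l' = (if l' = l then l else 0) + cnt β l' := by
        intro l'
        rw [cnt_sum e (stdCyc l) β σ hα hβe l',
          cnt_stdCyc_of_split σ l (fun a => e (Sum.inl a))
            (fun a b hab => Sum.inl_injective (e.injective hab)) hα hper l']
      refine ⟨fun l' => ?_, fun M hM => ?_⟩
      · rw [hcs l']
        by_cases h : l' = l
        · rw [if_pos h]
          exact dvd_add (by rw [h]) (hdvdB l')
        · rw [if_neg h, zero_add]
          exact hdvdB l'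
      · have hlM : l ∈ Finset.range M := Finset.mem_range.2 (by omega)
        rw [charpoly_permTensor_sum T e (stdCyc l) β σ hα hβe, hprodB M (by omega)]
        have hexp : ∀ l' ∈ Finset.range M, cycPoly T l' ^ (cnt σ l' / l') =
            (if l' = l then cycPoly T l else 1) * cycPoly T l' ^ (cnt β l' / l') := by
          intro l' _
          rw [hcs l']
          by_cases h : l' = l
          · rw [if_pos h, if_pos h, h, Nat.add_div_left _ hlpos, pow_succ, mul_comm]
          · rw [if_neg h, if_neg h, zero_add, one_mul]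
        rw [Finset.prod_congr rfl hexp, Finset.prod_mul_distrib, Finset.prod_ite_eq' _ _ _,
          if_pos hlM]
        rfl

/-- Fixed points of `σ ^ t` counted by exact periods. -/
theorem card_fix_eq {X : Type} [Fintype X] (σ : Equiv.Perm X) (t : ℕ) (ht : 0 < t) :
    Nat.card {x : X // (σ ^ t) x = x} = ∑ l ∈ t.divisors, cnt (⇑σ) l := by
  classical
  rw [Nat.card_eq_fintype_card, Fintype.card_subtype, Finset.card_filter]
  unfold cnt
  rw [Finset.sum_comm]
  refine Finset.sum_congr rfl (fun x _ => ?_)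
  rw [Finset.sum_ite_eq]
  have h : (σ ^ t) x = x ↔ Function.minimalPeriod (⇑σ) x ∈ t.divisors := by
    rw [Nat.mem_divisors, ← Function.isPeriodicPt_iff_minimalPeriod_dvd]
    show _ ↔ (⇑σ)^[t] x = x ∧ _
    rw [Equiv.Perm.iterate_eq_pow]
    exact ⟨fun h => ⟨h, ht.ne'⟩, fun h => h.1⟩
  simp only [h]

/-- Divisor sums determine the summands. -/
theorem divisor_sum_inj (F F' : ℕ → ℕ)
    (h : ∀ t, 0 < t → ∑ l ∈ t.divisors, F l = ∑ l ∈ t.divisors, F' l) :
    ∀ t, 0 < t → F t = F' t := by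
  intro t
  induction t using Nat.strong_induction_on with
  | _ t ih =>
    intro ht
    have h1 := h t ht
    rw [← Nat.insert_self_properDivisors ht.ne',
      Finset.sum_insert Nat.self_notMem_properDivisors,
      Finset.sum_insert Nat.self_notMem_properDivisors] at h1
    have h2 : ∑ l ∈ t.properDivisors, F l = ∑ l ∈ t.properDivisors, F' l :=
      Finset.sum_congr rfl (fun l hl =>
        ih l (Nat.mem_properDivisors.1 hl).2 (Nat.pos_of_mem_properDivisors hl))
    omega

/-- **PERM.** -/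
theorem permCharpoly : PermCharpolyStatement := by
  intro k _ N _ _ _ T I _ X _ σ n n' H
  classical
  have hstruct : ∀ i, (∀ l, l ∣ cnt (⇑(σ i)) l) ∧
      ∀ M, Fintype.card (X i) < M → LinearMap.charpoly (permTensor (⇑(σ i)) T) =
        ∏ l ∈ Finset.range M, cycPoly T l ^ (cnt (⇑(σ i)) l / l) :=
    fun i => charpoly_permTensor_eq T _ (X i) (σ i) (σ i).injective rfl
  obtain ⟨M, hMdef⟩ : ∃ M, M = (∑ i, Fintype.card (X i)) + 1 := ⟨_, rfl⟩
  have hM : ∀ i, Fintype.card (X i) < M := fun i => by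
    rw [hMdef]
    exact Nat.lt_succ_of_le
      (Finset.single_le_sum (f := fun i => Fintype.card (X i)) (fun _ _ => Nat.zero_le _)
        (Finset.mem_univ i))
  have hF : ∀ t, 0 < t →
      ∑ i, n i * cnt (⇑(σ i)) t = ∑ i, n' i * cnt (⇑(σ i)) t := by
    apply divisor_sum_inj
    intro t ht
    have h1 := H t
    simp only [card_fix_eq _ t ht, Finset.mul_sum] at h1
    rw [Finset.sum_comm, h1, Finset.sum_comm]
  have hD : ∀ l, ∑ i, n i * (cnt (⇑(σ i)) l / l) = ∑ i, n' i * (cnt (⇑(σ i)) l / l) := by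
    intro l
    rcases Nat.eq_zero_or_pos l with h0 | hpos
    · subst h0
      simp
    · apply Nat.eq_of_mul_eq_mul_left hpos
      rw [Finset.mul_sum, Finset.mul_sum]
      have h2 : ∀ m : I → ℕ, ∑ i, l * (m i * (cnt (⇑(σ i)) l / l)) =
          ∑ i, m i * cnt (⇑(σ i)) l := fun m =>
        Finset.sum_congr rfl (fun i _ => by
          rw [mul_left_comm, Nat.mul_div_cancel' ((hstruct i).1 l)])
      rw [h2, h2, hF l hpos]
  have hprod : ∀ m : I → ℕ, ∏ i, LinearMap.charpoly (permTensor (⇑(σ i)) T) ^ m i =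
      ∏ l ∈ Finset.range M, cycPoly T l ^ (∑ i, m i * (cnt (⇑(σ i)) l / l)) := by
    intro m
    calc ∏ i, LinearMap.charpoly (permTensor (⇑(σ i)) T) ^ m i
        = ∏ i, ∏ l ∈ Finset.range M, cycPoly T l ^ (m i * (cnt (⇑(σ i)) l / l)) :=
          Finset.prod_congr rfl (fun i _ => by
            rw [(hstruct i).2 M (hM i), ← Finset.prod_pow]
            exact Finset.prod_congr rfl (fun l _ => by rw [← pow_mul, mul_comm]))
      _ = ∏ l ∈ Finset.range M, ∏ i, cycPoly T l ^ (m i * (cnt (⇑(σ i)) l / l)) :=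
          Finset.prod_comm
      _ = _ := Finset.prod_congr rfl (fun l _ => Finset.prod_pow_eq_pow_sum _ _ _)
  rw [hprod n, hprod n']
  exact Finset.prod_congr rfl (fun l _ => by rw [hD l])

end Main

end Fermat.Agent.S56.Euler.H635

end

end
-- ===== PACK-END S56/Euler/PermH635.lean

-- ===== PACK-BEGIN S56/Euler/ArtinH512.lean
section


/-!
# Row S56 / Euler characteristic / leaf ARTIN (helper512)

`artinCount : ArtinCountStatement` — Artin's counting formula on `p`-regular elements:
for a finite group `G` there are integers `a_B`, `B` running over the cyclic subgroups of order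
prime to `p`, with `∑_B a_B · |(G/B)^g| = |G|` for every `p`-regular `g`.

Proof.  `φ_B(g) = #{x : x⁻¹ g x ∈ B} = |B| · |(G/B)^g|`, `ν_C(g) = #{x : ⟨x⁻¹ g x⟩ = C}`;
`φ_C = ∑_{C' ≤ C} ν_{C'}`, so by induction on `C` every `ν_C` (`C` cyclic of order prime to `p`)
is a `ℤ`-combination of the `φ_B`; finally `∑_C ν_C(g) = |G|` for `p`-regular `g`.
Mathlib only.
-/

set_option autoImplicit false

open Subgroup

namespace Fermat.Agent.S56.Euler.H512

variable {G : Type} [Group G]

/-- The conjugate `x⁻¹ g x`. -/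
def cj (g x : G) : G := x⁻¹ * g * x

lemma orderOf_cj (g x : G) : orderOf (cj g x) = orderOf g := by
  have h := (MulAut.conj x⁻¹).orderOf_eq g
  rw [MulAut.conj_apply, inv_inv] at h
  exact h

/-- `φ_B(g) = #{x : x⁻¹ g x ∈ B}`. -/
noncomputable def phi (B : Subgroup G) (g : G) : ℤ :=
  (Nat.card {x : G // cj g x ∈ B} : ℤ)

/-- `ν_C(g) = #{x : ⟨x⁻¹ g x⟩ = C}`. -/
noncomputable def nu (C : Subgroup G) (g : G) : ℤ :=
  (Nat.card {x : G // zpowers (cj g x) = C} : ℤ)

/-- `#{x : x⁻¹ g x ∈ B} = |B| · |(G/B)^g|`. -/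
lemma card_cj_mem (B : Subgroup G) (g : G) :
    Nat.card {x : G // cj g x ∈ B} = Nat.card B * Nat.card {q : G ⧸ B // g • q = q} := by
  rw [← Nat.card_prod]
  have hset : {x : G | cj g x ∈ B} =
      (QuotientGroup.mk : G → G ⧸ B) ⁻¹' {q : G ⧸ B | g • q = q} := by
    ext x
    simp only [Set.mem_ofPred_eq, Set.mem_preimage]
    rw [MulAction.Quotient.smul_mk, eq_comm, QuotientGroup.eq, smul_eq_mul, cj, mul_assoc]
  have e := QuotientGroup.preimageMkEquivSubgroupProdSet B {q : G ⧸ B | g • q = q}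
  rw [← hset] at e
  exact Nat.card_congr e

lemma phi_eq (B : Subgroup G) (g : G) :
    phi B g = (Nat.card B : ℤ) * (Nat.card {q : G ⧸ B // g • q = q} : ℤ) := by
  rw [phi, card_cj_mem, Nat.cast_mul]

/-- `ν_C(g) = 0` unless `C` is cyclic of the same order as `g`. -/
lemma nu_eq_zero_of_card_ne (C : Subgroup G) (g : G) (h : Nat.card C ≠ orderOf g) :
    nu C g = 0 := by
  rw [nu, Nat.cast_eq_zero]
  have : IsEmpty {x : G // zpowers (cj g x) = C} := by
    refine ⟨fun ⟨x, hx⟩ => h ?_⟩
    rw [← hx, Nat.card_zpowers, orderOf_cj]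
  exact Nat.card_of_isEmpty

lemma nu_eq_zero_of_not_isCyclic (C : Subgroup G) (g : G) (h : ¬ IsCyclic C) :
    nu C g = 0 := by
  rw [nu, Nat.cast_eq_zero]
  have : IsEmpty {x : G // zpowers (cj g x) = C} := by
    refine ⟨fun ⟨x, hx⟩ => h ?_⟩
    rw [← hx]
    infer_instance
  exact Nat.card_of_isEmpty

/-- The cyclic subgroups of order prime to `p`. -/
def Good (p : ℕ) (B : Subgroup G) : Prop := IsCyclic B ∧ ¬ p ∣ Nat.card B

lemma good_of_le {p : ℕ} {B C : Subgroup G} (h : B ≤ C) (hC : Good p C) : Good p B := by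
  obtain ⟨hc, hp⟩ := hC
  exact ⟨isCyclic_of_le h, fun hd => hp (hd.trans (card_dvd_of_le h))⟩

section Finite

variable [Finite G]

open Classical in
/-- `φ_C = ∑_{C' ≤ C} ν_{C'}`. -/
lemma phi_eq_sum_nu [Fintype (Subgroup G)] (C : Subgroup G) (g : G) :
    phi C g = ∑ C' ∈ Finset.univ.filter (fun C' : Subgroup G => C' ≤ C), nu C' g := by
  have : Fintype G := Fintype.ofFinite G
  have h1 : Nat.card {x : G // cj g x ∈ C} =
      (Finset.univ.filter (fun x : G => cj g x ∈ C)).card := by
    rw [Nat.card_eq_fintype_card, Fintype.card_subtype]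
  have h2 : ∀ C' : Subgroup G, Nat.card {x : G // zpowers (cj g x) = C'} =
      (Finset.univ.filter (fun x : G => zpowers (cj g x) = C')).card := by
    intro C'
    rw [Nat.card_eq_fintype_card, Fintype.card_subtype]
  have h3 := Finset.card_eq_sum_card_fiberwise (f := fun x : G => zpowers (cj g x))
    (s := Finset.univ.filter (fun x : G => cj g x ∈ C))
    (t := Finset.univ.filter (fun C' : Subgroup G => C' ≤ C))
    (by
      intro x hx
      simp only [Finset.coe_filter, Finset.mem_univ, true_and, Set.mem_ofPred_eq] at hx ⊢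
      exact zpowers_le.mpr hx)
  simp only [phi, nu, h1, h2]
  rw [h3, Nat.cast_sum]
  refine Finset.sum_congr rfl fun C' hC' => ?_
  congr 2
  ext x
  simp only [Finset.mem_filter, Finset.mem_univ, true_and] at hC' ⊢
  constructor
  · rintro ⟨-, h⟩
    exact h
  · intro h
    refine ⟨?_, h⟩
    have : zpowers (cj g x) ≤ C := h ▸ hC'
    exact zpowers_le.mp this

open Classical in
/-- `∑_C ν_C(g) = |G|`. -/
lemma sum_nu [Fintype (Subgroup G)] (g : G) :
    ∑ C : Subgroup G, nu C g = (Nat.card G : ℤ) := by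
  have : Fintype G := Fintype.ofFinite G
  have h2 : ∀ C' : Subgroup G, Nat.card {x : G // zpowers (cj g x) = C'} =
      (Finset.univ.filter (fun x : G => zpowers (cj g x) = C')).card := by
    intro C'
    rw [Nat.card_eq_fintype_card, Fintype.card_subtype]
  have h3 := Finset.card_eq_sum_card_fiberwise (f := fun x : G => zpowers (cj g x))
    (s := (Finset.univ : Finset G)) (t := (Finset.univ : Finset (Subgroup G)))
    (by intro x _; simp)
  simp only [nu, h2]
  rw [← Nat.cast_sum, ← h3, Nat.card_eq_fintype_card, Finset.card_univ]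

open Classical in
/-- Every `ν_C`, `C` good, is a `ℤ`-combination of the `φ_B`, `B` good. -/
lemma nu_mem_span (p : ℕ) (C : Subgroup G) (hC : Good p C) :
    (nu C : G → ℤ) ∈ Submodule.span ℤ
      (Set.range fun B : {B : Subgroup G // Good p B} => (phi B.1 : G → ℤ)) := by
  have : Fintype (Subgroup G) := Fintype.ofFinite _
  induction C using WellFoundedLT.induction with
  | _ C ih =>
    have hphi : (phi C : G → ℤ) ∈ Submodule.span ℤ
        (Set.range fun B : {B : Subgroup G // Good p B} => (phi B.1 : G → ℤ)) :=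
      Submodule.subset_span ⟨⟨C, hC⟩, rfl⟩
    have hsum : (nu C : G → ℤ) = phi C -
        ∑ C' ∈ Finset.univ.filter (fun C' : Subgroup G => C' < C), (nu C' : G → ℤ) := by
      funext g
      rw [Pi.sub_apply, Finset.sum_apply, phi_eq_sum_nu C g]
      have hsplit : Finset.univ.filter (fun C' : Subgroup G => C' ≤ C) =
          insert C (Finset.univ.filter (fun C' : Subgroup G => C' < C)) := by
        ext C'
        simp only [Finset.mem_filter, Finset.mem_univ, true_and, Finset.mem_insert]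
        constructor
        · intro h
          rcases h.eq_or_lt with h | h
          · exact Or.inl h
          · exact Or.inr h
        · rintro (h | h)
          · exact h.le
          · exact h.le
      rw [hsplit, Finset.sum_insert (by simp)]
      ring
    rw [hsum]
    refine Submodule.sub_mem _ hphi (Submodule.sum_mem _ fun C' hC' => ?_)
    simp only [Finset.mem_filter, Finset.mem_univ, true_and] at hC'
    exact ih C' hC' (good_of_le hC'.le hC)

end Finite

open Classical in
/-- **Artin's counting formula** on `p`-regular elements. -/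
theorem artinCount : ArtinCountStatement := by
  intro p _ G _ _
  have : Fintype (Subgroup G) := Fintype.ofFinite _
  have : Fintype {B : Subgroup G // Good p B} := Fintype.ofFinite _
  -- the total `∑_{C good} ν_C` is a combination of the `φ_B`
  have hT : (∑ C : {B : Subgroup G // Good p B}, (nu C.1 : G → ℤ)) ∈ Submodule.span ℤ
      (Set.range fun B : {B : Subgroup G // Good p B} => (phi B.1 : G → ℤ)) :=
    Submodule.sum_mem _ fun C _ => nu_mem_span p C.1 C.2
  obtain ⟨c, hc⟩ := (Submodule.mem_span_range_iff_exists_fun ℤ).mp hT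
  refine ⟨Finset.univ.filter (fun B : Subgroup G => Good p B),
    fun B => if h : Good p B then c ⟨B, h⟩ * (Nat.card B : ℤ) else 0, ?_, ?_⟩
  · intro B hB
    simp only [Finset.mem_filter, Finset.mem_univ, true_and] at hB
    exact hB
  · intro g hg
    have hval := congrFun hc g
    rw [Finset.sum_apply, Finset.sum_apply] at hval
    -- right-hand side: `∑_{C good} ν_C(g) = |G|`
    have hR : ∑ C : {B : Subgroup G // Good p B}, nu C.1 g = (Nat.card G : ℤ) := by
      rw [← sum_nu g]
      rw [← Finset.sum_subtype (p := Good p)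
        (Finset.univ.filter (fun B : Subgroup G => Good p B)) (by simp) (fun C => nu C g)]
      rw [Finset.sum_filter]
      refine Finset.sum_congr rfl fun C _ => ?_
      split_ifs with h
      · rfl
      · by_cases hcyc : IsCyclic C
        · refine (nu_eq_zero_of_card_ne C g ?_).symm
          intro hcard
          exact h ⟨hcyc, by rw [hcard]; exact hg⟩
        · exact (nu_eq_zero_of_not_isCyclic C g hcyc).symm
    rw [← hR, ← hval]
    rw [Finset.sum_subtype (p := Good p) (Finset.univ.filter (fun B : Subgroup G => Good p B))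
      (by simp) (fun B => (if h : Good p B then c ⟨B, h⟩ * (Nat.card B : ℤ) else 0) *
        (Nat.card {x : G ⧸ B // g • x = x} : ℤ))]
    refine Finset.sum_congr rfl fun B _ => ?_
    rw [dif_pos B.2, Pi.smul_apply, smul_eq_mul, phi_eq, mul_assoc]

end Fermat.Agent.S56.Euler.H512

end
-- ===== PACK-END S56/Euler/ArtinH512.lean

-- ===== PACK-BEGIN S56/H334/RamComm.lean
section


/-!
# S56 / W-FLAT-SS, piece FL-RAM (helper334), part 5: commutator rules

Setting as in `RamBasic`/`RamTheta`: a DVR `B`, a group `Γ` acting by ring automorphisms.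

* `smul_comm_residueField` : if the residue field is finite, the actions of any two elements of `Γ`
  on the residue field commute (automorphisms of a finite field commute).
* `commutator_mem_ramGroup_zero` : `g h g⁻¹ h⁻¹ ∈ Γ₀`  (`Γ/Γ₀` is abelian).
* `conj_mul_inv_mem_ramGroup_iff` : under (H), for `n ≥ 1`, `σ ∈ Γ_n ∖ Γ_{n+1}`, `τ ∈ Γ₀`:
  `τ σ τ⁻¹ σ⁻¹ ∈ Γ_{n+1} ↔ τ ^ n ∈ Γ₁`    (Serre, Local Fields IV §2 Prop. 9 + Cor.).
-/

set_option autoImplicit false
set_option linter.unusedSectionVars false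

open IsLocalRing

namespace Fermat.Agent.S56.H334

variable {B : Type*} [CommRing B] [IsDomain B] [IsDiscreteValuationRing B]
variable {Γ : Type*} [Group Γ] [MulSemiringAction Γ B]

/-- Automorphisms of a finite field commute: the actions of `g, h ∈ Γ` on the residue field
commute. -/
theorem smul_comm_residueField [Finite (ResidueField B)] (g h : Γ) (y : ResidueField B) :
    g • h • y = h • g • y := by
  obtain ⟨z, hz⟩ := IsCyclic.exists_generator (α := (ResidueField B)ˣ)
  have key : ∀ σ : Γ, ∃ a : ℕ, σ • (z : ResidueField B) = (z : ResidueField B) ^ a := by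
    intro σ
    have h1 := hz (Units.map (MulSemiringAction.toRingHom Γ (ResidueField B) σ).toMonoidHom z)
    rw [← mem_powers_iff_mem_zpowers] at h1
    obtain ⟨a, ha⟩ := h1
    refine ⟨a, ?_⟩
    have h2 := congrArg (Units.val) ha
    rw [Units.val_pow_eq_pow_val] at h2
    rw [h2]
    rfl
  obtain ⟨a, ha⟩ := key g
  obtain ⟨b, hb⟩ := key h
  have hzz : g • h • (z : ResidueField B) = h • g • (z : ResidueField B) := by
    rw [hb, ha, smul_pow', smul_pow', ha, hb, ← pow_mul, ← pow_mul, mul_comm]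
  by_cases hy : y = 0
  · simp only [hy, smul_zero]
  · have h1 := hz (Units.mk0 y hy)
    rw [← mem_powers_iff_mem_zpowers] at h1
    obtain ⟨k, hk⟩ := h1
    have h2 : y = (z : ResidueField B) ^ k := by
      have h3 := congrArg (Units.val) hk
      rw [Units.val_pow_eq_pow_val] at h3
      rw [h3]
      rfl
    rw [h2, smul_pow', smul_pow', smul_pow', smul_pow', hzz]

/-- `Γ / Γ₀` is abelian: all commutators lie in the inertia group. -/
theorem commutator_mem_ramGroup_zero [Finite (ResidueField B)] (g h : Γ) :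
    g * h * g⁻¹ * h⁻¹ ∈ ramGroup Γ B 0 := by
  intro x
  show (g * h * g⁻¹ * h⁻¹) • x - x ∈ ((maximalIdeal B) ^ (0 + 1)).toAddSubgroup
  rw [zero_add, pow_one]
  show (g * h * g⁻¹ * h⁻¹) • x - x ∈ maximalIdeal B
  rw [← residue_eq_zero_iff, map_sub, sub_eq_zero, IsLocalRing.ResidueField.residue_smul,
    mul_smul, mul_smul, mul_smul, smul_comm_residueField g h, smul_inv_smul, smul_inv_smul]

section CommRule

variable {π : B} (hπ : Irreducible π)

include hπ in
/-- The commutator rule: for `σ ∈ Γ_{m+1} ∖ Γ_{m+2}` and `τ ∈ Γ₀`,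
`τ σ τ⁻¹ σ⁻¹ ∈ Γ_{m+2} ↔ τ ^ (m+1) ∈ Γ₁`. -/
theorem conj_mul_inv_mem_ramGroup_iff_aux (hH : InertiaResidue Γ B) (m : ℕ) {σ τ : Γ}
    (hσ : σ ∈ ramGroup Γ B (m + 1)) (hσ' : σ ∉ ramGroup Γ B (m + 2))
    (hτ : τ ∈ ramGroup Γ B 0) :
    τ * σ * τ⁻¹ * σ⁻¹ ∈ ramGroup Γ B (m + 2) ↔ τ ^ (m + 1) ∈ ramGroup Γ B 1 := by
  have hconj : τ * σ * τ⁻¹ ∈ ramGroup Γ B (m + 1) := (ramGroup_normal (m + 1)).conj_mem _ hσ τ
  set s : ramGroup Γ B (m + 1) := ⟨σ, hσ⟩ with hs
  set c : ramGroup Γ B (m + 1) := ⟨τ * σ * τ⁻¹, hconj⟩ with hc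
  set t : ramGroup Γ B 0 := ⟨τ, hτ⟩ with ht
  have h1 : τ * σ * τ⁻¹ * σ⁻¹ = ((c * s⁻¹ : ramGroup Γ B (m + 1)) : Γ) := rfl
  have h2 : τ ^ (m + 1) = ((t ^ (m + 1) : ramGroup Γ B 0) : Γ) := rfl
  rw [h1, ← theta_eq_one_iff hπ hH m, h2, ← theta0_eq_one_iff hπ hH, map_mul, map_inv,
    mul_inv_eq_one, map_pow]
  have ha : residue B (aOf hπ m σ) ≠ 0 := by
    intro h0
    apply hσ'
    have := (theta_eq_one_iff hπ hH m s).1 (by
      apply Multiplicative.toAdd.injective
      rw [theta_apply]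
      exact h0)
    exact this
  have hconj_val : residue B (aOf hπ m (τ * σ * τ⁻¹)) =
      residue B (cOf hπ τ) ^ (m + 1) * residue B (aOf hπ m σ) :=
    theta_conj_of_mem hπ m hτ s
  constructor
  · intro h
    have h3 : residue B (aOf hπ m (τ * σ * τ⁻¹)) = residue B (aOf hπ m σ) :=
      congrArg Multiplicative.toAdd h
    rw [hconj_val] at h3
    have h4 : residue B (cOf hπ τ) ^ (m + 1) = 1 := by
      have h5 : (residue B (cOf hπ τ) ^ (m + 1) - 1) * residue B (aOf hπ m σ) = 0 := by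
        rw [sub_mul, one_mul, h3, sub_self]
      rcases mul_eq_zero.1 h5 with h6 | h6
      · exact sub_eq_zero.1 h6
      · exact absurd h6 ha
    apply Units.ext
    rw [Units.val_pow_eq_pow_val, theta0_apply, Units.val_one]
    exact h4
  · intro h
    have h4 : residue B (cOf hπ τ) ^ (m + 1) = 1 := by
      have h5 := congrArg Units.val h
      rw [Units.val_pow_eq_pow_val, theta0_apply, Units.val_one] at h5
      exact h5
    apply Multiplicative.toAdd.injective
    rw [theta_apply, theta_apply]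
    show residue B (aOf hπ m (τ * σ * τ⁻¹)) = residue B (aOf hπ m σ)
    rw [hconj_val, h4, one_mul]

end CommRule

/-- **Commutator rule** (Serre, Local Fields IV §2): under (H), for `n ≥ 1`,
`σ ∈ Γ_n ∖ Γ_{n+1}` and `τ ∈ Γ₀`:  `τ σ τ⁻¹ σ⁻¹ ∈ Γ_{n+1} ↔ τ ^ n ∈ Γ₁`. -/
theorem conj_mul_inv_mem_ramGroup_iff (hH : InertiaResidue Γ B) {n : ℕ} (hn : 1 ≤ n) {σ τ : Γ}
    (hσ : σ ∈ ramGroup Γ B n) (hσ' : σ ∉ ramGroup Γ B (n + 1)) (hτ : τ ∈ ramGroup Γ B 0) :
    τ * σ * τ⁻¹ * σ⁻¹ ∈ ramGroup Γ B (n + 1) ↔ τ ^ n ∈ ramGroup Γ B 1 := by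
  obtain ⟨π, hπ⟩ := IsDiscreteValuationRing.exists_irreducible B
  obtain ⟨m, rfl⟩ : ∃ m, n = m + 1 := ⟨n - 1, by omega⟩
  exact conj_mul_inv_mem_ramGroup_iff_aux hπ hH m hσ hσ' hτ

end Fermat.Agent.S56.H334

end
-- ===== PACK-END S56/H334/RamComm.lean

-- ===== PACK-BEGIN S19/H435/Lattice.lean
section
/-
A3 / WP-C (helper435): Hopf lattices of equivariant functions (helper135's `HopfLattice`),
bases, and the descent lemma `Zb·Λ ∩ {equivariant} = Λ`.
-/





set_option autoImplicit false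
set_option linter.style.haveILetI false

noncomputable section

namespace Fermat.Agent.S19.H435

/-- A *Hopf lattice* on a `Gal`-set-with-addition `M`: a `ℤ_(ℓ)`-subalgebra of functions
`M → Qb`, finitely generated as a module, consisting of equivariant functions, separating the
points of `M`, and closed under the comultiplication `f ↦ ((x, y) ↦ f (x + y))`. -/
structure IsHopfLattice (ℓ : ℕ) {M : Type*} [AddCommGroup M] (act : Gal → M → M)
    (Λ : Subalgebra (Zl ℓ) (M → _root_.Fermat.Agent.S19.H435.Qb)) : Prop where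
  fg : (Subalgebra.toSubmodule Λ).FG
  equivariant : ∀ f ∈ Λ, IsEquivariantFun act f
  separates : ∀ m n : M, m ≠ n → ∃ f ∈ Λ, f m ≠ f n
  comul_mem : ∀ f ∈ Λ, ∃ (n : ℕ) (a b : Fin n → M → _root_.Fermat.Agent.S19.H435.Qb), (∀ k, a k ∈ Λ) ∧ (∀ k, b k ∈ Λ) ∧
    ∀ x y : M, f (x + y) = ∑ k, a k x * b k y

section Zl

variable (ℓ : ℕ)

theorem algebraMap_Zl_Qb_injective : Function.Injective (algebraMap (Zl ℓ) _root_.Fermat.Agent.S19.H435.Qb) := by
  intro a b h
  have h1 : algebraMap ℚ _root_.Fermat.Agent.S19.H435.Qb (a : ℚ) = algebraMap ℚ _root_.Fermat.Agent.S19.H435.Qb (b : ℚ) := h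
  exact Subtype.ext ((algebraMap ℚ _root_.Fermat.Agent.S19.H435.Qb).injective h1)

instance faithfulSMul_Zl_Qb : FaithfulSMul (Zl ℓ) _root_.Fermat.Agent.S19.H435.Qb :=
  (faithfulSMul_iff_algebraMap_injective (Zl ℓ) _root_.Fermat.Agent.S19.H435.Qb).mpr (algebraMap_Zl_Qb_injective ℓ)

instance isTorsionFree_Zl_Qb : Module.IsTorsionFree (Zl ℓ) _root_.Fermat.Agent.S19.H435.Qb := by
  refine Module.IsTorsionFree.of_smul_eq_zero fun r m h => ?_
  rw [Algebra.smul_def, mul_eq_zero] at h
  rcases h with h | h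
  · left
    exact algebraMap_Zl_Qb_injective ℓ (by rw [h, map_zero])
  · exact Or.inr h

theorem isFractionRing_Zl : IsFractionRing (Zl ℓ) ℚ := by
  refine IsFractionRing.of_field (Zl ℓ) ℚ fun z => ?_
  refine ⟨⟨(z.num : ℚ), intCast_mem _ _⟩, ⟨(z.den : ℚ), natCast_mem _ _⟩, ?_⟩
  show z = (z.num : ℚ) / (z.den : ℚ)
  exact (Rat.num_div_den z).symm

/-- A Galois-fixed element of `Qb` which is integral over `ℤ_(ℓ)` lies in `ℤ_(ℓ)`. -/
theorem exists_Zl_of_fixed_of_isIntegral [Fact ℓ.Prime] (x : _root_.Fermat.Agent.S19.H435.Qb) (hx : ∀ σ : Gal, σ x = x)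
    (hint : IsIntegral (Zl ℓ) x) : ∃ r : Zl ℓ, algebraMap (Zl ℓ) _root_.Fermat.Agent.S19.H435.Qb r = x := by
  obtain ⟨q, rfl⟩ := fixed_mem_range_rat x hx
  have hq : IsIntegral (Zl ℓ) q :=
    (isIntegral_algebraMap_iff (algebraMap ℚ _root_.Fermat.Agent.S19.H435.Qb).injective).mp hint
  haveI := isFractionRing_Zl ℓ
  obtain ⟨r, hr⟩ := IsIntegrallyClosed.isIntegral_iff.mp hq
  exact ⟨r, by rw [← hr]; rfl⟩

end Zl

variable {ℓ : ℕ} {M : Type*} [AddCommGroup M] {act : Gal → M → M}
  {Λ : Subalgebra (Zl ℓ) (M → _root_.Fermat.Agent.S19.H435.Qb)}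

namespace IsHopfLattice

/-- Values of elements of a Hopf lattice are integral over `ℤ_(ℓ)`. -/
theorem isIntegral_apply (hΛ : IsHopfLattice ℓ act Λ) {f : M → _root_.Fermat.Agent.S19.H435.Qb} (hf : f ∈ Λ) (m : M) :
    IsIntegral (Zl ℓ) (f m) :=
  (IsIntegral.of_mem_of_fg Λ hΛ.fg f hf).map (Pi.evalAlgHom (Zl ℓ) (fun _ : M => _root_.Fermat.Agent.S19.H435.Qb) m)

/-- A Hopf lattice has an `ℤ_(ℓ)`-basis, which is `Qb`-linearly independent. -/
theorem exists_basis [Fact ℓ.Prime] (hΛ : IsHopfLattice ℓ act Λ) :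
    ∃ (n : ℕ) (e : Fin n → M → _root_.Fermat.Agent.S19.H435.Qb), (∀ i, e i ∈ Λ) ∧ LinearIndependent (Zl ℓ) e ∧
      LinearIndependent _root_.Fermat.Agent.S19.H435.Qb e ∧ ∀ f ∈ Λ, ∃ c : Fin n → Zl ℓ, f = ∑ i, c i • e i := by
  haveI : Module.Finite (Zl ℓ) (Subalgebra.toSubmodule Λ) := Module.Finite.iff_fg.mpr hΛ.fg
  haveI : Module.Free (Zl ℓ) (Subalgebra.toSubmodule Λ) :=
    Module.free_of_finite_type_torsion_free'
  let b := Module.finBasis (Zl ℓ) (Subalgebra.toSubmodule Λ)
  have hli : LinearIndependent (Zl ℓ) (fun i => ((b i : Subalgebra.toSubmodule Λ) : M → _root_.Fermat.Agent.S19.H435.Qb)) :=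
    b.linearIndependent.map' (Subalgebra.toSubmodule Λ).subtype (Submodule.ker_subtype _)
  refine ⟨_, fun i => ((b i : Subalgebra.toSubmodule Λ) : M → _root_.Fermat.Agent.S19.H435.Qb), fun i => (b i).2, hli, ?_, ?_⟩
  · exact linearIndependent_Qb_of_int (act := act) _ (fun i => hΛ.equivariant _ (b i).2)
      (LinearIndependent.restrict_scalars' ℤ hli)
  · intro f hf
    refine ⟨fun i => b.repr ⟨f, hf⟩ i, ?_⟩
    have := congrArg (Subalgebra.toSubmodule Λ).subtype (b.sum_repr ⟨f, hf⟩)
    rw [map_sum] at this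
    simpa using this.symm

/-- **Descent.** An equivariant function in the `Zb`-span of a Hopf lattice lies in the lattice
(`Zb` = integral closure of `ℤ_(ℓ)` in `Qb`). -/
theorem mem_of_mem_span_of_equivariant [Fact ℓ.Prime] (hΛ : IsHopfLattice ℓ act Λ)
    {u : M → _root_.Fermat.Agent.S19.H435.Qb}
    (hu : u ∈ Submodule.span (integralClosure (Zl ℓ) _root_.Fermat.Agent.S19.H435.Qb) (Λ : Set (M → _root_.Fermat.Agent.S19.H435.Qb)))
    (heq : IsEquivariantFun act u) : u ∈ Λ := by
  obtain ⟨n, e, he, -, hliQ, hexp⟩ := hΛ.exists_basis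
  -- coordinates with integral coefficients
  have hcoord : ∀ v ∈ Submodule.span (integralClosure (Zl ℓ) _root_.Fermat.Agent.S19.H435.Qb) (Λ : Set (M → _root_.Fermat.Agent.S19.H435.Qb)),
      ∃ W : Fin n → _root_.Fermat.Agent.S19.H435.Qb, (∀ i, IsIntegral (Zl ℓ) (W i)) ∧ v = ∑ i, W i • e i := by
    intro v hv
    induction hv using Submodule.span_induction with
    | mem f hf =>
      obtain ⟨c, hc⟩ := hexp f hf
      refine ⟨fun i => algebraMap (Zl ℓ) _root_.Fermat.Agent.S19.H435.Qb (c i), fun i => isIntegral_algebraMap, ?_⟩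
      rw [hc]
      refine Finset.sum_congr rfl fun i _ => ?_
      rw [algebraMap_smul]
    | zero => exact ⟨0, fun i => isIntegral_zero, by simp⟩
    | add x y _ _ hx hy =>
      obtain ⟨W, hW, rfl⟩ := hx
      obtain ⟨W', hW', rfl⟩ := hy
      refine ⟨W + W', fun i => (hW i).add (hW' i), ?_⟩
      simp [add_smul, Finset.sum_add_distrib]
    | smul z x _ hx =>
      obtain ⟨W, hW, rfl⟩ := hx
      refine ⟨fun i => (z : _root_.Fermat.Agent.S19.H435.Qb) * W i, fun i => z.2.mul (hW i), ?_⟩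
      show (z : _root_.Fermat.Agent.S19.H435.Qb) • (∑ i, W i • e i) = _
      rw [Finset.smul_sum]
      refine Finset.sum_congr rfl fun i _ => ?_
      rw [smul_smul]
  obtain ⟨W, hW, rfl⟩ := hcoord u hu
  have hpt : ∀ m : M, (∑ i, W i • e i) m = ∑ i, W i * e i m := by
    intro m
    simp [Finset.sum_apply]
  have hfix : ∀ (σ : Gal) (i : Fin n), σ (W i) = W i := by
    intro σ
    have h0 : ∑ i, (σ (W i) - W i) • e i = 0 := by
      funext m
      simp only [Finset.sum_apply, Pi.smul_apply, smul_eq_mul, Pi.zero_apply, sub_mul,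
        Finset.sum_sub_distrib]
      have h1 := heq σ⁻¹ m
      rw [hpt, hpt] at h1
      have h2 := congrArg σ h1
      rw [map_sum] at h2
      have h3 : σ (σ⁻¹ (∑ i, W i * e i m)) = ∑ i, W i * e i m :=
        AlgEquiv.apply_symm_apply σ _
      rw [h3] at h2
      rw [← h2, sub_eq_zero]
      refine Finset.sum_congr rfl fun i _ => ?_
      rw [map_mul, hΛ.equivariant _ (he i) σ⁻¹ m]
      congr 1
      exact (AlgEquiv.apply_symm_apply σ (e i m)).symm
    intro i
    have := (Fintype.linearIndependent_iff.mp hliQ) _ h0 i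
    exact sub_eq_zero.mp this
  choose r hr using fun i =>
    exists_Zl_of_fixed_of_isIntegral ℓ (W i) (fun σ => hfix σ i) (hW i)
  have : ∑ i, W i • e i = ∑ i, r i • e i := by
    refine Finset.sum_congr rfl fun i _ => ?_
    rw [← hr i, algebraMap_smul]
  rw [this]
  exact Subalgebra.sum_mem _ fun i _ => Subalgebra.smul_mem _ (he i) _

end IsHopfLattice

end Fermat.Agent.S19.H435

end
end
-- ===== PACK-END S19/H435/Lattice.lean

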