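import Mathlib
import Fermat.Agent.Pack.S43GC.G0E3L3
import Fermat.Agent.Pack.S43GC.G0E3L2
import Fermat.Agent.Pack.S43GC.G0E4L2
import Fermat.Agent.Pack.S43GC.G0E4L1
import Fermat.Agent.Pack.S43GC.G0E1L0
import Fermat.Agent.Pack.S43GC.G0E1L1
import Fermat.Agent.Pack.S43GC.G0E3L0
import Fermat.Agent.Pack.S43GC.G0E0L1
import Fermat.Agent.Pack.S43GC.G0E4L0
import Fermat.Agent.Pack.S43GC.G0E5L1
import Fermat.Agent.Pack.Fast891

-- ===== PACK-BEGIN S55/H713/UnitsFiltration.lean
section


/-!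
# The filtration `W k = 1 + π^k M` of the unit group and the Galois maps on units
-/

set_option autoImplicit false
set_option linter.unusedSectionVars false

open IsLocalRing

namespace Fermat.Agent.S55.H713

variable {O : Type*} [CommRing O]
variable {G : Type*} [Group G] [MulSemiringAction G O]

section Action

/-- The action of `g` on units. -/
def actU (g : G) : Oˣ →* Oˣ :=
  Units.map ((MulSemiringAction.toRingHom G O g : O →+* O) : O →* O)

@[simp] lemma coe_actU (g : G) (u : Oˣ) : ((actU g u : Oˣ) : O) = g • (u : O) := rfl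

lemma actU_mul (g g' : G) (u : Oˣ) : actU (g * g') u = actU g (actU g' u) := by
  ext; simp [mul_smul]

lemma actU_one (u : Oˣ) : actU (1 : G) u = u := by
  ext; simp

variable [Fintype G]

/-- The norm on units. -/
noncomputable def normU (G : Type*) [Group G] [MulSemiringAction G O] [Fintype G] :
    Oˣ →* Oˣ := ∏ g : G, actU g

lemma normU_apply (u : Oˣ) : normU G u = ∏ g : G, actU g u := by
  simp [normU]

lemma coe_normU (u : Oˣ) : ((normU G u : Oˣ) : O) = ∏ g : G, g • (u : O) := by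
  rw [normU_apply, Units.coe_prod]; rfl

/-- `u ↦ σ u / u`. -/
def sigmaSubOne (σ : G) : Oˣ →* Oˣ := actU σ / MonoidHom.id _

lemma sigmaSubOne_apply (σ : G) (u : Oˣ) : sigmaSubOne σ u = actU σ u / u := rfl

lemma actU_normU (σ : G) (u : Oˣ) : actU σ (normU G u) = normU G u := by
  rw [normU_apply, map_prod]
  refine Fintype.prod_equiv (Equiv.mulLeft σ) _ _ (fun g => ?_)
  simp [actU_mul]

lemma normU_actU (σ : G) (u : Oˣ) : normU G (actU σ u) = normU G u := by
  rw [normU_apply, normU_apply]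
  refine Fintype.prod_equiv (Equiv.mulRight σ) _ _ (fun g => ?_)
  simp [actU_mul]

lemma sigmaSubOne_normU (σ : G) (u : Oˣ) : sigmaSubOne σ (normU G u) = 1 := by
  rw [sigmaSubOne_apply, actU_normU, div_self']

lemma normU_sigmaSubOne (σ : G) (u : Oˣ) : normU G (sigmaSubOne σ u) = 1 := by
  rw [sigmaSubOne_apply, map_div, normU_actU, div_self']

end Action


section Filtration

variable [IsDomain O] [IsLocalRing O] [Fintype G]
variable {σ : G} {π : O} {M : AddSubgroup O}

namespace IsGoodLattice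

variable (h : IsGoodLattice σ π M)
include h

lemma pow_mem_lat {k : ℕ} {x : O} (hx : x ∈ lat π M k) (i : ℕ) : x ^ (i + 1) ∈ lat π M k := by
  induction i with
  | zero => simpa using hx
  | succ i ih => rw [pow_succ]; exact h.lat_mul_lat_left ih hx

/-- If `u - 1 ∈ lat k` for a unit `u` then `u⁻¹ - 1 ∈ lat k`. -/
lemma inv_sub_one_mem {k : ℕ} (u : Oˣ) (hu : (u : O) - 1 ∈ lat π M k) :
    ((u⁻¹ : Oˣ) : O) - 1 ∈ lat π M k := by
  obtain ⟨j, hj⟩ := h.isOpen k
  set x : O := 1 - (u : O) with hx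
  have hxl : x ∈ lat π M k := by
    have : x = -((u : O) - 1) := by rw [hx]; ring
    rw [this]; exact (lat π M k).neg_mem hu
  have hxm : x ∈ maximalIdeal O := h.lat_le_max k x hxl
  have hgeom : (∑ i ∈ Finset.range (j + 1), x ^ i) * (u : O) = 1 - x ^ (j + 1) := by
    have h1 := geom_sum_mul x (j + 1)
    have : (u : O) = -(x - 1) := by rw [hx]; ring
    rw [this, mul_neg, h1]; ring
  have hinv : ((u⁻¹ : Oˣ) : O) =
      (∑ i ∈ Finset.range (j + 1), x ^ i) + x ^ (j + 1) * ((u⁻¹ : Oˣ) : O) := by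
    have h2 : (∑ i ∈ Finset.range (j + 1), x ^ i) * (u : O) * ((u⁻¹ : Oˣ) : O) =
        (1 - x ^ (j + 1)) * ((u⁻¹ : Oˣ) : O) := by rw [hgeom]
    rw [mul_assoc, Units.mul_inv, mul_one] at h2
    rw [h2]; ring
  have hsum : (∑ i ∈ Finset.range (j + 1), x ^ i) - 1 ∈ lat π M k := by
    rw [Finset.sum_range_succ', pow_zero, add_sub_cancel_right]
    exact (lat π M k).sum_mem (fun i _ => h.pow_mem_lat hxl i)
  have htail : x ^ (j + 1) * ((u⁻¹ : Oˣ) : O) ∈ lat π M k := by
    apply hj
    apply Ideal.mul_mem_right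
    exact Ideal.pow_le_pow_right (Nat.le_succ j) (Ideal.pow_mem_pow hxm (j + 1))
  have : ((u⁻¹ : Oˣ) : O) - 1 =
      ((∑ i ∈ Finset.range (j + 1), x ^ i) - 1) + x ^ (j + 1) * ((u⁻¹ : Oˣ) : O) := by
    nth_rewrite 1 [hinv]; ring
  rw [this]
  exact (lat π M k).add_mem hsum htail

/-- The subgroup `1 + π^k M` of `Oˣ`. -/
def W (k : ℕ) : Subgroup Oˣ where
  carrier := {u | (u : O) - 1 ∈ lat π M k}
  one_mem' := by simp
  mul_mem' := by
    intro u v hu hv
    simp only [Set.mem_ofPred_eq, Units.val_mul] at hu hv ⊢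
    have : (u : O) * v - 1 = ((u : O) - 1) + ((v : O) - 1) + ((u : O) - 1) * ((v : O) - 1) := by
      ring
    rw [this]
    exact (lat π M k).add_mem ((lat π M k).add_mem hu hv) (h.lat_mul_lat_left hu hv)
  inv_mem' := by
    intro u hu
    exact h.inv_sub_one_mem u hu

lemma mem_W {k : ℕ} {u : Oˣ} : u ∈ h.W k ↔ (u : O) - 1 ∈ lat π M k := Iff.rfl

lemma W_antitone : Antitone h.W := by
  intro i j hij u hu
  exact h.lat_antitone hij hu

lemma W_le_zero (k : ℕ) : h.W k ≤ h.W 0 := h.W_antitone (Nat.zero_le k)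

lemma sub_one_mem_M {k : ℕ} {u : Oˣ} (hu : u ∈ h.W k) : (u : O) - 1 ∈ M :=
  h.lat_le_M k hu

/-- Elements `1 + x`, `x ∈ lat k`, are units in `W k`. -/
lemma exists_unit {k : ℕ} {x : O} (hx : x ∈ lat π M k) : ∃ u ∈ h.W k, (u : O) = 1 + x := by
  have hu : IsUnit (1 + x) := by
    have := isUnit_one_sub_self_of_mem_nonunits (-x)
      (by rw [← mem_maximalIdeal]; exact neg_mem (h.lat_le_max k x hx))
    simpa using this
  refine ⟨hu.unit, ?_, rfl⟩
  rw [mem_W]
  simpa using hx

lemma actU_mem_W (g : G) {k : ℕ} {u : Oˣ} (hu : u ∈ h.W k) : actU g u ∈ h.W k := by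
  rw [mem_W] at hu ⊢
  have : ((actU g u : Oˣ) : O) - 1 = g • ((u : O) - 1) := by
    simp [smul_sub]
  rw [this]
  exact h.smul_mem_lat g hu

lemma normU_mem_W {k : ℕ} {u : Oˣ} (hu : u ∈ h.W k) : normU G u ∈ h.W k := by
  rw [normU_apply]
  exact Subgroup.prod_mem _ (fun g _ => h.actU_mem_W g hu)

lemma sigmaSubOne_mem_W {k : ℕ} {u : Oˣ} (hu : u ∈ h.W k) : sigmaSubOne σ u ∈ h.W k := by
  rw [sigmaSubOne_apply]
  exact (h.W k).div_mem (h.actU_mem_W σ hu) hu

/-- `u / v - 1 ∈ lat k` as soon as `u - v ∈ lat k` and `v ∈ W 0`. -/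
lemma div_mem_W {k : ℕ} {u v : Oˣ} (hv : v ∈ h.W 0) (huv : (u : O) - v ∈ lat π M k) :
    u / v ∈ h.W k := by
  rw [mem_W]
  have hvi : v⁻¹ ∈ h.W 0 := (h.W 0).inv_mem hv
  have : ((u / v : Oˣ) : O) - 1 = ((u : O) - v) * ((v⁻¹ : Oˣ) : O) := by
    rw [div_eq_mul_inv, Units.val_mul, sub_mul, Units.mul_inv]
  rw [this]
  exact h.lat_mul_one_add huv (h.sub_one_mem_M hvi)

/-- Conversely. -/
lemma sub_mem_of_div_mem_W {k : ℕ} {u v : Oˣ} (hv : v ∈ h.W 0) (huv : u / v ∈ h.W k) :
    (u : O) - v ∈ lat π M k := by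
  rw [mem_W] at huv
  have : (u : O) - v = (((u / v : Oˣ) : O) - 1) * (v : O) := by
    rw [div_eq_mul_inv, Units.val_mul, sub_mul, mul_assoc, Units.inv_mul, mul_one, one_mul]
  rw [this]
  exact h.lat_mul_one_add huv (h.sub_one_mem_M hv)

end IsGoodLattice

end Filtration

end Fermat.Agent.S55.H713

end
-- ===== PACK-END S55/H713/UnitsFiltration.lean

-- ===== PACK-BEGIN S55/H604/SUnitSpan.lean
section


/-!
# S55 / HQU (B4): the logarithmic image of the `S`-units spans the sum-zero hyperplane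
-/

set_option autoImplicit false

open NumberField IsDedekindDomain

namespace Fermat.Agent.S55.H604

variable (L : Type*) [Field L] [NumberField L] (S : Finset (HeightOneSpectrum (𝓞 L)))

/-- The sum-zero hyperplane of `ℝ^(∞ ⊔ S)`. -/
noncomputable def hyperplane : Submodule ℝ (PlaceIdx L S → ℝ) :=
  LinearMap.ker (∑ t : PlaceIdx L S, LinearMap.proj t : (PlaceIdx L S → ℝ) →ₗ[ℝ] ℝ)

lemma mem_hyperplane {f : PlaceIdx L S → ℝ} : f ∈ hyperplane L S ↔ ∑ t, f t = 0 := by
  simp [hyperplane, LinearMap.mem_ker, LinearMap.sum_apply]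

variable {L}

lemma valuation_unit_eq_one (v : HeightOneSpectrum (𝓞 L)) (u : (𝓞 L)ˣ) :
    v.valuation L (((u : 𝓞 L) : L)) = 1 := by
  rw [HeightOneSpectrum.valuation_eq_one_iff_notMem]
  intro h
  exact v.isPrime.ne_top (Ideal.eq_top_of_isUnit_mem _ h u.isUnit)

variable (L)

/-- units of `𝓞 L` as `S`-units. -/
noncomputable def unitToSUnit : (𝓞 L)ˣ →* SUnit L S :=
  (Units.map ((algebraMap (𝓞 L) L : 𝓞 L →+* L) : 𝓞 L →* L)).codRestrict (SUnit L S)
    (fun u v _ => valuation_unit_eq_one v u)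

@[simp] lemma coe_unitToSUnit (u : (𝓞 L)ˣ) :
    (((unitToSUnit L S u : SUnit L S) : Lˣ) : L) = ((u : 𝓞 L) : L) := rfl

lemma logS_unit_inl (u : (𝓞 L)ˣ) (w : InfinitePlace L) :
    logS L S (Additive.ofMul (unitToSUnit L S u)) (Sum.inl w) =
      (w.mult : ℝ) * Real.log (w ((u : 𝓞 L) : L)) := rfl

lemma logS_unit_inr (u : (𝓞 L)ˣ) (v : {v : HeightOneSpectrum (𝓞 L) // v ∈ S}) :
    logS L S (Additive.ofMul (unitToSUnit L S u)) (Sum.inr v) = 0 := by
  rw [logS_apply, logComp_inr]
  have : FinitePlace.mk v.1 (((u : 𝓞 L) : L)) = 1 :=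
    (finitePlace_mk_eq_one_iff v.1 _).2 (valuation_unit_eq_one v.1 u)
  simp only [toMul_ofMul, coe_unitToSUnit]
  rw [this, Real.log_one]


variable {L}

lemma finitePlace_mk_lt_one_iff (v : HeightOneSpectrum (𝓞 L)) (x : L) :
    FinitePlace.mk v x < 1 ↔ v.valuation L x < 1 := by
  rw [lt_iff_le_and_ne, lt_iff_le_and_ne, finitePlace_mk_le_one_iff, Ne, Ne,
    finitePlace_mk_eq_one_iff]

/-- a generator of a power of the prime `v`: an element of `𝓞 L` which is a non-unit exactly
at `v`. -/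
lemma exists_generator_pow (v : HeightOneSpectrum (𝓞 L)) :
    ∃ a : 𝓞 L, a ≠ 0 ∧ v.valuation L (a : L) < 1 ∧
      ∀ v' : HeightOneSpectrum (𝓞 L), v' ≠ v → v'.valuation L (a : L) = 1 := by
  classical
  set h : ℕ := Fintype.card (ClassGroup (𝓞 L)) with hh
  have hpos : 0 < h := Fintype.card_pos
  have hI0 : v.asIdeal ≠ ⊥ := v.ne_bot
  have hmem : v.asIdeal ∈ nonZeroDivisors (Ideal (𝓞 L)) := mem_nonZeroDivisors_of_ne_zero hI0
  have hmemh : v.asIdeal ^ h ∈ nonZeroDivisors (Ideal (𝓞 L)) := pow_mem hmem h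
  have hprinc : (v.asIdeal ^ h).IsPrincipal := by
    rw [← ClassGroup.mk0_eq_one_iff hmemh]
    have : (⟨v.asIdeal ^ h, hmemh⟩ : nonZeroDivisors (Ideal (𝓞 L))) = ⟨v.asIdeal, hmem⟩ ^ h := by
      ext; rfl
    rw [this, map_pow, hh]
    exact pow_card_eq_one
  obtain ⟨a, ha⟩ := hprinc.principal
  have ha' : v.asIdeal ^ h = Ideal.span {a} := ha
  have ha0 : a ≠ 0 := by
    rintro rfl
    have : v.asIdeal ^ h = ⊥ := by rw [ha']; simp
    exact hI0 (pow_eq_zero_iff hpos.ne' |>.1 this)
  have key : ∀ v' : HeightOneSpectrum (𝓞 L), a ∈ v'.asIdeal ↔ v' = v := by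
    intro v'
    rw [← Ideal.span_singleton_le_iff_mem, ← ha', Ideal.IsPrime.pow_le_iff hpos.ne']
    constructor
    · intro hle
      exact HeightOneSpectrum.ext (v.isMaximal.eq_of_le v'.isPrime.ne_top hle).symm
    · rintro rfl
      exact le_rfl
  refine ⟨a, ha0, ?_, ?_⟩
  · rw [HeightOneSpectrum.valuation_lt_one_iff_mem]
    exact (key v).2 rfl
  · intro v' hv'
    rw [HeightOneSpectrum.valuation_eq_one_iff_notMem]
    exact fun hm => hv' ((key v').1 hm)

variable (L)

/-- for `v ∈ S` there is an `S`-unit whose logarithm is nonzero at `v` and zero at the other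
places of `S`. -/
lemma exists_sUnit_single (v : {v : HeightOneSpectrum (𝓞 L) // v ∈ S}) :
    ∃ x : Additive (SUnit L S), logS L S x (Sum.inr v) ≠ 0 ∧
      ∀ v' : {v : HeightOneSpectrum (𝓞 L) // v ∈ S}, v' ≠ v → logS L S x (Sum.inr v') = 0 := by
  obtain ⟨a, ha0, ha1, ha2⟩ := exists_generator_pow v.1
  have haL : ((a : 𝓞 L) : L) ≠ 0 := by
    simp [ha0]
  have hmem : Units.mk0 ((a : 𝓞 L) : L) haL ∈ SUnit L S := by
    intro v' hv'
    refine ha2 v' ?_
    rintro rfl
    exact hv' (Finset.mem_coe.2 v.2)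
  refine ⟨Additive.ofMul ⟨Units.mk0 _ haL, hmem⟩, ?_, ?_⟩
  · rw [logS_apply, logComp_inr]
    simp only [toMul_ofMul, Units.val_mk0]
    have h1 : FinitePlace.mk v.1 ((a : 𝓞 L) : L) < 1 := (finitePlace_mk_lt_one_iff v.1 _).2 ha1
    exact (Real.log_neg (finitePlace_mk_pos v.1 haL) h1).ne
  · intro v' hv'
    rw [logS_apply, logComp_inr]
    simp only [toMul_ofMul, Units.val_mk0]
    have h1 : FinitePlace.mk v'.1 ((a : 𝓞 L) : L) = 1 :=
      (finitePlace_mk_eq_one_iff v'.1 _).2 (ha2 v'.1 (fun h => hv' (Subtype.ext h)))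
    rw [h1, Real.log_one]


open NumberField.Units NumberField.Units.dirichletUnitTheorem in
/-- restriction of a function on `∞ ⊔ S` to the infinite places different from `w₀`. -/
noncomputable def restrictInf : (PlaceIdx L S → ℝ) →ₗ[ℝ] logSpace L :=
  LinearMap.funLeft ℝ ℝ (fun w : {w : InfinitePlace L // w ≠ w₀} => (Sum.inl w.1 : PlaceIdx L S))

open NumberField.Units NumberField.Units.dirichletUnitTheorem in
lemma restrictInf_apply (f : PlaceIdx L S → ℝ) (w : {w : InfinitePlace L // w ≠ w₀}) :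
    restrictInf L S f w = f (Sum.inl w.1) := rfl

open NumberField.Units NumberField.Units.dirichletUnitTheorem in
lemma restrictInf_logS_unit (u : (𝓞 L)ˣ) :
    restrictInf L S (logS L S (Additive.ofMul (unitToSUnit L S u))) =
      logEmbedding L (Additive.ofMul u) := rfl

/-- the span of the logarithms of the units. -/
noncomputable def unitSpan : Submodule ℝ (PlaceIdx L S → ℝ) :=
  Submodule.span ℝ (Set.range fun u : (𝓞 L)ˣ => logS L S (Additive.ofMul (unitToSUnit L S u)))

lemma unitSpan_le : unitSpan L S ≤ Submodule.span ℝ (Set.range (logS L S)) := by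
  refine Submodule.span_mono ?_
  rintro _ ⟨u, rfl⟩
  exact ⟨_, rfl⟩

lemma span_logS_le : Submodule.span ℝ (Set.range (logS L S)) ≤ hyperplane L S := by
  rw [Submodule.span_le]
  rintro _ ⟨x, rfl⟩
  exact (mem_hyperplane L S).2 (sum_logS L S x)

lemma unitSpan_inr {f : PlaceIdx L S → ℝ} (hf : f ∈ unitSpan L S)
    (v : {v : HeightOneSpectrum (𝓞 L) // v ∈ S}) : f (Sum.inr v) = 0 := by
  have hle : unitSpan L S ≤ LinearMap.ker (LinearMap.proj (Sum.inr v : PlaceIdx L S) :
      (PlaceIdx L S → ℝ) →ₗ[ℝ] ℝ) := by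
    rw [unitSpan, Submodule.span_le]
    rintro _ ⟨u, rfl⟩
    exact logS_unit_inr L S u v
  exact hle hf

open NumberField.Units NumberField.Units.dirichletUnitTheorem in
lemma map_restrictInf_unitSpan : Submodule.map (restrictInf L S) (unitSpan L S) = ⊤ := by
  rw [unitSpan, Submodule.map_span, ← Set.range_comp]
  rw [eq_top_iff, ← unitLattice_span_eq_top L]
  refine Submodule.span_mono ?_
  rintro _ ⟨x, -, rfl⟩
  exact ⟨Additive.toMul x, rfl⟩

open NumberField.Units NumberField.Units.dirichletUnitTheorem in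
/-- a sum-zero function vanishing on `S` is in the span of the logarithms of units. -/
lemma mem_unitSpan_of_inr_eq_zero {f : PlaceIdx L S → ℝ} (hf : f ∈ hyperplane L S)
    (hS : ∀ v, f (Sum.inr v) = 0) : f ∈ unitSpan L S := by
  classical
  have h1 : restrictInf L S f ∈ Submodule.map (restrictInf L S) (unitSpan L S) := by
    rw [map_restrictInf_unitSpan]; trivial
  obtain ⟨g, hg, hgf⟩ := h1
  have hgH : g ∈ hyperplane L S := span_logS_le L S (unitSpan_le L S hg)
  suffices f = g by rw [this]; exact hg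
  have hd : ∀ t : PlaceIdx L S, t ≠ Sum.inl w₀ → (f - g) t = 0 := by
    intro t ht
    cases t with
    | inl w =>
      have hw : w ≠ w₀ := fun h => ht (by rw [h])
      have := congrFun hgf ⟨w, hw⟩
      simp only [restrictInf_apply] at this
      simp [this]
    | inr v => simp [hS v, unitSpan_inr L S hg v]
  have hsum : ∑ t, (f - g) t = 0 := by
    have := (mem_hyperplane L S).1 (Submodule.sub_mem _ hf hgH)
    exact this
  rw [Finset.sum_eq_single (Sum.inl w₀ : PlaceIdx L S) (fun t _ ht => hd t ht)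
    (fun h => absurd (Finset.mem_univ _) h)] at hsum
  funext t
  by_cases ht : t = Sum.inl w₀
  · rw [ht]; exact sub_eq_zero.1 hsum
  · exact sub_eq_zero.1 (hd t ht)

/-- **(B4)** the logarithms of the `S`-units span the sum-zero hyperplane. -/
theorem span_logS : Submodule.span ℝ (Set.range (logS L S)) = hyperplane L S := by
  classical
  refine le_antisymm (span_logS_le L S) ?_
  intro f hf
  choose x hx1 hx2 using exists_sUnit_single L S
  set W := Submodule.span ℝ (Set.range (logS L S)) with hW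
  have hxW : ∀ v, logS L S (x v) ∈ W := fun v => Submodule.subset_span ⟨_, rfl⟩
  set g : PlaceIdx L S → ℝ :=
    ∑ v : {v : HeightOneSpectrum (𝓞 L) // v ∈ S},
      (f (Sum.inr v) / logS L S (x v) (Sum.inr v)) • logS L S (x v) with hg
  have hgW : g ∈ W := Submodule.sum_mem _ fun v _ => Submodule.smul_mem _ _ (hxW v)
  have hgS : ∀ v, g (Sum.inr v) = f (Sum.inr v) := by
    intro v
    rw [hg, Finset.sum_apply, Finset.sum_eq_single v]
    · simp only [Pi.smul_apply, smul_eq_mul]
      exact div_mul_cancel₀ _ (hx1 v)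
    · intro v' _ hv'
      simp only [Pi.smul_apply, smul_eq_mul]
      rw [hx2 v' v (Ne.symm hv'), mul_zero]
    · intro h; exact absurd (Finset.mem_univ _) h
  have hfg : f - g ∈ unitSpan L S := by
    refine mem_unitSpan_of_inr_eq_zero L S
      (Submodule.sub_mem _ hf (span_logS_le L S hgW)) fun v => ?_
    simp [hgS v]
  have := Submodule.add_mem _ (unitSpan_le L S hfg) hgW
  simpa using this

end Fermat.Agent.S55.H604

end
-- ===== PACK-END S55/H604/SUnitSpan.lean

-- ===== PACK-BEGIN S55/G/HerbrandRel.lean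
section
/-
S55, layer G, block G-U (helper595): relative Herbrand calculus in helper895's vocabulary
(`hIndex`, `hIndexSub`).  Everything here is about an ambient additive commutative group `B`
with two endomorphisms `f g` and stable subgroups.

* `hIndexSub_six`            : six-factor form of `0 → ker φ ∩ U → U → φ(U) → 0`;
* `hIndexSub_of_finite_ker`  : finite kernel part ⇒ same Herbrand quotient;
* `hIndexSub_of_finite_index`: finite-index subgroup ⇒ same Herbrand quotient;
* `hIndexSub_map_of_injective`: transport along an injective equivariant map.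
-/




set_option autoImplicit false

namespace Fermat.Agent.S55.G

open Fermat.Agent.S55.Herbrand Fermat.Agent.S55.H595

variable {B C : Type*} [AddCommGroup B] [AddCommGroup C]

lemma hIndexSub_eq_rhIdx (f g : B →+ B) (A : AddSubgroup B) :
    hIndexSub f g A = rhIdx f g A := by
  unfold hIndexSub rhIdx
  rw [inf_comm]

lemma hIndex_eq_hIdx (f g : B →+ B) : hIndex f g = hIdx f g := rfl

lemma hIndexSub_top (f g : B →+ B) : hIndexSub f g ⊤ = hIndex f g := by
  rw [hIndexSub_eq_rhIdx, rhIdx_top, hIndex_eq_hIdx]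

/-- Six-factor form of the exact sequence `0 → ker φ ∩ U → U → φ(U) → 0`. -/
theorem hIndexSub_six (f g : B →+ B) (f' g' : C →+ C) (φ : B →+ C)
    (hφf : ∀ b, φ (f b) = f' (φ b)) (hφg : ∀ b, φ (g b) = g' (φ b))
    (U : AddSubgroup B) (hUf : ∀ x ∈ U, f x ∈ U) (hUg : ∀ x ∈ U, g x ∈ U)
    (hfg : ∀ b ∈ U, f (g b) = 0) (hgf : ∀ b ∈ U, g (f b) = 0) :
    ∃ Ef Eg w y w' y' : ℕ,
      hIndexSub f g (φ.ker ⊓ U) = Eg * w ∧ hIndexSub f g U = w * y ∧
      hIndexSub f' g' (U.map φ) = Ef * y ∧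
      hIndexSub g f (φ.ker ⊓ U) = Ef * w' ∧ hIndexSub g f U = w' * y' ∧
      hIndexSub g' f' (U.map φ) = Eg * y' := by
  simp only [hIndexSub_eq_rhIdx]
  exact rh_exact f g f' g' φ hφf hφg U hUf hUg hfg hgf

/-- Finite kernel part: `U` and `φ(U)` have the same Herbrand quotient. -/
theorem hIndexSub_of_finite_ker (f g : B →+ B) (f' g' : C →+ C) (φ : B →+ C)
    (hφf : ∀ b, φ (f b) = f' (φ b)) (hφg : ∀ b, φ (g b) = g' (φ b))
    (U : AddSubgroup B) (hUf : ∀ x ∈ U, f x ∈ U) (hUg : ∀ x ∈ U, g x ∈ U)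
    (hfg : ∀ b ∈ U, f (g b) = 0) (hgf : ∀ b ∈ U, g (f b) = 0)
    (hfin : Finite ↥(φ.ker ⊓ U)) :
    ((hIndexSub f g U ≠ 0 ∧ hIndexSub g f U ≠ 0) ↔
        (hIndexSub f' g' (U.map φ) ≠ 0 ∧ hIndexSub g' f' (U.map φ) ≠ 0)) ∧
      hIndexSub f g U * hIndexSub g' f' (U.map φ) =
        hIndexSub g f U * hIndexSub f' g' (U.map φ) := by
  simp only [hIndexSub_eq_rhIdx]
  exact rh_of_finite_ker f g f' g' φ hφf hφg U hUf hUg hfg hgf hfin

/-- Finite index: `U ≤ W` stable with `[W : U]` finite have the same Herbrand quotient. -/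
theorem hIndexSub_of_finite_index (f g : B →+ B) (U W : AddSubgroup B) (hUW : U ≤ W)
    (hidx : U.relIndex W ≠ 0)
    (hUf : ∀ x ∈ U, f x ∈ U) (hUg : ∀ x ∈ U, g x ∈ U)
    (hWf : ∀ x ∈ W, f x ∈ W) (hWg : ∀ x ∈ W, g x ∈ W)
    (hfg : ∀ b ∈ W, f (g b) = 0) (hgf : ∀ b ∈ W, g (f b) = 0) :
    ((hIndexSub f g U ≠ 0 ∧ hIndexSub g f U ≠ 0) ↔
        (hIndexSub f g W ≠ 0 ∧ hIndexSub g f W ≠ 0)) ∧
      hIndexSub f g U * hIndexSub g f W = hIndexSub g f U * hIndexSub f g W := by
  simp only [hIndexSub_eq_rhIdx]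
  exact rh_of_finite_index f g U W hUW hidx hUf hUg hWf hWg hfg hgf

/-- Transport of relative Herbrand indices along an injective equivariant map. -/
theorem hIndexSub_map_of_injective (f g : B →+ B) (f' g' : C →+ C) (ι : B →+ C)
    (hι : Function.Injective ι)
    (hf : ∀ b, ι (f b) = f' (ι b)) (hg : ∀ b, ι (g b) = g' (ι b)) (A : AddSubgroup B) :
    hIndexSub f' g' (A.map ι) = hIndexSub f g A := by
  unfold hIndexSub
  rw [← AddSubgroup.relIndex_map_map_of_injective _ _ hι]
  congr 1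
  · ext x
    simp only [AddSubgroup.mem_map]
    constructor
    · rintro ⟨_, ⟨a, ha, rfl⟩, rfl⟩
      exact ⟨g a, ⟨a, ha, rfl⟩, hg a⟩
    · rintro ⟨_, ⟨a, ha, rfl⟩, rfl⟩
      exact ⟨ι a, ⟨a, ha, rfl⟩, (hg a).symm⟩
  · ext x
    simp only [AddSubgroup.mem_map, AddSubgroup.mem_inf, AddMonoidHom.mem_ker]
    constructor
    · rintro ⟨⟨a, ha, rfl⟩, hx⟩
      refine ⟨a, ⟨ha, hι ?_⟩, rfl⟩
      rw [hf, hx, map_zero]
    · rintro ⟨a, ⟨ha, hx⟩, rfl⟩
      exact ⟨⟨a, ha, rfl⟩, by rw [← hf, hx, map_zero]⟩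

end Fermat.Agent.S55.G

end
-- ===== PACK-END S55/G/HerbrandRel.lean

-- ===== PACK-BEGIN S14/H163/ZetaBounds.lean
section




/-!
# S14 density: piece (Z) `ZetaBounds` of helper34's interface (helper163)
-/

set_option autoImplicit false
set_option linter.unusedSectionVars false

namespace Fermat.Agent.S14.H163

open NumberField IsDedekindDomain Filter Topology
open scoped nonZeroDivisors

variable (K : Type*) [Field K] [NumberField K]

theorem zetaI_eq_zetaR (s : ℝ) : H34.zetaI K s = zetaR K s := rfl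

theorem primeNZ_eq_toI0 (v : HeightOneSpectrum (𝓞 K)) : H34.primeNZ v = toI0 v := rfl

theorem pN_eq (s : ℝ) (v : HeightOneSpectrum (𝓞 K)) : H34.pN s v = normPow s (toI0 v) := rfl

/-- Piece (Z): two-sided bound for the zeta function near `1`. -/
theorem zetaBounds : H34.ZetaBounds K := by
  have h := tendsto_sub_one_mul_zetaR K
  have hκ := dedekindZeta_residue_pos K
  set κ := dedekindZeta_residue K with hκdef
  have hev : ∀ᶠ s in 𝓝[>] (1 : ℝ), (s - 1) * zetaR K s ∈ Set.Ioo (κ / 2) (2 * κ) :=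
    h.eventually (Ioo_mem_nhds (by linarith) (by linarith))
  rw [eventually_nhdsWithin_iff, Metric.eventually_nhds_iff] at hev
  obtain ⟨δ, hδ, hδ'⟩ := hev
  refine ⟨κ / 2, 2 * κ, δ, by linarith, hδ, fun s hs1 hs2 => ?_⟩
  have hmem := hδ' (y := s) (by rw [Real.dist_eq, abs_lt]; constructor <;> linarith)
    (Set.mem_Ioi.mpr hs1)
  have hpos : 0 < s - 1 := by linarith
  rw [zetaI_eq_zetaR]
  constructor
  · rw [div_le_iff₀ hpos]
    linarith [hmem.1]
  · rw [le_div_iff₀ hpos]
    linarith [hmem.2]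

end Fermat.Agent.S14.H163

end
-- ===== PACK-END S14/H163/ZetaBounds.lean

-- ===== PACK-BEGIN S55/H413/WRNormP.lean
section




/-!
# S55, leaf WR, part 3c: the norm group of `ℚ_p(ζ_{p^(n+1)})/ℚ_p`

For an odd prime `p` and a cyclotomic extension `F/ℚ_[p]` of level `p ^ (n + 1)`:
* `ker (wildChar p (n+1)) ≤ N(Fˣ)` unconditionally (`p = N(ζ - 1)`, and units `≡ 1 mod p^(n+1)`
  are `φ(p^(n+1))`-th powers, hence norms);
* `wildChar` is surjective, so its kernel has index `φ(p^(n+1)) = [F : ℚ_p]`;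
* hence `N(Fˣ) = ker (wildChar p (n+1))` as soon as the local norm index theorem
  `[ℚ_pˣ : N(Fˣ)] = [F : ℚ_p]` is known (hypothesis `hNI`; this is the instance `K = ℚ_[p]`,
  `L = F` of `Fermat.Agent.S55.L.NormIndexCyclicSpec`).
-/

set_option autoImplicit false

namespace Fermat.Agent.S55.H413

open Polynomial

variable (p : ℕ) [hp : Fact p.Prime]

/-- The inclusion `ℤ_[p]ˣ → ℚ_[p]ˣ`. -/
noncomputable def padicIntUnitsToPadic : ℤ_[p]ˣ →* ℚ_[p]ˣ :=
  Units.map (PadicInt.Coe.ringHom (p := p)).toMonoidHom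

@[simp] lemma coe_padicIntUnitsToPadic (w : ℤ_[p]ˣ) :
    ((padicIntUnitsToPadic p w : ℚ_[p]ˣ) : ℚ_[p]) = ((w : ℤ_[p]) : ℚ_[p]) := rfl

lemma valuation_eq_zero_of_norm_eq_one {x : ℚ_[p]} (hx : ‖x‖ = 1) : x.valuation = 0 := by
  have hx0 : x ≠ 0 := by
    rintro rfl
    simp at hx
  rw [Padic.norm_eq_zpow_neg_valuation hx0] at hx
  have hp1 : (1 : ℝ) < p := by exact_mod_cast hp.out.one_lt
  have := (zpow_eq_one_iff_right₀ (by linarith : (0 : ℝ) ≤ p) hp1.ne').mp hx
  omega

lemma unitPart_padicIntUnitsToPadic (w : ℤ_[p]ˣ) : unitPart p (padicIntUnitsToPadic p w) = w := by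
  apply Units.ext
  apply Subtype.ext
  rw [coe_unitPart, coe_padicIntUnitsToPadic,
    valuation_eq_zero_of_norm_eq_one p (by simp)]
  simp

/-- Units of `ZMod (p ^ m)` lift to units of `ℤ_[p]` (for `m ≥ 1`). -/
lemma exists_padicInt_unit_toZModPow (m : ℕ) (hm : 0 < m) (c : (ZMod (p ^ m))ˣ) :
    ∃ w : ℤ_[p]ˣ, PadicInt.toZModPow m (w : ℤ_[p]) = (c : ZMod (p ^ m)) := by
  have : NeZero (p ^ m) := ⟨(pow_pos hp.out.pos m).ne'⟩
  set a : ℤ_[p] := ((c : ZMod (p ^ m)).val : ℤ_[p]) with ha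
  have hac : PadicInt.toZModPow m a = (c : ZMod (p ^ m)) := by
    rw [ha, map_natCast, ZMod.natCast_zmod_val]
  have haunit : IsUnit a := by
    rw [PadicInt.isUnit_iff]
    refine le_antisymm (PadicInt.norm_le_one _) ?_
    by_contra hlt
    rw [not_le, PadicInt.norm_lt_one_iff_dvd] at hlt
    obtain ⟨b, hb⟩ := hlt
    have h1 : (c : ZMod (p ^ m)) = (p : ZMod (p ^ m)) * PadicInt.toZModPow m b := by
      rw [← hac, hb, map_mul, map_natCast]
    have h2 : IsUnit (p : ZMod (p ^ m)) := by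
      have hc : IsUnit ((p : ZMod (p ^ m)) * PadicInt.toZModPow m b) := by
        rw [← h1]; exact c.isUnit
      exact isUnit_of_mul_isUnit_left hc
    have h3 : (p : ZMod (p ^ m)) ^ m = 0 := by
      have h5 : ((p ^ m : ℕ) : ZMod (p ^ m)) = 0 := ZMod.natCast_self _
      rw [Nat.cast_pow] at h5
      exact h5
    have h4 : IsUnit ((p : ZMod (p ^ m)) ^ m) := h2.pow m
    rw [h3] at h4
    have : Nontrivial (ZMod (p ^ m)) :=
      ZMod.nontrivial_iff.mpr (Nat.one_lt_pow hm.ne' hp.out.one_lt).ne'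
    exact not_isUnit_zero h4
  exact ⟨haunit.unit, by rw [IsUnit.unit_spec, hac]⟩

lemma wildChar_surjective (m : ℕ) (hm : 0 < m) : Function.Surjective (wildChar p m) := by
  intro c
  obtain ⟨w, hw⟩ := exists_padicInt_unit_toZModPow p m hm c⁻¹
  refine ⟨padicIntUnitsToPadic p w, ?_⟩
  rw [wildChar_apply, inv_eq_iff_eq_inv]
  apply Units.ext
  rw [coe_unitResidue, unitPart_padicIntUnitsToPadic, hw]

lemma index_ker_wildChar (m : ℕ) (hm : 0 < m) : (wildChar p m).ker.index = (p ^ m).totient := by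
  have : NeZero (p ^ m) := ⟨(pow_pos hp.out.pos m).ne'⟩
  rw [Subgroup.index_ker, MonoidHom.range_eq_top.mpr (wildChar_surjective p m hm),
    Subgroup.card_top, Nat.card_eq_fintype_card, ZMod.card_units_eq_totient]

lemma mem_ker_wildChar_iff (m : ℕ) (x : ℚ_[p]ˣ) :
    x ∈ (wildChar p m).ker ↔ PadicInt.toZModPow m ((unitPart p x : ℤ_[p]ˣ) : ℤ_[p]) = 1 := by
  rw [MonoidHom.mem_ker, wildChar_apply, inv_eq_one, ← coe_unitResidue]
  exact ⟨fun h => by rw [h]; rfl, fun h => Units.ext (by rw [h]; rfl)⟩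

section Cyclotomic

variable (n : ℕ) (F : Type*) [Field F] [Algebra ℚ_[p] F]
  [IsCyclotomicExtension {p ^ (n + 1)} ℚ_[p] F]

/-- The norm group of `F/ℚ_p`. -/
noncomputable abbrev normRange : Subgroup ℚ_[p]ˣ :=
  MonoidHom.range (Units.map (Algebra.norm ℚ_[p] : F →* ℚ_[p]))

lemma finrank_cyclotomic_padic : Module.finrank ℚ_[p] F = (p ^ (n + 1)).totient :=
  IsCyclotomicExtension.finrank F (irreducible_cyclotomic_padic p n)

/-- `ker (wildChar) ≤ N(Fˣ)`: unconditional. -/
theorem ker_wildChar_le_normRange (hp2 : p ≠ 2) :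
    (wildChar p (n + 1)).ker ≤ normRange p F := by
  have : NeZero (p ^ (n + 1)) := ⟨(pow_pos hp.out.pos _).ne'⟩
  have : FiniteDimensional ℚ_[p] F :=
    IsCyclotomicExtension.finiteDimensional {p ^ (n + 1)} ℚ_[p] F
  have hirr := irreducible_cyclotomic_padic p n
  have hζ := IsCyclotomicExtension.zeta_spec (p ^ (n + 1)) ℚ_[p] F
  set ζ := IsCyclotomicExtension.zeta (p ^ (n + 1)) ℚ_[p] F with hζdef
  have hnorm : Algebra.norm ℚ_[p] (ζ - 1) = (p : ℚ_[p]) :=
    hζ.norm_sub_one_of_prime_ne_two hirr hp2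
  have hζ1 : ζ - 1 ≠ 0 :=
    hζ.sub_one_ne_zero (Nat.one_lt_pow (Nat.succ_ne_zero n) hp.out.one_lt)
  intro x hx
  rw [mem_ker_wildChar_iff] at hx
  obtain ⟨w, hw⟩ := exists_pow_totient_eq p hp2 (n + 1) (Nat.succ_pos n) (unitPart p x) hx
  -- the preimage
  set N : Fˣ →* ℚ_[p]ˣ := Units.map (Algebra.norm ℚ_[p] : F →* ℚ_[p]) with hN
  set wF : Fˣ := Units.map (algebraMap ℚ_[p] F : ℚ_[p] →* F) (padicIntUnitsToPadic p w) with hwF
  set π : Fˣ := Units.mk0 (ζ - 1) hζ1 with hπ
  have hNw : N wF = padicIntUnitsToPadic p (unitPart p x) := by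
    apply Units.ext
    rw [hN, Units.coe_map, hwF, Units.coe_map]
    show Algebra.norm ℚ_[p] (algebraMap ℚ_[p] F ((w : ℤ_[p]) : ℚ_[p])) = _
    rw [Algebra.norm_algebraMap, finrank_cyclotomic_padic p n F, ← hw]
    simp
  have hNπ : ((N π : ℚ_[p]ˣ) : ℚ_[p]) = (p : ℚ_[p]) := by
    rw [hN, Units.coe_map, hπ, Units.val_mk0]
    exact hnorm
  refine ⟨wF * π ^ (x : ℚ_[p]).valuation, ?_⟩
  rw [map_mul, map_zpow, hNw]
  apply Units.ext
  rw [Units.val_mul, Units.val_zpow_eq_zpow_val, hNπ, coe_padicIntUnitsToPadic]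
  exact (eq_unitPart_mul p x).symm

/-- **The norm group of `ℚ_p(ζ_{p^(n+1)})/ℚ_p`** is the kernel of the explicit character
`wildChar`, given the local norm index theorem for this (cyclic) extension. -/
theorem normRange_eq_ker_wildChar (hp2 : p ≠ 2)
    (hNI : (normRange p F).index = Module.finrank ℚ_[p] F) :
    normRange p F = (wildChar p (n + 1)).ker := by
  have hle := ker_wildChar_le_normRange p n F hp2
  have h1 := Subgroup.relIndex_mul_index hle
  rw [hNI, finrank_cyclotomic_padic p n F, index_ker_wildChar p (n + 1) (Nat.succ_pos n)] at h1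
  have hpos : 0 < (p ^ (n + 1)).totient := Nat.totient_pos.mpr (pow_pos hp.out.pos _)
  have h2 : (wildChar p (n + 1)).ker.relIndex (normRange p F) = 1 := by
    have : (wildChar p (n + 1)).ker.relIndex (normRange p F) * (p ^ (n + 1)).totient =
        1 * (p ^ (n + 1)).totient := by rw [h1, one_mul]
    exact Nat.eq_of_mul_eq_mul_right hpos this
  exact le_antisymm (Subgroup.relIndex_eq_one.mp h2) hle

end Cyclotomic

end Fermat.Agent.S55.H413

end
-- ===== PACK-END S55/H413/WRNormP.lean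

-- ===== PACK-BEGIN S14/H714/Trans.lean
section


/-!
# S14, block LOCAL (helper714): transitivity and residual surjectivity

For an intermediate field `F` of `ℚ̄/ℚ` and valuation subrings of `ℚ̄` above a prime `ℓ`:
* `exists_smul_eq_of_inter_eq` (T1): two valuation subrings with the same trace on `F` are
  conjugate under `Gal(ℚ̄/F)`;
* `exists_residue_eq` (T2): an element of the decomposition group acting trivially on the residue
  field of `F` agrees on the residue field of `ℚ̄` with an element of `Gal(ℚ̄/F)` in the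
  decomposition group.
-/

set_option autoImplicit false
set_option linter.style.haveILetI false
set_option linter.unusedSectionVars false
set_option linter.unusedVariables false

namespace Fermat.Agent.S14.H714

open scoped Pointwise

variable (F : IntermediateField ℚ Qb)

instance instCompactSpaceFixingSubgroup : CompactSpace F.fixingSubgroup :=
  isCompact_iff_compactSpace.mp (InfiniteGalois.fixingSubgroup_isClosed F).isCompact

instance instIsInvariantFixingSubgroup :
    Algebra.IsInvariant (FixedPoints.subalgebra ℤ Zbar F.fixingSubgroup) Zbar F.fixingSubgroup :=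
  ⟨fun b hb => ⟨⟨b, hb⟩, rfl⟩⟩

/-- An algebraic integer fixed by `Gal(ℚ̄/F)` lies in `F`. -/
theorem coe_mem_of_mem_fixedPoints (r : FixedPoints.subalgebra ℤ Zbar F.fixingSubgroup) :
    ((r : Zbar) : Qb) ∈ F := by
  have h1 : ((r : Zbar) : Qb) ∈ IntermediateField.fixedField F.fixingSubgroup := by
    rw [IntermediateField.mem_fixedField_iff]
    intro σ hσ
    have := r.2 ⟨σ, hσ⟩
    exact congrArg Subtype.val this
  rwa [InfiniteGalois.fixedField_fixingSubgroup F] at h1

section

variable {F}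
variable {A A' : ValuationSubring Qb}

theorem mem_nonunits_iff_of_inter_eq (h : ∀ x ∈ F, x ∈ A ↔ x ∈ A') {x : Qb} (hx : x ∈ F) :
    x ∈ A.nonunits ↔ x ∈ A'.nonunits := by
  rw [ValuationSubring.mem_nonunits_iff_or, ValuationSubring.mem_nonunits_iff_or,
    h x⁻¹ (F.inv_mem hx)]

/-- **(T1)** Valuation subrings with the same trace on `F` are conjugate under `Gal(ℚ̄/F)`. -/
theorem exists_smul_eq_of_inter_eq {ℓ : ℕ} (hℓ : ℓ.Prime) (hA : (ℓ : Qb) ∈ A.nonunits)
    (hA' : (ℓ : Qb) ∈ A'.nonunits) (h : ∀ x ∈ F, x ∈ A ↔ x ∈ A') :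
    ∃ ρ ∈ F.fixingSubgroup, ρ • A' = A := by
  letI : TopologicalSpace Zbar := ⊥
  haveI : DiscreteTopology Zbar := ⟨rfl⟩
  haveI : ContinuousSMul F.fixingSubgroup Zbar := by
    rw [continuousSMul_iff_stabilizer_isOpen]
    intro x
    have hopen := stabilizer_isOpen_of_isIntegral (K := ℚ) (L := Qb) (x : Qb)
    have : (MulAction.stabilizer F.fixingSubgroup x : Set F.fixingSubgroup) =
        Subtype.val ⁻¹' (MulAction.stabilizer G (x : Qb) : Set G) := by
      ext g
      simp only [SetLike.mem_coe, MulAction.mem_stabilizer_iff, Set.mem_preimage, Subtype.ext_iff]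
      rfl
    rw [this]
    exact hopen.preimage continuous_subtype_val
  have hunder : (primeOf A').under (FixedPoints.subalgebra ℤ Zbar F.fixingSubgroup) =
      (primeOf A).under (FixedPoints.subalgebra ℤ Zbar F.fixingSubgroup) := by
    ext r
    rw [Ideal.mem_comap, Ideal.mem_comap]
    show (r : Zbar) ∈ primeOf A' ↔ (r : Zbar) ∈ primeOf A
    rw [mem_primeOf, mem_primeOf]
    exact (mem_nonunits_iff_of_inter_eq h (coe_mem_of_mem_fixedPoints F r)).symm
  obtain ⟨g, hg⟩ := Algebra.IsInvariant.exists_smul_of_under_eq_of_profinite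
    (A := FixedPoints.subalgebra ℤ Zbar F.fixingSubgroup) (G := F.fixingSubgroup)
    (primeOf A') (primeOf A) hunder
  refine ⟨g.1, g.2, smul_eq_of_primeOf A A' hℓ hA hA' g.1 fun s => ?_⟩
  rw [hg]
  exact (Ideal.smul_mem_pointwise_smul_iff (a := g) (S := primeOf A') (x := s)).symm

/-- Elements of the decomposition group preserve the maximal ideal. -/
theorem apply_mem_nonunits_of_smul_eq {σ : G} (hσA : σ • A = A) {x : Qb}
    (hx : x ∈ A.nonunits) : σ x ∈ A.nonunits := by
  have key : ∀ y : Qb, y ∈ A ↔ σ y ∈ A := by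
    intro y
    conv_rhs => rw [← hσA, ValuationSubring.mem_pointwise_smul_iff_inv_smul_mem]
    have : σ⁻¹ • σ y = y := by
      show σ⁻¹ (σ y) = y
      exact σ.symm_apply_apply y
    rw [this]
  rw [ValuationSubring.mem_nonunits_iff_or] at hx ⊢
  rcases hx with h | h
  · left; rw [h, map_zero]
  · right; rwa [← map_inv₀, ← key]

theorem apply_mem_of_smul_eq {σ : G} (hσA : σ • A = A) {x : Qb} (hx : x ∈ A) : σ x ∈ A := by
  rw [← hσA, ValuationSubring.mem_pointwise_smul_iff_inv_smul_mem]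
  have : σ⁻¹ • σ x = x := by
    show σ⁻¹ (σ x) = x
    exact σ.symm_apply_apply x
  rwa [this]

theorem inv_smul_eq_of_smul_eq {σ : G} (hσA : σ • A = A) : σ⁻¹ • A = A := by
  conv_lhs => rw [← hσA]
  rw [inv_smul_smul]

/-- **(T2)** An element `σ` of the decomposition group of `A` acting trivially on the residue
field of `A ∩ F` agrees modulo the maximal ideal with an element of `Gal(ℚ̄/F)` in the
decomposition group. -/
theorem exists_residue_eq {ℓ : ℕ} (hℓ : ℓ.Prime) (hA : (ℓ : Qb) ∈ A.nonunits) (σ : G)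
    (hσA : σ • A = A) (hσF : ∀ x ∈ F, x ∈ A → σ x - x ∈ A.nonunits) :
    ∃ ρ ∈ F.fixingSubgroup, ρ • A = A ∧ ∀ x ∈ A, ρ x - σ x ∈ A.nonunits := by
  letI : TopologicalSpace Zbar := ⊥
  haveI : DiscreteTopology Zbar := ⟨rfl⟩
  haveI : ContinuousSMul F.fixingSubgroup Zbar := by
    rw [continuousSMul_iff_stabilizer_isOpen]
    intro x
    have hopen := stabilizer_isOpen_of_isIntegral (K := ℚ) (L := Qb) (x : Qb)
    have : (MulAction.stabilizer F.fixingSubgroup x : Set F.fixingSubgroup) =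
        Subtype.val ⁻¹' (MulAction.stabilizer G (x : Qb) : Set G) := by
      ext g
      simp only [SetLike.mem_coe, MulAction.mem_stabilizer_iff, Set.mem_preimage, Subtype.ext_iff]
      rfl
    rw [this]
    exact hopen.preimage continuous_subtype_val
  set Q := primeOf A with hQ
  set R := FixedPoints.subalgebra ℤ Zbar F.fixingSubgroup with hR
  set P := Q.under R with hP
  haveI : Q.LiesOver P := ⟨rfl⟩
  -- `σ` stabilises `Q`
  have hσQ : σ ∈ MulAction.stabilizer G Q := by
    rw [MulAction.mem_stabilizer_iff]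
    ext s
    rw [Ideal.mem_pointwise_smul_iff_inv_smul_mem]
    have := mem_primeOf_smul_iff (inv_smul_eq_of_smul_eq hσA) s
    exact this.symm
  let l0 : (Zbar ⧸ Q) ≃ₐ[ℤ ⧸ Q.under ℤ] (Zbar ⧸ Q) :=
    Ideal.Quotient.stabilizerHom Q (Q.under ℤ) G ⟨σ, hσQ⟩
  have hl0 : ∀ b : Zbar, l0 (Ideal.Quotient.mk Q b) = Ideal.Quotient.mk Q (σ • b) := fun b => rfl
  let l : (Zbar ⧸ Q) ≃ₐ[R ⧸ P] (Zbar ⧸ Q) :=
    AlgEquiv.ofRingEquiv (f := l0.toRingEquiv) (fun r => by
      obtain ⟨r, rfl⟩ := Ideal.Quotient.mk_surjective r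
      rw [Ideal.Quotient.algebraMap_mk_of_liesOver]
      show l0 (Ideal.Quotient.mk Q (r : Zbar)) = Ideal.Quotient.mk Q (r : Zbar)
      rw [hl0, Ideal.Quotient.eq, mem_primeOf]
      exact hσF _ (coe_mem_of_mem_fixedPoints F r) (coe_mem A _))
  obtain ⟨⟨g, hgQ⟩, hgl⟩ :=
    Ideal.Quotient.stabilizerHom_surjective_of_profinite (G := F.fixingSubgroup) P Q l
  have hgb : ∀ b : Zbar, (g : G) • b - σ • b ∈ Q := by
    intro b
    have h2 := DFunLike.congr_fun hgl (Ideal.Quotient.mk Q b)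
    have h3 : l (Ideal.Quotient.mk Q b) = Ideal.Quotient.mk Q (σ • b) := rfl
    rw [h3] at h2
    rw [← Ideal.Quotient.eq]
    exact h2
  have hgQ' : ∀ s : Zbar, s ∈ Q ↔ (g : G) • s ∈ Q := by
    intro s
    rw [MulAction.mem_stabilizer_iff] at hgQ
    conv_rhs => rw [← hgQ]
    exact (Ideal.smul_mem_pointwise_smul_iff (a := g) (S := Q) (x := s)).symm
  have hgA : (g : G) • A = A := smul_eq_of_primeOf A A hℓ hA hA g.1 hgQ'
  refine ⟨g.1, g.2, hgA, fun x hx => ?_⟩
  obtain ⟨b, s, hs, hxs⟩ := exists_fraction A hℓ hA hx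
  have hgs : ((g : G) • s) ∉ Q := fun h => hs ((hgQ' s).mpr h)
  have hσs : (σ • s) ∉ Q := by
    intro h
    apply hs
    have := (mem_primeOf_smul_iff (inv_smul_eq_of_smul_eq hσA) (σ • s)).mp h
    rwa [inv_smul_smul] at this
  rw [mem_primeOf, coe_smul_Zbar] at hgs hσs
  obtain ⟨hgne, hginv⟩ := inv_mem_of_not_mem_nonunits A hgs
  obtain ⟨hσne, hσinv⟩ := inv_mem_of_not_mem_nonunits A hσs
  have e1 : (g : G) x * (g : G) (s : Qb) = (g : G) (b : Qb) := by rw [← map_mul, hxs]
  have e2 : σ x * σ (s : Qb) = σ (b : Qb) := by rw [← map_mul, hxs]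
  have hb := mem_primeOf.mp (hgb b)
  have hs' := mem_primeOf.mp (hgb s)
  have hb' : (g : G) (b : Qb) - σ (b : Qb) ∈ A.nonunits := hb
  have hs'' : (g : G) (s : Qb) - σ (s : Qb) ∈ A.nonunits := hs'
  have key : (g : G) x - σ x =
      (((g : G) (b : Qb) - σ (b : Qb)) - ((g : G) (s : Qb) - σ (s : Qb)) * σ x) *
        ((g : G) (s : Qb))⁻¹ := by
    rw [← e1, ← e2]
    field_simp
    ring
  rw [key]
  refine nonunits_mul_mem A (nonunits_sub_mem A hb' ?_) hginv
  exact nonunits_mul_mem A hs'' (apply_mem_of_smul_eq hσA hx)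

/-- Criterion for membership in the inertia subgroup. -/
theorem mem_inertiaSubgroupIn_of {σ : G} (hσA : σ • A = A)
    (h : ∀ x ∈ A, σ x - x ∈ A.nonunits) : σ ∈ A.inertiaSubgroupIn ℚ := by
  have hσD : σ ∈ A.decompositionSubgroup ℚ := MulAction.mem_stabilizer_iff.mpr hσA
  rw [ValuationSubring.inertiaSubgroupIn, Subgroup.mem_map]
  refine ⟨⟨σ, hσD⟩, ?_, rfl⟩
  rw [ValuationSubring.inertiaSubgroup, MonoidHom.mem_ker]
  ext r
  obtain ⟨a, rfl⟩ := IsLocalRing.residue_surjective r
  show (⟨σ, hσD⟩ : A.decompositionSubgroup ℚ) • (IsLocalRing.residue A a) = IsLocalRing.residue A a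
  rw [← IsLocalRing.ResidueField.residue_smul]
  show Ideal.Quotient.mk _ _ = Ideal.Quotient.mk _ _
  rw [Ideal.Quotient.eq, ← ValuationSubring.coe_mem_nonunits_iff]
  exact h a a.2

end

end Fermat.Agent.S14.H714

end
-- ===== PACK-END S14/H714/Trans.lean

-- ===== PACK-BEGIN S55/G/Rec/Loc/Defs.lean
section



/-!
# S55 / layer G / block REC / sub-block LOC : definitions

Bridge between the two frozen local interfaces

* `Fermat.Agent.S55.L.InvFamily` (helper54): invariant maps `inv_{L/K}` on Mathlib's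
  `H2 (unitsRep K L)` for FINITE Galois extensions `L/K` of abstract local fields;
* `Fermat.Agent.S55.G.Rec.LocalInvSystem` (helper1): invariant maps on the ABSOLUTE Brauer groups
  `lBr q V = H²_cont(V, ℚ̄_qˣ)` (level-constant cochains on `V ≤ Gal(ℚ̄_q/ℚ_q)`).

Finite levels of `V`: `K_V := fixedFld q V` (fixed field of `V` in `PadicAlgCl q`) and the
intermediate fields `E : IntermediateField K_V (PadicAlgCl q)`, finite Galois over `K_V`.
`resHom q V E : V →* Gal(E/K_V)` is restriction, `IsAbsInflation q V E f c` says that the level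
cocycle `c` on `V` is the inflation of the finite-level cocycle `f` on `Gal(E/K_V)`.
-/

set_option autoImplicit false

noncomputable section

namespace Fermat.Agent.S55.G.Rec.Loc

open groupCohomology

variable (q : ℕ) [Fact q.Prime]

/-- The fixed field `K_V` of `V ≤ Gal(ℚ̄_q/ℚ_q)`. -/
abbrev fixedFld (V : Subgroup (PadicAlgCl q ≃ₐ[ℚ_[q]] PadicAlgCl q)) :
    IntermediateField ℚ_[q] (PadicAlgCl q) :=
  IntermediateField.fixedField V

lemma le_fixingSubgroup_fixedFld (V : Subgroup (PadicAlgCl q ≃ₐ[ℚ_[q]] PadicAlgCl q)) :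
    V ≤ (fixedFld q V).fixingSubgroup :=
  (IntermediateField.le_iff_le V (fixedFld q V)).1 le_rfl

/-- `V → Gal(ℚ̄_q / K_V)`. -/
def toAbsGal (V : Subgroup (PadicAlgCl q ≃ₐ[ℚ_[q]] PadicAlgCl q)) :
    ↥V →* (PadicAlgCl q ≃ₐ[fixedFld q V] PadicAlgCl q) :=
  (IntermediateField.fixingSubgroupEquiv (fixedFld q V)).toMonoidHom.comp
    (Subgroup.inclusion (le_fixingSubgroup_fixedFld q V))

@[simp] lemma toAbsGal_apply (V : Subgroup (PadicAlgCl q ≃ₐ[ℚ_[q]] PadicAlgCl q)) (σ : ↥V)
    (x : PadicAlgCl q) : toAbsGal q V σ x = (σ : PadicAlgCl q ≃ₐ[ℚ_[q]] PadicAlgCl q) x := rfl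

/-- Restriction `V → Gal(E / K_V)` for `E / K_V` normal. -/
def resHom (V : Subgroup (PadicAlgCl q ≃ₐ[ℚ_[q]] PadicAlgCl q))
    (E : IntermediateField (fixedFld q V) (PadicAlgCl q)) [Normal (fixedFld q V) E] :
    ↥V →* (E ≃ₐ[fixedFld q V] E) :=
  (AlgEquiv.restrictNormalHom E).comp (toAbsGal q V)

lemma resHom_apply_coe (V : Subgroup (PadicAlgCl q ≃ₐ[ℚ_[q]] PadicAlgCl q))
    (E : IntermediateField (fixedFld q V) (PadicAlgCl q)) [Normal (fixedFld q V) E]
    (σ : ↥V) (x : E) :
    ((resHom q V E σ x : E) : PadicAlgCl q) =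
      (σ : PadicAlgCl q ≃ₐ[ℚ_[q]] PadicAlgCl q) (x : PadicAlgCl q) := by
  change algebraMap E (PadicAlgCl q) (AlgEquiv.restrictNormal (toAbsGal q V σ) E x) = _
  rw [AlgEquiv.restrictNormal_commutes]
  rfl

/-- The inclusion `Eˣ → ℚ̄_qˣ`. -/
def unitsIncl (V : Subgroup (PadicAlgCl q ≃ₐ[ℚ_[q]] PadicAlgCl q))
    (E : IntermediateField (fixedFld q V) (PadicAlgCl q)) : (↥E)ˣ →* (PadicAlgCl q)ˣ :=
  Units.map (algebraMap E (PadicAlgCl q) : E →* PadicAlgCl q)

/-- Inflation of finite-level 1-cochains to `V`. -/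
def inflCochain₁ (V : Subgroup (PadicAlgCl q ≃ₐ[ℚ_[q]] PadicAlgCl q))
    (E : IntermediateField (fixedFld q V) (PadicAlgCl q)) [Normal (fixedFld q V) E]
    (b : (E ≃ₐ[fixedFld q V] E) → L.unitsRep (fixedFld q V) E) : ↥V → lModOn q V :=
  fun g => Additive.ofMul (unitsIncl q V E (Additive.toMul (b (resHom q V E g))))

/-- Inflation of finite-level 2-cochains to `V`. -/
def inflCochain₂ (V : Subgroup (PadicAlgCl q ≃ₐ[ℚ_[q]] PadicAlgCl q))
    (E : IntermediateField (fixedFld q V) (PadicAlgCl q)) [Normal (fixedFld q V) E]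
    (f : (E ≃ₐ[fixedFld q V] E) × (E ≃ₐ[fixedFld q V] E) → L.unitsRep (fixedFld q V) E) :
    ↥V × ↥V → lModOn q V :=
  fun p => Additive.ofMul
    (unitsIncl q V E (Additive.toMul (f (resHom q V E p.1, resHom q V E p.2))))

/-- The level cocycle `c` on `V` is the inflation of the finite-level cocycle `f` on
`Gal(E / K_V)`. -/
def IsAbsInflation (V : Subgroup (PadicAlgCl q ≃ₐ[ℚ_[q]] PadicAlgCl q))
    (E : IntermediateField (fixedFld q V) (PadicAlgCl q)) [Normal (fixedFld q V) E]
    (f : cocycles₂ (L.unitsRep (fixedFld q V) E))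
    (c : ↥(levelCocycles₂ (lHom q V) (lModOn q V))) : Prop :=
  (c : ↥V × ↥V → lModOn q V) =
    inflCochain₂ q V E (f : (E ≃ₐ[fixedFld q V] E) × (E ≃ₐ[fixedFld q V] E) →
      L.unitsRep (fixedFld q V) E)

end Fermat.Agent.S55.G.Rec.Loc

end
end
-- ===== PACK-END S55/G/Rec/Loc/Defs.lean

-- ===== PACK-BEGIN S55/G/Rec/H473Cyclic.lean
section



/-!
# S55 / layer G / block REC, leaf A4: cyclic groups

`G` a finite group, `χ : G →* Multiplicative (ZMod n)` an injective character and `σ : G` with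
`χ σ = 1` (so `G = ⟨σ⟩` is cyclic of order `n`; `IsGenChar χ σ`).  Then for every `A : Rep k G`

* `cc A χ a = 0 ↔ a ∈ N_G A`   (`cc_eq_zero_iff`),
* `cc A χ : A^G → H²(G, A)` is surjective   (`cc_surjective`),

hence `A^G / N_G A ≃ H²(G, A)` (`ccEquiv`).  Everything is done with explicit cocycles.
-/

set_option autoImplicit false

open CategoryTheory groupCohomology

namespace Fermat.Agent.S55.G.Rec

section Generator

variable {G : Type} [Group G] {n : ℕ} [NeZero n]

/-- `χ` is an injective character with `χ σ = 1`; then `G = ⟨σ⟩` is cyclic of order `n`. -/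
structure IsGenChar (χ : G →* Multiplicative (ZMod n)) (σ : G) : Prop where
  injective : Function.Injective χ
  map_gen : χ σ = Multiplicative.ofAdd 1

namespace IsGenChar

variable {χ : G →* Multiplicative (ZMod n)} {σ : G} (h : IsGenChar χ σ)
include h

omit [NeZero n] in
theorem toAdd_map_pow (m : ℕ) : Multiplicative.toAdd (χ (σ ^ m)) = (m : ZMod n) := by
  rw [map_pow, h.map_gen, toAdd_pow, toAdd_ofAdd, nsmul_eq_mul, mul_one]

omit [NeZero n] in
theorem lift_pow (m : ℕ) : lift χ (σ ^ m) = m % n := by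
  rw [lift, h.toAdd_map_pow, ZMod.val_natCast]

omit [NeZero n] in
theorem lift_pow_of_lt {m : ℕ} (hm : m < n) : lift χ (σ ^ m) = m := by
  rw [h.lift_pow, Nat.mod_eq_of_lt hm]

theorem pow_lift (g : G) : σ ^ lift χ g = g := by
  apply h.injective
  apply Multiplicative.toAdd.injective
  rw [h.toAdd_map_pow, lift, ZMod.natCast_zmod_val]

omit [NeZero n] in
theorem lift_gen : lift χ σ = 1 % n := by
  have := h.lift_pow 1
  rwa [pow_one] at this

omit [NeZero n] in
theorem pow_card : σ ^ n = 1 := by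
  apply h.injective
  apply Multiplicative.toAdd.injective
  rw [h.toAdd_map_pow, map_one, toAdd_one, ZMod.natCast_self]

theorem sum_eq [Fintype G] {M : Type*} [AddCommMonoid M] (F : G → M) :
    ∑ g, F g = ∑ i ∈ Finset.range n, F (σ ^ i) := by
  refine Finset.sum_nbij' (fun g => lift χ g) (fun i => σ ^ i) ?_ ?_ ?_ ?_ ?_
  · intro g _; exact Finset.mem_range.2 (lift_lt χ g)
  · intro i _; exact Finset.mem_univ _
  · intro g _; exact h.pow_lift g
  · intro i hi; exact h.lift_pow_of_lt (Finset.mem_range.1 hi)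
  · intro g _; rw [h.pow_lift]

theorem card_eq [Fintype G] : Fintype.card G = n := by
  have := h.sum_eq (fun _ => (1 : ℕ))
  simpa using this

/-- `∑_τ ε_χ(τ, g) = χ̃(g)`. -/
theorem sum_carry [Fintype G] (g : G) : ∑ τ, carry χ τ g = lift χ g := by
  have hn : 0 < n := Nat.pos_of_ne_zero (NeZero.ne n)
  have e1 : ∑ τ : G, (lift χ τ + lift χ g) = ∑ τ : G, (lift χ (τ * g) + n * carry χ τ g) :=
    Finset.sum_congr rfl fun τ _ => lift_add_lift χ τ g
  have e2 : ∑ τ : G, lift χ (τ * g) = ∑ τ : G, lift χ τ :=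
    Fintype.sum_equiv (Equiv.mulRight g) _ _ fun _ => rfl
  rw [Finset.sum_add_distrib, Finset.sum_add_distrib, e2, Finset.sum_const, Finset.card_univ,
    h.card_eq, smul_eq_mul, ← Finset.mul_sum] at e1
  exact (Nat.eq_of_mul_eq_mul_left hn (Nat.add_left_cancel e1)).symm

end IsGenChar

end Generator

section Existence

variable {G : Type} [Group G] [Finite G]

/-- A finite group generated by `σ` carries a (unique) injective character
`χ : G →* Multiplicative (ZMod |G|)` with `χ σ = 1`. -/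
theorem exists_isGenChar {n : ℕ} (σ : G) (hσ : ∀ g : G, g ∈ Subgroup.zpowers σ)
    (hn : Nat.card G = n) : ∃ χ : G →* Multiplicative (ZMod n), IsGenChar χ σ := by
  have hn0 : n ≠ 0 := by rw [← hn]; exact Nat.card_pos.ne'
  have : NeZero n := ⟨hn0⟩
  have hpow : σ ^ n = 1 := by rw [← hn]; exact pow_card_eq_one'
  -- the homomorphism `ZMod n → Additive G`, `1 ↦ σ`
  let ψ0 : ℤ →+ Additive G := zmultiplesHom (Additive G) (Additive.ofMul σ)
  have hψ0 : ψ0 (n : ℤ) = 0 := by
    change (n : ℤ) • Additive.ofMul σ = 0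
    rw [natCast_zsmul]
    exact congrArg Additive.ofMul hpow
  let ψ : ZMod n →+ Additive G := ZMod.lift n ⟨ψ0, hψ0⟩
  have hψ1 : ψ 1 = Additive.ofMul σ := by
    have : ψ ((1 : ℤ) : ZMod n) = ψ0 1 := ZMod.lift_coe n ⟨ψ0, hψ0⟩ 1
    rw [Int.cast_one] at this
    rw [this]
    change (1 : ℤ) • Additive.ofMul σ = _
    rw [one_zsmul]
  have hsurj : Function.Surjective ψ := by
    intro g
    obtain ⟨z, hz⟩ := Subgroup.mem_zpowers_iff.1 (hσ (Additive.toMul g))
    refine ⟨(z : ZMod n), ?_⟩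
    have : ψ ((z : ℤ) : ZMod n) = ψ0 z := ZMod.lift_coe n ⟨ψ0, hψ0⟩ z
    rw [this]
    change z • Additive.ofMul σ = g
    rw [← ofMul_zpow, hz]
    rfl
  have hbij : Function.Bijective ψ := by
    rw [Nat.bijective_iff_surjective_and_card]
    refine ⟨hsurj, ?_⟩
    rw [Nat.card_eq_fintype_card, ZMod.card]
    exact hn.symm
  let e : Multiplicative (ZMod n) ≃* G :=
    AddEquiv.toMultiplicativeLeft (AddEquiv.ofBijective ψ hbij)
  refine ⟨e.symm.toMonoidHom, e.symm.injective, ?_⟩
  change e.symm σ = Multiplicative.ofAdd 1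
  rw [MulEquiv.symm_apply_eq]
  change σ = Additive.toMul (ψ 1)
  rw [hψ1]
  rfl

end Existence

section Trace

variable {k G : Type} [CommRing k] [Group G] [Fintype G] (A : Rep.{0} k G) (σ : G)

/-- The functional `f ↦ ∑_g f(g, σ)` on 2-cochains. -/
def traceAt (f : G × G → A.V) : A.V := ∑ g, f (g, σ)

theorem traceAt_add (f f' : G × G → A.V) :
    traceAt A σ (f + f') = traceAt A σ f + traceAt A σ f' := by
  simp only [traceAt, Pi.add_apply, Finset.sum_add_distrib]

theorem traceAt_sub (f f' : G × G → A.V) :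
    traceAt A σ (f - f') = traceAt A σ f - traceAt A σ f' := by
  simp only [traceAt, Pi.sub_apply, Finset.sum_sub_distrib]

/-- `T(dx) = N(x σ)`. -/
theorem traceAt_d (x : G → A.V) : traceAt A σ ((d₁₂ A).hom x) = A.ρ.norm (x σ) := by
  have e2 : ∑ g : G, x (g * σ) = ∑ g : G, x g :=
    Fintype.sum_equiv (Equiv.mulRight σ) _ _ fun _ => rfl
  simp only [traceAt, d₁₂_hom_apply, Finset.sum_add_distrib, Finset.sum_sub_distrib, e2,
    sub_add_cancel]
  simp [Representation.norm]

/-- `T f` is `G`-invariant for a cocycle `f`. -/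
theorem traceAt_mem_invariants {f : G × G → A.V} (hf : f ∈ cocycles₂ A) :
    traceAt A σ f ∈ A.ρ.invariants := by
  intro h
  have hc := (mem_cocycles₂_iff f).1 hf
  have e1 : ∑ g : G, f (h * g, σ) = ∑ g : G, f (g, σ) :=
    Fintype.sum_equiv (Equiv.mulLeft h) _ _ fun _ => rfl
  have e2 : ∑ g : G, f (h, g * σ) = ∑ g : G, f (h, g) :=
    Fintype.sum_equiv (Equiv.mulRight σ) _ _ fun _ => rfl
  have e3 : ∑ g : G, (f (h * g, σ) + f (h, g)) = ∑ g : G, (A.ρ h (f (g, σ)) + f (h, g * σ)) :=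
    Finset.sum_congr rfl fun g _ => hc h g σ
  rw [Finset.sum_add_distrib, Finset.sum_add_distrib, e1, e2] at e3
  have e4 := add_right_cancel e3
  simp only [traceAt, map_sum]
  exact e4.symm

end Trace

section Cyclic

variable {k G : Type} [CommRing k] [Group G] [Fintype G] {n : ℕ} [NeZero n]
  (A : Rep.{0} k G) {χ : G →* Multiplicative (ZMod n)} {σ : G} (h : IsGenChar χ σ)

include h in
/-- `T(cupChar a χ) = χ̃(σ) • a`. -/
theorem traceAt_cupChar (a : A.ρ.invariants) :
    traceAt A σ (cupChar A χ a) = lift χ σ • (a : A.V) := by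
  simp only [traceAt, cupChar_apply]
  rw [← Finset.sum_smul, h.sum_carry]

/-- The partial norms `∑_{i < t} σ^i b`. -/
def partialNorm (σ : G) (b : A.V) (t : ℕ) : A.V := ∑ i ∈ Finset.range t, A.ρ (σ ^ i) b

omit [Fintype G] in
theorem partialNorm_add (σ : G) (b : A.V) (s t : ℕ) :
    partialNorm A σ b (s + t) = partialNorm A σ b s + A.ρ (σ ^ s) (partialNorm A σ b t) := by
  simp only [partialNorm, Finset.sum_range_add, map_sum]
  congr 1
  refine Finset.sum_congr rfl fun i _ => ?_
  rw [pow_add, map_mul]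
  rfl

include h in
theorem partialNorm_card (b : A.V) : partialNorm A σ b n = A.ρ.norm b := by
  rw [partialNorm, ← h.sum_eq (fun g => A.ρ g b)]
  simp [Representation.norm]

theorem norm_mem_invariants (b : A.V) : A.ρ.norm b ∈ A.ρ.invariants :=
  fun g => Representation.self_norm_apply A.ρ g b

include h in
/-- `cupChar (N b) χ = d (g ↦ ∑_{i < χ̃(g)} σ^i b)`. -/
theorem cupChar_norm (b : A.V) :
    (cupChar A χ ⟨A.ρ.norm b, norm_mem_invariants A b⟩ : G × G → A.V) =
      (d₁₂ A).hom (fun g => partialNorm A σ b (lift χ g)) := by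
  funext ⟨g, t⟩
  rw [cupChar_apply, d₁₂_hom_apply]
  change carry χ g t • A.ρ.norm b = A.ρ g (partialNorm A σ b (lift χ t)) -
    partialNorm A σ b (lift χ (g * t)) + partialNorm A σ b (lift χ g)
  have e1 : partialNorm A σ b (lift χ g) + A.ρ g (partialNorm A σ b (lift χ t)) =
      partialNorm A σ b (lift χ (g * t) + n * carry χ g t) := by
    rw [← lift_add_lift, partialNorm_add, h.pow_lift]
  have e2 : partialNorm A σ b (lift χ (g * t) + n * carry χ g t) =
      partialNorm A σ b (lift χ (g * t)) + carry χ g t • A.ρ.norm b := by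
    rcases Nat.le_one_iff_eq_zero_or_eq_one.1 (carry_le_one χ g t) with hc | hc
    · rw [hc, mul_zero, add_zero, zero_smul, add_zero]
    · rw [hc, mul_one, one_smul, partialNorm_add, h.pow_lift, partialNorm_card A h,
        Representation.self_norm_apply]
  rw [e2] at e1
  rw [sub_add_eq_add_sub, add_comm, e1, add_sub_cancel_left]

include h in
/-- **A4a.** `cc (N b) χ = 0`. -/
theorem cc_norm (b : A.V) : cc A χ ⟨A.ρ.norm b, norm_mem_invariants A b⟩ = 0 := by
  rw [cc_apply, H2π_eq_zero_iff, cupChar_norm A h]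
  exact LinearMap.mem_range_self _ _

include h in
/-- **A4b.** If `cc a χ = 0` then `a` is a norm. -/
theorem exists_norm_eq_of_cc_eq_zero (a : A.ρ.invariants) (ha : cc A χ a = 0) :
    ∃ b : A.V, A.ρ.norm b = a := by
  rw [cc_apply, H2π_eq_zero_iff] at ha
  obtain ⟨x, hx⟩ := ha
  have hT := congrArg (traceAt A σ) hx
  rw [traceAt_d, traceAt_cupChar A h, h.lift_gen] at hT
  by_cases hn : n = 1
  · -- trivial group: the norm is the identity
    refine ⟨a, ?_⟩
    have hcard : Fintype.card G = 1 := by rw [h.card_eq, hn]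
    have : Subsingleton G := Fintype.card_le_one_iff_subsingleton.1 hcard.le
    let _ : Unique G := uniqueOfSubsingleton 1
    simp [Representation.norm, Finset.univ_unique, Subsingleton.elim default (1 : G)]
  · have hn' : 1 < n := lt_of_le_of_ne (Nat.pos_of_ne_zero (NeZero.ne n)) (Ne.symm hn)
    rw [Nat.mod_eq_of_lt hn', one_smul] at hT
    exact ⟨x σ, hT⟩

include h in
theorem cc_eq_zero_iff (a : A.ρ.invariants) :
    cc A χ a = 0 ↔ (a : A.V) ∈ LinearMap.range A.ρ.norm := by
  constructor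
  · intro ha
    obtain ⟨b, hb⟩ := exists_norm_eq_of_cc_eq_zero A h a ha
    exact ⟨b, hb⟩
  · rintro ⟨b, hb⟩
    have : a = ⟨A.ρ.norm b, norm_mem_invariants A b⟩ := Subtype.ext hb.symm
    rw [this]
    exact cc_norm A h b

omit [Fintype G] in
/-- A 2-cocycle vanishing on `G × {σ}` vanishes identically. -/
theorem cocycle_eq_zero_of_vanish {f : G × G → A.V} (hf : f ∈ cocycles₂ A)
    (h : IsGenChar χ σ) (h0 : ∀ τ, f (τ, σ) = 0) : f = 0 := by
  have hc := (mem_cocycles₂_iff f).1 hf
  have h11 : f (1, 1) = 0 := by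
    have := cocycles₂_map_one_fst ⟨f, hf⟩ σ
    change f (1, σ) = f (1, 1) at this
    rw [← this]
    exact h0 1
  have key : ∀ (j : ℕ) (τ : G), f (τ, σ ^ j) = 0 := by
    intro j
    induction j with
    | zero =>
      intro τ
      rw [pow_zero]
      have := cocycles₂_map_one_snd ⟨f, hf⟩ τ
      change f (τ, 1) = A.ρ τ (f (1, 1)) at this
      rw [this, h11, map_zero]
    | succ j ih =>
      intro τ
      have := hc τ (σ ^ j) σ
      rw [h0, ih τ, h0, map_zero, zero_add, zero_add, ← pow_succ] at this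
      exact this.symm
  funext ⟨τ, t⟩
  rw [← h.pow_lift t]
  exact key _ τ

/-- The 1-cochain `τ ↦ ∑_{i < χ̃(τ)} f(σ^i, σ)`. -/
def sumAt (χ : G →* Multiplicative (ZMod n)) (σ : G) (f : G × G → A.V) (τ : G) : A.V :=
  ∑ i ∈ Finset.range (lift χ τ), f (σ ^ i, σ)

include h in
theorem sumAt_mul_gen (hn : 1 < n) (f : G × G → A.V) (τ : G) :
    sumAt A χ σ f (τ * σ) + carry χ τ σ • traceAt A σ f = sumAt A χ σ f τ + f (τ, σ) := by
  have hσ : lift χ σ = 1 := by rw [h.lift_gen, Nat.mod_eq_of_lt hn]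
  have e := lift_add_lift χ τ σ
  rw [hσ] at e
  have hlt := lift_lt χ τ
  rcases Nat.le_one_iff_eq_zero_or_eq_one.1 (carry_le_one χ τ σ) with hc | hc
  · rw [hc, mul_zero, add_zero] at e
    rw [hc, zero_smul, add_zero, sumAt, ← e, Finset.sum_range_succ, h.pow_lift]
    rfl
  · rw [hc, mul_one] at e
    have h1 : lift χ (τ * σ) = 0 := by omega
    have h2 : lift χ τ + 1 = n := by omega
    have h3 : Finset.range n = Finset.range (lift χ τ + 1) := by rw [h2]
    rw [hc, one_smul, sumAt, h1, Finset.sum_range_zero, zero_add, traceAt,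
      h.sum_eq (fun g => f (g, σ)), h3, Finset.sum_range_succ, h.pow_lift]
    rfl

include h in
/-- For `n ≥ 2`, every 2-cocycle `f` is cohomologous to `cupChar (T f) χ`. -/
theorem sub_cupChar_traceAt_mem_coboundaries₂ (hn : 1 < n) (f : cocycles₂ A) :
    (f : G × G → A.V) - cupChar A χ ⟨traceAt A σ f, traceAt_mem_invariants A σ f.2⟩ ∈
      coboundaries₂ A := by
  have hσ : lift χ σ = 1 := by rw [h.lift_gen, Nat.mod_eq_of_lt hn]
  have key : (f : G × G → A.V) -
      cupChar A χ ⟨traceAt A σ f, traceAt_mem_invariants A σ f.2⟩ -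
      (d₁₂ A).hom (fun τ => f (1, 1) - sumAt A χ σ f τ) = 0 := by
    apply cocycle_eq_zero_of_vanish A _ h
    · intro τ
      have e := sumAt_mul_gen A h hn f τ
      have hyσ : f (1, 1) - sumAt A χ σ f σ = 0 := by
        simp only [sumAt, hσ, Finset.sum_range_one, pow_zero]
        rw [sub_eq_zero]
        exact (cocycles₂_map_one_fst f σ).symm
      simp only [Pi.sub_apply, cupChar_apply, d₁₂_hom_apply, hyσ, map_zero, zero_sub]
      have e' : f (τ, σ) = sumAt A χ σ f (τ * σ) + carry χ τ σ • traceAt A σ f -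
          sumAt A χ σ f τ := by rw [e]; abel
      rw [e']
      abel
    · refine Submodule.sub_mem _ (Submodule.sub_mem _ f.2 (cupChar A χ _).2) ?_
      exact d₁₂_apply_mem_cocycles₂ _
  exact ⟨_, (sub_eq_zero.1 key).symm⟩

include h in
/-- **A4c.** `cc A χ : A^G → H²(G, A)` is surjective. -/
theorem cc_surjective : Function.Surjective (cc A χ) := by
  intro z
  induction z using H2_induction_on with
  | h f =>
    by_cases hn : n = 1
    · -- trivial group: `H²` vanishes
      refine ⟨0, ?_⟩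
      rw [map_zero, eq_comm, H2π_eq_zero_iff]
      have hcard : Fintype.card G = 1 := by rw [h.card_eq, hn]
      have hsub : Subsingleton G := Fintype.card_le_one_iff_subsingleton.1 hcard.le
      refine ⟨fun _ => f (1, 1), ?_⟩
      funext ⟨g, t⟩
      rw [d₁₂_hom_apply, Subsingleton.elim g 1, Subsingleton.elim t 1]
      simp
    · have hn' : 1 < n := lt_of_le_of_ne (Nat.pos_of_ne_zero (NeZero.ne n)) (Ne.symm hn)
      refine ⟨⟨traceAt A σ f, traceAt_mem_invariants A σ f.2⟩, ?_⟩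
      rw [cc_apply, eq_comm, H2π_eq_iff]
      exact sub_cupChar_traceAt_mem_coboundaries₂ A h hn' f

include h in
/-- **A4.** For a finite cyclic group, `a ↦ cc a χ` induces `A^G / N_G A ≃ H²(G, A)`. -/
noncomputable def ccEquiv :
    (A.ρ.invariants ⧸ (LinearMap.range A.ρ.norm).comap A.ρ.invariants.subtype) ≃ₗ[k] H2 A :=
  LinearEquiv.ofBijective
    (Submodule.liftQ _ (cc A χ) (by
      intro a ha
      exact (cc_eq_zero_iff A h a).2 ha))
    ⟨by
      rw [← LinearMap.ker_eq_bot, Submodule.ker_liftQ, eq_bot_iff]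
      rintro _ ⟨a, ha, rfl⟩
      rw [Submodule.mem_bot, Submodule.mkQ_apply, Submodule.Quotient.mk_eq_zero]
      exact (cc_eq_zero_iff A h a).1 ha,
     by
      intro z
      obtain ⟨a, rfl⟩ := cc_surjective A h z
      exact ⟨Submodule.Quotient.mk a, rfl⟩⟩

theorem ccEquiv_mk (a : A.ρ.invariants) :
    ccEquiv A h (Submodule.Quotient.mk a) = cc A χ a := rfl

end Cyclic

end Fermat.Agent.S55.G.Rec

end
-- ===== PACK-END S55/G/Rec/H473Cyclic.lean

-- ===== PACK-BEGIN S55/Local/H294/UR3Val.lean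
section


/-!
# S55 layer L, piece UR3 (helper294): valuation-theoretic preliminaries

Elementary consequences of `IsUnif` / `IsUnram` (interface of `Defs.lean`): if `ϖ` is a uniformizer
of `L`, every nonzero element of `L` is `ϖ ^ n * unit`, the integers are exactly the elements with
`n ≥ 0`, etc.  No number theory here.
-/

set_option autoImplicit false

namespace Fermat.Agent.S55.Local.H294

open Polynomial

section Val

variable {A F : Type} [CommRing A] [Field F] [Algebra A F]
variable {L : Type} [Field L] [Algebra F L]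

lemma toL_eq_comp (K : Type) [Field K] [Algebra F K] [Algebra K L] [IsScalarTower F K L] :
    toL A F L = (algebraMap K L).comp (toL A F K) := by
  ext a
  simp [toL, IsScalarTower.algebraMap_apply F K L]

/-- Integrality over `A` is intrinsic: it can be tested in a subfield. -/
lemma isInt_algebraMap_iff {K : Type} [Field K] [Algebra F K] [Algebra K L] [IsScalarTower F K L]
    (y : K) : IsInt A F L (algebraMap K L y) ↔ IsInt A F K y := by
  unfold IsInt
  rw [toL_eq_comp (A := A) (F := F) (L := L) K]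
  constructor
  · rintro ⟨p, hp, h⟩
    refine ⟨p, hp, ?_⟩
    rw [← Polynomial.hom_eval₂] at h
    exact (algebraMap K L).injective (by rw [h, map_zero])
  · rintro ⟨p, hp, h⟩
    refine ⟨p, hp, ?_⟩
    rw [← Polynomial.hom_eval₂, h, map_zero]

/-- Field automorphisms over a subfield preserve integrality. -/
lemma isInt_algEquiv {K : Type} [Field K] [Algebra F K] [Algebra K L] [IsScalarTower F K L]
    (σ : L ≃ₐ[K] L) {x : L} (hx : IsInt A F L x) : IsInt A F L (σ x) := by
  obtain ⟨p, hp, h⟩ := hx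
  refine ⟨p, hp, ?_⟩
  have hσ : (σ : L →+* L).comp (toL A F L) = toL A F L := by
    ext a
    simp only [RingHom.coe_comp, Function.comp_apply, toL_apply]
    rw [IsScalarTower.algebraMap_apply F K L]
    exact σ.commutes _
  have := Polynomial.hom_eval₂ p (toL A F L) (σ : L →+* L) x
  rw [hσ, h, map_zero] at this
  exact this.symm

lemma unitsIncl_mem_intUnits_of_mem {K : Type} [Field K] [Algebra F K] [Algebra K L]
    [IsScalarTower F K L] {y : Kˣ} (hy : y ∈ intUnits A F K) :
    unitsIncl L K y ∈ intUnits A F L := by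
  refine ⟨?_, ?_⟩
  · rw [unitsIncl_coe]; exact (isInt_algebraMap_iff (A := A) (F := F) (L := L) (y : K)).2 hy.1
  · rw [← map_inv, unitsIncl_coe]
    exact (isInt_algebraMap_iff (A := A) (F := F) (L := L) ((y⁻¹ : Kˣ) : K)).2 hy.2

/-- In an unramified extension a uniformizer of `K` is a uniformizer of `L`. -/
lemma isUnif_unitsIncl {K : Type} [Field K] [Algebra F K] [Algebra K L] [IsScalarTower F K L]
    {ϖK : Kˣ} (hur : IsUnram A F L K) (hϖ : IsUnif A F K ϖK) :
    IsUnif A F L (unitsIncl L K ϖK) := by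
  refine ⟨?_, ?_, ?_⟩
  · rw [unitsIncl_coe]; exact (isInt_algebraMap_iff (A := A) (F := F) (L := L) (ϖK : K)).2 hϖ.1
  · intro h
    apply hϖ.2.1
    refine ⟨hϖ.1, ?_⟩
    have := h.2
    rw [← map_inv, unitsIncl_coe] at this
    exact (isInt_algebraMap_iff (A := A) (F := F) (L := L) _).1 this
  · intro x
    obtain ⟨y, hy⟩ := hur x
    obtain ⟨n, hn⟩ := hϖ.2.2 y
    refine ⟨n, ?_⟩
    have h2 := unitsIncl_mem_intUnits_of_mem (A := A) (F := F) (L := L) hn
    have h3 := (intUnits A F L).mul_mem hy h2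
    have : x * (unitsIncl L K y)⁻¹ * unitsIncl L K (y * ϖK ^ (-n)) = x * unitsIncl L K ϖK ^ (-n) := by
      rw [map_mul, map_zpow]
      group
    rwa [this] at h3

variable {ϖ : Lˣ}

lemma unif_not_isInt_inv (h : IsUnif A F L ϖ) : ¬ IsInt A F L ((ϖ⁻¹ : Lˣ) : L) :=
  fun h' => h.2.1 ⟨h.1, h'⟩

lemma unif_isInt_pow (h : IsUnif A F L ϖ) (n : ℕ) : IsInt A F L ((ϖ : L) ^ n) := by
  induction n with
  | zero => simpa using isInt_one A F L
  | succ n ih => rw [pow_succ]; exact ih.mul h.1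

/-- Every unit of `L` is `ϖ ^ n * u` with `u` an integral unit. -/
lemma unif_exists_eq (h : IsUnif A F L ϖ) (x : Lˣ) :
    ∃ n : ℤ, ∃ u ∈ intUnits A F L, x = ϖ ^ n * u := by
  obtain ⟨n, hn⟩ := h.2.2 x
  exact ⟨n, _, hn, by rw [mul_comm x, ← mul_assoc, ← zpow_add]; simp⟩

/-- `ϖ ^ n * u` with `n < 0` is not integral. -/
lemma unif_not_isInt_of_neg (h : IsUnif A F L ϖ) {n : ℤ} (hn : n < 0) {u : Lˣ}
    (hu : u ∈ intUnits A F L) : ¬ IsInt A F L ((ϖ ^ n * u : Lˣ) : L) := by
  intro hx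
  apply unif_not_isInt_inv h
  obtain ⟨m, rfl⟩ : ∃ m : ℕ, n = -(m + 1 : ℤ) := ⟨(-n - 1).toNat, by omega⟩
  have h1 : ((ϖ⁻¹ : Lˣ) : L) = (ϖ : L) ^ m * (((ϖ ^ (-(m + 1 : ℤ)) * u : Lˣ) : L) * ((u⁻¹ : Lˣ) : L)) := by
    rw [← Units.val_mul, ← Units.val_pow_eq_pow_val, ← Units.val_mul]
    congr 1
    rw [mul_inv_cancel_right, ← zpow_natCast, ← zpow_add]
    have : (m : ℤ) + -(m + 1 : ℤ) = -1 := by ring
    rw [this, zpow_neg_one]
  rw [h1]
  exact (unif_isInt_pow h m).mul (hx.mul hu.2)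

/-- An integral element of `Lˣ` is `ϖ ^ n * u` with `n : ℕ`. -/
lemma unif_exists_eq_of_isInt (h : IsUnif A F L ϖ) (x : Lˣ) (hx : IsInt A F L (x : L)) :
    ∃ n : ℕ, ∃ u ∈ intUnits A F L, x = ϖ ^ n * u := by
  obtain ⟨n, u, hu, rfl⟩ := unif_exists_eq h x
  rcases lt_or_ge n 0 with hn | hn
  · exact absurd hx (unif_not_isInt_of_neg h hn hu)
  · obtain ⟨m, rfl⟩ := Int.eq_ofNat_of_zero_le hn
    exact ⟨m, u, hu, by rw [zpow_natCast]⟩

/-- The integers of `L` form a valuation ring. -/
lemma unif_isInt_or_isInt_inv (h : IsUnif A F L ϖ) (x : L) :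
    IsInt A F L x ∨ IsInt A F L x⁻¹ := by
  rcases eq_or_ne x 0 with rfl | hx
  · exact Or.inl (isInt_zero A F L)
  obtain ⟨n, u, hu, hxu⟩ := unif_exists_eq h (Units.mk0 x hx)
  have hx' : x = ((ϖ ^ n * u : Lˣ) : L) := by rw [← hxu]; rfl
  rcases le_total 0 n with hn | hn
  · left
    obtain ⟨m, rfl⟩ := Int.eq_ofNat_of_zero_le hn
    rw [hx', Units.val_mul, zpow_natCast, Units.val_pow_eq_pow_val]
    exact (unif_isInt_pow h m).mul hu.1
  · right
    obtain ⟨m, hm⟩ : ∃ m : ℕ, -n = m := Int.eq_ofNat_of_zero_le (by omega)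
    have : x⁻¹ = (((ϖ ^ (m : ℤ) * u⁻¹ : Lˣ)) : L) := by
      rw [hx', ← Units.val_inv_eq_inv_val]
      congr 1
      rw [mul_inv, ← zpow_neg, hm]
    rw [this, Units.val_mul, zpow_natCast, Units.val_pow_eq_pow_val]
    exact (unif_isInt_pow h m).mul hu.2

/-- An integral element is a unit or divisible by `ϖ`. -/
lemma unif_unit_or_dvd (h : IsUnif A F L ϖ) (x : Lˣ) (hx : IsInt A F L (x : L)) :
    x ∈ intUnits A F L ∨ ∃ b : L, IsInt A F L b ∧ (x : L) = ϖ * b := by
  obtain ⟨n, u, hu, rfl⟩ := unif_exists_eq_of_isInt h x hx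
  rcases Nat.eq_zero_or_pos n with rfl | hn
  · left; simpa using hu
  · right
    obtain ⟨m, rfl⟩ : ∃ m, n = m + 1 := ⟨n - 1, by omega⟩
    refine ⟨(ϖ : L) ^ m * u, (unif_isInt_pow h m).mul hu.1, ?_⟩
    rw [Units.val_mul, Units.val_pow_eq_pow_val, pow_succ]
    ring

/-- A multiple of `ϖ` by an integral element is not an integral unit. -/
lemma unif_not_unit_of_dvd (h : IsUnif A F L ϖ) (x : Lˣ) {b : L} (hb : IsInt A F L b)
    (hxb : (x : L) = ϖ * b) : x ∉ intUnits A F L := by
  intro hx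
  apply unif_not_isInt_inv h
  have : ((ϖ⁻¹ : Lˣ) : L) = b * ((x⁻¹ : Lˣ) : L) := by
    have h1 : (x : L) * ((x⁻¹ : Lˣ) : L) = 1 := by simp
    have h2 : (ϖ : L) * ((ϖ⁻¹ : Lˣ) : L) = 1 := by simp
    have h3 : (ϖ : L) ≠ 0 := ϖ.ne_zero
    apply mul_left_cancel₀ h3
    rw [h2, ← mul_assoc, ← hxb, h1]
  rw [this]
  exact hb.mul hx.2

/-- `1 + ϖ b` is an integral unit. -/
lemma unif_one_add_mem (h : IsUnif A F L ϖ) {b : L} (hb : IsInt A F L b) (x : Lˣ)
    (hx : (x : L) = 1 + ϖ * b) : x ∈ intUnits A F L := by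
  have hxi : IsInt A F L (x : L) := by rw [hx]; exact (isInt_one A F L).add (h.1.mul hb)
  rcases unif_unit_or_dvd h x hxi with h1 | ⟨d, hd, hxd⟩
  · exact h1
  · exfalso
    -- 1 = ϖ (d - b)
    have h1 : (1 : L) = ϖ * (d - b) := by rw [mul_sub, ← hxd, hx]; ring
    have := unif_not_unit_of_dvd h 1 (hd.add hb.neg) (by simpa [sub_eq_add_neg] using h1)
    exact this (intUnits A F L).one_mem

/-- Separatedness: an element divisible by all powers of `ϖ` is zero. -/
lemma unif_eq_zero_of_forall_dvd (h : IsUnif A F L ϖ) (x : L)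
    (hx : ∀ k : ℕ, ∃ b : L, IsInt A F L b ∧ x = (ϖ : L) ^ k * b) : x = 0 := by
  by_contra hx0
  obtain ⟨n, u, hu, hxu⟩ := unif_exists_eq h (Units.mk0 x hx0)
  obtain ⟨b, hb, hxb⟩ := hx (n.toNat + 1)
  -- b = ϖ ^ (n - (n.toNat+1)) * u is not integral
  have hb0 : b ≠ 0 := by
    rintro rfl
    exact hx0 (by simpa using hxb)
  have hbu : Units.mk0 b hb0 = ϖ ^ (n - (n.toNat + 1 : ℕ)) * u := by
    have : Units.mk0 x hx0 = ϖ ^ ((n.toNat + 1 : ℕ) : ℤ) * Units.mk0 b hb0 := by
      ext
      simp only [Units.val_mk0, Units.val_mul, zpow_natCast, Units.val_pow_eq_pow_val]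
      exact hxb
    rw [this] at hxu
    rw [zpow_sub, mul_comm (ϖ ^ n), mul_assoc, ← hxu]
    group
  have hneg : n - ((n.toNat + 1 : ℕ) : ℤ) < 0 := by
    have := Int.self_le_toNat n
    push_cast
    omega
  have := unif_not_isInt_of_neg h hneg hu
  rw [← hbu] at this
  exact this hb

end Val

end Fermat.Agent.S55.Local.H294

end
-- ===== PACK-END S55/Local/H294/UR3Val.lean

-- ===== PACK-BEGIN S55/L/Unr534/Core.lean
section



/-!
# S55, layer L, unramified extensions (helper534): counting in the ring of integers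

Abstract setting: `A` a complete DVR with finite residue field, `K = Frac A` of characteristic
zero, `E / K` a finite extension, `C := integralClosure A E`.

* `card_quot_map534`    : `|C / 𝔪_A C| = Q ^ [E : K]`, `Q = |A / 𝔪_A|`;
* `card_residue_le534`  : `|C / 𝔪_C| ≤ Q ^ [E : K]`;
* `map_eq_of_card534`   : equality of cardinalities implies `𝔪_A C = 𝔪_C`.
-/

set_option autoImplicit false
set_option linter.style.haveILetI false
set_option linter.unusedSectionVars false

namespace Fermat.Agent.S55.L.Unr534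

open IsLocalRing Polynomial

section Core

variable (A K : Type) [CommRing A] [IsDomain A] [IsDiscreteValuationRing A]
  [IsAdicComplete (maximalIdeal A) A] [Finite (ResidueField A)] [Field K] [CharZero K]
  [Algebra A K] [IsFractionRing A K]
  (E : Type) [Field E] [Algebra K E] [FiniteDimensional K E] [Algebra A E] [IsScalarTower A K E]

/-- The ring of integers of `E`. -/
abbrev OE : Subalgebra A E := integralClosure A E

include K in
theorem isLocalRing_OE : IsLocalRing (OE A E) :=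
  H661.intClosure_isLocalRing A K E (OE A E)

include K in
theorem isDVR_OE : IsDiscreteValuationRing (OE A E) :=
  H661.intClosure_isDVR A K E (OE A E)

include K in
theorem finite_OE : Module.Finite A (OE A E) := H661.intClosure_finite A K E (OE A E)

include K in
theorem free_OE : Module.Free A (OE A E) := H661.intClosure_free A K E (OE A E)

include K in
theorem isLocalHom_OE : haveI := isLocalRing_OE A K E; IsLocalHom (algebraMap A (OE A E)) :=
  haveI := isLocalRing_OE A K E
  H661.intClosure_isLocalHom A K E (OE A E)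

include K in
theorem isAdicComplete_OE :
    haveI := isLocalRing_OE A K E; IsAdicComplete (maximalIdeal (OE A E)) (OE A E) :=
  haveI := isLocalRing_OE A K E
  H661.intClosure_isAdicComplete A K E (OE A E)

include K in
theorem finite_residueField_OE :
    haveI := isLocalRing_OE A K E; Finite (ResidueField (OE A E)) :=
  haveI := isLocalRing_OE A K E
  H661.intClosure_finite_residueField A K E (OE A E)

include K in
theorem map_maximalIdeal_le_OE :
    haveI := isLocalRing_OE A K E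
    (maximalIdeal A).map (algebraMap A (OE A E)) ≤ maximalIdeal (OE A E) :=
  haveI := isLocalRing_OE A K E
  H661.intClosure_map_maximalIdeal_le A K E (OE A E)

include K in
theorem finrank_OE : Module.finrank A (OE A E) = Module.finrank K E := by
  haveI : Module.IsTorsionFree A E := .trans_faithfulSMul A K E
  exact IsIntegralClosure.rank A K E (OE A E)

attribute [local instance] Ideal.Quotient.field in
/-- `|C / 𝔪_A C| = Q ^ [E : K]`. -/
theorem card_quot_map534 :
    Nat.card (OE A E ⧸ (maximalIdeal A).map (algebraMap A (OE A E))) =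
      Nat.card (ResidueField A) ^ Module.finrank K E := by
  haveI := finite_OE A K E
  haveI := free_OE A K E
  have h1 : Module.finrank (A ⧸ maximalIdeal A)
      (OE A E ⧸ (maximalIdeal A).map (algebraMap A (OE A E))) = Module.finrank A (OE A E) :=
    IsLocalRing.finrank_quotient_map
  haveI : Module.Finite (A ⧸ maximalIdeal A)
      (OE A E ⧸ (maximalIdeal A).map (algebraMap A (OE A E))) :=
    Module.Finite.of_restrictScalars_finite A _ _
  rw [Module.natCard_eq_pow_finrank (K := A ⧸ maximalIdeal A), h1, finrank_OE A K E]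
  rfl

include K in
/-- `|C / 𝔪_C| ≤ Q ^ [E : K]`. -/
theorem card_residue_le534 :
    haveI := isLocalRing_OE A K E
    Nat.card (ResidueField (OE A E)) ≤ Nat.card (ResidueField A) ^ Module.finrank K E := by
  haveI := isLocalRing_OE A K E
  have hle := map_maximalIdeal_le_OE A K E
  rw [← card_quot_map534 A K E]
  have hpos : 0 < Nat.card (ResidueField A) ^ Module.finrank K E :=
    pow_pos Nat.card_pos _
  haveI : Finite (OE A E ⧸ (maximalIdeal A).map (algebraMap A (OE A E))) := by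
    apply Nat.finite_of_card_ne_zero
    rw [card_quot_map534 A K E]
    exact hpos.ne'
  exact Nat.card_le_card_of_surjective (Ideal.Quotient.factor hle)
    (Ideal.Quotient.factor_surjective hle)

include K in
/-- If `|C / 𝔪_C| = Q ^ [E : K]` then `𝔪_A C = 𝔪_C`. -/
theorem map_eq_of_card534
    (h : haveI := isLocalRing_OE A K E
      Nat.card (ResidueField A) ^ Module.finrank K E ≤ Nat.card (ResidueField (OE A E))) :
    haveI := isLocalRing_OE A K E
    (maximalIdeal A).map (algebraMap A (OE A E)) = maximalIdeal (OE A E) := by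
  haveI := isLocalRing_OE A K E
  have hle := map_maximalIdeal_le_OE A K E
  have hpos : 0 < Nat.card (ResidueField A) ^ Module.finrank K E :=
    pow_pos Nat.card_pos _
  haveI : Finite (OE A E ⧸ (maximalIdeal A).map (algebraMap A (OE A E))) := by
    apply Nat.finite_of_card_ne_zero
    rw [card_quot_map534 A K E]
    exact hpos.ne'
  have hcard : Nat.card (OE A E ⧸ (maximalIdeal A).map (algebraMap A (OE A E))) ≤
      Nat.card (OE A E ⧸ maximalIdeal (OE A E)) := by
    rw [card_quot_map534 A K E]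
    exact h
  have hbij : Function.Bijective (Ideal.Quotient.factor hle) :=
    (Function.Surjective.bijective_of_nat_card_le (Ideal.Quotient.factor_surjective hle) hcard)
  refine le_antisymm hle fun x hx => ?_
  have h0 : Ideal.Quotient.factor hle (Ideal.Quotient.mk _ x) = 0 := by
    rw [Ideal.Quotient.factor_mk]
    exact Ideal.Quotient.eq_zero_iff_mem.mpr hx
  have h1 : (Ideal.Quotient.mk ((maximalIdeal A).map (algebraMap A (OE A E))) x) = 0 :=
    hbij.1 (by rw [h0, map_zero])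
  exact Ideal.Quotient.eq_zero_iff_mem.mp h1

end Core

end Fermat.Agent.S55.L.Unr534

end
-- ===== PACK-END S55/L/Unr534/Core.lean

-- ===== PACK-BEGIN S56/Euler/H896/HerbCore.lean
section
/-
S56 / W-BASE / leaf EUL-HERB (helper896), part 2: the abstract core (no number theory).

An abelian group `A` with an endomorphism `t`, stable subgroups `U ≤ E`, a "logarithm"
`φ : A → ℝ^X` and an "order map" `ψ : A → ℤ^Y`, with the formal properties of the unit theorem.
Conclusion: the characteristic polynomial of `t` on `E/pE` times `X - 1` is the product of the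
characteristic polynomials on `E[p]` and on the permutation modules `𝔽_p^X`, `𝔽_p^Y`.
-/




set_option autoImplicit false
set_option linter.style.haveILetI false
set_option linter.unusedSimpArgs false
set_option linter.unusedVariables false

namespace Fermat.Agent.S56.Euler.H896

open Polynomial TensorProduct

section Aux

variable {A : Type*} [AddCommGroup A]

/-- Restriction of an additive endomorphism to a stable subgroup, as a `ℤ`-linear map. -/
def resEnd (t : A →+ A) (H : AddSubgroup A) (h : ∀ a ∈ H, t a ∈ H) : ↥H →ₗ[ℤ] ↥H :=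
  ((t.comp H.subtype).codRestrict H (fun x => h x.1 x.2)).toIntLinearMap

@[simp] lemma resEnd_coe (t : A →+ A) (H : AddSubgroup A) (h : ∀ a ∈ H, t a ∈ H) (x : ↥H) :
    ((resEnd t H h x : ↥H) : A) = t x := rfl

/-- A middle term of a short exact sequence of abelian groups with finitely generated ends is
finitely generated. -/
theorem finite_of_exact {A' A A'' : Type*} [AddCommGroup A'] [AddCommGroup A] [AddCommGroup A'']
    [Module.Finite ℤ A'] [Module.Finite ℤ A'']
    (i : A' →ₗ[ℤ] A) (q : A →ₗ[ℤ] A'') (hex : Function.Exact i q) : Module.Finite ℤ A := by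
  haveI : IsNoetherian ℤ A := isNoetherian_of_range_eq_ker i q (LinearMap.exact_iff.mp hex).symm
  infer_instance

variable (p : ℕ) [Fact p.Prime]

/-- Any additive map to an `𝔽_p`-vector space kills the kernel of `a ↦ 1 ⊗ a`. -/
theorem map_eq_zero_of_one_tmul_eq_zero {Q : Type*} [AddCommGroup Q]
    [Module (ZMod p) Q] (π : A →+ Q) (a : A) (h : (1 : ZMod p) ⊗ₜ[ℤ] a = 0) : π a = 0 := by
  let l : ZMod p ⊗[ℤ] A →ₗ[ZMod p] Q :=
    LinearMap.liftBaseChange (ZMod p) π.toIntLinearMap
  have hl : l ((1 : ZMod p) ⊗ₜ[ℤ] a) = π a := by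
    simp [l]
  rw [h, map_zero] at hl
  exact hl.symm

/-- The kernel of `a ↦ 1 ⊗ a : A → 𝔽_p ⊗ A` is `pA`. -/
theorem exists_eq_nsmul_of_one_tmul_eq_zero (a : A) (h : (1 : ZMod p) ⊗ₜ[ℤ] a = 0) :
    ∃ b : A, a = p • b := by
  obtain ⟨H, hH⟩ : ∃ H : AddSubgroup A, H = (nsmulAddMonoidHom (α := A) p).range := ⟨_, rfl⟩
  have hH' : ∀ x : A, p • x ∈ H := fun x => by rw [hH]; exact ⟨x, rfl⟩
  letI inst : Module (ZMod p) (A ⧸ H) := QuotientAddGroup.zmodModule (n := p) (H := H) hH'
  have := map_eq_zero_of_one_tmul_eq_zero p (QuotientAddGroup.mk' H) a h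
  have : a ∈ H := (QuotientAddGroup.eq_zero_iff a).mp this
  rw [hH] at this
  obtain ⟨b, hb⟩ := this
  exact ⟨b, hb.symm⟩

/-- **T4 in `cpMod` form**: for a finite abelian group `M` with endomorphism `f`, any model
`(W, ι, gμ)` of the `p`-torsion `M[p]` computes `cpMod p f`. -/
theorem cpMod_eq_charpoly_of_torsion_model {M : Type*} [AddCommGroup M] [Finite M]
    (f : M →ₗ[ℤ] M)
    {W : Type*} [AddCommGroup W] [Module (ZMod p) W] [Module.Finite (ZMod p) W]
    (gμ : W →ₗ[ZMod p] W) (ι : W →+ M) (hι : Function.Injective ι)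
    (hιr : ∀ a, p • a = 0 → a ∈ ι.range) (hgμ : ∀ w, ι (gμ w) = f (ι w)) :
    cpMod p f = gμ.charpoly := by
  classical
  haveI : Finite W := Finite.of_injective ι hι
  haveI : Finite (ZMod p ⊗[ℤ] M) := Module.finite_of_finite (ZMod p)
  let π : M →+ ZMod p ⊗[ℤ] M :=
    { toFun := fun a => (1 : ZMod p) ⊗ₜ[ℤ] a
      map_zero' := by simp
      map_add' := fun a b => TensorProduct.tmul_add _ _ _ }
  symm
  unfold cpMod
  apply Fermat.Agent.S56.H486.t4_charpoly_torsion_eq_cotorsion p f.toAddMonoidHom gμ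
    (f.baseChange (ZMod p)) ι π hι
  · intro a
    constructor
    · rintro ⟨w, rfl⟩
      rw [← map_nsmul]
      have : p • w = 0 := by
        rw [← Nat.cast_smul_eq_nsmul (ZMod p)]
        simp
      rw [this, map_zero]
    · exact hιr a
  · intro x
    obtain ⟨a, rfl⟩ := exists_one_tmul p x
    exact ⟨a, rfl⟩
  · intro a
    constructor
    · exact exists_eq_nsmul_of_one_tmul_eq_zero p a
    · rintro ⟨b, rfl⟩
      change (1 : ZMod p) ⊗ₜ[ℤ] (p • b) = 0
      rw [← Nat.cast_smul_eq_nsmul ℤ, TensorProduct.tmul_smul, TensorProduct.smul_tmul']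
      simp
  · intro w
    exact hgμ w
  · intro a
    change (1 : ZMod p) ⊗ₜ[ℤ] (f a) = (f.baseChange (ZMod p)) ((1 : ZMod p) ⊗ₜ[ℤ] a)
    rw [LinearMap.baseChange_tmul]

end Aux

/-! ## The two integral identities -/

section Integral

/-- The characteristic polynomial of the identity of `R` is `X - 1`. -/
theorem charpoly_id_self (R : Type*) [CommRing R] [Nontrivial R] :
    (LinearMap.id : R →ₗ[R] R).charpoly = Polynomial.X - 1 := by
  have h := LinearMap.charpoly_one (R := R) (M := R)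
  rw [Module.finrank_self, pow_one] at h
  exact h

/-- **Logarithmic lattice.**  If `Λ = ⊕ ℤ b i` is a lattice in the trace-zero hyperplane of `ℝ^I`,
stable under the permutation `s`, then `charpoly(s | Λ) · (X - 1) = charpoly(s | ℤ^I)`. -/
theorem charpoly_logLattice {I : Type*} [Fintype I] [Nonempty I] (sX : I → I)
    (hsX : Function.Bijective sX)
    (r : ℕ) (b : Fin r → I → ℝ) (hb : LinearIndependent ℝ b)
    (hspan : Submodule.span ℝ (Set.range b) =
      LinearMap.ker (∑ w : I, LinearMap.proj w : (I → ℝ) →ₗ[ℝ] ℝ))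
    (hstab : ∀ x ∈ Submodule.span ℤ (Set.range b),
      ((permLin ℝ sX).restrictScalars ℤ) x ∈ Submodule.span ℤ (Set.range b))
    [Module.Free ℤ ↥(Submodule.span ℤ (Set.range b))]
    [Module.Finite ℤ ↥(Submodule.span ℤ (Set.range b))] :
    (((permLin ℝ sX).restrictScalars ℤ).restrict hstab).charpoly * (Polynomial.X - 1) =
      (permLin ℤ sX).charpoly := by
  classical
  have hSapp : ∀ a : I → ℝ, (∑ w : I, LinearMap.proj w : (I → ℝ) →ₗ[ℝ] ℝ) a = ∑ w, a w := by
    intro a
    simp [LinearMap.sum_apply]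
  generalize (∑ w : I, LinearMap.proj w : (I → ℝ) →ₗ[ℝ] ℝ) = S at hspan hSapp
  have hbℤ : LinearIndependent ℤ b := hb.restrict_scalars' ℤ
  let bΛ : Module.Basis (Fin r) ℤ (Submodule.span ℤ (Set.range b)) := Module.Basis.span hbℤ
  let bW : Module.Basis (Fin r) ℝ (LinearMap.ker S) :=
    (Module.Basis.span hb).map (LinearEquiv.ofEq _ _ hspan)
  have hsum : ∀ a : I → ℝ, S (permLin ℝ sX a) = S a := by
    intro a
    rw [hSapp, hSapp]
    exact Function.Bijective.sum_comp hsX a
  have hstabW : ∀ x ∈ LinearMap.ker S, permLin ℝ sX x ∈ LinearMap.ker S := by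
    intro x hx
    rw [LinearMap.mem_ker] at hx ⊢
    rw [hsum, hx]
  have hΛW : ∀ x : (Submodule.span ℤ (Set.range b)), (x : I → ℝ) ∈ LinearMap.ker S := by
    intro x
    rw [← hspan]
    exact Submodule.span_subset_span ℤ ℝ _ x.2
  let j : (Submodule.span ℤ (Set.range b)) →ₗ[ℤ] (LinearMap.ker S) :=
    { toFun := fun x => ⟨x.1, hΛW x⟩
      map_add' := fun x y => rfl
      map_smul' := fun c x => by
        apply Subtype.ext
        simp }
  have hj : ∀ i, j (bΛ i) = bW i := by
    intro i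
    apply Subtype.ext
    change ((Module.Basis.span hbℤ i : Submodule.span ℤ (Set.range b)) : I → ℝ) =
      (((Module.Basis.span hb).map (LinearEquiv.ofEq _ _ hspan) i : LinearMap.ker S) : I → ℝ)
    rw [Module.Basis.span_apply, Module.Basis.map_apply]
    change b i = ((Module.Basis.span hb i : Submodule.span ℝ (Set.range b)) : I → ℝ)
    rw [Module.Basis.span_apply]
  have e1 := charpoly_map_of_basis bΛ bW j hj
    (((permLin ℝ sX).restrictScalars ℤ).restrict hstab) ((permLin ℝ sX).restrict hstabW)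
    (fun x => rfl)
  have hSsurj : Function.Surjective S := by
    intro c
    obtain ⟨x₀⟩ := ‹Nonempty I›
    refine ⟨Pi.single x₀ c, ?_⟩
    rw [hSapp]
    simp
  have e2 := charpoly_of_exact (LinearMap.ker S).subtype S (Submodule.injective_subtype _) hSsurj
    (by
      rw [LinearMap.exact_iff]
      simp)
    ((permLin ℝ sX).restrict hstabW) (permLin ℝ sX) LinearMap.id (fun x => rfl) hsum
  rw [charpoly_id_self] at e2
  have e3 := permLin_charpoly_map ℤ ℝ sX
  apply Polynomial.map_injective (algebraMap ℤ ℝ) (by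
    intro a b hab
    exact_mod_cast hab)
  rw [Polynomial.map_mul, ← e1, ← e3, e2]
  simp

/-- **Order lattice.**  A permutation-stable sublattice of finite index of `ℤ^Y` has the same
characteristic polynomial as `ℤ^Y`. -/
theorem charpoly_finiteIndex {J : Type*} [Fintype J] (sY : J → J)
    (Λ : Submodule ℤ (J → ℤ)) (hidx : Λ.toAddSubgroup.index ≠ 0)
    (hstab : ∀ x ∈ Λ, permLin ℤ sY x ∈ Λ) :
    ((permLin ℤ sY).restrict hstab).charpoly = (permLin ℤ sY).charpoly := by
  classical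
  set m : ℕ := Λ.toAddSubgroup.index with hm
  have hmem : ∀ x : J → ℤ, (m : ℤ) • x ∈ Λ := by
    intro x
    have := AddSubgroup.nsmul_index_mem Λ.toAddSubgroup x
    rw [← hm] at this
    rw [Nat.cast_smul_eq_nsmul ℤ]
    exact this
  let k : (J → ℤ) →ₗ[ℤ] Λ :=
    LinearMap.codRestrict Λ ((m : ℤ) • (LinearMap.id : (J → ℤ) →ₗ[ℤ] (J → ℤ))) hmem
  apply charpoly_eq_of_isogeny Λ.subtype k (m : ℤ) (by exact_mod_cast hidx)
  · intro x
    rfl
  · intro x
    apply Subtype.ext
    rfl
  · intro x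
    rfl

end Integral

/-! ## The core theorem -/

section Core

variable {A : Type*} [AddCommGroup A]

/-- **HERB, abstract core.** -/
theorem herb_core
    (t : A →+ A) (U E : AddSubgroup A)
    (hU : ∀ a ∈ U, t a ∈ U) (hE : ∀ a ∈ E, t a ∈ E)
    {I J : Type*} [Fintype I] [Nonempty I] [Fintype J]
    (sX : I → I) (hsX : Function.Bijective sX) (sY : J → J)
    (φ : A →+ (I → ℝ)) (hφ : ∀ a, φ (t a) = fun x => φ a (sX x))
    (hφfin : Finite ↥(φ.ker ⊓ U))
    (r : ℕ) (b : Fin r → I → ℝ) (hb : LinearIndependent ℝ b)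
    (hspan : Submodule.span ℝ (Set.range b) =
      LinearMap.ker (∑ w : I, LinearMap.proj w : (I → ℝ) →ₗ[ℝ] ℝ))
    (hUφ : U.map φ = (Submodule.span ℤ (Set.range b)).toAddSubgroup)
    (ψ : A →+ (J → ℤ)) (hψ : ∀ a, ψ (t a) = fun y => ψ a (sY y))
    (hker : ψ.ker ⊓ E = U) (hidx : (E.map ψ).index ≠ 0)
    (p : ℕ) [Fact p.Prime]
    {V : Type*} [AddCommGroup V] [Module (ZMod p) V] [Module.Finite (ZMod p) V]
    (g : V →ₗ[ZMod p] V) (π : ↥E →+ V) (hπ : Function.Surjective π)
    (hπk : ∀ a, π a = 0 → ∃ b, a = p • b)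
    (hg : ∀ a b : ↥E, (b : A) = t a → π b = g (π a))
    {W : Type*} [AddCommGroup W] [Module (ZMod p) W] [Module.Finite (ZMod p) W]
    (gμ : W →ₗ[ZMod p] W) (ι : W →+ A) (hι : Function.Injective ι)
    (hιr : ∀ a, a ∈ ι.range ↔ a ∈ E ∧ p • a = 0)
    (hgμ : ∀ w, ι (gμ w) = t (ι w)) :
    g.charpoly * (Polynomial.X - 1) =
      gμ.charpoly * (permLin (ZMod p) sX).charpoly * (permLin (ZMod p) sY).charpoly := by
  classical
  -- the subgroups
  obtain ⟨μ, hμdef⟩ : ∃ μ : AddSubgroup A, μ = φ.ker ⊓ U := ⟨_, rfl⟩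
  have hμmem : ∀ a, a ∈ μ ↔ φ a = 0 ∧ a ∈ U := by
    intro a
    rw [hμdef, AddSubgroup.mem_inf, AddMonoidHom.mem_ker]
  have hUmem : ∀ a, a ∈ U ↔ ψ a = 0 ∧ a ∈ E := by
    intro a
    rw [← hker, AddSubgroup.mem_inf, AddMonoidHom.mem_ker]
  have hμU : μ ≤ U := fun a ha => ((hμmem a).1 ha).2
  have hUE : U ≤ E := fun a ha => ((hUmem a).1 ha).2
  have hμ : ∀ a ∈ μ, t a ∈ μ := by
    intro a ha
    obtain ⟨ha1, ha2⟩ := (hμmem a).1 ha
    refine (hμmem _).2 ⟨?_, hU a ha2⟩
    rw [hφ, ha1]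
    rfl
  haveI : Finite ↥μ := by rw [hμdef]; exact hφfin
  -- the lattice `Λ = φ(U)`
  obtain ⟨Λ, hΛdef⟩ : ∃ Λ : Submodule ℤ (I → ℝ), Λ = Submodule.span ℤ (Set.range b) := ⟨_, rfl⟩
  have hΛmem : ∀ x, x ∈ Λ ↔ ∃ u ∈ U, φ u = x := by
    intro x
    rw [hΛdef, ← Submodule.mem_toAddSubgroup, ← hUφ]
    rfl
  have hstabΛ : ∀ x ∈ Λ, ((permLin ℝ sX).restrictScalars ℤ) x ∈ Λ := by
    intro x hx
    obtain ⟨u, hu, rfl⟩ := (hΛmem x).1 hx
    exact (hΛmem _).2 ⟨t u, hU u hu, by rw [hφ]; rfl⟩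
  haveI : Module.Free ℤ Λ := by
    rw [hΛdef]
    exact Module.Free.of_basis (Module.Basis.span (hb.restrict_scalars' ℤ))
  haveI : Module.Finite ℤ Λ := by
    rw [hΛdef]
    exact Module.Finite.span_of_finite ℤ (Set.finite_range b)
  -- the lattice `ΛE = ψ(E)`
  obtain ⟨ΛE, hΛEdef⟩ : ∃ ΛE : Submodule ℤ (J → ℤ), ΛE = AddSubgroup.toIntSubmodule (E.map ψ) :=
    ⟨_, rfl⟩
  have hΛEmem : ∀ x, x ∈ ΛE ↔ ∃ u ∈ E, ψ u = x := by
    intro x
    rw [hΛEdef]
    rfl
  have hstabΛE : ∀ x ∈ ΛE, permLin ℤ sY x ∈ ΛE := by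
    intro x hx
    obtain ⟨u, hu, rfl⟩ := (hΛEmem x).1 hx
    exact (hΛEmem _).2 ⟨t u, hE u hu, by rw [hψ]; rfl⟩
  have hΛEidx : ΛE.toAddSubgroup.index ≠ 0 := by
    rw [hΛEdef]
    exact hidx
  -- the maps
  let iμ : ↥μ →ₗ[ℤ] ↥U := (AddSubgroup.inclusion hμU).toIntLinearMap
  let qU : ↥U →ₗ[ℤ] ↥Λ :=
    { toFun := fun u => ⟨φ u, (hΛmem _).2 ⟨u, u.2, rfl⟩⟩
      map_add' := fun x y => by
        apply Subtype.ext
        simp
      map_smul' := fun c x => by
        apply Subtype.ext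
        simp }
  let iU : ↥U →ₗ[ℤ] ↥E := (AddSubgroup.inclusion hUE).toIntLinearMap
  let qE : ↥E →ₗ[ℤ] ↥ΛE :=
    { toFun := fun u => ⟨ψ u, (hΛEmem _).2 ⟨u, u.2, rfl⟩⟩
      map_add' := fun x y => by
        apply Subtype.ext
        simp
      map_smul' := fun c x => by
        apply Subtype.ext
        simp }
  have hiμ : Function.Injective iμ := AddSubgroup.inclusion_injective hμU
  have hiU : Function.Injective iU := AddSubgroup.inclusion_injective hUE
  have hqU : Function.Surjective qU := by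
    rintro ⟨x, hx⟩
    obtain ⟨u, hu, rfl⟩ := (hΛmem x).1 hx
    exact ⟨⟨u, hu⟩, rfl⟩
  have hqE : Function.Surjective qE := by
    rintro ⟨x, hx⟩
    obtain ⟨u, hu, rfl⟩ := (hΛEmem x).1 hx
    exact ⟨⟨u, hu⟩, rfl⟩
  have hexU : Function.Exact iμ qU := by
    intro u
    constructor
    · intro h
      have h' : φ (u : A) = 0 := congrArg Subtype.val h
      exact ⟨⟨u.1, (hμmem _).2 ⟨h', u.2⟩⟩, rfl⟩
    · rintro ⟨m, rfl⟩
      apply Subtype.ext
      exact ((hμmem _).1 m.2).1
  have hexE : Function.Exact iU qE := by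
    intro u
    constructor
    · intro h
      have h' : ψ (u : A) = 0 := congrArg Subtype.val h
      exact ⟨⟨u.1, (hUmem _).2 ⟨h', u.2⟩⟩, rfl⟩
    · rintro ⟨m, rfl⟩
      apply Subtype.ext
      exact ((hUmem _).1 m.2).1
  -- finiteness
  haveI : Module.Finite ℤ ↥μ := Module.Finite.of_finite
  haveI : Module.Finite ℤ ↥U := finite_of_exact iμ qU hexU
  haveI : Module.Finite ℤ ↥ΛE := inferInstance
  haveI : Module.Free ℤ ↥ΛE := inferInstance
  haveI : Module.Finite ℤ ↥E := finite_of_exact iU qE hexE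
  -- the chain of identities mod `p`
  have c1 : g.charpoly = cpMod p (resEnd t E hE) :=
    charpoly_eq_cpMod_of_model p (resEnd t E hE) g π hπ hπk (fun a => hg a _ rfl)
  have c2 : cpMod p (resEnd t E hE) =
      cpMod p (resEnd t U hU) * cpMod p ((permLin ℤ sY).restrict hstabΛE) :=
    cpMod_of_exact p iU qE hiU hqE hexE (resEnd t U hU) (resEnd t E hE)
      ((permLin ℤ sY).restrict hstabΛE) (fun x => rfl)
      (fun x => by
        apply Subtype.ext
        change ψ (t x) = _
        rw [hψ]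
        rfl)
  have c3 : cpMod p (resEnd t U hU) =
      cpMod p (resEnd t μ hμ) * cpMod p (((permLin ℝ sX).restrictScalars ℤ).restrict hstabΛ) :=
    cpMod_of_exact p iμ qU hiμ hqU hexU (resEnd t μ hμ) (resEnd t U hU)
      (((permLin ℝ sX).restrictScalars ℤ).restrict hstabΛ) (fun x => rfl)
      (fun x => by
        apply Subtype.ext
        change φ (t x) = _
        rw [hφ]
        rfl)
  -- the torsion part
  have hιμ : ∀ w, ι w ∈ μ := by
    intro w
    obtain ⟨hwE, hwp⟩ := (hιr (ι w)).1 ⟨w, rfl⟩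
    have h1 : ψ (ι w) = 0 := by
      have : p • ψ (ι w) = 0 := by rw [← map_nsmul, hwp, map_zero]
      have hp0 : (p : ℤ) ≠ 0 := by exact_mod_cast (Fact.out : p.Prime).ne_zero
      funext y
      have := congrFun this y
      simp only [Pi.smul_apply, Pi.zero_apply, smul_eq_mul, nsmul_eq_mul] at this
      rcases mul_eq_zero.mp this with h | h
      · exact absurd h hp0
      · exact h
    have h2 : φ (ι w) = 0 := by
      have : p • φ (ι w) = 0 := by rw [← map_nsmul, hwp, map_zero]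
      have hp0 : (p : ℝ) ≠ 0 := by exact_mod_cast (Fact.out : p.Prime).ne_zero
      funext y
      have := congrFun this y
      simp only [Pi.smul_apply, Pi.zero_apply, nsmul_eq_mul] at this
      rcases mul_eq_zero.mp this with h | h
      · exact absurd h hp0
      · exact h
    exact (hμmem _).2 ⟨h2, (hUmem _).2 ⟨h1, hwE⟩⟩
  let ι' : W →+ ↥μ := ι.codRestrict μ hιμ
  have c4 : cpMod p (resEnd t μ hμ) = gμ.charpoly := by
    apply cpMod_eq_charpoly_of_torsion_model p (resEnd t μ hμ) gμ ι'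
    · intro x y hxy
      exact hι (congrArg Subtype.val hxy)
    · intro a ha
      have ha' : p • (a : A) = 0 := by
        have := congrArg Subtype.val ha
        simpa using this
      obtain ⟨w, hw⟩ := (hιr (a : A)).2 ⟨hUE (hμU a.2), ha'⟩
      exact ⟨w, Subtype.ext hw⟩
    · intro w
      apply Subtype.ext
      exact hgμ w
  -- the integral identities
  have z1 : (((permLin ℝ sX).restrictScalars ℤ).restrict hstabΛ).charpoly * (Polynomial.X - 1) =
      (permLin ℤ sX).charpoly := by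
    subst hΛdef
    exact charpoly_logLattice sX hsX r b hb hspan hstabΛ
  have z2 : ((permLin ℤ sY).restrict hstabΛE).charpoly = (permLin ℤ sY).charpoly :=
    charpoly_finiteIndex sY ΛE hΛEidx hstabΛE
  -- assembly
  rw [c1, c2, c3, c4, cpMod_free, cpMod_free, z2, permLin_charpoly_map ℤ (ZMod p) sX,
    permLin_charpoly_map ℤ (ZMod p) sY, ← z1, Polynomial.map_mul]
  have hX : ((Polynomial.X - 1 : ℤ[X])).map (algebraMap ℤ (ZMod p)) = Polynomial.X - 1 := by
    simp
  rw [hX]
  have hcast : (Int.castRingHom (ZMod p)) = algebraMap ℤ (ZMod p) := rfl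
  rw [hcast]
  ring

end Core

end Fermat.Agent.S56.Euler.H896

end
-- ===== PACK-END S56/Euler/H896/HerbCore.lean

-- ===== PACK-BEGIN S56/Euler/H7/Key.lean
section


/-!
# S56 / Euler / IND — leaf KEY (helper7)

`key_of : CompSeriesStatement → UniqStatement → KeyStatement`.

Composition factors of all `W i`, indexed by `Ω = Σ i, Fin (r i)`; the setoid `RepIso` on `Ω`;
representatives `S q` of the classes; multiplicities by summing over the fibres.  Additive
invariants and characteristic polynomials are isomorphism invariant.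
-/

set_option autoImplicit false

open Polynomial

noncomputable section

namespace Fermat.Agent.S56.Euler.H7

open Fermat.Agent.S56.Euler

variable {k G : Type} [Field k] [Group G]

/-! ### `RepIso` is an equivalence relation, invariance -/

theorem repIso_refl (A : FDRepData k G) : RepIso A A :=
  ⟨LinearEquiv.refl k A.V, fun _ _ => rfl⟩

theorem repIso_symm {A B : FDRepData k G} (h : RepIso A B) : RepIso B A := by
  obtain ⟨e, he⟩ := h
  refine ⟨e.symm, fun g b => ?_⟩
  apply e.injective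
  rw [he, LinearEquiv.apply_symm_apply, LinearEquiv.apply_symm_apply]

theorem repIso_trans {A B C : FDRepData k G} (h : RepIso A B) (h' : RepIso B C) :
    RepIso A C := by
  obtain ⟨e, he⟩ := h
  obtain ⟨e', he'⟩ := h'
  exact ⟨e.trans e', fun g a => by
    rw [LinearEquiv.trans_apply, LinearEquiv.trans_apply, he, he']⟩

/-- Isomorphic representations have the same characteristic polynomials. -/
theorem charpoly_eq_of_repIso {A B : FDRepData k G} (h : RepIso A B) (g : G) :
    LinearMap.charpoly (A.ρ g) = LinearMap.charpoly (B.ρ g) := by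
  obtain ⟨e, he⟩ := h
  rw [← LinearEquiv.charpoly_conj e (A.ρ g)]
  congr 1
  apply LinearMap.ext
  intro b
  rw [LinearEquiv.conj_apply_apply, he, LinearEquiv.apply_symm_apply]

/-- The zero representation. -/
def zeroRep (k G : Type) [Field k] [Group G] : FDRepData k G where
  V := PUnit
  ρ := 1

theorem subsingleton_zeroRep : Subsingleton (zeroRep k G).V :=
  inferInstanceAs (Subsingleton PUnit)

/-- Additive invariants vanish on the zero representation. -/
theorem additive_zeroRep {f : RepInv k G} (hf : IsAdditiveInv f) : f (zeroRep k G) = 0 := by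
  have := subsingleton_zeroRep (k := k) (G := G)
  have h := hf (zeroRep k G) (zeroRep k G) (zeroRep k G) 0 0
    { equivar_i := fun _ _ => rfl
      equivar_q := fun _ _ => rfl
      inj := fun _ _ _ => Subsingleton.elim _ _
      surj := fun c => ⟨c, Subsingleton.elim _ _⟩
      exact := by
        ext x
        simp only [LinearMap.mem_range, LinearMap.mem_ker, LinearMap.zero_apply, exists_const]
        exact ⟨fun _ => trivial, fun _ => Subsingleton.elim _ _⟩ }
  linarith

/-- Additive invariants are isomorphism invariant. -/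
theorem additive_eq_of_repIso {f : RepInv k G} (hf : IsAdditiveInv f) {A B : FDRepData k G}
    (h : RepIso A B) : f A = f B := by
  obtain ⟨e, he⟩ := h
  have := subsingleton_zeroRep (k := k) (G := G)
  have h1 := hf (zeroRep k G) A B 0 e.toLinearMap
    { equivar_i := fun g a => by
        rw [LinearMap.zero_apply, LinearMap.zero_apply, map_zero]
      equivar_q := fun g a => he g a
      inj := fun _ _ _ => Subsingleton.elim _ _
      surj := e.surjective
      exact := by
        rw [LinearMap.range_zero]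
        exact (LinearMap.ker_eq_bot.mpr e.injective).symm }
  rw [additive_zeroRep hf, zero_add] at h1
  exact h1

/-! ### The main glue -/

/-- **KEY** from COMP and UNIQ. -/
theorem key_of (hComp : CompSeriesStatement) (hUniq : UniqStatement) : KeyStatement := by
  intro p _ G _ _ I _ W n n' hprod f hf
  classical
  -- composition factors
  choose r T hTsimple hTadd hTchar using fun i => hComp (ZMod p) G (W i)
  let Ω : Type := Σ i : I, Fin (r i)
  let TΩ : Ω → FDRepData (ZMod p) G := fun ω => T ω.1 ω.2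
  let s : Setoid Ω :=
    { r := fun ω ω' => RepIso (TΩ ω) (TΩ ω')
      iseqv := ⟨fun ω => repIso_refl _, fun h => repIso_symm h, fun h h' => repIso_trans h h'⟩ }
  let Q : Type := Quotient s
  let S : Q → FDRepData (ZMod p) G := fun q => TΩ (Quotient.out q)
  have hSsimple : ∀ q, IsSimpleRep (S q) := fun q => hTsimple _ _
  have hSinj : ∀ q q', RepIso (S q) (S q') → q = q' := by
    intro q q' h
    have h1 : (⟦Quotient.out q⟧ : Q) = ⟦Quotient.out q'⟧ := Quotient.sound h
    rwa [Quotient.out_eq, Quotient.out_eq] at h1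
  have hiso : ∀ ω : Ω, RepIso (TΩ ω) (S ⟦ω⟧) := fun ω =>
    repIso_symm (Quotient.exact (Quotient.out_eq (⟦ω⟧ : Q)))
  -- multiplicities
  let mult : (I → ℕ) → Q → ℕ := fun a q =>
    ∑ ω ∈ Finset.univ.filter (fun ω : Ω => (⟦ω⟧ : Q) = q), a ω.1
  -- products of characteristic polynomials
  have hchar : ∀ (a : I → ℕ) (g : G),
      ∏ i, LinearMap.charpoly ((W i).ρ g) ^ a i =
        ∏ q, LinearMap.charpoly ((S q).ρ g) ^ mult a q := by
    intro a g
    calc ∏ i, LinearMap.charpoly ((W i).ρ g) ^ a i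
        = ∏ i, ∏ j, LinearMap.charpoly ((T i j).ρ g) ^ a i := by
          refine Finset.prod_congr rfl fun i _ => ?_
          rw [hTchar i g, Finset.prod_pow]
      _ = ∏ ω : Ω, LinearMap.charpoly ((TΩ ω).ρ g) ^ a ω.1 := by
          rw [← Finset.univ_sigma_univ, Finset.prod_sigma]
      _ = ∏ q, ∏ ω ∈ Finset.univ.filter (fun ω : Ω => (⟦ω⟧ : Q) = q),
            LinearMap.charpoly ((TΩ ω).ρ g) ^ a ω.1 :=
          (Finset.prod_fiberwise Finset.univ (fun ω : Ω => (⟦ω⟧ : Q)) _).symm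
      _ = ∏ q, LinearMap.charpoly ((S q).ρ g) ^ mult a q := by
          refine Finset.prod_congr rfl fun q _ => ?_
          rw [← Finset.prod_pow_eq_pow_sum]
          refine Finset.prod_congr rfl fun ω hω => ?_
          rw [Finset.mem_filter] at hω
          rw [charpoly_eq_of_repIso (hiso ω) g, hω.2]
  -- sums of the invariant
  have hsum : ∀ a : I → ℕ,
      ∑ i, (a i : ℤ) * f (W i) = ∑ q, (mult a q : ℤ) * f (S q) := by
    intro a
    calc ∑ i, (a i : ℤ) * f (W i)
        = ∑ i, ∑ j, (a i : ℤ) * f (T i j) := by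
          refine Finset.sum_congr rfl fun i _ => ?_
          rw [hTadd i f hf, Finset.mul_sum]
      _ = ∑ ω : Ω, (a ω.1 : ℤ) * f (TΩ ω) := by
          rw [← Finset.univ_sigma_univ, Finset.sum_sigma]
      _ = ∑ q, ∑ ω ∈ Finset.univ.filter (fun ω : Ω => (⟦ω⟧ : Q) = q),
            (a ω.1 : ℤ) * f (TΩ ω) :=
          (Finset.sum_fiberwise Finset.univ (fun ω : Ω => (⟦ω⟧ : Q)) _).symm
      _ = ∑ q, (mult a q : ℤ) * f (S q) := by
          refine Finset.sum_congr rfl fun q _ => ?_
          simp only [mult]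
          rw [Nat.cast_sum, Finset.sum_mul]
          refine Finset.sum_congr rfl fun ω hω => ?_
          rw [Finset.mem_filter] at hω
          rw [additive_eq_of_repIso hf (hiso ω), hω.2]
  -- uniqueness of the multiplicities
  have hm : mult n = mult n' := by
    apply hUniq p G Q S hSsimple hSinj
    intro g hg
    rw [← hchar n g, ← hchar n' g]
    exact hprod g hg
  rw [hsum n, hsum n', hm]

end Fermat.Agent.S56.Euler.H7

end

end
-- ===== PACK-END S56/Euler/H7/Key.lean

-- ===== PACK-BEGIN S56/H846/FLCnt/Maschke.lean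
section


/-!
# FL-CNT: `W` is a semisimple `𝔽_p[Γ/W]`-module (Maschke), in group language
(helper846)  Mathlib only, nothing unproved.
-/

set_option autoImplicit false
set_option linter.unusedSectionVars false
set_option linter.style.haveILetI false
set_option linter.unusedVariables false

namespace Fermat.Agent.S56.H846.FLCnt

variable {Γ k Z : Type} [Group Γ] [Field k] [AddCommGroup Z] [Module k Z]

/-- the pair of cocycles -/
def cc (D : Data Γ k Z) (w : Γ) : Z × Z := (D.c₁ w, D.c₂ w)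

namespace Hyp

variable {p : ℕ} [Fact p.Prime] {D : Data Γ k Z} (h : _root_.Fermat.Agent.S56.H846.FLCnt.Hyp p D)
include h

theorem cc_one : cc D 1 = 0 := by
  simp [cc, h.isCoc₁.one, h.isCoc₂.one]

theorem cc_mul {w w' : Γ} (hw : w ∈ D.W) (hw' : w' ∈ D.W) :
    cc D (w * w') = cc D w + cc D w' := by
  simp [cc, h.c₁_mul w hw w' hw', h.c₂_mul w hw w' hw']

theorem cc_inv {w : Γ} (hw : w ∈ D.W) : cc D w⁻¹ = - cc D w := by
  simp [cc, h.isCoc₁.inv hw, h.isCoc₂.inv hw]

theorem cc_conj (g : Γ) {w : Γ} (hw : w ∈ D.W) :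
    cc D (g * w * g⁻¹) = (D.ρ g (cc D w).1, D.ρ g (cc D w).2) := by
  simp [cc, h.c₁_conj g w hw, h.c₂_conj g w hw]

theorem cc_eq_zero {w : Γ} (hw : w ∈ D.W) (h0 : cc D w = 0) : w = 1 :=
  h.c_inj w hw (congrArg Prod.fst h0) (congrArg Prod.snd h0)

/-- **Maschke**: every `Γ`-normal subgroup of `W` has a `Γ`-normal complement in `W`. -/
theorem exists_compl [Finite Γ] {X : Subgroup Γ} (hX : X.Normal) (hXW : X ≤ D.W) :
    ∃ N' : Subgroup Γ, N'.Normal ∧ N' ≤ D.W ∧ (∀ w, w ∈ X → w ∈ N' → w = 1) ∧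
      (∀ w ∈ D.W, ∃ x ∈ X, ∃ n ∈ N', w = x * n) := by
  classical
  haveI := h.W_normal
  letI : Module (ZMod p) Z := AddCommGroup.zmodModule h.p_nsmul
  -- the representation of `Γ` on `Z × Z`
  let ρ₂ : Γ →* ((Z × Z) →ₗ[ZMod p] (Z × Z)) :=
    { toFun := fun g => AddMonoidHom.toZModLinearMap p
        (((D.ρ g).prodMap (D.ρ g) : (Z × Z) →ₗ[k] (Z × Z)) : (Z × Z) →+ (Z × Z))
      map_one' := by
        apply LinearMap.ext
        intro v
        show ((D.ρ 1) v.1, (D.ρ 1) v.2) = v
        rw [map_one]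
        rfl
      map_mul' := fun g g' => by
        apply LinearMap.ext
        intro v
        show ((D.ρ (g * g')) v.1, (D.ρ (g * g')) v.2) =
          ((D.ρ g) ((D.ρ g') v.1), (D.ρ g) ((D.ρ g') v.2))
        rw [map_mul]
        rfl }
  have hρ₂ : ∀ (g : Γ) (v : Z × Z), (ρ₂ g : (Z × Z) →ₗ[ZMod p] (Z × Z)) v =
      (D.ρ g v.1, D.ρ g v.2) := fun g v => rfl
  have hker : D.W ≤ ρ₂.ker := fun w hw => by
    rw [MonoidHom.mem_ker]
    apply LinearMap.ext
    intro v
    rw [hρ₂, h.ρ_W w hw]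
    rfl
  let ρq : Representation (ZMod p) (Γ ⧸ D.W) (Z × Z) := QuotientGroup.lift D.W ρ₂ hker
  have hρq : ∀ (g : Γ) (v : Z × Z), (ρq (g : Γ ⧸ D.W) : (Z × Z) →ₗ[ZMod p] (Z × Z)) v =
      (D.ρ g v.1, D.ρ g v.2) := fun g v => rfl
  haveI : NeZero (Nat.card (Γ ⧸ D.W) : ZMod p) := ⟨by
    rw [Ne, ZMod.natCast_eq_zero_iff]
    exact h.W_index⟩
  -- the subrepresentation defined by `X`
  let XA : AddSubgroup (Z × Z) :=
    { carrier := {v | ∃ x ∈ X, cc D x = v}
      zero_mem' := ⟨1, X.one_mem, h.cc_one⟩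
      add_mem' := by
        rintro _ _ ⟨x, hx, rfl⟩ ⟨x', hx', rfl⟩
        exact ⟨x * x', X.mul_mem hx hx', h.cc_mul (hXW hx) (hXW hx')⟩
      neg_mem' := by
        rintro _ ⟨x, hx, rfl⟩
        exact ⟨x⁻¹, X.inv_mem hx, h.cc_inv (hXW hx)⟩ }
  let XS : Subrepresentation ρq :=
    { toSubmodule := AddSubgroup.toZModSubmodule p XA
      apply_mem_toSubmodule := by
        intro q v hv
        induction q using QuotientGroup.induction_on with
        | H g =>
          obtain ⟨x, hx, rfl⟩ := hv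
          refine ⟨g * x * g⁻¹, hX.conj_mem x hx g, ?_⟩
          rw [h.cc_conj g (hXW hx), hρq] }
  obtain ⟨YS, hY⟩ := exists_isCompl XS
  have hinf : XS.toSubmodule ⊓ YS.toSubmodule = ⊥ := by
    rw [← Subrepresentation.toSubmodule_inf, hY.inf_eq_bot]
    rfl
  have hsup : XS.toSubmodule ⊔ YS.toSubmodule = ⊤ := by
    rw [← Subrepresentation.toSubmodule_sup, hY.sup_eq_top]
    rfl
  -- the complement
  let N' : Subgroup Γ :=
    { carrier := {w | w ∈ D.W ∧ cc D w ∈ YS.toSubmodule}
      one_mem' := ⟨D.W.one_mem, by rw [h.cc_one]; exact Submodule.zero_mem _⟩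
      mul_mem' := by
        rintro w w' ⟨hw, hwY⟩ ⟨hw', hwY'⟩
        exact ⟨D.W.mul_mem hw hw', by rw [h.cc_mul hw hw']; exact Submodule.add_mem _ hwY hwY'⟩
      inv_mem' := by
        rintro w ⟨hw, hwY⟩
        exact ⟨D.W.inv_mem hw, by rw [h.cc_inv hw]; exact Submodule.neg_mem _ hwY⟩ }
  refine ⟨N', ⟨?_⟩, fun w hw => hw.1, ?_, ?_⟩
  · rintro w ⟨hw, hwY⟩ g
    refine ⟨h.W_normal.conj_mem w hw g, ?_⟩
    have := YS.apply_mem_toSubmodule (g : Γ ⧸ D.W) hwY
    rw [hρq] at this
    rw [h.cc_conj g hw]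
    exact this
  · rintro w hwX ⟨hw, hwY⟩
    have h1 : cc D w ∈ XS.toSubmodule ⊓ YS.toSubmodule := ⟨⟨w, hwX, rfl⟩, hwY⟩
    rw [hinf, Submodule.mem_bot] at h1
    exact h.cc_eq_zero hw h1
  · intro w hw
    have h1 : cc D w ∈ XS.toSubmodule ⊔ YS.toSubmodule := by rw [hsup]; trivial
    obtain ⟨v, ⟨x, hx, rfl⟩, v', hv', hsum⟩ := Submodule.mem_sup.mp h1
    refine ⟨x, hx, x⁻¹ * w, ⟨D.W.mul_mem (D.W.inv_mem (hXW hx)) hw, ?_⟩, by group⟩
    rw [h.cc_mul (D.W.inv_mem (hXW hx)) hw, h.cc_inv (hXW hx), ← hsum]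
    simpa using hv'

end Hyp

end Fermat.Agent.S56.H846.FLCnt

end
-- ===== PACK-END S56/H846/FLCnt/Maschke.lean

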