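import Mathlib
import Fermat.Agent.Pack.S43GC.G0E5L2
import Fermat.Agent.Pack.S43GC.G0E5L3
import Fermat.Agent.Pack.S43GC.G2E0L0
import Fermat.Agent.Pack.S43GC.G0E6L3
import Fermat.Agent.Pack.S43GC.G0E5L0
import Fermat.Agent.Pack.S43GC.G0E1L0
import Fermat.Agent.Pack.S43GC.G0E6L0
import Fermat.Agent.Pack.S43GC.G0E6L1
import Fermat.Agent.Pack.S43GC.G0E6L2
import Fermat.Agent.Pack.Fast891

-- ===== PACK-BEGIN S55/Spec/Datum.lean
section
/-
S55 moonshot — FROZEN INTERFACE between the arithmetic layers (G, L) and the engine E1 (layer D).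
Chief architect: helper55.  Blueprint: coord/S55-E1.md §1.  NO sorry.

`TowerDatum S` : for every level `F` a `Gal(F/ℚ)`-module `C(F)` (think: `S`-idèle class group
`(J_S(F) × Div^S(F)) / Fˣ`, no archimedean part), a class `γ_F ∈ H²(Gal(F/ℚ), C(F))`, maps
`j_q : J_q(F) → C(F)` and transition maps `C(F) → C(F')`.
`TowerDatum.IsGood p` : the properties GD1, GD3–GD8 consumed by the engine.
`GlobalSpec S p : ∃ D : TowerDatum S, D.IsGood p`  — the TARGET of layer G.
`LocalSpec p`, `SUnitsDivSpec S p`, `H1FiniteSpec` — the other arithmetic inputs (GD2, LH90, LDIV, GD9,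
GD10).  Only `p`-primary information is required; any normalisation of invariants is fine.
-/



set_option autoImplicit false

open CategoryTheory

namespace Fermat.Agent.S55.Tow

noncomputable section

/-- The data of a tower datum. -/
structure TowerDatum (S : Finset Nat.Primes) where
  /-- the class module `C(F)` -/
  C : ∀ L : Level S, Rep.{0} ℤ L.Gal
  /-- the fundamental class (any generator at `p`) -/
  γ : ∀ L : Level S, groupCohomology (C L) 2
  /-- `j_q : J_q(F) → C(F)` (only `q ∈ S` is used) -/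
  j : ∀ (L : Level S) (q : Nat.Primes), L.J q ⟶ C L
  /-- the transition map `C(F) → C(F')` for `F ≤ F'` -/
  tr : ∀ {L L' : Level S} (h : L ≤ L'), Rep.res (Level.proj h) (C L) ⟶ C L'

namespace TowerDatum

variable {S : Finset Nat.Primes} (D : TowerDatum S)

/-- `c ∈ C(F)` lies in the image of `J(F) = ⊕_{q ∈ S} J_q(F)`. -/
def IsLocalSum (L : Level S) (c : (D.C L).V) : Prop :=
  ∃ x : ∀ q : S, (L.J q.1).V, c = ∑ q : S, (D.j L q.1).hom (x q)

/-- The inflation map `H²(Gal(F/ℚ), C(F)) → H²(Gal(F'/ℚ), C(F'))`. -/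
def inf {L L' : Level S} (h : L ≤ L') :
    groupCohomology (D.C L) 2 →ₗ[ℤ] groupCohomology (D.C L') 2 :=
  (groupCohomology.map (Level.proj h) (D.tr h) 2).hom

/-- The properties of a tower datum consumed by the engine E1 (blueprint §1). -/
structure IsGood (p : ℕ) : Prop where
  /-- GD1: `(C(F), γ_F)` is a class module at `p`. -/
  gd1 : ∀ L : Level S, E1.IsClassModuleAt p (D.C L) (D.γ L)
  /-- GD3: `(j_q)_* : H²(G_F, J_q(F)) → H²(G_F, C(F))` is injective on `p`-torsion. -/
  gd3 : ∀ (L : Level S) (q : Nat.Primes), q ∈ S → ∀ y : groupCohomology (L.J q) 2,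
    p • y = 0 → (T.coeffMap (D.j L q) 2).hom y = 0 → y = 0
  /-- GD4: the kernel of `J(F) → C(F)` is the diagonal image of the `S`-units. -/
  gd4 : ∀ (L : Level S) (x : ∀ q : S, (L.J q.1).V),
    ∑ q : S, (D.j L q.1).hom (x q) = 0 ↔
      ∃ e : L.units.V, L.IsSUnit e ∧ ∀ q : S, x q = (L.diag q.1).hom e
  /-- GD5: capitulation of the `p`-part of `C(F)/im J(F)`. -/
  gd5 : ∀ (L : Level S) (c : (D.C L).V) (a : ℕ), D.IsLocalSum L (p ^ a • c) →
    ∃ (L' : Level S) (h : L ≤ L'), D.IsLocalSum L' ((D.tr h).hom c)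
  /-- GD6: existence theorem mod `p`: norms from high levels are `p`-th multiples. -/
  gd6 : ∀ L₀ : Level S, ∃ L₁ : Level S, L₀ ≤ L₁ ∧ ∀ (L : Level S) (h : L₀ ≤ L), L₁ ≤ L →
    @E1.NormInP p L.Gal _ (Level.relGal h) (Fintype.ofFinite _) (D.C L)
  /-- GD7a: `tr` is compatible with `j` and the inclusions `J_q(F) → J_q(F')`. -/
  gd7a : ∀ {L L' : Level S} (h : L ≤ L') (q : Nat.Primes) (x : (L.J q).V),
    (D.tr h).hom ((D.j L q).hom x) = (D.j L' q).hom ((Level.trJ h q).hom x)
  /-- GD7b: `tr` is transitive. -/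
  gd7b : ∀ {L L' L'' : Level S} (h : L ≤ L') (h' : L' ≤ L'') (c : (D.C L).V),
    (D.tr h').hom ((D.tr h).hom c) = (D.tr (h.trans h')).hom c
  /-- GD8: inflation `H²(G_F, C(F)) → H²(G_{F'}, C(F'))` is injective on `p`-torsion. -/
  gd8 : ∀ {L L' : Level S} (h : L ≤ L') (z : groupCohomology (D.C L) 2),
    p • z = 0 → D.inf h z = 0 → z = 0

end TowerDatum

/-- **TARGET OF LAYER G**: a good tower datum exists. -/
def GlobalSpec (S : Finset Nat.Primes) (p : ℕ) : Prop :=
  ∃ D : TowerDatum S, D.IsGood p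

/-- **TARGET OF LAYER L** (GD2, LH90, LDIV), for all finite Galois `F/ℚ` (levels of any `S'`):
* `F_qˣ` is a class module at `p` for `Gal(F_q/ℚ_q)`;
* Hilbert 90 for `F'_q/F_q`;
* every element of `F_qˣ` is a `p`-th power in `F'_qˣ` for some finite Galois `F' ≥ F`. -/
def LocalSpec (p : ℕ) : Prop :=
  (∀ (S' : Finset Nat.Primes) (L : Level S') (q : Nat.Primes),
    ∃ γ : groupCohomology (L.locUnits q) 2, E1.IsClassModuleAt p (L.locUnits q) γ) ∧
  (∀ (S' : Finset Nat.Primes) (L L' : Level S') (h : L ≤ L') (q : Nat.Primes),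
    Limits.IsZero (groupCohomology (T.resSub (L'.locUnits q) (Level.projDec h q).ker) 1)) ∧
  (∀ (S' : Finset Nat.Primes) (L : Level S') (q : Nat.Primes) (x : (L.locUnits q).V),
    ∃ (S'' : Finset Nat.Primes) (hS : S' ⊆ S'') (L' : Level S'') (h : Level.ofLE hS L ≤ L')
      (y : (L'.locUnits q).V), p • y = (Level.trLoc h q).hom x)

/-- **GD9**: the `S`-units are `p`-divisible in the tower, and `μ_p` lives at some level. -/
def SUnitsDivSpec (S : Finset Nat.Primes) (p : ℕ) : Prop :=
  (∀ (L : Level S) (e : L.units.V), L.IsSUnit e →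
    ∃ (L' : Level S) (h : L ≤ L') (e' : L'.units.V), L'.IsSUnit e' ∧
      p • e' = (Level.trUnits h).hom e) ∧
  (∃ L₀ : Level S, ∀ ζ : Qbar, ζ ^ p = 1 → ζ ∈ L₀.F)

/-- **GD10**: finiteness of `H¹_S` (Prelude `continuousH1S`) for finite `F_p`-representations
factoring through a level. -/
def H1FiniteSpec (S : Finset Nat.Primes) (p : ℕ) [Fact p.Prime] : Prop :=
  ∀ (N : Rep.{0} (ZMod p) GQ) [FiniteDimensional (ZMod p) N],
    (∃ L : Level S, ∀ s ∈ L.U, N.ρ s = 1) →
    Module.Finite (ZMod p) (groupCohomology.continuousH1S S N)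

end

end Fermat.Agent.S55.Tow

end
-- ===== PACK-END S55/Spec/Datum.lean

-- ===== PACK-BEGIN S55/E1/H304/Alg1.lean
section



/-!
# S55 engine E1, block ALG, leaf ALG1 (helper304)

For a finite group `G` and a finite `G`-module `N`, with the standard presentation
`0 → R → P → N → 0`, `P = ℤ[G]^{(N)}`:

* `freeIsoFunRep` : `Rep.free k G α ≅ funRep k G (α →₀ k)` for finite `G` (free = coinduced);
* `isZero_groupCohomology_free` : `Hⁿ⁺¹(G, k[G]^{(α)}) = 0`;
* `alg1 : ALG1Spec` : `R` is a finitely generated free `ℤ`-module and the connecting map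
  `δ : H¹(G, N) → H²(G, R)` is bijective.
-/

set_option autoImplicit false

open CategoryTheory CategoryTheory.Limits

namespace Fermat.Agent.S55.E1.H304

open Fermat.Agent.S55.E1

noncomputable section

section FreeIso

variable (k G α : Type) [CommRing k] [Group G] [Fintype G]

/-- `α →₀ k[G] ≃ (G → (α →₀ k))`, `F ↦ (x ↦ (a ↦ coefficient of `x⁻¹` in `F a`))`. -/
def freeLEquiv : (α →₀ MonoidAlgebra k G) ≃ₗ[k] (G → (α →₀ k)) :=
  (Finsupp.mapRange.linearEquiv (MonoidAlgebra.coeffLinearEquiv k)) ≪≫ₗ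
  (Finsupp.curryLinearEquiv k).symm ≪≫ₗ
  (Finsupp.domLCongr (Equiv.prodComm α G)) ≪≫ₗ
  (Finsupp.curryLinearEquiv k) ≪≫ₗ
  (Finsupp.linearEquivFunOnFinite k (α →₀ k) G) ≪≫ₗ
  (LinearEquiv.funCongrLeft k (α →₀ k) (Equiv.inv G))

lemma freeLEquiv_apply (F : α →₀ MonoidAlgebra k G) (x : G) (a : α) :
    freeLEquiv k G α F x a = (F a).coeff x⁻¹ := by
  simp [freeLEquiv, LinearMap.funLeft]

omit [Fintype G] in
lemma free_apply_apply (g : G) (F : α →₀ MonoidAlgebra k G) (a : α) :
    (Representation.free k G α g F) a = Representation.leftRegular k G g (F a) := by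
  classical
  induction F using Finsupp.induction_linear with
  | zero => simp
  | add f₁ f₂ h₁ h₂ => simp only [map_add, Finsupp.add_apply, h₁, h₂]
  | single b m =>
    rw [Representation.finsupp_single]
    by_cases h : b = a
    · subst h
      simp
    · simp [h]

lemma freeLEquiv_equivariant (g : G) (F : α →₀ MonoidAlgebra k G) :
    freeLEquiv k G α (Representation.free k G α g F)
      = Fermat.Agent.S55.H783.funRho k G (α →₀ k) g (freeLEquiv k G α F) := by
  funext x
  ext a
  rw [freeLEquiv_apply, Fermat.Agent.S55.H783.funRho_apply, freeLEquiv_apply, free_apply_apply,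
    Representation.coeff_ofMulAction, smul_eq_mul, mul_inv_rev]

/-- For a finite group the free representation `k[G]^{(α)}` is coinduced. -/
def freeIsoFunRep : Rep.free k G α ≅ Fermat.Agent.S55.H783.funRep k G (α →₀ k) :=
  Rep.mkIso
    { toLinearEquiv := freeLEquiv k G α
      isIntertwining' := fun g => by
        apply LinearMap.ext
        intro F
        exact freeLEquiv_equivariant k G α g F }

/-- `Hⁿ⁺¹(G, k[G]^{(α)}) = 0` for a finite group `G`. -/
theorem isZero_groupCohomology_free (n : ℕ) :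
    IsZero (groupCohomology (Rep.free k G α) (n + 1)) :=
  (Fermat.Agent.S55.H783.isZero_funRep (k := k) (G := G) (α →₀ k) n).of_iso
    ((groupCohomology.functor k G (n + 1)).mapIso (freeIsoFunRep k G α))

end FreeIso

section Alg1

/-- A subrepresentation of a finitely generated free module over a PID is finitely generated
free (stated for a generic ring so that the only module structure in sight is `hV2`). -/
lemma free_finite_of_injective {k G : Type} [CommRing k] [IsDomain k] [IsPrincipalIdealRing k]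
    [Group G] {A B : Rep.{0} k G} (f : A ⟶ B) (hf : Function.Injective f.hom)
    (hfree : Module.Free k B.V) (hfin : Module.Finite k B.V) :
    Module.Free k A.V ∧ Module.Finite k A.V := by
  let b := Module.Free.chooseBasis k B.V
  obtain ⟨n, ⟨bR⟩⟩ := Submodule.nonempty_basis_of_pid b (LinearMap.range f.hom.toLinearMap)
  let e := LinearEquiv.ofInjective f.hom.toLinearMap hf
  let bR' := bR.map e.symm
  exact ⟨Module.Free.of_basis bR', Module.Finite.of_basis bR'⟩

lemma free_finite_stdP (k G α : Type) [CommRing k] [Group G] [Finite G] [Finite α] :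
    Module.Free k (Rep.free k G α).V ∧ Module.Finite k (Rep.free k G α).V := by
  constructor
  · change Module.Free k (α →₀ MonoidAlgebra k G)
    infer_instance
  · change Module.Finite k (α →₀ MonoidAlgebra k G)
    infer_instance

variable {G : Type} [Group G]

lemma stdι_injective (N : Rep.{0} ℤ G) : Function.Injective (stdι N).hom :=
  (Rep.mono_iff_injective _).1 (stdι_mono N)

/-- **ALG1.** -/
theorem alg1 : ALG1Spec := by
  intro G _ _ N hN
  classical
  let _ : Fintype G := Fintype.ofFinite G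
  have : Finite N.V := hN
  obtain ⟨hPfree, hPfin⟩ := free_finite_stdP ℤ G N.V
  obtain ⟨h1, h2⟩ := free_finite_of_injective (stdι N) (stdι_injective N) hPfree hPfin
  refine ⟨h1, h2, ?_⟩
  have h := groupCohomology.isIso_δ_of_isZero (stdSC_shortExact N) 1
    (isZero_groupCohomology_free ℤ G N.V 0) (isZero_groupCohomology_free ℤ G N.V 1)
  exact (ConcreteCategory.isIso_iff_bijective _).mp h

end Alg1

end

end Fermat.Agent.S55.E1.H304

end
-- ===== PACK-END S55/E1/H304/Alg1.lean

-- ===== PACK-BEGIN S55/H173/ShapiroExplicit.lean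
section



/-!
# S55 (helper173): explicit Shapiro lemma

For a subgroup `S ≤ G` and `B : Rep k S`, the map
`Hⁿ(G, Coind_S^G B) ⟶ Hⁿ(S, B)` induced by `S ↪ G` and evaluation at `1`
is an isomorphism for all `n`.  (Mathlib's `groupCohomology.coindIso` is abstract.)
-/

set_option autoImplicit false

open CategoryTheory CategoryTheory.Limits groupCohomology

namespace Fermat.Agent.S55.H173

open Fermat.Agent.S55.H783

universe u

variable {k G : Type u} [CommRing k] [Group G] (S : Subgroup G)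

/-- Evaluation at `1`: `Res_S Coind_S^G B ⟶ B`. -/
def ev1 (B : Rep k S) : Rep.res S.subtype (Rep.coind S.subtype B) ⟶ B :=
  Rep.ofHom (ρ := (Representation.coind S.subtype B.ρ).comp S.subtype) (σ := B.ρ)
    ⟨{ toFun := fun f => f.1 1
       map_add' := fun _ _ => rfl
       map_smul' := fun _ _ => rfl }, fun s => by
      ext f
      have h := f.2 s 1
      change f.1 (1 * (s : G)) = B.ρ s (f.1 1)
      rw [one_mul]
      simpa using h⟩

@[simp]
lemma ev1_hom_apply (B : Rep k S) (f : (Rep.coind S.subtype B).V) :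
    (ev1 S B).hom f = f.1 1 := rfl

/-- The explicit Shapiro map. -/
noncomputable abbrev shapiroMap (B : Rep k S) (n : ℕ) :
    groupCohomology (Rep.coind S.subtype B) n ⟶ groupCohomology B n :=
  groupCohomology.map S.subtype (ev1 S B) n

/-! ### Degree `0` -/

lemma H0Iso_hom_shapiroMap_val (B : Rep k S) (x : groupCohomology (Rep.coind S.subtype B) 0) :
    ((H0Iso B).hom ((shapiroMap S B 0).hom x)).1 =
      (((H0Iso (Rep.coind S.subtype B)).hom x).1).1 1 := by
  have h := map_H0Iso_hom_f_apply (f := S.subtype) (φ := ev1 S B) x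
  exact h

lemma invariant_coind_apply (B : Rep k S)
    (f : (Rep.coind S.subtype B).ρ.invariants) (g : G) : (f.1).1 g = (f.1).1 1 := by
  have h := f.2 g
  have h2 := congrArg (fun F : (Rep.coind S.subtype B).V => F.1 1) h
  have h3 : ((Rep.coind S.subtype B).ρ g f.1).1 1 = (f.1).1 (1 * g) := rfl
  rw [one_mul] at h3
  rw [← h3]
  exact h2

theorem shapiroMap_zero_injective (B : Rep k S) :
    Function.Injective (shapiroMap S B 0).hom := by
  rw [injective_iff_map_eq_zero]
  intro x hx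
  have h1 := H0Iso_hom_shapiroMap_val S B x
  rw [hx, map_zero] at h1
  have h2 : (H0Iso (Rep.coind S.subtype B)).hom x = 0 := by
    apply Subtype.ext
    apply Subtype.ext
    funext g
    rw [invariant_coind_apply S B _ g]
    exact h1.symm
  have h3 := congrArg (H0Iso (Rep.coind S.subtype B)).inv h2
  simpa using h3

theorem shapiroMap_zero_surjective (B : Rep k S) :
    Function.Surjective (shapiroMap S B 0).hom := by
  intro z
  set b := (H0Iso B).hom z with hb
  have hbinv : ∀ s : S, B.ρ s b.1 = b.1 := fun s => b.2 s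
  let f : (Rep.coind S.subtype B).V := ⟨fun _ => b.1, fun s g => (hbinv s).symm⟩
  have hf : f ∈ (Rep.coind S.subtype B).ρ.invariants := by
    intro g
    apply Subtype.ext
    funext x
    rfl
  refine ⟨(H0Iso (Rep.coind S.subtype B)).inv ⟨f, hf⟩, ?_⟩
  have h1 := H0Iso_hom_shapiroMap_val S B ((H0Iso (Rep.coind S.subtype B)).inv ⟨f, hf⟩)
  have h2 : (H0Iso B).hom ((shapiroMap S B 0).hom
      ((H0Iso (Rep.coind S.subtype B)).inv ⟨f, hf⟩)) = (H0Iso B).hom z := by
    apply Subtype.ext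
    rw [h1]
    simp [f, hb]
  have h3 := congrArg (H0Iso B).inv h2
  simpa using h3

/-! ### Naturality of `ev1` -/

lemma ev1_naturality {B B' : Rep k S} (φ : B ⟶ B') :
    (Rep.resFunctor S.subtype).map (Rep.coindMap S.subtype φ) ≫ ev1 S B' = ev1 S B ≫ φ := by
  ext f
  rfl

/-! ### Coinduction of the module of all functions -/

/-- `Coind_S^G (S → V) ≅ (G → V)`. -/
noncomputable def coindFunRepIso (V : Type u) [AddCommGroup V] [Module k V] :
    Rep.coind S.subtype (funRep k S V) ≅ funRep k G V :=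
  Rep.mkIso (ρ := Representation.coind S.subtype (funRho k S V)) (σ := funRho k G V)
    { toLinearEquiv :=
        { toFun := fun F x => F.1 x 1
          invFun := fun φ => ⟨fun x t => φ (t * x), fun s x => by
            funext t
            simp [mul_assoc]⟩
          map_add' := fun _ _ => rfl
          map_smul' := fun _ _ => rfl
          left_inv := fun F => by
            apply Subtype.ext
            funext x t
            have h := congrFun (F.2 t x) 1
            simpa using h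
          right_inv := fun φ => by
            funext x
            simp }
      isIntertwining' := fun g => by
        ext F x
        rfl }

theorem isZero_coind_funRep (V : Type u) [AddCommGroup V] [Module k V] (n : ℕ) :
    IsZero (groupCohomology (Rep.coind S.subtype (funRep k S V)) (n + 1)) :=
  (isZero_funRep (k := k) (G := G) V n).of_iso
    ((groupCohomology.functor k G (n + 1)).mapIso (coindFunRepIso S V))

/-! ### The coinduced dimension-shifting sequence -/

/-- The coinduction of the dimension shifting sequence of `B`. -/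
noncomputable def coindSC (B : Rep k S) : ShortComplex (Rep k G) :=
  (shiftSC B).map (Rep.coindFunctor k S.subtype)

lemma coindSC_shortExact (B : Rep k S) : (coindSC S B).ShortExact where
  exact := by
    rw [← ShortComplex.exact_map_iff_of_faithful _ (forget₂ (Rep k G) (ModuleCat k)),
      ShortComplex.moduleCat_exact_iff_ker_sub_range]
    intro F hF
    have hF' : ∀ x : G, (shiftProj B).hom (F.1 x) = 0 := by
      intro x
      have := congrArg (fun F' : (Rep.coind S.subtype (shiftRep B)).V => F'.1 x) hF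
      exact this
    have hmem : ∀ x : G, ∃ b : B.V, (shiftIncl B).hom b = F.1 x := by
      intro x
      have h1 := (shiftProj_eq_zero_iff B (F.1 x)).1 (hF' x)
      obtain ⟨b, hb⟩ := h1
      exact ⟨b, hb⟩
    choose F' hF'' using hmem
    refine ⟨⟨F', fun s x => ?_⟩, ?_⟩
    · apply shiftIncl_injective B
      rw [hF'']
      have h2 := F.2 s x
      rw [h2, ← hF'' x]
      exact (Rep.hom_comm_apply (shiftIncl B) s (F' x)).symm
    · apply Subtype.ext
      funext x
      exact hF'' x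
  mono_f := by
    rw [Rep.mono_iff_injective]
    intro F₁ F₂ h
    apply Subtype.ext
    funext x
    apply shiftIncl_injective B
    have := congrArg (fun F' : (Rep.coind S.subtype (funRep k S B.V)).V => F'.1 x) h
    exact this
  epi_g := by
    have : Epi (shiftSC B).g := (shiftSC_shortExact B).epi_g
    exact inferInstanceAs (Epi ((Rep.coindFunctor k S.subtype).map (shiftSC B).g))

/-- The comparison morphism from the restricted coinduced sequence to the shifting sequence,
given by evaluation at `1`. -/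
noncomputable def evSC (B : Rep k S) :
    (coindSC S B).map (Rep.resFunctor S.subtype) ⟶ shiftSC B where
  τ₁ := ev1 S B
  τ₂ := ev1 S (funRep k S B.V)
  τ₃ := ev1 S (shiftRep B)
  comm₁₂ := ev1_naturality S (shiftIncl B)
  comm₂₃ := ev1_naturality S (shiftProj B)

/-- Change of groups commutes with the maps induced by `X.g`. -/
lemma map_comm_g {G₁ G₂ : Type u} [Group G₁] [Group G₂] (f : G₁ →* G₂)
    {X₂ : ShortComplex (Rep k G₂)} {X₁ : ShortComplex (Rep k G₁)}
    (Φ : X₂.map (Rep.resFunctor f) ⟶ X₁) (n : ℕ) :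
    groupCohomology.map (MonoidHom.id G₂) X₂.g n ≫ groupCohomology.map f Φ.τ₃ n =
      groupCohomology.map f Φ.τ₂ n ≫ groupCohomology.map (MonoidHom.id G₁) X₁.g n := by
  have h := (cochainsMapSC f Φ).comm₂₃
  have h2 := congrArg (fun ψ => HomologicalComplex.homologyMap ψ n) h
  simp only [HomologicalComplex.homologyMap_comp] at h2
  exact h2.symm

/-- **Explicit Shapiro lemma**: restriction to `S` followed by evaluation at `1` is bijective
`Hⁿ(G, Coind_S^G B) → Hⁿ(S, B)` for all `n`. -/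
theorem shapiroMap_bijective : ∀ (n : ℕ) (B : Rep k S),
    Function.Bijective (shapiroMap S B n).hom := by
  intro n
  induction n with
  | zero => exact fun B => ⟨shapiroMap_zero_injective S B, shapiroMap_zero_surjective S B⟩
  | succ n ih =>
    intro B
    have hnat := δ_naturality_map S.subtype (coindSC_shortExact S B) (shiftSC_shortExact B)
      (evSC S B) n (n + 1) rfl
    have hnat' : ∀ z, (shapiroMap S B (n + 1)).hom
        ((δ (coindSC_shortExact S B) n (n + 1) rfl).hom z) =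
        (shiftδ B n).hom ((shapiroMap S (shiftRep B) n).hom z) := fun z =>
      congrArg (fun ψ => ψ.hom z) hnat
    have hepi₂ : Function.Surjective (δ (coindSC_shortExact S B) n (n + 1) rfl).hom :=
      (ModuleCat.epi_iff_surjective _).1
        (epi_δ_of_isZero (coindSC_shortExact S B) n (isZero_coind_funRep S B.V n))
    constructor
    · rw [injective_iff_map_eq_zero]
      intro x hx
      obtain ⟨z', rfl⟩ := hepi₂ x
      rw [hnat'] at hx
      -- `Θ z'` is in the kernel of `δ₁`, hence in the image of `Hⁿ(π)`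
      have hex := (mapShortComplex₃_exact (shiftSC_shortExact B) (rfl : n + 1 = n + 1))
      rw [ShortComplex.moduleCat_exact_iff] at hex
      obtain ⟨w, hw⟩ := hex _ hx
      obtain ⟨w', rfl⟩ := (ih (funRep k S B.V)).2 w
      have hcomm := map_comm_g S.subtype (evSC S B) n
      have hcomm' : (shapiroMap S (shiftRep B) n).hom
          ((groupCohomology.map (MonoidHom.id G) (coindSC S B).g n).hom w') =
          (groupCohomology.map (MonoidHom.id S) (shiftSC B).g n).hom
            ((shapiroMap S (funRep k S B.V) n).hom w') :=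
        congrArg (fun ψ => ψ.hom w') hcomm
      have hz : (groupCohomology.map (MonoidHom.id G) (coindSC S B).g n).hom w' = z' :=
        (ih (shiftRep B)).1 (hcomm'.trans hw)
      have hzero := (mapShortComplex₃ (coindSC_shortExact S B) (rfl : n + 1 = n + 1)).zero
      have hzero' := congrArg (fun ψ => ψ.hom w') hzero
      have hgoal : (δ (coindSC_shortExact S B) n (n + 1) rfl).hom
          ((groupCohomology.map (MonoidHom.id G) (coindSC S B).g n).hom w') = 0 := hzero'
      rw [hz] at hgoal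
      exact hgoal
    · intro y
      obtain ⟨z, rfl⟩ := shiftδ_surjective B n y
      obtain ⟨z', rfl⟩ := (ih (shiftRep B)).2 z
      exact ⟨_, hnat' z'⟩

/-- The explicit Shapiro map is an isomorphism. -/
theorem isIso_shapiroMap (B : Rep k S) (n : ℕ) : IsIso (shapiroMap S B n) :=
  (ConcreteCategory.isIso_iff_bijective _).2 (shapiroMap_bijective S n B)

end Fermat.Agent.S55.H173

end
-- ===== PACK-END S55/H173/ShapiroExplicit.lean

-- ===== PACK-BEGIN S55/H713/Exact.lean
section


/-!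
# Exactness of `σ - 1` and the norm on `W 0 = 1 + M`
-/

set_option autoImplicit false
set_option linter.unusedSectionVars false

open IsLocalRing

namespace Fermat.Agent.S55.H713

variable {O : Type*} [CommRing O] [IsDomain O] [IsLocalRing O]
variable {G : Type*} [Group G] [Fintype G] [MulSemiringAction G O]
variable {σ : G} {π : O} {M : AddSubgroup O}

lemma eq_zero_of_forall_mem_pow [IsHausdorff (maximalIdeal O) O] (x : O)
    (hx : ∀ n, x ∈ maximalIdeal O ^ n) : x = 0 := by
  apply IsHausdorff.haus (inferInstance : IsHausdorff (maximalIdeal O) O) x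
  intro n
  rw [SModEq.zero, smul_eq_mul, Ideal.mul_top]
  exact hx n

lemma exists_limit [IsPrecomplete (maximalIdeal O) O] (x : ℕ → O)
    (hx : ∀ m n, m ≤ n → x n - x m ∈ maximalIdeal O ^ m) :
    ∃ L : O, ∀ n, L - x n ∈ maximalIdeal O ^ n := by
  obtain ⟨L, hL⟩ := IsPrecomplete.prec (inferInstance : IsPrecomplete (maximalIdeal O) O)
    (f := x) (by
      intro m n hmn
      rw [SModEq.sub_mem, smul_eq_mul, Ideal.mul_top]
      have := hx m n hmn
      have h2 : x m - x n = -(x n - x m) := by ring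
      rw [h2]; exact neg_mem this)
  refine ⟨L, fun n => ?_⟩
  have := hL n
  rw [SModEq.sub_mem, smul_eq_mul, Ideal.mul_top] at this
  have h2 : L - x n = -(x n - L) := by ring
  rw [h2]; exact neg_mem this

namespace IsGoodLattice

variable (h : IsGoodLattice σ π M)
include h

/-- Expansion of a product `∏ (1 + x g)` modulo `lat (k+1)`. -/
lemma prod_one_add (k : ℕ) (x : G → O) (hx : ∀ g, x g ∈ lat π M k) (s : Finset G) :
    (∏ g ∈ s, (1 + x g)) - 1 - ∑ g ∈ s, x g ∈ lat π M (k + 1) ∧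
      (∏ g ∈ s, (1 + x g)) - 1 ∈ lat π M k := by
  classical
  induction s using Finset.induction_on with
  | empty => simp
  | insert a s ha ih =>
    obtain ⟨ih1, ih2⟩ := ih
    rw [Finset.prod_insert ha, Finset.sum_insert ha]
    constructor
    · have : (1 + x a) * ∏ g ∈ s, (1 + x g) - 1 - (x a + ∑ g ∈ s, x g) =
          ((∏ g ∈ s, (1 + x g)) - 1 - ∑ g ∈ s, x g) + x a * ((∏ g ∈ s, (1 + x g)) - 1) := by
        ring
      rw [this]
      exact (lat π M (k + 1)).add_mem ih1 (h.lat_mul_self (hx a) ih2)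
    · have : (1 + x a) * ∏ g ∈ s, (1 + x g) - 1 =
          ((∏ g ∈ s, (1 + x g)) - 1) + x a + x a * ((∏ g ∈ s, (1 + x g)) - 1) := by
        ring
      rw [this]
      exact (lat π M k).add_mem ((lat π M k).add_mem ih2 (hx a))
        (h.lat_mul_lat_left (hx a) ih2)

lemma W_sep [IsHausdorff (maximalIdeal O) O] (u : Oˣ) (hu : ∀ k, u ∈ h.W k) : u = 1 := by
  have : (u : O) - 1 = 0 :=
    eq_zero_of_forall_mem_pow _ (fun n => h.lat_le_pow n _ (hu n))
  ext
  simpa [sub_eq_zero] using this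

lemma W_complete [IsPrecomplete (maximalIdeal O) O] (w : ℕ → Oˣ) (hw : ∀ i, w i ∈ h.W i) :
    ∃ y ∈ h.W 0, ∀ k, y / ∏ i ∈ Finset.range k, w i ∈ h.W k := by
  set P : ℕ → Oˣ := fun k => ∏ i ∈ Finset.range k, w i with hP
  have hP0 : ∀ k, P k ∈ h.W 0 := fun k =>
    Subgroup.prod_mem _ (fun i _ => h.W_le_zero i (hw i))
  have hstep : ∀ k, ((P (k + 1) : Oˣ) : O) - P k ∈ lat π M k := by
    intro k
    have : ((P (k + 1) : Oˣ) : O) - P k = ((w k : O) - 1) * (P k : O) := by
      simp only [hP, Finset.prod_range_succ, Units.val_mul]; ring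
    rw [this]
    exact h.lat_mul_one_add (hw k) (h.sub_one_mem_M (hP0 k))
  have hdiff : ∀ m n, m ≤ n → ((P n : Oˣ) : O) - P m ∈ lat π M m := by
    intro m n hmn
    induction n, hmn using Nat.le_induction with
    | base => simp
    | succ n hmn ih =>
      have : ((P (n + 1) : Oˣ) : O) - P m = (((P (n + 1) : Oˣ) : O) - P n) +
          (((P n : Oˣ) : O) - P m) := by ring
      rw [this]
      exact (lat π M m).add_mem (h.lat_antitone hmn (hstep n)) ih
  obtain ⟨L, hL⟩ := exists_limit (fun n => ((P n : Oˣ) : O))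
    (fun m n hmn => h.lat_le_pow m _ (hdiff m n hmn))
  have hLk : ∀ k, L - (P k : O) ∈ lat π M k := by
    intro k
    obtain ⟨j, hj⟩ := h.isOpen k
    have h1 : L - (P (max j k) : O) ∈ lat π M k :=
      hj _ (Ideal.pow_le_pow_right (le_max_left j k) (hL (max j k)))
    have h2 := hdiff k (max j k) (le_max_right j k)
    have : L - (P k : O) = (L - (P (max j k) : O)) + (((P (max j k) : Oˣ) : O) - P k) := by
      ring
    rw [this]
    exact (lat π M k).add_mem h1 h2
  have hL0 : L - 1 ∈ lat π M 0 := by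
    have := hLk 0
    simpa [hP] using this
  obtain ⟨y, hy, hyL⟩ := h.exists_unit hL0
  refine ⟨y, hy, fun k => ?_⟩
  apply h.div_mem_W (hP0 k)
  have : (y : O) = L := by rw [hyL]; ring
  rw [this]
  exact hLk k

/-- Coordinates of an element of `W k`. -/
lemma exists_coord {k : ℕ} {u : Oˣ} (hu : u ∈ h.W k) : ∃ a ∈ M, (u : O) - 1 = π ^ k * a := by
  obtain ⟨a, ha, hau⟩ := mem_lat.1 (h.mem_W.1 hu)
  exact ⟨a, ha, hau.symm⟩

lemma pow_mul_mem_lat (k : ℕ) {a : O} (ha : a ∈ M) : π ^ k * a ∈ lat π M k :=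
  mem_lat.2 ⟨a, ha, rfl⟩

lemma pow_mul_mem_lat_succ (k : ℕ) {a : O} (ha : a ∈ lat π M 1) :
    π ^ k * a ∈ lat π M (k + 1) := by
  obtain ⟨c, hc, rfl⟩ := mem_lat.1 ha
  exact mem_lat.2 ⟨c, hc, by ring⟩

/-- graded exactness at `norm` after `σ - 1`. -/
lemma graded1 (k : ℕ) (u : Oˣ) (hu : u ∈ h.W k) (hfu : sigmaSubOne σ u ∈ h.W (k + 1)) :
    ∃ w ∈ h.W k, u / normU G w ∈ h.W (k + 1) := by
  obtain ⟨a, ha, hua⟩ := h.exists_coord hu
  have h1 : σ • (u : O) - u ∈ lat π M (k + 1) := by
    have := h.sub_mem_of_div_mem_W (h.W_le_zero k hu) hfu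
    simpa using this
  have h2 : σ • (u : O) - u = π ^ k * (σ • a - a) := by
    have : σ • (u : O) - u = σ • ((u : O) - 1) - ((u : O) - 1) := by
      simp [smul_sub]
    rw [this, hua, smul_mul', smul_pow', h.pi_fixed]; ring
  rw [h2] at h1
  have h3 : σ • a - a ∈ lat π M 1 := h.cancel_pow h1
  obtain ⟨b, hb, hab⟩ := h.ex1 a ha h3
  obtain ⟨w, hw, hwb⟩ := h.exists_unit (h.pow_mul_mem_lat k hb)
  refine ⟨w, hw, ?_⟩
  apply h.div_mem_W (h.W_le_zero k (h.normU_mem_W hw))
  -- expansion of the norm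
  have hx : ∀ g : G, g • (π ^ k * b) ∈ lat π M k :=
    fun g => h.smul_mem_lat g (h.pow_mul_mem_lat k hb)
  have hexp := (h.prod_one_add k (fun g => g • (π ^ k * b)) hx Finset.univ).1
  have hnorm : ((normU G w : Oˣ) : O) = ∏ g : G, (1 + g • (π ^ k * b)) := by
    rw [coe_normU]
    refine Finset.prod_congr rfl (fun g _ => ?_)
    rw [hwb, smul_add, smul_one]
  have hsum : ∑ g : G, g • (π ^ k * b) = π ^ k * ∑ g : G, g • b := by
    rw [Finset.mul_sum]
    refine Finset.sum_congr rfl (fun g _ => ?_)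
    rw [smul_mul', smul_pow', h.pi_fixed]
  have : (u : O) - (normU G w : Oˣ) = π ^ k * (a - ∑ g : G, g • b) -
      ((∏ g : G, (1 + g • (π ^ k * b))) - 1 - ∑ g : G, g • (π ^ k * b)) := by
    rw [hnorm, hsum]
    have : (u : O) = 1 + π ^ k * a := by rw [← hua]; ring
    rw [this]; ring
  rw [this]
  exact (lat π M (k + 1)).sub_mem (h.pow_mul_mem_lat_succ k hab) hexp

/-- graded exactness at `σ - 1` after `norm`. -/
lemma graded2 (k : ℕ) (u : Oˣ) (hu : u ∈ h.W k) (hfu : normU G u ∈ h.W (k + 1)) :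
    ∃ w ∈ h.W k, u / sigmaSubOne σ w ∈ h.W (k + 1) := by
  obtain ⟨a, ha, hua⟩ := h.exists_coord hu
  have hu1 : (u : O) = 1 + π ^ k * a := by rw [← hua]; ring
  have hx : ∀ g : G, g • (π ^ k * a) ∈ lat π M k :=
    fun g => h.smul_mem_lat g (h.pow_mul_mem_lat k ha)
  have hexp := (h.prod_one_add k (fun g => g • (π ^ k * a)) hx Finset.univ).1
  have hnorm : ((normU G u : Oˣ) : O) = ∏ g : G, (1 + g • (π ^ k * a)) := by
    rw [coe_normU]
    refine Finset.prod_congr rfl (fun g _ => ?_)
    rw [hu1, smul_add, smul_one]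
  have hsum : ∑ g : G, g • (π ^ k * a) = π ^ k * ∑ g : G, g • a := by
    rw [Finset.mul_sum]
    refine Finset.sum_congr rfl (fun g _ => ?_)
    rw [smul_mul', smul_pow', h.pi_fixed]
  have h1 : π ^ k * ∑ g : G, g • a ∈ lat π M (k + 1) := by
    have h0 : ((normU G u : Oˣ) : O) - 1 ∈ lat π M (k + 1) := hfu
    have : π ^ k * ∑ g : G, g • a = (((normU G u : Oˣ) : O) - 1) -
        ((∏ g : G, (1 + g • (π ^ k * a))) - 1 - ∑ g : G, g • (π ^ k * a)) := by
      rw [hnorm, hsum]; ring
    rw [this]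
    exact (lat π M (k + 1)).sub_mem h0 hexp
  have h3 : ∑ g : G, g • a ∈ lat π M 1 := h.cancel_pow h1
  obtain ⟨b, hb, hab⟩ := h.ex2 a ha h3
  obtain ⟨w, hw, hwb⟩ := h.exists_unit (h.pow_mul_mem_lat k hb)
  refine ⟨w, hw, ?_⟩
  have hsw : sigmaSubOne σ w ∈ h.W k := h.sigmaSubOne_mem_W hw
  apply h.div_mem_W (h.W_le_zero k hsw)
  -- expansion of σ w / w
  have hwinv : ((w⁻¹ : Oˣ) : O) - 1 ∈ lat π M k := (h.W k).inv_mem hw
  have hd : π ^ k * (σ • b - b) ∈ lat π M k :=
    h.pow_mul_mem_lat k (M.sub_mem (h.smul_mem σ b hb) hb)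
  have hsig : ((sigmaSubOne σ w : Oˣ) : O) =
      1 + π ^ k * (σ • b - b) + π ^ k * (σ • b - b) * (((w⁻¹ : Oˣ) : O) - 1) := by
    rw [sigmaSubOne_apply, div_eq_mul_inv, Units.val_mul, coe_actU]
    have e1 : σ • (w : O) = (w : O) + π ^ k * (σ • b - b) := by
      rw [hwb, smul_add, smul_one, smul_mul', smul_pow', h.pi_fixed]; ring
    rw [e1]
    have e2 : (w : O) * ((w⁻¹ : Oˣ) : O) = 1 := Units.mul_inv w
    have : ((w : O) + π ^ k * (σ • b - b)) * ((w⁻¹ : Oˣ) : O) =
        (w : O) * ((w⁻¹ : Oˣ) : O) + π ^ k * (σ • b - b) * ((w⁻¹ : Oˣ) : O) := by ring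
    rw [this, e2]; ring
  have : (u : O) - (sigmaSubOne σ w : Oˣ) = π ^ k * (a - (σ • b - b)) -
      π ^ k * (σ • b - b) * (((w⁻¹ : Oˣ) : O) - 1) := by
    rw [hsig, hu1]; ring
  rw [this]
  exact (lat π M (k + 1)).sub_mem (h.pow_mul_mem_lat_succ k hab) (h.lat_mul_self hd hwinv)

variable [IsAdicComplete (maximalIdeal O) O]

/-- **Exactness at the norm**: a `σ`-fixed unit in `1 + M` is a norm from `1 + M`. -/
theorem exists_normU_eq (u : Oˣ) (hu : u ∈ h.W 0) (hfix : sigmaSubOne σ u = 1) :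
    ∃ y ∈ h.W 0, normU G y = u :=
  exists_eq_of_filtration h.W (sigmaSubOne σ) (normU G) h.W_sep h.W_complete
    (fun _ _ hu => h.normU_mem_W hu) (sigmaSubOne_normU σ) h.graded1 u hu hfix

/-- **Exactness at `σ - 1`**: a unit of norm one in `1 + M` is of the form `σ y / y`. -/
theorem exists_sigmaSubOne_eq (u : Oˣ) (hu : u ∈ h.W 0) (hnorm : normU G u = 1) :
    ∃ y ∈ h.W 0, sigmaSubOne σ y = u :=
  exists_eq_of_filtration h.W (normU G) (sigmaSubOne σ) h.W_sep h.W_complete
    (fun _ _ hu => h.sigmaSubOne_mem_W hu) (normU_sigmaSubOne σ) h.graded2 u hu hnorm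

end IsGoodLattice

end Fermat.Agent.S55.H713

end
-- ===== PACK-END S55/H713/Exact.lean

-- ===== PACK-BEGIN S55/G/LocH897/Coh.lean
section



/-!
# S55 / layer G / leaf G-LOC (helper897), part 2: cohomology of semi-local unit groups

* `semilocal_bijective` : **semi-local Shapiro** (recognition form, several subgroups).  If
  `B : Rep k G`, subgroups `S i ≤ G`, `A i : Rep k (S i)` and `π i : Res_{S i} B ⟶ A i`
  (`i : ι` finite) are such that `b ↦ (g ↦ π i (g • b))ᵢ` is a bijection of `B` onto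
  `∏ᵢ Coind_{S i}^G (A i)`, then
  `Hⁿ(G, B) → ∏ᵢ Hⁿ(S i, A i)`, `x ↦ (π i ∘ res x)ᵢ` is bijective.
  (From the T-layer specs `ShapiroExplicitSpec` and `FiniteProdSpec`.)
* `resUnitsRepr φ I` : `(R ⧸ I)ˣ` as a representation of the decomposition group of `I`;
* `locProj` : the localisation morphism `Res_{D} Rˣ ⟶ (R ⧸ I)ˣ`;
* `gLoc_bijective` : **G-LOC**: for a reduced Artinian ring `R` with `G`-action and maximal ideals
  `𝔪 i` representing the `G`-orbits on the maximal spectrum, the localisation maps give a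
  bijection `Hⁿ(G, Rˣ) → ∏ᵢ Hⁿ(D_{𝔪 i}, (R ⧸ 𝔪 i)ˣ)`.
-/

set_option autoImplicit false

open CategoryTheory groupCohomology

namespace Fermat.Agent.S55.G.LocH897

open Fermat.Agent.S55

/-! ### Semi-local Shapiro -/

section Semilocal

variable {k G : Type} [CommRing k] [Group G]

/-- `Hⁿ(S, π) = Hⁿ(G, π̃) ≫ sh`, where `π̃ : B ⟶ Coind A` is the adjoint of `π : Res B ⟶ A`. -/
lemma map_eq_coeffMap_comp (S : Subgroup G) (A : Rep.{0} k S) (B : Rep.{0} k G)
    (π : Rep.res S.subtype B ⟶ A) (n : ℕ) :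
    groupCohomology.map S.subtype π n =
      T.coeffMap (Rep.resCoindToHom S.subtype B A π) n ≫
        groupCohomology.map S.subtype (T.coindEv S A) n := by
  rw [← groupCohomology.map_comp]
  have h : (Rep.resFunctor S.subtype).map (Rep.resCoindToHom S.subtype B A π) ≫ T.coindEv S A
      = π := by
    have h1 := (Rep.resCoindAdjunction k S.subtype).homEquiv_counit
      (X := B) (Y := A) (g := Rep.resCoindToHom S.subtype B A π)
    rw [T.coindEv, ← h1]
    exact ((Rep.resCoindAdjunction k S.subtype).homEquiv B A).symm_apply_apply π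
  exact groupCohomology.map_congr rfl (by rw [h]) n

/-- **Semi-local Shapiro** (recognition form, several subgroups). -/
theorem semilocal_bijective (h8 : T.ShapiroExplicitSpec) (h9 : T.FiniteProdSpec)
    (ι : Type) [Finite ι] (S : ι → Subgroup G)
    (A : ∀ i, Rep.{0} k (S i)) (B : Rep.{0} k G) (π : ∀ i, Rep.res (S i).subtype B ⟶ A i)
    (hrec : ∀ f : ∀ i, G → (A i).V,
      (∀ i (s : S i) (g : G), f i (s * g) = (A i).ρ s (f i g)) →
      ∃! b : B.V, ∀ i g, (π i).hom (B.ρ g b) = f i g) (n : ℕ) :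
    Function.Bijective (fun (x : groupCohomology B n) (i : ι) =>
      (groupCohomology.map (S i).subtype (π i) n).hom x) := by
  -- the adjoint maps `p i : B ⟶ Coind (A i)`
  set p : ∀ i, B ⟶ Rep.coind (S i).subtype (A i) :=
    fun i => Rep.resCoindToHom (S i).subtype B (A i) (π i) with hp
  have hpb : Function.Bijective (fun (c : B.V) (i : ι) => (p i).hom c) := by
    constructor
    · intro b b' hbb'
      have hcond : ∀ i (s : S i) (g : G),
          (π i).hom (B.ρ (s * g) b') = (A i).ρ s ((π i).hom (B.ρ g b')) := by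
        intro i s g
        rw [map_mul]
        exact Rep.hom_comm_apply (π i) s (B.ρ g b')
      obtain ⟨c, -, hc⟩ := hrec (fun i g => (π i).hom (B.ρ g b')) hcond
      rw [hc b' (fun _ _ => rfl)]
      refine hc b (fun i g => ?_)
      have := congrArg (fun y : ↥(Representation.coindV (S i).subtype (A i).ρ) => y.1 g)
        (congrFun hbb' i)
      exact this
    · intro y
      obtain ⟨b, hb, -⟩ := hrec (fun i g => (y i).1 g) (fun i s g => (y i).2 s g)
      refine ⟨b, funext fun i => Subtype.ext (funext fun g => ?_)⟩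
      exact hb i g
  have h1 := h9 k G ι (fun i => Rep.coind (S i).subtype (A i)) B p hpb n
  have h2 : Function.Bijective
      (fun (z : ∀ i, groupCohomology (Rep.coind (S i).subtype (A i)) n) (i : ι) =>
        (groupCohomology.map (S i).subtype (T.coindEv (S i) (A i)) n).hom (z i)) := by
    constructor
    · intro z z' hzz'
      funext i
      exact (h8 k G (S i) (A i) n).1 (congrFun hzz' i)
    · intro w
      choose z hz using fun i => (h8 k G (S i) (A i) n).2 (w i)
      exact ⟨z, funext hz⟩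
  have hcomp : (fun (x : groupCohomology B n) (i : ι) =>
      (groupCohomology.map (S i).subtype (π i) n).hom x) =
      (fun (z : ∀ i, groupCohomology (Rep.coind (S i).subtype (A i)) n) (i : ι) =>
        (groupCohomology.map (S i).subtype (T.coindEv (S i) (A i)) n).hom (z i)) ∘
      (fun (x : groupCohomology B n) (i : ι) => (T.coeffMap (p i) n).hom x) := by
    funext x i
    rw [map_eq_coeffMap_comp]
    rfl
  rw [hcomp]
  exact h2.comp h1

end Semilocal

/-! ### Unit groups of residue rings as representations of decomposition groups -/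

section Units

variable {G R : Type} [Group G] [CommRing R]

/-- The `ℤ`-linear representation of `G` on `Additive Rˣ` attached to `φ : G →* (R ≃+* R)`. -/
def uRepr (φ : G →* (R ≃+* R)) : Representation ℤ G (Additive Rˣ) where
  toFun g := (MonoidHom.toAdditive (Units.map ((φ g : R ≃+* R) : R →* R))).toIntLinearMap
  map_one' := by
    refine LinearMap.ext fun x => ?_
    have h : Units.map ((φ 1 : R ≃+* R) : R →* R) x.toMul = x.toMul := Units.ext (by simp)
    exact congrArg Additive.ofMul h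
  map_mul' g h := by
    refine LinearMap.ext fun x => ?_
    have h : Units.map ((φ (g * h) : R ≃+* R) : R →* R) x.toMul =
        Units.map ((φ g : R ≃+* R) : R →* R) (Units.map ((φ h : R ≃+* R) : R →* R) x.toMul) :=
      Units.ext (by simp)
    exact congrArg Additive.ofMul h

lemma coe_uRepr_apply (φ : G →* (R ≃+* R)) (g : G) (x : Additive Rˣ) :
    (((uRepr φ g x).toMul : Rˣ) : R) = φ g ((x.toMul : Rˣ) : R) := rfl

variable (φ : G →* (R ≃+* R))

/-- `(R ⧸ I)ˣ` (additively) as a representation of the decomposition group of `I`. -/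
def resUnitsRepr (I : Ideal R) : Representation ℤ (_root_.Fermat.Agent.S55.G.LocH897.decomp φ I) (Additive (R ⧸ I)ˣ) :=
  uRepr (resAut φ I)

lemma coe_resUnitsRepr_apply (I : Ideal R) (s : _root_.Fermat.Agent.S55.G.LocH897.decomp φ I) (x : Additive (R ⧸ I)ˣ) :
    (((resUnitsRepr φ I s x).toMul : (R ⧸ I)ˣ) : R ⧸ I) =
      resAut φ I s ((x.toMul : (R ⧸ I)ˣ) : R ⧸ I) := rfl

/-- `(R ⧸ I)ˣ` as an object of `Rep ℤ (decomp φ I)`. -/
abbrev ResUnitsRep (I : Ideal R) : Rep.{0} ℤ (_root_.Fermat.Agent.S55.G.LocH897.decomp φ I) := Rep.of (resUnitsRepr φ I)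

variable (ρ : Representation ℤ G (Additive Rˣ))
  (hρ : ∀ (g : G) (x : Additive Rˣ), (((ρ g x).toMul : Rˣ) : R) = φ g ((x.toMul : Rˣ) : R))

/-- The reduction map `Rˣ → (R ⧸ I)ˣ`, additively. -/
def locLin (I : Ideal R) : Additive Rˣ →ₗ[ℤ] Additive (R ⧸ I)ˣ :=
  (MonoidHom.toAdditive (Units.map ((Ideal.Quotient.mk I : R →+* R ⧸ I) : R →* R ⧸ I))).toIntLinearMap

lemma coe_locLin_apply (I : Ideal R) (x : Additive Rˣ) :
    (((locLin I x).toMul : (R ⧸ I)ˣ) : R ⧸ I) = Ideal.Quotient.mk I ((x.toMul : Rˣ) : R) := rfl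

/-- The localisation morphism `Res_{D_I} Rˣ ⟶ (R ⧸ I)ˣ` of representations of the decomposition
group `D_I`. -/
def locProj (I : Ideal R) : Rep.res (_root_.Fermat.Agent.S55.G.LocH897.decomp φ I).subtype (Rep.of ρ) ⟶ ResUnitsRep φ I :=
  Rep.ofHom
    { toLinearMap := locLin I
      isIntertwining' := fun s => by
        refine LinearMap.ext fun x => ?_
        apply Additive.toMul.injective
        apply Units.ext
        show (((locLin I (ρ (s : G) x)).toMul : (R ⧸ I)ˣ) : R ⧸ I) =
          (((resUnitsRepr φ I s (locLin I x)).toMul : (R ⧸ I)ˣ) : R ⧸ I)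
        rw [coe_locLin_apply, hρ, coe_resUnitsRepr_apply, coe_locLin_apply, resAut_mk] }

lemma locProj_hom_apply (I : Ideal R) (x : Additive Rˣ) :
    (locProj φ ρ hρ I).hom x = locLin I x := rfl

/-- **G-LOC.**  For a reduced Artinian ring `R` with an action `φ` of `G` and maximal ideals
`𝔪 i` (`i : ι`) representing the `G`-orbits on the maximal spectrum, the localisation maps
(restriction to the decomposition group followed by reduction modulo `𝔪 i`) induce a bijection
`Hⁿ(G, Rˣ) → ∏ᵢ Hⁿ(D_{𝔪 i}, (R ⧸ 𝔪 i)ˣ)`. -/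
theorem gLoc_bijective (h8 : T.ShapiroExplicitSpec) (h9 : T.FiniteProdSpec)
    [IsArtinianRing R] [IsReduced R] {ι : Type} [Finite ι] (𝔪 : ι → Ideal R)
    (hmax𝔪 : ∀ i, (𝔪 i).IsMaximal)
    (hcover : ∀ 𝔫 : Ideal R, 𝔫.IsMaximal → ∃ i g, ∀ x, x ∈ 𝔫 ↔ φ g x ∈ 𝔪 i)
    (hdisj : ∀ i j g, (∀ x, x ∈ 𝔪 j ↔ φ g x ∈ 𝔪 i) → i = j) (n : ℕ) :
    Function.Bijective (fun (x : groupCohomology (Rep.of ρ) n) (i : ι) =>
      (groupCohomology.map (_root_.Fermat.Agent.S55.G.LocH897.decomp φ (𝔪 i)).subtype (locProj φ ρ hρ (𝔪 i)) n).hom x) := by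
  refine semilocal_bijective h8 h9 ι (fun i => _root_.Fermat.Agent.S55.G.LocH897.decomp φ (𝔪 i))
    (fun i => ResUnitsRep φ (𝔪 i)) (Rep.of ρ) (fun i => locProj φ ρ hρ (𝔪 i)) ?_ n
  intro f hf
  obtain ⟨b, hb, hbu⟩ := existsUnique_units φ 𝔪 hmax𝔪 hcover hdisj
    (fun i g => (f i g).toMul) (fun i s g => by
      have := congrArg (fun y : Additive (R ⧸ 𝔪 i)ˣ => ((y.toMul : (R ⧸ 𝔪 i)ˣ) : R ⧸ 𝔪 i))
        (hf i s g)
      exact this)
  refine ⟨Additive.ofMul b, fun i g => ?_, fun c hc => ?_⟩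
  · apply Additive.toMul.injective
    apply Units.ext
    show (((locLin (𝔪 i) (ρ g (Additive.ofMul b))).toMul : (R ⧸ 𝔪 i)ˣ) : R ⧸ 𝔪 i) = _
    rw [coe_locLin_apply, hρ]
    exact hb i g
  · apply Additive.toMul.injective
    refine hbu c.toMul fun i g => ?_
    have := congrArg (fun y : Additive (R ⧸ 𝔪 i)ˣ => ((y.toMul : (R ⧸ 𝔪 i)ˣ) : R ⧸ 𝔪 i))
      (hc i g)
    have h2 : (((locLin (𝔪 i) (ρ g c)).toMul : (R ⧸ 𝔪 i)ˣ) : R ⧸ 𝔪 i) =
        ((Additive.toMul (α := (R ⧸ 𝔪 i)ˣ) (f i g) : (R ⧸ 𝔪 i)ˣ) : R ⧸ 𝔪 i) := this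
    rw [coe_locLin_apply, hρ] at h2
    exact h2

/-- **G-LOC** with the canonical orbit representatives `orbitRep φ`. -/
theorem gLoc_bijective_orbitRep (h8 : T.ShapiroExplicitSpec) (h9 : T.FiniteProdSpec)
    [IsArtinianRing R] [IsReduced R] (n : ℕ) :
    Function.Bijective (fun (x : groupCohomology (Rep.of ρ) n) (o : OrbitIdx φ) =>
      (groupCohomology.map (_root_.Fermat.Agent.S55.G.LocH897.decomp φ (orbitRep φ o)).subtype
        (locProj φ ρ hρ (orbitRep φ o)) n).hom x) :=
  gLoc_bijective φ ρ hρ h8 h9 (orbitRep φ) (orbitRep_isMaximal φ) (orbitRep_cover φ)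
    (orbitRep_disj φ) n

end Units

end Fermat.Agent.S55.G.LocH897

end
-- ===== PACK-END S55/G/LocH897/Coh.lean

-- ===== PACK-BEGIN S55/G/DescH773/Equiv.lean
section
/-
S55 (Poitou–Tate), layer G, leaf G-DESC (helper773), part 3:

* `eAt_eq_card_inertia`, `eAt_eq_one_of_inertia`: the ramification index is the order of the
  inertia group (so trivial inertia outside `S` gives the hypothesis of `mem_range_cBase_iff`);
* `cBase_cRepr_of_compat`: base change `C_S(K) → C_S(L)` is equivariant for automorphisms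
  `γ` of `K` and `g` of `L` compatible with `K → L`.
-/


set_option autoImplicit false
set_option linter.unusedSectionVars false
set_option linter.style.haveILetI false

open scoped NumberField TensorProduct Pointwise
open IsDedekindDomain

noncomputable section

namespace Fermat.Agent.S55.G.DescH773

open Fermat.Agent.S55.G

/-! ## 6. Ramification index and inertia -/

section Unram

variable (G K L : Type) [Group G] [Finite G] [Field K] [NumberField K]
  [Field L] [NumberField L] [Algebra K L] [MulSemiringAction G L] [IsGaloisGroup G K L]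


variable {L} in
/-- The ramification index is the order of the inertia group. -/
lemma eAt_eq_card_inertia (w : HeightOneSpectrum (𝓞 L)) :
    eAt K w = Nat.card (w.asIdeal.inertia G) := by
  unfold eAt
  rw [Ideal.ramificationIdx'_eq_ramificationIdx _ _ (primeUnder K w).ne_bot,
    ← Ideal.ramificationIdxIn_eq_ramificationIdx (primeUnder K w).asIdeal w.asIdeal G,
    Ideal.card_inertia_eq_ramificationIdxIn (G := G) (primeUnder K w).asIdeal w.asIdeal]

variable {L} in
/-- If the inertia group at `w` is trivial then `w` is unramified over `K`. -/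
lemma eAt_eq_one_of_inertia (w : HeightOneSpectrum (𝓞 L))
    (h : ∀ g : G, (∀ x : 𝓞 L, g • x - x ∈ w.asIdeal) → g = 1) : eAt K w = 1 := by
  rw [eAt_eq_card_inertia G K w]
  have : w.asIdeal.inertia G = ⊥ := by
    rw [eq_bot_iff]
    intro g hg
    exact h g hg
  rw [this]
  simp

end Unram

/-! ## 7. Equivariance of base change

`γ ∈ Γ` acts on `K`, `g ∈ G` acts on `L`, compatibly with `K → L`. -/

section Compat

variable (S : Finset Nat.Primes) (Γ G K L : Type) [Group Γ] [Group G] [Field K] [NumberField K]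
  [Field L] [NumberField L] [Algebra K L] [MulSemiringAction Γ K] [MulSemiringAction G L]
  (γ : Γ) (g : G) (hc : ∀ k : K, algebraMap K L (γ • k) = g • algebraMap K L k)

include hc

lemma asBase_asAut_of_compat (t : AS S K) :
    asBase S K L (asAut S Γ K γ t) = asAut S G L g (asBase S K L t) := by
  induction t using TensorProduct.induction_on with
  | zero => simp
  | tmul a b => simp [hc]
  | add a b ha hb => simp only [map_add, ha, hb]

lemma jBase_jRepr_of_compat (u : Additive (AS S K)ˣ) :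
    jBase S K L (jRepr Γ S K γ u) = jRepr G S L g (jBase S K L u) := by
  apply Additive.toMul.injective
  apply Units.ext
  rw [coe_jBase_apply, coe_jRepr_apply, coe_jRepr_apply, coe_jBase_apply,
    asBase_asAut_of_compat S Γ G K L γ g hc]

lemma lBase_lRepr_of_compat (x : Additive Kˣ) :
    lBase K L (lRepr Γ K γ x) = lRepr G L g (lBase K L x) := by
  apply Additive.toMul.injective
  apply Units.ext
  rw [coe_lBase_apply, coe_lRepr_apply, coe_lRepr_apply, coe_lBase_apply, hc]

lemma algebraMap_int_of_compat (x : 𝓞 K) :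
    algebraMap (𝓞 K) (𝓞 L) (γ • x) = g • algebraMap (𝓞 K) (𝓞 L) x := by
  apply Subtype.ext
  exact hc x

lemma algebraMap_int_of_compat_inv (x : 𝓞 K) :
    algebraMap (𝓞 K) (𝓞 L) (γ⁻¹ • x) = g⁻¹ • algebraMap (𝓞 K) (𝓞 L) x := by
  have := algebraMap_int_of_compat Γ G K L γ g hc (γ⁻¹ • x)
  rw [smul_inv_smul] at this
  rw [this, inv_smul_smul]

variable {L} in
lemma primeUnder_primeSMul_of_compat (w : HeightOneSpectrum (𝓞 L)) :
    primeUnder K (primeSMul G g w) = primeSMul Γ γ (primeUnder K w) := by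
  apply HeightOneSpectrum.ext
  ext x
  rw [mem_primeUnder_iff, mem_primeSMul_iff, mem_primeSMul_iff, mem_primeUnder_iff,
    algebraMap_int_of_compat_inv Γ G K L γ g hc]

lemma primeOutUnder_primeOutMap_of_compat (w : PrimeOut S L) :
    primeOutUnder S K L (primeOutMap S G L g w) =
      primeOutMap S Γ K γ (primeOutUnder S K L w) :=
  Subtype.ext (primeUnder_primeSMul_of_compat Γ G K γ g hc w.1)

variable {L} in
lemma eAt_primeSMul_of_compat (w : HeightOneSpectrum (𝓞 L)) :
    eAt K (primeSMul G g w) = eAt K w := by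
  obtain ⟨π, hπ⟩ := (primeUnder K w).valuation_exists_uniformizer K
  have hπ0 : π ≠ 0 := by
    rintro rfl
    rw [map_zero] at hπ
    exact WithZero.exp_ne_zero hπ.symm
  let x : Additive Kˣ := Additive.ofMul (Units.mk0 π hπ0)
  have h1 := ordAt_primeSMul G g w (lBase K L x)
  rw [← lBase_lRepr_of_compat Γ G K L γ g hc, ordAt_lBase, ordAt_lBase,
    primeUnder_primeSMul_of_compat Γ G K γ g hc, ordAt_primeSMul] at h1
  have h2 : ordAt (primeUnder K w) x ≠ 0 := by
    rw [ordAt_apply]
    change -WithZero.log ((primeUnder K w).valuation K π) ≠ 0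
    rw [hπ]
    simp
  exact_mod_cast mul_right_cancel₀ h2 h1

lemma divBase_divRepr_of_compat (d : PrimeOut S K →₀ ℤ) :
    divBase S K L (divRepr S Γ K γ d) = divRepr S G L g (divBase S K L d) := by
  ext w
  have hw : w = primeOutMap S G L g (primeOutMap S G L g⁻¹ w) := by
    rw [← primeOutMap_mul, mul_inv_cancel, primeOutMap_one]
  conv_lhs => rw [hw]
  conv_rhs => rw [hw]
  rw [divRepr_apply_apply, divBase_apply, divBase_apply,
    primeOutUnder_primeOutMap_of_compat S Γ G K L γ g hc, divRepr_apply_apply,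
    primeOutMap_val, eAt_primeSMul_of_compat Γ G K γ g hc]

lemma jdBase_jdRepr_of_compat (y : JD S K) :
    jdBase S K L (jdRepr S Γ K γ y) = jdRepr S G L g (jdBase S K L y) :=
  Prod.ext (jBase_jRepr_of_compat S Γ G K L γ g hc y.1)
    (divBase_divRepr_of_compat S Γ G K L γ g hc y.2)

/-- Base change `C_S(K) → C_S(L)` is equivariant for compatible automorphisms. -/
theorem cBase_cRepr_of_compat (c : CS S K) :
    cBase S K L (cRepr S Γ K γ c) = cRepr S G L g (cBase S K L c) := by
  obtain ⟨y, rfl⟩ := Submodule.Quotient.mk_surjective _ c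
  rw [cRepr_mk, cBase_mk, cBase_mk, cRepr_mk, jdBase_jdRepr_of_compat S Γ G K L γ g hc]

end Compat

end Fermat.Agent.S55.G.DescH773

end
end
-- ===== PACK-END S55/G/DescH773/Equiv.lean

-- ===== PACK-BEGIN S55/G/Exist/Spec.lean
section
/-
S55 (Poitou–Tate), layer G, block EXIST = global existence theorem mod `p`
(input GD6 of engine E1, `coord/S55-E1.md`).   Owner: helper233.
Plan and leaves: `coord/S55-G-EXIST.md` on `origin/helper233`.

Only definitions and `def XxxSpec : Prop` (no `sorry`).  Vocabulary: `G/Defs.lean`, `G/Spec.lean`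
(helper421), `T/Spec.lean` (helper53).

Notation (additive, as in `G/Defs.lean`): for a number field `K` and a finite set `S` of primes
* `X = Additive Kˣ`, `J = Additive (AS S K)ˣ`, `D = PrimeOut S K →₀ ℤ`, `C = CS S K`;
* `E = sUnit S K = ker (ordHom)`;
* `Δ = kDelta p S K = {x | ordHom x ∈ p D}`    (`K(ᵖ√Δ)` = maximal `S`-unramified abelian
  extension of exponent `p` when `μ_p ⊂ K`, `p ∈ S`);
* `Ш = kSha p S K = {x ∈ Δ | x ⊗ 1 ∈ p J}`     (`K(ᵖ√Ш)` = its maximal subextension in which all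
  places above `S` split completely).
-/


set_option autoImplicit false

open scoped NumberField TensorProduct
open IsDedekindDomain

noncomputable section

namespace Fermat.Agent.S55.G.Exist

open Fermat.Agent.S55.G

/-! ## 0. Vocabulary -/

section Vocabulary

variable (p : ℕ) (S : Finset Nat.Primes) (K : Type) [Field K] [NumberField K]

/-- `Δ_S(K) = {x ∈ Kˣ | p ∣ ord_w x for all w ∉ S}` (additively). -/
def kDelta : AddSubgroup (Additive Kˣ) :=
  (AddMonoidHom.range (nsmulAddMonoidHom (α := PrimeOut S K →₀ ℤ) p)).comap (ordHom S K)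

/-- `Ш_S(K) = {x ∈ Δ_S(K) | x ⊗ 1 is a p-th power in J_S(K)}` (additively). -/
def kSha : AddSubgroup (Additive Kˣ) :=
  kDelta p S K ⊓
    (AddMonoidHom.range (nsmulAddMonoidHom (α := Additive (AS S K)ˣ) p)).comap (unitsDiag S K)

/-- The subgroup `p · A` of an additive commutative group. -/
abbrev pMul (A : Type*) [AddCommGroup A] : AddSubgroup A :=
  AddMonoidHom.range (nsmulAddMonoidHom (α := A) p)

variable {S K} in
lemma mem_kDelta_iff (x : Additive Kˣ) :
    x ∈ kDelta p S K ↔ ∃ d : PrimeOut S K →₀ ℤ, p • d = ordHom S K x := Iff.rfl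

variable {S K} in
lemma mem_kSha_iff (x : Additive Kˣ) :
    x ∈ kSha p S K ↔ (∃ d : PrimeOut S K →₀ ℤ, p • d = ordHom S K x) ∧
      ∃ u : Additive (AS S K)ˣ, p • u = unitsDiag S K x := Iff.rfl

end Vocabulary

/-- `L` is *Kummer-saturated* over `L^G` (for `p`, `S`): every `G`-invariant `x ∈ Lˣ` whose
order at every prime `w ∉ S` of `L` is divisible by `p` is a `p`-th power in `L`.
(If `L/L^G` is unramified outside `S` and `μ_p ⊂ L^G`, `p ∈ S`: `L` contains the maximal abelian
extension of exponent `p` of `L^G` which is unramified outside `S`.) -/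
def IsKummerSaturated (p : ℕ) (S : Finset Nat.Primes) (G L : Type) [Group G] [Field L]
    [NumberField L] [MulSemiringAction G L] : Prop :=
  ∀ x : Lˣ, (∀ g : G, g • (x : L) = x) →
    (∀ w : PrimeOut S L, (p : ℤ) ∣ ordAt w.1 (Additive.ofMul x)) → ∃ y : L, y ^ p = x

/-! ## 1. Output of the block -/

/-- **G-EXIST (existence theorem mod `p`; = GD6 of engine E1).**  Let `p` be an odd prime,
`p ∈ S`, `G` a finite group acting faithfully on the number field `L`, unramified outside `S`,
`μ_p ⊂ L^G`, and `L` Kummer-saturated over `L^G`.  Then `N_G (C_S(L)) ⊆ p · C_S(L)^G`. -/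
def ExistModSpec : Prop :=
  ∀ (p : ℕ) [hp : Fact p.Prime], p ≠ 2 →
  ∀ (S : Finset Nat.Primes) (G L : Type) [Group G] [Fintype G] [Field L] [NumberField L]
    [MulSemiringAction G L] [FaithfulSMul G L],
    (⟨p, hp.out⟩ : Nat.Primes) ∈ S → IsUnramOut S G L → HasFixedRootOfUnity p G L →
    IsKummerSaturated p S G L →
    ∀ c : CS S L, ∃ d : CS S L, (∀ g : G, cRepr S G L g d = d) ∧
      ∑ g : G, cRepr S G L g c = p • d

/-- **G-EXIST, elementary case**: the same for `G` commutative of exponent `p`. -/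
def ExistModElemSpec : Prop :=
  ∀ (p : ℕ) [hp : Fact p.Prime], p ≠ 2 →
  ∀ (S : Finset Nat.Primes) (G L : Type) [Group G] [Fintype G] [Field L] [NumberField L]
    [MulSemiringAction G L] [FaithfulSMul G L],
    (⟨p, hp.out⟩ : Nat.Primes) ∈ S → IsUnramOut S G L → HasFixedRootOfUnity p G L →
    IsKummerSaturated p S G L → (∀ g h : G, g * h = h * g) → (∀ g : G, g ^ p = 1) →
    ∀ c : CS S L, ∃ d : CS S L, (∀ g : G, cRepr S G L g d = d) ∧
      ∑ g : G, cRepr S G L g c = p • d

/-! ## 2. Leaves -/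

/-- **EX-IDX (arithmetic input; LPI + Dirichlet `S`-unit theorem + places ↔ primes).**
For a number field `K ∋ μ_p`, `p` odd, `p ∈ S`: `J_S(K)/p` and `E_S(K)/p` are finite and
`[J_S(K) : p J_S(K)] ≤ [E_S(K) : p E_S(K)]²`.
(In fact `[J : pJ] = p^{2t + n}` and `[E : pE] = p^{t + n/2}`, `t` = number of primes of `K` above
`S`, `n = [K : ℚ]`.) -/
def PowIndexCompareSpec : Prop :=
  ∀ (p : ℕ) [hp : Fact p.Prime], p ≠ 2 →
  ∀ (S : Finset Nat.Primes) (K : Type) [Field K] [NumberField K],
    (⟨p, hp.out⟩ : Nat.Primes) ∈ S → (∃ ζ : K, IsPrimitiveRoot ζ p) →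
    (pMul p (Additive (AS S K)ˣ)).index ≠ 0 ∧ (pMul p (sUnit S K)).index ≠ 0 ∧
    (pMul p (Additive (AS S K)ˣ)).index ≤ (pMul p (sUnit S K)).index ^ 2

/-- **EX-CNT (count; pure algebra + finiteness of the class group).**  For every number field
`K` and `S ≠ ∅`: if `J/pJ` and `E/pE` are finite then so are `C/pC`, `Δ/pX`, `Ш/pX` and
`[C : pC] · [E : pE] = [J : pJ] · [Ш : pX]`,  `[Δ : pX] = [E : pE] · [C : pC + im J]`. -/
def CountSpec : Prop :=
  ∀ (p : ℕ) [Fact p.Prime] (S : Finset Nat.Primes) (K : Type) [Field K] [NumberField K],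
    S.Nonempty →
    (pMul p (Additive (AS S K)ˣ)).index ≠ 0 → (pMul p (sUnit S K)).index ≠ 0 →
    (pMul p (CS S K)).index ≠ 0 ∧
    (pMul p (CS S K)).index * (pMul p (sUnit S K)).index =
      (pMul p (Additive (AS S K)ˣ)).index * (pMul p (Additive Kˣ)).relIndex (kSha p S K) ∧
    (pMul p (Additive Kˣ)).relIndex (kDelta p S K) =
      (pMul p (sUnit S K)).index * (pMul p (CS S K) ⊔ (jImage S K).toAddSubgroup).index ∧
    (pMul p (Additive Kˣ)).relIndex (kDelta p S K) ≠ 0

/-- **EX-KUM (Kummer fields of subgroups of `Δ`).**  Let `K ∋ μ_p`, `p ∈ S`, and let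
`pX ≤ B ≤ Δ_S(K)` with `[B : pX]` finite.  Then there are a number field `M ⊇ K` and a finite
group `Γ` acting faithfully on `M` with fixed field `K`, commutative of exponent `p`, of order
`[B : pX]`, unramified outside `S`, such that every element of `B` is a `p`-th power in `M`;
moreover, if `B ≤ Ш_S(K)`, every `j ∈ J_S(K)` is a norm from `J_S(M)`. -/
def KummerFieldSpec : Prop :=
  ∀ (p : ℕ) [hp : Fact p.Prime], p ≠ 2 →
  ∀ (S : Finset Nat.Primes) (K : Type) [Field K] [NumberField K],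
    (⟨p, hp.out⟩ : Nat.Primes) ∈ S → (∃ ζ : K, IsPrimitiveRoot ζ p) →
    ∀ B : AddSubgroup (Additive Kˣ), pMul p (Additive Kˣ) ≤ B → B ≤ kDelta p S K →
      (pMul p (Additive Kˣ)).relIndex B ≠ 0 →
      ∃ (M : Type) (_ : Field M) (_ : NumberField M) (_ : Algebra K M)
        (Γ : Type) (_ : Group Γ) (_ : Fintype Γ) (_ : MulSemiringAction Γ M)
        (_ : FaithfulSMul Γ M),
        (∀ x : M, (∀ g : Γ, g • x = x) ↔ x ∈ (algebraMap K M).range) ∧
        (∀ g h : Γ, g * h = h * g) ∧ (∀ g : Γ, g ^ p = 1) ∧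
        Fintype.card Γ = (pMul p (Additive Kˣ)).relIndex B ∧
        IsUnramOut S Γ M ∧
        (∀ x : Additive Kˣ, x ∈ B → ∃ y : M, y ^ p = algebraMap K M ((x.toMul : Kˣ) : K)) ∧
        (B ≤ kSha p S K → ∀ j : Additive (AS S K)ˣ, ∃ j' : Additive (AS S M)ˣ,
          ∑ g : Γ, jRepr Γ S M g j' = jMap S K M j)

/-- **EX-NI (norm index of a class module; pure plumbing on `T`).**  If `G` is a finite
commutative group and `C : Rep ℤ G` satisfies the numerical class-module property
(`H¹(H, C) = 0`, `H²(H, C) ≃ ℤ/|H|` for all `H ≤ G`), then `[C^G : N_G C] = |G|` and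
`e · C^G ⊆ N_G C` for every `e` with `g ^ e = 1` for all `g`.
Needs `T.ClassModuleOfCyclicSpec` and `T.TateReciprocitySpec`. -/
def NormIndexSpec : Prop :=
  ∀ (G : Type) [Group G] [Fintype G] (C : Rep.{0} ℤ G), (∀ g h : G, g * h = h * g) →
    (∀ H : Subgroup G, CategoryTheory.Limits.IsZero (groupCohomology (T.resSub C H) 1)) →
    (∀ H : Subgroup G, Nonempty (groupCohomology (T.resSub C H) 2 ≃+ ZMod (Nat.card H))) →
    T.hat0Card C = Fintype.card G ∧
    ∀ e : ℕ, (∀ g : G, g ^ e = 1) → ∀ c : C.V, (∀ g : G, C.ρ g c = c) →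
      ∃ b : C.V, e • c = ∑ g : G, C.ρ g b

/-- **EX-SHA (the bound `[Ш : pX] ≤ [C : pC + im J] = |Cl_S / p|`).**
From EX-KUM (for `B = Ш`), G-CM, EX-NI and G-DESC. -/
def ShaBoundSpec : Prop :=
  ∀ (p : ℕ) [hp : Fact p.Prime], p ≠ 2 →
  ∀ (S : Finset Nat.Primes) (K : Type) [Field K] [NumberField K],
    (⟨p, hp.out⟩ : Nat.Primes) ∈ S → (∃ ζ : K, IsPrimitiveRoot ζ p) →
    (pMul p (Additive Kˣ)).relIndex (kSha p S K) ≠ 0 →
    (pMul p (Additive Kˣ)).relIndex (kSha p S K) ≤
      (pMul p (CS S K) ⊔ (jImage S K).toAddSubgroup).index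

end Fermat.Agent.S55.G.Exist

end
end
-- ===== PACK-END S55/G/Exist/Spec.lean

-- ===== PACK-BEGIN S55/G/OrdH707.lean
section



/-!
# S55 / layer G / block G-U, leaf GU-ORD (helper707)

`sUnitsOrd : SUnitsOrdSpec` : the valuation map on `T`-units.
-/

set_option autoImplicit false
set_option linter.unusedSectionVars false
set_option linter.style.haveILetI false
set_option warn.classDefReducibility false

namespace Fermat.Agent.S55.G.OrdH707

open Fermat.Agent.S55.Herbrand NumberField IsDedekindDomain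
open scoped Pointwise

universe u v

section Action

variable (K : Type u) (L : Type v) [Field K] [Field L] [NumberField K] [NumberField L]
  [Algebra K L] [IsGalois K L]

/-- The action of `Gal(L/K)` on the finite primes of `L`. -/
noncomputable def smulH (τ : L ≃ₐ[K] L) (w : HeightOneSpectrum (𝓞 L)) :
    HeightOneSpectrum (𝓞 L) where
  asIdeal := τ • w.asIdeal
  isPrime := inferInstance
  ne_bot := by
    intro h
    apply w.ne_bot
    have : τ⁻¹ • (τ • w.asIdeal) = τ⁻¹ • (⊥ : Ideal (𝓞 L)) := by rw [h]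
    rw [inv_smul_smul] at this
    rw [this]
    ext x
    rw [Ideal.mem_pointwise_smul_iff_inv_smul_mem]
    simp [smul_eq_zero_iff_eq]

@[simp] lemma smulH_asIdeal (τ : L ≃ₐ[K] L) (w : HeightOneSpectrum (𝓞 L)) :
    (smulH K L τ w).asIdeal = τ • w.asIdeal := rfl

lemma smulH_one (w : HeightOneSpectrum (𝓞 L)) : smulH K L 1 w = w := by
  ext1; simp

lemma smulH_mul (σ τ : L ≃ₐ[K] L) (w : HeightOneSpectrum (𝓞 L)) :
    smulH K L (σ * τ) w = smulH K L σ (smulH K L τ w) := by
  ext1; simp [mul_smul]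

lemma under_smulH (τ : L ≃ₐ[K] L) (w : HeightOneSpectrum (𝓞 L)) :
    (smulH K L τ w).asIdeal.under (𝓞 K) = w.asIdeal.under (𝓞 K) := by
  haveI : w.asIdeal.LiesOver (w.asIdeal.under (𝓞 K)) := ⟨rfl⟩
  have : (τ • w.asIdeal).LiesOver (w.asIdeal.under (𝓞 K)) := inferInstance
  exact (this.over).symm

lemma coe_smul_int (τ : L ≃ₐ[K] L) (x : 𝓞 L) : ((τ • x : 𝓞 L) : L) = τ (x : L) := rfl

/-- `intValuation` is equivariant. -/
lemma intValuation_smulH (τ : L ≃ₐ[K] L) (w : HeightOneSpectrum (𝓞 L)) (r : 𝓞 L) :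
    (smulH K L τ w).intValuation (τ • r) = w.intValuation r := by
  by_cases hr : r = 0
  · subst hr; simp
  have hr' : τ • r ≠ 0 := by
    rwa [Ne, smul_eq_zero_iff_eq]
  have key : ∀ n : ℕ, (smulH K L τ w).intValuation (τ • r) ≤ WithZero.exp (-(n : ℤ)) ↔
      w.intValuation r ≤ WithZero.exp (-(n : ℤ)) := by
    intro n
    rw [HeightOneSpectrum.intValuation_le_pow_iff_mem,
      HeightOneSpectrum.intValuation_le_pow_iff_mem, smulH_asIdeal, ← smul_pow',
      Ideal.smul_mem_pointwise_smul_iff]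
  rw [HeightOneSpectrum.intValuation_if_neg _ hr] at key ⊢
  rw [HeightOneSpectrum.intValuation_if_neg _ hr'] at key ⊢
  set a := (Associates.mk (smulH K L τ w).asIdeal).count (Associates.mk (Ideal.span {τ • r})).factors
  set b := (Associates.mk w.asIdeal).count (Associates.mk (Ideal.span {r})).factors
  have h1 := (key a).1 le_rfl
  have h2 := (key b).2 le_rfl
  rw [WithZero.exp_le_exp] at h1 h2
  have : a = b := by omega
  rw [this]

/-- The valuation is equivariant. -/
lemma valuation_smulH (τ : L ≃ₐ[K] L) (w : HeightOneSpectrum (𝓞 L)) (x : L) :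
    (smulH K L τ w).valuation L (τ x) = w.valuation L x := by
  obtain ⟨r, s, hs, rfl⟩ := IsFractionRing.div_surjective (A := 𝓞 L) x
  rw [map_div₀, map_div₀, map_div₀]
  have h1 : τ (algebraMap (𝓞 L) L r) = algebraMap (𝓞 L) L (τ • r) := rfl
  have h2 : τ (algebraMap (𝓞 L) L s) = algebraMap (𝓞 L) L (τ • s) := rfl
  rw [h1, h2, HeightOneSpectrum.valuation_of_algebraMap, HeightOneSpectrum.valuation_of_algebraMap,
    HeightOneSpectrum.valuation_of_algebraMap, HeightOneSpectrum.valuation_of_algebraMap,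
    intValuation_smulH, intValuation_smulH]

end Action

section Main

variable (K : Type u) (L : Type v) [Field K] [Field L] [NumberField K] [NumberField L]
  [Algebra K L] [IsGalois K L] (T : Finset (HeightOneSpectrum (𝓞 K)))

lemma smulH_mem (τ : L ≃ₐ[K] L) {w : HeightOneSpectrum (𝓞 L)} (hw : w ∈ primesAbove K L T) :
    smulH K L τ w ∈ primesAbove K L T := by
  obtain ⟨v, hv, h⟩ := hw
  exact ⟨v, hv, by rw [under_smulH, h]⟩

/-- The action of `Gal(L/K)` on the primes above `T`. -/
noncomputable def actX : MulAction (L ≃ₐ[K] L) ↥(primesAbove K L T) where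
  smul τ w := ⟨smulH K L τ w.1, smulH_mem K L T τ w.2⟩
  one_smul w := Subtype.ext (smulH_one K L w.1)
  mul_smul σ τ w := Subtype.ext (smulH_mul K L σ τ w.1)

lemma actX_coe (τ : L ≃ₐ[K] L) (w : ↥(primesAbove K L T)) :
    ((letI := actX K L T; τ • w : ↥(primesAbove K L T)) : HeightOneSpectrum (𝓞 L)) =
      smulH K L τ w.1 := rfl

lemma finite_primesAbove : (primesAbove K L T).Finite := by
  have h : primesAbove K L T ⊆
      ⋃ v ∈ T, {w : HeightOneSpectrum (𝓞 L) | w.asIdeal ∈ v.asIdeal.primesOver (𝓞 L)} := by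
    rintro w ⟨v, hv, h⟩
    simp only [Set.mem_iUnion, Set.mem_ofPred_eq]
    exact ⟨v, hv, w.isPrime, ⟨h.symm⟩⟩
  refine Set.Finite.subset ?_ h
  refine Set.Finite.biUnion T.finite_toSet ?_
  intro v _
  have hfin : (v.asIdeal.primesOver (𝓞 L)).Finite := Set.toFinite _
  refine Set.Finite.of_finite_image (f := fun w : HeightOneSpectrum (𝓞 L) => w.asIdeal)
    (hfin.subset ?_) ?_
  · rintro _ ⟨w, hw, rfl⟩
    exact hw
  · intro w₁ _ w₂ _ h
    exact HeightOneSpectrum.ext h

/-- The `Fintype` structure on the primes above `T`. -/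
noncomputable def fintypeX : Fintype ↥(primesAbove K L T) :=
  (finite_primesAbove K L T).fintype

/-- The valuation map. -/
noncomputable def ordHom : Additive Lˣ →+ (↥(primesAbove K L T) → ℤ) where
  toFun x w := Multiplicative.toAdd (w.1.valuationOfNeZero (Additive.toMul x))
  map_zero' := by
    funext w
    simp
  map_add' x y := by
    funext w
    simp

lemma ordHom_apply (x : Additive Lˣ) (w : ↥(primesAbove K L T)) :
    _root_.Fermat.Agent.S55.G.OrdH707.ordHom K L T x w = Multiplicative.toAdd (w.1.valuationOfNeZero (Additive.toMul x)) := rfl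

lemma valuationOfNeZero_smulH (τ : L ≃ₐ[K] L) (w : HeightOneSpectrum (𝓞 L)) (x : Lˣ) :
    (smulH K L τ w).valuationOfNeZero (Units.map ((τ : L →+* L) : L →* L) x) =
      w.valuationOfNeZero x := by
  have h1 := HeightOneSpectrum.valuationOfNeZero_eq (smulH K L τ w)
    (Units.map ((τ : L →+* L) : L →* L) x)
  have h2 := HeightOneSpectrum.valuationOfNeZero_eq w x
  have h3 := valuation_smulH K L τ w (x : L)
  have h4 : ((Units.map ((τ : L →+* L) : L →* L) x : Lˣ) : L) = τ (x : L) := rfl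
  rw [h4, h3, ← h2] at h1
  exact WithZero.coe_injective h1

lemma ordHom_equivariant (τ : L ≃ₐ[K] L) (x : Additive Lˣ) :
    _root_.Fermat.Agent.S55.G.OrdH707.ordHom K L T (unitsHom K L τ x) =
      (letI := actX K L T; permHom (L ≃ₐ[K] L) ↥(primesAbove K L T) τ (_root_.Fermat.Agent.S55.G.OrdH707.ordHom K L T x)) := by
  letI := actX K L T
  funext w
  change Multiplicative.toAdd (w.1.valuationOfNeZero
      (Units.map ((τ : L →+* L) : L →* L) (Additive.toMul x))) =
    Multiplicative.toAdd ((τ⁻¹ • w).1.valuationOfNeZero (Additive.toMul x))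
  congr 1
  have := valuationOfNeZero_smulH K L τ (smulH K L τ⁻¹ w.1) (Additive.toMul x)
  rw [← smulH_mul, mul_inv_cancel, smulH_one] at this
  exact this

lemma mem_sUnits_iff (x : Additive Lˣ) :
    x ∈ sUnits K L T ↔ ∀ w : HeightOneSpectrum (𝓞 L), w ∉ primesAbove K L T →
      w.valuation L ((Additive.toMul x : Lˣ) : L) = 1 := Iff.rfl

omit [NumberField K] [Algebra K L] [IsGalois K L] in
lemma mem_intUnits_iff (x : Additive Lˣ) :
    x ∈ intUnits L ↔ ∀ w : HeightOneSpectrum (𝓞 L),
      w.valuation L ((Additive.toMul x : Lˣ) : L) = 1 := by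
  constructor
  · rintro ⟨u, rfl⟩ w
    have h1 : w.valuation L (algebraMap (𝓞 L) L (u : 𝓞 L)) ≤ 1 := w.valuation_le_one _
    have h2 : w.valuation L (algebraMap (𝓞 L) L ((u⁻¹ : (𝓞 L)ˣ) : 𝓞 L)) ≤ 1 :=
      w.valuation_le_one _
    have h3 : w.valuation L (algebraMap (𝓞 L) L (u : 𝓞 L)) *
        w.valuation L (algebraMap (𝓞 L) L ((u⁻¹ : (𝓞 L)ˣ) : 𝓞 L)) = 1 := by
      rw [← map_mul, ← map_mul, Units.mul_inv, map_one, map_one]
    exact eq_one_of_one_le_mul_left h1 h2 h3.ge
  · intro h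
    set y : Lˣ := Additive.toMul x with hy
    obtain ⟨a, ha⟩ := HeightOneSpectrum.mem_integers_of_valuation_le_one L (y : L)
      (fun w => (h w).le)
    obtain ⟨b, hb⟩ := HeightOneSpectrum.mem_integers_of_valuation_le_one L ((y⁻¹ : Lˣ) : L)
      (fun w => by
        rw [Units.val_inv_eq_inv_val, map_inv₀, h w, inv_one])
    have hab : a * b = 1 := by
      apply FaithfulSMul.algebraMap_injective (𝓞 L) L
      rw [map_mul, ha, hb, map_one, Units.mul_inv]
    have hba : b * a = 1 := by rw [mul_comm, hab]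
    refine ⟨⟨a, b, hab, hba⟩, ?_⟩
    apply Units.ext
    exact ha

lemma ordHom_eq_zero_iff (x : Additive Lˣ) (w : ↥(primesAbove K L T)) :
    _root_.Fermat.Agent.S55.G.OrdH707.ordHom K L T x w = 0 ↔ w.1.valuation L ((Additive.toMul x : Lˣ) : L) = 1 := by
  rw [_root_.Fermat.Agent.S55.G.OrdH707.ordHom_apply, ← HeightOneSpectrum.valuationOfNeZero_eq]
  constructor
  · intro h
    have : w.1.valuationOfNeZero (Additive.toMul x) = 1 := by
      apply Multiplicative.toAdd.injective
      simpa using h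
    rw [this]; rfl
  · intro h
    have : w.1.valuationOfNeZero (Additive.toMul x) = 1 := by
      apply WithZero.coe_injective
      simpa using h
    rw [this]; rfl

lemma ker_inf_sUnits : (_root_.Fermat.Agent.S55.G.OrdH707.ordHom K L T).ker ⊓ sUnits K L T = intUnits L := by
  ext x
  rw [AddSubgroup.mem_inf, AddMonoidHom.mem_ker, mem_sUnits_iff, mem_intUnits_iff]
  constructor
  · rintro ⟨h1, h2⟩ w
    by_cases hw : w ∈ primesAbove K L T
    · have := congrFun h1 ⟨w, hw⟩
      exact (ordHom_eq_zero_iff K L T x ⟨w, hw⟩).1 this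
    · exact h2 w hw
  · intro h
    refine ⟨?_, fun w _ => h w⟩
    funext w
    exact (ordHom_eq_zero_iff K L T x w).2 (h w.1)

/-- A subgroup of `ι → ℤ` containing `h • (ι → ℤ)` has finite index. -/
lemma index_ne_zero_of_nsmul_mem {ι : Type*} [Finite ι] (H : AddSubgroup (ι → ℤ)) (h : ℕ)
    (hh : 0 < h) (hH : ∀ a : ι → ℤ, h • a ∈ H) : H.index ≠ 0 := by
  have hfin : Finite ((ι → ℤ) ⧸ H) := by
    have hf : Module.Finite ℤ ((ι → ℤ) ⧸ H) := by
      have : Module.Finite ℤ ((ι → ℤ) ⧸ (AddSubgroup.toIntSubmodule H)) := inferInstance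
      exact this
    apply Module.finite_of_fg_torsion
    intro x
    induction x using QuotientAddGroup.induction_on with
    | H a =>
      refine ⟨⟨(h : ℤ), ?_⟩, ?_⟩
      · rw [mem_nonZeroDivisors_iff_ne_zero]
        exact_mod_cast hh.ne'
      · change (h : ℤ) • (QuotientAddGroup.mk a : (ι → ℤ) ⧸ H) = 0
        rw [natCast_zsmul, ← QuotientAddGroup.mk_nsmul, QuotientAddGroup.eq_zero_iff]
        exact hH a
  exact AddSubgroup.index_ne_zero_of_finite

omit [NumberField K] [Algebra K L] [IsGalois K L] in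
/-- A power of every prime is principal. -/
lemma exists_generator_pow (w : HeightOneSpectrum (𝓞 L)) :
    ∃ (h : ℕ) (g : 𝓞 L), 0 < h ∧ h = Fintype.card (ClassGroup (𝓞 L)) ∧ g ≠ 0 ∧
      Ideal.span {g} = w.asIdeal ^ h := by
  set h := Fintype.card (ClassGroup (𝓞 L)) with hh
  have hw0 : w.asIdeal ∈ nonZeroDivisors (Ideal (𝓞 L)) :=
    mem_nonZeroDivisors_of_ne_zero w.ne_bot
  have hpow : w.asIdeal ^ h ∈ nonZeroDivisors (Ideal (𝓞 L)) :=
    mem_nonZeroDivisors_of_ne_zero (pow_ne_zero _ w.ne_bot)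
  have h1 : ClassGroup.mk0 ⟨w.asIdeal ^ h, hpow⟩ = 1 := by
    have : (⟨w.asIdeal ^ h, hpow⟩ : nonZeroDivisors (Ideal (𝓞 L))) = ⟨w.asIdeal, hw0⟩ ^ h := by
      ext; simp
    rw [this, map_pow, hh, pow_card_eq_one]
  rw [ClassGroup.mk0_eq_one_iff] at h1
  obtain ⟨g, hg⟩ := h1
  refine ⟨h, g, Fintype.card_pos, rfl, ?_, ?_⟩
  · rintro rfl
    have : w.asIdeal ^ h = ⊥ := by
      rw [hg]; simp
    exact pow_ne_zero _ w.ne_bot this
  · rw [hg]

omit [NumberField K] [Algebra K L] [IsGalois K L] in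
lemma intValuation_generator_self (w : HeightOneSpectrum (𝓞 L)) (h : ℕ) (g : 𝓞 L) (hg0 : g ≠ 0)
    (hg : Ideal.span {g} = w.asIdeal ^ h) :
    w.intValuation g = WithZero.exp (-(h : ℤ)) := by
  have h1 : w.intValuation g ≤ WithZero.exp (-(h : ℤ)) := by
    rw [HeightOneSpectrum.intValuation_le_pow_iff_mem, ← hg]
    exact Ideal.mem_span_singleton_self g
  have h2 : ¬ w.intValuation g ≤ WithZero.exp (-((h + 1 : ℕ) : ℤ)) := by
    rw [HeightOneSpectrum.intValuation_le_pow_iff_mem]
    intro hmem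
    have hle : w.asIdeal ^ h ≤ w.asIdeal ^ (h + 1) := by
      rw [← hg, Ideal.span_singleton_le_iff_mem]
      exact hmem
    haveI := w.isPrime
    exact absurd hle (not_le_of_gt (Ideal.pow_succ_lt_pow w.ne_bot h))
  rw [HeightOneSpectrum.intValuation_if_neg _ hg0] at h1 h2 ⊢
  rw [WithZero.exp_le_exp] at h1 h2
  rw [WithZero.exp_inj]
  push_cast at h2
  omega

omit [NumberField K] [Algebra K L] [IsGalois K L] in
lemma intValuation_generator_ne (w w' : HeightOneSpectrum (𝓞 L)) (hne : w' ≠ w) (h : ℕ)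
    (g : 𝓞 L) (hg : Ideal.span {g} = w.asIdeal ^ h) :
    w'.intValuation g = 1 := by
  rw [HeightOneSpectrum.intValuation_eq_one_iff]
  intro hmem
  have hle : w.asIdeal ^ h ≤ w'.asIdeal := by
    rw [← hg, Ideal.span_singleton_le_iff_mem]
    exact hmem
  haveI := w'.isPrime
  have hle' : w.asIdeal ≤ w'.asIdeal := Ideal.IsPrime.le_of_pow_le hle
  haveI : w.asIdeal.IsMaximal := w.isMaximal
  have : w.asIdeal = w'.asIdeal :=
    Ideal.IsMaximal.eq_of_le inferInstance (Ideal.IsPrime.ne_top inferInstance) hle'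
  exact hne (HeightOneSpectrum.ext this.symm)

lemma index_map_ordHom : ((sUnits K L T).map (_root_.Fermat.Agent.S55.G.OrdH707.ordHom K L T)).index ≠ 0 := by
  classical
  haveI : Finite ↥(primesAbove K L T) := (finite_primesAbove K L T).to_subtype
  letI : Fintype ↥(primesAbove K L T) := fintypeX K L T
  set h := Fintype.card (ClassGroup (𝓞 L)) with hh
  have hpos : 0 < h := Fintype.card_pos
  -- the basic elements
  have hbasic : ∀ w : ↥(primesAbove K L T),
      (Pi.single w (h : ℤ) : ↥(primesAbove K L T) → ℤ) ∈ (sUnits K L T).map (_root_.Fermat.Agent.S55.G.OrdH707.ordHom K L T) := by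
    intro w
    obtain ⟨h', g, -, hh', hg0, hg⟩ := exists_generator_pow (L := L) w.1
    have hh'' : h' = h := hh'
    subst hh''
    have hgL : algebraMap (𝓞 L) L g ≠ 0 := by
      rwa [Ne, FaithfulSMul.algebraMap_eq_zero_iff]
    set y : Lˣ := Units.mk0 (algebraMap (𝓞 L) L g) hgL with hy
    have hval : ∀ w' : HeightOneSpectrum (𝓞 L), w'.valuation L (y : L) = w'.intValuation g := by
      intro w'
      rw [hy, Units.val_mk0, HeightOneSpectrum.valuation_of_algebraMap]
    have hmem : Additive.ofMul y ∈ sUnits K L T := by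
      rw [mem_sUnits_iff]
      intro w' hw'
      change w'.valuation L (y : L) = 1
      rw [hval]
      apply intValuation_generator_ne L w.1 w' _ _ g hg
      rintro rfl
      exact hw' w.2
    have hψ : _root_.Fermat.Agent.S55.G.OrdH707.ordHom K L T (Additive.ofMul y) = -(Pi.single w (h : ℤ)) := by
      funext w'
      rw [_root_.Fermat.Agent.S55.G.OrdH707.ordHom_apply]
      change Multiplicative.toAdd (w'.1.valuationOfNeZero y) = _
      by_cases hww : w' = w
      · subst hww
        have h1 := HeightOneSpectrum.valuationOfNeZero_eq w'.1 y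
        rw [hval, intValuation_generator_self L w'.1 _ g hg0 hg, WithZero.exp_eq_coe_ofAdd] at h1
        have h2 := WithZero.coe_injective h1
        rw [h2]
        simp
      · have hne : w'.1 ≠ w.1 := fun h => hww (Subtype.ext h)
        have h1 := HeightOneSpectrum.valuationOfNeZero_eq w'.1 y
        rw [hval, intValuation_generator_ne L w.1 w'.1 hne _ g hg] at h1
        have h2 : w'.1.valuationOfNeZero y = 1 := WithZero.coe_injective h1
        rw [h2]
        simp [hww]
    have : (Pi.single w (h : ℤ) : ↥(primesAbove K L T) → ℤ) =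
        _root_.Fermat.Agent.S55.G.OrdH707.ordHom K L T (-(Additive.ofMul y)) := by
      rw [map_neg, hψ, neg_neg]
    rw [this]
    exact AddSubgroup.mem_map_of_mem _ ((sUnits K L T).neg_mem hmem)
  apply index_ne_zero_of_nsmul_mem _ h hpos
  intro a
  have ha : h • a = ∑ w, a w • (Pi.single w (h : ℤ) : ↥(primesAbove K L T) → ℤ) := by
    funext w
    simp [Finset.sum_apply, Pi.single_apply, mul_comm]
  rw [ha]
  exact AddSubgroup.sum_mem _ (fun w _ => AddSubgroup.zsmul_mem _ (hbasic w) _)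

/-- The prime of `T` below a prime above `T`. -/
noncomputable def below (w : ↥(primesAbove K L T)) : {v // v ∈ T} :=
  ⟨w.2.choose, w.2.choose_spec.1⟩

lemma below_spec (w : ↥(primesAbove K L T)) :
    w.1.asIdeal.under (𝓞 K) = (below K L T w).1.asIdeal := w.2.choose_spec.2

lemma below_eq_iff (w : ↥(primesAbove K L T)) (v : {v // v ∈ T}) :
    below K L T w = v ↔ w.1.asIdeal.under (𝓞 K) = v.1.asIdeal := by
  constructor
  · rintro rfl
    exact below_spec K L T w
  · intro h
    apply Subtype.ext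
    apply HeightOneSpectrum.ext
    rw [← below_spec, h]

lemma below_smul (τ : L ≃ₐ[K] L) (w : ↥(primesAbove K L T)) :
    below K L T (letI := actX K L T; τ • w) = below K L T w := by
  rw [below_eq_iff, actX_coe, under_smulH, below_spec]

lemma exists_smul_eq_of_below_eq (w₁ w₂ : ↥(primesAbove K L T))
    (h : below K L T w₁ = below K L T w₂) :
    ∃ τ : L ≃ₐ[K] L, (letI := actX K L T; τ • w₁) = w₂ := by
  set v := below K L T w₁ with hv
  haveI : w₁.1.asIdeal.LiesOver v.1.asIdeal := ⟨(below_spec K L T w₁).symm⟩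
  haveI : w₂.1.asIdeal.LiesOver v.1.asIdeal := ⟨by rw [h]; exact (below_spec K L T w₂).symm⟩
  haveI := w₁.1.isPrime
  haveI := w₂.1.isPrime
  obtain ⟨τ, hτ⟩ := Ideal.exists_smul_eq_of_isGaloisGroup v.1.asIdeal w₁.1.asIdeal w₂.1.asIdeal
    (L ≃ₐ[K] L)
  refine ⟨τ, ?_⟩
  apply Subtype.ext
  apply HeightOneSpectrum.ext
  rw [actX_coe, smulH_asIdeal]
  exact hτ

lemma exists_above (v : {v // v ∈ T}) : ∃ w : ↥(primesAbove K L T), below K L T w = v := by
  haveI := v.1.isPrime
  obtain ⟨⟨P, hP, hPv⟩⟩ := (inferInstance : Nonempty (v.1.asIdeal.primesOver (𝓞 L)))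
  have hne : P ≠ ⊥ := by
    rintro rfl
    apply v.1.ne_bot
    rw [hPv.over]
    exact Ideal.under_bot _ _
  let w : HeightOneSpectrum (𝓞 L) := ⟨P, hP, hne⟩
  have hw : w ∈ primesAbove K L T := ⟨v.1, v.2, hPv.over.symm⟩
  exact ⟨⟨w, hw⟩, (below_eq_iff K L T _ _).2 hPv.over.symm⟩

lemma card_stabilizer (w : ↥(primesAbove K L T)) :
    Nat.card (letI := actX K L T; MulAction.stabilizer (L ≃ₐ[K] L) w) =
      (below K L T w).1.asIdeal.ramificationIdxIn (𝓞 L) *
        (below K L T w).1.asIdeal.inertiaDegIn (𝓞 L) := by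
  letI := actX K L T
  set v := below K L T w with hv
  haveI : w.1.asIdeal.LiesOver v.1.asIdeal := ⟨(below_spec K L T w).symm⟩
  haveI := w.1.isPrime
  haveI := v.1.isPrime
  rw [← Ideal.card_stabilizer_eq (G := (L ≃ₐ[K] L)) v.1.asIdeal w.1.asIdeal]
  have : MulAction.stabilizer (L ≃ₐ[K] L) w = MulAction.stabilizer (L ≃ₐ[K] L) w.1.asIdeal := by
    ext τ
    rw [MulAction.mem_stabilizer_iff, MulAction.mem_stabilizer_iff]
    constructor
    · intro h
      have := congrArg (fun x : ↥(primesAbove K L T) => x.1.asIdeal) h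
      simpa [actX_coe] using this
    · intro h
      apply Subtype.ext
      apply HeightOneSpectrum.ext
      rw [actX_coe, smulH_asIdeal]
      exact h
  rw [this]

lemma stabProd_eq :
    (letI := actX K L T; letI := fintypeX K L T;
      stabProd (L ≃ₐ[K] L) ↥(primesAbove K L T)) = finDegProd K L T := by
  classical
  letI := actX K L T
  letI := fintypeX K L T
  unfold stabProd finDegProd
  let f : MulAction.orbitRel.Quotient (L ≃ₐ[K] L) ↥(primesAbove K L T) → {v // v ∈ T} :=
    fun o => below K L T o.out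
  have hf_mk : ∀ w : ↥(primesAbove K L T),
      f (Quotient.mk (MulAction.orbitRel (L ≃ₐ[K] L) ↥(primesAbove K L T)) w) =
        below K L T w := by
    intro w
    have h : (Quotient.mk (MulAction.orbitRel (L ≃ₐ[K] L) ↥(primesAbove K L T)) w).out ∈
        MulAction.orbit (L ≃ₐ[K] L) w := by
      have := Quotient.exact (Quotient.out_eq
        (Quotient.mk (MulAction.orbitRel (L ≃ₐ[K] L) ↥(primesAbove K L T)) w))
      exact this
    obtain ⟨τ, hτ⟩ := h
    change below K L T _ = _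
    rw [← hτ]
    exact below_smul K L T τ w
  have hf : Function.Bijective f := by
    constructor
    · intro o₁ o₂ h
      induction o₁ using Quotient.inductionOn with | h w₁ =>
      induction o₂ using Quotient.inductionOn with | h w₂ =>
      rw [hf_mk, hf_mk] at h
      obtain ⟨τ, hτ⟩ := exists_smul_eq_of_below_eq K L T w₁ w₂ h
      apply Quotient.sound
      change w₁ ∈ MulAction.orbit (L ≃ₐ[K] L) w₂
      refine ⟨τ⁻¹, ?_⟩
      rw [← hτ]
      exact inv_smul_smul τ w₁
    · intro v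
      obtain ⟨w, hw⟩ := exists_above K L T v
      exact ⟨Quotient.mk _ w, by rw [hf_mk, hw]⟩
  rw [← Finset.prod_coe_sort T
    (fun v => v.asIdeal.ramificationIdxIn (𝓞 L) * v.asIdeal.inertiaDegIn (𝓞 L))]
  exact @Fintype.prod_bijective _ _ _ (Fintype.ofFinite _) _ _ f hf _ _
    (fun o => card_stabilizer K L T o.out)

/-- **GU-ORD**: the valuation map on `T`-units. -/
theorem sUnitsOrd : SUnitsOrdSpec.{u, v} := by
  intro K L _ _ _ _ _ _ T
  exact ⟨actX K L T, fintypeX K L T, _root_.Fermat.Agent.S55.G.OrdH707.ordHom K L T, _root_.Fermat.Agent.S55.G.OrdH707.ordHom_equivariant K L T,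
    ker_inf_sUnits K L T, index_map_ordHom K L T, stabProd_eq K L T⟩

end Main

end Fermat.Agent.S55.G.OrdH707

end
-- ===== PACK-END S55/G/OrdH707.lean

-- ===== PACK-BEGIN S55/G/UpH119/Cyc.lean
section


/-!
# G-CYC: the cyclic layer of degree `p` (helper119)

`CyclicLayerSpec` follows formally from the first and the second inequality.
-/

set_option autoImplicit false

open CategoryTheory groupCohomology

namespace Fermat.Agent.S55.G.UpH119

/-- **G-CYC** from G-FI and G-SI. -/
theorem cyclicLayer_of (hFI : FirstInequalitySpec) (hSI : SecondInequalitySpec) :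
    CyclicLayerSpec := by
  intro p hp hp2 S G L _ _ _ _ _ _ hpS hcard hunr hζ
  have hS : S.Nonempty := ⟨_, hpS⟩
  obtain ⟨hf1, hf2, hc⟩ := hFI p hp2 S G L hS hcard
  obtain ⟨_, hd⟩ := hSI p hp2 S G L hpS hcard hunr hζ
  have hpos1 : 0 < Nat.card (groupCohomology (CRep S G L) 1) := Nat.card_pos
  rw [hc] at hd
  have h1 : Nat.card (groupCohomology (CRep S G L) 1) = 1 := by
    have hle : p * Nat.card (groupCohomology (CRep S G L) 1) ≤ p :=
      Nat.le_of_dvd hp.out.pos hd
    have : Nat.card (groupCohomology (CRep S G L) 1) ≤ 1 := by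
      by_contra hcon
      rw [not_le] at hcon
      have : p * 2 ≤ p * Nat.card (groupCohomology (CRep S G L) 1) :=
        Nat.mul_le_mul_left p hcon
      have hp0 := hp.out.pos
      omega
    omega
  refine ⟨?_, ?_⟩
  · rw [ModuleCat.isZero_iff_subsingleton]
    exact (Nat.card_eq_one_iff_unique.1 h1).1
  · rw [hc, h1, mul_one]

end Fermat.Agent.S55.G.UpH119

end
-- ===== PACK-END S55/G/UpH119/Cyc.lean

-- ===== PACK-BEGIN S55/H963/BrAdele.lean
section


/-!
# S55 / G-SI bridge (helper963): the `S`-adèle ring `K ⊗ ℚ_S` and its integral subring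

* `zsToQs : ℤ_S → ℚ_S`, `phi : ℤ_S ⊗ 𝓞 K → K ⊗ ℚ_S`;
* `exists_pow_eq_AS` : `1 + P ^ (2n+2) φ(r)` is an `n`-th power in `K ⊗ ℚ_S`;
* `exists_denom_AS` : every `α ∈ K ⊗ ℚ_S` is `P ^ (-e) φ(r)`;
* `exists_approx_AS` : weak approximation, `K` is dense in `K ⊗ ℚ_S`.
-/

set_option autoImplicit false
set_option linter.style.haveILetI false
set_option linter.unusedSectionVars false
set_option linter.unusedVariables false

open scoped NumberField TensorProduct

noncomputable section

namespace Fermat.Agent.S55.H963.Br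

open Fermat.Agent.S55.G

variable (S : Finset Nat.Primes)

/-- The inclusion `ℤ_S → ℚ_S`. -/
def zsToQs : ZS S →+* QS S where
  toFun c := fun q => ((c q : Zq q.1) : Qq q.1)
  map_one' := rfl
  map_mul' _ _ := rfl
  map_zero' := rfl
  map_add' _ _ := rfl

@[simp] theorem zsToQs_apply (c : ZS S) (q : S) : zsToQs S c q = ((c q : Zq q.1) : Qq q.1) := rfl

theorem QS.natCast_apply (n : ℕ) (q : S) : ((n : QS S)) q = (n : Qq q.1) := rfl

theorem QS.mul_apply (a b : QS S) (q : S) : (a * b) q = a q * b q := rfl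

theorem QS.pow_apply (a : QS S) (k : ℕ) (q : S) : (a ^ k) q = a q ^ k := rfl

theorem QS.sub_apply (a b : QS S) (q : S) : (a - b) q = a q - b q := rfl

theorem QS.algebraMap_apply (r : ℚ) (q : S) : (algebraMap ℚ (QS S) r) q = (r : Qq q.1) := rfl

theorem QS.ext {a b : QS S} (h : ∀ q : S, a q = b q) : a = b := funext h

/-- `‖PS S‖_q ≤ q⁻¹ < 1` for `q ∈ S`. -/
theorem norm_PS_le {q : Nat.Primes} (hq : q ∈ S) :
    letI : Fact (q : ℕ).Prime := ⟨q.2⟩
    ‖((PS S : ℕ) : ℚ_[(q : ℕ)])‖ ≤ ((q : ℕ) : ℝ)⁻¹ := by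
  letI : Fact (q : ℕ).Prime := ⟨q.2⟩
  rw [PS_eq_mul hq, Nat.cast_mul, norm_mul, Padic.norm_p]
  have h1 : ‖(((∏ r ∈ S.erase q, (r : ℕ) : ℕ)) : ℚ_[(q : ℕ)])‖ ≤ 1 := by
    have := Padic.norm_int_le_one (p := (q : ℕ)) ((∏ r ∈ S.erase q, (r : ℕ) : ℕ) : ℤ)
    simpa using this
  have h0 : (0 : ℝ) ≤ ((q : ℕ) : ℝ)⁻¹ := by positivity
  calc ((q : ℕ) : ℝ)⁻¹ * _ ≤ ((q : ℕ) : ℝ)⁻¹ * 1 := mul_le_mul_of_nonneg_left h1 h0
    _ = _ := mul_one _

theorem norm_PS_le_one {q : Nat.Primes} (hq : q ∈ S) :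
    letI : Fact (q : ℕ).Prime := ⟨q.2⟩
    ‖((PS S : ℕ) : ℚ_[(q : ℕ)])‖ ≤ 1 := by
  letI : Fact (q : ℕ).Prime := ⟨q.2⟩
  have := Padic.norm_int_le_one (p := (q : ℕ)) ((PS S : ℕ) : ℤ)
  simpa using this

/-- Local denominators: `P ^ e a ∈ ℤ_q` for `e` large. -/
theorem exists_norm_PS_pow_mul_le {q : Nat.Primes} (hq : q ∈ S)
    (a : @Padic (q : ℕ) ⟨q.2⟩) :
    letI : Fact (q : ℕ).Prime := ⟨q.2⟩
    ∃ e : ℕ, ∀ e' : ℕ, e ≤ e' → ‖((PS S : ℕ) : ℚ_[(q : ℕ)]) ^ e' * a‖ ≤ 1 := by
  letI : Fact (q : ℕ).Prime := ⟨q.2⟩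
  have hq1 : (1 : ℝ) < ((q : ℕ) : ℝ) := by exact_mod_cast q.2.one_lt
  obtain ⟨e, he⟩ := pow_unbounded_of_one_lt ‖a‖ hq1
  refine ⟨e, fun e' hee' => ?_⟩
  rw [norm_mul, norm_pow]
  have hqpos : (0 : ℝ) < ((q : ℕ) : ℝ) := by linarith
  have h1 : ‖((PS S : ℕ) : ℚ_[(q : ℕ)])‖ ^ e' ≤ (((q : ℕ) : ℝ)⁻¹) ^ e := by
    calc ‖((PS S : ℕ) : ℚ_[(q : ℕ)])‖ ^ e' ≤ ‖((PS S : ℕ) : ℚ_[(q : ℕ)])‖ ^ e :=
          pow_le_pow_of_le_one (norm_nonneg _) (norm_PS_le_one S hq) hee'
      _ ≤ _ := pow_le_pow_left₀ (norm_nonneg _) (norm_PS_le S hq) e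
  calc ‖((PS S : ℕ) : ℚ_[(q : ℕ)])‖ ^ e' * ‖a‖
      ≤ (((q : ℕ) : ℝ)⁻¹) ^ e * ((q : ℕ) : ℝ) ^ e :=
        mul_le_mul h1 he.le (norm_nonneg _) (by positivity)
    _ = 1 := by
        rw [← mul_pow, inv_mul_cancel₀ hqpos.ne', one_pow]

/-- Denominators in `ℚ_S`. -/
theorem exists_denom_QS (a : QS S) :
    ∃ e : ℕ, ∀ e' : ℕ, e ≤ e' → ∃ c : ZS S, ((PS S : ℕ) : QS S) ^ e' * a = zsToQs S c := by
  choose e he using fun q : S => exists_norm_PS_pow_mul_le S q.2 (a q)
  refine ⟨∑ q : S, e q, fun e' hee' => ?_⟩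
  have hle : ∀ q : S, e q ≤ e' := fun q =>
    le_trans (Finset.single_le_sum (f := e) (fun _ _ => Nat.zero_le _) (Finset.mem_univ q)) hee'
  refine ⟨fun q => ⟨_, he q e' (hle q)⟩, ?_⟩
  exact QS.ext S fun q => rfl

/-- In `ℤ_q`, `q ∈ S`, divisibility by `q ^ k` implies divisibility by `(PS S) ^ k`. -/
theorem PS_pow_dvd_of_q_pow_dvd {q : Nat.Primes} (hq : q ∈ S) (k : ℕ)
    (y : @PadicInt (q : ℕ) ⟨q.2⟩) :
    letI : Fact (q : ℕ).Prime := ⟨q.2⟩
    ((q : ℕ) : ℤ_[(q : ℕ)]) ^ k ∣ y → ((PS S : ℕ) : ℤ_[(q : ℕ)]) ^ k ∣ y := by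
  letI : Fact (q : ℕ).Prime := ⟨q.2⟩
  intro h
  have h1 := associated_PS hq
  rw [Int.cast_natCast] at h1
  exact ((h1.pow_pow (n := k)).dvd_iff_dvd_left).mp h

/-- Weak approximation for `ℚ`: `ℚ` is dense in `ℚ_S`. -/
theorem exists_approx_QS (a : QS S) (M : ℕ) :
    ∃ ρ : ℚ, ∃ c : ZS S, a - algebraMap ℚ (QS S) ρ = ((PS S : ℕ) : QS S) ^ M * zsToQs S c := by
  obtain ⟨e, he⟩ := exists_denom_QS S a
  obtain ⟨a', ha'⟩ := he e le_rfl
  -- local integer approximations
  let r : S → ℤ := fun q =>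
    letI : Fact ((q.1 : Nat.Primes) : ℕ).Prime := ⟨q.1.2⟩
    ((PadicInt.appr (a' q) (M + e) : ℕ) : ℤ)
  have hr : ∀ q : S,
      letI : Fact ((q.1 : Nat.Primes) : ℕ).Prime := ⟨q.1.2⟩
      (((q.1 : Nat.Primes) : ℕ) : ℤ_[((q.1 : Nat.Primes) : ℕ)]) ^ (M + e) ∣
        (a' q - ((r q : ℤ) : ℤ_[((q.1 : Nat.Primes) : ℕ)])) := by
    intro q
    letI : Fact ((q.1 : Nat.Primes) : ℕ).Prime := ⟨q.1.2⟩
    have := PadicInt.appr_spec (M + e) (a' q)
    rw [Ideal.mem_span_singleton] at this
    simpa [r] using this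
  -- CRT
  have hcop : Pairwise (Function.onFun IsCoprime fun q : S =>
      (Ideal.span {(((q.1 : Nat.Primes) : ℕ) : ℤ) ^ (M + e)} : Ideal ℤ)) := by
    intro q q' hqq'
    rw [Function.onFun, Ideal.isCoprime_span_singleton_iff]
    apply IsCoprime.pow
    rw [Nat.isCoprime_iff_coprime, Nat.coprime_primes q.1.2 q'.1.2]
    intro h
    exact hqq' (Subtype.ext (Subtype.ext h))
  obtain ⟨ρ', hρ'⟩ := Ideal.exists_forall_sub_mem_ideal hcop r
  have hdiv : ∀ q : S,
      letI : Fact ((q.1 : Nat.Primes) : ℕ).Prime := ⟨q.1.2⟩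
      ((PS S : ℕ) : ℤ_[((q.1 : Nat.Primes) : ℕ)]) ^ (M + e) ∣
        (a' q - ((ρ' : ℤ) : ℤ_[((q.1 : Nat.Primes) : ℕ)])) := by
    intro q
    letI : Fact ((q.1 : Nat.Primes) : ℕ).Prime := ⟨q.1.2⟩
    apply PS_pow_dvd_of_q_pow_dvd S q.2
    have h1 := hρ' q
    rw [Ideal.mem_span_singleton] at h1
    have h2 : (((q.1 : Nat.Primes) : ℕ) : ℤ_[((q.1 : Nat.Primes) : ℕ)]) ^ (M + e) ∣
        (((ρ' - r q : ℤ)) : ℤ_[((q.1 : Nat.Primes) : ℕ)]) := by
      obtain ⟨u, hu⟩ := h1
      exact ⟨(u : ℤ_[((q.1 : Nat.Primes) : ℕ)]), by rw [hu]; push_cast; ring⟩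
    have h3 : a' q - ((ρ' : ℤ) : ℤ_[((q.1 : Nat.Primes) : ℕ)]) =
        (a' q - ((r q : ℤ) : ℤ_[((q.1 : Nat.Primes) : ℕ)])) -
          (((ρ' - r q : ℤ)) : ℤ_[((q.1 : Nat.Primes) : ℕ)]) := by
      push_cast; ring
    rw [h3]
    exact dvd_sub (hr q) h2
  choose c hc using hdiv
  refine ⟨(ρ' : ℚ) / ((PS S : ℕ) : ℚ) ^ e, c, ?_⟩
  apply QS.ext S
  intro q
  letI : Fact ((q.1 : Nat.Primes) : ℕ).Prime := ⟨q.1.2⟩
  have hP0 : ((PS S : ℕ) : ℚ_[((q.1 : Nat.Primes) : ℕ)]) ≠ 0 := by
    exact_mod_cast (PS_pos S).ne'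
  have hPe0 : ((PS S : ℕ) : ℚ_[((q.1 : Nat.Primes) : ℕ)]) ^ e ≠ 0 := pow_ne_zero _ hP0
  have h1 : ((PS S : ℕ) : ℚ_[((q.1 : Nat.Primes) : ℕ)]) ^ e * a q =
      ((a' q : ℤ_[((q.1 : Nat.Primes) : ℕ)]) : ℚ_[((q.1 : Nat.Primes) : ℕ)]) := by
    have := congrFun ha' q
    exact this
  have h2 : ((a' q : ℤ_[((q.1 : Nat.Primes) : ℕ)]) : ℚ_[((q.1 : Nat.Primes) : ℕ)]) -
      ((ρ' : ℤ) : ℚ_[((q.1 : Nat.Primes) : ℕ)]) =
      ((PS S : ℕ) : ℚ_[((q.1 : Nat.Primes) : ℕ)]) ^ (M + e) *
        ((c q : ℤ_[((q.1 : Nat.Primes) : ℕ)]) : ℚ_[((q.1 : Nat.Primes) : ℕ)]) := by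
    have := congrArg (fun z : ℤ_[((q.1 : Nat.Primes) : ℕ)] =>
      (z : ℚ_[((q.1 : Nat.Primes) : ℕ)])) (hc q)
    simpa using this
  rw [QS.sub_apply, QS.algebraMap_apply, QS.mul_apply, QS.pow_apply, QS.natCast_apply,
    zsToQs_apply]
  apply mul_left_cancel₀ hPe0
  rw [mul_sub, h1]
  have h3 : ((PS S : ℕ) : ℚ_[((q.1 : Nat.Primes) : ℕ)]) ^ e *
      (((ρ' : ℚ) / ((PS S : ℕ) : ℚ) ^ e : ℚ) : ℚ_[((q.1 : Nat.Primes) : ℕ)]) =
      ((ρ' : ℤ) : ℚ_[((q.1 : Nat.Primes) : ℕ)]) := by
    push_cast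
    field_simp
  rw [h3, h2]
  ring

end Fermat.Agent.S55.H963.Br

end
end
-- ===== PACK-END S55/H963/BrAdele.lean

-- ===== PACK-BEGIN S55/G/SI777/Norm.lean
section
/-
S55, layer G, block G-SI-FINAL (helper777).
Norm computations on the `S`-idèle class group for a Galois extension `L/K` with group `G`
(on top of helper773's base change `cBase : C_S(K) → C_S(L)` and Galois descent):

* `normSub S G K L`      : the subgroup `cBase⁻¹ (N_G C_S(L))` of `C_S(K)`;
* `norm_cBase`           : `N_G (cBase c) = |G| • cBase c`;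
* `card_smul_mem_normSub`: `|G| • C_S(K) ⊆ normSub`;
* `relIndex_norm_invariants`: `[C_S(L)^G : N_G C_S(L)] = [C_S(K) : normSub]` (descent).
-/


set_option autoImplicit false
set_option linter.unusedSectionVars false

open scoped NumberField TensorProduct
open IsDedekindDomain

noncomputable section

namespace Fermat.Agent.S55.G.SI777

open Fermat.Agent.S55.G Fermat.Agent.S55.G.DescH773

section Norm

variable (S : Finset Nat.Primes) (G K L : Type) [Group G] [Fintype G] [Field K] [NumberField K]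
  [Field L] [NumberField L] [Algebra K L] [MulSemiringAction G L] [IsGaloisGroup G K L]

/-- The subgroup `cBase⁻¹ (N_G C_S(L))` of `C_S(K)`. -/
def normSub : AddSubgroup (CS S K) :=
  (LinearMap.range (cRepr S G L).norm).toAddSubgroup.comap (cBase S K L)

lemma mem_normSub_iff (c : CS S K) :
    c ∈ normSub S G K L ↔ ∃ x : CS S L, (cRepr S G L).norm x = cBase S K L c := Iff.rfl

/-- `N_G (ι c) = |G| • ι c` for `c ∈ C_S(K)`. -/
lemma norm_cBase (c : CS S K) :
    (cRepr S G L).norm (cBase S K L c) = Fintype.card G • cBase S K L c := by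
  rw [Representation.norm, LinearMap.sum_apply]
  simp only [cRepr_cBase S G K L]
  rw [Finset.sum_const, Finset.card_univ]

/-- `|G| • C_S(K) ⊆ cBase⁻¹ (N_G C_S(L))`. -/
lemma card_smul_mem_normSub (c : CS S K) : Fintype.card G • c ∈ normSub S G K L := by
  rw [mem_normSub_iff]
  exact ⟨cBase S K L c, by rw [norm_cBase, map_nsmul]⟩

lemma range_norm_le_invariants :
    LinearMap.range (cRepr S G L).norm ≤ (cRepr S G L).invariants := by
  rintro _ ⟨x, rfl⟩ g
  exact Representation.self_norm_apply _ g x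

/-- The range of `cBase` is the subgroup of `G`-invariants (Galois descent, helper773). -/
lemma range_cBase_eq (hS : S.Nonempty) (hur : ∀ w : PrimeOut S L, eAt K w.1 = 1) :
    (cBase S K L).range = (cRepr S G L).invariants.toAddSubgroup := by
  ext c
  rw [mem_range_cBase_iff S G K L hS hur]
  rfl

/-- `[C_S(L)^G : N_G C_S(L)] = [C_S(K) : cBase⁻¹ (N_G C_S(L))]`. -/
lemma relIndex_norm_invariants (hS : S.Nonempty) (hur : ∀ w : PrimeOut S L, eAt K w.1 = 1) :
    (LinearMap.range (cRepr S G L).norm).toAddSubgroup.relIndex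
        (cRepr S G L).invariants.toAddSubgroup = (normSub S G K L).index := by
  rw [normSub, AddSubgroup.index_comap, range_cBase_eq S G K L hS hur]

end Norm

end Fermat.Agent.S55.G.SI777

end
end
-- ===== PACK-END S55/G/SI777/Norm.lean

-- ===== PACK-BEGIN S55/G/Rec/H413/L5Group.lean
section


/-!
# S55 / G / REC, leaf L5 (helper413), part 1: group theory of `relNorm`

* `finprod_out_quot_pow` : for `N ≤ W ≤ G`, `N` of finite index and `φ : G → M` right-`W`-invariant,
  `∏ᶠ_{G/N} φ = (∏ᶠ_{G/W} φ) ^ [W : N]`.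
* `relNorm_pow_relIndex` : `relNorm N b = relNorm W b ^ [W : N]` for `b` fixed by `W`.
* `smul_relNorm` : `relNorm W b` is fixed by `G` when `b` is fixed by `W` (finite index).
-/

set_option autoImplicit false
set_option linter.style.haveILetI false

namespace Fermat.Agent.S55.G.Rec.H413

open scoped Classical in
/-- `∏_{G/N} φ = (∏_{G/W} φ) ^ [W : N]` for a right-`W`-invariant function `φ`. -/
theorem finprod_out_quot_pow {G M : Type*} [Group G] [CommMonoid M] {N W : Subgroup G}
    (hle : N ≤ W) [N.FiniteIndex] (φ : G → M) (hφ : ∀ g : G, ∀ w ∈ W, φ (g * w) = φ g) :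
    ∏ᶠ s : G ⧸ N, φ (Quotient.out s) =
      (∏ᶠ t : G ⧸ W, φ (Quotient.out t)) ^ (N.relIndex W) := by
  have : W.FiniteIndex := Subgroup.finiteIndex_of_le hle
  letI : Fintype (G ⧸ N) := Fintype.ofFinite _
  letI : Fintype (G ⧸ W) := Fintype.ofFinite _
  have : Finite (W ⧸ N.subgroupOf W) :=
    Finite.of_injective (fun u => ((Subgroup.quotientEquivProdOfLE hle).symm
      ((QuotientGroup.mk (1 : G) : G ⧸ W), u)))
      (fun a b h => by
        have := (Subgroup.quotientEquivProdOfLE hle).symm.injective h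
        exact (Prod.mk.inj this).2)
  letI : Fintype (W ⧸ N.subgroupOf W) := Fintype.ofFinite _
  rw [finprod_eq_prod_of_fintype, finprod_eq_prod_of_fintype]
  set e := Subgroup.quotientEquivProdOfLE hle with he
  have key : ∀ s : G ⧸ N, φ (Quotient.out s) = φ (Quotient.out (e s).1) := by
    intro s
    have h1 : (e s).1 = (QuotientGroup.mk (Quotient.out s) : G ⧸ W) := by
      conv_lhs => rw [← Quotient.out_eq' s]
      rfl
    have h2 : (QuotientGroup.mk (Quotient.out (e s).1) : G ⧸ W) =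
        QuotientGroup.mk (Quotient.out s) := by
      rw [← h1]
      exact Quotient.out_eq' _
    have h3 : (Quotient.out (e s).1)⁻¹ * Quotient.out s ∈ W := QuotientGroup.eq.mp h2
    have h4 := hφ (Quotient.out (e s).1) _ h3
    rw [mul_inv_cancel_left] at h4
    exact h4
  calc ∏ s : G ⧸ N, φ (Quotient.out s)
      = ∏ s : G ⧸ N, φ (Quotient.out (e s).1) := Finset.prod_congr rfl (fun s _ => key s)
    _ = ∏ x : (G ⧸ W) × (W ⧸ N.subgroupOf W), φ (Quotient.out x.1) :=
        Equiv.prod_comp e (fun x => φ (Quotient.out x.1))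
    _ = ∏ t : G ⧸ W, ∏ _u : W ⧸ N.subgroupOf W, φ (Quotient.out t) := by
        rw [Fintype.prod_prod_type]
    _ = ∏ t : G ⧸ W, φ (Quotient.out t) ^ (N.relIndex W) := by
        refine Finset.prod_congr rfl (fun t _ => ?_)
        rw [Finset.prod_const, Finset.card_univ, Subgroup.relIndex, Subgroup.index,
          Nat.card_eq_fintype_card]
    _ = (∏ t : G ⧸ W, φ (Quotient.out t)) ^ (N.relIndex W) := Finset.prod_pow _ _ _

/-- `relNorm N b = relNorm W b ^ [W : N]` for `N ≤ W` of finite index and `b` fixed by `W`. -/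
theorem relNorm_pow_relIndex {G M : Type*} [Group G] [CommGroup M] [MulDistribMulAction G M]
    {N W : Subgroup G} (hle : N ≤ W) [N.FiniteIndex] (b : M) (hb : ∀ w ∈ W, w • b = b) :
    relNorm N b = relNorm W b ^ (N.relIndex W) := by
  unfold relNorm
  refine finprod_out_quot_pow hle (fun g => g • b) (fun g w hw => ?_)
  show (g * w) • b = g • b
  rw [mul_smul, hb w hw]

open scoped Classical in
/-- `relNorm W b` is fixed by the whole group. -/
theorem smul_relNorm {G M : Type*} [Group G] [CommGroup M] [MulDistribMulAction G M]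
    {W : Subgroup G} [W.FiniteIndex] (b : M) (hb : ∀ w ∈ W, w • b = b) (g : G) :
    g • relNorm W b = relNorm W b := by
  letI : Fintype (G ⧸ W) := Fintype.ofFinite _
  unfold relNorm
  rw [finprod_eq_prod_of_fintype, Finset.smul_prod']
  have key : ∀ t : G ⧸ W, g • ((Quotient.out t : G) • b) = (Quotient.out (g • t) : G) • b := by
    intro t
    have h1 : (QuotientGroup.mk (Quotient.out (g • t)) : G ⧸ W) =
        QuotientGroup.mk (g * Quotient.out t) := by
      rw [QuotientGroup.out_eq']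
      conv_lhs => rw [← QuotientGroup.out_eq' t]
      rfl
    have h2 : (Quotient.out (g • t))⁻¹ * (g * Quotient.out t) ∈ W := QuotientGroup.eq.mp h1
    have h3 := hb _ h2
    rw [mul_smul, mul_smul, inv_smul_eq_iff] at h3
    exact h3
  rw [Finset.prod_congr rfl (fun t _ => key t)]
  exact Equiv.prod_comp (MulAction.toPerm g : G ⧸ W ≃ G ⧸ W)
    (fun t => (Quotient.out t : G) • b)

end Fermat.Agent.S55.G.Rec.H413

end
-- ===== PACK-END S55/G/Rec/H413/L5Group.lean

-- ===== PACK-BEGIN S55/G/Rec/Loc/UnifH544/Coh.lean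
section


/-!
# S55 / G / REC / LOC, leaf LOC-UNIF (helper544), part 2: cup classes on a cyclic group

`G = ⟨σ⟩` cyclic of order `d` with generating character `ψ : G → ℤ/d` (`ψ σ = 1`), and an arbitrary
character `χ : G → ℤ/n`.  Then for every invariant `a`

  `[cupChar a χ] = (χ̃(σ) d / n) • [cupChar a ψ]`   in `H²(G, A)`

(`cc_eq_nsmul_cc544`), where `χ̃(σ) ∈ {0, …, n-1}` is the canonical lift.
-/

set_option autoImplicit false
set_option linter.unusedSectionVars false

open CategoryTheory groupCohomology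

namespace Fermat.Agent.S55.G.Rec.Loc.H544

open Fermat.Agent.S55.G.Rec

section Arith

variable {G : Type} [Group G] {n d : ℕ} [NeZero n] [NeZero d]
  (χ : G →* Multiplicative (ZMod n)) {ψ : G →* Multiplicative (ZMod d)} {σ : G}

theorem lift_pow544 (σ : G) (m : ℕ) : lift χ (σ ^ m) = (lift χ σ * m) % n := by
  unfold lift
  rw [map_pow, toAdd_pow, nsmul_eq_mul, ZMod.val_mul, ZMod.val_natCast, Nat.mod_mul_mod,
    mul_comm]

theorem lift_eq544 (h : IsGenChar ψ σ) (g : G) : lift χ g = (lift χ σ * lift ψ g) % n := by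
  conv_lhs => rw [← h.pow_lift g]
  exact lift_pow544 χ σ _

theorem dvd_lift_mul544 (h : IsGenChar ψ σ) : n ∣ lift χ σ * d := by
  have h1 := lift_pow544 χ σ d
  rw [h.pow_card, lift_map_one] at h1
  exact Nat.dvd_of_mod_eq_zero h1.symm

/-- The correction cochain `β(g) = (χ̃(σ) ψ̃(g)) / n`. -/
def scaleIdx544 (χ : G →* Multiplicative (ZMod n)) (ψ : G →* Multiplicative (ZMod d)) (σ : G)
    (g : G) : ℕ :=
  (lift χ σ * lift ψ g) / n

theorem scaleIdx_spec544 (h : IsGenChar ψ σ) (g : G) :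
    lift χ σ * lift ψ g = n * scaleIdx544 χ ψ σ g + lift χ g := by
  rw [lift_eq544 χ h g, scaleIdx544]
  exact (Nat.div_add_mod _ _).symm

/-- The key identity of carries. -/
theorem carry_scale544 (h : IsGenChar ψ σ) (g t : G) :
    carry χ g t + scaleIdx544 χ ψ σ g + scaleIdx544 χ ψ σ t =
      scaleIdx544 χ ψ σ (g * t) + (lift χ σ * d / n) * carry ψ g t := by
  have hn : 0 < n := Nat.pos_of_ne_zero (NeZero.ne n)
  obtain ⟨s, hs⟩ := dvd_lift_mul544 χ h
  have hs' : lift χ σ * d / n = s := by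
    rw [hs]
    exact Nat.mul_div_cancel_left s hn
  rw [hs']
  have e1 := lift_add_lift χ g t
  have e2 := scaleIdx_spec544 χ h g
  have e3 := scaleIdx_spec544 χ h t
  have e4 := scaleIdx_spec544 χ h (g * t)
  have e5 := lift_add_lift ψ g t
  apply Nat.eq_of_mul_eq_mul_left hn
  have e5' : lift χ σ * lift ψ g + lift χ σ * lift ψ t =
      lift χ σ * lift ψ (g * t) + n * s * carry ψ g t := by
    rw [← mul_add, e5, mul_add, ← mul_assoc, hs]
  have e6 : n * (s * carry ψ g t) = n * s * carry ψ g t := (mul_assoc _ _ _).symm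
  rw [mul_add, mul_add, mul_add, e6]
  omega

end Arith

section Class

variable {k G : Type} [CommRing k] [Group G] {n d : ℕ} [NeZero n] [NeZero d]
  (A : Rep.{0} k G) (χ : G →* Multiplicative (ZMod n)) {ψ : G →* Multiplicative (ZMod d)} {σ : G}

/-- Cochain level: `cupChar a χ - s • cupChar a ψ = d (g ↦ - β(g) • a)`. -/
theorem cupChar_sub_nsmul544 (h : IsGenChar ψ σ) (a : A.ρ.invariants) :
    (cupChar A χ a : G × G → A.V) - (lift χ σ * d / n) • (cupChar A ψ a : G × G → A.V) =
      (d₁₂ A).hom (fun g => - (scaleIdx544 χ ψ σ g • (a : A.V))) := by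
  funext ⟨g, t⟩
  have ha : ∀ g : G, A.ρ g (a : A.V) = a := a.2
  have key := carry_scale544 χ h g t
  have key' : carry χ g t • (a : A.V) + scaleIdx544 χ ψ σ g • (a : A.V) +
      scaleIdx544 χ ψ σ t • (a : A.V) =
      scaleIdx544 χ ψ σ (g * t) • (a : A.V) +
        (lift χ σ * d / n) • (carry ψ g t • (a : A.V)) := by
    rw [← add_nsmul, ← add_nsmul, ← mul_nsmul', ← add_nsmul, key]
  simp only [Pi.sub_apply, Pi.smul_apply, cupChar_apply, d₁₂_hom_apply, map_neg, map_nsmul, ha]
  generalize carry χ g t • (a : A.V) = u at key' ⊢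
  generalize scaleIdx544 χ ψ σ g • (a : A.V) = v at key' ⊢
  generalize scaleIdx544 χ ψ σ t • (a : A.V) = w at key' ⊢
  generalize scaleIdx544 χ ψ σ (g * t) • (a : A.V) = z at key' ⊢
  generalize (lift χ σ * d / n) • carry ψ g t • (a : A.V) = y at key' ⊢
  have hu : u = z + y - w - v := by
    rw [← key']
    abel
  rw [hu]
  abel

/-- **Scaling of cup classes on a cyclic group.** -/
theorem cc_eq_nsmul_cc544 (h : IsGenChar ψ σ) (a : A.ρ.invariants) :
    (H2π A).hom (cupChar A χ a) = (lift χ σ * d / n) • (H2π A).hom (cupChar A ψ a) := by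
  rw [← map_nsmul]
  change H2π A (cupChar A χ a) = H2π A ((lift χ σ * d / n) • cupChar A ψ a)
  rw [H2π_eq_iff]
  change (cupChar A χ a : G × G → A.V) - (lift χ σ * d / n) • (cupChar A ψ a : G × G → A.V) ∈
    coboundaries₂ A
  rw [cupChar_sub_nsmul544 A χ h a]
  exact LinearMap.mem_range_self _ _

end Class

end Fermat.Agent.S55.G.Rec.Loc.H544

end
-- ===== PACK-END S55/G/Rec/Loc/UnifH544/Coh.lean

-- ===== PACK-BEGIN S55/L/UnrInv/Ord.lean
section


/-!
# S55, layer L, unramified invariants: the normalised valuation `ordZ` of a local field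

For a valuation subring `B` of a field `E` which is a discrete valuation ring, `ordZ B hB x : ℤ`
is the normalised valuation of `x` (`ordZ B hB 0 = 0`).
-/

set_option autoImplicit false
set_option linter.style.haveILetI false

namespace Fermat.Agent.S55.L.UnrInv

open IsDedekindDomain

variable {E : Type} [Field E]

/-- The `ℤᵐ⁰`-valued valuation attached to a discrete valuation subring. -/
noncomputable def dvrVal (B : ValuationSubring E) (hB : IsDiscreteValuationRing B) :
    Valuation E (WithZero (Multiplicative ℤ)) :=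
  haveI := hB
  (IsDiscreteValuationRing.maximalIdeal B).valuation E

/-- The normalised valuation of a discrete valuation subring. -/
noncomputable def ordZ (B : ValuationSubring E) (hB : IsDiscreteValuationRing B) (x : E) : ℤ :=
  - WithZero.log (dvrVal B hB x)

variable (B : ValuationSubring E) (hB : IsDiscreteValuationRing B)

theorem dvrVal_ne_zero {x : E} (hx : x ≠ 0) : dvrVal B hB x ≠ 0 :=
  (Valuation.ne_zero_iff _).mpr hx

theorem ordZ_mul {x y : E} (hx : x ≠ 0) (hy : y ≠ 0) :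
    ordZ B hB (x * y) = ordZ B hB x + ordZ B hB y := by
  simp only [ordZ, map_mul, WithZero.log_mul (dvrVal_ne_zero B hB hx) (dvrVal_ne_zero B hB hy)]
  ring

@[simp] theorem ordZ_one : ordZ B hB 1 = 0 := by
  simp [ordZ]

theorem ordZ_inv (x : E) : ordZ B hB x⁻¹ = - ordZ B hB x := by
  simp only [ordZ, map_inv₀, WithZero.log_inv]

theorem ordZ_pow (x : E) (n : ℕ) : ordZ B hB (x ^ n) = n * ordZ B hB x := by
  simp only [ordZ, map_pow, WithZero.log_pow, nsmul_eq_mul]
  ring

theorem ordZ_zpow (x : E) (n : ℤ) : ordZ B hB (x ^ n) = n * ordZ B hB x := by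
  simp only [ordZ, map_zpow₀, WithZero.log_zpow, smul_eq_mul]
  ring

theorem dvrVal_le_one_of_mem {x : E} (hx : x ∈ B) : dvrVal B hB x ≤ 1 := by
  haveI := hB
  exact HeightOneSpectrum.valuation_le_one (IsDiscreteValuationRing.maximalIdeal B) (⟨x, hx⟩ : B)

theorem dvrVal_lt_one_of_mem_nonunits {x : E} (hx : x ∈ B.nonunits) : dvrVal B hB x < 1 := by
  haveI := hB
  have hxB : x ∈ B := B.nonunits_le hx
  have h := (HeightOneSpectrum.valuation_lt_one_iff_mem (K := E)
    (IsDiscreteValuationRing.maximalIdeal B) (⟨x, hxB⟩ : B)).mpr ?_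
  · exact h
  · change (⟨x, hxB⟩ : B) ∈ IsLocalRing.maximalIdeal B
    rw [IsLocalRing.mem_maximalIdeal, mem_nonunits_iff]
    intro hu
    exact (B.mem_nonunits_iff_exists_mem_maximalIdeal.mp hx).elim fun h' hh => by
      have : (⟨x, h'⟩ : B) ∈ IsLocalRing.maximalIdeal B := hh
      rw [IsLocalRing.mem_maximalIdeal, mem_nonunits_iff] at this
      exact this hu

theorem mem_of_dvrVal_le_one {x : E} (hx : dvrVal B hB x ≤ 1) : x ∈ B := by
  by_contra hxB
  have hx0 : x ≠ 0 := by
    rintro rfl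
    exact hxB B.zero_mem
  have hinv : x⁻¹ ∈ B.nonunits := by
    rw [B.mem_nonunits_iff, map_inv₀]
    have : 1 < B.valuation x := by
      rw [← not_le, B.valuation_le_one_iff]
      exact hxB
    exact inv_lt_one_of_one_lt₀ this
  have h1 := dvrVal_lt_one_of_mem_nonunits B hB hinv
  rw [map_inv₀] at h1
  have h2 : dvrVal B hB x ≠ 0 := dvrVal_ne_zero B hB hx0
  have h3 : 1 ≤ (dvrVal B hB x)⁻¹ := (one_le_inv₀ (zero_lt_iff.mpr h2)).mpr hx
  exact absurd h1 (not_lt.mpr h3)

theorem ordZ_nonneg_iff {x : E} (hx : x ≠ 0) : 0 ≤ ordZ B hB x ↔ x ∈ B := by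
  have h0 := dvrVal_ne_zero B hB hx
  constructor
  · intro h
    apply mem_of_dvrVal_le_one B hB
    rw [← WithZero.exp_log h0, ← WithZero.exp_zero, WithZero.exp_le_exp]
    simp only [ordZ] at h
    omega
  · intro h
    have := dvrVal_le_one_of_mem B hB h
    rw [← WithZero.exp_log h0, ← WithZero.exp_zero, WithZero.exp_le_exp] at this
    simp only [ordZ]
    omega

theorem ordZ_pos_iff {x : E} (hx : x ≠ 0) : 0 < ordZ B hB x ↔ x ∈ B.nonunits := by
  have h0 := dvrVal_ne_zero B hB hx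
  constructor
  · intro h
    have hxB : x ∈ B := (ordZ_nonneg_iff B hB hx).mp h.le
    rw [B.mem_nonunits_iff]
    rcases (B.valuation_lt_one_or_eq_one ⟨x, hxB⟩) with h1 | h1
    · exact h1
    · exfalso
      have hinv : x⁻¹ ∈ B := by
        rw [← B.valuation_le_one_iff, map_inv₀]
        have : B.valuation x = 1 := h1
        rw [this, inv_one]
      have := (ordZ_nonneg_iff B hB (inv_ne_zero hx)).mpr hinv
      rw [ordZ_inv] at this
      omega
  · intro h
    have := dvrVal_lt_one_of_mem_nonunits B hB h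
    rw [← WithZero.exp_log h0, ← WithZero.exp_zero, WithZero.exp_lt_exp] at this
    simp only [ordZ]
    omega

theorem ordZ_eq_zero_iff {x : E} (hx : x ≠ 0) : ordZ B hB x = 0 ↔ x ∈ B ∧ x⁻¹ ∈ B := by
  rw [← ordZ_nonneg_iff B hB hx, ← ordZ_nonneg_iff B hB (inv_ne_zero hx), ordZ_inv]
  omega

theorem ordZ_uniformizer {π : E} (hπ : IsUniformizer B π) : ordZ B hB π = 1 := by
  haveI := hB
  obtain ⟨hπB, hirr⟩ := hπ
  have h1 : (IsDiscreteValuationRing.maximalIdeal B).asIdeal = Ideal.span {(⟨π, hπB⟩ : B)} :=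
    hirr.maximalIdeal_eq
  have h2 := HeightOneSpectrum.intValuation_singleton (IsDiscreteValuationRing.maximalIdeal B)
    hirr.ne_zero h1
  have h3 : dvrVal B hB π = WithZero.exp (-1) := by
    rw [← h2]
    exact HeightOneSpectrum.valuation_of_algebraMap (K := E)
      (IsDiscreteValuationRing.maximalIdeal B) (⟨π, hπB⟩ : B)
  simp [ordZ, h3]

theorem uniformizer_ne_zero {π : E} (hπ : IsUniformizer B π) : π ≠ 0 := by
  obtain ⟨hπB, hirr⟩ := hπ
  rintro rfl
  exact hirr.ne_zero rfl

/-- Decomposition `x = u π^k`. -/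
theorem ordZ_div_zpow' {π : E} (hπ1 : ordZ B hB π = 1) (hπ0 : π ≠ 0) {x : E} (hx : x ≠ 0) :
    ordZ B hB (x / π ^ (ordZ B hB x)) = 0 := by
  rw [div_eq_mul_inv, ordZ_mul B hB hx (inv_ne_zero (zpow_ne_zero _ hπ0)), ordZ_inv, ordZ_zpow,
    hπ1]
  ring

/-- Behaviour under a ring homomorphism mapping integers to integers (`π` any element of
valuation `1`). -/
theorem ordZ_map' {E' : Type} [Field E'] (B' : ValuationSubring E')
    (hB' : IsDiscreteValuationRing B') (ι : E →+* E') (hι : ∀ x ∈ B, ι x ∈ B')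
    {π : E} (hπ1 : ordZ B hB π = 1) (hπ0 : π ≠ 0) {x : E} (hx : x ≠ 0) :
    ordZ B' hB' (ι x) = ordZ B' hB' (ι π) * ordZ B hB x := by
  set k := ordZ B hB x with hk
  set u := x / π ^ k with hu
  have hu0 : u ≠ 0 := div_ne_zero hx (zpow_ne_zero _ hπ0)
  have hxu : x = u * π ^ k := by
    rw [hu, div_mul_cancel₀ _ (zpow_ne_zero _ hπ0)]
  have h1 : ordZ B hB u = 0 := ordZ_div_zpow' B hB hπ1 hπ0 hx
  obtain ⟨h2, h3⟩ := (ordZ_eq_zero_iff B hB hu0).mp h1
  have h4 : ordZ B' hB' (ι u) = 0 := by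
    rw [ordZ_eq_zero_iff B' hB' ((map_ne_zero ι).mpr hu0)]
    refine ⟨hι _ h2, ?_⟩
    rw [← map_inv₀]
    exact hι _ h3
  have h5 : ι x = ι u * (ι π) ^ k := by
    conv_lhs => rw [hxu]
    rw [map_mul, map_zpow₀]
  rw [h5, ordZ_mul B' hB' ((map_ne_zero ι).mpr hu0)
    (zpow_ne_zero _ ((map_ne_zero ι).mpr hπ0)), h4, ordZ_zpow]
  ring

/-- Behaviour under a ring homomorphism mapping integers to integers. -/
theorem ordZ_map {E' : Type} [Field E'] (B' : ValuationSubring E')
    (hB' : IsDiscreteValuationRing B') (ι : E →+* E') (hι : ∀ x ∈ B, ι x ∈ B')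
    {π : E} (hπ : IsUniformizer B π) {x : E} (hx : x ≠ 0) :
    ordZ B' hB' (ι x) = ordZ B' hB' (ι π) * ordZ B hB x :=
  ordZ_map' B hB B' hB' ι hι (ordZ_uniformizer B hB hπ) (uniformizer_ne_zero B hπ) hx

/-- Existence of uniformizers. -/
theorem exists_isUniformizer (B : ValuationSubring E) (hB : IsDiscreteValuationRing B) :
    ∃ π : E, IsUniformizer B π := by
  haveI := hB
  obtain ⟨π, hπ⟩ := IsDiscreteValuationRing.exists_irreducible B
  exact ⟨π, π.2, hπ⟩

/-- A ring isomorphism matching the rings of integers preserves `ordZ`. -/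
theorem ordZ_equiv {E' : Type} [Field E'] (B' : ValuationSubring E')
    (hB' : IsDiscreteValuationRing B') (e : E ≃+* E') (h1 : ∀ x ∈ B, e x ∈ B')
    (h2 : ∀ y ∈ B', e.symm y ∈ B) (x : E) :
    ordZ B' hB' (e x) = ordZ B hB x := by
  by_cases hx : x = 0
  · subst hx
    simp [ordZ]
  haveI := hB
  haveI := hB'
  obtain ⟨π, hπirr⟩ := IsDiscreteValuationRing.exists_irreducible B
  obtain ⟨π', hπ'irr⟩ := IsDiscreteValuationRing.exists_irreducible B'
  have hπ : IsUniformizer B (π : E) := ⟨π.2, hπirr⟩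
  have hπ' : IsUniformizer B' (π' : E') := ⟨π'.2, hπ'irr⟩
  have hπ0 := uniformizer_ne_zero B hπ
  have hπ'0 := uniformizer_ne_zero B' hπ'
  have k1 := ordZ_map B hB B' hB' e.toRingHom h1 hπ hπ0
  have k2 := ordZ_map B' hB' B hB e.symm.toRingHom h2 hπ' ((map_ne_zero e.toRingHom).mpr hπ0)
  have k3 := ordZ_map B hB B' hB' e.toRingHom h1 hπ hx
  simp only [RingEquiv.toRingHom_eq_coe, RingEquiv.coe_toRingHom, RingEquiv.symm_apply_apply]
    at k1 k2 k3
  rw [ordZ_uniformizer B hB hπ] at k1 k2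
  have k4 : 0 ≤ ordZ B' hB' (e (π : E)) :=
    (ordZ_nonneg_iff B' hB' ((map_ne_zero e).mpr hπ0)).mpr (h1 _ π.2)
  have k5 : ordZ B' hB' (e (π : E)) = 1 := by
    have : ordZ B hB (e.symm (π' : E')) * ordZ B' hB' (e (π : E)) = 1 := by
      rw [k2]
    exact Int.eq_one_of_mul_eq_one_left k4 this
  rw [k3, k5, one_mul]

end Fermat.Agent.S55.L.UnrInv

end
-- ===== PACK-END S55/L/UnrInv/Ord.lean

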