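import Mathlib
import Fermat.Prelude.Def_GaloisRep_CompletionBridge
import Fermat.Agent.Pack.S43GC.G0E3L3
import Fermat.Agent.Pack.S44C.G0E12L3
import Fermat.Agent.Pack.S43GC.G0E5L0
import Fermat.Agent.Pack.S43GC.G0E3L0
import Fermat.Agent.Pack.S43GC.G0E5L3
import Fermat.Agent.Pack.S44C.G0E0L2
import Fermat.Agent.Pack.S44C.G0E6L0
import Fermat.Agent.Pack.S43GC.G0E5L2
import Fermat.Agent.Pack.S43GC.G0E3L2
import Fermat.Agent.Pack.S43GC.G0E1L1
import Fermat.Agent.Pack.S43GC.G0E6L0
import Fermat.Agent.Pack.S43GC.G0E6L2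
import Fermat.Agent.Pack.S43GC.G0E6L1
import Fermat.Agent.Pack.Fast891

-- ===== PACK-BEGIN S55/Inv/WrH413/Unram.lean
section




/-!
# S55 / INV-WR (helper413), part 4: inertial elements act trivially on levels unramified at `q`

`IsInertial q τ` (REC vocabulary: `τ` acts trivially on the residue field of `ℚ̄_q`) implies that
the restriction of `τ` to `ℚ̄` lies in the Prelude inertia group of `padicPlace q`; hence it
fixes every level `F` unramified outside `S` if `q ∉ S`.
-/

set_option autoImplicit false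
set_option linter.style.haveILetI false

namespace Fermat.Agent.S55.Inv.H413

open Fermat.Agent.S55.G.Rec

local notation "Qb" => AlgebraicClosure ℚ
local notation "GQ" => (AlgebraicClosure ℚ ≃ₐ[ℚ] AlgebraicClosure ℚ)

section

variable (q : ℕ) [Fact q.Prime]

local notation "Gq" => (PadicAlgCl q ≃ₐ[ℚ_[q]] PadicAlgCl q)

theorem padicPlace_liesOver413 : (padicPlace q).LiesOverPrime q :=
  Fermat.Agent.S55.H175.primeLocalPlace_liesOverPrime ⟨q, Fact.out⟩

theorem localGaloisToGlobal_mem_inertia (τ : Gq) (hτ : IsInertial q τ) :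
    localGaloisToGlobal q τ ∈ (padicPlace q).inertiaSubgroupIn ℚ := by
  rw [Bridge.mem_inertiaSubgroupIn_iff]
  refine ⟨localGaloisToGlobal_mem_decompositionSubgroup q τ, fun z hz => ?_⟩
  rw [Bridge.mem_nonunits_iff_inv_not_mem]
  by_cases h0 : localGaloisToGlobal q τ z - z = 0
  · exact Or.inl h0
  · right
    intro hmem
    rw [mem_padicPlace_iff] at hz hmem
    have hz' : ‖padicEmbedding q z‖ ≤ 1 := hz
    have hmem' : ‖padicEmbedding q (localGaloisToGlobal q τ z - z)⁻¹‖ ≤ 1 := hmem
    have hlt := hτ (padicEmbedding q z) hz'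
    rw [← padicEmbedding_localGaloisToGlobal, ← map_sub] at hlt
    have hinj : Function.Injective (padicEmbedding q) := (padicEmbedding q).injective
    have hne : padicEmbedding q (localGaloisToGlobal q τ z - z) ≠ 0 := by
      intro h
      apply h0
      apply hinj
      rw [h, map_zero]
    rw [map_inv₀, norm_inv] at hmem'
    have hpos : 0 < ‖padicEmbedding q (localGaloisToGlobal q τ z - z)‖ := norm_pos_iff.2 hne
    have := (inv_le_one₀ hpos).1 hmem'
    exact absurd hlt (not_lt.2 this)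

theorem localGaloisToGlobal_mem_fixingSubgroup_of_inertial {S : Finset Nat.Primes}
    {F : IntermediateField ℚ Qb} (hF : F.IsUnramifiedOutside S)
    (hq : (⟨q, Fact.out⟩ : Nat.Primes) ∉ S) (τ : Gq) (hτ : IsInertial q τ) :
    localGaloisToGlobal q τ ∈ F.fixingSubgroup :=
  hF.2 ⟨q, Fact.out⟩ hq (padicPlace q) (padicPlace_liesOver413 q)
    (localGaloisToGlobal_mem_inertia q τ hτ)

end

end Fermat.Agent.S55.Inv.H413

end
-- ===== PACK-END S55/Inv/WrH413/Unram.lean

-- ===== PACK-BEGIN S55/Bridge/H175/LevelGalois.lean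
section





set_option autoImplicit false
set_option linter.style.haveILetI false

/-!
# B11, part 2: `Gal(F_q/ℚ_q) ≃* D_q(F) ⊆ Gal(F/ℚ)`

For a normal intermediate field `F` of `ℚ̄/ℚ`:

* `toLevel q F : Gal(ℚ̄_q/ℚ_q) →* Gal(F/ℚ)`, `τ ↦ (localGaloisToGlobal q τ)|_F`;
* `decompositionAt q F := (toLevel q F).range` (the decomposition group `D_q(F)`);
* `ker_toLevel : (toLevel q F).ker = Gal(ℚ̄_q/F_q)`;
* `localLevelGalEquiv q F : Gal(F_q/ℚ_q) ≃* D_q(F)` with
  `ι ((localLevelGalEquiv q F τ̄) x) = τ̄ (ι x)` for `x ∈ F`.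
-/

open scoped NNReal Pointwise

namespace Fermat.Agent.S55.Bridge.H175

variable (q : ℕ) [Fact q.Prime]
variable (F : IntermediateField ℚ (AlgebraicClosure ℚ)) [hFn : Normal ℚ F]

instance instNormalLocalLevel : Normal ℚ_[q] (localLevel q F) := normal_localLevel q F

instance instIsGaloisLocalLevel : IsGalois ℚ_[q] (localLevel q F) := isGalois_localLevel q F

/-- `Gal(ℚ̄_q/ℚ_q) → Gal(F/ℚ)`: restrict to `ℚ̄` along `ι`, then to `F`. -/
noncomputable def toLevel : (PadicAlgCl q ≃ₐ[ℚ_[q]] PadicAlgCl q) →* (F ≃ₐ[ℚ] F) :=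
  (AlgEquiv.restrictNormalHom (F := ℚ) (K₁ := AlgebraicClosure ℚ) F).comp (localGaloisToGlobal q)

theorem toLevel_apply_coe (τ : PadicAlgCl q ≃ₐ[ℚ_[q]] PadicAlgCl q) (x : F) :
    ((toLevel q F τ x : F) : AlgebraicClosure ℚ) = localGaloisToGlobal q τ (x : AlgebraicClosure ℚ) :=
  AlgEquiv.restrictNormal_commutes (localGaloisToGlobal q τ) F x

theorem padicEmbedding_toLevel (τ : PadicAlgCl q ≃ₐ[ℚ_[q]] PadicAlgCl q) (x : F) :
    padicEmbedding q ((toLevel q F τ x : F) : AlgebraicClosure ℚ) =
      τ (padicEmbedding q (x : AlgebraicClosure ℚ)) := by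
  rw [toLevel_apply_coe, padicEmbedding_localGaloisToGlobal]

/-- The decomposition group at `q` in `Gal(F/ℚ)` (with respect to the place `ι`). -/
noncomputable def decompositionAt : Subgroup (F ≃ₐ[ℚ] F) := (toLevel q F).range

theorem toLevel_mem_decompositionAt (τ : PadicAlgCl q ≃ₐ[ℚ_[q]] PadicAlgCl q) :
    toLevel q F τ ∈ decompositionAt q F := ⟨τ, rfl⟩

theorem decompositionAt_eq_map :
    decompositionAt q F = ((padicPlace q).decompositionSubgroup ℚ).map
      (AlgEquiv.restrictNormalHom (F := ℚ) (K₁ := AlgebraicClosure ℚ) F) := by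
  unfold decompositionAt toLevel
  rw [MonoidHom.range_comp, Fermat.Agent.S55.H175.range_localGaloisToGlobal]

/-- **`ker (Gal(ℚ̄_q/ℚ_q) → Gal(F/ℚ)) = Gal(ℚ̄_q/F_q)`.** -/
theorem ker_toLevel : (toLevel q F).ker = (localLevel q F).fixingSubgroup := by
  have h : (AlgEquiv.restrictNormalHom (F := ℚ) (K₁ := AlgebraicClosure ℚ) F).ker =
      F.fixingSubgroup := @IntermediateField.restrictNormalHom_ker _ _ _ _ _ F hFn
  unfold toLevel
  rw [← MonoidHom.comap_ker, h, comap_fixingSubgroup]

/-- Restriction `Gal(ℚ̄_q/ℚ_q) → Gal(F_q/ℚ_q)`. -/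
noncomputable def locRes :
    (PadicAlgCl q ≃ₐ[ℚ_[q]] PadicAlgCl q) →* (localLevel q F ≃ₐ[ℚ_[q]] localLevel q F) :=
  AlgEquiv.restrictNormalHom (F := ℚ_[q]) (K₁ := PadicAlgCl q) (localLevel q F)

theorem locRes_apply_coe (τ : PadicAlgCl q ≃ₐ[ℚ_[q]] PadicAlgCl q) (y : localLevel q F) :
    ((locRes q F τ y : localLevel q F) : PadicAlgCl q) = τ (y : PadicAlgCl q) :=
  AlgEquiv.restrictNormal_commutes τ (localLevel q F) y

theorem locRes_surjective : Function.Surjective (locRes q F) := by
  haveI := normal_padicAlgCl q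
  exact AlgEquiv.restrictNormalHom_surjective (F := ℚ_[q]) (K₁ := localLevel q F) (PadicAlgCl q)

theorem ker_locRes : (locRes q F).ker = (localLevel q F).fixingSubgroup :=
  IntermediateField.restrictNormalHom_ker (localLevel q F)

theorem ker_locRes_eq_ker_toLevel : (locRes q F).ker = (toLevel q F).ker := by
  rw [ker_locRes, ker_toLevel]

/-- **`Gal(F_q/ℚ_q) ≃* D_q(F)`.** -/
noncomputable def localLevelGalEquiv :
    (localLevel q F ≃ₐ[ℚ_[q]] localLevel q F) ≃* decompositionAt q F :=
  ((QuotientGroup.quotientKerEquivOfSurjective (locRes q F) (locRes_surjective q F)).symm.trans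
    (QuotientGroup.quotientMulEquivOfEq (ker_locRes_eq_ker_toLevel q F))).trans
    ((QuotientGroup.quotientKerEquivRange (toLevel q F) :
      _ ≃* (toLevel q F).range) : _ ≃* decompositionAt q F)

theorem localLevelGalEquiv_locRes (τ : PadicAlgCl q ≃ₐ[ℚ_[q]] PadicAlgCl q) :
    ((localLevelGalEquiv q F (locRes q F τ) : decompositionAt q F) : F ≃ₐ[ℚ] F) =
      toLevel q F τ := by
  have h1 : (QuotientGroup.quotientKerEquivOfSurjective (locRes q F)
      (locRes_surjective q F)).symm (locRes q F τ) = (τ : _ ⧸ (locRes q F).ker) := by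
    rw [MulEquiv.symm_apply_eq]
    rfl
  change ((QuotientGroup.quotientKerEquivRange (toLevel q F)
    ((QuotientGroup.quotientMulEquivOfEq (ker_locRes_eq_ker_toLevel q F))
      ((QuotientGroup.quotientKerEquivOfSurjective (locRes q F)
        (locRes_surjective q F)).symm (locRes q F τ))) : (toLevel q F).range) : F ≃ₐ[ℚ] F) = _
  rw [h1]
  rfl

/-- The isomorphism is "the identity on `ι(F)`": `ι(σ̄ x) = τ̄(ι x)`. -/
theorem padicEmbedding_localLevelGalEquiv (τ' : localLevel q F ≃ₐ[ℚ_[q]] localLevel q F) (x : F) :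
    padicEmbedding q
        ((((localLevelGalEquiv q F τ' : decompositionAt q F) : F ≃ₐ[ℚ] F) x : F) :
          AlgebraicClosure ℚ) =
      ((τ' ⟨padicEmbedding q (x : AlgebraicClosure ℚ), padicEmbedding_mem_localLevel x.2⟩ :
        localLevel q F) : PadicAlgCl q) := by
  obtain ⟨τ, rfl⟩ := locRes_surjective q F τ'
  rw [localLevelGalEquiv_locRes, padicEmbedding_toLevel, locRes_apply_coe]

theorem card_decompositionAt [FiniteDimensional ℚ F] :
    Nat.card (decompositionAt q F) = Module.finrank ℚ_[q] (localLevel q F) := by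
  haveI := finiteDimensional_localLevel q F
  rw [← Nat.card_congr (localLevelGalEquiv q F).toEquiv]
  exact IsGalois.card_aut_eq_finrank ℚ_[q] (localLevel q F)

end Fermat.Agent.S55.Bridge.H175

end
-- ===== PACK-END S55/Bridge/H175/LevelGalois.lean

-- ===== PACK-BEGIN S55/Bridge/FiniteRam.lean
section




/-!
# S55 bridge, part B15: a finite extension of `ℚ` is unramified outside a finite set of primes

`exists_finset_isUnramifiedOutside`: for `F/ℚ` finite (inside `ℚ̄`) there is a finite set `T` of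
primes with `F.IsUnramifiedOutside T` (Prelude sense: all inertia groups of places of `ℚ̄` over
`q ∉ T` fix `F`).  Elementary proof: for an integral `y` with minimal polynomial `f`, an inertia
element `σ` with `σ y ≠ y` forces `f'(y) ∈ 𝔪_A`, and `f'(y)` divides a nonzero integer.
-/

set_option autoImplicit false

namespace Fermat.Agent.S55.Bridge

open Polynomial Fermat.Agent.S54

variable (A : ValuationSubring (AlgebraicClosure ℚ))

/-- If an inertia element moves the integral element `y`, then `f'(y) ∈ 𝔪_A`, `f = minpoly ℤ y`. -/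
theorem aeval_derivative_mem_nonunits {y : AlgebraicClosure ℚ} (hy : IsIntegral ℤ y)
    {σ : AlgebraicClosure ℚ ≃ₐ[ℚ] AlgebraicClosure ℚ} (hσ : σ ∈ A.inertiaSubgroupIn ℚ)
    (hne : σ y ≠ y) :
    aeval y (derivative (minpoly ℤ y)) ∈ A.nonunits := by
  have hyA : y ∈ A := isIntegral_mem_valuationSubring A hy
  have hsy : IsIntegral ℤ (σ y) := hy.map σ
  have hsA : σ y ∈ A := isIntegral_mem_valuationSubring A hsy
  set P : Polynomial A := (minpoly ℤ y).map (algebraMap ℤ A) with hP
  let yA : A := ⟨y, hyA⟩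
  let sA : A := ⟨σ y, hsA⟩
  have hcoe : ∀ (p : Polynomial ℤ) (a : A),
      ((eval a (p.map (algebraMap ℤ A)) : A) : AlgebraicClosure ℚ)
        = aeval (a : AlgebraicClosure ℚ) p := by
    intro p a
    rw [eval_map, aeval_def]
    exact hom_eval₂ p (algebraMap ℤ A) A.subtype a
  have hrootY : IsRoot P yA := by
    apply Subtype.ext
    rw [hcoe]
    exact minpoly.aeval ℤ y
  have hrootS : IsRoot P sA := by
    apply Subtype.ext
    rw [hcoe]
    show aeval (σ y) (minpoly ℤ y) = 0
    have h1 : aeval (σ y) (minpoly ℤ y) = (σ : AlgebraicClosure ℚ →+* AlgebraicClosure ℚ)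
        (aeval y (minpoly ℤ y)) := by
      rw [aeval_def, aeval_def, hom_eval₂]
      congr 1
      exact (RingHom.ext_int _ _)
    rw [h1, minpoly.aeval, map_zero]
  -- factor out the root `y`
  set Q : Polynomial A := P /ₘ (X - C yA) with hQ
  have hfac : (X - C yA) * Q = P := mul_divByMonic_eq_iff_isRoot.2 hrootY
  have hder : eval yA (derivative P) = eval yA Q := by
    rw [← hfac, derivative_mul, derivative_sub, derivative_X, derivative_C, sub_zero, one_mul,
      eval_add, eval_mul, eval_sub, eval_X, eval_C, sub_self, zero_mul, add_zero]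
  have hQs : eval sA Q = 0 := by
    have h := hrootS
    rw [IsRoot.def, ← hfac, eval_mul, eval_sub, eval_X, eval_C] at h
    rcases mul_eq_zero.1 h with h0 | h0
    · exfalso
      apply hne
      have := congrArg (Subtype.val) (sub_eq_zero.1 h0)
      exact this
    · exact h0
  obtain ⟨w, hw⟩ := sub_dvd_eval_sub yA sA Q
  rw [hQs, sub_zero] at hw
  have hval : aeval y (derivative (minpoly ℤ y)) = (y - σ y) * (w : AlgebraicClosure ℚ) := by
    have h1 := hcoe (derivative (minpoly ℤ y)) yA
    rw [← derivative_map, ← hP, hder, hw] at h1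
    rw [← h1]
    rfl
  rw [hval, ValuationSubring.mem_nonunits_iff, map_mul]
  have h1 : A.valuation (y - σ y) < 1 := by
    have := inertia_val_sub_lt_one A hσ y ((A.valuation_le_one_iff y).2 hyA)
    rwa [← neg_sub, Valuation.map_neg] at this
  have h2 : A.valuation (w : AlgebraicClosure ℚ) ≤ 1 := (A.valuation_le_one_iff _).2 w.2
  calc A.valuation (y - σ y) * A.valuation (w : AlgebraicClosure ℚ)
      ≤ A.valuation (y - σ y) * 1 := by gcongr
    _ < 1 := by rwa [mul_one]

/-- An integer lying in `𝔪_A`, `A` over the prime `q`, is divisible by `q`. -/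
theorem dvd_of_intCast_mem_nonunits {q : ℕ} (hq : q.Prime) (hA : A.LiesOverPrime q) {d : ℤ}
    (hd : (d : AlgebraicClosure ℚ) ∈ A.nonunits) : (q : ℤ) ∣ d := by
  by_contra hnd
  have hcop : IsCoprime (q : ℤ) d := by
    rw [Int.isCoprime_iff_gcd_eq_one]
    have hp : Prime (q : ℤ) := Nat.prime_iff_prime_int.1 hq
    exact Int.isCoprime_iff_gcd_eq_one.1 ((Prime.coprime_iff_not_dvd hp).2 hnd)
  obtain ⟨u, w, huw⟩ := hcop
  have h1 : (u : AlgebraicClosure ℚ) * (q : AlgebraicClosure ℚ)
      + (w : AlgebraicClosure ℚ) * (d : AlgebraicClosure ℚ) = 1 := by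
    have := congrArg (fun n : ℤ => (n : AlgebraicClosure ℚ)) huw
    simpa using this
  have hq' : A.valuation (q : AlgebraicClosure ℚ) < 1 := (A.mem_nonunits_iff).mp hA
  have hd' : A.valuation (d : AlgebraicClosure ℚ) < 1 := (A.mem_nonunits_iff).mp hd
  have hu : A.valuation (u : AlgebraicClosure ℚ) ≤ 1 := val_intCast_le_one (A := A) u
  have hw : A.valuation (w : AlgebraicClosure ℚ) ≤ 1 := val_intCast_le_one (A := A) w
  have h2 : A.valuation ((u : AlgebraicClosure ℚ) * (q : AlgebraicClosure ℚ)) < 1 := by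
    rw [map_mul]
    calc A.valuation (u : AlgebraicClosure ℚ) * A.valuation (q : AlgebraicClosure ℚ)
        ≤ 1 * A.valuation (q : AlgebraicClosure ℚ) := by gcongr
      _ < 1 := by rwa [one_mul]
  have h3 : A.valuation ((w : AlgebraicClosure ℚ) * (d : AlgebraicClosure ℚ)) < 1 := by
    rw [map_mul]
    calc A.valuation (w : AlgebraicClosure ℚ) * A.valuation (d : AlgebraicClosure ℚ)
        ≤ 1 * A.valuation (d : AlgebraicClosure ℚ) := by gcongr
      _ < 1 := by rwa [one_mul]
  have h4 : A.valuation (1 : AlgebraicClosure ℚ) < 1 := by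
    rw [← h1]
    exact lt_of_le_of_lt (A.valuation.map_add _ _) (max_lt h2 h3)
  rw [map_one] at h4
  exact lt_irrefl _ h4

/-- For every `x ∈ ℚ̄` there is a nonzero integer `d` such that the inertia groups at all primes
not dividing `d` fix `x`. -/
theorem exists_int_inertia_fixes (x : AlgebraicClosure ℚ) :
    ∃ d : ℤ, d ≠ 0 ∧ ∀ q : ℕ, q.Prime → ¬ (q : ℤ) ∣ d →
      ∀ A : ValuationSubring (AlgebraicClosure ℚ), A.LiesOverPrime q →
        ∀ σ ∈ A.inertiaSubgroupIn ℚ, σ x = x := by
  haveI : Algebra.IsAlgebraic ℚ (AlgebraicClosure ℚ) := isAlgebraic_Qbar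
  have halg : IsAlgebraic ℤ x :=
    (IsFractionRing.isAlgebraic_iff ℤ ℚ (AlgebraicClosure ℚ)).mpr (Algebra.IsAlgebraic.isAlgebraic x)
  obtain ⟨m, hm, hy⟩ := halg.exists_integral_multiple
  set y : AlgebraicClosure ℚ := m • x with hydef
  -- `z = f'(y)` is integral and nonzero
  set z : AlgebraicClosure ℚ := aeval y (derivative (minpoly ℤ y)) with hz
  have hzint : IsIntegral ℤ z := by
    let y' : integralClosure ℤ (AlgebraicClosure ℚ) := ⟨y, hy⟩
    have : z = ((aeval y' (derivative (minpoly ℤ y)) : integralClosure ℤ (AlgebraicClosure ℚ)) :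
          AlgebraicClosure ℚ) := (Subalgebra.aeval_coe _ y' _)
    rw [this]
    exact Subtype.property _
  have hz0 : z ≠ 0 := by
    have hsep : (minpoly ℚ y).Separable := (minpoly.irreducible hy.tower_top).separable
    have h1 := hsep.aeval_derivative_ne_zero (minpoly.aeval ℚ y)
    rw [minpoly.isIntegrallyClosed_eq_field_fractions' ℚ hy, derivative_map,
      aeval_map_algebraMap] at h1
    exact h1
  have hd0 : (minpoly ℤ z).coeff 0 ≠ 0 := by
    have h1 := minpoly.coeff_zero_ne_zero (A := ℚ) hzint.tower_top hz0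
    rw [minpoly.isIntegrallyClosed_eq_field_fractions' ℚ hzint, coeff_map] at h1
    intro h0
    apply h1
    rw [h0, map_zero]
  refine ⟨(minpoly ℤ z).coeff 0, hd0, ?_⟩
  intro q hq hnd A hA σ hσ
  by_contra hne
  have hney : σ y ≠ y := by
    intro h
    apply hne
    rw [hydef, map_zsmul] at h
    have hm' : (m : AlgebraicClosure ℚ) ≠ 0 := by exact_mod_cast hm
    rw [zsmul_eq_mul, zsmul_eq_mul] at h
    exact mul_left_cancel₀ hm' h
  have hzmem : z ∈ A.nonunits := aeval_derivative_mem_nonunits A hy hσ hney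
  -- `d = - (divX m)(z) * z`
  have hrel : aeval z (divX (minpoly ℤ z)) * z
      + (((minpoly ℤ z).coeff 0 : ℤ) : AlgebraicClosure ℚ) = 0 := by
    have h := congrArg (aeval z) (divX_mul_X_add (minpoly ℤ z))
    rw [minpoly.aeval, map_add, map_mul, aeval_X, aeval_C] at h
    simpa using h
  have hwint : IsIntegral ℤ (aeval z (divX (minpoly ℤ z))) := by
    let z' : integralClosure ℤ (AlgebraicClosure ℚ) := ⟨z, hzint⟩
    have : aeval z (divX (minpoly ℤ z)) = ((aeval z' (divX (minpoly ℤ z)) :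
          integralClosure ℤ (AlgebraicClosure ℚ)) : AlgebraicClosure ℚ) :=
      (Subalgebra.aeval_coe _ z' _)
    rw [this]
    exact Subtype.property _
  have hd : (((minpoly ℤ z).coeff 0 : ℤ) : AlgebraicClosure ℚ) ∈ A.nonunits := by
    have h1 : (((minpoly ℤ z).coeff 0 : ℤ) : AlgebraicClosure ℚ)
        = -(aeval z (divX (minpoly ℤ z)) * z) := eq_neg_of_add_eq_zero_right hrel
    rw [h1, ValuationSubring.mem_nonunits_iff, Valuation.map_neg, map_mul]
    have h2 : A.valuation (aeval z (divX (minpoly ℤ z))) ≤ 1 :=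
      (A.valuation_le_one_iff _).2 (isIntegral_mem_valuationSubring A hwint)
    have h3 : A.valuation z < 1 := (A.mem_nonunits_iff).mp hzmem
    calc A.valuation (aeval z (divX (minpoly ℤ z))) * A.valuation z
        ≤ 1 * A.valuation z := by gcongr
      _ < 1 := by rwa [one_mul]
  exact hnd (_root_.Fermat.Agent.S55.Bridge.dvd_of_intCast_mem_nonunits A hq hA hd)

/-- Finite-set version of `exists_int_inertia_fixes`. -/
theorem exists_int_inertia_fixes_finset (s : Finset (AlgebraicClosure ℚ)) :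
    ∃ d : ℤ, d ≠ 0 ∧ ∀ q : ℕ, q.Prime → ¬ (q : ℤ) ∣ d →
      ∀ A : ValuationSubring (AlgebraicClosure ℚ), A.LiesOverPrime q →
        ∀ σ ∈ A.inertiaSubgroupIn ℚ, ∀ x ∈ s, σ x = x := by
  classical
  induction s using Finset.induction_on with
  | empty => exact ⟨1, one_ne_zero, fun _ _ _ _ _ _ _ x hx => absurd hx (Finset.notMem_empty x)⟩
  | insert a s _ ih =>
    obtain ⟨d, hd, h⟩ := ih
    obtain ⟨e, he, h'⟩ := exists_int_inertia_fixes a
    refine ⟨d * e, mul_ne_zero hd he, fun q hq hnd A hA σ hσ x hx => ?_⟩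
    rcases Finset.mem_insert.1 hx with rfl | hx
    · exact h' q hq (fun hdvd => hnd (Dvd.dvd.mul_left hdvd d)) A hA σ hσ
    · exact h q hq (fun hdvd => hnd (Dvd.dvd.mul_right hdvd e)) A hA σ hσ x hx

/-- **B15.** A finite extension of `ℚ` inside `ℚ̄` is unramified outside a finite set of
primes. -/
theorem exists_finset_isUnramifiedOutside (F : IntermediateField ℚ (AlgebraicClosure ℚ))
    (hF : FiniteDimensional ℚ F) : ∃ T : Finset Nat.Primes, F.IsUnramifiedOutside T := by
  classical
  haveI := hF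
  -- a finite basis
  let b := Module.finBasis ℚ F
  obtain ⟨d, hd, h⟩ := exists_int_inertia_fixes_finset
    (Finset.univ.image fun i => ((b i : F) : AlgebraicClosure ℚ))
  refine ⟨(d.natAbs.primeFactors).subtype Nat.Prime, hF, fun q hq A hA σ hσ => ?_⟩
  have hnd : ¬ ((q : ℕ) : ℤ) ∣ d := by
    intro hdvd
    apply hq
    refine Finset.mem_subtype.2 ?_
    rw [Nat.mem_primeFactors]
    refine ⟨q.2, ?_, Int.natAbs_ne_zero.2 hd⟩
    exact Int.natCast_dvd.1 hdvd
  have hfix := h q q.2 hnd A hA σ hσ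
  rw [IntermediateField.mem_fixingSubgroup_iff]
  intro x hx
  have hsum := b.sum_repr ⟨x, hx⟩
  have hx' : x = ∑ i, algebraMap ℚ (AlgebraicClosure ℚ) (b.repr ⟨x, hx⟩ i)
      * ((b i : F) : AlgebraicClosure ℚ) := by
    have := congrArg (fun t : F => (t : AlgebraicClosure ℚ)) hsum
    simp only [IntermediateField.coe_sum, Algebra.smul_def] at this
    exact this.symm
  show σ x = x
  conv_lhs => rw [hx']
  rw [map_sum]
  conv_rhs => rw [hx']
  refine Finset.sum_congr rfl fun i _ => ?_
  rw [map_mul, AlgEquiv.commutes, hfix _ (Finset.mem_image_of_mem _ (Finset.mem_univ i))]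

/-- **B15'.** Every finite extension of `ℚ` is unramified outside a finite set containing a
given one. -/
theorem exists_finset_ge_isUnramifiedOutside (S : Finset Nat.Primes)
    (F : IntermediateField ℚ (AlgebraicClosure ℚ)) (hF : FiniteDimensional ℚ F) :
    ∃ T : Finset Nat.Primes, S ⊆ T ∧ F.IsUnramifiedOutside T := by
  classical
  obtain ⟨T, hT⟩ := exists_finset_isUnramifiedOutside F hF
  exact ⟨S ∪ T, Finset.subset_union_left, hT.mono Finset.subset_union_right⟩

/-- Every finite extension of `ℚ` is contained in a finite Galois extension which is unramified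
outside a finite set of primes containing a given one. -/
theorem exists_galois_ge_isUnramifiedOutside (S : Finset Nat.Primes)
    (F : IntermediateField ℚ (AlgebraicClosure ℚ)) (hF : FiniteDimensional ℚ F) :
    ∃ (T : Finset Nat.Primes) (L : IntermediateField ℚ (AlgebraicClosure ℚ)),
      S ⊆ T ∧ L.IsUnramifiedOutside T ∧ IsGalois ℚ L ∧ F ≤ L := by
  obtain ⟨T, hST, hT⟩ := exists_finset_ge_isUnramifiedOutside S F hF
  obtain ⟨L, hL, hgal, hle⟩ := exists_galois_level_ge T F hT
  exact ⟨T, L, hST, hL, hgal, hle⟩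

end Fermat.Agent.S55.Bridge

end
-- ===== PACK-END S55/Bridge/FiniteRam.lean

-- ===== PACK-BEGIN S55/G/Spec1b.lean
section
/-
S55 (Poitou–Tate), layer G — INTERFACE, part 1b (additions to `Spec.lean`, which is frozen).
Sub-architect: helper421.   No `sorry`.

* `FirstInequalityCycSpec` : first inequality for cyclic groups of arbitrary ODD order
  (consumer: REC (R2), helper1; producer: G-FI, helper895).
* `CyclicPowSpec`          : cyclic layers of degree `p^k`: `H¹ = 0`, `|H²| = p^k`.
* `SIndepSpec`             : independence of `S` (REC (O5)): for `S ⊆ S'` and `L/L^G` unramified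
  outside `S`, the natural map `C_{S'}(L) → C_S(L)` induces isomorphisms on `Hⁿ(H, -)`, `n ≥ 1`.
-/



set_option autoImplicit false

open scoped NumberField TensorProduct
open IsDedekindDomain CategoryTheory groupCohomology

noncomputable section

namespace Fermat.Agent.S55.G

/-- **G-FIc (first inequality, cyclic of odd order).**  Let `G` be a cyclic group of odd order
`n` acting faithfully on the number field `L`, `S ≠ ∅`.  Then `H¹(G, C_S(L))`, `H²(G, C_S(L))`
are finite and `|H²(G, C_S(L))| = n · |H¹(G, C_S(L))|`.   NO ramification hypothesis. -/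
def FirstInequalityCycSpec : Prop :=
  ∀ (n : ℕ), Odd n →
  ∀ (S : Finset Nat.Primes) (G L : Type) [Group G] [Finite G] [IsCyclic G] [Field L]
    [NumberField L] [MulSemiringAction G L] [FaithfulSMul G L],
    S.Nonempty → Nat.card G = n →
    Finite (groupCohomology (CRep S G L) 1) ∧ Finite (groupCohomology (CRep S G L) 2) ∧
    Nat.card (groupCohomology (CRep S G L) 2) = n * Nat.card (groupCohomology (CRep S G L) 1)

/-- `FirstInequalityCycSpec` contains `FirstInequalitySpec`. -/
theorem firstInequality_of_cyc (h : FirstInequalityCycSpec) : FirstInequalitySpec := by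
  intro p hp hp2 S G L _ _ _ _ _ _ hS hcard
  have : IsCyclic G := isCyclic_of_prime_card (p := p) hcard
  exact h p (hp.out.odd_of_ne_two hp2) S G L hS hcard

/-- **G-CYCp.**  Let `p` be an odd prime, `p ∈ S`, `G` a cyclic `p`-group acting faithfully on
`L`, unramified outside `S`, `μ_p ⊂ L^G`.  Then `H¹(G, C_S(L)) = 0` and `|H²(G, C_S(L))| = |G|`.
(From `PClassUpperSpec` and `FirstInequalityCycSpec`.) -/
def CyclicPowSpec : Prop :=
  ∀ (p : ℕ) [hp : Fact p.Prime], p ≠ 2 →
  ∀ (S : Finset Nat.Primes) (G L : Type) [Group G] [Finite G] [IsCyclic G] [Field L]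
    [NumberField L] [MulSemiringAction G L] [FaithfulSMul G L],
    (⟨p, hp.out⟩ : Nat.Primes) ∈ S → IsPGroup p G → IsUnramOut S G L →
    HasFixedRootOfUnity p G L →
    Limits.IsZero (groupCohomology (CRep S G L) 1) ∧
      Nat.card (groupCohomology (CRep S G L) 2) = Nat.card G

/-- **G-SIND (independence of `S`; REC (O5)).**  Let `S ⊆ S'`, `S ≠ ∅`, and let the finite group
`G` act faithfully on `L`, unramified outside `S`.  Then there is an equivariant surjection
`Φ : J_{S'}(L) × Div^{S'}(L) → J_S(L) × Div^S(L)`, compatible with the diagonal embeddings of `Lˣ`,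
equal to the projection `jRes` on the `J_S`-component and to the inclusion `divIncl` on `Div^{S'}`
(so `Φ (j, d) = (jRes j, divIncl d + ∑_{w | S'∖S} ord_w(j_w) [w])`), such that the induced morphism
`π : C_{S'}(L) ⟶ C_S(L)` is an isomorphism on `Hⁿ(H, -)` for all `H ≤ G` and all `n ≥ 1`.
(The kernel of `π` is `∏_{w | S' ∖ S} U_w`, cohomologically trivial because `w` is unramified.) -/
def SIndepSpec : Prop :=
  ∀ (S S' : Finset Nat.Primes) (h : S ⊆ S') (G L : Type) [Group G] [Finite G] [Field L]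
    [NumberField L] [MulSemiringAction G L] [FaithfulSMul G L],
    S.Nonempty → IsUnramOut S G L →
    ∃ (Φ : JD S' L →+ JD S L) (π : CRep S' G L ⟶ CRep S G L),
      (∀ (g : G) (y : JD S' L), Φ (jdRepr S' G L g y) = jdRepr S G L g (Φ y)) ∧
      (∀ x : Additive Lˣ, Φ (diagHom S' L x) = diagHom S L x) ∧
      (∀ y : JD S' L, (Φ y).1 = jRes h L y.1) ∧
      (∀ d : PrimeOut S' L →₀ ℤ, Φ (0, d) = (0, divIncl h L d)) ∧
      (∀ y : JD S' L, π.hom ((principal S' L).mkQ y) = (principal S L).mkQ (Φ y)) ∧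
      Function.Surjective Φ ∧
      ∀ (H : Subgroup G) (n : ℕ), 0 < n →
        Function.Bijective (T.coeffMap ((Rep.resFunctor H.subtype).map π) n).hom

end Fermat.Agent.S55.G

end
end
-- ===== PACK-END S55/G/Spec1b.lean

-- ===== PACK-BEGIN S55/G/DescH537/Desc.lean
section
/-
S55, layer G, leaf G-DESC (Galois descent for the `S`-idèle class group), helper537.
Part 3: Hilbert 90 for an abstract Galois group, base change `C_S(K) → C_S(L)` and the
descent theorem.

`K ⊂ L` number fields, `G` finite with `IsGaloisGroup G K L`, `S ≠ ∅`: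
* `csBC S K L : C_S(K) →+ C_S(L)`, `csBC_injective`, `cRepr_csBC` (image is `G`-invariant);
* `exists_csBC_eq_of_invariant` : if `L/K` is unramified outside `S` (`eIdx K L w = 1` for all
  primes `w` of `L` not above `S`), every `G`-invariant class of `C_S(L)` comes from `C_S(K)`;
* `galoisDescent` : both statements together: `C_S(K) ≃ C_S(L)^G`.
-/





set_option autoImplicit false
set_option linter.unusedSectionVars false

open scoped NumberField
open IsDedekindDomain

noncomputable section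

namespace Fermat.Agent.S55.G.DescH537

section H90

/-- **Hilbert 90** for an abstract finite Galois group, additively: every 1-cocycle
`G → Lˣ` is a coboundary. -/
theorem hilbert90 (G K L : Type) [Group G] [Field K] [Field L] [Algebra K L]
    [MulSemiringAction G L] [Finite G] [IsGaloisGroup G K L]
    (f : G → Additive Lˣ) (hf : ∀ g h, f (g * h) = f g + lRepr G L g (f h)) :
    ∃ y : Additive Lˣ, ∀ g, f g = lRepr G L g y - y := by
  have := IsGaloisGroup.finiteDimensional G K L
  let e := IsGaloisGroup.mulEquivAlgEquiv G K L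
  have he : ∀ g x, e g x = g • x := IsGaloisGroup.mulEquivAlgEquiv_apply_apply G K L
  let f' : (L ≃ₐ[K] L) → Lˣ := fun σ => (f (e.symm σ)).toMul
  have hf' : groupCohomology.IsMulCocycle₁ f' := by
    intro σ τ
    change (f (e.symm (σ * τ))).toMul = σ • (f (e.symm τ)).toMul * (f (e.symm σ)).toMul
    rw [map_mul, hf, toMul_add, mul_comm]
    congr 1
    apply Units.ext
    change ((lRepr G L (e.symm σ) (f (e.symm τ))).toMul : L) = σ ((f (e.symm τ)).toMul : L)
    rw [coe_lRepr_apply, ← he, e.apply_symm_apply]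
  obtain ⟨x, hx⟩ := groupCohomology.isMulCoboundary₁_of_isMulCocycle₁_of_aut_to_units f' hf'
  refine ⟨Additive.ofMul x, fun g => ?_⟩
  have h1 := hx (e g)
  simp only [f', e.symm_apply_apply] at h1
  apply Additive.toMul.injective
  rw [toMul_sub, ← h1]
  congr 1

end H90

section Main

variable (S : Finset Nat.Primes) (G K L : Type) [Group G] [Field K] [Field L]
  [NumberField K] [NumberField L] [Algebra K L] [MulSemiringAction G L]

/-- Base change on `J_S × Div^S`. -/
def jdBC : JD S K →+ JD S L := (jBC K L S).prodMap (divBC S K L)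

@[simp] lemma jdBC_fst (x : JD S K) : (jdBC S K L x).1 = jBC K L S x.1 := rfl

@[simp] lemma jdBC_snd (x : JD S K) : (jdBC S K L x).2 = divBC S K L x.2 := rfl

/-- Base change is compatible with the diagonal embeddings. -/
lemma jdBC_diagHom (x : Additive Kˣ) :
    jdBC S K L (diagHom S K x) = diagHom S L (unitsBC K L x) :=
  Prod.ext (jBC_unitsDiag K L S x) (ordHom_unitsBC S K L x).symm

lemma jdBC_injective : Function.Injective (jdBC S K L) := by
  intro a b hab
  exact Prod.ext (jBC_injective K L S (congrArg Prod.fst hab))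
    (divBC_injective S K L (congrArg Prod.snd hab))

lemma jdBC_mem_principal (x : JD S K) (hx : x ∈ principal S K) :
    jdBC S K L x ∈ principal S L := by
  obtain ⟨y, rfl⟩ := hx
  exact ⟨unitsBC K L y, (jdBC_diagHom S K L y).symm⟩

/-- **Base change of `S`-idèle classes** `C_S(K) → C_S(L)`. -/
def csBC : CS S K →+ CS S L :=
  (Submodule.mapQ (principal S K) (principal S L) (jdBC S K L).toIntLinearMap
    (fun x hx => jdBC_mem_principal S K L x hx)).toAddMonoidHom

lemma csBC_mk (x : JD S K) :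
    csBC S K L (Submodule.Quotient.mk x) = Submodule.Quotient.mk (jdBC S K L x) := rfl

/-- The diagonal embedding `Lˣ → J_S(L) × Div^S(L)` is injective when `S ≠ ∅`. -/
lemma diagHom_injective (hS : S.Nonempty) : Function.Injective (diagHom S L) := by
  have hQ : Function.Injective (algebraMap ℚ (QS S)) := by
    obtain ⟨q, hq⟩ := hS
    have : Nontrivial (QS S) := by
      refine ⟨⟨0, 1, fun h => ?_⟩⟩
      have := congrFun h ⟨q, hq⟩
      exact zero_ne_one this
    exact (algebraMap ℚ (QS S)).injective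
  have hincl : Function.Injective (asDiag S L) :=
    Algebra.TensorProduct.includeLeft_injective (S := ℚ) hQ
  intro a b hab
  have h1 : unitsDiag S L a = unitsDiag S L b := congrArg Prod.fst hab
  apply Additive.toMul.injective
  apply Units.ext
  apply hincl
  rw [← coe_unitsDiag_apply, ← coe_unitsDiag_apply, h1]

variable [IsGaloisGroup G K L]

lemma jdRepr_jdBC (g : G) (x : JD S K) : jdRepr S G L g (jdBC S K L x) = jdBC S K L x :=
  Prod.ext (jRepr_jBC G K L S g x.1) (divRepr_divBC S G K L g x.2)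

/-- The image of base change consists of `G`-invariant classes. -/
lemma cRepr_csBC (g : G) (c : CS S K) : cRepr S G L g (csBC S K L c) = csBC S K L c := by
  obtain ⟨x, rfl⟩ := Submodule.Quotient.mk_surjective _ c
  rw [csBC_mk]
  change Submodule.Quotient.mk (jdRepr S G L g (jdBC S K L x)) = _
  rw [jdRepr_jdBC]

variable [Finite G]

/-- **Galois descent, injectivity**: `C_S(K) → C_S(L)` is injective (`S ≠ ∅`, `L/K` Galois). -/
theorem csBC_injective (S : Finset Nat.Primes) (G K L : Type) [Group G] [Field K] [Field L]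
    [NumberField K] [NumberField L] [Algebra K L] [MulSemiringAction G L]
    [IsGaloisGroup G K L] [Finite G] (hS : S.Nonempty) : Function.Injective (csBC S K L) := by
  rw [injective_iff_map_eq_zero]
  intro c hc
  obtain ⟨x, rfl⟩ := Submodule.Quotient.mk_surjective _ c
  rw [csBC_mk, Submodule.Quotient.mk_eq_zero] at hc
  obtain ⟨y, hy⟩ := hc
  change diagHom S L y = jdBC S K L x at hy
  have hinv : ∀ g : G, lRepr G L g y = y := by
    intro g
    apply diagHom_injective S L hS
    rw [diagHom_equivariant S G L g y, hy, jdRepr_jdBC]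
  obtain ⟨k, rfl⟩ := exists_unitsBC_eq_of_invariant G K L y hinv
  rw [← jdBC_diagHom] at hy
  have hx : x = diagHom S K k := (jdBC_injective S K L hy).symm
  rw [Submodule.Quotient.mk_eq_zero, hx]
  exact ⟨k, rfl⟩

/-- **Galois descent, surjectivity onto invariants**: if `L/K` is unramified outside `S`
(and `S ≠ ∅`), every `G`-invariant class of `C_S(L)` is the base change of a class of
`C_S(K)`. -/
theorem exists_csBC_eq_of_invariant (hS : S.Nonempty)
    (hunr : ∀ w : PrimeOut S L, eIdx K L w.1 = 1)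
    (c : CS S L) (hc : ∀ g : G, cRepr S G L g c = c) : ∃ c' : CS S K, csBC S K L c' = c := by
  obtain ⟨x, rfl⟩ := Submodule.Quotient.mk_surjective _ c
  -- the cocycle
  have hex : ∀ g : G, ∃ y : Additive Lˣ, diagHom S L y = jdRepr S G L g x - x := by
    intro g
    have h := hc g
    change Submodule.Quotient.mk (jdRepr S G L g x) = Submodule.Quotient.mk x at h
    rw [Submodule.Quotient.eq] at h
    exact h
  choose f hf using hex
  have hcoc : ∀ g h, f (g * h) = f g + lRepr G L g (f h) := by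
    intro g h
    apply diagHom_injective S L hS
    rw [map_add, diagHom_equivariant S G L g, hf, hf, hf, map_mul, map_sub]
    simp only [Module.End.mul_apply]
    abel
  obtain ⟨y, hy⟩ := hilbert90 G K L f hcoc
  -- the invariant representative
  have hx' : ∀ g : G, jdRepr S G L g (x - diagHom S L y) = x - diagHom S L y := by
    intro g
    have h1 := hf g
    rw [hy g, map_sub, diagHom_equivariant S G L g] at h1
    rw [map_sub]
    have h2 : jdRepr S G L g x - jdRepr S G L g (diagHom S L y) =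
        x - diagHom S L y := by
      rw [sub_eq_sub_iff_add_eq_add]
      rw [sub_eq_sub_iff_add_eq_add] at h1
      rw [← h1, add_comm]
    exact h2
  have hj : ∀ g : G, jRepr G S L g (x - diagHom S L y).1 = (x - diagHom S L y).1 :=
    fun g => congrArg Prod.fst (hx' g)
  have hd : ∀ g : G, divRepr S G L g (x - diagHom S L y).2 = (x - diagHom S L y).2 :=
    fun g => congrArg Prod.snd (hx' g)
  obtain ⟨j', hj'⟩ := exists_jBC_eq_of_invariant G K L S _ hj
  obtain ⟨d', hd'⟩ := exists_divBC_eq_of_invariant S G K L hunr _ hd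
  refine ⟨Submodule.Quotient.mk (j', d'), ?_⟩
  rw [csBC_mk]
  have hxe : jdBC S K L (j', d') = x - diagHom S L y := Prod.ext hj' hd'
  rw [hxe, Submodule.Quotient.eq]
  refine ⟨-y, ?_⟩
  change diagHom S L (-y) = _
  rw [map_neg]
  abel

/-- **Galois descent** for the `S`-idèle class group: for `L/K` Galois with group `G`,
unramified outside `S ≠ ∅`, base change identifies `C_S(K)` with the `G`-invariants of
`C_S(L)`. -/
theorem galoisDescent (hS : S.Nonempty) (hunr : ∀ w : PrimeOut S L, eIdx K L w.1 = 1) :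
    Function.Injective (csBC S K L) ∧
      ∀ c : CS S L, (∀ g : G, cRepr S G L g c = c) ↔ c ∈ Set.range (csBC S K L) := by
  refine ⟨csBC_injective S G K L hS, fun c => ⟨fun hc => ?_, ?_⟩⟩
  · exact exists_csBC_eq_of_invariant S G K L hS hunr c hc
  · rintro ⟨c', rfl⟩ g
    exact cRepr_csBC S G K L g c'

/-- **Galois descent** as a linear equivalence `C_S(K) ≃ C_S(L)^G`. -/
def csDescentEquiv (hS : S.Nonempty) (hunr : ∀ w : PrimeOut S L, eIdx K L w.1 = 1) :
    CS S K ≃ₗ[ℤ] (cRepr S G L).invariants :=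
  LinearEquiv.ofBijective
    ((csBC S K L).toIntLinearMap.codRestrict (cRepr S G L).invariants
      (fun c g => cRepr_csBC S G K L g c))
    ⟨fun a b hab => csBC_injective S G K L hS (congrArg Subtype.val hab),
      fun c => by
        obtain ⟨c', hc'⟩ := exists_csBC_eq_of_invariant S G K L hS hunr c.1 c.2
        exact ⟨c', Subtype.ext hc'⟩⟩

@[simp] lemma csDescentEquiv_apply_coe (hS : S.Nonempty)
    (hunr : ∀ w : PrimeOut S L, eIdx K L w.1 = 1) (c : CS S K) :
    ((csDescentEquiv S G K L hS hunr c : (cRepr S G L).invariants) : CS S L) = csBC S K L c :=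
  rfl

end Main

end Fermat.Agent.S55.G.DescH537

end
end
-- ===== PACK-END S55/G/DescH537/Desc.lean

-- ===== PACK-BEGIN S55/G/Exist121/Field.lean
section



/-!
# S55, layer G, block EXIST: the Kummer level `F₁ = F(V(F)^{1/p})`  (Prelude terms)

Author: helper121.  For a level `F ⊂ ℚ̄` and a finite set of primes `S`:

* `IsSelmerElt S p F x` : `x ∈ Fˣ` and at every place `A` of `ℚ̄` over a prime `q ∉ S` the element
  `x` is a unit times a `p`-th power of an element of `F` (i.e. `p ∣ v(x)` for all primes `v` of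
  `F` outside `S`); these `x` form the group `V(F)`, and `V(F)/Fˣᵖ` is the Selmer group `F(S,p)`.
* `kummerLevel S p F = F(β : β ^ p ∈ V(F))`.

Results of this file (no finiteness yet, see `FieldFinite.lean`):
* `inertia_le_fixingSubgroup_kummerLevel` : inertia outside `S` acts trivially on `F₁`
  (if `F` is unramified outside `S` and the prime factors of `p` lie in `S`);
* `normal_kummerLevel` : `F₁/ℚ` is normal if `F/ℚ` is.
-/

set_option autoImplicit false

namespace Fermat.Agent.S55.G.Exist121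

open IntermediateField Fermat.Agent.S55.Bridge
open scoped Pointwise

variable (S : Finset Nat.Primes) (p : ℕ) (F : IntermediateField ℚ (AlgebraicClosure ℚ))

/-- `x ∈ V(F)`: a nonzero element of `F` which, at every place of `ℚ̄` outside `S`, is a unit
times the `p`-th power of an element of `F`. -/
def IsSelmerElt (x : AlgebraicClosure ℚ) : Prop :=
  x ∈ F ∧ x ≠ 0 ∧ ∀ q : Nat.Primes, q ∉ S → ∀ A : ValuationSubring (AlgebraicClosure ℚ),
    A.LiesOverPrime (q : ℕ) → ∃ t ∈ F, t ≠ 0 ∧ x / t ^ p ∈ A ∧ t ^ p / x ∈ A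

/-- The Kummer level `F₁ = F(β : β ^ p ∈ V(F))`. -/
noncomputable def kummerLevel : IntermediateField ℚ (AlgebraicClosure ℚ) :=
  F ⊔ adjoin ℚ {β | IsSelmerElt S p F (β ^ p)}

variable {S p F}

lemma isSelmerElt_one : IsSelmerElt S p F 1 :=
  ⟨F.one_mem, one_ne_zero, fun _ _ A _ => ⟨1, F.one_mem, one_ne_zero, by simp [A.one_mem],
    by simp [A.one_mem]⟩⟩

lemma IsSelmerElt.mul {x y : AlgebraicClosure ℚ} (hx : IsSelmerElt S p F x)
    (hy : IsSelmerElt S p F y) : IsSelmerElt S p F (x * y) := by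
  refine ⟨F.mul_mem hx.1 hy.1, mul_ne_zero hx.2.1 hy.2.1, fun q hq A hA => ?_⟩
  obtain ⟨t, ht, ht0, h1, h2⟩ := hx.2.2 q hq A hA
  obtain ⟨s, hs, hs0, h3, h4⟩ := hy.2.2 q hq A hA
  refine ⟨t * s, F.mul_mem ht hs, mul_ne_zero ht0 hs0, ?_, ?_⟩
  · have : x * y / (t * s) ^ p = (x / t ^ p) * (y / s ^ p) := by
      rw [mul_pow]; field_simp
    rw [this]; exact A.mul_mem _ _ h1 h3
  · have : (t * s) ^ p / (x * y) = (t ^ p / x) * (s ^ p / y) := by
      rw [mul_pow]; field_simp
    rw [this]; exact A.mul_mem _ _ h2 h4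

lemma IsSelmerElt.inv {x : AlgebraicClosure ℚ} (hx : IsSelmerElt S p F x) :
    IsSelmerElt S p F x⁻¹ := by
  refine ⟨F.inv_mem hx.1, inv_ne_zero hx.2.1, fun q hq A hA => ?_⟩
  obtain ⟨t, ht, ht0, h1, h2⟩ := hx.2.2 q hq A hA
  refine ⟨t⁻¹, F.inv_mem ht, inv_ne_zero ht0, ?_, ?_⟩
  · have : x⁻¹ / t⁻¹ ^ p = t ^ p / x := by
      rw [inv_pow]; field_simp
    rw [this]; exact h2
  · have : t⁻¹ ^ p / x⁻¹ = x / t ^ p := by
      rw [inv_pow]; field_simp
    rw [this]; exact h1

lemma isSelmerElt_pow {y : AlgebraicClosure ℚ} (hy : y ∈ F) (hy0 : y ≠ 0) :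
    IsSelmerElt S p F (y ^ p) :=
  ⟨pow_mem hy p, pow_ne_zero p hy0, fun _ _ A _ =>
    ⟨y, hy, hy0, by rw [div_self (pow_ne_zero p hy0)]; exact A.one_mem,
      by rw [div_self (pow_ne_zero p hy0)]; exact A.one_mem⟩⟩

lemma le_kummerLevel : F ≤ kummerLevel S p F := le_sup_left

lemma mem_kummerLevel_of_pow {β : AlgebraicClosure ℚ} (hβ : IsSelmerElt S p F (β ^ p)) :
    β ∈ kummerLevel S p F :=
  (le_sup_right : adjoin ℚ {β | IsSelmerElt S p F (β ^ p)} ≤ kummerLevel S p F)
    (subset_adjoin ℚ _ hβ)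

/-- The valuation form of the local condition: a `p`-th root `β` of `x ∈ V(F)` has the valuation
of an element of `F` at every place outside `S`. -/
lemma IsSelmerElt.exists_valuation_eq (hp : p ≠ 0) {β : AlgebraicClosure ℚ}
    (hβ : IsSelmerElt S p F (β ^ p)) {q : Nat.Primes} (hq : q ∉ S)
    {A : ValuationSubring (AlgebraicClosure ℚ)} (hA : A.LiesOverPrime (q : ℕ)) :
    ∃ t ∈ F, A.valuation β = A.valuation t := by
  obtain ⟨t, ht, ht0, h1, h2⟩ := hβ.2.2 q hq A hA
  refine ⟨t, ht, ?_⟩
  have hβ0 : β ≠ 0 := fun h => hβ.2.1 (by rw [h, zero_pow hp])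
  have e1 : A.valuation (β / t) ^ p ≤ 1 := by
    rw [← map_pow, div_pow]; exact (A.valuation_le_one_iff _).2 h1
  have e2 : A.valuation (t / β) ^ p ≤ 1 := by
    rw [← map_pow, div_pow]; exact (A.valuation_le_one_iff _).2 h2
  have e3 : A.valuation (β / t) ≤ 1 := by
    by_contra h
    exact absurd e1 (not_le.2 (one_lt_pow₀ (not_le.1 h) hp))
  have e4 : A.valuation (t / β) ≤ 1 := by
    by_contra h
    exact absurd e2 (not_le.2 (one_lt_pow₀ (not_le.1 h) hp))
  have hβv : A.valuation β ≠ 0 := (map_ne_zero _).2 hβ0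
  have htv : A.valuation t ≠ 0 := (map_ne_zero _).2 ht0
  rw [map_div₀] at e3 e4
  have e5 : A.valuation β ≤ A.valuation t := by
    have := (div_le_one₀ (zero_lt_iff.2 htv)).1 e3
    exact this
  have e6 : A.valuation t ≤ A.valuation β := by
    have := (div_le_one₀ (zero_lt_iff.2 hβv)).1 e4
    exact this
  exact le_antisymm e5 e6

/-- Inertia outside `S` acts trivially on the Kummer level. -/
theorem inertia_le_fixingSubgroup_kummerLevel (hp : p ≠ 0)
    (hpS : ∀ ℓ : Nat.Primes, (ℓ : ℕ) ∣ p → ℓ ∈ S)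
    (hF : ∀ q : Nat.Primes, q ∉ S → ∀ A : ValuationSubring (AlgebraicClosure ℚ),
      A.LiesOverPrime (q : ℕ) → A.inertiaSubgroupIn ℚ ≤ F.fixingSubgroup)
    {q : Nat.Primes} (hq : q ∉ S) {A : ValuationSubring (AlgebraicClosure ℚ)}
    (hA : A.LiesOverPrime (q : ℕ)) :
    A.inertiaSubgroupIn ℚ ≤ (kummerLevel S p F).fixingSubgroup := by
  intro σ hσ
  have hσF : σ ∈ F.fixingSubgroup := hF q hq A hA hσ
  have hfixF : ∀ x ∈ F, σ x = x := fun x hx =>
    (IntermediateField.mem_fixingSubgroup_iff F σ).1 hσF x hx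
  rw [kummerLevel, IntermediateField.fixingSubgroup_sup]
  refine ⟨hσF, ?_⟩
  show σ ∈ (adjoin ℚ {β | IsSelmerElt S p F (β ^ p)}).fixingSubgroup
  rw [IntermediateField.mem_fixingSubgroup_iff]
  have hle : adjoin ℚ {β | IsSelmerElt S p F (β ^ p)} ≤
      IntermediateField.fixedField (Subgroup.zpowers σ) := by
    rw [adjoin_le_iff]
    intro β hβ
    have hβ' : IsSelmerElt S p F (β ^ p) := hβ
    obtain ⟨t, htF, hv⟩ := hβ'.exists_valuation_eq hp hq hA
    have hσβ : σ β = β :=
      Fermat.Agent.S55.H893.kummer_fixed_of_mem_inertia hp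
        (Fermat.Agent.S55.H893.val_natCast_eq_one_of_primeFactors_mem hpS hq hA) hσ
        (hfixF _ hβ'.1) (hfixF _ htF) hv
    rintro ⟨τ, hτ⟩
    obtain ⟨k, rfl⟩ := Subgroup.mem_zpowers_iff.1 hτ
    show (σ ^ k) • β = β
    have hstab : σ ∈ MulAction.stabilizer (AlgebraicClosure ℚ ≃ₐ[ℚ] AlgebraicClosure ℚ) β :=
      MulAction.mem_stabilizer_iff.2 hσβ
    exact MulAction.mem_stabilizer_iff.1 (Subgroup.zpow_mem _ hstab k)
  intro x hx
  exact (hle hx) ⟨σ, Subgroup.mem_zpowers σ⟩

/-- `V(F)` is stable under `G_ℚ` when `F` is. -/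
lemma IsSelmerElt.map (hFn : ∀ σ : AlgebraicClosure ℚ ≃ₐ[ℚ] AlgebraicClosure ℚ, ∀ x ∈ F, σ x ∈ F)
    (σ : AlgebraicClosure ℚ ≃ₐ[ℚ] AlgebraicClosure ℚ) {x : AlgebraicClosure ℚ}
    (hx : IsSelmerElt S p F x) : IsSelmerElt S p F (σ x) := by
  refine ⟨hFn σ x hx.1, (map_ne_zero _).2 hx.2.1, fun q hq A hA => ?_⟩
  -- use the place `σ⁻¹ • A`
  have hA' : (σ⁻¹ • A).LiesOverPrime (q : ℕ) := liesOverPrime_smul A σ⁻¹ q hA
  obtain ⟨t, ht, ht0, h1, h2⟩ := hx.2.2 q hq (σ⁻¹ • A) hA'
  rw [mem_smul_valuationSubring_iff, inv_inv] at h1 h2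
  refine ⟨σ t, hFn σ t ht, (map_ne_zero _).2 ht0, ?_, ?_⟩
  · have : σ x / σ t ^ p = σ (x / t ^ p) := by rw [map_div₀, map_pow]
    rw [this]; exact h1
  · have : σ t ^ p / σ x = σ (t ^ p / x) := by rw [map_div₀, map_pow]
    rw [this]; exact h2

/-- The Kummer level is stable under `G_ℚ` when `F` is. -/
theorem map_mem_kummerLevel
    (hFn : ∀ σ : AlgebraicClosure ℚ ≃ₐ[ℚ] AlgebraicClosure ℚ, ∀ x ∈ F, σ x ∈ F)
    (σ : AlgebraicClosure ℚ ≃ₐ[ℚ] AlgebraicClosure ℚ) {x : AlgebraicClosure ℚ}
    (hx : x ∈ kummerLevel S p F) : σ x ∈ kummerLevel S p F := by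
  have hle : kummerLevel S p F ≤ (kummerLevel S p F).comap (σ : AlgebraicClosure ℚ →ₐ[ℚ] _) := by
    rw [kummerLevel, sup_le_iff]
    constructor
    · intro y hy
      exact le_kummerLevel (hFn σ y hy)
    · rw [adjoin_le_iff]
      intro β hβ
      have hβ' : IsSelmerElt S p F (β ^ p) := hβ
      show σ β ∈ kummerLevel S p F
      apply mem_kummerLevel_of_pow
      rw [← map_pow]
      exact hβ'.map hFn σ
  exact hle hx

/-- `F₁/ℚ` is normal when `F/ℚ` is. -/
theorem normal_fixingSubgroup_kummerLevel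
    (hFn : ∀ σ : AlgebraicClosure ℚ ≃ₐ[ℚ] AlgebraicClosure ℚ, ∀ x ∈ F, σ x ∈ F) :
    (kummerLevel S p F).fixingSubgroup.Normal := by
  refine ⟨fun g hg σ => ?_⟩
  rw [IntermediateField.mem_fixingSubgroup_iff] at hg ⊢
  intro x hx
  have h1 : σ⁻¹ x ∈ kummerLevel S p F := map_mem_kummerLevel hFn σ⁻¹ hx
  have h2 := hg _ h1
  show σ (g (σ⁻¹ x)) = x
  rw [h2]
  exact σ.apply_symm_apply x

end Fermat.Agent.S55.G.Exist121

end
-- ===== PACK-END S55/G/Exist121/Field.lean

-- ===== PACK-BEGIN S55/G/H1JH604.lean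
section
/-
S55, layer G, leaf G-H1J (helper604): `H¹(G, J_S(L)) = 0`
(Hilbert 90 for the semi-local algebra `L ⊗[ℚ] ℚ_S`), DIRECT proof by Poincaré series,
independent of the Shapiro decomposition.

For a `1`-cocycle `c : G → (L ⊗ ℚ_S)ˣ` put `b(x) = ∑_h c(h) · (h x ⊗ 1)`, `x ∈ L`.
For every maximal ideal `𝔪` of `A = L ⊗ ℚ_S` the `|G|` maps `x ↦ (h x ⊗ 1 mod 𝔪)` are pairwise
distinct characters `Lˣ → (A/𝔪)ˣ` (the action is faithful), so by Dedekind's independence the
`ℚ`-subspace `{x | b(x) ∈ 𝔪}` is proper.  There are finitely many `𝔪` (`A` is Artinian) and `ℚ` is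
infinite, so some `b(x)` lies in no maximal ideal, i.e. is a unit; then `c(g) = g(β)/β` for
`β = b(x)⁻¹`.
-/


set_option autoImplicit false
set_option linter.unusedSectionVars false

open scoped NumberField TensorProduct
open IsDedekindDomain CategoryTheory groupCohomology

noncomputable section

namespace Fermat.Agent.S55.G.H1JH604

open Fermat.Agent.S55.G

/-! ## 1. The abstract Poincaré-series argument -/

section Abstract

variable {R : Type*} [CommRing R] {G : Type*} [Group G] [Fintype G]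

/-- If some Poincaré series `∑_h c(h) · h(a)` of a `1`-cocycle `c : G → Rˣ` is a unit, then `c` is
a coboundary. -/
theorem exists_units_of_isUnit_sum (φ : G →* (R ≃+* R)) (c : G → Rˣ)
    (hc : ∀ g h, c (g * h) = Units.map ((φ g : R ≃+* R) : R →* R) (c h) * c g)
    (a : R) (ha : IsUnit (∑ h, (c h : R) * φ h a)) :
    ∃ β : Rˣ, ∀ g, Units.map ((φ g : R ≃+* R) : R →* R) β = c g * β := by
  set b : R := ∑ h, (c h : R) * φ h a with hb
  have key : ∀ g, (c g : R) * φ g b = b := by
    intro g
    rw [hb, map_sum, Finset.mul_sum]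
    rw [← Fintype.sum_bijective (fun h => g * h) (Group.mulLeft_bijective g)
      (fun h => (c g : R) * φ g ((c h : R) * φ h a)) (fun h => (c h : R) * φ h a)]
    intro h
    have h1 : ((c (g * h) : Rˣ) : R) = φ g (c h : R) * (c g : R) := by
      rw [hc g h]; rfl
    have h2 : φ (g * h) a = φ g (φ h a) := by
      rw [map_mul]; rfl
    rw [h1, h2, map_mul]
    ring
  set B : Rˣ := ha.unit with hB
  have hBval : (B : R) = b := rfl
  have keyU : ∀ g, c g * Units.map ((φ g : R ≃+* R) : R →* R) B = B := by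
    intro g
    apply Units.ext
    rw [Units.val_mul, Units.coe_map, hBval]
    exact key g
  refine ⟨B⁻¹, fun g => ?_⟩
  rw [map_inv]
  have hM : Units.map ((φ g : R ≃+* R) : R →* R) B = (c g)⁻¹ * B :=
    eq_inv_mul_of_mul_eq (keyU g)
  rw [hM, mul_inv, inv_inv, mul_comm]

end Abstract

/-! ## 2. Finiteness of the set of places -/

section Artinian

variable (S : Finset Nat.Primes) (L : Type) [Field L] [NumberField L]

instance isArtinianRing_QS : IsArtinianRing (QS S) :=
  inferInstanceAs (IsArtinianRing (∀ q : S, Qq q.1))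

/-- `L ⊗[ℚ] ℚ_S` is an Artinian ring. -/
theorem isArtinianRing_AS : IsArtinianRing (AS S L) := by
  have h1 : IsArtinianRing (QS S ⊗[ℚ] L) := IsArtinianRing.of_finite (QS S) _
  exact (Algebra.TensorProduct.comm ℚ (QS S) L).toRingEquiv.isArtinianRing

/-- There are finitely many places above `S`. -/
theorem finite_sPlace : Finite (SPlace S L) := by
  have := isArtinianRing_AS S L
  infer_instance

end Artinian

/-! ## 3. A Poincaré series which is a unit -/

section Poincare

variable (S : Finset Nat.Primes) (G L : Type) [Group G] [Fintype G] [Field L] [NumberField L]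
  [MulSemiringAction G L] [FaithfulSMul G L]

/-- The Poincaré series `x ↦ ∑_h c(h) · (h x ⊗ 1)` as a `ℚ`-linear map. -/
def poincare (c : G → (AS S L)ˣ) : L →ₗ[ℚ] AS S L :=
  ∑ h : G, (LinearMap.mulLeft ℚ ((c h : (AS S L)ˣ) : AS S L)) ∘ₗ
    (asDiag S L).toLinearMap ∘ₗ (fieldAut G L h).toLinearMap

lemma poincare_apply (c : G → (AS S L)ˣ) (x : L) :
    poincare S G L c x = ∑ h : G, ((c h : (AS S L)ˣ) : AS S L) * asDiag S L (h • x) := by
  simp [poincare, LinearMap.sum_apply]

/-- The character `x ↦ (h x ⊗ 1 mod 𝔪)`. -/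
def chi (𝔪 : SPlace S L) (h : G) : L →* LocField S 𝔪 :=
  ((toLoc S 𝔪 : L →+* LocField S 𝔪) : L →* LocField S 𝔪).comp
    ((MulSemiringAction.toRingHom G L h : L →+* L) : L →* L)

lemma chi_apply (𝔪 : SPlace S L) (h : G) (x : L) :
    chi S G L 𝔪 h x = LocField.mk S 𝔪 (asDiag S L (h • x)) := rfl

lemma chi_injective (𝔪 : SPlace S L) : Function.Injective (chi S G L 𝔪) := by
  intro g h hgh
  apply FaithfulSMul.eq_of_smul_eq_smul (α := L)
  intro x
  have h1 := DFunLike.congr_fun hgh x
  exact (toLoc S 𝔪).injective h1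

/-- For every place `𝔪`, some value of the Poincaré series is not in `𝔪`. -/
lemma exists_poincare_notMem (c : G → (AS S L)ˣ) (𝔪 : SPlace S L) :
    ∃ x : L, poincare S G L c x ∉ 𝔪.asIdeal := by
  classical
  by_contra hcon
  push Not at hcon
  have hli : LinearIndependent (LocField S 𝔪)
      (fun h : G => (chi S G L 𝔪 h : L → LocField S 𝔪)) :=
    LinearIndependent.comp (ι' := G) (linearIndependent_monoidHom L (LocField S 𝔪))
      (chi S G L 𝔪) (chi_injective S G L 𝔪)
  have hsum : ∑ h : G, (LocField.mk S 𝔪 ((c h : (AS S L)ˣ) : AS S L)) •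
      (chi S G L 𝔪 h : L → LocField S 𝔪) = 0 := by
    funext x
    have hx := hcon x
    rw [← LocField.mk_eq_zero_iff, poincare_apply, map_sum] at hx
    simp only [Finset.sum_apply, Pi.smul_apply, smul_eq_mul, Pi.zero_apply]
    rw [← hx]
    refine Finset.sum_congr rfl fun h _ => ?_
    rw [map_mul, chi_apply]
  have h0 := (Fintype.linearIndependent_iff.1 hli) _ hsum 1
  have hu : IsUnit (LocField.mk S 𝔪 ((c 1 : (AS S L)ˣ) : AS S L)) :=
    (c 1).isUnit.map (LocField.mk S 𝔪)
  exact hu.ne_zero h0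

/-- Some value of the Poincaré series is a unit. -/
theorem exists_isUnit_poincare (c : G → (AS S L)ˣ) :
    ∃ x : L, IsUnit (poincare S G L c x) := by
  classical
  have := finite_sPlace S L
  by_contra hcon
  push Not at hcon
  -- the bad subspaces
  let V : SPlace S L → Subspace ℚ L := fun 𝔪 =>
    Submodule.comap (poincare S G L c) (𝔪.asIdeal.restrictScalars ℚ)
  have hcover : ⋃ 𝔪, (V 𝔪 : Set L) = Set.univ := by
    rw [Set.eq_univ_iff_forall]
    intro x
    obtain ⟨I, hI, hxI⟩ := exists_max_ideal_of_mem_nonunits (hcon x)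
    exact Set.mem_iUnion.2 ⟨⟨I, hI⟩, hxI⟩
  obtain ⟨𝔪, h𝔪⟩ := Subspace.exists_eq_top_of_iUnion_eq_univ hcover
  obtain ⟨x, hx⟩ := exists_poincare_notMem S G L c 𝔪
  have : x ∈ V 𝔪 := by rw [h𝔪]; trivial
  exact hx this

end Poincare

/-! ## 4. Hilbert 90 for `J_S(L)` -/

section Hilbert90

variable (S : Finset Nat.Primes) (G L : Type) [Group G] [Finite G] [Field L] [NumberField L]
  [MulSemiringAction G L] [FaithfulSMul G L]

/-- **Hilbert 90 for the `S`-idèles**, cocycle form: every `1`-cocycle `c : G → J_S(L)` is of the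
form `c g = g β / β`. -/
theorem exists_units_of_cocycle (c : G → (AS S L)ˣ)
    (hc : ∀ g h, c (g * h) =
      Units.map ((asRingAut G S L g : AS S L ≃+* AS S L) : AS S L →* AS S L) (c h) * c g) :
    ∃ β : (AS S L)ˣ, ∀ g,
      Units.map ((asRingAut G S L g : AS S L ≃+* AS S L) : AS S L →* AS S L) β = c g * β := by
  classical
  have : Fintype G := Fintype.ofFinite G
  obtain ⟨x, hx⟩ := exists_isUnit_poincare S G L c
  refine exists_units_of_isUnit_sum (asRingAut G S L) c hc (asDiag S L x) ?_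
  rw [poincare_apply] at hx
  have hsum : ∑ h : G, ((c h : (AS S L)ˣ) : AS S L) * (asRingAut G S L h) (asDiag S L x) =
      ∑ h : G, ((c h : (AS S L)ˣ) : AS S L) * asDiag S L (h • x) :=
    Finset.sum_congr rfl fun h _ => by rw [asRingAut_apply, asAut_asDiag]
  rw [hsum]
  exact hx

/-- **G-H1J.** `H¹(G, J_S(L)) = 0`. -/
theorem h1JSpec : H1JSpec := by
  intro S G L _ _ _ _ _ _
  rw [ModuleCat.isZero_iff_subsingleton]
  suffices h : ∀ a : groupCohomology (JRep G S L) 1, a = 0 from
    ⟨fun a b => by rw [h a, h b]⟩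
  intro a
  induction a using H1_induction_on with
  | h x =>
    rw [H1π_eq_zero_iff]
    have hx := (mem_cocycles₁_iff (x : G → (JRep G S L))).1 x.2
    obtain ⟨β, hβ⟩ := exists_units_of_cocycle S G L (fun g => Additive.toMul (x g))
      (fun g h => by
        have := hx g h
        exact congrArg Additive.toMul this)
    refine ⟨(Additive.ofMul β : Additive (AS S L)ˣ), ?_⟩
    funext g
    have h1 := hβ g
    change jRepr G S L g (Additive.ofMul β : Additive (AS S L)ˣ) -
      (Additive.ofMul β : Additive (AS S L)ˣ) = x g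
    apply Additive.toMul.injective
    change Units.map ((asRingAut G S L g : AS S L ≃+* AS S L) : AS S L →* AS S L) β / β = _
    rw [h1, mul_div_assoc, div_self', mul_one]

end Hilbert90

end Fermat.Agent.S55.G.H1JH604

end
end
-- ===== PACK-END S55/G/H1JH604.lean

-- ===== PACK-BEGIN S14/H894/TotRam.lean
section




/-!
# S14 / H894 : inertia surjects onto the embeddings of a totally ramified simple extension

`exists_inertia_eq_on_adjoin` : let `A` be a valuation subring of `ℚ̄` over a prime, `K` an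
intermediate field, `γ` a root of a monic `f ∈ K[X]` of degree `n` such that the valuations
`v(γ)^k`, `0 < k < n`, are not valuations of elements of `K` and all `K`-conjugates of `γ` have
the valuation of `γ`.  Then for every `τ ∈ Gal(ℚ̄/K)` there is `σ` in the inertia group of `A`,
fixing `K` pointwise, with `σ γ = τ γ`.
-/

set_option autoImplicit false
set_option linter.style.haveILetI false

open scoped Pointwise

namespace Fermat.Agent.S14.H894

open Polynomial Fermat.Agent.S54

local notation "Qb" => AlgebraicClosure ℚ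
local notation "GQ" => (AlgebraicClosure ℚ ≃ₐ[ℚ] AlgebraicClosure ℚ)
local notation "Zb" => integralClosure ℤ (AlgebraicClosure ℚ)

/-- The field `K(γ)` as an intermediate field of `ℚ̄/ℚ`. -/
noncomputable def adjoinField (K : IntermediateField ℚ Qb) (γ : Qb) : IntermediateField ℚ Qb :=
  IntermediateField.adjoin ℚ ((K : Set Qb) ∪ {γ})

theorem mem_fixingSubgroup_adjoinField_iff (K : IntermediateField ℚ Qb) (γ : Qb) (σ : GQ) :
    σ ∈ (adjoinField K γ).fixingSubgroup ↔ (∀ x ∈ K, σ x = x) ∧ σ γ = γ := by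
  rw [IntermediateField.mem_fixingSubgroup_iff]
  constructor
  · intro h
    refine ⟨fun x hx => h x ?_, h γ ?_⟩
    · exact IntermediateField.subset_adjoin ℚ _ (Set.mem_union_left _ hx)
    · exact IntermediateField.subset_adjoin ℚ _ (Set.mem_union_right _ rfl)
  · rintro ⟨hK, hγ⟩ x hx
    induction hx using IntermediateField.adjoin_induction with
    | mem x hx =>
      rcases hx with hx | hx
      · exact hK x hx
      · rw [Set.mem_singleton_iff] at hx; rw [hx]; exact hγ
    | algebraMap x => exact σ.commutes x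
    | add x y _ _ hx hy => rw [map_add, hx, hy]
    | inv x _ hx => rw [map_inv₀, hx]
    | mul x y _ _ hx hy => rw [map_mul, hx, hy]

theorem exists_coeffs_of_mem_adjoinField (K : IntermediateField ℚ Qb) (γ : Qb) (f : K[X])
    (hf : f.Monic) (hγ : aeval γ f = 0) (y : Qb) (hy : y ∈ adjoinField K γ) :
    ∃ c : ℕ → Qb, (∀ i, c i ∈ K) ∧ y = ∑ i ∈ Finset.range f.natDegree, c i * γ ^ i := by
  have h1 : adjoinField K γ = (IntermediateField.adjoin K {γ}).restrictScalars ℚ :=
    (IntermediateField.restrictScalars_adjoin ℚ K ({γ} : Set Qb)).symm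
  rw [h1] at hy
  have hy' : y ∈ IntermediateField.adjoin K {γ} := hy
  have halg : IsAlgebraic K γ := ⟨f, hf.ne_zero, hγ⟩
  have hy2 : y ∈ (IntermediateField.adjoin K {γ}).toSubalgebra := hy'
  rw [IntermediateField.adjoin_simple_toSubalgebra_of_isAlgebraic halg,
    Algebra.adjoin_singleton_eq_range_aeval] at hy2
  obtain ⟨q, rfl⟩ := hy2
  have hf1 : f ≠ 1 := by
    rintro rfl
    simp at hγ
  have hdeg : (q %ₘ f).natDegree < f.natDegree := natDegree_modByMonic_lt q hf hf1
  have hq : aeval γ q = aeval γ (q %ₘ f) := by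
    conv_lhs => rw [← modByMonic_add_div q f]
    rw [map_add, map_mul, hγ, zero_mul, add_zero]
  refine ⟨fun i => ((q %ₘ f).coeff i : Qb), fun i => SetLike.coe_mem _, ?_⟩
  show aeval γ q = _
  rw [hq, aeval_eq_sum_range' hdeg]
  refine Finset.sum_congr rfl fun i _ => ?_
  rw [Algebra.smul_def]
  rfl

section main

variable (A : ValuationSubring Qb) (K : IntermediateField ℚ Qb) (γ : Qb) (n : ℕ)

/-- The terms of a `K`-linear combination of powers of a conjugate of `γ` have pairwise
distinct valuations. -/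
theorem distinct_terms
    (hindep : ∀ k : ℕ, 0 < k → k < n → ∀ c ∈ K, A.valuation γ ^ k ≠ A.valuation c)
    (c : ℕ → Qb) (hc : ∀ i, c i ∈ K) (γ' : Qb) (hγ' : A.valuation γ' = A.valuation γ) :
    ∀ i ∈ Finset.range n, ∀ j ∈ Finset.range n, i ≠ j → c i * γ' ^ i ≠ 0 →
      A.valuation (c i * γ' ^ i) ≠ A.valuation (c j * γ' ^ j) := by
  intro i hi j hj hij hne heq
  rw [Finset.mem_range] at hi hj
  rw [map_mul, map_mul, map_pow, map_pow, hγ'] at heq
  have hn2 : 1 < n := by omega
  have hv0 : A.valuation γ ≠ 0 := by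
    have := hindep 1 one_pos hn2 0 K.zero_mem
    simpa using this
  have hci : c i ≠ 0 := left_ne_zero_of_mul hne
  have hvci : A.valuation (c i) ≠ 0 := (Valuation.ne_zero_iff _).mpr hci
  have hcj : c j ≠ 0 := by
    rintro h0
    rw [h0, map_zero, zero_mul] at heq
    exact mul_ne_zero hvci (pow_ne_zero _ hv0) heq
  have hvcj : A.valuation (c j) ≠ 0 := (Valuation.ne_zero_iff _).mpr hcj
  rcases lt_or_gt_of_ne hij with hlt | hlt
  · refine hindep (j - i) (by omega) (by omega) (c i / c j) (K.div_mem (hc i) (hc j)) ?_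
    rw [map_div₀, eq_div_iff hvcj]
    have hpow : A.valuation γ ^ j = A.valuation γ ^ (j - i) * A.valuation γ ^ i := by
      rw [← pow_add]; congr 1; omega
    rw [hpow, ← mul_assoc] at heq
    have h2 := mul_right_cancel₀ (pow_ne_zero i hv0) heq
    rw [h2, mul_comm]
  · refine hindep (i - j) (by omega) (by omega) (c j / c i) (K.div_mem (hc j) (hc i)) ?_
    rw [map_div₀, eq_div_iff hvci]
    have hpow : A.valuation γ ^ i = A.valuation γ ^ (i - j) * A.valuation γ ^ j := by
      rw [← pow_add]; congr 1; omega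
    rw [hpow, ← mul_assoc] at heq
    have h2 := mul_right_cancel₀ (pow_ne_zero j hv0) heq
    rw [← h2, mul_comm]

end main

/-- **Inertia surjects onto the embeddings of a totally ramified simple extension.** -/
theorem exists_inertia_eq_on_adjoin (A : ValuationSubring Qb) (ℓ : ℕ) (hℓ : ℓ.Prime)
    (hA : A.LiesOverPrime ℓ) (K : IntermediateField ℚ Qb) (γ : Qb) (f : K[X]) (hf : f.Monic)
    (hγ : aeval γ f = 0)
    (hindep : ∀ k : ℕ, 0 < k → k < f.natDegree → ∀ c ∈ K, A.valuation γ ^ k ≠ A.valuation c)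
    (hconj : ∀ τ : GQ, (∀ x ∈ K, τ x = x) → A.valuation (τ γ) = A.valuation γ)
    (τ : GQ) (hτ : ∀ x ∈ K, τ x = x) :
    ∃ σ ∈ A.inertiaSubgroupIn ℚ, (∀ x ∈ K, σ x = x) ∧ σ γ = τ γ := by
  haveI := isGalois_algebraicClosure_rat
  set n := f.natDegree with hn
  set L := adjoinField K γ with hL
  set H : Subgroup GQ := L.fixingSubgroup with hH
  have hHclosed : IsClosed (H : Set GQ) := InfiniteGalois.fixingSubgroup_isClosed L
  have hHmem : ∀ σ : GQ, σ ∈ H ↔ (∀ x ∈ K, σ x = x) ∧ σ γ = γ :=
    mem_fixingSubgroup_adjoinField_iff K γ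
  haveI hQprime := primeBelow_isPrime A
  set Q := primeBelow A with hQ
  -- invariants lie in `L`
  have hinv : ∀ y : Zb, (∀ h ∈ H, h • y = y) → (y : Qb) ∈ L := by
    intro y hy
    rw [← InfiniteGalois.fixedField_fixingSubgroup L, IntermediateField.mem_fixedField_iff]
    intro g hg
    exact congrArg Subtype.val (hy g hg)
  -- valuation formula
  have hval : ∀ (σ : GQ), (∀ x ∈ K, σ x = x) → ∀ y ∈ L,
      A.valuation (σ y) = A.valuation y := by
    intro σ hσ y hy
    obtain ⟨c, hc, rfl⟩ := exists_coeffs_of_mem_adjoinField K γ f hf hγ y hy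
    rw [map_sum]
    have h1 : ∀ i ∈ Finset.range n, σ (c i * γ ^ i) = c i * (σ γ) ^ i := by
      intro i _
      rw [map_mul, map_pow, hσ _ (hc i)]
    rw [Finset.sum_congr rfl h1]
    rw [valuation_sum_eq_sup _ _ _ (distinct_terms A K γ n hindep c hc (σ γ) (hconj σ hσ)),
      valuation_sum_eq_sup _ _ _ (distinct_terms A K γ n hindep c hc γ rfl)]
    refine Finset.sup_congr rfl fun i _ => ?_
    rw [map_mul, map_mul, map_pow, map_pow, hconj σ hσ]
  -- residue formula
  have hres : ∀ (σ : GQ), (∀ x ∈ K, σ x = x) → ∀ y ∈ L, y ∈ A →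
      A.valuation (σ y - y) < 1 := by
    intro σ hσ y hy hyA
    obtain ⟨c, hc, rfl⟩ := exists_coeffs_of_mem_adjoinField K γ f hf hγ y hy
    have hdist := distinct_terms A K γ n hindep c hc γ rfl
    have hle : ∀ i ∈ Finset.range n, A.valuation (c i * γ ^ i) ≤ 1 := by
      rw [← valuation_sum_le_one_iff _ _ _ hdist]
      exact (A.valuation_le_one_iff _).mpr hyA
    have hlt : ∀ i ∈ Finset.range n, 0 < i → A.valuation (c i * γ ^ i) < 1 := by
      intro i hi hi0
      refine lt_of_le_of_ne (hle i hi) ?_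
      intro h1
      by_cases hci : c i = 0
      · rw [hci, zero_mul, map_zero] at h1; exact zero_ne_one h1
      · have hvci : A.valuation (c i) ≠ 0 := (Valuation.ne_zero_iff _).mpr hci
        refine hindep i hi0 (Finset.mem_range.mp hi) (c i)⁻¹ (K.inv_mem (hc i)) ?_
        rw [map_inv₀]
        refine eq_inv_of_mul_eq_one_left ?_
        rw [mul_comm, ← map_pow, ← map_mul]
        exact h1
    rw [map_sum, ← Finset.sum_sub_distrib]
    refine Valuation.map_sum_lt _ one_ne_zero fun i hi => ?_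
    by_cases hi0 : i = 0
    · subst hi0
      simp [hσ _ (hc 0)]
    · have hi0' : 0 < i := Nat.pos_of_ne_zero hi0
      have h2 : σ (c i * γ ^ i) = c i * (σ γ) ^ i := by rw [map_mul, map_pow, hσ _ (hc i)]
      have h3 : A.valuation (σ (c i * γ ^ i)) < 1 := by
        rw [h2, map_mul, map_pow, hconj σ hσ, ← map_pow, ← map_mul]
        exact hlt i hi hi0'
      exact lt_of_le_of_lt (Valuation.map_sub _ _ _) (max_lt h3 (hlt i hi hi0'))
  have hmemQ : ∀ y : Zb, y ∈ Q ↔ A.valuation (y : Qb) < 1 := by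
    intro y
    rw [hQ, mem_primeBelow, ValuationSubring.mem_nonunits_iff]
  -- Step 3: move `τ⁻¹ • Q` back to `Q` by an element of `H`
  have hPQ : ∀ y : Zb, (∀ h ∈ H, h • y = y) → (y ∈ Q ↔ y ∈ τ⁻¹ • Q) := by
    intro y hy
    rw [Ideal.mem_inv_pointwise_smul_iff, hmemQ, hmemQ]
    have : ((τ • y : Zb) : Qb) = τ (y : Qb) := rfl
    rw [this, hval τ hτ _ (hinv y hy)]
  obtain ⟨g, hgH, hg⟩ := exists_smul_eq_of_closed H hHclosed Q (τ⁻¹ • Q) hPQ
  have hgK := (hHmem g).mp hgH
  set σ₁ : GQ := τ * g with hσ₁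
  have hσ₁Q : σ₁ • Q = Q := by
    rw [hσ₁, mul_smul, ← hg, smul_inv_smul]
  have hσ₁K : ∀ x ∈ K, σ₁ x = x := by
    intro x hx
    rw [hσ₁, AlgEquiv.mul_apply, hgK.1 x hx, hτ x hx]
  have hσ₁γ : σ₁ γ = τ γ := by
    rw [hσ₁, AlgEquiv.mul_apply, hgK.2]
  -- Step 4: correct the residue action by an element of `H`
  have hσ₁res : ∀ y : Zb, (∀ h ∈ H, h • y = y) → σ₁ • y - y ∈ Q := by
    intro y hy
    rw [hmemQ]
    exact hres σ₁ hσ₁K _ (hinv y hy) (isIntegral_mem_valuationSubring A y.2)
  obtain ⟨g', hg'H, hg'Q, hg'⟩ := exists_mem_stabilizer_of_closed H hHclosed Q σ₁ hσ₁Q hσ₁res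
  have hg'K := (hHmem g').mp hg'H
  have hg'invK : ∀ x ∈ K, g'⁻¹ x = x := by
    intro x hx
    have := hg'K.1 x hx
    calc g'⁻¹ x = g'⁻¹ (g' x) := by rw [this]
      _ = x := by rw [← AlgEquiv.mul_apply, inv_mul_cancel, AlgEquiv.one_apply]
  have hg'invγ : g'⁻¹ γ = γ := by
    calc g'⁻¹ γ = g'⁻¹ (g' γ) := by rw [hg'K.2]
      _ = γ := by rw [← AlgEquiv.mul_apply, inv_mul_cancel, AlgEquiv.one_apply]
  refine ⟨σ₁ * g'⁻¹, ?_, ?_, ?_⟩
  · refine mem_inertiaSubgroupIn_of_forall A ℓ hℓ hA _ ?_ ?_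
    · rw [mul_smul, inv_smul_eq_iff.mpr hg'Q.symm, hσ₁Q]
    · intro x
      have h1 := hg' (g'⁻¹ • x)
      rw [smul_inv_smul] at h1
      rw [mul_smul]
      have h2 : σ₁ • g'⁻¹ • x - x = -(x - σ₁ • g'⁻¹ • x) := by ring
      rw [h2]
      exact Q.neg_mem h1
  · intro x hx
    rw [AlgEquiv.mul_apply, hg'invK x hx, hσ₁K x hx]
  · rw [AlgEquiv.mul_apply, hg'invγ, hσ₁γ]

end Fermat.Agent.S14.H894

end
-- ===== PACK-END S14/H894/TotRam.lean

-- ===== PACK-BEGIN S55/H963/Below.lean
section


/-!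
# S55 / leaf RAY-N1 (helper963): asymptotics of the smoothed sum over a congruence class

For an ideal `J₀ ≠ 0` coprime to the modulus `m` and `b : A`:
`N(J₀) N(m) ∑_{x ≠ 0, (x) ≤ J₀, (x) coprime to m, ψ(x) = b} F s x = #Θ_b * Φ(s) + O(1)`,
uniformly in `s ∈ (1, 2]`.
-/

set_option autoImplicit false

namespace Fermat.Agent.S55.H963

open NumberField

variable {K : Type*} [Field K] [NumberField K] {A : Type*} [CommGroup A]

/-- Coset decomposition of a sum over `𝓞 K` along an ideal of finite index. -/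
theorem tsum_eq_sum_coset (J : Ideal (𝓞 K)) [Fintype (𝓞 K ⧸ J)] (h : 𝓞 K → ℝ)
    (hh : Summable h) :
    ∑' x : 𝓞 K, h x = ∑ q : 𝓞 K ⧸ J, ∑' y : J, h ((y : 𝓞 K) + Quotient.out q) := by
  have hs' : Summable (h ∘ UnitKernel.cosetEquiv J) :=
    ((UnitKernel.cosetEquiv J).summable_iff (f := h)).mpr hh
  have e1 : ∑' x : 𝓞 K, h x = ∑' p : (𝓞 K ⧸ J) × J, (h ∘ UnitKernel.cosetEquiv J) p :=
    ((UnitKernel.cosetEquiv J).tsum_eq h).symm
  have hsumq' : ∀ q : 𝓞 K ⧸ J, Summable fun y : J => (h ∘ UnitKernel.cosetEquiv J) (q, y) := by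
    intro q
    simp only [Function.comp_apply, UnitKernel.cosetEquiv_apply]
    refine hh.comp_injective (i := fun y : J => (y : 𝓞 K) + Quotient.out q) ?_
    intro y y' hyy
    exact Subtype.ext (add_right_cancel hyy)
  rw [e1, hs'.tsum_prod' hsumq', tsum_fintype]
  simp only [Function.comp_apply, UnitKernel.cosetEquiv_apply]

namespace RayDatum

variable (D : RayDatum K A) (κ : UnitKernel K)

open Classical in
/-- The summand of the smoothed sum over the good elements of `J₀`. -/
noncomputable def goodF (J₀ : Ideal (𝓞 K)) (b : A) (s : ℝ) (x : 𝓞 K) : ℝ :=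
  if x ∈ J₀ ∧ D.Good x b then κ.F s x else 0

theorem goodF_nonneg (J₀ : Ideal (𝓞 K)) (b : A) (s : ℝ) (x : 𝓞 K) :
    0 ≤ D.goodF κ J₀ b s x := by
  unfold goodF
  split_ifs
  · exact κ.nonneg s x
  · exact le_rfl

theorem goodF_le (J₀ : Ideal (𝓞 K)) (b : A) (s : ℝ) (x : 𝓞 K) :
    D.goodF κ J₀ b s x ≤ κ.F s x := by
  unfold goodF
  split_ifs
  · exact le_rfl
  · exact κ.nonneg s x

theorem summable_goodF (J₀ : Ideal (𝓞 K)) (b : A) {s : ℝ} (hs : 1 < s) :
    Summable (D.goodF κ J₀ b s) :=
  Summable.of_nonneg_of_le (D.goodF_nonneg κ J₀ b s) (D.goodF_le κ J₀ b s) (κ.summable s hs)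

theorem mem_genSet_below {J₀ : Ideal (𝓞 K)} {b : A} {x : 𝓞 K} :
    x ∈ genSet (D.below J₀ b) ↔ x ≠ 0 ∧ x ∈ J₀ ∧ D.Good x b := by
  unfold genSet below Good
  simp only [Set.mem_setOf_eq, Ideal.span_singleton_le_iff_mem]

/-- The smoothed sum over the generators is the sum of `goodF`. -/
theorem tsum_genSet_below (J₀ : Ideal (𝓞 K)) (b : A) (s : ℝ) :
    ∑' x : genSet (D.below J₀ b), κ.F s x = ∑' x : 𝓞 K, D.goodF κ J₀ b s x := by
  rw [tsum_subtype (genSet (D.below J₀ b)) (κ.F s)]
  congr 1
  funext x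
  classical
  unfold goodF Set.indicator
  by_cases hx0 : x = 0
  · subst hx0
    simp [κ.map_zero]
  · by_cases h : x ∈ J₀ ∧ D.Good x b
    · rw [if_pos h, if_pos (D.mem_genSet_below.mpr ⟨hx0, h⟩)]
    · rw [if_neg h, if_neg (fun hh => h (D.mem_genSet_below.mp hh).2)]

open Classical in
theorem tsum_goodF_coset (J₀ : Ideal (𝓞 K)) (b : A) (s : ℝ) (q : 𝓞 K ⧸ (J₀ ⊓ D.m)) :
    ∑' y : (J₀ ⊓ D.m : Ideal (𝓞 K)), D.goodF κ J₀ b s ((y : 𝓞 K) + Quotient.out q) =
      if D.CosetCond J₀ b q then κ.cosetSum (J₀ ⊓ D.m) (Quotient.out q) s else 0 := by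
  by_cases hq : D.CosetCond J₀ b q
  · rw [if_pos hq]
    unfold UnitKernel.cosetSum
    congr 1
    funext y
    unfold goodF
    rw [if_pos ((D.mem_and_good_add_iff J₀ b _ y).mpr hq)]
  · rw [if_neg hq]
    have : ∀ y : (J₀ ⊓ D.m : Ideal (𝓞 K)),
        D.goodF κ J₀ b s ((y : 𝓞 K) + Quotient.out q) = 0 := by
      intro y
      unfold goodF
      rw [if_neg (fun h => hq ((D.mem_and_good_add_iff J₀ b _ y).mp h))]
    simp only [this, tsum_zero]

/-- **Asymptotics of the smoothed sum over a congruence class in `J₀`.** -/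
theorem exists_below_bound (J₀ : Ideal (𝓞 K)) (hJ₀ne : J₀ ≠ ⊥) (hJ₀ : IsCoprime J₀ D.m)
    (b : A) : ∃ B : ℝ, ∀ s : ℝ, 1 < s → s ≤ 2 →
      |(Ideal.absNorm J₀ : ℝ) * (Ideal.absNorm D.m : ℝ) *
          (∑' x : genSet (D.below J₀ b), κ.F s x) -
        (Nat.card (D.theta b) : ℝ) * κ.total s| ≤ B := by
  classical
  have hJne : J₀ ⊓ D.m ≠ ⊥ := D.inf_ne_bot hJ₀ne
  have : Finite (𝓞 K ⧸ (J₀ ⊓ D.m)) := Ideal.finiteQuotientOfFreeOfNeBot _ hJne
  let _ : Fintype (𝓞 K ⧸ (J₀ ⊓ D.m)) := Fintype.ofFinite _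
  choose B hB using fun t : 𝓞 K => κ.exists_coset_bound (J₀ ⊓ D.m) hJne t
  refine ⟨∑ q : 𝓞 K ⧸ (J₀ ⊓ D.m), |B (Quotient.out q)|, fun s hs1 hs2 => ?_⟩
  have hN : (Ideal.absNorm J₀ : ℝ) * (Ideal.absNorm D.m : ℝ) =
      (Ideal.absNorm (J₀ ⊓ D.m) : ℝ) := by
    rw [D.absNorm_inf hJ₀, Nat.cast_mul]
  have hcard : (Nat.card (D.theta b) : ℝ) =
      ∑ q : 𝓞 K ⧸ (J₀ ⊓ D.m), if D.CosetCond J₀ b q then (1 : ℝ) else 0 := by
    rw [← D.card_cosetCond J₀ hJ₀ b, Finset.sum_boole, Nat.card_eq_fintype_card,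
      Fintype.card_subtype]
  rw [D.tsum_genSet_below κ J₀ b s,
    tsum_eq_sum_coset (J₀ ⊓ D.m) _ (D.summable_goodF κ J₀ b hs1), hN, hcard,
    Finset.mul_sum, Finset.sum_mul, ← Finset.sum_sub_distrib]
  refine (Finset.abs_sum_le_sum_abs _ _).trans (Finset.sum_le_sum fun q _ => ?_)
  rw [D.tsum_goodF_coset κ J₀ b s q]
  by_cases hq : D.CosetCond J₀ b q
  · rw [if_pos hq, if_pos hq, one_mul]
    exact (hB _ s hs1 hs2).trans (le_abs_self _)
  · rw [if_neg hq, if_neg hq]
    simp

end RayDatum

end Fermat.Agent.S55.H963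

end
-- ===== PACK-END S55/H963/Below.lean

-- ===== PACK-BEGIN S55/G/Rec/HP/Spec.lean
section



/-!
# S55 / layer G / block REC / adapter HP : FROZEN INTERFACE

Sub-architect: helper473 (subtask 378).  Blueprint: `origin/helper473:coord/S55-REC-HP.md`.

Goal (file `HP/Glue.lean`):

  `hassePrinciple_of : HasseFinSpec p → GlobalDescentSpec → GlobalUpSpec → LocalGlueSpec →
      HassePrincipleSpec p`

and the three leaves

* **HP-FIN** `HasseFinSpec p` : the Hasse principle at FINITE level, in helper421's intrinsic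
  model (`G/Defs.lean`, `G/DefsLocal.lean`): for a finite group `G` acting faithfully on a number
  field `L ∋ ζ_p`, a class `x ∈ H²(G, Lˣ)` of `p`-power order whose localisations
  `locMapL S G 𝔪 2 x ∈ H²(D_𝔪, L_𝔪ˣ)` vanish for all finite `S` and all places `𝔪` above `S`, is `0`.
  (From `G.PClassUpperSpec`, `G.ClassShortExactSpec`, `G.ShapiroJSpec`, `T.ResIndexSpec`.)
* **HP-GD** `GlobalDescentSpec`, `GlobalUpSpec` : dictionary between level cocycles on an open
  `U ≤ G_ℚ` with values in `ℚ̄ˣ` and cocycles of the finite group `lvlGal U F ≤ Gal(F/ℚ)`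
  (the image of `U`; it is `Gal(F / F ∩ ℚ̄^U)`) with values in `Fˣ`, `F/ℚ` finite normal.
* **HP-LG** `LocalGlueSpec` : if all absolute localisations `locBr q g U x` vanish, then all
  intrinsic localisations of the finite-level class vanish.

Only definitions and `def XxxSpec : Prop`; no `sorry`.
-/

set_option autoImplicit false

noncomputable section

namespace Fermat.Agent.S55.G.Rec.HP

open groupCohomology

local notation "Qb" => AlgebraicClosure ℚ
local notation "GQ" => (AlgebraicClosure ℚ ≃ₐ[ℚ] AlgebraicClosure ℚ)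

/-! ## Finite levels of an open subgroup `U ≤ G_ℚ` -/

/-- A finite extension of `ℚ` inside `ℚ̄` is a number field. -/
instance instNumberFieldLevel (F : IntermediateField ℚ Qb) [FiniteDimensional ℚ F] :
    NumberField F where
  to_charZero := inferInstance
  to_finiteDimensional := inferInstance

variable (U : Subgroup GQ) (F : IntermediateField ℚ Qb) [Normal ℚ F]

/-- Restriction `U → Gal(F/ℚ)`. -/
def lvlRes : ↥U →* (F ≃ₐ[ℚ] F) := (AlgEquiv.restrictNormalHom F).comp U.subtype

lemma lvlRes_apply_coe (u : ↥U) (x : F) :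
    ((lvlRes U F u x : F) : Qb) = (u : GQ) (x : Qb) := by
  change algebraMap F Qb (AlgEquiv.restrictNormal (u : GQ) F x) = _
  rw [AlgEquiv.restrictNormal_commutes]
  rfl

/-- The image of `U` in `Gal(F/ℚ)`: the finite group `Gal(F / F ∩ K)`, `K = ℚ̄^U`. -/
def lvlGal : Subgroup (F ≃ₐ[ℚ] F) := (lvlRes U F).range

/-- The surjection `U → lvlGal U F`. -/
def lvlHom : ↥U →* ↥(lvlGal U F) := (lvlRes U F).rangeRestrict

lemma lvlHom_surjective : Function.Surjective (lvlHom U F) :=
  (lvlRes U F).rangeRestrict_surjective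

@[simp] lemma lvlHom_coe (u : ↥U) : ((lvlHom U F u : ↥(lvlGal U F)) : F ≃ₐ[ℚ] F) = lvlRes U F u :=
  rfl

lemma lvlHom_smul_coe (u : ↥U) (x : F) :
    ((lvlHom U F u • x : F) : Qb) = (u : GQ) (x : Qb) :=
  lvlRes_apply_coe U F u x

/-- The inclusion `Fˣ → ℚ̄ˣ`. -/
def unitsInclG : (↥F)ˣ →* Qbˣ := Units.map (algebraMap F Qb : F →* Qb)

omit [Normal ℚ F] in
@[simp] lemma unitsInclG_coe (x : (↥F)ˣ) : ((unitsInclG F x : Qbˣ) : Qb) = ((x : F) : Qb) := rfl

/-- Inflation of finite-level 1-cochains to `U`. -/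
def gInflCochain₁ (b : ↥(lvlGal U F) → Additive (↥F)ˣ) : ↥U → gModOn U :=
  fun u => Additive.ofMul (unitsInclG F (Additive.toMul (b (lvlHom U F u))))

/-- Inflation of finite-level 2-cochains to `U`. -/
def gInflCochain₂ (f : ↥(lvlGal U F) × ↥(lvlGal U F) → Additive (↥F)ˣ) :
    ↥U × ↥U → gModOn U :=
  fun p => Additive.ofMul
    (unitsInclG F (Additive.toMul (f (lvlHom U F p.1, lvlHom U F p.2))))

/-- The level cocycle `c` on `U` is the inflation of the finite-level cocycle `f` on
`lvlGal U F` with values in `Fˣ`. -/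
def IsGInflation (f : cocycles₂ (G.LRep ↥(lvlGal U F) ↥F))
    (c : ↥(levelCocycles₂ U.subtype (gModOn U))) : Prop :=
  (c : ↥U × ↥U → gModOn U) =
    gInflCochain₂ U F (f : ↥(lvlGal U F) × ↥(lvlGal U F) → Additive (↥F)ˣ)

/-! ## The leaves -/

/-- **HP-FIN** the Hasse principle at finite level (intrinsic model of `G/Defs.lean`):
`Γ` finite acting faithfully on the number field `L ∋ ζ_p`; a class of `p`-power order in
`H²(G, Lˣ)` which is locally trivial at all places above all finite sets `S` is trivial. -/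
def HasseFinSpec (p : ℕ) : Prop :=
  ∀ (Γ L : Type) [Group Γ] [Finite Γ] [Field L] [NumberField L] [MulSemiringAction Γ L]
    [FaithfulSMul Γ L],
    (∃ ζ : L, IsPrimitiveRoot ζ p) →
    ∀ x : groupCohomology (G.LRep Γ L) 2, (∃ k : ℕ, p ^ k • x = 0) →
      (∀ (S : Finset Nat.Primes) (𝔪 : G.SPlace S L), (G.locMapL S Γ 𝔪 2).hom x = 0) → x = 0

/-- **HP-FINp** the same for `p`-groups (the case proved directly from layer G). -/
def HasseFinPSpec (p : ℕ) : Prop :=
  ∀ (Γ L : Type) [Group Γ] [Finite Γ] [Field L] [NumberField L] [MulSemiringAction Γ L]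
    [FaithfulSMul Γ L],
    IsPGroup p Γ → (∃ ζ : L, IsPrimitiveRoot ζ p) →
    ∀ x : groupCohomology (G.LRep Γ L) 2,
      (∀ (S : Finset Nat.Primes) (𝔪 : G.SPlace S L), (G.locMapL S Γ 𝔪 2).hom x = 0) → x = 0

/-- **HP-GD** descent: every level cocycle `c` on an open `U` is the inflation of a cocycle `f`
of a finite normal level `F ⊇ F₁` (`F₁` any given finite extension) with `G_F ≤ U`; if
`n • [c] = 0` in `Br(K)` then `F`, `f` can be chosen with `n • [f] = 0` in `H²(lvlGal U F, Fˣ)`.
(`n = 0` gives plain descent.) -/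
def GlobalDescentSpec : Prop :=
  ∀ (U : Subgroup GQ), IsOpenQ U →
    ∀ (c : ↥(levelCocycles₂ U.subtype (gModOn U))) (n : ℕ),
      n • continuousH2π U.subtype (gModOn U) c = 0 →
    ∀ (F₁ : IntermediateField ℚ Qb), FiniteDimensional ℚ F₁ →
      ∃ (F : IntermediateField ℚ Qb) (_ : FiniteDimensional ℚ F) (_ : Normal ℚ F)
        (f : cocycles₂ (G.LRep ↥(lvlGal U F) ↥F)),
        F₁ ≤ F ∧ F.fixingSubgroup ≤ U ∧ IsGInflation U F f c ∧
          n • (H2π (G.LRep ↥(lvlGal U F) ↥F)).hom f = 0

/-- **HP-UP** a finite-level coboundary inflates to a level coboundary. -/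
def GlobalUpSpec : Prop :=
  ∀ (U : Subgroup GQ) (F : IntermediateField ℚ Qb) [FiniteDimensional ℚ F] [Normal ℚ F],
    F.fixingSubgroup ≤ U →
    ∀ (f : cocycles₂ (G.LRep ↥(lvlGal U F) ↥F))
      (c : ↥(levelCocycles₂ U.subtype (gModOn U))),
      IsGInflation U F f c → (H2π (G.LRep ↥(lvlGal U F) ↥F)).hom f = 0 →
        continuousH2π U.subtype (gModOn U) c = 0

/-- **HP-LG** local glue: if the absolute localisations of `[c] ∈ Br(K)` vanish at all places
`(q, g)`, then the intrinsic localisations of the finite-level class `[f]` vanish at all places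
`𝔪` of `F` above all finite sets `S`. -/
def LocalGlueSpec : Prop :=
  ∀ (U : Subgroup GQ) (F : IntermediateField ℚ Qb) [FiniteDimensional ℚ F] [Normal ℚ F],
    F.fixingSubgroup ≤ U →
    ∀ (f : cocycles₂ (G.LRep ↥(lvlGal U F) ↥F))
      (c : ↥(levelCocycles₂ U.subtype (gModOn U))),
      IsGInflation U F f c →
      (∀ (q : ℕ) [Fact q.Prime] (g : GQ),
        locBr q g U (continuousH2π U.subtype (gModOn U) c) = 0) →
      ∀ (S : Finset Nat.Primes) (𝔪 : G.SPlace S ↥F),
        (G.locMapL S ↥(lvlGal U F) 𝔪 2).hom ((H2π (G.LRep ↥(lvlGal U F) ↥F)).hom f) = 0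

end Fermat.Agent.S55.G.Rec.HP

end
end
-- ===== PACK-END S55/G/Rec/HP/Spec.lean

-- ===== PACK-BEGIN S55/G/Rec/RelNormH511.lean
section


/-!
# S55 / layer G / block REC : generic lemmas on `relNorm` (helper511)

`relNorm H b = ∏ᶠ t : G ⧸ H, out t • b`.  For `b` fixed by `H` (and `H` of finite index):
* `H511.out_smul_eq`       : `out (g H) • b = g • b`;
* `H511.relNorm_eq_prod`   : `relNorm H b = ∏ t, out t • b` (Fintype product);
* `H511.smul_relNorm`      : the norm is fixed by all of `G`;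
* `H511.relNorm_trans`     : transitivity `N_{G/H} (N_{H/H'} b) = N_{G/H'} b`;
* `H511.relNorm_mul`       : multiplicativity in `b`.
-/

set_option autoImplicit false
set_option linter.style.haveILetI false

noncomputable section

namespace Fermat.Agent.S55.G.Rec.H511

open Fermat.Agent.S55.G.Rec

variable {G M : Type*} [Group G] [CommGroup M] [MulDistribMulAction G M]

/-- Independence of the representative: `out (g H) • b = g • b` for `b` fixed by `H`. -/
lemma out_smul_eq (H : Subgroup G) {b : M} (hb : ∀ h ∈ H, h • b = b) (g : G) :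
    (Quotient.out (g : G ⧸ H) : G) • b = g • b := by
  have h1 : (Quotient.out (g : G ⧸ H) : G)⁻¹ * g ∈ H :=
    QuotientGroup.eq.mp (QuotientGroup.out_eq' (g : G ⧸ H))
  have h2 : g • b =
      (Quotient.out (g : G ⧸ H) : G) • (((Quotient.out (g : G ⧸ H) : G)⁻¹ * g) • b) := by
    rw [smul_smul, mul_inv_cancel_left]
  rw [h2, hb _ h1]

lemma relNorm_eq_prod (H : Subgroup G) [Fintype (G ⧸ H)] (b : M) :
    relNorm H b = ∏ t : G ⧸ H, (Quotient.out t : G) • b := by
  unfold relNorm
  exact finprod_eq_prod_of_fintype _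

/-- The norm is fixed by the whole group. -/
lemma smul_relNorm (H : Subgroup G) [Finite (G ⧸ H)] {b : M} (hb : ∀ h ∈ H, h • b = b)
    (g : G) : g • relNorm H b = relNorm H b := by
  classical
  haveI := Fintype.ofFinite (G ⧸ H)
  rw [relNorm_eq_prod, Finset.smul_prod']
  have h1 : ∀ t : G ⧸ H, g • ((Quotient.out t : G) • b) =
      (Quotient.out (g • t) : G) • b := by
    intro t
    rw [smul_smul]
    have : g • t = ((g * (Quotient.out t : G) : G) : G ⧸ H) := by
      conv_lhs => rw [← QuotientGroup.out_eq' t]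
      rfl
    rw [this, out_smul_eq H hb]
  simp_rw [h1]
  exact Equiv.prod_comp (MulAction.toPerm g : Equiv.Perm (G ⧸ H))
    (fun t => (Quotient.out t : G) • b)

/-- Multiplicativity of the norm. -/
lemma relNorm_mul (H : Subgroup G) [Finite (G ⧸ H)] (b b' : M) :
    relNorm H (b * b') = relNorm H b * relNorm H b' := by
  classical
  haveI := Fintype.ofFinite (G ⧸ H)
  simp only [relNorm_eq_prod, smul_mul', Finset.prod_mul_distrib]

/-- Transitivity of the norm. -/
lemma relNorm_trans {H' H : Subgroup G} (hle : H' ≤ H) [Finite (G ⧸ H')] {b : M}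
    (hb : ∀ h ∈ H', h • b = b) :
    relNorm H (relNorm (G := ↥H) (H'.subgroupOf H) b) = relNorm H' b := by
  classical
  let e := Subgroup.quotientEquivProdOfLE hle
  haveI : Finite ((G ⧸ H) × ↥H ⧸ H'.subgroupOf H) := Finite.of_equiv _ e
  haveI : Nonempty (G ⧸ H) := ⟨((1 : G) : G ⧸ H)⟩
  haveI : Nonempty (↥H ⧸ H'.subgroupOf H) := ⟨((1 : ↥H) : ↥H ⧸ H'.subgroupOf H)⟩
  haveI : Finite (G ⧸ H) := Finite.prod_left (↥H ⧸ H'.subgroupOf H)
  haveI : Finite (↥H ⧸ H'.subgroupOf H) := Finite.prod_right (G ⧸ H)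
  haveI := Fintype.ofFinite (G ⧸ H)
  haveI := Fintype.ofFinite (G ⧸ H')
  haveI := Fintype.ofFinite (↥H ⧸ H'.subgroupOf H)
  have hb' : ∀ h ∈ H'.subgroupOf H, h • b = b := fun h hh => hb (h : G) hh
  rw [relNorm_eq_prod H, relNorm_eq_prod (H'.subgroupOf H), relNorm_eq_prod H']
  simp_rw [Finset.smul_prod']
  rw [← Fintype.prod_prod_type' (f := fun (t : G ⧸ H) (u : ↥H ⧸ H'.subgroupOf H) =>
    (Quotient.out t : G) • ((Quotient.out u : ↥H) • b))]
  refine (Fintype.prod_equiv e.symm _ _ ?_)
  rintro ⟨t, u⟩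
  obtain ⟨h, rfl⟩ := QuotientGroup.mk_surjective u
  have h1 : e.symm (t, (h : ↥H ⧸ H'.subgroupOf H)) =
      (((Quotient.out t : G) * (h : G) : G) : G ⧸ H') := rfl
  rw [h1, out_smul_eq H' hb, out_smul_eq (H'.subgroupOf H) hb', mul_smul]
  rfl

end Fermat.Agent.S55.G.Rec.H511

end
end
-- ===== PACK-END S55/G/Rec/RelNormH511.lean

-- ===== PACK-BEGIN S55/L/Unram784/Frobenius.lean
section


/-!
# S55, layer L, leaf L-A2 (helper784): the Frobenius element of an unramified extension

Same AKLB setting as in `FieldLevel`.  We construct `φ ∈ Gal(L/K)` with `φ x ≡ x ^ |k|` modulo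
`𝔪_S` for all `x ∈ S` and show that it generates `Gal(L/K)`.
-/

set_option autoImplicit false
set_option linter.unusedSectionVars false

namespace Fermat.Agent.S55.L

open IsLocalRing Polynomial

section Frobenius

variable {R S K L : Type} [CommRing R] [CommRing S] [IsDomain R] [IsDomain S]
  [IsDiscreteValuationRing R] [IsDiscreteValuationRing S]
  [Algebra R S] [IsLocalHom (algebraMap R S)]
  [IsAdicComplete (maximalIdeal R) R] [IsAdicComplete (maximalIdeal S) S]
  [Finite (ResidueField R)] [Finite (ResidueField S)]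
  [Field K] [Field L] [Algebra R K] [IsFractionRing R K] [Algebra S L] [IsFractionRing S L]
  [Algebra K L] [Algebra R L] [IsScalarTower R K L] [IsScalarTower R S L]

/-- `σ ∈ Gal(L/K)` preserves `S` and induces `τ` on the residue field. -/
def u784_Induces (σ : L ≃ₐ[K] L)
    (τ : ResidueField S ≃ₐ[ResidueField R] ResidueField S) : Prop :=
  ∀ x : S, ∃ y : S, algebraMap S L y = σ (algebraMap S L x) ∧ residue S y = τ (residue S x)

theorem u784_induces_one :
    u784_Induces (1 : L ≃ₐ[K] L) (1 : ResidueField S ≃ₐ[ResidueField R] ResidueField S) :=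
  fun x => ⟨x, rfl, rfl⟩

theorem u784_induces_mul {σ σ' : L ≃ₐ[K] L}
    {τ τ' : ResidueField S ≃ₐ[ResidueField R] ResidueField S}
    (h : u784_Induces σ τ) (h' : u784_Induces σ' τ') : u784_Induces (σ * σ') (τ * τ') := by
  intro x
  obtain ⟨y, hy1, hy2⟩ := h' x
  obtain ⟨z, hz1, hz2⟩ := h y
  exact ⟨z, by rw [hz1, hy1]; rfl, by rw [hz2, hy2]; rfl⟩

theorem u784_induces_pow {σ : L ≃ₐ[K] L}
    {τ : ResidueField S ≃ₐ[ResidueField R] ResidueField S}
    (h : u784_Induces σ τ) (n : ℕ) : u784_Induces (σ ^ n) (τ ^ n) := by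
  induction n with
  | zero => simpa using u784_induces_one (R := R) (S := S) (K := K) (L := L)
  | succ n ih =>
    rw [pow_succ, pow_succ]
    exact u784_induces_mul ih h

theorem u784_residue_sum_smul_pow {n : ℕ} (a : Fin n → R) (γ : S) :
    residue S (∑ i, a i • γ ^ (i : ℕ)) =
      ∑ i, algebraMap (ResidueField R) (ResidueField S) (residue R (a i)) *
        residue S γ ^ (i : ℕ) := by
  rw [map_sum]
  refine Finset.sum_congr rfl fun i _ => ?_
  rw [Algebra.smul_def, map_mul, map_pow, ResidueField.algebraMap_residue]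

/-- If `σ β = β'` and `β' ≡ τ β̄`, then `σ` induces `τ`. -/
theorem u784_induces_of_root
    (hunr : (maximalIdeal R).map (algebraMap R S) = maximalIdeal S)
    (g : R[X]) (hg : g.Monic) (hirr : Irreducible (g.map (residue R)))
    (hdeg : g.natDegree = Module.finrank (ResidueField R) (ResidueField S))
    (β : S) (hβ : (g.map (algebraMap R S)).IsRoot β)
    (σ : L ≃ₐ[K] L) (τ : ResidueField S ≃ₐ[ResidueField R] ResidueField S) (β' : S)
    (hσ : σ (algebraMap S L β) = algebraMap S L β')
    (hτ : residue S β' = τ (residue S β)) : u784_Induces σ τ := by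
  intro x
  obtain ⟨a, rfl⟩ := u784_span_pow hunr g hg hirr hdeg β hβ x
  refine ⟨∑ i, a i • β' ^ (i : ℕ), ?_, ?_⟩
  · rw [map_sum, map_sum, map_sum]
    refine Finset.sum_congr rfl fun i _ => ?_
    rw [u784_algebraMap_smul (K := K), u784_algebraMap_smul (K := K), map_smul, map_pow,
      map_pow, map_pow, hσ]
  · rw [u784_residue_sum_smul_pow, u784_residue_sum_smul_pow, map_sum]
    refine Finset.sum_congr rfl fun i _ => ?_
    rw [map_mul, AlgEquiv.commutes, map_pow, hτ]

/-- Two `k`-automorphisms of `l` agreeing on a root of `ḡ` agree. -/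
theorem u784_algEquiv_ext_of_root (g : R[X]) (hg : g.Monic)
    (hirr : Irreducible (g.map (residue R)))
    (hdeg : g.natDegree = Module.finrank (ResidueField R) (ResidueField S))
    (β : S) (hβ : (g.map (algebraMap R S)).IsRoot β)
    (τ τ' : ResidueField S ≃ₐ[ResidueField R] ResidueField S)
    (h : τ (residue S β) = τ' (residue S β)) : τ = τ' := by
  have hdeg' : (g.map (residue R)).natDegree =
      Module.finrank (ResidueField R) (ResidueField S) := by
    rw [hg.natDegree_map, hdeg]
  ext x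
  obtain ⟨p, -, rfl⟩ := u784_exists_aeval_eq (g.map (residue R)) (hg.map _) hirr hdeg'
    (residue S β) (u784_aeval_residue_eq_zero g β hβ) x
  rw [← Polynomial.aeval_algHom_apply, ← Polynomial.aeval_algHom_apply, h]

/-- **Frobenius.**  In an unramified extension there is `φ ∈ Gal(L/K)` with
`φ x ≡ x ^ |k| mod 𝔪_S` on `S`, and `φ` generates `Gal(L/K)`. -/
theorem u784_exists_frobenius [CharZero K]
    (hunr : (maximalIdeal R).map (algebraMap R S) = maximalIdeal S)
    (g : R[X]) (hg : g.Monic) (hirr : Irreducible (g.map (residue R)))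
    (hdeg : g.natDegree = Module.finrank (ResidueField R) (ResidueField S))
    (β : S) (hβ : (g.map (algebraMap R S)).IsRoot β) :
    ∃ φ : L ≃ₐ[K] L,
      (∀ x : S, ∃ y : S, algebraMap S L y = φ (algebraMap S L x) ∧
        y - x ^ Nat.card (ResidueField R) ∈ maximalIdeal S) ∧
      ∀ σ : L ≃ₐ[K] L, σ ∈ Subgroup.zpowers φ := by
  classical
  have hfd : FiniteDimensional K L := u784_finiteDimensional hunr g hg hirr hdeg β hβ
  have hgal : IsGalois K L := u784_isGalois hunr g hg hirr hdeg β hβ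
  letI := Fintype.ofFinite (ResidueField R)
  let Frob : ResidueField S ≃ₐ[ResidueField R] ResidueField S :=
    FiniteField.frobeniusAlgEquivOfAlgebraic (ResidueField R) (ResidueField S)
  have hFrob : ∀ x, Frob x = x ^ Nat.card (ResidueField R) := fun x => by
    rw [Nat.card_eq_fintype_card]
    exact FiniteField.frobeniusAlgEquivOfAlgebraic_apply _ _ x
  have hsep : (g.map (residue R)).Separable := PerfectField.separable_of_irreducible hirr
  -- the root `β₁` lifting `Frob β̄`
  have hr₁ : ((g.map (residue R)).map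
      (algebraMap (ResidueField R) (ResidueField S))).IsRoot (Frob (residue S β)) := by
    rw [IsRoot.def, Polynomial.eval_map, ← Polynomial.aeval_def, Polynomial.aeval_algHom_apply,
      u784_aeval_residue_eq_zero g β hβ, map_zero]
  obtain ⟨β₁, hβ₁, hres₁⟩ := u784_exists_lift_root g hg hsep _ hr₁
  -- the automorphism
  obtain ⟨φ, hφ⟩ := minpoly.exists_algEquiv_of_root' (K := K) (L := L)
    (x := algebraMap S L β₁) (y := algebraMap S L β)
    (u784_isIntegral (K := K) (L := L) g hg β hβ).isAlgebraic (by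
      rw [u784_minpoly_eq g hg hirr β hβ]
      exact u784_aeval_algebraMap_eq_zero g β₁ hβ₁)
  have hind : u784_Induces φ Frob :=
    u784_induces_of_root hunr g hg hirr hdeg β hβ φ Frob β₁ hφ hres₁
  refine ⟨φ, ?_, ?_⟩
  · intro x
    obtain ⟨y, hy1, hy2⟩ := hind x
    refine ⟨y, hy1, ?_⟩
    rw [← residue_eq_zero_iff, map_sub, map_pow, hy2, hFrob, sub_self]
  · -- generation: the powers `φ ^ i`, `i < n`, are pairwise distinct
    have hinj : ∀ i j : ℕ, i < g.natDegree → j < g.natDegree → φ ^ i = φ ^ j → i = j := by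
      intro i j hi hj hij
      obtain ⟨y, hy1, hy2⟩ := u784_induces_pow hind i β
      obtain ⟨y', hy1', hy2'⟩ := u784_induces_pow hind j β
      have hyy : y = y' := IsFractionRing.injective S L (by rw [hy1, hy1', hij])
      have hF : Frob ^ i = Frob ^ j :=
        u784_algEquiv_ext_of_root g hg hirr hdeg β hβ _ _ (by rw [← hy2, ← hy2', hyy])
      have hb := (FiniteField.bijective_frobeniusAlgEquivOfAlgebraic_pow (ResidueField R)
        (ResidueField S)).1
      have := @hb ⟨i, hdeg ▸ hi⟩ ⟨j, hdeg ▸ hj⟩ hF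
      exact congrArg Fin.val this
    have hcard : Nat.card (L ≃ₐ[K] L) = g.natDegree := by
      rw [IsGalois.card_aut_eq_finrank, u784_finrank_eq hunr g hg hirr hdeg β hβ]
    have hord : g.natDegree ≤ orderOf φ := by
      by_contra hlt
      rw [not_le] at hlt
      have h0 : 0 < orderOf φ := orderOf_pos φ
      have h1 : φ ^ orderOf φ = φ ^ 0 := by rw [pow_orderOf_eq_one, pow_zero]
      have := hinj (orderOf φ) 0 hlt (h0.trans hlt) h1
      omega
    have htop : Subgroup.zpowers φ = ⊤ := by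
      apply Subgroup.eq_top_of_le_card
      rw [Nat.card_zpowers, hcard]
      exact hord
    intro σ
    rw [htop]
    exact Subgroup.mem_top σ

end Frobenius

end Fermat.Agent.S55.L

end
-- ===== PACK-END S55/L/Unram784/Frobenius.lean

-- ===== PACK-BEGIN S55/Cap/H123/IndShapiro.lean
section


/-!
# S55 / A8 (CAP), leaf J1: Shapiro for `Ind_U X` in degree 1 (cochain form)   (helper123)

`G` a group, `U ≤ G` of finite index, `X` a `G`-module, `f : G → Ind_U X` a 1-cocycle.  If the
`U`-cocycle `u ↦ (f u)(1̄)` is the coboundary of `x₀ ∈ X`, then `f` is the coboundary of the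
element `F` of `Ind_U X` with `F (ḡ) = g x₀ - (f g)(ḡ)`.
-/

set_option autoImplicit false
set_option linter.unusedSectionVars false

noncomputable section

namespace Fermat.Agent.S55.Cap.H123

open Fermat.Agent.S55.Cap

variable {G : Type} [Group G] (U : Subgroup G) {X : Type} [AddCommGroup X] [DistribMulAction G X]

/-- the coefficients of `g • F` -/
lemma toF_smul_apply (g : G) (F : IndM U X) (y : G ⧸ U) :
    IndM.toF U (g • F) y = g • IndM.toF U F (g⁻¹ • y) := by
  classical
  induction F using IndM.induction_on with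
  | h0 =>
    rw [smul_zero, map_zero]
    show (0 : X) = g • (0 : X)
    rw [smul_zero]
  | hadd F F' hF hF' =>
    rw [smul_add, map_add, map_add]
    show IndM.toF U (g • F) y + IndM.toF U (g • F') y
      = g • (IndM.toF U F (g⁻¹ • y) + IndM.toF U F' (g⁻¹ • y))
    rw [hF, hF', smul_add]
  | hsingle x a =>
    rw [IndM.smul_single]
    show (Finsupp.single (g • x) (g • a)) y = g • (Finsupp.single x a) (g⁻¹ • y)
    rw [Finsupp.single_apply, Finsupp.single_apply]
    by_cases h : g • x = y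
    · have h' : x = g⁻¹ • y := by rw [← h, inv_smul_smul]
      rw [if_pos h, if_pos h']
    · have h' : ¬ x = g⁻¹ • y := fun hx => h (by rw [hx, smul_inv_smul])
      rw [if_neg h, if_neg h', smul_zero]

lemma toF_add_apply (F F' : IndM U X) (y : G ⧸ U) :
    IndM.toF U (F + F') y = IndM.toF U F y + IndM.toF U F' y := rfl

lemma toF_sub_apply (F F' : IndM U X) (y : G ⧸ U) :
    IndM.toF U (F - F') y = IndM.toF U F y - IndM.toF U F' y := rfl

lemma indM_ext {F F' : IndM U X} (h : ∀ y, IndM.toF U F y = IndM.toF U F' y) : F = F' :=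
  Finsupp.ext h

/-- **Shapiro for `Ind` in degree 1** (cochain form). -/
theorem ind_shapiro₁ [Finite (G ⧸ U)] (f : G → IndM U X)
    (hf : ∀ g h, f (g * h) = f g + g • f h) (x₀ : X)
    (hx₀ : ∀ u ∈ U, IndM.toF U (f u) (QuotientGroup.mk 1) = u • x₀ - x₀) :
    ∃ Q : IndM U X, ∀ g, f g = g • Q - Q := by
  classical
  -- the candidate coefficient, as a function of a representative
  let c : G → X := fun g => g • x₀ - IndM.toF U (f g) (QuotientGroup.mk g)
  have hmk : ∀ (g : G) (u : G), u ∈ U → (QuotientGroup.mk (g * u) : G ⧸ U) = QuotientGroup.mk g := by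
    intro g u hu
    rw [QuotientGroup.eq]
    have : (g * u)⁻¹ * g = u⁻¹ := by group
    rw [this]
    exact U.inv_mem hu
  have hsm : ∀ (g h : G), g • (QuotientGroup.mk h : G ⧸ U) = QuotientGroup.mk (g * h) :=
    fun g h => rfl
  have hc : ∀ (g u : G), u ∈ U → c (g * u) = c g := by
    intro g u hu
    show (g * u) • x₀ - IndM.toF U (f (g * u)) (QuotientGroup.mk (g * u))
      = g • x₀ - IndM.toF U (f g) (QuotientGroup.mk g)
    rw [hmk g u hu, hf g u, toF_add_apply, toF_smul_apply, hsm, inv_mul_cancel, hx₀ u hu,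
      smul_sub, mul_smul]
    abel
  -- the coefficient function on the quotient
  let Fn : G ⧸ U → X := fun y => c (Quotient.out y)
  have hFn : ∀ g : G, Fn (QuotientGroup.mk g) = c g := by
    intro g
    have h1 : (QuotientGroup.mk (Quotient.out (QuotientGroup.mk g : G ⧸ U)) : G ⧸ U)
        = QuotientGroup.mk g := Quotient.out_eq _
    rw [QuotientGroup.eq] at h1
    have h2 : g = Quotient.out (QuotientGroup.mk g : G ⧸ U)
        * ((Quotient.out (QuotientGroup.mk g : G ⧸ U))⁻¹ * g) := by group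
    show c (Quotient.out (QuotientGroup.mk g : G ⧸ U)) = c g
    conv_rhs => rw [h2]
    rw [hc _ _ h1]
  refine ⟨IndM.ofF U (Finsupp.equivFunOnFinite.symm Fn), fun h => ?_⟩
  have hQ : ∀ y, IndM.toF U (IndM.ofF U (Finsupp.equivFunOnFinite.symm Fn)) y = Fn y :=
    fun y => rfl
  apply indM_ext
  intro y
  induction y using QuotientGroup.induction_on with
  | H g =>
    rw [toF_sub_apply, toF_smul_apply, hQ, hQ, hsm, hFn, hFn]
    show IndM.toF U (f h) (QuotientGroup.mk g)
      = h • ((h⁻¹ * g) • x₀ - IndM.toF U (f (h⁻¹ * g)) (QuotientGroup.mk (h⁻¹ * g)))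
        - (g • x₀ - IndM.toF U (f g) (QuotientGroup.mk g))
    have h1 : f g = f h + h • f (h⁻¹ * g) := by
      rw [← hf, mul_inv_cancel_left]
    have h2 : IndM.toF U (f g) (QuotientGroup.mk g)
        = IndM.toF U (f h) (QuotientGroup.mk g)
          + h • IndM.toF U (f (h⁻¹ * g)) (QuotientGroup.mk (h⁻¹ * g)) := by
      conv_lhs => rw [h1]
      rw [toF_add_apply, toF_smul_apply, hsm]
    rw [h2, smul_sub, ← mul_smul, mul_inv_cancel_left]
    abel

end Fermat.Agent.S55.Cap.H123

end
end
-- ===== PACK-END S55/Cap/H123/IndShapiro.lean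

-- ===== PACK-BEGIN S56/P3/H666/IRR.lean
section


/-!
# S56 / P3, piece IRR (helper666): `ad⁰ρ` is irreducible

`ad0Irreducible : Ad0IrreducibleStatement`.

Route: the trace form on `End V` (`dim V = 2`, `2 ≠ 0`) is non-degenerate, so a stable proper
nonzero subspace `W ⊂ ad⁰` gives a stable LINE `k·A` (either `W` or the orthogonal of
`W ⊕ k·1`).  By Cayley–Hamilton `A² = d`.  If `d = 0` then `ker A_K` is a stable line of `K ⊗ V`;
if `d ≠ 0` then the centraliser of `A` has index `≤ 2` and preserves `ker (A_K - λ)`, `λ² = d`.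
-/

set_option autoImplicit false
set_option linter.unusedSectionVars false

open Polynomial Module

namespace Fermat.Agent.S56.P3.H666

section Basic

variable {k : Type} [Field k] {V : Type} [AddCommGroup V] [Module k V] [Module.Finite k V]

/-- The trace form `(A, B) ↦ tr (A B)` on `End V`. -/
noncomputable def trForm (k : Type) [Field k] (V : Type) [AddCommGroup V] [Module k V]
    [Module.Finite k V] : LinearMap.BilinForm k (Module.End k V) :=
  (LinearMap.mul k (Module.End k V)).compr₂ (LinearMap.trace k V)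

theorem trForm_apply (A B : Module.End k V) :
    trForm k V A B = LinearMap.trace k V (A * B) := rfl

/-- The trace form is non-degenerate. -/
theorem trForm_ker : LinearMap.ker (trForm k V) = ⊥ := by
  rw [LinearMap.ker_eq_bot']
  intro A hA
  ext v
  rw [LinearMap.zero_apply, ← Module.forall_dual_apply_eq_zero_iff k]
  intro φ
  have h1 : trForm k V A (φ.smulRight v) = 0 := by rw [hA]; rfl
  rw [trForm_apply] at h1
  have h2 : A * φ.smulRight v = φ.smulRight (A v) := by
    ext x
    simp [LinearMap.smulRight_apply]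
  rw [h2, LinearMap.trace_smulRight] at h1
  exact h1

theorem finrank_end (h2 : finrank k V = 2) : finrank k (Module.End k V) = 4 := by
  rw [Module.finrank_linearMap, h2]

/-- Cayley–Hamilton in dimension two, trace zero. -/
theorem sq_eq_smul_one (h2 : finrank k V = 2) (A : Module.End k V)
    (hA : LinearMap.trace k V A = 0) : ∃ d : k, A * A = d • (1 : Module.End k V) := by
  let b := Module.finBasisOfFinrankEq k V h2
  refine ⟨-LinearMap.det A, ?_⟩
  apply (LinearMap.toMatrixAlgEquiv b).injective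
  have htr : (LinearMap.toMatrixAlgEquiv b A).trace = 0 := by
    rw [← hA, LinearMap.trace_eq_matrix_trace k b]
    rfl
  have hdet : LinearMap.det A = (LinearMap.toMatrixAlgEquiv b A).det := by
    rw [← LinearMap.det_toMatrix b]
    rfl
  rw [map_mul, map_smul, map_one, hdet]
  generalize LinearMap.toMatrixAlgEquiv b A = M at htr
  rw [Matrix.trace_fin_two] at htr
  have h11 : M 1 1 = -M 0 0 := by linear_combination htr
  ext i j
  fin_cases i <;> fin_cases j <;>
    simp [Matrix.mul_apply, Fin.sum_univ_two, Matrix.det_fin_two, h11] <;> ring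

end Basic

section Line

variable {k : Type} [Field k] {V : Type} [AddCommGroup V] [Module k V] [Module.Finite k V]
variable {Γ : Type} [Group Γ]

theorem two_ne_zero_of_char {p : ℕ} (hp : p.Prime) (hp2 : p ≠ 2) (hp0 : (p : k) = 0) :
    (2 : k) ≠ 0 := by
  intro h2
  rcases hp.eq_two_or_odd' with h | ⟨m, hm⟩
  · exact hp2 h
  · have : (p : k) = 1 := by
      rw [hm]
      push_cast
      rw [h2, zero_mul, zero_add]
    rw [hp0] at this
    exact zero_ne_one this

theorem rho_mul_inv (ρ : Γ →* Module.End k V) (g : Γ) : ρ g * ρ g⁻¹ = 1 := by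
  rw [← map_mul, mul_inv_cancel, map_one]

theorem rho_inv_mul (ρ : Γ →* Module.End k V) (g : Γ) : ρ g⁻¹ * ρ g = 1 := by
  rw [← map_mul, inv_mul_cancel, map_one]

/-- The centraliser of `A` in `Γ`. -/
def centr (ρ : Γ →* Module.End k V) (A : Module.End k V) : Subgroup Γ where
  carrier := {g | ρ g * A = A * ρ g}
  one_mem' := by
    show ρ 1 * A = A * ρ 1
    rw [map_one, one_mul, mul_one]
  mul_mem' := by
    intro a b ha hb
    show ρ (a * b) * A = A * ρ (a * b)
    have ha' : ρ a * A = A * ρ a := ha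
    have hb' : ρ b * A = A * ρ b := hb
    rw [map_mul, mul_assoc, hb', ← mul_assoc, ha', mul_assoc]
  inv_mem' := by
    intro a ha
    show ρ a⁻¹ * A = A * ρ a⁻¹
    have ha' : ρ a * A = A * ρ a := ha
    calc ρ a⁻¹ * A = ρ a⁻¹ * A * (ρ a * ρ a⁻¹) := by rw [rho_mul_inv, mul_one]
      _ = ρ a⁻¹ * (A * ρ a) * ρ a⁻¹ := by simp only [mul_assoc]
      _ = ρ a⁻¹ * (ρ a * A) * ρ a⁻¹ := by rw [ha']
      _ = (ρ a⁻¹ * ρ a) * A * ρ a⁻¹ := by simp only [mul_assoc]
      _ = A * ρ a⁻¹ := by rw [rho_inv_mul, one_mul]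

theorem mem_centr {ρ : Γ →* Module.End k V} {A : Module.End k V} {g : Γ} :
    g ∈ centr ρ A ↔ ρ g * A = A * ρ g := Iff.rfl

/-- The index of a subgroup whose complement is "multiplicatively closed into it". -/
theorem index_eq_two_of {G : Subgroup Γ} {g₀ : Γ} (hg₀ : g₀ ∉ G)
    (hmul : ∀ a b : Γ, a ∉ G → b ∉ G → a * b ∈ G) : G.index = 2 := by
  rw [Subgroup.index_eq_two_iff]
  refine ⟨g₀, fun b => ?_⟩
  by_cases hb : b ∈ G
  · right
    refine ⟨hb, fun hbg => hg₀ ?_⟩
    have : g₀ = b⁻¹ * (b * g₀) := by group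
    rw [this]
    exact G.mul_mem (G.inv_mem hb) hbg
  · left
    exact ⟨hmul b g₀ hb hg₀, hb⟩

/-- Nilpotent case: `A ≠ 0`, `A² = 0`, and every conjugate of `A` is a multiple of `A`. -/
theorem line_false_nil (ρ : Γ →* Module.End k V) (p : ℕ) (h : TWHyp ρ p)
    (A : Module.End k V) (hA0 : A ≠ 0) (hsq : A * A = 0)
    (hst : ∀ g : Γ, ∃ c : k, ρ g * A * ρ g⁻¹ = c • A) : False := by
  have hAK0 : A.baseChange (AlgebraicClosure k) ≠ 0 := by
    intro h0
    apply hA0
    apply LinearMap.baseChangeHom_injective k V (AlgebraicClosure k)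
    simpa using h0
  have hAKsq : A.baseChange (AlgebraicClosure k) * A.baseChange (AlgebraicClosure k) = 0 := by
    rw [← LinearMap.baseChange_mul, hsq, LinearMap.baseChange_zero]
  have hcomm : ∀ g : Γ, ∃ c : k, A * ρ g = c • (ρ g * A) := by
    intro g
    obtain ⟨c, hc⟩ := hst g⁻¹
    rw [inv_inv] at hc
    refine ⟨c, ?_⟩
    calc A * ρ g = (ρ g * ρ g⁻¹) * A * ρ g := by rw [rho_mul_inv, one_mul]
      _ = ρ g * (ρ g⁻¹ * A * ρ g) := by simp only [mul_assoc]
      _ = c • (ρ g * A) := by rw [hc, mul_smul_comm]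
  have hstab : ∀ g : Γ, ∀ x ∈ LinearMap.ker (A.baseChange (AlgebraicClosure k)),
      (ρ g).baseChange (AlgebraicClosure k) x ∈
        LinearMap.ker (A.baseChange (AlgebraicClosure k)) := by
    intro g x hx
    rw [LinearMap.mem_ker] at hx ⊢
    obtain ⟨c, hc⟩ := hcomm g
    have h1 : A.baseChange (AlgebraicClosure k) * (ρ g).baseChange (AlgebraicClosure k) =
        c • ((ρ g).baseChange (AlgebraicClosure k) * A.baseChange (AlgebraicClosure k)) := by
      rw [← LinearMap.baseChange_mul, hc, LinearMap.baseChange_smul, LinearMap.baseChange_mul]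
    have h2 := congrArg (fun f : Module.End (AlgebraicClosure k)
      (TensorProduct k (AlgebraicClosure k) V) => f x) h1
    simp only [Module.End.mul_apply, LinearMap.smul_apply, hx, map_zero, smul_zero] at h2
    exact h2
  rcases h.absIrr _ hstab with hb | ht
  · apply hAK0
    refine LinearMap.ext fun x => ?_
    have hx : A.baseChange (AlgebraicClosure k) x ∈
        LinearMap.ker (A.baseChange (AlgebraicClosure k)) := by
      rw [LinearMap.mem_ker]
      exact congrArg (fun f : Module.End (AlgebraicClosure k)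
        (TensorProduct k (AlgebraicClosure k) V) => f x) hAKsq
    rw [hb] at hx
    simpa using hx
  · exact hAK0 (LinearMap.ker_eq_top.mp ht)

/-- In the semisimple case the multiplier is `±1`. -/
theorem conj_cases (ρ : Γ →* Module.End k V) (hfin : finrank k V = 2) (h2 : (2 : k) ≠ 0)
    (A : Module.End k V) (d : k) (hd0 : d ≠ 0) (hsq : A * A = d • (1 : Module.End k V))
    (g : Γ) (c : k) (hc : ρ g * A * ρ g⁻¹ = c • A) :
    ρ g * A = A * ρ g ∨ ρ g * A = -(A * ρ g) := by
  have h1 : (ρ g * A * ρ g⁻¹) * (ρ g * A * ρ g⁻¹) = d • (1 : Module.End k V) := by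
    calc (ρ g * A * ρ g⁻¹) * (ρ g * A * ρ g⁻¹)
        = ρ g * A * (ρ g⁻¹ * ρ g) * A * ρ g⁻¹ := by simp only [mul_assoc]
      _ = ρ g * (A * A) * ρ g⁻¹ := by rw [rho_inv_mul, mul_one]; simp only [mul_assoc]
      _ = d • (1 : Module.End k V) := by
          rw [hsq, mul_smul_comm, mul_one, smul_mul_assoc, rho_mul_inv]
  rw [hc, smul_mul_smul_comm, hsq, smul_smul] at h1
  have h3 := congrArg (LinearMap.trace k V) h1
  rw [map_smul, map_smul, LinearMap.trace_one, hfin, smul_eq_mul, smul_eq_mul] at h3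
  have h4 : ((2 : ℕ) : k) ≠ 0 := by exact_mod_cast h2
  have h5 : c * c * d = d := mul_right_cancel₀ h4 h3
  have h6 : (c - 1) * (c + 1) = 0 := by
    have : (c * c - 1) * d = 0 := by linear_combination h5
    rcases mul_eq_zero.mp this with h | h
    · linear_combination h
    · exact absurd h hd0
  have hmul : ρ g * A = c • (A * ρ g) := by
    calc ρ g * A = ρ g * A * (ρ g⁻¹ * ρ g) := by rw [rho_inv_mul, mul_one]
      _ = (ρ g * A * ρ g⁻¹) * ρ g := by simp only [mul_assoc]
      _ = c • (A * ρ g) := by rw [hc, smul_mul_assoc]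
  rcases mul_eq_zero.mp h6 with h | h
  · left
    have hc1 : c = 1 := by linear_combination h
    rw [hmul, hc1, one_smul]
  · right
    have hc1 : c = -1 := by linear_combination h
    rw [hmul, hc1, neg_one_smul]

/-- Semisimple case: `A² = d ≠ 0`, `tr A = 0`, every conjugate of `A` is a multiple of `A`. -/
theorem line_false_ss (ρ : Γ →* Module.End k V) (p : ℕ) (h : TWHyp ρ p) (h2 : (2 : k) ≠ 0)
    (A : Module.End k V) (hAtr : LinearMap.trace k V A = 0) (d : k) (hd0 : d ≠ 0)
    (hsq : A * A = d • (1 : Module.End k V))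
    (hst : ∀ g : Γ, ∃ c : k, ρ g * A * ρ g⁻¹ = c • A) : False := by
  obtain ⟨lam, hlam⟩ := IsAlgClosed.exists_eq_mul_self (algebraMap k (AlgebraicClosure k) d)
  have hlam0 : lam ≠ 0 := by
    rintro rfl
    rw [mul_zero] at hlam
    exact hd0 ((map_eq_zero _).mp hlam)
  have h2K : (2 : AlgebraicClosure k) ≠ 0 := by
    intro h0
    apply h2
    apply (algebraMap k (AlgebraicClosure k)).injective
    rw [map_ofNat, h0, map_zero]
  have htrAK : LinearMap.trace (AlgebraicClosure k) _ (A.baseChange (AlgebraicClosure k)) = 0 := by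
    rw [LinearMap.trace_baseChange, hAtr, map_zero]
  have hfin : finrank (AlgebraicClosure k) (TensorProduct k (AlgebraicClosure k) V) = 2 := by
    rw [Module.finrank_baseChange, h.finrank_eq]
  have htr1 : LinearMap.trace (AlgebraicClosure k) (TensorProduct k (AlgebraicClosure k) V) 1
      = 2 := by
    rw [LinearMap.trace_one, hfin]
    norm_num
  have hne : ∀ μ : AlgebraicClosure k, μ ≠ 0 →
      A.baseChange (AlgebraicClosure k) ≠
        μ • (1 : Module.End (AlgebraicClosure k) (TensorProduct k (AlgebraicClosure k) V)) := by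
    intro μ hμ he
    have h3 := congrArg (LinearMap.trace (AlgebraicClosure k) _) he
    rw [htrAK, map_smul, htr1, smul_eq_mul] at h3
    exact mul_ne_zero hμ h2K h3.symm
  have hAKsq : A.baseChange (AlgebraicClosure k) * A.baseChange (AlgebraicClosure k) =
      (lam * lam) •
        (1 : Module.End (AlgebraicClosure k) (TensorProduct k (AlgebraicClosure k) V)) := by
    rw [← LinearMap.baseChange_mul, hsq, LinearMap.baseChange_smul, LinearMap.baseChange_one,
      ← hlam, algebraMap_smul]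
  have hprod : ∀ x, (A.baseChange (AlgebraicClosure k) - lam • 1)
      ((A.baseChange (AlgebraicClosure k) + lam • 1) x) = 0 := by
    intro x
    have h3 := congrArg (fun f : Module.End (AlgebraicClosure k)
      (TensorProduct k (AlgebraicClosure k) V) => f x) hAKsq
    simp only [Module.End.mul_apply, LinearMap.smul_apply, Module.End.one_apply] at h3
    simp only [LinearMap.sub_apply, LinearMap.add_apply, LinearMap.smul_apply,
      Module.End.one_apply, map_add, map_smul, h3]
    module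
  -- the stabiliser
  have hstab : ∀ g ∈ centr ρ A, ∀ x ∈ LinearMap.ker (A.baseChange (AlgebraicClosure k) - lam • 1),
      (ρ g).baseChange (AlgebraicClosure k) x ∈
        LinearMap.ker (A.baseChange (AlgebraicClosure k) - lam • 1) := by
    intro g hg x hx
    rw [LinearMap.mem_ker] at hx ⊢
    have hg' : ρ g * A = A * ρ g := hg
    have h1 : (ρ g).baseChange (AlgebraicClosure k) * A.baseChange (AlgebraicClosure k) =
        A.baseChange (AlgebraicClosure k) * (ρ g).baseChange (AlgebraicClosure k) := by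
      rw [← LinearMap.baseChange_mul, hg', LinearMap.baseChange_mul]
    have h3 := congrArg (fun f : Module.End (AlgebraicClosure k)
      (TensorProduct k (AlgebraicClosure k) V) => f x) h1
    simp only [Module.End.mul_apply] at h3
    simp only [LinearMap.sub_apply, LinearMap.smul_apply, Module.End.one_apply] at hx ⊢
    rw [← h3, ← map_smul, ← map_sub, hx, map_zero]
  have hWbot : LinearMap.ker (A.baseChange (AlgebraicClosure k) - lam • 1) ≠ ⊥ := by
    intro hb
    apply hne (-lam) (neg_ne_zero.mpr hlam0)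
    refine LinearMap.ext fun x => ?_
    have hx : (A.baseChange (AlgebraicClosure k) + lam • 1) x ∈
        LinearMap.ker (A.baseChange (AlgebraicClosure k) - lam • 1) := by
      rw [LinearMap.mem_ker]
      exact hprod x
    rw [hb, Submodule.mem_bot] at hx
    simp only [LinearMap.add_apply, LinearMap.smul_apply, Module.End.one_apply] at hx
    simp only [LinearMap.smul_apply, Module.End.one_apply, neg_smul]
    exact eq_neg_of_add_eq_zero_left hx
  have hWtop : LinearMap.ker (A.baseChange (AlgebraicClosure k) - lam • 1) ≠ ⊤ := by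
    intro ht
    apply hne lam hlam0
    exact sub_eq_zero.mp (LinearMap.ker_eq_top.mp ht)
  by_cases hall : ∀ g : Γ, g ∈ centr ρ A
  · rcases h.absIrr _ (fun g => hstab g (hall g)) with hb | ht
    · exact hWbot hb
    · exact hWtop ht
  · push Not at hall
    obtain ⟨g₀, hg₀⟩ := hall
    have hidx : (centr ρ A).index = 2 := by
      refine index_eq_two_of hg₀ ?_
      intro a b ha hb
      obtain ⟨ca, hca⟩ := hst a
      obtain ⟨cb, hcb⟩ := hst b
      have ha' : ρ a * A = -(A * ρ a) := by
        rcases conj_cases ρ h.finrank_eq h2 A d hd0 hsq a ca hca with h' | h'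
        · exact absurd h' ha
        · exact h'
      have hb' : ρ b * A = -(A * ρ b) := by
        rcases conj_cases ρ h.finrank_eq h2 A d hd0 hsq b cb hcb with h' | h'
        · exact absurd h' hb
        · exact h'
      show ρ (a * b) * A = A * ρ (a * b)
      rw [map_mul, mul_assoc, hb', mul_neg, ← mul_assoc, ha', neg_mul, neg_neg, mul_assoc]
    rcases h.tw (AlgebraicClosure k) (centr ρ A) hidx _ hstab with hb | ht
    · exact hWbot hb
    · exact hWtop ht

/-- **The line case.** -/
theorem line_false (ρ : Γ →* Module.End k V) (p : ℕ) [hp : Fact p.Prime] (hp2 : p ≠ 2)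
    (h : TWHyp ρ p) (A : Module.End k V) (hA0 : A ≠ 0) (hAtr : LinearMap.trace k V A = 0)
    (hst : ∀ g : Γ, ∃ c : k, ρ g * A * ρ g⁻¹ = c • A) : False := by
  obtain ⟨d, hd⟩ := sq_eq_smul_one h.finrank_eq A hAtr
  by_cases hd0 : d = 0
  · rw [hd0, zero_smul] at hd
    exact line_false_nil ρ p h A hA0 hd hst
  · exact line_false_ss ρ p h (two_ne_zero_of_char hp.out hp2 h.char_p) A hAtr d hd0 hd hst

end Line

section Main

variable {k : Type} [Field k] {V : Type} [AddCommGroup V] [Module k V] [Module.Finite k V]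
variable {Γ : Type} [Group Γ]

/-- A stable subspace of trace-zero endomorphisms is not a line. -/
theorem finrank_ne_one (ρ : Γ →* Module.End k V) (p : ℕ) [Fact p.Prime] (hp2 : p ≠ 2)
    (h : TWHyp ρ p) (W : Submodule k (Module.End k V))
    (hWtr : ∀ A ∈ W, LinearMap.trace k V A = 0)
    (hWst : ∀ g : Γ, ∀ A ∈ W, ρ g * A * ρ g⁻¹ ∈ W) : finrank k W ≠ 1 := by
  intro h1
  obtain ⟨⟨A, hA⟩, hA0, hspan⟩ := finrank_eq_one_iff'.mp h1
  refine line_false ρ p hp2 h A (fun h0 => hA0 (Subtype.ext h0)) (hWtr A hA) (fun g => ?_)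
  obtain ⟨c, hc⟩ := hspan ⟨_, hWst g A hA⟩
  exact ⟨c, (congrArg Subtype.val hc).symm⟩

/-- **IRR**: `ad⁰ρ` is irreducible. -/
theorem ad0Irreducible : Ad0IrreducibleStatement := by
  intro k _ V _ _ _ Γ _ ρ p hp hp2 h W hWtr hWst hW0 A hA
  have h2 : (2 : k) ≠ 0 := two_ne_zero_of_char hp.out hp2 h.char_p
  have htr1 : LinearMap.trace k V 1 = 2 := by
    rw [LinearMap.trace_one, h.finrank_eq]
    norm_num
  have hone : (1 : Module.End k V) ≠ 0 := by
    intro h0
    rw [h0, map_zero] at htr1
    exact h2 htr1.symm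
  have hdisj : W ⊓ Submodule.span k {(1 : Module.End k V)} = ⊥ := by
    rw [Submodule.eq_bot_iff]
    rintro x ⟨hxW, hx1⟩
    obtain ⟨t, rfl⟩ := Submodule.mem_span_singleton.mp hx1
    have h3 := hWtr _ hxW
    rw [map_smul, htr1, smul_eq_mul] at h3
    rcases mul_eq_zero.mp h3 with ht | ht
    · rw [ht, zero_smul]
    · exact absurd ht h2
  have hfU : finrank k ↥(W ⊔ Submodule.span k {(1 : Module.End k V)}) = finrank k W + 1 := by
    have h3 := Submodule.finrank_sup_add_finrank_inf_eq W
      (Submodule.span k {(1 : Module.End k V)})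
    rw [hdisj, finrank_bot, add_zero, finrank_span_singleton hone] at h3
    exact h3
  have horth := LinearMap.BilinForm.finrank_add_finrank_orthogonal' (B := trForm k V)
    (W ⊔ Submodule.span k {(1 : Module.End k V)})
  rw [trForm_ker, inf_bot_eq, finrank_bot, add_zero, finrank_end h.finrank_eq, hfU] at horth
  have hWpos : 0 < finrank k W := by
    rw [Module.finrank_pos_iff]
    exact Submodule.nontrivial_iff_ne_bot.mpr hW0
  have hW1 : finrank k W ≠ 1 := finrank_ne_one ρ p hp2 h W hWtr hWst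
  have hUst : ∀ g : Γ, ∀ n ∈ W ⊔ Submodule.span k {(1 : Module.End k V)},
      ρ g * n * ρ g⁻¹ ∈ W ⊔ Submodule.span k {(1 : Module.End k V)} := by
    intro g n hn
    obtain ⟨w, hw, z, hz, rfl⟩ := Submodule.mem_sup.mp hn
    obtain ⟨t, rfl⟩ := Submodule.mem_span_singleton.mp hz
    have h3 : ρ g * (w + t • 1) * ρ g⁻¹ = ρ g * w * ρ g⁻¹ + t • 1 := by
      rw [mul_add, add_mul, mul_smul_comm, mul_one, smul_mul_assoc, rho_mul_inv]
    rw [h3]
    exact Submodule.add_mem _ (Submodule.mem_sup_left (hWst g w hw))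
      (Submodule.mem_sup_right (Submodule.smul_mem _ _ (Submodule.mem_span_singleton_self 1)))
  have hO1 : finrank k
      ↥((trForm k V).orthogonal (W ⊔ Submodule.span k {(1 : Module.End k V)})) ≠ 1 := by
    refine finrank_ne_one ρ p hp2 h _ ?_ ?_
    · intro C hC
      have h3 := hC 1 (Submodule.mem_sup_right (Submodule.mem_span_singleton_self 1))
      rw [trForm_apply, one_mul] at h3
      exact h3
    · intro g C hC n hn
      rw [trForm_apply]
      have h3 := hC _ (hUst g⁻¹ n hn)
      rw [inv_inv, trForm_apply] at h3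
      rw [← h3]
      calc LinearMap.trace k V (n * (ρ g * C * ρ g⁻¹))
          = LinearMap.trace k V ((n * ρ g * C) * ρ g⁻¹) := by simp only [mul_assoc]
        _ = LinearMap.trace k V (ρ g⁻¹ * (n * ρ g * C)) := LinearMap.trace_mul_comm k _ _
        _ = LinearMap.trace k V (ρ g⁻¹ * n * ρ g * C) := by simp only [mul_assoc]
  have hf3 : finrank k W = 3 := by omega
  have hUtop : W ⊔ Submodule.span k {(1 : Module.End k V)} = ⊤ :=
    Submodule.eq_top_of_finrank_eq (by rw [hfU, hf3, finrank_end h.finrank_eq])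
  have hAU : A ∈ W ⊔ Submodule.span k {(1 : Module.End k V)} := by
    rw [hUtop]
    trivial
  obtain ⟨w, hw, z, hz, rfl⟩ := Submodule.mem_sup.mp hAU
  obtain ⟨t, rfl⟩ := Submodule.mem_span_singleton.mp hz
  have ht : t = 0 := by
    rw [map_add, hWtr w hw, zero_add, map_smul, htr1, smul_eq_mul] at hA
    rcases mul_eq_zero.mp hA with ht | ht
    · exact ht
    · exact absurd ht h2
  rw [ht, zero_smul, add_zero]
  exact hw

end Main

end Fermat.Agent.S56.P3.H666

end
-- ===== PACK-END S56/P3/H666/IRR.lean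

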