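import Mathlib
import Fermat.Agent.Pack.S43GC.G0E5L3
import Fermat.Agent.Pack.S43GC.G0E0L0
import Fermat.Agent.Pack.S43GC.G0E3L3
import Fermat.Agent.Pack.S43GC.G0E5L0
import Fermat.Agent.Pack.S43GC.G0E5L1
import Fermat.Agent.Pack.S43GC.G0E6L3
import Fermat.Agent.Pack.S43GC.G0E6L1
import Fermat.Agent.Pack.S43GC.G0E5L2
import Fermat.Agent.Pack.S43GC.G0E0L1
import Fermat.Agent.Pack.S43GC.G0E6L2
import Fermat.Agent.Pack.S43GC.G0E1L0
import Fermat.Agent.Pack.S43GC.G0E6L0
import Fermat.Agent.Pack.S43GC.G0E3L1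
import Fermat.Agent.Pack.S43GC.G0E7L0
import Fermat.Agent.Pack.Fast891

-- ===== PACK-BEGIN S55/G/Rec/Spec2.lean
section


/-!
# S55 / layer G / block REC : leaf statements of the NORM ROUTE  (blueprint §N of coord/S55-G-REC.md)

Goal of the block:  `theorem reciprocity_of (hHP : HassePrincipleSpec p) (I : LocalInvSystem) :
ReciprocitySpec I p`  (p odd).  Every `def XxxSpec : Prop` below is a leaf: prove
`theorem xxx : XxxSpec` in `Fermat/Agent/S55/G/Rec/<Leaf>H<seat>.lean`.

Blocks:  KEY (cup classes),  LOC (local arithmetic in `PadicAlgCl q`),  GLOB (orbits, norms),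
STEP (assembly A, B, C).
-/

set_option autoImplicit false

noncomputable section

namespace Fermat.Agent.S55.G.Rec

open groupCohomology

local notation "Qb" => AlgebraicClosure ℚ
local notation "GQ" => (AlgebraicClosure ℚ ≃ₐ[ℚ] AlgebraicClosure ℚ)

/-! ## Block KEY : cup classes -/

/-- (K1) localisation of a global cup class is the local cup class. -/
def CupLocSpec : Prop :=
  ∀ (q : ℕ) [Fact q.Prime] (g : GQ) (U : Subgroup GQ) (n : ℕ)
    (χ : ↥U →* Multiplicative (ZMod n)) (a : Qbˣ),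
    n ≠ 0 → IsLevelConstant₁ U.subtype χ → GFixed U a →
    (IsLevelConstant₁ (lHom q (locSub q g U)) (χ.comp (locHom q g U)) ∧
      LFixed q (locSub q g U) (locPushMul q g a)) ∧
    locBr q g U (gcc U n χ a) =
      lcc q (locSub q g U) n (χ.comp (locHom q g U)) (locPushMul q g a)

/-- (K2) additivity of cup classes in the element and in the character (global and local). -/
def CupAddSpec : Prop :=
  (∀ (U : Subgroup GQ) (n : ℕ) (χ χ' : ↥U →* Multiplicative (ZMod n)) (a b : Qbˣ),
    n ≠ 0 → IsLevelConstant₁ U.subtype χ → IsLevelConstant₁ U.subtype χ' →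
    GFixed U a → GFixed U b →
      gcc U n χ (a * b) = gcc U n χ a + gcc U n χ b ∧
      gcc U n (χ * χ') a = gcc U n χ a + gcc U n χ' a) ∧
  (∀ (q : ℕ) [Fact q.Prime] (V : Subgroup (PadicAlgCl q ≃ₐ[ℚ_[q]] PadicAlgCl q)) (n : ℕ)
    (χ χ' : ↥V →* Multiplicative (ZMod n)) (a b : (PadicAlgCl q)ˣ),
    n ≠ 0 → IsLevelConstant₁ (lHom q V) χ → IsLevelConstant₁ (lHom q V) χ' →
    LFixed q V a → LFixed q V b →
      lcc q V n χ (a * b) = lcc q V n χ a + lcc q V n χ b ∧
      lcc q V n (χ * χ') a = lcc q V n χ a + lcc q V n χ' a)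

/-- (K4) GLOBAL CYCLIC SPLITTING (inflation–restriction + Hilbert 90 + cyclic periodicity):
a class of `Br(K)` which dies in `Br(L)`, `L/K` cyclic, is a cup class `a ∪ δχ`, where `χ` is
ANY prescribed surjective character with kernel `Gal(ℚ̄/L)`. -/
def CyclicSplitSpec : Prop :=
  ∀ (U : Subgroup GQ), IsOpenQ U → ∀ (n : ℕ) [NeZero n] (χ : ↥U →* Multiplicative (ZMod n)),
    IsLevelConstant₁ U.subtype χ → Function.Surjective χ →
    ∀ x : gBr U, gRes (U := U) (U' := χ.ker.map U.subtype) (Subgroup.map_subtype_le _) x = 0 →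
      ∃ a : Qbˣ, GFixed U a ∧ x = gcc U n χ a

/-- (K5) LOCAL NORM CRITERION (hard direction): if the local cup class `a ∪ δχ` vanishes then `a`
is a norm from the fixed field of `ker χ` (`χ` need not be surjective). -/
def LocalNormSpec : Prop :=
  ∀ (q : ℕ) [Fact q.Prime] (V : Subgroup (PadicAlgCl q ≃ₐ[ℚ_[q]] PadicAlgCl q)),
    IsOpenL q V → ∀ (n : ℕ) [NeZero n] (χ : ↥V →* Multiplicative (ZMod n)),
    IsLevelConstant₁ (lHom q V) χ → ∀ a : (PadicAlgCl q)ˣ, LFixed q V a →
    lcc q V n χ a = 0 →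
      ∃ b : (PadicAlgCl q)ˣ, LFixed q (χ.ker.map V.subtype) b ∧
        a = relNorm (G := ↥V) χ.ker b

/-! ## Block LOC : local arithmetic -/

/-- (L1) `‖a‖ ^ [G_{ℚ_q} : V] = q ^ (- vdeg)` for `a` in the fixed field of an open `V`. -/
def VdegSpec : Prop :=
  ∀ (q : ℕ) [Fact q.Prime] (V : Subgroup (PadicAlgCl q ≃ₐ[ℚ_[q]] PadicAlgCl q)),
    IsOpenL q V → ∀ a : (PadicAlgCl q)ˣ, LFixed q V a →
      ‖(a : PadicAlgCl q)‖ ^ V.index = (q : ℝ) ^ (- vdeg q V a)

/-- (L2) local structure: Frobenius elements and uniformizers exist; `vdeg = f · ord`. -/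
def LocalStructureSpec : Prop :=
  ∀ (q : ℕ) [Fact q.Prime] (V : Subgroup (PadicAlgCl q ≃ₐ[ℚ_[q]] PadicAlgCl q)),
    IsOpenL q V →
      ∃ (f : ℕ) (φ : PadicAlgCl q ≃ₐ[ℚ_[q]] PadicAlgCl q) (π : (PadicAlgCl q)ˣ),
        IsResidueDegree q V f ∧ φ ∈ V ∧
        (∀ x : PadicAlgCl q, ‖x‖ ≤ 1 → ‖φ x - x ^ (q ^ f)‖ < 1) ∧
        IsUniformizer q V (π : PadicAlgCl q) ∧ vdeg q V π = f ∧
        ∀ a : (PadicAlgCl q)ˣ, LFixed q V a →
          ∃ (k : ℤ) (u : (PadicAlgCl q)ˣ), LFixed q V u ∧ ‖(u : PadicAlgCl q)‖ = 1 ∧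
            a = π ^ k * u ∧ vdeg q V a = f * k

/-- (L3) UNRAMIFIED FORMULA: for an unramified continuous character `χ` of `V`, a Frobenius `φ`
with residue degree `f` and `a ∈ K_vˣ`:  `inv (a ∪ δχ) = ord_v(a) · χ(φ) / n`, `vdeg a = f · ord_v a`. -/
def UnramCupSpec (I : LocalInvSystem) : Prop :=
  ∀ (q : ℕ) [Fact q.Prime] (V : Subgroup (PadicAlgCl q ≃ₐ[ℚ_[q]] PadicAlgCl q)),
    IsOpenL q V → ∀ (n : ℕ) [NeZero n] (χ : ↥V →* Multiplicative (ZMod n)),
    IsLevelConstant₁ (lHom q V) χ →
    (∀ τ : ↥V, IsInertial q (τ : PadicAlgCl q ≃ₐ[ℚ_[q]] PadicAlgCl q) → χ τ = 1) →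
    ∀ (f : ℕ), IsResidueDegree q V f →
    ∀ (φ : ↥V), (∀ x : PadicAlgCl q, ‖x‖ ≤ 1 →
      ‖(φ : PadicAlgCl q ≃ₐ[ℚ_[q]] PadicAlgCl q) x - x ^ (q ^ f)‖ < 1) →
    ∀ (a : (PadicAlgCl q)ˣ), LFixed q V a → ∀ k : ℤ, vdeg q V a = f * k →
      I.inv q V (lcc q V n χ a) =
        ((((k : ℚ) * ((chiAdd χ φ).val : ℚ) / (n : ℚ) : ℚ)) : AddCircle (1 : ℚ))

/-- (L4) cyclotomic characters away from `q`: inertial elements act trivially on `μ_m` and a
Frobenius with residue degree `f` acts by `ζ ↦ ζ ^ (q ^ f)`  (`q ∤ m`). -/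
def CycloFrobSpec : Prop :=
  ∀ (q : ℕ) [Fact q.Prime] (m : ℕ), ¬ q ∣ m →
    (∀ τ : PadicAlgCl q ≃ₐ[ℚ_[q]] PadicAlgCl q, IsInertial q τ →
      ∀ ζ : PadicAlgCl q, ζ ^ m = 1 → τ ζ = ζ) ∧
    (∀ (τ : PadicAlgCl q ≃ₐ[ℚ_[q]] PadicAlgCl q) (f : ℕ),
      (∀ x : PadicAlgCl q, ‖x‖ ≤ 1 → ‖τ x - x ^ (q ^ f)‖ < 1) →
      ∀ ζ : PadicAlgCl q, ζ ^ m = 1 → τ ζ = ζ ^ (q ^ f))

/-- (L5) NORMS FROM LOCAL CYCLOTOMIC FIELDS: `ℓ` an odd prime, `m = ℓ ^ e`, `W ≤ G_{ℚ_ℓ}` a subgroup
containing the group of `ℚ̄_ℓ/ℚ_ℓ(μ_m)`, `b` in the fixed field `E` of `W`.  Then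
`N_{E/ℚ_ℓ}(b) = ± ℓ^k · u` with `u ≡ t mod m`, where `t` is the cyclotomic value of some `τ ∈ W`
(`τ ζ = ζ ^ t` on `μ_m`). -/
def LocalCycloNormSpec : Prop :=
  ∀ (ℓ : ℕ) [Fact ℓ.Prime], ℓ ≠ 2 → ∀ (e : ℕ), 0 < e →
    ∀ W : Subgroup (PadicAlgCl ℓ ≃ₐ[ℚ_[ℓ]] PadicAlgCl ℓ),
    (∀ τ : PadicAlgCl ℓ ≃ₐ[ℚ_[ℓ]] PadicAlgCl ℓ,
      (∀ ζ : PadicAlgCl ℓ, ζ ^ (ℓ ^ e) = 1 → τ ζ = ζ) → τ ∈ W) →
    ∀ b : (PadicAlgCl ℓ)ˣ, LFixed ℓ W b →
      ∃ (k : ℤ) (s : ℤˣ) (t : ℕ) (τ : PadicAlgCl ℓ ≃ₐ[ℚ_[ℓ]] PadicAlgCl ℓ), τ ∈ W ∧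
        (∀ ζ : PadicAlgCl ℓ, ζ ^ (ℓ ^ e) = 1 → τ ζ = ζ ^ t) ∧
        ‖((relNorm W b : (PadicAlgCl ℓ)ˣ) : PadicAlgCl ℓ) -
            ((s : ℤ) : PadicAlgCl ℓ) * (ℓ : PadicAlgCl ℓ) ^ k * (t : PadicAlgCl ℓ)‖
          ≤ ‖(ℓ : PadicAlgCl ℓ)‖ ^ (k + e)

/-- (L6) roots of elements close to `1`: `‖a - 1‖ < 1`, `q ∤ n` ⇒ `a` is an `n`-th power in `K_v`. -/
def LocalRootSpec : Prop :=
  ∀ (q : ℕ) [Fact q.Prime] (V : Subgroup (PadicAlgCl q ≃ₐ[ℚ_[q]] PadicAlgCl q))
    (n : ℕ), ¬ q ∣ n → ∀ a : (PadicAlgCl q)ˣ, LFixed q V a → ‖(a : PadicAlgCl q) - 1‖ < 1 →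
      ∃ b : (PadicAlgCl q)ˣ, LFixed q V b ∧ b ^ n = a

/-! ## Block GLOB : orbits, norms, approximation, support -/

/-- (G1) the global norm is rational and is the product of the local norms:
`ι_q (N_{K/ℚ} a) = ∏_{v | q} N_{K_v/ℚ_q} (a_v)`. -/
def OrbitNormSpec : Prop :=
  ∀ (U : Subgroup GQ), IsOpenQ U → ∀ a : Qbˣ, GFixed U a →
    (∃ y : ℚˣ, ((relNorm U a : Qbˣ) : Qb) = algebraMap ℚ Qb (y : ℚ)) ∧
    ∀ (q : ℕ) [Fact q.Prime] (R : Finset GQ),
      IsDoubleCosetReps U (localGaloisToGlobal q).range R →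
        locPushMul q 1 (relNorm U a) = ∏ r ∈ R, relNorm (locSub q r U) (locPushMul q r a)

/-- (G1') product formula in degree-valuation form: `v_q (N_{K/ℚ} a) = ∑_{v | q} vdeg_v (a)`. -/
def ProductFormulaSpec : Prop :=
  ∀ (U : Subgroup GQ), IsOpenQ U → ∀ a : Qbˣ, GFixed U a →
    ∀ y : ℚˣ, ((relNorm U a : Qbˣ) : Qb) = algebraMap ℚ Qb (y : ℚ) →
    ∀ (q : ℕ) [Fact q.Prime] (R : Finset GQ),
      IsDoubleCosetReps U (localGaloisToGlobal q).range R →
        padicValRat q (y : ℚ) = ∑ r ∈ R, vdeg q (locSub q r U) (locPushMul q r a)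

/-- (G3) weak approximation in `K = ℚ̄^U`: prescribed valuations at the places above `p` and
closeness to `1` at the places above another prime `r`. -/
def WeakApproxSpec : Prop :=
  ∀ (U : Subgroup GQ), IsOpenQ U → ∀ (p r : ℕ) [Fact p.Prime] [Fact r.Prime], p ≠ r →
    ∀ (Rp : Finset GQ), IsDoubleCosetReps U (localGaloisToGlobal p).range Rp →
    ∀ (j : GQ → ℤ), ∃ a : Qbˣ, GFixed U a ∧
      (∀ g ∈ Rp, ∃ (π : (PadicAlgCl p)ˣ) (u : (PadicAlgCl p)ˣ),
        IsUniformizer p (locSub p g U) (π : PadicAlgCl p) ∧ ‖(u : PadicAlgCl p)‖ = 1 ∧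
        locPushMul p g a = π ^ (j g) * u) ∧
      (∀ g : GQ, ‖((locPushMul r g a : (PadicAlgCl r)ˣ) : PadicAlgCl r) - 1‖ < 1)

/-- (G4) finiteness of the support (uses only `inv_unram`, `inv_injective`). -/
def SupportFiniteSpec : Prop :=
  LocalInvSystem → ∀ (U : Subgroup GQ), IsOpenQ U → ∀ x : gBr U,
    {q : Nat.Primes | ∃ g : GQ,
      haveI : Fact (q : ℕ).Prime := ⟨q.2⟩
      locBr (q : ℕ) g U x ≠ 0}.Finite

/-- (G5) localisation commutes with restriction. -/
def LocResSpec : Prop :=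
  ∀ (q : ℕ) [Fact q.Prime] (g : GQ) (U U' : Subgroup GQ) (h : U' ≤ U) (x : gBr U),
    locBr q g U' (gRes h x) =
      lRes q (V := locSub q g U) (V' := locSub q g U')
        (fun _ hτ => h hτ) (locBr q g U x)

/-! ## Block STEP : assembly -/

/-- The sum of all local invariants of a global class, for a choice `R` of representatives. -/
def LocalInvSystem.sumInv (I : LocalInvSystem) (U : Subgroup GQ) (R : Nat.Primes → Finset GQ)
    (x : gBr U) : AddCircle (1 : ℚ) :=
  ∑ᶠ q : Nat.Primes, ∑ r ∈ R q, I.invAt q r U x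

/-- `R` is a system of representatives of the places of `ℚ̄^U`. -/
def IsPlaceReps (U : Subgroup GQ) (R : Nat.Primes → Finset GQ) : Prop :=
  ∀ q : Nat.Primes,
    haveI : Fact (q : ℕ).Prime := ⟨q.2⟩
    IsDoubleCosetReps U (localGaloisToGlobal (q : ℕ)).range (R q)

/-- (STEP A) cyclotomic sum formula: for a cup class with a character of odd order `n` which is
cyclotomic mod `m = ℓ ^ e`, locally trivial at all places above `ℓ`, the sum of the local
invariants vanishes. -/
def CycloSumSpec (I : LocalInvSystem) : Prop :=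
  ∀ (U : Subgroup GQ), IsOpenQ U → ∀ (ℓ : ℕ) [Fact ℓ.Prime], ℓ ≠ 2 → ∀ (e : ℕ), 0 < e →
    ∀ (n : ℕ), Odd n → ∀ (χ : ↥U →* Multiplicative (ZMod n)),
    IsLevelConstant₁ U.subtype χ → IsCycloChar U (ℓ ^ e) χ →
    ∀ a : Qbˣ, GFixed U a →
    (∀ g : GQ, locBr ℓ g U (gcc U n χ a) = 0) →
    ∀ R : Nat.Primes → Finset GQ, IsPlaceReps U R → I.sumInv U R (gcc U n χ a) = 0

/-- (STEP B) classes of `p`-power order which are trivial at the places above `p`. -/
def TrivAbovePSpec (I : LocalInvSystem) (p : ℕ) [Fact p.Prime] : Prop :=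
  ∀ (U : Subgroup GQ), IsOpenQ U → ∀ x : gBr U, (∃ k : ℕ, p ^ k • x = 0) →
    (∀ g : GQ, locBr p g U x = 0) →
    ∀ R : Nat.Primes → Finset GQ, IsPlaceReps U R → I.sumInv U R x = 0

/-- (STEP C) killing the components above `p` by a cup class with vanishing sum. -/
def KillAbovePSpec (I : LocalInvSystem) (p : ℕ) [Fact p.Prime] : Prop :=
  ∀ (U : Subgroup GQ), IsOpenQ U → ∀ x : gBr U, (∃ k : ℕ, p ^ k • x = 0) →
    ∃ y : gBr U, (∃ k : ℕ, p ^ k • y = 0) ∧ (∀ g : GQ, locBr p g U (x - y) = 0) ∧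
      ∀ R : Nat.Primes → Finset GQ, IsPlaceReps U R → I.sumInv U R y = 0

end Fermat.Agent.S55.G.Rec

end
end
-- ===== PACK-END S55/G/Rec/Spec2.lean

-- ===== PACK-BEGIN S55/Bridge/Reduce.lean
section




/-!
# S55 bridge: reduction of the frozen statement to a dimension count

`S55` (existence of a two-sided nondegenerate pairing `Ш¹_S(M^∨(1)) × Ш²_S(M) → 𝔽_p`) follows from
either of
* `Ш²_S(M)` finite-dimensional and `finrank Ш¹ = finrank Ш²` (with `Ш¹` finite-dimensional), or
* a linear equivalence `Ш¹_S(M^∨(1)) ≃ Dual (Ш²_S(M))`, or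
* injective linear maps `Ш¹ → Dual Ш²` and `Ш² → Dual Ш¹` with `Ш²` finite-dimensional.
-/

set_option autoImplicit false

namespace Fermat.Agent.S55.Bridge

open groupCohomology ExtCitation Module

variable {p : ℕ} [Fact p.Prime] (S : Finset Nat.Primes)
  (M : Rep.{0, 0, 0} (ZMod p) (AlgebraicClosure ℚ ≃ₐ[ℚ] AlgebraicClosure ℚ))

/-- The conclusion of S55 from a dimension count. -/
theorem pairing_of_finrank_eq
    (h1 : FiniteDimensional (ZMod p) (sha₁ S (M.dualTwist (cycloChar p))))
    (h2 : FiniteDimensional (ZMod p) (sha₂ S M))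
    (h : finrank (ZMod p) (sha₁ S (M.dualTwist (cycloChar p))) = finrank (ZMod p) (sha₂ S M)) :
    ∃ B : sha₁ S (M.dualTwist (cycloChar p)) →ₗ[ZMod p] sha₂ S M →ₗ[ZMod p] ZMod p,
      (∀ y, (∀ x, B y x = 0) → y = 0) ∧ (∀ x, (∀ y, B y x = 0) → x = 0) :=
  exists_pairing_of_finrank_eq h

/-- The conclusion of S55 from an isomorphism with the dual. -/
theorem pairing_of_equiv_dual
    (e : sha₁ S (M.dualTwist (cycloChar p)) ≃ₗ[ZMod p] Module.Dual (ZMod p) (sha₂ S M)) :
    ∃ B : sha₁ S (M.dualTwist (cycloChar p)) →ₗ[ZMod p] sha₂ S M →ₗ[ZMod p] ZMod p,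
      (∀ y, (∀ x, B y x = 0) → y = 0) ∧ (∀ x, (∀ y, B y x = 0) → x = 0) :=
  exists_pairing_of_equiv_dual e

/-- The conclusion of S55 from two injections into duals. -/
theorem pairing_of_injective
    (h2 : FiniteDimensional (ZMod p) (sha₂ S M))
    (f : sha₁ S (M.dualTwist (cycloChar p)) →ₗ[ZMod p] Module.Dual (ZMod p) (sha₂ S M))
    (hf : Function.Injective f)
    (g : sha₂ S M →ₗ[ZMod p] Module.Dual (ZMod p) (sha₁ S (M.dualTwist (cycloChar p))))
    (hg : Function.Injective g) :
    ∃ B : sha₁ S (M.dualTwist (cycloChar p)) →ₗ[ZMod p] sha₂ S M →ₗ[ZMod p] ZMod p,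
      (∀ y, (∀ x, B y x = 0) → y = 0) ∧ (∀ x, (∀ y, B y x = 0) → x = 0) :=
  exists_pairing_of_injective f hf g hg

/-- Transport along linear equivalences: if `Ш¹ ≃ V`, `Ш² ≃ W` and `V`, `W` are
finite-dimensional of the same dimension, S55 follows. -/
theorem pairing_of_equivs {V W : Type} [AddCommGroup V] [Module (ZMod p) V]
    [AddCommGroup W] [Module (ZMod p) W] [FiniteDimensional (ZMod p) V]
    [FiniteDimensional (ZMod p) W]
    (e1 : sha₁ S (M.dualTwist (cycloChar p)) ≃ₗ[ZMod p] V) (e2 : sha₂ S M ≃ₗ[ZMod p] W)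
    (h : finrank (ZMod p) V = finrank (ZMod p) W) :
    ∃ B : sha₁ S (M.dualTwist (cycloChar p)) →ₗ[ZMod p] sha₂ S M →ₗ[ZMod p] ZMod p,
      (∀ y, (∀ x, B y x = 0) → y = 0) ∧ (∀ x, (∀ y, B y x = 0) → x = 0) := by
  haveI : FiniteDimensional (ZMod p) (sha₁ S (M.dualTwist (cycloChar p))) :=
    e1.symm.finiteDimensional
  haveI : FiniteDimensional (ZMod p) (sha₂ S M) := e2.symm.finiteDimensional
  apply exists_pairing_of_finrank_eq
  rw [e1.finrank_eq, e2.finrank_eq, h]

end Fermat.Agent.S55.Bridge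

end
-- ===== PACK-END S55/Bridge/Reduce.lean

-- ===== PACK-BEGIN S55/G/FI/KerCokerH895.lean
section
/-
S55, layer G, leaf G-FI (first inequality), part 0 (helper895): abstract Herbrand bookkeeping
for a map `φ : J → C` with kernel `ι(E)` and finite cokernel.

`kerCoker`: if `E ≤ U`, `ι : U → J` injective, `φ : J → C` with `ker φ = ι(E)` and
`[C : φ(J)] < ∞`, everything compatible with pairs of endomorphisms `(f, g)` with
`fg = gf = 0` on `J` and `C`, then from finiteness of the Herbrand indices of `E` and `J`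
we get finiteness for `C` and `h₀(E) h₀(C) h₁(J) = h₁(E) h₁(C) h₀(J)`.
-/





set_option autoImplicit false

namespace Fermat.Agent.S55.G.FIH895

open Fermat.Agent.S55.Herbrand Fermat.Agent.S55.G

variable {U J C : Type*} [AddCommGroup U] [AddCommGroup J] [AddCommGroup C]

/-- Herbrand indices of the kernel and of the range of an equivariant map `φ : J → C`:
`h₀(ker φ) h₀(im φ) h₁(J) = h₁(ker φ) h₁(im φ) h₀(J)` and finiteness of the indices of `im φ`. -/
theorem ker_range (fJ gJ : J →+ J) (fC gC : C →+ C) (φ : J →+ C)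
    (hφf : ∀ j, φ (fJ j) = fC (φ j)) (hφg : ∀ j, φ (gJ j) = gC (φ j))
    (hJfg : ∀ j, fJ (gJ j) = 0) (hJgf : ∀ j, gJ (fJ j) = 0)
    (hE : hIndexSub fJ gJ φ.ker ≠ 0 ∧ hIndexSub gJ fJ φ.ker ≠ 0)
    (hJ : hIndex fJ gJ ≠ 0 ∧ hIndex gJ fJ ≠ 0) :
    (hIndexSub fC gC φ.range ≠ 0 ∧ hIndexSub gC fC φ.range ≠ 0) ∧
      hIndexSub fJ gJ φ.ker * hIndexSub fC gC φ.range * hIndex gJ fJ =
        hIndexSub gJ fJ φ.ker * hIndexSub gC fC φ.range * hIndex fJ gJ := by
  obtain ⟨Ef, Eg, w, y, w', y', h1, h2, h3, h4, h5, h6⟩ :=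
    hIndexSub_six fJ gJ fC gC φ hφf hφg ⊤ (fun _ _ => trivial) (fun _ _ => trivial)
      (fun b _ => hJfg b) (fun b _ => hJgf b)
  rw [inf_top_eq] at h1 h4
  rw [hIndexSub_top] at h2 h5
  rw [← AddMonoidHom.range_eq_map] at h3 h6
  obtain ⟨e1, e2⟩ := hE
  obtain ⟨j1, j2⟩ := hJ
  rw [h1] at e1
  rw [h4] at e2
  rw [h2] at j1
  rw [h5] at j2
  rw [h1, h2, h3, h4, h5, h6]
  have hEg : Eg ≠ 0 := left_ne_zero_of_mul e1
  have hEf : Ef ≠ 0 := left_ne_zero_of_mul e2
  have hy : y ≠ 0 := right_ne_zero_of_mul j1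
  have hy' : y' ≠ 0 := right_ne_zero_of_mul j2
  refine ⟨⟨mul_ne_zero hEf hy, mul_ne_zero hEg hy'⟩, ?_⟩
  ring

/-- **Kernel–cokernel bookkeeping.**  `E ≤ U`, `ι : U → J` injective, `φ : J → C` with
`ker φ = ι(E)` and finite cokernel: finiteness of the Herbrand indices of `E` and `J` gives
finiteness for `C`, and `h₀(E) h₀(C) h₁(J) = h₁(E) h₁(C) h₀(J)`. -/
theorem kerCoker (fU gU : U →+ U) (fJ gJ : J →+ J) (fC gC : C →+ C)
    (ι : U →+ J) (φ : J →+ C) (E : AddSubgroup U)
    (hι : Function.Injective ι)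
    (hιf : ∀ u, ι (fU u) = fJ (ι u)) (hιg : ∀ u, ι (gU u) = gJ (ι u))
    (hφf : ∀ j, φ (fJ j) = fC (φ j)) (hφg : ∀ j, φ (gJ j) = gC (φ j))
    (hker : φ.ker = E.map ι) (hfin : φ.range.index ≠ 0)
    (hJfg : ∀ j, fJ (gJ j) = 0) (hJgf : ∀ j, gJ (fJ j) = 0)
    (hCfg : ∀ c, fC (gC c) = 0) (hCgf : ∀ c, gC (fC c) = 0)
    (hE : hIndexSub fU gU E ≠ 0 ∧ hIndexSub gU fU E ≠ 0)
    (hJ : hIndex fJ gJ ≠ 0 ∧ hIndex gJ fJ ≠ 0) :
    (hIndex fC gC ≠ 0 ∧ hIndex gC fC ≠ 0) ∧
      hIndexSub fU gU E * hIndex fC gC * hIndex gJ fJ =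
        hIndexSub gU fU E * hIndex gC fC * hIndex fJ gJ := by
  have t1 : hIndexSub fJ gJ φ.ker = hIndexSub fU gU E := by
    rw [hker]
    exact hIndexSub_map_of_injective fU gU fJ gJ ι hι hιf hιg E
  have t2 : hIndexSub gJ fJ φ.ker = hIndexSub gU fU E := by
    rw [hker]
    exact hIndexSub_map_of_injective gU fU gJ fJ ι hι hιg hιf E
  obtain ⟨⟨r1, r2⟩, hr⟩ := ker_range fJ gJ fC gC φ hφf hφg hJfg hJgf
    (by rw [t1, t2]; exact hE) hJ
  rw [t1, t2] at hr
  have hstab_f : ∀ x ∈ φ.range, fC x ∈ φ.range := by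
    rintro _ ⟨j, rfl⟩
    exact ⟨fJ j, hφf j⟩
  have hstab_g : ∀ x ∈ φ.range, gC x ∈ φ.range := by
    rintro _ ⟨j, rfl⟩
    exact ⟨gJ j, hφg j⟩
  obtain ⟨hiff, hq⟩ := hIndexSub_of_finite_index fC gC φ.range ⊤ le_top
    (by rwa [AddSubgroup.relIndex_top_right])
    hstab_f hstab_g (fun _ _ => trivial) (fun _ _ => trivial)
    (fun b _ => hCfg b) (fun b _ => hCgf b)
  rw [hIndexSub_top, hIndexSub_top] at hiff hq
  have hC := hiff.1 ⟨r1, r2⟩
  refine ⟨hC, ?_⟩
  -- `hr : a * r * b' = a' * r' * b`, `hq : r * c' = r' * c`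
  have key : (hIndexSub fU gU E * hIndex fC gC * hIndex gJ fJ) *
      (hIndexSub gC fC φ.range * hIndexSub fC gC φ.range) =
      (hIndexSub gU fU E * hIndex gC fC * hIndex fJ gJ) *
      (hIndexSub gC fC φ.range * hIndexSub fC gC φ.range) := by
    calc (hIndexSub fU gU E * hIndex fC gC * hIndex gJ fJ) *
        (hIndexSub gC fC φ.range * hIndexSub fC gC φ.range)
        = (hIndexSub fU gU E * hIndexSub fC gC φ.range * hIndex gJ fJ) *
          (hIndexSub gC fC φ.range * hIndex fC gC) := by ring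
      _ = (hIndexSub gU fU E * hIndexSub gC fC φ.range * hIndex fJ gJ) *
          (hIndexSub fC gC φ.range * hIndex gC fC) := by rw [hr, ← hq]
      _ = _ := by ring
  exact Nat.eq_of_mul_eq_mul_right (Nat.pos_of_ne_zero (mul_ne_zero r2 r1)) key

end Fermat.Agent.S55.G.FIH895

end
-- ===== PACK-END S55/G/FI/KerCokerH895.lean

-- ===== PACK-BEGIN S55/G/UnitsBasic.lean
section
/-
S55, layer G, block G-U (helper595): basic algebra of the Galois action on `Additive Lˣ`
(`unitsHom`, `unitsAug`, `unitsNorm`) and Galois stability of the units of `𝓞 L`.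
-/



set_option autoImplicit false
set_option linter.unusedSectionVars false

namespace Fermat.Agent.S55.G

open NumberField

universe u v

section Units

variable (K : Type u) (L : Type v) [Field K] [Field L] [Algebra K L]

lemma unitsHom_toMul_val (τ : L ≃ₐ[K] L) (x : Additive Lˣ) :
    ((Additive.toMul (unitsHom K L τ x) : Lˣ) : L) = τ ((Additive.toMul x : Lˣ) : L) := rfl

lemma unitsHom_mul (σ τ : L ≃ₐ[K] L) (x : Additive Lˣ) :
    unitsHom K L (σ * τ) x = unitsHom K L σ (unitsHom K L τ x) := by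
  apply Additive.toMul.injective
  apply Units.ext
  rfl

lemma unitsHom_one (x : Additive Lˣ) : unitsHom K L 1 x = x := by
  apply Additive.toMul.injective
  apply Units.ext
  rfl

lemma unitsAug_apply (σ : L ≃ₐ[K] L) (x : Additive Lˣ) :
    unitsAug K L σ x = unitsHom K L σ x - x := rfl

variable [FiniteDimensional K L]

lemma unitsNorm_apply (x : Additive Lˣ) :
    unitsNorm K L x = ∑ τ : (L ≃ₐ[K] L), unitsHom K L τ x := by
  unfold unitsNorm
  rw [AddMonoidHom.finsetSum_apply]

lemma unitsHom_unitsNorm (σ : L ≃ₐ[K] L) (x : Additive Lˣ) :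
    unitsHom K L σ (unitsNorm K L x) = unitsNorm K L x := by
  rw [unitsNorm_apply, map_sum]
  simp only [← unitsHom_mul]
  exact Fintype.sum_equiv (Equiv.mulLeft σ) _ _ (fun _ => rfl)

lemma unitsNorm_unitsHom (σ : L ≃ₐ[K] L) (x : Additive Lˣ) :
    unitsNorm K L (unitsHom K L σ x) = unitsNorm K L x := by
  rw [unitsNorm_apply, unitsNorm_apply]
  simp only [← unitsHom_mul]
  exact Fintype.sum_equiv (Equiv.mulRight σ) _ _ (fun _ => rfl)

lemma unitsAug_unitsNorm (σ : L ≃ₐ[K] L) (x : Additive Lˣ) :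
    unitsAug K L σ (unitsNorm K L x) = 0 := by
  rw [unitsAug_apply, unitsHom_unitsNorm, sub_self]

lemma unitsNorm_unitsAug (σ : L ≃ₐ[K] L) (x : Additive Lˣ) :
    unitsNorm K L (unitsAug K L σ x) = 0 := by
  rw [unitsAug_apply, map_sub, unitsNorm_unitsHom, sub_self]

end Units

section Stable

variable (K : Type u) (L : Type v) [Field K] [Field L] [Algebra K L] [NumberField L]

lemma mem_intUnits_iff_isIntegral (x : Additive Lˣ) :
    x ∈ intUnits L ↔ IsIntegral ℤ ((Additive.toMul x : Lˣ) : L) ∧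
      IsIntegral ℤ (((Additive.toMul x)⁻¹ : Lˣ) : L) := by
  constructor
  · rintro ⟨u, rfl⟩
    exact ⟨(u : 𝓞 L).2, ((u⁻¹ : (𝓞 L)ˣ) : 𝓞 L).2⟩
  · rintro ⟨h1, h2⟩
    have h1' : ((Additive.toMul x : Lˣ) : L) ∈ integralClosure ℤ L := h1
    have h2' : (((Additive.toMul x)⁻¹ : Lˣ) : L) ∈ integralClosure ℤ L := h2
    let a : 𝓞 L := ⟨_, h1'⟩
    let b : 𝓞 L := ⟨_, h2'⟩
    have hab : a * b = 1 := by
      apply RingOfIntegers.ext
      show ((Additive.toMul x : Lˣ) : L) * (((Additive.toMul x)⁻¹ : Lˣ) : L) = 1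
      simp
    have hba : b * a = 1 := by rw [mul_comm, hab]
    refine ⟨⟨a, b, hab, hba⟩, ?_⟩
    apply Units.ext
    rfl

lemma unitsHom_mem_intUnits (τ : L ≃ₐ[K] L) (x : Additive Lˣ) (hx : x ∈ intUnits L) :
    unitsHom K L τ x ∈ intUnits L := by
  rw [mem_intUnits_iff_isIntegral] at hx ⊢
  obtain ⟨h1, h2⟩ := hx
  refine ⟨?_, ?_⟩
  · exact h1.map (τ : L →ₐ[K] L).toRingHom.toIntAlgHom
  · have : (((Additive.toMul (unitsHom K L τ x))⁻¹ : Lˣ) : L) =
        τ (((Additive.toMul x)⁻¹ : Lˣ) : L) := by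
      rw [Units.val_inv_eq_inv_val, Units.val_inv_eq_inv_val, map_inv₀]
      rfl
    rw [this]
    exact h2.map (τ : L →ₐ[K] L).toRingHom.toIntAlgHom

lemma unitsAug_mem_intUnits (σ : L ≃ₐ[K] L) (x : Additive Lˣ) (hx : x ∈ intUnits L) :
    unitsAug K L σ x ∈ intUnits L := by
  rw [unitsAug_apply]
  exact (intUnits L).sub_mem (unitsHom_mem_intUnits K L σ x hx) hx

lemma unitsNorm_mem_intUnits [FiniteDimensional K L] (x : Additive Lˣ) (hx : x ∈ intUnits L) :
    unitsNorm K L x ∈ intUnits L := by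
  rw [unitsNorm_apply]
  exact (intUnits L).sum_mem (fun τ _ => unitsHom_mem_intUnits K L τ x hx)

end Stable

end Fermat.Agent.S55.G

end
-- ===== PACK-END S55/G/UnitsBasic.lean

-- ===== PACK-BEGIN S55/G/Perm379.lean
section
/-
S55, layer G, block G-U, leaf **GU-P** (helper379): permutation lattices.

`G = ⟨σ⟩` finite cyclic, `X` a finite `G`-set.  On `ℤ^X`:
* `[ker (σ - 1) : im N] = ∏_{orbits} |Stab|`   (`Ĥ⁰`),
* `[ker N : im (σ - 1)] = 1`                   (`Ĥ⁻¹ = 0`).
Deliverable: `theorem permSpec : PermSpec` (spec of helper595's `SpecUnits.lean`).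
-/



set_option autoImplicit false
set_option linter.unusedSectionVars false
set_option linter.style.haveILetI false

namespace Fermat.Agent.S55.G.Perm379

open Fermat.Agent.S55.Herbrand Fermat.Agent.S55.G

universe u v

variable {G : Type u} [Group G] [Fintype G] {X : Type v} [Fintype X] [MulAction G X]

theorem permHom_apply (τ : G) (a : X → ℤ) (x : X) : permHom G X τ a x = a (τ⁻¹ • x) := rfl

theorem permAug_apply (σ : G) (a : X → ℤ) (x : X) :
    permAug G X σ a x = a (σ⁻¹ • x) - a x := rfl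

theorem permNorm_apply (a : X → ℤ) (x : X) :
    permNorm G X a x = ∑ τ : G, a (τ⁻¹ • x) := by
  simp [permNorm, Finset.sum_apply, _root_.Fermat.Agent.S55.G.Perm379.permHom_apply]

/-- the orbit class of a point -/
abbrev cls (G : Type u) [Group G] {X : Type v} [MulAction G X] (x : X) :
    MulAction.orbitRel.Quotient G X := Quotient.mk'' x

theorem cls_eq_iff {x y : X} : cls G y = cls G x ↔ y ∈ MulAction.orbit G x := by
  rw [cls, cls, Quotient.eq'']
  exact MulAction.orbitRel_apply

theorem cls_smul (g : G) (x : X) : cls G (g • x) = cls G x :=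
  cls_eq_iff.mpr (MulAction.mem_orbit x g)

/-- the chosen base point of the orbit of `x` -/
noncomputable abbrev rep (G : Type u) [Group G] {X : Type v} [MulAction G X] (x : X) : X :=
  (cls G x).out

theorem cls_rep (x : X) : cls G (rep G x) = cls G x := Quotient.out_eq' _

theorem rep_eq_of_cls_eq {x y : X} (h : cls G x = cls G y) : rep G x = rep G y := by
  unfold rep; rw [h]

theorem rep_rep (x : X) : rep G (rep G x) = rep G x := rep_eq_of_cls_eq (cls_rep x)

theorem exists_smul_rep (x : X) : ∃ g : G, g • rep G x = x := by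
  have h : cls G x = cls G (rep G x) := (cls_rep x).symm
  exact cls_eq_iff.mp h

open Classical in
theorem card_filter_smul_eq (x y : X) (h : y ∈ MulAction.orbit G x) :
    ((Finset.univ.filter (fun τ : G => τ • x = y)).card : ℤ)
      = Nat.card (MulAction.stabilizer G x) := by
  obtain ⟨g, rfl⟩ := h
  congr 1
  rw [← Fintype.card_subtype, ← Nat.card_eq_fintype_card]
  refine Nat.card_congr
    { toFun := fun τ => ⟨g⁻¹ * τ.1, ?_⟩
      invFun := fun s => ⟨g * s.1, ?_⟩
      left_inv := fun τ => by simp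
      right_inv := fun s => by simp }
  · rw [MulAction.mem_stabilizer_iff, mul_smul, τ.2, inv_smul_smul]
  · show (g * s.1) • x = g • x
    rw [mul_smul, MulAction.mem_stabilizer_iff.mp s.2]

open Classical in
theorem card_filter_smul_eq_zero (x y : X) (h : y ∉ MulAction.orbit G x) :
    (Finset.univ.filter (fun τ : G => τ • x = y)).card = 0 := by
  rw [Finset.card_eq_zero, Finset.filter_eq_empty_iff]
  intro τ _ hτ
  exact h ⟨τ, hτ⟩

open Classical in
/-- orbit-stabiliser summation formula -/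
theorem sum_inv_smul (F : X → ℤ) (x : X) :
    ∑ τ : G, F (τ⁻¹ • x) = (Nat.card (MulAction.stabilizer G x) : ℤ) *
      ∑ y : X, if cls G y = cls G x then F y else 0 := by
  have h1 : ∑ τ : G, F (τ⁻¹ • x) = ∑ τ : G, F (τ • x) :=
    Equiv.sum_comp (Equiv.inv G) (fun τ => F (τ • x))
  rw [h1]
  have h2 : ∀ τ : G, F (τ • x) = ∑ y : X, if τ • x = y then F y else 0 := by
    intro τ
    rw [Finset.sum_ite_eq]
    simp
  simp_rw [h2]
  rw [Finset.sum_comm, Finset.mul_sum]
  refine Finset.sum_congr rfl fun y _ => ?_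
  rw [← Finset.sum_filter, Finset.sum_const, nsmul_eq_mul]
  by_cases hy : y ∈ MulAction.orbit G x
  · rw [if_pos (cls_eq_iff.mpr hy), card_filter_smul_eq x y hy]
  · rw [if_neg (fun h => hy (cls_eq_iff.mp h)), card_filter_smul_eq_zero x y hy]
    simp

/-! ### Part (2): `ker N ≤ im (σ - 1)` -/

open Classical in
theorem permAug_single (σ : G) (w : X) :
    permAug G X σ (Pi.single w (1 : ℤ)) = Pi.single (σ • w) 1 - Pi.single w 1 := by
  funext x
  rw [_root_.Fermat.Agent.S55.G.Perm379.permAug_apply, Pi.sub_apply]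
  congr 1
  by_cases h : x = σ • w
  · subst h
    simp
  · rw [Pi.single_eq_of_ne h, Pi.single_eq_of_ne]
    intro h'
    exact h (by rw [← h', smul_inv_smul])

open Classical in
theorem single_pow_sub_mem (σ : G) (k : ℕ) (z : X) :
    (Pi.single (σ ^ k • z) (1 : ℤ) - Pi.single z 1 : X → ℤ) ∈ (permAug G X σ).range := by
  induction k with
  | zero => simp
  | succ k ih =>
    have : (Pi.single (σ ^ (k + 1) • z) (1 : ℤ) - Pi.single z 1 : X → ℤ)
        = permAug G X σ (Pi.single (σ ^ k • z) (1 : ℤ))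
          + (Pi.single (σ ^ k • z) (1 : ℤ) - Pi.single z 1) := by
      rw [permAug_single, pow_succ', mul_smul]
      abel
    rw [this]
    exact AddSubgroup.add_mem _ ⟨_, rfl⟩ ih

theorem exists_pow_eq (σ : G) (hσ : ∀ τ : G, τ ∈ Subgroup.zpowers σ) (g : G) :
    ∃ k : ℕ, σ ^ k = g := by
  have h := hσ g
  rw [← (isOfFinOrder_of_finite σ).mem_powers_iff_mem_zpowers] at h
  exact (Submonoid.mem_powers_iff _ _).mp h

open Classical in
theorem single_sub_single_rep_mem (σ : G) (hσ : ∀ τ : G, τ ∈ Subgroup.zpowers σ) (x : X) :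
    (Pi.single x (1 : ℤ) - Pi.single (rep G x) 1 : X → ℤ) ∈ (permAug G X σ).range := by
  obtain ⟨g, hg⟩ := exists_smul_rep (G := G) x
  obtain ⟨k, rfl⟩ := exists_pow_eq σ hσ g
  have := single_pow_sub_mem σ k (rep G x)
  rwa [hg] at this

open Classical in
theorem orbit_sum_eq_zero {a : X → ℤ} (ha : permNorm G X a = 0) (w : X) :
    ∑ y : X, (if cls G y = cls G w then a y else 0) = 0 := by
  have h := congrFun ha w
  rw [_root_.Fermat.Agent.S55.G.Perm379.permNorm_apply, sum_inv_smul] at h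
  have hne : (Nat.card (MulAction.stabilizer G w) : ℤ) ≠ 0 := by
    exact_mod_cast Nat.card_pos.ne'
  rcases mul_eq_zero.mp h with h | h
  · exact absurd h hne
  · convert h

open Classical in
theorem ker_norm_le_range_aug (σ : G) (hσ : ∀ τ : G, τ ∈ Subgroup.zpowers σ) :
    (permNorm G X).ker ≤ (permAug G X σ).range := by
  intro a ha
  rw [AddMonoidHom.mem_ker] at ha
  have hdecomp : a = ∑ x : X, a x • (Pi.single x (1 : ℤ) - Pi.single (rep G x) 1 : X → ℤ)
      + ∑ x : X, a x • (Pi.single (rep G x) (1 : ℤ) : X → ℤ) := by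
    rw [← Finset.sum_add_distrib]
    simp_rw [← smul_add, sub_add_cancel]
    funext w
    rw [Finset.sum_apply]
    simp [Pi.single_apply]
  have hzero : ∑ x : X, a x • (Pi.single (rep G x) (1 : ℤ) : X → ℤ) = 0 := by
    funext w
    rw [Finset.sum_apply, Pi.zero_apply]
    simp only [Pi.smul_apply, Pi.single_apply, smul_eq_mul, mul_ite, mul_one, mul_zero]
    by_cases hw : rep G w = w
    · refine Eq.trans ?_ (orbit_sum_eq_zero ha w)
      refine Finset.sum_congr rfl fun x _ => ?_
      by_cases hx : cls G x = cls G w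
      · rw [if_pos hx, if_pos]
        rw [← hw, rep_eq_of_cls_eq hx]
      · rw [if_neg hx, if_neg]
        intro h
        apply hx
        rw [h, cls_rep]
    · refine Finset.sum_eq_zero fun x _ => ?_
      rw [if_neg]
      intro h
      apply hw
      rw [h, rep_rep]
  rw [hdecomp, hzero, add_zero]
  refine AddSubgroup.sum_mem _ fun x _ => ?_
  exact AddSubgroup.zsmul_mem _ (single_sub_single_rep_mem σ hσ x) _

theorem hIndex_norm_aug (σ : G) (hσ : ∀ τ : G, τ ∈ Subgroup.zpowers σ) :
    hIndex (permNorm G X) (permAug G X σ) = 1 := by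
  unfold hIndex
  rw [AddSubgroup.relIndex_eq_one]
  exact ker_norm_le_range_aug σ hσ

/-! ### Part (1) -/

/-- functions on the orbit set, pulled back to `X` -/
def pull (G : Type u) [Group G] (X : Type v) [MulAction G X] :
    (MulAction.orbitRel.Quotient G X → ℤ) →+ (X → ℤ) where
  toFun c x := c (cls G x)
  map_zero' := rfl
  map_add' _ _ := rfl

theorem pull_apply (c : MulAction.orbitRel.Quotient G X → ℤ) (x : X) :
    pull G X c x = c (cls G x) := rfl

theorem pull_injective : Function.Injective (pull G X) := by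
  intro c d h
  funext o
  induction o using Quotient.inductionOn' with
  | h x => exact congrFun h x

theorem smul_invariant_of_mem_ker (σ : G) (hσ : ∀ τ : G, τ ∈ Subgroup.zpowers σ)
    {a : X → ℤ} (ha : a ∈ (permAug G X σ).ker) (g : G) (x : X) : a (g • x) = a x := by
  rw [AddMonoidHom.mem_ker] at ha
  have h1 : ∀ x, a (σ⁻¹ • x) = a x := fun x => by
    have := congrFun ha x
    rw [_root_.Fermat.Agent.S55.G.Perm379.permAug_apply, Pi.zero_apply, sub_eq_zero] at this
    exact this
  let S : Subgroup G :=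
    { carrier := {g | ∀ x, a (g • x) = a x}
      mul_mem' := fun {g h} hg hh x => by rw [mul_smul, hg, hh]
      one_mem' := fun x => by rw [one_smul]
      inv_mem' := fun {g} hg x => by
        have := hg (g⁻¹ • x)
        rw [smul_inv_smul] at this
        exact this.symm }
  have hσS : σ ∈ S := by
    have : σ⁻¹ ∈ S := h1
    simpa using S.inv_mem this
  have : Subgroup.zpowers σ ≤ S := (Subgroup.zpowers_le).mpr hσS
  exact this (hσ g) x

theorem range_pull (σ : G) (hσ : ∀ τ : G, τ ∈ Subgroup.zpowers σ) :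
    (pull G X).range = (permAug G X σ).ker := by
  ext a
  constructor
  · rintro ⟨c, rfl⟩
    rw [AddMonoidHom.mem_ker]
    funext x
    rw [_root_.Fermat.Agent.S55.G.Perm379.permAug_apply, pull_apply, pull_apply, cls_smul, sub_self, Pi.zero_apply]
  · intro ha
    refine ⟨fun o => a o.out, ?_⟩
    funext x
    rw [pull_apply]
    obtain ⟨g, hg⟩ := exists_smul_rep (G := G) x
    show a (rep G x) = a x
    calc a (rep G x) = a (g • rep G x) := (smul_invariant_of_mem_ker σ hσ ha g (rep G x)).symm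
      _ = a x := by rw [hg]

/-- the stabiliser order of the chosen base point of an orbit -/
noncomputable def stabCard (G : Type u) [Group G] (X : Type v) [MulAction G X]
    (o : MulAction.orbitRel.Quotient G X) : ℕ := Nat.card (MulAction.stabilizer G o.out)

/-- reduction of the orbit coordinates modulo the stabiliser orders -/
noncomputable def red (G : Type u) [Group G] (X : Type v) [MulAction G X] :
    (MulAction.orbitRel.Quotient G X → ℤ) →+
      ((o : MulAction.orbitRel.Quotient G X) → ZMod (stabCard G X o)) where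
  toFun c o := (c o : ZMod (stabCard G X o))
  map_zero' := by funext o; simp
  map_add' c d := by funext o; simp

theorem red_surjective : Function.Surjective (red G X) := by
  intro t
  choose c hc using fun o => ZMod.intCast_surjective (t o)
  exact ⟨c, funext hc⟩

theorem mem_ker_red (c : MulAction.orbitRel.Quotient G X → ℤ) :
    c ∈ (red G X).ker ↔ ∀ o, (stabCard G X o : ℤ) ∣ c o := by
  rw [AddMonoidHom.mem_ker]
  constructor
  · intro h o
    have := congrFun h o
    exact (ZMod.intCast_zmod_eq_zero_iff_dvd _ _).mp this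
  · intro h
    funext o
    exact (ZMod.intCast_zmod_eq_zero_iff_dvd _ _).mpr (h o)

theorem norm_mem_ker_aug (σ : G) (a : X → ℤ) : permNorm G X a ∈ (permAug G X σ).ker := by
  rw [AddMonoidHom.mem_ker]
  funext x
  rw [_root_.Fermat.Agent.S55.G.Perm379.permAug_apply, Pi.zero_apply, sub_eq_zero, _root_.Fermat.Agent.S55.G.Perm379.permNorm_apply, _root_.Fermat.Agent.S55.G.Perm379.permNorm_apply]
  refine Fintype.sum_equiv (Equiv.mulLeft σ) _ _ fun τ => ?_
  simp [mul_smul]

open Classical in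
theorem map_pull_ker_red (σ : G) (hσ : ∀ τ : G, τ ∈ Subgroup.zpowers σ) :
    (red G X).ker.map (pull G X) = (permNorm G X).range := by
  ext a
  constructor
  · rintro ⟨c, hc, rfl⟩
    have hc' := (mem_ker_red c).mp hc
    choose d hd using hc'
    set F : X → ℤ := fun x => if rep G x = x then d (cls G x) else 0 with hF
    refine ⟨F, ?_⟩
    funext w
    have hinv := smul_invariant_of_mem_ker σ hσ (norm_mem_ker_aug σ F)
    obtain ⟨g, hg⟩ := exists_smul_rep (G := G) w
    have hsum : ∑ y : X, (if cls G y = cls G (rep G w) then F y else 0) = d (cls G w) := by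
      rw [Finset.sum_eq_single (rep G w)]
      · rw [if_pos rfl, hF]
        simp only
        rw [if_pos (rep_rep w), cls_rep]
      · intro x _ hx
        by_cases h1 : cls G x = cls G (rep G w)
        · rw [if_pos h1, hF]
          simp only
          rw [if_neg]
          intro h2
          apply hx
          rw [← h2, rep_eq_of_cls_eq h1, rep_rep]
        · rw [if_neg h1]
      · intro h
        exact absurd (Finset.mem_univ _) h
    calc permNorm G X F w = permNorm G X F (g • rep G w) := by rw [hg]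
      _ = permNorm G X F (rep G w) := hinv g _
      _ = (Nat.card (MulAction.stabilizer G (rep G w)) : ℤ) * d (cls G w) := by
          rw [_root_.Fermat.Agent.S55.G.Perm379.permNorm_apply, sum_inv_smul F (rep G w), hsum]
      _ = pull G X c w := by
          rw [pull_apply, hd]
          rfl
  · rintro ⟨a, rfl⟩
    have hker := norm_mem_ker_aug σ a
    rw [← range_pull σ hσ] at hker
    obtain ⟨c, hc⟩ := hker
    refine ⟨c, (mem_ker_red c).mpr ?_, hc⟩
    intro o
    have h1 : c o = permNorm G X a o.out := by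
      rw [← hc, pull_apply]
      congr 1
      exact (Quotient.out_eq' o).symm
    rw [h1, _root_.Fermat.Agent.S55.G.Perm379.permNorm_apply, sum_inv_smul]
    exact Dvd.intro _ rfl

theorem index_ker_red : (red G X).ker.index = stabProd G X := by
  classical
  letI : Fintype (MulAction.orbitRel.Quotient G X) := Fintype.ofFinite _
  rw [AddSubgroup.index_ker, AddMonoidHom.range_eq_top.mpr red_surjective,
    AddSubgroup.card_top, Nat.card_pi]
  unfold stabProd stabCard
  simp only [Nat.card_zmod]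

theorem hIndex_aug_norm (σ : G) (hσ : ∀ τ : G, τ ∈ Subgroup.zpowers σ) :
    hIndex (permAug G X σ) (permNorm G X) = stabProd G X := by
  unfold hIndex
  rw [← map_pull_ker_red σ hσ, ← range_pull σ hσ, AddMonoidHom.range_eq_map,
    AddSubgroup.relIndex_map_map_of_injective _ _ pull_injective,
    AddSubgroup.relIndex_top_right, index_ker_red]

/-- **GU-P.** -/
theorem permSpec : PermSpec.{u, v} := by
  intro G _ _ X _ _ σ hσ
  exact ⟨hIndex_aug_norm σ hσ, hIndex_norm_aug σ hσ⟩

end Fermat.Agent.S55.G.Perm379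

end
-- ===== PACK-END S55/G/Perm379.lean

-- ===== PACK-BEGIN S55/Local/H608/Core2.lean
section


/-!
# S55 layer L (helper608): more on the ring of integers of a local field

For a complete DVR `A` with finite residue field and a finite extension `L` of `F = Frac A`
(characteristic zero), the integral closure `B` of `A` in `L` is again a complete DVR with finite
residue field (so that `(B, L)` can serve as a new base pair).
-/

set_option autoImplicit false
set_option linter.unusedSectionVars false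
set_option linter.style.haveILetI false

namespace Fermat.Agent.S55.Local.H608

open IsLocalRing

section Tower

variable (A F : Type) [CommRing A] [IsDomain A] [IsDiscreteValuationRing A]
  [IsAdicComplete (maximalIdeal A) A]
  [Field F] [CharZero F] [Algebra A F] [IsFractionRing A F]
  (L : Type) [Field L] [Algebra F L] [FiniteDimensional F L]
  [Algebra A L] [IsScalarTower A F L]

include F

theorem injective_algebraMap_intCl :
    Function.Injective (algebraMap A (integralClosure A L)) := by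
  have h1 : Function.Injective (algebraMap A L) := by
    rw [IsScalarTower.algebraMap_eq A F L]
    exact (algebraMap F L).injective.comp (IsFractionRing.injective A F)
  intro a b hab
  apply h1
  have := congrArg (algebraMap (integralClosure A L) L) hab
  simpa [← IsScalarTower.algebraMap_apply] using this

theorem faithfulSMul_intCl : FaithfulSMul A (integralClosure A L) :=
  (faithfulSMul_iff_algebraMap_injective A (integralClosure A L)).mpr
    (injective_algebraMap_intCl A F L)

theorem isLocalHom_intCl :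
    haveI := isLocalRing_intCl A F L
    IsLocalHom (algebraMap A (integralClosure A L)) := by
  haveI := isLocalRing_intCl A F L
  haveI := faithfulSMul_intCl A F L
  exact Algebra.IsIntegral.isLocalHom A (integralClosure A L)

theorem isAdicComplete_intCl :
    haveI := isLocalRing_intCl A F L
    IsAdicComplete (maximalIdeal (integralClosure A L)) (integralClosure A L) := by
  haveI := isLocalRing_intCl A F L
  haveI := finite_intCl A F L
  haveI := isLocalHom_intCl A F L
  exact IsLocalRing.isAdicComplete_of_module_finite (𝒪 := A)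

theorem finite_residueField_intCl [Finite (ResidueField A)] :
    haveI := isLocalRing_intCl A F L
    Finite (ResidueField (integralClosure A L)) := by
  haveI := isLocalRing_intCl A F L
  haveI := finite_intCl A F L
  haveI := isLocalHom_intCl A F L
  haveI : Module.Finite (ResidueField A) (ResidueField (integralClosure A L)) :=
    inferInstance
  exact Module.finite_of_finite (ResidueField A)

theorem charZero_of_base : CharZero L :=
  charZero_of_injective_algebraMap (algebraMap F L).injective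

end Tower

end Fermat.Agent.S55.Local.H608

end
-- ===== PACK-END S55/Local/H608/Core2.lean

-- ===== PACK-BEGIN S55/G/UpH119/Quot.lean
section


/-!
# G-UP, part 2: the quotient `G ⧸ N` acting on the fixed field `L^N` (helper119)

For a normal subgroup `N ⊴ G` of a group acting on a field `L`, the fixed field
`FixN G L N = L^N` carries an action of `G ⧸ N`.  We check the hypotheses needed to apply the
Specs of layer G to the pair `(G ⧸ N, L^N)`: faithfulness, `μ_p ⊂ (L^N)^{G/N}` and
unramifiedness outside `S`.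
-/

set_option autoImplicit false
set_option linter.style.haveILetI false
set_option linter.unusedSectionVars false

open scoped NumberField TensorProduct Pointwise
open IsDedekindDomain CategoryTheory

noncomputable section

namespace Fermat.Agent.S55.G.UpH119

section Action

variable (G L : Type) [Group G] [Field L] [MulSemiringAction G L] (N : Subgroup G)

/-- The fixed field `L^N`. -/
abbrev FixN : Type := ↥(FixedPoints.subfield N L)

variable [N.Normal]

theorem smul_mem_fixN (g : G) (x : FixN G L N) : g • (x : L) ∈ FixedPoints.subfield N L := by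
  intro n
  have h := x.2 ⟨g⁻¹ * (n : G) * g, Subgroup.Normal.conj_mem' ‹N.Normal› _ n.2 g⟩
  have h' : (g⁻¹ * (n : G) * g) • (x : L) = (x : L) := h
  calc n • g • (x : L) = ((n : G) * g) • (x : L) := by rw [mul_smul]; rfl
    _ = (g * (g⁻¹ * (n : G) * g)) • (x : L) := by congr 1; group
    _ = g • (x : L) := by rw [mul_smul, h']

/-- The action of `G ⧸ N` on the fixed field `L^N` (a definition, NOT a global instance). -/
@[reducible] def quotAct : MulSemiringAction (G ⧸ N) (FixN G L N) where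
  smul := fun q x => Quotient.liftOn' q (fun g => (⟨g • (x : L), smul_mem_fixN G L N g x⟩ :
      FixN G L N)) (by
    intro a b hab
    apply Subtype.ext
    have hab' : a⁻¹ * b ∈ N := QuotientGroup.leftRel_apply.1 hab
    have h := x.2 ⟨a⁻¹ * b, hab'⟩
    have h' : (a⁻¹ * b) • (x : L) = (x : L) := h
    show a • (x : L) = b • (x : L)
    calc a • (x : L) = a • ((a⁻¹ * b) • (x : L)) := by rw [h']
      _ = b • (x : L) := by rw [← mul_smul, mul_inv_cancel_left])
  one_smul := fun x => Subtype.ext (one_smul G (x : L))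
  mul_smul := fun q₁ q₂ x => Quotient.inductionOn₂' q₁ q₂ fun g h =>
    Subtype.ext (mul_smul g h (x : L))
  smul_zero := fun q => Quotient.inductionOn' q fun g => Subtype.ext (smul_zero g)
  smul_add := fun q x y => Quotient.inductionOn' q fun g =>
    Subtype.ext (smul_add g (x : L) (y : L))
  smul_one := fun q => Quotient.inductionOn' q fun g => Subtype.ext (smul_one g)
  smul_mul := fun q x y => Quotient.inductionOn' q fun g =>
    Subtype.ext (MulSemiringAction.smul_mul g (x : L) (y : L))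

theorem coe_quotAct_smul (g : G) (x : FixN G L N) :
    letI := quotAct G L N
    (((g : G ⧸ N) • x : FixN G L N) : L) = g • (x : L) := rfl

theorem algebraMap_quotAct_smul (g : G) (x : FixN G L N) :
    letI := quotAct G L N
    algebraMap (FixN G L N) L ((g : G ⧸ N) • x) = g • algebraMap (FixN G L N) L x := rfl

omit [N.Normal] in
theorem mem_range_algebraMap_fixN_iff (x : L) :
    (∀ n : N, (n : G) • x = x) ↔ x ∈ (algebraMap (FixN G L N) L).range := by
  constructor
  · intro h
    exact ⟨⟨x, fun n => h n⟩, rfl⟩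
  · rintro ⟨y, rfl⟩ n
    exact y.2 n

end Action

section Hyps

variable (S : Finset Nat.Primes) (G L : Type) [Group G] [Finite G] [Field L] [NumberField L]
  [MulSemiringAction G L] [FaithfulSMul G L] (N : Subgroup G) [N.Normal]

/-- An element of `G` fixing `L^N` pointwise lies in `N`. -/
theorem mem_of_forall_fixN_smul_eq (g : G) (h : ∀ x : FixN G L N, g • (x : L) = (x : L)) :
    g ∈ N := by
  have key := IsGaloisGroup.fixingSubgroup_fixedPoints G (FixedPoints.subfield G L) L N
  rw [← key, mem_fixingSubgroup_iff]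
  intro x hx
  exact h ⟨x, fun n => hx n⟩

/-- `G ⧸ N` acts faithfully on `L^N`. -/
theorem faithfulSMul_quot :
    letI := quotAct G L N
    FaithfulSMul (G ⧸ N) (FixN G L N) := by
  letI := quotAct G L N
  refine ⟨fun {q₁ q₂} h => ?_⟩
  induction q₁ using QuotientGroup.induction_on with | @H a =>
  induction q₂ using QuotientGroup.induction_on with | @H b =>
  rw [QuotientGroup.eq]
  apply mem_of_forall_fixN_smul_eq G L N
  intro x
  have := congrArg Subtype.val (h x)
  rw [coe_quotAct_smul, coe_quotAct_smul] at this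
  rw [mul_smul, ← this, inv_smul_smul]

omit [Finite G] [NumberField L] [FaithfulSMul G L] in
/-- `μ_p ⊂ L^G` implies `μ_p ⊂ (L^N)^{G/N}`. -/
theorem hasFixedRootOfUnity_quot (p : ℕ) (h : HasFixedRootOfUnity p G L) :
    letI := quotAct G L N
    HasFixedRootOfUnity p (G ⧸ N) (FixN G L N) := by
  letI := quotAct G L N
  obtain ⟨ζ, hζ, hfix⟩ := h
  refine ⟨⟨ζ, fun n => hfix n⟩, ?_, fun q => ?_⟩
  · exact IsPrimitiveRoot.of_map_of_injective (f := (FixedPoints.subfield N L).subtype)
      hζ (FixedPoints.subfield N L).subtype.injective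
  · induction q using QuotientGroup.induction_on with | @H g =>
    exact Subtype.ext (hfix g)

/-- **Unramifiedness descends to the quotient**: if `L/L^G` is unramified outside `S`, so is
`L^N/L^G` (for the group `G ⧸ N`). -/
theorem isUnramOut_quot (h : IsUnramOut S G L) :
    letI := quotAct G L N
    IsUnramOut S (G ⧸ N) (FixN G L N) := by
  letI := quotAct G L N
  intro w' hw' q hq x
  -- compatibility of the actions on integers
  have hact : ∀ (g : G) (a : 𝓞 (FixN G L N)),
      algebraMap (𝓞 (FixN G L N)) (𝓞 L) ((g : G ⧸ N) • a) =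
        g • algebraMap (𝓞 (FixN G L N)) (𝓞 L) a := by
    intro g a
    apply Subtype.ext
    rfl
  -- the hypothesis for `q⁻¹`
  have hq' : ∀ a : 𝓞 (FixN G L N), q⁻¹ • a - a ∈ w'.asIdeal := by
    intro a
    have := hq (q⁻¹ • a)
    rw [smul_inv_smul] at this
    have h2 : q⁻¹ • a - a = -(a - q⁻¹ • a) := by ring
    rw [h2]
    exact neg_mem this
  have hmem : ∀ a : 𝓞 (FixN G L N), q⁻¹ • a ∈ w'.asIdeal ↔ a ∈ w'.asIdeal := by
    intro a
    constructor
    · intro h1
      have := sub_mem h1 (hq' a)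
      simpa using this
    · intro h1
      have := add_mem (hq' a) h1
      simpa using this
  obtain ⟨g, rfl⟩ := QuotientGroup.mk_surjective q
  -- a prime `P` of `B` over `w'`
  haveI : w'.asIdeal.IsPrime := w'.isPrime
  obtain ⟨P, hP, hPw⟩ := Ideal.exists_ideal_over_prime_of_isIntegral_of_isDomain (S := 𝓞 L)
    w'.asIdeal (by
      rw [(RingHom.injective_iff_ker_eq_bot _).1
        (FaithfulSMul.algebraMap_injective (𝓞 (FixN G L N)) (𝓞 L))]
      exact bot_le)
  haveI : IsGaloisGroup N (FixN G L N) L := IsGaloisGroup.fixedPoints N L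
  haveI : IsGaloisGroup N (𝓞 (FixN G L N)) (𝓞 L) :=
    IsGaloisGroup.of_isFractionRing N (𝓞 (FixN G L N)) (𝓞 L) (FixN G L N) L
  haveI : Algebra.IsInvariant (𝓞 (FixN G L N)) (𝓞 L) N := IsGaloisGroup.isInvariant
  haveI : SMulCommClass N (𝓞 (FixN G L N)) (𝓞 L) := IsGaloisGroup.commutes
  -- `g • P` lies over `w'` too
  have hgP : (g • P).under (𝓞 (FixN G L N)) = P.under (𝓞 (FixN G L N)) := by
    ext a
    rw [Ideal.under_def, Ideal.under_def, Ideal.mem_comap, Ideal.mem_comap,
      Ideal.mem_pointwise_smul_iff_inv_smul_mem, ← hact, ← Ideal.mem_comap, hPw,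
      QuotientGroup.mk_inv, hmem, ← hPw, Ideal.mem_comap]
  haveI hgPprime : (g • P).IsPrime := hP.smul g
  obtain ⟨n, hn⟩ := Algebra.IsInvariant.exists_smul_of_under_eq (𝓞 (FixN G L N)) (𝓞 L) N P
    (g • P) hgP.symm
  -- `g₁ := n⁻¹ g` stabilises `P`
  have hg₁P : ((n : G)⁻¹ * g) • P = P := by
    rw [mul_smul, hn]
    exact inv_smul_smul (n : G) P
  haveI hLO : P.LiesOver w'.asIdeal := ⟨hPw.symm⟩
  -- the automorphism of the residue field induced by `g₁`
  let σ₀ : (𝓞 L ⧸ P) ≃+* (𝓞 L ⧸ P) :=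
    Ideal.quotientEquiv P P (MulSemiringAction.toRingEquiv G (𝓞 L) ((n : G)⁻¹ * g)) hg₁P.symm
  have hσ₀ : ∀ b : 𝓞 L, σ₀ (Ideal.Quotient.mk P b) =
      Ideal.Quotient.mk P (((n : G)⁻¹ * g) • b) := fun b => rfl
  have hqn : (((n : G)⁻¹ * g : G) : G ⧸ N) = (g : G ⧸ N) := by
    rw [QuotientGroup.eq]
    have : ((n : G)⁻¹ * g)⁻¹ * g = g⁻¹ * (n : G) * g := by group
    rw [this]
    exact Subgroup.Normal.conj_mem' ‹N.Normal› _ n.2 g
  let σ : (𝓞 L ⧸ P) ≃ₐ[𝓞 (FixN G L N) ⧸ w'.asIdeal] (𝓞 L ⧸ P) :=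
    AlgEquiv.ofRingEquiv (f := σ₀) (by
      intro r
      obtain ⟨a, rfl⟩ := Ideal.Quotient.mk_surjective r
      show σ₀ (Ideal.Quotient.mk P (algebraMap (𝓞 (FixN G L N)) (𝓞 L) a)) =
        Ideal.Quotient.mk P (algebraMap (𝓞 (FixN G L N)) (𝓞 L) a)
      rw [hσ₀, Ideal.Quotient.eq, ← hact, hqn, ← map_sub, ← Ideal.mem_comap, hPw]
      exact hq a)
  obtain ⟨n', hn'⟩ := Ideal.Quotient.stabilizerHom_surjective N w'.asIdeal P σ
  -- `g₂ := n'⁻¹ n⁻¹ g` lies in the inertia group of `P`
  have hkey : ∀ b : 𝓞 L, ((((n' : N) : G))⁻¹ * ((n : G)⁻¹ * g)) • b - b ∈ P := by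
    intro b
    have h1 : Ideal.Quotient.mk P (((n' : N) : G) • b) =
        Ideal.Quotient.mk P (((n : G)⁻¹ * g) • b) := by
      have := congrArg (fun f => f (Ideal.Quotient.mk P b)) hn'
      exact this
    rw [Ideal.Quotient.eq] at h1
    have hst : ((n' : N) : G) • P = P := n'.2
    have h2 : ((n' : N) : G)⁻¹ • ((((n' : N) : G)) • b - ((n : G)⁻¹ * g) • b) ∈ P := by
      rw [← Ideal.mem_pointwise_smul_iff_inv_smul_mem, hst]
      exact h1
    have h3 : (((n' : N) : G)⁻¹ * ((n : G)⁻¹ * g)) • b - b =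
        -(((n' : N) : G)⁻¹ • ((((n' : N) : G)) • b - ((n : G)⁻¹ * g) • b)) := by
      rw [smul_sub, inv_smul_smul, mul_smul]
      ring
    rw [h3]
    exact neg_mem h2
  have hPbot : P ≠ ⊥ := by
    rintro rfl
    apply w'.ne_bot
    rw [← hPw]
    exact Ideal.comap_bot_of_injective _ (FaithfulSMul.algebraMap_injective _ _)
  have hnotS : ¬ IsAbove S L ⟨P, hP, hPbot⟩ := by
    rintro ⟨q, hqS, hqP⟩
    apply hw'
    refine ⟨q, hqS, ?_⟩
    rw [← hPw, Ideal.mem_comap, map_natCast]
    exact hqP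
  have htriv := h ⟨P, hP, hPbot⟩ hnotS _ hkey
  -- conclude
  apply Subtype.ext
  rw [coe_quotAct_smul]
  have h4 := htriv (x : L)
  have h5 : g • (x : L) = ((n : G) * ((n' : N) : G)) •
      ((((n' : N) : G)⁻¹ * ((n : G)⁻¹ * g)) • (x : L)) := by
    rw [← mul_smul]
    congr 1
    group
  rw [h5, h4]
  exact x.2 (n * n')

end Hyps

end Fermat.Agent.S55.G.UpH119

end
end
-- ===== PACK-END S55/G/UpH119/Quot.lean

-- ===== PACK-BEGIN S14/H163/CharBound.lean
section



/-!
# S14 density: piece (C) `CharBound` of helper34's interface (helper163)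

Primes in the kernel of a class group character of prime order `p` have density at most `1/p`:
`(∏_{v ∈ T} (1 + N v^(-s)))^p ≤ C ζ_K(s)` for finite `T ⊆ {χ(v) = 1}`, given boundedness of
`L(s, χ^k)`, `0 < k < p`, on `(1, 2]`.
-/

set_option autoImplicit false
set_option linter.unusedSectionVars false

namespace Fermat.Agent.S14.H163

open NumberField IsDedekindDomain Filter Topology
open scoped nonZeroDivisors

/-- Partial products of a real `HasProd` with factors `≥ 1` are bounded by the limit. -/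
theorem prod_le_of_hasProd {ι : Type*} {f : ι → ℝ} {a : ℝ} (h : HasProd f a)
    (h1 : ∀ i, 1 ≤ f i) (T : Finset ι) : ∏ i ∈ T, f i ≤ a := by
  classical
  have h' : Tendsto (fun s : Finset ι => ∏ b ∈ s, f b) atTop (𝓝 a) := h
  refine ge_of_tendsto h' ?_
  filter_upwards [eventually_ge_atTop T] with T' hT'
  rw [← Finset.prod_sdiff hT']
  have h2 : (1 : ℝ) ≤ ∏ i ∈ T' \ T, f i := by
    have := Finset.prod_le_prod (s := T' \ T) (f := fun _ => (1 : ℝ)) (g := f)
      (fun _ _ => zero_le_one) (fun i _ => h1 i)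
    simpa using this
  have h3 : 0 ≤ ∏ i ∈ T, f i := Finset.prod_nonneg fun i _ => le_trans zero_le_one (h1 i)
  nlinarith

section Local

/-- The local Euler factor identity for a `p`-th root of unity `ω`, `p` prime. -/
theorem prod_one_sub_pow_mul {p : ℕ} (hp : p.Prime) {ω : ℂ} (hω : ω ^ p = 1) (x : ℂ) :
    ∏ k ∈ Finset.range p, (1 - ω ^ k * x) = if ω = 1 then (1 - x) ^ p else 1 - x ^ p := by
  classical
  split_ifs with h1
  · subst h1
    simp
  · haveI := Fact.mk hp
    have hord : orderOf ω = p := orderOf_eq_prime hω h1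
    have hprim : IsPrimitiveRoot ω p := hord ▸ IsPrimitiveRoot.orderOf ω
    have hset : Polynomial.nthRootsFinset p (1 : ℂ) = (Finset.range p).image (fun k => ω ^ k) := by
      symm
      apply Finset.eq_of_subset_of_card_le
      · intro z hz
        obtain ⟨k, -, rfl⟩ := Finset.mem_image.mp hz
        rw [Polynomial.mem_nthRootsFinset hp.pos]
        rw [← pow_mul, mul_comm, pow_mul, hω, one_pow]
      · rw [hprim.card_nthRootsFinset, Finset.card_image_of_injOn, Finset.card_range]
        intro i hi j hj hij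
        exact hprim.pow_inj (Finset.mem_range.mp hi) (Finset.mem_range.mp hj) hij
    have := hprim.pow_sub_pow_eq_prod_sub_mul (1 : ℂ) x hp.pos
    rw [one_pow, hset, Finset.prod_image] at this
    · exact this.symm
    · intro i hi j hj hij
      exact hprim.pow_inj (Finset.mem_range.mp hi) (Finset.mem_range.mp hj) hij

/-- The norm of the inverse local factor is `≥ 1`, and is `(1 - x)^(-p)` when `ω = 1`. -/
theorem local_factor {p : ℕ} (hp : p.Prime) {ω : ℂ} (hω : ω ^ p = 1) {x : ℝ} (hx0 : 0 < x)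
    (hx1 : x < 1) :
    1 ≤ ‖∏ k ∈ Finset.range p, (1 - ω ^ k * (x : ℂ))⁻¹‖ ∧
      (ω = 1 → (1 + x) ^ p ≤ ‖∏ k ∈ Finset.range p, (1 - ω ^ k * (x : ℂ))⁻¹‖) := by
  rw [Finset.prod_inv_distrib, norm_inv, prod_one_sub_pow_mul hp hω]
  have h1x : 0 < 1 - x := by linarith
  split_ifs with h1
  · have hn : ‖((1 : ℂ) - (x : ℂ)) ^ p‖ = (1 - x) ^ p := by
      rw [norm_pow, ← Complex.ofReal_one, ← Complex.ofReal_sub, Complex.norm_real,
        Real.norm_of_nonneg h1x.le]
    rw [hn]
    have hpos : 0 < (1 - x) ^ p := pow_pos h1x p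
    have hle : (1 - x) ^ p ≤ 1 := pow_le_one₀ h1x.le (by linarith)
    refine ⟨(one_le_inv₀ hpos).mpr hle, fun _ => ?_⟩
    rw [← inv_pow]
    apply pow_le_pow_left₀ (by linarith)
    rw [← one_div, le_div_iff₀ h1x]
    nlinarith
  · have hxp : 0 < x ^ p := pow_pos hx0 p
    have hxp1 : x ^ p < 1 := pow_lt_one₀ hx0.le hx1 hp.ne_zero
    have hn : ‖(1 : ℂ) - (x : ℂ) ^ p‖ = 1 - x ^ p := by
      rw [← Complex.ofReal_one, ← Complex.ofReal_pow, ← Complex.ofReal_sub, Complex.norm_real,
        Real.norm_of_nonneg (by linarith)]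
    rw [hn]
    refine ⟨(one_le_inv₀ (by linarith)).mpr (by linarith), fun h => absurd h h1⟩

end Local

variable {K : Type*} [Field K] [NumberField K]

/-- The monoid hom `I ↦ χ([I]) N(I)^(-s)`. -/
noncomputable def twist (χ : ClassGroup (𝓞 K) →* ℂˣ) (s : ℝ) : (Ideal (𝓞 K))⁰ →* ℂ :=
  ((Units.coeHom ℂ).comp (χ.comp ClassGroup.mk0)) *
    ((Complex.ofRealHom : ℝ →+* ℂ).toMonoidHom.comp (normPow s))

theorem twist_apply (χ : ClassGroup (𝓞 K) →* ℂˣ) (s : ℝ) (I : (Ideal (𝓞 K))⁰) :
    twist χ s I = (χ (ClassGroup.mk0 I) : ℂ) * ((normPow s I : ℝ) : ℂ) := rfl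

theorem norm_char_eq_one {n : ℕ} (hn : n ≠ 0) {χ : ClassGroup (𝓞 K) →* ℂˣ} (hχ : χ ^ n = 1)
    (c : ClassGroup (𝓞 K)) : ‖(χ c : ℂ)‖ = 1 := by
  have h1 : (χ c) ^ n = 1 := by
    have := congrArg (fun ψ : ClassGroup (𝓞 K) →* ℂˣ => ψ c) hχ
    simpa using this
  have h2 : ((χ c : ℂ)) ^ n = 1 := by
    have := congrArg (fun u : ℂˣ => (u : ℂ)) h1
    simpa using this
  have h3 : ‖(χ c : ℂ)‖ ^ n = 1 := by rw [← norm_pow, h2, norm_one]
  exact (pow_eq_one_iff_of_nonneg (norm_nonneg _) hn).mp h3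

theorem norm_twist {n : ℕ} (hn : n ≠ 0) {χ : ClassGroup (𝓞 K) →* ℂˣ} (hχ : χ ^ n = 1) (s : ℝ)
    (I : (Ideal (𝓞 K))⁰) : ‖twist χ s I‖ = normPow s I := by
  rw [twist_apply, norm_mul, norm_char_eq_one hn hχ, one_mul, Complex.norm_real,
    Real.norm_of_nonneg (normPow_pos s I).le]

theorem lser_eq_tsum_twist (χ : ClassGroup (𝓞 K) →* ℂˣ) (s : ℝ) :
    H34.Lser K χ s = ∑' I : (Ideal (𝓞 K))⁰, twist χ s I := rfl

theorem hasProd_lser {n : ℕ} (hn : n ≠ 0) {χ : ClassGroup (𝓞 K) →* ℂˣ} (hχ : χ ^ n = 1)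
    {s : ℝ} (hs : 1 < s) :
    HasProd (fun v : HeightOneSpectrum (𝓞 K) => (1 - twist χ s (toI0 v))⁻¹) (H34.Lser K χ s) := by
  rw [lser_eq_tsum_twist]
  apply hasProd_ideal
  refine (summable_normPow hs).congr fun I => ?_
  rw [norm_twist hn hχ]

theorem lser_one (s : ℝ) : H34.Lser K (1 : ClassGroup (𝓞 K) →* ℂˣ) s = (zetaR K s : ℂ) := by
  unfold H34.Lser zetaR
  rw [Complex.ofReal_tsum]
  refine tsum_congr fun I => ?_
  simp
  rfl

theorem normPow_prime_lt_one {s : ℝ} (hs : 0 < s) (v : HeightOneSpectrum (𝓞 K)) :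
    normPow s (toI0 v) < 1 := by
  rw [normPow_apply]
  have h2 : (1 : ℝ) < (Ideal.absNorm ((toI0 v : (Ideal (𝓞 K))⁰) : Ideal (𝓞 K)) : ℝ) := by
    have h1 : Ideal.absNorm v.asIdeal ≠ 1 := by
      rw [Ne, Ideal.absNorm_eq_one_iff]
      exact v.isPrime.ne_top
    have h0 := absNorm_pos (toI0 v)
    have : 1 < Ideal.absNorm v.asIdeal := by
      rw [toI0_coe] at h0
      omega
    exact_mod_cast this
  exact Real.rpow_lt_one_of_one_lt_of_neg h2 (by linarith)

/-- Piece (C): primes in the kernel of a character of order `p` have density at most `1/p`. -/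
theorem charBound (K : Type*) [Field K] [NumberField K] : H34.CharBound K := by
  intro p hp χ hχp hN1
  classical
  choose! B hB using hN1
  obtain ⟨m, rfl⟩ : ∃ m, p = m + 1 := ⟨p - 1, by have := hp.pos; omega⟩
  refine ⟨∏ k ∈ Finset.range m, (|B (k + 1)| + 1), ?_, fun s hs1 hs2 T hT => ?_⟩
  · exact Finset.prod_pos fun k _ => by positivity
  have hχk : ∀ k : ℕ, (χ ^ k) ^ (m + 1) = 1 := fun k => by
    ext c
    have h1 := DFunLike.congr_fun hχp c
    simp only [MonoidHom.pow_apply, MonoidHom.one_apply] at h1 ⊢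
    rw [← pow_mul, mul_comm, pow_mul, h1, one_pow]
  -- Euler products
  have hprod := hasProd_prod (s := Finset.range (m + 1))
    (f := fun k (v : HeightOneSpectrum (𝓞 K)) => (1 - twist (χ ^ k) s (toI0 v))⁻¹)
    (a := fun k => H34.Lser K (χ ^ k) s)
    (fun k _ => hasProd_lser hp.ne_zero (hχk k) hs1)
  have hnorm := hprod.norm
  -- local factors
  have hloc : ∀ v : HeightOneSpectrum (𝓞 K),
      (fun k => (1 - twist (χ ^ k) s (toI0 v))⁻¹) =
        fun k => (1 - ((χ (ClassGroup.mk0 (toI0 v)) : ℂˣ) : ℂ) ^ k *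
          ((normPow s (toI0 v) : ℝ) : ℂ))⁻¹ := by
    intro v
    funext k
    rw [twist_apply]
    simp
  have hω : ∀ v : HeightOneSpectrum (𝓞 K),
      (((χ (ClassGroup.mk0 (toI0 v)) : ℂˣ) : ℂ)) ^ (m + 1) = 1 := by
    intro v
    have h1 : (χ (ClassGroup.mk0 (toI0 v))) ^ (m + 1) = 1 := by
      have := congrArg (fun ψ : ClassGroup (𝓞 K) →* ℂˣ => ψ (ClassGroup.mk0 (toI0 v))) hχp
      simpa using this
    have := congrArg (fun u : ℂˣ => (u : ℂ)) h1
    simpa using this
  have hs0 : 0 < s := by linarith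
  have hge : ∀ v : HeightOneSpectrum (𝓞 K),
      1 ≤ ‖∏ k ∈ Finset.range (m + 1), (1 - twist (χ ^ k) s (toI0 v))⁻¹‖ := by
    intro v
    rw [hloc v]
    exact (local_factor hp (hω v) (normPow_pos s _) (normPow_prime_lt_one hs0 v)).1
  have hT' : ∀ v ∈ T, (1 + H34.pN s v) ^ (m + 1) ≤
      ‖∏ k ∈ Finset.range (m + 1), (1 - twist (χ ^ k) s (toI0 v))⁻¹‖ := by
    intro v hv
    rw [hloc v]
    refine (local_factor hp (hω v) (normPow_pos s _) (normPow_prime_lt_one hs0 v)).2 ?_
    have := hT v hv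
    rw [primeNZ_eq_toI0] at this
    rw [this]
    simp
  calc (∏ v ∈ T, (1 + H34.pN s v)) ^ (m + 1)
      = ∏ v ∈ T, (1 + H34.pN s v) ^ (m + 1) := (Finset.prod_pow _ _ _).symm
    _ ≤ ∏ v ∈ T, ‖∏ k ∈ Finset.range (m + 1), (1 - twist (χ ^ k) s (toI0 v))⁻¹‖ := by
        apply Finset.prod_le_prod
        · intro v _
          have : 0 < H34.pN s v := normPow_pos s _
          positivity
        · exact hT'
    _ ≤ ‖∏ k ∈ Finset.range (m + 1), H34.Lser K (χ ^ k) s‖ := prod_le_of_hasProd hnorm hge T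
    _ = (∏ k ∈ Finset.range m, ‖H34.Lser K (χ ^ (k + 1)) s‖) * ‖H34.Lser K (χ ^ 0) s‖ := by
        rw [norm_prod, Finset.prod_range_succ']
    _ ≤ (∏ k ∈ Finset.range m, (|B (k + 1)| + 1)) * H34.zetaI K s := by
        have hz : ‖H34.Lser K (χ ^ 0) s‖ = H34.zetaI K s := by
          rw [pow_zero, lser_one, Complex.norm_real, Real.norm_of_nonneg (zetaR_pos hs1).le]
          rfl
        rw [hz]
        apply mul_le_mul_of_nonneg_right _ (by rw [zetaI_eq_zetaR]; exact (zetaR_pos hs1).le)
        apply Finset.prod_le_prod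
        · intro k _
          exact norm_nonneg _
        · intro k hk
          have hk' := Finset.mem_range.mp hk
          have := hB (k + 1) (by omega) (by omega) s hs1 hs2
          have h2 : B (k + 1) ≤ |B (k + 1)| := le_abs_self _
          linarith

end Fermat.Agent.S14.H163

end
-- ===== PACK-END S14/H163/CharBound.lean

-- ===== PACK-BEGIN S55/G/Rec/Glob/CyclicFinite.lean
section




/-!
# S55 / REC / K4, finite-level core (helper64)

`exists_cupChar_of_res_coboundary` : let `E / K` be a finite Galois extension, `Γ = Gal(E/K)`,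
`χ : Γ →* ℤ/n` a surjective character and `c` a 2-cocycle of `Γ` with values in `Eˣ` whose
restriction to `ker χ` is a coboundary.  Then `c` is cohomologous to the cup cocycle
`(γ, δ) ↦ a ^ carry(χ γ, χ δ)` for some `a ∈ Kˣ`.

Proof: inflation–restriction for the tower `K ⊆ L = E^{ker χ} ⊆ E`
(`Local/H64/GalInfRes.lean`, Hilbert 90) and the explicit description of the second cohomology of
a cyclic group (`H379.exists_cupChar_cohomologous`).
-/

set_option autoImplicit false
set_option linter.style.haveILetI false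

namespace Fermat.Agent.S55.G.Rec.Glob

open groupCohomology Fermat.Agent.S55.Local.H64 Fermat.Agent.S55.G.Rec

/-- The additive action on `Additive M` attached to a multiplicative action on `M`. -/
@[reducible] def addAct (G M : Type) [Group G] [CommGroup M] [MulDistribMulAction G M] :
    DistribMulAction G (Additive M) where
  smul g x := Additive.ofMul (g • Additive.toMul x)
  one_smul x := by
    change Additive.ofMul ((1 : G) • Additive.toMul x) = x
    rw [one_smul]; rfl
  mul_smul g h x := by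
    change Additive.ofMul ((g * h) • Additive.toMul x) =
      Additive.ofMul (g • Additive.toMul (Additive.ofMul (h • Additive.toMul x)))
    rw [mul_smul]; rfl
  smul_zero g := by
    change Additive.ofMul (g • (1 : M)) = 0
    rw [smul_one]; rfl
  smul_add g x y := by
    change Additive.ofMul (g • (Additive.toMul x * Additive.toMul y)) =
      Additive.ofMul (g • Additive.toMul x) + Additive.ofMul (g • Additive.toMul y)
    rw [smul_mul']; rfl

section Finite

variable (K E : Type) [Field K] [Field E] [Algebra K E] [FiniteDimensional K E] [IsGalois K E]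

/-- **K4, finite level.** -/
theorem exists_cupChar_of_res_coboundary (n : ℕ) [NeZero n]
    (χ : (E ≃ₐ[K] E) →* Multiplicative (ZMod n)) (hχ : Function.Surjective χ)
    (c : (E ≃ₐ[K] E) × (E ≃ₐ[K] E) → Eˣ) (hc : IsMulCocycle₂ c)
    (β : χ.ker → Eˣ)
    (hβ : ∀ s t : χ.ker, (s : E ≃ₐ[K] E) • β t / β (s * t) * β s = c ((s : E ≃ₐ[K] E), t)) :
    ∃ (a : Kˣ) (w : (E ≃ₐ[K] E) → Eˣ), ∀ γ δ : E ≃ₐ[K] E,
      c (γ, δ) = (γ • w δ / w (γ * δ) * w γ) *
        (Units.map (algebraMap K E : K →* E) a) ^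
          (H379.carry n (Multiplicative.toAdd (χ γ)) (Multiplicative.toAdd (χ δ))) := by
  classical
  -- the fixed field of `ker χ`
  let L : IntermediateField K E := IntermediateField.fixedField χ.ker
  haveI : IsGalois K L := IsGalois.of_fixedField_normal_subgroup χ.ker
  have hfix : L.fixingSubgroup = χ.ker := IntermediateField.fixingSubgroup_fixedField χ.ker
  have hmem : ∀ τ : E ≃ₐ[L] E, τ.restrictScalars K ∈ χ.ker := by
    intro τ
    rw [← hfix, IntermediateField.mem_fixingSubgroup_iff]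
    intro x hx
    exact τ.commutes ⟨x, hx⟩
  -- the restriction of `c` to `Gal(E/L)` is a coboundary
  have hres : IsMulCoboundary₂ (resCochain K L E c) := by
    refine ⟨fun τ => β ⟨τ.restrictScalars K, hmem τ⟩, fun τ τ' => ?_⟩
    exact hβ ⟨τ.restrictScalars K, hmem τ⟩ ⟨τ'.restrictScalars K, hmem τ'⟩
  obtain ⟨c₁, hc₁, y, hy⟩ := exists_inflCochain_of_resCochain K L E hc hres
  -- the character of `Gal(L/K)`
  have hsurjL : Function.Surjective (AlgEquiv.restrictNormalHom (F := K) (K₁ := E) L) :=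
    AlgEquiv.restrictNormalHom_surjective E
  have hkerL : (AlgEquiv.restrictNormalHom (F := K) (K₁ := E) L).ker = χ.ker := by
    rw [IntermediateField.restrictNormalHom_ker, hfix]
  let χL : (L ≃ₐ[K] L) →* Multiplicative (ZMod n) :=
    MonoidHom.liftOfSurjective (AlgEquiv.restrictNormalHom (F := K) (K₁ := E) L) hsurjL
      ⟨χ, hkerL.le⟩
  have hχL : ∀ γ : E ≃ₐ[K] E, χL (AlgEquiv.restrictNormalHom L γ) = χ γ := fun γ =>
    MonoidHom.liftOfRightInverse_comp_apply _ _ _ _ γ
  let ψ : (L ≃ₐ[K] L) → ZMod n := fun σ => Multiplicative.toAdd (χL σ)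
  have hψadd : ∀ g h, ψ (g * h) = ψ g + ψ h := by
    intro g h
    simp only [ψ, map_mul, toAdd_mul]
  have hψinj : Function.Injective ψ := by
    intro σ σ' h
    have h1 : χL σ = χL σ' := Multiplicative.toAdd.injective h
    obtain ⟨γ, rfl⟩ := hsurjL σ
    obtain ⟨γ', rfl⟩ := hsurjL σ'
    rw [hχL, hχL] at h1
    have h2 : γ⁻¹ * γ' ∈ (AlgEquiv.restrictNormalHom (F := K) (K₁ := E) L).ker := by
      rw [hkerL, MonoidHom.mem_ker, map_mul, map_inv, h1, inv_mul_cancel]
    rw [MonoidHom.mem_ker, map_mul, map_inv, inv_mul_eq_one] at h2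
    exact h2
  obtain ⟨γ₀, hγ₀⟩ := hχ (Multiplicative.ofAdd 1)
  have hψσ : ψ (AlgEquiv.restrictNormalHom L γ₀) = 1 := by
    simp only [ψ, hχL, hγ₀, toAdd_ofAdd]
  -- cyclic periodicity at the level of `L / K`
  obtain ⟨aL, haLfix, z, hz⟩ : ∃ (aL : (↥L)ˣ) (_ : ∀ σ : L ≃ₐ[K] L, σ • aL = aL)
      (z : (L ≃ₐ[K] L) → (↥L)ˣ), ∀ σ τ : L ≃ₐ[K] L,
        σ • z τ / z (σ * τ) * z σ = c₁ (σ, τ) / aL ^ (H379.carry n (ψ σ) (ψ τ)) := by
    letI := addAct (L ≃ₐ[K] L) (↥L)ˣ
    have hf : IsCocycle₂ (fun p : (L ≃ₐ[K] L) × (L ≃ₐ[K] L) => Additive.ofMul (c₁ p)) := by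
      intro g h j
      exact congrArg Additive.ofMul (hc₁ g h j)
    obtain ⟨aA, haA, z, hz⟩ := H379.exists_cupChar_cohomologous hψadd hψinj hψσ hf
    refine ⟨Additive.toMul aA, fun σ => congrArg Additive.toMul (haA σ),
      fun σ => Additive.toMul (z σ), fun σ τ => ?_⟩
    have := congrArg Additive.toMul (hz σ τ)
    simp only [Pi.sub_apply, H379.cupChar_apply] at this
    exact this
  -- `a` comes from `K`
  have haK : ((aL : (↥L)ˣ) : L) ∈ (⊥ : IntermediateField K L) := by
    rw [IsGalois.mem_bot_iff_fixed]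
    intro σ
    have := congrArg (fun m : (↥L)ˣ => (m : L)) (haLfix σ)
    exact this
  obtain ⟨k, hk⟩ := IntermediateField.mem_bot.1 haK
  have hk0 : k ≠ 0 := by
    rintro rfl
    rw [map_zero] at hk
    exact aL.ne_zero hk.symm
  have haL : Units.map (algebraMap K L : K →* L) (Units.mk0 k hk0) = aL :=
    Units.ext hk
  refine ⟨Units.mk0 k hk0, fun γ => y γ * unitsInc L E
    (z (AlgEquiv.restrictNormalHom L γ)), fun γ δ => ?_⟩
  -- assemble
  have h1 := hy γ δ
  have e1 : unitsInc L E aL = Units.map (algebraMap K E : K →* E) (Units.mk0 k hk0) := by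
    rw [← haL]
    apply Units.ext
    exact (IsScalarTower.algebraMap_apply K L E k).symm
  have hχγ : ψ (AlgEquiv.restrictNormalHom L γ) = Multiplicative.toAdd (χ γ) := by
    simp only [ψ, hχL]
  have hχδ : ψ (AlgEquiv.restrictNormalHom L δ) = Multiplicative.toAdd (χ δ) := by
    simp only [ψ, hχL]
  have h3 := congrArg (unitsInc L E)
    (hz (AlgEquiv.restrictNormalHom L γ) (AlgEquiv.restrictNormalHom L δ))
  rw [hχγ, hχδ, map_mul, map_div, unitsInc_smul, map_div, map_pow, e1, ← map_mul] at h3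
  simp only [inflCochain_apply] at h1
  -- now pure group algebra in `Eˣ`
  have h4 : unitsInc L E (c₁ (AlgEquiv.restrictNormalHom L γ, AlgEquiv.restrictNormalHom L δ)) =
      c (γ, δ) / (γ • y δ / y (γ * δ) * y γ) := by
    rw [h1]
    simp only [div_div_cancel]
  rw [h4] at h3
  simp only [smul_mul']
  generalize unitsInc L E (z ((AlgEquiv.restrictNormalHom L) δ)) = Z1 at h3 ⊢
  generalize unitsInc L E (z ((AlgEquiv.restrictNormalHom L) (γ * δ))) = Z2 at h3 ⊢
  generalize unitsInc L E (z ((AlgEquiv.restrictNormalHom L) γ)) = Z3 at h3 ⊢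
  generalize (Units.map (algebraMap K E : K →* E) (Units.mk0 k hk0)) ^
    (H379.carry n (Multiplicative.toAdd (χ γ)) (Multiplicative.toAdd (χ δ))) = P at h3 ⊢
  generalize γ • y δ = Y1 at h3 ⊢
  generalize y (γ * δ) = Y2 at h3 ⊢
  generalize y γ = Y3 at h3 ⊢
  generalize γ • Z1 = Z1' at h3 ⊢
  generalize c (γ, δ) = C at h3 ⊢
  have h5 : C = (Z1' / Z2 * Z3) * P * (Y1 / Y2 * Y3) := by
    rw [h3, div_mul_cancel, div_mul_cancel]
  rw [h5]
  simp only [div_eq_mul_inv, mul_inv_rev]
  ac_rfl

end Finite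

end Fermat.Agent.S55.G.Rec.Glob

end
-- ===== PACK-END S55/G/Rec/Glob/CyclicFinite.lean

-- ===== PACK-BEGIN S55/L/H355/Hensel.lean
section


/-!
# S55, layer L, helper355: units of a complete DVR with finite residue field are killed by every
homomorphism to `ℤ`

Consequences: compatibility of rings of integers in extensions and under automorphisms.
-/

set_option autoImplicit false
set_option linter.style.haveILetI false

namespace Fermat.Agent.S55.L.H355

open Fermat.Agent.S55.L

section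

variable {K : Type} [Field K] {A : ValuationSubring K}

theorem card_residue_cast_eq_zero (hA : IsLocalRingOfIntegers A) :
    ((Nat.card (IsLocalRing.ResidueField A) : ℕ) : IsLocalRing.ResidueField A) = 0 := by
  haveI : Finite (IsLocalRing.ResidueField A) := hA.2.2
  haveI : Fintype (IsLocalRing.ResidueField A) := Fintype.ofFinite _
  rw [Nat.card_eq_fintype_card]
  exact Nat.cast_card_eq_zero _

theorem one_lt_card_residue (hA : IsLocalRingOfIntegers A) :
    1 < Nat.card (IsLocalRing.ResidueField A) := by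
  haveI : Finite (IsLocalRing.ResidueField A) := hA.2.2
  exact Finite.one_lt_card

/-- Hensel: an element of `1 + 𝔪` is an `n`-th power for every `n ≡ 1` modulo `|k|`. -/
theorem exists_pow_eq_of_sub_one_mem (hA : IsLocalRingOfIntegers A) (a : A)
    (ha : a - 1 ∈ IsLocalRing.maximalIdeal A) (j : ℕ) :
    ∃ w : A, w ^ (Nat.card (IsLocalRing.ResidueField A) * j + 1) = a := by
  haveI : IsAdicComplete (IsLocalRing.maximalIdeal A) A := hA.2.1
  haveI := IsAdicComplete.henselianRing A (IsLocalRing.maximalIdeal A)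
  set n := Nat.card (IsLocalRing.ResidueField A) * j + 1 with hn
  have hn0 : n ≠ 0 := by omega
  have h1 : Polynomial.eval (1 : A) (Polynomial.X ^ n - Polynomial.C a)
      ∈ IsLocalRing.maximalIdeal A := by
    simp only [Polynomial.eval_sub, Polynomial.eval_pow, Polynomial.eval_X, one_pow,
      Polynomial.eval_C]
    have : (1 : A) - a = -(a - 1) := by ring
    rw [this]
    exact (IsLocalRing.maximalIdeal A).neg_mem ha
  have h2 : IsUnit ((Ideal.Quotient.mk (IsLocalRing.maximalIdeal A))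
      (Polynomial.eval (1 : A) (Polynomial.derivative (Polynomial.X ^ n - Polynomial.C a)))) := by
    have hd : Polynomial.eval (1 : A) (Polynomial.derivative (Polynomial.X ^ n - Polynomial.C a))
        = (n : A) := by
      simp [Polynomial.derivative_X_pow]
    rw [hd, map_natCast]
    have hq := card_residue_cast_eq_zero hA
    have : ((n : ℕ) : A ⧸ IsLocalRing.maximalIdeal A) = 1 := by
      rw [hn]
      push_cast
      have hq' : ((Nat.card (IsLocalRing.ResidueField A) : ℕ) :
          A ⧸ IsLocalRing.maximalIdeal A) = 0 := hq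
      rw [hq']
      simp
    rw [this]
    exact isUnit_one
  obtain ⟨w, hw, -⟩ := HenselianRing.is_henselian (R := A) (I := IsLocalRing.maximalIdeal A)
    (Polynomial.X ^ n - Polynomial.C a) (Polynomial.monic_X_pow_sub_C a hn0) 1 h1 h2
  refine ⟨w, ?_⟩
  have := hw
  simp only [Polynomial.IsRoot, Polynomial.eval_sub, Polynomial.eval_pow, Polynomial.eval_X,
    Polynomial.eval_C] at this
  exact sub_eq_zero.1 this

/-- A homomorphism to `ℤ` kills principal units. -/
theorem hom_principalUnit_eq_one (hA : IsLocalRingOfIntegers A) (v : Kˣ →* Multiplicative ℤ)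
    {u : Kˣ} (huA : (u : K) ∈ A) (hu : (⟨(u : K), huA⟩ : A) - 1 ∈ IsLocalRing.maximalIdeal A) :
    v u = 1 := by
  set t : ℤ := Multiplicative.toAdd (v u) with ht
  have hdiv : ∀ j : ℕ, ((Nat.card (IsLocalRing.ResidueField A) * j + 1 : ℕ) : ℤ) ∣ t := by
    intro j
    obtain ⟨w, hw⟩ := exists_pow_eq_of_sub_one_mem hA ⟨(u : K), huA⟩ hu j
    have hwK : (w : K) ^ (Nat.card (IsLocalRing.ResidueField A) * j + 1) = (u : K) := by
      have := congrArg Subtype.val hw
      simpa using this
    have hw0 : (w : K) ≠ 0 := by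
      intro h0
      rw [h0, zero_pow (by omega)] at hwK
      exact u.ne_zero hwK.symm
    have hW : (Units.mk0 (w : K) hw0) ^ (Nat.card (IsLocalRing.ResidueField A) * j + 1) = u := by
      apply Units.ext
      simpa using hwK
    refine ⟨Multiplicative.toAdd (v (Units.mk0 (w : K) hw0)), ?_⟩
    rw [ht, ← hW, map_pow]
    simp
  have hq := one_lt_card_residue hA
  by_contra hne
  have ht0 : t ≠ 0 := by
    intro h0
    apply hne
    have : Multiplicative.toAdd (v u) = Multiplicative.toAdd (1 : Multiplicative ℤ) := by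
      rw [← ht, h0]; rfl
    exact Multiplicative.toAdd.injective this
  have h1 := hdiv t.natAbs
  have h2 := Int.le_of_dvd (Int.natAbs_pos.2 ht0 |> Int.natCast_pos.2)
    ((Int.dvd_natAbs).2 h1)
  have h3 : (t.natAbs : ℤ) < ((Nat.card (IsLocalRing.ResidueField A) * t.natAbs + 1 : ℕ) : ℤ) := by
    have h4 : t.natAbs ≤ Nat.card (IsLocalRing.ResidueField A) * t.natAbs :=
      Nat.le_mul_of_pos_left _ (by omega)
    have : t.natAbs < Nat.card (IsLocalRing.ResidueField A) * t.natAbs + 1 := by omega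
    exact_mod_cast this
  omega

/-- **(H)** A homomorphism to `ℤ` kills the units of a complete DVR with finite residue field. -/
theorem hom_unitGroup_eq_one (hA : IsLocalRingOfIntegers A) (v : Kˣ →* Multiplicative ℤ)
    {u : Kˣ} (hu : u ∈ A.unitGroup) : v u = 1 := by
  haveI : Finite (IsLocalRing.ResidueField A) := hA.2.2
  haveI : Fintype (IsLocalRing.ResidueField A) := Fintype.ofFinite _
  have hq := one_lt_card_residue hA
  set q := Nat.card (IsLocalRing.ResidueField A) with hqdef
  -- `u ^ (q - 1)` is a principal unit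
  have huval : A.valuation (u : K) = 1 := (A.mem_unitGroup_iff u).1 hu
  have huA : (u : K) ∈ A := (A.valuation_le_one_iff _).1 huval.le
  have hunit : IsUnit (⟨(u : K), huA⟩ : A) := (A.valuation_eq_one_iff _).2 huval
  have hres : IsLocalRing.residue A ⟨(u : K), huA⟩ ≠ 0 := by
    rw [Ne, IsLocalRing.residue_eq_zero_iff]
    exact IsLocalRing.notMem_maximalIdeal.2 hunit
  have hpow : (IsLocalRing.residue A ⟨(u : K), huA⟩) ^ (q - 1) = 1 := by
    have := FiniteField.pow_card_sub_one_eq_one _ hres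
    rwa [← Nat.card_eq_fintype_card] at this
  have hu'A : ((u ^ (q - 1) : Kˣ) : K) ∈ A := by
    rw [Units.val_pow_eq_pow_val]
    exact A.pow_mem huA _
  have hprinc : (⟨((u ^ (q - 1) : Kˣ) : K), hu'A⟩ : A) - 1 ∈ IsLocalRing.maximalIdeal A := by
    rw [← IsLocalRing.residue_eq_zero_iff, map_sub, map_one, sub_eq_zero]
    have : (⟨((u ^ (q - 1) : Kˣ) : K), hu'A⟩ : A) = (⟨(u : K), huA⟩ : A) ^ (q - 1) := by
      apply Subtype.ext
      simp
    rw [this, map_pow, hpow]
  have h1 := hom_principalUnit_eq_one hA v hu'A hprinc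
  rw [map_pow] at h1
  have h2 : (q - 1 : ℕ) • Multiplicative.toAdd (v u) = 0 := by
    have := congrArg Multiplicative.toAdd h1
    simpa using this
  have h3 : Multiplicative.toAdd (v u) = 0 := by
    rcases smul_eq_zero.1 h2 with h | h
    · omega
    · exact h
  exact Multiplicative.toAdd.injective h3

end

section Ext

variable {K L : Type} [Field K] [Field L] {A : ValuationSubring K} {B : ValuationSubring L}

/-- Units of the ring of integers of `K` map to units of any discrete valuation subring of any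
field receiving `K`. -/
theorem map_mem_unitGroup (hA : IsLocalRingOfIntegers A) (hB : IsDiscreteValuationRing B)
    (τ : K →+* L) {u : Kˣ} (hu : u ∈ A.unitGroup) : Units.map (τ : K →* L) u ∈ B.unitGroup := by
  obtain ⟨ϖ, hϖ⟩ := exists_isUniformizer hB
  have := hom_unitGroup_eq_one hA ((ordHom hB hϖ).comp (Units.map (τ : K →* L))) hu
  rw [MonoidHom.comp_apply] at this
  rw [← ordZ_eq_zero_iff hB hϖ]
  have h2 := congrArg Multiplicative.toAdd this
  simpa using h2

/-- Integers of `K` map to integers of `L`, if some uniformizer of `K` is a non-unit of `B`. -/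
theorem map_mem_of_mem (hA : IsLocalRingOfIntegers A) (hB : IsDiscreteValuationRing B)
    (τ : K →+* L) {π : K} (hπ : IsUniformizer A π) (hπB : τ π ∈ B) {x : K} (hx : x ∈ A) :
    τ x ∈ B := by
  by_cases h0 : x = 0
  · rw [h0, map_zero]; exact B.zero_mem
  have hAd : IsDiscreteValuationRing A := hA.1
  have hm : 0 ≤ ordZ A π (Units.mk0 x h0) := (ordZ_nonneg_iff hAd hπ _).2 hx
  obtain ⟨m, hm'⟩ := Int.eq_ofNat_of_zero_le hm
  -- `x = π ^ m * u`
  have hπ0 : π ≠ 0 := isUniformizer_ne_zero hπ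
  set u : Kˣ := Units.mk0 x h0 * (Units.mk0 π hπ0) ^ (-(m : ℤ)) with hu
  have hord : ordZ A π u = 0 := by
    rw [hu, ordZ_mul hAd hπ, ordZ_zpow hAd hπ, ordZ_uniformizer hAd hπ (Units.mk0 π hπ0) rfl, hm']
    ring
  have huU : u ∈ A.unitGroup := (ordZ_eq_zero_iff hAd hπ u).1 hord
  have hx' : x = π ^ m * (u : K) := by
    have e1 : (u : K) = x * (π ^ m)⁻¹ := by
      rw [hu, Units.val_mul, zpow_neg, zpow_natCast, Units.val_inv_eq_inv_val,
        Units.val_pow_eq_pow_val]
      rfl
    rw [e1]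
    field_simp
  have h1 := map_mem_unitGroup hA hB τ huU
  have h2 : τ (u : K) ∈ B := by
    have := (B.mem_unitGroup_iff _).1 h1
    exact (B.valuation_le_one_iff _).1 this.le
  rw [hx', map_mul, map_pow]
  exact B.mul_mem _ _ (B.pow_mem hπB _) h2

end Ext

end Fermat.Agent.S55.L.H355

end
-- ===== PACK-END S55/L/H355/Hensel.lean

-- ===== PACK-BEGIN S55/G/Rec/Loc/Spec.lean
section


/-!
# S55 / layer G / block REC / sub-block LOC : FROZEN INTERFACE

Sub-architect: helper477.  Blueprint: `origin/helper477:coord/S55-REC-LOC.md`.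

Goal of the sub-block (file `Glue.lean`):

  `localInvSystem_of (J : L.InvFamily) (descent) (up) (down) (refine) (res) (unram) (unif) :
      LocalInvSystem`

i.e. the absolute local invariant maps consumed by `ReciprocitySpec` are constructed from the
finite-level invariant maps of layer L.  Every statement below is a leaf: producers prove
`theorem xxx : XxxSpec` (hypotheses = other Specs of layers L / Local / T are welcome:
`theorem xxx_of (h : L.SomeSpec) : XxxSpec`).

Notation: `K_V = fixedFld q V`, `E` an intermediate field of `ℚ̄_q / K_V`, finite Galois over `K_V`.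
-/

set_option autoImplicit false

noncomputable section

namespace Fermat.Agent.S55.G.Rec.Loc

open groupCohomology

/-- **LOC-FD** the fixed field of an open subgroup is finite over `ℚ_q`, and an open subgroup is
the full fixing subgroup of its fixed field. -/
def OpenSpec : Prop :=
  ∀ (q : ℕ) [Fact q.Prime] (V : Subgroup (PadicAlgCl q ≃ₐ[ℚ_[q]] PadicAlgCl q)),
    IsOpenL q V →
      FiniteDimensional ℚ_[q] (fixedFld q V) ∧ (fixedFld q V).fixingSubgroup = V

/-- **LOC-DESC** every level cocycle on an open `V` is the inflation of a cocycle of some finite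
Galois level `E / K_V` (which can be chosen above any given finite extension `E₀`). -/
def DescentSpec : Prop :=
  ∀ (q : ℕ) [Fact q.Prime] (V : Subgroup (PadicAlgCl q ≃ₐ[ℚ_[q]] PadicAlgCl q)),
    IsOpenL q V →
    ∀ (c : ↥(levelCocycles₂ (lHom q V) (lModOn q V)))
      (E₀ : IntermediateField (fixedFld q V) (PadicAlgCl q)),
      FiniteDimensional (fixedFld q V) E₀ →
      ∃ (E : IntermediateField (fixedFld q V) (PadicAlgCl q))
        (_ : FiniteDimensional (fixedFld q V) E) (_ : IsGalois (fixedFld q V) E)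
        (f : cocycles₂ (L.unitsRep (fixedFld q V) E)), E₀ ≤ E ∧ IsAbsInflation q V E f c

/-- **LOC-UP** a finite-level coboundary inflates to a level coboundary. -/
def UpSpec : Prop :=
  ∀ (q : ℕ) [Fact q.Prime] (V : Subgroup (PadicAlgCl q ≃ₐ[ℚ_[q]] PadicAlgCl q)),
    IsOpenL q V →
    ∀ (E : IntermediateField (fixedFld q V) (PadicAlgCl q))
      [FiniteDimensional (fixedFld q V) E] [IsGalois (fixedFld q V) E]
      (f : cocycles₂ (L.unitsRep (fixedFld q V) E))
      (c : ↥(levelCocycles₂ (lHom q V) (lModOn q V))),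
      IsAbsInflation q V E f c → L.cls f = 0 →
        (c : ↥V × ↥V → lModOn q V) ∈ levelCoboundaries₂ (lHom q V) (lModOn q V)

/-- **LOC-DOWN** inflation to the absolute level is injective on classes (Hilbert 90 +
inflation–restriction at finite level). -/
def DownSpec : Prop :=
  ∀ (q : ℕ) [Fact q.Prime] (V : Subgroup (PadicAlgCl q ≃ₐ[ℚ_[q]] PadicAlgCl q)),
    IsOpenL q V →
    ∀ (E : IntermediateField (fixedFld q V) (PadicAlgCl q))
      [FiniteDimensional (fixedFld q V) E] [IsGalois (fixedFld q V) E]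
      (f : cocycles₂ (L.unitsRep (fixedFld q V) E))
      (c : ↥(levelCocycles₂ (lHom q V) (lModOn q V))),
      IsAbsInflation q V E f c →
        (c : ↥V × ↥V → lModOn q V) ∈ levelCoboundaries₂ (lHom q V) (lModOn q V) →
          L.cls f = 0

/-- **LOC-REF** refinement of the level: for `E ≤ E'` a cocycle `f` on `Gal(E/K_V)` has an
inflation `f'` to `Gal(E'/K_V)`, with the same absolute inflation and the same invariant. -/
def RefineSpec : Prop :=
  ∀ (q : ℕ) [Fact q.Prime] (V : Subgroup (PadicAlgCl q ≃ₐ[ℚ_[q]] PadicAlgCl q))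
    [L.IsLocalFld (fixedFld q V)]
    (E E' : IntermediateField (fixedFld q V) (PadicAlgCl q))
    [FiniteDimensional (fixedFld q V) E] [IsGalois (fixedFld q V) E]
    [FiniteDimensional (fixedFld q V) E'] [IsGalois (fixedFld q V) E'],
    E ≤ E' → ∀ f : cocycles₂ (L.unitsRep (fixedFld q V) E),
      ∃ f' : cocycles₂ (L.unitsRep (fixedFld q V) E'),
        (∀ c : ↥(levelCocycles₂ (lHom q V) (lModOn q V)),
          IsAbsInflation q V E f c → IsAbsInflation q V E' f' c) ∧
        ∀ J : L.InvFamily,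
          J.inv (fixedFld q V) E' (L.cls f') = J.inv (fixedFld q V) E (L.cls f)

/-- **LOC-RES** restriction to an open subgroup `V' ≤ V` multiplies the finite-level invariant
by the index. -/
def ResSpec : Prop :=
  ∀ (q : ℕ) [Fact q.Prime] (V V' : Subgroup (PadicAlgCl q ≃ₐ[ℚ_[q]] PadicAlgCl q))
    [L.IsLocalFld (fixedFld q V)] [L.IsLocalFld (fixedFld q V')] (h : V' ≤ V),
    IsOpenL q V' →
    ∀ (c : ↥(levelCocycles₂ (lHom q V) (lModOn q V)))
      (c' : ↥(levelCocycles₂ (lHom q V') (lModOn q V'))),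
      (∀ g k : ↥V', (c' : ↥V' × ↥V' → lModOn q V') (g, k) =
        (c : ↥V × ↥V → lModOn q V) (Subgroup.inclusion h g, Subgroup.inclusion h k)) →
      ∃ (E : IntermediateField (fixedFld q V) (PadicAlgCl q))
        (_ : FiniteDimensional (fixedFld q V) E) (_ : IsGalois (fixedFld q V) E)
        (f : cocycles₂ (L.unitsRep (fixedFld q V) E))
        (E' : IntermediateField (fixedFld q V') (PadicAlgCl q))
        (_ : FiniteDimensional (fixedFld q V') E') (_ : IsGalois (fixedFld q V') E')
        (f' : cocycles₂ (L.unitsRep (fixedFld q V') E')),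
        IsAbsInflation q V E f c ∧ IsAbsInflation q V' E' f' c' ∧
        ∀ J : L.InvFamily,
          J.inv (fixedFld q V') E' (L.cls f') =
            V'.relIndex V • J.inv (fixedFld q V) E (L.cls f)

/-- **LOC-UNR** unramified cocycles with unit values are level coboundaries
(`H²(Gal(K^{ur}/K), 𝒪^×) = 0`); hypotheses exactly as in `LocalInvSystem.inv_unram`. -/
def UnramSpec : Prop :=
  ∀ (q : ℕ) [Fact q.Prime] (V : Subgroup (PadicAlgCl q ≃ₐ[ℚ_[q]] PadicAlgCl q)),
    IsOpenL q V → ∀ c : ↥(levelCocycles₂ (lHom q V) (lModOn q V)),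
      (∀ g h : ↥V, ‖((Additive.toMul ((c : ↥V × ↥V → lModOn q V) (g, h)) :
        (PadicAlgCl q)ˣ) : PadicAlgCl q)‖ = 1) →
      (∀ g h i j : ↥V, IsInertial q (i : PadicAlgCl q ≃ₐ[ℚ_[q]] PadicAlgCl q) →
        IsInertial q (j : PadicAlgCl q ≃ₐ[ℚ_[q]] PadicAlgCl q) →
        (c : ↥V × ↥V → lModOn q V) (g * i, h * j) = (c : ↥V × ↥V → lModOn q V) (g, h)) →
      (∀ g h i : ↥V, IsInertial q (i : PadicAlgCl q ≃ₐ[ℚ_[q]] PadicAlgCl q) →
        (lModOn q V).ρ i ((c : ↥V × ↥V → lModOn q V) (g, h)) =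
          (c : ↥V × ↥V → lModOn q V) (g, h)) →
      (c : ↥V × ↥V → lModOn q V) ∈ levelCoboundaries₂ (lHom q V) (lModOn q V)

/-- **LOC-UNIF** normalisation: the cup of a uniformizer with an unramified character `χ` is
the inflation of a finite-level cocycle of invariant `χ(Frob) / n`; hypotheses exactly as in
`LocalInvSystem.inv_unif`. -/
def UnifSpec : Prop :=
  ∀ (q : ℕ) [Fact q.Prime] (V : Subgroup (PadicAlgCl q ≃ₐ[ℚ_[q]] PadicAlgCl q))
    [L.IsLocalFld (fixedFld q V)],
    IsOpenL q V → ∀ (n : ℕ) [NeZero n] (χ : ↥V →* Multiplicative (ZMod n)),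
      (∀ τ : ↥V, IsInertial q (τ : PadicAlgCl q ≃ₐ[ℚ_[q]] PadicAlgCl q) → χ τ = 1) →
      ∀ (φ : PadicAlgCl q ≃ₐ[ℚ_[q]] PadicAlgCl q) (hφ : IsFrobenius q V φ),
      ∀ π : (PadicAlgCl q)ˣ, IsUniformizer q V (π : PadicAlgCl q) →
      ∀ c : ↥(levelCocycles₂ (lHom q V) (lModOn q V)),
        IsCupChar (toLMod q V π) χ (c : ↥V × ↥V → lModOn q V) →
        ∀ J : L.InvFamily,
          ∃ (E : IntermediateField (fixedFld q V) (PadicAlgCl q))
            (_ : FiniteDimensional (fixedFld q V) E) (_ : IsGalois (fixedFld q V) E)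
            (f : cocycles₂ (L.unitsRep (fixedFld q V) E)),
            IsAbsInflation q V E f c ∧
            J.inv (fixedFld q V) E (L.cls f) =
              (((((Multiplicative.toAdd (χ ⟨φ, hφ.1⟩)).val : ℚ) / (n : ℚ) : ℚ)) :
                AddCircle (1 : ℚ))

end Fermat.Agent.S55.G.Rec.Loc

end
end
-- ===== PACK-END S55/G/Rec/Loc/Spec.lean

-- ===== PACK-BEGIN S55/Local/H959/RamExp.lean
section




/-!
# S55, layer L, piece UR6' (helper959), part 1: the ramification exponent

Elementary consequences of `IsUnif` (no structure theory): for local fields `K ⊆ L` with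
uniformizers `ϖK`, `ϖL` there is a unique `e ≥ 1` with `ϖK = unit * ϖL ^ e`
(`exists_ramExp`, `unif_exp_unique`), `L / K` is unramified iff `e = 1`
(`isUnram_iff_ramExp_eq_one`), and `e` is multiplicative in towers (`ramExp_tower`).
-/

set_option autoImplicit false
set_option linter.unusedSectionVars false

namespace Fermat.Agent.S55.Local.H959

open Fermat.Agent.S55.Local

section Elementary

variable {A F : Type} [CommRing A] [Field F] [Algebra A F]
variable {L : Type} [Field L] [Algebra F L]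

/-- The exponent `n` with `x = unit * ϖ ^ n` is unique. -/
lemma unif_exp_unique {ϖ : Lˣ} (h : IsUnif A F L ϖ) {x : Lˣ} {n m : ℤ}
    (hn : x * ϖ ^ (-n) ∈ intUnits A F L) (hm : x * ϖ ^ (-m) ∈ intUnits A F L) : n = m := by
  have h1 : ϖ ^ (n - m) ∈ intUnits A F L := by
    have h2 := (intUnits A F L).mul_mem ((intUnits A F L).inv_mem hn) hm
    have h3 : (x * ϖ ^ (-n))⁻¹ * (x * ϖ ^ (-m)) = ϖ ^ (n - m) := by
      rw [mul_inv_rev, ← zpow_neg, neg_neg, mul_assoc, inv_mul_cancel_left, ← zpow_add]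
      congr 1
    rwa [h3] at h2
  have := H724.zpow_mem_intUnits724 A F L h.1 h.2.1 h1
  omega

/-- The exponent of an integral element is nonnegative. -/
lemma unif_exp_nonneg {ϖ : Lˣ} (h : IsUnif A F L ϖ) {x : Lˣ} {n : ℤ}
    (hn : x * ϖ ^ (-n) ∈ intUnits A F L) (hx : IsInt A F L (x : L)) : 0 ≤ n := by
  by_contra hneg
  rw [not_le] at hneg
  have h1 := H294.unif_not_isInt_of_neg h hneg hn
  apply h1
  have h2 : ϖ ^ n * (x * ϖ ^ (-n)) = x := by
    rw [mul_comm x, ← mul_assoc, ← zpow_add, add_neg_cancel, zpow_zero, one_mul]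
  rw [h2]
  exact hx

/-- An element `unit * ϖ ^ n` with `0 ≤ n` is integral. -/
lemma unif_isInt_of_exp_nonneg {ϖ : Lˣ} (h : IsUnif A F L ϖ) {x : Lˣ} {n : ℤ}
    (hn : x * ϖ ^ (-n) ∈ intUnits A F L) (h0 : 0 ≤ n) : IsInt A F L (x : L) := by
  obtain ⟨m, rfl⟩ := Int.eq_ofNat_of_zero_le h0
  have h2 : x = x * ϖ ^ (-(m : ℤ)) * ϖ ^ m := by
    rw [mul_assoc, ← zpow_natCast, ← zpow_add, neg_add_cancel, zpow_zero, mul_one]
  rw [h2, Units.val_mul, Units.val_pow_eq_pow_val]
  exact hn.1.mul (H294.unif_isInt_pow h m)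

/-- An integral element whose exponent is `0` ... : `x` is an integral unit iff its exponent
vanishes. -/
lemma unif_exp_eq_zero_iff {ϖ : Lˣ} (h : IsUnif A F L ϖ) {x : Lˣ} {n : ℤ}
    (hn : x * ϖ ^ (-n) ∈ intUnits A F L) : x ∈ intUnits A F L ↔ n = 0 := by
  constructor
  · intro hx
    have h0 : x * ϖ ^ (-(0 : ℤ)) ∈ intUnits A F L := by simpa using hx
    exact unif_exp_unique h hn h0
  · rintro rfl
    simpa using hn

/-- Two uniformizers differ by an integral unit. -/
lemma unif_div_unif {ϖ ϖ' : Lˣ} (h : IsUnif A F L ϖ) (h' : IsUnif A F L ϖ') :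
    ϖ' * ϖ ^ (-(1 : ℤ)) ∈ intUnits A F L := by
  obtain ⟨n, hn⟩ := h.2.2 ϖ'
  obtain ⟨m, hm⟩ := h'.2.2 ϖ
  have hn0 : 0 ≤ n := unif_exp_nonneg h hn h'.1
  have hm0 : 0 ≤ m := unif_exp_nonneg h' hm h.1
  have hn1 : n ≠ 0 := fun h0 => h'.2.1 ((unif_exp_eq_zero_iff h hn).2 h0)
  have hm1 : m ≠ 0 := fun h0 => h.2.1 ((unif_exp_eq_zero_iff h' hm).2 h0)
  -- `ϖ' = u ϖ^n`, `ϖ = v ϖ'^m`, so `ϖ' ^ (1 - n m)` is a unit
  have h1 : ϖ' ^ (1 - m * n) ∈ intUnits A F L := by
    have h2 := (intUnits A F L).mul_mem hn ((intUnits A F L).zpow_mem hm n)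
    have h3 : ϖ' * ϖ ^ (-n) * (ϖ * ϖ' ^ (-m)) ^ n = ϖ' ^ (1 - m * n) := by
      rw [mul_zpow, ← zpow_mul, zpow_sub, zpow_one, zpow_neg, mul_assoc,
        inv_mul_cancel_left, neg_mul, zpow_neg]
    rwa [h3] at h2
  have h4 := H724.zpow_mem_intUnits724 A F L h'.1 h'.2.1 h1
  have h5 : m * n = 1 := by omega
  have h6 : n = 1 := by
    rcases Int.eq_one_or_neg_one_of_mul_eq_one h5 with h | h
    · rw [h, one_mul] at h5; exact h5
    · omega
  rwa [h6] at hn

variable {K : Type} [Field K] [Algebra F K] [Algebra K L] [IsScalarTower F K L]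

/-- The ramification exponent: `ϖK = unit * ϖL ^ e` with `e ≥ 1`. -/
lemma exists_ramExp {ϖK : Kˣ} {ϖL : Lˣ} (hK : IsUnif A F K ϖK) (hL : IsUnif A F L ϖL) :
    ∃ e : ℕ, 0 < e ∧ unitsIncl L K ϖK * ϖL ^ (-(e : ℤ)) ∈ intUnits A F L := by
  obtain ⟨n, hn⟩ := hL.2.2 (unitsIncl L K ϖK)
  have hint : IsInt A F L ((unitsIncl L K ϖK : Lˣ) : L) := by
    rw [unitsIncl_coe]
    exact (H724.isInt_algebraMap_iff724 A F K L _).2 hK.1
  have hn0 : 0 ≤ n := unif_exp_nonneg hL hn hint
  have hn1 : n ≠ 0 := fun h0 => hK.2.1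
    ((H724.unitsIncl_mem_intUnits_iff724 A F K L ϖK).1 ((unif_exp_eq_zero_iff hL hn).2 h0))
  obtain ⟨e, rfl⟩ := Int.eq_ofNat_of_zero_le hn0
  exact ⟨e, by omega, hn⟩

/-- `L / K` is unramified iff the ramification exponent is `1`. -/
lemma isUnram_iff_ramExp_eq_one {ϖK : Kˣ} {ϖL : Lˣ} (hK : IsUnif A F K ϖK)
    (hL : IsUnif A F L ϖL) {e : ℕ}
    (he : unitsIncl L K ϖK * ϖL ^ (-(e : ℤ)) ∈ intUnits A F L) :
    IsUnram A F L K ↔ e = 1 := by
  constructor
  · intro hur
    have h1 : IsUnif A F L (unitsIncl L K ϖK) := H294.isUnif_unitsIncl hur hK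
    have h2 := unif_div_unif hL h1
    have := unif_exp_unique hL he h2
    exact_mod_cast this
  · rintro rfl x
    obtain ⟨n, hn⟩ := hL.2.2 x
    refine ⟨ϖK ^ n, ?_⟩
    have h2 := (intUnits A F L).mul_mem hn
      ((intUnits A F L).inv_mem ((intUnits A F L).zpow_mem he n))
    have h3 : x * ϖL ^ (-n) * ((unitsIncl L K ϖK * ϖL ^ (-((1 : ℕ) : ℤ))) ^ n)⁻¹ =
        x * (unitsIncl L K (ϖK ^ n))⁻¹ := by
      rw [map_zpow, mul_zpow, mul_inv, ← zpow_mul, Nat.cast_one, neg_one_mul, zpow_neg ϖL n,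
        inv_inv, mul_assoc]
      congr 1
      rw [mul_comm ((unitsIncl L K ϖK ^ n)⁻¹), inv_mul_cancel_left]
    rwa [h3] at h2

end Elementary

section Tower

variable {A F : Type} [CommRing A] [Field F] [Algebra A F]
variable {K : Type} [Field K] [Algebra F K]
variable {E : Type} [Field E] [Algebra F E] [Algebra K E] [IsScalarTower F K E]
variable {N : Type} [Field N] [Algebra F N] [Algebra K N] [Algebra E N]
  [IsScalarTower F E N] [IsScalarTower K E N]

lemma unitsIncl_unitsIncl (y : Kˣ) : unitsIncl N E (unitsIncl E K y) = unitsIncl N K y := by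
  ext
  simp only [unitsIncl_coe]
  exact (IsScalarTower.algebraMap_apply K E N _).symm

/-- The ramification exponent is multiplicative in towers. -/
lemma ramExp_tower {ϖK : Kˣ} {ϖE : Eˣ} {ϖN : Nˣ} {a b : ℕ}
    (ha : unitsIncl E K ϖK * ϖE ^ (-(a : ℤ)) ∈ intUnits A F E)
    (hb : unitsIncl N E ϖE * ϖN ^ (-(b : ℤ)) ∈ intUnits A F N) :
    unitsIncl N K ϖK * ϖN ^ (-((a * b : ℕ) : ℤ)) ∈ intUnits A F N := by
  have h1 : unitsIncl N E (unitsIncl E K ϖK * ϖE ^ (-(a : ℤ))) ∈ intUnits A F N :=
    H294.unitsIncl_mem_intUnits_of_mem ha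
  have h2 := (intUnits A F N).mul_mem h1 ((intUnits A F N).pow_mem hb a)
  have h3 : unitsIncl N E (unitsIncl E K ϖK * ϖE ^ (-(a : ℤ))) *
      (unitsIncl N E ϖE * ϖN ^ (-(b : ℤ))) ^ a = unitsIncl N K ϖK * ϖN ^ (-((a * b : ℕ) : ℤ)) := by
    rw [map_mul, unitsIncl_unitsIncl, map_zpow, mul_pow, zpow_neg, zpow_natCast, zpow_neg,
      zpow_natCast, zpow_neg, zpow_natCast, inv_pow, ← pow_mul, mul_comm b a, mul_assoc,
      inv_mul_cancel_left]
  rwa [h3] at h2

end Tower

end Fermat.Agent.S55.Local.H959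

end
-- ===== PACK-END S55/Local/H959/RamExp.lean

-- ===== PACK-BEGIN S55/L/UnrInv/EF717.lean
section




/-!
# S55, layer L, leaf **UI-EF** (`ResidueDegreeSpec`)   (helper717)

`theorem residueDegree717 : Fermat.Agent.S55.L.UnrInv.ResidueDegreeSpec`, unconditional.

For a finite extension `K'/K` of local fields with rings of integers `A'`, `A` and uniformizers
`π'`, `π`: there are `e f` with `e * f = [K' : K]`, `π = u * π' ^ e` with `u` a unit of `A'`, and
`|k'| = |k| ^ f`.

Route: `A'` is the integral closure of `A` in `K'` (landed `FiniteExt286` + uniqueness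
`RingOfIntegersUnique775`), hence a finite `A`-algebra which is a DVR; Mathlib's fundamental
identity in the local case gives `e * f = [K' : K]` for the ramification index / inertia degree
of the maximal ideals; `e` is read off from `π A' = (π')^e` and `f = [k' : k]`.
-/

set_option autoImplicit false
set_option linter.deprecated false
set_option linter.style.haveILetI false
set_option linter.unusedSectionVars false

namespace Fermat.Agent.S55.L.UnrInv.H717

open IsLocalRing

section Abstract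

variable {R S : Type} [CommRing R] [IsDomain R] [IsDiscreteValuationRing R]
  [CommRing S] [IsDomain S] [IsDiscreteValuationRing S] [Algebra R S]

/-- In a DVR extension `R → S` (injective), with uniformizers `ϖ`, `ϖ'` and
`algebraMap ϖ = u * ϖ' ^ e`, `u` a unit, the (old-style) ramification index of the maximal
ideals is `e`. -/
theorem ramificationIdx'_eq_of_eq_unit_mul_pow {ϖ : R} {ϖ' : S} (hϖ : Irreducible ϖ)
    (hϖ' : Irreducible ϖ') {u : Sˣ} {e : ℕ} (h : algebraMap R S ϖ = u * ϖ' ^ e) :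
    Ideal.ramificationIdx' (maximalIdeal R) (maximalIdeal S) = e := by
  have hp : maximalIdeal R = Ideal.span {ϖ} := hϖ.maximalIdeal_eq
  have hP : maximalIdeal S = Ideal.span {ϖ'} := hϖ'.maximalIdeal_eq
  have hmap : Ideal.map (algebraMap R S) (maximalIdeal R) = maximalIdeal S ^ e := by
    rw [hp, Ideal.map_span, Set.image_singleton, h, hP, Ideal.span_singleton_pow]
    exact Ideal.span_singleton_eq_span_singleton.mpr
      ⟨u⁻¹, by rw [mul_comm (u : S), mul_assoc, Units.mul_inv, mul_one]⟩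
  refine Ideal.ramificationIdx'_spec hmap.le ?_
  rw [hmap]
  intro hle
  have hne : maximalIdeal S ≠ ⊥ := IsDiscreteValuationRing.not_a_field S
  have hlt : maximalIdeal S ^ (e + 1) < maximalIdeal S ^ e :=
    Ideal.pow_succ_lt_pow hne e
  exact absurd hle (not_le_of_gt hlt)

end Abstract

/-- **UI-EF**. -/
theorem residueDegree717 : ResidueDegreeSpec := by
  intro K K' _ _ _ _ hK A A' π π' hA hA' hπ hπ'
  have hchar : CharZero K := hK.charZero
  letI : Algebra A K' := ((algebraMap K K').comp (algebraMap A K)).toAlgebra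
  haveI : IsScalarTower A K K' := IsScalarTower.of_algebraMap_eq (fun _ => rfl)
  obtain ⟨B, hB, hmemB, -⟩ := exists_ringOfIntegers_eq_integralClosure286 (K := K) (L := K') A hA
  haveI : IsLocalFld K' := finiteExt286 K K'
  have hBA : A' = B := ringOfIntegersUnique775 K' A' B hA' hB
  have hmem : ∀ x : K', x ∈ A' ↔ IsIntegral A x := fun x => by rw [hBA]; exact hmemB x
  letI : Algebra A A' :=
    ((algebraMap A K').codRestrict A'.toSubring
      (fun a => (hmem _).mpr isIntegral_algebraMap)).toAlgebra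
  haveI : IsScalarTower A A' K' := IsScalarTower.of_algebraMap_eq (fun _ => rfl)
  haveI : IsIntegralClosure A' A K' :=
    ⟨Subtype.val_injective, fun {x} => ⟨fun h => ⟨⟨x, (hmem x).mpr h⟩, rfl⟩,
      fun ⟨y, hy⟩ => hy ▸ (hmem _).mp y.2⟩⟩
  haveI := hA.1
  haveI := hA'.1
  haveI : Algebra.IsSeparable K K' := inferInstance
  haveI : Module.Finite A A' := IsIntegralClosure.finite A K K' A'
  have hp0 : maximalIdeal A ≠ ⊥ := IsDiscreteValuationRing.not_a_field A
  have hef := Ideal.ramificationIdx_mul_inertiaDeg_of_isLocalRing (R := A) (S := A') K K'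
    (p := maximalIdeal A) hp0
  obtain ⟨hπA, hπirr⟩ := hπ
  obtain ⟨hπA', hπ'irr⟩ := hπ'
  have hinj : Function.Injective (algebraMap A A') := by
    intro x y hxy
    have h2 : algebraMap A K' x = algebraMap A K' y := by
      rw [IsScalarTower.algebraMap_apply A A' K', IsScalarTower.algebraMap_apply A A' K', hxy]
    have h3 : algebraMap K K' (x : K) = algebraMap K K' (y : K) := h2
    exact Subtype.ext ((algebraMap K K').injective h3)
  have hne : algebraMap A A' ⟨π, hπA⟩ ≠ 0 := by
    rw [Ne, map_eq_zero_iff _ hinj]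
    exact hπirr.ne_zero
  obtain ⟨e, u, hu⟩ := IsDiscreteValuationRing.eq_unit_mul_pow_irreducible hne hπ'irr
  have he : Ideal.ramificationIdx' (maximalIdeal A) (maximalIdeal A') = e :=
    ramificationIdx'_eq_of_eq_unit_mul_pow hπirr hπ'irr hu
  haveI : FaithfulSMul A A' := (faithfulSMul_iff_algebraMap_injective A A').mpr hinj
  haveI : IsLocalHom (algebraMap A A') := by
    haveI : Algebra.IsIntegral A A' := IsIntegralClosure.isIntegral_algebra A K'
    exact Algebra.IsIntegral.isLocalHom _ _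
  haveI : (maximalIdeal A').LiesOver (maximalIdeal A) := inferInstance
  have hf : Ideal.inertiaDeg' (maximalIdeal A) (maximalIdeal A') =
      Module.finrank (A ⧸ maximalIdeal A) (A' ⧸ maximalIdeal A') :=
    Ideal.inertiaDeg'_algebraMap _ _
  refine ⟨e, Ideal.inertiaDeg' (maximalIdeal A) (maximalIdeal A'), ?_, ?_, ?_⟩
  · rw [← he]; exact hef
  · refine ⟨((u : A') : K'), (u : A').2, ?_, ?_⟩
    · have : (((u : A') : K'))⁻¹ = (((u⁻¹ : A'ˣ) : A') : K') := by
        rw [eq_comm, ← mul_eq_one_iff_eq_inv₀ ?_]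
        · have h1 : ((u⁻¹ : A'ˣ) : A') * (u : A') = 1 := Units.inv_mul u
          have h2 := congrArg (Subtype.val) h1
          exact h2
        · intro h0
          have : (u : A') = 0 := Subtype.ext h0
          exact u.ne_zero this
      rw [this]
      exact ((u⁻¹ : A'ˣ) : A').2
    · have h1 := congrArg (Subtype.val) hu
      have h2 : ((algebraMap A A' ⟨π, hπA⟩ : A') : K') = algebraMap K K' π := rfl
      rw [← h2, h1]
      simp
  · rw [hf]
    letI : Field (A ⧸ maximalIdeal A) := Ideal.Quotient.field (maximalIdeal A)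
    exact Module.natCard_eq_pow_finrank (K := A ⧸ maximalIdeal A) (V := A' ⧸ maximalIdeal A')

end Fermat.Agent.S55.L.UnrInv.H717

end
-- ===== PACK-END S55/L/UnrInv/EF717.lean

-- ===== PACK-BEGIN S55/L/Unr534/Abs.lean
section



/-!
# S55, layer L, unramified extensions (helper534): structure of unramified extensions

Abstract setting of `Core.lean`.  `E / K` is *unramified* if `𝔪_A C = 𝔪_C`.

* `exists_primitiveRoot_of_unram534` : if `E / K` is unramified of degree `n` then `E = K(ζ)` for a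
  primitive `(Q ^ n - 1)`-th root of unity `ζ`;
* `unram_of_adjoin_root534` : if `E = K(ζ)` with `ζ ^ m = 1`, `m` a unit of `A`, then `E / K` is
  unramified.
-/

set_option autoImplicit false
set_option linter.style.haveILetI false
set_option linter.unusedSectionVars false

namespace Fermat.Agent.S55.L.Unr534

open IsLocalRing Polynomial IntermediateField

section Abs

variable (A K : Type) [CommRing A] [IsDomain A] [IsDiscreteValuationRing A]
  [IsAdicComplete (maximalIdeal A) A] [Finite (ResidueField A)] [Field K] [CharZero K]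
  [Algebra A K] [IsFractionRing A K]
  (E : Type) [Field E] [Algebra K E] [FiniteDimensional K E] [Algebra A E] [IsScalarTower A K E]

include K in
/-- In the unramified case the residue field of `E` has `Q ^ [E : K]` elements. -/
theorem card_residue_of_unram534
    (hunr : haveI := isLocalRing_OE A K E
      (maximalIdeal A).map (algebraMap A (OE A E)) = maximalIdeal (OE A E)) :
    haveI := isLocalRing_OE A K E
    Nat.card (ResidueField (OE A E)) = Nat.card (ResidueField A) ^ Module.finrank K E := by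
  haveI := isLocalRing_OE A K E
  rw [← card_quot_map534 A K E]
  show Nat.card (OE A E ⧸ maximalIdeal (OE A E)) = _
  rw [hunr]

theorem isScalarTower_inter534 (E₀ : IntermediateField K E) : IsScalarTower A E₀ E :=
  IsScalarTower.of_algebraMap_eq (fun x => by
    rw [IsScalarTower.algebraMap_apply A K E, IsScalarTower.algebraMap_apply A K E₀]
    rfl)

/-- The inclusion of rings of integers `O_{E₀} → O_E` for an intermediate field `E₀`. -/
noncomputable def inclOE (E₀ : IntermediateField K E) : OE A E₀ →+* OE A E :=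
  haveI := isScalarTower_inter534 A K E E₀
  RingHom.codRestrict ((algebraMap E₀ E).comp (algebraMap (OE A E₀) E₀)) (OE A E) (by
    intro x
    have hx : IsIntegral A (x : E₀) := x.2
    exact hx.map (IsScalarTower.toAlgHom A E₀ E))

@[simp] theorem coe_inclOE (E₀ : IntermediateField K E) (x : OE A E₀) :
    ((inclOE A K E E₀ x : OE A E) : E) = ((x : E₀) : E) := rfl

include K in
/-- If `E / K` is unramified of degree `n` then `E = K(ζ)` for a primitive `(Q ^ n - 1)`-th
root of unity `ζ`. -/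
theorem exists_primitiveRoot_of_unram534
    (hunr : haveI := isLocalRing_OE A K E
      (maximalIdeal A).map (algebraMap A (OE A E)) = maximalIdeal (OE A E)) :
    ∃ ζ : E, IsPrimitiveRoot ζ (Nat.card (ResidueField A) ^ Module.finrank K E - 1) ∧
      IntermediateField.adjoin K {ζ} = ⊤ := by
  haveI := isLocalRing_OE A K E
  haveI := isAdicComplete_OE A K E
  haveI := finite_residueField_OE A K E
  have hcard := card_residue_of_unram534 A K E hunr
  obtain ⟨ω, hω1, hω2, hω3⟩ := exists_teich534 (OE A E)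
  rw [hcard] at hω1 hω2
  have hprim : IsPrimitiveRoot (ω : E)
      (Nat.card (ResidueField A) ^ Module.finrank K E - 1) := by
    rw [IsPrimitiveRoot.iff_def]
    refine ⟨?_, fun l hl => hω2 l (Subtype.ext ?_)⟩
    · have := congrArg (fun x : OE A E => (x : E)) hω1
      simpa using this
    · simpa using hl
  refine ⟨(ω : E), hprim, ?_⟩
  -- the subfield generated by `ω`
  set E₀ : IntermediateField K E := K⟮(ω : E)⟯ with hE₀
  haveI := isLocalRing_OE A K E₀
  haveI := isScalarTower_inter534 A K E E₀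
  have hωint : IsIntegral A (⟨(ω : E), mem_adjoin_simple_self K (ω : E)⟩ : E₀) := by
    have h1 : IsIntegral A ((IsScalarTower.toAlgHom A E₀ E)
        (⟨(ω : E), mem_adjoin_simple_self K (ω : E)⟩ : E₀)) := ω.2
    exact (isIntegral_algHom_iff (IsScalarTower.toAlgHom A E₀ E)
      (algebraMap E₀ E).injective).mp h1
  set ω₀ : OE A E₀ := ⟨⟨(ω : E), mem_adjoin_simple_self K (ω : E)⟩, hωint⟩ with hω₀
  have hincl : inclOE A K E E₀ ω₀ = ω := Subtype.ext rfl
  -- the surjection onto the residue field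
  set φ : OE A E₀ →+* ResidueField (OE A E) := (residue (OE A E)).comp (inclOE A K E E₀) with hφ
  have hsurj : Function.Surjective φ := by
    intro y
    obtain ⟨x, rfl⟩ := residue_surjective (R := OE A E) y
    by_cases hx : x ∈ maximalIdeal (OE A E)
    · refine ⟨0, ?_⟩
      rw [map_zero]
      exact ((residue_eq_zero_iff x).mpr hx).symm
    · obtain ⟨i, hi⟩ := hω3 x hx
      refine ⟨ω₀ ^ i, ?_⟩
      rw [hφ, RingHom.comp_apply, map_pow, hincl]
      have := (residue_eq_zero_iff _).mpr hi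
      rw [map_sub, sub_eq_zero] at this
      exact this.symm
  have hker : RingHom.ker φ = maximalIdeal (OE A E₀) :=
    eq_maximalIdeal (RingHom.ker_isMaximal_of_surjective φ hsurj)
  have hcard2 : Nat.card (ResidueField (OE A E)) = Nat.card (ResidueField (OE A E₀)) := by
    have e := RingHom.quotientKerEquivOfSurjective hsurj
    rw [← Nat.card_congr e.toEquiv, hker]
    rfl
  have hle := card_residue_le534 A K E₀
  rw [← hcard2, hcard] at hle
  have hn : Module.finrank K E ≤ Module.finrank K E₀ :=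
    (Nat.pow_le_pow_iff_right (two_le_card_residue534 A)).mp hle
  refine IntermediateField.eq_of_le_of_finrank_le le_top ?_
  rw [IntermediateField.finrank_top']
  exact hn

include K in
/-- Two `K`-automorphisms of `E = K(ζ)` which agree on `ζ` are equal. -/
theorem algEquiv_ext_of_adjoin534 (ζ : E) (htop : IntermediateField.adjoin K {ζ} = ⊤)
    (σ σ' : E ≃ₐ[K] E) (h : σ ζ = σ' ζ) : σ = σ' := by
  have halg : IsAlgebraic K ζ := Algebra.IsAlgebraic.isAlgebraic ζ
  have h1 : Algebra.adjoin K {ζ} = ⊤ := by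
    rw [← IntermediateField.adjoin_simple_toSubalgebra_of_isAlgebraic halg, htop]
    rfl
  have h2 : (σ : E →ₐ[K] E) = (σ' : E →ₐ[K] E) :=
    AlgHom.ext_of_adjoin_eq_top h1 (fun x hx => by
      rw [Set.mem_singleton_iff] at hx
      subst hx
      exact h)
  exact AlgEquiv.ext (fun x => DFunLike.congr_fun h2 x)

/-- The action of `Gal(E/K)` on the residue field of `E`. -/
noncomputable def resAut534 (σ : E ≃ₐ[K] E) :
    haveI := isLocalRing_OE A K E
    ResidueField (OE A E) →+* ResidueField (OE A E) :=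
  haveI := isLocalRing_OE A K E
  ResidueField.map ((galRestrict A K E (OE A E) σ : OE A E ≃ₐ[A] OE A E) : OE A E →+* OE A E)

theorem resAut534_residue (σ : E ≃ₐ[K] E) (x : OE A E) :
    haveI := isLocalRing_OE A K E
    resAut534 A K E σ (residue (OE A E) x) =
      residue (OE A E) (galRestrict A K E (OE A E) σ x) := by
  haveI := isLocalRing_OE A K E
  exact ResidueField.map_residue _ x

/-- The action of `Gal(E/K)` on the residue field of `E`, as an algebra homomorphism over the
residue field of `K`. -/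
noncomputable def resAlgHom534 (σ : E ≃ₐ[K] E) :
    haveI := isLocalRing_OE A K E
    haveI := isLocalHom_OE A K E
    ResidueField (OE A E) →ₐ[ResidueField A] ResidueField (OE A E) :=
  haveI := isLocalRing_OE A K E
  haveI := isLocalHom_OE A K E
  { resAut534 A K E σ with
    commutes' := fun r => by
      obtain ⟨a, rfl⟩ := residue_surjective (R := A) r
      rw [ResidueField.algebraMap_residue]
      show resAut534 A K E σ _ = _
      rw [resAut534_residue, AlgEquiv.commutes] }

theorem resAlgHom534_residue (σ : E ≃ₐ[K] E) (x : OE A E) :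
    haveI := isLocalRing_OE A K E
    haveI := isLocalHom_OE A K E
    resAlgHom534 A K E σ (residue (OE A E) x) =
      residue (OE A E) (galRestrict A K E (OE A E) σ x) :=
  resAut534_residue A K E σ x

include K in
/-- If `E = K(ζ)` with `ζ ^ m = 1`, `m` a unit of `A`, then `E / K` is unramified. -/
theorem unram_of_adjoin_root534 (ζ : E) (m : ℕ) (hm : IsUnit ((m : ℕ) : A)) (hζ : ζ ^ m = 1)
    (htop : IntermediateField.adjoin K {ζ} = ⊤) :
    haveI := isLocalRing_OE A K E
    (maximalIdeal A).map (algebraMap A (OE A E)) = maximalIdeal (OE A E) := by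
  classical
  haveI := isLocalRing_OE A K E
  haveI := isLocalHom_OE A K E
  haveI := finite_residueField_OE A K E
  have hm0 : 0 < m := by
    rcases Nat.eq_zero_or_pos m with h | h
    · subst h
      rw [Nat.cast_zero] at hm
      exact absurd hm not_isUnit_zero
    · exact h
  -- `E / K` is Galois
  have hfin : IsOfFinOrder ζ := isOfFinOrder_iff_pow_eq_one.mpr ⟨m, hm0, hζ⟩
  have hd : 0 < orderOf ζ := hfin.orderOf_pos
  haveI : NeZero (orderOf ζ) := ⟨hd.ne'⟩
  have hprim : IsPrimitiveRoot ζ (orderOf ζ) := IsPrimitiveRoot.orderOf ζ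
  haveI hcyc : IsCyclotomicExtension {orderOf ζ} K K⟮ζ⟯ :=
    hprim.intermediateField_adjoin_isCyclotomicExtension K
  haveI hgal0 : IsGalois K K⟮ζ⟯ := IsCyclotomicExtension.isGalois {orderOf ζ} K K⟮ζ⟯
  haveI hgal1 : IsGalois K (⊤ : IntermediateField K E) := htop ▸ hgal0
  haveI hgal : IsGalois K E := IsGalois.of_algEquiv (IntermediateField.topEquiv (F := K) (E := E))
  -- the root of unity in the ring of integers
  have hint : IsIntegral A ζ := IsIntegral.of_pow hm0 (by rw [hζ]; exact isIntegral_one)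
  set ζC : OE A E := ⟨ζ, hint⟩ with hζC
  have hmC : IsUnit ((m : ℕ) : OE A E) := by
    have := hm.map (algebraMap A (OE A E))
    rwa [map_natCast] at this
  -- injectivity
  have hinj : Function.Injective (resAlgHom534 A K E) := by
    intro σ σ' hσ
    apply algEquiv_ext_of_adjoin534 K E ζ htop
    set u : OE A E := galRestrict A K E (OE A E) σ ζC with hu
    set v : OE A E := galRestrict A K E (OE A E) σ' ζC with hv
    have hum : u ^ m = 1 := by
      rw [hu, ← map_pow]
      have : ζC ^ m = 1 := Subtype.ext (by simpa using hζ)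
      rw [this, map_one]
    have hvm : v ^ m = 1 := by
      rw [hv, ← map_pow]
      have : ζC ^ m = 1 := Subtype.ext (by simpa using hζ)
      rw [this, map_one]
    have huv : u - v ∈ maximalIdeal (OE A E) := by
      rw [← residue_eq_zero_iff, map_sub, sub_eq_zero, hu, hv, ← resAlgHom534_residue,
        ← resAlgHom534_residue, hσ]
    have hvv : v * v ^ (m - 1) = 1 := by
      rw [← pow_succ', Nat.sub_add_cancel hm0, hvm]
    have hw : (u * v ^ (m - 1)) ^ m = 1 := by
      rw [mul_pow, hum, one_mul, ← pow_mul, mul_comm, pow_mul, hvm, one_pow]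
    have hw1 : u * v ^ (m - 1) - 1 ∈ maximalIdeal (OE A E) := by
      have : u * v ^ (m - 1) - 1 = (u - v) * v ^ (m - 1) := by
        rw [sub_mul, hvv]
      rw [this]
      exact Ideal.mul_mem_right _ _ huv
    have hone := eq_one_of_pow_eq_one534 hmC hw hw1
    have huv' : u = v := by
      have h3 : u * v ^ (m - 1) = v * v ^ (m - 1) := by rw [hone, hvv]
      have h4 : IsUnit (v ^ (m - 1)) := IsUnit.of_mul_eq_one _ (by rw [mul_comm]; exact hvv)
      exact h4.mul_left_injective h3
    have h5 := congrArg (fun x : OE A E => (x : E)) huv'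
    have h6 : ((u : OE A E) : E) = σ ζ := algebraMap_galRestrict_apply A σ ζC
    have h7 : ((v : OE A E) : E) = σ' ζ := algebraMap_galRestrict_apply A σ' ζC
    rw [← h6, ← h7]
    exact h5
  -- counting
  haveI : Module.Finite (ResidueField A) (ResidueField (OE A E)) := Module.Finite.of_finite
  have h1 : Nat.card (E ≃ₐ[K] E) = Module.finrank K E := IsGalois.card_aut_eq_finrank K E
  have h2 : Nat.card (E ≃ₐ[K] E) ≤
      Nat.card (ResidueField (OE A E) →ₐ[ResidueField A] ResidueField (OE A E)) :=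
    Nat.card_le_card_of_injective _ hinj
  have h3 : Nat.card (ResidueField (OE A E) →ₐ[ResidueField A] ResidueField (OE A E)) ≤
      Module.finrank (ResidueField A) (ResidueField (OE A E)) := by
    rw [Nat.card_eq_fintype_card]
    exact AlgHom.card_le
  have h4 : Nat.card (ResidueField (OE A E)) =
      Nat.card (ResidueField A) ^ Module.finrank (ResidueField A) (ResidueField (OE A E)) :=
    Module.natCard_eq_pow_finrank
  apply map_eq_of_card534 A K E
  rw [h4]
  exact Nat.pow_le_pow_right Nat.card_pos (by omega)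

end Abs

end Fermat.Agent.S55.L.Unr534

end
-- ===== PACK-END S55/L/Unr534/Abs.lean

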