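import Mathlib.RepresentationTheory.Homological.GroupCohomology.FiniteCyclic
import Mathlib
import Fermat.Agent.Pack.S43GC.G0E7L0
import Fermat.Agent.Pack.S43GC.G0E7L3
import Fermat.Agent.Pack.S43GC.G0E5L0
import Fermat.Agent.Pack.S43GC.G0E7L2
import Fermat.Agent.Pack.S43GC.G0E8L0
import Fermat.Agent.Pack.S43GC.G0E5L2
import Fermat.Agent.Pack.S43GC.G0E8L1
import Fermat.Agent.Pack.S43GC.G0E8L2
import Fermat.Agent.Pack.S43GC.G0E6L1
import Fermat.Agent.Pack.Fast891

-- ===== PACK-BEGIN S55/H953/Generic.lean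
section


/-!
# S55 / local norm index: the generic Herbrand computation

`0 → U → B → ℤ → 0` equivariant exact (trivial action on `ℤ`), `V → U` equivariant injective of
finite index, `h⁰(V) = h¹(V) = 1`, `h¹(B) = 1`  ⟹  `h⁰(B) = n`.
-/

set_option autoImplicit false

namespace Fermat.Agent.S55.H953

open Fermat.Agent.S55.Herbrand

variable {AV AU B : Type*} [AddCommGroup AV] [AddCommGroup AU] [AddCommGroup B]

theorem h0_eq_of_units_trivial {σV : AddMonoid.End AV} {σU : AddMonoid.End AU}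
    {σB : AddMonoid.End B} {n : ℕ} (hn : n ≠ 0)
    (hσU : σU ^ n = 1) (hσB : σB ^ n = 1)
    {i₁ : AV →+ AU} (hi₁ : Function.Injective i₁) (hfin : i₁.range.FiniteIndex)
    (hi₁σ : ∀ a, i₁ (σV a) = σU (i₁ a))
    {i₂ : AU →+ B} (hi₂ : Function.Injective i₂) (hi₂σ : ∀ a, i₂ (σU a) = σB (i₂ a))
    {p : B →+ ℤ} (hp : Function.Surjective p) (hex : p.ker = i₂.range)
    (hpσ : ∀ b, p (σB b) = p b)
    (hV0 : h0 σV n = 1) (hV1 : h1 σV n = 1) (hB1 : h1 σB n = 1) :
    h0 σB n = n := by
  have hVdef : HerbrandDefined σV n := by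
    rw [herbrandDefined_iff, hV0, hV1]
    exact ⟨one_ne_zero, one_ne_zero⟩
  have hVq : herbrand σV n = 1 := by
    rw [herbrand_eq_div, hV0, hV1]
    simp
  have hUdef : HerbrandDefined σU n :=
    (herbrandDefined_iff_of_finite_coker hσU hi₁ hfin hi₁σ).1 hVdef
  have hUq : herbrand σU n = 1 := by
    rw [← herbrand_eq_of_finite_coker hσU hi₁ hfin hi₁σ, hVq]
  have hpσ' : ∀ b, p (σB b) = (1 : AddMonoid.End ℤ) (p b) := fun b => hpσ b
  have hBq : herbrand σB n = herbrand σU n * herbrand (1 : AddMonoid.End ℤ) n :=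
    herbrand_mul_of_exact hσB hi₂ hp hex hi₂σ hpσ' hUdef (herbrandDefined_int hn)
  rw [hUq, one_mul, herbrand_int hn, herbrand_eq_div, hB1] at hBq
  simp only [Nat.cast_one, div_one] at hBq
  exact_mod_cast hBq

end Fermat.Agent.S55.H953

end
-- ===== PACK-END S55/H953/Generic.lean

-- ===== PACK-BEGIN S55/Herbrand/RepBridge.lean
section



/-!
# Herbrand quotient and Mathlib's group cohomology of finite cyclic groups

For a finite cyclic group `G` generated by `g`, of order `n`, and `A : Rep k G`: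

* `card_groupCohomology_even` : `Nat.card (Hⁱ(G, A)) = h0 (ρ g) n` for even `i > 0`;
* `card_groupCohomology_odd` : `Nat.card (Hⁱ(G, A)) = h1 (ρ g) n` for odd `i`;
* `herbrand_eq_card_div_card` : `herbrand (ρ g) n = |H²(G, A)| / |H¹(G, A)|`.

(`Nat.card` of an infinite type is `0`, matching the junk value of `h0`, `h1`.)
-/

set_option autoImplicit false

namespace Fermat.Agent.S55.Herbrand

open CategoryTheory Rep Rep.FiniteCyclicGroup

universe u

section SumPowers

variable {G : Type*} [Group G] [Fintype G]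

lemma sum_eq_sum_range_pow {M : Type*} [AddCommMonoid M] (g : G)
    (hg : ∀ x, x ∈ Subgroup.zpowers g) (f : G → M) :
    ∑ h : G, f h = ∑ i ∈ Finset.range (Nat.card G), f (g ^ i) := by
  classical
  have hord : orderOf g = Nat.card G := orderOf_eq_card_of_forall_mem_zpowers hg
  rw [← hord]
  symm
  refine Finset.sum_bij (fun i _ => g ^ i) (fun _ _ => Finset.mem_univ _) ?_ ?_ (fun _ _ => rfl)
  · intro i hi j hj hij
    exact pow_injOn_Iio_orderOf (by simpa using hi) (by simpa using hj) hij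
  · intro h _
    obtain ⟨i, hi, rfl⟩ :=
      Finset.mem_image.1 ((mem_zpowers_iff_mem_range_orderOf (x := g) (y := h)).1 (hg h))
    exact ⟨i, hi, rfl⟩

end SumPowers

variable {k G : Type u} [CommRing k] [CommGroup G] (A : Rep k G) (g : G)

/-- the action of `g` as an additive endomorphism. -/
def repEnd : AddMonoid.End A.V := (A.ρ g).toAddMonoidHom

@[simp] lemma repEnd_apply (x : A.V) : repEnd A g x = A.ρ g x := rfl

lemma repEnd_pow_apply (i : ℕ) (x : A.V) : (repEnd A g ^ i) x = A.ρ (g ^ i) x := by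
  induction i generalizing x with
  | zero => simp
  | succ i ih =>
    rw [pow_succ, pow_succ]
    change (repEnd A g ^ i) (repEnd A g x) = _
    rw [ih, repEnd_apply, map_mul]
    rfl

lemma delta_repEnd_apply (x : A.V) :
    delta (repEnd A g) x = (applyAsHom A g - 𝟙 A).hom.toLinearMap x := by
  simp [sub_hom, applyAsHom]

lemma ker_delta_repEnd :
    AddMonoidHom.ker (delta (repEnd A g)) =
      (LinearMap.ker (applyAsHom A g - 𝟙 A).hom.toLinearMap).toAddSubgroup := by
  ext x
  rw [AddMonoidHom.mem_ker, delta_repEnd_apply]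
  rfl

lemma range_delta_repEnd :
    AddMonoidHom.range (delta (repEnd A g)) =
      (LinearMap.range (applyAsHom A g - 𝟙 A).hom.toLinearMap).toAddSubgroup := by
  ext x
  constructor
  · rintro ⟨y, rfl⟩
    exact ⟨y, (delta_repEnd_apply A g y).symm⟩
  · rintro ⟨y, rfl⟩
    exact ⟨y, delta_repEnd_apply A g y⟩

/-- cardinality of the target of a surjective linear map whose kernel is the preimage of a
submodule `R` under the inclusion of a submodule `K`. -/
lemma card_eq_relIndex_of_surjective {M H : Type*} [AddCommGroup M] [Module k M]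
    [AddCommGroup H] [Module k H] (K R : Submodule k M) (π : K →ₗ[k] H)
    (hπ : Function.Surjective π) (hker : ∀ x : K, π x = 0 ↔ (x : M) ∈ R) :
    Nat.card H = R.toAddSubgroup.relIndex K.toAddSubgroup := by
  have e := (QuotientAddGroup.quotientKerEquivOfSurjective π.toAddMonoidHom hπ).toEquiv
  rw [← Nat.card_congr e]
  change (AddMonoidHom.ker π.toAddMonoidHom).index = _
  rw [AddSubgroup.relIndex]
  congr 1
  ext x
  rw [AddMonoidHom.mem_ker, AddSubgroup.mem_addSubgroupOf]
  exact hker x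

variable [Fintype G]

omit [Fintype G] in
lemma repEnd_pow_card [Finite G] : repEnd A g ^ Nat.card G = 1 := by
  ext x
  rw [repEnd_pow_apply, pow_card_eq_one', map_one]
  rfl

variable (hg : ∀ x, x ∈ Subgroup.zpowers g)
include hg

lemma normN_repEnd_apply (x : A.V) :
    normN (repEnd A g) (Nat.card G) x = A.norm.hom.toLinearMap x := by
  rw [normN_apply]
  have : A.norm.hom.toLinearMap x = ∑ h : G, A.ρ h x := by
    simp [Rep.norm, Representation.norm]
  rw [this, sum_eq_sum_range_pow g hg]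
  exact Finset.sum_congr rfl fun i _ => repEnd_pow_apply A g i x

lemma ker_normN_repEnd :
    AddMonoidHom.ker (normN (repEnd A g) (Nat.card G)) =
      (LinearMap.ker A.norm.hom.toLinearMap).toAddSubgroup := by
  ext x
  rw [AddMonoidHom.mem_ker, normN_repEnd_apply A g hg]
  rfl

lemma range_normN_repEnd :
    AddMonoidHom.range (normN (repEnd A g) (Nat.card G)) =
      (LinearMap.range A.norm.hom.toLinearMap).toAddSubgroup := by
  ext x
  constructor
  · rintro ⟨y, rfl⟩
    exact ⟨y, (normN_repEnd_apply A g hg y).symm⟩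
  · rintro ⟨y, rfl⟩
    exact ⟨y, normN_repEnd_apply A g hg y⟩

/-- **`|Hⁱ(G, A)| = [A^G : N A]`** for even `i > 0` and `G` finite cyclic. -/
theorem card_groupCohomology_even (i : ℕ) [NeZero i] (hi : Even i) :
    Nat.card (groupCohomology A i) = h0 (repEnd A g) (Nat.card G) := by
  rw [h0_eq_relIndex, ker_delta_repEnd A g, range_normN_repEnd A g hg]
  refine card_eq_relIndex_of_surjective _ _ (groupCohomologyπEven A g hg i hi).hom ?_
    (groupCohomologyπEven_eq_zero_iff A g hg i hi)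
  rw [← ModuleCat.epi_iff_surjective]
  refine @epi_comp _ _ _ _ _ _ (@IsIso.epi_of_iso _ _ _ _ _ (Iso.isIso_inv _)) _
    (@epi_comp _ _ _ _ _ _ ?_ _ (@IsIso.epi_of_iso _ _ _ _ _ (Iso.isIso_inv _)))
  infer_instance

/-- **`|Hⁱ(G, A)| = [ker N : (g - 1) A]`** for odd `i` and `G` finite cyclic. -/
theorem card_groupCohomology_odd (i : ℕ) (hi : Odd i) :
    Nat.card (groupCohomology A i) = h1 (repEnd A g) (Nat.card G) := by
  rw [h1_eq_relIndex, ker_normN_repEnd A g hg, range_delta_repEnd A g]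
  refine card_eq_relIndex_of_surjective _ _ (groupCohomologyπOdd A g hg i hi).hom ?_
    (groupCohomologyπOdd_eq_zero_iff A g hg i hi)
  rw [← ModuleCat.epi_iff_surjective]
  refine @epi_comp _ _ _ _ _ _ (@IsIso.epi_of_iso _ _ _ _ _ (Iso.isIso_inv _)) _
    (@epi_comp _ _ _ _ _ _ ?_ _ (@IsIso.epi_of_iso _ _ _ _ _ (Iso.isIso_inv _)))
  infer_instance

/-- The Herbrand quotient is `|H²| / |H¹|`. -/
theorem herbrand_eq_card_div_card :
    herbrand (repEnd A g) (Nat.card G) =
      (Nat.card (groupCohomology A 2) : ℚ) / (Nat.card (groupCohomology A 1) : ℚ) := by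
  rw [herbrand_eq_div, card_groupCohomology_even A g hg 2 (by decide),
    card_groupCohomology_odd A g hg 1 (by decide)]

/-- periodicity of the orders of cohomology groups of a finite cyclic group. -/
theorem card_groupCohomology_add_two (i : ℕ) [NeZero i] :
    Nat.card (groupCohomology A (i + 2)) = Nat.card (groupCohomology A i) := by
  rcases Nat.even_or_odd i with hi | hi
  · rw [card_groupCohomology_even A g hg i hi,
      card_groupCohomology_even A g hg (i + 2) (by simpa [Nat.even_add] using hi)]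
  · rw [card_groupCohomology_odd A g hg i hi,
      card_groupCohomology_odd A g hg (i + 2) (by
        rcases hi with ⟨m, rfl⟩; exact ⟨m + 1, by ring⟩)]

end Fermat.Agent.S55.Herbrand

end
-- ===== PACK-END S55/Herbrand/RepBridge.lean

-- ===== PACK-BEGIN S55/H295/Invariants.lean
section


/-!
# Cohomological triviality, part 2: invariants under a normal subgroup

* `shortExact_quotientToInvariants`: for `S ⊴ G` and a short exact sequence
  `0 → X₁ → X₂ → X₃ → 0` of `G`-modules with `H¹(S, X₁) = 0`, the sequence of `G ⧸ S`-modules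
  `0 → X₁^S → X₂^S → X₃^S → 0` is short exact.
* `isZero_H_quotientToInvariants_coindBot`: `(coind_1^G A)^S` is an acyclic `G ⧸ S`-module.
-/

set_option autoImplicit false

open CategoryTheory groupCohomology Rep Limits

universe u

namespace Fermat.Agent.S55.H295

open Fermat.Agent.S55.H572

noncomputable section

variable {k G : Type u} [CommRing k] [Group G] (S : Subgroup G) [S.Normal]

lemma qti_map_apply_coe {X Y : Rep.{u} k G} (f : X ⟶ Y) (x : X.quotientToInvariants S) :
    (((quotientToInvariantsFunctor k S).map f).hom x).1 = f.hom x.1 := rfl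

instance qti_preservesZeroMorphisms :
    (quotientToInvariantsFunctor.{u} k S).PreservesZeroMorphisms where
  map_zero X Y := by
    apply Rep.hom_ext
    apply Representation.IntertwiningMap.ext
    apply LinearMap.ext
    intro x
    apply Subtype.ext
    rfl

/-- Invariants under a normal subgroup `S` are exact on short exact sequences whose kernel has
vanishing `H¹(S, -)`. -/
theorem shortExact_quotientToInvariants {X : ShortComplex (Rep.{u} k G)} (hX : X.ShortExact)
    (h1 : IsZero (groupCohomology (res S.subtype X.X₁) 1)) :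
    (X.map (quotientToInvariantsFunctor.{u} k S)).ShortExact := by
  have hinj := rep_shortExact_inj hX
  have hsurj := rep_shortExact_surj hX
  have hex := rep_shortExact_exact hX
  have hfρ : ∀ (g : G) (x : X.X₁), X.f.hom (X.X₁.ρ g x) = X.X₂.ρ g (X.f.hom x) :=
    fun g x => Rep.hom_comm_apply X.f g x
  have hgρ : ∀ (g : G) (x : X.X₂), X.g.hom (X.X₂.ρ g x) = X.X₃.ρ g (X.g.hom x) :=
    fun g x => Rep.hom_comm_apply X.g g x
  apply rep_shortExact_of
  · -- injectivity
    intro x y hxy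
    apply Subtype.ext
    apply hinj
    have h2 : (((quotientToInvariantsFunctor.{u} k S).map X.f).hom x).1 =
        (((quotientToInvariantsFunctor.{u} k S).map X.f).hom y).1 := congrArg Subtype.val hxy
    rw [qti_map_apply_coe, qti_map_apply_coe] at h2
    exact h2
  · -- exactness in the middle
    intro y hy
    have hy' : X.g.hom y.1 = 0 := by
      have h2 : (((quotientToInvariantsFunctor.{u} k S).map X.g).hom y).1 = 0 :=
        congrArg Subtype.val hy
      rw [qti_map_apply_coe] at h2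
      exact h2
    obtain ⟨x, hx⟩ := hex y.1 hy'
    refine ⟨⟨x, fun s => ?_⟩, ?_⟩
    · apply hinj
      change X.f.hom (X.X₁.ρ (s : G) x) = X.f.hom x
      rw [hfρ, hx]
      exact y.2 s
    · apply Subtype.ext
      exact hx
  · -- surjectivity, using `H¹(S, X₁) = 0`
    intro z
    obtain ⟨y, hy⟩ := hsurj z.1
    have hz : ∀ s : S, X.X₃.ρ (s : G) z.1 = z.1 := fun s => z.2 s
    have hker : ∀ s : S, ∃ c : X.X₁, X.f.hom c = X.X₂.ρ (s : G) y - y := by
      intro s
      apply hex
      rw [map_sub, hgρ, hy, hz, sub_self]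
    choose c hc using hker
    have hcoc : c ∈ cocycles₁ (res S.subtype X.X₁) := by
      rw [mem_cocycles₁_iff]
      intro s t
      apply hinj
      change X.f.hom (c (s * t)) = X.f.hom (X.X₁.ρ (s : G) (c t) + c s)
      rw [map_add, hfρ, hc, hc, hc, Subgroup.coe_mul, map_mul, map_sub]
      simp only [Module.End.mul_apply]
      abel
    have hzero : H1π (res S.subtype X.X₁) ⟨c, hcoc⟩ = 0 :=
      (ModuleCat.subsingleton_of_isZero h1).elim _ _
    rw [H1π_eq_zero_iff] at hzero
    obtain ⟨a, ha⟩ := hzero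
    have ha' : ∀ s : S, X.X₁.ρ (s : G) a - a = c s := fun s => congrFun ha s
    refine ⟨⟨y - X.f.hom a, fun s => ?_⟩, ?_⟩
    · change X.X₂.ρ (s : G) (y - X.f.hom a) = y - X.f.hom a
      have h2 : X.f.hom (c s) = X.X₂.ρ (s : G) (X.f.hom a) - X.f.hom a := by
        rw [← ha' s, map_sub, hfρ]
      rw [map_sub]
      have h3 := hc s
      rw [h2] at h3
      have h4 : X.X₂.ρ (s : G) y = X.X₂.ρ (s : G) (X.f.hom a) - X.f.hom a + y := by
        rw [h3]; abel
      rw [h4]; abel
    · apply Subtype.ext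
      change X.g.hom (y - X.f.hom a) = z.1
      rw [map_sub, hy]
      have h0 : (X.f ≫ X.g).hom a = (0 : X.X₁ ⟶ X.X₃).hom a := by rw [X.zero]
      have : X.g.hom (X.f.hom a) = 0 := h0
      rw [this, sub_zero]

end

end Fermat.Agent.S55.H295

namespace Fermat.Agent.S55.H295

open Fermat.Agent.S55.H572

noncomputable section

variable {k G : Type u} [CommRing k] [Group G] (S : Subgroup G) [S.Normal]

/-- Coefficients of `(coind_1^G A)^S` viewed as a coinduced `G ⧸ S`-module. -/
abbrev coeffQuot (A : Rep.{u} k G) : Rep.{u} k (⊥ : Subgroup (G ⧸ S)) :=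
  Rep.trivial k (⊥ : Subgroup (G ⧸ S)) A.V

lemma coindBot_inv_apply (A : Rep.{u} k G) (φ : (coindBot A).quotientToInvariants S)
    (x : G) (s : G) (hs : s ∈ S) : φ.1.1 (x * s) = φ.1.1 x := by
  have h := φ.2 ⟨s, hs⟩
  exact congrFun (congrArg Subtype.val h) x

/-- The underlying linear equivalence of `qtiCoindBotIso`. -/
def qtiCoindBotLinearEquiv (A : Rep.{u} k G) :
    ((coindBot A).quotientToInvariants S).V ≃ₗ[k]
      (coind (⊥ : Subgroup (G ⧸ S)).subtype (coeffQuot S A)).V where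
  toFun φ := mkCoind (coeffQuot S A) (fun q => Quotient.liftOn' q (fun x => φ.1.1 x)
    (fun x y hxy => by
      have hmem : x⁻¹ * y ∈ S := QuotientGroup.leftRel_apply.mp hxy
      have := coindBot_inv_apply S A φ x (x⁻¹ * y) hmem
      rw [mul_inv_cancel_left] at this
      exact this.symm))
  map_add' φ ψ := by
    apply Subtype.ext
    funext q
    induction q using QuotientGroup.induction_on with
    | H x => rfl
  map_smul' r φ := by
    apply Subtype.ext
    funext q
    induction q using QuotientGroup.induction_on with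
    | H x => rfl
  invFun ψ := ⟨mkCoind (botRes A) (fun x => ψ.1 (QuotientGroup.mk x)), fun s => by
    apply Subtype.ext
    funext x
    change ψ.1 (QuotientGroup.mk (x * (s : G))) = ψ.1 (QuotientGroup.mk x)
    rw [QuotientGroup.mk_mul_of_mem _ s.2]⟩
  left_inv φ := by
    apply Subtype.ext
    apply Subtype.ext
    funext x
    rfl
  right_inv ψ := by
    apply Subtype.ext
    funext q
    induction q using QuotientGroup.induction_on with
    | H x => rfl

/-- `(coind_1^G A)^S ≅ coind_1^{G/S}(A)` as `G ⧸ S`-modules. -/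
def qtiCoindBotIso (A : Rep.{u} k G) :
    (coindBot A).quotientToInvariants S ≅
      coind (⊥ : Subgroup (G ⧸ S)).subtype (coeffQuot S A) :=
  Rep.mkIso (Representation.Equiv.mk (qtiCoindBotLinearEquiv S A) (fun q => by
    induction q using QuotientGroup.induction_on with
    | H g =>
      apply LinearMap.ext
      intro φ
      apply Subtype.ext
      funext q'
      induction q' using QuotientGroup.induction_on with
      | H x => rfl))

/-- `(coind_1^G A)^S` is an acyclic `G ⧸ S`-module. -/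
theorem isZero_H_quotientToInvariants_coindBot (A : Rep.{u} k G) (n : ℕ) :
    IsZero (groupCohomology ((coindBot A).quotientToInvariants S) (n + 1)) :=
  IsZero.of_iso (IsZero.of_iso (isZero_groupCohomology_succ_of_subsingleton (coeffQuot S A) n)
      (groupCohomology.coindIso (coeffQuot S A) (n + 1)))
    ((groupCohomology.functor k (G ⧸ S) (n + 1)).mapIso (qtiCoindBotIso S A))

end

end Fermat.Agent.S55.H295

end
-- ===== PACK-END S55/H295/Invariants.lean

-- ===== PACK-BEGIN S55/T/ShapiroH303.lean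
section



/-!
# S55, layer T, leaf T8 (helper303): Shapiro's lemma in explicit form

* `shapiroExplicit : ShapiroExplicitSpec`
* `shapiroRecognition : ShapiroRecognitionSpec`

Proof: dimension shifting.  `θₙ(A) : Hⁿ(G, Coind A) → Hⁿ(S, A)` is natural in `A`, compatible with
connecting homomorphisms, bijective for `n = 0`, and both sides are effaced by
`A ↪ coind₁ A`.
-/

set_option autoImplicit false
set_option linter.style.haveILetI false
set_option linter.unusedSectionVars false
set_option linter.unusedVariables false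

open CategoryTheory groupCohomology Rep Limits

namespace Fermat.Agent.S55.T.ShapiroH303

open Fermat.Agent.S55

noncomputable section

variable {k G : Type} [CommRing k] [Group G] (S : Subgroup G)

lemma coindEv_hom_apply (A : Rep.{0} k S) (x : (Rep.coind S.subtype A).V) :
    (coindEv S A).hom x = x.1 1 := rfl

/-- the cochain-level Shapiro map -/
abbrev shapCochains (A : Rep.{0} k S) :
    inhomogeneousCochains (Rep.coind S.subtype A) ⟶ inhomogeneousCochains A :=
  cochainsMap S.subtype (coindEv S A)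

/-- `θₙ(A) : Hⁿ(G, Coind A) → Hⁿ(S, A)` -/
abbrev shap (A : Rep.{0} k S) (n : ℕ) :
    groupCohomology (Rep.coind S.subtype A) n ⟶ groupCohomology A n :=
  groupCohomology.map S.subtype (coindEv S A) n

lemma shapCochains_natural {A B : Rep.{0} k S} (f : A ⟶ B) :
    cochainsMap (MonoidHom.id G) (Rep.coindMap S.subtype f) ≫ shapCochains S B =
      shapCochains S A ≫ cochainsMap (MonoidHom.id S) f := by
  rfl

lemma shap_natural {A B : Rep.{0} k S} (f : A ⟶ B) (n : ℕ) :
    groupCohomology.map (MonoidHom.id G) (Rep.coindMap S.subtype f) n ≫ shap S B n =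
      shap S A n ≫ groupCohomology.map (MonoidHom.id S) f n := by
  have h := congrArg (fun φ => HomologicalComplex.homologyMap φ n) (shapCochains_natural S f)
  simp only [HomologicalComplex.homologyMap_comp] at h
  exact h

/-! ### Coinduction is exact -/

lemma coindFunctor_additive : (Rep.coindFunctor.{0} k S.subtype).Additive where
  map_add := by intros; rfl

lemma coind_shortExact {X : ShortComplex (Rep.{0} k S)} (hX : X.ShortExact) :
    (X.map (Rep.coindFunctor k S.subtype)).ShortExact := by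
  haveI := coindFunctor_additive (k := k) S
  haveI : PreservesFiniteLimits (Rep.coindFunctor.{0} k S.subtype) := inferInstance
  have h0 := (Functor.preservesFiniteLimits_tfae (Rep.coindFunctor.{0} k S.subtype)).out 3 0
  have h := h0.mp ‹_› X hX
  haveI := hX.epi_g
  exact { exact := h.1, mono_f := h.2,
          epi_g := (inferInstance : Epi ((Rep.coindFunctor.{0} k S.subtype).map X.g)) }

/-! ### Compatibility with connecting homomorphisms -/

/-- the morphism of short complexes of cochain complexes -/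
def shapShortComplex (X : ShortComplex (Rep.{0} k S)) :
    (X.map (Rep.coindFunctor k S.subtype)).map (cochainsFunctor k G) ⟶
      X.map (cochainsFunctor k S) where
  τ₁ := shapCochains S X.X₁
  τ₂ := shapCochains S X.X₂
  τ₃ := shapCochains S X.X₃
  comm₁₂ := shapCochains_natural S X.f
  comm₂₃ := shapCochains_natural S X.g

lemma shap_δ {X : ShortComplex (Rep.{0} k S)} (hX : X.ShortExact) (i j : ℕ) (hij : i + 1 = j) :
    groupCohomology.δ (coind_shortExact S hX) i j hij ≫ shap S X.X₁ j =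
      shap S X.X₃ i ≫ groupCohomology.δ hX i j hij :=
  HomologicalComplex.HomologySequence.δ_naturality (shapShortComplex S X)
    (map_cochainsFunctor_shortExact (coind_shortExact S hX))
    (map_cochainsFunctor_shortExact hX) i j hij

/-! ### Effaceability -/

lemma isZero_coind₁ (A : Rep.{0} k S) (n : ℕ) :
    IsZero (groupCohomology (H572.coind₁ A) (n + 1)) :=
  IsZero.of_iso (isZero_groupCohomology_succ_of_subsingleton _ n)
    (groupCohomology.coindIso _ (n + 1))

lemma isZero_coind_coind₁ (A : Rep.{0} k S) (n : ℕ) :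
    IsZero (groupCohomology (Rep.coind S.subtype (H572.coind₁ A)) (n + 1)) :=
  IsZero.of_iso (isZero_coind₁ S A n) (groupCohomology.coindIso _ (n + 1))

/-! ### Degree 0 -/

lemma H0Iso_shap_apply (A : Rep.{0} k S) (x : groupCohomology (Rep.coind S.subtype A) 0) :
    (((H0Iso A).hom ((shap S A 0).hom x) : A.ρ.invariants) : A.V) =
      ((((H0Iso (Rep.coind S.subtype A)).hom x : (Rep.coind S.subtype A).ρ.invariants) :
        (Rep.coind S.subtype A).V)).1 1 := by
  have h := map_H0Iso_hom_f_apply (f := S.subtype) (φ := coindEv S A) x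
  exact h

lemma invariants_coind_apply (A : Rep.{0} k S)
    (F : (Rep.coind S.subtype A).ρ.invariants) (g : G) :
    ((F : (Rep.coind S.subtype A).V)).1 g = ((F : (Rep.coind S.subtype A).V)).1 1 := by
  have h := F.2 g
  have h2 := congrArg (fun f : (Rep.coind S.subtype A).V => f.1 1) h
  simpa using h2

lemma shap_zero_bijective (A : Rep.{0} k S) : Function.Bijective (shap S A 0).hom := by
  constructor
  · intro x y hxy
    have hx := H0Iso_shap_apply S A x
    have hy := H0Iso_shap_apply S A y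
    rw [hxy] at hx
    have h1 : (H0Iso (Rep.coind S.subtype A)).hom x = (H0Iso (Rep.coind S.subtype A)).hom y := by
      apply Subtype.ext
      apply Subtype.ext
      funext g
      rw [invariants_coind_apply S A _ g, invariants_coind_apply S A ((H0Iso _).hom y) g,
        ← hx, ← hy]
    have h2 := congrArg (H0Iso (Rep.coind S.subtype A)).inv h1
    simpa using h2
  · intro y
    let b : A.ρ.invariants := (H0Iso A).hom y
    let F0 : (Rep.coind S.subtype A).V := ⟨fun _ => (b : A.V), by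
      intro s g
      exact (b.2 s).symm⟩
    let F : (Rep.coind S.subtype A).ρ.invariants := ⟨F0, by
      intro g
      apply Subtype.ext
      funext h
      rfl⟩
    refine ⟨(H0Iso (Rep.coind S.subtype A)).inv F, ?_⟩
    have h1 : (H0Iso A).hom ((shap S A 0).hom ((H0Iso (Rep.coind S.subtype A)).inv F)) =
        (H0Iso A).hom y := by
      apply Subtype.ext
      rw [H0Iso_shap_apply]
      simp only [Iso.inv_hom_id_apply]
      rfl
    have h2 := congrArg (H0Iso A).inv h1
    simpa using h2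

/-! ### Induction -/

theorem shap_bijective (n : ℕ) : ∀ (A : Rep.{0} k S), Function.Bijective (shap S A n).hom := by
  induction n with
  | zero => exact shap_zero_bijective S
  | succ n ih =>
    intro A
    have hX : (H572.upSC A).ShortExact := H572.upSC_shortExact A
    have hG := coind_shortExact S hX
    have hδ := shap_δ S hX n (n + 1) rfl
    have hδ' : ∀ w, (shap S A (n + 1)).hom ((groupCohomology.δ hG n (n + 1) rfl).hom w) =
        (groupCohomology.δ hX n (n + 1) rfl).hom ((shap S (H572.up A) n).hom w) := fun w =>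
      ConcreteCategory.congr_hom hδ w
    have epiS : Function.Surjective (groupCohomology.δ hX n (n + 1) rfl).hom :=
      (ModuleCat.epi_iff_surjective _).mp (epi_δ_of_isZero hX n (isZero_coind₁ S A n))
    have epiG : Function.Surjective (groupCohomology.δ hG n (n + 1) rfl).hom :=
      (ModuleCat.epi_iff_surjective _).mp (epi_δ_of_isZero hG n (isZero_coind_coind₁ S A n))
    constructor
    · rw [injective_iff_map_eq_zero]
      intro x hx
      obtain ⟨w, rfl⟩ := epiG x
      rw [hδ'] at hx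
      have hex := mapShortComplex₃_exact hX (i := n) (j := n + 1) rfl
      obtain ⟨u, hu⟩ := (ShortComplex.moduleCat_exact_iff _).mp hex _ hx
      obtain ⟨v, rfl⟩ := (ih (H572.coind₁ A)).2 u
      have hnat := shap_natural S (H572.upπ A) n
      have h3 : (shap S (H572.up A) n).hom
          ((groupCohomology.map (MonoidHom.id G) (Rep.coindMap S.subtype (H572.upπ A)) n).hom v)
          = (shap S (H572.up A) n).hom w := by
        rw [← hu]
        exact ConcreteCategory.congr_hom hnat v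
      have hw := (ih (H572.up A)).1 h3
      rw [← hw]
      exact ConcreteCategory.congr_hom (mapShortComplex₃ hG (i := n) (j := n + 1) rfl).zero v
    · intro y
      obtain ⟨z, rfl⟩ := epiS y
      obtain ⟨w, rfl⟩ := (ih (H572.up A)).2 z
      exact ⟨_, hδ' w⟩

/-- **T8** -/
theorem shapiroExplicit : ShapiroExplicitSpec := by
  intro k G _ _ S A n
  exact shap_bijective S n A

/-! ### Recognition form -/

/-- **T8'** -/
theorem shapiroRecognition : ShapiroRecognitionSpec := by
  intro k G _ _ S A B π hπ n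
  let Φ : B ⟶ Rep.coind S.subtype A := Rep.resCoindToHom S.subtype B A π
  have hΦ_apply : ∀ (b : B.V) (g : G), (Φ.hom b).1 g = π.hom (B.ρ g b) := fun b g => rfl
  have hinj : Function.Injective Φ.hom := by
    intro b b' hbb'
    obtain ⟨b₀, -, huniq⟩ := hπ (Φ.hom b).1 (fun s g => (Φ.hom b).2 s g)
    have h1 : b = b₀ := huniq b (fun g => rfl)
    have h2 : b' = b₀ := huniq b' (fun g => by rw [hbb']; rfl)
    rw [h1, h2]
  have hsurj : Function.Surjective Φ.hom := by
    intro f
    obtain ⟨b₀, hb₀, -⟩ := hπ f.1 (fun s g => f.2 s g)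
    refine ⟨b₀, ?_⟩
    apply Subtype.ext
    funext g
    exact hb₀ g
  haveI : Mono Φ := (Rep.mono_iff_injective Φ).mpr hinj
  haveI : Epi Φ := (Rep.epi_iff_surjective Φ).mpr hsurj
  haveI : IsIso Φ := isIso_of_mono_of_epi Φ
  haveI : IsIso (groupCohomology.map (MonoidHom.id G) Φ n) :=
    (inferInstance : IsIso ((groupCohomology.functor k G n).map Φ))
  have hcomp : groupCohomology.map S.subtype π n =
      groupCohomology.map (MonoidHom.id G) Φ n ≫ shap S A n := by
    have h1 := groupCohomology.map_comp (MonoidHom.id G) S.subtype Φ (coindEv S A) n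
    rw [← h1]
    apply groupCohomology.map_congr rfl
    ext b
    change π.hom b = π.hom (B.ρ 1 b)
    rw [map_one]
    rfl
  rw [hcomp]
  have hb1 : Function.Bijective (groupCohomology.map (MonoidHom.id G) Φ n).hom :=
    ConcreteCategory.bijective_of_isIso _
  have hb2 := shap_bijective S n A
  have : ((groupCohomology.map (MonoidHom.id G) Φ n ≫ shap S A n).hom : _ → _) =
      (shap S A n).hom ∘ (groupCohomology.map (MonoidHom.id G) Φ n).hom := by
    funext x; rfl
  rw [this]
  exact hb2.comp hb1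

end

end Fermat.Agent.S55.T.ShapiroH303

end
-- ===== PACK-END S55/T/ShapiroH303.lean

-- ===== PACK-BEGIN S55/Spec/Datum2.lean
section
/-
S55 moonshot — interface G/L → D, version 2 (WEAKER for producers, this is what the engine
consumes): the arithmetic properties GD1, GD3, GD6, GD8 are only required for levels containing
`μ_p` (as proposed by helper955, G-ADAPTER).  Chief architect: helper55.  NO sorry.

`GlobalSpecMu S p` is the FINAL target of layer G;  `GlobalSpec S p → GlobalSpecMu S p`.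
-/


set_option autoImplicit false

open CategoryTheory

namespace Fermat.Agent.S55.Tow

noncomputable section

variable {S : Finset Nat.Primes}

/-- `μ_p ⊂ F`. -/
def Level.HasMu (p : ℕ) (L : Level S) : Prop := ∃ ζ : Qbar, ζ ∈ L.F ∧ IsPrimitiveRoot ζ p

lemma Level.HasMu.mono {p : ℕ} {L L' : Level S} (h : L ≤ L') (hL : L.HasMu p) : L'.HasMu p := by
  obtain ⟨ζ, hζ, hprim⟩ := hL
  exact ⟨ζ, h hζ, hprim⟩

namespace TowerDatum

variable (D : TowerDatum S)

/-- The properties of a tower datum consumed by the engine E1, arithmetic ones only above `μ_p`. -/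
structure IsGoodMu (p : ℕ) : Prop where
  /-- GD1: `(C(F), γ_F)` is a class module at `p`, for `F ⊇ μ_p`. -/
  gd1 : ∀ L : Level S, L.HasMu p → E1.IsClassModuleAt p (D.C L) (D.γ L)
  /-- GD3: `(j_q)_*` is injective on `p`-torsion of `H²(G_F, J_q(F))`, for `F ⊇ μ_p`. -/
  gd3 : ∀ (L : Level S), L.HasMu p → ∀ (q : Nat.Primes), q ∈ S →
    ∀ y : groupCohomology (L.J q) 2,
      p • y = 0 → (T.coeffMap (D.j L q) 2).hom y = 0 → y = 0
  /-- GD4: the kernel of `J(F) → C(F)` is the diagonal image of the `S`-units. -/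
  gd4 : ∀ (L : Level S) (x : ∀ q : S, (L.J q.1).V),
    ∑ q : S, (D.j L q.1).hom (x q) = 0 ↔
      ∃ e : L.units.V, L.IsSUnit e ∧ ∀ q : S, x q = (L.diag q.1).hom e
  /-- GD5: capitulation of the `p`-part of `C(F)/im J(F)`. -/
  gd5 : ∀ (L : Level S) (c : (D.C L).V) (a : ℕ), D.IsLocalSum L (p ^ a • c) →
    ∃ (L' : Level S) (h : L ≤ L'), D.IsLocalSum L' ((D.tr h).hom c)
  /-- GD6: existence theorem mod `p` over base levels `F₀ ⊇ μ_p`. -/
  gd6 : ∀ L₀ : Level S, L₀.HasMu p → ∃ L₁ : Level S, L₀ ≤ L₁ ∧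
    ∀ (L : Level S) (h : L₀ ≤ L), L₁ ≤ L →
      @E1.NormInP p L.Gal _ (Level.relGal h) (Fintype.ofFinite _) (D.C L)
  /-- GD7a: `tr` is compatible with `j` and the inclusions `J_q(F) → J_q(F')`. -/
  gd7a : ∀ {L L' : Level S} (h : L ≤ L') (q : Nat.Primes), q ∈ S → ∀ (x : (L.J q).V),
    (D.tr h).hom ((D.j L q).hom x) = (D.j L' q).hom ((Level.trJ h q).hom x)
  /-- GD7b: `tr` is transitive. -/
  gd7b : ∀ {L L' L'' : Level S} (h : L ≤ L') (h' : L' ≤ L'') (c : (D.C L).V),
    (D.tr h').hom ((D.tr h).hom c) = (D.tr (h.trans h')).hom c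
  /-- GD8: inflation is injective on `p`-torsion of `H²(G_F, C(F))`, for `F ⊇ μ_p`. -/
  gd8 : ∀ {L L' : Level S} (h : L ≤ L'), L.HasMu p → ∀ (z : groupCohomology (D.C L) 2),
    p • z = 0 → D.inf h z = 0 → z = 0

theorem IsGood.isGoodMu {p : ℕ} (h : D.IsGood p) : D.IsGoodMu p where
  gd1 L _ := h.gd1 L
  gd3 L _ q hq y := h.gd3 L q hq y
  gd4 := h.gd4
  gd5 := h.gd5
  gd6 L₀ _ := h.gd6 L₀
  gd7a hLL q _ x := h.gd7a hLL q x
  gd7b := h.gd7b
  gd8 hLL _ z := h.gd8 hLL z

end TowerDatum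

/-- **FINAL TARGET OF LAYER G** (weak form): a tower datum which is good above `μ_p`. -/
def GlobalSpecMu (S : Finset Nat.Primes) (p : ℕ) : Prop :=
  ∃ D : TowerDatum S, D.IsGoodMu p

theorem GlobalSpec.globalSpecMu {p : ℕ} (h : GlobalSpec S p) : GlobalSpecMu S p := by
  obtain ⟨D, hD⟩ := h
  exact ⟨D, hD.isGoodMu⟩

end

end Fermat.Agent.S55.Tow

end
-- ===== PACK-END S55/Spec/Datum2.lean

-- ===== PACK-BEGIN S55/H713/NormalLattice.lean
section


/-!
# The normal basis lattice

`E/F` finite Galois, `O` a valuation subring of `E` stable under `Gal(E/F)`.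
For `t : F`, `normLat O t` is the set of `x : E` whose coordinates in the normal basis,
divided by `t`, lie in `O`.
-/

set_option autoImplicit false
set_option linter.unusedSectionVars false

open IsLocalRing

namespace Fermat.Agent.S55.H713

variable {F E : Type*} [Field F] [Field E] [Algebra F E] [FiniteDimensional F E] [IsGalois F E]
variable (O : ValuationSubring E)

/-- `O` is stable under the Galois group. -/
def GalStable (F : Type*) {E : Type*} [Field F] [Field E] [Algebra F E]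
    (O : ValuationSubring E) : Prop :=
  ∀ (g : Gal(E/F)) (x : E), x ∈ O → g x ∈ O

/-- The normal basis. -/
noncomputable abbrev nb (F E : Type*) [Field F] [Field E] [Algebra F E] [FiniteDimensional F E]
    [IsGalois F E] : Module.Basis Gal(E/F) F E := IsGalois.normalBasis F E

lemma galois_nb (g h : Gal(E/F)) : g (nb F E h) = nb F E (g * h) := by
  rw [IsGalois.normalBasis_apply h, IsGalois.normalBasis_apply (g * h)]
  rfl

lemma repr_galois (g : Gal(E/F)) (x : E) (k : Gal(E/F)) :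
    (nb F E).repr (g x) k = (nb F E).repr x (g⁻¹ * k) := by
  classical
  conv_lhs => rw [← (nb F E).sum_repr x]
  rw [map_sum, map_sum, Finset.sum_apply']
  have : ∀ h : Gal(E/F), (nb F E).repr (g (((nb F E).repr x) h • (nb F E) h)) k =
      if h = g⁻¹ * k then (nb F E).repr x h else 0 := by
    intro h
    rw [map_smul, galois_nb, map_smul, Module.Basis.repr_self, Finsupp.smul_apply,
      Finsupp.single_apply, smul_eq_mul]
    by_cases hk : h = g⁻¹ * k
    · subst hk; simp
    · have : g * h ≠ k := fun e => hk (by rw [← e]; group)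
      simp [this, hk]
  simp_rw [this]
  simp

/-- The lattice of elements whose normal basis coordinates lie in `t • (O ∩ F)`. -/
def normLat (t : F) : AddSubgroup E where
  carrier := {x | ∀ g, algebraMap F E ((nb F E).repr x g / t) ∈ O}
  zero_mem' := by intro g; simp [O.zero_mem]
  add_mem' := by
    intro x y hx hy g
    have : ((nb F E).repr (x + y) g) / t = (nb F E).repr x g / t + (nb F E).repr y g / t := by
      rw [map_add, Finsupp.add_apply, add_div]
    rw [this, map_add]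
    exact O.add_mem _ _ (hx g) (hy g)
  neg_mem' := by
    intro x hx g
    have : ((nb F E).repr (-x) g) / t = -((nb F E).repr x g / t) := by
      rw [map_neg, Finsupp.neg_apply, neg_div]
    rw [this, map_neg]
    exact O.neg_mem _ (hx g)

variable {O}

lemma mem_normLat {t : F} {x : E} :
    x ∈ normLat O t ↔ ∀ g, algebraMap F E ((nb F E).repr x g / t) ∈ O := Iff.rfl

lemma smul_mem_normLat {t : F} {c : F} (hc : algebraMap F E c ∈ O) {x : E}
    (hx : x ∈ normLat O t) : c • x ∈ normLat O t := by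
  intro g
  have : ((nb F E).repr (c • x) g) / t = c * ((nb F E).repr x g / t) := by
    rw [map_smul, Finsupp.smul_apply, smul_eq_mul, mul_div_assoc]
  rw [this, map_mul]
  exact O.mul_mem _ _ hc (hx g)

lemma galois_mem_normLat {t : F} (g : Gal(E/F)) {x : E} (hx : x ∈ normLat O t) :
    g x ∈ normLat O t := by
  intro k
  rw [repr_galois]
  exact hx _

lemma smul_nb_mem_normLat {t : F} (ht : t ≠ 0) (g : Gal(E/F)) : t • nb F E g ∈ normLat O t := by
  classical
  intro k
  rw [map_smul, Module.Basis.repr_self, Finsupp.smul_apply, Finsupp.single_apply, smul_eq_mul]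
  by_cases h : g = k
  · simp [h, ht, O.one_mem]
  · simp [h, O.zero_mem]

/-- scaling: `x ∈ normLat (s * t) ↔ s⁻¹ • x ∈ normLat t`. -/
lemma mem_normLat_mul {s t : F} (hs : s ≠ 0) {x : E} :
    x ∈ normLat O (s * t) ↔ s⁻¹ • x ∈ normLat O t := by
  have : ∀ g, ((nb F E).repr (s⁻¹ • x) g) / t = (nb F E).repr x g / (s * t) := by
    intro g
    rw [map_smul, Finsupp.smul_apply, smul_eq_mul]
    field_simp
  simp only [mem_normLat, this]

lemma smul_mem_normLat_mul {s t : F} (hs : s ≠ 0) {x : E} (hx : x ∈ normLat O t) :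
    s • x ∈ normLat O (s * t) := by
  rw [mem_normLat_mul hs, smul_smul, inv_mul_cancel₀ hs, one_smul]
  exact hx

/-- elements of `normLat t` are in `O` when `t • θ ∈ O`. -/
lemma normLat_le (hstab : GalStable F O) {t : F} (ht : t ≠ 0)
    (hθ : t • nb F E 1 ∈ O) {x : E} (hx : x ∈ normLat O t) : x ∈ O := by
  rw [← (nb F E).sum_repr x]
  refine O.toSubring.sum_mem (fun g _ => ?_)
  have h1 : (nb F E).repr x g • nb F E g =
      algebraMap F E ((nb F E).repr x g / t) * (t • nb F E g) := by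
    rw [Algebra.smul_def, Algebra.smul_def, ← mul_assoc, ← map_mul, div_mul_cancel₀ _ ht]
  rw [h1]
  refine O.mul_mem _ _ (hx g) ?_
  have h2 : t • nb F E g = g (t • nb F E 1) := by
    rw [map_smul, galois_nb, mul_one]
  rw [h2]
  exact hstab g _ hθ


/-! ### The trace-dual basis and openness -/

open scoped Classical in
/-- The trace-dual of the normal basis. -/
noncomputable def dnb (F E : Type*) [Field F] [Field E] [Algebra F E] [FiniteDimensional F E]
    [IsGalois F E] : Module.Basis Gal(E/F) F E :=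
  (Algebra.traceForm F E).dualBasis (traceForm_nondegenerate F E) (nb F E)

open scoped Classical in
lemma repr_eq_trace (x : E) (g : Gal(E/F)) :
    (nb F E).repr x g = Algebra.trace F E (x * dnb F E g) := by
  have h : (Algebra.traceForm F E).dualBasis (traceForm_nondegenerate F E) (dnb F E) = nb F E :=
    LinearMap.BilinForm.dualBasis_dualBasis (traceForm_nondegenerate F E)
      (Algebra.traceForm_isSymm F) (nb F E)
  have h2 := LinearMap.BilinForm.dualBasis_repr_apply (traceForm_nondegenerate F E)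
    (dnb F E) x g
  rw [← Algebra.traceForm_apply, ← h2, h]

lemma trace_mem (hstab : GalStable F O) {x : E} (hx : x ∈ O) :
    algebraMap F E (Algebra.trace F E x) ∈ O := by
  rw [trace_eq_sum_automorphisms]
  exact O.toSubring.sum_mem (fun g _ => hstab g x hx)

/-- Openness: if `(s / t) • d ∈ O` for all dual basis vectors `d`, then `s • O ⊆ normLat t`. -/
lemma smul_mem_normLat_of_mem (hstab : GalStable F O) {s t : F}
    (hd : ∀ g, (s / t) • dnb F E g ∈ O) {x : E} (hx : x ∈ O) : s • x ∈ normLat O t := by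
  intro g
  have : ((nb F E).repr (s • x) g) / t = Algebra.trace F E (x * ((s / t) • dnb F E g)) := by
    rw [map_smul, Finsupp.smul_apply, smul_eq_mul, repr_eq_trace, mul_smul_comm, map_smul,
      smul_eq_mul]
    ring
  rw [this]
  exact trace_mem hstab (O.mul_mem _ _ hx (hd g))

/-! ### Parameters -/

/-- A parameter: a nonzero element of `F` lying in the maximal ideal of `O`. -/
structure IsParam (O : ValuationSubring E) (p : F) : Prop where
  ne_zero : p ≠ 0
  mem : algebraMap F E p ∈ O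
  inv_not_mem : (algebraMap F E p)⁻¹ ∉ O

namespace IsParam

variable {p : F} (hp : IsParam O p)
include hp

lemma pow_mem (k : ℕ) : algebraMap F E (p ^ k) ∈ O := by
  rw [map_pow]; exact O.toSubring.pow_mem hp.mem k

lemma pow_ne_zero (k : ℕ) : p ^ k ≠ 0 := _root_.pow_ne_zero k hp.ne_zero

lemma smul_mem {x : E} (hx : x ∈ O) (k : ℕ) : p ^ k • x ∈ O := by
  rw [Algebra.smul_def]; exact O.mul_mem _ _ (hp.pow_mem k) hx

lemma smul_mem_of_le {x : E} {k l : ℕ} (hkl : k ≤ l) (hx : p ^ k • x ∈ O) : p ^ l • x ∈ O := by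
  obtain ⟨d, rfl⟩ := Nat.exists_eq_add_of_le hkl
  rw [add_comm, pow_add, mul_smul]
  exact hp.smul_mem hx d

/-- The parameter as an element of `O`. -/
def toO : O := ⟨algebraMap F E p, hp.mem⟩

lemma toO_ne_zero : hp.toO ≠ 0 := by
  intro h
  have : algebraMap F E p = 0 := congrArg Subtype.val h
  exact hp.ne_zero ((map_eq_zero _).1 this)

lemma toO_mem_maximalIdeal : hp.toO ∈ maximalIdeal O := by
  rw [mem_maximalIdeal, mem_nonunits_iff]
  intro hu
  obtain ⟨u, hu⟩ := hu
  apply hp.inv_not_mem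
  have h1 : ((u⁻¹ : Oˣ) : E) = (algebraMap F E p)⁻¹ := by
    have h2 : ((u : O) : E) * ((u⁻¹ : Oˣ) : O) = 1 := by
      rw [← Subring.coe_mul]
      simp
    have h3 : ((u : O) : E) = algebraMap F E p := by rw [hu]; rfl
    rw [h3] at h2
    exact eq_inv_of_mul_eq_one_right h2
  rw [← h1]
  exact ((u⁻¹ : Oˣ) : O).2

end IsParam

end Fermat.Agent.S55.H713

end
-- ===== PACK-END S55/H713/NormalLattice.lean

-- ===== PACK-BEGIN S55/G/DescH537/Spec.lean
section
/-
S55, layer G, leaf G-DESC, helper537.  Part 4: `descent : DescentSpec` (helper421's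
`G/Spec.lean`), from `DescH537.galoisDescent` applied to the Galois group `N` of `L/L'`.
-/



set_option autoImplicit false
set_option linter.unusedSectionVars false

open scoped NumberField TensorProduct
open IsDedekindDomain

noncomputable section

namespace Fermat.Agent.S55.G.DescH537

section Adapter

variable (S : Finset Nat.Primes) (G L L' : Type) [Group G] [Finite G] [Field L] [NumberField L]
  [Field L'] [NumberField L'] [Algebra L' L] [MulSemiringAction G L] [FaithfulSMul G L]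
  (N : Subgroup G)

/-- A subgroup `N` whose fixed field is (the image of) `L'` is a Galois group of `L/L'`. -/
theorem isGaloisGroup_of_fixed
    (hfix : ∀ x : L, (∀ n : N, (n : G) • x = x) ↔ x ∈ (algebraMap L' L).range) :
    IsGaloisGroup N L' L where
  faithful := ⟨fun {n n'} h => Subtype.ext (eq_of_smul_eq_smul (α := L) (fun x => h x))⟩
  commutes := ⟨fun n a x => by
    rw [Algebra.smul_def, Algebra.smul_def, smul_mul']
    congr 1
    exact (hfix _).2 ⟨a, rfl⟩ n⟩
  isInvariant := ⟨fun x hx => by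
    obtain ⟨a, ha⟩ := (hfix x).1 hx
    exact ⟨a, ha⟩⟩

/-- Trivial inertia outside `S` gives ramification index `1` outside `S`. -/
theorem eIdx_eq_one_of_isUnramOut [IsGaloisGroup N L' L] (hunr : IsUnramOut S G L)
    (w : PrimeOut S L) : eIdx L' L w.1 = 1 := by
  have hp : (below L' L w.1).asIdeal ≠ ⊥ := (below L' L w.1).ne_bot
  have := w.1.isPrime
  have := (below L' L w.1).isPrime
  have hGal : IsGaloisGroup N (𝓞 L') (𝓞 L) :=
    IsGaloisGroup.of_isFractionRing N (𝓞 L') (𝓞 L) L' L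
  have h1 : eIdx L' L w.1 = w.1.asIdeal.ramificationIdx (𝓞 L') :=
    Ideal.ramificationIdx'_eq_ramificationIdx _ _ hp
  have h2 := Ideal.ramificationIdxIn_eq_ramificationIdx (below L' L w.1).asIdeal w.1.asIdeal N
  have h3 := Ideal.card_inertia_eq_ramificationIdxIn (G := N) (below L' L w.1).asIdeal
    w.1.asIdeal
  rw [h1, ← h2, ← h3]
  have htriv : ∀ n : N, n ∈ Ideal.inertia N w.1.asIdeal → n = 1 := by
    intro n hn
    have hx : ∀ x : L, (n : G) • x = x := hunr w.1 w.2 (n : G) (fun x => hn x)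
    apply Subtype.ext
    refine eq_of_smul_eq_smul (α := L) (fun x => ?_)
    rw [hx, Subgroup.coe_one, one_smul]
  have hbot : Ideal.inertia N w.1.asIdeal = ⊥ := by
    rw [eq_bot_iff]
    intro n hn
    exact Subgroup.mem_bot.2 (htriv n hn)
  rw [hbot]
  exact Subgroup.card_bot

/-- The action of the subgroup `N` on `C_S(L)` is the restriction of the action of `G`. -/
lemma cRepr_subgroup (n : N) (c : CS S L) : cRepr S N L n c = cRepr S G L (n : G) c := by
  obtain ⟨x, rfl⟩ := Submodule.Quotient.mk_surjective _ c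
  change Submodule.Quotient.mk (jdRepr S N L n x) = Submodule.Quotient.mk (jdRepr S G L (n : G) x)
  congr 1

variable [N.Normal] [MulSemiringAction (G ⧸ N) L']

lemma asBC_equivariant
    (hcompat : ∀ (g : G) (x : L'), algebraMap L' L ((g : G ⧸ N) • x) = g • algebraMap L' L x)
    (g : G) (z : AS S L') :
    asBC L' L S (asAut S (G ⧸ N) L' (g : G ⧸ N) z) = asAut S G L g (asBC L' L S z) := by
  induction z using TensorProduct.induction_on with
  | zero => simp
  | tmul x y => simp [hcompat]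
  | add a b ha hb => simp only [map_add, ha, hb]

lemma jBC_equivariant
    (hcompat : ∀ (g : G) (x : L'), algebraMap L' L ((g : G ⧸ N) • x) = g • algebraMap L' L x)
    (g : G) (j : Additive (AS S L')ˣ) :
    jBC L' L S (jRepr (G ⧸ N) S L' (g : G ⧸ N) j) = jRepr G S L g (jBC L' L S j) := by
  apply Additive.toMul.injective
  apply Units.ext
  rw [coe_jBC_apply, coe_jRepr_apply, coe_jRepr_apply, coe_jBC_apply,
    asBC_equivariant S G L L' N hcompat]

lemma below_primeSMul_quot
    (hcompat : ∀ (g : G) (x : L'), algebraMap L' L ((g : G ⧸ N) • x) = g • algebraMap L' L x)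
    (g : G) (w : HeightOneSpectrum (𝓞 L)) :
    below L' L (primeSMul G g w) = primeSMul (G ⧸ N) (g : G ⧸ N) (below L' L w) := by
  have hint : ∀ (h : G) (x : 𝓞 L'), algebraMap (𝓞 L') (𝓞 L) ((h : G ⧸ N) • x) =
      h • algebraMap (𝓞 L') (𝓞 L) x := by
    intro h x
    apply NumberField.RingOfIntegers.ext
    exact hcompat h (x : L')
  apply HeightOneSpectrum.ext
  ext x
  rw [below_asIdeal, Ideal.under_def, Ideal.mem_comap, mem_primeSMul_iff, mem_primeSMul_iff,
    below_asIdeal, Ideal.under_def, Ideal.mem_comap, ← QuotientGroup.mk_inv, hint]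

lemma belowOut_primeOutMap_quot
    (hcompat : ∀ (g : G) (x : L'), algebraMap L' L ((g : G ⧸ N) • x) = g • algebraMap L' L x)
    (g : G) (w : PrimeOut S L) :
    belowOut S L' L (primeOutMap S G L g w) =
      primeOutMap S (G ⧸ N) L' (g : G ⧸ N) (belowOut S L' L w) :=
  Subtype.ext (below_primeSMul_quot G L L' N hcompat g w.1)

lemma divBC_equivariant
    (hcompat : ∀ (g : G) (x : L'), algebraMap L' L ((g : G ⧸ N) • x) = g • algebraMap L' L x)
    (hunr : ∀ w : PrimeOut S L, eIdx L' L w.1 = 1) (g : G) (d : PrimeOut S L' →₀ ℤ) :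
    divBC S L' L (divRepr S (G ⧸ N) L' (g : G ⧸ N) d) = divRepr S G L g (divBC S L' L d) := by
  ext w
  have hw : w = primeOutMap S G L g (primeOutMap S G L g⁻¹ w) := by
    rw [← primeOutMap_mul, mul_inv_cancel, primeOutMap_one]
  rw [hw, divRepr_apply_apply, divBC_apply, divBC_apply, hunr, hunr,
    belowOut_primeOutMap_quot S G L L' N hcompat, divRepr_apply_apply]

end Adapter

/-- **G-DESC**: Galois descent for the `S`-idèle class group, in the form of helper421's
interface. -/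
theorem descent : DescentSpec := by
  intro S G L L' _ _ _ _ _ _ _ _ _ N _ _ hS hunr hfix hcompat
  have hGal : IsGaloisGroup N L' L := isGaloisGroup_of_fixed G L L' N hfix
  have he : ∀ w : PrimeOut S L, eIdx L' L w.1 = 1 := eIdx_eq_one_of_isUnramOut S G L L' N hunr
  refine ⟨csBC S L' L, csBC_injective S N L' L hS, ?_, ?_, ?_⟩
  · intro g c
    obtain ⟨x, rfl⟩ := Submodule.Quotient.mk_surjective _ c
    change Submodule.Quotient.mk (jdBC S L' L (jdRepr S (G ⧸ N) L' (g : G ⧸ N) x)) =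
      Submodule.Quotient.mk (jdRepr S G L g (jdBC S L' L x))
    congr 1
    exact Prod.ext (jBC_equivariant S G L L' N hcompat g x.1)
      (divBC_equivariant S G L L' N hcompat he g x.2)
  · intro c
    constructor
    · intro hc
      exact exists_csBC_eq_of_invariant S N L' L hS he c
        (fun n => (cRepr_subgroup S G L N n c).trans (hc n))
    · rintro ⟨c', rfl⟩ n
      rw [← cRepr_subgroup S G L N n]
      exact cRepr_csBC S N L' L n c'
  · intro y
    change Submodule.Quotient.mk (jdBC S L' L (y, 0)) = Submodule.Quotient.mk (jMap S L' L y, 0)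
    congr 1
    exact Prod.ext rfl (map_zero (divBC S L' L))

end Fermat.Agent.S55.G.DescH537

end
end
-- ===== PACK-END S55/G/DescH537/Spec.lean

-- ===== PACK-BEGIN S55/E1/Main.lean
section
/-
S55 engine E1 — top level.  Chief architect: helper55.  NO sorry.

`EngineSpec` = the TARGET of layer D (engine E1): from the arithmetic inputs
(`T6p`, `GlobalSpec`, `LocalSpec`, `SUnitsDivSpec`, `H1FiniteSpec`) deduce
`finrank Ш¹_S(M^∨(1)) = finrank Ш²_S(M)` (with finite-dimensionality).
`S55_of_specs` : the frozen statement S55 follows from `EngineSpec` and the inputs.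
-/



set_option autoImplicit false

open CategoryTheory Module groupCohomology ExtCitation

namespace Fermat.Agent.S55.E1

open Fermat.Agent.S55.Tow

/-- The hypotheses on `M` in the frozen statement S55. -/
def IsAdmissible (S : Finset Nat.Primes) {p : ℕ} [Fact p.Prime]
    (M : Rep.{0, 0, 0} (ZMod p) (AlgebraicClosure ℚ ≃ₐ[ℚ] AlgebraicClosure ℚ)) : Prop :=
  (∀ m : M, ∃ F : IntermediateField ℚ (AlgebraicClosure ℚ), FiniteDimensional ℚ F ∧
      ∀ s ∈ F.fixingSubgroup, M.ρ s m = m) ∧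
  (∀ q : Nat.Primes, q ∉ S → ∀ A : ValuationSubring (AlgebraicClosure ℚ),
      A.LiesOverPrime (q : ℕ) → ∀ g ∈ A.inertiaSubgroupIn ℚ, M.ρ g = 1)

/-- The conclusion of the engine: equality of dimensions of `Ш¹_S(M^∨(1))` and `Ш²_S(M)`. -/
def DimEq (S : Finset Nat.Primes) {p : ℕ} [Fact p.Prime]
    (M : Rep.{0, 0, 0} (ZMod p) (AlgebraicClosure ℚ ≃ₐ[ℚ] AlgebraicClosure ℚ)) : Prop :=
  FiniteDimensional (ZMod p) (sha₁ S (M.dualTwist (cycloChar p))) ∧
  FiniteDimensional (ZMod p) (sha₂ S M) ∧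
  finrank (ZMod p) (sha₁ S (M.dualTwist (cycloChar p))) = finrank (ZMod p) (sha₂ S M)

/-- **TARGET OF LAYER D (engine E1).** -/
def EngineSpec : Prop :=
  ∀ (p : ℕ) [Fact p.Prime], p ≠ 2 → ∀ (S : Finset Nat.Primes), pPrime p ∈ S →
    TateNakayamaAtSpec → GlobalSpec S p → LocalSpec p → SUnitsDivSpec S p → H1FiniteSpec S p →
    ∀ (M : Rep.{0, 0, 0} (ZMod p) (AlgebraicClosure ℚ ≃ₐ[ℚ] AlgebraicClosure ℚ))
      [FiniteDimensional (ZMod p) M], IsAdmissible S M → DimEq S M

/-- The arithmetic inputs, as produced by layers T, G, L, B (for all odd `p ∈ S`). -/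
def InputsSpec : Prop :=
  TateNakayamaAtSpec ∧
  ∀ (p : ℕ) [Fact p.Prime], p ≠ 2 → ∀ (S : Finset Nat.Primes), pPrime p ∈ S →
    GlobalSpec S p ∧ LocalSpec p ∧ SUnitsDivSpec S p ∧ H1FiniteSpec S p

/-- S55 from the engine and the arithmetic inputs. -/
theorem S55_of_specs (hE : EngineSpec) (hI : InputsSpec)
    {p : ℕ} [Fact p.Prime] (hp2 : p ≠ 2) (S : Finset Nat.Primes) (hpS : pPrime p ∈ S)
    (M : Rep (ZMod p) (AlgebraicClosure ℚ ≃ₐ[ℚ] AlgebraicClosure ℚ))
    [FiniteDimensional (ZMod p) M]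
    (hsm : ∀ m : M, ∃ F : IntermediateField ℚ (AlgebraicClosure ℚ), FiniteDimensional ℚ F ∧
      ∀ s ∈ F.fixingSubgroup, M.ρ s m = m)
    (hMur : ∀ q : Nat.Primes, q ∉ S → ∀ A : ValuationSubring (AlgebraicClosure ℚ),
      A.LiesOverPrime (q : ℕ) → ∀ g ∈ A.inertiaSubgroupIn ℚ, M.ρ g = 1) :
    ∃ B : sha₁ S (M.dualTwist (cycloChar p)) →ₗ[ZMod p] sha₂ S M →ₗ[ZMod p] ZMod p,
      (∀ y, (∀ x, B y x = 0) → y = 0) ∧ (∀ x, (∀ y, B y x = 0) → x = 0) := by
  obtain ⟨hT, hrest⟩ := hI
  obtain ⟨hG, hL, hU, hF⟩ := hrest p hp2 S hpS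
  obtain ⟨h1, h2, h3⟩ := hE p hp2 S hpS hT hG hL hU hF M ⟨hsm, hMur⟩
  exact Fermat.Agent.S55.Bridge.pairing_of_finrank_eq S M h1 h2 h3

end Fermat.Agent.S55.E1

end
-- ===== PACK-END S55/E1/Main.lean

-- ===== PACK-BEGIN S55/G/DescH773/Main.lean
section
/-
S55 (Poitou–Tate), layer G, leaf G-DESC (helper773), final assembly:

  `theorem descentSpec : Fermat.Agent.S55.G.DescentSpec`

(the interface statement of `Fermat/Agent/S55/G/Spec.lean`).  With `ι := cBase S L' L`:
injectivity and the description of the image are `cBase_injective`, `mem_range_cBase_iff`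
(file `Descent.lean`) for the group `N`, which is a Galois group of `L/L'`; trivial inertia
outside `S` gives ramification index `1` (`eAt_eq_one_of_inertia`); equivariance for `G ⧸ N` is
`cBase_cRepr_of_compat` (file `Equiv.lean`).
-/



set_option autoImplicit false
set_option linter.unusedSectionVars false
set_option linter.style.haveILetI false

open scoped NumberField TensorProduct Pointwise
open IsDedekindDomain

noncomputable section

namespace Fermat.Agent.S55.G.DescH773

open Fermat.Agent.S55.G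

/-! ## 8. Restriction of the action to a subgroup -/

section Sub

variable (S : Finset Nat.Primes) (G L : Type) [Group G] [Field L] [NumberField L]
  [MulSemiringAction G L] (N : Subgroup G)

lemma asAut_subgroup (n : N) (t : AS S L) : asAut S N L n t = asAut S G L (n : G) t := by
  induction t using TensorProduct.induction_on with
  | zero => simp
  | tmul a b => simp only [asAut_tmul]; rfl
  | add a b ha hb => simp only [map_add, ha, hb]

lemma jRepr_subgroup (n : N) (u : Additive (AS S L)ˣ) :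
    jRepr N S L n u = jRepr G S L (n : G) u := by
  apply Additive.toMul.injective
  apply Units.ext
  rw [coe_jRepr_apply, coe_jRepr_apply, asAut_subgroup]

variable {L} in
lemma primeSMul_subgroup (n : N) (w : HeightOneSpectrum (𝓞 L)) :
    primeSMul N n w = primeSMul G (n : G) w := by
  apply HeightOneSpectrum.ext
  ext x
  rw [mem_primeSMul_iff, mem_primeSMul_iff]
  rfl

lemma primeOutMap_subgroup (n : N) (w : PrimeOut S L) :
    primeOutMap S N L n w = primeOutMap S G L (n : G) w :=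
  Subtype.ext (primeSMul_subgroup G N n w.1)

lemma divRepr_subgroup (n : N) (d : PrimeOut S L →₀ ℤ) :
    divRepr S N L n d = divRepr S G L (n : G) d := by
  have : primeOutMap S N L n = primeOutMap S G L (n : G) :=
    funext (primeOutMap_subgroup S G L N n)
  simp only [divRepr, MonoidHom.coe_mk, OneHom.coe_mk, this]

lemma cRepr_subgroup (n : N) (c : CS S L) :
    cRepr S N L n c = cRepr S G L (n : G) c := by
  obtain ⟨y, rfl⟩ := Submodule.Quotient.mk_surjective _ c
  rw [cRepr_mk, cRepr_mk, jdRepr_apply, jdRepr_apply, jRepr_subgroup, divRepr_subgroup]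

end Sub

/-- **G-DESC**: Galois descent for the `S`-idèle class group, in the form of the layer-G
interface `Fermat.Agent.S55.G.DescentSpec`. -/
theorem descentSpec : DescentSpec := by
  intro S G L L' _ _ _ _ _ _ _ _ _ N _ _ hS hur hfix hcompat
  have hfixN : ∀ (n : N) (k : L'), (n : G) • algebraMap L' L k = algebraMap L' L k := by
    intro n k
    exact ((hfix (algebraMap L' L k)).2 ⟨k, rfl⟩) n
  haveI hGal : IsGaloisGroup N L' L :=
    { faithful := ⟨fun {a b} h => Subtype.ext (eq_of_smul_eq_smul (α := L) fun x => h x)⟩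
      commutes := ⟨fun n k x => by
        change (n : G) • (k • x) = k • ((n : G) • x)
        rw [Algebra.smul_def, Algebra.smul_def, smul_mul', hfixN]⟩
      isInvariant := ⟨fun x hx => by
        obtain ⟨k, hk⟩ := (hfix x).1 hx
        exact ⟨k, hk⟩⟩ }
  have he : ∀ w : PrimeOut S L, eAt L' w.1 = 1 := by
    intro w
    refine eAt_eq_one_of_inertia N L' w.1 fun n hn => ?_
    have h1 : ∀ x : L, (n : G) • x = x := hur w.1 w.2 (n : G) hn
    have h2 : (n : G) = 1 := eq_of_smul_eq_smul (α := L) fun x => by rw [h1 x, one_smul]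
    exact Subtype.ext h2
  refine ⟨cBase S L' L, cBase_injective S N L' L hS, ?_, ?_, ?_⟩
  · intro g c
    exact cBase_cRepr_of_compat S (G ⧸ N) G L' L (g : G ⧸ N) g (hcompat g) c
  · intro c
    have := mem_range_cBase_iff S N L' L hS he c
    constructor
    · intro h
      have h' : ∀ n : N, cRepr S N L n c = c := fun n => by rw [cRepr_subgroup]; exact h n
      obtain ⟨c', hc'⟩ := this.2 h'
      exact ⟨c', hc'⟩
    · rintro ⟨c', rfl⟩ n
      rw [← cRepr_subgroup]
      exact cRepr_cBase S N L' L n c'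
  · intro y
    change cBase S L' L (Submodule.Quotient.mk (y, 0)) = Submodule.Quotient.mk (jMap S L' L y, 0)
    rw [cBase_mk]
    congr 1
    exact Prod.ext rfl (map_zero (divBase S L' L))

end Fermat.Agent.S55.G.DescH773

end
end
-- ===== PACK-END S55/G/DescH773/Main.lean

-- ===== PACK-BEGIN S55/G/Lat793.lean
section
/-
S55, layer G, block G-U, leaf **GU-LAT** (subtask 178): the lattice lemma `LatticeSpec`.

Two `s`-stable `ℤ`-lattices `Λ₁ = ⊕ ℤ b₁ i`, `Λ₂ = ⊕ ℤ b₂ i` with the same real span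
(`s` a real-linear map with `s ^ n = 1`) have finite Herbrand indices and the same Herbrand
quotient.

Proof.  Choose integer matrices `S₁, S₂` of `s` in the two bases and a real change-of-basis
matrix `P` (`P S₁ = S₂ P`, `det P ≠ 0`).  The averaging operator
`X ↦ ∑_{i<n} S₂^i X S₁^{-i}` produces intertwiners and maps `P` to `n • P`; its determinant is a
polynomial in the entries of `X` which does not vanish at `P`, hence does not vanish at some
integer point (`MvPolynomial.funext` over `ℤ`).  The resulting integer intertwiner `Y`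
(`det Y ≠ 0`) is an equivariant injection `ℤ^r → ℤ^r` with finite cokernel, so the Herbrand
quotients agree (`herbrand_eq_of_finite_coker`).  Finiteness: `Ĥ⁰`, `Ĥ⁻¹` of a finitely
generated group are finitely generated and killed by `n`.

Main result: `Fermat.Agent.S55.G.Lat793.latticeSpec : LatticeSpec`.
Author: helper793.
-/




set_option autoImplicit false

namespace Fermat.Agent.S55.G.Lat793

open Fermat.Agent.S55.Herbrand

universe u

section Index

variable {M : Type*} [AddCommGroup M]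

/-- A subgroup of a finitely generated abelian group containing all `d`-th multiples (`d ≠ 0`)
has finite index. -/
lemma index_ne_zero_of_zsmul_mem [Module.Finite ℤ M] (H : AddSubgroup M) (d : ℤ) (hd : d ≠ 0)
    (h : ∀ x, d • x ∈ H) : H.index ≠ 0 := by
  have : AddGroup.FG M := Module.Finite.iff_addGroup_fg.mp inferInstance
  have : Module.Finite ℤ (M ⧸ H) := Module.Finite.iff_addGroup_fg.mpr inferInstance
  have : Finite (M ⧸ H) := Module.finite_of_fg_torsion _ (by
    intro x
    refine ⟨⟨d, mem_nonZeroDivisors_of_ne_zero hd⟩, ?_⟩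
    obtain ⟨y, rfl⟩ := QuotientAddGroup.mk_surjective x
    show d • (y : M ⧸ H) = 0
    rw [← QuotientAddGroup.mk_zsmul, QuotientAddGroup.eq_zero_iff]
    exact h y)
  exact AddSubgroup.index_ne_zero_of_finite

lemma relIndex_ne_zero_of_nsmul_mem [Module.Finite ℤ M] (H K : AddSubgroup M) (n : ℕ)
    (hn : n ≠ 0) (h : ∀ x ∈ K, n • x ∈ H) : H.relIndex K ≠ 0 := by
  have : IsNoetherian ℤ M := inferInstance
  have : Module.Finite ℤ ↥(AddSubgroup.toIntSubmodule K) := inferInstance
  have : Module.Finite ℤ ↥K := ‹Module.Finite ℤ ↥(AddSubgroup.toIntSubmodule K)›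
  unfold AddSubgroup.relIndex
  refine index_ne_zero_of_zsmul_mem _ (n : ℤ) (by exact_mod_cast hn) ?_
  rintro ⟨x, hx⟩
  rw [AddSubgroup.mem_addSubgroupOf, natCast_zsmul]
  exact h x hx

end Index

section Defined

variable {M : Type*} [AddCommGroup M]

lemma normN_eq_nsmul_of_fixed (σ : AddMonoid.End M) (n : ℕ) (x : M) (hx : σ x = x) :
    normN σ n x = n • x := by
  rw [normN_apply]
  have : ∀ i : ℕ, (σ ^ i) x = x := by
    intro i
    induction i with
    | zero => simp
    | succ k ih =>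
      rw [pow_succ]
      change (σ ^ k) (σ x) = x
      rw [hx, ih]
  simp [this]

lemma pow_sub_one_mem_range_delta (σ : AddMonoid.End M) (i : ℕ) (x : M) :
    (σ ^ i) x - x ∈ (delta σ).range := by
  have h : (σ - 1) * ∑ j ∈ Finset.range i, σ ^ j = σ ^ i - 1 := mul_geom_sum σ i
  refine ⟨(∑ j ∈ Finset.range i, σ ^ j : AddMonoid.End M) x, ?_⟩
  have := DFunLike.congr_fun h x
  exact this

lemma nsmul_mem_range_delta_of_normN_eq_zero (σ : AddMonoid.End M) (n : ℕ) (x : M)
    (hx : normN σ n x = 0) : n • x ∈ (delta σ).range := by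
  have h1 : n • x = - ∑ i ∈ Finset.range n, ((σ ^ i) x - x) := by
    rw [Finset.sum_sub_distrib, ← normN_apply, hx]
    simp
  rw [h1]
  exact (delta σ).range.neg_mem
    ((delta σ).range.sum_mem fun i _ => pow_sub_one_mem_range_delta σ i x)

/-- Both Herbrand indices of a finitely generated abelian group with an automorphism of finite
order are finite. -/
theorem herbrandDefined_of_fg [Module.Finite ℤ M] (σ : AddMonoid.End M) (n : ℕ) (hn : 0 < n) :
    HerbrandDefined σ n := by
  refine ⟨?_, ?_⟩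
  · unfold hIndex
    refine relIndex_ne_zero_of_nsmul_mem _ _ n hn.ne' ?_
    intro x hx
    rw [AddMonoidHom.mem_ker, delta_apply, sub_eq_zero] at hx
    exact ⟨x, normN_eq_nsmul_of_fixed σ n x hx⟩
  · unfold hIndex
    refine relIndex_ne_zero_of_nsmul_mem _ _ n hn.ne' ?_
    intro x hx
    exact nsmul_mem_range_delta_of_normN_eq_zero σ n x (AddMonoidHom.mem_ker.1 hx)

end Defined

section Avg

variable {𝔐 : Type*} [Ring 𝔐]

/-- The averaging operator `x ↦ ∑_{i<n} a^i x t^i`. -/
def avgOp (a t : 𝔐) (n : ℕ) (x : 𝔐) : 𝔐 := ∑ i ∈ Finset.range n, a ^ i * x * t ^ i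

lemma map_avgOp {𝔐' : Type*} [Ring 𝔐'] (f : 𝔐 →+* 𝔐') (a t : 𝔐) (n : ℕ) (x : 𝔐) :
    f (avgOp a t n x) = avgOp (f a) (f t) n (f x) := by
  simp [avgOp, map_sum]

lemma avgOp_intertwine (a b t : 𝔐) (n : ℕ) (htb : t * b = 1) (ha : a ^ n = 1)
    (ht : t ^ n = 1) (x : 𝔐) : avgOp a t n x * b = a * avgOp a t n x := by
  have h1 : a * avgOp a t n x * t = avgOp a t n x := by
    unfold avgOp
    rw [Finset.mul_sum, Finset.sum_mul]
    have h : ∀ i, a * (a ^ i * x * t ^ i) * t = a ^ (i + 1) * x * t ^ (i + 1) := by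
      intro i
      rw [pow_succ', pow_succ]
      simp only [mul_assoc]
    simp_rw [h]
    have h2 := Finset.sum_range_succ (fun i => a ^ i * x * t ^ i) n
    have h3 := Finset.sum_range_succ' (fun i => a ^ i * x * t ^ i) n
    simp only [pow_zero, one_mul, mul_one, ha, ht] at h2 h3
    exact add_right_cancel (h3.symm.trans h2)
  calc avgOp a t n x * b = a * avgOp a t n x * t * b := by rw [h1]
    _ = a * avgOp a t n x * (t * b) := by simp only [mul_assoc]
    _ = a * avgOp a t n x := by rw [htb, mul_one]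

lemma avgOp_of_intertwine (a b t p : 𝔐) (n : ℕ) (hbt : b * t = 1)
    (hp : p * b = a * p) : avgOp a t n p = n • p := by
  have h1 : ∀ i : ℕ, a ^ i * p = p * b ^ i := by
    intro i
    induction i with
    | zero => simp
    | succ k ih => rw [pow_succ, mul_assoc, ← hp, ← mul_assoc, ih, mul_assoc, ← pow_succ]
  have h2 : ∀ i : ℕ, b ^ i * t ^ i = 1 := by
    intro i
    induction i with
    | zero => simp
    | succ k ih =>
      rw [pow_succ, pow_succ', mul_assoc, ← mul_assoc b, hbt, one_mul, ih]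
  unfold avgOp
  have : ∀ i ∈ Finset.range n, a ^ i * p * t ^ i = p := by
    intro i _
    rw [h1, mul_assoc, h2, mul_one]
  rw [Finset.sum_congr rfl this]
  simp

end Avg

section MatrixLemma

variable {r : ℕ}

lemma mapMatrix_castInt {R R' : Type*} [CommRing R] [CommRing R'] (f : R →+* R')
    (S : Matrix (Fin r) (Fin r) ℤ) :
    f.mapMatrix ((Int.castRingHom R).mapMatrix S) = (Int.castRingHom R').mapMatrix S := by
  ext i j
  simp

/-- **Rational structure of intertwiners.**  If two integer matrices of finite order are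
conjugate over `ℝ`, there is an integer intertwiner with nonzero determinant. -/
theorem exists_int_intertwiner {n : ℕ} (hn : 0 < n) (S₁ S₂ : Matrix (Fin r) (Fin r) ℤ)
    (h₁ : S₁ ^ n = 1) (h₂ : S₂ ^ n = 1) (P : Matrix (Fin r) (Fin r) ℝ) (hP : P.det ≠ 0)
    (hPS : P * (Int.castRingHom ℝ).mapMatrix S₁ = (Int.castRingHom ℝ).mapMatrix S₂ * P) :
    ∃ Y : Matrix (Fin r) (Fin r) ℤ, Y.det ≠ 0 ∧ Y * S₁ = S₂ * Y := by
  classical
  -- the inverse of `S₁`
  set T₁ : Matrix (Fin r) (Fin r) ℤ := S₁ ^ (n - 1) with hT₁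
  have hST : S₁ * T₁ = 1 := by
    rw [hT₁, ← pow_succ', Nat.sub_add_cancel hn, h₁]
  have hTS : T₁ * S₁ = 1 := by
    rw [hT₁, ← pow_succ, Nat.sub_add_cancel hn, h₁]
  have hTn : T₁ ^ n = 1 := by
    rw [hT₁, ← pow_mul, mul_comm, pow_mul, h₁, one_pow]
  -- the generic matrix
  let 𝔓 := MvPolynomial (Fin r × Fin r) ℤ
  let Xg : Matrix (Fin r) (Fin r) 𝔓 := Matrix.of fun i j => MvPolynomial.X (i, j)
  let c𝔓 : Matrix (Fin r) (Fin r) ℤ →+* Matrix (Fin r) (Fin r) 𝔓 := (Int.castRingHom 𝔓).mapMatrix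
  let D : 𝔓 := (avgOp (c𝔓 S₂) (c𝔓 T₁) n Xg).det
  -- evaluation at `P`
  have hD : D ≠ 0 := by
    intro hD0
    let φ : 𝔓 →+* ℝ := MvPolynomial.eval₂Hom (Int.castRingHom ℝ) (fun p => P p.1 p.2)
    have hφX : φ.mapMatrix Xg = P := by
      ext i j
      show MvPolynomial.eval₂ _ _ (MvPolynomial.X (i, j)) = _
      rw [MvPolynomial.eval₂_X]
    have h1 : φ D = (avgOp ((Int.castRingHom ℝ).mapMatrix S₂)
        ((Int.castRingHom ℝ).mapMatrix T₁) n P).det := by
      show φ (avgOp (c𝔓 S₂) (c𝔓 T₁) n Xg).det = _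
      rw [RingHom.map_det, map_avgOp, mapMatrix_castInt, mapMatrix_castInt, hφX]
    rw [avgOp_of_intertwine _ ((Int.castRingHom ℝ).mapMatrix S₁) _ P n
      (by rw [← map_mul, hST, map_one]) hPS, hD0, map_zero] at h1
    rw [← Nat.cast_smul_eq_nsmul ℝ, Matrix.det_smul] at h1
    have : ((n : ℕ) : ℝ) ^ Fintype.card (Fin r) * P.det ≠ 0 :=
      mul_ne_zero (pow_ne_zero _ (by exact_mod_cast hn.ne')) hP
    exact this h1.symm
  -- an integer point where `D` does not vanish
  obtain ⟨y, hy⟩ : ∃ y : Fin r × Fin r → ℤ, MvPolynomial.eval y D ≠ 0 := by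
    by_contra hcon
    push Not at hcon
    exact hD (MvPolynomial.funext fun y => by rw [hcon y, map_zero])
  let Y₀ : Matrix (Fin r) (Fin r) ℤ := Matrix.of fun i j => y (i, j)
  have hψX : (MvPolynomial.eval y).mapMatrix Xg = Y₀ := by
    ext i j
    show MvPolynomial.eval y (MvPolynomial.X (i, j)) = _
    rw [MvPolynomial.eval_X]
    rfl
  have hcast : ∀ S : Matrix (Fin r) (Fin r) ℤ, (Int.castRingHom ℤ).mapMatrix S = S := by
    intro S
    ext i j
    simp
  have h2 : MvPolynomial.eval y D = (avgOp S₂ T₁ n Y₀).det := by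
    show MvPolynomial.eval y (avgOp (c𝔓 S₂) (c𝔓 T₁) n Xg).det = _
    rw [RingHom.map_det, map_avgOp, mapMatrix_castInt, mapMatrix_castInt, hψX, hcast, hcast]
  refine ⟨avgOp S₂ T₁ n Y₀, ?_, ?_⟩
  · rw [← h2]
    exact hy
  · exact avgOp_intertwine S₂ S₁ T₁ n hTS h₂ hTn Y₀

end MatrixLemma

section Model

variable {V : Type*} [AddCommGroup V] {r : ℕ}

/-- `∑ x_j c_j` in terms of `b`, when `c_j = ∑ A_ij b_i`. -/
lemma sum_mulVec_smul {R : Type*} [CommRing R] [Module R V] (b c : Fin r → V)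
    (A : Matrix (Fin r) (Fin r) R) (h : ∀ j, c j = ∑ i, A i j • b i) (x : Fin r → R) :
    ∑ i, (A.mulVec x) i • b i = ∑ j, x j • c j := by
  simp only [Matrix.mulVec, dotProduct, Finset.sum_smul, h, Finset.smul_sum, smul_smul]
  rw [Finset.sum_comm]
  refine Finset.sum_congr rfl fun j _ => Finset.sum_congr rfl fun i _ => ?_
  rw [mul_comm]

/-- integer coordinates -/
noncomputable def iZ (b : Fin r → V) : (Fin r → ℤ) →+ V :=
  (Fintype.linearCombination ℤ b).toAddMonoidHom

lemma iZ_apply (b : Fin r → V) (c : Fin r → ℤ) : iZ b c = ∑ i, c i • b i :=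
  Fintype.linearCombination_apply ℤ b c

lemma iZ_range (b : Fin r → V) :
    (iZ b).range = (Submodule.span ℤ (Set.range b)).toAddSubgroup := by
  ext x
  rw [AddMonoidHom.mem_range, Submodule.mem_toAddSubgroup,
    Submodule.mem_span_range_iff_exists_fun]
  simp only [iZ_apply]

/-- the endomorphism of `ℤ^r` attached to an integer matrix -/
def mvEnd (S : Matrix (Fin r) (Fin r) ℤ) : AddMonoid.End (Fin r → ℤ) :=
  (Matrix.mulVecLin S).toAddMonoidHom

@[simp] lemma mvEnd_apply (S : Matrix (Fin r) (Fin r) ℤ) (v : Fin r → ℤ) :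
    mvEnd S v = S.mulVec v := rfl

/-- the additive endomorphism of `ℤ^r` attached to an integer matrix, as a plain hom -/
def mvHom (Y : Matrix (Fin r) (Fin r) ℤ) : (Fin r → ℤ) →+ (Fin r → ℤ) :=
  (Matrix.mulVecLin Y).toAddMonoidHom

@[simp] lemma mvHom_apply (Y : Matrix (Fin r) (Fin r) ℤ) (v : Fin r → ℤ) :
    mvHom Y v = Y.mulVec v := rfl

lemma mvEnd_pow_apply (S : Matrix (Fin r) (Fin r) ℤ) (k : ℕ) (v : Fin r → ℤ) :
    (mvEnd S ^ k) v = (S ^ k).mulVec v := by
  induction k generalizing v with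
  | zero => simp
  | succ k ih =>
    rw [pow_succ, pow_succ]
    change (mvEnd S ^ k) (mvEnd S v) = _
    rw [ih, mvEnd_apply, Matrix.mulVec_mulVec]

lemma mvEnd_pow_eq_one (S : Matrix (Fin r) (Fin r) ℤ) (n : ℕ) (h : S ^ n = 1) :
    mvEnd S ^ n = 1 := by
  ext v : 1
  rw [mvEnd_pow_apply, h, Matrix.one_mulVec]
  rfl

variable [Module ℝ V]

lemma iZ_eq_real (b : Fin r → V) (c : Fin r → ℤ) : iZ b c = ∑ i, (c i : ℝ) • b i := by
  rw [iZ_apply]
  refine Finset.sum_congr rfl fun i _ => ?_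
  rw [Int.cast_smul_eq_zsmul]

lemma iZ_injective {b : Fin r → V} (hb : LinearIndependent ℝ b) : Function.Injective (iZ b) := by
  rw [injective_iff_map_eq_zero]
  intro c hc
  rw [iZ_eq_real] at hc
  funext i
  have := Fintype.linearIndependent_iff.1 hb (fun i => (c i : ℝ)) hc i
  exact_mod_cast this

lemma real_sum_injective {b : Fin r → V} (hb : LinearIndependent ℝ b) {x y : Fin r → ℝ}
    (h : ∑ i, x i • b i = ∑ i, y i • b i) : x = y := by
  have := linearIndependent_iff_injective_fintypeLinearCombination.1 hb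
  apply this
  rw [Fintype.linearCombination_apply, Fintype.linearCombination_apply]
  exact h

variable (s : V →ₗ[ℝ] V)

lemma exists_int_matrix (b : Fin r → V)
    (hs : ∀ i, s (b i) ∈ Submodule.span ℤ (Set.range b)) :
    ∃ S : Matrix (Fin r) (Fin r) ℤ, ∀ j, s (b j) = ∑ i, S i j • b i := by
  have : ∀ j, ∃ c : Fin r → ℤ, ∑ i, c i • b i = s (b j) := fun j =>
    (Submodule.mem_span_range_iff_exists_fun ℤ).1 (hs j)
  choose c hc using this
  exact ⟨Matrix.of fun i j => c j i, fun j => (hc j).symm⟩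

lemma exists_real_matrix (b₁ b₂ : Fin r → V)
    (h : Submodule.span ℝ (Set.range b₁) ≤ Submodule.span ℝ (Set.range b₂)) :
    ∃ P : Matrix (Fin r) (Fin r) ℝ, ∀ j, b₁ j = ∑ i, P i j • b₂ i := by
  have : ∀ j, ∃ c : Fin r → ℝ, ∑ i, c i • b₂ i = b₁ j := fun j =>
    (Submodule.mem_span_range_iff_exists_fun ℝ).1 (h (Submodule.subset_span ⟨j, rfl⟩))
  choose c hc using this
  exact ⟨Matrix.of fun i j => c j i, fun j => (hc j).symm⟩

variable {s}

/-- `s` acts on integer coordinates through `S`. -/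
lemma iZ_mvEnd {b : Fin r → V} {S : Matrix (Fin r) (Fin r) ℤ}
    (hS : ∀ j, s (b j) = ∑ i, S i j • b i) (v : Fin r → ℤ) :
    iZ b (mvEnd S v) = s (iZ b v) := by
  rw [mvEnd_apply, iZ_apply, iZ_apply, sum_mulVec_smul b (fun j => s (b j)) S hS v, map_sum]
  refine Finset.sum_congr rfl fun j _ => ?_
  rw [map_zsmul]

lemma iZ_mvEnd_pow {b : Fin r → V} {S : Matrix (Fin r) (Fin r) ℤ}
    (hS : ∀ j, s (b j) = ∑ i, S i j • b i) (k : ℕ) (v : Fin r → ℤ) :
    iZ b ((mvEnd S ^ k) v) = (s ^ k) (iZ b v) := by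
  induction k generalizing v with
  | zero => simp
  | succ k ih =>
    rw [pow_succ, pow_succ]
    change iZ b ((mvEnd S ^ k) (mvEnd S v)) = (s ^ k) (s (iZ b v))
    rw [ih, iZ_mvEnd hS]

lemma int_matrix_pow_eq_one {b : Fin r → V} (hb : LinearIndependent ℝ b)
    {S : Matrix (Fin r) (Fin r) ℤ} (hS : ∀ j, s (b j) = ∑ i, S i j • b i) {n : ℕ}
    (hn : s ^ n = 1) : S ^ n = 1 := by
  apply Matrix.mulVec_injective
  funext v
  apply iZ_injective hb
  rw [← mvEnd_pow_apply, iZ_mvEnd_pow hS, hn, Matrix.one_mulVec]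
  rfl

/-- `s` acts on real coordinates through `S`. -/
lemma real_sum_mulVec {b : Fin r → V} {S : Matrix (Fin r) (Fin r) ℤ}
    (hS : ∀ j, s (b j) = ∑ i, S i j • b i) (x : Fin r → ℝ) :
    ∑ i, (((Int.castRingHom ℝ).mapMatrix S).mulVec x) i • b i = s (∑ j, x j • b j) := by
  rw [sum_mulVec_smul b (fun j => s (b j)) _ _ x, map_sum]
  · refine Finset.sum_congr rfl fun j _ => ?_
    rw [map_smul]
  · intro j
    rw [hS j]
    refine Finset.sum_congr rfl fun i _ => ?_
    rw [RingHom.mapMatrix_apply, Matrix.map_apply, Int.coe_castRingHom, Int.cast_smul_eq_zsmul]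

/-- The real change-of-basis matrix between two lattices with the same real span intertwines
the two integer matrices of `s`, and is invertible. -/
lemma exists_real_intertwiner {b₁ b₂ : Fin r → V} (hb₁ : LinearIndependent ℝ b₁)
    (hb₂ : LinearIndependent ℝ b₂)
    (hspan : Submodule.span ℝ (Set.range b₁) = Submodule.span ℝ (Set.range b₂))
    {S₁ S₂ : Matrix (Fin r) (Fin r) ℤ} (hS₁ : ∀ j, s (b₁ j) = ∑ i, S₁ i j • b₁ i)
    (hS₂ : ∀ j, s (b₂ j) = ∑ i, S₂ i j • b₂ i) :
    ∃ P : Matrix (Fin r) (Fin r) ℝ, P.det ≠ 0 ∧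
      P * (Int.castRingHom ℝ).mapMatrix S₁ = (Int.castRingHom ℝ).mapMatrix S₂ * P := by
  obtain ⟨P, hP⟩ := exists_real_matrix b₁ b₂ hspan.le
  obtain ⟨Q, hQ⟩ := exists_real_matrix b₂ b₁ hspan.ge
  have hPx : ∀ x : Fin r → ℝ, ∑ i, (P.mulVec x) i • b₂ i = ∑ j, x j • b₁ j :=
    sum_mulVec_smul b₂ b₁ P hP
  have hQx : ∀ x : Fin r → ℝ, ∑ i, (Q.mulVec x) i • b₁ i = ∑ j, x j • b₂ j :=
    sum_mulVec_smul b₁ b₂ Q hQ
  have hQP : Q * P = 1 := by
    apply Matrix.mulVec_injective
    funext x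
    apply real_sum_injective hb₁
    rw [← Matrix.mulVec_mulVec, hQx, hPx, Matrix.one_mulVec]
  refine ⟨P, ?_, ?_⟩
  · intro h0
    have := congrArg Matrix.det hQP
    rw [Matrix.det_mul, h0, mul_zero, Matrix.det_one] at this
    exact zero_ne_one this
  · apply Matrix.mulVec_injective
    funext x
    apply real_sum_injective hb₂
    rw [← Matrix.mulVec_mulVec, hPx, real_sum_mulVec hS₁, ← Matrix.mulVec_mulVec,
      real_sum_mulVec hS₂, hPx]

end Model

section Final

variable {V : Type*} [AddCommGroup V] [Module ℝ V] {r : ℕ} (s : V →ₗ[ℝ] V)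

/-- The Herbrand indices of the lattice `⊕ ℤ b i ⊆ V` are those of the model `(ℤ^r, S)`. -/
lemma hIndexSub_eq_model {b : Fin r → V} (hb : LinearIndependent ℝ b)
    {S : Matrix (Fin r) (Fin r) ℤ} (hS : ∀ j, s (b j) = ∑ i, S i j • b i) (n : ℕ) :
    hIndexSub (s - 1 : V →ₗ[ℝ] V).toAddMonoidHom
        (∑ k ∈ Finset.range n, s ^ k : V →ₗ[ℝ] V).toAddMonoidHom
        (Submodule.span ℤ (Set.range b)).toAddSubgroup = h0 (mvEnd S) n ∧
    hIndexSub (∑ k ∈ Finset.range n, s ^ k : V →ₗ[ℝ] V).toAddMonoidHom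
        (s - 1 : V →ₗ[ℝ] V).toAddMonoidHom
        (Submodule.span ℤ (Set.range b)).toAddSubgroup = h1 (mvEnd S) n := by
  have hif : ∀ a, iZ b (delta (mvEnd S) a) = (s - 1 : V →ₗ[ℝ] V).toAddMonoidHom (iZ b a) := by
    intro a
    rw [delta_apply, map_sub, iZ_mvEnd hS]
    rfl
  have hig : ∀ a, iZ b (normN (mvEnd S) n a) =
      (∑ k ∈ Finset.range n, s ^ k : V →ₗ[ℝ] V).toAddMonoidHom (iZ b a) := by
    intro a
    rw [normN_apply, map_sum]
    show _ = (∑ k ∈ Finset.range n, s ^ k : V →ₗ[ℝ] V) (iZ b a)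
    rw [LinearMap.sum_apply]
    exact Finset.sum_congr rfl fun k _ => iZ_mvEnd_pow hS k a
  rw [← iZ_range]
  exact ⟨(hIndex_eq_hIndexSub (iZ_injective hb) hif hig).symm,
    (hIndex_eq_hIndexSub (iZ_injective hb) hig hif).symm⟩

/-- An integer matrix with nonzero determinant has finite-index image. -/
lemma mvEnd_range_finiteIndex {Y : Matrix (Fin r) (Fin r) ℤ} (hY : Y.det ≠ 0) :
    (mvHom Y).range.FiniteIndex := by
  refine ⟨index_ne_zero_of_zsmul_mem _ Y.det hY ?_⟩
  intro x
  refine ⟨Y.adjugate.mulVec x, ?_⟩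
  rw [mvHom_apply, Matrix.mulVec_mulVec, Matrix.mul_adjugate, Matrix.smul_mulVec,
    Matrix.one_mulVec]

/-- **The lattice lemma** (GU-LAT). -/
theorem latticeSpec : LatticeSpec.{u} := by
  intro V _ _ s n r hn hsn b₁ b₂ hb₁ hb₂ hspan hs₁ hs₂ F N Λ₁ Λ₂
  obtain ⟨S₁, hS₁⟩ := exists_int_matrix s b₁ hs₁
  obtain ⟨S₂, hS₂⟩ := exists_int_matrix s b₂ hs₂
  have hS₁n : S₁ ^ n = 1 := int_matrix_pow_eq_one hb₁ hS₁ hsn
  have hS₂n : S₂ ^ n = 1 := int_matrix_pow_eq_one hb₂ hS₂ hsn
  obtain ⟨P, hPdet, hPS⟩ := exists_real_intertwiner hb₁ hb₂ hspan hS₁ hS₂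
  obtain ⟨Y, hYdet, hYS⟩ := exists_int_intertwiner hn S₁ S₂ hS₁n hS₂n P hPdet hPS
  -- comparison of the two models through `Y`
  have hσ₂ : mvEnd S₂ ^ n = 1 := mvEnd_pow_eq_one S₂ n hS₂n
  have hinj : Function.Injective (mvHom Y) :=
    Matrix.mulVec_injective_of_det_ne_zero hYdet
  have hcomm : ∀ a, mvHom Y (mvEnd S₁ a) = mvEnd S₂ (mvHom Y a) := by
    intro a
    simp only [mvEnd_apply, mvHom_apply, Matrix.mulVec_mulVec, hYS]
  have hq : herbrand (mvEnd S₁) n = herbrand (mvEnd S₂) n :=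
    herbrand_eq_of_finite_coker hσ₂ hinj (mvEnd_range_finiteIndex hYdet) hcomm
  obtain ⟨d₁, d₁'⟩ := (herbrandDefined_iff _ _).1 (herbrandDefined_of_fg (mvEnd S₁) n hn)
  obtain ⟨d₂, d₂'⟩ := (herbrandDefined_iff _ _).1 (herbrandDefined_of_fg (mvEnd S₂) n hn)
  obtain ⟨e₁, e₁'⟩ := hIndexSub_eq_model s hb₁ hS₁ n
  obtain ⟨e₂, e₂'⟩ := hIndexSub_eq_model s hb₂ hS₂ n
  have E₁ : hIndexSub F N Λ₁ = h0 (mvEnd S₁) n := e₁
  have E₁' : hIndexSub N F Λ₁ = h1 (mvEnd S₁) n := e₁'
  have E₂ : hIndexSub F N Λ₂ = h0 (mvEnd S₂) n := e₂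
  have E₂' : hIndexSub N F Λ₂ = h1 (mvEnd S₂) n := e₂'
  rw [E₁, E₁', E₂, E₂']
  refine ⟨d₁, d₁', d₂, d₂', ?_⟩
  rw [herbrand_eq_div, herbrand_eq_div,
    div_eq_div_iff (Nat.cast_ne_zero.2 d₁') (Nat.cast_ne_zero.2 d₂')] at hq
  exact_mod_cast hq

end Final

end Fermat.Agent.S55.G.Lat793

end
-- ===== PACK-END S55/G/Lat793.lean

-- ===== PACK-BEGIN S55/G/H1JH537.lean
section
/-
S55, layer G, leaf G-H1J (helper537): `H¹(G, J_S(L)) = 0` from the Shapiro decomposition
`ShapiroJSpec` (leaf G-LOC) and Hilbert 90 for the local fields `L_𝔪`.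

* `isZero_H1_of_forall_coboundary` : criterion for `H¹ = 0` in terms of cocycles;
* `finite_sPlace` : `L ⊗ ℚ_S` has finitely many maximal ideals (it is Artinian);
* `exists_orbit_reps` : a finite set of representatives of the `G`-orbits of places above `S`;
* `isZero_H1_locRep` : `H¹(D_𝔪, L_𝔪ˣ) = 0` (Hilbert 90);
* `h1J_of : ShapiroJSpec → H1JSpec`.
-/



set_option autoImplicit false
set_option linter.unusedSectionVars false

open scoped NumberField TensorProduct
open IsDedekindDomain CategoryTheory groupCohomology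

noncomputable section

namespace Fermat.Agent.S55.G.H1JH537

open Fermat.Agent.S55.G.DescH537

/-- `H¹(G, A) = 0` as soon as every 1-cocycle is a 1-coboundary. -/
lemma isZero_H1_of_forall_coboundary {G : Type} [Group G] (A : Rep ℤ G)
    (h : ∀ f : G → A, (∀ g h : G, f (g * h) = A.ρ g (f h) + f g) →
      ∃ y : A, ∀ g : G, A.ρ g y - y = f g) :
    Limits.IsZero (groupCohomology A 1) := by
  have hsub : Subsingleton (groupCohomology A 1) := by
    refine ⟨fun a b => ?_⟩
    have key : ∀ c : H1 A, c = 0 := by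
      intro c
      refine H1_induction_on c fun x => (H1π_eq_zero_iff x).2 ?_
      obtain ⟨y, hy⟩ := h x ((mem_cocycles₁_iff _).1 x.2)
      refine ⟨y, ?_⟩
      funext g
      rw [d₀₁_hom_apply]
      exact hy g
    rw [key a, key b]
  exact ModuleCat.isZero_of_subsingleton _

section Places

variable (S : Finset Nat.Primes) (G L : Type) [Group G] [Field L] [NumberField L]
  [MulSemiringAction G L]

/-- `L ⊗ ℚ_S` has finitely many maximal ideals. -/
lemma finite_sPlace : Finite (SPlace S L) := by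
  have h1 : IsArtinianRing (QS S) := inferInstanceAs (IsArtinianRing (∀ q : S, Qq q.1))
  have h2 : IsArtinianRing (QS S ⊗[ℚ] L) := IsArtinianRing.of_finite (QS S) _
  have h3 : IsArtinianRing (AS S L) :=
    (Algebra.TensorProduct.comm ℚ (QS S) L).toRingEquiv.isArtinianRing
  infer_instance

/-- A finite set of representatives of the `G`-orbits of the places above `S`. -/
lemma exists_orbit_reps :
    ∃ R : Finset (SPlace S L),
      ∀ 𝔪 : SPlace S L, ∃! r : SPlace S L, r ∈ R ∧ ∃ g : G, sPlaceSMul S G g r = 𝔪 := by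
  classical
  have := finite_sPlace S L
  let _ : Fintype (SPlace S L) := Fintype.ofFinite _
  let _ : MulAction G (SPlace S L) := sPlaceAction S G L
  let rep : SPlace S L → SPlace S L := fun 𝔪 =>
    (Quotient.mk (MulAction.orbitRel G (SPlace S L)) 𝔪).out
  have hrep : ∀ 𝔪, ∃ g : G, sPlaceSMul S G g (rep 𝔪) = 𝔪 := by
    intro 𝔪
    have h : (MulAction.orbitRel G (SPlace S L)) (rep 𝔪) 𝔪 :=
      Quotient.mk_out (s := MulAction.orbitRel G (SPlace S L)) 𝔪
    rw [MulAction.orbitRel_apply] at h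
    obtain ⟨g, hg⟩ := h
    refine ⟨g⁻¹, ?_⟩
    change g⁻¹ • rep 𝔪 = 𝔪
    rw [← hg, inv_smul_smul]
  have hrep_eq : ∀ 𝔪 𝔪' : SPlace S L, (∃ g : G, sPlaceSMul S G g 𝔪 = 𝔪') → rep 𝔪 = rep 𝔪' := by
    rintro 𝔪 𝔪' ⟨g, hg⟩
    have : Quotient.mk (MulAction.orbitRel G (SPlace S L)) 𝔪 =
        Quotient.mk (MulAction.orbitRel G (SPlace S L)) 𝔪' := by
      apply Quotient.sound
      change (MulAction.orbitRel G (SPlace S L)) 𝔪 𝔪'
      rw [MulAction.orbitRel_apply]
      exact ⟨g⁻¹, by rw [← hg]; exact inv_smul_smul g 𝔪⟩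
    simp only [rep, this]
  have hrep_rep : ∀ 𝔪, rep (rep 𝔪) = rep 𝔪 := fun 𝔪 => hrep_eq _ _ (hrep 𝔪)
  refine ⟨Finset.univ.image rep, fun 𝔪 => ⟨rep 𝔪, ⟨Finset.mem_image_of_mem _ (Finset.mem_univ _),
    hrep 𝔪⟩, ?_⟩⟩
  rintro r ⟨hr, hg⟩
  obtain ⟨𝔫, -, rfl⟩ := Finset.mem_image.1 hr
  rw [← hrep_rep 𝔫]
  exact hrep_eq _ _ hg

end Places

section Local

variable (S : Finset Nat.Primes) (G L : Type) [Group G] [Field L] [NumberField L]
  [MulSemiringAction G L]

/-- The action of the decomposition group on the local field, as a `MulSemiringAction`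
(a definition, NOT a global instance). -/
@[reducible] def locAction (𝔪 : SPlace S L) : MulSemiringAction (decomp S G 𝔪) (LocField S 𝔪) :=
  MulSemiringAction.compHom (LocField S 𝔪) (locAut S G 𝔪)

lemma toLoc_injective (𝔪 : SPlace S L) : Function.Injective (toLoc S 𝔪) :=
  (toLoc S 𝔪).injective

variable [Finite G] [FaithfulSMul G L]

/-- **Hilbert 90 for the local fields**: `H¹(D_𝔪, L_𝔪ˣ) = 0`. -/
theorem isZero_H1_locRep (𝔪 : SPlace S L) :
    Limits.IsZero (groupCohomology (LocRep S G 𝔪) 1) := by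
  let _ : MulSemiringAction (decomp S G 𝔪) (LocField S 𝔪) := locAction S G L 𝔪
  have hsmul : ∀ (d : decomp S G 𝔪) (x : LocField S 𝔪), d • x = locAut S G 𝔪 d x :=
    fun _ _ => rfl
  have hfaith : FaithfulSMul (decomp S G 𝔪) (LocField S 𝔪) := by
    refine ⟨fun {d d'} h => Subtype.ext (eq_of_smul_eq_smul (α := L) fun l => ?_)⟩
    apply toLoc_injective S L 𝔪
    rw [← locAut_toLoc, ← locAut_toLoc, ← hsmul, ← hsmul]
    exact h (toLoc S 𝔪 l)
  have hrep : ∀ (d : decomp S G 𝔪) (x : Additive (LocField S 𝔪)ˣ),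
      lRepr (decomp S G 𝔪) (LocField S 𝔪) d x = locRepr S G 𝔪 d x := fun _ _ => rfl
  refine isZero_H1_of_forall_coboundary (LocRep S G 𝔪) fun f hf => ?_
  let f' : decomp S G 𝔪 → Additive (LocField S 𝔪)ˣ := f
  have hf' : ∀ g h : decomp S G 𝔪,
      f' (g * h) = f' g + lRepr (decomp S G 𝔪) (LocField S 𝔪) g (f' h) :=
    fun g h => (hf g h).trans (add_comm _ _)
  obtain ⟨y, hy⟩ := hilbert90 (decomp S G 𝔪)
    (FixedPoints.subfield (decomp S G 𝔪) (LocField S 𝔪)) (LocField S 𝔪) f' hf'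
  exact ⟨y, fun g => (hy g).symm⟩

/-- **G-H1J**: `H¹(G, J_S(L)) = 0`, from the Shapiro decomposition (G-LOC). -/
theorem h1J_of (hLOC : ShapiroJSpec) : H1JSpec := by
  intro S G L _ _ _ _ _ _
  obtain ⟨R, hR⟩ := exists_orbit_reps S G L
  have hbij := hLOC S G L R hR 1
  have hsub : Subsingleton (groupCohomology (JRep G S L) 1) := by
    refine ⟨fun a b => hbij.1 ?_⟩
    funext r
    have hz := isZero_H1_locRep S G L r.1
    have : Subsingleton (groupCohomology (LocRep S G r.1) 1) :=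
      ModuleCat.subsingleton_of_isZero hz
    exact Subsingleton.elim _ _
  exact ModuleCat.isZero_of_subsingleton _

end Local

end Fermat.Agent.S55.G.H1JH537

end
end
-- ===== PACK-END S55/G/H1JH537.lean

-- ===== PACK-BEGIN S55/H963/ClassRep.lean
section


/-!
# S55 / leaf RAY-N1 (helper963): ideal classes, coprime representatives, translation by an ideal
-/

set_option autoImplicit false

namespace Fermat.Agent.S55.H963

open NumberField

open scoped nonZeroDivisors

variable {K : Type*} [Field K] [NumberField K]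

/-- The class of an ideal (`1` for the zero ideal). -/
noncomputable def cl (I : Ideal (𝓞 K)) : ClassGroup (𝓞 K) :=
  open Classical in
  if h : I ≠ ⊥ then ClassGroup.mk0 ⟨I, mem_nonZeroDivisors_iff_ne_zero.mpr h⟩ else 1

theorem cl_of_ne_bot {I : Ideal (𝓞 K)} (h : I ≠ ⊥) :
    cl I = ClassGroup.mk0 ⟨I, mem_nonZeroDivisors_iff_ne_zero.mpr h⟩ := by
  unfold cl
  rw [dif_pos h]

theorem cl_mul {I J : Ideal (𝓞 K)} (hI : I ≠ ⊥) (hJ : J ≠ ⊥) : cl (I * J) = cl I * cl J := by
  have hIJ : I * J ≠ ⊥ := mul_ne_zero hI hJ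
  rw [cl_of_ne_bot hI, cl_of_ne_bot hJ, cl_of_ne_bot hIJ, ← map_mul]
  rfl

theorem cl_eq_one_iff {I : Ideal (𝓞 K)} (hI : I ≠ ⊥) : cl I = 1 ↔ Submodule.IsPrincipal I := by
  rw [cl_of_ne_bot hI]
  exact ClassGroup.mk0_eq_one_iff _

theorem cl_surjective (C : ClassGroup (𝓞 K)) : ∃ I : Ideal (𝓞 K), I ≠ ⊥ ∧ cl I = C := by
  obtain ⟨⟨I, hI⟩, rfl⟩ := ClassGroup.mk0_surjective C
  have hI' : I ≠ ⊥ := mem_nonZeroDivisors_iff_ne_zero.mp hI
  exact ⟨I, hI', cl_of_ne_bot hI'⟩

/-- For nonzero ideals `J`, `m` there is an ideal `𝔟` coprime to `m` with `J * 𝔟` principal. -/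
theorem exists_coprime_mul_principal (J m : Ideal (𝓞 K)) (hJ : J ≠ ⊥) (hm : m ≠ ⊥) :
    ∃ 𝔟 : Ideal (𝓞 K), IsCoprime 𝔟 m ∧ Submodule.IsPrincipal (J * 𝔟) := by
  have h1 : J * m ≤ J := Ideal.mul_le_left
  have h2 : J * m ≠ 0 := mul_ne_zero hJ hm
  obtain ⟨a, ha⟩ := IsDedekindDomain.exists_sup_span_eq h1 h2
  have haJ : Ideal.span {a} ≤ J := by
    rw [← ha]
    exact le_sup_right
  obtain ⟨𝔟, h𝔟⟩ := Ideal.dvd_iff_le.mpr haJ
  refine ⟨𝔟, ?_, ?_⟩
  · rw [Ideal.isCoprime_iff_sup_eq]
    have h3 : J * (𝔟 ⊔ m) = J * ⊤ := by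
      rw [Ideal.mul_sup, ← h𝔟, Ideal.mul_top, sup_comm]
      exact ha
    exact mul_left_cancel₀ hJ h3
  · rw [← h𝔟]
    exact ⟨⟨a, rfl⟩⟩

/-- Every ideal class contains a nonzero ideal coprime to a given nonzero ideal. -/
theorem exists_coprime_rep (m : Ideal (𝓞 K)) (hm : m ≠ ⊥) (C : ClassGroup (𝓞 K)) :
    ∃ 𝔟 : Ideal (𝓞 K), 𝔟 ≠ ⊥ ∧ IsCoprime 𝔟 m ∧ cl 𝔟 = C := by
  by_cases hmtop : m = ⊤
  · obtain ⟨I, hI, hIC⟩ := cl_surjective C
    refine ⟨I, hI, ?_, hIC⟩
    rw [hmtop, Ideal.isCoprime_iff_sup_eq]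
    simp
  · obtain ⟨J, hJ, hJC⟩ := cl_surjective C⁻¹
    obtain ⟨𝔟, h𝔟m, h𝔟p⟩ := exists_coprime_mul_principal J m hJ hm
    have h𝔟 : 𝔟 ≠ ⊥ := by
      rintro rfl
      rw [Ideal.isCoprime_iff_sup_eq, bot_sup_eq] at h𝔟m
      exact hmtop h𝔟m
    refine ⟨𝔟, h𝔟, h𝔟m, ?_⟩
    have h1 : cl (J * 𝔟) = 1 := (cl_eq_one_iff (mul_ne_zero hJ h𝔟)).mpr h𝔟p
    rw [cl_mul hJ h𝔟, hJC] at h1
    exact (inv_mul_eq_one.mp h1).symm

/-- **Translation by an ideal**: if multiplication by `𝔟 ≠ 0` maps `Z` onto `Z'` then the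
partial zeta sums over `Z` and `Z'` differ by the factor `N(𝔟)^s`. -/
theorem tsum_mul_ideal (𝔟 : Ideal (𝓞 K)) (h𝔟 : 𝔟 ≠ ⊥) (Z Z' : Set (Ideal (𝓞 K)))
    (hZ : ∀ I ∈ Z, I * 𝔟 ∈ Z') (hZ' : ∀ J ∈ Z', ∃ I ∈ Z, I * 𝔟 = J) (s : ℝ) :
    ∑' I : Z, (Ideal.absNorm (I : Ideal (𝓞 K)) : ℝ) ^ (-s) =
      (Ideal.absNorm 𝔟 : ℝ) ^ s * ∑' J : Z', (Ideal.absNorm (J : Ideal (𝓞 K)) : ℝ) ^ (-s) := by
  have hinj : Function.Injective (fun I : Z => (⟨(I : Ideal (𝓞 K)) * 𝔟, hZ I I.2⟩ : Z')) := by
    intro I I' h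
    have h' : (I : Ideal (𝓞 K)) * 𝔟 = (I' : Ideal (𝓞 K)) * 𝔟 := congrArg Subtype.val h
    exact Subtype.ext (mul_right_cancel₀ h𝔟 h')
  have hsurj : Function.Surjective (fun I : Z => (⟨(I : Ideal (𝓞 K)) * 𝔟, hZ I I.2⟩ : Z')) := by
    rintro ⟨J, hJ⟩
    obtain ⟨I, hI, rfl⟩ := hZ' J hJ
    exact ⟨⟨I, hI⟩, rfl⟩
  let e : Z ≃ Z' := Equiv.ofBijective _ ⟨hinj, hsurj⟩
  have hN : (0 : ℝ) < Ideal.absNorm 𝔟 := by
    have : Ideal.absNorm 𝔟 ≠ 0 := by
      rw [Ne, Ideal.absNorm_eq_zero_iff]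
      exact h𝔟
    exact_mod_cast Nat.pos_of_ne_zero this
  rw [← e.tsum_eq, ← tsum_mul_left]
  congr 1
  funext I
  show _ = _ * (Ideal.absNorm ((I : Ideal (𝓞 K)) * 𝔟) : ℝ) ^ (-s)
  rw [map_mul, Nat.cast_mul, Real.mul_rpow (Nat.cast_nonneg _) (Nat.cast_nonneg _),
    mul_comm ((Ideal.absNorm (I : Ideal (𝓞 K)) : ℝ) ^ (-s)), ← mul_assoc,
    ← Real.rpow_add hN, add_neg_cancel, Real.rpow_zero, one_mul]

/-- Summability transfers along translation by an ideal. -/
theorem summable_of_mul_ideal (𝔟 : Ideal (𝓞 K)) (h𝔟 : 𝔟 ≠ ⊥) (Z Z' : Set (Ideal (𝓞 K)))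
    (hZ : ∀ I ∈ Z, I * 𝔟 ∈ Z') (s : ℝ)
    (hsum : Summable fun J : Z' => (Ideal.absNorm (J : Ideal (𝓞 K)) : ℝ) ^ (-s)) :
    Summable fun I : Z => (Ideal.absNorm (I : Ideal (𝓞 K)) : ℝ) ^ (-s) := by
  have hinj : Function.Injective (fun I : Z => (⟨(I : Ideal (𝓞 K)) * 𝔟, hZ I I.2⟩ : Z')) := by
    intro I I' h
    have h' : (I : Ideal (𝓞 K)) * 𝔟 = (I' : Ideal (𝓞 K)) * 𝔟 := congrArg Subtype.val h
    exact Subtype.ext (mul_right_cancel₀ h𝔟 h')
  have hN : (0 : ℝ) < Ideal.absNorm 𝔟 := by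
    have : Ideal.absNorm 𝔟 ≠ 0 := by
      rw [Ne, Ideal.absNorm_eq_zero_iff]
      exact h𝔟
    exact_mod_cast Nat.pos_of_ne_zero this
  have h1 := (hsum.comp_injective hinj).mul_left ((Ideal.absNorm 𝔟 : ℝ) ^ s)
  refine h1.congr fun I => ?_
  show _ * (Ideal.absNorm ((I : Ideal (𝓞 K)) * 𝔟) : ℝ) ^ (-s) = _
  rw [map_mul, Nat.cast_mul, Real.mul_rpow (Nat.cast_nonneg _) (Nat.cast_nonneg _),
    mul_comm ((Ideal.absNorm (I : Ideal (𝓞 K)) : ℝ) ^ (-s)), ← mul_assoc,
    ← Real.rpow_add hN, add_neg_cancel, Real.rpow_zero, one_mul]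

end Fermat.Agent.S55.H963

end
-- ===== PACK-END S55/H963/ClassRep.lean

-- ===== PACK-BEGIN S14/H163/GoodMass.lean
section



/-!
# S14 density: piece (A) `GoodMass` of helper34's interface (helper163)

The primes of degree one outside a finite set carry the mass of the zeta function.
-/

set_option autoImplicit false
set_option linter.unusedSectionVars false

namespace Fermat.Agent.S14.H163

open NumberField IsDedekindDomain Filter Topology
open scoped nonZeroDivisors

variable {K : Type*} [Field K] [NumberField K]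

/-- Every nonzero prime of `𝓞 K` contains a rational prime. -/
theorem exists_prime_mem (v : HeightOneSpectrum (𝓞 K)) :
    ∃ ℓ : ℕ, ℓ.Prime ∧ (ℓ : 𝓞 K) ∈ v.asIdeal := by
  have hN : ((Ideal.absNorm v.asIdeal : ℕ) : 𝓞 K) ∈ v.asIdeal := Ideal.absNorm_mem _
  have hN0 : Ideal.absNorm v.asIdeal ≠ 0 := by
    rw [Ne, Ideal.absNorm_eq_zero_iff]
    exact v.ne_bot
  rw [← Nat.prod_factorization_pow_eq_self hN0, Finsupp.prod, Nat.cast_prod] at hN
  haveI := v.isPrime
  obtain ⟨ℓ, hℓ, hmem⟩ := (Ideal.IsPrime.prod_mem_iff).mp hN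
  rw [Nat.cast_pow] at hmem
  refine ⟨ℓ, ?_, Ideal.IsPrime.mem_of_pow_mem v.isPrime _ hmem⟩
  rw [Nat.support_factorization] at hℓ
  exact Nat.prime_of_mem_primeFactors hℓ

theorem absNorm_span_natCast (ℓ : ℕ) :
    Ideal.absNorm (Ideal.span {(ℓ : 𝓞 K)}) = ℓ ^ Module.finrank ℚ K := by
  rw [Ideal.absNorm_span_singleton]
  have : (ℓ : 𝓞 K) = algebraMap ℤ (𝓞 K) (ℓ : ℤ) := by simp
  rw [this, Algebra.norm_algebraMap, RingOfIntegers.rank]
  simp [Int.natAbs_pow]

theorem absNorm_eq_pow (v : HeightOneSpectrum (𝓞 K)) {ℓ : ℕ} (hℓ : ℓ.Prime)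
    (hmem : (ℓ : 𝓞 K) ∈ v.asIdeal) :
    ∃ j, 1 ≤ j ∧ Ideal.absNorm v.asIdeal = ℓ ^ j := by
  have hle : Ideal.span {(ℓ : 𝓞 K)} ≤ v.asIdeal := (Ideal.span_singleton_le_iff_mem _).mpr hmem
  have hdvd := Ideal.absNorm_dvd_absNorm_of_le hle
  rw [absNorm_span_natCast, Nat.dvd_prime_pow hℓ] at hdvd
  obtain ⟨j, -, hj⟩ := hdvd
  refine ⟨j, ?_, hj⟩
  by_contra h0
  have : j = 0 := by omega
  rw [this, pow_zero, Ideal.absNorm_eq_one_iff] at hj
  exact v.isPrime.ne_top hj

/-- At most `[K:ℚ]` primes contain a given rational prime. -/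
theorem card_le_of_mem (S : Finset (HeightOneSpectrum (𝓞 K))) {ℓ : ℕ} (hℓ : ℓ.Prime)
    (hS : ∀ v ∈ S, (ℓ : 𝓞 K) ∈ v.asIdeal) : S.card ≤ Module.finrank ℚ K := by
  classical
  have hinj : Set.InjOn (fun v : HeightOneSpectrum (𝓞 K) => v.asIdeal) (S : Set _) :=
    fun v _ w _ h => HeightOneSpectrum.ext h
  have hdvd : ∏ P ∈ S.image (fun v => v.asIdeal), P ∣ Ideal.span {(ℓ : 𝓞 K)} := by
    apply Finset.prod_primes_dvd
    · intro P hP
      obtain ⟨v, -, rfl⟩ := Finset.mem_image.mp hP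
      exact v.prime
    · intro P hP
      obtain ⟨v, hv, rfl⟩ := Finset.mem_image.mp hP
      rw [Ideal.dvd_iff_le]
      exact (Ideal.span_singleton_le_iff_mem _).mpr (hS v hv)
  rw [Finset.prod_image hinj] at hdvd
  have h2 := map_dvd Ideal.absNorm hdvd
  rw [absNorm_span_natCast, map_prod] at h2
  have h3 : ℓ ^ S.card ≤ ∏ v ∈ S, Ideal.absNorm v.asIdeal := by
    rw [← Finset.prod_const]
    apply Finset.prod_le_prod'
    intro v hv
    obtain ⟨j, hj1, hj⟩ := absNorm_eq_pow v hℓ (hS v hv)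
    rw [hj]
    calc ℓ = ℓ ^ 1 := (pow_one _).symm
      _ ≤ ℓ ^ j := Nat.pow_le_pow_right hℓ.pos hj1
  have h4 : ∏ v ∈ S, Ideal.absNorm v.asIdeal ≤ ℓ ^ Module.finrank ℚ K :=
    Nat.le_of_dvd (pow_pos hℓ.pos _) h2
  exact (Nat.pow_le_pow_iff_right hℓ.one_lt).mp (h3.trans h4)

theorem two_le_absNorm (v : HeightOneSpectrum (𝓞 K)) : 2 ≤ Ideal.absNorm v.asIdeal := by
  have h1 : Ideal.absNorm v.asIdeal ≠ 1 := by
    rw [Ne, Ideal.absNorm_eq_one_iff]
    exact v.isPrime.ne_top
  have h0 : Ideal.absNorm v.asIdeal ≠ 0 := by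
    rw [Ne, Ideal.absNorm_eq_zero_iff]
    exact v.ne_bot
  omega

theorem normPow_prime_le_inv {s : ℝ} (hs : 1 ≤ s) (v : HeightOneSpectrum (𝓞 K)) :
    normPow s (toI0 v) ≤ ((Ideal.absNorm v.asIdeal : ℝ))⁻¹ := by
  rw [normPow_apply, toI0_coe]
  have h2 : (1 : ℝ) ≤ (Ideal.absNorm v.asIdeal : ℝ) := by
    exact_mod_cast (le_trans (by norm_num) (two_le_absNorm v))
  calc (Ideal.absNorm v.asIdeal : ℝ) ^ (-s) ≤ (Ideal.absNorm v.asIdeal : ℝ) ^ (-1 : ℝ) :=
        Real.rpow_le_rpow_of_exponent_le h2 (by linarith)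
    _ = ((Ideal.absNorm v.asIdeal : ℝ))⁻¹ := Real.rpow_neg_one _

theorem normPow_prime_le_half {s : ℝ} (hs : 1 ≤ s) (v : HeightOneSpectrum (𝓞 K)) :
    normPow s (toI0 v) ≤ 1 / 2 := by
  refine (normPow_prime_le_inv hs v).trans ?_
  have h2 : (2 : ℝ) ≤ (Ideal.absNorm v.asIdeal : ℝ) := by exact_mod_cast two_le_absNorm v
  rw [one_div]
  exact inv_anti₀ (by norm_num) h2

/-- The primes of degree at least two have bounded mass. -/
theorem sum_deg2_le (T : Finset (HeightOneSpectrum (𝓞 K)))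
    (hT : ∀ v ∈ T, ¬ (Ideal.absNorm v.asIdeal).Prime) {s : ℝ} (hs : 1 ≤ s) :
    ∑ v ∈ T, normPow s (toI0 v) ≤
      (Module.finrank ℚ K : ℝ) * ∑' m : ℕ, ((m : ℝ) ^ 2)⁻¹ := by
  classical
  choose ℓ hℓ hmem using fun v : HeightOneSpectrum (𝓞 K) => exists_prime_mem v
  have hsum : Summable (fun m : ℕ => ((m : ℝ) ^ 2)⁻¹) := Real.summable_nat_pow_inv.mpr (by norm_num)
  have h1 : ∀ v ∈ T, normPow s (toI0 v) ≤ (((ℓ v : ℕ) : ℝ) ^ 2)⁻¹ := by
    intro v hv
    refine (normPow_prime_le_inv hs v).trans ?_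
    obtain ⟨j, hj1, hj⟩ := absNorm_eq_pow v (hℓ v) (hmem v)
    have hj2 : 2 ≤ j := by
      by_contra h
      have : j = 1 := by omega
      rw [this, pow_one] at hj
      exact hT v hv (hj ▸ hℓ v)
    have hle : (ℓ v) ^ 2 ≤ Ideal.absNorm v.asIdeal := by
      rw [hj]
      exact Nat.pow_le_pow_right (hℓ v).pos hj2
    have hpos : (0 : ℝ) < ((ℓ v : ℕ) : ℝ) ^ 2 := by
      have := (hℓ v).pos
      positivity
    apply inv_anti₀ hpos
    exact_mod_cast hle
  calc ∑ v ∈ T, normPow s (toI0 v) ≤ ∑ v ∈ T, (((ℓ v : ℕ) : ℝ) ^ 2)⁻¹ := Finset.sum_le_sum h1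
    _ = ∑ b ∈ T.image ℓ, (T.filter (fun v => ℓ v = b)).card • (((b : ℕ) : ℝ) ^ 2)⁻¹ :=
        Finset.sum_comp (fun b : ℕ => (((b : ℕ) : ℝ) ^ 2)⁻¹) ℓ
    _ ≤ ∑ b ∈ T.image ℓ, (Module.finrank ℚ K : ℝ) * (((b : ℕ) : ℝ) ^ 2)⁻¹ := by
        apply Finset.sum_le_sum
        intro b hb
        rw [nsmul_eq_mul]
        apply mul_le_mul_of_nonneg_right _ (by positivity)
        have hb' : b.Prime := by
          obtain ⟨v, -, rfl⟩ := Finset.mem_image.mp hb
          exact hℓ v
        have := card_le_of_mem (T.filter (fun v => ℓ v = b)) hb' (by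
          intro v hv
          have := (Finset.mem_filter.mp hv).2
          rw [← this]
          exact hmem v)
        exact_mod_cast this
    _ = (Module.finrank ℚ K : ℝ) * ∑ b ∈ T.image ℓ, (((b : ℕ) : ℝ) ^ 2)⁻¹ :=
        (Finset.mul_sum _ _ _).symm
    _ ≤ (Module.finrank ℚ K : ℝ) * ∑' m : ℕ, ((m : ℝ) ^ 2)⁻¹ := by
        apply mul_le_mul_of_nonneg_left _ (Nat.cast_nonneg _)
        exact hsum.sum_le_tsum _ (fun _ _ => by positivity)

theorem inv_one_sub_le_exp {x : ℝ} (hx0 : 0 ≤ x) (hx : x ≤ 1 / 2) :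
    (1 - x)⁻¹ ≤ Real.exp (2 * x) := by
  have h1 : (1 - x)⁻¹ ≤ 1 + 2 * x := by
    rw [inv_le_iff_one_le_mul₀ (by linarith)]
    nlinarith
  have h2 := Real.add_one_le_exp (2 * x)
  linarith

theorem prod_deg2_le (T : Finset (HeightOneSpectrum (𝓞 K)))
    (hT : ∀ v ∈ T, ¬ (Ideal.absNorm v.asIdeal).Prime) {s : ℝ} (hs : 1 ≤ s) :
    ∏ v ∈ T, (1 - normPow s (toI0 v))⁻¹ ≤
      Real.exp (2 * ((Module.finrank ℚ K : ℝ) * ∑' m : ℕ, ((m : ℝ) ^ 2)⁻¹)) := by
  calc ∏ v ∈ T, (1 - normPow s (toI0 v))⁻¹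
      ≤ ∏ v ∈ T, Real.exp (2 * normPow s (toI0 v)) := by
        apply Finset.prod_le_prod
        · intro v _
          have := normPow_prime_le_half hs v
          exact inv_nonneg.mpr (by linarith)
        · intro v _
          exact inv_one_sub_le_exp (normPow_pos s _).le (normPow_prime_le_half hs v)
    _ = Real.exp (∑ v ∈ T, 2 * normPow s (toI0 v)) := (Real.exp_sum _ _).symm
    _ ≤ _ := by
        apply Real.exp_le_exp.mpr
        rw [← Finset.mul_sum]
        exact mul_le_mul_of_nonneg_left (sum_deg2_le T hT hs) (by norm_num)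

/-- Real Euler product of the zeta function. -/
theorem hasProd_zetaR {s : ℝ} (hs : 1 < s) :
    HasProd (fun v : HeightOneSpectrum (𝓞 K) => (1 - normPow s (toI0 v))⁻¹) (zetaR K s) :=
  hasProd_ideal (normPow s) (summable_norm_normPow hs)

theorem zetaR_anti {s t : ℝ} (hs : 1 < s) (hst : s ≤ t) : zetaR K t ≤ zetaR K s :=
  (summable_normPow (lt_of_lt_of_le hs hst)).tsum_le_tsum (fun I => normPow_anti hst I)
    (summable_normPow hs)

theorem normPow_two_mul (s : ℝ) (I : (Ideal (𝓞 K))⁰) : normPow (2 * s) I = normPow s I ^ 2 := by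
  rw [normPow_apply, normPow_apply, ← Real.rpow_natCast, ← Real.rpow_mul (Nat.cast_nonneg _)]
  congr 1
  push_cast
  ring

/-- Piece (A): the degree one primes outside a finite set carry the mass of zeta. -/
theorem goodMass (K : Type*) [Field K] [NumberField K] : H34.GoodMass K := by
  intro Bad
  classical
  set C₁ : ℝ := Real.exp (2 * ((Module.finrank ℚ K : ℝ) * ∑' m : ℕ, ((m : ℝ) ^ 2)⁻¹)) with hC₁
  have hC₁pos : 0 < C₁ := Real.exp_pos _
  have hz2 : 0 < zetaR K 2 := zetaR_pos (by norm_num)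
  refine ⟨2 * (2 : ℝ) ^ Bad.card * C₁ * zetaR K 2, by positivity, fun s hs1 hs2 => ?_⟩
  have hs1' : (1 : ℝ) ≤ s := hs1.le
  have hz : 0 < zetaR K s := zetaR_pos hs1
  -- a finite partial product capturing half of zeta
  have hprod : Tendsto (fun T : Finset (HeightOneSpectrum (𝓞 K)) =>
      ∏ v ∈ T, (1 - normPow s (toI0 v))⁻¹) atTop (𝓝 (zetaR K s)) := hasProd_zetaR hs1
  have hev := hprod.eventually (lt_mem_nhds (show zetaR K s / 2 < zetaR K s by linarith))
  obtain ⟨T₀, hT₀⟩ := hev.exists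
  -- the three parts
  set T := T₀.filter (fun v => (Ideal.absNorm v.asIdeal).Prime ∧ v ∉ Bad) with hTdef
  set T₁ := T₀.filter (fun v => ¬ (Ideal.absNorm v.asIdeal).Prime) with hT₁def
  set T₂ := T₀.filter (fun v => (Ideal.absNorm v.asIdeal).Prime ∧ v ∈ Bad) with hT₂def
  have hfac : ∀ v : HeightOneSpectrum (𝓞 K), 0 < (1 - normPow s (toI0 v))⁻¹ := by
    intro v
    have := normPow_prime_le_half hs1' v
    exact inv_pos.mpr (by linarith)
  have hsplit : ∏ v ∈ T₀, (1 - normPow s (toI0 v))⁻¹ =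
      (∏ v ∈ T, (1 - normPow s (toI0 v))⁻¹) * (∏ v ∈ T₂, (1 - normPow s (toI0 v))⁻¹) *
        (∏ v ∈ T₁, (1 - normPow s (toI0 v))⁻¹) := by
    rw [← Finset.prod_filter_mul_prod_filter_not T₀ (fun v => (Ideal.absNorm v.asIdeal).Prime)]
    congr 1
    rw [← Finset.prod_filter_mul_prod_filter_not
      (T₀.filter (fun v => (Ideal.absNorm v.asIdeal).Prime)) (fun v => v ∉ Bad)]
    congr 1
    · apply Finset.prod_congr _ (fun _ _ => rfl)
      ext v
      simp only [Finset.mem_filter, hTdef]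
      tauto
    · apply Finset.prod_congr _ (fun _ _ => rfl)
      ext v
      simp only [Finset.mem_filter, hT₂def, not_not]
      tauto
  have hb1 : ∏ v ∈ T₁, (1 - normPow s (toI0 v))⁻¹ ≤ C₁ :=
    prod_deg2_le T₁ (fun v hv => (Finset.mem_filter.mp hv).2) hs1'
  have hb2 : ∏ v ∈ T₂, (1 - normPow s (toI0 v))⁻¹ ≤ (2 : ℝ) ^ Bad.card := by
    have hcard : T₂.card ≤ Bad.card :=
      Finset.card_le_card (fun v hv => (Finset.mem_filter.mp hv).2.2)
    calc ∏ v ∈ T₂, (1 - normPow s (toI0 v))⁻¹ ≤ ∏ _v ∈ T₂, (2 : ℝ) := by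
          apply Finset.prod_le_prod (fun v _ => (hfac v).le)
          intro v _
          have := normPow_prime_le_half hs1' v
          rw [inv_le_comm₀ (by linarith) (by norm_num)]
          linarith
      _ = (2 : ℝ) ^ T₂.card := Finset.prod_const _
      _ ≤ (2 : ℝ) ^ Bad.card := pow_le_pow_right₀ (by norm_num) hcard
  have hb3 : ∏ v ∈ T, (1 - normPow s (toI0 v))⁻¹ ≤
      (∏ v ∈ T, (1 + H34.pN s v)) * zetaR K 2 := by
    have hfacT : ∀ v ∈ T, (1 - normPow s (toI0 v))⁻¹ =
        (1 + H34.pN s v) * (1 - normPow (2 * s) (toI0 v))⁻¹ := by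
      intro v _
      rw [normPow_two_mul, pN_eq]
      have h1 := normPow_prime_le_half hs1' v
      have h0 := normPow_pos s (toI0 v)
      have hne : (1 - normPow s (toI0 v)) ≠ 0 := by linarith
      have hne2 : (1 - normPow s (toI0 v) ^ 2) ≠ 0 := by nlinarith
      field_simp
      ring
    rw [Finset.prod_congr rfl hfacT, Finset.prod_mul_distrib]
    apply mul_le_mul_of_nonneg_left _ (Finset.prod_nonneg fun v _ => by
      have := normPow_pos s (toI0 v)
      rw [pN_eq]
      linarith)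
    have h2s : (1 : ℝ) < 2 * s := by linarith
    have hge : ∀ v : HeightOneSpectrum (𝓞 K), 1 ≤ (1 - normPow (2 * s) (toI0 v))⁻¹ := by
      intro v
      have h1 := normPow_prime_le_half (by linarith : (1 : ℝ) ≤ 2 * s) v
      have h0 := normPow_pos (2 * s) (toI0 v)
      exact (one_le_inv₀ (by linarith)).mpr (by linarith)
    exact (prod_le_of_hasProd (hasProd_zetaR h2s) hge T).trans
      (zetaR_anti (by norm_num) (by linarith))
  refine ⟨T, fun v hv => (Finset.mem_filter.mp hv).2, ?_⟩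
  rw [zetaI_eq_zetaR]
  have hpT : 0 ≤ ∏ v ∈ T, (1 + H34.pN s v) := Finset.prod_nonneg fun v _ => by
    have := normPow_pos s (toI0 v)
    rw [pN_eq]
    linarith
  have hpT0 : 0 ≤ ∏ v ∈ T, (1 - normPow s (toI0 v))⁻¹ :=
    Finset.prod_nonneg fun v _ => (hfac v).le
  have hpT2 : 0 ≤ ∏ v ∈ T₂, (1 - normPow s (toI0 v))⁻¹ :=
    Finset.prod_nonneg fun v _ => (hfac v).le
  have hpT1 : 0 ≤ ∏ v ∈ T₁, (1 - normPow s (toI0 v))⁻¹ :=
    Finset.prod_nonneg fun v _ => (hfac v).le
  have hmain : ∏ v ∈ T₀, (1 - normPow s (toI0 v))⁻¹ ≤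
      ((∏ v ∈ T, (1 + H34.pN s v)) * zetaR K 2) * (2 : ℝ) ^ Bad.card * C₁ := by
    rw [hsplit]
    apply mul_le_mul _ hb1 hpT1 (by positivity)
    exact mul_le_mul hb3 hb2 hpT2 (by positivity)
  have : zetaR K s < 2 * ∏ v ∈ T₀, (1 - normPow s (toI0 v))⁻¹ := by linarith
  calc zetaR K s ≤ 2 * ∏ v ∈ T₀, (1 - normPow s (toI0 v))⁻¹ := this.le
    _ ≤ 2 * (((∏ v ∈ T, (1 + H34.pN s v)) * zetaR K 2) * (2 : ℝ) ^ Bad.card * C₁) := by
        linarith
    _ = 2 * (2 : ℝ) ^ Bad.card * C₁ * zetaR K 2 * ∏ v ∈ T, (1 + H34.pN s v) := by ring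

end Fermat.Agent.S14.H163

end
-- ===== PACK-END S14/H163/GoodMass.lean

-- ===== PACK-BEGIN S55/G/Rec/SCH174/Helpers.lean
section


/-!
# S55 / G / REC, leaf SC (helper174) : small consequences of the KEY specs

* `gcc_nsmul_eq_zero`, `lcc_nsmul_eq_zero` : cup classes with a character of order dividing `n`
  are killed by `n` (from `CupAddSpec`);
* `acts_conj_loc` : transport of the action on roots of unity from `ℚ̄_q` to `ℚ̄`;
* `norm_eq_of_isUniformizer` : two uniformizers have the same norm.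
-/

set_option autoImplicit false
set_option linter.style.haveILetI false
set_option linter.unusedSectionVars false

noncomputable section

namespace Fermat.Agent.S55.G.Rec.H174

open groupCohomology Fermat.Agent.S55.G.Rec

local notation "Qb" => AlgebraicClosure ℚ
local notation "GQ" => (AlgebraicClosure ℚ ≃ₐ[ℚ] AlgebraicClosure ℚ)

/-! ## Characters -/

section Chars

variable {G : Type} [Group G] (ρ : G →* GQ) {n : ℕ}

lemma isLevelConstant₁_one_char : IsLevelConstant₁ ρ (1 : G →* Multiplicative (ZMod n)) :=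
  isLevelConstant₁_const ρ (1 : Multiplicative (ZMod n))

lemma isLevelConstant₁_pow_char {χ : G →* Multiplicative (ZMod n)} (hχ : IsLevelConstant₁ ρ χ)
    (m : ℕ) : IsLevelConstant₁ ρ (χ ^ m : G →* Multiplicative (ZMod n)) :=
  (hχ.comp (fun x => x ^ m) :)

lemma char_pow_self (χ : G →* Multiplicative (ZMod n)) : χ ^ n = 1 := by
  ext σ
  show (χ σ) ^ n = 1
  apply Multiplicative.toAdd.injective
  rw [toAdd_pow, toAdd_one, nsmul_eq_mul, ZMod.natCast_self, zero_mul]

end Chars

/-! ## Cup classes are killed by `n` -/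

theorem gcc_one_char (hK2 : CupAddSpec) (U : Subgroup GQ) (n : ℕ) (hn : n ≠ 0) (a : Qbˣ)
    (ha : GFixed U a) : gcc U n (1 : ↥U →* Multiplicative (ZMod n)) a = 0 := by
  have h := (hK2.1 U n 1 1 a a hn (isLevelConstant₁_one_char _) (isLevelConstant₁_one_char _)
    ha ha).2
  rw [mul_one] at h
  exact left_eq_add.mp h

theorem gcc_pow_char (hK2 : CupAddSpec) (U : Subgroup GQ) (n : ℕ) (hn : n ≠ 0)
    (χ : ↥U →* Multiplicative (ZMod n)) (hχ : IsLevelConstant₁ U.subtype χ) (a : Qbˣ)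
    (ha : GFixed U a) (m : ℕ) : gcc U n (χ ^ m) a = m • gcc U n χ a := by
  induction m with
  | zero => rw [pow_zero, zero_smul]; exact gcc_one_char hK2 U n hn a ha
  | succ m ih =>
    rw [pow_succ, (hK2.1 U n (χ ^ m) χ a a hn (isLevelConstant₁_pow_char _ hχ m) hχ ha ha).2,
      ih, succ_nsmul]

theorem gcc_nsmul_eq_zero (hK2 : CupAddSpec) (U : Subgroup GQ) (n : ℕ) (hn : n ≠ 0)
    (χ : ↥U →* Multiplicative (ZMod n)) (hχ : IsLevelConstant₁ U.subtype χ) (a : Qbˣ)
    (ha : GFixed U a) : n • gcc U n χ a = 0 := by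
  rw [← gcc_pow_char hK2 U n hn χ hχ a ha n, char_pow_self, gcc_one_char hK2 U n hn a ha]

section Local

variable (q : ℕ) [Fact q.Prime]

local notation "Gq" => (PadicAlgCl q ≃ₐ[ℚ_[q]] PadicAlgCl q)

theorem lcc_one_char (hK2 : CupAddSpec) (V : Subgroup Gq) (n : ℕ) (hn : n ≠ 0)
    (a : (PadicAlgCl q)ˣ) (ha : LFixed q V a) :
    lcc q V n (1 : ↥V →* Multiplicative (ZMod n)) a = 0 := by
  have h := (hK2.2 q V n 1 1 a a hn (isLevelConstant₁_one_char _) (isLevelConstant₁_one_char _)
    ha ha).2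
  rw [mul_one] at h
  exact left_eq_add.mp h

theorem lcc_pow_char (hK2 : CupAddSpec) (V : Subgroup Gq) (n : ℕ) (hn : n ≠ 0)
    (χ : ↥V →* Multiplicative (ZMod n)) (hχ : IsLevelConstant₁ (lHom q V) χ)
    (a : (PadicAlgCl q)ˣ) (ha : LFixed q V a) (m : ℕ) :
    lcc q V n (χ ^ m) a = m • lcc q V n χ a := by
  induction m with
  | zero => rw [pow_zero, zero_smul]; exact lcc_one_char q hK2 V n hn a ha
  | succ m ih =>
    rw [pow_succ, (hK2.2 q V n (χ ^ m) χ a a hn (isLevelConstant₁_pow_char _ hχ m) hχ ha ha).2,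
      ih, succ_nsmul]

theorem lcc_nsmul_eq_zero (hK2 : CupAddSpec) (V : Subgroup Gq) (n : ℕ) (hn : n ≠ 0)
    (χ : ↥V →* Multiplicative (ZMod n)) (hχ : IsLevelConstant₁ (lHom q V) χ)
    (a : (PadicAlgCl q)ˣ) (ha : LFixed q V a) : n • lcc q V n χ a = 0 := by
  rw [← lcc_pow_char q hK2 V n hn χ hχ a ha n, char_pow_self, lcc_one_char q hK2 V n hn a ha]

lemma lFixed_one' (V : Subgroup Gq) : LFixed q V 1 := fun τ _ => smul_one τ

lemma lFixed_mul' {V : Subgroup Gq} {a b : (PadicAlgCl q)ˣ} (ha : LFixed q V a)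
    (hb : LFixed q V b) : LFixed q V (a * b) :=
  fun τ hτ => by rw [smul_mul', ha τ hτ, hb τ hτ]

lemma lFixed_pow' {V : Subgroup Gq} {a : (PadicAlgCl q)ˣ} (ha : LFixed q V a) (m : ℕ) :
    LFixed q V (a ^ m) :=
  fun τ hτ => by rw [smul_pow', ha τ hτ]

/-- The local cup class of an `n`-th power vanishes. -/
theorem lcc_pow_self_eq_zero (hK2 : CupAddSpec) (V : Subgroup Gq) (n : ℕ) (hn : n ≠ 0)
    (χ : ↥V →* Multiplicative (ZMod n)) (hχ : IsLevelConstant₁ (lHom q V) χ)
    (b : (PadicAlgCl q)ˣ) (hb : LFixed q V b) : lcc q V n χ (b ^ n) = 0 := by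
  have key : ∀ m : ℕ, lcc q V n χ (b ^ m) = m • lcc q V n χ b := by
    intro m
    induction m with
    | zero =>
      rw [pow_zero, zero_smul]
      have h := (hK2.2 q V n χ χ 1 1 hn hχ hχ (lFixed_one' q V) (lFixed_one' q V)).1
      rw [mul_one] at h
      exact left_eq_add.mp h
    | succ m ih =>
      rw [pow_succ, (hK2.2 q V n χ χ (b ^ m) b hn hχ hχ (lFixed_pow' q hb m) hb).1, ih,
        succ_nsmul]
  rw [key, lcc_nsmul_eq_zero q hK2 V n hn χ hχ b hb]

/-! ## Transport of the action on roots of unity -/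

/-- If `τ ∈ G_{ℚ_q}` acts on the `r`-th roots of unity of `ℚ̄_q` by `ζ ↦ ζ ^ m`, then
`g · loc τ · g⁻¹` acts on the `r`-th roots of unity of `ℚ̄` by `ζ ↦ ζ ^ m`. -/
theorem acts_conj_loc (r m : ℕ) (g : GQ) (τ : Gq)
    (h : ∀ ζ : PadicAlgCl q, ζ ^ r = 1 → τ ζ = ζ ^ m) (ζ : Qb) (hζ : ζ ^ r = 1) :
    (g * localGaloisToGlobal q τ * g⁻¹) ζ = ζ ^ m := by
  have h1 : ((g⁻¹ : GQ) ζ) ^ r = 1 := by rw [← map_pow, hζ, map_one]
  have h2 : (padicEmbedding q ((g⁻¹ : GQ) ζ)) ^ r = 1 := by rw [← map_pow, h1, map_one]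
  have h3 : localGaloisToGlobal q τ ((g⁻¹ : GQ) ζ) = ((g⁻¹ : GQ) ζ) ^ m := by
    apply (padicEmbedding q).toRingHom.injective
    show padicEmbedding q (localGaloisToGlobal q τ ((g⁻¹ : GQ) ζ)) =
      padicEmbedding q (((g⁻¹ : GQ) ζ) ^ m)
    rw [padicEmbedding_localGaloisToGlobal, h _ h2, map_pow]
  show g (localGaloisToGlobal q τ ((g⁻¹ : GQ) ζ)) = ζ ^ m
  rw [h3, map_pow]
  congr 1
  exact AlgEquiv.apply_symm_apply g ζ

/-! ## Uniformizers -/

theorem norm_eq_of_isUniformizer {V : Subgroup Gq} {π π' : PadicAlgCl q}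
    (h : IsUniformizer q V π) (h' : IsUniformizer q V π') : ‖π‖ = ‖π'‖ :=
  le_antisymm (h'.2.2.2 π h.1 h.2.2.1) (h.2.2.2 π' h'.1 h'.2.2.1)

/-- If `a = π ^ k * u = π' ^ j * u'` with uniformizers `π, π'` and units `u, u'` then `k = j`. -/
theorem zpow_exponent_unique {V : Subgroup Gq} {π π' u u' : (PadicAlgCl q)ˣ}
    (h : IsUniformizer q V (π : PadicAlgCl q)) (h' : IsUniformizer q V (π' : PadicAlgCl q))
    (hu : ‖(u : PadicAlgCl q)‖ = 1) (hu' : ‖(u' : PadicAlgCl q)‖ = 1) {k j : ℤ}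
    (heq : π ^ k * u = π' ^ j * u') : k = j := by
  have h1 := congrArg (fun x : (PadicAlgCl q)ˣ => ‖(x : PadicAlgCl q)‖) heq
  simp only [Units.val_mul, Units.val_zpow_eq_zpow_val, norm_mul, norm_zpow, hu, hu',
    mul_one] at h1
  rw [norm_eq_of_isUniformizer q h h'] at h1
  have hpos : 0 < ‖(π' : PadicAlgCl q)‖ := norm_pos_iff.2 h'.2.1
  exact zpow_right_injective₀ hpos (ne_of_lt h'.2.2.1) h1

end Local

end Fermat.Agent.S55.G.Rec.H174

end
end
-- ===== PACK-END S55/G/Rec/SCH174/Helpers.lean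

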