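import Mathlib
import Fermat.Prelude.Def_CuspForm_HeckeLocal
import Fermat.Prelude.Def_EllipticCurve_FrobeniusTrace
import Fermat.Agent.Pack.S43GC.G0E5L1
import Fermat.Agent.Pack.S43GC.G0E3L2
import Fermat.Agent.Pack.S43GC.G0E5L0
import Fermat.Agent.Pack.S43GC.G0E5L3
import Fermat.Agent.Pack.S43GC.G0E5L2
import Fermat.Agent.Pack.S43GC.G0E4L2
import Fermat.Agent.Pack.S43GC.G0E0L0
import Fermat.Agent.Pack.S43GC.G0E4L1
import Fermat.Agent.Pack.S44C.G0E0L3
import Fermat.Agent.Pack.S43GC.G0E4L0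
import Fermat.Agent.Pack.S43GC.G1E0L0
import Fermat.Agent.Pack.S43GC.G0E2L1
import Fermat.Agent.Pack.S43GC.G0E2L2
import Fermat.Agent.Pack.Fast891

-- ===== PACK-BEGIN S55/KL/SurjH2H898.lean
section


/-!
# S55, layer KB, leaf KB-A4 (helper898): `cd_p ≤ 2` ⇒ `H²` is right exact

`surjH2 : SurjH2Spec`.
-/

set_option autoImplicit false

open CategoryTheory groupCohomology

namespace Fermat.Agent.S55.KL.H898

open Fermat.Agent.S55.KL

variable {k : Type} [CommRing k] {Γ : Type} [Group Γ]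

/-! ## Levels acting trivially on a finite smooth module -/

lemma exists_lvl_fixing (N : NLevels Γ) (P : Rep.{0} k Γ) (hsm : IsSmooth N P)
    (V₁ : N.Lvl) (s : Finset P.V) :
    ∃ V : N.Lvl, V.W ≤ V₁.W ∧ ∀ b ∈ s, ∀ w ∈ V.W, P.ρ w b = b := by
  classical
  induction s using Finset.induction_on with
  | empty => exact ⟨V₁, le_rfl, by simp⟩
  | insert a s _ ih =>
    obtain ⟨V, hV, hfix⟩ := ih
    obtain ⟨W, hW, hWa⟩ := hsm a
    obtain ⟨X, hXV, hXW⟩ := N.exists_le V ⟨W, hW⟩
    refine ⟨X, hXV.trans hV, ?_⟩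
    intro b hb w hw
    rcases Finset.mem_insert.1 hb with rfl | hb
    · exact hWa w (hXW hw)
    · exact hfix b hb w (hXV hw)

lemma exists_lvl_actsTrivially (N : NLevels Γ) (P : Rep.{0} k Γ) (hfin : Finite P.V)
    (hsm : IsSmooth N P) (V₁ : N.Lvl) :
    ∃ V : N.Lvl, V.W ≤ V₁.W ∧ ActsTrivially V.W P := by
  classical
  have := Fintype.ofFinite P.V
  obtain ⟨V, hV, hfix⟩ := exists_lvl_fixing N P hsm V₁ Finset.univ
  exact ⟨V, hV, fun w hw b => hfix b (Finset.mem_univ b) w hw⟩

/-! ## Descending a level-constant cocycle to a finite level -/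

lemma coe_quotientToInvariants_ρ (Q : Rep.{0} k Γ) (W : Subgroup Γ) [W.Normal] (g : Γ)
    (x : (Q.quotientToInvariants W).V) :
    (((Q.quotientToInvariants W).ρ (g : Γ ⧸ W) x : (Q.quotientToInvariants W).V) : Q.V) =
      Q.ρ g (x : Q.V) := rfl

/-- A cochain which is constant modulo a level acting trivially, as a cochain of the quotient. -/
noncomputable def descend₂ (Q : Rep.{0} k Γ) (W : Subgroup Γ) [W.Normal]
    (htriv : ActsTrivially W Q) (c : Γ × Γ → Q.V) :
    (Γ ⧸ W) × (Γ ⧸ W) → (Q.quotientToInvariants W).V :=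
  fun x => ⟨c (x.1.out, x.2.out), fun w => htriv w.1 w.2 _⟩

lemma descend₂_mk (Q : Rep.{0} k Γ) (W : Subgroup Γ) [W.Normal]
    (htriv : ActsTrivially W Q) (c : Γ × Γ → Q.V)
    (hlc : ∀ g g' s s' : Γ, s ∈ W → s' ∈ W → c (g * s, g' * s') = c (g, g')) (g h : Γ) :
    ((descend₂ Q W htriv c ((g : Γ ⧸ W), (h : Γ ⧸ W)) : _) : Q.V) = c (g, h) := by
  obtain ⟨s, hs⟩ := QuotientGroup.mk_out_eq_mul W g
  obtain ⟨s', hs'⟩ := QuotientGroup.mk_out_eq_mul W h
  show c ((g : Γ ⧸ W).out, (h : Γ ⧸ W).out) = c (g, h)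
  rw [hs, hs']
  exact hlc g h s s' s.2 s'.2

lemma descend₂_mem_cocycles₂ (Q : Rep.{0} k Γ) (W : Subgroup Γ) [W.Normal]
    (htriv : ActsTrivially W Q) (c : Γ × Γ → Q.V) (hc : c ∈ cocycles₂ Q)
    (hlc : ∀ g g' s s' : Γ, s ∈ W → s' ∈ W → c (g * s, g' * s') = c (g, g')) :
    descend₂ Q W htriv c ∈ cocycles₂ (Q.quotientToInvariants W) := by
  rw [mem_cocycles₂_def]
  intro x y z
  induction x using QuotientGroup.induction_on with
  | H g =>
  induction y using QuotientGroup.induction_on with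
  | H h =>
  induction z using QuotientGroup.induction_on with
  | H j =>
  apply Subtype.ext
  have h0 := (mem_cocycles₂_def c).1 hc g h j
  have e1 := descend₂_mk Q W htriv c hlc h j
  have e2 := descend₂_mk Q W htriv c hlc (g * h) j
  have e3 := descend₂_mk Q W htriv c hlc g (h * j)
  have e4 := descend₂_mk Q W htriv c hlc g h
  show Q.ρ g (descend₂ Q W htriv c ((h : Γ ⧸ W), (j : Γ ⧸ W)) : Q.V)
      - (descend₂ Q W htriv c (((g * h : Γ) : Γ ⧸ W), (j : Γ ⧸ W)) : Q.V)
      + (descend₂ Q W htriv c ((g : Γ ⧸ W), ((h * j : Γ) : Γ ⧸ W)) : Q.V)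
      - (descend₂ Q W htriv c ((g : Γ ⧸ W), (h : Γ ⧸ W)) : Q.V) = 0
  rw [e1, e2, e3, e4]
  exact h0

/-! ## The kernel sequence at a finite level -/

lemma ker_le_comap {P Q : Rep.{0} k Γ} (φ : P ⟶ Q) (g : Γ) :
    LinearMap.ker φ.hom.toLinearMap ≤ (LinearMap.ker φ.hom.toLinearMap).comap (P.ρ g) := by
  intro x hx
  have hx' : φ.hom x = 0 := hx
  show φ.hom (P.ρ g x) = 0
  rw [Rep.hom_comm_apply, hx', map_zero]

/-- The kernel of `φ : P ⟶ Q` as a representation. -/
noncomputable abbrev kerRep {P Q : Rep.{0} k Γ} (φ : P ⟶ Q) : Rep.{0} k Γ :=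
  Rep.subrepresentation P (LinearMap.ker φ.hom.toLinearMap) (ker_le_comap φ)

/-- The inclusion of the kernel. -/
noncomputable abbrev kerIncl {P Q : Rep.{0} k Γ} (φ : P ⟶ Q) : kerRep φ ⟶ P :=
  Rep.subtype P (LinearMap.ker φ.hom.toLinearMap) (ker_le_comap φ)

/-- The map induced on `W`-invariants, as a morphism of `Γ ⧸ W`-representations. -/
noncomputable abbrev invF {A B : Rep.{0} k Γ} (W : Subgroup Γ) [W.Normal] (ψ : A ⟶ B) :
    A.quotientToInvariants W ⟶ B.quotientToInvariants W :=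
  (Rep.quotientToInvariantsFunctor k W).map ψ

lemma invF_coe {A B : Rep.{0} k Γ} (W : Subgroup Γ) [W.Normal] (ψ : A ⟶ B)
    (x : (A.quotientToInvariants W).V) :
    (((invF W ψ).hom x : (B.quotientToInvariants W).V) : B.V) = ψ.hom (x : A.V) := rfl

lemma kerIncl_coe {P Q : Rep.{0} k Γ} (φ : P ⟶ Q) (x : (kerRep φ).V) :
    φ.hom ((kerIncl φ).hom x) = 0 := x.2

lemma invF_kerIncl_injective {P Q : Rep.{0} k Γ} (φ : P ⟶ Q) (W : Subgroup Γ) [W.Normal] :
    Function.Injective (invF W (kerIncl φ)).hom := by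
  intro x y hxy
  have h1 : (((invF W (kerIncl φ)).hom x : (P.quotientToInvariants W).V) : P.V) =
      (((invF W (kerIncl φ)).hom y : (P.quotientToInvariants W).V) : P.V) := by rw [hxy]
  apply Subtype.ext
  apply Subtype.ext
  exact h1

lemma invF_surjective {P Q : Rep.{0} k Γ} (φ : P ⟶ Q) (hφ : Function.Surjective φ.hom)
    (W : Subgroup Γ) [W.Normal] (htriv : ActsTrivially W P) :
    Function.Surjective (invF W φ).hom := by
  intro z
  obtain ⟨x, hx⟩ := hφ (z : Q.V)
  refine ⟨⟨x, fun w => htriv w.1 w.2 x⟩, ?_⟩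
  apply Subtype.ext
  exact hx

lemma invF_exact {P Q : Rep.{0} k Γ} (φ : P ⟶ Q) (W : Subgroup Γ) [W.Normal]
    (y : (P.quotientToInvariants W).V) (hy : (invF W φ).hom y = 0) :
    ∃ x : ((kerRep φ).quotientToInvariants W).V, (invF W (kerIncl φ)).hom x = y := by
  have hy' : φ.hom (y : P.V) = 0 := congrArg Subtype.val hy
  refine ⟨⟨⟨(y : P.V), hy'⟩, fun w => Subtype.ext (y.2 w)⟩, ?_⟩
  apply Subtype.ext
  rfl

/-- The sequence `0 → K^W → P^W → Q^W → 0` of `Γ ⧸ W`-modules (`K = ker φ`). -/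
noncomputable abbrev sesAt {P Q : Rep.{0} k Γ} (φ : P ⟶ Q) (W : Subgroup Γ) [W.Normal] :
    ShortComplex (Rep.{0} k (Γ ⧸ W)) :=
  ShortComplex.mk (invF W (kerIncl φ)) (invF W φ) (by
    ext x
    exact kerIncl_coe φ x.1)

lemma sesAt_shortExact {P Q : Rep.{0} k Γ} (φ : P ⟶ Q) (hφ : Function.Surjective φ.hom)
    (W : Subgroup Γ) [W.Normal] (htriv : ActsTrivially W P) : (sesAt φ W).ShortExact where
  exact := by
    rw [← ShortComplex.exact_map_iff_of_faithful _ (forget₂ (Rep k (Γ ⧸ W)) (ModuleCat k)),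
      ShortComplex.moduleCat_exact_iff_ker_sub_range]
    intro y hy
    exact invF_exact φ W y hy
  mono_f := (Rep.mono_iff_injective _).2 (invF_kerIncl_injective φ W)
  epi_g := (Rep.epi_iff_surjective _).2 (invF_surjective φ hφ W htriv)

/-! ## Inflation commutes with the connecting homomorphism -/

lemma infl_δ {P Q : Rep.{0} k Γ} (φ : P ⟶ Q) (hφ : Function.Surjective φ.hom)
    {W' W : Subgroup Γ} [W'.Normal] [W.Normal] (h : W' ≤ W)
    (htriv : ActsTrivially W P) (htriv' : ActsTrivially W' P) :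
    δ (sesAt_shortExact φ hφ W htriv) 2 3 rfl ≫ infl (kerRep φ) h 3 =
      infl Q h 2 ≫ δ (sesAt_shortExact φ hφ W' htriv') 2 3 rfl := by
  have hle : W' ≤ W.comap (MonoidHom.id Γ) := by simpa using h
  exact H304.deltaNat k (Γ ⧸ W') (Γ ⧸ W) (QuotientGroup.map W' W (MonoidHom.id Γ) hle)
    (sesAt φ W) (sesAt_shortExact φ hφ W htriv) (sesAt φ W') (sesAt_shortExact φ hφ W' htriv')
    (invMap (MonoidHom.id Γ) hle (𝟙 (kerRep φ))) (invMap (MonoidHom.id Γ) hle (𝟙 P))
    (invMap (MonoidHom.id Γ) hle (𝟙 Q)) (by ext x; rfl) (by ext x; rfl) 2 3 rfl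

/-! ## The kernel is finite, smooth and `p`-torsion -/

lemma kerRep_finite {P Q : Rep.{0} k Γ} (φ : P ⟶ Q) (h : Finite P.V) : Finite (kerRep φ).V :=
  Finite.of_injective (fun x : (kerRep φ).V => (x : P.V)) Subtype.val_injective

lemma kerRep_torsion {P Q : Rep.{0} k Γ} (φ : P ⟶ Q) (p : ℕ) (h : ∀ x : P.V, p • x = 0)
    (r : (kerRep φ).V) : p • r = 0 :=
  Subtype.ext (h (r : P.V))

lemma kerRep_smooth {P Q : Rep.{0} k Γ} (φ : P ⟶ Q) (N : NLevels Γ) (h : IsSmooth N P) :
    IsSmooth N (kerRep φ) := by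
  intro b
  obtain ⟨W, hW, hb⟩ := h (b : P.V)
  exact ⟨W, hW, fun w hw => Subtype.ext (hb w hw)⟩

lemma actsTrivially_of_surjective {P Q : Rep.{0} k Γ} (φ : P ⟶ Q)
    (hφ : Function.Surjective φ.hom) (W : Subgroup Γ) (h : ActsTrivially W P) :
    ActsTrivially W Q := by
  intro w hw q
  obtain ⟨x, rfl⟩ := hφ q
  rw [← Rep.hom_comm_apply, h w hw x]

/-! ## The theorem -/

/-- **KB-A4.** -/
theorem surjH2 : SurjH2Spec := by
  intro k Γ _ _ N p hp hcd P Q φ hφ hfinP hpP hsmP c hc hlc
  have hK : EffAll N (kerRep φ) 3 :=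
    hcd (kerRep φ) (kerRep_finite φ hfinP) (kerRep_torsion φ p hpP) (kerRep_smooth φ N hsmP)
  obtain ⟨W₁, hW₁, hc₁⟩ := hlc
  obtain ⟨V, hVW₁, hVtriv⟩ := exists_lvl_actsTrivially N P hfinP hsmP ⟨W₁, hW₁⟩
  have hVQ : ActsTrivially V.W Q := actsTrivially_of_surjective φ hφ V.W hVtriv
  have hlcV : ∀ g g' s s' : Γ, s ∈ V.W → s' ∈ V.W → c (g * s, g' * s') = c (g, g') :=
    fun g g' s s' hs hs' => hc₁ g g' s s' (hVW₁ hs) (hVW₁ hs')
  let cV : cocycles₂ (Q.quotientToInvariants V.W) :=
    ⟨descend₂ Q V.W hVQ c, descend₂_mem_cocycles₂ Q V.W hVQ c hc hlcV⟩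
  have hXV := sesAt_shortExact φ hφ V.W hVtriv
  obtain ⟨V', hV'V, hkill⟩ := hK V ((δ hXV 2 3 rfl).hom ((H2π _).hom cV))
  have hV'triv : ActsTrivially V'.W P := fun w hw => hVtriv w (hV'V hw)
  have hXV' := sesAt_shortExact φ hφ V'.W hV'triv
  have hnat := infl_δ φ hφ hV'V hVtriv hV'triv
  have hδ : (δ hXV' 2 3 rfl).hom ((infl Q hV'V 2).hom ((H2π _).hom cV)) = 0 := by
    have h1 := congrArg (fun m => m.hom ((H2π _).hom cV)) hnat
    exact h1.symm.trans hkill
  have hex := mapShortComplex₃_exact hXV' (i := 2) (j := 3) rfl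
  obtain ⟨y, hy⟩ : ∃ y : groupCohomology (P.quotientToInvariants V'.W) 2,
      (groupCohomology.map (MonoidHom.id (Γ ⧸ V'.W)) (invF V'.W φ) 2).hom y =
        (infl Q hV'V 2).hom ((H2π _).hom cV) :=
    (ShortComplex.moduleCat_exact_iff _).1 hex _ hδ
  obtain ⟨cP, rfl⟩ := (ModuleCat.epi_iff_surjective (H2π (P.quotientToInvariants V'.W))).1
    inferInstance y
  have hle : V'.W ≤ V.W.comap (MonoidHom.id Γ) := by simpa using hV'V
  have e1 : (groupCohomology.map (MonoidHom.id (Γ ⧸ V'.W)) (invF V'.W φ) 2).hom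
      ((H2π (P.quotientToInvariants V'.W)).hom cP) =
      (H2π (Q.quotientToInvariants V'.W)).hom
        ((mapCocycles₂ (MonoidHom.id (Γ ⧸ V'.W)) (invF V'.W φ)).hom cP) :=
    congrArg (fun m => m.hom cP) (H2π_comp_map (MonoidHom.id (Γ ⧸ V'.W)) (invF V'.W φ))
  have e2 : (infl Q hV'V 2).hom ((H2π (Q.quotientToInvariants V.W)).hom cV) =
      (H2π (Q.quotientToInvariants V'.W)).hom
        ((mapCocycles₂ (QuotientGroup.map V'.W V.W (MonoidHom.id Γ) hle)
          (invMap (MonoidHom.id Γ) hle (𝟙 Q))).hom cV) :=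
    congrArg (fun m => m.hom cV) (H2π_comp_map (QuotientGroup.map V'.W V.W (MonoidHom.id Γ) hle)
      (invMap (MonoidHom.id Γ) hle (𝟙 Q)))
  rw [e1, e2] at hy
  obtain ⟨b, hb⟩ := (H2π_eq_iff _ _).1 hy
  have hmk : ∀ (g s : Γ), s ∈ V'.W → ((g * s : Γ) : Γ ⧸ V'.W) = (g : Γ ⧸ V'.W) :=
    fun g s hs => QuotientGroup.mk_mul_of_mem g hs
  refine ⟨fun x => ((cP.1 ((x.1 : Γ ⧸ V'.W), (x.2 : Γ ⧸ V'.W)) : _) : P.V), ?_,
    ⟨V'.W, V'.mem, ?_⟩, fun g => ((b (g : Γ ⧸ V'.W) : (Q.quotientToInvariants V'.W).V) : Q.V),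
    ⟨V'.W, V'.mem, ?_⟩, ?_⟩
  · rw [mem_cocycles₂_def]
    intro g h j
    have h0 := congrArg Subtype.val ((mem_cocycles₂_def cP.1).1 cP.2 (g : Γ ⧸ V'.W)
      (h : Γ ⧸ V'.W) (j : Γ ⧸ V'.W))
    exact h0
  · intro g g' s s' hs hs'
    show ((cP.1 (((g * s : Γ) : Γ ⧸ V'.W), ((g' * s' : Γ) : Γ ⧸ V'.W)) : _) : P.V) =
      ((cP.1 ((g : Γ ⧸ V'.W), (g' : Γ ⧸ V'.W)) : _) : P.V)
    rw [hmk g s hs, hmk g' s' hs']
  · intro g s hs
    show ((b ((g * s : Γ) : Γ ⧸ V'.W) : (Q.quotientToInvariants V'.W).V) : Q.V) =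
      ((b (g : Γ ⧸ V'.W) : (Q.quotientToInvariants V'.W).V) : Q.V)
    rw [hmk g s hs]
  · intro g h
    have h1 := congrArg Subtype.val (congrFun hb ((g : Γ ⧸ V'.W), (h : Γ ⧸ V'.W)))
    have h2 := descend₂_mk Q V.W hVQ c hlcV g h
    have h3 : Q.ρ g ((b (h : Γ ⧸ V'.W) : (Q.quotientToInvariants V'.W).V) : Q.V)
        - ((b ((g * h : Γ) : Γ ⧸ V'.W) : (Q.quotientToInvariants V'.W).V) : Q.V)
        + ((b (g : Γ ⧸ V'.W) : (Q.quotientToInvariants V'.W).V) : Q.V)
        = φ.hom ((cP.1 ((g : Γ ⧸ V'.W), (h : Γ ⧸ V'.W)) : _) : P.V)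
          - ((descend₂ Q V.W hVQ c ((g : Γ ⧸ V.W), (h : Γ ⧸ V.W)) : _) : Q.V) := h1
    rw [h2] at h3
    show φ.hom ((cP.1 ((g : Γ ⧸ V'.W), (h : Γ ⧸ V'.W)) : _) : P.V) = c (g, h) +
      (Q.ρ g ((b (h : Γ ⧸ V'.W) : (Q.quotientToInvariants V'.W).V) : Q.V)
        - ((b ((g * h : Γ) : Γ ⧸ V'.W) : (Q.quotientToInvariants V'.W).V) : Q.V)
        + ((b (g : Γ ⧸ V'.W) : (Q.quotientToInvariants V'.W).V) : Q.V))
    rw [h3]
    abel

end Fermat.Agent.S55.KL.H898

end
-- ===== PACK-END S55/KL/SurjH2H898.lean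

-- ===== PACK-BEGIN S55/L/Inst63.lean
section



set_option autoImplicit false

namespace Fermat.Agent.S55.L

open scoped NormedField NNReal Valued

section UnitBall

variable (K : Type) [NontriviallyNormedField K] [IsUltrametricDist K]

/-- The closed unit ball of an ultrametric normed field, as a valuation subring. -/
noncomputable def unitBall63 : ValuationSubring K :=
  (NormedField.valuation (K := K)).valuationSubring

lemma mem_unitBall63 (x : K) : x ∈ unitBall63 K ↔ ‖x‖ ≤ 1 := by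
  change NormedField.valuation x ≤ 1 ↔ _
  rw [NormedField.valuation_apply, ← NNReal.coe_le_coe]
  simp

/-- The rank one structure of the valuation of a nontrivially normed ultrametric field. -/
@[instance_reducible]
noncomputable def rankOne63 : Valuation.RankOne (Valued.v : Valuation K ℝ≥0) :=
  inferInstanceAs (Valuation.RankOne (NormedField.valuation (K := K)))

variable [ProperSpace K]

lemma compactSpace_integer63 : CompactSpace (Valued.integer K) := by
  have : ((Valued.integer K : Subring K) : Set K) = Metric.closedBall 0 1 := by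
    ext x
    simp [Valued.integer.mem_iff]
  apply isCompact_iff_compactSpace.mp
  rw [this]
  exact isCompact_closedBall 0 1

lemma dvr_integer63 : IsDiscreteValuationRing (Valued.integer K) :=
  letI := rankOne63 K
  haveI := compactSpace_integer63 K
  Valued.integer.isDiscreteValuationRing_of_compactSpace

lemma finite_residue63 : Finite (IsLocalRing.ResidueField (Valued.integer K)) :=
  letI := rankOne63 K
  (Valued.integer.compactSpace_iff_completeSpace_and_isDiscreteValuationRing_and_finite_residueField.mp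
    (compactSpace_integer63 K)).2.2

open scoped Pointwise in
lemma isAdicComplete63 :
    IsAdicComplete (IsLocalRing.maximalIdeal (Valued.integer K)) (Valued.integer K) := by
  have := compactSpace_integer63 K
  have := dvr_integer63 K
  refine { prec' := fun f hf => ?_ }
  let S n : Set (Valued.integer K) :=
    f n +ᵥ ((IsLocalRing.maximalIdeal (Valued.integer K) ^ n : Ideal (Valued.integer K)) :
      Set (Valued.integer K))
  have hS n : S (n + 1) ⊆ S n := by
    apply (Set.vadd_set_subset_vadd_set_iff.mpr (Ideal.pow_le_pow_right n.le_succ)).trans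
    simpa [S] using (hf n.le_succ).symm
  have h n : IsClosed (S n) :=
    (IsNoetherianRing.isClosed_ideal (IsLocalRing.maximalIdeal (Valued.integer K) ^ n)).vadd (f n)
  obtain ⟨L, hL⟩ := (h 0).isCompact.nonempty_iInter_of_sequence_nonempty_isCompact_isClosed S hS
    (by simp [S]) h
  refine ⟨L, fun n ↦ ?_⟩
  obtain ⟨y, hy, rfl⟩ := Set.mem_iInter.mp hL n
  simpa [SModEq.sub_mem] using hy

/-- **Core lemma.** The unit ball of a locally compact (proper) nontrivially normed ultrametric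
field is a complete discrete valuation ring with finite residue field. -/
theorem isLocalRingOfIntegers_unitBall63 : IsLocalRingOfIntegers (unitBall63 K) :=
  ⟨dvr_integer63 K, isAdicComplete63 K, finite_residue63 K⟩

/-- A locally compact nontrivially normed ultrametric field of characteristic zero is a local
field in the sense of layer L. -/
theorem isLocalFld_of_properSpace63 [CharZero K] : IsLocalFld K :=
  ⟨inferInstance, unitBall63 K, isLocalRingOfIntegers_unitBall63 K⟩

end UnitBall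

/-- **L-INST1** `ℚ_q` is a local field. -/
theorem padicInst63 : PadicInstSpec := fun q _ => isLocalFld_of_properSpace63 ℚ_[q]

section Ext

variable (q : ℕ) [Fact q.Prime] (E : IntermediateField ℚ_[q] (PadicAlgCl q))

lemma norm_natCast_prime63 : ‖((q : ℚ_[q]) : PadicAlgCl q)‖ = (q : ℝ)⁻¹ := by
  rw [← Padic.norm_p (p := q)]
  exact norm_algebraMap' (PadicAlgCl q) (q : ℚ_[q])

/-- The nontrivially normed field structure on a subfield of `PadicAlgCl q`. -/
@[instance_reducible]
noncomputable def nontriviallyNormedField63 : NontriviallyNormedField ↥E :=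
  { (inferInstance : NormedField ↥E) with
    non_trivial := by
      refine ⟨(algebraMap ℚ_[q] E (q : ℚ_[q]))⁻¹, ?_⟩
      have h : ‖(algebraMap ℚ_[q] E (q : ℚ_[q]))‖ = (q : ℝ)⁻¹ := norm_natCast_prime63 q
      rw [norm_inv, h, inv_inv]
      exact_mod_cast (Fact.out : q.Prime).one_lt }

lemma properSpace63 [FiniteDimensional ℚ_[q] E] : ProperSpace ↥E :=
  FiniteDimensional.proper ℚ_[q] ↥E

theorem isLocalFld_intermediateField63 [FiniteDimensional ℚ_[q] E] : IsLocalFld ↥E :=
  letI := nontriviallyNormedField63 q E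
  haveI := properSpace63 q E
  isLocalFld_of_properSpace63 ↥E

/-- The unit ball of a finite extension of `ℚ_q` inside `PadicAlgCl q` is a ring of integers. -/
theorem exists_ringOfIntegers_eq_unitBall63 [FiniteDimensional ℚ_[q] E] :
    ∃ A : ValuationSubring E, IsLocalRingOfIntegers A ∧
      ∀ x : E, x ∈ A ↔ ‖(x : PadicAlgCl q)‖ ≤ 1 :=
  letI := nontriviallyNormedField63 q E
  haveI := properSpace63 q E
  ⟨unitBall63 ↥E, isLocalRingOfIntegers_unitBall63 ↥E, fun x => mem_unitBall63 ↥E x⟩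

/-- **L-INST2** from uniqueness of the ring of integers (**L-A0**). -/
theorem padicExtInst_of63 (hA0 : RingOfIntegersUniqueSpec) : PadicExtInstSpec := by
  intro q _ E hE
  have := hE
  have := isLocalFld_intermediateField63 q E
  refine ⟨inferInstance, fun A hA x => ?_⟩
  obtain ⟨B, hB, hBx⟩ := exists_ringOfIntegers_eq_unitBall63 q E
  rw [hA0 E A B hA hB]
  exact hBx x

end Ext

end Fermat.Agent.S55.L

end
-- ===== PACK-END S55/L/Inst63.lean

-- ===== PACK-BEGIN S55/Local/H478/FiltH2.lean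
section



/-!
# S55, layer L, piece A2 (helper478): successive approximation for 2-cocycles

`theorem filtH2 : Fermat.Agent.S55.Local.FiltH2Statement`.
-/

set_option autoImplicit false

namespace Fermat.Agent.S55.Local.H478

open Finset groupCohomology

section H2

variable {G M : Type} [Group G] [CommGroup M] [MulDistribMulAction G M]

/-- The multiplicative coboundary map `x ↦ ((g, h) ↦ g • x h / x (g * h) * x g)`. -/
def dOne (G M : Type) [Group G] [CommGroup M] [MulDistribMulAction G M] :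
    (G → M) →* (G × G → M) where
  toFun x := fun p => p.1 • x p.2 / x (p.1 * p.2) * x p.1
  map_one' := by funext p; simp
  map_mul' a b := by
    funext p
    simp only [Pi.mul_apply, smul_mul']
    rw [mul_div_mul_comm, mul_mul_mul_comm]

@[simp] lemma dOne_apply (x : G → M) (p : G × G) :
    dOne G M x p = p.1 • x p.2 / x (p.1 * p.2) * x p.1 := rfl

/-- The subgroup of multiplicative 2-cocycles. -/
def mulCocycles₂ (G M : Type) [Group G] [CommGroup M] [MulDistribMulAction G M] :
    Subgroup (G × G → M) where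
  carrier := {c | IsMulCocycle₂ c}
  one_mem' := by intro g h j; simp
  mul_mem' := by
    intro a b ha hb g h j
    simp only [Pi.mul_apply, smul_mul']
    rw [mul_mul_mul_comm, ha g h j, hb g h j, mul_mul_mul_comm]
  inv_mem' := by
    intro a ha g h j
    simp only [Pi.inv_apply, smul_inv']
    rw [← mul_inv, ← mul_inv, ha g h j]

@[simp] lemma mem_mulCocycles₂ {c : G × G → M} :
    c ∈ mulCocycles₂ G M ↔ IsMulCocycle₂ c := Iff.rfl

/-- The commutative-group identity behind `d ∘ d = 1` in degree 2. -/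
lemma dOne_aux (A B C D E F : M) :
    (A / B * C) * (D / C * E) = (A / F * D) * (F / B * E) := by
  have h : ∀ a b c d e f : Additive M, (a - b + c) + (d - c + e) = (a - f + d) + (f - b + e) := by
    intro a b c d e f; abel
  exact h (Additive.ofMul A) (Additive.ofMul B) (Additive.ofMul C) (Additive.ofMul D)
    (Additive.ofMul E) (Additive.ofMul F)

lemma dOne_mem_mulCocycles₂ (x : G → M) : dOne G M x ∈ mulCocycles₂ G M := by
  intro g h j
  simp only [dOne_apply, smul_mul', smul_div', mul_smul]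
  rw [mul_assoc g h j]
  exact dOne_aux _ _ _ _ _ _

end H2

/-- **A2.** Successive approximation for 2-cocycles. -/
theorem filtH2 : Fermat.Agent.S55.Local.FiltH2Statement := by
  intro G M _ _ _ _ Fil _hanti hstab hcomplete hsep hgraded c hc hc0
  have key := approx_exists (dOne G M) (fun j => piFil G (Fil j))
    (fun j => piFil (G × G) (Fil j)) (mulCocycles₂ G M)
    (fun j x hx p => by
      simp only [dOne_apply]
      exact (Fil j).mul_mem ((Fil j).div_mem (hstab j p.1 _ (hx p.2)) (hx _)) (hx _))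
    (fun x => dOne_mem_mulCocycles₂ x)
    (piFil_complete G Fil hcomplete)
    (piFil_separated (G × G) Fil hsep)
    (fun j c' hc'Z hc'j => by
      obtain ⟨x, hx, h⟩ := hgraded j c' hc'Z hc'j
      exact ⟨x, hx, fun p => by simpa using h p.1 p.2⟩)
    c hc hc0
  obtain ⟨x, hx, h⟩ := key
  exact ⟨x, hx, fun g h' => by rw [← h]; rfl⟩

end Fermat.Agent.S55.Local.H478

end
-- ===== PACK-END S55/Local/H478/FiltH2.lean

-- ===== PACK-BEGIN S55/Local/H535/A4ad.lean
section


/-!
# S55 layer L, pieces A4a (`CycCocycleIsCocycleStatement`) and A4d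
(`CycCocyclePullbackStatement`) — helper535
-/

set_option autoImplicit false

namespace Fermat.Agent.S55.Local.H535

open Fermat.Agent.S55.Local groupCohomology

lemma cycCocycle_apply {G M : Type} [Group G] [CommGroup M] (σ : G) (x : M) (g h : G) :
    cycCocycle σ x (g, h) = x ^ ((cycIdx σ g + cycIdx σ h) / Nat.card G) := rfl

/-- **A4a.** The standard cyclic `2`-cocycle is a `2`-cocycle. -/
theorem cycCocycleIsCocycle : Fermat.Agent.S55.Local.CycCocycleIsCocycleStatement := by
  intro G M _ _ _ _ σ hσ x hx g h j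
  have hn : 0 < Nat.card G := Nat.card_pos
  have hinv : ∀ (g : G) (m : ℕ), g • x ^ m = x ^ m := fun g m => by
    rw [smul_pow', smul_eq_of_generator hσ hx]
  simp only [cycCocycle_apply, hinv, ← pow_add, cycIdx_mul hσ]
  congr 1
  have e1 := carry_add (Nat.card G) (cycIdx σ g + cycIdx σ h) (cycIdx σ j) hn
  have e2 := carry_add (Nat.card G) (cycIdx σ h + cycIdx σ j) (cycIdx σ g) hn
  rw [e1, add_comm ((cycIdx σ h + cycIdx σ j) / Nat.card G),
    add_comm (cycIdx σ g) ((cycIdx σ h + cycIdx σ j) % Nat.card G), e2]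
  congr 1
  ring

/-- **A4d.** Functoriality of the standard cocycle under an injective homomorphism of cyclic
groups. -/
theorem cycCocyclePullback : Fermat.Agent.S55.Local.CycCocyclePullbackStatement := by
  intro G H M _ _ _ _ _ σ τ ρ hσ hτ hρ hρτ x p
  obtain ⟨a, b⟩ := p
  have hn : 0 < Nat.card G := Nat.card_pos
  have hm : 0 < Nat.card H := Nat.card_pos
  -- `|H|` divides `|G|`
  have hdvd : Nat.card H ∣ Nat.card G := by
    have h1 := Subgroup.card_subgroup_dvd_card ρ.range
    have h2 : Nat.card ρ.range = Nat.card H :=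
      (Nat.card_congr (MonoidHom.ofInjective hρ).toEquiv).symm
    rwa [h2] at h1
  obtain ⟨d, hd⟩ := hdvd
  have hd' : Nat.card G / Nat.card H = d := by
    rw [hd, Nat.mul_div_cancel_left _ hm]
  have hdpos : 0 < d := by
    rcases Nat.eq_zero_or_pos d with h | h
    · rw [h, mul_zero] at hd; omega
    · exact h
  have key : ∀ c : H, cycIdx σ (ρ c) = d * cycIdx τ c := by
    intro c
    have h1 : ρ c = σ ^ (d * cycIdx τ c) := by
      conv_lhs => rw [← pow_cycIdx hτ c]
      rw [map_pow, hρτ, hd', ← pow_mul]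
    rw [h1]
    apply cycIdx_pow_of_lt hσ
    rw [hd, mul_comm (Nat.card H) d]
    exact Nat.mul_lt_mul_of_pos_left (cycIdx_lt hτ c) hdpos
  simp only [cycCocycle_apply, key]
  congr 1
  rw [hd, ← mul_add, mul_comm (Nat.card H) d, Nat.mul_div_mul_left _ _ hdpos]

end Fermat.Agent.S55.Local.H535

end
-- ===== PACK-END S55/Local/H535/A4ad.lean

-- ===== PACK-BEGIN S55/Local/H585/LF5.lean
section



/-!
# S55, layer L, piece LF5 (helper585): completeness and separatedness of the unit group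
-/

set_option autoImplicit false
set_option linter.unusedSectionVars false

namespace Fermat.Agent.S55.Local.H585

open IsLocalRing

section

variable (A F : Type) [CommRing A] [IsDomain A] [IsDiscreteValuationRing A]
    [IsAdicComplete (IsLocalRing.maximalIdeal A) A]
    [Field F] [CharZero F] [Algebra A F] [IsFractionRing A F]
    (L : Type) [Field L] [Algebra F L] [FiniteDimensional F L]
    [Algebra A L] [IsScalarTower A F L]

include F in
/-- A non-unit of the ring of integers: an integral element whose inverse is not integral. -/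
theorem not_isUnit_of_not_isInt_inv (ϖ : integralClosure A L)
    (hinv : ¬ IsInt A F L ((ϖ : L))⁻¹) : ¬ IsUnit ϖ := by
  rintro ⟨b, hb⟩
  apply hinv
  have h := unitsIncB_mem (F := F) b
  have h2 := h.2
  rw [show (((unitsIncB A L b)⁻¹ : Lˣ) : L) = ((unitsIncB A L b : Lˣ) : L)⁻¹ by simp,
    unitsIncB_coe, hb] at h2
  exact h2

include F in
/-- Separatedness. -/
theorem eq_one_of_forall_mem_higherUnits (ϖ : L) (hϖ : IsInt A F L ϖ)
    (hinv : ¬ IsInt A F L ϖ⁻¹) (x : Lˣ) (hx : ∀ j, x ∈ higherUnits A F L ϖ j) : x = 1 := by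
  set ϖB : integralClosure A L := ⟨ϖ, isInt_iff_mem.mp hϖ⟩ with hϖB
  have hDed := isDedekindDomain_int A F L
  have hnu : ¬ IsUnit ϖB := not_isUnit_of_not_isInt_inv A F L ϖB hinv
  have htop : Ideal.span {ϖB} ≠ ⊤ := by
    rwa [Ne, Ideal.span_singleton_eq_top]
  have hbot := Ideal.iInf_pow_eq_bot_of_isDomain (Ideal.span {ϖB}) htop
  obtain ⟨b, hb, -⟩ := (mem_higherUnits_iff (F := F) ϖB 0).mp (hx 0)
  have hmem : ((b : integralClosure A L) - 1) ∈ (⨅ i : ℕ, Ideal.span {ϖB} ^ i) := by
    rw [Ideal.mem_iInf]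
    intro j
    obtain ⟨c, hc, hcj⟩ := (mem_higherUnits_iff (F := F) ϖB j).mp (hx j)
    have hbc : b = c := unitsIncB_injective (hb.trans hc.symm)
    rw [hbc, Ideal.span_singleton_pow]
    exact hcj
  rw [hbot, Ideal.mem_bot, sub_eq_zero] at hmem
  rw [← hb]
  apply Units.ext
  rw [unitsIncB_coe, hmem]
  simp

include F in
/-- Completeness. -/
theorem exists_limit_higherUnits (ϖ : L) (hϖ : IsInt A F L ϖ) (h0 : ϖ ≠ 0)
    (hinv : ¬ IsInt A F L ϖ⁻¹) (u : ℕ → Lˣ) (hu : ∀ j, u j ∈ higherUnits A F L ϖ j) :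
    ∃ s : Lˣ, ∀ n, s / ∏ j ∈ Finset.range n, u j ∈ higherUnits A F L ϖ n := by
  set ϖB : integralClosure A L := ⟨ϖ, isInt_iff_mem.mp hϖ⟩ with hϖB
  have hϖB0 : ϖB ≠ 0 := fun h => h0 (congrArg Subtype.val h)
  have hloc := isLocalRing_int A F L
  have hDVR := isDVR_int A F L
  have hcompl := isAdicComplete_int A F L
  have hnu : ¬ IsUnit ϖB := not_isUnit_of_not_isInt_inv A F L ϖB hinv
  have hϖm : ϖB ∈ maximalIdeal (integralClosure A L) := (IsLocalRing.mem_maximalIdeal _).mpr hnu
  -- units of `B` lifting the `u j`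
  choose v hv hvmem using fun j => (mem_higherUnits_iff (F := F) ϖB j).mp (hu j)
  -- partial products
  let p : ℕ → (integralClosure A L)ˣ := fun n => ∏ j ∈ Finset.range n, v j
  have hp : ∀ n, unitsIncB A L (p n) = ∏ j ∈ Finset.range n, u j := by
    intro n
    simp only [p, map_prod, hv]
  have hstep : ∀ n, ((p (n + 1) : integralClosure A L) - p n) ∈ Ideal.span {ϖB ^ n} := by
    intro n
    have : ((p (n + 1) : integralClosure A L) - p n) = (p n : integralClosure A L) * ((v n : integralClosure A L) - 1) := by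
      simp only [p, Finset.prod_range_succ, Units.val_mul]
      ring
    rw [this]
    exact Ideal.mul_mem_left _ _ (hvmem n)
  have hmono : ∀ {m n : ℕ}, m ≤ n → Ideal.span {ϖB ^ n} ≤ Ideal.span {ϖB ^ m} := by
    intro m n hmn
    rw [Ideal.span_singleton_le_span_singleton]
    exact pow_dvd_pow _ hmn
  have htel : ∀ n k, ((p (n + k) : integralClosure A L) - p n) ∈ Ideal.span {ϖB ^ n} := by
    intro n k
    induction k with
    | zero => simp
    | succ k ih =>
      have h1 := hmono (Nat.le_add_right n k) (hstep (n + k))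
      have : ((p (n + (k + 1)) : integralClosure A L) - p n) =
          ((p (n + k + 1) : integralClosure A L) - p (n + k)) + ((p (n + k) : integralClosure A L) - p n) := by
        rw [← add_assoc]; ring
      rw [this]
      exact Ideal.add_mem _ h1 ih
  have hle : ∀ n, Ideal.span {ϖB ^ n} ≤ maximalIdeal (integralClosure A L) ^ n := by
    intro n
    rw [Ideal.span_singleton_le_iff_mem]
    exact Ideal.pow_mem_pow hϖm n
  -- the limit
  obtain ⟨s, hs⟩ := IsPrecomplete.prec hcompl.toIsPrecomplete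
    (f := fun n => (p n : integralClosure A L)) (by
      intro m n hmn
      obtain ⟨k, rfl⟩ := Nat.exists_eq_add_of_le hmn
      rw [SModEq.sub_mem, smul_eq_mul, Ideal.mul_top]
      have := hle m (htel m k)
      rw [← neg_sub]
      exact neg_mem this)
  have hs' : ∀ n, (s - p n) ∈ maximalIdeal (integralClosure A L) ^ n := by
    intro n
    have := hs n
    rw [SModEq.sub_mem, smul_eq_mul, Ideal.mul_top] at this
    rw [← neg_sub]
    exact neg_mem this
  -- `s` is a unit
  have hsu : IsUnit s := by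
    by_contra hns
    have hsm : s ∈ maximalIdeal (integralClosure A L) := (IsLocalRing.mem_maximalIdeal _).mpr hns
    have h1 := hs' 1
    rw [pow_one] at h1
    have : ((p 1 : (integralClosure A L)ˣ) : integralClosure A L) ∈ maximalIdeal (integralClosure A L) := by
      have h2 := Ideal.sub_mem _ hsm h1
      rwa [sub_sub_cancel] at h2
    exact (IsLocalRing.mem_maximalIdeal _).mp this (p 1).isUnit
  -- `(ϖ) = m ^ a`
  obtain ⟨a, ha⟩ := exists_eq_maximalIdeal_pow A F L (Ideal.span {ϖB}) (by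
    rwa [Ne, Ideal.span_singleton_eq_bot])
  have hcong : ∀ n, (s - p n) ∈ Ideal.span {ϖB ^ n} := by
    intro n
    have h1 : (s - p (n + a * n)) ∈ Ideal.span {ϖB ^ n} := by
      rw [← Ideal.span_singleton_pow, ha, ← pow_mul]
      exact Ideal.pow_le_pow_right (Nat.le_add_left _ _) (hs' (n + a * n))
    have h2 := htel n (a * n)
    have : s - p n = (s - p (n + a * n)) + ((p (n + a * n) : integralClosure A L) - p n) := by ring
    rw [this]
    exact Ideal.add_mem _ h1 h2
  refine ⟨unitsIncB A L hsu.unit, fun n => ?_⟩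
  rw [← hp n, ← map_div]
  rw [mem_higherUnits_iff (F := F) ϖB n]
  refine ⟨hsu.unit / p n, rfl, ?_⟩
  have : (((hsu.unit / p n : (integralClosure A L)ˣ) : integralClosure A L) - 1) =
      (s - p n) * ((p n)⁻¹ : (integralClosure A L)ˣ) := by
    rw [div_eq_mul_inv, Units.val_mul, IsUnit.unit_spec, sub_mul, Units.mul_inv]
  rw [this]
  exact Ideal.mul_mem_right _ _ (hcong n)

end

/-- (LF5) completeness and separatedness of the unit group. -/
theorem unitsComplete : UnitsCompleteStatement := by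
  intro A F _ _ _ _ _ _ _ _ _ L _ _ _ ϖ hϖ h0 hinv
  let _ : Algebra A L := (toL A F L).toAlgebra
  have : IsScalarTower A F L := IsScalarTower.of_algebraMap_eq (fun _ => rfl)
  exact ⟨fun u hu => exists_limit_higherUnits A F L ϖ hϖ h0 hinv u hu,
    fun x hx => eq_one_of_forall_mem_higherUnits A F L ϖ hϖ hinv x hx⟩

end Fermat.Agent.S55.Local.H585

end
-- ===== PACK-END S55/Local/H585/LF5.lean

-- ===== PACK-BEGIN S55/Local/H585/LF6.lean
section



/-!
# S55, layer L, piece LF6 (helper585): higher unit groups have finite index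
-/

set_option autoImplicit false
set_option linter.unusedSectionVars false

namespace Fermat.Agent.S55.Local.H585

open IsLocalRing

section

variable (A F : Type) [CommRing A] [IsDomain A] [IsDiscreteValuationRing A]
    [IsAdicComplete (IsLocalRing.maximalIdeal A) A] [Finite (IsLocalRing.ResidueField A)]
    [Field F] [CharZero F] [Algebra A F] [IsFractionRing A F]
    (L : Type) [Field L] [Algebra F L] [FiniteDimensional F L]
    [Algebra A L] [IsScalarTower A F L]

theorem relIndex_higherUnits_ne_zero (ϖ : L) (hϖ : IsInt A F L ϖ) (h0 : ϖ ≠ 0) (j : ℕ) :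
    (higherUnits A F L ϖ j).relIndex (intUnits A F L) ≠ 0 := by
  set ϖB : integralClosure A L := ⟨ϖ, isInt_iff_mem.mp hϖ⟩ with hϖB
  have hϖB0 : ϖB ≠ 0 := fun h => h0 (congrArg Subtype.val h)
  have hfin : Finite (integralClosure A L ⧸ Ideal.span {ϖB ^ j}) := by
    apply finite_quotient_int A F L
    rw [Ne, Ideal.span_singleton_eq_bot]
    exact pow_ne_zero _ hϖB0
  have h1 : higherUnits A F L ϖ j = _ := higherUnits_eq_map (F := F) ϖB j
  rw [h1, intUnits_eq_map_top, Subgroup.relIndex_map_map_of_injective _ _ unitsIncB_injective,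
    Subgroup.relIndex_top_right, Subgroup.index_ker]
  exact Nat.card_pos.ne'

end

/-- (LF6) higher unit groups have finite index in the unit group. -/
theorem higherUnitsFiniteIndex : HigherUnitsFiniteIndexStatement := by
  intro A F _ _ _ _ _ _ _ _ _ L _ _ _ ϖ hϖ h0 j
  let _ : Algebra A L := (toL A F L).toAlgebra
  have : IsScalarTower A F L := IsScalarTower.of_algebraMap_eq (fun _ => rfl)
  exact relIndex_higherUnits_ne_zero A F L ϖ hϖ h0 j

end Fermat.Agent.S55.Local.H585

end
-- ===== PACK-END S55/Local/H585/LF6.lean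

-- ===== PACK-BEGIN S55/H954/SylowCard.lean
section



/-!
# Sylow dévissage for `H¹` and `H²` (cardinality form)

`G` finite, `A : Rep k G`.

* `H1_eq_zero_of_sylow`: if for every prime `p` some Sylow `p`-subgroup `P` has `H¹(P, A) = 0`,
  then `H¹(G, A) = 0`.
* `card_H2_dvd_card_of_sylow`: if for every prime `p ∣ |G|` some Sylow `p`-subgroup `P` has
  `H²(P, A)` finite of order dividing `|P|`, then `H²(G, A)` is finite of order dividing `|G|`.
-/

set_option autoImplicit false
set_option linter.unusedSectionVars false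
set_option linter.style.haveILetI false

namespace Fermat.Agent.S55.H954

open CategoryTheory groupCohomology Rep Fermat.Agent.S55.H119

universe u

variable {k G : Type u} [CommRing k] [Group G] (A : Rep k G)

/-- `H²` of a group of order one vanishes. -/
theorem H2_eq_zero_of_card_eq_one [Finite G] (h : Nat.card G = 1) (x : H2 A) : x = 0 := by
  have := card_nsmul_eq_zero_two A x
  rwa [h, one_smul] at this

/-- `H¹` of a group of order one vanishes. -/
theorem H1_eq_zero_of_card_eq_one [Finite G] (h : Nat.card G = 1) (x : H1 A) : x = 0 := by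
  have := card_nsmul_eq_zero_one A x
  rwa [h, one_smul] at this

/-- Sylow dévissage for `H¹`. -/
theorem H1_eq_zero_of_sylow [Finite G]
    (h : ∀ p : ℕ, p.Prime → ∃ P : Sylow p G,
      ∀ y : H1 (res (P : Subgroup G).subtype A), y = 0) (x : H1 A) : x = 0 :=
  eq_zero_of_forall_sylow_resMap_eq_zero_one A x fun p hp => by
    obtain ⟨P, hP⟩ := h p hp
    exact ⟨P, hP _⟩

/-- Sylow dévissage for `H²`, cardinality form. -/
theorem card_H2_dvd_card_of_sylow [Finite G]
    (h : ∀ p : ℕ, p.Prime → p ∣ Nat.card G → ∃ P : Sylow p G,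
      Finite (H2 (res (P : Subgroup G).subtype A)) ∧
      Nat.card (H2 (res (P : Subgroup G).subtype A)) ∣ Nat.card (P : Subgroup G)) :
    Finite (H2 A) ∧ Nat.card (H2 A) ∣ Nat.card G := by
  classical
  set F := (Nat.card G).primeFactors with hFdef
  have hF : ∀ p : F, ∃ P : Sylow p.1 G,
      Finite (H2 (res (P : Subgroup G).subtype A)) ∧
      Nat.card (H2 (res (P : Subgroup G).subtype A)) ∣ Nat.card (P : Subgroup G) := fun p =>
    h p.1 (Nat.prime_of_mem_primeFactors p.2) (Nat.dvd_of_mem_primeFactors p.2)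
  choose P hPfin hPcard using hF
  haveI : ∀ p : F, Finite (H2 (res (P p : Subgroup G).subtype A)) := hPfin
  let ρ : H2 A →+ ∀ p : F, H2 (res (P p : Subgroup G).subtype A) :=
    { toFun := fun x p => resMap A (P p : Subgroup G) 2 x
      map_zero' := by funext p; exact map_zero _
      map_add' := fun x y => by funext p; exact map_add _ x y }
  have hinj : Function.Injective ρ := by
    rw [injective_iff_map_eq_zero]
    intro x hx
    refine eq_zero_of_forall_sylow_resMap_eq_zero_two A x fun p hp => ?_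
    by_cases hpF : p ∈ F
    · exact ⟨P ⟨p, hpF⟩, congr_fun hx ⟨p, hpF⟩⟩
    · haveI : Fact p.Prime := ⟨hp⟩
      obtain ⟨Q⟩ : Nonempty (Sylow p G) := inferInstance
      refine ⟨Q, ?_⟩
      have hcard : Nat.card (Q : Subgroup G) = 1 := by
        rw [Sylow.card_eq_multiplicity]
        have : (Nat.card G).factorization p = 0 := by
          rw [← Finsupp.notMem_support_iff, Nat.support_factorization]
          exact hpF
        rw [this, pow_zero]
      exact H2_eq_zero_of_card_eq_one (res (Q : Subgroup G).subtype A) hcard _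
  haveI : Finite (H2 A) := Finite.of_injective ρ hinj
  refine ⟨inferInstance, ?_⟩
  have h1 : Nat.card (H2 A) = Nat.card ρ.range :=
    Nat.card_congr (AddMonoidHom.ofInjective hinj).toEquiv
  have h2 : Nat.card ρ.range ∣ Nat.card (∀ p : F, H2 (res (P p : Subgroup G).subtype A)) :=
    AddSubgroup.card_addSubgroup_dvd_card ρ.range
  have h3 : Nat.card (∀ p : F, H2 (res (P p : Subgroup G).subtype A)) =
      ∏ p : F, Nat.card (H2 (res (P p : Subgroup G).subtype A)) := Nat.card_pi
  have h4 : (∏ p : F, Nat.card (H2 (res (P p : Subgroup G).subtype A))) ∣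
      ∏ p : F, Nat.card (P p : Subgroup G) :=
    Finset.prod_dvd_prod_of_dvd _ _ (fun p _ => hPcard p)
  have h5 : (∏ p : F, Nat.card (P p : Subgroup G)) = Nat.card G := by
    have hne : Nat.card G ≠ 0 := Nat.card_pos.ne'
    conv_rhs => rw [← Nat.prod_factorization_pow_eq_self hne]
    rw [Finsupp.prod, Nat.support_factorization, ← hFdef, ← Finset.prod_coe_sort F]
    refine Finset.prod_congr rfl (fun p _ => ?_)
    haveI : Fact p.1.Prime := ⟨Nat.prime_of_mem_primeFactors p.2⟩
    exact Sylow.card_eq_multiplicity (P p)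
  rw [h1]
  exact h2.trans (h3 ▸ h4.trans (dvd_of_eq h5))

end Fermat.Agent.S55.H954

end
-- ===== PACK-END S55/H954/SylowCard.lean

-- ===== PACK-BEGIN S55/H424/QuotCard.lean
section


/-!
# LPI (local power index), part 4: `|A ⧸ (n)| = q ^ v(n)` and the classical formulas

* `H424.card_quot_span_mul` : `|A ⧸ (a b)| = |A ⧸ (a)| * |A ⧸ (b)|` for `a` a non-zero-divisor.
* `H424.card_quot_span_pow` : `|A ⧸ (ϖ ^ k)| = |A ⧸ (ϖ)| ^ k`.
* `H424.index_range_pow_units_field_val` : for a complete discrete valuation ring `A` with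
  finite residue field `k`, fraction field `K`, and `(n : A) = u * ϖ ^ v`:
  `[Kˣ : (Kˣ)ⁿ] = n * (|μ_n(K)| * |k| ^ v)`.
* `H424.index_range_pow_units_field_of_isUnit` : if `n` is a unit of `A`:
  `[Kˣ : (Kˣ)ⁿ] = n * |μ_n(K)|`.
-/

set_option autoImplicit false
set_option linter.unusedSectionVars false

namespace Fermat.Agent.S55.H424

section General

variable {A : Type*} [CommRing A]

/-- `|A ⧸ (a b)| = |A ⧸ (a)| * |A ⧸ (b)|` for `a` a non-zero-divisor. -/
theorem card_quot_span_mul (a b : A) (ha : ∀ x : A, a * x = 0 → x = 0) :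
    Nat.card (A ⧸ Ideal.span {a * b})
      = Nat.card (A ⧸ Ideal.span {a}) * Nat.card (A ⧸ Ideal.span {b}) := by
  have hinj : Function.Injective (AddMonoidHom.mulLeft a) := by
    rw [injective_iff_map_eq_zero]
    intro x hx
    exact ha x hx
  have e1 : (Ideal.span {a * b}).toAddSubgroup
      = ((Ideal.span {b}).toAddSubgroup).map (AddMonoidHom.mulLeft a) := by
    ext x
    simp only [Submodule.mem_toAddSubgroup, Ideal.mem_span_singleton, AddSubgroup.mem_map,
      AddMonoidHom.coe_mulLeft]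
    constructor
    · rintro ⟨c, rfl⟩
      exact ⟨b * c, ⟨c, rfl⟩, by ring⟩
    · rintro ⟨y, ⟨c, rfl⟩, rfl⟩
      exact ⟨c, by ring⟩
  have e2 : (Ideal.span {a}).toAddSubgroup
      = (⊤ : AddSubgroup A).map (AddMonoidHom.mulLeft a) := by
    ext x
    simp only [Submodule.mem_toAddSubgroup, Ideal.mem_span_singleton, AddSubgroup.mem_map,
      AddSubgroup.mem_top, true_and, AddMonoidHom.coe_mulLeft]
    constructor
    · rintro ⟨c, rfl⟩
      exact ⟨c, rfl⟩
    · rintro ⟨c, rfl⟩
      exact ⟨c, rfl⟩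
  have e4 : (((Ideal.span {b}).toAddSubgroup).map (AddMonoidHom.mulLeft a)).relIndex
        ((⊤ : AddSubgroup A).map (AddMonoidHom.mulLeft a))
      * ((⊤ : AddSubgroup A).map (AddMonoidHom.mulLeft a)).index
      = (((Ideal.span {b}).toAddSubgroup).map (AddMonoidHom.mulLeft a)).index :=
    AddSubgroup.relIndex_mul_index (AddSubgroup.map_mono le_top)
  rw [AddSubgroup.relIndex_map_map_of_injective _ _ hinj, AddSubgroup.relIndex_top_right,
    ← e1, ← e2] at e4
  rw [← Submodule.cardQuot_apply, ← Submodule.cardQuot_apply, ← Submodule.cardQuot_apply]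
  unfold Submodule.cardQuot
  rw [← e4, mul_comm]

/-- `|A ⧸ (ϖ ^ k)| = |A ⧸ (ϖ)| ^ k` for a non-zero-divisor `ϖ`. -/
theorem card_quot_span_pow (ϖ : A) (hϖ : ∀ x : A, ϖ * x = 0 → x = 0) (k : ℕ) :
    Nat.card (A ⧸ Ideal.span {ϖ ^ k}) = Nat.card (A ⧸ Ideal.span {ϖ}) ^ k := by
  induction k with
  | zero =>
    rw [pow_zero, pow_zero, Ideal.span_singleton_one]
    have : Subsingleton (A ⧸ (⊤ : Ideal A)) := Ideal.Quotient.subsingleton_iff.2 rfl
    exact Nat.card_unique
  | succ k ih =>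
    rw [pow_succ', card_quot_span_mul ϖ (ϖ ^ k) hϖ, ih, pow_succ']

/-- `|A ⧸ (u)| = 1` for a unit `u`. -/
theorem card_quot_span_of_isUnit {a : A} (ha : IsUnit a) :
    Nat.card (A ⧸ Ideal.span {a}) = 1 := by
  rw [Ideal.span_singleton_eq_top.2 ha]
  have : Subsingleton (A ⧸ (⊤ : Ideal A)) := Ideal.Quotient.subsingleton_iff.2 rfl
  exact Nat.card_unique

end General

section DVR

open IsLocalRing

variable {A : Type*} [CommRing A] [IsDomain A] [IsDiscreteValuationRing A]

/-- `|A ⧸ (u ϖ ^ v)| = |k| ^ v` in a discrete valuation ring with residue field `k`. -/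
theorem card_quot_span_dvr {ϖ : A} (hϖ : Irreducible ϖ) {a : A} {v : ℕ} {u : Aˣ}
    (hu : a = u * ϖ ^ v) :
    Nat.card (A ⧸ Ideal.span {a}) = Nat.card (ResidueField A) ^ v := by
  have h1 : Ideal.span {a} = Ideal.span {ϖ ^ v} := by
    rw [hu, Ideal.span_singleton_eq_span_singleton]
    exact ⟨u⁻¹, by rw [mul_comm (u : A), mul_assoc, Units.mul_inv, mul_one]⟩
  have h2 : Nat.card (ResidueField A) = Nat.card (A ⧸ Ideal.span {ϖ}) := by
    rw [← hϖ.maximalIdeal_eq]
    rfl
  rw [h1, h2]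
  exact card_quot_span_pow ϖ (fun x hx => (mul_eq_zero.1 hx).resolve_left hϖ.ne_zero) v

variable {K : Type*} [Field K] [Algebra A K] [IsFractionRing A K]

/-- **Local power index, classical form.** For a complete discrete valuation ring `A` with
finite residue field `k`, fraction field `K` and `(n : A) = u * ϖ ^ v` (`ϖ` a uniformiser,
`u` a unit): `[Kˣ : (Kˣ)ⁿ] = n * (|μ_n(K)| * |k| ^ v)`. -/
theorem index_range_pow_units_field_val [IsAdicComplete (maximalIdeal A) A]
    [Finite (ResidueField A)] {ϖ : A} (hϖ : Irreducible ϖ) {n v : ℕ} {u : Aˣ}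
    (hu : (n : A) = u * ϖ ^ v) :
    (powMonoidHom n : Kˣ →* Kˣ).range.index
      = n * (Nat.card (rootsOfUnity n K) * Nat.card (ResidueField A) ^ v) := by
  have hn : (n : A) ≠ 0 := by
    rw [hu]
    exact mul_ne_zero u.ne_zero (pow_ne_zero v hϖ.ne_zero)
  rw [index_range_pow_units_field (K := K) hn, card_quot_span_dvr hϖ hu]

/-- **Local power index, prime-to-residue-characteristic case.** If `n` is a unit in `A`:
`[Kˣ : (Kˣ)ⁿ] = n * |μ_n(K)|`. -/
theorem index_range_pow_units_field_of_isUnit [IsAdicComplete (maximalIdeal A) A]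
    [Finite (ResidueField A)] {n : ℕ} (hn : IsUnit (n : A)) :
    (powMonoidHom n : Kˣ →* Kˣ).range.index = n * Nat.card (rootsOfUnity n K) := by
  rw [index_range_pow_units_field (K := K) hn.ne_zero, card_quot_span_of_isUnit hn, mul_one]

/-- The unit version: `[Aˣ : (Aˣ)ⁿ] = |μ_n(A)| * |k| ^ v`. -/
theorem index_range_pow_units_dvr_val [IsAdicComplete (maximalIdeal A) A]
    [Finite (ResidueField A)] {ϖ : A} (hϖ : Irreducible ϖ) {n v : ℕ} {u : Aˣ}
    (hu : (n : A) = u * ϖ ^ v) :
    (powMonoidHom n : Aˣ →* Aˣ).range.index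
      = Nat.card (rootsOfUnity n A) * Nat.card (ResidueField A) ^ v := by
  have hn : (n : A) ≠ 0 := by
    rw [hu]
    exact mul_ne_zero u.ne_zero (pow_ne_zero v hϖ.ne_zero)
  rw [index_range_pow_units_dvr hn, card_quot_span_dvr hϖ hu]

/-- In the complete DVR setting the `n`-th powers have finite index in `Kˣ`. -/
theorem index_range_pow_units_field_ne_zero [IsAdicComplete (maximalIdeal A) A]
    [Finite (ResidueField A)] {n : ℕ} (hn : (n : A) ≠ 0) :
    (powMonoidHom n : Kˣ →* Kˣ).range.index ≠ 0 := by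
  obtain ⟨ϖ, hϖ⟩ := IsDiscreteValuationRing.exists_irreducible A
  obtain ⟨v, u, hu⟩ := IsDiscreteValuationRing.eq_unit_mul_pow_irreducible hn hϖ
  have hn0 : n ≠ 0 := by rintro rfl; exact hn (by simp)
  rw [index_range_pow_units_field_val (K := K) hϖ hu]
  have h1 : Nat.card (rootsOfUnity n K) ≠ 0 := by
    have : NeZero n := ⟨hn0⟩
    exact Nat.card_pos.ne'
  have h2 : Nat.card (ResidueField A) ≠ 0 := Nat.card_pos.ne'
  exact mul_ne_zero hn0 (mul_ne_zero h1 (pow_ne_zero v h2))

end DVR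

end Fermat.Agent.S55.H424

end
-- ===== PACK-END S55/H424/QuotCard.lean

-- ===== PACK-BEGIN S56/H134/Cotangent.lean
section




/-!
# S56, tangent-space step (pure commutative algebra)

`R` a complete Noetherian local `𝒪`-algebra with the same residue field `k` as `𝒪`.
If the set of `𝒪`-algebra maps `R → k[ε]` injects into a set with at most `|k| ^ r` elements,
then `R` is a quotient of `𝒪⟦X₁,…,X_r⟧`.

Main results: `relCotangent_dual_injection`, `exists_surjective_of_finrank_relCotangent_le`,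
`exists_surjective_of_card_algHom_le`, `exists_surjective_of_injective_algHom`.
-/

set_option autoImplicit false
set_option linter.unusedSectionVars false

namespace Fermat.Agent.S56.H134

open IsLocalRing

noncomputable section

section Setup

variable (𝒪 : Type) [CommRing 𝒪] [IsLocalRing 𝒪]
variable (R : Type) [CommRing R] [IsLocalRing R] [Algebra 𝒪 R]

/-- The image of `𝔪_𝒪 R` in the cotangent space of `R`, as a subspace over the residue field. -/
def relSub : Submodule (ResidueField R) (CotangentSpace R) where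
  carrier := {c | ∃ z : maximalIdeal R,
    (z : R) ∈ Ideal.map (algebraMap 𝒪 R) (maximalIdeal 𝒪) ∧ (maximalIdeal R).toCotangent z = c}
  add_mem' := by
    rintro _ _ ⟨z, hz, rfl⟩ ⟨w, hw, rfl⟩
    exact ⟨z + w, Ideal.add_mem _ hz hw, map_add _ _ _⟩
  zero_mem' := ⟨0, Ideal.zero_mem _, map_zero _⟩
  smul_mem' := by
    rintro c _ ⟨z, hz, rfl⟩
    obtain ⟨r, rfl⟩ := residue_surjective c
    refine ⟨r • z, ?_, ?_⟩
    · simpa using Ideal.mul_mem_left _ r hz
    · rw [map_smul]
      exact (algebraMap_smul (ResidueField R) r ((maximalIdeal R).toCotangent z)).symm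

/-- The relative cotangent space `𝔪_R / (𝔪_𝒪 R + 𝔪_R²)`. -/
abbrev RelCotangent : Type := CotangentSpace R ⧸ relSub 𝒪 R

/-- The projection `𝔪_R → 𝔪_R / (𝔪_𝒪 R + 𝔪_R²)`. -/
def toRel (z : maximalIdeal R) : RelCotangent 𝒪 R :=
  Submodule.Quotient.mk ((maximalIdeal R).toCotangent z)

variable {𝒪 R}

theorem toRel_add (z w : maximalIdeal R) : toRel 𝒪 R (z + w) = toRel 𝒪 R z + toRel 𝒪 R w := by
  simp [toRel]

theorem toRel_zero : toRel 𝒪 R 0 = 0 := by simp [toRel]

theorem toRel_sub (z w : maximalIdeal R) : toRel 𝒪 R (z - w) = toRel 𝒪 R z - toRel 𝒪 R w := by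
  simp [toRel]

theorem toRel_smul (r : R) (z : maximalIdeal R) :
    toRel 𝒪 R (r • z) = residue R r • toRel 𝒪 R z := by
  unfold toRel
  rw [map_smul, ← algebraMap_smul (ResidueField R) r ((maximalIdeal R).toCotangent z)]
  rfl

theorem toRel_surjective : Function.Surjective (toRel 𝒪 R) := by
  intro v
  obtain ⟨c, rfl⟩ := Submodule.Quotient.mk_surjective _ v
  obtain ⟨z, rfl⟩ := (maximalIdeal R).toCotangent_surjective c
  exact ⟨z, rfl⟩

theorem toRel_eq_zero_iff (z : maximalIdeal R) :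
    toRel 𝒪 R z = 0 ↔
      (z : R) ∈ Ideal.map (algebraMap 𝒪 R) (maximalIdeal 𝒪) ⊔ maximalIdeal R ^ 2 := by
  unfold toRel
  rw [Submodule.Quotient.mk_eq_zero]
  constructor
  · rintro ⟨w, hw, hwz⟩
    rw [Ideal.toCotangent_eq] at hwz
    have : (z : R) = w - (w - z) := by ring
    rw [this]
    exact Ideal.sub_mem _ (Ideal.mem_sup_left hw) (Ideal.mem_sup_right hwz)
  · intro hz
    obtain ⟨a, ha, b, hb, hab⟩ := Submodule.mem_sup.mp hz
    have ham : a ∈ maximalIdeal R := by
      have : a = z - b := by rw [← hab]; ring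
      rw [this]
      exact Ideal.sub_mem _ z.2 (Ideal.pow_le_self two_ne_zero hb)
    refine ⟨⟨a, ham⟩, ha, ?_⟩
    rw [Ideal.toCotangent_eq]
    have : ((⟨a, ham⟩ : maximalIdeal R) : R) - z = -b := by
      rw [← hab]; simp
    rw [this]
    exact Ideal.neg_mem_iff _ |>.mpr hb

theorem toRel_of_mem_map (z : maximalIdeal R)
    (hz : (z : R) ∈ Ideal.map (algebraMap 𝒪 R) (maximalIdeal 𝒪)) : toRel 𝒪 R z = 0 :=
  (toRel_eq_zero_iff z).mpr (Ideal.mem_sup_left hz)

theorem toRel_of_mem_sq (z : maximalIdeal R) (hz : (z : R) ∈ maximalIdeal R ^ 2) :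
    toRel 𝒪 R z = 0 :=
  (toRel_eq_zero_iff z).mpr (Ideal.mem_sup_right hz)

end Setup

section Hom

variable {𝒪 : Type} [CommRing 𝒪] [IsLocalRing 𝒪]
variable {R : Type} [CommRing R] [IsLocalRing R] [Algebra 𝒪 R] [IsLocalHom (algebraMap 𝒪 R)]

theorem residueFieldMap_bijective
    (hres : Function.Surjective (IsLocalRing.residue R ∘ algebraMap 𝒪 R)) :
    Function.Bijective (ResidueField.map (algebraMap 𝒪 R)) := by
  refine ⟨RingHom.injective _, fun y => ?_⟩
  obtain ⟨a, ha⟩ := hres y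
  exact ⟨residue 𝒪 a, by rw [ResidueField.map_residue]; exact ha⟩

/-- The identification of residue fields `k_𝒪 ≃ k_R`. -/
def resEquiv (hres : Function.Surjective (IsLocalRing.residue R ∘ algebraMap 𝒪 R)) :
    ResidueField 𝒪 ≃+* ResidueField R :=
  RingEquiv.ofBijective (ResidueField.map (algebraMap 𝒪 R)) (residueFieldMap_bijective hres)

theorem resEquiv_residue
    (hres : Function.Surjective (IsLocalRing.residue R ∘ algebraMap 𝒪 R)) (a : 𝒪) :
    resEquiv hres (residue 𝒪 a) = residue R (algebraMap 𝒪 R a) := by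
  simp [resEquiv, ResidueField.map_residue]

/-- The reduction map `R → k_𝒪`. -/
def redMap (hres : Function.Surjective (IsLocalRing.residue R ∘ algebraMap 𝒪 R)) :
    R →+* ResidueField 𝒪 :=
  ((resEquiv hres).symm : ResidueField R →+* ResidueField 𝒪).comp (residue R)

theorem redMap_apply
    (hres : Function.Surjective (IsLocalRing.residue R ∘ algebraMap 𝒪 R)) (x : R) :
    redMap hres x = (resEquiv hres).symm (residue R x) := rfl

theorem redMap_algebraMap
    (hres : Function.Surjective (IsLocalRing.residue R ∘ algebraMap 𝒪 R)) (a : 𝒪) :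
    redMap hres (algebraMap 𝒪 R a) = residue 𝒪 a := by
  rw [redMap_apply, ← resEquiv_residue hres, RingEquiv.symm_apply_apply]

theorem redMap_eq_zero_iff
    (hres : Function.Surjective (IsLocalRing.residue R ∘ algebraMap 𝒪 R)) (x : R) :
    redMap hres x = 0 ↔ x ∈ maximalIdeal R := by
  rw [redMap_apply, map_eq_zero_iff _ (resEquiv hres).symm.injective, residue_eq_zero_iff]

theorem sub_algebraMap_mem
    (hres : Function.Surjective (IsLocalRing.residue R ∘ algebraMap 𝒪 R)) {x : R} {a : 𝒪}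
    (ha : residue 𝒪 a = redMap hres x) : x - algebraMap 𝒪 R a ∈ maximalIdeal R := by
  rw [← redMap_eq_zero_iff hres, map_sub, redMap_algebraMap, ha, sub_self]

/-- A set-theoretic lift `R → 𝒪` of the reduction map. -/
def liftO (hres : Function.Surjective (IsLocalRing.residue R ∘ algebraMap 𝒪 R)) (x : R) : 𝒪 :=
  Classical.choose (residue_surjective (redMap hres x))

theorem residue_liftO
    (hres : Function.Surjective (IsLocalRing.residue R ∘ algebraMap 𝒪 R)) (x : R) :
    residue 𝒪 (liftO hres x) = redMap hres x :=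
  Classical.choose_spec (residue_surjective (redMap hres x))

/-- The universal relative "derivation" `R → 𝔪_R / (𝔪_𝒪 R + 𝔪_R²)`. -/
def relD (hres : Function.Surjective (IsLocalRing.residue R ∘ algebraMap 𝒪 R)) (x : R) :
    RelCotangent 𝒪 R :=
  toRel 𝒪 R ⟨x - algebraMap 𝒪 R (liftO hres x), sub_algebraMap_mem hres (residue_liftO hres x)⟩

theorem algebraMap_mem_map_of_residue_eq_zero {d : 𝒪} (hd : residue 𝒪 d = 0) :
    algebraMap 𝒪 R d ∈ Ideal.map (algebraMap 𝒪 R) (maximalIdeal 𝒪) :=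
  Ideal.mem_map_of_mem _ ((residue_eq_zero_iff d).mp hd)

/-- `relD` may be computed with any lift. -/
theorem relD_eq (hres : Function.Surjective (IsLocalRing.residue R ∘ algebraMap 𝒪 R))
    {x : R} {a : 𝒪} (ha : residue 𝒪 a = redMap hres x) :
    relD hres x = toRel 𝒪 R ⟨x - algebraMap 𝒪 R a, sub_algebraMap_mem hres ha⟩ := by
  unfold relD
  rw [← sub_eq_zero, ← toRel_sub]
  apply toRel_of_mem_map
  have h0 : residue 𝒪 (a - liftO hres x) = 0 := by
    rw [map_sub, ha, residue_liftO, sub_self]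
  have := algebraMap_mem_map_of_residue_eq_zero (R := R) h0
  convert this using 1
  simp only [AddSubgroupClass.coe_sub, map_sub]
  ring

theorem relD_of_mem (hres : Function.Surjective (IsLocalRing.residue R ∘ algebraMap 𝒪 R))
    (z : maximalIdeal R) : relD hres (z : R) = toRel 𝒪 R z := by
  have h0 : residue 𝒪 (0 : 𝒪) = redMap hres (z : R) := by
    rw [map_zero, eq_comm, redMap_eq_zero_iff]; exact z.2
  rw [relD_eq hres h0]
  congr 1
  ext
  simp

theorem relD_algebraMap (hres : Function.Surjective (IsLocalRing.residue R ∘ algebraMap 𝒪 R))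
    (a : 𝒪) : relD hres (algebraMap 𝒪 R a) = 0 := by
  rw [relD_eq hres (redMap_algebraMap hres a).symm]
  have : (⟨algebraMap 𝒪 R a - algebraMap 𝒪 R a,
      sub_algebraMap_mem hres (redMap_algebraMap hres a).symm⟩ : maximalIdeal R) = 0 := by
    ext; simp
  rw [this, toRel_zero]

theorem relD_add (hres : Function.Surjective (IsLocalRing.residue R ∘ algebraMap 𝒪 R))
    (x y : R) : relD hres (x + y) = relD hres x + relD hres y := by
  have ha : residue 𝒪 (liftO hres x + liftO hres y) = redMap hres (x + y) := by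
    rw [map_add, map_add, residue_liftO, residue_liftO]
  rw [relD_eq hres ha]
  unfold relD
  rw [← toRel_add]
  congr 1
  ext
  simp only [map_add, AddMemClass.mk_add_mk]
  ring

theorem relD_mul (hres : Function.Surjective (IsLocalRing.residue R ∘ algebraMap 𝒪 R))
    (x y : R) :
    relD hres (x * y) = residue R x • relD hres y + residue R y • relD hres x := by
  have ha : residue 𝒪 (liftO hres x * liftO hres y) = redMap hres (x * y) := by
    rw [map_mul, map_mul, residue_liftO, residue_liftO]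
  rw [relD_eq hres ha]
  have hx := sub_algebraMap_mem hres (residue_liftO hres x)
  have hy := sub_algebraMap_mem hres (residue_liftO hres y)
  have hxres : residue R x = residue R (algebraMap 𝒪 R (liftO hres x)) := by
    rw [← sub_eq_zero, ← map_sub, residue_eq_zero_iff]; exact hx
  rw [hxres]
  unfold relD
  rw [← toRel_smul, ← toRel_smul, ← toRel_add]
  congr 1
  ext
  simp only [map_mul, Submodule.coe_add, Submodule.coe_smul, smul_eq_mul]
  ring

theorem relD_one (hres : Function.Surjective (IsLocalRing.residue R ∘ algebraMap 𝒪 R)) :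
    relD hres (1 : R) = 0 := by
  have := relD_algebraMap hres (1 : 𝒪)
  rwa [map_one] at this

theorem relD_zero (hres : Function.Surjective (IsLocalRing.residue R ∘ algebraMap 𝒪 R)) :
    relD hres (0 : R) = 0 := by
  have := relD_algebraMap hres (0 : 𝒪)
  rwa [map_zero] at this

theorem resEquiv_symm_residue
    (hres : Function.Surjective (IsLocalRing.residue R ∘ algebraMap 𝒪 R)) (x : R) :
    (resEquiv hres).symm (residue R x) = redMap hres x := rfl

/-- The `𝒪`-algebra map `R → k[ε]` attached to a functional on the relative cotangent space. -/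
def homOfDual (hres : Function.Surjective (IsLocalRing.residue R ∘ algebraMap 𝒪 R))
    (l : Module.Dual (ResidueField R) (RelCotangent 𝒪 R)) :
    @AlgHom 𝒪 R (DualNumber (ResidueField 𝒪)) _ _ _ _ (Fermat.Agent.S53.dualAlgebra 𝒪) :=
  letI := Fermat.Agent.S53.dualAlgebra 𝒪
  { toFun := fun x => TrivSqZeroExt.inl (redMap hres x) +
      TrivSqZeroExt.inr ((resEquiv hres).symm (l (relD hres x)))
    map_one' := by
      rw [relD_one, map_zero, map_zero, map_one, TrivSqZeroExt.inr_zero, add_zero]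
      rfl
    map_mul' := fun x y => by
      apply TrivSqZeroExt.ext
      · simp
      · simp only [relD_mul, map_add, map_smul, smul_eq_mul, map_mul, resEquiv_symm_residue,
          TrivSqZeroExt.snd_add, TrivSqZeroExt.snd_inl, TrivSqZeroExt.snd_inr, zero_add,
          TrivSqZeroExt.snd_mul, TrivSqZeroExt.fst_add, TrivSqZeroExt.fst_inl,
          TrivSqZeroExt.fst_inr, add_zero, MulOpposite.smul_eq_mul_unop, MulOpposite.unop_op]
        ring
    map_zero' := by
      rw [relD_zero, map_zero, map_zero, map_zero, TrivSqZeroExt.inr_zero, add_zero]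
      rfl
    map_add' := fun x y => by
      apply TrivSqZeroExt.ext
      · simp
      · simp [relD_add]
    commutes' := fun a => by
      rw [relD_algebraMap, map_zero, map_zero, TrivSqZeroExt.inr_zero, add_zero,
        redMap_algebraMap, Fermat.Agent.S53.dualAlgebra_algebraMap_apply,
        TrivSqZeroExt.algebraMap_eq_inl] }

theorem homOfDual_apply (hres : Function.Surjective (IsLocalRing.residue R ∘ algebraMap 𝒪 R))
    (l : Module.Dual (ResidueField R) (RelCotangent 𝒪 R)) (x : R) :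
    homOfDual hres l x = TrivSqZeroExt.inl (redMap hres x) +
      TrivSqZeroExt.inr ((resEquiv hres).symm (l (relD hres x))) := rfl

theorem homOfDual_injective
    (hres : Function.Surjective (IsLocalRing.residue R ∘ algebraMap 𝒪 R)) :
    Function.Injective (homOfDual (𝒪 := 𝒪) (R := R) hres) := by
  intro l l' h
  apply LinearMap.ext
  intro v
  obtain ⟨z, rfl⟩ := toRel_surjective v
  have h1 := congrArg TrivSqZeroExt.snd
    (congrArg (fun φ : @AlgHom 𝒪 R (DualNumber (ResidueField 𝒪)) _ _ _ _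
      (Fermat.Agent.S53.dualAlgebra 𝒪) => φ (z : R)) h)
  simp only [homOfDual_apply, TrivSqZeroExt.snd_add, TrivSqZeroExt.snd_inl,
    TrivSqZeroExt.snd_inr, zero_add, relD_of_mem] at h1
  exact (resEquiv hres).symm.injective h1

end Hom

section Main

variable {𝒪 : Type} [CommRing 𝒪] [IsLocalRing 𝒪] [IsNoetherianRing 𝒪]
  [IsAdicComplete (maximalIdeal 𝒪) 𝒪]
variable {R : Type} [CommRing R] [IsLocalRing R] [IsNoetherianRing R]
  [IsAdicComplete (maximalIdeal R) R] [Algebra 𝒪 R] [IsLocalHom (algebraMap 𝒪 R)]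

/-- If `x i ∈ 𝔪_R` have classes spanning the relative cotangent space, then they generate
`𝔪_R` modulo `𝔪_𝒪 R + 𝔪_R²`. -/
theorem maximalIdeal_le_of_span_toRel_eq_top {r : ℕ} (x : Fin r → maximalIdeal R)
    (hspan : Submodule.span (ResidueField R) (Set.range fun i => toRel 𝒪 R (x i)) = ⊤) :
    maximalIdeal R ≤ Ideal.map (algebraMap 𝒪 R) (maximalIdeal 𝒪) ⊔
      Ideal.span (Set.range fun i => (x i : R)) ⊔ maximalIdeal R ^ 2 := by
  set J : Ideal R := Ideal.map (algebraMap 𝒪 R) (maximalIdeal 𝒪) ⊔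
      Ideal.span (Set.range fun i => (x i : R)) ⊔ maximalIdeal R ^ 2 with hJ
  have hle : Ideal.map (algebraMap 𝒪 R) (maximalIdeal 𝒪) ⊔ maximalIdeal R ^ 2 ≤ J := by
    rw [hJ]
    exact sup_le (le_sup_of_le_left le_sup_left) le_sup_right
  have hxJ : ∀ i, (x i : R) ∈ J := fun i =>
    Ideal.mem_sup_left (Ideal.mem_sup_right (Ideal.subset_span ⟨i, rfl⟩))
  have key : ∀ w ∈ Submodule.span (ResidueField R) (Set.range fun i => toRel 𝒪 R (x i)),
      ∀ z : maximalIdeal R, toRel 𝒪 R z = w → (z : R) ∈ J := by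
    intro w hw
    induction hw using Submodule.span_induction with
    | mem w hw =>
      obtain ⟨i, rfl⟩ := hw
      intro z hz
      have h0 : toRel 𝒪 R (z - x i) = 0 := by rw [toRel_sub, hz, sub_self]
      have h1 := hle ((toRel_eq_zero_iff _).mp h0)
      have : (z : R) = ((z - x i : maximalIdeal R) : R) + x i := by simp
      rw [this]
      exact Ideal.add_mem _ h1 (hxJ i)
    | zero =>
      intro z hz
      exact hle ((toRel_eq_zero_iff _).mp hz)
    | add w₁ w₂ _ _ ih₁ ih₂ =>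
      intro z hz
      obtain ⟨z₁, hz₁⟩ := toRel_surjective w₁
      have h2 : toRel 𝒪 R (z - z₁) = w₂ := by rw [toRel_sub, hz, hz₁, add_sub_cancel_left]
      have : (z : R) = z₁ + ((z - z₁ : maximalIdeal R) : R) := by simp
      rw [this]
      exact Ideal.add_mem _ (ih₁ z₁ hz₁) (ih₂ _ h2)
    | smul c w₁ _ ih =>
      intro z hz
      obtain ⟨z₁, hz₁⟩ := toRel_surjective w₁
      obtain ⟨r₀, rfl⟩ := residue_surjective c
      have h0 : toRel 𝒪 R (z - r₀ • z₁) = 0 := by
        rw [toRel_sub, toRel_smul, hz, hz₁, sub_self]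
      have h1 := hle ((toRel_eq_zero_iff _).mp h0)
      have : (z : R) = ((z - r₀ • z₁ : maximalIdeal R) : R) + r₀ * z₁ := by simp
      rw [this]
      exact Ideal.add_mem _ h1 (Ideal.mul_mem_left _ _ (ih z₁ hz₁))
  intro y hy
  exact key (toRel 𝒪 R ⟨y, hy⟩) (by rw [hspan]; exact Submodule.mem_top) ⟨y, hy⟩ rfl

/-- **Cotangent criterion.** If the relative cotangent space of `R` over `𝒪` has dimension at
most `r`, then `R` is a quotient of `𝒪⟦X₁,…,X_r⟧`. -/
theorem exists_surjective_of_finrank_relCotangent_le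
    (hres : Function.Surjective (IsLocalRing.residue R ∘ algebraMap 𝒪 R)) (r : ℕ)
    (hd : Module.finrank (ResidueField R) (RelCotangent 𝒪 R) ≤ r) :
    ∃ γ : MvPowerSeries (Fin r) 𝒪 →ₐ[𝒪] R, Function.Surjective γ := by
  classical
  set d := Module.finrank (ResidueField R) (RelCotangent 𝒪 R) with hd'
  let b := Module.finBasis (ResidueField R) (RelCotangent 𝒪 R)
  let v : Fin r → RelCotangent 𝒪 R := fun j => if h : (j : ℕ) < d then b ⟨j, h⟩ else 0
  have hv : Submodule.span (ResidueField R) (Set.range v) = ⊤ := by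
    rw [eq_top_iff, ← b.span_eq]
    apply Submodule.span_mono
    rintro _ ⟨i, rfl⟩
    refine ⟨⟨i, lt_of_lt_of_le i.2 hd⟩, ?_⟩
    simp only [v]
    rw [dif_pos i.2]
  choose x hx using fun j => toRel_surjective (𝒪 := 𝒪) (R := R) (v j)
  have hspan : Submodule.span (ResidueField R) (Set.range fun i => toRel 𝒪 R (x i)) = ⊤ := by
    have : (fun i => toRel 𝒪 R (x i)) = v := funext hx
    rw [this, hv]
  obtain ⟨φ, hφ, -⟩ := Fermat.Agent.S53.H596.exists_surjective_algHom_of_generators_mod_sq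
    (R := 𝒪) (A := R) inferInstance hres (fun i => (x i : R)) (fun i => (x i).2)
    (maximalIdeal_le_of_span_toRel_eq_top x hspan)
  exact ⟨φ, hφ⟩

/-- **Counting criterion.** If the `𝒪`-algebra maps `R → k[ε]` inject into a finite set with at
most `|k| ^ r` elements, then `R` is a quotient of `𝒪⟦X₁,…,X_r⟧`. -/
theorem exists_surjective_of_injective_algHom [Finite (ResidueField 𝒪)]
    (hres : Function.Surjective (IsLocalRing.residue R ∘ algebraMap 𝒪 R)) (r : ℕ)
    (T : Type) [Finite T] (hT : Nat.card T ≤ Nat.card (ResidueField 𝒪) ^ r)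
    (e : (@AlgHom 𝒪 R (DualNumber (ResidueField 𝒪)) _ _ _ _
      (Fermat.Agent.S53.dualAlgebra 𝒪)) → T) (he : Function.Injective e) :
    ∃ γ : MvPowerSeries (Fin r) 𝒪 →ₐ[𝒪] R, Function.Surjective γ := by
  apply exists_surjective_of_finrank_relCotangent_le hres r
  have hfinK : Finite (ResidueField R) := Finite.of_equiv _ (resEquiv hres).toEquiv
  have hcardK : Nat.card (ResidueField R) = Nat.card (ResidueField 𝒪) :=
    (Nat.card_congr (resEquiv hres).toEquiv).symm
  have h1 : Nat.card (Module.Dual (ResidueField R) (RelCotangent 𝒪 R)) ≤ Nat.card T :=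
    Nat.card_le_card_of_injective (fun l => e (homOfDual hres l))
      (he.comp (homOfDual_injective hres))
  have h2 : Nat.card (Module.Dual (ResidueField R) (RelCotangent 𝒪 R)) =
      Nat.card (ResidueField 𝒪) ^ Module.finrank (ResidueField R) (RelCotangent 𝒪 R) := by
    rw [Module.natCard_eq_pow_finrank (K := ResidueField R), Subspace.dual_finrank_eq, hcardK]
  have hk : 1 < Nat.card (ResidueField 𝒪) := Finite.one_lt_card
  rw [h2] at h1
  exact (Nat.pow_le_pow_iff_right hk).mp (h1.trans hT)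

/-- **Counting criterion, `Nat.card` form.** -/
theorem exists_surjective_of_card_algHom_le [Finite (ResidueField 𝒪)]
    (hres : Function.Surjective (IsLocalRing.residue R ∘ algebraMap 𝒪 R)) (r : ℕ)
    (hfin : Finite (@AlgHom 𝒪 R (DualNumber (ResidueField 𝒪)) _ _ _ _
      (Fermat.Agent.S53.dualAlgebra 𝒪)))
    (hcard : Nat.card (@AlgHom 𝒪 R (DualNumber (ResidueField 𝒪)) _ _ _ _
      (Fermat.Agent.S53.dualAlgebra 𝒪)) ≤ Nat.card (ResidueField 𝒪) ^ r) :
    ∃ γ : MvPowerSeries (Fin r) 𝒪 →ₐ[𝒪] R, Function.Surjective γ :=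
  exists_surjective_of_injective_algHom hres r _ hcard id Function.injective_id

end Main

end

end Fermat.Agent.S56.H134

end
-- ===== PACK-END S56/H134/Cotangent.lean

-- ===== PACK-BEGIN S59/G4/Spec.lean
section



/-!
# Row S59, layer G4: existence of the Hecke–Galois datum — interface (squad-lead helper7)

Goal (`G4Statement`): for a non-Eisenstein residual character `θ` of the anemic Hecke algebra
(`S ⊇ {p} ∪ primes(N)`), the Prelude ring `T = CuspForm.heckeLocal N S 𝒪 θ` carries a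
`CuspForm.HeckeGaloisRepDatum`.  The algebraic fields are on main
(`Fermat.Agent.S59.H7.datumOfRep`); what is left is the representation `ρ_T`.

Pieces (each is a `Prop` below; prove `theorem foo : FooStatement`):

* `RedStatement`     (RED)    `T` is reduced.
* `PointsStatement`  (POINTS) a reduced finite free local `𝒪`-algebra has a finite strict family
                              of `p`-adic points.
* `TraceFnStatement` (TRFN)   the traces of the S30-representations at the points glue to a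
                              function `GQ → T` (Frobenius division + strictness + completeness).
* `DescentStatement` (DESC)   Wiles/Carayol descent: representations at a strict family of points
                              with traces in `T` and absolutely irreducible reduction come from
                              a representation over `T`.
* `ResStatement`     (RES)    the reductions at the points are absolutely irreducible.
* `OddStatement`     (ODD)    the representations at the points are odd.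

Plan, owners, status: `coord/S59-G4.md` on `origin/helper7`.
Only sorry-free definitions in this file; it is FROZEN once on main.
-/

set_option autoImplicit false

open Polynomial IsLocalRing

namespace Fermat.Agent.S59.G4

open Fermat.Agent.S31

/-- A `p`-adic point of `T` together with a Galois representation over its coefficient ring. -/
structure RepPoint (p : ℕ) (T : Type) [CommRing T] : Type 1 where
  /-- the point -/
  pt : PadicPoint p T
  /-- the representation -/
  ρ : GaloisRepAdic pt.O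

/-- The family of points is **strict**: the topology induced on `T` by the points is the
`𝔪_T`-adic one.  (For a Noetherian local `T` this implies joint injectivity.) -/
def IsStrict {p : ℕ} {T : Type} [CommRing T] [IsLocalRing T] (F : List (PadicPoint p T)) : Prop :=
  ∀ n : ℕ, ∃ n' : ℕ, ∀ t : T,
    (∀ P ∈ F, P.χ t ∈ maximalIdeal P.O ^ n') → t ∈ maximalIdeal T ^ n

/-- Frobenius condition: `ρ` over `A` has the Hecke characteristic polynomials given by
`φ : 𝕋 → A` at all primes `ℓ ∉ S`, `ℓ ∤ N`. -/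
def FrobCond {N : ℕ} [NeZero N] {S : Set ℕ} {A : Type} [CommRing A] [IsLocalRing A]
    (ρ : GaloisRepAdic A) (φ : CuspForm.heckeAlgebra N 2 S →+* A) : Prop :=
  ∀ (ℓ : ℕ) (hℓ : ℓ.Prime) (hℓN : ¬ ℓ ∣ N) (hℓS : ℓ ∉ S),
    ∀ B : ValuationSubring Qb, B.LiesOverPrime ℓ →
      ∀ σ : GQ, B.IsFrobeniusAt σ ℓ →
        LinearMap.charpoly (ρ.ρ σ) =
          X ^ 2 - C (φ (CuspForm.heckeAlgebra.T hℓ hℓN hℓS)) * X + C ((ℓ : A))

/-- The same for a residual representation. -/
def ResFrobCond {N : ℕ} [NeZero N] {S : Set ℕ} {k : Type} [Field k]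
    (ρ : ResidualGaloisRep k) (φ : CuspForm.heckeAlgebra N 2 S →+* k) : Prop :=
  ∀ (ℓ : ℕ) (hℓ : ℓ.Prime) (hℓN : ¬ ℓ ∣ N) (hℓS : ℓ ∉ S),
    ∀ B : ValuationSubring Qb, B.LiesOverPrime ℓ →
      ∀ σ : GQ, B.IsFrobeniusAt σ ℓ →
        LinearMap.charpoly (ρ.ρ σ) =
          X ^ 2 - C (φ (CuspForm.heckeAlgebra.T hℓ hℓN hℓS)) * X + C ((ℓ : k))

/-- `θ` is **non-Eisenstein**: it is the Frobenius character of an absolutely irreducible
residual representation. -/
def NonEisenstein {N : ℕ} [NeZero N] {S : Set ℕ} {k : Type} [Field k]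
    (θ : CuspForm.heckeAlgebra N 2 S →+* k) : Prop :=
  ∃ ρbar : ResidualGaloisRep k, ρbar.IsAbsolutelyIrreducible ∧ ResFrobCond ρbar θ

/-! ## The pieces -/

/-- **RED.** The local Hecke algebra is reduced (from the reducedness of the anemic Hecke
algebra, `Fermat.Agent.S31.H838.ssStatement`, by base change and localisation). -/
def RedStatement : Prop :=
  ∀ (N : ℕ) [NeZero N] (S : Set ℕ), (∀ q : ℕ, q.Prime → q ∣ N → q ∈ S) →
    ∀ (𝒪 : Type) [CommRing 𝒪] [IsDomain 𝒪] [IsDiscreteValuationRing 𝒪]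
      [IsAdicComplete (maximalIdeal 𝒪) 𝒪] [CharZero 𝒪]
      (θ : CuspForm.heckeAlgebra N 2 S →+* ResidueField 𝒪),
      IsReduced (CuspForm.heckeLocal N S 𝒪 θ)

/-- **POINTS.** A reduced local ring which is a finite free algebra over a complete DVR `𝒪`
(characteristic zero, finite residue field of characteristic `p`) has a finite strict family of
`p`-adic points, all of them local homomorphisms. -/
def PointsStatement : Prop :=
  ∀ (p : ℕ) [Fact p.Prime] (𝒪 : Type) [CommRing 𝒪] [IsDomain 𝒪] [IsDiscreteValuationRing 𝒪]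
    [IsAdicComplete (maximalIdeal 𝒪) 𝒪] [Finite (ResidueField 𝒪)] [CharZero 𝒪]
    (_hp𝒪 : (p : 𝒪) ∈ maximalIdeal 𝒪)
    (T : Type) [CommRing T] [IsLocalRing T] [Algebra 𝒪 T] [Module.Finite 𝒪 T] [Module.Free 𝒪 T]
    [IsReduced T],
    ∃ F : List (PadicPoint p T), IsStrict F ∧ ∀ P ∈ F, IsLocalHom P.χ

section Local

variable {p : ℕ} {T : Type} [CommRing T] [IsLocalRing T]

/-- The traces of the representations at the points glue to a function with values in `T`. -/
def HasTraceFn (F : List (RepPoint p T)) : Prop :=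
  ∃ τ : GQ → T, ∀ P ∈ F, ∀ σ : GQ, P.pt.χ (τ σ) = LinearMap.trace P.pt.O P.ρ.V (P.ρ.ρ σ)

/-- `ρ` over `T` specialises to the given representations at all points of the family (on the
level of characteristic polynomials). -/
def Specialises (ρ : GaloisRepAdic T) (F : List (RepPoint p T)) : Prop :=
  ∀ P ∈ F, ∀ σ : GQ,
    (LinearMap.charpoly (ρ.ρ σ)).map P.pt.χ = LinearMap.charpoly (P.ρ.ρ σ)

end Local

/-- **TRFN.** For a strict family of points of a complete Noetherian local ring `T` with Hecke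
structure `π : 𝕋 → T`, representations at the points satisfying the Frobenius condition have a
`T`-valued trace function. -/
def TraceFnStatement : Prop :=
  ∀ (p : ℕ) [Fact p.Prime] (N : ℕ) [NeZero N] (S : Finset ℕ)
    (T : Type) [CommRing T] [IsLocalRing T] [IsNoetherianRing T]
    [IsAdicComplete (maximalIdeal T) T]
    (π : CuspForm.heckeAlgebra N 2 (↑S : Set ℕ) →+* T)
    (F : List (RepPoint p T)), IsStrict (F.map RepPoint.pt) →
    (∀ P ∈ F, IsLocalHom P.pt.χ) →
    (∀ P ∈ F, FrobCond P.ρ (P.pt.χ.comp π)) → HasTraceFn F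

/-- **DESC.** (`p` odd.)  Given a nonempty strict family of points of the complete Noetherian
local ring `T`, representations at the points with determinant `-1` on every involution `≠ 1`
(oddness), with a `T`-valued trace function and absolutely irreducible reductions, there is a
representation over `T` specialising to all of them, with absolutely irreducible reduction. -/
def DescentStatement : Prop :=
  ∀ (p : ℕ) [Fact p.Prime] (_hp2 : p ≠ 2)
    (T : Type) [CommRing T] [IsLocalRing T] [IsNoetherianRing T]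
    [IsAdicComplete (maximalIdeal T) T]
    (F : List (RepPoint p T)), F ≠ [] → IsStrict (F.map RepPoint.pt) →
    (∀ P ∈ F, IsLocalHom P.pt.χ) →
    (∀ P ∈ F, ∀ c : GQ, c * c = 1 → c ≠ 1 → LinearMap.det (P.ρ.ρ c) = -1) →
    (∀ P ∈ F, P.ρ.residual.IsAbsolutelyIrreducible) →
    HasTraceFn F →
    ∃ ρ : GaloisRepAdic T, Specialises ρ F ∧ ρ.residual.IsAbsolutelyIrreducible

/-- **RES.** A representation over a complete DVR whose Frobenius characteristic polynomials
reduce to those of a non-Eisenstein `θ` has absolutely irreducible reduction.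
(Frobenius division + Brauer–Nesbitt for 2-dimensional representations with an absolutely
irreducible member.) -/
def ResStatement : Prop :=
  ∀ (p : ℕ) [Fact p.Prime] (_hp2 : p ≠ 2) (N : ℕ) [NeZero N] (S : Finset ℕ) (_hpS : p ∈ S)
    (O : Type) [CommRing O] [IsDomain O] [IsDiscreteValuationRing O]
    [IsAdicComplete (maximalIdeal O) O] [Finite (ResidueField O)] [CharZero O]
    (_hpO : (p : O) ∈ maximalIdeal O)
    (χ : CuspForm.heckeAlgebra N 2 (↑S : Set ℕ) →+* O)
    (_hθ : NonEisenstein ((residue O).comp χ))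
    (ρ : GaloisRepAdic O), FrobCond ρ χ → ρ.residual.IsAbsolutelyIrreducible

/-- **ODD.** A representation over a complete DVR with `det ρ(Frob_ℓ) = ℓ` for all primes
`ℓ ∉ S` (`p ∈ S`) has determinant `-1` on every involution `c ≠ 1` of `Gal(ℚ̄/ℚ)`.
(`det = ` cyclotomic by Frobenius division; an involution `≠ 1` inverts the roots of unity of
odd order: its fixed field `F` has `[ℚ̄ : F] = 2`, `-1` is not a square in `F` and sums of squares
of `F` are squares.) -/
def OddStatement : Prop :=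
  ∀ (p : ℕ) [Fact p.Prime] (_hp2 : p ≠ 2) (N : ℕ) [NeZero N] (S : Finset ℕ) (_hpS : p ∈ S)
    (O : Type) [CommRing O] [IsDomain O] [IsDiscreteValuationRing O]
    [IsAdicComplete (maximalIdeal O) O] [Finite (ResidueField O)] [CharZero O]
    (_hpO : (p : O) ∈ maximalIdeal O)
    (χ : CuspForm.heckeAlgebra N 2 (↑S : Set ℕ) →+* O)
    (ρ : GaloisRepAdic O), FrobCond ρ χ →
    ∀ c : GQ, c * c = 1 → c ≠ 1 → LinearMap.det (ρ.ρ c) = -1

/-! ## The goal -/

/-- **G4.** Existence of the Hecke–Galois datum on the Prelude ring `heckeLocal`. -/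
def G4Statement : Prop :=
  ∀ (p : ℕ) [Fact p.Prime] (_hp2 : p ≠ 2) (N : ℕ) [NeZero N] (S : Finset ℕ) (_hpS : p ∈ S)
    (_hNS : ∀ q : ℕ, q.Prime → q ∣ N → q ∈ S)
    (𝒪 : Type) [CommRing 𝒪] [IsDomain 𝒪] [IsDiscreteValuationRing 𝒪]
    [IsAdicComplete (maximalIdeal 𝒪) 𝒪] [Finite (ResidueField 𝒪)] [CharZero 𝒪]
    (_hp𝒪 : (p : 𝒪) ∈ maximalIdeal 𝒪)
    (θ : CuspForm.heckeAlgebra N 2 (↑S : Set ℕ) →+* ResidueField 𝒪) (_hθ : NonEisenstein θ)
    [Fact (CuspForm.HasIntegralStructure N 2)],
    ∃ H : CuspForm.HeckeGaloisRepDatum N (↑S : Set ℕ) 𝒪 θ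
        (CuspForm.heckeLocal N (↑S : Set ℕ) 𝒪 θ),
      H.π = CuspForm.heckeLocal.π N (↑S : Set ℕ) 𝒪 θ

end Fermat.Agent.S59.G4

end
-- ===== PACK-END S59/G4/Spec.lean

-- ===== PACK-BEGIN S56/H186/TameCyclic.lean
section






/-!
# S56 / leaf TAME-CYC (helper186), part 3: structure of tame inertia

`L` an algebraically closed algebraic extension of `ℚ` (e.g. `AlgebraicClosure ℚ`), `A` a valuation
subring of `L` lying over the prime `q`, `I = A.inertiaSubgroupIn ℚ` (Prelude form).
`π : Gal(L/ℚ) →* Γ` a monoid hom factoring through a finite level such that every `π σ`, `σ ∈ I`,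
is killed by a power of `p`, `p` prime to `q`.  Then

* `exists_generator_inertia_image` : `∃ τ₀ ∈ I, ∀ σ ∈ I, ∃ j, π σ = π τ₀ ^ j`  (the image of inertia
  is cyclic);
* `map_frobenius_conj_inertia` : `π (φ σ φ⁻¹) = π σ ^ q` for every Frobenius `φ` at `A`
  (Prelude `IsFrobeniusAt φ q`) and `σ ∈ I`.
-/

set_option autoImplicit false
set_option linter.unusedSectionVars false
set_option linter.style.haveILetI false

namespace Fermat.Agent.S56.H186

open Fermat.Agent.A2.H708

section General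

variable {K L : Type*} [Field K] [Field L] [Algebra K L] [Algebra.IsAlgebraic K L]
  (A : ValuationSubring L)

/-- The tame character at `c` as a homomorphism on the inertia group. -/
noncomputable def tameAt (c : Lˣ) :
    ↥(A.inertiaSubgroupIn K) →* (IsLocalRing.ResidueField A)ˣ where
  toFun σ := tameHom A σ.2 c
  map_one' := tameHom_eq_one_of_fixed A _ c rfl
  map_mul' σ τ := tameHom_mul A σ.2 τ.2 c

theorem tameAt_apply (c : Lˣ) (σ : ↥(A.inertiaSubgroupIn K)) :
    tameAt A c σ = tameHom A σ.2 c := rfl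

/-- The underlying residue class of the tame character. -/
theorem coe_tameHom {τ : L ≃ₐ[K] L} (hτ : τ ∈ A.inertiaSubgroupIn K) (c : Lˣ)
    (h : τ (c : L) / c ∈ A) :
    ((tameHom A hτ c : (IsLocalRing.ResidueField A)ˣ) : IsLocalRing.ResidueField A) =
      IsLocalRing.residue A ⟨τ (c : L) / c, h⟩ := by
  show ((A.unitGroupToResidueFieldUnits
    (ratioHom A (mem_decomposition_of_mem_inertiaIn A hτ) c) :
      (IsLocalRing.ResidueField A)ˣ) : IsLocalRing.ResidueField A) = _
  rw [ValuationSubring.coe_unitGroupToResidueFieldUnits_apply]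
  show IsLocalRing.residue A _ = _
  congr 1
  apply Subtype.ext
  rw [ValuationSubring.coe_unitGroupMulEquiv_apply, coe_ratioHom]

theorem apply_div_mem {τ : L ≃ₐ[K] L} (hτ : τ ∈ A.decompositionSubgroup K) (c : Lˣ) :
    τ (c : L) / c ∈ A := by
  rw [← A.valuation_le_one_iff]
  exact (valuation_apply_div_self A hτ c.ne_zero).le

/-- The inertia group (Prelude form) is stable under conjugation by the decomposition group. -/
theorem conj_mem_inertiaIn {φ σ : L ≃ₐ[K] L} (hφ : φ ∈ A.decompositionSubgroup K)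
    (hσ : σ ∈ A.inertiaSubgroupIn K) : φ * σ * φ⁻¹ ∈ A.inertiaSubgroupIn K := by
  obtain ⟨g, hg, rfl⟩ := hσ
  refine ⟨⟨φ, hφ⟩ * g * ⟨φ, hφ⟩⁻¹, ?_, rfl⟩
  have hn : (A.inertiaSubgroup K).Normal := MonoidHom.normal_ker _
  exact hn.conj_mem g hg ⟨φ, hφ⟩

/-- Frobenius raises residue classes to the `q`-th power. -/
theorem residue_apply_of_isFrobeniusAt {φ : L ≃ₐ[K] L} {q : ℕ} (hφ : A.IsFrobeniusAt φ q)
    {u : L} (hu : u ∈ A) (hφu : φ u ∈ A) :
    IsLocalRing.residue A ⟨φ u, hφu⟩ = IsLocalRing.residue A ⟨u, hu⟩ ^ q := by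
  have h := hφ.smul_residue_eq (IsLocalRing.residue A ⟨u, hu⟩)
  rw [← IsLocalRing.ResidueField.residue_smul] at h
  rw [← h]
  rfl

/-- The tame character of a Frobenius conjugate. -/
theorem tameHom_frobenius_conj {φ σ : L ≃ₐ[K] L} {q : ℕ} (hφ : A.IsFrobeniusAt φ q)
    (hσ : σ ∈ A.inertiaSubgroupIn K) (c : Lˣ) :
    tameHom A (conj_mem_inertiaIn A hφ.mem_decompositionSubgroup hσ) c = tameHom A hσ c ^ q := by
  have hφD := hφ.mem_decompositionSubgroup
  have hφiD : φ⁻¹ ∈ A.decompositionSubgroup K := inv_mem hφD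
  set c' : Lˣ := Units.map ((φ⁻¹ : L ≃ₐ[K] L) : L →* L) c with hc'
  have hc'val : ((c' : Lˣ) : L) = φ⁻¹ (c : L) := rfl
  have hvc' : A.valuation ((c' : Lˣ) : L) = A.valuation (c : L) := by
    rw [hc'val]; exact valuation_apply_of_mem_decomposition A hφiD _
  have hσD := mem_decomposition_of_mem_inertiaIn A hσ
  have hu : σ (c' : L) / c' ∈ A := apply_div_mem A hσD c'
  have hφc' : φ ((c' : Lˣ) : L) = c := by
    rw [hc'val]
    show (φ * φ⁻¹) (c : L) = c
    rw [mul_inv_cancel]; rfl
  have hratio : (φ * σ * φ⁻¹) (c : L) / c = φ (σ (c' : L) / c') := by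
    rw [map_div₀, hφc']
    rfl
  have hmem : (φ * σ * φ⁻¹) (c : L) / c ∈ A :=
    apply_div_mem A (mul_mem (mul_mem hφD hσD) hφiD) c
  have hφu : φ (σ (c' : L) / c') ∈ A := hratio ▸ hmem
  apply Units.ext
  rw [coe_tameHom A _ c hmem, Units.val_pow_eq_pow_val,
    ← tameHom_eq_of_valuation_eq A hσ c' c hvc', coe_tameHom A hσ c' hu,
    ← residue_apply_of_isFrobeniusAt A hφ hu hφu]
  congr 1
  exact Subtype.ext hratio

/-- The value group hypothesis: `K` is "discretely valued with uniformizer `q`" inside `A`. -/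
def IsTameBase (q : ℕ) : Prop :=
  q.Prime ∧ (q : L) ≠ 0 ∧
    (∀ a : K, a ≠ 0 → ∃ m : ℤ, A.valuation (algebraMap K L a) = A.valuation (q : L) ^ m) ∧
    ∀ ℓ : ℕ, ℓ.Prime → ℓ ≠ q → A.valuation (ℓ : L) = 1

variable [IsAlgClosed L] {q : ℕ}

theorem normal_of_isAlgClosed_h186 : Normal K L :=
  haveI : IsAlgClosure K L := ⟨inferInstance, inferInstance⟩
  IsAlgClosure.normal K L

/-- For a finite level `E` there is a root `c` of `q` such that every inertia element with
trivial tame character at `c` acts on `E` through a `q`-group. -/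
theorem exists_tame_root (hq : IsTameBase (K := K) A q) (E : IntermediateField K L)
    [FiniteDimensional K E] :
    ∃ (N : ℕ) (c : Lˣ), 0 < N ∧ (c : L) ^ N = (q : L) ∧
      ∀ (σ : L ≃ₐ[K] L) (hσ : σ ∈ A.inertiaSubgroupIn K), tameHom A hσ c = 1 →
        ∃ a : ℕ, ∀ x ∈ E, (σ ^ (q ^ a)) x = x := by
  obtain ⟨hqp, hq0, hKval, hunit⟩ := hq
  haveI : Normal K L := normal_of_isAlgClosed_h186
  set E' : IntermediateField K L := IntermediateField.normalClosure K E L with hE'def
  haveI : Normal K E' := normalClosure.normal K E L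
  haveI : FiniteDimensional K E' := normalClosure.is_finiteDimensional K E L
  set d := Module.finrank K E' with hd
  obtain ⟨c, hc⟩ := IsAlgClosed.exists_pow_nat_eq (q : L) (Nat.factorial_pos d)
  have hc0 : c ≠ 0 := by
    rintro rfl
    rw [zero_pow (Nat.factorial_pos d).ne'] at hc
    exact hq0 hc.symm
  refine ⟨d.factorial, Units.mk0 c hc0, Nat.factorial_pos d, hc, ?_⟩
  intro σ hσ h1
  have hσD := mem_decomposition_of_mem_inertiaIn A hσ
  have hstab : ∀ y ∈ E', σ y ∈ E' := by
    intro y hy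
    have := AlgEquiv.restrictNormalHom_apply E' σ ⟨y, hy⟩
    rw [← this]
    exact Subtype.mem _
  have htame : ∀ x ∈ E', x ≠ 0 → A.valuation (σ x - x) < A.valuation x := by
    intro x hx hx0
    have hint : IsIntegral K x := Algebra.IsIntegral.isIntegral x
    have hdeg : (minpoly K x).natDegree ≤ d := by
      have h1 := IntermediateField.minpoly_eq (⟨x, hx⟩ : E')
      have h2 := minpoly.natDegree_le (A := K) (⟨x, hx⟩ : E')
      rw [h1] at h2
      exact h2
    obtain ⟨m, hm⟩ := exists_valuation_eq_zpow_root_of A hKval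
      (fun n hn0 hnd => Nat.dvd_factorial hn0 hnd) hc hx0 hint hdeg
    have hval : A.valuation ((Units.mk0 x hx0 : Lˣ) : L) =
        A.valuation (((Units.mk0 c hc0) ^ m : Lˣ) : L) := by
      rw [Units.val_mk0, hm, Units.val_zpow_eq_zpow_val, map_zpow₀, Units.val_mk0]
    have h2 := tameHom_eq_of_valuation_eq A hσ _ _ hval
    rw [map_zpow, h1, one_zpow] at h2
    exact (tameHom_eq_one_iff A hσ (Units.mk0 x hx0)).mp h2
  haveI : Finite (E' ≃ₐ[K] E') := inferInstance
  set n := orderOf (AlgEquiv.restrictNormalHom E' σ) with hn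
  have hn0 : n ≠ 0 := (orderOf_pos _).ne'
  have hfix : ∀ y ∈ E', (σ ^ n) y = y := by
    intro y hy
    have h3 := AlgEquiv.restrictNormalHom_apply E' (σ ^ n) ⟨y, hy⟩
    rw [map_pow, hn, pow_orderOf_eq_one] at h3
    exact h3.symm
  obtain ⟨a, ha⟩ := exists_pow_fixes_of_tame_trivial A hσD E' hstab htame hqp hunit hn0 hfix
  exact ⟨a, fun x hx => ha x (IntermediateField.le_normalClosure E hx)⟩

variable {Γ : Type*} [Monoid Γ] (π : (L ≃ₐ[K] L) →* Γ)

/-- The kernel of a suitable tame character is killed by `π`. -/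
theorem exists_tame_root_map (hq : IsTameBase (K := K) A q)
    (hlevel : ∃ E : IntermediateField K L, FiniteDimensional K E ∧
      ∀ σ : L ≃ₐ[K] L, (∀ x ∈ E, σ x = x) → π σ = 1)
    {p : ℕ} (hpq : Nat.Coprime p q)
    (hp : ∀ σ ∈ A.inertiaSubgroupIn K, ∃ a : ℕ, π σ ^ (p ^ a) = 1) :
    ∃ (N : ℕ) (c : Lˣ), 0 < N ∧ (c : L) ^ N = (q : L) ∧
      ∀ (σ : L ≃ₐ[K] L) (hσ : σ ∈ A.inertiaSubgroupIn K), tameHom A hσ c = 1 → π σ = 1 := by
  obtain ⟨E, hEfin, hE⟩ := hlevel
  haveI := hEfin
  obtain ⟨N, c, hN, hc, hker⟩ := exists_tame_root A hq E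
  refine ⟨N, c, hN, hc, fun σ hσ h1 => ?_⟩
  obtain ⟨a, ha⟩ := hker σ hσ h1
  obtain ⟨b, hb⟩ := hp σ hσ
  have h2 : π σ ^ (q ^ a) = 1 := by
    rw [← map_pow]
    exact hE _ ha
  have hcop : Nat.gcd (p ^ b) (q ^ a) = 1 := Nat.Coprime.pow b a hpq
  have := pow_gcd_eq_one.mpr ⟨hb, h2⟩
  rwa [hcop, pow_one] at this

/-- **Tame inertia is cyclic on `p`-power images** (`p` prime to the residue characteristic `q`):
the image under `π` of the inertia group is generated by one element.  General base field. -/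
theorem exists_generator_inertia_image_of (hq : IsTameBase (K := K) A q)
    (hlevel : ∃ E : IntermediateField K L, FiniteDimensional K E ∧
      ∀ σ : L ≃ₐ[K] L, (∀ x ∈ E, σ x = x) → π σ = 1)
    {p : ℕ} (hpq : Nat.Coprime p q)
    (hp : ∀ σ ∈ A.inertiaSubgroupIn K, ∃ a : ℕ, π σ ^ (p ^ a) = 1) :
    ∃ τ₀ ∈ A.inertiaSubgroupIn K, ∀ σ ∈ A.inertiaSubgroupIn K, ∃ j : ℕ, π σ = π τ₀ ^ j := by
  obtain ⟨N, c, hN, hc, hker⟩ := exists_tame_root_map A π hq hlevel hpq hp
  have hqp := hq.1
  haveI : NeZero N := ⟨hN.ne'⟩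
  set Θ := tameAt (K := K) A c with hΘ
  set H : Subgroup (IsLocalRing.ResidueField A)ˣ := Θ.range with hH
  have hHle : H ≤ rootsOfUnity N (IsLocalRing.ResidueField A) := by
    rintro _ ⟨σ, rfl⟩
    rw [mem_rootsOfUnity]
    exact tameHom_pow_eq_one A σ.2 c N (q : K) 1 (map_one _) (by rw [hc]; simp)
  haveI : Finite H :=
    Finite.of_injective (Subgroup.inclusion hHle) (Subgroup.inclusion_injective hHle)
  haveI : IsCyclic H := isCyclic_subgroup_units H
  obtain ⟨g, hg⟩ := IsCyclic.exists_generator (α := H)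
  obtain ⟨τ₀, hτ₀⟩ := g.2
  refine ⟨τ₀.1, τ₀.2, fun σ hσ => ?_⟩
  obtain ⟨k, hk⟩ := Subgroup.mem_zpowers_iff.mp (hg ⟨Θ ⟨σ, hσ⟩, ⟨_, rfl⟩⟩)
  have hk' : Θ τ₀ ^ k = Θ ⟨σ, hσ⟩ := by
    have := congrArg (Subtype.val) hk
    rw [Subgroup.coe_zpow] at this
    rw [hτ₀]
    exact this
  -- the difference lies in the kernel
  set δ : ↥(A.inertiaSubgroupIn K) := ⟨σ, hσ⟩ * (τ₀ ^ k)⁻¹ with hδ
  have hδ1 : Θ δ = 1 := by
    rw [hδ, map_mul, map_inv, map_zpow, hk', mul_inv_cancel]
  have hπδ : π δ.1 = 1 := hker δ.1 δ.2 hδ1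
  have hσeq : σ = δ.1 * (τ₀.1 ^ k) := by
    rw [hδ]
    simp
  -- pass to units to handle the integer exponent
  set u : Γˣ := π.toHomUnits τ₀.1 with hu
  obtain ⟨b, hb⟩ := hp τ₀.1 τ₀.2
  have hufin : IsOfFinOrder u := by
    rw [isOfFinOrder_iff_pow_eq_one]
    refine ⟨p ^ b, Nat.pos_of_ne_zero ?_, ?_⟩
    · intro h0
      have hp0 : p = 0 := by
        by_contra hne
        exact (pow_ne_zero b hne) h0
      subst hp0
      rw [Nat.coprime_zero_left] at hpq
      exact hqp.ne_one hpq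
    · apply Units.ext
      rw [Units.val_pow_eq_pow_val, hu, MonoidHom.coe_toHomUnits, hb, Units.val_one]
  have hopos : 0 < orderOf u := hufin.orderOf_pos
  refine ⟨(k % (orderOf u : ℤ)).toNat, ?_⟩
  have h1 : π (τ₀.1 ^ k) = ((u ^ k : Γˣ) : Γ) := by
    rw [hu, ← map_zpow, MonoidHom.coe_toHomUnits]
  have h2 : (u ^ k : Γˣ) = u ^ (k % (orderOf u : ℤ)).toNat := by
    rw [← zpow_mod_orderOf, ← zpow_natCast,
      Int.toNat_of_nonneg (Int.emod_nonneg _ (by exact_mod_cast hopos.ne'))]
  rw [hσeq, map_mul, hπδ, one_mul, h1, h2, Units.val_pow_eq_pow_val, hu,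
    MonoidHom.coe_toHomUnits]

/-- **Frobenius acts on tame inertia by the `q`-th power.**  General base field. -/
theorem map_frobenius_conj_inertia_of (hq : IsTameBase (K := K) A q)
    (hlevel : ∃ E : IntermediateField K L, FiniteDimensional K E ∧
      ∀ σ : L ≃ₐ[K] L, (∀ x ∈ E, σ x = x) → π σ = 1)
    {p : ℕ} (hpq : Nat.Coprime p q)
    (hp : ∀ σ ∈ A.inertiaSubgroupIn K, ∃ a : ℕ, π σ ^ (p ^ a) = 1)
    {φ : L ≃ₐ[K] L} (hφ : A.IsFrobeniusAt φ q) {σ : L ≃ₐ[K] L}
    (hσ : σ ∈ A.inertiaSubgroupIn K) :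
    π (φ * σ * φ⁻¹) = π σ ^ q := by
  obtain ⟨N, c, hN, hc, hker⟩ := exists_tame_root_map A π hq hlevel hpq hp
  have hconj := conj_mem_inertiaIn A hφ.mem_decompositionSubgroup hσ
  set σ' : ↥(A.inertiaSubgroupIn K) := ⟨σ, hσ⟩ with hσ'
  set κ : ↥(A.inertiaSubgroupIn K) := ⟨φ * σ * φ⁻¹, hconj⟩ with hκ
  have h1 : tameAt (K := K) A c κ = tameAt (K := K) A c σ' ^ q :=
    tameHom_frobenius_conj A hφ hσ c
  set δ : ↥(A.inertiaSubgroupIn K) := κ * (σ' ^ q)⁻¹ with hδ
  have hδ1 : tameAt (K := K) A c δ = 1 := by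
    rw [hδ, map_mul, map_inv, map_pow, h1, mul_inv_cancel]
  have hπδ : π δ.1 = 1 := hker δ.1 δ.2 hδ1
  have heq : φ * σ * φ⁻¹ = δ.1 * σ ^ q := by
    rw [hδ]
    simp [hκ, hσ']
  rw [heq, map_mul, hπδ, one_mul, map_pow]

end General

section Rat

variable {L : Type*} [Field L] [Algebra ℚ L] [Algebra.IsAlgebraic ℚ L] [IsAlgClosed L]
  (A : ValuationSubring L) {q : ℕ}

theorem isTameBase_rat (hq : A.LiesOverPrime q) (hqp : q.Prime) : IsTameBase (K := ℚ) A q := by
  haveI : CharZero L := charZero_of_injective_ringHom (algebraMap ℚ L).injective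
  exact ⟨hqp, Nat.cast_ne_zero.mpr hqp.ne_zero,
    fun a ha => exists_valuation_rat_eq_zpow A hq hqp ha,
    fun ℓ hℓ hne =>
      valuation_natCast_eq_one_of_coprime A hq ((Nat.coprime_primes hℓ hqp).mpr hne)⟩

variable {Γ : Type*} [Monoid Γ] (π : (L ≃ₐ[ℚ] L) →* Γ)

/-- **Tame inertia is cyclic on `p`-power images**: `A` over the prime `q`, `p` prime to `q`,
`π` of finite level with `π σ` killed by a power of `p` for every `σ` in the inertia group.
Then the image under `π` of the inertia group is generated by one element. -/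
theorem exists_generator_inertia_image (hq : A.LiesOverPrime q) (hqp : q.Prime)
    (hlevel : ∃ E : IntermediateField ℚ L, FiniteDimensional ℚ E ∧
      ∀ σ : L ≃ₐ[ℚ] L, (∀ x ∈ E, σ x = x) → π σ = 1)
    {p : ℕ} (hpq : Nat.Coprime p q)
    (hp : ∀ σ ∈ A.inertiaSubgroupIn ℚ, ∃ a : ℕ, π σ ^ (p ^ a) = 1) :
    ∃ τ₀ ∈ A.inertiaSubgroupIn ℚ, ∀ σ ∈ A.inertiaSubgroupIn ℚ, ∃ j : ℕ, π σ = π τ₀ ^ j :=
  exists_generator_inertia_image_of A π (isTameBase_rat A hq hqp) hlevel hpq hp

/-- **Frobenius acts on tame inertia by the `q`-th power.** -/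
theorem map_frobenius_conj_inertia (hq : A.LiesOverPrime q) (hqp : q.Prime)
    (hlevel : ∃ E : IntermediateField ℚ L, FiniteDimensional ℚ E ∧
      ∀ σ : L ≃ₐ[ℚ] L, (∀ x ∈ E, σ x = x) → π σ = 1)
    {p : ℕ} (hpq : Nat.Coprime p q)
    (hp : ∀ σ ∈ A.inertiaSubgroupIn ℚ, ∃ a : ℕ, π σ ^ (p ^ a) = 1)
    {φ : L ≃ₐ[ℚ] L} (hφ : A.IsFrobeniusAt φ q) {σ : L ≃ₐ[ℚ] L}
    (hσ : σ ∈ A.inertiaSubgroupIn ℚ) :
    π (φ * σ * φ⁻¹) = π σ ^ q :=
  map_frobenius_conj_inertia_of A π (isTameBase_rat A hq hqp) hlevel hpq hp hφ hσ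

end Rat

end Fermat.Agent.S56.H186

end
-- ===== PACK-END S56/H186/TameCyclic.lean

-- ===== PACK-BEGIN S59/H779/FlatLevels.lean
section



/-!
# S59 / MLT-DC-FLAT (helper779): Hopf models of the levels `V ⧸ I V`

For `ρ : GaloisRepAdic A` and an ideal `I` of `A` we say that `ρ` is *flat at level `I`* if the
finite Galois module `ρ.V ⧸ I ρ.V` has a Hopf model.  We prove (assuming the closure of Hopf models
under subquotients and products):

* `FlatLevel.mono`: `I ≤ I'` ⇒ level `I` flat ⇒ level `I'` flat;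
* `FlatLevel.comap`: descent along any local homomorphism `φ : A → B`
  (level `J` of `ρ_B` ⇒ level `φ⁻¹ J` of `ρ`);
* `FlatLevel.baseChange`: ascent (level `φ⁻¹ J` of `ρ` ⇒ level `J` of `ρ_B`, `B ⧸ J` finite);
* `FlatLevel.of_jointly_injective`: level `⊥` of `ρ_A` and of `ρ_B` ⇒ level `⊥` of `ρ` for a
  jointly injective pair `P → A`, `P → B`.
-/

set_option autoImplicit false
set_option linter.style.haveILetI false
set_option linter.unusedSectionVars false

noncomputable section

namespace Fermat.Agent.S59.H779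

open Fermat.Agent.S19 Fermat.Agent.S56.H966
open scoped TensorProduct

variable {A : Type} [CommRing A] [IsLocalRing A] {B : Type} [CommRing B] [IsLocalRing B]

/-- The level module `V ⧸ I V`. -/
abbrev Lev (ρ : GaloisRepAdic A) (I : Ideal A) : Type :=
  ρ.V ⧸ (I • (⊤ : Submodule A ρ.V))

/-- `ρ` is flat at level `I`: the Galois module `V ⧸ I V` has a Hopf model over `ℤ_(p)`. -/
def FlatLevel (p : ℕ) (ρ : GaloisRepAdic A) (I : Ideal A) : Prop :=
  HopfModel p (Lev ρ I) (fun σ x => ρ.levelAction I σ x)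

theorem isFlatAt_iff_flatLevel (p : ℕ) (ρ : GaloisRepAdic A) :
    ρ.IsFlatAt p ↔ Finite (IsLocalRing.ResidueField A) ∧
      ∀ I : Ideal A, Finite (A ⧸ I) → FlatLevel p ρ I :=
  Iff.rfl

/-- The transition map `V ⧸ I V → V ⧸ I' V` for `I ≤ I'`. -/
def levelTrans (ρ : GaloisRepAdic A) {I I' : Ideal A} (h : I ≤ I') : Lev ρ I →ₗ[A] Lev ρ I' :=
  Submodule.mapQ _ _ LinearMap.id (by
    rw [Submodule.comap_id]
    exact Submodule.smul_mono_left h)

theorem levelTrans_mk (ρ : GaloisRepAdic A) {I I' : Ideal A} (h : I ≤ I') (v : ρ.V) :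
    levelTrans ρ h (Submodule.Quotient.mk v) = Submodule.Quotient.mk v := rfl

theorem levelTrans_surjective (ρ : GaloisRepAdic A) {I I' : Ideal A} (h : I ≤ I') :
    Function.Surjective (levelTrans ρ h) := by
  intro y
  obtain ⟨v, rfl⟩ := Submodule.Quotient.mk_surjective _ y
  exact ⟨Submodule.Quotient.mk v, rfl⟩

theorem levelTrans_levelAction (ρ : GaloisRepAdic A) {I I' : Ideal A} (h : I ≤ I') (σ : GalQ)
    (x : Lev ρ I) :
    levelTrans ρ h (ρ.levelAction I σ x) = ρ.levelAction I' σ (levelTrans ρ h x) := by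
  obtain ⟨v, rfl⟩ := Submodule.Quotient.mk_surjective _ x
  rfl

variable {p : ℕ}

theorem FlatLevel.mono (hSub : HopfSubquotSpec p) {ρ : GaloisRepAdic A} {I I' : Ideal A}
    (h : I ≤ I') (hI : FlatLevel p ρ I) : FlatLevel p ρ I' :=
  HopfModel.quotient hSub (levelTrans ρ h).toAddMonoidHom (levelTrans_surjective ρ h)
    (fun σ x => levelTrans_levelAction ρ h σ x) hI

section BaseChangeAPI

variable (φ : A →+* B) (hφ : IsLocalHom φ) (ρ : GaloisRepAdic A)

/-- The pure tensor `b ⊗ v` as an element of the base change of `ρ`. -/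
def bcTmul (b : B) (v : ρ.V) : (ρ.baseChangeAlong φ hφ).V :=
  letI : Algebra A B := φ.toAlgebra
  (b ⊗ₜ[A] v : B ⊗[A] ρ.V)

theorem smul_bcTmul (c b : B) (v : ρ.V) :
    c • bcTmul φ hφ ρ b v = bcTmul φ hφ ρ (c * b) v := by
  letI : Algebra A B := φ.toAlgebra
  exact TensorProduct.smul_tmul' c b v

theorem bcTmul_sub_left (b b' : B) (v : ρ.V) :
    bcTmul φ hφ ρ (b - b') v = bcTmul φ hφ ρ b v - bcTmul φ hφ ρ b' v := by
  letI : Algebra A B := φ.toAlgebra
  exact TensorProduct.sub_tmul b b' v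

theorem bc_induction {P : (ρ.baseChangeAlong φ hφ).V → Prop} (h0 : P 0)
    (h1 : ∀ b v, P (bcTmul φ hφ ρ b v)) (h2 : ∀ x y, P x → P y → P (x + y))
    (w : (ρ.baseChangeAlong φ hφ).V) : P w := by
  letI : Algebra A B := φ.toAlgebra
  exact TensorProduct.induction_on (motive := fun w : B ⊗[A] ρ.V => P w) w h0 h1 h2

/-- The comparison map `V ⧸ φ⁻¹(J) V → V_B ⧸ J V_B`, `[v] ↦ [1 ⊗ v]` (`levelMap` of H966 with
the codomain written as a level of the base change). -/
def levelMapBC (J : Ideal B) : Lev ρ (J.comap φ) →+ Lev (ρ.baseChangeAlong φ hφ) J :=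
  levelMap (V := ρ.V) φ J

theorem levelMapBC_mk (J : Ideal B) (v : ρ.V) :
    levelMapBC φ hφ ρ J (Submodule.Quotient.mk v) =
      Submodule.Quotient.mk (bcTmul φ hφ ρ 1 v) := rfl

theorem levelMapBC_injective (J : Ideal B) : Function.Injective (levelMapBC φ hφ ρ J) :=
  levelMap_injective φ J

theorem levelMapBC_levelAction (J : Ideal B) (σ : GalQ) (x : Lev ρ (J.comap φ)) :
    levelMapBC φ hφ ρ J (ρ.levelAction (J.comap φ) σ x) =
      (ρ.baseChangeAlong φ hφ).levelAction J σ (levelMapBC φ hφ ρ J x) :=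
  levelMap_levelAction φ hφ ρ J σ x

theorem mk_bcTmul_eq (J : Ideal B) (b : B) (v : ρ.V) :
    (Submodule.Quotient.mk (bcTmul φ hφ ρ b v) : Lev (ρ.baseChangeAlong φ hφ) J) =
      b • levelMapBC φ hφ ρ J (Submodule.Quotient.mk v) := by
  rw [levelMapBC_mk, ← Submodule.Quotient.mk_smul, smul_bcTmul, mul_one]

theorem mk_bcTmul_congr (J : Ideal B) {b b' : B} (h : b - b' ∈ J) (v : ρ.V) :
    (Submodule.Quotient.mk (bcTmul φ hφ ρ b v) : Lev (ρ.baseChangeAlong φ hφ) J) =
      Submodule.Quotient.mk (bcTmul φ hφ ρ b' v) := by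
  rw [Submodule.Quotient.eq, ← bcTmul_sub_left]
  have : bcTmul φ hφ ρ (b - b') v = (b - b') • bcTmul φ hφ ρ 1 v := by
    rw [smul_bcTmul, mul_one]
  rw [this]
  exact Submodule.smul_mem_smul h Submodule.mem_top

end BaseChangeAPI

/-- Descent of flatness of a level along a local homomorphism. -/
theorem FlatLevel.comap (hSub : HopfSubquotSpec p) (φ : A →+* B) (hφ : IsLocalHom φ)
    {ρ : GaloisRepAdic A} {J : Ideal B} (h : FlatLevel p (ρ.baseChangeAlong φ hφ) J) :
    FlatLevel p ρ (J.comap φ) :=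
  HopfModel.sub hSub (levelMapBC φ hφ ρ J) (levelMapBC_injective φ hφ ρ J)
    (fun σ x => levelMapBC_levelAction φ hφ ρ J σ x) h

section Ascent

variable (φ : A →+* B) (hφ : IsLocalHom φ) (ρ : GaloisRepAdic A) (J : Ideal B)

/-- The map `(V ⧸ φ⁻¹(J) V)^(B ⧸ J) → V_B ⧸ J V_B`, `(x_c) ↦ ∑_c b_c • [1 ⊗ x_c]`, where
`b_c ∈ B` is a representative of `c ∈ B ⧸ J`. -/
def sumMap [Fintype (B ⧸ J)] :
    ((B ⧸ J) → Lev ρ (J.comap φ)) →+ Lev (ρ.baseChangeAlong φ hφ) J :=
  ∑ c : B ⧸ J,
    (DistribSMul.toAddMonoidHom (Lev (ρ.baseChangeAlong φ hφ) J) (Quotient.out c : B)).comp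
      ((levelMapBC φ hφ ρ J).comp (Pi.evalAddMonoidHom (fun _ => Lev ρ (J.comap φ)) c))

theorem sumMap_apply [Fintype (B ⧸ J)] (x : (B ⧸ J) → Lev ρ (J.comap φ)) :
    sumMap φ hφ ρ J x = ∑ c : B ⧸ J, (Quotient.out c : B) • levelMapBC φ hφ ρ J (x c) := by
  rw [sumMap, AddMonoidHom.finsetSum_apply]
  rfl

theorem sumMap_levelAction [Fintype (B ⧸ J)] (σ : GalQ) (x : (B ⧸ J) → Lev ρ (J.comap φ)) :
    sumMap φ hφ ρ J (fun c => ρ.levelAction (J.comap φ) σ (x c)) =
      (ρ.baseChangeAlong φ hφ).levelAction J σ (sumMap φ hφ ρ J x) := by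
  rw [sumMap_apply, sumMap_apply, map_sum]
  refine Finset.sum_congr rfl fun c _ => ?_
  rw [map_smul, levelMapBC_levelAction φ hφ ρ J σ (x c)]

open scoped Classical in
theorem sumMap_surjective [Fintype (B ⧸ J)] : Function.Surjective (sumMap φ hφ ρ J) := by
  intro y
  obtain ⟨w, rfl⟩ := Submodule.Quotient.mk_surjective _ y
  induction w using bc_induction φ hφ ρ with
  | h0 => exact ⟨0, map_zero _⟩
  | h1 b v =>
    refine ⟨Pi.single (Ideal.Quotient.mk J b) (Submodule.Quotient.mk v), ?_⟩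
    rw [sumMap_apply, Finset.sum_eq_single (Ideal.Quotient.mk J b)]
    · rw [Pi.single_eq_same, ← mk_bcTmul_eq]
      refine mk_bcTmul_congr φ hφ ρ J ?_ v
      rw [← Ideal.Quotient.eq]
      exact Quotient.out_eq _
    · intro c _ hc
      rw [Pi.single_eq_of_ne hc, map_zero, smul_zero]
    · intro h
      exact absurd (Finset.mem_univ _) h
  | h2 x y hx hy =>
    obtain ⟨x', hx'⟩ := hx
    obtain ⟨y', hy'⟩ := hy
    exact ⟨x' + y', by rw [map_add, hx', hy']; rfl⟩

end Ascent

/-- Ascent of flatness of a level along a local homomorphism. -/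
theorem FlatLevel.baseChange (hSub : HopfSubquotSpec p) (hProd : HopfProdSpec p) (φ : A →+* B)
    (hφ : IsLocalHom φ) {ρ : GaloisRepAdic A} {J : Ideal B} [Finite (B ⧸ J)]
    (h : FlatLevel p ρ (J.comap φ)) : FlatLevel p (ρ.baseChangeAlong φ hφ) J := by
  letI : Fintype (B ⧸ J) := Fintype.ofFinite _
  exact HopfModel.quotient hSub (sumMap φ hφ ρ J) (sumMap_surjective φ hφ ρ J)
    (fun σ x => sumMap_levelAction φ hφ ρ J σ x) (HopfModel.pi hSub hProd h (B ⧸ J))

section Fibre

variable {P : Type} [CommRing P] [IsLocalRing P]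
  (pA : P →+* A) (hpA : IsLocalHom pA) (pB : P →+* B) (hpB : IsLocalHom pB)
  (ρ : GaloisRepAdic P)

/-- The map `V ⧸ 0 → (V_A ⧸ 0) × (V_B ⧸ 0)`. -/
def fibreMap : Lev ρ ⊥ →+ Lev (ρ.baseChangeAlong pA hpA) ⊥ × Lev (ρ.baseChangeAlong pB hpB) ⊥ :=
  AddMonoidHom.prod
    ((levelMapBC pA hpA ρ ⊥).comp
      (levelTrans ρ (bot_le : (⊥ : Ideal P) ≤ (⊥ : Ideal A).comap pA)).toAddMonoidHom)
    ((levelMapBC pB hpB ρ ⊥).comp
      (levelTrans ρ (bot_le : (⊥ : Ideal P) ≤ (⊥ : Ideal B).comap pB)).toAddMonoidHom)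

theorem fibreMap_levelAction (σ : GalQ) (x : Lev ρ ⊥) :
    fibreMap pA hpA pB hpB ρ (ρ.levelAction ⊥ σ x) =
      ((ρ.baseChangeAlong pA hpA).levelAction ⊥ σ (fibreMap pA hpA pB hpB ρ x).1,
        (ρ.baseChangeAlong pB hpB).levelAction ⊥ σ (fibreMap pA hpA pB hpB ρ x).2) := by
  refine Prod.ext ?_ ?_
  · change levelMapBC pA hpA ρ ⊥ (levelTrans ρ
      (bot_le : (⊥ : Ideal P) ≤ (⊥ : Ideal A).comap pA) (ρ.levelAction ⊥ σ x)) = _
    rw [levelTrans_levelAction, levelMapBC_levelAction]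
    rfl
  · change levelMapBC pB hpB ρ ⊥ (levelTrans ρ
      (bot_le : (⊥ : Ideal P) ≤ (⊥ : Ideal B).comap pB) (ρ.levelAction ⊥ σ x)) = _
    rw [levelTrans_levelAction, levelMapBC_levelAction]
    rfl

theorem fibreMap_injective (hinj : Function.Injective (fun x => (pA x, pB x))) :
    Function.Injective (fibreMap pA hpA pB hpB ρ) := by
  rw [injective_iff_map_eq_zero]
  intro x hx
  obtain ⟨v, rfl⟩ := Submodule.Quotient.mk_surjective _ x
  have h1 : levelMapBC pA hpA ρ ⊥ (levelTrans ρ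
      (bot_le : (⊥ : Ideal P) ≤ (⊥ : Ideal A).comap pA) (Submodule.Quotient.mk v)) = 0 :=
    congrArg Prod.fst hx
  have h2 : levelMapBC pB hpB ρ ⊥ (levelTrans ρ
      (bot_le : (⊥ : Ideal P) ≤ (⊥ : Ideal B).comap pB) (Submodule.Quotient.mk v)) = 0 :=
    congrArg Prod.snd hx
  rw [← map_zero (levelMapBC pA hpA ρ ⊥)] at h1
  rw [← map_zero (levelMapBC pB hpB ρ ⊥)] at h2
  have h1' := levelMapBC_injective pA hpA ρ ⊥ h1
  have h2' := levelMapBC_injective pB hpB ρ ⊥ h2
  rw [levelTrans_mk, Submodule.Quotient.mk_eq_zero] at h1' h2'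
  let b := Module.Free.chooseBasis P ρ.V
  have hv : v = 0 := by
    rw [← b.sum_repr v]
    refine Finset.sum_eq_zero fun i _ => ?_
    have hc : b.repr v i = 0 := by
      apply hinj
      have e1 : pA (b.repr v i) = 0 := by
        have := repr_mem_of_mem_smul_top b _ h1' i
        simpa using this
      have e2 : pB (b.repr v i) = 0 := by
        have := repr_mem_of_mem_smul_top b _ h2' i
        simpa using this
      simp only [e1, e2, map_zero]
    rw [hc, zero_smul]
  rw [hv]
  rfl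

end Fibre

/-- Flatness of the level `⊥` descends along a jointly injective pair. -/
theorem FlatLevel.of_jointly_injective (hSub : HopfSubquotSpec p) (hProd : HopfProdSpec p)
    {P : Type} [CommRing P] [IsLocalRing P] (pA : P →+* A) (hpA : IsLocalHom pA)
    (pB : P →+* B) (hpB : IsLocalHom pB) (hinj : Function.Injective (fun x => (pA x, pB x)))
    {ρ : GaloisRepAdic P} (hA : FlatLevel p (ρ.baseChangeAlong pA hpA) ⊥)
    (hB : FlatLevel p (ρ.baseChangeAlong pB hpB) ⊥) : FlatLevel p ρ ⊥ :=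
  HopfModel.sub hSub (fibreMap pA hpA pB hpB ρ) (fibreMap_injective pA hpA pB hpB ρ hinj)
    (fun σ x => fibreMap_levelAction pA hpA pB hpB ρ σ x) (hProd _ _ _ _ hA hB)

end Fermat.Agent.S59.H779

end
end
-- ===== PACK-END S59/H779/FlatLevels.lean

-- ===== PACK-BEGIN S53/Rigid/Statement.lean
section



/-!
# Block B deliverable: `Spec.RigidStatement`
-/

set_option autoImplicit false

namespace Fermat.Agent.S53.Rigid

open IsLocalRing

theorem isLift_of_spec {𝒪 : Type} [CommRing 𝒪] [IsLocalRing 𝒪] {Γ : Type} [Group Γ]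
    {rbar : Γ →* Matrix (Fin 2) (Fin 2) (ResidueField 𝒪)}
    {A : Type} [CommRing A] [IsLocalRing A] [Algebra 𝒪 A] [IsLocalHom (algebraMap 𝒪 A)]
    {r : Γ →* Matrix (Fin 2) (Fin 2) A} (h : Spec.IsLift rbar r) : IsLift rbar r := by
  intro γ
  ext p q
  simpa using h γ p q

theorem spec_of_isLift {𝒪 : Type} [CommRing 𝒪] [IsLocalRing 𝒪] {Γ : Type} [Group Γ]
    {rbar : Γ →* Matrix (Fin 2) (Fin 2) (ResidueField 𝒪)}
    {A : Type} [CommRing A] [IsLocalRing A] [Algebra 𝒪 A] [IsLocalHom (algebraMap 𝒪 A)]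
    {r : Γ →* Matrix (Fin 2) (Fin 2) A} (h : IsLift rbar r) : Spec.IsLift rbar r := by
  intro γ p q
  have := congrFun (congrFun (h γ) p) q
  simpa using this

/-- The normal form package attached to rigidification data. -/
noncomputable def RigidData.toPackage {𝒪 : Type} [CommRing 𝒪] [IsLocalRing 𝒪] {Γ : Type} [Group Γ]
    {rbar : Γ →* Matrix (Fin 2) (Fin 2) (ResidueField 𝒪)} (D : RigidData 𝒪 rbar) :
    Spec.NormalFormPackage 𝒪 Γ rbar where
  m := 3
  g := D.g
  i := D.i
  j := D.j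
  d := D.c
  base := fun a => (D.hc a).symm
  rigid := fun A _ _ _ _ _ r r' hr hr' hn hn' P h =>
    (D.rigid (isLift_of_spec hr) (isLift_of_spec hr') hn hn' P P.isUnit h).1
  exists_normalized := fun A _ _ _ _ _ r hr => by
    obtain ⟨P, r', _, hr', hn', h⟩ := D.exists_normalized (isLift_of_spec hr)
    exact ⟨P, r', spec_of_isLift hr', hn', h⟩

/-- DELIVERABLE of block B. -/
theorem rigidStatement : Spec.RigidStatement := by
  intro 𝒪 _ _ _ _ Γ _ rbar₀ hschur
  obtain ⟨D⟩ := exists_rigidData 𝒪 rbar₀ hschur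
  exact ⟨1, rbar₀, fun γ => by simp, ⟨D.toPackage⟩⟩

end Fermat.Agent.S53.Rigid

end
-- ===== PACK-END S53/Rigid/Statement.lean

-- ===== PACK-BEGIN S41/H761/HKSystems.lean
section




/-!
# The coset systems of block HK (helper761, row S41)

* `ιN N : Γ₀(N) →* GL(2, ℝ)`;
* `heckeSystem` : the Hecke representatives `heckeRep p x`, `x ∈ ℙ¹(𝔽_p)`, form a coset system
  from `Γ₀(N)` to `Γ₀(N)`, whose transfer is `heckeTransfer` (S29/H642);
* `heckeSystem_transitive` : `Γ₀(N)` acts transitively on `ℙ¹(𝔽_p)` (`p ∤ N`).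
-/

set_option autoImplicit false

namespace Fermat.Agent.S41.H761

open CongruenceSubgroup Matrix.SpecialLinearGroup ModularForm
open Fermat.Agent.S29.H642 Fermat.Agent.S41.Spec
open P2MW.S_ModularForm_heckeT_slash_eq_self_of_mem_Gamma0.ModularForm.HeckeSlashInvariance
open scoped MatrixGroups

/-- The embedding `Γ₀(N) → GL(2, ℝ)`. -/
noncomputable def ιN (N : ℕ) : Gamma0 N →* GL (Fin 2) ℝ := (mapGL ℝ).comp (Gamma0 N).subtype

theorem ιN_injective (N : ℕ) : Function.Injective (ιN N) :=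
  mapGL_real_injective.comp Subtype.val_injective

theorem ιN_apply {N : ℕ} (g : Gamma0 N) : ιN N g = mapGL ℝ (g : SL(2, ℤ)) := rfl

theorem coe_mapGL_apply (g : SL(2, ℤ)) (i j : Fin 2) :
    ((mapGL ℝ g : GL (Fin 2) ℝ) : Matrix (Fin 2) (Fin 2) ℝ) i j = ((g i j : ℤ) : ℝ) := by
  simp

theorem coe_ιN_apply {N : ℕ} (g : Gamma0 N) (i j : Fin 2) :
    ((ιN N g : GL (Fin 2) ℝ) : Matrix (Fin 2) (Fin 2) ℝ) i j = (((g : SL(2, ℤ)) i j : ℤ) : ℝ) :=
  coe_mapGL_apply _ i j

/-- Entries of a product in `GL(2, ℝ)`. -/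
theorem coe_mul_apply (X Y : GL (Fin 2) ℝ) (i j : Fin 2) :
    ((X * Y : GL (Fin 2) ℝ) : Matrix (Fin 2) (Fin 2) ℝ) i j =
      (X : Matrix (Fin 2) (Fin 2) ℝ) i 0 * (Y : Matrix (Fin 2) (Fin 2) ℝ) 0 j +
      (X : Matrix (Fin 2) (Fin 2) ℝ) i 1 * (Y : Matrix (Fin 2) (Fin 2) ℝ) 1 j := by
  rw [Matrix.GeneralLinearGroup.coe_mul, Matrix.mul_apply, Fin.sum_univ_two]

/-- Equality in `GL(2, ℝ)` from equality of the four entries. -/
theorem gl_ext {X Y : GL (Fin 2) ℝ}
    (h00 : (X : Matrix (Fin 2) (Fin 2) ℝ) 0 0 = (Y : Matrix (Fin 2) (Fin 2) ℝ) 0 0)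
    (h01 : (X : Matrix (Fin 2) (Fin 2) ℝ) 0 1 = (Y : Matrix (Fin 2) (Fin 2) ℝ) 0 1)
    (h10 : (X : Matrix (Fin 2) (Fin 2) ℝ) 1 0 = (Y : Matrix (Fin 2) (Fin 2) ℝ) 1 0)
    (h11 : (X : Matrix (Fin 2) (Fin 2) ℝ) 1 1 = (Y : Matrix (Fin 2) (Fin 2) ℝ) 1 1) : X = Y := by
  apply Units.ext
  ext i j
  fin_cases i <;> fin_cases j
  · exact h00
  · exact h01
  · exact h10
  · exact h11

section Hecke

variable {p : ℕ} [Fact p.Prime] {N : ℕ}

theorem coe_heckeRep_infty :
    ((heckeRep p OnePoint.infty : GL (Fin 2) ℝ) : Matrix (Fin 2) (Fin 2) ℝ) =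
      !![(p : ℝ), 0; 0, 1] := by
  rw [heckeRep_infty, val_heckeDiagMatrix (Fact.out : p.Prime).ne_zero]

theorem coe_heckeRep_coe (j : ZMod p) :
    ((heckeRep p (j : OnePoint (ZMod p)) : GL (Fin 2) ℝ) : Matrix (Fin 2) (Fin 2) ℝ) =
      !![(1 : ℝ), (j.val : ℝ); 0, (p : ℝ)] := by
  rw [heckeRep_coe, val_heckeMatrix (Fact.out : p.Prime).ne_zero]

/-- The lower left entry of a Hecke representative vanishes, the diagonal is `(1, p)` or `(p, 1)`. -/
theorem heckeRep_entries (x : OnePoint (ZMod p)) :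
    ((heckeRep p x : GL (Fin 2) ℝ) : Matrix (Fin 2) (Fin 2) ℝ) 1 0 = 0 := by
  induction x using OnePoint.rec with
  | infty => rw [coe_heckeRep_infty]; simp
  | coe j => rw [coe_heckeRep_coe]; simp

/-- Distinct Hecke representatives lie in distinct left cosets of `SL(2, ℤ)`. -/
theorem heckeRep_eq_of_mul {x y : OnePoint (ZMod p)} {g : SL(2, ℤ)}
    (e : heckeRep p x = mapGL ℝ g * heckeRep p y) : x = y := by
  have hp : (p : ℝ) ≠ 0 := by exact_mod_cast (Fact.out : p.Prime).ne_zero
  have hp2 : (2 : ℝ) ≤ p := by exact_mod_cast (Fact.out : p.Prime).two_le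
  have e00 := congrArg (fun M : GL (Fin 2) ℝ => (M : Matrix (Fin 2) (Fin 2) ℝ) 0 0) e
  have e01 := congrArg (fun M : GL (Fin 2) ℝ => (M : Matrix (Fin 2) (Fin 2) ℝ) 0 1) e
  have e10 := congrArg (fun M : GL (Fin 2) ℝ => (M : Matrix (Fin 2) (Fin 2) ℝ) 1 0) e
  have e11 := congrArg (fun M : GL (Fin 2) ℝ => (M : Matrix (Fin 2) (Fin 2) ℝ) 1 1) e
  simp only [coe_mul_apply, coe_mapGL_apply] at e00 e01 e10 e11
  induction x using OnePoint.rec with
  | infty =>
    induction y using OnePoint.rec with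
    | infty => rfl
    | coe k =>
      exfalso
      simp only [coe_heckeRep_infty, coe_heckeRep_coe, Matrix.of_apply, Matrix.cons_val',
        Matrix.cons_val_zero, Matrix.cons_val_one, Matrix.cons_val_fin_one, mul_one, mul_zero,
        add_zero] at e00 e01 e10 e11
      -- g10 = 0, g11 * p = 1
      have h10 : ((g 1 0 : ℤ) : ℝ) = 0 := e10.symm
      rw [h10, zero_mul, zero_add] at e11
      have h11 : (g 1 1 : ℤ) * (p : ℤ) = 1 := by exact_mod_cast e11.symm
      have := Int.isUnit_iff.mp (IsUnit.of_mul_eq_one _ (by rw [mul_comm]; exact h11) : IsUnit (p : ℤ))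
      have hp2' : (2 : ℤ) ≤ p := by exact_mod_cast (Fact.out : p.Prime).two_le
      omega
  | coe j =>
    induction y using OnePoint.rec with
    | infty =>
      exfalso
      simp only [coe_heckeRep_infty, coe_heckeRep_coe, Matrix.of_apply, Matrix.cons_val',
        Matrix.cons_val_zero, Matrix.cons_val_one, Matrix.cons_val_fin_one, mul_one, mul_zero,
        add_zero] at e00 e01 e10 e11
      have h00 : (g 0 0 : ℤ) * (p : ℤ) = 1 := by exact_mod_cast e00.symm
      have := Int.isUnit_iff.mp (IsUnit.of_mul_eq_one _ (by rw [mul_comm]; exact h00) : IsUnit (p : ℤ))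
      have hp2' : (2 : ℤ) ≤ p := by exact_mod_cast (Fact.out : p.Prime).two_le
      omega
    | coe k =>
      simp only [coe_heckeRep_coe, Matrix.of_apply, Matrix.cons_val',
        Matrix.cons_val_zero, Matrix.cons_val_one, Matrix.cons_val_fin_one, mul_one, mul_zero,
        add_zero] at e00 e01 e10 e11
      have h00 : ((g 0 0 : ℤ) : ℝ) = 1 := e00.symm
      rw [h00, one_mul] at e01
      have h01 : (j.val : ℤ) = k.val + g 0 1 * p := by
        have : ((j.val : ℤ) : ℝ) = ((k.val + g 0 1 * p : ℤ) : ℝ) := by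
          push_cast
          linarith
        exact_mod_cast this
      have hjk : ((j.val : ℤ) : ZMod p) = ((k.val : ℤ) : ZMod p) := by
        rw [h01]
        push_cast
        simp
      simp only [Int.cast_natCast, ZMod.natCast_zmod_val] at hjk
      rw [hjk]

/-- The Hecke representatives form a coset system from `Γ₀(N)` to `Γ₀(N)`. -/
theorem heckeSystem (hpN : ¬ p ∣ N) : IsCosetSystem (ιN N) (ιN N) (heckeRep p) where
  inj := ιN_injective N
  exists_mul := by
    intro x γ
    refine ⟨hPerm p (γ : SL(2, ℤ)) x, hElt hpN γ x, ?_⟩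
    rw [ιN_apply, ιN_apply]
    exact hElt_spec hpN γ x
  eq_of_mul := by
    intro x y g e
    rw [ιN_apply] at e
    exact heckeRep_eq_of_mul e

theorem heckeSystem_spec (hpN : ¬ p ∣ N) (x : OnePoint (ZMod p)) (γ : Gamma0 N) :
    heckeRep p x * ιN N γ = ιN N (hElt hpN γ x) * heckeRep p (hPerm p (γ : SL(2, ℤ)) x) := by
  rw [ιN_apply, ιN_apply]
  exact hElt_spec hpN γ x

theorem heckeSystem_act (hpN : ¬ p ∣ N) (x : OnePoint (ZMod p)) (γ : Gamma0 N) :
    (heckeSystem hpN).act x γ = hPerm p (γ : SL(2, ℤ)) x :=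
  (heckeSystem hpN).act_eq (heckeSystem_spec hpN x γ)

theorem heckeSystem_coc (hpN : ¬ p ∣ N) (x : OnePoint (ZMod p)) (γ : Gamma0 N) :
    (heckeSystem hpN).coc x γ = hElt hpN γ x :=
  (heckeSystem hpN).coc_eq (heckeSystem_spec hpN x γ)

/-- `heckeTransfer` is the transfer of the Hecke coset system. -/
theorem heckeTransfer_eq_transfer {A : Type*} [AddCommGroup A] (hpN : ¬ p ∣ N)
    (φ : Additive (Gamma0 N) →+ A) : heckeTransfer hpN φ = (heckeSystem hpN).transfer φ := by
  refine AddMonoidHom.ext fun g' => ?_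
  obtain ⟨g, rfl⟩ : ∃ g : Gamma0 N, Additive.ofMul g = g' := ⟨Additive.toMul g', rfl⟩
  rw [heckeTransfer_apply, IsCosetSystem.transfer_apply]
  exact Finset.sum_congr rfl fun x _ => by rw [heckeSystem_coc]

/-- Construction of an element of `Γ₀(N)` from its entries. -/
def mkGamma0 (N : ℕ) (a b c d : ℤ) (hdet : a * d - b * c = 1) (hc : (N : ℤ) ∣ c) : Gamma0 N :=
  ⟨⟨!![a, b; c, d], by rw [Matrix.det_fin_two_of]; exact hdet⟩,
    mem_Gamma0_of_dvd (by simpa using hc)⟩

theorem mkGamma0_apply (N : ℕ) (a b c d : ℤ) (hdet : a * d - b * c = 1) (hc : (N : ℤ) ∣ c) :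
    ((mkGamma0 N a b c d hdet hc : Gamma0 N) : SL(2, ℤ)) 0 0 = a ∧
    ((mkGamma0 N a b c d hdet hc : Gamma0 N) : SL(2, ℤ)) 0 1 = b ∧
    ((mkGamma0 N a b c d hdet hc : Gamma0 N) : SL(2, ℤ)) 1 0 = c ∧
    ((mkGamma0 N a b c d hdet hc : Gamma0 N) : SL(2, ℤ)) 1 1 = d := by
  simp [mkGamma0]

/-- Every point of `ℙ¹(𝔽_p)` is in the orbit of `∞` under `Γ₀(N)` (`p ∤ N`). -/
theorem exists_act_infty (hpN : ¬ p ∣ N) (y : OnePoint (ZMod p)) :
    ∃ γ : Gamma0 N, (heckeSystem hpN).act OnePoint.infty γ = y := by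
  induction y using OnePoint.rec with
  | infty => exact ⟨1, (heckeSystem hpN).act_one _⟩
  | coe j =>
    have hcop : IsCoprime (N : ℤ) (p : ℤ) := by
      rw [Int.isCoprime_iff_gcd_eq_one, Int.gcd_natCast_natCast]
      exact (Nat.Coprime.symm ((Fact.out : p.Prime).coprime_iff_not_dvd.mpr hpN))
    obtain ⟨u, v, huv⟩ := hcop
    -- `u * N + v * p = 1`
    let γ : Gamma0 N := mkGamma0 N 1 ((j.val : ℤ) - u) N (1 + N * ((j.val : ℤ) - u)) (by ring)
      (dvd_refl _)
    let g : Gamma0 N := mkGamma0 N p (-u) N v (by linear_combination huv) (dvd_refl _)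
    refine ⟨γ, (heckeSystem hpN).act_eq (g := g) ?_⟩
    obtain ⟨γ00, γ01, γ10, γ11⟩ := mkGamma0_apply N 1 ((j.val : ℤ) - u) N
      (1 + N * ((j.val : ℤ) - u)) (by ring) (dvd_refl _)
    obtain ⟨g00, g01, g10, g11⟩ := mkGamma0_apply N p (-u) N v (by linear_combination huv)
      (dvd_refl _)
    have huv' : (u : ℝ) * N + v * p = 1 := by exact_mod_cast huv
    apply gl_ext <;>
      simp only [coe_mul_apply, coe_ιN_apply, coe_heckeRep_infty, coe_heckeRep_coe, Matrix.of_apply,
        Matrix.cons_val', Matrix.cons_val_zero, Matrix.cons_val_one, Matrix.cons_val_fin_one,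
        γ, g, γ00, γ01, γ10, γ11, g00, g01, g10, g11] <;>
      push_cast
    · ring
    · ring
    · ring
    · linear_combination (-1 : ℝ) * huv'

/-- `Γ₀(N)` acts transitively on `ℙ¹(𝔽_p)` (`p ∤ N`). -/
theorem heckeSystem_transitive (hpN : ¬ p ∣ N) (y y' : OnePoint (ZMod p)) :
    ∃ γ : Gamma0 N, (heckeSystem hpN).act y γ = y' := by
  obtain ⟨γ, hγ⟩ := exists_act_infty hpN y
  obtain ⟨γ', hγ'⟩ := exists_act_infty hpN y'
  refine ⟨γ⁻¹ * γ', ?_⟩
  have h1 : (heckeSystem hpN).act y γ⁻¹ = OnePoint.infty := by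
    rw [← hγ, ← (heckeSystem hpN).act_mul, mul_inv_cancel, (heckeSystem hpN).act_one]
  rw [(heckeSystem hpN).act_mul, h1, hγ']

end Hecke

end Fermat.Agent.S41.H761

end
-- ===== PACK-END S41/H761/HKSystems.lean

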