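import Mathlib
import Fermat.Prelude.Def_GaloisRep_CompletionBridge
import Mathlib.Algebra.Module.ZLattice.Basic
import Mathlib.RepresentationTheory.Homological.GroupCohomology.Hilbert90
import Fermat.Agent.Pack.S43GC.G0E5L2
import Fermat.Agent.Pack.S43GC.G0E0L3
import Fermat.Agent.Pack.S43GC.G0E6L0
import Fermat.Agent.Pack.S43GC.G0E6L3
import Fermat.Agent.Pack.S43GC.G0E6L1
import Fermat.Agent.Pack.S43GC.G0E1L2
import Fermat.Agent.Pack.S44C.G0E6L2
import Fermat.Agent.Pack.S44C.G0E12L3
import Fermat.Agent.Pack.S43GC.G0E1L0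
import Fermat.Agent.Pack.S43GC.G0E3L2
import Fermat.Agent.Pack.S43GC.G0E3L0
import Fermat.Agent.Pack.S43GC.G0E5L0
import Fermat.Agent.Pack.S43GC.G0E4L0
import Fermat.Agent.Pack.S43GC.G0E6L2
import Fermat.Agent.Pack.S43GC.G0E7L1
import Fermat.Agent.Pack.Fast891

-- ===== PACK-BEGIN S55/Inv/WrH413/Zeta.lean
section





/-!
# S55 / INV-WR (helper413), part 3: the coefficient maps `ZMod p → ℚ̄ˣ → ℚ̄_qˣ`

`kap p : ZMod p →+ Additive ℚ̄ˣ`, `a ↦ ζ ^ a` (`ζ` a primitive `p`-th root of unity): injective,
onto the `p`-torsion, equivariant for the mod `p` cyclotomic character.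
`lamq p q : ZMod p →+ Additive ℚ̄_qˣ` : its composition with `padicEmbedding q`.
-/

set_option autoImplicit false
set_option linter.style.haveILetI false

namespace Fermat.Agent.S55.Inv.H413

open ExtCitation

local notation "Qb" => AlgebraicClosure ℚ
local notation "GQ" => (AlgebraicClosure ℚ ≃ₐ[ℚ] AlgebraicClosure ℚ)

section Global

variable (p : ℕ) [Fact p.Prime]

/-- The coefficient map `ZMod p → ℚ̄ˣ`, `a ↦ ζ ^ a`. -/
noncomputable def kap : ZMod p →+ Additive Qbˣ :=
  (MonoidHom.toAdditive (Subgroup.subtype (rootsOfUnity p Qb))).comp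
    (Bridge.muPLinearEquiv p).toLinearMap.toAddMonoidHom

/-- the value of `kap` as an element of `ℚ̄` -/
noncomputable def kapV (a : ZMod p) : Qb := ((Additive.toMul (kap p a) : Qbˣ) : Qb)

lemma kapV_eq (a : ZMod p) :
    kapV p a = (((Bridge.muPLinearEquiv p a).root : Qbˣ) : Qb) := rfl

lemma kap_injective : Function.Injective (kap p) := by
  intro a a' h
  apply (Bridge.muPLinearEquiv p).injective
  apply Bridge.MuP.root_injective
  apply Subtype.ext
  exact h

lemma kap_pow (a : ZMod p) : (Additive.toMul (kap p a) : Qbˣ) ^ p = 1 := by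
  have h := (mem_rootsOfUnity p _).1 ((Bridge.muPLinearEquiv p a).root).2
  exact h

lemma kap_surj (z : Qbˣ) (hz : z ^ p = 1) : ∃ a, kap p a = Additive.ofMul z := by
  have hmem : z ∈ rootsOfUnity p Qb := (mem_rootsOfUnity p z).2 hz
  refine ⟨(Bridge.muPLinearEquiv p).symm (Bridge.MuP.of p ⟨z, hmem⟩), ?_⟩
  show Additive.ofMul ((((Bridge.muPLinearEquiv p)
    ((Bridge.muPLinearEquiv p).symm (Bridge.MuP.of p ⟨z, hmem⟩))).root : Qbˣ)) = Additive.ofMul z
  rw [LinearEquiv.apply_symm_apply]
  rfl

lemma kapV_equivariant (σ : GQ) (a : ZMod p) :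
    kapV p (((cycloChar p σ : (ZMod p)ˣ) : ZMod p) * a) = σ (kapV p a) := by
  rw [kapV_eq, kapV_eq, ← Bridge.muPRep_apply, Bridge.muPRep_apply_smul, ← smul_eq_mul,
    map_smul]

end Global

section Local

variable (p : ℕ) [Fact p.Prime] (q : ℕ) [Fact q.Prime]

local notation "Ω" => PadicAlgCl q
local notation "Gq" => (PadicAlgCl q ≃ₐ[ℚ_[q]] PadicAlgCl q)

/-- The coefficient map `ZMod p → ℚ̄_qˣ`. -/
noncomputable def lamq : ZMod p →+ Additive Ωˣ :=
  (MonoidHom.toAdditive (Units.map ((padicEmbedding q : Qb →ₐ[ℚ] Ω) : Qb →* Ω))).comp (kap p)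

lemma lamq_val (a : ZMod p) :
    ((Additive.toMul (lamq p q a) : Ωˣ) : Ω) = padicEmbedding q (kapV p a) := rfl

lemma lamq_injective : Function.Injective (lamq p q) := by
  intro a a' h
  apply kap_injective p
  apply Additive.toMul.injective
  apply Units.ext
  have hinj : Function.Injective (padicEmbedding q) := (padicEmbedding q).injective
  apply hinj
  have := congrArg (fun m : Additive Ωˣ => ((Additive.toMul m : Ωˣ) : Ω)) h
  exact this

lemma lamq_surj (z : Ωˣ) (hz : z ^ p = 1) : ∃ a, lamq p q a = Additive.ofMul z := by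
  have hp0 : p ≠ 0 := (Fact.out : p.Prime).ne_zero
  have hz' : (z : Ω) ^ p = 1 := by
    rw [← Units.val_pow_eq_pow_val, hz, Units.val_one]
  obtain ⟨w, hw⟩ := Bridge.mem_range_padicEmbedding_of_root q
    (Polynomial.X ^ p - 1 : Polynomial ℚ) (Polynomial.X_pow_sub_C_ne_zero
      (Nat.pos_of_ne_zero hp0) 1) (z : Ω) (by simp [hz'])
  have hinj : Function.Injective (padicEmbedding q) := (padicEmbedding q).injective
  have hwp : w ^ p = 1 := by
    apply hinj
    rw [map_pow, hw, hz', map_one]
  have hw0 : w ≠ 0 := by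
    rintro rfl
    rw [zero_pow hp0] at hwp
    exact zero_ne_one hwp
  obtain ⟨a, ha⟩ := kap_surj p (Units.mk0 w hw0) (by
    apply Units.ext
    rw [Units.val_pow_eq_pow_val, Units.val_mk0, hwp, Units.val_one])
  refine ⟨a, ?_⟩
  apply Additive.toMul.injective
  apply Units.ext
  rw [lamq_val]
  have : kapV p a = w := by
    unfold kapV
    rw [ha]
    rfl
  rw [this, hw]
  rfl

lemma lamq_equivariant (g : Gq) (a : ZMod p) :
    ((Additive.toMul (lamq p q (((cycloChar p (localGaloisToGlobal q g) : (ZMod p)ˣ) : ZMod p)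
      * a)) : Ωˣ) : Ω) = g ((Additive.toMul (lamq p q a) : Ωˣ) : Ω) := by
  rw [lamq_val, lamq_val, kapV_equivariant, padicEmbedding_localGaloisToGlobal]

lemma norm_lamq (a : ZMod p) (σ : GQ) : ‖padicEmbedding q (σ (kapV p a))‖ = 1 := by
  have hp0 : p ≠ 0 := (Fact.out : p.Prime).ne_zero
  have h1 : (padicEmbedding q (σ (kapV p a))) ^ p = 1 := by
    rw [← map_pow, ← map_pow]
    have : kapV p a ^ p = 1 := by
      unfold kapV
      rw [← Units.val_pow_eq_pow_val, kap_pow, Units.val_one]
    rw [this, map_one, map_one]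
  have h2 : ‖padicEmbedding q (σ (kapV p a))‖ ^ p = 1 := by
    rw [← norm_pow, h1, norm_one]
  exact (pow_eq_one_iff_of_nonneg (norm_nonneg _) hp0).1 h2

end Local

end Fermat.Agent.S55.Inv.H413

end
-- ===== PACK-END S55/Inv/WrH413/Zeta.lean

-- ===== PACK-BEGIN S55/Local/H904/LF.lean
section


/-!
# S55, layer L, pieces LF1, LF2, LF3, LF4, LF8 (helper904)

Exact `Statement`s of `Fermat/Agent/S55/Local/Spec.lean`:
* `intOrInv      : IntOrInvStatement`      (LF1)
* `existsUnif    : ExistsUnifStatement`    (LF2)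
* `intUnitsComap : IntUnitsComapStatement` (LF3)
* `galoisInv     : GaloisInvStatement`     (LF4)
* `normUnitsInt  : NormUnitsIntStatement`  (LF8)
-/

set_option autoImplicit false
set_option linter.unusedSectionVars false
set_option linter.style.haveILetI false

namespace Fermat.Agent.S55.Local.H904

open IsLocalRing

/-! ## Dictionary -/

section Dict

variable (A F : Type) [CommRing A] [Field F] [Algebra A F]
  (L : Type) [Field L] [Algebra F L]

/-- `IsInt` is integrality for the algebra structure `(toL A F L).toAlgebra`. -/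
lemma isInt_iff_mem (x : L) :
    letI : Algebra A L := (toL A F L).toAlgebra
    IsInt A F L x ↔ x ∈ integralClosure A L := Iff.rfl

variable {A F L} in
/-- A unit of `L` whose value and inverse are integral is an integral unit. -/
lemma mem_intUnits_of_isInt {x : Lˣ} (h1 : IsInt A F L (x : L))
    (h2 : IsInt A F L ((x : L)⁻¹)) : x ∈ intUnits A F L := by
  refine ⟨h1, ?_⟩
  rwa [Units.val_inv_eq_inv_val]

variable {A F L} in
lemma isInt_inv_of_mem_intUnits {x : Lˣ} (h : x ∈ intUnits A F L) :
    IsInt A F L ((x : L)⁻¹) := by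
  have := h.2
  rwa [Units.val_inv_eq_inv_val] at this

variable {A F L} in
/-- Ring homomorphisms commuting with the structure maps preserve integrality. -/
lemma IsInt.map {L' : Type} [Field L'] [Algebra F L'] (φ : L →+* L')
    (hφ : ∀ a : A, φ (toL A F L a) = toL A F L' a) {x : L} (hx : IsInt A F L x) :
    IsInt A F L' (φ x) := by
  obtain ⟨p, hp, hpx⟩ := hx
  refine ⟨p, hp, ?_⟩
  have hcomp : toL A F L' = φ.comp (toL A F L) := by
    ext a
    exact (hφ a).symm
  rw [hcomp, ← Polynomial.hom_eval₂, hpx, map_zero]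

variable {A F L} in
/-- Injective ring homomorphisms commuting with the structure maps reflect integrality. -/
lemma IsInt.of_map {L' : Type} [Field L'] [Algebra F L'] (φ : L →+* L')
    (hφ : ∀ a : A, φ (toL A F L a) = toL A F L' a) {x : L} (hx : IsInt A F L' (φ x)) :
    IsInt A F L x := by
  obtain ⟨p, hp, hpx⟩ := hx
  refine ⟨p, hp, ?_⟩
  have hcomp : toL A F L' = φ.comp (toL A F L) := by
    ext a
    exact (hφ a).symm
  rw [hcomp, ← Polynomial.hom_eval₂] at hpx
  exact φ.injective (by rw [hpx, map_zero])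

end Dict

/-! ## LF1 -/

/-- (LF1) the integers of a local field form a valuation ring. -/
theorem intOrInv : IntOrInvStatement := by
  intro A F _ _ _ _ _ _ _ _ _ L _ _ _ x
  letI : Algebra A L := (toL A F L).toAlgebra
  haveI : IsScalarTower A F L := IsScalarTower.of_algebraMap_eq (fun _ => rfl)
  haveI := lf0_isDVR A F L
  haveI := lf0_isFractionRing A F L
  rcases ValuationRing.isInteger_or_isInteger (integralClosure A L) x with ⟨b, hb⟩ | ⟨b, hb⟩
  · left
    rw [← hb]
    exact b.2
  · right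
    rw [← hb]
    exact b.2

/-! ## LF3 -/

/-- (LF3) `U_L ∩ Kˣ = U_K`. -/
theorem intUnitsComap : IntUnitsComapStatement := by
  intro A F _ _ _ _ _ _ _ _ _ K _ _ _ L _ _ _ _ _ y
  have hφ : ∀ a : A, (algebraMap K L) (toL A F K a) = toL A F L a := by
    intro a
    simp only [toL_apply]
    exact (IsScalarTower.algebraMap_apply F K L _).symm
  constructor
  · rintro ⟨h1, h2⟩
    refine ⟨IsInt.of_map (algebraMap K L) hφ (by simpa using h1), ?_⟩
    refine IsInt.of_map (algebraMap K L) hφ ?_
    have : ((unitsIncl L K y)⁻¹ : Lˣ) = unitsIncl L K y⁻¹ := (map_inv _ _).symm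
    rw [this] at h2
    simpa using h2
  · rintro ⟨h1, h2⟩
    refine ⟨by simpa using IsInt.map (algebraMap K L) hφ h1, ?_⟩
    have : ((unitsIncl L K y)⁻¹ : Lˣ) = unitsIncl L K y⁻¹ := (map_inv _ _).symm
    rw [this]
    simpa using IsInt.map (algebraMap K L) hφ h2

/-! ## LF8 -/

/-- (LF8) norms of integral units are integral units. -/
theorem normUnitsInt : NormUnitsIntStatement := by
  intro A F _ _ _ _ _ _ _ _ _ K _ _ _ L _ _ _ _ _ x hx
  letI : Algebra A L := (toL A F L).toAlgebra
  letI : Algebra A K := (toL A F K).toAlgebra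
  haveI : IsScalarTower A K L := IsScalarTower.of_algebraMap_eq (fun a => by
    change toL A F L a = algebraMap K L (toL A F K a)
    simp only [toL_apply]
    exact IsScalarTower.algebraMap_apply F K L _)
  have key : ∀ z : L, IsInt A F L z → IsInt A F K (Algebra.norm K z) := fun z hz =>
    Algebra.isIntegral_norm K (R := A) hz
  refine ⟨key _ hx.1, ?_⟩
  have : ((normUnits L K x)⁻¹ : Kˣ) = normUnits L K x⁻¹ := (map_inv _ _).symm
  rw [this]
  exact key _ hx.2

/-! ## LF4 -/

section Galois

variable (A F : Type) [CommRing A] [Field F] [Algebra A F]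
  (K : Type) [Field K] [Algebra F K]
  (L : Type) [Field L] [Algebra F L] [Algebra K L] [IsScalarTower F K L]

variable {A F K L} in
/-- Automorphisms over `K` preserve integrality. -/
lemma isInt_smul (σ : L ≃ₐ[K] L) {x : L} (hx : IsInt A F L x) : IsInt A F L (σ x) := by
  refine IsInt.map (σ : L →+* L) (fun a => ?_) hx
  simp only [toL_apply]
  rw [IsScalarTower.algebraMap_apply F K L]
  exact σ.commutes _

variable {A F K L} in
lemma smul_mem_intUnits (σ : L ≃ₐ[K] L) {x : Lˣ} (hx : x ∈ intUnits A F L) :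
    σ • x ∈ intUnits A F L := by
  refine ⟨isInt_smul (A := A) (F := F) σ hx.1, ?_⟩
  have : ((σ • x)⁻¹ : Lˣ) = σ • x⁻¹ := (smul_inv' σ x).symm
  rw [this]
  exact isInt_smul (A := A) (F := F) σ hx.2

variable {A F K L} in
/-- If `z` is integral and `∏_{i<d} σ^i z = 1` (`d ≥ 1`), then `z` is an integral unit. -/
lemma mem_intUnits_of_prod_eq_one (σ : L ≃ₐ[K] L) (d : ℕ) (z : Lˣ)
    (hz : IsInt A F L (z : L)) (hprod : ∏ i ∈ Finset.range (d + 1), (σ ^ i) • z = 1) :
    z ∈ intUnits A F L := by
  refine ⟨hz, ?_⟩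
  rw [Finset.prod_range_succ', pow_zero, one_smul] at hprod
  have hinv : (z⁻¹ : Lˣ) = ∏ i ∈ Finset.range d, (σ ^ (i + 1)) • z := by
    rw [eq_comm, ← mul_eq_one_iff_eq_inv]
    exact hprod
  rw [hinv, Units.coe_prod]
  have : ∀ (s : Finset ℕ), IsInt A F L (∏ i ∈ s, (((σ ^ (i + 1)) • z : Lˣ) : L)) := by
    intro s
    induction s using Finset.cons_induction with
    | empty => simpa using isInt_one A F L
    | cons a s ha ih =>
      rw [Finset.prod_cons]
      exact (isInt_smul (A := A) (F := F) (σ ^ (a + 1)) hz).mul ih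
  exact this _

end Galois

/-- (LF4) automorphisms preserve the valuation. -/
theorem galoisInv : GaloisInvStatement := by
  intro A F _ _ _ _ _ _ _ _ _ K _ _ _ L _ _ _ _ _ σ x
  haveI : FiniteDimensional F L := FiniteDimensional.trans F K L
  haveI : Finite (L ≃ₐ[K] L) := inferInstance
  obtain ⟨d, hd⟩ : ∃ d : ℕ, σ ^ (d + 1) = 1 := by
    have hpos : 0 < orderOf σ := orderOf_pos σ
    refine ⟨orderOf σ - 1, ?_⟩
    rw [Nat.sub_add_cancel hpos, pow_orderOf_eq_one]
  set y : Lˣ := σ • x / x with hy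
  have hsmul : ∀ i : ℕ, (σ ^ i) • y = ((σ ^ (i + 1)) • x) / ((σ ^ i) • x) := by
    intro i
    rw [hy, smul_div', smul_smul, ← pow_succ]
  have hprod : ∏ i ∈ Finset.range (d + 1), (σ ^ i) • y = 1 := by
    simp_rw [hsmul]
    rw [Finset.prod_range_div (fun i => (σ ^ i) • x), hd, pow_zero, one_smul, div_self']
  have hprod' : ∏ i ∈ Finset.range (d + 1), (σ ^ i) • y⁻¹ = 1 := by
    simp_rw [smul_inv']
    rw [Finset.prod_inv_distrib, hprod, inv_one]
  rcases intOrInv A F L (y : L) with h | h
  · exact mem_intUnits_of_prod_eq_one (A := A) (F := F) σ d y h hprod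
  · have h' : IsInt A F L ((y⁻¹ : Lˣ) : L) := by rwa [Units.val_inv_eq_inv_val]
    have := mem_intUnits_of_prod_eq_one (A := A) (F := F) σ d y⁻¹ h' hprod'
    simpa using (intUnits A F L).inv_mem this

/-! ## LF2 -/

/-- (LF2) existence of a uniformizer. -/
theorem existsUnif : ExistsUnifStatement := by
  intro A F _ _ _ _ _ _ _ _ _ L _ _ _
  letI : Algebra A L := (toL A F L).toAlgebra
  haveI : IsScalarTower A F L := IsScalarTower.of_algebraMap_eq (fun _ => rfl)
  haveI := lf0_isDVR A F L
  haveI := lf0_isFractionRing A F L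
  obtain ⟨ϖ, hϖ⟩ := IsDiscreteValuationRing.exists_irreducible (integralClosure A L)
  have hinj : Function.Injective (algebraMap (integralClosure A L) L) :=
    IsFractionRing.injective _ _
  have hϖ0 : (algebraMap (integralClosure A L) L ϖ) ≠ 0 := by
    rw [Ne, map_eq_zero_iff _ hinj]
    exact hϖ.ne_zero
  -- units of `B` give integral units of `L`
  have hunit : ∀ u : (integralClosure A L)ˣ,
      Units.map (algebraMap (integralClosure A L) L).toMonoidHom u ∈ intUnits A F L := by
    intro u
    refine ⟨(u : integralClosure A L).2, ?_⟩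
    have : ((Units.map (algebraMap (integralClosure A L) L).toMonoidHom u)⁻¹ : Lˣ) =
        Units.map (algebraMap (integralClosure A L) L).toMonoidHom u⁻¹ := (map_inv _ _).symm
    rw [this]
    exact ((u⁻¹ : (integralClosure A L)ˣ) : integralClosure A L).2
  refine ⟨Units.mk0 _ hϖ0, ϖ.2, ?_, ?_⟩
  · rintro ⟨-, h2⟩
    rw [Units.val_inv_eq_inv_val, Units.val_mk0] at h2
    apply hϖ.not_isUnit
    refine isUnit_iff_exists_inv.mpr ⟨⟨_, h2⟩, ?_⟩
    apply hinj
    simp only [map_mul, map_one]
    exact mul_inv_cancel₀ hϖ0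
  · intro x
    obtain ⟨a, b, hb, hab⟩ := IsFractionRing.div_surjective (A := integralClosure A L) (x : L)
    have hb0 : b ≠ 0 := nonZeroDivisors.ne_zero hb
    have ha0 : a ≠ 0 := by
      rintro rfl
      rw [map_zero, zero_div] at hab
      exact x.ne_zero hab.symm
    obtain ⟨m, u, hu⟩ := IsDiscreteValuationRing.eq_unit_mul_pow_irreducible ha0 hϖ
    obtain ⟨k, v, hv⟩ := IsDiscreteValuationRing.eq_unit_mul_pow_irreducible hb0 hϖ
    refine ⟨(m : ℤ) - k, ?_⟩
    have hx : x = Units.map (algebraMap (integralClosure A L) L).toMonoidHom (u / v) *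
        (Units.mk0 _ hϖ0) ^ ((m : ℤ) - k) := by
      apply Units.ext
      rw [← hab, hu, hv]
      simp only [map_mul, map_pow, Units.val_mul, Units.coe_map, RingHom.toMonoidHom_eq_coe,
        MonoidHom.coe_coe, Units.val_zpow_eq_zpow_val, Units.val_mk0, map_div, Units.val_div_eq_div_val]
      rw [zpow_sub₀ hϖ0, zpow_natCast, zpow_natCast]
      have hv0 : (algebraMap (integralClosure A L) L) (v : integralClosure A L) ≠ 0 := by
        rw [Ne, map_eq_zero_iff _ hinj]
        exact v.ne_zero
      field_simp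
    have : x * (Units.mk0 _ hϖ0) ^ (-((m : ℤ) - k)) =
        Units.map (algebraMap (integralClosure A L) L).toMonoidHom (u / v) := by
      rw [hx, mul_assoc, ← zpow_add]
      simp
    rw [this]
    exact hunit _

end Fermat.Agent.S55.Local.H904

end
-- ===== PACK-END S55/Local/H904/LF.lean

-- ===== PACK-BEGIN S55/H713/Hilbert90.lean
section


/-!
# Hilbert's theorem 90 for cyclic extensions, multiplicative form
-/

set_option autoImplicit false
set_option linter.unusedSectionVars false

namespace Fermat.Agent.S55.H713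

open groupCohomology

variable {F E : Type*} [Field F] [Field E] [Algebra F E] [FiniteDimensional F E]

/-- partial norms `∏_{i<j} σ^i x`. -/
noncomputable def partNorm (σ : Gal(E/F)) (x : Eˣ) (j : ℕ) : Eˣ :=
  ∏ i ∈ Finset.range j, actU (σ ^ i) x

lemma partNorm_add (σ : Gal(E/F)) (x : Eˣ) (j l : ℕ) :
    partNorm σ x (j + l) = partNorm σ x j * actU (σ ^ j) (partNorm σ x l) := by
  induction l with
  | zero => simp [partNorm]
  | succ l ih =>
    rw [← add_assoc, partNorm, Finset.prod_range_succ, ← partNorm, ih]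
    have : partNorm σ x (l + 1) = partNorm σ x l * actU (σ ^ l) x := by
      rw [partNorm, Finset.prod_range_succ]; rfl
    rw [this, map_mul, ← actU_mul, ← pow_add, mul_assoc]

lemma partNorm_orderOf (σ : Gal(E/F)) (hσ : ∀ g, g ∈ Subgroup.zpowers σ) (x : Eˣ) :
    partNorm σ x (orderOf σ) = normU Gal(E/F) x := by
  classical
  rw [normU_apply, partNorm, ← IsCyclic.image_range_orderOf hσ,
    Finset.prod_image]
  intro i hi j hj hij
  exact pow_injOn_Iio_orderOf (by simpa using hi) (by simpa using hj) hij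

lemma partNorm_add_mul_orderOf (σ : Gal(E/F)) (hσ : ∀ g, g ∈ Subgroup.zpowers σ) (x : Eˣ)
    (hx : normU Gal(E/F) x = 1) (j q : ℕ) :
    partNorm σ x (j + q * orderOf σ) = partNorm σ x j := by
  induction q with
  | zero => simp
  | succ q ih =>
    have : j + (q + 1) * orderOf σ = (j + q * orderOf σ) + orderOf σ := by ring
    rw [this, partNorm_add, partNorm_orderOf σ hσ, hx, map_one, mul_one, ih]

lemma partNorm_congr (σ : Gal(E/F)) (hσ : ∀ g, g ∈ Subgroup.zpowers σ) (x : Eˣ)
    (hx : normU Gal(E/F) x = 1) {j l : ℕ} (h : σ ^ j = σ ^ l) :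
    partNorm σ x j = partNorm σ x l := by
  wlog hjl : j ≤ l generalizing j l
  · exact (this h.symm (le_of_not_ge hjl)).symm
  rw [pow_eq_pow_iff_modEq] at h
  obtain ⟨q, hq⟩ := (Nat.modEq_iff_dvd' hjl).1 h
  have : l = j + q * orderOf σ := by
    have := Nat.sub_add_cancel hjl
    rw [hq] at this
    rw [← this]; ring
  rw [this, partNorm_add_mul_orderOf σ hσ x hx]

lemma smul_units_eq_actU (g : Gal(E/F)) (y : Eˣ) : g • y = actU g y := by
  ext
  rfl

/-- **Hilbert 90**, cyclic form. -/
theorem hilbert90_cyclic (σ : Gal(E/F)) (hσ : ∀ g, g ∈ Subgroup.zpowers σ) (x : Eˣ)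
    (hx : normU Gal(E/F) x = 1) : ∃ y : Eˣ, sigmaSubOne σ y = x := by
  have hpow : ∀ g : Gal(E/F), ∃ j : ℕ, σ ^ j = g := by
    intro g
    have h := hσ g
    rw [← (isOfFinOrder_of_finite σ).mem_powers_iff_mem_zpowers] at h
    exact (Submonoid.mem_powers_iff _ _).1 h
  choose j hj using hpow
  have hcoc : IsMulCocycle₁ (fun g : Gal(E/F) => partNorm σ x (j g)) := by
    intro g h
    have h1 : partNorm σ x (j (g * h)) = partNorm σ x (j g + j h) :=
      partNorm_congr σ hσ x hx (by rw [hj, pow_add, hj, hj])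
    show partNorm σ x (j (g * h)) = g • partNorm σ x (j h) * partNorm σ x (j g)
    rw [h1, partNorm_add, hj, smul_units_eq_actU, mul_comm]
  obtain ⟨y, hy⟩ := isMulCoboundary₁_of_isMulCocycle₁_of_aut_to_units _ hcoc
  refine ⟨y, ?_⟩
  have h1 : σ • y / y = partNorm σ x (j σ) := hy σ
  have h2 : partNorm σ x (j σ) = partNorm σ x 1 :=
    partNorm_congr σ hσ x hx (by rw [hj, pow_one])
  rw [h2] at h1
  rw [sigmaSubOne_apply, ← smul_units_eq_actU, h1]
  simp [partNorm, actU_one]

end Fermat.Agent.S55.H713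

end
-- ===== PACK-END S55/H713/Hilbert90.lean

-- ===== PACK-BEGIN S55/G/Exist121/Spec.lean
section



/-!
# S55, layer G, block EXIST (global existence theorem mod `p`): INTERFACE

Author: helper121.  Plan: `coord/S55-G-EXIST.md`.  Only definitions and `def XxxSpec : Prop`.
Vocabulary: `G/Defs.lean` (helper421), `G/Spec.lean`, `T/Spec.lean`, `Exist121/Index.lean`.

Target (`GD6` of `coord/S55-E1.md`, intrinsic model): `ExistCoreSpec` —
for `L/K` Galois with `p`-group `G`, unramified outside `S ∋ p`, `μ_p ⊂ K`, such that every element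
of the `p`-Selmer group `V_S(K) = {x ∈ Kˣ | p ∣ ord_w x ∀ w ∉ S}` is a `p`-th power in `L`:
`N_G C_S(L) ⊆ p · C_S(L)^G`.

Leaves:
* `RecipSpec`      reciprocity isomorphism `G^ab ≃ C_S(L)^G / N_G C_S(L)` for `p`-groups
                   (from `PClassModuleSpec` + `T.ClassModuleOfCyclicSpec` + `T.TateReciprocitySpec`);
* `DescentTopSpec` `C_S(K) ≃ C_S(L)^G` (from `DescentSpec`);
* `PowIndexSpec`   `[J_S(K) : p J_S(K)] = [E_S(K) : p E_S(K)]²` (local power index + `S`-units);
* `ShaBoundSpec`   `[Sha : pKˣ] ≤ [Cl_S : p Cl_S]`;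
* `CountSpec`      `[C_S(K) : p C_S(K)] ≤ [V_S(K) : pKˣ]`, finite (from the two previous ones).
-/

set_option autoImplicit false

open scoped NumberField
open IsDedekindDomain

noncomputable section

namespace Fermat.Agent.S55.G.Exist121

open Fermat.Agent.S55.G

/-- The `p`-Selmer group `V_S(K) = {x ∈ Kˣ | p ∣ ord_w(x) for all w ∉ S}` (additively). -/
def selmer (S : Finset Nat.Primes) (K : Type) [Field K] [NumberField K] (p : ℕ) :
    AddSubgroup (Additive Kˣ) := selV (ordHom S K) p

/-- `Sha_S(K) = {x ∈ V_S(K) | x ⊗ 1 ∈ J_S(K)^p}` (additively). -/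
def shaS (S : Finset Nat.Primes) (K : Type) [Field K] [NumberField K] (p : ℕ) :
    AddSubgroup (Additive Kˣ) := sha (unitsDiag S K) (ordHom S K) p

lemma mem_selmer_iff (S : Finset Nat.Primes) (K : Type) [Field K] [NumberField K] (p : ℕ)
    (x : Additive Kˣ) :
    x ∈ selmer S K p ↔ ∃ d : PrimeOut S K →₀ ℤ, p • d = ordHom S K x := Iff.rfl

/-- **EX-REC (reciprocity isomorphism, `p`-groups).**  Let `p` be an odd prime, `p ∈ S`, `G` a
finite `p`-group acting faithfully on `L`, unramified outside `S`, `μ_p ⊂ L^G`.  Then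
`G^ab ≃ C_S(L)^G / N_G C_S(L)`. -/
def RecipSpec : Prop :=
  ∀ (p : ℕ) [hp : Fact p.Prime], p ≠ 2 →
  ∀ (S : Finset Nat.Primes) (G L : Type) [Group G] [Fintype G] [Field L] [NumberField L]
    [MulSemiringAction G L] [FaithfulSMul G L],
    (⟨p, hp.out⟩ : Nat.Primes) ∈ S → IsPGroup p G → IsUnramOut S G L →
    HasFixedRootOfUnity p G L →
    Nonempty (Additive (Abelianization G) ≃+ T.hat0 (CRep S G L))

/-- **EX-DESC (descent to the base field).**  For `L/K` Galois with group `G`, unramified outside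
`S ≠ ∅`: an injective map `ι : C_S(K) → C_S(L)` with image `C_S(L)^G`, which is the base change
map on the image of `J_S(K)`. -/
def DescentTopSpec : Prop :=
  ∀ (S : Finset Nat.Primes) (G K L : Type) [Group G] [Finite G] [Field K] [NumberField K]
    [Field L] [NumberField L] [Algebra K L] [MulSemiringAction G L] [IsGaloisGroup G K L],
    S.Nonempty → IsUnramOut S G L →
    ∃ ι : CS S K →+ CS S L,
      Function.Injective ι ∧
      (∀ c : CS S L, (∀ g : G, cRepr S G L g c = c) ↔ c ∈ Set.range ι) ∧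
      (∀ y : Additive (AS S K)ˣ,
        ι ((principal S K).mkQ (y, 0)) = (principal S L).mkQ (jMap S K L y, 0))

/-- **EX-POW (numerics).**  For a number field `K ∋ μ_p`, `p` odd, `p ∈ S`:
`[J_S(K) : p J_S(K)] = [E_S(K) : p E_S(K)]²`
(both sides are `p ^ (2 #{w | S} + [K : ℚ])`: local power index formula, Dirichlet's `S`-unit
theorem, `K` totally complex). -/
def PowIndexSpec : Prop :=
  ∀ (p : ℕ) [hp : Fact p.Prime], p ≠ 2 →
  ∀ (S : Finset Nat.Primes) (K : Type) [Field K] [NumberField K],
    (⟨p, hp.out⟩ : Nat.Primes) ∈ S → (∃ ζ : K, IsPrimitiveRoot ζ p) →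
    (pMul (Additive (AS S K)ˣ) p).index =
      ((pKer (ordHom S K) p).relIndex (ordHom S K).ker) ^ 2

/-- **EX-SHA.**  For a number field `K ∋ μ_p`, `p` odd, `p ∈ S`:
`[Sha_S(K) : p Kˣ] ≤ [Div^S(K) : div(Kˣ) + p Div^S(K)] = |Cl_S(K) / p|`.
(The extension `K(Sha^{1/p})/K` is unramified outside `S` and totally split above `S`; apply
the reciprocity isomorphism to it.) -/
def ShaBoundSpec : Prop :=
  ∀ (p : ℕ) [hp : Fact p.Prime], p ≠ 2 →
  ∀ (S : Finset Nat.Primes) (K : Type) [Field K] [NumberField K],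
    (⟨p, hp.out⟩ : Nat.Primes) ∈ S → (∃ ζ : K, IsPrimitiveRoot ζ p) →
    (pMul (Additive Kˣ) p).relIndex (shaS S K p) ≤
      ((ordHom S K).range ⊔ pMul (PrimeOut S K →₀ ℤ) p).index

/-- **EX-COUNT.**  For a number field `K ∋ μ_p`, `p` odd, `p ∈ S`: `C_S(K) / p` is finite and
`[C_S(K) : p C_S(K)] ≤ [V_S(K) : p Kˣ]`. -/
def CountSpec : Prop :=
  ∀ (p : ℕ) [hp : Fact p.Prime], p ≠ 2 →
  ∀ (S : Finset Nat.Primes) (K : Type) [Field K] [NumberField K],
    (⟨p, hp.out⟩ : Nat.Primes) ∈ S → (∃ ζ : K, IsPrimitiveRoot ζ p) →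
    (pMul (CS S K) p).index ≠ 0 ∧
    (pMul (CS S K) p).index ≤ (pMul (Additive Kˣ) p).relIndex (selmer S K p)

/-- **EX-CORE (existence theorem mod `p`, intrinsic form of `GD6`).**  Let `p` be an odd prime,
`p ∈ S`, `L/K` Galois with group `G` a `p`-group, unramified outside `S`, `μ_p ⊂ K`, and assume
that every element of the `p`-Selmer group `V_S(K)` is a `p`-th power in `L`.  Then
`N_G C_S(L) ⊆ p · C_S(L)^G`. -/
def ExistCoreSpec : Prop :=
  ∀ (p : ℕ) [hp : Fact p.Prime], p ≠ 2 →
  ∀ (S : Finset Nat.Primes) (G K L : Type) [Group G] [Fintype G] [Field K] [NumberField K]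
    [Field L] [NumberField L] [Algebra K L] [MulSemiringAction G L] [IsGaloisGroup G K L],
    (⟨p, hp.out⟩ : Nat.Primes) ∈ S → IsPGroup p G → IsUnramOut S G L →
    (∃ ζ : K, IsPrimitiveRoot ζ p) →
    (∀ x : Additive Kˣ, x ∈ selmer S K p →
      ∃ y : L, y ^ p = algebraMap K L ((x.toMul : Kˣ) : K)) →
    ∀ c : CS S L, ∃ c₀ : CS S L,
      (∀ g : G, cRepr S G L g c₀ = c₀) ∧ ∑ g : G, cRepr S G L g c = p • c₀

end Fermat.Agent.S55.G.Exist121

end
end
-- ===== PACK-END S55/G/Exist121/Spec.lean

-- ===== PACK-BEGIN S55/H604/SUnitLattice.lean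
section




/-!
# S55 / arithmetic leaf: Dirichlet's `S`-unit theorem

The logarithmic image of the `S`-units is a `ℤ`-lattice of rank `#(∞ ⊔ S) - 1`, the kernel of the
logarithm is finite, and `[E_S : E_S^n] = #μ_n · n ^ (#(∞ ⊔ S) - 1)`.
-/

set_option autoImplicit false

open NumberField IsDedekindDomain Module

namespace Fermat.Agent.S55.H604

variable (L : Type*) [Field L] [NumberField L] (S : Finset (HeightOneSpectrum (𝓞 L)))

/-- The lattice of logarithms of `S`-units. -/
noncomputable def sUnitLattice : Submodule ℤ (PlaceIdx L S → ℝ) :=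
  LinearMap.range (logS L S).toIntLinearMap

lemma mem_sUnitLattice {f : PlaceIdx L S → ℝ} :
    f ∈ sUnitLattice L S ↔ ∃ x, logS L S x = f := Iff.rfl

lemma coe_sUnitLattice :
    (sUnitLattice L S : Set (PlaceIdx L S → ℝ)) = Set.range (logS L S) := rfl

lemma sUnitLattice_inter_ball_finite (r : ℝ) :
    ((sUnitLattice L S : Set (PlaceIdx L S → ℝ)) ∩ Metric.closedBall 0 r).Finite := by
  by_cases hr : 0 ≤ r
  · refine ((finite_logS_le L S r).image (logS L S)).subset ?_
    rintro _ ⟨⟨x, rfl⟩, hx⟩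
    refine ⟨x, ?_, rfl⟩
    intro t
    rw [mem_closedBall_zero_iff, pi_norm_le_iff_of_nonneg hr] at hx
    simpa [Real.norm_eq_abs] using hx t
  · rw [Metric.closedBall_eq_empty.2 (not_le.1 hr), Set.inter_empty]
    exact Set.finite_empty

instance instDiscrete_sUnitLattice : DiscreteTopology (sUnitLattice L S) := by
  classical
  refine discreteTopology_of_isOpen_singleton_zero ?_
  refine isOpen_singleton_of_finite_mem_nhds 0 (s := Metric.closedBall 0 1) ?_ ?_
  · exact Metric.closedBall_mem_nhds _ (by simp)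
  · refine Set.Finite.of_finite_image ?_ (Set.injOn_of_injective Subtype.val_injective)
    refine (sUnitLattice_inter_ball_finite L S 1).subset ?_
    rintro _ ⟨x, hx, rfl⟩
    exact ⟨Subtype.mem x, hx⟩

/-- the kernel of the logarithm is finite. -/
instance finite_ker_logS : Finite (logS L S).ker := by
  have h := finite_logS_le L S 0
  refine Set.Finite.subset h ?_ |>.to_subtype
  intro x hx
  have hx' : logS L S x = 0 := hx
  intro t
  simp [hx']

lemma finrank_hyperplane :
    finrank ℝ (hyperplane L S) = Fintype.card (InfinitePlace L) + S.card - 1 := by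
  classical
  set φ : (PlaceIdx L S → ℝ) →ₗ[ℝ] ℝ := ∑ t : PlaceIdx L S, LinearMap.proj t with hφ
  have hsurj : LinearMap.range φ = ⊤ := by
    rw [LinearMap.range_eq_top]
    intro c
    obtain ⟨w⟩ : Nonempty (InfinitePlace L) := inferInstance
    refine ⟨Pi.single (Sum.inl w) c, ?_⟩
    rw [hφ, LinearMap.sum_apply]
    simp only [LinearMap.proj_apply]
    rw [Finset.sum_eq_single (Sum.inl w : PlaceIdx L S)]
    · simp
    · intro t _ ht
      simp [Pi.single_apply, ht]
    · intro h
      exact absurd (Finset.mem_univ _) h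
  have h := LinearMap.finrank_range_add_finrank_ker φ
  rw [hsurj, finrank_top, Module.finrank_self, Module.finrank_fintype_fun_eq_card,
    Fintype.card_sum, Fintype.card_coe] at h
  have : finrank ℝ (hyperplane L S) = finrank ℝ (LinearMap.ker φ) := rfl
  omega

/-- **Dirichlet's `S`-unit theorem (rank).** -/
theorem finrank_sUnitLattice :
    finrank ℤ (sUnitLattice L S) = Fintype.card (InfinitePlace L) + S.card - 1 := by
  have hd : DiscreteTopology (Submodule.span ℤ (sUnitLattice L S : Set (PlaceIdx L S → ℝ))) := by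
    rw [Submodule.span_eq]
    infer_instance
  have h := Real.finrank_eq_int_finrank_of_discrete hd
  rw [Set.finrank, Set.finrank, Submodule.span_eq, coe_sUnitLattice, span_logS,
    finrank_hyperplane] at h
  exact h.symm

/-- the logarithm, corestricted to the lattice. -/
noncomputable def logSLattice : Additive (SUnit L S) →+ sUnitLattice L S :=
  (logS L S).codRestrict (sUnitLattice L S).toAddSubgroup (fun x => ⟨x, rfl⟩)

lemma logSLattice_surjective : Function.Surjective (logSLattice L S) := by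
  rintro ⟨_, x, rfl⟩
  exact ⟨x, rfl⟩

lemma ker_logSLattice : (logSLattice L S).ker = (logS L S).ker := by
  ext x
  simp only [AddMonoidHom.mem_ker]
  constructor
  · intro h
    exact congrArg Subtype.val h
  · intro h
    exact Subtype.ext h

instance finite_ker_logSLattice : Finite (logSLattice L S).ker := by
  rw [ker_logSLattice]
  infer_instance

/-- **`S`-unit power index, additive form.** -/
theorem index_range_nsmul_sUnit (n : ℕ) (hn : n ≠ 0) :
    (nsmulAddMonoidHom (α := Additive (SUnit L S)) n).range.index =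
      Nat.card (nsmulAddMonoidHom (α := Additive (SUnit L S)) n).ker *
        n ^ (Fintype.card (InfinitePlace L) + S.card - 1) := by
  rw [← finrank_sUnitLattice L S]
  exact index_range_nsmul_of_finite_ker (logSLattice L S) (logSLattice_surjective L S) n hn

end Fermat.Agent.S55.H604

end
-- ===== PACK-END S55/H604/SUnitLattice.lean

-- ===== PACK-BEGIN S55/G/PermBasic.lean
section
/-
S55, layer G, block G-U (helper595): basic algebra of the permutation lattices `ℤ^X`, `ℝ^X`
of `SpecUnits.lean` (`permHom`, `permAug`, `permNorm`, `sumHom`, `traceZero`, `stabProd`).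
-/



set_option autoImplicit false

namespace Fermat.Agent.S55.G

universe u v

section Perm

variable (G : Type u) [Group G] (X : Type v) [MulAction G X]

@[simp] lemma permHom_apply (τ : G) (a : X → ℤ) (x : X) :
    permHom G X τ a x = a (τ⁻¹ • x) := rfl

@[simp] lemma permHomR_apply (τ : G) (a : X → ℝ) (x : X) :
    permHomR G X τ a x = a (τ⁻¹ • x) := rfl

lemma permHom_mul (σ τ : G) (a : X → ℤ) :
    permHom G X (σ * τ) a = permHom G X σ (permHom G X τ a) := by
  funext x
  simp only [permHom_apply, mul_inv_rev, mul_smul]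

lemma permHomR_mul (σ τ : G) (a : X → ℝ) :
    permHomR G X (σ * τ) a = permHomR G X σ (permHomR G X τ a) := by
  funext x
  simp only [permHomR_apply, mul_inv_rev, mul_smul]

lemma permHom_one (a : X → ℤ) : permHom G X 1 a = a := by
  funext x
  simp only [permHom_apply, inv_one, one_smul]

lemma permHomR_one (a : X → ℝ) : permHomR G X 1 a = a := by
  funext x
  simp only [permHomR_apply, inv_one, one_smul]

lemma permAug_apply (σ : G) (a : X → ℤ) :
    permAug G X σ a = permHom G X σ a - a := rfl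

lemma permAugR_apply (σ : G) (a : X → ℝ) :
    permAugR G X σ a = permHomR G X σ a - a := rfl

lemma permNorm_apply [Fintype G] (a : X → ℤ) :
    permNorm G X a = ∑ τ : G, permHom G X τ a := by
  unfold permNorm
  rw [AddMonoidHom.finsetSum_apply]

lemma permNormR_apply [Fintype G] (a : X → ℝ) :
    permNormR G X a = ∑ τ : G, permHomR G X τ a := by
  unfold permNormR
  rw [AddMonoidHom.finsetSum_apply]

lemma permHom_permNorm [Fintype G] (σ : G) (a : X → ℤ) :
    permHom G X σ (permNorm G X a) = permNorm G X a := by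
  rw [permNorm_apply, map_sum]
  simp only [← permHom_mul]
  exact Fintype.sum_equiv (Equiv.mulLeft σ) _ _ (fun _ => rfl)

lemma permHomR_permNormR [Fintype G] (σ : G) (a : X → ℝ) :
    permHomR G X σ (permNormR G X a) = permNormR G X a := by
  rw [permNormR_apply, map_sum]
  simp only [← permHomR_mul]
  exact Fintype.sum_equiv (Equiv.mulLeft σ) _ _ (fun _ => rfl)

lemma permNorm_permHom [Fintype G] (σ : G) (a : X → ℤ) :
    permNorm G X (permHom G X σ a) = permNorm G X a := by
  rw [permNorm_apply, permNorm_apply]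
  simp only [← permHom_mul]
  exact Fintype.sum_equiv (Equiv.mulRight σ) _ _ (fun _ => rfl)

lemma permNormR_permHomR [Fintype G] (σ : G) (a : X → ℝ) :
    permNormR G X (permHomR G X σ a) = permNormR G X a := by
  rw [permNormR_apply, permNormR_apply]
  simp only [← permHomR_mul]
  exact Fintype.sum_equiv (Equiv.mulRight σ) _ _ (fun _ => rfl)

lemma permAug_permNorm [Fintype G] (σ : G) (a : X → ℤ) :
    permAug G X σ (permNorm G X a) = 0 := by
  rw [permAug_apply, permHom_permNorm, sub_self]

lemma permNorm_permAug [Fintype G] (σ : G) (a : X → ℤ) :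
    permNorm G X (permAug G X σ a) = 0 := by
  rw [permAug_apply, map_sub, permNorm_permHom, sub_self]

lemma permAugR_permNormR [Fintype G] (σ : G) (a : X → ℝ) :
    permAugR G X σ (permNormR G X a) = 0 := by
  rw [permAugR_apply, permHomR_permNormR, sub_self]

lemma permNormR_permAugR [Fintype G] (σ : G) (a : X → ℝ) :
    permNormR G X (permAugR G X σ a) = 0 := by
  rw [permAugR_apply, map_sub, permNormR_permHomR, sub_self]

/-- The coefficientwise inclusion `ℤ^X → ℝ^X`. -/
def coeHomR : (X → ℤ) →+ (X → ℝ) where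
  toFun a x := (a x : ℝ)
  map_zero' := by funext x; simp
  map_add' a b := by funext x; simp

@[simp] lemma coeHomR_apply (a : X → ℤ) (x : X) : coeHomR X a x = (a x : ℝ) := rfl

lemma coeHomR_injective : Function.Injective (coeHomR X) := by
  intro a b h
  funext x
  have := congrFun h x
  simpa using this

lemma coeHomR_permHom (τ : G) (a : X → ℤ) :
    coeHomR X (permHom G X τ a) = permHomR G X τ (coeHomR X a) := rfl

lemma coeHomR_permAug (σ : G) (a : X → ℤ) :
    coeHomR X (permAug G X σ a) = permAugR G X σ (coeHomR X a) := by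
  rw [permAug_apply, permAugR_apply, map_sub, coeHomR_permHom]

lemma coeHomR_permNorm [Fintype G] (a : X → ℤ) :
    coeHomR X (permNorm G X a) = permNormR G X (coeHomR X a) := by
  rw [permNorm_apply, permNormR_apply, map_sum]
  simp only [coeHomR_permHom]

variable [Fintype X]

@[simp] lemma sumHom_apply (a : X → ℤ) : sumHom X a = ∑ x, a x := rfl

lemma sumHom_permHom (τ : G) (a : X → ℤ) : sumHom X (permHom G X τ a) = sumHom X a := by
  simp only [sumHom_apply, permHom_apply]
  exact Equiv.sum_comp (MulAction.toPerm τ⁻¹) a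

lemma sumHom_permAug (σ : G) (a : X → ℤ) : sumHom X (permAug G X σ a) = 0 := by
  rw [permAug_apply, map_sub, sumHom_permHom, sub_self]

lemma sumHom_permNorm [Fintype G] (a : X → ℤ) :
    sumHom X (permNorm G X a) = Fintype.card G • sumHom X a := by
  rw [permNorm_apply, map_sum]
  simp only [sumHom_permHom]
  rw [Finset.sum_const, Finset.card_univ]

lemma sumHom_surjective [Nonempty X] : Function.Surjective (sumHom X) := by
  classical
  obtain ⟨x₀⟩ := ‹Nonempty X›
  intro n
  refine ⟨Pi.single x₀ n, ?_⟩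
  simp only [sumHom_apply]
  rw [Finset.sum_pi_single']
  simp

lemma mem_traceZero (a : X → ℤ) : a ∈ traceZero X ↔ ∑ x, a x = 0 := Iff.rfl

lemma stabProd_ne_zero [Finite G] : stabProd G X ≠ 0 := by
  unfold stabProd
  refine Finset.prod_ne_zero_iff.2 (fun o _ => ?_)
  exact Nat.card_pos.ne'

end Perm

end Fermat.Agent.S55.G

end
-- ===== PACK-END S55/G/PermBasic.lean

-- ===== PACK-BEGIN S55/G/Log101.lean
section
/-
S55 / G-U / leaf GU-LOG (`UnitsLogSpec`): the equivariant logarithmic lattice of the units.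
Producer: helper101.
-/



set_option autoImplicit false
set_option linter.unusedSectionVars false

namespace Fermat.Agent.S55.G.Log101

open NumberField NumberField.InfinitePlace NumberField.Units
  NumberField.Units.dirichletUnitTheorem

universe u v

section Phi

variable (L : Type v) [Field L]

/-- The full logarithmic map `x ↦ (mult w * log (w x))_w` on `Lˣ`. -/
noncomputable def phi : Additive Lˣ →+ (InfinitePlace L → ℝ) where
  toFun x w := (mult w : ℝ) * Real.log (w ((Additive.toMul x : Lˣ) : L))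
  map_zero' := by
    funext w
    simp
  map_add' x y := by
    funext w
    have hx : w ((Additive.toMul x : Lˣ) : L) ≠ 0 :=
      (map_ne_zero w).mpr (Additive.toMul x).ne_zero
    have hy : w ((Additive.toMul y : Lˣ) : L) ≠ 0 :=
      (map_ne_zero w).mpr (Additive.toMul y).ne_zero
    simp only [toMul_add, Units.val_mul, map_mul, Pi.add_apply]
    rw [Real.log_mul hx hy, mul_add]

theorem phi_apply (x : Additive Lˣ) (w : InfinitePlace L) :
    phi L x w = (mult w : ℝ) * Real.log (w ((Additive.toMul x : Lˣ) : L)) := rfl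

end Phi

section Equivariant

variable (K : Type u) (L : Type v) [Field K] [Field L] [Algebra K L]

theorem mult_smul_eq (τ : L ≃ₐ[K] L) (w : InfinitePlace L) : mult (τ • w) = mult w := by
  have h : IsReal (τ • w) ↔ IsReal w := isReal_smul_iff
  by_cases hw : IsReal w
  · rw [IsReal.mult_eq_one hw, IsReal.mult_eq_one (h.mpr hw)]
  · have hw' : ¬ IsReal (τ • w) := fun h' => hw (h.mp h')
    rw [IsComplex.mult_eq_two (not_isReal_iff_isComplex.mp hw),
      IsComplex.mult_eq_two (not_isReal_iff_isComplex.mp hw')]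

theorem phi_equivariant (τ : L ≃ₐ[K] L) (x : Additive Lˣ) :
    phi L (unitsHom K L τ x) = permHomR (L ≃ₐ[K] L) (InfinitePlace L) τ (phi L x) := by
  funext w
  show phi L (unitsHom K L τ x) w = phi L x (τ⁻¹ • w)
  rw [phi_apply, phi_apply, mult_smul_eq, InfinitePlace.smul_apply]
  rfl

end Equivariant

section IntUnits

variable (L : Type v) [Field L] [NumberField L]

/-- The image in `Additive Lˣ` of a unit of the ring of integers. -/
noncomputable def uL (u : (𝓞 L)ˣ) : Additive Lˣ :=
  Additive.ofMul (Units.map ((algebraMap (𝓞 L) L : 𝓞 L →+* L) : 𝓞 L →* L) u)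

theorem mem_intUnits_iff (x : Additive Lˣ) : x ∈ intUnits L ↔ ∃ u : (𝓞 L)ˣ, uL L u = x := by
  constructor
  · rintro ⟨u, hu⟩
    exact ⟨u, hu⟩
  · rintro ⟨u, hu⟩
    exact ⟨u, hu⟩

theorem phi_uL (u : (𝓞 L)ˣ) (w : InfinitePlace L) :
    phi L (uL L u) w = (mult w : ℝ) * Real.log (w (u : L)) := rfl

theorem uL_mem_ker_iff (u : (𝓞 L)ˣ) : phi L (uL L u) = 0 ↔ u ∈ torsion L := by
  rw [mem_torsion]
  constructor
  · intro h w
    have := congrFun h w
    rw [phi_uL] at this
    exact mult_log_place_eq_zero.mp this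
  · intro h
    funext w
    rw [phi_uL, h w, Real.log_one, mul_zero]
    rfl

theorem finite_ker_inf : Finite ↥((phi L).ker ⊓ intUnits L) := by
  have hfin : (Set.range (fun t : torsion L => uL L (t : (𝓞 L)ˣ))).Finite := Set.finite_range _
  have hsub : (((phi L).ker ⊓ intUnits L : AddSubgroup (Additive Lˣ)) : Set (Additive Lˣ)) ⊆
      Set.range (fun t : torsion L => uL L (t : (𝓞 L)ˣ)) := by
    rintro x ⟨hx1, hx2⟩
    obtain ⟨u, rfl⟩ := (mem_intUnits_iff L x).mp hx2
    have hu : u ∈ torsion L := (uL_mem_ker_iff L u).mp hx1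
    exact ⟨⟨u, hu⟩, rfl⟩
  exact (hfin.subset hsub).to_subtype

end IntUnits

section Iota

open scoped Classical

variable (L : Type v) [Field L] [NumberField L]

/-- The extension of a function on the places `≠ w₀` to a trace-zero function on all places. -/
noncomputable def iota : logSpace L →ₗ[ℝ] (InfinitePlace L → ℝ) :=
  LinearMap.pi fun w =>
    if h : w = w₀ then -(∑ w' : {w : InfinitePlace L // w ≠ w₀}, LinearMap.proj w')
    else LinearMap.proj ⟨w, h⟩

theorem iota_apply_of_ne (f : logSpace L) (w : InfinitePlace L) (h : w ≠ w₀) :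
    iota L f w = f ⟨w, h⟩ := by
  simp [iota, h]

theorem iota_apply_w₀ (f : logSpace L) :
    iota L f w₀ = -∑ w' : {w : InfinitePlace L // w ≠ w₀}, f w' := by
  simp [iota]

theorem iota_injective : Function.Injective (iota L) := by
  intro f g hfg
  funext w'
  have := congrFun hfg w'.1
  rwa [iota_apply_of_ne L f w'.1 w'.2, iota_apply_of_ne L g w'.1 w'.2] at this

theorem sum_iota (f : logSpace L) : ∑ w : InfinitePlace L, iota L f w = 0 := by
  rw [Fintype.sum_eq_add_sum_subtype_ne _ (w₀ : InfinitePlace L), iota_apply_w₀]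
  have : ∀ w' : {w : InfinitePlace L // w ≠ w₀}, iota L f w'.1 = f w' :=
    fun w' => iota_apply_of_ne L f w'.1 w'.2
  simp only [this]
  exact neg_add_cancel _

theorem mem_traceZeroR_iff (g : InfinitePlace L → ℝ) :
    g ∈ traceZeroR L ↔ ∑ w : InfinitePlace L, g w = 0 := by
  unfold traceZeroR
  rw [LinearMap.mem_ker]
  simp

theorem range_iota : LinearMap.range (iota L) = traceZeroR L := by
  ext g
  rw [mem_traceZeroR_iff]
  constructor
  · rintro ⟨f, rfl⟩
    exact sum_iota L f
  · intro hg
    refine ⟨fun w' => g w'.1, ?_⟩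
    funext w
    by_cases h : w = w₀
    · subst h
      rw [iota_apply_w₀]
      rw [Fintype.sum_eq_add_sum_subtype_ne _ (w₀ : InfinitePlace L)] at hg
      linarith
    · rw [iota_apply_of_ne L _ w h]

theorem phi_uL_eq_iota (u : (𝓞 L)ˣ) :
    phi L (uL L u) = iota L (logEmbedding L (Additive.ofMul u)) := by
  funext w
  by_cases h : w = w₀
  · subst h
    rw [iota_apply_w₀, sum_logEmbedding_component, phi_uL]
    ring
  · rw [iota_apply_of_ne L _ w h, phi_uL]
    rfl

end Iota

section Basis

open scoped Classical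

variable (L : Type v) [Field L] [NumberField L]

/-- The real basis of `logSpace L` given by the `ℤ`-basis of the unit lattice. -/
noncomputable def logBasis : Module.Basis (Fin (Units.rank L)) ℝ (logSpace L) :=
  (basisUnitLattice L).ofZLatticeBasis ℝ (unitLattice L)

/-- The family `b` of the spec. -/
noncomputable def bFam : Fin (Units.rank L) → (InfinitePlace L → ℝ) :=
  fun i => iota L (logBasis L i)

theorem bFam_linearIndependent : LinearIndependent ℝ (bFam L) := by
  have h := (logBasis L).linearIndependent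
  exact h.map' (iota L) (LinearMap.ker_eq_bot.mpr (iota_injective L))

theorem range_bFam : Set.range (bFam L) = (iota L) '' Set.range (logBasis L) := by
  ext x
  constructor
  · rintro ⟨i, rfl⟩
    exact ⟨logBasis L i, ⟨i, rfl⟩, rfl⟩
  · rintro ⟨_, ⟨i, rfl⟩, rfl⟩
    exact ⟨i, rfl⟩

theorem span_real_bFam : Submodule.span ℝ (Set.range (bFam L)) = traceZeroR L := by
  rw [range_bFam, ← Submodule.map_span, (logBasis L).span_eq, Submodule.map_top, range_iota]

theorem span_int_logBasis : Submodule.span ℤ (Set.range (logBasis L)) = unitLattice L :=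
  (basisUnitLattice L).ofZLatticeBasis_span ℝ

theorem span_int_bFam :
    Submodule.span ℤ (Set.range (bFam L)) =
      (unitLattice L).map ((iota L).restrictScalars ℤ) := by
  rw [range_bFam, ← span_int_logBasis, Submodule.map_span]
  rfl

theorem map_phi_intUnits :
    (intUnits L).map (phi L) = (Submodule.span ℤ (Set.range (bFam L))).toAddSubgroup := by
  rw [span_int_bFam]
  ext x
  constructor
  · rintro ⟨y, hy, rfl⟩
    obtain ⟨u, rfl⟩ := (mem_intUnits_iff L y).mp hy
    refine ⟨logEmbedding L (Additive.ofMul u), ⟨Additive.ofMul u, trivial, rfl⟩, ?_⟩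
    exact (phi_uL_eq_iota L u).symm
  · rintro ⟨v, ⟨a, -, rfl⟩, rfl⟩
    refine ⟨uL L (Additive.toMul a), (mem_intUnits_iff L _).mpr ⟨_, rfl⟩, ?_⟩
    exact phi_uL_eq_iota L (Additive.toMul a)

end Basis

/-- **GU-LOG**: the equivariant logarithmic lattice of the units. -/
theorem unitsLogSpec : UnitsLogSpec.{u, v} := by
  intro K L _ _ _ _ _ _
  refine ⟨phi L, phi_equivariant K L, finite_ker_inf L, Units.rank L, bFam L,
    bFam_linearIndependent L, span_real_bFam L, map_phi_intUnits L⟩

end Fermat.Agent.S55.G.Log101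

end
-- ===== PACK-END S55/G/Log101.lean

-- ===== PACK-BEGIN S55/G/Orb434.lean
section
/-
S55, layer G, block G-U, leaf GU-ORB (helper434): orbits of the infinite places.
Proves `Fermat.Agent.S55.G.OrbitInfSpec` of `SpecUnits.lean` (sub-architect helper595).
-/



set_option autoImplicit false

namespace Fermat.Agent.S55.G.Orb434

open NumberField InfinitePlace

universe u v

/-- Orbit representatives: the class of `o.out` is `o`, so `orbitRelEquiv o` is the restriction
of `o.out` to the base field. -/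
theorem orbitRelEquiv_eq_comap_out (K : Type u) (L : Type v) [Field K] [Field L]
    [NumberField K] [NumberField L] [Algebra K L] [IsGalois K L]
    (o : MulAction.orbitRel.Quotient (L ≃ₐ[K] L) (InfinitePlace L)) :
    (orbitRelEquiv (k := K) (K := L)) o = (o.out).comap (algebraMap K L) := by
  conv_lhs => rw [← Quotient.out_eq o]
  rfl

/-- The stabiliser of an orbit representative has order `1` or `2` according to whether the place
below is unramified in `L` or not. -/
theorem card_stabilizer_out (K : Type u) (L : Type v) [Field K] [Field L]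
    [NumberField K] [NumberField L] [Algebra K L] [IsGalois K L]
    (o : MulAction.orbitRel.Quotient (L ≃ₐ[K] L) (InfinitePlace L)) :
    Nat.card (MulAction.stabilizer (L ≃ₐ[K] L) o.out) =
      (letI := Classical.propDecidable
          (((orbitRelEquiv (k := K) (K := L)) o).IsUnramifiedIn L)
       if ((orbitRelEquiv (k := K) (K := L)) o).IsUnramifiedIn L then 1 else 2) := by
  classical
  rw [orbitRelEquiv_eq_comap_out]
  by_cases h : (o.out).IsUnramified K
  · have h' : ((o.out).comap (algebraMap K L)).IsUnramifiedIn L := isUnramifiedIn_comap.mpr h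
    rw [if_pos h']
    exact (isUnramified_iff_card_stabilizer_eq_one (k := K)).mp h
  · have h' : ¬ ((o.out).comap (algebraMap K L)).IsUnramifiedIn L :=
      fun H => h (isUnramifiedIn_comap.mp H)
    rw [if_neg h']
    exact (not_isUnramified_iff_card_stabilizer_eq_two (k := K)).mp h

/-- **GU-ORB**: the stabiliser product of the Galois set of infinite places of `L` is the product
of the local degrees at the infinite places of `K`. -/
theorem orbitInfSpec : Fermat.Agent.S55.G.OrbitInfSpec.{u, v} := by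
  intro K L _ _ _ _ _ _
  classical
  unfold stabProd infDegProd
  letI : Fintype (MulAction.orbitRel.Quotient (L ≃ₐ[K] L) (InfinitePlace L)) :=
    Fintype.ofFinite _
  exact Fintype.prod_equiv (orbitRelEquiv (k := K) (K := L))
    (fun o : MulAction.orbitRel.Quotient (L ≃ₐ[K] L) (InfinitePlace L) =>
      Nat.card (MulAction.stabilizer (L ≃ₐ[K] L) o.out))
    (fun v : InfinitePlace K => (letI := Classical.propDecidable (v.IsUnramifiedIn L)
      if v.IsUnramifiedIn L then 1 else 2))
    (fun o => card_stabilizer_out K L o)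

end Fermat.Agent.S55.G.Orb434

end
-- ===== PACK-END S55/G/Orb434.lean

-- ===== PACK-BEGIN S55/Bridge/Restrict.lean
section



/-!
# S55 bridge, part B14: places of `ℚ̄` above a place of a subfield are conjugate;
restriction is onto on decomposition groups.
-/

set_option autoImplicit false
set_option linter.style.haveILetI false

namespace Fermat.Agent.S55.Bridge

open scoped Pointwise
open Fermat.Agent.S54

attribute [local instance] isAlgebraic_Qbar isGalois_Qbar

section Instances

variable (F : IntermediateField ℚ (AlgebraicClosure ℚ))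

theorem compactSpace_fixingSubgroup : CompactSpace ↥F.fixingSubgroup :=
  isCompact_iff_compactSpace.mp (InfiniteGalois.fixingSubgroup_isClosed F).isCompact

theorem totallyDisconnectedSpace_fixingSubgroup : TotallyDisconnectedSpace ↥F.fixingSubgroup :=
  Subtype.totallyDisconnectedSpace

theorem continuousSMul_fixingSubgroup :
    letI : TopologicalSpace (integralClosure ℤ (AlgebraicClosure ℚ)) := ⊥
    ContinuousSMul ↥F.fixingSubgroup (integralClosure ℤ (AlgebraicClosure ℚ)) := by
  letI : TopologicalSpace (integralClosure ℤ (AlgebraicClosure ℚ)) := ⊥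
  haveI := continuousSMul_integralClosure
  refine ⟨?_⟩
  have h : Continuous fun p : (AlgebraicClosure ℚ ≃ₐ[ℚ] AlgebraicClosure ℚ) ×
      (integralClosure ℤ (AlgebraicClosure ℚ)) => p.1 • p.2 := continuous_smul
  exact h.comp (continuous_subtype_val.prodMap continuous_id)

theorem smulCommClass_fixedPoints :
    SMulCommClass ↥F.fixingSubgroup
      (FixedPoints.subalgebra ℤ (integralClosure ℤ (AlgebraicClosure ℚ)) ↥F.fixingSubgroup)
      (integralClosure ℤ (AlgebraicClosure ℚ)) where
  smul_comm g a b := by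
    show g • (a.1 * b) = a.1 * g • b
    rw [smul_mul', a.2 g]

theorem isInvariant_fixedPoints :
    Algebra.IsInvariant
      (FixedPoints.subalgebra ℤ (integralClosure ℤ (AlgebraicClosure ℚ)) ↥F.fixingSubgroup)
      (integralClosure ℤ (AlgebraicClosure ℚ)) ↥F.fixingSubgroup :=
  ⟨fun b hb => ⟨⟨b, hb⟩, rfl⟩⟩

end Instances

section Prime

/-- A valuation subring over a prime is determined by the prime of `ℤ̄` below it. -/
theorem valuationSubring_ext_of_primeBelow {A A' : ValuationSubring (AlgebraicClosure ℚ)}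
    {q : ℕ} (hq : q.Prime) (hA : A.LiesOverPrime q) (hA' : A'.LiesOverPrime q)
    (h : primeBelow A = primeBelow A') : A = A' := by
  have key : ∀ s : AlgebraicClosure ℚ, IsIntegral ℤ s → (s ∈ A.nonunits ↔ s ∈ A'.nonunits) := by
    intro s hs
    have := congrArg (fun I : Ideal (integralClosure ℤ (AlgebraicClosure ℚ)) =>
      (⟨s, hs⟩ : integralClosure ℤ (AlgebraicClosure ℚ)) ∈ I) h
    simpa [mem_primeBelow] using this
  apply SetLike.ext
  intro x
  rw [mem_valuationSubring_iff A q hq hA, mem_valuationSubring_iff A' q hq hA']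
  constructor
  · rintro ⟨b, s, hb, hs, hsn, hx⟩
    exact ⟨b, s, hb, hs, fun h' => hsn ((key s hs).2 h'), hx⟩
  · rintro ⟨b, s, hb, hs, hsn, hx⟩
    exact ⟨b, s, hb, hs, fun h' => hsn ((key s hs).1 h'), hx⟩

/-- `primeBelow` is equivariant. -/
theorem primeBelow_smul (A : ValuationSubring (AlgebraicClosure ℚ))
    (g : AlgebraicClosure ℚ ≃ₐ[ℚ] AlgebraicClosure ℚ) :
    primeBelow (g • A) = g • primeBelow A := by
  ext b
  rw [mem_primeBelow, mem_nonunits_smul_iff, Ideal.mem_pointwise_smul_iff_inv_smul_mem,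
    mem_primeBelow]
  rfl

end Prime

section Transitive

variable (F : IntermediateField ℚ (AlgebraicClosure ℚ))

/-- An algebraic integer fixed by `G_F` lies in `F`. -/
theorem mem_of_fixed_by_fixingSubgroup (x : AlgebraicClosure ℚ)
    (hx : ∀ g ∈ F.fixingSubgroup, g x = x) : x ∈ F := by
  rw [← InfiniteGalois.fixedField_fixingSubgroup F, IntermediateField.mem_fixedField_iff]
  exact hx

/-- **Places of `ℚ̄` over the same place of `F` are conjugate under `G_F`.** -/
theorem exists_smul_eq_of_restrict_eq {A A' : ValuationSubring (AlgebraicClosure ℚ)}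
    {q : ℕ} (hq : q.Prime) (hA : A.LiesOverPrime q) (hA' : A'.LiesOverPrime q)
    (h : ∀ x ∈ F, x ∈ A ↔ x ∈ A') :
    ∃ τ ∈ F.fixingSubgroup, τ • A = A' := by
  letI : TopologicalSpace (integralClosure ℤ (AlgebraicClosure ℚ)) := ⊥
  haveI : DiscreteTopology (integralClosure ℤ (AlgebraicClosure ℚ)) := ⟨rfl⟩
  haveI := compactSpace_fixingSubgroup F
  haveI := totallyDisconnectedSpace_fixingSubgroup F
  haveI := continuousSMul_fixingSubgroup F
  haveI := smulCommClass_fixedPoints F
  haveI := isInvariant_fixedPoints F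
  haveI := primeBelow_isPrime A
  haveI := primeBelow_isPrime A'
  have hunder : (primeBelow A).under
      (FixedPoints.subalgebra ℤ (integralClosure ℤ (AlgebraicClosure ℚ)) ↥F.fixingSubgroup)
      = (primeBelow A').under
      (FixedPoints.subalgebra ℤ (integralClosure ℤ (AlgebraicClosure ℚ)) ↥F.fixingSubgroup) := by
    ext a
    rw [Ideal.mem_comap, Ideal.mem_comap]
    show ((a.1 : integralClosure ℤ (AlgebraicClosure ℚ)) : AlgebraicClosure ℚ) ∈ A.nonunits ↔
      ((a.1 : integralClosure ℤ (AlgebraicClosure ℚ)) : AlgebraicClosure ℚ) ∈ A'.nonunits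
    have haF : ((a.1 : integralClosure ℤ (AlgebraicClosure ℚ)) : AlgebraicClosure ℚ) ∈ F := by
      apply mem_of_fixed_by_fixingSubgroup
      intro g hg
      have := a.2 ⟨g, hg⟩
      exact congrArg Subtype.val this
    rw [mem_nonunits_iff_inv_not_mem, mem_nonunits_iff_inv_not_mem, h _ (F.inv_mem haF)]
  obtain ⟨τ, hτ⟩ := Algebra.IsInvariant.exists_smul_of_under_eq_of_profinite
    (A := FixedPoints.subalgebra ℤ (integralClosure ℤ (AlgebraicClosure ℚ)) ↥F.fixingSubgroup)
    (G := ↥F.fixingSubgroup) (primeBelow A) (primeBelow A') hunder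
  refine ⟨τ.1, τ.2, ?_⟩
  apply valuationSubring_ext_of_primeBelow hq (liesOverPrime_smul A τ.1 q hA) hA'
  rw [primeBelow_smul, hτ]
  rfl

/-- A normal intermediate field is stable under `G_ℚ`. -/
theorem map_mem_of_normal (hF : F.fixingSubgroup.Normal)
    (σ : AlgebraicClosure ℚ ≃ₐ[ℚ] AlgebraicClosure ℚ) {x : AlgebraicClosure ℚ} (hx : x ∈ F) :
    σ x ∈ F := by
  apply mem_of_fixed_by_fixingSubgroup
  intro g hg
  have h1 : σ⁻¹ * g * σ ∈ F.fixingSubgroup := by
    have := hF.conj_mem g hg σ⁻¹
    rwa [inv_inv] at this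
  have h2 := (IntermediateField.mem_fixingSubgroup_iff F _).1 h1 x hx
  have h3 : (σ⁻¹ * g * σ) x = σ⁻¹ (g (σ x)) := rfl
  rw [h3] at h2
  have h4 := congrArg σ h2
  have h5 : σ (σ⁻¹ (g (σ x))) = g (σ x) := by
    show (σ * σ⁻¹) (g (σ x)) = g (σ x)
    rw [mul_inv_cancel]
    rfl
  rw [h5] at h4
  exact h4

/-- **B14 (decomposition groups).** If `F/ℚ` is normal and `σ ∈ G_ℚ` stabilises the place
`A ∩ F` of `F`, then `σ|_F` is the restriction of an element of the decomposition group of `A`. -/
theorem exists_mem_decomposition_restrict_eq (hF : F.fixingSubgroup.Normal)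
    {A : ValuationSubring (AlgebraicClosure ℚ)} {q : ℕ} (hq : q.Prime) (hA : A.LiesOverPrime q)
    (σ : AlgebraicClosure ℚ ≃ₐ[ℚ] AlgebraicClosure ℚ) (hσ : ∀ x ∈ F, σ x ∈ A ↔ x ∈ A) :
    ∃ σ' ∈ A.decompositionSubgroup ℚ, ∀ x ∈ F, σ' x = σ x := by
  have hA' : (σ • A).LiesOverPrime q := liesOverPrime_smul A σ q hA
  have hcomp : ∀ x ∈ F, x ∈ σ • A ↔ x ∈ A := by
    intro x hx
    rw [mem_smul_valuationSubring_iff]
    have hx' : σ⁻¹ x ∈ F := map_mem_of_normal F hF σ⁻¹ hx
    have h1 := hσ (σ⁻¹ x) hx'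
    have h2 : σ (σ⁻¹ x) = x := by
      show (σ * σ⁻¹) x = x
      rw [mul_inv_cancel]
      rfl
    rw [h2] at h1
    exact h1.symm
  obtain ⟨τ, hτ, hτA⟩ := exists_smul_eq_of_restrict_eq F hq hA' hA hcomp
  refine ⟨τ * σ, ?_, ?_⟩
  · rw [MulAction.mem_stabilizer_iff, mul_smul]
    exact hτA
  · intro x hx
    show τ (σ x) = σ x
    exact (IntermediateField.mem_fixingSubgroup_iff F _).1 hτ _ (map_mem_of_normal F hF σ hx)

end Transitive

end Fermat.Agent.S55.Bridge

end
-- ===== PACK-END S55/Bridge/Restrict.lean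

-- ===== PACK-BEGIN S55/H413/WRSub.lean
section


/-!
# S55, leaf WR, part 3d: norm groups of the subfields of `ℚ_p(ζ_{p^(n+1)})`

For an intermediate field `E` of `F = ℚ_p(ζ_{p^(n+1)})` over `ℚ_p` (`p` odd):
`x ∈ N(Eˣ) ↔ wildChar x ^ [F : E] = 1`, given the local norm index theorem for `E/ℚ_p`.
In particular for the layer of degree `p ^ n` (`[F : E] = p - 1`):
`N(Eˣ) = { x : (unit part of x) ^ (p - 1) ≡ 1 mod p ^ (n + 1) }`.
-/

set_option autoImplicit false

namespace Fermat.Agent.S55.H413

open Polynomial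

/-- Two subgroups `H ≤ K` of the same finite nonzero index are equal. -/
theorem subgroup_eq_of_le_of_index_eq {G : Type*} [Group G] {H K : Subgroup G} (hle : H ≤ K)
    (hidx : H.index = K.index) (h0 : K.index ≠ 0) : H = K := by
  have h1 := Subgroup.relIndex_mul_index hle
  rw [hidx] at h1
  have h2 : H.relIndex K = 1 := by
    have : H.relIndex K * K.index = 1 * K.index := by rw [h1, one_mul]
    exact Nat.eq_of_mul_eq_mul_right (Nat.pos_of_ne_zero h0) this
  exact le_antisymm hle (Subgroup.relIndex_eq_one.mp h2)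

variable (p : ℕ) [hp : Fact p.Prime]

section Cyclotomic

variable (n : ℕ) (F : Type*) [Field F] [Algebra ℚ_[p] F]
  [IsCyclotomicExtension {p ^ (n + 1)} ℚ_[p] F]

/-- The subgroup `{x : wildChar x ^ d = 1}` of `ℚ_[p]ˣ`. -/
noncomputable abbrev wildKer (m d : ℕ) : Subgroup ℚ_[p]ˣ :=
  ((powMonoidHom d : (ZMod (p ^ m))ˣ →* (ZMod (p ^ m))ˣ).comp (wildChar p m)).ker

lemma mem_wildKer_iff (m d : ℕ) (x : ℚ_[p]ˣ) :
    x ∈ wildKer p m d ↔ wildChar p m x ^ d = 1 := by
  rw [MonoidHom.mem_ker]; rfl

lemma index_wildKer (hp2 : p ≠ 2) (m : ℕ) (hm : 0 < m) (d : ℕ) :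
    (wildKer p m d).index = (p ^ m).totient / ((p ^ m).totient.gcd d) := by
  have : NeZero (p ^ m) := ⟨(pow_pos hp.out.pos m).ne'⟩
  have : IsCyclic (ZMod (p ^ m))ˣ := ZMod.isCyclic_units_of_prime_pow p hp.out hp2 m
  have h1 : wildKer p m d = Subgroup.comap (wildChar p m)
      (powMonoidHom d : (ZMod (p ^ m))ˣ →* (ZMod (p ^ m))ˣ).ker := by
    rw [MonoidHom.comap_ker]
  rw [h1, Subgroup.index_comap_of_surjective _ (wildChar_surjective p m hm), Subgroup.index_ker,
    IsCyclic.card_powMonoidHom_range, Nat.card_eq_fintype_card, ZMod.card_units_eq_totient]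

/-- `N(Eˣ) ≤ {x : wildChar x ^ [F:E] = 1}` for every intermediate field `E`, given the norm
index theorem for `F/ℚ_p`. -/
theorem normRange_intermediate_le (hp2 : p ≠ 2) (E : IntermediateField ℚ_[p] F)
    (hNIF : (normRange p F).index = Module.finrank ℚ_[p] F) :
    normRange p E ≤ wildKer p (n + 1) (Module.finrank E F) := by
  have : FiniteDimensional ℚ_[p] F :=
    IsCyclotomicExtension.finiteDimensional {p ^ (n + 1)} ℚ_[p] F
  rintro x ⟨e, rfl⟩
  rw [mem_wildKer_iff, ← map_pow, ← MonoidHom.mem_ker, ← normRange_eq_ker_wildChar p n F hp2 hNIF]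
  refine ⟨Units.map (algebraMap E F : E →* F) e, ?_⟩
  apply Units.ext
  rw [Units.coe_map, Units.coe_map, Units.val_pow_eq_pow_val, Units.coe_map]
  show Algebra.norm ℚ_[p] (algebraMap E F (e : E)) = (Algebra.norm ℚ_[p] (e : E)) ^ _
  rw [← Algebra.norm_norm (S := E), Algebra.norm_algebraMap, map_pow]

/-- **Norm groups of the layers of the local cyclotomic tower at `p`.** -/
theorem normRange_intermediate_eq (hp2 : p ≠ 2) (E : IntermediateField ℚ_[p] F)
    (hNIF : (normRange p F).index = Module.finrank ℚ_[p] F)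
    (hNIE : (normRange p E).index = Module.finrank ℚ_[p] E) :
    normRange p E = wildKer p (n + 1) (Module.finrank E F) := by
  have : FiniteDimensional ℚ_[p] F :=
    IsCyclotomicExtension.finiteDimensional {p ^ (n + 1)} ℚ_[p] F
  have hle := normRange_intermediate_le p n F hp2 E hNIF
  have hmul : Module.finrank ℚ_[p] E * Module.finrank E F = (p ^ (n + 1)).totient := by
    rw [Module.finrank_mul_finrank, finrank_cyclotomic_padic p n F]
  have hEpos : 0 < Module.finrank ℚ_[p] E := Module.finrank_pos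
  have hFEpos : 0 < Module.finrank E F := Module.finrank_pos
  have hidx : (wildKer p (n + 1) (Module.finrank E F)).index = Module.finrank ℚ_[p] E := by
    rw [index_wildKer p hp2 (n + 1) (Nat.succ_pos n), ← hmul,
      Nat.gcd_eq_right (Dvd.intro_left _ rfl), Nat.mul_div_cancel _ hFEpos]
  apply subgroup_eq_of_le_of_index_eq hle (by rw [hNIE, hidx]) (by rw [hidx]; exact hEpos.ne')

/-- Membership form. -/
theorem mem_normRange_intermediate_iff (hp2 : p ≠ 2) (E : IntermediateField ℚ_[p] F)
    (hNIF : (normRange p F).index = Module.finrank ℚ_[p] F)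
    (hNIE : (normRange p E).index = Module.finrank ℚ_[p] E) (x : ℚ_[p]ˣ) :
    x ∈ normRange p E ↔ wildChar p (n + 1) x ^ Module.finrank E F = 1 := by
  rw [normRange_intermediate_eq p n F hp2 E hNIF hNIE, mem_wildKer_iff]

end Cyclotomic

end Fermat.Agent.S55.H413

end
-- ===== PACK-END S55/H413/WRSub.lean

-- ===== PACK-BEGIN S55/L/Inv481/Towers.lean
section



/-!
# Inflation, restriction, transport and base change as pairs; injectivity of inflation
-/

set_option autoImplicit false

namespace Fermat.Agent.S55.L.Inv481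

open groupCohomology CategoryTheory

section Infl

variable (K L M : Type) [Field K] [Field L] [Field M] [Algebra K L] [Algebra K M] [Algebra L M]
  [IsScalarTower K L M] [Normal K L]

/-- The inflation pair `(K, L) → (K, M)` of a tower `K ⊆ L ⊆ M`. -/
noncomputable def inflPair : GalPair K L K M where
  ι := algebraMap L M
  f := AlgEquiv.restrictNormalHom L
  comm g x := AlgEquiv.restrictNormal_commutes g L x

variable {K L M}

theorem isInflation_iff_isPull (c : cocycles₂ (unitsRep K L)) (c' : cocycles₂ (unitsRep K M)) :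
    IsInflation c c' ↔ (inflPair K L M).IsPull c c' := Iff.rfl

/-- an element of `Gal(M/K)` restricting to the identity on `L` comes from `Gal(M/L)`. -/
noncomputable def liftOfRestrictEqOne (s : M ≃ₐ[K] M)
    (hs : AlgEquiv.restrictNormalHom L s = 1) : M ≃ₐ[L] M :=
  { s.toRingEquiv with
    commutes' := fun x => by
      have := AlgEquiv.restrictNormal_commutes s L x
      have h1 : s.restrictNormal L = 1 := hs
      rw [h1] at this
      exact this.symm }

theorem liftOfRestrictEqOne_apply (s : M ≃ₐ[K] M)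
    (hs : AlgEquiv.restrictNormalHom L s = 1) (x : M) : liftOfRestrictEqOne s hs x = s x := rfl

theorem restrictNormalHom_restrictScalars (σ : M ≃ₐ[L] M) :
    AlgEquiv.restrictNormalHom L (σ.restrictScalars K) = 1 := by
  ext x
  apply (algebraMap L M).injective
  have := AlgEquiv.restrictNormal_commutes (σ.restrictScalars K) L x
  change algebraMap L M ((σ.restrictScalars K).restrictNormal L x) = _
  rw [this]
  simp

variable (K L M) in
/-- **Inflation is injective on `H²`** (Hilbert 90). -/
theorem inflPair_pull_injective [FiniteDimensional K M] [IsGalois K M] :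
    Function.Injective (inflPair K L M).pull := by
  have : FiniteDimensional L M := FiniteDimensional.right K L M
  have : IsGalois L M := IsGalois.tower_top_of_isGalois K L M
  rw [injective_iff_map_eq_zero]
  intro x hx
  obtain ⟨c, rfl⟩ := exists_cls_eq x
  rw [GalPair.pull_cls] at hx
  have hx' : (H2π (unitsRep K M)).hom ((inflPair K L M).pullCocycle c) = 0 := hx
  rw [H2π_eq_zero_iff] at hx'
  change (H2π (unitsRep K L)).hom c = 0
  rw [H2π_eq_zero_iff]
  refine mem_coboundaries₂_of_inflation (unitsRep K L) (unitsRep K M)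
    (AlgEquiv.restrictNormalHom L) (AlgEquiv.restrictNormalHom_surjective M)
    (inflPair K L M).unitsMap ?_ ?_ ?_ ?_ c ?_
  · -- injective
    intro a b hab
    apply Additive.toMul.injective
    apply Units.ext
    have := congrArg (fun z => ((Additive.toMul z : Mˣ) : M)) hab
    exact (algebraMap L M).injective this
  · -- equivariance
    intro g v
    apply Additive.toMul.injective
    apply Units.ext
    exact (inflPair K L M).comm g _
  · -- fixed points
    intro y hy
    have hmem : ((Additive.toMul y : Mˣ) : M) ∈ (⊥ : IntermediateField L M) := by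
      rw [IsGalois.mem_bot_iff_fixed]
      intro σ
      have := hy (σ.restrictScalars K) (restrictNormalHom_restrictScalars σ)
      exact congrArg (fun z => ((Additive.toMul z : Mˣ) : M)) this
    rw [IntermediateField.mem_bot] at hmem
    obtain ⟨a, ha⟩ := hmem
    have ha0 : a ≠ 0 := by
      rintro rfl
      rw [map_zero] at ha
      exact (Additive.toMul y : Mˣ).ne_zero ha.symm
    refine ⟨Additive.ofMul (Units.mk0 a ha0), ?_⟩
    apply Additive.toMul.injective
    apply Units.ext
    exact ha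
  · -- Hilbert 90
    intro z hz
    obtain ⟨m, hm⟩ := isMulCoboundary₁_of_isMulCocycle₁_of_aut_to_units
      (K := L) (L := M) (fun σ => Additive.toMul (z (σ.restrictScalars K))) (by
        intro σ τ
        have := hz (σ.restrictScalars K) (τ.restrictScalars K)
          (restrictNormalHom_restrictScalars σ) (restrictNormalHom_restrictScalars τ)
        have h2 := congrArg Additive.toMul this
        exact h2)
    refine ⟨Additive.ofMul m, fun s hs => ?_⟩
    have := hm (liftOfRestrictEqOne s hs)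
    have hrs : (liftOfRestrictEqOne s hs).restrictScalars K = s := by
      ext x; rfl
    simp only [hrs] at this
    apply Additive.toMul.injective
    refine Eq.trans ?_ this
    apply Units.ext
    rfl
  · exact hx'

end Infl

end Fermat.Agent.S55.L.Inv481

namespace Fermat.Agent.S55.L.Inv481

open groupCohomology CategoryTheory

section Res

variable (K K' L : Type) [Field K] [Field K'] [Field L] [Algebra K K'] [Algebra K L]
  [Algebra K' L] [IsScalarTower K K' L]

/-- restriction of scalars on Galois groups, as a group homomorphism -/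
noncomputable def restrictScalarsHom : (L ≃ₐ[K'] L) →* (L ≃ₐ[K] L) :=
  MonoidHom.mk' (fun τ => τ.restrictScalars K) (fun _ _ => rfl)

@[simp] theorem restrictScalarsHom_apply (g : L ≃ₐ[K'] L) (x : L) :
    restrictScalarsHom K K' L g x = g x := rfl

/-- The restriction pair `(K, L) → (K', L)` of a tower `K ⊆ K' ⊆ L`. -/
noncomputable def resPair : GalPair K L K' L where
  ι := RingHom.id L
  f := restrictScalarsHom K K' L
  comm _ _ := rfl

variable {K K' L}

theorem isRestriction_iff_isPull (c : cocycles₂ (unitsRep K L)) (c' : cocycles₂ (unitsRep K' L)) :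
    IsRestriction c c' ↔ (resPair K K' L).IsPull c c' := by
  constructor
  · intro h g k
    rw [h g k]
    rfl
  · intro h g k
    rw [h g k]
    rfl

end Res

section Transport

variable {K L K' L' : Type} [Field K] [Field L] [Algebra K L] [Field K'] [Field L']
  [Algebra K' L']

/-- The transport pair `(K, L) → (K', L')` of compatible isomorphisms. -/
noncomputable def transPair (e : L ≃+* L') (c : (L ≃ₐ[K] L) ≃* (L' ≃ₐ[K'] L'))
    (hc : ∀ (g : L ≃ₐ[K] L) (x : L), c g (e x) = e (g x)) : GalPair K L K' L' where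
  ι := e
  f := c.symm.toMonoidHom
  comm g x := by
    have := hc (c.symm g) x
    rw [MulEquiv.apply_symm_apply] at this
    exact this.symm

theorem isTransport_iff_isPull (e : L ≃+* L') (c : (L ≃ₐ[K] L) ≃* (L' ≃ₐ[K'] L'))
    (hc : ∀ (g : L ≃ₐ[K] L) (x : L), c g (e x) = e (g x))
    (f : cocycles₂ (unitsRep K L)) (f' : cocycles₂ (unitsRep K' L')) :
    IsTransport e c f f' ↔ (transPair e c hc).IsPull f f' := by
  constructor
  · intro h g k
    have := h (c.symm g) (c.symm k)
    rw [MulEquiv.apply_symm_apply, MulEquiv.apply_symm_apply] at this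
    rw [this]
    rfl
  · intro h g k
    have := h (c g) (c k)
    rw [this]
    simp only [transPair, MulEquiv.coe_toMonoidHom, MulEquiv.symm_apply_apply]
    rfl

end Transport

section BaseChange

variable (K K' E E' : Type) [Field K] [Field K'] [Field E] [Field E'] [Algebra K K']
  [Algebra K E] [Algebra K' E'] [Algebra E E'] [Algebra K E'] [IsScalarTower K K' E']
  [IsScalarTower K E E'] [Normal K E]

/-- The base change pair `(K, E) → (K', E')` for `K ⊆ K'`, `E ⊆ E'`, `K' ⊆ E'`. -/
noncomputable def bcPair : GalPair K E K' E' where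
  ι := algebraMap E E'
  f := (AlgEquiv.restrictNormalHom E).comp (restrictScalarsHom K K' E')
  comm g x := AlgEquiv.restrictNormal_commutes (g.restrictScalars K) E x

variable {K K' E E'}

/-- `c'` (on `Gal(E'/K')`) is the base change of `c` (on `Gal(E/K)`):
`c' (g, h) = c (g|_E, h|_E)`. -/
def IsBaseChange (c : cocycles₂ (unitsRep K E)) (c' : cocycles₂ (unitsRep K' E')) : Prop :=
  ∀ g h : E' ≃ₐ[K'] E',
    (c' : (E' ≃ₐ[K'] E') × (E' ≃ₐ[K'] E') → unitsRep K' E') (g, h) =
      Additive.ofMul (Units.map (algebraMap E E' : E →* E')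
        (Additive.toMul ((c : (E ≃ₐ[K] E) × (E ≃ₐ[K] E) → unitsRep K E)
          (AlgEquiv.restrictNormalHom E (g.restrictScalars K),
            AlgEquiv.restrictNormalHom E (h.restrictScalars K)))))

theorem isBaseChange_iff_isPull (c : cocycles₂ (unitsRep K E)) (c' : cocycles₂ (unitsRep K' E')) :
    IsBaseChange c c' ↔ (bcPair K K' E E').IsPull c c' := Iff.rfl

end BaseChange

end Fermat.Agent.S55.L.Inv481

end
-- ===== PACK-END S55/L/Inv481/Towers.lean

-- ===== PACK-BEGIN S55/Local/H483/Abs.lean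
section




/-!
# S55, layer L : inertia group and ramification index (absolute case)   (helper483)

Base `(A, F)`: complete DVR with finite residue field and its fraction field (char. 0).
`N / F` finite Galois.  With `S = integralClosure A N` and `G = Gal(N/F)` we show that the
inertia subgroup `I = {σ | ∀ s ∈ S, σ s - s ∈ 𝔪_S}` has cardinality `e`, where
`ϖF = unit * ϖN ^ e` for uniformizers `ϖF`, `ϖN` in the sense of `Defs.lean`.
-/

set_option autoImplicit false
set_option linter.unusedSectionVars false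
set_option linter.style.haveILetI false

namespace Fermat.Agent.S55.Local.H483

open Fermat.Agent.S55.Local IsLocalRing

section Abs

variable (A F : Type) [CommRing A] [IsDomain A] [IsDiscreteValuationRing A]
  [IsAdicComplete (IsLocalRing.maximalIdeal A) A] [Finite (IsLocalRing.ResidueField A)]
  [Field F] [CharZero F] [Algebra A F] [IsFractionRing A F]
  (N : Type) [Field N] [Algebra F N] [FiniteDimensional F N]
  [Algebra A N] [IsScalarTower A F N]

/-- the ring of integers of `N` -/
abbrev OO : Subalgebra A N := integralClosure A N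

lemma coe_mem_OO_iff (x : N) : x ∈ OO A N ↔ IsInt A F N x :=
  (H715.isInt_iff A F N x).symm

/-- An element of the ring of integers is a unit iff its inverse (in `N`) is integral. -/
lemma isUnit_OO_iff (s : OO A N) :
    IsUnit s ↔ (s : N) ≠ 0 ∧ IsInt A F N ((s : N)⁻¹) := by
  constructor
  · rintro ⟨u, rfl⟩
    have h1 : ((u : OO A N) : N) * ((u⁻¹ : (OO A N)ˣ) : OO A N) = 1 := by
      rw [← Subalgebra.coe_mul, Units.mul_inv]; rfl
    have hne : ((u : OO A N) : N) ≠ 0 := left_ne_zero_of_mul_eq_one h1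
    refine ⟨hne, ?_⟩
    have : ((u : OO A N) : N)⁻¹ = ((u⁻¹ : (OO A N)ˣ) : OO A N) :=
      (eq_inv_of_mul_eq_one_right h1).symm
    rw [this]
    exact (coe_mem_OO_iff A F N _).1 (Subtype.property _)
  · rintro ⟨hne, hinv⟩
    refine ⟨⟨s, ⟨(s : N)⁻¹, (coe_mem_OO_iff A F N _).2 hinv⟩, ?_, ?_⟩, rfl⟩
    · ext; simp [hne]
    · ext; simp [hne]

/-- Membership in the maximal ideal of the ring of integers. -/
lemma mem_maximalIdeal_OO_iff (s : OO A N) :
    letI := H715.isLocalRing_OL A F N
    s ∈ maximalIdeal (OO A N) ↔ ((s : N) = 0 ∨ ¬ IsInt A F N ((s : N)⁻¹)) := by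
  letI := H715.isLocalRing_OL A F N
  rw [mem_maximalIdeal, mem_nonunits_iff, isUnit_OO_iff A F N s]
  tauto

/-! ### Uniformizers -/

variable {A F N}

lemma isInt_zpow_of_nonneg {ϖ : Nˣ} (h : IsInt A F N (ϖ : N)) {n : ℤ} (hn : 0 ≤ n) :
    IsInt A F N ((ϖ ^ n : Nˣ) : N) := by
  obtain ⟨k, rfl⟩ := Int.eq_ofNat_of_zero_le hn
  rw [zpow_natCast, Units.val_pow_eq_pow_val]
  exact H724.isInt_pow724 A F N h k

lemma unif_not_isInt_inv {ϖ : Nˣ} (h : IsUnif A F N ϖ) : ¬ IsInt A F N ((ϖ : N)⁻¹) := by
  intro hinv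
  apply h.2.1
  rw [mem_intUnits]
  refine ⟨h.1, ?_⟩
  rwa [Units.val_inv_eq_inv_val]

/-- A nonzero integral element whose inverse is not integral is divisible by the uniformizer. -/
lemma unif_exists_eq_mul {ϖ : Nˣ} (h : IsUnif A F N ϖ) {s : N} (hs : IsInt A F N s)
    (hs' : s = 0 ∨ ¬ IsInt A F N s⁻¹) : ∃ t : N, IsInt A F N t ∧ s = ϖ * t := by
  rcases eq_or_ne s 0 with rfl | hne
  · exact ⟨0, isInt_zero A F N, by simp⟩
  have hs'' : ¬ IsInt A F N s⁻¹ := hs'.resolve_left hne
  obtain ⟨n, hn⟩ := h.2.2 (Units.mk0 s hne)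
  have hnpos : 0 < n := by
    by_contra hle
    have hle : 0 ≤ -n := by omega
    apply hs''
    have e1 : ((Units.mk0 s hne)⁻¹ : Nˣ) = (Units.mk0 s hne * ϖ ^ (-n))⁻¹ * ϖ ^ (-n) := by
      rw [mul_inv, mul_assoc, inv_mul_cancel, mul_one]
    have e2 : s⁻¹ = (((Units.mk0 s hne)⁻¹ : Nˣ) : N) := by
      rw [Units.val_inv_eq_inv_val]; rfl
    rw [e2, e1, Units.val_mul]
    exact ((mem_intUnits A F N).1 hn).2.mul (isInt_zpow_of_nonneg h.1 hle)
  refine ⟨((Units.mk0 s hne * ϖ ^ (-n) : Nˣ) : N) * ((ϖ ^ (n - 1) : Nˣ) : N),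
    ((mem_intUnits A F N).1 hn).1.mul (isInt_zpow_of_nonneg h.1 (by omega)), ?_⟩
  have e3 : Units.mk0 s hne = ϖ * ((Units.mk0 s hne * ϖ ^ (-n)) * ϖ ^ (n - 1)) := by
    rw [mul_comm ϖ, mul_assoc, mul_assoc, ← zpow_add_one, ← zpow_add]
    simp
  have := congrArg (fun u : Nˣ => (u : N)) e3
  simpa using this

variable (A F N)

/-- The uniformizer as an element of the ring of integers. -/
def unifOO (ϖ : Nˣ) (h : IsUnif A F N ϖ) : OO A N := ⟨(ϖ : N), (coe_mem_OO_iff A F N _).2 h.1⟩

lemma maximalIdeal_OO_eq_span (ϖ : Nˣ) (h : IsUnif A F N ϖ) :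
    letI := H715.isLocalRing_OL A F N
    maximalIdeal (OO A N) = Ideal.span {unifOO A F N ϖ h} := by
  letI := H715.isLocalRing_OL A F N
  apply le_antisymm
  · intro s hs
    rw [mem_maximalIdeal_OO_iff A F N s] at hs
    obtain ⟨t, ht, hst⟩ := unif_exists_eq_mul h ((coe_mem_OO_iff A F N _).1 s.2) hs
    rw [Ideal.mem_span_singleton]
    refine ⟨⟨t, (coe_mem_OO_iff A F N _).2 ht⟩, ?_⟩
    ext
    exact hst
  · rw [Ideal.span_singleton_le_iff_mem, mem_maximalIdeal_OO_iff A F N]
    right
    exact unif_not_isInt_inv h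

lemma mem_maximalIdeal_pow_iff (ϖ : Nˣ) (h : IsUnif A F N ϖ) (k : ℕ) (s : OO A N) :
    letI := H715.isLocalRing_OL A F N
    s ∈ maximalIdeal (OO A N) ^ k ↔ ∃ t : N, IsInt A F N t ∧ (s : N) = (ϖ : N) ^ k * t := by
  letI := H715.isLocalRing_OL A F N
  rw [maximalIdeal_OO_eq_span A F N ϖ h, Ideal.span_singleton_pow, Ideal.mem_span_singleton]
  constructor
  · rintro ⟨t, rfl⟩
    exact ⟨t, (coe_mem_OO_iff A F N _).1 t.2, rfl⟩
  · rintro ⟨t, ht, hst⟩
    refine ⟨⟨t, (coe_mem_OO_iff A F N _).2 ht⟩, ?_⟩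
    ext
    exact hst

/-! ### The ramification index in terms of uniformizers -/

/-- An element of the base field which is integral over `A` comes from `A`. -/
lemma exists_algebraMap_eq_of_isInt {y : F} (hy : IsInt A F F y) : ∃ a : A, algebraMap A F a = y := by
  have hy' : IsIntegral A y := (H715.isInt_iff A F F y).1 hy
  exact IsIntegrallyClosed.algebraMap_eq_of_integral hy'

/-- Nonunits of `A` are not units of the integers of `F`. -/
lemma algebraMap_nonunit (b : A) (hb : b ∈ maximalIdeal A) :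
    algebraMap A F b = 0 ∨ ¬ IsInt A F F (algebraMap A F b)⁻¹ := by
  by_cases h0 : algebraMap A F b = 0
  · exact Or.inl h0
  right
  intro hinv
  obtain ⟨c, hc⟩ := exists_algebraMap_eq_of_isInt A F hinv
  have h1 : algebraMap A F (b * c) = 1 := by
    rw [map_mul, hc, mul_inv_cancel₀ h0]
  have h2 : b * c = 1 := by
    apply IsFractionRing.injective A F
    rw [h1, map_one]
  rw [mem_maximalIdeal, mem_nonunits_iff] at hb
  exact hb (IsUnit.of_mul_eq_one c h2)

theorem ramificationIdx'_eq (ϖF : Fˣ) (ϖN : Nˣ) (hF : IsUnif A F F ϖF) (hN : IsUnif A F N ϖN)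
    (e : ℕ) (he : unitsIncl N F ϖF * ϖN ^ (-(e : ℤ)) ∈ intUnits A F N) :
    letI := H715.isLocalRing_OL A F N
    (maximalIdeal A).ramificationIdx' (maximalIdeal (OO A N)) = e := by
  letI := H715.isLocalRing_OL A F N
  -- the relation `ϖF = u * ϖN ^ e` in `N`
  set u : Nˣ := unitsIncl N F ϖF * ϖN ^ (-(e : ℤ)) with hu
  have hrel : (algebraMap F N (ϖF : F)) = (u : N) * (ϖN : N) ^ e := by
    have : unitsIncl N F ϖF = u * ϖN ^ e := by
      rw [hu, mul_assoc, ← zpow_natCast, ← zpow_add]; simp
    have h2 := congrArg (fun x : Nˣ => (x : N)) this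
    simpa using h2
  have huint := (mem_intUnits A F N).1 he
  apply Ideal.ramificationIdx'_spec
  · rw [Ideal.map_le_iff_le_comap]
    intro b hb
    rw [Ideal.mem_comap, mem_maximalIdeal_pow_iff A F N ϖN hN]
    obtain ⟨t, ht, hbt⟩ := unif_exists_eq_mul hF (isInt_toL A F F b) (algebraMap_nonunit A F b hb)
    refine ⟨(u : N) * algebraMap F N t, huint.1.mul ((H724.isInt_algebraMap_iff724 A F F N t).2 ht), ?_⟩
    have h1 : ((algebraMap A (OO A N) b : OO A N) : N) = algebraMap F N (algebraMap A F b) := by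
      rw [← IsScalarTower.algebraMap_apply A F N]; rfl
    rw [h1]
    have h2 : algebraMap A F b = (ϖF : F) * t := hbt
    rw [h2, map_mul, hrel]
    ring
  · intro hle
    obtain ⟨a, ha⟩ := exists_algebraMap_eq_of_isInt A F hF.1
    have ham : a ∈ maximalIdeal A := by
      rw [mem_maximalIdeal, mem_nonunits_iff]
      intro hau
      apply unif_not_isInt_inv hF
      obtain ⟨c, hc⟩ := hau.exists_right_inv
      have : ((ϖF : F))⁻¹ = algebraMap A F c := by
        rw [← ha]
        apply inv_eq_of_mul_eq_one_right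
        rw [← map_mul, hc, map_one]
      rw [this]
      exact isInt_toL A F F c
    have hmem : algebraMap A (OO A N) a ∈ maximalIdeal (OO A N) ^ (e + 1) :=
      hle (Ideal.mem_map_of_mem _ ham)
    rw [mem_maximalIdeal_pow_iff A F N ϖN hN] at hmem
    obtain ⟨t, ht, hat⟩ := hmem
    have h1 : ((algebraMap A (OO A N) a : OO A N) : N) = algebraMap F N (ϖF : F) := by
      rw [← ha, ← IsScalarTower.algebraMap_apply A F N]; rfl
    rw [h1, hrel, pow_succ] at hat
    have hϖne : ((ϖN : N)) ^ e ≠ 0 := pow_ne_zero _ ϖN.ne_zero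
    have h3 : (u : N) = (ϖN : N) * t := by
      have : (ϖN : N) ^ e * (u : N) = (ϖN : N) ^ e * ((ϖN : N) * t) := by
        rw [mul_comm, hat]; ring
      exact mul_left_cancel₀ hϖne this
    apply unif_not_isInt_inv hN
    have h4 : ((ϖN : N))⁻¹ = t * ((u⁻¹ : Nˣ) : N) := by
      rw [Units.val_inv_eq_inv_val, h3, mul_inv]
      have htne : t ≠ 0 := by
        rintro rfl
        rw [mul_zero] at h3
        exact u.ne_zero h3
      field_simp
    rw [h4]
    exact ht.mul huint.2

/-! ### The inertia group -/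

/-- `y` lies in the maximal ideal of the ring of integers of `N` (intrinsic form). -/
def InMax (y : N) : Prop := IsInt A F N y ∧ (y = 0 ∨ ¬ IsInt A F N y⁻¹)

variable [IsGalois F N]

/-- The action of the Galois group on the ring of integers. -/
@[reducible] noncomputable def actOO : MulSemiringAction (N ≃ₐ[F] N) (OO A N) :=
  IsIntegralClosure.MulSemiringAction A F N (OO A N)

lemma coe_smul_OO (σ : N ≃ₐ[F] N) (s : OO A N) :
    letI := actOO A F N
    ((σ • s : OO A N) : N) = σ (s : N) := by
  letI := actOO A F N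
  exact algebraMap_galRestrict_apply A σ s

/-- The inertia subgroup of `Gal(N/F)`. -/
noncomputable def inertiaAbs : Subgroup (N ≃ₐ[F] N) :=
  letI := actOO A F N
  letI := H715.isLocalRing_OL A F N
  (maximalIdeal (OO A N)).inertia (N ≃ₐ[F] N)

lemma mem_inertiaAbs_iff (σ : N ≃ₐ[F] N) :
    σ ∈ inertiaAbs A F N ↔ ∀ x : N, IsInt A F N x → InMax A F N (σ x - x) := by
  letI := actOO A F N
  letI := H715.isLocalRing_OL A F N
  show (∀ s : OO A N, σ • s - s ∈ (maximalIdeal (OO A N)).toAddSubgroup) ↔ _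
  constructor
  · intro h x hx
    have h1 := h ⟨x, (coe_mem_OO_iff A F N x).2 hx⟩
    rw [Submodule.mem_toAddSubgroup, mem_maximalIdeal_OO_iff A F N] at h1
    have h2 : (((σ • (⟨x, (coe_mem_OO_iff A F N x).2 hx⟩ : OO A N) -
        (⟨x, (coe_mem_OO_iff A F N x).2 hx⟩ : OO A N) : OO A N)) : N) = σ x - x := by
      rw [Subalgebra.coe_sub, coe_smul_OO A F N σ]
    rw [h2] at h1
    refine ⟨?_, h1⟩
    rw [← h2]
    exact (coe_mem_OO_iff A F N _).1 (Subtype.property _)
  · intro h s
    rw [Submodule.mem_toAddSubgroup, mem_maximalIdeal_OO_iff A F N]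
    have h2 : (((σ • s - s : OO A N)) : N) = σ (s : N) - (s : N) := by
      rw [Subalgebra.coe_sub, coe_smul_OO A F N σ]
    rw [h2]
    exact (h (s : N) ((coe_mem_OO_iff A F N _).1 s.2)).2

open Ideal in
theorem card_inertiaAbs_eq_ramificationIdx' :
    letI := H715.isLocalRing_OL A F N
    Nat.card (inertiaAbs A F N) =
      (maximalIdeal A).ramificationIdx' (maximalIdeal (OO A N)) := by
  letI := actOO A F N
  letI := H715.isLocalRing_OL A F N
  haveI := H715.isFractionRing_OL A F N
  haveI := H715.finite_OL A F N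
  haveI := H715.isDedekindDomain_OL A F N
  haveI := H715.isLocalHom_OL A F N
  haveI : IsGaloisGroup (N ≃ₐ[F] N) A (OO A N) :=
    IsGaloisGroup.of_isFractionRing (N ≃ₐ[F] N) A (OO A N) F N
  haveI : (maximalIdeal (OO A N)).LiesOver (maximalIdeal A) := inferInstance
  haveI : Module.IsTorsionFree A (OO A N) :=
    (Module.isTorsionFree_iff_algebraMap_injective).2 (H715.algebraMap_injective_OL A F N)
  haveI : Module.Flat A (OO A N) := inferInstance
  haveI : Finite (maximalIdeal A).ResidueField := by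
    have hb := Ideal.bijective_algebraMap_quotient_residueField (maximalIdeal A)
    haveI : Finite (A ⧸ maximalIdeal A) := ‹Finite (ResidueField A)›
    exact Finite.of_surjective _ hb.2
  haveI : PerfectField (maximalIdeal A).ResidueField := inferInstance
  show Nat.card ((maximalIdeal (OO A N)).inertia (N ≃ₐ[F] N)) = _
  rw [card_inertia_eq_ramificationIdxIn (G := (N ≃ₐ[F] N)) (maximalIdeal A) (maximalIdeal (OO A N)),
    ramificationIdxIn_eq_ramificationIdx (maximalIdeal A) (maximalIdeal (OO A N)) (N ≃ₐ[F] N)]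
  exact (ramificationIdx'_eq_ramificationIdx (maximalIdeal A) (maximalIdeal (OO A N))
    (IsDiscreteValuationRing.not_a_field A)).symm

omit [IsGalois F N] [IsDomain A] [IsDiscreteValuationRing A]
  [IsAdicComplete (IsLocalRing.maximalIdeal A) A] [Finite (IsLocalRing.ResidueField A)]
  [CharZero F] [IsFractionRing A F] [FiniteDimensional F N] in
lemma isInt_algEquiv (σ : N ≃ₐ[F] N) {x : N} (hx : IsInt A F N x) : IsInt A F N (σ x) := by
  rw [H715.isInt_iff A F N] at hx ⊢
  exact hx.map (σ.toAlgHom.restrictScalars A)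

omit [IsGalois F N] [IsDomain A] [IsDiscreteValuationRing A]
  [IsAdicComplete (IsLocalRing.maximalIdeal A) A] [Finite (IsLocalRing.ResidueField A)]
  [CharZero F] [IsFractionRing A F] [FiniteDimensional F N] in
lemma inMax_algEquiv (σ : N ≃ₐ[F] N) {y : N} (hy : InMax A F N y) : InMax A F N (σ y) := by
  refine ⟨isInt_algEquiv A F N σ hy.1, ?_⟩
  rcases hy.2 with h0 | h
  · left; rw [h0, map_zero]
  · right
    intro hinv
    apply h
    have := isInt_algEquiv A F N σ.symm hinv
    rwa [map_inv₀, AlgEquiv.symm_apply_apply] at this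

lemma inertiaAbs_normal : (inertiaAbs A F N).Normal := by
  constructor
  intro σ hσ τ
  rw [mem_inertiaAbs_iff] at hσ ⊢
  intro x hx
  have h1 := hσ (τ.symm x) (isInt_algEquiv A F N τ.symm hx)
  have h2 := inMax_algEquiv A F N τ h1
  have e : (τ * σ * τ⁻¹) x - x = τ (σ (τ.symm x) - τ.symm x) := by
    rw [map_sub, AlgEquiv.apply_symm_apply]
    rfl
  rw [e]
  exact h2

/-- **Absolute case**: the inertia group of `N / F` has order `e(N/F)`. -/
theorem unif_mul_zpow_card_inertiaAbs (ϖF : Fˣ) (ϖN : Nˣ) (hF : IsUnif A F F ϖF)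
    (hN : IsUnif A F N ϖN) :
    unitsIncl N F ϖF * ϖN ^ (-(Nat.card (inertiaAbs A F N) : ℤ)) ∈ intUnits A F N := by
  obtain ⟨e, f, -, he, -⟩ := H724.ramification_core724 A F F N ϖF ϖN hF hN
  rw [card_inertiaAbs_eq_ramificationIdx' A F N, ramificationIdx'_eq A F N ϖF ϖN hF hN e he]
  exact he

end Abs

end Fermat.Agent.S55.Local.H483

end
-- ===== PACK-END S55/Local/H483/Abs.lean

-- ===== PACK-BEGIN S55/H654/Kummer.lean
section





set_option autoImplicit false
set_option linter.style.haveILetI false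
set_option linter.unusedSectionVars false
set_option linter.unusedVariables false

namespace Fermat.Agent.S55.H654

open groupCohomology IntermediateField ExtCitation

attribute [local instance] Fermat.Agent.S55.Bridge.isAlgebraic_Qbar
  Fermat.Agent.S55.Bridge.isGalois_Qbar

/-- `F'` viewed as an intermediate field of `ℚ̄/L` is finite over `L`. -/
theorem finiteDimensional_extendScalars {L F' : IntermediateField ℚ (AlgebraicClosure ℚ)}
    (h : L ≤ F') (hF' : FiniteDimensional ℚ F') :
    FiniteDimensional L (extendScalars h) := by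
  haveI : FiniteDimensional ℚ (extendScalars h) := by
    let e : ↥F' ≃ₗ[ℚ] ↥(extendScalars h) :=
      { toFun := fun x => ⟨x.1, x.2⟩
        invFun := fun x => ⟨x.1, x.2⟩
        map_add' := fun _ _ => rfl
        map_smul' := fun _ _ => rfl
        left_inv := fun _ => rfl
        right_inv := fun _ => rfl }
    exact e.finiteDimensional
  exact FiniteDimensional.right ℚ L (extendScalars h)

/-- `F'` viewed as an intermediate field of `ℚ̄/L` is normal over `L` if `F'/ℚ` is normal. -/
theorem normal_extendScalars {L F' : IntermediateField ℚ (AlgebraicClosure ℚ)}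
    (h : L ≤ F') (hF' : Normal ℚ F') :
    Normal L (extendScalars h) := by
  rw [normal_iff_forall_map_le']
  intro σ x hx
  obtain ⟨y, hy, rfl⟩ := hx
  have h1 := (normal_iff_forall_map_le' (K := F')).1 hF' (σ.restrictScalars ℚ)
  exact h1 ⟨y, hy, rfl⟩

variable {p : ℕ} [Fact p.Prime] (S : Finset Nat.Primes)

/-- An additive character of `G_L` vanishing on `G_L ∩ G_{F'}` only depends on the restriction
to `F'`. -/
theorem levelChar_eq_of_agree {L F' : IntermediateField ℚ (AlgebraicClosure ℚ)}
    {χ : L.fixingSubgroup → ZMod p}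
    (hadd : ∀ a b, χ (a * b) = χ a + χ b)
    (hvan : ∀ s : L.fixingSubgroup,
      (s : AlgebraicClosure ℚ ≃ₐ[ℚ] AlgebraicClosure ℚ) ∈ F'.fixingSubgroup → χ s = 0)
    (s t : L.fixingSubgroup)
    (hst : ∀ x ∈ F', (s : AlgebraicClosure ℚ ≃ₐ[ℚ] AlgebraicClosure ℚ) x =
      (t : AlgebraicClosure ℚ ≃ₐ[ℚ] AlgebraicClosure ℚ) x) : χ s = χ t := by
  have h1 : χ (s⁻¹ * t) = 0 := by
    apply hvan
    rw [IntermediateField.mem_fixingSubgroup_iff]
    intro x hx
    have : ((s⁻¹ * t : L.fixingSubgroup) : AlgebraicClosure ℚ ≃ₐ[ℚ] AlgebraicClosure ℚ) x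
        = (s : AlgebraicClosure ℚ ≃ₐ[ℚ] AlgebraicClosure ℚ)⁻¹
          ((t : AlgebraicClosure ℚ ≃ₐ[ℚ] AlgebraicClosure ℚ) x) := rfl
    rw [this, ← hst x hx]
    exact (s : AlgebraicClosure ℚ ≃ₐ[ℚ] AlgebraicClosure ℚ).symm_apply_apply x
  have h2 : χ t = χ (s * (s⁻¹ * t)) := by rw [mul_inv_cancel_left]
  rw [h2, hadd, h1, add_zero]

theorem pow_val_add_of_pow_eq_one {M : Type*} [Monoid M] {z : M} (hz : z ^ p = 1)
    (a b : ZMod p) : z ^ (a + b).val = z ^ a.val * z ^ b.val := by
  rw [ZMod.val_add, ← pow_eq_pow_mod _ hz, pow_add]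

/-- Abstract Kummer form of Hilbert 90: an additive character `c : Gal(E/K) → 𝔽_p` is the Kummer
character of some `β ≠ 0` when `ζ ∈ K`, `ζ ^ p = 1`. -/
theorem exists_kummer_of_hom {K E : Type*} [Field K] [Field E] [Algebra K E]
    [FiniteDimensional K E] {ζ : K} (hζp : ζ ^ p = 1) (hζ0 : ζ ≠ 0)
    (c : (E ≃ₐ[K] E) → ZMod p) (hc : ∀ g h, c (g * h) = c g + c h) :
    ∃ β : E, β ≠ 0 ∧ ∀ g : E ≃ₐ[K] E, g β = algebraMap K E ζ ^ (c g).val * β := by
  have hζE0 : algebraMap K E ζ ≠ 0 := by
    rw [Ne, map_eq_zero_iff _ (algebraMap K E).injective]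
    exact hζ0
  let ζE : Eˣ := Units.mk0 (algebraMap K E ζ) hζE0
  have hζEp : ζE ^ p = 1 := by
    apply Units.ext
    simp [ζE, ← map_pow, hζp]
  have hfix : ∀ g : (E ≃ₐ[K] E), g • ζE = ζE := by
    intro g
    apply Units.ext
    rw [AlgEquiv.smul_units_def]
    exact g.commutes ζ
  let f : (E ≃ₐ[K] E) → Eˣ := fun τ => ζE ^ (c τ).val
  have hf : IsMulCocycle₁ f := by
    intro g h
    have h2 : g • f h = f h := by
      simp only [f]
      rw [smul_pow', hfix g]
    rw [h2]
    simp only [f]
    rw [hc, pow_val_add_of_pow_eq_one hζEp, mul_comm]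
  obtain ⟨β, hβ⟩ := isMulCoboundary₁_of_isMulCocycle₁_of_aut_to_units f hf
  refine ⟨(β : E), β.ne_zero, fun g => ?_⟩
  have h2 := hβ g
  rw [div_eq_iff_eq_mul] at h2
  have := congrArg (fun u : Eˣ => (u : E)) h2
  simpa [AlgEquiv.smul_units_def, f, ζE] using this

/-- **Hilbert 90 for level characters.** If `ζ ∈ L` is a primitive `p`-th root of unity, every
`S`-level character `χ : G_L → 𝔽_p` is the Kummer character of some `β ≠ 0` in a finite Galois
`F'/ℚ` unramified outside `S`. -/
theorem exists_kummer_generator (L : IntermediateField ℚ (AlgebraicClosure ℚ))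
    (hL : L.IsUnramifiedOutside S)
    {ζ : AlgebraicClosure ℚ} (hζ : IsPrimitiveRoot ζ p) (hζL : ζ ∈ L)
    {χ : L.fixingSubgroup → ZMod p} (hχ : χ ∈ LevelChar S L (ZMod p)) :
    ∃ (F' : IntermediateField ℚ (AlgebraicClosure ℚ)) (β : AlgebraicClosure ℚ),
      F'.IsUnramifiedOutside S ∧ IsGalois ℚ F' ∧ L ≤ F' ∧ β ∈ F' ∧ β ≠ 0 ∧
      ∀ σ : L.fixingSubgroup,
        (σ : AlgebraicClosure ℚ ≃ₐ[ℚ] AlgebraicClosure ℚ) β = ζ ^ (χ σ).val * β := by
  obtain ⟨hadd, F, hF, hvan⟩ := hχ
  obtain ⟨F', hF', hGal, hle⟩ := Bridge.exists_galois_level_ge S (L ⊔ F) (hL.sup hF)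
  have hLF' : L ≤ F' := le_sup_left.trans hle
  have hFF' : F ≤ F' := le_sup_right.trans hle
  have hvan' : ∀ s : L.fixingSubgroup,
      (s : AlgebraicClosure ℚ ≃ₐ[ℚ] AlgebraicClosure ℚ) ∈ F'.fixingSubgroup → χ s = 0 :=
    fun s hs => hvan s (IntermediateField.fixingSubgroup_antitone hFF' hs)
  have hconst := levelChar_eq_of_agree hadd hvan'
  let E : IntermediateField L (AlgebraicClosure ℚ) := extendScalars hLF'
  haveI : FiniteDimensional L E := finiteDimensional_extendScalars hLF' hF'.1
  haveI : Normal L E := normal_extendScalars hLF' hGal.to_normal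
  let lift : (E ≃ₐ[L] E) → L.fixingSubgroup :=
    fun τ => (fixingSubgroupEquiv L).symm (τ.liftNormal (AlgebraicClosure ℚ))
  have hlift : ∀ (τ : E ≃ₐ[L] E) (x : E),
      ((lift τ : AlgebraicClosure ℚ ≃ₐ[ℚ] AlgebraicClosure ℚ) (x : AlgebraicClosure ℚ))
        = ((τ x : E) : AlgebraicClosure ℚ) := by
    intro τ x
    exact AlgEquiv.liftNormal_commutes τ (AlgebraicClosure ℚ) x
  have hζ0 : ζ ≠ 0 := hζ.ne_zero (Fact.out : p.Prime).ne_zero
  have hζp : ζ ^ p = 1 := hζ.pow_eq_one
  have hc : ∀ g h : (E ≃ₐ[L] E), χ (lift (g * h)) = χ (lift g) + χ (lift h) := by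
    intro g h
    rw [← hadd]
    apply hconst
    intro x hx
    have e1 := hlift (g * h) ⟨x, hx⟩
    have e2 := hlift h ⟨x, hx⟩
    have e3 := hlift g (h ⟨x, hx⟩)
    have e4 : ((lift g * lift h : L.fixingSubgroup) :
        AlgebraicClosure ℚ ≃ₐ[ℚ] AlgebraicClosure ℚ) x =
        (lift g : AlgebraicClosure ℚ ≃ₐ[ℚ] AlgebraicClosure ℚ)
          ((lift h : AlgebraicClosure ℚ ≃ₐ[ℚ] AlgebraicClosure ℚ) x) := rfl
    rw [e4]
    simp only at e1 e2
    rw [e1, e2, e3]
    rfl
  obtain ⟨β, hβ0, hβ⟩ := exists_kummer_of_hom (p := p) (K := L) (E := E)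
    (ζ := ⟨ζ, hζL⟩) (Subtype.ext (by simpa using hζp))
    (fun h => hζ0 (congrArg Subtype.val h)) (fun τ => χ (lift τ)) hc
  refine ⟨F', (β : AlgebraicClosure ℚ), hF', hGal, hLF', β.2, ?_, ?_⟩
  · intro h
    exact hβ0 (Subtype.ext h)
  · intro σ
    let σ' : AlgebraicClosure ℚ ≃ₐ[L] AlgebraicClosure ℚ := fixingSubgroupEquiv L σ
    let τ : E ≃ₐ[L] E := AlgEquiv.restrictNormalHom E σ'
    have hτ : ∀ x : E, ((τ x : E) : AlgebraicClosure ℚ) =
        (σ : AlgebraicClosure ℚ ≃ₐ[ℚ] AlgebraicClosure ℚ) (x : AlgebraicClosure ℚ) := by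
      intro x
      exact AlgEquiv.restrictNormal_commutes σ' E x
    have h1 : χ (lift τ) = χ σ := by
      apply hconst
      intro x hx
      rw [hlift τ ⟨x, hx⟩, hτ]
    have h3 := congrArg (fun u : E => (u : AlgebraicClosure ℚ)) (hβ τ)
    simp only [h1] at h3
    rw [← hτ, h3]
    rfl

/-- A primitive `p`-th root of unity in `ℚ̄` lies in `L` if `χ_p` is trivial on `G_L`. -/
theorem primitiveRoot_mem_of_cycloChar (L : IntermediateField ℚ (AlgebraicClosure ℚ))
    (hcyc : ∀ s ∈ L.fixingSubgroup, cycloChar p s = 1)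
    {ζ : AlgebraicClosure ℚ} (hζ : ζ ^ p = 1) : ζ ∈ L := by
  have hp0 : p ≠ 0 := (Fact.out : p.Prime).ne_zero
  have hζ0 : ζ ≠ 0 := fun h => by
    rw [h, zero_pow hp0] at hζ
    exact zero_ne_one hζ
  rw [← InfiniteGalois.fixedField_fixingSubgroup L, IntermediateField.mem_fixedField_iff]
  intro g hg
  have h1 := (Bridge.cycloChar_eq_one_iff p g).1 (hcyc g hg) (Units.mk0 ζ hζ0) (by
    haveI : NeZero p := ⟨hp0⟩
    rw [mem_rootsOfUnity]
    exact Units.ext (by simpa using hζ))
  simpa using h1

/-- Existence of a primitive `p`-th root of unity in `ℚ̄`. -/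
theorem exists_primitiveRoot_Qbar : ∃ ζ : AlgebraicClosure ℚ, IsPrimitiveRoot ζ p := by
  haveI : NeZero (p : AlgebraicClosure ℚ) := ⟨by
    exact_mod_cast (Fact.out : p.Prime).ne_zero⟩
  exact HasEnoughRootsOfUnity.exists_primitiveRoot (AlgebraicClosure ℚ) p

/-- `β` is a Kummer generator for the character `χ` of `G_L`. -/
def IsKummerGen (L : IntermediateField ℚ (AlgebraicClosure ℚ)) (ζ : AlgebraicClosure ℚ)
    (χ : L.fixingSubgroup → ZMod p) (β : AlgebraicClosure ℚ) : Prop :=
  ∀ σ : L.fixingSubgroup,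
    (σ : AlgebraicClosure ℚ ≃ₐ[ℚ] AlgebraicClosure ℚ) β = ζ ^ (χ σ).val * β

theorem IsKummerGen.pow_mem {L : IntermediateField ℚ (AlgebraicClosure ℚ)}
    {ζ : AlgebraicClosure ℚ} (hζ : ζ ^ p = 1)
    {χ : L.fixingSubgroup → ZMod p} {β : AlgebraicClosure ℚ} (h : IsKummerGen L ζ χ β) :
    β ^ p ∈ L := by
  rw [← InfiniteGalois.fixedField_fixingSubgroup L, IntermediateField.mem_fixedField_iff]
  intro g hg
  have h1 := h ⟨g, hg⟩
  simp only at h1
  rw [map_pow, h1, mul_pow, ← pow_mul, mul_comm _ p, pow_mul, hζ, one_pow, one_mul]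

/-- Two characters with Kummer generators whose `p`-th powers differ by a `p`-th power of `Lˣ`
are equal. -/
theorem IsKummerGen.eq_of_pow_eq {L : IntermediateField ℚ (AlgebraicClosure ℚ)}
    {ζ : AlgebraicClosure ℚ} (hζ : IsPrimitiveRoot ζ p) (hζL : ζ ∈ L)
    {χ χ' : L.fixingSubgroup → ZMod p} {β β' γ : AlgebraicClosure ℚ}
    (h : IsKummerGen L ζ χ β) (h' : IsKummerGen L ζ χ' β') (hβ : β ≠ 0) (hβ' : β' ≠ 0)
    (hγL : γ ∈ L) (hγ : β' ^ p = β ^ p * γ ^ p) : χ = χ' := by
  have hp0 : p ≠ 0 := (Fact.out : p.Prime).ne_zero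
  haveI : NeZero p := ⟨hp0⟩
  have hγ0 : γ ≠ 0 := by
    intro h0
    rw [h0, zero_pow hp0, mul_zero] at hγ
    exact hβ' (pow_eq_zero_iff hp0 |>.1 hγ)
  have hω : (β' / (β * γ)) ^ p = 1 := by
    rw [div_pow, mul_pow, hγ]
    exact div_self (mul_ne_zero (pow_ne_zero _ hβ) (pow_ne_zero _ hγ0))
  obtain ⟨i, -, hi⟩ := hζ.eq_pow_of_pow_eq_one hω
  have hβ'eq : β' = ζ ^ i * (β * γ) := by
    rw [hi]
    field_simp
  funext σ
  have h1 := h σ
  have h2 := h' σ
  have hσζ : (σ : AlgebraicClosure ℚ ≃ₐ[ℚ] AlgebraicClosure ℚ) ζ = ζ :=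
    (IntermediateField.mem_fixingSubgroup_iff L _).1 σ.2 ζ hζL
  have hσγ : (σ : AlgebraicClosure ℚ ≃ₐ[ℚ] AlgebraicClosure ℚ) γ = γ :=
    (IntermediateField.mem_fixingSubgroup_iff L _).1 σ.2 γ hγL
  have h3 : (σ : AlgebraicClosure ℚ ≃ₐ[ℚ] AlgebraicClosure ℚ) β' = ζ ^ (χ σ).val * β' := by
    conv_lhs => rw [hβ'eq]
    rw [map_mul, map_mul, map_pow, hσζ, hσγ, h1, hβ'eq]
    ring
  rw [h2] at h3
  have h4 : ζ ^ (χ' σ).val = ζ ^ (χ σ).val := mul_right_cancel₀ hβ' h3
  have h5 := hζ.pow_inj (ZMod.val_lt _) (ZMod.val_lt _) h4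
  exact (ZMod.val_injective p h5).symm

end Fermat.Agent.S55.H654

end
-- ===== PACK-END S55/H654/Kummer.lean

-- ===== PACK-BEGIN S55/Cap/C1H239/Transfer.lean
section


/-!
# S55 / A8-C1 (helper239): abstract Shapiro (degree 1, `Ind`) and transfer, cochain form

Pure algebra (Mathlib + `Cap/IndM`).  `G` a group, `C` a `G`-module.

* `toF_smul` : the coefficients of `g • F`, `F ∈ Ind_U C`;
* `transfer` : a 1-cocycle `z : H → C` which is a coboundary on a subgroup `P` of finite index
  `m` has `m • z` a coboundary;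
* `shapiro_ind` : a 1-cocycle `f : G → Ind_U C` whose Shapiro restriction `u ↦ f(u)(1̄)` is a
  coboundary on `U` is a coboundary;
* `shapiro_transfer` : the combination: `P ≤ U`, `u ↦ f(u)(1̄)` a coboundary on `P`
  ⇒ `[U : P] • f` is a coboundary.
-/

set_option autoImplicit false
set_option linter.unusedSectionVars false
set_option linter.style.haveILetI false
set_option linter.unusedVariables false

noncomputable section

namespace Fermat.Agent.S55.Cap.H239

open Fermat.Agent.S55.Cap

variable {G : Type} [Group G] {C : Type} [AddCommGroup C] [DistribMulAction G C]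

lemma indM_ext {U : Subgroup G} {F F' : IndM U C}
    (h : ∀ x, IndM.toF U F x = IndM.toF U F' x) : F = F' := Finsupp.ext h

lemma toF_add (U : Subgroup G) (F F' : IndM U C) (x : G ⧸ U) :
    IndM.toF U (F + F') x = IndM.toF U F x + IndM.toF U F' x := rfl

lemma toF_sub (U : Subgroup G) (F F' : IndM U C) (x : G ⧸ U) :
    IndM.toF U (F - F') x = IndM.toF U F x - IndM.toF U F' x := rfl

lemma toF_zero (U : Subgroup G) (x : G ⧸ U) : IndM.toF U (0 : IndM U C) x = 0 := rfl

lemma toF_single (U : Subgroup G) (y x : G ⧸ U) (a : C) [Decidable (y = x)] :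
    IndM.toF U (IndM.single U y a) x = if y = x then a else 0 := by
  classical
  show (Finsupp.single y a) x = _
  rw [Finsupp.single_apply]

/-- the coefficients of `g • F` -/
lemma toF_smul (U : Subgroup G) (g : G) (F : IndM U C) (x : G ⧸ U) :
    IndM.toF U (g • F) x = g • IndM.toF U F (g⁻¹ • x) := by
  classical
  induction F using IndM.induction_on with
  | h0 => rw [smul_zero, toF_zero, toF_zero, smul_zero]
  | hadd F F' hF hF' => rw [smul_add, toF_add, toF_add, hF, hF', smul_add]
  | hsingle y a =>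
    rw [IndM.smul_single, toF_single, toF_single]
    by_cases h : g • y = x
    · have h' : y = g⁻¹ • x := by rw [← h, inv_smul_smul]
      rw [if_pos h, if_pos h']
    · have h' : ¬ y = g⁻¹ • x := fun hy => h (by rw [hy, smul_inv_smul])
      rw [if_neg h, if_neg h', smul_zero]

/-- **Transfer.**  A 1-cocycle which is a coboundary on a subgroup `P` of finite index has its
`[H : P]`-th multiple a coboundary. -/
theorem transfer {H : Type} [Group H] {C : Type} [AddCommGroup C] [DistribMulAction H C]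
    (P : Subgroup H) [P.FiniteIndex]
    (z : H → C) (hz : ∀ u u', z (u * u') = z u + u • z u') (y : C)
    (hy : ∀ t ∈ P, z t = t • y - y) :
    ∃ x₀ : C, ∀ u, P.index • z u = u • x₀ - x₀ := by
  classical
  letI : Fintype (H ⧸ P) := Subgroup.fintypeQuotientOfFiniteIndex
  -- the normalised cocycle
  set z' : H → C := fun u => z u - (u • y - y) with hz'
  have hz'c : ∀ u u', z' (u * u') = z' u + u • z' u' := by
    intro u u'
    simp only [hz', hz u u', mul_smul, smul_sub]
    abel
  have hz'0 : ∀ t ∈ P, z' t = 0 := by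
    intro t ht
    simp only [hz', hy t ht, sub_self]
  have hmul : ∀ (g s : H), s ∈ P → z' (g * s) = z' g := by
    intro g s hs
    rw [hz'c g s, hz'0 s hs, smul_zero, add_zero]
  have hout : ∀ (g : H) (q : H ⧸ P), z' ((g • q).out) = z' (g * q.out) := by
    intro g q
    have h1 : ((g * q.out : H) : H ⧸ P) = g • q := by
      conv_rhs => rw [← QuotientGroup.out_eq' q]
      rfl
    have h2 : ((g • q).out)⁻¹ * (g * q.out) ∈ P := by
      rw [← QuotientGroup.eq, QuotientGroup.out_eq', h1]
    have h3 := hmul ((g • q).out) _ h2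
    rw [← h3]
    congr 1
    group
  set w : C := ∑ q : H ⧸ P, z' q.out with hw
  have hcard : Fintype.card (H ⧸ P) = P.index := by
    rw [Subgroup.index_eq_card, Nat.card_eq_fintype_card]
  have key : ∀ u, P.index • z' u = w - u • w := by
    intro u
    have h1 : u • w = ∑ q : H ⧸ P, (z' ((u • q).out) - z' u) := by
      rw [hw, Finset.smul_sum]
      refine Finset.sum_congr rfl (fun q _ => ?_)
      rw [hout u q, hz'c u q.out]
      abel
    have h2 : ∑ q : H ⧸ P, z' ((u • q).out) = w := by
      rw [hw]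
      exact Fintype.sum_equiv (MulAction.toPerm u) _ _ (fun q => rfl)
    rw [Finset.sum_sub_distrib, h2, Finset.sum_const, Finset.card_univ, hcard] at h1
    rw [h1]
    abel
  refine ⟨P.index • y - w, fun u => ?_⟩
  have h1 := key u
  have h2 : z u = z' u + (u • y - y) := by simp only [hz', sub_add_cancel]
  rw [h2, smul_add, h1, smul_sub, smul_sub, smul_comm u P.index y]
  abel

/-- **Shapiro, degree 1, `Ind`.**  If the Shapiro restriction `u ↦ f(u)(1̄)` (`u ∈ U`) of a
1-cocycle `f : G → Ind_U C` is the coboundary of `x₀`, then `f` is the coboundary of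
`F(gU) = g x₀ - f(g)(gU)`. -/
theorem shapiro_ind (U : Subgroup G) [Finite (G ⧸ U)]
    (f : G → IndM U C) (hf : ∀ g h, f (g * h) = f g + g • f h) (x₀ : C)
    (hx : ∀ u ∈ U, IndM.toF U (f u) ((1 : G) : G ⧸ U) = u • x₀ - x₀) :
    ∃ F : IndM U C, ∀ g, f g = g • F - F := by
  classical
  set Ffun : G ⧸ U → C := fun x => x.out • x₀ - IndM.toF U (f x.out) x with hFfun
  have key : ∀ a : G, Ffun (a : G ⧸ U) = a • x₀ - IndM.toF U (f a) (a : G ⧸ U) := by
    intro a
    set r : G := ((a : G ⧸ U)).out with hr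
    have hra : ((r : G) : G ⧸ U) = (a : G ⧸ U) := QuotientGroup.out_eq' _
    have hu : r⁻¹ * a ∈ U := by
      rw [← QuotientGroup.eq, hra]
    have ha : a = r * (r⁻¹ * a) := by group
    have h1 : f a = f r + r • f (r⁻¹ * a) := by
      conv_lhs => rw [ha]
      exact hf r (r⁻¹ * a)
    have h2 : r⁻¹ • ((a : G) : G ⧸ U) = ((1 : G) : G ⧸ U) := by
      rw [← hra]
      show ((r⁻¹ * r : G) : G ⧸ U) = _
      rw [inv_mul_cancel]
    have h3 : IndM.toF U (f a) (a : G ⧸ U) =
        IndM.toF U (f r) (a : G ⧸ U) + r • ((r⁻¹ * a) • x₀ - x₀) := by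
      rw [h1, toF_add, toF_smul, h2, hx _ hu]
    have h4 : r • ((r⁻¹ * a) • x₀) = a • x₀ := by
      rw [← mul_smul, mul_inv_cancel_left]
    show r • x₀ - IndM.toF U (f r) (a : G ⧸ U) = _
    rw [h3, smul_sub, h4]
    abel
  refine ⟨IndM.ofF U (Finsupp.equivFunOnFinite.symm Ffun), fun g => ?_⟩
  have hF : ∀ x, IndM.toF U (IndM.ofF U (Finsupp.equivFunOnFinite.symm Ffun)) x = Ffun x :=
    fun x => rfl
  apply indM_ext
  intro x
  induction x using QuotientGroup.induction_on with
  | H a =>
    rw [toF_sub, toF_smul, hF, hF]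
    have h1 : g⁻¹ • ((a : G) : G ⧸ U) = ((g⁻¹ * a : G) : G ⧸ U) := rfl
    rw [h1, key, key, smul_sub, ← mul_smul, mul_inv_cancel_left]
    have h2 : f a = f g + g • f (g⁻¹ * a) := by
      conv_lhs => rw [show a = g * (g⁻¹ * a) by group]
      exact hf g (g⁻¹ * a)
    have h3 : g • IndM.toF U (f (g⁻¹ * a)) ((g⁻¹ * a : G) : G ⧸ U) =
        IndM.toF U (g • f (g⁻¹ * a)) (a : G ⧸ U) := by
      rw [toF_smul, h1]
    rw [h3, h2, toF_add]
    abel

/-- **Shapiro + transfer.**  `f : G → Ind_U C` a 1-cocycle, `P` a subgroup with `[U : P ⊓ U]`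
finite, and the Shapiro restriction `t ↦ f(t)(1̄)` a coboundary on `P ⊓ U`.  Then `[U : P] • f` is
a coboundary. -/
theorem shapiro_transfer (U : Subgroup G) [Finite (G ⧸ U)] (P : Subgroup G)
    (hm : P.relIndex U ≠ 0)
    (f : G → IndM U C) (hf : ∀ g h, f (g * h) = f g + g • f h) (y : C)
    (hy : ∀ t ∈ P, t ∈ U → IndM.toF U (f t) ((1 : G) : G ⧸ U) = t • y - y) :
    ∃ c₁ : IndM U C, ∀ g, P.relIndex U • f g = g • c₁ - c₁ := by
  classical
  haveI : (P.subgroupOf U).FiniteIndex := ⟨hm⟩
  -- the Shapiro restriction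
  have hone : ∀ u : U, (u : G)⁻¹ • (((1 : G) : G ⧸ U)) = ((1 : G) : G ⧸ U) := by
    intro u
    show (((u : G)⁻¹ * 1 : G) : G ⧸ U) = _
    rw [mul_one, QuotientGroup.eq, inv_inv, mul_one]
    exact u.2
  obtain ⟨x₀, hx₀⟩ := transfer (H := U) (C := C) (P.subgroupOf U)
    (fun u => IndM.toF U (f (u : G)) ((1 : G) : G ⧸ U))
    (fun u u' => by
      show IndM.toF U (f ((u : G) * (u' : G))) _ = _ + (u : G) • _
      rw [hf, toF_add, toF_smul, hone])
    y (fun t ht => hy (t : G) (Subgroup.mem_subgroupOf.1 ht) t.2)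
  obtain ⟨F, hF⟩ := shapiro_ind U (fun g => P.relIndex U • f g)
    (fun g h => by
      show P.relIndex U • f (g * h) = P.relIndex U • f g + g • (P.relIndex U • f h)
      rw [hf, smul_add, smul_comm g (P.relIndex U) (f h)])
    x₀ (fun u hu => by
      have := hx₀ ⟨u, hu⟩
      show IndM.toF U (P.relIndex U • f u) _ = _
      rw [IndM.nsmul_apply]
      exact this)
  exact ⟨F, hF⟩

end Fermat.Agent.S55.Cap.H239

end
end
-- ===== PACK-END S55/Cap/C1H239/Transfer.lean

-- ===== PACK-BEGIN S56/Euler/Ind.lean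
section









/-!
# Row S56 / wall W-BASE / Euler characteristic — leaf IND: ASSEMBLY (helper809)

`ind : IndStatement` — modular Artin induction for additive invariants, unconditional.

    IND ⇐ KEY + PERM + ARTIN        KEY ⇐ COMP + UNIQ        UNIQ ⇐ TRIND + TRSS
-/

set_option autoImplicit false

namespace Fermat.Agent.S56.Euler

/-- (UNIQ), unconditional. -/
theorem uniq : UniqStatement :=
  H939.uniq_of TrIndH206.traceIndep H635.traceSS

/-- (KEY), unconditional. -/
theorem key : KeyStatement :=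
  H7.key_of H486.compSeries uniq

/-- (IND) **modular Artin induction**, unconditional. -/
theorem ind : IndStatement :=
  H809.ind_of key H635.permCharpoly H512.artinCount

end Fermat.Agent.S56.Euler

end
-- ===== PACK-END S56/Euler/Ind.lean

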