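import Mathlib
import Fermat.Prelude.Def_GaloisRep_CompletionBridge
import Fermat.Prelude.Def_GroupCohomology_ContinuousH2
import Fermat.Agent.Pack.S43GC.G0E7L2
import Fermat.Agent.Pack.S43GC.G0E7L0
import Fermat.Agent.Pack.S43GC.G0E5L0
import Fermat.Agent.Pack.S43GC.G0E7L1
import Fermat.Agent.Pack.S44C.G0E13L3
import Fermat.Agent.Pack.S43GC.G0E8L2
import Fermat.Agent.Pack.S43GC.G0E5L3
import Fermat.Agent.Pack.S43GC.G0E0L3
import Fermat.Agent.Pack.S43GC.G0E7L3
import Fermat.Agent.Pack.S43GC.G0E8L1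
import Fermat.Agent.Pack.S43GC.G0E0L1
import Fermat.Agent.Pack.S43GC.G0E8L0
import Fermat.Agent.Pack.S43GC.G0E6L1
import Fermat.Agent.Pack.S43GC.G0E8L3
import Fermat.Agent.Pack.Fast891

-- ===== PACK-BEGIN S55/Local/H542/CycSurj.lean
section
/-
S55, layer L, piece A4c (helper542): every 2-cocycle of a finite cyclic group is cohomologous to
a standard one.

  theorem cycCocycleSurj : Fermat.Agent.S55.Local.CycCocycleSurjStatement

Proof.  Put `a k = c (σ^k, σ)`, `B j = ∏_{m<j} a m`, `u = c (1,1)`.  The cocycle identity at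
`(σ^i, σ^j, σ)` gives, by induction on `j`,
  `c (σ^i, σ^j) * B i * σ^i • B j = σ^i • u * B (i + j)`      (all `i j : ℕ`).
`a` is `n`-periodic, so `B (k + n q) = B k * (B n)^q`; `x := B n` is `σ`-invariant, and
`b g := u / B (cycIdx σ g)` satisfies `d b = c / cycCocycle σ x`.
-/


set_option autoImplicit false

namespace Fermat.Agent.S55.Local.H542

open Fermat.Agent.S55.Local groupCohomology

section

variable {G M : Type} [Group G] [CommGroup M]

/-- The partial products `B j = ∏_{m<j} c (σ^m, σ)`. -/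
noncomputable def cycB (σ : G) (c : G × G → M) (j : ℕ) : M :=
  ∏ m ∈ Finset.range j, c (σ ^ m, σ)

theorem cycB_zero (σ : G) (c : G × G → M) : cycB σ c 0 = 1 := by
  simp [cycB]

theorem cycB_succ (σ : G) (c : G × G → M) (j : ℕ) :
    cycB σ c (j + 1) = cycB σ c j * c (σ ^ j, σ) := by
  simp [cycB, Finset.prod_range_succ]

variable [MulDistribMulAction G M]

/-- `c (g, 1) = g • c (1, 1)` for a 2-cocycle. -/
theorem isMulCocycle₂_apply_one_right {c : G × G → M} (hc : IsMulCocycle₂ c) (g : G) :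
    c (g, 1) = g • c (1, 1) := by
  have h := hc g 1 1
  simp only [mul_one] at h
  exact mul_right_cancel h

/-- The key formula. -/
theorem cyc_formula (σ : G) {c : G × G → M} (hc : IsMulCocycle₂ c) (i j : ℕ) :
    c (σ ^ i, σ ^ j) * cycB σ c i * σ ^ i • cycB σ c j = σ ^ i • c (1, 1) * cycB σ c (i + j) := by
  induction j with
  | zero =>
    simp only [pow_zero, cycB_zero, smul_one, mul_one, add_zero]
    rw [isMulCocycle₂_apply_one_right hc]
  | succ j ih =>
    have h := hc (σ ^ i) (σ ^ j) σ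
    rw [← pow_add, ← pow_succ] at h
    rw [cycB_succ, ← add_assoc, cycB_succ, smul_mul']
    calc c (σ ^ i, σ ^ (j + 1)) * cycB σ c i * (σ ^ i • cycB σ c j * σ ^ i • c (σ ^ j, σ))
        = (σ ^ i • c (σ ^ j, σ) * c (σ ^ i, σ ^ (j + 1))) * (cycB σ c i * σ ^ i • cycB σ c j) := by
          ac_rfl
      _ = (c (σ ^ (i + j), σ) * c (σ ^ i, σ ^ j)) * (cycB σ c i * σ ^ i • cycB σ c j) := by
          rw [h]
      _ = c (σ ^ i, σ ^ j) * cycB σ c i * σ ^ i • cycB σ c j * c (σ ^ (i + j), σ) := by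
          ac_rfl
      _ = σ ^ i • c (1, 1) * cycB σ c (i + j) * c (σ ^ (i + j), σ) := by
          rw [ih]
      _ = σ ^ i • c (1, 1) * (cycB σ c (i + j) * c (σ ^ (i + j), σ)) := by
          rw [mul_assoc]

end

section

variable {G M : Type} [Group G] [Finite G] [CommGroup M] [MulDistribMulAction G M]
variable (σ : G) (hσ : ∀ g, g ∈ Subgroup.zpowers σ)

include hσ

theorem cycB_add_card (c : G × G → M) (k : ℕ) :
    cycB σ c (k + Nat.card G) = cycB σ c k * cycB σ c (Nat.card G) := by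
  induction k with
  | zero => simp [cycB_zero]
  | succ k ih =>
    have hper : c (σ ^ (k + Nat.card G), σ) = c (σ ^ k, σ) := by
      rw [pow_add, pow_card_eq_one_of_generator σ hσ, mul_one]
    rw [Nat.add_right_comm, cycB_succ, ih, hper, cycB_succ]
    ac_rfl

theorem cycB_add_card_mul (c : G × G → M) (k q : ℕ) :
    cycB σ c (k + Nat.card G * q) = cycB σ c k * cycB σ c (Nat.card G) ^ q := by
  induction q with
  | zero => simp
  | succ q ih =>
    rw [Nat.mul_succ, ← Nat.add_assoc, cycB_add_card σ hσ, ih, pow_succ, mul_assoc]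

theorem smul_cycB_card {c : G × G → M} (hc : IsMulCocycle₂ c) :
    σ • cycB σ c (Nat.card G) = cycB σ c (Nat.card G) := by
  have h := cyc_formula σ hc 1 (Nat.card G)
  rw [pow_card_eq_one_of_generator σ hσ, pow_one, isMulCocycle₂_apply_one_right hc,
    cycB_add_card σ hσ] at h
  -- h : σ • u * B 1 * σ • B n = σ • u * (B 1 * B n)
  exact mul_right_cancel_comm_add (A := Additive M) _ _ _ _ h

/-- **A4c.** -/
theorem cycCocycleSurj_aux {c : G × G → M} (hc : IsMulCocycle₂ c) :
    ∃ x : M, σ • x = x ∧ IsMulCoboundary₂ (fun p => c p / cycCocycle σ x p) := by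
  refine ⟨cycB σ c (Nat.card G), smul_cycB_card σ hσ hc,
    fun g => c (1, 1) / cycB σ c (cycIdx σ g), fun g h => ?_⟩
  simp only [cycCocycle]
  have hf := cyc_formula σ hc (cycIdx σ g) (cycIdx σ h)
  rw [pow_cycIdx σ hσ g, pow_cycIdx σ hσ h] at hf
  have hsplit := cycIdx_add_eq σ hσ g h
  rw [hsplit, cycB_add_card_mul σ hσ, ← mul_assoc] at hf
  rw [smul_div']
  exact coboundary_bookkeeping _ _ _ _ _ _ _ hf

end

theorem cycCocycleSurj : CycCocycleSurjStatement := by
  intro G M _ _ _ _ σ hσ c hc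
  exact cycCocycleSurj_aux σ hσ hc

end Fermat.Agent.S55.Local.H542

end
-- ===== PACK-END S55/Local/H542/CycSurj.lean

-- ===== PACK-BEGIN S55/L/C1aH954.lean
section




/-!
# S55, layer L, leaf L-C1a: `|H²(Gal(L/K), Lˣ)| ≤ [L : K]` from the cyclic case (helper954)

* `quotTransportIso` (**L-TRQ**): for `N ⊴ Gal(L/K)` with fixed field `F`,
  `Hⁿ(Gal(L/K) ⧸ N, (Lˣ)^N) ≅ Hⁿ(Gal(F/K), Fˣ)`.
* `h2CardLe_of : H2CardCyclicSpec → FiniteExtSpec → H2CardLeSpec`.
-/

set_option autoImplicit false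
set_option linter.unusedSectionVars false
set_option linter.style.haveILetI false

namespace Fermat.Agent.S55.L.H954

open groupCohomology CategoryTheory IntermediateField Fermat.Agent.S55.L Fermat.Agent.S55.H954

section Quot

variable (K L : Type) [Field K] [Field L] [Algebra K L] [FiniteDimensional K L] [IsGalois K L]
variable (N : Subgroup (L ≃ₐ[K] L)) [N.Normal]

/-- A unit of `L` fixed by `N` is a unit of the fixed field of `N`. -/
noncomputable def unitOfInvariant (u : Lˣ) (hu : ∀ σ ∈ N, σ (u : L) = u) : (fixedField N)ˣ where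
  val := ⟨(u : L), fun σ => hu σ.1 σ.2⟩
  inv := ⟨((u⁻¹ : Lˣ) : L), fun σ => by
    have h := hu σ.1 σ.2
    have h2 : (σ.1 : L ≃ₐ[K] L) ((u⁻¹ : Lˣ) : L) = ((u⁻¹ : Lˣ) : L) := by
      rw [Units.val_inv_eq_inv_val, map_inv₀, h]
    exact h2⟩
  val_inv := Subtype.ext (by simp)
  inv_val := Subtype.ext (by simp)

lemma coe_unitOfInvariant (u : Lˣ) (hu : ∀ σ ∈ N, σ (u : L) = u) :
    (((unitOfInvariant K L N u hu : (fixedField N)ˣ) : fixedField N) : L) = u := rfl

/-- The invariants of `N` in `Lˣ` are the units of the fixed field (as additive groups). -/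
noncomputable def invUnitsAddEquiv :
    ((unitsRep K L).quotientToInvariants N) ≃+ Additive (fixedField N)ˣ where
  toFun x := Additive.ofMul (unitOfInvariant K L N (Additive.toMul x.1) (fun σ hσ => by
    have h := x.2 ⟨σ, hσ⟩
    exact congrArg (fun y : Additive Lˣ => ((Additive.toMul y : Lˣ) : L)) h))
  invFun y := ⟨Additive.ofMul (Units.map (algebraMap (fixedField N) L).toMonoidHom
      (Additive.toMul y)), fun σ => by
    apply congrArg Additive.ofMul
    apply Units.ext
    exact (Additive.toMul y : (fixedField N)ˣ).1.2 σ⟩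
  left_inv x := by
    apply Subtype.ext
    apply congrArg Additive.ofMul
    apply Units.ext
    rfl
  right_inv y := by
    apply congrArg Additive.ofMul
    apply Units.ext
    apply Subtype.ext
    rfl
  map_add' x y := by
    apply congrArg Additive.ofMul
    apply Units.ext
    apply Subtype.ext
    rfl

/-- ℤ-linear version of `invUnitsAddEquiv`. -/
noncomputable def invUnitsLinearEquiv :
    ((unitsRep K L).quotientToInvariants N).V ≃ₗ[ℤ] (unitsRep K (fixedField N)).V :=
  (invUnitsAddEquiv K L N).toIntLinearEquiv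

lemma invUnitsLinearEquiv_comm (g : (L ≃ₐ[K] L) ⧸ N) :
    (invUnitsLinearEquiv K L N).toLinearMap ∘ₗ ((unitsRep K L).quotientToInvariants N).ρ g =
      (unitsRep K (fixedField N)).ρ (IsGalois.normalAutEquivQuotient N g) ∘ₗ
        (invUnitsLinearEquiv K L N).toLinearMap := by
  induction g using QuotientGroup.induction_on with
  | H σ =>
    apply LinearMap.ext
    intro x
    apply congrArg Additive.ofMul
    apply Units.ext
    apply Subtype.ext
    have key := AlgEquiv.restrictNormal_commutes σ (fixedField N)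
      ((Additive.toMul (invUnitsAddEquiv K L N x) : (fixedField N)ˣ) : fixedField N)
    exact key.symm

/-- **L-TRQ** For `N ⊴ Gal(L/K)` with fixed field `F`:
`Hⁿ(Gal(L/K) ⧸ N, (Lˣ)^N) ≅ Hⁿ(Gal(F/K), Fˣ)`. -/
noncomputable def quotTransportIso (n : ℕ) :
    groupCohomology ((unitsRep K L).quotientToInvariants N) n ≅
      groupCohomology (unitsRep K (fixedField N)) n :=
  groupCohomology.mapIso (IsGalois.normalAutEquivQuotient N) (invUnitsLinearEquiv K L N)
    (invUnitsLinearEquiv_comm K L N) n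

end Quot

section Main

lemma finite_and_card_of_addEquiv {X Y : Type*} [AddCommGroup X] [AddCommGroup Y] (e : X ≃+ Y)
    {m : ℕ} (h : Finite Y ∧ Nat.card Y ∣ m) : Finite X ∧ Nat.card X ∣ m := by
  obtain ⟨hf, hd⟩ := h
  exact ⟨Finite.of_equiv Y e.symm.toEquiv, (Nat.card_congr e.toEquiv) ▸ hd⟩

/-- Hilbert 90 for a subgroup of the Galois group. -/
lemma H1_res_eq_zero (K L : Type) [Field K] [Field L] [Algebra K L] [FiniteDimensional K L]
    (H : Subgroup (L ≃ₐ[K] L)) (x : H1 (Rep.res H.subtype (unitsRep K L))) : x = 0 := by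
  haveI : Subsingleton (H1 (unitsRep (fixedField H) L)) :=
    (inferInstance : Subsingleton (H1 (Rep.ofAlgebraAutOnUnits (fixedField H) L)))
  haveI : Subsingleton (H1 (Rep.res H.subtype (unitsRep K L))) :=
    (transportAddEquiv K L H 1).toEquiv.subsingleton
  exact Subsingleton.elim _ _

lemma card_aut_fixedField (K L : Type) [Field K] [Field L] [Algebra K L] [FiniteDimensional K L]
    (H : Subgroup (L ≃ₐ[K] L)) : Nat.card (L ≃ₐ[fixedField H] L) = Nat.card H :=
  (Nat.card_congr (IntermediateField.subgroupEquivAlgEquiv H).toEquiv).symm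

/-- The `p`-group case: induction on the degree, over all Galois extensions of local fields. -/
theorem h2_card_dvd_of_pgroup (hcyc : H2CardCyclicSpec) (h1 : FiniteExtSpec)
    (p : ℕ) [hp : Fact p.Prime] :
    ∀ (n : ℕ) (K L : Type) [Field K] [Field L] [Algebra K L] [FiniteDimensional K L]
      [IsGalois K L] [IsLocalFld K], Nat.card (L ≃ₐ[K] L) = p ^ n →
      Finite (H2 (unitsRep K L)) ∧ Nat.card (H2 (unitsRep K L)) ∣ p ^ n := by
  intro n
  induction n with
  | zero =>
    intro K L _ _ _ _ _ _ hG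
    rw [pow_zero] at hG
    have hz : ∀ x : H2 (unitsRep K L), x = 0 := H2_eq_zero_of_card_eq_one (unitsRep K L) hG
    haveI : Subsingleton (H2 (unitsRep K L)) := ⟨fun a b => (hz a).trans (hz b).symm⟩
    refine ⟨inferInstance, ?_⟩
    rw [Nat.card_unique]
    exact one_dvd _
  | succ n ih =>
    intro K L _ _ _ _ _ _ hG
    obtain ⟨N, hN⟩ := Sylow.exists_subgroup_card_pow_prime (G := L ≃ₐ[K] L) p (n := n)
      (by rw [hG]; exact pow_dvd_pow p (Nat.le_succ n))
    have hidx : N.index = p := by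
      have h := N.card_mul_index
      rw [hN, hG, pow_succ] at h
      exact Nat.eq_of_mul_eq_mul_left (pow_pos hp.out.pos n) h
    haveI hNn : N.Normal := Subgroup.normal_of_index_eq_minFac_card (by
      rw [hidx, hG, Nat.pow_minFac (Nat.succ_ne_zero n), hp.out.minFac_eq])
    -- the top layer `L / F`
    haveI : IsLocalFld (fixedField N) := h1 K (fixedField N)
    haveI : IsGalois (fixedField N) L := IsGalois.tower_top_of_isGalois K _ L
    have IH := ih (fixedField N) L ((card_aut_fixedField K L N).trans hN)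
    have hNc : Finite (H2 (Rep.res N.subtype (unitsRep K L))) ∧
        Nat.card (H2 (Rep.res N.subtype (unitsRep K L))) ∣ p ^ n :=
      finite_and_card_of_addEquiv (transportAddEquiv K L N 2) IH
    -- the bottom layer `F / K`, cyclic of degree `p`
    have hq : Nat.card ((fixedField N) ≃ₐ[K] (fixedField N)) = p := by
      rw [← Nat.card_congr (IsGalois.normalAutEquivQuotient N).toEquiv,
        ← Subgroup.index_eq_card]
      exact hidx
    haveI : IsCyclic ((fixedField N) ≃ₐ[K] (fixedField N)) := isCyclic_of_prime_card hq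
    obtain ⟨hQf, hQc⟩ := hcyc K (fixedField N)
    rw [← IsGalois.card_aut_eq_finrank, hq] at hQc
    have hQ : Finite (H2 ((unitsRep K L).quotientToInvariants N)) ∧
        Nat.card (H2 ((unitsRep K L).quotientToInvariants N)) ∣ p :=
      finite_and_card_of_addEquiv (quotTransportIso K L N 2).toLinearEquiv.toAddEquiv
        ⟨hQf, hQc ▸ dvd_rfl⟩
    obtain ⟨hfin, hdvd⟩ := H2_card_dvd_mul_of_normal (unitsRep K L) N
      (H1_res_eq_zero K L N) hNc.1 hQ.1 hNc.2 hQ.2
    refine ⟨hfin, ?_⟩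
    rw [pow_succ, mul_comm]
    exact hdvd

/-- **L-C1a** `|H²(Gal(L/K), Lˣ)| ≤ [L : K]`, in fact divides it. -/
theorem h2CardDvd_of (hcyc : H2CardCyclicSpec) (h1 : FiniteExtSpec)
    (K L : Type) [Field K] [Field L] [Algebra K L] [FiniteDimensional K L] [IsGalois K L]
    [IsLocalFld K] :
    Finite (H2 (unitsRep K L)) ∧ Nat.card (H2 (unitsRep K L)) ∣ Module.finrank K L := by
  rw [← IsGalois.card_aut_eq_finrank]
  refine card_H2_dvd_card_of_sylow (unitsRep K L) (fun p hp _ => ?_)
  haveI : Fact p.Prime := ⟨hp⟩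
  obtain ⟨P⟩ : Nonempty (Sylow p (L ≃ₐ[K] L)) := inferInstance
  refine ⟨P, ?_⟩
  have hP : Nat.card (P : Subgroup (L ≃ₐ[K] L)) = p ^ ((Nat.card (L ≃ₐ[K] L)).factorization p) :=
    Sylow.card_eq_multiplicity P
  haveI : IsLocalFld (fixedField (P : Subgroup (L ≃ₐ[K] L))) := h1 K _
  haveI : IsGalois (fixedField (P : Subgroup (L ≃ₐ[K] L))) L :=
    IsGalois.tower_top_of_isGalois K _ L
  have h := h2_card_dvd_of_pgroup hcyc h1 p _ (fixedField (P : Subgroup (L ≃ₐ[K] L))) L
    ((card_aut_fixedField K L _).trans hP)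
  rw [hP]
  exact finite_and_card_of_addEquiv (transportAddEquiv K L _ 2) h

/-- **L-C1a** `h2CardLe_of`. -/
theorem h2CardLe_of (hcyc : H2CardCyclicSpec) (h1 : FiniteExtSpec) : H2CardLeSpec := by
  intro K L _ _ _ _ _ _
  obtain ⟨hf, hd⟩ := h2CardDvd_of hcyc h1 K L
  exact ⟨hf, Nat.le_of_dvd Module.finrank_pos hd⟩

end Main

end Fermat.Agent.S55.L.H954

end
-- ===== PACK-END S55/L/C1aH954.lean

-- ===== PACK-BEGIN S55/H414/CycloLocal.lean
section


/-!
# S55, leaf CYC-INF (helper414), part 4: the case `q = p`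

`Φ_{p^(n+1)}(X + 1)` is Eisenstein over `ℤ_p`, hence irreducible over `ℚ_p`; therefore the local
Galois group `Gal(ℚ̄_p/ℚ_p)` acts transitively on the primitive `p^(n+1)`-th roots of unity and its
image under the cyclotomic character modulo `p^(n+1)` is everything.
-/

set_option autoImplicit false

namespace Fermat.Agent.S55.H414

open ExtCitation Polynomial

section Eisenstein

variable (p : ℕ) [Fact p.Prime]

theorem cyclotomic_comp_padicInt_eq_map (n : ℕ) :
    (cyclotomic (p ^ (n + 1)) ℤ_[p]).comp (X + 1)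
      = ((cyclotomic (p ^ (n + 1)) ℤ).comp (X + 1)).map (Int.castRingHom ℤ_[p]) := by
  rw [Polynomial.map_comp, map_cyclotomic, Polynomial.map_add, Polynomial.map_X,
    Polynomial.map_one]

theorem monic_cyclotomic_comp (R : Type*) [CommRing R] [Nontrivial R] (N : ℕ) :
    ((cyclotomic N R).comp (X + 1)).Monic := by
  have := (cyclotomic.monic N R).comp_X_add_C (1 : R)
  simpa using this

theorem natDegree_cyclotomic_comp (R : Type*) [CommRing R] [IsDomain R] (N : ℕ) :
    ((cyclotomic N R).comp (X + 1)).natDegree = N.totient := by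
  have := natDegree_comp (p := cyclotomic N R) (q := X + C (1 : R))
  rw [natDegree_X_add_C, mul_one, natDegree_cyclotomic] at this
  simpa using this

/-- `Φ_{p^(n+1)}(X + 1)` is an Eisenstein polynomial over `ℤ_p`. -/
theorem isEisensteinAt_cyclotomic_comp_padicInt (n : ℕ) :
    ((cyclotomic (p ^ (n + 1)) ℤ_[p]).comp (X + 1)).IsEisensteinAt
      (IsLocalRing.maximalIdeal ℤ_[p]) := by
  have hp : p.Prime := Fact.out
  have hZ := cyclotomic_prime_pow_comp_X_add_one_isEisensteinAt p n
  have hmonZ : ((cyclotomic (p ^ (n + 1)) ℤ).comp (X + 1)).Monic := monic_cyclotomic_comp ℤ _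
  refine Monic.isEisensteinAt_of_mem_of_notMem (monic_cyclotomic_comp ℤ_[p] _)
    (Ideal.IsPrime.ne_top inferInstance) (fun {i} hi => ?_) ?_
  · rw [natDegree_cyclotomic_comp] at hi
    have hi' : i < ((cyclotomic (p ^ (n + 1)) ℤ).comp (X + 1)).natDegree := by
      rw [natDegree_cyclotomic_comp]; exact hi
    have hmem := hZ.mem hi'
    rw [Submodule.mem_span_singleton] at hmem
    obtain ⟨c, hc⟩ := hmem
    rw [cyclotomic_comp_padicInt_eq_map, coeff_map, ← hc, PadicInt.maximalIdeal_eq_span_p,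
      Ideal.mem_span_singleton]
    refine ⟨(c : ℤ_[p]), ?_⟩
    simp [mul_comm]
  · have h0 : ((cyclotomic (p ^ (n + 1)) ℤ_[p]).comp (X + 1)).coeff 0 = (p : ℤ_[p]) := by
      rw [coeff_zero_eq_eval_zero, eval_comp]
      simp only [eval_add, eval_X, eval_one, zero_add]
      exact eval_one_cyclotomic_prime_pow n
    rw [h0, PadicInt.maximalIdeal_eq_span_p, Ideal.span_singleton_pow,
      ← PadicInt.norm_le_pow_iff_mem_span_pow, PadicInt.norm_p, not_le]
    have hp1 : (1 : ℝ) < p := by exact_mod_cast hp.one_lt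
    have hp0 : (0 : ℝ) < p := by positivity
    rw [show (-(2 : ℕ) : ℤ) = -2 by rfl, zpow_neg, zpow_ofNat]
    rw [inv_lt_inv₀ (by positivity) hp0]
    nlinarith

/-- `Φ_{p^(n+1)}(X + 1)` is irreducible over `ℚ_p`. -/
theorem irreducible_cyclotomic_comp_padic (n : ℕ) :
    Irreducible ((cyclotomic (p ^ (n + 1)) ℚ_[p]).comp (X + 1)) := by
  have hp : p.Prime := Fact.out
  have hmon := monic_cyclotomic_comp ℤ_[p] (p ^ (n + 1))
  have hirr : Irreducible ((cyclotomic (p ^ (n + 1)) ℤ_[p]).comp (X + 1)) := by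
    refine (isEisensteinAt_cyclotomic_comp_padicInt p n).irreducible inferInstance
      hmon.isPrimitive ?_
    rw [natDegree_cyclotomic_comp]
    exact Nat.totient_pos.2 (pow_pos hp.pos _)
  have h2 := (Monic.irreducible_iff_irreducible_map_fraction_map (K := ℚ_[p]) hmon).1 hirr
  rwa [Polynomial.map_comp, map_cyclotomic, Polynomial.map_add, Polynomial.map_X,
    Polynomial.map_one] at h2

end Eisenstein

section Local

variable (p : ℕ) [Fact p.Prime]

/-- The local Galois group at `p` acts transitively on primitive `p^(n+1)`-th roots of unity. -/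
theorem exists_local_algEquiv_pow (n : ℕ) {ζ : PadicAlgCl p}
    (hζ : IsPrimitiveRoot ζ (p ^ (n + 1))) (u : ℕ) (hu : u.Coprime (p ^ (n + 1))) :
    ∃ τ : PadicAlgCl p ≃ₐ[ℚ_[p]] PadicAlgCl p, τ ζ = ζ ^ u := by
  have hp : p.Prime := Fact.out
  have hpos : 0 < p ^ (n + 1) := pow_pos hp.pos _
  haveI : NeZero (p ^ (n + 1)) := ⟨hpos.ne'⟩
  haveI : Normal ℚ_[p] (PadicAlgCl p) := IsAlgClosure.normal ℚ_[p] (PadicAlgCl p)
  set g : ℚ_[p][X] := (cyclotomic (p ^ (n + 1)) ℚ_[p]).comp (X + 1) with hg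
  have hirr : Irreducible g := irreducible_cyclotomic_comp_padic p n
  have hmon : g.Monic := monic_cyclotomic_comp ℚ_[p] _
  have hroot : ∀ ξ : PadicAlgCl p, IsPrimitiveRoot ξ (p ^ (n + 1)) → aeval (ξ - 1) g = 0 := by
    intro ξ hξ
    rw [hg, aeval_comp]
    simp only [map_add, aeval_X, map_one, sub_add_cancel]
    rw [aeval_def, eval₂_eq_eval_map, map_cyclotomic]
    exact hξ.isRoot_cyclotomic hpos
  have h1 : g = minpoly ℚ_[p] (ζ - 1) := minpoly.eq_of_irreducible_of_monic hirr (hroot ζ hζ) hmon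
  have h2 : g = minpoly ℚ_[p] (ζ ^ u - 1) :=
    minpoly.eq_of_irreducible_of_monic hirr (hroot _ (hζ.pow_of_coprime u hu)) hmon
  have hconj : IsConjRoot ℚ_[p] (ζ ^ u - 1) (ζ - 1) := by
    rw [IsConjRoot, ← h1, ← h2]
  obtain ⟨τ, hτ⟩ := hconj.exists_algEquiv
  refine ⟨τ, ?_⟩
  rw [map_sub, map_one] at hτ
  exact sub_left_injective hτ

/-- The cyclotomic character modulo `p^(n+1)` is surjective on the local Galois group at `p`. -/
theorem exists_local_cycloPow_eq (n : ℕ) (w : (ZMod (p ^ (n + 1)))ˣ) :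
    ∃ τ : PadicAlgCl p ≃ₐ[ℚ_[p]] PadicAlgCl p,
      cycloPow (p ^ (n + 1)) (localGaloisToGlobal p τ) = w := by
  have hp : p.Prime := Fact.out
  have hinj : Function.Injective (padicEmbedding p) := (padicEmbedding p).toRingHom.injective
  have hζ : IsPrimitiveRoot (padicEmbedding p (zetaBar (p ^ (n + 1)))) (p ^ (n + 1)) :=
    (zetaBar_spec (p ^ (n + 1))).map_of_injective hinj
  obtain ⟨τ, hτ⟩ := exists_local_algEquiv_pow p n hζ (w : ZMod (p ^ (n + 1))).val
    (ZMod.val_coe_unit_coprime w)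
  refine ⟨τ, ?_⟩
  rw [cycloPow_eq_iff]
  apply hinj
  rw [padicEmbedding_localGaloisToGlobal, hτ, map_pow]

/-- The image of the decomposition group at `p` under the cyclotomic character modulo `p^(n+1)`
is everything. -/
theorem map_cycloPow_eq_top (n : ℕ)
    (D : Subgroup (AlgebraicClosure ℚ ≃ₐ[ℚ] AlgebraicClosure ℚ))
    (hD : (localGaloisToGlobal p).range ≤ D) :
    D.map (cycloPow (p ^ (n + 1))) = ⊤ := by
  rw [eq_top_iff]
  rintro w -
  obtain ⟨τ, hτ⟩ := exists_local_cycloPow_eq p n w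
  exact ⟨localGaloisToGlobal p τ, hD ⟨τ, rfl⟩, hτ⟩

/-- **CYC-INF, case `q = p`.** The local degree at `p` of `ℚ(ζ_{p^(n+1)})/ℚ` is
`φ(p^(n+1)) = (p - 1) p^n`. -/
theorem relIndex_fixingSubgroup_cycloLevel_self (n : ℕ)
    (D : Subgroup (AlgebraicClosure ℚ ≃ₐ[ℚ] AlgebraicClosure ℚ))
    (hD : (localGaloisToGlobal p).range ≤ D) :
    (cycloLevel (p ^ (n + 1))).fixingSubgroup.relIndex D = (p - 1) * p ^ n := by
  have hp : p.Prime := Fact.out
  rw [relIndex_fixingSubgroup_cycloLevel, map_cycloPow_eq_top p n D hD, Subgroup.card_top,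
    Nat.card_eq_fintype_card, ZMod.card_units_eq_totient,
    Nat.totient_prime_pow hp (Nat.succ_pos n), Nat.succ_sub_one, mul_comm]

end Local

end Fermat.Agent.S55.H414

end
-- ===== PACK-END S55/H414/CycloLocal.lean

-- ===== PACK-BEGIN S55/G/Rec/Final.lean
section


/-!
# S55 / layer G / block REC : final assembly (leaf FIN)

`reciprocity_of : TrivAbovePSpec I p → KillAbovePSpec I p → SupportFiniteSpec → ReciprocitySpec I p`.
-/

set_option autoImplicit false

noncomputable section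

namespace Fermat.Agent.S55.G.Rec

open groupCohomology

local notation "Qb" => AlgebraicClosure ℚ
local notation "GQ" => (AlgebraicClosure ℚ ≃ₐ[ℚ] AlgebraicClosure ℚ)

lemma LocalInvSystem.invAt_add (I : LocalInvSystem) (q : Nat.Primes) (g : GQ) (U : Subgroup GQ)
    (x y : gBr U) : I.invAt q g U (x + y) = I.invAt q g U x + I.invAt q g U y := by
  unfold LocalInvSystem.invAt
  rw [map_add, map_add]

lemma LocalInvSystem.invAt_eq_zero (I : LocalInvSystem) (q : Nat.Primes) (g : GQ)
    (U : Subgroup GQ) (x : gBr U)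
    (h : haveI : Fact (q : ℕ).Prime := ⟨q.2⟩; locBr (q : ℕ) g U x = 0) :
    I.invAt q g U x = 0 := by
  unfold LocalInvSystem.invAt
  rw [h, map_zero]

/-- The local sums have finite support. -/
lemma LocalInvSystem.support_finite (I : LocalInvSystem) (hS : SupportFiniteSpec)
    (U : Subgroup GQ) (hU : IsOpenQ U) (R : Nat.Primes → Finset GQ) (x : gBr U) :
    (Function.support fun q : Nat.Primes => ∑ r ∈ R q, I.invAt q r U x).Finite := by
  refine (hS I U hU x).subset ?_
  intro q hq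
  rw [Function.mem_support] at hq
  by_contra hcon
  apply hq
  apply Finset.sum_eq_zero
  intro r _
  apply I.invAt_eq_zero
  by_contra h0
  exact hcon ⟨r, h0⟩

lemma LocalInvSystem.sumInv_add (I : LocalInvSystem) (hS : SupportFiniteSpec)
    (U : Subgroup GQ) (hU : IsOpenQ U) (R : Nat.Primes → Finset GQ) (x y : gBr U) :
    I.sumInv U R (x + y) = I.sumInv U R x + I.sumInv U R y := by
  unfold LocalInvSystem.sumInv
  rw [← finsum_add_distrib (I.support_finite hS U hU R x) (I.support_finite hS U hU R y)]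
  congr 1
  funext q
  rw [← Finset.sum_add_distrib]
  exact Finset.sum_congr rfl fun r _ => I.invAt_add q r U x y

/-- **FIN**: the reciprocity law from STEP B, STEP C and finiteness of supports. -/
theorem reciprocity_of (I : LocalInvSystem) (p : ℕ) [Fact p.Prime]
    (hB : TrivAbovePSpec I p) (hC : KillAbovePSpec I p) (hS : SupportFiniteSpec) :
    ReciprocitySpec I p := by
  intro U hU x hx R hR
  refine ⟨I.support_finite hS U hU R x, ?_⟩
  obtain ⟨y, hy, hloc, hsum⟩ := hC U hU x hx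
  have hR' : IsPlaceReps U R := hR
  have hxy : ∃ k : ℕ, p ^ k • (x - y) = 0 := by
    obtain ⟨k, hk⟩ := hx
    obtain ⟨k', hk'⟩ := hy
    refine ⟨k + k', ?_⟩
    have e1 : p ^ (k + k') • x = p ^ k' • (p ^ k • x) := by
      rw [← mul_smul, pow_add, mul_comm]
    have e2 : p ^ (k + k') • y = p ^ k • (p ^ k' • y) := by
      rw [← mul_smul, pow_add]
    rw [smul_sub, e1, e2, hk, hk', smul_zero, smul_zero, sub_zero]
  have h1 : I.sumInv U R (x - y) = 0 := hB U hU (x - y) hxy hloc R hR'
  have h2 : I.sumInv U R y = 0 := hsum R hR'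
  have h3 : I.sumInv U R x = I.sumInv U R (x - y) + I.sumInv U R y := by
    rw [← I.sumInv_add hS U hU R, sub_add_cancel]
  show I.sumInv U R x = 0
  rw [h3, h1, h2, add_zero]

end Fermat.Agent.S55.G.Rec

end
end
-- ===== PACK-END S55/G/Rec/Final.lean

-- ===== PACK-BEGIN S55/G/Rec/SupportFiniteH181.lean
section



/-!
# S55 / layer G / block REC, leaf G4 (helper181): finiteness of the support

`supportFinite : SupportFiniteSpec` — a class `x ∈ Br(K)`, `K = ℚ̄^U`, has only finitely many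
rational primes `q` above which some local component `locBr q g U x` is non-zero.

Ingredients (all reusable):
* `exists_normal_level` : a level cocycle on an open `U` has a finite NORMAL level `F` with
  `G_F ≤ U`;
* `rho_eq_of_level` : its values are fixed by `G_F`;
* `finite_range_of_level` : it has finitely many values;
* `exists_bad_primes_norm` : for `a ∈ ℚ̄ˣ`, for almost all `q`, `‖ι_q (g a)‖ = 1` for ALL `g ∈ G_ℚ`;
* `exists_bad_primes_inertial` : for `F/ℚ` finite, for almost all `q`, the image in `G_ℚ` of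
  every inertial element of `G_{ℚ_q}` fixes `F`;
* `isOpenL_locSub` : `locSub q g U` is open for `U` open.
-/

set_option autoImplicit false

noncomputable section

namespace Fermat.Agent.S55.G.Rec.H181

open groupCohomology Fermat.Agent.S55.G.Rec

local notation "Qb" => AlgebraicClosure ℚ
local notation "GQ" => (AlgebraicClosure ℚ ≃ₐ[ℚ] AlgebraicClosure ℚ)

/-! ## Norms of algebraic numbers at almost all primes -/

section Norm

variable (q : ℕ) [Fact q.Prime]

/-- An element of `ℚ̄_q` which is integral over `ℤ` has norm `≤ 1`. -/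
theorem norm_le_one_of_isIntegral {x : PadicAlgCl q} (hx : IsIntegral ℤ x) : ‖x‖ ≤ 1 := by
  have h1 : IsIntegral (padicIntegers q) x := hx.tower_top
  have h2 : x ∈ (Valued.v : Valuation (PadicAlgCl q) NNReal).integer :=
    (Valuation.integer.integers (Valued.v : Valuation (PadicAlgCl q) NNReal)).mem_of_integral h1
  exact h2

theorem norm_intCast_eq_one (n : ℤ) (hn : ¬ (q : ℤ) ∣ n) : ‖(n : PadicAlgCl q)‖ = 1 := by
  have h1 : ((n : ℚ_[q]) : PadicAlgCl q) = (n : PadicAlgCl q) := map_intCast _ n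
  rw [← h1, PadicAlgCl.norm_extends]
  have h2 : ‖(n : ℚ_[q])‖ ≤ 1 := Padic.norm_int_le_one n
  have h3 : ¬ ‖(n : ℚ_[q])‖ < 1 := by
    rw [Padic.norm_intCast_lt_one_iff]
    exact hn
  exact le_antisymm h2 (not_lt.1 h3)

/-- The image in `ℚ̄_q` of an integral algebraic number has norm `≤ 1`. -/
theorem norm_padicEmbedding_le_one {a : Qb} (ha : IsIntegral ℤ a) :
    ‖padicEmbedding q a‖ ≤ 1 :=
  norm_le_one_of_isIntegral q (map_isIntegral_int (padicEmbedding q) ha)

/-- If `y • a` is integral, `q ∤ y`, then `‖ι_q (g a)‖ ≤ 1` for every `g ∈ G_ℚ`. -/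
theorem norm_padicEmbedding_le_one_of_smul {a : Qb} {y : ℤ} (hy : IsIntegral ℤ (y • a))
    (hq : ¬ (q : ℤ) ∣ y) (g : GQ) : ‖padicEmbedding q (g a)‖ ≤ 1 := by
  have h1 : IsIntegral ℤ (g (y • a)) := map_isIntegral_int g hy
  have h2 := norm_padicEmbedding_le_one q h1
  have h3 : padicEmbedding q (g (y • a)) = (y : PadicAlgCl q) * padicEmbedding q (g a) := by
    rw [zsmul_eq_mul, map_mul, map_mul, map_intCast, map_intCast]
  rw [h3, norm_mul, norm_intCast_eq_one q y hq, one_mul] at h2
  exact h2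

end Norm

/-- For a non-zero algebraic number `a` there is a finite set `B` of primes such that for every
prime `q ∉ B` ALL conjugates of `a` are `q`-adic units. -/
theorem exists_bad_primes_norm (a : Qb) (ha : a ≠ 0) :
    ∃ B : Finset ℕ, ∀ (q : ℕ) [Fact q.Prime], q ∉ B →
      ∀ g : GQ, ‖padicEmbedding q (g a)‖ = 1 := by
  haveI : Algebra.IsAlgebraic ℚ Qb := AlgebraicClosure.isAlgebraic ℚ
  have halg : ∀ b : Qb, IsAlgebraic ℤ b := fun b =>
    (IsFractionRing.isAlgebraic_iff ℤ ℚ Qb).2 (Algebra.IsAlgebraic.isAlgebraic b)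
  obtain ⟨y, hy0, hy⟩ := (halg a).exists_integral_multiple
  obtain ⟨z, hz0, hz⟩ := (halg a⁻¹).exists_integral_multiple
  refine ⟨(y.natAbs * z.natAbs).primeFactors, fun q _ hq g => ?_⟩
  have hqp : q.Prime := Fact.out
  have hyz : y.natAbs * z.natAbs ≠ 0 :=
    mul_ne_zero (Int.natAbs_ne_zero.2 hy0) (Int.natAbs_ne_zero.2 hz0)
  have hnd : ¬ q ∣ y.natAbs * z.natAbs := fun h =>
    hq (Nat.mem_primeFactors.2 ⟨hqp, h, hyz⟩)
  have hqy : ¬ (q : ℤ) ∣ y := fun h =>
    hnd (Dvd.dvd.mul_right (Int.natCast_dvd.1 h) _)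
  have hqz : ¬ (q : ℤ) ∣ z := fun h =>
    hnd (Dvd.dvd.mul_left (Int.natCast_dvd.1 h) _)
  have h1 := norm_padicEmbedding_le_one_of_smul q hy hqy g
  have h2 := norm_padicEmbedding_le_one_of_smul q hz hqz g
  have h3 : padicEmbedding q (g a) * padicEmbedding q (g a⁻¹) = 1 := by
    rw [← map_mul, ← map_mul, mul_inv_cancel₀ ha, map_one, map_one]
  have h4 : ‖padicEmbedding q (g a)‖ * ‖padicEmbedding q (g a⁻¹)‖ = 1 := by
    rw [← norm_mul, h3, norm_one]
  refine le_antisymm h1 ?_
  by_contra hlt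
  rw [not_le] at hlt
  have h5 : ‖padicEmbedding q (g a)‖ * ‖padicEmbedding q (g a⁻¹)‖ < 1 := by
    calc ‖padicEmbedding q (g a)‖ * ‖padicEmbedding q (g a⁻¹)‖
        ≤ ‖padicEmbedding q (g a)‖ * 1 :=
          mul_le_mul_of_nonneg_left h2 (norm_nonneg _)
      _ = ‖padicEmbedding q (g a)‖ := mul_one _
      _ < 1 := hlt
  rw [h4] at h5
  exact lt_irrefl _ h5

/-- Finite-set version of `exists_bad_primes_norm`. -/
theorem exists_bad_primes_norm_finite {A : Set Qb} (hA : A.Finite) (h0 : ∀ a ∈ A, a ≠ 0) :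
    ∃ B : Finset ℕ, ∀ (q : ℕ) [Fact q.Prime], q ∉ B →
      ∀ a ∈ A, ∀ g : GQ, ‖padicEmbedding q (g a)‖ = 1 := by
  classical
  induction A, hA using Set.Finite.induction_on with
  | empty => exact ⟨∅, fun q _ _ a ha => absurd ha (Set.notMem_empty a)⟩
  | @insert a s _ _ ih =>
    obtain ⟨B₁, hB₁⟩ := ih (fun b hb => h0 b (Set.mem_insert_of_mem _ hb))
    obtain ⟨B₂, hB₂⟩ := exists_bad_primes_norm a (h0 a (Set.mem_insert _ _))
    refine ⟨B₁ ∪ B₂, fun q _ hq b hb g => ?_⟩
    rw [Finset.mem_union, not_or] at hq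
    rcases Set.mem_insert_iff.1 hb with rfl | hb
    · exact hB₂ q hq.2 g
    · exact hB₁ q hq.1 b hb g

/-! ## Unramifiedness at almost all primes -/

/-- A finite extension of `ℚ` inside `ℚ̄` is generated by one integral element. -/
theorem exists_integral_generator (F : IntermediateField ℚ Qb) [FiniteDimensional ℚ F] :
    ∃ β : Qb, IsIntegral ℤ β ∧ F = IntermediateField.adjoin ℚ {β} := by
  haveI : Algebra.IsAlgebraic ℚ Qb := AlgebraicClosure.isAlgebraic ℚ
  obtain ⟨β, hβ⟩ := Field.exists_primitive_element ℚ F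
  have hF : F = IntermediateField.adjoin ℚ {(β : Qb)} := by
    have h1 : IntermediateField.lift (IntermediateField.adjoin ℚ {β})
        = IntermediateField.adjoin ℚ {(β : Qb)} := by
      rw [IntermediateField.lift_adjoin, Set.image_singleton]
    apply le_antisymm
    · intro y hy
      have hy' : (⟨y, hy⟩ : F) ∈ IntermediateField.adjoin ℚ {β} := by rw [hβ]; trivial
      rw [← h1]
      exact (IntermediateField.mem_lift (⟨y, hy⟩ : F)).2 hy'
    · rw [IntermediateField.adjoin_le_iff]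
      intro y hy
      rw [Set.mem_singleton_iff] at hy
      subst hy
      exact β.2
  have halg : IsAlgebraic ℤ (β : Qb) :=
    (IsFractionRing.isAlgebraic_iff ℤ ℚ Qb).2 (Algebra.IsAlgebraic.isAlgebraic _)
  obtain ⟨y, hy0, hy⟩ := halg.exists_integral_multiple
  refine ⟨y • (β : Qb), hy, ?_⟩
  refine hF.trans ?_
  have hyQ : algebraMap ℚ Qb (y : ℚ) ≠ 0 := by
    rw [Ne, map_intCast, Int.cast_eq_zero]
    exact hy0
  have e1 : y • (β : Qb) = algebraMap ℚ Qb (y : ℚ) * β := by
    rw [zsmul_eq_mul, map_intCast]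
  apply le_antisymm
  · rw [IntermediateField.adjoin_le_iff]
    intro x hx
    rw [Set.mem_singleton_iff] at hx
    subst hx
    have h2 : (β : Qb) = (algebraMap ℚ Qb (y : ℚ))⁻¹ * (y • (β : Qb)) := by
      rw [e1, ← mul_assoc, inv_mul_cancel₀ hyQ, one_mul]
    have h3 : (algebraMap ℚ Qb (y : ℚ))⁻¹ * (y • (β : Qb)) ∈
        IntermediateField.adjoin ℚ {y • (β : Qb)} :=
      mul_mem (inv_mem (IntermediateField.algebraMap_mem _ (y : ℚ)))
        (IntermediateField.mem_adjoin_simple_self ℚ _)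
    rw [← h2] at h3
    exact h3
  · rw [IntermediateField.adjoin_le_iff]
    intro x hx
    rw [Set.mem_singleton_iff] at hx
    subst hx
    rw [e1]
    exact mul_mem (IntermediateField.algebraMap_mem _ (y : ℚ))
      (IntermediateField.mem_adjoin_simple_self ℚ _)

/-- An automorphism fixing a generator fixes the field. -/
theorem mem_fixingSubgroup_adjoin_singleton {β : Qb} {σ : GQ} (h : σ β = β) :
    σ ∈ (IntermediateField.adjoin ℚ {β}).fixingSubgroup := by
  rw [IntermediateField.mem_fixingSubgroup_iff]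
  have hle : IntermediateField.adjoin ℚ {β} ≤ IntermediateField.fixedField (Subgroup.zpowers σ) := by
    rw [IntermediateField.adjoin_le_iff]
    intro x hx
    rw [Set.mem_singleton_iff] at hx
    subst hx
    rintro ⟨τ, hτ⟩
    obtain ⟨n, rfl⟩ := Subgroup.mem_zpowers_iff.1 hτ
    show (σ ^ n) x = x
    have hfix : σ ∈ MulAction.stabilizer GQ x := by
      rw [MulAction.mem_stabilizer_iff]
      exact h
    exact (Subgroup.zpow_mem _ hfix n : _)
  intro y hy
  exact hle hy ⟨σ, Subgroup.mem_zpowers σ⟩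

/-- For a finite extension `F/ℚ`, for almost all primes `q` every inertial element of
`G_{ℚ_q}` restricts to an element of `G_F`  (`F` is unramified at almost all primes). -/
theorem exists_bad_primes_inertial (F : IntermediateField ℚ Qb) [FiniteDimensional ℚ F] :
    ∃ B : Finset ℕ, ∀ (q : ℕ) [Fact q.Prime], q ∉ B →
      ∀ τ : PadicAlgCl q ≃ₐ[ℚ_[q]] PadicAlgCl q, IsInertial q τ →
        localGaloisToGlobal q τ ∈ F.fixingSubgroup := by
  haveI : Algebra.IsAlgebraic ℚ Qb := AlgebraicClosure.isAlgebraic ℚ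
  obtain ⟨β, hβint, rfl⟩ := exists_integral_generator F
  -- the nonzero differences `β' - β`, `β'` a conjugate of `β`
  let A : Set Qb := (fun r => r - β) '' ((minpoly ℚ β).rootSet Qb \ {β})
  have hA : A.Finite := ((Polynomial.rootSet_finite _ _).subset Set.sdiff_subset).image _
  have hA0 : ∀ a ∈ A, a ≠ 0 := by
    rintro _ ⟨r, ⟨-, hr⟩, rfl⟩
    exact sub_ne_zero.2 hr
  obtain ⟨B, hB⟩ := exists_bad_primes_norm_finite hA hA0
  refine ⟨B, fun q _ hq τ hτ => ?_⟩
  apply mem_fixingSubgroup_adjoin_singleton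
  by_contra hne
  set σ := localGaloisToGlobal q τ with hσ
  have hroot : σ β ∈ (minpoly ℚ β).rootSet Qb := by
    rw [Polynomial.mem_rootSet]
    refine ⟨minpoly.ne_zero (Algebra.IsIntegral.isIntegral β), ?_⟩
    have h := Polynomial.aeval_algHom_apply (σ : Qb →ₐ[ℚ] Qb) β (minpoly ℚ β)
    rw [minpoly.aeval, map_zero] at h
    exact h
  have hmem : σ β - β ∈ A := ⟨σ β, ⟨hroot, hne⟩, rfl⟩
  have h1 : ‖padicEmbedding q ((1 : GQ) (σ β - β))‖ = 1 := hB q hq _ hmem 1
  have h2 : padicEmbedding q ((1 : GQ) (σ β - β)) =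
      τ (padicEmbedding q β) - padicEmbedding q β := by
    rw [AlgEquiv.one_apply, map_sub, hσ, padicEmbedding_localGaloisToGlobal]
  rw [h2] at h1
  have h3 := hτ (padicEmbedding q β) (norm_padicEmbedding_le_one q hβint)
  rw [h1] at h3
  exact lt_irrefl _ h3

/-! ## Openness of the local subgroups -/

/-- `locSub q g U` is open if `U` is. -/
theorem isOpenL_locSub (q : ℕ) [Fact q.Prime] (g : GQ) {U : Subgroup GQ} (hU : IsOpenQ U) :
    IsOpenL q (locSub q g U) := by
  obtain ⟨F, hF, hle⟩ := hU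
  haveI := hF
  haveI : FiniteDimensional ℚ (F.map (g⁻¹ : GQ).toAlgHom) := finiteDimensional_map_inv F g
  refine ⟨Bridge.H175.localLevel q (F.map (g⁻¹ : GQ).toAlgHom),
    Bridge.H175.finiteDimensional_localLevel q _, fun τ hτ => ?_⟩
  rw [mem_locSub]
  apply hle
  rw [← mem_fixingSubgroup_map_inv]
  exact (Bridge.H175.mem_fixingSubgroup_localLevel_iff q _ τ).1 hτ

/-! ## Level cocycles on an open subgroup -/

/-- The fixing subgroup of a normal extension is stable under conjugation. -/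
theorem conj_mem_fixingSubgroup (F : IntermediateField ℚ Qb) [Normal ℚ F] (g : GQ) {σ : GQ}
    (hσ : σ ∈ F.fixingSubgroup) : g * σ * g⁻¹ ∈ F.fixingSubgroup := by
  rw [IntermediateField.mem_fixingSubgroup_iff] at hσ ⊢
  intro x hx
  have h1 : (g⁻¹ : GQ) x ∈ F := Bridge.H175.apply_mem_of_normal F _ hx
  show g (σ ((g⁻¹ : GQ) x)) = x
  rw [hσ _ h1]
  exact AlgEquiv.apply_symm_apply g x

/-- A level-constant `2`-cochain on an open subgroup `U` has a finite NORMAL level `F` with
`G_F ≤ U`. -/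
theorem exists_normal_level {U : Subgroup GQ} (hU : IsOpenQ U) {X : Type*} {c : ↥U × ↥U → X}
    (hc : IsLevelConstant₂ U.subtype c) :
    ∃ F : IntermediateField ℚ Qb, FiniteDimensional ℚ F ∧ Normal ℚ F ∧ F.fixingSubgroup ≤ U ∧
      ∀ g g' s s' : ↥U, (s : GQ) ∈ F.fixingSubgroup → (s' : GQ) ∈ F.fixingSubgroup →
        c (g * s, g' * s') = c (g, g') := by
  obtain ⟨F₀, hF₀, h₀⟩ := hc
  obtain ⟨F₁, hF₁, h₁⟩ := hU
  haveI := hF₀
  haveI := hF₁
  haveI : Algebra.IsAlgebraic ℚ Qb := AlgebraicClosure.isAlgebraic ℚ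
  haveI : IsAlgClosure ℚ Qb := ⟨inferInstance, inferInstance⟩
  haveI : Normal ℚ Qb := IsAlgClosure.normal ℚ Qb
  have hle : F₀ ⊔ F₁ ≤ IntermediateField.normalClosure ℚ ↥(F₀ ⊔ F₁) Qb :=
    IntermediateField.le_normalClosure _
  refine ⟨IntermediateField.normalClosure ℚ ↥(F₀ ⊔ F₁) Qb,
    normalClosure.is_finiteDimensional ℚ _ Qb, normalClosure.normal ℚ _ Qb, ?_, ?_⟩
  · exact (IntermediateField.fixingSubgroup_antitone (le_sup_right.trans hle)).trans h₁
  · intro g g' s s' hs hs'
    exact h₀ g g' s s'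
      (IntermediateField.fixingSubgroup_antitone (le_sup_left.trans hle) hs)
      (IntermediateField.fixingSubgroup_antitone (le_sup_left.trans hle) hs')

/-- The values of a level cocycle of normal level `F` are fixed by `G_F`. -/
theorem rho_eq_of_level {U : Subgroup GQ} (F : IntermediateField ℚ Qb) [Normal ℚ F]
    {c : ↥U × ↥U → gModOn U} (hc : c ∈ cocycles₂ (gModOn U))
    (hconst : ∀ g g' s s' : ↥U, (s : GQ) ∈ F.fixingSubgroup → (s' : GQ) ∈ F.fixingSubgroup →
      c (g * s, g' * s') = c (g, g'))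
    (σ : ↥U) (hσ : (σ : GQ) ∈ F.fixingSubgroup) (g h : ↥U) :
    (gModOn U).ρ σ (c (g, h)) = c (g, h) := by
  have hcoc := (mem_cocycles₂_iff c).1 hc
  have h1 : ∀ k : ↥U, c (1, k) = c (1, 1) := by
    intro k
    have := hcoc 1 1 k
    simp only [mul_one, one_mul, map_one, Module.End.one_apply] at this
    exact (add_left_cancel this).symm
  have hone : ((1 : ↥U) : GQ) ∈ F.fixingSubgroup := by
    rw [Subgroup.coe_one]
    exact one_mem _
  have h3 : ∀ k : ↥U, c (σ, k) = c (1, 1) := by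
    intro k
    have := hconst 1 k σ 1 hσ hone
    rw [one_mul, mul_one] at this
    rw [this, h1]
  have h4 : c (σ * g, h) = c (g, h) := by
    have hs : ((g⁻¹ * σ * g : ↥U) : GQ) ∈ F.fixingSubgroup := by
      have := conj_mem_fixingSubgroup F (g⁻¹ : GQ) hσ
      simpa using this
    have := hconst g h (g⁻¹ * σ * g) 1 hs hone
    rw [mul_one] at this
    rw [← this]
    congr 2
    group
  have h5 := hcoc σ g h
  rw [h4, h3, h3] at h5
  exact (add_right_cancel h5).symm

/-- A level-constant cochain on `U` of finite level `F` with `G_F ≤ U` has finitely many values. -/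
theorem finite_range_of_level {U : Subgroup GQ} (F : IntermediateField ℚ Qb)
    [FiniteDimensional ℚ F] {X : Type*} {c : ↥U × ↥U → X}
    (hconst : ∀ g g' s s' : ↥U, (s : GQ) ∈ F.fixingSubgroup → (s' : GQ) ∈ F.fixingSubgroup →
      c (g * s, g' * s') = c (g, g')) :
    (Set.range c).Finite := by
  let Φ : ↥U → (↥F →ₐ[ℚ] Qb) := fun g => ((g : GQ) : Qb →ₐ[ℚ] Qb).comp F.val
  have key : ∀ g g' : ↥U, Φ g = Φ g' → ((g⁻¹ * g' : ↥U) : GQ) ∈ F.fixingSubgroup := by
    intro g g' h
    rw [IntermediateField.mem_fixingSubgroup_iff]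
    intro x hx
    have h1 : (g : GQ) x = (g' : GQ) x := DFunLike.congr_fun h ⟨x, hx⟩
    show ((g⁻¹ : ↥U) : GQ) ((g' : GQ) x) = x
    rw [← h1]
    show ((g : GQ)⁻¹) ((g : GQ) x) = x
    exact AlgEquiv.symm_apply_apply (g : GQ) x
  let Ψ : ↥U × ↥U → (↥F →ₐ[ℚ] Qb) × (↥F →ₐ[ℚ] Qb) := Prod.map Φ Φ
  have hfac : Function.FactorsThrough c Ψ := by
    rintro ⟨g, h⟩ ⟨g', h'⟩ hΨ
    have hg : Φ g = Φ g' := congrArg Prod.fst hΨ
    have hh : Φ h = Φ h' := congrArg Prod.snd hΨ
    have := hconst g h (g⁻¹ * g') (h⁻¹ * h') (key g g' hg) (key h h' hh)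
    rw [mul_inv_cancel_left, mul_inv_cancel_left] at this
    exact this.symm
  haveI : Finite (↥F →ₐ[ℚ] Qb) := inferInstance
  refine (Set.finite_range (Function.extend Ψ c (fun _ => c (1, 1)))).subset ?_
  rintro _ ⟨a, rfl⟩
  exact ⟨Ψ a, hfac.extend_apply _ a⟩

/-! ## The main result -/

/-- The underlying algebraic number of an element of the module `ℚ̄ˣ`. -/
def gval (U : Subgroup GQ) (m : gModOn U) : Qb := ((Additive.toMul m : Qbˣ) : Qb)

/-- Local vanishing at a good prime. -/
theorem locBr_eq_zero_of_good (I : LocalInvSystem) {U : Subgroup GQ} (hU : IsOpenQ U)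
    (c : ↥(levelCocycles₂ U.subtype (gModOn U)))
    (F : IntermediateField ℚ Qb) [Normal ℚ F]
    (hconst : ∀ g g' s s' : ↥U, (s : GQ) ∈ F.fixingSubgroup → (s' : GQ) ∈ F.fixingSubgroup →
      (c : ↥U × ↥U → gModOn U) (g * s, g' * s') = (c : ↥U × ↥U → gModOn U) (g, g'))
    (q : ℕ) [Fact q.Prime]
    (h1 : ∀ (g₁ h₁ : ↥U) (g' : GQ),
      ‖padicEmbedding q (g' (gval U ((c : ↥U × ↥U → gModOn U) (g₁, h₁))))‖ = 1)
    (h2 : ∀ τ : PadicAlgCl q ≃ₐ[ℚ_[q]] PadicAlgCl q, IsInertial q τ →
      localGaloisToGlobal q τ ∈ F.fixingSubgroup) (g : GQ) :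
    locBr q g U (continuousH2π U.subtype (gModOn U) c) = 0 := by
  have hV := isOpenL_locSub q g hU
  have hin : ∀ i : ↥(locSub q g U),
      IsInertial q (i : PadicAlgCl q ≃ₐ[ℚ_[q]] PadicAlgCl q) →
      ((locHom q g U i : ↥U) : GQ) ∈ F.fixingSubgroup := by
    intro i hi
    rw [locHom_coe]
    exact conj_mem_fixingSubgroup F g (h2 _ hi)
  apply I.inv_injective q _ hV
  rw [map_zero, locBr_mk]
  apply I.inv_unram q _ hV
  · intro g₁ h₁
    exact h1 (locHom q g U g₁) (locHom q g U h₁) (g⁻¹ : GQ)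
  · intro g₁ h₁ i j hi hj
    show locPush q g U (c.1 (locHom q g U (g₁ * i), locHom q g U (h₁ * j))) =
      locPush q g U (c.1 (locHom q g U g₁, locHom q g U h₁))
    rw [map_mul, map_mul, hconst _ _ _ _ (hin i hi) (hin j hj)]
  · intro g₁ h₁ i hi
    show (lModOn q (locSub q g U)).ρ i
        (locPush q g U (c.1 (locHom q g U g₁, locHom q g U h₁))) =
      locPush q g U (c.1 (locHom q g U g₁, locHom q g U h₁))
    rw [← locPush_equivariant, rho_eq_of_level F c.2.1 hconst _ (hin i hi)]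

/-- **REC2-G4.**  Finiteness of the support of a global Brauer class. -/
theorem supportFinite : SupportFiniteSpec := by
  intro I U hU x
  obtain ⟨c, hc⟩ := Submodule.mkQ_surjective _ x
  obtain ⟨F, hFfin, hFn, -, hconst⟩ := exists_normal_level hU c.2.2
  haveI := hFfin
  haveI := hFn
  have hrange := finite_range_of_level F hconst
  have hA : (gval U '' Set.range (c : ↥U × ↥U → gModOn U)).Finite := hrange.image _
  have hA0 : ∀ a ∈ gval U '' Set.range (c : ↥U × ↥U → gModOn U), a ≠ 0 := by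
    rintro _ ⟨m, -, rfl⟩
    exact Units.ne_zero _
  obtain ⟨B₁, hB₁⟩ := exists_bad_primes_norm_finite hA hA0
  obtain ⟨B₂, hB₂⟩ := exists_bad_primes_inertial F
  have hfin : {q : Nat.Primes | (q : ℕ) ∈ B₁ ∪ B₂}.Finite :=
    Set.Finite.preimage (Subtype.val_injective.injOn) (B₁ ∪ B₂).finite_toSet
  have key : ∀ (q : Nat.Primes), (q : ℕ) ∉ B₁ ∪ B₂ → ∀ g : GQ,
      @locBr (q : ℕ) ⟨q.2⟩ g U x = 0 := by
    intro q hq g
    haveI : Fact (q : ℕ).Prime := ⟨q.2⟩
    rw [Finset.mem_union, not_or] at hq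
    rw [← hc]
    exact locBr_eq_zero_of_good I hU c F hconst (q : ℕ)
      (fun g₁ h₁ g' => hB₁ (q : ℕ) hq.1 _ ⟨_, ⟨(g₁, h₁), rfl⟩, rfl⟩ g')
      (fun τ hτ => hB₂ (q : ℕ) hq.2 τ hτ) g
  refine hfin.subset ?_
  intro q hq
  by_contra hq'
  obtain ⟨g, hne⟩ := hq
  exact hne (key q hq' g)

end Fermat.Agent.S55.G.Rec.H181

end
end
-- ===== PACK-END S55/G/Rec/SupportFiniteH181.lean

-- ===== PACK-BEGIN S55/Inv/WrH413/Kummer.lean
section







/-!
# S55 / INV-WR (helper413), part 2: local Kummer injectivity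

Let `G_q = Gal(ℚ̄_q/ℚ_q)` and let `b : G_q → ℚ̄_qˣ` be a level-constant 1-cochain whose
coboundary is `λ ∘ c'` for a `ZMod p`-valued 2-cochain `c'`, where `λ : ZMod p → ℚ̄_qˣ` is an
injective equivariant homomorphism onto the `p`-torsion.  Then `c'` is the coboundary of a
level-constant `ZMod p`-valued 1-cochain.  (Injectivity of `H²(G_q, μ_p) → H²(G_q, ℚ̄_qˣ)`,
i.e. Hilbert 90 + existence of `p`-th roots.)
-/

set_option autoImplicit false
set_option linter.style.haveILetI false

namespace Fermat.Agent.S55.Inv.H413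

open groupCohomology

section General

variable {G : Type} [Group G] (r : G →* (AlgebraicClosure ℚ ≃ₐ[ℚ] AlgebraicClosure ℚ))

/-- A pointwise binary operation of level-constant cochains is level-constant. -/
theorem isLevelConstant₁_map₂ {X Y Z : Type*} (φ : X → Y → Z) {f : G → X} {f' : G → Y}
    (hf : IsLevelConstant₁ r f) (hf' : IsLevelConstant₁ r f') :
    IsLevelConstant₁ r (fun g => φ (f g) (f' g)) := by
  obtain ⟨F, hF, h⟩ := hf
  obtain ⟨F', hF', h'⟩ := hf'
  haveI := hF; haveI := hF'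
  refine ⟨F ⊔ F', inferInstance, fun g s hs => ?_⟩
  show φ (f (g * s)) (f' (g * s)) = φ (f g) (f' g)
  rw [h g s (IntermediateField.fixingSubgroup_antitone le_sup_left hs),
    h' g s (IntermediateField.fixingSubgroup_antitone le_sup_right hs)]

end General

section Local

variable (q : ℕ) [Fact q.Prime]

local notation "Ω" => PadicAlgCl q
local notation "Gq" => (PadicAlgCl q ≃ₐ[ℚ_[q]] PadicAlgCl q)

/-- `g ↦ g α` is level-constant (Krasner). -/
theorem isLevelConstant₁_apply (α : Ω) :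
    IsLevelConstant₁ (localGaloisToGlobal q) (fun g : Gq => g α) := by
  obtain ⟨b, hb⟩ := Bridge.exists_global_generator q α
  haveI : Algebra.IsAlgebraic ℚ (AlgebraicClosure ℚ) := AlgebraicClosure.isAlgebraic ℚ
  refine ⟨IntermediateField.adjoin ℚ {b},
    IntermediateField.adjoin.finiteDimensional (Algebra.IsIntegral.isIntegral b), ?_⟩
  intro g s hs
  have hsb : localGaloisToGlobal q s b = b :=
    (IntermediateField.mem_fixingSubgroup_iff _ _).1 hs b
      (IntermediateField.subset_adjoin ℚ _ (Set.mem_singleton b))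
  have hsα : s α = α := Bridge.fixes_adjoin_of_fixes q s b hsb _ hb
  show (g * s) α = g α
  rw [AlgEquiv.mul_apply, hsα]

/-- Level-constant Hilbert 90 for `G_{ℚ_q}` acting on `ℚ̄_qˣ`. -/
theorem local_hilbert90 (X : Gq → Ωˣ)
    (hX : ∀ g h : Gq, (X (g * h) : Ω) = g (X h : Ω) * X g)
    (hlc : IsLevelConstant₁ (localGaloisToGlobal q) X) :
    ∃ β : Ωˣ, ∀ g : Gq, g (β : Ω) * X g = β := by
  obtain ⟨F, hF, h⟩ := hlc
  haveI := hF
  haveI : Algebra.IsAlgebraic ℚ (AlgebraicClosure ℚ) := AlgebraicClosure.isAlgebraic ℚ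
  haveI : IsAlgClosure ℚ (AlgebraicClosure ℚ) := ⟨inferInstance, inferInstance⟩
  haveI : Normal ℚ (AlgebraicClosure ℚ) := IsAlgClosure.normal ℚ (AlgebraicClosure ℚ)
  haveI hfi : (F.fixingSubgroup.comap (localGaloisToGlobal q)).FiniteIndex :=
    Fermat.Agent.S55.H424.comap_fixingSubgroup_finiteIndex (localGaloisToGlobal q) F
  haveI : Finite (Gq ⧸ F.fixingSubgroup.comap (localGaloisToGlobal q)) :=
    Subgroup.finite_quotient_of_finiteIndex
  let ι : F →* Ω := ((padicEmbedding q : AlgebraicClosure ℚ →ₐ[ℚ] Ω) :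
    AlgebraicClosure ℚ →* Ω).comp ((F.val : F →ₐ[ℚ] AlgebraicClosure ℚ) : F →* AlgebraicClosure ℚ)
  have hι : ∀ θ : F, ι θ = padicEmbedding q (θ : AlgebraicClosure ℚ) := fun _ => rfl
  have hN : ∀ g : Gq, (∀ θ : F, g • ι θ = ι θ) →
      g ∈ F.fixingSubgroup.comap (localGaloisToGlobal q) := by
    intro g hg
    rw [Subgroup.mem_comap, IntermediateField.mem_fixingSubgroup_iff]
    intro x hx
    have hinj : Function.Injective (padicEmbedding q) := (padicEmbedding q).injective
    apply hinj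
    rw [padicEmbedding_localGaloisToGlobal]
    exact hg ⟨x, hx⟩
  have hN' : ∀ g ∈ F.fixingSubgroup.comap (localGaloisToGlobal q), ∀ θ : F, g • ι θ = ι θ := by
    intro g hg θ
    rw [Subgroup.mem_comap, IntermediateField.mem_fixingSubgroup_iff] at hg
    show g (ι θ) = ι θ
    rw [hι, ← padicEmbedding_localGaloisToGlobal, hg _ θ.2]
  obtain ⟨β, hβ⟩ := G.Rec.H844.exists_unit_of_levelCocycle844 (H := Gq) ι
    (F.fixingSubgroup.comap (localGaloisToGlobal q)) hN hN' X
    (fun g h => by rw [hX]; rfl) (fun g s hs => h g s hs)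
  exact ⟨β, fun g => hβ g⟩

/-- **Local Kummer injectivity.**  `lam : ZMod p → ℚ̄_qˣ` an injective homomorphism onto the
`p`-torsion, equivariant for the character `χ`; `b` a level-constant 1-cochain with values in
`ℚ̄_qˣ` whose coboundary is `lam ∘ c'`.  Then `c'` is the coboundary of a level-constant
`ZMod p`-valued cochain. -/
theorem local_kummer (p : ℕ) [Fact p.Prime] (lam : ZMod p →+ Additive Ωˣ)
    (hinj : Function.Injective lam)
    (hsurj : ∀ z : Ωˣ, z ^ p = 1 → ∃ a, lam a = Additive.ofMul z)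
    (χ : Gq → ZMod p)
    (hχ : ∀ (g : Gq) (a : ZMod p),
      ((Additive.toMul (lam (χ g * a)) : Ωˣ) : Ω) = g ((Additive.toMul (lam a) : Ωˣ) : Ω))
    (c' : Gq × Gq → ZMod p) (b : Gq → Ωˣ)
    (hb : IsLevelConstant₁ (localGaloisToGlobal q) b)
    (hd : ∀ g h : Gq, g (b h : Ω) * (((b (g * h))⁻¹ : Ωˣ) : Ω) * (b g : Ω) =
      ((Additive.toMul (lam (c' (g, h))) : Ωˣ) : Ω)) :
    ∃ x : Gq → ZMod p, IsLevelConstant₁ (localGaloisToGlobal q) x ∧
      ∀ g h : Gq, χ g * x h - x (g * h) + x g = c' (g, h) := by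
  classical
  have hp0 : 0 < p := (Fact.out : p.Prime).pos
  -- the map `L : ZMod p → Ω`
  obtain ⟨L, hL⟩ : ∃ L : ZMod p → Ω, ∀ a, L a = ((Additive.toMul (lam a) : Ωˣ) : Ω) :=
    ⟨_, fun _ => rfl⟩
  have hLadd : ∀ a a', L (a + a') = L a * L a' := by
    intro a a'
    rw [hL, hL, hL, map_add, toMul_add, Units.val_mul]
  have hLsub : ∀ a a', L (a - a') = L a * (L a')⁻¹ := by
    intro a a'
    rw [hL, hL, hL, map_sub, toMul_sub, div_eq_mul_inv, Units.val_mul, Units.val_inv_eq_inv_val]
  have hLne : ∀ a, L a ≠ 0 := fun a => by rw [hL]; exact Units.ne_zero _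
  have hLpow : ∀ a, L a ^ p = 1 := by
    intro a
    have h1 : lam (p • a) = p • lam a := map_nsmul lam p a
    have h2 : p • a = 0 := by
      rw [nsmul_eq_mul, ZMod.natCast_self, zero_mul]
    rw [h2, map_zero] at h1
    have h3 : (Additive.toMul (lam a) : Ωˣ) ^ p = 1 := by
      rw [← toMul_nsmul, ← h1, toMul_zero]
    rw [hL, ← Units.val_pow_eq_pow_val, h3, Units.val_one]
  have hLinj : Function.Injective L := by
    intro a a' h
    apply hinj
    apply Additive.toMul.injective
    apply Units.ext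
    rw [← hL, ← hL, h]
  have hLχ : ∀ g a, L (χ g * a) = g (L a) := fun g a => by rw [hL, hL]; exact hχ g a
  have hd' : ∀ g h : Gq, g (b h : Ω) * ((b (g * h) : Ω))⁻¹ * (b g : Ω) = L (c' (g, h)) := by
    intro g h
    rw [hL, ← hd g h, Units.val_inv_eq_inv_val]
  have hbne : ∀ g, (b g : Ω) ≠ 0 := fun g => Units.ne_zero _
  -- Step 1: `X = b ^ p` is a level-constant cocycle
  have hX : ∀ g h : Gq, (((b (g * h)) ^ p : Ωˣ) : Ω) = g (((b h) ^ p : Ωˣ) : Ω) * ((b g) ^ p : Ωˣ) := by
    intro g h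
    have h1 := congrArg (· ^ p) (hd' g h)
    simp only [hLpow, mul_pow, inv_pow] at h1
    rw [Units.val_pow_eq_pow_val, Units.val_pow_eq_pow_val, Units.val_pow_eq_pow_val, map_pow]
    have h2 : ((b (g * h) : Ω)) ^ p ≠ 0 := pow_ne_zero _ (hbne _)
    field_simp at h1
    rw [h1]
  have hXlc : IsLevelConstant₁ (localGaloisToGlobal q) (fun g => (b g) ^ p) :=
    hb.comp (· ^ p)
  -- Step 2: Hilbert 90
  obtain ⟨β, hβ⟩ := local_hilbert90 q (fun g => (b g) ^ p) hX hXlc
  -- Step 3: a `p`-th root of `β`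
  obtain ⟨α, hα⟩ := IsAlgClosed.exists_pow_nat_eq (β : Ω) hp0
  have hαne : α ≠ 0 := by
    rintro rfl
    rw [zero_pow hp0.ne'] at hα
    exact β.ne_zero hα.symm
  have hgα : ∀ g : Gq, g α ≠ 0 := fun g => (map_ne_zero g).2 hαne
  -- Step 4: the modified cochain
  obtain ⟨b', hb'⟩ : ∃ b' : Gq → Ω, ∀ g, b' g = (b g : Ω) * g α * α⁻¹ := ⟨_, fun _ => rfl⟩
  have hb'lc : IsLevelConstant₁ (localGaloisToGlobal q) b' := by
    have := isLevelConstant₁_map₂ (localGaloisToGlobal q)
      (fun (u : Ωˣ) (z : Ω) => (u : Ω) * z * α⁻¹) hb (isLevelConstant₁_apply q α)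
    have e : b' = fun g => (fun (u : Ωˣ) (z : Ω) => (u : Ω) * z * α⁻¹) (b g) (g α) := by
      funext g
      exact hb' g
    rw [e]
    exact this
  have hb'pow : ∀ g, b' g ^ p = 1 := by
    intro g
    have h1 := hβ g
    simp only [Units.val_pow_eq_pow_val] at h1
    rw [hb', mul_pow, mul_pow, inv_pow, ← map_pow, hα, mul_comm ((b g : Ω) ^ p), h1]
    exact mul_inv_cancel₀ β.ne_zero
  have hb'ne : ∀ g, b' g ≠ 0 := by
    intro g h0
    have := hb'pow g
    rw [h0, zero_pow hp0.ne'] at this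
    exact zero_ne_one this
  have hb'L : ∀ g, ∃ a, L a = b' g := by
    intro g
    obtain ⟨a, ha⟩ := hsurj (Units.mk0 (b' g) (hb'ne g)) (by
      apply Units.ext
      rw [Units.val_pow_eq_pow_val, Units.val_mk0, hb'pow, Units.val_one])
    refine ⟨a, ?_⟩
    rw [hL, ha]
    rfl
  have hdb' : ∀ g h : Gq, g (b' h) * (b' (g * h))⁻¹ * b' g = L (c' (g, h)) := by
    intro g h
    rw [← hd' g h, hb', hb', hb', map_mul, map_mul, map_inv₀, ← AlgEquiv.mul_apply]
    have h1 := hgα g
    have h2 := hgα (g * h)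
    have h3 := hbne (g * h)
    field_simp
  -- Step 5: descend to `ZMod p`
  obtain ⟨ψ, hψ⟩ : ∃ ψ : Ω → ZMod p, ∀ z, (∃ a, L a = z) → L (ψ z) = z :=
    ⟨fun z => if h : ∃ a, L a = z then h.choose else 0, fun z h => by
      dsimp only
      rw [dif_pos h]; exact h.choose_spec⟩
  refine ⟨ψ ∘ b', hb'lc.comp ψ, fun g h => ?_⟩
  apply hLinj
  simp only [Function.comp_apply]
  rw [hLadd, hLsub, hLχ, hψ _ (hb'L _), hψ _ (hb'L _), hψ _ (hb'L _)]
  exact hdb' g h

end Local

end Fermat.Agent.S55.Inv.H413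

end
-- ===== PACK-END S55/Inv/WrH413/Kummer.lean

-- ===== PACK-BEGIN S55/Bridge/Infl.lean
section



/-!
# S55 bridge: inflation of low-degree cochains from a quotient group

`G` a group, `N ⊴ G` acting trivially on `M : Rep k G`.  Cochains of `G ⧸ N` with values in
`M.ofQuotient N` (Mathlib `Rep.ofQuotient`, same carrier as `M`) are identified with the cochains
of `G` that are constant modulo `N`.
-/

set_option autoImplicit false
set_option linter.unusedSectionVars false

namespace Fermat.Agent.S55.Bridge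

open groupCohomology CategoryTheory

variable {k G : Type} [CommRing k] [Group G] (M : Rep.{0, 0, 0} k G) (N : Subgroup G) [N.Normal]

/-- Inflation of 1-cochains. -/
def inflCochain₁ : ((G ⧸ N) → M) →ₗ[k] (G → M) where
  toFun f g := f (g : G ⧸ N)
  map_add' _ _ := rfl
  map_smul' _ _ := rfl

/-- Inflation of 2-cochains. -/
def inflCochain₂ : ((G ⧸ N) × (G ⧸ N) → M) →ₗ[k] (G × G → M) where
  toFun f p := f ((p.1 : G ⧸ N), (p.2 : G ⧸ N))
  map_add' _ _ := rfl
  map_smul' _ _ := rfl

@[simp] theorem inflCochain₁_apply (f : (G ⧸ N) → M) (g : G) :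
    inflCochain₁ M N f g = f (g : G ⧸ N) := rfl

@[simp] theorem inflCochain₂_apply (f : (G ⧸ N) × (G ⧸ N) → M) (p : G × G) :
    inflCochain₂ M N f p = f ((p.1 : G ⧸ N), (p.2 : G ⧸ N)) := rfl

theorem inflCochain₁_injective : Function.Injective (inflCochain₁ M N) := by
  intro f f' h
  funext x
  obtain ⟨g, rfl⟩ := QuotientGroup.mk_surjective x
  exact congrFun h g

theorem inflCochain₂_injective : Function.Injective (inflCochain₂ M N) := by
  intro f f' h
  funext ⟨x, y⟩
  obtain ⟨g, rfl⟩ := QuotientGroup.mk_surjective x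
  obtain ⟨g', rfl⟩ := QuotientGroup.mk_surjective y
  exact congrFun h (g, g')

theorem isConstMod₁_inflCochain₁ (f : (G ⧸ N) → M) : IsConstMod₁ N (inflCochain₁ M N f) := by
  intro g s hs
  show f ((g * s : G) : G ⧸ N) = f (g : G ⧸ N)
  congr 1
  rw [QuotientGroup.eq]
  simpa using N.inv_mem hs

theorem isConstMod₂_inflCochain₂ (f : (G ⧸ N) × (G ⧸ N) → M) :
    IsConstMod₂ N (inflCochain₂ M N f) := by
  intro g g' s s' hs hs'
  show f (((g * s : G) : G ⧸ N), ((g' * s' : G) : G ⧸ N)) = f ((g : G ⧸ N), (g' : G ⧸ N))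
  have h1 : ((g * s : G) : G ⧸ N) = (g : G ⧸ N) := by
    rw [QuotientGroup.eq]; simpa using N.inv_mem hs
  have h2 : ((g' * s' : G) : G ⧸ N) = (g' : G ⧸ N) := by
    rw [QuotientGroup.eq]; simpa using N.inv_mem hs'
  rw [h1, h2]

/-- A 1-cochain constant modulo `N` is inflated from `G ⧸ N`. -/
theorem exists_inflCochain₁_eq (f : G → M) (hf : IsConstMod₁ N f) :
    ∃ f' : (G ⧸ N) → M, inflCochain₁ M N f' = f := by
  refine ⟨fun x => f x.out, ?_⟩
  funext g
  show f ((g : G ⧸ N).out) = f g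
  have h : g⁻¹ * (g : G ⧸ N).out ∈ N := by
    rw [← QuotientGroup.eq, QuotientGroup.out_eq']
  have := hf g _ h
  rwa [mul_inv_cancel_left] at this

/-- A 2-cochain constant modulo `N` is inflated from `G ⧸ N`. -/
theorem exists_inflCochain₂_eq (f : G × G → M) (hf : IsConstMod₂ N f) :
    ∃ f' : (G ⧸ N) × (G ⧸ N) → M, inflCochain₂ M N f' = f := by
  refine ⟨fun x => f (x.1.out, x.2.out), ?_⟩
  funext ⟨g, g'⟩
  show f ((g : G ⧸ N).out, (g' : G ⧸ N).out) = f (g, g')
  have h : g⁻¹ * (g : G ⧸ N).out ∈ N := by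
    rw [← QuotientGroup.eq, QuotientGroup.out_eq']
  have h' : g'⁻¹ * (g' : G ⧸ N).out ∈ N := by
    rw [← QuotientGroup.eq, QuotientGroup.out_eq']
  have := hf g g' _ _ h h'
  rwa [mul_inv_cancel_left, mul_inv_cancel_left] at this

variable [Representation.IsTrivial (M.ρ.comp N.subtype)]

theorem ofQuotient_ρ_mk (g : G) (m : M) : (M.ofQuotient N).ρ (g : G ⧸ N) m = M.ρ g m := rfl

theorem inflCochain₂_d₁₂ (c : (G ⧸ N) → M) :
    inflCochain₂ M N ((d₁₂ (M.ofQuotient N)).hom c) = (d₁₂ M).hom (inflCochain₁ M N c) := by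
  funext ⟨g, g'⟩
  rw [inflCochain₂_apply, d₁₂_hom_apply, d₁₂_hom_apply]
  rfl

theorem inflCochain₁_d₀₁ (m : M) :
    inflCochain₁ M N ((d₀₁ (M.ofQuotient N)).hom m) = (d₀₁ M).hom m := by
  funext g
  rw [inflCochain₁_apply, d₀₁_hom_apply, d₀₁_hom_apply]
  rfl

theorem inflCochain₁_mem_cocycles₁_iff (f : (G ⧸ N) → M) :
    inflCochain₁ M N f ∈ cocycles₁ M ↔ f ∈ cocycles₁ (M.ofQuotient N) := by
  rw [mem_cocycles₁_iff, mem_cocycles₁_iff]
  constructor
  · intro h x y
    obtain ⟨g, rfl⟩ := QuotientGroup.mk_surjective x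
    obtain ⟨g', rfl⟩ := QuotientGroup.mk_surjective y
    exact h g g'
  · intro h g g'
    exact h g g'

theorem inflCochain₂_mem_cocycles₂_iff (f : (G ⧸ N) × (G ⧸ N) → M) :
    inflCochain₂ M N f ∈ cocycles₂ M ↔ f ∈ cocycles₂ (M.ofQuotient N) := by
  rw [mem_cocycles₂_iff, mem_cocycles₂_iff]
  constructor
  · intro h x y z
    obtain ⟨g, rfl⟩ := QuotientGroup.mk_surjective x
    obtain ⟨g', rfl⟩ := QuotientGroup.mk_surjective y
    obtain ⟨g'', rfl⟩ := QuotientGroup.mk_surjective z
    exact h g g' g''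
  · intro h g g' g''
    exact h g g' g''

/-- `inflCochain₂ f` is the coboundary of a cochain constant modulo `N` iff `f` is a coboundary. -/
theorem inflCochain₂_eq_d₁₂_iff (f : (G ⧸ N) × (G ⧸ N) → M) :
    (∃ c : G → M, IsConstMod₁ N c ∧ (d₁₂ M).hom c = inflCochain₂ M N f) ↔
      f ∈ coboundaries₂ (M.ofQuotient N) := by
  constructor
  · rintro ⟨c, hc, hd⟩
    obtain ⟨c', rfl⟩ := exists_inflCochain₁_eq M N c hc
    refine ⟨c', ?_⟩
    apply inflCochain₂_injective M N
    rw [inflCochain₂_d₁₂]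
    exact hd
  · rintro ⟨c', rfl⟩
    exact ⟨inflCochain₁ M N c', isConstMod₁_inflCochain₁ M N c', (inflCochain₂_d₁₂ M N c').symm⟩

end Fermat.Agent.S55.Bridge

end
-- ===== PACK-END S55/Bridge/Infl.lean

-- ===== PACK-BEGIN S55/G/Exist121/FieldFinite.lean
section



/-!
# S55, layer G, block EXIST: the Kummer level is a level (finite, unramified outside `S`)

Author: helper121.  Main results:

* `finiteDimensional_kummerLevel` : `F₁ = F(V(F)^{1/p})` is finite over `ℚ` (via finiteness of the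
  Selmer group `F(S, p)`, helper901);
* `isUnramifiedOutside_kummerLevel` : `F₁` is unramified outside `S`.

Bridge used here (and of independent interest): `exists_valuationSubring_over` (every prime `v` of
`𝓞 F` is the centre of a valuation subring of `ℚ̄`) and `valuation_eq_one_of_mem` (a unit at such
a valuation subring has `v`-adic valuation `1`).
-/

set_option autoImplicit false
set_option linter.style.haveILetI false

namespace Fermat.Agent.S55.G.Exist121

open IntermediateField IsDedekindDomain NumberField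

section Bridge

variable (F : IntermediateField ℚ (AlgebraicClosure ℚ))

/-- The embedding `𝓞 F → ℚ̄`. -/
noncomputable def toQbar : 𝓞 F →+* AlgebraicClosure ℚ :=
  (algebraMap F (AlgebraicClosure ℚ)).comp (algebraMap (𝓞 F) F)

lemma toQbar_apply (r : 𝓞 F) : toQbar F r = ((r : F) : AlgebraicClosure ℚ) := rfl

lemma toQbar_injective : Function.Injective (toQbar F) :=
  (algebraMap F (AlgebraicClosure ℚ)).injective.comp RingOfIntegers.coe_injective

variable {F}

/-- Every prime `v` of `𝓞 F` is the centre of a valuation subring of `ℚ̄`. -/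
theorem exists_valuationSubring_over [NumberField F] (v : HeightOneSpectrum (𝓞 F)) :
    ∃ A : ValuationSubring (AlgebraicClosure ℚ), ∀ r : 𝓞 F,
      toQbar F r ∈ A ∧ (r ∈ v.asIdeal ↔ toQbar F r ∈ A.nonunits) := by
  let A₀ : Subring (AlgebraicClosure ℚ) := (toQbar F).range
  let I : Ideal A₀ := v.asIdeal.map (toQbar F).rangeRestrict
  have hI : I ≠ ⊤ := by
    intro h
    have h1 : (1 : A₀) ∈ I := by rw [h]; trivial
    rw [Ideal.mem_map_iff_of_surjective _ (toQbar F).rangeRestrict_surjective] at h1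
    obtain ⟨r, hr, hr1⟩ := h1
    have h2 : toQbar F r = 1 := congrArg Subtype.val hr1
    have h3 : r = 1 := toQbar_injective F (by rw [h2, map_one])
    exact v.isPrime.ne_top ((Ideal.eq_top_iff_one _).2 (h3 ▸ hr))
  obtain ⟨A, hA₀, hA⟩ := Ideal.image_subset_nonunits_valuationSubring I hI
  have hmem : ∀ r : 𝓞 F, toQbar F r ∈ A := fun r => hA₀ ⟨r, rfl⟩
  have hnon : ∀ r ∈ v.asIdeal, toQbar F r ∈ A.nonunits := fun r hr =>
    hA ⟨(toQbar F).rangeRestrict r, Ideal.mem_map_of_mem _ hr, rfl⟩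
  refine ⟨A, fun r => ⟨hmem r, ⟨hnon r, fun hr => ?_⟩⟩⟩
  by_contra hrv
  -- `v` is maximal: `a * r + m = 1` with `m ∈ v`
  have hmax : v.asIdeal.IsMaximal := v.isMaximal
  obtain ⟨a, m, hm, ham⟩ := hmax.exists_inv hrv
  have h1 : toQbar F a * toQbar F r + toQbar F m = 1 := by
    rw [← map_mul, ← map_add, ham, map_one]
  have hv1 : A.valuation (toQbar F a * toQbar F r) < 1 := by
    rw [map_mul]
    calc A.valuation (toQbar F a) * A.valuation (toQbar F r)
        ≤ 1 * A.valuation (toQbar F r) :=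
          mul_le_mul_left ((A.valuation_le_one_iff _).2 (hmem a)) _
      _ = A.valuation (toQbar F r) := one_mul _
      _ < 1 := (A.mem_nonunits_iff).1 hr
  have hv2 : A.valuation (toQbar F m) < 1 := (A.mem_nonunits_iff).1 (hnon m hm)
  have hv3 : A.valuation (toQbar F a * toQbar F r + toQbar F m) < 1 :=
    lt_of_le_of_lt (A.valuation.map_add _ _) (max_lt hv1 hv2)
  rw [h1, map_one] at hv3
  exact lt_irrefl _ hv3

/-- If `u ∈ Fˣ` is a unit of a valuation subring of `ℚ̄` centred at `v`, then `v(u) = 1`. -/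
theorem valuation_eq_one_of_mem [NumberField F] (v : HeightOneSpectrum (𝓞 F))
    (A : ValuationSubring (AlgebraicClosure ℚ))
    (hA : ∀ r : 𝓞 F, toQbar F r ∈ A ∧ (r ∈ v.asIdeal ↔ toQbar F r ∈ A.nonunits))
    (u : F) (hu : A.valuation (u : AlgebraicClosure ℚ) = 1) :
    v.valuation F u = 1 := by
  have hval : ∀ d : 𝓞 F, d ∉ v.asIdeal → A.valuation (toQbar F d) = 1 := by
    intro d hd
    have h1 : A.valuation (toQbar F d) ≤ 1 := (A.valuation_le_one_iff _).2 (hA d).1
    have h2 : ¬ A.valuation (toQbar F d) < 1 := fun h =>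
      hd ((hA d).2.2 ((A.mem_nonunits_iff).2 h))
    exact le_antisymm h1 (not_lt.1 h2)
  have hmem : ∀ n : 𝓞 F, A.valuation (toQbar F n) = 1 → n ∉ v.asIdeal := by
    intro n hn hnv
    have := (A.mem_nonunits_iff).1 ((hA n).2.1 hnv)
    rw [hn] at this
    exact lt_irrefl _ this
  have hv1 : ∀ n : 𝓞 F, n ∉ v.asIdeal → v.valuation F (algebraMap (𝓞 F) F n) = 1 := by
    intro n hn
    rw [HeightOneSpectrum.valuation_of_algebraMap]
    exact (v.intValuation_eq_one_iff_mem_primeCompl n).2 hn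
  obtain ⟨n, d, h | h⟩ := v.exists_primeCompl_mul_eq_or_mul_eq (K := F) u
  · -- `u * d = n`
    have h' : (u : AlgebraicClosure ℚ) * toQbar F d = toQbar F n := by
      have := congrArg (algebraMap F (AlgebraicClosure ℚ)) h
      rw [map_mul] at this
      exact this
    have hn : A.valuation (toQbar F n) = 1 := by
      rw [← h', map_mul, hu, hval d d.2, one_mul]
    have h3 := congrArg (v.valuation F) h
    rw [map_mul, hv1 d d.2, mul_one, hv1 n (hmem n hn)] at h3
    exact h3
  · -- `u * n = d`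
    have h' : (u : AlgebraicClosure ℚ) * toQbar F n = toQbar F d := by
      have := congrArg (algebraMap F (AlgebraicClosure ℚ)) h
      rw [map_mul] at this
      exact this
    have hn : A.valuation (toQbar F n) = 1 := by
      have := congrArg A.valuation h'
      rw [map_mul, hu, one_mul, hval d d.2] at this
      exact this
    have h3 := congrArg (v.valuation F) h
    rw [map_mul, hv1 d d.2, hv1 n (hmem n hn), mul_one] at h3
    exact h3

/-- Every prime `v` of `𝓞 F` contains a rational prime. -/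
theorem exists_prime_mem [NumberField F] (v : HeightOneSpectrum (𝓞 F)) :
    ∃ q : Nat.Primes, ((q : ℕ) : 𝓞 F) ∈ v.asIdeal := by
  have hN : ((Ideal.absNorm v.asIdeal : ℕ) : 𝓞 F) ∈ v.asIdeal := Ideal.absNorm_mem _
  have hN1 : Ideal.absNorm v.asIdeal ≠ 1 := fun h =>
    v.isPrime.ne_top (Ideal.absNorm_eq_one_iff.1 h)
  have hN0 : Ideal.absNorm v.asIdeal ≠ 0 := by
    rw [Ne, Ideal.absNorm_eq_zero_iff]
    exact v.ne_bot
  -- strong induction: a natural number `≥ 2` in `v` has a prime factor in `v`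
  have key : ∀ n : ℕ, 2 ≤ n → ((n : ℕ) : 𝓞 F) ∈ v.asIdeal →
      ∃ q : Nat.Primes, ((q : ℕ) : 𝓞 F) ∈ v.asIdeal := by
    intro n
    induction n using Nat.strong_induction_on with
    | _ n ih =>
      intro hn2 hn
      have hn1 : n ≠ 1 := by omega
      have hq := Nat.minFac_prime hn1
      by_cases hqv : ((Nat.minFac n : ℕ) : 𝓞 F) ∈ v.asIdeal
      · exact ⟨⟨_, hq⟩, hqv⟩
      · obtain ⟨m, hm⟩ := Nat.minFac_dvd n
        have hm' : ((Nat.minFac n : ℕ) : 𝓞 F) * ((m : ℕ) : 𝓞 F) ∈ v.asIdeal := by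
          rw [← Nat.cast_mul, ← hm]; exact hn
        have hmv : ((m : ℕ) : 𝓞 F) ∈ v.asIdeal :=
          (v.isPrime.mem_or_mem hm').resolve_left hqv
        have hm0 : m ≠ 0 := by
          rintro rfl
          rw [mul_zero] at hm
          omega
        have hm1 : m ≠ 1 := by
          rintro rfl
          rw [mul_one] at hm
          exact hqv (by rw [← hm]; exact hn)
        have hlt : m < n := by
          have h2 := hq.two_le
          calc m = 1 * m := (one_mul m).symm
            _ < Nat.minFac n * m := Nat.mul_lt_mul_of_pos_right (by omega) (by omega)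
            _ = n := hm.symm
        exact ih m hlt (by omega) hmv
  exact key _ (by omega) hN

end Bridge

section Selmer

variable (S : Finset Nat.Primes) (p : ℕ) (F : IntermediateField ℚ (AlgebraicClosure ℚ))

/-- The primes of `𝓞 F` over `S`. -/
def primesOver [NumberField F] : Set (HeightOneSpectrum (𝓞 F)) :=
  {v | ∃ q ∈ S, ((q : ℕ) : 𝓞 F) ∈ v.asIdeal}

lemma primesOver_finite [NumberField F] : (primesOver S F).Finite := by
  have h : primesOver S F =
      ⋃ q ∈ S, {v : HeightOneSpectrum (𝓞 F) | ((q : ℕ) : 𝓞 F) ∈ v.asIdeal} := by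
    ext v
    simp [primesOver]
  rw [h]
  refine Set.Finite.biUnion S.finite_toSet (fun q _ => ?_)
  have hq0 : (Ideal.span {((q : ℕ) : 𝓞 F)}) ≠ 0 := by
    rw [Ne, Ideal.zero_eq_bot, Ideal.span_singleton_eq_bot]
    exact Nat.cast_ne_zero.2 q.2.ne_zero
  refine (Ideal.finite_factors hq0).subset (fun v hv => ?_)
  show v.asIdeal ∣ Ideal.span {((q : ℕ) : 𝓞 F)}
  rw [Ideal.dvd_iff_le, Ideal.span_singleton_le_iff_mem]
  exact hv

variable {S p F}

/-- For `x ∈ V(F)` and a prime `v` of `F` outside `S`, `p ∣ v(x)`. -/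
theorem dvd_valuationOfNeZero_of_isSelmerElt [NumberField F] {x : Fˣ}
    (hx : IsSelmerElt S p F ((x : F) : AlgebraicClosure ℚ))
    (v : HeightOneSpectrum (𝓞 F)) (hv : v ∉ primesOver S F) :
    (p : ℤ) ∣ Multiplicative.toAdd (v.valuationOfNeZero x) := by
  obtain ⟨q, hq⟩ := exists_prime_mem v
  have hqS : q ∉ S := fun h => hv ⟨q, h, hq⟩
  obtain ⟨A, hA⟩ := exists_valuationSubring_over v
  have hAq : A.LiesOverPrime (q : ℕ) := by
    have h := (hA ((q : ℕ) : 𝓞 F)).2.1 hq
    have e : toQbar F ((q : ℕ) : 𝓞 F) = ((q : ℕ) : AlgebraicClosure ℚ) := map_natCast _ _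
    rw [e] at h
    exact h
  obtain ⟨t, ht, ht0, h1, h2⟩ := hx.2.2 q hqS A hAq
  have htF0 : (⟨t, ht⟩ : F) ≠ 0 := fun h => ht0 (congrArg Subtype.val h)
  have hxF0 : (x : F) ≠ 0 := x.ne_zero
  have hu : A.valuation ((((x : F) / (⟨t, ht⟩ : F) ^ p : F)) : AlgebraicClosure ℚ) = 1 := by
    have e : ((((x : F) / (⟨t, ht⟩ : F) ^ p : F)) : AlgebraicClosure ℚ) =
        ((x : F) : AlgebraicClosure ℚ) / t ^ p := by push_cast; rfl
    rw [e]
    refine le_antisymm ((A.valuation_le_one_iff _).2 h1) ?_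
    have h3 : A.valuation (t ^ p / ((x : F) : AlgebraicClosure ℚ)) ≤ 1 :=
      (A.valuation_le_one_iff _).2 h2
    have hx0 : ((x : F) : AlgebraicClosure ℚ) ≠ 0 := hx.2.1
    have e2 : t ^ p / ((x : F) : AlgebraicClosure ℚ) =
        (((x : F) : AlgebraicClosure ℚ) / t ^ p)⁻¹ := by
      rw [inv_div]
    rw [e2, map_inv₀] at h3
    have hne : A.valuation (((x : F) : AlgebraicClosure ℚ) / t ^ p) ≠ 0 :=
      (map_ne_zero _).2 (div_ne_zero hx0 (pow_ne_zero p ht0))
    exact (inv_le_one₀ (zero_lt_iff.2 hne)).1 h3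
  have hvu := valuation_eq_one_of_mem v A hA _ hu
  have hval : v.valuation F (x : F) = (v.valuation F (⟨t, ht⟩ : F)) ^ p := by
    have e : (x : F) = ((x : F) / (⟨t, ht⟩ : F) ^ p) * (⟨t, ht⟩ : F) ^ p := by
      field_simp
    rw [e, map_mul, hvu, one_mul, map_pow]
  have h3 : v.valuationOfNeZero x = (v.valuationOfNeZero (Units.mk0 _ htF0)) ^ p := by
    rw [← WithZero.coe_inj, WithZero.coe_pow, HeightOneSpectrum.valuationOfNeZero_eq,
      HeightOneSpectrum.valuationOfNeZero_eq]
    exact hval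
  rw [h3, toAdd_pow, nsmul_eq_mul]
  exact dvd_mul_right _ _

/-- The class of `x ∈ V(F)` lies in the Selmer group `F(S_F, p)`. -/
theorem mk_mem_selmerGroup [NumberField F] {x : Fˣ}
    (hx : IsSelmerElt S p F ((x : F) : AlgebraicClosure ℚ)) :
    (QuotientGroup.mk x : Fˣ ⧸ (powMonoidHom p : Fˣ →* Fˣ).range) ∈
      selmerGroup (R := 𝓞 F) (K := F) (S := primesOver S F) (n := p) := by
  intro v hv
  exact (Fermat.Agent.S55.H901.valuationOfNeZeroMod_mk_eq_one_iff v p x).2
    (dvd_valuationOfNeZero_of_isSelmerElt hx v hv)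

variable (S p F)

/-- **The Kummer level is finite over `ℚ`.** -/
theorem finiteDimensional_kummerLevel (hp : 0 < p) [FiniteDimensional ℚ F] :
    FiniteDimensional ℚ (kummerLevel S p F) := by
  classical
  haveI : NumberField F := { to_charZero := inferInstance, to_finiteDimensional := inferInstance }
  haveI : Finite (selmerGroup (R := 𝓞 F) (K := F) (S := primesOver S F) (n := p)) :=
    Fermat.Agent.S55.H901.selmerGroup_finite (primesOver_finite S F) hp
  -- a `p`-th root of a representative of every class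
  have hroot : ∀ c : Fˣ ⧸ (powMonoidHom p : Fˣ →* Fˣ).range, ∃ β : AlgebraicClosure ℚ,
      (∃ x : Fˣ, IsSelmerElt S p F ((x : F) : AlgebraicClosure ℚ) ∧ QuotientGroup.mk x = c) →
      ∃ x : Fˣ, QuotientGroup.mk x = c ∧ β ^ p = ((x : F) : AlgebraicClosure ℚ) := by
    intro c
    by_cases h : ∃ x : Fˣ, IsSelmerElt S p F ((x : F) : AlgebraicClosure ℚ) ∧
        QuotientGroup.mk x = c
    · obtain ⟨x, -, hc⟩ := h
      obtain ⟨β, hβ⟩ := IsAlgClosed.exists_pow_nat_eq ((x : F) : AlgebraicClosure ℚ) hp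
      exact ⟨β, fun _ => ⟨x, hc, hβ⟩⟩
    · exact ⟨0, fun h' => absurd h' h⟩
  choose g hg using hroot
  let T : Set (AlgebraicClosure ℚ) :=
    g '' (selmerGroup (R := 𝓞 F) (K := F) (S := primesOver S F) (n := p) :
      Set (Fˣ ⧸ (powMonoidHom p : Fˣ →* Fˣ).range)) ∪ {ω | ω ^ p = 1}
  have hTfin : T.Finite := by
    refine Set.Finite.union ((Set.toFinite _).image g) ?_
    refine (Polynomial.nthRoots p (1 : AlgebraicClosure ℚ)).toFinset.finite_toSet.subset ?_
    intro ω hω
    simpa [Polynomial.mem_nthRoots hp] using hω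
  have hsub : {β | IsSelmerElt S p F (β ^ p)} ⊆
      ((F ⊔ adjoin ℚ T : IntermediateField ℚ (AlgebraicClosure ℚ)) :
        Set (AlgebraicClosure ℚ)) := by
    intro β hβ
    have hβ' : IsSelmerElt S p F (β ^ p) := hβ
    have hx0 : (⟨β ^ p, hβ'.1⟩ : F) ≠ 0 := fun h => hβ'.2.1 (congrArg Subtype.val h)
    have hxS : IsSelmerElt S p F
        (((Units.mk0 (⟨β ^ p, hβ'.1⟩ : F) hx0 : Fˣ) : F) : AlgebraicClosure ℚ) := hβ'
    have hc := mk_mem_selmerGroup hxS
    obtain ⟨x', hcx', hgx'⟩ := hg _ ⟨_, hxS, rfl⟩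
    obtain ⟨y, hy⟩ := QuotientGroup.eq.1 hcx'
    -- `y ^ p = x'⁻¹ * x`
    have hy' : ((y : F) : AlgebraicClosure ℚ) ^ p * ((x' : F) : AlgebraicClosure ℚ) = β ^ p := by
      have h1 : (y ^ p : Fˣ) = x'⁻¹ * Units.mk0 (⟨β ^ p, hβ'.1⟩ : F) hx0 := hy
      have h2 : x' * y ^ p = Units.mk0 (⟨β ^ p, hβ'.1⟩ : F) hx0 := by
        rw [h1, mul_inv_cancel_left]
      have h3 := congrArg (fun z : Fˣ => ((z : F) : AlgebraicClosure ℚ)) h2
      simp only [Units.val_mul, Units.val_pow_eq_pow_val, Units.val_mk0,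
        MulMemClass.coe_mul, SubmonoidClass.coe_pow] at h3
      rw [mul_comm]
      exact h3
    set b := g (QuotientGroup.mk (Units.mk0 (⟨β ^ p, hβ'.1⟩ : F) hx0)) with hb
    have hx'0 : ((x' : F) : AlgebraicClosure ℚ) ≠ 0 := fun h =>
      x'.ne_zero (Subtype.ext h)
    have hb0 : b ≠ 0 := fun h => hx'0 (by rw [← hgx', h, zero_pow hp.ne'])
    have hy0 : ((y : F) : AlgebraicClosure ℚ) ≠ 0 := fun h => y.ne_zero (Subtype.ext h)
    have hω : (β / (b * ((y : F) : AlgebraicClosure ℚ))) ^ p = 1 := by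
      have hβp : β ^ p = b ^ p * ((y : F) : AlgebraicClosure ℚ) ^ p := by
        rw [hgx', ← hy', mul_comm]
      rw [div_pow, mul_pow, hβp]
      exact div_self (mul_ne_zero (pow_ne_zero p hb0) (pow_ne_zero p hy0))
    have e : β = (β / (b * ((y : F) : AlgebraicClosure ℚ))) *
        (b * ((y : F) : AlgebraicClosure ℚ)) := by
      field_simp
    rw [e]
    have hTle : adjoin ℚ T ≤ F ⊔ adjoin ℚ T := le_sup_right
    have hFle : F ≤ F ⊔ adjoin ℚ T := le_sup_left
    refine mul_mem (hTle (subset_adjoin ℚ T (Or.inr hω)))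
      (mul_mem (hTle (subset_adjoin ℚ T (Or.inl ⟨_, hc, rfl⟩))) (hFle (y : F).2))
  have hle : kummerLevel S p F ≤ F ⊔ adjoin ℚ T :=
    sup_le le_sup_left (adjoin_le_iff.2 hsub)
  haveI : Finite T := hTfin.to_subtype
  haveI : FiniteDimensional ℚ (adjoin ℚ T) :=
    finiteDimensional_adjoin
      (fun x _ => (AlgebraicClosure.isAlgebraic ℚ).isIntegral.isIntegral x)
  haveI : FiniteDimensional ℚ (F ⊔ adjoin ℚ T : IntermediateField ℚ (AlgebraicClosure ℚ)) :=
    IntermediateField.finiteDimensional_sup F _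
  exact FiniteDimensional.of_injective (IntermediateField.inclusion hle).toLinearMap
    (IntermediateField.inclusion_injective hle)

/-- **The Kummer level is unramified outside `S`** (if `F` is, and the prime factors of `p` lie in
`S`). -/
theorem isUnramifiedOutside_kummerLevel (hp : 0 < p)
    (hpS : ∀ ℓ : Nat.Primes, (ℓ : ℕ) ∣ p → ℓ ∈ S) (hF : F.IsUnramifiedOutside S) :
    (kummerLevel S p F).IsUnramifiedOutside S := by
  haveI := hF.1
  exact ⟨finiteDimensional_kummerLevel S p F hp, fun q hq A hA =>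
    inertia_le_fixingSubgroup_kummerLevel hp.ne' hpS hF.2 hq hA⟩

end Selmer

end Fermat.Agent.S55.G.Exist121

end
-- ===== PACK-END S55/G/Exist121/FieldFinite.lean

-- ===== PACK-BEGIN S55/G/Exist/H361/Unram.lean
section
/-
S55 / layer G / block EXIST, leaf EX-KUM (helper361), part 2: Kummer extensions are unramified
outside `S` (in the sense of `G.IsUnramOut`, i.e. trivial inertia at the primes not above `S`).

`fixes_root_of_inertia`: let `M / K` be number fields, `p ∈ S` a prime, `w` a prime of `M` not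
above `S`, `g ∈ Aut_K(M)` in the inertia group of `w`, `a ∈ Kˣ` with `p ∣ ord_v a` for all primes
`v` of `K` not above `S`, and `β ∈ M` with `β ^ p = a`.  Then `g β = β`.

Proof: after multiplying `β` by a suitable `c ∈ Kˣ` we may assume that `β` is integral and a
unit at `w`.  Then `g β = η β` with `η ^ p = 1`, and `(η - 1) β ∈ w` gives `η - 1 ∈ w`; if
`η ≠ 1` then `η - 1 ∣ p`, so `p ∈ w`, i.e. `w` is above `p ∈ S`.
-/


set_option autoImplicit false
set_option linter.unusedSectionVars false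

open scoped NumberField
open IsDedekindDomain

namespace Fermat.Agent.S55.G.Exist.H361

open Fermat.Agent.S55.G

section Normalise

variable {K : Type} [Field K] [NumberField K]

/-- If `p ∣ ord_v a`, there is `c ∈ Kˣ` such that `a c^p` is an integer of `K` prime to `v`. -/
lemma exists_mul_pow_integral (p : ℕ) (hp : p ≠ 0) (v : HeightOneSpectrum (𝓞 K)) (a : Kˣ)
    (ha : (p : ℤ) ∣ ordAt v (Additive.ofMul a)) :
    ∃ (c : K) (a' : 𝓞 K), c ≠ 0 ∧ a' ∉ v.asIdeal ∧ (a' : K) = (a : K) * c ^ p := by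
  obtain ⟨d, hd⟩ := ha
  obtain ⟨π, hπ⟩ := v.valuation_exists_uniformizer K
  have hπ0 : π ≠ 0 := by
    intro h
    rw [h, map_zero] at hπ
    exact WithZero.exp_ne_zero.symm hπ
  have hva : v.valuation K (a : K) = WithZero.exp (-((p : ℤ) * d)) := by
    have := valuation_eq_exp_neg_ordAt v (Additive.ofMul a)
    rw [hd] at this
    exact this
  -- `x = a π^{-pd}` has valuation `1`
  have hx : v.valuation K ((a : K) * (π ^ (-d)) ^ p) = 1 := by
    rw [map_mul, map_pow, map_zpow₀, hva, hπ, ← WithZero.exp_zsmul, ← WithZero.exp_nsmul,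
      ← WithZero.exp_add, ← WithZero.exp_zero]
    congr 1
    simp only [smul_eq_mul, nsmul_eq_mul]
    ring
  obtain ⟨n, s, hns⟩ := v.exists_primeCompl_mul_eq_of_integer ((a : K) * (π ^ (-d)) ^ p) hx.le
  have hs : (s : 𝓞 K) ∉ v.asIdeal := s.2
  have hsv : v.valuation K (algebraMap (𝓞 K) K s) = 1 :=
    (HeightOneSpectrum.valuation_eq_one_iff_notMem v).2 hs
  have hn : n ∉ v.asIdeal := by
    rw [← HeightOneSpectrum.valuation_eq_one_iff_notMem v (K := K), ← hns, map_mul, hx, hsv,
      one_mul]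
  have hs0 : (s : 𝓞 K) ≠ 0 := fun h => hs (h ▸ v.asIdeal.zero_mem)
  refine ⟨π ^ (-d) * algebraMap (𝓞 K) K s, n * (s : 𝓞 K) ^ (p - 1), ?_, ?_, ?_⟩
  · refine mul_ne_zero (zpow_ne_zero _ hπ0) ?_
    intro h
    exact hs0 ((FaithfulSMul.algebraMap_injective (𝓞 K) K) (h.trans (map_zero _).symm))
  · intro h
    rcases (v.isPrime.mem_or_mem h) with h1 | h1
    · exact hn h1
    · exact hs (v.isPrime.mem_of_pow_mem _ h1)
  · have hp1 : p - 1 + 1 = p := Nat.succ_pred_eq_of_ne_zero hp
    push_cast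
    change algebraMap (𝓞 K) K n * (algebraMap (𝓞 K) K s) ^ (p - 1) = _
    rw [← hns, mul_pow]
    have : (algebraMap (𝓞 K) K s) ^ p =
        algebraMap (𝓞 K) K s * (algebraMap (𝓞 K) K s) ^ (p - 1) := by
      rw [← pow_succ', hp1]
    rw [this]
    ring

end Normalise

section Inertia

variable {K M : Type} [Field K] [NumberField K] [Field M] [NumberField M] [Algebra K M]

/-- `η - 1 ∣ p` for a `p`-th root of unity `η ≠ 1` (`p` prime) in a domain. -/
lemma sub_one_dvd_prime_of_pow_eq_one {R : Type*} [CommRing R] [IsDomain R] {p : ℕ}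
    (hp : p.Prime) {η : R} (hη : η ^ p = 1) (hη1 : η ≠ 1) : η - 1 ∣ (p : R) := by
  have : Fact p.Prime := ⟨hp⟩
  have hprim : IsPrimitiveRoot η p := by
    rw [IsPrimitiveRoot.iff_orderOf]
    exact orderOf_eq_prime hη hη1
  have hroot : (Polynomial.cyclotomic p R).IsRoot η := hprim.isRoot_cyclotomic hp.pos
  have h1 := Polynomial.sub_dvd_eval_sub η 1 (Polynomial.cyclotomic p R)
  rw [Polynomial.IsRoot.def.1 hroot, Polynomial.eval_one_cyclotomic_prime, zero_sub] at h1
  exact (dvd_neg.1 h1)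

/-- **Inertia fixes Kummer roots.** -/
theorem fixes_root_of_inertia (p : ℕ) [hp : Fact p.Prime] (S : Finset Nat.Primes)
    (hpS : (⟨p, hp.out⟩ : Nat.Primes) ∈ S)
    (w : HeightOneSpectrum (𝓞 M)) (hw : ¬ IsAbove S M w) (g : M ≃ₐ[K] M)
    (hg : ∀ x y : 𝓞 M, (y : M) = g (x : M) → y - x ∈ w.asIdeal)
    (a : Kˣ) (ha : ∀ v : PrimeOut S K, (p : ℤ) ∣ ordAt v.1 (Additive.ofMul a))
    (β : M) (hβ : β ^ p = algebraMap K M (a : K)) : g β = β := by
  by_contra hne
  -- the prime below `w`
  let v : HeightOneSpectrum (𝓞 K) := w.under (𝓞 K)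
  have hv : ¬ IsAbove S K v := by
    rintro ⟨q, hq, hqv⟩
    refine hw ⟨q, hq, ?_⟩
    have : ((q : ℕ) : 𝓞 K) ∈ w.asIdeal.under (𝓞 K) := hqv
    rw [Ideal.under_def, Ideal.mem_comap, map_natCast] at this
    exact this
  obtain ⟨c, a', hc0, ha'v, ha'⟩ := exists_mul_pow_integral p hp.out.ne_zero v a (ha ⟨v, hv⟩)
  -- the normalised root
  have hβ0 : β ≠ 0 := by
    intro h
    rw [h, zero_pow hp.out.ne_zero] at hβ
    exact a.ne_zero ((algebraMap K M).injective (hβ.symm.trans (map_zero _).symm))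
  have hcM : algebraMap K M c ≠ 0 := fun h =>
    hc0 ((algebraMap K M).injective (h.trans (map_zero _).symm))
  have hpow : (β * algebraMap K M c) ^ p = algebraMap (𝓞 M) M (algebraMap (𝓞 K) (𝓞 M) a') := by
    rw [mul_pow, hβ, ← map_pow, ← map_mul, ← ha']
    rfl
  have hint : IsIntegral ℤ (β * algebraMap K M c) := by
    refine IsIntegral.of_pow hp.out.pos ?_
    rw [hpow]
    exact NumberField.RingOfIntegers.isIntegral_coe _
  let b : 𝓞 M := ⟨β * algebraMap K M c, hint⟩
  have hb : (b : M) = β * algebraMap K M c := rfl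
  have hbp : b ^ p = algebraMap (𝓞 K) (𝓞 M) a' := by
    apply NumberField.RingOfIntegers.coe_injective
    rw [map_pow]
    exact hpow
  have hbw : b ∉ w.asIdeal := by
    intro h
    have h1 : b ^ p ∈ w.asIdeal := Ideal.pow_mem_of_mem _ h p hp.out.pos
    rw [hbp] at h1
    exact ha'v h1
  -- the root of unity
  have hη : (g β / β) ^ p = 1 := by
    rw [div_pow, ← map_pow, hβ, AlgEquiv.commutes, div_self]
    rw [← hβ]
    exact pow_ne_zero _ hβ0
  have hηint : IsIntegral ℤ (g β / β) := by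
    refine IsIntegral.of_pow hp.out.pos ?_
    rw [hη]
    exact isIntegral_one
  let η : 𝓞 M := ⟨g β / β, hηint⟩
  have hηp : η ^ p = 1 := by
    apply NumberField.RingOfIntegers.coe_injective
    rw [map_pow, map_one]
    exact hη
  have hη1 : η ≠ 1 := by
    intro h
    have h1 : g β / β = 1 := by
      have h2 : algebraMap (𝓞 M) M η = algebraMap (𝓞 M) M 1 := congrArg _ h
      rw [map_one] at h2
      exact h2
    exact hne ((div_eq_one_iff_eq hβ0).1 h1)
  -- `g b = η b`
  have hgb : ((η * b : 𝓞 M) : M) = g (b : M) := by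
    rw [hb, map_mul, AlgEquiv.commutes]
    change g β / β * (β * algebraMap K M c) = _
    field_simp
  have h1 : η * b - b ∈ w.asIdeal := hg b (η * b) hgb
  have h2 : (η - 1) * b ∈ w.asIdeal := by
    have : (η - 1) * b = η * b - b := by ring
    rw [this]; exact h1
  have h3 : η - 1 ∈ w.asIdeal := (w.isPrime.mem_or_mem h2).resolve_right hbw
  obtain ⟨r, hr⟩ := sub_one_dvd_prime_of_pow_eq_one hp.out hηp hη1
  refine hw ⟨⟨p, hp.out⟩, hpS, ?_⟩
  show ((p : ℕ) : 𝓞 M) ∈ w.asIdeal
  rw [hr]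
  exact w.asIdeal.mul_mem_right _ h3

end Inertia

end Fermat.Agent.S55.G.Exist.H361

end
-- ===== PACK-END S55/G/Exist/H361/Unram.lean

-- ===== PACK-BEGIN S55/G/SpecUnits2.lean
section
/-
S55, layer G, block G-U (helper595): two further small leaf specs needed by the assemblies
(`UnitsAssembly.lean`, `SUnitsAssembly.lean`).  No `sorry` here.
-/




set_option autoImplicit false

namespace Fermat.Agent.S55.G

open NumberField

universe u v

/-- **(S-STAB) the `T`-units are Galois stable.**  (`T` is a set of primes of the base field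
`K`, so the set of primes of `L` above `T` is stable under `Gal(L/K)`.)  Route: for `w` a prime
of `𝓞 L` and `τ`, put `w' = IsDedekindDomain.HeightOneSpectrum.comap` of `w` under the
restriction of `τ` to `𝓞 L` (`galRestrict`); then `w'` lies over the same prime of `K`, and
`w.valuation (τ x) ≤ 1 ↔ w'.valuation x ≤ 1` by
`IsDedekindDomain.HeightOneSpectrum.exists_primeCompl_mul_eq_of_integer`. -/
def SUnitsStableSpec : Prop :=
  ∀ (K : Type u) (L : Type v) [Field K] [Field L] [NumberField K] [NumberField L] [Algebra K L]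
    [IsGalois K L] (T : Finset (IsDedekindDomain.HeightOneSpectrum (𝓞 K))) (τ : L ≃ₐ[K] L)
    (x : Additive Lˣ), x ∈ sUnits K L T → unitsHom K L τ x ∈ sUnits K L T

/-- **(TZ-BASIS) a `ℤ`-basis of the integral trace-zero lattice inside `ℝ^X`.**
Route: fix `x₀`; the family `e_x - e_{x₀}` (`x ≠ x₀`), reindexed by `Fin (card X - 1)`. -/
def TraceZeroBasisSpec : Prop :=
  ∀ (X : Type v) [Fintype X] [Nonempty X],
    ∃ (r : ℕ) (b : Fin r → (X → ℝ)), LinearIndependent ℝ b ∧
      Submodule.span ℝ (Set.range b) =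
        LinearMap.ker (∑ x : X, LinearMap.proj x : (X → ℝ) →ₗ[ℝ] ℝ) ∧
      (Submodule.span ℤ (Set.range b)).toAddSubgroup = (traceZero X).map (coeHomR X)

end Fermat.Agent.S55.G

end
-- ===== PACK-END S55/G/SpecUnits2.lean

-- ===== PACK-BEGIN S55/G/UpH119/Desc.lean
section


/-!
# G-UP, part 3: `C_S(L)^N ≅ C_S(L^N)` on cohomology (helper119)

From `DescentSpec` we get, for `N ⊴ G`, isomorphisms
`Hⁿ(G ⧸ N, C_S(L^N)) ≅ Hⁿ(G ⧸ N, C_S(L)^N)`.
-/

set_option autoImplicit false
set_option linter.style.haveILetI false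
set_option linter.unusedSectionVars false

open scoped NumberField TensorProduct Pointwise
open IsDedekindDomain CategoryTheory groupCohomology

noncomputable section

namespace Fermat.Agent.S55.G.UpH119

variable (S : Finset Nat.Primes) (G L : Type) [Group G] [Finite G] [Field L] [NumberField L]
  [MulSemiringAction G L] [FaithfulSMul G L] (N : Subgroup G) [N.Normal]

/-- The output of `DescentSpec` for the fixed field of `N`. -/
theorem exists_descent (hD : DescentSpec) (hS : S.Nonempty) (hunr : IsUnramOut S G L) :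
    letI := quotAct G L N
    ∃ ι : CS S (FixN G L N) →+ CS S L,
      Function.Injective ι ∧
      (∀ (g : G) (c : CS S (FixN G L N)),
        ι (cRepr S (G ⧸ N) (FixN G L N) (g : G ⧸ N) c) = cRepr S G L g (ι c)) ∧
      (∀ c : CS S L, (∀ n : N, cRepr S G L (n : G) c = c) ↔ c ∈ Set.range ι) := by
  letI := quotAct G L N
  obtain ⟨ι, h1, h2, h3, -⟩ := hD S G L (FixN G L N) N hS hunr
    (mem_range_algebraMap_fixN_iff G L N) (algebraMap_quotAct_smul G L N)
  exact ⟨ι, h1, h2, h3⟩

/-- `Hⁿ(G ⧸ N, C_S(L^N)) ≅ Hⁿ(G ⧸ N, C_S(L)^N)`. -/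
theorem nonempty_iso_quot (hD : DescentSpec) (hS : S.Nonempty) (hunr : IsUnramOut S G L)
    (n : ℕ) :
    letI := quotAct G L N
    Nonempty (groupCohomology (CRep S (G ⧸ N) (FixN G L N)) n ≅
      groupCohomology ((CRep S G L).quotientToInvariants N) n) := by
  letI := quotAct G L N
  obtain ⟨ι, hinj, heq, hrange⟩ := exists_descent S G L N hD hS hunr
  -- the linear equivalence onto the invariants
  let f : CS S (FixN G L N) →ₗ[ℤ]
      ↥(Representation.invariants ((cRepr S G L).comp N.subtype)) :=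
    LinearMap.codRestrict _ ι.toIntLinearMap (fun c => by
      intro m
      exact (hrange (ι c)).2 ⟨c, rfl⟩ m)
  have hf : Function.Bijective f := by
    constructor
    · intro a b hab
      exact hinj (congrArg Subtype.val hab)
    · rintro ⟨c, hc⟩
      obtain ⟨a, ha⟩ := (hrange c).1 (fun m => hc m)
      exact ⟨a, Subtype.ext ha⟩
  let e' : CS S (FixN G L N) ≃ₗ[ℤ]
      ↥(Representation.invariants ((cRepr S G L).comp N.subtype)) :=
    LinearEquiv.ofBijective f hf
  refine ⟨groupCohomology.mapIso (A := (CRep S G L).quotientToInvariants N)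
    (B := CRep S (G ⧸ N) (FixN G L N)) (MulEquiv.refl (G ⧸ N)) e' (fun q => ?_) n⟩
  induction q using QuotientGroup.induction_on with | @H g =>
  ext c
  exact heq g c

end Fermat.Agent.S55.G.UpH119

end
end
-- ===== PACK-END S55/G/UpH119/Desc.lean

-- ===== PACK-BEGIN S55/H963/BrAdele2.lean
section


/-!
# S55 / G-SI bridge (helper963): `K ⊗ ℚ_S` — integral subring, roots, approximation

* `phi : ℤ_S ⊗ 𝓞 K →+* K ⊗ ℚ_S`;
* `as_induction` : `K ⊗ ℚ_S` is additively generated by the `x ⊗ a`, `x ∈ 𝓞 K`;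
* `exists_pow_eq_AS` : `1 + P ^ (2n+2) φ(r)` is an `n`-th power in `K ⊗ ℚ_S`;
* `isUnit_one_add_AS` : `1 + P φ(w)` is a unit;
* `exists_denom_AS` : every `α ∈ K ⊗ ℚ_S` is `P ^ (-e) φ(r)`;
* `exists_approx_AS` : weak approximation, `K` is dense in `K ⊗ ℚ_S`.
-/

set_option autoImplicit false
set_option linter.style.haveILetI false
set_option linter.unusedSectionVars false
set_option linter.unusedVariables false

open scoped NumberField TensorProduct

noncomputable section

namespace Fermat.Agent.S55.H963.Br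

open Fermat.Agent.S55.G

variable (S : Finset Nat.Primes) (K : Type) [Field K] [NumberField K]

/-- The ring homomorphism `ℤ_S ⊗ 𝓞 K → K ⊗ ℚ_S`, `c ⊗ x ↦ x ⊗ c`. -/
def phi : RS S K →+* AS S K :=
  (Algebra.TensorProduct.productMap
    (((asIncl S K : QS S →ₐ[ℚ] AS S K) : QS S →+* AS S K).comp (zsToQs S)).toIntAlgHom
    (((asDiag S K : K →ₐ[ℚ] AS S K) : K →+* AS S K).comp (algebraMap (𝓞 K) K)).toIntAlgHom
      : RS S K →ₐ[ℤ] AS S K).toRingHom

theorem phi_tmul (c : ZS S) (x : 𝓞 K) :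
    phi S K (c ⊗ₜ[ℤ] x) = (x : K) ⊗ₜ[ℚ] zsToQs S c := by
  have h : phi S K (c ⊗ₜ[ℤ] x) = (asIncl S K (zsToQs S c)) * (asDiag S K ((x : K))) :=
    Algebra.TensorProduct.productMap_apply_tmul _ _ c x
  rw [h, asDiag_apply]
  simp only [asIncl, Algebra.TensorProduct.includeRight_apply,
    Algebra.TensorProduct.tmul_mul_tmul, one_mul, mul_one]

/-- `K ⊗ ℚ_S` is additively generated by the `x ⊗ a` with `x` integral. -/
theorem as_induction {C : AS S K → Prop} (h0 : C 0)
    (ht : ∀ (x : 𝓞 K) (a : QS S), C ((x : K) ⊗ₜ[ℚ] a))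
    (hadd : ∀ α β, C α → C β → C (α + β)) : ∀ α, C α := by
  intro α
  induction α using TensorProduct.induction_on with
  | zero => exact h0
  | add α β hα hβ => exact hadd α β hα hβ
  | tmul k a =>
    have hk := (NumberField.integralBasis K).sum_repr k
    rw [← hk, TensorProduct.sum_tmul]
    refine Finset.sum_induction _ C hadd h0 fun i _ => ?_
    rw [TensorProduct.smul_tmul, NumberField.integralBasis_apply]
    exact ht _ _

theorem AS.natCast_tmul (n : ℕ) (k : K) (a : QS S) :
    ((n : ℕ) : AS S K) * (k ⊗ₜ[ℚ] a) = k ⊗ₜ[ℚ] ((n : QS S) * a) := by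
  have : ((n : ℕ) : AS S K) = (1 : K) ⊗ₜ[ℚ] ((n : ℕ) : QS S) := by
    rw [← map_natCast (asIncl S K) n]
    rfl
  rw [this, Algebra.TensorProduct.tmul_mul_tmul, one_mul]

theorem AS.natCast_pow_tmul (n e : ℕ) (k : K) (a : QS S) :
    ((n : ℕ) : AS S K) ^ e * (k ⊗ₜ[ℚ] a) = k ⊗ₜ[ℚ] ((n : QS S) ^ e * a) := by
  induction e generalizing a with
  | zero => simp
  | succ e ih =>
    rw [pow_succ, mul_assoc, AS.natCast_tmul, ih, pow_succ, mul_assoc]

/-- **`n`-th roots in `K ⊗ ℚ_S`.** -/
theorem exists_pow_eq_AS {n : ℕ} (hn : 0 < n) (r : RS S K) :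
    ∃ y : AS S K, y ^ n = 1 + ((PS S : ℕ) : AS S K) ^ (2 * n + 2) * phi S K r := by
  obtain ⟨y, hy⟩ := exists_pow_eq_RS S K hn r
  refine ⟨phi S K y, ?_⟩
  rw [← map_pow, hy, map_add, map_one, map_mul, map_pow, map_natCast]

/-- `1 + P φ(w)` is a unit of `K ⊗ ℚ_S`. -/
theorem isUnit_one_add_AS (w : RS S K) :
    IsUnit (1 + ((PS S : ℕ) : AS S K) * phi S K w) := by
  have := (isUnit_one_add_RS S K w).map (phi S K)
  rwa [map_add, map_one, map_mul, map_natCast] at this

/-- Denominators in `K ⊗ ℚ_S`. -/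
theorem exists_denom_AS (α : AS S K) :
    ∃ e : ℕ, ∃ r : RS S K, ((PS S : ℕ) : AS S K) ^ e * α = phi S K r := by
  induction α using as_induction S K with
  | h0 => exact ⟨0, 0, by simp⟩
  | ht x a =>
    obtain ⟨e, he⟩ := exists_denom_QS S a
    obtain ⟨c, hc⟩ := he e le_rfl
    exact ⟨e, c ⊗ₜ[ℤ] x, by rw [AS.natCast_pow_tmul, hc, phi_tmul]⟩
  | hadd α β hα hβ =>
    obtain ⟨e1, r1, h1⟩ := hα
    obtain ⟨e2, r2, h2⟩ := hβ
    refine ⟨e1 + e2, ((PS S : ℕ) : RS S K) ^ e2 * r1 + ((PS S : ℕ) : RS S K) ^ e1 * r2, ?_⟩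
    rw [map_add, map_mul, map_mul, map_pow, map_pow, map_natCast, ← h1, ← h2]
    ring

/-- **Weak approximation**: `K` is dense in `K ⊗ ℚ_S`. -/
theorem exists_approx_AS (α : AS S K) (M : ℕ) :
    ∃ x : K, ∃ r : RS S K, α - asDiag S K x = ((PS S : ℕ) : AS S K) ^ M * phi S K r := by
  induction α using as_induction S K with
  | h0 => exact ⟨0, 0, by simp⟩
  | ht x a =>
    obtain ⟨ρ, c, hc⟩ := exists_approx_QS S a M
    refine ⟨ρ • (x : K), c ⊗ₜ[ℤ] x, ?_⟩
    rw [phi_tmul, AS.natCast_pow_tmul, ← hc, asDiag_apply, TensorProduct.tmul_sub,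
      TensorProduct.smul_tmul, Algebra.algebraMap_eq_smul_one]
  | hadd α β hα hβ =>
    obtain ⟨x1, r1, h1⟩ := hα
    obtain ⟨x2, r2, h2⟩ := hβ
    refine ⟨x1 + x2, r1 + r2, ?_⟩
    rw [map_add, map_add, mul_add, ← h1, ← h2]
    ring

end Fermat.Agent.S55.H963.Br

end
end
-- ===== PACK-END S55/H963/BrAdele2.lean

-- ===== PACK-BEGIN S55/G/SI777/Split.lean
section
/-
S55, layer G, block G-SI-FINAL (helper777).
Unramified primes and split primes for a Galois extension `L/K` with group `G`: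

* `eAt_eq_one_of_inertia`   : trivial inertia group at `w` ⇒ `e(w | K) = 1`;
* `stabilizer_trivial`      : trivial inertia and `f(w | K) = 1` ⇒ trivial decomposition group;
* `inertiaDeg_eq_one_of_absNorm_prime`, `inertiaDeg_eq_one_of_absNorm_eq`;
* `norm_single_eq_divBase`  : for a prime `w` with trivial decomposition group,
  `N_G [w] = divBase [w ∩ K]` (all primes unramified outside `S`);
* `single_mem_normSub`      : the class of `(0, [w ∩ K])` lies in `cBase⁻¹ (N_G C_S(L))`.
-/


set_option autoImplicit false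
set_option linter.unusedSectionVars false

open scoped NumberField TensorProduct Pointwise
open IsDedekindDomain

noncomputable section

namespace Fermat.Agent.S55.G.SI777

open Fermat.Agent.S55.G Fermat.Agent.S55.G.DescH773

section Ram

variable (G K L : Type) [Group G] [Finite G] [Field K] [NumberField K]
  [Field L] [NumberField L] [Algebra K L] [MulSemiringAction G L] [IsGaloisGroup G K L]

variable {L} in
/-- If the inertia group of `w` is trivial, then `e(w | K) = 1`. -/
lemma eAt_eq_one_of_inertia (w : HeightOneSpectrum (𝓞 L))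
    (h : ∀ g : G, (∀ x : 𝓞 L, g • x - x ∈ w.asIdeal) → g = 1) : eAt K w = 1 := by
  have hv : (primeUnder K w).asIdeal ≠ ⊥ := (primeUnder K w).ne_bot
  have : (primeUnder K w).asIdeal.IsMaximal := (primeUnder K w).isMaximal
  have h1 : Nat.card (w.asIdeal.inertia G) = 1 := by
    rw [Nat.card_eq_one_iff_unique]
    refine ⟨⟨fun a b => Subtype.ext ?_⟩, ⟨1⟩⟩
    rw [h a.1 a.2, h b.1 b.2]
  have h2 := Ideal.card_inertia_eq_ramificationIdxIn (G := G) (primeUnder K w).asIdeal w.asIdeal
  have h3 := Ideal.ramificationIdxIn_eq_ramificationIdx (primeUnder K w).asIdeal w.asIdeal G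
  have h4 := Ideal.ramificationIdx'_eq_ramificationIdx (primeUnder K w).asIdeal w.asIdeal hv
  rw [eAt, h4, ← h3, ← h2, h1]

variable {L} in
/-- If the inertia group of `w` is trivial and `f(w | K) = 1`, then the decomposition group of
`w` is trivial. -/
lemma stabilizer_trivial (w : HeightOneSpectrum (𝓞 L))
    (h : ∀ g : G, (∀ x : 𝓞 L, g • x - x ∈ w.asIdeal) → g = 1)
    (hf : w.asIdeal.inertiaDeg (𝓞 K) = 1) (g : G) (hg : primeSMul G g w = w) : g = 1 := by
  have : (primeUnder K w).asIdeal.IsMaximal := (primeUnder K w).isMaximal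
  have h1 : Nat.card (w.asIdeal.inertia G) = 1 := by
    rw [Nat.card_eq_one_iff_unique]
    refine ⟨⟨fun a b => Subtype.ext ?_⟩, ⟨1⟩⟩
    rw [h a.1 a.2, h b.1 b.2]
  have h2 := Ideal.card_stabilizer_eq_card_inertia_mul_finrank (G := G)
    (primeUnder K w).asIdeal w.asIdeal
  rw [h1, hf, Nat.card_eq_one_iff_unique] at h2
  have hmem : g ∈ MulAction.stabilizer G w.asIdeal := by
    rw [MulAction.mem_stabilizer_iff]
    exact congrArg HeightOneSpectrum.asIdeal hg
  have := h2.1.elim ⟨g, hmem⟩ 1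
  exact congrArg Subtype.val this

variable {L} in
lemma absNorm_eq_pow (w : HeightOneSpectrum (𝓞 L)) :
    Ideal.absNorm w.asIdeal =
      Ideal.absNorm (primeUnder K w).asIdeal ^ w.asIdeal.inertiaDeg (𝓞 K) := by
  have : (primeUnder K w).asIdeal.IsMaximal := (primeUnder K w).isMaximal
  have : w.asIdeal.IsMaximal := w.isMaximal
  rw [← Ideal.inertiaDeg'_eq_inertiaDeg (primeUnder K w).asIdeal w.asIdeal]
  exact Ideal.absNorm_eq_pow_inertiaDeg'_of_liesOver w.asIdeal (primeUnder K w).asIdeal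
    (primeUnder K w).isPrime (primeUnder K w).ne_bot

variable {L} in
lemma inertiaDeg_eq_one_of_absNorm_prime (w : HeightOneSpectrum (𝓞 L))
    (hw : (Ideal.absNorm w.asIdeal).Prime) : w.asIdeal.inertiaDeg (𝓞 K) = 1 := by
  have h := absNorm_eq_pow K w
  rw [h] at hw
  exact Nat.Prime.eq_one_of_pow hw

variable {L} in
lemma inertiaDeg_eq_one_of_absNorm_eq (w : HeightOneSpectrum (𝓞 L))
    (hw : Ideal.absNorm w.asIdeal = Ideal.absNorm (primeUnder K w).asIdeal) :
    w.asIdeal.inertiaDeg (𝓞 K) = 1 := by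
  have h := absNorm_eq_pow K w
  have h2 : 2 ≤ Ideal.absNorm (primeUnder K w).asIdeal := by
    have h0 : Ideal.absNorm (primeUnder K w).asIdeal ≠ 0 := by
      rw [Ne, Ideal.absNorm_eq_zero_iff]
      exact (primeUnder K w).ne_bot
    have h1 : Ideal.absNorm (primeUnder K w).asIdeal ≠ 1 := by
      rw [Ne, Ideal.absNorm_eq_one_iff]
      exact (primeUnder K w).isPrime.ne_top
    omega
  rw [hw] at h
  exact (Nat.pow_right_injective h2 (by simpa using h)).symm

end Ram

section NormSingle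

variable (S : Finset Nat.Primes) (G K L : Type) [Group G] [Fintype G] [Field K] [NumberField K]
  [Field L] [NumberField L] [Algebra K L] [MulSemiringAction G L] [IsGaloisGroup G K L]

/-- For a prime `w` outside `S` with trivial decomposition group (`L/K` unramified outside `S`),
`N_G [w] = ∑_{w' | v} [w'] = divBase [v]`, `v = w ∩ K`. -/
lemma norm_single_eq_divBase (hur : ∀ w : PrimeOut S L, eAt K w.1 = 1) (w : PrimeOut S L)
    (hstab : ∀ g : G, primeOutMap S G L g w = w → g = 1) :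
    (divRepr S G L).norm (Finsupp.single w 1) =
      divBase S K L (Finsupp.single (primeOutUnder S K L w) 1) := by
  classical
  ext w'
  rw [Representation.norm, LinearMap.sum_apply, Finsupp.finsetSum_apply, divBase_apply, hur w']
  simp only [divRepr_single, Finsupp.single_apply, Nat.cast_one, one_mul]
  by_cases h : primeOutUnder S K L w = primeOutUnder S K L w'
  · obtain ⟨g0, hg0⟩ := exists_primeOutMap_eq S G K L w w' h
    rw [if_pos h, Finset.sum_eq_single g0]
    · simp [hg0]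
    · intro g _ hg
      rw [if_neg]
      intro hgw
      apply hg
      have h1 : primeOutMap S G L (g0⁻¹ * g) w = w := by
        rw [primeOutMap_mul, hgw, ← hg0, ← primeOutMap_mul, inv_mul_cancel, primeOutMap_one]
      have h2 := hstab _ h1
      exact (inv_mul_eq_one.1 h2).symm
    · intro h'
      exact absurd (Finset.mem_univ _) h'
  · rw [if_neg h]
    apply Finset.sum_eq_zero
    intro g _
    rw [if_neg]
    intro hgw
    apply h
    rw [← hgw, primeOutUnder_primeOutMap]

lemma jdRepr_norm_apply (y : JD S L) :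
    (jdRepr S G L).norm y = ((jRepr G S L).norm y.1, (divRepr S G L).norm y.2) := by
  simp only [Representation.norm, LinearMap.sum_apply, jdRepr_apply]
  exact Prod.ext (by simp [Prod.fst_sum]) (by simp [Prod.snd_sum])

lemma cRepr_norm_mk (y : JD S L) :
    (cRepr S G L).norm (Submodule.Quotient.mk y) =
      Submodule.Quotient.mk ((jdRepr S G L).norm y) := by
  simp only [Representation.norm, LinearMap.sum_apply, cRepr_mk]
  rw [← Submodule.mkQ_apply, map_sum]
  rfl

/-- The class of `(0, [w ∩ K])` is a norm from `C_S(L)` when `w` has trivial decomposition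
group. -/
lemma single_mem_normSub (hur : ∀ w : PrimeOut S L, eAt K w.1 = 1) (w : PrimeOut S L)
    (hstab : ∀ g : G, primeOutMap S G L g w = w → g = 1) :
    (Submodule.Quotient.mk ((0, Finsupp.single (primeOutUnder S K L w) 1) : JD S K) : CS S K) ∈
      normSub S G K L := by
  rw [mem_normSub_iff]
  refine ⟨Submodule.Quotient.mk ((0, Finsupp.single w 1) : JD S L), ?_⟩
  rw [cRepr_norm_mk, cBase_mk, jdRepr_norm_apply]
  congr 1
  refine Prod.ext ?_ ?_
  · simp
  · exact norm_single_eq_divBase S G K L hur w hstab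

end NormSingle

end Fermat.Agent.S55.G.SI777

end
end
-- ===== PACK-END S55/G/SI777/Split.lean

-- ===== PACK-BEGIN S55/G/Rec/H124/Conj.lean
section


/-!
# S55 / layer G / block REC : the localisation of a class depends only on the place

The place of `K = ℚ̄^U` induced by `ι_q ∘ g⁻¹` depends only on the double coset `U g D_q`.
We prove the corresponding statement for the vanishing of localised classes:

* `locBr_conj_eq_zero124` : `locBr q g U z = 0 → locBr q (u * g * loc θ) U z = 0` for `u ∈ U`,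
  `θ ∈ G_{ℚ_q}`;
* `locBr_eq_zero_of_reps124` : if `R` is a system of representatives of `U \ G_ℚ / D_q` and
  `locBr q r U z = 0` for all `r ∈ R`, then `locBr q g U z = 0` for ALL `g`.

(Needed for STEP C, `KillAbovePSpec`, whose conclusion quantifies over all `g`.)

The proof is at cochain level: right multiplication by `loc θ` is transport of structure along
conjugation by `θ`; left multiplication by `u ∈ U` is the inner automorphism of `U`, which acts
trivially on cohomology through the explicit homotopy `innerHomotopy124`, and this homotopy is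
level-constant.
-/

set_option autoImplicit false

noncomputable section

namespace Fermat.Agent.S55.G.Rec.H124

open groupCohomology

local notation "Qb" => AlgebraicClosure ℚ
local notation "GQ" => (AlgebraicClosure ℚ ≃ₐ[ℚ] AlgebraicClosure ℚ)

universe u

section Abstract

variable {k : Type u} [CommRing k] {G : Type u} [Group G] (A : Rep k G)

/-- The homotopy for the inner automorphism by `u`. -/
def innerHomotopy124 (c : G × G → A) (u : G) : G → A :=
  fun h => A.ρ u⁻¹ (c (u * h * u⁻¹, u) - c (u, h))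

/-- The conjugate of a 2-cochain by `u`. -/
def innerConj124 (c : G × G → A) (u : G) : G × G → A :=
  fun p => A.ρ u⁻¹ (c (u * p.1 * u⁻¹, u * p.2 * u⁻¹))

lemma rho_inv_rho124 (u : G) (x : A) : A.ρ u⁻¹ (A.ρ u x) = x := by
  rw [← Module.End.mul_apply, ← map_mul, inv_mul_cancel, map_one, Module.End.one_apply]

lemma rho_rho_inv124 (u : G) (x : A) : A.ρ u (A.ρ u⁻¹ x) = x := by
  rw [← Module.End.mul_apply, ← map_mul, mul_inv_cancel, map_one, Module.End.one_apply]

/-- Inner automorphisms act trivially on `H²`, explicitly. -/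
lemma innerConj_eq124 (c : G × G → A) (hc : c ∈ cocycles₂ A) (u : G) :
    innerConj124 A c u = c + (d₁₂ A).hom (innerHomotopy124 A c u) := by
  rw [mem_cocycles₂_def] at hc
  funext ⟨h₁, h₂⟩
  have inj : Function.Injective (A.ρ u) := fun x y hxy => by
    have := congrArg (A.ρ u⁻¹) hxy
    rwa [rho_inv_rho124, rho_inv_rho124] at this
  apply inj
  simp only [innerConj124, innerHomotopy124, Pi.add_apply, d₁₂_hom_apply, map_add, map_sub,
    rho_rho_inv124]
  have E1 := hc (u * h₁ * u⁻¹) (u * h₂ * u⁻¹) u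
  have E2 := hc (u * h₁ * u⁻¹) u h₂
  have E3 := hc u h₁ h₂
  have g1 : u * h₁ * u⁻¹ * (u * h₂ * u⁻¹) = u * (h₁ * h₂) * u⁻¹ := by group
  have g2 : u * h₂ * u⁻¹ * u = u * h₂ := by group
  have g3 : u * h₁ * u⁻¹ * u = u * h₁ := by group
  rw [g1, g2] at E1
  rw [g3] at E2
  have r1 : ∀ x : A, A.ρ u (A.ρ h₁ (A.ρ u⁻¹ x)) = A.ρ (u * h₁ * u⁻¹) x := by
    intro x
    rw [map_mul, map_mul, Module.End.mul_apply, Module.End.mul_apply]
  rw [r1, r1]
  linear_combination (norm := abel) -E1 + E2 - E3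

end Abstract

section Global

/-- The homotopy of a level-constant cochain is level-constant. -/
lemma isLevelConstant₁_innerHomotopy124 (U : Subgroup GQ) (c : ↥U × ↥U → gModOn U)
    (hc : IsLevelConstant₂ U.subtype c) (u : ↥U) :
    IsLevelConstant₁ U.subtype (innerHomotopy124 (gModOn U) c u) := by
  obtain ⟨F, hF, h⟩ := hc
  have := hF
  have := finiteDimensional_map_inv F (u : GQ)
  refine ⟨F ⊔ F.map ((u : GQ)⁻¹ : GQ).toAlgHom, inferInstance, fun x s hs => ?_⟩
  have hs1 : U.subtype s ∈ F.fixingSubgroup :=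
    IntermediateField.fixingSubgroup_antitone le_sup_left hs
  have hs2 : U.subtype (u * s * u⁻¹) ∈ F.fixingSubgroup :=
    (mem_fixingSubgroup_map_inv F (u : GQ) (s : GQ)).1
      (IntermediateField.fixingSubgroup_antitone le_sup_right hs)
  have h1 : (1 : ↥U) ∈ U.subtype ⁻¹' (F.fixingSubgroup : Set GQ) := by
    show U.subtype 1 ∈ F.fixingSubgroup
    rw [map_one]; exact one_mem _
  unfold innerHomotopy124
  have e1 : c (u * (x * s) * u⁻¹, u) = c (u * x * u⁻¹, u) := by
    have := h (u * x * u⁻¹) u (u * s * u⁻¹) 1 hs2 h1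
    rw [mul_one] at this
    rw [← this]
    congr 2
    group
  have e2 : c (u, x * s) = c (u, x) := by
    have := h u x 1 s h1 hs1
    rwa [mul_one] at this
  rw [e1, e2]

end Global

section Local

variable (q : ℕ) [Fact q.Prime]

local notation "Gq" => (PadicAlgCl q ≃ₐ[ℚ_[q]] PadicAlgCl q)

variable (U : Subgroup GQ) (g u : GQ)

/-- Conjugation by `θ`, from the local group at `u g loc(θ)` to the local group at `g`. -/
def conjHom124 (θ : Gq) (hu : u ∈ U) :
    ↥(locSub q (u * g * localGaloisToGlobal q θ) U) →* ↥(locSub q g U) where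
  toFun τ := ⟨θ * τ * θ⁻¹, by
    rw [mem_locSub]
    have h := τ.2
    rw [mem_locSub] at h
    have e : g * localGaloisToGlobal q (θ * τ * θ⁻¹) * g⁻¹ =
        u⁻¹ * (u * g * localGaloisToGlobal q θ * localGaloisToGlobal q τ *
          (u * g * localGaloisToGlobal q θ)⁻¹) * u := by
      simp only [map_mul, map_inv]
      group
    rw [e]
    exact U.mul_mem (U.mul_mem (U.inv_mem hu) h) hu⟩
  map_one' := by ext1; simp
  map_mul' a b := by ext1; simp [mul_assoc]

@[simp] lemma conjHom124_coe (θ : Gq) (hu : u ∈ U)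
    (τ : ↥(locSub q (u * g * localGaloisToGlobal q θ) U)) :
    ((conjHom124 q U g u θ hu τ : ↥(locSub q g U)) : Gq) = θ * τ * θ⁻¹ := rfl

/-- The coefficient map `x ↦ θ⁻¹ x`. -/
def conjPush124 (θ : Gq) : lModOn q (locSub q g U) →ₗ[ℤ]
    lModOn q (locSub q (u * g * localGaloisToGlobal q θ) U) :=
  (MonoidHom.toAdditive (MulDistribMulAction.toMonoidHom (PadicAlgCl q)ˣ θ⁻¹)).toIntLinearMap

lemma conjPush124_apply (θ : Gq) (a : lModOn q (locSub q g U)) :
    conjPush124 q U g u θ a = Additive.ofMul (θ⁻¹ • (Additive.toMul a : (PadicAlgCl q)ˣ)) := rfl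

lemma conjPush124_equivariant (θ : Gq) (hu : u ∈ U)
    (τ : ↥(locSub q (u * g * localGaloisToGlobal q θ) U)) (a : lModOn q (locSub q g U)) :
    conjPush124 q U g u θ ((lModOn q (locSub q g U)).ρ (conjHom124 q U g u θ hu τ) a) =
      (lModOn q (locSub q (u * g * localGaloisToGlobal q θ) U)).ρ τ (conjPush124 q U g u θ a) := by
  apply Additive.toMul.injective
  show θ⁻¹ • ((θ * (τ : Gq) * θ⁻¹) • (Additive.toMul a : (PadicAlgCl q)ˣ)) =
    (τ : Gq) • (θ⁻¹ • (Additive.toMul a : (PadicAlgCl q)ˣ))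
  rw [← mul_smul, ← mul_smul]
  congr 1
  group

/-- Level-constancy is preserved by conjugation by `θ`. -/
lemma isLevelConstant₁_conj124 (θ : Gq) (hu : u ∈ U) {X : Type*} {x : ↥(locSub q g U) → X}
    (hx : IsLevelConstant₁ (lHom q (locSub q g U)) x) :
    IsLevelConstant₁ (lHom q (locSub q (u * g * localGaloisToGlobal q θ) U))
      (x ∘ conjHom124 q U g u θ hu) := by
  obtain ⟨F, hF, h⟩ := hx
  have := hF
  refine ⟨F.map ((localGaloisToGlobal q θ)⁻¹ : GQ).toAlgHom,
    finiteDimensional_map_inv F (localGaloisToGlobal q θ), fun τ σ hσ => ?_⟩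
  simp only [Function.comp_apply, map_mul]
  refine h _ _ ?_
  have := (mem_fixingSubgroup_map_inv F (localGaloisToGlobal q θ) _).1 hσ
  show localGaloisToGlobal q (θ * (σ : Gq) * θ⁻¹) ∈ F.fixingSubgroup
  rw [map_mul, map_mul, map_inv]
  exact this

/-- **Cochain-level statement**: if the localisation at `g` of a level cocycle is a level
coboundary, so is its localisation at `u g loc(θ)`. -/
theorem locCochain₂_conj_mem124 (θ : Gq) (hu : u ∈ U) (c : ↥U × ↥U → gModOn U)
    (hc : c ∈ levelCocycles₂ U.subtype (gModOn U))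
    (h : locCochain₂ q g U c ∈
      levelCoboundaries₂ (lHom q (locSub q g U)) (lModOn q (locSub q g U))) :
    locCochain₂ q (u * g * localGaloisToGlobal q θ) U c ∈
      levelCoboundaries₂ (lHom q (locSub q (u * g * localGaloisToGlobal q θ) U))
        (lModOn q (locSub q (u * g * localGaloisToGlobal q θ) U)) := by
  obtain ⟨b, hb, hbc⟩ := (mem_levelCoboundaries₂_iff _ _ _).1 h
  set uU : ↥U := ⟨u, hu⟩ with huU
  set β := innerHomotopy124 (gModOn U) c uU with hβ
  have hconj := innerConj_eq124 (gModOn U) c hc.1 uU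
  have hβl : IsLevelConstant₁ U.subtype β := isLevelConstant₁_innerHomotopy124 U c hc.2 uU
  -- the key identity
  have key : locCochain₂ q (u * g * localGaloisToGlobal q θ) U c =
      cochainsPullPush₂ (conjHom124 q U g u θ hu) (conjPush124 q U g u θ)
        (locCochain₂ q g U (innerConj124 (gModOn U) c uU)) := by
    funext ⟨τ₁, τ₂⟩
    have hh : ∀ τ : ↥(locSub q (u * g * localGaloisToGlobal q θ) U),
        uU * locHom q g U (conjHom124 q U g u θ hu τ) * uU⁻¹ =
          locHom q (u * g * localGaloisToGlobal q θ) U τ := by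
      intro τ
      apply Subtype.ext
      show u * (g * localGaloisToGlobal q (θ * (τ : Gq) * θ⁻¹) * g⁻¹) * u⁻¹ =
        u * g * localGaloisToGlobal q θ * localGaloisToGlobal q τ *
          (u * g * localGaloisToGlobal q θ)⁻¹
      simp only [map_mul, map_inv]
      group
    have hp : ∀ m : gModOn U,
        conjPush124 q U g u θ (locPush q g U ((gModOn U).ρ uU⁻¹ m)) =
          locPush q (u * g * localGaloisToGlobal q θ) U m := by
      intro m
      apply Additive.toMul.injective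
      apply Units.ext
      show θ⁻¹ (padicEmbedding q (g⁻¹ ((u⁻¹ : GQ) ((Additive.toMul m : Qbˣ) : Qb)))) =
        padicEmbedding q ((u * g * localGaloisToGlobal q θ)⁻¹ ((Additive.toMul m : Qbˣ) : Qb))
      rw [← padicEmbedding_localGaloisToGlobal, map_inv]
      congr 1
    show locPush q (u * g * localGaloisToGlobal q θ) U
        (c (locHom q (u * g * localGaloisToGlobal q θ) U τ₁,
          locHom q (u * g * localGaloisToGlobal q θ) U τ₂)) =
      conjPush124 q U g u θ (locPush q g U ((gModOn U).ρ uU⁻¹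
        (c (uU * locHom q g U (conjHom124 q U g u θ hu τ₁) * uU⁻¹,
          uU * locHom q g U (conjHom124 q U g u θ hu τ₂) * uU⁻¹))))
    rw [hh, hh, hp]
  rw [key, hconj, map_add, ← hbc]
  have e1 : locCochain₂ q g U ((d₁₂ (gModOn U)).hom β) =
      (d₁₂ (lModOn q (locSub q g U))).hom (locCochain₁ q g U β) :=
    cochainsPullPush₂_d₁₂ (locHom q g U) (locPush q g U) (locPush_equivariant q g U) β
  rw [e1, ← map_add, cochainsPullPush₂_d₁₂ (conjHom124 q U g u θ hu) (conjPush124 q U g u θ)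
    (conjPush124_equivariant q U g u θ hu)]
  refine (mem_levelCoboundaries₂_iff _ _ _).2 ⟨_, ?_, rfl⟩
  have hB : IsLevelConstant₁ (lHom q (locSub q g U)) (b + locCochain₁ q g U β) :=
    hb.add ((isLevelConstant₁_loc q g U hβl).comp (locPush q g U) :)
  exact ((isLevelConstant₁_conj124 q U g u θ hu hB).comp (conjPush124 q U g u θ) :)

/-- **The vanishing of a localised class depends only on the place.** -/
theorem locBr_conj_eq_zero124 (θ : Gq) (hu : u ∈ U) (z : gBr U) (h : locBr q g U z = 0) :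
    locBr q (u * g * localGaloisToGlobal q θ) U z = 0 := by
  obtain ⟨c, rfl⟩ := Submodule.mkQ_surjective _ z
  change locBr q g U (continuousH2π U.subtype (gModOn U) c) = 0 at h
  change locBr q (u * g * localGaloisToGlobal q θ) U (continuousH2π U.subtype (gModOn U) c) = 0
  rw [locBr_mk, continuousH2π_eq_zero_iff] at h ⊢
  exact locCochain₂_conj_mem124 q U g u θ hu c c.2 h

/-- If a class vanishes at a system of representatives of the places above `q`, it vanishes at
all places above `q`. -/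
theorem locBr_eq_zero_of_reps124 (R : Finset GQ)
    (hR : IsDoubleCosetReps U (localGaloisToGlobal q).range R) (z : gBr U)
    (h : ∀ r ∈ R, locBr q r U z = 0) (g : GQ) : locBr q g U z = 0 := by
  obtain ⟨r, ⟨hr, u, hu, d, ⟨θ, rfl⟩, rfl⟩, -⟩ := hR g
  exact locBr_conj_eq_zero124 q U r u θ hu z (h r hr)

end Local

end Fermat.Agent.S55.G.Rec.H124

end
end
-- ===== PACK-END S55/G/Rec/H124/Conj.lean

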