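import Mathlib
import Fermat.Prelude.Def_ExtCitation_KummerBridge
import Fermat.Agent.Pack.S43GC.G0E5L1
import Fermat.Agent.Pack.S43GC.G0E7L3
import Fermat.Agent.Pack.S43GC.G0E3L0
import Fermat.Agent.Pack.S43GC.G0E0L3
import Fermat.Agent.Pack.S43GC.G0E7L2
import Fermat.Agent.Pack.S43GC.G0E5L2
import Fermat.Agent.Pack.S43GC.G0E8L0
import Fermat.Agent.Pack.S43GC.G0E8L1
import Fermat.Agent.Pack.S43GC.G0E0L0
import Fermat.Agent.Pack.S43GC.G0E5L0
import Fermat.Agent.Pack.S44C.G0E12L3
import Fermat.Agent.Pack.S43GC.G0E6L1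
import Fermat.Agent.Pack.S43GC.G0E8L3
import Fermat.Agent.Pack.S43GC.G0E6L3
import Fermat.Agent.Pack.S43GC.G0E8L2
import Fermat.Agent.Pack.S43GC.G0E3L1
import Fermat.Agent.Pack.S43GC.G0E7L0
import Fermat.Agent.Pack.Fast891

-- ===== PACK-BEGIN S55/Local/H775/InertiaCore.lean
section




/-!
# S55 layer L, piece UR6 (helper775): the inertia group and its order

* `card_inertia_inf_eq` (abstract): for a discrete valuation ring `S`, finite over `A`, with finite
  residue field and a finite group `G` of `A`-automorphisms of `S`, and a subgroup `H` of `G`,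
  the order of `inertia ⊓ H` is the ramification index of `S` over the ring of invariants `S^H`
  (Mathlib `Ideal.card_inertia_eq_ramificationIdxIn`).
* `exists_inertia_ord`: for `N / K` finite Galois of local fields there is a normal subgroup `I`
  of `Gal(N/K)` such that for every subgroup `H`, the orders (w.r.t. a uniformizer of `N`) of the
  `H`-invariant elements of `Nˣ` are exactly the multiples of `|I ⊓ H|`.
-/

set_option autoImplicit false
set_option linter.unusedSectionVars false
set_option linter.style.haveILetI false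

namespace Fermat.Agent.S55.Local.H775

open Fermat.Agent.S55.Local IsLocalRing Ideal

section Abstract

/-- The ring of invariants of a group of automorphisms of a valuation ring is a valuation ring. -/
lemma valuationRing_fixedPoints (A : Type*) {S G : Type*} [CommRing A] [CommRing S] [Algebra A S]
    [IsDomain S] [ValuationRing S] [Group G] [MulSemiringAction G S] [SMulCommClass G A S]
    (H : Subgroup G) :
    ValuationRing (FixedPoints.subalgebra A S H) := by
  rw [ValuationRing.iff_dvd_total]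
  refine ⟨fun a b => ?_⟩
  have key : ∀ a b : FixedPoints.subalgebra A S H, (a : S) ∣ (b : S) → a ∣ b := by
    intro a b hab
    obtain ⟨c, hc⟩ := hab
    by_cases ha : (a : S) = 0
    · have hb : (b : S) = 0 := by rw [hc, ha, zero_mul]
      exact ⟨0, Subtype.ext (by simp [hb])⟩
    · refine ⟨⟨c, fun h => ?_⟩, Subtype.ext hc⟩
      have h1 : h • (b : S) = (b : S) := b.2 h
      have h2 : h • (a : S) = (a : S) := a.2 h
      have h3 : (a : S) * (h • c) = (a : S) * c := by
        rw [← hc, ← h1, hc, smul_mul', h2]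
      exact mul_left_cancel₀ ha h3
  rcases ValuationRing.dvd_total (a : S) (b : S) with h | h
  · exact Or.inl (key a b h)
  · exact Or.inr (key b a h)

theorem card_inertia_inf_eq (A : Type*) {S G : Type*} [CommRing A] [CommRing S] [Algebra A S]
    [IsDomain S] [IsDiscreteValuationRing S] [Module.Finite A S]
    [Finite (IsLocalRing.ResidueField S)]
    [Group G] [Finite G] [MulSemiringAction G S] [FaithfulSMul G S] [SMulCommClass G A S]
    (H : Subgroup G) (n : ℕ)
    (hle : ∀ r : S, (∀ h ∈ H, h • r = r) → r ∈ maximalIdeal S → r ∈ maximalIdeal S ^ n)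
    (hnle : ∃ r : S, (∀ h ∈ H, h • r = r) ∧ r ∈ maximalIdeal S ∧ r ∉ maximalIdeal S ^ (n + 1)) :
    Nat.card ↥((maximalIdeal S).inertia G ⊓ H) = n := by
  -- the fixed ring
  let R := FixedPoints.subalgebra A S H
  haveI hGal : IsGaloisGroup H R S :=
    { faithful := inferInstance
      commutes := inferInstance
      isInvariant := ⟨fun x h => ⟨⟨x, h⟩, rfl⟩⟩ }
  haveI : ValuationRing R := valuationRing_fixedPoints A H
  haveI : Module.Finite R S := Module.Finite.of_restrictScalars_finite A R S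
  haveI : Module.Flat R S := by
    rw [Module.Flat.flat_iff_torsion_eq_bot_of_isBezout,
      ← Submodule.isTorsionFree_iff_torsion_eq_bot]
    infer_instance
  set P : Ideal S := maximalIdeal S with hP
  set p : Ideal R := P.under R with hp
  haveI : P.LiesOver p := Ideal.over_under P
  haveI : P.IsMaximal := maximalIdeal.isMaximal S
  haveI : Algebra.IsIntegral R S := Algebra.IsIntegral.of_finite R S
  haveI : p.IsMaximal := Ideal.isMaximal_comap_of_isIntegral_of_isMaximal P
  haveI : Finite (S ⧸ P) := ‹Finite (IsLocalRing.ResidueField S)›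
  haveI : Finite (R ⧸ p) :=
    Finite.of_injective (algebraMap (R ⧸ p) (S ⧸ P))
      (FaithfulSMul.algebraMap_injective (R ⧸ p) (S ⧸ P))
  haveI : PerfectField p.ResidueField := PerfectField.ofFinite
  have h1 : Nat.card (P.inertia H) = p.ramificationIdxIn S :=
    Ideal.card_inertia_eq_ramificationIdxIn p P
  have h2 : p.ramificationIdxIn S = P.ramificationIdx R :=
    Ideal.ramificationIdxIn_eq_ramificationIdx p P H
  obtain ⟨r₀, hr₀fix, hr₀P, hr₀n⟩ := hnle
  have hr₀p : (⟨r₀, fun h => hr₀fix h.1 h.2⟩ : R) ∈ p := hr₀P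
  have hr₀0 : r₀ ≠ 0 := by
    rintro rfl
    exact hr₀n (Ideal.zero_mem _)
  have hpS : Ideal.map (algebraMap R S) p ≠ ⊥ := by
    intro hbot
    have : algebraMap R S ⟨r₀, fun h => hr₀fix h.1 h.2⟩ ∈ Ideal.map (algebraMap R S) p :=
      Ideal.mem_map_of_mem _ hr₀p
    rw [hbot, Ideal.mem_bot] at this
    exact hr₀0 this
  have h3 : p.ramificationIdx' P = P.ramificationIdx R :=
    Ideal.ramificationIdx'_eq_ramificationIdx' p P hpS
  have h4 : p.ramificationIdx' P = n := by
    refine Ideal.ramificationIdx'_spec ?_ ?_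
    · rw [Ideal.map_le_iff_le_comap]
      intro r hr
      exact hle (r : S) (fun h hh => r.2 ⟨h, hh⟩) hr
    · intro hcon
      exact hr₀n (hcon (Ideal.mem_map_of_mem _ hr₀p))
  have h5 : Nat.card ↥(P.inertia G ⊓ H) = Nat.card (P.inertia H) := by
    rw [← Nat.card_congr (Subgroup.subgroupOfEquivOfLe
      (inf_le_right : P.inertia G ⊓ H ≤ H)).toEquiv, Subgroup.inf_subgroupOf_right]
    rfl
  rw [h5, h1, h2, ← h3, h4]

end Abstract

section Concrete

variable (A F : Type) [CommRing A] [IsDomain A] [IsDiscreteValuationRing A]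
  [IsAdicComplete (IsLocalRing.maximalIdeal A) A] [Finite (IsLocalRing.ResidueField A)]
  [Field F] [CharZero F] [Algebra A F] [IsFractionRing A F]
  (K : Type) [Field K] [Algebra F K] [FiniteDimensional F K]
  (N : Type) [Field N] [Algebra F N] [Algebra K N] [IsScalarTower F K N]
  [FiniteDimensional K N] [IsGalois K N]

/-- The Galois action commutes with the `A`-module structure of `N`. -/
lemma smulCommClass_gal :
    letI : Algebra A N := H715.algAL A F N
    SMulCommClass (N ≃ₐ[K] N) A N := by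
  letI : Algebra A N := H715.algAL A F N
  refine ⟨fun σ a x => ?_⟩
  rw [Algebra.smul_def, Algebra.smul_def, AlgEquiv.smul_def, AlgEquiv.smul_def, map_mul]
  congr 1
  show σ (toL A F N a) = toL A F N a
  rw [H608.toL_eq_algebraMap_toL A F N K a, σ.commutes]

variable {A F N} in
/-- The order (w.r.t. a uniformizer `ϖ`) of a nonzero element of the maximal ideal is positive,
and membership in powers of the maximal ideal is read off from the order. -/
lemma mem_maximalIdeal_pow_iff
    [Algebra A N] [IsScalarTower A F N] [FiniteDimensional F N]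
    [IsLocalRing (integralClosure A N)]
    {ϖ : Nˣ} (hϖ : IsUnif A F N ϖ) (s : integralClosure A N) (y : Nˣ) (hy : (y : N) = (s : N))
    (n : ℕ) :
    s ∈ maximalIdeal (integralClosure A N) ^ (n + 1) ↔ (n : ℤ) + 1 ≤ ord A F N ϖ y := by
  have hϖint : (ϖ : N) ∈ integralClosure A N := (H715.isInt_iff_mem A F N _).mp hϖ.1
  set ϖS : integralClosure A N := ⟨ϖ, hϖint⟩ with hϖS
  -- divisibility by powers of `ϖS`
  have hdvd : ∀ (t : integralClosure A N) (z : Nˣ), (z : N) = (t : N) → ∀ m : ℕ,
      (ϖS ^ m ∣ t ↔ (m : ℤ) ≤ ord A F N ϖ z) := by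
    intro t z hz m
    rw [← isInt_div_pow_iff hϖ, H715.isInt_iff_mem A F N]
    constructor
    · rintro ⟨c, hc⟩
      have : (z : N) / (ϖ : N) ^ m = (c : N) := by
        rw [hz, hc]
        simp only [hϖS, Subalgebra.coe_mul, Subalgebra.coe_pow]
        field_simp
      rw [this]
      exact c.2
    · intro hmem
      refine ⟨⟨_, hmem⟩, Subtype.ext ?_⟩
      simp only [hϖS, Subalgebra.coe_mul, Subalgebra.coe_pow]
      rw [← hz]
      field_simp
  -- the maximal ideal is generated by `ϖS`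
  have hmax : maximalIdeal (integralClosure A N) = Ideal.span {ϖS} := by
    apply le_antisymm
    · intro t ht
      rw [Ideal.mem_span_singleton]
      by_cases ht0 : t = 0
      · rw [ht0]; exact dvd_zero _
      have ht0' : (t : N) ≠ 0 := fun h => ht0 (Subtype.ext h)
      have h1 := (hdvd t (Units.mk0 (t : N) ht0') rfl 1)
      rw [pow_one] at h1
      rw [h1]
      have h0 : 0 ≤ ord A F N ϖ (Units.mk0 (t : N) ht0') :=
        (isInt_iff_ord_nonneg hϖ _).mp ((H715.isInt_iff_mem A F N _).mpr t.2)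
      rcases h0.lt_or_eq with h | h
      · exact_mod_cast h
      · exfalso
        have hu := (ord_eq_zero_iff hϖ).mp h.symm
        rw [mem_maximalIdeal, mem_nonunits_iff] at ht
        apply ht
        have hinv : ((Units.mk0 (t : N) ht0')⁻¹ : Nˣ).1 ∈ integralClosure A N :=
          (H715.isInt_iff_mem A F N _).mp ((mem_intUnits A F N).mp hu).2
        refine isUnit_iff_exists_inv.mpr ⟨⟨_, hinv⟩, Subtype.ext ?_⟩
        simp only [Subalgebra.coe_mul, Units.val_inv_eq_inv_val, Units.val_mk0,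
          Subalgebra.coe_one]
        exact mul_inv_cancel₀ ht0'
    · rw [Ideal.span_le, Set.singleton_subset_iff, SetLike.mem_coe, mem_maximalIdeal,
        mem_nonunits_iff]
      intro hu
      apply hϖ.2.1
      rw [mem_intUnits]
      refine ⟨hϖ.1, ?_⟩
      obtain ⟨c, hc⟩ := isUnit_iff_exists_inv.mp hu
      have hc' : (ϖ : N) * (c : N) = 1 := by
        have := congrArg (fun t : integralClosure A N => (t : N)) hc
        simpa [hϖS] using this
      have : ((ϖ⁻¹ : Nˣ) : N) = (c : N) := by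
        rw [Units.val_inv_eq_inv_val]
        exact inv_eq_of_mul_eq_one_right hc'
      rw [this]
      exact (H715.isInt_iff_mem A F N _).mpr c.2
  rw [hmax, Ideal.span_singleton_pow, Ideal.mem_span_singleton, hdvd s y hy (n + 1)]
  push_cast
  rfl

/-- **Key theorem.**  There is a normal subgroup `I` of `Gal(N/K)` (the inertia group) such that
for every subgroup `H`: if `d > 0` is the least positive order of an `H`-invariant element of
`Nˣ`, then `|I ⊓ H| = d`. -/
theorem exists_inertia_ord {ϖ : Nˣ} (hϖ : IsUnif A F N ϖ) :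
    ∃ I : Subgroup (N ≃ₐ[K] N), I.Normal ∧ ∀ (H : Subgroup (N ≃ₐ[K] N)) (d : ℕ),
      (∀ y : Nˣ, (∀ σ ∈ H, σ • y = y) → 0 < ord A F N ϖ y → (d : ℤ) ≤ ord A F N ϖ y) →
      (∃ y : Nˣ, (∀ σ ∈ H, σ • y = y) ∧ ord A F N ϖ y = d) → 0 < d →
      Nat.card ↥(I ⊓ H) = d := by
  letI : Algebra A N := H715.algAL A F N
  haveI : IsScalarTower A F N := H715.isScalarTower_algAL A F N
  haveI : FiniteDimensional F N := FiniteDimensional.trans F K N
  haveI : SMulCommClass (N ≃ₐ[K] N) A N := smulCommClass_gal A F K N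
  haveI := H715.isDiscreteValuationRing_OL A F N
  haveI := H715.finite_OL A F N
  haveI : Finite (ResidueField (integralClosure A N)) := H715.finite_residueField_OL A F N
  haveI := H715.isFractionRing_OL A F N
  haveI : FaithfulSMul (N ≃ₐ[K] N) (integralClosure A N) := by
    refine ⟨fun {σ τ} h => ?_⟩
    apply AlgEquiv.ext
    intro x
    obtain ⟨a, b, hb, rfl⟩ := IsFractionRing.div_surjective (A := integralClosure A N) x
    have ha' : σ (a : N) = τ (a : N) := congrArg (fun t : integralClosure A N => (t : N)) (h a)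
    have hb' : σ (b : N) = τ (b : N) := congrArg (fun t : integralClosure A N => (t : N)) (h b)
    have e1 : algebraMap (integralClosure A N) N a = (a : N) := rfl
    have e2 : algebraMap (integralClosure A N) N b = (b : N) := rfl
    rw [e1, e2, map_div₀, map_div₀, ha', hb']
  refine ⟨(maximalIdeal (integralClosure A N)).inertia (N ≃ₐ[K] N), ?_, ?_⟩
  · -- normality
    refine ⟨fun σ hσ τ => ?_⟩
    intro x
    have h1 := hσ (τ⁻¹ • x)
    have h2 : τ • (σ • (τ⁻¹ • x) - τ⁻¹ • x) ∈
        (maximalIdeal (integralClosure A N)).toAddSubgroup := by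
      show τ • (σ • (τ⁻¹ • x) - τ⁻¹ • x) ∈ maximalIdeal (integralClosure A N)
      rw [mem_maximalIdeal, mem_nonunits_iff]
      intro hu
      have h1' : (σ • (τ⁻¹ • x) - τ⁻¹ • x) ∈ maximalIdeal (integralClosure A N) := h1
      rw [mem_maximalIdeal, mem_nonunits_iff] at h1'
      apply h1'
      have := hu.map (MulSemiringAction.toRingHom (N ≃ₐ[K] N) (integralClosure A N) τ⁻¹)
      simpa using this
    have e : τ • (σ • (τ⁻¹ • x) - τ⁻¹ • x) = (τ * σ * τ⁻¹) • x - x := by
      rw [smul_sub, smul_smul, smul_smul, smul_smul, mul_inv_cancel, one_smul]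
    rw [e] at h2
    exact h2
  · intro H d hmin hex hd
    obtain ⟨d', rfl⟩ : ∃ d', d = d' + 1 := ⟨d - 1, by omega⟩
    refine card_inertia_inf_eq A H (d' + 1) ?_ ?_
    · intro r hr hrP
      by_cases hr0 : r = 0
      · rw [hr0]; exact Ideal.zero_mem _
      have hr0' : (r : N) ≠ 0 := fun h => hr0 (Subtype.ext h)
      set y : Nˣ := Units.mk0 (r : N) hr0' with hy
      have hyfix : ∀ σ ∈ H, σ • y = y := by
        intro σ hσ
        apply Units.ext
        have := congrArg (fun t : integralClosure A N => (t : N)) (hr σ hσ)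
        simpa [hy, AlgEquiv.smul_units_def] using this
      have hpos : 0 < ord A F N ϖ y := by
        have h1 : r ∈ maximalIdeal (integralClosure A N) ^ (0 + 1) := by simpa using hrP
        have := (mem_maximalIdeal_pow_iff (F := F) hϖ r y rfl 0).mp h1
        omega
      have := hmin y hyfix hpos
      rw [mem_maximalIdeal_pow_iff (F := F) hϖ r y rfl d']
      push_cast at this
      exact this
    · obtain ⟨y, hyfix, hyd⟩ := hex
      have hyint : (y : N) ∈ integralClosure A N := by
        rw [← H715.isInt_iff_mem A F N, isInt_iff_ord_nonneg hϖ, hyd]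
        positivity
      refine ⟨⟨y, hyint⟩, ?_, ?_, ?_⟩
      · intro σ hσ
        apply Subtype.ext
        have := congrArg (fun t : Nˣ => (t : N)) (hyfix σ hσ)
        simpa [AlgEquiv.smul_units_def] using this
      · have : (⟨y, hyint⟩ : integralClosure A N) ∈
            maximalIdeal (integralClosure A N) ^ (0 + 1) := by
          rw [mem_maximalIdeal_pow_iff (F := F) hϖ _ y rfl 0, hyd]
          push_cast
          omega
        simpa using this
      · rw [mem_maximalIdeal_pow_iff (F := F) hϖ _ y rfl (d' + 1), hyd]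
        push_cast
        omega

end Concrete

end Fermat.Agent.S55.Local.H775

end
-- ===== PACK-END S55/Local/H775/InertiaCore.lean

-- ===== PACK-BEGIN S55/T/CoindCohTrivH572.lean
section



/-!
# S55 layer T, leaf T4b: `CoindCohTrivSpec` (helper572)

Modules coinduced from the trivial subgroup are cohomologically trivial.
Proof: `res_H (coind_1^G B) ≅ coind_1^H (Fun(G ⧸ H, B))` (`H572.resCoindBotIso`) and the vanishing
of Tate cohomology of `coind_1` in all degrees (`H572.isZero_tateCohomology_coind_bot`).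
-/

set_option autoImplicit false

open CategoryTheory

namespace Fermat.Agent.S55.T.H572

/-- **T4b.** Coinduced-from-trivial modules are cohomologically trivial. -/
theorem coindCohTriv : CoindCohTrivSpec := by
  intro k G _ _ _ B H _ n
  exact Fermat.Agent.S55.H572.isZero_tateCohomology_res_coind_bot H B n

/-- Variant for `coind₁ A = Fun(G, A)`, `A : Rep k G`. -/
theorem isCohTriv_coind₁ {k G : Type} [CommRing k] [Group G] [Finite G] (A : Rep.{0} k G) :
    IsCohTriv (Fermat.Agent.S55.H572.coind₁ A) :=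
  coindCohTriv k G _

end Fermat.Agent.S55.T.H572

end
-- ===== PACK-END S55/T/CoindCohTrivH572.lean

-- ===== PACK-BEGIN S55/T/NakBasicH719.lean
section




/-!
# S55, layer T, leaf T6a (Nakayama) — basic facts on cohomological triviality (helper719)

* `isCohTriv_of_iso` : cohomological triviality is invariant under isomorphisms;
* `isCohTriv_X₁/X₂/X₃` : two-out-of-three in short exact sequences;
* `exists_shift_one` : dimension shifting of Tate cohomology to degree `1`, for all subgroups
  simultaneously;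
* `isZero_H1_iff` : concrete description of `H¹ = 0`;
* `card_nsmul_tate_eq_zero` : `|H|` kills `Ĥⁿ(H, A)` for every `n : ℤ`.
-/

set_option autoImplicit false
set_option linter.style.haveILetI false

open CategoryTheory Limits groupCohomology Rep

namespace Fermat.Agent.S55.T.H719

open Fermat.Agent.S55.H572

noncomputable section

variable {k G : Type} [CommRing k] [Group G]

/-! ## Invariance under isomorphism -/

theorem isZero_tate_of_iso [Fintype G] {A B : Rep.{0} k G} (e : A ≅ B) (n : ℤ)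
    (h : IsZero (tateCohomology A n)) : IsZero (tateCohomology B n) :=
  IsZero.of_iso h ((tateCohomologyFunctor n).mapIso e.symm)

theorem isCohTriv_of_iso [Finite G] {A B : Rep.{0} k G} (e : A ≅ B) (h : IsCohTriv A) :
    IsCohTriv B := by
  intro H _ n
  exact IsZero.of_iso (h H n)
    ((tateCohomologyFunctor n).mapIso ((resFunctor H.subtype).mapIso e.symm))

/-! ## Two out of three -/

section TwoOfThree

variable [Fintype G] {S : ShortComplex (Rep.{0} k G)} (hS : S.ShortExact)

include hS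

theorem isZero_tate_X₂ (n : ℤ) (h₁ : IsZero (tateCohomology S.X₁ n))
    (h₃ : IsZero (tateCohomology S.X₃ n)) : IsZero (tateCohomology S.X₂ n) :=
  ((TateCohomology.map_tateComplexFunctor_shortExact hS).homology_exact₂ n).isZero_of_both_isZero
    h₁ h₃

theorem isZero_tate_X₃ (n : ℤ) (h₂ : IsZero (tateCohomology S.X₂ n))
    (h₁ : IsZero (tateCohomology S.X₁ (n + 1))) : IsZero (tateCohomology S.X₃ n) :=
  (TateCohomology.exact₃ hS n).isZero_of_both_isZero h₂ h₁

theorem isZero_tate_X₁ (n : ℤ) (h₃ : IsZero (tateCohomology S.X₃ n))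
    (h₂ : IsZero (tateCohomology S.X₂ (n + 1))) : IsZero (tateCohomology S.X₁ (n + 1)) :=
  (TateCohomology.exact₁ hS n).isZero_of_both_isZero h₃ h₂

end TwoOfThree

section TwoOfThreeCT

variable [Finite G] {S : ShortComplex (Rep.{0} k G)} (hS : S.ShortExact)

include hS

theorem isCohTriv_X₂ (h₁ : IsCohTriv S.X₁) (h₃ : IsCohTriv S.X₃) : IsCohTriv S.X₂ := by
  intro H _ n
  exact isZero_tate_X₂ ((Rep.shortExact_res H.subtype).2 hS) n (h₁ H n) (h₃ H n)

theorem isCohTriv_X₃ (h₁ : IsCohTriv S.X₁) (h₂ : IsCohTriv S.X₂) : IsCohTriv S.X₃ := by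
  intro H _ n
  exact isZero_tate_X₃ ((Rep.shortExact_res H.subtype).2 hS) n (h₂ H n) (h₁ H (n + 1))

theorem isCohTriv_X₁ (h₂ : IsCohTriv S.X₂) (h₃ : IsCohTriv S.X₃) : IsCohTriv S.X₁ := by
  intro H _ n
  have := isZero_tate_X₁ ((Rep.shortExact_res H.subtype).2 hS) (n - 1) (h₃ H (n - 1))
    (by rw [sub_add_cancel]; exact h₂ H n)
  rwa [sub_add_cancel] at this

end TwoOfThreeCT

/-! ## Dimension shifting to degree `1` -/

/-- Dimension shifting: for every `n : ℤ` there is `A'` such that `Ĥⁿ(H, A) ≅ Ĥ¹(H, A')` for all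
subgroups `H` simultaneously. -/
theorem exists_shift_one [Finite G] (n : ℤ) (A : Rep.{0} k G) :
    ∃ A' : Rep.{0} k G, ∀ (H : Subgroup G) [Fintype H],
      Nonempty (tateCohomology (res H.subtype A) n ≅ tateCohomology (res H.subtype A') 1) := by
  letI : Fintype G := Fintype.ofFinite G
  revert A
  induction n using Int.inductionOn' (b := 1) with
  | zero => exact fun A => ⟨A, fun H _ => ⟨Iso.refl _⟩⟩
  | succ k _ ih =>
    intro A
    obtain ⟨A', hA'⟩ := ih (up A)
    refine ⟨A', fun H _ => ?_⟩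
    obtain ⟨e⟩ := hA' H
    exact ⟨(tateUpIso H A k).symm ≪≫ e⟩
  | pred k _ ih =>
    intro A
    obtain ⟨A', hA'⟩ := ih (down A)
    refine ⟨A', fun H _ => ?_⟩
    obtain ⟨e⟩ := hA' H
    have e1 := tateDownIso H A (k - 1)
    rw [sub_add_cancel] at e1
    exact ⟨e1 ≪≫ e⟩

/-! ## Concrete description of `H¹ = 0` -/

/-- Every `1`-cocycle is a coboundary (concrete form of `H¹(K, B) = 0`). -/
def H1Triv {K : Type} [Group K] (B : Rep.{0} k K) : Prop :=
  ∀ c : K → B.V, (∀ g h : K, c (g * h) = B.ρ g (c h) + c g) →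
    ∃ y : B.V, ∀ g : K, c g = B.ρ g y - y

theorem isZero_H1_iff {K : Type} [Group K] (B : Rep.{0} k K) :
    IsZero (groupCohomology B 1) ↔ H1Triv B := by
  constructor
  · intro h c hc
    have hmem : c ∈ cocycles₁ B := (mem_cocycles₁_iff c).2 hc
    have h0 : H1π B ⟨c, hmem⟩ = 0 := (ModuleCat.isZero_iff_subsingleton.1 h).elim _ _
    rw [H1π_eq_zero_iff] at h0
    obtain ⟨y, hy⟩ := h0
    refine ⟨y, fun g => ?_⟩
    have := congrFun hy g
    simpa [d₀₁_hom_apply] using this.symm
  · intro h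
    rw [ModuleCat.isZero_iff_subsingleton]
    refine ⟨fun x y => ?_⟩
    suffices ∀ z : H1 B, z = 0 by rw [this x, this y]
    intro z
    induction z using H1_induction_on with
    | h c =>
      rw [H1π_eq_zero_iff]
      obtain ⟨y, hy⟩ := h c (fun g h => (mem_cocycles₁_iff (c : K → B.V)).1 c.2 g h)
      refine ⟨y, funext fun g => ?_⟩
      rw [d₀₁_hom_apply]
      exact (hy g).symm

theorem isZero_tate_one_iff {K : Type} [Group K] [Fintype K] (B : Rep.{0} k K) :
    IsZero (tateCohomology B 1) ↔ H1Triv B := by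
  rw [← isZero_H1_iff]
  exact ⟨fun h => IsZero.of_iso h ((TateCohomology.isoGroupCohomology 1).app B).symm,
    fun h => IsZero.of_iso h ((TateCohomology.isoGroupCohomology 1).app B)⟩

/-! ## `|H|` kills Tate cohomology -/

theorem card_nsmul_tate_one_eq_zero {K : Type} [Group K] [Fintype K] (B : Rep.{0} k K)
    (x : tateCohomology B 1) : Nat.card K • x = 0 := by
  let e := (TateCohomology.isoGroupCohomology 1).app B
  have h1 : e.hom.hom (Nat.card K • x) = 0 := by
    rw [map_nsmul]
    exact Fermat.Agent.S55.H119.card_nsmul_eq_zero_one B _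
  have h2 : e.inv.hom (e.hom.hom (Nat.card K • x)) = Nat.card K • x := by
    simp
  rw [← h2, h1, map_zero]

theorem card_nsmul_tate_eq_zero [Finite G] (A : Rep.{0} k G) (H : Subgroup G) [Fintype H]
    (n : ℤ) (x : tateCohomology (res H.subtype A) n) : Nat.card H • x = 0 := by
  obtain ⟨A', hA'⟩ := exists_shift_one n A
  obtain ⟨e⟩ := hA' H
  have h1 : e.hom.hom (Nat.card H • x) = 0 := by
    rw [map_nsmul]
    exact card_nsmul_tate_one_eq_zero _ _
  have h2 : e.inv.hom (e.hom.hom (Nat.card H • x)) = Nat.card H • x := by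
    simp
  rw [← h2, h1, map_zero]

end

end Fermat.Agent.S55.T.H719

end
-- ===== PACK-END S55/T/NakBasicH719.lean

-- ===== PACK-BEGIN S55/LocalSpec/H964/Clause3.lean
section




/-!
# S55, `Tow.LocalSpec` (helper964): clause 3 (LDIV)

Every element of `F_qˣ` becomes a `p`-th power in `F'_qˣ` for some finite Galois `F' ⊇ F`
(a level for a bigger finite set of primes): take a `p`-th root in `ℚ̄_q`, cover the finite
extension it generates by a global level (Krasner, B-layer), enlarge to a Galois level.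
-/

set_option autoImplicit false
set_option linter.style.haveILetI false

open CategoryTheory

namespace Fermat.Agent.S55.LocalSpec.H964

open Fermat.Agent.S55 Fermat.Agent.S55.Tow

/-- Clause 3 of `Tow.LocalSpec` (LDIV). -/
theorem exists_root_in_tower (p : ℕ) (hp : p ≠ 0) (S' : Finset Nat.Primes) (Lv : Level S')
    (q : Nat.Primes) (x : (Lv.locUnits q).V) :
    ∃ (S'' : Finset Nat.Primes) (hS : S' ⊆ S'') (Lv' : Level S'')
      (h : Level.ofLE hS Lv ≤ Lv') (y : (Lv'.locUnits q).V),
      p • y = (Level.trLoc h q).hom x := by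
  letI : Fact (q : ℕ).Prime := ⟨q.2⟩
  -- the underlying element and a `p`-th root
  set a : (PadicAlgCl (q : ℕ))ˣ := Additive.toMul (Lv.locCoe q x) with ha
  obtain ⟨b₀, hb₀⟩ := IsAlgClosed.exists_pow_nat_eq (a : PadicAlgCl (q : ℕ))
    (Nat.pos_of_ne_zero hp)
  have hb₀ne : b₀ ≠ 0 := by
    rintro rfl
    rw [zero_pow hp] at hb₀
    exact a.ne_zero hb₀.symm
  set b : (PadicAlgCl (q : ℕ))ˣ := Units.mk0 b₀ hb₀ne with hb
  have hbp : b ^ p = a := by
    apply Units.ext
    rw [Units.val_pow_eq_pow_val]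
    exact hb₀
  -- the finite extension generated by the root, covered by a global level
  haveI : Algebra.IsAlgebraic ℚ_[(q : ℕ)] (PadicAlgCl (q : ℕ)) :=
    AlgebraicClosure.isAlgebraic ℚ_[(q : ℕ)]
  haveI : FiniteDimensional ℚ_[(q : ℕ)] (IntermediateField.adjoin ℚ_[(q : ℕ)] {b₀}) :=
    IntermediateField.adjoin.finiteDimensional (Algebra.IsIntegral.isIntegral b₀)
  obtain ⟨F₁, hF₁, hcover⟩ := Bridge.exists_global_level_of_local (q : ℕ)
    (IntermediateField.adjoin ℚ_[(q : ℕ)] {b₀})
  haveI := hF₁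
  haveI : FiniteDimensional ℚ Lv.F := Lv.unram.1
  have hF₂ : FiniteDimensional ℚ (Lv.F ⊔ F₁ : IntermediateField ℚ Qbar) :=
    IntermediateField.finiteDimensional_sup Lv.F F₁
  obtain ⟨T, L', hST, hunr, hgal, hle⟩ :=
    Bridge.exists_galois_ge_isUnramifiedOutside S' (Lv.F ⊔ F₁) hF₂
  have hnormal : (L'.fixingSubgroup).Normal := by
    haveI := Bridge.isGalois_Qbar
    exact (InfiniteGalois.normal_iff_isGalois L').mpr hgal
  let Lv' : Level T := ⟨L', hunr, hnormal⟩
  have h : Level.ofLE hST Lv ≤ Lv' := le_sup_left.trans hle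
  -- the root lies in `F'_q`
  have hfix : ∀ g ∈ Lv'.V q, (unitsQpbar q).ρ g (Additive.ofMul b) = Additive.ofMul b := by
    intro g hg
    have hg1 : locQ q g ∈ L'.fixingSubgroup := hg
    have hg2 : locQ q g ∈ F₁.fixingSubgroup :=
      IntermediateField.fixingSubgroup_antitone (le_sup_right.trans hle) hg1
    have hg3 := hcover g hg2
    have hg4 : (show PadicAlgCl (q : ℕ) ≃ₐ[ℚ_[(q : ℕ)]] PadicAlgCl (q : ℕ) from g) b₀ = b₀ :=
      (IntermediateField.mem_fixingSubgroup_iff _ _).1 hg3 b₀
        (IntermediateField.subset_adjoin _ _ (Set.mem_singleton b₀))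
    apply Additive.toMul.injective
    apply Units.ext
    exact hg4
  refine ⟨T, hST, Lv', h, Lv'.locMk q (Additive.ofMul b) hfix, ?_⟩
  apply Lv'.locCoe_injective q
  rw [map_nsmul, Level.locCoe_mk]
  show p • Additive.ofMul b = Lv.locCoe q x
  rw [← ofMul_pow, hbp, ha, ofMul_toMul]

end Fermat.Agent.S55.LocalSpec.H964

end
-- ===== PACK-END S55/LocalSpec/H964/Clause3.lean

-- ===== PACK-BEGIN S55/E1/H603/FinLevelH1.lean
section
/-
S55 / engine E1 / block LIM, leaf LIM4 (helper603): finite-level `Ш¹` versus the Prelude `sha₁`.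

For a level `F` (`L : Tow.Level S`) and `A : Rep K G_ℚ`:
* `coeff A L = A^{U_F}` as a `Gal(F/ℚ)`-module, `infl₁ A L : H¹(Gal(F/ℚ), A^{U_F}) → H¹(G_ℚ, A)`
  (Mathlib inflation, injective), `resDec₁`, `sha1Fin A L = ⋂_{q ∈ S} ker (res to D_q(F))`;
* `mem_sha1Fin_iff_infl₁_mem_sha₁` : if `U_F` acts trivially on `A`, then
  `x ∈ Ш¹_F ↔ infl x ∈ sha₁ S A`;
* `mem_range_infl₁_iff`, `range_infl₁_mono`, `exists_level_mem_range_infl₁`;
* `levelOfGalois`, `levelSup`, `levelBot`, `IsDirected (Level S) (· ≤ ·)`;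
* **LIM4** `exists_level_forall_shaInfl_bijective`, `exists_level_forall_card_sha1Fin_eq`.

Mathlib + Prelude + `Spec/Tower.lean` + `Bridge/Cochain.lean` (all on main).  No sorry.
-/



set_option autoImplicit false

namespace Fermat.Agent.S55.E1.H603

open groupCohomology CategoryTheory ExtCitation Fermat.Agent.S55.Tow

noncomputable section

variable {S : Finset Nat.Primes} {K : Type} [Field K] (A : Rep.{0, 0, 0} K GQ)

/-- `A^{U_F}` as a `Gal(F/ℚ)`-module. -/
abbrev coeff (L : Level S) : Rep.{0, 0, 0} K L.Gal := A.quotientToInvariants L.U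

/-- the inclusion `A^{U_F} → A` as a morphism along `G_ℚ → Gal(F/ℚ)`. -/
def liftHom (L : Level S) : Rep.res (QuotientGroup.mk' L.U) (coeff A L) ⟶ A :=
  Rep.ofHom (A.ρ.quotientToInvariants_lift L.U)

/-- inflation `H¹(Gal(F/ℚ), A^{U_F}) → H¹(G_ℚ, A)`. -/
def infl₁ (L : Level S) : H1 (coeff A L) →ₗ[K] H1 A :=
  (groupCohomology.map (QuotientGroup.mk' L.U) (liftHom A L) 1).hom

theorem infl₁_injective (L : Level S) : Function.Injective (infl₁ A L) :=
  (ModuleCat.mono_iff_injective (H1InfRes A L.U).f).1 inferInstance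

/-- inflation of cocycles -/
def inflCoc (L : Level S) : cocycles₁ (coeff A L) →ₗ[K] cocycles₁ A :=
  (mapCocycles₁ (QuotientGroup.mk' L.U) (liftHom A L)).hom

@[simp] theorem inflCoc_apply (L : Level S) (c : cocycles₁ (coeff A L)) (g : GQ) :
    inflCoc A L c g = ((c (QuotientGroup.mk g) : coeff A L) : A) := rfl

theorem infl₁_mk (L : Level S) (c : cocycles₁ (coeff A L)) :
    infl₁ A L ((H1π (coeff A L)).hom c) = (H1π A).hom (inflCoc A L c) := by
  exact H1π_comp_map_apply (QuotientGroup.mk' L.U) (liftHom A L) c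

/-- restriction to the decomposition group at finite level. -/
def resDec₁ (L : Level S) (q : Nat.Primes) :
    H1 (coeff A L) →ₗ[K] H1 (Rep.res (L.decHom q) (coeff A L)) :=
  (groupCohomology.map (L.decHom q) (𝟙 (Rep.res (L.decHom q) (coeff A L))) 1).hom

theorem resDec₁_mk_eq_zero_iff (L : Level S) (q : Nat.Primes) (c : cocycles₁ (coeff A L)) :
    resDec₁ A L q ((H1π (coeff A L)).hom c) = 0 ↔
      ∃ a : coeff A L, ∀ h : L.Dec q,
        c (L.decHom q h) = (coeff A L).ρ (L.decHom q h) a - a := by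
  have hcomp : resDec₁ A L q ((H1π (coeff A L)).hom c) =
      (H1π (Rep.res (L.decHom q) (coeff A L))).hom
        ((mapCocycles₁ (L.decHom q) (𝟙 (Rep.res (L.decHom q) (coeff A L)))).hom c) :=
    H1π_comp_map_apply (L.decHom q) (𝟙 (Rep.res (L.decHom q) (coeff A L))) c
  rw [hcomp, H1π_eq_zero_iff]
  constructor
  · rintro ⟨a, ha⟩
    refine ⟨a, fun h => ?_⟩
    have := congrFun ha h
    rw [d₀₁_hom_apply] at this
    exact this.symm
  · rintro ⟨a, ha⟩
    refine ⟨a, ?_⟩
    funext h
    rw [d₀₁_hom_apply]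
    exact (ha h).symm

/-- the finite-level Sha1. -/
def sha1Fin (L : Level S) : Submodule K (H1 (coeff A L)) :=
  ⨅ q : S, LinearMap.ker (resDec₁ A L q.1)

theorem mem_sha1Fin_mk_iff (L : Level S) (c : cocycles₁ (coeff A L)) :
    (H1π (coeff A L)).hom c ∈ sha1Fin A L ↔
      ∀ q : S, ∃ a : coeff A L, ∀ h : L.Dec q.1,
        c (L.decHom q.1 h) = (coeff A L).ρ (L.decHom q.1 h) a - a := by
  simp only [sha1Fin, Submodule.mem_iInf, LinearMap.mem_ker]
  exact forall_congr' fun q => resDec₁_mk_eq_zero_iff A L q.1 c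

/-! ### Comparison with the Prelude `sha₁` -/

theorem decHom_mk (L : Level S) (q : Nat.Primes) (h : GQp q) :
    L.decHom q (QuotientGroup.mk h) = QuotientGroup.mk (locQ q h) := rfl

theorem coe_coeff_ρ_mk (L : Level S) (g : GQ) (a : coeff A L) :
    (((coeff A L).ρ (QuotientGroup.mk g) a : coeff A L) : A) = A.ρ g (a : A) := rfl

/-- Local coboundary condition for an inflated cocycle, in terms of the Prelude local group. -/
theorem locRes_infl₁_mk_eq_zero_iff (L : Level S) (q : Nat.Primes) (c : cocycles₁ (coeff A L)) :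
    (groupCohomology.map (locQ q) (𝟙 (Rep.res (locQ q) A)) 1).hom
        ((H1π A).hom (inflCoc A L c)) = 0 ↔
      ∃ a : A, ∀ h : GQp q, ((c (QuotientGroup.mk (locQ q h)) : coeff A L) : A)
        = A.ρ (locQ q h) a - a := by
  have hcomp : (groupCohomology.map (locQ q) (𝟙 (Rep.res (locQ q) A)) 1).hom
        ((H1π A).hom (inflCoc A L c)) =
      (H1π (Rep.res (locQ q) A)).hom
        ((mapCocycles₁ (locQ q) (𝟙 (Rep.res (locQ q) A))).hom (inflCoc A L c)) :=
    H1π_comp_map_apply (locQ q) (𝟙 (Rep.res (locQ q) A)) (inflCoc A L c)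
  rw [hcomp, H1π_eq_zero_iff]
  constructor
  · rintro ⟨a, ha⟩
    refine ⟨a, fun h => ?_⟩
    have := congrFun ha h
    rw [d₀₁_hom_apply] at this
    exact this.symm
  · rintro ⟨a, ha⟩
    refine ⟨a, ?_⟩
    funext h
    rw [d₀₁_hom_apply]
    exact (ha h).symm

theorem isLevelConstantS₁_inflCoc (L : Level S) (c : cocycles₁ (coeff A L)) :
    IsLevelConstantS₁ S (inflCoc A L c) := by
  refine ⟨L.F, L.unram, fun g s hs => ?_⟩
  have : (QuotientGroup.mk (g * s) : L.Gal) = QuotientGroup.mk g := by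
    rw [QuotientGroup.eq]
    simpa using (L.U).inv_mem hs
  rw [inflCoc_apply, inflCoc_apply, this]

theorem infl₁_mem_continuousH1S (L : Level S) (x : H1 (coeff A L)) :
    infl₁ A L x ∈ continuousH1S S A := by
  induction x using H1_induction_on with | @h c =>
  rw [infl₁_mk]
  exact (mem_continuousH1S_iff S A _).2 ⟨inflCoc A L c, isLevelConstantS₁_inflCoc A L c, rfl⟩

/-- Finite-level local triviality implies local triviality for the Prelude local groups. -/
theorem infl₁_mem_sha₁ (h2 : (2 : K) ≠ 0) (L : Level S) {x : H1 (coeff A L)}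
    (hx : x ∈ sha1Fin A L) : infl₁ A L x ∈ sha₁ S A := by
  rw [Fermat.Agent.S55.Bridge.mem_sha₁_iff S h2]
  refine ⟨infl₁_mem_continuousH1S A L x, fun q => ?_⟩
  induction x using H1_induction_on with | @h c =>
  rw [infl₁_mk, locRes_infl₁_mk_eq_zero_iff]
  obtain ⟨a, ha⟩ := (mem_sha1Fin_mk_iff A L c).1 hx q
  refine ⟨(a : A), fun h => ?_⟩
  have h1 := ha (QuotientGroup.mk h)
  rw [decHom_mk] at h1
  rw [h1]
  rfl

/-- Conversely, when `U_F` acts trivially on `A`. -/
theorem mem_sha1Fin_of_infl₁_mem_sha₁ (h2 : (2 : K) ≠ 0) (L : Level S)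
    (hA : ∀ s ∈ L.U, ∀ a : A, A.ρ s a = a) {x : H1 (coeff A L)}
    (hx : infl₁ A L x ∈ sha₁ S A) : x ∈ sha1Fin A L := by
  rw [Fermat.Agent.S55.Bridge.mem_sha₁_iff S h2] at hx
  obtain ⟨-, hloc⟩ := hx
  induction x using H1_induction_on with | @h c =>
  rw [mem_sha1Fin_mk_iff]
  intro q
  have hq := hloc q
  rw [infl₁_mk, locRes_infl₁_mk_eq_zero_iff] at hq
  obtain ⟨a, ha⟩ := hq
  refine ⟨⟨a, fun s => hA s.1 s.2 a⟩, fun h => ?_⟩
  induction h using QuotientGroup.induction_on with | @H h =>
  rw [decHom_mk]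
  apply Subtype.ext
  rw [ha h]
  rfl

theorem mem_sha1Fin_iff_infl₁_mem_sha₁ (h2 : (2 : K) ≠ 0) (L : Level S)
    (hA : ∀ s ∈ L.U, ∀ a : A, A.ρ s a = a) (x : H1 (coeff A L)) :
    x ∈ sha1Fin A L ↔ infl₁ A L x ∈ sha₁ S A :=
  ⟨infl₁_mem_sha₁ A h2 L, mem_sha1Fin_of_infl₁_mem_sha₁ A h2 L hA⟩

/-! ### The image of inflation -/

/-- A cocycle of `G_ℚ` which is constant modulo `U_F` descends to `Gal(F/ℚ)`. -/
theorem exists_inflCoc_eq (L : Level S) (c : cocycles₁ A)
    (hc : Fermat.Agent.S55.Bridge.IsConstMod₁ L.U c) :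
    ∃ cbar : cocycles₁ (coeff A L), inflCoc A L cbar = c := by
  have h1 := (mem_cocycles₁_iff (c : GQ → A)).1 c.2
  have hone : c (1 : GQ) = 0 := cocycles₁_map_one c
  have hU : ∀ s ∈ L.U, c s = 0 := fun s hs => by
    have := hc 1 s hs
    rw [one_mul] at this
    rw [this, hone]
  have hinv : ∀ g : GQ, (c g : A) ∈ Representation.invariants (A.ρ.comp (L.U).subtype) := by
    intro g s
    have hs : g⁻¹ * s.1 * g ∈ L.U := Subgroup.Normal.conj_mem' inferInstance s.1 s.2 g
    have e1 : c (s.1 * g) = c g := by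
      have := hc g (g⁻¹ * s.1 * g) hs
      rwa [show g * (g⁻¹ * s.1 * g) = s.1 * g by group] at this
    have e2 := h1 s.1 g
    rw [e1, hU s.1 s.2, add_zero] at e2
    exact e2.symm
  have hwd : ∀ g g' : GQ, (QuotientGroup.leftRel L.U) g g' →
      (⟨c g, hinv g⟩ : coeff A L) = ⟨c g', hinv g'⟩ := by
    intro g g' h
    apply Subtype.ext
    have := hc g (g⁻¹ * g') (QuotientGroup.leftRel_apply.1 h)
    rw [mul_inv_cancel_left] at this
    exact this.symm
  refine ⟨⟨fun g => Quotient.liftOn' g (fun g => (⟨c g, hinv g⟩ : coeff A L)) hwd, ?_⟩, ?_⟩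
  · rw [mem_cocycles₁_iff]
    intro g h
    induction g using QuotientGroup.induction_on with | @H g =>
    induction h using QuotientGroup.induction_on with | @H h =>
    apply Subtype.ext
    exact h1 g h
  · apply Subtype.ext
    funext g
    rfl

theorem mem_range_infl₁_iff (L : Level S) (y : H1 A) :
    y ∈ LinearMap.range (infl₁ A L) ↔
      ∃ c : cocycles₁ A, Fermat.Agent.S55.Bridge.IsConstMod₁ L.U c ∧ (H1π A).hom c = y := by
  constructor
  · rintro ⟨x, rfl⟩
    induction x using H1_induction_on with | @h c =>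
    refine ⟨inflCoc A L c, fun g s hs => ?_, (infl₁_mk A L c).symm⟩
    have : (QuotientGroup.mk (g * s) : L.Gal) = QuotientGroup.mk g := by
      rw [QuotientGroup.eq]
      simpa using (L.U).inv_mem hs
    rw [inflCoc_apply, inflCoc_apply, this]
  · rintro ⟨c, hc, rfl⟩
    obtain ⟨cbar, hcbar⟩ := exists_inflCoc_eq A L c hc
    exact ⟨(H1π (coeff A L)).hom cbar, by rw [infl₁_mk, hcbar]⟩

theorem range_infl₁_mono {L L' : Level S} (h : L ≤ L') :
    LinearMap.range (infl₁ A L) ≤ LinearMap.range (infl₁ A L') := by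
  intro y hy
  obtain ⟨c, hc, rfl⟩ := (mem_range_infl₁_iff A L _).1 hy
  exact (mem_range_infl₁_iff A L' _).2 ⟨c, hc.mono (Level.U_anti h), rfl⟩

/-! ### Levels are directed -/

/-- The level attached to a finite Galois `F/ℚ` unramified outside `S`. -/
def levelOfGalois (F : IntermediateField ℚ Qbar) (hF : F.IsUnramifiedOutside S)
    (hgal : IsGalois ℚ F) : Level S where
  F := F
  unram := hF
  normalU := by
    have hQ : IsGalois ℚ Qbar := Fermat.Agent.S55.Bridge.isGalois_Qbar
    have h := (InfiniteGalois.normal_iff_isGalois F).2 (by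
      convert hgal
      exact Subsingleton.elim _ _)
    exact h

/-- The compositum of two levels. -/
def levelSup (L L' : Level S) : Level S where
  F := L.F ⊔ L'.F
  unram := L.unram.sup L'.unram
  normalU := by
    rw [IntermediateField.fixingSubgroup_sup]
    have h1 := L.normalU
    have h2 := L'.normalU
    infer_instance

theorem le_levelSup_left (L L' : Level S) : L ≤ levelSup L L' :=
  show L.F ≤ L.F ⊔ L'.F from le_sup_left

theorem le_levelSup_right (L L' : Level S) : L' ≤ levelSup L L' :=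
  show L'.F ≤ L.F ⊔ L'.F from le_sup_right

instance : IsDirected (Level S) (· ≤ ·) :=
  ⟨fun L L' => ⟨levelSup L L', le_levelSup_left L L', le_levelSup_right L L'⟩⟩

/-- The trivial level `ℚ`. -/
def levelBot : Level S where
  F := ⊥
  unram := IntermediateField.isUnramifiedOutside_bot S
  normalU := by
    rw [IntermediateField.fixingSubgroup_bot]
    infer_instance

instance : Nonempty (Level S) := ⟨levelBot⟩

/-- Every class of `continuousH1S` is inflated from some level above a given one. -/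
theorem exists_level_mem_range_infl₁ (L₀ : Level S) {y : H1 A} (hy : y ∈ continuousH1S S A) :
    ∃ L : Level S, L₀ ≤ L ∧ y ∈ LinearMap.range (infl₁ A L) := by
  obtain ⟨c, hc, rfl⟩ := (mem_continuousH1S_iff S A y).1 hy
  obtain ⟨F, hF, hgal, hle, hcF⟩ :=
    (Fermat.Agent.S55.Bridge.isLevelConstantS₁_iff_galois S _ L₀.F L₀.unram).1 hc
  exact ⟨levelOfGalois F hF hgal, hle,
    (mem_range_infl₁_iff A (levelOfGalois F hF hgal) _).2 ⟨c, hcF, rfl⟩⟩

/-! ### LIM4 -/

/-- `infl₁` as a map `Ш¹_F → sha₁`. -/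
def shaInfl (h2 : (2 : K) ≠ 0) (L : Level S) : sha1Fin A L →ₗ[K] sha₁ S A :=
  ((infl₁ A L).comp (sha1Fin A L).subtype).codRestrict (sha₁ S A)
    fun x => infl₁_mem_sha₁ A h2 L x.2

@[simp] theorem coe_shaInfl (h2 : (2 : K) ≠ 0) (L : Level S) (x : sha1Fin A L) :
    (shaInfl A h2 L x : H1 A) = infl₁ A L (x : H1 (coeff A L)) := rfl

theorem shaInfl_injective (h2 : (2 : K) ≠ 0) (L : Level S) :
    Function.Injective (shaInfl A h2 L) := by
  intro x y hxy
  apply Subtype.ext
  apply infl₁_injective A L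
  have := congrArg Subtype.val hxy
  simpa using this

/-- **LIM4.** If `sha₁ S A` is finite and `U_{F₀}` acts trivially on `A`, then for every
sufficiently large level `F` the inflation map is an isomorphism `Ш¹_F(A) ≃ sha₁ S A`. -/
theorem exists_level_forall_shaInfl_bijective (h2 : (2 : K) ≠ 0) [Finite (sha₁ S A)]
    (L₀ : Level S) (hA : ∀ s ∈ L₀.U, ∀ a : A, A.ρ s a = a) :
    ∃ L₁ : Level S, L₀ ≤ L₁ ∧ ∀ L : Level S, L₁ ≤ L →
      Function.Bijective (shaInfl A h2 L) := by
  classical
  have hex : ∀ y : sha₁ S A, ∃ L : Level S, L₀ ≤ L ∧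
      (y : H1 A) ∈ LinearMap.range (infl₁ A L) := fun y =>
    exists_level_mem_range_infl₁ A L₀
      ((Fermat.Agent.S55.Bridge.mem_sha₁_iff S h2 A _).1 y.2).1
  choose Ly hLy₀ hLy using hex
  obtain ⟨M, hM⟩ := Finite.exists_le Ly
  refine ⟨levelSup M L₀, le_levelSup_right M L₀, fun L hL => ⟨shaInfl_injective A h2 L, ?_⟩⟩
  intro y
  have hML : M ≤ L := le_trans (le_levelSup_left M L₀) hL
  have hL₀ : L₀ ≤ L := le_trans (le_levelSup_right M L₀) hL
  obtain ⟨x, hx⟩ := range_infl₁_mono A (le_trans (hM y) hML) (hLy y)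
  have hAL : ∀ s ∈ L.U, ∀ a : A, A.ρ s a = a := fun s hs => hA s (Level.U_anti hL₀ hs)
  have hxs : x ∈ sha1Fin A L := by
    apply mem_sha1Fin_of_infl₁_mem_sha₁ A h2 L hAL
    rw [hx]
    exact y.2
  exact ⟨⟨x, hxs⟩, Subtype.ext hx⟩

/-- **LIM4**, cardinality form. -/
theorem exists_level_forall_card_sha1Fin_eq (h2 : (2 : K) ≠ 0) [Finite (sha₁ S A)]
    (L₀ : Level S) (hA : ∀ s ∈ L₀.U, ∀ a : A, A.ρ s a = a) :
    ∃ L₁ : Level S, L₀ ≤ L₁ ∧ ∀ L : Level S, L₁ ≤ L →
      Nat.card (sha1Fin A L) = Nat.card (sha₁ S A) := by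
  obtain ⟨L₁, h₁, h⟩ := exists_level_forall_shaInfl_bijective A h2 L₀ hA
  exact ⟨L₁, h₁, fun L hL => Nat.card_eq_of_bijective _ (h L hL)⟩

end

end Fermat.Agent.S55.E1.H603

end
-- ===== PACK-END S55/E1/H603/FinLevelH1.lean

-- ===== PACK-BEGIN S55/H173/ShapiroInj.lean
section


/-!
# S55 (helper173): explicit Shapiro lemma along an injective group homomorphism

For an injective `φ : D →* G` and `B : Rep k D`, the map
`Hⁿ(G, Coind_φ B) ⟶ Hⁿ(D, B)` induced by `φ` and evaluation at `1`
is an isomorphism for all `n`.  This is the form needed for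
`Tow.Level.J L q = Rep.coind (L.decHom q) (L.locUnits q)`.
-/

set_option autoImplicit false

open CategoryTheory CategoryTheory.Limits groupCohomology

namespace Fermat.Agent.S55.H173

universe u

variable {k G D : Type u} [CommRing k] [Group G] [Group D] (φ : D →* G)

/-- Evaluation at `1`: `Res_φ Coind_φ B ⟶ B`. -/
def ev1Hom (B : Rep k D) : Rep.res φ (Rep.coind φ B) ⟶ B :=
  Rep.ofHom (ρ := (Representation.coind φ B.ρ).comp φ) (σ := B.ρ)
    ⟨{ toFun := fun f => f.1 1
       map_add' := fun _ _ => rfl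
       map_smul' := fun _ _ => rfl }, fun s => by
      ext f
      have h := f.2 s 1
      change f.1 (1 * φ s) = B.ρ s (f.1 1)
      rw [one_mul]
      simpa using h⟩

@[simp]
lemma ev1Hom_hom_apply (B : Rep k D) (f : (Rep.coind φ B).V) :
    (ev1Hom φ B).hom f = f.1 1 := rfl

/-- The explicit Shapiro map along `φ`. -/
noncomputable abbrev shapiroHom (B : Rep k D) (n : ℕ) :
    groupCohomology (Rep.coind φ B) n ⟶ groupCohomology B n :=
  groupCohomology.map φ (ev1Hom φ B) n

variable {φ} (hφ : Function.Injective φ)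

/-- `B` as a representation of the range of `φ`. -/
noncomputable abbrev rangeRep (B : Rep k D) : Rep k φ.range :=
  Rep.res ((MonoidHom.ofInjective hφ).symm : φ.range →* D) B

/-- `Coind_φ B ≅ Coind_{φ(D)}^G B`. -/
noncomputable def coindRangeIso (B : Rep k D) :
    Rep.coind φ B ≅ Rep.coind φ.range.subtype (rangeRep hφ B) :=
  Rep.mkIso (ρ := Representation.coind φ B.ρ)
    (σ := Representation.coind φ.range.subtype (rangeRep hφ B).ρ)
    { toLinearEquiv :=
        { toFun := fun f => ⟨f.1, fun r g => by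
            have h := f.2 ((MonoidHom.ofInjective hφ).symm r) g
            rw [MonoidHom.apply_ofInjective_symm hφ r] at h
            exact h⟩
          invFun := fun f => ⟨f.1, fun d g => by
            have h := f.2 (MonoidHom.ofInjective hφ d) g
            have h2 : (rangeRep hφ B).ρ (MonoidHom.ofInjective hφ d) = B.ρ d := by
              change B.ρ ((MonoidHom.ofInjective hφ).symm (MonoidHom.ofInjective hφ d)) = B.ρ d
              rw [MulEquiv.symm_apply_apply]
            rw [h2] at h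
            exact h⟩
          map_add' := fun _ _ => rfl
          map_smul' := fun _ _ => rfl
          left_inv := fun _ => rfl
          right_inv := fun _ => rfl }
      isIntertwining' := fun g => by
        ext F x
        rfl }

/-- The comparison `Res_e (rangeRep B) ⟶ B` (identity on the underlying module). -/
noncomputable def rangeRepHom (B : Rep k D) :
    Rep.res ((MonoidHom.ofInjective hφ : D ≃* φ.range) : D →* φ.range) (rangeRep hφ B) ⟶ B :=
  Rep.ofHom (ρ := ((rangeRep hφ B).ρ).comp ((MonoidHom.ofInjective hφ : D ≃* φ.range) : D →* φ.range))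
    (σ := B.ρ)
    ⟨LinearMap.id, fun d => by
      ext b
      change B.ρ ((MonoidHom.ofInjective hφ).symm (MonoidHom.ofInjective hφ d)) b = B.ρ d b
      rw [MulEquiv.symm_apply_apply]⟩

/-- Factorisation of the Shapiro map along `φ` through the Shapiro map of the subgroup
`φ(D) ≤ G`. -/
lemma shapiroHom_eq (B : Rep k D) (n : ℕ) :
    shapiroHom φ B n =
      groupCohomology.map (MonoidHom.id G) (coindRangeIso hφ B).hom n ≫
        (shapiroMap φ.range (rangeRep hφ B) n ≫
          groupCohomology.map ((MonoidHom.ofInjective hφ : D ≃* φ.range) : D →* φ.range)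
            (rangeRepHom hφ B) n) := by
  rw [← groupCohomology.map_comp, ← groupCohomology.map_comp]
  exact map_congr (by ext d; rfl) (by rfl) n

lemma rangeRepHom_map_bijective (B : Rep k D) (n : ℕ) :
    Function.Bijective (groupCohomology.map
      ((MonoidHom.ofInjective hφ : D ≃* φ.range) : D →* φ.range) (rangeRepHom hφ B) n).hom := by
  let e : φ.range ≃* D := (MonoidHom.ofInjective hφ).symm
  let I := groupCohomology.mapIso (A := B) (B := rangeRep hφ B) e
    (LinearEquiv.refl k B.V) (fun g => rfl) n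
  have hI : groupCohomology.map
      ((MonoidHom.ofInjective hφ : D ≃* φ.range) : D →* φ.range) (rangeRepHom hφ B) n = I.hom :=
    map_congr (by ext d; rfl) (by rfl) n
  rw [hI]
  exact (ConcreteCategory.isIso_iff_bijective _).1 inferInstance

/-- **Explicit Shapiro lemma along an injective homomorphism** `φ : D →* G`:
restriction along `φ` followed by evaluation at `1` is bijective
`Hⁿ(G, Coind_φ B) → Hⁿ(D, B)` for all `n`. -/
theorem shapiroHom_bijective {φ : D →* G} (hφ : Function.Injective φ) (n : ℕ) (B : Rep k D) :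
    Function.Bijective (shapiroHom φ B n).hom := by
  rw [shapiroHom_eq hφ B n]
  have h0 : IsIso ((groupCohomology.functor k G n).map (coindRangeIso hφ B).hom) :=
    inferInstance
  have h1 : Function.Bijective
      ((groupCohomology.functor k G n).map (coindRangeIso hφ B).hom).hom :=
    (ConcreteCategory.isIso_iff_bijective _).1 h0
  have h2 := shapiroMap_bijective φ.range n (rangeRep hφ B)
  have h3 := rangeRepHom_map_bijective hφ B n
  exact (h3.comp h2).comp h1

/-- The explicit Shapiro map along an injective homomorphism is an isomorphism. -/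
theorem isIso_shapiroHom {φ : D →* G} (hφ : Function.Injective φ) (B : Rep k D) (n : ℕ) :
    IsIso (shapiroHom φ B n) :=
  (ConcreteCategory.isIso_iff_bijective _).2 (shapiroHom_bijective hφ n B)

/-- The Shapiro isomorphism `Hⁿ(G, Coind_φ B) ≅ Hⁿ(D, B)` with explicit `hom`. -/
noncomputable def shapiroIsoInj {φ : D →* G} (hφ : Function.Injective φ) (B : Rep k D) (n : ℕ) :
    groupCohomology (Rep.coind φ B) n ≅ groupCohomology B n :=
  haveI := isIso_shapiroHom hφ B n
  asIso (shapiroHom φ B n)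

@[simp]
lemma shapiroIsoInj_hom {φ : D →* G} (hφ : Function.Injective φ) (B : Rep k D) (n : ℕ) :
    (shapiroIsoInj hφ B n).hom = shapiroHom φ B n := rfl

/-- Naturality of the Shapiro map in the coefficient module. -/
lemma shapiroHom_naturality (φ : D →* G) {B B' : Rep k D} (f : B ⟶ B') (n : ℕ) :
    groupCohomology.map (MonoidHom.id G) (Rep.coindMap φ f) n ≫ shapiroHom φ B' n =
      shapiroHom φ B n ≫ groupCohomology.map (MonoidHom.id D) f n := by
  rw [← groupCohomology.map_comp, ← groupCohomology.map_comp]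
  exact map_congr (by ext d; rfl) (by rfl) n

end Fermat.Agent.S55.H173

end
-- ===== PACK-END S55/H173/ShapiroInj.lean

-- ===== PACK-BEGIN S55/Bridge/SUnitsDiv.lean
section




/-!
# S55: the input `SUnitsDivSpec` (GD9) of the engine E1, in the exact frozen shape

`sUnitsDivSpec (hpS : pPrime p ∈ S) : Tow.SUnitsDivSpec S p`:

* the `S`-units are `p`-divisible in the tower: for an `S`-unit `e ∈ Fˣ` and `β ^ p = e`, the
  Kummer extension `F(β)` is unramified outside `S ∋ p` (inertia at `q ∉ S` moves `β` by a `p`-th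
  root of unity `ζ` with `ζ - 1 ∈ 𝔪_A`, hence `ζ = 1`; Kummer lemma, cf. helper893 `H893/Kummer`);
* `μ_p` lives at a level (`ℚ(μ_p)` is unramified outside `p`).
-/

set_option autoImplicit false

namespace Fermat.Agent.S55.Bridge

open ExtCitation IntermediateField

attribute [local instance] isAlgebraic_Qbar isGalois_Qbar

section core

variable {A : ValuationSubring (AlgebraicClosure ℚ)}

/-- Local core of Kummer theory: inertia at a place where `p` is a unit fixes a `p`-th root `β`
of a fixed unit. -/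
theorem kummer_unit_fixed_of_mem_inertia {n : ℕ} (hn0 : n ≠ 0)
    (hnv : A.valuation (n : AlgebraicClosure ℚ) = 1)
    {σ : AlgebraicClosure ℚ ≃ₐ[ℚ] AlgebraicClosure ℚ} (hσ : σ ∈ A.inertiaSubgroupIn ℚ)
    {β : AlgebraicClosure ℚ} (hβ : σ (β ^ n) = β ^ n) (hv : A.valuation β = 1) : σ β = β := by
  have hβ0 : β ≠ 0 := by
    rintro rfl
    rw [map_zero] at hv
    exact zero_ne_one hv
  by_contra hne
  have hζ : (σ β / β) ^ n = 1 := by
    rw [div_pow, ← map_pow, hβ, div_self (pow_ne_zero n hβ0)]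
  have hζ1 : σ β / β ≠ 1 := fun h => hne ((div_eq_one_iff_eq hβ0).1 h)
  have h1 : A.valuation (σ β / β - 1) = 1 :=
    val_sub_roots_eq_one (A := A) hn0 hnv hζ (one_pow n) hζ1
  have h2 := inertia_val_sub_lt_one A hσ β hv.le
  have h3 : σ β - β = β * (σ β / β - 1) := by
    field_simp
  rw [h3, map_mul, h1, mul_one, hv] at h2
  exact lt_irrefl _ h2

end core

variable {p : ℕ} [Fact p.Prime] (S : Finset Nat.Primes)

/-- `F(β)` is unramified outside `S ∋ p` if `β ^ p ∈ F` is a unit outside `S`. -/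
theorem isUnramifiedOutside_sup_adjoin_root_unit (hpS : pPrime p ∈ S)
    {F : IntermediateField ℚ (AlgebraicClosure ℚ)} (hF : F.IsUnramifiedOutside S)
    {β : AlgebraicClosure ℚ} (hβ : β ^ p ∈ F)
    (hunit : ∀ q : Nat.Primes, q ∉ S → ∀ A : ValuationSubring (AlgebraicClosure ℚ),
      A.LiesOverPrime (q : ℕ) → A.valuation β = 1) :
    (F ⊔ ℚ⟮β⟯).IsUnramifiedOutside S := by
  have hp : p.Prime := Fact.out
  haveI := hF.1
  haveI : FiniteDimensional ℚ ℚ⟮β⟯ :=
    IntermediateField.adjoin.finiteDimensional (Algebra.IsIntegral.isIntegral β)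
  refine ⟨IntermediateField.finiteDimensional_sup F ℚ⟮β⟯, fun q hq A hA σ hσ => ?_⟩
  have hσF : σ ∈ F.fixingSubgroup := hF.2 q hq A hA hσ
  rw [IntermediateField.fixingSubgroup_sup]
  refine ⟨hσF, ?_⟩
  show σ ∈ ℚ⟮β⟯.fixingSubgroup
  have hqp : (q : ℕ) ≠ p := by
    intro h
    apply hq
    have : q = pPrime p := Subtype.ext h
    rw [this]
    exact hpS
  have hpv : A.valuation (p : AlgebraicClosure ℚ) = 1 := val_prime_eq_one (A := A) hA q.2 hp hqp
  have hσβ : σ β = β :=
    kummer_unit_fixed_of_mem_inertia hp.ne_zero hpv hσ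
      ((IntermediateField.mem_fixingSubgroup_iff F σ).1 hσF _ hβ) (hunit q hq A hA)
  rw [IntermediateField.mem_fixingSubgroup_iff]
  intro x hx
  have hle : ℚ⟮β⟯ ≤ IntermediateField.fixedField (Subgroup.zpowers σ) := by
    rw [IntermediateField.adjoin_simple_le_iff]
    rintro ⟨τ, hτ⟩
    obtain ⟨k, rfl⟩ := Subgroup.mem_zpowers_iff.1 hτ
    show (σ ^ k) • β = β
    have hstab : σ ∈ MulAction.stabilizer (AlgebraicClosure ℚ ≃ₐ[ℚ] AlgebraicClosure ℚ) β :=
      MulAction.mem_stabilizer_iff.2 hσβ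
    exact MulAction.mem_stabilizer_iff.1 (Subgroup.zpow_mem _ hstab k)
  exact hle hx ⟨σ, Subgroup.mem_zpowers σ⟩

/-- A unit at `A` (both `u` and `u⁻¹` in `A`) has valuation one. -/
theorem valuation_unit_eq_one {A : ValuationSubring (AlgebraicClosure ℚ)}
    (u : (AlgebraicClosure ℚ)ˣ) (hu : (u : AlgebraicClosure ℚ) ∈ A)
    (hu' : ((u⁻¹ : (AlgebraicClosure ℚ)ˣ) : AlgebraicClosure ℚ) ∈ A) :
    A.valuation (u : AlgebraicClosure ℚ) = 1 := by
  have h1 : A.valuation (u : AlgebraicClosure ℚ) ≤ 1 := (A.valuation_le_one_iff _).2 hu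
  have h2 : A.valuation ((u⁻¹ : (AlgebraicClosure ℚ)ˣ) : AlgebraicClosure ℚ) ≤ 1 :=
    (A.valuation_le_one_iff _).2 hu'
  have h3 : A.valuation (u : AlgebraicClosure ℚ)
      * A.valuation ((u⁻¹ : (AlgebraicClosure ℚ)ˣ) : AlgebraicClosure ℚ) = 1 := by
    rw [← map_mul, ← Units.val_mul, mul_inv_cancel, Units.val_one, map_one]
  refine le_antisymm h1 ?_
  calc (1 : A.ValueGroup)
      = A.valuation (u : AlgebraicClosure ℚ)
        * A.valuation ((u⁻¹ : (AlgebraicClosure ℚ)ˣ) : AlgebraicClosure ℚ) := h3.symm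
    _ ≤ A.valuation (u : AlgebraicClosure ℚ) * 1 := by gcongr
    _ = A.valuation (u : AlgebraicClosure ℚ) := mul_one _

/-- The level generated by the `p`-th roots of unity: a level of `S ∋ p` containing `μ_p`. -/
theorem exists_level_contains_roots (hpS : pPrime p ∈ S) :
    ∃ L₀ : Tow.Level S, ∀ ζ : Tow.Qbar, ζ ^ p = 1 → ζ ∈ L₀.F := by
  have hp : p.Prime := Fact.out
  haveI hnorm : (MonoidHom.ker (cycloChar p)).Normal := inferInstance
  obtain ⟨L, hL, hgal, hfix, -⟩ := exists_galois_level_of_subgroup S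
    (MonoidHom.ker (cycloChar p)) (cycloLevel p) (cycloLevel_finiteDimensional p)
    (fun s hs => MonoidHom.mem_ker.2 (cycloChar_eq_one_of_mem_fixingSubgroup p s hs))
    (fun q hq A hA g hg => by
      have hqp : (q : ℕ) ≠ p := by
        intro h
        apply hq
        have : q = pPrime p := Subtype.ext h
        rw [this]
        exact hpS
      exact MonoidHom.mem_ker.2 (cycloChar_eq_one_of_mem_inertia p q.2 hqp A hA g hg))
  refine ⟨⟨L, hL, (InfiniteGalois.normal_iff_isGalois _).2 hgal⟩, fun ζ hζ => ?_⟩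
  show ζ ∈ L
  rw [← InfiniteGalois.fixedField_fixingSubgroup L, IntermediateField.mem_fixedField_iff]
  intro σ hσ
  rw [hfix, MonoidHom.mem_ker, cycloChar_eq_one_iff] at hσ
  have hζ0 : ζ ≠ 0 := by
    rintro rfl
    rw [zero_pow hp.ne_zero] at hζ
    exact zero_ne_one hζ
  have hmem : Units.mk0 ζ hζ0 ∈ rootsOfUnity p (AlgebraicClosure ℚ) := by
    rw [mem_rootsOfUnity]
    apply Units.ext
    rw [Units.val_pow_eq_pow_val, Units.val_mk0, hζ, Units.val_one]
  exact hσ (Units.mk0 ζ hζ0) hmem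

/-- **GD9** in the frozen shape of `Spec/Datum.lean`. -/
theorem sUnitsDivSpec (hpS : pPrime p ∈ S) : Tow.SUnitsDivSpec S p := by
  have hp : p.Prime := Fact.out
  refine ⟨?_, exists_level_contains_roots S hpS⟩
  intro L e he
  -- a `p`-th root of the underlying unit
  let u : (AlgebraicClosure ℚ)ˣ := L.val e
  obtain ⟨β, hβ⟩ := IsAlgClosed.exists_pow_nat_eq (u : AlgebraicClosure ℚ) hp.pos
  have hβ0 : β ≠ 0 := by
    rintro rfl
    rw [zero_pow hp.ne_zero] at hβ
    exact u.ne_zero hβ.symm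
  -- `u ∈ F`
  have huF : (u : AlgebraicClosure ℚ) ∈ L.F := by
    rw [← InfiniteGalois.fixedField_fixingSubgroup L.F, IntermediateField.mem_fixedField_iff]
    intro σ hσ
    have h := L.unitsCoe_fixed e σ hσ
    have h' := congrArg (fun a : Tow.unitsQbar.V =>
      ((Additive.toMul (show Additive (AlgebraicClosure ℚ)ˣ from a) : (AlgebraicClosure ℚ)ˣ) :
        AlgebraicClosure ℚ)) h
    exact h'
  -- valuations
  have hvu : ∀ q : Nat.Primes, q ∉ S → ∀ A : ValuationSubring (AlgebraicClosure ℚ),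
      A.LiesOverPrime (q : ℕ) → A.valuation (u : AlgebraicClosure ℚ) = 1 := fun q hq A hA =>
    valuation_unit_eq_one u (he q hq A hA).1 (he q hq A hA).2
  have hvβ : ∀ q : Nat.Primes, q ∉ S → ∀ A : ValuationSubring (AlgebraicClosure ℚ),
      A.LiesOverPrime (q : ℕ) → A.valuation β = 1 := by
    intro q hq A hA
    have h := hvu q hq A hA
    rw [← hβ, map_pow] at h
    exact (pow_eq_one_iff.1 h).resolve_right hp.ne_zero
  -- the Kummer level
  have hK : (L.F ⊔ ℚ⟮β⟯).IsUnramifiedOutside S :=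
    isUnramifiedOutside_sup_adjoin_root_unit S hpS L.unram (by rw [hβ]; exact huF) hvβ
  obtain ⟨F', hF', hgal, hle⟩ := exists_galois_level_ge S _ hK
  let L' : Tow.Level S := ⟨F', hF', (InfiniteGalois.normal_iff_isGalois _).2 hgal⟩
  have h : L ≤ L' := le_sup_left.trans hle
  have hβF' : β ∈ F' :=
    hle (le_sup_right (a := L.F) (IntermediateField.mem_adjoin_simple_self ℚ β))
  have hfix : ∀ g ∈ L'.U, Tow.unitsQbar.ρ g (Additive.ofMul (Units.mk0 β hβ0))
      = Additive.ofMul (Units.mk0 β hβ0) := by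
    intro g hg
    apply Additive.toMul.injective
    apply Units.ext
    exact (IntermediateField.mem_fixingSubgroup_iff _ _).1 hg β hβF'
  refine ⟨L', h, L'.unitsMk (Additive.ofMul (Units.mk0 β hβ0)) hfix, ?_, ?_⟩
  · intro ℓ hℓ A hA
    have hv : A.valuation β = 1 := hvβ ℓ hℓ A hA
    constructor
    · show β ∈ A
      exact (A.valuation_le_one_iff β).1 hv.le
    · show ((Units.mk0 β hβ0)⁻¹ : (AlgebraicClosure ℚ)ˣ).1 ∈ A
      rw [Units.val_inv_eq_inv_val, Units.val_mk0, ← A.valuation_le_one_iff, map_inv₀, hv,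
        inv_one]
  · apply L'.unitsCoe_injective
    show p • (Additive.ofMul (Units.mk0 β hβ0) : Additive (AlgebraicClosure ℚ)ˣ) = L.unitsCoe e
    apply Additive.toMul.injective
    apply Units.ext
    show ((Units.mk0 β hβ0) ^ p : (AlgebraicClosure ℚ)ˣ).1 = (u : AlgebraicClosure ℚ)
    rw [Units.val_pow_eq_pow_val, Units.val_mk0, hβ]

end Fermat.Agent.S55.Bridge

end
-- ===== PACK-END S55/Bridge/SUnitsDiv.lean

-- ===== PACK-BEGIN S55/G/TraceZero.lean
section
/-
S55, layer G, block G-U (helper595): assembly A1, `TraceZeroSpec` from `PermSpec`.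

`0 → Λ₀ → ℤ^X → ℤ → 0` with `G` acting trivially on `ℤ`, whose Herbrand indices are `(n, 1)`.
-/





set_option autoImplicit false

namespace Fermat.Agent.S55.G

open Fermat.Agent.S55.Herbrand

universe u v

lemma hIndex_zero_nsmul_id (n : ℕ) :
    hIndex (0 : ℤ →+ ℤ) (n • AddMonoidHom.id ℤ) = n := by
  unfold hIndex
  have h1 : (0 : ℤ →+ ℤ).ker = ⊤ := by
    ext x
    simp
  have h2 : (n • AddMonoidHom.id ℤ).range = AddSubgroup.zmultiples (n : ℤ) := by
    ext x
    simp only [AddMonoidHom.mem_range, AddMonoidHom.smul_apply, AddMonoidHom.id_apply,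
      AddSubgroup.mem_zmultiples_iff]
    constructor
    · rintro ⟨y, rfl⟩
      exact ⟨y, by simp [mul_comm]⟩
    · rintro ⟨y, rfl⟩
      exact ⟨y, by simp [mul_comm]⟩
  rw [h1, h2, AddSubgroup.relIndex_top_right, Int.index_zmultiples]
  simp

lemma hIndex_nsmul_id_zero (n : ℕ) (hn : n ≠ 0) :
    hIndex (n • AddMonoidHom.id ℤ) (0 : ℤ →+ ℤ) = 1 := by
  unfold hIndex
  have h1 : (n • AddMonoidHom.id ℤ).ker = ⊥ := by
    ext x
    simp only [AddMonoidHom.mem_ker, AddMonoidHom.smul_apply, AddMonoidHom.id_apply,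
      AddSubgroup.mem_bot]
    constructor
    · intro h
      rcases smul_eq_zero.1 h with h | h
      · exact absurd h hn
      · exact h
    · rintro rfl
      simp
  have h2 : (0 : ℤ →+ ℤ).range = ⊥ := by
    ext x
    simp only [AddMonoidHom.mem_range, AddMonoidHom.zero_apply, AddSubgroup.mem_bot]
    constructor
    · rintro ⟨_, rfl⟩
      rfl
    · rintro rfl
      exact ⟨0, rfl⟩
  rw [h1, h2, AddSubgroup.relIndex_self]

/-- **Assembly A1.** -/
theorem traceZeroSpec_of (h : PermSpec.{u, v}) : TraceZeroSpec.{u, v} := by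
  intro G _ _ X _ _ _ σ hσ
  obtain ⟨h1, h2⟩ := h G X σ hσ
  have hn : Fintype.card G ≠ 0 := Fintype.card_ne_zero
  obtain ⟨Ef, Eg, w, y, w', y', e1, e2, e3, e4, e5, e6⟩ :=
    hIndexSub_six (permAug G X σ) (permNorm G X) (0 : ℤ →+ ℤ)
      (Fintype.card G • AddMonoidHom.id ℤ) (sumHom X)
      (fun b => by rw [sumHom_permAug]; rfl)
      (fun b => by rw [sumHom_permNorm]; rfl)
      ⊤ (fun _ _ => AddSubgroup.mem_top _) (fun _ _ => AddSubgroup.mem_top _)
      (fun b _ => permAug_permNorm G X σ b) (fun b _ => permNorm_permAug G X σ b)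
  have htop : (⊤ : AddSubgroup (X → ℤ)).map (sumHom X) = ⊤ :=
    AddSubgroup.map_top_of_surjective _ (sumHom_surjective X)
  have hker : (sumHom X).ker ⊓ ⊤ = traceZero X := inf_top_eq _
  rw [hker] at e1 e4
  rw [hIndexSub_top, h1] at e2
  rw [hIndexSub_top, h2] at e5
  rw [htop, hIndexSub_top, hIndex_zero_nsmul_id] at e3
  rw [htop, hIndexSub_top, hIndex_nsmul_id_zero _ hn] at e6
  have hw' : w' = 1 := Nat.eq_one_of_mul_eq_one_right e5.symm
  have hEg : Eg = 1 := Nat.eq_one_of_mul_eq_one_right e6.symm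
  have hP : stabProd G X ≠ 0 := stabProd_ne_zero G X
  rw [e1, e4, hw', hEg, one_mul, mul_one]
  refine ⟨?_, ?_, ?_⟩
  · rw [e2] at hP
    exact left_ne_zero_of_mul hP
  · rw [e3] at hn
    exact left_ne_zero_of_mul hn
  · rw [e2, e3]
    ring

end Fermat.Agent.S55.G

end
-- ===== PACK-END S55/G/TraceZero.lean

-- ===== PACK-BEGIN S14/H894/Cyclo.lean
section


/-!
# S14 / H894 : the valuation of `ℚ̄` over `p` restricted to `ℚ` and to `ℚ(ζ_p)`

For a valuation subring `A` of `ℚ̄` over the prime `p`, a primitive `p`-th root of unity `ζ`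
and `π = ζ - 1`:
* `exists_zpow_valuation_rat`: `v(c) ∈ v(p)^ℤ` for `c ∈ ℚˣ`;
* `valuation_natCast_eq_pow`: `v(p) = v(π)^(p-1)`;
* `exists_zpow_valuation_cyclo`: `v(x) ∈ v(π)^ℤ` for `x ∈ ℚ(ζ)ˣ`;
* `exists_int_valuation_sub_lt_one`: every `x ∈ ℚ(ζ) ∩ A` is congruent to a rational integer
  modulo the maximal ideal of `A`.
-/

set_option autoImplicit false
set_option linter.style.haveILetI false

open scoped Pointwise

namespace Fermat.Agent.S14.H894

open Polynomial Fermat.Agent.S54

local notation "Qb" => AlgebraicClosure ℚ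
local notation "GQ" => (AlgebraicClosure ℚ ≃ₐ[ℚ] AlgebraicClosure ℚ)

section rat

variable (A : ValuationSubring Qb) (p : ℕ) (hp : p.Prime) (hA : A.LiesOverPrime p)

include hA in
theorem valuation_natCast_prime_lt_one : A.valuation (p : Qb) < 1 :=
  (ValuationSubring.mem_nonunits_iff (A := A)).mp hA

include hp in
theorem natCast_prime_ne_zero : (p : Qb) ≠ 0 := by
  exact_mod_cast hp.ne_zero

include hp in
theorem valuation_natCast_prime_ne_zero : A.valuation (p : Qb) ≠ 0 :=
  (Valuation.ne_zero_iff _).mpr (natCast_prime_ne_zero p hp)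

theorem valuation_intCast_le_one (a : ℤ) : A.valuation (a : Qb) ≤ 1 :=
  (A.valuation_le_one_iff _).mpr (intCast_mem A a)

include hp hA in
/-- Integers prime to `p` are units of `A`. -/
theorem valuation_intCast_eq_one (a : ℤ) (ha : ¬ (p : ℤ) ∣ a) : A.valuation (a : Qb) = 1 := by
  refine le_antisymm (valuation_intCast_le_one A a) ?_
  by_contra hlt
  rw [not_le] at hlt
  exact ha (dvd_of_intCast_mem_nonunits A p hp hA a
    ((ValuationSubring.mem_nonunits_iff (A := A)).mpr hlt))

include hp hA in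
theorem exists_pow_valuation_nat (n : ℕ) (hn : n ≠ 0) :
    ∃ e : ℕ, A.valuation (n : Qb) = A.valuation (p : Qb) ^ e := by
  obtain ⟨e, n', hn', rfl⟩ := Nat.exists_eq_pow_mul_and_not_dvd hn p hp.ne_one
  refine ⟨e, ?_⟩
  have h1 : A.valuation ((n' : ℤ) : Qb) = 1 :=
    valuation_intCast_eq_one A p hp hA n' (by exact_mod_cast hn')
  push_cast
  rw [map_mul, map_pow]
  have h2 : A.valuation (n' : Qb) = 1 := by exact_mod_cast h1
  rw [h2, mul_one]

include hp hA in
/-- The value group of `ℚ` is generated by the valuation of `p`. -/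
theorem exists_zpow_valuation_rat (c : ℚ) (hc : c ≠ 0) :
    ∃ n : ℤ, A.valuation (c : Qb) = A.valuation (p : Qb) ^ n := by
  have hnum : c.num.natAbs ≠ 0 := by
    rw [Int.natAbs_ne_zero]; exact Rat.num_ne_zero.mpr hc
  obtain ⟨e₁, h₁⟩ := exists_pow_valuation_nat A p hp hA c.num.natAbs hnum
  obtain ⟨e₂, h₂⟩ := exists_pow_valuation_nat A p hp hA c.den c.den_ne_zero
  refine ⟨(e₁ : ℤ) - e₂, ?_⟩
  have hv0 := valuation_natCast_prime_ne_zero A p hp
  have h3 : A.valuation ((c.num : ℤ) : Qb) = A.valuation (p : Qb) ^ e₁ := by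
    rw [← h₁]
    rcases Int.natAbs_eq c.num with h | h
    · conv_lhs => rw [h]
      simp
    · conv_lhs => rw [h]
      simp
  have h4 : (c : Qb) = (c.num : Qb) / (c.den : Qb) := by
    rw [Rat.cast_def]
  rw [h4, map_div₀, h3, h₂, zpow_sub₀ hv0, zpow_natCast, zpow_natCast]

include hA in
theorem valuation_intCast_lt_one_of_dvd (a : ℤ) (ha : (p : ℤ) ∣ a) :
    A.valuation (a : Qb) < 1 := by
  obtain ⟨t, rfl⟩ := ha
  push_cast
  rw [map_mul]
  have h1 := valuation_natCast_prime_lt_one A p hA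
  have h2 := valuation_intCast_le_one A t
  exact lt_of_le_of_lt (mul_le_of_le_one_right zero_le h2) h1

include hp hA in
/-- A rational number which is integral at `A` is congruent to an integer modulo the maximal
ideal. -/
theorem exists_int_valuation_rat_sub_lt_one (q : ℚ) (hq : A.valuation (q : Qb) ≤ 1) :
    ∃ m : ℤ, A.valuation ((q : Qb) - (m : Qb)) < 1 := by
  haveI : Fact p.Prime := ⟨hp⟩
  have hden : ¬ (p : ℤ) ∣ (q.den : ℤ) := by
    intro hdvd
    have hnum : ¬ (p : ℤ) ∣ q.num := by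
      intro hdvd'
      have h1 : p ∣ q.num.natAbs := Int.natCast_dvd.mp hdvd'
      have h2 : p ∣ q.den := Int.natCast_dvd_natCast.mp hdvd
      have h3 : p ∣ 1 := by
        have := Nat.dvd_gcd h1 h2
        rwa [Nat.Coprime.gcd_eq_one q.reduced] at this
      exact hp.one_lt.ne' (Nat.dvd_one.mp h3)
    have h1 := valuation_intCast_eq_one A p hp hA q.num hnum
    have h2 := valuation_intCast_lt_one_of_dvd A p hA (q.den : ℤ) hdvd
    have h4 : (q : Qb) = ((q.num : ℤ) : Qb) / (((q.den : ℕ) : ℤ) : Qb) := by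
      rw [Rat.cast_def]; push_cast; rfl
    rw [h4, map_div₀, h1] at hq
    have hd0 : A.valuation (((q.den : ℕ) : ℤ) : Qb) ≠ 0 := by
      rw [Valuation.ne_zero_iff]
      exact_mod_cast q.den_ne_zero
    rw [div_le_iff₀ (zero_lt_iff.mpr hd0), one_mul] at hq
    exact absurd hq (not_le.mpr h2)
  have hden' : ((q.den : ℕ) : ZMod p) ≠ 0 := by
    have : ((q.den : ℤ) : ZMod p) ≠ 0 := by
      rwa [Ne, ZMod.intCast_zmod_eq_zero_iff_dvd]
    exact_mod_cast this
  obtain ⟨m, hm⟩ := ZMod.intCast_surjective ((q.num : ZMod p) * ((q.den : ℕ) : ZMod p)⁻¹)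
  refine ⟨m, ?_⟩
  have hdvd : (p : ℤ) ∣ q.num - m * q.den := by
    rw [← ZMod.intCast_zmod_eq_zero_iff_dvd]
    push_cast
    rw [hm, mul_assoc, inv_mul_cancel₀ hden', mul_one, sub_self]
  have h1 := valuation_intCast_lt_one_of_dvd A p hA _ hdvd
  have h2 := valuation_intCast_eq_one A p hp hA (q.den : ℤ) hden
  have hd0 : ((q.den : ℕ) : Qb) ≠ 0 := by exact_mod_cast q.den_ne_zero
  have h4 : (q : Qb) - (m : Qb) = ((q.num - m * q.den : ℤ) : Qb) / (((q.den : ℕ) : ℤ) : Qb) := by
    rw [Rat.cast_def]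
    push_cast
    field_simp
  rw [h4, map_div₀, h2, div_one]
  exact h1

end rat

section cyclo

variable (A : ValuationSubring Qb) (p : ℕ) (hp : p.Prime) (hA : A.LiesOverPrime p)
  (ζ : Qb) (hζ : IsPrimitiveRoot ζ p)

theorem valuation_le_one_of_pow_eq_one {μ : Qb} {n : ℕ} (hn : n ≠ 0) (hμ : μ ^ n = 1) :
    A.valuation μ ≤ 1 := by
  have : A.valuation μ ^ n = 1 := by rw [← map_pow, hμ, map_one]
  exact ((pow_eq_one_iff_left hn).mp this).le

theorem valuation_pow_sub_one_le {μ : Qb} {n : ℕ} (hn : n ≠ 0) (hμ : μ ^ n = 1) (k : ℕ) :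
    A.valuation (μ ^ k - 1) ≤ A.valuation (μ - 1) := by
  rw [← geom_sum_mul μ k, map_mul]
  have h1 : A.valuation (∑ i ∈ Finset.range k, μ ^ i) ≤ 1 := by
    refine Valuation.map_sum_le _ fun i _ => ?_
    rw [map_pow]
    exact pow_le_one₀ zero_le (valuation_le_one_of_pow_eq_one A hn hμ)
  exact mul_le_of_le_one_left zero_le h1

include hp hζ in
theorem valuation_sub_one_eq_of_mem_primitiveRoots {μ : Qb} (hμ : μ ∈ primitiveRoots p Qb) :
    A.valuation (μ - 1) = A.valuation (ζ - 1) := by
  haveI : NeZero p := ⟨hp.ne_zero⟩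
  have hμ' : IsPrimitiveRoot μ p := (mem_primitiveRoots hp.pos).mp hμ
  obtain ⟨i, -, hi⟩ := hζ.eq_pow_of_pow_eq_one hμ'.pow_eq_one
  obtain ⟨j, -, hj⟩ := hμ'.eq_pow_of_pow_eq_one hζ.pow_eq_one
  refine le_antisymm ?_ ?_
  · rw [← hi]
    exact valuation_pow_sub_one_le A hp.ne_zero hζ.pow_eq_one i
  · rw [← hj]
    exact valuation_pow_sub_one_le A hp.ne_zero hμ'.pow_eq_one j

include hp hζ in
/-- `v(p) = v(ζ - 1)^(p-1)`. -/
theorem valuation_natCast_eq_pow :
    A.valuation (p : Qb) = A.valuation (ζ - 1) ^ (p - 1) := by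
  haveI : Fact p.Prime := ⟨hp⟩
  have h1 : (p : Qb) = ∏ μ ∈ primitiveRoots p Qb, (1 - μ) := by
    have := eval_one_cyclotomic_prime (R := Qb) (p := p)
    rw [cyclotomic_eq_prod_X_sub_primitiveRoots hζ, eval_prod] at this
    rw [← this]
    refine Finset.prod_congr rfl fun μ _ => ?_
    simp
  rw [h1, map_prod]
  have h2 : ∀ μ ∈ primitiveRoots p Qb, A.valuation (1 - μ) = A.valuation (ζ - 1) := by
    intro μ hμ
    rw [← valuation_sub_one_eq_of_mem_primitiveRoots A p hp ζ hζ hμ, Valuation.map_sub_swap]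
  rw [Finset.prod_congr rfl h2, Finset.prod_const, hζ.card_primitiveRoots,
    Nat.totient_prime hp]

include hp hA hζ in
theorem valuation_zeta_sub_one_lt_one : A.valuation (ζ - 1) < 1 := by
  by_contra h
  rw [not_lt] at h
  have h1 := valuation_natCast_prime_lt_one A p hA
  rw [valuation_natCast_eq_pow A p hp ζ hζ] at h1
  exact absurd (one_le_pow₀ h) (not_le.mpr h1)

include hp hζ in
theorem valuation_zeta_sub_one_ne_zero : A.valuation (ζ - 1) ≠ 0 := by
  rw [Valuation.ne_zero_iff, sub_ne_zero]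
  exact hζ.ne_one hp.one_lt

end cyclo

section terms

variable (A : ValuationSubring Qb) (K : IntermediateField ℚ Qb) (γ : Qb) (n : ℕ)

/-- In an integral `K`-linear combination of powers of `γ`, every term is integral and the
terms of positive degree lie in the maximal ideal. -/
theorem terms_of_mem
    (hindep : ∀ k : ℕ, 0 < k → k < n → ∀ c ∈ K, A.valuation γ ^ k ≠ A.valuation c)
    (c : ℕ → Qb) (hc : ∀ i, c i ∈ K)
    (hy : A.valuation (∑ i ∈ Finset.range n, c i * γ ^ i) ≤ 1) :
    (∀ i ∈ Finset.range n, A.valuation (c i * γ ^ i) ≤ 1) ∧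
      ∀ i ∈ Finset.range n, 0 < i → A.valuation (c i * γ ^ i) < 1 := by
  have hdist := distinct_terms A K γ n hindep c hc γ rfl
  have hle : ∀ i ∈ Finset.range n, A.valuation (c i * γ ^ i) ≤ 1 :=
    (valuation_sum_le_one_iff _ _ _ hdist).mp hy
  refine ⟨hle, ?_⟩
  intro i hi hi0
  refine lt_of_le_of_ne (hle i hi) ?_
  intro h1
  by_cases hci : c i = 0
  · rw [hci, zero_mul, map_zero] at h1; exact zero_ne_one h1
  · refine hindep i hi0 (Finset.mem_range.mp hi) (c i)⁻¹ (K.inv_mem (hc i)) ?_
    rw [map_inv₀]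
    refine eq_inv_of_mul_eq_one_left ?_
    rw [mul_comm, ← map_pow, ← map_mul]
    exact h1

end terms

section cycloField

variable (A : ValuationSubring Qb) (p : ℕ) (hp : p.Prime) (hA : A.LiesOverPrime p)
  (ζ : Qb) (hζ : IsPrimitiveRoot ζ p)

/-- The monic polynomial of degree `p - 1` over `ℚ` killing `ζ - 1`. -/
noncomputable def cycloShift : (⊥ : IntermediateField ℚ Qb)[X] :=
  (cyclotomic p (⊥ : IntermediateField ℚ Qb)).comp (X + C 1)

theorem cycloShift_monic : (cycloShift p).Monic :=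
  (cyclotomic.monic p _).comp_X_add_C 1

include hp in
theorem cycloShift_natDegree : (cycloShift p).natDegree = p - 1 := by
  unfold cycloShift
  rw [natDegree_comp, natDegree_X_add_C, mul_one, natDegree_cyclotomic, Nat.totient_prime hp]

include hp hζ in
theorem cycloShift_aeval : aeval (ζ - 1) (cycloShift p) = 0 := by
  unfold cycloShift
  rw [aeval_comp]
  simp only [map_add, aeval_X, map_one, sub_add_cancel]
  rw [aeval_def, ← eval_map, map_cyclotomic]
  exact hζ.isRoot_cyclotomic hp.pos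

theorem mem_adjoinField_bot_of_mem (x : Qb) (hx : x ∈ IntermediateField.adjoin ℚ {ζ}) :
    x ∈ adjoinField ⊥ (ζ - 1) := by
  have hle : IntermediateField.adjoin ℚ {ζ} ≤ adjoinField ⊥ (ζ - 1) := by
    rw [IntermediateField.adjoin_le_iff, Set.singleton_subset_iff]
    have h1 : ζ - 1 ∈ adjoinField ⊥ (ζ - 1) :=
      IntermediateField.subset_adjoin ℚ _ (Set.mem_union_right _ rfl)
    have h2 : (ζ - 1) + 1 ∈ adjoinField ⊥ (ζ - 1) :=
      (adjoinField ⊥ (ζ - 1)).add_mem h1 (adjoinField ⊥ (ζ - 1)).one_mem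
    simpa using h2
  exact hle hx

include hp hA hζ in
theorem cyclo_indep : ∀ k : ℕ, 0 < k → k < (cycloShift p).natDegree →
    ∀ c ∈ (⊥ : IntermediateField ℚ Qb), A.valuation (ζ - 1) ^ k ≠ A.valuation c := by
  intro k hk0 hk c hc heq
  rw [cycloShift_natDegree p hp] at hk
  have hπ0 := valuation_zeta_sub_one_ne_zero A p hp ζ hζ
  have hπ1 := valuation_zeta_sub_one_lt_one A p hp hA ζ hζ
  rw [IntermediateField.mem_bot] at hc
  obtain ⟨q, rfl⟩ := hc
  by_cases hq : q = 0
  · subst hq
    rw [map_zero, map_zero] at heq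
    exact pow_ne_zero k hπ0 heq
  · obtain ⟨m, hm⟩ := exists_zpow_valuation_rat A p hp hA q hq
    rw [eq_ratCast, hm, valuation_natCast_eq_pow A p hp ζ hζ, ← zpow_natCast, ← zpow_natCast,
      ← zpow_mul] at heq
    have h1 := (zpow_right_strictAnti₀ (zero_lt_iff.mpr hπ0) hπ1).injective heq
    have h2 : ((p - 1 : ℕ) : ℤ) ∣ (k : ℤ) := ⟨m, h1⟩
    have h3 : (p - 1) ∣ k := by exact_mod_cast h2
    exact absurd (Nat.le_of_dvd hk0 h3) (not_le.mpr hk)

include hp hA hζ in
/-- The value group of `ℚ(ζ)` is generated by the valuation of `ζ - 1`. -/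
theorem exists_zpow_valuation_cyclo (x : Qb) (hx : x ∈ IntermediateField.adjoin ℚ {ζ})
    (hx0 : x ≠ 0) : ∃ n : ℤ, A.valuation x = A.valuation (ζ - 1) ^ n := by
  obtain ⟨c, hc, rfl⟩ := exists_coeffs_of_mem_adjoinField ⊥ (ζ - 1) (cycloShift p)
    (cycloShift_monic p) (cycloShift_aeval p hp ζ hζ) x (mem_adjoinField_bot_of_mem ζ x hx)
  have hindep := cyclo_indep A p hp hA ζ hζ
  have hdist := distinct_terms A ⊥ (ζ - 1) _ hindep c hc (ζ - 1) rfl
  have hv := valuation_sum_eq_sup A.valuation _ _ hdist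
  have hne : (Finset.range (cycloShift p).natDegree).Nonempty := by
    rw [cycloShift_natDegree p hp, Finset.nonempty_range_iff]
    have := hp.two_le
    omega
  obtain ⟨i, hi, his⟩ := Finset.exists_mem_eq_sup _ hne
    (fun i => A.valuation (c i * (ζ - 1) ^ i))
  rw [his] at hv
  rw [hv]
  have hci : c i ≠ 0 := by
    intro h0
    rw [h0, zero_mul, map_zero] at hv
    exact hx0 ((map_eq_zero _).mp hv)
  have hci' := hc i
  rw [IntermediateField.mem_bot] at hci'
  obtain ⟨q, hq⟩ := hci'
  have hq0 : q ≠ 0 := by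
    rintro rfl
    rw [map_zero] at hq
    exact hci hq.symm
  obtain ⟨m, hm⟩ := exists_zpow_valuation_rat A p hp hA q hq0
  refine ⟨((p - 1 : ℕ) : ℤ) * m + i, ?_⟩
  have hπ0 := valuation_zeta_sub_one_ne_zero A p hp ζ hζ
  rw [map_mul, map_pow, ← hq, eq_ratCast, hm, valuation_natCast_eq_pow A p hp ζ hζ,
    zpow_add₀ hπ0, zpow_mul, zpow_natCast, zpow_natCast]

include hp hA hζ in
/-- Every element of `ℚ(ζ)` which is integral at `A` is congruent to a rational integer modulo
the maximal ideal of `A` (the residue field of `ℚ(ζ)` at `p` is `𝔽_p`). -/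
theorem exists_int_valuation_sub_lt_one (x : Qb) (hx : x ∈ IntermediateField.adjoin ℚ {ζ})
    (hxA : A.valuation x ≤ 1) : ∃ m : ℤ, A.valuation (x - (m : Qb)) < 1 := by
  obtain ⟨c, hc, rfl⟩ := exists_coeffs_of_mem_adjoinField ⊥ (ζ - 1) (cycloShift p)
    (cycloShift_monic p) (cycloShift_aeval p hp ζ hζ) x (mem_adjoinField_bot_of_mem ζ x hx)
  have hindep := cyclo_indep A p hp hA ζ hζ
  obtain ⟨hle, hlt⟩ := terms_of_mem A ⊥ (ζ - 1) _ hindep c hc hxA
  have h0mem : 0 ∈ Finset.range (cycloShift p).natDegree := by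
    rw [cycloShift_natDegree p hp, Finset.mem_range]
    have := hp.two_le
    omega
  have hc0 := hc 0
  rw [IntermediateField.mem_bot] at hc0
  obtain ⟨q, hq⟩ := hc0
  have hq1 : A.valuation (q : Qb) ≤ 1 := by
    have := hle 0 h0mem
    rwa [pow_zero, mul_one, ← hq, eq_ratCast] at this
  obtain ⟨m, hm⟩ := exists_int_valuation_rat_sub_lt_one A p hp hA q hq1
  refine ⟨m, ?_⟩
  rw [← Finset.add_sum_erase _ _ h0mem, pow_zero, mul_one, ← hq, eq_ratCast, add_sub_right_comm]
  refine lt_of_le_of_lt (Valuation.map_add _ _ _) (max_lt hm ?_)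
  refine Valuation.map_sum_lt _ one_ne_zero fun i hi => ?_
  rw [Finset.mem_erase] at hi
  exact hlt i hi.2 (Nat.pos_of_ne_zero hi.1)

end cycloField

end Fermat.Agent.S14.H894

end
-- ===== PACK-END S14/H894/Cyclo.lean

-- ===== PACK-BEGIN S55/Local/H608/Ram.lean
section


/-!
# S55 layer L (helper608): ramification index, inertia group, `e * f = n` (generic form)

Generic setting: `R` a complete DVR with finite residue field, `K = Frac R` of characteristic
zero, `L / K` finite, `S = integralClosure R L` (a DVR by `Core`).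

* `ramIdx R K L`         : the ramification index `e` of `S / R`.
* `associated_pow_ramIdx`: `π_R ~ π_S ^ e` for uniformizers.
* `card_inertia_eq_ramIdx` : for `L / K` Galois, the inertia group of the maximal ideal of `S`
  in `Gal(L/K)` has order `e`.
* `ramIdx_mul_resDeg`    : `e * [k_S : k_R] = [L : K]`.
-/

set_option autoImplicit false
set_option linter.unusedSectionVars false
set_option linter.style.haveILetI false

namespace Fermat.Agent.S55.Local.H608

open IsLocalRing

section Generic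

variable (R K : Type) [CommRing R] [IsDomain R] [IsDiscreteValuationRing R]
  [IsAdicComplete (maximalIdeal R) R] [Finite (ResidueField R)]
  [Field K] [CharZero K] [Algebra R K] [IsFractionRing R K]
  (L : Type) [Field L] [Algebra K L] [FiniteDimensional K L] [Algebra R L] [IsScalarTower R K L]

/-- The ramification index of `integralClosure R L` over `R`. -/
noncomputable def ramIdx : ℕ :=
  haveI := isLocalRing_intCl R K L
  (maximalIdeal (integralClosure R L)).ramificationIdx R

include K in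
theorem ramIdx_pos : 0 < ramIdx R K L := by
  haveI := isLocalRing_intCl R K L
  haveI := finite_intCl R K L
  exact Ideal.ramificationIdx_pos _ R

include K in
/-- `π_R = unit * π_S ^ e`. -/
theorem associated_pow_ramIdx (πR : R) (hR : Irreducible πR) (πS : integralClosure R L)
    (hS : Irreducible πS) :
    Associated (algebraMap R (integralClosure R L) πR) (πS ^ ramIdx R K L) := by
  haveI := isDVR_intCl R K L
  haveI := finite_intCl R K L
  haveI := isLocalHom_intCl R K L
  haveI := faithfulSMul_intCl R K L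
  have hy0 : algebraMap R (integralClosure R L) πR ≠ 0 := by
    intro h
    apply hR.ne_zero
    exact injective_algebraMap_intCl R K L (by rw [h, map_zero])
  obtain ⟨m, u, hu⟩ := IsDiscreteValuationRing.eq_unit_mul_pow_irreducible hy0 hS
  have hp : maximalIdeal R = Ideal.span {πR} :=
    (IsDiscreteValuationRing.irreducible_iff_uniformizer πR).mp hR
  have hP : maximalIdeal (integralClosure R L) = Ideal.span {πS} :=
    (IsDiscreteValuationRing.irreducible_iff_uniformizer πS).mp hS
  have hmap : Ideal.map (algebraMap R (integralClosure R L)) (maximalIdeal R) =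
      Ideal.span {algebraMap R (integralClosure R L) πR} := by
    rw [hp, Ideal.map_span, Set.image_singleton]
  have hle : Ideal.map (algebraMap R (integralClosure R L)) (maximalIdeal R) ≤
      maximalIdeal (integralClosure R L) ^ m := by
    rw [hmap, hP, Ideal.span_singleton_pow, Ideal.span_singleton_le_span_singleton, hu]
    exact Dvd.intro_left _ rfl
  have hgt : ¬ Ideal.map (algebraMap R (integralClosure R L)) (maximalIdeal R) ≤
      maximalIdeal (integralClosure R L) ^ (m + 1) := by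
    rw [hmap, hP, Ideal.span_singleton_pow, Ideal.span_singleton_le_span_singleton, hu]
    rintro ⟨c, hc⟩
    have hπ0 : πS ^ m ≠ 0 := pow_ne_zero _ hS.ne_zero
    have : (u : integralClosure R L) = πS * c := by
      have h2 : πS ^ m * (u : integralClosure R L) = πS ^ m * (πS * c) := by
        rw [mul_comm, hc, pow_succ]; ring
      exact mul_left_cancel₀ hπ0 h2
    exact hS.not_isUnit (isUnit_of_mul_isUnit_left (this ▸ u.isUnit))
  have he : ramIdx R K L = m := by
    unfold ramIdx
    rw [← Ideal.ramificationIdx'_eq_ramificationIdx (maximalIdeal R)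
      (maximalIdeal (integralClosure R L)) (IsDiscreteValuationRing.not_a_field R)]
    exact Ideal.ramificationIdx'_spec hle hgt
  rw [he, hu]
  exact ⟨u⁻¹, by rw [mul_comm _ (πS ^ m), mul_assoc]; simp⟩

include K in
/-- In the Galois case the inertia group has order `e`. -/
theorem card_inertia_eq_ramIdx [IsGalois K L] :
    haveI := isLocalRing_intCl R K L
    letI : MulSemiringAction Gal(L/K) (integralClosure R L) :=
      IsIntegralClosure.MulSemiringAction R K L (integralClosure R L)
    Nat.card ((maximalIdeal (integralClosure R L)).inertia Gal(L/K)) = ramIdx R K L := by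
  haveI := isDVR_intCl R K L
  haveI := finite_intCl R K L
  haveI := isFractionRing_intCl R K L
  haveI := isLocalHom_intCl R K L
  haveI := faithfulSMul_intCl R K L
  letI : MulSemiringAction Gal(L/K) (integralClosure R L) :=
    IsIntegralClosure.MulSemiringAction R K L (integralClosure R L)
  haveI : IsGaloisGroup Gal(L/K) R (integralClosure R L) :=
    IsGaloisGroup.of_isFractionRing _ _ _ K L
  haveI : Finite (R ⧸ maximalIdeal R) := ‹Finite (ResidueField R)›
  rw [Ideal.card_inertia_eq_ramificationIdxIn (G := Gal(L/K)) (maximalIdeal R)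
    (maximalIdeal (integralClosure R L)),
    Ideal.ramificationIdxIn_eq_ramificationIdx (maximalIdeal R)
    (maximalIdeal (integralClosure R L)) Gal(L/K)]
  rfl

/-- The residue degree of `integralClosure R L` over `R`. -/
noncomputable def resDeg : ℕ :=
  haveI := isLocalRing_intCl R K L
  (maximalIdeal (integralClosure R L)).inertiaDeg R

include K in
theorem ramIdx_mul_resDeg : ramIdx R K L * resDeg R K L = Module.finrank K L := by
  haveI := isDVR_intCl R K L
  haveI := finite_intCl R K L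
  haveI := isFractionRing_intCl R K L
  haveI := isLocalHom_intCl R K L
  haveI := faithfulSMul_intCl R K L
  haveI : FaithfulSMul R L := by
    rw [faithfulSMul_iff_algebraMap_injective, IsScalarTower.algebraMap_eq R K L]
    exact (algebraMap K L).injective.comp (IsFractionRing.injective R K)
  haveI : Fintype ((maximalIdeal R).primesOver (integralClosure R L)) := Fintype.ofFinite _
  have h4 := Ideal.sum_ramification_inertia_eq_finrank (maximalIdeal R) (integralClosure R L)
  have hP : (maximalIdeal (integralClosure R L)) ∈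
      (maximalIdeal R).primesOver (integralClosure R L) := ⟨inferInstance, inferInstance⟩
  have huniq : ∀ q : (maximalIdeal R).primesOver (integralClosure R L),
      q = ⟨_, hP⟩ := by
    rintro ⟨q, hq1, hq2⟩
    apply Subtype.ext
    show q = maximalIdeal (integralClosure R L)
    have hq0 : q ≠ ⊥ := by
      intro h
      have h1 := hq2.over
      rw [h] at h1
      have : maximalIdeal R = ⊥ := by
        rw [h1]
        exact Ideal.comap_bot_of_injective _ (injective_algebraMap_intCl R K L)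
      exact IsDiscreteValuationRing.not_a_field R this
    exact IsLocalRing.eq_maximalIdeal (hq1.isMaximal hq0)
  rw [Fintype.sum_eq_single ⟨_, hP⟩ (fun q hq => absurd (huniq q) hq)] at h4
  rw [← IsIntegralClosure.rank R K L (integralClosure R L), ← h4]
  rfl



end Generic

end Fermat.Agent.S55.Local.H608

end
-- ===== PACK-END S55/Local/H608/Ram.lean

-- ===== PACK-BEGIN S55/L/H715/Transport.lean
section




/-!
# S55, layer L (helper715): transport of class modules along equivariant isomorphisms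

`e : G ≃* G'`, `A : Rep ℤ G`, `B : Rep ℤ G'`, `φ : A.V ≃+ B.V` with `φ (g • x) = e g • φ x`.
For every subgroup `H ≤ G` and every `n`, `Hⁿ(H, A) ≅ Hⁿ(e H, B)` (`subIso715`); consequently
the hypotheses of the class-module criterion transport from `B` to `A`, and so does Hilbert 90
(`isZero_H1_of_equiv715`).  Also: a class module (layer T) is a class module at every `p`
(engine E1), `isClassModuleAt_of_isClassModule715`.
-/

set_option autoImplicit false

namespace Fermat.Agent.S55.L.H715

open CategoryTheory groupCohomology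

section Generic

variable {G G' : Type} [Group G] [Group G'] (e : G ≃* G') {A : Rep.{0} ℤ G} {B : Rep.{0} ℤ G'}
  (φ : A.V ≃+ B.V)

/-- An additive equivalence between the underlying groups of two `ℤ`-representations, as a
`ℤ`-linear equivalence for the module structures carried by the representations. -/
noncomputable def linOfAdd715 :
    @LinearEquiv ℤ ℤ _ _ (RingHom.id ℤ) (RingHom.id ℤ) _ _ A.V B.V _ _ A.hV2 B.hV2 :=
  @LinearEquiv.mk ℤ ℤ _ _ (RingHom.id ℤ) (RingHom.id ℤ) _ _ A.V B.V _ _ A.hV2 B.hV2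
    (@LinearMap.mk ℤ ℤ _ _ (RingHom.id ℤ) A.V B.V _ _ A.hV2 B.hV2 φ.toAddMonoidHom
      (fun c x => by
        have h := @map_intCast_smul A.V B.V _ _ _ _ _ φ.toAddMonoidHom ℤ ℤ _ _ A.hV2 B.hV2 c x
        simpa using h))
    φ.symm φ.left_inv φ.right_inv

@[simp] theorem linOfAdd715_apply (x : A.V) : linOfAdd715 φ x = φ x := rfl

/-- `Hⁿ(H, A) ≅ Hⁿ(e H, B)`. -/
noncomputable def subIso715 (hφ : ∀ (g : G) (x : A.V), φ (A.ρ g x) = B.ρ (e g) (φ x))
    (H : Subgroup G) (n : ℕ) :
    groupCohomology (T.resSub A H) n ≅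
      groupCohomology (T.resSub B (H.map e.toMonoidHom)) n :=
  groupCohomology.mapIso (A := T.resSub B (H.map e.toMonoidHom)) (B := T.resSub A H)
    (e.subgroupMap H) (linOfAdd715 φ)
    (fun g => DFunLike.ext _ _ (fun x => hφ g.1 x)) n

/-- Hilbert 90 (vanishing of `H¹` of all subgroups) transports along an equivariant
isomorphism. -/
theorem isZero_H1_of_equiv715 (hφ : ∀ (g : G) (x : A.V), φ (A.ρ g x) = B.ρ (e g) (φ x))
    (h : ∀ H' : Subgroup G', Limits.IsZero (groupCohomology (T.resSub B H') 1))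
    (H : Subgroup G) : Limits.IsZero (groupCohomology (T.resSub A H) 1) :=
  (h (H.map e.toMonoidHom)).of_iso (subIso715 e φ hφ H 1)

theorem subsingleton_H1_of_equiv715
    (hφ : ∀ (g : G) (x : A.V), φ (A.ρ g x) = B.ρ (e g) (φ x))
    (h : ∀ H' : Subgroup G', Subsingleton (groupCohomology (T.resSub B H') 1))
    (H : Subgroup G) : Subsingleton (groupCohomology (T.resSub A H) 1) :=
  haveI := h (H.map e.toMonoidHom)
  (subIso715 e φ hφ H 1).toLinearEquiv.toEquiv.subsingleton

theorem card_map_equiv715 (H : Subgroup G) :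
    Nat.card (H.map e.toMonoidHom) = Nat.card H :=
  (Nat.card_congr (e.subgroupMap H).toEquiv).symm

theorem nonempty_H2_equiv_of_equiv715
    (hφ : ∀ (g : G) (x : A.V), φ (A.ρ g x) = B.ρ (e g) (φ x))
    (h : ∀ H' : Subgroup G',
      Nonempty (groupCohomology (T.resSub B H') 2 ≃+ ZMod (Nat.card H')))
    (H : Subgroup G) :
    Nonempty (groupCohomology (T.resSub A H) 2 ≃+ ZMod (Nat.card H)) := by
  obtain ⟨f⟩ := h (H.map e.toMonoidHom)
  exact ⟨((subIso715 e φ hφ H 2).toLinearEquiv.toAddEquiv.trans f).trans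
    (ZMod.ringEquivCongr (card_map_equiv715 e H)).toAddEquiv⟩

end Generic

section Cyclic

/-- An abelian group generated by `g` with annihilator `m ℤ` (`m > 0`) has `m` elements, and
every element is a natural multiple of `g`. -/
theorem cyclic_aux715 {M : Type} [AddCommGroup M] (g : M) (m : ℕ) (hm : 0 < m)
    (h2 : ∀ x : M, ∃ c : ℤ, x = c • g)
    (h3 : ∀ c : ℤ, c • g = 0 → ∃ d : ℤ, c = (m : ℤ) * d)
    (h4 : (m : ℤ) • g = 0) :
    Nat.card M = m ∧ ∀ x : M, ∃ n : ℕ, x = n • g := by
  have h4' : m • g = 0 := by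
    rw [← natCast_zsmul]
    exact h4
  have h2' : ∀ x : M, ∃ n : ℕ, x = n • g := by
    intro x
    obtain ⟨c, hc⟩ := h2 x
    refine ⟨(c % (m : ℤ)).toNat, ?_⟩
    have hnn : 0 ≤ c % (m : ℤ) := Int.emod_nonneg _ (by exact_mod_cast hm.ne')
    have e2 : ((c % (m : ℤ)).toNat : ℤ) = c % (m : ℤ) := Int.toNat_of_nonneg hnn
    have e1 : c = (c / (m : ℤ)) * (m : ℤ) + c % (m : ℤ) := by
      rw [mul_comm]
      exact (Int.mul_ediv_add_emod c _).symm
    rw [hc, ← natCast_zsmul, e2]
    conv_lhs => rw [e1]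
    rw [add_zsmul, mul_zsmul, h4, zsmul_zero, zero_add]
  refine ⟨?_, h2'⟩
  have htop : AddSubgroup.zmultiples g = ⊤ := by
    rw [eq_top_iff]
    intro x _
    obtain ⟨n, hn⟩ := h2' x
    rw [hn]
    exact AddSubgroup.nsmul_mem _ (AddSubgroup.mem_zmultiples g) n
  have hord : addOrderOf g = m := by
    rw [addOrderOf_eq_iff hm]
    refine ⟨h4', fun j hj hj0 hjg => ?_⟩
    have hj' : (j : ℤ) • g = 0 := by
      rw [natCast_zsmul]
      exact hjg
    obtain ⟨d, hd⟩ := h3 (j : ℤ) hj'
    have hdvd : (m : ℤ) ∣ (j : ℤ) := ⟨d, hd⟩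
    have hdvd' : m ∣ j := by exact_mod_cast hdvd
    exact absurd (Nat.le_of_dvd hj0 hdvd') (not_le.2 hj)
  rw [← hord, ← Nat.card_zmultiples, htop]
  exact (Nat.card_congr (AddSubgroup.topEquiv (G := M)).toEquiv).symm

end Cyclic

section ClassModuleAt

variable {G : Type} [Group G] [Finite G] (C : Rep.{0} ℤ G)

/-- A class module is a class module at every `p`. -/
theorem isClassModuleAt_of_isClassModule715 (p : ℕ) {γ : groupCohomology C 2}
    (hγ : T.IsClassModule C γ) : E1.IsClassModuleAt p C γ := by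
  intro H _
  obtain ⟨h1, h2, h3, h4⟩ := hγ H
  obtain ⟨hc, hg⟩ := cyclic_aux715 ((T.resMap C H 2).hom γ) (Nat.card H) Nat.card_pos
    (fun x => by
      obtain ⟨c, hc⟩ := h2 x
      exact ⟨c, hc.trans (int_smul_eq_zsmul _ c _)⟩)
    (fun c hc => h3 c ((int_smul_eq_zsmul _ c _).trans hc))
    ((int_smul_eq_zsmul _ _ _).symm.trans h4)
  exact ⟨h1, hc, hg⟩

/-- The class-module criterion, delivering a class module at `p`. -/
theorem exists_isClassModuleAt715 (p : ℕ)
    (h1 : ∀ H : Subgroup G, Subsingleton (groupCohomology (T.resSub C H) 1))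
    (h2 : ∀ H : Subgroup G, Nonempty (groupCohomology (T.resSub C H) 2 ≃+ ZMod (Nat.card H))) :
    ∃ γ : groupCohomology C 2, E1.IsClassModuleAt p C γ := by
  obtain ⟨γ, hγ⟩ := exists_isClassModule_h301 C h1 h2
  exact ⟨γ, isClassModuleAt_of_isClassModule715 C p hγ⟩

end ClassModuleAt

end Fermat.Agent.S55.L.H715

end
-- ===== PACK-END S55/L/H715/Transport.lean

-- ===== PACK-BEGIN S55/G/Rec/StepACycH511.lean
section



/-!
# S55 / layer G / block REC / STEP A : toolkit (helper511)

* `H511.cyc m : G_ℚ →* (ℤ/m)ˣ` : the cyclotomic character mod `m`, with `cyc_spec`, `cyc_coe_eq_of_acts`,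
  `cyc_eq_one_iff`;
* `H511.loc_acts_of_acts` : local action on `μ_m(ℚ̄_q)` ⟹ global action of `localGaloisToGlobal τ`;
* `H511.isOpenL_locSub` : `locSub q g U` is open if `U` is;
* `H511.index_ne_zero_of_isOpenL` : open subgroups of `G_{ℚ_q}` have finite index.
-/

set_option autoImplicit false
set_option linter.style.haveILetI false

noncomputable section

namespace Fermat.Agent.S55.G.Rec.H511

open Fermat.Agent.S55.G.Rec

local notation "Qb" => AlgebraicClosure ℚ
local notation "GQ" => (AlgebraicClosure ℚ ≃ₐ[ℚ] AlgebraicClosure ℚ)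

/-! ## The cyclotomic character mod `m` -/

section Cyc

variable (m : ℕ) [NeZero m]

lemma exists_primitiveRoot_Qb : ∃ μ : Qb, IsPrimitiveRoot μ m :=
  HasEnoughRootsOfUnity.exists_primitiveRoot Qb m

/-- A chosen primitive `m`-th root of unity in `ℚ̄`. -/
def muQb : Qb := (exists_primitiveRoot_Qb m).choose

lemma muQb_spec : IsPrimitiveRoot (muQb m) m := (exists_primitiveRoot_Qb m).choose_spec

/-- The cyclotomic character mod `m`. -/
def cyc : GQ →* (ZMod m)ˣ := (muQb_spec m).autToPow ℚ

lemma cyc_spec (σ : GQ) {ζ : Qb} (hζ : ζ ^ m = 1) :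
    σ ζ = ζ ^ ((cyc m σ : (ZMod m)ˣ) : ZMod m).val := by
  obtain ⟨i, -, rfl⟩ := (muQb_spec m).eq_pow_of_pow_eq_one hζ
  have h : muQb m ^ ((cyc m σ : (ZMod m)ˣ) : ZMod m).val = σ (muQb m) :=
    (muQb_spec m).autToPow_spec ℚ σ
  rw [map_pow, ← h, ← pow_mul, ← pow_mul, mul_comm]

lemma cyc_coe_eq_of_acts (σ : GQ) (N : ℕ) (h : ∀ ζ : Qb, ζ ^ m = 1 → σ ζ = ζ ^ N) :
    ((cyc m σ : (ZMod m)ˣ) : ZMod m) = (N : ZMod m) := by
  have h1 := cyc_spec m σ (muQb_spec m).pow_eq_one
  rw [h _ (muQb_spec m).pow_eq_one] at h1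
  have hfin : IsOfFinOrder (muQb m) :=
    isOfFinOrder_iff_pow_eq_one.mpr ⟨m, Nat.pos_of_ne_zero (NeZero.ne m), (muQb_spec m).pow_eq_one⟩
  have h2 := hfin.pow_eq_pow_iff_modEq.mp h1
  rw [← (muQb_spec m).eq_orderOf] at h2
  have h3 := (ZMod.natCast_eq_natCast_iff _ _ _).mpr h2
  rw [h3, ZMod.natCast_val, ZMod.cast_id', id]

lemma cyc_eq_one_of_fixes (σ : GQ) (h : ∀ ζ : Qb, ζ ^ m = 1 → σ ζ = ζ) : cyc m σ = 1 := by
  apply Units.ext
  rw [cyc_coe_eq_of_acts m σ 1 (fun ζ hζ => by rw [h ζ hζ, pow_one])]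
  simp

lemma fixes_of_cyc_eq_one (σ : GQ) (h : cyc m σ = 1) {ζ : Qb} (hζ : ζ ^ m = 1) : σ ζ = ζ := by
  rw [cyc_spec m σ hζ, h, Units.val_one]
  by_cases hm : m = 1
  · subst hm
    rw [pow_one] at hζ
    rw [hζ, one_pow]
  · haveI : Fact (1 < m) := ⟨lt_of_le_of_ne (Nat.pos_of_ne_zero (NeZero.ne m)) (Ne.symm hm)⟩
    rw [ZMod.val_one, pow_one]

lemma cyc_conj (g x : GQ) : cyc m (g * x * g⁻¹) = cyc m x := by
  rw [map_mul, map_mul, map_inv, mul_comm, inv_mul_cancel_left]

end Cyc

/-! ## From local to global roots of unity -/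

section LocGlob

variable (q : ℕ) [Fact q.Prime]

local notation "Gq" => (PadicAlgCl q ≃ₐ[ℚ_[q]] PadicAlgCl q)

lemma padicEmbedding_injective : Function.Injective (padicEmbedding q) :=
  (padicEmbedding q).toRingHom.injective

/-- If `τ` acts on the local `m`-th roots of unity by `ζ ↦ ζ ^ N`, then so does its global
image on the global ones. -/
lemma loc_acts_of_acts (m N : ℕ) (τ : Gq)
    (h : ∀ ζ : PadicAlgCl q, ζ ^ m = 1 → τ ζ = ζ ^ N) (ζ : Qb) (hζ : ζ ^ m = 1) :
    localGaloisToGlobal q τ ζ = ζ ^ N := by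
  apply padicEmbedding_injective q
  rw [padicEmbedding_localGaloisToGlobal, map_pow]
  exact h _ (by rw [← map_pow, hζ, map_one])

lemma cyc_loc_coe (m : ℕ) [NeZero m] (N : ℕ) (τ : Gq)
    (h : ∀ ζ : PadicAlgCl q, ζ ^ m = 1 → τ ζ = ζ ^ N) :
    ((cyc m (localGaloisToGlobal q τ) : (ZMod m)ˣ) : ZMod m) = (N : ZMod m) :=
  cyc_coe_eq_of_acts m _ N (loc_acts_of_acts q m N τ h)

lemma cyc_loc_eq_one (m : ℕ) [NeZero m] (τ : Gq)
    (h : ∀ ζ : PadicAlgCl q, ζ ^ m = 1 → τ ζ = ζ) :
    cyc m (localGaloisToGlobal q τ) = 1 := by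
  apply cyc_eq_one_of_fixes
  intro ζ hζ
  have := loc_acts_of_acts q m 1 τ (fun ζ hζ => by rw [h ζ hζ, pow_one]) ζ hζ
  rwa [pow_one] at this

/-! ## Openness -/

lemma isOpenL_locSub (g : GQ) (U : Subgroup GQ) (hU : IsOpenQ U) : IsOpenL q (locSub q g U) := by
  classical
  obtain ⟨F, hF, hFU⟩ := hU
  haveI := hF
  set F' : IntermediateField ℚ Qb := F.map (g⁻¹ : GQ).toAlgHom with hF'
  haveI : FiniteDimensional ℚ F' := finiteDimensional_map_inv F g
  let b := Module.finBasis ℚ F'
  let s : Finset (PadicAlgCl q) := Finset.univ.image fun i => padicEmbedding q ((b i : F') : Qb)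
  refine ⟨IntermediateField.adjoin ℚ_[q] (s : Set (PadicAlgCl q)), ?_, ?_⟩
  · exact IntermediateField.finiteDimensional_adjoin
      (fun x _ => (Algebra.IsAlgebraic.isAlgebraic x).isIntegral)
  · intro τ hτ
    rw [mem_locSub]
    apply hFU
    rw [← mem_fixingSubgroup_map_inv]
    rw [IntermediateField.mem_fixingSubgroup_iff] at hτ ⊢
    have hb : ∀ i, localGaloisToGlobal q τ ((b i : F') : Qb) = ((b i : F') : Qb) := by
      intro i
      apply padicEmbedding_injective q
      rw [padicEmbedding_localGaloisToGlobal]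
      apply hτ
      apply IntermediateField.subset_adjoin
      exact Finset.mem_coe.mpr (Finset.mem_image.mpr ⟨i, Finset.mem_univ _, rfl⟩)
    intro x hx
    have hx' : (⟨x, hx⟩ : F') = ∑ i, (b.repr ⟨x, hx⟩ i) • b i := (b.sum_repr ⟨x, hx⟩).symm
    have hx'' : x = ∑ i, (b.repr ⟨x, hx⟩ i) • ((b i : F') : Qb) := by
      have h1 := congrArg (fun y : F' => (y : Qb)) hx'
      have h2 : ((∑ i, (b.repr ⟨x, hx⟩ i) • b i : F') : Qb) =
          ∑ i, (b.repr ⟨x, hx⟩ i) • ((b i : F') : Qb) := by
        rw [IntermediateField.coe_sum]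
        rfl
      exact h1.trans h2
    rw [hx'', map_sum]
    refine Finset.sum_congr rfl fun i _ => ?_
    rw [Algebra.smul_def, map_mul, AlgEquiv.commutes, hb i]

lemma index_ne_zero_of_isOpenL (V : Subgroup Gq) (hV : IsOpenL q V) : V.index ≠ 0 := by
  obtain ⟨E, hE, hEV⟩ := hV
  haveI := hE
  have h1 : E.fixingSubgroup.index ≠ 0 := by
    rw [← IntermediateField.finrank_eq_fixingSubgroup_index]
    exact Module.finrank_pos.ne'
  exact fun h0 => h1 (Nat.eq_zero_of_zero_dvd (h0 ▸ Subgroup.index_dvd_of_le hEV))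

lemma finite_quotient_of_isOpenL (V : Subgroup Gq) (hV : IsOpenL q V) : Finite (Gq ⧸ V) :=
  haveI : V.FiniteIndex := ⟨index_ne_zero_of_isOpenL q V hV⟩
  Subgroup.finite_quotient_of_finiteIndex

end LocGlob

end Fermat.Agent.S55.G.Rec.H511

end
end
-- ===== PACK-END S55/G/Rec/StepACycH511.lean

-- ===== PACK-BEGIN S55/G/Rec/OpenH415.lean
section



/-!
# S55 / layer G / block REC : openness helpers (helper415)

* `index_ne_zero_of_isOpenQ` : an open subgroup of `G_ℚ` has finite index;
* `isOpenL_locSub` : the local group `locSub q g U` of an open `U` is open;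
* `isOpenQ_of_le`, `isOpenQ_inf_fixingSubgroup` : bigger subgroups are open, intersections with
  finite levels are open;
* `relIndex_locSub_ker` : the local degree `[V_v : V'_w]` for `V' = locSub q g (ker χ)` is the
  cardinality of the image of `χ ∘ locHom`.
-/

set_option autoImplicit false

noncomputable section

namespace Fermat.Agent.S55.G.Rec.H415

open Fermat.Agent.S55.G.Rec groupCohomology

local notation "Qb" => AlgebraicClosure ℚ
local notation "GQ" => (AlgebraicClosure ℚ ≃ₐ[ℚ] AlgebraicClosure ℚ)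

/-- An open subgroup of `G_ℚ` has finite index. -/
theorem index_ne_zero_of_isOpenQ {U : Subgroup GQ} (hU : IsOpenQ U) : U.index ≠ 0 := by
  obtain ⟨F, hF, hFU⟩ := hU
  haveI := hF
  haveI : IsAlgClosure ℚ Qb := ⟨inferInstance, AlgebraicClosure.isAlgebraic ℚ⟩
  haveI : Normal ℚ Qb := IsAlgClosure.normal ℚ Qb
  haveI : IsGalois ℚ Qb := isGalois_iff.mpr ⟨inferInstance, inferInstance⟩
  have h1 : F.fixingSubgroup.index ≠ 0 := by
    rw [← IntermediateField.finrank_eq_fixingSubgroup_index]
    exact (Module.finrank_pos (R := ℚ) (M := F)).ne'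
  haveI : F.fixingSubgroup.FiniteIndex := ⟨h1⟩
  exact (Subgroup.finiteIndex_of_le hFU).index_ne_zero

/-- A subgroup containing an open subgroup is open. -/
theorem isOpenQ_of_le {U U' : Subgroup GQ} (hU : IsOpenQ U) (h : U ≤ U') : IsOpenQ U' := by
  obtain ⟨F, hF, hFU⟩ := hU
  exact ⟨F, hF, hFU.trans h⟩

/-- The subgroup of an open subgroup `U` cut out by a finite level is open. -/
theorem isOpenQ_of_level {U U' : Subgroup GQ} (hU : IsOpenQ U)
    (F' : IntermediateField ℚ Qb) [FiniteDimensional ℚ F']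
    (h : ∀ σ ∈ U, σ ∈ F'.fixingSubgroup → σ ∈ U') : IsOpenQ U' := by
  obtain ⟨F, hF, hFU⟩ := hU
  haveI := hF
  refine ⟨F ⊔ F', inferInstance, fun σ hσ => ?_⟩
  exact h σ (hFU (IntermediateField.fixingSubgroup_antitone le_sup_left hσ))
    (IntermediateField.fixingSubgroup_antitone le_sup_right hσ)

/-- The local group of an open subgroup is open. -/
theorem isOpenL_locSub {U : Subgroup GQ} (hU : IsOpenQ U) (q : ℕ) [Fact q.Prime] (g : GQ) :
    IsOpenL q (locSub q g U) := by
  obtain ⟨F, hF, hFU⟩ := hU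
  haveI := hF
  haveI := finiteDimensional_map_inv F g
  obtain ⟨E, hE, hEF⟩ :=
    Fermat.Agent.S55.Bridge.exists_local_level_of_global q (F.map (g⁻¹ : GQ).toAlgHom)
  refine ⟨E, hE, fun τ hτ => ?_⟩
  rw [mem_locSub]
  exact hFU ((mem_fixingSubgroup_map_inv F g _).1 (hEF τ hτ))

/-- The local degree `[V_v : V'_w]`, `V' = locSub q g (ker χ)`, is the cardinality of the image of
the local character `χ ∘ locHom`. -/
theorem relIndex_locSub_ker (q : ℕ) [Fact q.Prime] (g : GQ) (U : Subgroup GQ) {B : Type*}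
    [Group B] (χ : ↥U →* B) :
    (locSub q g (χ.ker.map U.subtype)).relIndex (locSub q g U) =
      Nat.card (χ.comp (locHom q g U)).range := by
  rw [← Subgroup.index_ker, Subgroup.relIndex]
  congr 1
  ext τ
  rw [Subgroup.mem_subgroupOf, mem_locSub, MonoidHom.mem_ker, Subgroup.mem_map]
  constructor
  · rintro ⟨u, hu, hu'⟩
    have : u = locHom q g U τ := Subtype.ext hu'
    rw [MonoidHom.comp_apply, ← this]
    exact hu
  · intro h
    exact ⟨locHom q g U τ, h, rfl⟩

end Fermat.Agent.S55.G.Rec.H415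

end
end
-- ===== PACK-END S55/G/Rec/OpenH415.lean

-- ===== PACK-BEGIN S55/G/Rec/SCH174/Char.lean
section



/-!
# S55 / G / REC, leaf SC (helper174) : the `p`-part of the cyclotomic character mod `r`

For primes `p ≠ r` and `n = p ^ v_p(r - 1)` we construct a character
`chiQ p r : G_ℚ →* Multiplicative (ZMod n)`, cyclotomic mod `r`, level-constant, such that an
element acting on `μ_r` by `ζ ↦ ζ ^ (p ^ f)` is sent to `f • t₀`, where
`addOrderOf t₀ = orderOf (p : ZMod r)` whenever the latter is a power of `p`.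
-/

set_option autoImplicit false
set_option linter.style.haveILetI false
set_option linter.unusedSectionVars false

noncomputable section

namespace Fermat.Agent.S55.G.Rec.H174

open groupCohomology Fermat.Agent.S55.G.Rec

local notation "Qb" => AlgebraicClosure ℚ
local notation "GQ" => (AlgebraicClosure ℚ ≃ₐ[ℚ] AlgebraicClosure ℚ)

/-! ## Abstract cyclic group lemma -/

section Cyclic

variable {G H : Type*} [Group G] [Group H]

/-- A homomorphism from a cyclic group of order `p ^ M * s` (`p ∤ s`) which maps a generator to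
an element of order `p ^ M` preserves the order of elements of `p`-power order. -/
theorem orderOf_map_of_generator {p M s : ℕ} (hp : p.Prime) (hs : p.Coprime s) {γ : G}
    (hγ : ∀ x, x ∈ Subgroup.zpowers γ) (hcard : orderOf γ = p ^ M * s) (ψ : G →* H)
    (hψ : orderOf (ψ γ) = p ^ M) {x : G} {a : ℕ} (hx : orderOf x = p ^ a) :
    orderOf (ψ x) = p ^ a := by
  have hker : ∀ y : G, ψ y = 1 → y ^ s = 1 := by
    intro y hy
    obtain ⟨i, rfl⟩ := Subgroup.mem_zpowers_iff.1 (hγ y)
    rw [map_zpow] at hy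
    have h1 : ((p ^ M : ℕ) : ℤ) ∣ i := by
      rw [← hψ]
      exact orderOf_dvd_iff_zpow_eq_one.2 hy
    obtain ⟨i', rfl⟩ := h1
    rw [← zpow_natCast, ← zpow_mul]
    apply orderOf_dvd_iff_zpow_eq_one.1
    rw [hcard]
    refine ⟨i', ?_⟩
    push_cast
    ring
  have hdvd : orderOf (ψ x) ∣ p ^ a := by
    rw [← hx]
    exact orderOf_map_dvd ψ x
  obtain ⟨b, hb, hbeq⟩ := (Nat.dvd_prime_pow hp).1 hdvd
  have h2 : ψ (x ^ (p ^ b)) = 1 := by
    rw [map_pow, ← hbeq]
    exact pow_orderOf_eq_one _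
  have h3 := hker _ h2
  rw [← pow_mul] at h3
  have h4 : p ^ a ∣ p ^ b * s := by
    rw [← hx]
    exact orderOf_dvd_of_pow_eq_one h3
  have h5 : p ^ a ∣ p ^ b := (Nat.Coprime.pow_left a hs).dvd_of_dvd_mul_right h4
  have h6 : a ≤ b := (Nat.pow_dvd_pow_iff_le_right hp.one_lt).1 h5
  rw [hbeq, le_antisymm hb h6]

end Cyclic

/-! ## The character -/

variable (p r : ℕ) [Fact p.Prime] [Fact r.Prime]

/-- `M = v_p (r - 1)`. -/
def expM : ℕ := (r - 1).factorization p

/-- `n = p ^ M`, the `p`-part of `r - 1`. -/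
def ppart : ℕ := p ^ expM p r

lemma ppart_ne_zero : ppart p r ≠ 0 := pow_ne_zero _ (Fact.out : p.Prime).ne_zero

instance neZero_ppart : NeZero (ppart p r) := ⟨ppart_ne_zero p r⟩

lemma ppart_dvd : ppart p r ∣ r - 1 := Nat.ordProj_dvd (r - 1) p

lemma card_units_zmod : Nat.card (ZMod r)ˣ = r - 1 := by
  rw [Nat.card_eq_fintype_card, ZMod.card_units]

/-- A generator of `(ℤ/r)ˣ`. -/
def gen : (ZMod r)ˣ := Classical.choose (IsCyclic.exists_generator (α := (ZMod r)ˣ))

lemma gen_spec : ∀ x, x ∈ Subgroup.zpowers (gen r) :=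
  Classical.choose_spec (IsCyclic.exists_generator (α := (ZMod r)ˣ))

lemma orderOf_gen : orderOf (gen r) = r - 1 := by
  rw [orderOf_eq_card_of_forall_mem_zpowers (gen_spec r), card_units_zmod]

lemma orderOf_ofAdd_one : orderOf (Multiplicative.ofAdd (1 : ZMod (ppart p r))) = ppart p r := by
  rw [orderOf_ofAdd_eq_addOrderOf, ZMod.addOrderOf_one]

/-- The projection `(ℤ/r)ˣ → ℤ/n` onto the `p`-part. -/
def psi : (ZMod r)ˣ →* Multiplicative (ZMod (ppart p r)) :=
  monoidHomOfForallMemZpowers (gen_spec r)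
    (g' := Multiplicative.ofAdd (1 : ZMod (ppart p r)))
    (by rw [orderOf_ofAdd_one, orderOf_gen]; exact ppart_dvd p r)

lemma psi_gen : psi p r (gen r) = Multiplicative.ofAdd (1 : ZMod (ppart p r)) :=
  monoidHomOfForallMemZpowers_apply_gen _ _

/-- `psi` preserves the order of elements of `p`-power order. -/
theorem orderOf_psi {x : (ZMod r)ˣ} {a : ℕ} (hx : orderOf x = p ^ a) :
    orderOf (psi p r x) = p ^ a := by
  have hp : p.Prime := Fact.out
  have hr : r.Prime := Fact.out
  have hr1 : r - 1 ≠ 0 := by have := hr.two_le; omega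
  refine orderOf_map_of_generator (M := expM p r) (s := (r - 1) / p ^ expM p r) hp
    (Nat.coprime_ordCompl hp hr1) (gen_spec r) ?_ (psi p r) ?_ hx
  · rw [orderOf_gen]
    exact (Nat.ordProj_mul_ordCompl_eq_self (r - 1) p).symm
  · rw [psi_gen, orderOf_ofAdd_one]
    rfl

/-- The `p`-part of the cyclotomic character mod `r`, on `G_ℚ`. -/
def chiQ : GQ →* Multiplicative (ZMod (ppart p r)) :=
  (psi p r).comp (ExtCitation.cycloChar r)

/-- The `p`-part of the cyclotomic character mod `r`, on `U`. -/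
def chiU (U : Subgroup GQ) : ↥U →* Multiplicative (ZMod (ppart p r)) :=
  (chiQ p r).comp U.subtype

lemma chiU_apply (U : Subgroup GQ) (σ : ↥U) : chiU p r U σ = chiQ p r (σ : GQ) := rfl

/-! ## The cyclotomic character and the action on `μ_r` -/

/-- If `σ` acts on `μ_r` by `ζ ↦ ζ ^ m` then `cycloChar r σ = m`. -/
theorem cycloChar_eq_of_acts {σ : GQ} {m : ℕ} (h : ∀ ζ : Qb, ζ ^ r = 1 → σ ζ = ζ ^ m) :
    ((ExtCitation.cycloChar r σ : (ZMod r)ˣ) : ZMod r) = (m : ZMod r) := by
  have hr : r.Prime := Fact.out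
  haveI : NeZero r := ⟨hr.ne_zero⟩
  symm
  refine modularCyclotomicCharacter.unique (L := Qb) (ExtCitation.card_rootsOfUnity_eq_self r)
    (σ : Qb ≃+* Qb) (c := (m : ZMod r)) ?_
  intro t ht
  have ht' : ((t : Qbˣ) : Qb) ^ r = 1 := by
    have := (mem_rootsOfUnity r t).1 ht
    rw [← Units.val_pow_eq_pow_val, this, Units.val_one]
  rw [ZMod.val_natCast]
  have h1 := h (t : Qb) ht'
  have h2 : ((t : Qbˣ) : Qb) ^ m = ((t : Qbˣ) : Qb) ^ (m % r) := pow_eq_pow_mod m ht'
  rw [← h2]
  exact h1

/-- If `σ` fixes `μ_r` then `cycloChar r σ = 1`. -/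
theorem cycloChar_eq_one_of_fixes {σ : GQ} (h : ∀ ζ : Qb, ζ ^ r = 1 → σ ζ = ζ) :
    ExtCitation.cycloChar r σ = 1 := by
  apply Units.ext
  rw [cycloChar_eq_of_acts r (σ := σ) (m := 1) (fun ζ hζ => by rw [h ζ hζ, pow_one])]
  simp

theorem chiQ_eq_one_of_fixes {σ : GQ} (h : ∀ ζ : Qb, ζ ^ r = 1 → σ ζ = ζ) :
    chiQ p r σ = 1 := by
  show psi p r (ExtCitation.cycloChar r σ) = 1
  rw [cycloChar_eq_one_of_fixes r h, map_one]

/-- `chiU` is cyclotomic mod `r ^ 1`. -/
theorem isCycloChar_chiU (U : Subgroup GQ) : IsCycloChar U (r ^ 1) (chiU p r U) := by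
  intro σ hσ
  rw [pow_one] at hσ
  exact chiQ_eq_one_of_fixes p r hσ

/-- `chiU` is level-constant (level `ℚ(μ_r)`). -/
theorem isLevelConstant₁_chiU (U : Subgroup GQ) : IsLevelConstant₁ U.subtype (chiU p r U) := by
  have hr : r.Prime := Fact.out
  haveI : NeZero r := ⟨hr.ne_zero⟩
  obtain ⟨ζ, hζ⟩ := HasEnoughRootsOfUnity.exists_primitiveRoot Qb r
  have hint : IsIntegral ℚ ζ := (AlgebraicClosure.isAlgebraic ℚ).isAlgebraic ζ |>.isIntegral
  refine ⟨IntermediateField.adjoin ℚ {ζ}, IntermediateField.adjoin.finiteDimensional hint,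
    fun g s hs => ?_⟩
  have hs' : (s : GQ) ∈ (IntermediateField.adjoin ℚ {ζ}).fixingSubgroup := hs
  have hsζ : (s : GQ) ζ = ζ :=
    (IntermediateField.mem_fixingSubgroup_iff _ _).1 hs' ζ
      (IntermediateField.mem_adjoin_simple_self ℚ ζ)
  have hfix : ∀ ξ : Qb, ξ ^ r = 1 → (s : GQ) ξ = ξ := by
    intro ξ hξ
    obtain ⟨i, -, rfl⟩ := hζ.eq_pow_of_pow_eq_one hξ
    rw [map_pow, hsζ]
  rw [map_mul, chiU_apply p r U s, chiQ_eq_one_of_fixes p r hfix, mul_one]

/-- The unit `p mod r`. -/
def pbar (hpr : p ≠ r) : (ZMod r)ˣ :=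
  ZMod.unitOfCoprime p
    ((Nat.coprime_primes (Fact.out : p.Prime) (Fact.out : r.Prime)).2 hpr)

lemma coe_pbar (hpr : p ≠ r) : ((pbar p r hpr : (ZMod r)ˣ) : ZMod r) = (p : ZMod r) :=
  ZMod.coe_unitOfCoprime p _

/-- The value of the character on `p mod r`, additively. -/
def tzero (hpr : p ≠ r) : ZMod (ppart p r) := Multiplicative.toAdd (psi p r (pbar p r hpr))

/-- If `p` has order `p ^ N` modulo `r`, then `tzero` has additive order `p ^ N`. -/
theorem addOrderOf_tzero (hpr : p ≠ r) {N : ℕ} (hN : orderOf (p : ZMod r) = p ^ N) :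
    addOrderOf (tzero p r hpr) = p ^ N := by
  have h1 : orderOf (pbar p r hpr) = p ^ N := by
    rw [← orderOf_units, coe_pbar, hN]
  have h2 := orderOf_psi p r h1
  rw [← h2]
  exact (orderOf_ofAdd_eq_addOrderOf (tzero p r hpr)).symm

/-- An element acting on `μ_r` by `ζ ↦ ζ ^ (p ^ f)` is sent to `f • tzero` by `chiQ`. -/
theorem chiAdd_chiQ_of_acts (hpr : p ≠ r) {σ : GQ} {f : ℕ}
    (h : ∀ ζ : Qb, ζ ^ r = 1 → σ ζ = ζ ^ (p ^ f)) :
    chiAdd (chiQ p r) σ = f • tzero p r hpr := by
  have h1 : ExtCitation.cycloChar r σ = pbar p r hpr ^ f := by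
    apply Units.ext
    rw [cycloChar_eq_of_acts r h, Units.val_pow_eq_pow_val, coe_pbar]
    push_cast
    rfl
  show Multiplicative.toAdd (psi p r (ExtCitation.cycloChar r σ)) = _
  rw [h1, map_pow, toAdd_pow]
  rfl

end Fermat.Agent.S55.G.Rec.H174

end
end
-- ===== PACK-END S55/G/Rec/SCH174/Char.lean

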