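import Mathlib
import Fermat.Prelude.Def_GaloisRep_CompletionBridge
import Mathlib.RingTheory.RootsOfUnity.Basic
import Fermat.Agent.Pack.S43GC.G0E0L3
import Fermat.Agent.Pack.S43GC.G0E5L0
import Fermat.Agent.Pack.S43GC.G0E7L1
import Fermat.Agent.Pack.S43GC.G0E7L2
import Fermat.Agent.Pack.S43GC.G0E3L0
import Fermat.Agent.Pack.S44C.G0E6L2
import Fermat.Agent.Pack.S44C.G0E1L1
import Fermat.Agent.Pack.S43GC.G0E8L1
import Fermat.Agent.Pack.S43GC.G0E0L1
import Fermat.Agent.Pack.S43GC.G0E7L3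
import Fermat.Agent.Pack.S43GC.G0E5L2
import Fermat.Agent.Pack.S43GC.G0E8L0
import Fermat.Agent.Pack.S43GC.G0E3L3
import Fermat.Agent.Pack.S43GC.G0E8L3
import Fermat.Agent.Pack.S43GC.G0E3L1
import Fermat.Agent.Pack.S43GC.G0E8L2
import Fermat.Agent.Pack.S43GC.G0E1L0
import Fermat.Agent.Pack.Fast891

-- ===== PACK-BEGIN S55/T/UglyH954.lean
section




/-!
# T3': the "ugly lemma" — `UglySpec` (helper954)

If `H¹(H, A) = 0` for all `H ≤ G` and `|H²(H ⧸ K, A^K)|` divides `[H : K]` whenever `K ⊴ H ≤ G`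
with `[H : K]` prime, then `|H²(H, A)|` divides `|H|` for all `H ≤ G`.
-/

set_option autoImplicit false
set_option linter.unusedSectionVars false
set_option linter.style.haveILetI false

namespace Fermat.Agent.S55.T.H954

open CategoryTheory groupCohomology Fermat.Agent.S55.H954

section Transport

variable {k G : Type} [CommRing k] [Group G] (A : Rep.{0} k G) (H : Subgroup G) (K : Subgroup H)

/-- Transitivity of restriction, on cohomology: `Hⁿ(K, (A|_H)|_K) ≅ Hⁿ(K', A|_{K'})` where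
`K' = K.map H.subtype` is `K` viewed as a subgroup of `G`. -/
noncomputable def resResIso (n : ℕ) :
    groupCohomology (resSub (resSub A H) K) n ≅ groupCohomology (resSub A (K.map H.subtype)) n :=
  groupCohomology.mapIso (K.equivMapOfInjective H.subtype H.subtype_injective)
    (LinearEquiv.refl k A.V) (fun g => by
      ext x
      rfl) n

lemma card_map_subtype : Nat.card (K.map H.subtype) = Nat.card K :=
  (Nat.card_congr (K.equivMapOfInjective H.subtype H.subtype_injective).toEquiv).symm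

end Transport

section Basic

variable {k : Type} [CommRing k]

lemma cardDvd_of_iso {M N : ModuleCat.{0} k} (e : M ≅ N) {m : ℕ} (h : CardDvd N m) :
    CardDvd M m := by
  obtain ⟨hf, hd⟩ := h
  have e' : M ≃ N := e.toLinearEquiv.toEquiv
  exact ⟨Finite.of_equiv N e'.symm, (Nat.card_congr e') ▸ hd⟩

lemma eq_zero_of_iso_of_isZero {M N : ModuleCat.{0} k} (e : M ≅ N) (h : Limits.IsZero N)
    (x : M) : x = 0 := by
  have hs : Subsingleton N := ModuleCat.isZero_iff_subsingleton.1 h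
  have e' : M ≃ N := e.toLinearEquiv.toEquiv
  exact e'.injective (Subsingleton.elim _ _)

end Basic

section Main

variable {k G : Type} [CommRing k] [Group G] [Finite G] (A : Rep.{0} k G)

/-- The `p`-group case of the ugly lemma, by induction on the order. -/
theorem ugly_pgroup
    (h1 : ∀ H : Subgroup G, Limits.IsZero (groupCohomology (resSub A H) 1))
    (h2 : ∀ (H : Subgroup G) (K : Subgroup H) [K.Normal], (Nat.card (H ⧸ K)).Prime →
      CardDvd (groupCohomology ((resSub A H).quotientToInvariants K) 2) (Nat.card (H ⧸ K)))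
    (p : ℕ) [hp : Fact p.Prime] :
    ∀ (n : ℕ) (H : Subgroup G), Nat.card H = p ^ n →
      CardDvd (groupCohomology (resSub A H) 2) (Nat.card H) := by
  intro n
  induction n with
  | zero =>
    intro H hH
    rw [pow_zero] at hH
    have hz : ∀ x : H2 (resSub A H), x = 0 := H2_eq_zero_of_card_eq_one (resSub A H) hH
    haveI : Subsingleton (H2 (resSub A H)) := ⟨fun a b => (hz a).trans (hz b).symm⟩
    refine ⟨inferInstance, ?_⟩
    rw [Nat.card_unique]
    exact one_dvd _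
  | succ n ih =>
    intro H hH
    obtain ⟨K, hK⟩ := Sylow.exists_subgroup_card_pow_prime (G := ↥H) p (n := n)
      (by rw [hH]; exact pow_dvd_pow p (Nat.le_succ n))
    have hidx : K.index = p := by
      have h := K.card_mul_index
      rw [hK, hH, pow_succ] at h
      exact Nat.eq_of_mul_eq_mul_left (pow_pos hp.out.pos n) h
    haveI hKn : K.Normal := Subgroup.normal_of_index_eq_minFac_card (by
      rw [hidx, hH, Nat.pow_minFac (Nat.succ_ne_zero n), hp.out.minFac_eq])
    have hq : Nat.card (↥H ⧸ K) = p := by rw [← Subgroup.index_eq_card]; exact hidx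
    have hQ := h2 H K (by rw [hq]; exact hp.out)
    rw [hq] at hQ
    have hK' : Nat.card (K.map H.subtype) = p ^ n := (card_map_subtype H K).trans hK
    have IH := ih (K.map H.subtype) hK'
    rw [hK'] at IH
    have hKc : CardDvd (groupCohomology (resSub (resSub A H) K) 2) (p ^ n) :=
      cardDvd_of_iso (resResIso A H K 2) IH
    have hK1 : ∀ x : H1 (Rep.res K.subtype (resSub A H)), x = 0 :=
      eq_zero_of_iso_of_isZero (resResIso A H K 1) (h1 (K.map H.subtype))
    obtain ⟨hfin, hdvd⟩ := H2_card_dvd_mul_of_normal (resSub A H) K hK1 hKc.1 hQ.1 hKc.2 hQ.2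
    refine ⟨hfin, ?_⟩
    rw [hH, pow_succ, mul_comm]
    exact hdvd

/-- **T3'** (`UglySpec`), unconditional. -/
theorem ugly : UglySpec := by
  intro k G _ _ _ A h1 h2 H
  refine card_H2_dvd_card_of_sylow (resSub A H) (fun p hp _ => ?_)
  haveI : Fact p.Prime := ⟨hp⟩
  obtain ⟨P⟩ : Nonempty (Sylow p H) := inferInstance
  refine ⟨P, ?_⟩
  have hP : Nat.card (P : Subgroup H) = p ^ ((Nat.card H).factorization p) :=
    Sylow.card_eq_multiplicity P
  have hP' : Nat.card ((P : Subgroup H).map H.subtype) = p ^ ((Nat.card H).factorization p) :=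
    (card_map_subtype H (P : Subgroup H)).trans hP
  have := ugly_pgroup A h1 h2 p _ ((P : Subgroup H).map H.subtype) hP'
  rw [card_map_subtype H (P : Subgroup H)] at this
  exact cardDvd_of_iso (resResIso A H (P : Subgroup H) 2) this

end Main

end Fermat.Agent.S55.T.H954

end
-- ===== PACK-END S55/T/UglyH954.lean

-- ===== PACK-BEGIN S55/T/NakH837/WeakProj.lean
section



/-!
# S55, layer T, leaf T6 (helper837): norms of linear maps and weakly projective representations

For representations `A B : Rep k G` of a finite group and a `k`-linear map `ψ : A → B` the norm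
`N ψ = ∑_g g ∘ ψ ∘ g⁻¹` is a morphism of representations.  `A` is *weakly projective* if
`𝟙 A = N u` for some `k`-linear `u`.  Coinduced modules `coind₁ A` are weakly projective.
-/

set_option autoImplicit false

open CategoryTheory groupCohomology

namespace Fermat.Agent.S55.T.H837

open Fermat.Agent.S55.H572

noncomputable section

variable {k G : Type} [CommRing k] [Group G] [Fintype G]

/-- The norm `∑_g g ∘ ψ ∘ g⁻¹` of a `k`-linear map between representations. -/
def normLin {A B : Rep.{0} k G} (ψ : A.V →ₗ[k] B.V) : A.V →ₗ[k] B.V :=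
  ∑ g : G, B.ρ g ∘ₗ ψ ∘ₗ A.ρ g⁻¹

lemma normLin_apply {A B : Rep.{0} k G} (ψ : A.V →ₗ[k] B.V) (a : A.V) :
    normLin ψ a = ∑ g : G, B.ρ g (ψ (A.ρ g⁻¹ a)) := by
  simp [normLin, LinearMap.sum_apply]

lemma normLin_equivariant {A B : Rep.{0} k G} (ψ : A.V →ₗ[k] B.V) (h : G) (a : A.V) :
    normLin ψ (A.ρ h a) = B.ρ h (normLin ψ a) := by
  rw [normLin_apply, normLin_apply, map_sum]
  refine Fintype.sum_equiv (Equiv.mulLeft h⁻¹) _ _ fun g => ?_
  change B.ρ g (ψ (A.ρ g⁻¹ (A.ρ h a))) = B.ρ h (B.ρ (h⁻¹ * g) (ψ (A.ρ (h⁻¹ * g)⁻¹ a)))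
  rw [← Module.End.mul_apply, ← map_mul, ← Module.End.mul_apply (B.ρ h), ← map_mul,
    mul_inv_rev, inv_inv, mul_inv_cancel_left]

/-- The norm of a linear map as a morphism of representations. -/
def normHom {A B : Rep.{0} k G} (ψ : A.V →ₗ[k] B.V) : A ⟶ B :=
  Rep.ofHom (ρ := A.ρ) (σ := B.ρ) ⟨normLin ψ, fun g => by
    apply LinearMap.ext
    intro a
    exact normLin_equivariant ψ g a⟩

lemma normHom_hom_apply {A B : Rep.{0} k G} (ψ : A.V →ₗ[k] B.V) (a : A.V) :
    (normHom ψ).hom a = ∑ g : G, B.ρ g (ψ (A.ρ g⁻¹ a)) :=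
  normLin_apply ψ a

lemma normHom_comp {A B B' : Rep.{0} k G} (ψ : A.V →ₗ[k] B.V) (f : B ⟶ B') :
    normHom ψ ≫ f = normHom (f.hom.toLinearMap ∘ₗ ψ) := by
  apply Rep.hom_ext
  apply Representation.IntertwiningMap.ext
  apply LinearMap.ext
  intro a
  change f.hom ((normHom ψ).hom a) = (normHom (f.hom.toLinearMap ∘ₗ ψ)).hom a
  rw [normHom_hom_apply, normHom_hom_apply, map_sum]
  refine Finset.sum_congr rfl fun g _ => ?_
  exact Rep.hom_comm_apply f g _

lemma comp_normHom {A' A B : Rep.{0} k G} (f : A' ⟶ A) (ψ : A.V →ₗ[k] B.V) :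
    f ≫ normHom ψ = normHom (ψ ∘ₗ f.hom.toLinearMap) := by
  apply Rep.hom_ext
  apply Representation.IntertwiningMap.ext
  apply LinearMap.ext
  intro a
  change (normHom ψ).hom (f.hom a) = (normHom (ψ ∘ₗ f.hom.toLinearMap)).hom a
  rw [normHom_hom_apply, normHom_hom_apply]
  refine Finset.sum_congr rfl fun g _ => ?_
  change B.ρ g (ψ (A.ρ g⁻¹ (f.hom a))) = B.ρ g (ψ (f.hom (A'.ρ g⁻¹ a)))
  rw [Rep.hom_comm_apply]

/-- The norm of a morphism of representations is `|G|` times the morphism. -/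
lemma normHom_of_hom_apply {A B : Rep.{0} k G} (f : A ⟶ B) (a : A.V) :
    (normHom f.hom.toLinearMap).hom a = Fintype.card G • f.hom a := by
  rw [normHom_hom_apply]
  have : ∀ g : G, B.ρ g (f.hom.toLinearMap (A.ρ g⁻¹ a)) = f.hom a := fun g => by
    change B.ρ g (f.hom (A.ρ g⁻¹ a)) = f.hom a
    rw [Rep.hom_comm_apply, ← Module.End.mul_apply, ← map_mul, mul_inv_cancel, map_one]
    rfl
  rw [Finset.sum_congr rfl fun g _ => this g]
  simp

/-- `A` is weakly projective: the identity is the norm of a `k`-linear endomorphism. -/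
def IsWeakProj (A : Rep.{0} k G) : Prop :=
  ∃ u : A.V →ₗ[k] A.V, ∀ a : A.V, ∑ g : G, A.ρ g (u (A.ρ g⁻¹ a)) = a

lemma IsWeakProj.normHom_eq {A : Rep.{0} k G} {u : A.V →ₗ[k] A.V}
    (hu : ∀ a : A.V, ∑ g : G, A.ρ g (u (A.ρ g⁻¹ a)) = a) : normHom u = 𝟙 A := by
  apply Rep.hom_ext
  apply Representation.IntertwiningMap.ext
  apply LinearMap.ext
  intro a
  change (normHom u).hom a = a
  rw [normHom_hom_apply, hu]

/-- A morphism into a weakly projective representation is a norm. -/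
lemma hom_eq_normHom_of_isWeakProj_right {A B : Rep.{0} k G} (hB : IsWeakProj B) (f : A ⟶ B) :
    ∃ ψ : A.V →ₗ[k] B.V, f = normHom ψ := by
  obtain ⟨u, hu⟩ := hB
  refine ⟨u ∘ₗ f.hom.toLinearMap, ?_⟩
  rw [← comp_normHom, IsWeakProj.normHom_eq hu, Category.comp_id]

/-- A morphism out of a weakly projective representation is a norm. -/
lemma hom_eq_normHom_of_isWeakProj_left {A B : Rep.{0} k G} (hA : IsWeakProj A) (f : A ⟶ B) :
    ∃ ψ : A.V →ₗ[k] B.V, f = normHom ψ := by
  obtain ⟨u, hu⟩ := hA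
  refine ⟨f.hom.toLinearMap ∘ₗ u, ?_⟩
  rw [← normHom_comp, IsWeakProj.normHom_eq hu, Category.id_comp]

/-- Invariants of a weakly projective representation are norms. -/
lemma IsWeakProj.exists_norm_eq {A : Rep.{0} k G} (hA : IsWeakProj A) (a : A.V)
    (ha : ∀ g : G, A.ρ g a = a) : ∃ b : A.V, ∑ g : G, A.ρ g b = a := by
  obtain ⟨u, hu⟩ := hA
  refine ⟨u a, ?_⟩
  conv_rhs => rw [← hu a]
  refine Finset.sum_congr rfl fun g _ => ?_
  rw [ha]

/-- `1`-cocycles with values in a weakly projective representation are coboundaries. -/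
lemma IsWeakProj.exists_coboundary {A : Rep.{0} k G} (hA : IsWeakProj A) (c : G → A.V)
    (hc : ∀ g h : G, c (g * h) = A.ρ g (c h) + c g) :
    ∃ b : A.V, ∀ g : G, c g = A.ρ g b - b := by
  obtain ⟨u, hu⟩ := hA
  refine ⟨-∑ h : G, A.ρ h (u (A.ρ h⁻¹ (c h))), fun g => ?_⟩
  have key : A.ρ g (∑ h : G, A.ρ h (u (A.ρ h⁻¹ (c h)))) =
      ∑ h : G, A.ρ h (u (A.ρ h⁻¹ (c h))) - c g := by
    rw [map_sum]
    have e1 : ∑ h : G, A.ρ g (A.ρ h (u (A.ρ h⁻¹ (c h)))) =
        ∑ h : G, A.ρ h (u (A.ρ h⁻¹ (c h - c g))) := by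
      refine Fintype.sum_equiv (Equiv.mulLeft g) _ _ fun h => ?_
      change A.ρ g (A.ρ h (u (A.ρ h⁻¹ (c h)))) =
        A.ρ (g * h) (u (A.ρ (g * h)⁻¹ (c (g * h) - c g)))
      rw [hc g h, add_sub_cancel_right, mul_inv_rev, map_mul, map_mul, Module.End.mul_apply,
        Module.End.mul_apply, ← Module.End.mul_apply (A.ρ g⁻¹) (A.ρ g), ← map_mul,
        inv_mul_cancel, map_one, Module.End.one_apply]
    rw [e1]
    simp only [map_sub, Finset.sum_sub_distrib, hu]
  rw [map_neg, key]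
  abel

end

end Fermat.Agent.S55.T.H837

end
-- ===== PACK-END S55/T/NakH837/WeakProj.lean

-- ===== PACK-BEGIN S55/H424/LocalPow.lean
section



/-!
# LPI (local power index), part 5: statements in the language of layer L (`S55/Local`)

BASE `(A, F)`: complete DVR with finite residue field and its fraction field (char 0);
`L / F` a finite extension.  Then

* `H424.localField_index_range_pow` :
  `[Lˣ : (Lˣ)ⁿ] = n * (|μ_n(L)| * |A ⧸ (n)| ^ [L : F])`  (for `n ≠ 0`);
* `H424.localField_index_range_pow_of_isUnit` : `[Lˣ : (Lˣ)ⁿ] = n * |μ_n(L)|` if `n ∈ Aˣ`;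
* `H424.localField_index_range_pow_ne_zero` : `(Lˣ)ⁿ` has finite index in `Lˣ`.

No `Algebra A L` instance is needed in the statements.
-/

set_option autoImplicit false
set_option linter.unusedSectionVars false
set_option linter.style.haveILetI false

namespace Fermat.Agent.S55.H424

open Fermat.Agent.S55.Local Fermat.Agent.S55.Local.H715 IsLocalRing

section FreeIndex

variable {A M : Type*} [CommRing A] [Nontrivial A] [AddCommGroup M] [Module A M]
  [Module.Free A M] [Module.Finite A M]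

/-- For a free module `M` of finite rank `r` over `A`: `[M : a M] = [A : a A] ^ r`. -/
theorem index_range_lsmul_of_free (a : A) :
    (LinearMap.range (LinearMap.lsmul A M a)).toAddSubgroup.index
      = (Ideal.span {a}).toAddSubgroup.index ^ Module.finrank A M := by
  classical
  let e : M ≃ₗ[A] (Fin (Module.finrank A M) → A) := (Module.finBasis A M).equivFun
  have h1 : ((LinearMap.range (LinearMap.lsmul A M a)).toAddSubgroup).map
        (e.toAddEquiv : M →+ (Fin (Module.finrank A M) → A))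
      = AddSubgroup.pi Set.univ
          (fun _ : Fin (Module.finrank A M) => (Ideal.span {a}).toAddSubgroup) := by
    ext f
    simp only [AddSubgroup.mem_map, Submodule.mem_toAddSubgroup, LinearMap.mem_range,
      AddSubgroup.mem_pi, Set.mem_univ, forall_true_left, Ideal.mem_span_singleton]
    constructor
    · rintro ⟨_, ⟨m, rfl⟩, rfl⟩ i
      refine ⟨e m i, ?_⟩
      show e (a • m) i = a * e m i
      rw [map_smul]; rfl
    · intro h
      choose g hg using h
      refine ⟨a • e.symm g, ⟨e.symm g, rfl⟩, ?_⟩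
      ext i
      show e (a • e.symm g) i = f i
      rw [map_smul, e.apply_symm_apply, hg i]; rfl
  rw [← AddSubgroup.index_map_equiv _ e.toAddEquiv, h1, AddSubgroup.index_pi, Finset.prod_const,
    Finset.card_univ, Fintype.card_fin]

end FreeIndex

section Integers

variable (A F : Type) [CommRing A] [IsDomain A] [IsDiscreteValuationRing A]
  [IsAdicComplete (IsLocalRing.maximalIdeal A) A] [Finite (IsLocalRing.ResidueField A)]
  [Field F] [CharZero F] [Algebra A F] [IsFractionRing A F]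
  (L : Type) [Field L] [Algebra F L] [FiniteDimensional F L]
  [Algebra A L] [IsScalarTower A F L]

include F

/-- `|O_L ⧸ (n)| = |A ⧸ (n)| ^ [L : F]`. -/
theorem card_quot_OL_natCast (n : ℕ) :
    Nat.card (integralClosure A L ⧸ Ideal.span {(n : integralClosure A L)})
      = Nat.card (A ⧸ Ideal.span {(n : A)}) ^ Module.finrank F L := by
  haveI : Module.Finite A (integralClosure A L) := finite_OL A F L
  have hinj : Function.Injective (algebraMap A L) := by
    rw [IsScalarTower.algebraMap_eq A F L]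
    exact (algebraMap F L).injective.comp (IsFractionRing.injective A F)
  haveI : Module.IsTorsionFree A L := by
    rw [← faithfulSMul_iff_algebraMap_injective] at hinj
    infer_instance
  haveI : Module.Free A (integralClosure A L) :=
    IsIntegralClosure.module_free A F L (integralClosure A L)
  have hr : Module.finrank A (integralClosure A L) = Module.finrank F L :=
    IsIntegralClosure.rank A F L (integralClosure A L)
  rw [← Submodule.cardQuot_apply, ← Submodule.cardQuot_apply]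
  unfold Submodule.cardQuot
  rw [← hr, ← index_range_lsmul_of_free (A := A) (M := integralClosure A L) (n : A)]
  congr 1
  ext x
  simp only [Submodule.mem_toAddSubgroup, Ideal.mem_span_singleton, LinearMap.mem_range,
    LinearMap.lsmul_apply]
  constructor
  · rintro ⟨c, rfl⟩
    exact ⟨c, by rw [Algebra.smul_def, map_natCast]⟩
  · rintro ⟨c, rfl⟩
    exact ⟨c, by rw [Algebra.smul_def, map_natCast]⟩

/-- Instance-based form of the local power index. -/
theorem index_range_pow_OL (n : ℕ) (hn : n ≠ 0) :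
    (powMonoidHom n : Lˣ →* Lˣ).range.index
      = n * (Nat.card (rootsOfUnity n L)
          * Nat.card (A ⧸ Ideal.span {(n : A)}) ^ Module.finrank F L) := by
  letI := isLocalRing_OL A F L
  haveI := isDiscreteValuationRing_OL A F L
  haveI := isAdicComplete_OL A F L
  haveI := finite_residueField_OL A F L
  haveI := isFractionRing_OL A F L
  haveI hchar : CharZero L := charZero_of_injective_algebraMap (algebraMap F L).injective
  have hn' : ((n : ℕ) : integralClosure A L) ≠ 0 := by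
    intro h0
    have h1 := congrArg (algebraMap (integralClosure A L) L) h0
    rw [map_natCast, map_zero] at h1
    exact hn (by exact_mod_cast h1)
  rw [index_range_pow_units_field (A := integralClosure A L) (K := L) hn',
    card_quot_OL_natCast A F L n]

end Integers

section InstanceFree

variable (A F : Type) [CommRing A] [IsDomain A] [IsDiscreteValuationRing A]
  [IsAdicComplete (IsLocalRing.maximalIdeal A) A] [Finite (IsLocalRing.ResidueField A)]
  [Field F] [CharZero F] [Algebra A F] [IsFractionRing A F]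
  (L : Type) [Field L] [Algebra F L] [FiniteDimensional F L]

include A F

/-- **Local power index** for a local field `L` (finite over `F = Frac A`):
`[Lˣ : (Lˣ)ⁿ] = n * (|μ_n(L)| * |A ⧸ (n)| ^ [L : F])`. -/
theorem localField_index_range_pow (n : ℕ) (hn : n ≠ 0) :
    (powMonoidHom n : Lˣ →* Lˣ).range.index
      = n * (Nat.card (rootsOfUnity n L)
          * Nat.card (A ⧸ Ideal.span {(n : A)}) ^ Module.finrank F L) := by
  letI : Algebra A L := algAL A F L
  haveI : IsScalarTower A F L := isScalarTower_algAL A F L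
  exact index_range_pow_OL A F L n hn

/-- **Local power index**, prime-to-residue-characteristic case:
`[Lˣ : (Lˣ)ⁿ] = n * |μ_n(L)|` if `n` is a unit of `A`. -/
theorem localField_index_range_pow_of_isUnit (n : ℕ) (hn : IsUnit (n : A)) :
    (powMonoidHom n : Lˣ →* Lˣ).range.index = n * Nat.card (rootsOfUnity n L) := by
  have hn0 : n ≠ 0 := by
    rintro rfl
    exact hn.ne_zero (by simp)
  rw [localField_index_range_pow A F L n hn0, card_quot_span_of_isUnit hn, one_pow, mul_one]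

/-- The `n`-th powers have finite index in the multiplicative group of a local field. -/
theorem localField_index_range_pow_ne_zero (n : ℕ) (hn : n ≠ 0) :
    (powMonoidHom n : Lˣ →* Lˣ).range.index ≠ 0 := by
  rw [localField_index_range_pow A F L n hn]
  have hnA : (n : A) ≠ 0 := by
    intro h0
    have h1 := congrArg (algebraMap A F) h0
    rw [map_natCast, map_zero] at h1
    exact hn (by exact_mod_cast h1)
  obtain ⟨ϖ, hϖ⟩ := IsDiscreteValuationRing.exists_irreducible A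
  obtain ⟨v, u, hu⟩ := IsDiscreteValuationRing.eq_unit_mul_pow_irreducible hnA hϖ
  have h1 : Nat.card (rootsOfUnity n L) ≠ 0 := by
    haveI : NeZero n := ⟨hn⟩
    exact Nat.card_pos.ne'
  have h2 : Nat.card (ResidueField A) ≠ 0 := Nat.card_pos.ne'
  rw [card_quot_span_dvr hϖ hu]
  exact mul_ne_zero hn (mul_ne_zero h1 (pow_ne_zero _ (pow_ne_zero v h2)))

end InstanceFree

end Fermat.Agent.S55.H424

end
-- ===== PACK-END S55/H424/LocalPow.lean

-- ===== PACK-BEGIN S55/Bridge/H175/DecompLevel.lean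
section







set_option autoImplicit false
set_option linter.style.haveILetI false

/-!
# B11, part 3 (and the decomposition half of B14)

* `exists_stabilizer_lift` : abstract profinite lifting of stabilisers along a closed normal
  subgroup;
* `exists_decomposition_lift` : for a valuation subring `A` of `ℚ̄` over a prime and a normal
  level `F`, every `g₀ ∈ Gal(ℚ̄/ℚ)` whose restriction to `F` stabilises `A ∩ F` agrees on `F` with
  an element of the decomposition group of `A`;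
* `map_decompositionSubgroup` : `res_F (D_A) = D_{A ∩ F}`;
* `decompositionAt_eq` : the image `D_q(F)` of `Gal(ℚ̄_q/ℚ_q)` in `Gal(F/ℚ)` is the decomposition
  group of the valuation subring `{x ∈ F | ‖ι x‖ ≤ 1}` of `F`.
-/

open scoped NNReal Pointwise

namespace Fermat.Agent.S55.Bridge.H175

section Abstract

universe u

variable {B : Type*} [CommRing B]
variable {G : Type u} [Group G] [MulSemiringAction G B]
variable [TopologicalSpace G] [CompactSpace G] [TotallyDisconnectedSpace G]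
variable [IsTopologicalGroup G] [TopologicalSpace B] [DiscreteTopology B] [ContinuousSMul G B]

/-- `G` profinite acting continuously on a discrete ring `B`, `N` closed normal, `Q` a prime of
`B`.  If `g₀` preserves `Q` on the `N`-invariants, some element of `N g₀` stabilises `Q`. -/
theorem exists_stabilizer_lift (N : Subgroup G) [hn : N.Normal] (hN : IsClosed (N : Set G))
    (Q : Ideal B) [hQ : Q.IsPrime] (g₀ : G)
    (h₀ : ∀ x : B, (∀ n ∈ N, n • x = x) → (g₀ • x ∈ Q ↔ x ∈ Q)) :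
    ∃ n ∈ N, (n * g₀) • Q = Q := by
  have : CompactSpace N := isCompact_iff_compactSpace.mp hN.isCompact
  have := Fermat.Agent.S13.H175.isInvariant_fixedPoints (B := B) N
  have hunder : (g₀ • Q).under (FixedPoints.subalgebra ℤ B N) =
      Q.under (FixedPoints.subalgebra ℤ B N) := by
    ext ⟨x, hx⟩
    have hx' : ∀ n ∈ N, n • x = x := fun n hn' => hx ⟨n, hn'⟩
    simp only [Ideal.mem_comap]
    show x ∈ g₀ • Q ↔ x ∈ Q
    rw [Ideal.mem_pointwise_smul_iff_inv_smul_mem]
    have hy : ∀ n ∈ N, n • (g₀⁻¹ • x) = g₀⁻¹ • x :=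
      Fermat.Agent.S13.H175.smul_mem_fixedPoints N g₀⁻¹ hx'
    have h1 := h₀ _ hy
    rw [smul_inv_smul] at h1
    exact h1.symm
  obtain ⟨n, hn1⟩ := Algebra.IsInvariant.exists_smul_of_under_eq_of_profinite
    (A := FixedPoints.subalgebra ℤ B N) (G := N) (g₀ • Q) Q hunder
  refine ⟨n, n.2, ?_⟩
  rw [mul_smul]
  exact hn1.symm

end Abstract

/-- An automorphism of an algebraic extension `K` of `ℚ` which preserves the prime of the ring of
integers below a valuation subring `A` (over a rational prime) stabilises `A`. -/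
theorem smul_valuationSubring_eq_of_algebraic {K : Type*} [Field K] [CharZero K]
    [Algebra.IsAlgebraic ℚ K] (A : ValuationSubring K) (ℓ : ℕ)
    (hℓ : ℓ.Prime) (hA : A.LiesOverPrime ℓ) (σ : K ≃ₐ[ℚ] K)
    (h : ∀ b : K, IsIntegral ℤ b → (σ b ∈ A.nonunits ↔ b ∈ A.nonunits)) :
    σ • A = A := by
  have hint : ∀ (τ : K ≃ₐ[ℚ] K) (x : K), IsIntegral ℤ x → IsIntegral ℤ (τ x) :=
    fun τ x hx => hx.map τ
  have h' : ∀ b : K, IsIntegral ℤ b → (σ.symm b ∈ A.nonunits ↔ b ∈ A.nonunits) := by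
    intro b hb
    have h1 := h (σ.symm b) (hint σ.symm b hb)
    rw [AlgEquiv.apply_symm_apply] at h1
    exact h1.symm
  have key : ∀ (τ : K ≃ₐ[ℚ] K),
      (∀ b : K, IsIntegral ℤ b → (τ b ∈ A.nonunits ↔ b ∈ A.nonunits)) →
      ∀ x : K, x ∈ A → τ x ∈ A := by
    intro τ hτ x hx
    obtain ⟨b, s, hb, hs, hsA, hxs⟩ :=
      (Fermat.Agent.S54.mem_valuationSubring_iff A ℓ hℓ hA x).mp hx
    refine (Fermat.Agent.S54.mem_valuationSubring_iff A ℓ hℓ hA (τ x)).mpr
      ⟨τ b, τ s, hint τ b hb, hint τ s hs, fun hc => hsA ((hτ s hs).mp hc), ?_⟩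
    rw [← map_mul, hxs]
  apply le_antisymm
  · intro y hy
    obtain ⟨x, hx, rfl⟩ := (ValuationSubring.mem_smul_pointwise_iff_exists σ y A).mp hy
    exact key σ h x hx
  · intro y hy
    rw [ValuationSubring.mem_smul_pointwise_iff_exists]
    refine ⟨σ.symm y, key σ.symm h' y hy, ?_⟩
    simp

/-- An automorphism of `ℚ̄` preserving the prime of `ℤ̄` below `A` stabilises `A`. -/
theorem smul_valuationSubring_eq (A : ValuationSubring (AlgebraicClosure ℚ)) (ℓ : ℕ)
    (hℓ : ℓ.Prime) (hA : A.LiesOverPrime ℓ)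
    (σ : AlgebraicClosure ℚ ≃ₐ[ℚ] AlgebraicClosure ℚ)
    (h : ∀ b : AlgebraicClosure ℚ, IsIntegral ℤ b → (σ b ∈ A.nonunits ↔ b ∈ A.nonunits)) :
    σ • A = A := by
  have : Algebra.IsAlgebraic ℚ (AlgebraicClosure ℚ) := AlgebraicClosure.isAlgebraic ℚ
  exact smul_valuationSubring_eq_of_algebraic A ℓ hℓ hA σ h

/-- Elements of the decomposition group preserve the maximal ideal. -/
theorem apply_mem_nonunits_iff {L : Type*} [Field L] {K : Type*} [Field K] [Algebra K L]
    (A : ValuationSubring L) (σ : L ≃ₐ[K] L)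
    (h : ∀ x : L, σ x ∈ A ↔ x ∈ A) (y : L) : σ y ∈ A.nonunits ↔ y ∈ A.nonunits := by
  rw [ValuationSubring.mem_nonunits_iff_or, ValuationSubring.mem_nonunits_iff_or,
    ← map_inv₀, h, map_eq_zero_iff σ σ.injective]

section Lift

variable (F : IntermediateField ℚ (AlgebraicClosure ℚ)) [hFn : Normal ℚ F]

/-- **Lifting decomposition elements** from a normal level `F` to `ℚ̄`. -/
theorem exists_decomposition_lift (A : ValuationSubring (AlgebraicClosure ℚ)) (ℓ : ℕ)
    (hℓ : ℓ.Prime) (hA : A.LiesOverPrime ℓ)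
    (g₀ : AlgebraicClosure ℚ ≃ₐ[ℚ] AlgebraicClosure ℚ)
    (h₀ : ∀ x ∈ F, (g₀ x ∈ A ↔ x ∈ A)) :
    ∃ σ : AlgebraicClosure ℚ ≃ₐ[ℚ] AlgebraicClosure ℚ,
      σ ∈ A.decompositionSubgroup ℚ ∧ ∀ x ∈ F, σ x = g₀ x := by
  have hgal := Fermat.Agent.S54.isGalois_algebraicClosure_rat
  have hQprime := Fermat.Agent.S54.primeBelow_isPrime A
  set N : Subgroup (AlgebraicClosure ℚ ≃ₐ[ℚ] AlgebraicClosure ℚ) := F.fixingSubgroup with hNdef
  have hclosed : IsClosed (N : Set (AlgebraicClosure ℚ ≃ₐ[ℚ] AlgebraicClosure ℚ)) :=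
    InfiniteGalois.fixingSubgroup_isClosed F
  have hnormal : N.Normal := by
    rw [hNdef, ← @IntermediateField.restrictNormalHom_ker _ _ _ _ _ F hFn]
    exact MonoidHom.normal_ker _
  -- `g₀` preserves nonunits on `F`
  have h₀' : ∀ x ∈ F, (g₀ x ∈ A.nonunits ↔ x ∈ A.nonunits) := by
    intro x hx
    rw [ValuationSubring.mem_nonunits_iff_or, ValuationSubring.mem_nonunits_iff_or,
      ← map_inv₀, h₀ _ (F.inv_mem hx), map_eq_zero_iff g₀ g₀.injective]
  have h₁ : ∀ x : integralClosure ℤ (AlgebraicClosure ℚ),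
      (∀ n ∈ N, n • x = x) →
        (g₀ • x ∈ Fermat.Agent.S54.primeBelow A ↔ x ∈ Fermat.Agent.S54.primeBelow A) := by
    intro x hx
    have hxF : (x : AlgebraicClosure ℚ) ∈ F := by
      rw [← InfiniteGalois.fixedField_fixingSubgroup F, IntermediateField.mem_fixedField_iff]
      intro f hf
      exact congrArg Subtype.val (hx f hf)
    rw [Fermat.Agent.S54.mem_primeBelow, Fermat.Agent.S54.mem_primeBelow]
    exact h₀' _ hxF
  letI : TopologicalSpace (integralClosure ℤ (AlgebraicClosure ℚ)) := ⊥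
  haveI : DiscreteTopology (integralClosure ℤ (AlgebraicClosure ℚ)) := ⟨rfl⟩
  haveI := Fermat.Agent.S54.continuousSMul_integralClosure
  obtain ⟨n, hnN, hσQ⟩ := exists_stabilizer_lift
    (G := AlgebraicClosure ℚ ≃ₐ[ℚ] AlgebraicClosure ℚ) N hclosed
    (Fermat.Agent.S54.primeBelow A) g₀ h₁
  refine ⟨n * g₀, ?_, ?_⟩
  · rw [ValuationSubring.decompositionSubgroup, MulAction.mem_stabilizer_iff]
    apply smul_valuationSubring_eq A ℓ hℓ hA
    intro b hb
    have h1 : (n * g₀) • (⟨b, hb⟩ : integralClosure ℤ (AlgebraicClosure ℚ)) ∈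
        (n * g₀) • Fermat.Agent.S54.primeBelow A ↔
        (⟨b, hb⟩ : integralClosure ℤ (AlgebraicClosure ℚ)) ∈ Fermat.Agent.S54.primeBelow A :=
      Ideal.smul_mem_pointwise_smul_iff
    rw [hσQ] at h1
    exact h1
  · intro x hx
    have h2 : g₀ x ∈ F := apply_mem_of_normal F g₀ hx
    exact (IntermediateField.mem_fixingSubgroup_iff F n).mp hnN _ h2

/-- The valuation subring `A ∩ F` of a level `F` induced by a valuation subring `A` of `ℚ̄`. -/
noncomputable def levelPlace (A : ValuationSubring (AlgebraicClosure ℚ)) : ValuationSubring F :=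
  A.comap (algebraMap F (AlgebraicClosure ℚ))

omit hFn in
theorem mem_levelPlace {A : ValuationSubring (AlgebraicClosure ℚ)} {x : F} :
    x ∈ levelPlace F A ↔ (x : AlgebraicClosure ℚ) ∈ A := Iff.rfl

theorem restrictNormalHom_apply_coe (σ : AlgebraicClosure ℚ ≃ₐ[ℚ] AlgebraicClosure ℚ) (x : F) :
    ((AlgEquiv.restrictNormalHom (F := ℚ) (K₁ := AlgebraicClosure ℚ) F σ x : F) :
      AlgebraicClosure ℚ) = σ (x : AlgebraicClosure ℚ) :=
  AlgEquiv.restrictNormal_commutes σ F x

/-- **B14, decomposition half: `res_F (D_A) = D_{A ∩ F}`.** -/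
theorem map_decompositionSubgroup (A : ValuationSubring (AlgebraicClosure ℚ)) (ℓ : ℕ)
    (hℓ : ℓ.Prime) (hA : A.LiesOverPrime ℓ) :
    (A.decompositionSubgroup ℚ).map
        (AlgEquiv.restrictNormalHom (F := ℚ) (K₁ := AlgebraicClosure ℚ) F) =
      (levelPlace F A).decompositionSubgroup ℚ := by
  apply le_antisymm
  · rintro _ ⟨σ, hσ, rfl⟩
    have hstab : σ • A = A := MulAction.mem_stabilizer_iff.mp hσ
    rw [ValuationSubring.decompositionSubgroup, MulAction.mem_stabilizer_iff]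
    ext x
    rw [ValuationSubring.mem_pointwise_smul_iff_inv_smul_mem, ← map_inv, AlgEquiv.smul_def,
      mem_levelPlace, mem_levelPlace, restrictNormalHom_apply_coe]
    have h1 : σ⁻¹ (x : AlgebraicClosure ℚ) ∈ A ↔ (x : AlgebraicClosure ℚ) ∈ σ • A :=
      (ValuationSubring.mem_pointwise_smul_iff_inv_smul_mem (g := σ) (S := A)
        (x := (x : AlgebraicClosure ℚ))).symm
    rw [h1, hstab]
  · intro σ' hσ'
    have hstab : σ' • levelPlace F A = levelPlace F A := MulAction.mem_stabilizer_iff.mp hσ'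
    have : Algebra.IsAlgebraic ℚ (AlgebraicClosure ℚ) := AlgebraicClosure.isAlgebraic ℚ
    have : IsAlgClosure ℚ (AlgebraicClosure ℚ) := ⟨inferInstance, inferInstance⟩
    have : Normal ℚ (AlgebraicClosure ℚ) := IsAlgClosure.normal ℚ (AlgebraicClosure ℚ)
    obtain ⟨g₀, hg₀⟩ := AlgEquiv.restrictNormalHom_surjective (F := ℚ) (K₁ := F)
      (AlgebraicClosure ℚ) σ'
    have hg₀F : ∀ x : F, g₀ (x : AlgebraicClosure ℚ) = ((σ' x : F) : AlgebraicClosure ℚ) := by
      intro x
      rw [← hg₀]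
      exact (restrictNormalHom_apply_coe F g₀ x).symm
    have h₀ : ∀ x ∈ F, (g₀ x ∈ A ↔ x ∈ A) := by
      intro x hx
      have h1 := hg₀F ⟨x, hx⟩
      rw [show g₀ x = g₀ ((⟨x, hx⟩ : F) : AlgebraicClosure ℚ) from rfl, h1]
      have h2 : σ' • (⟨x, hx⟩ : F) ∈ σ' • levelPlace F A ↔ (⟨x, hx⟩ : F) ∈ levelPlace F A :=
        ValuationSubring.smul_mem_pointwise_smul_iff
      rw [hstab] at h2
      exact h2
    obtain ⟨σ, hσD, hσF⟩ := exists_decomposition_lift F A ℓ hℓ hA g₀ h₀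
    refine ⟨σ, hσD, ?_⟩
    ext x
    rw [restrictNormalHom_apply_coe, hσF _ x.2, hg₀F]

end Lift

section Padic

variable (q : ℕ) [Fact q.Prime]
variable (F : IntermediateField ℚ (AlgebraicClosure ℚ)) [hFn : Normal ℚ F]

theorem padicPlace_liesOverPrime : (padicPlace q).LiesOverPrime q :=
  Fermat.Agent.S55.H175.primeLocalPlace_liesOverPrime ⟨q, Fact.out⟩

omit hFn in
theorem mem_levelPlace_padicPlace {x : F} :
    x ∈ levelPlace F (padicPlace q) ↔ ‖padicEmbedding q (x : AlgebraicClosure ℚ)‖ ≤ 1 := by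
  rw [mem_levelPlace, Fermat.Agent.S55.H175.mem_padicPlace_iff_norm]

/-- **The finite-level decomposition group.**  The image of `Gal(ℚ̄_q/ℚ_q)` in `Gal(F/ℚ)` is the
decomposition group of the valuation subring `{x ∈ F | ‖ι x‖ ≤ 1}` of `F`. -/
theorem decompositionAt_eq :
    decompositionAt q F = (levelPlace F (padicPlace q)).decompositionSubgroup ℚ := by
  rw [decompositionAt_eq_map]
  exact map_decompositionSubgroup F (padicPlace q) q Fact.out (padicPlace_liesOverPrime q)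

/-- Membership in the finite-level decomposition group: isometries of `(F, ‖ι ·‖)`. -/
theorem mem_decompositionAt_iff (σ : F ≃ₐ[ℚ] F) :
    σ ∈ decompositionAt q F ↔
      ∀ x : F, ‖padicEmbedding q ((σ x : F) : AlgebraicClosure ℚ)‖ ≤ 1 ↔
        ‖padicEmbedding q (x : AlgebraicClosure ℚ)‖ ≤ 1 := by
  rw [decompositionAt_eq, ValuationSubring.decompositionSubgroup, MulAction.mem_stabilizer_iff]
  constructor
  · intro h x
    rw [← mem_levelPlace_padicPlace, ← mem_levelPlace_padicPlace]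
    have h2 : σ • x ∈ σ • levelPlace F (padicPlace q) ↔ x ∈ levelPlace F (padicPlace q) :=
      ValuationSubring.smul_mem_pointwise_smul_iff
    rw [h] at h2
    exact h2
  · intro h
    ext x
    rw [ValuationSubring.mem_pointwise_smul_iff_inv_smul_mem, mem_levelPlace_padicPlace,
      mem_levelPlace_padicPlace]
    have h1 := h (σ⁻¹ • x)
    rw [show σ (σ⁻¹ • x) = x from by simp [AlgEquiv.smul_def]] at h1
    exact h1.symm

/-- Every element of the finite-level decomposition group comes from `Gal(F_q/ℚ_q)`. -/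
theorem exists_local_of_mem_decompositionAt (σ : F ≃ₐ[ℚ] F)
    (hσ : ∀ x : F, ‖padicEmbedding q ((σ x : F) : AlgebraicClosure ℚ)‖ ≤ 1 ↔
        ‖padicEmbedding q (x : AlgebraicClosure ℚ)‖ ≤ 1) :
    ∃ τ : PadicAlgCl q ≃ₐ[ℚ_[q]] PadicAlgCl q, toLevel q F τ = σ :=
  (mem_decompositionAt_iff q F σ).mpr hσ

end Padic

end Fermat.Agent.S55.Bridge.H175

end
-- ===== PACK-END S55/Bridge/H175/DecompLevel.lean

-- ===== PACK-BEGIN S55/KL/H824/PUnbounded.lean
section




/-!
# S55 / layer KL, leaf KL-A3 (`LocalPUnboundedSpec`)                       (helper824)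

The `p`-part of the index `[G_{ℚ_q} : V]` of the normal local levels `V` below any given level
is unbounded.

Proof.  Let `ζ_j ∈ ℚ̄` be a primitive `p^j`-th root of unity and `E_j = ℚ_q(ι ζ_j) ⊆ ℚ̄_q`.
* `[E_j : ℚ_q]` divides `φ(p^j)` (cyclotomic extension);
* `[E_j : ℚ_q]` is unbounded: otherwise some `E_{j₀}` contains all `ζ_j`; it is a
  finite-dimensional normed space over the locally compact field `ℚ_q`, so its unit ball is compact;
  but two distinct roots of unity of `p`-power order have distance `≥ ‖p‖ > 0` (ultrametric);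
* hence `p^m ∣ [E_j : ℚ_q]` for a suitable `j`;
* the level `r⁻¹(G_{ℚ(ζ_j)})` is the fixing subgroup of `E_j`, of index `[E_j : ℚ_q]`, and the
  index of any smaller level is a multiple of it.

The statement is given in unfolded form (`localPUnbounded`); it is definitionally
`KL.LocalPUnboundedSpec` of the KL blueprint.
-/

set_option autoImplicit false
set_option linter.style.haveILetI false
set_option linter.unusedSectionVars false

noncomputable section

namespace Fermat.Agent.S55.KL.H824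

open Fermat.Agent.S55.PT ExtCitation

/-! ## 1. Roots of unity of `p`-power order in an ultrametric field are `‖p‖`-separated -/

section Norm

variable {K : Type*} [NormedField K] [IsUltrametricDist K]

lemma norm_geom_sum_le_one {x : K} (hx : ‖x‖ ≤ 1) (n : ℕ) :
    ‖∑ i ∈ Finset.range n, x ^ i‖ ≤ 1 := by
  refine IsUltrametricDist.norm_sum_le_of_forall_le_of_nonneg zero_le_one (fun i _ => ?_)
  rw [norm_pow]
  exact pow_le_one₀ (norm_nonneg _) hx

lemma norm_one_sub_pow_le {x : K} (hx : ‖x‖ ≤ 1) (n : ℕ) : ‖1 - x ^ n‖ ≤ ‖1 - x‖ := by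
  have h : 1 - x ^ n = (∑ i ∈ Finset.range n, x ^ i) * (1 - x) := by
    have := geom_sum_mul x n
    linear_combination this
  rw [h, norm_mul]
  calc ‖∑ i ∈ Finset.range n, x ^ i‖ * ‖1 - x‖ ≤ 1 * ‖1 - x‖ := by
        gcongr
        exact norm_geom_sum_le_one hx n
    _ = ‖1 - x‖ := one_mul _

omit [IsUltrametricDist K] in
lemma norm_eq_one_of_pow_eq_one' {x : K} {n : ℕ} (hn : n ≠ 0) (h : x ^ n = 1) : ‖x‖ = 1 := by
  have h1 : ‖x‖ ^ n = 1 := by rw [← norm_pow, h, norm_one]
  exact (pow_eq_one_iff_of_nonneg (norm_nonneg _) hn).1 h1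

lemma norm_prime_le_norm_one_sub {p : ℕ} (hp : p.Prime) :
    ∀ (k : ℕ) {ξ : K}, ξ ^ (p ^ k) = 1 → ξ ≠ 1 → ‖(p : K)‖ ≤ ‖1 - ξ‖ := by
  intro k
  induction k with
  | zero =>
    intro ξ h h1
    simp only [pow_zero, pow_one] at h
    exact absurd h h1
  | succ k ih =>
    intro ξ h h1
    have hξ : ‖ξ‖ ≤ 1 := le_of_eq (norm_eq_one_of_pow_eq_one' (pow_ne_zero _ hp.ne_zero) h)
    by_cases hη : ξ ^ p = 1
    · have hsum : ∑ i ∈ Finset.range p, ξ ^ i = 0 := by
        have := geom_sum_mul ξ p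
        rw [hη, sub_self] at this
        rcases mul_eq_zero.1 this with h0 | h0
        · exact h0
        · exact absurd (sub_eq_zero.1 h0) h1
      have hp' : (p : K) = ∑ i ∈ Finset.range p, (1 - ξ ^ i) := by
        rw [Finset.sum_sub_distrib, hsum, sub_zero]
        simp
      rw [hp']
      exact IsUltrametricDist.norm_sum_le_of_forall_le_of_nonneg (norm_nonneg _)
        (fun i _ => norm_one_sub_pow_le hξ i)
    · have h' : (ξ ^ p) ^ (p ^ k) = 1 := by
        rw [← pow_mul, ← pow_succ']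
        exact h
      exact (ih h' hη).trans (norm_one_sub_pow_le hξ p)

end Norm

/-! ## 2. A finite-dimensional subspace over a locally compact field cannot contain
primitive `p^j`-th roots of unity for all `j` -/

section Compact

variable {K : Type*} [NormedField K] [IsUltrametricDist K]

lemma norm_prime_le_norm_sub {p : ℕ} (hp : p.Prime) {ζ : ℕ → K}
    (hζ : ∀ j, IsPrimitiveRoot (ζ j) (p ^ j)) {a b : ℕ} (hab : a < b) :
    ‖(p : K)‖ ≤ ‖ζ a - ζ b‖ := by
  have ha0 : ζ a ≠ 0 := (hζ a).ne_zero (pow_ne_zero _ hp.ne_zero)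
  have hna : ‖ζ a‖ = 1 :=
    norm_eq_one_of_pow_eq_one' (pow_ne_zero a hp.ne_zero) (hζ a).pow_eq_one
  have hapow : ζ a ^ (p ^ b) = 1 := by
    obtain ⟨c, rfl⟩ := Nat.exists_eq_add_of_le hab.le
    rw [pow_add, pow_mul, (hζ a).pow_eq_one, one_pow]
  have hξpow : (ζ b * (ζ a)⁻¹) ^ (p ^ b) = 1 := by
    rw [mul_pow, inv_pow, (hζ b).pow_eq_one, hapow, inv_one, one_mul]
  have hξne : ζ b * (ζ a)⁻¹ ≠ 1 := by
    intro h
    have hba : ζ b = ζ a := by
      have := congrArg (· * ζ a) h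
      simpa [mul_assoc, inv_mul_cancel₀ ha0] using this
    have hpow : p ^ b = p ^ a := IsPrimitiveRoot.unique (hζ b) (hba ▸ hζ a)
    have := Nat.pow_right_injective hp.two_le hpow
    omega
  have hfac : ζ a - ζ b = ζ a * (1 - ζ b * (ζ a)⁻¹) := by
    field_simp
  rw [hfac, norm_mul, hna, one_mul]
  exact norm_prime_le_norm_one_sub hp b hξpow hξne

variable {k : Type*} [NontriviallyNormedField k] [LocallyCompactSpace k] [NormedAlgebra k K]

theorem not_forall_primitiveRoot_mem {p : ℕ} (hp : p.Prime) (hpK : (p : K) ≠ 0)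
    (E : Submodule k K) [FiniteDimensional k E] (ζ : ℕ → K)
    (hζ : ∀ j, IsPrimitiveRoot (ζ j) (p ^ j)) : ¬ ∀ j, ζ j ∈ E := by
  intro hmem
  have : ProperSpace E := FiniteDimensional.proper k E
  let x : ℕ → E := fun j => ⟨ζ j, hmem j⟩
  have hb : ∀ j, x j ∈ Metric.closedBall (0 : E) 1 := by
    intro j
    rw [mem_closedBall_zero_iff]
    exact le_of_eq (norm_eq_one_of_pow_eq_one' (pow_ne_zero j hp.ne_zero) (hζ j).pow_eq_one)
  obtain ⟨a, -, φ, hφ, hlim⟩ := tendsto_subseq_of_bounded Metric.isBounded_closedBall hb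
  have hc := hlim.cauchySeq
  rw [Metric.cauchySeq_iff] at hc
  obtain ⟨N, hN⟩ := hc ‖(p : K)‖ (norm_pos_iff.2 hpK)
  have h1 := hN N le_rfl (N + 1) (Nat.le_succ N)
  have h2 : ‖(p : K)‖ ≤ ‖ζ (φ N) - ζ (φ (N + 1))‖ :=
    norm_prime_le_norm_sub hp hζ (hφ (Nat.lt_succ_self N))
  have h3 : dist ((x ∘ φ) N) ((x ∘ φ) (N + 1)) = ‖ζ (φ N) - ζ (φ (N + 1))‖ := by
    rw [dist_eq_norm]
    rfl
  rw [h3] at h1
  exact absurd h1 (not_lt.2 h2)

end Compact

/-! ## 3. Degrees of the `p`-power cyclotomic extensions -/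

section Field

variable (k : Type*) {K : Type*} [Field k] [Field K] [Algebra k K] [Algebra.IsIntegral k K]

lemma finrank_adjoin_dvd_totient {n : ℕ} [NeZero n] {ζ : K} (hζ : IsPrimitiveRoot ζ n) :
    Module.finrank k (IntermediateField.adjoin k {ζ}) ∣ n.totient := by
  have hcyc := hζ.intermediateField_adjoin_isCyclotomicExtension k
  have hgal : IsGalois k (IntermediateField.adjoin k {ζ}) :=
    IsCyclotomicExtension.isGalois {n} k _
  have hfd : FiniteDimensional k (IntermediateField.adjoin k {ζ}) :=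
    IsCyclotomicExtension.finiteDimensional {n} k _
  let μ : IntermediateField.adjoin k {ζ} := ⟨ζ, IntermediateField.mem_adjoin_simple_self k ζ⟩
  have hμ : IsPrimitiveRoot μ n := IsPrimitiveRoot.coe_submonoidClass_iff.1 hζ
  rw [← IsGalois.card_aut_eq_finrank, ← ZMod.card_units_eq_totient n, ← Nat.card_eq_fintype_card]
  exact Subgroup.card_dvd_of_injective _ (hμ.autToPow_injective k)

lemma adjoin_primitiveRoot_mono {p : ℕ} (hp : p.Prime) {ζ : ℕ → K}
    (hζ : ∀ j, IsPrimitiveRoot (ζ j) (p ^ j)) {i j : ℕ} (hij : i ≤ j) :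
    IntermediateField.adjoin k {ζ i} ≤ IntermediateField.adjoin k {ζ j} := by
  rw [IntermediateField.adjoin_simple_le_iff]
  haveI : NeZero (p ^ j) := ⟨pow_ne_zero _ hp.ne_zero⟩
  have hpow : ζ i ^ (p ^ j) = 1 := by
    obtain ⟨c, rfl⟩ := Nat.exists_eq_add_of_le hij
    rw [pow_add, pow_mul, (hζ i).pow_eq_one, one_pow]
  obtain ⟨e, -, he⟩ := (hζ j).eq_pow_of_pow_eq_one hpow
  rw [← he]
  exact pow_mem (IntermediateField.mem_adjoin_simple_self k _) e

lemma pow_dvd_of_dvd_of_lt {p : ℕ} (hp : p.Prime) {d j m : ℕ} (hd : d ∣ p ^ j * (p - 1))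
    (hlt : p ^ m * (p - 1) < d) : p ^ m ∣ d := by
  obtain ⟨d1, d2, h1, h2, rfl⟩ := (Nat.dvd_mul).1 hd
  obtain ⟨a, ha, rfl⟩ := (Nat.dvd_prime_pow hp).1 h1
  have hp1 : 0 < p - 1 := Nat.sub_pos_of_lt hp.one_lt
  have hd2 : d2 ≤ p - 1 := Nat.le_of_dvd hp1 h2
  have h3 : p ^ m * (p - 1) < p ^ a * (p - 1) := lt_of_lt_of_le hlt (Nat.mul_le_mul_left _ hd2)
  have h4 : p ^ m < p ^ a := lt_of_mul_lt_mul_right h3 (Nat.zero_le _)
  have h5 : m < a := (Nat.pow_lt_pow_iff_right hp.one_lt).1 h4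
  exact Dvd.dvd.mul_right (pow_dvd_pow p h5.le) d2

lemma totient_prime_pow_dvd {p : ℕ} (hp : p.Prime) (j : ℕ) :
    (p ^ j).totient ∣ p ^ j * (p - 1) := by
  rcases Nat.eq_zero_or_pos j with rfl | hj
  · simp
  · rw [Nat.totient_prime_pow hp hj]
    exact Nat.mul_dvd_mul_right (pow_dvd_pow p (Nat.sub_le j 1)) _

end Field

section Unbounded

variable (k : Type*) {K : Type*} [NontriviallyNormedField k] [LocallyCompactSpace k]
  [NormedField K] [NormedAlgebra k K] [IsUltrametricDist K] [Algebra.IsIntegral k K]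

theorem exists_lt_finrank_adjoin {p : ℕ} (hp : p.Prime) (hpK : (p : K) ≠ 0) (ζ : ℕ → K)
    (hζ : ∀ j, IsPrimitiveRoot (ζ j) (p ^ j)) (B : ℕ) :
    ∃ j, B < Module.finrank k (IntermediateField.adjoin k {ζ j}) := by
  by_contra hcon
  push Not at hcon
  have hfd : ∀ j, FiniteDimensional k (IntermediateField.adjoin k {ζ j}) := fun j =>
    IntermediateField.adjoin.finiteDimensional (Algebra.IsIntegral.isIntegral (ζ j))
  -- an index of maximal degree
  have hmax : ∃ j0, ∀ j, Module.finrank k (IntermediateField.adjoin k {ζ j}) ≤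
      Module.finrank k (IntermediateField.adjoin k {ζ j0}) := by
    by_contra hno
    push Not at hno
    have hall : ∀ n : ℕ, ∃ j, n ≤ Module.finrank k (IntermediateField.adjoin k {ζ j}) := by
      intro n
      induction n with
      | zero => exact ⟨0, Nat.zero_le _⟩
      | succ n ih =>
        obtain ⟨j, hj⟩ := ih
        obtain ⟨j', hj'⟩ := hno j
        exact ⟨j', by omega⟩
    obtain ⟨j, hj⟩ := hall (B + 1)
    have := hcon j
    omega
  obtain ⟨j0, hj0⟩ := hmax
  have hmem : ∀ j, ζ j ∈ IntermediateField.adjoin k {ζ j0} := by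
    intro j
    have hle : IntermediateField.adjoin k {ζ j0} ≤ IntermediateField.adjoin k {ζ (max j j0)} :=
      adjoin_primitiveRoot_mono k hp hζ (le_max_right j j0)
    haveI := hfd (max j j0)
    have heq : IntermediateField.adjoin k {ζ j0} = IntermediateField.adjoin k {ζ (max j j0)} :=
      IntermediateField.eq_of_le_of_finrank_le hle (hj0 _)
    rw [heq]
    exact adjoin_primitiveRoot_mono k hp hζ (le_max_left j j0)
      (IntermediateField.mem_adjoin_simple_self k _)
  haveI : FiniteDimensional k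
      ↥((IntermediateField.adjoin k {ζ j0}).toSubalgebra.toSubmodule) := hfd j0
  exact not_forall_primitiveRoot_mem hp hpK
    ((IntermediateField.adjoin k {ζ j0}).toSubalgebra.toSubmodule) ζ hζ hmem

theorem exists_pow_dvd_finrank_adjoin {p : ℕ} (hp : p.Prime) (hpK : (p : K) ≠ 0) (ζ : ℕ → K)
    (hζ : ∀ j, IsPrimitiveRoot (ζ j) (p ^ j)) (m : ℕ) :
    ∃ j, p ^ m ∣ Module.finrank k (IntermediateField.adjoin k {ζ j}) := by
  obtain ⟨j, hj⟩ := exists_lt_finrank_adjoin k hp hpK ζ hζ (p ^ m * (p - 1))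
  refine ⟨j, ?_⟩
  haveI : NeZero (p ^ j) := ⟨pow_ne_zero _ hp.ne_zero⟩
  exact pow_dvd_of_dvd_of_lt hp
    ((finrank_adjoin_dvd_totient k (hζ j)).trans (totient_prime_pow_dvd hp j)) hj

end Unbounded

/-! ## 4. The local levels attached to the cyclotomic fields -/

section Galois

lemma mem_fixingSubgroup_adjoin_simple_iff {F E : Type*} [Field F] [Field E] [Algebra F E]
    (σ : E ≃ₐ[F] E) (y : E) :
    σ ∈ (IntermediateField.adjoin F {y}).fixingSubgroup ↔ σ y = y := by
  rw [IntermediateField.mem_fixingSubgroup_iff]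
  constructor
  · intro h
    exact h y (IntermediateField.mem_adjoin_simple_self F y)
  · intro h x hx
    induction hx using IntermediateField.adjoin_induction with
    | mem x hx =>
      rw [Set.mem_singleton_iff] at hx
      rw [hx]
      exact h
    | algebraMap x => exact σ.commutes x
    | add x y _ _ hx hy => rw [map_add, hx, hy]
    | inv x _ hx => rw [map_inv₀, hx]
    | mul x y _ _ hx hy => rw [map_mul, hx, hy]

variable (q : ℕ) [Fact q.Prime]

lemma comap_fixingSubgroup_adjoin_eq (z : AlgebraicClosure ℚ) :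
    (IntermediateField.adjoin ℚ {z}).fixingSubgroup.comap (localGaloisToGlobal q) =
      (IntermediateField.adjoin ℚ_[q] {padicEmbedding q z}).fixingSubgroup := by
  ext τ
  rw [Subgroup.mem_comap, mem_fixingSubgroup_adjoin_simple_iff,
    mem_fixingSubgroup_adjoin_simple_iff, ← padicEmbedding_localGaloisToGlobal]
  exact ((padicEmbedding q).injective.eq_iff).symm

lemma index_comap_fixingSubgroup_adjoin (z : AlgebraicClosure ℚ) :
    ((IntermediateField.adjoin ℚ {z}).fixingSubgroup.comap (localGaloisToGlobal q)).index =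
      Module.finrank ℚ_[q] (IntermediateField.adjoin ℚ_[q] {padicEmbedding q z}) := by
  rw [comap_fixingSubgroup_adjoin_eq]
  exact (IntermediateField.finrank_eq_fixingSubgroup_index _ _).symm

end Galois

/-! ## 5. KL-A3 -/

/-- **KL-A3** (`LocalPUnboundedSpec`, unfolded).  The `p`-part of `[G_{ℚ_q} : V]`, `V` a normal
local level below `V₀`, is unbounded. -/
theorem localPUnbounded (p : ℕ) [Fact p.Prime] (q : Nat.Primes) (V₀ : Subgroup (Gl q))
    (hV₀ : V₀ ∈ (localLevels q).levels) (m : ℕ) :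
    ∃ V : Subgroup (Gl q), V ∈ (localLevels q).levels ∧ V.Normal ∧ V ≤ V₀ ∧
      p ^ m ∣ V.index := by
  letI : Fact (q : ℕ).Prime := ⟨q.2⟩
  have hp : p.Prime := Fact.out
  have hex : ∀ j : ℕ, ∃ z : AlgebraicClosure ℚ, IsPrimitiveRoot z (p ^ j) := fun j => by
    haveI : NeZero ((p : ℕ) : AlgebraicClosure ℚ) := ⟨Nat.cast_ne_zero.2 hp.ne_zero⟩
    exact HasEnoughRootsOfUnity.exists_primitiveRoot _ _
  choose z hz using hex
  have hζ : ∀ j, IsPrimitiveRoot (padicEmbedding (q : ℕ) (z j)) (p ^ j) := fun j =>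
    (hz j).map_of_injective (padicEmbedding (q : ℕ)).injective
  have hpK : ((p : ℕ) : PadicAlgCl (q : ℕ)) ≠ 0 := Nat.cast_ne_zero.2 hp.ne_zero
  obtain ⟨j, hj⟩ := exists_pow_dvd_finrank_adjoin ℚ_[(q : ℕ)] hp hpK
    (fun j => padicEmbedding (q : ℕ) (z j)) hζ m
  have hfd : FiniteDimensional ℚ (IntermediateField.adjoin ℚ {z j}) :=
    IntermediateField.adjoin.finiteDimensional
      ((AlgebraicClosure.isAlgebraic ℚ).isAlgebraic (z j)).isIntegral
  have hH : (IntermediateField.adjoin ℚ {z j}).fixingSubgroup.comap (rl q) ∈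
      (localLevels q).levels := ⟨IntermediateField.adjoin ℚ {z j}, hfd, rfl⟩
  have hidx : ((IntermediateField.adjoin ℚ {z j}).fixingSubgroup.comap (rl q)).index =
      Module.finrank ℚ_[(q : ℕ)]
        (IntermediateField.adjoin ℚ_[(q : ℕ)] {padicEmbedding (q : ℕ) (z j)}) :=
    index_comap_fixingSubgroup_adjoin (q : ℕ) (z j)
  obtain ⟨U, hU, hUle⟩ := (localLevels q).directed V₀ hV₀ _ hH
  obtain ⟨V, hV, hVU, hVn⟩ := pullbackLevels_normal_cofinal724 (rl q) U hU
  refine ⟨V, hV, hVn, hVU.trans (hUle.trans inf_le_left), ?_⟩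
  have hdvd : ((IntermediateField.adjoin ℚ {z j}).fixingSubgroup.comap (rl q)).index ∣ V.index :=
    Subgroup.index_dvd_of_le (hVU.trans (hUle.trans inf_le_right))
  rw [hidx] at hdvd
  exact hj.trans hdvd

end Fermat.Agent.S55.KL.H824

end

end
-- ===== PACK-END S55/KL/H824/PUnbounded.lean

-- ===== PACK-BEGIN S55/G/LocH897/ShapiroJ.lean
section




/-!
# S55 / layer G / leaf G-LOC (helper897): `ShapiroJSpec`

`shapiroJ_of : T.ShapiroExplicitSpec → T.FiniteProdSpec → G.ShapiroJSpec`: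
for a set `R` of representatives of the `G`-orbits of places above `S`, the localisation maps
`locMapJ` induce a bijection `Hⁿ(G, J_S(L)) → ∏_{𝔪 ∈ R} Hⁿ(D_𝔪, L_𝔪ˣ)`.
(No finiteness of `G` is used.)
-/

set_option autoImplicit false
set_option linter.style.haveILetI false

open CategoryTheory groupCohomology
open scoped TensorProduct

namespace Fermat.Agent.S55.G.LocH897

open Fermat.Agent.S55 Fermat.Agent.S55.G

section

variable (S : Finset Nat.Primes) (Γ L : Type) [Group Γ] [Field L] [NumberField L]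
  [MulSemiringAction Γ L]

lemma asRingAut_inv_apply (g : Γ) (x : AS S L) :
    asRingAut Γ S L g⁻¹ (asRingAut Γ S L g x) = x := by
  rw [← RingAut.mul_apply, ← map_mul, inv_mul_cancel, map_one, RingAut.one_apply]

lemma asRingAut_apply_inv (g : Γ) (x : AS S L) :
    asRingAut Γ S L g (asRingAut Γ S L g⁻¹ x) = x := by
  rw [← RingAut.mul_apply, ← map_mul, mul_inv_cancel, map_one, RingAut.one_apply]

/-- `x ∈ g 𝔪 ↔ g⁻¹ x ∈ 𝔪`. -/
lemma mem_sPlaceSMul_iff' (g : Γ) (𝔪 : SPlace S L) (x : AS S L) :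
    x ∈ (sPlaceSMul S Γ g 𝔪).asIdeal ↔ asRingAut Γ S L g⁻¹ x ∈ 𝔪.asIdeal :=
  mem_sPlaceSMul_iff S Γ g 𝔪 x

/-- Membership in helper421's decomposition group, in terms of elements. -/
lemma mem_Gdecomp_iff (𝔪 : SPlace S L) (g : Γ) :
    g ∈ G.decomp S Γ 𝔪 ↔ ∀ x, asRingAut Γ S L g x ∈ 𝔪.asIdeal ↔ x ∈ 𝔪.asIdeal := by
  rw [G.mem_decomp_iff]
  constructor
  · intro h x
    have h1 := mem_sPlaceSMul_iff' S Γ L g 𝔪 (asRingAut Γ S L g x)
    rw [h, asRingAut_inv_apply] at h1
    exact h1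
  · intro h
    refine MaximalSpectrum.ext (Ideal.ext fun x => ?_)
    rw [mem_sPlaceSMul_iff', ← h, asRingAut_apply_inv]

lemma Gdecomp_eq (𝔪 : SPlace S L) :
    G.decomp S Γ 𝔪 = LocH897.decomp (asRingAut Γ S L) 𝔪.asIdeal := by
  ext g
  rw [mem_Gdecomp_iff, mem_decomp]

end

/-- **G-LOC.**  `ShapiroJSpec` from the T-layer specs T8 (`ShapiroExplicitSpec`) and T9a
(`FiniteProdSpec`). -/
theorem shapiroJ_of (h8 : T.ShapiroExplicitSpec) (h9 : T.FiniteProdSpec) : ShapiroJSpec := by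
  intro S Γ L _ _ _ _ _ R hR n
  haveI := isReduced_AS S L
  haveI := isArtinianRing_AS S L
  refine semilocal_bijective h8 h9 (k := ℤ) (G := Γ) (ι := R) (fun r => G.decomp S Γ r.1)
    (fun r => LocRep S Γ r.1) (JRep Γ S L) (fun r => jToLocRepHom S Γ r.1) ?_ n
  intro f hf
  -- translate to the abstract semi-local statement
  have hcover : ∀ 𝔫 : Ideal (AS S L), 𝔫.IsMaximal →
      ∃ (i : R) (g : Γ), ∀ x, x ∈ 𝔫 ↔ asRingAut Γ S L g x ∈ i.1.asIdeal := by
    intro 𝔫 h𝔫
    obtain ⟨r, ⟨hrR, g, hg⟩, -⟩ := hR ⟨𝔫, h𝔫⟩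
    refine ⟨⟨r, hrR⟩, g⁻¹, fun x => ?_⟩
    have := mem_sPlaceSMul_iff' S Γ L g r x
    rw [hg] at this
    exact this
  have hdisj : ∀ (i j : R) (g : Γ),
      (∀ x, x ∈ j.1.asIdeal ↔ asRingAut Γ S L g x ∈ i.1.asIdeal) → i = j := by
    intro i j g h
    obtain ⟨r, -, hru⟩ := hR j.1
    have hj : j.1 = r := hru j.1 ⟨j.2, 1, by
      refine MaximalSpectrum.ext (Ideal.ext fun x => ?_)
      rw [mem_sPlaceSMul_iff', inv_one, map_one, RingAut.one_apply]⟩
    have hi : i.1 = r := hru i.1 ⟨i.2, g⁻¹, by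
      refine MaximalSpectrum.ext (Ideal.ext fun x => ?_)
      rw [mem_sPlaceSMul_iff', inv_inv, h]⟩
    exact Subtype.ext (hi.trans hj.symm)
  obtain ⟨b, hb, hbu⟩ := existsUnique_units (asRingAut Γ S L) (fun r : R => r.1.asIdeal)
    (fun r => r.1.isMaximal) hcover hdisj
    (fun r g => Additive.toMul (α := (AS S L ⧸ r.1.asIdeal)ˣ) (f r g))
    (fun r s g => by
      have hs : (s : Γ) ∈ G.decomp S Γ r.1 := by rw [Gdecomp_eq]; exact s.2
      have := congrArg
        (fun y : Additive (AS S L ⧸ r.1.asIdeal)ˣ =>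
          ((Additive.toMul y : (AS S L ⧸ r.1.asIdeal)ˣ) : AS S L ⧸ r.1.asIdeal))
        (hf r ⟨s, hs⟩ g)
      exact this)
  refine ⟨Additive.ofMul b, fun i g => ?_, fun c hc => ?_⟩
  · apply Additive.toMul.injective
    apply Units.ext
    exact hb i g
  · apply Additive.toMul.injective
    refine hbu (Additive.toMul (α := (AS S L)ˣ) c) fun i g => ?_
    have := congrArg
      (fun y : Additive (AS S L ⧸ i.1.asIdeal)ˣ =>
        ((Additive.toMul y : (AS S L ⧸ i.1.asIdeal)ˣ) : AS S L ⧸ i.1.asIdeal))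
      (hc i g)
    exact this

end Fermat.Agent.S55.G.LocH897

end
-- ===== PACK-END S55/G/LocH897/ShapiroJ.lean

-- ===== PACK-BEGIN S55/H604/SUnitIndex.lean
section



/-!
# S55 / arithmetic leaf: the power index of the `S`-units

`[E_S : E_S^n] = #μ_n(L) · n ^ (#∞ + #S - 1)`.  In particular, if `L` contains the `n`-th roots of
unity, `[E_S : E_S^n] = n ^ (#∞ + #S)` (the input `[K^S : (K^S)^n] = n^s` of the second inequality).
-/

set_option autoImplicit false

open NumberField IsDedekindDomain Module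

namespace Fermat.Agent.S55.H604

variable (L : Type*) [Field L] [NumberField L] (S : Finset (HeightOneSpectrum (𝓞 L)))

variable {L} in
/-- roots of unity are `S`-units. -/
lemma rootsOfUnity_le_sUnit (n : ℕ) (hn : n ≠ 0) : rootsOfUnity n L ≤ SUnit L S := by
  intro u hu v _
  have h1 : (u : L) ^ n = 1 := by
    have := congrArg Units.val ((mem_rootsOfUnity n u).1 hu)
    simpa using this
  have h2 : (v.valuation L (u : L)) ^ n = 1 := by
    rw [← map_pow, h1, map_one]
  exact (pow_eq_one_iff.1 h2).resolve_right hn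

/-- the `n`-torsion of the `S`-units is `μ_n(L)`. -/
noncomputable def kerNsmulEquiv (n : ℕ) (hn : n ≠ 0) :
    (nsmulAddMonoidHom (α := Additive (SUnit L S)) n).ker ≃ rootsOfUnity n L where
  toFun x := ⟨((Additive.toMul x.1 : SUnit L S) : Lˣ), by
    have h := x.2
    rw [AddMonoidHom.mem_ker] at h
    have h' : (Additive.toMul x.1 : SUnit L S) ^ n = 1 := h
    rw [mem_rootsOfUnity]
    exact_mod_cast congrArg Subtype.val h'⟩
  invFun u := ⟨Additive.ofMul ⟨u.1, rootsOfUnity_le_sUnit S n hn u.2⟩, by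
    rw [AddMonoidHom.mem_ker]
    have h := (mem_rootsOfUnity n u.1).1 u.2
    change (⟨u.1, rootsOfUnity_le_sUnit S n hn u.2⟩ : SUnit L S) ^ n = 1
    exact Subtype.ext (by simpa using h)⟩
  left_inv x := rfl
  right_inv u := rfl

/-- **`S`-unit power index.** `[E_S : E_S^n] = #μ_n(L) · n ^ (#∞ + #S - 1)`. -/
theorem index_range_pow_sUnit (n : ℕ) (hn : n ≠ 0) :
    (powMonoidHom n : SUnit L S →* SUnit L S).range.index =
      Nat.card (rootsOfUnity n L) * n ^ (Fintype.card (InfinitePlace L) + S.card - 1) := by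
  rw [← Nat.card_congr (kerNsmulEquiv L S n hn), ← index_range_nsmul_sUnit L S n hn,
    ← Subgroup.index_toAddSubgroup]
  rfl

/-- If `L` contains a primitive `n`-th root of unity then `[E_S : E_S^n] = n ^ (#∞ + #S)`. -/
theorem index_range_pow_sUnit_of_primitiveRoot (n : ℕ) (hn : n ≠ 0) {ζ : L}
    (hζ : IsPrimitiveRoot ζ n) :
    (powMonoidHom n : SUnit L S →* SUnit L S).range.index =
      n ^ (Fintype.card (InfinitePlace L) + S.card) := by
  have : NeZero n := ⟨hn⟩
  rw [index_range_pow_sUnit L S n hn, hζ.card_rootsOfUnity]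
  have hpos : 0 < Fintype.card (InfinitePlace L) := Fintype.card_pos
  have : Fintype.card (InfinitePlace L) + S.card =
      (Fintype.card (InfinitePlace L) + S.card - 1) + 1 := by omega
  rw [this, pow_succ, Nat.add_sub_cancel, mul_comm]


/-- **Dirichlet's `S`-unit theorem (finite generation).** -/
instance moduleFinite_sUnit : Module.Finite ℤ (Additive (SUnit L S)) := by
  rw [Module.finite_def]
  refine Submodule.fg_of_fg_map_of_fg_inf_ker (logSLattice L S).toIntLinearMap ?_ ?_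
  · rw [Submodule.map_top, LinearMap.range_eq_top.mpr (by exact logSLattice_surjective L S),
      ← Module.finite_def]
    infer_instance
  · rw [inf_of_le_right le_top, AddMonoidHom.coe_toIntLinearMap_ker,
      Submodule.fg_iff_addSubgroup_fg, AddSubgroup.toIntSubmodule_toAddSubgroup,
      ← AddGroup.fg_iff_addSubgroup_fg]
    exact AddGroup.fg_of_finite

instance monoidFG_sUnit : Monoid.FG (SUnit L S) := by
  rw [Monoid.fg_iff_add_fg, ← AddGroup.fg_iff_addMonoid_fg, ← Module.Finite.iff_addGroup_fg]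
  infer_instance

instance groupFG_sUnit : Group.FG (SUnit L S) := by
  rw [Group.fg_iff_monoid_fg]
  infer_instance

end Fermat.Agent.S55.H604

end
-- ===== PACK-END S55/H604/SUnitIndex.lean

-- ===== PACK-BEGIN S55/G/PL1H597/Base.lean
section
/-
S55 (Poitou–Tate), layer G, leaf G-PL1 (`PlacePrimeSpec`) — helper597.
Part 1: local structure of `L_𝔪 = (L ⊗ ℚ_S) ⧸ 𝔪`: the unique `q ∈ S` below `𝔪`, the embedding
`ℚ_q → L_𝔪`, finite-dimensionality, the ring of integers `intA 𝔪` and its characterisation by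
integrality over `ℤ_S = ∏_{q ∈ S} ℤ_q`.
-/





set_option autoImplicit false
set_option linter.unusedSectionVars false
set_option linter.style.haveILetI false
set_option linter.unusedSimpArgs false
set_option backward.isDefEq.respectTransparency false

open scoped NumberField TensorProduct
open IsDedekindDomain Polynomial

noncomputable section

namespace Fermat.Agent.S55.G.PL1H597

open Fermat.Agent.S55.G

variable (S : Finset Nat.Primes) {L : Type} [Field L] [CharZero L]

/-- The idempotent of `ℚ_S` cutting out the factor `ℚ_q`. -/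
def idem (q : S) : QS S := (QS.toPi S).symm (Pi.single q 1)

/-- The inclusion of the factor `ℚ_q` into `ℚ_S` (additive and multiplicative, not unital). -/
def inclQ (q : S) (a : Qq q.1) : QS S := (QS.toPi S).symm (Pi.single q a)

lemma inclQ_apply_same (q : S) (a : Qq q.1) : QS.toPi S (inclQ S q a) q = a := by
  simp [inclQ]

lemma inclQ_apply_ne (q q' : S) (h : q' ≠ q) (a : Qq q.1) : QS.toPi S (inclQ S q a) q' = 0 := by
  simp [inclQ, Pi.single_eq_of_ne h]

lemma inclQ_one (q : S) : inclQ S q 1 = idem S q := rfl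

lemma inclQ_zero (q : S) : inclQ S q 0 = 0 := by
  simp [inclQ]

lemma inclQ_add (q : S) (a b : Qq q.1) : inclQ S q (a + b) = inclQ S q a + inclQ S q b := by
  simp [inclQ, Pi.single_add]

lemma inclQ_mul (q : S) (a b : Qq q.1) : inclQ S q (a * b) = inclQ S q a * inclQ S q b := by
  apply (QS.toPi S).injective
  funext q'
  by_cases h : q' = q
  · subst h
    simp [inclQ]
  · simp [inclQ, Pi.single_eq_of_ne h]

lemma mul_idem (q : S) (z : QS S) : z * idem S q = inclQ S q (QS.toPi S z q) := by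
  apply (QS.toPi S).injective
  funext q'
  by_cases h : q' = q
  · subst h
    simp [inclQ, idem]
  · simp [inclQ, idem, Pi.single_eq_of_ne h]

lemma sum_idem : ∑ q : S, idem S q = 1 := by
  apply (QS.toPi S).injective
  funext q'
  simp [idem, Finset.sum_apply]

/-! ### The rational prime below a place -/

variable {S}

/-- The place `𝔪` lies over `q ∈ S`: the idempotent of `q` is not in `𝔪`. -/
def Over (𝔪 : SPlace S L) (q : S) : Prop := LocField.ofQS S 𝔪 (idem S q) = 1

lemma ofQS_idem_eq_zero_or_one (𝔪 : SPlace S L) (q : S) :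
    LocField.ofQS S 𝔪 (idem S q) = 0 ∨ LocField.ofQS S 𝔪 (idem S q) = 1 := by
  have h : idem S q * idem S q = idem S q := by
    rw [mul_idem]
    simp [idem, inclQ]
  have h2 := congrArg (LocField.ofQS S 𝔪) h
  rw [map_mul] at h2
  rcases eq_or_ne (LocField.ofQS S 𝔪 (idem S q)) 0 with h0 | h0
  · exact Or.inl h0
  · right
    exact mul_left_cancel₀ h0 (by rw [h2, mul_one])

lemma exists_over (𝔪 : SPlace S L) : ∃ q : S, Over 𝔪 q := by
  by_contra hcon
  push Not at hcon
  have h0 : ∀ q : S, LocField.ofQS S 𝔪 (idem S q) = 0 := fun q =>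
    (ofQS_idem_eq_zero_or_one 𝔪 q).resolve_right (hcon q)
  have h1 := congrArg (LocField.ofQS S 𝔪) (sum_idem S)
  rw [map_sum, map_one, Finset.sum_eq_zero (fun q _ => h0 q)] at h1
  exact zero_ne_one h1

lemma over_unique {𝔪 : SPlace S L} {q q' : S} (h : Over 𝔪 q) (h' : Over 𝔪 q') : q = q' := by
  by_contra hne
  have h0 : idem S q * idem S q' = 0 := by
    rw [mul_idem]
    simp [idem, inclQ, Pi.single_eq_of_ne (Ne.symm hne)]
  have h2 := congrArg (LocField.ofQS S 𝔪) h0
  rw [map_mul, h, h', map_zero, mul_one] at h2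
  exact one_ne_zero h2

lemma ofQS_eq_of_over {𝔪 : SPlace S L} {q : S} (h : Over 𝔪 q) (z : QS S) :
    LocField.ofQS S 𝔪 z = LocField.ofQS S 𝔪 (inclQ S q (QS.toPi S z q)) := by
  rw [← mul_idem, map_mul, h, mul_one]

/-- The rational prime `q ∈ S` below the place `𝔪`. -/
def qAt (𝔪 : SPlace S L) : S := (exists_over 𝔪).choose

lemma over_qAt (𝔪 : SPlace S L) : Over 𝔪 (qAt 𝔪) := (exists_over 𝔪).choose_spec

lemma eq_qAt {𝔪 : SPlace S L} {q : S} (h : Over 𝔪 q) : q = qAt 𝔪 := over_unique h (over_qAt 𝔪)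

/-- The embedding `ℚ_q → L_𝔪` for a prime `q` below `𝔪`. -/
def ofQq (𝔪 : SPlace S L) (q : S) (h : Over 𝔪 q) : Qq q.1 →+* LocField S 𝔪 where
  toFun a := LocField.ofQS S 𝔪 (inclQ S q a)
  map_one' := by rw [inclQ_one]; exact h
  map_mul' a b := by rw [inclQ_mul, map_mul]
  map_zero' := by rw [inclQ_zero, map_zero]
  map_add' a b := by rw [inclQ_add, map_add]

lemma ofQq_apply (𝔪 : SPlace S L) (q : S) (h : Over 𝔪 q) (a : Qq q.1) :
    ofQq 𝔪 q h a = LocField.ofQS S 𝔪 (inclQ S q a) := rfl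

lemma ofQS_eq_ofQq {𝔪 : SPlace S L} {q : S} (h : Over 𝔪 q) (z : QS S) :
    LocField.ofQS S 𝔪 z = ofQq 𝔪 q h (QS.toPi S z q) :=
  ofQS_eq_of_over h z

lemma mk_tmul (𝔪 : SPlace S L) (x : L) (z : QS S) :
    LocField.mk S 𝔪 (x ⊗ₜ[ℚ] z) = toLoc S 𝔪 x * LocField.ofQS S 𝔪 z := by
  have : (x ⊗ₜ[ℚ] z : AS S L) = asDiag S L x * asIncl S L z := by
    simp [asIncl]
  rw [this, map_mul]
  rfl

instance instCharZeroLocField (𝔪 : SPlace S L) : CharZero (LocField S 𝔪) :=
  charZero_of_injective_ringHom (toLoc S 𝔪).injective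

/-! ### `L_𝔪` is a finite extension of `ℚ_q` -/

/-- The `ℚ_q`-algebra structure of `L_𝔪` (a definition, not an instance). -/
@[reducible] def algQq (𝔪 : SPlace S L) (q : S) (h : Over 𝔪 q) : Algebra (Qq q.1) (LocField S 𝔪) :=
  (ofQq 𝔪 q h).toAlgebra

/-- `toLoc` as a `ℚ`-algebra homomorphism. -/
def toLocAlg (𝔪 : SPlace S L) : L →ₐ[ℚ] LocField S 𝔪 :=
  { toLoc S 𝔪 with commutes' := fun r => map_ratCast (toLoc S 𝔪) r }

@[simp] lemma toLocAlg_apply (𝔪 : SPlace S L) (x : L) : toLocAlg 𝔪 x = toLoc S 𝔪 x := rfl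

lemma finiteDimensional_locField [FiniteDimensional ℚ L] (𝔪 : SPlace S L) (q : S) (h : Over 𝔪 q) :
    letI := algQq 𝔪 q h
    FiniteDimensional (Qq q.1) (LocField S 𝔪) := by
  letI := algQq 𝔪 q h
  let Ψ : Qq q.1 ⊗[ℚ] L →ₐ[Qq q.1] LocField S 𝔪 :=
    Algebra.TensorProduct.lift (Algebra.ofId (Qq q.1) (LocField S 𝔪)) (toLocAlg 𝔪)
      (fun _ _ => Commute.all _ _)
  have hΨ : ∀ (a : Qq q.1) (x : L), Ψ (a ⊗ₜ[ℚ] x) = ofQq 𝔪 q h a * toLoc S 𝔪 x := by
    intro a x
    simp only [Ψ, Algebra.TensorProduct.lift_tmul]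
    rfl
  have hsurj : Function.Surjective Ψ := by
    intro y
    obtain ⟨z, rfl⟩ := LocField.mk_surjective S 𝔪 y
    induction z using TensorProduct.induction_on with
    | zero => exact ⟨0, by simp⟩
    | tmul x a =>
      refine ⟨(QS.toPi S a q) ⊗ₜ[ℚ] x, ?_⟩
      rw [hΨ, mk_tmul, ofQS_eq_ofQq h, mul_comm]
    | add z₁ z₂ h₁ h₂ =>
      obtain ⟨w₁, hw₁⟩ := h₁
      obtain ⟨w₂, hw₂⟩ := h₂
      exact ⟨w₁ + w₂, by rw [map_add, map_add, hw₁, hw₂]⟩
  exact Module.Finite.of_surjective Ψ.toLinearMap hsurj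

/-! ### The ring of integers of `L_𝔪` -/

/-- `ℤ_q` as a valuation subring of `ℚ_q`. -/
def Zq (q : Nat.Primes) : ValuationSubring (Qq q) := S55.L.unitBall63 (Qq q)

lemma mem_Zq (q : Nat.Primes) (a : Qq q) : a ∈ Zq q ↔ ‖a‖ ≤ 1 := S55.L.mem_unitBall63 (Qq q) a

lemma isLocalRingOfIntegers_Zq (q : Nat.Primes) : S55.L.IsLocalRingOfIntegers (Zq q) :=
  S55.L.isLocalRingOfIntegers_unitBall63 (Qq q)

/-- The structure map `ℤ_q → L_𝔪`. -/
def zqHom (𝔪 : SPlace S L) (q : S) (h : Over 𝔪 q) : Zq q.1 →+* LocField S 𝔪 :=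
  (ofQq 𝔪 q h).comp (Zq q.1).subtype

lemma exists_intA [FiniteDimensional ℚ L] (𝔪 : SPlace S L) (q : S) (h : Over 𝔪 q) :
    ∃ B : ValuationSubring (LocField S 𝔪), S55.L.IsLocalRingOfIntegers B ∧
      (∀ y : LocField S 𝔪, y ∈ B ↔ (zqHom 𝔪 q h).IsIntegralElem y) ∧
      (∀ a : Qq q.1, ofQq 𝔪 q h a ∈ B ↔ a ∈ Zq q.1) := by
  letI := algQq 𝔪 q h
  haveI := finiteDimensional_locField 𝔪 q h
  letI : Algebra (Zq q.1) (LocField S 𝔪) := (zqHom 𝔪 q h).toAlgebra
  haveI : IsScalarTower (Zq q.1) (Qq q.1) (LocField S 𝔪) :=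
    IsScalarTower.of_algebraMap_eq (fun _ => rfl)
  obtain ⟨B, hB, h1, h2⟩ := S55.L.exists_ringOfIntegers_eq_integralClosure286
    (K := Qq q.1) (L := LocField S 𝔪) (Zq q.1) (isLocalRingOfIntegers_Zq q.1)
  exact ⟨B, hB, h1, h2⟩

variable [FiniteDimensional ℚ L]

/-- The ring of integers of `L_𝔪`. -/
def intA (𝔪 : SPlace S L) : ValuationSubring (LocField S 𝔪) :=
  (exists_intA 𝔪 (qAt 𝔪) (over_qAt 𝔪)).choose

lemma intA_spec (𝔪 : SPlace S L) : S55.L.IsLocalRingOfIntegers (intA 𝔪) :=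
  (exists_intA 𝔪 (qAt 𝔪) (over_qAt 𝔪)).choose_spec.1

lemma mem_intA_iff_zq (𝔪 : SPlace S L) (q : S) (h : Over 𝔪 q) (y : LocField S 𝔪) :
    y ∈ intA 𝔪 ↔ (zqHom 𝔪 q h).IsIntegralElem y := by
  obtain rfl := eq_qAt h
  exact (exists_intA 𝔪 (qAt 𝔪) (over_qAt 𝔪)).choose_spec.2.1 y

lemma ofQq_mem_intA_iff (𝔪 : SPlace S L) (q : S) (h : Over 𝔪 q) (a : Qq q.1) :
    ofQq 𝔪 q h a ∈ intA 𝔪 ↔ ‖a‖ ≤ 1 := by
  obtain rfl := eq_qAt h
  rw [← mem_Zq]
  exact (exists_intA 𝔪 (qAt 𝔪) (over_qAt 𝔪)).choose_spec.2.2 a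

instance instIsLocalFldLocField (𝔪 : SPlace S L) : S55.L.IsLocalFld (LocField S 𝔪) :=
  ⟨inferInstance, intA 𝔪, intA_spec 𝔪⟩

/-- Every ring of integers of `L_𝔪` is `intA 𝔪`. -/
lemma eq_intA (𝔪 : SPlace S L) (A : ValuationSubring (LocField S 𝔪))
    (hA : S55.L.IsLocalRingOfIntegers A) : A = intA 𝔪 :=
  S55.L.ringOfIntegersUnique775 (LocField S 𝔪) A (intA 𝔪) hA (intA_spec 𝔪)

/-! ### Integrality over `ℤ_S` -/

variable (S) in
/-- `ℤ_S = ∏_{q ∈ S} ℤ_q` as a subring of `ℚ_S`. -/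
def ZS : Subring (QS S) where
  carrier := {z | ∀ q : S, QS.toPi S z q ∈ Zq q.1}
  mul_mem' {a b} ha hb q := by
    rw [map_mul]
    exact (Zq q.1).mul_mem _ _ (ha q) (hb q)
  one_mem' q := by
    rw [map_one]
    exact (Zq q.1).one_mem
  add_mem' {a b} ha hb q := by
    rw [map_add]
    exact (Zq q.1).add_mem _ _ (ha q) (hb q)
  zero_mem' q := by
    rw [map_zero]
    exact (Zq q.1).zero_mem
  neg_mem' {a} ha q := by
    rw [map_neg]
    exact (Zq q.1).neg_mem _ (ha q)

lemma mem_ZS (z : QS S) : z ∈ ZS S ↔ ∀ q : S, ‖QS.toPi S z q‖ ≤ 1 := by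
  simp only [← mem_Zq]
  rfl

/-- The projection `ℤ_S → ℤ_q`. -/
def zsProj (q : S) : ZS S →+* Zq q.1 where
  toFun z := ⟨QS.toPi S z.1 q, z.2 q⟩
  map_one' := rfl
  map_mul' _ _ := rfl
  map_zero' := rfl
  map_add' _ _ := rfl

lemma inclQ_mem_ZS (q : S) (a : Zq q.1) : inclQ S q a.1 ∈ ZS S := by
  intro q'
  by_cases h : q' = q
  · subst h
    rw [inclQ_apply_same]
    exact a.2
  · rw [inclQ_apply_ne S q q' h]
    exact (Zq q'.1).zero_mem

lemma zsProj_surjective (q : S) : Function.Surjective (zsProj (S := S) q) := by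
  intro a
  refine ⟨⟨inclQ S q a.1, inclQ_mem_ZS q a⟩, ?_⟩
  apply Subtype.ext
  exact inclQ_apply_same S q a.1

/-- The structure map `ℤ_S → L_𝔪`. -/
def zsHom (𝔪 : SPlace S L) : ZS S →+* LocField S 𝔪 :=
  (LocField.ofQS S 𝔪).comp (ZS S).subtype

lemma zsHom_eq (𝔪 : SPlace S L) (q : S) (h : Over 𝔪 q) :
    zsHom 𝔪 = (zqHom 𝔪 q h).comp (zsProj q) := by
  ext z
  exact ofQS_eq_ofQq h z.1

lemma mem_intA_iff (𝔪 : SPlace S L) (y : LocField S 𝔪) :
    y ∈ intA 𝔪 ↔ (zsHom 𝔪).IsIntegralElem y := by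
  rw [mem_intA_iff_zq 𝔪 (qAt 𝔪) (over_qAt 𝔪), zsHom_eq 𝔪 (qAt 𝔪) (over_qAt 𝔪)]
  constructor
  · rintro ⟨f, hf, hf0⟩
    have hlift : f ∈ Polynomial.lifts (zsProj (S := S) (qAt 𝔪)) := by
      rw [Polynomial.mem_lifts]
      exact Polynomial.map_surjective _ (zsProj_surjective (qAt 𝔪)) f
    obtain ⟨F, hF, -, hFm⟩ := Polynomial.lifts_and_natDegree_eq_and_monic hlift hf
    refine ⟨F, hFm, ?_⟩
    rw [← Polynomial.eval₂_map, hF]
    exact hf0
  · rintro ⟨F, hF, hF0⟩
    refine ⟨F.map (zsProj (qAt 𝔪)), hF.map _, ?_⟩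
    rw [Polynomial.eval₂_map]
    exact hF0

variable (S L) in
/-- The structure map `ℤ_S → L ⊗ ℚ_S`. -/
def zsIncl : ZS S →+* AS S L :=
  ((asIncl S L : QS S →ₐ[ℚ] AS S L) : QS S →+* AS S L).comp (ZS S).subtype

lemma mk_comp_zsIncl (𝔪 : SPlace S L) : (LocField.mk S 𝔪).comp (zsIncl S L) = zsHom 𝔪 := rfl

/-- `z ∈ L ⊗ ℚ_S` is integral over `ℤ_S` modulo `𝔪`. -/
def IntAS (𝔪 : SPlace S L) (z : AS S L) : Prop :=
  ∃ P : (ZS S)[X], P.Monic ∧ Polynomial.eval₂ (zsIncl S L) z P ∈ 𝔪.asIdeal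

lemma mk_mem_intA_iff (𝔪 : SPlace S L) (z : AS S L) :
    LocField.mk S 𝔪 z ∈ intA 𝔪 ↔ IntAS 𝔪 z := by
  rw [mem_intA_iff]
  unfold IntAS RingHom.IsIntegralElem
  simp only [← LocField.mk_eq_zero_iff, Polynomial.hom_eval₂, mk_comp_zsIncl]

/-! ### Basic elements of `intA 𝔪` -/

lemma ofQS_mem_intA (𝔪 : SPlace S L) (z : QS S) (hz : z ∈ ZS S) :
    LocField.ofQS S 𝔪 z ∈ intA 𝔪 := by
  rw [ofQS_eq_ofQq (over_qAt 𝔪), ofQq_mem_intA_iff, ← mem_Zq]
  exact hz (qAt 𝔪)

lemma toLoc_mem_intA_of_isIntegral (𝔪 : SPlace S L) (x : L) (hx : IsIntegral ℤ x) :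
    toLoc S 𝔪 x ∈ intA 𝔪 := by
  rw [mem_intA_iff]
  obtain ⟨p, hp, hp0⟩ := hx
  refine ⟨p.map (Int.castRingHom (ZS S)), hp.map _, ?_⟩
  rw [Polynomial.eval₂_map]
  have h1 : (zsHom 𝔪).comp (Int.castRingHom (ZS S)) = (toLoc S 𝔪).comp (algebraMap ℤ L) :=
    RingHom.ext_int _ _
  rw [h1, ← Polynomial.hom_eval₂, hp0, map_zero]

/-- Membership in the set of non-units of a valuation subring in terms of the inverse. -/
lemma mem_nonunits_iff_inv {K : Type*} [Field K] (A : ValuationSubring K) (x : K) :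
    x ∈ A.nonunits ↔ x = 0 ∨ x⁻¹ ∉ A := by
  rw [ValuationSubring.mem_nonunits_iff]
  rcases eq_or_ne x 0 with rfl | hx
  · simp
  · rw [← A.valuation_le_one_iff, not_le, Valuation.one_lt_val_iff _ (inv_ne_zero hx), inv_inv]
    simp [hx]

lemma natCast_mem_nonunits (𝔪 : SPlace S L) (q : S) (h : Over 𝔪 q) :
    (((q.1 : ℕ) : ℕ) : LocField S 𝔪) ∈ (intA 𝔪).nonunits := by
  haveI : Fact (q.1 : ℕ).Prime := ⟨q.1.2⟩
  have hq0 : (((q.1 : ℕ) : ℕ) : Qq q.1) ≠ 0 := by
    exact_mod_cast q.1.2.ne_zero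
  have h1 : (((q.1 : ℕ) : ℕ) : LocField S 𝔪) = ofQq 𝔪 q h (((q.1 : ℕ) : ℕ) : Qq q.1) :=
    (map_natCast (ofQq 𝔪 q h) _).symm
  rw [mem_nonunits_iff_inv, h1, ← map_inv₀, ofQq_mem_intA_iff, norm_inv]
  right
  rw [not_le]
  have h2 : ‖(((q.1 : ℕ) : ℕ) : Qq q.1)‖ = ((q.1 : ℕ) : ℝ)⁻¹ := Padic.norm_p
  rw [h2, inv_inv]
  exact_mod_cast q.1.2.one_lt

end Fermat.Agent.S55.G.PL1H597

end
end
-- ===== PACK-END S55/G/PL1H597/Base.lean

-- ===== PACK-BEGIN S55/Local/H608/Dict.lean
section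


/-!
# S55 layer L (helper608): dictionary between the Spec language and a DVR model

`T` is any discrete valuation ring with an algebra structure `T → L`, fraction field `L`, whose
image is exactly the set of elements of `L` integral over the base ring `A` (`IsInt A F L`).
Examples: `integralClosure A L` and `integralClosure (integralClosure A K) L`.

* `mem_intUnits_iff_model`   : `U_L` = image of `Tˣ`.
* `isUnif_of_irreducible`    : irreducible elements of `T` are uniformizers in the Spec sense.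
* `exists_irreducible_of_isUnif` : conversely.
* `zpow_mem_intUnits_iff`    : `ϖ ^ k ∈ U_L ↔ k = 0` for a uniformizer `ϖ`.
-/

set_option autoImplicit false
set_option linter.unusedSectionVars false
set_option linter.style.haveILetI false

namespace Fermat.Agent.S55.Local.H608

open IsLocalRing

/-- `T` is a model of the ring of integers of `L`. -/
def IsModel (A F : Type) [CommRing A] [Field F] [Algebra A F]
    (L : Type) [Field L] [Algebra F L] (T : Type) [CommRing T] [Algebra T L] : Prop :=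
  ∀ x : L, (∃ t : T, algebraMap T L t = x) ↔ IsInt A F L x

section Model

variable {A F : Type} [CommRing A] [Field F] [Algebra A F]
  {L : Type} [Field L] [Algebra F L]
  {T : Type} [CommRing T] [IsDomain T] [IsDiscreteValuationRing T] [Algebra T L]
  [IsFractionRing T L]

theorem IsModel.isInt (h : IsModel A F L T) (t : T) : IsInt A F L (algebraMap T L t) :=
  (h _).mp ⟨t, rfl⟩

theorem IsModel.mem_intUnits_of_isUnit (h : IsModel A F L T) {t : T} (ht : IsUnit t) (x : Lˣ)
    (hx : (x : L) = algebraMap T L t) : x ∈ intUnits A F L := by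
  obtain ⟨u, rfl⟩ := ht
  rw [mem_intUnits]
  refine ⟨by rw [hx]; exact h.isInt _, ?_⟩
  have : ((x⁻¹ : Lˣ) : L) = algebraMap T L ((u⁻¹ : Tˣ) : T) := by
    rw [Units.val_inv_eq_inv_val, hx]
    symm
    apply eq_inv_of_mul_eq_one_left
    rw [← map_mul, Units.inv_mul, map_one]
  rw [this]
  exact h.isInt _

theorem IsModel.mem_intUnits_iff (h : IsModel A F L T) (x : Lˣ) :
    x ∈ intUnits A F L ↔ ∃ t : T, IsUnit t ∧ algebraMap T L t = (x : L) := by
  constructor
  · intro hx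
    rw [mem_intUnits] at hx
    obtain ⟨t, ht⟩ := (h _).mpr hx.1
    obtain ⟨s, hs⟩ := (h _).mpr hx.2
    refine ⟨t, IsUnit.of_mul_eq_one s ?_, ht⟩
    apply IsFractionRing.injective T L
    rw [map_mul, ht, hs, map_one]
    simp
  · rintro ⟨t, ht, htx⟩
    exact h.mem_intUnits_of_isUnit ht x htx.symm

/-- Every unit of `L` is a power of a given irreducible of `T` times a unit of `T`. -/
theorem IsModel.exists_zpow (h : IsModel A F L T) {π : T} (hπ : Irreducible π) (x : Lˣ) :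
    ∃ (n : ℤ) (u : T), IsUnit u ∧ (x : L) = algebraMap T L u * (algebraMap T L π) ^ n := by
  obtain ⟨a, b, hb, hab⟩ := IsFractionRing.div_surjective (A := T) (x : L)
  have hb0 : b ≠ 0 := nonZeroDivisors.ne_zero hb
  have ha0 : a ≠ 0 := by
    rintro rfl
    rw [map_zero, zero_div] at hab
    exact x.ne_zero hab.symm
  obtain ⟨m, u, hu⟩ := IsDiscreteValuationRing.eq_unit_mul_pow_irreducible ha0 hπ
  obtain ⟨k, v, hv⟩ := IsDiscreteValuationRing.eq_unit_mul_pow_irreducible hb0 hπ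
  have hπ0 : algebraMap T L π ≠ 0 := by
    intro h0
    exact hπ.ne_zero (IsFractionRing.injective T L (by rw [h0, map_zero]))
  have hv0 : algebraMap T L (v : T) ≠ 0 := by
    intro h0
    exact v.ne_zero (IsFractionRing.injective T L (by rw [h0, map_zero]))
  refine ⟨(m : ℤ) - k, (u * v⁻¹ : Tˣ), Units.isUnit _, ?_⟩
  have hvinv : algebraMap T L ((v⁻¹ : Tˣ) : T) = (algebraMap T L (v : T))⁻¹ := by
    apply eq_inv_of_mul_eq_one_left
    rw [← map_mul, Units.inv_mul, map_one]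
  rw [← hab, hu, hv, Units.val_mul, map_mul, map_mul, map_mul, map_pow, map_pow, hvinv,
    zpow_sub₀ hπ0, zpow_natCast, zpow_natCast]
  field_simp

theorem IsModel.map_ne_zero (_h : IsModel A F L T) {π : T} (hπ : π ≠ 0) :
    algebraMap T L π ≠ 0 := by
  intro h0
  exact hπ (IsFractionRing.injective T L (by rw [h0, map_zero]))

/-- If `π ^ k` (`k : ℤ`) is the image of a unit of `T`, then `k = 0`. -/
theorem IsModel.zpow_eq_unit (h : IsModel A F L T) {π : T} (hπ : Irreducible π) (k : ℤ) (u : T)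
    (hu : IsUnit u) (hk : (algebraMap T L π) ^ k = algebraMap T L u) : k = 0 := by
  have hπ0 : algebraMap T L π ≠ 0 := h.map_ne_zero hπ.ne_zero
  by_contra hne
  rcases lt_or_gt_of_ne hne with hlt | hgt
  · -- `k < 0`: `π ^ (-k) * u = 1`
    obtain ⟨n, hn⟩ : ∃ n : ℕ, k = -((n : ℤ) + 1) := ⟨(-k - 1).toNat, by omega⟩
    have h1 : algebraMap T L (π ^ (n + 1) * u) = 1 := by
      rw [map_mul, map_pow, ← hk, hn, zpow_neg, ← zpow_natCast]
      push_cast
      exact mul_inv_cancel₀ (zpow_ne_zero _ hπ0)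
    have h2 : π ^ (n + 1) * u = 1 := IsFractionRing.injective T L (by rw [h1, map_one])
    apply hπ.not_isUnit
    rw [pow_succ, mul_assoc, mul_comm, mul_assoc] at h2
    exact IsUnit.of_mul_eq_one _ h2
  · obtain ⟨n, hn⟩ : ∃ n : ℕ, k = (n : ℤ) + 1 := ⟨(k - 1).toNat, by omega⟩
    have h1 : algebraMap T L (π ^ (n + 1)) = algebraMap T L u := by
      rw [map_pow, ← hk, hn, ← zpow_natCast]
      push_cast
      rfl
    have h2 : π ^ (n + 1) = u := IsFractionRing.injective T L h1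
    apply hπ.not_isUnit
    have h3 : IsUnit (π ^ (n + 1)) := h2 ▸ hu
    exact (isUnit_pow_iff (Nat.succ_ne_zero n)).mp h3

/-- Irreducible elements of the model are uniformizers. -/
theorem IsModel.isUnif_of_irreducible (h : IsModel A F L T) {π : T} (hπ : Irreducible π)
    (ϖ : Lˣ) (hϖ : (ϖ : L) = algebraMap T L π) : IsUnif A F L ϖ := by
  refine ⟨by rw [hϖ]; exact h.isInt _, ?_, ?_⟩
  · intro hmem
    obtain ⟨t, ht, htϖ⟩ := (h.mem_intUnits_iff ϖ).mp hmem
    have : t = π := IsFractionRing.injective T L (by rw [htϖ, hϖ])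
    exact hπ.not_isUnit (this ▸ ht)
  · intro x
    obtain ⟨n, u, hu, hx⟩ := h.exists_zpow hπ x
    refine ⟨n, ?_⟩
    apply h.mem_intUnits_of_isUnit hu
    have hπ0 : algebraMap T L π ≠ 0 := h.map_ne_zero hπ.ne_zero
    rw [Units.val_mul, Units.val_zpow_eq_zpow_val, hϖ, hx, zpow_neg]
    field_simp

/-- Uniformizers (Spec sense) are images of irreducible elements of the model. -/
theorem IsModel.exists_irreducible_of_isUnif (h : IsModel A F L T) {ϖ : Lˣ}
    (hϖ : IsUnif A F L ϖ) : ∃ π : T, Irreducible π ∧ algebraMap T L π = (ϖ : L) := by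
  obtain ⟨hint, hnu, hgen⟩ := hϖ
  obtain ⟨π₀, hπ₀⟩ := IsDiscreteValuationRing.exists_irreducible T
  have hπ₀L : algebraMap T L π₀ ≠ 0 := h.map_ne_zero hπ₀.ne_zero
  obtain ⟨t, ht⟩ := (h _).mpr hint
  have ht0 : t ≠ 0 := by
    rintro rfl
    rw [map_zero] at ht
    exact ϖ.ne_zero ht.symm
  obtain ⟨a, v, hv⟩ := IsDiscreteValuationRing.eq_unit_mul_pow_irreducible ht0 hπ₀
  -- `π₀ = ϖ ^ n * u`
  obtain ⟨n, hn⟩ := hgen (Units.mk0 _ hπ₀L)
  obtain ⟨u, hu, huL⟩ := (h.mem_intUnits_iff _).mp hn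
  rw [Units.val_mul, Units.val_zpow_eq_zpow_val, Units.val_mk0, zpow_neg] at huL
  have hϖ0 : (ϖ : L) ≠ 0 := ϖ.ne_zero
  have hϖeq : (ϖ : L) = algebraMap T L (v : T) * (algebraMap T L π₀) ^ (a : ℤ) := by
    rw [← ht, hv, map_mul, map_pow, zpow_natCast]
  have hvL : algebraMap T L (v : T) ≠ 0 := h.map_ne_zero v.ne_zero
  -- `π₀ ^ (1 - a n)` is a unit
  have key : (algebraMap T L π₀) ^ (1 - (a : ℤ) * n) = algebraMap T L (u * (v : T) ^ n.toNat *
      ((v⁻¹ : Tˣ) : T) ^ (-n).toNat) := by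
    have hvinv : algebraMap T L ((v⁻¹ : Tˣ) : T) = (algebraMap T L (v : T))⁻¹ := by
      apply eq_inv_of_mul_eq_one_left
      rw [← map_mul, Units.inv_mul, map_one]
    have hvz : (algebraMap T L (v : T)) ^ n = algebraMap T L ((v : T) ^ n.toNat *
        ((v⁻¹ : Tˣ) : T) ^ (-n).toNat) := by
      rw [map_mul, map_pow, map_pow, hvinv]
      rcases le_total 0 n with h0 | h0
      · have h1 : (-n).toNat = 0 := by omega
        rw [h1, pow_zero, mul_one, ← zpow_natCast, Int.toNat_of_nonneg h0]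
      · have h1 : n.toNat = 0 := by omega
        rw [h1, pow_zero, one_mul, inv_pow, ← zpow_natCast, ← zpow_neg,
          Int.toNat_of_nonneg (by omega : (0 : ℤ) ≤ -n), neg_neg]
    rw [mul_assoc, map_mul, ← hvz, huL, hϖeq, mul_zpow, ← zpow_mul, zpow_sub₀ hπ₀L, zpow_one]
    have h1 : (algebraMap T L) ↑v ^ n ≠ 0 := zpow_ne_zero _ hvL
    have h2 : (algebraMap T L) π₀ ^ ((a : ℤ) * n) ≠ 0 := zpow_ne_zero _ hπ₀L
    field_simp
  have hk := h.zpow_eq_unit hπ₀ _ _ (by
    refine (hu.mul (v.isUnit.pow _)).mul (Units.isUnit _ |>.pow _)) key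
  have ha : a = 1 := by
    have h1 : (a : ℤ) * n = 1 := by omega
    have h2 : (a : ℤ) ∣ 1 := Dvd.intro _ h1
    have h3 : (a : ℤ) = 1 := by
      rcases Int.isUnit_iff.mp (isUnit_of_dvd_one h2) with h4 | h4
      · exact h4
      · omega
    exact_mod_cast h3
  refine ⟨t, ?_, ht⟩
  rw [hv, ha, pow_one]
  exact (irreducible_units_mul v).mpr hπ₀

/-- `ϖ ^ k ∈ U_L ↔ k = 0` for a uniformizer `ϖ`. -/
theorem IsModel.zpow_mem_intUnits_iff (h : IsModel A F L T) {ϖ : Lˣ} (hϖ : IsUnif A F L ϖ)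
    (k : ℤ) : ϖ ^ k ∈ intUnits A F L ↔ k = 0 := by
  constructor
  · intro hk
    obtain ⟨π, hπ, hπϖ⟩ := h.exists_irreducible_of_isUnif hϖ
    obtain ⟨u, hu, huL⟩ := (h.mem_intUnits_iff _).mp hk
    apply h.zpow_eq_unit hπ k u hu
    rw [hπϖ, huL, Units.val_zpow_eq_zpow_val]
  · rintro rfl
    simp

end Model

end Fermat.Agent.S55.Local.H608

end
-- ===== PACK-END S55/Local/H608/Dict.lean

-- ===== PACK-BEGIN S55/G/CycPowH184.lean
section
/-
S55, layer G, leaf G-CYCp (helper184): `CyclicPowSpec` from `PClassUpperSpec` (G-UP) and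
`FirstInequalityCycSpec` (G-FIc).  Pure glue.
-/


set_option autoImplicit false
set_option linter.style.haveILetI false

open CategoryTheory groupCohomology

noncomputable section

namespace Fermat.Agent.S55.G.CycPowH184

open Fermat.Agent.S55 Fermat.Agent.S55.G

/-- Vanishing of `H¹` can be tested after restriction to the top subgroup. -/
theorem isZero_H1_of_resSub_top {k G : Type} [CommRing k] [Group G] (A : Rep.{0} k G)
    (h : Limits.IsZero (groupCohomology (T.resSub A (⊤ : Subgroup G)) 1)) :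
    Limits.IsZero (groupCohomology A 1) := by
  have hsub : Subsingleton (groupCohomology (T.resSub A (⊤ : Subgroup G)) 1) :=
    ModuleCat.subsingleton_of_isZero h
  have hall : ∀ x : groupCohomology A 1, x = 0 := by
    intro x
    induction x using H1_induction_on with
    | h f =>
      rw [H1π_eq_zero_iff]
      -- restrict `f` to the top subgroup
      have hf := (mem_cocycles₁_iff (f : G → A)).1 f.2
      have hf' : (fun t : (⊤ : Subgroup G) => (f : G → A) t.1) ∈
          cocycles₁ (T.resSub A (⊤ : Subgroup G)) := by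
        rw [mem_cocycles₁_iff]
        intro g t
        exact hf g.1 t.1
      have h0 : H1π (T.resSub A (⊤ : Subgroup G)) ⟨_, hf'⟩ = 0 := Subsingleton.elim _ _
      rw [H1π_eq_zero_iff] at h0
      obtain ⟨a, ha⟩ := h0
      refine ⟨a, ?_⟩
      funext g
      have := congrFun ha ⟨g, Subgroup.mem_top g⟩
      exact this
  haveI : Subsingleton (groupCohomology A 1) := ⟨fun x y => by rw [hall x, hall y]⟩
  exact ModuleCat.isZero_of_subsingleton _

/-- **G-CYCp** from G-UP and G-FIc. -/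
theorem cyclicPow_of (hUP : PClassUpperSpec) (hFI : FirstInequalityCycSpec) : CyclicPowSpec := by
  intro p hp hp2 S G L _ _ _ _ _ _ _ hpS hpG hunr hroot
  have h1 : Limits.IsZero (groupCohomology (CRep S G L) 1) :=
    isZero_H1_of_resSub_top _ (hUP p hp2 S G L hpS hpG hunr hroot ⊤).1
  refine ⟨h1, ?_⟩
  obtain ⟨k, hk⟩ := hpG.exists_card_eq
  have hodd : Odd (Nat.card G) := by
    rw [hk]
    exact (hp.out.odd_of_ne_two hp2).pow
  have h2 := (hFI (Nat.card G) hodd S G L ⟨_, hpS⟩ rfl).2.2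
  have hsub : Subsingleton (groupCohomology (CRep S G L) 1) :=
    ModuleCat.subsingleton_of_isZero h1
  have hc : Nat.card (groupCohomology (CRep S G L) 1) = 1 :=
    Nat.card_eq_one_iff_unique.2 ⟨hsub, ⟨0⟩⟩
  rw [h2, hc, mul_one]

end Fermat.Agent.S55.G.CycPowH184

end
end
-- ===== PACK-END S55/G/CycPowH184.lean

-- ===== PACK-BEGIN S55/G/H357/Upper.lean
section




/-!
# S55, layer G (helper357): upper bound for the mass of the primes in the kernel

`K` a number field, `A` a finite abelian group, `ψ χ` (for `χ` in the dual of `A`) completely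
multiplicative functions on the nonzero ideals with `ψ χ v = χ (a v)` at the good primes and
`ψ χ v = 0` at the bad primes.  If the series `L(s, ψ χ)` are bounded on `(1, 2]` for `χ ≠ 1`,
then `(∏_{v ∈ T} (1 + N v^{-s}))^{#A} ≤ C ζ_K(s)` for all finite sets `T` of good primes with
`a v = 1`.
-/

set_option autoImplicit false
set_option linter.unusedSectionVars false

namespace Fermat.Agent.S55.G.H357

open NumberField IsDedekindDomain Filter Topology
open scoped nonZeroDivisors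
open Fermat.Agent.S14

variable {K : Type*} [Field K] [NumberField K]

/-- The monoid hom `I ↦ ψ(I) N(I)^(-s)`. -/
noncomputable def tw (ψ : (Ideal (𝓞 K))⁰ →* ℂ) (s : ℝ) : (Ideal (𝓞 K))⁰ →* ℂ :=
  ψ * ((Complex.ofRealHom : ℝ →+* ℂ).toMonoidHom.comp (H163.normPow s))

theorem tw_apply (ψ : (Ideal (𝓞 K))⁰ →* ℂ) (s : ℝ) (I : (Ideal (𝓞 K))⁰) :
    tw ψ s I = ψ I * ((H163.normPow s I : ℝ) : ℂ) := rfl

/-- The `L`-series of a completely multiplicative function `ψ` on ideals (real argument). -/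
noncomputable def Lray (ψ : (Ideal (𝓞 K))⁰ →* ℂ) (s : ℝ) : ℂ :=
  ∑' I : (Ideal (𝓞 K))⁰, tw ψ s I

/-- Boundedness of `L(s, ψ)` on `(1, 2]`. -/
def LrayBounded (ψ : (Ideal (𝓞 K))⁰ →* ℂ) : Prop :=
  ∃ B : ℝ, ∀ s : ℝ, 1 < s → s ≤ 2 → ‖Lray ψ s‖ ≤ B

theorem norm_tw_le {ψ : (Ideal (𝓞 K))⁰ →* ℂ} (hψ : ∀ I, ‖ψ I‖ ≤ 1) (s : ℝ)
    (I : (Ideal (𝓞 K))⁰) : ‖tw ψ s I‖ ≤ H163.normPow s I := by
  rw [tw_apply, norm_mul, Complex.norm_real, Real.norm_of_nonneg (H163.normPow_pos s I).le]
  calc ‖ψ I‖ * H163.normPow s I ≤ 1 * H163.normPow s I :=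
        mul_le_mul_of_nonneg_right (hψ I) (H163.normPow_pos s I).le
    _ = H163.normPow s I := one_mul _

theorem summable_norm_tw {ψ : (Ideal (𝓞 K))⁰ →* ℂ} (hψ : ∀ I, ‖ψ I‖ ≤ 1) {s : ℝ} (hs : 1 < s) :
    Summable fun I : (Ideal (𝓞 K))⁰ => ‖tw ψ s I‖ :=
  Summable.of_nonneg_of_le (fun _ => norm_nonneg _) (norm_tw_le hψ s) (H163.summable_normPow hs)

theorem hasProd_Lray {ψ : (Ideal (𝓞 K))⁰ →* ℂ} (hψ : ∀ I, ‖ψ I‖ ≤ 1) {s : ℝ} (hs : 1 < s) :
    HasProd (fun v : HeightOneSpectrum (𝓞 K) => (1 - tw ψ s (H163.toI0 v))⁻¹) (Lray ψ s) :=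
  H163.hasProd_ideal (tw ψ s) (summable_norm_tw hψ hs)

theorem norm_Lray_le {ψ : (Ideal (𝓞 K))⁰ →* ℂ} (hψ : ∀ I, ‖ψ I‖ ≤ 1) {s : ℝ} (hs : 1 < s) :
    ‖Lray ψ s‖ ≤ H163.zetaR K s := by
  unfold Lray H163.zetaR
  refine (norm_tsum_le_tsum_norm (summable_norm_tw hψ hs)).trans ?_
  exact Summable.tsum_le_tsum (norm_tw_le hψ s) (summable_norm_tw hψ hs) (H163.summable_normPow hs)

/-- **Upper bound**: the primes in the kernel have density at most `1 / #A`. -/
theorem kernel_mass_le {A : Type*} [CommGroup A] [Finite A]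
    (ψ : (A →* ℂˣ) → ((Ideal (𝓞 K))⁰ →* ℂ)) (hnorm : ∀ χ I, ‖ψ χ I‖ ≤ 1)
    (a : HeightOneSpectrum (𝓞 K) → A) (Bad : Set (HeightOneSpectrum (𝓞 K)))
    (hgood : ∀ χ v, v ∉ Bad → ψ χ (H163.toI0 v) = ((χ (a v) : ℂˣ) : ℂ))
    (hbad : ∀ χ v, v ∈ Bad → ψ χ (H163.toI0 v) = 0)
    (hbdd : ∀ χ : A →* ℂˣ, χ ≠ 1 → LrayBounded (ψ χ)) :
    ∃ C : ℝ, 0 < C ∧ ∀ s : ℝ, 1 < s → s ≤ 2 → ∀ T : Finset (HeightOneSpectrum (𝓞 K)),
      (∀ v ∈ T, v ∉ Bad ∧ a v = 1) →
        (∏ v ∈ T, (1 + H163.normPow s (H163.toI0 v))) ^ Nat.card A ≤ C * H163.zetaR K s := by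
  classical
  letI : Fintype (A →* ℂˣ) := Fintype.ofFinite _
  -- the number of characters
  have hcardD : Fintype.card (A →* ℂˣ) = Nat.card A := by
    have : NeZero (Monoid.exponent A) := ⟨Monoid.exponent_ne_zero_of_finite⟩
    rw [← Nat.card_eq_fintype_card]
    exact CommGroup.card_monoidHom_of_hasEnoughRootsOfUnity A ℂ
  -- bounds
  have hB : ∀ χ : A →* ℂˣ, ∃ B : ℝ, χ ≠ 1 → ∀ s : ℝ, 1 < s → s ≤ 2 → ‖Lray (ψ χ) s‖ ≤ B := by
    intro χ
    by_cases h : χ = 1
    · exact ⟨0, fun h' => absurd h h'⟩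
    · obtain ⟨B, hB⟩ := hbdd χ h
      exact ⟨B, fun _ => hB⟩
  choose B hB using hB
  refine ⟨∏ χ ∈ (Finset.univ : Finset (A →* ℂˣ)).erase 1, (|B χ| + 1), ?_,
    fun s hs1 hs2 T hT => ?_⟩
  · exact Finset.prod_pos fun χ _ => by positivity
  have hs0 : 0 < s := by linarith
  -- Euler products
  have hprod := hasProd_prod (s := (Finset.univ : Finset (A →* ℂˣ)))
    (f := fun χ (v : HeightOneSpectrum (𝓞 K)) => (1 - tw (ψ χ) s (H163.toI0 v))⁻¹)
    (a := fun χ => Lray (ψ χ) s)
    (fun χ _ => hasProd_Lray (hnorm χ) hs1)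
  have hnormP := hprod.norm
  -- local factors at good primes
  have hloc : ∀ v : HeightOneSpectrum (𝓞 K), v ∉ Bad →
      (∏ χ : A →* ℂˣ, (1 - tw (ψ χ) s (H163.toI0 v))⁻¹) =
        ∏ χ : A →* ℂˣ, (1 - (((MonoidHom.eval (a v) : (A →* ℂˣ) →* ℂˣ) χ : ℂˣ) : ℂ) *
          ((H163.normPow s (H163.toI0 v) : ℝ) : ℂ))⁻¹ := by
    intro v hv
    refine Finset.prod_congr rfl fun χ _ => ?_
    rw [tw_apply, hgood χ v hv]
    rfl
  have hx0 : ∀ v : HeightOneSpectrum (𝓞 K), 0 ≤ H163.normPow s (H163.toI0 v) :=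
    fun v => (H163.normPow_pos s _).le
  have hx1 : ∀ v : HeightOneSpectrum (𝓞 K), H163.normPow s (H163.toI0 v) < 1 :=
    fun v => H163.normPow_prime_lt_one hs0 v
  have hge : ∀ v : HeightOneSpectrum (𝓞 K),
      1 ≤ ‖∏ χ : A →* ℂˣ, (1 - tw (ψ χ) s (H163.toI0 v))⁻¹‖ := by
    intro v
    by_cases hv : v ∈ Bad
    · have : (∏ χ : A →* ℂˣ, (1 - tw (ψ χ) s (H163.toI0 v))⁻¹) = 1 := by
        refine Finset.prod_eq_one fun χ _ => ?_
        rw [tw_apply, hbad χ v hv, zero_mul, sub_zero, inv_one]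
      rw [this, norm_one]
    · have h1 := one_le_norm_prod_inv (MonoidHom.eval (a v) : (A →* ℂˣ) →* ℂˣ) (hx0 v) (hx1 v)
      have h2 := congrArg (fun z : ℂ => ‖z‖) (hloc v hv)
      exact h1.trans_eq h2.symm
  have hT' : ∀ v ∈ T, (1 + H163.normPow s (H163.toI0 v)) ^ Nat.card A ≤
      ‖∏ χ : A →* ℂˣ, (1 - tw (ψ χ) s (H163.toI0 v))⁻¹‖ := by
    intro v hv
    obtain ⟨hvB, hva⟩ := hT v hv
    have h1 := pow_le_norm_prod_inv_of_trivial (MonoidHom.eval (a v) : (A →* ℂˣ) →* ℂˣ)
      (fun χ => by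
        change χ (a v) = 1
        rw [hva, map_one]) (hx0 v) (hx1 v)
    have h2 := congrArg (fun z : ℂ => ‖z‖) (hloc v hvB)
    calc (1 + H163.normPow s (H163.toI0 v)) ^ Nat.card A
        = (1 + H163.normPow s (H163.toI0 v)) ^ Fintype.card (A →* ℂˣ) :=
          congrArg (fun n : ℕ => (1 + H163.normPow s (H163.toI0 v)) ^ n) hcardD.symm
      _ ≤ _ := h1
      _ = _ := h2.symm
  have hzpos : 0 < H163.zetaR K s := H163.zetaR_pos hs1
  calc (∏ v ∈ T, (1 + H163.normPow s (H163.toI0 v))) ^ Nat.card A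
      = ∏ v ∈ T, (1 + H163.normPow s (H163.toI0 v)) ^ Nat.card A := (Finset.prod_pow _ _ _).symm
    _ ≤ ∏ v ∈ T, ‖∏ χ : A →* ℂˣ, (1 - tw (ψ χ) s (H163.toI0 v))⁻¹‖ := by
        apply Finset.prod_le_prod
        · intro v _
          have := hx0 v
          positivity
        · exact hT'
    _ ≤ ‖∏ χ : A →* ℂˣ, Lray (ψ χ) s‖ := H163.prod_le_of_hasProd hnormP hge T
    _ = (∏ χ ∈ (Finset.univ : Finset (A →* ℂˣ)).erase 1, ‖Lray (ψ χ) s‖) * ‖Lray (ψ 1) s‖ := by
        rw [norm_prod, ← Finset.prod_erase_mul _ _ (Finset.mem_univ (1 : A →* ℂˣ))]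
    _ ≤ (∏ χ ∈ (Finset.univ : Finset (A →* ℂˣ)).erase 1, (|B χ| + 1)) * H163.zetaR K s := by
        apply mul_le_mul _ (norm_Lray_le (hnorm 1) hs1) (norm_nonneg _)
          (Finset.prod_nonneg fun χ _ => by positivity)
        apply Finset.prod_le_prod
        · intro χ _
          exact norm_nonneg _
        · intro χ hχ
          have hne : χ ≠ 1 := Finset.ne_of_mem_erase hχ
          have := hB χ hne s hs1 hs2
          have h2 : B χ ≤ |B χ| := le_abs_self _
          linarith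

end Fermat.Agent.S55.G.H357

end
-- ===== PACK-END S55/G/H357/Upper.lean

-- ===== PACK-BEGIN S55/G/Rec/OrbitNormH934.lean
section


/-!
# S55 / layer G / block REC : leaf G1 = `OrbitNormSpec`   (helper934)

`theorem Fermat.Agent.S55.G.Rec.H934.orbitNorm : OrbitNormSpec`

For `U ≤ G_ℚ` open and `a ∈ Kˣ`, `K = ℚ̄^U`:
* `N_{K/ℚ}(a) = relNorm U a` is rational;
* `ι_q (N_{K/ℚ} a) = ∏_{r ∈ R} N_{K_r/ℚ_q}(ι_q (r⁻¹ a))` for every system `R` of representatives of
  the double cosets `U \ G_ℚ / D_q`.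

Proof: pure orbit combinatorics.  The map
`(r, τ V_r) ↦ loc(τ) r⁻¹ U`,  `Σ_{r ∈ R} G_q / V_r → G_ℚ / U`  (`V_r = locSub q r U`) is a bijection.
-/

set_option autoImplicit false

noncomputable section

namespace Fermat.Agent.S55.G.Rec.H934

open Fermat.Agent.S55.G.Rec

local notation "Qb" => AlgebraicClosure ℚ
local notation "GQ" => (AlgebraicClosure ℚ ≃ₐ[ℚ] AlgebraicClosure ℚ)

/-! ## Generic facts on `relNorm` -/

section Generic

variable {G M : Type*} [Group G] [CommGroup M] [MulDistribMulAction G M]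

/-- For `b` fixed by `H`, `out (gH) • b = g • b`. -/
lemma out_smul_of_fixed (H : Subgroup G) {b : M} (hb : ∀ h ∈ H, h • b = b) (g : G) :
    (Quotient.out (QuotientGroup.mk g : G ⧸ H) : G) • b = g • b := by
  obtain ⟨h, hh⟩ := QuotientGroup.mk_out_eq_mul H g
  rw [hh, mul_smul, hb h h.2]

/-- `relNorm` as a `Fintype` product. -/
lemma relNorm_eq_prod (H : Subgroup G) [Fintype (G ⧸ H)] (b : M) :
    relNorm H b = ∏ t : G ⧸ H, (Quotient.out t : G) • b := by
  unfold relNorm
  exact finprod_eq_prod_of_fintype _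

/-- The norm is invariant under the whole group. -/
lemma smul_relNorm (H : Subgroup G) [Finite (G ⧸ H)] {b : M} (hb : ∀ h ∈ H, h • b = b) (σ : G) :
    σ • relNorm H b = relNorm H b := by
  classical
  haveI : Fintype (G ⧸ H) := Fintype.ofFinite _
  rw [relNorm_eq_prod, Finset.smul_prod']
  -- reindex by `t ↦ σ • t`
  have hbij : Function.Bijective (fun t : G ⧸ H => σ • t) := MulAction.bijective σ
  rw [← Function.Bijective.prod_comp hbij (fun t : G ⧸ H => (Quotient.out t : G) • b)]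
  refine Finset.prod_congr rfl fun t _ => ?_
  rw [← mul_smul]
  have h1 : (σ • t : G ⧸ H) = QuotientGroup.mk (σ * Quotient.out t) := by
    conv_lhs => rw [← QuotientGroup.out_eq' t]
    rfl
  rw [h1, out_smul_of_fixed H hb]

end Generic

/-! ## Finite index and rationality -/

/-- `ℚ̄/ℚ` is Galois. -/
theorem isGalois_Qb : IsGalois ℚ Qb := by
  haveI : Algebra.IsAlgebraic ℚ Qb := AlgebraicClosure.isAlgebraic ℚ
  haveI : IsAlgClosure ℚ Qb := ⟨inferInstance, inferInstance⟩
  haveI : Normal ℚ Qb := IsAlgClosure.normal ℚ Qb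
  exact isGalois_iff.mpr ⟨inferInstance, inferInstance⟩

attribute [local instance] isGalois_Qb

lemma finite_quotient_of_isOpenQ {U : Subgroup GQ} (hU : IsOpenQ U) : Finite (GQ ⧸ U) := by
  obtain ⟨F, hF, hle⟩ := hU
  have h1 : F.fixingSubgroup.index ≠ 0 := by
    rw [← IntermediateField.finrank_eq_fixingSubgroup_index]
    exact Module.finrank_pos.ne'
  haveI : F.fixingSubgroup.FiniteIndex := ⟨h1⟩
  haveI : U.FiniteIndex := Subgroup.finiteIndex_of_le hle
  exact Subgroup.finite_quotient_of_finiteIndex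

lemma relNorm_rational {U : Subgroup GQ} (hU : IsOpenQ U) {a : Qbˣ} (ha : GFixed U a) :
    ∃ y : ℚˣ, ((relNorm U a : Qbˣ) : Qb) = algebraMap ℚ Qb (y : ℚ) := by
  haveI := finite_quotient_of_isOpenQ hU
  have hfix : ∀ σ : GQ, σ ((relNorm U a : Qbˣ) : Qb) = ((relNorm U a : Qbˣ) : Qb) := by
    intro σ
    have h2 := congrArg (fun x : Qbˣ => (x : Qb)) (smul_relNorm U ha σ)
    exact h2
  obtain ⟨y0, hy0⟩ := (InfiniteGalois.mem_range_algebraMap_iff_fixed _).2 hfix
  have hy0ne : y0 ≠ 0 := by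
    rintro rfl
    rw [map_zero] at hy0
    exact (Units.ne_zero _) hy0.symm
  exact ⟨Units.mk0 y0 hy0ne, hy0.symm⟩

/-! ## The orbit decomposition -/

section Orbit

variable (q : ℕ) [Fact q.Prime]

local notation "Gq" => (PadicAlgCl q ≃ₐ[ℚ_[q]] PadicAlgCl q)

/-- `τ V_r ↦ loc(τ) r⁻¹ U`. -/
def orbMap (U : Subgroup GQ) (r : GQ) : Gq ⧸ locSub q r U → GQ ⧸ U :=
  Quotient.map' (s₁ := QuotientGroup.leftRel (locSub q r U)) (s₂ := QuotientGroup.leftRel U)
    (fun τ => localGaloisToGlobal q τ * r⁻¹) (by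
      intro τ τ' h
      rw [QuotientGroup.leftRel_apply] at h ⊢
      have h' : r * localGaloisToGlobal q (τ⁻¹ * τ') * r⁻¹ ∈ U := mem_locSub.1 h
      have e : (localGaloisToGlobal q τ * r⁻¹)⁻¹ * (localGaloisToGlobal q τ' * r⁻¹) =
          r * localGaloisToGlobal q (τ⁻¹ * τ') * r⁻¹ := by
        simp only [map_mul, map_inv, mul_inv_rev, inv_inv, mul_assoc]
      rw [e]
      exact h')

lemma orbMap_mk (U : Subgroup GQ) (r : GQ) (τ : Gq) :
    orbMap q U r (QuotientGroup.mk τ) = QuotientGroup.mk (localGaloisToGlobal q τ * r⁻¹) := rfl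

lemma orbMap_injective (U : Subgroup GQ) (r : GQ) : Function.Injective (orbMap q U r) := by
  intro s s' h
  induction s using QuotientGroup.induction_on with | _ τ => ?_
  induction s' using QuotientGroup.induction_on with | _ τ' => ?_
  rw [orbMap_mk, orbMap_mk, QuotientGroup.eq] at h
  rw [QuotientGroup.eq]
  apply mem_locSub.2
  have e : (localGaloisToGlobal q τ * r⁻¹)⁻¹ * (localGaloisToGlobal q τ' * r⁻¹) =
      r * localGaloisToGlobal q (τ⁻¹ * τ') * r⁻¹ := by
    simp only [map_mul, map_inv, mul_inv_rev, inv_inv, mul_assoc]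
  rw [← e]
  exact h

lemma finite_quotient_locSub {U : Subgroup GQ} (hU : IsOpenQ U) (r : GQ) :
    Finite (Gq ⧸ locSub q r U) := by
  haveI := finite_quotient_of_isOpenQ hU
  exact Finite.of_injective _ (orbMap_injective q U r)

/-- The total orbit map `Σ_{r ∈ R} G_q / V_r → G_ℚ / U`. -/
def orbSigma (U : Subgroup GQ) (R : Finset GQ) :
    (Σ r : ↥R, Gq ⧸ locSub q (r : GQ) U) → GQ ⧸ U :=
  fun x => orbMap q U (x.1 : GQ) x.2

lemma orbSigma_bijective (U : Subgroup GQ) (R : Finset GQ)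
    (hR : IsDoubleCosetReps U (localGaloisToGlobal q).range R) :
    Function.Bijective (orbSigma q U R) := by
  constructor
  · rintro ⟨r, s⟩ ⟨r', s'⟩ h
    induction s using QuotientGroup.induction_on with | _ τ => ?_
    induction s' using QuotientGroup.induction_on with | _ τ' => ?_
    have h0 : (QuotientGroup.mk (localGaloisToGlobal q τ * (r : GQ)⁻¹) : GQ ⧸ U) =
        QuotientGroup.mk (localGaloisToGlobal q τ' * (r' : GQ)⁻¹) := h
    rw [QuotientGroup.eq] at h0
    -- `u := r loc(τ)⁻¹ loc(τ') r'⁻¹ ∈ U`, so `r = u r' loc(τ'⁻¹ τ)`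
    have hrr : (r : GQ) = (r' : GQ) := by
      obtain ⟨r₀, -, huniq⟩ := hR (r : GQ)
      have e1 : (r : GQ) = r₀ :=
        huniq r ⟨r.2, 1, U.one_mem, 1, Subgroup.one_mem _, by simp⟩
      have e2 : (r' : GQ) = r₀ := by
        refine huniq r' ⟨r'.2, _, h0, localGaloisToGlobal q (τ'⁻¹ * τ), ⟨_, rfl⟩, ?_⟩
        simp only [map_mul, map_inv]
        group
      rw [e1, e2]
    obtain rfl : r = r' := Subtype.ext hrr
    have : (QuotientGroup.mk τ : Gq ⧸ locSub q (r : GQ) U) = QuotientGroup.mk τ' :=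
      orbMap_injective q U (r : GQ) h
    rw [this]
  · intro t
    induction t using QuotientGroup.induction_on with | _ g => ?_
    obtain ⟨r, ⟨hrR, u, hu, d, ⟨τ0, rfl⟩, hg⟩, -⟩ := hR g⁻¹
    refine ⟨⟨⟨r, hrR⟩, QuotientGroup.mk τ0⁻¹⟩, ?_⟩
    show (QuotientGroup.mk (localGaloisToGlobal q τ0⁻¹ * r⁻¹) : GQ ⧸ U) = QuotientGroup.mk g
    rw [QuotientGroup.eq]
    have e : (localGaloisToGlobal q τ0⁻¹ * r⁻¹)⁻¹ * g = u⁻¹ := by
      have hg' : g = (u * r * localGaloisToGlobal q τ0)⁻¹ := by rw [← hg, inv_inv]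
      rw [hg']
      simp only [map_inv, mul_inv_rev, inv_inv, mul_assoc, mul_inv_cancel_left]
    rw [e]
    exact U.inv_mem hu

/-- `ι_q ((loc τ · r⁻¹) • a) = τ • ι_q (r⁻¹ • a)`. -/
lemma locPushMul_one_smul (r : GQ) (τ : Gq) (a : Qbˣ) :
    locPushMul q 1 ((localGaloisToGlobal q τ * r⁻¹) • a) = τ • locPushMul q r a := by
  apply Units.ext
  show padicEmbedding q ((1 : GQ)⁻¹ ((localGaloisToGlobal q τ * r⁻¹) (a : Qb))) =
    τ (padicEmbedding q (r⁻¹ (a : Qb)))
  rw [← padicEmbedding_localGaloisToGlobal]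
  rfl

lemma lFixed_locPushMul {U : Subgroup GQ} {a : Qbˣ} (ha : GFixed U a) (r : GQ) :
    LFixed q (locSub q r U) (locPushMul q r a) := by
  intro τ hτ
  have h := mem_locSub.1 hτ
  apply Units.ext
  show τ (padicEmbedding q (r⁻¹ (a : Qb))) = padicEmbedding q (r⁻¹ (a : Qb))
  rw [← padicEmbedding_localGaloisToGlobal]
  congr 1
  have h2 : ((r * localGaloisToGlobal q τ * r⁻¹) • a : Qbˣ) = a := ha _ h
  have h3 : (r * localGaloisToGlobal q τ * r⁻¹) (a : Qb) = (a : Qb) :=
    congrArg (fun x : Qbˣ => (x : Qb)) h2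
  have h4 := congrArg (r⁻¹ : GQ) h3
  simpa [AlgEquiv.mul_apply] using h4

end Orbit

/-- **Leaf G1** of the norm route: the global norm is rational and is the product of the local
norms over the places above `q`. -/
theorem orbitNorm : OrbitNormSpec := by
  intro U hU a ha
  refine ⟨relNorm_rational hU ha, ?_⟩
  intro q _ R hR
  classical
  haveI := finite_quotient_of_isOpenQ hU
  haveI : Fintype (GQ ⧸ U) := Fintype.ofFinite _
  haveI hfin : ∀ r : GQ, Finite ((PadicAlgCl q ≃ₐ[ℚ_[q]] PadicAlgCl q) ⧸ locSub q r U) :=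
    fun r => finite_quotient_locSub q hU r
  haveI : ∀ r : GQ, Fintype ((PadicAlgCl q ≃ₐ[ℚ_[q]] PadicAlgCl q) ⧸ locSub q r U) :=
    fun r => Fintype.ofFinite _
  rw [relNorm_eq_prod, map_prod]
  rw [← Function.Bijective.prod_comp (orbSigma_bijective q U R hR)
    (fun t : GQ ⧸ U => locPushMul q 1 ((Quotient.out t : GQ) • a))]
  rw [Fintype.prod_sigma, ← Finset.prod_coe_sort R]
  refine Finset.prod_congr rfl fun r _ => ?_
  rw [relNorm_eq_prod]
  refine Finset.prod_congr rfl fun s _ => ?_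
  have hs : orbSigma q U R ⟨r, s⟩ =
      QuotientGroup.mk (localGaloisToGlobal q (Quotient.out s) * (r : GQ)⁻¹) := by
    conv_lhs => rw [← QuotientGroup.out_eq' s]
    rfl
  rw [hs, out_smul_of_fixed U ha, locPushMul_one_smul]

end Fermat.Agent.S55.G.Rec.H934

end
end
-- ===== PACK-END S55/G/Rec/OrbitNormH934.lean

-- ===== PACK-BEGIN S55/Bridge/RestrictInertia.lean
section


/-!
# S55 bridge, part B14 (inertia) and B10 (unramifiedness at finite level)

* `exists_mem_inertia_restrict_eq`: restriction `I_A → I_{A ∩ F}` is onto (`F/ℚ` normal).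
* `inertia_le_fixingSubgroup_iff`: `I_A ≤ G_F` for all `A` over `q` iff the inertia groups of the
  places `A ∩ F` of `F` are trivial.
-/

set_option autoImplicit false
set_option linter.style.haveILetI false

namespace Fermat.Agent.S55.Bridge

open scoped Pointwise
open Fermat.Agent.S54

attribute [local instance] isAlgebraic_Qbar isGalois_Qbar

section

variable (A : ValuationSubring (AlgebraicClosure ℚ))

/-- Elements of the decomposition group preserve the maximal ideal. -/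
theorem mem_nonunits_of_mem_decomposition {σ : AlgebraicClosure ℚ ≃ₐ[ℚ] AlgebraicClosure ℚ}
    (hσ : σ ∈ A.decompositionSubgroup ℚ) (x : AlgebraicClosure ℚ) :
    σ x ∈ A.nonunits ↔ x ∈ A.nonunits := by
  rw [mem_decompositionSubgroup_iff] at hσ
  rw [mem_nonunits_iff_inv_not_mem, mem_nonunits_iff_inv_not_mem, ← map_inv₀, hσ,
    map_eq_zero_iff _ σ.injective]

/-- If `σ ∈ D_A` moves every algebraic integer by an element of the maximal ideal, then
`σ ∈ I_A`. -/
theorem mem_inertia_of_forall_integral {q : ℕ} (hq : q.Prime) (hA : A.LiesOverPrime q)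
    {σ : AlgebraicClosure ℚ ≃ₐ[ℚ] AlgebraicClosure ℚ}
    (hσ : σ ∈ A.decompositionSubgroup ℚ)
    (h : ∀ b : AlgebraicClosure ℚ, IsIntegral ℤ b → σ b - b ∈ A.nonunits) :
    σ ∈ A.inertiaSubgroupIn ℚ := by
  rw [mem_inertiaSubgroupIn_iff]
  refine ⟨hσ, fun x hx => ?_⟩
  obtain ⟨b, s, hb, hs, hsn, hxs⟩ := (mem_valuationSubring_iff A q hq hA x).1 hx
  have hbA : b ∈ A := isIntegral_mem_valuationSubring A hb
  have hsA : s ∈ A := isIntegral_mem_valuationSubring A hs
  have vs : A.valuation s = 1 := by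
    refine le_antisymm ((A.valuation_le_one_iff s).2 hsA) ?_
    rw [ValuationSubring.mem_nonunits_iff, not_lt] at hsn
    exact hsn
  have hσsn : σ s ∉ A.nonunits := fun h' => hsn ((mem_nonunits_of_mem_decomposition A hσ s).1 h')
  have hσsA : σ s ∈ A := ((mem_decompositionSubgroup_iff A σ).1 hσ s).2 hsA
  have vσs : A.valuation (σ s) = 1 := by
    refine le_antisymm ((A.valuation_le_one_iff _).2 hσsA) ?_
    rw [ValuationSubring.mem_nonunits_iff, not_lt] at hσsn
    exact hσsn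
  have hb1 : A.valuation (σ b - b) < 1 := (ValuationSubring.mem_nonunits_iff A).1 (h b hb)
  have hs1 : A.valuation (σ s - s) < 1 := (ValuationSubring.mem_nonunits_iff A).1 (h s hs)
  have key : (σ x - x) * (σ s * s) = (σ b - b) * s - b * (σ s - s) := by
    have h1 : σ x * σ s = σ b := by rw [← map_mul, hxs]
    linear_combination s * h1 - σ s * hxs
  have hv : A.valuation ((σ x - x) * (σ s * s)) < 1 := by
    rw [key]
    refine lt_of_le_of_lt (Valuation.map_sub _ _ _) (max_lt ?_ ?_)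
    · rw [map_mul, vs, mul_one]
      exact hb1
    · rw [map_mul]
      calc A.valuation b * A.valuation (σ s - s) ≤ 1 * A.valuation (σ s - s) :=
            mul_le_mul_left ((A.valuation_le_one_iff b).2 hbA) _
        _ = A.valuation (σ s - s) := one_mul _
        _ < 1 := hs1
  rw [map_mul, map_mul, vσs, vs, mul_one, mul_one] at hv
  exact (ValuationSubring.mem_nonunits_iff A).2 hv

end

section Lift

variable (F : IntermediateField ℚ (AlgebraicClosure ℚ))

/-- **B14 (inertia groups).** If `F/ℚ` is normal and `σ ∈ G_ℚ` stabilises the place `A ∩ F` of `F`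
and acts trivially on its residue field, then `σ|_F` is the restriction of an element of the
inertia group of `A`. -/
theorem exists_mem_inertia_restrict_eq (hF : F.fixingSubgroup.Normal)
    {A : ValuationSubring (AlgebraicClosure ℚ)} {q : ℕ} (hq : q.Prime) (hA : A.LiesOverPrime q)
    (σ : AlgebraicClosure ℚ ≃ₐ[ℚ] AlgebraicClosure ℚ) (hσD : ∀ x ∈ F, σ x ∈ A ↔ x ∈ A)
    (hσI : ∀ x ∈ F, x ∈ A → σ x - x ∈ A.nonunits) :
    ∃ σ' ∈ A.inertiaSubgroupIn ℚ, ∀ x ∈ F, σ' x = σ x := by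
  -- step 1: we may assume `σ ∈ D_A`
  obtain ⟨σ₁, hσ₁D, hσ₁F⟩ := exists_mem_decomposition_restrict_eq F hF hq hA σ hσD
  have hσ₁I : ∀ x ∈ F, x ∈ A → σ₁ x - x ∈ A.nonunits := fun x hx hxA => by
    rw [hσ₁F x hx]; exact hσI x hx hxA
  -- step 2: the profinite group `G_F` acting on `ℤ̄`
  letI : TopologicalSpace (integralClosure ℤ (AlgebraicClosure ℚ)) := ⊥
  haveI : DiscreteTopology (integralClosure ℤ (AlgebraicClosure ℚ)) := ⟨rfl⟩
  haveI := compactSpace_fixingSubgroup F
  haveI := totallyDisconnectedSpace_fixingSubgroup F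
  haveI := continuousSMul_fixingSubgroup F
  haveI := smulCommClass_fixedPoints F
  haveI := isInvariant_fixedPoints F
  haveI hQprime := primeBelow_isPrime A
  haveI hlies : (primeBelow A).LiesOver ((primeBelow A).under
      (FixedPoints.subalgebra ℤ (integralClosure ℤ (AlgebraicClosure ℚ)) ↥F.fixingSubgroup)) :=
    ⟨rfl⟩
  have hσ₁Q : σ₁ • primeBelow A = primeBelow A := by
    rw [← primeBelow_smul, MulAction.mem_stabilizer_iff.1 hσ₁D]
  -- the automorphism of `ℤ̄ / Q` induced by `σ₁`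
  let e₀ : (integralClosure ℤ (AlgebraicClosure ℚ) ⧸ primeBelow A) ≃+*
      (integralClosure ℤ (AlgebraicClosure ℚ) ⧸ primeBelow A) :=
    Ideal.quotientEquiv (primeBelow A) (primeBelow A)
      (MulSemiringAction.toRingEquiv (AlgebraicClosure ℚ ≃ₐ[ℚ] AlgebraicClosure ℚ)
        (integralClosure ℤ (AlgebraicClosure ℚ)) σ₁) hσ₁Q.symm
  have he₀ : ∀ b : integralClosure ℤ (AlgebraicClosure ℚ),
      e₀ (Ideal.Quotient.mk _ b) = Ideal.Quotient.mk _ (σ₁ • b) := fun b => rfl
  let e : (integralClosure ℤ (AlgebraicClosure ℚ) ⧸ primeBelow A) ≃ₐ[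
      (FixedPoints.subalgebra ℤ (integralClosure ℤ (AlgebraicClosure ℚ)) ↥F.fixingSubgroup) ⧸
        (primeBelow A).under
          (FixedPoints.subalgebra ℤ (integralClosure ℤ (AlgebraicClosure ℚ)) ↥F.fixingSubgroup)]
      (integralClosure ℤ (AlgebraicClosure ℚ) ⧸ primeBelow A) :=
    AlgEquiv.ofRingEquiv (f := e₀) (by
      intro y
      obtain ⟨a, rfl⟩ := Ideal.Quotient.mk_surjective y
      show e₀ (Ideal.Quotient.mk _ (a.1)) = Ideal.Quotient.mk _ (a.1)
      rw [he₀, Ideal.Quotient.eq, mem_primeBelow]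
      have haF : ((a.1 : integralClosure ℤ (AlgebraicClosure ℚ)) : AlgebraicClosure ℚ) ∈ F := by
        apply mem_of_fixed_by_fixingSubgroup
        intro g hg
        have := a.2 ⟨g, hg⟩
        exact congrArg Subtype.val this
      exact hσ₁I _ haF (isIntegral_mem_valuationSubring A a.1.2))
  obtain ⟨τ, hτ⟩ := Ideal.Quotient.stabilizerHom_surjective_of_profinite
    (G := ↥F.fixingSubgroup)
    ((primeBelow A).under
      (FixedPoints.subalgebra ℤ (integralClosure ℤ (AlgebraicClosure ℚ)) ↥F.fixingSubgroup))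
    (primeBelow A) e
  -- `τ ∈ G_F` stabilises `Q` and induces the same automorphism as `σ₁`
  have hτQ : (τ.1.1 : AlgebraicClosure ℚ ≃ₐ[ℚ] AlgebraicClosure ℚ) • primeBelow A
      = primeBelow A := τ.2
  have hτD : (τ.1.1 : AlgebraicClosure ℚ ≃ₐ[ℚ] AlgebraicClosure ℚ) ∈ A.decompositionSubgroup ℚ := by
    rw [MulAction.mem_stabilizer_iff]
    apply valuationSubring_ext_of_primeBelow hq (liesOverPrime_smul A _ q hA) hA
    rw [primeBelow_smul, hτQ]
  have hτσ : ∀ b : integralClosure ℤ (AlgebraicClosure ℚ),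
      (τ.1.1 : AlgebraicClosure ℚ ≃ₐ[ℚ] AlgebraicClosure ℚ) (b : AlgebraicClosure ℚ)
        - σ₁ (b : AlgebraicClosure ℚ) ∈ A.nonunits := by
    intro b
    have h1 := congrArg (fun f => f (Ideal.Quotient.mk _ b)) hτ
    simp only [Ideal.Quotient.stabilizerHom_apply] at h1
    have h2 : e (Ideal.Quotient.mk _ b) = Ideal.Quotient.mk _ (σ₁ • b) := he₀ b
    rw [h2, Ideal.Quotient.eq, mem_primeBelow] at h1
    exact h1
  refine ⟨(τ.1.1)⁻¹ * σ₁, ?_, ?_⟩
  · apply mem_inertia_of_forall_integral A hq hA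
      (Subgroup.mul_mem _ (Subgroup.inv_mem _ hτD) hσ₁D)
    intro b hb
    have h3 := hτσ ⟨b, hb⟩
    have h4 : ((τ.1.1)⁻¹ * σ₁) b - b
        = (τ.1.1 : AlgebraicClosure ℚ ≃ₐ[ℚ] AlgebraicClosure ℚ)⁻¹
            (-((τ.1.1 : AlgebraicClosure ℚ ≃ₐ[ℚ] AlgebraicClosure ℚ) b - σ₁ b)) := by
      rw [map_neg, map_sub]
      have h5 : (τ.1.1 : AlgebraicClosure ℚ ≃ₐ[ℚ] AlgebraicClosure ℚ)⁻¹ ((τ.1.1) b) = b := by
        show ((τ.1.1)⁻¹ * τ.1.1) b = b
        rw [inv_mul_cancel]
        rfl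
      rw [h5]
      show (τ.1.1)⁻¹ (σ₁ b) - b = _
      ring
    rw [h4, mem_nonunits_of_mem_decomposition A (Subgroup.inv_mem _ hτD)]
    exact A.nonunits.neg_mem h3
  · intro x hx
    rw [← hσ₁F x hx]
    show (τ.1.1)⁻¹ (σ₁ x) = σ₁ x
    have hmem : σ₁ x ∈ F := map_mem_of_normal F hF σ₁ hx
    exact (IntermediateField.mem_fixingSubgroup_iff F _).1 (Subgroup.inv_mem _ τ.1.2) _ hmem

end Lift

end Fermat.Agent.S55.Bridge

end
-- ===== PACK-END S55/Bridge/RestrictInertia.lean

-- ===== PACK-BEGIN S55/G/Rec/CupLocH496.lean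
section


/-!
# S55 / layer G / block REC, leaf K1 (helper496): localisation of a global cup class
-/

set_option autoImplicit false

noncomputable section

namespace Fermat.Agent.S55.G.Rec.H496

open groupCohomology Fermat.Agent.S55.G.Rec

local notation "Qb" => AlgebraicClosure ℚ
local notation "GQ" => (AlgebraicClosure ℚ ≃ₐ[ℚ] AlgebraicClosure ℚ)

/-- Localisation preserves fixed elements. -/
theorem lFixed_locPushMul (q : ℕ) [Fact q.Prime] (g : GQ) (U : Subgroup GQ) (a : Qbˣ)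
    (ha : GFixed U a) : LFixed q (locSub q g U) (locPushMul q g a) := by
  intro τ hτ
  have h1 := locPush_equivariant q g U ⟨τ, hτ⟩ (toGMod U a)
  have h2 : (gModOn U).ρ (locHom q g U ⟨τ, hτ⟩) (toGMod U a) = toGMod U a :=
    toGMod_mem_invariants ha _
  rw [h2] at h1
  exact (congrArg Additive.toMul h1).symm

/-- **(K1)** localisation of a global cup class is the local cup class. -/
theorem cupLoc : CupLocSpec := by
  intro q _ g U n χ a hn hχ ha
  have h1 : IsLevelConstant₁ (lHom q (locSub q g U)) (χ.comp (locHom q g U)) :=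
    isLevelConstant₁_loc q g U hχ
  have h2 : LFixed q (locSub q g U) (locPushMul q g a) := lFixed_locPushMul q g U a ha
  refine ⟨⟨h1, h2⟩, ?_⟩
  rw [gcc_eq U n χ a ⟨hn, hχ, ha⟩, lcc_eq q _ n _ _ ⟨hn, h1, h2⟩, locBr_mk]
  congr 1
  apply Subtype.ext
  funext ⟨τ₁, τ₂⟩
  show locPush q g U (H379.carry n _ _ • toGMod U a) = H379.carry n _ _ • _
  rw [map_nsmul]
  rfl

end Fermat.Agent.S55.G.Rec.H496

end
end
-- ===== PACK-END S55/G/Rec/CupLocH496.lean

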