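import Mathlib
import Fermat.Prelude.Def_FLTPrelim_Ramification
import Fermat.Prelude.Def_EllipticCurve_FrobeniusTrace
import Fermat.Prelude.Def_GaloisRep_Residual
import Fermat.Agent.Pack.S43GC.G0E7L3
import Fermat.Agent.Pack.S43GC.G1E0L0
import Fermat.Agent.Pack.S43GC.G0E0L2
import Fermat.Agent.Pack.S43GC.G0E3L0
import Fermat.Agent.Pack.S43GC.G0E0L0
import Fermat.Agent.Pack.S43GC.G0E3L3
import Fermat.Agent.Pack.S43GC.G0E7L1
import Fermat.Agent.Pack.S43GC.G0E7L2
import Fermat.Agent.Pack.S43GC.G0E6L1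
import Fermat.Agent.Pack.S43GC.G0E4L0
import Fermat.Agent.Pack.S43GC.G0E5L1
import Fermat.Agent.Pack.S43GC.G0E6L0
import Fermat.Agent.Pack.S43GC.G0E4L3
import Fermat.Agent.Pack.S43GC.G0E4L2
import Fermat.Agent.Pack.S43GC.G0E6L2
import Fermat.Agent.Pack.S43GC.G0E2L1
import Fermat.Agent.Pack.S44C.G0E0L3
import Fermat.Agent.Pack.S43GC.G0E4L1
import Fermat.Agent.Pack.S43GC.G0E7L0
import Fermat.Agent.Pack.S43GC.G0E2L0
import Fermat.Agent.Pack.Fast891

-- ===== PACK-BEGIN S56/H596/Dict.lean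
section






/-!
# S56, piece DICT (helper596): tangent vectors ↪ tangent cocycles modulo coboundaries

`dictOrd : DictOrdStatement` and `dictFlat : DictFlatStatement` (frozen statements of
`Fermat/Agent/S56/H716/TBSpec.lean`).

Route.  Fix a matrix form `rb` of `ρ̄` and a matrix form `rR` of the universal deformation lifting
`rb`.  For a tangent vector `φ : R → k[ε]` the matrix representation `φ ∘ rR` is
`σ ↦ rb σ + ε B_φ σ`; the cocycle attached to `φ` is `σ ↦ B_φ σ · (rb σ)⁻¹`, transported to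
`End_k (ρ̄.V)`.  Coboundary ⟹ conjugate by `1 + ε M` ⟹ equal tangent vectors by the uniqueness
part of the universal property.
-/

set_option autoImplicit false
set_option linter.unusedSectionVars false
set_option linter.unusedVariables false
set_option linter.style.haveILetI false

namespace Fermat.Agent.S56.H596

noncomputable section

open IsLocalRing TrivSqZeroExt
open scoped TensorProduct
open Fermat.Agent.S56 Fermat.Agent.S56.H716

/-! ### The tangent algebra -/

section TanAlg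

variable (𝒪 : Type) [CommRing 𝒪] [IsLocalRing 𝒪]

attribute [local instance] Fermat.Agent.S56.tanAlgebra

theorem tanAlgebra_algebraMap (a : 𝒪) :
    algebraMap 𝒪 (DualNumber (ResidueField 𝒪)) a = TrivSqZeroExt.inl (residue 𝒪 a) := rfl

theorem isLocalHom_tanAlgebra :
    IsLocalHom (algebraMap 𝒪 (DualNumber (ResidueField 𝒪))) := by
  refine ⟨fun a ha => ?_⟩
  rw [tanAlgebra_algebraMap, TrivSqZeroExt.isUnit_iff_isUnit_fst, TrivSqZeroExt.fst_inl] at ha
  by_contra hna
  have : residue 𝒪 a = 0 := (residue_eq_zero_iff a).2 ((mem_maximalIdeal a).2 hna)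
  rw [this] at ha
  exact not_isUnit_zero ha

theorem residue_tanAlgebra_surjective :
    Function.Surjective (IsLocalRing.residue (DualNumber (ResidueField 𝒪)) ∘
      algebraMap 𝒪 (DualNumber (ResidueField 𝒪))) := by
  intro y
  obtain ⟨z, rfl⟩ := residue_surjective y
  obtain ⟨a, ha⟩ := residue_surjective (TrivSqZeroExt.fst z)
  refine ⟨a, ?_⟩
  rw [Function.comp_apply, tanAlgebra_algebraMap, ha, ← sub_eq_zero, ← map_sub,
    residue_eq_zero_iff, mem_maximalIdeal_dualNumber_iff]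
  simp

/-- The residue class of a dual number is the image of its constant part. -/
theorem residue_dualNumber_eq (z : DualNumber (ResidueField 𝒪)) :
    residue (DualNumber (ResidueField 𝒪)) z =
      @ResidueField.map 𝒪 (DualNumber (ResidueField 𝒪)) _ _ _ _
        (algebraMap 𝒪 (DualNumber (ResidueField 𝒪))) (isLocalHom_tanAlgebra 𝒪)
        (TrivSqZeroExt.fst z) := by
  haveI := isLocalHom_tanAlgebra 𝒪
  obtain ⟨a, ha⟩ := residue_surjective (TrivSqZeroExt.fst z)
  rw [← ha, ResidueField.map_residue, tanAlgebra_algebraMap, ha, ← sub_eq_zero, ← map_sub,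
    residue_eq_zero_iff, mem_maximalIdeal_dualNumber_iff]
  simp

variable {𝒪}
variable {R : Type} [CommRing R] [IsLocalRing R] [Algebra 𝒪 R]

theorem isLocalHom_tanHom (φ : TanHom 𝒪 R) :
    IsLocalHom (φ : R →+* DualNumber (ResidueField 𝒪)) :=
  isLocalHom_of_residue_surjective (residue_tanAlgebra_surjective 𝒪) φ

/-- The constant part of a tangent vector is the canonical projection `R → k`. -/
theorem fst_tanHom_eq (φ : TanHom 𝒪 R) (x : R) (a : 𝒪)
    (hxa : residue R x = residue R (algebraMap 𝒪 R a)) :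
    TrivSqZeroExt.fst (φ x) = residue 𝒪 a := by
  have hm : x - algebraMap 𝒪 R a ∈ maximalIdeal R := by
    rw [← residue_eq_zero_iff, map_sub, hxa, sub_self]
  have hφ := isLocalHom_tanHom φ
  have h1 : φ (x - algebraMap 𝒪 R a) ∈ maximalIdeal (DualNumber (ResidueField 𝒪)) :=
    Fermat.Agent.S56.H966.map_mem_maximalIdeal (φ : R →+* DualNumber (ResidueField 𝒪)) hφ hm
  rw [mem_maximalIdeal_dualNumber_iff, map_sub, AlgHom.commutes, tanAlgebra_algebraMap,
    TrivSqZeroExt.fst_sub, TrivSqZeroExt.fst_inl, sub_eq_zero] at h1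
  exact h1

theorem fst_tanHom_eq_of_map (hloc : IsLocalHom (algebraMap 𝒪 R)) (φ : TanHom 𝒪 R) (x : R)
    (c : ResidueField 𝒪)
    (hxc : residue R x = ResidueField.map (algebraMap 𝒪 R) c) :
    TrivSqZeroExt.fst (φ x) = c := by
  obtain ⟨a, rfl⟩ := residue_surjective c
  rw [ResidueField.map_residue] at hxc
  exact fst_tanHom_eq φ x a hxc

/-- Two tangent vectors have the same constant part. -/
theorem fst_tanHom_congr
    (hres : Function.Surjective (IsLocalRing.residue R ∘ algebraMap 𝒪 R))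
    (φ φ' : TanHom 𝒪 R) (x : R) :
    TrivSqZeroExt.fst (φ x) = TrivSqZeroExt.fst (φ' x) := by
  obtain ⟨a, ha⟩ := hres (residue R x)
  rw [fst_tanHom_eq φ x a ha.symm, fst_tanHom_eq φ' x a ha.symm]

/-- A tangent vector with nonzero `ε`-part is surjective. -/
theorem tanHom_surjective_of_snd_ne_zero (φ : TanHom 𝒪 R) (x : R)
    (hx : TrivSqZeroExt.snd (φ x) ≠ 0) : Function.Surjective φ := by
  intro z
  obtain ⟨as, has⟩ := residue_surjective (TrivSqZeroExt.fst (φ x))
  obtain ⟨au, hau⟩ := residue_surjective (TrivSqZeroExt.fst z)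
  obtain ⟨av, hav⟩ := residue_surjective (TrivSqZeroExt.snd z / TrivSqZeroExt.snd (φ x))
  refine ⟨algebraMap 𝒪 R au + algebraMap 𝒪 R av * (x - algebraMap 𝒪 R as), ?_⟩
  rw [map_add, map_mul, map_sub, AlgHom.commutes, AlgHom.commutes, AlgHom.commutes,
    tanAlgebra_algebraMap, tanAlgebra_algebraMap, tanAlgebra_algebraMap, has, hau, hav]
  ext
  · simp
  · simp
    field_simp

/-- Tangent vectors with vanishing `ε`-part are equal. -/
theorem tanHom_eq_of_snd_eq_zero
    (hres : Function.Surjective (IsLocalRing.residue R ∘ algebraMap 𝒪 R))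
    (φ φ' : TanHom 𝒪 R) (h : ∀ x, TrivSqZeroExt.snd (φ x) = 0)
    (h' : ∀ x, TrivSqZeroExt.snd (φ' x) = 0) : φ = φ' := by
  apply AlgHom.ext
  intro x
  ext
  · exact fst_tanHom_congr hres φ φ' x
  · rw [h x, h' x]

end TanAlg

/-! ### Matrices and endomorphisms -/

section MatEnd

variable {k : Type} [Field k] {V : Type} [AddCommGroup V] [Module k V]

/-- Matrices as endomorphisms of `V`, through a coordinate system `E : V ≃ k²`. -/
def matToEnd (E : V ≃ₗ[k] (Fin 2 → k)) : Matrix (Fin 2) (Fin 2) k ≃+* Module.End k V :=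
  (Matrix.toLinAlgEquiv' (R := k) (n := Fin 2)).toRingEquiv.trans E.symm.conjRingEquiv

theorem matToEnd_apply (E : V ≃ₗ[k] (Fin 2 → k)) (X : Matrix (Fin 2) (Fin 2) k) (v : V) :
    matToEnd E X v = E.symm (X.mulVec (E v)) := by
  simp [matToEnd, LinearEquiv.conjRingEquiv]

theorem conj_matToEnd (E : V ≃ₗ[k] (Fin 2 → k)) (X : Matrix (Fin 2) (Fin 2) k) :
    E.conj (matToEnd E X) = Fermat.Agent.S53.matEnd k X := by
  refine LinearMap.ext fun w => ?_
  rw [LinearEquiv.conj_apply_apply, matToEnd_apply, LinearEquiv.apply_symm_apply,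
    LinearEquiv.apply_symm_apply, Fermat.Agent.S53.matEnd_apply]

theorem trace_matToEnd (E : V ≃ₗ[k] (Fin 2 → k)) (X : Matrix (Fin 2) (Fin 2) k) :
    LinearMap.trace k V (matToEnd E X) = X.trace := by
  have h1 : matToEnd E X = E.symm.conj (Matrix.toLin' X) := by
    refine LinearMap.ext fun v => ?_
    rw [matToEnd_apply, LinearEquiv.conj_apply_apply, LinearEquiv.symm_symm, Matrix.toLin'_apply]
  rw [h1, LinearMap.trace_conj', LinearMap.trace_eq_matrix_trace k (Pi.basisFun k (Fin 2)),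
    LinearMap.toMatrix_eq_toMatrix', LinearMap.toMatrix'_toLin']

end MatEnd

/-! ### The cocycle of a matrix lift to the dual numbers -/

section Coc

variable {k : Type} [Field k]
variable (rb : GQ →* Matrix (Fin 2) (Fin 2) k)
variable (r r' : GQ →* Matrix (Fin 2) (Fin 2) (DualNumber k))

/-- The matrix cocycle `σ ↦ B(σ) · rb(σ)⁻¹` of `r = rb + ε B`. -/
def cocMat (σ : GQ) : Matrix (Fin 2) (Fin 2) k := m1 (r σ) * rb σ⁻¹

variable {rb r r'}

theorem rb_mul_inv (σ : GQ) : rb σ * rb σ⁻¹ = 1 := by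
  rw [← map_mul, mul_inv_cancel, map_one]

theorem rb_inv_mul (σ : GQ) : rb σ⁻¹ * rb σ = 1 := by
  rw [← map_mul, inv_mul_cancel, map_one]

theorem cocMat_mul_rb (σ : GQ) : cocMat rb r σ * rb σ = m1 (r σ) := by
  rw [cocMat, mul_assoc, rb_inv_mul, mul_one]

theorem cocMat_mul (h0 : ∀ σ, m0 (r σ) = rb σ) (σ τ : GQ) :
    cocMat rb r (σ * τ) = cocMat rb r σ + rb σ * cocMat rb r τ * rb σ⁻¹ := by
  unfold cocMat
  rw [map_mul r, m1_mul, h0 σ, h0 τ, mul_inv_rev, map_mul rb, add_mul]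
  have h1 : m1 (r σ) * rb τ * (rb τ⁻¹ * rb σ⁻¹) = m1 (r σ) * rb σ⁻¹ := by
    rw [mul_assoc, ← mul_assoc (rb τ), rb_mul_inv, one_mul]
  rw [h1, add_comm]
  congr 1
  simp only [mul_assoc]

theorem det_rb_ne_zero (σ : GQ) : (rb σ).det ≠ 0 := by
  intro h
  have := congrArg Matrix.det (rb_mul_inv (rb := rb) σ)
  rw [Matrix.det_mul, h, zero_mul, Matrix.det_one] at this
  exact zero_ne_one this

theorem trace_cocMat (h0 : ∀ σ, m0 (r σ) = rb σ) (σ : GQ)
    (hdet : TrivSqZeroExt.snd (r σ).det = 0) : (cocMat rb r σ).trace = 0 := by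
  have h1 := snd_det (r σ)
  rw [hdet, h0] at h1
  have hadj : (rb σ).adjugate = (rb σ).det • rb σ⁻¹ := by
    have := Matrix.adjugate_mul (rb σ)
    calc (rb σ).adjugate = (rb σ).adjugate * (rb σ * rb σ⁻¹) := by rw [rb_mul_inv, mul_one]
      _ = ((rb σ).adjugate * rb σ) * rb σ⁻¹ := by rw [mul_assoc]
      _ = _ := by rw [this, Matrix.smul_mul, one_mul]
  rw [hadj, Matrix.mul_smul, Matrix.trace_smul, smul_eq_mul] at h1
  rcases mul_eq_zero.1 h1.symm with h | h
  · exact absurd h (det_rb_ne_zero σ)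
  · exact h

theorem cocMat_eq_zero_of_m1 (σ : GQ) (h : m1 (r σ) = 0) : cocMat rb r σ = 0 := by
  rw [cocMat, h, zero_mul]

/-- **Coboundary ⟹ conjugate.** -/
theorem dmk_mul_eq_of_coboundary (h0 : ∀ σ, m0 (r σ) = rb σ) (h0' : ∀ σ, m0 (r' σ) = rb σ)
    (M : Matrix (Fin 2) (Fin 2) k)
    (hM : ∀ σ, cocMat rb r σ - cocMat rb r' σ = rb σ * M * rb σ⁻¹ - M) (σ : GQ) :
    dmk 1 M * r σ = r' σ * dmk 1 M := by
  apply dualMat_ext
  · rw [m0_mul, m0_mul, m0_dmk, h0, h0', one_mul, mul_one]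
  · rw [m1_mul, m1_mul, m0_dmk, m1_dmk, h0, h0', one_mul, mul_one]
    have h1 := congrArg (· * rb σ) (hM σ)
    simp only [sub_mul, cocMat_mul_rb, mul_assoc, rb_inv_mul, mul_one] at h1
    rw [sub_eq_sub_iff_add_eq_add] at h1
    rw [h1, add_comm]

end Coc

/-! ### The tangent cocycle with values in `End ρ̄.V` -/

section EndCoc

variable {k : Type} [Field k] (ρbar : ResidualGaloisRep k)
variable {rb : GQ →* Matrix (Fin 2) (Fin 2) k}
variable (E : ρbar.V ≃ₗ[k] (Fin 2 → k))
variable (r r' : GQ →* Matrix (Fin 2) (Fin 2) (DualNumber k))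

/-- The cocycle of `r = rb + ε B` with values in `End ρ̄.V`. -/
def coc (rb : GQ →* Matrix (Fin 2) (Fin 2) k) (σ : GQ) : Module.End k ρbar.V :=
  matToEnd E (cocMat rb r σ)

variable {ρbar} {r r'} {E}

theorem rho_eq_matToEnd (hE : ∀ σ v, E (ρbar.ρ σ v) = (rb σ).mulVec (E v)) (σ : GQ) :
    ρbar.ρ σ = matToEnd E (rb σ) := by
  refine LinearMap.ext fun v => ?_
  rw [matToEnd_apply, ← hE σ v, LinearEquiv.symm_apply_apply]

theorem coc_mul_rho (hE : ∀ σ v, E (ρbar.ρ σ v) = (rb σ).mulVec (E v)) (σ : GQ) :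
    coc ρbar E r rb σ * ρbar.ρ σ = matToEnd E (m1 (r σ)) := by
  rw [coc, rho_eq_matToEnd hE, ← map_mul, cocMat_mul_rb]

theorem eq_one_of_level (hcont : Fermat.Agent.S53.MatCont r) :
    ∃ L : IntermediateField ℚ Qb, FiniteDimensional ℚ L ∧
      ∀ τ : GQ, (∀ x ∈ L, τ x = x) → r τ = 1 := by
  obtain ⟨L, hL, h⟩ := hcont 2
  refine ⟨L, hL, fun τ hτ => ?_⟩
  ext i j : 1
  have := h τ hτ i j
  rw [maximalIdeal_dualNumber_sq, Ideal.mem_bot, Matrix.sub_apply, sub_eq_zero] at this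
  exact this

theorem isAdCocycle_coc (hE : ∀ σ v, E (ρbar.ρ σ v) = (rb σ).mulVec (E v))
    (h0 : ∀ σ, m0 (r σ) = rb σ)
    (hdet : ∀ σ, TrivSqZeroExt.snd (r σ).det = 0) (hcont : Fermat.Agent.S53.MatCont r) :
    IsAdCocycle ρbar (coc ρbar E r rb) := by
  refine ⟨fun σ => ?_, fun σ τ => ?_, ?_⟩
  · rw [coc, trace_matToEnd]
    exact trace_cocMat h0 σ (hdet σ)
  · rw [coc, cocMat_mul h0, map_add, map_mul, map_mul, ← rho_eq_matToEnd hE,
      ← rho_eq_matToEnd hE]
    rfl
  · obtain ⟨L, hL, h⟩ := eq_one_of_level hcont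
    refine ⟨L, hL, fun σ τ hτ => ?_⟩
    have h1 : cocMat rb r τ = 0 := cocMat_eq_zero_of_m1 τ (by rw [h τ hτ, m1_one])
    rw [coc, cocMat_mul h0, h1, mul_zero, zero_mul, add_zero]
    rfl

theorem baseChange_conj {V W : Type} [AddCommGroup V] [Module k V] [AddCommGroup W] [Module k W]
    (F : V ≃ₗ[k] W) (f : Module.End k V) (y : DualNumber k ⊗[k] V) :
    (LinearEquiv.baseChange k (DualNumber k) V W F) (f.baseChange (DualNumber k) y) =
      ((F.conj f).baseChange (DualNumber k)) (LinearEquiv.baseChange k (DualNumber k) V W F y) := by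
  induction y using TensorProduct.induction_on with
  | zero => simp only [map_zero]
  | tmul d v =>
    rw [LinearMap.baseChange_tmul, LinearEquiv.baseChange_tmul, LinearEquiv.baseChange_tmul,
      LinearMap.baseChange_tmul, LinearEquiv.conj_apply_apply, LinearEquiv.symm_apply_apply]
  | add x y hx hy => simp only [map_add, hx, hy]

variable (E) in
/-- The coordinate system `k[ε] ⊗ ρ̄.V ≃ k[ε]²`. -/
def liftCoord : (DualNumber k ⊗[k] ρbar.V) ≃ₗ[DualNumber k] (Fin 2 → DualNumber k) :=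
  (LinearEquiv.baseChange k (DualNumber k) ρbar.V (Fin 2 → k) E).trans
    (TensorProduct.piScalarRight k (DualNumber k) (DualNumber k) (Fin 2))

theorem liftCoord_liftEnd (hE : ∀ σ v, E (ρbar.ρ σ v) = (rb σ).mulVec (E v))
    (h0 : ∀ σ, m0 (r σ) = rb σ) (σ : GQ)
    (y : DualNumber k ⊗[k] ρbar.V) :
    liftCoord E (liftEnd ρbar (coc ρbar E r rb) σ y) = (r σ).mulVec (liftCoord E y) := by
  have hr : r σ = (rb σ).map (algebraMap k (DualNumber k)) +
      (DualNumber.eps : DualNumber k) • (m1 (r σ)).map (algebraMap k (DualNumber k)) := by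
    rw [← dmk_eq, ← h0 σ, dmk_m0_m1]
  rw [liftEnd, coc_mul_rho hE, rho_eq_matToEnd hE σ, LinearMap.add_apply, LinearMap.smul_apply,
    liftCoord, LinearEquiv.trans_apply, LinearEquiv.trans_apply, map_add, map_smul,
    baseChange_conj, baseChange_conj, conj_matToEnd, conj_matToEnd, map_add, map_smul,
    Fermat.Agent.S53.piScalarRight_baseChange, Fermat.Agent.S53.piScalarRight_baseChange]
  conv_rhs => rw [hr]
  rw [Matrix.add_mulVec, Matrix.smul_mulVec]

theorem isLiftOf_coc (hE : ∀ σ v, E (ρbar.ρ σ v) = (rb σ).mulVec (E v))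
    (h0 : ∀ σ, m0 (r σ) = rb σ) (hcont : Fermat.Agent.S53.MatCont r)
    (ρ' : GaloisRepAdic (DualNumber k))
    (F : ρ'.V ≃ₗ[DualNumber k] (Fin 2 → DualNumber k))
    (hF : ∀ σ v, F (ρ'.ρ σ v) = (r σ).mulVec (F v)) :
    IsLiftOf ρbar (coc ρbar E r rb) ρ' := by
  refine ⟨F.trans (liftCoord E).symm, fun σ v => ?_⟩
  rw [LinearEquiv.trans_apply, LinearEquiv.trans_apply, hF]
  apply (liftCoord E).injective
  rw [LinearEquiv.apply_symm_apply, liftCoord_liftEnd hE h0, LinearEquiv.apply_symm_apply]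

end EndCoc

/-! ### Determinants and the cyclotomic character -/

section Det

variable {k : Type} [Field k]

theorem exists_cycExp (p : ℕ) (hp : p.Prime) (σ : GQ) :
    ∃ a : ℕ, ∀ μ : Qb, μ ^ p ^ 1 = 1 → σ μ = μ ^ a := by
  haveI : NeZero p := ⟨hp.ne_zero⟩
  obtain ⟨ζ, hζ⟩ := HasEnoughRootsOfUnity.exists_primitiveRoot Qb p
  have h1 : (σ ζ) ^ p = 1 := by rw [← map_pow, hζ.pow_eq_one, map_one]
  obtain ⟨a, -, ha⟩ := hζ.eq_pow_of_pow_eq_one h1
  refine ⟨a, fun μ hμ => ?_⟩
  rw [pow_one] at hμ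
  obtain ⟨i, -, rfl⟩ := hζ.eq_pow_of_pow_eq_one hμ
  rw [map_pow, ← ha, ← pow_mul, ← pow_mul, mul_comm]

theorem det_eq_of_coord {A : Type} [CommRing A] {V : Type} [AddCommGroup V] [Module A V]
    (F : V ≃ₗ[A] (Fin 2 → A)) (f : Module.End A V) (X : Matrix (Fin 2) (Fin 2) A)
    (hF : ∀ v, F (f v) = X.mulVec (F v)) : LinearMap.det f = X.det := by
  have h1 : f = F.symm.conj (Matrix.toLin' X) := by
    refine LinearMap.ext fun v => ?_
    rw [LinearEquiv.conj_apply_apply, LinearEquiv.symm_symm, Matrix.toLin'_apply, ← hF,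
      LinearEquiv.symm_apply_apply]
  rw [h1, LinearEquiv.conj_apply, LinearMap.comp_assoc, LinearMap.det_conj,
    LinearMap.det_toLin']

theorem snd_det_eq_zero (p : ℕ) (hp : p.Prime) (ρ' : GaloisRepAdic (DualNumber k))
    (hdet : ρ'.DetIsCyclotomic p)
    (r : GQ →* Matrix (Fin 2) (Fin 2) (DualNumber k))
    (F : ρ'.V ≃ₗ[DualNumber k] (Fin 2 → DualNumber k))
    (hF : ∀ σ v, F (ρ'.ρ σ v) = (r σ).mulVec (F v)) (σ : GQ) :
    TrivSqZeroExt.snd (r σ).det = 0 := by
  obtain ⟨a, ha⟩ := exists_cycExp p hp σ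
  have h1 := hdet.2 1 σ a ha
  have hp0 : ((p ^ 1 : ℕ) : DualNumber k) = 0 := by
    have h2 := (mem_maximalIdeal_dualNumber_iff _).1 hdet.1
    rw [pow_one]
    ext
    · exact h2
    · simp
  rw [hp0, Ideal.span_singleton_eq_bot.2 rfl, Ideal.mem_bot, sub_eq_zero,
    det_eq_of_coord F (ρ'.ρ σ) (r σ) (hF σ)] at h1
  rw [h1]
  simp

end Det

/-! ### The dictionary -/

section Assembly

attribute [local instance] Fermat.Agent.S56.tanAlgebra

variable (𝒪 : Type) [CommRing 𝒪] [IsDomain 𝒪] [IsDiscreteValuationRing 𝒪]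
  [IsAdicComplete (maximalIdeal 𝒪) 𝒪]
  (ρbar : ResidualGaloisRep (ResidueField 𝒪))

/-- **DICT, general form.**  For a deformation condition `𝒟` which forces the determinant to be
cyclotomic and is preserved by base change along surjective tangent vectors. -/
theorem dict_of (𝒟 : DefCond 𝒪) (p : ℕ) (hp : p.Prime)
    (hdet : ∀ ρ' : GaloisRepAdic (DualNumber (ResidueField 𝒪)), 𝒟 ρ' → ρ'.DetIsCyclotomic p)
    (hbc : ∀ (DQ : GaloisRep.DeformationRingData 𝒪 ρbar 𝒟) (φ : TanHom 𝒪 DQ.R)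
      (hφ : IsLocalHom (φ : DQ.R →+* DualNumber (ResidueField 𝒪))), Function.Surjective φ →
      𝒟 (DQ.ρ.baseChangeAlong (φ : DQ.R →+* DualNumber (ResidueField 𝒪)) hφ)) :
    Dict 𝒪 ρbar 𝒟 := by
  intro DQ
  classical
  haveI hlocD := isLocalHom_tanAlgebra 𝒪
  obtain ⟨rb, hrb, ⟨e⟩⟩ := Fermat.Agent.S53.exists_toRes ρbar
  obtain ⟨rR, hrR, hlift, ⟨eR⟩⟩ := Fermat.Agent.S53.exists_lift_of_residual_isEquiv ρbar rb hrb
    ⟨e⟩ DQ.ρ DQ.residual_isEquiv
  let E : ρbar.V ≃ₗ[ResidueField 𝒪] (Fin 2 → ResidueField 𝒪) := e.toLinearEquiv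
  have hE : ∀ σ v, E (ρbar.ρ σ v) = (rb σ).mulVec (E v) := fun σ v => e.map_apply σ v
  -- the matrix representation attached to a tangent vector
  let rφ : TanHom 𝒪 DQ.R → (GQ →* Matrix (Fin 2) (Fin 2) (DualNumber (ResidueField 𝒪))) :=
    fun φ => Fermat.Agent.S53.mapRep (φ : DQ.R →+* DualNumber (ResidueField 𝒪)) rR
  have hcont : ∀ φ, Fermat.Agent.S53.MatCont (rφ φ) := fun φ => hrR.map _ (isLocalHom_tanHom φ)
  have h0 : ∀ φ σ, m0 (rφ φ σ) = rb σ := by
    intro φ σ
    ext i j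
    have h1 := congrFun (congrFun (hlift σ) i) j
    simp only [Matrix.map_apply] at h1
    exact fst_tanHom_eq_of_map DQ.instIsLocalHom φ (rR σ i j) (rb σ i j) h1
  have hequiv : ∀ φ : TanHom 𝒪 DQ.R, Nonempty (GaloisRepAdic.Equiv
      (DQ.ρ.baseChangeAlong (φ : DQ.R →+* DualNumber (ResidueField 𝒪)) (isLocalHom_tanHom φ))
      (Fermat.Agent.S53.toAdic (rφ φ) (hcont φ))) := by
    intro φ
    obtain ⟨e2⟩ := Fermat.Agent.S53.baseChangeAlong_toAdic
      (φ : DQ.R →+* DualNumber (ResidueField 𝒪)) (isLocalHom_tanHom φ) rR hrR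
    exact ⟨(eR.baseChangeAlong (φ : DQ.R →+* DualNumber (ResidueField 𝒪))
      (isLocalHom_tanHom φ)).trans e2⟩
  have hcoord : ∀ φ : TanHom 𝒪 DQ.R, ∃ F :
      (DQ.ρ.baseChangeAlong (φ : DQ.R →+* DualNumber (ResidueField 𝒪))
        (isLocalHom_tanHom φ)).V ≃ₗ[DualNumber (ResidueField 𝒪)]
        (Fin 2 → DualNumber (ResidueField 𝒪)),
      ∀ σ v, F ((DQ.ρ.baseChangeAlong (φ : DQ.R →+* DualNumber (ResidueField 𝒪))
        (isLocalHom_tanHom φ)).ρ σ v) = (rφ φ σ).mulVec (F v) := by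
    intro φ
    obtain ⟨e3⟩ := hequiv φ
    exact ⟨e3.toLinearEquiv, fun σ v => e3.map_apply σ v⟩
  have hliftφ : ∀ φ σ, (rφ φ σ).map (residue (DualNumber (ResidueField 𝒪))) =
      (rb σ).map (ResidueField.map (algebraMap 𝒪 (DualNumber (ResidueField 𝒪)))) := by
    intro φ σ
    ext i j
    simp only [Matrix.map_apply]
    rw [residue_dualNumber_eq]
    congr 1
    exact congrFun (congrFun (h0 φ σ) i) j
  have hresφ : ∀ φ : TanHom 𝒪 DQ.R,
      (DQ.ρ.baseChangeAlong (φ : DQ.R →+* DualNumber (ResidueField 𝒪))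
        (isLocalHom_tanHom φ)).residual.IsEquiv
      (ρbar.baseChangeAlong
        (ResidueField.map (algebraMap 𝒪 (DualNumber (ResidueField 𝒪))))) := by
    intro φ
    obtain ⟨e3⟩ := hequiv φ
    obtain ⟨e4⟩ := Fermat.Agent.S53.residual_isEquiv_of_lift ρbar rb hrb ⟨e⟩ (rφ φ) (hcont φ)
      (hliftφ φ)
    exact ⟨e3.residual.trans e4⟩
  -- non-surjective tangent vectors have vanishing `ε`-part
  have hsnd : ∀ φ : TanHom 𝒪 DQ.R, ¬ Function.Surjective φ → ∀ x, TrivSqZeroExt.snd (φ x) = 0 := by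
    intro φ hφ x
    by_contra hx
    exact hφ (tanHom_surjective_of_snd_ne_zero φ x hx)
  refine ⟨fun φ => coc ρbar E (rφ φ) rb, fun φ => ?_, fun φ φ' hcob => ?_⟩
  · by_cases hs : Function.Surjective φ
    · left
      have h𝒟 := hbc DQ φ (isLocalHom_tanHom φ) hs
      obtain ⟨F, hF⟩ := hcoord φ
      refine ⟨isAdCocycle_coc hE (h0 φ) ?_ (hcont φ), _, isLiftOf_coc hE (h0 φ) (hcont φ) _ F hF,
        h𝒟⟩
      exact snd_det_eq_zero p hp _ (hdet _ h𝒟) (rφ φ) F hF
    · right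
      funext σ
      have hm1 : m1 (rφ φ σ) = 0 := by
        ext i j
        exact hsnd φ hs _
      show matToEnd E (cocMat rb (rφ φ) σ) = 0
      rw [cocMat_eq_zero_of_m1 σ hm1, map_zero]
  · -- injectivity modulo coboundaries
    obtain ⟨m, hm⟩ := hcob
    have hM : ∀ σ, cocMat rb (rφ φ) σ - cocMat rb (rφ φ') σ =
        rb σ * (matToEnd E).symm m * rb σ⁻¹ - (matToEnd E).symm m := by
      intro σ
      apply (matToEnd E).injective
      rw [map_sub, map_sub, map_mul, map_mul, RingEquiv.apply_symm_apply,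
        ← rho_eq_matToEnd hE, ← rho_eq_matToEnd hE]
      exact hm σ
    have hconj : (Fermat.Agent.S53.toAdic (rφ φ) (hcont φ)).IsEquiv
        (Fermat.Agent.S53.toAdic (rφ φ') (hcont φ')) := by
      rw [Fermat.Agent.S53.toAdic_isEquiv_iff]
      exact ⟨dunit ((matToEnd E).symm m), fun σ =>
        dmk_mul_eq_of_coboundary (h0 φ) (h0 φ') _ hM σ⟩
    obtain ⟨e1⟩ := hequiv φ
    obtain ⟨e2⟩ := hequiv φ'
    obtain ⟨e3⟩ := hconj
    have hφφ' : GaloisRepAdic.Equiv
        (DQ.ρ.baseChangeAlong (φ : DQ.R →+* DualNumber (ResidueField 𝒪)) (isLocalHom_tanHom φ))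
        (DQ.ρ.baseChangeAlong (φ' : DQ.R →+* DualNumber (ResidueField 𝒪))
          (isLocalHom_tanHom φ')) := (e1.trans e3).trans e2.symm
    haveI := isAdicComplete_dualNumber (ResidueField 𝒪)
    by_cases hs' : Function.Surjective φ'
    · have huniv := DQ.universal (DualNumber (ResidueField 𝒪)) (residue_tanAlgebra_surjective 𝒪)
        _ (hbc DQ φ' (isLocalHom_tanHom φ') hs') (hresφ φ')
      exact huniv.unique ⟨isLocalHom_tanHom φ, ⟨hφφ'⟩⟩
        ⟨isLocalHom_tanHom φ', ⟨GaloisRepAdic.Equiv.refl _⟩⟩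
    · by_cases hs : Function.Surjective φ
      · have huniv := DQ.universal (DualNumber (ResidueField 𝒪))
          (residue_tanAlgebra_surjective 𝒪) _ (hbc DQ φ (isLocalHom_tanHom φ) hs) (hresφ φ)
        exact huniv.unique ⟨isLocalHom_tanHom φ, ⟨GaloisRepAdic.Equiv.refl _⟩⟩
          ⟨isLocalHom_tanHom φ', ⟨hφφ'.symm⟩⟩
      · exact tanHom_eq_of_snd_eq_zero DQ.residue_surjective φ φ' (hsnd φ hs) (hsnd φ' hs')

/-- **(DICT-ord)**. -/
theorem dictOrd : DictOrdStatement := by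
  intro 𝒪 _ _ _ _ _ p ρbar S Smin hyp Q
  refine dict_of 𝒪 ρbar (ordCond 𝒪 p Smin Q) p hyp.hp (fun ρ' h => h.1.1) ?_
  intro DQ φ hφ _
  exact ⟨Fermat.Agent.S56.H966.strictOrdinaryCondition_baseChangeAlong 𝒪 _ hφ DQ.isOfType.1,
    fun q hq hqp hne => Fermat.Agent.S56.H966.isUnipotentOnInertiaAt_baseChangeAlong _ hφ
      (DQ.isOfType.2 q hq hqp hne)⟩

/-- **(DICT-flat)**. -/
theorem dictFlat : DictFlatStatement := by
  intro 𝒪 _ _ _ _ _ p ρbar S Smin hyp Q
  refine dict_of 𝒪 ρbar (flatCond 𝒪 p Smin Q) p hyp.hp (fun ρ' h => h.1.1) ?_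
  intro DQ φ hφ hs
  exact ⟨Fermat.Agent.S56.H966.flatCondition_baseChangeAlong_of_surjective 𝒪 _ hφ hs
      DQ.isOfType.1,
    fun q hq hqp hne => Fermat.Agent.S56.H966.isUnipotentOnInertiaAt_baseChangeAlong _ hφ
      (DQ.isOfType.2 q hq hqp hne)⟩

end Assembly

end

end Fermat.Agent.S56.H596

end
-- ===== PACK-END S56/H596/Dict.lean

-- ===== PACK-BEGIN S55/H901/H1FinBound.lean
section



/-!
# S55 / G5: the bound field

For a number field `L ⊂ ℚ̄` and `n > 0` there is ONE finite extension `Lmax ⊇ L` containing every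
`β ∈ ℚ̄` with `βⁿ ∈ L` that lies in some finite Galois extension of `ℚ` unramified outside `S`
(in the sense of the Prelude).  This is Kummer theory + finiteness of the Selmer group `L(S, n)`.

The translation "Prelude-unramified ⇒ classically unramified (`e = 1`)" is isolated as the
hypothesis `UnramClassicalSpec S` (piece B10-classical of layer B).
-/

set_option autoImplicit false
set_option linter.style.haveILetI false
set_option linter.unusedSectionVars false

open IsDedekindDomain HeightOneSpectrum IntermediateField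
open scoped NumberField

namespace Fermat.Agent.S55.H901

/-- A finite subextension of `ℚ̄/ℚ` is a number field. -/
theorem numberField_of_finiteDimensional (F : IntermediateField ℚ (AlgebraicClosure ℚ))
    [FiniteDimensional ℚ F] : NumberField F :=
  { to_charZero := inferInstance, to_finiteDimensional := inferInstance }

/-- Classical unramifiedness outside `S` of the number field `F`: every finite prime of `F` whose
residue characteristic is not in `S` has ramification index `1` over `ℤ`. -/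
def ClassicalUnram (S : Finset Nat.Primes) (F : Type*) [Field F] [NumberField F] : Prop :=
  ∀ (w : HeightOneSpectrum (𝓞 F)) (q : ℕ), q.Prime → (∀ s ∈ S, (s : ℕ) ≠ q) →
    ((q : ℕ) : 𝓞 F) ∈ w.asIdeal → (Ideal.span {(q : ℤ)}).ramificationIdx' w.asIdeal = 1

/-- **B10-classical** (interface): a finite Galois extension of `ℚ` inside `ℚ̄` which is
unramified outside `S` in the sense of the Prelude is classically unramified outside `S`. -/
def UnramClassicalSpec (S : Finset Nat.Primes) : Prop :=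
  ∀ (F : IntermediateField ℚ (AlgebraicClosure ℚ)) [NumberField F],
    F.IsUnramifiedOutside S → IsGalois ℚ F → ClassicalUnram S F

/-- The primes of a number field above a finite set of rational primes form a finite set. -/
theorem finite_primes_above (S : Finset Nat.Primes) (L : Type*) [Field L] [NumberField L] :
    {v : HeightOneSpectrum (𝓞 L) | ∃ q ∈ S, (((q : Nat.Primes) : ℕ) : 𝓞 L) ∈ v.asIdeal}.Finite := by
  have : {v : HeightOneSpectrum (𝓞 L) | ∃ q ∈ S, (((q : Nat.Primes) : ℕ) : 𝓞 L) ∈ v.asIdeal} =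
      ⋃ q ∈ S, {v : HeightOneSpectrum (𝓞 L) |
        v.asIdeal ∣ Ideal.span {(((q : Nat.Primes) : ℕ) : 𝓞 L)}} := by
    ext v
    simp only [Set.mem_ofPred_eq, Set.mem_iUnion, exists_prop, Ideal.dvd_iff_le,
      Ideal.span_singleton_le_iff_mem]
  rw [this]
  refine Set.Finite.biUnion S.finite_toSet (fun q _ => Ideal.finite_factors ?_)
  rw [Ne, Ideal.zero_eq_bot, Ideal.span_singleton_eq_bot]
  exact_mod_cast q.2.ne_zero

/-- **The bound field.** -/
theorem exists_bound_field (S : Finset Nat.Primes) (hB : UnramClassicalSpec S) {n : ℕ}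
    (hn : 0 < n) (L : IntermediateField ℚ (AlgebraicClosure ℚ)) [FiniteDimensional ℚ L] :
    ∃ Lmax : IntermediateField ℚ (AlgebraicClosure ℚ), FiniteDimensional ℚ Lmax ∧ L ≤ Lmax ∧
      ∀ F : IntermediateField ℚ (AlgebraicClosure ℚ), F.IsUnramifiedOutside S → IsGalois ℚ F →
        L ≤ F → ∀ β : AlgebraicClosure ℚ, β ∈ F → β ≠ 0 → β ^ n ∈ L → β ∈ Lmax := by
  classical
  haveI : NumberField L := numberField_of_finiteDimensional L
  obtain ⟨R, hR⟩ := exists_finset_selmer_reps (F := L) (finite_primes_above S L) hn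
  set W : Set (AlgebraicClosure ℚ) :=
    {x | ∃ r ∈ R, x ^ n = (((r : Lˣ) : L) : AlgebraicClosure ℚ)} with hWdef
  have hW : W.Finite := by
    have : W = ⋃ r ∈ R, {x : AlgebraicClosure ℚ | x ^ n = (((r : Lˣ) : L) : AlgebraicClosure ℚ)} := by
      ext x
      simp only [hWdef, Set.mem_ofPred_eq, Set.mem_iUnion, exists_prop]
    rw [this]
    refine Set.Finite.biUnion R.finite_toSet (fun r _ => ?_)
    refine Set.Finite.subset (Polynomial.nthRoots n
      (((r : Lˣ) : L) : AlgebraicClosure ℚ)).toFinset.finite_toSet ?_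
    intro x hx
    simpa [Polynomial.mem_nthRoots hn] using hx
  haveI : Finite W := hW.to_subtype
  haveI : FiniteDimensional ℚ (adjoin ℚ W) :=
    finiteDimensional_adjoin (K := ℚ)
      (fun x _ => ((AlgebraicClosure.isAlgebraic ℚ).isAlgebraic x).isIntegral)
  refine ⟨L ⊔ adjoin ℚ W, finiteDimensional_sup _ _, le_sup_left, ?_⟩
  intro F hF hgal hLF β hβF hβ0 hβL
  haveI := hF.1
  haveI : NumberField F := numberField_of_finiteDimensional F
  letI : Algebra L F := (inclusion hLF).toRingHom.toAlgebra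
  have hb0 : (⟨β ^ n, hβL⟩ : L) ≠ 0 := by
    intro h
    have := congrArg (Subtype.val) h
    exact pow_ne_zero n hβ0 this
  have key : ∀ v : HeightOneSpectrum (𝓞 L),
      v ∉ {v : HeightOneSpectrum (𝓞 L) | ∃ q ∈ S, (((q : Nat.Primes) : ℕ) : 𝓞 L) ∈ v.asIdeal} →
      (n : ℤ) ∣ Multiplicative.toAdd (v.valuationOfNeZero (Units.mk0 _ hb0)) := by
    intro v hv
    refine dvd_toAdd_valuationOfNeZero_of_unramified (K := L) (E := F)
      {q : ℕ | ∃ s ∈ S, ((s : Nat.Primes) : ℕ) = q} ?_ v ?_ n (Units.mk0 _ hb0) ⟨β, hβF⟩ ?_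
    · intro w q hq hqS hqw
      exact hB F hF hgal w q hq (fun s hs h => hqS ⟨s, hs, h⟩) hqw
    · rintro q ⟨s, hs, rfl⟩ hmem
      exact hv ⟨s, hs, hmem⟩
    · apply Subtype.ext
      rfl
  obtain ⟨r, hr, y, hy⟩ := hR _ key
  have hy' : β ^ n = (((r : Lˣ) : L) : AlgebraicClosure ℚ) * (((y : Lˣ) : L) : AlgebraicClosure ℚ) ^ n := by
    have := congrArg (fun u : Lˣ => (((u : Lˣ) : L) : AlgebraicClosure ℚ)) hy
    simpa using this
  have hy0 : (((y : Lˣ) : L) : AlgebraicClosure ℚ) ≠ 0 := by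
    intro h
    exact y.ne_zero (Subtype.ext h)
  have hmemW : β / (((y : Lˣ) : L) : AlgebraicClosure ℚ) ∈ W := by
    refine ⟨r, hr, ?_⟩
    rw [div_pow, hy', mul_div_assoc, div_self (pow_ne_zero n hy0), mul_one]
  have h1 : β / (((y : Lˣ) : L) : AlgebraicClosure ℚ) ∈ L ⊔ adjoin ℚ W :=
    (le_sup_right : adjoin ℚ W ≤ L ⊔ adjoin ℚ W) (subset_adjoin ℚ W hmemW)
  have h2 : (((y : Lˣ) : L) : AlgebraicClosure ℚ) ∈ L ⊔ adjoin ℚ W :=
    (le_sup_left : L ≤ L ⊔ adjoin ℚ W) (y : L).2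
  have := mul_mem h1 h2
  rwa [div_mul_cancel₀ _ hy0] at this

end Fermat.Agent.S55.H901

end
-- ===== PACK-END S55/H901/H1FinBound.lean

-- ===== PACK-BEGIN S55/Local/H535/A4b.lean
section


/-!
# S55 layer L, piece A4b (`CycCocycleCoboundaryIffStatement`) — helper535

The standard cyclic `2`-cocycle of `x` is a coboundary iff `x` is a norm.
-/

set_option autoImplicit false

namespace Fermat.Agent.S55.Local.H535

open Fermat.Agent.S55.Local groupCohomology Finset

section

variable {G M : Type} [Group G] [CommGroup M] [MulDistribMulAction G M]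

/-- Partial norm `∏_{k<m} σ^k • y`. -/
def partialNorm (σ : G) (y : M) (m : ℕ) : M := ∏ k ∈ range m, σ ^ k • y

lemma partialNorm_add (σ : G) (y : M) (a b : ℕ) :
    partialNorm σ y (a + b) = partialNorm σ y a * σ ^ a • partialNorm σ y b := by
  unfold partialNorm
  rw [prod_range_add, smul_prod']
  congr 1
  apply prod_congr rfl
  intro k _
  rw [pow_add, mul_smul]

lemma div_one_case {n a : ℕ} (h1 : n ≤ a) (h2 : a < 2 * n) : a / n = 1 := by
  apply Nat.div_eq_of_lt_le
  · simpa using h1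
  · simpa [two_mul] using h2

lemma mod_one_case {n a : ℕ} (h1 : n ≤ a) (h2 : a < 2 * n) : a % n = a - n := by
  rw [Nat.mod_eq_sub_mod h1]
  apply Nat.mod_eq_of_lt
  omega

end

/-- **A4b.** The standard cyclic `2`-cocycle of `x` is a coboundary iff `x` is a norm. -/
theorem cycCocycleCoboundaryIff :
    Fermat.Agent.S55.Local.CycCocycleCoboundaryIffStatement := by
  intro G M _ _ _ _ σ hσ x hx
  have hn : 0 < Nat.card G := Nat.card_pos
  have hinv : ∀ (g : G) (m : ℕ), g • x ^ m = x ^ m := fun g m => by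
    rw [smul_pow', smul_eq_of_generator hσ hx]
  constructor
  · -- coboundary ⇒ norm
    rintro ⟨b, hb⟩
    rcases Nat.lt_or_ge (Nat.card G) 2 with h1 | h2
    · -- trivial group
      have hc : Nat.card G = 1 := by omega
      refine ⟨x, ?_⟩
      rw [prod_univ_eq_prod_range hσ, hc]
      simp
    · refine ⟨b σ, ?_⟩
      have hrel : ∀ g : G, g • b σ = cycCocycle σ x (g, σ) * b (g * σ) / b g := by
        intro g
        rw [← hb g σ]
        apply Additive.ofMul.injective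
        simp only [ofMul_mul, ofMul_div]
        abel
      have hshift : ∏ g : G, b (g * σ) = ∏ g : G, b g :=
        Equiv.prod_comp (Equiv.mulRight σ) b
      calc ∏ g : G, g • b σ = ∏ g : G, (cycCocycle σ x (g, σ) * b (g * σ) / b g) :=
            prod_congr rfl (fun g _ => hrel g)
        _ = (∏ g : G, cycCocycle σ x (g, σ)) * (∏ g : G, b (g * σ)) / ∏ g : G, b g := by
            rw [prod_div_distrib, prod_mul_distrib]
        _ = ∏ g : G, cycCocycle σ x (g, σ) := by
            rw [hshift, mul_div_assoc, div_self', mul_one]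
        _ = ∏ k ∈ range (Nat.card G), cycCocycle σ x (σ ^ k, σ) :=
            prod_univ_eq_prod_range hσ _
        _ = x := by
            obtain ⟨m, hm⟩ : ∃ m, Nat.card G = m + 1 := ⟨Nat.card G - 1, by omega⟩
            rw [hm, prod_range_succ]
            have h3 : ∀ k ∈ range m, cycCocycle σ x (σ ^ k, σ) = 1 := by
              intro k hk
              rw [mem_range] at hk
              rw [cycCocycle_apply, cycIdx_pow_of_lt hσ (by omega), cycIdx_self hσ h2,
                Nat.div_eq_of_lt (by omega), pow_zero]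
            rw [prod_eq_one h3, one_mul, cycCocycle_apply, cycIdx_pow_of_lt hσ (by omega),
              cycIdx_self hσ h2, ← hm, Nat.div_self hn, pow_one]
  · -- norm ⇒ coboundary
    rintro ⟨y, hy⟩
    have hPn : partialNorm σ y (Nat.card G) = x := by
      rw [← hy, prod_univ_eq_prod_range hσ]
      rfl
    have hPnq : ∀ q : ℕ, partialNorm σ y (Nat.card G * q) = x ^ q := by
      intro q
      induction q with
      | zero => simp [partialNorm]
      | succ q ih =>
        rw [mul_add, mul_one, partialNorm_add, ih, hPn, smul_eq_of_generator hσ hx, pow_succ]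
    refine ⟨fun g => partialNorm σ y (cycIdx σ g), fun g h => ?_⟩
    simp only [cycCocycle_apply, cycIdx_mul hσ]
    set i := cycIdx σ g
    set j := cycIdx σ h
    have hg : g = σ ^ i := (pow_cycIdx hσ g).symm
    have h1 : partialNorm σ y (i + j) = partialNorm σ y i * g • partialNorm σ y j := by
      rw [partialNorm_add, ← hg]
    have h2 : partialNorm σ y (i + j) =
        partialNorm σ y ((i + j) % Nat.card G) * x ^ ((i + j) / Nat.card G) := by
      conv_lhs => rw [← Nat.mod_add_div (i + j) (Nat.card G)]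
      rw [partialNorm_add, hPnq, hinv]
    rw [h2] at h1
    have e : g • partialNorm σ y j / partialNorm σ y ((i + j) % Nat.card G) * partialNorm σ y i
        = (partialNorm σ y i * g • partialNorm σ y j) /
            partialNorm σ y ((i + j) % Nat.card G) := by
      apply Additive.ofMul.injective
      simp only [ofMul_mul, ofMul_div]
      abel
    rw [e, ← h1, mul_div_cancel_left]

end Fermat.Agent.S55.Local.H535

end
-- ===== PACK-END S55/Local/H535/A4b.lean

-- ===== PACK-BEGIN S55/Local/H542/CycCob.lean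
section
/-
S55, layer L, piece A4b (helper542): the standard cyclic 2-cocycle of `x` is a coboundary iff
`x` is a norm.

  theorem cycCocycleCoboundaryIff : Fermat.Agent.S55.Local.CycCocycleCoboundaryIffStatement
-/


set_option autoImplicit false

namespace Fermat.Agent.S55.Local.H542

open Fermat.Agent.S55.Local groupCohomology

section

variable {G M : Type} [Group G] [CommGroup M] [MulDistribMulAction G M]

/-- The partial norms `P j = ∏_{k<j} σ^k • y`. -/
noncomputable def cycP (σ : G) (y : M) (j : ℕ) : M :=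
  ∏ k ∈ Finset.range j, σ ^ k • y

theorem cycP_zero (σ : G) (y : M) : cycP σ y 0 = 1 := by
  simp [cycP]

theorem cycP_succ (σ : G) (y : M) (j : ℕ) : cycP σ y (j + 1) = cycP σ y j * σ ^ j • y := by
  simp [cycP, Finset.prod_range_succ]

theorem cycP_add (σ : G) (y : M) (i j : ℕ) :
    cycP σ y (i + j) = cycP σ y i * σ ^ i • cycP σ y j := by
  induction j with
  | zero => simp [cycP_zero]
  | succ j ih =>
    rw [← add_assoc, cycP_succ, ih, cycP_succ, smul_mul', pow_add, mul_smul, mul_assoc]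

theorem smul_pow_eq_of_smul_eq {σ : G} {x : M} (hx : σ • x = x) (k : ℕ) : σ ^ k • x = x := by
  induction k with
  | zero => simp
  | succ k ih => rw [pow_succ, mul_smul, hx, ih]

end

section

variable {G M : Type} [Group G] [Fintype G] [CommGroup M] [MulDistribMulAction G M]
variable (σ : G) (hσ : ∀ g, g ∈ Subgroup.zpowers σ)

include hσ

/-- The norm as a product over the powers of the generator. -/
theorem prod_univ_smul_eq_cycP (y : M) : ∏ g : G, g • y = cycP σ y (Nat.card G) := by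
  symm
  unfold cycP
  refine Finset.prod_nbij' (fun k => σ ^ k) (fun g => cycIdx σ g) ?_ ?_ ?_ ?_ ?_
  · intro k _; exact Finset.mem_univ _
  · intro g _; exact Finset.mem_range.mpr (cycIdx_lt_card σ hσ g)
  · intro k hk
    apply cycIdx_pow_of_lt
    rw [orderOf_eq_card_of_generator σ hσ]
    exact Finset.mem_range.mp hk
  · intro g _; exact pow_cycIdx σ hσ g
  · intro k _; rfl

omit hσ in
theorem cycP_add_card_mul {y x : M} (hy : cycP σ y (Nat.card G) = x) (hx : σ • x = x)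
    (k q : ℕ) : cycP σ y (k + Nat.card G * q) = cycP σ y k * x ^ q := by
  induction q with
  | zero => simp
  | succ q ih =>
    rw [Nat.mul_succ, ← Nat.add_assoc, cycP_add, ih, hy, smul_pow_eq_of_smul_eq hx, pow_succ,
      mul_assoc]

theorem isMulCoboundary₂_cycCocycle_of_norm {x : M} (hx : σ • x = x) {y : M}
    (hy : ∏ g : G, g • y = x) : IsMulCoboundary₂ (cycCocycle σ x) := by
  rw [prod_univ_smul_eq_cycP σ hσ] at hy
  refine ⟨fun g => cycP σ y (cycIdx σ g), fun g h => ?_⟩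
  simp only [cycCocycle]
  have h1 := cycP_add σ y (cycIdx σ g) (cycIdx σ h)
  rw [pow_cycIdx σ hσ g] at h1
  have hsplit := cycIdx_add_eq σ hσ g h
  rw [hsplit, cycP_add_card_mul σ hy hx] at h1
  -- h1 : P (idx gh) * x ^ q = P (idx g) * g • P (idx h)
  rw [div_mul_eq_mul_div, div_eq_iff_eq_mul, mul_comm (g • _), ← h1, mul_comm]

theorem cycIdx_self_of_one_lt (h1 : 1 < Nat.card G) : cycIdx σ σ = 1 := by
  have := cycIdx_pow_of_lt σ (k := 1) (by rw [orderOf_eq_card_of_generator σ hσ]; exact h1)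
  simpa using this

theorem norm_of_isMulCoboundary₂_cycCocycle {x : M}
    (hcob : IsMulCoboundary₂ (cycCocycle σ x)) : ∃ y : M, ∏ g : G, g • y = x := by
  obtain ⟨b, hb⟩ := hcob
  rcases Nat.lt_or_ge 1 (Nat.card G) with h1 | h1
  · -- `n ≥ 2`
    refine ⟨b σ, ?_⟩
    rw [prod_univ_smul_eq_cycP σ hσ]
    have hk : ∀ k ∈ Finset.range (Nat.card G),
        σ ^ k • b σ = x ^ ((k + 1) / Nat.card G) * (b (σ ^ (k + 1)) / b (σ ^ k)) := by
      intro k hk
      have h := hb (σ ^ k) σ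
      simp only [cycCocycle] at h
      have hklt : k < orderOf σ := by
        rw [orderOf_eq_card_of_generator σ hσ]
        exact Finset.mem_range.mp hk
      rw [cycIdx_pow_of_lt σ hklt, cycIdx_self_of_one_lt σ hσ h1, ← pow_succ] at h
      rw [← h]
      simp only [div_eq_mul_inv]
      have e : ∀ a b c : M, a = a * b⁻¹ * c * (b * c⁻¹) := by
        intro a b c
        have : a * b⁻¹ * c * (b * c⁻¹) = a * (b⁻¹ * b) * (c * c⁻¹) := by ac_rfl
        rw [this]; simp
      exact e _ _ _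
    unfold cycP
    have htel : ∏ k ∈ Finset.range (Nat.card G), b (σ ^ (k + 1)) / b (σ ^ k) =
        b (σ ^ Nat.card G) / b (σ ^ 0) :=
      Finset.prod_range_div (fun k => b (σ ^ k)) (Nat.card G)
    rw [Finset.prod_congr rfl hk, Finset.prod_mul_distrib, htel,
      pow_card_eq_one_of_generator σ hσ, pow_zero, div_self', mul_one]
    obtain ⟨m, hm⟩ : ∃ m, Nat.card G = m + 1 := ⟨Nat.card G - 1, by omega⟩
    rw [hm, Finset.prod_range_succ, ← hm, Nat.div_self (by omega), pow_one]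
    have hz : ∀ k ∈ Finset.range m, x ^ ((k + 1) / Nat.card G) = 1 := by
      intro k hk
      have : k + 1 < Nat.card G := by
        have := Finset.mem_range.mp hk
        omega
      rw [Nat.div_eq_of_lt this, pow_zero]
    rw [Finset.prod_congr rfl hz, Finset.prod_const_one, one_mul]
  · -- `n = 1`
    refine ⟨x, ?_⟩
    have hcard : Nat.card G = 1 := le_antisymm h1 Nat.card_pos
    rw [prod_univ_smul_eq_cycP σ hσ, hcard]
    simp [cycP]

end

theorem cycCocycleCoboundaryIff : CycCocycleCoboundaryIffStatement := by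
  intro G M _ _ _ _ σ hσ x hx
  exact ⟨norm_of_isMulCoboundary₂_cycCocycle σ hσ,
    fun ⟨_, hy⟩ => isMulCoboundary₂_cycCocycle_of_norm σ hσ hx hy⟩

end Fermat.Agent.S55.Local.H542

end
-- ===== PACK-END S55/Local/H542/CycCob.lean

-- ===== PACK-BEGIN S56/P3/Glue.lean
section


/-!
# S56, piece P3 : top glue (sorry-free)

`twElement_of_pieces : SEL → REG → CYC → CYCEXP → DETORD → Fermat.Agent.S56.TWElementStatement`.
-/

set_option autoImplicit false

open Polynomial IsLocalRing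

namespace Fermat.Agent.S56.P3

/-- In a field, `DetIsCyclotomic p` forces `p = 0`. -/
theorem natCast_eq_zero_of_detIsCyclotomic {k : Type} [Field k] {p : ℕ}
    {ρbar : ResidualGaloisRep k}
    (hdet : (GaloisRepAdic.ofResidualGaloisRep ρbar).DetIsCyclotomic p) : (p : k) = 0 := by
  have h := hdet.1
  rwa [IsLocalRing.maximalIdeal_eq_bot, Ideal.mem_bot] at h

/-- (DET) `det ρ̄ σ` is any cyclotomic exponent of `σ` on `μ_p`. -/
theorem det_eq_of_isCycExp {k : Type} [Field k] {p : ℕ} {ρbar : ResidualGaloisRep k}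
    (hdet : (GaloisRepAdic.ofResidualGaloisRep ρbar).DetIsCyclotomic p) {σ : _root_.Fermat.Agent.S56.P3.GQ} {a : ℕ}
    (h : Fermat.Agent.S56.IsCycExp p σ a) : LinearMap.det (ρbar.ρ σ) = (a : k) := by
  have hp0 : (p : k) = 0 := natCast_eq_zero_of_detIsCyclotomic hdet
  have h1 := hdet.2 1 σ a (fun μ hμ => h μ (by simpa using hμ))
  have h0 : ((p ^ 1 : ℕ) : k) = 0 := by simpa using hp0
  rw [h0, Ideal.mem_span_singleton, zero_dvd_iff, sub_eq_zero] at h1
  exact h1

/-- `σ` fixing `μ_{p^(n+1)}` has cyclotomic exponent `1` on `μ_p`. -/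
theorem isCycExp_one_of_fixesRoots {p n : ℕ} {σ : _root_.Fermat.Agent.S56.P3.GQ} (h : FixesRoots p n σ) :
    Fermat.Agent.S56.IsCycExp p σ 1 := by
  intro μ hμ
  rw [pow_one]
  refine h μ ?_
  rw [pow_succ', pow_mul, hμ, one_pow]

/-- (HYP) the S56 hypotheses give the abstract package `TWHyp`. -/
theorem twHyp_of_hyp {𝒪 : Type} [CommRing 𝒪] [IsDomain 𝒪] [IsDiscreteValuationRing 𝒪]
    {p : ℕ} {ρbar : ResidualGaloisRep (ResidueField 𝒪)} {S Smin : Finset ℕ}
    (H : Fermat.Agent.S56.Hyp 𝒪 p ρbar S Smin) : TWHyp ρbar.ρ p where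
  finrank_eq := ρbar.finrank_eq
  char_p := natCast_eq_zero_of_detIsCyclotomic H.hdet
  absIrr := fun W hW => H.habs W hW
  tw := fun K _ _ G hG W hW => H.hTW K G hG W hW
  split := H.hsplit

/-- a cocycle in the sense of the row interface is a cocycle in End-form. -/
theorem isTwCocycle_of_row {k : Type} [Field k] {p : ℕ} {ρbar : ResidualGaloisRep k}
    (hdet : (GaloisRepAdic.ofResidualGaloisRep ρbar).DetIsCyclotomic p)
    (hexp : ∀ σ : _root_.Fermat.Agent.S56.P3.GQ, ∃ a : ℕ, Fermat.Agent.S56.IsCycExp p σ a)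
    {c : _root_.Fermat.Agent.S56.P3.GQ → Module.End k ρbar.V} (hc : Fermat.Agent.S56.IsTwCocycle ρbar p c) :
    _root_.Fermat.Agent.S56.P3.IsTwCocycle ρbar.ρ c where
  trace_zero := hc.trace_eq_zero
  map_mul := by
    intro g h
    obtain ⟨a, ha⟩ := hexp g
    rw [hc.map_mul g h a ha, twEnd, det_eq_of_isCycExp hdet ha]
    rfl

/-- a coboundary in End-form is a coboundary in the sense of the row interface. -/
theorem row_isTwCoboundary {k : Type} [Field k] {p : ℕ} {ρbar : ResidualGaloisRep k}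
    (hdet : (GaloisRepAdic.ofResidualGaloisRep ρbar).DetIsCyclotomic p)
    {c : _root_.Fermat.Agent.S56.P3.GQ → Module.End k ρbar.V} (hc : _root_.Fermat.Agent.S56.P3.IsTwCoboundary ρbar.ρ c) :
    Fermat.Agent.S56.IsTwCoboundary ρbar p c := by
  obtain ⟨m, hm, h⟩ := hc
  refine ⟨m, hm, fun σ _ a ha => ?_⟩
  rw [h σ, twEnd, det_eq_of_isCycExp hdet ha]
  rfl

/-- **P3 from its pieces.** -/
theorem twElement_of_pieces (hsel : AbstractTWElementStatement) (hreg : ExistsRegularStatement)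
    (hcyc : CycloQuotientStatement) (hexp : CycExpExistsStatement) (hord : DetOrderStatement) :
    Fermat.Agent.S56.TWElementStatement := by
  intro 𝒪 _ _ _ _ _ p ρbar S Smin H
  haveI : Fact p.Prime := ⟨H.hp⟩
  have hT : TWHyp ρbar.ρ p := twHyp_of_hyp H
  refine ⟨fun c hc hnc n => ?_, fun n => ?_⟩
  · obtain ⟨hN, hC⟩ := hcyc p H.hp2 n
    have hdet1 : ∀ δ ∈ fixRootsSubgroup p n, LinearMap.det (ρbar.ρ δ) = 1 := by
      intro δ hδ
      rw [det_eq_of_isCycExp H.hdet (isCycExp_one_of_fixesRoots hδ), Nat.cast_one]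
    obtain ⟨σ, hσΔ, hσreg, hσdet, hσ⟩ :=
      hsel (ResidueField 𝒪) ρbar.V _root_.Fermat.Agent.S56.P3.GQ ρbar.ρ p H.hp2 hT (fixRootsSubgroup p n) hC hdet1
        (hord (ResidueField 𝒪) p ρbar H.hdet) c
        (isTwCocycle_of_row H.hdet (hexp p) hc)
        (fun h => hnc (row_isTwCoboundary H.hdet h))
    refine ⟨σ, hσΔ, hσreg, fun m hm heq => hσ ⟨m, hm, ?_⟩⟩
    rw [twEnd, hσdet, one_smul]
    exact heq
  · obtain ⟨hN, hC⟩ := hcyc p H.hp2 n
    obtain ⟨σ, hσΔ, hσreg⟩ :=
      hreg (ResidueField 𝒪) ρbar.V _root_.Fermat.Agent.S56.P3.GQ ρbar.ρ p H.hp2 hT (fixRootsSubgroup p n) hC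
    exact ⟨σ, hσΔ, hσreg⟩

end Fermat.Agent.S56.P3

end
-- ===== PACK-END S56/P3/Glue.lean

-- ===== PACK-BEGIN S56/H254/FlatLift.lean
section



/-!
# S56 / W-FLAT, bridge piece FL-BR (LIFT, KER): flat tangent cocycles as flat modules (helper254)

For a residual representation `ρbar` over a finite field `k` and a function
`c : G_ℚ → End_k V`, the module `V_c := k[ε] ⊗_k V` with the action `σ ↦ liftEnd ρbar c σ
= (1 + ε c(σ)) ρ̄(σ)` is the module underlying every lift `ρ'` with `IsLiftOf ρbar c ρ'`.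

* `isFlatMod_of_isLiftOf` : `IsLiftOf ρbar c ρ'`, `ρ'.IsFlatAt p` ⟹ `IsFlatMod p V_c (liftEnd c)`
  (only the ideal `I = ⊥` of `IsFlatAt` is used);
* `isFlatMod_pair` : for two flat lifts, `V_{c₁} × V_{c₂}` is flat (PROD);
* `liftEnd_eq_one_iff` : (KER) `σ` acts trivially on `V_c` iff `ρ̄ σ = 1` and `c σ = 0`;
* `isFlatMod_residual` : the residual module `V` itself is flat (ideal `I = (ε)`) — not needed for
  the count but useful for the structure of `ρ̄|_{D_p}`.
-/

set_option autoImplicit false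

open scoped TensorProduct
open WithConv

noncomputable section

namespace Fermat.Agent.S56.H254

open Fermat.Agent.S56 Fermat.Agent.S56.H716

local notation "Qb" => AlgebraicClosure ℚ
local notation "Zloc" => GaloisRep.ratLocalizedAt

section components

variable {k : Type} [Field k] {V : Type} [AddCommGroup V] [Module k V]

/-- The `1`-component `k[ε] ⊗ V → V`. -/
def fstV : (DualNumber k ⊗[k] V) →ₗ[k] V :=
  (TensorProduct.lid k V).toLinearMap ∘ₗ
    LinearMap.rTensor V ((TrivSqZeroExt.fstHom k k k).toLinearMap)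

/-- The `ε`-component `k[ε] ⊗ V → V`. -/
def sndV : (DualNumber k ⊗[k] V) →ₗ[k] V :=
  (TensorProduct.lid k V).toLinearMap ∘ₗ LinearMap.rTensor V (TrivSqZeroExt.sndHom k k)

@[simp] theorem fstV_tmul (z : DualNumber k) (v : V) : fstV (z ⊗ₜ[k] v) = z.fst • v := by
  simp [fstV]

@[simp] theorem sndV_tmul (z : DualNumber k) (v : V) : sndV (z ⊗ₜ[k] v) = z.snd • v := by
  simp [sndV]

/-- The value of `f ⊗ 1 + ε • (g ⊗ 1)` on `1 ⊗ v`. -/
theorem baseChange_add_eps_apply (f g : Module.End k V) (v : V) :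
    (f.baseChange (DualNumber k) + (DualNumber.eps : DualNumber k) • g.baseChange (DualNumber k))
      ((1 : DualNumber k) ⊗ₜ[k] v)
      = (1 : DualNumber k) ⊗ₜ[k] f v + (DualNumber.eps : DualNumber k) ⊗ₜ[k] g v := by
  rw [LinearMap.add_apply, LinearMap.smul_apply, LinearMap.baseChange_tmul,
    LinearMap.baseChange_tmul, TensorProduct.smul_tmul', smul_eq_mul, mul_one]

/-- `f ⊗ 1 + ε • (g ⊗ 1) = 1` iff `f = 1` and `g = 0`. -/
theorem baseChange_add_eps_eq_one_iff (f g : Module.End k V) :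
    f.baseChange (DualNumber k) + (DualNumber.eps : DualNumber k) • g.baseChange (DualNumber k)
      = 1 ↔ f = 1 ∧ g = 0 := by
  constructor
  · intro h
    have key : ∀ v : V, (1 : DualNumber k) ⊗ₜ[k] f v + (DualNumber.eps : DualNumber k) ⊗ₜ[k] g v
        = (1 : DualNumber k) ⊗ₜ[k] v := by
      intro v
      rw [← baseChange_add_eps_apply, h]
      rfl
    refine ⟨LinearMap.ext fun v => ?_, LinearMap.ext fun v => ?_⟩
    · have := congrArg fstV (key v)
      rw [map_add, fstV_tmul, fstV_tmul, fstV_tmul, TrivSqZeroExt.fst_one, DualNumber.fst_eps,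
        one_smul, zero_smul, add_zero, one_smul] at this
      exact this
    · have := congrArg sndV (key v)
      rw [map_add, sndV_tmul, sndV_tmul, sndV_tmul, TrivSqZeroExt.snd_one, DualNumber.snd_eps,
        one_smul, zero_smul, zero_add, zero_smul] at this
      exact this
  · rintro ⟨rfl, rfl⟩
    have h0 : (DualNumber.eps : DualNumber k) •
        (0 : Module.End (DualNumber k) (DualNumber k ⊗[k] V)) = 0 := by
      refine LinearMap.ext fun x => ?_
      rw [LinearMap.smul_apply, LinearMap.zero_apply, smul_zero]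
    rw [LinearMap.baseChange_zero, h0, add_zero]
    exact LinearMap.baseChange_one (R := k) (A := DualNumber k) (M := V)

end components

section lift

variable {k : Type} [Field k] (ρbar : ResidualGaloisRep k)

/-- **(KER)** `σ` acts trivially on `V_c` iff `ρ̄ σ = 1` and `c σ = 0`. -/
theorem liftEnd_eq_one_iff (c : GQ → Module.End k ρbar.V) (σ : GQ) :
    liftEnd ρbar c σ = 1 ↔ ρbar.ρ σ = 1 ∧ c σ = 0 := by
  unfold liftEnd
  rw [baseChange_add_eps_eq_one_iff]
  constructor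
  · rintro ⟨h1, h2⟩
    refine ⟨h1, ?_⟩
    rw [h1, mul_one] at h2
    exact h2
  · rintro ⟨h1, h2⟩
    refine ⟨h1, ?_⟩
    rw [h1, h2, mul_one]

theorem finite_dualNumber [Finite k] : Finite (DualNumber k) := by
  have : Finite (k × k) := inferInstance
  exact Finite.of_injective (fun z : DualNumber k => (z.fst, z.snd))
    (fun a b h => TrivSqZeroExt.ext (congrArg Prod.fst h) (congrArg Prod.snd h))

variable {ρbar}

/-- **(LIFT)** the module of a flat lift of `c` is a flat Galois module. -/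
theorem isFlatMod_of_isLiftOf [Finite k] {p : ℕ} {c : GQ → Module.End k ρbar.V}
    {ρ' : GaloisRepAdic (DualNumber k)} (hlift : IsLiftOf ρbar c ρ') (hflat : ρ'.IsFlatAt p) :
    IsFlatMod p (DualNumber k ⊗[k] ρbar.V) (fun σ => liftEnd ρbar c σ) := by
  obtain ⟨e, he⟩ := hlift
  haveI : Finite (DualNumber k) := finite_dualNumber
  have hfin : Finite (DualNumber k ⧸ (⊥ : Ideal (DualNumber k))) :=
    Finite.of_surjective _ (Ideal.Quotient.mk_surjective (I := (⊥ : Ideal (DualNumber k))))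
  have h0 := ((isFlatAt_iff ρ' p).mp hflat).2 ⊥ hfin
  have hbot : ((⊥ : Ideal (DualNumber k)) • (⊤ : Submodule (DualNumber k) ρ'.V)) = ⊥ :=
    Submodule.bot_smul _
  let φ : (ρ'.V ⧸ ((⊥ : Ideal (DualNumber k)) • (⊤ : Submodule (DualNumber k) ρ'.V)))
      ≃ₗ[DualNumber k] (DualNumber k ⊗[k] ρbar.V) :=
    (Submodule.quotEquivOfEqBot _ hbot).trans e
  refine h0.of_equiv φ.toAddEquiv _ ?_
  intro σ x
  obtain ⟨v, rfl⟩ := Submodule.Quotient.mk_surjective _ x
  show e (Submodule.quotEquivOfEqBot _ hbot (ρ'.levelAction ⊥ σ (Submodule.Quotient.mk v)))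
    = liftEnd ρbar c σ (e (Submodule.quotEquivOfEqBot _ hbot (Submodule.Quotient.mk v)))
  have h1 : ρ'.levelAction ⊥ σ (Submodule.Quotient.mk v) = Submodule.Quotient.mk (ρ'.ρ σ v) := rfl
  rw [h1, Submodule.quotEquivOfEqBot_apply_mk, Submodule.quotEquivOfEqBot_apply_mk, he]

/-- **(PROD)** two flat tangent cocycles give a flat module `V_{c₁} × V_{c₂}`. -/
theorem isFlatMod_pair [Finite k] {p : ℕ} {c₁ c₂ : GQ → Module.End k ρbar.V}
    {ρ₁ ρ₂ : GaloisRepAdic (DualNumber k)} (h₁ : IsLiftOf ρbar c₁ ρ₁) (hf₁ : ρ₁.IsFlatAt p)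
    (h₂ : IsLiftOf ρbar c₂ ρ₂) (hf₂ : ρ₂.IsFlatAt p) :
    IsFlatMod p ((DualNumber k ⊗[k] ρbar.V) × (DualNumber k ⊗[k] ρbar.V))
      (fun σ x => (liftEnd ρbar c₁ σ x.1, liftEnd ρbar c₂ σ x.2)) :=
  (isFlatMod_of_isLiftOf h₁ hf₁).prod (isFlatMod_of_isLiftOf h₂ hf₂)

/-- **(KER)** for the pair module: `σ` acts trivially on `V_{c₁} × V_{c₂}` iff `ρ̄ σ = 1`,
`c₁ σ = 0` and `c₂ σ = 0`. -/
theorem pair_fixed_iff (c₁ c₂ : GQ → Module.End k ρbar.V) (σ : GQ) :
    (∀ x : (DualNumber k ⊗[k] ρbar.V) × (DualNumber k ⊗[k] ρbar.V),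
      (liftEnd ρbar c₁ σ x.1, liftEnd ρbar c₂ σ x.2) = x)
      ↔ ρbar.ρ σ = 1 ∧ c₁ σ = 0 ∧ c₂ σ = 0 := by
  constructor
  · intro h
    have h1 : liftEnd ρbar c₁ σ = 1 := by
      refine LinearMap.ext fun x => ?_
      have := congrArg Prod.fst (h (x, 0))
      exact this
    have h2 : liftEnd ρbar c₂ σ = 1 := by
      refine LinearMap.ext fun x => ?_
      have := congrArg Prod.snd (h (0, x))
      exact this
    rw [liftEnd_eq_one_iff] at h1 h2
    exact ⟨h1.1, h1.2, h2.2⟩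
  · rintro ⟨h0, h1, h2⟩ x
    have e1 : liftEnd ρbar c₁ σ = 1 := (liftEnd_eq_one_iff ρbar c₁ σ).mpr ⟨h0, h1⟩
    have e2 : liftEnd ρbar c₂ σ = 1 := (liftEnd_eq_one_iff ρbar c₂ σ).mpr ⟨h0, h2⟩
    rw [e1, e2]
    rfl

end lift

end Fermat.Agent.S56.H254

end

end
-- ===== PACK-END S56/H254/FlatLift.lean

-- ===== PACK-BEGIN S56/H434/Near.lean
section



/-!
# S56 / W2-SS, piece A (helper434): approximate ring homomorphisms and the convolution ring

`ApproxHom v R T η ε`: `η : Ω → Ω` is, on the subring `T`, a ring homomorphism modulo `ε`,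
with integral values and `η r ≡ r` on the image of `R`.
`Near v T η ε F y`: the functional `F` is congruent to `η ∘ y` modulo `ε`; this relation is
compatible with the convolution product.
-/

set_option autoImplicit false

open WithConv TensorProduct

namespace Fermat.Agent.S56.H434

section Val

variable {Ω : Type*} [Field Ω] {Γ : Type*} [LinearOrderedCommGroupWithZero Γ] (v : Valuation Ω Γ)

theorem val_sub_le_trans {a b c : Ω} {ε : Γ} (h1 : v (a - b) ≤ ε) (h2 : v (b - c) ≤ ε) :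
    v (a - c) ≤ ε := by
  have : a - c = (a - b) + (b - c) := by ring
  rw [this]
  exact v.map_add_le h1 h2

theorem val_sub_comm (a b : Ω) : v (a - b) = v (b - a) := v.map_sub_swap a b

theorem val_mul_sub_mul_le {a a' c c' : Ω} {ε : Γ} (h1 : v (a - c) ≤ ε) (h2 : v (a' - c') ≤ ε)
    (ha' : v a' ≤ 1) (hc : v c ≤ 1) : v (a * a' - c * c') ≤ ε := by
  have : a * a' - c * c' = (a - c) * a' + c * (a' - c') := by ring
  rw [this]
  refine v.map_add_le ?_ ?_
  · rw [map_mul]
    calc v (a - c) * v a' ≤ ε * 1 := mul_le_mul' h1 ha'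
      _ = ε := mul_one _
  · rw [map_mul]
    calc v c * v (a' - c') ≤ 1 * ε := mul_le_mul' hc h2
      _ = ε := one_mul _

theorem val_sum_sub_sum_le {α : Type*} (s : Finset α) (f g : α → Ω) {ε : Γ}
    (h : ∀ i ∈ s, v (f i - g i) ≤ ε) : v (∑ i ∈ s, f i - ∑ i ∈ s, g i) ≤ ε := by
  rw [← Finset.sum_sub_distrib]
  exact v.map_sum_le h

theorem val_le_one_of_sub_le {a b : Ω} {ε : Γ} (hε : ε ≤ 1) (h : v (a - b) ≤ ε) (hb : v b ≤ 1) :
    v a ≤ 1 := by
  have : a = (a - b) + b := by ring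
  rw [this]
  exact v.map_add_le (h.trans hε) hb

end Val

section Approx

variable {Ω : Type*} [Field Ω] {Γ : Type*} [LinearOrderedCommGroupWithZero Γ] (v : Valuation Ω Γ)
  (R : Type*) [CommRing R] [Algebra R Ω]

/-- `η` is a ring homomorphism modulo `ε` on the subring `T`. -/
structure ApproxHom (T : Subring Ω) (η : Ω → Ω) (ε : Γ) : Prop where
  int : ∀ a ∈ T, v (η a) ≤ 1
  add : ∀ a ∈ T, ∀ b ∈ T, v (η (a + b) - (η a + η b)) ≤ ε
  mul : ∀ a ∈ T, ∀ b ∈ T, v (η (a * b) - η a * η b) ≤ ε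
  map_algebraMap : ∀ r : R, v (η (algebraMap R Ω r) - algebraMap R Ω r) ≤ ε

variable {v R} {T : Subring Ω} {η : Ω → Ω} {ε : Γ}

theorem ApproxHom.zero (hη : ApproxHom v R T η ε) : v (η 0) ≤ ε := by
  have h := hη.add 0 T.zero_mem 0 T.zero_mem
  have : η (0 + 0) - (η 0 + η 0) = -η 0 := by rw [add_zero]; ring
  rwa [this, Valuation.map_neg] at h

theorem ApproxHom.sub (hη : ApproxHom v R T η ε) {a b : Ω} (ha : a ∈ T) (hb : b ∈ T) :
    v (η (a - b) - (η a - η b)) ≤ ε := by
  have h := hη.add (a - b) (T.sub_mem ha hb) b hb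
  rw [sub_add_cancel] at h
  have : η (a - b) - (η a - η b) = -(η a - (η (a - b) + η b)) := by ring
  rwa [this, Valuation.map_neg]

theorem ApproxHom.sum (hη : ApproxHom v R T η ε) {α : Type*} (s : Finset α) (a : α → Ω)
    (ha : ∀ i ∈ s, a i ∈ T) : v (η (∑ i ∈ s, a i) - ∑ i ∈ s, η (a i)) ≤ ε := by
  classical
  induction s using Finset.induction_on with
  | empty => simpa using hη.zero
  | insert j s hj ih =>
    have ha' : ∀ i ∈ s, a i ∈ T := fun i hi => ha i (Finset.mem_insert_of_mem hi)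
    have hj' : a j ∈ T := ha j (Finset.mem_insert_self j s)
    rw [Finset.sum_insert hj, Finset.sum_insert hj]
    have h1 := hη.add (a j) hj' (∑ i ∈ s, a i) (T.sum_mem ha')
    have h2 : v ((η (a j) + η (∑ i ∈ s, a i)) - (η (a j) + ∑ i ∈ s, η (a i))) ≤ ε := by
      have : (η (a j) + η (∑ i ∈ s, a i)) - (η (a j) + ∑ i ∈ s, η (a i))
          = η (∑ i ∈ s, a i) - ∑ i ∈ s, η (a i) := by ring
      rw [this]
      exact ih ha'
    exact val_sub_le_trans v h1 h2

theorem ApproxHom.sum_mul (hη : ApproxHom v R T η ε) {α : Type*} (s : Finset α) (a c : α → Ω)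
    (ha : ∀ i ∈ s, a i ∈ T) (hc : ∀ i ∈ s, c i ∈ T) :
    v (η (∑ i ∈ s, a i * c i) - ∑ i ∈ s, η (a i) * η (c i)) ≤ ε := by
  have h1 := hη.sum s (fun i => a i * c i) (fun i hi => T.mul_mem (ha i hi) (hc i hi))
  have h2 : v (∑ i ∈ s, η (a i * c i) - ∑ i ∈ s, η (a i) * η (c i)) ≤ ε :=
    val_sum_sub_sum_le v s _ _ fun i hi => hη.mul _ (ha i hi) _ (hc i hi)
  exact val_sub_le_trans v h1 h2

end Approx

section Near

variable {Ω : Type*} [Field Ω] {Γ : Type*} [LinearOrderedCommGroupWithZero Γ] (v : Valuation Ω Γ)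
  {R : Type*} [CommRing R] [Algebra R Ω]
  {H : Type*} [CommRing H] [Bialgebra R H] [Coalgebra.IsCocomm R H]

/-- `F ≡ η ∘ y` modulo `ε`, where `y` has values in `T` and `F` has integral values. -/
def Near (T : Subring Ω) (η : Ω → Ω) (ε : Γ) (F y : WithConv (H →ₗ[R] Ω)) : Prop :=
  (∀ h, y.ofConv h ∈ T) ∧ (∀ h, v (F.ofConv h) ≤ 1) ∧
    ∀ h, v (F.ofConv h - η (y.ofConv h)) ≤ ε

variable {v} {T : Subring Ω} {η : Ω → Ω} {ε : Γ}

omit [Coalgebra.IsCocomm R H] in
theorem near_one (hη : ApproxHom v R T η ε) (hR : ∀ r : R, v (algebraMap R Ω r) ≤ 1)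
    (hRT : ∀ r : R, algebraMap R Ω r ∈ T) :
    Near v T η ε (1 : WithConv (H →ₗ[R] Ω)) 1 := by
  refine ⟨fun h => hRT _, fun h => hR _, fun h => ?_⟩
  have := hη.map_algebraMap (Coalgebra.counit (R := R) h)
  rw [val_sub_comm] at this
  exact this

omit [Coalgebra.IsCocomm R H] in
theorem near_mul (hη : ApproxHom v R T η ε) {F G y z : WithConv (H →ₗ[R] Ω)}
    (hF : Near v T η ε F y) (hG : Near v T η ε G z) : Near v T η ε (F * G) (y * z) := by
  obtain ⟨hy, hF1, hFy⟩ := hF
  obtain ⟨hz, hG1, hGz⟩ := hG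
  have key : ∀ h : H, (F * G).ofConv h = ∑ i ∈ (Coalgebra.Repr.arbitrary R h).index,
      F.ofConv ((Coalgebra.Repr.arbitrary R h).left i) *
        G.ofConv ((Coalgebra.Repr.arbitrary R h).right i) :=
    fun h => (Coalgebra.Repr.arbitrary R h).convMul_apply F G
  have key' : ∀ h : H, (y * z).ofConv h = ∑ i ∈ (Coalgebra.Repr.arbitrary R h).index,
      y.ofConv ((Coalgebra.Repr.arbitrary R h).left i) *
        z.ofConv ((Coalgebra.Repr.arbitrary R h).right i) :=
    fun h => (Coalgebra.Repr.arbitrary R h).convMul_apply y z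
  refine ⟨fun h => ?_, fun h => ?_, fun h => ?_⟩
  · rw [key']
    exact T.sum_mem fun i _ => T.mul_mem (hy _) (hz _)
  · rw [key]
    refine v.map_sum_le fun i _ => ?_
    rw [map_mul]
    calc v (F.ofConv _) * v (G.ofConv _) ≤ 1 * 1 := mul_le_mul' (hF1 _) (hG1 _)
      _ = 1 := one_mul _
  · rw [key, key']
    have h1 := hη.sum_mul (Coalgebra.Repr.arbitrary R h).index
      (fun i => y.ofConv ((Coalgebra.Repr.arbitrary R h).left i))
      (fun i => z.ofConv ((Coalgebra.Repr.arbitrary R h).right i))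
      (fun i _ => hy _) (fun i _ => hz _)
    rw [val_sub_comm] at h1
    have h2 : v (∑ i ∈ (Coalgebra.Repr.arbitrary R h).index,
        F.ofConv ((Coalgebra.Repr.arbitrary R h).left i) *
          G.ofConv ((Coalgebra.Repr.arbitrary R h).right i) -
        ∑ i ∈ (Coalgebra.Repr.arbitrary R h).index,
          η (y.ofConv ((Coalgebra.Repr.arbitrary R h).left i)) *
            η (z.ofConv ((Coalgebra.Repr.arbitrary R h).right i))) ≤ ε :=
      val_sum_sub_sum_le v _ _ _ fun i _ =>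
        val_mul_sub_mul_le v (hFy _) (hGz _) (hG1 _) (hη.int _ (hy _))
    exact val_sub_le_trans v h2 h1

omit [Coalgebra.IsCocomm R H] in
theorem near_pow (hη : ApproxHom v R T η ε) (hR : ∀ r : R, v (algebraMap R Ω r) ≤ 1)
    (hRT : ∀ r : R, algebraMap R Ω r ∈ T) {F y : WithConv (H →ₗ[R] Ω)}
    (hF : Near v T η ε F y) (n : ℕ) : Near v T η ε (F ^ n) (y ^ n) := by
  induction n with
  | zero => simpa using near_one (H := H) hη hR hRT
  | succ n ih => rw [pow_succ, pow_succ]; exact near_mul hη ih hF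

end Near

end Fermat.Agent.S56.H434

end
-- ===== PACK-END S56/H434/Near.lean

-- ===== PACK-BEGIN S56/H334/RamQuot.lean
section






/-!
# S56 / W-FLAT-SS, piece FL-RAM (helper334), part 8: ramification groups of a quotient

Setting (that of `FL.RCDatum`): `A ⊆ B` discrete valuation rings, `B` finite over `A`, the residue
field of `A` finite, `Γ` a finite group acting faithfully on `B` with `B^Γ = A`; `N ⊴ Γ`.
`B^N = FixedPoints.subalgebra A B N` is a DVR with an action of `Γ ⧸ N`.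

* `isGaloisGroup_of_datum`, `isGaloisGroup_quotient`, `faithfulSMul_quotient`.
* `quotRamGroup A B Γ N n` : the `n`-th ramification group of `Γ ⧸ N` acting on `B^N`, pulled back
  to `Γ`;  `quotLowIdx A B Γ N σ = i_{Γ/N}(σ N)`.
* `mem_quotRamGroup_iff_lowIdx` : `σ ∈ F N n ↔ σ ∈ N ∨ n + 1 ≤ i N σ`.
* `ramGroup_zero_le_quotRamGroup`, `ramGroup_one_le_quotRamGroup`, `quotRamGroup_one_inf_le`.
* `quot_conj_mul_inv_mem_iff` : the commutator rule for `Γ ⧸ N`.
* `quotRamGroup_bot`, `quotLowIdx_bot` : for `N = ⊥` one recovers `Γ_n` and `i_Γ`.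
-/

set_option autoImplicit false
set_option linter.unusedSectionVars false
set_option linter.style.haveILetI false

open IsLocalRing

namespace Fermat.Agent.S56.H334

section Quot

variable (A B Γ : Type*) [CommRing A] [IsDomain A] [IsDiscreteValuationRing A]
  [CommRing B] [IsDomain B] [IsDiscreteValuationRing B] [Algebra A B] [Module.Finite A B]
  [FaithfulSMul A B] [Group Γ] [Finite Γ] [MulSemiringAction Γ B] [SMulCommClass Γ A B]
  [Algebra.IsInvariant A B Γ] [FaithfulSMul Γ B]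
  (N : Subgroup Γ) [N.Normal]

theorem isGaloisGroup_of_datum : IsGaloisGroup Γ A B :=
  ⟨inferInstance, inferInstance, inferInstance⟩

theorem quot_smul_coe (σ : Γ) (x : FixedPoints.subalgebra A B N) :
    (((σ : Γ ⧸ N) • x : FixedPoints.subalgebra A B N) : B) = σ • (x : B) := rfl

/-- Galois theory: an element of `Γ` fixing `B^N` pointwise lies in `N`. -/
theorem mem_of_forall_smul_fixed {σ : Γ}
    (h : ∀ x : FixedPoints.subalgebra A B N, σ • (x : B) = x) : σ ∈ N := by
  haveI := isGaloisGroup_of_datum A B Γ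
  have h1 := IsGaloisGroup.fixingSubgroup_range_algebraMap Γ A (FixedPoints.subalgebra A B N) B N
  rw [← h1, mem_fixingSubgroup_iff]
  rintro _ ⟨x, rfl⟩
  exact h x

theorem faithfulSMul_quotient : FaithfulSMul (Γ ⧸ N) (FixedPoints.subalgebra A B N) := by
  refine ⟨fun {g₁ g₂} h => ?_⟩
  induction g₁ using QuotientGroup.induction_on with
  | H σ₁ =>
  induction g₂ using QuotientGroup.induction_on with
  | H σ₂ =>
  rw [QuotientGroup.eq]
  apply mem_of_forall_smul_fixed A B Γ N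
  intro x
  have h2 := congrArg Subtype.val (h x)
  rw [quot_smul_coe, quot_smul_coe] at h2
  rw [mul_smul, ← h2, inv_smul_smul]

theorem isGaloisGroup_quotient : IsGaloisGroup (Γ ⧸ N) A (FixedPoints.subalgebra A B N) :=
  ⟨faithfulSMul_quotient A B Γ N, inferInstance, inferInstance⟩

/-- `F N n`: the `n`-th ramification group of `Γ ⧸ N` acting on `B^N`, pulled back to `Γ`. -/
noncomputable def quotRamGroup (n : ℕ) : Subgroup Γ :=
  haveI := isDiscreteValuationRing_fixedPoints A B N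
  (ramGroup (Γ ⧸ N) (FixedPoints.subalgebra A B N) n).comap (QuotientGroup.mk' N)

/-- `i N σ = i_{Γ/N}(σ N)`. -/
noncomputable def quotLowIdx (σ : Γ) : ℕ :=
  haveI := isDiscreteValuationRing_fixedPoints A B N
  lowIdx (Γ ⧸ N) (FixedPoints.subalgebra A B N) (σ : Γ ⧸ N)

theorem mem_quotRamGroup_iff {n : ℕ} {σ : Γ} :
    haveI := isDiscreteValuationRing_fixedPoints A B N
    σ ∈ quotRamGroup A B Γ N n ↔
      (σ : Γ ⧸ N) ∈ ramGroup (Γ ⧸ N) (FixedPoints.subalgebra A B N) n :=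
  Iff.rfl

theorem quotRamGroup_normal (n : ℕ) : (quotRamGroup A B Γ N n).Normal := by
  haveI := isDiscreteValuationRing_fixedPoints A B N
  exact Subgroup.Normal.comap (ramGroup_normal n) _

theorem le_quotRamGroup (n : ℕ) : N ≤ quotRamGroup A B Γ N n := by
  haveI := isDiscreteValuationRing_fixedPoints A B N
  intro σ hσ
  rw [mem_quotRamGroup_iff, (QuotientGroup.eq_one_iff σ).2 hσ]
  exact Subgroup.one_mem _

theorem quotRamGroup_antitone {m n : ℕ} (h : m ≤ n) :
    quotRamGroup A B Γ N n ≤ quotRamGroup A B Γ N m := by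
  haveI := isDiscreteValuationRing_fixedPoints A B N
  exact Subgroup.comap_mono (ramGroup_antitone h)

/-- `σ ∈ F N n ↔ σ ∈ N ∨ n + 1 ≤ i N σ`. -/
theorem mem_quotRamGroup_iff_lowIdx (n : ℕ) (σ : Γ) :
    σ ∈ quotRamGroup A B Γ N n ↔ σ ∈ N ∨ n + 1 ≤ quotLowIdx A B Γ N σ := by
  haveI := isDiscreteValuationRing_fixedPoints A B N
  haveI := faithfulSMul_quotient A B Γ N
  by_cases hσ : σ ∈ N
  · exact ⟨fun _ => Or.inl hσ, fun _ => le_quotRamGroup A B Γ N n hσ⟩
  · have hne : (σ : Γ ⧸ N) ≠ 1 := fun h => hσ ((QuotientGroup.eq_one_iff σ).1 h)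
    rw [mem_quotRamGroup_iff, mem_ramGroup_iff_lt_lowIdx hne]
    constructor
    · intro h; exact Or.inr h
    · rintro (h | h)
      · exact absurd h hσ
      · exact h

/-- `Γ₀ ≤ F N 0`. -/
theorem ramGroup_zero_le_quotRamGroup : ramGroup Γ B 0 ≤ quotRamGroup A B Γ N 0 := by
  haveI := isDiscreteValuationRing_fixedPoints A B N
  intro σ hσ
  rw [mem_quotRamGroup_iff]
  intro x
  show (σ : Γ ⧸ N) • x - x ∈ ((maximalIdeal (FixedPoints.subalgebra A B N)) ^ (0 + 1))
  rw [zero_add, pow_one, mem_maximalIdeal, mem_nonunits_iff, fixedPoints_isUnit_iff]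
  have h1 : σ • (x : B) - x ∈ maximalIdeal B := by
    have := hσ (x : B)
    rw [zero_add, pow_one] at this
    exact this
  exact (mem_maximalIdeal _).1 h1

end Quot

/-! ### Generalities -/

section General

variable {B : Type*} [CommRing B] [IsDomain B] [IsDiscreteValuationRing B]
variable {Γ : Type*} [Group Γ] [MulSemiringAction Γ B]

/-- If `σ ∈ Γ₀` and `σ ^ (p ^ k) ∈ Γ₁` (`p` the residue characteristic), then `σ ∈ Γ₁`. -/
theorem mem_ramGroup_one_of_pow_mem (hH : InertiaResidue Γ B) (p : ℕ) [hp : Fact p.Prime]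
    [CharP (ResidueField B) p] {σ : Γ} (hσ : σ ∈ ramGroup Γ B 0) (k : ℕ)
    (h : σ ^ (p ^ k) ∈ ramGroup Γ B 1) : σ ∈ ramGroup Γ B 1 := by
  obtain ⟨π, hπ⟩ := IsDiscreteValuationRing.exists_irreducible B
  set t : ramGroup Γ B 0 := ⟨σ, hσ⟩ with ht
  have h1 : theta0 hπ (t ^ (p ^ k)) = 1 := (theta0_eq_one_iff hπ hH (t ^ (p ^ k))).2 h
  rw [map_pow] at h1
  have h2 : ((theta0 hπ t : (ResidueField B)ˣ) : ResidueField B) ^ (p ^ k) = 1 := by
    rw [← Units.val_pow_eq_pow_val, h1, Units.val_one]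
  have h3 : ((theta0 hπ t : (ResidueField B)ˣ) : ResidueField B) = 1 := by
    have h4 : (((theta0 hπ t : (ResidueField B)ˣ) : ResidueField B) - 1) ^ (p ^ k) = 0 := by
      rw [sub_pow_char_pow, one_pow, h2, sub_self]
    exact sub_eq_zero.1 (pow_eq_zero_iff (pow_ne_zero _ hp.out.ne_zero) |>.1 h4)
  exact (theta0_eq_one_iff hπ hH t).1 (Units.ext h3)

variable {B' : Type*} [CommRing B'] [IsDomain B'] [IsDiscreteValuationRing B']
variable {Γ' : Type*} [Group Γ'] [MulSemiringAction Γ' B']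

theorem lowIdx_eq_of_forall_mem_iff {σ : Γ} {σ' : Γ'}
    (h : ∀ n, σ ∈ ramGroup Γ B n ↔ σ' ∈ ramGroup Γ' B' n) :
    lowIdx Γ B σ = lowIdx Γ' B' σ' := by
  classical
  unfold lowIdx
  by_cases hex : ∃ n, σ ∉ ramGroup Γ B n
  · have hex' : ∃ n, σ' ∉ ramGroup Γ' B' n := by
      obtain ⟨n, hn⟩ := hex
      exact ⟨n, fun h' => hn ((h n).2 h')⟩
    rw [dif_pos hex, dif_pos hex']
    apply le_antisymm
    · apply Nat.find_min'
      rw [h]
      exact Nat.find_spec hex'
    · apply Nat.find_min'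
      rw [← h]
      exact Nat.find_spec hex
  · have hex' : ¬ ∃ n, σ' ∉ ramGroup Γ' B' n := by
      rintro ⟨n, hn⟩
      exact hex ⟨n, fun h' => hn ((h n).1 h')⟩
    rw [dif_neg hex, dif_neg hex']

end General

/-! ### The residue characteristic -/

section Residue

variable (A B : Type*) [CommRing A] [IsDomain A] [IsDiscreteValuationRing A]
  [CommRing B] [IsDomain B] [IsDiscreteValuationRing B] [Algebra A B] [Module.Finite A B]
  [FaithfulSMul A B]

theorem charP_residueField_of_charP (p : ℕ) [CharP (ResidueField A) p] :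
    CharP (ResidueField B) p :=
  charP_of_injective_algebraMap (algebraMap (ResidueField A) (ResidueField B)).injective p

end Residue

/-! ### Wild inertia of the quotient, commutator rule -/

section QuotWild

variable (A B Γ : Type*) [CommRing A] [IsDomain A] [IsDiscreteValuationRing A]
  [CommRing B] [IsDomain B] [IsDiscreteValuationRing B] [Algebra A B] [Module.Finite A B]
  [FaithfulSMul A B] [Group Γ] [Finite Γ] [MulSemiringAction Γ B] [SMulCommClass Γ A B]
  [Algebra.IsInvariant A B Γ] [FaithfulSMul Γ B]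
  (N : Subgroup Γ) [N.Normal] [Finite (ResidueField A)]

include A in
/-- Hypothesis (H) holds for `Γ` acting on `B`. -/
theorem inertiaResidue_of_datum : InertiaResidue Γ B := by
  haveI := finite_residueField_of_finite A B
  exact inertiaResidue_of_finite

/-- Hypothesis (H) holds for `Γ ⧸ N` acting on `B^N`. -/
theorem inertiaResidue_quotient :
    haveI := isDiscreteValuationRing_fixedPoints A B N
    InertiaResidue (Γ ⧸ N) (FixedPoints.subalgebra A B N) := by
  haveI := isDiscreteValuationRing_fixedPoints A B N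
  haveI := finite_fixedPoints A B N
  haveI := finite_residueField_of_finite A (FixedPoints.subalgebra A B N)
  exact inertiaResidue_of_finite

variable (p : ℕ) [hp : Fact p.Prime] [CharP (ResidueField A) p]

include A in
/-- `Γ₁` is a `p`-group. -/
theorem isPGroup_ramGroup_one_of_datum : IsPGroup p (ramGroup Γ B 1) := by
  haveI := charP_residueField_of_charP A B p
  exact isPGroup_ramGroup_one (inertiaResidue_of_datum A B Γ) p

include p in
/-- `Γ₁ ≤ F N 1`. -/
theorem ramGroup_one_le_quotRamGroup : ramGroup Γ B 1 ≤ quotRamGroup A B Γ N 1 := by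
  haveI := isDiscreteValuationRing_fixedPoints A B N
  haveI := finite_fixedPoints A B N
  haveI := charP_residueField_of_charP A (FixedPoints.subalgebra A B N) p
  intro σ hσ
  obtain ⟨k, hk⟩ := isPGroup_ramGroup_one_of_datum A B Γ p ⟨σ, hσ⟩
  have hk' : σ ^ (p ^ k) = 1 := congrArg Subtype.val hk
  have h0 : (σ : Γ ⧸ N) ∈ ramGroup (Γ ⧸ N) (FixedPoints.subalgebra A B N) 0 :=
    ramGroup_zero_le_quotRamGroup A B Γ N (ramGroup_antitone (Nat.zero_le 1) hσ)
  rw [mem_quotRamGroup_iff]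
  apply mem_ramGroup_one_of_pow_mem (inertiaResidue_quotient A B Γ N) p h0 k
  rw [← QuotientGroup.mk_pow, hk']
  exact Subgroup.one_mem _

include p in
/-- `F N 1 ∩ Γ₀ ≤ Γ₁` if `N ≤ Γ₁`. -/
theorem quotRamGroup_one_inf_le (hN : N ≤ ramGroup Γ B 1) :
    quotRamGroup A B Γ N 1 ⊓ ramGroup Γ B 0 ≤ ramGroup Γ B 1 := by
  haveI := isDiscreteValuationRing_fixedPoints A B N
  haveI := finite_fixedPoints A B N
  haveI := charP_residueField_of_charP A (FixedPoints.subalgebra A B N) p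
  haveI := charP_residueField_of_charP A B p
  haveI := faithfulSMul_quotient A B Γ N
  rintro σ ⟨h1, h0⟩
  have hpg : IsPGroup p (ramGroup (Γ ⧸ N) (FixedPoints.subalgebra A B N) 1) :=
    isPGroup_ramGroup_one (inertiaResidue_quotient A B Γ N) p
  obtain ⟨k, hk⟩ := hpg ⟨(σ : Γ ⧸ N), h1⟩
  have hk' : (σ : Γ ⧸ N) ^ (p ^ k) = 1 := congrArg Subtype.val hk
  rw [← QuotientGroup.mk_pow, QuotientGroup.eq_one_iff] at hk'
  exact mem_ramGroup_one_of_pow_mem (inertiaResidue_of_datum A B Γ) p h0 k (hN hk')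

omit hp [CharP (ResidueField A) p] in
/-- The commutator rule for the quotient `Γ ⧸ N`. -/
theorem quot_conj_mul_inv_mem_iff {n : ℕ} (hn : 1 ≤ n) {σ τ : Γ}
    (hσ : σ ∈ quotRamGroup A B Γ N n) (hσ' : σ ∉ quotRamGroup A B Γ N (n + 1))
    (hτ : τ ∈ ramGroup Γ B 0) :
    τ * σ * τ⁻¹ * σ⁻¹ ∈ quotRamGroup A B Γ N (n + 1) ↔ τ ^ n ∈ quotRamGroup A B Γ N 1 := by
  haveI := isDiscreteValuationRing_fixedPoints A B N
  have hτ' := ramGroup_zero_le_quotRamGroup A B Γ N hτ
  rw [mem_quotRamGroup_iff] at hσ hσ' hτ' ⊢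
  rw [mem_quotRamGroup_iff]
  have := conj_mul_inv_mem_ramGroup_iff (inertiaResidue_quotient A B Γ N) hn hσ hσ' hτ'
  simpa using this

include A in
/-- `Γ / Γ₀` is abelian. -/
theorem commutator_mem_ramGroup_zero_of_datum (g h : Γ) :
    g * h * g⁻¹ * h⁻¹ ∈ ramGroup Γ B 0 := by
  haveI := finite_residueField_of_finite A B
  exact commutator_mem_ramGroup_zero g h

end QuotWild

end Fermat.Agent.S56.H334

end
-- ===== PACK-END S56/H334/RamQuot.lean

-- ===== PACK-BEGIN S56/H794/TameCyclic.lean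
section







/-!
# S56 / LOC-TAME (helper794), part 3: images of inertia of prime exponent are cyclic

`L/K` Galois, `A` a valuation subring of `L` whose restriction to `K` has cyclic value group
(`RankOneOver K A`), `ℓ` a prime which is a unit of `A`, `f` a homomorphism of finite level on
`Gal(L/K)` with `f τ ^ ℓ = 1` for all `τ` in the inertia group `I` of `A`.
Then `f(I)` is cyclic (of order `1` or `ℓ`):

* `exists_pow_eq_of_exponent_prime` : `σ τ ∈ I`, `f τ ≠ 1` ⟹ `∃ j < ℓ, f σ = f τ ^ j`.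
* `exists_generator_of_exponent_prime` : `∃ τ₀ ∈ I, ∀ σ ∈ I, ∃ j < ℓ, f σ = f τ₀ ^ j`.

Auxiliary:
* `exists_pow_valuation_eq_algebraMap` : some positive power of the valuation of an element
  of `Lˣ` is the valuation of an element of `Kˣ` (`L/K` algebraic).
* `exists_coprime_zpow_div_mem` : rank-one dependence in a commutative group modulo a
  subgroup with torsion-free quotient.
-/

set_option autoImplicit false

namespace Fermat.Agent.S56.H794

open Fermat.Agent.A2.H708

/-- Rank-one dependence: if `x ^ n ≡ t ^ r` and `y ^ n₀ ≡ t ^ r₀` modulo a subgroup `U` with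
torsion-free quotient, and `y ∉ U`, then `x ^ a ≡ y ^ b` for coprime integers `a`, `b`. -/
theorem exists_coprime_zpow_div_mem {G : Type*} [CommGroup G] (U : Subgroup G)
    (htf : ∀ (x : G) (n : ℕ), 0 < n → x ^ n ∈ U → x ∈ U) (t x y : G)
    {n n₀ : ℕ} (hn : 0 < n) (hn₀ : 0 < n₀) {r r₀ : ℤ}
    (hx : x ^ n / t ^ r ∈ U) (hy : y ^ n₀ / t ^ r₀ ∈ U) (hyU : y ∉ U) :
    ∃ a b : ℤ, IsCoprime a b ∧ x ^ a / y ^ b ∈ U := by
  have hr₀ : r₀ ≠ 0 := by
    rintro rfl
    rw [zpow_zero, div_one] at hy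
    exact hyU (htf y n₀ hn₀ hy)
  set a₀ : ℤ := (n : ℤ) * r₀ with ha₀
  set b₀ : ℤ := (n₀ : ℤ) * r with hb₀
  have ha₀0 : a₀ ≠ 0 := mul_ne_zero (by exact_mod_cast hn.ne') hr₀
  have h0 : x ^ a₀ / y ^ b₀ ∈ U := by
    have h1 : (x ^ n / t ^ r) ^ r₀ / (y ^ n₀ / t ^ r₀) ^ r ∈ U :=
      U.div_mem (U.zpow_mem hx r₀) (U.zpow_mem hy r)
    have h2 : (x ^ n / t ^ r) ^ r₀ / (y ^ n₀ / t ^ r₀) ^ r = x ^ a₀ / y ^ b₀ := by
      rw [div_zpow, div_zpow, ha₀, hb₀, zpow_mul, zpow_mul, zpow_natCast, zpow_natCast,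
        ← zpow_mul, ← zpow_mul, mul_comm r r₀]
      rw [div_div_div_comm, div_self', div_one]
    rwa [h2] at h1
  have hg : 0 < Int.gcd a₀ b₀ := Int.gcd_pos_of_ne_zero_left _ ha₀0
  refine ⟨a₀ / (Int.gcd a₀ b₀ : ℤ), b₀ / (Int.gcd a₀ b₀ : ℤ), ?_, ?_⟩
  · rw [Int.isCoprime_iff_gcd_eq_one]
    exact Int.gcd_div_gcd_div_gcd hg
  · apply htf _ (Int.gcd a₀ b₀) hg
    have ha : a₀ / (Int.gcd a₀ b₀ : ℤ) * (Int.gcd a₀ b₀ : ℤ) = a₀ :=
      Int.ediv_mul_cancel (Int.gcd_dvd_left a₀ b₀)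
    have hb : b₀ / (Int.gcd a₀ b₀ : ℤ) * (Int.gcd a₀ b₀ : ℤ) = b₀ :=
      Int.ediv_mul_cancel (Int.gcd_dvd_right a₀ b₀)
    rw [div_pow, ← zpow_natCast, ← zpow_natCast, ← zpow_mul, ← zpow_mul, ha, hb]
    exact h0

section general

variable {K L : Type*} [Field K] [Field L] [Algebra K L] [Algebra.IsAlgebraic K L]
  (A : ValuationSubring L)

/-- In an algebraic extension, a positive power of the valuation of any nonzero element is the
valuation of a nonzero element of the base field. -/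
theorem exists_pow_valuation_eq_algebraMap (c : L) (hc : c ≠ 0) :
    ∃ n : ℕ, 0 < n ∧ ∃ a : K, a ≠ 0 ∧ A.valuation c ^ n = A.valuation (algebraMap K L a) := by
  classical
  have hint : IsIntegral K c := (Algebra.IsAlgebraic.isAlgebraic c).isIntegral
  set P := minpoly K c with hP
  have hP0 : P ≠ 0 := minpoly.ne_zero hint
  have hroot : Polynomial.aeval c P = 0 := minpoly.aeval K c
  set term : ℕ → L := fun i => algebraMap K L (P.coeff i) * c ^ i with hterm
  have hsum : ∑ i ∈ P.support, term i = 0 := by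
    rw [← hroot, Polynomial.aeval_def, Polynomial.eval₂_eq_sum, Polynomial.sum_def]
  have hvc : A.valuation c ≠ 0 := (Valuation.ne_zero_iff _).mpr hc
  have hterm0 : ∀ i ∈ P.support, A.valuation (term i) ≠ 0 := by
    intro i hi
    rw [Valuation.ne_zero_iff]
    refine mul_ne_zero ?_ (pow_ne_zero i hc)
    rw [Ne, map_eq_zero_iff _ (algebraMap K L).injective]
    exact Polynomial.mem_support_iff.mp hi
  have hne : P.support.Nonempty := by
    rw [Finset.nonempty_iff_ne_empty, Ne, Polynomial.support_eq_empty]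
    exact hP0
  obtain ⟨j, hj, hjmax⟩ := Finset.exists_max_image P.support (fun i => A.valuation (term i)) hne
  have hex : ∃ i ∈ P.support, i ≠ j ∧ A.valuation (term i) = A.valuation (term j) := by
    by_contra hcon
    have hlt : ∀ i ∈ P.support \ {j}, A.valuation (term i) < A.valuation (term j) := by
      intro i hi
      rw [Finset.mem_sdiff, Finset.mem_singleton] at hi
      refine lt_of_le_of_ne (hjmax i hi.1) ?_
      intro heq
      exact hcon ⟨i, hi.1, hi.2, heq⟩
    have := Valuation.map_sum_eq_of_lt A.valuation hj hlt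
    rw [hsum, map_zero] at this
    exact hterm0 j hj this.symm
  obtain ⟨i, hi, hij, heq⟩ := hex
  have hai : P.coeff i ≠ 0 := Polynomial.mem_support_iff.mp hi
  have haj : P.coeff j ≠ 0 := Polynomial.mem_support_iff.mp hj
  have hvi : A.valuation (algebraMap K L (P.coeff i)) ≠ 0 := by
    rw [Valuation.ne_zero_iff, Ne, map_eq_zero_iff _ (algebraMap K L).injective]
    exact hai
  have hvj : A.valuation (algebraMap K L (P.coeff j)) ≠ 0 := by
    rw [Valuation.ne_zero_iff, Ne, map_eq_zero_iff _ (algebraMap K L).injective]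
    exact haj
  simp only [hterm, map_mul, map_pow] at heq
  -- v(a_i) v(c)^i = v(a_j) v(c)^j
  rcases lt_or_gt_of_ne hij with hlt | hlt
  · -- i < j : v(c)^(j-i) = v(a_i / a_j)
    refine ⟨j - i, Nat.sub_pos_of_lt hlt, P.coeff i / P.coeff j, div_ne_zero hai haj, ?_⟩
    rw [map_div₀, map_div₀, eq_div_iff hvj]
    have hji : j = (j - i) + i := by omega
    have h1 : A.valuation c ^ j = A.valuation c ^ (j - i) * A.valuation c ^ i := by
      conv_lhs => rw [hji, pow_add]
    rw [h1] at heq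
    have h2 : A.valuation c ^ i ≠ 0 := pow_ne_zero _ hvc
    apply mul_right_cancel₀ h2
    rw [heq, mul_assoc]
    exact mul_left_comm _ _ _
  · -- j < i : v(c)^(i-j) = v(a_j / a_i)
    refine ⟨i - j, Nat.sub_pos_of_lt hlt, P.coeff j / P.coeff i, div_ne_zero haj hai, ?_⟩
    rw [map_div₀, map_div₀, eq_div_iff hvi]
    have hji : i = (i - j) + j := by omega
    have h1 : A.valuation c ^ i = A.valuation c ^ (i - j) * A.valuation c ^ j := by
      conv_lhs => rw [hji, pow_add]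
    rw [h1] at heq
    have h2 : A.valuation c ^ j ≠ 0 := pow_ne_zero _ hvc
    apply mul_right_cancel₀ h2
    rw [← heq, mul_assoc]
    exact mul_left_comm _ _ _

/-- The restriction of the valuation of `A` to `K` has cyclic value group, generated by the
valuation of `t`. -/
def RankOneOver (K : Type*) {L : Type*} [Field K] [Field L] [Algebra K L]
    (A : ValuationSubring L) : Prop :=
  ∃ t : Lˣ, ∀ a : K, a ≠ 0 → ∃ z : ℤ, A.valuation (algebraMap K L a) = A.valuation ((t ^ z : Lˣ) : L)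

/-- The quotient of `Lˣ` by the unit group of `A` is torsion-free. -/
theorem mem_unitGroup_of_pow_mem (x : Lˣ) (n : ℕ) (hn : 0 < n) (h : x ^ n ∈ A.unitGroup) :
    x ∈ A.unitGroup := by
  rw [ValuationSubring.mem_unitGroup_iff] at h ⊢
  rw [Units.val_pow_eq_pow_val, map_pow] at h
  have hv0 : A.valuation (x : L) ≠ 0 := (Valuation.ne_zero_iff _).mpr x.ne_zero
  rcases lt_trichotomy (A.valuation (x : L)) 1 with h1 | h1 | h1
  · exact absurd h (pow_lt_one₀ zero_le h1 hn.ne').ne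
  · exact h1
  · exact absurd h (one_lt_pow₀ h1 hn.ne').ne'

/-- Rank-one dependence of two elements of `Lˣ` modulo units. -/
theorem exists_coprime_zpow_div_mem_unitGroup (hR : RankOneOver K A) (c c₀ : Lˣ)
    (hc₀ : c₀ ∉ A.unitGroup) :
    ∃ a b : ℤ, IsCoprime a b ∧ c ^ a / c₀ ^ b ∈ A.unitGroup := by
  obtain ⟨t, ht⟩ := hR
  obtain ⟨n, hn, a, ha, hna⟩ := exists_pow_valuation_eq_algebraMap (K := K) A (c : L) c.ne_zero
  obtain ⟨n₀, hn₀, a₀, ha₀, hna₀⟩ :=
    exists_pow_valuation_eq_algebraMap (K := K) A (c₀ : L) c₀.ne_zero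
  obtain ⟨r, hr⟩ := ht a ha
  obtain ⟨r₀, hr₀⟩ := ht a₀ ha₀
  have key : ∀ (x : Lˣ) (m : ℕ) (z : ℤ),
      A.valuation (x : L) ^ m = A.valuation ((t ^ z : Lˣ) : L) → x ^ m / t ^ z ∈ A.unitGroup := by
    intro x m z h
    rw [ValuationSubring.mem_unitGroup_iff, Units.val_div_eq_div_val, map_div₀,
      Units.val_pow_eq_pow_val, map_pow, h]
    exact div_self ((Valuation.ne_zero_iff _).mpr (Units.ne_zero _))
  exact exists_coprime_zpow_div_mem A.unitGroup (mem_unitGroup_of_pow_mem A) t c c₀ hn hn₀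
    (key c n r (hna.trans hr)) (key c₀ n₀ r₀ (hna₀.trans hr₀)) hc₀

end general

/-- An element killed by two coprime integer exponents is trivial. -/
theorem eq_one_of_zpow_eq_one_of_isCoprime {G : Type*} [Group G] (u : G) {a b : ℤ}
    (h : IsCoprime a b) (ha : u ^ a = 1) (hb : u ^ b = 1) : u = 1 := by
  obtain ⟨s, t, hst⟩ := h
  have h1 : u ^ (s * a + t * b) = 1 := by
    rw [zpow_add, mul_comm s a, mul_comm t b, zpow_mul, zpow_mul, ha, hb, one_zpow, one_zpow,
      one_mul]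
  rwa [hst, zpow_one] at h1

section finiteLevel

variable {K L : Type*} [Field K] [Field L] [Algebra K L] [IsGalois K L]
  {A : ValuationSubring L}

omit [IsGalois K L] in
/-- Exponent `ℓ` (a unit of `A`) implies `PrimeToResChar`. -/
theorem primeToResChar_of_exponent {G : Type*} [Group G] {f : (L ≃ₐ[K] L) →* G} {ℓ : ℕ}
    (hℓv : A.valuation (ℓ : L) = 1) (hexp : ∀ τ ∈ A.inertiaSubgroupIn K, f τ ^ ℓ = 1) :
    PrimeToResChar A f :=
  fun τ hτ => ⟨ℓ, hℓv, hexp τ hτ⟩

/-- On the fixed field of `ker f` the tame character of `τ` is killed by any exponent killing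
`f τ`. -/
theorem tameHom_pow_eq_one_of_map_pow_eq_one {G : Type*} [Group G] {f : (L ≃ₐ[K] L) →* G}
    {τ : L ≃ₐ[K] L} (hτ : τ ∈ A.inertiaSubgroupIn K) {m : ℕ} (hfm : f τ ^ m = 1) (c : Lˣ)
    (hc : (c : L) ∈ IntermediateField.fixedField f.ker) : tameHom A hτ c ^ m = 1 := by
  rw [← tameHom_pow A hτ m c]
  apply tameHom_eq_one_of_fixed
  exact (IntermediateField.mem_fixedField_iff f.ker _).mp hc (τ ^ m)
    (by rw [MonoidHom.mem_ker, map_pow, hfm])

/-- **Images of inertia of prime exponent `ℓ ≠` residue characteristic are cyclic.** -/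
theorem exists_pow_eq_of_exponent_prime {G : Type*} [Group G] {f : (L ≃ₐ[K] L) →* G}
    (hf : FiniteLevel f) (hR : RankOneOver K A) {ℓ : ℕ} (hℓ : ℓ.Prime)
    (hℓv : A.valuation (ℓ : L) = 1) (hexp : ∀ τ ∈ A.inertiaSubgroupIn K, f τ ^ ℓ = 1)
    {σ τ : L ≃ₐ[K] L} (hσ : σ ∈ A.inertiaSubgroupIn K) (hτ : τ ∈ A.inertiaSubgroupIn K)
    (hne : f τ ≠ 1) : ∃ j : ℕ, j < ℓ ∧ f σ = f τ ^ j := by
  have hp : PrimeToResChar A f := primeToResChar_of_exponent hℓv hexp
  obtain ⟨c₀, hc₀E, hζ⟩ := exists_tameHom_ne_one A hf hτ hℓv (hexp τ hτ) hne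
  have hζℓ : tameHom A hτ c₀ ^ ℓ = 1 :=
    tameHom_pow_eq_one_of_map_pow_eq_one hτ (hexp τ hτ) c₀ hc₀E
  have hξℓ : tameHom A hσ c₀ ^ ℓ = 1 :=
    tameHom_pow_eq_one_of_map_pow_eq_one hσ (hexp σ hσ) c₀ hc₀E
  have hord : orderOf (tameHom A hτ c₀) = ℓ :=
    @orderOf_eq_prime _ _ _ ℓ (Fact.mk hℓ) hζℓ hζ
  have hprim : IsPrimitiveRoot (tameHom A hτ c₀) ℓ := hord ▸ IsPrimitiveRoot.orderOf _
  have hprim' : IsPrimitiveRoot
      ((tameHom A hτ c₀ : (IsLocalRing.ResidueField A)ˣ) : IsLocalRing.ResidueField A) ℓ :=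
    IsPrimitiveRoot.coe_units_iff.mpr hprim
  haveI : NeZero ℓ := ⟨hℓ.ne_zero⟩
  obtain ⟨j, hj, hjξ⟩ := hprim'.eq_pow_of_pow_eq_one
    (ξ := ((tameHom A hσ c₀ : (IsLocalRing.ResidueField A)ˣ) : IsLocalRing.ResidueField A))
    (by rw [← Units.val_pow_eq_pow_val, hξℓ, Units.val_one])
  have hjξ' : tameHom A hτ c₀ ^ j = tameHom A hσ c₀ :=
    Units.ext (by rw [Units.val_pow_eq_pow_val]; exact hjξ)
  refine ⟨j, hj, ?_⟩
  have hc₀U : c₀ ∉ A.unitGroup := by
    intro h
    exact hζ (tameHom_eq_one_of_valuation_eq_one A hτ c₀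
      ((ValuationSubring.mem_unitGroup_iff A c₀).mp h))
  have hγ : σ * (τ ^ j)⁻¹ ∈ A.inertiaSubgroupIn K := mul_mem hσ (inv_mem (pow_mem hτ j))
  have h1 : f (σ * (τ ^ j)⁻¹) = 1 := by
    apply map_eq_one_of_tameHom_eq_one hf hp hγ
    intro c hcE
    rw [tameHom_mul A hσ (inv_mem (pow_mem hτ j)), tameHom_inv A (pow_mem hτ j),
      tameHom_pow A hτ]
    obtain ⟨a, b, hab, hmem⟩ := exists_coprime_zpow_div_mem_unitGroup (K := K) A hR c c₀ hc₀U
    have hv : A.valuation (((c ^ a / c₀ ^ b : Lˣ)) : L) = 1 :=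
      (ValuationSubring.mem_unitGroup_iff A _).mp hmem
    have hxa : tameHom A hσ c ^ a = tameHom A hσ c₀ ^ b := by
      have := tameHom_eq_one_of_valuation_eq_one A hσ _ hv
      rwa [map_div, map_zpow, map_zpow, div_eq_one] at this
    have hya : tameHom A hτ c ^ a = tameHom A hτ c₀ ^ b := by
      have := tameHom_eq_one_of_valuation_eq_one A hτ _ hv
      rwa [map_div, map_zpow, map_zpow, div_eq_one] at this
    have hxℓ : tameHom A hσ c ^ ℓ = 1 :=
      tameHom_pow_eq_one_of_map_pow_eq_one hσ (hexp σ hσ) c hcE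
    have hyℓ : tameHom A hτ c ^ ℓ = 1 :=
      tameHom_pow_eq_one_of_map_pow_eq_one hτ (hexp τ hτ) c hcE
    set x := tameHom A hσ c with hx
    set y := tameHom A hτ c with hy
    set ζ := tameHom A hτ c₀ with hζdef
    set ξ := tameHom A hσ c₀ with hξdef
    have hua : (x * (y ^ j)⁻¹) ^ a = 1 := by
      rw [mul_zpow, inv_zpow, ← zpow_natCast y j, ← zpow_mul, mul_comm (j : ℤ) a, zpow_mul,
        hxa, hya, ← hjξ', ← zpow_natCast ζ j, ← zpow_mul, ← zpow_mul, mul_comm (j : ℤ) b,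
        mul_inv_cancel]
    have huℓ : (x * (y ^ j)⁻¹) ^ (ℓ : ℤ) = 1 := by
      rw [zpow_natCast, mul_pow, inv_pow, ← pow_mul, mul_comm j ℓ, pow_mul, hxℓ, hyℓ, one_pow,
        inv_one, mul_one]
    by_cases hdvd : (ℓ : ℤ) ∣ a
    · exfalso
      -- then ℓ ∤ b, ζ ^ b = y ^ a = 1, so ζ = 1
      obtain ⟨a', ha'⟩ := hdvd
      have hζb : ζ ^ b = 1 := by
        rw [← hya, ha', zpow_mul, zpow_natCast, hyℓ, one_zpow]
      have hcop : IsCoprime (ℓ : ℤ) b := by
        rw [ha'] at hab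
        exact hab.of_mul_left_left
      have hζℓ' : ζ ^ (ℓ : ℤ) = 1 := by rw [zpow_natCast]; exact hζℓ
      exact hζ (eq_one_of_zpow_eq_one_of_isCoprime ζ hcop hζℓ' hζb)
    · have hcop : IsCoprime a (ℓ : ℤ) := by
        have hprime : Prime (ℓ : ℤ) := Nat.prime_iff_prime_int.mp hℓ
        exact (hprime.coprime_iff_not_dvd.mpr hdvd).symm
      exact eq_one_of_zpow_eq_one_of_isCoprime _ hcop hua huℓ
  rw [map_mul, map_inv, map_pow, mul_inv_eq_one] at h1
  exact h1

/-- Existence of a generator of `f(I)` when `f(I)` has prime exponent `ℓ`. -/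
theorem exists_generator_of_exponent_prime {G : Type*} [Group G] {f : (L ≃ₐ[K] L) →* G}
    (hf : FiniteLevel f) (hR : RankOneOver K A) {ℓ : ℕ} (hℓ : ℓ.Prime)
    (hℓv : A.valuation (ℓ : L) = 1) (hexp : ∀ τ ∈ A.inertiaSubgroupIn K, f τ ^ ℓ = 1) :
    ∃ τ₀ ∈ A.inertiaSubgroupIn K, ∀ σ ∈ A.inertiaSubgroupIn K, ∃ j : ℕ, j < ℓ ∧ f σ = f τ₀ ^ j := by
  by_cases h : ∃ τ ∈ A.inertiaSubgroupIn K, f τ ≠ 1
  · obtain ⟨τ, hτ, hne⟩ := h
    exact ⟨τ, hτ, fun σ hσ => exists_pow_eq_of_exponent_prime hf hR hℓ hℓv hexp hσ hτ hne⟩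
  · refine ⟨1, one_mem _, fun σ hσ => ⟨0, hℓ.pos, ?_⟩⟩
    rw [pow_zero]
    by_contra hne
    exact h ⟨σ, hσ, hne⟩

end finiteLevel

end Fermat.Agent.S56.H794

end
-- ===== PACK-END S56/H794/TameCyclic.lean

-- ===== PACK-BEGIN S59/Arch/SpecRT.lean
section




/-!
# Row S59 — the `R = T` layer: frozen interfaces (architect helper239, v2, 21:00Z)

Board: `coord/S59.md`.  Only sorry-free definitions here.  Every `...Statement : Prop` is a
deliverable (`theorem foo : ...Statement`), owned by a CELL (sub-architect) of the board.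

Route = Wiles 1995 + Taylor–Wiles (Diamond's module version of the patching):

* `sigmaCond 𝒪 p t Smin Σ` : deformations of type `Σ`: determinant cyclotomic, unramified
  outside `Σ`, unipotent inertia at the primes of `Smin = {p} ∪ Ram(ρ̄)` different from `p`,
  NO condition at the primes of `Σ ∖ Smin`, and at `p`: flat / strictly ordinary / ordinary.
  For `Σ = Smin ∪ Q` these are LITERALLY the conditions of the frozen S56.
* `wilesLevel p t Smin Σ`   : `N_Σ = ∏_{q ∈ Smin, q ≠ p} q · ∏_{q ∈ Σ ∖ Smin} q² · (1 or p)`.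
* `RTIso p 𝒪 ρ̄ t Smin Σ`    : `R_Σ ≅ T_Σ` (`T_Σ` = the Prelude ring `heckeLocal N_Σ Σ 𝒪 θ`), together
  with the numerical equality `#Φ_R = #(𝒪/η_T)` at one `𝒪`-point (the induction invariant of the
  numerical criterion `Fermat.Agent.S59.H427.numerical_criterion_full`).
* `MinRTStatement`          (cell TW)  `R_min ≅ T_min`   (S53, S54, S56, S57 + Taylor–Wiles modules).
* `NonMinStepStatement`     (cell NM)  `Σ → Σ ∪ {q}`     (numerical criterion + Selmer + Ihara).
* `NonMinPStatement`        (cell NMP) flat `→` ordinary at `p` (only needed when `W` is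
                                       multiplicative at `p` and `E[p]` is flat at `p`).
* `LevelOptStatement`       (cell LO)  `E[p]` is modular of the minimal level (S38, S39/S40 +
                                       removal of squares).
-/

set_option autoImplicit false

open Polynomial IsLocalRing
open scoped WeierstrassCurve.Affine

namespace Fermat.Agent.S59.Arch

/-- The three local conditions at `p`. -/
inductive PType : Type
  | flat
  | sord
  | ord
  deriving DecidableEq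

/-- The condition at `p` (with determinant and ramification set). -/
def pCond (𝒪 : Type) [CommRing 𝒪] (p : ℕ) (t : PType) (Sig : Finset ℕ) :
    ∀ ⦃A : Type⦄ [CommRing A] [IsLocalRing A] [Algebra 𝒪 A], GaloisRepAdic A → Prop :=
  fun _A _ _ _ ρ =>
    match t with
    | .flat => GaloisRep.flatCondition 𝒪 p Sig ρ
    | .sord => GaloisRep.strictOrdinaryCondition 𝒪 p Sig ρ
    | .ord => GaloisRep.ordinaryCondition 𝒪 p Sig ρ

/-- **Deformations of type `Σ`.**  For `t = .sord` / `.flat` and `Sig = Smin ∪ Q` this unfolds to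
the two conditions of the frozen statement S56. -/
def sigmaCond (𝒪 : Type) [CommRing 𝒪] (p : ℕ) (t : PType) (Smin Sig : Finset ℕ) :
    ∀ ⦃A : Type⦄ [CommRing A] [IsLocalRing A] [Algebra 𝒪 A], GaloisRepAdic A → Prop :=
  fun _A _ _ _ ρ =>
    pCond 𝒪 p t Sig ρ ∧ ∀ q ∈ Smin, q.Prime → q ≠ p → ρ.IsUnipotentOnInertiaAt q

/-- **Wiles's level `N_Σ`.** -/
noncomputable def wilesLevel (p : ℕ) (t : PType) (Smin Sig : Finset ℕ) : ℕ :=
  (∏ q ∈ Smin.erase p, q) * (∏ q ∈ Sig \ Smin, q ^ 2) *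
    (match t with
      | .flat => 1
      | .sord => p
      | .ord => p)

section RT

variable (p : ℕ) [Fact p.Prime]
  (𝒪 : Type) [CommRing 𝒪] [IsDomain 𝒪] [IsDiscreteValuationRing 𝒪]
  [IsAdicComplete (maximalIdeal 𝒪) 𝒪]
  (ρbar : ResidualGaloisRep (ResidueField 𝒪))

/-- **Modularity of `ρ̄` at level `N` away from `S`**: a character `θ` of the anemic Hecke algebra
with values in the residue field whose values at the `T_ℓ` are the traces of Frobenius. -/
def ResModular (N : ℕ) (S : Finset ℕ) : Prop :=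
  ∃ (_ : NeZero N) (θ : CuspForm.heckeAlgebra N 2 (↑S : Set ℕ) →+* ResidueField 𝒪),
    G4.ResFrobCond ρbar θ

/-- **`R_Σ ≅ T_Σ`** with the numerical invariant.  `T_Σ` is the Prelude ring
`CuspForm.heckeLocal N_Σ Σ 𝒪 θ`; `H` is a Hecke–Galois datum on it (layer G4) of type `Σ`;
EVERY compatible map `φ : R_Σ → T_Σ` from a universal deformation ring of type `Σ` (one exists
by S53 + S54) is bijective, and `#Φ_R = #(𝒪/η_T) < ∞` at some `𝒪`-point `π` of `T_Σ`. -/
def RTIso (t : PType) (Smin Sig : Finset ℕ) : Prop :=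
  ∃ (_ : NeZero (wilesLevel p t Smin Sig))
    (_ : Fact (CuspForm.HasIntegralStructure (wilesLevel p t Smin Sig) 2))
    (θ : CuspForm.heckeAlgebra (wilesLevel p t Smin Sig) 2 (↑Sig : Set ℕ) →+* ResidueField 𝒪)
    (_ : IsLocalRing (CuspForm.heckeLocal (wilesLevel p t Smin Sig) (↑Sig : Set ℕ) 𝒪 θ))
    (_ : IsNoetherianRing (CuspForm.heckeLocal (wilesLevel p t Smin Sig) (↑Sig : Set ℕ) 𝒪 θ))
    (_ : IsAdicComplete
      (maximalIdeal (CuspForm.heckeLocal (wilesLevel p t Smin Sig) (↑Sig : Set ℕ) 𝒪 θ))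
      (CuspForm.heckeLocal (wilesLevel p t Smin Sig) (↑Sig : Set ℕ) 𝒪 θ))
    (_ : IsLocalHom
      (algebraMap 𝒪 (CuspForm.heckeLocal (wilesLevel p t Smin Sig) (↑Sig : Set ℕ) 𝒪 θ)))
    (_ : Module.Finite 𝒪 (CuspForm.heckeLocal (wilesLevel p t Smin Sig) (↑Sig : Set ℕ) 𝒪 θ))
    (_ : Module.Free 𝒪 (CuspForm.heckeLocal (wilesLevel p t Smin Sig) (↑Sig : Set ℕ) 𝒪 θ))
    (H : CuspForm.HeckeGaloisRepDatum (wilesLevel p t Smin Sig) (↑Sig : Set ℕ) 𝒪 θ
      (CuspForm.heckeLocal (wilesLevel p t Smin Sig) (↑Sig : Set ℕ) 𝒪 θ)),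
    H.π = CuspForm.heckeLocal.π (wilesLevel p t Smin Sig) (↑Sig : Set ℕ) 𝒪 θ ∧
    H.ρ.residual.IsEquiv (ρbar.baseChangeAlong (ResidueField.map (algebraMap 𝒪
      (CuspForm.heckeLocal (wilesLevel p t Smin Sig) (↑Sig : Set ℕ) 𝒪 θ)))) ∧
    sigmaCond 𝒪 p t Smin Sig H.ρ ∧
    ∀ (D : GaloisRep.DeformationRingData 𝒪 ρbar (sigmaCond 𝒪 p t Smin Sig))
      (φ : D.R →ₐ[𝒪] CuspForm.heckeLocal (wilesLevel p t Smin Sig) (↑Sig : Set ℕ) 𝒪 θ),
      (∃ hφ : IsLocalHom
          (φ : D.R →+* CuspForm.heckeLocal (wilesLevel p t Smin Sig) (↑Sig : Set ℕ) 𝒪 θ),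
        (D.ρ.baseChangeAlong
          (φ : D.R →+* CuspForm.heckeLocal (wilesLevel p t Smin Sig) (↑Sig : Set ℕ) 𝒪 θ)
          hφ).IsEquiv H.ρ) →
      Function.Bijective φ ∧
        ∃ π : CuspForm.heckeLocal (wilesLevel p t Smin Sig) (↑Sig : Set ℕ) 𝒪 θ →ₐ[𝒪] 𝒪,
          Finite (NC.Cot (π.comp φ)) ∧
          Nat.card (NC.Cot (π.comp φ)) = Nat.card (𝒪 ⧸ NC.congIdeal π)

/-- The standing hypotheses on `ρ̄` (those of the frozen S56) and on the minimal set `Smin`. -/
structure ResidualHyp (Smin : Finset ℕ) : Prop where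
  hp2 : p ≠ 2
  hp𝒪 : (p : 𝒪) ∈ maximalIdeal 𝒪
  habs : ρbar.IsAbsolutelyIrreducible
  hdet : (GaloisRepAdic.ofResidualGaloisRep ρbar).DetIsCyclotomic p
  hsplit : ∀ σ : AlgebraicClosure ℚ ≃ₐ[ℚ] AlgebraicClosure ℚ,
    ∃ α β : ResidueField 𝒪, LinearMap.charpoly (ρbar.ρ σ) = (X - C α) * (X - C β)
  hTW : ∀ (K : Type) [Field K] [Algebra (ResidueField 𝒪) K]
    (G : Subgroup (AlgebraicClosure ℚ ≃ₐ[ℚ] AlgebraicClosure ℚ)), G.index = 2 →
    ∀ V : Submodule K (ρbar.baseChange K).V,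
      (∀ σ ∈ G, ∀ x ∈ V, (ρbar.baseChange K).ρ σ x ∈ V) → V = ⊥ ∨ V = ⊤
  hpSmin : p ∈ Smin
  hSmin : ∀ q ∈ Smin, q.Prime
  hmin : ∀ q : ℕ, q.Prime → q ≠ p → (q ∈ Smin ↔ ¬ ρbar.IsUnramifiedAt q)
  hunip : ∀ q ∈ Smin, q.Prime → q ≠ p →
    (GaloisRepAdic.ofResidualGaloisRep ρbar).IsUnipotentOnInertiaAt q

end RT

/-- **Cell TW: the minimal case** `R_min ≅ T_min` (Taylor–Wiles).
`t = .flat`: `ρ̄` flat at `p`, level prime to `p`.  `t = .sord`: `ρ̄` strictly ordinary and NOT flat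
at `p` (très ramifié), level exactly divisible by `p`.  `𝒪` is large: `T_min` has an `𝒪`-point. -/
def MinRTStatement : Prop :=
  ∀ (p : ℕ) [Fact p.Prime]
    (𝒪 : Type) [CommRing 𝒪] [IsDomain 𝒪] [IsDiscreteValuationRing 𝒪]
    [IsAdicComplete (maximalIdeal 𝒪) 𝒪] [Finite (ResidueField 𝒪)] [CharZero 𝒪]
    (ρbar : ResidualGaloisRep (ResidueField 𝒪)) (Smin : Finset ℕ)
    (_h : ResidualHyp p 𝒪 ρbar Smin) (t : PType)
    (_ht : (t = .flat ∧ (GaloisRepAdic.ofResidualGaloisRep ρbar).IsFlatAt p) ∨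
      (t = .sord ∧ (GaloisRepAdic.ofResidualGaloisRep ρbar).IsStrictOrdinaryAt p ∧
        ¬ (GaloisRepAdic.ofResidualGaloisRep ρbar).IsFlatAt p))
    (_hN : NeZero (wilesLevel p t Smin Smin))
    (χ : CuspForm.heckeAlgebra (wilesLevel p t Smin Smin) 2 (↑Smin : Set ℕ) →+* 𝒪)
    (_hχ : G4.ResFrobCond ρbar ((residue 𝒪).comp χ)),
    RTIso p 𝒪 ρbar t Smin Smin

/-- **Cell NM: the induction step** `Σ → Σ ∪ {q}` (`q ∉ Σ`, so `q ≠ p` and `ρ̄` is unramified
at `q`): Wiles's numerical criterion. -/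
def NonMinStepStatement : Prop :=
  ∀ (p : ℕ) [Fact p.Prime]
    (𝒪 : Type) [CommRing 𝒪] [IsDomain 𝒪] [IsDiscreteValuationRing 𝒪]
    [IsAdicComplete (maximalIdeal 𝒪) 𝒪] [Finite (ResidueField 𝒪)] [CharZero 𝒪]
    (ρbar : ResidualGaloisRep (ResidueField 𝒪)) (Smin : Finset ℕ)
    (_h : ResidualHyp p 𝒪 ρbar Smin) (t : PType) (Sig : Finset ℕ)
    (_hSig : Smin ⊆ Sig) (_hSigP : ∀ q ∈ Sig, q.Prime)
    (q : ℕ) (_hq : q.Prime) (_hqS : q ∉ Sig),
    RTIso p 𝒪 ρbar t Smin Sig → RTIso p 𝒪 ρbar t Smin (insert q Sig)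

/-- **Cell NMP: the step at `p`**, from flat (level prime to `p`) to ordinary (level `N_Σ p`),
for `ρ̄` flat AND ordinary at `p`. -/
def NonMinPStatement : Prop :=
  ∀ (p : ℕ) [Fact p.Prime]
    (𝒪 : Type) [CommRing 𝒪] [IsDomain 𝒪] [IsDiscreteValuationRing 𝒪]
    [IsAdicComplete (maximalIdeal 𝒪) 𝒪] [Finite (ResidueField 𝒪)] [CharZero 𝒪]
    (ρbar : ResidualGaloisRep (ResidueField 𝒪)) (Smin : Finset ℕ)
    (_h : ResidualHyp p 𝒪 ρbar Smin) (Sig : Finset ℕ)
    (_hSig : Smin ⊆ Sig) (_hSigP : ∀ q ∈ Sig, q.Prime)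
    (_hord : (GaloisRepAdic.ofResidualGaloisRep ρbar).IsOrdinaryAt p),
    RTIso p 𝒪 ρbar .flat Smin Sig → RTIso p 𝒪 ρbar .ord Smin Sig

/-- **The residual representation of `W` over `k ⊇ 𝔽_p`.** -/
noncomputable def curveResidual (p : ℕ) [Fact p.Prime] (W : WeierstrassCurve ℤ)
    (hcard : Nat.card (Submodule.torsionBy ℤ
      ((W.map (Int.castRingHom ℚ))⁄(AlgebraicClosure ℚ)).Point p) = p ^ 2)
    (hker : GaloisFactorsThroughFiniteLevel
      (WeierstrassCurve.Affine.Point.galoisRepModuleEnd (K := AlgebraicClosure ℚ) ℚ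
        (W.map (Int.castRingHom ℚ)) p))
    {k : Type} [Field k] (ι : ZMod p →+* k) : ResidualGaloisRep k :=
  ((W.map (Int.castRingHom ℚ)).residualGaloisRepOf p hcard hker).baseChangeAlong ι

/-- `Smin = {p} ∪ Ram(ρ̄)`. -/
def IsMinSet {k : Type} [Field k] (p : ℕ) (ρbar : ResidualGaloisRep k) (Smin : Finset ℕ) : Prop :=
  p ∈ Smin ∧ (∀ q ∈ Smin, q.Prime) ∧
    ∀ q : ℕ, q.Prime → q ≠ p → (q ∈ Smin ↔ ¬ ρbar.IsUnramifiedAt q)

/-- **Cell LO: level optimisation** (Prelude language; no coefficient ring).  Under the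
hypotheses of S59, `W` is residually modular of the minimal level
`N_min = ∏_{q ∈ Ram(E[p]), q ≠ p} q · (p if E[p] is not flat at p)`.
Inputs: frozen S38 (`q ∥ M`, `E[p]` unramified at `q`), S39/S40 (at `p`), and the removal of
squares `q² ∥ M₀` (cell LO, leaf SQ). -/
def LevelOptStatement : Prop :=
  ∀ (p : ℕ) [Fact p.Prime] (_hp : p = 3 ∨ p = 5)
    (W : WeierstrassCurve ℤ) (_hΔ : W.Δ ≠ 0) (_hW : W.IsSemistableModel)
    (_hirr : W.ModRepIsIrreducible p)
    (M₀ : ℕ) [NeZero M₀] (_hres₀ : W.IsResiduallyModularOfLevel p M₀)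
    (_hM₀ : ¬ p ^ 2 ∣ M₀)
    (_hM₀3 : ∀ q : ℕ, q.Prime → q ≠ p → ¬ q ^ 3 ∣ M₀)
    (hcard : Nat.card (Submodule.torsionBy ℤ
      ((W.map (Int.castRingHom ℚ))⁄(AlgebraicClosure ℚ)).Point p) = p ^ 2)
    (hker : GaloisFactorsThroughFiniteLevel
      (WeierstrassCurve.Affine.Point.galoisRepModuleEnd (K := AlgebraicClosure ℚ) ℚ
        (W.map (Int.castRingHom ℚ)) p))
    (Smin : Finset ℕ)
    (_hSmin : IsMinSet p ((W.map (Int.castRingHom ℚ)).residualGaloisRepOf p hcard hker) Smin)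
    (t : PType)
    (_ht : (t = .flat ∧ (GaloisRepAdic.ofResidualGaloisRep
          ((W.map (Int.castRingHom ℚ)).residualGaloisRepOf p hcard hker)).IsFlatAt p) ∨
      (t = .sord ∧ ¬ (GaloisRepAdic.ofResidualGaloisRep
          ((W.map (Int.castRingHom ℚ)).residualGaloisRepOf p hcard hker)).IsFlatAt p)),
    W.IsResiduallyModularOfLevel p (wilesLevel p t Smin Smin)

/-- **Cell DICT: coefficients.**  If `W` is residually modular of level `N` (Prelude language:
an eigenform and a maximal ideal of `ℤ̄`), then over a suitable coefficient ring `𝒪` (complete DVR,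
characteristic `0`, finite residue field `k` in which every monic quadratic polynomial over `𝔽_p`
splits) there is an `𝒪`-valued character `χ` of the anemic Hecke algebra of level `N` away from
any finite `S ⊇ {p} ∪ primes(N)` whose reduction is the Frobenius character of `E[p] ⊗ k`.
(Completion of `ℤ[a_n(f)]` at `𝔪`, unramified quadratic extension; S42 + Chebotarev +
Brauer–Nesbitt for the primes `ℓ ∉ S` which are bad for `W`.) -/
def DictStatement : Prop :=
  ∀ (p : ℕ) [Fact p.Prime] (_hp2 : p ≠ 2)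
    (W : WeierstrassCurve ℤ) (_hΔ : W.Δ ≠ 0) (_hW : W.IsSemistableModel)
    (_hirr : W.ModRepIsIrreducible p)
    (hcard : Nat.card (Submodule.torsionBy ℤ
      ((W.map (Int.castRingHom ℚ))⁄(AlgebraicClosure ℚ)).Point p) = p ^ 2)
    (hker : GaloisFactorsThroughFiniteLevel
      (WeierstrassCurve.Affine.Point.galoisRepModuleEnd (K := AlgebraicClosure ℚ) ℚ
        (W.map (Int.castRingHom ℚ)) p))
    (N : ℕ) [NeZero N] (S : Finset ℕ) (_hpS : p ∈ S) (_hS : ∀ q ∈ S, q.Prime)
    (_hNS : ∀ q : ℕ, q.Prime → q ∣ N → q ∈ S)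
    (_hmod : W.IsResiduallyModularOfLevel p N),
    ∃ (𝒪 : Type) (_ : CommRing 𝒪) (_ : IsDomain 𝒪) (_ : IsDiscreteValuationRing 𝒪)
      (_ : IsAdicComplete (maximalIdeal 𝒪) 𝒪) (_ : Finite (ResidueField 𝒪))
      (_ : CharZero 𝒪) (ι : ZMod p →+* ResidueField 𝒪)
      (χ : CuspForm.heckeAlgebra N 2 (↑S : Set ℕ) →+* 𝒪),
      (p : 𝒪) ∈ maximalIdeal 𝒪 ∧
      (∀ f : (ZMod p)[X], f.Monic → f.natDegree = 2 →
        ∃ α β : ResidueField 𝒪, f.map ι = (X - C α) * (X - C β)) ∧
      G4.ResFrobCond (curveResidual p W hcard hker ι) ((residue 𝒪).comp χ)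

/-- **Cell GTW: the standing hypotheses hold for `E[p]`** (`W` semistable, `E[p]` irreducible,
`p ∈ {3, 5}`): absolute irreducibility, cyclotomic determinant (Weil pairing), splitting of the
characteristic polynomials, irreducibility on every subgroup of index `2` (Serre: the image
contains `SL₂(𝔽_p)`), unipotent inertia at the ramified primes `q ≠ p`. -/
def CurveResidualHypStatement : Prop :=
  ∀ (p : ℕ) [Fact p.Prime] (_hp : p = 3 ∨ p = 5)
    (W : WeierstrassCurve ℤ) (_hΔ : W.Δ ≠ 0) (_hW : W.IsSemistableModel)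
    (_hirr : W.ModRepIsIrreducible p)
    (hcard : Nat.card (Submodule.torsionBy ℤ
      ((W.map (Int.castRingHom ℚ))⁄(AlgebraicClosure ℚ)).Point p) = p ^ 2)
    (hker : GaloisFactorsThroughFiniteLevel
      (WeierstrassCurve.Affine.Point.galoisRepModuleEnd (K := AlgebraicClosure ℚ) ℚ
        (W.map (Int.castRingHom ℚ)) p))
    (𝒪 : Type) [CommRing 𝒪] [IsDomain 𝒪] [IsDiscreteValuationRing 𝒪]
    [IsAdicComplete (maximalIdeal 𝒪) 𝒪] [Finite (ResidueField 𝒪)] [CharZero 𝒪]
    (_hp𝒪 : (p : 𝒪) ∈ maximalIdeal 𝒪)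
    (ι : ZMod p →+* ResidueField 𝒪)
    (_hι : ∀ f : (ZMod p)[X], f.Monic → f.natDegree = 2 →
      ∃ α β : ResidueField 𝒪, f.map ι = (X - C α) * (X - C β))
    (Smin : Finset ℕ) (_hSmin : IsMinSet p (curveResidual p W hcard hker ι) Smin),
    ResidualHyp p 𝒪 (curveResidual p W hcard hker ι) Smin

/-- **Cell COND: the conditions of type `Σ` are deformation conditions with finite tangent
space** (inputs of S53).  On main for `.flat` (modulo Raynaud closure of Hopf models, row A3) and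
`.sord` (`Fermat.Agent.S59.H659`, `H779`, `H247`); `.ord` is a small leaf. -/
def SigmaCondStatement : Prop :=
  ∀ (p : ℕ) [Fact p.Prime] (_hp2 : p ≠ 2)
    (𝒪 : Type) [CommRing 𝒪] [IsDomain 𝒪] [IsDiscreteValuationRing 𝒪]
    [IsAdicComplete (maximalIdeal 𝒪) 𝒪] [Finite (ResidueField 𝒪)]
    (_hp𝒪 : (p : 𝒪) ∈ maximalIdeal 𝒪)
    (t : PType) (Smin Sig : Finset ℕ),
    GaloisRep.IsDeformationCondition 𝒪 (sigmaCond 𝒪 p t Smin Sig) ∧
      ∀ ρbar : ResidualGaloisRep (ResidueField 𝒪),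
        GaloisRep.TangentFinite 𝒪 ρbar (sigmaCond 𝒪 p t Smin Sig)

/-- **Cell BC: base change of the residual data** `𝔽_p → k`: ramification and flatness of
`E[p] ⊗ k` are those of `E[p]`. -/
def ResidualBCStatement : Prop :=
  ∀ (p : ℕ) [Fact p.Prime] (ρbar : ResidualGaloisRep (ZMod p))
    (k : Type) [Field k] [Finite k] (ι : ZMod p →+* k),
    (∀ q : ℕ, q.Prime → ((ρbar.baseChangeAlong ι).IsUnramifiedAt q ↔ ρbar.IsUnramifiedAt q)) ∧
    ((GaloisRepAdic.ofResidualGaloisRep (ρbar.baseChangeAlong ι)).IsFlatAt p ↔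
      (GaloisRepAdic.ofResidualGaloisRep ρbar).IsFlatAt p)

/-- **The modularity lifting theorem in point form, v2** (`𝒪` is chosen by the proof).
Same conclusion as `SemistableMLTStatement`, for SOME coefficient ring and SOME `CurveRep`. -/
def SemistableMLT2Statement : Prop :=
  ∀ (p : ℕ) [Fact p.Prime] (_hp : p = 3 ∨ p = 5)
    (W : WeierstrassCurve ℤ) (_hΔ : W.Δ ≠ 0) (_hW : W.IsSemistableModel)
    (_hirr : W.ModRepIsIrreducible p)
    (M₀ : ℕ) [NeZero M₀] (_hres₀ : W.IsResiduallyModularOfLevel p M₀)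
    (_hM₀ : ¬ p ^ 2 ∣ M₀)
    (_hM₀3 : ∀ q : ℕ, q.Prime → q ≠ p → ¬ q ^ 3 ∣ M₀),
    ∃ (𝒪 : Type) (_ : CommRing 𝒪) (_ : IsDomain 𝒪) (_ : IsDiscreteValuationRing 𝒪)
      (_ : IsAdicComplete (maximalIdeal 𝒪) 𝒪) (_ : Finite (ResidueField 𝒪))
      (_ : CharZero 𝒪) (ρW : CurveRep p W 𝒪)
      (N : ℕ) (_ : NeZero N) (S : Finset ℕ),
      ¬ p ^ 2 ∣ N ∧ (∀ q : ℕ, q.Prime → ¬ q ^ 3 ∣ N) ∧
      (∀ ℓ : ℕ, ℓ.Prime → (ℓ : ℤ) ∣ W.Δ → ℓ ∣ N) ∧
      (∀ ℓ ∈ S, ℓ.Prime) ∧ (∀ ℓ ∈ S, ℓ = p ∨ ℓ ∣ N) ∧ p ∈ S ∧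
      (∀ q : ℕ, q.Prime → q ∣ N → q ∈ S) ∧
      ∃ (θ : CuspForm.heckeAlgebra N 2 (↑S : Set ℕ) →+* ResidueField 𝒪)
        (T : Type) (_ : CommRing T) (_ : IsLocalRing T) (_ : IsNoetherianRing T)
        (_ : IsAdicComplete (maximalIdeal T) T) (_ : Algebra 𝒪 T)
        (_ : IsLocalHom (algebraMap 𝒪 T)) (_ : Module.Finite 𝒪 T) (_ : Module.Free 𝒪 T)
        (H : CuspForm.HeckeGaloisRepDatum N (↑S : Set ℕ) 𝒪 θ T),
        PointOfDatum H ρW.ρ

end Fermat.Agent.S59.Arch

end
-- ===== PACK-END S59/Arch/SpecRT.lean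

-- ===== PACK-BEGIN S56/H186/TameQbar.lean
section



/-!
# S56 / leaf TAME-CYC (helper186): the statements over `ℚ̄ = AlgebraicClosure ℚ`

Exactly in the vocabulary of the Prelude (`ValuationSubring.LiesOverPrime`,
`ValuationSubring.inertiaSubgroupIn ℚ`, `ValuationSubring.IsFrobeniusAt`,
finite level = `∃ E : IntermediateField ℚ ℚ̄, FiniteDimensional ℚ E ∧ …`).

* `tame_cyclic` : image of inertia at `q` under a finite-level `π` with `p`-power torsion image on
  inertia (`p` prime to `q`) is generated by one element `π τ₀`, `τ₀` in the inertia group.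
* `tame_frobenius` : `π (φ σ φ⁻¹) = π σ ^ q` for a Frobenius `φ` and `σ` in the inertia group.
-/

set_option autoImplicit false

namespace Fermat.Agent.S56.H186

theorem isAlgebraic_Qbar_h186 : Algebra.IsAlgebraic ℚ (AlgebraicClosure ℚ) :=
  AlgebraicClosure.isAlgebraic ℚ

variable (A : ValuationSubring (AlgebraicClosure ℚ)) {q : ℕ}
  {Γ : Type*} [Monoid Γ] (π : (AlgebraicClosure ℚ ≃ₐ[ℚ] AlgebraicClosure ℚ) →* Γ)

/-- **TAME-CYC (CYC).** -/
theorem tame_cyclic (hq : A.LiesOverPrime q) (hqp : q.Prime)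
    (hlevel : ∃ E : IntermediateField ℚ (AlgebraicClosure ℚ), FiniteDimensional ℚ E ∧
      ∀ σ : AlgebraicClosure ℚ ≃ₐ[ℚ] AlgebraicClosure ℚ, (∀ x ∈ E, σ x = x) → π σ = 1)
    {p : ℕ} (hpq : Nat.Coprime p q)
    (hp : ∀ σ ∈ A.inertiaSubgroupIn ℚ, ∃ a : ℕ, π σ ^ (p ^ a) = 1) :
    ∃ τ₀ ∈ A.inertiaSubgroupIn ℚ, ∀ σ ∈ A.inertiaSubgroupIn ℚ, ∃ j : ℕ, π σ = π τ₀ ^ j :=
  haveI := isAlgebraic_Qbar_h186
  exists_generator_inertia_image A π hq hqp hlevel hpq hp

/-- **TAME-CYC (FROB).** -/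
theorem tame_frobenius (hq : A.LiesOverPrime q) (hqp : q.Prime)
    (hlevel : ∃ E : IntermediateField ℚ (AlgebraicClosure ℚ), FiniteDimensional ℚ E ∧
      ∀ σ : AlgebraicClosure ℚ ≃ₐ[ℚ] AlgebraicClosure ℚ, (∀ x ∈ E, σ x = x) → π σ = 1)
    {p : ℕ} (hpq : Nat.Coprime p q)
    (hp : ∀ σ ∈ A.inertiaSubgroupIn ℚ, ∃ a : ℕ, π σ ^ (p ^ a) = 1)
    {φ : AlgebraicClosure ℚ ≃ₐ[ℚ] AlgebraicClosure ℚ} (hφ : A.IsFrobeniusAt φ q)
    {σ : AlgebraicClosure ℚ ≃ₐ[ℚ] AlgebraicClosure ℚ} (hσ : σ ∈ A.inertiaSubgroupIn ℚ) :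
    π (φ * σ * φ⁻¹) = π σ ^ q :=
  haveI := isAlgebraic_Qbar_h186
  map_frobenius_conj_inertia A π hq hqp hlevel hpq hp hφ hσ

/-- Test against the Prelude: a residual representation `ρbar` has finite level in the
sense required above. -/
example {k : Type} [Field k] (ρbar : ResidualGaloisRep k) :
    ∃ E : IntermediateField ℚ (AlgebraicClosure ℚ), FiniteDimensional ℚ E ∧
      ∀ σ : AlgebraicClosure ℚ ≃ₐ[ℚ] AlgebraicClosure ℚ, (∀ x ∈ E, σ x = x) → ρbar.ρ σ = 1 :=
  ρbar.factorsThroughFiniteLevel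

end Fermat.Agent.S56.H186

end
-- ===== PACK-END S56/H186/TameQbar.lean

-- ===== PACK-BEGIN S19/H135/Indep.lean
section
/-
Cell A3 / WP-C (helper135): independence and descent for lattices of Galois-equivariant functions.
* `linearIndependent_Qb_of_equivariant`: `ℚ`-independent equivariant functions are `ℚ̄`-independent;
* `exists_basis_of_fg_equivariant`: a f.g. `ℤ_(ℓ)`-module of equivariant functions has a finite
  basis which is `ℚ̄`-linearly independent;
* `mem_of_integral_combination`: an equivariant combination of the basis with integral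
  coefficients has coefficients in `ℤ_(ℓ)`.
-/


set_option autoImplicit false

namespace Fermat.Agent.S19.H135

section Indep

variable {M : Type*} {ι : Type*}

/-- Artin-type lemma: a `ℚ`-linearly independent family of functions `M → ℚ̄` which are
equivariant for a family of surjections `act σ : M → M` is `ℚ̄`-linearly independent. -/
theorem linearIndependent_Qb_of_equivariant
    (act : (AlgebraicClosure ℚ ≃ₐ[ℚ] AlgebraicClosure ℚ) → M → M)
    (hact : ∀ σ, Function.Surjective (act σ))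
    (f : ι → M → AlgebraicClosure ℚ) (hf : ∀ i σ m, f i (act σ m) = σ (f i m))
    (hli : LinearIndependent ℚ f) : LinearIndependent (AlgebraicClosure ℚ) f := by
  classical
  rw [linearIndependent_iff']
  intro s
  induction s using Finset.strongInduction with
  | H s ih =>
    intro g hg i hi
    by_contra hne
    set c : ι → AlgebraicClosure ℚ := fun k => (g i)⁻¹ * g k with hc
    have hci : c i = 1 := inv_mul_cancel₀ hne
    have hsum : ∑ k ∈ s, c k • f k = 0 := by
      have : ∑ k ∈ s, c k • f k = (g i)⁻¹ • ∑ k ∈ s, g k • f k := by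
        rw [Finset.smul_sum]
        refine Finset.sum_congr rfl (fun k _ => ?_)
        rw [smul_smul]
      rw [this, hg, smul_zero]
    have hfix : ∀ σ : AlgebraicClosure ℚ ≃ₐ[ℚ] AlgebraicClosure ℚ, ∀ k ∈ s, σ (c k) = c k := by
      intro σ
      have h1 : ∑ k ∈ s, σ (c k) • f k = 0 := by
        funext m
        obtain ⟨m', rfl⟩ := hact σ m
        have h := congrArg σ (congrFun hsum m')
        simp only [Finset.sum_apply, Pi.smul_apply, smul_eq_mul, map_sum, map_mul, map_zero,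
          Pi.zero_apply] at h ⊢
        rw [← h]
        refine Finset.sum_congr rfl (fun k _ => ?_)
        rw [hf]
      have h3 : ∑ k ∈ s, (σ (c k) - c k) • f k = 0 := by
        simp only [sub_smul, Finset.sum_sub_distrib, h1, hsum, sub_zero]
      have h2 : ∑ k ∈ s.erase i, (σ (c k) - c k) • f k = 0 := by
        rw [← Finset.add_sum_erase s _ hi] at h3
        simpa [hci] using h3
      intro k hk
      by_cases hki : k = i
      · subst hki
        rw [hci, map_one]
      · have := ih (s.erase i) (Finset.erase_ssubset hi) (fun k => σ (c k) - c k) h2 k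
          (Finset.mem_erase.mpr ⟨hki, hk⟩)
        exact sub_eq_zero.mp this
    have hrat : ∀ k ∈ s, ∃ q : ℚ, algebraMap ℚ (AlgebraicClosure ℚ) q = c k :=
      fun k hk => exists_rat_of_fixed (fun σ => hfix σ k hk)
    choose! q hq using hrat
    have hsumq : ∑ k ∈ s, q k • f k = 0 := by
      rw [← hsum]
      refine Finset.sum_congr rfl (fun k hk => ?_)
      rw [← hq k hk, algebraMap_smul]
    have hqi := linearIndependent_iff'.mp hli s q hsumq i hi
    have h1 : c i = 0 := by rw [← hq i hi, hqi, map_zero]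
    rw [hci] at h1
    exact one_ne_zero h1

end Indep

section Lattice

variable {ℓ : ℕ} [Fact ℓ.Prime] {M : Type}

omit [Fact ℓ.Prime] in
theorem isTorsionFree_fun_h135
    (N : Submodule (GaloisRep.ratLocalizedAt ℓ) (M → AlgebraicClosure ℚ)) :
    Module.IsTorsionFree (GaloisRep.ratLocalizedAt ℓ) N := by
  refine Module.IsTorsionFree.of_smul_eq_zero ?_
  intro r f hrf
  by_cases hr : r = 0
  · exact Or.inl hr
  · right
    apply Subtype.ext
    funext m
    have h1 : (r • (f : M → AlgebraicClosure ℚ)) m = 0 := by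
      have := congrArg (fun x : N => (x : M → AlgebraicClosure ℚ) m) hrf
      simpa using this
    rw [Pi.smul_apply, Algebra.smul_def, mul_eq_zero] at h1
    rcases h1 with h1 | h1
    · exfalso
      apply hr
      exact algebraMap_ratLocalizedAt_injective ℓ (by rw [h1, map_zero])
    · exact h1

/-- A finitely generated `ℤ_(ℓ)`-module of equivariant functions has a finite basis that is
linearly independent over `ℚ̄`. -/
theorem exists_basis_of_fg_equivariant
    (act : (AlgebraicClosure ℚ ≃ₐ[ℚ] AlgebraicClosure ℚ) → M → M)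
    (hact : ∀ σ, Function.Surjective (act σ))
    (N : Submodule (GaloisRep.ratLocalizedAt ℓ) (M → AlgebraicClosure ℚ)) (hfg : N.FG)
    (heq : ∀ f ∈ N, ∀ σ m, f (act σ m) = σ (f m)) :
    ∃ (n : ℕ) (b : Fin n → M → AlgebraicClosure ℚ), (∀ i, b i ∈ N) ∧
      LinearIndependent (AlgebraicClosure ℚ) b ∧
      Submodule.span (GaloisRep.ratLocalizedAt ℓ) (Set.range b) = N := by
  have hfin : Module.Finite (GaloisRep.ratLocalizedAt ℓ) N := Module.Finite.iff_fg.mpr hfg
  have htf : Module.IsTorsionFree (GaloisRep.ratLocalizedAt ℓ) N := isTorsionFree_fun_h135 N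
  have hfree : Module.Free (GaloisRep.ratLocalizedAt ℓ) N := inferInstance
  let B := Module.finBasis (GaloisRep.ratLocalizedAt ℓ) N
  refine ⟨_, fun i => (B i : M → AlgebraicClosure ℚ), fun i => (B i).2, ?_, ?_⟩
  · have h1 : LinearIndependent (GaloisRep.ratLocalizedAt ℓ)
        (fun i => (B i : M → AlgebraicClosure ℚ)) :=
      B.linearIndependent.map' N.subtype (Submodule.ker_subtype N)
    have hfr := isFractionRing_ratLocalizedAt ℓ
    have h2 : LinearIndependent ℚ (fun i => (B i : M → AlgebraicClosure ℚ)) :=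
      (LinearIndependent.iff_fractionRing (GaloisRep.ratLocalizedAt ℓ) ℚ).mp h1
    exact linearIndependent_Qb_of_equivariant act hact _ (fun i σ m => heq _ (B i).2 σ m) h2
  · have h1 : Set.range (fun i => (B i : M → AlgebraicClosure ℚ)) = N.subtype '' Set.range B := by
      rw [← Set.range_comp]
      rfl
    rw [h1, ← Submodule.map_span, B.span_eq, Submodule.map_subtype_top]

/-- Descent of coefficients: an equivariant combination of a `ℚ̄`-independent family of
equivariant functions with coefficients integral over `ℤ_(ℓ)` has coefficients in `ℤ_(ℓ)`. -/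
theorem mem_of_integral_combination
    (act : (AlgebraicClosure ℚ ≃ₐ[ℚ] AlgebraicClosure ℚ) → M → M)
    (hact : ∀ σ, Function.Surjective (act σ))
    {n : ℕ} (b : Fin n → M → AlgebraicClosure ℚ)
    (hb : ∀ i σ m, b i (act σ m) = σ (b i m))
    (hli : LinearIndependent (AlgebraicClosure ℚ) b)
    (z : Fin n → AlgebraicClosure ℚ) (hz : ∀ i, IsIntegral (GaloisRep.ratLocalizedAt ℓ) (z i))
    (hF : ∀ σ m, (∑ i, z i • b i) (act σ m) = σ ((∑ i, z i • b i) m)) :
    ∑ i, z i • b i ∈ Submodule.span (GaloisRep.ratLocalizedAt ℓ) (Set.range b) := by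
  have hfix : ∀ σ : AlgebraicClosure ℚ ≃ₐ[ℚ] AlgebraicClosure ℚ, ∀ i, σ (z i) = z i := by
    intro σ
    have h1 : ∑ i, (σ (z i) - z i) • b i = 0 := by
      funext m
      obtain ⟨m', rfl⟩ := hact σ m
      have h := hF σ m'
      simp only [Finset.sum_apply, Pi.smul_apply, smul_eq_mul, map_sum, map_mul, hb] at h
      simp only [Finset.sum_apply, Pi.smul_apply, smul_eq_mul, sub_mul, Finset.sum_sub_distrib,
        Pi.zero_apply, hb]
      rw [h, sub_self]
    intro i
    have := linearIndependent_iff'.mp hli Finset.univ _ h1 i (Finset.mem_univ i)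
    exact sub_eq_zero.mp this
  have hr : ∀ i, ∃ r : GaloisRep.ratLocalizedAt ℓ,
      algebraMap _ (AlgebraicClosure ℚ) r = z i :=
    fun i => exists_ratLocalizedAt_of_fixed_of_isIntegral ℓ (fun σ => hfix σ i) (hz i)
  choose r hr using hr
  have : ∑ i, z i • b i = ∑ i, r i • b i := by
    refine Finset.sum_congr rfl (fun i _ => ?_)
    rw [← hr i, algebraMap_smul]
  rw [this]
  exact Submodule.sum_mem _ (fun i _ => Submodule.smul_mem _ _ (Submodule.subset_span ⟨i, rfl⟩))

end Lattice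

end Fermat.Agent.S19.H135

end
-- ===== PACK-END S19/H135/Indep.lean

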