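import Mathlib
import Fermat.Prelude.Def_GaloisRep_ComplexConjugation
import Fermat.Prelude.Def_GaloisRep_DeformationCondition
import Fermat.Prelude.Def_CuspForm_HeckeAlgebra
import Fermat.Agent.Pack.S43GC.G0E7L3
import Fermat.Agent.Pack.S43GC.G0E3L3
import Fermat.Agent.Pack.S43GC.G0E7L2
import Fermat.Agent.Pack.S43GC.G0E7L0
import Fermat.Agent.Pack.S43GC.G0E5L2
import Fermat.Agent.Pack.S43GC.G0E0L1
import Fermat.Agent.Pack.S43GC.G0E6L1
import Fermat.Agent.Pack.S43GC.G0E4L2
import Fermat.Agent.Pack.S43GC.G0E6L3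
import Fermat.Agent.Pack.S44C.G0E6L2
import Fermat.Agent.Pack.S44C.G0E12L3
import Fermat.Agent.Pack.S43GC.G0E3L1
import Fermat.Agent.Pack.S43GC.G0E7L1
import Fermat.Agent.Pack.S44C.G0E10L2
import Fermat.Agent.Pack.S43GC.G0E4L0
import Fermat.Agent.Pack.S43GC.G0E9L0
import Fermat.Agent.Pack.Fast891

-- ===== PACK-BEGIN S55/PT/LesNatH113.lean
section


/-!
# S55 / PT layer, leaf D-F6 (helper113): the connecting maps do not depend on choices and are
natural

* `del0_eq_of_lift`, `del1_eq_of_lift`: `δ⁰`, `δ¹` computed from ARBITRARY lifts;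
* `resH1_del0`, `resH2_del1`: naturality with respect to restriction along a level-compatible
  group homomorphism;
* `pushH1_del0`, `pushH2_del1`: naturality with respect to morphisms of short exact sequences.
-/

set_option autoImplicit false

noncomputable section

namespace Fermat.Agent.S55.PT.H113

open groupCohomology Fermat.Agent.S55.PT

variable {k : Type} [Field k] {G : Type} [Group G]
variable {A B C : Rep.{0, 0, 0} k G} (E : SES A B C) (L : LevelSys G)

/-- `δ⁰` computed from an arbitrary lift `b` of the invariant `c` and the cocycle `a` with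
`i ∘ a = d b`. -/
theorem del0_eq_of_lift (hB : L.IsUSmooth B) (c : ↥(LevelSys.H0 C)) (b : B)
    (hb : E.π b = (c : C)) (a : ↥(L.Z1 A)) (ha : E.i ∘ (a : G → A) = (d₀₁ B).hom b) :
    E.del0 L hB c = L.H1π A a := by
  rw [SES.del0_apply, ← sub_eq_zero, ← map_sub, LevelSys.H1π_eq_zero_iff]
  have hker : E.π (E.sec (c : C) - b) = 0 := by
    rw [map_sub, E.π_sec, hb, sub_self]
  refine ⟨E.ret (E.sec (c : C) - b), ?_⟩
  apply ses_comp_injective E
  rw [← push_d₀₁ E.i E.hi, E.i_ret hker, map_sub]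
  have h1 := E.i_comp_del0Fun c
  funext g
  have h1g := congrFun h1 g
  have hag := congrFun ha g
  simp only [Function.comp_apply] at h1g hag
  simp only [Pi.sub_apply, Function.comp_apply, Submodule.coe_sub, map_sub]
  rw [← h1g, ← hag]

/-- `δ¹` computed from an arbitrary level-constant lift `x` of the cocycle `c` and the cocycle
`a` with `i ∘ a = d x`. -/
theorem del1_eq_of_lift (hN : L.NormalCofinal) (hB : L.IsUSmooth B) (hC : L.IsUSmooth C)
    (c : ↥(L.Z1 C)) (x : G → B) (hx : L.IsLC₁ x) (hπx : E.π ∘ x = (c : G → C))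
    (a : ↥(L.Z2 A)) (ha : E.i ∘ (a : G × G → A) = (d₁₂ B).hom x) :
    E.del1 L hN hB hC (L.H1π C c) = L.H2π A a := by
  rw [SES.del1_mk, ← sub_eq_zero, ← map_sub, LevelSys.H2π_eq_zero_iff]
  have hclc : L.IsLC₁ (c : G → C) := c.2.2
  have hker : ∀ g, E.π ((E.sec ∘ (c : G → C) - x) g) = 0 := by
    intro g
    have h := congrFun hπx g
    simp only [Function.comp_apply] at h
    simp only [Pi.sub_apply, Function.comp_apply, map_sub, E.π_sec, h, sub_self]
  refine ⟨E.ret ∘ (E.sec ∘ (c : G → C) - x),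
    (((L.C1 B).sub_mem (hclc.comp E.sec) hx) : L.IsLC₁ _).comp E.ret, ?_⟩
  apply ses_comp_injective E
  rw [← push_d₁₂ E.i E.hi, E.i_comp_ret_comp hker, map_sub]
  have h1 := E.i_comp_del1Fun c.2.1
  funext g
  have h1g := congrFun h1 g
  have hag := congrFun ha g
  simp only [Function.comp_apply] at h1g hag
  simp only [Pi.sub_apply, Function.comp_apply, Submodule.coe_sub, map_sub]
  rw [← h1g, ← hag]

/-! ### Naturality with respect to restriction -/

section Res

variable {G' : Type} [Group G'] {r : G' →* G} {L} {L' : LevelSys G'}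

/-- restriction of a uniformly smooth representation along a level-compatible map is
uniformly smooth. -/
theorem isUSmooth_res (hr : IsLevelCompatible r L L') {B : Rep.{0, 0, 0} k G}
    (hB : L.IsUSmooth B) : L'.IsUSmooth (Rep.res r B) := by
  obtain ⟨U, hU, h⟩ := hB
  obtain ⟨V, hV, hle⟩ := hr U hU
  exact ⟨V, hV, fun s hs a => h (r s) (hle hs) a⟩

/-- `res ∘ δ⁰ = δ⁰ ∘ res`. -/
theorem resH1_del0 (hr : IsLevelCompatible r L L') (hB : L.IsUSmooth B)
    (hB' : L'.IsUSmooth (Rep.res r B)) (c : ↥(LevelSys.H0 C)) :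
    resH1 hr A (E.del0 L hB c) = (E.res r).del0 L' hB' (resH0 r C c) := by
  rw [SES.del0_apply, resH1_mk]
  symm
  refine del0_eq_of_lift (E.res r) L' hB' (resH0 r C c) (E.sec (c : C)) (E.π_sec _) _ ?_
  have h1 := E.i_comp_del0Fun c
  funext g
  have h1g := congrFun h1 (r g)
  exact h1g

/-- `res ∘ δ¹ = δ¹ ∘ res`. -/
theorem resH2_del1 (hr : IsLevelCompatible r L L') (hN : L.NormalCofinal)
    (hN' : L'.NormalCofinal) (hB : L.IsUSmooth B) (hC : L.IsUSmooth C)
    (hB' : L'.IsUSmooth (Rep.res r B)) (hC' : L'.IsUSmooth (Rep.res r C)) (x : L.H1 C) :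
    resH2 hr A (E.del1 L hN hB hC x) = (E.res r).del1 L' hN' hB' hC' (resH1 hr C x) := by
  obtain ⟨c, rfl⟩ := L.H1π_surjective C x
  rw [SES.del1_mk, resH2_mk, resH1_mk]
  symm
  have hclc : L.IsLC₁ (c : G → C) := c.2.2
  refine del1_eq_of_lift (E.res r) L' hN' hB' hC' (resZ1 hr C c) ((E.sec ∘ (c : G → C)) ∘ r)
    (IsLC₁.res hr (hclc.comp E.sec)) ?_ _ ?_
  · funext g
    exact E.π_sec _
  · have h1 := E.i_comp_del1Fun c.2.1
    rw [coe_resZ2]
    have h2 := res_d₁₂ (r := r) B (E.sec ∘ (c : G → C))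
    rw [h2, ← h1]
    rfl

end Res

/-! ### Naturality with respect to morphisms of short exact sequences -/

section Mor

variable {A' B' C' : Rep.{0, 0, 0} k G} (E' : SES A' B' C')
variable (α : A →ₗ[k] A') (β : B →ₗ[k] B') (γ : C →ₗ[k] C')
variable (hα : IsEquivariant α) (hβ : IsEquivariant β) (hγ : IsEquivariant γ)
variable (hl : ∀ a, β (E.i a) = E'.i (α a)) (hr : ∀ b, γ (E.π b) = E'.π (β b))

include hβ hl hr in
/-- `α_* ∘ δ⁰ = δ⁰ ∘ γ_*`. -/
theorem pushH1_del0 (hB : L.IsUSmooth B) (hB' : L.IsUSmooth B') (c : ↥(LevelSys.H0 C)) :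
    pushH1 α hα L (E.del0 L hB c) = E'.del0 L hB' (pushH0 γ hγ c) := by
  rw [SES.del0_apply, pushH1_mk]
  symm
  refine del0_eq_of_lift E' L hB' (pushH0 γ hγ c) (β (E.sec (c : C))) ?_ _ ?_
  · rw [← hr, E.π_sec, coe_pushH0]
  · rw [coe_pushZ1, push_d₀₁ β hβ, ← E.i_comp_del0Fun c]
    funext g
    exact (hl _).symm

include hβ hl hr in
/-- `α_* ∘ δ¹ = δ¹ ∘ γ_*`. -/
theorem pushH2_del1 (hN : L.NormalCofinal) (hB : L.IsUSmooth B) (hC : L.IsUSmooth C)
    (hB' : L.IsUSmooth B') (hC' : L.IsUSmooth C') (x : L.H1 C) :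
    pushH2 α hα L (E.del1 L hN hB hC x) = E'.del1 L hN hB' hC' (pushH1 γ hγ L x) := by
  obtain ⟨c, rfl⟩ := L.H1π_surjective C x
  rw [SES.del1_mk, pushH2_mk, pushH1_mk]
  symm
  have hclc : L.IsLC₁ (c : G → C) := c.2.2
  refine del1_eq_of_lift E' L hN hB' hC' (pushZ1 γ hγ L c) (β ∘ (E.sec ∘ (c : G → C)))
    ((hclc.comp E.sec).comp β) ?_ _ ?_
  · rw [coe_pushZ1]
    funext g
    simp only [Function.comp_apply]
    rw [← hr, E.π_sec]
  · rw [coe_pushZ2, push_d₁₂ β hβ, ← E.i_comp_del1Fun c.2.1]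
    funext g
    exact (hl _).symm

end Mor

end Fermat.Agent.S55.PT.H113

end

end
-- ===== PACK-END S55/PT/LesNatH113.lean

-- ===== PACK-BEGIN S55/H901/H1FinChar.lean
section



/-!
# S55 / G5: Kummer generator of a character of `G_L` of finite level

`L ≤ F` finite extensions of `ℚ` inside `ℚ̄`, `F/ℚ` Galois, `ζ ∈ L` a primitive `p`-th root of
unity, `χ : G_ℚ → ZMod p` additive on `G_L` and constant modulo `G_F`.  Then there is
`β ∈ F`, `β ≠ 0`, `β^p ∈ L` with `s β = ζ^{χ(s)} β` for all `s ∈ G_L` (Hilbert 90).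
-/

set_option autoImplicit false
set_option linter.style.haveILetI false
set_option linter.unusedSectionVars false

open IntermediateField

namespace Fermat.Agent.S55.H901

open Fermat.Agent.S55.Bridge

/-- `u ^ p = 1` implies `u ^ (a + b).val = u ^ a.val * u ^ b.val` for `a b : ZMod p`. -/
theorem pow_val_add {G : Type*} [Monoid G] {p : ℕ} [NeZero p] {u : G} (hu : u ^ p = 1)
    (a b : ZMod p) : u ^ (a + b).val = u ^ a.val * u ^ b.val := by
  rw [ZMod.val_add, ← pow_eq_pow_mod _ hu, pow_add]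

/-- **Kummer generator of a character.** -/
theorem exists_kummer_generator {p : ℕ} [Fact p.Prime]
    (L F : IntermediateField ℚ (AlgebraicClosure ℚ)) [FiniteDimensional ℚ F] [IsGalois ℚ F]
    (hLF : L ≤ F) {ζ : AlgebraicClosure ℚ} (hζL : ζ ∈ L) (hζ : ζ ^ p = 1) (hζ0 : ζ ≠ 0)
    (χ : (AlgebraicClosure ℚ ≃ₐ[ℚ] AlgebraicClosure ℚ) → ZMod p)
    (hadd : ∀ s ∈ L.fixingSubgroup, ∀ t ∈ L.fixingSubgroup, χ (s * t) = χ s + χ t)
    (hconst : ∀ s ∈ L.fixingSubgroup, ∀ t ∈ F.fixingSubgroup, χ (s * t) = χ s) :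
    ∃ β : AlgebraicClosure ℚ, β ∈ F ∧ β ≠ 0 ∧ β ^ p ∈ L ∧
      ∀ s ∈ L.fixingSubgroup, s β = ζ ^ (χ s).val * β := by
  classical
  haveI : NeZero p := ⟨(Fact.out : p.Prime).ne_zero⟩
  have hχ1 : χ 1 = 0 := by
    have := hadd 1 (one_mem _) 1 (one_mem _)
    rw [mul_one] at this
    exact (add_eq_left.1 this.symm)
  -- restriction to `F`
  let ρF : (AlgebraicClosure ℚ ≃ₐ[ℚ] AlgebraicClosure ℚ) →* (F ≃ₐ[ℚ] F) :=
    AlgEquiv.restrictNormalHom (F := ℚ) (K₁ := AlgebraicClosure ℚ) F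
  have hρ : ∀ (s : AlgebraicClosure ℚ ≃ₐ[ℚ] AlgebraicClosure ℚ) (x : F),
      ((ρF s x : F) : AlgebraicClosure ℚ) = s (x : AlgebraicClosure ℚ) :=
    fun s x => AlgEquiv.restrictNormal_commutes s F x
  let T : Subgroup (F ≃ₐ[ℚ] F) := L.fixingSubgroup.map ρF
  let f : ↥L.fixingSubgroup →* ↥T := ρF.subgroupMap L.fixingSubgroup
  have hf : Function.Surjective f := ρF.subgroupMap_surjective L.fixingSubgroup
  have hfval : ∀ s : ↥L.fixingSubgroup, ((f s : ↥T) : F ≃ₐ[ℚ] F) = ρF (s : _) := fun s => rfl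
  -- the root of unity in `F`
  let ζF : Fˣ := Units.mk0 ⟨ζ, hLF hζL⟩ (fun h => hζ0 (congrArg Subtype.val h))
  have hζF : ζF ^ p = 1 := by
    apply Units.ext
    apply Subtype.ext
    simpa [ζF] using hζ
  -- the character with values in `Fˣ`
  let z₀ : ↥L.fixingSubgroup →* Fˣ :=
    { toFun := fun s => ζF ^ (χ (s : _)).val
      map_one' := by
        show ζF ^ (χ ((1 : ↥L.fixingSubgroup) : _)).val = 1
        rw [Subgroup.coe_one, hχ1, ZMod.val_zero, pow_zero]
      map_mul' := fun s t => by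
        show ζF ^ (χ ((s * t : ↥L.fixingSubgroup) : _)).val = _
        rw [Subgroup.coe_mul, hadd _ s.2 _ t.2, pow_val_add hζF] }
  have hker : f.ker ≤ z₀.ker := by
    intro s hs
    rw [MonoidHom.mem_ker] at hs ⊢
    have h1 : ρF (s : _) = 1 := by
      have := congrArg (Subtype.val) hs
      simpa [hfval] using this
    have hsF : (s : AlgebraicClosure ℚ ≃ₐ[ℚ] AlgebraicClosure ℚ) ∈ F.fixingSubgroup := by
      rw [IntermediateField.mem_fixingSubgroup_iff]
      intro x hx
      have := hρ (s : _) ⟨x, hx⟩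
      rw [h1] at this
      exact this.symm
    have h2 : χ (s : _) = 0 := by
      have := hconst 1 (one_mem _) _ hsF
      rw [one_mul, hχ1] at this
      exact this
    show ζF ^ (χ (s : _)).val = 1
    rw [h2, ZMod.val_zero, pow_zero]
  let z : ↥T →* Fˣ := (f.liftOfSurjective hf) ⟨z₀, hker⟩
  have hz₀ : ∀ s : ↥L.fixingSubgroup, z (f s) = z₀ s := fun s =>
    MonoidHom.liftOfRightInverse_comp_apply f _ _ ⟨z₀, hker⟩ s
  -- `T` fixes `ζF`
  have hTζ : ∀ σ : ↥T, σ • ((ζF : Fˣ) : F) = ζF := by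
    intro σ
    obtain ⟨s, rfl⟩ := hf σ
    apply Subtype.ext
    show ((ρF (s : _) (ζF : F) : F) : AlgebraicClosure ℚ) = _
    rw [hρ]
    exact (IntermediateField.mem_fixingSubgroup_iff _ _).1 s.2 ζ hζL
  have hzfix : ∀ σ τ : ↥T, σ • ((z τ : Fˣ) : F) = z τ := by
    intro σ τ
    obtain ⟨t, rfl⟩ := hf τ
    rw [hz₀]
    have h1 : ((z₀ t : Fˣ) : F) = ((ζF : Fˣ) : F) ^ (χ (t : _)).val :=
      Units.val_pow_eq_pow_val _ _
    rw [h1, smul_pow', hTζ]
  obtain ⟨βF, hβ0, hβ⟩ := exists_ne_zero_forall_smul_eq z hzfix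
  have hβs : ∀ s ∈ L.fixingSubgroup, s (βF : AlgebraicClosure ℚ) = ζ ^ (χ s).val * βF := by
    intro s hs
    have h1 := hβ (f ⟨s, hs⟩)
    rw [hz₀] at h1
    have h2 := congrArg (Subtype.val) h1
    have h3 : ((f ⟨s, hs⟩ • βF : F) : AlgebraicClosure ℚ) = s (βF : AlgebraicClosure ℚ) := hρ s βF
    rw [h3] at h2
    rw [h2]
    show (((ζF ^ (χ s).val : Fˣ) : F) * βF : F).1 = _
    simp [ζF]
  refine ⟨βF, βF.2, fun h => hβ0 (Subtype.ext h), ?_, hβs⟩
  haveI := isGalois_Qbar
  rw [← InfiniteGalois.fixedField_fixingSubgroup L, IntermediateField.mem_fixedField_iff]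
  intro s hs
  rw [map_pow, hβs s hs, mul_pow, ← pow_mul, mul_comm (χ s).val p, pow_mul, hζ, one_pow, one_mul]

end Fermat.Agent.S55.H901

end
-- ===== PACK-END S55/H901/H1FinChar.lean

-- ===== PACK-BEGIN S55/KL/LocalGlueH593.lean
section


/-!
# S55 / layer KL: the local glue leaves KL-HYP and KL-CD   (helper593)

* `localKummerHyp_of` : KL-SM + KL-DIV + KL-MU + KL-H2 + KL-H3 + KL-DEG + T1b ⇒ `LocalKummerHypSpec`
  (the hypotheses of the abstract Kummer machine for `(Gal(ℚ̄_q/ℚ_q), ℚ̄_qˣ, p)`);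
* `localCd_of` : KB-CD + KL-HYP + KB-SCAL' ⇒ `LocalCdSpec`;
* `localSurjH2_of` : KB-A4 + KL-CD ⇒ `LocalSurjH2Spec` (= input A4 of layer D, elementwise).

The abstract core is stated for any `(Γ, N, A)`:
`effTors_of_subsingleton`, `effDiv_of_cyclic` (`H²` cyclic of order `[Γ : V]`, killed by
`[Γ : V]`, degrees unbounded at `p` ⇒ `colim H² ⊗ ℤ/p = 0`).
Mathlib + `KL/SpecLocal.lean` only.
-/

set_option autoImplicit false
set_option linter.style.haveILetI false

open CategoryTheory groupCohomology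

namespace Fermat.Agent.S55.KL.H593

open Fermat.Agent.S55.KL

/-! ## Abstract core -/

section abstract

variable {k : Type} [CommRing k] {Γ : Type} [Group Γ]

/-- If all `Hⁿ(Γ/V, B^V)` vanish then `colim Hⁿ[p] = 0`. -/
theorem effTors_of_subsingleton (N : NLevels Γ) (B : Rep.{0} k Γ) (p n : ℕ)
    (h : ∀ V : N.Lvl, Subsingleton (HL B V.W n)) : EffTors N B p n := by
  intro V y _
  haveI := h V
  refine ⟨V, le_rfl, ?_⟩
  rw [Subsingleton.elim y 0, map_zero]

/-- If all `Hⁿ(Γ/V, B^V)` vanish then `colim Hⁿ = 0`. -/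
theorem effAll_of_subsingleton (N : NLevels Γ) (B : Rep.{0} k Γ) (n : ℕ)
    (h : ∀ V : N.Lvl, Subsingleton (HL B V.W n)) : EffAll N B n := by
  intro V y
  haveI := h V
  refine ⟨V, le_rfl, ?_⟩
  rw [Subsingleton.elim y 0, map_zero]

/-- In `ZMod n'`, an element killed by `n` is divisible by `p` as soon as `p * n ∣ n'`
(`0 < n`). -/
theorem zmod_exists_nsmul_of_dvd {n n' p : ℕ} (hn : 0 < n) (hdvd : p * n ∣ n') (z : ZMod n')
    (hz : n • z = 0) : ∃ w : ZMod n', z = p • w := by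
  obtain ⟨m, hm⟩ := hdvd
  rcases Nat.eq_zero_or_pos n' with h0 | hpos
  · -- `n' = 0`: `ZMod 0 = ℤ` is torsion-free
    subst h0
    have hz' : z = 0 := by
      rcases smul_eq_zero.1 hz with h | h
      · exact absurd h hn.ne'
      · exact h
    exact ⟨0, by rw [hz', smul_zero]⟩
  haveI : NeZero n' := ⟨hpos.ne'⟩
  have hval : (z.val : ZMod n') = z := ZMod.natCast_zmod_val z
  have h1 : ((n * z.val : ℕ) : ZMod n') = 0 := by
    rw [Nat.cast_mul, hval, ← nsmul_eq_mul]
    exact hz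
  have h2 : n' ∣ n * z.val := (ZMod.natCast_eq_zero_iff _ _).1 h1
  have h3 : p * m ∣ z.val := by
    have h4 : n * (p * m) ∣ n * z.val := by
      have : n * (p * m) = n' := by rw [hm]; ring
      rw [this]
      exact h2
    exact (Nat.mul_dvd_mul_iff_left hn).1 h4
  obtain ⟨b, hb⟩ := h3
  refine ⟨((m * b : ℕ) : ZMod n'), ?_⟩
  rw [← hval, hb, nsmul_eq_mul, ← Nat.cast_mul]
  congr 1
  ring

/-- **EffDiv in degree `n`** from: `Hⁿ(Γ/V, B^V)` is cyclic of order `[Γ : V]` and killed by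
`[Γ : V]`, and below every level there is a level of index divisible by `p · [Γ : V]`. -/
theorem effDiv_of_cyclic (N : NLevels Γ) (B : Rep.{0} k Γ) (p n : ℕ)
    (hcyc : ∀ V : N.Lvl, Nonempty (HL B V.W n ≃+ ZMod (Nat.card (Γ ⧸ V.W))))
    (hkill : ∀ (V : N.Lvl) (x : HL B V.W n), Nat.card (Γ ⧸ V.W) • x = 0)
    (hdeg : ∀ V : N.Lvl, ∃ V' : N.Lvl, V'.W ≤ V.W ∧
      p * Nat.card (Γ ⧸ V.W) ∣ Nat.card (Γ ⧸ V'.W)) :
    EffDiv N B p n := by
  intro V x
  obtain ⟨V', hle, hdvd⟩ := hdeg V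
  obtain ⟨e⟩ := hcyc V'
  refine ⟨V', hle, ?_⟩
  haveI : Finite (Γ ⧸ V.W) := Subgroup.finite_quotient_of_finiteIndex
  have hn : 0 < Nat.card (Γ ⧸ V.W) := Nat.card_pos
  have hx' : Nat.card (Γ ⧸ V.W) • (infl B hle n).hom x = 0 := by
    rw [← map_nsmul, hkill V x, map_zero]
  have hz : Nat.card (Γ ⧸ V.W) • e ((infl B hle n).hom x) = 0 := by
    rw [← map_nsmul, hx', map_zero]
  obtain ⟨w, hw⟩ := zmod_exists_nsmul_of_dvd hn hdvd _ hz
  refine ⟨e.symm w, ?_⟩
  apply e.injective
  rw [hw, map_nsmul, AddEquiv.apply_symm_apply]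

end abstract

/-! ## KL-HYP -/

/-- **KL-HYP.** -/
theorem localKummerHyp_of (hSm : UnitsSmoothSpec) (hDiv : UnitsDivSpec) (hMu : UnitsTorsSpec)
    (hH2 : LocalH2Spec) (hH3 : LocalH3Spec) (hDeg : LocalDegreeSpec)
    (hCT : Fermat.Agent.S55.T.CardTorsionSpec) : LocalKummerHypSpec := by
  intro q _ p hp
  refine ⟨hSm ℚ_[q] (PadicAlgCl q), hDiv ℚ_[q] (PadicAlgCl q) p hp.pos,
    hMu ℚ_[q] (PadicAlgCl q) p hp, fun U hU => ⟨?_, ?_⟩⟩
  · exact effTors_of_subsingleton _ _ p 3 (fun V => hH3 q U hU V)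
  · refine effDiv_of_cyclic _ _ p 2 (fun V => hH2 q U hU V) (fun V x => ?_)
      (fun V => hDeg q p hp U hU V)
    haveI : Finite (↥U ⧸ V.W) := Subgroup.finite_quotient_of_finiteIndex
    exact hCT ℤ (↥U ⧸ V.W) _ 2 (by norm_num) x

/-! ## KL-CD -/

/-- **KL-CD.** -/
theorem localCd_of (hCd : CdSpec) (hHyp : LocalKummerHypSpec) (hSc : CdScalarsSpec) :
    LocalCdSpec := by
  intro q _ p hp
  have hZ : CdLeTwo (galLevels ℚ_[q] (PadicAlgCl q)) ℤ p :=
    hCd ℤ _ (fun z => ⟨z, Int.cast_id⟩) _ (unitsOm ℚ_[q] (PadicAlgCl q)) p hp (hHyp q p hp)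
  exact ⟨hZ, hSc (ZMod p) _ _ p hZ⟩

/-- **KL-A4.** -/
theorem localSurjH2_of (hS : SurjH2Spec) (hCd : LocalCdSpec) : LocalSurjH2Spec := by
  intro q _ p hp P Q φ hφ hPfin hPsm c hc hcLC
  refine hS (ZMod p) _ _ p hp (hCd q p hp).2 P Q φ hφ hPfin (fun x => ?_) hPsm c hc hcLC
  have h : (p : ZMod p) • x = 0 := by rw [ZMod.natCast_self, zero_smul]
  rwa [Nat.cast_smul_eq_nsmul] at h

end Fermat.Agent.S55.KL.H593

end
-- ===== PACK-END S55/KL/LocalGlueH593.lean

-- ===== PACK-BEGIN S55/KL/KummerH3H289.lean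
section


/-!
# S55, layer KB, leaf KB-KUM3 (helper289): the finite-level Kummer chase in degree 3

`kummerH3_of : DeltaNatSpec → KummerH3Spec`  (the closed form `kummerH3 : KummerH3Spec` is in
`KummerH3ClosedH289.lean`, which plugs in `H304.deltaNat`).

Let `A` be smooth and `p`-divisible with `colim H³(A)[p] = 0` and `colim H²(A) ⊗ ℤ/p = 0`.
For `y ∈ H³(Γ ⧸ V, (A[p])^V)`:

1. `p • ι_* y = 0`, so `ι_* y` dies at a level `V₁` (`EffTors`);
2. at level `V₁` the sequence `0 → (A[p])^{V₁} → A^{V₁} → p • A^{V₁} → 0` (`ses1`) gives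
   `infl y = δ z`, `z ∈ H²(p • A^{V₁})`;
3. at a level `V₂`, `infl (j_* z) = p • w` (`EffDiv`), so `z₂ := infl z - π_* w` is killed by `j_*`
   and the sequence `0 → p • A^{V₂} → A^{V₂} → A^{V₂} ⧸ p → 0` (`ses2`) gives `z₂ = δ' u`,
   `u ∈ H¹(A^{V₂} ⧸ p)`;
4. `u` dies at a level `V₃` (`kill_H1`: the finitely many values of a cocycle representing `u`
   have `p`-th roots in `A`, all fixed by a common level);
5. hence `infl z = π_* (infl w)` at level `V₃` and `infl y = δ π_* (infl w) = 0`.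
-/

set_option autoImplicit false
set_option linter.style.haveILetI false

open CategoryTheory groupCohomology

namespace Fermat.Agent.S55.KL.H289

open Fermat.Agent.S55.KL

variable {k : Type} [CommRing k] {G : Type} [Group G]

/-- Exactness of the long exact sequence at `Hʲ(X₁)`, elementwise. -/
lemma exists_δ_eq {X : ShortComplex (Rep.{0} k G)} (hX : X.ShortExact) (i j : ℕ) (hij : i + 1 = j)
    (y : groupCohomology X.X₁ j)
    (hy : (groupCohomology.map (MonoidHom.id G) X.f j).hom y = 0) :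
    ∃ z : groupCohomology X.X₃ i, (δ hX i j hij).hom z = y := by
  have hex := mapShortComplex₁_exact hX hij
  rw [ShortComplex.moduleCat_exact_iff_ker_sub_range] at hex
  obtain ⟨z, hz⟩ := hex hy
  exact ⟨z, hz⟩

/-- `δ ∘ g_* = 0`, elementwise. -/
lemma δ_map_g {X : ShortComplex (Rep.{0} k G)} (hX : X.ShortExact) (i j : ℕ) (hij : i + 1 = j)
    (w : groupCohomology X.X₂ i) :
    (δ hX i j hij).hom ((groupCohomology.map (MonoidHom.id G) X.g i).hom w) = 0 := by
  have h := (mapShortComplex₃ hX hij).zero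
  exact congrArg (fun F => F.hom w) h

/-- A commutative square of coefficient maps over a group homomorphism. -/
lemma map_sq_id {G' : Type} [Group G'] (f : G' →* G) {A A' : Rep.{0} k G} {B B' : Rep.{0} k G'}
    (α : A ⟶ A') (β : B ⟶ B') (φ : Rep.res f A ⟶ B) (φ' : Rep.res f A' ⟶ B')
    (h : ∀ a : A.V, φ'.hom (α.hom a) = β.hom (φ.hom a)) (n : ℕ) (x : groupCohomology A n) :
    (groupCohomology.map f φ' n).hom ((groupCohomology.map (MonoidHom.id G) α n).hom x) =
      (groupCohomology.map (MonoidHom.id G') β n).hom ((groupCohomology.map f φ n).hom x) :=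
  map_sq_apply (MonoidHom.id G) f f (MonoidHom.id G') α φ' φ β rfl h n x

section Levels

variable {Γ : Type} [Group Γ] (A : Rep.{0} k Γ) (p : ℕ)

/-- `A^W` as a representation of `Γ ⧸ W`. -/
noncomputable abbrev BL (W : Subgroup Γ) [W.Normal] : Rep.{0} k (Γ ⧸ W) :=
  A.quotientToInvariants W

/-- `(A[p])^W` as a representation of `Γ ⧸ W`. -/
noncomputable abbrev ML (W : Subgroup Γ) [W.Normal] : Rep.{0} k (Γ ⧸ W) :=
  (tors A p).quotientToInvariants W

/-- The transition homomorphism `Γ ⧸ W' → Γ ⧸ W`. -/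
def qL {W' W : Subgroup Γ} [W'.Normal] [W.Normal] (h : W' ≤ W) : Γ ⧸ W' →* Γ ⧸ W :=
  QuotientGroup.map W' W (MonoidHom.id Γ) (by simpa using h)

lemma qL_comp {W'' W' W : Subgroup Γ} [W''.Normal] [W'.Normal] [W.Normal] (h' : W'' ≤ W')
    (h : W' ≤ W) : (qL h).comp (qL h') = qL (h'.trans h) := by
  ext g
  rfl

lemma qL_refl (W : Subgroup Γ) [W.Normal] : qL (le_refl W) = MonoidHom.id (Γ ⧸ W) := by
  ext g
  rfl

/-- The transition map `A^W → A^{W'}`. -/
noncomputable def tB {W' W : Subgroup Γ} [W'.Normal] [W.Normal] (h : W' ≤ W) :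
    Rep.res (qL h) (BL A W) ⟶ BL A W' :=
  invMap (MonoidHom.id Γ) (W := W) (W' := W') (by simpa using h) (𝟙 A)

lemma tB_apply_coe {W' W : Subgroup Γ} [W'.Normal] [W.Normal] (h : W' ≤ W) (b : (BL A W).V) :
    (show ↥(Representation.invariants (A.ρ.comp W'.subtype)) from (tB A h).hom b).1 =
      (show ↥(Representation.invariants (A.ρ.comp W.subtype)) from b).1 := rfl

lemma infl_eq {W' W : Subgroup Γ} [W'.Normal] [W.Normal] (h : W' ≤ W) (n : ℕ) :
    infl A h n = groupCohomology.map (qL h) (tB A h) n := rfl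

/-- The inclusion `(A[p])^W ⟶ A^W` as a morphism of representations of `Γ ⧸ W`. -/
noncomputable def iotaL (W : Subgroup Γ) [W.Normal] : ML A p W ⟶ BL A W :=
  Rep.ofHom ⟨invMapLin (MonoidHom.id Γ) (W := W) (W' := W) (by simp) (torsIncl A p), fun g => by
    induction g using QuotientGroup.induction_on with
    | H g =>
      ext b
      rfl⟩

lemma iotaL_apply_coe (W : Subgroup Γ) [W.Normal] (x : (ML A p W).V) :
    (show ↥(Representation.invariants (A.ρ.comp W.subtype)) from (iotaL A p W).hom x).1 =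
      ((show ↥(Representation.invariants ((tors A p).ρ.comp W.subtype)) from x).1 :
        ↥(torsSub A p)).1 := rfl

lemma push_torsIncl_eq (W : Subgroup Γ) [W.Normal] (n : ℕ) :
    push (torsIncl A p) W n = groupCohomology.map (MonoidHom.id (Γ ⧸ W)) (iotaL A p W) n :=
  groupCohomology.map_congr (qL_refl W) rfl n

/-- The transition map `(A[p])^W → (A[p])^{W'}`. -/
noncomputable def tM {W' W : Subgroup Γ} [W'.Normal] [W.Normal] (h : W' ≤ W) :
    Rep.res (qL h) (ML A p W) ⟶ ML A p W' :=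
  invMap (MonoidHom.id Γ) (W := W) (W' := W') (by simpa using h) (𝟙 (tors A p))

lemma infl_tors_eq {W' W : Subgroup Γ} [W'.Normal] [W.Normal] (h : W' ≤ W) (n : ℕ) :
    infl (tors A p) h n = groupCohomology.map (qL h) (tM A p h) n := rfl

lemma iotaL_comp_pMul (W : Subgroup Γ) [W.Normal] : iotaL A p W ≫ pMul (BL A W) p = 0 := by
  apply Rep.hom_ext
  apply DFunLike.ext
  intro x
  apply Subtype.ext
  apply Subtype.ext
  exact ((show ↥(Representation.invariants ((tors A p).ρ.comp W.subtype)) from x).1 :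
        ↥(torsSub A p)).2

/-- The first Kummer sequence at level `W`: `0 → (A[p])^W → A^W → p • A^W → 0`. -/
noncomputable def ses1 (W : Subgroup Γ) [W.Normal] : ShortComplex (Rep.{0} k (Γ ⧸ W)) :=
  ShortComplex.mk (iotaL A p W) (pMul (BL A W) p) (iotaL_comp_pMul A p W)

lemma ses1_shortExact (W : Subgroup Γ) [W.Normal] : (ses1 A p W).ShortExact where
  exact := by
    rw [← ShortComplex.exact_map_iff_of_faithful _ (forget₂ (Rep k (Γ ⧸ W)) (ModuleCat k)),
      ShortComplex.moduleCat_exact_iff_ker_sub_range]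
    intro b hb
    have hb' : (pMul (BL A W) p).hom (show (BL A W).V from b) = 0 := hb
    have hb1 : p • (show ↥(Representation.invariants (A.ρ.comp W.subtype)) from b).1 = 0 :=
      congrArg (fun x : ↥(pSub (BL A W) p) =>
        ((x.1 : ↥(Representation.invariants (A.ρ.comp W.subtype))).1 : A.V)) hb'
    refine ⟨(⟨(⟨(show ↥(Representation.invariants (A.ρ.comp W.subtype)) from b).1, hb1⟩ :
      ↥(torsSub A p)), fun w => Subtype.ext
        ((show ↥(Representation.invariants (A.ρ.comp W.subtype)) from b).2 w)⟩ :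
        ↥(Representation.invariants ((tors A p).ρ.comp W.subtype))), rfl⟩
  mono_f := by
    rw [Rep.mono_iff_injective]
    intro x y hxy
    apply Subtype.ext
    apply Subtype.ext
    exact congrArg (fun z : ↥(Representation.invariants (A.ρ.comp W.subtype)) => (z.1 : A.V)) hxy
  epi_g := by
    rw [Rep.epi_iff_surjective]
    exact pMul_surjective (BL A W) p

/-- The transition map `p • A^W → p • A^{W'}`. -/
noncomputable abbrev tP {W' W : Subgroup Γ} [W'.Normal] [W.Normal] (h : W' ≤ W) :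
    Rep.res (qL h) (pImg (BL A W) p) ⟶ pImg (BL A W') p :=
  pImgMap (qL h) (tB A h) p

/-- The transition map `A^W ⧸ p → A^{W'} ⧸ p`. -/
noncomputable abbrev tQ {W' W : Subgroup Γ} [W'.Normal] [W.Normal] (h : W' ≤ W) :
    Rep.res (qL h) (pCok (BL A W) p) ⟶ pCok (BL A W') p :=
  pCokMap (qL h) (tB A h) p

/-- Naturality of `δ` for the first Kummer sequence under inflation. -/
lemma δ_ses1_nat (hnat : DeltaNatSpec) {W' W : Subgroup Γ} [W'.Normal] [W.Normal] (h : W' ≤ W)
    (i j : ℕ) (hij : i + 1 = j) (z : groupCohomology (pImg (BL A W) p) i) :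
    (infl (tors A p) h j).hom ((δ (ses1_shortExact A p W) i j hij).hom z) =
      (δ (ses1_shortExact A p W') i j hij).hom
        ((groupCohomology.map (qL h) (tP A p h) i).hom z) := by
  have key := hnat k (Γ ⧸ W') (Γ ⧸ W) (qL h) (ses1 A p W) (ses1_shortExact A p W)
    (ses1 A p W') (ses1_shortExact A p W') (tM A p h) (tB A h) (tP A p h)
    (by
      apply Rep.hom_ext
      apply DFunLike.ext
      intro x
      rfl)
    (by
      apply Rep.hom_ext
      apply DFunLike.ext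
      intro x
      exact pImgMap_pMul (qL h) (tB A h) p x)
    i j hij
  exact congrArg (fun F => F.hom z) key

/-- Naturality of `δ` for the second Kummer sequence under inflation. -/
lemma δ_ses2_nat (hnat : DeltaNatSpec) {W' W : Subgroup Γ} [W'.Normal] [W.Normal] (h : W' ≤ W)
    (i j : ℕ) (hij : i + 1 = j) (u : groupCohomology (pCok (BL A W) p) i) :
    (groupCohomology.map (qL h) (tP A p h) j).hom
        ((δ (ses2_shortExact (BL A W) p) i j hij).hom u) =
      (δ (ses2_shortExact (BL A W') p) i j hij).hom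
        ((groupCohomology.map (qL h) (tQ A p h) i).hom u) := by
  have key := hnat k (Γ ⧸ W') (Γ ⧸ W) (qL h) (ses2 (BL A W) p) (ses2_shortExact (BL A W) p)
    (ses2 (BL A W') p) (ses2_shortExact (BL A W') p) (tP A p h) (tB A h) (tQ A p h)
    (by
      apply Rep.hom_ext
      apply DFunLike.ext
      intro x
      rfl)
    (by
      apply Rep.hom_ext
      apply DFunLike.ext
      intro x
      rfl)
    i j hij
  exact congrArg (fun F => F.hom u) key

/-- A finite family of levels has a common lower bound (below a given level). -/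
lemma exists_common_level (N : NLevels Γ) {ι : Type} [Finite ι] (f : ι → Subgroup Γ)
    (hf : ∀ i, f i ∈ N.carrier) (V₀ : N.Lvl) :
    ∃ X : N.Lvl, X.W ≤ V₀.W ∧ ∀ i, X.W ≤ f i := by
  classical
  haveI : Fintype ι := Fintype.ofFinite ι
  have key : ∀ s : Finset ι, ∃ X : N.Lvl, X.W ≤ V₀.W ∧ ∀ i ∈ s, X.W ≤ f i := by
    intro s
    induction s using Finset.induction_on with
    | empty => exact ⟨V₀, le_rfl, fun i hi => absurd hi (Finset.notMem_empty i)⟩
    | insert a s _ ih =>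
      obtain ⟨X, hX₀, hX⟩ := ih
      obtain ⟨Y, hYX, hYa⟩ := N.exists_le X ⟨f a, hf a⟩
      refine ⟨Y, hYX.trans hX₀, fun i hi => ?_⟩
      rcases Finset.mem_insert.1 hi with rfl | hi
      · exact hYa
      · exact hYX.trans (hX i hi)
  obtain ⟨X, hX₀, hX⟩ := key Finset.univ
  exact ⟨X, hX₀, fun i => hX i (Finset.mem_univ i)⟩

/-- **KILL.** Every class in `H¹(Γ ⧸ V, A^V ⧸ p)` dies at a smaller level. -/
lemma kill_H1 (N : NLevels Γ) (hs : IsSmooth N A) (hd : IsDivisibleBy A p) (V : N.Lvl)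
    (u : groupCohomology (pCok (BL A V.W) p) 1) :
    ∃ (V' : N.Lvl) (h : V'.W ≤ V.W),
      (groupCohomology.map (qL h) (tQ A p h) 1).hom u = 0 := by
  induction u using H1_induction_on with
  | h c =>
    haveI : Finite (Γ ⧸ V.W) := Subgroup.finite_quotient_of_finiteIndex
    have h1 : ∀ g : Γ ⧸ V.W, ∃ a : (BL A V.W).V, (pProj (BL A V.W) p).hom a = c.1 g :=
      fun g => pProj_surjective (BL A V.W) p (c.1 g)
    choose a ha using h1
    have h2 : ∀ g : Γ ⧸ V.W, ∃ b : A.V,
        p • b = (show ↥(Representation.invariants (A.ρ.comp V.W.subtype)) from a g).1 :=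
      fun g => hd _
    choose b hb using h2
    have h3 : ∀ g : Γ ⧸ V.W, ∃ W ∈ N.carrier, ∀ w ∈ W, A.ρ w (b g) = b g := fun g => hs (b g)
    choose Wg hWg hfix using h3
    obtain ⟨V', hV', hle⟩ := exists_common_level N Wg hWg V
    refine ⟨V', hV', ?_⟩
    have hmap := H1π_comp_map_apply (qL hV') (tQ A p hV') c
    refine hmap.trans ?_
    have hzero : (mapCocycles₁ (qL hV') (tQ A p hV')).hom c = 0 := by
      apply Subtype.ext
      funext g'
      show (tQ A p hV').hom (c.1 (qL hV' g')) = 0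
      rw [← ha, pCokMap_pProj, pProj_eq_zero_iff]
      refine ⟨(⟨b (qL hV' g'), fun w => hfix _ w.1 (hle _ w.2)⟩ :
        ↥(Representation.invariants (A.ρ.comp V'.W.subtype))), ?_⟩
      apply Subtype.ext
      exact hb (qL hV' g')
    rw [hzero, map_zero]

/-! ### Compatibilities on cohomology -/

section Compat

variable {W' W : Subgroup Γ} [W'.Normal] [W.Normal] (h : W' ≤ W) (n : ℕ)

lemma iotaL_infl (y : groupCohomology (ML A p W) n) :
    (groupCohomology.map (MonoidHom.id (Γ ⧸ W')) (iotaL A p W') n).hom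
        ((infl (tors A p) h n).hom y) =
      (infl A h n).hom ((push (torsIncl A p) W n).hom y) := by
  rw [push_torsIncl_eq]
  exact (map_sq_id (qL h) (iotaL A p W) (iotaL A p W') (tM A p h) (tB A h)
    (fun _ => rfl) n y).symm

lemma pIncl_tP (z : groupCohomology (pImg (BL A W) p) n) :
    (groupCohomology.map (MonoidHom.id (Γ ⧸ W')) (pIncl (BL A W') p) n).hom
        ((groupCohomology.map (qL h) (tP A p h) n).hom z) =
      (infl A h n).hom
        ((groupCohomology.map (MonoidHom.id (Γ ⧸ W)) (pIncl (BL A W) p) n).hom z) :=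
  (map_sq_id (qL h) (pIncl (BL A W) p) (pIncl (BL A W') p) (tP A p h) (tB A h)
    (fun _ => rfl) n z).symm

lemma tP_pMul (w : groupCohomology (BL A W) n) :
    (groupCohomology.map (qL h) (tP A p h) n).hom
        ((groupCohomology.map (MonoidHom.id (Γ ⧸ W)) (pMul (BL A W) p) n).hom w) =
      (groupCohomology.map (MonoidHom.id (Γ ⧸ W')) (pMul (BL A W') p) n).hom
        ((infl A h n).hom w) :=
  map_sq_id (qL h) (pMul (BL A W) p) (pMul (BL A W') p) (tB A h) (tP A p h)
    (fun a => pImgMap_pMul (qL h) (tB A h) p a) n w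

variable {W'' : Subgroup Γ} [W''.Normal] (h' : W'' ≤ W')

lemma tP_tP (z : groupCohomology (pImg (BL A W) p) n) :
    (groupCohomology.map (qL h') (tP A p h') n).hom
        ((groupCohomology.map (qL h) (tP A p h) n).hom z) =
      (groupCohomology.map (qL (h'.trans h)) (tP A p (h'.trans h)) n).hom z :=
  map_tri_apply (qL h) (qL h') (qL (h'.trans h)) (tP A p h) (tP A p h') (tP A p (h'.trans h))
    (qL_comp h' h) (fun _ => rfl) n z

lemma infl_infl_tors (y : groupCohomology (ML A p W) n) :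
    (infl (tors A p) h' n).hom ((infl (tors A p) h n).hom y) =
      (infl (tors A p) (h'.trans h) n).hom y :=
  map_tri_apply (qL h) (qL h') (qL (h'.trans h)) (tM A p h) (tM A p h') (tM A p (h'.trans h))
    (qL_comp h' h) (fun _ => rfl) n y

end Compat

lemma pIncl_pMul_apply {G : Type} [Group G] (B : Rep.{0} k G) (n : ℕ)
    (w : groupCohomology B n) :
    (groupCohomology.map (MonoidHom.id G) (pIncl B p) n).hom
        ((groupCohomology.map (MonoidHom.id G) (pMul B p) n).hom w) = p • w := by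
  rw [← map_id_nsmul_id_apply B p n w, ← pMul_comp_pIncl]
  exact map_tri_apply (MonoidHom.id G) (MonoidHom.id G) (MonoidHom.id G) (pMul B p) (pIncl B p)
    (pMul B p ≫ pIncl B p) rfl (fun _ => rfl) n w

end Levels

/-- **KB-KUM3**, assuming KB-NAT. -/
theorem kummerH3_of (hnat : DeltaNatSpec) : KummerH3Spec := by
  intro k Γ _ _ N A p _ hs hd hT hD V y
  -- Step 1: `ι_* y` is killed by `p`, hence effaceable.
  have hpy : p • y = 0 := nsmul_eq_zero_of_kills (ML A p V.W) p 3 (fun a => by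
    apply Subtype.ext
    apply Subtype.ext
    exact ((show ↥(Representation.invariants ((tors A p).ρ.comp V.W.subtype)) from a).1 :
        ↥(torsSub A p)).2) y
  have hx : p • (push (torsIncl A p) V.W 3).hom y = 0 := by
    rw [← map_nsmul, hpy, map_zero]
  obtain ⟨V₁, h₁, hV₁⟩ := hT V _ hx
  have hy₁0 : (groupCohomology.map (MonoidHom.id (Γ ⧸ V₁.W)) (iotaL A p V₁.W) 3).hom
      ((infl (tors A p) h₁ 3).hom y) = 0 := by
    rw [iotaL_infl A p h₁ 3 y]
    exact hV₁
  -- Step 2: `infl y = δ z`.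
  obtain ⟨z, hz⟩ := exists_δ_eq (ses1_shortExact A p V₁.W) 2 3 rfl
    ((infl (tors A p) h₁ 3).hom y) hy₁0
  -- Step 3: correct `z` by a multiple of `p`.
  obtain ⟨V₂, h₂, w, hw⟩ :=
    hD V₁ ((groupCohomology.map (MonoidHom.id (Γ ⧸ V₁.W)) (pIncl (BL A V₁.W) p) 2).hom z)
  have hz₂ : (groupCohomology.map (MonoidHom.id (Γ ⧸ V₂.W)) (pIncl (BL A V₂.W) p) 2).hom
      ((groupCohomology.map (qL h₂) (tP A p h₂) 2).hom z -
        (groupCohomology.map (MonoidHom.id (Γ ⧸ V₂.W)) (pMul (BL A V₂.W) p) 2).hom w) = 0 := by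
    rw [map_sub, sub_eq_zero, pIncl_tP A p h₂ 2 z, pIncl_pMul_apply p (BL A V₂.W) 2 w]
    exact hw
  obtain ⟨u, hu⟩ := exists_δ_eq (ses2_shortExact (BL A V₂.W) p) 1 2 rfl _ hz₂
  -- Step 4: kill `u`.
  obtain ⟨V₃, h₃, hV₃⟩ := kill_H1 A p N hs hd V₂ u
  -- Step 5: conclude.
  have e1 : (groupCohomology.map (qL h₃) (tP A p h₃) 2).hom
      ((groupCohomology.map (qL h₂) (tP A p h₂) 2).hom z -
        (groupCohomology.map (MonoidHom.id (Γ ⧸ V₂.W)) (pMul (BL A V₂.W) p) 2).hom w) = 0 := by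
    rw [← hu, δ_ses2_nat A p hnat h₃ 1 2 rfl u, hV₃]
    exact map_zero (δ (ses2_shortExact (BL A V₃.W) p) 1 2 rfl).hom
  rw [map_sub, sub_eq_zero, tP_tP A p h₂ 2 h₃ z, tP_pMul A p h₃ 2 w] at e1
  have e4 : (infl (tors A p) (h₃.trans h₂) 3).hom ((infl (tors A p) h₁ 3).hom y) = 0 := by
    rw [← hz, δ_ses1_nat A p hnat (h₃.trans h₂) 2 3 rfl z, e1]
    exact δ_map_g (ses1_shortExact A p V₃.W) 2 3 rfl _
  refine ⟨V₃, (h₃.trans h₂).trans h₁, ?_⟩
  rw [← e4]
  exact (infl_infl_tors A p h₁ 3 (h₃.trans h₂) y).symm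

end Fermat.Agent.S55.KL.H289

end
-- ===== PACK-END S55/KL/KummerH3H289.lean

-- ===== PACK-BEGIN S55/L/H715/Dict3.lean
section


/-!
# S55, layer L : DICTIONARY core ↔ outer, part 3 : adapters for unramified extensions (helper715)

* `unramifiedExists_of_local : Local.ExistsUnramExtStatement → UnramifiedExistsSpec`
  (core UR5 ⇒ outer L-A2a).
-/

set_option autoImplicit false
set_option linter.unusedSectionVars false
set_option linter.style.haveILetI false

namespace Fermat.Agent.S55.L.H715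

open Fermat.Agent.S55.Local Fermat.Agent.S55.Local.H715 IsLocalRing

/-- **Adapter UR5 ⇒ L-A2a**: existence of the unramified extension of each degree. -/
theorem unramifiedExists_of_local (hUR5 : ExistsUnramExtStatement) : UnramifiedExistsSpec := by
  intro K _ hK n hn
  obtain ⟨A, hA1, hA2, hA3⟩ := hK.exists_ringOfIntegers
  haveI := hK.charZero
  haveI := hA1
  haveI := hA2
  haveI := hA3
  obtain ⟨N, iN, iF, iK, iL, t1, t2, t3, fd, gal, hunram, hrank⟩ := hUR5 (↥A) K K K n hn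
  have e1 : iF = iL := Algebra.algebra_ext _ _ (fun r => by
    have := @IsScalarTower.algebraMap_apply K K N _ _ _ _ iL iF t2 r
    simpa using this)
  have e2 : iK = iL := Algebra.algebra_ext _ _ (fun r => by
    have := @IsScalarTower.algebraMap_apply K K N _ _ _ _ iL iK t3 r
    simpa using this)
  subst e1
  subst e2
  exact ⟨N, iN, iK, fd, isUnramifiedExt_of_isUnram A N hunram, hrank⟩

end Fermat.Agent.S55.L.H715

end
-- ===== PACK-END S55/L/H715/Dict3.lean

-- ===== PACK-BEGIN S55/Local/H964/T5Pieces.lean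
section




/-!
# S55, layer L, T5 glue: the pieces of the lower bound (helper964)

* `isMulCoboundary₂_of_inflate` : inflation `H²(Gal(E/K), Eˣ) → H²(Gal(N/K), Nˣ)` is injective
  (cochain form).
* `isUnif_unitsIncl` : a uniformizer of `L` stays a uniformizer in an unramified extension `N / L`.
* `finrank_dvd_of_cycCocycle_coboundary` : for `E / K` unramified with generator `φ`, if the
  standard cocycle of `ϖK ^ m` is a coboundary then `[E : K] ∣ m`.
* `cycCocycle_kerRes_coboundary` : for `N / L` unramified, the standard cocycle (for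
  `kerRes K L N ≃ Gal(N/L)`) of `u * ϖL ^ m`, `[N : L] ∣ m`, is a coboundary.
-/

set_option autoImplicit false
set_option linter.style.haveILetI false
set_option linter.unusedSectionVars false

namespace Fermat.Agent.S55.Local.H964

open groupCohomology Fermat.Agent.S55.Local

section Tower

variable {K E N : Type} [Field K] [Field E] [Field N] [Algebra K E] [Algebra K N] [Algebra E N]
  [IsScalarTower K E N] [Normal K E] [FiniteDimensional K N] [IsGalois K N]

/-- Inflation is injective on `H²` (cochain form). -/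
theorem isMulCoboundary₂_of_inflate {cE : (E ≃ₐ[K] E) × (E ≃ₐ[K] E) → Eˣ}
    (h : IsMulCoboundary₂ (fun p : (N ≃ₐ[K] N) × (N ≃ₐ[K] N) =>
      unitsIncl N E (cE (resHom K E N p.1, resHom K E N p.2)))) : IsMulCoboundary₂ cE := by
  obtain ⟨c, hc⟩ := (isMulCoboundary₂_iff _).1 h
  obtain ⟨c', hc', hr, hv⟩ := mul_exists_invariant_cochain (kerRes K E N) mulHOneVanishes_kerRes
    (f' := fun p : (N ≃ₐ[K] N) × (N ≃ₐ[K] N) =>
      unitsIncl N E (cE (resHom K E N p.1, resHom K E N p.2)))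
    (inflate_inv2 cE) (inflate_inv1 cE)
    (fun s hs g h => smul_unitsIncl_of_mem_kerRes hs _) c hc
  obtain ⟨b, hb⟩ := exists_descend₁ c' hr hv
  exact (isMulCoboundary₂_iff _).2
    ⟨b, descend_dMul (f' := fun p : (N ≃ₐ[K] N) × (N ≃ₐ[K] N) =>
      unitsIncl N E (cE (resHom K E N p.1, resHom K E N p.2))) (fun g h => rfl) hc' hb⟩

end Tower

section Local

variable (A F : Type) [CommRing A] [IsDomain A] [IsDiscreteValuationRing A]
  [IsAdicComplete (IsLocalRing.maximalIdeal A) A] [Finite (IsLocalRing.ResidueField A)]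
  [Field F] [CharZero F] [Algebra A F] [IsFractionRing A F]

/-- A uniformizer of `L` stays a uniformizer in an unramified extension `N / L`. -/
theorem isUnif_unitsIncl (hLF3 : IntUnitsComapStatement)
    (L : Type) [Field L] [Algebra F L] [FiniteDimensional F L]
    (N : Type) [Field N] [Algebra F N] [Algebra L N] [IsScalarTower F L N]
    [FiniteDimensional L N] (hunr : IsUnram A F N L) {ϖL : Lˣ} (h : IsUnif A F L ϖL) :
    IsUnif A F N (unitsIncl N L ϖL) := by
  obtain ⟨h1, h2, h3⟩ := h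
  refine ⟨isInt_algebraMap A F h1, fun hmem => h2 ((hLF3 A F L N ϖL).1 hmem), fun x => ?_⟩
  obtain ⟨y, hy⟩ := hunr x
  obtain ⟨m, hm⟩ := h3 y
  refine ⟨m, ?_⟩
  have e : x * unitsIncl N L ϖL ^ (-m) =
      x * (unitsIncl N L y)⁻¹ * unitsIncl N L (y * ϖL ^ (-m)) := by
    rw [map_mul, map_zpow]
    group
  rw [e]
  exact (intUnits A F N).mul_mem hy (unitsIncl_mem_intUnits A F hm)

/-- For `E / K` unramified Galois with generator `φ`: if the standard cocycle of `ϖK ^ m` is a
coboundary then `[E : K] ∣ m`. -/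
theorem finrank_dvd_of_cycCocycle_coboundary (hA4b : CycCocycleCoboundaryIffStatement)
    (hT2 : UnramNormRangeStatement)
    (K : Type) [Field K] [Algebra F K] [FiniteDimensional F K]
    (E : Type) [Field E] [Algebra F E] [Algebra K E] [IsScalarTower F K E]
    [FiniteDimensional K E] [IsGalois K E] (hunr : IsUnram A F E K)
    {ϖK : Kˣ} (hϖ : IsUnif A F K ϖK) (φ : E ≃ₐ[K] E) (hφ : ∀ g, g ∈ Subgroup.zpowers φ)
    (m : ℕ) (h : IsMulCoboundary₂ (cycCocycle φ (unitsIncl E K (ϖK ^ m)))) :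
    Module.finrank K E ∣ m := by
  classical
  letI : Fintype (E ≃ₐ[K] E) := Fintype.ofFinite _
  obtain ⟨y, hy⟩ := (hA4b (E ≃ₐ[K] E) Eˣ φ hφ (unitsIncl E K (ϖK ^ m))
    (smul_unitsIncl_base φ _)).1 h
  rw [prod_gal_smul] at hy
  have hy' : normUnits E K y = ϖK ^ m := unitsIncl_injective_base hy
  have hmem : (1 : Kˣ) * ϖK ^ (m : ℤ) ∈ (normUnits E K).range :=
    ⟨y, by rw [hy', one_mul, zpow_natCast]⟩
  have := (hT2 A F K E ϖK hunr hϖ 1 (m : ℤ) (intUnits A F K).one_mem).1 hmem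
  exact Int.natCast_dvd_natCast.1 this

/-- For `N / L` unramified: the standard cocycle, for the cyclic group `kerRes K L N ≃ Gal(N/L)`,
of `u * ϖL ^ m` with `[N : L] ∣ m` is a coboundary. -/
theorem cycCocycle_kerRes_coboundary (hA4b : CycCocycleCoboundaryIffStatement)
    (hT2 : UnramNormRangeStatement)
    (K : Type) [Field K]
    (L : Type) [Field L] [Algebra F L] [Algebra K L] [FiniteDimensional F L] [Normal K L]
    (N : Type) [Field N] [Algebra F N] [Algebra K N] [Algebra L N] [IsScalarTower F L N]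
    [IsScalarTower K L N] [FiniteDimensional K N] [IsGalois K N] (hunr : IsUnram A F N L)
    {ϖL : Lˣ} (hϖ : IsUnif A F L ϖL) (ψ : kerRes K L N) (hψ : ∀ s, s ∈ Subgroup.zpowers ψ)
    (u : Lˣ) (hu : u ∈ intUnits A F L) (m : ℕ) (hm : Module.finrank L N ∣ m) :
    IsMulCoboundary₂ (cycCocycle ψ (unitsIncl N L (u * ϖL ^ m))) := by
  classical
  haveI : FiniteDimensional L N := Module.Finite.of_restrictScalars_finite K L N
  haveI : IsGalois L N := IsGalois.tower_top_of_isGalois K L N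
  haveI : Finite (kerRes K L N) := inferInstance
  letI : Fintype (kerRes K L N) := Fintype.ofFinite _
  obtain ⟨y, hy⟩ := (hT2 A F L N ϖL hunr hϖ u (m : ℤ) hu).2 (Int.natCast_dvd_natCast.2 hm)
  rw [zpow_natCast] at hy
  refine (hA4b (kerRes K L N) Nˣ ψ hψ (unitsIncl N L (u * ϖL ^ m))
    (smul_unitsIncl_of_mem_kerRes ψ.2 _)).2 ⟨y, ?_⟩
  rw [← hy]
  exact prod_kerRes_smul y

end Local

end Fermat.Agent.S55.Local.H964

end
-- ===== PACK-END S55/Local/H964/T5Pieces.lean

-- ===== PACK-BEGIN S56/H176/FLDUnrDiff.lean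
section




/-!
# S56 / FL-D-UNR, part 4: the different of `B / A` through an unramified subring

`A ⊂ B' ⊂ B` discrete valuation rings (characteristic `0`, residue field of `A` finite), `B`
finite over `A`, with `𝔪_{B'} = 𝔪_A B'` (`B'/A` unramified) and `B' → B` inducing an isomorphism
on residue fields.  Then

* `FLD_unr_differentIdeal_eq_top` : `differentIdeal A B' = ⊤`;
* `FLD_unr_differentIdeal_tower`  : `differentIdeal A B = differentIdeal B' B`;
* `FLD_unr_differentIdeal_eq`     : `differentIdeal A B = (G'(ϖ))` for a uniformiser `ϖ` of `B`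
  with minimal polynomial `G` over `B'`.
-/

set_option autoImplicit false
set_option linter.unusedSectionVars false
set_option linter.style.haveILetI false

namespace Fermat.Agent.S56.H176

open IsDiscreteValuationRing Polynomial

attribute [local instance] FractionRing.liftAlgebra FractionRing.isScalarTower_liftAlgebra

section Sep

variable (A : Type*) [CommRing A] [IsDomain A] [IsDiscreteValuationRing A] [CharZero A]
  (B : Type*) [CommRing B] [IsDomain B] [IsDiscreteValuationRing B] [Algebra A B]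
  [Module.Finite A B] [FaithfulSMul A B]

theorem FLD_finiteDimensional_frac : FiniteDimensional (FractionRing A) (FractionRing B) :=
  .of_isLocalization A B (nonZeroDivisors A)

theorem FLD_isSeparable_frac : Algebra.IsSeparable (FractionRing A) (FractionRing B) := by
  haveI := FLD_finiteDimensional_frac A B
  haveI : CharZero (FractionRing A) :=
    charZero_of_injective_algebraMap (IsFractionRing.injective A (FractionRing A))
  infer_instance

end Sep

section Unr

variable {A : Type*} [CommRing A] [IsDomain A] [IsDiscreteValuationRing A] [CharZero A]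
  {B' : Type*} [CommRing B'] [IsDomain B'] [IsDiscreteValuationRing B'] [Algebra A B']
  [Module.Finite A B'] [FaithfulSMul A B']

/-- The different of an unramified extension is trivial. -/
theorem FLD_unr_differentIdeal_eq_top [Finite (IsLocalRing.ResidueField A)]
    (hunr : IsLocalRing.maximalIdeal B' =
      (IsLocalRing.maximalIdeal A).map (algebraMap A B')) :
    differentIdeal A B' = ⊤ := by
  haveI := FLD_isSeparable_frac A B'
  haveI : Finite (A ⧸ IsLocalRing.maximalIdeal A) := ‹Finite (IsLocalRing.ResidueField A)›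
  by_contra hne
  have hle : differentIdeal A B' ≤ IsLocalRing.maximalIdeal B' :=
    IsLocalRing.le_maximalIdeal hne
  have hdvd : IsLocalRing.maximalIdeal B' ∣ differentIdeal A B' := Ideal.dvd_iff_le.mpr hle
  refine not_dvd_differentIdeal_of_isCoprime A (p := IsLocalRing.maximalIdeal A)
    (IsLocalRing.maximalIdeal B') ⊤ ?_ ?_ hdvd
  · exact Ideal.isCoprime_iff_sup_eq.mpr (sup_top_eq _)
  · rw [Ideal.mul_top, hunr]

end Unr

section Tower

variable {A : Type*} [CommRing A] [IsDomain A] [IsDiscreteValuationRing A] [CharZero A]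
  {B' : Type*} [CommRing B'] [IsDomain B'] [IsDiscreteValuationRing B'] [Algebra A B']
  [Module.Finite A B'] [FaithfulSMul A B']
  {B : Type*} [CommRing B] [IsDomain B] [IsDiscreteValuationRing B] [Algebra A B]
  [Algebra B' B] [IsScalarTower A B' B] [Module.Finite A B] [FaithfulSMul A B]
  [Module.Finite B' B] [FaithfulSMul B' B]

/-- Transitivity of the different through an unramified subring. -/
theorem FLD_unr_differentIdeal_tower [Finite (IsLocalRing.ResidueField A)]
    (hunr : IsLocalRing.maximalIdeal B' =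
      (IsLocalRing.maximalIdeal A).map (algebraMap A B')) :
    differentIdeal A B = differentIdeal B' B := by
  haveI := FLD_isSeparable_frac A B
  rw [differentIdeal_eq_differentIdeal_mul_differentIdeal A B' B,
    FLD_unr_differentIdeal_eq_top hunr, Ideal.map_top, Ideal.mul_top]

/-- The different of `B / A` is generated by `G'(ϖ)`, `G` the minimal polynomial over the
unramified subring `B'` of a uniformiser `ϖ` of `B`. -/
theorem FLD_unr_differentIdeal_eq [Finite (IsLocalRing.ResidueField A)]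
    (hunr : IsLocalRing.maximalIdeal B' =
      (IsLocalRing.maximalIdeal A).map (algebraMap A B'))
    (hres : ∀ b : B, ∃ a : B', b - algebraMap B' B a ∈ IsLocalRing.maximalIdeal B)
    {ϖ : B} (hϖ : addVal B ϖ = 1) :
    differentIdeal A B = Ideal.span {aeval ϖ (derivative (minpoly B' ϖ))} := by
  haveI : CharZero B' := charZero_of_injective_algebraMap (FaithfulSMul.algebraMap_injective A B')
  haveI := FLD_isSeparable_frac B' B
  haveI := FLD_finiteDimensional_frac B' B
  rw [FLD_unr_differentIdeal_tower hunr]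
  exact FLD_differentIdeal_eq B' (FractionRing B') (FractionRing B) B (FLD_tot_hram hres) hϖ

end Tower

end Fermat.Agent.S56.H176

end
-- ===== PACK-END S56/H176/FLDUnrDiff.lean

-- ===== PACK-BEGIN S56/H846/FLCnt/Main.lean
section



/-!
# FL-CNT: step C3 (single break of `W`) and the final step; proof of `FLCntStatement`
(helper846)  Mathlib only, nothing unproved.
-/

set_option autoImplicit false
set_option linter.unusedSectionVars false
set_option linter.style.haveILetI false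
set_option linter.unusedVariables false

namespace Fermat.Agent.S56.H846.FLCnt

variable {Γ k Z : Type} [Group Γ] [Field k] [AddCommGroup Z] [Module k Z]

namespace Hyp

variable {p : ℕ} [Fact p.Prime] {D : Data Γ k Z} (h : _root_.Fermat.Agent.S56.H846.FLCnt.Hyp p D)
include h

/-- every proper `Γ`-normal subgroup of `W` lies in a maximal one -/
theorem exists_max_normal [Finite Γ] {N₀ : Subgroup Γ} (hN₀ : N₀.Normal) (hle : N₀ ≤ D.W)
    (hne : N₀ ≠ D.W) : ∃ N, IsMaxNormal D N ∧ N₀ ≤ N := by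
  classical
  let 𝒮 : Set (Subgroup Γ) := {N | N.Normal ∧ N₀ ≤ N ∧ N ≤ D.W ∧ N ≠ D.W}
  have hfin : 𝒮.Finite := Set.toFinite _
  have hne' : 𝒮.Nonempty := ⟨N₀, hN₀, le_rfl, hle, hne⟩
  obtain ⟨N, hN, hmax⟩ := Set.exists_max_image 𝒮 (fun N => Nat.card N) hfin hne'
  refine ⟨N, ⟨hN.1, hN.2.2.1, hN.2.2.2, fun N' hN' hNN' hN'W => ?_⟩, hN.2.1⟩
  by_cases h' : N' = D.W
  · exact Or.inr h'
  · left
    have := hmax N' ⟨hN', hN.2.1.trans hNN', hN'W, h'⟩
    exact (Subgroup.eq_of_le_of_card_ge hNN' this).symm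

theorem exists_first_break [Finite Γ] (hW : D.W ≠ ⊥) :
    ∃ n₁, 1 ≤ n₁ ∧ D.W ≤ D.F ⊥ n₁ ∧ ¬ D.W ≤ D.F ⊥ (n₁ + 1) := by
  classical
  have hB : ∃ B, D.F ⊥ B ≤ ⊥ := by
    haveI : Fintype Γ := Fintype.ofFinite Γ
    refine ⟨∑ σ : Γ, D.i ⊥ σ, fun σ hσ => ?_⟩
    rw [h.mem_F ⊥ Subgroup.normal_bot bot_le bot_le] at hσ
    rcases hσ with hσ | hσ
    · exact hσ
    · exfalso
      have : D.i ⊥ σ ≤ ∑ σ : Γ, D.i ⊥ σ :=
        Finset.single_le_sum (f := fun σ => D.i ⊥ σ) (fun _ _ => Nat.zero_le _)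
          (Finset.mem_univ σ)
      omega
  have hex : ∃ n, ¬ D.W ≤ D.F ⊥ n := by
    obtain ⟨B, hB⟩ := hB
    exact ⟨B, fun hW' => hW (le_bot_iff.mp (hW'.trans hB))⟩
  have h1 : D.W ≤ D.F ⊥ 1 := h.W_le_wild
  have h0 : D.W ≤ D.F ⊥ 0 := h.W_le_inertia
  set n₀ := Nat.find hex with hn₀
  have hn₀1 : ¬ D.W ≤ D.F ⊥ n₀ := Nat.find_spec hex
  have hn₀2 : 2 ≤ n₀ := by
    by_contra hlt
    have : n₀ = 0 ∨ n₀ = 1 := by omega
    rcases this with h' | h'
    · rw [h'] at hn₀1; exact hn₀1 h0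
    · rw [h'] at hn₀1; exact hn₀1 h1
  have hu : D.W ≤ D.F ⊥ (n₀ - 1) := by
    by_contra hcon
    have := Nat.find_min' hex hcon
    omega
  refine ⟨n₀ - 1, by omega, hu, ?_⟩
  have hn : n₀ - 1 + 1 = n₀ := by omega
  rw [hn]
  exact hn₀1

/-- elements of `W` outside `F ⊥ (n₁ + 1)` have `i = n₁ + 1` -/
theorem i_bot_eq {n₁ : ℕ} (hn₁ : D.W ≤ D.F ⊥ n₁) {σ : Γ} (hσ : σ ∈ D.W)
    (hσ' : σ ∉ D.F ⊥ (n₁ + 1)) : D.i ⊥ σ = n₁ + 1 := by
  have h1 := hn₁ hσ
  rw [h.mem_F ⊥ Subgroup.normal_bot bot_le bot_le] at h1 hσ'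
  push Not at hσ'
  rcases h1 with h1 | h1
  · exact absurd h1 hσ'.1
  · omega

theorem i_bot_ge {n₁ : ℕ} {σ : Γ} (hσ : σ ∈ D.F ⊥ n₁) (hσ1 : σ ≠ 1) : n₁ + 1 ≤ D.i ⊥ σ := by
  rw [h.mem_F ⊥ Subgroup.normal_bot bot_le bot_le] at hσ
  rcases hσ with h1 | h1
  · exact absurd (Subgroup.mem_bot.mp h1) hσ1
  · exact h1

/-- **C3**: `W` has a single break, at `p - 1`. -/
theorem single_break [Finite Γ] (hW : D.W ≠ ⊥) :
    D.W = D.F ⊥ (p - 1) ∧ D.F ⊥ p = ⊥ ∧ D.m ≠ 2 := by
  classical
  haveI : Fintype Γ := Fintype.ofFinite Γ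
  obtain ⟨n₁, hn₁1, hn₁W, hn₁'⟩ := h.exists_first_break hW
  have hp3 := h.p_ge_three
  -- `W⁺`
  have hWplus_le : D.F ⊥ (n₁ + 1) ≤ D.W := by
    rw [h.W_eq_wild]
    exact h.F_anti' ⊥ Subgroup.normal_bot bot_le bot_le (by omega)
  have hWplus_ne : D.F ⊥ (n₁ + 1) ≠ D.W := fun h' => hn₁' (by rw [h'])
  have hWplus_normal : (D.F ⊥ (n₁ + 1)).Normal :=
    h.F_normal ⊥ Subgroup.normal_bot bot_le bot_le _
  -- a maximal `N` containing `W⁺`
  obtain ⟨N, M, hWN⟩ := h.exists_max_normal hWplus_normal hWplus_le hWplus_ne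
  obtain ⟨σ, hσ, hσN⟩ := h.max_exists_not_mem M
  have hN1 := h.max_le_wild M
  have hNpos : 0 < Nat.card N := Nat.card_pos
  have e1 : n₁ + 1 = p := by
    have hq := h.quot_formula N M.normal M.le hN1 σ hσN
    rw [finsum_mem_eq_sum, h.i_eq_p M hσ hσN] at hq
    have hterm : ∀ w ∈ Finset.univ.filter (· ∈ N), D.i ⊥ (σ * w) = n₁ + 1 := by
      intro w hw
      have hwN : w ∈ N := (Finset.mem_filter.mp hw).2
      have h1 : σ * w ∈ D.W := D.W.mul_mem hσ (M.le hwN)
      have h2 : σ * w ∉ N := fun h' => hσN ((Subgroup.mul_mem_cancel_right N hwN).mp h')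
      exact h.i_bot_eq hn₁W h1 (fun h' => h2 (hWN h'))
    rw [Finset.sum_congr rfl hterm, Finset.sum_const, smul_eq_mul, ← card_eq_filter] at hq
    exact Nat.eq_of_mul_eq_mul_left hNpos hq
  have hm2 : D.m ≠ 2 := h.m_ne_two_of_max M
  -- `W⁺ = ⊥`
  have hbot : D.F ⊥ (n₁ + 1) = ⊥ := by
    by_contra hne
    obtain ⟨N'', hN''normal, hN''W, hdisj, hsum⟩ := h.exists_compl hWplus_normal hWplus_le
    have hN''ne : N'' ≠ D.W := by
      intro h'
      apply hne
      rw [eq_bot_iff]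
      intro w hw
      rw [Subgroup.mem_bot]
      exact hdisj w hw (by rw [h']; exact hWplus_le hw)
    obtain ⟨N', M', hN''N'⟩ := h.exists_max_normal hN''normal hN''W hN''ne
    -- an element of `W⁺` outside `N'`
    obtain ⟨σ', hσ', hσ'N⟩ : ∃ σ' ∈ D.F ⊥ (n₁ + 1), σ' ∉ N' := by
      by_contra hcon
      push Not at hcon
      apply M'.ne
      refine le_antisymm M'.le (fun w hw => ?_)
      obtain ⟨x, hx, n, hn, rfl⟩ := hsum w hw
      exact N'.mul_mem (hcon x hx) (hN''N' hn)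
    have hσ'W : σ' ∈ D.W := hWplus_le hσ'
    have hN'1 := h.max_le_wild M'
    have hq := h.quot_formula N' M'.normal M'.le hN'1 σ' hσ'N
    rw [finsum_mem_eq_sum, h.i_eq_p M' hσ'W hσ'N] at hq
    have hterm : ∀ w ∈ Finset.univ.filter (· ∈ N'),
        p + (if w = 1 then 1 else 0) ≤ D.i ⊥ (σ' * w) := by
      intro w hw
      have hwN : w ∈ N' := (Finset.mem_filter.mp hw).2
      have h1 : σ' * w ∈ D.W := D.W.mul_mem hσ'W (M'.le hwN)
      have h2 : σ' * w ≠ 1 := fun h' => hσ'N (by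
        have : σ' = w⁻¹ := mul_eq_one_iff_eq_inv.mp h'
        rw [this]
        exact N'.inv_mem hwN)
      by_cases hw1 : w = 1
      · rw [if_pos hw1, hw1, mul_one]
        have := h.i_bot_ge hσ' (fun h' => hσ'N (h' ▸ N'.one_mem))
        omega
      · rw [if_neg hw1]
        have := h.i_bot_ge (hn₁W h1) h2
        omega
    have hsum' := Finset.sum_le_sum hterm
    rw [hq, Finset.sum_add_distrib, Finset.sum_const, smul_eq_mul, ← card_eq_filter,
      Finset.sum_ite_eq' ] at hsum'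
    have h1mem : (1 : Γ) ∈ Finset.univ.filter (· ∈ N') := by
      simp [N'.one_mem]
    rw [if_pos h1mem] at hsum'
    omega
  have hn₁p : n₁ = p - 1 := by omega
  refine ⟨?_, ?_, hm2⟩
  · rw [← hn₁p]
    refine le_antisymm hn₁W ?_
    rw [h.W_eq_wild]
    exact h.F_anti' ⊥ Subgroup.normal_bot bot_le bot_le hn₁1
  · rw [← e1]
    exact hbot

theorem m_cast_ne_zero : (D.m : k) ≠ 0 := by
  haveI := h.charP
  rw [Ne, CharP.cast_eq_zero_iff k p]
  intro hdvd
  have h1 := Nat.Coprime.eq_one_of_dvd h.m_coprime_p.symm hdvd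
  have := (h.p_prime).one_lt
  omega

/-- under a single break, `τ₀` commutes with no non-trivial element of `W` -/
theorem eq_one_of_comm_eq_one (hWeq : D.W = D.F ⊥ (p - 1)) (hbot : D.F ⊥ p = ⊥) {w : Γ}
    (hw : w ∈ D.W) (hcomm : D.τ₀ ^ 1 * w * (D.τ₀ ^ 1)⁻¹ * w⁻¹ = 1) : w = 1 := by
  by_contra hne
  have hp3 := h.p_ge_three
  have hpp : p - 1 + 1 = p := by omega
  have h1 : w ∈ D.F ⊥ (p - 1) := hWeq ▸ hw
  have h2 : w ∉ D.F ⊥ (p - 1 + 1) := by
    rw [hpp, hbot, Subgroup.mem_bot]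
    exact hne
  have hrule := h.comm_rule ⊥ Subgroup.normal_bot bot_le bot_le (p - 1) (by omega) w h1 h2
    D.τ₀ h.τ₀_mem
  rw [pow_one] at hcomm
  rw [hcomm] at hrule
  have h3 : D.τ₀ ^ (p - 1) ∈ D.W := by
    rw [h.W_eq_wild]
    exact hrule.1 (Subgroup.one_mem _)
  have h4 := (h.τ₀_pow (p - 1)).1 h3
  have h5 : (p - 1) * D.m ≤ p - 1 := Nat.le_of_dvd (by omega) h4
  have h6 := h.m_ge_two
  nlinarith

/-- under a single break, the `ℓ₁`-coordinates vanish on `W` -/
theorem ℓ₁_eq_zero (hWeq : D.W = D.F ⊥ (p - 1)) (hbot : D.F ⊥ p = ⊥) {w : Γ} (hw : w ∈ D.W) :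
    D.ℓ₁ (D.c₁ w) = 0 ∧ D.ℓ₁ (D.c₂ w) = 0 := by
  have hψ1 : D.ψ₀ ^ 1 ≠ 1 := by rw [pow_one]; exact h.ψ₀_ne_one
  set P := avg (D.τ₀ ^ 1) w D.m with hP
  have hPW : P ∈ D.W := h.avg_mem _ hw _
  have hcomm : D.τ₀ ^ 1 * P * (D.τ₀ ^ 1)⁻¹ * P⁻¹ = 1 := by
    refine h.c_inj _ (D.W.mul_mem (h.W_normal.conj_mem P hPW _) (D.W.inv_mem hPW)) ?_ ?_
    · apply h.eq_of_coord
      · rw [h.coc_comm_ℓ₁ h.isCoc₁ 1 hPW, map_zero]
      · rw [h.coc_comm_ℓp h.isCoc₁ 1 hPW, h.coc_avg_ℓp h.isCoc₁ 1 hψ1 hw, mul_zero, map_zero]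
      · rw [h.coc_comm_ℓm h.isCoc₁ 1 hPW, h.coc_avg_ℓm h.isCoc₁ 1 hψ1 hw, mul_zero, map_zero]
    · apply h.eq_of_coord
      · rw [h.coc_comm_ℓ₁ h.isCoc₂ 1 hPW, map_zero]
      · rw [h.coc_comm_ℓp h.isCoc₂ 1 hPW, h.coc_avg_ℓp h.isCoc₂ 1 hψ1 hw, mul_zero, map_zero]
      · rw [h.coc_comm_ℓm h.isCoc₂ 1 hPW, h.coc_avg_ℓm h.isCoc₂ 1 hψ1 hw, mul_zero, map_zero]
  have hP1 : P = 1 := h.eq_one_of_comm_eq_one hWeq hbot hPW hcomm
  have e1 := h.coc_avg_ℓ₁ h.isCoc₁ 1 hw D.m
  have e2 := h.coc_avg_ℓ₁ h.isCoc₂ 1 hw D.m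
  rw [← hP, hP1, h.isCoc₁.one, map_zero] at e1
  rw [← hP, hP1, h.isCoc₂.one, map_zero] at e2
  constructor
  · rcases mul_eq_zero.mp e1.symm with h' | h'
    · exact absurd h' h.m_cast_ne_zero
    · exact h'
  · rcases mul_eq_zero.mp e2.symm with h' | h'
    · exact absurd h' h.m_cast_ne_zero
    · exact h'

end Hyp

end Fermat.Agent.S56.H846.FLCnt

namespace Fermat.Agent.S56.H846

open FLCnt

/-- **FL-CNT**: the abstract count. -/
theorem flCnt : FLCntStatement := by
  intro p _ Γ k Z _ _ _ _ _ D h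
  by_cases hW : D.W = ⊥
  · refine ⟨1, 0, Or.inl one_ne_zero, fun w hw => ?_⟩
    rw [hW, Subgroup.mem_bot] at hw
    rw [hw, h.isCoc₁.one, h.isCoc₂.one]
    simp
  obtain ⟨hWeq, hbot, hm2⟩ := h.single_break hW
  obtain ⟨w₀, hw₀, hgen⟩ := h.cyc hm2 hWeq hbot
  -- choice of `(a₁, a₂)`
  obtain ⟨a₁, a₂, hne, hzero⟩ : ∃ a₁ a₂ : k, (a₁ ≠ 0 ∨ a₂ ≠ 0) ∧
      a₁ * D.ℓp (D.c₁ w₀) + a₂ * D.ℓp (D.c₂ w₀) = 0 := by
    by_cases hx : D.ℓp (D.c₁ w₀) = 0 ∧ D.ℓp (D.c₂ w₀) = 0
    · exact ⟨1, 0, Or.inl one_ne_zero, by rw [hx.1, hx.2]; ring⟩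
    · refine ⟨D.ℓp (D.c₂ w₀), - D.ℓp (D.c₁ w₀), ?_, by ring⟩
      by_contra hcon
      push Not at hcon
      exact hx ⟨neg_eq_zero.mp hcon.2, hcon.1⟩
  refine ⟨a₁, a₂, hne, ?_⟩
  set c : Γ → Z := fun w => a₁ • D.c₁ w + a₂ • D.c₂ w with hc
  have hcoc : IsCoc D c :=
    ⟨fun w hw w' hw' => by
      simp only [hc, h.c₁_mul w hw w' hw', h.c₂_mul w hw w' hw', smul_add]
      abel,
     fun g w hw => by
      simp only [hc, h.c₁_conj g w hw, h.c₂_conj g w hw, map_add, map_smul]⟩
  have hcp : ∀ w, D.ℓp (c w) = a₁ * D.ℓp (D.c₁ w) + a₂ * D.ℓp (D.c₂ w) := fun w => by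
    simp only [hc, map_add, map_smul, smul_eq_mul]
  -- the subgroup where the `ψ`-coordinate vanishes
  let H : Subgroup Γ :=
    { carrier := {w | w ∈ D.W ∧ D.ℓp (c w) = 0}
      one_mem' := ⟨D.W.one_mem, by rw [hcoc.one, map_zero]⟩
      mul_mem' := by
        rintro w w' ⟨hw, hw0⟩ ⟨hw', hw0'⟩
        exact ⟨D.W.mul_mem hw hw', by rw [hcoc.mul w hw w' hw', map_add, hw0, hw0', add_zero]⟩
      inv_mem' := by
        rintro w ⟨hw, hw0⟩
        exact ⟨D.W.inv_mem hw, by rw [hcoc.inv hw, map_neg, hw0, neg_zero]⟩ }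
  have hH : D.W ≤ H := by
    refine hgen H ⟨hw₀, by rw [hcp]; exact hzero⟩ ?_ ?_
    · rintro w ⟨hw, hw0⟩
      exact ⟨h.W_normal.conj_mem w hw _, by rw [hcoc.conj _ w hw, h.tame_ℓp, hw0, mul_zero]⟩
    · rintro w ⟨hw, hw0⟩
      refine ⟨h.W_normal.conj_mem w hw _, ?_⟩
      rw [hcoc.conj _ w hw, map_pow, pow_two, Module.End.mul_apply, h.frob_ℓp, h.frob_ℓm, hw0,
        mul_zero, mul_zero]
  have hp0 : ∀ w ∈ D.W, D.ℓp (c w) = 0 := fun w hw => (hH hw).2
  have hm0 : ∀ w ∈ D.W, D.ℓm (c w) = 0 := by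
    intro w hw
    have hw' : D.φ⁻¹ * w * D.φ ∈ D.W := by
      have := h.W_normal.conj_mem w hw D.φ⁻¹
      rwa [inv_inv] at this
    have e : w = D.φ * (D.φ⁻¹ * w * D.φ) * D.φ⁻¹ := by group
    rw [e, hcoc.conj _ _ hw', h.frob_ℓm, hp0 _ hw', mul_zero]
  intro w hw
  have h10 : D.ℓ₁ (c w) = 0 := by
    obtain ⟨e1, e2⟩ := h.ℓ₁_eq_zero hWeq hbot hw
    simp only [hc, map_add, map_smul, e1, e2, smul_zero, add_zero]
  show c w = 0
  exact h.eq_of_coord (by rw [h10, map_zero]) (by rw [hp0 w hw, map_zero])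
    (by rw [hm0 w hw, map_zero])

end Fermat.Agent.S56.H846

end
-- ===== PACK-END S56/H846/FLCnt/Main.lean

-- ===== PACK-BEGIN S55/Bridge/H959/Restrict.lean
section



/-!
# S55 bridge, piece B14 (helper959): restriction is ONTO on decomposition and inertia groups

`A` a valuation subring of `ℚ̄` over a prime `ℓ`, `F/ℚ` a normal intermediate field,
`A_F := A.comap (algebraMap F ℚ̄)` the valuation subring of `F` below `A`.  Then restriction
`G_ℚ → Gal(F/ℚ)` maps the decomposition group `D_A` ONTO `D_{A_F}` and the inertia group `I_A`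
ONTO `I_{A_F}` (Prelude `inertiaSubgroupIn`).

Main results (namespace `Fermat.Agent.S55.Bridge.H959`):
* `exists_smul_prime_eq`, `exists_smul_valuationSubring_eq`: a closed subgroup `H ≤ G_ℚ` acts
  transitively on the primes of `ℤ̄` (valuation subrings of `ℚ̄`) with the same trace on the
  `H`-invariants;
* `restrict_mem_decomposition`, `restrict_mem_inertia` (easy directions);
* `exists_mem_decomposition_restrict_eq`, `exists_mem_inertia_restrict_eq` (surjectivity);
* `map_decompositionSubgroup`, `map_inertiaSubgroupIn` (equalities of subgroups of `Gal(F/ℚ)`);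
* `inertia_le_fixingSubgroup_iff`: `I_A ≤ G_F ↔ I_{A_F} = ⊥`.
-/

set_option autoImplicit false
set_option linter.style.haveILetI false

open scoped Pointwise
open IntermediateField

namespace Fermat.Agent.S55.Bridge.H959

open Fermat.Agent.S54 Fermat.Agent.S55.Bridge

/-- `ℚ̄`. -/
noncomputable abbrev Qb := AlgebraicClosure ℚ
/-- `G_ℚ`. -/
noncomputable abbrev GQ := Qb ≃ₐ[ℚ] Qb
/-- `ℤ̄`. -/
noncomputable abbrev Zb := integralClosure ℤ Qb

attribute [local instance] isAlgebraic_Qbar isGalois_Qbar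

/-! ## 0. General valuation-subring lemmas (any field) -/

section general

variable {K L : Type*} [Field K] [Field L] [Algebra K L]

/-- Nonunits of a valuation subring, without valuations. -/
theorem mem_nonunits_iff_inv_notMem (A : ValuationSubring L) (x : L) :
    x ∈ A.nonunits ↔ x = 0 ∨ x⁻¹ ∉ A := by
  rw [ValuationSubring.mem_nonunits_iff]
  rcases eq_or_ne x 0 with rfl | hx
  · simp
  · simp only [hx, false_or]
    rw [← A.valuation_le_one_iff, map_inv₀, not_le]
    have hpos : 0 < A.valuation x := by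
      rw [zero_lt_iff]
      exact (A.valuation.ne_zero_iff).2 hx
    rw [one_lt_inv₀ hpos]

/-- Nonunits of a comap. -/
theorem mem_nonunits_comap_iff {F : Type*} [Field F] (A : ValuationSubring L) (f : F →+* L)
    (x : F) : x ∈ (A.comap f).nonunits ↔ f x ∈ A.nonunits := by
  rw [mem_nonunits_iff_inv_notMem, mem_nonunits_iff_inv_notMem, ValuationSubring.mem_comap,
    map_inv₀, map_eq_zero_iff f f.injective]

/-- Membership in the decomposition group, elementwise (any field). -/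
theorem mem_decomposition_iff (A : ValuationSubring L) (σ : L ≃ₐ[K] L) :
    σ ∈ A.decompositionSubgroup K ↔ ∀ x, σ x ∈ A ↔ x ∈ A := by
  rw [MulAction.mem_stabilizer_iff]
  constructor
  · intro h x
    have hinv : σ⁻¹ • A = A := by
      conv_lhs => rw [← h]
      rw [inv_smul_smul]
    have h1 := ValuationSubring.mem_pointwise_smul_iff_inv_smul_mem (S := A)
      (g := σ⁻¹) (x := x)
    rw [hinv, inv_inv] at h1
    rw [h1]
    rfl
  · intro h
    apply SetLike.ext
    intro x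
    rw [ValuationSubring.mem_pointwise_smul_iff_inv_smul_mem]
    have h2 := h (σ⁻¹ • x)
    rw [AlgEquiv.smul_def] at h2 ⊢
    rw [← h2]
    have : σ (σ⁻¹ x) = x := by
      show (σ * σ⁻¹) x = x
      rw [mul_inv_cancel]
      rfl
    rw [this]

/-- Membership in the (Prelude) inertia group, elementwise (any field). -/
theorem mem_inertia_iff (A : ValuationSubring L) (σ : L ≃ₐ[K] L) :
    σ ∈ A.inertiaSubgroupIn K ↔
      σ ∈ A.decompositionSubgroup K ∧ ∀ z ∈ A, σ z - z ∈ A.nonunits := by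
  constructor
  · rintro ⟨g, hg, rfl⟩
    refine ⟨g.2, fun z hzA => ?_⟩
    have h1 : MulSemiringAction.toRingAut (A.decompositionSubgroup K)
        (IsLocalRing.ResidueField A) g = 1 := hg
    have h2 : g • (IsLocalRing.residue A ⟨z, hzA⟩) = IsLocalRing.residue A ⟨z, hzA⟩ := by
      have := congrArg (fun f => f (IsLocalRing.residue A ⟨z, hzA⟩)) h1
      simpa using this
    rw [← IsLocalRing.ResidueField.residue_smul] at h2
    have h3 : (g • (⟨z, hzA⟩ : A)) - ⟨z, hzA⟩ ∈ IsLocalRing.maximalIdeal A := by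
      rw [← Ideal.Quotient.eq]
      exact h2
    rw [ValuationSubring.valuation_lt_one_iff] at h3
    rw [ValuationSubring.mem_nonunits_iff]
    exact h3
  · rintro ⟨hD, h⟩
    refine ⟨⟨σ, hD⟩, ?_, rfl⟩
    show (⟨σ, hD⟩ : A.decompositionSubgroup K) ∈ MonoidHom.ker
      (MulSemiringAction.toRingAut (A.decompositionSubgroup K) (IsLocalRing.ResidueField A))
    rw [MonoidHom.mem_ker]
    apply RingEquiv.ext
    intro y
    obtain ⟨x, rfl⟩ := IsLocalRing.residue_surjective y
    show (⟨σ, hD⟩ : A.decompositionSubgroup K) • (IsLocalRing.residue A x)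
      = IsLocalRing.residue A x
    rw [← IsLocalRing.ResidueField.residue_smul]
    rw [← sub_eq_zero, ← map_sub, IsLocalRing.residue_eq_zero_iff]
    have h3 := h x.1 x.2
    rw [ValuationSubring.mem_nonunits_iff] at h3
    rw [ValuationSubring.valuation_lt_one_iff]
    exact h3

end general

/-! ## 1. Valuation subrings of `ℚ̄` and primes of `ℤ̄` -/

section primes

/-- A valuation subring of `ℚ̄` over a prime number is determined by the prime of `ℤ̄` below. -/
theorem le_of_primeBelow_eq (A A' : ValuationSubring Qb) (ℓ : ℕ) (hℓ : ℓ.Prime)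
    (hA : A.LiesOverPrime ℓ) (h : primeBelow A = primeBelow A') : A ≤ A' := by
  intro x hx
  obtain ⟨b, s, hb, hs, hsA, hxs⟩ := (mem_valuationSubring_iff A ℓ hℓ hA x).mp hx
  have hbA : b ∈ A' := isIntegral_mem_valuationSubring A' hb
  have hsA' : s ∉ A'.nonunits := by
    intro hcon
    apply hsA
    have h1 : (⟨s, hs⟩ : Zb) ∈ primeBelow A' := hcon
    rw [← h] at h1
    exact h1
  have hs0 : s ≠ 0 := fun h0 => hsA (h0 ▸ A.nonunits.zero_mem)
  have hsinv : s⁻¹ ∈ A' := by
    by_contra hcon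
    exact hsA' ((mem_nonunits_iff_inv_notMem A' s).mpr (Or.inr hcon))
  have : x = b * s⁻¹ := by
    rw [← hxs]; field_simp
  rw [this]
  exact A'.mul_mem _ _ hbA hsinv

theorem eq_of_primeBelow_eq (A A' : ValuationSubring Qb) (ℓ : ℕ) (hℓ : ℓ.Prime)
    (hA : A.LiesOverPrime ℓ) (hA' : A'.LiesOverPrime ℓ) (h : primeBelow A = primeBelow A') :
    A = A' :=
  le_antisymm (le_of_primeBelow_eq A A' ℓ hℓ hA h) (le_of_primeBelow_eq A' A ℓ hℓ hA' h.symm)

/-- The prime below `σ • A` is `σ • (prime below A)`. -/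
theorem primeBelow_smul (σ : _root_.Fermat.Agent.S55.Bridge.H959.GQ) (A : ValuationSubring Qb) :
    primeBelow (σ • A) = σ • primeBelow A := by
  ext b
  rw [Ideal.mem_pointwise_smul_iff_inv_smul_mem, mem_primeBelow, mem_primeBelow,
    mem_nonunits_smul_iff]
  rfl

/-- A closed subgroup `H` of `G_ℚ` acts transitively on the primes of `ℤ̄` having the same
`H`-invariant elements. -/
theorem exists_smul_prime_eq (H : Subgroup _root_.Fermat.Agent.S55.Bridge.H959.GQ) (hH : IsClosed (H : Set _root_.Fermat.Agent.S55.Bridge.H959.GQ))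
    (P Q : Ideal Zb) [P.IsPrime] [Q.IsPrime]
    (hPQ : ∀ b : Zb, (∀ h ∈ H, h • b = b) → (b ∈ P ↔ b ∈ Q)) :
    ∃ h ∈ H, Q = h • P := by
  letI : TopologicalSpace Zb := ⊥
  haveI : DiscreteTopology Zb := ⟨rfl⟩
  haveI : ContinuousSMul _root_.Fermat.Agent.S55.Bridge.H959.GQ Zb := continuousSMul_integralClosure
  haveI : CompactSpace H := isCompact_iff_compactSpace.mp hH.isCompact
  haveI : TotallyDisconnectedSpace H := Subtype.totallyDisconnectedSpace
  haveI : ContinuousSMul H Zb := by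
    refine ⟨?_⟩
    have h1 : Continuous fun p : _root_.Fermat.Agent.S55.Bridge.H959.GQ × Zb => p.1 • p.2 := continuous_smul
    exact h1.comp (Continuous.prodMap continuous_subtype_val continuous_id)
  letI A₀ : Subalgebra ℤ Zb := FixedPoints.subalgebra ℤ Zb H
  haveI : SMulCommClass H A₀ Zb := by
    refine ⟨fun h a b => ?_⟩
    show h • ((a : Zb) * b) = (a : Zb) * (h • b)
    rw [smul_mul']
    congr 1
    exact a.2 h
  haveI : Algebra.IsInvariant A₀ Zb H := ⟨fun b hb => ⟨⟨b, hb⟩, rfl⟩⟩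
  have hunder : P.under A₀ = Q.under A₀ := by
    ext a
    simp only [Ideal.mem_comap]
    exact hPQ a.1 (fun h hh => a.2 ⟨h, hh⟩)
  obtain ⟨g, hg⟩ := Algebra.IsInvariant.exists_smul_of_under_eq_of_profinite
    (A := A₀) (B := Zb) (G := H) P Q hunder
  exact ⟨g.1, g.2, hg⟩

/-- A closed subgroup `H` of `G_ℚ` acts transitively on the valuation subrings of `ℚ̄` over `ℓ`
having the same trace on the `H`-invariant algebraic integers. -/
theorem exists_smul_valuationSubring_eq (H : Subgroup _root_.Fermat.Agent.S55.Bridge.H959.GQ) (hH : IsClosed (H : Set _root_.Fermat.Agent.S55.Bridge.H959.GQ))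
    (A A' : ValuationSubring Qb) (ℓ : ℕ) (hℓ : ℓ.Prime)
    (hA : A.LiesOverPrime ℓ) (hA' : A'.LiesOverPrime ℓ)
    (hAA' : ∀ b : Qb, IsIntegral ℤ b → (∀ h ∈ H, h b = b) → (b ∈ A.nonunits ↔ b ∈ A'.nonunits)) :
    ∃ h ∈ H, A' = h • A := by
  haveI := primeBelow_isPrime A
  haveI := primeBelow_isPrime A'
  obtain ⟨h, hh, hP⟩ := exists_smul_prime_eq H hH (primeBelow A) (primeBelow A')
    (fun b hb => hAA' b.1 b.2 (fun h hh => congrArg Subtype.val (hb h hh)))
  refine ⟨h, hh, ?_⟩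
  rw [← _root_.Fermat.Agent.S55.Bridge.H959.primeBelow_smul] at hP
  exact eq_of_primeBelow_eq A' (h • A) ℓ hℓ hA' (liesOverPrime_smul A h ℓ hA) hP

end primes

/-! ## 2. Restriction to a normal intermediate field -/

section restrict

variable {K L : Type*} [Field K] [Field L] [Algebra K L]

/-- Elements of the decomposition group preserve the nonunits. -/
theorem apply_mem_nonunits_iff (A : ValuationSubring L) (σ : L ≃ₐ[K] L)
    (hσ : σ ∈ A.decompositionSubgroup K) (x : L) : σ x ∈ A.nonunits ↔ x ∈ A.nonunits := by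
  rw [mem_decomposition_iff] at hσ
  rw [mem_nonunits_iff_inv_notMem, mem_nonunits_iff_inv_notMem, ← map_inv₀, hσ,
    map_eq_zero_iff σ σ.injective]

variable (A : ValuationSubring Qb) (F : IntermediateField ℚ Qb) [Normal ℚ F]

/-- The defining property of restriction to `F`. -/
theorem restrict_apply (σ : _root_.Fermat.Agent.S55.Bridge.H959.GQ) (x : F) :
    algebraMap F Qb ((AlgEquiv.restrictNormalHom F σ) x) = σ (algebraMap F Qb x) :=
  AlgEquiv.restrictNormal_commutes σ F x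

/-- Restriction maps `D_A` into `D_{A ∩ F}`. -/
theorem restrict_mem_decomposition (σ : _root_.Fermat.Agent.S55.Bridge.H959.GQ) (hσ : σ ∈ A.decompositionSubgroup ℚ) :
    AlgEquiv.restrictNormalHom F σ ∈ (A.comap (algebraMap F Qb)).decompositionSubgroup ℚ := by
  rw [mem_decomposition_iff] at hσ ⊢
  intro x
  rw [ValuationSubring.mem_comap, ValuationSubring.mem_comap]
  rw [restrict_apply, hσ]

/-- Restriction maps `I_A` into `I_{A ∩ F}`. -/
theorem restrict_mem_inertia (σ : _root_.Fermat.Agent.S55.Bridge.H959.GQ) (hσ : σ ∈ A.inertiaSubgroupIn ℚ) :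
    AlgEquiv.restrictNormalHom F σ ∈ (A.comap (algebraMap F Qb)).inertiaSubgroupIn ℚ := by
  rw [mem_inertia_iff] at hσ ⊢
  refine ⟨restrict_mem_decomposition A F σ hσ.1, fun z hz => ?_⟩
  rw [mem_nonunits_comap_iff, map_sub]
  rw [restrict_apply]
  exact hσ.2 _ (ValuationSubring.mem_comap.mp hz)

/-- Elements of `G_F` restrict to the identity of `F`. -/
theorem restrict_eq_one_of_mem_fixingSubgroup (h : _root_.Fermat.Agent.S55.Bridge.H959.GQ) (hh : h ∈ F.fixingSubgroup) :
    AlgEquiv.restrictNormalHom F h = 1 := by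
  ext x
  show algebraMap F Qb ((AlgEquiv.restrictNormalHom F h) x) = algebraMap F Qb x
  rw [restrict_apply]
  exact hh ⟨x.1, x.2⟩

omit [Normal ℚ F] in
/-- An element of `ℚ̄` fixed by `G_F` lies in `F`. -/
theorem mem_of_fixed (b : Qb) (hb : ∀ h ∈ F.fixingSubgroup, h b = b) : b ∈ F := by
  rw [← InfiniteGalois.fixedField_fixingSubgroup F]
  exact fun h => hb h.1 h.2

/-- **B14, decomposition groups.**  Every element of the decomposition group of `A ∩ F` is the
restriction of an element of the decomposition group of `A`. -/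
theorem exists_mem_decomposition_restrict_eq (ℓ : ℕ) (hℓ : ℓ.Prime) (hA : A.LiesOverPrime ℓ)
    (τ : F ≃ₐ[ℚ] F) (hτ : τ ∈ (A.comap (algebraMap F Qb)).decompositionSubgroup ℚ) :
    ∃ σ ∈ A.decompositionSubgroup ℚ, AlgEquiv.restrictNormalHom F σ = τ := by
  obtain ⟨σ₀, hσ₀⟩ := AlgEquiv.restrictNormalHom_surjective Qb τ
  have key : ∀ b : Qb, IsIntegral ℤ b → (∀ h ∈ F.fixingSubgroup, h b = b) →
      (b ∈ (σ₀ • A).nonunits ↔ b ∈ A.nonunits) := by
    intro b _ hb
    have hbF : b ∈ F := mem_of_fixed F b hb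
    rw [mem_nonunits_smul_iff]
    have h1 : σ₀⁻¹ b = algebraMap F Qb (τ⁻¹ ⟨b, hbF⟩) := by
      rw [← hσ₀, ← map_inv, restrict_apply]
      rfl
    rw [h1, ← mem_nonunits_comap_iff,
      apply_mem_nonunits_iff _ τ⁻¹ (Subgroup.inv_mem _ hτ), mem_nonunits_comap_iff]
    rfl
  obtain ⟨h, hh, hA'⟩ := exists_smul_valuationSubring_eq F.fixingSubgroup
    (InfiniteGalois.fixingSubgroup_isClosed F) (σ₀ • A) A ℓ hℓ
    (liesOverPrime_smul A σ₀ ℓ hA) hA key
  refine ⟨h * σ₀, ?_, ?_⟩
  · rw [MulAction.mem_stabilizer_iff, mul_smul]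
    exact hA'.symm
  · rw [map_mul, restrict_eq_one_of_mem_fixingSubgroup F h hh, one_mul, hσ₀]

/-- An element of `G_ℚ` stabilising the prime of `ℤ̄` below `A` lies in `D_A`. -/
theorem mem_decomposition_of_smul_primeBelow (ℓ : ℕ) (hℓ : ℓ.Prime) (hA : A.LiesOverPrime ℓ)
    (g : _root_.Fermat.Agent.S55.Bridge.H959.GQ) (hg : g • primeBelow A = primeBelow A) : g ∈ A.decompositionSubgroup ℚ := by
  rw [MulAction.mem_stabilizer_iff]
  rw [← _root_.Fermat.Agent.S55.Bridge.H959.primeBelow_smul] at hg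
  exact eq_of_primeBelow_eq (g • A) A ℓ hℓ (liesOverPrime_smul A g ℓ hA) hA hg

/-- An element of `D_A` acting trivially on `ℤ̄` modulo the prime below `A` lies in `I_A`. -/
theorem mem_inertia_of_integral (ℓ : ℕ) (hℓ : ℓ.Prime) (hA : A.LiesOverPrime ℓ)
    (σ : _root_.Fermat.Agent.S55.Bridge.H959.GQ) (hσ : σ ∈ A.decompositionSubgroup ℚ)
    (h : ∀ b : Qb, IsIntegral ℤ b → σ b - b ∈ A.nonunits) : σ ∈ A.inertiaSubgroupIn ℚ := by
  rw [mem_inertia_iff]
  refine ⟨hσ, fun z hz => ?_⟩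
  obtain ⟨b, s, hb, hs, hsA, hzs⟩ := (mem_valuationSubring_iff A ℓ hℓ hA z).mp hz
  have hσs : σ s ∉ A.nonunits := by
    rw [apply_mem_nonunits_iff A σ hσ]
    exact hsA
  have hσsA : σ s ∈ A := isIntegral_mem_valuationSubring A (hs.map σ)
  have hv1 : A.valuation (σ s) = 1 := by
    rw [ValuationSubring.mem_nonunits_iff, not_lt] at hσs
    exact le_antisymm ((A.valuation_le_one_iff _).mpr hσsA) hσs
  have hid : (σ z - z) * σ s = (σ b - b) + z * (s - σ s) := by
    have : σ z * σ s = σ b := by rw [← map_mul, hzs]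
    calc (σ z - z) * σ s = σ z * σ s - z * σ s := by ring
      _ = σ b - z * σ s := by rw [this]
      _ = (σ b - b) + (z * s - z * σ s) := by rw [hzs]; ring
      _ = (σ b - b) + z * (s - σ s) := by ring
  have h1 : A.valuation (σ b - b) < 1 := (ValuationSubring.mem_nonunits_iff A).mp (h b hb)
  have h2 : A.valuation (z * (s - σ s)) < 1 := by
    rw [map_mul]
    have h3 : A.valuation (s - σ s) < 1 := by
      have := (ValuationSubring.mem_nonunits_iff A).mp (h s hs)
      rwa [← Valuation.map_neg, neg_sub] at this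
    have h4 : A.valuation z ≤ 1 := (A.valuation_le_one_iff z).mpr hz
    calc A.valuation z * A.valuation (s - σ s) ≤ 1 * A.valuation (s - σ s) :=
          mul_le_mul_left h4 _
      _ = A.valuation (s - σ s) := one_mul _
      _ < 1 := h3
  rw [ValuationSubring.mem_nonunits_iff]
  have h5 : A.valuation ((σ z - z) * σ s) < 1 := by
    rw [hid]
    exact lt_of_le_of_lt (A.valuation.map_add _ _) (max_lt h1 h2)
  rwa [map_mul, hv1, mul_one] at h5

/-- The stabiliser in a closed subgroup `H ≤ G_ℚ` of a prime `Q` of `ℤ̄` induces every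
automorphism of `ℤ̄ / Q` which is trivial on the classes of the `H`-invariant elements
(elementwise form of `Ideal.Quotient.stabilizerHom_surjective_of_profinite`). -/
theorem exists_mem_stabilizer_of_fixes (H : Subgroup _root_.Fermat.Agent.S55.Bridge.H959.GQ) (hH : IsClosed (H : Set _root_.Fermat.Agent.S55.Bridge.H959.GQ))
    (Q : Ideal Zb) [Q.IsPrime] (g : _root_.Fermat.Agent.S55.Bridge.H959.GQ) (hg : g • Q = Q)
    (hfix : ∀ a : Zb, (∀ h ∈ H, h • a = a) → g • a - a ∈ Q) :
    ∃ h ∈ H, h • Q = Q ∧ ∀ b : Zb, h • b - g • b ∈ Q := by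
  letI : TopologicalSpace Zb := ⊥
  haveI : DiscreteTopology Zb := ⟨rfl⟩
  haveI : ContinuousSMul _root_.Fermat.Agent.S55.Bridge.H959.GQ Zb := continuousSMul_integralClosure
  haveI : CompactSpace H := isCompact_iff_compactSpace.mp hH.isCompact
  haveI : TotallyDisconnectedSpace H := Subtype.totallyDisconnectedSpace
  haveI : ContinuousSMul H Zb := by
    refine ⟨?_⟩
    have h1 : Continuous fun p : _root_.Fermat.Agent.S55.Bridge.H959.GQ × Zb => p.1 • p.2 := continuous_smul
    exact h1.comp (Continuous.prodMap continuous_subtype_val continuous_id)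
  letI A₀ : Subalgebra ℤ Zb := FixedPoints.subalgebra ℤ Zb H
  haveI : SMulCommClass H A₀ Zb := by
    refine ⟨fun h a b => ?_⟩
    show h • ((a : Zb) * b) = (a : Zb) * (h • b)
    rw [smul_mul']
    congr 1
    exact a.2 h
  haveI : Algebra.IsInvariant A₀ Zb H := ⟨fun b hb => ⟨⟨b, hb⟩, rfl⟩⟩
  -- the automorphism of `ℤ̄ / Q` induced by `g`, as an algebra automorphism over `A₀ / (Q ∩ A₀)`
  let ρ : (Zb ⧸ Q) ≃ₐ[ℤ ⧸ Q.under ℤ] (Zb ⧸ Q) :=
    Ideal.Quotient.stabilizerHom Q (Q.under ℤ) _root_.Fermat.Agent.S55.Bridge.H959.GQ ⟨g, hg⟩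
  have hρ : ∀ b : Zb, ρ (Ideal.Quotient.mk Q b) = Ideal.Quotient.mk Q (g • b) := fun b => rfl
  let e : (Zb ⧸ Q) ≃ₐ[A₀ ⧸ Q.under A₀] (Zb ⧸ Q) :=
    AlgEquiv.ofRingEquiv (f := ρ.toRingEquiv) (by
      intro y
      obtain ⟨a, rfl⟩ := Ideal.Quotient.mk_surjective y
      show ρ (Ideal.Quotient.mk Q (a : Zb)) = Ideal.Quotient.mk Q (a : Zb)
      rw [hρ, Ideal.Quotient.eq]
      exact hfix a.1 (fun h hh => a.2 ⟨h, hh⟩))
  obtain ⟨h, hh⟩ := Ideal.Quotient.stabilizerHom_surjective_of_profinite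
    (G := H) (Q.under A₀) Q e
  refine ⟨h.1.1, h.1.2, h.2, fun b => ?_⟩
  have h1 := congrArg (fun f => f (Ideal.Quotient.mk Q b)) hh
  simp only [Ideal.Quotient.stabilizerHom_apply] at h1
  rw [← Ideal.Quotient.eq]
  exact h1

/-- **B14, inertia groups.**  Every element of the inertia group of `A ∩ F` is the restriction
of an element of the inertia group of `A`. -/
theorem exists_mem_inertia_restrict_eq (ℓ : ℕ) (hℓ : ℓ.Prime) (hA : A.LiesOverPrime ℓ)
    (τ : F ≃ₐ[ℚ] F) (hτ : τ ∈ (A.comap (algebraMap F Qb)).inertiaSubgroupIn ℚ) :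
    ∃ σ ∈ A.inertiaSubgroupIn ℚ, AlgEquiv.restrictNormalHom F σ = τ := by
  have hτinv := Subgroup.inv_mem _ hτ
  rw [mem_inertia_iff] at hτ hτinv
  obtain ⟨σ, hσD, hσ⟩ := _root_.Fermat.Agent.S55.Bridge.H959.exists_mem_decomposition_restrict_eq A F ℓ hℓ hA τ hτ.1
  haveI := primeBelow_isPrime A
  have hσinvD : σ⁻¹ ∈ A.decompositionSubgroup ℚ := Subgroup.inv_mem _ hσD
  have hσQ : σ⁻¹ • primeBelow A = primeBelow A := by
    rw [← _root_.Fermat.Agent.S55.Bridge.H959.primeBelow_smul]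
    congr 1
  obtain ⟨h, hh, hhQ, hcong⟩ := exists_mem_stabilizer_of_fixes F.fixingSubgroup
    (InfiniteGalois.fixingSubgroup_isClosed F) (primeBelow A) σ⁻¹ hσQ (by
      intro a ha
      have haF : (a : Qb) ∈ F :=
        mem_of_fixed F a (fun h hh => congrArg Subtype.val (ha h hh))
      rw [mem_primeBelow]
      show σ⁻¹ (a : Qb) - (a : Qb) ∈ A.nonunits
      have h1 : σ⁻¹ (a : Qb) = algebraMap F Qb (τ⁻¹ ⟨a, haF⟩) := by
        rw [← hσ, ← map_inv, restrict_apply]
        rfl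
      have h3 : σ⁻¹ (a : Qb) - (a : Qb) =
          algebraMap F Qb (τ⁻¹ (⟨a, haF⟩ : F) - (⟨a, haF⟩ : F)) := by
        rw [map_sub, ← h1]
        rfl
      rw [h3, ← mem_nonunits_comap_iff]
      refine hτinv.2 _ ?_
      rw [ValuationSubring.mem_comap]
      exact isIntegral_mem_valuationSubring A a.2)
  have hhD : h ∈ A.decompositionSubgroup ℚ :=
    mem_decomposition_of_smul_primeBelow A ℓ hℓ hA h hhQ
  refine ⟨h * σ, ?_, ?_⟩
  · refine mem_inertia_of_integral A ℓ hℓ hA (h * σ) (Subgroup.mul_mem _ hhD hσD) ?_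
    intro b hb
    have h1 := hcong ⟨σ b, hb.map σ⟩
    rw [mem_primeBelow] at h1
    have h2 : ((h • (⟨σ b, hb.map σ⟩ : Zb) - σ⁻¹ • (⟨σ b, hb.map σ⟩ : Zb) : Zb) : Qb)
        = (h * σ) b - b := by
      show h (σ b) - σ⁻¹ (σ b) = (h * σ) b - b
      have : σ⁻¹ (σ b) = b := by
        show (σ⁻¹ * σ) b = b
        rw [inv_mul_cancel]
        rfl
      rw [this]
      rfl
    rw [h2] at h1
    exact h1
  · rw [map_mul, restrict_eq_one_of_mem_fixingSubgroup F h hh, one_mul, hσ]

/-- **B14.**  The image of `D_A` in `Gal(F/ℚ)` is `D_{A ∩ F}`. -/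
theorem map_decompositionSubgroup (ℓ : ℕ) (hℓ : ℓ.Prime) (hA : A.LiesOverPrime ℓ) :
    (A.decompositionSubgroup ℚ).map (AlgEquiv.restrictNormalHom F) =
      (A.comap (algebraMap F Qb)).decompositionSubgroup ℚ := by
  ext τ
  constructor
  · rintro ⟨σ, hσ, rfl⟩
    exact restrict_mem_decomposition A F σ hσ
  · intro hτ
    obtain ⟨σ, hσ, rfl⟩ := _root_.Fermat.Agent.S55.Bridge.H959.exists_mem_decomposition_restrict_eq A F ℓ hℓ hA τ hτ
    exact ⟨σ, hσ, rfl⟩

/-- **B14.**  The image of `I_A` in `Gal(F/ℚ)` is `I_{A ∩ F}`. -/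
theorem map_inertiaSubgroupIn (ℓ : ℕ) (hℓ : ℓ.Prime) (hA : A.LiesOverPrime ℓ) :
    (A.inertiaSubgroupIn ℚ).map (AlgEquiv.restrictNormalHom F) =
      (A.comap (algebraMap F Qb)).inertiaSubgroupIn ℚ := by
  ext τ
  constructor
  · rintro ⟨σ, hσ, rfl⟩
    exact restrict_mem_inertia A F σ hσ
  · intro hτ
    obtain ⟨σ, hσ, rfl⟩ := _root_.Fermat.Agent.S55.Bridge.H959.exists_mem_inertia_restrict_eq A F ℓ hℓ hA τ hτ
    exact ⟨σ, hσ, rfl⟩

/-- `F` is unramified at `A` in the Prelude sense (`I_A ≤ G_F`) iff the inertia group of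
`A ∩ F` in `Gal(F/ℚ)` is trivial. -/
theorem inertia_le_fixingSubgroup_iff (ℓ : ℕ) (hℓ : ℓ.Prime) (hA : A.LiesOverPrime ℓ) :
    A.inertiaSubgroupIn ℚ ≤ F.fixingSubgroup ↔
      (A.comap (algebraMap F Qb)).inertiaSubgroupIn ℚ = ⊥ := by
  rw [← map_inertiaSubgroupIn A F ℓ hℓ hA, Subgroup.map_eq_bot_iff]
  constructor
  · intro h σ hσ
    rw [MonoidHom.mem_ker]
    exact restrict_eq_one_of_mem_fixingSubgroup F σ (h hσ)
  · intro h σ hσ
    have h1 : AlgEquiv.restrictNormalHom F σ = 1 := MonoidHom.mem_ker.mp (h hσ)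
    rw [IntermediateField.mem_fixingSubgroup_iff]
    intro x hx
    have h2 := restrict_apply F σ ⟨x, hx⟩
    rw [h1] at h2
    exact h2.symm

end restrict

end Fermat.Agent.S55.Bridge.H959

end
-- ===== PACK-END S55/Bridge/H959/Restrict.lean

-- ===== PACK-BEGIN S56/H134/P1.lean
section



/-!
# S56, piece P1: `PowerSeriesSurjStatement`

At most `|k| ^ r` tangent vectors `R → k[ε]` ⇒ `𝒪⟦X₁,…,X_r⟧ ↠ R`.
Proof in `Fermat/Agent/S56/H134/Cotangent.lean` (relative cotangent space + complete Nakayama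
package of S53 `H596/PowerSeriesCNL.lean`).
-/

set_option autoImplicit false

open IsLocalRing

namespace Fermat.Agent.S56.H134

/-- **P1** (`PowerSeriesSurjStatement`), verbatim. -/
theorem powerSeriesSurj : Fermat.Agent.S56.PowerSeriesSurjStatement := by
  intro 𝒪 _ _ _ _ _ R _ _ _ _ _ _ hres r hfin hcard
  exact exists_surjective_of_card_algHom_le hres r hfin hcard

end Fermat.Agent.S56.H134

end
-- ===== PACK-END S56/H134/P1.lean

-- ===== PACK-BEGIN S30/H870/Cyclo.lean
section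



/-!
# The `p`-adic cyclotomic character with values in a complete local ring

For a prime `p` and a commutative ring `𝒪` which is complete for an ideal `I ∋ p`, we construct

`adicCyclo p I hp : Gal(ℚ̄/ℚ) →* 𝒪ˣ`

(Mathlib's `cyclotomicCharacter` composed with the canonical ring homomorphism `ℤ_[p] → 𝒪`) and
prove:

* `adicCyclo_frobenius`: the value at a Frobenius element at a place over `ℓ ≠ p` is `ℓ`;
* `adicCyclo_inertia`: it is trivial on inertia at places over `q ≠ p`;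
* `adicCyclo_continuous`: it is congruent to `1` modulo `I ^ n` on `Gal(ℚ̄/ℚ(ζ_{pⁿ}))`;
* `adicCyclo_complexConjugation`: its value at complex conjugation is `-1`.
-/

set_option autoImplicit false

namespace Fermat.Agent.S30.H870

open Fermat.Agent.S55.Bridge Fermat.Agent.S29.H872

/-- `ℚ̄`. -/
abbrev Qb : Type := AlgebraicClosure ℚ

/-- `Gal(ℚ̄/ℚ)`. -/
abbrev GQ : Type := Qb ≃ₐ[ℚ] Qb

section padic

variable (p : ℕ) [Fact p.Prime]

/-- The `ℤ_p`-valued cyclotomic character of `Gal(ℚ̄/ℚ)`. -/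
noncomputable def padicCyclo : _root_.Fermat.Agent.S30.H870.GQ →* ℤ_[p]ˣ :=
  (cyclotomicCharacter Qb p).comp (MulSemiringAction.toRingAut _root_.Fermat.Agent.S30.H870.GQ Qb)

theorem padicCyclo_toZModPow_eq (σ : _root_.Fermat.Agent.S30.H870.GQ) (n : ℕ) (c : ZMod (p ^ n))
    (hc : ∀ t : Qb, t ^ p ^ n = 1 → σ t = t ^ c.val) :
    PadicInt.toZModPow n (padicCyclo p σ : ℤ_[p]) = c := by
  have hp : p.Prime := Fact.out
  haveI : NeZero (p ^ n) := ⟨pow_ne_zero n hp.ne_zero⟩
  rw [padicCyclo, MonoidHom.comp_apply, cyclotomicCharacter.toZModPow]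
  symm
  refine modularCyclotomicCharacter.unique Qb _ _ (fun t ht => ?_)
  have htp : (t : Qb) ^ p ^ n = 1 := by
    have := (mem_rootsOfUnity (p ^ n) t).1 ht
    rw [← Units.val_pow_eq_pow_val, this, Units.val_one]
  exact hc t htp

theorem padicCyclo_eq_natCast (σ : _root_.Fermat.Agent.S30.H870.GQ) (k : ℕ)
    (h : ∀ (n : ℕ) (t : Qb), t ^ p ^ n = 1 → σ t = t ^ k) :
    (padicCyclo p σ : ℤ_[p]) = (k : ℤ_[p]) := by
  refine PadicInt.ext_of_toZModPow.1 (fun n => ?_)
  rw [map_natCast]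
  refine padicCyclo_toZModPow_eq p σ n _ (fun t ht => ?_)
  rw [h n t ht, ZMod.val_natCast]
  conv_lhs => rw [← Nat.div_add_mod k (p ^ n), pow_add, pow_mul, ht, one_pow, one_mul]

theorem padicCyclo_eq_one (σ : _root_.Fermat.Agent.S30.H870.GQ) (h : ∀ (n : ℕ) (t : Qb), t ^ p ^ n = 1 → σ t = t) :
    padicCyclo p σ = 1 := by
  apply Units.ext
  have := padicCyclo_eq_natCast p σ 1 (fun n t ht => by rw [pow_one]; exact h n t ht)
  rw [this, Nat.cast_one, Units.val_one]

theorem padicCyclo_eq_neg_one (σ : _root_.Fermat.Agent.S30.H870.GQ) (h : ∀ (n : ℕ) (t : Qb), t ^ p ^ n = 1 → σ t = t⁻¹) :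
    padicCyclo p σ = -1 := by
  have hp : p.Prime := Fact.out
  apply Units.ext
  rw [Units.val_neg, Units.val_one]
  refine PadicInt.ext_of_toZModPow.1 (fun n => ?_)
  rw [map_neg, map_one]
  refine padicCyclo_toZModPow_eq p σ n _ (fun t ht => ?_)
  rw [h n t ht]
  have ht0 : t ≠ 0 := by
    rintro rfl
    rw [zero_pow (pow_ne_zero n hp.ne_zero)] at ht
    exact zero_ne_one ht
  have hdvd : p ^ n ∣ (-1 : ZMod (p ^ n)).val + 1 := by
    rw [← ZMod.natCast_eq_zero_iff]
    haveI : NeZero (p ^ n) := ⟨pow_ne_zero n hp.ne_zero⟩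
    rw [Nat.cast_add, ZMod.natCast_val, ZMod.cast_id, Nat.cast_one, neg_add_cancel]
  obtain ⟨k, hk⟩ := hdvd
  apply inv_eq_of_mul_eq_one_right
  rw [← pow_succ', hk, pow_mul, ht, one_pow]

end padic

section values

variable (p : ℕ) [Fact p.Prime]

/-- Frobenius elements at `ℓ ≠ p` raise `p`-power roots of unity to the `ℓ`-th power. -/
theorem frob_root_pow_eq {ℓ : ℕ} (hℓ : ℓ.Prime) (hℓp : ℓ ≠ p)
    (A : ValuationSubring Qb) (hA : A.LiesOverPrime ℓ)
    (τ : _root_.Fermat.Agent.S30.H870.GQ) (hτ : A.IsFrobeniusAt τ ℓ) {n : ℕ} {t : Qb} (ht : t ^ p ^ n = 1) :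
    τ t = t ^ ℓ := by
  have hp : p.Prime := Fact.out
  by_contra hne
  have hpv : A.valuation (((p ^ n : ℕ) : Qb)) = 1 := by
    rw [Nat.cast_pow, map_pow, val_prime_eq_one (A := A) hA hℓ hp hℓp, one_pow]
  have hp0 : p ^ n ≠ 0 := pow_ne_zero n hp.ne_zero
  have hσt : (τ t) ^ p ^ n = 1 := by rw [← map_pow, ht, map_one]
  have htl : (t ^ ℓ) ^ p ^ n = 1 := by rw [← pow_mul, mul_comm, pow_mul, ht, one_pow]
  have h1 := val_sub_roots_eq_one (A := A) hp0 hpv hσt htl hne
  have hvt : A.valuation t ≤ 1 := by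
    have h : (A.valuation t) ^ p ^ n = 1 := by rw [← map_pow, ht, map_one]
    exact ((pow_eq_one_iff.1 h).resolve_right hp0).le
  have h2 := frob_val_sub_lt_one A hτ t hvt
  rw [h1] at h2
  exact lt_irrefl _ h2

/-- Inertia at `q ≠ p` fixes `p`-power roots of unity. -/
theorem inertia_root_eq {q : ℕ} (hq : q.Prime) (hqp : q ≠ p)
    (A : ValuationSubring Qb) (hA : A.LiesOverPrime q)
    (σ : _root_.Fermat.Agent.S30.H870.GQ) (hσ : σ ∈ A.inertiaSubgroupIn ℚ) {n : ℕ} {t : Qb} (ht : t ^ p ^ n = 1) :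
    σ t = t := by
  have hp : p.Prime := Fact.out
  by_contra hne
  have hpv : A.valuation (((p ^ n : ℕ) : Qb)) = 1 := by
    rw [Nat.cast_pow, map_pow, val_prime_eq_one (A := A) hA hq hp hqp, one_pow]
  have hp0 : p ^ n ≠ 0 := pow_ne_zero n hp.ne_zero
  have hσt : (σ t) ^ p ^ n = 1 := by rw [← map_pow, ht, map_one]
  have h1 := val_sub_roots_eq_one (A := A) hp0 hpv hσt ht hne
  have hvt : A.valuation t ≤ 1 := by
    have h : (A.valuation t) ^ p ^ n = 1 := by rw [← map_pow, ht, map_one]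
    exact ((pow_eq_one_iff.1 h).resolve_right hp0).le
  have h2 := inertia_val_sub_lt_one A hσ t hvt
  rw [h1] at h2
  exact lt_irrefl _ h2

/-- Complex conjugation inverts roots of unity. -/
theorem complexConjugation_root {m : ℕ} (hm : m ≠ 0) {t : Qb} (ht : t ^ m = 1) :
    complexConjugation t = t⁻¹ := by
  apply complexEmbedding.toRingHom.injective
  show complexEmbedding (complexConjugation t) = complexEmbedding t⁻¹
  rw [complexEmbedding_complexConjugation, map_inv₀]
  have hz : (complexEmbedding t) ^ m = 1 := by rw [← map_pow, ht, map_one]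
  have hnorm : ‖complexEmbedding t‖ = 1 := by
    have h := congrArg norm hz
    rw [norm_pow, norm_one] at h
    exact (pow_eq_one_iff_of_nonneg (norm_nonneg _) hm).1 h
  exact (Complex.inv_eq_conj hnorm).symm

theorem padicCyclo_frobenius {ℓ : ℕ} (hℓ : ℓ.Prime) (hℓp : ℓ ≠ p)
    (A : ValuationSubring Qb) (hA : A.LiesOverPrime ℓ)
    (τ : _root_.Fermat.Agent.S30.H870.GQ) (hτ : A.IsFrobeniusAt τ ℓ) : (padicCyclo p τ : ℤ_[p]) = (ℓ : ℤ_[p]) :=
  padicCyclo_eq_natCast p τ ℓ (fun _ _ ht => frob_root_pow_eq p hℓ hℓp A hA τ hτ ht)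

theorem padicCyclo_inertia {q : ℕ} (hq : q.Prime) (hqp : q ≠ p)
    (A : ValuationSubring Qb) (hA : A.LiesOverPrime q)
    (σ : _root_.Fermat.Agent.S30.H870.GQ) (hσ : σ ∈ A.inertiaSubgroupIn ℚ) : padicCyclo p σ = 1 :=
  padicCyclo_eq_one p σ (fun _ _ ht => inertia_root_eq p hq hqp A hA σ hσ ht)

theorem padicCyclo_complexConjugation : padicCyclo p complexConjugation = -1 :=
  padicCyclo_eq_neg_one p _ (fun n _ ht =>
    complexConjugation_root (pow_ne_zero n (Fact.out : p.Prime).ne_zero) ht)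

/-- Continuity of the `p`-adic cyclotomic character: it is `≡ 1` modulo `pⁿ` on the absolute
Galois group of the finite extension `ℚ(ζ_{pⁿ})`. -/
theorem padicCyclo_continuous (n : ℕ) :
    ∃ L : IntermediateField ℚ Qb, FiniteDimensional ℚ L ∧
      ∀ σ : _root_.Fermat.Agent.S30.H870.GQ, (∀ x ∈ L, σ x = x) → PadicInt.toZModPow n (padicCyclo p σ : ℤ_[p]) = 1 := by
  have hp : p.Prime := Fact.out
  haveI : NeZero (p ^ n) := ⟨pow_ne_zero n hp.ne_zero⟩
  obtain ⟨ζ, hζ⟩ := HasEnoughRootsOfUnity.exists_primitiveRoot Qb (p ^ n)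
  have hint : IsIntegral ℚ ζ := (AlgebraicClosure.isAlgebraic ℚ).isIntegral.isIntegral ζ
  refine ⟨IntermediateField.adjoin ℚ {ζ}, IntermediateField.adjoin.finiteDimensional hint,
    fun σ hσ => ?_⟩
  have hζfix : σ ζ = ζ := hσ ζ (IntermediateField.mem_adjoin_simple_self ℚ ζ)
  rcases Nat.eq_zero_or_pos n with rfl | hn
  · haveI : Subsingleton (ZMod (p ^ 0)) := by
      rw [pow_zero]
      infer_instance
    exact Subsingleton.elim _ _
  · haveI : Fact (1 < p ^ n) := ⟨Nat.one_lt_pow hn.ne' hp.one_lt⟩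
    refine padicCyclo_toZModPow_eq p σ n 1 (fun t ht => ?_)
    rw [ZMod.val_one, pow_one]
    obtain ⟨i, -, rfl⟩ := hζ.eq_pow_of_pow_eq_one ht
    rw [map_pow, hζfix]

end values

section phi

variable (p : ℕ) [Fact p.Prime]
variable {O : Type*} [CommRing O] (I : Ideal O) (hp : (p : O) ∈ I)

/-- The canonical map `ℤ/pⁿ → 𝒪/Iⁿ` when `p ∈ I`. -/
noncomputable def zmodToQuot (n : ℕ) : ZMod (p ^ n) →+* O ⧸ I ^ n :=
  (Ideal.Quotient.lift (Ideal.span {((p ^ n : ℕ) : ℤ)}) (Int.castRingHom (O ⧸ I ^ n)) (by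
    intro a ha
    obtain ⟨b, rfl⟩ := Ideal.mem_span_singleton'.1 ha
    have h0 : ((p ^ n : ℕ) : O ⧸ I ^ n) = 0 := by
      rw [← map_natCast (Ideal.Quotient.mk (I ^ n)), Ideal.Quotient.eq_zero_iff_mem,
        Nat.cast_pow]
      exact Ideal.pow_mem_pow hp n
    rw [map_mul, map_natCast, h0, mul_zero])).comp
    (Int.quotientSpanNatEquivZMod (p ^ n)).symm.toRingHom

theorem zmodToQuot_compat {m n : ℕ} (hle : m ≤ n) :
    (Ideal.Quotient.factorPow I hle).comp ((zmodToQuot p I hp n).comp (PadicInt.toZModPow n))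
      = (zmodToQuot p I hp m).comp (PadicInt.toZModPow m) := by
  rw [← RingHom.comp_assoc, ← PadicInt.zmod_cast_comp_toZModPow m n hle,
    ← RingHom.comp_assoc]
  congr 1
  exact RingHom.ext_zmod _ _

variable [IsAdicComplete I O]

/-- The canonical ring homomorphism `ℤ_[p] → 𝒪` for an `I`-adically complete ring with `p ∈ I`. -/
noncomputable def padicToComplete : ℤ_[p] →+* O :=
  IsAdicComplete.liftRingHom I (fun n => (zmodToQuot p I hp n).comp (PadicInt.toZModPow n))
    (fun {_ _} hle => zmodToQuot_compat p I hp hle)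

theorem mk_padicToComplete (n : ℕ) (z : ℤ_[p]) :
    Ideal.Quotient.mk (I ^ n) (padicToComplete p I hp z)
      = zmodToQuot p I hp n (PadicInt.toZModPow n z) :=
  IsAdicComplete.mk_liftRingHom I (fun n => (zmodToQuot p I hp n).comp (PadicInt.toZModPow n))
    (fun {_ _} hle => zmodToQuot_compat p I hp hle) n z

theorem padicToComplete_sub_one_mem (n : ℕ) (z : ℤ_[p]) (hz : PadicInt.toZModPow n z = 1) :
    padicToComplete p I hp z - 1 ∈ I ^ n := by
  rw [← Ideal.Quotient.eq_zero_iff_mem, map_sub, mk_padicToComplete, hz, map_one, map_one,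
    sub_self]

/-- **The `p`-adic cyclotomic character with values in `𝒪ˣ`.** -/
noncomputable def adicCyclo : _root_.Fermat.Agent.S30.H870.GQ →* Oˣ :=
  (Units.map (padicToComplete p I hp : ℤ_[p] →* O)).comp (padicCyclo p)

theorem adicCyclo_val (σ : _root_.Fermat.Agent.S30.H870.GQ) :
    ((adicCyclo p I hp σ : Oˣ) : O) = padicToComplete p I hp (padicCyclo p σ : ℤ_[p]) := rfl

theorem adicCyclo_frobenius {ℓ : ℕ} (hℓ : ℓ.Prime) (hℓp : ℓ ≠ p)
    (A : ValuationSubring Qb) (hA : A.LiesOverPrime ℓ)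
    (τ : _root_.Fermat.Agent.S30.H870.GQ) (hτ : A.IsFrobeniusAt τ ℓ) : ((adicCyclo p I hp τ : Oˣ) : O) = (ℓ : O) := by
  rw [adicCyclo_val, padicCyclo_frobenius p hℓ hℓp A hA τ hτ, map_natCast]

theorem adicCyclo_inertia {q : ℕ} (hq : q.Prime) (hqp : q ≠ p)
    (A : ValuationSubring Qb) (hA : A.LiesOverPrime q)
    (σ : _root_.Fermat.Agent.S30.H870.GQ) (hσ : σ ∈ A.inertiaSubgroupIn ℚ) : adicCyclo p I hp σ = 1 := by
  rw [adicCyclo, MonoidHom.comp_apply, padicCyclo_inertia p hq hqp A hA σ hσ, map_one]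

theorem adicCyclo_complexConjugation : adicCyclo p I hp complexConjugation = -1 := by
  apply Units.ext
  rw [adicCyclo_val, padicCyclo_complexConjugation, Units.val_neg, Units.val_one, map_neg,
    map_one, Units.val_neg, Units.val_one]

theorem adicCyclo_continuous (n : ℕ) :
    ∃ L : IntermediateField ℚ Qb, FiniteDimensional ℚ L ∧
      ∀ σ : _root_.Fermat.Agent.S30.H870.GQ, (∀ x ∈ L, σ x = x) → ((adicCyclo p I hp σ : Oˣ) : O) - 1 ∈ I ^ n := by
  obtain ⟨L, hL, h⟩ := padicCyclo_continuous p n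
  exact ⟨L, hL, fun σ hσ => padicToComplete_sub_one_mem p I hp n _ (h σ hσ)⟩

end phi

end Fermat.Agent.S30.H870

end
-- ===== PACK-END S30/H870/Cyclo.lean

-- ===== PACK-BEGIN S59/H779/FlatDC.lean
section




/-!
# S59 / MLT-DC-FLAT (helper779): flatness at `p` is a deformation condition

`isDeformationCondition_isFlatAt`: assuming that Hopf models are closed under subquotients and
binary products (`HopfSubquotSpec p`, `HopfProdSpec p`; cell A3, WP-C), the predicate
`ρ ↦ ρ.IsFlatAt p` satisfies the five axioms of `GaloisRep.IsDeformationCondition 𝒪`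
(no hypothesis on `𝒪`).

Consequences: `isDeformationCondition_flatCondition_of`, `isDeformationCondition_minimalFlatCondition_of`
(the determinant / unramified / unipotent parts enter as hypotheses; they are provided by
helper659's G3-core).
-/

set_option autoImplicit false
set_option linter.style.haveILetI false
set_option linter.unusedSectionVars false

namespace Fermat.Agent.S59.H779

open Fermat.Agent.S19 Fermat.Agent.S56.H966 Fermat.Agent.S53 IsLocalRing

section Helpers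

variable {𝒪 : Type} [CommRing 𝒪] [IsLocalRing 𝒪]
variable {A : Type} [CommRing A] [IsLocalRing A] [Algebra 𝒪 A]

/-- The residue field of `𝒪` is finite if that of a local `𝒪`-algebra with the same residue
field is. -/
theorem finite_residueField_base (hloc : IsLocalHom (algebraMap 𝒪 A))
    (hsurj : Function.Surjective (IsLocalRing.residue A ∘ algebraMap 𝒪 A))
    (h : Finite (ResidueField A)) : Finite (ResidueField 𝒪) :=
  haveI := hloc
  Finite.of_injective _ (residueField_map_bijective hloc hsurj).1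

theorem finite_residueField_of_base (hloc : IsLocalHom (algebraMap 𝒪 A))
    (hsurj : Function.Surjective (IsLocalRing.residue A ∘ algebraMap 𝒪 A))
    (h : Finite (ResidueField 𝒪)) : Finite (ResidueField A) :=
  haveI := hloc
  Finite.of_surjective _ (residueField_map_bijective hloc hsurj).2

theorem finite_quotient_bot (B : Type) [CommRing B] [Finite B] :
    Finite (B ⧸ (⊥ : Ideal B)) :=
  Finite.of_surjective (Ideal.Quotient.mk ⊥) Ideal.Quotient.mk_surjective

end Helpers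

variable {p : ℕ} (𝒪 : Type) [CommRing 𝒪] [IsLocalRing 𝒪]

/-- **Flatness at `p` is a deformation condition** (given Raynaud closure of Hopf models). -/
theorem isDeformationCondition_isFlatAt (hSub : HopfSubquotSpec p) (hProd : HopfProdSpec p) :
    GaloisRep.IsDeformationCondition 𝒪
      (fun ⦃A : Type⦄ [CommRing A] [IsLocalRing A] [Algebra 𝒪 A] (ρ : GaloisRepAdic A) =>
        ρ.IsFlatAt p) where
  of_isEquiv := by
    intro A _ _ _ _ ρ ρ' he h
    exact isFlatAt_of_isEquiv he h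
  baseChangeAlong := by
    intro A B _ _ _ _ _ _ hA hB φ hφ ρ h
    haveI : Finite (ResidueField 𝒪) :=
      finite_residueField_base hA.isLocalHom hA.residue_surjective h.1
    refine ⟨finite_residueField_of_testAlgebra hB, fun J hJ => ?_⟩
    haveI := hJ
    have hJ' : Finite (A ⧸ J.comap (φ : A →+* B)) :=
      Finite.of_injective _ (Ideal.quotientMap_injective (I := J) (f := (φ : A →+* B)))
    exact FlatLevel.baseChange hSub hProd (φ : A →+* B) hφ (h.2 _ hJ')
  of_baseChangeAlong_injective := by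
    intro A B _ _ _ _ _ _ hA hB φ hφ hinj ρ h
    haveI : Finite (ResidueField 𝒪) :=
      finite_residueField_base hB.isLocalHom hB.residue_surjective h.1
    haveI : Finite B := finite_of_testAlgebra hB
    have h0 : FlatLevel p ρ ((⊥ : Ideal B).comap (φ : A →+* B)) :=
      FlatLevel.comap hSub (φ : A →+* B) hφ (h.2 ⊥ (finite_quotient_bot B))
    refine ⟨finite_residueField_of_testAlgebra hA, fun I _ => FlatLevel.mono hSub ?_ h0⟩
    intro x hx
    rw [Ideal.mem_comap, Ideal.mem_bot] at hx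
    have hx0 : x = 0 := hinj (hx.trans (map_zero φ).symm)
    rw [hx0]
    exact I.zero_mem
  of_fibreProduct := by
    intro A B C P _ _ _ _ _ _ _ _ _ _ _ _ hA hB _ hP f g pA pB hpA hpB _ hinj _ ρ h1 h2
    haveI : Finite (ResidueField 𝒪) :=
      finite_residueField_base hA.isLocalHom hA.residue_surjective h1.1
    haveI : Finite A := finite_of_testAlgebra hA
    haveI : Finite B := finite_of_testAlgebra hB
    have h0 : FlatLevel p ρ ⊥ :=
      FlatLevel.of_jointly_injective hSub hProd (pA : P →+* A) hpA (pB : P →+* B) hpB hinj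
        (h1.2 ⊥ (finite_quotient_bot A)) (h2.2 ⊥ (finite_quotient_bot B))
    exact ⟨finite_residueField_of_testAlgebra hP, fun I _ => FlatLevel.mono hSub bot_le h0⟩
  iff_forall_surjective := by
    intro A _ _ _ _ _ hloc hsurj ρ
    constructor
    · intro h B _ _ _ _ q hq hqs
      exact isFlatAt_baseChangeAlong_of_surjective (q : A →+* B) hq hqs h
    · intro h
      -- the residue field of `A` is finite: look at the quotient `A ⧸ 𝔪`
      have hk : Finite (ResidueField A) := by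
        have hm : maximalIdeal A ≠ ⊤ := (maximalIdeal.isMaximal A).ne_top
        letI : IsLocalRing (A ⧸ maximalIdeal A) := isLocalRing_quotient _ hm
        haveI : IsArtinianRing (A ⧸ maximalIdeal A) :=
          inferInstanceAs (IsArtinianRing (ResidueField A))
        have hT : GaloisRep.IsArtinianTestAlgebra 𝒪 (A ⧸ maximalIdeal A) :=
          ⟨isLocalHom_algebraMap_quotient hloc _, residue_surjective_quotient hsurj _,
            inferInstance⟩
        have hq : IsLocalHom ((Ideal.Quotient.mkₐ 𝒪 (maximalIdeal A) :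
            A →ₐ[𝒪] A ⧸ maximalIdeal A) : A →+* A ⧸ maximalIdeal A) :=
          isLocalHom_quotient_mk (maximalIdeal A)
        have h1 := h hT (Ideal.Quotient.mkₐ 𝒪 (maximalIdeal A)) hq
          (Ideal.Quotient.mkₐ_surjective 𝒪 _)
        haveI := h1.1
        haveI := isLocalHom_quotient_mk (maximalIdeal A)
        exact Finite.of_injective _
          (ResidueField.map (Ideal.Quotient.mk (maximalIdeal A))).injective
      refine ⟨hk, fun I hI => ?_⟩
      by_cases hItop : I = ⊤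
      · -- the zero module: a quotient of the level `𝔪`
        have hm : maximalIdeal A ≠ ⊤ := (maximalIdeal.isMaximal A).ne_top
        letI : IsLocalRing (A ⧸ maximalIdeal A) := isLocalRing_quotient _ hm
        haveI : IsArtinianRing (A ⧸ maximalIdeal A) :=
          inferInstanceAs (IsArtinianRing (ResidueField A))
        have hT : GaloisRep.IsArtinianTestAlgebra 𝒪 (A ⧸ maximalIdeal A) :=
          ⟨isLocalHom_algebraMap_quotient hloc _, residue_surjective_quotient hsurj _,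
            inferInstance⟩
        have hq : IsLocalHom ((Ideal.Quotient.mkₐ 𝒪 (maximalIdeal A) :
            A →ₐ[𝒪] A ⧸ maximalIdeal A) : A →+* A ⧸ maximalIdeal A) :=
          isLocalHom_quotient_mk (maximalIdeal A)
        have h1 := h hT (Ideal.Quotient.mkₐ 𝒪 (maximalIdeal A)) hq
          (Ideal.Quotient.mkₐ_surjective 𝒪 _)
        haveI : Finite (A ⧸ maximalIdeal A) := hk
        have h0 := FlatLevel.comap hSub _ hq (h1.2 ⊥ (finite_quotient_bot _))
        rw [hItop]
        exact FlatLevel.mono hSub le_top h0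
      · letI : IsLocalRing (A ⧸ I) := isLocalRing_quotient I hItop
        haveI := hI
        have hT : GaloisRep.IsArtinianTestAlgebra 𝒪 (A ⧸ I) :=
          ⟨isLocalHom_algebraMap_quotient hloc I, residue_surjective_quotient hsurj I,
            inferInstance⟩
        have hq : IsLocalHom ((Ideal.Quotient.mkₐ 𝒪 I : A →ₐ[𝒪] A ⧸ I) : A →+* A ⧸ I) :=
          isLocalHom_quotient_mk I
        have h2 := h hT (Ideal.Quotient.mkₐ 𝒪 I) hq (Ideal.Quotient.mkₐ_surjective 𝒪 I)
        have h0 := FlatLevel.comap hSub _ hq (h2.2 ⊥ (finite_quotient_bot _))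
        refine FlatLevel.mono hSub ?_ h0
        intro x hx
        rw [Ideal.mem_comap, Ideal.mem_bot] at hx
        exact Ideal.Quotient.eq_zero_iff_mem.mp hx

section Combine

/-- Deformation conditions are closed under conjunction. -/
theorem isDefCond_and
    {𝒟₁ 𝒟₂ : ∀ ⦃A : Type⦄ [CommRing A] [IsLocalRing A] [Algebra 𝒪 A], GaloisRepAdic A → Prop}
    (h₁ : GaloisRep.IsDeformationCondition 𝒪 𝒟₁) (h₂ : GaloisRep.IsDeformationCondition 𝒪 𝒟₂) :
    GaloisRep.IsDeformationCondition 𝒪 (fun _A _ _ _ ρ => 𝒟₁ ρ ∧ 𝒟₂ ρ) where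
  of_isEquiv := fun _ _ _ _ hA _ _ he h => ⟨h₁.of_isEquiv hA he h.1, h₂.of_isEquiv hA he h.2⟩
  baseChangeAlong := fun _ _ _ _ _ _ _ _ hA hB φ hφ _ h =>
    ⟨h₁.baseChangeAlong hA hB φ hφ h.1, h₂.baseChangeAlong hA hB φ hφ h.2⟩
  of_baseChangeAlong_injective := fun _ _ _ _ _ _ _ _ hA hB φ hφ hinj _ h =>
    ⟨h₁.of_baseChangeAlong_injective hA hB φ hφ hinj h.1,
      h₂.of_baseChangeAlong_injective hA hB φ hφ hinj h.2⟩
  of_fibreProduct := fun _ _ _ _ _ _ _ _ _ _ _ _ _ _ _ _ hA hB hC hP f g pA pB hpA hpB hfg hinj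
      hsurj _ hρA hρB =>
    ⟨h₁.of_fibreProduct hA hB hC hP f g pA pB hpA hpB hfg hinj hsurj hρA.1 hρB.1,
      h₂.of_fibreProduct hA hB hC hP f g pA pB hpA hpB hfg hinj hsurj hρA.2 hρB.2⟩
  iff_forall_surjective := by
    intro A _ _ _ _ _ hloc hsurj ρ
    constructor
    · intro h B _ _ _ hB q hq hqs
      exact ⟨(h₁.iff_forall_surjective hloc hsurj ρ).mp h.1 hB q hq hqs,
        (h₂.iff_forall_surjective hloc hsurj ρ).mp h.2 hB q hq hqs⟩
    · intro h
      exact ⟨(h₁.iff_forall_surjective hloc hsurj ρ).mpr fun B _ _ _ hB q hq hqs =>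
          (h hB q hq hqs).1,
        (h₂.iff_forall_surjective hloc hsurj ρ).mpr fun B _ _ _ hB q hq hqs =>
          (h hB q hq hqs).2⟩

/-- The flat condition of the Prelude is a deformation condition, given the determinant and
unramified parts (helper659, G3-core) and Raynaud closure of Hopf models. -/
theorem isDeformationCondition_flatCondition_of (S : Finset ℕ)
    (hdet : GaloisRep.IsDeformationCondition 𝒪
      (fun ⦃A : Type⦄ [CommRing A] [IsLocalRing A] [Algebra 𝒪 A] (ρ : GaloisRepAdic A) =>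
        ρ.DetIsCyclotomic p))
    (hunr : GaloisRep.IsDeformationCondition 𝒪
      (fun ⦃A : Type⦄ [CommRing A] [IsLocalRing A] [Algebra 𝒪 A] (ρ : GaloisRepAdic A) =>
        ∀ q : ℕ, q.Prime → q ∉ S → ρ.IsUnramifiedAt q))
    (hSub : HopfSubquotSpec p) (hProd : HopfProdSpec p) :
    GaloisRep.IsDeformationCondition 𝒪 (GaloisRep.flatCondition 𝒪 p S) :=
  isDefCond_and 𝒪 hdet (isDefCond_and 𝒪 (isDeformationCondition_isFlatAt 𝒪 hSub hProd) hunr)

/-- The minimal flat condition of the Prelude is a deformation condition, given the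
determinant, unramified and unipotent parts (helper659, G3-core) and Raynaud closure. -/
theorem isDeformationCondition_minimalFlatCondition_of (S : Finset ℕ)
    (hdet : GaloisRep.IsDeformationCondition 𝒪
      (fun ⦃A : Type⦄ [CommRing A] [IsLocalRing A] [Algebra 𝒪 A] (ρ : GaloisRepAdic A) =>
        ρ.DetIsCyclotomic p))
    (hunr : GaloisRep.IsDeformationCondition 𝒪
      (fun ⦃A : Type⦄ [CommRing A] [IsLocalRing A] [Algebra 𝒪 A] (ρ : GaloisRepAdic A) =>
        ∀ q : ℕ, q.Prime → q ∉ S → ρ.IsUnramifiedAt q))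
    (hunip : GaloisRep.IsDeformationCondition 𝒪
      (fun ⦃A : Type⦄ [CommRing A] [IsLocalRing A] [Algebra 𝒪 A] (ρ : GaloisRepAdic A) =>
        ∀ q ∈ S, q.Prime → q ≠ p → ρ.IsUnipotentOnInertiaAt q))
    (hSub : HopfSubquotSpec p) (hProd : HopfProdSpec p) :
    GaloisRep.IsDeformationCondition 𝒪 (GaloisRep.minimalFlatCondition 𝒪 p S) :=
  isDefCond_and 𝒪 (isDeformationCondition_flatCondition_of 𝒪 S hdet hunr hSub hProd) hunip

end Combine

end Fermat.Agent.S59.H779

end
-- ===== PACK-END S59/H779/FlatDC.lean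

-- ===== PACK-BEGIN S59/H765/OldRestrict.lean
section



/-!
# S59, cell NM, leaf NM-RES, part 1 (helper765): restriction of Hecke operators to oldforms

For levels `N ∣ N'` and sets of primes `S ⊆ S'` such that every prime `q ∣ N'`, `q ∉ S'` divides
`N` (`LevelPair`), every element of the Prelude Hecke algebra `heckeAlgebra N' 2 S'` preserves the
image of `levelIncl : S₂(Γ₀(N)) → S₂(Γ₀(N'))`, and restriction is a ring homomorphism

  `oldRestrict : heckeAlgebra N' 2 S' →+* heckeAlgebra N 2 S`,  `T_ℓ ↦ T_ℓ`, `U_q ↦ U_q`.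

Construction: the graph subalgebra generated by the pairs of generators.
-/

set_option autoImplicit false
set_option linter.unusedSectionVars false

noncomputable section

namespace Fermat.Agent.S59.H765

open CuspForm CongruenceSubgroup
open Fermat.Agent.Lib.Newform.H863

/-- Two levels `N ∣ N'` and two sets of primes `S ⊆ S'`; the primes dividing the big level and
not in `S'` divide the small level. -/
structure LevelPair (N N' : ℕ) (S S' : Set ℕ) : Prop where
  dvd : N ∣ N'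
  sub : S ⊆ S'
  hU : ∀ q : ℕ, q.Prime → q ∣ N' → q ∉ S' → q ∣ N

/-- Endomorphisms of the space of weight 2 cusp forms of level `N`. -/
abbrev EndCF (N : ℕ) : Type := Module.End ℂ (CuspForm (Gamma0 N) 2)

variable {N N' : ℕ} [NeZero N] [NeZero N'] {S S' : Set ℕ}

/-- The pairs `(t', t)` commuting with the level inclusion. -/
def compatAlg (h : N ∣ N') : Subalgebra ℤ (EndCF N' × EndCF N) where
  carrier := {x | ∀ f, x.1 (levelIncl h f) = levelIncl h (x.2 f)}
  mul_mem' := by
    intro a b ha hb f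
    change a.1 (b.1 (levelIncl h f)) = levelIncl h (a.2 (b.2 f))
    rw [hb f, ha (b.2 f)]
  one_mem' := fun f => rfl
  add_mem' := by
    intro a b ha hb f
    change a.1 (levelIncl h f) + b.1 (levelIncl h f) = levelIncl h (a.2 f + b.2 f)
    rw [ha f, hb f, map_add]
  zero_mem' := fun f => by
    change (0 : CuspForm (Gamma0 N') 2) = levelIncl h 0
    rw [map_zero]
  algebraMap_mem' := by
    intro n f
    change (algebraMap ℤ (EndCF N') n) (levelIncl h f) = levelIncl h ((algebraMap ℤ (EndCF N) n) f)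
    rw [Module.algebraMap_end_apply, Module.algebraMap_end_apply, map_zsmul]

theorem mem_compatAlg {h : N ∣ N'} {x : EndCF N' × EndCF N} :
    x ∈ compatAlg h ↔ ∀ f, x.1 (levelIncl h f) = levelIncl h (x.2 f) := Iff.rfl

variable (N N' S')

/-- The pairs of generators. -/
def genPairs : Set (EndCF N' × EndCF N) :=
  {x | ∃ (ℓ : ℕ) (hℓ : ℓ.Prime) (hℓN' : ¬ ℓ ∣ N') (hℓN : ¬ ℓ ∣ N), ℓ ∉ S' ∧
      x = (heckeTLin 2 hℓ hℓN', heckeTLin 2 hℓ hℓN)} ∪
    {x | ∃ (q : ℕ) (hqN' : q ∣ N') (hqN : q ∣ N), q.Prime ∧ q ∉ S' ∧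
      x = (heckeULin 2 hqN', heckeULin 2 hqN)}

/-- The graph of the restriction. -/
def graphAlg : Subalgebra ℤ (EndCF N' × EndCF N) :=
  Algebra.adjoin ℤ (genPairs N N' S')

variable {N N' S'}

theorem graphAlg_le_compat (h : N ∣ N') : graphAlg N N' S' ≤ compatAlg h := by
  refine Algebra.adjoin_le ?_
  rintro x (⟨ℓ, hℓ, hℓN', hℓN, -, rfl⟩ | ⟨q, hqN', hqN, -, -, rfl⟩)
  · intro f
    exact heckeTLin_levelIncl h hℓ hℓN' f
  · intro f
    exact heckeULin_levelIncl h hqN f

theorem graphAlg_le_prod (hS : S ⊆ S') :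
    graphAlg N N' S' ≤ (heckeAlgebra N' 2 S').prod (heckeAlgebra N 2 S) := by
  refine Algebra.adjoin_le ?_
  rintro x (⟨ℓ, hℓ, hℓN', hℓN, hℓS', rfl⟩ | ⟨q, hqN', hqN, hq, hqS', rfl⟩)
  · exact ⟨heckeTLin_mem_heckeAlgebra hℓ hℓN' hℓS',
      heckeTLin_mem_heckeAlgebra hℓ hℓN fun hS0 => hℓS' (hS hS0)⟩
  · exact ⟨heckeULin_mem_heckeAlgebra hq hqN' hqS',
      heckeULin_mem_heckeAlgebra hq hqN fun hS0 => hqS' (hS hS0)⟩

theorem fst_image_genPairs (hp : LevelPair N N' S S') :
    Prod.fst '' genPairs N N' S' = heckeGenerators N' 2 S' := by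
  ext t
  constructor
  · rintro ⟨x, (⟨ℓ, hℓ, hℓN', hℓN, hℓS', rfl⟩ | ⟨q, hqN', hqN, hq, hqS', rfl⟩), rfl⟩
    · exact heckeTLin_mem_heckeGenerators hℓ hℓN' hℓS'
    · exact heckeULin_mem_heckeGenerators hq hqN' hqS'
  · rintro (⟨ℓ, hℓ, hℓN', hℓS', rfl⟩ | ⟨q, hqN', hq, hqS', rfl⟩)
    · exact ⟨(heckeTLin 2 hℓ hℓN', heckeTLin 2 hℓ fun hd => hℓN' (hd.trans hp.dvd)),
        Or.inl ⟨ℓ, hℓ, hℓN', _, hℓS', rfl⟩, rfl⟩
    · exact ⟨(heckeULin 2 hqN', heckeULin 2 (hp.hU q hq hqN' hqS')),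
        Or.inr ⟨q, hqN', _, hq, hqS', rfl⟩, rfl⟩

theorem map_fst_graphAlg (hp : LevelPair N N' S S') :
    (graphAlg N N' S').map (AlgHom.fst ℤ (EndCF N') (EndCF N)) = heckeAlgebra N' 2 S' := by
  rw [graphAlg, AlgHom.map_adjoin, heckeAlgebra]
  congr 1
  exact fst_image_genPairs hp

/-- Every Hecke operator of the big level has a partner. -/
theorem exists_pair (hp : LevelPair N N' S S') (t : heckeAlgebra N' 2 S') :
    ∃ s : EndCF N, ((t : EndCF N'), s) ∈ graphAlg N N' S' := by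
  have ht : (t : EndCF N') ∈ (graphAlg N N' S').map (AlgHom.fst ℤ (EndCF N') (EndCF N)) := by
    rw [map_fst_graphAlg hp]
    exact t.2
  obtain ⟨x, hx, hxt⟩ := ht
  refine ⟨x.2, ?_⟩
  have : x = ((t : EndCF N'), x.2) := Prod.ext hxt rfl
  rw [← this]
  exact hx

/-- The partner is unique. -/
theorem pair_unique (h : N ∣ N') {t : EndCF N'} {s s' : EndCF N}
    (hs : (t, s) ∈ graphAlg N N' S') (hs' : (t, s') ∈ graphAlg N N' S') : s = s' := by
  refine LinearMap.ext fun f => levelIncl_injective h ?_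
  rw [← graphAlg_le_compat h hs f, ← graphAlg_le_compat h hs' f]

/-- Restriction to oldforms, as a function. -/
def oldRestrictFun (hp : LevelPair N N' S S') (t : heckeAlgebra N' 2 S') : heckeAlgebra N 2 S :=
  ⟨(exists_pair hp t).choose, (graphAlg_le_prod hp.sub (exists_pair hp t).choose_spec).2⟩

theorem oldRestrictFun_mem (hp : LevelPair N N' S S') (t : heckeAlgebra N' 2 S') :
    ((t : EndCF N'), (oldRestrictFun hp t : EndCF N)) ∈ graphAlg N N' S' :=
  (exists_pair hp t).choose_spec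

theorem oldRestrictFun_eq (hp : LevelPair N N' S S') (t : heckeAlgebra N' 2 S')
    (s : heckeAlgebra N 2 S) (hs : ((t : EndCF N'), (s : EndCF N)) ∈ graphAlg N N' S') :
    oldRestrictFun hp t = s :=
  Subtype.ext (pair_unique hp.dvd (oldRestrictFun_mem hp t) hs)

/-- **Restriction of Hecke operators to the oldforms of level `N`.** -/
def oldRestrict (hp : LevelPair N N' S S') : heckeAlgebra N' 2 S' →+* heckeAlgebra N 2 S where
  toFun := oldRestrictFun hp
  map_one' := oldRestrictFun_eq hp 1 1 (Subalgebra.one_mem _)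
  map_mul' a b := oldRestrictFun_eq hp (a * b) (oldRestrictFun hp a * oldRestrictFun hp b)
    (Subalgebra.mul_mem _ (oldRestrictFun_mem hp a) (oldRestrictFun_mem hp b))
  map_zero' := oldRestrictFun_eq hp 0 0 (Subalgebra.zero_mem _)
  map_add' a b := oldRestrictFun_eq hp (a + b) (oldRestrictFun hp a + oldRestrictFun hp b)
    (Subalgebra.add_mem _ (oldRestrictFun_mem hp a) (oldRestrictFun_mem hp b))

theorem oldRestrict_mem (hp : LevelPair N N' S S') (t : heckeAlgebra N' 2 S') :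
    ((t : EndCF N'), (oldRestrict hp t : EndCF N)) ∈ graphAlg N N' S' :=
  oldRestrictFun_mem hp t

/-- The defining property: `t ∘ incl = incl ∘ oldRestrict t`. -/
theorem levelIncl_oldRestrict (hp : LevelPair N N' S S') (t : heckeAlgebra N' 2 S')
    (f : CuspForm (Gamma0 N) 2) :
    (t : EndCF N') (levelIncl hp.dvd f) = levelIncl hp.dvd ((oldRestrict hp t : EndCF N) f) :=
  graphAlg_le_compat hp.dvd (oldRestrict_mem hp t) f

theorem oldRestrict_T (hp : LevelPair N N' S S') {ℓ : ℕ} (hℓ : ℓ.Prime) (hℓN' : ¬ ℓ ∣ N')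
    (hℓS' : ℓ ∉ S') (hℓN : ¬ ℓ ∣ N) (hℓS : ℓ ∉ S) :
    oldRestrict hp (heckeAlgebra.T hℓ hℓN' hℓS') = heckeAlgebra.T hℓ hℓN hℓS :=
  oldRestrictFun_eq hp _ _ (Algebra.subset_adjoin (Or.inl ⟨ℓ, hℓ, hℓN', hℓN, hℓS', rfl⟩))

theorem oldRestrict_U (hp : LevelPair N N' S S') {q : ℕ} (hq : q.Prime) (hqN' : q ∣ N')
    (hqS' : q ∉ S') (hqN : q ∣ N) (hqS : q ∉ S) :
    oldRestrict hp (heckeAlgebra.U hq hqN' hqS') = heckeAlgebra.U hq hqN hqS :=
  oldRestrictFun_eq hp _ _ (Algebra.subset_adjoin (Or.inr ⟨q, hqN', hqN, hq, hqS', rfl⟩))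

end Fermat.Agent.S59.H765

end
end
-- ===== PACK-END S59/H765/OldRestrict.lean

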