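import Mathlib
import Fermat.Prelude.Def_EllipticCurve_FrobeniusTrace
import Fermat.Prelude.Def_FLTPrelim_Ramification
import Fermat.Agent.Pack.S43GC.G0E8L2
import Fermat.Agent.Pack.S44C.G0E1L1
import Fermat.Agent.Pack.S43GC.G0E1L1
import Fermat.Agent.Pack.S43GC.G0E0L3
import Fermat.Agent.Pack.S43GC.G0E8L3
import Fermat.Agent.Pack.S43GC.G0E8L0
import Fermat.Agent.Pack.S43GC.G0E8L1
import Fermat.Agent.Pack.S43GC.G0E6L3
import Fermat.Agent.Pack.S43GC.G0E7L3
import Fermat.Agent.Pack.S43GC.G0E9L0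
import Fermat.Agent.Pack.S43GC.G0E6L0
import Fermat.Agent.Pack.S43GC.G0E3L1
import Fermat.Agent.Pack.S44C.G0E14L2
import Fermat.Agent.Pack.S43GC.G0E7L0
import Fermat.Agent.Pack.S43GC.G0E4L3
import Fermat.Agent.Pack.S43GC.G0E9L3
import Fermat.Agent.Pack.S43GC.G0E2L1
import Fermat.Agent.Pack.S43GC.G0E4L1
import Fermat.Agent.Pack.S43GC.G0E10L2
import Fermat.Agent.Pack.Fast891

-- ===== PACK-BEGIN S55/G/Rec/Glob/Basic.lean
section



/-!
# S55 / layer G / block REC / GLOBAL finite-level dictionary, part 1 (helper64)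

For an open subgroup `U ≤ G_ℚ = Gal(ℚ̄/ℚ)` (`IsOpenQ U`):

* `fixedFld U` : the fixed field `K_U`, an `IntermediateField ℚ ℚ̄`;
  `finiteDimensional_fixedFld`, `fixingSubgroup_fixedFld : K_U.fixingSubgroup = U`;
* levels `E : IntermediateField K_U ℚ̄`, finite Galois over `K_U`;
  `resHom U E : U →* Gal(E / K_U)`, `resHom_surjective`, `resHom_eq_one_iff`;
* `levelFld U E : IntermediateField ℚ ℚ̄` (the field `E` over `ℚ`), finite over `ℚ`, and
  `resHom_eq_one_of_mem_fixingSubgroup`;
* `exists_level` : there is a finite Galois level containing any given number field and any given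
  finite set of elements.

(The local analogue is helper477's `G/Rec/Loc/`.)
-/

set_option autoImplicit false
set_option linter.style.haveILetI false

noncomputable section

namespace Fermat.Agent.S55.G.Rec.Glob

open groupCohomology IntermediateField

local notation "Qb" => AlgebraicClosure ℚ
local notation "GQ" => (AlgebraicClosure ℚ ≃ₐ[ℚ] AlgebraicClosure ℚ)

attribute [local instance] Bridge.isAlgebraic_Qbar Bridge.isGalois_Qbar

/-- The fixed field `K_U` of `U ≤ G_ℚ`. -/
abbrev fixedFld (U : Subgroup GQ) : IntermediateField ℚ Qb := IntermediateField.fixedField U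

lemma le_fixingSubgroup_fixedFld (U : Subgroup GQ) : U ≤ (fixedFld U).fixingSubgroup :=
  (IntermediateField.le_iff_le U (fixedFld U)).1 le_rfl

/-- An open subgroup is the fixing subgroup of its fixed field. -/
theorem fixingSubgroup_fixedFld {U : Subgroup GQ} (hU : IsOpenQ U) :
    (fixedFld U).fixingSubgroup = U := by
  obtain ⟨F, hFfin, hF⟩ := hU
  have hopen : IsOpen (U : Set GQ) :=
    Subgroup.isOpen_mono hF (IntermediateField.fixingSubgroup_isOpen F)
  exact InfiniteGalois.fixingSubgroup_fixedField ⟨U, Subgroup.isClosed_of_isOpen U hopen⟩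

/-- The fixed field of an open subgroup is a number field. -/
theorem finiteDimensional_fixedFld {U : Subgroup GQ} (hU : IsOpenQ U) :
    FiniteDimensional ℚ (fixedFld U) := by
  obtain ⟨F, hFfin, hF⟩ := hU
  have hle : fixedFld U ≤ F := by
    rw [← InfiniteGalois.fixedField_fixingSubgroup F]
    exact IntermediateField.fixedField_antitone hF
  exact FiniteDimensional.of_injective (IntermediateField.inclusion hle).toLinearMap
    (IntermediateField.inclusion_injective hle)

lemma mem_of_fixes_fixedFld {U : Subgroup GQ} (hU : IsOpenQ U) {σ : GQ}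
    (h : ∀ x ∈ fixedFld U, σ x = x) : σ ∈ U := by
  rw [← fixingSubgroup_fixedFld hU, IntermediateField.mem_fixingSubgroup_iff]
  exact h

/-! ### The absolute Galois group of `K_U` and restriction to levels -/

/-- `U → Gal(ℚ̄ / K_U)`. -/
def toAbsGal (U : Subgroup GQ) : ↥U →* (Qb ≃ₐ[fixedFld U] Qb) :=
  (IntermediateField.fixingSubgroupEquiv (fixedFld U)).toMonoidHom.comp
    (Subgroup.inclusion (le_fixingSubgroup_fixedFld U))

@[simp] lemma toAbsGal_apply (U : Subgroup GQ) (σ : ↥U) (x : Qb) :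
    toAbsGal U σ x = (σ : GQ) x := rfl

/-- Restriction `U → Gal(E / K_U)` for `E / K_U` normal. -/
def resHom (U : Subgroup GQ) (E : IntermediateField (fixedFld U) Qb) [Normal (fixedFld U) E] :
    ↥U →* (E ≃ₐ[fixedFld U] E) :=
  (AlgEquiv.restrictNormalHom E).comp (toAbsGal U)

lemma resHom_apply_coe (U : Subgroup GQ) (E : IntermediateField (fixedFld U) Qb)
    [Normal (fixedFld U) E] (σ : ↥U) (x : E) :
    ((resHom U E σ x : E) : Qb) = (σ : GQ) (x : Qb) := by
  change algebraMap E Qb (AlgEquiv.restrictNormal (toAbsGal U σ) E x) = _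
  rw [AlgEquiv.restrictNormal_commutes]
  rfl

lemma resHom_eq_one_iff (U : Subgroup GQ) (E : IntermediateField (fixedFld U) Qb)
    [Normal (fixedFld U) E] (σ : ↥U) :
    resHom U E σ = 1 ↔ ∀ x : Qb, x ∈ E → (σ : GQ) x = x := by
  constructor
  · intro h x hx
    have := resHom_apply_coe U E σ ⟨x, hx⟩
    rw [h] at this
    exact this.symm
  · intro h
    ext x
    rw [resHom_apply_coe]
    exact h x x.2

lemma isAlgClosure_fixedFld (U : Subgroup GQ) : IsAlgClosure (fixedFld U) Qb :=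
  ⟨inferInstance, Algebra.IsAlgebraic.tower_top (K := ℚ) (fixedFld U)⟩

lemma normal_Qb_fixedFld (U : Subgroup GQ) : Normal (fixedFld U) Qb :=
  haveI := isAlgClosure_fixedFld U
  IsAlgClosure.normal (fixedFld U) Qb

/-- Restriction to a level is surjective (for `U` open). -/
theorem resHom_surjective {U : Subgroup GQ} (hU : IsOpenQ U)
    (E : IntermediateField (fixedFld U) Qb) [Normal (fixedFld U) E] :
    Function.Surjective (resHom U E) := by
  haveI := normal_Qb_fixedFld U
  intro τ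
  obtain ⟨σ, hσ⟩ := AlgEquiv.restrictNormalHom_surjective (F := fixedFld U) (K₁ := E) Qb τ
  have hmem : σ.restrictScalars ℚ ∈ U := by
    apply mem_of_fixes_fixedFld hU
    intro x hx
    exact σ.commutes ⟨x, hx⟩
  refine ⟨⟨σ.restrictScalars ℚ, hmem⟩, ?_⟩
  rw [← hσ]
  ext x
  rw [resHom_apply_coe]
  change σ (x : Qb) = algebraMap E Qb (AlgEquiv.restrictNormal σ E x)
  rw [AlgEquiv.restrictNormal_commutes]
  rfl

/-! ### Levels as number fields -/

/-- The level `E` as a subfield of `ℚ̄` over `ℚ`. -/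
abbrev levelFld (U : Subgroup GQ) (E : IntermediateField (fixedFld U) Qb) :
    IntermediateField ℚ Qb :=
  E.restrictScalars ℚ

lemma mem_levelFld {U : Subgroup GQ} {E : IntermediateField (fixedFld U) Qb} {x : Qb} :
    x ∈ levelFld U E ↔ x ∈ E := Iff.rfl

theorem finiteDimensional_levelFld {U : Subgroup GQ} (hU : IsOpenQ U)
    (E : IntermediateField (fixedFld U) Qb) [FiniteDimensional (fixedFld U) E] :
    FiniteDimensional ℚ (levelFld U E) := by
  haveI := finiteDimensional_fixedFld hU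
  exact FiniteDimensional.trans ℚ (fixedFld U) E

lemma resHom_eq_one_of_mem_fixingSubgroup (U : Subgroup GQ)
    (E : IntermediateField (fixedFld U) Qb) [Normal (fixedFld U) E] (σ : ↥U)
    (h : (σ : GQ) ∈ (levelFld U E).fixingSubgroup) : resHom U E σ = 1 := by
  rw [resHom_eq_one_iff]
  intro x hx
  exact (IntermediateField.mem_fixingSubgroup_iff _ _).1 h x hx

lemma mem_fixingSubgroup_of_resHom_eq_one (U : Subgroup GQ)
    (E : IntermediateField (fixedFld U) Qb) [Normal (fixedFld U) E] (σ : ↥U)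
    (h : resHom U E σ = 1) {F : IntermediateField ℚ Qb} (hF : ∀ x ∈ F, x ∈ E) :
    (σ : GQ) ∈ F.fixingSubgroup := by
  rw [IntermediateField.mem_fixingSubgroup_iff]
  intro x hx
  exact (resHom_eq_one_iff U E σ).1 h x (hF x hx)

/-- Existence of finite Galois levels containing a given number field and a given finite set. -/
theorem exists_level {U : Subgroup GQ} (hU : IsOpenQ U) (F₀ : IntermediateField ℚ Qb)
    [FiniteDimensional ℚ F₀] (T : Set Qb) (hT : T.Finite) :
    ∃ (E : IntermediateField (fixedFld U) Qb) (_ : FiniteDimensional (fixedFld U) E)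
      (_ : IsGalois (fixedFld U) E), (∀ x ∈ F₀, x ∈ E) ∧ (∀ x ∈ T, x ∈ E) := by
  haveI := finiteDimensional_fixedFld hU
  haveI : Finite T := hT
  haveI : FiniteDimensional ℚ (IntermediateField.adjoin ℚ T) :=
    IntermediateField.finiteDimensional_adjoin (fun x _ => Algebra.IsIntegral.isIntegral x)
  -- a number field containing everything
  let E₁ : IntermediateField ℚ Qb := F₀ ⊔ IntermediateField.adjoin ℚ T ⊔ fixedFld U
  let E₂ : IntermediateField ℚ Qb := normalClosure ℚ E₁ Qb
  have h12 : E₁ ≤ E₂ := IntermediateField.le_normalClosure E₁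
  have hK : fixedFld U ≤ E₂ := le_trans le_sup_right h12
  haveI : FiniteDimensional ℚ E₂ := normalClosure.is_finiteDimensional ℚ E₁ Qb
  haveI : Normal ℚ E₂ := normalClosure.normal ℚ E₁ Qb
  haveI hfd : FiniteDimensional ℚ (IntermediateField.extendScalars hK) :=
    inferInstanceAs (FiniteDimensional ℚ E₂)
  haveI hnor : Normal ℚ (IntermediateField.extendScalars hK) :=
    inferInstanceAs (Normal ℚ E₂)
  refine ⟨IntermediateField.extendScalars hK, ?_, ?_, ?_, ?_⟩
  · exact FiniteDimensional.right ℚ (fixedFld U) (IntermediateField.extendScalars hK)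
  · haveI : Normal (fixedFld U) (IntermediateField.extendScalars hK) :=
      Normal.tower_top_of_normal ℚ (fixedFld U) (IntermediateField.extendScalars hK)
    exact ⟨⟩
  · intro x hx
    exact h12 ((le_sup_left.trans le_sup_left : F₀ ≤ E₁) hx)
  · intro x hx
    exact h12 ((le_sup_right.trans le_sup_left : IntermediateField.adjoin ℚ T ≤ E₁)
      (IntermediateField.subset_adjoin ℚ T hx))

end Fermat.Agent.S55.G.Rec.Glob

end
end
-- ===== PACK-END S55/G/Rec/Glob/Basic.lean

-- ===== PACK-BEGIN S55/L/H355/Fund.lean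
section



/-!
# S55, layer L, helper355: the fundamental identity `e f = n` in cardinality form

For a field extension `L / K`, rings of integers `A ⊆ K`, `B ⊆ L` (complete DVRs with finite
residue fields), `π` a uniformizer of `A`, `ϖ` of `B` and `v_B (π) = v_B (ϖ) ^ e` with `e ≥ 1`:

  `|k_B| ^ e = |k_A| ^ [L : K]`.
-/

set_option autoImplicit false
set_option linter.style.haveILetI false

namespace Fermat.Agent.S55.L.H355

open Fermat.Agent.S55.L

noncomputable section

variable {K L : Type} [Field K] [Field L] [Algebra K L]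
  {A : ValuationSubring K} {B : ValuationSubring L}

/-- The inclusion of rings of integers. -/
def intHom (h : ∀ x ∈ A, algebraMap K L x ∈ B) : A →+* B where
  toFun x := ⟨algebraMap K L x, h x x.2⟩
  map_one' := Subtype.ext (by simp)
  map_mul' x y := Subtype.ext (by simp)
  map_zero' := Subtype.ext (by simp)
  map_add' x y := Subtype.ext (by simp)

@[simp] theorem intHom_coe (h : ∀ x ∈ A, algebraMap K L x ∈ B) (x : A) :
    ((intHom h x : B) : L) = algebraMap K L (x : K) := rfl

theorem intHom_injective (h : ∀ x ∈ A, algebraMap K L x ∈ B) : Function.Injective (intHom h) := by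
  intro x y hxy
  have := congrArg Subtype.val hxy
  simp only [intHom_coe] at this
  exact Subtype.ext ((algebraMap K L).injective this)

variable (hA : IsLocalRingOfIntegers A) (hB : IsLocalRingOfIntegers B)
  {π : K} (hπ : IsUniformizer A π) {ϖ : L} (hϖ : IsUniformizer B ϖ) {e : ℕ}
  (hval : B.valuation (algebraMap K L π) = B.valuation ϖ ^ e)

include hA hB hπ hϖ hval in
/-- `A ⊆ B`. -/
theorem algebraMap_mem_of_mem {x : K} (hx : x ∈ A) : algebraMap K L x ∈ B := by
  refine map_mem_of_mem hA hB.1 (algebraMap K L) hπ ?_ hx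
  rw [← B.valuation_le_one_iff, hval]
  exact pow_le_one₀ (isUniformizer_val_pos hϖ).le (isUniformizer_val_lt_one hϖ).le

include hA hB hπ hϖ hval in
/-- The image of the maximal ideal of `A` generates `𝔪_B ^ e`. -/
theorem map_maximalIdeal_eq :
    Ideal.map (intHom (fun x hx => algebraMap_mem_of_mem hA hB hπ hϖ hval hx))
      (IsLocalRing.maximalIdeal A) = IsLocalRing.maximalIdeal B ^ e := by
  haveI : IsDiscreteValuationRing A := hA.1
  haveI : IsDiscreteValuationRing B := hB.1
  obtain ⟨hπm, hπirr⟩ := hπ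
  obtain ⟨hϖm, hϖirr⟩ := hϖ
  rw [hπirr.maximalIdeal_eq, hϖirr.maximalIdeal_eq, Ideal.map_span, Set.image_singleton,
    Ideal.span_singleton_pow]
  set ι := intHom (fun x hx => algebraMap_mem_of_mem hA hB ⟨hπm, hπirr⟩ ⟨hϖm, hϖirr⟩ hval hx)
  have hne : ι ⟨π, hπm⟩ ≠ 0 := by
    intro h0
    have := (intHom_injective _) (h0.trans (map_zero ι).symm)
    exact hπirr.ne_zero this
  obtain ⟨k, u, hu⟩ := IsDiscreteValuationRing.eq_unit_mul_pow_irreducible hne hϖirr
  have hk : k = e := by
    have h1 : B.valuation (algebraMap K L π) = B.valuation ϖ ^ k := by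
      have := congrArg (fun z : B => B.valuation (z : L)) hu
      simp only [intHom_coe, ι] at this
      rw [this]
      simp only [MulMemClass.coe_mul, SubmonoidClass.coe_pow, map_mul, map_pow]
      rw [B.valuation_unit u, one_mul]
    rw [hval] at h1
    have hpos := isUniformizer_val_pos (B := B) ⟨hϖm, hϖirr⟩
    have hlt := isUniformizer_val_lt_one (B := B) ⟨hϖm, hϖirr⟩
    have := (zpow_right_inj₀ hpos hlt.ne (m := (e : ℤ)) (n := (k : ℤ))).1 (by
      rw [zpow_natCast, zpow_natCast]; exact h1)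
    exact_mod_cast this.symm
  rw [hu, hk]
  exact Ideal.span_singleton_eq_span_singleton.2 ⟨u⁻¹, by
    rw [mul_comm, ← mul_assoc, Units.inv_mul, one_mul]⟩


include hA hB hπ hϖ hval in
/-- `B` is a finitely generated `A`-module. -/
theorem module_finite_int (he : 0 < e) :
    @Module.Finite A B _ _
      (intHom (fun x hx => algebraMap_mem_of_mem hA hB hπ hϖ hval hx)).toAlgebra.toModule := by
  classical
  haveI : IsDiscreteValuationRing A := hA.1
  haveI : IsDiscreteValuationRing B := hB.1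
  haveI : IsAdicComplete (IsLocalRing.maximalIdeal A) A := hA.2.1
  haveI : IsAdicComplete (IsLocalRing.maximalIdeal B) B := hB.2.1
  haveI : Finite (IsLocalRing.ResidueField B) := hB.2.2
  set ι := intHom (fun x hx => algebraMap_mem_of_mem hA hB hπ hϖ hval hx) with hι
  letI : Algebra A B := ι.toAlgebra
  have hmap : Ideal.map ι (IsLocalRing.maximalIdeal A) = IsLocalRing.maximalIdeal B ^ e :=
    map_maximalIdeal_eq hA hB hπ hϖ hval
  haveI hfinB : Finite (B ⧸ IsLocalRing.maximalIdeal B) := hB.2.2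
  haveI hfinq : Finite (B ⧸ IsLocalRing.maximalIdeal B ^ e) :=
    Ideal.finite_quotient_pow (IsNoetherian.noetherian _) e
  obtain ⟨hπm, hπirr⟩ := hπ
  set πA : A := ⟨π, hπm⟩ with hπA
  have hmA : IsLocalRing.maximalIdeal A = Ideal.span {πA} := hπirr.maximalIdeal_eq
  have hmapspan : Ideal.map ι (IsLocalRing.maximalIdeal A) = Ideal.span {ι πA} := by
    rw [hmA, Ideal.map_span, Set.image_singleton]
  have hιπ : ι πA ∈ IsLocalRing.maximalIdeal B := by
    have h1 : ι πA ∈ Ideal.map ι (IsLocalRing.maximalIdeal A) := by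
      rw [hmapspan]; exact Ideal.mem_span_singleton_self _
    rw [hmap] at h1
    exact Ideal.pow_le_self he.ne' h1
  have hprec : IsPrecomplete (Ideal.span {πA}) A := by
    rw [← hmA]; exact IsAdicComplete.toIsPrecomplete
  have hhaus : ∀ x : B, (∀ n : ℕ, ∃ z : B, x = πA ^ n • z) → x = 0 := by
    intro x hx
    have hH : IsHausdorff (IsLocalRing.maximalIdeal B) B := IsAdicComplete.toIsHausdorff
    apply hH.haus
    intro n
    rw [SModEq.sub_mem, sub_zero, smul_eq_mul, Ideal.mul_top]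
    obtain ⟨z, hz⟩ := hx n
    rw [hz, Algebra.smul_def, map_pow]
    exact Ideal.mul_mem_right _ _ (Ideal.pow_mem_pow hιπ n)
  haveI hfinQ : Finite (B ⧸ Ideal.span {ι πA}) := by
    rw [← hmapspan, hmap]; exact hfinq
  letI : Fintype (B ⧸ Ideal.span {ι πA}) := Fintype.ofFinite _
  let s : (B ⧸ Ideal.span {ι πA}) → B := fun q => Quotient.out q
  have happrox : ∀ y : B, ∃ (a : (B ⧸ Ideal.span {ι πA}) → A) (z : B),
      y = ∑ i, a i • s i + πA • z := by
    intro y
    have h1 : y - s (Ideal.Quotient.mk _ y) ∈ Ideal.span {ι πA} := by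
      rw [← Ideal.Quotient.eq]
      exact (Ideal.Quotient.mk_out _).symm
    obtain ⟨z, hz⟩ := Ideal.mem_span_singleton'.1 h1
    refine ⟨fun q => if q = Ideal.Quotient.mk _ y then 1 else 0, z, ?_⟩
    have h2 : ∑ i, (if i = Ideal.Quotient.mk (Ideal.span {ι πA}) y then (1 : A) else 0) • s i
        = s (Ideal.Quotient.mk _ y) := by
      rw [Finset.sum_eq_single (Ideal.Quotient.mk (Ideal.span {ι πA}) y)]
      · simp
      · intro b _ hb; simp [hb]
      · intro h; exact absurd (Finset.mem_univ _) h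
    rw [h2, Algebra.smul_def]
    have : (algebraMap A B) πA * z = z * ι πA := mul_comm _ _
    rw [this, hz]
    ring
  have hspan := exists_sum_smul_eq_of_approx πA hprec hhaus s happrox
  apply Module.Finite.of_fg_top
  have : (⊤ : Submodule A B) = Submodule.span A (Set.range s) := by
    apply le_antisymm
    · intro y _
      obtain ⟨α, hα⟩ := hspan y
      rw [hα]
      exact Submodule.sum_mem _ fun i _ =>
        Submodule.smul_mem _ _ (Submodule.subset_span ⟨i, rfl⟩)
    · exact le_top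
  rw [this]
  exact Submodule.fg_span (Set.finite_range s)


include hA hB hπ hϖ hval in
/-- **Fundamental identity, cardinality form**: `|k_B| ^ e = |k_A| ^ [L : K]`. -/
theorem card_residue_pow_eq (he : 0 < e) :
    Nat.card (IsLocalRing.ResidueField B) ^ e =
      Nat.card (IsLocalRing.ResidueField A) ^ Module.finrank K L := by
  classical
  haveI : IsDiscreteValuationRing A := hA.1
  haveI : IsDiscreteValuationRing B := hB.1
  haveI : Finite (IsLocalRing.ResidueField A) := hA.2.2
  haveI : Finite (IsLocalRing.ResidueField B) := hB.2.2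
  set ι := intHom (fun x hx => algebraMap_mem_of_mem hA hB hπ hϖ hval hx) with hι
  letI : Algebra A B := ι.toAlgebra
  haveI : IsScalarTower A B L := IsScalarTower.of_algebraMap_eq (fun x => rfl)
  have hmap : Ideal.map (algebraMap A B) (IsLocalRing.maximalIdeal A)
      = IsLocalRing.maximalIdeal B ^ e := map_maximalIdeal_eq hA hB hπ hϖ hval
  haveI hfin : Module.Finite A B := module_finite_int hA hB hπ hϖ hval he
  haveI : Module.IsTorsionFree A B :=
    Module.isTorsionFree_iff_algebraMap_injective.mpr (intHom_injective _)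
  haveI : Module.Free A B := Module.free_of_finite_type_torsion_free'
  have hrank : Module.finrank K L = Module.finrank A B := IsFractionRing.finrank_eq A K B L
  -- the residue field of `A` as a field
  letI : Field (A ⧸ IsLocalRing.maximalIdeal A) :=
    inferInstanceAs (Field (IsLocalRing.ResidueField A))
  -- `|B / 𝔪_A B| = q ^ n`
  have h5 : Nat.card (B ⧸ (IsLocalRing.maximalIdeal A • ⊤ : Submodule A B)) =
      Nat.card (A ⧸ IsLocalRing.maximalIdeal A) ^ Module.finrank A B := by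
    have e1 := TensorProduct.quotTensorEquivQuotSMul B (IsLocalRing.maximalIdeal A)
    rw [← Nat.card_congr e1.toEquiv,
      Module.natCard_eq_pow_finrank (K := A ⧸ IsLocalRing.maximalIdeal A), Module.finrank_baseChange]
  -- `|B / 𝔪_A B| = |B / 𝔪_B ^ e|`
  have h6 : Nat.card (B ⧸ (IsLocalRing.maximalIdeal A • ⊤ : Submodule A B)) =
      Nat.card (B ⧸ IsLocalRing.maximalIdeal B ^ e) := by
    have e2 : (IsLocalRing.maximalIdeal A • ⊤ : Submodule A B) =
        Submodule.restrictScalars A (IsLocalRing.maximalIdeal B ^ e) := by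
      rw [Ideal.smul_top_eq_map, hmap]
    rw [Nat.card_congr (Submodule.quotEquivOfEq _ _ e2).toEquiv]
    exact Nat.card_congr (Submodule.Quotient.restrictScalarsEquiv A _).toEquiv
  have h7 : Nat.card (B ⧸ IsLocalRing.maximalIdeal B ^ e) =
      Nat.card (B ⧸ IsLocalRing.maximalIdeal B) ^ e := by
    have := cardQuot_pow_of_prime (P := IsLocalRing.maximalIdeal B)
      (IsDiscreteValuationRing.not_a_field B) (i := e)
    rwa [Submodule.cardQuot_apply, Submodule.cardQuot_apply] at this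
  have h8 : Nat.card (IsLocalRing.ResidueField B) = Nat.card (B ⧸ IsLocalRing.maximalIdeal B) := rfl
  have h9 : Nat.card (IsLocalRing.ResidueField A) = Nat.card (A ⧸ IsLocalRing.maximalIdeal A) := rfl
  rw [h8, h9, hrank, ← h7, ← h6, h5]

end

end Fermat.Agent.S55.L.H355

end
-- ===== PACK-END S55/L/H355/Fund.lean

-- ===== PACK-BEGIN S55/G/Rec/Loc/OpenH478.lean
section


/-!
# S55 / G / REC / LOC : leaf LOC-FD (`OpenSpec`)  — helper478

The fixed field of an open subgroup `V ≤ Gal(ℚ̄_q/ℚ_q)` is finite over `ℚ_q`, and `V` is the full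
fixing subgroup of its fixed field.  Both follow from Mathlib's infinite Galois correspondence:
`V` contains the open subgroup `G_E` (`E/ℚ_q` finite), hence is open, hence closed.
-/

set_option autoImplicit false

namespace Fermat.Agent.S55.G.Rec.Loc.H478

open IntermediateField

/-- **LOC-FD**. -/
theorem openSpec : OpenSpec := by
  intro q _ V hV
  obtain ⟨E, hE, hEV⟩ := hV
  have : FiniteDimensional ℚ_[q] E := hE
  -- `V` is open, hence closed
  have hopen : IsOpen (V : Set (PadicAlgCl q ≃ₐ[ℚ_[q]] PadicAlgCl q)) :=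
    Subgroup.isOpen_mono hEV (IntermediateField.fixingSubgroup_isOpen E)
  have hclosed : IsClosed (V : Set (PadicAlgCl q ≃ₐ[ℚ_[q]] PadicAlgCl q)) :=
    Subgroup.isClosed_of_isOpen V hopen
  have hfix : (fixedFld q V).fixingSubgroup = V :=
    InfiniteGalois.fixingSubgroup_fixedField ⟨V, hclosed⟩
  refine ⟨?_, hfix⟩
  rw [← InfiniteGalois.isOpen_iff_finite, hfix]
  exact hopen

end Fermat.Agent.S55.G.Rec.Loc.H478

end
-- ===== PACK-END S55/G/Rec/Loc/OpenH478.lean

-- ===== PACK-BEGIN S55/G/Rec/Loc/UpH839.lean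
section



/-!
# S55 / G / REC / LOC, leaf LOC-UP (helper839): `up : UpSpec`

A finite-level coboundary inflates to a level coboundary.  Also exported:

* `exists_level_resHom` : restriction `V → Gal(E/K_V)` to a finite level `E` is level-constant;
* `isLevelConstant₁_inflCochain₁`, `isLevelConstant₂_inflCochain₂`;
* `inflCochain₂_d₁₂` : inflation commutes with the differential `d₁₂`.
-/

set_option autoImplicit false

noncomputable section

namespace Fermat.Agent.S55.G.Rec.Loc.H839

open groupCohomology Fermat.Agent.S55.G.Rec Fermat.Agent.S55.G.Rec.Loc Fermat.Agent.S55.Bridge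

variable (q : ℕ) [Fact q.Prime]

/-- An element of `V` fixing a primitive element of `E / K_V` fixes `E` pointwise. -/
lemma fixes_of_fixes_primitive (V : Subgroup (PadicAlgCl q ≃ₐ[ℚ_[q]] PadicAlgCl q))
    (E : IntermediateField (fixedFld q V) (PadicAlgCl q)) (α : E)
    (hα : IntermediateField.adjoin (fixedFld q V) {α} = ⊤) (σ : ↥V)
    (hσ : (σ : PadicAlgCl q ≃ₐ[ℚ_[q]] PadicAlgCl q) (α : PadicAlgCl q) = α)
    (y : PadicAlgCl q) (hy : y ∈ E) :
    (σ : PadicAlgCl q ≃ₐ[ℚ_[q]] PadicAlgCl q) y = y := by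
  set τ : PadicAlgCl q ≃ₐ[fixedFld q V] PadicAlgCl q := toAbsGal q V σ with hτ
  have hτα : τ (α : PadicAlgCl q) = α := hσ
  have hle : IntermediateField.adjoin (fixedFld q V) {(α : PadicAlgCl q)}
      ≤ IntermediateField.fixedField (Subgroup.zpowers τ) := by
    rw [IntermediateField.adjoin_le_iff]
    rintro z hz
    rw [Set.mem_singleton_iff] at hz
    subst hz
    rintro ⟨ρ, hρ⟩
    obtain ⟨n, rfl⟩ := Subgroup.mem_zpowers_iff.1 hρ
    show (τ ^ n) (α : PadicAlgCl q) = α
    have hfix : τ ∈ MulAction.stabilizer (PadicAlgCl q ≃ₐ[fixedFld q V] PadicAlgCl q)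
        (α : PadicAlgCl q) := hτα
    exact (Subgroup.zpow_mem _ hfix n : _)
  have hy' : (⟨y, hy⟩ : E) ∈ IntermediateField.adjoin (fixedFld q V) {α} := by rw [hα]; trivial
  have hyα : y ∈ IntermediateField.adjoin (fixedFld q V) {(α : PadicAlgCl q)} := by
    have h1 : IntermediateField.lift (IntermediateField.adjoin (fixedFld q V) {α})
        = IntermediateField.adjoin (fixedFld q V) {(α : PadicAlgCl q)} := by
      rw [IntermediateField.lift_adjoin, Set.image_singleton]
    rw [← h1]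
    exact (IntermediateField.mem_lift (⟨y, hy⟩ : E)).2 hy'
  exact hle hyα ⟨τ, Subgroup.mem_zpowers τ⟩

/-- Restriction to a finite level `E / K_V` is level-constant (in the Prelude's sense). -/
theorem exists_level_resHom (V : Subgroup (PadicAlgCl q ≃ₐ[ℚ_[q]] PadicAlgCl q))
    (E : IntermediateField (fixedFld q V) (PadicAlgCl q))
    [FiniteDimensional (fixedFld q V) E] [Normal (fixedFld q V) E] :
    ∃ F : IntermediateField ℚ (AlgebraicClosure ℚ), FiniteDimensional ℚ F ∧
      ∀ σ : ↥V, lHom q V σ ∈ F.fixingSubgroup → resHom q V E σ = 1 := by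
  obtain ⟨α, hα⟩ := Field.exists_primitive_element (fixedFld q V) E
  have : Algebra.IsAlgebraic ℚ_[q] (PadicAlgCl q) := inferInstance
  have : FiniteDimensional ℚ_[q] (IntermediateField.adjoin ℚ_[q] {(α : PadicAlgCl q)}) :=
    IntermediateField.adjoin.finiteDimensional (Algebra.IsIntegral.isIntegral _)
  obtain ⟨F, hF, h⟩ := exists_global_level_of_local q
    (IntermediateField.adjoin ℚ_[q] {(α : PadicAlgCl q)})
  refine ⟨F, hF, fun σ hσ => ?_⟩
  have h1 := h (σ : PadicAlgCl q ≃ₐ[ℚ_[q]] PadicAlgCl q) hσ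
  have h2 : (σ : PadicAlgCl q ≃ₐ[ℚ_[q]] PadicAlgCl q) (α : PadicAlgCl q) = α :=
    (IntermediateField.mem_fixingSubgroup_iff _ _).1 h1 _
      (IntermediateField.subset_adjoin ℚ_[q] _ (Set.mem_singleton _))
  ext x
  rw [resHom_apply_coe]
  exact fixes_of_fixes_primitive q V E α hα σ h2 x x.2

theorem isLevelConstant₁_inflCochain₁ (V : Subgroup (PadicAlgCl q ≃ₐ[ℚ_[q]] PadicAlgCl q))
    (E : IntermediateField (fixedFld q V) (PadicAlgCl q))
    [FiniteDimensional (fixedFld q V) E] [Normal (fixedFld q V) E]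
    (b : (E ≃ₐ[fixedFld q V] E) → L.unitsRep (fixedFld q V) E) :
    IsLevelConstant₁ (lHom q V) (_root_.Fermat.Agent.S55.G.Rec.Loc.inflCochain₁ q V E b) := by
  obtain ⟨F, hF, h⟩ := exists_level_resHom q V E
  refine ⟨F, hF, fun g s hs => ?_⟩
  unfold _root_.Fermat.Agent.S55.G.Rec.Loc.inflCochain₁
  rw [map_mul, h s hs, mul_one]

theorem isLevelConstant₂_inflCochain₂ (V : Subgroup (PadicAlgCl q ≃ₐ[ℚ_[q]] PadicAlgCl q))
    (E : IntermediateField (fixedFld q V) (PadicAlgCl q))
    [FiniteDimensional (fixedFld q V) E] [Normal (fixedFld q V) E]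
    (f : (E ≃ₐ[fixedFld q V] E) × (E ≃ₐ[fixedFld q V] E) → L.unitsRep (fixedFld q V) E) :
    IsLevelConstant₂ (lHom q V) (_root_.Fermat.Agent.S55.G.Rec.Loc.inflCochain₂ q V E f) := by
  obtain ⟨F, hF, h⟩ := exists_level_resHom q V E
  refine ⟨F, hF, fun g g' s s' hs hs' => ?_⟩
  unfold _root_.Fermat.Agent.S55.G.Rec.Loc.inflCochain₂
  simp only []
  rw [map_mul, map_mul, h s hs, h s' hs', mul_one, mul_one]

/-- The inclusion `Eˣ → ℚ̄_qˣ` as a linear map of the underlying modules. -/
def inclLin (V : Subgroup (PadicAlgCl q ≃ₐ[ℚ_[q]] PadicAlgCl q))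
    (E : IntermediateField (fixedFld q V) (PadicAlgCl q)) :
    L.unitsRep (fixedFld q V) E →ₗ[ℤ] lModOn q V :=
  (MonoidHom.toAdditive (unitsIncl q V E)).toIntLinearMap

/-- the inclusion `Eˣ → ℚ̄_qˣ` is equivariant along `resHom` -/
lemma inclLin_equivariant (V : Subgroup (PadicAlgCl q ≃ₐ[ℚ_[q]] PadicAlgCl q))
    (E : IntermediateField (fixedFld q V) (PadicAlgCl q)) [Normal (fixedFld q V) E]
    (g : ↥V) (x : L.unitsRep (fixedFld q V) E) :
    inclLin q V E ((L.unitsRep (fixedFld q V) E).ρ (resHom q V E g) x) =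
      (lModOn q V).ρ g (inclLin q V E x) := by
  apply Additive.toMul.injective
  apply Units.ext
  exact resHom_apply_coe q V E g _

lemma inflCochain₁_eq (V : Subgroup (PadicAlgCl q ≃ₐ[ℚ_[q]] PadicAlgCl q))
    (E : IntermediateField (fixedFld q V) (PadicAlgCl q)) [Normal (fixedFld q V) E]
    (b : (E ≃ₐ[fixedFld q V] E) → L.unitsRep (fixedFld q V) E) :
    _root_.Fermat.Agent.S55.G.Rec.Loc.inflCochain₁ q V E b = cochainsPullPush₁ (resHom q V E) (inclLin q V E) b := rfl

lemma inflCochain₂_eq (V : Subgroup (PadicAlgCl q ≃ₐ[ℚ_[q]] PadicAlgCl q))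
    (E : IntermediateField (fixedFld q V) (PadicAlgCl q)) [Normal (fixedFld q V) E]
    (f : (E ≃ₐ[fixedFld q V] E) × (E ≃ₐ[fixedFld q V] E) → L.unitsRep (fixedFld q V) E) :
    _root_.Fermat.Agent.S55.G.Rec.Loc.inflCochain₂ q V E f = cochainsPullPush₂ (resHom q V E) (inclLin q V E) f := rfl

/-- inflation commutes with the differential -/
theorem inflCochain₂_d₁₂ (V : Subgroup (PadicAlgCl q ≃ₐ[ℚ_[q]] PadicAlgCl q))
    (E : IntermediateField (fixedFld q V) (PadicAlgCl q)) [Normal (fixedFld q V) E]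
    (b : (E ≃ₐ[fixedFld q V] E) → L.unitsRep (fixedFld q V) E) :
    _root_.Fermat.Agent.S55.G.Rec.Loc.inflCochain₂ q V E ((d₁₂ (L.unitsRep (fixedFld q V) E)).hom b) =
      (d₁₂ (lModOn q V)).hom (_root_.Fermat.Agent.S55.G.Rec.Loc.inflCochain₁ q V E b) := by
  rw [inflCochain₂_eq, inflCochain₁_eq]
  exact cochainsPullPush₂_d₁₂ (resHom q V E) (inclLin q V E) (inclLin_equivariant q V E) b

/-- **LOC-UP.** -/
theorem up : UpSpec := by
  intro q _ V _ E _ _ f c hinf hcls
  have hf : (f : (E ≃ₐ[fixedFld q V] E) × (E ≃ₐ[fixedFld q V] E) →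
      L.unitsRep (fixedFld q V) E) ∈ coboundaries₂ (L.unitsRep (fixedFld q V) E) :=
    (H2π_eq_zero_iff f).mp hcls
  obtain ⟨b, hb⟩ := hf
  rw [mem_levelCoboundaries₂_iff]
  refine ⟨_root_.Fermat.Agent.S55.G.Rec.Loc.inflCochain₁ q V E b, isLevelConstant₁_inflCochain₁ q V E b, ?_⟩
  rw [hinf, ← _root_.Fermat.Agent.S55.G.Rec.Loc.H839.inflCochain₂_d₁₂, hb]

end Fermat.Agent.S55.G.Rec.Loc.H839

end
end
-- ===== PACK-END S55/G/Rec/Loc/UpH839.lean

-- ===== PACK-BEGIN S55/G/Rec/Loc/RefineH123.lean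
section


/-!
# S55 / layer G / block REC / sub-block LOC : leaf LOC-REF `RefineSpec`   (helper123)

For finite Galois levels `E ≤ E'` over `K_V` and a cocycle `f` on `Gal(E / K_V)`, the cocycle
`f' (g, h) := f (g|_E, h|_E)` (pushed to `E'ˣ`) on `Gal(E' / K_V)`

* has the same absolute inflation to `V` as `f`, and
* is an inflation of `f` in the sense of `L.IsInflation` (for the inclusion algebra `E → E'`),
  hence has the same invariant for every `J : L.InvFamily`.

Main result: `refine123 : RefineSpec` (no hypotheses).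
-/

set_option autoImplicit false
set_option linter.style.haveILetI false
set_option linter.unusedSectionVars false

noncomputable section

namespace Fermat.Agent.S55.G.Rec.Loc.H123

open groupCohomology Fermat.Agent.S55.G.Rec Fermat.Agent.S55.G.Rec.Loc

section Abstract

variable {K E E' : Type} [Field K] [Field E] [Field E'] [Algebra K E] [Algebra K E']
  [Algebra E E'] [IsScalarTower K E E'] [Normal K E]

/-- The inflated cochain on `Gal(E'/K)`. -/
def inflFun (f : (E ≃ₐ[K] E) × (E ≃ₐ[K] E) → L.unitsRep K E) :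
    (E' ≃ₐ[K] E') × (E' ≃ₐ[K] E') → L.unitsRep K E' :=
  fun p => Additive.ofMul (Units.map (algebraMap E E' : E →* E')
    (Additive.toMul (f (AlgEquiv.restrictNormalHom E p.1, AlgEquiv.restrictNormalHom E p.2))))

lemma inflFun_mem_cocycles₂ (f : cocycles₂ (L.unitsRep K E)) :
    inflFun (E' := E') (f : (E ≃ₐ[K] E) × (E ≃ₐ[K] E) → L.unitsRep K E) ∈
      cocycles₂ (L.unitsRep K E') := by
  rw [mem_cocycles₂_iff]
  intro g h j
  have hf := (mem_cocycles₂_iff (f : (E ≃ₐ[K] E) × (E ≃ₐ[K] E) → L.unitsRep K E)).1 f.2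
    (AlgEquiv.restrictNormalHom E g) (AlgEquiv.restrictNormalHom E h)
    (AlgEquiv.restrictNormalHom E j)
  rw [← map_mul, ← map_mul] at hf
  set F := (f : (E ≃ₐ[K] E) × (E ≃ₐ[K] E) → L.unitsRep K E) with hF
  have hf' : ((Additive.toMul (F (AlgEquiv.restrictNormalHom E (g * h),
        AlgEquiv.restrictNormalHom E j)) : Eˣ) : E) *
      ((Additive.toMul (F (AlgEquiv.restrictNormalHom E g,
        AlgEquiv.restrictNormalHom E h)) : Eˣ) : E) =
      (AlgEquiv.restrictNormalHom E g) ((Additive.toMul (F (AlgEquiv.restrictNormalHom E h,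
        AlgEquiv.restrictNormalHom E j)) : Eˣ) : E) *
      ((Additive.toMul (F (AlgEquiv.restrictNormalHom E g,
        AlgEquiv.restrictNormalHom E (h * j))) : Eˣ) : E) :=
    congrArg (fun x : L.unitsRep K E => ((Additive.toMul x : Eˣ) : E)) hf
  apply Additive.toMul.injective
  apply Units.ext
  show algebraMap E E' ((Additive.toMul (F (AlgEquiv.restrictNormalHom E (g * h),
        AlgEquiv.restrictNormalHom E j)) : Eˣ) : E) *
      algebraMap E E' ((Additive.toMul (F (AlgEquiv.restrictNormalHom E g,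
        AlgEquiv.restrictNormalHom E h)) : Eˣ) : E) =
      g (algebraMap E E' ((Additive.toMul (F (AlgEquiv.restrictNormalHom E h,
        AlgEquiv.restrictNormalHom E j)) : Eˣ) : E)) *
      algebraMap E E' ((Additive.toMul (F (AlgEquiv.restrictNormalHom E g,
        AlgEquiv.restrictNormalHom E (h * j))) : Eˣ) : E)
  rw [← AlgEquiv.restrictNormal_commutes g E, ← map_mul, ← map_mul]
  exact congrArg _ hf'

end Abstract

/-- **LOC-REF** (`RefineSpec` of `Loc/Spec.lean`). -/
theorem refine123 : RefineSpec := by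
  intro q _ V _ E E' _ _ _ _ hEE' f
  letI : Algebra E E' := (IntermediateField.inclusion hEE').toRingHom.toAlgebra
  haveI : IsScalarTower (fixedFld q V) E E' :=
    IsScalarTower.of_algebraMap_eq fun _ => rfl
  haveI : IsScalarTower E E' (PadicAlgCl q) :=
    IsScalarTower.of_algebraMap_eq fun _ => rfl
  refine ⟨⟨inflFun (E' := E') (f : (E ≃ₐ[fixedFld q V] E) × (E ≃ₐ[fixedFld q V] E) →
      L.unitsRep (fixedFld q V) E), inflFun_mem_cocycles₂ f⟩, ?_, ?_⟩
  · intro c hc
    unfold IsAbsInflation at hc ⊢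
    rw [hc]
    funext p
    have h1 : AlgEquiv.restrictNormalHom E (resHom q V E' p.1) = resHom q V E p.1 :=
      (IsScalarTower.AlgEquiv.restrictNormalHom_comp_apply (F := fixedFld q V)
        (K₃ := PadicAlgCl q) E E' (toAbsGal q V p.1)).symm
    have h2 : AlgEquiv.restrictNormalHom E (resHom q V E' p.2) = resHom q V E p.2 :=
      (IsScalarTower.AlgEquiv.restrictNormalHom_comp_apply (F := fixedFld q V)
        (K₃ := PadicAlgCl q) E E' (toAbsGal q V p.2)).symm
    apply Additive.toMul.injective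
    apply Units.ext
    show _ = algebraMap E' (PadicAlgCl q) (algebraMap E E'
      (((Additive.toMul ((f : (E ≃ₐ[fixedFld q V] E) × (E ≃ₐ[fixedFld q V] E) →
        L.unitsRep (fixedFld q V) E) (AlgEquiv.restrictNormalHom E (resHom q V E' p.1),
          AlgEquiv.restrictNormalHom E (resHom q V E' p.2))) : (↥E)ˣ) : E)))
    rw [h1, h2]
    rfl
  · intro J
    exact J.inv_inflation (fixedFld q V) E E' f _ (fun g h => rfl)

end Fermat.Agent.S55.G.Rec.Loc.H123

end

end
-- ===== PACK-END S55/G/Rec/Loc/RefineH123.lean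

-- ===== PACK-BEGIN S55/L/Inv481/Inputs.lean
section


/-!
# S55 / layer L / leaf L-C2 (InvSpec), helper481: INPUT INTERFACE

`InvSpec` (frozen, `SpecInv.lean`) is proved in `Main.lean` from

* frozen specs: `FiniteExtSpec`, `UnramifiedExistsSpec`, `UnramifiedCyclicSpec`, `H2CyclicSpec`;
* `UnrInvSpec`   : the invariant maps on UNRAMIFIED extensions, with base change   (= leaf L-NR+BC);
* `UnrNestSpec`  : unramified subextensions of a finite extension are nested by degree;
* `UnrBCSpec`    : the compositum of an unramified extension with any finite extension is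
                   unramified over the latter (existence form).

All three are true statements of the theory of unramified extensions.  Mathematical content of
`UnrInvFamily.inv_baseChange`: for `E/K` unramified with Frobenius `φ` and uniformizer `π`, the
class `u = [cyclic cocycle (φ, π)]` has `inv = 1/n`; its pull-back to `Gal(E'/K')`
(`g ↦ g|_E`) is `(f n'/n) · e · u'` where `φ'|_E = φ^f`, `π = π'^e · unit`, `e f = [K':K]`,
so `inv' = e f / n = [K':K] · inv`.
-/

set_option autoImplicit false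

namespace Fermat.Agent.S55.L.Inv481

open groupCohomology

/-- Invariant maps on unramified extensions (values on ramified extensions are irrelevant). -/
structure UnrInvFamily where
  /-- the invariant map -/
  inv : ∀ (K E : Type) [Field K] [Field E] [Algebra K E] [FiniteDimensional K E] [IsGalois K E]
    [IsLocalFld K], H2 (unitsRep K E) →+ AddCircle (1 : ℚ)
  inv_injective : ∀ (K E : Type) [Field K] [Field E] [Algebra K E] [FiniteDimensional K E]
    [IsGalois K E] [IsLocalFld K], IsUnramifiedExt K E → Function.Injective (inv K E)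
  /-- base change `K ⊆ K'`, `E ⊆ E'`: covers inflation (`K' = K`) and restriction (`E' = E`) -/
  inv_baseChange : ∀ (K K' E E' : Type) [Field K] [Field K'] [Field E] [Field E']
    [Algebra K K'] [Algebra K E] [Algebra K' E'] [Algebra E E'] [Algebra K E']
    [IsScalarTower K K' E'] [IsScalarTower K E E'] [FiniteDimensional K K']
    [FiniteDimensional K E] [FiniteDimensional K' E'] [IsGalois K E] [IsGalois K' E']
    [IsLocalFld K] [IsLocalFld K'],
    IsUnramifiedExt K E → IsUnramifiedExt K' E' →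
    ∀ (c : cocycles₂ (unitsRep K E)) (c' : cocycles₂ (unitsRep K' E')),
      IsBaseChange c c' → inv K' E' (cls c') = Module.finrank K K' • inv K E (cls c)
  inv_transport : ∀ (K E K' E' : Type) [Field K] [Field E] [Algebra K E] [Field K'] [Field E']
    [Algebra K' E'] [FiniteDimensional K E] [FiniteDimensional K' E'] [IsGalois K E]
    [IsGalois K' E'] [IsLocalFld K] [IsLocalFld K'],
    IsUnramifiedExt K E → IsUnramifiedExt K' E' →
    ∀ (e : E ≃+* E') (c : (E ≃ₐ[K] E) ≃* (E' ≃ₐ[K'] E'))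
    (_ : ∀ (g : E ≃ₐ[K] E) (x : E), c g (e x) = e (g x))
    (f : cocycles₂ (unitsRep K E)) (f' : cocycles₂ (unitsRep K' E')),
    IsTransport e c f f' → inv K' E' (cls f') = inv K E (cls f)
  inv_unramified : ∀ (K E : Type) [Field K] [Field E] [Algebra K E] [FiniteDimensional K E]
    [IsGalois K E] [IsLocalFld K], IsUnramifiedExt K E →
    ∀ (A : ValuationSubring K), IsLocalRingOfIntegers A →
    ∀ (φ : E ≃ₐ[K] E), IsFrobeniusElt K E φ →
    ∀ (π : Kˣ), IsUniformizer A (π : K) →
    ∀ (f : cocycles₂ (unitsRep K E)), IsCyclicCocycle φ π f →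
      inv K E (cls f) = (((Module.finrank K E : ℚ)⁻¹ : ℚ) : AddCircle (1 : ℚ))

/-- **L-NR+BC** existence of the unramified invariant maps with base change. -/
def UnrInvSpec : Prop := Nonempty UnrInvFamily

/-- Unramified subextensions of a finite extension are nested by divisibility of degrees
(they are the subfields of the maximal unramified subextension, which is cyclic). -/
def UnrNestSpec : Prop :=
  ∀ (K M : Type) [Field K] [Field M] [Algebra K M] [FiniteDimensional K M] [IsLocalFld K]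
    (E₁ E₂ : IntermediateField K M), IsUnramifiedExt K E₁ → IsUnramifiedExt K E₂ →
      Module.finrank K E₁ ∣ Module.finrank K E₂ → E₁ ≤ E₂

/-- If `E/K` is unramified and `K ⊆ K' ⊆ M`, `E ⊆ M`, then `E` is contained in a subextension
`E'` of `M/K'` which is unramified over `K'` (namely `E' = E K'`). -/
def UnrBCSpec : Prop :=
  ∀ (K K' M : Type) [Field K] [Field K'] [Field M] [Algebra K K'] [Algebra K M] [Algebra K' M]
    [IsScalarTower K K' M] [FiniteDimensional K M] [IsLocalFld K] [IsLocalFld K']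
    (E : IntermediateField K M), IsUnramifiedExt K E →
      ∃ E' : IntermediateField K' M, IsUnramifiedExt K' E' ∧ ∀ x : M, x ∈ E → x ∈ E'

end Fermat.Agent.S55.L.Inv481

end
-- ===== PACK-END S55/L/Inv481/Inputs.lean

-- ===== PACK-BEGIN S55/Cap/H123/H90.lean
section


/-!
# S55 / A8 (CAP), leaf J1: Hilbert 90 in cochain form, from `LocalSpec`   (helper123)

`h90_of_localSpec` : for levels `L ≤ L'`, a function `θ` on the local Galois group at `q` which
is a 1-cocycle on `V_L = Gal(ℚ̄_q/L_q)` with values in `ℚ̄_qˣ` and right-invariant under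
`V_{L'}` is a coboundary on `V_L`.
-/

set_option autoImplicit false
set_option linter.unusedSectionVars false
set_option linter.unusedVariables false

noncomputable section

namespace Fermat.Agent.S55.Cap.H123

open Fermat.Agent.S55.Tow groupCohomology CategoryTheory

/-- a 1-cocycle is a coboundary when `H¹ = 0` -/
lemma exists_cob_of_isZero_H1 {k G : Type} [CommRing k] [Group G] (A : Rep.{0} k G)
    (hz : Limits.IsZero (groupCohomology A 1))
    (f : G → A) (hf : ∀ g h : G, f (g * h) = A.ρ g (f h) + f g) :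
    ∃ y : A, ∀ g : G, A.ρ g y - y = f g := by
  have hmem : f ∈ cocycles₁ A := (mem_cocycles₁_iff f).2 hf
  haveI : Subsingleton (groupCohomology A 1) :=
    (ModuleCat.isZero_iff_subsingleton).1 hz
  have h0 : H1π A ⟨f, hmem⟩ = 0 := Subsingleton.elim _ _
  obtain ⟨y, hy⟩ := (H1π_eq_zero_iff _).1 h0
  refine ⟨y, fun g => ?_⟩
  have := congrFun hy g
  rw [d₀₁_hom_apply] at this
  exact this

/-- **Hilbert 90 (cochain form)** for `L'_q / L_q`, from `LocalSpec`. -/
theorem h90_of_localSpec (p : ℕ) (hL : LocalSpec p) {S : Finset Nat.Primes} (L L' : Level S)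
    (h : L ≤ L') (q : Nat.Primes) (θ : GQp q → (unitsQpbar q).V)
    (hcoc : ∀ δ ∈ L.V q, ∀ δ' ∈ L.V q, θ (δ * δ') = θ δ + (unitsQpbar q).ρ δ (θ δ'))
    (hinv : ∀ δ ∈ L.V q, ∀ w ∈ L'.V q, θ (δ * w) = θ δ) :
    ∃ c : (unitsQpbar q).V, ∀ δ ∈ L.V q, θ δ = (unitsQpbar q).ρ δ c - c := by
  classical
  have hVV : L'.V q ≤ L.V q := Level.V_anti h q
  have hθ1 : θ 1 = 0 := by
    have h1 := hcoc 1 (L.V q).one_mem 1 (L.V q).one_mem
    rw [mul_one, map_one, Module.End.one_apply] at h1
    have h' : θ 1 + 0 = θ 1 + θ 1 := by rw [add_zero]; exact h1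
    exact (add_left_cancel h').symm
  have hθw : ∀ w ∈ L'.V q, θ w = 0 := by
    intro w hw
    have := hinv 1 (L.V q).one_mem w hw
    rw [one_mul] at this
    rw [this, hθ1]
  have hfix : ∀ δ ∈ L.V q, ∀ w ∈ L'.V q, (unitsQpbar q).ρ w (θ δ) = θ δ := by
    intro δ hδ w hw
    have h1 := hcoc w (hVV hw) δ hδ
    rw [hθw w hw, zero_add] at h1
    rw [← h1]
    have h2 : w * δ = δ * (δ⁻¹ * w * δ) := by group
    have h3 : δ⁻¹ * w * δ ∈ L'.V q := by
      have := (Level.normalV L' q).conj_mem w hw δ⁻¹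
      rwa [inv_inv] at this
    rw [h2, hinv δ hδ _ h3]
  have hind : ∀ δ ∈ L.V q, ∀ δ' : GQp q,
      (QuotientGroup.mk δ : L'.Dec q) = QuotientGroup.mk δ' → θ δ = θ δ' := by
    intro δ hδ δ' he
    rw [QuotientGroup.eq] at he
    have h1 : δ' = δ * (δ⁻¹ * δ') := by group
    conv_rhs => rw [h1]
    rw [hinv δ hδ _ he]
  -- the relative group
  let K : Subgroup (L'.Dec q) := (Level.projDec h q).ker
  have hmkK : ∀ δ : GQp q, (QuotientGroup.mk δ : L'.Dec q) ∈ K ↔ δ ∈ L.V q := by
    intro δ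
    show Level.projDec h q (QuotientGroup.mk δ) = 1 ↔ _
    rw [Level.projDec_mk, QuotientGroup.eq_one_iff]
  -- lifts
  let lift : ↥K → GQp q := fun k => Quotient.out (k.1 : L'.Dec q)
  have hlift : ∀ k : ↥K, (QuotientGroup.mk (lift k) : L'.Dec q) = k.1 :=
    fun k => QuotientGroup.out_eq' _
  have hliftV : ∀ k : ↥K, lift k ∈ L.V q := by
    intro k
    rw [← hmkK, hlift]
    exact k.2
  -- the cocycle
  let z : ↥K → (T.resSub (L'.locUnits q) K) := fun k =>
    L'.locMk q (θ (lift k)) (fun w hw => hfix _ (hliftV k) w hw)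
  have hzc : ∀ k k' : ↥K,
      z (k * k') = (T.resSub (L'.locUnits q) K).ρ k (z k') + z k := by
    intro k k'
    apply L'.locCoe_injective q
    have hρ : L'.locCoe q ((T.resSub (L'.locUnits q) K).ρ k (z k'))
        = (unitsQpbar q).ρ (lift k) (θ (lift k')) := by
      show L'.locCoe q ((L'.locUnits q).ρ (k.1) (z k')) = _
      rw [← hlift k]
      rfl
    have hadd : L'.locCoe q ((T.resSub (L'.locUnits q) K).ρ k (z k') + z k)
        = L'.locCoe q ((T.resSub (L'.locUnits q) K).ρ k (z k')) + L'.locCoe q (z k) :=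
      map_add (L'.locCoe q) _ _
    rw [hadd, hρ]
    show θ (lift (k * k')) = (unitsQpbar q).ρ (lift k) (θ (lift k')) + θ (lift k)
    have h1 : (QuotientGroup.mk (lift k * lift k') : L'.Dec q)
        = QuotientGroup.mk (lift (k * k')) := by
      rw [QuotientGroup.mk_mul, hlift, hlift, hlift]
      rfl
    rw [← hind _ ((L.V q).mul_mem (hliftV k) (hliftV k')) _ h1,
      hcoc _ (hliftV k) _ (hliftV k'), add_comm]
  obtain ⟨y, hy⟩ := exists_cob_of_isZero_H1 (T.resSub (L'.locUnits q) K)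
    (hL.2.1 S L L' h q) z hzc
  refine ⟨L'.locCoe q y, fun δ hδ => ?_⟩
  have hk : (QuotientGroup.mk δ : L'.Dec q) ∈ K := (hmkK δ).2 hδ
  have h1 := hy ⟨QuotientGroup.mk δ, hk⟩
  have h2 := congrArg (L'.locCoe q) h1
  have h3 : L'.locCoe q (z ⟨QuotientGroup.mk δ, hk⟩) = θ δ := by
    show θ (lift ⟨QuotientGroup.mk δ, hk⟩) = θ δ
    exact hind _ (hliftV _) _ (hlift _)
  rw [h3] at h2
  rw [← h2]
  rfl

end Fermat.Agent.S55.Cap.H123

end
end
-- ===== PACK-END S55/Cap/H123/H90.lean

-- ===== PACK-BEGIN S55/Bridge/LocalDiv.lean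
section




/-!
# S55: the component LDIV of `Tow.LocalSpec p` (third conjunct), exact frozen shape

Every element of `F_qˣ` becomes a `p`-th power in `F'_qˣ` for a suitable finite Galois `F'/ℚ`
containing `F` (a level of a bigger finite set of primes): `ℚ̄_q` is algebraically closed, a
`p`-th root generates a finite extension of `ℚ_q`, which by Krasner is contained in `ℚ_q · F₁`
for a finite `F₁/ℚ`; finally `F₁ · F` lies in a finite Galois extension unramified outside a
finite set (B15).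
-/

set_option autoImplicit false

namespace Fermat.Agent.S55.Bridge

open ExtCitation

attribute [local instance] isAlgebraic_Qbar isGalois_Qbar

/-- **LDIV** (third conjunct of `Tow.LocalSpec p`). -/
theorem localSpec_ldiv (p : ℕ) (hp : 0 < p) :
    ∀ (S' : Finset Nat.Primes) (L : Tow.Level S') (q : Nat.Primes) (x : (L.locUnits q).V),
      ∃ (S'' : Finset Nat.Primes) (hS : S' ⊆ S'') (L' : Tow.Level S'')
        (h : Tow.Level.ofLE hS L ≤ L') (y : (L'.locUnits q).V),
        p • y = (Tow.Level.trLoc h q).hom x := by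
  intro S' L q x
  haveI : Fact (q : ℕ).Prime := ⟨q.2⟩
  -- the underlying unit and a `p`-th root
  let u : (PadicAlgCl (q : ℕ))ˣ := Additive.toMul (L.locCoe q x)
  obtain ⟨v, hv⟩ := IsAlgClosed.exists_pow_nat_eq (u : PadicAlgCl (q : ℕ)) hp
  have hv0 : v ≠ 0 := by
    rintro rfl
    rw [zero_pow hp.ne'] at hv
    exact u.ne_zero hv.symm
  -- a global element generating a field containing `v`
  obtain ⟨b, hb⟩ := exists_global_generator (q : ℕ) v
  have hfin : FiniteDimensional ℚ
      ↥(IntermediateField.adjoin ℚ {b} ⊔ L.F : IntermediateField ℚ (AlgebraicClosure ℚ)) := by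
    haveI := L.unram.1
    haveI : FiniteDimensional ℚ (IntermediateField.adjoin ℚ {b}) :=
      IntermediateField.adjoin.finiteDimensional (Algebra.IsIntegral.isIntegral b)
    exact IntermediateField.finiteDimensional_sup _ _
  obtain ⟨T, F', hST, hF', hgal, hle⟩ :=
    exists_galois_ge_isUnramifiedOutside S' (IntermediateField.adjoin ℚ {b} ⊔ L.F) hfin
  let L' : Tow.Level T := ⟨F', hF', (InfiniteGalois.normal_iff_isGalois _).2 hgal⟩
  have h : Tow.Level.ofLE hST L ≤ L' := le_sup_right.trans hle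
  have hfix : ∀ g ∈ L'.V q, (Tow.unitsQpbar q).ρ g (Additive.ofMul (Units.mk0 v hv0))
      = Additive.ofMul (Units.mk0 v hv0) := by
    intro g hg
    let g' : PadicAlgCl (q : ℕ) ≃ₐ[ℚ_[(q : ℕ)]] PadicAlgCl (q : ℕ) := g
    have hgb : localGaloisToGlobal (q : ℕ) g' b = b := by
      have hg' : Tow.locQ q g ∈ F'.fixingSubgroup := hg
      exact (IntermediateField.mem_fixingSubgroup_iff _ _).1 hg' b
        (hle (le_sup_left (a := IntermediateField.adjoin ℚ {b}) (b := L.F)
          (IntermediateField.subset_adjoin ℚ _ (Set.mem_singleton b))))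
    have hgv : g' v = v := fixes_adjoin_of_fixes (q : ℕ) g' b hgb v hb
    apply Additive.toMul.injective
    apply Units.ext
    exact hgv
  refine ⟨T, hST, L', h, L'.locMk q (Additive.ofMul (Units.mk0 v hv0)) hfix, ?_⟩
  apply L'.locCoe_injective q
  show p • (Additive.ofMul (Units.mk0 v hv0) : Additive (PadicAlgCl (q : ℕ))ˣ) = L.locCoe q x
  apply Additive.toMul.injective
  apply Units.ext
  show ((Units.mk0 v hv0) ^ p : (PadicAlgCl (q : ℕ))ˣ).1 = (u : PadicAlgCl (q : ℕ))
  rw [Units.val_pow_eq_pow_val, Units.val_mk0, hv]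

end Fermat.Agent.S55.Bridge

end
-- ===== PACK-END S55/Bridge/LocalDiv.lean

-- ===== PACK-BEGIN S56/Euler/H896/Herb.lean
section
/-
S56 / W-BASE / leaf **EUL-HERB** (helper896): the equivariant `T`-unit theorem mod `p`,
in characteristic-polynomial form.

`L/K` Galois extension of number fields, `T` a finite set of primes of `K`, `τ ∈ Gal(L/K)`
ARBITRARY, `p` ANY prime.  Vocabulary of the landed block `S55/G` (`SpecUnits`, `OrdH707`):
`sUnits K L T ≤ Additive Lˣ` (the `T`-units of `L`), `unitsHom K L τ` (the action of `τ`),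
`primesAbove K L T` with the action `OrdH707.actX`.

`herbCharpoly` : for every model `(V, π, g)` of `E_T/p` with the endomorphism induced by `τ`
and every model `(W, ι, gμ)` of `μ_p(L)`:

  `charpoly(g) · (X - 1)
      = charpoly(gμ) · charpoly(τ | 𝔽_p^{InfinitePlace L}) · charpoly(τ | 𝔽_p^{primesAbove T})`

where `τ` acts on functions by `(τ a) w = a (τ⁻¹ • w)`.
For `τ` of order prime to `p` this is the identity
`[E_T/p] = [μ_p] + [𝔽_p[S_∞]] + [𝔽_p[T_L]] - [𝔽_p]` in `G₀(𝔽_p[⟨τ⟩])`.
-/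





set_option autoImplicit false
set_option linter.style.haveILetI false
set_option linter.unusedSimpArgs false
set_option linter.unusedVariables false
set_option linter.unusedSectionVars false

namespace Fermat.Agent.S56.Euler.H896

open Polynomial NumberField IsDedekindDomain Fermat.Agent.S55.G Fermat.Agent.S55.G.OrdH707

universe u v

section Stability

variable (K : Type u) (L : Type v) [Field K] [Field L] [NumberField K] [NumberField L]
  [Algebra K L] [IsGalois K L] (T : Finset (HeightOneSpectrum (𝓞 K)))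

lemma valuation_unitsHom (τ : L ≃ₐ[K] L) (w : HeightOneSpectrum (𝓞 L)) (x : Additive Lˣ) :
    w.valuation L ((Additive.toMul (unitsHom K L τ x) : Lˣ) : L) =
      (smulH K L τ⁻¹ w).valuation L ((Additive.toMul x : Lˣ) : L) := by
  have h := valuation_smulH K L τ (smulH K L τ⁻¹ w) ((Additive.toMul x : Lˣ) : L)
  rw [← smulH_mul, mul_inv_cancel, smulH_one] at h
  exact h

lemma unitsHom_mem_intUnits (τ : L ≃ₐ[K] L) (x : Additive Lˣ) (hx : x ∈ intUnits L) :
    unitsHom K L τ x ∈ intUnits L := by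
  rw [mem_intUnits_iff] at hx ⊢
  intro w
  rw [valuation_unitsHom]
  exact hx _

lemma unitsHom_mem_sUnits (τ : L ≃ₐ[K] L) (x : Additive Lˣ) (hx : x ∈ sUnits K L T) :
    unitsHom K L τ x ∈ sUnits K L T := by
  rw [mem_sUnits_iff] at hx ⊢
  intro w hw
  rw [valuation_unitsHom]
  apply hx
  intro h
  apply hw
  have := smulH_mem K L T τ h
  rwa [← smulH_mul, mul_inv_cancel, smulH_one] at this

lemma torsion_mem_sUnits (n : ℕ) (hn : n ≠ 0) (x : Additive Lˣ) (hx : n • x = 0) :
    x ∈ sUnits K L T := by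
  rw [mem_sUnits_iff]
  intro w _
  have h1 : (Additive.toMul x : Lˣ) ^ n = 1 := by
    have := congrArg Additive.toMul hx
    simpa using this
  have h2 : (w.valuation L ((Additive.toMul x : Lˣ) : L)) ^ n = 1 := by
    rw [← map_pow, ← Units.val_pow_eq_pow_val, h1, Units.val_one, map_one]
  exact (pow_eq_one_iff_of_nonneg zero_le hn).1 h2

end Stability

section Main

variable (K : Type u) (L : Type v) [Field K] [Field L] [NumberField K] [NumberField L]
  [Algebra K L] [IsGalois K L] (T : Finset (HeightOneSpectrum (𝓞 K)))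

/-- The permutation action of `τ` on `𝔽_p`-valued functions on the infinite places of `L`:
`(τ a) w = a (τ⁻¹ • w)`. -/
noncomputable def permInf (p : ℕ) (τ : L ≃ₐ[K] L) :
    (InfinitePlace L → ZMod p) →ₗ[ZMod p] (InfinitePlace L → ZMod p) :=
  _root_.Fermat.Agent.S56.Euler.H896.permLin (ZMod p) (fun w : InfinitePlace L => τ⁻¹ • w)

/-- The permutation action of `τ` on `𝔽_p`-valued functions on the primes of `L` above `T`:
`(τ a) w = a (τ⁻¹ • w)` (action `OrdH707.actX`). -/
noncomputable def permFin (p : ℕ) (τ : L ≃ₐ[K] L) :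
    (↥(primesAbove K L T) → ZMod p) →ₗ[ZMod p] (↥(primesAbove K L T) → ZMod p) :=
  letI := actX K L T
  _root_.Fermat.Agent.S56.Euler.H896.permLin (ZMod p) (fun w : ↥(primesAbove K L T) => τ⁻¹ • w)

/-- **EUL-HERB** (characteristic polynomial form). -/
theorem herbCharpoly (τ : L ≃ₐ[K] L) (p : ℕ) [Fact p.Prime]
    {V : Type*} [AddCommGroup V] [Module (ZMod p) V] [Module.Finite (ZMod p) V]
    (g : V →ₗ[ZMod p] V) (π : ↥(sUnits K L T) →+ V) (hπ : Function.Surjective π)
    (hπk : ∀ a, π a = 0 → ∃ b, a = p • b)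
    (hg : ∀ a b : ↥(sUnits K L T), (b : Additive Lˣ) = unitsHom K L τ a → π b = g (π a))
    {W : Type*} [AddCommGroup W] [Module (ZMod p) W] [Module.Finite (ZMod p) W]
    (gμ : W →ₗ[ZMod p] W) (ι : W →+ Additive Lˣ) (hι : Function.Injective ι)
    (hιr : ∀ a, a ∈ ι.range ↔ p • a = 0)
    (hgμ : ∀ w, ι (gμ w) = unitsHom K L τ (ι w)) :
    letI := fintypeX K L T
    g.charpoly * (Polynomial.X - 1) =
      gμ.charpoly * (permInf K L p τ).charpoly * (permFin K L T p τ).charpoly := by
  classical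
  letI := actX K L T
  letI := fintypeX K L T
  obtain ⟨φ, hφeq, hφfin, r, b, hb, hspan, hUφ⟩ := Log101.unitsLogSpec.{u, v} K L
  exact herb_core (unitsHom K L τ) (intUnits L) (sUnits K L T)
    (_root_.Fermat.Agent.S56.Euler.H896.unitsHom_mem_intUnits K L τ) (unitsHom_mem_sUnits K L T τ)
    (fun w : InfinitePlace L => τ⁻¹ • w) (MulAction.bijective τ⁻¹)
    (fun w : ↥(primesAbove K L T) => τ⁻¹ • w)
    φ (fun a => hφeq τ a) hφfin r b hb hspan hUφ
    (_root_.Fermat.Agent.S55.G.OrdH707.ordHom K L T) (fun a => _root_.Fermat.Agent.S55.G.OrdH707.ordHom_equivariant K L T τ a)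
    (ker_inf_sUnits K L T) (index_map_ordHom K L T)
    p g π hπ hπk hg gμ ι hι
    (fun a => by
      rw [hιr]
      exact ⟨fun h => ⟨torsion_mem_sUnits K L T p (Fact.out : p.Prime).ne_zero a h, h⟩,
        fun h => h.2⟩)
    hgμ

end Main

end Fermat.Agent.S56.Euler.H896

end
-- ===== PACK-END S56/Euler/H896/Herb.lean

-- ===== PACK-BEGIN S56/H716/TBGlue.lean
section


/-!
# Row S56 — tangent bound (TB), layer 1: glue `TB ⇐ DICT + SELBOUND` (deputy helper716)

* `tangentBound_of_dict_selBound` : `(∀ Q, Dict (cond Q)) → SelBound cond → TangentBound cond`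
* `tangentBoundOrd_of`  : `DictOrdStatement → SelBoundOrdStatement → TangentBoundOrdStatement`
* `tangentBoundFlat_of` : `DictFlatStatement → SelBoundFlatStatement → TangentBoundFlatStatement`
-/

set_option autoImplicit false

open Polynomial IsLocalRing

noncomputable section

namespace Fermat.Agent.S56.H716

open Fermat.Agent.S56

section

variable {k : Type} [Field k] (ρbar : ResidualGaloisRep k)

lemma IsAdCoboundary.sub {c c' : GQ → Module.End k ρbar.V} (h : IsAdCoboundary ρbar c)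
    (h' : IsAdCoboundary ρbar c') : IsAdCoboundary ρbar (c - c') := by
  obtain ⟨m, hm⟩ := h
  obtain ⟨m', hm'⟩ := h'
  refine ⟨m - m', fun σ => ?_⟩
  rw [Pi.sub_apply, hm σ, hm' σ, mul_sub, sub_mul]
  abel

end

variable (𝒪 : Type) [CommRing 𝒪] [IsDomain 𝒪] [IsDiscreteValuationRing 𝒪]
  [IsAdicComplete (maximalIdeal 𝒪) 𝒪] [Finite (ResidueField 𝒪)]
  (p : ℕ) (ρbar : ResidualGaloisRep (ResidueField 𝒪)) (S : Finset ℕ)

/-- **Glue** `TB ⇐ DICT + SELBOUND`. -/
theorem tangentBound_of_dict_selBound (cond : Finset ℕ → DefCond 𝒪)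
    (hdict : ∀ Q : Finset ℕ, Dict 𝒪 ρbar (cond Q)) (hsel : SelBound 𝒪 p ρbar S cond) :
    TangentBound 𝒪 p ρbar S cond := by
  obtain ⟨D, hD, h⟩ := hsel
  refine ⟨D, hD, fun Q hQ hK DQ => ?_⟩
  obtain ⟨T, hTfin, hTle, hT⟩ := h Q hQ hK
  obtain ⟨f, hf, hinj⟩ := hdict Q DQ
  have hT' : ∀ φ, ∃ t ∈ T, IsAdCoboundary ρbar (f φ - t) := by
    intro φ
    rcases hf φ with h1 | h0
    · exact hT (f φ) h1
    · exact ⟨0, T.zero_mem, 0, fun σ => by simp [h0]⟩
  choose t ht htc using hT'
  let g : TanHom 𝒪 DQ.R → T := fun φ => ⟨t φ, ht φ⟩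
  have hg : Function.Injective g := by
    intro φ φ' hφ
    have ht' : t φ = t φ' := congrArg Subtype.val hφ
    refine hinj φ φ' ?_
    have h1 := (htc φ).sub ρbar (htc φ')
    have h2 : f φ - t φ - (f φ' - t φ') = f φ - f φ' := by
      rw [ht']
      abel
    rwa [h2] at h1
  have : Module.Finite (ResidueField 𝒪) T := hTfin
  have : Finite T := Module.finite_of_finite (ResidueField 𝒪)
  have : Finite (TanHom 𝒪 DQ.R) := Finite.of_injective g hg
  refine ⟨inferInstance, ?_⟩
  calc Nat.card (TanHom 𝒪 DQ.R) ≤ Nat.card T := Nat.card_le_card_of_injective g hg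
    _ = Nat.card (ResidueField 𝒪) ^ Module.finrank (ResidueField 𝒪) T :=
        Module.natCard_eq_pow_finrank
    _ ≤ Nat.card (ResidueField 𝒪) ^ Q.card :=
        Nat.pow_le_pow_right Nat.card_pos hTle

end Fermat.Agent.S56.H716

namespace Fermat.Agent.S56.H716

open Fermat.Agent.S56

/-- (TB-ord) from (DICT-ord) and (SELBOUND-ord). -/
theorem tangentBoundOrd_of (hdict : DictOrdStatement) (hsel : SelBoundOrdStatement) :
    TangentBoundOrdStatement :=
  fun 𝒪 _ _ _ _ _ p ρbar S Smin hyp =>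
    tangentBound_of_dict_selBound 𝒪 p ρbar S (ordCond 𝒪 p Smin)
      (hdict 𝒪 p ρbar S Smin hyp) (hsel 𝒪 p ρbar S Smin hyp)

/-- (TB-flat) from (DICT-flat) and (SELBOUND-flat). -/
theorem tangentBoundFlat_of (hdict : DictFlatStatement) (hsel : SelBoundFlatStatement) :
    TangentBoundFlatStatement :=
  fun 𝒪 _ _ _ _ _ p ρbar S Smin hyp =>
    tangentBound_of_dict_selBound 𝒪 p ρbar S (flatCond 𝒪 p Smin)
      (hdict 𝒪 p ρbar S Smin hyp) (hsel 𝒪 p ρbar S Smin hyp)

end Fermat.Agent.S56.H716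

end

end
-- ===== PACK-END S56/H716/TBGlue.lean

-- ===== PACK-BEGIN S56/H434/Rational.lean
section




/-!
# S56 / W2-SS, piece A (helper434): Theorem A — bridge-free lifting lemma, rationality form

`acts_trivially_of_approx_hom`: `Ω` algebraically closed with a rank-one valuation `v`, `H` a
finite free commutative cocommutative `R`-bialgebra all of whose `Ω`-points are killed by `p`,
`η` a ring homomorphism modulo `p γ` (`γ ^ (p - 1) < |p|`) defined on a subring `T` of integral
elements containing the values of all points, isometric modulo `γ`.  Then every valuation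
preserving endomorphism `σ` of `Ω` fixing `R` and the values of `η` fixes all points of `H`.

No completeness is used: Newton iteration is run finitely many times and the resulting
approximate point is replaced by a genuine point with `H384.exists_point_near`.
-/

set_option autoImplicit false

open WithConv TensorProduct

namespace Fermat.Agent.S56.H434

section Fixed

variable {Ω : Type*} [Field Ω] {R : Type*} [CommRing R] [Algebra R Ω]
  {H : Type*} [AddCommGroup H] [Module R H] [Coalgebra R H] [Coalgebra.IsCocomm R H]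

/-- The functionals with values fixed by `σ`, as a subring of the convolution ring. -/
def fixedSubring (σ : Ω →+* Ω) (hσR : ∀ r : R, σ (algebraMap R Ω r) = algebraMap R Ω r) :
    Subring (WithConv (H →ₗ[R] Ω)) where
  carrier := {F | ∀ h, σ (F.ofConv h) = F.ofConv h}
  mul_mem' := by
    intro F G hF hG h
    have key : (F * G).ofConv h = ∑ i ∈ (Coalgebra.Repr.arbitrary R h).index,
        F.ofConv ((Coalgebra.Repr.arbitrary R h).left i) *
          G.ofConv ((Coalgebra.Repr.arbitrary R h).right i) :=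
      (Coalgebra.Repr.arbitrary R h).convMul_apply F G
    rw [key, map_sum]
    refine Finset.sum_congr rfl fun i _ => ?_
    rw [map_mul, hF, hG]
  one_mem' := fun h => hσR _
  add_mem' := by
    intro F G hF hG h
    simp only [ofConv_add, LinearMap.add_apply, map_add, hF h, hG h]
  zero_mem' := fun h => by simp
  neg_mem' := by
    intro F hF h
    simp only [ofConv_neg, LinearMap.neg_apply, map_neg, hF h]

theorem mem_fixedSubring {σ : Ω →+* Ω} {hσR : ∀ r : R, σ (algebraMap R Ω r) = algebraMap R Ω r}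
    {F : WithConv (H →ₗ[R] Ω)} :
    F ∈ fixedSubring (H := H) σ hσR ↔ ∀ h, σ (F.ofConv h) = F.ofConv h := Iff.rfl

end Fixed

/-- **Theorem A.** -/
theorem acts_trivially_of_approx_hom
    {Ω : Type*} [Field Ω] [IsAlgClosed Ω] {Γ : Type*} [LinearOrderedCommGroupWithZero Γ]
    (v : Valuation Ω Γ)
    (harch : ∀ x y : Γ, x < 1 → y ≠ 0 → ∃ n : ℕ, x ^ n ≤ y)
    {R : Type*} [CommRing R] [Algebra R Ω] (hR : ∀ r : R, v (algebraMap R Ω r) ≤ 1)
    {H : Type*} [CommRing H] [Bialgebra R H] [Coalgebra.IsCocomm R H]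
    [Module.Free R H] [Module.Finite R H] [Finite (H →ₐ[R] Ω)]
    {p : ℕ} (hp : p.Prime)
    (hkill : ∀ x : WithConv (H →ₐ[R] Ω), x ^ p = 1)
    {γ : Γ} (hγ0 : γ ≠ 0) (hγ : γ ^ (p - 1) < v (p : Ω))
    (T : Subring Ω) (hTint : ∀ a ∈ T, v a ≤ 1) (hT : ∀ (x : H →ₐ[R] Ω) (h : H), x h ∈ T)
    (η : Ω → Ω) (hη : ApproxHom v R T η (v (p : Ω) * γ))
    (hiso : ∀ a ∈ T, v (η a) ≤ γ → v a ≤ γ)
    (σ : Ω →+* Ω) (hσv : ∀ a, v (σ a) = v a)
    (hσR : ∀ r : R, σ (algebraMap R Ω r) = algebraMap R Ω r)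
    (hση : ∀ a ∈ T, σ (η a) = η a) :
    ∀ (x : H →ₐ[R] Ω) (h : H), σ (x h) = x h := by
  classical
  -- basis and norms
  let b : Module.Basis (Module.Free.ChooseBasisIndex R H) R H := Module.Free.chooseBasis R H
  set ν := convNorm v b hR with hν
  set ν₂ := convNorm v (b.tensorProduct b) hR with hν₂
  have hpd : ν.PData p (v (p : Ω)) := convNorm_pdata v b hR hp
  have hπ0 : 0 < v (p : Ω) := lt_of_le_of_lt zero_le hγ
  have hp0 : (p : Ω) ≠ 0 := (Valuation.ne_zero_iff v).mp hπ0.ne'
  have hγ1 : γ < 1 := hpd.lt_one_of_pow_lt hγ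
  have hεγ : v (p : Ω) * γ ≤ γ := by
    calc v (p : Ω) * γ ≤ 1 * γ := mul_le_mul' hpd.π_le le_rfl
      _ = γ := one_mul _
  have hε1 : v (p : Ω) * γ ≤ 1 := hεγ.trans hγ1.le
  have hRT : ∀ r : R, algebraMap R Ω r ∈ T := fun r => by
    have := hT (1 : WithConv (H →ₐ[R] Ω)).ofConv (algebraMap R H r)
    rwa [AlgHom.commutes] at this
  -- points as elements of the convolution ring
  let X : (H →ₐ[R] Ω) → WithConv (H →ₗ[R] Ω) := fun x => toConv x.toLinearMap
  have hXapp : ∀ x h, (X x).ofConv h = x h := fun x h => rfl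
  have hX1 : ∀ x, ν.N (X x) ≤ 1 := fun x =>
    (convNorm_le_iff v b hR).mpr fun i => hTint _ (hT x _)
  have hXp : ∀ x, X x ^ p = 1 := by
    intro x
    have h1 := AlgHom.toLinearMap_convPow (toConv x) p
    rw [hkill (toConv x)] at h1
    rw [← h1]
    rfl
  have hXinj : ∀ x z, X x = X z → x = z := by
    intro x z h
    apply AlgHom.ext
    intro a
    have := congrArg (fun F : WithConv (H →ₗ[R] Ω) => F.ofConv a) h
    exact this
  -- the approximate points
  let f₀ : (H →ₐ[R] Ω) → WithConv (H →ₗ[R] Ω) :=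
    fun x => toConv (b.constr R fun i => η (x (b i)))
  have hf₀b : ∀ x i, (f₀ x).ofConv (b i) = η (x (b i)) := fun x i => b.constr_basis R _ i
  have hf₀near : ∀ x, Near v T η (v (p : Ω) * γ) (f₀ x) (X x) := by
    intro x
    have hval : ∀ h, v ((f₀ x).ofConv h - η (x h)) ≤ v (p : Ω) * γ := by
      intro h
      have e1 : (f₀ x).ofConv h = ∑ i, algebraMap R Ω (b.repr h i) * η (x (b i)) := by
        conv_lhs => rw [← b.sum_repr h]
        rw [map_sum]
        refine Finset.sum_congr rfl fun i _ => ?_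
        rw [map_smul, hf₀b, Algebra.smul_def]
      have e2 : x h = ∑ i, algebraMap R Ω (b.repr h i) * x (b i) := by
        conv_lhs => rw [← b.sum_repr h]
        rw [map_sum]
        refine Finset.sum_congr rfl fun i _ => ?_
        rw [map_smul, Algebra.smul_def]
      rw [e1, e2]
      have h1 := hη.sum_mul Finset.univ (fun i => algebraMap R Ω (b.repr h i))
        (fun i => x (b i)) (fun i _ => hRT _) (fun i _ => hT x _)
      have h2 : v (∑ i, algebraMap R Ω (b.repr h i) * η (x (b i)) -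
          ∑ i, η (algebraMap R Ω (b.repr h i)) * η (x (b i))) ≤ v (p : Ω) * γ :=
        val_sum_sub_sum_le v _ _ _ fun i _ => by
          rw [← sub_mul, map_mul]
          have := hη.map_algebraMap (b.repr h i)
          rw [val_sub_comm] at this
          calc _ ≤ v (p : Ω) * γ * 1 := mul_le_mul' this (hη.int _ (hT x _))
            _ = v (p : Ω) * γ := mul_one _
      rw [val_sub_comm] at h1
      exact val_sub_le_trans v h2 h1
    exact ⟨fun h => hT x h, fun h => val_le_one_of_sub_le v hε1 (hval h) (hη.int _ (hT x h)),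
      hval⟩
  have hf₀1 : ∀ x, ν.N (f₀ x) ≤ 1 := fun x =>
    (convNorm_le_iff v b hR).mpr fun i => (hf₀near x).2.1 _
  have hf₀p : ∀ x, ν.N (f₀ x ^ p - 1) ≤ v (p : Ω) * γ := by
    intro x
    have hn := near_pow hη hR hRT (hf₀near x) p
    rw [hXp x] at hn
    obtain ⟨-, -, hn3⟩ := hn
    rw [convNorm_le_iff]
    intro i
    have h1 := hn3 (b i)
    have h2 := hη.map_algebraMap (Coalgebra.counit (R := R) (b i))
    have e : (f₀ x ^ p - 1).ofConv (b i) =
        ((f₀ x ^ p).ofConv (b i) - η ((1 : WithConv (H →ₗ[R] Ω)).ofConv (b i))) +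
        (η (algebraMap R Ω (Coalgebra.counit (R := R) (b i))) -
          algebraMap R Ω (Coalgebra.counit (R := R) (b i))) := by
      have e1 : (1 : WithConv (H →ₗ[R] Ω)).ofConv (b i) =
          algebraMap R Ω (Coalgebra.counit (R := R) (b i)) := rfl
      rw [ofConv_sub, LinearMap.sub_apply, e1]
      ring
    rw [e]
    exact v.map_add_le h1 h2
  have hf₀mul : ∀ x, ν₂.N (mA (f₀ x) - mB (f₀ x)) ≤ v (p : Ω) * γ := by
    intro x
    obtain ⟨-, hF1, hFn⟩ := hf₀near x
    rw [convNorm_le_iff]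
    rintro ⟨i, j⟩
    rw [Module.Basis.tensorProduct_apply, ofConv_sub, LinearMap.sub_apply, mA_apply_tmul,
      mB_apply_tmul]
    have h1 := hFn (b i * b j)
    have hx : (X x).ofConv (b i * b j) = x (b i) * x (b j) := map_mul x _ _
    rw [hx] at h1
    have h2 := hη.mul _ (hT x (b i)) _ (hT x (b j))
    have h3 : v (η (x (b i)) * η (x (b j)) - (f₀ x).ofConv (b i) * (f₀ x).ofConv (b j))
        ≤ v (p : Ω) * γ := by
      rw [val_sub_comm]
      exact val_mul_sub_mul_le v (hFn _) (hFn _) (hF1 _) (hη.int _ (hT x _))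
    exact val_sub_le_trans v (val_sub_le_trans v h1 h2) h3
  -- the `σ`-fixed subring
  have hS₀div : ∀ a : WithConv (H →ₗ[R] Ω),
      (p : WithConv (H →ₗ[R] Ω)) * a ∈ fixedSubring (H := H) σ hσR →
        a ∈ fixedSubring (H := H) σ hσR := by
    intro a ha h
    have h1 := ha h
    rw [natCast_mul_apply, map_mul, map_natCast] at h1
    exact mul_left_cancel₀ hp0 h1
  have hf₀S : ∀ x, f₀ x ∈ fixedSubring (H := H) σ hσR := by
    intro x h
    have e1 : (f₀ x).ofConv h = ∑ i, algebraMap R Ω (b.repr h i) * η (x (b i)) := by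
      conv_lhs => rw [← b.sum_repr h]
      rw [map_sum]
      refine Finset.sum_congr rfl fun i _ => ?_
      rw [map_smul, hf₀b, Algebra.smul_def]
    rw [e1, map_sum]
    refine Finset.sum_congr rfl fun i _ => ?_
    rw [map_mul, hσR, hση _ (hT x _)]
  -- the number of Newton steps
  set δ := max γ (γ ^ (p - 1) * (v (p : Ω))⁻¹) with hδ
  have hδ1 : δ < 1 := by
    refine max_lt hγ1 ?_
    calc γ ^ (p - 1) * (v (p : Ω))⁻¹ < v (p : Ω) * (v (p : Ω))⁻¹ :=
          mul_lt_mul_of_pos_right hγ (inv_pos.mpr hπ0)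
      _ = 1 := mul_inv_cancel₀ hπ0.ne'
  obtain ⟨K, hK⟩ := harch δ (γ ^ Fintype.card (Module.Free.ChooseBasisIndex R H)) hδ1
    (pow_ne_zero _ hγ0)
  have hγpos : 0 < γ := lt_of_le_of_ne zero_le (Ne.symm hγ0)
  have hμ : γ * δ ^ K < γ ^ Fintype.card (Module.Free.ChooseBasisIndex R H) := by
    calc γ * δ ^ K ≤ γ * γ ^ Fintype.card (Module.Free.ChooseBasisIndex R H) :=
          mul_le_mul' le_rfl hK
      _ < 1 * γ ^ Fintype.card (Module.Free.ChooseBasisIndex R H) :=
          mul_lt_mul_of_pos_right hγ1 (pow_pos hγpos _)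
      _ = _ := one_mul _
  have hδK : δ ^ K ≤ 1 := pow_le_one' hδ1.le K
  have hτ1 : v (p : Ω) * γ * δ ^ K < 1 := by
    calc v (p : Ω) * γ * δ ^ K ≤ γ * 1 := mul_le_mul' hεγ hδK
      _ = γ := mul_one _
      _ < 1 := hγ1
  -- for each point, an exact `σ`-fixed point nearby
  have hex : ∀ x : H →ₐ[R] Ω, ∃ x' : H →ₐ[R] Ω,
      ν.N (X x' - f₀ x) ≤ γ ∧ ∀ h, σ (x' h) = x' h := by
    intro x
    obtain ⟨g, hgS, hg1, hgf, hgp⟩ := UNorm.exists_newton hpd
      (fun a => exists_natCast_mul_eq (R := R) (M := H) hp0 a)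
      (fixedSubring (H := H) σ hσR) hS₀div hγ (hf₀S x) (hf₀1 x) (hf₀p x) K
    have hAB : ν₂.N (mA g - mB g) ≤ γ := by
      have e : mA g - mB g =
          (mA g - mA (f₀ x)) + (mA (f₀ x) - mB (f₀ x)) + (mB (f₀ x) - mB g) := by ring
      rw [e]
      refine ν₂.add_le_of_le (ν₂.add_le_of_le ?_ ?_) ?_
      · rw [← mA_sub]
        exact (convNorm_mA_le v b hR _).trans hgf
      · exact (hf₀mul x).trans hεγ
      · refine (convNorm_mB_sub_le v b hR (hf₀1 x) hg1).trans ?_
        rw [ν.sub_comm]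
        exact hgf
    have hdef := mul_defect_le v b hR hp hγ hg1 hAB hτ1 hgp
    have hdef' : ν₂.N (mA g - mB g) ≤ γ * δ ^ K := by
      rw [mul_assoc] at hdef
      exact le_of_mul_le_mul_left hdef hπ0
    have hmul : ∀ i j, v (g.ofConv (b i * b j) - g.ofConv (b i) * g.ofConv (b j))
        ≤ γ * δ ^ K := by
      intro i j
      have := (convNorm_le_iff v (b.tensorProduct b) hR).mp hdef' (i, j)
      rwa [Module.Basis.tensorProduct_apply, ofConv_sub, LinearMap.sub_apply, mA_apply_tmul,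
        mB_apply_tmul] at this
    have hone : v (g.ofConv 1 - 1) ≤ γ * δ ^ K := by
      have h11 : v (g.ofConv 1 - g.ofConv 1 * g.ofConv 1) ≤ γ * δ ^ K := by
        have := apply_le_convNorm v (b.tensorProduct b) hR (mA g - mB g) ((1 : H) ⊗ₜ[R] (1 : H))
        rw [ofConv_sub, LinearMap.sub_apply, mA_apply_tmul, mB_apply_tmul, mul_one] at this
        exact this.trans hdef'
      have hφ : v (g.ofConv 1 - 1) ≤ γ := by
        have a1 : v ((g - f₀ x).ofConv 1) ≤ γ := (apply_le_convNorm v b hR _ _).trans hgf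
        have a2 : v ((f₀ x).ofConv 1 - η (x 1)) ≤ γ := ((hf₀near x).2.2 1).trans hεγ
        have a3 : v (η (x 1) - 1) ≤ γ := by
          have := hη.map_algebraMap (1 : R)
          rw [map_one] at this
          rw [map_one]
          exact this.trans hεγ
        have e : g.ofConv 1 - 1 =
            (g - f₀ x).ofConv 1 + (((f₀ x).ofConv 1 - η (x 1)) + (η (x 1) - 1)) := by
          rw [ofConv_sub, LinearMap.sub_apply]
          ring
        rw [e]
        exact v.map_add_le a1 (v.map_add_le a2 a3)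
      have hφ1 : v (g.ofConv 1) = 1 := by
        have : v (g.ofConv 1 - 1) < v (1 : Ω) := by
          rw [v.map_one]
          exact lt_of_le_of_lt hφ hγ1
        have h := Valuation.map_eq_of_sub_lt v this
        rw [v.map_one] at h
        exact h
      have e : g.ofConv 1 - g.ofConv 1 * g.ofConv 1 = g.ofConv 1 * (-(g.ofConv 1 - 1)) := by
        ring
      rw [e, map_mul, hφ1, one_mul, Valuation.map_neg] at h11
      exact h11
    obtain ⟨x', hx'⟩ := Fermat.Agent.S56.H384.exists_point_near v hR b g.ofConv hγ1.le hμ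
      (fun i => (apply_le_convNorm v b hR g (b i)).trans hg1) hone hmul
    have hx'g : ν.N (X x' - g) ≤ γ := by
      rw [convNorm_le_iff]
      intro i
      have := hx' i
      rw [val_sub_comm] at this
      rwa [ofConv_sub, LinearMap.sub_apply]
    refine ⟨x', ?_, ?_⟩
    · have e : X x' - f₀ x = (X x' - g) + (g - f₀ x) := by ring
      rw [e]
      exact ν.add_le_of_le hx'g hgf
    · let σA : Ω →ₐ[R] Ω := { σ with commutes' := hσR }
      have hy : ν.N (X (σA.comp x') - X x') ≤ γ := by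
        rw [convNorm_le_iff]
        intro i
        have e : (X (σA.comp x') - X x').ofConv (b i) =
            σ (x' (b i) - g.ofConv (b i)) + (g.ofConv (b i) - x' (b i)) := by
          rw [map_sub, hgS (b i), ofConv_sub, LinearMap.sub_apply]
          show σ (x' (b i)) - x' (b i) = _
          ring
        rw [e]
        refine v.map_add_le ?_ (hx' i)
        rw [hσv, val_sub_comm]
        exact hx' i
      have key := UNorm.eq_of_pow_eq_one hpd hγ (hX1 x') hy (hXp _) (hXp x')
      intro h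
      have := congrArg (fun F : WithConv (H →ₗ[R] Ω) => F.ofConv h) key
      exact this
  choose Φ hΦ1 hΦ2 using hex
  have hΦinj : Function.Injective Φ := by
    intro x z hxz
    have h1 : ν.N (f₀ x - f₀ z) ≤ γ := by
      have e : f₀ x - f₀ z = (X (Φ z) - f₀ z) - (X (Φ x) - f₀ x) := by rw [hxz]; ring
      rw [e]
      exact ν.sub_le_of_le (hΦ1 z) (hΦ1 x)
    have h2 : ν.N (X x - X z) ≤ γ := by
      rw [convNorm_le_iff]
      intro i
      rw [ofConv_sub, LinearMap.sub_apply, hXapp, hXapp]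
      apply hiso _ (T.sub_mem (hT x _) (hT z _))
      have h3 := hη.sub (hT x (b i)) (hT z (b i))
      have h4 : v (η (x (b i)) - η (z (b i))) ≤ γ := by
        have := (convNorm_le_iff v b hR).mp h1 i
        rwa [ofConv_sub, LinearMap.sub_apply, hf₀b, hf₀b] at this
      have e : η (x (b i) - z (b i)) =
          (η (x (b i) - z (b i)) - (η (x (b i)) - η (z (b i)))) +
            (η (x (b i)) - η (z (b i))) := by ring
      rw [e]
      exact v.map_add_le (h3.trans hεγ) h4
    exact hXinj x z (UNorm.eq_of_pow_eq_one hpd hγ (hX1 z) h2 (hXp x) (hXp z))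
  have hΦsurj : Function.Surjective Φ := Finite.surjective_of_injective hΦinj
  intro x h
  obtain ⟨z, rfl⟩ := hΦsurj x
  exact hΦ2 z h

end Fermat.Agent.S56.H434

end
-- ===== PACK-END S56/H434/Rational.lean

-- ===== PACK-BEGIN S56/H966/Tw.lean
section
/-
S56 helper (helper966), piece TWP (2nd owner): the twisted adjoint action as a group action,
cocycle calculus, and TWP2 = local triviality does not depend on the valuation subring over `q`.
-/



set_option autoImplicit false
set_option linter.style.haveILetI false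

open scoped Pointwise

noncomputable section

namespace Fermat.Agent.S56.H966

open Fermat.Agent.S56

/-! ### Cyclotomic exponents -/

section cyc

variable (p : ℕ)

theorem isCycExp_one : IsCycExp p 1 1 := fun μ _ => by simp

theorem isCycExp_mul {g h : GQ} {a b : ℕ} (hg : IsCycExp p g a) (hh : IsCycExp p h b) :
    IsCycExp p (g * h) (a * b) := by
  intro μ hμ
  rw [AlgEquiv.mul_apply, hh μ hμ, map_pow, hg μ hμ, ← pow_mul]

/-- A primitive `p`-th root of unity in `ℚ̄`. -/
theorem exists_primitiveRoot_Qb (N : ℕ) (hN : N ≠ 0) : ∃ ζ : Qb, IsPrimitiveRoot ζ N := by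
  haveI : NeZero (N : ℚ) := ⟨by exact_mod_cast hN⟩
  exact HasEnoughRootsOfUnity.exists_primitiveRoot Qb N

theorem exists_isCycExp (hp : p ≠ 0) (g : GQ) : ∃ a, IsCycExp p g a := by
  haveI : NeZero p := ⟨hp⟩
  obtain ⟨ζ, hζ⟩ := exists_primitiveRoot_Qb p hp
  have hgζ : (g ζ) ^ p = 1 := by rw [← map_pow, hζ.pow_eq_one, map_one]
  obtain ⟨a, -, ha⟩ := hζ.eq_pow_of_pow_eq_one hgζ
  refine ⟨a, fun μ hμ => ?_⟩
  obtain ⟨i, -, rfl⟩ := hζ.eq_pow_of_pow_eq_one hμ
  rw [map_pow, ← ha, ← pow_mul, ← pow_mul, mul_comm]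

theorem isCycExp_cast_eq {k : Type} [Field k] [CharP k p] (hp : p ≠ 0) {g : GQ} {a b : ℕ}
    (ha : IsCycExp p g a) (hb : IsCycExp p g b) : (a : k) = (b : k) := by
  obtain ⟨ζ, hζ⟩ := exists_primitiveRoot_Qb p hp
  have h1 : ζ ^ a = ζ ^ b := by rw [← ha ζ hζ.pow_eq_one, hb ζ hζ.pow_eq_one]
  have hfin : IsOfFinOrder ζ := isOfFinOrder_iff_pow_eq_one.mpr ⟨p, Nat.pos_of_ne_zero hp, hζ.pow_eq_one⟩
  rw [hfin.pow_eq_pow_iff_modEq, ← hζ.eq_orderOf] at h1
  exact (CharP.natCast_eq_natCast k p).mpr h1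

end cyc

/-! ### The twisted adjoint action as an action of `G_ℚ` -/

section action

variable {k : Type} [Field k] (ρbar : ResidualGaloisRep k) (p : ℕ)

/-- The value in `k` of the mod `p` cyclotomic character. -/
def chi (k : Type) [Field k] (p : ℕ) (g : GQ) : k :=
  open Classical in
  if h : ∃ a, IsCycExp p g a then ((Classical.choose h : ℕ) : k) else 0

theorem chi_eq [CharP k p] (hp : p ≠ 0) {g : GQ} {a : ℕ} (ha : IsCycExp p g a) :
    chi k p g = (a : k) := by
  have h : ∃ a, IsCycExp p g a := ⟨a, ha⟩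
  unfold chi
  rw [dif_pos h]
  exact isCycExp_cast_eq p hp (Classical.choose_spec h) ha

theorem chi_one [CharP k p] (hp : p ≠ 0) : chi k p 1 = 1 := by
  rw [chi_eq p hp (isCycExp_one p), Nat.cast_one]

theorem chi_mul [CharP k p] (hp : p ≠ 0) (g h : GQ) :
    chi k p (g * h) = chi k p g * chi k p h := by
  obtain ⟨a, ha⟩ := exists_isCycExp p hp g
  obtain ⟨b, hb⟩ := exists_isCycExp p hp h
  rw [chi_eq p hp (isCycExp_mul p ha hb), chi_eq p hp ha, chi_eq p hp hb, Nat.cast_mul]

/-- The twisted adjoint action `m ↦ χ(g) ρ̄(g) m ρ̄(g)⁻¹`. -/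
def T (g : GQ) (m : Module.End k ρbar.V) : Module.End k ρbar.V :=
  chi k p g • (ρbar.ρ g * m * ρbar.ρ g⁻¹)

theorem twAd_eq_T [CharP k p] (hp : p ≠ 0) {g : GQ} {a : ℕ} (ha : IsCycExp p g a)
    (m : Module.End k ρbar.V) : twAd ρbar g a m = T ρbar p g m := by
  unfold twAd T
  rw [chi_eq p hp ha]

theorem rho_mul_inv (g : GQ) : ρbar.ρ g * ρbar.ρ g⁻¹ = 1 := by
  rw [← map_mul, mul_inv_cancel, map_one]

theorem rho_inv_mul (g : GQ) : ρbar.ρ g⁻¹ * ρbar.ρ g = 1 := by
  rw [← map_mul, inv_mul_cancel, map_one]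

theorem T_one [CharP k p] (hp : p ≠ 0) (m : Module.End k ρbar.V) : T ρbar p 1 m = m := by
  unfold T
  rw [chi_one p hp, one_smul, inv_one, map_one, one_mul, mul_one]

theorem T_mul [CharP k p] (hp : p ≠ 0) (g h : GQ) (m : Module.End k ρbar.V) :
    T ρbar p (g * h) m = T ρbar p g (T ρbar p h m) := by
  unfold T
  rw [chi_mul p hp, mul_inv_rev, map_mul, map_mul, mul_smul_comm, smul_mul_assoc, smul_smul]
  simp only [mul_assoc]

theorem T_add (g : GQ) (m m' : Module.End k ρbar.V) :
    T ρbar p g (m + m') = T ρbar p g m + T ρbar p g m' := by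
  unfold T
  rw [mul_add, add_mul, smul_add]

theorem T_neg (g : GQ) (m : Module.End k ρbar.V) :
    T ρbar p g (-m) = -T ρbar p g m := by
  unfold T
  rw [mul_neg, neg_mul, smul_neg]

theorem T_sub (g : GQ) (m m' : Module.End k ρbar.V) :
    T ρbar p g (m - m') = T ρbar p g m - T ρbar p g m' := by
  rw [sub_eq_add_neg, T_add, T_neg, ← sub_eq_add_neg]

theorem T_smul (g : GQ) (a : k) (m : Module.End k ρbar.V) :
    T ρbar p g (a • m) = a • T ρbar p g m := by
  unfold T
  rw [mul_smul_comm, smul_mul_assoc, smul_comm]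

theorem trace_T (g : GQ) (m : Module.End k ρbar.V) :
    LinearMap.trace k ρbar.V (T ρbar p g m) = chi k p g * LinearMap.trace k ρbar.V m := by
  unfold T
  rw [map_smul, smul_eq_mul, LinearMap.trace_mul_comm, ← mul_assoc, rho_inv_mul, one_mul]

theorem T_inv_T [CharP k p] (hp : p ≠ 0) (g : GQ) (m : Module.End k ρbar.V) :
    T ρbar p g⁻¹ (T ρbar p g m) = m := by
  rw [← T_mul ρbar p hp, inv_mul_cancel, T_one ρbar p hp]

/-! ### Cocycle calculus -/

variable {ρbar p}

theorem coc_mul [CharP k p] (hp : p ≠ 0) {c : GQ → Module.End k ρbar.V}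
    (hc : IsTwCocycle ρbar p c) (g h : GQ) : c (g * h) = c g + T ρbar p g (c h) := by
  obtain ⟨a, ha⟩ := exists_isCycExp p hp g
  rw [hc.map_mul g h a ha, twAd_eq_T ρbar p hp ha]

theorem coc_one [CharP k p] (hp : p ≠ 0) {c : GQ → Module.End k ρbar.V}
    (hc : IsTwCocycle ρbar p c) : c 1 = 0 := by
  have h := coc_mul hp hc 1 1
  rw [mul_one, T_one ρbar p hp] at h
  exact left_eq_add.mp h

theorem coc_inv [CharP k p] (hp : p ≠ 0) {c : GQ → Module.End k ρbar.V}
    (hc : IsTwCocycle ρbar p c) (g : GQ) : c g⁻¹ = -T ρbar p g⁻¹ (c g) := by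
  have h := coc_mul hp hc g⁻¹ g
  rw [inv_mul_cancel, coc_one hp hc] at h
  exact eq_neg_of_add_eq_zero_left h.symm

theorem isTwCoboundaryOn_iff [CharP k p] (hp : p ≠ 0) (H : Subgroup GQ)
    (c : GQ → Module.End k ρbar.V) (m : Module.End k ρbar.V) :
    IsTwCoboundaryOn ρbar p H c m ↔
      LinearMap.trace k ρbar.V m = 0 ∧ ∀ σ ∈ H, c σ = T ρbar p σ m - m := by
  constructor
  · rintro ⟨h0, h⟩
    refine ⟨h0, fun σ hσ => ?_⟩
    obtain ⟨a, ha⟩ := exists_isCycExp p hp σ
    rw [h σ hσ a ha, twAd_eq_T ρbar p hp ha]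
  · rintro ⟨h0, h⟩
    refine ⟨h0, fun σ hσ a ha => ?_⟩
    rw [h σ hσ, twAd_eq_T ρbar p hp ha]

/-- **TWP2, conjugation step.**  If `c` is a coboundary on the decomposition group of `g • A`
then it is a coboundary on the decomposition group of `A`. -/
theorem coboundaryOn_of_smul [CharP k p] (hp : p ≠ 0) {c : GQ → Module.End k ρbar.V}
    (hc : IsTwCocycle ρbar p c) (g : GQ) (A : ValuationSubring Qb) {m : Module.End k ρbar.V}
    (h : IsTwCoboundaryOn ρbar p ((g • A).decompositionSubgroup ℚ) c m) :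
    ∃ m', IsTwCoboundaryOn ρbar p (A.decompositionSubgroup ℚ) c m' := by
  rw [isTwCoboundaryOn_iff hp] at h
  obtain ⟨h0, h⟩ := h
  refine ⟨T ρbar p g⁻¹ (m + c g), ?_⟩
  rw [isTwCoboundaryOn_iff hp]
  refine ⟨?_, fun σ hσ => ?_⟩
  · rw [trace_T, map_add, h0, hc.trace_eq_zero, add_zero, mul_zero]
  · have hconj := h (g * σ * g⁻¹) (Fermat.Agent.Lib.Cheb.H476.conj_mem_decomposition g hσ)
    -- expand `c (g σ g⁻¹)` by the cocycle rule
    have h1 : c (g * σ * g⁻¹) = c g + T ρbar p g (c σ) - T ρbar p (g * σ * g⁻¹) (c g) := by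
      rw [coc_mul hp hc (g * σ) g⁻¹, coc_mul hp hc g σ, coc_inv hp hc g, T_neg,
        ← T_mul ρbar p hp (g * σ) g⁻¹, sub_eq_add_neg]
    rw [h1] at hconj
    -- solve for `T g (c σ)`
    have h2 : T ρbar p g (c σ) = T ρbar p (g * σ * g⁻¹) (m + c g) - (m + c g) := by
      have h2' : T ρbar p g (c σ) =
          (T ρbar p (g * σ * g⁻¹) m - m) - c g + T ρbar p (g * σ * g⁻¹) (c g) := by
        rw [← hconj]
        abel
      rw [h2', T_add]
      abel
    -- apply `T g⁻¹`
    have h3 := congrArg (T ρbar p g⁻¹) h2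
    have e : g⁻¹ * (g * σ * g⁻¹) = σ * g⁻¹ := by group
    rw [T_inv_T ρbar p hp, T_sub, ← T_mul ρbar p hp, e, T_mul ρbar p hp] at h3
    exact h3

end action

end Fermat.Agent.S56.H966

end
end
-- ===== PACK-END S56/H966/Tw.lean

-- ===== PACK-BEGIN S56/H734/KummerP.lean
section





/-!
# S56 / H734 : the Kummer count at `p` — `dim H¹(D_P, k(1)) ≤ 2`

Sub-leaf KUMMER-P of LOC-SO (and input of FLAT-O).  `p` an odd prime, `P` a valuation subring of
`ℚ̄` over `p`, `D_P` its decomposition group, `k` a field of characteristic `p`.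

* `kummer_zmod`  : there are `κ₁ κ₂ : G_ℚ → 𝔽_p` (Kummer cocycles of `p` and `1 + p`) such that
  every `c : G_ℚ → 𝔽_p` with `c (σ τ) = c σ + a · c τ` on `D_P` (`a` a cyclotomic exponent of `σ`)
  of finite level is `c σ = x κ₁ σ + y κ₂ σ + (a − 1) m` on `D_P`.
* `kummerP`      : the same with coefficients in `k`; `κ₁, κ₂` are themselves twisted cocycles
  of finite level on all of `G_ℚ`.
* `kummerP_submodule` : a `k`-space `T` of functions with `dim T ≤ 2` such that every such cocycle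
  is congruent on `D_P` to an element of `T` modulo a coboundary.
-/

set_option autoImplicit false
set_option linter.style.haveILetI false

namespace Fermat.Agent.S56.H734

open Fermat.Agent.S56 Fermat.Agent.S55.Bridge
open scoped Pointwise

variable (p : ℕ) [hp : Fact p.Prime]

/-- The twisted cocycle condition on a subgroup `D`, with values in a ring `R`. -/
def IsCycCocycleOn (R : Type*) [Ring R] (D : Subgroup _root_.Fermat.Agent.S56.GQ) (c : _root_.Fermat.Agent.S56.GQ → R) : Prop :=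
  ∀ σ ∈ D, ∀ τ ∈ D, ∀ a : ℕ, IsCycExp p σ a → c (σ * τ) = c σ + (a : R) * c τ

/-- Finite level on a subgroup `D`. -/
def HasLevelOn {X : Type*} (D : Subgroup _root_.Fermat.Agent.S56.GQ) (c : _root_.Fermat.Agent.S56.GQ → X) : Prop :=
  ∃ L : IntermediateField ℚ Qb, FiniteDimensional ℚ L ∧
    ∀ σ ∈ D, ∀ τ ∈ D, (∀ x ∈ L, τ x = x) → c (σ * τ) = c σ

theorem padicPlace_liesOver : (padicPlace p).LiesOverPrime p := by
  show ((p : ℕ) : Qb) ∈ (padicPlace p).nonunits
  rw [ValuationSubring.mem_nonunits_iff_exists_mem_maximalIdeal]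
  have hnorm : ‖padicEmbedding p ((p : ℕ) : Qb)‖ = (p : ℝ)⁻¹ :=
    norm_padicEmbedding_natCast_self p
  have hp1 : (1 : ℝ) < p := by exact_mod_cast hp.out.one_lt
  have hmem : ((p : ℕ) : Qb) ∈ padicPlace p := by
    rw [mem_padicPlace_iff_norm, hnorm]
    exact inv_le_one_of_one_le₀ hp1.le
  refine ⟨hmem, ?_⟩
  rw [IsLocalRing.mem_maximalIdeal, mem_nonunits_iff]
  rintro ⟨u, hu⟩
  have h1 : ((u⁻¹ : (padicPlace p)ˣ) : padicPlace p) * u = 1 := by simp
  have h2 : (((u⁻¹ : (padicPlace p)ˣ) : padicPlace p) : Qb) * ((p : ℕ) : Qb) = 1 := by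
    have := congrArg (Subtype.val) h1
    rw [hu] at this
    simpa using this
  have h3 := ((u⁻¹ : (padicPlace p)ˣ) : padicPlace p).2
  rw [mem_padicPlace_iff_norm] at h3
  have h4 := congrArg (fun z => ‖padicEmbedding p z‖) h2
  simp only [map_mul, norm_mul, map_one, norm_one] at h4
  rw [hnorm] at h4
  have hinv : (p : ℝ)⁻¹ < 1 := inv_lt_one_of_one_lt₀ hp1
  have hpos : (0 : ℝ) < (p : ℝ)⁻¹ := inv_pos.mpr (by linarith)
  nlinarith [norm_nonneg (padicEmbedding p
    ((((u⁻¹ : (padicPlace p)ˣ) : padicPlace p) : Qb)))]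

/-- **Kummer count, `𝔽_p`-coefficients.** -/
theorem kummer_zmod (hp2 : p ≠ 2) (P : ValuationSubring Qb) (hP : P.LiesOverPrime p) :
    ∃ κ₁ κ₂ : _root_.Fermat.Agent.S56.GQ → ZMod p,
      (IsCycCocycleOn p (ZMod p) ⊤ κ₁ ∧ HasLevelOn ⊤ κ₁) ∧
      (IsCycCocycleOn p (ZMod p) ⊤ κ₂ ∧ HasLevelOn ⊤ κ₂) ∧
      ∀ c : _root_.Fermat.Agent.S56.GQ → ZMod p,
      IsCycCocycleOn p (ZMod p) (P.decompositionSubgroup ℚ) c →
      HasLevelOn (P.decompositionSubgroup ℚ) c →
      ∃ x y m : ZMod p, ∀ σ ∈ P.decompositionSubgroup ℚ, ∀ a, IsCycExp p σ a →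
        c σ = x * κ₁ σ + y * κ₂ σ + ((a : ZMod p) - 1) * m := by
  haveI : NeZero p := ⟨hp.out.ne_zero⟩
  obtain ⟨g, hg⟩ := Fermat.Agent.Lib.Cheb.H476.exists_smul_eq hp.out (padicPlace_liesOver p) hP
  -- roots
  obtain ⟨ζ, hζ⟩ := HasEnoughRootsOfUnity.exists_primitiveRoot Qb p
  obtain ⟨π, hπ⟩ := IsAlgClosed.exists_pow_nat_eq ((p : ℕ) : Qb) hp.out.pos
  obtain ⟨β, hβ⟩ := IsAlgClosed.exists_pow_nat_eq (1 + ((p : ℕ) : Qb)) hp.out.pos
  have hp0 : ((p : ℕ) : Qb) ≠ 0 := by exact_mod_cast hp.out.ne_zero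
  have hπ0 : π ≠ 0 := by
    intro h
    rw [h, zero_pow hp.out.ne_zero] at hπ
    exact hp0 hπ.symm
  have h1p : (1 : Qb) + ((p : ℕ) : Qb) ≠ 0 := by
    have : ((1 + p : ℕ) : Qb) ≠ 0 := by exact_mod_cast (Nat.succ_ne_zero p ∘ (by omega))
    simpa using this
  have hβ0 : β ≠ 0 := by
    intro h
    rw [h, zero_pow hp.out.ne_zero] at hβ
    exact h1p hβ.symm
  have hπr : π ^ p = algebraMap ℚ Qb (p : ℚ) := by rw [hπ]; simp
  have hβr : β ^ p = algebraMap ℚ Qb (1 + (p : ℚ)) := by rw [hβ]; simp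
  choose κ₁ hκ₁ using exists_kummer_exp hζ π hπ0 (p : ℚ) hπr
  choose κ₂ hκ₂ using exists_kummer_exp hζ β hβ0 (1 + (p : ℚ)) hβr
  refine ⟨κ₁, κ₂, ⟨fun σ _ τ _ a ha => kummer_exp_cocycle hζ π hπ0 κ₁ hκ₁ σ τ a ha, ?_⟩,
    ⟨fun σ _ τ _ a ha => kummer_exp_cocycle hζ β hβ0 κ₂ hκ₂ σ τ a ha, ?_⟩, fun c hcoc hlev => ?_⟩
  · obtain ⟨L, hL, h⟩ := kummer_exp_level hζ π hπ0 κ₁ hκ₁
    exact ⟨L, hL, fun σ _ τ _ hτ => h σ τ hτ⟩
  · obtain ⟨L, hL, h⟩ := kummer_exp_level hζ β hβ0 κ₂ hκ₂
    exact ⟨L, hL, fun σ _ τ _ hτ => h σ τ hτ⟩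
  -- the local datum attached to `g`
  let ι' : Qb →+* PadicAlgCl p :=
    ((padicEmbedding p : Qb →ₐ[ℚ] PadicAlgCl p) : Qb →+* PadicAlgCl p).comp
      (((g⁻¹ : _root_.Fermat.Agent.S56.GQ) : Qb →ₐ[ℚ] Qb) : Qb →+* Qb)
  let loc' : (PadicAlgCl p ≃ₐ[ℚ_[p]] PadicAlgCl p) →* _root_.Fermat.Agent.S56.GQ :=
    (MulAut.conj g).toMonoidHom.comp (localGaloisToGlobal p)
  have hloc' : ∀ τ x, loc' τ x = g (localGaloisToGlobal p τ (g⁻¹ x)) := fun τ x => rfl
  have hι' : ∀ x, ι' x = padicEmbedding p (g⁻¹ x) := fun x => rfl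
  have compat : ∀ τ x, ι' (loc' τ x) = τ (ι' x) := by
    intro τ x
    rw [hι', hloc', Fermat.Agent.Lib.Cheb.H476.inv_apply_apply,
      padicEmbedding_localGaloisToGlobal, hι']
  have hrange : loc'.range = P.decompositionSubgroup ℚ := by
    rw [MonoidHom.range_comp, range_localGaloisToGlobal, ← hg]
    exact (MulAction.stabilizer_smul_eq_stabilizer_map_conj g (padicPlace p)).symm
  have hlevel : ∀ L : IntermediateField ℚ Qb, FiniteDimensional ℚ L →
      ∃ E : IntermediateField ℚ_[p] (PadicAlgCl p), FiniteDimensional ℚ_[p] E ∧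
        ∀ τ : PadicAlgCl p ≃ₐ[ℚ_[p]] PadicAlgCl p, (∀ y ∈ E, τ y = y) →
          ∀ x ∈ L, loc' τ x = x := by
    intro L hL
    haveI := hL
    obtain ⟨E, hE, hEL⟩ := exists_local_level_of_global p
      (L.map ((g⁻¹ : _root_.Fermat.Agent.S56.GQ) : Qb →ₐ[ℚ] Qb))
    refine ⟨E, hE, fun τ hτ x hx => ?_⟩
    have h1 := hEL τ ((IntermediateField.mem_fixingSubgroup_iff _ _).2 hτ)
    rw [IntermediateField.mem_fixingSubgroup_iff] at h1
    have h2 := h1 (g⁻¹ x) ((IntermediateField.mem_map _).2 ⟨x, hx, rfl⟩)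
    rw [hloc', h2, Fermat.Agent.Lib.Cheb.H476.apply_inv_apply]
  exact kummer_core p hp2 (P.decompositionSubgroup ℚ) ι' loc' compat hrange hlevel ζ π β hζ
    (by rw [hπ]) (by rw [hβ]) κ₁ κ₂ hκ₁ hκ₂ c hcoc hlev

/-- A function of finite level on `D` takes finitely many values on `D`. -/
theorem finite_values_of_hasLevelOn {X : Type*} (D : Subgroup _root_.Fermat.Agent.S56.GQ) (c : _root_.Fermat.Agent.S56.GQ → X)
    (hlev : HasLevelOn D c) : {v : X | ∃ σ ∈ D, c σ = v}.Finite := by
  classical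
  obtain ⟨L, hL, hc⟩ := hlev
  haveI := hL
  rcases isEmpty_or_nonempty X with hX | hX
  · exact Set.toFinite _
  obtain ⟨x₀⟩ := hX
  let r : _root_.Fermat.Agent.S56.GQ → (L →ₐ[ℚ] Qb) := fun σ => (σ : Qb →ₐ[ℚ] Qb).comp L.val
  have hr : ∀ σ ∈ D, ∀ σ' ∈ D, r σ = r σ' → c σ = c σ' := by
    intro σ hσ σ' hσ' h
    have h0 : σ' = σ * (σ⁻¹ * σ') := by group
    rw [h0]
    symm
    apply hc σ hσ (σ⁻¹ * σ') (D.mul_mem (D.inv_mem hσ) hσ')
    intro x hx
    have h1 : σ x = σ' x := DFunLike.congr_fun h ⟨x, hx⟩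
    show σ⁻¹ (σ' x) = x
    rw [← h1]
    exact Fermat.Agent.Lib.Cheb.H476.inv_apply_apply σ x
  let c' : (L →ₐ[ℚ] Qb) → X := fun φ =>
    if h : ∃ σ ∈ D, r σ = φ then c h.choose else x₀
  refine (Set.finite_range c').subset ?_
  rintro v ⟨σ, hσ, rfl⟩
  refine ⟨r σ, ?_⟩
  have h : ∃ σ' ∈ D, r σ' = r σ := ⟨σ, hσ, rfl⟩
  show (if h : ∃ σ' ∈ D, r σ' = r σ then c h.choose else x₀) = c σ
  rw [dif_pos h]
  exact hr _ h.choose_spec.1 _ hσ h.choose_spec.2

/-- **Kummer count at `p`** (sub-leaf KUMMER-P): coefficients in a field `k` of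
characteristic `p`. -/
theorem kummerP (hp2 : p ≠ 2) (k : Type*) [Field k] [CharP k p]
    (P : ValuationSubring Qb) (hP : P.LiesOverPrime p) :
    ∃ κ₁ κ₂ : _root_.Fermat.Agent.S56.GQ → k,
      (IsCycCocycleOn p k ⊤ κ₁ ∧ HasLevelOn ⊤ κ₁) ∧
      (IsCycCocycleOn p k ⊤ κ₂ ∧ HasLevelOn ⊤ κ₂) ∧
      ∀ c : _root_.Fermat.Agent.S56.GQ → k,
      IsCycCocycleOn p k (P.decompositionSubgroup ℚ) c →
      HasLevelOn (P.decompositionSubgroup ℚ) c →
      ∃ x y m : k, ∀ σ ∈ P.decompositionSubgroup ℚ, ∀ a, IsCycExp p σ a →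
        c σ = x * κ₁ σ + y * κ₂ σ + ((a : k) - 1) * m := by
  classical
  letI : Algebra (ZMod p) k := ZMod.algebra k p
  obtain ⟨κ₁, κ₂, hκ₁, hκ₂, hκ⟩ := kummer_zmod p hp2 P hP
  have htr : ∀ κ : _root_.Fermat.Agent.S56.GQ → ZMod p, (IsCycCocycleOn p (ZMod p) ⊤ κ ∧ HasLevelOn ⊤ κ) →
      (IsCycCocycleOn p k ⊤ (fun σ => algebraMap (ZMod p) k (κ σ)) ∧
        HasLevelOn ⊤ (fun σ => algebraMap (ZMod p) k (κ σ))) := by
    rintro κ ⟨h1, L, hL, h2⟩
    refine ⟨fun σ hσ τ hτ a ha => ?_, L, hL, fun σ hσ τ hτ h => ?_⟩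
    · show algebraMap (ZMod p) k (κ (σ * τ)) = _
      rw [h1 σ hσ τ hτ a ha, map_add, map_mul, map_natCast]
    · show algebraMap (ZMod p) k (κ (σ * τ)) = algebraMap (ZMod p) k (κ σ)
      rw [h2 σ hσ τ hτ h]
  refine ⟨fun σ => algebraMap (ZMod p) k (κ₁ σ), fun σ => algebraMap (ZMod p) k (κ₂ σ),
    htr κ₁ hκ₁, htr κ₂ hκ₂, fun c hcoc hlev => ?_⟩
  set D := P.decompositionSubgroup ℚ with hD
  -- the finite-dimensional `𝔽_p`-space spanned by the values
  have hfin := finite_values_of_hasLevelOn D c hlev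
  set W : Submodule (ZMod p) k := Submodule.span (ZMod p) {v : k | ∃ σ ∈ D, c σ = v} with hW
  haveI : FiniteDimensional (ZMod p) W := FiniteDimensional.span_of_finite (ZMod p) hfin
  have hcW : ∀ σ ∈ D, c σ ∈ W := fun σ hσ => Submodule.subset_span ⟨σ, hσ, rfl⟩
  let b := Module.finBasis (ZMod p) W
  -- extended coordinate functionals
  have hext : ∀ i, ∃ l : k →ₗ[ZMod p] ZMod p, l ∘ₗ W.subtype = b.coord i :=
    fun i => LinearMap.exists_extend (b.coord i)
  choose l hl using hext
  have hl' : ∀ i (w : W), l i (w : k) = b.repr w i := by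
    intro i w
    have := congrArg (fun f => f w) (hl i)
    simpa using this
  -- the component cocycles
  have hcomp : ∀ i, ∃ x y m : ZMod p, ∀ σ ∈ D, ∀ a, IsCycExp p σ a →
      l i (c σ) = x * κ₁ σ + y * κ₂ σ + ((a : ZMod p) - 1) * m := by
    intro i
    apply hκ (fun σ => l i (c σ))
    · intro σ hσ τ hτ a ha
      show l i (c (σ * τ)) = l i (c σ) + (a : ZMod p) * l i (c τ)
      rw [hcoc σ hσ τ hτ a ha, map_add]
      congr 1
      have : (a : k) * c τ = (a : ZMod p) • c τ := by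
        rw [Algebra.smul_def, map_natCast]
      rw [this, map_smul, smul_eq_mul]
    · obtain ⟨L, hL, hc⟩ := hlev
      exact ⟨L, hL, fun σ hσ τ hτ h => by
        show l i (c (σ * τ)) = l i (c σ)
        rw [hc σ hσ τ hτ h]⟩
  choose x y m hxym using hcomp
  refine ⟨∑ i, x i • (b i : k), ∑ i, y i • (b i : k), ∑ i, m i • (b i : k), ?_⟩
  intro σ hσ a ha
  have h1 : c σ = ∑ i, (l i (c σ)) • (b i : k) := by
    have h2 := b.sum_repr ⟨c σ, hcW σ hσ⟩
    have h3 : (∑ i, (b.repr ⟨c σ, hcW σ hσ⟩ i) • (b i : k)) = c σ := by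
      have h4 := congrArg (fun w : W => (w : k)) h2
      simp only [Submodule.coe_sum, Submodule.coe_smul] at h4
      exact h4
    conv_lhs => rw [← h3]
    refine Finset.sum_congr rfl fun i _ => ?_
    exact congrArg (· • (b i : k)) (hl' i ⟨c σ, hcW σ hσ⟩).symm
  rw [h1]
  simp only [hxym _ σ hσ a ha, Finset.sum_mul, Finset.mul_sum, ← Finset.sum_add_distrib]
  refine Finset.sum_congr rfl fun i _ => ?_
  simp only [Algebra.smul_def, map_add, map_mul, map_sub, map_one, map_natCast]
  ring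

/-- The twisted coboundary condition on `D`: `c σ = t σ + (a − 1) m`. -/
def IsCohomologousOn (R : Type*) [Ring R] (D : Subgroup _root_.Fermat.Agent.S56.GQ) (c t : _root_.Fermat.Agent.S56.GQ → R) : Prop :=
  ∃ m : R, ∀ σ ∈ D, ∀ a : ℕ, IsCycExp p σ a → c σ = t σ + ((a : R) - 1) * m

/-- **Kummer count at `p`, submodule form**: `dim_k H¹(D_P, k(1)) ≤ 2`. -/
theorem kummerP_submodule (hp2 : p ≠ 2) (k : Type*) [Field k] [CharP k p]
    (P : ValuationSubring Qb) (hP : P.LiesOverPrime p) :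
    ∃ T : Submodule k (_root_.Fermat.Agent.S56.GQ → k), Module.Finite k T ∧ Module.finrank k T ≤ 2 ∧
      ∀ c : _root_.Fermat.Agent.S56.GQ → k, IsCycCocycleOn p k (P.decompositionSubgroup ℚ) c →
        HasLevelOn (P.decompositionSubgroup ℚ) c →
        ∃ t ∈ T, IsCohomologousOn p k (P.decompositionSubgroup ℚ) c t := by
  classical
  obtain ⟨κ₁, κ₂, -, -, hκ⟩ := kummerP p hp2 k P hP
  refine ⟨Submodule.span k ((({κ₁, κ₂} : Finset (_root_.Fermat.Agent.S56.GQ → k)) : Set (_root_.Fermat.Agent.S56.GQ → k))), ?_, ?_, ?_⟩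
  · exact FiniteDimensional.span_finset k _
  · refine (finrank_span_finset_le_card (R := k) ({κ₁, κ₂} : Finset (_root_.Fermat.Agent.S56.GQ → k))).trans ?_
    exact Finset.card_le_two
  · intro c hcoc hlev
    obtain ⟨x, y, m, h⟩ := hκ c hcoc hlev
    refine ⟨x • κ₁ + y • κ₂, ?_, m, fun σ hσ a ha => ?_⟩
    · apply Submodule.add_mem
      · exact Submodule.smul_mem _ _ (Submodule.subset_span (by simp))
      · exact Submodule.smul_mem _ _ (Submodule.subset_span (by simp))
    · rw [h σ hσ a ha]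
      simp

end Fermat.Agent.S56.H734

end
-- ===== PACK-END S56/H734/KummerP.lean

-- ===== PACK-BEGIN S56/H606/Gen.lean
section





/-!
# S56 / LOC-TAME (helper606), part (c) GEN: decomposition groups are generated by Frobenius
and inertia, modulo any finite level

`A` a valuation subring of `ℚ̄` over a prime `q`, `φ` a Frobenius element at `A`
(`A.IsFrobeniusAt φ q`), `F/ℚ` a finite subextension of `ℚ̄`.  Then every `σ` in the
decomposition group `D_A` agrees on `F` with `φ ^ n * ι` for some `n : ℕ` and some `ι` in the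
inertia group `I_A` (Prelude `inertiaSubgroupIn`).

Main results (namespace `Fermat.Agent.S56.H606`):
* `frobenius_pow_sub_pow_mem_nonunits` : `φ ^ n` is `x ↦ x ^ (q ^ n)` modulo the maximal ideal;
* `exists_pow_congr_of_mem_decomposition` : every `σ ∈ D_A` is `x ↦ x ^ (q ^ n)` modulo the
  maximal ideal on the integers of a finite normal `F` (residue fields at finite level are
  finite);
* `exists_inertia_congr` : an element of `D_A` acting trivially modulo the maximal ideal on the
  integers of `F` agrees on `F` with an element of `I_A`;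
* `exists_frobenius_pow_mul_inertia` : the statement above;
* `map_mem_decomposition_eq` : for a homomorphism `f` on `G_ℚ` of finite level,
  `f σ = f φ ^ n * f ι`.
-/

set_option autoImplicit false
set_option linter.style.haveILetI false

open scoped Pointwise NumberField
open IntermediateField

namespace Fermat.Agent.S56.H606

open Fermat.Agent.S54 Fermat.Agent.S55.Bridge Fermat.Agent.S55.Bridge.H959

attribute [local instance] isAlgebraic_Qbar isGalois_Qbar

variable (A : ValuationSubring _root_.Fermat.Agent.S55.Bridge.H959.Qb)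

/-! ## 1. Frobenius powers -/

/-- Congruence modulo the maximal ideal in terms of residues. -/
theorem sub_mem_nonunits_iff_residue_eq {a b : _root_.Fermat.Agent.S55.Bridge.H959.Qb} (ha : a ∈ A) (hb : b ∈ A) :
    a - b ∈ A.nonunits ↔ IsLocalRing.residue A ⟨a, ha⟩ = IsLocalRing.residue A ⟨b, hb⟩ := by
  rw [← sub_eq_zero, ← map_sub, IsLocalRing.residue_eq_zero_iff,
    ValuationSubring.valuation_lt_one_iff, ValuationSubring.mem_nonunits_iff]
  rfl

/-- Elements of the decomposition group preserve `A`. -/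
theorem apply_mem_of_mem_decomposition {σ : _root_.Fermat.Agent.S55.Bridge.H959.GQ} (hσ : σ ∈ A.decompositionSubgroup ℚ) {x : _root_.Fermat.Agent.S55.Bridge.H959.Qb}
    (hx : x ∈ A) : σ x ∈ A :=
  ((mem_decomposition_iff A σ).mp hσ x).mpr hx

/-- The `n`-th power of a Frobenius element acts as `x ↦ x ^ (q ^ n)` on the residue field. -/
theorem frobenius_pow_smul_residue {q : ℕ} {φ : _root_.Fermat.Agent.S55.Bridge.H959.GQ} (hφ : A.IsFrobeniusAt φ q) (n : ℕ)
    (x : IsLocalRing.ResidueField A) :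
    ((⟨φ, hφ.mem_decompositionSubgroup⟩ : A.decompositionSubgroup ℚ) ^ n) • x = x ^ (q ^ n) := by
  induction n generalizing x with
  | zero => simp
  | succ n ih =>
    rw [pow_succ, mul_smul, hφ.smul_residue_eq, ih, ← pow_mul, pow_succ, mul_comm]

/-- The `n`-th power of a Frobenius element is `x ↦ x ^ (q ^ n)` modulo the maximal ideal. -/
theorem frobenius_pow_sub_pow_mem_nonunits {q : ℕ} {φ : _root_.Fermat.Agent.S55.Bridge.H959.GQ} (hφ : A.IsFrobeniusAt φ q) (n : ℕ)
    {x : _root_.Fermat.Agent.S55.Bridge.H959.Qb} (hx : x ∈ A) : (φ ^ n) x - x ^ (q ^ n) ∈ A.nonunits := by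
  have hD : φ ^ n ∈ A.decompositionSubgroup ℚ := pow_mem hφ.mem_decompositionSubgroup n
  rw [sub_mem_nonunits_iff_residue_eq A (apply_mem_of_mem_decomposition A hD hx)
    (pow_mem hx _)]
  have key := frobenius_pow_smul_residue A hφ n (IsLocalRing.residue A ⟨x, hx⟩)
  rw [← IsLocalRing.ResidueField.residue_smul] at key
  rw [← map_pow] at key
  exact key

/-! ## 2. Finite level: every element of `D_A` is a Frobenius power modulo the maximal ideal -/

section finiteLevel

variable (F : IntermediateField ℚ _root_.Fermat.Agent.S55.Bridge.H959.Qb) [FiniteDimensional ℚ F]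

/-- The inclusion of the ring of integers of `F` into `ℚ̄`. -/
noncomputable def intIncl : 𝓞 F →+* _root_.Fermat.Agent.S55.Bridge.H959.Qb :=
  (algebraMap F _root_.Fermat.Agent.S55.Bridge.H959.Qb).comp (algebraMap (𝓞 F) F)

omit [FiniteDimensional ℚ F] in
theorem intIncl_apply (x : 𝓞 F) : intIncl F x = ((x : F) : _root_.Fermat.Agent.S55.Bridge.H959.Qb) := rfl

omit [FiniteDimensional ℚ F] in
theorem isIntegral_intIncl (x : 𝓞 F) : IsIntegral ℤ (intIncl F x) :=
  (NumberField.RingOfIntegers.isIntegral_coe x).map (IsScalarTower.toAlgHom ℤ F _root_.Fermat.Agent.S55.Bridge.H959.Qb)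

omit [FiniteDimensional ℚ F] in
theorem intIncl_mem (x : 𝓞 F) : intIncl F x ∈ A :=
  isIntegral_mem_valuationSubring A (isIntegral_intIncl F x)

omit [FiniteDimensional ℚ F] in
/-- Every integral element of `F` comes from the ring of integers. -/
theorem exists_intIncl_eq {x : _root_.Fermat.Agent.S55.Bridge.H959.Qb} (hxF : x ∈ F) (hx : IsIntegral ℤ x) :
    ∃ X : 𝓞 F, intIncl F X = x :=
  ⟨⟨⟨x, hxF⟩, (isIntegral_algebraMap_iff (algebraMap F _root_.Fermat.Agent.S55.Bridge.H959.Qb).injective).mp hx⟩, rfl⟩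

/-- The inclusion of the ring of integers of `F` into `A`. -/
noncomputable def intInclA : 𝓞 F →+* A :=
  RingHom.codRestrict (intIncl F) A (intIncl_mem A F)

/-- The prime of the ring of integers of `F` below `A`. -/
noncomputable def primeAt : Ideal (𝓞 F) :=
  Ideal.comap (intInclA A F) (IsLocalRing.maximalIdeal A)

omit [FiniteDimensional ℚ F] in
theorem mem_primeAt (x : 𝓞 F) : x ∈ primeAt A F ↔ intIncl F x ∈ A.nonunits := by
  rw [primeAt, Ideal.mem_comap, ValuationSubring.valuation_lt_one_iff,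
    ValuationSubring.mem_nonunits_iff]
  rfl

omit [FiniteDimensional ℚ F] in
theorem primeAt_isPrime : (primeAt A F).IsPrime :=
  Ideal.comap_isPrime _ _

variable {A} {q : ℕ}

omit [FiniteDimensional ℚ F] in
theorem natCast_mem_primeAt (hA : A.LiesOverPrime q) : ((q : ℕ) : 𝓞 F) ∈ primeAt A F := by
  rw [mem_primeAt, map_natCast]
  exact hA

omit [FiniteDimensional ℚ F] in
theorem primeAt_ne_bot (hq : q.Prime) (hA : A.LiesOverPrime q) : primeAt A F ≠ ⊥ := by
  intro h
  have h1 := natCast_mem_primeAt F hA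
  rw [h, Ideal.mem_bot] at h1
  exact hq.ne_zero (Nat.cast_eq_zero.mp h1)

/-- The residue field at finite level is finite. -/
theorem finite_quotient_primeAt (hq : q.Prime) (hA : A.LiesOverPrime q) :
    Finite (𝓞 F ⧸ primeAt A F) := by
  haveI : NumberField F := ⟨⟩
  exact Ideal.finiteQuotientOfFreeOfNeBot _ (primeAt_ne_bot F hq hA)

omit [FiniteDimensional ℚ F] in
/-- The prime number below `primeAt A F`. -/
theorem under_primeAt (hq : q.Prime) (hA : A.LiesOverPrime q) :
    (primeAt A F).under ℤ = Ideal.span {(q : ℤ)} := by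
  haveI := primeAt_isPrime A F
  have hmax : (Ideal.span {(q : ℤ)}).IsMaximal :=
    PrincipalIdealRing.isMaximal_of_irreducible
      (Nat.prime_iff_prime_int.mp hq).irreducible
  symm
  apply hmax.eq_of_le
  · exact (Ideal.IsPrime.under ℤ (primeAt A F)).ne_top
  · rw [Ideal.span_singleton_le_iff_mem, Ideal.mem_comap]
    have := natCast_mem_primeAt F hA
    simpa using this

omit [FiniteDimensional ℚ F] in
theorem card_quotient_under_primeAt (hq : q.Prime) (hA : A.LiesOverPrime q) :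
    Nat.card (ℤ ⧸ (primeAt A F).under ℤ) = q := by
  rw [under_primeAt F hq hA, Nat.card_congr (Int.quotientSpanNatEquivZMod q).toEquiv,
    Nat.card_zmod]

variable [Normal ℚ F]

omit [FiniteDimensional ℚ F] in
/-- The action of `Gal(F/ℚ)` on the integers of `F` is compatible with restriction. -/
theorem intIncl_restrict_smul (σ : _root_.Fermat.Agent.S55.Bridge.H959.GQ) (x : 𝓞 F) :
    intIncl F (AlgEquiv.restrictNormalHom F σ • x) = σ (intIncl F x) := by
  rw [intIncl_apply, intIncl_apply]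
  exact restrict_apply F σ (x : F)

omit [FiniteDimensional ℚ F] in
/-- Restrictions of elements of `D_A` stabilise the prime below `A`. -/
theorem restrict_mem_stabilizer_primeAt {σ : _root_.Fermat.Agent.S55.Bridge.H959.GQ} (hσ : σ ∈ A.decompositionSubgroup ℚ) :
    AlgEquiv.restrictNormalHom F σ ∈ MulAction.stabilizer (F ≃ₐ[ℚ] F) (primeAt A F) := by
  rw [MulAction.mem_stabilizer_iff]
  ext x
  rw [Ideal.mem_pointwise_smul_iff_inv_smul_mem, mem_primeAt, mem_primeAt, ← map_inv,
    intIncl_restrict_smul]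
  exact apply_mem_nonunits_iff A σ⁻¹ (Subgroup.inv_mem _ hσ) _

/-- **Finite level.**  Every element of `D_A` acts as `x ↦ x ^ (q ^ n)` modulo the maximal
ideal on the integers of a finite normal extension `F/ℚ`. -/
theorem exists_pow_congr_of_mem_decomposition (hq : q.Prime) (hA : A.LiesOverPrime q)
    {σ : _root_.Fermat.Agent.S55.Bridge.H959.GQ} (hσ : σ ∈ A.decompositionSubgroup ℚ) :
    ∃ n : ℕ, ∀ x ∈ F, IsIntegral ℤ x → σ x - x ^ (q ^ n) ∈ A.nonunits := by
  haveI := primeAt_isPrime A F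
  haveI := finite_quotient_primeAt F hq hA
  obtain ⟨n, hn⟩ := Fermat.Agent.Lib.Cheb.H281.exists_pow_of_mem_stabilizer (R := ℤ)
    (restrict_mem_stabilizer_primeAt F hσ)
  rw [card_quotient_under_primeAt F hq hA] at hn
  refine ⟨n, fun x hxF hx => ?_⟩
  obtain ⟨X, rfl⟩ := exists_intIncl_eq F hxF hx
  have h1 : Ideal.Quotient.mk (primeAt A F) (AlgEquiv.restrictNormalHom F σ • X) =
      Ideal.Quotient.mk (primeAt A F) (X ^ (q ^ n)) := by
    rw [map_pow]
    exact hn X
  rw [Ideal.Quotient.eq, mem_primeAt, map_sub, intIncl_restrict_smul, map_pow] at h1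
  exact h1

end finiteLevel

/-! ## 3. Lifting triviality on a finite-level residue field to inertia -/

section lift

variable {A} {q : ℕ} (F : IntermediateField ℚ _root_.Fermat.Agent.S55.Bridge.H959.Qb)

/-- An element of `D_A` acting trivially modulo the maximal ideal on the integers of `F` agrees
on `F` with an element of the inertia group `I_A`. -/
theorem exists_inertia_congr (hq : q.Prime) (hA : A.LiesOverPrime q) {g : _root_.Fermat.Agent.S55.Bridge.H959.GQ}
    (hg : g ∈ A.decompositionSubgroup ℚ)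
    (h : ∀ x ∈ F, IsIntegral ℤ x → g x - x ∈ A.nonunits) :
    ∃ ι ∈ A.inertiaSubgroupIn ℚ, ∀ x ∈ F, ι x = g x := by
  haveI := primeBelow_isPrime A
  have hgQ : g • primeBelow A = primeBelow A := by
    rw [← _root_.Fermat.Agent.S55.Bridge.H959.primeBelow_smul]
    congr 1
  obtain ⟨s, hs, hsQ, hcong⟩ := exists_mem_stabilizer_of_fixes F.fixingSubgroup
    (InfiniteGalois.fixingSubgroup_isClosed F) (primeBelow A) g hgQ (by
      intro a ha
      have haF : (a : _root_.Fermat.Agent.S55.Bridge.H959.Qb) ∈ F :=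
        mem_of_fixed F a (fun k hk => congrArg Subtype.val (ha k hk))
      rw [mem_primeBelow]
      exact h a haF a.2)
  have hsD : s ∈ A.decompositionSubgroup ℚ :=
    mem_decomposition_of_smul_primeBelow A q hq hA s hsQ
  have hinv : ∀ y : _root_.Fermat.Agent.S55.Bridge.H959.Qb, s (s⁻¹ y) = y := fun y => by
    show (s * s⁻¹) y = y
    rw [mul_inv_cancel]
    rfl
  refine ⟨g * s⁻¹, ?_, ?_⟩
  · refine mem_inertia_of_integral A q hq hA (g * s⁻¹)
      (Subgroup.mul_mem _ hg (Subgroup.inv_mem _ hsD)) ?_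
    intro b hb
    have h1 := hcong ⟨s⁻¹ b, hb.map s⁻¹⟩
    rw [mem_primeBelow] at h1
    have h2 : ((s • (⟨s⁻¹ b, hb.map s⁻¹⟩ : Zb) - g • (⟨s⁻¹ b, hb.map s⁻¹⟩ : Zb) : Zb) : _root_.Fermat.Agent.S55.Bridge.H959.Qb)
        = -((g * s⁻¹) b - b) := by
      show s (s⁻¹ b) - g (s⁻¹ b) = -((g * s⁻¹) b - b)
      rw [hinv, neg_sub]
      rfl
    rw [h2] at h1
    rw [ValuationSubring.mem_nonunits_iff, Valuation.map_neg] at h1
    rw [ValuationSubring.mem_nonunits_iff]
    exact h1
  · intro x hx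
    have hsx : s x = x := hs ⟨x, hx⟩
    show g (s⁻¹ x) = g x
    congr 1
    conv_lhs => rw [← hsx]
    show (s⁻¹ * s) x = x
    rw [inv_mul_cancel]
    rfl

end lift

/-! ## 4. Generation -/

section gen

variable {A} {q : ℕ}

/-- **LOC-TAME (c), GEN.**  Modulo any finite level, the decomposition group at `A` is generated
by a Frobenius element and the inertia group: every `σ ∈ D_A` agrees on the finite extension
`F/ℚ` with `φ ^ n * ι` for some `n : ℕ` and `ι ∈ I_A`. -/
theorem exists_frobenius_pow_mul_inertia (hq : q.Prime) (hA : A.LiesOverPrime q)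
    (F : IntermediateField ℚ _root_.Fermat.Agent.S55.Bridge.H959.Qb) [FiniteDimensional ℚ F] {φ : _root_.Fermat.Agent.S55.Bridge.H959.GQ} (hφ : A.IsFrobeniusAt φ q)
    {σ : _root_.Fermat.Agent.S55.Bridge.H959.GQ} (hσ : σ ∈ A.decompositionSubgroup ℚ) :
    ∃ (n : ℕ) (ι : _root_.Fermat.Agent.S55.Bridge.H959.GQ), ι ∈ A.inertiaSubgroupIn ℚ ∧ ∀ x ∈ F, σ x = (φ ^ n * ι) x := by
  -- enlarge `F` to its normal closure
  have hFF' : F ≤ IntermediateField.normalClosure ℚ F _root_.Fermat.Agent.S55.Bridge.H959.Qb := IntermediateField.le_normalClosure F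
  haveI : Normal ℚ (IntermediateField.normalClosure ℚ F _root_.Fermat.Agent.S55.Bridge.H959.Qb) := normalClosure.normal ℚ F _root_.Fermat.Agent.S55.Bridge.H959.Qb
  haveI : FiniteDimensional ℚ (IntermediateField.normalClosure ℚ F _root_.Fermat.Agent.S55.Bridge.H959.Qb) :=
    normalClosure.is_finiteDimensional ℚ F _root_.Fermat.Agent.S55.Bridge.H959.Qb
  obtain ⟨n, hn⟩ := exists_pow_congr_of_mem_decomposition
    (IntermediateField.normalClosure ℚ F _root_.Fermat.Agent.S55.Bridge.H959.Qb) hq hA hσ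
  have hφn : φ ^ n ∈ A.decompositionSubgroup ℚ := pow_mem hφ.mem_decompositionSubgroup n
  have hφninv : (φ ^ n)⁻¹ ∈ A.decompositionSubgroup ℚ := Subgroup.inv_mem _ hφn
  have hinv : ∀ y : _root_.Fermat.Agent.S55.Bridge.H959.Qb, (φ ^ n) ((φ ^ n)⁻¹ y) = y := fun y => by
    show ((φ ^ n) * (φ ^ n)⁻¹) y = y
    rw [mul_inv_cancel]
    rfl
  have hinv' : ∀ y : _root_.Fermat.Agent.S55.Bridge.H959.Qb, (φ ^ n)⁻¹ ((φ ^ n) y) = y := fun y => by
    show ((φ ^ n)⁻¹ * (φ ^ n)) y = y
    rw [inv_mul_cancel]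
    rfl
  obtain ⟨ι, hι, hιg⟩ := exists_inertia_congr (IntermediateField.normalClosure ℚ F _root_.Fermat.Agent.S55.Bridge.H959.Qb) hq hA
    (g := (φ ^ n)⁻¹ * σ) (Subgroup.mul_mem _ hφninv hσ) (by
      intro x hxF hx
      have hxA : x ∈ A := isIntegral_mem_valuationSubring A hx
      have h1 : σ x - (φ ^ n) x ∈ A.nonunits := by
        have h2 := hn x hxF hx
        have h3 := frobenius_pow_sub_pow_mem_nonunits A hφ n hxA
        rw [ValuationSubring.mem_nonunits_iff] at h2 h3 ⊢
        have h4 : σ x - (φ ^ n) x = (σ x - x ^ q ^ n) - ((φ ^ n) x - x ^ q ^ n) := by ring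
        rw [h4]
        exact lt_of_le_of_lt (A.valuation.map_sub _ _) (max_lt h2 h3)
      have h5 : ((φ ^ n)⁻¹ * σ) x - x = (φ ^ n)⁻¹ (σ x - (φ ^ n) x) := by
        rw [map_sub, hinv']
        rfl
      rw [h5, apply_mem_nonunits_iff A _ hφninv]
      exact h1)
  refine ⟨n, ι, hι, fun x hx => ?_⟩
  have h1 := hιg x (hFF' hx)
  show σ x = (φ ^ n) (ι x)
  rw [h1]
  show σ x = (φ ^ n) ((φ ^ n)⁻¹ (σ x))
  rw [hinv]

/-- **LOC-TAME (c), GEN, for homomorphisms of finite level.**  If `f` is trivial on the subgroup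
fixing a finite extension `E/ℚ`, then `f σ = f φ ^ n * f ι` with `ι ∈ I_A`, for every
`σ ∈ D_A`. -/
theorem map_mem_decomposition_eq {G : Type*} [Group G] (f : _root_.Fermat.Agent.S55.Bridge.H959.GQ →* G) (hq : q.Prime)
    (hA : A.LiesOverPrime q) (E : IntermediateField ℚ _root_.Fermat.Agent.S55.Bridge.H959.Qb) [FiniteDimensional ℚ E]
    (hf : ∀ τ : _root_.Fermat.Agent.S55.Bridge.H959.GQ, (∀ x ∈ E, τ x = x) → f τ = 1) {φ : _root_.Fermat.Agent.S55.Bridge.H959.GQ} (hφ : A.IsFrobeniusAt φ q)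
    {σ : _root_.Fermat.Agent.S55.Bridge.H959.GQ} (hσ : σ ∈ A.decompositionSubgroup ℚ) :
    ∃ (n : ℕ) (ι : _root_.Fermat.Agent.S55.Bridge.H959.GQ), ι ∈ A.inertiaSubgroupIn ℚ ∧ f σ = f φ ^ n * f ι := by
  obtain ⟨n, ι, hι, h⟩ := exists_frobenius_pow_mul_inertia hq hA E hφ hσ
  refine ⟨n, ι, hι, ?_⟩
  have h1 : f ((φ ^ n * ι)⁻¹ * σ) = 1 := by
    apply hf
    intro x hx
    show (φ ^ n * ι)⁻¹ (σ x) = x
    rw [h x hx]
    show ((φ ^ n * ι)⁻¹ * (φ ^ n * ι)) x = x
    rw [inv_mul_cancel]
    rfl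
  rw [map_mul, map_inv, inv_mul_eq_one] at h1
  rw [← h1, map_mul, map_pow]

end gen

end Fermat.Agent.S56.H606

end
-- ===== PACK-END S56/H606/Gen.lean

-- ===== PACK-BEGIN S56/H794/TameRat.lean
section







/-!
# S56 / LOC-TAME (helper794), part 4: tame inertia over `ℚ` (Prelude form)

`P` a valuation subring of `ℚ̄` lying over the prime `q`, `I = P.inertiaSubgroupIn ℚ`,
`f : G_ℚ →* G` of finite level, `ℓ ≠ q` a prime with `f τ ^ ℓ = 1` for all `τ ∈ I`.

* `inertia_image_cyclic` : `∃ τ₀ ∈ I, ∀ σ ∈ I, ∃ j < ℓ, f σ = f τ₀ ^ j`.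
* `inertia_image_pow_of_ne_one` : any `τ ∈ I` with `f τ ≠ 1` is such a generator.
* `inertia_frobenius_relation` : `f (φ τ φ⁻¹) = f τ ^ q` for every Frobenius `φ` at `P`.
* `inertia_image_comm` : `f` is commutative on `I`.
-/

set_option autoImplicit false

namespace Fermat.Agent.S56.H794

open Fermat.Agent.A2.H708

section rat

variable {L : Type*} [Field L] [CharZero L] (P : ValuationSubring L)

omit [CharZero L] in
/-- Integers prime to `q` are units of a valuation ring lying over `q`. -/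
theorem valuation_natCast_eq_one_of_not_dvd {q : ℕ} (hq : q.Prime) (hP : P.LiesOverPrime q)
    {n : ℕ} (hn : ¬ q ∣ n) : P.valuation (n : L) = 1 := by
  have hle : P.valuation (n : L) ≤ 1 := (P.valuation_le_one_iff _).mpr (natCast_mem P n)
  refine le_antisymm hle (not_lt.mp fun hlt => ?_)
  have hqlt : P.valuation (q : L) < 1 := P.mem_nonunits_iff.mp hP
  have hcop : IsCoprime (n : ℤ) (q : ℤ) := by
    rw [Int.isCoprime_iff_gcd_eq_one, Int.gcd_natCast_natCast]
    exact ((Nat.Prime.coprime_iff_not_dvd hq).mpr hn).symm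
  obtain ⟨a, b, hab⟩ := hcop
  have h1 : ((a : L) * (n : L) + (b : L) * (q : L)) = 1 := by
    have := congrArg (fun z : ℤ => (z : L)) hab
    simpa using this
  have ha : P.valuation (a : L) ≤ 1 := (P.valuation_le_one_iff _).mpr (intCast_mem P a)
  have hb : P.valuation (b : L) ≤ 1 := (P.valuation_le_one_iff _).mpr (intCast_mem P b)
  have h2 : P.valuation ((a : L) * (n : L)) < 1 := by
    rw [map_mul]
    exact lt_of_le_of_lt (mul_le_of_le_one_left zero_le ha) hlt
  have h3 : P.valuation ((b : L) * (q : L)) < 1 := by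
    rw [map_mul]
    exact lt_of_le_of_lt (mul_le_of_le_one_left zero_le hb) hqlt
  have h4 : P.valuation ((a : L) * (n : L) + (b : L) * (q : L)) < 1 :=
    Valuation.map_add_lt _ h2 h3
  rw [h1, map_one] at h4
  exact lt_irrefl _ h4

/-- The valuation of a nonzero natural number is a power of the valuation of `q`. -/
theorem exists_valuation_natCast_eq_pow {q : ℕ} (hq : q.Prime) (hP : P.LiesOverPrime q)
    {n : ℕ} (hn : n ≠ 0) : ∃ e : ℕ, P.valuation (n : L) = P.valuation (q : L) ^ e := by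
  obtain ⟨e, n', hn', rfl⟩ := Nat.exists_eq_pow_mul_and_not_dvd hn q hq.ne_one
  refine ⟨e, ?_⟩
  rw [Nat.cast_mul, Nat.cast_pow, map_mul, map_pow,
    valuation_natCast_eq_one_of_not_dvd P hq hP hn', mul_one]

/-- The value group of `ℚ` under a valuation over `q` is generated by the valuation of `q`. -/
theorem rankOneOver_rat [Algebra ℚ L] {q : ℕ} (hq : q.Prime) (hP : P.LiesOverPrime q) :
    RankOneOver ℚ P := by
  have hq0 : (q : L) ≠ 0 := Nat.cast_ne_zero.mpr hq.ne_zero
  refine ⟨Units.mk0 (q : L) hq0, fun a ha => ?_⟩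
  have hnum : a.num.natAbs ≠ 0 := Int.natAbs_ne_zero.mpr (Rat.num_ne_zero.mpr ha)
  obtain ⟨e₁, h₁⟩ := exists_valuation_natCast_eq_pow P hq hP hnum
  obtain ⟨e₂, h₂⟩ := exists_valuation_natCast_eq_pow P hq hP a.den_ne_zero
  refine ⟨(e₁ : ℤ) - (e₂ : ℤ), ?_⟩
  have hcast : algebraMap ℚ L a = (a.num : L) / (a.den : L) := by
    rw [eq_ratCast, Rat.cast_def]
  have hnumv : P.valuation ((a.num : ℤ) : L) = P.valuation ((a.num.natAbs : ℕ) : L) := by
    rcases Int.natAbs_eq a.num with h | h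
    · conv_lhs => rw [h]
      simp
    · conv_lhs => rw [h]
      simp
  have hvq : P.valuation (q : L) ≠ 0 := (Valuation.ne_zero_iff _).mpr hq0
  rw [hcast, map_div₀, hnumv, h₁, h₂, Units.val_zpow_eq_zpow_val, Units.val_mk0, map_zpow₀,
    zpow_sub₀ hvq, zpow_natCast, zpow_natCast]

end rat

section prelude

/-- `G_ℚ` -/
local notation "GQ" => (AlgebraicClosure ℚ ≃ₐ[ℚ] AlgebraicClosure ℚ)

/-- `ℚ̄/ℚ` is algebraic (for the `Algebra ℚ ℚ̄` instance found by instance search). -/
theorem isAlgebraic_Qbar_h794 : Algebra.IsAlgebraic ℚ (AlgebraicClosure ℚ) :=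
  AlgebraicClosure.isAlgebraic ℚ

/-- `ℚ̄/ℚ` is Galois (for the `Algebra ℚ ℚ̄` instance found by instance search). -/
theorem isGalois_Qbar_h794 : IsGalois ℚ (AlgebraicClosure ℚ) := by
  haveI : Algebra.IsAlgebraic ℚ (AlgebraicClosure ℚ) := isAlgebraic_Qbar_h794
  haveI : IsAlgClosure ℚ (AlgebraicClosure ℚ) := ⟨inferInstance, inferInstance⟩
  haveI : Normal ℚ (AlgebraicClosure ℚ) := IsAlgClosure.normal ℚ (AlgebraicClosure ℚ)
  exact isGalois_iff.mpr ⟨inferInstance, inferInstance⟩

attribute [local instance] isAlgebraic_Qbar_h794 isGalois_Qbar_h794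

variable {G : Type*} [Group G] {f : GQ →* G} {P : ValuationSubring (AlgebraicClosure ℚ)}
  {q ℓ : ℕ}

/-- A prime `ℓ ≠ q` is a unit at `P | q`. -/
theorem valuation_prime_eq_one (hq : q.Prime) (hP : P.LiesOverPrime q) (hℓ : ℓ.Prime)
    (hℓq : ℓ ≠ q) : P.valuation ((ℓ : ℕ) : AlgebraicClosure ℚ) = 1 :=
  valuation_natCast_eq_one_of_not_dvd P hq hP
    (fun h => hℓq ((Nat.prime_dvd_prime_iff_eq hq hℓ).mp h).symm)

/-- **Tame inertia, cyclicity.**  If `f(I_P)` has prime exponent `ℓ ≠ q` then every `τ ∈ I_P`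
with `f τ ≠ 1` generates `f(I_P)`. -/
theorem inertia_image_pow_of_ne_one (hf : FiniteLevel f) (hq : q.Prime)
    (hP : P.LiesOverPrime q) (hℓ : ℓ.Prime) (hℓq : ℓ ≠ q)
    (hexp : ∀ τ ∈ P.inertiaSubgroupIn ℚ, f τ ^ ℓ = 1) {σ τ : GQ}
    (hσ : σ ∈ P.inertiaSubgroupIn ℚ) (hτ : τ ∈ P.inertiaSubgroupIn ℚ) (hne : f τ ≠ 1) :
    ∃ j : ℕ, j < ℓ ∧ f σ = f τ ^ j :=
  exists_pow_eq_of_exponent_prime hf (rankOneOver_rat P hq hP) hℓ
    (valuation_prime_eq_one hq hP hℓ hℓq) hexp hσ hτ hne

/-- **Tame inertia, cyclicity (existence of a generator).** -/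
theorem inertia_image_cyclic (hf : FiniteLevel f) (hq : q.Prime)
    (hP : P.LiesOverPrime q) (hℓ : ℓ.Prime) (hℓq : ℓ ≠ q)
    (hexp : ∀ τ ∈ P.inertiaSubgroupIn ℚ, f τ ^ ℓ = 1) :
    ∃ τ₀ ∈ P.inertiaSubgroupIn ℚ, ∀ σ ∈ P.inertiaSubgroupIn ℚ,
      ∃ j : ℕ, j < ℓ ∧ f σ = f τ₀ ^ j :=
  exists_generator_of_exponent_prime hf (rankOneOver_rat P hq hP) hℓ
    (valuation_prime_eq_one hq hP hℓ hℓq) hexp

/-- **Tame inertia, Frobenius relation**: `f (φ τ φ⁻¹) = f τ ^ q`. -/
theorem inertia_frobenius_relation (hf : FiniteLevel f) (hq : q.Prime)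
    (hP : P.LiesOverPrime q) (hℓ : ℓ.Prime) (hℓq : ℓ ≠ q)
    (hexp : ∀ τ ∈ P.inertiaSubgroupIn ℚ, f τ ^ ℓ = 1) {φ τ : GQ}
    (hφ : P.IsFrobeniusAt φ q) (hτ : τ ∈ P.inertiaSubgroupIn ℚ) :
    f (φ * τ * φ⁻¹) = f τ ^ q :=
  map_conj_frobenius hf (primeToResChar_of_exponent (valuation_prime_eq_one hq hP hℓ hℓq) hexp)
    hφ hτ

/-- **Tame inertia, commutativity.** -/
theorem inertia_image_comm (hf : FiniteLevel f) (hq : q.Prime)
    (hP : P.LiesOverPrime q) (hℓ : ℓ.Prime) (hℓq : ℓ ≠ q)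
    (hexp : ∀ τ ∈ P.inertiaSubgroupIn ℚ, f τ ^ ℓ = 1) {σ τ : GQ}
    (hσ : σ ∈ P.inertiaSubgroupIn ℚ) (hτ : τ ∈ P.inertiaSubgroupIn ℚ) :
    f σ * f τ = f τ * f σ :=
  map_mul_comm_of_mem_inertiaIn hf
    (primeToResChar_of_exponent (valuation_prime_eq_one hq hP hℓ hℓq) hexp) hσ hτ

end prelude

end Fermat.Agent.S56.H794

end
-- ===== PACK-END S56/H794/TameRat.lean

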