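import Mathlib
import Fermat.Prelude.Def_GaloisRep_Flat
import Fermat.Agent.Pack.S43GC.G0E7L2
import Fermat.Agent.Pack.S43GC.G0E3L1
import Fermat.Agent.Pack.S43GC.G0E5L1
import Fermat.Agent.Pack.S43GC.G0E6L1
import Fermat.Agent.Pack.S43GC.G0E4L3
import Fermat.Agent.Pack.S43GC.G0E6L2
import Fermat.Agent.Pack.S44C.G0E1L3
import Fermat.Agent.Pack.S43GC.G0E2L1
import Fermat.Agent.Pack.S43GC.G0E7L0
import Fermat.Agent.Pack.S43GC.G1E0L0
import Fermat.Agent.Pack.S43GC.G0E7L3
import Fermat.Agent.Pack.S43GC.G0E9L1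
import Fermat.Agent.Pack.Fast891

-- ===== PACK-BEGIN S55/PT/Ind.lean
section


/-!
# S55 / PT layer, part 5: induced modules `Ind_U M = (G ⧸ U →₀ M)` (diagonal action),
augmentation, kernel representation, level change, local-to-global comparison,
dual short exact sequences.

Definitions only (+ the few proofs needed to make them).  Properties are leaves (`Spec.lean`).
-/

set_option autoImplicit false

noncomputable section

namespace Fermat.Agent.S55.PT

open groupCohomology

variable {k : Type} [Field k] {G : Type} [Group G]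

/-! ### kernel of an equivariant map as a representation -/

section Ker

variable {A B : Rep.{0, 0, 0} k G} (φ : A →ₗ[k] B) (hφ : IsEquivariant φ)

include hφ in
lemma ker_le_comap (g : G) : LinearMap.ker φ ≤ (LinearMap.ker φ).comap (A.ρ g) := by
  intro a ha
  rw [Submodule.mem_comap, LinearMap.mem_ker, hφ g a, LinearMap.mem_ker.1 ha, map_zero]

/-- the kernel of an equivariant map, as a representation -/
abbrev kerRep : Rep.{0, 0, 0} k G :=
  Rep.of (A.ρ.subrepresentation (LinearMap.ker φ) (ker_le_comap φ hφ))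

/-- the inclusion `ker φ → A` -/
def kerIncl : ↥(LinearMap.ker φ) →ₗ[k] A := (LinearMap.ker φ).subtype

include hφ in
lemma kerIncl_equivariant : IsEquivariant (A := kerRep φ hφ) (B := A) (kerIncl φ) :=
  fun _ _ => rfl

lemma kerIncl_injective : Function.Injective (kerIncl φ) := Subtype.val_injective

/-- the short exact sequence `0 → ker φ → A → B → 0` of a surjective equivariant map -/
def kerSES (hsurj : Function.Surjective φ) : SES (kerRep φ hφ) A B where
  i := kerIncl φ
  π := φ
  hi := kerIncl_equivariant φ hφ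
  hπ := hφ
  inj := kerIncl_injective φ
  surj := hsurj
  exact := Submodule.range_subtype _

end Ker

/-! ### induced modules -/

section Ind

variable (U : Subgroup G) (M : Rep.{0, 0, 0} k G)

/-- the action of `g` on `G ⧸ U →₀ M`: `single x m ↦ single (g • x) (g • m)` -/
def indAct (g : G) : ((G ⧸ U) →₀ M) →ₗ[k] ((G ⧸ U) →₀ M) :=
  (Finsupp.lmapDomain M k (fun x : G ⧸ U => g • x)) ∘ₗ (Finsupp.mapRange.linearMap (M.ρ g))

@[simp] lemma indAct_single (g : G) (x : G ⧸ U) (m : M) :
    indAct U M g (Finsupp.single x m) = Finsupp.single (g • x) (M.ρ g m) := by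
  rw [indAct, LinearMap.comp_apply, Finsupp.mapRange.linearMap_apply, Finsupp.mapRange_single,
    Finsupp.lmapDomain_apply, Finsupp.mapDomain_single]

/-- the diagonal representation on `G ⧸ U →₀ M` -/
def indRho : Representation k G ((G ⧸ U) →₀ M) where
  toFun := indAct U M
  map_one' := by
    apply Finsupp.lhom_ext
    intro x m
    simp
  map_mul' g h := by
    apply Finsupp.lhom_ext
    intro x m
    simp [mul_smul]

/-- `Ind_U M` -/
abbrev indRep : Rep.{0, 0, 0} k G := Rep.of (indRho U M)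

lemma indRep_ρ_single (g : G) (x : G ⧸ U) (m : M) :
    (indRep U M).ρ g (Finsupp.single x m : (G ⧸ U) →₀ M) =
      (Finsupp.single (g • x) (M.ρ g m) : (G ⧸ U) →₀ M) :=
  indAct_single U M g x m

/-- the augmentation `Ind_U M → M`, `single x m ↦ m` -/
def indAug : ((G ⧸ U) →₀ M) →ₗ[k] M :=
  Finsupp.lsum k (fun _ : G ⧸ U => (LinearMap.id : M →ₗ[k] M))

@[simp] lemma indAug_single (x : G ⧸ U) (m : M) :
    indAug U M (Finsupp.single x m : (G ⧸ U) →₀ M) = m := by
  rw [indAug, Finsupp.lsum_single]; rfl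

lemma indAug_equivariant : IsEquivariant (A := indRep U M) (B := M) (indAug U M) := by
  intro g
  have : (indAug U M) ∘ₗ (indAct U M g) = (M.ρ g) ∘ₗ (indAug U M) := by
    apply Finsupp.lhom_ext
    intro x m
    rw [LinearMap.comp_apply, LinearMap.comp_apply, indAct_single, indAug_single, indAug_single]
  exact fun a => LinearMap.congr_fun this a

lemma indAug_surjective : Function.Surjective (indAug U M) := fun m =>
  ⟨(Finsupp.single ((1 : G) : G ⧸ U) m : (G ⧸ U) →₀ M), indAug_single U M _ m⟩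

/-- `R = ker (Ind_U M → M)` -/
abbrev indKer : Rep.{0, 0, 0} k G :=
  kerRep (A := indRep U M) (B := M) (indAug U M) (indAug_equivariant U M)

/-- the presentation `0 → R → Ind_U M → M → 0` -/
def indSES : SES (indKer U M) (indRep U M) M :=
  kerSES (A := indRep U M) (B := M) (indAug U M) (indAug_equivariant U M)
    (indAug_surjective U M)

/-- functoriality of `Ind_U` in the module -/
def indMap {M N : Rep.{0, 0, 0} k G} (φ : M →ₗ[k] N) :
    ((G ⧸ U) →₀ M) →ₗ[k] ((G ⧸ U) →₀ N) :=
  Finsupp.mapRange.linearMap φ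

@[simp] lemma indMap_single {M N : Rep.{0, 0, 0} k G} (φ : M →ₗ[k] N) (x : G ⧸ U) (m : M) :
    indMap U φ (Finsupp.single x m : (G ⧸ U) →₀ M) = (Finsupp.single x (φ m) : (G ⧸ U) →₀ N) := by
  rw [indMap, Finsupp.mapRange.linearMap_apply, Finsupp.mapRange_single]

variable {U} in
/-- level change `Ind_U M → Ind_V M` for `U ≤ V` -/
def indLE {V : Subgroup G} (h : U ≤ V) : ((G ⧸ U) →₀ M) →ₗ[k] ((G ⧸ V) →₀ M) :=
  Finsupp.lmapDomain M k (Subgroup.quotientMapOfLE h)

@[simp] lemma indLE_single {V : Subgroup G} (h : U ≤ V) (x : G ⧸ U) (m : M) :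
    indLE M h (Finsupp.single x m : (G ⧸ U) →₀ M) =
      (Finsupp.single (Subgroup.quotientMapOfLE h x) m : (G ⧸ V) →₀ M) := by
  rw [indLE, Finsupp.lmapDomain_apply, Finsupp.mapDomain_single]

lemma quotientMapOfLE_smul {V : Subgroup G} (h : U ≤ V) (g : G) (x : G ⧸ U) :
    Subgroup.quotientMapOfLE h (g • x) = g • Subgroup.quotientMapOfLE h x := by
  induction x using QuotientGroup.induction_on with
  | H a => rfl

lemma indLE_equivariant {V : Subgroup G} (h : U ≤ V) :
    IsEquivariant (A := indRep U M) (B := indRep V M) (indLE M h) := by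
  intro g
  have : (indLE M h) ∘ₗ (indAct U M g) = (indAct V M g) ∘ₗ (indLE M h) := by
    apply Finsupp.lhom_ext
    intro x m
    rw [LinearMap.comp_apply, LinearMap.comp_apply, indAct_single, indLE_single, indLE_single,
      indAct_single, quotientMapOfLE_smul]
  exact fun a => LinearMap.congr_fun this a

lemma indAug_indLE {V : Subgroup G} (h : U ≤ V) (a : (G ⧸ U) →₀ M) :
    indAug V M (indLE M h a) = indAug U M a := by
  have : (indAug V M) ∘ₗ (indLE M h) = indAug U M := by
    apply Finsupp.lhom_ext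
    intro x m
    rw [LinearMap.comp_apply, indLE_single, indAug_single, indAug_single]
  exact LinearMap.congr_fun this a

lemma indMap_equivariant {M N : Rep.{0, 0, 0} k G} (φ : M →ₗ[k] N) (hφ : IsEquivariant φ) :
    IsEquivariant (A := indRep U M) (B := indRep U N) (indMap U φ) := by
  intro g
  have hφ' : ∀ (g : G) (a : M), φ (M.ρ g a) = N.ρ g (φ a) := hφ
  have : (indMap U φ) ∘ₗ (indAct U M g) = (indAct U N g) ∘ₗ (indMap U φ) := by
    apply Finsupp.lhom_ext
    intro x m
    rw [LinearMap.comp_apply, LinearMap.comp_apply, indAct_single, indMap_single, indMap_single,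
      indAct_single, hφ']
  exact fun a => LinearMap.congr_fun this a

end Ind

/-! ### local-to-global comparison -/

section LocGlob

variable {G' : Type} [Group G'] (r : G' →* G) (U : Subgroup G) (W : Subgroup G')
  (M : Rep.{0, 0, 0} k G)

variable {r U W} in
/-- the map `G' ⧸ W → G ⧸ U` induced by `r` when `W ≤ r⁻¹ U` -/
def quotMap (h : W ≤ U.comap r) : G' ⧸ W → G ⧸ U :=
  Quotient.map' r (by
    intro a b hab
    rw [QuotientGroup.leftRel_apply] at hab ⊢
    have := h hab
    simpa [Subgroup.mem_comap, map_mul, map_inv] using this)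

variable {r U W} in
@[simp] lemma quotMap_mk (h : W ≤ U.comap r) (g : G') :
    quotMap h (g : G' ⧸ W) = ((r g : G) : G ⧸ U) := rfl

variable {r U W} in
/-- the comparison map `Ind_W^{G'}(M|_{G'}) → (Ind_U^G M)|_{G'}` -/
def indLocGlob (h : W ≤ U.comap r) : ((G' ⧸ W) →₀ M) →ₗ[k] ((G ⧸ U) →₀ M) :=
  Finsupp.lmapDomain M k (quotMap h)

variable {r U W} in
@[simp] lemma indLocGlob_single (h : W ≤ U.comap r) (x : G' ⧸ W) (m : M) :
    indLocGlob M h (Finsupp.single x m : (G' ⧸ W) →₀ M) =
      (Finsupp.single (quotMap h x) m : (G ⧸ U) →₀ M) := by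
  rw [indLocGlob, Finsupp.lmapDomain_apply, Finsupp.mapDomain_single]

variable {r U W} in
lemma quotMap_smul (h : W ≤ U.comap r) (g : G') (x : G' ⧸ W) :
    quotMap h (g • x) = r g • quotMap h x := by
  induction x using QuotientGroup.induction_on with
  | H a =>
    show ((r (g * a) : G) : G ⧸ U) = _
    rw [map_mul]
    rfl

variable {r U W} in
lemma indLocGlob_equivariant (h : W ≤ U.comap r) :
    IsEquivariant (A := indRep W (Rep.res r M)) (B := Rep.res r (indRep U M))
      (indLocGlob M h) := by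
  intro g
  have : (indLocGlob M h) ∘ₗ (indAct W (Rep.res r M) g) =
      (indAct U M (r g)) ∘ₗ (indLocGlob M h) := by
    apply Finsupp.lhom_ext
    intro x m
    rw [LinearMap.comp_apply, LinearMap.comp_apply, indAct_single, indLocGlob_single,
      indLocGlob_single, indAct_single, quotMap_smul]
    rfl
  exact fun a => LinearMap.congr_fun this a

variable {r U W} in
lemma indAug_indLocGlob (h : W ≤ U.comap r) (a : (G' ⧸ W) →₀ M) :
    indAug U M (indLocGlob M h a) = indAug W (Rep.res r M) a := by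
  have : (indAug U M) ∘ₗ (indLocGlob M h) = indAug W (Rep.res r M) := by
    apply Finsupp.lhom_ext
    intro x m
    rw [LinearMap.comp_apply, indLocGlob_single, indAug_single]
    exact (indAug_single W (Rep.res r M) x m).symm
  exact LinearMap.congr_fun this a

end LocGlob

/-! ### duals -/

section Dual

variable (χ : G →* kˣ)

/-- the dual of an equivariant map is equivariant for the twisted duals -/
lemma dualMap_equivariant {A B : Rep.{0, 0, 0} k G} (φ : A →ₗ[k] B) (hφ : IsEquivariant φ) :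
    IsEquivariant (A := B.dualTwist χ) (B := A.dualTwist χ) φ.dualMap := by
  intro g f
  apply LinearMap.ext
  intro a
  have hφ' : ∀ (g : G) (a : A), φ (A.ρ g a) = B.ρ g (φ a) := hφ
  show (((B.ρ.dual.twist χ) g) f) (φ a) = (((A.ρ.dual.twist χ) g) (φ.dualMap f)) a
  simp only [Representation.twist_apply_apply, Representation.dual_apply, LinearMap.smul_apply,
    Module.Dual.transpose_apply, LinearMap.comp_apply, LinearMap.dualMap_apply, hφ']

/-- the dual short exact sequence `0 → C′ → B′ → A′ → 0` -/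
def SES.dual {A B C : Rep.{0, 0, 0} k G} (E : SES A B C) :
    SES (C.dualTwist χ) (B.dualTwist χ) (A.dualTwist χ) where
  i := E.π.dualMap
  π := E.i.dualMap
  hi := dualMap_equivariant χ E.π E.hπ
  hπ := dualMap_equivariant χ E.i E.hi
  inj := LinearMap.dualMap_injective_of_surjective E.surj
  surj := LinearMap.dualMap_surjective_of_injective E.inj
  exact := by
    rw [LinearMap.range_dualMap_eq_dualAnnihilator_ker, LinearMap.ker_dualMap_eq_dualAnnihilator_range,
      E.exact]

end Dual

end Fermat.Agent.S55.PT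

end

end
-- ===== PACK-END S55/PT/Ind.lean

-- ===== PACK-BEGIN S55/PT/ConeExactH113.lean
section


/-!
# S55 / PT layer, leaf D-F4 (helper113): exactness of the cone sequence

`∏_v H¹(G_v, A) →j H²_c(A) →u H²(A) →loc ∏_v H²(G_v, A)` is exact at `H²_c(A)` and at `H²(A)`.
-/

set_option autoImplicit false

noncomputable section

namespace Fermat.Agent.S55.PT.H113

open groupCohomology Fermat.Agent.S55.PT

variable {k : Type} [Field k] {G : Type} [Group G]
variable {ι : Type} [Fintype ι] [DecidableEq ι] {Gv : ι → Type} [∀ v, Group (Gv v)]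
variable {L : LevelSys G} {Lv : ∀ v, LevelSys (Gv v)} {r : ∀ v, Gv v →* G}
variable (hr : ∀ v, IsLevelCompatible (r v) L (Lv v))
variable (A : Rep.{0, 0, 0} k G)

/-- every family of local classes is a family of classes of cocycles. -/
lemma exists_locZ1 (y : (v : ι) → (Lv v).H1 (Rep.res (r v) A)) :
    ∃ b : (v : ι) → ↥((Lv v).Z1 (Rep.res (r v) A)), (fun v => (Lv v).H1π _ (b v)) = y := by
  choose b hb using fun v => (Lv v).H1π_surjective (Rep.res (r v) A) (y v)
  exact ⟨b, funext hb⟩

/-- `u ∘ j = 0`. -/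
theorem uH_jH (y : (v : ι) → (Lv v).H1 (Rep.res (r v) A)) :
    uH (L := L) (Lv := Lv) (r := r) A (jH (L := L) (Lv := Lv) (r := r) A y) = 0 := by
  obtain ⟨b, rfl⟩ := exists_locZ1 A y
  rw [jH_mk, uH_mk]
  have : uZ (L := L) (Lv := Lv) (r := r) A (jZ A b) = 0 := by
    apply Subtype.ext
    rfl
  rw [this, map_zero]

include hr in
/-- (D-F4) exactness at `H²_c`: `ker u = im j`. -/
theorem ker_uH :
    LinearMap.ker (uH (L := L) (Lv := Lv) (r := r) A) = LinearMap.range (jH (L := L) (Lv := Lv) (r := r) A) := by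
  ext x
  rw [LinearMap.mem_ker, LinearMap.mem_range]
  constructor
  · intro hx
    obtain ⟨z, rfl⟩ := Hc2π_surjective A x
    rw [uH_mk, LevelSys.H2π_eq_zero_iff] at hx
    obtain ⟨y, hy, hyz⟩ := hx
    have hylc : L.IsLC₁ y := hy
    have hyz' : (d₁₂ A).hom y = (z : (G × G → A) × ((v : ι) → Gv v → A)).1 := hyz
    have hb : ∀ v, ((z : (G × G → A) × ((v : ι) → Gv v → A)).2 v - y ∘ r v :
        Gv v → Rep.res (r v) A) ∈ (Lv v).Z1 (Rep.res (r v) A) := by
      intro v
      obtain ⟨hz1, hz2⟩ := z.2.2 v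
      refine ⟨?_, ((Lv v).C1 (Rep.res (r v) A)).sub_mem hz1 (IsLC₁.res (hr v) hylc)⟩
      show (d₁₂ (Rep.res (r v) A)).hom _ = 0
      rw [map_sub, hz2, res_d₁₂, hyz', sub_self]
    refine ⟨fun v => (Lv v).H1π _ ⟨_, hb v⟩, ?_⟩
    rw [jH_mk, ← sub_eq_zero, ← map_sub, Hc2π_eq_zero_iff]
    refine (mem_Bc2_iff A _).2 ⟨-y, fun _ => 0, (L.C1 A).neg_mem hy, ?_⟩
    apply Prod.ext
    · show (d₁₂ A).hom (-y) = (0 : G × G → A) - (z : (G × G → A) × ((v : ι) → Gv v → A)).1
      rw [map_neg, hyz', zero_sub]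
    · funext v g
      show (-y) (r v g) + ((d₀₁ (Rep.res (r v) A)).hom (0 : A) : Gv v → A) g =
        ((z : (G × G → A) × ((v : ι) → Gv v → A)).2 v g - y (r v g)) -
          (z : (G × G → A) × ((v : ι) → Gv v → A)).2 v g
      rw [map_zero]
      simp
      rfl
  · rintro ⟨y, rfl⟩
    exact uH_jH A y

/-- (D-F4) exactness at `H²`: `im u = ker loc2 = Ш²`. -/
theorem range_uH :
    LinearMap.range (uH (L := L) (Lv := Lv) (r := r) A) = LinearMap.ker (loc2 hr A) := by
  ext x
  rw [LinearMap.mem_range, LinearMap.mem_ker]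
  constructor
  · rintro ⟨y, rfl⟩
    obtain ⟨z, rfl⟩ := Hc2π_surjective A y
    rw [uH_mk]
    funext v
    rw [loc2_apply, resH2_mk, Pi.zero_apply, LevelSys.H2π_eq_zero_iff]
    obtain ⟨hz1, hz2⟩ := z.2.2 v
    exact ⟨_, hz1, hz2⟩
  · intro hx
    obtain ⟨a, rfl⟩ := L.H2π_surjective A x
    have hx' : ∀ v, ((a : G × G → A) ∘ Prod.map (r v) (r v) :
        Gv v × Gv v → Rep.res (r v) A) ∈ (Lv v).B2 (Rep.res (r v) A) := by
      intro v
      have := congrFun hx v
      rw [loc2_apply, resH2_mk, Pi.zero_apply, LevelSys.H2π_eq_zero_iff] at this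
      exact this
    choose b hb hbd using hx'
    have hz : ((a : G × G → A), fun v => (b v : Gv v → A)) ∈ Zc2 L Lv r A :=
      ⟨a.2, fun v => ⟨hb v, hbd v⟩⟩
    refine ⟨Hc2π L Lv r A ⟨_, hz⟩, ?_⟩
    rw [uH_mk]
    congr 1

/-- `Ш²(A)` is the image of `u`. -/
theorem mem_Sha2_iff_exists (x : L.H2 A) :
    x ∈ Sha2 hr A ↔ ∃ y : Hc2 L Lv r A, uH A y = x := by
  rw [← LinearMap.mem_range, range_uH hr A]

end Fermat.Agent.S55.PT.H113

end

end
-- ===== PACK-END S55/PT/ConeExactH113.lean

-- ===== PACK-BEGIN S55/H572/Cores.lean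
section


/-!
# Corestriction in all degrees, by dimension shifting

For a subgroup `H ≤ G` of finite index we construct `cor n A : Hⁿ(H, A) ⟶ Hⁿ(G, A)` for all
`n : ℕ`, natural in `A : Rep k G`, with `res ≫ cor = [G : H]`.

Degree `0` is the relative norm on invariants; the step `n → n + 1` descends
`cor n (up A) ≫ δ_G` along the epimorphism `δ_H : Hⁿ(H, up A) → Hⁿ⁺¹(H, A)`.
-/

set_option autoImplicit false

open CategoryTheory groupCohomology Rep Limits

universe u

namespace Fermat.Agent.S55.H572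

noncomputable section

variable {k G : Type u} [CommRing k] [Group G]

/-! ### Restriction commutes with connecting homomorphisms -/

/-- Restriction to `H` as a morphism of short complexes of cochain complexes. -/
def resCochainsSC (S : ShortComplex (Rep.{u} k G)) (H : Subgroup G) :
    S.map (cochainsFunctor k G) ⟶ (S.map (resFunctor H.subtype)).map (cochainsFunctor k H) where
  τ₁ := cochainsMap H.subtype (𝟙 (res H.subtype S.X₁))
  τ₂ := cochainsMap H.subtype (𝟙 (res H.subtype S.X₂))
  τ₃ := cochainsMap H.subtype (𝟙 (res H.subtype S.X₃))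
  comm₁₂ := rfl
  comm₂₃ := rfl

/-- The restriction map `Hⁿ(G, A) ⟶ Hⁿ(H, A)`. -/
abbrev resH (H : Subgroup G) (A : Rep.{u} k G) (n : ℕ) :
    groupCohomology A n ⟶ groupCohomology (res H.subtype A) n :=
  groupCohomology.map H.subtype (𝟙 (res H.subtype A)) n

/-- Restriction commutes with the connecting homomorphisms. -/
theorem δ_resH {S : ShortComplex (Rep.{u} k G)} (hS : S.ShortExact) (H : Subgroup G)
    (i j : ℕ) (hij : i + 1 = j) :
    groupCohomology.δ hS i j hij ≫ resH H S.X₁ j =
      resH H S.X₃ i ≫ groupCohomology.δ ((Rep.shortExact_res H.subtype).2 hS) i j hij :=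
  HomologicalComplex.HomologySequence.δ_naturality (resCochainsSC S H)
    (map_cochainsFunctor_shortExact hS)
    (map_cochainsFunctor_shortExact ((Rep.shortExact_res H.subtype).2 hS)) i j hij

set_option backward.isDefEq.respectTransparency false in
/-- Restriction is natural in the coefficients. -/
theorem resH_naturality (H : Subgroup G) {A B : Rep.{u} k G} (f : A ⟶ B) (n : ℕ) :
    groupCohomology.map (MonoidHom.id G) f n ≫ resH H B n =
      resH H A n ≫ groupCohomology.map (MonoidHom.id H) ((resFunctor H.subtype).map f) n :=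
  (resNatTrans (k := k) H.subtype n).naturality f

/-! ### `coind₁` over `G` itself -/

theorem isZero_groupCohomology_coind₁ (A : Rep.{u} k G) (n : ℕ) :
    IsZero (groupCohomology (coind₁ A) (n + 1)) :=
  IsZero.of_iso (isZero_groupCohomology_succ_of_subsingleton _ n)
    (groupCohomology.coindIso (res (⊥ : Subgroup G).subtype A) (n + 1))

/-- `δ_G : Hⁿ(G, up A) → Hⁿ⁺¹(G, A)` is an epimorphism for every `n`. -/
theorem epi_δ_upG (A : Rep.{u} k G) (n : ℕ) :
    Epi (groupCohomology.δ (upSC_shortExact A) n (n + 1) rfl) :=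
  groupCohomology.epi_δ_of_isZero (upSC_shortExact A) n (isZero_groupCohomology_coind₁ A n)

/-- `δ_H : Hⁿ(H, up A) → Hⁿ⁺¹(H, A)` is an epimorphism for every `n`. -/
theorem epi_δ_upH (H : Subgroup G) (A : Rep.{u} k G) (n : ℕ) :
    Epi (groupCohomology.δ (upSCRes_shortExact H A) n (n + 1) rfl) :=
  groupCohomology.epi_δ_of_isZero (upSCRes_shortExact H A) n
    (isZero_groupCohomology_res_coind₁ H A n)

/-! ### Degree `0`: the relative norm -/

section deg0

variable (H : Subgroup G) [Fintype (G ⧸ H)]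

lemma ρ_eq_of_mem_invariants (A : Rep.{u} k G) {x : A.V}
    (hx : x ∈ (res H.subtype A).ρ.invariants) {a b : G} (hab : a⁻¹ * b ∈ H) :
    A.ρ a x = A.ρ b x := by
  have h1 : A.ρ (a⁻¹ * b) x = x := hx ⟨a⁻¹ * b, hab⟩
  calc A.ρ a x = A.ρ a (A.ρ (a⁻¹ * b) x) := by rw [h1]
    _ = A.ρ (a * (a⁻¹ * b)) x := by rw [map_mul A.ρ a (a⁻¹ * b)]; rfl
    _ = A.ρ b x := by rw [mul_inv_cancel_left]

lemma ρ_out_eq (A : Rep.{u} k G) {x : A.V}
    (hx : x ∈ (res H.subtype A).ρ.invariants) (g : G) :
    A.ρ (QuotientGroup.mk g : G ⧸ H).out x = A.ρ g x :=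
  ρ_eq_of_mem_invariants H A hx
    (QuotientGroup.leftRel_apply.mp (Quotient.exact' (QuotientGroup.out_eq' _)))

/-- The relative norm `A^H → A^G`, `x ↦ ∑_{q ∈ G/H} q x`. -/
def corInv (A : Rep.{u} k G) : (res H.subtype A).ρ.invariants →ₗ[k] A.ρ.invariants where
  toFun x := ⟨∑ q : G ⧸ H, A.ρ q.out x.1, fun g => by
    rw [map_sum]
    have h1 : ∀ q : G ⧸ H, A.ρ g (A.ρ q.out x.1) = A.ρ (g • q).out x.1 := by
      intro q
      have h2 : (g • q : G ⧸ H) = QuotientGroup.mk (g * q.out) := by
        conv_lhs => rw [← QuotientGroup.out_eq' q]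
        rfl
      rw [h2, ρ_out_eq H A x.2, map_mul]
      rfl
    rw [Finset.sum_congr rfl (fun q _ => h1 q)]
    exact Fintype.sum_equiv (MulAction.toPerm g) _ _ (fun q => rfl)⟩
  map_add' x y := by
    apply Subtype.ext
    simp [Finset.sum_add_distrib]
  map_smul' r x := by
    apply Subtype.ext
    simp [Finset.smul_sum]

lemma corInv_coe (A : Rep.{u} k G) (x : (res H.subtype A).ρ.invariants) :
    ((corInv H A x : A.ρ.invariants) : A.V) = ∑ q : G ⧸ H, A.ρ q.out x.1 := rfl

/-- The inclusion `A^G → A^H`. -/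
def inclInv (A : Rep.{u} k G) : A.ρ.invariants →ₗ[k] (res H.subtype A).ρ.invariants where
  toFun x := ⟨x.1, fun h => x.2 h.1⟩
  map_add' _ _ := rfl
  map_smul' _ _ := rfl

lemma corInv_inclInv (A : Rep.{u} k G) (x : A.ρ.invariants) :
    corInv H A (inclInv H A x) = H.index • x := by
  apply Subtype.ext
  rw [corInv_coe]
  have h1 : ∀ q : G ⧸ H, A.ρ q.out (inclInv H A x).1 = x.1 := fun q => x.2 q.out
  rw [Finset.sum_congr rfl (fun q _ => h1 q), Finset.sum_const, Finset.card_univ,
    Subgroup.index_eq_card, Nat.card_eq_fintype_card]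
  simp

/-- Corestriction in degree `0`. -/
def cor0 (A : Rep.{u} k G) :
    groupCohomology (res H.subtype A) 0 ⟶ groupCohomology A 0 :=
  (H0Iso (res H.subtype A)).hom ≫ ModuleCat.ofHom (corInv H A) ≫ (H0Iso A).inv

set_option backward.isDefEq.respectTransparency false in
lemma resH_H0Iso (A : Rep.{u} k G) :
    resH H A 0 ≫ (H0Iso (res H.subtype A)).hom =
      (H0Iso A).hom ≫ ModuleCat.ofHom (inclInv H A) := by
  have hmono : Mono (shortComplexH0 (res H.subtype A)).f := by
    rw [ModuleCat.mono_iff_injective]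
    exact Subtype.val_injective
  apply (cancel_mono (shortComplexH0 (res H.subtype A)).f).mp
  have h := map_H0Iso_hom_f (A := A) (B := res H.subtype A) H.subtype (𝟙 (res H.subtype A))
  rw [Category.assoc]
  exact h

lemma inclInv_corInv (A : Rep.{u} k G) :
    ModuleCat.ofHom (inclInv H A) ≫ ModuleCat.ofHom (corInv H A) =
      H.index • 𝟙 (ModuleCat.of k A.ρ.invariants) := by
  apply ModuleCat.hom_ext
  apply LinearMap.ext
  intro x
  exact corInv_inclInv H A x

theorem resH_cor0 (A : Rep.{u} k G) :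
    resH H A 0 ≫ cor0 H A = H.index • 𝟙 (groupCohomology A 0) := by
  rw [cor0, ← Category.assoc, resH_H0Iso, Category.assoc,
    ← Category.assoc (ModuleCat.ofHom (inclInv H A)), inclInv_corInv,
    Preadditive.nsmul_comp, Preadditive.comp_nsmul, Category.id_comp, Iso.hom_inv_id]

lemma invariants_map_corInv {A B : Rep.{u} k G} (f : A ⟶ B) :
    (invariantsFunctor k H).map ((resFunctor H.subtype).map f) ≫ ModuleCat.ofHom (corInv H B) =
      ModuleCat.ofHom (corInv H A) ≫ (invariantsFunctor k G).map f := by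
  apply ModuleCat.hom_ext
  apply LinearMap.ext
  intro x
  apply Subtype.ext
  change ∑ q : G ⧸ H, B.ρ q.out (f.hom x.1) = f.hom (∑ q : G ⧸ H, A.ρ q.out x.1)
  rw [map_sum]
  exact Finset.sum_congr rfl (fun q _ => (Rep.hom_comm_apply f q.out x.1).symm)

set_option backward.isDefEq.respectTransparency false in
theorem cor0_naturality {A B : Rep.{u} k G} (f : A ⟶ B) :
    groupCohomology.map (MonoidHom.id H) ((resFunctor H.subtype).map f) 0 ≫ cor0 H B =
      cor0 H A ≫ groupCohomology.map (MonoidHom.id G) f 0 := by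
  have h1 : (H0Iso A).inv ≫ groupCohomology.map (MonoidHom.id G) f 0 =
      (invariantsFunctor k G).map f ≫ (H0Iso B).inv := by
    rw [Iso.inv_comp_eq, ← Category.assoc, Iso.eq_comp_inv]
    exact map_id_comp_H0Iso_hom f
  have h2 : groupCohomology.map (MonoidHom.id H) ((resFunctor H.subtype).map f) 0 ≫
      (H0Iso (res H.subtype B)).hom =
      (H0Iso (res H.subtype A)).hom ≫
        (invariantsFunctor k H).map ((resFunctor H.subtype).map f) :=
    map_id_comp_H0Iso_hom ((resFunctor H.subtype).map f)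
  calc groupCohomology.map (MonoidHom.id H) ((resFunctor H.subtype).map f) 0 ≫ cor0 H B
      = (groupCohomology.map (MonoidHom.id H) ((resFunctor H.subtype).map f) 0 ≫
          (H0Iso (res H.subtype B)).hom) ≫ ModuleCat.ofHom (corInv H B) ≫ (H0Iso B).inv := by
        rw [cor0, Category.assoc]
    _ = (H0Iso (res H.subtype A)).hom ≫
          ((invariantsFunctor k H).map ((resFunctor H.subtype).map f) ≫
            ModuleCat.ofHom (corInv H B)) ≫ (H0Iso B).inv := by
        rw [h2, Category.assoc, Category.assoc]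
    _ = (H0Iso (res H.subtype A)).hom ≫ ModuleCat.ofHom (corInv H A) ≫
          ((invariantsFunctor k G).map f ≫ (H0Iso B).inv) := by
        rw [invariants_map_corInv, Category.assoc]
    _ = cor0 H A ≫ groupCohomology.map (MonoidHom.id G) f 0 := by
        rw [← h1, cor0, Category.assoc, Category.assoc]

end deg0

/-! ### The induction step -/

section step

/-- `δ_G : Hⁿ(G, up A) ⟶ Hⁿ⁺¹(G, A)`. -/
def δG (A : Rep.{u} k G) (n : ℕ) : groupCohomology (up A) n ⟶ groupCohomology A (n + 1) :=
  groupCohomology.δ (upSC_shortExact A) n (n + 1) rfl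

/-- `δ_H : Hⁿ(H, up A) ⟶ Hⁿ⁺¹(H, A)`. -/
def δH (H : Subgroup G) (A : Rep.{u} k G) (n : ℕ) :
    groupCohomology (res H.subtype (up A)) n ⟶ groupCohomology (res H.subtype A) (n + 1) :=
  groupCohomology.δ (upSCRes_shortExact H A) n (n + 1) rfl

/-- `Hⁿ(G, coind₁ A) ⟶ Hⁿ(G, up A)`. -/
def πG (A : Rep.{u} k G) (n : ℕ) : groupCohomology (coind₁ A) n ⟶ groupCohomology (up A) n :=
  groupCohomology.map (MonoidHom.id G) (upπ A) n

/-- `Hⁿ(H, coind₁ A) ⟶ Hⁿ(H, up A)`. -/
def πH (H : Subgroup G) (A : Rep.{u} k G) (n : ℕ) :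
    groupCohomology (res H.subtype (coind₁ A)) n ⟶ groupCohomology (res H.subtype (up A)) n :=
  groupCohomology.map (MonoidHom.id H) ((resFunctor H.subtype).map (upπ A)) n

lemma πH_δH (H : Subgroup G) (A : Rep.{u} k G) (n : ℕ) : πH H A n ≫ δH H A n = 0 :=
  (map_cochainsFunctor_shortExact (upSCRes_shortExact H A)).comp_δ n (n + 1) rfl

lemma πG_δG (A : Rep.{u} k G) (n : ℕ) : πG A n ≫ δG A n = 0 :=
  (map_cochainsFunctor_shortExact (upSC_shortExact A)).comp_δ n (n + 1) rfl

lemma exact_πH_δH (H : Subgroup G) (A : Rep.{u} k G) (n : ℕ) :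
    (ShortComplex.mk (πH H A n) (δH H A n) (πH_δH H A n)).Exact :=
  (map_cochainsFunctor_shortExact (upSCRes_shortExact H A)).homology_exact₃ n (n + 1) rfl

instance epi_δH (H : Subgroup G) (A : Rep.{u} k G) (n : ℕ) : Epi (δH H A n) :=
  epi_δ_upH H A n

instance epi_δG (A : Rep.{u} k G) (n : ℕ) : Epi (δG A n) :=
  epi_δ_upG A n

lemma δG_resH (H : Subgroup G) (A : Rep.{u} k G) (n : ℕ) :
    δG A n ≫ resH H A (n + 1) = resH H (up A) n ≫ δH H A n :=
  δ_resH (upSC_shortExact A) H n (n + 1) rfl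

lemma δH_natural (H : Subgroup G) {A B : Rep.{u} k G} (f : A ⟶ B) (n : ℕ) :
    δH H A n ≫ groupCohomology.map (MonoidHom.id H) ((resFunctor H.subtype).map f) (n + 1) =
      groupCohomology.map (MonoidHom.id H) ((resFunctor H.subtype).map (upMap f)) n ≫
        δH H B n :=
  groupCohomology.δ_naturality (upSCRes_shortExact H A) (upSCRes_shortExact H B)
    ((resFunctor H.subtype).mapShortComplex.map (upSCMap f)) n (n + 1) rfl

lemma δG_natural {A B : Rep.{u} k G} (f : A ⟶ B) (n : ℕ) :
    δG A n ≫ groupCohomology.map (MonoidHom.id G) f (n + 1) =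
      groupCohomology.map (MonoidHom.id G) (upMap f) n ≫ δG B n :=
  groupCohomology.δ_naturality (upSC_shortExact A) (upSC_shortExact B) (upSCMap f) n (n + 1) rfl

variable (H : Subgroup G)

/-- A corestriction in degree `n`: a family `Hⁿ(H, A) ⟶ Hⁿ(G, A)`, natural in `A`, with
`res ≫ cor = [G : H]`. -/
structure CorData (n : ℕ) : Type (u + 1) where
  /-- the corestriction maps -/
  cor : ∀ A : Rep.{u} k G, groupCohomology (res H.subtype A) n ⟶ groupCohomology A n
  res_cor : ∀ A : Rep.{u} k G, resH H A n ≫ cor A = H.index • 𝟙 (groupCohomology A n)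
  natural : ∀ {A B : Rep.{u} k G} (f : A ⟶ B),
    groupCohomology.map (MonoidHom.id H) ((resFunctor H.subtype).map f) n ≫ cor B =
      cor A ≫ groupCohomology.map (MonoidHom.id G) f n

variable {H}

lemma corSucc_aux {n : ℕ} (D : CorData (k := k) H n) (A : Rep.{u} k G) :
    πH H A n ≫ D.cor (up A) ≫ δG A n = 0 := by
  have h1 : πH H A n ≫ D.cor (up A) = D.cor (coind₁ A) ≫ πG A n := D.natural (upπ A)
  rw [← Category.assoc, h1, Category.assoc, πG_δG, comp_zero]

/-- The corestriction in degree `n + 1`, obtained by descending `cor n (up A) ≫ δ_G` along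
the epimorphism `δ_H`. -/
def corSucc {n : ℕ} (D : CorData (k := k) H n) (A : Rep.{u} k G) :
    groupCohomology (res H.subtype A) (n + 1) ⟶ groupCohomology A (n + 1) :=
  (exact_πH_δH H A n).desc (D.cor (up A) ≫ δG A n) (corSucc_aux D A)

lemma δH_corSucc {n : ℕ} (D : CorData (k := k) H n) (A : Rep.{u} k G) :
    δH H A n ≫ corSucc D A = D.cor (up A) ≫ δG A n :=
  (exact_πH_δH H A n).g_desc _ (corSucc_aux D A)

lemma resH_corSucc {n : ℕ} (D : CorData (k := k) H n) (A : Rep.{u} k G) :
    resH H A (n + 1) ≫ corSucc D A = H.index • 𝟙 (groupCohomology A (n + 1)) := by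
  rw [← cancel_epi (δG A n), ← Category.assoc, δG_resH, Category.assoc, δH_corSucc,
    ← Category.assoc, D.res_cor, Preadditive.nsmul_comp, Preadditive.comp_nsmul,
    Category.id_comp, Category.comp_id]

lemma corSucc_natural {n : ℕ} (D : CorData (k := k) H n) {A B : Rep.{u} k G} (f : A ⟶ B) :
    groupCohomology.map (MonoidHom.id H) ((resFunctor H.subtype).map f) (n + 1) ≫ corSucc D B =
      corSucc D A ≫ groupCohomology.map (MonoidHom.id G) f (n + 1) := by
  rw [← cancel_epi (δH H A n), ← Category.assoc, δH_natural H f n, Category.assoc, δH_corSucc,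
    ← Category.assoc, D.natural (upMap f), Category.assoc]
  erw [← δG_natural f n]
  rw [← Category.assoc, ← δH_corSucc, Category.assoc]

/-- The induction step `CorData n → CorData (n + 1)`. -/
def CorData.succ {n : ℕ} (D : CorData (k := k) H n) : CorData (k := k) H (n + 1) where
  cor := corSucc D
  res_cor := resH_corSucc D
  natural := corSucc_natural D

end step

/-! ### Corestriction in all degrees -/

section main

variable (H : Subgroup G) [Fintype (G ⧸ H)]

/-- The corestriction data in degree `0`. -/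
def corData0 : CorData (k := k) H 0 where
  cor := cor0 H
  res_cor := resH_cor0 H
  natural := cor0_naturality H

/-- The corestriction data in all degrees. -/
def corData : ∀ n : ℕ, CorData (k := k) H n
  | 0 => corData0 H
  | n + 1 => (corData n).succ

/-- **Corestriction** `Hⁿ(H, A) ⟶ Hⁿ(G, A)`. -/
def cor (n : ℕ) (A : Rep.{u} k G) :
    groupCohomology (res H.subtype A) n ⟶ groupCohomology A n :=
  (corData H n).cor A

/-- `cor ∘ res = [G : H]`. -/
theorem resH_cor (n : ℕ) (A : Rep.{u} k G) :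
    resH H A n ≫ cor H n A = H.index • 𝟙 (groupCohomology A n) :=
  (corData H n).res_cor A

/-- Corestriction is natural in the coefficients. -/
theorem cor_natural (n : ℕ) {A B : Rep.{u} k G} (f : A ⟶ B) :
    groupCohomology.map (MonoidHom.id H) ((resFunctor H.subtype).map f) n ≫ cor H n B =
      cor H n A ≫ groupCohomology.map (MonoidHom.id G) f n :=
  (corData H n).natural f

/-- Corestriction commutes with the connecting homomorphisms of `upSC`. -/
theorem δH_cor (n : ℕ) (A : Rep.{u} k G) :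
    δH H A n ≫ cor H (n + 1) A = cor H n (up A) ≫ δG A n :=
  δH_corSucc (corData H n) A

/-- If `res_H x = 0` then `[G : H] • x = 0`. -/
theorem index_nsmul_eq_zero_of_resH_eq_zero (n : ℕ) (A : Rep.{u} k G)
    (x : groupCohomology A n) (hx : (resH H A n).hom x = 0) : H.index • x = 0 := by
  have h1 := congrArg (fun f => f.hom x) (resH_cor H n A)
  simp only [ModuleCat.hom_comp, LinearMap.comp_apply, hx, map_zero] at h1
  rw [← h1.symm]
  rfl

end main

end

end Fermat.Agent.S55.H572

end
-- ===== PACK-END S55/H572/Cores.lean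

-- ===== PACK-BEGIN S55/KL/H496/TrUnits.lean
section



/-!
# S55 / layer KL, leaf KL-TR (helper496), part 3: `(Ωˣ)^{V ∩ U} ≃ Mˣ` and the transport

`U = Gal(Ω/E)`, `V = Gal(Ω/E')`, `M = E·E'`.
-/

set_option autoImplicit false

noncomputable section

namespace Fermat.Agent.S55.KL.H496

open IntermediateField Polynomial CategoryTheory groupCohomology

variable {K Ω : Type} [Field K] [Field Ω] [Algebra K Ω] [IsGalois K Ω]
variable (E E' : IntermediateField K Ω) [FiniteDimensional K E'] [IsGalois K E']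

/-- The source representation: `(Ωˣ)^{V ∩ U}` as a `U/(V ∩ U)`-module. -/
abbrev srcRep496 : Rep.{0} ℤ (↥E.fixingSubgroup ⧸ (E'.fixingSubgroup).subgroupOf E.fixingSubgroup) :=
  (Rep.res E.fixingSubgroup.subtype (unitsOm K Ω)).quotientToInvariants
    ((E'.fixingSubgroup).subgroupOf E.fixingSubgroup)

/-- The target representation: `Mˣ` as a `Gal(M/E)`-module. -/
abbrev tgtRep496 : Rep.{0} ℤ (↥(comp496 E E') ≃ₐ[↥E] ↥(comp496 E E')) :=
  Rep.ofAlgebraAutOnUnits ↥E ↥(comp496 E E')

/-- Elements of `M` are fixed by `V ∩ U`. -/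
theorem fixed_of_mem_comp496 (x : Ω) (hx : x ∈ comp496 E E') (w : Ω ≃ₐ[K] Ω)
    (hwU : w ∈ E.fixingSubgroup) (hwV : w ∈ E'.fixingSubgroup) : w x = x := by
  have hw : w ∈ (E ⊔ E').fixingSubgroup := by
    rw [IntermediateField.fixingSubgroup_sup]
    exact ⟨hwU, hwV⟩
  exact (IntermediateField.mem_fixingSubgroup_iff _ _).1 hw x hx

/-- Elements of `Ω` fixed by `V ∩ U` lie in `M`. -/
theorem mem_comp496_of_fixed (x : Ω)
    (hx : ∀ w : Ω ≃ₐ[K] Ω, w ∈ E.fixingSubgroup → w ∈ E'.fixingSubgroup → w x = x) :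
    x ∈ comp496 E E' := by
  show x ∈ E ⊔ E'
  rw [← InfiniteGalois.fixedField_fixingSubgroup (E ⊔ E'),
    IntermediateField.mem_fixedField_iff]
  intro w hw
  rw [IntermediateField.fixingSubgroup_sup] at hw
  exact hx w hw.1 hw.2

/-- The underlying unit of `Ω` of an element of the module `Ωˣ`. -/
def srcUnit496 (x : (Rep.res E.fixingSubgroup.subtype (unitsOm K Ω)).V) : Ωˣ :=
  Additive.toMul (show Additive Ωˣ from x)

/-- The underlying unit of `M` of an element of the module `Mˣ`. -/
def tgtUnit496 (y : (tgtRep496 E E').V) : (↥(comp496 E E'))ˣ :=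
  Additive.toMul (show Additive (↥(comp496 E E'))ˣ from y)

/-- The inclusion `Mˣ → Ωˣ`, linear. -/
def unitsInclLin496 :
    (tgtRep496 E E').V →ₗ[ℤ] (Rep.res E.fixingSubgroup.subtype (unitsOm K Ω)).V :=
  (MonoidHom.toAdditive
    (Units.map (algebraMap ↥(comp496 E E') Ω : ↥(comp496 E E') →* Ω))).toIntLinearMap

theorem srcUnit496_unitsInclLin496 (y : (tgtRep496 E E').V) :
    ((srcUnit496 E (unitsInclLin496 E E' y) : Ωˣ) : Ω) = ((tgtUnit496 E E' y : _) : Ω) := rfl

theorem srcUnit496_ρ (u : ↥E.fixingSubgroup)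
    (x : (Rep.res E.fixingSubgroup.subtype (unitsOm K Ω)).V) :
    ((srcUnit496 E ((Rep.res E.fixingSubgroup.subtype (unitsOm K Ω)).ρ u x) : Ωˣ) : Ω) =
      (u : Ω ≃ₐ[K] Ω) ((srcUnit496 E x : Ωˣ) : Ω) := rfl

theorem srcUnit496_injective (x x' : (Rep.res E.fixingSubgroup.subtype (unitsOm K Ω)).V)
    (h : ((srcUnit496 E x : Ωˣ) : Ω) = ((srcUnit496 E x' : Ωˣ) : Ω)) : x = x' :=
  Additive.toMul.injective (Units.ext h)

theorem tgtUnit496_injective (y y' : (tgtRep496 E E').V)
    (h : ((tgtUnit496 E E' y : _) : Ω) = ((tgtUnit496 E E' y' : _) : Ω)) : y = y' :=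
  Additive.toMul.injective (Units.ext (Subtype.ext h))

theorem unitsInclLin496_mem (y : (tgtRep496 E E').V) :
    unitsInclLin496 E E' y ∈ Representation.invariants
      ((Rep.res E.fixingSubgroup.subtype (unitsOm K Ω)).ρ.comp
        ((E'.fixingSubgroup).subgroupOf E.fixingSubgroup).subtype) := by
  rintro ⟨⟨w, hwU⟩, hwV⟩
  apply srcUnit496_injective
  show (w : Ω ≃ₐ[K] Ω) ((srcUnit496 E (unitsInclLin496 E E' y) : Ωˣ) : Ω) = _
  exact fixed_of_mem_comp496 E E' _ (SetLike.coe_mem _) w hwU hwV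

/-- The inclusion `Mˣ → (Ωˣ)^{V ∩ U}`. -/
def unitsIncl496 : (tgtRep496 E E').V →ₗ[ℤ] (srcRep496 E E').V :=
  LinearMap.codRestrict _ (unitsInclLin496 E E') (unitsInclLin496_mem E E')

theorem coe_unitsIncl496 (y : (tgtRep496 E E').V) :
    ((unitsIncl496 E E' y : _) : (Rep.res E.fixingSubgroup.subtype (unitsOm K Ω)).V) =
      unitsInclLin496 E E' y := rfl

theorem unitsIncl496_bijective : Function.Bijective (unitsIncl496 E E') := by
  constructor
  · intro y z h
    apply tgtUnit496_injective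
    have h1 := congrArg (fun t : (srcRep496 E E').V =>
      ((srcUnit496 E (t : (Rep.res E.fixingSubgroup.subtype (unitsOm K Ω)).V) : Ωˣ) : Ω)) h
    exact h1
  · rintro ⟨x, hx⟩
    have hfix : ∀ (t : Ωˣ), (∀ w : Ω ≃ₐ[K] Ω, w ∈ E.fixingSubgroup → w ∈ E'.fixingSubgroup →
        w (t : Ω) = t) → (t : Ω) ∈ comp496 E E' := fun t ht => mem_comp496_of_fixed E E' _ ht
    have hx' : ∀ w : Ω ≃ₐ[K] Ω, w ∈ E.fixingSubgroup → w ∈ E'.fixingSubgroup →
        w ((srcUnit496 E x : Ωˣ) : Ω) = (srcUnit496 E x : Ωˣ) := by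
      intro w hwU hwV
      have := hx ⟨⟨w, hwU⟩, hwV⟩
      exact congrArg (fun t => ((srcUnit496 E t : Ωˣ) : Ω)) this
    have hxinv : ∀ w : Ω ≃ₐ[K] Ω, w ∈ E.fixingSubgroup → w ∈ E'.fixingSubgroup →
        w (((srcUnit496 E x)⁻¹ : Ωˣ) : Ω) = ((srcUnit496 E x)⁻¹ : Ωˣ) := by
      intro w hwU hwV
      rw [Units.val_inv_eq_inv_val, map_inv₀, hx' w hwU hwV]
    have h1 := hfix _ hx'
    have h2 := hfix _ hxinv
    let yu : (↥(comp496 E E'))ˣ :=
      ⟨⟨_, h1⟩, ⟨_, h2⟩, Subtype.ext (Units.mul_inv _), Subtype.ext (Units.inv_mul _)⟩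
    refine ⟨(Additive.ofMul yu : Additive (↥(comp496 E E'))ˣ), ?_⟩
    apply Subtype.ext
    apply srcUnit496_injective
    rfl

/-- `(Ωˣ)^{V ∩ U} ≃ Mˣ`. -/
def unitsEquiv496 : (srcRep496 E E').V ≃ₗ[ℤ] (tgtRep496 E E').V :=
  (LinearEquiv.ofBijective (unitsIncl496 E E') (unitsIncl496_bijective E E')).symm

theorem tgtUnit496_ρ (σ : ↥(comp496 E E') ≃ₐ[↥E] ↥(comp496 E E')) (y : (tgtRep496 E E').V) :
    (tgtUnit496 E E' ((tgtRep496 E E').ρ σ y) : ↥(comp496 E E')) =
      σ (tgtUnit496 E E' y : ↥(comp496 E E')) := rfl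

theorem unitsIncl496_equivariant (u : ↥E.fixingSubgroup) (y : (tgtRep496 E E').V) :
    unitsIncl496 E E' ((tgtRep496 E E').ρ (resHom496 E E' u) y) =
      (srcRep496 E E').ρ (QuotientGroup.mk u) (unitsIncl496 E E' y) := by
  apply Subtype.ext
  apply srcUnit496_injective
  show ((tgtUnit496 E E' ((tgtRep496 E E').ρ (resHom496 E E' u) y) : _) : Ω) =
    (u : Ω ≃ₐ[K] Ω) ((tgtUnit496 E E' y : _) : Ω)
  rw [tgtUnit496_ρ]
  exact resHom496_apply E E' u _

theorem unitsEquiv496_equivariant
    (g : ↥E.fixingSubgroup ⧸ (E'.fixingSubgroup).subgroupOf E.fixingSubgroup) :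
    (unitsEquiv496 E E').toLinearMap ∘ₗ (srcRep496 E E').ρ g =
      (tgtRep496 E E').ρ (quotEquiv496 E E' g) ∘ₗ (unitsEquiv496 E E').toLinearMap := by
  induction g using QuotientGroup.induction_on with
  | H u =>
    refine LinearMap.ext fun b => ?_
    obtain ⟨y, rfl⟩ := (unitsIncl496_bijective E E').2 b
    have h1 : ∀ z, unitsEquiv496 E E' (unitsIncl496 E E' z) = z := fun z =>
      (LinearEquiv.ofBijective (unitsIncl496 E E') (unitsIncl496_bijective E E')).symm_apply_apply z
    show unitsEquiv496 E E' ((srcRep496 E E').ρ (QuotientGroup.mk u) (unitsIncl496 E E' y)) =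
      (tgtRep496 E E').ρ (quotEquiv496 E E' (QuotientGroup.mk u))
        (unitsEquiv496 E E' (unitsIncl496 E E' y))
    rw [h1, quotEquiv496_mk, ← unitsIncl496_equivariant, h1]

/-- The transport isomorphism `Hⁿ(U/(V ∩ U), (Ωˣ)^{V ∩ U}) ≅ Hⁿ(Gal(M/E), Mˣ)`. -/
def transportIso496 (n : ℕ) :
    groupCohomology (srcRep496 E E') n ≅ groupCohomology (tgtRep496 E E') n :=
  groupCohomology.mapIso (quotEquiv496 E E') (unitsEquiv496 E E')
    (unitsEquiv496_equivariant E E') n

end Fermat.Agent.S55.KL.H496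

end
end
-- ===== PACK-END S55/KL/H496/TrUnits.lean

-- ===== PACK-BEGIN S56/FL/Spec.lean
section


/-!
# Row S56 — wall W-FLAT-SS (flat tangent bound, `ρ̄|_{D_p}` irreducible): FROZEN interface
(sub-architect helper426; blueprint `coord/S56-FLATSS-helper426.md` on `origin/helper426`)

`FlatSSStatement ⇐ LocalModelStatement + RamCountStatement`   (glue: `FL/Glue.lean`)

* `FlatSSStatement` — any two flat tangent cocycles are `k`-linearly dependent modulo coboundaries
  on the decomposition group `D_P`, `P ∣ p`, when `ρ̄|_{D_P}` is irreducible.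
* `LocalModelStatement` (`ℚ̄`-side; uses flatness): the field `L` cut out over the decomposition
  field by `V'₁ ⊕ V'₂` has a finite-level model `(A ⊂ B, Γ = Gal)`, `A = P ∩ ℚ̄^{D}`, `B = P ∩ L`,
  and `B/A` satisfies the different bound of Theorem D:
  `𝔇_{B/A} ∣ (p) · 𝔪_B^{k-1}` for `p ∤ k`, `k < e`, `e < k (p - 1)`.
* `RamCountStatement` (pure algebra, Mathlib only; ramification filtration count): a discrete
  valuation ring `B` with Galois group `Γ` over an unramified base `A`, satisfying the different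
  bound, carries at most a line of classes of the relevant kind.
* `DiffCoreStatement` (pure algebra, Mathlib only; input of `LocalModelStatement`): if
  `A[X]/(G) ≅ A[X]/(G + pX^k)` for an Eisenstein polynomial `G`, then `v(G'(π)) ≤ v(p) + k - 1`.

Nothing unproved in this file.
-/

set_option autoImplicit false

open Polynomial IsLocalRing

noncomputable section

namespace Fermat.Agent.S56.FL

open Fermat.Agent.S56 Fermat.Agent.S56.H716

/-- **W-FLAT-SS, top statement.**  In the supersingular case (`ρ̄|_{D_P}` irreducible) any two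
flat tangent cocycles are linearly dependent modulo coboundaries on `D_P`. -/
def FlatSSStatement : Prop :=
  ∀ (k : Type) [Field k] [Finite k] (p : ℕ) [Fact p.Prime], p ≠ 2 → CharP k p →
    ∀ (ρbar : ResidualGaloisRep k),
      (∀ (σ : GQ) (a : ℕ), IsCycExp p σ a → LinearMap.det (ρbar.ρ σ) = (a : k)) →
      (∀ σ : GQ, ∃ α β : k, LinearMap.charpoly (ρbar.ρ σ) = (X - C α) * (X - C β)) →
      ∀ (P : ValuationSubring Qb), P.LiesOverPrime p →
        (∀ U : Submodule k ρbar.V,
          (∀ σ ∈ P.decompositionSubgroup ℚ, ∀ x ∈ U, ρbar.ρ σ x ∈ U) → U = ⊥ ∨ U = ⊤) →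
        ∀ (c₁ c₂ : GQ → Module.End k ρbar.V), IsAdCocycle ρbar c₁ → IsAdCocycle ρbar c₂ →
          ∀ (ρ₁ ρ₂ : GaloisRepAdic (DualNumber k)), IsLiftOf ρbar c₁ ρ₁ → IsLiftOf ρbar c₂ ρ₂ →
            ρ₁.IsFlatAt p → ρ₂.IsFlatAt p →
            ∃ a₁ a₂ : k, (a₁ ≠ 0 ∨ a₂ ≠ 0) ∧ ∃ m : Module.End k ρbar.V,
              ∀ σ ∈ P.decompositionSubgroup ℚ,
                a₁ • c₁ σ + a₂ • c₂ σ = ρbar.ρ σ * m * ρbar.ρ σ⁻¹ - m

/-- **RAMCOUNT** (pure algebra).  `A ⊂ B` discrete valuation rings of characteristic `0`,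
`A` with uniformizer `p` and residue field `𝔽_p`, `B/A` Galois with group `Γ`, satisfying the
different bound of Theorem D.  `ρ : Γ → GL(V)` an irreducible 2-dimensional representation over a
finite field `k` of characteristic `p` with eigenvalues in `k` and cyclotomic determinant,
`c₁, c₂` trace-zero `Ad ρ`-cocycles such that `(ρ, c₁, c₂)` is faithful.  Then `c₁, c₂` are linearly
dependent modulo coboundaries. -/
def RamCountStatement : Prop :=
  ∀ (p : ℕ) [Fact p.Prime], p ≠ 2 →
    ∀ (A B : Type) [CommRing A] [IsDomain A] [IsDiscreteValuationRing A]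
      [CommRing B] [IsDomain B] [IsDiscreteValuationRing B] [CharZero B]
      [Algebra A B] [Module.Finite A B] [FaithfulSMul A B]
      (Γ : Type) [Group Γ] [Finite Γ] [MulSemiringAction Γ B] [SMulCommClass Γ A B]
      [Algebra.IsInvariant A B Γ] [FaithfulSMul Γ B],
      maximalIdeal A = Ideal.span {(p : A)} →
      Nat.card (ResidueField A) = p →
      ∀ e : ℕ, Ideal.span {(p : B)} = maximalIdeal B ^ e →
      (∀ j : ℕ, ¬ p ∣ j → j < e → e < j * (p - 1) →
        differentIdeal A B ∣ Ideal.span {(p : B)} * maximalIdeal B ^ (j - 1)) →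
      ∀ (k : Type) [Field k] [Finite k], CharP k p →
      ∀ (V : Type) [AddCommGroup V] [Module k V] [Module.Finite k V], Module.finrank k V = 2 →
      ∀ (ρ : Γ →* Module.End k V),
        (∀ U : Submodule k V, (∀ (σ : Γ), ∀ x ∈ U, ρ σ x ∈ U) → U = ⊥ ∨ U = ⊤) →
        (∀ σ : Γ, ∃ α β : k, LinearMap.charpoly (ρ σ) = (X - C α) * (X - C β)) →
        ∀ ζ : B, IsPrimitiveRoot ζ p →
        (∀ (σ : Γ) (a : ℕ), σ • ζ = ζ ^ a → LinearMap.det (ρ σ) = (a : k)) →
        ∀ (c₁ c₂ : Γ → Module.End k V),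
          (∀ σ τ, c₁ (σ * τ) = c₁ σ + ρ σ * c₁ τ * ρ σ⁻¹) →
          (∀ σ τ, c₂ (σ * τ) = c₂ σ + ρ σ * c₂ τ * ρ σ⁻¹) →
          (∀ σ, LinearMap.trace k V (c₁ σ) = 0) →
          (∀ σ, LinearMap.trace k V (c₂ σ) = 0) →
          (∀ σ, ρ σ = 1 → c₁ σ = 0 → c₂ σ = 0 → σ = 1) →
          ∃ a₁ a₂ : k, (a₁ ≠ 0 ∨ a₂ ≠ 0) ∧ ∃ m : Module.End k V,
            ∀ σ, a₁ • c₁ σ + a₂ • c₂ σ = ρ σ * m * ρ σ⁻¹ - m

/-- **LOCALMODEL** (`ℚ̄`-side, the only place where flatness is used).  For two flat lifts
`ρ₁, ρ₂` of `ρ̄` to the dual numbers with cocycles `c₁, c₂`, the finite quotient `Γ` of `D_P` through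
which `(ρ̄, c₁, c₂)` factors is the Galois group of an extension `B/A` of discrete valuation rings
(`A = P ∩ ℚ̄^{D_P}` unramified over `ℤ_(p)`, `B = P ∩ L`) which satisfies the different bound. -/
def LocalModelStatement : Prop :=
  ∀ (k : Type) [Field k] [Finite k] (p : ℕ) [Fact p.Prime], p ≠ 2 → CharP k p →
    ∀ (ρbar : ResidualGaloisRep k),
      (∀ (σ : GQ) (a : ℕ), IsCycExp p σ a → LinearMap.det (ρbar.ρ σ) = (a : k)) →
      ∀ (P : ValuationSubring Qb), P.LiesOverPrime p →
        ∀ (c₁ c₂ : GQ → Module.End k ρbar.V), IsAdCocycle ρbar c₁ → IsAdCocycle ρbar c₂ →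
          ∀ (ρ₁ ρ₂ : GaloisRepAdic (DualNumber k)), IsLiftOf ρbar c₁ ρ₁ → IsLiftOf ρbar c₂ ρ₂ →
            ρ₁.IsFlatAt p → ρ₂.IsFlatAt p →
            ∃ (A B : Type) (_ : CommRing A) (_ : IsDomain A) (_ : IsDiscreteValuationRing A)
              (_ : CommRing B) (_ : IsDomain B) (_ : IsDiscreteValuationRing B) (_ : CharZero B)
              (_ : Algebra A B) (_ : Module.Finite A B) (_ : FaithfulSMul A B)
              (Γ : Type) (_ : Group Γ) (_ : Finite Γ) (_ : MulSemiringAction Γ B)
              (_ : SMulCommClass Γ A B) (_ : Algebra.IsInvariant A B Γ) (_ : FaithfulSMul Γ B)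
              (π : P.decompositionSubgroup ℚ →* Γ) (ζ : B) (e : ℕ),
              Function.Surjective π ∧
              (∀ σ : P.decompositionSubgroup ℚ,
                π σ = 1 ↔ (ρbar.ρ (σ : GQ) = 1 ∧ c₁ (σ : GQ) = 0 ∧ c₂ (σ : GQ) = 0)) ∧
              maximalIdeal A = Ideal.span {(p : A)} ∧
              Nat.card (ResidueField A) = p ∧
              IsPrimitiveRoot ζ p ∧
              (∀ (σ : P.decompositionSubgroup ℚ) (a : ℕ),
                π σ • ζ = ζ ^ a → IsCycExp p (σ : GQ) a) ∧
              Ideal.span {(p : B)} = maximalIdeal B ^ e ∧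
              ∀ j : ℕ, ¬ p ∣ j → j < e → e < j * (p - 1) →
                differentIdeal A B ∣ Ideal.span {(p : B)} * maximalIdeal B ^ (j - 1)

/-- **DCORE** (pure algebra; Theorem D, step "different comparison").  `A` a discrete valuation
ring of characteristic `0` with `(p) = 𝔪_A ^ a`, `a > 0`, `G` an Eisenstein polynomial of degree `e`,
`0 < j < e`, `p ∤ j`.  If `A[X]/(G)` and `A[X]/(G + p X^j)` are isomorphic `A`-algebras, then
`G'(π)` divides `π ^ (e a + j - 1)` in `A[X]/(G)`. -/
def DiffCoreStatement : Prop :=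
  ∀ (p : ℕ) [Fact p.Prime] (A : Type) [CommRing A] [IsDomain A] [IsDiscreteValuationRing A]
    [CharZero A] (a : ℕ), 0 < a → Ideal.span {(p : A)} = maximalIdeal A ^ a →
    ∀ (G : A[X]) (e j : ℕ), G.Monic → G.natDegree = e → G.IsEisensteinAt (maximalIdeal A) →
      ¬ p ∣ j → 0 < j → j < e →
      Nonempty (AdjoinRoot G ≃ₐ[A] AdjoinRoot (G + C (p : A) * X ^ j)) →
      aeval (AdjoinRoot.root G) (derivative G) ∣ (AdjoinRoot.root G) ^ (e * a + j - 1)

end Fermat.Agent.S56.FL

end

end
-- ===== PACK-END S56/FL/Spec.lean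

-- ===== PACK-BEGIN S56/H176/FLDEis.lean
section



/-!
# S56 / FL-D, part 4: Eisenstein polynomials and the perturbation comparison

* `FLD_exists_ram`        : an injective local homomorphism of DVRs has a ramification index;
* `FLD_eisenstein_root`   : a root `x` of an Eisenstein polynomial of degree `n` in a DVR of
  ramification index `e` over `A` satisfies `n · v(x) = e`;
* `FLD_minpoly_coeff_ge`, `FLD_minpoly_coeff_zero` : the minimal polynomial of a uniformiser of a
  totally ramified extension is Eisenstein;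
* `FLD_root_perturb`      : a root in `B` of `G + p X^k` is a uniformiser with that minimal
  polynomial;
* `FLD_addVal_deriv_le_of_root` : **comparison**: if `G + p X^k` has a root in `B`
  (`1 ≤ k < n`, `k` a unit of `A`, `p ∈ m_A`), then `v_B(G'(ϖ)) ≤ n · v_A(p) + (k - 1)`.
-/

set_option autoImplicit false

namespace Fermat.Agent.S56.H176

open IsDiscreteValuationRing Polynomial

section Ram

variable {A : Type*} [CommRing A] [IsDomain A] [IsDiscreteValuationRing A]
  {C : Type*} [CommRing C] [IsDomain C] [IsDiscreteValuationRing C] [Algebra A C]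

/-- An injective local homomorphism of discrete valuation rings has a ramification index. -/
theorem FLD_exists_ram (hinj : Function.Injective (algebraMap A C))
    (hloc : IsLocalHom (algebraMap A C)) :
    ∃ e : ℕ, e ≠ 0 ∧ ∀ a : A, addVal C (algebraMap A C a) = e • addVal A a := by
  obtain ⟨π, hπ⟩ := exists_irreducible A
  have hπ0 : algebraMap A C π ≠ 0 := fun h => hπ.ne_zero (hinj (by rw [h, map_zero]))
  have hne : addVal C (algebraMap A C π) ≠ ⊤ := fun h => hπ0 (addVal_eq_top_iff.mp h)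
  obtain ⟨e, he⟩ := ENat.ne_top_iff_exists.mp hne
  have he0 : e ≠ 0 := by
    rintro rfl
    have h1 : addVal C (algebraMap A C π) = 0 := by rw [← he]; rfl
    have h2 : IsUnit (algebraMap A C π) := addVal_eq_zero_iff.mp h1
    exact hπ.not_isUnit (hloc.map_nonunit π h2)
  refine ⟨e, he0, fun a => ?_⟩
  by_cases ha : a = 0
  · subst ha
    rw [map_zero, addVal_zero]
    simp [he0]
  · obtain ⟨m, u, rfl⟩ := eq_unit_mul_pow_irreducible ha hπ
    rw [map_mul, map_pow, addVal_mul, addVal_pow, ← he, addVal_def' u hπ m]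
    have hu : IsUnit (algebraMap A C (u : A)) := u.isUnit.map _
    rw [addVal_eq_zero_iff.mpr hu, zero_add]
    simp [mul_comm]

/-- A root of an Eisenstein polynomial of degree `n` has valuation `e / n`. -/
theorem FLD_eisenstein_root {e n : ℕ} (he : e ≠ 0)
    (hram : ∀ a : A, addVal C (algebraMap A C a) = e • addVal A a)
    (F : A[X]) (hF : F.Monic) (hn : F.natDegree = n) (hn0 : n ≠ 0)
    (hcoef : ∀ j < n, 1 ≤ addVal A (F.coeff j)) (h0 : addVal A (F.coeff 0) = 1)
    (x : C) (hx : aeval x F = 0) : n • addVal C x = (e : ℕ∞) := by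
  classical
  set S : C := ∑ j ∈ Finset.range n, algebraMap A C (F.coeff j) * x ^ j with hS
  have hsum : x ^ n + S = 0 := by
    have h1 := congrArg (aeval x) hF.as_sum
    rw [hx, hn] at h1
    simp only [map_add, map_pow, aeval_X, map_sum, map_mul, aeval_C] at h1
    exact h1.symm
  have hxn : addVal C (x ^ n) = addVal C S := by
    have : x ^ n = -S := eq_neg_of_add_eq_zero_left hsum
    rw [this, AddValuation.map_neg]
  -- every term has valuation `≥ e`
  have hterm : ∀ j < n, (e : ℕ∞) ≤ addVal C (algebraMap A C (F.coeff j) * x ^ j) := by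
    intro j hj
    rw [addVal_mul, hram]
    refine le_trans ?_ le_self_add
    calc (e : ℕ∞) = e • (1 : ℕ∞) := by simp
      _ ≤ e • addVal A (F.coeff j) := nsmul_le_nsmul_right (hcoef j hj) e
  have hSge : (e : ℕ∞) ≤ addVal C S :=
    FLD_le_val_sum (addVal C) _ _ _ (fun j hj => hterm j (Finset.mem_range.mp hj))
  -- `x` is not a unit
  have hx1 : 1 ≤ addVal C x := by
    rw [Order.one_le_iff_ne_zero]
    intro h
    have : addVal C (x ^ n) = 0 := by rw [addVal_pow, h, nsmul_zero]
    rw [hxn] at this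
    rw [this] at hSge
    have : (e : ℕ∞) = 0 := le_antisymm hSge zero_le
    exact he (by exact_mod_cast this)
  -- the constant term is the unique term of smallest valuation
  have h0mem : 0 ∈ Finset.range n := Finset.mem_range.mpr (Nat.pos_of_ne_zero hn0)
  have hv0 : addVal C (algebraMap A C (F.coeff 0) * x ^ 0) = (e : ℕ∞) := by
    rw [pow_zero, mul_one, hram, h0]
    simp
  have hSeq : addVal C S = (e : ℕ∞) := by
    rw [← hv0]
    refine FLD_val_sum_eq_of_lt (addVal C) _ _ 0 h0mem ?_
    intro j hj hj0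
    rw [hv0, addVal_mul, hram, addVal_pow]
    have hj' := Finset.mem_range.mp hj
    have h1 : (e : ℕ∞) ≤ e • addVal A (F.coeff j) := by
      calc (e : ℕ∞) = e • (1 : ℕ∞) := by simp
        _ ≤ e • addVal A (F.coeff j) := nsmul_le_nsmul_right (hcoef j hj') e
    have h2 : (1 : ℕ∞) ≤ j • addVal C x := by
      calc (1 : ℕ∞) ≤ addVal C x := hx1
        _ = 1 • addVal C x := (one_nsmul _).symm
        _ ≤ j • addVal C x := nsmul_le_nsmul_left zero_le (Nat.one_le_iff_ne_zero.mpr hj0)
    calc (e : ℕ∞) < (e : ℕ∞) + 1 := by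
          exact_mod_cast Nat.lt_succ_self e
      _ ≤ e • addVal A (F.coeff j) + j • addVal C x := add_le_add h1 h2
  rw [← addVal_pow, hxn, hSeq]

end Ram

section Perturb

variable (A K : Type*) [CommRing A] [IsDomain A] [IsDiscreteValuationRing A]
  [Field K] [Algebra A K] [IsFractionRing A K]
  (L : Type*) [Field L] [Algebra K L] [FiniteDimensional K L]
  [Algebra A L] [IsScalarTower A K L]
  (B : Type*) [CommRing B] [IsDomain B] [IsDiscreteValuationRing B] [Algebra B L]
  [IsIntegralClosure B A L] [Algebra A B] [IsScalarTower A B L]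

include K L in
/-- The relation `ϖ^n = -∑_{j<n} G_j ϖ^j` for the minimal polynomial `G` of a uniformiser. -/
theorem FLD_minpoly_sum
    (hram : ∀ a : A, addVal B (algebraMap A B a) = (Module.finrank K L) • addVal A a)
    {ϖ : B} (hϖ : addVal B ϖ = 1) :
    addVal B (∑ j ∈ Finset.range (Module.finrank K L),
      algebraMap A B ((minpoly A ϖ).coeff j) * ϖ ^ j) = (Module.finrank K L : ℕ∞) := by
  have hint : IsIntegral A ϖ := IsIntegralClosure.isIntegral A L ϖ
  have hdeg := FLD_natDegree_minpoly A K L B hram hϖ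
  have h1 := congrArg (aeval ϖ) (minpoly.monic hint).as_sum
  rw [minpoly.aeval, hdeg] at h1
  simp only [map_add, map_pow, aeval_X, map_sum, map_mul, aeval_C] at h1
  have h2 : (∑ j ∈ Finset.range (Module.finrank K L),
      algebraMap A B ((minpoly A ϖ).coeff j) * ϖ ^ j) = -(ϖ ^ Module.finrank K L) :=
    eq_neg_of_add_eq_zero_right h1.symm
  rw [h2, AddValuation.map_neg, addVal_pow, hϖ, nsmul_one]

include K L in
/-- The minimal polynomial of a uniformiser is Eisenstein: lower coefficients are non-units. -/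
theorem FLD_minpoly_coeff_ge
    (hram : ∀ a : A, addVal B (algebraMap A B a) = (Module.finrank K L) • addVal A a)
    {ϖ : B} (hϖ : addVal B ϖ = 1) {j : ℕ} (hj : j < Module.finrank K L) :
    1 ≤ addVal A ((minpoly A ϖ).coeff j) := by
  have h1 := FLD_addVal_sum_le hram hϖ (fun i => (minpoly A ϖ).coeff i) hj
  rw [FLD_minpoly_sum A K L B hram hϖ] at h1
  rw [Order.one_le_iff_ne_zero]
  intro h0
  rw [h0, nsmul_zero, zero_add] at h1
  have : Module.finrank K L ≤ j := by exact_mod_cast h1
  omega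

include K L in
/-- The minimal polynomial of a uniformiser is Eisenstein: the constant term is a uniformiser. -/
theorem FLD_minpoly_coeff_zero
    (hram : ∀ a : A, addVal B (algebraMap A B a) = (Module.finrank K L) • addVal A a)
    {ϖ : B} (hϖ : addVal B ϖ = 1) :
    addVal A ((minpoly A ϖ).coeff 0) = 1 := by
  set n := Module.finrank K L with hn
  have hnpos : 0 < n := Module.finrank_pos
  have hge := FLD_minpoly_coeff_ge A K L B hram hϖ hnpos
  by_contra hne
  have h2 : (2 : ℕ∞) ≤ addVal A ((minpoly A ϖ).coeff 0) := by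
    by_cases htop : addVal A ((minpoly A ϖ).coeff 0) = ⊤
    · rw [htop]; exact le_top
    obtain ⟨t, ht⟩ := ENat.ne_top_iff_exists.mp htop
    rw [← ht] at hge hne ⊢
    have h1 : 1 ≤ t := by exact_mod_cast hge
    have h3 : t ≠ 1 := fun h => hne (by rw [h]; rfl)
    have : 2 ≤ t := by omega
    exact_mod_cast this
  have hbig : ((n + 1 : ℕ) : ℕ∞) ≤ addVal B (∑ j ∈ Finset.range n,
      algebraMap A B ((minpoly A ϖ).coeff j) * ϖ ^ j) := by
    refine FLD_le_addVal_sum hram hϖ (fun i => (minpoly A ϖ).coeff i) _ ?_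
    intro j hj
    by_cases hj0 : j = 0
    · subst hj0
      refine le_trans ?_ le_self_add
      calc ((n + 1 : ℕ) : ℕ∞) ≤ ((n * 2 : ℕ) : ℕ∞) := by
            exact_mod_cast (by omega : n + 1 ≤ n * 2)
        _ = n • (2 : ℕ∞) := by simp
        _ ≤ n • addVal A ((minpoly A ϖ).coeff 0) := nsmul_le_nsmul_right h2 n
    · have h1 : (n : ℕ∞) ≤ n • addVal A ((minpoly A ϖ).coeff j) := by
        calc (n : ℕ∞) = n • (1 : ℕ∞) := by simp
          _ ≤ n • addVal A ((minpoly A ϖ).coeff j) :=
            nsmul_le_nsmul_right (FLD_minpoly_coeff_ge A K L B hram hϖ hj) n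
      have h3 : (1 : ℕ∞) ≤ (j : ℕ∞) := by
        exact_mod_cast Nat.one_le_iff_ne_zero.mpr hj0
      calc ((n + 1 : ℕ) : ℕ∞) = (n : ℕ∞) + 1 := by push_cast; rfl
        _ ≤ n • addVal A ((minpoly A ϖ).coeff j) + (j : ℕ∞) := add_le_add h1 h3
  rw [FLD_minpoly_sum A K L B hram hϖ] at hbig
  have : n + 1 ≤ n := by exact_mod_cast hbig
  omega

include K L in
/-- A root in `B` of the perturbed polynomial `G + p X^k` (`1 ≤ k < n`, `p ∈ m_A`) is a
uniformiser, with minimal polynomial `G + p X^k`. -/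
theorem FLD_root_perturb [Module.IsTorsionFree A B]
    (hram : ∀ a : A, addVal B (algebraMap A B a) = (Module.finrank K L) • addVal A a)
    {ϖ : B} (hϖ : addVal B ϖ = 1) (p : A) (hp : 1 ≤ addVal A p) {k : ℕ} (hk1 : 1 ≤ k)
    (hkn : k < Module.finrank K L) (ϖ' : B)
    (hroot : aeval ϖ' (minpoly A ϖ + C p * X ^ k) = 0) :
    addVal B ϖ' = 1 ∧ minpoly A ϖ' = minpoly A ϖ + C p * X ^ k := by
  set n := Module.finrank K L with hn
  have hnpos : 0 < n := Module.finrank_pos
  have hint : IsIntegral A ϖ := IsIntegralClosure.isIntegral A L ϖ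
  have hint' : IsIntegral A ϖ' := IsIntegralClosure.isIntegral A L ϖ'
  have hdeg := FLD_natDegree_minpoly A K L B hram hϖ
  have hmon := minpoly.monic hint
  have hlt : (C p * X ^ k : A[X]).natDegree < (minpoly A ϖ).natDegree := by
    rw [hdeg]
    exact lt_of_le_of_lt (natDegree_C_mul_X_pow_le p k) hkn
  have hdlt : (C p * X ^ k : A[X]).degree < (minpoly A ϖ).degree := by
    by_cases h0 : (C p * X ^ k : A[X]) = 0
    · rw [h0, degree_zero]
      exact bot_lt_iff_ne_bot.mpr (fun h => hmon.ne_zero (degree_eq_bot.mp h))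
    · exact degree_lt_degree hlt
  have hmon' : (minpoly A ϖ + C p * X ^ k).Monic := hmon.add_of_left hdlt
  have hdeg' : (minpoly A ϖ + C p * X ^ k).natDegree = n := by
    rw [natDegree_add_eq_left_of_natDegree_lt hlt, hdeg]
  have hcoef : ∀ j < n, 1 ≤ addVal A ((minpoly A ϖ + C p * X ^ k).coeff j) := by
    intro j hj
    rw [coeff_add, coeff_C_mul, coeff_X_pow]
    refine le_trans ?_ (addVal_add)
    refine le_min (FLD_minpoly_coeff_ge A K L B hram hϖ hj) ?_
    split_ifs
    · rw [mul_one]; exact hp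
    · rw [mul_zero, addVal_zero]; exact le_top
  have hc0 : addVal A ((minpoly A ϖ + C p * X ^ k).coeff 0) = 1 := by
    rw [coeff_add, coeff_C_mul, coeff_X_pow, if_neg (by omega), mul_zero, add_zero]
    exact FLD_minpoly_coeff_zero A K L B hram hϖ
  have h1 := FLD_eisenstein_root (Nat.pos_iff_ne_zero.mp hnpos) hram _ hmon' hdeg'
    (Nat.pos_iff_ne_zero.mp hnpos) hcoef hc0 ϖ' hroot
  have hϖ' : addVal B ϖ' = 1 := by
    by_cases htop : addVal B ϖ' = ⊤
    · rw [htop] at h1
      have : (⊤ : ℕ∞) = (n : ℕ∞) := by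
        rw [← h1]; simp [Nat.pos_iff_ne_zero.mp hnpos]
      exact absurd this.symm (ENat.natCast_ne_top n)
    obtain ⟨t, ht⟩ := ENat.ne_top_iff_exists.mp htop
    rw [← ht] at h1 ⊢
    have h2 : ((n * t : ℕ) : ℕ∞) = (n : ℕ∞) := by
      rw [← h1]; simp
    have h3 : n * t = n := by exact_mod_cast h2
    have h4 : t = 1 := by
      have : n * t = n * 1 := by rw [h3, mul_one]
      exact Nat.eq_of_mul_eq_mul_left hnpos this
    rw [h4]; rfl
  refine ⟨hϖ', ?_⟩
  have hdvd : minpoly A ϖ' ∣ minpoly A ϖ + C p * X ^ k :=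
    minpoly.isIntegrallyClosed_dvd hint' hroot
  have hdeg'' := FLD_natDegree_minpoly A K L B hram hϖ'
  exact (eq_of_monic_of_dvd_of_natDegree_le (minpoly.monic hint') hmon' hdvd
    (by rw [hdeg', hdeg''])).symm

include K L in
/-- **Comparison.**  If the perturbed polynomial `G + p X^k` (`1 ≤ k < n`, `k` a unit of `A`,
`p ∈ m_A`) has a root in `B`, then `v_B(G'(ϖ)) ≤ n · v_A(p) + (k - 1)`. -/
theorem FLD_addVal_deriv_le_of_root [Algebra.IsSeparable K L] [Module.IsTorsionFree A B]
    (hram : ∀ a : A, addVal B (algebraMap A B a) = (Module.finrank K L) • addVal A a)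
    {ϖ : B} (hϖ : addVal B ϖ = 1) (p : A) (hp : 1 ≤ addVal A p) {k : ℕ} (hk1 : 1 ≤ k)
    (hkn : k < Module.finrank K L) (hku : addVal A (k : A) = 0) (ϖ' : B)
    (hroot : aeval ϖ' (minpoly A ϖ + C p * X ^ k) = 0) :
    addVal B (aeval ϖ (derivative (minpoly A ϖ))) ≤
      (Module.finrank K L) • addVal A p + ((k - 1 : ℕ) : ℕ∞) := by
  set n := Module.finrank K L with hn
  have hnpos : 0 < n := Module.finrank_pos
  obtain ⟨hϖ', hmin'⟩ := FLD_root_perturb A K L B hram hϖ p hp hk1 hkn ϖ' hroot
  -- both derivatives generate the different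
  have hd1 := FLD_differentIdeal_eq A K L B hram hϖ
  have hd2 := FLD_differentIdeal_eq A K L B hram hϖ'
  have hassoc : Associated (aeval ϖ (derivative (minpoly A ϖ)))
      (aeval ϖ' (derivative (minpoly A ϖ'))) := by
    rw [← Ideal.span_singleton_eq_span_singleton, ← hd1, ← hd2]
  have hval : addVal B (aeval ϖ (derivative (minpoly A ϖ))) =
      addVal B (aeval ϖ' (derivative (minpoly A ϖ'))) :=
    (addVal_eq_iff_associated _ _).mpr hassoc
  have hle1 := FLD_addVal_deriv_le A K L B hram hϖ hk1 hkn.le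
  have hle2 := FLD_addVal_deriv_le A K L B hram hϖ' hk1 hkn.le
  rw [addVal_mul, hku, add_zero] at hle1 hle2
  rw [← hval] at hle2
  rw [hmin', coeff_add, coeff_C_mul, coeff_X_pow, if_pos rfl, mul_one] at hle2
  by_contra hcon
  rw [not_le] at hcon
  -- `v(G_k) > v(p)`
  have hptop : addVal A p ≠ ⊤ := by
    intro h
    rw [h] at hcon
    have : n • (⊤ : ℕ∞) + ((k - 1 : ℕ) : ℕ∞) = ⊤ := by
      simp [Nat.pos_iff_ne_zero.mp hnpos]
    rw [this] at hcon
    exact absurd hcon (not_lt.mpr le_top)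
  obtain ⟨a, ha⟩ := ENat.ne_top_iff_exists.mp hptop
  have hlt : addVal A p < addVal A ((minpoly A ϖ).coeff k) := by
    by_contra hge
    rw [not_lt] at hge
    have : n • addVal A ((minpoly A ϖ).coeff k) + ((k - 1 : ℕ) : ℕ∞) ≤
        n • addVal A p + ((k - 1 : ℕ) : ℕ∞) :=
      add_le_add (nsmul_le_nsmul_right hge n) le_rfl
    exact absurd (lt_of_lt_of_le hcon (le_trans hle1 this)) (lt_irrefl _)
  have hsum : addVal A ((minpoly A ϖ).coeff k + p) = addVal A p := by
    rw [add_comm]
    exact AddValuation.map_add_eq_of_lt_left (addVal A) hlt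
  rw [hsum] at hle2
  exact absurd (lt_of_lt_of_le hcon hle2) (lt_irrefl _)

end Perturb

end Fermat.Agent.S56.H176

end
-- ===== PACK-END S56/H176/FLDEis.lean

-- ===== PACK-BEGIN S19/H435/Quot.lean
section
/-
A3 / WP-C piece F (helper435): quotients of Hopf lattices.

For a surjective additive map `π : M →+ M''` compatible with the Galois actions, the functions
`g : M'' → Qb` with `g ∘ π ∈ Λ` form a Hopf lattice on `M''`.  No Cartier duality is used:
* the invariant sublattice is saturated, hence a direct summand (`exists_retraction`);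
* `Δ`-closedness follows from `Qb`-independence of a basis (F1);
* separation of cosets uses norms `m ↦ ∏_{k ∈ ker π} h (m + k)` and Neumann's covering lemma.
-/





set_option autoImplicit false
set_option linter.style.haveILetI false

noncomputable section

namespace Fermat.Agent.S19.H435

/-- A saturated submodule of a finite module over a PID is a direct summand. -/
theorem exists_retraction {R V : Type*} [CommRing R] [IsDomain R] [IsPrincipalIdealRing R]
    [AddCommGroup V] [Module R V] [Module.Finite R V] (N : Submodule R V)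
    (hsat : ∀ (r : R) (v : V), r ≠ 0 → r • v ∈ N → v ∈ N) :
    ∃ ρ : V →ₗ[R] V, (∀ v, ρ v ∈ N) ∧ ∀ v ∈ N, ρ v = v := by
  haveI : Module.IsTorsionFree R (V ⧸ N) := by
    refine Module.IsTorsionFree.of_smul_eq_zero fun r m h => ?_
    obtain ⟨v, rfl⟩ := N.mkQ_surjective m
    by_cases hr : r = 0
    · exact Or.inl hr
    · right
      rw [← map_smul, Submodule.mkQ_apply, Submodule.Quotient.mk_eq_zero] at h
      rw [Submodule.mkQ_apply, Submodule.Quotient.mk_eq_zero]
      exact hsat r v hr h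
  haveI : Module.Free R (V ⧸ N) := Module.free_of_finite_type_torsion_free'
  obtain ⟨s, hs⟩ := Module.projective_lifting_property N.mkQ LinearMap.id N.mkQ_surjective
  refine ⟨LinearMap.id - s ∘ₗ N.mkQ, ?_, ?_⟩
  · intro v
    rw [← Submodule.Quotient.mk_eq_zero]
    have h1 := LinearMap.congr_fun hs (N.mkQ v)
    simp only [LinearMap.comp_apply, LinearMap.id_apply, Submodule.mkQ_apply] at h1
    simp only [LinearMap.sub_apply, LinearMap.id_apply, LinearMap.comp_apply,
      Submodule.mkQ_apply, Submodule.Quotient.mk_sub, h1, sub_self]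
  · intro v hv
    have h1 : N.mkQ v = 0 := by
      rw [Submodule.mkQ_apply, Submodule.Quotient.mk_eq_zero]
      exact hv
    simp only [LinearMap.sub_apply, LinearMap.id_apply, LinearMap.comp_apply, h1, map_zero,
      sub_zero]

variable {ℓ : ℕ} {M : Type*} [AddCommGroup M] {act : Gal → M → M}
  {Λ : Subalgebra (Zl ℓ) (M → _root_.Fermat.Agent.S19.H435.Qb)}

namespace IsHopfLattice

theorem act_add (hΛ : IsHopfLattice ℓ act Λ) (σ : Gal) (x y : M) :
    act σ (x + y) = act σ x + act σ y := by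
  by_contra hne
  obtain ⟨f, hf, hfne⟩ := hΛ.separates _ _ hne
  apply hfne
  obtain ⟨n, a, b, ha, hb, hab⟩ := hΛ.comul_mem f hf
  rw [hΛ.equivariant f hf σ, hab, hab, map_sum]
  refine Finset.sum_congr rfl fun k _ => ?_
  rw [map_mul, hΛ.equivariant _ (ha k) σ, hΛ.equivariant _ (hb k) σ]

theorem act_zero (hΛ : IsHopfLattice ℓ act Λ) (σ : Gal) : act σ 0 = 0 := by
  have h := hΛ.act_add σ 0 0
  rw [add_zero] at h
  exact left_eq_add.mp h

theorem act_inv_act (hΛ : IsHopfLattice ℓ act Λ) (σ : Gal) (m : M) :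
    act σ⁻¹ (act σ m) = m := by
  by_contra hne
  obtain ⟨f, hf, hfne⟩ := hΛ.separates _ _ hne
  apply hfne
  rw [hΛ.equivariant f hf σ⁻¹, hΛ.equivariant f hf σ]
  exact AlgEquiv.symm_apply_apply σ (f m)

theorem act_act_inv (hΛ : IsHopfLattice ℓ act Λ) (σ : Gal) (m : M) :
    act σ (act σ⁻¹ m) = m := by
  have := hΛ.act_inv_act σ⁻¹ m
  rwa [inv_inv] at this

end IsHopfLattice

/-- `f` factors through `π`. -/
def IsInvFun {M'' : Type*} (π : M → M'') (f : M → _root_.Fermat.Agent.S19.H435.Qb) : Prop :=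
  ∀ x y : M, π x = π y → f x = f y

omit [AddCommGroup M] in
theorem sum_smul_apply' {n : ℕ} (c : Fin n → Zl ℓ) (g : Fin n → M → _root_.Fermat.Agent.S19.H435.Qb) (x : M) :
    (∑ i, c i • g i) x = ∑ i, algebraMap (Zl ℓ) _root_.Fermat.Agent.S19.H435.Qb (c i) * g i x := by
  simp [Finset.sum_apply, Algebra.smul_def]

namespace IsHopfLattice

/-- **F3.** The comultiplication of an invariant element of a Hopf lattice can be written with
invariant elements of the lattice. -/
theorem comul_inv [Fact ℓ.Prime] (hΛ : IsHopfLattice ℓ act Λ) {M'' : Type*} [AddCommGroup M'']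
    (π : M →+ M'') {f : M → _root_.Fermat.Agent.S19.H435.Qb} (hf : f ∈ Λ) (hinv : IsInvFun π f) :
    ∃ (n : ℕ) (a b : Fin n → M → _root_.Fermat.Agent.S19.H435.Qb), (∀ k, a k ∈ Λ ∧ IsInvFun π (a k)) ∧
      (∀ k, b k ∈ Λ ∧ IsInvFun π (b k)) ∧ ∀ x y : M, f (x + y) = ∑ k, a k x * b k y := by
  classical
  obtain ⟨n, e, he, -, hliQ, hexp⟩ := hΛ.exists_basis
  obtain ⟨p, a, b, ha, hb, hab⟩ := hΛ.comul_mem f hf
  choose β hβ using fun k => hexp (b k) (hb k)
  -- Step 1
  set u : Fin n → M → _root_.Fermat.Agent.S19.H435.Qb := fun j => ∑ k, β k j • a k with hu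
  have hu_mem : ∀ j, u j ∈ Λ := fun j =>
    Subalgebra.sum_mem _ fun k _ => Subalgebra.smul_mem _ (ha k) _
  have hu_apply : ∀ j x, u j x = ∑ k, algebraMap (Zl ℓ) _root_.Fermat.Agent.S19.H435.Qb (β k j) * a k x := by
    intro j x
    simp [hu, Finset.sum_apply, Algebra.smul_def]
  have hfu : ∀ x y, f (x + y) = ∑ j, u j x * e j y := by
    intro x y
    rw [hab]
    simp only [hu_apply, Finset.sum_mul]
    rw [Finset.sum_comm]
    refine Finset.sum_congr rfl fun k _ => ?_
    conv_lhs => rw [hβ k, sum_smul_apply', Finset.mul_sum]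
    refine Finset.sum_congr rfl fun j _ => ?_
    ring
  have key : ∀ (d : Fin n → _root_.Fermat.Agent.S19.H435.Qb), (∀ y, ∑ j, d j * e j y = 0) → ∀ j, d j = 0 := by
    intro d hd
    refine Fintype.linearIndependent_iff.mp hliQ d ?_
    funext y
    simpa [Finset.sum_apply] using hd y
  have hu_inv : ∀ j, IsInvFun π (u j) := by
    intro j x x' hxx'
    have h0 : ∀ y, ∑ j, (u j x - u j x') * e j y = 0 := by
      intro y
      simp only [sub_mul, Finset.sum_sub_distrib]
      rw [← hfu, ← hfu, sub_eq_zero]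
      exact hinv _ _ (by rw [map_add, map_add, hxx'])
    exact sub_eq_zero.mp (key _ h0 j)
  -- Step 2
  choose γ hγ using fun j => hexp (u j) (hu_mem j)
  -- Step 3
  set w : Fin n → M → _root_.Fermat.Agent.S19.H435.Qb := fun i => ∑ j, γ j i • e j with hw
  have hw_mem : ∀ i, w i ∈ Λ := fun i =>
    Subalgebra.sum_mem _ fun j _ => Subalgebra.smul_mem _ (he j) _
  have hw_apply : ∀ i y, w i y = ∑ j, algebraMap (Zl ℓ) _root_.Fermat.Agent.S19.H435.Qb (γ j i) * e j y := by
    intro i y
    simp [hw, Finset.sum_apply, Algebra.smul_def]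
  have hfw : ∀ x y, f (x + y) = ∑ i, e i x * w i y := by
    intro x y
    rw [hfu]
    simp only [hw_apply, Finset.mul_sum]
    rw [Finset.sum_comm]
    refine Finset.sum_congr rfl fun j _ => ?_
    conv_lhs => rw [hγ j, sum_smul_apply', Finset.sum_mul]
    refine Finset.sum_congr rfl fun i _ => ?_
    ring
  have hw_inv : ∀ i, IsInvFun π (w i) := by
    intro i y y' hyy'
    have h0 : ∀ x, ∑ i, (w i y - w i y') * e i x = 0 := by
      intro x
      simp only [sub_mul, Finset.sum_sub_distrib]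
      have h1 := hfw x y
      have h2 := hfw x y'
      have h3 : f (x + y) = f (x + y') := hinv _ _ (by rw [map_add, map_add, hyy'])
      rw [sub_eq_zero]
      calc ∑ i, w i y * e i x = f (x + y) := by
            rw [h1]; exact Finset.sum_congr rfl fun i _ => mul_comm _ _
        _ = f (x + y') := h3
        _ = ∑ i, w i y' * e i x := by
            rw [h2]; exact Finset.sum_congr rfl fun i _ => mul_comm _ _
    exact sub_eq_zero.mp (key _ h0 i)
  -- Step 4: the retraction
  haveI : Module.Finite (Zl ℓ) (Subalgebra.toSubmodule Λ) := Module.Finite.iff_fg.mpr hΛ.fg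
  let N : Submodule (Zl ℓ) (Subalgebra.toSubmodule Λ) :=
    { carrier := {v | IsInvFun π (v : M → _root_.Fermat.Agent.S19.H435.Qb)}
      add_mem' := by
        intro v v' hv hv' x y hxy
        show (v : M → _root_.Fermat.Agent.S19.H435.Qb) x + (v' : M → _root_.Fermat.Agent.S19.H435.Qb) x = (v : M → _root_.Fermat.Agent.S19.H435.Qb) y + (v' : M → _root_.Fermat.Agent.S19.H435.Qb) y
        rw [hv x y hxy, hv' x y hxy]
      zero_mem' := fun x y _ => rfl
      smul_mem' := by
        intro r v hv x y hxy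
        show r • (v : M → _root_.Fermat.Agent.S19.H435.Qb) x = r • (v : M → _root_.Fermat.Agent.S19.H435.Qb) y
        rw [hv x y hxy] }
  have hsat : ∀ (r : Zl ℓ) (v : Subalgebra.toSubmodule Λ), r ≠ 0 → r • v ∈ N → v ∈ N := by
    intro r v hr hv x y hxy
    have h1 : r • (v : M → _root_.Fermat.Agent.S19.H435.Qb) x = r • (v : M → _root_.Fermat.Agent.S19.H435.Qb) y := hv x y hxy
    rw [Algebra.smul_def, Algebra.smul_def] at h1
    have h2 : algebraMap (Zl ℓ) _root_.Fermat.Agent.S19.H435.Qb r ≠ 0 := fun h =>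
      hr (algebraMap_Zl_Qb_injective ℓ (by rw [h, map_zero]))
    exact mul_left_cancel₀ h2 h1
  obtain ⟨ρ, hρN, hρid⟩ := exists_retraction N hsat
  let E : Fin n → Subalgebra.toSubmodule Λ := fun i => ⟨e i, he i⟩
  have hρu : ∀ j x, u j x = ∑ i, algebraMap (Zl ℓ) _root_.Fermat.Agent.S19.H435.Qb (γ j i) * ((ρ (E i) : Subalgebra.toSubmodule Λ) : M → _root_.Fermat.Agent.S19.H435.Qb) x := by
    intro j x
    have h1 : (⟨u j, hu_mem j⟩ : Subalgebra.toSubmodule Λ) = ∑ i, γ j i • E i := by
      apply Subtype.ext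
      rw [Submodule.coe_sum]
      exact hγ j
    calc u j x = ((ρ ⟨u j, hu_mem j⟩ : Subalgebra.toSubmodule Λ) : M → _root_.Fermat.Agent.S19.H435.Qb) x := by
          rw [hρid _ (hu_inv j)]
      _ = ((∑ i, γ j i • ρ (E i) : Subalgebra.toSubmodule Λ) : M → _root_.Fermat.Agent.S19.H435.Qb) x := by
          rw [h1, map_sum]
          simp only [map_smul]
      _ = (∑ i, γ j i • ((ρ (E i) : Subalgebra.toSubmodule Λ) : M → _root_.Fermat.Agent.S19.H435.Qb)) x := by
          rw [Submodule.coe_sum]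
          rfl
      _ = _ := sum_smul_apply' _ _ x
  refine ⟨n, fun i => ((ρ (E i) : Subalgebra.toSubmodule Λ) : M → _root_.Fermat.Agent.S19.H435.Qb), w,
    fun i => ⟨(ρ (E i)).2, hρN (E i)⟩, fun i => ⟨hw_mem i, hw_inv i⟩, ?_⟩
  intro x y
  rw [hfu]
  simp only [hρu, hw_apply, Finset.sum_mul, Finset.mul_sum]
  rw [Finset.sum_comm]
  refine Finset.sum_congr rfl fun i _ => Finset.sum_congr rfl fun j _ => ?_
  ring

/-- Translates of lattice elements lie in the `Zb`-span of the lattice. -/
theorem translate_mem_span (hΛ : IsHopfLattice ℓ act Λ) {h : M → _root_.Fermat.Agent.S19.H435.Qb} (hh : h ∈ Λ) (k : M) :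
    (fun m => h (m + k)) ∈
      Submodule.span (integralClosure (Zl ℓ) _root_.Fermat.Agent.S19.H435.Qb) (Λ : Set (M → _root_.Fermat.Agent.S19.H435.Qb)) := by
  obtain ⟨n, a, b, ha, hb, hab⟩ := hΛ.comul_mem h hh
  have : (fun m => h (m + k)) =
      ∑ j, (⟨b j k, hΛ.isIntegral_apply (hb j) k⟩ : integralClosure (Zl ℓ) _root_.Fermat.Agent.S19.H435.Qb) • a j := by
    funext m
    rw [hab, Finset.sum_apply]
    refine Finset.sum_congr rfl fun j _ => ?_
    show a j m * b j k = b j k * a j m
    exact mul_comm _ _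
  rw [this]
  exact Submodule.sum_mem _ fun j _ => Submodule.smul_mem _ _ (Submodule.subset_span (ha j))

omit [AddCommGroup M] in
theorem span_eq_adjoin (Λ : Subalgebra (Zl ℓ) (M → _root_.Fermat.Agent.S19.H435.Qb)) :
    Submodule.span (integralClosure (Zl ℓ) _root_.Fermat.Agent.S19.H435.Qb) (Λ : Set (M → _root_.Fermat.Agent.S19.H435.Qb)) =
      Subalgebra.toSubmodule (Algebra.adjoin (integralClosure (Zl ℓ) _root_.Fermat.Agent.S19.H435.Qb) (Λ : Set (M → _root_.Fermat.Agent.S19.H435.Qb))) := by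
  rw [Algebra.adjoin_eq_span]
  congr 1
  have : (Λ : Set (M → _root_.Fermat.Agent.S19.H435.Qb)) = ((Λ.toSubmonoid : Submonoid (M → _root_.Fermat.Agent.S19.H435.Qb)) : Set (M → _root_.Fermat.Agent.S19.H435.Qb)) := rfl
  rw [this, Submonoid.closure_eq]

section Norm

variable [Fintype M] [DecidableEq M] {M'' : Type*} [AddCommGroup M''] [DecidableEq M'']

/-- The kernel of `π` as a finset. -/
def kerFinset (π : M →+ M'') : Finset M := Finset.univ.filter (fun k => π k = 0)

omit [DecidableEq M] in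
theorem mem_kerFinset (π : M →+ M'') (k : M) : k ∈ kerFinset π ↔ π k = 0 := by
  simp [kerFinset]

/-- The norm of a function along the fibres of `π`. -/
def normFun (π : M →+ M'') (h : M → _root_.Fermat.Agent.S19.H435.Qb) : M → _root_.Fermat.Agent.S19.H435.Qb := fun m => ∏ k ∈ kerFinset π, h (m + k)

omit [DecidableEq M] in
theorem normFun_inv (π : M →+ M'') (h : M → _root_.Fermat.Agent.S19.H435.Qb) : IsInvFun π (normFun π h) := by
  intro x x' hxx'
  unfold normFun
  have hk₀ : π (x' - x) = 0 := by rw [map_sub, hxx', sub_self]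
  refine Finset.prod_nbij' (fun k => k - (x' - x)) (fun k => k + (x' - x)) ?_ ?_ ?_ ?_ ?_
  · intro k hk
    rw [mem_kerFinset] at hk ⊢
    rw [map_sub, hk, hk₀, sub_zero]
  · intro k hk
    rw [mem_kerFinset] at hk ⊢
    rw [map_add, hk, hk₀, add_zero]
  · intro k _
    abel
  · intro k _
    abel
  · intro k _
    congr 1
    abel

omit [DecidableEq M] in
theorem normFun_mem [Fact ℓ.Prime] (hΛ : IsHopfLattice ℓ act Λ) (π : M →+ M'')
    (act'' : Gal → M'' → M'') (hcompat : ∀ σ m, act'' σ (π m) = π (act σ m))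
    {h : M → _root_.Fermat.Agent.S19.H435.Qb} (hh : h ∈ Λ) : normFun π h ∈ Λ := by
  have hstab : ∀ (σ : Gal) (k : M), k ∈ kerFinset π → act σ k ∈ kerFinset π := by
    intro σ k hk
    rw [mem_kerFinset] at hk ⊢
    rw [← hcompat, hk, ← map_zero π, hcompat, hΛ.act_zero, map_zero]
  apply hΛ.mem_of_mem_span_of_equivariant
  · rw [span_eq_adjoin]
    have : normFun π h = ∏ k ∈ kerFinset π, (fun m => h (m + k)) := by
      funext m
      simp [normFun, Finset.prod_apply]
    rw [this]
    refine Subalgebra.prod_mem _ fun k _ => ?_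
    have := hΛ.translate_mem_span hh k
    rw [span_eq_adjoin] at this
    exact this
  · intro σ m
    unfold normFun
    rw [map_prod]
    refine Finset.prod_nbij' (fun k => act σ⁻¹ k) (fun k => act σ k) ?_ ?_ ?_ ?_ ?_
    · intro k hk
      exact hstab σ⁻¹ k hk
    · intro k hk
      exact hstab σ k hk
    · intro k _
      exact hΛ.act_act_inv σ k
    · intro k _
      exact hΛ.act_inv_act σ k
    · intro k _
      rw [← hΛ.equivariant h hh σ, hΛ.act_add, hΛ.act_act_inv]

end Norm

/-- **F4.** Invariant elements of a Hopf lattice separate the fibres of `π`. -/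
theorem exists_inv_separating [Fact ℓ.Prime] [Finite M] (hΛ : IsHopfLattice ℓ act Λ)
    {M'' : Type*} [AddCommGroup M''] (π : M →+ M'')
    (act'' : Gal → M'' → M'') (hcompat : ∀ σ m, act'' σ (π m) = π (act σ m))
    (x y : M) (hxy : π x ≠ π y) : ∃ f ∈ Λ, IsInvFun π f ∧ f x ≠ f y := by
  classical
  haveI : Fintype M := Fintype.ofFinite M
  by_contra hcon
  push Not at hcon
  -- Step a
  have stepa : ∀ h ∈ Λ, ∃ k ∈ kerFinset π, h x = h (y + k) := by
    intro h hh
    let P : Polynomial _root_.Fermat.Agent.S19.H435.Qb := ∏ k ∈ kerFinset π, (Polynomial.C (h (x + k)) - Polynomial.X)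
    let Q : Polynomial _root_.Fermat.Agent.S19.H435.Qb := ∏ k ∈ kerFinset π, (Polynomial.C (h (y + k)) - Polynomial.X)
    have hevalP : ∀ z : _root_.Fermat.Agent.S19.H435.Qb, Polynomial.eval z P = ∏ k ∈ kerFinset π, (h (x + k) - z) := by
      intro z
      simp [P, Polynomial.eval_prod]
    have hevalQ : ∀ z : _root_.Fermat.Agent.S19.H435.Qb, Polynomial.eval z Q = ∏ k ∈ kerFinset π, (h (y + k) - z) := by
      intro z
      simp [Q, Polynomial.eval_prod]
    have hPQ : P = Q := by
      apply Polynomial.eq_of_infinite_eval_eq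
      refine Set.infinite_of_injective_forall_mem (f := fun n : ℤ => (n : _root_.Fermat.Agent.S19.H435.Qb))
        Int.cast_injective fun c => ?_
      show Polynomial.eval (c : _root_.Fermat.Agent.S19.H435.Qb) P = Polynomial.eval (c : _root_.Fermat.Agent.S19.H435.Qb) Q
      rw [hevalP, hevalQ]
      have hmem : h - algebraMap (Zl ℓ) (M → _root_.Fermat.Agent.S19.H435.Qb) (c : Zl ℓ) ∈ Λ :=
        Subalgebra.sub_mem _ hh (Subalgebra.algebraMap_mem _ _)
      have := hcon _ (hΛ.normFun_mem π act'' hcompat hmem) (normFun_inv π _)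
      have hpt : ∀ m : M, (h - algebraMap (Zl ℓ) (M → _root_.Fermat.Agent.S19.H435.Qb) (c : Zl ℓ)) m = h m - (c : _root_.Fermat.Agent.S19.H435.Qb) := by
        intro m
        rw [Pi.sub_apply, Pi.algebraMap_apply, map_intCast]
      simpa [normFun, hpt] using this
    have h0 : Polynomial.eval (h x) P = 0 := by
      rw [hevalP]
      refine Finset.prod_eq_zero (i := 0) ((mem_kerFinset π 0).mpr (map_zero π)) ?_
      rw [add_zero, sub_self]
    rw [hPQ, hevalQ, Finset.prod_eq_zero_iff] at h0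
    obtain ⟨k, hk, hk0⟩ := h0
    exact ⟨k, hk, (sub_eq_zero.mp hk0).symm⟩
  -- Step b
  let φ : M → (Subalgebra.toSubmodule Λ) →ₗ[Zl ℓ] _root_.Fermat.Agent.S19.H435.Qb := fun k =>
    ((LinearMap.proj x : (M → _root_.Fermat.Agent.S19.H435.Qb) →ₗ[Zl ℓ] _root_.Fermat.Agent.S19.H435.Qb) -
      (LinearMap.proj (y + k) : (M → _root_.Fermat.Agent.S19.H435.Qb) →ₗ[Zl ℓ] _root_.Fermat.Agent.S19.H435.Qb)) ∘ₗ (Subalgebra.toSubmodule Λ).subtype
  have hφ : ∀ k (v : Subalgebra.toSubmodule Λ), φ k v = (v : M → _root_.Fermat.Agent.S19.H435.Qb) x - (v : M → _root_.Fermat.Agent.S19.H435.Qb) (y + k) :=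
    fun k v => rfl
  let pk : M → Submodule (Zl ℓ) (Subalgebra.toSubmodule Λ) := fun k => LinearMap.ker (φ k)
  have hcover : ⋃ k ∈ kerFinset π, ((pk k : Submodule (Zl ℓ) (Subalgebra.toSubmodule Λ)) :
      Set (Subalgebra.toSubmodule Λ)) = Set.univ := by
    rw [Set.eq_univ_iff_forall]
    intro v
    obtain ⟨k, hk, hvk⟩ := stepa v.1 v.2
    simp only [Set.mem_iUnion]
    refine ⟨k, hk, ?_⟩
    show φ k v = 0
    rw [hφ, sub_eq_zero]
    exact hvk
  obtain ⟨k, hk, hfi⟩ := Submodule.exists_finiteIndex_of_cover hcover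
  have hxk : x ≠ y + k := by
    intro h
    apply hxy
    rw [h, map_add, (mem_kerFinset π k).mp hk, add_zero]
  obtain ⟨h₀, hh₀, hne⟩ := hΛ.separates _ _ hxk
  haveI : (pk k).toAddSubgroup.FiniteIndex := hfi
  haveI : Finite ((Subalgebra.toSubmodule Λ) ⧸ (pk k).toAddSubgroup) :=
    AddSubgroup.finite_quotient_of_finiteIndex
  let v₀ : Subalgebra.toSubmodule Λ := ⟨h₀, hh₀⟩
  have hinj : Function.Injective
      (fun n : ℕ => (QuotientAddGroup.mk (n • v₀) :
        (Subalgebra.toSubmodule Λ) ⧸ (pk k).toAddSubgroup)) := by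
    intro n n' hnn'
    have h1 := QuotientAddGroup.eq.mp hnn'
    have h2 : φ k (-(n • v₀) + n' • v₀) = 0 := h1
    rw [map_add, map_neg, map_nsmul, map_nsmul, hφ] at h2
    have h3 : h₀ x - h₀ (y + k) ≠ 0 := sub_ne_zero.mpr hne
    have h4 : ((n' : _root_.Fermat.Agent.S19.H435.Qb) - (n : _root_.Fermat.Agent.S19.H435.Qb)) * (h₀ x - h₀ (y + k)) = 0 := by
      have : (v₀ : M → _root_.Fermat.Agent.S19.H435.Qb) = h₀ := rfl
      rw [this] at h2
      rw [← h2]
      simp only [nsmul_eq_mul]
      ring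
    rcases mul_eq_zero.mp h4 with h | h
    · have : (n' : _root_.Fermat.Agent.S19.H435.Qb) = (n : _root_.Fermat.Agent.S19.H435.Qb) := sub_eq_zero.mp h
      exact (Nat.cast_injective this).symm
    · exact absurd h h3
  haveI : Finite ℕ := Finite.of_injective _ hinj
  exact not_finite ℕ

end IsHopfLattice

/-- Precomposition with `π`, as a `ℤ_(ℓ)`-algebra homomorphism. -/
def precompAlgHom (ℓ : ℕ) {M M'' : Type*} (π : M → M'') : (M'' → _root_.Fermat.Agent.S19.H435.Qb) →ₐ[Zl ℓ] (M → _root_.Fermat.Agent.S19.H435.Qb) where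
  toFun g := g ∘ π
  map_one' := rfl
  map_mul' _ _ := rfl
  map_zero' := rfl
  map_add' _ _ := rfl
  commutes' _ := rfl

@[simp]
theorem precompAlgHom_apply (ℓ : ℕ) {M M'' : Type*} (π : M → M'') (g : M'' → _root_.Fermat.Agent.S19.H435.Qb) (m : M) :
    precompAlgHom ℓ π g m = g (π m) := rfl

namespace IsHopfLattice

/-- **Piece F (quotients).** If `Λ` is a Hopf lattice on `M` and `π : M →+ M''` is a surjective
additive map compatible with the Galois actions, then the functions `g` on `M''` with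
`g ∘ π ∈ Λ` form a Hopf lattice on `M''`. -/
theorem quotient [Fact ℓ.Prime] [Finite M] (hΛ : IsHopfLattice ℓ act Λ)
    {M'' : Type*} [AddCommGroup M''] (π : M →+ M'') (hπ : Function.Surjective π)
    (act'' : Gal → M'' → M'') (hcompat : ∀ σ m, act'' σ (π m) = π (act σ m)) :
    IsHopfLattice ℓ act'' (Λ.comap (precompAlgHom ℓ π)) := by
  have hdesc : ∀ f : M → _root_.Fermat.Agent.S19.H435.Qb, IsInvFun π f → (f ∘ Function.surjInv hπ) ∘ π = f := by
    intro f hf
    funext m
    exact hf _ _ (Function.surjInv_eq hπ (π m))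
  refine ⟨?_, ?_, ?_, ?_⟩
  · have hinj : Function.Injective (precompAlgHom ℓ π).toLinearMap := by
      intro g g' h
      funext m''
      obtain ⟨m, rfl⟩ := hπ m''
      exact congrFun h m
    apply Submodule.fg_of_fg_map_injective (precompAlgHom ℓ π).toLinearMap hinj
    apply Submodule.FG.of_le hΛ.fg
    rintro _ ⟨g, hg, rfl⟩
    exact hg
  · intro g hg σ m''
    obtain ⟨m, rfl⟩ := hπ m''
    rw [hcompat]
    exact hΛ.equivariant _ hg σ m
  · intro m'' n'' hne
    obtain ⟨x, rfl⟩ := hπ m''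
    obtain ⟨y, rfl⟩ := hπ n''
    obtain ⟨f, hf, hfinv, hfne⟩ := hΛ.exists_inv_separating π act'' hcompat x y hne
    refine ⟨f ∘ Function.surjInv hπ, ?_, ?_⟩
    · show (f ∘ Function.surjInv hπ) ∘ π ∈ Λ
      rw [hdesc f hfinv]
      exact hf
    · have h1 := congrFun (hdesc f hfinv) x
      have h2 := congrFun (hdesc f hfinv) y
      simp only [Function.comp_apply] at h1 h2 ⊢
      rw [h1, h2]
      exact hfne
  · intro g hg
    have hginv : IsInvFun π (g ∘ π) := fun x y hxy => by
      simp only [Function.comp_apply, hxy]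
    obtain ⟨n, a, b, ha, hb, hab⟩ := hΛ.comul_inv π (f := g ∘ π) hg hginv
    refine ⟨n, fun k => a k ∘ Function.surjInv hπ, fun k => b k ∘ Function.surjInv hπ,
      fun k => ?_, fun k => ?_, ?_⟩
    · show (a k ∘ Function.surjInv hπ) ∘ π ∈ Λ
      rw [hdesc _ (ha k).2]
      exact (ha k).1
    · show (b k ∘ Function.surjInv hπ) ∘ π ∈ Λ
      rw [hdesc _ (hb k).2]
      exact (hb k).1
    · intro x'' y''
      obtain ⟨x, rfl⟩ := hπ x''
      obtain ⟨y, rfl⟩ := hπ y''
      have h1 := hab x y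
      simp only [Function.comp_apply, map_add] at h1
      rw [h1]
      refine Finset.sum_congr rfl fun k _ => ?_
      have h2 := congrFun (hdesc _ (ha k).2) x
      have h3 := congrFun (hdesc _ (hb k).2) y
      simp only [Function.comp_apply] at h2 h3 ⊢
      rw [h2, h3]

end IsHopfLattice

end Fermat.Agent.S19.H435

end
end
-- ===== PACK-END S19/H435/Quot.lean

-- ===== PACK-BEGIN S56/P3/H769/Span.lean
section




/-!
# S56 / P3, piece SPAN (helper769): `spanDelta : SpanDeltaStatement`

Under `TWHyp ρ p`, for `Δ ⊴ Γ` with cyclic quotient, the `k`-span of `ρ(Δ)` is `End V`.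

Proof: base change to `K = AlgebraicClosure k`; `ρ_K|_Δ` is irreducible by the Clifford-type lemma
`irr_of_normal_cyclic` (from `absIrr` and `tw`); Burnside (landed `S29.H872.burnside`) gives
`K`-span `= End_K (K ⊗ V)`, of dimension `4`; the `K`-span is generated by the image of a `k`-basis
of the `k`-span, so the `k`-span has dimension `≥ 4`.  (`split` and `p ≠ 2` are not needed.)
-/

set_option autoImplicit false
set_option linter.style.haveILetI false

namespace Fermat.Agent.S56.P3.H769

open Module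
open scoped TensorProduct

/-- **Piece SPAN** of `S56/P3`. -/
theorem spanDelta : SpanDeltaStatement := by
  intro k _ V _ _ _ Γ _ ρ p _ _ hyp Δ _ hcyc
  classical
  let β : Module.End k V →ₐ[k] Module.End (AlgebraicClosure k) (AlgebraicClosure k ⊗[k] V) :=
    Module.End.baseChangeHom k (AlgebraicClosure k) V
  let r : Γ →* Module.End (AlgebraicClosure k) (AlgebraicClosure k ⊗[k] V) :=
    (β : Module.End k V →* _).comp ρ
  have hr : ∀ g, r g = (ρ g).baseChange (AlgebraicClosure k) := fun g => rfl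
  have h2 : finrank (AlgebraicClosure k) (AlgebraicClosure k ⊗[k] V) = 2 := by
    rw [Module.finrank_baseChange, hyp.finrank_eq]
  haveI : Nontrivial (AlgebraicClosure k ⊗[k] V) :=
    Module.nontrivial_of_finrank_pos (R := AlgebraicClosure k) (by rw [h2]; norm_num)
  -- Clifford: `r|_Δ` is irreducible
  have hirrΔ := irr_of_normal_cyclic r h2 Δ hcyc (fun W hW => hyp.absIrr W hW)
    (fun G hG W hW => hyp.tw (AlgebraicClosure k) G hG W hW)
  -- Burnside
  have hA : Algebra.adjoin (AlgebraicClosure k) (Set.range fun δ : Δ => r δ) = ⊤ :=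
    Fermat.Agent.S29.H872.burnside _ (fun W hW => hirrΔ W (fun δ hδ x hx =>
      hW (r δ) (Algebra.subset_adjoin ⟨⟨δ, hδ⟩, rfl⟩) hx))
  -- descent of the dimension
  by_contra hB
  have hlt : finrank k (Submodule.span k (Set.range fun δ : Δ => ρ (δ : Γ))) < 4 := by
    have h := Submodule.finrank_lt hB
    rwa [Module.finrank_linearMap, hyp.finrank_eq] at h
  let b := Module.finBasis k (Submodule.span k (Set.range fun δ : Δ => ρ (δ : Γ)))
  have hspan : Subalgebra.toSubmodule
        (Algebra.adjoin (AlgebraicClosure k) (Set.range fun δ : Δ => r δ)) ≤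
      Submodule.span (AlgebraicClosure k)
        (Set.range fun i => β ((b i : _) : Module.End k V)) := by
    rw [Algebra.adjoin_eq_span]
    have hcl : (Submonoid.closure (Set.range fun δ : Δ => r δ) : Set _) =
        Set.range fun δ : Δ => r δ := by
      have h1 : Set.range (fun δ : Δ => r δ) =
          ((MonoidHom.mrange (r.comp Δ.subtype) : Submonoid _) : Set _) := by
        ext y
        simp
      rw [h1, Submonoid.closure_eq]
    rw [hcl, Submodule.span_le]
    rintro _ ⟨δ, rfl⟩
    have hmem : ρ (δ : Γ) ∈ Submodule.span k (Set.range fun δ : Δ => ρ (δ : Γ)) :=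
      Submodule.subset_span ⟨δ, rfl⟩
    have hrepr := b.sum_repr ⟨ρ (δ : Γ), hmem⟩
    have h3 : ρ (δ : Γ) = ∑ i, b.repr ⟨ρ (δ : Γ), hmem⟩ i • ((b i : _) : Module.End k V) := by
      have h4 := congrArg Subtype.val hrepr
      simp only [Submodule.coe_sum, Submodule.coe_smul] at h4
      exact h4.symm
    have h5 : r δ = ∑ i, algebraMap k (AlgebraicClosure k) (b.repr ⟨ρ (δ : Γ), hmem⟩ i) •
        β ((b i : _) : Module.End k V) := by
      show β (ρ (δ : Γ)) = _
      conv_lhs => rw [h3]
      rw [map_sum]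
      refine Finset.sum_congr rfl fun i _ => ?_
      rw [map_smul, algebraMap_smul]
    show r δ ∈ _
    rw [h5]
    exact Submodule.sum_mem _ fun i _ =>
      Submodule.smul_mem _ _ (Submodule.subset_span ⟨i, rfl⟩)
  have hfr : finrank (AlgebraicClosure k) (Subalgebra.toSubmodule
        (Algebra.adjoin (AlgebraicClosure k) (Set.range fun δ : Δ => r δ))) ≤
      finrank k (Submodule.span k (Set.range fun δ : Δ => ρ (δ : Γ))) := by
    calc finrank (AlgebraicClosure k) (Subalgebra.toSubmodule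
          (Algebra.adjoin (AlgebraicClosure k) (Set.range fun δ : Δ => r δ)))
        ≤ finrank (AlgebraicClosure k) (Submodule.span (AlgebraicClosure k)
          (Set.range fun i => β ((b i : _) : Module.End k V))) := Submodule.finrank_mono hspan
      _ ≤ Fintype.card (Fin (finrank k
          (Submodule.span k (Set.range fun δ : Δ => ρ (δ : Γ))))) := finrank_range_le_card _
      _ = finrank k (Submodule.span k (Set.range fun δ : Δ => ρ (δ : Γ))) := Fintype.card_fin _
  rw [hA, Algebra.top_toSubmodule, finrank_top, Module.finrank_linearMap, h2] at hfr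
  omega

end Fermat.Agent.S56.P3.H769

end
-- ===== PACK-END S56/P3/H769/Span.lean

-- ===== PACK-BEGIN S59/H659/Basic.lean
section



/-!
# S59, piece G3 (helper659): elementary descent lemmas

* the representation `toAdic r hr` in terms of the matrices `r σ`;
* elements, polynomials and matrices are detected by a jointly injective pair of homomorphisms;
* in a Noetherian local ring they are detected by the quotients `A ⧸ 𝔪ⁿ`, and membership in an
  ideal is detected by these quotients (Krull's intersection theorem).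
-/

set_option autoImplicit false
set_option linter.unusedSectionVars false
set_option linter.style.haveILetI false

namespace Fermat.Agent.S59.H659

open Fermat.Agent.S53 IsLocalRing Polynomial

section toAdic

variable {A : Type} [CommRing A] [IsLocalRing A]

theorem toAdic_rho_eq_one_iff (r : GQ →* M2 A) (hr : MatCont r) (σ : GQ) :
    (toAdic r hr).ρ σ = 1 ↔ r σ = 1 := by
  constructor
  · intro h
    apply matEnd_injective A
    rw [map_one]
    exact h
  · intro h
    show matEnd A (r σ) = 1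
    rw [h, map_one]

theorem det_toAdic (r : GQ →* M2 A) (hr : MatCont r) (σ : GQ) :
    LinearMap.det ((toAdic r hr).ρ σ) = (r σ).det :=
  LinearMap.det_toLin' (r σ)

theorem charpoly_toAdic (r : GQ →* M2 A) (hr : MatCont r) (σ : GQ) :
    LinearMap.charpoly ((toAdic r hr).ρ σ) = (r σ).charpoly :=
  Matrix.charpoly_toLin' (r σ)

end toAdic

section Fibre

variable {P A B : Type} [CommRing P] [CommRing A] [CommRing B] (pA : P →+* A) (pB : P →+* B)
  (hinj : Function.Injective (fun x => (pA x, pB x)))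

include hinj

theorem eq_of_fibre {x y : P} (hA : pA x = pA y) (hB : pB x = pB y) : x = y :=
  hinj (Prod.ext hA hB)

theorem eq_zero_of_fibre {x : P} (hA : pA x = 0) (hB : pB x = 0) : x = 0 :=
  eq_of_fibre pA pB hinj (by rw [hA, map_zero]) (by rw [hB, map_zero])

theorem mat_eq_of_fibre {M N : M2 P} (hA : M.map pA = N.map pA) (hB : M.map pB = N.map pB) :
    M = N := by
  ext i j
  refine eq_of_fibre pA pB hinj ?_ ?_
  · have := congrFun (congrFun hA i) j
    simpa using this
  · have := congrFun (congrFun hB i) j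
    simpa using this

theorem poly_eq_of_fibre {f g : P[X]} (hA : f.map pA = g.map pA) (hB : f.map pB = g.map pB) :
    f = g := by
  ext k
  refine eq_of_fibre pA pB hinj ?_ ?_
  · have := congrArg (fun h => Polynomial.coeff h k) hA
    simpa using this
  · have := congrArg (fun h => Polynomial.coeff h k) hB
    simpa using this

end Fibre

section Quot

variable {A : Type} [CommRing A] [IsLocalRing A] [IsNoetherianRing A]

/-- Krull's intersection theorem, elementwise. -/
theorem eq_zero_of_quotients {x : A}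
    (h : ∀ n : ℕ, n ≠ 0 → Ideal.Quotient.mk (maximalIdeal A ^ n) x = 0) : x = 0 := by
  have h1 : x ∈ ⨅ n : ℕ, maximalIdeal A ^ n := by
    rw [Ideal.mem_iInf]
    intro n
    rcases Nat.eq_zero_or_pos n with rfl | hn
    · simp
    · exact Ideal.Quotient.eq_zero_iff_mem.mp (h n hn.ne')
  rw [Ideal.iInf_pow_eq_bot_of_isLocalRing (maximalIdeal A) Ideal.IsPrime.ne_top'] at h1
  exact h1

theorem eq_of_quotients {x y : A}
    (h : ∀ n : ℕ, n ≠ 0 → Ideal.Quotient.mk (maximalIdeal A ^ n) x =
      Ideal.Quotient.mk (maximalIdeal A ^ n) y) : x = y := by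
  rw [← sub_eq_zero]
  exact eq_zero_of_quotients fun n hn => by rw [map_sub, h n hn, sub_self]

theorem mat_eq_of_quotients {M N : M2 A}
    (h : ∀ n : ℕ, n ≠ 0 → M.map (Ideal.Quotient.mk (maximalIdeal A ^ n)) =
      N.map (Ideal.Quotient.mk (maximalIdeal A ^ n))) : M = N := by
  ext i j
  refine eq_of_quotients fun n hn => ?_
  have := congrFun (congrFun (h n hn) i) j
  simpa using this

theorem poly_eq_of_quotients {f g : A[X]}
    (h : ∀ n : ℕ, n ≠ 0 → f.map (Ideal.Quotient.mk (maximalIdeal A ^ n)) =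
      g.map (Ideal.Quotient.mk (maximalIdeal A ^ n))) : f = g := by
  ext k
  refine eq_of_quotients fun n hn => ?_
  have := congrArg (fun h => Polynomial.coeff h k) (h n hn)
  simpa using this

/-- Ideals of a Noetherian local ring are closed: membership is detected modulo the powers of
the maximal ideal. -/
theorem mem_of_quotients (I : Ideal A) {x : A}
    (h : ∀ n : ℕ, n ≠ 0 → Ideal.Quotient.mk (maximalIdeal A ^ n) x ∈
      I.map (Ideal.Quotient.mk (maximalIdeal A ^ n))) : x ∈ I := by
  have h1 : ∀ n : ℕ, x ∈ I ⊔ maximalIdeal A ^ n := by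
    intro n
    rcases Nat.eq_zero_or_pos n with rfl | hn
    · simp
    · have h2 := h n hn.ne'
      rw [← Ideal.mem_comap, Ideal.comap_map_of_surjective _ Ideal.Quotient.mk_surjective,
        ← RingHom.ker_eq_comap_bot, Ideal.mk_ker] at h2
      exact h2
  -- pass to the quotient `A ⧸ I`
  by_cases hI : I = ⊤
  · rw [hI]; trivial
  haveI : Nontrivial (A ⧸ I) := Ideal.Quotient.nontrivial_iff.mpr hI
  haveI : IsLocalRing (A ⧸ I) :=
    IsLocalRing.of_surjective' (Ideal.Quotient.mk I) Ideal.Quotient.mk_surjective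
  have h3 : Ideal.Quotient.mk I x ∈ ⨅ n : ℕ, (maximalIdeal A).map (Ideal.Quotient.mk I) ^ n := by
    rw [Ideal.mem_iInf]
    intro n
    rw [← Ideal.map_pow]
    obtain ⟨a, ha, b, hb, hab⟩ := Submodule.mem_sup.mp (h1 n)
    rw [← hab, map_add, Ideal.Quotient.eq_zero_iff_mem.mpr ha, zero_add]
    exact Ideal.mem_map_of_mem _ hb
  have hne : (maximalIdeal A).map (Ideal.Quotient.mk I) ≠ ⊤ := by
    intro htop
    have h4 : (1 : A ⧸ I) ∈ (maximalIdeal A).map (Ideal.Quotient.mk I) := by rw [htop]; trivial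
    rw [← map_one (Ideal.Quotient.mk I), ← Ideal.mem_comap,
      Ideal.comap_map_of_surjective _ Ideal.Quotient.mk_surjective,
      ← RingHom.ker_eq_comap_bot, Ideal.mk_ker] at h4
    have h5 : maximalIdeal A ⊔ I = maximalIdeal A :=
      sup_eq_left.mpr (IsLocalRing.le_maximalIdeal hI)
    rw [h5] at h4
    exact (Ideal.ne_top_iff_one _).mp Ideal.IsPrime.ne_top' h4
  rw [Ideal.iInf_pow_eq_bot_of_isLocalRing _ hne] at h3
  exact Ideal.Quotient.eq_zero_iff_mem.mp h3

end Quot

section Local

variable {A B : Type} [CommRing A] [IsLocalRing A] [CommRing B] [IsLocalRing B]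

/-- Ring homomorphisms of local rings reflect membership of the maximal ideal. -/
theorem mem_maximalIdeal_of_map (φ : A →+* B) {a : A}
    (h : φ a ∈ maximalIdeal B) : a ∈ maximalIdeal A := by
  rw [IsLocalRing.mem_maximalIdeal, mem_nonunits_iff] at h ⊢
  exact fun ha => h (ha.map φ)

theorem natCast_mem_maximalIdeal_of_map (φ : A →+* B) {p : ℕ}
    (h : (p : B) ∈ maximalIdeal B) : (p : A) ∈ maximalIdeal A :=
  mem_maximalIdeal_of_map φ (by rwa [map_natCast])

end Local

end Fermat.Agent.S59.H659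

end
-- ===== PACK-END S59/H659/Basic.lean

-- ===== PACK-BEGIN S19/H135/Power.lean
section
/-
Cell A3 / WP-C (helper135): Hopf lattices on trivial groups and on finite powers / finite
products of copies of one module.
-/


set_option autoImplicit false

namespace Fermat.Agent.S19.H135

section Trivial

variable {ℓ : ℕ} {M : Type} [AddCommGroup M]
  {act : (AlgebraicClosure ℚ ≃ₐ[ℚ] AlgebraicClosure ℚ) → M → M}

/-- On a trivial group the scalars form a Hopf lattice. -/
theorem isHopfLattice_bot [Subsingleton M] :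
    IsHopfLattice ℓ act (⊥ : Subalgebra (GaloisRep.ratLocalizedAt ℓ) (M → AlgebraicClosure ℚ)) := by
  refine ⟨?_, ?_, ?_, ?_⟩
  · exact Subalgebra.fg_bot_toSubmodule
  · intro f hf σ m
    obtain ⟨r, rfl⟩ := Algebra.mem_bot.mp hf
    show algebraMap ℚ (AlgebraicClosure ℚ) (r : ℚ) = σ (algebraMap ℚ (AlgebraicClosure ℚ) (r : ℚ))
    exact (σ.commutes (r : ℚ)).symm
  · intro m n _
    exact Subsingleton.elim m n
  · rintro _ ⟨f, hf, rfl⟩
    obtain ⟨r, rfl⟩ := Algebra.mem_bot.mp hf
    rw [AlgHom.coe_toRingHom, AlgHom.commutes]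
    exact Subalgebra.algebraMap_mem _ r

theorem hasHopfLattice_of_subsingleton [Subsingleton M] : HasHopfLattice ℓ M act :=
  ⟨⊥, isHopfLattice_bot⟩

end Trivial

section Power

variable {ℓ : ℕ} {M : Type} [AddCommGroup M]
  {act : (AlgebraicClosure ℚ ≃ₐ[ℚ] AlgebraicClosure ℚ) → M → M}

/-- Finite powers, indexed by `Fin r`. -/
theorem HasHopfLattice.finPower (h : HasHopfLattice ℓ M act) (r : ℕ) :
    HasHopfLattice ℓ (Fin r → M) (fun σ v i => act σ (v i)) := by
  induction r with
  | zero => exact hasHopfLattice_of_subsingleton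
  | succ r ih =>
    have hprod := h.prod ih
    let i : (Fin (r + 1) → M) →+ M × (Fin r → M) :=
      { toFun := fun v => (v 0, fun j => v j.succ)
        map_zero' := rfl
        map_add' := fun _ _ => rfl }
    refine hprod.of_injective i ?_ (fun _ _ => rfl)
    intro v w hvw
    have h0 : v 0 = w 0 := congrArg Prod.fst hvw
    have hs : (fun j : Fin r => v j.succ) = fun j => w j.succ := congrArg Prod.snd hvw
    funext j
    refine Fin.cases h0 (fun j => congrFun hs j) j

/-- Finite powers, indexed by an arbitrary finite type. -/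
theorem HasHopfLattice.power (h : HasHopfLattice ℓ M act) (ι : Type) [Finite ι] :
    HasHopfLattice ℓ (ι → M) (fun σ v i => act σ (v i)) := by
  obtain ⟨r, ⟨e⟩⟩ := Finite.exists_equiv_fin ι
  let i : (ι → M) →+ (Fin r → M) :=
    { toFun := fun v j => v (e.symm j)
      map_zero' := rfl
      map_add' := fun _ _ => rfl }
  refine (h.finPower r).of_injective i ?_ (fun _ _ => rfl)
  intro v w hvw
  funext x
  have := congrFun hvw (e x)
  simpa [i] using this

end Power

end Fermat.Agent.S19.H135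

end
-- ===== PACK-END S19/H135/Power.lean

-- ===== PACK-BEGIN S19/H19/Equivariant.lean
section
/-
A3 / S19, helper19 — piece ORD, part 6: Galois-equivariant orders over a subring of `ℚ`.

`R ⊂ ℚ` a principal ideal ring which is integrally closed in `ℚ`; `M` a finite abelian group with
an action of `G_ℚ` fixing `0`; `H ⊂ (M → ℚ̄)` a finitely generated `R`-subalgebra of equivariant
functions, separating points, with `f(s+t) ∈ im (H ⊗ H)`.  Then `H` is a finite flat commutative
cocommutative Hopf algebra over `R` with `H(ℚ̄) = M`, Galois-equivariantly.  Mathlib only.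
-/



set_option autoImplicit false
set_option linter.unusedSectionVars false
set_option linter.style.haveILetI false

noncomputable section

namespace Fermat.Agent.S19.H19

open scoped BigOperators TensorProduct

variable (R : Subring ℚ)

theorem algebraMap_subring_injective : Function.Injective (algebraMap R _root_.Fermat.Agent.S19.H19.Qb) := by
  have h1 : (algebraMap R _root_.Fermat.Agent.S19.H19.Qb : R → _root_.Fermat.Agent.S19.H19.Qb) = (algebraMap ℚ _root_.Fermat.Agent.S19.H19.Qb) ∘ (Subtype.val : R → ℚ) := by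
    funext x
    rfl
  rw [h1]
  exact (algebraMap ℚ _root_.Fermat.Agent.S19.H19.Qb).injective.comp Subtype.val_injective

theorem mem_range_of_fixed_of_isIntegral (hR : ∀ q : ℚ, IsIntegral R q → q ∈ R) (x : _root_.Fermat.Agent.S19.H19.Qb)
    (hfix : ∀ σ : _root_.Fermat.Agent.S19.H19.GalQ, σ x = x) (hint : IsIntegral R x) : x ∈ (Algebra.ofId R _root_.Fermat.Agent.S19.H19.Qb).range := by
  obtain ⟨q, hq⟩ := exists_rat_of_fixed x hfix
  have h1 : IsIntegral R q := by
    rw [← hq] at hint
    exact (isIntegral_algebraMap_iff (algebraMap ℚ _root_.Fermat.Agent.S19.H19.Qb).injective).mp hint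
  exact ⟨⟨q, hR q h1⟩, hq⟩

variable {M : Type}

section Good

variable {act : _root_.Fermat.Agent.S19.H19.GalQ → M → M}

theorem isTorsionFree_subalgebra (H : Subalgebra R (M → _root_.Fermat.Agent.S19.H19.Qb)) : Module.IsTorsionFree R H := by
  rw [Module.isTorsionFree_iff_smul_eq_zero]
  intro r f hrf
  by_cases hr : r = 0
  · exact Or.inl hr
  · right
    apply Subtype.ext
    funext m
    have h1 : (r • (f : M → _root_.Fermat.Agent.S19.H19.Qb)) m = 0 := by
      have := congrArg (fun g : H => (g : M → _root_.Fermat.Agent.S19.H19.Qb) m) hrf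
      exact this
    rw [Pi.smul_apply, Algebra.smul_def, mul_eq_zero] at h1
    rcases h1 with h1 | h1
    · exact absurd (algebraMap_subring_injective R (h1.trans (map_zero _).symm)) hr
    · exact h1

theorem good_of_equivariant [IsPrincipalIdealRing R]
    (hone : ∀ m, act 1 m = m) (hact : ∀ σ τ m, act σ (act τ m) = act (σ * τ) m)
    (H : Subalgebra R (M → _root_.Fermat.Agent.S19.H19.Qb)) (hequiv : ∀ f ∈ H, IsEquivariant act f)
    (hfg : (Subalgebra.toSubmodule H).FG) : Good H.val := by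
  haveI : Module.Finite R H := Module.Finite.iff_fg.mpr hfg
  haveI : Module.IsTorsionFree R H := isTorsionFree_subalgebra R H
  haveI : Module.Free R H := Module.free_of_finite_type_torsion_free'
  let b := Module.Free.chooseBasis R H
  refine ⟨Module.Free.ChooseBasisIndex R H, inferInstance, b, ?_⟩
  apply linearIndependent_of_equivariant hone hact
  · intro i
    exact hequiv _ (b i).2
  · -- `ℚ`-linear independence
    have h1 : LinearIndependent R (fun i => H.val (b i)) :=
      b.linearIndependent.map' H.val.toLinearMap (LinearMap.ker_eq_bot.mpr Subtype.val_injective)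
    have h2 : LinearIndependent ℤ (fun i => H.val (b i)) := by
      refine LinearIndependent.restrict_scalars (K := R) ?_ h1
      intro x y hxy
      simp only [zsmul_eq_mul, mul_one] at hxy
      exact_mod_cast hxy
    exact LinearIndependent.localization ℚ (nonZeroDivisors ℤ) h2

end Good

section Main

variable [AddCommGroup M] [Finite M] {act : _root_.Fermat.Agent.S19.H19.GalQ → M → M}

theorem counit_mem_of_equivariant (hR : ∀ q : ℚ, IsIntegral R q → q ∈ R)
    (hzero : ∀ σ, act σ 0 = 0)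
    (H : Subalgebra R (M → _root_.Fermat.Agent.S19.H19.Qb)) (hequiv : ∀ f ∈ H, IsEquivariant act f)
    (hfg : (Subalgebra.toSubmodule H).FG) :
    ∀ f ∈ H, f 0 ∈ (Algebra.ofId R _root_.Fermat.Agent.S19.H19.Qb).range := by
  intro f hf
  haveI : Module.Finite R H := Module.Finite.iff_fg.mpr hfg
  apply mem_range_of_fixed_of_isIntegral R hR
  · intro σ
    rw [← hequiv f hf σ 0, hzero]
  · have h1 : IsIntegral R (⟨f, hf⟩ : H) := Algebra.IsIntegral.isIntegral _
    exact h1.map (IsOrder.evPt H 0)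

/-- A finitely generated, equivariant subalgebra closed under `f ↦ f(s+t)` is an order. -/
theorem isOrder_of_equivariant [IsPrincipalIdealRing R]
    (hR : ∀ q : ℚ, IsIntegral R q → q ∈ R)
    (hone : ∀ m, act 1 m = m) (hact : ∀ σ τ m, act σ (act τ m) = act (σ * τ) m)
    (hzero : ∀ σ, act σ 0 = 0)
    (H : Subalgebra R (M → _root_.Fermat.Agent.S19.H19.Qb)) (hequiv : ∀ f ∈ H, IsEquivariant act f)
    (hfg : (Subalgebra.toSubmodule H).FG)
    (hcomul : ∀ f ∈ H, (fun p : M × M => f (p.1 + p.2)) ∈ (prodMap H.val H.val).range) :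
    IsOrder H where
  alg_inj := algebraMap_subring_injective R
  good := good_of_equivariant R hone hact H hequiv hfg
  comul_mem := hcomul
  counit_mem := counit_mem_of_equivariant R hR hzero H hequiv hfg
  anti_mem := neg_mem_of_comul_mem H hcomul (counit_mem_of_equivariant R hR hzero H hequiv hfg)

/-- **Piece ORD, Galois form.** -/
theorem exists_hopf_of_equivariant_order [IsPrincipalIdealRing R]
    (hR : ∀ q : ℚ, IsIntegral R q → q ∈ R)
    (hone : ∀ m, act 1 m = m) (hact : ∀ σ τ m, act σ (act τ m) = act (σ * τ) m)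
    (hzero : ∀ σ, act σ 0 = 0)
    (H : Subalgebra R (M → _root_.Fermat.Agent.S19.H19.Qb)) (hequiv : ∀ f ∈ H, IsEquivariant act f)
    (hfg : (Subalgebra.toSubmodule H).FG)
    (hsep : ∀ m m' : M, m ≠ m' → ∃ f ∈ H, f m ≠ f m')
    (hcomul : ∀ f ∈ H, (fun p : M × M => f (p.1 + p.2)) ∈ (prodMap H.val H.val).range) :
    ∃ (H' : Type) (_ : CommRing H') (_ : HopfAlgebra R H'),
      Module.Finite R H' ∧ Module.Flat R H' ∧ Coalgebra.IsCocomm R H' ∧
      ∃ e : WithConv (H' →ₐ[R] _root_.Fermat.Agent.S19.H19.Qb) ≃ M, (∀ f g, e (f * g) = e f + e g) ∧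
        ∀ (σ : _root_.Fermat.Agent.S19.H19.GalQ) (f g : WithConv (H' →ₐ[R] _root_.Fermat.Agent.S19.H19.Qb)),
          (∀ h : H', g h = σ (f h)) → e g = act σ (e f) := by
  obtain ⟨H', i1, i2, h1, h2, h3, e, he1, he2⟩ := exists_hopf_of_isOrder
    (isOrder_of_equivariant R hR hone hact hzero H hequiv hfg hcomul) hsep
  exact ⟨H', i1, i2, h1, h2, h3, e, he1, fun σ f g hfg =>
    he2 σ (act σ) (fun h hh m => hequiv h hh σ m) f g hfg⟩

end Main

end Fermat.Agent.S19.H19

end

end
-- ===== PACK-END S19/H19/Equivariant.lean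

-- ===== PACK-BEGIN S53/Abstract1.lean
section



set_option autoImplicit false
set_option linter.unusedSectionVars false
set_option linter.unusedVariables false
set_option linter.style.haveILetI false

namespace Fermat.Agent.S53

open IsLocalRing GaloisRep CA

section

variable {𝒪 : Type} [CommRing 𝒪] [IsDomain 𝒪] [IsDiscreteValuationRing 𝒪]
  [IsAdicComplete (IsLocalRing.maximalIdeal 𝒪) 𝒪] [Finite (IsLocalRing.ResidueField 𝒪)]
variable {ι : Type}

/-- the `l`-th coordinate of a point, shifted by the base point -/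
def coord (c : ι → 𝒪) {d : ℕ} (idx : Fin d → ι) {A : Type} [CommRing A] [Algebra 𝒪 A]
    (x : ι → A) (l : Fin d) : A :=
  x (idx l) - algebraMap 𝒪 A (c (idx l))

theorem coord_map (c : ι → 𝒪) {d : ℕ} (idx : Fin d → ι) {A B : Type} [CommRing A] [Algebra 𝒪 A]
    [CommRing B] [Algebra 𝒪 B] (φ : A →ₐ[𝒪] B) (x : ι → A) (l : Fin d) :
    coord c idx (fun i => φ (x i)) l = φ (coord c idx x l) := by
  simp [coord]

/-- the chosen coordinates detect triviality of first order points -/
def Sep (c : ι → 𝒪) (L : PointFamily 𝒪 ι) {d : ℕ} (idx : Fin d → ι) : Prop :=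
  ∀ ⦃B : Type⦄ [CommRing B] [IsLocalRing B] [Algebra 𝒪 B],
    IsArtinianTestAlgebra 𝒪 B → maximalIdeal B ^ 2 = ⊥ →
    (maximalIdeal 𝒪).map (algebraMap 𝒪 B) = ⊥ →
    ∀ ⦃x : ι → B⦄, L x → (∀ l, coord c idx x l = 0) →
      ∀ i, x i = algebraMap 𝒪 B (c i)

theorem exists_sep {c : ι → 𝒪} {L : PointFamily 𝒪 ι} (hL : IsRigidFamily 𝒪 ι c L) :
    ∃ (d : ℕ) (idx : Fin d → ι), Sep c L idx := by
  obtain ⟨F, hF⟩ := hL.tangent
  refine ⟨F.card, fun l => (F.equivFin.symm l : ι), ?_⟩
  intro B _ _ _ hB h2 hϖ x hx hcoord i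
  refine hF hB h2 hϖ hx ?_ i
  intro j hj
  have := hcoord (F.equivFin ⟨j, hj⟩)
  simpa [coord, sub_eq_zero] using this

/-- the maximal ideal of a quotient of a local ring -/
theorem map_mk_maximalIdeal {A : Type} [CommRing A] [IsLocalRing A] (J : Ideal A)
    [IsLocalRing (A ⧸ J)] :
    (maximalIdeal A).map (Ideal.Quotient.mk J) = maximalIdeal (A ⧸ J) := by
  have hJ : J ≠ ⊤ := Ideal.Quotient.nontrivial_iff.mp inferInstance
  ext x
  obtain ⟨x, rfl⟩ := Ideal.Quotient.mk_surjective x
  haveI := IsLocalHom.of_surjective (Ideal.Quotient.mk J) Ideal.Quotient.mk_surjective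
  simp [sup_eq_left.mpr (le_maximalIdeal hJ)]

/-- in a test algebra, `algebraMap u ∈ m` forces `u ∈ m` -/
theorem mem_maximalIdeal_of_algebraMap_mem {A : Type} [CommRing A] [IsLocalRing A] [Algebra 𝒪 A]
    (hloc : IsLocalHom (algebraMap 𝒪 A)) {u : 𝒪} (hu : algebraMap 𝒪 A u ∈ maximalIdeal A) :
    u ∈ maximalIdeal 𝒪 := by
  rw [mem_maximalIdeal, mem_nonunits_iff] at hu ⊢
  intro h
  exact hu (h.map _)

/-- **Lemma A.** Over a test algebra, every coordinate of a point is a power series in the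
finitely many chosen coordinates. -/
theorem exists_eq_of_coord {c : ι → 𝒪} {L : PointFamily 𝒪 ι} (hL : IsRigidFamily 𝒪 ι c L)
    {d : ℕ} {idx : Fin d → ι} (hsep : Sep c L idx)
    {A : Type} [CommRing A] [IsLocalRing A] [Algebra 𝒪 A] (hA : IsArtinianTestAlgebra 𝒪 A)
    {x : ι → A} (hx : L x) (φ : PS 𝒪 d →ₐ[𝒪] A)
    (hφ : ∀ l, φ (MvPowerSeries.X l) = coord c idx x l) (i : ι) :
    ∃ s, φ s = x i := by
  classical
  -- the subalgebra generated by the coordinates of `x`
  let A' : Subalgebra 𝒪 A := Algebra.adjoin 𝒪 (Set.range x)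
  haveI : IsLocalRing A' := test_subalgebra_isLocalRing hA A'
  have hA' : IsArtinianTestAlgebra 𝒪 A' := test_subalgebra hA A'
  let x' : ι → A' := fun i => ⟨x i, Algebra.subset_adjoin (Set.mem_range_self i)⟩
  have hvalloc : IsLocalHom (A'.val : A' →+* A) := test_isLocalHom hA' _
  have hx' : L x' := hL.inj hA' hA A'.val hvalloc Subtype.val_injective hx
  have hb' : ∀ l, coord c idx x' l ∈ maximalIdeal A' := fun l => hL.res hA' hx' (idx l)
  haveI := test_isAdicComplete hA'
  haveI := test_isAdicComplete hA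
  obtain ⟨φ', hφ'loc, hφ'X⟩ := exists_evalS hA'.isLocalHom (coord c idx x') hb'
  have hsurj : Function.Surjective φ' := by
    apply evalS_surjective hA' φ'
    set I : Ideal A' := (maximalIdeal 𝒪).map (algebraMap 𝒪 A') ⊔
      Ideal.span (Set.range fun l => φ' (MvPowerSeries.X l)) ⊔ maximalIdeal A' ^ 2 with hI
    have hI1 : (maximalIdeal 𝒪).map (algebraMap 𝒪 A') ≤ I :=
      le_sup_of_le_left le_sup_left
    have hI2 : ∀ l, coord c idx x' l ∈ I := fun l => by
      have h : φ' (MvPowerSeries.X l) ∈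
          Ideal.span (Set.range fun l => φ' (MvPowerSeries.X l)) := Ideal.subset_span ⟨l, rfl⟩
      rw [hφ'X] at h
      exact (le_sup_of_le_left le_sup_right :
        Ideal.span (Set.range fun l => φ' (MvPowerSeries.X l)) ≤ I) h
    have hI3 : maximalIdeal A' ^ 2 ≤ I := le_sup_right
    have hIm : I ≤ maximalIdeal A' := by
      refine sup_le (sup_le ?_ ?_) ?_
      · haveI := hA'.isLocalHom
        exact map_maximalIdeal_le (algebraMap 𝒪 A')
      · rw [Ideal.span_le]
        rintro _ ⟨l, rfl⟩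
        simpa [hφ'X] using hb' l
      · exact Ideal.pow_le_self (by norm_num)
    have hItop : I ≠ ⊤ := ne_top_of_le_ne_top (Ideal.IsMaximal.ne_top inferInstance) hIm
    haveI : IsLocalRing (A' ⧸ I) := isLocalRing_quot hItop
    have hB : IsArtinianTestAlgebra 𝒪 (A' ⧸ I) := test_quotient hA' I
    have h2 : maximalIdeal (A' ⧸ I) ^ 2 = ⊥ := by
      rw [← map_mk_maximalIdeal, ← Ideal.map_pow, Ideal.map_eq_bot_iff_le_ker, Ideal.mk_ker]
      exact hI3
    have hϖ : (maximalIdeal 𝒪).map (algebraMap 𝒪 (A' ⧸ I)) = ⊥ := by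
      have : algebraMap 𝒪 (A' ⧸ I) = (Ideal.Quotient.mk I).comp (algebraMap 𝒪 A') := rfl
      rw [this, ← Ideal.map_map, Ideal.map_eq_bot_iff_le_ker, Ideal.mk_ker]
      exact hI1
    have hmkloc : IsLocalHom ((Ideal.Quotient.mkₐ 𝒪 I : A' →ₐ[𝒪] A' ⧸ I) : A' →+* A' ⧸ I) :=
      test_isLocalHom hA' _
    have hxB : L (fun i => (Ideal.Quotient.mkₐ 𝒪 I) (x' i)) :=
      hL.map hA' hB (Ideal.Quotient.mkₐ 𝒪 I) hmkloc hx'
    have hcoord : ∀ l, coord c idx (fun i => (Ideal.Quotient.mkₐ 𝒪 I) (x' i)) l = 0 := by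
      intro l
      rw [coord_map]
      exact Ideal.Quotient.eq_zero_iff_mem.mpr (hI2 l)
    have hall : ∀ i, x' i - algebraMap 𝒪 A' (c i) ∈ I := by
      intro i
      have := hsep hB h2 hϖ hxB hcoord i
      rw [← Ideal.Quotient.eq_zero_iff_mem, map_sub]
      rw [sub_eq_zero]
      exact this
    -- every element of A' is congruent to a constant modulo I
    have hkey : ∀ a : A, ∀ ha : a ∈ A', ∃ u : 𝒪, (⟨a, ha⟩ : A') - algebraMap 𝒪 A' u ∈ I := by
      intro a ha
      induction ha using Algebra.adjoin_induction with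
      | mem a ha =>
        obtain ⟨i, rfl⟩ := ha
        exact ⟨c i, hall i⟩
      | algebraMap r =>
        refine ⟨r, ?_⟩
        have : (⟨algebraMap 𝒪 A r, Subalgebra.algebraMap_mem _ r⟩ : A') = algebraMap 𝒪 A' r := rfl
        rw [this, sub_self]
        exact I.zero_mem
      | add a b ha hb iha ihb =>
        obtain ⟨u, hu⟩ := iha
        obtain ⟨v, hv⟩ := ihb
        refine ⟨u + v, ?_⟩
        have : (⟨a + b, add_mem ha hb⟩ : A') - algebraMap 𝒪 A' (u + v) =
            ((⟨a, ha⟩ : A') - algebraMap 𝒪 A' u) + ((⟨b, hb⟩ : A') - algebraMap 𝒪 A' v) := by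
          rw [map_add]; ext; simp; ring
        rw [this]
        exact I.add_mem hu hv
      | mul a b ha hb iha ihb =>
        obtain ⟨u, hu⟩ := iha
        obtain ⟨v, hv⟩ := ihb
        refine ⟨u * v, ?_⟩
        have : (⟨a * b, mul_mem ha hb⟩ : A') - algebraMap 𝒪 A' (u * v) =
            ((⟨a, ha⟩ : A') - algebraMap 𝒪 A' u) * ⟨b, hb⟩ +
              algebraMap 𝒪 A' u * ((⟨b, hb⟩ : A') - algebraMap 𝒪 A' v) := by
          rw [map_mul]; ext; simp; ring
        rw [this]
        exact I.add_mem (I.mul_mem_right _ hu) (I.mul_mem_left _ hv)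
    intro a ha
    obtain ⟨u, hu⟩ := hkey a.1 a.2
    have hau : algebraMap 𝒪 A' u ∈ maximalIdeal A' := by
      have h1 := (maximalIdeal A').sub_mem ha (hIm hu)
      simpa using h1
    have hu' : u ∈ maximalIdeal 𝒪 := mem_maximalIdeal_of_algebraMap_mem hA'.isLocalHom hau
    have h3 : algebraMap 𝒪 A' u ∈ I := hI1 (Ideal.mem_map_of_mem _ hu')
    have := I.add_mem hu h3
    simpa using this
  have hcomp : A'.val.comp φ' = φ := by
    refine evalS_ext _ _ ?_ ?_
    · intro l
      simp only [AlgHom.comp_apply, hφ'X]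
      exact hL.res hA hx (idx l)
    · intro l
      simp only [AlgHom.comp_apply, hφ'X, hφ]
      rfl
  obtain ⟨s, hs⟩ := hsurj (x' i)
  refine ⟨s, ?_⟩
  rw [← hcomp, AlgHom.comp_apply, hs]
  rfl

end

end Fermat.Agent.S53

end
-- ===== PACK-END S53/Abstract1.lean

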