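import Mathlib
import Fermat.Agent.Pack.S43GC.G0E9L2
import Fermat.Agent.Pack.S43GC.G0E9L3
import Fermat.Agent.Pack.S43GC.G0E5L1
import Fermat.Agent.Pack.S43GC.G0E3L2
import Fermat.Agent.Pack.S43GC.G0E10L0
import Fermat.Agent.Pack.S43GC.G0E10L3
import Fermat.Agent.Pack.S43GC.G0E10L1
import Fermat.Agent.Pack.S43GC.G0E5L2
import Fermat.Agent.Pack.S43GC.G0E0L0
import Fermat.Agent.Pack.S43GC.G0E1L3
import Fermat.Agent.Pack.S43GC.G0E6L1
import Fermat.Agent.Pack.S43GC.G0E8L3
import Fermat.Agent.Pack.S43GC.G0E8L2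
import Fermat.Agent.Pack.S43GC.G0E6L3
import Fermat.Agent.Pack.S43GC.G0E8L0
import Fermat.Agent.Pack.S43GC.G0E11L3
import Fermat.Agent.Pack.S43GC.G0E1L0
import Fermat.Agent.Pack.Fast891

-- ===== PACK-BEGIN S55/PT/ConeDelH113.lean
section



/-!
# S55 / PT layer, leaf D-F5 (helper113): the cone connecting map `∂ : H²_c(C) → T³(A)`

For a short exact sequence `E : SES A B C` of uniformly smooth representations of the global
group such that `H²(B) → H²(C)` is surjective, we construct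
`coneDel : H²_c(C) → T³(A) = coker (H²(A) → ∏_v H²(G_v, A))` and prove

* `coneDel_mk`    : `∂[z] = [α]` for ANY witness `(b, y, x)` of the relation `Rel z α`;
* `ker_coneDel`   : `ker ∂ = im (H²_c(B) → H²_c(C))`;
* `range_coneDel` : `im ∂ = ker (T³(A) → T³(B))`;
* `coneDel_jH`    : `∂ (j y) = - [ (δ¹_v y_v)_v ]`.
-/

set_option autoImplicit false
set_option linter.unusedSectionVars false

noncomputable section

namespace Fermat.Agent.S55.PT.H113

open groupCohomology Fermat.Agent.S55.PT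

/-! ### a linear relation which is total and single-valued modulo `q` is a linear map -/

section Generic

variable {k : Type*} [Field k] {X Y T : Type*} [AddCommGroup X] [Module k X]
  [AddCommGroup Y] [Module k Y] [AddCommGroup T] [Module k T]

theorem exists_linearMap_of_rel (Γ : Submodule k (X × Y)) (q : Y →ₗ[k] T) (N : Submodule k X)
    (total : ∀ x, ∃ y, (x, y) ∈ Γ) (h : ∀ x y, (x, y) ∈ Γ → x ∈ N → q y = 0) :
    ∃ φ : (X ⧸ N) →ₗ[k] T, ∀ x y, (x, y) ∈ Γ → φ (Submodule.Quotient.mk x) = q y := by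
  classical
  let p₁ : ↥Γ →ₗ[k] X := (LinearMap.fst k X Y).comp Γ.subtype
  let p₂ : ↥Γ →ₗ[k] T := q.comp ((LinearMap.snd k X Y).comp Γ.subtype)
  have hp₁ : Function.Surjective p₁ := by
    intro x
    obtain ⟨y, hy⟩ := total x
    exact ⟨⟨(x, y), hy⟩, rfl⟩
  have hker : LinearMap.ker p₁ ≤ LinearMap.ker p₂ := by
    rintro ⟨⟨x, y⟩, hxy⟩ hx
    rw [LinearMap.mem_ker] at hx ⊢
    have hx0 : x = 0 := hx
    subst hx0
    exact h 0 y hxy N.zero_mem
  let e := p₁.quotKerEquivOfSurjective hp₁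
  let ψ : X →ₗ[k] T := ((LinearMap.ker p₁).liftQ p₂ hker) ∘ₗ e.symm.toLinearMap
  have hψ : ∀ γ : ↥Γ, ψ (p₁ γ) = p₂ γ := by
    intro γ
    have he : e.symm (p₁ γ) = Submodule.Quotient.mk γ := by
      rw [LinearEquiv.symm_apply_eq]
      rfl
    show ((LinearMap.ker p₁).liftQ p₂ hker) (e.symm (p₁ γ)) = _
    rw [he, Submodule.liftQ_apply]
  have hψ' : ∀ x y, (x, y) ∈ Γ → ψ x = q y := fun x y hxy => hψ ⟨(x, y), hxy⟩
  have hN : N ≤ LinearMap.ker ψ := by
    intro x hx
    obtain ⟨y, hy⟩ := total x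
    rw [LinearMap.mem_ker, hψ' x y hy]
    exact h x y hy hx
  refine ⟨N.liftQ ψ hN, fun x y hxy => ?_⟩
  rw [Submodule.liftQ_apply]
  exact hψ' x y hxy

end Generic

/-! ### generic cochain lemmas for a short exact sequence -/

section GenericSES

variable {k : Type} [Field k] {H : Type} [Group H] {A B C : Rep.{0, 0, 0} k H}
  (E : SES A B C) (L : LevelSys H)

lemma eq_ret_comp_of_i_comp {X : Type*} {t : X → A} {t' : X → B} (h : E.i ∘ t = t') :
    t = E.ret ∘ t' := by
  funext g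
  rw [← h]
  exact (E.ret_i _).symm

lemma isLC₁_of_i_comp {t : H → A} {t' : H → B} (ht' : L.IsLC₁ t') (h : E.i ∘ t = t') :
    L.IsLC₁ t := by
  rw [eq_ret_comp_of_i_comp E h]
  exact ht'.comp E.ret

lemma isLC₂_of_i_comp {t : H × H → A} {t' : H × H → B} (ht' : L.IsLC₂ t') (h : E.i ∘ t = t') :
    L.IsLC₂ t := by
  rw [eq_ret_comp_of_i_comp E h]
  exact ht'.comp E.ret

/-- a 2-cochain of `A` whose image in `B` is a level-constant cocycle is one. -/
lemma mem_Z2_of_i_comp {a : H × H → A} {u : H × H → B} (hu : u ∈ L.Z2 B) (h : E.i ∘ a = u) :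
    a ∈ L.Z2 A := by
  refine ⟨?_, isLC₂_of_i_comp E L hu.2 h⟩
  show (d₂₃ A).hom a = 0
  have h3 : (d₂₃ B).hom u = 0 := hu.1
  have h1 := push_d₂₃ E.i E.hi a
  rw [h, h3] at h1
  funext g
  apply E.inj
  rw [Pi.zero_apply, map_zero]
  exact (congrFun h1 g).symm

/-- two level-constant cocycles of `A` whose images in `B` differ by the coboundary of a
level-constant 1-cochain with values in `ker π` are cohomologous. -/
lemma H2π_eq_of_i_comp_sub {a a' : ↥(L.Z2 A)} {t' : H → B} (ht' : L.IsLC₁ t')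
    (hπ : ∀ g, E.π (t' g) = 0)
    (h : ∀ g, E.i ((a : H × H → A) g) - E.i ((a' : H × H → A) g) = (d₁₂ B).hom t' g) :
    L.H2π A a = L.H2π A a' := by
  rw [← sub_eq_zero, ← map_sub, LevelSys.H2π_eq_zero_iff]
  refine ⟨E.ret ∘ t', ht'.comp E.ret, ?_⟩
  apply ses_comp_injective E
  rw [← push_d₁₂ E.i E.hi, E.i_comp_ret_comp hπ]
  funext g
  rw [← h g]
  simp only [Function.comp_apply, Submodule.coe_sub, Pi.sub_apply, map_sub]

/-- conversely, cohomologous cocycles differ by the coboundary of a level-constant cochain. -/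
lemma exists_of_H2π_eq {a a' : ↥(L.Z2 A)} (h : L.H2π A a = L.H2π A a') :
    ∃ t : H → A, L.IsLC₁ t ∧
      ∀ g, (d₁₂ A).hom t g = (a : H × H → A) g - (a' : H × H → A) g := by
  rw [← sub_eq_zero, ← map_sub, LevelSys.H2π_eq_zero_iff] at h
  obtain ⟨t, ht, htd⟩ := h
  refine ⟨t, ht, fun g => ?_⟩
  have := congrFun htd g
  rw [this]
  rfl

end GenericSES

variable {k : Type} [Field k] {G : Type} [Group G]
variable {ι : Type} [Fintype ι] [DecidableEq ι] {Gv : ι → Type} [∀ v, Group (Gv v)]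
variable {L : LevelSys G} {Lv : ∀ v, LevelSys (Gv v)} {r : ∀ v, Gv v →* G}
variable (hr : ∀ v, IsLevelCompatible (r v) L (Lv v))
variable {A B C : Rep.{0, 0, 0} k G} (E : SES A B C)

/-! ### the relation -/

variable (L Lv r) in
/-- `(z, α)` are related if there are a level-constant 2-cocycle `b` of `B`, a level-constant
1-cochain `y` of `C` and level-constant local 1-cochains `x_v` of `B` with
`z₁ = π b + d y`, `π x_v = z₂ v - y|_v`, `i α_v = b|_v - d x_v`. -/
def Rel (z : (G × G → C) × ((v : ι) → Gv v → C)) (α : (v : ι) → (Gv v × Gv v → A)) : Prop :=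
  ∃ (b : G × G → B) (y : G → C) (x : (v : ι) → Gv v → B),
    b ∈ L.Z2 B ∧ L.IsLC₁ y ∧ (∀ v, (Lv v).IsLC₁ (x v)) ∧
    z.1 = E.π ∘ b + ((d₁₂ C).hom y : G × G → C) ∧
    (∀ v, E.π ∘ x v = z.2 v - y ∘ r v) ∧
    (∀ v, E.i ∘ α v = b ∘ Prod.map (r v) (r v) -
      ((d₁₂ (Rep.res (r v) B)).hom (x v) : Gv v × Gv v → B))

lemma Rel.zero : Rel L Lv r E 0 0 := by
  refine ⟨0, 0, 0, (L.Z2 B).zero_mem, (L.C1 C).zero_mem, fun v => (Lv v).isLC₁_const (0 : B),
    ?_, fun v => ?_, fun v => ?_⟩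
  · funext g
    simp
    rfl
  · funext g
    simp
  · funext g
    simp
    rfl

lemma Rel.add {z z' : (G × G → C) × ((v : ι) → Gv v → C)}
    {α α' : (v : ι) → (Gv v × Gv v → A)} (h : Rel L Lv r E z α) (h' : Rel L Lv r E z' α') :
    Rel L Lv r E (z + z') (α + α') := by
  obtain ⟨b, y, x, hb, hy, hx, h1, h2, h3⟩ := h
  obtain ⟨b', y', x', hb', hy', hx', h1', h2', h3'⟩ := h'
  refine ⟨b + b', y + y', x + x', (L.Z2 B).add_mem hb hb', (L.C1 C).add_mem hy hy',
    fun v => LevelSys.IsLC₁.add (hx v) (hx' v), ?_, fun v => ?_, fun v => ?_⟩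
  · rw [Prod.fst_add, h1, h1', map_add]
    funext g
    simp only [Pi.add_apply, Function.comp_apply, map_add]
    abel
  · have e := h2 v
    have e' := h2' v
    funext g
    have eg := congrFun e g
    have eg' := congrFun e' g
    simp only [Function.comp_apply, Pi.sub_apply] at eg eg'
    simp only [Pi.add_apply, Function.comp_apply, Pi.sub_apply, Prod.snd_add, map_add, eg, eg']
    abel
  · have e := h3 v
    have e' := h3' v
    funext g
    have eg := congrFun e g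
    have eg' := congrFun e' g
    simp only [Function.comp_apply, Pi.sub_apply] at eg eg'
    simp only [Pi.add_apply, Function.comp_apply, Pi.sub_apply, map_add, eg, eg']
    abel

lemma Rel.smul (c : k) {z : (G × G → C) × ((v : ι) → Gv v → C)}
    {α : (v : ι) → (Gv v × Gv v → A)} (h : Rel L Lv r E z α) :
    Rel L Lv r E (c • z) (c • α) := by
  obtain ⟨b, y, x, hb, hy, hx, h1, h2, h3⟩ := h
  refine ⟨c • b, c • y, c • x, (L.Z2 B).smul_mem c hb, (L.C1 C).smul_mem c hy,
    fun v => (hx v).comp (c • ·), ?_, fun v => ?_, fun v => ?_⟩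
  · rw [Prod.smul_fst, h1, map_smul]
    funext g
    simp only [Pi.add_apply, Pi.smul_apply, Function.comp_apply, map_smul, smul_add]
  · have e := h2 v
    funext g
    have eg := congrFun e g
    simp only [Function.comp_apply, Pi.sub_apply] at eg
    simp only [Pi.smul_apply, Function.comp_apply, Pi.sub_apply, Prod.smul_snd, map_smul, eg,
      smul_sub]
  · have e := h3 v
    funext g
    have eg := congrFun e g
    simp only [Function.comp_apply, Pi.sub_apply] at eg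
    simp only [Pi.smul_apply, Function.comp_apply, Pi.sub_apply, map_smul, eg, smul_sub]

/-! ### local cocycles from global data -/

include hr in
/-- the local 2-cochain `ret ∘ (b|_v - d x)` is a level-constant cocycle as soon as
`b|_v - d x` has values in `ker π`. -/
lemma ret_comp_mem_Z2 (hNv : ∀ v, (Lv v).NormalCofinal)
    (hBv : ∀ v, (Lv v).IsUSmooth (Rep.res (r v) B)) {b : G × G → B} (hb : b ∈ L.Z2 B) (v : ι)
    {x : Gv v → B} (hx : (Lv v).IsLC₁ x)
    (hπ : ∀ g, E.π ((b ∘ Prod.map (r v) (r v) -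
      ((d₁₂ (Rep.res (r v) B)).hom x : Gv v × Gv v → B)) g) = 0) :
    (E.ret ∘ (b ∘ Prod.map (r v) (r v) -
      ((d₁₂ (Rep.res (r v) B)).hom x : Gv v × Gv v → B)) : Gv v × Gv v → Rep.res (r v) A) ∈
      (Lv v).Z2 (Rep.res (r v) A) := by
  have hbres : (b ∘ Prod.map (r v) (r v) : Gv v × Gv v → Rep.res (r v) B) ∈
      (Lv v).Z2 (Rep.res (r v) B) := res_mem_Z2 (hr v) B hb
  have hdx : ((d₁₂ (Rep.res (r v) B)).hom x) ∈ (Lv v).Z2 (Rep.res (r v) B) :=
    (Lv v).B2_le_Z2 (hNv v) (hBv v) ⟨x, hx, rfl⟩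
  have hu : (b ∘ Prod.map (r v) (r v) -
      ((d₁₂ (Rep.res (r v) B)).hom x : Gv v × Gv v → B) : Gv v × Gv v → Rep.res (r v) B) ∈
      (Lv v).Z2 (Rep.res (r v) B) := ((Lv v).Z2 (Rep.res (r v) B)).sub_mem hbres hdx
  refine ⟨?_, LevelSys.IsLC₂.comp hu.2 E.ret⟩
  show (d₂₃ (Rep.res (r v) A)).hom _ = 0
  apply ses_comp_injective (E.res (r v))
  have h1 := push_d₂₃ (A := Rep.res (r v) A) (B := Rep.res (r v) B) E.i (E.hi.res (r v))
    (E.ret ∘ (b ∘ Prod.map (r v) (r v) -
      ((d₁₂ (Rep.res (r v) B)).hom x : Gv v × Gv v → B)))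
  have h2 : (E.i ∘ (E.ret ∘ (b ∘ Prod.map (r v) (r v) -
      ((d₁₂ (Rep.res (r v) B)).hom x : Gv v × Gv v → B))) : Gv v × Gv v → B) = _ :=
    E.i_comp_ret_comp hπ
  have h3 : (d₂₃ (Rep.res (r v) B)).hom (b ∘ Prod.map (r v) (r v) -
      ((d₁₂ (Rep.res (r v) B)).hom x : Gv v × Gv v → B)) = 0 := hu.1
  show E.i ∘ (d₂₃ (Rep.res (r v) A)).hom _ = E.i ∘ (0 : Gv v × Gv v × Gv v → A)
  rw [← h1, h2, h3]
  funext g
  exact (map_zero E.i).symm

include hr in
/-- (R1) the relation is total. -/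
theorem Rel.total (hN : L.NormalCofinal) (hNv : ∀ v, (Lv v).NormalCofinal)
    (hB : L.IsUSmooth B) (hsurj : Function.Surjective (pushH2 E.π E.hπ L))
    (z : ↥(Zc2 L Lv r C)) :
    ∃ α : (v : ι) → ↥((Lv v).Z2 (Rep.res (r v) A)),
      Rel L Lv r E (z : (G × G → C) × ((v : ι) → Gv v → C))
        (fun v => ((α v : Gv v × Gv v → Rep.res (r v) A) : Gv v × Gv v → A)) := by
  have _hN := hN
  have hBv : ∀ v, (Lv v).IsUSmooth (Rep.res (r v) B) := fun v => isUSmooth_res (hr v) hB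
  obtain ⟨β, hβ⟩ := hsurj (L.H2π C ⟨_, z.2.1⟩)
  obtain ⟨b, rfl⟩ := L.H2π_surjective B β
  rw [pushH2_mk, ← sub_eq_zero, ← map_sub, LevelSys.H2π_eq_zero_iff] at hβ
  obtain ⟨y', hy', hyd⟩ := hβ
  have hy'lc : L.IsLC₁ y' := hy'
  have hyd' : (d₁₂ C).hom y' = E.π ∘ (b : G × G → B) -
      (z : (G × G → C) × ((v : ι) → Gv v → C)).1 := hyd
  have h1 : (z : (G × G → C) × ((v : ι) → Gv v → C)).1 =
      E.π ∘ (b : G × G → B) + ((d₁₂ C).hom (-y') : G × G → C) := by
    rw [map_neg, hyd']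
    funext g
    simp
  have hylc : L.IsLC₁ (-y') := (L.C1 C).neg_mem hy'
  -- the local lifts
  have hxlc : ∀ v, (Lv v).IsLC₁ (E.sec ∘ ((z : (G × G → C) × ((v : ι) → Gv v → C)).2 v -
      (-y') ∘ r v)) := by
    intro v
    have ha : (Lv v).IsLC₁ ((z : (G × G → C) × ((v : ι) → Gv v → C)).2 v) := (z.2.2 v).1
    have hb' : (Lv v).IsLC₁ ((-y') ∘ r v) := IsLC₁.res (hr v) hylc
    have : (Lv v).IsLC₁ ((z : (G × G → C) × ((v : ι) → Gv v → C)).2 v - (-y') ∘ r v) :=
      ((Lv v).C1 (Rep.res (r v) C)).sub_mem ha hb'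
    exact this.comp E.sec
  have hπx : ∀ v, E.π ∘ (E.sec ∘ ((z : (G × G → C) × ((v : ι) → Gv v → C)).2 v -
      (-y') ∘ r v)) = (z : (G × G → C) × ((v : ι) → Gv v → C)).2 v - (-y') ∘ r v := by
    intro v
    funext g
    exact E.π_sec _
  have hπ0 : ∀ v g, E.π (((b : G × G → B) ∘ Prod.map (r v) (r v) -
      ((d₁₂ (Rep.res (r v) B)).hom (E.sec ∘ ((z : (G × G → C) × ((v : ι) → Gv v → C)).2 v -
        (-y') ∘ r v)) : Gv v × Gv v → B)) g) = 0 := by
    intro v g
    have e1 := push_d₁₂ (A := Rep.res (r v) B) (B := Rep.res (r v) C) E.π (E.hπ.res (r v))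
      (E.sec ∘ ((z : (G × G → C) × ((v : ι) → Gv v → C)).2 v - (-y') ∘ r v))
    rw [hπx v] at e1
    have e2 : (d₁₂ (Rep.res (r v) C)).hom ((z : (G × G → C) × ((v : ι) → Gv v → C)).2 v) =
        ((z : (G × G → C) × ((v : ι) → Gv v → C)).1 ∘ Prod.map (r v) (r v) :
          Gv v × Gv v → C) := (z.2.2 v).2
    have e3 := res_d₁₂ (r := r v) C (-y')
    rw [map_sub, e2, e3] at e1
    have e1g := congrFun e1 g
    have h1g := congrFun h1 (Prod.map (r v) (r v) g)
    simp only [Pi.sub_apply, Function.comp_apply, Pi.add_apply] at e1g h1g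
    simp only [Pi.sub_apply, Function.comp_apply, map_sub]
    rw [← e1g, h1g]
    abel
  refine ⟨fun v => ⟨_, ret_comp_mem_Z2 hr E hNv hBv b.2 v (hxlc v) (hπ0 v)⟩, ?_⟩
  refine ⟨b, -y', _, b.2, hylc, hxlc, h1, hπx, fun v => ?_⟩
  exact E.i_comp_ret_comp (hπ0 v)

/-! ### well-definedness -/

include hr in
/-- (R2) if `z` is a cone coboundary then the family `([α_v])_v` is a global class. -/
theorem Rel.wd (hN : L.NormalCofinal) (hB : L.IsUSmooth B)
    {z : (G × G → C) × ((v : ι) → Gv v → C)}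
    {α : (v : ι) → ↥((Lv v).Z2 (Rep.res (r v) A))}
    (h : Rel L Lv r E z
      (fun v => ((α v : Gv v × Gv v → Rep.res (r v) A) : Gv v × Gv v → A)))
    (hz : z ∈ Bc2 L r C) :
    (fun v => (Lv v).H2π (Rep.res (r v) A) (α v)) ∈ LinearMap.range (loc2 hr A) := by
  obtain ⟨b, y, x, hb, hy, hx, h1, h2, h3⟩ := h
  obtain ⟨x₀, m₀, hx₀, rfl⟩ := (mem_Bc2_iff C _).1 hz
  have hBv : ∀ v, (Lv v).IsUSmooth (Rep.res (r v) B) := fun v => isUSmooth_res (hr v) hB
  have h1' : ∀ g, (d₁₂ C).hom x₀ g = E.π (b g) + (d₁₂ C).hom y g := fun g => congrFun h1 g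
  have h2' : ∀ v g, E.π (x v g) = x₀ (r v g) + (d₀₁ (Rep.res (r v) C)).hom (m₀ v) g - y (r v g) :=
    fun v g => congrFun (h2 v) g
  have h3' : ∀ v g, E.i ((α v : Gv v × Gv v → Rep.res (r v) A) g) =
      b (Prod.map (r v) (r v) g) - (d₁₂ (Rep.res (r v) B)).hom (x v) g :=
    fun v g => congrFun (h3 v) g
  -- the global correction
  have hwlc : L.IsLC₁ (x₀ - y) := (L.C1 C).sub_mem hx₀ hy
  have hslc : L.IsLC₁ (E.sec ∘ (x₀ - y)) := hwlc.comp E.sec
  have hπs : E.π ∘ (E.sec ∘ (x₀ - y)) = x₀ - y := by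
    funext g
    exact E.π_sec _
  have hds : (d₁₂ B).hom (E.sec ∘ (x₀ - y)) ∈ L.Z2 B := L.B2_le_Z2 hN hB ⟨_, hslc, rfl⟩
  have hu : b - (d₁₂ B).hom (E.sec ∘ (x₀ - y)) ∈ L.Z2 B := (L.Z2 B).sub_mem hb hds
  have hπds : ∀ g, E.π ((d₁₂ B).hom (E.sec ∘ (x₀ - y)) g) =
      (d₁₂ C).hom x₀ g - (d₁₂ C).hom y g := by
    intro g
    have e1 := congrFun (push_d₁₂ E.π E.hπ (E.sec ∘ (x₀ - y))) g
    rw [hπs, map_sub] at e1
    exact e1.symm
  have hπu : ∀ g, E.π ((b - (d₁₂ B).hom (E.sec ∘ (x₀ - y))) g) = 0 := by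
    intro g
    rw [Pi.sub_apply, map_sub, hπds g, h1' g]
    abel
  have ha₀ : E.ret ∘ (b - (d₁₂ B).hom (E.sec ∘ (x₀ - y))) ∈ L.Z2 A :=
    mem_Z2_of_i_comp E L hu (E.i_comp_ret_comp hπu)
  refine ⟨L.H2π A ⟨_, ha₀⟩, ?_⟩
  funext v
  rw [loc2_apply, resH2_mk]
  symm
  -- the local correction
  have htlc : (Lv v).IsLC₁ ((E.sec ∘ (x₀ - y)) ∘ r v - x v +
      ((d₀₁ (Rep.res (r v) B)).hom (E.sec (m₀ v)) : Gv v → B)) := by
    have t1 : (Lv v).IsLC₁ ((E.sec ∘ (x₀ - y)) ∘ r v) := IsLC₁.res (hr v) hslc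
    have t2 : (Lv v).IsLC₁ ((d₀₁ (Rep.res (r v) B)).hom (E.sec (m₀ v))) :=
      (Lv v).d₀₁_isLC₁ (hBv v) (E.sec (m₀ v))
    exact ((Lv v).C1 (Rep.res (r v) B)).add_mem
      (((Lv v).C1 (Rep.res (r v) B)).sub_mem t1 (hx v)) t2
  refine H2π_eq_of_i_comp_sub (E.res (r v)) (Lv v) htlc ?_ ?_
  · intro g
    have e1 := congrFun (push_d₀₁ (A := Rep.res (r v) B) (B := Rep.res (r v) C) E.π
      (E.hπ.res (r v)) (E.sec (m₀ v))) g
    rw [E.π_sec] at e1
    simp only [Function.comp_apply] at e1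
    show E.π _ = 0
    simp only [Pi.add_apply, Pi.sub_apply, Function.comp_apply, map_add, map_sub, E.π_sec,
      h2' v g, ← e1]
    abel
  · intro g
    show E.i ((α v : Gv v × Gv v → Rep.res (r v) A) g) -
      E.i ((E.ret ∘ (b - (d₁₂ B).hom (E.sec ∘ (x₀ - y)))) (Prod.map (r v) (r v) g)) = _
    have e0 : E.i ((E.ret ∘ (b - (d₁₂ B).hom (E.sec ∘ (x₀ - y)))) (Prod.map (r v) (r v) g)) =
        (b - (d₁₂ B).hom (E.sec ∘ (x₀ - y))) (Prod.map (r v) (r v) g) :=
      E.i_ret (hπu _)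
    have e1 := congrFun (res_d₁₂ (r := r v) B (E.sec ∘ (x₀ - y))) g
    have e2 : (d₁₂ (Rep.res (r v) B)).hom ((d₀₁ (Rep.res (r v) B)).hom (E.sec (m₀ v))) = 0 :=
      d₁₂_d₀₁ (B := Rep.res (r v) B) (E.sec (m₀ v))
    have e2g : (d₁₂ (Rep.res (r v) B)).hom
        ((d₀₁ (Rep.res (r v) B)).hom (E.sec (m₀ v))) g = 0 := by
      rw [e2]
      rfl
    rw [e0, h3' v g, map_add, map_sub]
    simp only [Pi.add_apply, Pi.sub_apply, Function.comp_apply] at e1 ⊢
    rw [e1, e2g]
    abel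

/-! ### the connecting map -/

variable (L Lv r) in
/-- the graph of the relation, as a submodule -/
def relGraph : Submodule k
    (↥(Zc2 L Lv r C) × ((v : ι) → ↥((Lv v).Z2 (Rep.res (r v) A)))) where
  carrier := {p | Rel L Lv r E (p.1 : (G × G → C) × ((v : ι) → Gv v → C))
    (fun v => ((p.2 v : Gv v × Gv v → Rep.res (r v) A) : Gv v × Gv v → A))}
  add_mem' := fun h h' => Rel.add E h h'
  zero_mem' := Rel.zero E
  smul_mem' := fun c _ h => Rel.smul E c h

/-- the class map `∏_v Z²(G_v, A) → T³(A)` -/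
def relQ : ((v : ι) → ↥((Lv v).Z2 (Rep.res (r v) A))) →ₗ[k] T3 hr A :=
  T3π hr A ∘ₗ LinearMap.pi fun v => (Lv v).H2π (Rep.res (r v) A) ∘ₗ LinearMap.proj v

lemma relQ_apply (α : (v : ι) → ↥((Lv v).Z2 (Rep.res (r v) A))) :
    relQ hr α = T3π hr A (fun v => (Lv v).H2π (Rep.res (r v) A) (α v)) := rfl

/-- existence of the cone connecting map -/
theorem exists_coneDel (hN : L.NormalCofinal) (hNv : ∀ v, (Lv v).NormalCofinal)
    (hB : L.IsUSmooth B) (hsurj : Function.Surjective (pushH2 E.π E.hπ L)) :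
    ∃ φ : Hc2 L Lv r C →ₗ[k] T3 hr A,
      ∀ (z : ↥(Zc2 L Lv r C)) (α : (v : ι) → ↥((Lv v).Z2 (Rep.res (r v) A))),
        Rel L Lv r E (z : (G × G → C) × ((v : ι) → Gv v → C))
          (fun v => ((α v : Gv v × Gv v → Rep.res (r v) A) : Gv v × Gv v → A)) →
        φ (Hc2π L Lv r C z) = T3π hr A (fun v => (Lv v).H2π (Rep.res (r v) A) (α v)) := by
  obtain ⟨φ, hφ⟩ := exists_linearMap_of_rel (relGraph L Lv r E) (relQ hr (A := A))
    ((Bc2 L r C).comap (Zc2 L Lv r C).subtype)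
    (fun z => Rel.total hr E hN hNv hB hsurj z)
    (fun z α hzα hz => by
      rw [relQ_apply, T3π_eq_zero_iff]
      exact Rel.wd hr E hN hB hzα hz)
  exact ⟨φ, fun z α h => hφ z α h⟩

/-- **the cone connecting map** `∂ : H²_c(C) → T³(A)` -/
def coneDel (hN : L.NormalCofinal) (hNv : ∀ v, (Lv v).NormalCofinal)
    (hB : L.IsUSmooth B) (hsurj : Function.Surjective (pushH2 E.π E.hπ L)) :
    Hc2 L Lv r C →ₗ[k] T3 hr A :=
  Classical.choose (exists_coneDel hr E hN hNv hB hsurj)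

/-- `∂[z] = [α]` for every witness of the relation. -/
theorem coneDel_mk (hN : L.NormalCofinal) (hNv : ∀ v, (Lv v).NormalCofinal)
    (hB : L.IsUSmooth B) (hsurj : Function.Surjective (pushH2 E.π E.hπ L))
    (z : ↥(Zc2 L Lv r C)) (α : (v : ι) → ↥((Lv v).Z2 (Rep.res (r v) A)))
    (h : Rel L Lv r E (z : (G × G → C) × ((v : ι) → Gv v → C))
      (fun v => ((α v : Gv v × Gv v → Rep.res (r v) A) : Gv v × Gv v → A))) :
    coneDel hr E hN hNv hB hsurj (Hc2π L Lv r C z) =
      T3π hr A (fun v => (Lv v).H2π (Rep.res (r v) A) (α v)) :=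
  Classical.choose_spec (exists_coneDel hr E hN hNv hB hsurj) z α h

/-! ### exactness at `H²_c(C)` -/

/-- `∂ ∘ π_* = 0`. -/
theorem coneDel_pushHc2 (hN : L.NormalCofinal) (hNv : ∀ v, (Lv v).NormalCofinal)
    (hB : L.IsUSmooth B) (hsurj : Function.Surjective (pushH2 E.π E.hπ L))
    (x : Hc2 L Lv r B) :
    coneDel hr E hN hNv hB hsurj (pushHc2 (L := L) (Lv := Lv) (r := r) E.π E.hπ x) = 0 := by
  obtain ⟨zB, rfl⟩ := Hc2π_surjective B x
  rw [pushHc2_mk]
  have hrel : Rel L Lv r E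
      ((pushZc2 (L := L) (Lv := Lv) (r := r) E.π E.hπ zB : ↥(Zc2 L Lv r C)) :
        (G × G → C) × ((v : ι) → Gv v → C))
      (fun v => (((0 : (v : ι) → ↥((Lv v).Z2 (Rep.res (r v) A))) v :
        Gv v × Gv v → Rep.res (r v) A) : Gv v × Gv v → A)) := by
    refine ⟨(zB : (G × G → B) × ((v : ι) → Gv v → B)).1, 0,
      (zB : (G × G → B) × ((v : ι) → Gv v → B)).2, zB.2.1, (L.C1 C).zero_mem,
      fun v => (zB.2.2 v).1, ?_, fun v => ?_, fun v => ?_⟩
    · rw [map_zero, add_zero]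
      rfl
    · funext g
      show E.π _ = E.π _ - 0
      rw [sub_zero]
      rfl
    · have h := (zB.2.2 v).2
      rw [h, sub_self]
      funext g
      exact map_zero E.i
  rw [coneDel_mk hr E hN hNv hB hsurj _ 0 hrel]
  have : (fun v => (Lv v).H2π (Rep.res (r v) A)
      ((0 : (v : ι) → ↥((Lv v).Z2 (Rep.res (r v) A))) v)) = 0 := by
    funext v
    exact map_zero _
  rw [this, map_zero]

/-- (D-F5) exactness at `H²_c(C)`: `ker ∂ = im (H²_c(B) → H²_c(C))`. -/
theorem ker_coneDel (hN : L.NormalCofinal) (hNv : ∀ v, (Lv v).NormalCofinal)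
    (hB : L.IsUSmooth B) (hsurj : Function.Surjective (pushH2 E.π E.hπ L)) :
    LinearMap.ker (coneDel hr E hN hNv hB hsurj) =
      LinearMap.range (pushHc2 (L := L) (Lv := Lv) (r := r) E.π E.hπ) := by
  ext ξ
  rw [LinearMap.mem_ker, LinearMap.mem_range]
  constructor
  · intro hξ
    obtain ⟨z, rfl⟩ := Hc2π_surjective C ξ
    obtain ⟨α, hα⟩ := Rel.total hr E hN hNv hB hsurj z
    rw [coneDel_mk hr E hN hNv hB hsurj z α hα, T3π_eq_zero_iff] at hξ
    obtain ⟨β, hβ⟩ := hξ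
    obtain ⟨a₀, rfl⟩ := L.H2π_surjective A β
    obtain ⟨b, y, x, hb, hy, hx, h1, h2, h3⟩ := hα
    -- local primitives
    have hloc : ∀ v, ∃ t : Gv v → Rep.res (r v) A, (Lv v).IsLC₁ t ∧
        ∀ g, (d₁₂ (Rep.res (r v) A)).hom t g =
          (α v : Gv v × Gv v → Rep.res (r v) A) g -
            (resZ2 (hr v) A a₀ : Gv v × Gv v → Rep.res (r v) A) g := by
      intro v
      apply exists_of_H2π_eq (Lv v)
      have := congrFun hβ v
      rw [loc2_apply, resH2_mk] at this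
      exact this.symm
    choose t htlc htd using hloc
    -- the corrected lift
    have hb' : b - E.i ∘ (a₀ : G × G → A) ∈ L.Z2 B :=
      (L.Z2 B).sub_mem hb (push_mem_Z2 E.i E.hi L a₀.2)
    have hzB : ((b - E.i ∘ (a₀ : G × G → A) : G × G → B),
        (fun v => (x v + E.i ∘ (t v : Gv v → A) : Gv v → B))) ∈ Zc2 L Lv r B := by
      refine ⟨hb', fun v => ⟨?_, ?_⟩⟩
      · exact ((Lv v).C1 (Rep.res (r v) B)).add_mem (hx v) ((htlc v).comp E.i)
      · show (d₁₂ (Rep.res (r v) B)).hom (x v + E.i ∘ (t v : Gv v → A)) = _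
        rw [map_add, push_d₁₂ (A := Rep.res (r v) A) (B := Rep.res (r v) B) E.i
          (E.hi.res (r v)) (t v)]
        funext g
        have e3 := congrFun (h3 v) g
        simp only [Function.comp_apply, Pi.sub_apply] at e3
        simp only [Pi.add_apply, Function.comp_apply, Pi.sub_apply, htd v g, map_sub, e3]
        show _ = b (Prod.map (r v) (r v) g) - E.i ((a₀ : G × G → A) (Prod.map (r v) (r v) g))
        have e4 : (resZ2 (hr v) A a₀ : Gv v × Gv v → Rep.res (r v) A) g =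
          (a₀ : G × G → A) (Prod.map (r v) (r v) g) := rfl
        rw [e4]
        abel
    refine ⟨Hc2π L Lv r B ⟨_, hzB⟩, ?_⟩
    rw [pushHc2_mk, ← sub_eq_zero, ← map_sub, Hc2π_eq_zero_iff]
    refine (mem_Bc2_iff C _).2 ⟨-y, 0, (L.C1 C).neg_mem hy, ?_⟩
    ext1
    · show (d₁₂ C).hom (-y) = E.π ∘ (b - E.i ∘ (a₀ : G × G → A)) -
        (z : (G × G → C) × ((v : ι) → Gv v → C)).1
      rw [h1, map_neg]
      funext g
      simp only [Pi.neg_apply, Pi.sub_apply, Pi.add_apply, Function.comp_apply, map_sub, E.π_i]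
      abel
    · funext v g
      show (-y) (r v g) + (d₀₁ (Rep.res (r v) C)).hom ((0 : ι → C) v) g =
        E.π ((x v + E.i ∘ (t v : Gv v → A)) g) -
          (z : (G × G → C) × ((v : ι) → Gv v → C)).2 v g
      have e2 := congrFun (h2 v) g
      simp only [Function.comp_apply, Pi.sub_apply] at e2
      have e0 : (d₀₁ (Rep.res (r v) C)).hom ((0 : ι → C) v) g = 0 := by
        rw [Pi.zero_apply, map_zero]
        rfl
      rw [e0]
      simp only [Pi.neg_apply, Pi.add_apply, Function.comp_apply, map_add, E.π_i, e2]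
      abel
  · rintro ⟨x, rfl⟩
    exact coneDel_pushHc2 hr E hN hNv hB hsurj x

/-! ### exactness at `T³(A)` -/

/-- `i_* ∘ ∂ = 0`. -/
theorem pushT3_coneDel (hN : L.NormalCofinal) (hNv : ∀ v, (Lv v).NormalCofinal)
    (hB : L.IsUSmooth B) (hsurj : Function.Surjective (pushH2 E.π E.hπ L))
    (ξ : Hc2 L Lv r C) :
    pushT3 hr E.i E.hi (coneDel hr E hN hNv hB hsurj ξ) = 0 := by
  obtain ⟨z, rfl⟩ := Hc2π_surjective C ξ
  obtain ⟨α, hα⟩ := Rel.total hr E hN hNv hB hsurj z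
  rw [coneDel_mk hr E hN hNv hB hsurj z α hα, pushT3_mk, T3π_eq_zero_iff]
  obtain ⟨b, y, x, hb, hy, hx, h1, h2, h3⟩ := hα
  refine ⟨L.H2π B ⟨b, hb⟩, ?_⟩
  funext v
  rw [loc2_apply, resH2_mk, pushLoc2_apply, pushH2_mk, ← sub_eq_zero, ← map_sub,
    LevelSys.H2π_eq_zero_iff]
  refine ⟨x v, hx v, ?_⟩
  funext g
  have e3 := congrFun (h3 v) g
  simp only [Function.comp_apply, Pi.sub_apply] at e3
  show _ = b (Prod.map (r v) (r v) g) - E.i ((α v : Gv v × Gv v → Rep.res (r v) A) g)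
  rw [e3]
  abel

/-- (D-F5) exactness at `T³(A)`: `im ∂ = ker (T³(A) → T³(B))`. -/
theorem range_coneDel (hN : L.NormalCofinal) (hNv : ∀ v, (Lv v).NormalCofinal)
    (hB : L.IsUSmooth B) (hsurj : Function.Surjective (pushH2 E.π E.hπ L)) :
    LinearMap.range (coneDel hr E hN hNv hB hsurj) = LinearMap.ker (pushT3 hr E.i E.hi) := by
  ext τ
  rw [LinearMap.mem_range, LinearMap.mem_ker]
  constructor
  · rintro ⟨ξ, rfl⟩
    exact pushT3_coneDel hr E hN hNv hB hsurj ξ
  · intro hτ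
    obtain ⟨ξ, rfl⟩ := T3π_surjective hr A τ
    have hα : ∃ α : (v : ι) → ↥((Lv v).Z2 (Rep.res (r v) A)),
        (fun v => (Lv v).H2π (Rep.res (r v) A) (α v)) = ξ := by
      choose α hα using fun v => (Lv v).H2π_surjective (Rep.res (r v) A) (ξ v)
      exact ⟨α, funext hα⟩
    obtain ⟨α, rfl⟩ := hα
    rw [pushT3_mk, T3π_eq_zero_iff] at hτ
    obtain ⟨β, hβ⟩ := hτ
    obtain ⟨b, rfl⟩ := L.H2π_surjective B β
    have hloc : ∀ v, ∃ s : Gv v → Rep.res (r v) B, (Lv v).IsLC₁ s ∧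
        ∀ g, (d₁₂ (Rep.res (r v) B)).hom s g =
          E.i ((α v : Gv v × Gv v → Rep.res (r v) A) g) -
            (b : G × G → B) (Prod.map (r v) (r v) g) := by
      intro v
      have := congrFun hβ v
      rw [loc2_apply, resH2_mk, pushLoc2_apply, pushH2_mk] at this
      exact exists_of_H2π_eq (Lv v) this.symm
    choose s hslc hsd using hloc
    have hz : ((E.π ∘ (b : G × G → B) : G × G → C),
        (fun v => (-(E.π ∘ (s v : Gv v → B)) : Gv v → C))) ∈ Zc2 L Lv r C := by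
      refine ⟨push_mem_Z2 E.π E.hπ L b.2, fun v => ⟨?_, ?_⟩⟩
      · exact ((Lv v).C1 (Rep.res (r v) C)).neg_mem ((hslc v).comp E.π)
      · show (d₁₂ (Rep.res (r v) C)).hom (-(E.π ∘ (s v : Gv v → B))) = _
        rw [map_neg, push_d₁₂ (A := Rep.res (r v) B) (B := Rep.res (r v) C) E.π
          (E.hπ.res (r v)) (s v)]
        funext g
        simp only [Pi.neg_apply, Function.comp_apply, hsd v g, map_sub, E.π_i]
        abel
    refine ⟨Hc2π L Lv r C ⟨_, hz⟩, ?_⟩
    refine coneDel_mk hr E hN hNv hB hsurj _ α ?_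
    refine ⟨b, 0, fun v => -(s v : Gv v → B), b.2, (L.C1 C).zero_mem,
      fun v => ((Lv v).C1 (Rep.res (r v) B)).neg_mem (hslc v), ?_, fun v => ?_, fun v => ?_⟩
    · rw [map_zero, add_zero]
    · funext g
      show E.π (-(s v g)) = -(E.π (s v g)) - 0
      rw [map_neg, sub_zero]
    · funext g
      show E.i ((α v : Gv v × Gv v → Rep.res (r v) A) g) =
        (b : G × G → B) (Prod.map (r v) (r v) g) -
          (d₁₂ (Rep.res (r v) B)).hom (-(s v : Gv v → B)) g
      rw [map_neg, Pi.neg_apply, hsd v g]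
      abel

/-! ### anticommutativity with the local connecting maps -/

/-- (D-F5) `∂ (j y) = - [ (δ¹_v y_v)_v ]`. -/
theorem coneDel_jH (hN : L.NormalCofinal) (hNv : ∀ v, (Lv v).NormalCofinal)
    (hB : L.IsUSmooth B) (hsurj : Function.Surjective (pushH2 E.π E.hπ L))
    (hBv : ∀ v, (Lv v).IsUSmooth (Rep.res (r v) B))
    (hCv : ∀ v, (Lv v).IsUSmooth (Rep.res (r v) C))
    (y : (v : ι) → (Lv v).H1 (Rep.res (r v) C)) :
    coneDel hr E hN hNv hB hsurj (jH (L := L) (Lv := Lv) (r := r) C y) =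
      - T3π hr A (fun v => (E.res (r v)).del1 (Lv v) (hNv v) (hBv v) (hCv v) (y v)) := by
  obtain ⟨c, rfl⟩ := exists_locZ1 C y
  rw [jH_mk]
  have hxlc : ∀ v, (Lv v).IsLC₁ (E.sec ∘ (c v : Gv v → Rep.res (r v) C)) :=
    fun v => LevelSys.IsLC₁.comp (c v).2.2 E.sec
  have hπx : ∀ v, E.π ∘ (E.sec ∘ (c v : Gv v → Rep.res (r v) C)) =
      (c v : Gv v → Rep.res (r v) C) := by
    intro v
    funext g
    exact E.π_sec _
  have hπ0 : ∀ v g, E.π (((0 : G × G → B) ∘ Prod.map (r v) (r v) -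
      ((d₁₂ (Rep.res (r v) B)).hom (E.sec ∘ (c v : Gv v → Rep.res (r v) C)) :
        Gv v × Gv v → B)) g) = 0 := by
    intro v g
    have e1 := push_d₁₂ (A := Rep.res (r v) B) (B := Rep.res (r v) C) E.π (E.hπ.res (r v))
      (E.sec ∘ (c v : Gv v → Rep.res (r v) C))
    rw [hπx v] at e1
    have e2 : (d₁₂ (Rep.res (r v) C)).hom (c v : Gv v → Rep.res (r v) C) = 0 := (c v).2.1
    rw [e2] at e1
    show E.π ((0 : B) - (d₁₂ (Rep.res (r v) B)).hom
      (E.sec ∘ (c v : Gv v → Rep.res (r v) C)) g) = 0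
    rw [zero_sub, map_neg, neg_eq_zero]
    exact (congrFun e1 g).symm
  have hα : ∀ v, (E.ret ∘ ((0 : G × G → B) ∘ Prod.map (r v) (r v) -
      ((d₁₂ (Rep.res (r v) B)).hom (E.sec ∘ (c v : Gv v → Rep.res (r v) C)) :
        Gv v × Gv v → B)) : Gv v × Gv v → Rep.res (r v) A) ∈ (Lv v).Z2 (Rep.res (r v) A) :=
    fun v => ret_comp_mem_Z2 hr E hNv hBv (L.Z2 B).zero_mem v (hxlc v) (hπ0 v)
  have hrel : Rel L Lv r E
      ((jZ (L := L) C c : ↥(Zc2 L Lv r C)) : (G × G → C) × ((v : ι) → Gv v → C))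
      (fun v => (((⟨_, hα v⟩ : ↥((Lv v).Z2 (Rep.res (r v) A))) :
        Gv v × Gv v → Rep.res (r v) A) : Gv v × Gv v → A)) := by
    refine ⟨0, 0, fun v => E.sec ∘ (c v : Gv v → Rep.res (r v) C), (L.Z2 B).zero_mem,
      (L.C1 C).zero_mem, hxlc, ?_, fun v => ?_, fun v => ?_⟩
    · rw [map_zero, add_zero]
      funext g
      exact (map_zero E.π).symm
    · rw [hπx v]
      funext g
      exact (sub_zero _).symm
    · exact E.i_comp_ret_comp (hπ0 v)
  rw [coneDel_mk hr E hN hNv hB hsurj _ (fun v => ⟨_, hα v⟩) hrel, ← map_neg]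
  congr 1
  funext v
  rw [Pi.neg_apply, eq_neg_iff_add_eq_zero, add_comm, ← eq_neg_iff_add_eq_zero, ← map_neg]
  refine del1_eq_of_lift (E.res (r v)) (Lv v) (hNv v) (hBv v) (hCv v) (c v)
    (E.sec ∘ (c v : Gv v → Rep.res (r v) C)) (hxlc v) (hπx v) _ ?_
  funext g
  have e0 := congrFun (E.i_comp_ret_comp (hπ0 v)) g
  simp only [Function.comp_apply, Pi.sub_apply, Pi.zero_apply, zero_sub] at e0
  show E.i (-(E.ret _)) = _
  rw [map_neg]
  simp only [Pi.sub_apply, Function.comp_apply, Pi.zero_apply, zero_sub, map_neg, neg_neg] at e0 ⊢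
  exact neg_inj.1 e0

end Fermat.Agent.S55.PT.H113

end

end
-- ===== PACK-END S55/PT/ConeDelH113.lean

-- ===== PACK-BEGIN S55/KL/KummerH3ClosedH289.lean
section



/-!
# S55, layer KB, leaf KB-KUM3 (helper289): closed form

`kummerH3 : KummerH3Spec`, from `kummerH3_of` and `H304.deltaNat : DeltaNatSpec`.
-/

set_option autoImplicit false

namespace Fermat.Agent.S55.KL.H289

open Fermat.Agent.S55.KL

/-- **KB-KUM3.** -/
theorem kummerH3 : KummerH3Spec :=
  kummerH3_of Fermat.Agent.S55.KL.H304.deltaNat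

end Fermat.Agent.S55.KL.H289

end
-- ===== PACK-END S55/KL/KummerH3ClosedH289.lean

-- ===== PACK-BEGIN S55/Local/H717/CyclicIndex.lean
section



/-!
# S55, layer L, glue T3' (helper717): `|H²(Gal(L/K), Lˣ)| = [Kˣ : N Lˣ]` for cyclic `L / K`

* `h0_unitsEnd_eq_index` : for a finite cyclic Galois extension `L / K` with generator `τ`,
  the `Ĥ⁰`-index of `τ` acting on `Additive Lˣ` is the norm index `[Kˣ : N_{L/K} Lˣ]`.
* `card_H2_eq_index` : `Nat.card (H2 (Rep.ofAlgebraAutOnUnits K L)) = [Kˣ : N Lˣ]`.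
* `cyclicH2Card_of` : `CyclicNormIndexStatement → CyclicH2CardStatement`.
-/

set_option autoImplicit false
set_option linter.style.haveILetI false

namespace Fermat.Agent.S55.Local.H717

open Fermat.Agent.S55.Herbrand Fermat.Agent.S55.Local

section Abstract

variable {K L : Type} [Field K] [Field L] [Algebra K L]

/-- The action of `τ` on `Additive Lˣ` as an additive endomorphism. -/
noncomputable def unitsEnd (τ : L ≃ₐ[K] L) : AddMonoid.End (Additive Lˣ) :=
  MonoidHom.toAdditive (Units.map (τ : L →* L))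

@[simp] lemma unitsEnd_apply (τ : L ≃ₐ[K] L) (x : Additive Lˣ) :
    unitsEnd τ x = Additive.ofMul (Units.map (τ : L →* L) x.toMul) := rfl

lemma unitsEnd_pow_apply (τ : L ≃ₐ[K] L) (i : ℕ) (x : Additive Lˣ) :
    (unitsEnd τ ^ i) x = Additive.ofMul (Units.map ((τ ^ i : L ≃ₐ[K] L) : L →* L) x.toMul) := by
  induction i generalizing x with
  | zero =>
    simp only [pow_zero]
    change x = _
    apply Additive.toMul.injective
    ext
    simp
  | succ i ih =>
    rw [pow_succ, pow_succ]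
    change (unitsEnd τ ^ i) (unitsEnd τ x) = _
    rw [ih]
    apply Additive.toMul.injective
    ext
    simp

/-- The inclusion `Kˣ → Lˣ`, additively. -/
noncomputable def inclAdd : Additive Kˣ →+ Additive Lˣ := MonoidHom.toAdditive (unitsIncl L K)

lemma inclAdd_injective : Function.Injective (inclAdd (K := K) (L := L)) := by
  intro x y h
  apply Additive.toMul.injective
  have h' : unitsIncl L K x.toMul = unitsIncl L K y.toMul := congrArg Additive.toMul h
  have h2 := congrArg Units.val h'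
  simp only [unitsIncl_coe] at h2
  exact Units.ext ((algebraMap K L).injective h2)

variable [FiniteDimensional K L] [IsGalois K L]

lemma range_inclAdd_eq_ker_delta (τ : L ≃ₐ[K] L) (hτ : ∀ g, g ∈ Subgroup.zpowers τ) :
    (inclAdd (K := K) (L := L)).range = (delta (unitsEnd τ)).ker := by
  ext x
  rw [AddMonoidHom.mem_range, AddMonoidHom.mem_ker]
  constructor
  · rintro ⟨y, rfl⟩
    rw [delta_apply, sub_eq_zero]
    apply Additive.toMul.injective
    ext
    simp [inclAdd]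
  · intro hx
    have hx' : unitsEnd τ x - x = 0 := hx
    rw [sub_eq_zero] at hx'
    have h1 : τ (x.toMul : L) = (x.toMul : L) := by
      have := congrArg (fun z : Additive Lˣ => ((z.toMul : Lˣ) : L)) hx'
      simpa using this
    have h2 : ∀ g : L ≃ₐ[K] L, g (x.toMul : L) = (x.toMul : L) := by
      intro g
      obtain ⟨k, rfl⟩ := Subgroup.mem_zpowers_iff.1 (hτ g)
      have hfix : τ ∈ MulAction.stabilizer (L ≃ₐ[K] L) (x.toMul : L) := h1
      exact (Subgroup.zpow_mem _ hfix k)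
    obtain ⟨y, hy⟩ := (IsGalois.mem_range_algebraMap_iff_fixed (F := K) (x.toMul : L)).2 h2
    have hy0 : y ≠ 0 := by
      rintro rfl
      rw [map_zero] at hy
      exact (x.toMul).ne_zero hy.symm
    refine ⟨Additive.ofMul (Units.mk0 y hy0), ?_⟩
    apply Additive.toMul.injective
    ext
    simpa [inclAdd] using hy

lemma normN_unitsEnd_eq (τ : L ≃ₐ[K] L) (hτ : ∀ g, g ∈ Subgroup.zpowers τ) (x : Additive Lˣ) :
    normN (unitsEnd τ) (Nat.card (L ≃ₐ[K] L)) x =
      inclAdd (Additive.ofMul (normUnits L K x.toMul)) := by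
  classical
  rw [normN_apply]
  apply Additive.toMul.injective
  apply Units.ext
  have h1 : ((inclAdd (Additive.ofMul (normUnits L K x.toMul)) : Additive Lˣ).toMul : L) =
      ∏ σ : L ≃ₐ[K] L, σ (x.toMul : L) := by
    simp [inclAdd, Algebra.norm_eq_prod_automorphisms]
  rw [h1]
  have h2 : ∀ (s : Finset ℕ) (f : ℕ → Additive Lˣ),
      (((∑ i ∈ s, f i : Additive Lˣ).toMul : Lˣ) : L) = ∏ i ∈ s, (((f i).toMul : Lˣ) : L) := by
    intro s f
    induction s using Finset.induction_on with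
    | empty => simp
    | insert a s ha ih => rw [Finset.sum_insert ha, Finset.prod_insert ha, ← ih]; simp
  rw [h2]
  have h3 : ∀ i, ((((unitsEnd τ ^ i) x).toMul : Lˣ) : L) = (τ ^ i) (x.toMul : L) := by
    intro i
    rw [unitsEnd_pow_apply]
    simp
  simp_rw [h3]
  have hord : orderOf τ = Nat.card (L ≃ₐ[K] L) := orderOf_eq_card_of_forall_mem_zpowers hτ
  rw [← hord]
  refine Finset.prod_bij (fun i _ => τ ^ i) (fun _ _ => Finset.mem_univ _) ?_ ?_ (fun _ _ => rfl)
  · intro i hi j hj hij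
    exact pow_injOn_Iio_orderOf (by simpa using hi) (by simpa using hj) hij
  · intro h _
    obtain ⟨i, hi, rfl⟩ :=
      Finset.mem_image.1 ((mem_zpowers_iff_mem_range_orderOf (x := τ) (y := h)).1 (hτ h))
    exact ⟨i, hi, rfl⟩

/-- **Key index computation.**  For a cyclic Galois extension with generator `τ`, the
`Ĥ⁰`-index of `τ` on `Additive Lˣ` equals the norm index. -/
theorem h0_unitsEnd_eq_index (τ : L ≃ₐ[K] L) (hτ : ∀ g, g ∈ Subgroup.zpowers τ) :
    h0 (unitsEnd τ) (Nat.card (L ≃ₐ[K] L)) = (normUnits L K).range.index := by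
  rw [h0_eq_relIndex]
  have hR : (normN (unitsEnd τ) (Nat.card (L ≃ₐ[K] L))).range =
      (Subgroup.toAddSubgroup (normUnits L K).range).map (inclAdd (K := K) (L := L)) := by
    ext x
    constructor
    · rintro ⟨y, rfl⟩
      rw [normN_unitsEnd_eq τ hτ]
      exact ⟨_, ⟨y.toMul, rfl⟩, rfl⟩
    · rintro ⟨z, ⟨y, hy⟩, rfl⟩
      refine ⟨Additive.ofMul y, ?_⟩
      rw [normN_unitsEnd_eq τ hτ]
      exact congrArg (fun t => inclAdd (Additive.ofMul t)) hy
  rw [hR, ← range_inclAdd_eq_ker_delta τ hτ, ← AddSubgroup.index_comap,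
    AddSubgroup.comap_map_eq_self_of_injective inclAdd_injective]
  exact Subgroup.index_toAddSubgroup

/-- `|H²(Gal(L/K), Lˣ)| = [Kˣ : N Lˣ]` for a finite cyclic Galois extension. -/
theorem card_H2_eq_index [IsCyclic (L ≃ₐ[K] L)] :
    Nat.card (groupCohomology.H2 (Rep.ofAlgebraAutOnUnits K L)) =
      (normUnits L K).range.index := by
  obtain ⟨τ, hτ⟩ := IsCyclic.exists_generator (α := L ≃ₐ[K] L)
  letI : CommGroup (L ≃ₐ[K] L) := IsCyclic.commGroup
  have h := card_groupCohomology_even (Rep.ofAlgebraAutOnUnits K L) τ hτ 2 (by decide)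
  rw [← h0_unitsEnd_eq_index τ hτ]
  exact h

end Abstract

/-- **Glue T3'.**  The norm index statement for cyclic extensions implies the `H²`-cardinality
statement. -/
theorem cyclicH2Card_of (h : CyclicNormIndexStatement) : CyclicH2CardStatement := by
  intro A F _ _ _ _ _ _ _ _ _ K _ _ _ L _ _ _ _ _ _ hcyc
  haveI := hcyc
  rw [card_H2_eq_index]
  exact h A F K L hcyc

end Fermat.Agent.S55.Local.H717

end
-- ===== PACK-END S55/Local/H717/CyclicIndex.lean

-- ===== PACK-BEGIN S55/Local/H775/InertiaOrd.lean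
section


/-!
# S55 layer L, piece UR6 (helper775): orders of invariant elements

`exists_inertia_dvd`: for `N / K` finite Galois of local fields and a uniformizer `ϖ` of `N`
there is a normal subgroup `I` of `Gal(N/K)` such that, for every subgroup `H`, the set of
orders of the `H`-invariant elements of `Nˣ` is exactly `|I ⊓ H| • ℤ`.
-/

set_option autoImplicit false
set_option linter.unusedSectionVars false
set_option linter.style.haveILetI false

namespace Fermat.Agent.S55.Local.H775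

open Fermat.Agent.S55.Local IsLocalRing

section Fixed

variable (K : Type) [Field K] (N : Type) [Field N] [Algebra K N]

/-- The `H`-invariant elements of `Nˣ`. -/
def fixedUnits (H : Subgroup (N ≃ₐ[K] N)) : Subgroup Nˣ where
  carrier := {y | ∀ σ ∈ H, σ • y = y}
  mul_mem' := by
    intro a b ha hb σ hσ
    rw [smul_mul', ha σ hσ, hb σ hσ]
  one_mem' := fun σ _ => smul_one σ
  inv_mem' := by
    intro a ha σ hσ
    rw [smul_inv', ha σ hσ]

variable {K N}

lemma mem_fixedUnits {H : Subgroup (N ≃ₐ[K] N)} {y : Nˣ} :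
    y ∈ fixedUnits K N H ↔ ∀ σ ∈ H, σ • y = y := Iff.rfl

lemma mem_fixedUnits_iff_coe {H : Subgroup (N ≃ₐ[K] N)} {y : Nˣ} :
    y ∈ fixedUnits K N H ↔ ∀ σ ∈ H, σ (y : N) = (y : N) := by
  rw [mem_fixedUnits]
  refine forall₂_congr fun σ _ => ?_
  constructor
  · intro h
    exact congrArg (fun t : Nˣ => (t : N)) h
  · intro h
    exact Units.ext h

lemma unitsIncl_mem_fixedUnits (H : Subgroup (N ≃ₐ[K] N)) (y : Kˣ) :
    unitsIncl N K y ∈ fixedUnits K N H := by
  rw [mem_fixedUnits_iff_coe]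
  intro σ _
  exact σ.commutes _

lemma fixedUnits_anti {H H' : Subgroup (N ≃ₐ[K] N)} (h : H ≤ H') :
    fixedUnits K N H' ≤ fixedUnits K N H :=
  fun _ hy σ hσ => hy σ (h hσ)

end Fixed

section Concrete

variable (A F : Type) [CommRing A] [IsDomain A] [IsDiscreteValuationRing A]
  [IsAdicComplete (IsLocalRing.maximalIdeal A) A] [Finite (IsLocalRing.ResidueField A)]
  [Field F] [CharZero F] [Algebra A F] [IsFractionRing A F]
  (K : Type) [Field K] [Algebra F K] [FiniteDimensional F K]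
  (N : Type) [Field N] [Algebra F N] [Algebra K N] [IsScalarTower F K N]
  [FiniteDimensional K N] [IsGalois K N]

variable {A F N} in
/-- The image in `N` of a uniformizer of `K` has positive order. -/
lemma ord_unitsIncl_unif_pos {ϖ : Nˣ} (hϖ : IsUnif A F N ϖ) {ϖK : Kˣ} (hK : IsUnif A F K ϖK) :
    0 < ord A F N ϖ (unitsIncl N K ϖK) := by
  have h0 : 0 ≤ ord A F N ϖ (unitsIncl N K ϖK) := by
    rw [← isInt_iff_ord_nonneg hϖ]
    exact (H608.isInt_algebraMap_iff A F N K _).mpr hK.1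
  rcases h0.lt_or_eq with h | h
  · exact h
  · exfalso
    have hu := (ord_eq_zero_iff hϖ).mp h.symm
    apply hK.2.1
    rw [mem_intUnits] at hu ⊢
    refine ⟨hK.1, ?_⟩
    have e : (((unitsIncl N K ϖK)⁻¹ : Nˣ) : N) = algebraMap K N ((ϖK⁻¹ : Kˣ) : K) := by
      rw [← map_inv]; rfl
    rw [e] at hu
    exact (H608.isInt_algebraMap_iff A F N K _).mp hu.2

/-- **Structure theorem.** -/
theorem exists_inertia_dvd {ϖ : Nˣ} (hϖ : IsUnif A F N ϖ) :
    ∃ I : Subgroup (N ≃ₐ[K] N), I.Normal ∧ ∀ H : Subgroup (N ≃ₐ[K] N),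
      0 < Nat.card ↥(I ⊓ H) ∧
      (∀ y ∈ fixedUnits K N H, ((Nat.card ↥(I ⊓ H) : ℕ) : ℤ) ∣ ord A F N ϖ y) ∧
      (∃ y ∈ fixedUnits K N H, ord A F N ϖ y = (Nat.card ↥(I ⊓ H) : ℕ)) := by
  classical
  obtain ⟨I, hI, hcard⟩ := exists_inertia_ord A F K N hϖ
  refine ⟨I, hI, fun H => ?_⟩
  -- the least positive order of an invariant element
  obtain ⟨ϖK, hK⟩ := H608.exists_isUnif A F K
  have hex : ∃ n : ℕ, 0 < n ∧ ∃ y ∈ fixedUnits K N H, ord A F N ϖ y = n := by
    have hpos := ord_unitsIncl_unif_pos (K := K) hϖ hK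
    refine ⟨(ord A F N ϖ (unitsIncl N K ϖK)).toNat, by omega, unitsIncl N K ϖK,
      unitsIncl_mem_fixedUnits H ϖK, ?_⟩
    rw [Int.toNat_of_nonneg hpos.le]
  set d := Nat.find hex with hd
  obtain ⟨hdpos, y₀, hy₀, hy₀d⟩ := Nat.find_spec hex
  have hmin : ∀ y : Nˣ, (∀ σ ∈ H, σ • y = y) → 0 < ord A F N ϖ y → (d : ℤ) ≤ ord A F N ϖ y := by
    intro y hy hpos
    have : d ≤ (ord A F N ϖ y).toNat :=
      Nat.find_min' hex ⟨by omega, y, hy, by rw [Int.toNat_of_nonneg hpos.le]⟩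
    omega
  have hc : Nat.card ↥(I ⊓ H) = d := hcard H d hmin ⟨y₀, hy₀, hy₀d⟩ hdpos
  rw [hc]
  refine ⟨hdpos, ?_, y₀, hy₀, hy₀d⟩
  intro y hy
  -- division with remainder
  set q := ord A F N ϖ y / (d : ℤ) with hq
  set r := ord A F N ϖ y % (d : ℤ) with hr
  have hdz : (0 : ℤ) < d := by exact_mod_cast hdpos
  have hr0 : 0 ≤ r := Int.emod_nonneg _ hdz.ne'
  have hrd : r < d := Int.emod_lt_of_pos _ hdz
  have hdecomp : ord A F N ϖ y = (d : ℤ) * q + r := (Int.mul_ediv_add_emod _ _).symm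
  have hy' : y * y₀ ^ (-q) ∈ fixedUnits K N H :=
    (fixedUnits K N H).mul_mem hy ((fixedUnits K N H).zpow_mem hy₀ _)
  have hord' : ord A F N ϖ (y * y₀ ^ (-q)) = r := by
    rw [ord_mul hϖ, ord_zpow hϖ, hy₀d, hdecomp]
    ring
  have hr_zero : r = 0 := by
    by_contra hne
    have hrpos : 0 < r := lt_of_le_of_ne hr0 (Ne.symm hne)
    have := hmin _ hy' (by rw [hord']; exact hrpos)
    rw [hord'] at this
    omega
  exact Int.dvd_of_emod_eq_zero hr_zero

end Concrete

end Fermat.Agent.S55.Local.H775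

end
-- ===== PACK-END S55/Local/H775/InertiaOrd.lean

-- ===== PACK-BEGIN S55/H414/CycloMain.lean
section



/-!
# S55, leaf CYC-INF (helper414): `p^∞` divides the local degrees of `ℚ_S/ℚ` (for `p ∈ S`)

Main results (all in Prelude terms; `D_q = (primeLocalToGlobal q).range` is the image of the local
Galois group `Gal(ℚ̄_q/ℚ_q)` in `G_ℚ`, i.e. the decomposition group of `primeLocalPlace q`):

* `exists_forall_pow_dvd_relIndex` : for every valuation subring `A` of `ℚ̄` over a prime `q`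
  containing the image of the local Galois group (or, if `q ≠ p`, arbitrary), and every `k`,
  `p ^ k ∣ [D_A : D_A ∩ G_F]` for `F = ℚ(ζ_{p^n})`, `n ≫ 0`;
* `exists_level_forall_pow_dvd_relIndex` : for a finite set `S ∋ p` of primes and every `k` there is
  a finite abelian extension `F/ℚ` in `ℚ̄`, unramified outside `S`, such that for all primes `q`
  in a given finite set `T`, the local degree `[D_q : D_q ∩ G_F]` is divisible by `p ^ k`;
* `exists_level_ge_forall_pow_dvd_relIndex` : the same above any given level `F₀`.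
-/

set_option autoImplicit false

namespace Fermat.Agent.S55.H414

open ExtCitation

/-- Local degrees grow along towers: if `F ≤ F'` then `[D : D ∩ G_F]` divides `[D : D ∩ G_F']`. -/
theorem relIndex_fixingSubgroup_dvd_of_le {F F' : IntermediateField ℚ (AlgebraicClosure ℚ)}
    (h : F ≤ F') (D : Subgroup (AlgebraicClosure ℚ ≃ₐ[ℚ] AlgebraicClosure ℚ)) :
    F.fixingSubgroup.relIndex D ∣ F'.fixingSubgroup.relIndex D :=
  Subgroup.relIndex_dvd_of_le_left D (IntermediateField.fixingSubgroup_antitone h)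

/-- Commutators of `G_ℚ` fix the cyclotomic levels: `ℚ(ζ_N)/ℚ` is abelian. -/
theorem commutator_mem_fixingSubgroup_cycloLevel (N : ℕ) [NeZero N]
    (σ τ : AlgebraicClosure ℚ ≃ₐ[ℚ] AlgebraicClosure ℚ) :
    σ * τ * σ⁻¹ * τ⁻¹ ∈ (cycloLevel N).fixingSubgroup := by
  rw [← ker_cycloPow, MonoidHom.mem_ker]
  simp only [map_mul, map_inv]
  rw [mul_comm (cycloPow N σ) (cycloPow N τ), mul_inv_cancel_right, mul_inv_cancel]

theorem cycloLevel_mono (p : ℕ) [Fact p.Prime] {m n : ℕ} (h : m ≤ n) :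
    cycloLevel (p ^ m) ≤ cycloLevel (p ^ n) := by
  rw [cycloLevel, IntermediateField.adjoin_le_iff]
  rintro x rfl
  -- `ζ_{p^m}` is a power of `ζ_{p^n}`
  have hdvd : p ^ m ∣ p ^ n := pow_dvd_pow p h
  obtain ⟨d, hd⟩ := hdvd
  have hprim : IsPrimitiveRoot (zetaBar (p ^ n) ^ d) (p ^ m) := by
    apply (zetaBar_spec (p ^ n)).pow (NeZero.pos _)
    rw [hd, mul_comm]
  obtain ⟨i, -, hi⟩ := hprim.eq_pow_of_pow_eq_one (zetaBar_spec (p ^ m)).pow_eq_one
  rw [SetLike.mem_coe, ← hi]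
  exact pow_mem (pow_mem (zetaBar_mem_cycloLevel (p ^ n)) d) i

/-- **CYC-INF at one place.** Let `A` be a valuation subring of `ℚ̄` over the prime `q` and `D` a
subgroup of `G_ℚ` containing the decomposition group of `A`; if `q = p` assume moreover that `D`
contains the image of the local Galois group `Gal(ℚ̄_p/ℚ_p)`. Then for every `k` and all `n ≫ 0`,
`p ^ k` divides the local degree `[D : D ∩ G_F]`, `F = ℚ(ζ_{p^n})`. -/
theorem exists_forall_pow_dvd_relIndex (p : ℕ) [Fact p.Prime] (q : ℕ) (hq : q.Prime)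
    (A : ValuationSubring (AlgebraicClosure ℚ)) (hA : A.LiesOverPrime q)
    (hloc : q = p → (localGaloisToGlobal p).range ≤ A.decompositionSubgroup ℚ) (k : ℕ) :
    ∃ n₀ : ℕ, ∀ n, n₀ ≤ n →
      p ^ k ∣ (cycloLevel (p ^ n)).fixingSubgroup.relIndex (A.decompositionSubgroup ℚ) := by
  by_cases hqp : q = p
  · refine ⟨k + 1, fun n hn => ?_⟩
    obtain ⟨m, rfl⟩ : ∃ m, n = m + 1 := ⟨n - 1, by omega⟩
    rw [relIndex_fixingSubgroup_cycloLevel_self p m _ (hloc hqp)]
    exact (pow_dvd_pow p (by omega)).trans (Dvd.intro_left _ rfl)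
  · exact exists_forall_pow_dvd_relIndex_of_ne p q hq hqp A hA k

/-- **CYC-INF for the Prelude's local groups.** For all primes `p`, `q`, every `k` and all
`n ≫ 0`, `p ^ k` divides the local degree at `q` of `ℚ(ζ_{p^n})/ℚ`. -/
theorem exists_forall_pow_dvd_relIndex_primeLocal (p : ℕ) [Fact p.Prime] (q : Nat.Primes)
    (k : ℕ) :
    ∃ n₀ : ℕ, ∀ n, n₀ ≤ n →
      p ^ k ∣ (cycloLevel (p ^ n)).fixingSubgroup.relIndex (primeLocalToGlobal q).range := by
  rw [Fermat.Agent.S55.BLocal.range_primeLocalToGlobal]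
  refine exists_forall_pow_dvd_relIndex p (q : ℕ) q.2 (primeLocalPlace q)
    (Fermat.Agent.S55.BLocal.primeLocalPlace_liesOver q) ?_ k
  intro hqp
  have hq' : q = pPrime p := Subtype.ext hqp
  subst hq'
  rw [← Fermat.Agent.S55.BLocal.range_primeLocalToGlobal]
  exact le_of_eq rfl

/-- **CYC-INF, uniform in finitely many places.** -/
theorem exists_forall_forall_pow_dvd_relIndex_primeLocal (p : ℕ) [Fact p.Prime]
    (T : Finset Nat.Primes) (k : ℕ) :
    ∃ n₀ : ℕ, ∀ n, n₀ ≤ n → ∀ q ∈ T,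
      p ^ k ∣ (cycloLevel (p ^ n)).fixingSubgroup.relIndex (primeLocalToGlobal q).range := by
  classical
  induction T using Finset.induction_on with
  | empty => exact ⟨0, fun _ _ q hq => absurd hq (Finset.notMem_empty q)⟩
  | insert a T _ ih =>
    obtain ⟨n₁, h₁⟩ := ih
    obtain ⟨n₂, h₂⟩ := exists_forall_pow_dvd_relIndex_primeLocal p a k
    refine ⟨max n₁ n₂, fun n hn q hq => ?_⟩
    rcases Finset.mem_insert.1 hq with rfl | hq
    · exact h₂ n (le_trans (le_max_right _ _) hn)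
    · exact h₁ n (le_trans (le_max_left _ _) hn) q hq

/-- **CYC-INF, packaged.** For a finite set `S` of primes containing `p`, a finite set `T` of
primes and every `k`, there is a finite abelian Galois extension `F/ℚ` inside `ℚ̄`, unramified
outside `S`, all of whose local degrees at the primes of `T` are divisible by `p ^ k`. -/
theorem exists_level_forall_pow_dvd_relIndex (p : ℕ) [Fact p.Prime] (S : Finset Nat.Primes)
    (hpS : pPrime p ∈ S) (T : Finset Nat.Primes) (k : ℕ) :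
    ∃ F : IntermediateField ℚ (AlgebraicClosure ℚ),
      F.IsUnramifiedOutside S ∧ IsGalois ℚ F ∧
      (∀ σ τ : AlgebraicClosure ℚ ≃ₐ[ℚ] AlgebraicClosure ℚ,
        σ * τ * σ⁻¹ * τ⁻¹ ∈ F.fixingSubgroup) ∧
      ∀ q ∈ T, p ^ k ∣ F.fixingSubgroup.relIndex (primeLocalToGlobal q).range := by
  obtain ⟨n₀, hn₀⟩ := exists_forall_forall_pow_dvd_relIndex_primeLocal p T k
  exact ⟨cycloLevel (p ^ n₀), isUnramifiedOutside_cycloLevel p n₀ S hpS, inferInstance,
    commutator_mem_fixingSubgroup_cycloLevel (p ^ n₀), hn₀ n₀ le_rfl⟩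

/-- **CYC-INF above a given level.** For a finite set `S ∋ p`, an `S`-unramified level `F₀`, a
finite set `T` of primes and every `k`, there is an `S`-unramified level `F ≥ F₀` all of whose
local degrees at the primes of `T` are divisible by `p ^ k`. -/
theorem exists_level_ge_forall_pow_dvd_relIndex (p : ℕ) [Fact p.Prime] (S : Finset Nat.Primes)
    (hpS : pPrime p ∈ S) (F₀ : IntermediateField ℚ (AlgebraicClosure ℚ))
    (hF₀ : F₀.IsUnramifiedOutside S) (T : Finset Nat.Primes) (k : ℕ) :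
    ∃ F : IntermediateField ℚ (AlgebraicClosure ℚ),
      F₀ ≤ F ∧ F.IsUnramifiedOutside S ∧
      ∀ q ∈ T, p ^ k ∣ F.fixingSubgroup.relIndex (primeLocalToGlobal q).range := by
  obtain ⟨F₁, hF₁, -, -, hdiv⟩ := exists_level_forall_pow_dvd_relIndex p S hpS T k
  refine ⟨F₀ ⊔ F₁, le_sup_left, hF₀.sup hF₁, fun q hq => ?_⟩
  exact (hdiv q hq).trans (relIndex_fixingSubgroup_dvd_of_le le_sup_right _)

end Fermat.Agent.S55.H414

end
-- ===== PACK-END S55/H414/CycloMain.lean

-- ===== PACK-BEGIN S55/Bridge/FiniteLevel.lean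
section




/-!
# S55 bridge: the Prelude's `continuousH2S` / `sha₂` through the finite levels of the tower

Vocabulary of `Spec/Tower.lean` (`Tow.Level S`, `L.U`, `L.Gal = G_ℚ ⧸ L.U`).  For a level `L`
whose subgroup `L.U` acts trivially on `M` (hypothesis `hL : ∀ s ∈ L.U, M.ρ s = 1`):

* `atLevel M L hL : Rep k L.Gal` — `M` as a `Gal(F/ℚ)`-module (`= M.ofQuotient L.U`, same carrier);
* `inflH2S M L hL : H2 (atLevel M L hL) →ₗ[k] continuousH2S S M` — inflation to the Prelude group;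
* `inflLevel M h hL : H2 (atLevel M L hL) →ₗ[k] H2 (atLevel M L' _)` — inflation `L ≤ L'`
  (Mathlib's `groupCohomology.map` along `Tow.Level.proj h`);
* `inflH2S_inflLevel`, `exists_inflH2S_eq` (joint surjectivity), `inflH2S_eq_zero_iff`
  (kernel = classes dying at a higher level): `continuousH2S S M = colim_L H²(Gal(F_L/ℚ), M)`.
-/

set_option autoImplicit false
set_option linter.unusedSectionVars false

namespace Fermat.Agent.S55.Bridge

open groupCohomology CategoryTheory ExtCitation IntermediateField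

attribute [local instance] isAlgebraic_Qbar isGalois_Qbar

variable {S : Finset Nat.Primes} {k : Type} [CommRing k] (M : Rep.{0, 0, 0} k Tow.GQ)

/-- A subgroup acting trivially gives Mathlib's `Representation.IsTrivial` for the restriction. -/
theorem isTrivial_comp_subtype {G : Type} [Group G] (A : Rep.{0, 0, 0} k G) (N : Subgroup G)
    (h : ∀ s ∈ N, A.ρ s = 1) : Representation.IsTrivial (A.ρ.comp N.subtype) :=
  ⟨fun s => by
    show A.ρ (s : G) = LinearMap.id
    rw [h s s.2]; rfl⟩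

/-- Triviality of the action passes to higher levels. -/
theorem trivial_of_le {L L' : Tow.Level S} (h : L ≤ L') (hL : ∀ s ∈ L.U, M.ρ s = 1) :
    ∀ s ∈ L'.U, M.ρ s = 1 := fun s hs => hL s (Tow.Level.U_anti h hs)

/-- `M` as a `Gal(F/ℚ)`-module, for a level `L` trivialising `M`. -/
noncomputable abbrev atLevel (L : Tow.Level S) (hL : ∀ s ∈ L.U, M.ρ s = 1) : Rep.{0, 0, 0} k L.Gal :=
  haveI := isTrivial_comp_subtype M L.U hL
  M.ofQuotient L.U

theorem atLevel_ρ_mk (L : Tow.Level S) (hL : ∀ s ∈ L.U, M.ρ s = 1) (g : Tow.GQ) (m : M) :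
    (atLevel M L hL).ρ (g : L.Gal) m = M.ρ g m := rfl

section Global

variable (L : Tow.Level S) (hL : ∀ s ∈ L.U, M.ρ s = 1)

/-- Inflation of 2-cocycles of `Gal(F/ℚ)` to `S`-level-constant 2-cocycles of `G_ℚ`. -/
noncomputable def inflZ2S : cocycles₂ (atLevel M L hL) →ₗ[k] ↥(levelCocyclesS₂ S M) :=
  haveI := isTrivial_comp_subtype M L.U hL
  LinearMap.codRestrict (levelCocyclesS₂ S M)
    ((inflCochain₂ M L.U).comp (cocycles₂ (atLevel M L hL)).subtype)
    (fun f => ⟨(inflCochain₂_mem_cocycles₂_iff M L.U f).2 f.2, L.F, L.unram,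
      isConstMod₂_inflCochain₂ M L.U f⟩)

theorem coe_inflZ2S (f : cocycles₂ (atLevel M L hL)) :
    (inflZ2S M L hL f : Tow.GQ × Tow.GQ → M) = inflCochain₂ M L.U f := rfl

theorem inflZ2S_apply (f : cocycles₂ (atLevel M L hL)) (g g' : Tow.GQ) :
    (inflZ2S M L hL f : Tow.GQ × Tow.GQ → M) (g, g') = f ((g : L.Gal), (g' : L.Gal)) := rfl

/-- Inflation `H²(Gal(F/ℚ), M) → continuousH2S S M`. -/
noncomputable def inflH2S : H2 (atLevel M L hL) →ₗ[k] continuousH2S S M :=
  H2desc (atLevel M L hL) ((continuousH2Sπ S M).comp (inflZ2S M L hL)) (by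
    haveI := isTrivial_comp_subtype M L.U hL
    intro c hc
    rw [LinearMap.comp_apply, continuousH2Sπ_eq_zero_iff, mem_levelCoboundariesS₂_iff]
    obtain ⟨c', hc'⟩ := hc
    refine ⟨inflCochain₁ M L.U c', ⟨L.F, L.unram, isConstMod₁_inflCochain₁ M L.U c'⟩, ?_⟩
    rw [coe_inflZ2S, ← hc']
    exact (inflCochain₂_d₁₂ M L.U c').symm)

@[simp] theorem inflH2S_H2π (f : cocycles₂ (atLevel M L hL)) :
    inflH2S M L hL ((H2π (atLevel M L hL)).hom f) = continuousH2Sπ S M (inflZ2S M L hL f) :=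
  H2desc_H2π _ _ _ f

/-- Joint surjectivity: every class of `continuousH2S S M` is inflated from a level above any
given level. -/
theorem exists_inflH2S_eq (x : continuousH2S S M) :
    ∃ (L' : Tow.Level S) (h : L ≤ L') (y : H2 (atLevel M L' (trivial_of_le M h hL))),
      inflH2S M L' (trivial_of_le M h hL) y = x := by
  obtain ⟨F, hF, hgal, hle, f, hc, rfl⟩ := exists_rep_continuousH2S S M x L.F L.unram
  let L' : Tow.Level S := ⟨F, hF, (InfiniteGalois.normal_iff_isGalois _).2 hgal⟩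
  have h : L ≤ L' := hle
  haveI := isTrivial_comp_subtype M L'.U (trivial_of_le M h hL)
  obtain ⟨f', hf'⟩ := exists_inflCochain₂_eq M L'.U (f : Tow.GQ × Tow.GQ → M) hc
  have hcoc : f' ∈ cocycles₂ (atLevel M L' (trivial_of_le M h hL)) := by
    rw [← inflCochain₂_mem_cocycles₂_iff M L'.U f', hf']
    exact f.2.1
  refine ⟨L', h, (H2π _).hom ⟨f', hcoc⟩, ?_⟩
  rw [inflH2S_H2π]
  congr 1
  exact Subtype.ext hf'

end Global

section Transition

variable {L L' : Tow.Level S} (h : L ≤ L') (hL : ∀ s ∈ L.U, M.ρ s = 1)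

/-- The identity of `M`, as a morphism `Res_{proj}(M at L) ⟶ M at L'`. -/
noncomputable def levelHom :
    Rep.res (Tow.Level.proj h) (atLevel M L hL) ⟶ atLevel M L' (trivial_of_le M h hL) :=
  Rep.ofHom ⟨LinearMap.id, fun g => QuotientGroup.induction_on g fun _ => rfl⟩

/-- Inflation `H²(Gal(F/ℚ), M) → H²(Gal(F'/ℚ), M)` for `F ≤ F'`. -/
noncomputable def inflLevel :
    H2 (atLevel M L hL) →ₗ[k] H2 (atLevel M L' (trivial_of_le M h hL)) :=
  (groupCohomology.map (Tow.Level.proj h) (levelHom M h hL) 2).hom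

theorem inflLevel_H2π (f : cocycles₂ (atLevel M L hL)) :
    inflLevel M h hL ((H2π (atLevel M L hL)).hom f) =
      (H2π (atLevel M L' (trivial_of_le M h hL))).hom
        ((mapCocycles₂ (Tow.Level.proj h) (levelHom M h hL)).hom f) := by
  have := congrArg (fun φ => φ.hom f)
    (H2π_comp_map (A := atLevel M L hL) (B := atLevel M L' (trivial_of_le M h hL))
      (Tow.Level.proj h) (levelHom M h hL))
  simp only [ModuleCat.hom_comp, LinearMap.comp_apply] at this
  exact this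

theorem mapCocycles₂_levelHom_apply (f : cocycles₂ (atLevel M L hL)) (x y : L'.Gal) :
    ((mapCocycles₂ (Tow.Level.proj h) (levelHom M h hL)).hom f : L'.Gal × L'.Gal → M) (x, y)
      = f (Tow.Level.proj h x, Tow.Level.proj h y) := rfl

/-- Inflation to the Prelude group is compatible with the transition maps. -/
theorem inflH2S_inflLevel (y : H2 (atLevel M L hL)) :
    inflH2S M L' (trivial_of_le M h hL) (inflLevel M h hL y) = inflH2S M L hL y := by
  obtain ⟨f, rfl⟩ := H2π_surjective (atLevel M L hL) y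
  rw [inflLevel_H2π, inflH2S_H2π, inflH2S_H2π]
  congr 1

/-- The kernel of the inflation to the Prelude group: classes dying at a higher level. -/
theorem inflH2S_eq_zero_iff (L : Tow.Level S) (hL : ∀ s ∈ L.U, M.ρ s = 1)
    (y : H2 (atLevel M L hL)) :
    inflH2S M L hL y = 0 ↔ ∃ (L' : Tow.Level S) (h : L ≤ L'), inflLevel M h hL y = 0 := by
  constructor
  · intro hy
    obtain ⟨f, rfl⟩ := H2π_surjective (atLevel M L hL) y
    rw [inflH2S_H2π] at hy
    obtain ⟨F, hF, hgal, hle, c, hc, hd⟩ :=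
      (continuousH2Sπ_eq_zero_iff_galois S M _ L.F L.unram).1 hy
    let L' : Tow.Level S := ⟨F, hF, (InfiniteGalois.normal_iff_isGalois _).2 hgal⟩
    have h : L ≤ L' := hle
    haveI := isTrivial_comp_subtype M L'.U (trivial_of_le M h hL)
    obtain ⟨c', rfl⟩ := exists_inflCochain₁_eq M L'.U c hc
    refine ⟨L', h, ?_⟩
    rw [inflLevel_H2π, H2π_eq_zero_iff]
    refine ⟨c', ?_⟩
    apply inflCochain₂_injective M L'.U
    rw [inflCochain₂_d₁₂]
    rw [hd]
    rfl
  · rintro ⟨L', h, hy⟩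
    rw [← inflH2S_inflLevel M h hL y, hy, map_zero]

end Transition

end Fermat.Agent.S55.Bridge

end
-- ===== PACK-END S55/Bridge/FiniteLevel.lean

-- ===== PACK-BEGIN S55/H713/Param.lean
section


/-!
# Parameters in a Galois-stable discrete valuation ring
-/

set_option autoImplicit false
set_option linter.unusedSectionVars false

open IsLocalRing

namespace Fermat.Agent.S55.H713

variable {F E : Type*} [Field F] [Field E] [Algebra F E] [FiniteDimensional F E] [IsGalois F E]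
variable {O : ValuationSubring E} [IsDiscreteValuationRing O]

namespace IsParam

variable {p : F} (hp : IsParam O p)
include hp

lemma coe_toO_pow (k : ℕ) : ((hp.toO ^ k : O) : E) = algebraMap F E (p ^ k) := by
  rw [map_pow]; rfl

/-- Every element of `E` is moved into `O` by a power of the parameter. -/
lemma exists_pow_smul_mem (x : E) : ∃ k, p ^ k • x ∈ O := by
  by_cases hx : x ∈ O
  · exact ⟨0, by simpa using hx⟩
  have hx' : x⁻¹ ∈ O := (O.mem_or_inv_mem x).resolve_left hx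
  have hx0 : x ≠ 0 := fun h => hx (h ▸ O.zero_mem)
  obtain ⟨ϖ, hϖ⟩ := IsDiscreteValuationRing.exists_irreducible O
  have hy0 : (⟨x⁻¹, hx'⟩ : O) ≠ 0 := by
    intro h
    exact inv_ne_zero hx0 (congrArg Subtype.val h)
  obtain ⟨j, u, hu⟩ := IsDiscreteValuationRing.eq_unit_mul_pow_irreducible hy0 hϖ
  have hmem := hp.toO_mem_maximalIdeal
  rw [hϖ.maximalIdeal_eq, Ideal.mem_span_singleton'] at hmem
  obtain ⟨r, hr⟩ := hmem
  refine ⟨j, ?_⟩
  have h1 : x⁻¹ = ((u : O) : E) * (ϖ : E) ^ j := by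
    have := congrArg Subtype.val hu
    simpa using this
  have h2 : algebraMap F E p = (r : E) * (ϖ : E) := by
    have := congrArg Subtype.val hr
    simpa [IsParam.toO] using this.symm
  have h3 : p ^ j • x = (r : E) ^ j * ((u⁻¹ : Oˣ) : O) := by
    rw [Algebra.smul_def, map_pow, h2, mul_pow]
    have hu1 : ((u : O) : E) * ((u⁻¹ : Oˣ) : O) = 1 := by
      rw [← Subring.coe_mul]; simp
    have hx1 : x * x⁻¹ = 1 := mul_inv_cancel₀ hx0
    rw [h1] at hx1
    have : (ϖ : E) ^ j * x = ((u⁻¹ : Oˣ) : O) := by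
      calc (ϖ : E) ^ j * x = (ϖ : E) ^ j * x * (((u : O) : E) * ((u⁻¹ : Oˣ) : O)) := by
            rw [hu1, mul_one]
        _ = (x * (((u : O) : E) * (ϖ : E) ^ j)) * ((u⁻¹ : Oˣ) : O) := by ring
        _ = ((u⁻¹ : Oˣ) : O) := by rw [hx1, one_mul]
    rw [mul_assoc, this]
  rw [h3]
  exact O.mul_mem _ _ (O.toSubring.pow_mem r.2 j) ((u⁻¹ : Oˣ) : O).2

/-- Powers of the maximal ideal are eventually inside `(p ^ t)`. -/
lemma exists_pow_le : ∃ e : ℕ, ∀ (t : ℕ) (x : O), x ∈ maximalIdeal O ^ (e * t) →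
    ∃ y : O, x = hp.toO ^ t * y := by
  obtain ⟨ϖ, hϖ⟩ := IsDiscreteValuationRing.exists_irreducible O
  have hne : Ideal.span {hp.toO} ≠ ⊥ := by
    rw [Ne, Ideal.span_singleton_eq_bot]; exact hp.toO_ne_zero
  obtain ⟨e, he⟩ := IsDiscreteValuationRing.ideal_eq_span_pow_irreducible hne hϖ
  refine ⟨e, fun t x hx => ?_⟩
  have : maximalIdeal O ^ (e * t) = Ideal.span {hp.toO ^ t} := by
    rw [hϖ.maximalIdeal_eq, Ideal.span_singleton_pow, pow_mul, ← Ideal.span_singleton_pow, ← he,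
      Ideal.span_singleton_pow]
  rw [this, Ideal.mem_span_singleton'] at hx
  obtain ⟨y, hy⟩ := hx
  exact ⟨y, by rw [← hy, mul_comm]⟩

end IsParam

/-- A parameter exists: the norm of a uniformizer. -/
theorem exists_isParam (hstab : GalStable F O) : ∃ p : F, IsParam O p := by
  classical
  obtain ⟨ϖ, hϖ⟩ := IsDiscreteValuationRing.exists_irreducible O
  have hϖ0 : (ϖ : E) ≠ 0 := fun h => hϖ.ne_zero (Subtype.ext h)
  refine ⟨Algebra.norm F (ϖ : E), ?_, ?_, ?_⟩
  · rw [Ne, Algebra.norm_eq_zero_iff]; exact hϖ0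
  · rw [Algebra.norm_eq_prod_automorphisms]
    exact O.toSubring.prod_mem (fun g _ => hstab g _ ϖ.2)
  · rw [Algebra.norm_eq_prod_automorphisms]
    intro hinv
    -- the product as an element of `O`
    set P : O := ∏ g : Gal(E/F), (⟨g (ϖ : E), hstab g _ ϖ.2⟩ : O) with hP
    have hPc : (P : E) = ∏ g : Gal(E/F), g (ϖ : E) := by
      rw [hP]
      simp
    have hPm : P ∈ maximalIdeal O := by
      rw [hP, ← Finset.mul_prod_erase Finset.univ _ (Finset.mem_univ (1 : Gal(E/F)))]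
      apply Ideal.mul_mem_right
      have : (⟨(1 : Gal(E/F)) (ϖ : E), hstab 1 _ ϖ.2⟩ : O) = ϖ := Subtype.ext rfl
      rw [this, mem_maximalIdeal, mem_nonunits_iff]
      exact hϖ.not_isUnit
    have hP0 : (P : E) ≠ 0 := by
      rw [hPc]
      exact Finset.prod_ne_zero_iff.2 (fun g _ => by simpa using hϖ0)
    have hPu : IsUnit P := by
      refine IsUnit.of_mul_eq_one (⟨(P : E)⁻¹, by rw [hPc]; exact hinv⟩ : O) ?_
      apply Subtype.ext
      simp [mul_inv_cancel₀ hP0]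
    exact (mem_nonunits_iff.1 ((mem_maximalIdeal P).1 hPm)) hPu

end Fermat.Agent.S55.H713

end
-- ===== PACK-END S55/H713/Param.lean

-- ===== PACK-BEGIN S55/E1/Main2.lean
section
/-
S55 engine E1 — top level, version 2 (CANONICAL): the engine consumes the weak global spec
`Tow.GlobalSpecMu`.  Chief architect: helper55.  NO sorry.

`EngineSpecMu` = the TARGET of layer D (engine E1).
`S55_of_specsMu : EngineSpecMu → InputsSpecMu → <frozen statement S55>`.
-/



set_option autoImplicit false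

open CategoryTheory Module groupCohomology ExtCitation

namespace Fermat.Agent.S55.E1

open Fermat.Agent.S55.Tow

/-- **TARGET OF LAYER D (engine E1), canonical form.** -/
def EngineSpecMu : Prop :=
  ∀ (p : ℕ) [Fact p.Prime], p ≠ 2 → ∀ (S : Finset Nat.Primes), pPrime p ∈ S →
    TateNakayamaAtSpec → GlobalSpecMu S p → LocalSpec p → SUnitsDivSpec S p → H1FiniteSpec S p →
    ∀ (M : Rep.{0, 0, 0} (ZMod p) (AlgebraicClosure ℚ ≃ₐ[ℚ] AlgebraicClosure ℚ))
      [FiniteDimensional (ZMod p) M], IsAdmissible S M → DimEq S M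

/-- The arithmetic inputs (for all odd `p ∈ S`), canonical form. -/
def InputsSpecMu : Prop :=
  TateNakayamaAtSpec ∧
  ∀ (p : ℕ) [Fact p.Prime], p ≠ 2 → ∀ (S : Finset Nat.Primes), pPrime p ∈ S →
    GlobalSpecMu S p ∧ LocalSpec p ∧ SUnitsDivSpec S p ∧ H1FiniteSpec S p

theorem EngineSpecMu.engineSpec (h : EngineSpecMu) : EngineSpec :=
  fun p _ hp2 S hpS hT hG hL hU hF M _ hM =>
    h p hp2 S hpS hT hG.globalSpecMu hL hU hF M hM

/-- S55 from the engine and the arithmetic inputs (canonical form). -/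
theorem S55_of_specsMu (hE : EngineSpecMu) (hI : InputsSpecMu)
    {p : ℕ} [Fact p.Prime] (hp2 : p ≠ 2) (S : Finset Nat.Primes) (hpS : pPrime p ∈ S)
    (M : Rep (ZMod p) (AlgebraicClosure ℚ ≃ₐ[ℚ] AlgebraicClosure ℚ))
    [FiniteDimensional (ZMod p) M]
    (hsm : ∀ m : M, ∃ F : IntermediateField ℚ (AlgebraicClosure ℚ), FiniteDimensional ℚ F ∧
      ∀ s ∈ F.fixingSubgroup, M.ρ s m = m)
    (hMur : ∀ q : Nat.Primes, q ∉ S → ∀ A : ValuationSubring (AlgebraicClosure ℚ),
      A.LiesOverPrime (q : ℕ) → ∀ g ∈ A.inertiaSubgroupIn ℚ, M.ρ g = 1) :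
    ∃ B : sha₁ S (M.dualTwist (cycloChar p)) →ₗ[ZMod p] sha₂ S M →ₗ[ZMod p] ZMod p,
      (∀ y, (∀ x, B y x = 0) → y = 0) ∧ (∀ x, (∀ y, B y x = 0) → x = 0) := by
  obtain ⟨hT, hrest⟩ := hI
  obtain ⟨hG, hL, hU, hF⟩ := hrest p hp2 S hpS
  obtain ⟨h1, h2, h3⟩ := hE p hp2 S hpS hT hG hL hU hF M ⟨hsm, hMur⟩
  exact Fermat.Agent.S55.Bridge.pairing_of_finrank_eq S M h1 h2 h3

end Fermat.Agent.S55.E1

end
-- ===== PACK-END S55/E1/Main2.lean

-- ===== PACK-BEGIN S55/G/SUnitsAssembly.lean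
section
/-
S55, layer G, block G-U (helper595): assembly A3, `SUnitsHerbrandSpec` from
`UnitsHerbrandSpec`, `SUnitsOrdSpec`, `PermSpec`, `SUnitsStableSpec`.

`0 → 𝒪_L^× → 𝒪_{L,T}^× → ψ(𝒪_{L,T}^×) → 0`, the last group of finite index in the permutation
lattice `ℤ^{primes above T}`.
-/







set_option autoImplicit false

namespace Fermat.Agent.S55.G

open Fermat.Agent.S55.Herbrand NumberField

universe u v

/-- **Assembly A3.** -/
theorem sUnitsHerbrandSpec_of (hU : UnitsHerbrandSpec.{u, v}) (hO : SUnitsOrdSpec.{u, v})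
    (hP : PermSpec.{v, v}) (hS : SUnitsStableSpec.{u, v}) : SUnitsHerbrandSpec.{u, v} := by
  intro K L _ _ _ _ _ _ σ hσ T
  obtain ⟨u1, u2, u3⟩ := hU K L σ hσ
  obtain ⟨iMA, iFT, ψ, hψ, hker, hidx, hstab⟩ := hO K L T
  obtain ⟨p1, p2⟩ := hP (L ≃ₐ[K] L) ↥(primesAbove K L T) σ hσ
  -- stability of the `T`-units
  have hSf : ∀ x ∈ sUnits K L T, unitsAug K L σ x ∈ sUnits K L T := by
    intro x hx
    rw [unitsAug_apply]
    exact (sUnits K L T).sub_mem (hS K L T σ x hx) hx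
  have hSg : ∀ x ∈ sUnits K L T, unitsNorm K L x ∈ sUnits K L T := by
    intro x hx
    rw [unitsNorm_apply]
    exact (sUnits K L T).sum_mem (fun τ _ => hS K L T τ x hx)
  -- equivariance of `ψ`
  have hψf : ∀ b, ψ (unitsAug K L σ b) = permAug (L ≃ₐ[K] L) ↥(primesAbove K L T) σ (ψ b) := by
    intro b
    rw [unitsAug_apply, permAug_apply, map_sub, hψ]
  have hψg : ∀ b, ψ (unitsNorm K L b) = permNorm (L ≃ₐ[K] L) ↥(primesAbove K L T) (ψ b) := by
    intro b
    rw [unitsNorm_apply, permNorm_apply, map_sum]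
    simp only [hψ]
  -- the six factors
  obtain ⟨Ef, Eg, w, y, w', y', e1, e2, e3, e4, e5, e6⟩ :=
    hIndexSub_six (unitsAug K L σ) (unitsNorm K L)
      (permAug (L ≃ₐ[K] L) ↥(primesAbove K L T) σ) (permNorm (L ≃ₐ[K] L) ↥(primesAbove K L T))
      ψ hψf hψg (sUnits K L T) hSf hSg
      (fun b _ => unitsAug_unitsNorm K L σ b) (fun b _ => unitsNorm_unitsAug K L σ b)
  rw [hker] at e1 e4
  -- the image has finite index in the permutation lattice
  obtain ⟨f1, f2⟩ := hIndexSub_of_finite_index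
    (permAug (L ≃ₐ[K] L) ↥(primesAbove K L T) σ) (permNorm (L ≃ₐ[K] L) ↥(primesAbove K L T))
    ((sUnits K L T).map ψ) ⊤ le_top (by rwa [AddSubgroup.relIndex_top_right])
    (by
      rintro _ ⟨x, hx, rfl⟩
      exact ⟨_, hSf x hx, hψf x⟩)
    (by
      rintro _ ⟨x, hx, rfl⟩
      exact ⟨_, hSg x hx, hψg x⟩)
    (fun _ _ => AddSubgroup.mem_top _) (fun _ _ => AddSubgroup.mem_top _)
    (fun b _ => permAug_permNorm _ _ σ b) (fun b _ => permNorm_permAug _ _ σ b)
  rw [hIndexSub_top, hIndexSub_top, p1, p2, hstab] at f1 f2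
  have hD : finDegProd K L T ≠ 0 := by
    rw [← hstab]
    exact stabProd_ne_zero _ _
  obtain ⟨g1, g2⟩ := f1.2 ⟨hD, one_ne_zero⟩
  rw [mul_one] at f2
  rw [e3] at g1 f2
  rw [e6] at g2 f2
  rw [e1] at u1 u3
  rw [e4] at u2 u3
  rw [e2, e5]
  have hEg : Eg ≠ 0 := left_ne_zero_of_mul u1
  have hw : w ≠ 0 := right_ne_zero_of_mul u1
  have hEf : Ef ≠ 0 := left_ne_zero_of_mul u2
  have hw' : w' ≠ 0 := right_ne_zero_of_mul u2
  have hy : y ≠ 0 := right_ne_zero_of_mul g1
  have hy' : y' ≠ 0 := right_ne_zero_of_mul g2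
  refine ⟨Nat.mul_ne_zero hw hy, Nat.mul_ne_zero hw' hy', ?_⟩
  have hne : Eg * Ef ≠ 0 := Nat.mul_ne_zero hEg hEf
  apply Nat.eq_of_mul_eq_mul_right (Nat.pos_of_ne_zero hne)
  calc w * y * Module.finrank K L * (Eg * Ef)
      = (Eg * w * Module.finrank K L) * (Ef * y) := by ring
    _ = (Ef * w' * infDegProd K L) * (Eg * y' * finDegProd K L T) := by rw [u3, f2]
    _ = w' * y' * (infDegProd K L * finDegProd K L T) * (Eg * Ef) := by ring

end Fermat.Agent.S55.G

end
-- ===== PACK-END S55/G/SUnitsAssembly.lean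

-- ===== PACK-BEGIN S55/G/StabH707.lean
section




/-!
# S55 / layer G / block G-U, leaf GU-STAB (helper707, spare)

`sUnitsStable : SUnitsStableSpec` : the `T`-units are stable under `Gal(L/K)`;
immediate from `OrdH707.valuation_smulH`.
-/

set_option autoImplicit false

namespace Fermat.Agent.S55.G.StabH707

open Fermat.Agent.S55.G.OrdH707 NumberField IsDedekindDomain

universe u v

/-- **GU-STAB**: the `T`-units are Galois stable. -/
theorem sUnitsStable : SUnitsStableSpec.{u, v} := by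
  intro K L _ _ _ _ _ _ T τ x hx
  rw [mem_sUnits_iff] at hx ⊢
  intro w hw
  have h1 := valuation_smulH K L τ (smulH K L τ⁻¹ w) ((Additive.toMul x : Lˣ) : L)
  rw [← smulH_mul, mul_inv_cancel, smulH_one] at h1
  have h2 : smulH K L τ⁻¹ w ∉ primesAbove K L T := by
    intro h
    apply hw
    have := smulH_mem K L T τ h
    rwa [← smulH_mul, mul_inv_cancel, smulH_one] at this
  have h3 := hx _ h2
  rw [← h1] at h3
  exact h3

end Fermat.Agent.S55.G.StabH707

end
-- ===== PACK-END S55/G/StabH707.lean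

-- ===== PACK-BEGIN S55/H963/BrDiv.lean
section


/-!
# S55 / G-SI bridge (helper963): the divisor prime to `S` of an ideal

`divS S K I ∈ Div^S(K) = ℤ[primes of K not above S]` for an ideal `I` of `𝓞 K`;
multiplicative, `divS (x) = div x` (helper421's `ordHom`), `divS 𝔭 = [𝔭]`.
-/

set_option autoImplicit false
set_option linter.style.haveILetI false
set_option linter.unusedSectionVars false
set_option linter.unusedVariables false

open scoped NumberField TensorProduct nonZeroDivisors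

open IsDedekindDomain

noncomputable section

namespace Fermat.Agent.S55.H963.Br

open Fermat.Agent.S55.G

variable (S : Finset Nat.Primes) (K : Type) [Field K] [NumberField K]

/-- The divisor prime to `S` of an ideal of `𝓞 K` (junk value `0` at `I = ⊥`). -/
def divS (I : Ideal (𝓞 K)) : PrimeOut S K →₀ ℤ :=
  Finsupp.ofSupportFinite
    (fun v : PrimeOut S K => FractionalIdeal.count K v.1 (I : FractionalIdeal (𝓞 K)⁰ K))
    ((FractionalIdeal.finite_factors (I : FractionalIdeal (𝓞 K)⁰ K)).preimage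
      Subtype.val_injective.injOn)

theorem divS_apply (I : Ideal (𝓞 K)) (v : PrimeOut S K) :
    divS S K I v = FractionalIdeal.count K v.1 (I : FractionalIdeal (𝓞 K)⁰ K) := rfl

theorem divS_mul {I J : Ideal (𝓞 K)} (hI : I ≠ ⊥) (hJ : J ≠ ⊥) :
    divS S K (I * J) = divS S K I + divS S K J := by
  ext v
  rw [Finsupp.add_apply, divS_apply, divS_apply, divS_apply, FractionalIdeal.coeIdeal_mul]
  exact FractionalIdeal.count_mul K v.1 (FractionalIdeal.coeIdeal_ne_zero.mpr hI)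
    (FractionalIdeal.coeIdeal_ne_zero.mpr hJ)

theorem divS_top : divS S K ⊤ = 0 := by
  ext v
  rw [divS_apply, FractionalIdeal.coeIdeal_top, FractionalIdeal.count_one]
  rfl

theorem divS_prime (v : PrimeOut S K) : divS S K v.1.asIdeal = Finsupp.single v 1 := by
  classical
  ext w
  rw [divS_apply, Finsupp.single_apply]
  by_cases h : v = w
  · rw [if_pos h, ← h, FractionalIdeal.count_self]
  · rw [if_neg h]
    exact FractionalIdeal.count_maximal_coprime K w.1 fun h' => h (Subtype.ext h')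

theorem divS_span (x : 𝓞 K) (hx : (x : K) ≠ 0) :
    divS S K (Ideal.span {x}) = ordHom S K (Additive.ofMul (Units.mk0 (x : K) hx)) := by
  ext v
  have hx0 : x ≠ 0 := fun h => hx (by rw [h]; simp)
  have hI : (Ideal.span {x} : Ideal (𝓞 K)) ≠ 0 := by
    rw [Ne, Submodule.zero_eq_bot, Ideal.span_singleton_eq_bot]
    exact hx0
  rw [divS_apply, ordHom_apply, ordAt_apply, FractionalIdeal.count_coe K v.1 hI]
  have h1 : v.1.valuation K ((Additive.toMul (Additive.ofMul (Units.mk0 (x : K) hx)) : Kˣ) : K)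
      = v.1.intValuation x := by
    rw [toMul_ofMul, Units.val_mk0]
    exact HeightOneSpectrum.valuation_of_algebraMap v.1 x
  rw [h1, HeightOneSpectrum.intValuation_if_neg v.1 hx0, WithZero.log_exp, neg_neg]

end Fermat.Agent.S55.H963.Br

end
end
-- ===== PACK-END S55/H963/BrDiv.lean

-- ===== PACK-BEGIN S55/H963/RayZeta.lean
section


/-!
# S55 / leaf RAY-N1 (helper963): partial zeta functions of ray classes

`D.zeta a s = ∑ N(I)^(-s)` over the nonzero ideals `I` coprime to the modulus with `ψ I = a`.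
Main results (for an abstract smoothing kernel `κ`):

* `exists_zetaDvd_bound` : `N(𝔠) * ∑_{I ∈ class a, I ≤ 𝔠} N(I)^(-s) = ζ(s, a) + O(1)`;
* `exists_zeta_le_total` : `ζ(s, a) ≤ c * Φ(s)`;
* `zeta_eq_zetaDvd`      : `ζ(s, a) = N(𝔠)^s * ∑_{I ∈ class a ψ(𝔠), I ≤ 𝔠} N(I)^(-s)`.
-/

set_option autoImplicit false

namespace Fermat.Agent.S55.H963

open NumberField

variable {K : Type*} [Field K] [NumberField K] {A : Type*} [CommGroup A]

namespace RayDatum

variable (D : RayDatum K A) (κ : UnitKernel K)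

/-- Nonzero ideals coprime to the modulus, of class `a`, contained in `𝔠`. -/
def clsDvd (𝔠 : Ideal (𝓞 K)) (a : A) : Set (Ideal (𝓞 K)) :=
  {I | I ≠ ⊥ ∧ IsCoprime I D.m ∧ D.ψ I = a ∧ I ≤ 𝔠}

/-- Nonzero ideals coprime to the modulus, of class `a`. -/
def cls (a : A) : Set (Ideal (𝓞 K)) :=
  {I | I ≠ ⊥ ∧ IsCoprime I D.m ∧ D.ψ I = a}

/-- The part of `clsDvd 𝔠 a` lying in the ideal class `C`. -/
def clsDvdAt (𝔠 : Ideal (𝓞 K)) (a : A) (C : ClassGroup (𝓞 K)) : Set (Ideal (𝓞 K)) :=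
  {I | I ∈ D.clsDvd 𝔠 a ∧ cl I = C}

/-- The partial zeta function of the class `a`. -/
noncomputable def zeta (a : A) (s : ℝ) : ℝ :=
  ∑' I : D.cls a, (Ideal.absNorm (I : Ideal (𝓞 K)) : ℝ) ^ (-s)

/-- The partial zeta function of the ideals of class `a` divisible by `𝔠`. -/
noncomputable def zetaDvd (𝔠 : Ideal (𝓞 K)) (a : A) (s : ℝ) : ℝ :=
  ∑' I : D.clsDvd 𝔠 a, (Ideal.absNorm (I : Ideal (𝓞 K)) : ℝ) ^ (-s)

/-- The part of `zetaDvd` in the ideal class `C`. -/
noncomputable def zetaDvdAt (𝔠 : Ideal (𝓞 K)) (a : A) (C : ClassGroup (𝓞 K)) (s : ℝ) : ℝ :=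
  ∑' I : D.clsDvdAt 𝔠 a C, (Ideal.absNorm (I : Ideal (𝓞 K)) : ℝ) ^ (-s)

theorem clsDvd_top (a : A) : D.clsDvd ⊤ a = D.cls a := by
  ext I
  simp [clsDvd, cls]

theorem zetaDvd_top (a : A) (s : ℝ) : D.zetaDvd ⊤ a s = D.zeta a s := by
  unfold zetaDvd zeta
  rw [D.clsDvd_top a]

section PerClass

variable {𝔟 𝔠 : Ideal (𝓞 K)} {C : ClassGroup (𝓞 K)}

theorem mul_mem_prinSet_below (h𝔟 : 𝔟 ≠ ⊥) (h𝔟m : IsCoprime 𝔟 D.m) (h𝔟C : cl 𝔟 = C⁻¹)
    (a : A) {I : Ideal (𝓞 K)} (hI : I ∈ D.clsDvdAt 𝔠 a C) :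
    I * 𝔟 ∈ prinSet (D.below (𝔠 * 𝔟) (a * D.ψ 𝔟)) := by
  obtain ⟨⟨hI0, hIm, hIψ, hI𝔠⟩, hIC⟩ := hI
  refine ⟨mul_ne_zero hI0 h𝔟, ?_, Ideal.mul_mono hI𝔠 le_rfl, hIm.mul_left h𝔟m, ?_⟩
  · rw [← cl_eq_one_iff (mul_ne_zero hI0 h𝔟), cl_mul hI0 h𝔟, hIC, h𝔟C, mul_inv_cancel]
  · rw [D.map_mul _ _ hIm h𝔟m, hIψ]

theorem exists_mul_eq_of_mem_prinSet_below (h𝔟 : 𝔟 ≠ ⊥) (h𝔟m : IsCoprime 𝔟 D.m)
    (h𝔟C : cl 𝔟 = C⁻¹) (a : A) {J : Ideal (𝓞 K)}
    (hJ : J ∈ prinSet (D.below (𝔠 * 𝔟) (a * D.ψ 𝔟))) :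
    ∃ I ∈ D.clsDvdAt 𝔠 a C, I * 𝔟 = J := by
  obtain ⟨hJ0, hJp, hJle, hJm, hJψ⟩ := hJ
  obtain ⟨I', hI'⟩ := Ideal.dvd_iff_le.mpr hJle
  have hJeq : (𝔠 * I') * 𝔟 = J := by rw [hI']; ring
  have hI0 : 𝔠 * I' ≠ ⊥ := by
    intro h
    rw [h] at hJeq
    exact hJ0 (by rw [← hJeq]; simp)
  have hIm : IsCoprime (𝔠 * I') D.m := by
    rw [← hJeq] at hJm
    exact hJm.of_mul_left_left
  refine ⟨𝔠 * I', ⟨⟨hI0, hIm, ?_, Ideal.mul_le_left⟩, ?_⟩, hJeq⟩
  · have h1 : D.ψ (𝔠 * I') * D.ψ 𝔟 = a * D.ψ 𝔟 := by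
      rw [← D.map_mul _ _ hIm h𝔟m, hJeq, hJψ]
    exact mul_right_cancel h1
  · have h1 : cl ((𝔠 * I') * 𝔟) = 1 := by
      rw [hJeq]
      exact (cl_eq_one_iff hJ0).mpr hJp
    rw [cl_mul hI0 h𝔟, h𝔟C] at h1
    exact mul_inv_eq_one.mp h1

/-- The partial zeta sum of an ideal class as a smoothed sum over elements. -/
theorem zetaDvdAt_eq (h𝔟 : 𝔟 ≠ ⊥) (h𝔟m : IsCoprime 𝔟 D.m) (h𝔟C : cl 𝔟 = C⁻¹)
    (𝔠 : Ideal (𝓞 K)) (a : A) {s : ℝ} (hs : 1 < s) :
    D.zetaDvdAt 𝔠 a C s = (Ideal.absNorm 𝔟 : ℝ) ^ s * (κ.w⁻¹ *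
      ∑' x : genSet (D.below (𝔠 * 𝔟) (a * D.ψ 𝔟)), κ.F s x) := by
  unfold zetaDvdAt
  rw [tsum_mul_ideal 𝔟 h𝔟 (D.clsDvdAt 𝔠 a C) (prinSet (D.below (𝔠 * 𝔟) (a * D.ψ 𝔟)))
    (fun I hI => D.mul_mem_prinSet_below h𝔟 h𝔟m h𝔟C a hI)
    (fun J hJ => D.exists_mul_eq_of_mem_prinSet_below h𝔟 h𝔟m h𝔟C a hJ) s,
    ← tsum_prinSet κ _ hs, ← mul_assoc κ.w⁻¹, inv_mul_cancel₀ κ.w_pos.ne', one_mul]

include κ in
theorem summable_clsDvdAt (h𝔟 : 𝔟 ≠ ⊥) (h𝔟m : IsCoprime 𝔟 D.m) (h𝔟C : cl 𝔟 = C⁻¹)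
    (𝔠 : Ideal (𝓞 K)) (a : A) {s : ℝ} (hs : 1 < s) :
    Summable fun I : D.clsDvdAt 𝔠 a C => (Ideal.absNorm (I : Ideal (𝓞 K)) : ℝ) ^ (-s) :=
  summable_of_mul_ideal 𝔟 h𝔟 (D.clsDvdAt 𝔠 a C) (prinSet (D.below (𝔠 * 𝔟) (a * D.ψ 𝔟)))
    (fun I hI => D.mul_mem_prinSet_below h𝔟 h𝔟m h𝔟C a hI) s (summable_prinSet κ _ hs)

end PerClass

include κ in
/-- Each class part is summable. -/
theorem summable_clsDvdAt' (𝔠 : Ideal (𝓞 K)) (a : A) (C : ClassGroup (𝓞 K)) {s : ℝ}
    (hs : 1 < s) :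
    Summable fun I : D.clsDvdAt 𝔠 a C => (Ideal.absNorm (I : Ideal (𝓞 K)) : ℝ) ^ (-s) := by
  obtain ⟨𝔟, h𝔟, h𝔟m, h𝔟C⟩ := exists_coprime_rep D.m D.m_ne_bot C⁻¹
  exact D.summable_clsDvdAt κ h𝔟 h𝔟m h𝔟C 𝔠 a hs

include κ in
/-- **Partition into ideal classes.** -/
theorem zetaDvd_eq_sum (𝔠 : Ideal (𝓞 K)) (a : A) {s : ℝ} (hs : 1 < s) :
    D.zetaDvd 𝔠 a s = ∑ C : ClassGroup (𝓞 K), D.zetaDvdAt 𝔠 a C s := by
  classical
  unfold zetaDvd zetaDvdAt
  set f : Ideal (𝓞 K) → ℝ := fun I => (Ideal.absNorm I : ℝ) ^ (-s) with hf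
  have h1 : ∀ C : ClassGroup (𝓞 K), Summable ((D.clsDvdAt 𝔠 a C).indicator f) := fun C =>
    summable_subtype_iff_indicator.mp (D.summable_clsDvdAt' κ 𝔠 a C hs)
  have h2 : (D.clsDvd 𝔠 a).indicator f =
      fun I => ∑ C : ClassGroup (𝓞 K), (D.clsDvdAt 𝔠 a C).indicator f I := by
    funext I
    by_cases hI : I ∈ D.clsDvd 𝔠 a
    · rw [Set.indicator_of_mem hI, Finset.sum_eq_single (cl I)]
      · rw [Set.indicator_of_mem]
        exact ⟨hI, rfl⟩
      · intro C _ hC
        rw [Set.indicator_of_notMem]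
        rintro ⟨-, h⟩
        exact hC h.symm
      · intro h
        exact absurd (Finset.mem_univ _) h
    · rw [Set.indicator_of_notMem hI]
      symm
      apply Finset.sum_eq_zero
      intro C _
      rw [Set.indicator_of_notMem]
      rintro ⟨h, -⟩
      exact hI h
  rw [tsum_subtype (D.clsDvd 𝔠 a) f, h2, Summable.tsum_finsetSum (fun C _ => h1 C)]
  refine Finset.sum_congr rfl fun C _ => ?_
  rw [tsum_subtype (D.clsDvdAt 𝔠 a C) f]

include κ in
theorem summable_clsDvd (𝔠 : Ideal (𝓞 K)) (a : A) {s : ℝ} (hs : 1 < s) :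
    Summable fun I : D.clsDvd 𝔠 a => (Ideal.absNorm (I : Ideal (𝓞 K)) : ℝ) ^ (-s) := by
  classical
  set f : Ideal (𝓞 K) → ℝ := fun I => (Ideal.absNorm I : ℝ) ^ (-s) with hf
  have h1 : ∀ C : ClassGroup (𝓞 K), Summable ((D.clsDvdAt 𝔠 a C).indicator f) := fun C =>
    summable_subtype_iff_indicator.mp (D.summable_clsDvdAt' κ 𝔠 a C hs)
  have h2 : (D.clsDvd 𝔠 a).indicator f =
      fun I => ∑ C : ClassGroup (𝓞 K), (D.clsDvdAt 𝔠 a C).indicator f I := by
    funext I
    by_cases hI : I ∈ D.clsDvd 𝔠 a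
    · rw [Set.indicator_of_mem hI, Finset.sum_eq_single (cl I)]
      · rw [Set.indicator_of_mem]
        exact ⟨hI, rfl⟩
      · intro C _ hC
        rw [Set.indicator_of_notMem]
        rintro ⟨-, h⟩
        exact hC h.symm
      · intro h
        exact absurd (Finset.mem_univ _) h
    · rw [Set.indicator_of_notMem hI]
      symm
      apply Finset.sum_eq_zero
      intro C _
      rw [Set.indicator_of_notMem]
      rintro ⟨h, -⟩
      exact hI h
  have h3 : Summable ((D.clsDvd 𝔠 a).indicator f) := by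
    rw [h2]
    exact summable_sum fun C _ => h1 C
  exact summable_subtype_iff_indicator.mpr h3

end RayDatum

end Fermat.Agent.S55.H963

end
-- ===== PACK-END S55/H963/RayZeta.lean

-- ===== PACK-BEGIN S55/G/H357/Lower.lean
section



/-!
# S55, layer G (helper357): lower bound for the mass of the primes below degree one primes

`L / K` an extension of number fields of degree `n`.  The primes `v` of `K` (outside a finite
set) lying under a prime `w` of `L` of degree one over `ℚ` satisfy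
`ζ_L(s) ≤ C (∏_{v ∈ T} (1 + N v^{-s}))^n` for suitable finite sets `T` of such primes.
-/

set_option autoImplicit false
set_option linter.unusedSectionVars false
set_option linter.deprecated false

namespace Fermat.Agent.S55.G.H357

open NumberField IsDedekindDomain Filter Topology
open scoped nonZeroDivisors
open Fermat.Agent.S14

variable (K L : Type*) [Field K] [NumberField K] [Field L] [NumberField L] [Algebra K L]

/-- The prime of `K` under a prime of `L`. -/
noncomputable def und (w : HeightOneSpectrum (𝓞 L)) : HeightOneSpectrum (𝓞 K) :=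
  HeightOneSpectrum.under (𝓞 K) w

theorem und_asIdeal (w : HeightOneSpectrum (𝓞 L)) :
    (und K L w).asIdeal = w.asIdeal.under (𝓞 K) := rfl

instance und_liesOver (w : HeightOneSpectrum (𝓞 L)) :
    w.asIdeal.LiesOver (und K L w).asIdeal := ⟨rfl⟩

theorem asIdeal_mem_primesOverFinset (w : HeightOneSpectrum (𝓞 L)) :
    w.asIdeal ∈ IsDedekindDomain.primesOverFinset (und K L w).asIdeal (𝓞 L) := by
  have := (und K L w).isMaximal
  rw [IsDedekindDomain.mem_primesOverFinset_iff (und K L w).ne_bot]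
  exact ⟨w.isPrime, und_liesOver K L w⟩

theorem noZeroSMulDivisors_ringOfIntegers : NoZeroSMulDivisors (𝓞 K) (𝓞 L) := by
  refine ⟨fun {c x} h => ?_⟩
  rw [Algebra.smul_def, mul_eq_zero] at h
  rcases h with h | h
  · left
    exact (FaithfulSMul.algebraMap_eq_zero_iff (𝓞 K) (𝓞 L)).mp h
  · right
    exact h

/-- At most `[L : K]` primes of `L` lie over a given prime of `K`. -/
theorem card_fiber_le (v : HeightOneSpectrum (𝓞 K)) (T : Finset (HeightOneSpectrum (𝓞 L)))
    [DecidableEq (HeightOneSpectrum (𝓞 K))] :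
    (T.filter (fun w => und K L w = v)).card ≤ Module.finrank K L := by
  classical
  have := v.isMaximal
  have : NoZeroSMulDivisors (𝓞 K) (𝓞 L) := noZeroSMulDivisors_ringOfIntegers K L
  refine le_trans ?_ (Ideal.card_primesOverFinset_le_finrank (𝓞 L) K L v.ne_bot)
  refine Finset.card_le_card_of_injOn (fun w => w.asIdeal) ?_ ?_
  · intro w hw
    rw [Finset.mem_coe, Finset.mem_filter] at hw
    have := asIdeal_mem_primesOverFinset K L w
    rw [hw.2] at this
    exact this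
  · intro w₁ _ w₂ _ h
    exact HeightOneSpectrum.ext h

/-- The primes of `L` over a given prime of `K` form a finite set. -/
theorem finite_fiber (v : HeightOneSpectrum (𝓞 K)) :
    {w : HeightOneSpectrum (𝓞 L) | und K L w = v}.Finite := by
  classical
  have := v.isMaximal
  refine Set.Finite.of_injOn (f := fun w : HeightOneSpectrum (𝓞 L) => w.asIdeal)
    (t := (IsDedekindDomain.primesOverFinset v.asIdeal (𝓞 L) : Set (Ideal (𝓞 L)))) ?_ ?_ (Finset.finite_toSet _)
  · intro w hw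
    have := asIdeal_mem_primesOverFinset K L w
    rw [Set.mem_setOf_eq.mp hw] at this
    exact this
  · intro w₁ _ w₂ _ h
    exact HeightOneSpectrum.ext h

/-- A prime of `L` with prime absolute norm has the same norm as the prime of `K` under it. -/
theorem absNorm_und_of_prime (w : HeightOneSpectrum (𝓞 L))
    (hw : (Ideal.absNorm w.asIdeal).Prime) :
    Ideal.absNorm (und K L w).asIdeal = Ideal.absNorm w.asIdeal := by
  have h := Ideal.absNorm_eq_pow_inertiaDeg'_of_liesOver w.asIdeal (und K L w).asIdeal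
    (und K L w).isPrime (und K L w).ne_bot
  exact ((Nat.Prime.pow_eq_iff hw).mp h.symm).1

/-- **Lower bound**: the primes of `K` under the degree one primes of `L` carry the mass of
`ζ_L`, with multiplicity at most `[L : K]`. -/
theorem lower_mass (Bad : Set (HeightOneSpectrum (𝓞 K))) (hBad : Bad.Finite) :
    ∃ C : ℝ, 0 < C ∧ ∀ s : ℝ, 1 < s → s ≤ 2 → ∃ T : Finset (HeightOneSpectrum (𝓞 K)),
      (∀ v ∈ T, v ∉ Bad ∧ ∃ w : HeightOneSpectrum (𝓞 L),
        (Ideal.absNorm w.asIdeal).Prime ∧ und K L w = v) ∧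
      H163.zetaR L s ≤
        C * (∏ v ∈ T, (1 + H163.normPow s (H163.toI0 v))) ^ Module.finrank K L := by
  classical
  -- the bad primes of `L`
  have hBadL : {w : HeightOneSpectrum (𝓞 L) | und K L w ∈ Bad}.Finite := by
    have : {w : HeightOneSpectrum (𝓞 L) | und K L w ∈ Bad} =
        ⋃ v ∈ Bad, {w : HeightOneSpectrum (𝓞 L) | und K L w = v} := by
      ext w
      simp
    rw [this]
    exact hBad.biUnion fun v _ => finite_fiber K L v
  obtain ⟨C, hC, hmass⟩ := H163.goodMass L hBadL.toFinset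
  refine ⟨C, hC, fun s hs1 hs2 => ?_⟩
  obtain ⟨TL, hTL, hle⟩ := hmass s hs1 hs2
  rw [H163.zetaI_eq_zetaR] at hle
  refine ⟨TL.image (und K L), ?_, ?_⟩
  · intro v hv
    obtain ⟨w, hw, rfl⟩ := Finset.mem_image.mp hv
    refine ⟨?_, w, (hTL w hw).1, rfl⟩
    have := (hTL w hw).2
    rw [Set.Finite.mem_toFinset, Set.mem_setOf_eq] at this
    exact this
  · refine hle.trans (mul_le_mul_of_nonneg_left ?_ hC.le)
    rw [← Finset.prod_fiberwise_of_maps_to (g := und K L) (t := TL.image (und K L))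
      (fun w hw => Finset.mem_image_of_mem _ hw), ← Finset.prod_pow]
    refine Finset.prod_le_prod ?_ ?_
    · intro v _
      refine Finset.prod_nonneg fun w _ => ?_
      have := H163.normPow_pos s (H163.toI0 w)
      rw [H163.pN_eq]
      linarith
    · intro v _
      have hx : (1 : ℝ) ≤ 1 + H163.normPow s (H163.toI0 v) := by
        have := H163.normPow_pos s (H163.toI0 v)
        linarith
      calc ∏ w ∈ TL with und K L w = v, (1 + H34.pN s w)
          = ∏ _w ∈ TL.filter (fun w => und K L w = v),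
              (1 + H163.normPow s (H163.toI0 v)) := by
            refine Finset.prod_congr rfl fun w hw => ?_
            rw [Finset.mem_filter] at hw
            rw [H34.pN_def, H163.normPow_apply]
            congr 2
            have := absNorm_und_of_prime K L w (hTL w hw.1).1
            rw [hw.2] at this
            exact_mod_cast this.symm
        _ = (1 + H163.normPow s (H163.toI0 v)) ^ (TL.filter (fun w => und K L w = v)).card :=
            Finset.prod_const _
        _ ≤ (1 + H163.normPow s (H163.toI0 v)) ^ Module.finrank K L :=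
            pow_le_pow_right₀ hx (card_fiber_le K L v TL)

end Fermat.Agent.S55.G.H357

end
-- ===== PACK-END S55/G/H357/Lower.lean

-- ===== PACK-BEGIN S55/G/Rec/Glob/Cochain.lean
section



/-!
# S55 / layer G / block REC / GLOBAL finite-level dictionary, part 2 (helper64): cochains

`U ≤ G_ℚ` open, `K = fixedFld U`, `E` a finite Galois level (`IntermediateField K ℚ̄`),
`Γ = Gal(E/K)`.  Finite-level cochains are MULTIPLICATIVE (`Γ → Eˣ`, `Γ × Γ → Eˣ`, Mathlib's
`IsMulCocycle₂`, `IsMulCoboundary₂`); absolute cochains are the Prelude's (`↥U → gModOn U`, …).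

* `unitsIncl U E : Eˣ →* ℚ̄ˣ`, `infl₁ U E b`, `infl₂ U E f` : inflation to `U`;
* `isLevelConstant₁_infl₁`, `isLevelConstant₂_infl₂` : inflations are level-constant;
* `d₁₂_infl₁` : inflation commutes with the differential;
* `infl₂_mem_cocycles₂_iff` : `infl₂ f` is a cocycle iff `f` is;
* `infl₂_eq_d₁₂_infl₁_iff` : `infl₂ f = d (infl₁ b)` iff `f = d b`;
* `finite_range_of_isLevelConstant₁/₂` : level-constant cochains on an open subgroup have
  finitely many values;
* `exists_eq_infl₁`, `exists_eq_infl₂` : descent of a cochain which is constant modulo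
  `ker (resHom U E)` with values in `E`;
* `exists_level_eq_infl₂` : every level-constant 2-cochain on `U` is inflated from some finite
  Galois level, which can be chosen to contain any given number field and finite set.
-/

set_option autoImplicit false
set_option linter.style.haveILetI false

noncomputable section

namespace Fermat.Agent.S55.G.Rec.Glob

open groupCohomology IntermediateField

local notation "Qb" => AlgebraicClosure ℚ
local notation "GQ" => (AlgebraicClosure ℚ ≃ₐ[ℚ] AlgebraicClosure ℚ)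

section Defs

variable (U : Subgroup GQ) (E : IntermediateField (fixedFld U) Qb)

/-- The inclusion `Eˣ → ℚ̄ˣ`. -/
def unitsIncl : (↥E)ˣ →* Qbˣ := Units.map (algebraMap E Qb : E →* Qb)

@[simp] lemma unitsIncl_coe (y : (↥E)ˣ) : ((unitsIncl U E y : Qbˣ) : Qb) = ((y : E) : Qb) := rfl

lemma unitsIncl_injective : Function.Injective (unitsIncl U E) := by
  intro a b h
  apply Units.ext
  apply Subtype.ext
  have := congrArg (fun u : Qbˣ => (u : Qb)) h
  simpa using this

/-- An element of `ℚ̄ˣ` lying in `E` comes from `Eˣ`. -/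
lemma exists_unitsIncl_eq {a : Qbˣ} (ha : (a : Qb) ∈ E) : ∃ y : (↥E)ˣ, unitsIncl U E y = a := by
  have hne : (⟨(a : Qb), ha⟩ : E) ≠ 0 := by
    intro h0
    have := congrArg Subtype.val h0
    simp at this
  exact ⟨Units.mk0 _ hne, Units.ext rfl⟩

variable [Normal (fixedFld U) E]

lemma unitsIncl_smul (u : ↥U) (y : (↥E)ˣ) :
    unitsIncl U E (resHom U E u • y) = (u : GQ) • unitsIncl U E y := by
  apply Units.ext
  exact resHom_apply_coe U E u (y : E)

/-- Inflation of finite-level 1-cochains to `U`. -/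
def infl₁ (b : (E ≃ₐ[fixedFld U] E) → (↥E)ˣ) : ↥U → gModOn U :=
  fun g => Additive.ofMul (unitsIncl U E (b (resHom U E g)))

/-- Inflation of finite-level 2-cochains to `U`. -/
def infl₂ (f : (E ≃ₐ[fixedFld U] E) × (E ≃ₐ[fixedFld U] E) → (↥E)ˣ) : ↥U × ↥U → gModOn U :=
  fun p => Additive.ofMul (unitsIncl U E (f (resHom U E p.1, resHom U E p.2)))

lemma infl₁_apply (b : (E ≃ₐ[fixedFld U] E) → (↥E)ˣ) (g : ↥U) :
    infl₁ U E b g = Additive.ofMul (unitsIncl U E (b (resHom U E g))) := rfl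

lemma infl₂_apply (f : (E ≃ₐ[fixedFld U] E) × (E ≃ₐ[fixedFld U] E) → (↥E)ˣ) (g h : ↥U) :
    infl₂ U E f (g, h) = Additive.ofMul (unitsIncl U E (f (resHom U E g, resHom U E h))) := rfl

/-- The action of `U` on `gModOn U`, explicitly. -/
lemma gModOn_ρ_apply (u : ↥U) (m : gModOn U) :
    (gModOn U).ρ u m = Additive.ofMul ((u : GQ) • (Additive.toMul m : Qbˣ)) := rfl

/-- Inflation commutes with the differential. -/
lemma d₁₂_infl₁ (b : (E ≃ₐ[fixedFld U] E) → (↥E)ˣ) :
    (d₁₂ (gModOn U)).hom (infl₁ U E b) =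
      infl₂ U E (fun p => p.1 • b p.2 / b (p.1 * p.2) * b p.1) := by
  funext ⟨g, h⟩
  rw [d₁₂_hom_apply, infl₂_apply, gModOn_ρ_apply]
  simp only [infl₁_apply, map_mul, map_div, unitsIncl_smul, toMul_ofMul]
  rfl

end Defs

section Level

variable {U : Subgroup GQ} (hU : IsOpenQ U) (E : IntermediateField (fixedFld U) Qb)
  [FiniteDimensional (fixedFld U) E] [Normal (fixedFld U) E]

include hU

theorem isLevelConstant₁_infl₁ (b : (E ≃ₐ[fixedFld U] E) → (↥E)ˣ) :
    IsLevelConstant₁ U.subtype (infl₁ U E b) := by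
  refine ⟨levelFld U E, finiteDimensional_levelFld hU E, fun g s hs => ?_⟩
  have h1 : resHom U E s = 1 := resHom_eq_one_of_mem_fixingSubgroup U E s hs
  rw [infl₁_apply, infl₁_apply, map_mul, h1, mul_one]

theorem isLevelConstant₂_infl₂
    (f : (E ≃ₐ[fixedFld U] E) × (E ≃ₐ[fixedFld U] E) → (↥E)ˣ) :
    IsLevelConstant₂ U.subtype (infl₂ U E f) := by
  refine ⟨levelFld U E, finiteDimensional_levelFld hU E, fun g g' s s' hs hs' => ?_⟩
  have h1 : resHom U E s = 1 := resHom_eq_one_of_mem_fixingSubgroup U E s hs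
  have h2 : resHom U E s' = 1 := resHom_eq_one_of_mem_fixingSubgroup U E s' hs'
  rw [infl₂_apply, infl₂_apply, map_mul, map_mul, h1, h2, mul_one, mul_one]

omit [FiniteDimensional (fixedFld U) E] in
/-- `infl₂ f` is a cocycle iff `f` is a (multiplicative) cocycle. -/
theorem infl₂_mem_cocycles₂_iff
    (f : (E ≃ₐ[fixedFld U] E) × (E ≃ₐ[fixedFld U] E) → (↥E)ˣ) :
    infl₂ U E f ∈ cocycles₂ (gModOn U) ↔ IsMulCocycle₂ f := by
  rw [mem_cocycles₂_iff]
  constructor
  · intro h γ δ ε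
    obtain ⟨g, rfl⟩ := resHom_surjective hU E γ
    obtain ⟨k, rfl⟩ := resHom_surjective hU E δ
    obtain ⟨j, rfl⟩ := resHom_surjective hU E ε
    apply unitsIncl_injective U E
    have := congrArg Additive.toMul (h g k j)
    simp only [infl₂_apply, gModOn_ρ_apply, map_mul, toMul_ofMul] at this
    rw [map_mul, map_mul, unitsIncl_smul]
    exact this
  · intro h g k j
    have := congrArg (fun y => Additive.ofMul (unitsIncl U E y))
      (h (resHom U E g) (resHom U E k) (resHom U E j))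
    simp only [map_mul, unitsIncl_smul] at this
    simp only [infl₂_apply, gModOn_ρ_apply, map_mul, toMul_ofMul]
    exact this

omit [FiniteDimensional (fixedFld U) E] in
/-- `infl₂ f = d (infl₁ b)` iff `f = d b`. -/
theorem infl₂_eq_d₁₂_infl₁_iff
    (f : (E ≃ₐ[fixedFld U] E) × (E ≃ₐ[fixedFld U] E) → (↥E)ˣ)
    (b : (E ≃ₐ[fixedFld U] E) → (↥E)ˣ) :
    infl₂ U E f = (d₁₂ (gModOn U)).hom (infl₁ U E b) ↔
      ∀ γ δ, γ • b δ / b (γ * δ) * b γ = f (γ, δ) := by
  rw [d₁₂_infl₁]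
  constructor
  · intro h γ δ
    obtain ⟨g, rfl⟩ := resHom_surjective hU E γ
    obtain ⟨k, rfl⟩ := resHom_surjective hU E δ
    apply unitsIncl_injective U E
    have := congrArg Additive.toMul (congrFun h (g, k))
    simp only [infl₂_apply, toMul_ofMul] at this
    exact this.symm
  · intro h
    funext ⟨g, k⟩
    simp only [infl₂_apply]
    rw [h]

/-- A function on `U` which is constant modulo a level has finitely many values. -/
theorem finite_range_of_isLevelConstant₁ {X : Type*} {f : ↥U → X}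
    (hf : IsLevelConstant₁ U.subtype f) : (Set.range f).Finite := by
  obtain ⟨F, hF, h⟩ := hf
  haveI := hF
  obtain ⟨E', hfd, hgal, hFE, -⟩ := exists_level hU F ∅ Set.finite_empty
  haveI := hfd
  haveI := hgal
  have key : ∀ g g' : ↥U, resHom U E' g = resHom U E' g' → f g = f g' := by
    intro g g' hgg
    have hs : resHom U E' (g⁻¹ * g') = 1 := by rw [map_mul, map_inv, hgg, inv_mul_cancel]
    have := h g (g⁻¹ * g') (mem_fixingSubgroup_of_resHom_eq_one U E' _ hs hFE)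
    rw [mul_inv_cancel_left] at this
    exact this.symm
  have hsub : Set.range f ⊆
      Set.range (fun γ : (E' ≃ₐ[fixedFld U] E') => f (Function.surjInv (resHom_surjective hU E') γ)) := by
    rintro _ ⟨g, rfl⟩
    refine ⟨resHom U E' g, key _ _ ?_⟩
    exact Function.surjInv_eq (resHom_surjective hU E') _
  exact (Set.finite_range _).subset hsub

theorem finite_range_of_isLevelConstant₂ {X : Type*} {f : ↥U × ↥U → X}
    (hf : IsLevelConstant₂ U.subtype f) : (Set.range f).Finite := by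
  obtain ⟨F, hF, h⟩ := hf
  haveI := hF
  obtain ⟨E', hfd, hgal, hFE, -⟩ := exists_level hU F ∅ Set.finite_empty
  haveI := hfd
  haveI := hgal
  have key : ∀ g g' k k' : ↥U, resHom U E' g = resHom U E' g' → resHom U E' k = resHom U E' k' →
      f (g, k) = f (g', k') := by
    intro g g' k k' hgg hkk
    have hs : resHom U E' (g⁻¹ * g') = 1 := by rw [map_mul, map_inv, hgg, inv_mul_cancel]
    have hs' : resHom U E' (k⁻¹ * k') = 1 := by rw [map_mul, map_inv, hkk, inv_mul_cancel]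
    have := h g k (g⁻¹ * g') (k⁻¹ * k') (mem_fixingSubgroup_of_resHom_eq_one U E' _ hs hFE)
      (mem_fixingSubgroup_of_resHom_eq_one U E' _ hs' hFE)
    rw [mul_inv_cancel_left, mul_inv_cancel_left] at this
    exact this.symm
  have hsub : Set.range f ⊆
      Set.range (fun γ : (E' ≃ₐ[fixedFld U] E') × (E' ≃ₐ[fixedFld U] E') =>
        f (Function.surjInv (resHom_surjective hU E') γ.1,
          Function.surjInv (resHom_surjective hU E') γ.2)) := by
    rintro _ ⟨⟨g, k⟩, rfl⟩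
    refine ⟨(resHom U E' g, resHom U E' k), key _ _ _ _ ?_ ?_⟩
    · exact Function.surjInv_eq (resHom_surjective hU E') _
    · exact Function.surjInv_eq (resHom_surjective hU E') _
  exact (Set.finite_range _).subset hsub

omit [FiniteDimensional (fixedFld U) E] in
/-- Descent of a 1-cochain which is constant modulo `ker (resHom U E)`, with values in `E`. -/
theorem exists_eq_infl₁ (x : ↥U → gModOn U)
    (hx : ∀ g s : ↥U, resHom U E s = 1 → x (g * s) = x g)
    (hval : ∀ g, ((Additive.toMul (x g) : Qbˣ) : Qb) ∈ E) :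
    ∃ b : (E ≃ₐ[fixedFld U] E) → (↥E)ˣ, infl₁ U E b = x := by
  choose y hy using fun g => exists_unitsIncl_eq U E (hval g)
  refine ⟨fun γ => y (Function.surjInv (resHom_surjective hU E) γ), funext fun g => ?_⟩
  rw [infl₁_apply, hy]
  set g' := Function.surjInv (resHom_surjective hU E) (resHom U E g) with hg'
  have hgg : resHom U E g' = resHom U E g := Function.surjInv_eq (resHom_surjective hU E) _
  have hs : resHom U E (g'⁻¹ * g) = 1 := by rw [map_mul, map_inv, hgg, inv_mul_cancel]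
  have := hx g' (g'⁻¹ * g) hs
  rw [mul_inv_cancel_left] at this
  rw [← this]
  rfl

omit [FiniteDimensional (fixedFld U) E] in
/-- Descent of a 2-cochain which is constant modulo `ker (resHom U E)`, with values in `E`. -/
theorem exists_eq_infl₂ (c : ↥U × ↥U → gModOn U)
    (hc : ∀ g k s s' : ↥U, resHom U E s = 1 → resHom U E s' = 1 → c (g * s, k * s') = c (g, k))
    (hval : ∀ p, ((Additive.toMul (c p) : Qbˣ) : Qb) ∈ E) :
    ∃ f : (E ≃ₐ[fixedFld U] E) × (E ≃ₐ[fixedFld U] E) → (↥E)ˣ, infl₂ U E f = c := by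
  choose y hy using fun p => exists_unitsIncl_eq U E (hval p)
  refine ⟨fun γ => y (Function.surjInv (resHom_surjective hU E) γ.1,
    Function.surjInv (resHom_surjective hU E) γ.2), funext fun ⟨g, k⟩ => ?_⟩
  rw [infl₂_apply, hy]
  set g' := Function.surjInv (resHom_surjective hU E) (resHom U E g) with hg'
  set k' := Function.surjInv (resHom_surjective hU E) (resHom U E k) with hk'
  have hgg : resHom U E g' = resHom U E g := Function.surjInv_eq (resHom_surjective hU E) _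
  have hkk : resHom U E k' = resHom U E k := Function.surjInv_eq (resHom_surjective hU E) _
  have hs : resHom U E (g'⁻¹ * g) = 1 := by rw [map_mul, map_inv, hgg, inv_mul_cancel]
  have hs' : resHom U E (k'⁻¹ * k) = 1 := by rw [map_mul, map_inv, hkk, inv_mul_cancel]
  have := hc g' k' (g'⁻¹ * g) (k'⁻¹ * k) hs hs'
  rw [mul_inv_cancel_left, mul_inv_cancel_left] at this
  rw [← this]
  rfl

end Level

/-- Every level-constant 2-cochain on an open `U` is inflated from a finite Galois level, which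
can be chosen to contain a given number field `F₀` and a given finite set `T`. -/
theorem exists_level_eq_infl₂ {U : Subgroup GQ} (hU : IsOpenQ U) (c : ↥U × ↥U → gModOn U)
    (hc : IsLevelConstant₂ U.subtype c) (F₀ : IntermediateField ℚ Qb) [FiniteDimensional ℚ F₀]
    (T : Set Qb) (hT : T.Finite) :
    ∃ (E : IntermediateField (fixedFld U) Qb) (_ : FiniteDimensional (fixedFld U) E)
      (_ : IsGalois (fixedFld U) E)
      (f : (E ≃ₐ[fixedFld U] E) × (E ≃ₐ[fixedFld U] E) → (↥E)ˣ),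
      (∀ x ∈ F₀, x ∈ E) ∧ (∀ x ∈ T, x ∈ E) ∧ infl₂ U E f = c := by
  have hfin := finite_range_of_isLevelConstant₂ hU hc
  obtain ⟨F, hF, h⟩ := hc
  haveI := hF
  have hT' : (T ∪ (fun m : gModOn U => ((Additive.toMul m : Qbˣ) : Qb)) '' Set.range c).Finite :=
    hT.union (hfin.image _)
  obtain ⟨E, hfd, hgal, hFE, hTE⟩ := exists_level hU (F ⊔ F₀) _ hT'
  haveI := hfd
  haveI := hgal
  obtain ⟨f, hf⟩ := exists_eq_infl₂ hU E c
    (fun g k s s' hs hs' => h g k s s'
      (mem_fixingSubgroup_of_resHom_eq_one U E s hs (fun x hx => hFE x (le_sup_left (a := F) hx)))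
      (mem_fixingSubgroup_of_resHom_eq_one U E s' hs'
        (fun x hx => hFE x (le_sup_left (a := F) hx))))
    (fun p => hTE _ (Or.inr ⟨c p, ⟨p, rfl⟩, rfl⟩))
  exact ⟨E, hfd, hgal, f, fun x hx => hFE x (le_sup_right (b := F₀) hx),
    fun x hx => hTE x (Or.inl hx), hf⟩

end Fermat.Agent.S55.G.Rec.Glob

end
end
-- ===== PACK-END S55/G/Rec/Glob/Cochain.lean

-- ===== PACK-BEGIN S59/H247/TFResolvent.lean
section



/-!
# S59 / G3-TF, part 4: Lagrange resolvents

Let `F ⊆ ℚ̄` be a number field containing a primitive `p`-th root of unity `ζ`, and let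
`χ : G_F → ℤ/p` be a continuous additive character with `χ σ₁ ≠ 0`.  Then there are `α ≠ 0` in
`ℚ̄` and `j ≠ 0` in `ℤ/p` with `σ α = ζ ^ (χ σ * j) α` for all `σ ∈ G_F`.
-/

set_option autoImplicit false
set_option linter.style.haveILetI false
set_option linter.unusedSectionVars false

namespace Fermat.Agent.S59.H247

open Fermat.Agent.S55.Bridge

attribute [local instance] isAlgebraic_Qbar isGalois_Qbar

section Char

variable {p : ℕ} [hpf : Fact p.Prime] {ζ : AlgebraicClosure ℚ}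

/-- the character `ℤ/p → ℚ̄ˣ`, `i ↦ ζ ^ i` -/
noncomputable def zpow (ζ : AlgebraicClosure ℚ) (i : ZMod p) : AlgebraicClosure ℚ := ζ ^ i.val

theorem zpow_add (hζ : ζ ^ p = 1) (i j : ZMod p) : zpow ζ (i + j) = zpow ζ i * zpow ζ j := by
  unfold zpow
  rw [← pow_add, ZMod.val_add, ← pow_eq_pow_mod _ hζ]

theorem zpow_zero : zpow ζ (0 : ZMod p) = 1 := by
  unfold zpow
  rw [ZMod.val_zero, pow_zero]

theorem zpow_pow (hζ : ζ ^ p = 1) (i : ZMod p) : zpow ζ i ^ p = 1 := by
  unfold zpow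
  rw [← pow_mul, mul_comm, pow_mul, hζ, one_pow]

theorem zpow_eq_one_iff (hζ : IsPrimitiveRoot ζ p) (i : ZMod p) : zpow ζ i = 1 ↔ i = 0 := by
  unfold zpow
  rw [hζ.pow_eq_one_iff_dvd, ← ZMod.natCast_eq_zero_iff, ZMod.natCast_zmod_val]

theorem sum_zpow (hζ : IsPrimitiveRoot ζ p) : ∑ j : ZMod p, zpow ζ j = 0 := by
  have h1 : zpow ζ (1 : ZMod p) * ∑ j : ZMod p, zpow ζ j = ∑ j : ZMod p, zpow ζ j := by
    rw [Finset.mul_sum]
    refine Fintype.sum_equiv (Equiv.addLeft (1 : ZMod p)) _ _ fun j => ?_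
    rw [← zpow_add hζ.pow_eq_one]
    rfl
  have h2 : zpow ζ (1 : ZMod p) ≠ 1 := by
    rw [Ne, zpow_eq_one_iff hζ]
    exact one_ne_zero
  have h3 : (zpow ζ (1 : ZMod p) - 1) * ∑ j : ZMod p, zpow ζ j = 0 := by
    rw [sub_mul, h1, one_mul, sub_self]
  rcases mul_eq_zero.1 h3 with h | h
  · exact absurd (sub_eq_zero.1 h) h2
  · exact h

theorem sum_zpow_mul (hζ : IsPrimitiveRoot ζ p) (i : ZMod p) :
    ∑ j : ZMod p, zpow ζ (-(i * j)) = if i = 0 then (p : AlgebraicClosure ℚ) else 0 := by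
  split_ifs with hi
  · subst hi
    simp only [zero_mul, neg_zero, zpow_zero, Finset.sum_const, Finset.card_univ, ZMod.card,
      nsmul_eq_mul, mul_one]
  · rw [← sum_zpow hζ]
    refine Fintype.sum_equiv (Equiv.mulLeft₀ (-i) (neg_ne_zero.2 hi)) _ _ fun j => ?_
    simp [neg_mul]

end Char

section Resolvent

variable {p : ℕ} (F : IntermediateField ℚ (AlgebraicClosure ℚ))
  [FiniteDimensional ℚ F]

/-- **Lagrange resolvent.** -/
theorem exists_kummer_generator (hp : p.Prime) {ζ : AlgebraicClosure ℚ}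
    (hζ : IsPrimitiveRoot ζ p)
    (hζF : ζ ∈ F) (χ : (AlgebraicClosure ℚ ≃ₐ[ℚ] AlgebraicClosure ℚ) → ZMod p)
    (hadd : ∀ σ τ, σ ∈ F.fixingSubgroup → τ ∈ F.fixingSubgroup → χ (σ * τ) = χ σ + χ τ)
    (hcont : ∃ N : IntermediateField ℚ (AlgebraicClosure ℚ), FiniteDimensional ℚ N ∧
      ∀ σ ∈ F.fixingSubgroup, (∀ x ∈ N, σ x = x) → χ σ = 0)
    (σ₁ : AlgebraicClosure ℚ ≃ₐ[ℚ] AlgebraicClosure ℚ) (hσ₁ : σ₁ ∈ F.fixingSubgroup)
    (hχσ₁ : χ σ₁ ≠ 0) :
    ∃ (α : AlgebraicClosure ℚ) (j : ZMod p), α ≠ 0 ∧ j ≠ 0 ∧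
      ∀ σ ∈ F.fixingSubgroup, σ α = ζ ^ (χ σ * j).val * α := by
  classical
  haveI : Fact p.Prime := ⟨hp⟩
  have hζp : ζ ^ p = 1 := hζ.pow_eq_one
  -- basic properties of `χ`
  have hχ1 : χ 1 = 0 := by
    have := hadd 1 1 (one_mem _) (one_mem _)
    rw [mul_one] at this
    exact left_eq_add.1 this
  have hχinv : ∀ σ ∈ F.fixingSubgroup, χ σ⁻¹ = -χ σ := by
    intro σ hσ
    have := hadd σ σ⁻¹ hσ (inv_mem hσ)
    rw [mul_inv_cancel, hχ1] at this
    exact (neg_eq_of_add_eq_zero_right this.symm).symm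
  have hχpow : ∀ n : ℕ, χ (σ₁ ^ n) = n * χ σ₁ := by
    intro n
    induction n with
    | zero => simp [hχ1]
    | succ n ih =>
      rw [pow_succ, hadd _ _ (pow_mem hσ₁ n) hσ₁, ih]
      push_cast
      ring
  -- the kernel of `χ`
  let H : Subgroup (AlgebraicClosure ℚ ≃ₐ[ℚ] AlgebraicClosure ℚ) :=
    { carrier := {σ | σ ∈ F.fixingSubgroup ∧ χ σ = 0}
      mul_mem' := fun {a b} ha hb => ⟨mul_mem ha.1 hb.1, by rw [hadd a b ha.1 hb.1, ha.2, hb.2, add_zero]⟩
      one_mem' := ⟨one_mem _, hχ1⟩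
      inv_mem' := fun {a} ha => ⟨inv_mem ha.1, by rw [hχinv a ha.1, ha.2, neg_zero]⟩ }
  have hHmem : ∀ σ, σ ∈ H ↔ σ ∈ F.fixingSubgroup ∧ χ σ = 0 := fun σ => Iff.rfl
  obtain ⟨N, hNfd, hN⟩ := hcont
  have hopen : IsOpen (H : Set (AlgebraicClosure ℚ ≃ₐ[ℚ] AlgebraicClosure ℚ)) := by
    have h1 : (F ⊔ N).fixingSubgroup ≤ H := by
      intro σ hσ
      rw [IntermediateField.mem_fixingSubgroup_iff] at hσ
      have hσF : σ ∈ F.fixingSubgroup := by
        rw [IntermediateField.mem_fixingSubgroup_iff]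
        exact fun x hx => hσ x ((le_sup_left : F ≤ F ⊔ N) hx)
      exact ⟨hσF, hN σ hσF fun x hx => hσ x ((le_sup_right : N ≤ F ⊔ N) hx)⟩
    haveI : FiniteDimensional ℚ ↥(F ⊔ N) := IntermediateField.finiteDimensional_sup F N
    exact Subgroup.isOpen_mono h1 (IntermediateField.fixingSubgroup_isOpen (F ⊔ N))
  have hclosed : IsClosed (H : Set (AlgebraicClosure ℚ ≃ₐ[ℚ] AlgebraicClosure ℚ)) :=
    Subgroup.isClosed_of_isOpen H hopen
  have hfix := InfiniteGalois.fixingSubgroup_fixedField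
    (⟨H, hclosed⟩ : ClosedSubgroup (AlgebraicClosure ℚ ≃ₐ[ℚ] AlgebraicClosure ℚ))
  have hσ₁H : σ₁ ∉ H := fun h => hχσ₁ h.2
  -- an element fixed by `H` but moved by `σ₁`
  obtain ⟨θ, hθH, hθσ₁⟩ : ∃ θ : AlgebraicClosure ℚ, (∀ h ∈ H, h θ = θ) ∧ σ₁ θ ≠ θ := by
    by_contra hcon
    push Not at hcon
    apply hσ₁H
    have : σ₁ ∈ (IntermediateField.fixedField H).fixingSubgroup := by
      rw [IntermediateField.mem_fixingSubgroup_iff]
      intro x hx
      apply hcon x
      intro h hh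
      exact (IntermediateField.mem_fixedField_iff H x).1 hx h hh
    rw [hfix] at this
    exact this
  set u : ZMod p := χ σ₁ with hu
  -- the orbit of `θ`
  let Θ : ZMod p → AlgebraicClosure ℚ := fun i => (σ₁ ^ i.val) θ
  have hΘ : ∀ σ ∈ F.fixingSubgroup, ∀ i : ZMod p, σ (Θ i) = Θ (i + χ σ * u⁻¹) := by
    intro σ hσ i
    have hmem : (σ₁ ^ (i + χ σ * u⁻¹).val)⁻¹ * (σ * σ₁ ^ i.val) ∈ H := by
      refine ⟨mul_mem (inv_mem (pow_mem hσ₁ _)) (mul_mem hσ (pow_mem hσ₁ _)), ?_⟩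
      rw [hadd _ _ (inv_mem (pow_mem hσ₁ _)) (mul_mem hσ (pow_mem hσ₁ _)),
        hadd _ _ hσ (pow_mem hσ₁ _), hχinv _ (pow_mem hσ₁ _), hχpow, hχpow,
        ZMod.natCast_zmod_val, ZMod.natCast_zmod_val]
      field_simp
      ring
    have h1 := hθH _ hmem
    have h2 : ((σ₁ ^ (i + χ σ * u⁻¹).val)⁻¹ * (σ * σ₁ ^ i.val)) θ
        = (σ₁ ^ (i + χ σ * u⁻¹).val)⁻¹ (σ ((σ₁ ^ i.val) θ)) := rfl
    rw [h2] at h1
    have h3 := congrArg (σ₁ ^ (i + χ σ * u⁻¹).val) h1
    have h4 : ∀ (g : AlgebraicClosure ℚ ≃ₐ[ℚ] AlgebraicClosure ℚ) (y : AlgebraicClosure ℚ),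
        g (g⁻¹ y) = y := fun g y => by
      show (g * g⁻¹) y = y
      rw [mul_inv_cancel]; rfl
    rw [h4] at h3
    exact h3
  have hσζ : ∀ σ ∈ F.fixingSubgroup, ∀ i : ZMod p, σ (zpow ζ i) = zpow ζ i := by
    intro σ hσ i
    unfold zpow
    rw [map_pow, (IntermediateField.mem_fixingSubgroup_iff F σ).1 hσ ζ hζF]
  -- the resolvents
  let αj : ZMod p → AlgebraicClosure ℚ := fun j => ∑ i : ZMod p, zpow ζ (-(i * j)) * Θ i
  have hαj : ∀ σ ∈ F.fixingSubgroup, ∀ j : ZMod p,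
      σ (αj j) = zpow ζ (χ σ * u⁻¹ * j) * αj j := by
    intro σ hσ j
    simp only [αj]
    rw [map_sum, Finset.mul_sum]
    refine Fintype.sum_equiv (Equiv.addRight (χ σ * u⁻¹)) _ _ fun i => ?_
    rw [map_mul, hσζ σ hσ, hΘ σ hσ, Equiv.coe_addRight, ← mul_assoc, ← zpow_add hζp]
    congr 2
    ring
  have hsum : ∑ j : ZMod p, αj j = (p : AlgebraicClosure ℚ) * θ := by
    simp only [αj]
    rw [Finset.sum_comm]
    simp_rw [← Finset.sum_mul, sum_zpow_mul hζ]
    rw [Finset.sum_eq_single (0 : ZMod p)]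
    · simp [Θ]
    · intro i _ hi
      rw [if_neg hi, zero_mul]
    · intro h
      exact absurd (Finset.mem_univ _) h
  have hu0 : u ≠ 0 := hχσ₁
  obtain ⟨j, hj0, hαj0⟩ : ∃ j : ZMod p, j ≠ 0 ∧ αj j ≠ 0 := by
    by_contra hcon
    push Not at hcon
    have h0 : αj 0 = (p : AlgebraicClosure ℚ) * θ := by
      rw [← hsum, Finset.sum_eq_single (0 : ZMod p)]
      · intro j _ hj
        exact hcon j hj
      · intro h
        exact absurd (Finset.mem_univ _) h
    have h1 := hαj σ₁ hσ₁ 0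
    rw [mul_zero, zpow_zero, one_mul, h0, map_mul, map_natCast] at h1
    have hp0 : (p : AlgebraicClosure ℚ) ≠ 0 := by exact_mod_cast hp.ne_zero
    exact hθσ₁ (mul_left_cancel₀ hp0 h1)
  refine ⟨αj j, u⁻¹ * j, hαj0, mul_ne_zero (inv_ne_zero hu0) hj0, fun σ hσ => ?_⟩
  rw [hαj σ hσ j, mul_assoc]
  rfl

end Resolvent

end Fermat.Agent.S59.H247

end
-- ===== PACK-END S59/H247/TFResolvent.lean

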