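import Mathlib
import Fermat.Prelude.Def_Algebra_PatchingDatum
import Fermat.Agent.Pack.S43GC.G0E7L2
import Fermat.Agent.Pack.S43GC.G0E7L0
import Fermat.Agent.Pack.S43GC.G0E6L2
import Fermat.Agent.Pack.S43GC.G0E6L1
import Fermat.Agent.Pack.S43GC.G0E7L3
import Fermat.Agent.Pack.S43GC.G0E5L3
import Fermat.Agent.Pack.S43GC.G0E7L1
import Fermat.Agent.Pack.Fast891

-- ===== PACK-BEGIN S55/K/Spec.lean
section
/-
S55 moonshot — LAYER K (global Kummer bridge), interface.   Architect: helper4.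
Namespace `Fermat.Agent.S55.K`.  NO sorry.  Blueprint + leaf table: `coord/S55-K.md` (origin/helper4).

Spec pattern: every interface is a `def XxxSpec : Prop`; producers prove `theorem xxx : XxxSpec`
or `theorem xxx_of (h : YyySpec …) : XxxSpec` in `Fermat/Agent/S55/K/<Leaf>H<seat>.lean`,
namespace `Fermat.Agent.S55.K.H<seat>`.

Everything is COCHAIN-LEVEL on `G_ℚ` with the level system `globalLevels S` (and `localLevels q` on the
Prelude's local groups): no quotient types, no colimits, no `Ext`.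
`μ = Bridge.muP p`, `𝔼 = sUnits S` (S-units of `ℚ̄`), `Ind_V A = indG V A = (G_ℚ ⧸ V →₀ A)`.

PART A  outputs of layer K for layer D (route C′):   A1 `FinH1Spec`, A3 `SurjH2Spec`, A8 `CapSpec`
        (A5/A5′/A7 are in `SpecTop.lean`, after `PT/Spec.lean` of helper835 is frozen).
PART B  K-top reductions (formal, cochain level):     `H3FinSpec`, `H3IndMuSpec`
PART C  inputs of layer K (= what class field theory must deliver, in cochain form):
        `KummerSpec` (KUM), `H2DivESpec` (GO1), `H3TorsESpec` (GO2), `HasseESpec` (GO3),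
        `NormCapSpec` (GO6), `FinESpec` (GO7).
-/


set_option autoImplicit false

noncomputable section

namespace Fermat.Agent.S55.K

open groupCohomology Fermat.Agent.S55.PT Fermat.Agent.S55.Bridge

variable (p : ℕ) [Fact p.Prime] (S : Finset Nat.Primes)

/-! ### PART A — outputs -/

/-- **A1 (FIN-glob).** `H¹_S(N)` is finite-dimensional. -/
def FinH1Spec : Prop :=
  p ≠ 2 → ExtCitation.pPrime p ∈ S →
  ∀ N : Rep.{0, 0, 0} (ZMod p) _root_.Fermat.Agent.S55.PT.GQ, FiniteDimensional (ZMod p) N → (globalLevels S).IsUSmooth N →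
    Module.Finite (ZMod p) ((globalLevels S).H1 N)

/-- **A3 (SURJ2-glob).** `H²_S` is right exact on finite modules (`cd_p G_S ≤ 2`). -/
def SurjH2Spec : Prop :=
  p ≠ 2 → ExtCitation.pPrime p ∈ S →
  ∀ P N : Rep.{0, 0, 0} (ZMod p) _root_.Fermat.Agent.S55.PT.GQ, FiniteDimensional (ZMod p) P → FiniteDimensional (ZMod p) N →
    (globalLevels S).IsUSmooth P → (globalLevels S).IsUSmooth N →
    ∀ (φ : P →ₗ[ZMod p] N) (hφ : IsEquivariant φ), Function.Surjective φ →
      Function.Surjective (pushH2 φ hφ (globalLevels S))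

/-- **A8 (CAP)**, cochain form.  For every level `V` there is a normal level `U ≤ V` such that
every level-constant 2-cocycle of `Ind_U μ` which is locally a (level-constant) coboundary at all
`q ∈ S` becomes a level-constant coboundary in `Ind_V μ`. -/
def CapSpec : Prop :=
  p ≠ 2 → ExtCitation.pPrime p ∈ S →
  ∀ V ∈ (globalLevels S).levels, ∃ U ∈ (globalLevels S).levels, ∃ hUV : U ≤ V, U.Normal ∧
    ∀ x ∈ (globalLevels S).Z2 (indG U (muP p)),
      (∀ q ∈ S, (x ∘ Prod.map (rl q) (rl q) : Gl q × Gl q → indG U (muP p)) ∈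
        (localLevels q).B2 (Rep.res (rl q) (indG U (muP p)))) →
      (indProj (MonoidHom.id _root_.Fermat.Agent.S55.PT.GQ) hUV (muP p) ∘ x : _root_.Fermat.Agent.S55.PT.GQ × _root_.Fermat.Agent.S55.PT.GQ → indG V (muP p)) ∈
        (globalLevels S).B2 (indG V (muP p))

/-! ### PART B — formal reductions inside layer K -/

/-- `H³_S(R) = 0` for every finite module `R`. -/
def H3FinSpec : Prop :=
  p ≠ 2 → ExtCitation.pPrime p ∈ S →
  ∀ R : Rep.{0, 0, 0} (ZMod p) _root_.Fermat.Agent.S55.PT.GQ, FiniteDimensional (ZMod p) R → (globalLevels S).IsUSmooth R →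
    H3Vanish (globalLevels S) R

/-- `H³_S(Ind_V μ) = 0` for every level `V` (`= H³(G_S(K_V), μ_p) = 0`). -/
def H3IndMuSpec : Prop :=
  p ≠ 2 → ExtCitation.pPrime p ∈ S →
  ∀ V ∈ (globalLevels S).levels, H3Vanish (globalLevels S) (indG V (muP p))

/-! ### PART C — inputs (arithmetic, cochain form) -/

/-- **KUM.** The `S`-smooth `S`-units are `p`-divisible (`p ∈ S`): an `S`-unit fixed by a level
has a `p`-th root which is fixed by a level. -/
def KummerSpec : Prop :=
  ExtCitation.pPrime p ∈ S →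
  ∀ x : sUnits S, (∃ U ∈ (globalLevels S).levels, ∀ s ∈ U, (sUnits S).ρ s x = x) →
    ∃ y : sUnits S, p • y = x ∧ ∃ U ∈ (globalLevels S).levels, ∀ s ∈ U, (sUnits S).ρ s y = y

/-- **GO1.** `H²(G_S(K_V), 𝒪_Sˣ)` is `p`-divisible. -/
def H2DivESpec : Prop :=
  p ≠ 2 → ExtCitation.pPrime p ∈ S →
  ∀ V ∈ (globalLevels S).levels, H2Divisible (globalLevels S) (indG V (sUnits S)) p

/-- **GO2.** `H³(G_S(K_V), 𝒪_Sˣ)[p] = 0`. -/
def H3TorsESpec : Prop :=
  p ≠ 2 → ExtCitation.pPrime p ∈ S →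
  ∀ V ∈ (globalLevels S).levels, H3TorsVanish (globalLevels S) (indG V (sUnits S)) p

/-- **GO3 (Hasse principle for `S`-units).** A class of `H²(G_S(K_V), 𝒪_Sˣ)[p]` which is
trivial in `H²(G_q, Ind_V ℚ̄_qˣ)` for all `q ∈ S` is trivial. -/
def HasseESpec : Prop :=
  p ≠ 2 → ExtCitation.pPrime p ∈ S →
  ∀ V ∈ (globalLevels S).levels, ∀ x ∈ (globalLevels S).Z2 (indG V (sUnits S)),
    p • x ∈ (globalLevels S).B2 (indG V (sUnits S)) →
    (∀ q ∈ S, (indLocE q S V ∘ x ∘ Prod.map (rl q) (rl q) :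
        Gl q × Gl q → ind (rl q) V (Tow.unitsQpbar q)) ∈
      (localLevels q).B2 (ind (rl q) V (Tow.unitsQpbar q))) →
    x ∈ (globalLevels S).B2 (indG V (sUnits S))

/-- **GO6 (existence mod `p`, cohomological form).** For every level `V` there is a normal level
`U ≤ V` with `im(H¹_S(Ind_U 𝔼) → H¹_S(Ind_V 𝔼)) ⊂ p·H¹_S(Ind_V 𝔼)`
(`H¹_S(Ind_V 𝔼) = Cl_S(K_V)`, the map is the norm: `K_U ⊇` the `p`-Hilbert `S`-class field). -/
def NormCapSpec : Prop :=
  p ≠ 2 → ExtCitation.pPrime p ∈ S →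
  ∀ V ∈ (globalLevels S).levels, ∃ U ∈ (globalLevels S).levels, ∃ hUV : U ≤ V, U.Normal ∧
    ∀ z ∈ (globalLevels S).Z1 (indG U (sUnits S)),
      ∃ w ∈ (globalLevels S).Z1 (indG V (sUnits S)),
        (indProj (MonoidHom.id _root_.Fermat.Agent.S55.PT.GQ) hUV (sUnits S) ∘ z - p • w : _root_.Fermat.Agent.S55.PT.GQ → indG V (sUnits S)) ∈
          LevelSys.B1 (indG V (sUnits S))

/-- **GO7 (finiteness).** `(Ind_V 𝔼)^{G_ℚ}/p = 𝒪_{K_V,S}ˣ/p` and `H¹_S(Ind_V 𝔼)[p] = Cl_S(K_V)[p]`
are finite: there are finitely many invariants `e_i` and cocycles `z_j` such that every invariant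
is `≡ Σ n_i e_i` mod `p` and every `p`-torsion class is `Σ n_j [z_j]`. -/
def FinESpec : Prop :=
  ExtCitation.pPrime p ∈ S →
  ∀ V ∈ (globalLevels S).levels,
    (∃ T : Finset (indG V (sUnits S)), ∀ e : indG V (sUnits S),
        (∀ g : _root_.Fermat.Agent.S55.PT.GQ, (indG V (sUnits S)).ρ g e = e) →
        ∃ e' : indG V (sUnits S), (∀ g : _root_.Fermat.Agent.S55.PT.GQ, (indG V (sUnits S)).ρ g e' = e') ∧
          e - p • e' ∈ Submodule.span ℤ (T : Set (indG V (sUnits S)))) ∧
    (∃ T : Finset (_root_.Fermat.Agent.S55.PT.GQ → indG V (sUnits S)), ∀ z ∈ (globalLevels S).Z1 (indG V (sUnits S)),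
        p • z ∈ LevelSys.B1 (indG V (sUnits S)) →
        ∃ t ∈ Submodule.span ℤ (T : Set (_root_.Fermat.Agent.S55.PT.GQ → indG V (sUnits S))),
          z - t ∈ LevelSys.B1 (indG V (sUnits S)))

end Fermat.Agent.S55.K

end

end
-- ===== PACK-END S55/K/Spec.lean

-- ===== PACK-BEGIN S55/KL/FormalH587.lean
section


/-!
# S55, layer KL: the formal leaves KL-SM, KL-DIV, KL-MU, KL-OPEN                 (helper587)

* `unitsSmooth : UnitsSmoothSpec`   — `Ωˣ` is smooth for the levels `galLevels K Ω`;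
* `unitsDiv : UnitsDivSpec`         — `Ωˣ` is `p`-divisible if `Ω` is algebraically closed;
* `unitsTors : UnitsTorsSpec`       — `|μ_p(Ω)| = p` if `Ω` is algebraically closed of char. 0;
* `openSubgroup : OpenSubgroupSpec` — the open subgroups of `Gal(Ω/K)` are the `Gal(Ω/E)`,
  `E/K` finite.

Mathlib only (infinite Galois theory), no `sorry`.
-/

set_option autoImplicit false
set_option linter.style.haveILetI false

open CategoryTheory groupCohomology

namespace Fermat.Agent.S55.KL.H587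

/-! ## KL-SM -/

/-- **KL-SM.** -/
theorem unitsSmooth : UnitsSmoothSpec := by
  intro K Ω _ _ _ _ b
  let u : Ωˣ := Additive.toMul b
  refine ⟨_, ⟨FiniteGaloisIntermediateField.adjoin K {(u : Ω)}, rfl⟩, ?_⟩
  intro w hw
  have hmem : (u : Ω) ∈ (FiniteGaloisIntermediateField.adjoin K {(u : Ω)}).toIntermediateField :=
    FiniteGaloisIntermediateField.subset_adjoin K {(u : Ω)} rfl
  have hfix : w (u : Ω) = (u : Ω) := hw ⟨(u : Ω), hmem⟩
  show Additive.ofMul (w • u) = b
  have : w • u = u := Units.ext hfix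
  rw [this]
  rfl

/-! ## KL-DIV -/

/-- **KL-DIV.** -/
theorem unitsDiv : UnitsDivSpec := by
  intro K Ω _ _ _ _ p hp b
  let u : Ωˣ := Additive.toMul b
  obtain ⟨z, hz⟩ := IsAlgClosed.exists_pow_nat_eq (u : Ω) hp
  have hz0 : z ≠ 0 := by
    rintro rfl
    rw [zero_pow hp.ne'] at hz
    exact u.ne_zero hz.symm
  refine ⟨Additive.ofMul (Units.mk0 z hz0), ?_⟩
  show Additive.ofMul ((Units.mk0 z hz0) ^ p) = b
  have : (Units.mk0 z hz0) ^ p = u := Units.ext (by simpa using hz)
  rw [this]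
  rfl

/-! ## KL-MU -/

/-- The `p`-torsion of `Additive Ωˣ` is `μ_p(Ω)`. -/
def torsEquivRootsOfUnity (K Ω : Type) [Field K] [Field Ω] [Algebra K Ω] (p : ℕ) :
    (tors (unitsOm K Ω) p).V ≃ rootsOfUnity p Ω where
  toFun b := ⟨Additive.toMul (b.1 : Additive Ωˣ), by
    have h : p • (b.1 : Additive Ωˣ) = 0 := b.2
    rw [mem_rootsOfUnity]
    exact congrArg Additive.toMul h⟩
  invFun u := ⟨Additive.ofMul u.1, by
    have h : u.1 ^ p = 1 := (mem_rootsOfUnity _ _).1 u.2
    show p • Additive.ofMul u.1 = 0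
    exact congrArg Additive.ofMul h⟩
  left_inv _ := rfl
  right_inv _ := rfl

/-- **KL-MU.** -/
theorem unitsTors : UnitsTorsSpec := by
  intro K Ω _ _ _ _ _ p hp
  haveI : NeZero (p : Ω) := ⟨Nat.cast_ne_zero.2 hp.ne_zero⟩
  haveI : NeZero p := ⟨hp.ne_zero⟩
  rw [Nat.card_congr (torsEquivRootsOfUnity K Ω p)]
  exact HasEnoughRootsOfUnity.natCard_rootsOfUnity Ω p

/-! ## KL-OPEN -/

/-- **KL-OPEN.** -/
theorem openSubgroup : OpenSubgroupSpec := by
  intro K Ω _ _ _ _ U
  constructor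
  · rintro ⟨W, ⟨E', rfl⟩, hWU⟩
    have hopen : IsOpen (U : Set (Ω ≃ₐ[K] Ω)) :=
      Subgroup.isOpen_mono hWU (IntermediateField.fixingSubgroup_isOpen E'.toIntermediateField)
    have hclosed : IsClosed (U : Set (Ω ≃ₐ[K] Ω)) := U.isClosed_of_isOpen hopen
    let Uc : ClosedSubgroup (Ω ≃ₐ[K] Ω) := ⟨U, hclosed⟩
    have hfix : (IntermediateField.fixedField U).fixingSubgroup = U :=
      InfiniteGalois.fixingSubgroup_fixedField Uc
    refine ⟨IntermediateField.fixedField U, ?_, hfix.symm⟩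
    exact (InfiniteGalois.isOpen_iff_finite _).1 (by rw [hfix]; exact hopen)
  · rintro ⟨E, hE, rfl⟩
    haveI : FiniteDimensional K E := hE
    let E' : FiniteGaloisIntermediateField K Ω :=
      { IntermediateField.normalClosure K E Ω with
        finiteDimensional := normalClosure.is_finiteDimensional K E Ω
        isGalois := IsGalois.normalClosure K E Ω }
    refine ⟨_, ⟨E', rfl⟩, ?_⟩
    have hle : E ≤ E'.toIntermediateField := IntermediateField.le_normalClosure E
    exact IntermediateField.fixingSubgroup_antitone hle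

end Fermat.Agent.S55.KL.H587

end
-- ===== PACK-END S55/KL/FormalH587.lean

-- ===== PACK-BEGIN S55/KL/LocalDegreeH215.lean
section


/-!
# S55, layer KL, leaf KL-DEG: `LocalDegreeSpec`                         (producer: helper215)

Degrees of finite Galois extensions of `ℚ_q` are unbounded at every prime `p`: below every level
`V` of an open subgroup `U` of `Gal(ℚ̄_q/ℚ_q)` there is a level `V'` with `p · [U : V] ∣ [U : V']`.

Proof.  A finite extension `E/ℚ_q` of degree `d` contains an element which is not a `p`-th power: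
otherwise `q = b ^ (p ^ d)` with `b ∈ E`, and taking norms to `ℚ_q` and then the `q`-adic valuation
gives `p ^ d ∣ d`.  For such an `a ∈ E` the polynomial `X ^ p - a` is irreducible over `E`, so
adjoining a root `α` gives an extension of degree `p` of `E`; the Galois closure of `E(α)` over
`ℚ_q` is a finite Galois extension of degree divisible by `p · [E : ℚ_q]`.  The statement follows
by multiplicativity of indices.
-/

set_option autoImplicit false

namespace Fermat.Agent.S55.KL.H215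

open IntermediateField Polynomial

/-- In a finite extension `E` of `ℚ_q`, not every element is a `p`-th power. -/
theorem exists_not_pow_h215 (q : ℕ) [Fact q.Prime] (p : ℕ) (hp : p.Prime)
    (E : Type) [Field E] [Algebra ℚ_[q] E] [FiniteDimensional ℚ_[q] E] :
    ∃ a : E, ∀ b : E, b ^ p ≠ a := by
  by_contra hcon
  have hcon' : ∀ a : E, ∃ b : E, b ^ p = a := by
    intro a
    by_contra h
    exact hcon ⟨a, fun b hb => h ⟨b, hb⟩⟩
  have hiter : ∀ k : ℕ, ∀ a : E, ∃ b : E, b ^ (p ^ k) = a := by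
    intro k
    induction k with
    | zero => intro a; exact ⟨a, by simp⟩
    | succ k ih =>
      intro a
      obtain ⟨b, hb⟩ := ih a
      obtain ⟨c, hc⟩ := hcon' b
      exact ⟨c, by rw [pow_succ', pow_mul, hc, hb]⟩
  set d : ℕ := Module.finrank ℚ_[q] E with hd
  have hdpos : 0 < d := Module.finrank_pos
  obtain ⟨b, hb⟩ := hiter d (algebraMap ℚ_[q] E (q : ℚ_[q]))
  have hN : (Algebra.norm ℚ_[q] b) ^ (p ^ d) = (q : ℚ_[q]) ^ d := by
    rw [← map_pow, hb, Algebra.norm_algebraMap]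
  have hv := congrArg Padic.valuation hN
  rw [Padic.valuation_pow, Padic.valuation_pow, Padic.valuation_p, mul_one] at hv
  have hdvd : ((p ^ d : ℕ) : ℤ) ∣ (d : ℤ) := ⟨_, hv.symm⟩
  have hdvd' : p ^ d ∣ d := Int.natCast_dvd_natCast.mp hdvd
  have hle : p ^ d ≤ d := Nat.le_of_dvd hdpos hdvd'
  have h2 : d < 2 ^ d := Nat.lt_two_pow_self
  have h3 : 2 ^ d ≤ p ^ d := Nat.pow_le_pow_left hp.two_le d
  omega

/-- Kummer-type step: if `a ∈ E₁` is not a `p`-th power in `E₁` and `α ^ p = a`, then every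
intermediate field `E₂ ⊇ E₁` containing `α` has degree divisible by `p · [E₁ : K]` (in terms of
indices of fixing subgroups). -/
theorem mul_index_dvd_h215 {K Ω : Type} [Field K] [Field Ω] [Algebra K Ω] [IsGalois K Ω]
    (p : ℕ) (hp : p.Prime) (E₁ E₂ : IntermediateField K Ω)
    (h12 : E₁ ≤ E₂) (a : E₁) (ha : ∀ b : E₁, b ^ p ≠ a) (α : Ω) (hα : α ^ p = (a : Ω))
    (hα2 : α ∈ E₂) :
    p * E₁.fixingSubgroup.index ∣ E₂.fixingSubgroup.index := by
  have hirr : Irreducible (X ^ p - C a : (↥E₁)[X]) := X_pow_sub_C_irreducible_of_prime hp ha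
  have hmonic : (X ^ p - C a : (↥E₁)[X]).Monic := monic_X_pow_sub_C a hp.ne_zero
  have hroot : aeval α (X ^ p - C a : (↥E₁)[X]) = 0 := by
    simp [hα]
  have hmin : minpoly ↥E₁ α = X ^ p - C a :=
    (minpoly.eq_of_irreducible_of_monic hirr hroot hmonic).symm
  have hint : IsIntegral ↥E₁ α := ⟨_, hmonic, by simpa using hroot⟩
  have hdeg : Module.finrank ↥E₁ ↥(E₁⟮α⟯) = p := by
    rw [IntermediateField.adjoin.finrank hint, hmin, natDegree_X_pow_sub_C]
  set L : IntermediateField K Ω := (E₁⟮α⟯).restrictScalars K with hL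
  have hLfin : Module.finrank K ↥L = Module.finrank K ↥E₁ * p := by
    rw [← hdeg]
    exact (Module.finrank_mul_finrank K ↥E₁ ↥(E₁⟮α⟯)).symm
  have hLle : L ≤ E₂ := by
    rw [hL, restrictScalars_adjoin, adjoin_le_iff]
    rintro x (hx | hx)
    · exact h12 hx
    · rw [Set.mem_singleton_iff] at hx
      rw [hx]; exact hα2
  have hfix : E₂.fixingSubgroup ≤ L.fixingSubgroup :=
    IntermediateField.fixingSubgroup_antitone hLle
  have h1 : L.fixingSubgroup.index ∣ E₂.fixingSubgroup.index := Subgroup.index_dvd_of_le hfix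
  rw [← finrank_eq_fixingSubgroup_index Ω L, hLfin, finrank_eq_fixingSubgroup_index Ω E₁,
    mul_comm] at h1
  exact h1

/-- Above every finite Galois extension `E₁/ℚ_q` inside `ℚ̄_q` there is a finite Galois extension
`E₂/ℚ_q` with `p · [E₁ : ℚ_q] ∣ [E₂ : ℚ_q]`. -/
theorem exists_finiteGalois_mul_dvd_h215 (q : ℕ) [Fact q.Prime] (p : ℕ) (hp : p.Prime)
    (E₁ : FiniteGaloisIntermediateField ℚ_[q] (PadicAlgCl q)) :
    ∃ E₂ : FiniteGaloisIntermediateField ℚ_[q] (PadicAlgCl q), E₁ ≤ E₂ ∧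
      p * E₁.toIntermediateField.fixingSubgroup.index ∣
        E₂.toIntermediateField.fixingSubgroup.index := by
  obtain ⟨a, ha⟩ := exists_not_pow_h215 q p hp ↥E₁.toIntermediateField
  obtain ⟨α, hα⟩ := IsAlgClosed.exists_pow_nat_eq (a : PadicAlgCl q) hp.pos
  refine ⟨E₁ ⊔ FiniteGaloisIntermediateField.adjoin ℚ_[q] {α}, le_sup_left, ?_⟩
  refine mul_index_dvd_h215 p hp E₁.toIntermediateField _ ?_ a ha α hα ?_
  · exact (FiniteGaloisIntermediateField.le_iff _ _).mp le_sup_left
  · have h1 : FiniteGaloisIntermediateField.adjoin ℚ_[q] {α} ≤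
        E₁ ⊔ FiniteGaloisIntermediateField.adjoin ℚ_[q] {α} := le_sup_right
    exact (FiniteGaloisIntermediateField.le_iff _ _).mp h1
      (FiniteGaloisIntermediateField.subset_adjoin ℚ_[q] {α} (Set.mem_singleton α))

/-- **KL-DEG.** -/
theorem localDegree : LocalDegreeSpec := by
  intro q _ p hp U hU V
  obtain ⟨W₀, ⟨E₀, rfl⟩, hW₀⟩ := hU
  obtain ⟨W, ⟨E', rfl⟩, hVW⟩ := V.mem
  obtain ⟨E₂, h12, hdvd⟩ := exists_finiteGalois_mul_dvd_h215 q p hp (E' ⊔ E₀)
  have hfix1 : (E' ⊔ E₀).toIntermediateField.fixingSubgroup =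
      E'.toIntermediateField.fixingSubgroup ⊓ E₀.toIntermediateField.fixingSubgroup := by
    show (E'.toIntermediateField ⊔ E₀.toIntermediateField).fixingSubgroup = _
    rw [IntermediateField.fixingSubgroup_sup]
  set W₁ := (E' ⊔ E₀).toIntermediateField.fixingSubgroup with hW₁
  set W₂ := E₂.toIntermediateField.fixingSubgroup with hW₂
  have h1U : W₁ ≤ U := by rw [hfix1]; exact inf_le_right.trans hW₀
  have h1W : W₁ ≤ E'.toIntermediateField.fixingSubgroup := by rw [hfix1]; exact inf_le_left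
  have h21 : W₂ ≤ W₁ :=
    IntermediateField.fixingSubgroup_antitone ((FiniteGaloisIntermediateField.le_iff _ _).mp h12)
  refine ⟨⟨W₂.subgroupOf U, W₂, ⟨E₂, rfl⟩, rfl⟩, ?_, ?_⟩
  · show W₂.subgroupOf U ≤ V.W
    rw [hVW]
    intro x hx
    exact h1W (h21 hx)
  · show p * Nat.card (↥U ⧸ V.W) ∣ Nat.card (↥U ⧸ W₂.subgroupOf U)
    rw [hVW]
    show p * (E'.toIntermediateField.fixingSubgroup).relIndex U ∣ W₂.relIndex U
    have hfin : W₁.index ≠ 0 := by
      rw [hW₁, ← finrank_eq_fixingSubgroup_index]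
      exact Module.finrank_pos.ne'
    have hp21 : p ∣ W₂.relIndex W₁ := by
      have h := Subgroup.relIndex_mul_index h21
      rw [← h] at hdvd
      exact (Nat.mul_dvd_mul_iff_right (Nat.pos_of_ne_zero hfin)).mp hdvd
    have hmul : W₂.relIndex W₁ * W₁.relIndex U = W₂.relIndex U :=
      Subgroup.relIndex_mul_relIndex W₂ W₁ U h21 h1U
    have hWdvd : (E'.toIntermediateField.fixingSubgroup).relIndex U ∣ W₁.relIndex U :=
      Subgroup.relIndex_dvd_of_le_left U h1W
    rw [← hmul]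
    exact Nat.mul_dvd_mul hp21 hWdvd

end Fermat.Agent.S55.KL.H215

end
-- ===== PACK-END S55/KL/LocalDegreeH215.lean

-- ===== PACK-BEGIN S55/L/H2Glue.lean
section


/-!
# S55, layer L: `H²` is cyclic of order `n` from the upper and the lower bound
-/

set_option autoImplicit false
set_option linter.style.haveILetI false

namespace Fermat.Agent.S55.L

open groupCohomology

/-- **L-C1b** lower bound: `H²(Gal(L/K), Lˣ)` contains an element of order `[L : K]`. -/
def H2LowerSpec : Prop :=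
  ∀ (K L : Type) [Field K] [Field L] [Algebra K L] [FiniteDimensional K L] [IsGalois K L]
    [IsLocalFld K], ∃ x : H2 (unitsRep K L), addOrderOf x = Module.finrank K L

/-- A finite additive group of order at most `n` with an element of order `n` is `ZMod n`. -/
theorem nonempty_addEquiv_zmod_of_card_le {G : Type*} [AddCommGroup G] [Finite G] {n : ℕ}
    (hle : Nat.card G ≤ n) (x : G) (hx : addOrderOf x = n) : Nonempty (G ≃+ ZMod n) := by
  have hcard : Nat.card G = n := by
    refine le_antisymm hle ?_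
    rw [← hx]
    exact Nat.le_of_dvd Nat.card_pos (addOrderOf_dvd_natCard x)
  have hcyc : IsAddCyclic G := isAddCyclic_of_addOrderOf_eq_card x (by rw [hx, hcard])
  have e := zmodAddCyclicAddEquiv hcyc
  rw [hcard] at e
  exact ⟨e.symm⟩

/-- **L-C1** from the upper and lower bounds. -/
theorem h2Cyclic_of (hle : H2CardLeSpec) (hlow : H2LowerSpec) : H2CyclicSpec := by
  intro K L _ _ _ _ _ _
  obtain ⟨hfin, hcard⟩ := hle K L
  obtain ⟨x, hx⟩ := hlow K L
  haveI := hfin
  exact nonempty_addEquiv_zmod_of_card_le hcard x hx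

end Fermat.Agent.S55.L

end
-- ===== PACK-END S55/L/H2Glue.lean

-- ===== PACK-BEGIN S56/FO/H6/CharInt.lean
section


/-!
# S56 / FLAT-O / CHAR-INT (helper6): characters are integral combinations of a Hopf lattice

`Λ` a Hopf lattice (cell A3, `Fermat.Agent.S19.H435.IsHopfLattice`) on a finite abelian group `M`.

* `span_Qb_eq_top`: the `ℚ̄`-span of `Λ` is the space of all functions `M → ℚ̄` (a separating
  subalgebra of functions on a finite set).
* `isIntegral_coeff_of_character`: if `χ : M → ℚ̄` is multiplicative (`χ 0 = 1`,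
  `χ (x + y) = χ x * χ y`) and `e` is a basis of `Λ` as in `IsHopfLattice.exists_basis`, then
  `χ = ∑ c i • e i` with all `c i` INTEGRAL over `ℤ_(ℓ)`.

Proof of integrality: if `e j (x + y) = ∑ γ j i k * e i x * e k y` (`γ ∈ ℤ_(ℓ)`), multiplicativity
of `χ` gives `c i * c k = ∑ j, γ j i k * c j`; so every `c i` stabilises the finitely generated
`ℤ_(ℓ)`-module `∑ ℤ_(ℓ) c j ≠ 0`.  (No dual Hopf algebra, no group algebra.)
-/

set_option autoImplicit false
set_option linter.style.haveILetI false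
set_option linter.unusedSectionVars false

noncomputable section

namespace Fermat.Agent.S56.FO.H6

open Fermat.Agent.S19.H435
open scoped BigOperators

variable {ℓ : ℕ} {M : Type*} [AddCommGroup M] {act : Gal → M → M}
  {Λ : Subalgebra (Zl ℓ) (M → _root_.Fermat.Agent.S19.H435.Qb)}

/-- The `ℚ̄`-span of a separating `ℤ_(ℓ)`-subalgebra of functions on a finite set is everything. -/
theorem span_Qb_eq_top [Finite M] (hsep : ∀ m n : M, m ≠ n → ∃ f ∈ Λ, f m ≠ f n) :
    Submodule.span _root_.Fermat.Agent.S19.H435.Qb (Λ : Set (M → _root_.Fermat.Agent.S19.H435.Qb)) = ⊤ := by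
  classical
  haveI : Fintype M := Fintype.ofFinite M
  set A : Subalgebra _root_.Fermat.Agent.S19.H435.Qb (M → _root_.Fermat.Agent.S19.H435.Qb) := Algebra.adjoin _root_.Fermat.Agent.S19.H435.Qb (Λ : Set (M → _root_.Fermat.Agent.S19.H435.Qb)) with hA
  have hδ : ∀ m : M, (Pi.single m (1 : _root_.Fermat.Agent.S19.H435.Qb) : M → _root_.Fermat.Agent.S19.H435.Qb) ∈ A := by
    intro m
    have hex : ∀ n : M, ∃ g ∈ A, g m = 1 ∧ (n ≠ m → g n = 0) := by
      intro n
      by_cases h : n = m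
      · exact ⟨1, A.one_mem, rfl, fun h' => absurd h h'⟩
      · obtain ⟨f, hf, hne⟩ := hsep m n (Ne.symm h)
        have hne' : f m - f n ≠ 0 := sub_ne_zero.mpr hne
        refine ⟨(f m - f n)⁻¹ • (f - algebraMap _root_.Fermat.Agent.S19.H435.Qb (M → _root_.Fermat.Agent.S19.H435.Qb) (f n)), ?_, ?_, ?_⟩
        · exact A.smul_mem (A.sub_mem (Algebra.subset_adjoin hf) (A.algebraMap_mem _)) _
        · show (f m - f n)⁻¹ * (f m - f n) = 1
          exact inv_mul_cancel₀ hne'
        · intro _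
          show (f m - f n)⁻¹ * (f n - f n) = 0
          rw [sub_self, mul_zero]
    choose g hgA hgm hgn using hex
    have hprod : (Pi.single m (1 : _root_.Fermat.Agent.S19.H435.Qb) : M → _root_.Fermat.Agent.S19.H435.Qb) = ∏ n, g n := by
      funext x
      rw [Finset.prod_apply]
      by_cases hx : x = m
      · subst hx
        rw [Pi.single_eq_same]
        exact (Finset.prod_eq_one fun n _ => hgm n).symm
      · rw [Pi.single_eq_of_ne hx]
        exact (Finset.prod_eq_zero (f := fun c => g c x) (Finset.mem_univ x) (hgn x hx)).symm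
    rw [hprod]
    exact A.prod_mem fun n _ => hgA n
  have hAtop : ∀ F : M → _root_.Fermat.Agent.S19.H435.Qb, F ∈ A := by
    intro F
    have hF : F = ∑ m, F m • (Pi.single m (1 : _root_.Fermat.Agent.S19.H435.Qb) : M → _root_.Fermat.Agent.S19.H435.Qb) := by
      funext x
      rw [Finset.sum_apply, Finset.sum_eq_single x]
      · simp
      · intro b _ hb
        simp [Pi.single_eq_of_ne (Ne.symm hb)]
      · intro h
        exact absurd (Finset.mem_univ x) h
    rw [hF]
    exact A.sum_mem fun m _ => A.smul_mem (hδ m) _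
  have hspan : Subalgebra.toSubmodule A = Submodule.span _root_.Fermat.Agent.S19.H435.Qb (Λ : Set (M → _root_.Fermat.Agent.S19.H435.Qb)) := by
    rw [hA, Algebra.adjoin_eq_span]
    congr 1
    exact congrArg SetLike.coe (Submonoid.closure_eq Λ.toSubmonoid)
  rw [eq_top_iff]
  intro F _
  rw [← hspan]
  exact hAtop F

/-- Every function is a `ℚ̄`-combination of a basis of a Hopf lattice. -/
theorem exists_coeff_of_basis [Finite M] (hsep : ∀ m n : M, m ≠ n → ∃ f ∈ Λ, f m ≠ f n)
    {n : ℕ} (e : Fin n → M → _root_.Fermat.Agent.S19.H435.Qb)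
    (hexp : ∀ f ∈ Λ, ∃ c : Fin n → Zl ℓ, f = ∑ i, c i • e i) (F : M → _root_.Fermat.Agent.S19.H435.Qb) :
    ∃ c : Fin n → _root_.Fermat.Agent.S19.H435.Qb, F = ∑ i, c i • e i := by
  have h1 : F ∈ Submodule.span _root_.Fermat.Agent.S19.H435.Qb (Λ : Set (M → _root_.Fermat.Agent.S19.H435.Qb)) := by
    rw [span_Qb_eq_top hsep]
    exact Submodule.mem_top
  have h2 : Submodule.span _root_.Fermat.Agent.S19.H435.Qb (Λ : Set (M → _root_.Fermat.Agent.S19.H435.Qb)) ≤ Submodule.span _root_.Fermat.Agent.S19.H435.Qb (Set.range e) := by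
    rw [Submodule.span_le]
    intro f hf
    obtain ⟨c, rfl⟩ := hexp f hf
    refine Submodule.sum_mem _ fun i _ => ?_
    have : c i • e i = (algebraMap (Zl ℓ) _root_.Fermat.Agent.S19.H435.Qb (c i)) • e i := (algebraMap_smul _root_.Fermat.Agent.S19.H435.Qb (c i) (e i)).symm
    rw [this]
    exact Submodule.smul_mem _ _ (Submodule.subset_span ⟨i, rfl⟩)
  obtain ⟨c, hc⟩ := (Submodule.mem_span_range_iff_exists_fun _root_.Fermat.Agent.S19.H435.Qb).mp (h2 h1)
  exact ⟨c, hc.symm⟩

/-- Pointwise form of an expansion with `ℤ_(ℓ)`-coefficients. -/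
theorem sum_Zl_smul_apply {n : ℕ} (c : Fin n → Zl ℓ) (e : Fin n → M → _root_.Fermat.Agent.S19.H435.Qb) (x : M) :
    (∑ i, c i • e i) x = ∑ i, algebraMap (Zl ℓ) _root_.Fermat.Agent.S19.H435.Qb (c i) * e i x := by
  rw [Finset.sum_apply]
  refine Finset.sum_congr rfl fun i _ => ?_
  show c i • e i x = _
  rw [Algebra.smul_def]

/-- Pointwise form of an expansion with `ℚ̄`-coefficients. -/
theorem sum_Qb_smul_apply {n : ℕ} (c : Fin n → _root_.Fermat.Agent.S19.H435.Qb) (e : Fin n → M → _root_.Fermat.Agent.S19.H435.Qb) (x : M) :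
    (∑ i, c i • e i) x = ∑ i, c i * e i x := by
  rw [Finset.sum_apply]
  rfl

/-- Comultiplication constants of a Hopf lattice in a basis. -/
theorem exists_comul_constants (hΛ : IsHopfLattice ℓ act Λ) {n : ℕ} (e : Fin n → M → _root_.Fermat.Agent.S19.H435.Qb)
    (he : ∀ i, e i ∈ Λ) (hexp : ∀ f ∈ Λ, ∃ c : Fin n → Zl ℓ, f = ∑ i, c i • e i) :
    ∃ γ : Fin n → Fin n → Fin n → Zl ℓ, ∀ (j : Fin n) (x y : M),
      e j (x + y) = ∑ i, ∑ k, algebraMap (Zl ℓ) _root_.Fermat.Agent.S19.H435.Qb (γ j i k) * (e i x * e k y) := by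
  have key : ∀ j : Fin n, ∃ γ : Fin n → Fin n → Zl ℓ, ∀ x y : M,
      e j (x + y) = ∑ i, ∑ k, algebraMap (Zl ℓ) _root_.Fermat.Agent.S19.H435.Qb (γ i k) * (e i x * e k y) := by
    intro j
    obtain ⟨N, a, b, ha, hb, hab⟩ := hΛ.comul_mem (e j) (he j)
    choose α hα using fun t => hexp (a t) (ha t)
    choose β hβ using fun t => hexp (b t) (hb t)
    refine ⟨fun i k => ∑ t, α t i * β t k, fun x y => ?_⟩
    rw [hab x y]
    have h1 : ∀ t, a t x * b t y =
        ∑ i, ∑ k, algebraMap (Zl ℓ) _root_.Fermat.Agent.S19.H435.Qb (α t i * β t k) * (e i x * e k y) := by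
      intro t
      rw [hα t, hβ t, sum_Zl_smul_apply, sum_Zl_smul_apply, Finset.sum_mul_sum]
      refine Finset.sum_congr rfl fun i _ => Finset.sum_congr rfl fun k _ => ?_
      rw [map_mul]
      ring
    simp_rw [h1]
    rw [Finset.sum_comm]
    refine Finset.sum_congr rfl fun i _ => ?_
    rw [Finset.sum_comm]
    refine Finset.sum_congr rfl fun k _ => ?_
    rw [map_sum, Finset.sum_mul]
  choose γ hγ using key
  exact ⟨γ, hγ⟩

/-- `ℚ̄`-linear independence of the products `e i x * e k y`. -/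
theorem eq_zero_of_sum_mul_eq_zero {n : ℕ} (e : Fin n → M → _root_.Fermat.Agent.S19.H435.Qb) (hli : LinearIndependent _root_.Fermat.Agent.S19.H435.Qb e)
    (w : Fin n → Fin n → _root_.Fermat.Agent.S19.H435.Qb) (h : ∀ x y : M, ∑ i, ∑ k, w i k * (e i x * e k y) = 0) :
    ∀ i k, w i k = 0 := by
  have hli' := Fintype.linearIndependent_iff.mp hli
  have h1 : ∀ (y : M) (i : Fin n), ∑ k, w i k * e k y = 0 := by
    intro y
    apply hli'
    funext x
    rw [sum_Qb_smul_apply, Pi.zero_apply, ← h x y]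
    refine Finset.sum_congr rfl fun i _ => ?_
    rw [Finset.sum_mul]
    refine Finset.sum_congr rfl fun k _ => ?_
    ring
  intro i
  apply hli'
  funext y
  rw [sum_Qb_smul_apply, Pi.zero_apply]
  exact h1 y i

/-- **CHAR-INT.**  A multiplicative function on `M` is an INTEGRAL combination of any basis of a
Hopf lattice. -/
theorem isIntegral_coeff_of_character [Finite M] (hΛ : IsHopfLattice ℓ act Λ)
    {n : ℕ} (e : Fin n → M → _root_.Fermat.Agent.S19.H435.Qb) (he : ∀ i, e i ∈ Λ) (hli : LinearIndependent _root_.Fermat.Agent.S19.H435.Qb e)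
    (hexp : ∀ f ∈ Λ, ∃ c : Fin n → Zl ℓ, f = ∑ i, c i • e i)
    (χ : M → _root_.Fermat.Agent.S19.H435.Qb) (h0 : χ 0 = 1) (hadd : ∀ x y : M, χ (x + y) = χ x * χ y) :
    ∃ c : Fin n → _root_.Fermat.Agent.S19.H435.Qb, (∀ i, IsIntegral (Zl ℓ) (c i)) ∧ χ = ∑ i, c i • e i := by
  obtain ⟨c, hc⟩ := exists_coeff_of_basis hΛ.separates e hexp χ
  obtain ⟨γ, hγ⟩ := exists_comul_constants hΛ e he hexp
  refine ⟨c, ?_, hc⟩
  have hχ : ∀ x : M, χ x = ∑ i, c i * e i x := by
    intro x
    rw [hc, sum_Qb_smul_apply]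
  -- the group-like identity
  have hgl : ∀ i k : Fin n, c i * c k = ∑ j, algebraMap (Zl ℓ) _root_.Fermat.Agent.S19.H435.Qb (γ j i k) * c j := by
    have := eq_zero_of_sum_mul_eq_zero e hli
      (fun i k => c i * c k - ∑ j, algebraMap (Zl ℓ) _root_.Fermat.Agent.S19.H435.Qb (γ j i k) * c j) (by
        intro x y
        have h1 : ∑ i, ∑ k, c i * c k * (e i x * e k y) = χ x * χ y := by
          rw [hχ x, hχ y, Finset.sum_mul_sum]
          refine Finset.sum_congr rfl fun i _ => Finset.sum_congr rfl fun k _ => ?_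
          ring
        have h2 : χ (x + y) =
            ∑ i, ∑ k, (∑ j, algebraMap (Zl ℓ) _root_.Fermat.Agent.S19.H435.Qb (γ j i k) * c j) * (e i x * e k y) := by
          rw [hχ (x + y)]
          have h3 : ∀ j, c j * e j (x + y) =
              ∑ i, ∑ k, algebraMap (Zl ℓ) _root_.Fermat.Agent.S19.H435.Qb (γ j i k) * c j * (e i x * e k y) := by
            intro j
            rw [hγ j x y, Finset.mul_sum]
            refine Finset.sum_congr rfl fun i _ => ?_
            rw [Finset.mul_sum]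
            refine Finset.sum_congr rfl fun k _ => ?_
            ring
          simp_rw [h3]
          rw [Finset.sum_comm]
          refine Finset.sum_congr rfl fun i _ => ?_
          rw [Finset.sum_comm]
          refine Finset.sum_congr rfl fun k _ => ?_
          rw [Finset.sum_mul]
        simp only [sub_mul, Finset.sum_sub_distrib]
        rw [h1, ← h2, hadd, sub_self])
    intro i k
    exact sub_eq_zero.mp (this i k)
  -- the module generated by the coefficients
  set N : Submodule (Zl ℓ) _root_.Fermat.Agent.S19.H435.Qb := Submodule.span (Zl ℓ) (Set.range c) with hN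
  have hNfg : N.FG := Submodule.fg_span (Set.finite_range c)
  have hNne : N ≠ ⊥ := by
    intro hbot
    have hc0 : ∀ i, c i = 0 := by
      intro i
      have : c i ∈ N := Submodule.subset_span ⟨i, rfl⟩
      rw [hbot] at this
      exact (Submodule.mem_bot _).mp this
    have : χ 0 = 0 := by
      rw [hχ 0]
      exact Finset.sum_eq_zero fun i _ => by rw [hc0 i, zero_mul]
    rw [h0] at this
    exact one_ne_zero this
  intro i
  refine isIntegral_of_smul_mem_submodule (R := Zl ℓ) (A := _root_.Fermat.Agent.S19.H435.Qb) (M := _root_.Fermat.Agent.S19.H435.Qb) N hNne hNfg (c i) ?_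
  intro z hz
  induction hz using Submodule.span_induction with
  | mem z hz =>
    obtain ⟨k, rfl⟩ := hz
    show c i * c k ∈ N
    rw [hgl i k]
    refine Submodule.sum_mem _ fun j _ => ?_
    have : algebraMap (Zl ℓ) _root_.Fermat.Agent.S19.H435.Qb (γ j i k) * c j = γ j i k • c j := (Algebra.smul_def _ _).symm
    rw [this]
    exact Submodule.smul_mem _ _ (Submodule.subset_span ⟨j, rfl⟩)
  | zero =>
    rw [smul_zero]
    exact Submodule.zero_mem _
  | add x y _ _ hx hy =>
    rw [smul_add]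
    exact Submodule.add_mem _ hx hy
  | smul r x _ hx =>
    rw [smul_comm]
    exact Submodule.smul_mem _ _ hx

end Fermat.Agent.S56.FO.H6

end
end
-- ===== PACK-END S56/FO/H6/CharInt.lean

-- ===== PACK-BEGIN S56/P3/H306/Basic.lean
section


/-!
# S56 / P3 : basic lemmas on the twisted adjoint action and twisted cocycles (helper306)
-/

set_option autoImplicit false

open Polynomial

namespace Fermat.Agent.S56.P3.H306

open Fermat.Agent.S56.P3

variable {k : Type} [Field k] {V : Type} [AddCommGroup V] [Module k V] [Module.Finite k V]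
variable {Γ : Type} [Group Γ]

theorem rho_mul_inv (ρ : Γ →* Module.End k V) (g : Γ) : ρ g * ρ g⁻¹ = 1 := by
  rw [← map_mul, mul_inv_cancel, map_one]

theorem rho_inv_mul (ρ : Γ →* Module.End k V) (g : Γ) : ρ g⁻¹ * ρ g = 1 := by
  rw [← map_mul, inv_mul_cancel, map_one]

theorem det_rho_mul_inv (ρ : Γ →* Module.End k V) (g : Γ) :
    LinearMap.det (ρ g) * LinearMap.det (ρ g⁻¹) = 1 := by
  rw [← map_mul, rho_mul_inv, map_one]

theorem det_rho_ne_zero (ρ : Γ →* Module.End k V) (g : Γ) : LinearMap.det (ρ g) ≠ 0 := by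
  intro h
  have := det_rho_mul_inv ρ g
  rw [h, zero_mul] at this
  exact zero_ne_one this

theorem rho_eq_one_inv {ρ : Γ →* Module.End k V} {g : Γ} (h : ρ g = 1) : ρ g⁻¹ = 1 := by
  have := rho_inv_mul ρ g
  rwa [h, mul_one] at this

/-- conjugation as a linear map. -/
noncomputable def conjL (ρ : Γ →* Module.End k V) (g : Γ) :
    Module.End k V →ₗ[k] Module.End k V :=
  (LinearMap.mulLeft k (ρ g)).comp (LinearMap.mulRight k (ρ g⁻¹))

@[simp] theorem conjL_apply (ρ : Γ →* Module.End k V) (g : Γ) (A : Module.End k V) :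
    conjL ρ g A = ρ g * A * ρ g⁻¹ := by
  simp [conjL, mul_assoc]

theorem trace_conj (ρ : Γ →* Module.End k V) (g : Γ) (A : Module.End k V) :
    LinearMap.trace k V (ρ g * A * ρ g⁻¹) = LinearMap.trace k V A := by
  rw [LinearMap.trace_mul_comm, ← mul_assoc, rho_inv_mul, one_mul]

theorem twEnd_one (ρ : Γ →* Module.End k V) (A : Module.End k V) : twEnd ρ 1 A = A := by
  simp [twEnd]

theorem twEnd_of_rho_eq_one {ρ : Γ →* Module.End k V} {g : Γ} (h : ρ g = 1)
    (A : Module.End k V) : twEnd ρ g A = A := by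
  simp [twEnd, h, rho_eq_one_inv h]

theorem twEnd_congr {ρ : Γ →* Module.End k V} {g h : Γ} (e : ρ g = ρ h)
    (A : Module.End k V) : twEnd ρ g A = twEnd ρ h A := by
  have e' : ρ g⁻¹ = ρ h⁻¹ := by
    have h1 : ρ g⁻¹ * ρ g = 1 := rho_inv_mul ρ g
    calc ρ g⁻¹ = ρ g⁻¹ * (ρ h * ρ h⁻¹) := by rw [rho_mul_inv, mul_one]
      _ = (ρ g⁻¹ * ρ g) * ρ h⁻¹ := by rw [e, mul_assoc]
      _ = ρ h⁻¹ := by rw [h1, one_mul]
  simp only [twEnd, e, e']

theorem twEnd_add (ρ : Γ →* Module.End k V) (g : Γ) (A B : Module.End k V) :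
    twEnd ρ g (A + B) = twEnd ρ g A + twEnd ρ g B := by
  simp only [twEnd, mul_add, add_mul, smul_add]

theorem twEnd_neg (ρ : Γ →* Module.End k V) (g : Γ) (A : Module.End k V) :
    twEnd ρ g (-A) = - twEnd ρ g A := by
  simp only [twEnd, mul_neg, neg_mul, smul_neg]

theorem twEnd_sub (ρ : Γ →* Module.End k V) (g : Γ) (A B : Module.End k V) :
    twEnd ρ g (A - B) = twEnd ρ g A - twEnd ρ g B := by
  simp only [twEnd, mul_sub, sub_mul, smul_sub]

section Cocycle

variable {ρ : Γ →* Module.End k V} {ψ : Γ → Module.End k V}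

theorem cocycle_one (hψ : _root_.Fermat.Agent.S56.P3.IsTwCocycle ρ ψ) : ψ 1 = 0 := by
  have h := hψ.map_mul 1 1
  rw [mul_one, twEnd_one] at h
  exact left_eq_add.mp h

theorem cocycle_inv (hψ : _root_.Fermat.Agent.S56.P3.IsTwCocycle ρ ψ) (g : Γ) : twEnd ρ g (ψ g⁻¹) = - ψ g := by
  have h := hψ.map_mul g g⁻¹
  rw [mul_inv_cancel, cocycle_one hψ] at h
  exact (neg_eq_of_add_eq_zero_right h.symm).symm ▸ rfl

/-- on `ker ρ`, a cocycle is equivariant for conjugation. -/
theorem cocycle_conj (hψ : _root_.Fermat.Agent.S56.P3.IsTwCocycle ρ ψ) (g ν : Γ) (hν : ρ ν = 1) :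
    ψ (g * ν * g⁻¹) = twEnd ρ g (ψ ν) := by
  have e : ρ (g * ν) = ρ g := by rw [map_mul, hν, mul_one]
  rw [hψ.map_mul (g * ν) g⁻¹, hψ.map_mul g ν, twEnd_congr e, cocycle_inv hψ]
  abel

theorem cocycle_mul_of_rho_eq_one (hψ : _root_.Fermat.Agent.S56.P3.IsTwCocycle ρ ψ) (ν g : Γ) (hν : ρ ν = 1) :
    ψ (ν * g) = ψ ν + ψ g := by
  rw [hψ.map_mul, twEnd_of_rho_eq_one hν]

end Cocycle

end Fermat.Agent.S56.P3.H306

end
-- ===== PACK-END S56/P3/H306/Basic.lean

-- ===== PACK-BEGIN S56/H726/Five.lean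
section


/-!
# S56 / P3(b) — the case `p = 5`, and vanishing of `f = tr Ψ` on `H` (helper726)
-/

set_option autoImplicit false

namespace Fermat.Agent.S56.H726

open Matrix

namespace TwData

variable {k : Type*} [Field k] {G : Type*} [Group G] (D : TwData k G)

/-- If `tr (ρ σ * Y) = 0` for all `σ ∈ H` then `Y = 0`. -/
theorem eq_zero_of_trace_ρ_mul {Y : Matrix (Fin 2) (Fin 2) k}
    (h : ∀ σ ∈ D.H, (D.ρ σ * Y).trace = 0) : Y = 0 := by
  apply m2_eq_zero_of_trace_mul
  intro X
  set L : Matrix (Fin 2) (Fin 2) k →ₗ[k] k :=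
    (Matrix.traceLinearMap (Fin 2) k k).comp (LinearMap.mulRight k Y) with hL
  have hle : Submodule.span k (D.ρ '' (D.H : Set G)) ≤ LinearMap.ker L := by
    rw [Submodule.span_le]
    rintro _ ⟨σ, hσ, rfl⟩
    exact h σ hσ
  rw [D.span] at hle
  have : X ∈ LinearMap.ker L := hle Submodule.mem_top
  exact this

/-- If `tr (Y * ρ σ) = 0` for all `σ ∈ H` then `Y = 0`. -/
theorem eq_zero_of_trace_mul_ρ {Y : Matrix (Fin 2) (Fin 2) k}
    (h : ∀ σ ∈ D.H, (Y * D.ρ σ).trace = 0) : Y = 0 :=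
  D.eq_zero_of_trace_ρ_mul (fun σ hσ => by rw [Matrix.trace_mul_comm]; exact h σ hσ)

/-- If `Y` commutes with `ρ(H)` then it commutes with everything. -/
theorem commute_of_commute_ρ {Y : Matrix (Fin 2) (Fin 2) k}
    (h : ∀ σ ∈ D.H, Y * D.ρ σ = D.ρ σ * Y) (X : Matrix (Fin 2) (Fin 2) k) :
    Y * X = X * Y := by
  set L : Matrix (Fin 2) (Fin 2) k →ₗ[k] Matrix (Fin 2) (Fin 2) k :=
    LinearMap.mulLeft k Y - LinearMap.mulRight k Y with hL
  have hle : Submodule.span k (D.ρ '' (D.H : Set G)) ≤ LinearMap.ker L := by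
    rw [Submodule.span_le]
    rintro _ ⟨σ, hσ, rfl⟩
    show L (D.ρ σ) = 0
    simp [hL, h σ hσ]
  rw [D.span] at hle
  have : X ∈ LinearMap.ker L := hle Submodule.mem_top
  have h0 : L X = 0 := this
  simp only [hL, LinearMap.sub_apply, LinearMap.mulLeft_apply, LinearMap.mulRight_apply] at h0
  exact sub_eq_zero.mp h0

variable {τ σ₀ : G} {n : Matrix (Fin 2) (Fin 2) k}

theorem exists_σ₀ (hn0 : n ≠ 0) : ∃ σ₀ ∈ D.H, (D.ρ σ₀ * n).trace ≠ 0 := by
  by_contra h
  push Not at h
  exact hn0 (D.eq_zero_of_trace_ρ_mul h)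

theorem ρ_conj (g τ : G) : D.ρ (g * τ * g⁻¹) = D.ρ g * D.ρ τ * D.ρ g⁻¹ := by
  rw [map_mul, map_mul]

theorem trace_ρ_conj (g τ : G) : (D.ρ (g * τ * g⁻¹)).trace = (D.ρ τ).trace := by
  rw [D.ρ_conj, Matrix.trace_mul_comm, ← mul_assoc, D.ρ_inv_mul, one_mul]

/-- `p = 5`, the case `e ≠ 0`. -/
theorem five_of_e_ne [Finite k] [CharP k 5] (hτ : τ ∈ D.H) (hn : D.ρ τ = 1 + n)
    (hn2 : n * n = 0) (hμ : (D.Ψ τ).trace ≠ 0) (g : G)
    (hd1 : (D.ρ g).det ≠ 1) (hd2 : (D.ρ g).det ≠ -1)
    (he : (D.ρ (g * τ * g⁻¹) * n).trace ≠ 0) : False := by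
  have hσ₀ : g * τ * g⁻¹ ∈ D.H := D.normal.conj_mem τ hτ g
  have ht₀ : (D.ρ (g * τ * g⁻¹)).trace = 2 := by
    rw [D.trace_ρ_conj, hn, Matrix.trace_add, m2_trace_of_sq_zero hn2, Matrix.trace_one,
      Fintype.card_fin]
    norm_num
  have h := seq_five (fun j => (D.Ψ (g * τ * g⁻¹ * τ ^ j)).trace) (D.Ψ τ).trace
    (D.ρ (g * τ * g⁻¹) * n).trace
    (fun j => by
      have := D.rec_step hτ hσ₀ hn hn2 j
      rw [ht₀] at this
      exact this)
    (fun j => by
      show (D.Ψ (g * τ * g⁻¹ * τ ^ (j + 5))).trace = _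
      rw [D.periodic 5 hτ hn hn2])
    (fun j h => by
      apply D.vanish hτ hσ₀ hn hn2 j
      rw [ht₀]
      exact h)
    he hμ
  simp only [pow_zero, mul_one] at h
  rw [D.f_conj g hτ] at h
  rcases h with h | h
  · apply hd1
    have : ((D.ρ g).det - 1) * (D.Ψ τ).trace = 0 := by linear_combination h
    rcases mul_eq_zero.mp this with h' | h'
    · exact sub_eq_zero.mp h'
    · exact absurd h' hμ
  · apply hd2
    have : ((D.ρ g).det + 1) * (D.Ψ τ).trace = 0 := by linear_combination h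
    rcases mul_eq_zero.mp this with h' | h'
    · exact eq_neg_of_add_eq_zero_left h'
    · exact absurd h' hμ

/-- `p = 5`: if `e(g) = 0` then `e(σ₀ g) ≠ 0`. -/
theorem five_e_of_zero (hσ₀ : σ₀ ∈ D.H) (hn : D.ρ τ = 1 + n)
    (hn2 : n * n = 0) (hn0 : n ≠ 0) (hc : (D.ρ σ₀ * n).trace ≠ 0) (g : G)
    (he : (D.ρ (g * τ * g⁻¹) * n).trace = 0) :
    (D.ρ (σ₀ * g * τ * (σ₀ * g)⁻¹) * n).trace ≠ 0 := by
  have htn := m2_trace_of_sq_zero hn2
  -- `n' = ρ g * n * ρ g⁻¹`
  have e1 : D.ρ (g * τ * g⁻¹) = 1 + D.ρ g * n * D.ρ g⁻¹ := by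
    rw [D.ρ_conj, hn, mul_add, mul_one, add_mul, D.ρ_mul_inv]
  have hn'2 : (D.ρ g * n * D.ρ g⁻¹) * (D.ρ g * n * D.ρ g⁻¹) = 0 := by
    have : (D.ρ g * n * D.ρ g⁻¹) * (D.ρ g * n * D.ρ g⁻¹) =
        D.ρ g * n * (D.ρ g⁻¹ * D.ρ g) * n * D.ρ g⁻¹ := by noncomm_ring
    rw [this, D.ρ_inv_mul, mul_one, mul_assoc (D.ρ g), hn2, mul_zero, zero_mul]
  have htr : ((D.ρ g * n * D.ρ g⁻¹) * n).trace = 0 := by
    rw [e1, add_mul, one_mul, Matrix.trace_add, htn, zero_add] at he
    exact he
  obtain ⟨y, hy⟩ := m2_nil_prop hn2 hn'2 htr hn0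
  have hy0 : y ≠ 0 := by
    rintro rfl
    rw [zero_smul] at hy
    apply hn0
    have : n = (D.ρ g⁻¹ * D.ρ g) * n * (D.ρ g⁻¹ * D.ρ g) := by
      rw [D.ρ_inv_mul, one_mul, mul_one]
    rw [this]
    have : (D.ρ g⁻¹ * D.ρ g) * n * (D.ρ g⁻¹ * D.ρ g) =
        D.ρ g⁻¹ * (D.ρ g * n * D.ρ g⁻¹) * D.ρ g := by noncomm_ring
    rw [this, hy, mul_zero, zero_mul]
  -- the new conjugate
  have e2 : D.ρ (σ₀ * g * τ * (σ₀ * g)⁻¹) =
      1 + y • (D.ρ σ₀ * n * D.ρ σ₀⁻¹) := by
    have : σ₀ * g * τ * (σ₀ * g)⁻¹ = σ₀ * (g * τ * g⁻¹) * σ₀⁻¹ := by group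
    rw [this, D.ρ_conj σ₀, e1, hy, mul_add, mul_one, add_mul, D.ρ_mul_inv, Matrix.mul_smul,
      Matrix.smul_mul]
  have hB' := m2_inv_of_det_one (D.det_H σ₀ hσ₀) (D.ρ_mul_inv σ₀)
  have e3 : (D.ρ σ₀ * n * D.ρ σ₀⁻¹ * n).trace = -((D.ρ σ₀ * n).trace) ^ 2 := by
    have s := m2_nil_sandwich hn2 htn (D.ρ σ₀⁻¹)
    rw [mul_assoc (D.ρ σ₀ * n), mul_assoc (D.ρ σ₀), ← mul_assoc n, s, Matrix.mul_smul,
      Matrix.trace_smul, smul_eq_mul, hB', mul_sub, Matrix.trace_sub, Matrix.mul_smul, mul_one,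
      Matrix.trace_smul, htn, smul_zero, zero_sub, Matrix.trace_mul_comm n (D.ρ σ₀)]
    ring
  rw [e2, add_mul, one_mul, Matrix.trace_add, htn, zero_add, Matrix.smul_mul, Matrix.trace_smul,
    e3, smul_eq_mul]
  exact mul_ne_zero hy0 (neg_ne_zero.mpr (pow_ne_zero 2 hc))

/-- A unipotent element with `f ≠ 0` from an element of trace `2`. -/
theorem unip_of_trace_two {σ : G} (hσ : σ ∈ D.H) (ht : (D.ρ σ).trace = 2)
    (hf : (D.Ψ σ).trace ≠ 0) :
    ∃ n : Matrix (Fin 2) (Fin 2) k, D.ρ σ = 1 + n ∧ n * n = 0 ∧ n ≠ 0 := by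
  refine ⟨D.ρ σ - 1, by abel, ?_, ?_⟩
  · have h := m2_sq (D.ρ σ)
    rw [ht, D.det_H σ hσ] at h
    rw [sub_mul, mul_sub, h]
    simp only [mul_one, one_mul]
    module
  · intro h0
    apply hf
    rw [D.Ψ_N σ hσ (sub_eq_zero.mp h0), Matrix.trace_zero]

theorem exists_unip [Finite k] (h2 : (2 : k) ≠ 0)
    (hex : ∃ σ ∈ D.H, (D.Ψ σ).trace ≠ 0) :
    ∃ τ ∈ D.H, ∃ n : Matrix (Fin 2) (Fin 2) k, D.ρ τ = 1 + n ∧ n * n = 0 ∧ n ≠ 0 ∧
      (D.Ψ τ).trace ≠ 0 := by
  obtain ⟨σ, hσ, hf⟩ := hex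
  have ht : (D.ρ σ).trace ^ 2 = 4 := by
    by_contra h
    exact hf (D.f_eq_zero_of_trace_sq_ne hσ h)
  have ht' : ((D.ρ σ).trace - 2) * ((D.ρ σ).trace + 2) = 0 := by linear_combination ht
  rcases mul_eq_zero.mp ht' with h | h
  · have ht2 : (D.ρ σ).trace = 2 := sub_eq_zero.mp h
    obtain ⟨n, h1, h2', h3⟩ := D.unip_of_trace_two hσ ht2 hf
    exact ⟨σ, hσ, n, h1, h2', h3, hf⟩
  · have ht2 : (D.ρ σ).trace = -2 := eq_neg_of_add_eq_zero_left h
    have hσ2 : σ * σ ∈ D.H := D.H.mul_mem hσ hσ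
    have hadd := D.f_add hσ hσ
    rw [mul_inv_cancel, D.Ψ_one, Matrix.trace_zero, add_zero, ht2] at hadd
    have hf2 : (D.Ψ (σ * σ)).trace ≠ 0 := by
      rw [hadd]
      intro h0
      apply hf
      have : (4 : k) * (D.Ψ σ).trace = 0 := by linear_combination -h0
      rcases mul_eq_zero.mp this with h' | h'
      · exfalso
        apply h2
        have : (2 : k) * 2 = 0 := by linear_combination h'
        exact mul_self_eq_zero.mp this
      · exact h'
    have htr2 : (D.ρ (σ * σ)).trace = 2 := by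
      rw [map_mul, m2_sq, Matrix.trace_sub, Matrix.trace_smul, Matrix.trace_smul, ht2,
        D.det_H σ hσ, Matrix.trace_one, Fintype.card_fin]
      simp only [smul_eq_mul]
      push_cast
      ring
    obtain ⟨n, h1, h2', h3⟩ := D.unip_of_trace_two hσ2 htr2 hf2
    exact ⟨σ * σ, hσ2, n, h1, h2', h3, hf2⟩

/-- **Vanishing of `f = tr Ψ` on `H`.** -/
theorem f_eq_zero [Finite k] (p : ℕ) [Fact p.Prime] [CharP k p] (hp2 : p ≠ 2)
    (h5 : p = 5 → ∃ g : G, (D.ρ g).det ≠ 1 ∧ (D.ρ g).det ≠ -1) :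
    ∀ σ ∈ D.H, (D.Ψ σ).trace = 0 := by
  by_contra hcon
  push Not at hcon
  have hpr : p.Prime := Fact.out
  have h2 : (2 : k) ≠ 0 := by
    have := natCast_ne_zero_of_lt (k := k) p (n := 2) (by norm_num)
      (lt_of_le_of_ne hpr.two_le (Ne.symm hp2))
    exact_mod_cast this
  obtain ⟨τ, hτ, n, hn, hn2, hn0, hμ⟩ := D.exists_unip h2 hcon
  obtain ⟨σ₀, hσ₀, hc⟩ := D.exists_σ₀ hn0
  have hp3 : p = 3 ∨ p = 5 ∨ 7 ≤ p := by
    rcases Nat.lt_or_ge p 7 with h | h
    · have h2le := hpr.two_le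
      interval_cases p
      · exact absurd rfl hp2
      · exact Or.inl rfl
      · exact absurd hpr (by decide)
      · exact Or.inr (Or.inl rfl)
      · exact absurd hpr (by decide)
    · exact Or.inr (Or.inr h)
  rcases hp3 with h | h | h
  · exact absurd (D.unip_contra p (Or.inl h) hτ hσ₀ hn hn2) (mul_ne_zero hμ hc)
  · subst h
    obtain ⟨g, hd1, hd2⟩ := h5 rfl
    by_cases he : (D.ρ (g * τ * g⁻¹) * n).trace = 0
    · have he' := D.five_e_of_zero hσ₀ hn hn2 hn0 hc g he
      have hdet : (D.ρ (σ₀ * g)).det = (D.ρ g).det := by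
        rw [map_mul, Matrix.det_mul, D.det_H σ₀ hσ₀, one_mul]
      refine D.five_of_e_ne hτ hn hn2 hμ (σ₀ * g) (by rw [hdet]; exact hd1)
        (by rw [hdet]; exact hd2) ?_
      exact he'
    · exact D.five_of_e_ne hτ hn hn2 hμ g hd1 hd2 he
  · exact absurd (D.unip_contra p (Or.inr h) hτ hσ₀ hn hn2) (mul_ne_zero hμ hc)

end TwData

end Fermat.Agent.S56.H726

end
-- ===== PACK-END S56/H726/Five.lean

-- ===== PACK-BEGIN S56/P3/H635/REG.lean
section


/-!
# S56 / P3, piece REG (helper635): `SpanDeltaStatement → ExistsRegularStatement`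

If no `ρ δ`, `δ ∈ Δ`, has two distinct eigenvalues, then `tr² = 4 det` on `ρ(Δ)`; applying this to
`δ₁`, `δ₂`, `δ₁ δ₂`, `δ₁² δ₂` gives the bilinear identity `2 tr(A₁ A₂) = tr A₁ · tr A₂` on `ρ(Δ)`,
hence (SPAN) on all of `M₂(k)`, which is absurd for `A₁ = E₁₂`, `A₂ = E₂₁` (`2 ≠ 0`).
-/

set_option autoImplicit false

open Polynomial

namespace Fermat.Agent.S56.P3.H635

section Matrix2

variable {k : Type} [Field k]

/-- Cayley–Hamilton in trace form for `2 × 2` matrices. -/
theorem trace_sq_mul (A B : Matrix (Fin 2) (Fin 2) k) :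
    (A * A * B).trace = A.trace * (A * B).trace - A.det * B.trace := by
  simp only [Matrix.trace_fin_two, Matrix.det_fin_two, Matrix.mul_apply, Fin.sum_univ_two]
  ring

/-- The key algebraic step. -/
theorem two_mul_eq_of_sq_eq {T₁ T₂ D₁ D₂ s : k} (h2 : (2 : k) ≠ 0) (hD₁ : D₁ ≠ 0)
    (hD₂ : D₂ ≠ 0) (h1 : T₁ ^ 2 = 4 * D₁) (h2' : T₂ ^ 2 = 4 * D₂) (h12 : s ^ 2 = 4 * (D₁ * D₂))
    (h112 : (T₁ * s - D₁ * T₂) ^ 2 = 4 * (D₁ * D₁ * D₂)) : 2 * s = T₁ * T₂ := by
  have e1 : 2 * D₁ * (8 * D₁ * D₂ - T₁ * T₂ * s) = 0 := by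
    linear_combination h112 - s ^ 2 * h1 - 4 * D₁ * h12 - D₁ ^ 2 * h2'
  have e2 : T₁ * T₂ * s = 8 * D₁ * D₂ := by
    have := (mul_eq_zero.1 e1).resolve_left (mul_ne_zero h2 hD₁)
    linear_combination -this
  have e3 : 8 * D₁ * D₂ * (2 * s - T₁ * T₂) = 0 := by
    linear_combination (T₁ * T₂) * e2 - s * T₂ ^ 2 * h1 - 4 * D₁ * s * h2'
  have h8 : (8 : k) ≠ 0 := by
    have : (8 : k) = 2 * 2 * 2 := by norm_num
    rw [this]
    exact mul_ne_zero (mul_ne_zero h2 h2) h2
  have := (mul_eq_zero.1 e3).resolve_left (mul_ne_zero (mul_ne_zero h8 hD₁) hD₂)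
  linear_combination this

/-- A multiplicatively closed set of invertible `2 × 2` matrices with `tr² = 4 det` cannot span
`M₂(k)` when `2 ≠ 0`. -/
theorem span_ne_top_of_trace_sq (h2 : (2 : k) ≠ 0) (s : Set (Matrix (Fin 2) (Fin 2) k))
    (hmul : ∀ A ∈ s, ∀ B ∈ s, A * B ∈ s) (hdet : ∀ A ∈ s, A.det ≠ 0)
    (htr : ∀ A ∈ s, A.trace ^ 2 = 4 * A.det) : Submodule.span k s ≠ ⊤ := by
  intro htop
  -- the bilinear identity on `s`
  have key : ∀ A ∈ s, ∀ B ∈ s, 2 * (A * B).trace = A.trace * B.trace := by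
    intro A hA B hB
    have hAB := hmul A hA B hB
    have hAAB := hmul A hA (A * B) hAB
    refine two_mul_eq_of_sq_eq h2 (hdet A hA) (hdet B hB) (htr A hA) (htr B hB) ?_ ?_
    · have := htr (A * B) hAB
      rw [Matrix.det_mul] at this
      exact this
    · have := htr (A * (A * B)) hAAB
      rw [← mul_assoc, trace_sq_mul, Matrix.det_mul, Matrix.det_mul] at this
      linear_combination this
  -- extend to all matrices in the first variable
  have key1 : ∀ X : Matrix (Fin 2) (Fin 2) k, ∀ B ∈ s, 2 * (X * B).trace = X.trace * B.trace := by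
    intro X B hB
    let f : Matrix (Fin 2) (Fin 2) k →ₗ[k] k :=
      (2 : k) • (Matrix.traceLinearMap (Fin 2) k k ∘ₗ LinearMap.mulRight k B)
    let g : Matrix (Fin 2) (Fin 2) k →ₗ[k] k := B.trace • Matrix.traceLinearMap (Fin 2) k k
    have hfg : Set.EqOn f g s := by
      intro A hA
      have := key A hA B hB
      simp only [f, g, LinearMap.smul_apply, LinearMap.comp_apply, LinearMap.mulRight_apply,
        Matrix.traceLinearMap_apply, smul_eq_mul]
      linear_combination this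
    have hX : X ∈ Submodule.span k s := by rw [htop]; trivial
    have := LinearMap.eqOn_span hfg hX
    simp only [f, g, LinearMap.smul_apply, LinearMap.comp_apply, LinearMap.mulRight_apply,
      Matrix.traceLinearMap_apply, smul_eq_mul] at this
    linear_combination this
  -- extend to all matrices in the second variable
  have key2 : ∀ X Y : Matrix (Fin 2) (Fin 2) k, 2 * (X * Y).trace = X.trace * Y.trace := by
    intro X Y
    let f : Matrix (Fin 2) (Fin 2) k →ₗ[k] k :=
      (2 : k) • (Matrix.traceLinearMap (Fin 2) k k ∘ₗ LinearMap.mulLeft k X)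
    let g : Matrix (Fin 2) (Fin 2) k →ₗ[k] k := X.trace • Matrix.traceLinearMap (Fin 2) k k
    have hfg : Set.EqOn f g s := by
      intro B hB
      have := key1 X B hB
      simp only [f, g, LinearMap.smul_apply, LinearMap.comp_apply, LinearMap.mulLeft_apply,
        Matrix.traceLinearMap_apply, smul_eq_mul]
      linear_combination this
    have hY : Y ∈ Submodule.span k s := by rw [htop]; trivial
    have := LinearMap.eqOn_span hfg hY
    simp only [f, g, LinearMap.smul_apply, LinearMap.comp_apply, LinearMap.mulLeft_apply,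
      Matrix.traceLinearMap_apply, smul_eq_mul] at this
    linear_combination this
  -- contradiction with `E₁₂ * E₂₁`
  have := key2 !![0, 1; 0, 0] !![0, 0; 1, 0]
  simp [Matrix.trace_fin_two] at this
  exact h2 this

end Matrix2

/-- In a field of odd characteristic `p`, `2 ≠ 0`. -/
theorem two_ne_zero_of_char {k : Type} [Field k] {p : ℕ} [Fact p.Prime] (hp2 : p ≠ 2)
    (hp : (p : k) = 0) : (2 : k) ≠ 0 := by
  intro h2
  rcases (Fact.out : p.Prime).eq_two_or_odd' with h | h
  · exact hp2 h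
  · obtain ⟨m, hm⟩ := h
    rw [hm] at hp
    push_cast at hp
    rw [h2, zero_mul, zero_add] at hp
    exact one_ne_zero hp

/-- Trace and determinant of a `2 × 2` matrix with a double eigenvalue. -/
theorem trace_sq_of_charpoly {k : Type} [Field k] (A : Matrix (Fin 2) (Fin 2) k) (α : k)
    (h : A.charpoly = (X - C α) * (X - C α)) : A.trace ^ 2 = 4 * A.det := by
  rw [Matrix.charpoly_fin_two] at h
  have hr : (X - C α) * (X - C α) = X ^ 2 - C (2 * α) * X + C (α ^ 2) := by
    simp only [map_mul, map_pow, map_ofNat]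
    ring
  rw [hr] at h
  have h0 := congrArg (fun q => Polynomial.coeff q 0) h
  have h1 := congrArg (fun q => Polynomial.coeff q 1) h
  simp only [coeff_add, coeff_sub, coeff_X_pow, coeff_C_mul, coeff_X, coeff_C] at h0 h1
  norm_num at h0 h1
  rw [h0, h1]
  ring

/-- **REG.** -/
theorem reg (h : SpanDeltaStatement) : ExistsRegularStatement := by
  intro k _ V _ _ _ Γ _ ρ p _ hp2 hyp Δ _ hcyc
  by_contra hno
  have hno' : ∀ σ ∈ Δ, ¬ IsRegular ρ σ := fun σ hσ hreg => hno ⟨σ, hσ, hreg⟩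
  have hspan := h k V Γ ρ p hp2 hyp Δ hcyc
  have h2 : (2 : k) ≠ 0 := two_ne_zero_of_char hp2 hyp.char_p
  let b : Module.Basis (Fin 2) k V := Module.finBasisOfFinrankEq k V hyp.finrank_eq
  let s : Set (Matrix (Fin 2) (Fin 2) k) := Set.range fun δ : Δ => LinearMap.toMatrix b b (ρ δ)
  refine span_ne_top_of_trace_sq h2 s ?_ ?_ ?_ ?_
  · rintro A ⟨δ₁, rfl⟩ B ⟨δ₂, rfl⟩
    refine ⟨δ₁ * δ₂, ?_⟩
    simp only [Subgroup.coe_mul, map_mul]
    exact LinearMap.toMatrix_mul b _ _
  · rintro A ⟨δ, rfl⟩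
    simp only
    rw [LinearMap.det_toMatrix]
    exact (((Group.isUnit (δ : Γ)).map ρ).map LinearMap.det).ne_zero
  · rintro A ⟨δ, rfl⟩
    obtain ⟨α, β, hc⟩ := hyp.split (δ : Γ)
    have hαβ : α = β := by
      by_contra hne
      exact hno' δ δ.2 ⟨α, β, hne, hc⟩
    subst hαβ
    refine trace_sq_of_charpoly _ α ?_
    simp only
    rw [LinearMap.charpoly_toMatrix]
    exact hc
  · have hs : Submodule.span k s
        = (Submodule.span k (Set.range fun δ : Δ => ρ (δ : Γ))).map
            (LinearMap.toMatrix b b).toLinearMap := by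
      rw [Submodule.map_span, ← Set.range_comp]
      rfl
    rw [hs, hspan, Submodule.map_top, LinearMap.range_eq_top]
    exact (LinearMap.toMatrix b b).surjective

end Fermat.Agent.S56.P3.H635

end
-- ===== PACK-END S56/P3/H635/REG.lean

-- ===== PACK-BEGIN S56/P3/H934/IRR.lean
section


/-!
# S56 / P3 / piece IRR : `ad⁰ρ` is irreducible   (helper934)

`theorem Fermat.Agent.S56.P3.H934.ad0Irreducible : Ad0IrreducibleStatement`

Route (coord/S56-P3.md, sec. IRR):
* a proper non-zero conjugation-stable subspace `W` of the trace-zero endomorphisms yields a stable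
  LINE `k·A` (`dim W = 1`: `W` itself; `dim W = 2`: the commutator `[A₁, A₂]` of a basis);
* a stable line contradicts `TWHyp`: over `K = k̄` take an eigenvalue `μ` of `A`; `A² = δ` is scalar,
  so `ρ(g) A ρ(g)⁻¹ = ± A` when `μ ≠ 0`; the eigenspace is stable under the subgroup
  `{g | ρ(g) A ρ(g)⁻¹ = A}` of index `≤ 2` (resp. under `Γ` when `μ = 0`).
-/

set_option autoImplicit false

open Polynomial

namespace Fermat.Agent.S56.P3.H934

open Fermat.Agent.S56.P3

/-! ## 2×2 matrices -/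

section Mat

variable {k : Type} [Field k]

lemma mat_sq_of_trace_zero (M : Matrix (Fin 2) (Fin 2) k) (h : M.trace = 0) :
    M * M = (-M.det) • (1 : Matrix (Fin 2) (Fin 2) k) := by
  rw [Matrix.trace_fin_two] at h
  ext i j
  fin_cases i <;> fin_cases j
  · simp [Matrix.mul_apply, Fin.sum_univ_two, Matrix.det_fin_two]
    linear_combination M 0 0 * h
  · simp [Matrix.mul_apply, Fin.sum_univ_two, Matrix.det_fin_two]
    linear_combination M 0 1 * h
  · simp [Matrix.mul_apply, Fin.sum_univ_two, Matrix.det_fin_two]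
    linear_combination M 1 0 * h
  · simp [Matrix.mul_apply, Fin.sum_univ_two, Matrix.det_fin_two]
    linear_combination M 1 1 * h

/-- Two commuting trace-zero `2×2` matrices are linearly dependent (`2 ≠ 0`). -/
lemma mat_dep_of_commute (h2 : (2 : k) ≠ 0) (M N : Matrix (Fin 2) (Fin 2) k)
    (hM : M.trace = 0) (hN : N.trace = 0) (hc : M * N = N * M) :
    ∃ x y : k, (x ≠ 0 ∨ y ≠ 0) ∧ x • M + y • N = 0 := by
  rw [Matrix.trace_fin_two] at hM hN
  have e00 := congrFun (congrFun hc 0) 0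
  have e01 := congrFun (congrFun hc 0) 1
  have e10 := congrFun (congrFun hc 1) 0
  simp only [Matrix.mul_apply, Fin.sum_univ_two] at e00 e01 e10
  -- notation
  set a := M 0 0 with ha
  set b := M 0 1 with hb
  set c := M 1 0 with hc'
  set d := M 1 1 with hd
  set a' := N 0 0 with ha'
  set b' := N 0 1 with hb'
  set c' := N 1 0 with hc''
  set d' := N 1 1 with hd'
  have hd1 : d = -a := by linear_combination hM
  have hd2 : d' = -a' := by linear_combination hN
  -- consequences of commutation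
  have k1 : b * c' = c * b' := by linear_combination e00
  have k2 : a * b' = b * a' := by
    have : (2 : k) * (a * b' - b * a') = 0 := by
      rw [hd1, hd2] at e01
      linear_combination e01
    have := (mul_eq_zero.1 this).resolve_left h2
    linear_combination this
  have k3 : c * a' = a * c' := by
    have : (2 : k) * (c * a' - a * c') = 0 := by
      rw [hd1, hd2] at e10
      linear_combination e10
    have := (mul_eq_zero.1 this).resolve_left h2
    linear_combination this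
  by_cases hN0 : N = 0
  · exact ⟨0, 1, Or.inr one_ne_zero, by simp [hN0]⟩
  have hex : a' ≠ 0 ∨ b' ≠ 0 ∨ c' ≠ 0 := by
    by_contra hcon
    simp only [not_or, not_not] at hcon
    obtain ⟨h1, h2', h3⟩ := hcon
    apply hN0
    ext i j
    fin_cases i <;> fin_cases j
    · exact h1
    · exact h2'
    · exact h3
    · show d' = 0
      rw [hd2, h1, neg_zero]
  rcases hex with h | h | h
  · refine ⟨a', -a, Or.inl h, ?_⟩
    ext i j
    fin_cases i <;> fin_cases j
    · show a' * a + -a * a' = 0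
      ring
    · show a' * b + -a * b' = 0
      linear_combination -k2
    · show a' * c + -a * c' = 0
      linear_combination k3
    · show a' * d + -a * d' = 0
      rw [hd1, hd2]; ring
  · refine ⟨b', -b, Or.inl h, ?_⟩
    ext i j
    fin_cases i <;> fin_cases j
    · show b' * a + -b * a' = 0
      linear_combination k2
    · show b' * b + -b * b' = 0
      ring
    · show b' * c + -b * c' = 0
      linear_combination -k1
    · show b' * d + -b * d' = 0
      rw [hd1, hd2]; linear_combination -k2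
  · refine ⟨c', -c, Or.inl h, ?_⟩
    ext i j
    fin_cases i <;> fin_cases j
    · show c' * a + -c * a' = 0
      linear_combination -k3
    · show c' * b + -c * b' = 0
      linear_combination k1
    · show c' * c + -c * c' = 0
      ring
    · show c' * d + -c * d' = 0
      rw [hd1, hd2]; linear_combination k3

end Mat

/-! ## Endomorphisms of a 2-dimensional space -/

section EndV

variable {k : Type} [Field k] {V : Type} [AddCommGroup V] [Module k V] [Module.Finite k V]

lemma end_sq_of_trace_zero (hV : Module.finrank k V = 2) (A : Module.End k V)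
    (hA : LinearMap.trace k V A = 0) : ∃ δ : k, A * A = δ • (1 : Module.End k V) := by
  let b : Module.Basis (Fin 2) k V := Module.finBasisOfFinrankEq k V hV
  have htr : (LinearMap.toMatrix b b A).trace = 0 := by
    rw [← LinearMap.trace_eq_matrix_trace k b A, hA]
  refine ⟨-(LinearMap.toMatrix b b A).det, ?_⟩
  apply (LinearMap.toMatrix b b).injective
  rw [LinearMap.toMatrix_mul, mat_sq_of_trace_zero _ htr, map_smul, LinearMap.toMatrix_one]

lemma end_dep_of_commute (hV : Module.finrank k V = 2) (h2 : (2 : k) ≠ 0)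
    (A B : Module.End k V) (hA : LinearMap.trace k V A = 0) (hB : LinearMap.trace k V B = 0)
    (hc : A * B = B * A) : ∃ x y : k, (x ≠ 0 ∨ y ≠ 0) ∧ x • A + y • B = 0 := by
  let b : Module.Basis (Fin 2) k V := Module.finBasisOfFinrankEq k V hV
  have htrA : (LinearMap.toMatrix b b A).trace = 0 := by
    rw [← LinearMap.trace_eq_matrix_trace k b A, hA]
  have htrB : (LinearMap.toMatrix b b B).trace = 0 := by
    rw [← LinearMap.trace_eq_matrix_trace k b B, hB]
  have hcm : LinearMap.toMatrix b b A * LinearMap.toMatrix b b B =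
      LinearMap.toMatrix b b B * LinearMap.toMatrix b b A := by
    rw [← LinearMap.toMatrix_mul, ← LinearMap.toMatrix_mul, hc]
  obtain ⟨x, y, hxy, h⟩ := mat_dep_of_commute h2 _ _ htrA htrB hcm
  refine ⟨x, y, hxy, ?_⟩
  apply (LinearMap.toMatrix b b).injective
  rw [map_add, map_smul, map_smul, h, map_zero]

/-- Base change to a field extension is injective on endomorphisms. -/
lemma baseChange_eq_zero (hV : Module.finrank k V = 2) (K : Type) [Field K] [Algebra k K]
    (A : Module.End k V) (h : A.baseChange K = 0) : A = 0 := by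
  let b : Module.Basis (Fin 2) k V := Module.finBasisOfFinrankEq k V hV
  apply (LinearMap.toMatrix b b).injective
  have h1 := LinearMap.toMatrix_baseChange (A := K) A b b
  rw [h, map_zero] at h1
  rw [map_zero]
  ext i j
  have h2 := congrFun (congrFun h1 i) j
  simp only [Matrix.zero_apply, Matrix.map_apply] at h2
  have hinj := (algebraMap k K).injective
  rw [Matrix.zero_apply]
  apply hinj
  rw [← h2, map_zero]

end EndV

/-! ## A conjugation-stable line contradicts `TWHyp` -/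

section Line

variable {k : Type} [Field k] {V : Type} [AddCommGroup V] [Module k V] [Module.Finite k V]
variable {Γ : Type} [Group Γ]

lemma two_ne_zero_of_char (p : ℕ) [Fact p.Prime] (hp2 : p ≠ 2) (hp : (p : k) = 0) :
    (2 : k) ≠ 0 := by
  intro h2
  obtain ⟨m, hm⟩ : ∃ m, p = 2 * m + 1 := by
    rcases Nat.Prime.eq_two_or_odd' (Fact.out : p.Prime) with h | h
    · exact absurd h hp2
    · exact h
  rw [hm] at hp
  push_cast at hp
  rw [h2, zero_mul, zero_add] at hp
  exact one_ne_zero hp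

lemma rho_mul_inv (ρ : Γ →* Module.End k V) (g : Γ) : ρ g * ρ g⁻¹ = 1 := by
  rw [← map_mul, mul_inv_cancel, map_one]

lemma rho_inv_mul (ρ : Γ →* Module.End k V) (g : Γ) : ρ g⁻¹ * ρ g = 1 := by
  rw [← map_mul, inv_mul_cancel, map_one]

/-- Conjugation by `ρ g`. -/
def conj (ρ : Γ →* Module.End k V) (g : Γ) (X : Module.End k V) : Module.End k V :=
  ρ g * X * ρ g⁻¹

lemma conj_mul (ρ : Γ →* Module.End k V) (a b : Γ) (X : Module.End k V) :
    conj ρ (a * b) X = conj ρ a (conj ρ b X) := by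
  unfold conj
  rw [mul_inv_rev, map_mul, map_mul]
  simp only [mul_assoc]

lemma conj_one (ρ : Γ →* Module.End k V) (X : Module.End k V) : conj ρ 1 X = X := by
  unfold conj
  rw [inv_one, map_one, one_mul, mul_one]

lemma conj_smul (ρ : Γ →* Module.End k V) (g : Γ) (c : k) (X : Module.End k V) :
    conj ρ g (c • X) = c • conj ρ g X := by
  unfold conj
  rw [mul_smul_comm, smul_mul_assoc]

lemma conj_neg (ρ : Γ →* Module.End k V) (g : Γ) (X : Module.End k V) :
    conj ρ g (-X) = -conj ρ g X := by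
  unfold conj
  rw [mul_neg, neg_mul]

lemma conj_inv_conj (ρ : Γ →* Module.End k V) (g : Γ) (X : Module.End k V) :
    conj ρ g⁻¹ (conj ρ g X) = X := by
  rw [← conj_mul, inv_mul_cancel, conj_one]

lemma conj_sub (ρ : Γ →* Module.End k V) (g : Γ) (X Y : Module.End k V) :
    conj ρ g (X - Y) = conj ρ g X - conj ρ g Y := by
  unfold conj
  rw [mul_sub, sub_mul]

lemma conj_add (ρ : Γ →* Module.End k V) (g : Γ) (X Y : Module.End k V) :
    conj ρ g (X + Y) = conj ρ g X + conj ρ g Y := by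
  unfold conj
  rw [mul_add, add_mul]

lemma conj_mul_mul (ρ : Γ →* Module.End k V) (g : Γ) (X Y : Module.End k V) :
    conj ρ g (X * Y) = conj ρ g X * conj ρ g Y := by
  unfold conj
  calc ρ g * (X * Y) * ρ g⁻¹ = ρ g * X * (1 : Module.End k V) * Y * ρ g⁻¹ := by
        rw [mul_one]; simp only [mul_assoc]
    _ = ρ g * X * (ρ g⁻¹ * ρ g) * Y * ρ g⁻¹ := by rw [rho_inv_mul]
    _ = ρ g * X * ρ g⁻¹ * (ρ g * Y * ρ g⁻¹) := by simp only [mul_assoc]

/-- The subgroup of elements commuting with `A`. -/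
def centr (ρ : Γ →* Module.End k V) (A : Module.End k V) : Subgroup Γ where
  carrier := {g | conj ρ g A = A}
  one_mem' := conj_one ρ A
  mul_mem' := by
    intro a b ha hb
    show conj ρ (a * b) A = A
    rw [conj_mul, (hb : conj ρ b A = A), (ha : conj ρ a A = A)]
  inv_mem' := by
    intro a ha
    show conj ρ a⁻¹ A = A
    have h := conj_inv_conj ρ a A
    rwa [(ha : conj ρ a A = A)] at h

lemma mem_centr {ρ : Γ →* Module.End k V} {A : Module.End k V} {g : Γ} :
    g ∈ centr ρ A ↔ conj ρ g A = A := Iff.rfl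

local notation "K" => AlgebraicClosure k
local notation "VK" => TensorProduct k (AlgebraicClosure k) V

theorem no_stable_line (ρ : Γ →* Module.End k V) (p : ℕ) [Fact p.Prime] (hp2 : p ≠ 2)
    (h : TWHyp ρ p) (A : Module.End k V) (hA0 : A ≠ 0) (hAtr : LinearMap.trace k V A = 0)
    (hst : ∀ g : Γ, ∃ c : k, conj ρ g A = c • A) : False := by
  classical
  have h2 : (2 : k) ≠ 0 := two_ne_zero_of_char p hp2 h.char_p
  let AK : Module.End K VK := A.baseChange K
  let R : Γ → Module.End K VK := fun g => (ρ g).baseChange K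
  have hRinv : ∀ g, R g⁻¹ * R g = 1 := fun g => by
    show (ρ g⁻¹).baseChange K * (ρ g).baseChange K = 1
    rw [← LinearMap.baseChange_mul, rho_inv_mul, LinearMap.baseChange_one]
  -- the relation `ρ(g) A = c A ρ(g)` and its base change
  have rel : ∀ (g : Γ) (c : k), conj ρ g A = c • A → ∀ y : VK,
      R g (AK y) = algebraMap k K c • AK (R g y) := by
    intro g c hc y
    have h1 : ρ g * A = c • (A * ρ g) := by
      calc ρ g * A = ρ g * A * (ρ g⁻¹ * ρ g) := by rw [rho_inv_mul, mul_one]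
        _ = (ρ g * A * ρ g⁻¹) * ρ g := by simp only [mul_assoc]
        _ = c • (A * ρ g) := by
            rw [show ρ g * A * ρ g⁻¹ = c • A from hc, smul_mul_assoc]
    have h3 : R g * AK = c • (AK * R g) := by
      show (ρ g).baseChange K * A.baseChange K = c • (A.baseChange K * (ρ g).baseChange K)
      rw [← LinearMap.baseChange_mul, ← LinearMap.baseChange_mul, h1, LinearMap.baseChange_smul]
    have h4 := congrArg (fun f : Module.End K VK => f y) h3
    simp only [Module.End.mul_apply, LinearMap.smul_apply] at h4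
    rw [h4, algebraMap_smul]
  have hc0 : ∀ (g : Γ) (c : k), conj ρ g A = c • A → c ≠ 0 := by
    intro g c hc hc0
    rw [hc0, zero_smul] at hc
    apply hA0
    have := conj_inv_conj ρ g A
    rw [hc] at this
    rw [← this]
    unfold conj
    rw [mul_zero, zero_mul]
  obtain ⟨δ, hδ⟩ := end_sq_of_trace_zero h.finrank_eq A hAtr
  have hδK : ∀ y : VK, AK (AK y) = algebraMap k K δ • y := by
    intro y
    have h3 : AK * AK = δ • (1 : Module.End K VK) := by
      show A.baseChange K * A.baseChange K = δ • 1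
      rw [← LinearMap.baseChange_mul, hδ, LinearMap.baseChange_smul, LinearMap.baseChange_one]
    have h4 := congrArg (fun f : Module.End K VK => f y) h3
    simp only [Module.End.mul_apply, LinearMap.smul_apply, Module.End.one_apply] at h4
    rw [h4, algebraMap_smul]
  have hfr : Module.finrank K VK = 2 := by
    show Module.finrank K (TensorProduct k K V) = 2
    rw [Module.finrank_baseChange, h.finrank_eq]
  haveI : Nontrivial VK := Module.nontrivial_of_finrank_pos (R := K) (by rw [hfr]; norm_num)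
  obtain ⟨μ, hμ⟩ := Module.End.exists_eigenvalue AK
  obtain ⟨x, hx⟩ := hμ.exists_hasEigenvector
  have hxe : AK x = μ • x := hx.apply_eq_smul
  have hx0 : x ≠ 0 := hx.2
  -- eigenvalues square to δ
  have hsq : ∀ (ν : K) (y : VK), y ≠ 0 → AK y = ν • y → ν * ν = algebraMap k K δ := by
    intro ν y hy hν
    have h1 := hδK y
    rw [hν, map_smul, hν, smul_smul] at h1
    have h3 : (ν * ν - algebraMap k K δ) • y = 0 :=
      (sub_smul (ν * ν) (algebraMap k K δ) y).trans (by rw [h1, sub_self])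
    rcases smul_eq_zero.1 h3 with h4 | h4
    · exact sub_eq_zero.1 h4
    · exact absurd h4 hy
  let L : Submodule K VK := Module.End.eigenspace AK μ
  have hLmem : ∀ y : VK, y ∈ L ↔ AK y = μ • y := fun y => Module.End.mem_eigenspace_iff
  have hLbot : L ≠ ⊥ := by
    intro hL
    have hxL : x ∈ L := (hLmem x).2 hxe
    rw [hL, Submodule.mem_bot] at hxL
    exact hx0 hxL
  have h2K : (2 : K) ≠ 0 := by
    intro h0
    apply h2
    apply (algebraMap k K).injective
    rw [map_ofNat, h0, map_zero]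
  have hLtop : L ≠ ⊤ := by
    intro hL
    have hall : ∀ y : VK, AK y = μ • y := fun y => (hLmem y).1 (by rw [hL]; trivial)
    have hAK : AK = μ • (1 : Module.End K VK) := by
      refine LinearMap.ext fun y => ?_
      rw [hall y]; rfl
    have htr : LinearMap.trace K VK AK = 0 := by
      show LinearMap.trace K (TensorProduct k K V) (A.baseChange K) = 0
      rw [LinearMap.trace_baseChange, hAtr, map_zero]
    rw [hAK, map_smul, LinearMap.trace_one, hfr, smul_eq_mul] at htr
    have hμ0 : μ = 0 := by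
      rcases mul_eq_zero.1 htr with h0 | h0
      · exact h0
      · exact absurd (by exact_mod_cast h0) h2K
    rw [hμ0, zero_smul] at hAK
    exact hA0 (baseChange_eq_zero h.finrank_eq K A hAK)
  -- action on eigenvectors
  have hact : ∀ (g : Γ) (c : k), conj ρ g A = c • A → ∀ (ν : K) (y : VK), AK y = ν • y →
      AK (R g y) = ((algebraMap k K c)⁻¹ * ν) • R g y := by
    intro g c hc ν y hy
    have h1 := rel g c hc y
    rw [hy, map_smul] at h1
    have hcK : algebraMap k K c ≠ 0 := by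
      intro h0
      exact hc0 g c hc ((algebraMap k K).injective (by rw [h0, map_zero]))
    rw [mul_smul, h1, smul_smul, inv_mul_cancel₀ hcK, one_smul]
  by_cases hμ0 : μ = 0
  · -- `ker A` is stable under all of `Γ`
    have hstab : ∀ g : Γ, ∀ y ∈ L, (ρ g).baseChange K y ∈ L := by
      intro g y hy
      obtain ⟨c, hc⟩ := hst g
      rw [hLmem] at hy ⊢
      have := hact g c hc μ y hy
      rw [hμ0, mul_zero, zero_smul] at this
      show AK (R g y) = μ • R g y
      rw [this, hμ0, zero_smul]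
    rcases h.absIrr L hstab with h0 | h0
    · exact hLbot h0
    · exact hLtop h0
  · -- `c(g) = ± 1`
    have hpm : ∀ g : Γ, conj ρ g A = A ∨ conj ρ g A = -A := by
      intro g
      obtain ⟨c, hc⟩ := hst g
      have hcK : algebraMap k K c ≠ 0 := by
        intro h0
        exact hc0 g c hc ((algebraMap k K).injective (by rw [h0, map_zero]))
      have hy0 : R g x ≠ 0 := by
        intro h0
        apply hx0
        have h1 : (R g⁻¹ * R g) x = x := by rw [hRinv]; rfl
        rw [Module.End.mul_apply, h0, map_zero] at h1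
        exact h1.symm
      have h1 := hsq _ (R g x) hy0 (hact g c hc μ x hxe)
      have h3 := hsq μ x hx0 hxe
      have h4 : (algebraMap k K c) * (algebraMap k K c) = 1 := by
        have h5 : (algebraMap k K c)⁻¹ * μ * ((algebraMap k K c)⁻¹ * μ) = μ * μ := by
          rw [h1, h3]
        have hμμ : μ * μ ≠ 0 := mul_ne_zero hμ0 hμ0
        have h6 : (algebraMap k K c) * (algebraMap k K c) *
            ((algebraMap k K c)⁻¹ * μ * ((algebraMap k K c)⁻¹ * μ)) = μ * μ := by
          field_simp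
        rw [h5] at h6
        exact mul_right_cancel₀ hμμ (h6.trans (one_mul _).symm)
      have h8 : c * c = 1 := by
        apply (algebraMap k K).injective
        rw [map_mul, h4, map_one]
      have h9 : (c - 1) * (c + 1) = 0 := by linear_combination h8
      rcases mul_eq_zero.1 h9 with h10 | h10
      · left
        rw [hc, sub_eq_zero.1 h10, one_smul]
      · right
        rw [hc, eq_neg_of_add_eq_zero_left h10, neg_smul, one_smul]
    have hstab : ∀ g ∈ centr ρ A, ∀ y ∈ L, (ρ g).baseChange K y ∈ L := by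
      intro g hg y hy
      have hc : conj ρ g A = (1 : k) • A := by rw [one_smul]; exact hg
      rw [hLmem] at hy ⊢
      have := hact g 1 hc μ y hy
      rw [map_one, inv_one, one_mul] at this
      exact this
    by_cases hall : ∀ g : Γ, g ∈ centr ρ A
    · rcases h.absIrr L (fun g => hstab g (hall g)) with h0 | h0
      · exact hLbot h0
      · exact hLtop h0
    · simp only [not_forall] at hall
      obtain ⟨a, ha⟩ := hall
      have ha' : conj ρ a A = -A := (hpm a).resolve_left ha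
      have hidx : (centr ρ A).index = 2 := by
        rw [Subgroup.index_eq_two_iff]
        refine ⟨a, fun b => ?_⟩
        by_cases hb : b ∈ centr ρ A
        · refine Or.inr ⟨hb, fun hba => ha ?_⟩
          have := (centr ρ A).mul_mem ((centr ρ A).inv_mem hb) hba
          rwa [inv_mul_cancel_left] at this
        · refine Or.inl ⟨?_, hb⟩
          have hb' : conj ρ b A = -A := (hpm b).resolve_left hb
          show conj ρ (b * a) A = A
          rw [conj_mul, ha', conj_neg, hb', neg_neg]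
      rcases h.tw K (centr ρ A) hidx L hstab with h0 | h0
      · exact hLbot h0
      · exact hLtop h0

end Line

/-! ## The main theorem -/

/-- **Piece IRR**: under `TWHyp`, `ad⁰ρ` is irreducible. -/
theorem ad0Irreducible : Ad0IrreducibleStatement := by
  intro k _ V _ _ _ Γ _ ρ p _ hp2 h W hWtr hWst hWne A hA
  classical
  by_contra hAW
  have h2 : (2 : k) ≠ 0 := two_ne_zero_of_char p hp2 h.char_p
  have hWst' : ∀ g : Γ, ∀ X ∈ W, conj ρ g X ∈ W := hWst
  -- `1 ≤ finrank W ≤ 2`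
  let T : Submodule k (Module.End k V) := LinearMap.ker (LinearMap.trace k V)
  have hWT : W ≤ T := fun X hX => LinearMap.mem_ker.2 (hWtr X hX)
  have hAT : A ∈ T := LinearMap.mem_ker.2 hA
  have hWltT : W < T := lt_of_le_of_ne hWT (fun heq => hAW (heq ▸ hAT))
  have hTne : T ≠ ⊤ := by
    intro hT
    have h1 : (1 : Module.End k V) ∈ T := by rw [hT]; trivial
    rw [LinearMap.mem_ker, LinearMap.trace_one, h.finrank_eq] at h1
    exact h2 (by exact_mod_cast h1)
  have hfinEnd : Module.finrank k (Module.End k V) = 4 := by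
    show Module.finrank k (V →ₗ[k] V) = 4
    rw [Module.finrank_linearMap, h.finrank_eq]
  have hT3 : Module.finrank k T < 4 := hfinEnd ▸ Submodule.finrank_lt hTne
  have hW3 : Module.finrank k W < Module.finrank k T := Submodule.finrank_lt_finrank_of_lt hWltT
  have hW0 : Module.finrank k W ≠ 0 := fun h0 => hWne (Submodule.finrank_eq_zero.1 h0)
  have hcases : Module.finrank k W = 1 ∨ Module.finrank k W = 2 := by omega
  rcases hcases with h1 | h2'
  · -- `W` is a line
    obtain ⟨v, hv0, hv⟩ := finrank_eq_one_iff'.1 h1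
    refine no_stable_line ρ p hp2 h (v : Module.End k V) ?_ (hWtr _ v.2) ?_
    · intro h0
      exact hv0 (Subtype.ext h0)
    · intro g
      obtain ⟨c, hc⟩ := hv ⟨conj ρ g v, hWst' g v v.2⟩
      exact ⟨c, (congrArg Subtype.val hc).symm⟩
  · -- `W` is a plane: the commutator of a basis spans a stable line
    let b : Module.Basis (Fin 2) k W := Module.finBasisOfFinrankEq k W h2'
    let A1 : Module.End k V := (b 0 : W)
    let A2 : Module.End k V := (b 1 : W)
    have hrep : ∀ X ∈ W, ∃ x y : k, X = x • A1 + y • A2 := by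
      intro X hX
      refine ⟨b.repr ⟨X, hX⟩ 0, b.repr ⟨X, hX⟩ 1, ?_⟩
      have h3 := b.sum_repr ⟨X, hX⟩
      rw [Fin.sum_univ_two] at h3
      have h4 := congrArg Subtype.val h3
      simpa using h4.symm
    have hindep : ∀ x y : k, x • A1 + y • A2 = 0 → x = 0 ∧ y = 0 := by
      intro x y hxy
      have hli := b.linearIndependent
      rw [Fintype.linearIndependent_iff] at hli
      have h3 : ∑ i : Fin 2, (![x, y] i) • b i = 0 := by
        rw [Fin.sum_univ_two]
        apply Subtype.ext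
        simpa using hxy
      exact ⟨by simpa using hli _ h3 0, by simpa using hli _ h3 1⟩
    have hA1tr : LinearMap.trace k V A1 = 0 := hWtr _ (b 0).2
    have hA2tr : LinearMap.trace k V A2 = 0 := hWtr _ (b 1).2
    let B : Module.End k V := A1 * A2 - A2 * A1
    refine no_stable_line ρ p hp2 h B ?_ ?_ ?_
    · intro hB
      have hcomm : A1 * A2 = A2 * A1 := sub_eq_zero.1 hB
      obtain ⟨x, y, hxy, hdep⟩ := end_dep_of_commute h.finrank_eq h2 A1 A2 hA1tr hA2tr hcomm
      obtain ⟨hx, hy⟩ := hindep x y hdep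
      rcases hxy with h0 | h0
      · exact h0 hx
      · exact h0 hy
    · show LinearMap.trace k V (A1 * A2 - A2 * A1) = 0
      rw [map_sub, LinearMap.trace_mul_comm, sub_self]
    · intro g
      obtain ⟨x1, y1, h1⟩ := hrep _ (hWst' g A1 (b 0).2)
      obtain ⟨x2, y2, h2''⟩ := hrep _ (hWst' g A2 (b 1).2)
      refine ⟨x1 * y2 - y1 * x2, ?_⟩
      show conj ρ g (A1 * A2 - A2 * A1) = (x1 * y2 - y1 * x2) • (A1 * A2 - A2 * A1)
      rw [conj_sub, conj_mul_mul, conj_mul_mul, h1, h2'']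
      simp only [add_mul, mul_add, smul_mul_assoc, mul_smul_comm]
      module

end Fermat.Agent.S56.P3.H934

end
-- ===== PACK-END S56/P3/H934/IRR.lean

-- ===== PACK-BEGIN S53/GlueAssembly.lean
section


set_option autoImplicit false
set_option linter.unusedSectionVars false
set_option linter.unusedVariables false
set_option linter.style.haveILetI false

open IsLocalRing GaloisRep

noncomputable section

namespace Fermat.Agent.S53

section Transport

variable {𝒪 : Type} [CommRing 𝒪] [IsLocalRing 𝒪]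
  {𝒟 : ∀ ⦃A : Type⦄ [CommRing A] [IsLocalRing A] [Algebra 𝒪 A], GaloisRepAdic A → Prop}
  (h𝒟 : IsDeformationCondition 𝒪 𝒟)

include h𝒟 in
/-- Over a complete Noetherian local algebra, `𝒟` is invariant under equivalence. -/
lemma D_of_isEquiv_cnl {A : Type} [CommRing A] [IsLocalRing A] [IsNoetherianRing A]
    [IsAdicComplete (maximalIdeal A) A] [Algebra 𝒪 A]
    (hloc : IsLocalHom (algebraMap 𝒪 A))
    (hsurj : Function.Surjective (IsLocalRing.residue A ∘ algebraMap 𝒪 A))
    {ρ ρ' : GaloisRepAdic A} (e : ρ.IsEquiv ρ') (h : 𝒟 ρ) : 𝒟 ρ' := by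
  rw [h𝒟.iff_forall_surjective hloc hsurj] at h ⊢
  intro B _ _ _ hB q hq hqs
  obtain ⟨e⟩ := e
  exact h𝒟.of_isEquiv hB ⟨e.baseChangeAlong (q : A →+* B) hq⟩ (h hB q hq hqs)

lemma isLiftC_iff_lift {A : Type} [CommRing A] [IsLocalRing A] [Algebra 𝒪 A]
    [IsLocalHom (algebraMap 𝒪 A)]
    (rbar : GQ →* M2 (ResidueField 𝒪)) (c : Idx → 𝒪)
    (hc : ∀ t, residue 𝒪 (c t) = entries rbar t) (r : GQ →* M2 A) :
    IsLiftC c (entries r) ↔
      ∀ σ, (r σ).map (residue A) = (rbar σ).map (ResidueField.map (algebraMap 𝒪 A)) := by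
  have key : ∀ σ i j, (r σ i j - algebraMap 𝒪 A (c (σ, i, j)) ∈ maximalIdeal A ↔
      residue A (r σ i j) = ResidueField.map (algebraMap 𝒪 A) (rbar σ i j)) := by
    intro σ i j
    rw [← IsLocalRing.residue_eq_zero_iff, map_sub, sub_eq_zero]
    have : residue A (algebraMap 𝒪 A (c (σ, i, j))) =
        ResidueField.map (algebraMap 𝒪 A) (rbar σ i j) := by
      rw [← entries_apply rbar, ← hc, IsLocalRing.ResidueField.map_residue]
    rw [this]
  constructor
  · intro h σ
    ext i j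
    exact (key σ i j).1 (h (σ, i, j))
  · intro h t
    obtain ⟨σ, i, j⟩ := t
    exact (key σ i j).2 (congrFun (congrFun (h σ) i) j)

end Transport

section Assembly

variable (𝒪 : Type) [CommRing 𝒪] [IsDomain 𝒪] [IsDiscreteValuationRing 𝒪]
    [IsAdicComplete (IsLocalRing.maximalIdeal 𝒪) 𝒪]

theorem deformationRingData_of_universalPoint
    (ρbar : ResidualGaloisRep (IsLocalRing.ResidueField 𝒪))
    (𝒟 : ∀ ⦃A : Type⦄ [CommRing A] [IsLocalRing A] [Algebra 𝒪 A], GaloisRepAdic A → Prop)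
    (habs : ρbar.IsAbsolutelyIrreducible)
    (h𝒟 : GaloisRep.IsDeformationCondition 𝒪 𝒟)
    (rbar : GQ →* M2 (ResidueField 𝒪)) (hrbar : GaloisFactorsThroughFiniteLevel rbar)
    (e0 : ρbar.IsEquiv (toRes rbar hrbar))
    (c : Idx → 𝒪) (hc : ∀ t, residue 𝒪 (c t) = entries rbar t)
    (K : RigidKit 𝒪 c)
    (U : UniversalPoint 𝒪 Idx (Lpred 𝒟 K)) :
    Nonempty (GaloisRep.DeformationRingData 𝒪 ρbar 𝒟) := by
  obtain ⟨ru, hru, hent, hDu, hlu, hnu⟩ := U.mem
  have hlu' : IsLiftC c (entries ru) := by rw [hent]; exact hlu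
  have hnu' : NormC K.coord K.cst (entries ru) := by rw [hent]; exact hnu
  refine ⟨{
    R := U.R
    residue_surjective := U.residue_surjective
    absIrr := habs
    ρ := toAdic ru hru
    isOfType := hDu
    residual_isEquiv := residual_isEquiv_of_lift ρbar rbar hrbar e0 ru hru
      ((isLiftC_iff_lift rbar c hc ru).1 hlu')
    universal := ?_ }⟩
  intro A _ _ _ _ _ hloc hsurj ρA hρA hres
  obtain ⟨r0, hr0, hlift0, e1⟩ := exists_lift_of_residual_isEquiv ρbar rbar hrbar e0 ρA hres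
  obtain ⟨P, hl1, hn1⟩ := K.exists_norm r0 ((isLiftC_iff_lift rbar c hc r0).2 hlift0)
  have e2 := toAdic_conjRep_isEquiv r0 hr0 P
  have e12 : ρA.IsEquiv (toAdic (conjRep P r0) (hr0.conj P)) := by
    obtain ⟨e1⟩ := e1
    obtain ⟨e2⟩ := e2
    exact ⟨e1.trans e2⟩
  have hD1 : 𝒟 (toAdic (conjRep P r0) (hr0.conj P)) :=
    D_of_isEquiv_cnl h𝒟 hloc hsurj e12 hρA
  have hL1 : Lpred 𝒟 K (entries (conjRep P r0)) :=
    ⟨conjRep P r0, hr0.conj P, rfl, hD1, hl1, hn1⟩
  obtain ⟨φ, ⟨hφloc, hφ⟩, huniq⟩ := U.universal A hsurj (entries (conjRep P r0)) hL1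
  have hφr : mapRep (φ : U.R →+* A) ru = conjRep P r0 := by
    apply entries_injective
    funext t
    rw [entries_mapRep, ← hφ t, hent]
    rfl
  refine ⟨φ, ⟨hφloc, ?_⟩, ?_⟩
  · obtain ⟨e3⟩ := baseChangeAlong_toAdic (φ : U.R →+* A) hφloc ru hru
    obtain ⟨e4⟩ := toAdic_congr hφr (hru.map _ hφloc) (hr0.conj P)
    obtain ⟨e12⟩ := e12
    exact ⟨(e3.trans e4).trans e12.symm⟩
  · rintro φ' ⟨hφ'loc, hφ'⟩
    apply huniq
    refine ⟨hφ'loc, ?_⟩
    obtain ⟨e3⟩ := baseChangeAlong_toAdic (φ' : U.R →+* A) hφ'loc ru hru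
    obtain ⟨e12⟩ := e12
    obtain ⟨e5⟩ := hφ'
    have e6 : (toAdic (mapRep (φ' : U.R →+* A) ru) (hru.map _ hφ'loc)).IsEquiv
        (toAdic (conjRep P r0) (hr0.conj P)) := ⟨(e3.symm.trans e5).trans e12⟩
    rw [toAdic_isEquiv_iff] at e6
    obtain ⟨P', hP'⟩ := e6
    have hl' : IsLiftC c (entries (mapRep (φ' : U.R →+* A) ru)) := by
      rw [entries_mapRep]
      exact hlu'.map φ' hφ'loc
    have hn' : NormC K.coord K.cst (entries (mapRep (φ' : U.R →+* A) ru)) := by
      rw [entries_mapRep]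
      exact hnu'.map φ'
    have := K.rigid (mapRep (φ' : U.R →+* A) ru) (conjRep P r0) hl' hl1 hn' hn1 P' hP'
    intro t
    rw [← this, entries_mapRep, hent]
    rfl

end Assembly

end Fermat.Agent.S53

end

end
-- ===== PACK-END S53/GlueAssembly.lean

-- ===== PACK-BEGIN S59/Patch/H967/Frame.lean
section




/-!
# Frames: modules which are free over `Λ/J` through an endomorphism `φ` of `Λ`
(helper967, row S59, piece PATCH)
-/

set_option autoImplicit false

namespace Fermat.Agent.S59.Patch.H967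

open MvPowerSeries IsLocalRing

section VarIdeal

variable {𝒪 : Type} [CommRing 𝒪] {r : ℕ}

/-- The ideal generated by the variables. -/
noncomputable def varIdeal (𝒪 : Type) [CommRing 𝒪] (r : ℕ) : Ideal (MvPowerSeries (Fin r) 𝒪) :=
  Ideal.span (Set.range (X : Fin r → MvPowerSeries (Fin r) 𝒪))

theorem X_mem_varIdeal (i : Fin r) : (X i : MvPowerSeries (Fin r) 𝒪) ∈ varIdeal 𝒪 r :=
  Ideal.subset_span ⟨i, rfl⟩

theorem sub_C_constantCoeff_mem_varIdeal (c : MvPowerSeries (Fin r) 𝒪) :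
    c - C (constantCoeff c) ∈ varIdeal 𝒪 r := by
  have h := Fermat.Agent.S53.H173.mem_span_X_pow_of_coeff_eq_zero 1 (c - C (constantCoeff c)) ?_
  · simpa [varIdeal] using h
  · intro e he
    have he0 : e = 0 := by
      rw [← Finsupp.degree_eq_zero_iff]
      omega
    subst he0
    simp

theorem constantCoeff_eq_zero_of_mem_varIdeal {c : MvPowerSeries (Fin r) 𝒪}
    (hc : c ∈ varIdeal 𝒪 r) : constantCoeff c = 0 := by
  have h1 : varIdeal 𝒪 r ≤ RingHom.ker (constantCoeff (σ := Fin r) (R := 𝒪)) := by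
    rw [varIdeal, Ideal.span_le]
    rintro _ ⟨i, rfl⟩
    simp [RingHom.mem_ker]
  exact h1 hc

theorem mem_varIdeal_iff {c : MvPowerSeries (Fin r) 𝒪} :
    c ∈ varIdeal 𝒪 r ↔ constantCoeff c = 0 := by
  refine ⟨constantCoeff_eq_zero_of_mem_varIdeal, fun h => ?_⟩
  have := sub_C_constantCoeff_mem_varIdeal c
  rwa [h, map_zero, sub_zero] at this

theorem exists_eq_sum_X_mul {c : MvPowerSeries (Fin r) 𝒪} (hc : constantCoeff c = 0) :
    ∃ w : Fin r → MvPowerSeries (Fin r) 𝒪, c = ∑ l, X l * w l := by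
  have h := mem_varIdeal_iff.mpr hc
  rw [varIdeal, Ideal.mem_span_range_iff_exists_fun] at h
  obtain ⟨w, hw⟩ := h
  exact ⟨w, by rw [← hw]; exact Finset.sum_congr rfl fun l _ => mul_comm _ _⟩

end VarIdeal

section Chain

variable {A : Type*} [CommRing A] [IsLocalRing A] {X : Type*} [AddCommGroup X] [Module A X]

/-- In a finite module `V` of cardinality at most `c` over a local ring, `𝔪 ^ c` kills `V`. -/
theorem maximalIdeal_pow_smul_top_eq_bot_of_card_le [Finite X] (c : ℕ) (hc : Nat.card X ≤ c) :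
    maximalIdeal A ^ c • (⊤ : Submodule A X) = ⊥ := by
  have key : ∀ j : ℕ, maximalIdeal A ^ j • (⊤ : Submodule A X) = ⊥ ∨
      Nat.card (maximalIdeal A ^ j • (⊤ : Submodule A X) : Submodule A X) + j ≤ Nat.card X := by
    intro j
    induction j with
    | zero =>
      right
      simp only [pow_zero, Ideal.one_eq_top, Submodule.top_smul, add_zero]
      exact le_of_eq (Nat.card_congr (Equiv.Set.univ X))
    | succ j ih =>
      rcases ih with h | h
      · left
        rw [pow_succ', Submodule.mul_smul, h, Submodule.smul_bot]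
      · by_cases hbot : maximalIdeal A ^ j • (⊤ : Submodule A X) = ⊥
        · left
          rw [pow_succ', Submodule.mul_smul, hbot, Submodule.smul_bot]
        · right
          have hle : maximalIdeal A ^ (j + 1) • (⊤ : Submodule A X) ≤
              maximalIdeal A ^ j • (⊤ : Submodule A X) := by
            rw [pow_succ', Submodule.mul_smul]
            exact Submodule.smul_le_right
          have hne : maximalIdeal A ^ (j + 1) • (⊤ : Submodule A X) ≠
              maximalIdeal A ^ j • (⊤ : Submodule A X) := by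
            intro heq
            apply hbot
            have hfg : (maximalIdeal A ^ j • (⊤ : Submodule A X)).FG :=
              Module.Finite.iff_fg.mp Module.Finite.of_finite
            refine Submodule.eq_bot_of_le_smul_of_le_jacobson_bot (maximalIdeal A) _ hfg ?_
              (IsLocalRing.maximalIdeal_le_jacobson ⊥)
            rw [← Submodule.mul_smul, ← pow_succ', heq]
          have hlt : ((maximalIdeal A ^ (j + 1) • (⊤ : Submodule A X) : Submodule A X) : Set X) ⊂
              ((maximalIdeal A ^ j • (⊤ : Submodule A X) : Submodule A X) : Set X) :=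
            (SetLike.coe_ssubset_coe).mpr (lt_of_le_of_ne hle hne)
          have hcard := Set.ncard_lt_ncard hlt (Set.toFinite _)
          have e1 : Nat.card (maximalIdeal A ^ (j + 1) • (⊤ : Submodule A X) : Submodule A X) =
              ((maximalIdeal A ^ (j + 1) • (⊤ : Submodule A X) : Submodule A X) : Set X).ncard :=
            Nat.card_coe_set_eq _
          have e2 : Nat.card (maximalIdeal A ^ j • (⊤ : Submodule A X) : Submodule A X) =
              ((maximalIdeal A ^ j • (⊤ : Submodule A X) : Submodule A X) : Set X).ncard :=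
            Nat.card_coe_set_eq _
          omega
  rcases key c with h | h
  · exact h
  · exfalso
    have hpos : 0 < Nat.card (maximalIdeal A ^ c • (⊤ : Submodule A X) : Submodule A X) :=
      Nat.card_pos
    omega

/-- If `X ⧸ U` has at most `c` elements, then `𝔪 ^ c • X ≤ U`. -/
theorem maximalIdeal_pow_smul_top_le_of_card_le (U : Submodule A X) [Finite (X ⧸ U)] (c : ℕ)
    (hc : Nat.card (X ⧸ U) ≤ c) : maximalIdeal A ^ c • (⊤ : Submodule A X) ≤ U := by
  have h := maximalIdeal_pow_smul_top_eq_bot_of_card_le (A := A) (X := X ⧸ U) c hc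
  rw [Submodule.smul_le]
  intro a ha x _
  rw [← Submodule.Quotient.mk_eq_zero U, Submodule.Quotient.mk_smul]
  have h2 : a • (Submodule.Quotient.mk x : X ⧸ U) ∈
      maximalIdeal A ^ c • (⊤ : Submodule A (X ⧸ U)) :=
    Submodule.smul_mem_smul ha Submodule.mem_top
  rw [h] at h2
  exact (Submodule.mem_bot A).mp h2

omit [IsLocalRing A] in
theorem pow_smul_top_le_pow_smul_top {I K : Ideal A}
    (h : I • (⊤ : Submodule A X) ≤ K • (⊤ : Submodule A X)) (k : ℕ) :
    I ^ k • (⊤ : Submodule A X) ≤ K ^ k • (⊤ : Submodule A X) := by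
  induction k with
  | zero => simp
  | succ k ih =>
    calc I ^ (k + 1) • (⊤ : Submodule A X) = I ^ k • (I • (⊤ : Submodule A X)) := by
          rw [pow_succ, Submodule.mul_smul]
      _ ≤ I ^ k • (K • (⊤ : Submodule A X)) := Submodule.smul_mono le_rfl h
      _ = K • (I ^ k • (⊤ : Submodule A X)) := by
          rw [← Submodule.mul_smul, ← Submodule.mul_smul, mul_comm]
      _ ≤ K • (K ^ k • (⊤ : Submodule A X)) := Submodule.smul_mono le_rfl ih
      _ = K ^ (k + 1) • (⊤ : Submodule A X) := by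
          rw [← Submodule.mul_smul, ← pow_succ']

end Chain

section Frame

variable {𝒪 : Type} [CommRing 𝒪] {r : ℕ}
variable {N : Type} [AddCommGroup N] [Module (MvPowerSeries (Fin r) 𝒪) N]

/-- The `φ`-linear combination of the family `b` with coefficients `c`. -/
noncomputable def comb (φ : MvPowerSeries (Fin r) 𝒪 →ₐ[𝒪] MvPowerSeries (Fin r) 𝒪) {d : ℕ} (b : Fin d → N)
    (c : Fin d → MvPowerSeries (Fin r) 𝒪) : N :=
  ∑ i, φ (c i) • b i

variable (φ : MvPowerSeries (Fin r) 𝒪 →ₐ[𝒪] MvPowerSeries (Fin r) 𝒪) {d : ℕ} (b : Fin d → N)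

theorem comb_add (c c' : Fin d → MvPowerSeries (Fin r) 𝒪) :
    comb φ b (c + c') = comb φ b c + comb φ b c' := by
  simp only [comb, Pi.add_apply, map_add, add_smul, Finset.sum_add_distrib]

theorem comb_sub (c c' : Fin d → MvPowerSeries (Fin r) 𝒪) :
    comb φ b (c - c') = comb φ b c - comb φ b c' := by
  simp only [comb, Pi.sub_apply, map_sub, sub_smul, Finset.sum_sub_distrib]

theorem comb_zero : comb φ b (0 : Fin d → MvPowerSeries (Fin r) 𝒪) = 0 := by
  simp [comb]

theorem comb_smul (f : MvPowerSeries (Fin r) 𝒪) (c : Fin d → MvPowerSeries (Fin r) 𝒪) :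
    comb φ b (f • c) = φ f • comb φ b c := by
  simp only [comb, Pi.smul_apply, smul_eq_mul, map_mul, mul_smul, Finset.smul_sum]

theorem comb_single (j : Fin d) (f : MvPowerSeries (Fin r) 𝒪) :
    comb φ b (Pi.single j f) = φ f • b j := by
  classical
  rw [comb, Finset.sum_eq_single j]
  · rw [Pi.single_eq_same]
  · intro i _ hij
    rw [Pi.single_eq_of_ne hij, map_zero, zero_smul]
  · intro h
    exact absurd (Finset.mem_univ j) h

theorem comb_vecMul {d' : ℕ} (c : Fin d' → MvPowerSeries (Fin r) 𝒪)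
    (G : Matrix (Fin d') (Fin d) (MvPowerSeries (Fin r) 𝒪)) :
    comb φ b (Matrix.vecMul c G) = ∑ i, φ (c i) • comb φ b (G i) := by
  simp only [comb, Matrix.vecMul, dotProduct, map_sum, map_mul, Finset.sum_smul, mul_smul,
    Finset.smul_sum]
  exact Finset.sum_comm

/-- `b` is a basis of `N` over `Λ/J`, where `Λ` acts through `φ`. -/
structure IsFrame (J : Ideal (MvPowerSeries (Fin r) 𝒪)) : Prop where
  span : ∀ x : N, ∃ c : Fin d → MvPowerSeries (Fin r) 𝒪, x = comb φ b c
  rel : ∀ c : Fin d → MvPowerSeries (Fin r) 𝒪, comb φ b c = 0 ↔ ∀ i, c i ∈ J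

variable {φ b} {J : Ideal (MvPowerSeries (Fin r) 𝒪)}

theorem IsFrame.sub_mem (h : IsFrame φ b J) {c c' : Fin d → MvPowerSeries (Fin r) 𝒪}
    (hcc : comb φ b c = comb φ b c') (i : Fin d) : c i - c' i ∈ J := by
  have h1 : comb φ b (c - c') = 0 := by rw [comb_sub, hcc, sub_self]
  exact (h.rel _).mp h1 i

/-- Change of frame by mutually inverse (rectangular) matrices. -/
theorem IsFrame.rebase (h : IsFrame φ b J) {d' : ℕ}
    (G : Matrix (Fin d') (Fin d) (MvPowerSeries (Fin r) 𝒪))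
    (H : Matrix (Fin d) (Fin d') (MvPowerSeries (Fin r) 𝒪))
    (hGH : G * H = 1) (hHG : H * G = 1) :
    IsFrame φ (fun i => comb φ b (G i)) J := by
  have key : ∀ c : Fin d' → MvPowerSeries (Fin r) 𝒪,
      comb φ (fun i => comb φ b (G i)) c = comb φ b (Matrix.vecMul c G) := by
    intro c
    rw [comb_vecMul]
    rfl
  refine ⟨fun x => ?_, fun c => ?_⟩
  · obtain ⟨c, rfl⟩ := h.span x
    refine ⟨Matrix.vecMul c H, ?_⟩
    rw [key, Matrix.vecMul_vecMul, hHG, Matrix.vecMul_one]
  · rw [key, h.rel]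
    constructor
    · intro hc i
      have h1 : c = Matrix.vecMul (Matrix.vecMul c G) H := by
        rw [Matrix.vecMul_vecMul, hGH, Matrix.vecMul_one]
      rw [h1]
      simp only [Matrix.vecMul, dotProduct]
      exact Ideal.sum_mem _ fun l _ => Ideal.mul_mem_right _ _ (hc l)
    · intro hc l
      simp only [Matrix.vecMul, dotProduct]
      exact Ideal.sum_mem _ fun i _ => Ideal.mul_mem_right _ _ (hc i)

theorem IsFrame.smul_comb (h : IsFrame φ b J)
    (A : MvPowerSeries (Fin r) 𝒪 → Matrix (Fin d) (Fin d) (MvPowerSeries (Fin r) 𝒪))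
    (hA : ∀ f j, f • b j = comb φ b (fun i => A f i j))
    (f : MvPowerSeries (Fin r) 𝒪) (c : Fin d → MvPowerSeries (Fin r) 𝒪) :
    f • comb φ b c = comb φ b (Matrix.mulVec (A f) c) := by
  calc f • comb φ b c = ∑ j, φ (c j) • (f • b j) := by
        unfold comb
        rw [Finset.smul_sum]
        exact Finset.sum_congr rfl fun j _ => smul_comm _ _ _
    _ = ∑ j, φ (c j) • comb φ b (fun i => A f i j) :=
        Finset.sum_congr rfl fun j _ => by rw [hA]
    _ = ∑ j, ∑ i, φ (A f i j * c j) • b i := by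
        refine Finset.sum_congr rfl fun j _ => ?_
        unfold comb
        rw [Finset.smul_sum]
        refine Finset.sum_congr rfl fun i _ => ?_
        rw [map_mul, mul_smul]
        exact smul_comm _ _ _
    _ = ∑ i, ∑ j, φ (A f i j * c j) • b i := Finset.sum_comm
    _ = comb φ b (Matrix.mulVec (A f) c) := by
        unfold comb
        refine Finset.sum_congr rfl fun i _ => ?_
        simp only [Matrix.mulVec, dotProduct, map_sum, Finset.sum_smul]

/-- Elements of `φ(I) N` have coordinates in `I`. -/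
theorem IsFrame.exists_coords_of_mem_smul_top (h : IsFrame φ b J)
    (I : Ideal (MvPowerSeries (Fin r) 𝒪)) {x : N}
    (hx : x ∈ Ideal.map (φ : MvPowerSeries (Fin r) 𝒪 →+* MvPowerSeries (Fin r) 𝒪) I •
      (⊤ : Submodule (MvPowerSeries (Fin r) 𝒪) N)) :
    ∃ c : Fin d → MvPowerSeries (Fin r) 𝒪, (∀ i, c i ∈ I) ∧ x = comb φ b c := by
  -- choose a coordinate matrix for the action
  have hex : ∀ (f : MvPowerSeries (Fin r) 𝒪) (j : Fin d),
      ∃ c : Fin d → MvPowerSeries (Fin r) 𝒪, f • b j = comb φ b c := fun f j => h.span _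
  choose A' hA' using hex
  have hA : ∀ f j, f • b j = comb φ b (fun i => (Matrix.of fun i j => A' f j i) i j) :=
    fun f j => hA' f j
  have hsm := h.smul_comb (Matrix.of fun i j => A' · j i) hA
  -- the set of elements with coordinates in `I` is stable under everything
  have hadd : ∀ x y : N,
      (∃ c : Fin d → MvPowerSeries (Fin r) 𝒪, (∀ i, c i ∈ I) ∧ x = comb φ b c) →
      (∃ c : Fin d → MvPowerSeries (Fin r) 𝒪, (∀ i, c i ∈ I) ∧ y = comb φ b c) →
      ∃ c : Fin d → MvPowerSeries (Fin r) 𝒪, (∀ i, c i ∈ I) ∧ x + y = comb φ b c := by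
    rintro x y ⟨c, hc, rfl⟩ ⟨c', hc', rfl⟩
    exact ⟨c + c', fun i => Ideal.add_mem _ (hc i) (hc' i), (comb_add φ b c c').symm⟩
  have hmem : ∀ a ∈ Ideal.map (φ : MvPowerSeries (Fin r) 𝒪 →+* MvPowerSeries (Fin r) 𝒪) I,
      ∀ n : N, ∃ c : Fin d → MvPowerSeries (Fin r) 𝒪, (∀ i, c i ∈ I) ∧ a • n = comb φ b c := by
    intro a ha
    refine Submodule.span_induction (p := fun a _ => ∀ n : N,
      ∃ c : Fin d → MvPowerSeries (Fin r) 𝒪, (∀ i, c i ∈ I) ∧ a • n = comb φ b c)
      ?_ ?_ ?_ ?_ ha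
    · rintro _ ⟨e, he, rfl⟩ n
      obtain ⟨c, rfl⟩ := h.span n
      refine ⟨e • c, fun i => Ideal.mul_mem_right _ _ he, ?_⟩
      rw [comb_smul]
      rfl
    · intro n
      exact ⟨0, fun i => Ideal.zero_mem _, by rw [zero_smul, comb_zero]⟩
    · intro a a' _ _ iha iha' n
      rw [add_smul]
      exact hadd _ _ (iha n) (iha' n)
    · intro g a _ iha n
      rw [smul_eq_mul, mul_comm, mul_smul]
      exact iha (g • n)
  exact Submodule.smul_induction_on hx (fun a ha n _ => hmem a ha n) hadd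

end Frame

end Fermat.Agent.S59.Patch.H967

end
-- ===== PACK-END S59/Patch/H967/Frame.lean

-- ===== PACK-BEGIN S59/TW/H653/Defs.lean
section




/-!
# S59 / cell TW, leaf TW-HECKE (helper653): Betti Hecke modules for `Γ₁(M) ≤ K ≤ Γ₀(M)` — definitions

Everything lives on `X_K(A) := Additive K →+ A` (`= Hom(K, A) = H¹(K, A)`), for a subgroup
`K ≤ SL(2, ℤ)` with `Γ₁(M) ≤ K ≤ Γ₀(M)` (`IsMid M K`).  Examples:

* `K = Gamma0 M` (`isMid_Gamma0`), `K = Gamma1 M` (`isMid_Gamma1`);
* `K = GammaH M H = {γ ∈ Γ₀(M) | (d mod M) ∈ H}` for `H ≤ (ℤ/M)ˣ` (`isMid_GammaH`);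
* `K = ker κ` for `κ : Γ₀(M) →* D` trivial on `Γ₁(M)` (`isMid_of_ker`; this is `MFree.kerSub κ`).
  Taylor–Wiles case: `M = N * Q`, `D = Δ_Q`.

Definitions (the Hecke operators are hypothesis-free):

* `dUnit M : Γ₀(M) →* (ℤ/M)ˣ`            : `γ ↦ d mod M`;
* `ιK K : K →* GL(2, ℝ)`                  : the embedding;
* `conjK hK g : K ≃* K`                   : `k ↦ g k g⁻¹` for `g ∈ Γ₀(M)`;
* `diamond hK g φ = φ ∘ conjK hK g`        : the diamond operator `⟨d(g)⟩`;
* `resK h`, `coresK h`                     : restriction `X_K → X_{K'}` and transfer back (`K' ≤ K`);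
* `sysOp ι ρ`                              : the operator of a finite family `ρ : I → 𝒢` of
                                             representatives (`0` unless `ρ` is a coset system);
* `sigma M ℓ ∈ Γ₀(M)`                      : a fixed element with lower right entry `ℓ`
                                             (for `gcd(ℓ, M) = 1`);
* `repsT M ℓ : ℙ¹(𝔽_ℓ) → GL(2, ℝ)`         : `j ↦ [[1, j], [0, ℓ]]`, `∞ ↦ σ_ℓ [[ℓ, 0], [0, 1]]`;
* `repsU q : ℤ/q → GL(2, ℝ)`               : `j ↦ [[1, j], [0, q]]`;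
* `TK M K ℓ`, `UK K q`                     : `T_ℓ` (`ℓ ∤ M` prime) and `U_q` (`q ∣ M`) on `X_K(A)`;
* `IsCuspidalK`                            : cuspidal classes (vanish on `tr² = 4` and on
                                             elements of finite order).

Conventions: `(T φ)(g) = ∑_i φ(c_i(g))` where `ρ_i g = c_i(g) ρ_{i·g}` (the classical action of
`K α K = ⊔ K ρ_i` on `H¹`), and `(diamond g φ)(k) = φ(g k g⁻¹)` is the operator of the one-element
family `{g}`.
-/

set_option autoImplicit false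

namespace Fermat.Agent.S59.TW.H653

open CongruenceSubgroup Matrix.SpecialLinearGroup ModularCurve.Period ModularForm
open Fermat.Agent.S29.H642 Fermat.Agent.S41.H761
open P2MW.S_ModularForm_heckeT_slash_eq_self_of_mem_Gamma0.ModularForm.HeckeSlashInvariance
open scoped MatrixGroups

/-! ## Subgroups between `Γ₁(M)` and `Γ₀(M)` -/

/-- `γ ↦ d mod M`, as a character `Γ₀(M) →* (ℤ/M)ˣ`. -/
def dUnit (M : ℕ) : Gamma0 M →* (ZMod M)ˣ := (Gamma0Map M).toHomUnits

@[simp] theorem coe_dUnit {M : ℕ} (g : Gamma0 M) :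
    ((dUnit M g : (ZMod M)ˣ) : ZMod M) = (((g : SL(2, ℤ)) 1 1 : ℤ) : ZMod M) := rfl

/-- `K` is a subgroup of `SL(2, ℤ)` with `Γ₁(M) ≤ K ≤ Γ₀(M)`. -/
structure IsMid (M : ℕ) (K : Subgroup SL(2, ℤ)) : Prop where
  le : K ≤ Gamma0 M
  ge : Gamma1 M ≤ K

variable {M : ℕ}

theorem a_mul_d_of_mem_Gamma0 (g : Gamma0 M) :
    (((g : SL(2, ℤ)) 0 0 : ℤ) : ZMod M) * (((g : SL(2, ℤ)) 1 1 : ℤ) : ZMod M) = 1 := by
  have h1 := det_eq (g : SL(2, ℤ))
  have h2 : (((g : SL(2, ℤ)) 1 0 : ℤ) : ZMod M) = 0 := Gamma0_mem.mp g.2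
  have h3 := congrArg (Int.cast : ℤ → ZMod M) h1
  push_cast at h3
  rw [h2, mul_zero, sub_zero] at h3
  exact h3

theorem mem_Gamma1_of_dUnit {g : Gamma0 M} (h : dUnit M g = 1) : (g : SL(2, ℤ)) ∈ Gamma1 M := by
  have h1 : (((g : SL(2, ℤ)) 1 1 : ℤ) : ZMod M) = 1 := by
    rw [← coe_dUnit, h, Units.val_one]
  have h2 := a_mul_d_of_mem_Gamma0 g
  rw [h1, mul_one] at h2
  exact (Gamma1_mem M _).mpr ⟨h2, h1, Gamma0_mem.mp g.2⟩

theorem dUnit_of_mem_Gamma1 {g : Gamma0 M} (h : (g : SL(2, ℤ)) ∈ Gamma1 M) : dUnit M g = 1 := by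
  apply Units.ext
  rw [coe_dUnit, Units.val_one]
  exact ((Gamma1_mem M _).mp h).2.1

theorem isMid_Gamma0 (M : ℕ) : IsMid M (Gamma0 M) := ⟨le_refl _, Gamma1_in_Gamma0 M⟩

theorem isMid_Gamma1 (M : ℕ) : IsMid M (Gamma1 M) := ⟨Gamma1_in_Gamma0 M, le_refl _⟩

/-- The kernel of a homomorphism `κ : Γ₀(M) →* D` which is trivial on `Γ₁(M)`. -/
theorem isMid_of_ker {D : Type*} [Group D] (κ : Gamma0 M →* D)
    (hκ : ∀ γ : Gamma0 M, (γ : SL(2, ℤ)) ∈ Gamma1 M → κ γ = 1) :
    IsMid M (κ.ker.map (Gamma0 M).subtype) where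
  le := by
    rintro _ ⟨γ, -, rfl⟩
    exact γ.2
  ge := fun g hg => ⟨⟨g, Gamma1_in_Gamma0 M hg⟩, hκ _ hg, rfl⟩

namespace IsMid

variable {K : Subgroup SL(2, ℤ)}

/-- An element of `Γ₀(M)` with the same `d mod M` as an element of `K` lies in `K`. -/
theorem mem_of_dUnit_eq (hK : IsMid M K) {g k : Gamma0 M} (hk : (k : SL(2, ℤ)) ∈ K)
    (h : dUnit M g = dUnit M k) : (g : SL(2, ℤ)) ∈ K := by
  have h1 : dUnit M (g * k⁻¹) = 1 := by rw [map_mul, map_inv, h, mul_inv_cancel]
  have h2 : ((g * k⁻¹ : Gamma0 M) : SL(2, ℤ)) ∈ K := hK.ge (mem_Gamma1_of_dUnit h1)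
  have h3 : (g : SL(2, ℤ)) = ((g * k⁻¹ : Gamma0 M) : SL(2, ℤ)) * (k : SL(2, ℤ)) := by
    simp
  rw [h3]
  exact K.mul_mem h2 hk

theorem mem_of_dUnit_eq_one (hK : IsMid M K) {g : Gamma0 M} (h : dUnit M g = 1) :
    (g : SL(2, ℤ)) ∈ K :=
  hK.ge (mem_Gamma1_of_dUnit h)

theorem conj_mem (hK : IsMid M K) (g : Gamma0 M) {k : SL(2, ℤ)} (hk : k ∈ K) :
    (g : SL(2, ℤ)) * k * (g : SL(2, ℤ))⁻¹ ∈ K := by
  have h1 : dUnit M (g * ⟨k, hK.le hk⟩ * g⁻¹) = dUnit M ⟨k, hK.le hk⟩ := by
    rw [map_mul, map_mul, map_inv, mul_comm, inv_mul_cancel_left]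
  exact hK.mem_of_dUnit_eq (k := ⟨k, hK.le hk⟩) hk h1

end IsMid

/-! ## The groups `Γ_H(M)` -/

/-- `Γ_H(M)` as a subgroup of `Γ₀(M)`. -/
def GammaHsub (M : ℕ) (H : Subgroup (ZMod M)ˣ) : Subgroup (Gamma0 M) := H.comap (dUnit M)

/-- `Γ_H(M) = {γ ∈ Γ₀(M) | (d mod M) ∈ H}` as a subgroup of `SL(2, ℤ)`. -/
def GammaH (M : ℕ) (H : Subgroup (ZMod M)ˣ) : Subgroup SL(2, ℤ) :=
  (GammaHsub M H).map (Gamma0 M).subtype

theorem mem_GammaH {H : Subgroup (ZMod M)ˣ} {g : SL(2, ℤ)} :
    g ∈ GammaH M H ↔ ∃ hg : g ∈ Gamma0 M, dUnit M ⟨g, hg⟩ ∈ H := by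
  constructor
  · rintro ⟨γ, hγ, rfl⟩
    exact ⟨γ.2, hγ⟩
  · rintro ⟨hg, h⟩
    exact ⟨⟨g, hg⟩, h, rfl⟩

theorem GammaH_le (M : ℕ) (H : Subgroup (ZMod M)ˣ) : GammaH M H ≤ Gamma0 M :=
  fun _ hg => (mem_GammaH.mp hg).1

theorem GammaH_mono {H H' : Subgroup (ZMod M)ˣ} (h : H ≤ H') : GammaH M H ≤ GammaH M H' := by
  intro g hg
  obtain ⟨h1, h2⟩ := mem_GammaH.mp hg
  exact mem_GammaH.mpr ⟨h1, h h2⟩

theorem isMid_GammaH (M : ℕ) (H : Subgroup (ZMod M)ˣ) : IsMid M (GammaH M H) where
  le := GammaH_le M H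
  ge := by
    intro g hg
    refine mem_GammaH.mpr ⟨Gamma1_in_Gamma0 M hg, ?_⟩
    rw [dUnit_of_mem_Gamma1 (g := ⟨g, Gamma1_in_Gamma0 M hg⟩) hg]
    exact one_mem H

theorem GammaH_top (M : ℕ) : GammaH M ⊤ = Gamma0 M := by
  ext g
  rw [mem_GammaH]
  exact ⟨fun h => h.1, fun h => ⟨h, Subgroup.mem_top _⟩⟩

/-- The group `ker κ` of block M-FREE is `Γ_H(M)` for `H = ker χ`, if `κ = χ ∘ dUnit`. -/
theorem ker_comp_dUnit_eq_GammaH {D : Type*} [Group D] (χ : (ZMod M)ˣ →* D) :
    (χ.comp (dUnit M)).ker.map (Gamma0 M).subtype = GammaH M χ.ker := rfl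

/-! ## Embeddings and conjugation -/

section Emb

variable (K : Subgroup SL(2, ℤ))

/-- The embedding `K → GL(2, ℝ)`. -/
noncomputable def ιK : K →* GL (Fin 2) ℝ := (mapGL ℝ).comp K.subtype

theorem ιK_injective : Function.Injective (ιK K) :=
  mapGL_real_injective.comp Subtype.val_injective

variable {K}

theorem ιK_apply (k : K) : ιK K k = mapGL ℝ (k : SL(2, ℤ)) := rfl

theorem ιN_eq_ιK (M : ℕ) : ιN M = ιK (Gamma0 M) := rfl

/-- The inclusion `K → Γ₀(M)`. -/
def inclK (hK : IsMid M K) : K →* Gamma0 M := Subgroup.inclusion hK.le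

theorem inclK_injective (hK : IsMid M K) : Function.Injective (inclK hK) :=
  Subgroup.inclusion_injective _

@[simp] theorem inclK_coe (hK : IsMid M K) (k : K) :
    ((inclK hK k : Gamma0 M) : SL(2, ℤ)) = k := rfl

theorem ιN_inclK (hK : IsMid M K) (k : K) : ιN M (inclK hK k) = ιK K k := rfl

/-- Conjugation by `g ∈ Γ₀(M)` as an automorphism of `K`: `k ↦ g k g⁻¹`. -/
def conjK (hK : IsMid M K) (g : Gamma0 M) : K ≃* K where
  toFun k := ⟨(g : SL(2, ℤ)) * k * (g : SL(2, ℤ))⁻¹, hK.conj_mem g k.2⟩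
  invFun k := ⟨(g : SL(2, ℤ))⁻¹ * k * (g : SL(2, ℤ)), by
    have := hK.conj_mem g⁻¹ k.2
    simpa using this⟩
  left_inv k := by
    apply Subtype.ext
    simp [mul_assoc]
  right_inv k := by
    apply Subtype.ext
    simp [mul_assoc]
  map_mul' k k' := by
    apply Subtype.ext
    simp [mul_assoc]

@[simp] theorem conjK_coe (hK : IsMid M K) (g : Gamma0 M) (k : K) :
    ((conjK hK g k : K) : SL(2, ℤ)) = (g : SL(2, ℤ)) * k * (g : SL(2, ℤ))⁻¹ := rfl

end Emb

/-! ## The modules `X_K(A)` and the basic operators -/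

section Operators

variable {K K' : Subgroup SL(2, ℤ)} {A : Type*} [AddCommGroup A]

/-- The diamond operator of `g ∈ Γ₀(M)` on `X_K(A)`: `(⟨g⟩ φ)(k) = φ(g k g⁻¹)`. -/
def diamond (hK : IsMid M K) (g : Gamma0 M) (φ : Additive K →+ A) : Additive K →+ A :=
  φ.comp (MonoidHom.toAdditive (conjK hK g).toMonoidHom)

@[simp] theorem diamond_apply (hK : IsMid M K) (g : Gamma0 M) (φ : Additive K →+ A) (k : K) :
    diamond hK g φ (Additive.ofMul k) = φ (Additive.ofMul (conjK hK g k)) := rfl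

/-- Restriction `Hom(K, A) → Hom(K', A)` for `K' ≤ K`. -/
def resK (h : K' ≤ K) (φ : Additive K →+ A) : Additive K' →+ A :=
  φ.comp (MonoidHom.toAdditive (Subgroup.inclusion h))

@[simp] theorem resK_apply (h : K' ≤ K) (φ : Additive K →+ A) (k : K') :
    resK h φ (Additive.ofMul k) = φ (Additive.ofMul (Subgroup.inclusion h k)) := rfl

/-- Corestriction (transfer) `Hom(K', A) → Hom(K, A)` for `K' ≤ K` (of finite index). -/
noncomputable def coresK (h : K' ≤ K) (ψ : Additive K' →+ A) : Additive K →+ A :=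
  Fermat.Agent.S41.Spec.transferAlong (Subgroup.inclusion h) ψ

end Operators

/-! ## Operators of coset systems -/

section SysOp

variable {𝒢 Γ : Type*} [Group 𝒢] [Group Γ] {I : Type*} [Fintype I] {A : Type*} [AddCommGroup A]

/-- The operator on `Hom(Γ, A)` of a finite family `ρ : I → 𝒢` of representatives:
`(T φ)(g) = ∑ i, φ (c_i(g))` with `ρ i * ι g = ι (c_i(g)) * ρ (i · g)`, if `ρ` is a coset system
from `Γ` to `Γ`; `0` otherwise. -/
noncomputable def sysOp (ι : Γ →* 𝒢) (ρ : I → 𝒢) (φ : Additive Γ →+ A) : Additive Γ →+ A :=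
  open scoped Classical in
  if h : IsCosetSystem ι ι ρ then h.transfer φ else 0

theorem sysOp_eq {ι : Γ →* 𝒢} {ρ : I → 𝒢} (h : IsCosetSystem ι ι ρ) (φ : Additive Γ →+ A) :
    sysOp ι ρ φ = h.transfer φ := by
  unfold sysOp
  rw [dif_pos h]

end SysOp

/-! ## The representatives of `T_ℓ` and `U_q` -/

/-- A fixed element `σ_ℓ = [[x, -y], [M, ℓ]]` of `Γ₀(M)` with lower right entry `ℓ`
(`ℓ x + M y = 1`); `1` if `gcd(ℓ, M) ≠ 1`. -/
noncomputable def sigma (M ℓ : ℕ) : Gamma0 M :=
  open scoped Classical in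
  if h : (Int.gcdA ℓ M) * (ℓ : ℤ) - (-Int.gcdB ℓ M) * (M : ℤ) = 1 then
    mkGamma0 M (Int.gcdA ℓ M) (-Int.gcdB ℓ M) M ℓ h (dvd_refl _)
  else 1

/-- The representatives of `T_ℓ` at level `M`: `j ↦ [[1, j], [0, ℓ]]` and
`∞ ↦ σ_ℓ * [[ℓ, 0], [0, 1]]`.  All of them are `≡ [[1, *], [0, ℓ]] mod M`. -/
noncomputable def repsT (M ℓ : ℕ) (x : OnePoint (ZMod ℓ)) : GL (Fin 2) ℝ :=
  x.elim (ιN M (sigma M ℓ) * heckeDiagMatrix ℓ) (fun j => heckeMatrix ℓ j.val)

@[simp] theorem repsT_infty (M ℓ : ℕ) :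
    repsT M ℓ OnePoint.infty = ιN M (sigma M ℓ) * heckeDiagMatrix ℓ := rfl

@[simp] theorem repsT_coe (M ℓ : ℕ) (j : ZMod ℓ) :
    repsT M ℓ (j : OnePoint (ZMod ℓ)) = heckeMatrix ℓ j.val := rfl

/-- The representatives of `U_q`: `j ↦ [[1, j], [0, q]]`. -/
noncomputable def repsU (q : ℕ) (j : ZMod q) : GL (Fin 2) ℝ := heckeMatrix q j.val

section Hecke

variable (M) (K : Subgroup SL(2, ℤ)) {A : Type*} [AddCommGroup A]

/-- `T_ℓ` on `X_K(A) = Hom(K, A)`, `Γ₁(M) ≤ K ≤ Γ₀(M)` (meaningful for `ℓ ∤ M` prime). -/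
noncomputable def TK (ℓ : ℕ) [NeZero ℓ] (φ : Additive K →+ A) : Additive K →+ A :=
  sysOp (ιK K) (repsT M ℓ) φ

/-- `U_q` on `X_K(A) = Hom(K, A)`, `Γ₁(M) ≤ K ≤ Γ₀(M)` (meaningful for `q ∣ M` prime). -/
noncomputable def UK (q : ℕ) [NeZero q] (φ : Additive K →+ A) : Additive K →+ A :=
  sysOp (ιK K) (repsU q) φ

end Hecke

/-! ## Cuspidal classes -/

section Cusp

variable {K : Subgroup SL(2, ℤ)} {A : Type*} [AddCommGroup A]

/-- Cuspidal classes on `K`: vanish on all `γ` with `(tr γ)² = 4` and on all `γ` of finite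
order. -/
def IsCuspidalK (φ : Additive K →+ A) : Prop :=
  IsParabolicHom K φ ∧ ∀ γ : K, IsOfFinOrder γ → φ (Additive.ofMul γ) = 0

variable (K A)

/-- The subgroup of cuspidal classes of `X_K(A)`. -/
def cuspK : AddSubgroup (Additive K →+ A) where
  carrier := {φ | IsCuspidalK φ}
  zero_mem' := ⟨fun _ _ => rfl, fun _ _ => rfl⟩
  add_mem' := by
    rintro φ ψ ⟨h1, h2⟩ ⟨h3, h4⟩
    refine ⟨fun γ hγ => ?_, fun γ hγ => ?_⟩
    · rw [AddMonoidHom.add_apply, h1 γ hγ, h3 γ hγ, add_zero]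
    · rw [AddMonoidHom.add_apply, h2 γ hγ, h4 γ hγ, add_zero]
  neg_mem' := by
    rintro φ ⟨h1, h2⟩
    refine ⟨fun γ hγ => ?_, fun γ hγ => ?_⟩
    · rw [AddMonoidHom.neg_apply, h1 γ hγ, neg_zero]
    · rw [AddMonoidHom.neg_apply, h2 γ hγ, neg_zero]

variable {K A}

theorem mem_cuspK {φ : Additive K →+ A} : φ ∈ cuspK K A ↔ IsCuspidalK φ := Iff.rfl

end Cusp

end Fermat.Agent.S59.TW.H653

end
-- ===== PACK-END S59/TW/H653/Defs.lean

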