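import Mathlib
import Fermat.Prelude.Def_Algebra_PatchingDatum
import Fermat.Agent.Pack.S43GC.G0E9L0
import Fermat.Agent.Pack.S43GC.G0E9L3
import Fermat.Agent.Pack.S43GC.G0E5L0
import Fermat.Agent.Pack.S43GC.G0E0L3
import Fermat.Agent.Pack.S43GC.G0E9L2
import Fermat.Agent.Pack.S43GC.G0E9L1
import Fermat.Agent.Pack.S43GC.G0E3L2
import Fermat.Agent.Pack.S43GC.G0E10L0
import Fermat.Agent.Pack.S43GC.G0E0L2
import Fermat.Agent.Pack.S43GC.G0E3L1
import Fermat.Agent.Pack.S43GC.G0E10L3
import Fermat.Agent.Pack.S43GC.G0E7L3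
import Fermat.Agent.Pack.S43GC.G0E0L0
import Fermat.Agent.Pack.S43GC.G0E1L1
import Fermat.Agent.Pack.S43GC.G0E10L2
import Fermat.Agent.Pack.S43GC.G0E10L1
import Fermat.Agent.Pack.S43GC.G0E8L0
import Fermat.Agent.Pack.S43GC.G0E1L3
import Fermat.Agent.Pack.Fast891

-- ===== PACK-BEGIN S55/H901/H1Fin.lean
section




/-!
# S55 / G5: finiteness of `H¹(G_S, M)` in Prelude terms

`M` a finite-dimensional smooth `𝔽_p`-representation of `G_ℚ`, unramified outside `S ∋ p`.
Then `continuousH1S S M` (hence `sha₁ S M`) is finite-dimensional.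

Proof: there is ONE finite extension `Lmax/ℚ` such that every `S`-level-constant 1-cocycle of
`M` vanishes on `G_{Lmax}` (`exists_level_bound`): on `G_L` (`L` a common Galois level of `M`
and `μ_p`) a cocycle is a homomorphism of finite `S`-unramified level; each of its coordinates
is cut out by a Kummer generator `β`, `β^p ∈ L` (`exists_kummer_generator`), and all such `β`
lie in the bound field (`exists_bound_field`: finiteness of the Selmer group `L(S,p)`).
Hence all such cocycles factor through the finite set `G_ℚ / G_{Lmax}`.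

The only input not proved here is `UnramClassicalSpec S` (B10-classical: Prelude-unramified
implies ramification index `1`).
-/

set_option autoImplicit false
set_option linter.style.haveILetI false
set_option linter.unusedSectionVars false

open IntermediateField groupCohomology ExtCitation

namespace Fermat.Agent.S55.H901

open Fermat.Agent.S55.Bridge

variable {p : ℕ} [Fact p.Prime]

/-- **Uniform level bound.** -/
theorem exists_level_bound (S : Finset Nat.Primes) (hB : UnramClassicalSpec S)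
    (hpS : pPrime p ∈ S)
    (M : Rep.{0, 0, 0} (ZMod p) (AlgebraicClosure ℚ ≃ₐ[ℚ] AlgebraicClosure ℚ))
    [FiniteDimensional (ZMod p) M]
    (hsm : ∀ m : M, ∃ F : IntermediateField ℚ (AlgebraicClosure ℚ), FiniteDimensional ℚ F ∧
      ∀ s ∈ F.fixingSubgroup, M.ρ s m = m)
    (hMur : ∀ q : Nat.Primes, q ∉ S → ∀ A : ValuationSubring (AlgebraicClosure ℚ),
      A.LiesOverPrime (q : ℕ) → ∀ g ∈ A.inertiaSubgroupIn ℚ, M.ρ g = 1) :
    ∃ Lmax : IntermediateField ℚ (AlgebraicClosure ℚ), FiniteDimensional ℚ Lmax ∧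
      ∀ c : cocycles₁ M, IsLevelConstantS₁ S c → ∀ s ∈ Lmax.fixingSubgroup, c s = 0 := by
  classical
  haveI : NeZero p := ⟨(Fact.out : p.Prime).ne_zero⟩
  haveI := isGalois_Qbar
  obtain ⟨L, hL, hLgal, hLM, hLcyc, -⟩ := exists_common_galois_level M S hpS hsm hMur
  haveI := hL.1
  -- a primitive `p`-th root of unity, lying in `L`
  haveI : NeZero ((p : ℕ) : AlgebraicClosure ℚ) := ⟨by exact_mod_cast (Fact.out : p.Prime).ne_zero⟩
  obtain ⟨ζ, hζ⟩ := HasEnoughRootsOfUnity.exists_primitiveRoot (AlgebraicClosure ℚ) p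
  have hζ0 : ζ ≠ 0 := hζ.ne_zero (Fact.out : p.Prime).ne_zero
  have hζL : ζ ∈ L := by
    rw [← InfiniteGalois.fixedField_fixingSubgroup L, IntermediateField.mem_fixedField_iff]
    intro s hs
    have h1 := (cycloChar_eq_one_iff p s).1 (hLcyc s hs) (hζ.isUnit (Fact.out : p.Prime).ne_zero).unit
      (by
        rw [mem_rootsOfUnity]
        apply Units.ext
        simpa using hζ.pow_eq_one)
    simpa using h1
  obtain ⟨Lmax, hfin, hLLmax, hbound⟩ :=
    exists_bound_field S hB (Fact.out : p.Prime).pos L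
  refine ⟨Lmax, hfin, fun c hc s hs => ?_⟩
  obtain ⟨F, hF, hFgal, hLF, hconst⟩ := (isLevelConstantS₁_iff_galois S c L hL).1 hc
  haveI := hF.1
  have hsL : s ∈ L.fixingSubgroup := IntermediateField.fixingSubgroup_antitone hLLmax hs
  have hcadd : ∀ s ∈ L.fixingSubgroup, ∀ t ∈ L.fixingSubgroup, c (s * t) = c s + c t := by
    intro s hs t _
    rw [(mem_cocycles₁_iff c).1 c.2 s t, hLM s hs, add_comm]
    rfl
  rw [← Module.forall_dual_apply_eq_zero_iff (ZMod p)]
  intro φ
  obtain ⟨β, hβF, hβ0, hβL, hβs⟩ := exists_kummer_generator L F hLF hζL hζ.pow_eq_one hζ0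
    (fun s => φ (c s))
    (fun s hs t ht => by rw [hcadd s hs t ht, map_add])
    (fun s _ t ht => by rw [hconst s t ht])
  have hβmax : β ∈ Lmax := hbound F hF hFgal hLF β hβF hβ0 hβL
  have h1 : s β = β := (IntermediateField.mem_fixingSubgroup_iff _ _).1 hs β hβmax
  have h2 := hβs s hsL
  rw [h1] at h2
  have h3 : ζ ^ (φ (c s)).val = 1 := by
    have : ζ ^ (φ (c s)).val * β = 1 * β := by rw [one_mul]; exact h2.symm
    exact mul_right_cancel₀ hβ0 this
  have h4 : p ∣ (φ (c s)).val := (hζ.pow_eq_one_iff_dvd _).1 h3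
  have h5 : (φ (c s)).val = 0 := Nat.eq_zero_of_dvd_of_lt h4 (ZMod.val_lt _)
  exact (ZMod.val_eq_zero _).1 h5

/-- The fixing subgroup of a finite extension has finite index in `G_ℚ`. -/
theorem finite_quotient_fixingSubgroup (E : IntermediateField ℚ (AlgebraicClosure ℚ))
    [FiniteDimensional ℚ E] :
    Finite ((AlgebraicClosure ℚ ≃ₐ[ℚ] AlgebraicClosure ℚ) ⧸ E.fixingSubgroup) := by
  haveI := isAlgebraic_Qbar
  haveI := isGalois_Qbar
  exact Subgroup.quotient_finite_of_isOpen _ (IntermediateField.fixingSubgroup_isOpen E)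

/-- If all `S`-level-constant cocycles vanish on `G_E` for one finite `E/ℚ`, then there are only
finitely many of them. -/
theorem finite_levelCocyclesS₁_of_bound (S : Finset Nat.Primes)
    (M : Rep.{0, 0, 0} (ZMod p) (AlgebraicClosure ℚ ≃ₐ[ℚ] AlgebraicClosure ℚ))
    [FiniteDimensional (ZMod p) M]
    (E : IntermediateField ℚ (AlgebraicClosure ℚ)) [FiniteDimensional ℚ E]
    (h : ∀ c : cocycles₁ M, IsLevelConstantS₁ S c → ∀ s ∈ E.fixingSubgroup, c s = 0) :
    Finite (levelCocyclesS₁ S M) := by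
  classical
  haveI := finite_quotient_fixingSubgroup E
  haveI : Finite M := Module.finite_of_finite (ZMod p)
  let Φ : levelCocyclesS₁ S M →
      ((AlgebraicClosure ℚ ≃ₐ[ℚ] AlgebraicClosure ℚ) ⧸ E.fixingSubgroup → M) :=
    fun c q => (c : cocycles₁ M) (Quotient.out q)
  have hconst : ∀ (c : levelCocyclesS₁ S M) (g : AlgebraicClosure ℚ ≃ₐ[ℚ] AlgebraicClosure ℚ),
      (c : cocycles₁ M) (Quotient.out (QuotientGroup.mk g :
        (AlgebraicClosure ℚ ≃ₐ[ℚ] AlgebraicClosure ℚ) ⧸ E.fixingSubgroup)) = (c : cocycles₁ M) g := by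
    intro c g
    obtain ⟨t, ht⟩ := QuotientGroup.mk_out_eq_mul E.fixingSubgroup g
    rw [ht, (mem_cocycles₁_iff (c : cocycles₁ M)).1 (c : cocycles₁ M).2 g t,
      h (c : cocycles₁ M) c.2 t t.2, map_zero, zero_add]
  refine Finite.of_injective Φ (fun c c' hcc' => ?_)
  apply Subtype.ext
  apply cocycles₁_ext
  intro g
  rw [← hconst c g, ← hconst c' g]
  exact congrFun hcc' _

/-- **G5 (finiteness of `H¹(G_S, M)`), conditional on B10-classical.** -/
theorem finite_continuousH1S_of (S : Finset Nat.Primes) (hB : UnramClassicalSpec S)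
    (hpS : pPrime p ∈ S)
    (M : Rep.{0, 0, 0} (ZMod p) (AlgebraicClosure ℚ ≃ₐ[ℚ] AlgebraicClosure ℚ))
    [FiniteDimensional (ZMod p) M]
    (hsm : ∀ m : M, ∃ F : IntermediateField ℚ (AlgebraicClosure ℚ), FiniteDimensional ℚ F ∧
      ∀ s ∈ F.fixingSubgroup, M.ρ s m = m)
    (hMur : ∀ q : Nat.Primes, q ∉ S → ∀ A : ValuationSubring (AlgebraicClosure ℚ),
      A.LiesOverPrime (q : ℕ) → ∀ g ∈ A.inertiaSubgroupIn ℚ, M.ρ g = 1) :
    Finite (continuousH1S S M) := by
  obtain ⟨Lmax, hfin, hbound⟩ := exists_level_bound S hB hpS M hsm hMur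
  haveI := hfin
  haveI := finite_levelCocyclesS₁_of_bound S M Lmax hbound
  let Ψ : levelCocyclesS₁ S M → continuousH1S S M :=
    fun c => ⟨(H1π M).hom (c : cocycles₁ M), Submodule.mem_map_of_mem c.2⟩
  refine Finite.of_surjective Ψ ?_
  rintro ⟨x, hx⟩
  obtain ⟨c, hc, rfl⟩ := (mem_continuousH1S_iff S M x).1 hx
  exact ⟨⟨c, hc⟩, rfl⟩

/-- **G5**: `H¹(G_S, M)` is finite-dimensional (conditional on B10-classical). -/
theorem finiteDimensional_continuousH1S_of (S : Finset Nat.Primes) (hB : UnramClassicalSpec S)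
    (hpS : pPrime p ∈ S)
    (M : Rep.{0, 0, 0} (ZMod p) (AlgebraicClosure ℚ ≃ₐ[ℚ] AlgebraicClosure ℚ))
    [FiniteDimensional (ZMod p) M]
    (hsm : ∀ m : M, ∃ F : IntermediateField ℚ (AlgebraicClosure ℚ), FiniteDimensional ℚ F ∧
      ∀ s ∈ F.fixingSubgroup, M.ρ s m = m)
    (hMur : ∀ q : Nat.Primes, q ∉ S → ∀ A : ValuationSubring (AlgebraicClosure ℚ),
      A.LiesOverPrime (q : ℕ) → ∀ g ∈ A.inertiaSubgroupIn ℚ, M.ρ g = 1) :
    FiniteDimensional (ZMod p) (continuousH1S S M) := by
  haveI := finite_continuousH1S_of S hB hpS M hsm hMur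
  exact Module.Finite.of_finite

/-- `Ш¹_S(M)` is finite-dimensional (conditional on B10-classical). -/
theorem finiteDimensional_sha₁_of (S : Finset Nat.Primes) (hB : UnramClassicalSpec S)
    (hpS : pPrime p ∈ S)
    (M : Rep.{0, 0, 0} (ZMod p) (AlgebraicClosure ℚ ≃ₐ[ℚ] AlgebraicClosure ℚ))
    [FiniteDimensional (ZMod p) M]
    (hsm : ∀ m : M, ∃ F : IntermediateField ℚ (AlgebraicClosure ℚ), FiniteDimensional ℚ F ∧
      ∀ s ∈ F.fixingSubgroup, M.ρ s m = m)
    (hMur : ∀ q : Nat.Primes, q ∉ S → ∀ A : ValuationSubring (AlgebraicClosure ℚ),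
      A.LiesOverPrime (q : ℕ) → ∀ g ∈ A.inertiaSubgroupIn ℚ, M.ρ g = 1) :
    FiniteDimensional (ZMod p) (sha₁ S M) := by
  haveI := finiteDimensional_continuousH1S_of S hB hpS M hsm hMur
  exact Submodule.finiteDimensional_of_le (inf_le_left : sha₁ S M ≤ continuousH1S S M)

end Fermat.Agent.S55.H901

end
-- ===== PACK-END S55/H901/H1Fin.lean

-- ===== PACK-BEGIN S55/T/CoresH572.lean
section



/-!
# S55 layer T, leaf T1: `CoresSpec`, `ResIndexSpec`, `CardTorsionSpec` (helper572)

Corestriction in ALL degrees by dimension shifting (`H572.cor`), `cor ∘ res = [G : H]`,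
naturality in the coefficients; hence `res_H x = 0 ⇒ [G : H] • x = 0` and `|G| • Hⁿ(G, A) = 0`
for `n ≥ 1`.
-/

set_option autoImplicit false

open CategoryTheory groupCohomology

namespace Fermat.Agent.S55.T.H572

open Fermat.Agent.S55.H572 in
/-- **T1c.** Corestriction, natural in the coefficients, with `cor ∘ res = [G : H]`. -/
theorem cores : CoresSpec := by
  intro k G _ _ _ H n
  letI : Fintype (G ⧸ H) := Fintype.ofFinite _
  refine ⟨fun A => cor H n A, ?_, ?_⟩
  · intro A x
    have h := congrArg (fun f => f.hom x) (resH_cor H n A)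
    exact h
  · intro A B f y
    have h := congrArg (fun g => g.hom y) (cor_natural H n f)
    exact h

open Fermat.Agent.S55.H572 in
/-- **T1a.** If `res_H x = 0` then `[G : H] • x = 0`. -/
theorem resIndex : ResIndexSpec := by
  intro k G _ _ _ A H n _ x hx
  letI : Fintype (G ⧸ H) := Fintype.ofFinite _
  exact index_nsmul_eq_zero_of_resH_eq_zero H n A x hx

/-- **T1b.** `|G|` kills `Hⁿ(G, A)` for `n ≥ 1`. -/
theorem cardTorsion : CardTorsionSpec := by
  intro k G _ _ _ A n hn x
  obtain ⟨m, rfl⟩ : ∃ m, n = m + 1 := ⟨n - 1, by omega⟩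
  have h0 : Limits.IsZero (groupCohomology (resSub A (⊥ : Subgroup G)) (m + 1)) :=
    isZero_groupCohomology_succ_of_subsingleton _ m
  have hx : (resMap A (⊥ : Subgroup G) (m + 1)).hom x = 0 :=
    (ModuleCat.isZero_iff_subsingleton.mp h0).elim _ _
  have := resIndex k G A ⊥ (m + 1) (Nat.succ_pos m) x hx
  rwa [Subgroup.index_bot] at this

end Fermat.Agent.S55.T.H572

end
-- ===== PACK-END S55/T/CoresH572.lean

-- ===== PACK-BEGIN S55/L/Adapter.lean
section



/-!
# S55, layer L: adapter between the two frozen interfaces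

* `Fermat.Agent.S55.Local` (architect helper715, on main): CORE of local class field theory over a
  base `(A, F)` = complete DVR with finite residue field + fraction field; local fields are the
  finite extensions of `F`.  Main goal `Local.H2CyclicStatement`.
* `Fermat.Agent.S55.L` (architect helper54): OUTER layer (class module, invariant maps, Tate's
  theorem consequences, existence theorem mod `p`, instantiation at `ℚ_q`), phrased for intrinsic
  local fields `[IsLocalFld K]`.

The adapter theorems below take a `Local` statement and produce the corresponding `L` spec, by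
choosing `A :=` the ring of integers of `K` and `F := K`.  So every piece of the `Local` core is
directly usable by the outer layer and nobody has to prove anything twice.
-/

set_option autoImplicit false
set_option linter.style.haveILetI false

namespace Fermat.Agent.S55.L

open groupCohomology

/-- A finite additive cyclic group of order `n` is `ZMod n`. -/
theorem nonempty_addEquiv_zmod_of_isAddCyclic {G : Type*} [AddCommGroup G] {n : ℕ}
    (hcard : Nat.card G = n) (hcyc : IsAddCyclic G) : Nonempty (G ≃+ ZMod n) := by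
  have e := zmodAddCyclicAddEquiv hcyc
  rw [hcard] at e
  exact ⟨e.symm⟩

/-- **Adapter T5**: the main theorem of the `Local` core gives `H2CyclicSpec`. -/
theorem h2Cyclic_of_local (h : Local.H2CyclicStatement) : H2CyclicSpec := by
  intro K L _ _ _ _ _ hK
  obtain ⟨A, hA1, hA2, hA3⟩ := hK.exists_ringOfIntegers
  haveI := hK.charZero
  haveI := hA1
  haveI := hA2
  haveI := hA3
  obtain ⟨hcard, hcyc⟩ := h A K K L
  exact nonempty_addEquiv_zmod_of_isAddCyclic hcard hcyc

/-- **Adapter T4**: the divisibility upper bound of the `Local` core gives `H2CardLeSpec`. -/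
theorem h2CardLe_of_local (h : Local.H2CardDvdStatement) : H2CardLeSpec := by
  intro K L _ _ _ _ _ hK
  obtain ⟨A, hA1, hA2, hA3⟩ := hK.exists_ringOfIntegers
  haveI := hK.charZero
  haveI := hA1
  haveI := hA2
  haveI := hA3
  have hdvd := h A K K L
  have hpos : 0 < Module.finrank K L := Module.finrank_pos
  have hne : Nat.card (H2 (unitsRep K L)) ≠ 0 := by
    intro h0
    rw [show Nat.card (H2 (Rep.ofAlgebraAutOnUnits K L)) = 0 from h0] at hdvd
    exact hpos.ne' (Nat.eq_zero_of_zero_dvd hdvd)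
  exact ⟨Nat.finite_of_card_ne_zero hne, Nat.le_of_dvd hpos hdvd⟩

/-- **Adapter T3'**: the cyclic `H²` count of the `Local` core gives `H2CardCyclicSpec`. -/
theorem h2CardCyclic_of_local (h : Local.CyclicH2CardStatement) : H2CardCyclicSpec := by
  intro K L _ _ _ _ _ hK hcyc
  obtain ⟨A, hA1, hA2, hA3⟩ := hK.exists_ringOfIntegers
  haveI := hK.charZero
  haveI := hA1
  haveI := hA2
  haveI := hA3
  have hcard := h A K K L hcyc
  have hpos : 0 < Module.finrank K L := Module.finrank_pos
  have hne : Nat.card (H2 (unitsRep K L)) ≠ 0 := by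
    rw [show Nat.card (H2 (unitsRep K L)) = Module.finrank K L from hcard]
    exact hpos.ne'
  exact ⟨Nat.finite_of_card_ne_zero hne, hcard⟩

/-- **Adapter T3**: the cyclic norm index of the `Local` core gives `NormIndexCyclicSpec`. -/
theorem normIndexCyclic_of_local (h : Local.CyclicNormIndexStatement) : NormIndexCyclicSpec := by
  intro K L _ _ _ _ _ hK hcyc
  obtain ⟨A, hA1, hA2, hA3⟩ := hK.exists_ringOfIntegers
  haveI := hK.charZero
  haveI := hA1
  haveI := hA2
  haveI := hA3
  exact h A K K L hcyc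

/-- **Adapter CM**: the main theorem of the `Local` core gives the class module property, once
finite extensions of local fields are local fields. -/
theorem classModule_of_local (h : Local.H2CyclicStatement) (h1 : FiniteExtSpec) :
    ClassModuleSpec :=
  classModule_of (h2Cyclic_of_local h) h1

/-- **Adapter CM, direct form**: the main theorem of the `Local` core gives the class module
property; no `FiniteExtSpec` needed, because the intermediate fields of `L / K` are finite
extensions of the base `F := K`. -/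
theorem classModule_of_local' (h : Local.H2CyclicStatement) : ClassModuleSpec := by
  intro K L _ _ _ _ _ hK H
  obtain ⟨A, hA1, hA2, hA3⟩ := hK.exists_ringOfIntegers
  haveI := hK.charZero
  haveI := hA1
  haveI := hA2
  haveI := hA3
  haveI : IsGalois (IntermediateField.fixedField H) L := IsGalois.tower_top_of_isGalois K _ L
  constructor
  · haveI : Subsingleton (H1 (unitsRep (IntermediateField.fixedField H) L)) :=
      (inferInstance :
        Subsingleton (H1 (Rep.ofAlgebraAutOnUnits (IntermediateField.fixedField H) L)))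
    exact (transportAddEquiv K L H 1).toEquiv.subsingleton
  · obtain ⟨hcard, hcyc⟩ := h A K (IntermediateField.fixedField H) L
    rw [IntermediateField.finrank_fixedField_eq_card] at hcard
    obtain ⟨e⟩ := nonempty_addEquiv_zmod_of_isAddCyclic hcard hcyc
    exact ⟨(transportAddEquiv K L H 2).trans e⟩

end Fermat.Agent.S55.L

end
-- ===== PACK-END S55/L/Adapter.lean

-- ===== PACK-BEGIN S55/H953/LocalNormIndex.lean
section




/-!
# S55 / local norm index theorem for cyclic extensions

`K` a complete ultrametric nontrivially normed field, `L/K` a finite cyclic Galois extension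
(normed), `L` locally compact.  Then `[Kˣ : N_{L/K} Lˣ] = [L : K]`.
-/

set_option autoImplicit false

namespace Fermat.Agent.S55.H953

open Fermat.Agent.S55.Herbrand Finset

section GroupEnd

variable {G : Type*} [CommGroup G]

/-- the additive endomorphism induced by a monoid endomorphism -/
def endA (φ : G →* G) : AddMonoid.End (Additive G) := MonoidHom.toAdditive φ

lemma endA_apply (φ : G →* G) (x : Additive G) :
    endA φ x = Additive.ofMul (φ (Additive.toMul x)) := rfl

lemma endA_pow_apply (φ : G →* G) (j : ℕ) (x : Additive G) :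
    (endA φ ^ j) x = Additive.ofMul ((⇑φ)^[j] (Additive.toMul x)) := by
  induction j generalizing x with
  | zero => rfl
  | succ j ih =>
    rw [pow_succ, Function.iterate_succ_apply]
    change (endA φ ^ j) (endA φ x) = _
    rw [ih]
    rfl

lemma endA_pow_eq_one (φ : G →* G) (n : ℕ) (h : ∀ x, (⇑φ)^[n] x = x) : endA φ ^ n = 1 := by
  ext x
  rw [endA_pow_apply, h]
  rfl

lemma delta_endA_apply (φ : G →* G) (x : Additive G) :
    delta (endA φ) x = Additive.ofMul (φ (Additive.toMul x) / Additive.toMul x) := rfl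

lemma normN_endA_apply (φ : G →* G) (n : ℕ) (x : Additive G) :
    normN (endA φ) n x = Additive.ofMul (∏ j ∈ range n, (⇑φ)^[j] (Additive.toMul x)) := by
  rw [normN_apply]
  simp_rw [endA_pow_apply]
  rw [ofMul_prod]

/-- restriction of an endomorphism to a stable subgroup -/
def resHom (φ : G →* G) (H : Subgroup G) (hH : ∀ x ∈ H, φ x ∈ H) : ↥H →* ↥H :=
  (φ.comp H.subtype).codRestrict H (fun x => hH x x.2)

lemma coe_resHom (φ : G →* G) (H : Subgroup G) (hH : ∀ x ∈ H, φ x ∈ H) (x : ↥H) :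
    (resHom φ H hH x : G) = φ x := rfl

lemma coe_resHom_iterate (φ : G →* G) (H : Subgroup G) (hH : ∀ x ∈ H, φ x ∈ H) (j : ℕ)
    (x : ↥H) : (((⇑(resHom φ H hH))^[j] x : ↥H) : G) = (⇑φ)^[j] x := by
  induction j generalizing x with
  | zero => rfl
  | succ j ih =>
    rw [Function.iterate_succ_apply, Function.iterate_succ_apply, ih]
    rfl

/-- `h⁰ = 1` for a stable subgroup on which fixed elements are norms -/
lemma h0_resHom_eq_one (φ : G →* G) (n : ℕ) (H : Subgroup G) (hH : ∀ x ∈ H, φ x ∈ H)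
    (h : ∀ u ∈ H, φ u = u → ∃ y ∈ H, ∏ j ∈ range n, (⇑φ)^[j] y = u) :
    h0 (endA (resHom φ H hH)) n = 1 := by
  rw [h0_eq_relIndex, AddSubgroup.relIndex_eq_one]
  intro x hx
  rw [AddMonoidHom.mem_ker, delta_endA_apply] at hx
  have hx' : resHom φ H hH (Additive.toMul x) / Additive.toMul x = 1 := ofMul_eq_zero.1 hx
  have hfix : φ (Additive.toMul x : ↥H) = (Additive.toMul x : ↥H) := by
    have := congrArg (Subtype.val) (div_eq_one.1 hx')
    simpa [coe_resHom] using this
  obtain ⟨y, hy, hyx⟩ := h _ (Additive.toMul x).2 hfix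
  refine ⟨Additive.ofMul ⟨y, hy⟩, ?_⟩
  rw [normN_endA_apply]
  apply Additive.toMul.injective
  apply Subtype.ext
  rw [toMul_ofMul, Subgroup.val_finsetProd]
  simp only [coe_resHom_iterate]
  exact hyx

/-- `h¹ = 1` for a stable subgroup on which elements of norm one are of the form `φ y / y` -/
lemma h1_resHom_eq_one (φ : G →* G) (n : ℕ) (H : Subgroup G) (hH : ∀ x ∈ H, φ x ∈ H)
    (h : ∀ u ∈ H, ∏ j ∈ range n, (⇑φ)^[j] u = 1 → ∃ y ∈ H, φ y / y = u) :
    h1 (endA (resHom φ H hH)) n = 1 := by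
  rw [h1_eq_relIndex, AddSubgroup.relIndex_eq_one]
  intro x hx
  rw [AddMonoidHom.mem_ker, normN_endA_apply] at hx
  have hx' : ∏ j ∈ range n, (⇑(resHom φ H hH))^[j] (Additive.toMul x) = 1 :=
    ofMul_eq_zero.1 hx
  have hN : ∏ j ∈ range n, (⇑φ)^[j] (Additive.toMul x : ↥H) = 1 := by
    have := congrArg (Subtype.val) hx'
    rw [Subgroup.val_finsetProd] at this
    simpa only [coe_resHom_iterate, Subgroup.coe_one] using this
  obtain ⟨y, hy, hyx⟩ := h _ (Additive.toMul x).2 hN
  refine ⟨Additive.ofMul ⟨y, hy⟩, ?_⟩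
  rw [delta_endA_apply]
  apply Additive.toMul.injective
  apply Subtype.ext
  simp only [toMul_ofMul]
  exact hyx

end GroupEnd

lemma exists_norm_lt_one_L (K L : Type*) [NontriviallyNormedField K] [NormedField L]
    [NormedAlgebra K L] : ∃ x : L, x ≠ 0 ∧ ‖x‖ < 1 := by
  obtain ⟨x, hx0, hx1⟩ := NormedField.exists_norm_lt_one K
  refine ⟨algebraMap K L x, ?_, ?_⟩
  · rw [Ne, map_eq_zero]
    exact norm_pos_iff.1 hx0
  · rw [norm_algebraMap']
    exact hx1

section Local

variable {K L : Type} [NontriviallyNormedField K] [IsUltrametricDist K] [CompleteSpace K]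
  [NormedField L] [NormedAlgebra K L] [FiniteDimensional K L] [IsGalois K L]
  (σ : L ≃ₐ[K] L) (hσ : ∀ g : L ≃ₐ[K] L, g ∈ Subgroup.zpowers σ)

/-- `σ` acting on the units of `L` -/
def sigU : Lˣ →* Lˣ := Units.map (σ : L →* L)

omit [IsUltrametricDist K] [CompleteSpace K] [FiniteDimensional K L] [IsGalois K L] in
lemma coe_sigU (u : Lˣ) : ((sigU σ u : Lˣ) : L) = σ (u : L) := rfl

omit [IsUltrametricDist K] [CompleteSpace K] [FiniteDimensional K L] [IsGalois K L] in
lemma coe_sigU_iterate (j : ℕ) (u : Lˣ) : (((⇑(sigU σ))^[j] u : Lˣ) : L) = (σ ^ j) (u : L) := by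
  induction j generalizing u with
  | zero => rfl
  | succ j ih =>
    rw [Function.iterate_succ_apply, ih, pow_succ]
    rfl

omit [IsUltrametricDist K] [CompleteSpace K] [FiniteDimensional K L] [IsGalois K L] in
lemma sigU_iterate_orderOf (u : Lˣ) : (⇑(sigU σ))^[orderOf σ] u = u := by
  apply Units.ext
  rw [coe_sigU_iterate, pow_orderOf_eq_one]
  rfl

omit [IsUltrametricDist K] [CompleteSpace K] [FiniteDimensional K L] [IsGalois K L] in
lemma coe_prod_sigU_iterate (n : ℕ) (u : Lˣ) :
    ((∏ j ∈ range n, (⇑(sigU σ))^[j] u : Lˣ) : L) = ∏ j ∈ range n, (σ ^ j) (u : L) := by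
  rw [Units.coe_prod]
  simp_rw [coe_sigU_iterate]

lemma sigU_mem_unitsNormOne (u : Lˣ) (hu : u ∈ unitsNormOne L) : sigU σ u ∈ unitsNormOne L := by
  rw [mem_unitsNormOne] at hu ⊢
  rw [coe_sigU, norm_algEquiv, hu]

/-- the subgroup `V = 1 + Λ₀` of `Lˣ` -/
noncomputable def subV [ProperSpace L] : Subgroup Lˣ where
  carrier := {u | (u : L) - 1 ∈ (normalFiltration σ hσ).Λ 0}
  one_mem' := (normalFiltration σ hσ).V_one 0
  mul_mem' := by
    intro a b ha hb
    exact (normalFiltration σ hσ).V_mul ha hb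
  inv_mem' := by
    intro a ha
    have := (normalFiltration σ hσ).V_inv ha
    simpa using this

variable [ProperSpace L]

lemma mem_subV {u : Lˣ} : u ∈ subV σ hσ ↔ (u : L) - 1 ∈ (normalFiltration σ hσ).Λ 0 := Iff.rfl

lemma sigU_mem_subV (u : Lˣ) (hu : u ∈ subV σ hσ) : sigU σ u ∈ subV σ hσ := by
  rw [mem_subV] at hu ⊢
  have := (normalFiltration σ hσ).V_stable hu 1
  rw [coe_sigU]
  simpa using this

lemma subV_le : subV σ hσ ≤ unitsNormOne L := by
  intro u hu
  rw [mem_subV] at hu
  rw [mem_unitsNormOne]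
  have : IsUltrametricDist L := IsUltrametricDist.of_normedAlgebra K
  have h1 : ‖(u : L) - 1‖ < 1 := (normalFiltration σ hσ).norm_lt_one hu
  have h2 : ‖(u : L)‖ = ‖((u : L) - 1) + 1‖ := by rw [sub_add_cancel]
  rw [h2, IsUltrametricDist.norm_add_eq_max_of_norm_ne_norm (by rw [norm_one]; exact h1.ne),
    norm_one, max_eq_right h1.le]

lemma exists_ball_subV : ∃ ε : ℝ, 0 < ε ∧ ∀ u : Lˣ, ‖(u : L) - 1‖ < ε → u ∈ subV σ hσ := by
  have hopen : IsOpen ((normalFiltration σ hσ).Λ 0 : Set L) := by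
    change IsOpen (lam K L (rho0 K L * 2⁻¹ ^ 0) : Set L)
    exact isOpen_lam (by rw [pow_zero, mul_one]; exact rho0_pos.ne')
  obtain ⟨ε, hε, hball⟩ := Metric.isOpen_iff.1 hopen 0 ((normalFiltration σ hσ).Λ 0).zero_mem
  refine ⟨ε, hε, fun u hu => ?_⟩
  rw [mem_subV]
  apply hball
  rwa [mem_ball_zero_iff]

omit [ProperSpace L] [IsUltrametricDist K] [CompleteSpace K] [IsGalois K L] in
lemma orderOf_ne_zero_gen : orderOf σ ≠ 0 :=
  (orderOf_pos σ).ne'

omit [ProperSpace L] [CompleteSpace K] in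
include hσ in
/-- Hilbert 90 in the form `h¹(Lˣ) = 1`. -/
lemma h1_sigU_eq_one : h1 (endA (sigU σ)) (orderOf σ) = 1 := by
  rw [h1_eq_relIndex, AddSubgroup.relIndex_eq_one]
  intro x hx
  rw [AddMonoidHom.mem_ker, normN_endA_apply] at hx
  have hx' : ∏ j ∈ range (orderOf σ), (⇑(sigU σ))^[j] (Additive.toMul x) = 1 :=
    ofMul_eq_zero.1 hx
  set u : Lˣ := Additive.toMul x with hu
  have hprod : ∏ j ∈ range (orderOf σ), (σ ^ j) (u : L) = 1 := by
    rw [← coe_prod_sigU_iterate, hx']
    rfl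
  have hnorm : Algebra.norm K (u : L) = 1 := by
    apply (algebraMap K L).injective
    rw [Algebra.norm_eq_prod_automorphisms, map_one,
      ← prod_range_pow_eq_prod_univ σ hσ (fun g => g (u : L))]
    exact hprod
  have : IsCyclic (L ≃ₐ[K] L) := ⟨σ, hσ⟩
  obtain ⟨y, hy⟩ := groupCohomology.exists_div_of_norm_eq_one hσ hnorm
  refine ⟨Additive.ofMul y⁻¹, ?_⟩
  rw [delta_endA_apply]
  apply Additive.toMul.injective
  apply Units.ext
  simp only [toMul_ofMul, Units.val_div_eq_div_val, coe_sigU, Units.val_inv_eq_inv_val, map_inv₀]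
  rw [← hy]
  have hy0 : (y : L) ≠ 0 := y.ne_zero
  have hσy0 : σ (y : L) ≠ 0 := by simpa using hy0
  field_simp

include hσ in
/-- **The Herbrand computation**: `h⁰(Lˣ) = [ker(σ - 1) : im N] = n`. -/
theorem h0_sigU_eq : h0 (endA (sigU σ)) (orderOf σ) = orderOf σ := by
  have hUL : IsUltrametricDist L := IsUltrametricDist.of_normedAlgebra K
  obtain ⟨ϖ, h0, h1, hmax⟩ := exists_uniformizer (exists_norm_lt_one_L K L)
  set F := normalFiltration σ hσ with hF
  have hU : ∀ x ∈ unitsNormOne L, sigU σ x ∈ unitsNormOne L := sigU_mem_unitsNormOne σ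
  have hV : ∀ x ∈ subV σ hσ, sigU σ x ∈ subV σ hσ := sigU_mem_subV σ hσ
  have hVU : subV σ hσ ≤ unitsNormOne L := subV_le σ hσ
  refine h0_eq_of_units_trivial (σV := endA (resHom (sigU σ) (subV σ hσ) hV))
    (σU := endA (resHom (sigU σ) (unitsNormOne L) hU))
    (i₁ := MonoidHom.toAdditive (Subgroup.inclusion hVU))
    (i₂ := MonoidHom.toAdditive (unitsNormOne L).subtype)
    (p := valA h0 h1 hmax) (orderOf_ne_zero_gen σ) ?_ ?_ ?_ ?_ ?_ ?_ ?_ ?_ ?_ ?_ ?_ ?_
    (h1_sigU_eq_one σ hσ)
  · -- σU ^ n = 1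
    refine endA_pow_eq_one _ _ (fun x => ?_)
    apply Subtype.ext
    rw [coe_resHom_iterate, sigU_iterate_orderOf]
  · -- σB ^ n = 1
    exact endA_pow_eq_one _ _ (sigU_iterate_orderOf σ)
  · -- i₁ injective
    intro x y hxy
    exact Additive.toMul.injective (Subgroup.inclusion_injective hVU hxy)
  · -- finite index
    obtain ⟨ε, hε, hball⟩ := exists_ball_subV σ hσ
    have hfin := finite_quotient_of_ball (subV σ hσ) hε hball
    have hrange : (MonoidHom.toAdditive (Subgroup.inclusion hVU)).range =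
        Subgroup.toAddSubgroup ((subV σ hσ).subgroupOf (unitsNormOne L)) := by
      ext x
      constructor
      · rintro ⟨y, rfl⟩
        exact (Additive.toMul y).2
      · intro hx
        exact ⟨Additive.ofMul ⟨(Additive.toMul x : ↥(unitsNormOne L)), hx⟩, rfl⟩
    rw [hrange]
    constructor
    rw [Subgroup.index_toAddSubgroup]
    exact Subgroup.index_ne_zero_of_finite
  · intro a; rfl
  · -- i₂ injective
    intro x y hxy
    exact Additive.toMul.injective (Subtype.val_injective hxy)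
  · intro a; rfl
  · exact valA_surjective h0 h1 hmax
  · -- exactness
    ext x
    rw [AddMonoidHom.mem_ker]
    constructor
    · intro hx
      have : ‖((Additive.toMul x : Lˣ) : L)‖ = 1 := (valA_eq_zero_iff h0 h1 hmax _).1 hx
      exact ⟨Additive.ofMul ⟨Additive.toMul x, this⟩, rfl⟩
    · rintro ⟨y, rfl⟩
      exact (valA_eq_zero_iff h0 h1 hmax _).2 (Additive.toMul y).2
  · -- valuation is σ-invariant
    intro b
    exact valA_eq_of_norm_eq h0 h1 hmax (norm_algEquiv σ _)
  · -- h⁰(V) = 1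
    refine h0_resHom_eq_one _ _ _ _ (fun u hu hfix => ?_)
    have hfix' : (σ : L ≃+* L) (u : L) = (u : L) := congrArg Units.val hfix
    obtain ⟨y, hy, hyu⟩ := F.exists_nm_eq hu hfix'
    have hy0 : y ≠ 0 := F.V_ne_zero hy
    refine ⟨Units.mk0 y hy0, hy, ?_⟩
    apply Units.ext
    rw [coe_prod_sigU_iterate, Units.val_mk0, ← hyu]
    unfold Filtration.nm
    simp_rw [toRingEquiv_pow_apply]
  · -- h¹(V) = 1
    refine h1_resHom_eq_one _ _ _ _ (fun u hu hN => ?_)
    have hN' : F.nm (u : L) = 1 := by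
      unfold Filtration.nm
      simp_rw [toRingEquiv_pow_apply]
      rw [← coe_prod_sigU_iterate, hN]
      rfl
    obtain ⟨y, hy, hyu⟩ := F.exists_div_eq hu hN'
    have hy0 : y ≠ 0 := F.V_ne_zero hy
    refine ⟨Units.mk0 y hy0, hy, ?_⟩
    apply Units.ext
    rw [Units.val_div_eq_div_val, coe_sigU, Units.val_mk0]
    exact hyu

omit [ProperSpace L] [CompleteSpace K] [IsUltrametricDist K] in
include hσ in
lemma ker_delta_sigU :
    AddMonoidHom.ker (delta (endA (sigU σ))) =
      Subgroup.toAddSubgroup ((⊤ : Subgroup Kˣ).map (Units.map (algebraMap K L : K →* L))) := by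
  ext x
  rw [AddMonoidHom.mem_ker, delta_endA_apply]
  constructor
  · intro hx
    have hx' : sigU σ (Additive.toMul x) / Additive.toMul x = 1 := ofMul_eq_zero.1 hx
    have hfix : σ ((Additive.toMul x : Lˣ) : L) = ((Additive.toMul x : Lˣ) : L) :=
      congrArg Units.val (div_eq_one.1 hx')
    have hall : ∀ g : L ≃ₐ[K] L, g ((Additive.toMul x : Lˣ) : L) = ((Additive.toMul x : Lˣ) : L) := by
      intro g
      have h1 : Subgroup.zpowers σ ≤
          MulAction.stabilizer (L ≃ₐ[K] L) ((Additive.toMul x : Lˣ) : L) := by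
        rw [Subgroup.zpowers_le]
        exact hfix
      exact h1 (hσ g)
    have hbot : ((Additive.toMul x : Lˣ) : L) ∈ (⊥ : IntermediateField K L) :=
      (IsGalois.mem_bot_iff_fixed _).2 hall
    obtain ⟨a, ha⟩ := IntermediateField.mem_bot.1 hbot
    have ha0 : a ≠ 0 := by
      rintro rfl
      rw [map_zero] at ha
      exact (Additive.toMul x : Lˣ).ne_zero ha.symm
    refine ⟨Units.mk0 a ha0, Subgroup.mem_top _, ?_⟩
    apply Units.ext
    exact ha
  · rintro ⟨a, -, ha⟩
    apply ofMul_eq_zero.2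
    rw [div_eq_one]
    apply Units.ext
    rw [coe_sigU]
    have : ((Additive.toMul x : Lˣ) : L) = algebraMap K L (a : K) := by
      have := congrArg Units.val ha
      exact this.symm
    rw [this]
    exact σ.commutes _

omit [ProperSpace L] [CompleteSpace K] in
include hσ in
lemma range_normN_sigU :
    AddMonoidHom.range (normN (endA (sigU σ)) (orderOf σ)) =
      Subgroup.toAddSubgroup
        ((Units.map (Algebra.norm K : L →* K)).range.map
          (Units.map (algebraMap K L : K →* L))) := by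
  have key : ∀ u : Lˣ, ∏ j ∈ range (orderOf σ), (⇑(sigU σ))^[j] u =
      Units.map (algebraMap K L : K →* L) (Units.map (Algebra.norm K : L →* K) u) := by
    intro u
    apply Units.ext
    rw [coe_prod_sigU_iterate]
    change _ = algebraMap K L (Algebra.norm K (u : L))
    rw [Algebra.norm_eq_prod_automorphisms,
      ← prod_range_pow_eq_prod_univ σ hσ (fun g => g (u : L))]
  ext x
  constructor
  · rintro ⟨y, rfl⟩
    rw [normN_endA_apply, key]
    exact ⟨_, ⟨Additive.toMul y, rfl⟩, rfl⟩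
  · rintro ⟨_, ⟨y, rfl⟩, hy⟩
    refine ⟨Additive.ofMul y, ?_⟩
    rw [normN_endA_apply]
    apply Additive.toMul.injective
    rw [toMul_ofMul, toMul_ofMul, key]
    exact hy

/-- **Local norm index theorem** (normed form): for a finite cyclic extension `L/K` of
locally compact ultrametric normed fields, `[Kˣ : N(Lˣ)] = [L : K]`. -/
theorem norm_index_eq_finrank_of_normed [IsCyclic (L ≃ₐ[K] L)] :
    (Units.map (Algebra.norm K : L →* K)).range.index = Module.finrank K L := by
  obtain ⟨σ, hσ⟩ := IsCyclic.exists_generator (α := L ≃ₐ[K] L)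
  have h := h0_sigU_eq σ hσ
  rw [h0_eq_relIndex, ker_delta_sigU σ hσ, range_normN_sigU σ hσ,
    Subgroup.relIndex_toAddSubgroup] at h
  have hinj : Function.Injective (Units.map (algebraMap K L : K →* L)) :=
    Units.map_injective (algebraMap K L).injective
  rw [Subgroup.relIndex_map_map_of_injective _ _ hinj, Subgroup.relIndex_top_right] at h
  rw [h, orderOf_eq_card_of_forall_mem_zpowers hσ, IsGalois.card_aut_eq_finrank]

end Local

end Fermat.Agent.S55.H953

end
-- ===== PACK-END S55/H953/LocalNormIndex.lean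

-- ===== PACK-BEGIN S55/T/NakSylowH719.lean
section


/-!
# S55, layer T, leaf T6a (Nakayama) — Sylow reduction of cohomological triviality (helper719)

`isCohTriv_of_pSubgroups` : if `Ĥⁿ(Q, A) = 0` for all `n : ℤ` and all subgroups `Q ≤ G` of prime
power order, then `A` is cohomologically trivial.
-/

set_option autoImplicit false
set_option linter.style.haveILetI false

open CategoryTheory Limits groupCohomology Rep

namespace Fermat.Agent.S55.T.H719

open Fermat.Agent.S55.H572 Fermat.Agent.S55.H119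

noncomputable section

variable {k G : Type} [CommRing k] [Group G]

/-- Transport of `H¹ = 0` from the image subgroup `P.map H.subtype ≤ G` to `P ≤ H`. -/
theorem h1Triv_res_res_of_map (A : Rep.{0} k G) (H : Subgroup G) (P : Subgroup H)
    (h : H1Triv (res (P.map H.subtype).subtype A)) :
    H1Triv (res P.subtype (res H.subtype A)) := by
  intro c hc
  have hmem : ∀ q : (P.map H.subtype), ∃ x : P, ((x : H) : G) = (q : G) := by
    rintro ⟨q, x, hx, rfl⟩
    exact ⟨⟨x, hx⟩, rfl⟩
  choose s hs using hmem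
  have hs_mul : ∀ q q' : (P.map H.subtype), s (q * q') = s q * s q' := by
    intro q q'
    apply Subtype.ext
    apply Subtype.ext
    rw [hs]
    simp [hs]
  obtain ⟨y, hy⟩ := h (fun q => c (s q)) (fun q q' => by
    have h1 := hc (s q) (s q')
    rw [hs_mul]
    rw [h1]
    have h2 : (res P.subtype (res H.subtype A)).ρ (s q) = (res (P.map H.subtype).subtype A).ρ q := by
      change A.ρ ((s q : H) : G) = A.ρ (q : G)
      rw [hs]
    rw [h2])
  refine ⟨y, fun g => ?_⟩
  have hg : ((g : H) : G) ∈ P.map H.subtype := ⟨g, g.2, rfl⟩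
  have h3 : s ⟨((g : H) : G), hg⟩ = g := by
    apply Subtype.ext
    apply Subtype.ext
    rw [hs]
  have h4 := hy ⟨((g : H) : G), hg⟩
  rw [h3] at h4
  exact h4

/-- **Sylow reduction**: a module whose Tate cohomology vanishes on all subgroups of prime power
order is cohomologically trivial. -/
theorem isCohTriv_of_pSubgroups [Finite G] (A : Rep.{0} k G)
    (h : ∀ p : ℕ, p.Prime → ∀ Q : Subgroup G, IsPGroup p Q → ∀ [Fintype Q] (n : ℤ),
      IsZero (tateCohomology (res Q.subtype A) n)) : IsCohTriv A := by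
  intro H _ n
  obtain ⟨A', hA'⟩ := exists_shift_one n A
  obtain ⟨e⟩ := hA' H
  refine IsZero.of_iso ?_ e
  refine IsZero.of_iso ?_ ((TateCohomology.isoGroupCohomology 1).app _)
  rw [ModuleCat.isZero_iff_subsingleton]
  refine ⟨fun x y => ?_⟩
  suffices ∀ z : H1 (res H.subtype A'), z = 0 by rw [this x, this y]
  intro z
  refine eq_zero_of_forall_sylow_resMap_eq_zero_one (res H.subtype A') z fun p hp => ?_
  haveI : Fact p.Prime := ⟨hp⟩
  obtain ⟨P⟩ : Nonempty (Sylow p H) := inferInstance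
  refine ⟨P, ?_⟩
  have hQ : IsPGroup p ((P : Subgroup H).map H.subtype) := P.2.map H.subtype
  letI : Fintype ((P : Subgroup H).map H.subtype) := Fintype.ofFinite _
  obtain ⟨e'⟩ := hA' ((P : Subgroup H).map H.subtype)
  have h1 : IsZero (tateCohomology (res ((P : Subgroup H).map H.subtype).subtype A') 1) :=
    IsZero.of_iso (h p hp _ hQ n) e'.symm
  rw [isZero_tate_one_iff] at h1
  have h2 := h1Triv_res_res_of_map A' H (P : Subgroup H) h1
  rw [← isZero_H1_iff] at h2
  exact (ModuleCat.isZero_iff_subsingleton.1 h2).elim _ _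

end

end Fermat.Agent.S55.T.H719

end
-- ===== PACK-END S55/T/NakSylowH719.lean

-- ===== PACK-BEGIN S55/T/T6pH353/NormRel.lean
section


/-!
# S55, layer T, leaf T6p (helper353): the relative norm of an `H`-morphism

For a subgroup `H ≤ G` of finite index, `G`-representations `A`, `B` and an `H`-morphism
`f₀ : Res_H A ⟶ Res_H B`, the **relative norm**
`normRel H f₀ : A ⟶ B`, `a ↦ ∑_{q ∈ G/H} q f₀ (q⁻¹ a)` is a `G`-morphism.
It is compatible with composition by `G`-morphisms on both sides.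
-/

set_option autoImplicit false

open CategoryTheory groupCohomology Rep Limits

universe u

namespace Fermat.Agent.S55.T.H353

open Fermat.Agent.S55.H572

noncomputable section

variable {k G : Type u} [CommRing k] [Group G] (H : Subgroup G)

/-- The conjugate `g f₀ g⁻¹` of an `H`-morphism, as a function. -/
def conjTerm {A B : Rep.{u} k G} (f₀ : res H.subtype A ⟶ res H.subtype B) (g : G) (a : A.V) :
    B.V :=
  B.ρ g (f₀.hom (A.ρ g⁻¹ a))

lemma conjTerm_mul_mem {A B : Rep.{u} k G} (f₀ : res H.subtype A ⟶ res H.subtype B) (g : G)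
    (h : H) (a : A.V) : conjTerm H f₀ (g * (h : G)) a = conjTerm H f₀ g a := by
  unfold conjTerm
  have h1 : A.ρ (g * (h : G))⁻¹ a = (res H.subtype A).ρ h⁻¹ (A.ρ g⁻¹ a) := by
    rw [mul_inv_rev, map_mul]
    rfl
  rw [h1, Rep.hom_comm_apply f₀ h⁻¹ (A.ρ g⁻¹ a), map_mul]
  change B.ρ g (B.ρ (h : G) (B.ρ ((h⁻¹ : H) : G) _)) = _
  rw [← Module.End.mul_apply (B.ρ (h : G)), ← map_mul]
  simp

lemma conjTerm_out {A B : Rep.{u} k G} (f₀ : res H.subtype A ⟶ res H.subtype B) (g : G)
    (a : A.V) : conjTerm H f₀ (QuotientGroup.mk g : G ⧸ H).out a = conjTerm H f₀ g a := by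
  have h1 := conjTerm_mul_mem H f₀ (QuotientGroup.mk g : G ⧸ H).out (hPart H g) a
  rw [out_mul_hPart] at h1
  exact h1.symm

lemma conjTerm_smul {A B : Rep.{u} k G} (f₀ : res H.subtype A ⟶ res H.subtype B) (g x : G)
    (a : A.V) : conjTerm H f₀ g (A.ρ x a) = B.ρ x (conjTerm H f₀ (x⁻¹ * g) a) := by
  unfold conjTerm
  rw [← Module.End.mul_apply (B.ρ x), ← map_mul, mul_inv_cancel_left, mul_inv_rev, inv_inv,
    map_mul]
  rfl

variable [Fintype (G ⧸ H)]

/-- Underlying linear map of the relative norm. -/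
def normRelLin {A B : Rep.{u} k G} (f₀ : res H.subtype A ⟶ res H.subtype B) : A.V →ₗ[k] B.V where
  toFun a := ∑ q : G ⧸ H, conjTerm H f₀ q.out a
  map_add' a b := by
    rw [← Finset.sum_add_distrib]
    refine Finset.sum_congr rfl fun q _ => ?_
    simp [conjTerm]
  map_smul' r a := by
    rw [RingHom.id_apply, Finset.smul_sum]
    refine Finset.sum_congr rfl fun q _ => ?_
    simp [conjTerm]

lemma normRelLin_apply {A B : Rep.{u} k G} (f₀ : res H.subtype A ⟶ res H.subtype B) (a : A.V) :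
    normRelLin H f₀ a = ∑ q : G ⧸ H, B.ρ q.out (f₀.hom (A.ρ q.out⁻¹ a)) := rfl

lemma normRelLin_equivariant {A B : Rep.{u} k G} (f₀ : res H.subtype A ⟶ res H.subtype B)
    (x : G) (a : A.V) : normRelLin H f₀ (A.ρ x a) = B.ρ x (normRelLin H f₀ a) := by
  change ∑ q : G ⧸ H, conjTerm H f₀ q.out (A.ρ x a) = B.ρ x (∑ q : G ⧸ H, conjTerm H f₀ q.out a)
  rw [map_sum]
  have h1 : ∀ q : G ⧸ H, conjTerm H f₀ q.out (A.ρ x a) =
      B.ρ x (conjTerm H f₀ ((x⁻¹ • q : G ⧸ H)).out a) := by
    intro q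
    rw [conjTerm_smul]
    congr 1
    have h2 : (x⁻¹ • q : G ⧸ H) = QuotientGroup.mk (x⁻¹ * q.out) := by
      conv_lhs => rw [← QuotientGroup.out_eq' q]
      rfl
    rw [h2, conjTerm_out]
  rw [Finset.sum_congr rfl (fun q _ => h1 q)]
  exact Fintype.sum_equiv (MulAction.toPerm x⁻¹) _ _ (fun q => rfl)

/-- The **relative norm** `N_{G/H} f₀ = ∑_{q ∈ G/H} q f₀ q⁻¹ : A ⟶ B` of an `H`-morphism
`f₀ : Res_H A ⟶ Res_H B`. -/
def normRel {A B : Rep.{u} k G} (f₀ : res H.subtype A ⟶ res H.subtype B) : A ⟶ B :=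
  Rep.ofHom (ρ := A.ρ) (σ := B.ρ) ⟨normRelLin H f₀, fun g => by
    apply LinearMap.ext
    intro a
    exact normRelLin_equivariant H f₀ g a⟩

lemma normRel_hom_apply {A B : Rep.{u} k G} (f₀ : res H.subtype A ⟶ res H.subtype B) (a : A.V) :
    (normRel H f₀).hom a = ∑ q : G ⧸ H, B.ρ q.out (f₀.hom (A.ρ q.out⁻¹ a)) := rfl

/-- The relative norm does not depend on the choice of representatives. -/
lemma normRel_hom_apply_of_section {A B : Rep.{u} k G}
    (f₀ : res H.subtype A ⟶ res H.subtype B) (s : G ⧸ H → G)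
    (hs : ∀ q, (QuotientGroup.mk (s q) : G ⧸ H) = q) (a : A.V) :
    (normRel H f₀).hom a = ∑ q : G ⧸ H, B.ρ (s q) (f₀.hom (A.ρ (s q)⁻¹ a)) := by
  rw [normRel_hom_apply]
  refine Finset.sum_congr rfl fun q _ => ?_
  have h1 := conjTerm_out H f₀ (s q) a
  rw [hs q] at h1
  exact h1

/-- Compatibility of the relative norm with composition by a `G`-morphism on the left. -/
lemma normRel_comp_left {A' A B : Rep.{u} k G} (g : A' ⟶ A)
    (f₀ : res H.subtype A ⟶ res H.subtype B) :
    normRel H ((resFunctor H.subtype).map g ≫ f₀) = g ≫ normRel H f₀ := by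
  apply Rep.hom_ext
  apply Representation.IntertwiningMap.ext
  apply LinearMap.ext
  intro a
  change ∑ q : G ⧸ H, B.ρ q.out (f₀.hom (g.hom (A'.ρ q.out⁻¹ a))) =
    ∑ q : G ⧸ H, B.ρ q.out (f₀.hom (A.ρ q.out⁻¹ (g.hom a)))
  refine Finset.sum_congr rfl fun q _ => ?_
  rw [Rep.hom_comm_apply g]

/-- Compatibility of the relative norm with composition by a `G`-morphism on the right. -/
lemma normRel_comp_right {A B B' : Rep.{u} k G} (f₀ : res H.subtype A ⟶ res H.subtype B)
    (g : B ⟶ B') :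
    normRel H (f₀ ≫ (resFunctor H.subtype).map g) = normRel H f₀ ≫ g := by
  apply Rep.hom_ext
  apply Representation.IntertwiningMap.ext
  apply LinearMap.ext
  intro a
  change ∑ q : G ⧸ H, B'.ρ q.out (g.hom (f₀.hom (A.ρ q.out⁻¹ a))) =
    g.hom (∑ q : G ⧸ H, B.ρ q.out (f₀.hom (A.ρ q.out⁻¹ a)))
  rw [map_sum]
  refine Finset.sum_congr rfl fun q _ => ?_
  rw [Rep.hom_comm_apply g]

/-- The relative norm of (the restriction of) a `G`-morphism is `[G : H]` times it. -/
lemma normRel_res {A B : Rep.{u} k G} (f : A ⟶ B) (a : A.V) :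
    (normRel H ((resFunctor H.subtype).map f)).hom a = H.index • f.hom a := by
  change ∑ q : G ⧸ H, B.ρ q.out (f.hom (A.ρ q.out⁻¹ a)) = _
  have h1 : ∀ q : G ⧸ H, B.ρ q.out (f.hom (A.ρ q.out⁻¹ a)) = f.hom a := by
    intro q
    rw [Rep.hom_comm_apply f, ← Module.End.mul_apply, ← map_mul]
    simp
  rw [Finset.sum_congr rfl (fun q _ => h1 q), Finset.sum_const, Finset.card_univ,
    Subgroup.index_eq_card, Nat.card_eq_fintype_card]

end

end Fermat.Agent.S55.T.H353

end
-- ===== PACK-END S55/T/T6pH353/NormRel.lean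

-- ===== PACK-BEGIN S55/KC/IndShapiroH475.lean
section



/-!
# S55 / layer KC, leaf KC-I2 (helper475): induced modules at finite level

Generic in the coefficient ring `k`.  `A : Rep k G`, `H ≤ G`, and `ρ` is a representation of `G`
on `(G ⧸ H) →₀ A` with the *diagonal* action on singles (`IsDiag`).  For a normal subgroup
`V ≤ H` of `G`:

* `evHom` : the coefficient-at-`x` map `(Ind_H A)^V → A^V`, equivariant for every subgroup of
  `G ⧸ V` fixing `x`;
* `shapiro_ind` : `Hⁿ(G ⧸ V, (Ind_H A)^V) → Hⁿ(H ⧸ V, A^V)` is bijective (finite Shapiro,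
  recognition form `T.ShapiroRecognitionSpec`);
* `ev_family_bijective` : `(Ind_H A)^V → ∏_{G ⧸ H} A^V` is bijective (for `T.FiniteProdSpec`).
-/

set_option autoImplicit false

open CategoryTheory groupCohomology

namespace Fermat.Agent.S55.KC.H475

noncomputable section

/-- The type of representations of `G` on `(G ⧸ H) →₀ A` (declared generically in `k`, so that
the module structure is the one induced by `A`, also for `k = ℤ`). -/
abbrev IndRepr {k G : Type} [CommRing k] [Group G] (A : Rep.{0} k G) (H : Subgroup G) : Type :=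
  Representation k G ((G ⧸ H) →₀ A.V)

variable {k G : Type} [CommRing k] [Group G] (A : Rep.{0} k G) (H : Subgroup G)
  (ρ : IndRepr A H)

/-- `ρ` is the diagonal action on `(G ⧸ H) →₀ A`. -/
def IsDiag : Prop :=
  ∀ (g : G) (x : G ⧸ H) (a : A.V), ρ g (Finsupp.single x a) = Finsupp.single (g • x) (A.ρ g a)

variable {A H ρ}

lemma IsDiag.apply (hρ : IsDiag A H ρ) (g : G) (b : (G ⧸ H) →₀ A.V) (x : G ⧸ H) :
    ρ g b x = A.ρ g (b (g⁻¹ • x)) := by
  classical
  induction b using Finsupp.induction_linear with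
  | zero => simp
  | add b c hb hc => simp only [map_add, Finsupp.add_apply, hb, hc]
  | single y a =>
    rw [hρ]
    simp only [Finsupp.single_apply]
    by_cases h : y = g⁻¹ • x
    · subst h
      simp
    · have h' : g • y ≠ x := fun h' => h (by rw [← h', inv_smul_smul])
      simp [h, h']

/-- A normal subgroup contained in `H` acts trivially on `G ⧸ H`. -/
lemma smul_coset_eq (V : Subgroup G) [V.Normal] (hVH : V ≤ H) {v : G} (hv : v ∈ V)
    (x : G ⧸ H) : v • x = x := by
  induction x using QuotientGroup.induction_on with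
  | H g =>
    change ((v * g : G) : G ⧸ H) = (g : G ⧸ H)
    rw [QuotientGroup.eq]
    have h1 : (v * g)⁻¹ * g = g⁻¹ * v⁻¹ * g := by group
    rw [h1]
    exact hVH (Subgroup.Normal.conj_mem' inferInstance v⁻¹ (V.inv_mem hv) g)

/-! ### The finite-level modules -/

variable (A ρ) in
/-- `(Ind_H A)^V` as a representation of `G ⧸ V`. -/
abbrev indQ (V : Subgroup G) [V.Normal] : Rep.{0} k (G ⧸ V) :=
  (Rep.of ρ).quotientToInvariants V

variable (A) in
/-- `A^V` as a representation of `G ⧸ V`. -/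
abbrev coefQ (V : Subgroup G) [V.Normal] : Rep.{0} k (G ⧸ V) :=
  A.quotientToInvariants V

lemma indQ_ρ_coe (V : Subgroup G) [V.Normal] (g : G) (b : (indQ A ρ V).V) :
    (((indQ A ρ V).ρ (g : G ⧸ V) b : (indQ A ρ V).V) : (G ⧸ H) →₀ A.V) = ρ g b.1 := rfl

lemma coefQ_ρ_coe (V : Subgroup G) [V.Normal] (g : G) (a : (coefQ A V).V) :
    (((coefQ A V).ρ (g : G ⧸ V) a : (coefQ A V).V) : A.V) = A.ρ g a.1 := rfl

lemma value_mem (hρ : IsDiag A H ρ) (V : Subgroup G) [V.Normal] (hVH : V ≤ H)
    (b : (indQ A ρ V).V) (x : G ⧸ H) :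
    b.1 x ∈ Representation.invariants (A.ρ.comp V.subtype) := by
  intro v
  have h1 : ρ (v : G) b.1 = b.1 := b.2 v
  have h2 := hρ.apply (v : G) b.1 x
  rw [h1, smul_coset_eq V hVH (V.inv_mem v.2)] at h2
  exact h2.symm

/-- The coefficient-at-`x` map `(Ind_H A)^V → A^V`. -/
def evLin (hρ : IsDiag A H ρ) (V : Subgroup G) [V.Normal] (hVH : V ≤ H) (x : G ⧸ H) :
    (indQ A ρ V).V →ₗ[k] (coefQ A V).V :=
  LinearMap.codRestrict _ ((Finsupp.lapply x) ∘ₗ (Submodule.subtype _))
    (fun b => value_mem hρ V hVH b x)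

lemma evLin_coe (hρ : IsDiag A H ρ) (V : Subgroup G) [V.Normal] (hVH : V ≤ H) (x : G ⧸ H)
    (b : (indQ A ρ V).V) : ((evLin hρ V hVH x b : (coefQ A V).V) : A.V) = b.1 x := rfl

lemma evLin_equivariant (hρ : IsDiag A H ρ) (V : Subgroup G) [V.Normal] (hVH : V ≤ H)
    (x : G ⧸ H) (g : G) (hg : g • x = x) (b : (indQ A ρ V).V) :
    evLin hρ V hVH x ((indQ A ρ V).ρ (g : G ⧸ V) b) =
      (coefQ A V).ρ (g : G ⧸ V) (evLin hρ V hVH x b) := by
  apply Subtype.ext
  rw [evLin_coe, indQ_ρ_coe, coefQ_ρ_coe, evLin_coe, hρ.apply]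
  have h : g⁻¹ • x = x := by
    rw [inv_smul_eq_iff, hg]
  rw [h]

/-- The coefficient-at-`x` map as a morphism of representations of a subgroup `K ≤ G ⧸ V`
fixing `x`. -/
def evHom (hρ : IsDiag A H ρ) (V : Subgroup G) [V.Normal] (hVH : V ≤ H)
    (K : Subgroup (G ⧸ V)) (x : G ⧸ H) (hK : ∀ g : G, (g : G ⧸ V) ∈ K → g • x = x) :
    Rep.res K.subtype (indQ A ρ V) ⟶ Rep.res K.subtype (coefQ A V) :=
  Rep.ofHom
    { toLinearMap := evLin hρ V hVH x
      isIntertwining' := fun s => by
        obtain ⟨q, hq⟩ := s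
        induction q using QuotientGroup.induction_on with
        | H g =>
          apply LinearMap.ext
          intro b
          exact evLin_equivariant hρ V hVH x g (hK g hq) b }

lemma evHom_hom_apply (hρ : IsDiag A H ρ) (V : Subgroup G) [V.Normal] (hVH : V ≤ H)
    (K : Subgroup (G ⧸ V)) (x : G ⧸ H) (hK : ∀ g : G, (g : G ⧸ V) ∈ K → g • x = x)
    (b : (indQ A ρ V).V) :
    (((evHom hρ V hVH K x hK).hom b : (coefQ A V).V) : A.V) = b.1 x := rfl

/-! ### Finite Shapiro -/

lemma mem_of_mk_mem_map (V : Subgroup G) [V.Normal] (hVH : V ≤ H) {g : G}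
    (hg : (g : G ⧸ V) ∈ H.map (QuotientGroup.mk' V)) : g ∈ H := by
  obtain ⟨h, hh, hhg⟩ := hg
  have h1 : h⁻¹ * g ∈ V := by
    rw [← QuotientGroup.eq]
    exact hhg
  have h2 : g = h * (h⁻¹ * g) := by group
  rw [h2]
  exact H.mul_mem hh (hVH h1)

lemma smul_one_coset_eq_of_mem {g : G} (hg : g ∈ H) :
    g • ((1 : G) : G ⧸ H) = ((1 : G) : G ⧸ H) := by
  change ((g * 1 : G) : G ⧸ H) = ((1 : G) : G ⧸ H)
  rw [QuotientGroup.eq]
  simpa using hg

lemma fixes_one_coset (V : Subgroup G) [V.Normal] (hVH : V ≤ H) (g : G)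
    (hg : (g : G ⧸ V) ∈ H.map (QuotientGroup.mk' V)) :
    g • ((1 : G) : G ⧸ H) = ((1 : G) : G ⧸ H) :=
  smul_one_coset_eq_of_mem (mem_of_mk_mem_map V hVH hg)

/-- The Shapiro map `π : Res_{H/V} (Ind_H A)^V → A^V`, coefficient at the trivial coset. -/
def shapPi (hρ : IsDiag A H ρ) (V : Subgroup G) [V.Normal] (hVH : V ≤ H) :
    Rep.res (H.map (QuotientGroup.mk' V)).subtype (indQ A ρ V) ⟶
      Rep.res (H.map (QuotientGroup.mk' V)).subtype (coefQ A V) :=
  evHom hρ V hVH (H.map (QuotientGroup.mk' V)) ((1 : G) : G ⧸ H) (fixes_one_coset V hVH)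

section recognition

variable [Finite (G ⧸ H)] (hρ : IsDiag A H ρ) (V : Subgroup G) [V.Normal] (hVH : V ≤ H)
  (f : G ⧸ V → (coefQ A V).V)
  (hf : ∀ (s : H.map (QuotientGroup.mk' V)) (g : G ⧸ V),
    f ((s : G ⧸ V) * g) = (coefQ A V).ρ (s : G ⧸ V) (f g))

/-- the values of the preimage of `f` under the Shapiro bijection -/
def shapFun (f : G ⧸ V → (coefQ A V).V) (x : G ⧸ H) : A.V :=
  A.ρ x.out (f ((x.out⁻¹ : G) : G ⧸ V)).1

omit [Finite (G ⧸ H)] in
include hf in
lemma shapFun_mk (y : G) :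
    shapFun (H := H) V f (y : G ⧸ H) = A.ρ y (f ((y⁻¹ : G) : G ⧸ V)).1 := by
  unfold shapFun
  set y' := ((y : G ⧸ H)).out with hy'
  have h1 : ((y' : G) : G ⧸ H) = (y : G ⧸ H) := QuotientGroup.out_eq' _
  have h2 : y'⁻¹ * y ∈ H := by
    rw [← QuotientGroup.eq]
    exact h1
  have h3 : ((y'⁻¹ * y : G) : G ⧸ V) ∈ H.map (QuotientGroup.mk' V) := ⟨_, h2, rfl⟩
  have h4 := hf ⟨_, h3⟩ ((y⁻¹ : G) : G ⧸ V)
  have h5 : (((y'⁻¹ * y : G) : G ⧸ V)) * ((y⁻¹ : G) : G ⧸ V) = ((y'⁻¹ : G) : G ⧸ V) := by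
    rw [← QuotientGroup.mk_mul]
    congr 1
    group
  simp only [h5] at h4
  rw [h4, coefQ_ρ_coe, ← Module.End.mul_apply, ← map_mul]
  congr 2
  group

/-- the preimage of `f` under the Shapiro bijection, as a finitely supported function -/
def shapFinsupp (f : G ⧸ V → (coefQ A V).V) : (G ⧸ H) →₀ A.V :=
  Finsupp.ofSupportFinite (shapFun (H := H) V f) (Set.toFinite _)

lemma shapFinsupp_apply (x : G ⧸ H) :
    shapFinsupp (H := H) V f x = shapFun (H := H) V f x := rfl

include hf hρ hVH in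
lemma shapFinsupp_mem :
    shapFinsupp (H := H) V f ∈
      Representation.invariants ((Rep.of ρ).ρ.comp V.subtype) := by
  intro v
  change ρ (v : G) (shapFinsupp (H := H) V f) = shapFinsupp (H := H) V f
  apply Finsupp.ext
  intro x
  rw [hρ.apply, smul_coset_eq V hVH (V.inv_mem v.2)]
  induction x using QuotientGroup.induction_on with
  | H y =>
    rw [shapFinsupp_apply, shapFun_mk V f hf y, ← Module.End.mul_apply, ← map_mul]
    have h1 : (v : G) * y = y * (y⁻¹ * v * y) := by group
    rw [h1, map_mul, Module.End.mul_apply]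
    congr 1
    exact (f ((y⁻¹ : G) : G ⧸ V)).2 ⟨y⁻¹ * v * y, Subgroup.Normal.conj_mem' inferInstance _ v.2 y⟩

include hf in
theorem shapiro_unique :
    ∃! b : (indQ A ρ V).V, ∀ g : G ⧸ V,
      (shapPi hρ V hVH).hom ((indQ A ρ V).ρ g b) = f g := by
  refine ⟨⟨shapFinsupp (H := H) V f, shapFinsupp_mem hρ V hVH f hf⟩, ?_, ?_⟩
  · intro q
    induction q using QuotientGroup.induction_on with
    | H g =>
      apply Subtype.ext
      change (ρ g (shapFinsupp (H := H) V f)) ((1 : G) : G ⧸ H) = _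
      rw [hρ.apply]
      have h1 : g⁻¹ • ((1 : G) : G ⧸ H) = ((g⁻¹ : G) : G ⧸ H) := by
        change ((g⁻¹ * 1 : G) : G ⧸ H) = _
        rw [mul_one]
      rw [h1, shapFinsupp_apply, shapFun_mk V f hf, inv_inv, ← Module.End.mul_apply, ← map_mul,
        mul_inv_cancel, map_one, Module.End.one_apply]
  · intro b' hb'
    apply Subtype.ext
    apply Finsupp.ext
    intro x
    induction x using QuotientGroup.induction_on with
    | H y =>
      change b'.1 (y : G ⧸ H) = shapFinsupp (H := H) V f (y : G ⧸ H)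
      rw [shapFinsupp_apply, shapFun_mk V f hf]
      have h1 := congrArg Subtype.val (hb' ((y⁻¹ : G) : G ⧸ V))
      change (ρ y⁻¹ b'.1) ((1 : G) : G ⧸ H) = _ at h1
      rw [hρ.apply, inv_inv] at h1
      have h2 : y • ((1 : G) : G ⧸ H) = (y : G ⧸ H) := by
        change ((y * 1 : G) : G ⧸ H) = _
        rw [mul_one]
      rw [h2] at h1
      rw [← h1, ← Module.End.mul_apply, ← map_mul, mul_inv_cancel, map_one, Module.End.one_apply]

end recognition

/-- **Finite Shapiro for induced modules**: `Hⁿ(G ⧸ V, (Ind_H A)^V) → Hⁿ(H ⧸ V, A^V)` is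
bijective. -/
theorem shapiro_ind [Finite (G ⧸ H)] (hρ : IsDiag A H ρ) (V : Subgroup G) [V.Normal]
    (hVH : V ≤ H) (n : ℕ) :
    Function.Bijective
      (groupCohomology.map (H.map (QuotientGroup.mk' V)).subtype (shapPi hρ V hVH) n).hom :=
  Fermat.Agent.S55.T.ShapiroH303.shapiroRecognition k (G ⧸ V) (H.map (QuotientGroup.mk' V))
    (Rep.res (H.map (QuotientGroup.mk' V)).subtype (coefQ A V)) (indQ A ρ V) (shapPi hρ V hVH)
    (fun f hf => shapiro_unique hρ V hVH f hf) n

/-- The Shapiro isomorphism as an additive equivalence. -/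
def shapiroEquiv [Finite (G ⧸ H)] (hρ : IsDiag A H ρ) (V : Subgroup G) [V.Normal]
    (hVH : V ≤ H) (n : ℕ) :
    groupCohomology (indQ A ρ V) n ≃+
      groupCohomology (Rep.res (H.map (QuotientGroup.mk' V)).subtype (coefQ A V)) n :=
  AddEquiv.ofBijective
    (groupCohomology.map (H.map (QuotientGroup.mk' V)).subtype
      (shapPi hρ V hVH) n).hom.toAddMonoidHom
    (shapiro_ind hρ V hVH n)

/-! ### Restriction to a subgroup acting trivially on `G ⧸ H` -/

section trivialOnCosets

variable [Finite (G ⧸ H)] (hρ : IsDiag A H ρ) (V : Subgroup G) [V.Normal] (hVH : V ≤ H)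
  (K : Subgroup (G ⧸ V)) (hK : ∀ (g : G) (x : G ⧸ H), (g : G ⧸ V) ∈ K → g • x = x)

include hρ hVH in
lemma ev_family_bijective :
    Function.Bijective
      (fun (b : (indQ A ρ V).V) (x : G ⧸ H) => evLin hρ V hVH x b) := by
  constructor
  · intro b b' h
    apply Subtype.ext
    apply Finsupp.ext
    intro x
    exact congrArg Subtype.val (congrFun h x)
  · intro a
    have hmem : Finsupp.ofSupportFinite (fun x : G ⧸ H => ((a x : (coefQ A V).V) : A.V))
        (Set.toFinite _) ∈ Representation.invariants ((Rep.of ρ).ρ.comp V.subtype) := by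
      intro v
      change ρ (v : G) _ = _
      apply Finsupp.ext
      intro x
      rw [hρ.apply, smul_coset_eq V hVH (V.inv_mem v.2)]
      exact (a x).2 v
    refine ⟨⟨_, hmem⟩, ?_⟩
    funext x
    apply Subtype.ext
    rfl

include hK hρ hVH in
/-- If `K ≤ G ⧸ V` acts trivially on `G ⧸ H` and `Hⁿ(K, A^V) = 0` then
`Hⁿ(K, (Ind_H A)^V) = 0`. -/
theorem subsingleton_res_ind (n : ℕ)
    (h0 : Subsingleton (groupCohomology (Rep.res K.subtype (coefQ A V)) n)) :
    Subsingleton (groupCohomology (Rep.res K.subtype (indQ A ρ V)) n) := by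
  have hbij := Fermat.Agent.S55.T.H415.finiteProd k K (G ⧸ H)
    (fun _ => Rep.res K.subtype (coefQ A V)) (Rep.res K.subtype (indQ A ρ V))
    (fun x => evHom hρ V hVH K x (fun g hg => hK g x hg))
    (ev_family_bijective hρ V hVH) n
  refine ⟨fun x y => hbij.1 ?_⟩
  funext i
  exact Subsingleton.elim _ _

end trivialOnCosets

end

end Fermat.Agent.S55.KC.H475

end
-- ===== PACK-END S55/KC/IndShapiroH475.lean

-- ===== PACK-BEGIN S55/H173/TowerShapiro.lean
section



/-!
# S55 (helper173): Shapiro for the semilocal modules `J_q(F)` of the tower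

`Hⁿ(Gal(F/ℚ), J_q(F)) ≅ Hⁿ(Gal(F_q/ℚ_q), F_qˣ)`, explicitly given by restriction along
`decHom` followed by evaluation at `1`.
-/

set_option autoImplicit false

open CategoryTheory groupCohomology

namespace Fermat.Agent.S55.H173

open Fermat.Agent.S55.Tow

variable {S : Finset Nat.Primes}

/-- The map `Gal(F_q/ℚ_q) → Gal(F/ℚ)` is injective. -/
theorem decHom_injective_H173 (L : Level S) (q : Nat.Primes) :
    Function.Injective (L.decHom q) := by
  rw [injective_iff_map_eq_one]
  intro x hx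
  induction x using QuotientGroup.induction_on with
  | H g =>
    change ((locQ q g : GQ) : GQ ⧸ L.U) = 1 at hx
    rw [QuotientGroup.eq_one_iff] at hx
    exact (QuotientGroup.eq_one_iff g).2 hx

/-- The Shapiro map for the semilocal module `J_q(F)`. -/
noncomputable abbrev shapiroJ (L : Level S) (q : Nat.Primes) (n : ℕ) :
    groupCohomology (L.J q) n ⟶ groupCohomology (L.locUnits q) n :=
  shapiroHom (L.decHom q) (L.locUnits q) n

/-- **Shapiro for `J_q(F)`**: `Hⁿ(Gal(F/ℚ), J_q(F)) → Hⁿ(Gal(F_q/ℚ_q), F_qˣ)` is bijective. -/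
theorem shapiroJ_bijective (L : Level S) (q : Nat.Primes) (n : ℕ) :
    Function.Bijective (shapiroJ L q n).hom :=
  shapiroHom_bijective (decHom_injective_H173 L q) n (L.locUnits q)

/-- The Shapiro isomorphism for `J_q(F)`. -/
noncomputable def shapiroJIso (L : Level S) (q : Nat.Primes) (n : ℕ) :
    groupCohomology (L.J q) n ≅ groupCohomology (L.locUnits q) n :=
  shapiroIsoInj (decHom_injective_H173 L q) (L.locUnits q) n

end Fermat.Agent.S55.H173

end
-- ===== PACK-END S55/H173/TowerShapiro.lean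

-- ===== PACK-BEGIN S55/G/SesH604.lean
section
/-
S55, layer G, leaf G-SES (helper604), on top of helper421's `G/Defs.lean`.

* `diagHom_injective`   : `Lˣ → J_S(L) × Div^S(L)` is injective for `S ≠ ∅`;
* `primeIn_finite`      : only finitely many primes of `L` lie above `S`;
* `sUnit_eq`            : `sUnit S L` is Mathlib's group of `S`-units (`Set.unit`) for the set of
                          primes above `S`;
* bridge to the Dirichlet `S`-unit theorem of `S55/H604`.
-/




set_option autoImplicit false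
set_option linter.unusedSectionVars false

open scoped NumberField TensorProduct
open IsDedekindDomain

noncomputable section

namespace Fermat.Agent.S55.G.SesH604

open Fermat.Agent.S55.G

/-! ## 1. Injectivity of the diagonal map -/

section Diag

variable (S : Finset Nat.Primes) (L : Type) [Field L] [CharZero L]

lemma nonempty_subtype_of_nonempty (hS : S.Nonempty) : Nonempty S :=
  let ⟨q, hq⟩ := hS
  ⟨⟨q, hq⟩⟩

lemma algebraMap_QS_injective (hS : S.Nonempty) :
    Function.Injective (algebraMap ℚ (QS S)) := by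
  obtain ⟨q, hq⟩ := hS
  intro a b hab
  have h := congrArg (QS.proj S ⟨q, hq⟩) hab
  simpa using h

lemma asDiag_injective (hS : S.Nonempty) : Function.Injective (asDiag S L) :=
  Algebra.TensorProduct.includeLeft_injective (R := ℚ) (S := ℚ) (A := L) (B := QS S)
    (algebraMap_QS_injective S hS)

lemma unitsDiag_injective (hS : S.Nonempty) : Function.Injective (unitsDiag S L) := by
  intro x y hxy
  apply Additive.toMul.injective
  apply Units.ext
  apply asDiag_injective S L hS
  have := congrArg (fun z : Additive (AS S L)ˣ => ((z.toMul : (AS S L)ˣ) : AS S L)) hxy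
  simpa [coe_unitsDiag_apply] using this

end Diag

section Global

variable (S : Finset Nat.Primes) (G L : Type) [Group G] [Field L] [NumberField L]
  [MulSemiringAction G L]

/-- **G-SES (a).** The diagonal map `Lˣ → J_S(L) × Div^S(L)` is injective when `S ≠ ∅`. -/
theorem diagHom_injective (hS : S.Nonempty) : Function.Injective (diagHom S L) := by
  intro x y hxy
  exact unitsDiag_injective S L hS (congrArg Prod.fst hxy)

/-! ## 2. The primes above `S` -/

/-- The set of primes of `L` above `S`. -/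
def primeInSet : Set (HeightOneSpectrum (𝓞 L)) := {w | IsAbove S L w}

lemma mem_primeInSet (w : HeightOneSpectrum (𝓞 L)) : w ∈ primeInSet S L ↔ IsAbove S L w := Iff.rfl

lemma natCast_ne_zero_of_prime (q : Nat.Primes) : ((q : ℕ) : 𝓞 L) ≠ 0 := by
  intro h
  have h2 : ((q : ℕ) : L) = 0 := by
    have := congrArg (algebraMap (𝓞 L) L) h
    simpa using this
  exact q.2.ne_zero (Nat.cast_eq_zero.1 h2)

/-- **G-SES.** Only finitely many primes of `L` lie above `S`. -/
theorem primeInSet_finite : (primeInSet S L).Finite := by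
  classical
  have h : primeInSet S L ⊆ ⋃ q ∈ S, {w : HeightOneSpectrum (𝓞 L) |
      w.asIdeal ∣ Ideal.span {((q : ℕ) : 𝓞 L)}} := by
    rintro w ⟨q, hq, hw⟩
    simp only [Set.mem_iUnion]
    refine ⟨q, hq, ?_⟩
    change w.asIdeal ∣ Ideal.span {((q : ℕ) : 𝓞 L)}
    rw [Ideal.dvd_span_singleton]
    exact hw
  refine Set.Finite.subset ?_ h
  refine Set.Finite.biUnion S.finite_toSet fun q _ => ?_
  exact Ideal.finite_factors (by
    rw [Ne, Ideal.zero_eq_bot, Ideal.span_singleton_eq_bot]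
    exact natCast_ne_zero_of_prime L q)

/-- The finite set of primes of `L` above `S`. -/
def primeInFinset : Finset (HeightOneSpectrum (𝓞 L)) := (primeInSet_finite S L).toFinset

lemma mem_primeInFinset (w : HeightOneSpectrum (𝓞 L)) :
    w ∈ primeInFinset S L ↔ IsAbove S L w := by
  simp [primeInFinset, primeInSet]

lemma coe_primeInFinset :
    (primeInFinset S L : Set (HeightOneSpectrum (𝓞 L))) = primeInSet S L := by
  ext w
  simp [mem_primeInFinset, primeInSet]

instance finite_primeIn : Finite (PrimeIn S L) := (primeInSet_finite S L).to_subtype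

lemma natCard_primeIn : Nat.card (PrimeIn S L) = (primeInFinset S L).card := by
  classical
  rw [← Nat.card_eq_finsetCard]
  exact Nat.card_congr
    { toFun := fun w => ⟨w.1, (mem_primeInFinset S L w.1).2 w.2⟩
      invFun := fun w => ⟨w.1, (mem_primeInFinset S L w.1).1 w.2⟩
      left_inv := fun _ => rfl
      right_inv := fun _ => rfl }

/-! ## 3. The `S`-units -/

lemma mem_sUnit_iff_valuation (x : Additive Lˣ) :
    x ∈ sUnit S L ↔ ∀ w : HeightOneSpectrum (𝓞 L), ¬ IsAbove S L w →
      w.valuation L ((x.toMul : Lˣ) : L) = 1 := by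
  rw [mem_sUnit_iff]
  constructor
  · intro h w hw
    exact (ordAt_eq_zero_iff w x).1 (h ⟨w, hw⟩)
  · intro h w
    exact (ordAt_eq_zero_iff w.1 x).2 (h w.1 w.2)

/-- **G-SES (bridge).** The `S`-units of `Defs.lean` are Mathlib's `S`-units for the set of primes
above `S`. -/
theorem sUnit_toAddSubgroup_eq :
    (sUnit S L).toAddSubgroup =
      ((primeInFinset S L : Set (HeightOneSpectrum (𝓞 L))).unit L).toAddSubgroup := by
  ext x
  rw [Submodule.mem_toAddSubgroup, mem_sUnit_iff_valuation]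
  constructor
  · intro h w hw
    exact h w (fun hw' => hw ((Finset.mem_coe).2 ((mem_primeInFinset S L w).2 hw')))
  · intro h w hw
    exact h w (fun hw' => hw ((mem_primeInFinset S L w).1 (Finset.mem_coe.1 hw')))


open Fermat.Agent.S55.H604 in
/-- The `S`-units of `Defs.lean` as the (additive) group of Mathlib `S`-units. -/
def sUnitEquiv : sUnit S L ≃+ Additive (SUnit L (primeInFinset S L)) where
  toFun x := Additive.ofMul ⟨x.1.toMul, by
    have h : x.1 ∈ (sUnit S L).toAddSubgroup := x.2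
    rw [sUnit_toAddSubgroup_eq] at h
    exact h⟩
  invFun y := ⟨Additive.ofMul ((y.toMul : SUnit L (primeInFinset S L)) : Lˣ), by
    have h : Additive.ofMul ((y.toMul : SUnit L (primeInFinset S L)) : Lˣ) ∈
        ((primeInFinset S L : Set (HeightOneSpectrum (𝓞 L))).unit L).toAddSubgroup :=
      (y.toMul).2
    rw [← sUnit_toAddSubgroup_eq] at h
    exact h⟩
  left_inv x := rfl
  right_inv y := rfl
  map_add' x y := rfl

open Fermat.Agent.S55.H604 in
lemma coe_sUnitEquiv (x : sUnit S L) :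
    (((sUnitEquiv S L x).toMul : SUnit L (primeInFinset S L)) : Lˣ) = x.1.toMul := rfl

open Fermat.Agent.S55.H604 in
/-- **Dirichlet's `S`-unit theorem** for `sUnit S L`: finite generation. -/
instance moduleFinite_sUnit : Module.Finite ℤ (sUnit S L) :=
  Module.Finite.equiv (sUnitEquiv S L).toIntLinearEquiv.symm

open Fermat.Agent.S55.H604 in
/-- **`S`-unit power index** in the vocabulary of `Defs.lean`:
`[E_S : n E_S] = #μ_n(L) · n ^ (#∞ + #{w | S} - 1)`. -/
theorem index_range_nsmul_sUnit' (n : ℕ) (hn : n ≠ 0) :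
    (nsmulAddMonoidHom (α := sUnit S L) n).range.index =
      Nat.card (rootsOfUnity n L) *
        n ^ (Fintype.card (NumberField.InfinitePlace L) + Nat.card (PrimeIn S L) - 1) := by
  rw [natCard_primeIn, ← Nat.card_congr (kerNsmulEquiv L (primeInFinset S L) n hn),
    ← index_range_nsmul_sUnit L (primeInFinset S L) n hn,
    ← AddEquiv.map_range_nsmulAddMonoidHom (sUnitEquiv S L) n]
  exact (AddSubgroup.index_map_equiv _ (sUnitEquiv S L)).symm

open Fermat.Agent.S55.H604 in
/-- If `L` contains a primitive `n`-th root of unity: `[E_S : n E_S] = n ^ (#∞ + #{w | S})`. -/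
theorem index_range_nsmul_sUnit_of_primitiveRoot (n : ℕ) (hn : n ≠ 0) {ζ : L}
    (hζ : IsPrimitiveRoot ζ n) :
    (nsmulAddMonoidHom (α := sUnit S L) n).range.index =
      n ^ (Fintype.card (NumberField.InfinitePlace L) + Nat.card (PrimeIn S L)) := by
  have : NeZero n := ⟨hn⟩
  rw [index_range_nsmul_sUnit' S L n hn, hζ.card_rootsOfUnity]
  have hpos : 0 < Fintype.card (NumberField.InfinitePlace L) := Fintype.card_pos
  have : Fintype.card (NumberField.InfinitePlace L) + Nat.card (PrimeIn S L) =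
      (Fintype.card (NumberField.InfinitePlace L) + Nat.card (PrimeIn S L) - 1) + 1 := by omega
  rw [this, pow_succ, Nat.add_sub_cancel, mul_comm]


/-! ## 4. Short exactness of `Lˣ → J_S × Div^S → C_S` -/

open CategoryTheory in
/-- **G-SES (a).** `0 → Lˣ → J_S(L) × Div^S(L) → C_S(L) → 0` is short exact in `Rep ℤ G`
when `S ≠ ∅`. -/
theorem classShortComplex_shortExact (hS : S.Nonempty) :
    (classShortComplex S G L).ShortExact := by
  refine Fermat.Agent.S55.H295.rep_shortExact_of (k := ℤ) (classShortComplex S G L) ?_ ?_ ?_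
  · intro x y hxy
    exact diagHom_injective S L hS hxy
  · intro x hx
    have hx' : x ∈ principal S L := (Submodule.Quotient.mk_eq_zero _).1 hx
    obtain ⟨y, hy⟩ := hx'
    exact ⟨y, hy⟩
  · exact Submodule.mkQ_surjective _

end Global

end Fermat.Agent.S55.G.SesH604

end
end
-- ===== PACK-END S55/G/SesH604.lean

-- ===== PACK-BEGIN S55/G/PL1H597/Prime.lean
section
/-
S55 (Poitou–Tate), layer G, leaf G-PL1 (`PlacePrimeSpec`) — helper597.
Part 2: the prime `primeOf 𝔪` of `𝓞 L` below a place `𝔪` of `L ⊗ ℚ_S`; Galois equivariance;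
the integers of `L_𝔪` meet `L` in the localisation of `𝓞 L` at `primeOf 𝔪`.
-/


set_option autoImplicit false
set_option linter.unusedSectionVars false
set_option linter.style.haveILetI false
set_option linter.unusedSimpArgs false
set_option backward.isDefEq.respectTransparency false

open scoped NumberField TensorProduct
open IsDedekindDomain Polynomial

noncomputable section

namespace Fermat.Agent.S55.G.PL1H597

open Fermat.Agent.S55.G

variable {S : Finset Nat.Primes} {L : Type} [Field L] [NumberField L]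

/-- The map `𝓞 L → intA 𝔪`. -/
def toInt (𝔪 : SPlace S L) : 𝓞 L →+* intA 𝔪 :=
  ((toLoc S 𝔪).comp (algebraMap (𝓞 L) L)).codRestrict (intA 𝔪).toSubring
    (fun x => toLoc_mem_intA_of_isIntegral 𝔪 _ (NumberField.RingOfIntegers.isIntegral_coe x))

@[simp] lemma coe_toInt (𝔪 : SPlace S L) (x : 𝓞 L) :
    ((toInt 𝔪 x : intA 𝔪) : LocField S 𝔪) = toLoc S 𝔪 (x : L) := rfl

/-- The prime ideal of `𝓞 L` below `𝔪`. -/
def primeIdeal (𝔪 : SPlace S L) : Ideal (𝓞 L) :=
  (IsLocalRing.maximalIdeal (intA 𝔪)).comap (toInt 𝔪)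

lemma mem_primeIdeal_iff (𝔪 : SPlace S L) (x : 𝓞 L) :
    x ∈ primeIdeal 𝔪 ↔ toLoc S 𝔪 (x : L) ∈ (intA 𝔪).nonunits := by
  rw [primeIdeal, Ideal.mem_comap, ← ValuationSubring.coe_mem_nonunits_iff, coe_toInt]

instance isPrime_primeIdeal (𝔪 : SPlace S L) : (primeIdeal 𝔪).IsPrime :=
  Ideal.comap_isPrime _ _

lemma natCast_mem_primeIdeal (𝔪 : SPlace S L) (q : S) (h : Over 𝔪 q) :
    (((q.1 : ℕ) : ℕ) : 𝓞 L) ∈ primeIdeal 𝔪 := by
  rw [mem_primeIdeal_iff]
  have := natCast_mem_nonunits 𝔪 q h
  simpa using this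

lemma primeIdeal_ne_bot (𝔪 : SPlace S L) : primeIdeal 𝔪 ≠ ⊥ := by
  intro hbot
  have h := natCast_mem_primeIdeal 𝔪 (qAt 𝔪) (over_qAt 𝔪)
  rw [hbot, Ideal.mem_bot] at h
  have : (((qAt 𝔪).1 : ℕ) : ℕ) = 0 := by exact_mod_cast h
  exact (qAt 𝔪).1.2.ne_zero this

/-- The prime of `𝓞 L` below the place `𝔪`. -/
def primeOf (𝔪 : SPlace S L) : HeightOneSpectrum (𝓞 L) where
  asIdeal := primeIdeal 𝔪
  isPrime := isPrime_primeIdeal 𝔪
  ne_bot := primeIdeal_ne_bot 𝔪

lemma mem_primeOf_iff (𝔪 : SPlace S L) (x : 𝓞 L) :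
    x ∈ (primeOf 𝔪).asIdeal ↔ toLoc S 𝔪 (x : L) ∈ (intA 𝔪).nonunits :=
  mem_primeIdeal_iff 𝔪 x

lemma isAbove_primeOf (𝔪 : SPlace S L) : IsAbove S L (primeOf 𝔪) :=
  ⟨(qAt 𝔪).1, (qAt 𝔪).2, natCast_mem_primeIdeal 𝔪 (qAt 𝔪) (over_qAt 𝔪)⟩

/-- A prime of `𝓞 L` contains at most one rational prime. -/
lemma eq_of_natCast_mem (w : HeightOneSpectrum (𝓞 L)) {q q' : Nat.Primes}
    (h : (((q : ℕ) : ℕ) : 𝓞 L) ∈ w.asIdeal) (h' : (((q' : ℕ) : ℕ) : 𝓞 L) ∈ w.asIdeal) :
    q = q' := by
  by_contra hne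
  have hcop : Nat.Coprime (q : ℕ) (q' : ℕ) :=
    (Nat.coprime_primes q.2 q'.2).2 (fun h => hne (Subtype.ext h))
  have h1 : (1 : 𝓞 L) ∈ w.asIdeal := by
    have hb := Nat.gcd_eq_gcd_ab (q : ℕ) (q' : ℕ)
    rw [hcop.gcd_eq_one] at hb
    have hb' : (1 : 𝓞 L) = ((q : ℕ) : 𝓞 L) * ((Nat.gcdA q q' : ℤ) : 𝓞 L) +
        ((q' : ℕ) : 𝓞 L) * ((Nat.gcdB q q' : ℤ) : 𝓞 L) := by
      have := congrArg (Int.cast : ℤ → 𝓞 L) hb
      push_cast at this
      exact this
    rw [hb']
    exact w.asIdeal.add_mem (w.asIdeal.mul_mem_right _ h) (w.asIdeal.mul_mem_right _ h')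
  exact w.isPrime.ne_top ((Ideal.eq_top_iff_one _).2 h1)

lemma over_iff_mem (𝔪 : SPlace S L) (q : S) :
    Over 𝔪 q ↔ (((q.1 : ℕ) : ℕ) : 𝓞 L) ∈ (primeOf 𝔪).asIdeal := by
  constructor
  · exact fun h => natCast_mem_primeIdeal 𝔪 q h
  · intro h
    have h' := natCast_mem_primeIdeal 𝔪 (qAt 𝔪) (over_qAt 𝔪)
    have := eq_of_natCast_mem (primeOf 𝔪) h h'
    have hq : q = qAt 𝔪 := Subtype.ext this
    rw [hq]
    exact over_qAt 𝔪

/-- Membership in `primeOf 𝔪` in terms of integrality over `ℤ_S` in `L ⊗ ℚ_S`. -/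
lemma mem_primeOf_iff_intAS (𝔪 : SPlace S L) (x : 𝓞 L) :
    x ∈ (primeOf 𝔪).asIdeal ↔ x = 0 ∨ ¬ IntAS 𝔪 (asDiag S L ((x : L)⁻¹)) := by
  rw [mem_primeOf_iff, mem_nonunits_iff_inv, ← mk_mem_intA_iff]
  have h1 : LocField.mk S 𝔪 (asDiag S L ((x : L)⁻¹)) = (toLoc S 𝔪 (x : L))⁻¹ := by
    rw [← map_inv₀ (toLoc S 𝔪)]
    rfl
  rw [h1]
  have h2 : toLoc S 𝔪 (x : L) = 0 ↔ x = 0 := by
    rw [map_eq_zero]
    exact NumberField.RingOfIntegers.coe_eq_zero_iff
  rw [h2]

/-- Compatibility with any ring of integers of `L_𝔪`. -/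
lemma mem_primeOf_iff_of_isLocalRingOfIntegers (𝔪 : SPlace S L)
    (A : ValuationSubring (LocField S 𝔪)) (hA : S55.L.IsLocalRingOfIntegers A) (x : 𝓞 L) :
    x ∈ (primeOf 𝔪).asIdeal ↔ toLoc S 𝔪 (x : L) ∈ A.nonunits := by
  rw [eq_intA 𝔪 A hA]
  exact mem_primeOf_iff 𝔪 x

/-! ### Galois equivariance -/

section Equivariance

variable (G : Type) [Group G] [MulSemiringAction G L]

lemma asAut_comp_zsIncl (g : G) (P : (ZS S)[X]) (z : AS S L) :
    asAut S G L g (Polynomial.eval₂ (zsIncl S L) z P) =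
      Polynomial.eval₂ (zsIncl S L) (asAut S G L g z) P := by
  have h : ((asAut S G L g : AS S L ≃ₐ[ℚ] AS S L) : AS S L →+* AS S L).comp (zsIncl S L) =
      zsIncl S L := by
    ext z
    exact asAut_asIncl S G L g z.1
  have := Polynomial.hom_eval₂ P (zsIncl S L)
    ((asAut S G L g : AS S L ≃ₐ[ℚ] AS S L) : AS S L →+* AS S L) z
  rw [h] at this
  exact this

lemma intAS_sPlaceSMul_iff (g : G) (𝔪 : SPlace S L) (z : AS S L) :
    IntAS (sPlaceSMul S G g 𝔪) z ↔ IntAS 𝔪 (asAut S G L g⁻¹ z) := by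
  unfold IntAS
  simp only [mem_sPlaceSMul_iff, asAut_comp_zsIncl]

theorem primeOf_sPlaceSMul (g : G) (𝔪 : SPlace S L) :
    primeOf (sPlaceSMul S G g 𝔪) = primeSMul G g (primeOf 𝔪) := by
  apply HeightOneSpectrum.ext
  ext x
  rw [mem_primeSMul_iff, mem_primeOf_iff_intAS, mem_primeOf_iff_intAS, intAS_sPlaceSMul_iff,
    asAut_asDiag]
  have h1 : g⁻¹ • x = 0 ↔ x = 0 := smul_eq_zero_iff_eq g⁻¹
  have h2 : (((g⁻¹ • x : 𝓞 L) : 𝓞 L) : L)⁻¹ = g⁻¹ • ((x : L)⁻¹) := by
    rw [smul_inv'']
    rfl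
  rw [h1, h2]

end Equivariance

end Fermat.Agent.S55.G.PL1H597

end
end
-- ===== PACK-END S55/G/PL1H597/Prime.lean

-- ===== PACK-BEGIN S55/Local/H608/Rel.lean
section



/-!
# S55 layer L (helper608): relative ramification index in the Spec language

For a base pair `(A, F)` and local fields `K ⊆ L` (finite over `F`):

* `relRamIdx A F K L`   : the ramification index `e(L/K)`.
* `unif_mul_zpow_relRamIdx` : `ϖK * ϖL ^ (-e) ∈ U_L` for uniformizers `ϖK`, `ϖL`.
* `isUnram_iff_relRamIdx` : `IsUnram A F L K ↔ e(L/K) = 1`.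
-/

set_option autoImplicit false
set_option linter.unusedSectionVars false
set_option linter.style.haveILetI false

namespace Fermat.Agent.S55.Local.H608

open IsLocalRing

section Abs

variable (A F : Type) [CommRing A] [IsDomain A] [IsDiscreteValuationRing A]
  [IsAdicComplete (maximalIdeal A) A] [Finite (ResidueField A)]
  [Field F] [CharZero F] [Algebra A F] [IsFractionRing A F]
  (L : Type) [Field L] [Algebra F L] [FiniteDimensional F L]

/-- the absolute model -/
theorem isModel_intCl :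
    letI : Algebra A L := (toL A F L).toAlgebra
    IsModel A F L (integralClosure A L) := by
  letI : Algebra A L := (toL A F L).toAlgebra
  intro x
  constructor
  · rintro ⟨t, rfl⟩
    exact t.2
  · intro hx
    exact ⟨⟨x, hx⟩, rfl⟩

/-- `ϖL ^ k ∈ U_L ↔ k = 0`. -/
theorem unif_zpow_mem_iff (ϖL : Lˣ) (hL : IsUnif A F L ϖL) (k : ℤ) :
    ϖL ^ k ∈ intUnits A F L ↔ k = 0 := by
  letI : Algebra A L := (toL A F L).toAlgebra
  haveI : IsScalarTower A F L := IsScalarTower.of_algebraMap_eq (fun _ => rfl)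
  haveI := isDVR_intCl A F L
  haveI := isFractionRing_intCl A F L
  exact (isModel_intCl A F L).zpow_mem_intUnits_iff hL k

end Abs

section Rel

variable (A F : Type) [CommRing A] [IsDomain A] [IsDiscreteValuationRing A]
  [IsAdicComplete (maximalIdeal A) A] [Finite (ResidueField A)]
  [Field F] [CharZero F] [Algebra A F] [IsFractionRing A F]
  (K : Type) [Field K] [Algebra F K] [FiniteDimensional F K]
  (L : Type) [Field L] [Algebra F L] [Algebra K L] [IsScalarTower F K L] [FiniteDimensional K L]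

/-- The ramification index `e(L/K)`. -/
noncomputable def relRamIdx : ℕ :=
  letI : Algebra A K := (toL A F K).toAlgebra
  haveI : IsScalarTower A F K := IsScalarTower.of_algebraMap_eq (fun _ => rfl)
  haveI := isDVR_intCl A F K
  haveI := isAdicComplete_intCl A F K
  haveI := isFractionRing_intCl A F K
  haveI := charZero_of_base F K
  ramIdx (integralClosure A K) K L

/-- the relative model -/
theorem isModel_relIntCl :
    letI : Algebra A K := (toL A F K).toAlgebra
    IsModel A F L (integralClosure (integralClosure A K) L) := by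
  letI : Algebra A K := (toL A F K).toAlgebra
  letI : Algebra A L := (toL A F L).toAlgebra
  haveI : IsScalarTower A K L :=
    IsScalarTower.of_algebraMap_eq (fun a => toL_eq_algebraMap_toL A F L K a)
  intro x
  constructor
  · rintro ⟨t, rfl⟩
    have h1 : IsIntegral (integralClosure A K) (t : L) := t.2
    exact isIntegral_trans (R := A) (A := integralClosure A K) _ h1
  · intro hx
    have h1 : IsIntegral A x := hx
    exact ⟨⟨x, h1.tower_top⟩, rfl⟩

theorem relRamIdx_pos : 0 < relRamIdx A F K L := by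
  letI : Algebra A K := (toL A F K).toAlgebra
  haveI : IsScalarTower A F K := IsScalarTower.of_algebraMap_eq (fun _ => rfl)
  haveI := isDVR_intCl A F K
  haveI := isAdicComplete_intCl A F K
  haveI := finite_residueField_intCl A F K
  haveI := isFractionRing_intCl A F K
  haveI := charZero_of_base F K
  exact ramIdx_pos (integralClosure A K) K L

/-- `ϖK = unit * ϖL ^ e`. -/
theorem unif_mul_zpow_relRamIdx (ϖK : Kˣ) (ϖL : Lˣ) (hK : IsUnif A F K ϖK)
    (hL : IsUnif A F L ϖL) :
    unitsIncl L K ϖK * ϖL ^ (-(relRamIdx A F K L : ℤ)) ∈ intUnits A F L := by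
  letI : Algebra A K := (toL A F K).toAlgebra
  haveI : IsScalarTower A F K := IsScalarTower.of_algebraMap_eq (fun _ => rfl)
  haveI := isDVR_intCl A F K
  haveI := isAdicComplete_intCl A F K
  haveI := finite_residueField_intCl A F K
  haveI := isFractionRing_intCl A F K
  haveI := charZero_of_base F K
  haveI := isDVR_intCl (integralClosure A K) K L
  haveI := isFractionRing_intCl (integralClosure A K) K L
  have hmK := isModel_intCl A F K
  have hmL := isModel_relIntCl A F K L
  obtain ⟨πR, hπR, hπRK⟩ := hmK.exists_irreducible_of_isUnif hK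
  obtain ⟨πS, hπS, hπSL⟩ := hmL.exists_irreducible_of_isUnif hL
  obtain ⟨u, hu⟩ := associated_pow_ramIdx (integralClosure A K) K L πR hπR πS hπS
  -- `πR * u = πS ^ e`
  apply hmL.mem_intUnits_of_isUnit (t := ((u⁻¹ : (integralClosure (integralClosure A K) L)ˣ) :
    integralClosure (integralClosure A K) L)) (Units.isUnit _)
  have hϖL0 : (ϖL : L) ≠ 0 := ϖL.ne_zero
  have h1 : algebraMap (integralClosure (integralClosure A K) L) L
      (algebraMap (integralClosure A K) (integralClosure (integralClosure A K) L) πR) =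
      algebraMap K L (ϖK : K) := by
    rw [← hπRK, ← IsScalarTower.algebraMap_apply, ← IsScalarTower.algebraMap_apply]
  have h2 := congrArg (algebraMap (integralClosure (integralClosure A K) L) L) hu
  rw [map_mul, map_pow, h1, hπSL] at h2
  have hu0 : algebraMap (integralClosure (integralClosure A K) L) L
      (u : integralClosure (integralClosure A K) L) ≠ 0 := hmL.map_ne_zero u.ne_zero
  have hinv : algebraMap (integralClosure (integralClosure A K) L) L
      ((u⁻¹ : (integralClosure (integralClosure A K) L)ˣ) :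
        integralClosure (integralClosure A K) L) =
      (algebraMap (integralClosure (integralClosure A K) L) L
        (u : integralClosure (integralClosure A K) L))⁻¹ := by
    apply eq_inv_of_mul_eq_one_left
    rw [← map_mul, Units.inv_mul, map_one]
  rw [Units.val_mul, Units.val_zpow_eq_zpow_val, unitsIncl_coe, hinv, zpow_neg, zpow_natCast]
  show _ * ((ϖL : L) ^ ramIdx (integralClosure A K) K L)⁻¹ = _
  rw [← h2]
  have h3 : algebraMap K L (ϖK : K) ≠ 0 := by
    simp
  field_simp

/-- `L / K` is unramified iff `e(L/K) = 1`. -/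
theorem isUnram_iff_relRamIdx : IsUnram A F L K ↔ relRamIdx A F K L = 1 := by
  haveI : FiniteDimensional F L := FiniteDimensional.trans F K L
  obtain ⟨ϖK, hK⟩ := exists_isUnif A F K
  obtain ⟨ϖL, hL⟩ := exists_isUnif A F L
  have hb := unif_mul_zpow_relRamIdx A F K L ϖK ϖL hK hL
  constructor
  · intro hur
    obtain ⟨y, hy⟩ := hur ϖL
    obtain ⟨n, hn⟩ := hK.2.2 y
    have hn' : unitsIncl L K (y * ϖK ^ (-n)) ∈ intUnits A F L :=
      (intUnitsComap A F K L _).mpr hn
    have key : ϖL ^ (1 - (relRamIdx A F K L : ℤ) * n) ∈ intUnits A F L := by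
      have : ϖL ^ (1 - (relRamIdx A F K L : ℤ) * n) =
          (ϖL * (unitsIncl L K y)⁻¹) * unitsIncl L K (y * ϖK ^ (-n)) *
            (unitsIncl L K ϖK * ϖL ^ (-(relRamIdx A F K L : ℤ))) ^ n := by
        rw [map_mul, map_zpow]
        apply Additive.ofMul.injective
        simp only [ofMul_mul, ofMul_zpow, ofMul_inv]
        module
      rw [this]
      exact (intUnits A F L).mul_mem ((intUnits A F L).mul_mem hy hn')
        ((intUnits A F L).zpow_mem hb n)
    have h0 := (unif_zpow_mem_iff A F L ϖL hL _).mp key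
    have hpos := relRamIdx_pos A F K L
    have h1 : (relRamIdx A F K L : ℤ) * n = 1 := by omega
    have h2 : ((relRamIdx A F K L : ℤ)) ∣ 1 := Dvd.intro _ h1
    rcases Int.isUnit_iff.mp (isUnit_of_dvd_one h2) with h4 | h4
    · exact_mod_cast h4
    · omega
  · intro he x
    obtain ⟨n, hn⟩ := hL.2.2 x
    refine ⟨ϖK ^ n, ?_⟩
    rw [he] at hb
    have : x * (unitsIncl L K (ϖK ^ n))⁻¹ =
        (x * ϖL ^ (-n)) * ((unitsIncl L K ϖK * ϖL ^ (-((1 : ℕ) : ℤ))) ^ n)⁻¹ := by
      rw [map_zpow]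
      apply Additive.ofMul.injective
      simp only [ofMul_mul, ofMul_zpow, ofMul_inv]
      push_cast
      module
    rw [this]
    exact (intUnits A F L).mul_mem hn ((intUnits A F L).inv_mem ((intUnits A F L).zpow_mem hb n))

end Rel

section Tower3

variable (A F : Type) [CommRing A] [IsDomain A] [IsDiscreteValuationRing A]
  [IsAdicComplete (maximalIdeal A) A] [Finite (ResidueField A)]
  [Field F] [CharZero F] [Algebra A F] [IsFractionRing A F]
  (K : Type) [Field K] [Algebra F K] [FiniteDimensional F K]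
  (E : Type) [Field E] [Algebra F E] [FiniteDimensional F E] [Algebra K E] [IsScalarTower F K E]
  [FiniteDimensional K E]
  (N : Type) [Field N] [Algebra F N] [Algebra K N] [IsScalarTower F K N] [FiniteDimensional K N]
  [Algebra E N] [IsScalarTower F E N] [IsScalarTower K E N] [FiniteDimensional E N]

/-- Multiplicativity of the ramification index in towers. -/
theorem relRamIdx_tower :
    relRamIdx A F K N = relRamIdx A F E N * relRamIdx A F K E := by
  haveI : FiniteDimensional F N := FiniteDimensional.trans F K N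
  obtain ⟨ϖK, hK⟩ := exists_isUnif A F K
  obtain ⟨ϖE, hE⟩ := exists_isUnif A F E
  obtain ⟨ϖN, hN⟩ := exists_isUnif A F N
  have h1 := unif_mul_zpow_relRamIdx A F K N ϖK ϖN hK hN
  have h2 := unif_mul_zpow_relRamIdx A F E N ϖE ϖN hE hN
  have h3 := unif_mul_zpow_relRamIdx A F K E ϖK ϖE hK hE
  have h3' : unitsIncl N E (unitsIncl E K ϖK * ϖE ^ (-(relRamIdx A F K E : ℤ))) ∈
      intUnits A F N := (intUnitsComap A F E N _).mpr h3
  have htow : unitsIncl N E (unitsIncl E K ϖK) = unitsIncl N K ϖK := by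
    apply Units.ext
    simp only [unitsIncl_coe]
    exact (IsScalarTower.algebraMap_apply K E N _).symm
  have key : ϖN ^ ((relRamIdx A F K N : ℤ) -
      (relRamIdx A F E N : ℤ) * (relRamIdx A F K E : ℤ)) ∈ intUnits A F N := by
    have : ϖN ^ ((relRamIdx A F K N : ℤ) -
        (relRamIdx A F E N : ℤ) * (relRamIdx A F K E : ℤ)) =
        (unitsIncl N K ϖK * ϖN ^ (-(relRamIdx A F K N : ℤ)))⁻¹ *
          unitsIncl N E (unitsIncl E K ϖK * ϖE ^ (-(relRamIdx A F K E : ℤ))) *
          (unitsIncl N E ϖE * ϖN ^ (-(relRamIdx A F E N : ℤ))) ^ (relRamIdx A F K E : ℤ) := by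
      rw [map_mul, map_zpow, htow]
      apply Additive.ofMul.injective
      simp only [ofMul_mul, ofMul_zpow, ofMul_inv]
      module
    rw [this]
    exact (intUnits A F N).mul_mem ((intUnits A F N).mul_mem ((intUnits A F N).inv_mem h1) h3')
      ((intUnits A F N).zpow_mem h2 _)
  have h0 := (unif_zpow_mem_iff A F N ϖN hN _).mp key
  have : (relRamIdx A F K N : ℤ) = ((relRamIdx A F E N * relRamIdx A F K E : ℕ) : ℤ) := by
    push_cast
    omega
  exact_mod_cast this

end Tower3

end Fermat.Agent.S55.Local.H608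

end
-- ===== PACK-END S55/Local/H608/Rel.lean

-- ===== PACK-BEGIN S55/G/UpH119/Main.lean
section




/-!
# G-UP: the upper bound for `p`-groups (helper119)

`pClassUpper_of : CyclicLayerSpec → DescentSpec → PClassUpperSpec`:
for a finite `p`-group `G` acting faithfully on a number field `L`, unramified outside `S ∋ p`,
with `μ_p ⊂ L^G`, and every subgroup `H ≤ G`:
`H¹(H, C_S(L)) = 0` and `|H²(H, C_S(L))|` divides `|H|`.

Proof: dévissage along a normal subgroup `K ⊴ H` of index `p`; the cyclic layer `H ⧸ K` acts on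
the fixed field `L^K`, where `CyclicLayerSpec` applies (`Quot.lean`), and
`C_S(L)^K ≅ C_S(L^K)` by `DescentSpec` (`Desc.lean`).  The counting in degree 2 is
`T.UglySpec` (helper954, on main).
-/

set_option autoImplicit false
set_option linter.style.haveILetI false
set_option linter.unusedSectionVars false

open scoped NumberField TensorProduct Pointwise
open IsDedekindDomain CategoryTheory groupCohomology

noncomputable section

namespace Fermat.Agent.S55.G.UpH119

section Layer

variable (S : Finset Nat.Primes) (G L : Type) [Group G] [Finite G] [Field L] [NumberField L]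
  [MulSemiringAction G L] [FaithfulSMul G L] (N : Subgroup G) [N.Normal]

/-- The cyclic layer `G ⧸ N` of order `p`: `H¹(G ⧸ N, C_S(L)^N) = 0` and
`|H²(G ⧸ N, C_S(L)^N)|` divides `p`. -/
theorem quot_layer (hC : CyclicLayerSpec) (hD : DescentSpec) (p : ℕ) [hp : Fact p.Prime]
    (hp2 : p ≠ 2) (hpS : (⟨p, hp.out⟩ : Nat.Primes) ∈ S) (hunr : IsUnramOut S G L)
    (hζ : HasFixedRootOfUnity p G L) (hcard : Nat.card (G ⧸ N) = p) :
    Limits.IsZero (groupCohomology ((CRep S G L).quotientToInvariants N) 1) ∧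
    T.CardDvd (groupCohomology ((CRep S G L).quotientToInvariants N) 2) p := by
  letI := quotAct G L N
  haveI := faithfulSMul_quot G L N
  obtain ⟨h1, h2⟩ := hC p hp2 S (G ⧸ N) (FixN G L N) hpS hcard (isUnramOut_quot S G L N hunr)
    (hasFixedRootOfUnity_quot G L N p hζ)
  obtain ⟨e1⟩ := nonempty_iso_quot S G L N hD ⟨_, hpS⟩ hunr 1
  obtain ⟨e2⟩ := nonempty_iso_quot S G L N hD ⟨_, hpS⟩ hunr 2
  refine ⟨Limits.IsZero.of_iso h1 e1.symm, ?_⟩
  have hfin : Finite (groupCohomology (CRep S (G ⧸ N) (FixN G L N)) 2) :=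
    Nat.finite_of_card_ne_zero (by rw [h2]; exact hp.out.ne_zero)
  exact T.H954.cardDvd_of_iso e2.symm ⟨hfin, by rw [h2]⟩

end Layer

section Induction

variable (S : Finset Nat.Primes) (L : Type) [Field L] [NumberField L]

/-- `H¹(G, C_S(L)) = 0` for `p`-groups, by induction on the order. -/
theorem h1_isZero (hC : CyclicLayerSpec) (hD : DescentSpec) (p : ℕ) [hp : Fact p.Prime]
    (hp2 : p ≠ 2) (hpS : (⟨p, hp.out⟩ : Nat.Primes) ∈ S) :
    ∀ (n : ℕ) (G : Type) [Group G] [Finite G] [MulSemiringAction G L] [FaithfulSMul G L],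
      Nat.card G = p ^ n → IsUnramOut S G L → HasFixedRootOfUnity p G L →
      Limits.IsZero (groupCohomology (CRep S G L) 1) := by
  intro n
  induction n with
  | zero =>
    intro G _ _ _ _ hG _ _
    rw [pow_zero] at hG
    rw [ModuleCat.isZero_iff_subsingleton]
    exact ⟨fun a b => (Fermat.Agent.S55.H954.H1_eq_zero_of_card_eq_one (CRep S G L) hG a).trans
      (Fermat.Agent.S55.H954.H1_eq_zero_of_card_eq_one (CRep S G L) hG b).symm⟩
  | succ n ih =>
    intro G _ _ _ _ hG hunr hζ
    obtain ⟨K, hK⟩ := Sylow.exists_subgroup_card_pow_prime (G := G) p (n := n)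
      (by rw [hG]; exact pow_dvd_pow p (Nat.le_succ n))
    have hidx : K.index = p := by
      have h := K.card_mul_index
      rw [hK, hG, pow_succ] at h
      exact Nat.eq_of_mul_eq_mul_left (pow_pos hp.out.pos n) h
    haveI hKn : K.Normal := Subgroup.normal_of_index_eq_minFac_card (by
      rw [hidx, hG, Nat.pow_minFac (Nat.succ_ne_zero n), hp.out.minFac_eq])
    have hq : Nat.card (G ⧸ K) = p := by rw [← Subgroup.index_eq_card]; exact hidx
    have hKz : Limits.IsZero (groupCohomology (CRep S K L) 1) :=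
      ih K hK (fun w hw g hg x => hunr w hw (g : G) hg x)
        (by obtain ⟨ζ, h1, h2⟩ := hζ; exact ⟨ζ, h1, fun g => h2 (g : G)⟩)
    have hQz := (quot_layer S G L K hC hD p hp2 hpS hunr hζ hq).1
    have hK0 : ∀ x : H1 (Rep.res K.subtype (CRep S G L)), x = 0 := fun x =>
      (ModuleCat.isZero_iff_subsingleton.1 hKz).elim x 0
    have hQ0 : ∀ x : H1 ((CRep S G L).quotientToInvariants K), x = 0 := fun x =>
      (ModuleCat.isZero_iff_subsingleton.1 hQz).elim x 0
    rw [ModuleCat.isZero_iff_subsingleton]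
    exact ⟨fun a b =>
      (Fermat.Agent.S55.H954.H1_eq_zero_of_normal (CRep S G L) K hK0 hQ0 a).trans
        (Fermat.Agent.S55.H954.H1_eq_zero_of_normal (CRep S G L) K hK0 hQ0 b).symm⟩

end Induction

/-- **G-UP** (`PClassUpperSpec`) from G-CYC and G-DESC. -/
theorem pClassUpper_of (hC : CyclicLayerSpec) (hD : DescentSpec) : PClassUpperSpec := by
  intro p hp hp2 S G L _ _ _ _ _ _ hpS hG hunr hζ
  have hsub : ∀ H : Subgroup G, ∃ n, Nat.card H = p ^ n := fun H =>
    IsPGroup.iff_card.1 (hG.to_subgroup H)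
  have hunrH : ∀ H : Subgroup G, IsUnramOut S H L := fun H w hw g hg x =>
    hunr w hw (g : G) hg x
  have hζH : ∀ H : Subgroup G, HasFixedRootOfUnity p H L := fun H => by
    obtain ⟨ζ, h1, h2⟩ := hζ
    exact ⟨ζ, h1, fun g => h2 (g : G)⟩
  have h1 : ∀ H : Subgroup G,
      Limits.IsZero (groupCohomology (T.resSub (CRep S G L) H) 1) := by
    intro H
    obtain ⟨n, hn⟩ := hsub H
    exact h1_isZero S L hC hD p hp2 hpS n H hn (hunrH H) (hζH H)
  have h2 : ∀ (H : Subgroup G) (K : Subgroup H) [K.Normal], (Nat.card (H ⧸ K)).Prime →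
      T.CardDvd (groupCohomology ((T.resSub (CRep S G L) H).quotientToInvariants K) 2)
        (Nat.card (H ⧸ K)) := by
    intro H K _ hprime
    obtain ⟨n, hn⟩ := hsub H
    have hdvd : Nat.card (H ⧸ K) ∣ p ^ n := by
      rw [← hn, ← Subgroup.index_eq_card]
      exact K.index_dvd_card
    have hqp : Nat.card (H ⧸ K) = p :=
      (Nat.prime_dvd_prime_iff_eq hprime hp.out).1 (hprime.dvd_of_dvd_pow hdvd)
    rw [hqp]
    exact (quot_layer S H L K hC hD p hp2 hpS (hunrH H) (hζH H) hqp).2
  have hugly := T.H954.ugly ℤ G (CRep S G L) h1 h2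
  exact fun H => ⟨h1 H, hugly H⟩

/-- **G-UP** from the two inequalities and descent. -/
theorem pClassUpper_of_inequalities (hFI : FirstInequalitySpec) (hSI : SecondInequalitySpec)
    (hD : DescentSpec) : PClassUpperSpec :=
  pClassUpper_of (cyclicLayer_of hFI hSI) hD

end Fermat.Agent.S55.G.UpH119

end
end
-- ===== PACK-END S55/G/UpH119/Main.lean

-- ===== PACK-BEGIN S55/G/Rec/SCH174/ChangeRep.lean
section



/-!
# S55 / G / REC, leaf SC (helper174) : change of double-coset representative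

`locBr q g U z = 0 → locBr q (u * g * loc τ₀) U z = 0` for `u ∈ U`, `τ₀ ∈ G_{ℚ_q}`:
local triviality of a global Brauer class at a place does not depend on the representative
`g` of the double coset `U g D_q`.
-/

set_option autoImplicit false
set_option linter.style.haveILetI false

noncomputable section

namespace Fermat.Agent.S55.G.Rec.H174

open groupCohomology Fermat.Agent.S55.G.Rec

local notation "Qb" => AlgebraicClosure ℚ
local notation "GQ" => (AlgebraicClosure ℚ ≃ₐ[ℚ] AlgebraicClosure ℚ)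

/-- The homotopy `innerH` of a level cocycle is level-constant. -/
lemma isLevelConstant₁_innerH {U : Subgroup GQ} (hU : IsOpenQ U) (u : ↥U)
    {c : ↥U × ↥U → gModOn U} (hc : IsLevelConstant₂ U.subtype c) :
    IsLevelConstant₁ U.subtype (innerH (gModOn U) u c) := by
  obtain ⟨F, hF, hN, hle, hconst⟩ := H181.exists_normal_level hU hc
  refine ⟨F, hF, fun g s hs => ?_⟩
  have hs' : (s : GQ) ∈ F.fixingSubgroup := hs
  have hone : ((1 : ↥U) : GQ) ∈ F.fixingSubgroup := by
    rw [Subgroup.coe_one]; exact one_mem _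
  have hconj : ((u * s * u⁻¹ : ↥U) : GQ) ∈ F.fixingSubgroup := by
    have := H181.conj_mem_fixingSubgroup F (u : GQ) hs'
    simpa using this
  simp only [innerH_apply]
  have h1 : c (u * (g * s) * u⁻¹, u) = c (u * g * u⁻¹, u) := by
    have := hconst (u * g * u⁻¹) u (u * s * u⁻¹) 1 hconj hone
    rw [mul_one] at this
    rw [← this]
    congr 2
    group
  have h2 : c (u, g * s) = c (u, g) := by
    have := hconst u g 1 s hone hs'
    rwa [mul_one] at this
  rw [h1, h2]

variable (q : ℕ) [Fact q.Prime]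

local notation "Gq" => (PadicAlgCl q ≃ₐ[ℚ_[q]] PadicAlgCl q)

/-- Conjugation `τ ↦ τ₀ τ τ₀⁻¹` from `locSub q (u * g * loc τ₀) U` to `locSub q g U`. -/
def conjSub (g : GQ) (U : Subgroup GQ) (u : ↥U) (τ₀ : Gq) :
    ↥(locSub q ((u : GQ) * g * localGaloisToGlobal q τ₀) U) →* ↥(locSub q g U) where
  toFun τ := ⟨τ₀ * τ * τ₀⁻¹, by
    have hτ := τ.2
    rw [mem_locSub] at hτ ⊢
    have : g * localGaloisToGlobal q (τ₀ * τ * τ₀⁻¹) * g⁻¹ =
        (u : GQ)⁻¹ * ((u : GQ) * g * localGaloisToGlobal q τ₀ * localGaloisToGlobal q τ *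
          ((u : GQ) * g * localGaloisToGlobal q τ₀)⁻¹) * (u : GQ) := by
      simp only [map_mul, map_inv]
      group
    rw [this]
    exact U.mul_mem (U.mul_mem (U.inv_mem u.2) hτ) u.2⟩
  map_one' := by ext1; simp
  map_mul' a b := by ext1; simp [mul_assoc]

@[simp] lemma conjSub_coe (g : GQ) (U : Subgroup GQ) (u : ↥U) (τ₀ : Gq)
    (τ : ↥(locSub q ((u : GQ) * g * localGaloisToGlobal q τ₀) U)) :
    ((conjSub q g U u τ₀ τ : ↥(locSub q g U)) : Gq) = τ₀ * τ * τ₀⁻¹ := rfl

/-- `u * locHom_g (κ τ) * u⁻¹ = locHom_{g'} τ`. -/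
lemma locHom_conjSub (g : GQ) (U : Subgroup GQ) (u : ↥U) (τ₀ : Gq)
    (τ : ↥(locSub q ((u : GQ) * g * localGaloisToGlobal q τ₀) U)) :
    u * locHom q g U (conjSub q g U u τ₀ τ) * u⁻¹ =
      locHom q ((u : GQ) * g * localGaloisToGlobal q τ₀) U τ := by
  apply Subtype.ext
  simp only [Subgroup.coe_mul, Subgroup.coe_inv, locHom_coe, conjSub_coe, map_mul, map_inv]
  group

/-- The coefficient identity: `τ₀⁻¹ • ι_q (g⁻¹ (u⁻¹ m)) = ι_q (g'⁻¹ m)`. -/
lemma locPushMul_change (g : GQ) (u : GQ) (τ₀ : Gq) (m : Qbˣ) :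
    τ₀⁻¹ • locPushMul q g (u⁻¹ • m) = locPushMul q (u * g * localGaloisToGlobal q τ₀) m := by
  apply Units.ext
  show τ₀⁻¹ (padicEmbedding q (g⁻¹ (u⁻¹ (m : Qb)))) =
    padicEmbedding q ((u * g * localGaloisToGlobal q τ₀)⁻¹ (m : Qb))
  rw [← padicEmbedding_localGaloisToGlobal]
  congr 1
  simp only [mul_inv_rev, map_inv, AlgEquiv.mul_apply]

/-- The twisted pull-back of `1`-cochains along `conjSub`. -/
def conjCochain₁ (g : GQ) (U : Subgroup GQ) (u : ↥U) (τ₀ : Gq)
    (B : ↥(locSub q g U) → lModOn q (locSub q g U)) :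
    ↥(locSub q ((u : GQ) * g * localGaloisToGlobal q τ₀) U) →
      lModOn q (locSub q ((u : GQ) * g * localGaloisToGlobal q τ₀) U) :=
  fun τ => (lMod q).ρ τ₀⁻¹ (B (conjSub q g U u τ₀ τ))

lemma isLevelConstant₁_conjCochain₁ (g : GQ) (U : Subgroup GQ) (u : ↥U) (τ₀ : Gq)
    {B : ↥(locSub q g U) → lModOn q (locSub q g U)}
    (hB : IsLevelConstant₁ (lHom q (locSub q g U)) B) :
    IsLevelConstant₁ (lHom q (locSub q ((u : GQ) * g * localGaloisToGlobal q τ₀) U))
      (conjCochain₁ q g U u τ₀ B) := by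
  obtain ⟨F, hF, h⟩ := hB
  haveI := hF
  haveI : Algebra.IsAlgebraic ℚ Qb := AlgebraicClosure.isAlgebraic ℚ
  haveI : IsAlgClosure ℚ Qb := ⟨inferInstance, inferInstance⟩
  haveI : Normal ℚ Qb := IsAlgClosure.normal ℚ Qb
  have hle : F ≤ IntermediateField.normalClosure ℚ ↥F Qb :=
    IntermediateField.le_normalClosure _
  haveI : Normal ℚ (IntermediateField.normalClosure ℚ ↥F Qb) := normalClosure.normal ℚ _ Qb
  refine ⟨IntermediateField.normalClosure ℚ ↥F Qb,
    normalClosure.is_finiteDimensional ℚ _ Qb, fun τ σ hσ => ?_⟩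
  have hσ' : localGaloisToGlobal q (σ : Gq) ∈
      (IntermediateField.normalClosure ℚ ↥F Qb).fixingSubgroup := hσ
  have hconj := H181.conj_mem_fixingSubgroup _ (localGaloisToGlobal q τ₀) hσ'
  have hmem : lHom q (locSub q g U) (conjSub q g U u τ₀ σ) ∈ F.fixingSubgroup := by
    apply IntermediateField.fixingSubgroup_antitone hle
    show localGaloisToGlobal q (τ₀ * σ * τ₀⁻¹) ∈ _
    simpa only [map_mul, map_inv] using hconj
  simp only [conjCochain₁, map_mul]
  rw [h _ _ hmem]

/-- **Change of representative, cochain level.** -/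
theorem locCochain₂_change {U : Subgroup GQ} (hU : IsOpenQ U) (g : GQ) (u : ↥U) (τ₀ : Gq)
    {c : ↥U × ↥U → gModOn U} (hc : c ∈ levelCocycles₂ U.subtype (gModOn U))
    (h : locCochain₂ q g U c ∈
      levelCoboundaries₂ (lHom q (locSub q g U)) (lModOn q (locSub q g U))) :
    locCochain₂ q ((u : GQ) * g * localGaloisToGlobal q τ₀) U c ∈
      levelCoboundaries₂ (lHom q (locSub q ((u : GQ) * g * localGaloisToGlobal q τ₀) U))
        (lModOn q (locSub q ((u : GQ) * g * localGaloisToGlobal q τ₀) U)) := by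
  obtain ⟨b, hb, hdb⟩ := (mem_levelCoboundaries₂_iff _ _ _).1 h
  set hh : ↥U → gModOn U := innerH (gModOn U) u c with hhdef
  have hhlc : IsLevelConstant₁ U.subtype hh := isLevelConstant₁_innerH hU u hc.2
  set B : ↥(locSub q g U) → lModOn q (locSub q g U) := b + locCochain₁ q g U hh with hBdef
  have hBlc : IsLevelConstant₁ (lHom q (locSub q g U)) B :=
    hb.add ((isLevelConstant₁_loc q g U hhlc).comp (locPush q g U) :)
  have hdB : (d₁₂ (lModOn q (locSub q g U))).hom B =
      locCochain₂ q g U (c + (d₁₂ (gModOn U)).hom hh) := by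
    rw [hBdef, map_add, hdb, map_add]
    congr 1
    exact (cochainsPullPush₂_d₁₂ (locHom q g U) (locPush q g U)
      (locPush_equivariant q g U) hh).symm
  refine (mem_levelCoboundaries₂_iff _ _ _).2
    ⟨conjCochain₁ q g U u τ₀ B, isLevelConstant₁_conjCochain₁ q g U u τ₀ hBlc, ?_⟩
  funext ⟨τ₁, τ₂⟩
  have key := congrFun hdB (conjSub q g U u τ₀ τ₁, conjSub q g U u τ₀ τ₂)
  rw [d₁₂_hom_apply] at key ⊢
  simp only at key ⊢
  have hρ : ∀ x : lModOn q (locSub q g U),
      (lModOn q (locSub q ((u : GQ) * g * localGaloisToGlobal q τ₀) U)).ρ τ₁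
        ((lMod q).ρ τ₀⁻¹ x) =
      (lMod q).ρ τ₀⁻¹ ((lModOn q (locSub q g U)).ρ (conjSub q g U u τ₀ τ₁) x) := by
    intro x
    show Additive.ofMul ((τ₁ : Gq) • (τ₀⁻¹ • (Additive.toMul x : (PadicAlgCl q)ˣ))) =
      Additive.ofMul (τ₀⁻¹ • ((τ₀ * (τ₁ : Gq) * τ₀⁻¹) • (Additive.toMul x : (PadicAlgCl q)ˣ)))
    rw [← mul_smul, ← mul_smul]
    congr 2
    group
  have hconj := conj_cocycle_eq (gModOn U) u hc.1
    (locHom q g U (conjSub q g U u τ₀ τ₁)) (locHom q g U (conjSub q g U u τ₀ τ₂))
  rw [locHom_conjSub, locHom_conjSub] at hconj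
  simp only [conjCochain₁, map_mul]
  rw [hρ, ← map_sub, ← map_add, key]
  show (lMod q).ρ τ₀⁻¹ (locPush q g U ((c + (d₁₂ (gModOn U)).hom hh)
      (locHom q g U (conjSub q g U u τ₀ τ₁), locHom q g U (conjSub q g U u τ₀ τ₂)))) =
    locPush q ((u : GQ) * g * localGaloisToGlobal q τ₀) U
      (c (locHom q ((u : GQ) * g * localGaloisToGlobal q τ₀) U τ₁,
        locHom q ((u : GQ) * g * localGaloisToGlobal q τ₀) U τ₂))
  rw [Pi.add_apply, ← hconj]
  exact congrArg Additive.ofMul (locPushMul_change q g u τ₀ (Additive.toMul _))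

/-- **Change of representative**: local triviality at the place of `g` implies local triviality
at the place of `u * g * loc τ₀`. -/
theorem locBr_change {U : Subgroup GQ} (hU : IsOpenQ U) (g : GQ) (u : ↥U) (τ₀ : Gq) (z : gBr U)
    (hz : locBr q g U z = 0) :
    locBr q ((u : GQ) * g * localGaloisToGlobal q τ₀) U z = 0 := by
  obtain ⟨c, rfl⟩ := Submodule.mkQ_surjective _ z
  change locBr q g U (continuousH2π U.subtype (gModOn U) c) = 0 at hz
  change locBr q _ U (continuousH2π U.subtype (gModOn U) c) = 0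
  rw [locBr_mk, continuousH2π_eq_zero_iff] at hz ⊢
  exact locCochain₂_change q hU g u τ₀ c.2 hz

/-- Local triviality only depends on the double coset `U g D_q`. -/
theorem locBr_eq_zero_of_doubleCoset {U : Subgroup GQ} (hU : IsOpenQ U) {g g' : GQ}
    (h : ∃ u ∈ U, ∃ d ∈ (localGaloisToGlobal q).range, g' = u * g * d) (z : gBr U)
    (hz : locBr q g U z = 0) : locBr q g' U z = 0 := by
  obtain ⟨u, hu, d, ⟨τ₀, rfl⟩, rfl⟩ := h
  exact locBr_change q hU g ⟨u, hu⟩ τ₀ z hz

end Fermat.Agent.S55.G.Rec.H174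

end
end
-- ===== PACK-END S55/G/Rec/SCH174/ChangeRep.lean

-- ===== PACK-BEGIN S53/Abstract2.lean
section


set_option autoImplicit false
set_option linter.unusedSectionVars false
set_option linter.unusedVariables false
set_option linter.style.haveILetI false

namespace Fermat.Agent.S53

open IsLocalRing GaloisRep CA

section

variable {𝒪 : Type} [CommRing 𝒪] [IsDomain 𝒪] [IsDiscreteValuationRing 𝒪]
  [IsAdicComplete (IsLocalRing.maximalIdeal 𝒪) 𝒪] [Finite (IsLocalRing.ResidueField 𝒪)]
variable {ι : Type}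

/-- **Lemma B.** Over a test algebra, a point is determined by its chosen coordinates. -/
theorem eq_of_coord_eq {c : ι → 𝒪} {L : PointFamily 𝒪 ι} (hL : IsRigidFamily 𝒪 ι c L)
    {d : ℕ} {idx : Fin d → ι} (hsep : Sep c L idx)
    {A : Type} [CommRing A] [IsLocalRing A] [Algebra 𝒪 A] (hA : IsArtinianTestAlgebra 𝒪 A)
    {x y : ι → A} (hx : L x) (hy : L y)
    (h : ∀ l, coord c idx x l = coord c idx y l) : x = y := by
  classical
  let P := fibreSq 𝒪 A
  haveI : IsLocalRing P := fibreSq_isLocalRing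
  have hP : IsArtinianTestAlgebra 𝒪 P := test_fibreSq hA
  have hxy : ∀ i, x i - y i ∈ maximalIdeal A := fun i => by
    have := (maximalIdeal A).sub_mem (hL.res hA hx i) (hL.res hA hy i)
    simpa using this
  let z : ι → P := fun i => ⟨(x i, y i), hxy i⟩
  let pA : P →ₐ[𝒪] A := (AlgHom.fst 𝒪 A A).comp P.val
  let pB : P →ₐ[𝒪] A := (AlgHom.snd 𝒪 A A).comp P.val
  have hmtop : maximalIdeal A ≠ ⊤ := Ideal.IsMaximal.ne_top inferInstance
  haveI : IsLocalRing (A ⧸ maximalIdeal A) := isLocalRing_quot hmtop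
  have hC : IsArtinianTestAlgebra 𝒪 (A ⧸ maximalIdeal A) := test_quotient hA _
  let f : A →ₐ[𝒪] A ⧸ maximalIdeal A := Ideal.Quotient.mkₐ 𝒪 _
  have hz : L z := by
    refine hL.fibre hA hA hC hP f f pA pB (test_isLocalHom hP _) (test_isLocalHom hP _)
      ?_ ?_ ?_ ?_ ?_
    · ext p
      exact Ideal.Quotient.eq.mpr p.2
    · intro p q hpq
      have h1 : (p : A × A).1 = (q : A × A).1 := congrArg Prod.fst hpq
      have h2 : (p : A × A).2 = (q : A × A).2 := congrArg Prod.snd hpq
      exact Subtype.ext (Prod.ext h1 h2)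
    · intro a b hab
      exact ⟨⟨(a, b), Ideal.Quotient.eq.mp hab⟩, rfl, rfl⟩
    · exact hx
    · exact hy
  haveI := test_isAdicComplete hP
  haveI := test_isAdicComplete hA
  obtain ⟨φP, hφPloc, hφPX⟩ :=
    exists_evalS hP.isLocalHom (coord c idx z) (fun l => hL.res hP hz (idx l))
  have hpAz : ∀ l, pA (coord c idx z l) = coord c idx x l := fun l => by
    rw [← coord_map]; rfl
  have hpBz : ∀ l, pB (coord c idx z l) = coord c idx y l := fun l => by
    rw [← coord_map]; rfl
  have hcomp : pA.comp φP = pB.comp φP := by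
    refine evalS_ext _ _ ?_ ?_
    · intro l
      show pA (φP (MvPowerSeries.X l)) ∈ maximalIdeal A
      rw [hφPX]
      exact (hpAz l) ▸ hL.res hA hx (idx l)
    · intro l
      show pA (φP (MvPowerSeries.X l)) = pB (φP (MvPowerSeries.X l))
      rw [hφPX]
      exact (hpAz l).trans ((h l).trans (hpBz l).symm)
  funext i
  obtain ⟨s, hs⟩ := exists_eq_of_coord hL hsep hP hz φP hφPX i
  have h1 : pA (φP s) = pB (φP s) := congrArg (fun ψ => ψ s) hcomp
  rw [hs] at h1
  exact h1

end

end Fermat.Agent.S53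

end
-- ===== PACK-END S53/Abstract2.lean

-- ===== PACK-BEGIN S59/Patch/H967/Level.lean
section




/-!
# Coordinates of a patching level (helper967, row S59, piece PATCH)

From a patching level we extract, relative to a fixed `𝒪`-basis `μ` of `M`, the matrices of the
action of the power series ring on the level module, together with their (approximate)
algebraic properties and a uniform continuity estimate.
-/

set_option autoImplicit false

namespace Fermat.Agent.S59.Patch.H967

open MvPowerSeries IsLocalRing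

section OBasis

variable (𝒪 : Type) [CommRing 𝒪] (R : Type) [CommRing R] [Algebra 𝒪 R]
  {M : Type} [AddCommGroup M] [Module R M]

/-- `μ` is a basis of `M` over `𝒪` (acting through `R`). -/
structure IsOBasis {d : ℕ} (μ : Fin d → M) : Prop where
  span : ∀ m : M, ∃ a : Fin d → 𝒪, m = ∑ i, algebraMap 𝒪 R (a i) • μ i
  indep : ∀ a : Fin d → 𝒪, ∑ i, algebraMap 𝒪 R (a i) • μ i = 0 → ∀ i, a i = 0

variable {𝒪 R}

theorem IsOBasis.mul_eq_one {d d' : ℕ} {μ : Fin d → M} {m : Fin d' → M}
    (hμ : IsOBasis 𝒪 R μ) (g : Matrix (Fin d) (Fin d') 𝒪) (h : Matrix (Fin d') (Fin d) 𝒪)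
    (hg : ∀ i, μ i = ∑ j, algebraMap 𝒪 R (g i j) • m j)
    (hh : ∀ j, m j = ∑ i, algebraMap 𝒪 R (h j i) • μ i) : g * h = 1 := by
  classical
  ext i i'
  have h1 : ∑ l, algebraMap 𝒪 R ((g * h) i l) • μ l = μ i := by
    conv_rhs => rw [hg i]
    simp only [Matrix.mul_apply, map_sum, map_mul, Finset.sum_smul, mul_smul]
    rw [Finset.sum_comm]
    refine Finset.sum_congr rfl fun j _ => ?_
    conv_rhs => rw [hh j, Finset.smul_sum]
  have h2 : ∑ l, algebraMap 𝒪 R ((1 : Matrix (Fin d) (Fin d) 𝒪) i l) • μ l = μ i := by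
    rw [Finset.sum_eq_single i]
    · simp
    · intro l _ hl
      rw [Matrix.one_apply_ne (Ne.symm hl), map_zero, zero_smul]
    · intro hi
      exact absurd (Finset.mem_univ i) hi
  have h3 := hμ.indep (fun l => (g * h) i l - (1 : Matrix (Fin d) (Fin d) 𝒪) i l) (by
    simp only [map_sub, sub_smul, Finset.sum_sub_distrib]
    rw [h1, h2, sub_self]) i'
  exact sub_eq_zero.mp h3

theorem IsOBasis.exists_transition {d d' : ℕ} {μ : Fin d → M} {m : Fin d' → M}
    (hμ : IsOBasis 𝒪 R μ) (hm : IsOBasis 𝒪 R m) :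
    ∃ (g : Matrix (Fin d) (Fin d') 𝒪) (h : Matrix (Fin d') (Fin d) 𝒪), g * h = 1 ∧ h * g = 1 ∧
      ∀ i, μ i = ∑ j, algebraMap 𝒪 R (g i j) • m j := by
  have h1 : ∀ i, ∃ a : Fin d' → 𝒪, μ i = ∑ j, algebraMap 𝒪 R (a j) • m j := fun i => hm.span _
  have h2 : ∀ j, ∃ a : Fin d → 𝒪, m j = ∑ i, algebraMap 𝒪 R (a i) • μ i := fun j => hμ.span _
  choose g hg using h1
  choose h hh using h2
  exact ⟨Matrix.of g, Matrix.of h, hμ.mul_eq_one _ _ hg hh, hm.mul_eq_one _ _ hh hg, hg⟩

end OBasis

section Level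

variable {𝒪 : Type} [CommRing 𝒪] {r : ℕ} {R : Type} [CommRing R] [Algebra 𝒪 R]
  {M : Type} [AddCommGroup M] [Module R M] {J : Ideal (MvPowerSeries (Fin r) 𝒪)}

theorem level_isFrame (L : Algebra.PatchingLevel 𝒪 r R M J) : IsFrame L.φ L.b J :=
  ⟨L.b_span, L.b_rel⟩

theorem level_psi_phi (L : Algebra.PatchingLevel 𝒪 r R M J) (c : MvPowerSeries (Fin r) 𝒪) :
    L.ψ (L.φ c) = algebraMap 𝒪 R (constantCoeff c) := by
  have h1 : varIdeal 𝒪 r ≤ RingHom.ker
      ((L.ψ : MvPowerSeries (Fin r) 𝒪 →+* R).comp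
        (L.φ : MvPowerSeries (Fin r) 𝒪 →+* MvPowerSeries (Fin r) 𝒪)) := by
    rw [varIdeal, Ideal.span_le]
    rintro _ ⟨i, rfl⟩
    simp [RingHom.mem_ker, L.ψ_φ_X i]
  have h2 := h1 (sub_C_constantCoeff_mem_varIdeal c)
  rw [RingHom.mem_ker, map_sub, sub_eq_zero] at h2
  have h3 : (C (constantCoeff c) : MvPowerSeries (Fin r) 𝒪) =
      algebraMap 𝒪 (MvPowerSeries (Fin r) 𝒪) (constantCoeff c) := rfl
  simp only [RingHom.comp_apply, RingHom.coe_coe] at h2
  rw [h2, h3, AlgHom.commutes, AlgHom.commutes]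

theorem level_pi_comb (L : Algebra.PatchingLevel 𝒪 r R M J) {d' : ℕ} (b' : Fin d' → L.N)
    (c : Fin d' → MvPowerSeries (Fin r) 𝒪) :
    L.π (comb L.φ b' c) = ∑ i, algebraMap 𝒪 R (constantCoeff (c i)) • L.π (b' i) := by
  rw [comb, map_sum]
  refine Finset.sum_congr rfl fun i _ => ?_
  rw [L.π_smul, level_psi_phi]

theorem level_span_eq (L : Algebra.PatchingLevel 𝒪 r R M J) :
    Ideal.span (Set.range fun i : Fin r => L.φ (X i)) =
      Ideal.map (L.φ : MvPowerSeries (Fin r) 𝒪 →+* MvPowerSeries (Fin r) 𝒪) (varIdeal 𝒪 r) := by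
  rw [varIdeal, Ideal.map_span, ← Set.range_comp]
  rfl

theorem level_isOBasis (L : Algebra.PatchingLevel 𝒪 r R M J) (hJ : J ≤ varIdeal 𝒪 r) :
    IsOBasis 𝒪 R (fun i => L.π (L.b i)) where
  span m := by
    obtain ⟨x, rfl⟩ := L.π_surjective m
    obtain ⟨c, hc⟩ := (level_isFrame L).span x
    exact ⟨fun i => constantCoeff (c i), by rw [hc, level_pi_comb]⟩
  indep a ha i := by
    have h1 : L.π (comb L.φ L.b (fun i => C (a i))) = 0 := by
      rw [level_pi_comb, ← ha]
      refine Finset.sum_congr rfl fun i _ => ?_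
      simp
    rw [L.ker_π, level_span_eq] at h1
    obtain ⟨c, hcI, hc⟩ := (level_isFrame L).exists_coords_of_mem_smul_top _ h1
    have h2 := hJ ((level_isFrame L).sub_mem hc i)
    have h3 := constantCoeff_eq_zero_of_mem_varIdeal h2
    have h4 := constantCoeff_eq_zero_of_mem_varIdeal (hcI i)
    rw [map_sub, h4, sub_zero] at h3
    simpa using h3

end Level

end Fermat.Agent.S59.Patch.H967

end
-- ===== PACK-END S59/Patch/H967/Level.lean

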