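import Mathlib
import Fermat.Agent.Pack.S43GC.G0E8L2
import Fermat.Agent.Pack.S43GC.G0E4L1
import Fermat.Agent.Pack.S43GC.G0E0L3
import Fermat.Agent.Pack.S43GC.G0E3L0
import Fermat.Agent.Pack.S43GC.G0E7L2
import Fermat.Agent.Pack.S43GC.G0E7L3
import Fermat.Agent.Pack.S43GC.G0E8L3
import Fermat.Agent.Pack.S43GC.G0E9L2
import Fermat.Agent.Pack.S43GC.G0E5L2
import Fermat.Agent.Pack.S44C.G0E12L3
import Fermat.Agent.Pack.S44C.G0E14L2
import Fermat.Agent.Pack.S43GC.G0E9L0
import Fermat.Agent.Pack.S43GC.G0E2L0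
import Fermat.Agent.Pack.S43GC.G0E3L1
import Fermat.Agent.Pack.S44C.G0E6L0
import Fermat.Agent.Pack.S44C.G0E0L3
import Fermat.Agent.Pack.S43GC.G0E4L3
import Fermat.Agent.Pack.S43GC.G0E4L2
import Fermat.Agent.Pack.S43GC.G0E7L1
import Fermat.Agent.Pack.Fast891

-- ===== PACK-BEGIN S55/G/Rec/CupAddH496.lean
section



/-!
# S55 / layer G / block REC, leaf K2 (helper496): additivity of cup classes
-/

set_option autoImplicit false

noncomputable section

namespace Fermat.Agent.S55.G.Rec.H496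

open groupCohomology Fermat.Agent.S55.G.Rec

local notation "Qb" => AlgebraicClosure ℚ
local notation "GQ" => (AlgebraicClosure ℚ ≃ₐ[ℚ] AlgebraicClosure ℚ)

section General

variable {k G : Type} [CommRing k] [Group G] (r : G →* GQ) (A : Rep.{0} k G) {n : ℕ} [NeZero n]

/-- Product of level-constant characters is level-constant. -/
theorem isLevelConstant₁_mul_char {r : G →* GQ} {n : ℕ} {χ χ' : G →* Multiplicative (ZMod n)}
    (hχ : IsLevelConstant₁ r χ) (hχ' : IsLevelConstant₁ r χ') :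
    IsLevelConstant₁ r (χ * χ' : G →* Multiplicative (ZMod n)) := by
  obtain ⟨F, hF, h⟩ := hχ
  obtain ⟨F', hF', h'⟩ := hχ'
  haveI := hF; haveI := hF'
  refine ⟨F ⊔ F', inferInstance, fun g s hs => ?_⟩
  rw [MonoidHom.mul_apply, MonoidHom.mul_apply]
  rw [h g s (IntermediateField.fixingSubgroup_antitone le_sup_left hs),
    h' g s (IntermediateField.fixingSubgroup_antitone le_sup_right hs)]

omit [NeZero n] in
/-- The correcting 1-cochain is level-constant. -/
theorem isLevelConstant₁_carryChar {r : G →* GQ} {χ χ' : G →* Multiplicative (ZMod n)}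
    (hχ : IsLevelConstant₁ r χ) (hχ' : IsLevelConstant₁ r χ') (a : A.V) :
    IsLevelConstant₁ r (fun g => carryChar χ χ' g • a) := by
  obtain ⟨F, hF, h⟩ := hχ
  obtain ⟨F', hF', h'⟩ := hχ'
  haveI := hF; haveI := hF'
  refine ⟨F ⊔ F', inferInstance, fun g s hs => ?_⟩
  simp only [carryChar, lift]
  rw [h g s (IntermediateField.fixingSubgroup_antitone le_sup_left hs),
    h' g s (IntermediateField.fixingSubgroup_antitone le_sup_right hs)]

omit [NeZero n] in
/-- Additivity in the element, at the level of classes. -/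
theorem class_add_elt (χ : G → ZMod n) (a b : A.V)
    (hab : H379.cupChar n χ (a + b) ∈ levelCocycles₂ r A)
    (ha : H379.cupChar n χ a ∈ levelCocycles₂ r A)
    (hb : H379.cupChar n χ b ∈ levelCocycles₂ r A) :
    continuousH2π r A ⟨_, hab⟩ = continuousH2π r A ⟨_, ha⟩ + continuousH2π r A ⟨_, hb⟩ := by
  rw [← map_add]
  congr 1
  exact Subtype.ext (H379.cupChar_add n χ a b)

/-- Additivity in the character, at the level of classes. -/
theorem class_add_char (χ χ' : G →* Multiplicative (ZMod n))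
    (hχ : IsLevelConstant₁ r χ) (hχ' : IsLevelConstant₁ r χ') (a : A.V)
    (hinv : ∀ g : G, A.ρ g a = a)
    (h12 : H379.cupChar n (chiAdd (χ * χ')) a ∈ levelCocycles₂ r A)
    (h1 : H379.cupChar n (chiAdd χ) a ∈ levelCocycles₂ r A)
    (h2 : H379.cupChar n (chiAdd χ') a ∈ levelCocycles₂ r A) :
    continuousH2π r A ⟨_, h12⟩ = continuousH2π r A ⟨_, h1⟩ + continuousH2π r A ⟨_, h2⟩ := by
  rw [← map_add, eq_comm, ← sub_eq_zero, ← map_sub, continuousH2π_eq_zero_iff,
    mem_levelCoboundaries₂_iff]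
  refine ⟨fun g => carryChar χ χ' g • a, isLevelConstant₁_carryChar A hχ hχ' a, ?_⟩
  exact (cupChar_mul_eq A χ χ' ⟨a, hinv⟩).symm

end General

theorem gcc_mul_elt (U : Subgroup GQ) (n : ℕ) (χ : ↥U →* Multiplicative (ZMod n)) (a b : Qbˣ)
    (hn : n ≠ 0) (hχ : IsLevelConstant₁ U.subtype χ) (ha : GFixed U a) (hb : GFixed U b) :
    gcc U n χ (a * b) = gcc U n χ a + gcc U n χ b := by
  haveI : NeZero n := ⟨hn⟩
  have hab : GFixed U (a * b) := fun u hu => by rw [smul_mul', ha u hu, hb u hu]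
  have key1 := class_add_elt (k := ℤ) U.subtype (gModOn U) (chiAdd χ) (toGMod U a)
    (toGMod U b) (gcupChar_mem U n χ (a * b) ⟨hn, hχ, hab⟩)
    (gcupChar_mem U n χ a ⟨hn, hχ, ha⟩) (gcupChar_mem U n χ b ⟨hn, hχ, hb⟩)
  rw [gcc_eq U n χ (a * b) ⟨hn, hχ, hab⟩, gcc_eq U n χ a ⟨hn, hχ, ha⟩,
    gcc_eq U n χ b ⟨hn, hχ, hb⟩]
  exact key1

theorem gcc_mul_char (U : Subgroup GQ) (n : ℕ) (χ χ' : ↥U →* Multiplicative (ZMod n)) (a : Qbˣ)
    (hn : n ≠ 0) (hχ : IsLevelConstant₁ U.subtype χ) (hχ' : IsLevelConstant₁ U.subtype χ')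
    (ha : GFixed U a) :
    gcc U n (χ * χ') a = gcc U n χ a + gcc U n χ' a := by
  haveI : NeZero n := ⟨hn⟩
  have hχχ' : IsLevelConstant₁ U.subtype (χ * χ' : ↥U →* Multiplicative (ZMod n)) :=
    isLevelConstant₁_mul_char hχ hχ'
  have hinv : ∀ u : ↥U, (gModOn U).ρ u (toGMod U a) = toGMod U a :=
    fun u => toGMod_mem_invariants ha u
  have key2 := class_add_char (k := ℤ) U.subtype (gModOn U) χ χ' hχ hχ' (toGMod U a) hinv
    (gcupChar_mem U n (χ * χ') a ⟨hn, hχχ', ha⟩)
    (gcupChar_mem U n χ a ⟨hn, hχ, ha⟩) (gcupChar_mem U n χ' a ⟨hn, hχ', ha⟩)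
  rw [gcc_eq U n (χ * χ') a ⟨hn, hχχ', ha⟩, gcc_eq U n χ a ⟨hn, hχ, ha⟩,
    gcc_eq U n χ' a ⟨hn, hχ', ha⟩]
  exact key2

theorem lcc_mul_elt (q : ℕ) [Fact q.Prime] (V : Subgroup (PadicAlgCl q ≃ₐ[ℚ_[q]] PadicAlgCl q))
    (n : ℕ) (χ : ↥V →* Multiplicative (ZMod n)) (a b : (PadicAlgCl q)ˣ)
    (hn : n ≠ 0) (hχ : IsLevelConstant₁ (lHom q V) χ) (ha : LFixed q V a) (hb : LFixed q V b) :
    lcc q V n χ (a * b) = lcc q V n χ a + lcc q V n χ b := by
  haveI : NeZero n := ⟨hn⟩
  have hab : LFixed q V (a * b) := fun u hu => by rw [smul_mul', ha u hu, hb u hu]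
  have key1 := class_add_elt (k := ℤ) (lHom q V) (lModOn q V) (chiAdd χ) (toLMod q V a)
    (toLMod q V b) (lcupChar_mem q V n χ (a * b) ⟨hn, hχ, hab⟩)
    (lcupChar_mem q V n χ a ⟨hn, hχ, ha⟩) (lcupChar_mem q V n χ b ⟨hn, hχ, hb⟩)
  rw [lcc_eq q V n χ (a * b) ⟨hn, hχ, hab⟩, lcc_eq q V n χ a ⟨hn, hχ, ha⟩,
    lcc_eq q V n χ b ⟨hn, hχ, hb⟩]
  exact key1

theorem lcc_mul_char (q : ℕ) [Fact q.Prime] (V : Subgroup (PadicAlgCl q ≃ₐ[ℚ_[q]] PadicAlgCl q))
    (n : ℕ) (χ χ' : ↥V →* Multiplicative (ZMod n)) (a : (PadicAlgCl q)ˣ)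
    (hn : n ≠ 0) (hχ : IsLevelConstant₁ (lHom q V) χ) (hχ' : IsLevelConstant₁ (lHom q V) χ')
    (ha : LFixed q V a) :
    lcc q V n (χ * χ') a = lcc q V n χ a + lcc q V n χ' a := by
  haveI : NeZero n := ⟨hn⟩
  have hχχ' : IsLevelConstant₁ (lHom q V) (χ * χ' : ↥V →* Multiplicative (ZMod n)) :=
    isLevelConstant₁_mul_char hχ hχ'
  have hinv : ∀ τ : ↥V, (lModOn q V).ρ τ (toLMod q V a) = toLMod q V a :=
    fun τ => toLMod_mem_invariants ha τ
  have key2 := class_add_char (k := ℤ) (lHom q V) (lModOn q V) χ χ' hχ hχ' (toLMod q V a) hinv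
    (lcupChar_mem q V n (χ * χ') a ⟨hn, hχχ', ha⟩)
    (lcupChar_mem q V n χ a ⟨hn, hχ, ha⟩) (lcupChar_mem q V n χ' a ⟨hn, hχ', ha⟩)
  rw [lcc_eq q V n (χ * χ') a ⟨hn, hχχ', ha⟩, lcc_eq q V n χ a ⟨hn, hχ, ha⟩,
    lcc_eq q V n χ' a ⟨hn, hχ', ha⟩]
  exact key2

/-- **(K2)** additivity of cup classes in the element and in the character. -/
theorem cupAdd : CupAddSpec :=
  ⟨fun U n χ χ' a b hn hχ hχ' ha hb =>
      ⟨gcc_mul_elt U n χ a b hn hχ ha hb, gcc_mul_char U n χ χ' a hn hχ hχ' ha⟩,
    fun q _ V n χ χ' a b hn hχ hχ' ha hb =>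
      ⟨lcc_mul_elt q V n χ a b hn hχ ha hb, lcc_mul_char q V n χ χ' a hn hχ hχ' ha⟩⟩

end Fermat.Agent.S55.G.Rec.H496

end
end
-- ===== PACK-END S55/G/Rec/CupAddH496.lean

-- ===== PACK-BEGIN S55/G/Rec/VdegH707.lean
section


/-!
# S55 / layer G / block REC : leaf (L1) `VdegSpec`  (helper707)

`‖a‖ ^ [G_{ℚ_q} : V] = q ^ (- vdeg q V a)` for every `a` fixed by `V`
(the openness hypothesis is not needed: for infinite index both sides are `1`).

Proof: the norm `N = ∏_{t ∈ G/V} t a` is fixed by `G_{ℚ_q}`, hence lies in `ℚ_q`; its absolute value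
is `‖a‖ ^ [G : V]` (Galois invariance of the norm) and an integral power of `q`.
-/

set_option autoImplicit false
set_option linter.style.haveILetI false

noncomputable section

namespace Fermat.Agent.S55.G.Rec.VdegH707

open Fermat.Agent.S55.G.Rec

variable (q : ℕ) [Fact q.Prime]

local notation "Gq" => (PadicAlgCl q ≃ₐ[ℚ_[q]] PadicAlgCl q)

/-- the norm is Galois invariant -/
lemma norm_algEquiv (τ : Gq) (y : PadicAlgCl q) : ‖τ y‖ = ‖y‖ :=
  (spectralNorm_eq_of_equiv τ y).symm

/-- an element fixed by the whole Galois group is rational -/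
lemma mem_range_of_fixed (x : PadicAlgCl q) (hx : ∀ τ : Gq, τ x = x) :
    ∃ y : ℚ_[q], algebraMap ℚ_[q] (PadicAlgCl q) y = x := by
  haveI : IsAlgClosure ℚ_[q] (PadicAlgCl q) := ⟨inferInstance, inferInstance⟩
  haveI : Normal ℚ_[q] (PadicAlgCl q) := IsAlgClosure.normal ℚ_[q] (PadicAlgCl q)
  haveI : IsGalois ℚ_[q] (PadicAlgCl q) := isGalois_iff.mpr ⟨inferInstance, inferInstance⟩
  have hfix : x ∈ IntermediateField.fixedField (⊤ : Subgroup Gq) := by
    rintro ⟨τ, -⟩
    exact hx τ
  rw [InfiniteGalois.fixedField_bot, IntermediateField.mem_bot] at hfix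
  exact hfix

/-- the value of `τ a` only depends on the coset `τ V` -/
lemma apply_eq_of_coset (V : Subgroup Gq) (a : PadicAlgCl q) (ha : ∀ τ ∈ V, τ a = a)
    (σ τ : Gq) (h : (σ : Gq ⧸ V) = (τ : Gq ⧸ V)) : σ a = τ a := by
  have h1 : σ⁻¹ * τ ∈ V := QuotientGroup.eq.mp h
  have h2 := ha _ h1
  have h3 : (σ⁻¹ * τ) a = σ⁻¹ (τ a) := rfl
  rw [h3] at h2
  have h4 := congrArg σ h2
  have h5 : σ (σ⁻¹ (τ a)) = τ a := AlgEquiv.apply_symm_apply σ (τ a)
  rw [h5] at h4
  exact h4.symm

/-- the key fact: `‖a‖ ^ [G : V]` is an integral power of `q` -/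
theorem exists_zpow (V : Subgroup Gq) (a : (PadicAlgCl q)ˣ) (ha : LFixed q V a) :
    ∃ k : ℤ, ‖(a : PadicAlgCl q)‖ ^ V.index = (q : ℝ) ^ k := by
  by_cases hidx : V.index = 0
  · exact ⟨0, by rw [hidx, pow_zero, zpow_zero]⟩
  haveI : V.FiniteIndex := ⟨hidx⟩
  letI : Fintype (Gq ⧸ V) := Subgroup.fintypeQuotientOfFiniteIndex
  have ha' : ∀ τ ∈ V, τ (a : PadicAlgCl q) = a := by
    intro τ hτ
    have := congrArg (fun u : (PadicAlgCl q)ˣ => (u : PadicAlgCl q)) (ha τ hτ)
    exact this
  -- the norm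
  set N : PadicAlgCl q := ∏ t : Gq ⧸ V, (Quotient.out t : Gq) (a : PadicAlgCl q) with hN
  have hfix : ∀ σ : Gq, σ N = N := by
    intro σ
    rw [hN, map_prod]
    have hperm : ∀ t : Gq ⧸ V,
        σ ((Quotient.out t : Gq) (a : PadicAlgCl q)) =
          (Quotient.out (σ • t) : Gq) (a : PadicAlgCl q) := by
      intro t
      have h1 : σ ((Quotient.out t : Gq) (a : PadicAlgCl q)) =
          (σ * Quotient.out t) (a : PadicAlgCl q) := rfl
      rw [h1]
      apply apply_eq_of_coset q V _ ha'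
      have h2 : ((Quotient.out (σ • t) : Gq) : Gq ⧸ V) = σ • t := Quotient.out_eq' _
      have h3 : ((σ * Quotient.out t : Gq) : Gq ⧸ V) = σ • ((Quotient.out t : Gq) : Gq ⧸ V) :=
        rfl
      rw [h2, h3]
      congr 1
      exact Quotient.out_eq' t
    rw [Finset.prod_congr rfl (fun t _ => hperm t)]
    exact Fintype.prod_equiv (MulAction.toPerm σ) _ _ (fun t => rfl)
  obtain ⟨y, hy⟩ := mem_range_of_fixed q N hfix
  have hnorm : ‖N‖ = ‖(a : PadicAlgCl q)‖ ^ V.index := by
    rw [hN, norm_prod]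
    simp only [norm_algEquiv]
    rw [Finset.prod_const, Finset.card_univ, Subgroup.index_eq_card, Nat.card_eq_fintype_card]
  have hNne : N ≠ 0 := by
    rw [hN]
    refine Finset.prod_ne_zero_iff.mpr fun t _ => ?_
    rw [ne_eq, EmbeddingLike.map_eq_zero_iff]
    exact a.ne_zero
  have hyne : y ≠ 0 := by
    rintro rfl
    rw [map_zero] at hy
    exact hNne hy.symm
  refine ⟨-y.valuation, ?_⟩
  rw [← hnorm, ← hy, PadicAlgCl.norm_extends, Padic.norm_eq_zpow_neg_valuation hyne]

/-- **Leaf (L1)**. -/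
theorem vdegSpec : VdegSpec := by
  intro q _ V _ a ha
  obtain ⟨k, hk⟩ := exists_zpow q V a ha
  have hq : 1 < q := (Fact.out : q.Prime).one_lt
  unfold vdeg
  rw [neg_neg, hk, Int.log_zpow hq]

end Fermat.Agent.S55.G.Rec.VdegH707

end
end
-- ===== PACK-END S55/G/Rec/VdegH707.lean

-- ===== PACK-BEGIN S55/G/Rec/LocResH496.lean
section


/-!
# S55 / layer G / block REC, leaf G5 (helper496): localisation commutes with restriction
-/

set_option autoImplicit false

noncomputable section

namespace Fermat.Agent.S55.G.Rec.H496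

open groupCohomology Fermat.Agent.S55.G.Rec

local notation "Qb" => AlgebraicClosure ℚ
local notation "GQ" => (AlgebraicClosure ℚ ≃ₐ[ℚ] AlgebraicClosure ℚ)

/-- **(G5)** localisation commutes with restriction. -/
theorem locRes : LocResSpec := by
  intro q _ g U U' h x
  obtain ⟨c, rfl⟩ := Submodule.mkQ_surjective _ x
  rfl

end Fermat.Agent.S55.G.Rec.H496

end
end
-- ===== PACK-END S55/G/Rec/LocResH496.lean

-- ===== PACK-BEGIN S55/G/Rec/Loc/DescentH894.lean
section



/-!
# S55 / layer G / block REC / sub-block LOC : leaves LOC-FD and LOC-DESC (helper894)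

* `openSpec : OpenSpec` — the fixed field of an open subgroup `V ≤ Gal(ℚ̄_q/ℚ_q)` is finite over
  `ℚ_q` and `V` is the full fixing subgroup of its fixed field (infinite Galois theory).
* `resHom_surjective` — restriction `V → Gal(E/K_V)` is surjective for `V` open.
* `descent : DescentSpec` — every level cocycle on an open `V` is the inflation of a cocycle of
  a finite Galois level `E/K_V`, which can be chosen above any finite `E₀/K_V`.
-/

set_option autoImplicit false

noncomputable section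

namespace Fermat.Agent.S55.G.Rec.Loc.H894

open groupCohomology IntermediateField

variable (q : ℕ) [Fact q.Prime]

local notation "Ω" => PadicAlgCl q
local notation "Gq" => (PadicAlgCl q ≃ₐ[ℚ_[q]] PadicAlgCl q)

/-- An open subgroup is the full fixing subgroup of its fixed field. -/
lemma fixingSubgroup_fixedFld (V : Subgroup Gq) (hV : IsOpenL q V) :
    (fixedFld q V).fixingSubgroup = V := by
  obtain ⟨E, hE, hEV⟩ := hV
  have := hE
  have hopen : IsOpen (V : Set Gq) := Subgroup.isOpen_mono hEV E.fixingSubgroup_isOpen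
  have hclosed : IsClosed (V : Set Gq) := Subgroup.isClosed_of_isOpen V hopen
  exact InfiniteGalois.fixingSubgroup_fixedField ⟨V, hclosed⟩

/-- The fixed field of an open subgroup is finite over `ℚ_q`. -/
lemma finiteDimensional_fixedFld (V : Subgroup Gq) (hV : IsOpenL q V) :
    FiniteDimensional ℚ_[q] (fixedFld q V) := by
  obtain ⟨E, hE, hEV⟩ := hV
  have := hE
  have hle : fixedFld q V ≤ E := by
    have h := IntermediateField.fixedField_antitone hEV
    rwa [InfiniteGalois.fixedField_fixingSubgroup] at h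
  exact Module.Finite.of_injective (IntermediateField.inclusion hle).toLinearMap
    (IntermediateField.inclusion_injective hle)

/-- **LOC-FD**. -/
theorem openSpec : OpenSpec := fun q _ V hV =>
  ⟨finiteDimensional_fixedFld q V hV, fixingSubgroup_fixedFld q V hV⟩

/-- `V → Gal(ℚ̄_q/K_V)` is surjective for `V` open. -/
lemma toAbsGal_surjective (V : Subgroup Gq) (hV : IsOpenL q V) :
    Function.Surjective (toAbsGal q V) := by
  intro τ
  have hmem : (((fixingSubgroupEquiv (fixedFld q V)).symm τ : (fixedFld q V).fixingSubgroup) : Gq)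
      ∈ V := by
    exact (fixingSubgroup_fixedFld q V hV).le ((fixingSubgroupEquiv (fixedFld q V)).symm τ).2
  refine ⟨⟨_, hmem⟩, ?_⟩
  ext x
  rw [toAbsGal_apply]
  rfl

/-- Restriction `V → Gal(E/K_V)` is surjective for `V` open. -/
lemma resHom_surjective (V : Subgroup Gq) (hV : IsOpenL q V)
    (E : IntermediateField (fixedFld q V) Ω) [Normal (fixedFld q V) E] :
    Function.Surjective (resHom q V E) := by
  intro σ
  obtain ⟨τ, hτ⟩ := AlgEquiv.restrictNormalHom_surjective Ω σ
  obtain ⟨g, hg⟩ := toAbsGal_surjective q V hV τ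
  exact ⟨g, by rw [← hτ, ← hg]; rfl⟩

/-- Elements of the kernel of `resHom` fix every element of `E`. -/
lemma apply_eq_of_resHom_eq_one (V : Subgroup Gq)
    (E : IntermediateField (fixedFld q V) Ω) [Normal (fixedFld q V) E] (s : ↥V)
    (hs : resHom q V E s = 1) (x : Ω) (hx : x ∈ E) : (s : Gq) x = x := by
  have h := resHom_apply_coe q V E s ⟨x, hx⟩
  rw [hs] at h
  exact h.symm

/-- A unit of `ℚ̄_q` lying in `E`, as a unit of `E`. -/
def unitOfMem (V : Subgroup Gq) (E : IntermediateField (fixedFld q V) Ω) (u : Ωˣ)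
    (hu : (u : Ω) ∈ E) : (↥E)ˣ :=
  Units.mk0 ⟨u, hu⟩ (fun h => u.ne_zero (congrArg Subtype.val h))

@[simp] lemma unitsIncl_unitOfMem (V : Subgroup Gq) (E : IntermediateField (fixedFld q V) Ω)
    (u : Ωˣ) (hu : (u : Ω) ∈ E) : unitsIncl q V E (unitOfMem q V E u hu) = u :=
  Units.ext rfl

lemma unitsIncl_injective (V : Subgroup Gq) (E : IntermediateField (fixedFld q V) Ω) :
    Function.Injective (unitsIncl q V E) :=
  Units.map_injective (algebraMap E Ω).injective

/-- `unitsIncl` as an additive map between the two modules. -/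
def addIncl (V : Subgroup Gq) (E : IntermediateField (fixedFld q V) Ω) :
    L.unitsRep (fixedFld q V) E →+ lModOn q V where
  toFun a := Additive.ofMul (unitsIncl q V E (Additive.toMul a))
  map_zero' := congrArg Additive.ofMul (map_one (unitsIncl q V E))
  map_add' a b := congrArg Additive.ofMul
    (map_mul (unitsIncl q V E) (Additive.toMul a : (↥E)ˣ) (Additive.toMul b : (↥E)ˣ))

lemma addIncl_apply (V : Subgroup Gq) (E : IntermediateField (fixedFld q V) Ω)
    (a : L.unitsRep (fixedFld q V) E) :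
    addIncl q V E a = Additive.ofMul (unitsIncl q V E (Additive.toMul a)) := rfl

lemma addIncl_injective (V : Subgroup Gq) (E : IntermediateField (fixedFld q V) Ω) :
    Function.Injective (addIncl q V E) := by
  intro a b h
  rw [addIncl_apply, addIncl_apply] at h
  exact Additive.toMul.injective (unitsIncl_injective q V E (Additive.ofMul.injective h))

/-- `addIncl` intertwines the actions of `Gal(E/K_V)` and `V`. -/
lemma addIncl_ρ (V : Subgroup Gq) (E : IntermediateField (fixedFld q V) Ω)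
    [Normal (fixedFld q V) E] (g : ↥V) (a : L.unitsRep (fixedFld q V) E) :
    addIncl q V E ((L.unitsRep (fixedFld q V) E).ρ (resHom q V E g) a) =
      (lModOn q V).ρ g (addIncl q V E a) := by
  rw [addIncl_apply, addIncl_apply]
  refine congrArg Additive.ofMul (Units.ext ?_)
  exact resHom_apply_coe q V E g ((Additive.toMul a : (↥E)ˣ) : E)

/-- A set-theoretic section of `resHom`. -/
lemma exists_section (V : Subgroup Gq) (hV : IsOpenL q V)
    (E : IntermediateField (fixedFld q V) Ω) [Normal (fixedFld q V) E] :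
    ∃ lift : (E ≃ₐ[fixedFld q V] E) → ↥V, ∀ σ, resHom q V E (lift σ) = σ :=
  ⟨fun σ => (resHom_surjective q V hV E σ).choose,
    fun σ => (resHom_surjective q V hV E σ).choose_spec⟩

/-- A cochain right-invariant under `ker (resHom E)` factors through `Gal(E/K_V)²`. -/
lemma factor_of_invariant {X : Type*} (V : Subgroup Gq)
    (E : IntermediateField (fixedFld q V) Ω) [Normal (fixedFld q V) E] (c : ↥V × ↥V → X)
    (h1 : ∀ g g' s s' : ↥V, resHom q V E s = 1 → resHom q V E s' = 1 →
      c (g * s, g' * s') = c (g, g'))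
    (lift : (E ≃ₐ[fixedFld q V] E) → ↥V) (hlift : ∀ σ, resHom q V E (lift σ) = σ)
    (g g' : ↥V) : c (g, g') = c (lift (resHom q V E g), lift (resHom q V E g')) := by
  have h := h1 (lift (resHom q V E g)) (lift (resHom q V E g'))
    ((lift (resHom q V E g))⁻¹ * g) ((lift (resHom q V E g'))⁻¹ * g')
    (by rw [map_mul, map_inv, hlift, inv_mul_cancel])
    (by rw [map_mul, map_inv, hlift, inv_mul_cancel])
  rw [mul_inv_cancel_left, mul_inv_cancel_left] at h
  exact h

/-- An invariant cochain takes finitely many values. -/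
lemma finite_range_of_invariant {X : Type*} (V : Subgroup Gq) (hV : IsOpenL q V)
    (E : IntermediateField (fixedFld q V) Ω) [FiniteDimensional (fixedFld q V) E]
    [Normal (fixedFld q V) E] (c : ↥V × ↥V → X)
    (h1 : ∀ g g' s s' : ↥V, resHom q V E s = 1 → resHom q V E s' = 1 →
      c (g * s, g' * s') = c (g, g')) :
    (Set.range c).Finite := by
  obtain ⟨lift, hlift⟩ := exists_section q V hV E
  refine Set.Finite.subset (Set.finite_range
    (fun p : (E ≃ₐ[fixedFld q V] E) × (E ≃ₐ[fixedFld q V] E) => c (lift p.1, lift p.2))) ?_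
  rintro _ ⟨⟨g, g'⟩, rfl⟩
  exact ⟨(resHom q V E g, resHom q V E g'),
    (factor_of_invariant q V E c h1 lift hlift g g').symm⟩

/-- Core of the descent: a level cocycle on `V` which is right-invariant under `ker (resHom E)`
and whose values lie in `E` is the inflation of a cocycle of `Gal(E/K_V)`. -/
theorem exists_cocycle_of_invariant (V : Subgroup Gq) (hV : IsOpenL q V)
    (c : ↥(levelCocycles₂ (lHom q V) (lModOn q V)))
    (E : IntermediateField (fixedFld q V) Ω) [FiniteDimensional (fixedFld q V) E]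
    [IsGalois (fixedFld q V) E]
    (h1 : ∀ g g' s s' : ↥V, resHom q V E s = 1 → resHom q V E s' = 1 →
      (c : ↥V × ↥V → lModOn q V) (g * s, g' * s') = (c : ↥V × ↥V → lModOn q V) (g, g'))
    (h2 : ∀ g g' : ↥V,
      ((Additive.toMul ((c : ↥V × ↥V → lModOn q V) (g, g')) : Ωˣ) : Ω) ∈ E) :
    ∃ f : cocycles₂ (L.unitsRep (fixedFld q V) E), IsAbsInflation q V E f c := by
  obtain ⟨lift, hlift⟩ := exists_section q V hV E
  have hsurj := resHom_surjective q V hV E
  obtain ⟨f, hfdef⟩ : ∃ f : (E ≃ₐ[fixedFld q V] E) × (E ≃ₐ[fixedFld q V] E) →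
      L.unitsRep (fixedFld q V) E, ∀ p, addIncl q V E (f p) =
        (c : ↥V × ↥V → lModOn q V) (lift p.1, lift p.2) :=
    ⟨fun p => Additive.ofMul (unitOfMem q V E
      (Additive.toMul ((c : ↥V × ↥V → lModOn q V) (lift p.1, lift p.2))) (h2 _ _)),
      fun p => congrArg Additive.ofMul (unitsIncl_unitOfMem q V E _ _)⟩
  have hinf : ∀ g g' : ↥V, (c : ↥V × ↥V → lModOn q V) (g, g') =
      addIncl q V E (f (resHom q V E g, resHom q V E g')) := by
    intro g g'
    rw [factor_of_invariant q V E _ h1 lift hlift g g', hfdef]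
  have hf : f ∈ cocycles₂ (L.unitsRep (fixedFld q V) E) := by
    rw [mem_cocycles₂_iff]
    intro σ τ υ
    obtain ⟨g, rfl⟩ := hsurj σ
    obtain ⟨h, rfl⟩ := hsurj τ
    obtain ⟨j, rfl⟩ := hsurj υ
    have hc : (c : ↥V × ↥V → lModOn q V) (g * h, j) + (c : ↥V × ↥V → lModOn q V) (g, h) =
        (lModOn q V).ρ g ((c : ↥V × ↥V → lModOn q V) (h, j)) +
          (c : ↥V × ↥V → lModOn q V) (g, h * j) :=
      (mem_cocycles₂_iff _).1 c.2.1 g h j
    apply addIncl_injective q V E
    calc addIncl q V E (f (resHom q V E g * resHom q V E h, resHom q V E j) +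
          f (resHom q V E g, resHom q V E h))
        = addIncl q V E (f (resHom q V E (g * h), resHom q V E j)) +
          addIncl q V E (f (resHom q V E g, resHom q V E h)) := by
          exact ((addIncl q V E).map_add _ _).trans
            (congrArg (fun t => addIncl q V E (f (t, resHom q V E j)) +
              addIncl q V E (f (resHom q V E g, resHom q V E h)))
              (map_mul (resHom q V E) g h).symm)
      _ = (c : ↥V × ↥V → lModOn q V) (g * h, j) + (c : ↥V × ↥V → lModOn q V) (g, h) := by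
          exact congrArg₂ (· + ·) (hinf (g * h) j).symm (hinf g h).symm
      _ = (lModOn q V).ρ g ((c : ↥V × ↥V → lModOn q V) (h, j)) +
          (c : ↥V × ↥V → lModOn q V) (g, h * j) := hc
      _ = (lModOn q V).ρ g (addIncl q V E (f (resHom q V E h, resHom q V E j))) +
          addIncl q V E (f (resHom q V E g, resHom q V E (h * j))) := by
          exact congrArg₂ (· + ·) (congrArg ((lModOn q V).ρ g) (hinf h j)) (hinf g (h * j))
      _ = addIncl q V E ((L.unitsRep (fixedFld q V) E).ρ (resHom q V E g)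
            (f (resHom q V E h, resHom q V E j)) +
          f (resHom q V E g, resHom q V E h * resHom q V E j)) := by
          exact (congrArg₂ (· + ·) (addIncl_ρ q V E g _).symm
            (congrArg (fun t => addIncl q V E (f (resHom q V E g, t)))
              (map_mul (resHom q V E) h j))).trans ((addIncl q V E).map_add _ _).symm
  exact ⟨⟨f, hf⟩, funext fun p => hinf p.1 p.2⟩

/-- The compositum `E₁ · K_V` as an intermediate field over `K_V`. -/
def liftFld (V : Subgroup Gq) (E₁ : IntermediateField ℚ_[q] Ω) :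
    IntermediateField (fixedFld q V) Ω :=
  IntermediateField.extendScalars (le_sup_right : fixedFld q V ≤ E₁ ⊔ fixedFld q V)

lemma le_liftFld (V : Subgroup Gq) (E₁ : IntermediateField ℚ_[q] Ω) (x : Ω) (hx : x ∈ E₁) :
    x ∈ liftFld q V E₁ :=
  (le_sup_left : E₁ ≤ E₁ ⊔ fixedFld q V) hx

lemma finiteDimensional_liftFld (V : Subgroup Gq) (hV : IsOpenL q V)
    (E₁ : IntermediateField ℚ_[q] Ω) [FiniteDimensional ℚ_[q] E₁] :
    FiniteDimensional (fixedFld q V) (liftFld q V E₁) := by
  have := finiteDimensional_fixedFld q V hV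
  have h : FiniteDimensional ℚ_[q] ↥(E₁ ⊔ fixedFld q V) :=
    IntermediateField.finiteDimensional_sup E₁ (fixedFld q V)
  have h' : FiniteDimensional ℚ_[q] ↥(liftFld q V E₁) := h
  exact Module.Finite.of_restrictScalars_finite ℚ_[q] (fixedFld q V) (liftFld q V E₁)

/-- **LOC-DESC**, unbundled. -/
theorem descent_aux (V : Subgroup Gq) (hV : IsOpenL q V)
    (c : ↥(levelCocycles₂ (lHom q V) (lModOn q V)))
    (E₀ : IntermediateField (fixedFld q V) Ω) (hE₀ : FiniteDimensional (fixedFld q V) E₀) :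
    ∃ (E : IntermediateField (fixedFld q V) Ω)
      (_ : FiniteDimensional (fixedFld q V) E) (_ : IsGalois (fixedFld q V) E)
      (f : cocycles₂ (L.unitsRep (fixedFld q V) E)), E₀ ≤ E ∧ IsAbsInflation q V E f c := by
  obtain ⟨F, hF, hFc⟩ := c.2.2
  have := hF
  obtain ⟨E₁, hE₁, hE₁F⟩ := Bridge.exists_local_level_of_global q F
  have := hE₁
  have hM : FiniteDimensional (fixedFld q V) (liftFld q V E₁) :=
    finiteDimensional_liftFld q V hV E₁
  -- invariance under the kernel of `resHom E` for every normal `E` containing `E₁`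
  have key : ∀ (E : IntermediateField (fixedFld q V) Ω) [Normal (fixedFld q V) E],
      liftFld q V E₁ ≤ E → ∀ g g' s s' : ↥V, resHom q V E s = 1 → resHom q V E s' = 1 →
        (c : ↥V × ↥V → lModOn q V) (g * s, g' * s') = (c : ↥V × ↥V → lModOn q V) (g, g') := by
    intro E _ hME g g' s s' hs hs'
    refine hFc g g' s s' (hE₁F _ ?_) (hE₁F _ ?_)
    · rw [IntermediateField.mem_fixingSubgroup_iff]
      intro x hx
      exact apply_eq_of_resHom_eq_one q V E s hs x (hME (le_liftFld q V E₁ x hx))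
    · rw [IntermediateField.mem_fixingSubgroup_iff]
      intro x hx
      exact apply_eq_of_resHom_eq_one q V E s' hs' x (hME (le_liftFld q V E₁ x hx))
  -- first stage: the values of `c` form a finite set
  have hfin : (Set.range fun p : ↥V × ↥V =>
      ((Additive.toMul ((c : ↥V × ↥V → lModOn q V) p) : Ωˣ) : Ω)).Finite :=
    finite_range_of_invariant q V hV (normalClosure (fixedFld q V) (liftFld q V E₁) Ω) _
      (fun g g' s s' hs hs' => by
        rw [key _ (IntermediateField.le_normalClosure _) g g' s s' hs hs'])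
  have hfin' := hfin.to_subtype
  have hS : FiniteDimensional (fixedFld q V)
      (IntermediateField.adjoin (fixedFld q V) (Set.range fun p : ↥V × ↥V =>
      ((Additive.toMul ((c : ↥V × ↥V → lModOn q V) p) : Ωˣ) : Ω))) :=
    IntermediateField.finiteDimensional_adjoin
      (fun x _ => Algebra.IsIntegral.isIntegral x)
  -- second stage
  obtain ⟨X, hXfd, hX0, hX1, hXv⟩ : ∃ X : IntermediateField (fixedFld q V) Ω,
      FiniteDimensional (fixedFld q V) X ∧ E₀ ≤ X ∧ liftFld q V E₁ ≤ X ∧
        ∀ g g' : ↥V, ((Additive.toMul ((c : ↥V × ↥V → lModOn q V) (g, g')) : Ωˣ) : Ω) ∈ X :=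
    ⟨E₀ ⊔ liftFld q V E₁ ⊔
      IntermediateField.adjoin (fixedFld q V) (Set.range fun p : ↥V × ↥V =>
      ((Additive.toMul ((c : ↥V × ↥V → lModOn q V) p) : Ωˣ) : Ω)),
      IntermediateField.finiteDimensional_sup _ _, le_sup_left.trans le_sup_left,
      le_sup_right.trans le_sup_left,
      fun g g' => (le_sup_right (α := IntermediateField (fixedFld q V) Ω))
        (IntermediateField.subset_adjoin _ _ ⟨(g, g'), rfl⟩)⟩
  have hle := IntermediateField.le_normalClosure X
  have hfdE : FiniteDimensional (fixedFld q V) (normalClosure (fixedFld q V) X Ω) :=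
    normalClosure.is_finiteDimensional _ _ _
  have hnE : Normal (fixedFld q V) (normalClosure (fixedFld q V) X Ω) :=
    normalClosure.normal _ _ _
  have hgE : IsGalois (fixedFld q V) (normalClosure (fixedFld q V) X Ω) := ⟨⟩
  obtain ⟨f, hf⟩ := exists_cocycle_of_invariant q V hV c (normalClosure (fixedFld q V) X Ω)
    (key _ (hX1.trans hle)) (fun g g' => hle (hXv g g'))
  exact ⟨_, hfdE, hgE, f, hX0.trans hle, hf⟩

/-- **LOC-DESC**. -/
theorem descent : _root_.Fermat.Agent.S55.G.Rec.Loc.DescentSpec := fun q _ V hV c E₀ hE₀ => descent_aux q V hV c E₀ hE₀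

end Fermat.Agent.S55.G.Rec.Loc.H894

end
end
-- ===== PACK-END S55/G/Rec/Loc/DescentH894.lean

-- ===== PACK-BEGIN S55/Local/H959/InertiaCard.lean
section





/-!
# S55, layer L, piece UR6' (helper959): `InertiaCardStatement`

`theorem inertiaCard : Fermat.Agent.S55.Local.InertiaCardStatement`.

For a finite Galois extension `N / E` of local fields let `R = integralClosure A E`,
`S = integralClosure R N`, `P = (ϖN) ⊆ S` the maximal ideal and `J = P.inertia Gal(N/E)`
(Mathlib).  Then

* `σ ∈ J ↔ ∀ x integral, σ x - x ∈ P` (a description that only mentions `N`, so that the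
  inertia groups of `N / K` and of `N / E`, `E` intermediate, are related by
  `J_E ≃ Gal(N/E) ⊓ J_K`),
* `|J| = e(N/E)`, i.e. `ϖE = unit * ϖN ^ |J|`
  (Mathlib `Ideal.card_inertia_eq_ramificationIdxIn` + `Ideal.ramificationIdx'_spec`),

(`exists_inertia`).  With `I = J_K`, `b = |Gal(N/E) ⊓ I| = e(N/E)`, `n = |I| = e(N/K)`,
`a = e(E/K)`, `n = a * b` (`RamExp.lean`):
`N / E` unramified `↔ b = 1 ↔ Gal(N/E) ⊓ I = ⊥`, and
`E / K` unramified `↔ a = 1 ↔ b = n ↔ I ≤ Gal(N/E)`.
-/

set_option autoImplicit false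
set_option linter.overlappingInstances false
set_option linter.style.haveILetI false
set_option linter.unusedSectionVars false

namespace Fermat.Agent.S55.Local.H959

open Fermat.Agent.S55.Local
open scoped Pointwise

section AKLB

variable (R K L S : Type) [CommRing R] [IsDomain R] [IsDedekindDomain R]
  [Field K] [Field L] [Algebra R K] [IsFractionRing R K] [Algebra K L] [Algebra R L]
  [IsScalarTower R K L] [FiniteDimensional K L] [IsGalois K L]
  [CommRing S] [IsDomain S] [IsDedekindDomain S] [Algebra R S] [Algebra S L]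
  [IsScalarTower R S L] [IsIntegralClosure S R L] [Module.Finite R S] [IsFractionRing S L]
  [Module.Flat R S]

attribute [local instance] Ideal.Quotient.field in
/-- Abstract core: the order of the inertia group of a maximal ideal `P` of `S` is the exponent
`e` with `p S ⊆ P ^ e`, `p S ⊄ P ^ (e + 1)`. -/
theorem card_inertia_gal (P : Ideal S) [P.IsMaximal] (hfin : Finite (R ⧸ P.under R)) (e : ℕ)
    (hle : (P.under R).map (algebraMap R S) ≤ P ^ e)
    (hgt : ¬ (P.under R).map (algebraMap R S) ≤ P ^ (e + 1))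
    (hne : (P.under R).map (algebraMap R S) ≠ ⊥) :
    letI : MulSemiringAction Gal(L/K) S := IsIntegralClosure.MulSemiringAction R K L S
    Nat.card (P.inertia Gal(L/K)) = e := by
  letI : MulSemiringAction Gal(L/K) S := IsIntegralClosure.MulSemiringAction R K L S
  haveI : IsGaloisGroup Gal(L/K) R S := IsGaloisGroup.of_isFractionRing _ _ _ K L
  have hint : Algebra.IsIntegral R S := inferInstance
  haveI hPmax : (P.under R).IsMaximal := Ideal.isMaximal_comap_of_isIntegral_of_isMaximal P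
  have h1 := Ideal.card_inertia_eq_ramificationIdxIn (G := Gal(L/K)) (P.under R) P
  rw [Ideal.ramificationIdxIn_eq_ramificationIdx (P.under R) P Gal(L/K),
    ← Ideal.ramificationIdx'_eq_ramificationIdx' (P.under R) P hne] at h1
  rw [h1]
  exact Ideal.ramificationIdx'_spec hle hgt

end AKLB

section InMax

variable (A F : Type) [CommRing A] [Field F] [Algebra A F]
variable (L : Type) [Field L] [Algebra F L]

/-- `y` lies in the maximal ideal of the ring of integers of `L`: it is integral and not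
invertible in the ring of integers. -/
def InMax (y : L) : Prop := IsInt A F L y ∧ ∀ z : L, IsInt A F L z → y * z ≠ 1

variable {A F L}

lemma inMax_iff_of_unif {ϖ : Lˣ} (h : IsUnif A F L ϖ) (y : L) :
    InMax A F L y ↔ IsInt A F L (y * ((ϖ⁻¹ : Lˣ) : L)) := by
  constructor
  · rintro ⟨hy, hz⟩
    rcases eq_or_ne y 0 with rfl | hy0
    · rw [zero_mul]; exact isInt_zero A F L
    rcases H294.unif_unit_or_dvd h (Units.mk0 y hy0) hy with hu | ⟨b, hb, hyb⟩
    · have hinv : IsInt A F L y⁻¹ := by simpa using hu.2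
      exact absurd (mul_inv_cancel₀ hy0) (hz _ hinv)
    · rw [Units.val_mk0] at hyb
      have : y * ((ϖ⁻¹ : Lˣ) : L) = b := by
        rw [hyb, mul_comm (ϖ : L) b, mul_assoc, ← Units.val_mul, mul_inv_cancel, Units.val_one,
          mul_one]
      rw [this]; exact hb
  · intro hy
    have hy' : y = y * ((ϖ⁻¹ : Lˣ) : L) * (ϖ : L) := by
      rw [mul_assoc, ← Units.val_mul, inv_mul_cancel, Units.val_one, mul_one]
    refine ⟨by rw [hy']; exact hy.mul h.1, fun z hz hyz => H294.unif_not_isInt_inv h ?_⟩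
    have : ((ϖ⁻¹ : Lˣ) : L) = y * ((ϖ⁻¹ : Lˣ) : L) * z := by
      rw [mul_comm y, mul_assoc, hyz, mul_one]
    rw [this]; exact hy.mul hz

/-- Membership of `x * ϖ ^ (-k)` in the integers, in terms of the exponent of `x`. -/
lemma isInt_mul_zpow_iff {ϖ : Lˣ} (h : IsUnif A F L ϖ) {x : Lˣ} {n : ℤ}
    (hn : x * ϖ ^ (-n) ∈ intUnits A F L) (k : ℤ) :
    IsInt A F L ((x * ϖ ^ (-k) : Lˣ) : L) ↔ k ≤ n := by
  have hn' : x * ϖ ^ (-k) * ϖ ^ (-(n - k)) ∈ intUnits A F L := by
    have : x * ϖ ^ (-k) * ϖ ^ (-(n - k)) = x * ϖ ^ (-n) := by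
      rw [mul_assoc, ← zpow_add]; congr 2; ring
    rwa [this]
  constructor
  · intro hx
    have := unif_exp_nonneg h hn' hx
    omega
  · intro hk
    exact unif_isInt_of_exp_nonneg h hn' (by omega)

end InMax

section Bridge

variable (A F : Type) [CommRing A] [IsDomain A] [IsDiscreteValuationRing A]
  [IsAdicComplete (IsLocalRing.maximalIdeal A) A] [Finite (IsLocalRing.ResidueField A)]
  [Field F] [CharZero F] [Algebra A F] [IsFractionRing A F]
  (E : Type) [Field E] [Algebra F E] [FiniteDimensional F E]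
  (N : Type) [Field N] [Algebra F N] [Algebra E N] [IsScalarTower F E N]
  [FiniteDimensional E N] [IsGalois E N]
  [Algebra A E] [IsScalarTower A F E] [Algebra A N] [IsScalarTower A F N] [IsScalarTower A E N]

attribute [local instance] H312.isScalarTower_intClosure

lemma mem_ON_iff (x : N) :
    x ∈ integralClosure (integralClosure A E) N ↔ IsInt A F N x := by
  rw [H715.isInt_iff A F N x]
  constructor
  · intro hx
    exact isIntegral_trans (R := A) (A := integralClosure A E) x hx
  · intro hx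
    exact hx.tower_top

/-- A uniformizer of `N`, as an element of the ring of integers. -/
def unifON {ϖ : Nˣ} (h : IsUnif A F N ϖ) : integralClosure (integralClosure A E) N :=
  ⟨(ϖ : N), (mem_ON_iff A F E N _).2 h.1⟩

/-- The maximal ideal of the ring of integers of `N`. -/
def maxON {ϖ : Nˣ} (h : IsUnif A F N ϖ) : Ideal (integralClosure (integralClosure A E) N) :=
  Ideal.span {unifON A F E N h}

lemma mem_maxON_pow {ϖ : Nˣ} (h : IsUnif A F N ϖ) (k : ℕ)
    (x : integralClosure (integralClosure A E) N) :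
    x ∈ maxON A F E N h ^ k ↔ IsInt A F N ((x : N) * ((ϖ ^ (-(k : ℤ)) : Nˣ) : N)) := by
  have hz : ((ϖ ^ (-(k : ℤ)) : Nˣ) : N) = ((ϖ : N) ^ k)⁻¹ := by
    rw [zpow_neg, zpow_natCast, Units.val_inv_eq_inv_val, Units.val_pow_eq_pow_val]
  have hϖ0 : (ϖ : N) ^ k ≠ 0 := pow_ne_zero _ ϖ.ne_zero
  rw [maxON, Ideal.span_singleton_pow, Ideal.mem_span_singleton, hz]
  constructor
  · rintro ⟨s, rfl⟩
    have : (((unifON A F E N h) ^ k * s : integralClosure (integralClosure A E) N) : N) *
        ((ϖ : N) ^ k)⁻¹ = (s : N) := by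
      rw [Subalgebra.coe_mul, Subalgebra.coe_pow]
      show (ϖ : N) ^ k * (s : N) * ((ϖ : N) ^ k)⁻¹ = (s : N)
      rw [mul_comm, ← mul_assoc, inv_mul_cancel₀ hϖ0, one_mul]
    rw [this]
    exact (mem_ON_iff A F E N _).1 s.2
  · intro hx
    refine ⟨⟨_, (mem_ON_iff A F E N _).2 hx⟩, Subtype.ext ?_⟩
    rw [Subalgebra.coe_mul, Subalgebra.coe_pow]
    show (x : N) = (ϖ : N) ^ k * ((x : N) * ((ϖ : N) ^ k)⁻¹)
    rw [mul_comm (x : N), ← mul_assoc, mul_inv_cancel₀ hϖ0, one_mul]

lemma mem_maxON_iff {ϖ : Nˣ} (h : IsUnif A F N ϖ)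
    (x : integralClosure (integralClosure A E) N) :
    x ∈ maxON A F E N h ↔ InMax A F N (x : N) := by
  have := mem_maxON_pow A F E N h 1 x
  rw [pow_one] at this
  rw [this, inMax_iff_of_unif h]
  simp

lemma maxON_isMaximal {ϖ : Nˣ} (h : IsUnif A F N ϖ) : (maxON A F E N h).IsMaximal := by
  rw [Ideal.isMaximal_iff]
  refine ⟨?_, fun J x _ hx hxJ => ?_⟩
  · intro h1
    have := (mem_maxON_iff A F E N h 1).1 h1
    exact this.2 1 (isInt_one A F N) (by simp)
  · have hxint : IsInt A F N (x : N) := (mem_ON_iff A F E N _).1 x.2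
    have hinv : IsInt A F N ((x : N))⁻¹ := by
      by_contra hcon
      apply hx
      rw [mem_maxON_iff]
      refine ⟨hxint, fun z hz hxz => hcon ?_⟩
      have : ((x : N))⁻¹ = z := inv_eq_of_mul_eq_one_right hxz
      rwa [this]
    have hx0 : (x : N) ≠ 0 := by
      intro h0
      apply hx
      have : x = 0 := Subtype.ext h0
      rw [this]
      exact Ideal.zero_mem _
    have : (1 : integralClosure (integralClosure A E) N) =
        x * ⟨((x : N))⁻¹, (mem_ON_iff A F E N _).2 hinv⟩ := by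
      apply Subtype.ext
      rw [Subalgebra.coe_mul]
      show (1 : N) = (x : N) * ((x : N))⁻¹
      rw [mul_inv_cancel₀ hx0]
    rw [this]
    exact J.mul_mem_right _ hxJ

lemma coe_algebraMap_OE_ON (r : integralClosure A E) :
    ((algebraMap (integralClosure A E) (integralClosure (integralClosure A E) N) r :
      integralClosure (integralClosure A E) N) : N) = algebraMap E N (r : E) := rfl

omit [IsDomain A] [IsDiscreteValuationRing A]
  [IsAdicComplete (IsLocalRing.maximalIdeal A) A] [Finite (IsLocalRing.ResidueField A)]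
  [CharZero F] [IsFractionRing A F] [FiniteDimensional F E] [FiniteDimensional E N] [IsGalois E N]
  [Algebra A E] [IsScalarTower A F E] [Algebra A N] [IsScalarTower A F N] [IsScalarTower A E N]
  [Algebra A F] [Algebra F E] in
lemma unitsIncl_self (y : Eˣ) : unitsIncl E E y = y := by
  ext; rfl

omit [IsDomain A] [IsDiscreteValuationRing A]
  [IsAdicComplete (IsLocalRing.maximalIdeal A) A] [Finite (IsLocalRing.ResidueField A)]
  [CharZero F] [IsFractionRing A F] [FiniteDimensional F E] [FiniteDimensional E N] [IsGalois E N]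
  [Algebra A E] [IsScalarTower A F E] [Algebra A N] [IsScalarTower A F N] [IsScalarTower A E N] in
/-- The exponent of the image in `N` of an element of `E`. -/
lemma exp_image {ϖE : Eˣ} {ϖ : Nˣ} {e : ℕ}
    (he : unitsIncl N E ϖE * ϖ ^ (-(e : ℤ)) ∈ intUnits A F N) (y : Eˣ) (m : ℕ)
    (hm : y * ϖE ^ (-(m : ℤ)) ∈ intUnits A F E) :
    unitsIncl N E y * ϖ ^ (-((m * e : ℕ) : ℤ)) ∈ intUnits A F N :=
  ramExp_tower (K := E) (E := E) (N := N) (ϖK := y) (ϖE := ϖE) (ϖN := ϖ) (a := m) (b := e)
    (by rwa [unitsIncl_self E]) he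

/-- A uniformizer of `E`, as an element of the ring of integers. -/
def unifOE {ϖE : Eˣ} (hE : IsUnif A F E ϖE) : integralClosure A E :=
  ⟨(ϖE : E), (H715.isInt_iff A F E _).1 hE.1⟩

lemma unifOE_mem_under {ϖE : Eˣ} {ϖ : Nˣ} (hE : IsUnif A F E ϖE) (h : IsUnif A F N ϖ) {e : ℕ}
    (he0 : 0 < e) (he : unitsIncl N E ϖE * ϖ ^ (-(e : ℤ)) ∈ intUnits A F N) :
    unifOE A F E hE ∈ (maxON A F E N h).under (integralClosure A E) := by
  rw [Ideal.under_def, Ideal.mem_comap, ← pow_one (maxON A F E N h), mem_maxON_pow,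
    coe_algebraMap_OE_ON]
  exact (isInt_mul_zpow_iff h he ((1 : ℕ) : ℤ)).2 (by exact_mod_cast he0)

lemma map_under_le {ϖE : Eˣ} {ϖ : Nˣ} (hE : IsUnif A F E ϖE) (h : IsUnif A F N ϖ) {e : ℕ}
    (he : unitsIncl N E ϖE * ϖ ^ (-(e : ℤ)) ∈ intUnits A F N) :
    ((maxON A F E N h).under (integralClosure A E)).map
      (algebraMap (integralClosure A E) (integralClosure (integralClosure A E) N)) ≤
      maxON A F E N h ^ e := by
  rw [Ideal.map_le_iff_le_comap]
  intro r hr
  rw [Ideal.mem_comap, mem_maxON_pow, coe_algebraMap_OE_ON]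
  have hr' : InMax A F N (algebraMap E N (r : E)) := (mem_maxON_iff A F E N h _).1 hr
  rcases eq_or_ne (r : E) 0 with h0 | h0
  · rw [h0, map_zero, zero_mul]; exact isInt_zero A F N
  · obtain ⟨m, hm⟩ := hE.2.2 (Units.mk0 (r : E) h0)
    have hrint : IsInt A F E (r : E) := (H715.isInt_iff A F E _).2 r.2
    have hm0 : 0 ≤ m := unif_exp_nonneg hE hm hrint
    have hm1 : m ≠ 0 := by
      intro hm1
      have hu : Units.mk0 (r : E) h0 ∈ intUnits A F E := (unif_exp_eq_zero_iff hE hm).2 hm1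
      have hu' := H294.unitsIncl_mem_intUnits_of_mem (L := N) hu
      refine hr'.2 _ hu'.2 ?_
      have : algebraMap E N (r : E) = ((unitsIncl N E (Units.mk0 (r : E) h0) : Nˣ) : N) := rfl
      rw [this, ← Units.val_mul, mul_inv_cancel, Units.val_one]
    obtain ⟨m', rfl⟩ := Int.eq_ofNat_of_zero_le hm0
    have hm'pos : 0 < m' := by
      rcases Nat.eq_zero_or_pos m' with h | h
      · exact absurd (by rw [h]; rfl) hm1
      · exact h
    have h1 := exp_image A F E N he (Units.mk0 (r : E) h0) m' hm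
    have h2 := (isInt_mul_zpow_iff h h1 (e : ℤ)).2
      (by exact_mod_cast Nat.le_mul_of_pos_left e hm'pos)
    exact h2

lemma not_map_under_le {ϖE : Eˣ} {ϖ : Nˣ} (hE : IsUnif A F E ϖE) (h : IsUnif A F N ϖ) {e : ℕ}
    (he0 : 0 < e) (he : unitsIncl N E ϖE * ϖ ^ (-(e : ℤ)) ∈ intUnits A F N) :
    ¬ ((maxON A F E N h).under (integralClosure A E)).map
      (algebraMap (integralClosure A E) (integralClosure (integralClosure A E) N)) ≤
      maxON A F E N h ^ (e + 1) := by
  intro hle
  have := hle (Ideal.mem_map_of_mem _ (unifOE_mem_under A F E N hE h he0 he))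
  rw [mem_maxON_pow] at this
  have h3 := (isInt_mul_zpow_iff h he ((e + 1 : ℕ) : ℤ)).1 this
  omega

lemma map_under_ne_bot {ϖE : Eˣ} {ϖ : Nˣ} (hE : IsUnif A F E ϖE) (h : IsUnif A F N ϖ) {e : ℕ}
    (he0 : 0 < e) (he : unitsIncl N E ϖE * ϖ ^ (-(e : ℤ)) ∈ intUnits A F N) :
    ((maxON A F E N h).under (integralClosure A E)).map
      (algebraMap (integralClosure A E) (integralClosure (integralClosure A E) N)) ≠ ⊥ := by
  intro hbot
  have := Ideal.mem_map_of_mem
    (algebraMap (integralClosure A E) (integralClosure (integralClosure A E) N))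
    (unifOE_mem_under A F E N hE h he0 he)
  rw [hbot, Ideal.mem_bot] at this
  have h0 := congrArg Subtype.val this
  rw [coe_algebraMap_OE_ON] at h0
  have h1 : algebraMap E N (ϖE : E) = 0 := h0
  rw [map_eq_zero] at h1
  exact ϖE.ne_zero h1

/-- The inertia subgroup of a finite Galois extension `N / E` of local fields, with its
concrete description and its order (version with auxiliary `A`-algebra structures). -/
theorem exists_inertia_aux : ∃ J : Subgroup (N ≃ₐ[E] N),
    (∀ σ : N ≃ₐ[E] N, σ ∈ J ↔ ∀ x : N, IsInt A F N x → InMax A F N (σ x - x)) ∧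
    ∀ (ϖE : Eˣ) (ϖN : Nˣ), IsUnif A F E ϖE → IsUnif A F N ϖN →
      unitsIncl N E ϖE * ϖN ^ (-(Nat.card J : ℤ)) ∈ intUnits A F N := by
  haveI : FiniteDimensional F N := FiniteDimensional.trans F E N
  haveI : IsFractionRing (integralClosure A E) E := H715.isFractionRing_OL A F E
  haveI : IsDedekindDomain (integralClosure A E) := H715.isDedekindDomain_OL A F E
  haveI : IsDedekindDomain (integralClosure (integralClosure A E) N) :=
    IsIntegralClosure.isDedekindDomain (integralClosure A E) E N _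
  haveI : Module.Finite (integralClosure A E) (integralClosure (integralClosure A E) N) :=
    IsIntegralClosure.finite (integralClosure A E) E N _
  haveI : IsFractionRing (integralClosure (integralClosure A E) N) N :=
    IsIntegralClosure.isFractionRing_of_finite_extension (integralClosure A E) E N _
  obtain ⟨ϖ₀, h₀⟩ := H608.existsUnif A F N
  letI : MulSemiringAction (N ≃ₐ[E] N) (integralClosure (integralClosure A E) N) :=
    IsIntegralClosure.MulSemiringAction (integralClosure A E) E N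
      (integralClosure (integralClosure A E) N)
  have hsmul : ∀ (σ : N ≃ₐ[E] N) (x : integralClosure (integralClosure A E) N),
      ((σ • x : integralClosure (integralClosure A E) N) : N) = σ (x : N) := fun σ x =>
    algebraMap_galRestrict_apply (integralClosure A E) σ x
  refine ⟨(maxON A F E N h₀).inertia (N ≃ₐ[E] N), fun σ => ?_, ?_⟩
  · rw [AddSubgroup.mem_inertia]
    constructor
    · intro hσ x hx
      have := hσ ⟨x, (mem_ON_iff A F E N x).2 hx⟩
      have h2 := (mem_maxON_iff A F E N h₀ _).1 this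
      rwa [Subalgebra.coe_sub, hsmul] at h2
    · intro hσ x
      show σ • x - x ∈ maxON A F E N h₀
      rw [mem_maxON_iff, Subalgebra.coe_sub, hsmul]
      exact hσ _ ((mem_ON_iff A F E N _).1 x.2)
  · intro ϖE ϖN hE hN
    obtain ⟨e, he0, he⟩ := exists_ramExp hE h₀
    haveI := maxON_isMaximal A F E N h₀
    have hp0 : (maxON A F E N h₀).under (integralClosure A E) ≠ ⊥ := by
      intro hbot
      have := unifOE_mem_under A F E N hE h₀ he0 he
      rw [hbot, Ideal.mem_bot] at this
      exact ϖE.ne_zero (congrArg Subtype.val this)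
    have hcard : Nat.card ((maxON A F E N h₀).inertia (N ≃ₐ[E] N)) = e :=
      card_inertia_gal (integralClosure A E) E N (integralClosure (integralClosure A E) N)
        (maxON A F E N h₀) (H715.finite_quotient_OL A F E _ hp0) e
        (map_under_le A F E N hE h₀ he) (not_map_under_le A F E N hE h₀ he0 he)
        (map_under_ne_bot A F E N hE h₀ he0 he)
    rw [hcard]
    have hu := unif_div_unif hN h₀
    have h2 := (intUnits A F N).mul_mem he ((intUnits A F N).pow_mem hu e)
    have h3 : unitsIncl N E ϖE * ϖ₀ ^ (-(e : ℤ)) * (ϖ₀ * ϖN ^ (-(1 : ℤ))) ^ e =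
        unitsIncl N E ϖE * ϖN ^ (-(e : ℤ)) := by
      rw [mul_pow, zpow_neg, zpow_natCast, zpow_neg, zpow_one, zpow_neg, zpow_natCast, inv_pow,
        mul_assoc, inv_mul_cancel_left]
    rwa [h3] at h2

end Bridge

section Final

variable (A F : Type) [CommRing A] [IsDomain A] [IsDiscreteValuationRing A]
  [IsAdicComplete (IsLocalRing.maximalIdeal A) A] [Finite (IsLocalRing.ResidueField A)]
  [Field F] [CharZero F] [Algebra A F] [IsFractionRing A F]
  (E : Type) [Field E] [Algebra F E] [FiniteDimensional F E]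
  (N : Type) [Field N] [Algebra F N] [Algebra E N] [IsScalarTower F E N]
  [FiniteDimensional E N] [IsGalois E N]

/-- The inertia subgroup `J` of a finite Galois extension `N / E` of local fields:
`σ ∈ J` iff `σ x - x` lies in the maximal ideal for every integral `x`, and
`ϖE = unit * ϖN ^ |J|`. -/
theorem exists_inertia : ∃ J : Subgroup (N ≃ₐ[E] N),
    (∀ σ : N ≃ₐ[E] N, σ ∈ J ↔ ∀ x : N, IsInt A F N x → InMax A F N (σ x - x)) ∧
    ∀ (ϖE : Eˣ) (ϖN : Nˣ), IsUnif A F E ϖE → IsUnif A F N ϖN →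
      unitsIncl N E ϖE * ϖN ^ (-(Nat.card J : ℤ)) ∈ intUnits A F N := by
  letI : Algebra A E := H715.algAL A F E
  haveI : IsScalarTower A F E := H715.isScalarTower_algAL A F E
  letI : Algebra A N := H715.algAL A F N
  haveI : IsScalarTower A F N := H715.isScalarTower_algAL A F N
  haveI : IsScalarTower A E N := IsScalarTower.of_algebraMap_eq (fun a => by
    show toL A F N a = algebraMap E N (algebraMap F E (algebraMap A F a))
    rw [toL_apply, ← IsScalarTower.algebraMap_apply F E N])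
  exact exists_inertia_aux A F E N

omit [IsDomain A] [IsDiscreteValuationRing A]
  [IsAdicComplete (IsLocalRing.maximalIdeal A) A] [Finite (IsLocalRing.ResidueField A)]
  [CharZero F] [IsFractionRing A F] [FiniteDimensional F E] [FiniteDimensional E N]
  [IsGalois E N] in
lemma inMax_algEquiv (τ : N ≃ₐ[E] N) {y : N} (hy : InMax A F N y) : InMax A F N (τ y) := by
  refine ⟨H294.isInt_algEquiv τ hy.1, fun z hz hyz => hy.2 (τ.symm z)
    (H294.isInt_algEquiv τ.symm hz) ?_⟩
  have := congrArg τ.symm hyz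
  rwa [map_mul, AlgEquiv.symm_apply_apply, map_one] at this

/-- **UR6'** (`InertiaCardStatement`). -/
theorem inertiaCard : InertiaCardStatement := by
  intro A F _ _ _ _ _ _ _ _ _ K _ _ _ N _ _ _ _ _ _
  obtain ⟨I, hIchar, hIcard⟩ := exists_inertia A F K N
  haveI : FiniteDimensional F N := FiniteDimensional.trans F K N
  obtain ⟨ϖK, hK⟩ := H608.existsUnif A F K
  obtain ⟨ϖN, hN⟩ := H608.existsUnif A F N
  refine ⟨I, ⟨fun σ hσ τ => ?_⟩, fun E => ?_, hIcard⟩
  · -- normality
    rw [hIchar] at hσ ⊢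
    intro x hx
    have hy : IsInt A F N (τ⁻¹ x) := H294.isInt_algEquiv τ⁻¹ hx
    have h1 := hσ _ hy
    have h2 : (τ * σ * τ⁻¹) x - x = τ (σ (τ⁻¹ x) - τ⁻¹ x) := by
      rw [map_sub, AlgEquiv.mul_apply, AlgEquiv.mul_apply]
      congr 1
      exact (AlgEquiv.apply_symm_apply τ x).symm
    rw [h2]
    exact inMax_algEquiv A F K N τ h1
  · letI algFE : Algebra F E := ((algebraMap K E).comp (algebraMap F K)).toAlgebra
    haveI towerFKE : @IsScalarTower F K E _ _ algFE.toSMul :=
      @IsScalarTower.of_algebraMap_eq F K E _ _ _ _ _ algFE (fun _ => rfl)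
    haveI towerFEN : @IsScalarTower F E N algFE.toSMul _ _ :=
      @IsScalarTower.of_algebraMap_eq F E N _ _ _ algFE _ _ (fun x => by
        show algebraMap F N x = algebraMap E N (algebraMap K E (algebraMap F K x))
        rw [IsScalarTower.algebraMap_apply F K N]
        rfl)
    haveI fdFE : @FiniteDimensional F E _ _ algFE.toModule :=
      @FiniteDimensional.trans F K E _ _ _ _ _ algFE.toModule towerFKE _ _
    obtain ⟨J, hJchar, hJcard⟩ := exists_inertia A F E N
    obtain ⟨ϖE, hE⟩ := H608.existsUnif A F E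
    have hb : Nat.card ↥(E.fixingSubgroup ⊓ I) = Nat.card J := by
      refine Nat.card_congr ?_
      exact
        { toFun := fun σ => ⟨IntermediateField.fixingSubgroupEquiv E ⟨σ.1, σ.2.1⟩,
            (hJchar _).2 (fun x hx => (hIchar σ.1).1 σ.2.2 x hx)⟩
          invFun := fun τ => ⟨((IntermediateField.fixingSubgroupEquiv E).symm τ.1).1,
            ⟨((IntermediateField.fixingSubgroupEquiv E).symm τ.1).2,
              (hIchar _).2 (fun x hx => (hJchar τ.1).1 τ.2 x hx)⟩⟩
          left_inv := fun σ => Subtype.ext (AlgEquiv.ext fun x => rfl)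
          right_inv := fun τ => Subtype.ext (AlgEquiv.ext fun x => rfl) }
    have hn := hIcard ϖK ϖN hK hN
    have hbN := hJcard ϖE ϖN hE hN
    obtain ⟨a, ha0, ha⟩ := exists_ramExp hK hE
    have htower := ramExp_tower (K := K) (E := E) (N := N) ha hbN
    have hnab : (Nat.card I : ℤ) = ((a * Nat.card J : ℕ) : ℤ) := unif_exp_unique hN hn htower
    have hnab' : Nat.card I = a * Nat.card J := by exact_mod_cast hnab
    have hJpos : 0 < Nat.card J := Nat.card_pos
    show (IsUnram A F N E ↔ E.fixingSubgroup ⊓ I = ⊥) ∧ (IsUnram A F E K ↔ I ≤ E.fixingSubgroup)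
    constructor
    · rw [isUnram_iff_ramExp_eq_one hE hN hbN, ← hb, Subgroup.card_eq_one]
    · rw [isUnram_iff_ramExp_eq_one hK hE ha]
      constructor
      · rintro rfl
        rw [one_mul] at hnab'
        have hle : E.fixingSubgroup ⊓ I ≤ I := inf_le_right
        have heq : E.fixingSubgroup ⊓ I = I :=
          Subgroup.eq_of_le_of_card_ge hle (by rw [hb, hnab'])
        rw [← heq]
        exact inf_le_left
      · intro hle
        have heq : E.fixingSubgroup ⊓ I = I := inf_eq_right.2 hle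
        rw [heq] at hb
        rw [hb] at hnab'
        have : 1 * Nat.card J = a * Nat.card J := by rw [one_mul]; exact hnab'
        exact (Nat.eq_of_mul_eq_mul_right hJpos this).symm

end Final

end Fermat.Agent.S55.Local.H959

end
-- ===== PACK-END S55/Local/H959/InertiaCard.lean

-- ===== PACK-BEGIN S55/L/Unr534/VS.lean
section


/-!
# S55, layer L, unramified extensions (helper534): bridge to valuation subrings

`K` a field of characteristic zero with a ring of integers `A : ValuationSubring K`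
(`IsLocalRingOfIntegers A`), `E / K` finite.

* `intVS534 A E`   : the integral closure of `A` in `E` as a valuation subring of `E`;
* `isLocalRingOfIntegers_intVS534`;
* `eq_intVS534`    : (uniqueness) every ring of integers of `E` is `intVS534 A E`;
* `isUniformizer_intVS_iff534` : a uniformizer of `A` is a uniformizer of `intVS534 A E` iff
  `𝔪_A C = 𝔪_C`.
-/

set_option autoImplicit false
set_option linter.style.haveILetI false
set_option linter.unusedSectionVars false

namespace Fermat.Agent.S55.L.Unr534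

open IsLocalRing Polynomial IntermediateField

section VS

variable {K : Type} [Field K] [CharZero K] (A : ValuationSubring K)
  (E : Type) [Field E] [Algebra K E] [FiniteDimensional K E]

/-- The integral closure of `A` in `E` as a valuation subring of `E`. -/
noncomputable def intVS534 (hA : IsLocalRingOfIntegers A) : ValuationSubring E :=
  haveI := hA.1
  haveI := hA.2.1
  haveI := hA.2.2
  { (integralClosure A E).toSubring with
    mem_or_inv_mem' := fun x => by
      haveI := isDVR_OE A K E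
      haveI : IsFractionRing (OE A E) E := H661.intClosure_isFractionRing A K E (OE A E)
      rcases ValuationRing.isInteger_or_isInteger (OE A E) x with ⟨y, hy⟩ | ⟨y, hy⟩
      · left
        have : (y : E) = x := hy
        rw [← this]
        exact y.2
      · right
        have : (y : E) = x⁻¹ := hy
        rw [← this]
        exact y.2 }

theorem mem_intVS534 (hA : IsLocalRingOfIntegers A) (x : E) :
    x ∈ intVS534 A E hA ↔ IsIntegral A x := Iff.rfl

theorem isLocalRingOfIntegers_intVS534 (hA : IsLocalRingOfIntegers A) :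
    IsLocalRingOfIntegers (intVS534 A E hA) :=
  haveI := hA.1
  haveI := hA.2.1
  haveI := hA.2.2
  ⟨isDVR_OE A K E, isAdicComplete_OE A K E, finite_residueField_OE A K E⟩

/-- The identity, as a ring isomorphism between the two incarnations of the ring of integers. -/
noncomputable def equivVS534 (hA : IsLocalRingOfIntegers A) : intVS534 A E hA ≃+* OE A E where
  toFun x := ⟨x.1, x.2⟩
  invFun x := ⟨x.1, x.2⟩
  left_inv _ := rfl
  right_inv _ := rfl
  map_mul' _ _ := rfl
  map_add' _ _ := rfl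

/-- Uniqueness: every ring of integers of `E` is the integral closure of `A`. -/
theorem eq_intVS534 (h0 : RingOfIntegersUniqueSpec) (hA : IsLocalRingOfIntegers A)
    (B : ValuationSubring E) (hB : IsLocalRingOfIntegers B) : B = intVS534 A E hA := by
  haveI : IsLocalFld E :=
    ⟨charZero_of_injective_algebraMap (algebraMap K E).injective, ⟨B, hB⟩⟩
  exact h0 E B (intVS534 A E hA) hB (isLocalRingOfIntegers_intVS534 A E hA)

theorem coe_algebraMap_OE534 (a : A) :
    ((algebraMap A (OE A E) a : OE A E) : E) = algebraMap K E (a : K) := rfl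

/-- A uniformizer of `A` is a uniformizer of the ring of integers of `E` iff `𝔪_A C = 𝔪_C`. -/
theorem isUniformizer_intVS_iff534 (hA : IsLocalRingOfIntegers A) (π : K)
    (hπ : IsUniformizer A π) :
    haveI := hA.1
    haveI := hA.2.1
    haveI := hA.2.2
    haveI := isLocalRing_OE A K E
    IsUniformizer (intVS534 A E hA) (algebraMap K E π) ↔
      (maximalIdeal A).map (algebraMap A (OE A E)) = maximalIdeal (OE A E) := by
  haveI := hA.1
  haveI := hA.2.1
  haveI := hA.2.2
  haveI := isLocalRing_OE A K E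
  haveI := isDVR_OE A K E
  obtain ⟨hπA, hirr⟩ := hπ
  have hmax : maximalIdeal A = Ideal.span {(⟨π, hπA⟩ : A)} :=
    (IsDiscreteValuationRing.irreducible_iff_uniformizer _).mp hirr
  have hmap : (maximalIdeal A).map (algebraMap A (OE A E)) =
      Ideal.span {algebraMap A (OE A E) ⟨π, hπA⟩} := by
    rw [hmax, Ideal.map_span, Set.image_singleton]
  have hmem : algebraMap K E π ∈ intVS534 A E hA :=
    (algebraMap A (OE A E) ⟨π, hπA⟩).2
  have heq : equivVS534 A E hA ⟨algebraMap K E π, hmem⟩ = algebraMap A (OE A E) ⟨π, hπA⟩ :=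
    Subtype.ext rfl
  rw [hmap]
  constructor
  · rintro ⟨h', hirr'⟩
    have h1 : Irreducible (equivVS534 A E hA ⟨algebraMap K E π, h'⟩) :=
      (MulEquiv.irreducible_iff (equivVS534 A E hA).toMulEquiv).mpr hirr'
    rw [heq] at h1
    exact ((IsDiscreteValuationRing.irreducible_iff_uniformizer _).mp h1).symm
  · intro h
    have h1 : Irreducible (algebraMap A (OE A E) ⟨π, hπA⟩) :=
      (IsDiscreteValuationRing.irreducible_iff_uniformizer _).mpr h.symm
    rw [← heq] at h1
    exact ⟨hmem, (MulEquiv.irreducible_iff (equivVS534 A E hA).toMulEquiv).mp h1⟩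

/-- A ring of integers has a uniformizer. -/
theorem exists_isUniformizer534 (hA : IsLocalRingOfIntegers A) : ∃ π : K, IsUniformizer A π := by
  haveI := hA.1
  obtain ⟨ϖ, hϖ⟩ := IsDiscreteValuationRing.exists_irreducible A
  exact ⟨(ϖ : K), ϖ.2, hϖ⟩

end VS

end Fermat.Agent.S55.L.Unr534

end
-- ===== PACK-END S55/L/Unr534/VS.lean

-- ===== PACK-BEGIN S55/G/Rec/Loc/RefineH63.lean
section



/-!
# S55 / G / REC / LOC : leaf LOC-REF (`RefineSpec`)  — helper63

Refinement of the finite level: for `E ≤ E'` (finite Galois over `K_V`) a cocycle `f` on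
`Gal(E/K_V)` has the inflation `f'` on `Gal(E'/K_V)`; `f` and `f'` have the same absolute
inflation to `V` and the same invariant (`InvFamily.inv_inflation`).
-/

set_option autoImplicit false

noncomputable section

namespace Fermat.Agent.S55.G.Rec.Loc.H63

open groupCohomology

variable (q : ℕ) [Fact q.Prime]

/-- Restricting first to `E'` and then to `E ≤ E'` is restricting to `E`. -/
lemma restrict_resHom63 (V : Subgroup (PadicAlgCl q ≃ₐ[ℚ_[q]] PadicAlgCl q))
    (E E' : IntermediateField (fixedFld q V) (PadicAlgCl q))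
    [Normal (fixedFld q V) E] [Normal (fixedFld q V) E'] (_hEE' : E ≤ E')
    [Algebra E E'] [IsScalarTower (fixedFld q V) E E']
    (halg : ∀ x : E, ((algebraMap E E' x : E') : PadicAlgCl q) = (x : PadicAlgCl q))
    (g : ↥V) :
    AlgEquiv.restrictNormalHom (F := fixedFld q V) (K₁ := E') E (resHom q V E' g) =
      resHom q V E g := by
  ext x
  rw [← halg]
  have h1 : algebraMap E E'
      (AlgEquiv.restrictNormalHom (F := fixedFld q V) (K₁ := E') E (resHom q V E' g) x) =
        (resHom q V E' g) (algebraMap E E' x) :=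
    AlgEquiv.restrictNormal_commutes _ E x
  rw [h1, resHom_apply_coe, resHom_apply_coe, halg]

theorem refine63 : RefineSpec := by
  intro q _ V _ E E' _ _ _ _ hEE' f
  let _ : Algebra E E' := (IntermediateField.inclusion hEE').toRingHom.toAlgebra
  have : IsScalarTower (fixedFld q V) E E' :=
    IsScalarTower.of_algebraMap_eq
      (fun x => ((IntermediateField.inclusion hEE').commutes x).symm)
  have halg : ∀ x : E, ((algebraMap E E' x : E') : PadicAlgCl q) = (x : PadicAlgCl q) :=
    fun x => rfl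
  refine ⟨(L.Inv481.inflPair (fixedFld q V) E E').pullCocycle f, ?_, ?_⟩
  · intro c hc
    unfold IsAbsInflation at hc ⊢
    rw [hc]
    funext ⟨g, h⟩
    have h1 := L.Inv481.GalPair.isPull_pullCocycle (L.Inv481.inflPair (fixedFld q V) E E') f
      (resHom q V E' g) (resHom q V E' h)
    show Additive.ofMul (unitsIncl q V E (Additive.toMul
        ((f : (E ≃ₐ[fixedFld q V] E) × (E ≃ₐ[fixedFld q V] E) → L.unitsRep (fixedFld q V) E)
          (resHom q V E g, resHom q V E h)))) =
      Additive.ofMul (unitsIncl q V E' (Additive.toMul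
        (((L.Inv481.inflPair (fixedFld q V) E E').pullCocycle f :
          (E' ≃ₐ[fixedFld q V] E') × (E' ≃ₐ[fixedFld q V] E') → L.unitsRep (fixedFld q V) E')
          (resHom q V E' g, resHom q V E' h))))
    rw [h1]
    have e1 : (L.Inv481.inflPair (fixedFld q V) E E').f (resHom q V E' g) = resHom q V E g :=
      restrict_resHom63 q V E E' hEE' halg g
    have e2 : (L.Inv481.inflPair (fixedFld q V) E E').f (resHom q V E' h) = resHom q V E h :=
      restrict_resHom63 q V E E' hEE' halg h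
    rw [e1, e2]
    rfl
  · intro J
    exact J.inv_inflation (fixedFld q V) E E' f _
      ((L.Inv481.isInflation_iff_isPull _ _).2 (L.Inv481.GalPair.isPull_pullCocycle _ _))

end Fermat.Agent.S55.G.Rec.Loc.H63

end
end
-- ===== PACK-END S55/G/Rec/Loc/RefineH63.lean

-- ===== PACK-BEGIN S56/H716/SBDefs.lean
section


/-!
# Row S56 — SELBOUND, layer 2: FROZEN definitions (deputy helper716)

Plain-function language of layers 0 and 1 (`c : G_ℚ → End_k V`, `V = ρbar.V`).

* `IsAdCoboundaryOn ρbar H c` — `c` is an (untwisted) coboundary on the subgroup `H ≤ G_ℚ`.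
* `adInv ρbar H`              — `H⁰(H, ad⁰ρ̄)`: trace-zero endomorphisms commuting with `ρ̄(H)`.
* `UnramAt c q`               — `c` vanishes on every inertia group above `q`.
* `IsSelCocycle ρbar Pl Λ Smin Q c` — `c ∈ Z¹(G_ℚ, ad⁰ρ̄)` (finite level), unramified outside
  `Smin ∪ Q`, and for every `v ∈ Smin` the restriction of `c` to the decomposition group of the
  chosen place `Pl v` above `v` is cohomologous to (the restriction of) an element of `Λ v`.
  ("Selmer cocycles" for the local conditions `L_v = image of Λ v in H¹(D_{Pl v}, ad⁰ρ̄)`.)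

Nothing unproved in this file.  Plan: `coord/S56-TB.md` on `origin/main`.
-/

set_option autoImplicit false

open Polynomial IsLocalRing

noncomputable section

namespace Fermat.Agent.S56.H716

open Fermat.Agent.S56

section

variable {k : Type} [Field k] (ρbar : ResidualGaloisRep k)

/-- `c` is an (untwisted) coboundary on the subgroup `H`. -/
def IsAdCoboundaryOn (H : Subgroup GQ) (c : GQ → Module.End k ρbar.V) : Prop :=
  ∃ m : Module.End k ρbar.V, ∀ σ ∈ H, c σ = ρbar.ρ σ * m * ρbar.ρ σ⁻¹ - m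

/-- `H⁰(H, ad⁰ρ̄)`: the trace-zero endomorphisms fixed by the adjoint action of `H`. -/
def adInv (H : Subgroup GQ) : Submodule k (Module.End k ρbar.V) where
  carrier := {m | LinearMap.trace k ρbar.V m = 0 ∧ ∀ σ ∈ H, ρbar.ρ σ * m * ρbar.ρ σ⁻¹ = m}
  add_mem' := by
    rintro a b ⟨ha, ha'⟩ ⟨hb, hb'⟩
    refine ⟨by rw [map_add, ha, hb, add_zero], fun σ hσ => ?_⟩
    rw [mul_add, add_mul, ha' σ hσ, hb' σ hσ]
  zero_mem' := ⟨map_zero _, fun σ _ => by rw [mul_zero, zero_mul]⟩
  smul_mem' := by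
    rintro r a ⟨ha, ha'⟩
    refine ⟨by rw [map_smul, ha, smul_zero], fun σ hσ => ?_⟩
    rw [mul_smul_comm, smul_mul_assoc, ha' σ hσ]

/-- `c` vanishes on every inertia group above the prime `q`. -/
def UnramAt (c : GQ → Module.End k ρbar.V) (q : ℕ) : Prop :=
  ∀ P : ValuationSubring Qb, P.LiesOverPrime q → ∀ σ ∈ P.inertiaSubgroupIn ℚ, c σ = 0

/-- Selmer cocycles for the local conditions cut out by the spaces `Λ v` (`v ∈ Smin`) at the
places `Pl v`, with no condition at `Q` and the unramified condition elsewhere. -/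
structure IsSelCocycle (Pl : ℕ → ValuationSubring Qb)
    (Λ : ℕ → Submodule k (GQ → Module.End k ρbar.V)) (Smin Q : Finset ℕ)
    (c : GQ → Module.End k ρbar.V) : Prop where
  cocycle : IsAdCocycle ρbar c
  unram : ∀ q : ℕ, q.Prime → q ∉ Smin ∪ Q → UnramAt ρbar c q
  loc : ∀ v ∈ Smin, ∃ t ∈ Λ v, IsAdCoboundaryOn ρbar ((Pl v).decompositionSubgroup ℚ) (c - t)

end

end Fermat.Agent.S56.H716

end

end
-- ===== PACK-END S56/H716/SBDefs.lean

-- ===== PACK-BEGIN S56/FL/RamSpec.lean
section


/-!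
# Row S56 — wall W-FLAT-SS, piece RAMCOUNT: FROZEN inner interface (sub-architect helper426)

`RamCountStatement ⇐ RCTame + RCInfl + RCWild + RCBreak + RCLine`   (glue: `FL/RamGlue.lean`)

Everything here is pure algebra (Mathlib only).  Blueprint: `coord/S56-FLATSS-helper426.md` §3.

`RCDatum` bundles the hypotheses of `RamCountStatement`: discrete valuation rings `A ⊂ B` of
characteristic `0`, `A` with uniformizer `p` and residue field `𝔽_p`, `B/A` Galois with group `Γ`
and satisfying the different bound of Theorem D; an irreducible representation `ρ : Γ → GL₂(k)`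
(`k` finite of characteristic `p`, eigenvalues in `k`, cyclotomic determinant) and two trace-zero
`Ad ρ`-cocycles `c₁, c₂` such that `(ρ, c₁, c₂)` is faithful.  Notation: `W = ker ρ`,
`Γ_n = ramGroup B Γ n` (lower numbering; `Γ₀` = inertia, `Γ₁` = wild inertia).

* `RCTameStatement` (SS):   `p ∤ [Γ : ker ρ]`.
* `RCInflStatement` (IR):   if `p ∤ [Γ : ker ρ]`, a cocycle vanishing on `W` is a coboundary.
* `RCWildStatement` (C1):   `W = Γ₁` (given `p ∤ [Γ : ker ρ]`).
* `RCBreakStatement` (C2 + C3): `W` has a single break: `Γ_n = Γ₁`, `Γ_{n+1} = 1` for some `n ≥ 1`;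
  if `W ≠ 1` then `n = p - 1` and the tame ramification index `|Γ₀/Γ₁|` is `p² - 1`.
* `RCLineStatement` (C4):   if `W = Γ₁` has a single break then `c₁|_W, c₂|_W` are linearly dependent.

Nothing unproved in this file.
-/

set_option autoImplicit false

open Polynomial IsLocalRing

noncomputable section

namespace Fermat.Agent.S56.FL

/-- The `n`-th ramification group (lower numbering) of a group `Γ` acting on a local ring `B`:
`Γ_n = {σ | ∀ x, σ x - x ∈ 𝔪_B ^ (n + 1)}`. -/
def ramGroup (B Γ : Type) [CommRing B] [IsLocalRing B] [Group Γ] [MulSemiringAction Γ B]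
    (n : ℕ) : Subgroup Γ :=
  (maximalIdeal B ^ (n + 1)).toAddSubgroup.inertia Γ

lemma mem_ramGroup {B Γ : Type} [CommRing B] [IsLocalRing B] [Group Γ] [MulSemiringAction Γ B]
    {n : ℕ} {σ : Γ} : σ ∈ ramGroup B Γ n ↔ ∀ x : B, σ • x - x ∈ maximalIdeal B ^ (n + 1) :=
  Iff.rfl

/-- The data and hypotheses of `RamCountStatement`, bundled. -/
structure RCDatum : Type 1 where
  /-- the residue characteristic -/
  p : ℕ
  /-- the base ring (`P ∩ ℚ̄^{D_P}` in the application) -/
  A : Type
  /-- the ring of integers of the field cut out by `(ρ, c₁, c₂)` -/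
  B : Type
  /-- the Galois group -/
  Γ : Type
  /-- the coefficient field -/
  k : Type
  /-- the representation space -/
  V : Type
  [commRingA : CommRing A]
  [isDomainA : IsDomain A]
  [dvrA : IsDiscreteValuationRing A]
  [commRingB : CommRing B]
  [isDomainB : IsDomain B]
  [dvrB : IsDiscreteValuationRing B]
  [charZeroB : CharZero B]
  [algebraAB : Algebra A B]
  [finiteAB : Module.Finite A B]
  [faithfulAB : FaithfulSMul A B]
  [groupΓ : Group Γ]
  [finiteΓ : Finite Γ]
  [actionΓ : MulSemiringAction Γ B]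
  [smulCommΓ : SMulCommClass Γ A B]
  [invariantΓ : Algebra.IsInvariant A B Γ]
  [faithfulΓ : FaithfulSMul Γ B]
  [fieldk : Field k]
  [finitek : Finite k]
  [addCommGroupV : AddCommGroup V]
  [moduleV : Module k V]
  [finiteV : Module.Finite k V]
  hp : p.Prime
  hp2 : p ≠ 2
  hA : maximalIdeal A = Ideal.span {(p : A)}
  hκ : Nat.card (ResidueField A) = p
  /-- the absolute ramification index of `B` -/
  e : ℕ
  he : Ideal.span {(p : B)} = maximalIdeal B ^ e
  /-- the different bound of Theorem D -/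
  hD : ∀ j : ℕ, ¬ p ∣ j → j < e → e < j * (p - 1) →
    differentIdeal A B ∣ Ideal.span {(p : B)} * maximalIdeal B ^ (j - 1)
  hchar : CharP k p
  hV : Module.finrank k V = 2
  /-- the residual representation -/
  ρ : Γ →* Module.End k V
  hirr : ∀ U : Submodule k V, (∀ (σ : Γ), ∀ x ∈ U, ρ σ x ∈ U) → U = ⊥ ∨ U = ⊤
  hsplit : ∀ σ : Γ, ∃ α β : k, LinearMap.charpoly (ρ σ) = (X - C α) * (X - C β)
  /-- a primitive `p`-th root of unity -/
  ζ : B
  hζ : IsPrimitiveRoot ζ p
  hdet : ∀ (σ : Γ) (a : ℕ), σ • ζ = ζ ^ a → LinearMap.det (ρ σ) = (a : k)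
  /-- the first cocycle -/
  c₁ : Γ → Module.End k V
  /-- the second cocycle -/
  c₂ : Γ → Module.End k V
  hc₁ : ∀ σ τ, c₁ (σ * τ) = c₁ σ + ρ σ * c₁ τ * ρ σ⁻¹
  hc₂ : ∀ σ τ, c₂ (σ * τ) = c₂ σ + ρ σ * c₂ τ * ρ σ⁻¹
  htr₁ : ∀ σ, LinearMap.trace k V (c₁ σ) = 0
  htr₂ : ∀ σ, LinearMap.trace k V (c₂ σ) = 0
  hfaith : ∀ σ, ρ σ = 1 → c₁ σ = 0 → c₂ σ = 0 → σ = 1

namespace RCDatum

attribute [instance] commRingA isDomainA dvrA commRingB isDomainB dvrB charZeroB algebraAB
  finiteAB faithfulAB groupΓ finiteΓ actionΓ smulCommΓ invariantΓ faithfulΓ fieldk finitek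
  addCommGroupV moduleV finiteV

/-- The conclusion of `RamCountStatement`: `c₁, c₂` are dependent modulo coboundaries. -/
def Concl (d : RCDatum) : Prop :=
  ∃ a₁ a₂ : d.k, (a₁ ≠ 0 ∨ a₂ ≠ 0) ∧ ∃ m : Module.End d.k d.V,
    ∀ σ, a₁ • d.c₁ σ + a₂ • d.c₂ σ = d.ρ σ * m * d.ρ σ⁻¹ - m

/-- `c₁, c₂` restricted to `W = ker ρ` are linearly dependent. -/
def DepOnKer (d : RCDatum) : Prop :=
  ∃ a₁ a₂ : d.k, (a₁ ≠ 0 ∨ a₂ ≠ 0) ∧ ∀ σ, d.ρ σ = 1 → a₁ • d.c₁ σ + a₂ • d.c₂ σ = 0

/-- `W = ker ρ` is the wild inertia group `Γ₁`. -/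
def KerEqWild (d : RCDatum) : Prop :=
  ∀ σ : d.Γ, d.ρ σ = 1 ↔ σ ∈ ramGroup d.B d.Γ 1

/-- The wild inertia group has a single break `n ≥ 1`; if it is nontrivial then `n = p - 1` and
the tame ramification index is `p² - 1`. -/
def SingleBreak (d : RCDatum) : Prop :=
  ∃ n : ℕ, 1 ≤ n ∧ ramGroup d.B d.Γ n = ramGroup d.B d.Γ 1 ∧ ramGroup d.B d.Γ (n + 1) = ⊥ ∧
    (ramGroup d.B d.Γ 1 ≠ ⊥ → n = d.p - 1 ∧
      Nat.card (ramGroup d.B d.Γ 0) = (d.p ^ 2 - 1) * Nat.card (ramGroup d.B d.Γ 1))

end RCDatum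

/-- (SS) the image of `ρ` has order prime to `p`. -/
def RCTameStatement : Prop :=
  ∀ d : RCDatum, ¬ d.p ∣ d.ρ.ker.index

/-- (IR) inflation–restriction: for any finite group `Γ`, any representation `ρ` on a vector space
over a field of characteristic `p` whose image has order prime to `p`, a cocycle for `Ad ρ`
vanishing on `ker ρ` is a coboundary. -/
def RCInflStatement : Prop :=
  ∀ (p : ℕ) [Fact p.Prime] (Γ : Type) [Group Γ] [Finite Γ] (k : Type) [Field k] [CharP k p]
    (V : Type) [AddCommGroup V] [Module k V] (ρ : Γ →* Module.End k V),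
    ¬ p ∣ ρ.ker.index →
    ∀ c : Γ → Module.End k V, (∀ σ τ, c (σ * τ) = c σ + ρ σ * c τ * ρ σ⁻¹) →
      (∀ σ, ρ σ = 1 → c σ = 0) →
      ∃ m : Module.End k V, ∀ σ, c σ = ρ σ * m * ρ σ⁻¹ - m

/-- (C1) `ker ρ` is the wild inertia group. -/
def RCWildStatement : Prop :=
  ∀ d : RCDatum, ¬ d.p ∣ d.ρ.ker.index → d.KerEqWild

/-- (C2 + C3) the wild inertia group has a single break. -/
def RCBreakStatement : Prop :=
  ∀ d : RCDatum, ¬ d.p ∣ d.ρ.ker.index → d.KerEqWild → d.SingleBreak

/-- (C4) if `ker ρ = Γ₁` has a single break, then `c₁, c₂` are dependent on `ker ρ`. -/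
def RCLineStatement : Prop :=
  ∀ d : RCDatum, ¬ d.p ∣ d.ρ.ker.index → d.KerEqWild → d.SingleBreak → d.DepOnKer

end Fermat.Agent.S56.FL

end

end
-- ===== PACK-END S56/FL/RamSpec.lean

-- ===== PACK-BEGIN S56/H914/BRLocal.lean
section





/-!
# Row S56 — W-FLAT-SS, piece FL-BR (helper914), part 3: the local model of a place `P | p`

For ANY valuation subring `P` of `ℚ̄` over the prime `p` we produce a *local model*:

* an embedding `ι : ℚ̄ →ₐ[ℚ] ℚ̄_p` (`ℚ̄_p = PadicAlgCl p`) with `x ∈ P ↔ ‖ι x‖ ≤ 1`;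
* an injective homomorphism `Ψ : Gal(ℚ̄_p/ℚ_p) →* G_ℚ` with range the decomposition group `D_P`,
  such that `ι (Ψ τ x) = τ (ι x)`;
* `Ψ τ ∈ I_P` (Prelude inertia) iff `τ` acts trivially on the residue field of `ℚ̄_p`
  (`‖τ y − y‖ < 1` for `‖y‖ ≤ 1`);
* `ι(ℚ̄)` is dense in `ℚ̄_p` and contains every root of a nonzero rational polynomial.

Built from the Prelude's `padicEmbedding`, `padicPlace`, `localGaloisToGlobal`, the landed S55 bridge
(`range_localGaloisToGlobal`, Krasner) and transitivity of `G_ℚ` on the places over `p`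
(`Lib.Cheb.H476.exists_smul_eq`).
-/

set_option autoImplicit false
set_option linter.style.haveILetI false

open scoped Pointwise NNReal

noncomputable section

namespace Fermat.Agent.S56.H914

/-- `ℚ̄`. -/
abbrev QbL : Type := AlgebraicClosure ℚ

/-- `Gal(ℚ̄/ℚ)`. -/
abbrev GQL : Type := AlgebraicClosure ℚ ≃ₐ[ℚ] AlgebraicClosure ℚ

/-- The local Galois group `Gal(ℚ̄_p/ℚ_p)`. -/
abbrev GQp (p : ℕ) [Fact p.Prime] : Type := PadicAlgCl p ≃ₐ[ℚ_[p]] PadicAlgCl p

/-- A local model of the place `P` over `p`. -/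
structure LocalModel (p : ℕ) [Fact p.Prime] (P : ValuationSubring QbL) where
  /-- the embedding `ℚ̄ → ℚ̄_p` -/
  ι : QbL →ₐ[ℚ] PadicAlgCl p
  /-- the local Galois group as the decomposition group -/
  Ψ : GQp p →* GQL
  Ψ_injective : Function.Injective Ψ
  range_Ψ : Ψ.range = P.decompositionSubgroup ℚ
  ι_Ψ : ∀ (τ : GQp p) (x : QbL), ι (Ψ τ x) = τ (ι x)
  mem_iff : ∀ x : QbL, x ∈ P ↔ ‖ι x‖ ≤ 1
  dense : ∀ (y : PadicAlgCl p) {δ : ℝ}, 0 < δ → ∃ b : QbL, ‖y - ι b‖ < δ
  root_mem : ∀ (g : Polynomial ℚ), g ≠ 0 → ∀ y : PadicAlgCl p, Polynomial.aeval y g = 0 →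
    ∃ b : QbL, ι b = y

namespace LocalModel

variable {p : ℕ} [Fact p.Prime] {P : ValuationSubring QbL}

lemma ι_injective (M : LocalModel p P) : Function.Injective M.ι := M.ι.toRingHom.injective

lemma Ψ_mem (M : LocalModel p P) (τ : GQp p) : M.Ψ τ ∈ P.decompositionSubgroup ℚ := by
  rw [← M.range_Ψ]
  exact ⟨τ, rfl⟩

lemma exists_Ψ_eq (M : LocalModel p P) {σ : GQL} (hσ : σ ∈ P.decompositionSubgroup ℚ) :
    ∃ τ : GQp p, M.Ψ τ = σ := by
  rw [← M.range_Ψ] at hσ
  exact hσ

lemma norm_τ (τ : GQp p) (y : PadicAlgCl p) : ‖τ y‖ = ‖y‖ := by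
  have h := nnnorm_padicAlgCl_algEquiv p τ y
  exact congrArg NNReal.toReal h

lemma mem_nonunits_iff (M : LocalModel p P) (x : QbL) : x ∈ P.nonunits ↔ ‖M.ι x‖ < 1 := by
  rw [Fermat.Agent.S55.Bridge.mem_nonunits_iff_inv_not_mem]
  rcases eq_or_ne x 0 with rfl | hx
  · simp
  · simp only [hx, false_or]
    rw [M.mem_iff, map_inv₀, norm_inv, not_le]
    have hpos : 0 < ‖M.ι x‖ := by
      rw [norm_pos_iff]
      exact (map_ne_zero_iff _ M.ι_injective).mpr hx
    rw [one_lt_inv₀ hpos]

/-- Inertia on the global side = inertia on the local side. -/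
theorem Ψ_mem_inertia_iff (M : LocalModel p P) (τ : GQp p) :
    M.Ψ τ ∈ P.inertiaSubgroupIn ℚ ↔ ∀ y : PadicAlgCl p, ‖y‖ ≤ 1 → ‖τ y - y‖ < 1 := by
  rw [Fermat.Agent.S55.Bridge.mem_inertiaSubgroupIn_iff]
  constructor
  · rintro ⟨-, h⟩ y hy
    obtain ⟨b, hb⟩ := M.dense y (δ := 1) one_pos
    have hb1 : ‖M.ι b‖ ≤ 1 := by
      have h1 : M.ι b = y - (y - M.ι b) := by ring
      rw [h1, sub_eq_add_neg]
      refine le_trans (PadicAlgCl.isNonarchimedean p y (-(y - M.ι b))) ?_
      rw [norm_neg]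
      exact max_le hy hb.le
    have h2 := h b ((M.mem_iff b).mpr hb1)
    rw [M.mem_nonunits_iff, map_sub, M.ι_Ψ] at h2
    have h3 : τ y - y = (τ (y - M.ι b) + -(y - M.ι b)) + (τ (M.ι b) - M.ι b) := by
      rw [map_sub]
      ring
    rw [h3]
    refine lt_of_le_of_lt (PadicAlgCl.isNonarchimedean p _ _) (max_lt ?_ h2)
    refine lt_of_le_of_lt (PadicAlgCl.isNonarchimedean p _ _) (max_lt ?_ ?_)
    · rw [norm_τ]
      exact hb
    · rw [norm_neg]
      exact hb
  · intro h
    refine ⟨M.Ψ_mem τ, fun z hz => ?_⟩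
    rw [M.mem_nonunits_iff, map_sub, M.ι_Ψ]
    exact h _ ((M.mem_iff z).mp hz)

end LocalModel

section Exists

variable (p : ℕ) [Fact p.Prime]

/-- The standard local model of the standard place `padicPlace p`, conjugated by `g`. -/
def conjLocalModel (g : GQL) : LocalModel p (g • padicPlace p) where
  ι := (padicEmbedding p).comp ((g⁻¹ : GQL) : QbL →ₐ[ℚ] QbL)
  Ψ := (MulAut.conj g).toMonoidHom.comp (localGaloisToGlobal p)
  Ψ_injective := by
    intro τ τ' h
    apply Fermat.Agent.S55.Bridge.localGaloisToGlobal_injective p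
    exact (MulAut.conj g).injective h
  range_Ψ := by
    rw [MonoidHom.range_comp, Fermat.Agent.S55.BLocal.range_localGaloisToGlobal]
    ext σ
    rw [Subgroup.mem_map, Fermat.Agent.S55.Bridge.mem_decompositionSubgroup_iff]
    constructor
    · rintro ⟨σ₀, hσ₀, rfl⟩ x
      rw [Fermat.Agent.S55.Bridge.mem_decompositionSubgroup_iff] at hσ₀
      rw [Fermat.Agent.S55.Bridge.mem_smul_valuationSubring_iff,
        Fermat.Agent.S55.Bridge.mem_smul_valuationSubring_iff]
      show g⁻¹ ((g * σ₀ * g⁻¹) x) ∈ padicPlace p ↔ _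
      rw [Fermat.Agent.S55.Bridge.apply_inv_conj, hσ₀]
    · intro h
      refine ⟨g⁻¹ * σ * g, ?_, ?_⟩
      · rw [Fermat.Agent.S55.Bridge.mem_decompositionSubgroup_iff]
        intro x
        have h1 := h (g x)
        rw [Fermat.Agent.S55.Bridge.mem_smul_valuationSubring_iff,
          Fermat.Agent.S55.Bridge.mem_smul_valuationSubring_iff] at h1
        have h2 : g⁻¹ (g x) = x := by
          show (g⁻¹ * g) x = x
          rw [inv_mul_cancel]
          rfl
        rw [h2] at h1
        exact h1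
      · show g * (g⁻¹ * σ * g) * g⁻¹ = σ
        group
  ι_Ψ := by
    intro τ x
    show padicEmbedding p (g⁻¹ ((g * localGaloisToGlobal p τ * g⁻¹) x)) = _
    rw [Fermat.Agent.S55.Bridge.apply_inv_conj, padicEmbedding_localGaloisToGlobal]
    rfl
  mem_iff := by
    intro x
    rw [Fermat.Agent.S55.Bridge.mem_smul_valuationSubring_iff,
      Fermat.Agent.S55.BLocal.mem_padicPlace_iff_qnorm]
    rfl
  dense := by
    intro y δ hδ
    obtain ⟨b, hb⟩ := Fermat.Agent.S55.Bridge.exists_global_near p y hδ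
    refine ⟨g b, ?_⟩
    show ‖y - padicEmbedding p (g⁻¹ (g b))‖ < δ
    have h2 : g⁻¹ (g b) = b := by
      show (g⁻¹ * g) b = b
      rw [inv_mul_cancel]
      rfl
    rw [h2]
    exact hb
  root_mem := by
    intro f hf y hy
    obtain ⟨b, hb⟩ := Fermat.Agent.S55.Bridge.mem_range_padicEmbedding_of_root p f hf y hy
    refine ⟨g b, ?_⟩
    show padicEmbedding p (g⁻¹ (g b)) = y
    have h2 : g⁻¹ (g b) = b := by
      show (g⁻¹ * g) b = b
      rw [inv_mul_cancel]
      rfl
    rw [h2]
    exact hb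

/-- **Every place over `p` has a local model.** -/
theorem exists_localModel {P : ValuationSubring QbL} (hP : P.LiesOverPrime p) :
    Nonempty (LocalModel p P) := by
  have hp : p.Prime := Fact.out
  have h0 : (padicPlace p).LiesOverPrime p :=
    Fermat.Agent.S55.BLocal.primeLocalPlace_liesOver ⟨p, hp⟩
  obtain ⟨g, hg⟩ := Fermat.Agent.Lib.Cheb.H476.exists_smul_eq hp h0 hP
  rw [← hg]
  exact ⟨conjLocalModel p g⟩

end Exists

end Fermat.Agent.S56.H914

end

end
-- ===== PACK-END S56/H914/BRLocal.lean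

-- ===== PACK-BEGIN S56/H334/RamQuotFormula.lean
section


/-!
# S56 / W-FLAT-SS, piece FL-RAM (helper334), part 9: the quotient formula

Setting of `RamQuot` (`A ⊆ B` DVRs, `Γ` finite Galois group, `N ⊴ Γ`, finite residue fields).

* `dvd_prod_sub_smul`, `prod_sub_smul_dvd` : for `B = A[x]`, `B^N = A[y]` and `σ ∈ Γ`, the
  elements `σ y - y` and `∏_{h ∈ N} (x - σ h x)` of `B` divide each other.
* `quot_formula` (Serre, Local Fields IV §1 Prop. 3): for `N ≤ Γ₀` and `σ ∉ N`,
  `∑_{w ∈ N} i_Γ(σ w) = |N| · i_{Γ/N}(σ N)`.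
-/

set_option autoImplicit false
set_option linter.unusedSectionVars false
set_option linter.style.haveILetI false

open IsLocalRing Polynomial

namespace Fermat.Agent.S56.H334

section Core

variable (A B Γ : Type*) [CommRing A] [CommRing B] [IsDomain B] [Algebra A B]
  [Group Γ] [MulSemiringAction Γ B] [SMulCommClass Γ A B] (N : Subgroup Γ) [Fintype N]

/-- Twisted evaluation: apply `σ` to the coefficients, then evaluate at `x`. -/
noncomputable def twistEval (σ : Γ) (x : B) : B[X] →+* B :=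
  eval₂RingHom (MulSemiringAction.toRingHom Γ B σ) x

theorem twistEval_X_sub_C (σ : Γ) (x b : B) : twistEval B Γ σ x (X - C b) = x - σ • b := by
  simp [twistEval]

theorem twistEval_charpoly (σ : Γ) (x : B) :
    twistEval B Γ σ x (MulSemiringAction.charpoly N x) = ∏ h : N, (x - (σ * (h : Γ)) • x) := by
  rw [MulSemiringAction.charpoly_eq, map_prod]
  refine Finset.prod_congr rfl fun h _ => ?_
  rw [twistEval_X_sub_C, mul_smul]
  rfl

theorem twistEval_map_algebraMap (σ : Γ) (x : B) (g : A[X]) :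
    twistEval B Γ σ x (g.map (algebraMap A B)) = aeval x g := by
  rw [twistEval, coe_eval₂RingHom, eval₂_map, aeval_def]
  congr 1
  ext a
  simp [smul_algebraMap]

/-- `σ y - y ∣ ∏_{h ∈ N} (x - σ h x)` if `y` generates `B^N` over `A`. -/
theorem dvd_prod_sub_smul [N.Normal] (σ : Γ) (x : B) {y : FixedPoints.subalgebra A B N}
    (hy : Algebra.adjoin A {y} = ⊤) :
    σ • (y : B) - y ∣ ∏ h : N, (x - (σ * (h : Γ)) • x) := by
  rw [← twistEval_charpoly]
  set f := MulSemiringAction.charpoly N x with hf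
  have h0 : eval x f = 0 := MulSemiringAction.eval_charpoly N x
  have h1 : twistEval B Γ σ x f = twistEval B Γ σ x f - eval x f := by rw [h0, sub_zero]
  rw [h1, twistEval, coe_eval₂RingHom, eval₂_eq_sum_range, eval_eq_sum_range,
    ← Finset.sum_sub_distrib]
  refine Finset.dvd_sum fun i _ => ?_
  rw [← sub_mul]
  apply Dvd.dvd.mul_right
  -- the coefficient is fixed by `N`
  have hfix : ∀ h : N, h • f.coeff i = f.coeff i :=
    fun h => MulSemiringAction.smul_coeff_charpoly x i h
  set c : FixedPoints.subalgebra A B N := ⟨f.coeff i, hfix⟩ with hc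
  have hcmem : c ∈ Algebra.adjoin A {y} := by rw [hy]; exact Algebra.mem_top
  have h2 := sub_dvd_smul_sub_of_mem_adjoin (A := A) (σ : Γ ⧸ N) y hcmem
  obtain ⟨d, hd⟩ := h2
  refine ⟨(d : B), ?_⟩
  have h3 := congrArg Subtype.val hd
  exact h3

variable [IsDomain A] [IsDiscreteValuationRing A] [IsDiscreteValuationRing B]
  [Module.Finite A B] [FaithfulSMul A B] [Finite Γ] [Algebra.IsInvariant A B Γ] [FaithfulSMul Γ B]

theorem adjoin_fixedPoints_eq_top {x : B} (hx : Algebra.adjoin A {x} = ⊤) :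
    Algebra.adjoin (FixedPoints.subalgebra A B N) {x} = ⊤ := by
  rw [eq_top_iff]
  intro b _
  have hb : b ∈ Algebra.adjoin A {x} := by rw [hx]; exact Algebra.mem_top
  have hle : Algebra.adjoin A {x} ≤
      (Algebra.adjoin (FixedPoints.subalgebra A B N) {x}).restrictScalars A :=
    Algebra.adjoin_le (by
      intro z hz
      exact Algebra.subset_adjoin hz)
  exact hle hb

/-- `∏_{h ∈ N} (x - σ h x) ∣ σ y - y` if `x` generates `B` over `A`. -/
theorem prod_sub_smul_dvd (σ : Γ) {x : B} (hx : Algebra.adjoin A {x} = ⊤)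
    (y : FixedPoints.subalgebra A B N) :
    ∏ h : N, (x - (σ * (h : Γ)) • x) ∣ σ • (y : B) - y := by
  haveI := isDiscreteValuationRing_fixedPoints A B N
  haveI := finite_over_fixedPoints A B N
  haveI := isGaloisGroup_of_datum A B Γ
  rw [← twistEval_charpoly, ← dvd_neg, neg_sub]
  -- `y = g(x)`
  have hymem : (y : B) ∈ Algebra.adjoin A {x} := by rw [hx]; exact Algebra.mem_top
  rw [Algebra.adjoin_singleton_eq_range_aeval] at hymem
  obtain ⟨g, hg⟩ := hymem
  have hg' : aeval x g = (y : B) := hg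
  set G : (FixedPoints.subalgebra A B N)[X] :=
    g.map (algebraMap A (FixedPoints.subalgebra A B N)) - C y with hG
  have hroot : aeval x G = 0 := by
    rw [hG, map_sub, aeval_map_algebraMap, aeval_C, hg']
    exact sub_self _
  have hint : IsIntegral (FixedPoints.subalgebra A B N) x := Algebra.IsIntegral.isIntegral x
  obtain ⟨q, hq⟩ := minpoly.isIntegrallyClosed_dvd hint hroot
  have hmap := congrArg (Polynomial.map (algebraMap (FixedPoints.subalgebra A B N) B)) hq
  rw [Polynomial.map_mul,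
    minpoly_map_eq_charpoly (FixedPoints.subalgebra A B N) B N
      (adjoin_fixedPoints_eq_top A B Γ N hx)] at hmap
  have h2 := congrArg (twistEval B Γ σ x) hmap
  rw [map_mul] at h2
  have h3 : twistEval B Γ σ x (G.map (algebraMap (FixedPoints.subalgebra A B N) B)) =
      (y : B) - σ • (y : B) := by
    rw [hG, Polynomial.map_sub, Polynomial.map_map, ← IsScalarTower.algebraMap_eq, map_sub,
      twistEval_map_algebraMap, hg', Polynomial.map_C]
    simp [twistEval]
  rw [h3] at h2
  exact ⟨_, h2⟩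

end Core

section Formula

variable (A B Γ : Type*) [CommRing A] [IsDomain A] [IsDiscreteValuationRing A]
  [CommRing B] [IsDomain B] [IsDiscreteValuationRing B] [Algebra A B] [Module.Finite A B]
  [FaithfulSMul A B] [Group Γ] [Finite Γ] [MulSemiringAction Γ B] [SMulCommClass Γ A B]
  [Algebra.IsInvariant A B Γ] [FaithfulSMul Γ B]
  (N : Subgroup Γ) [N.Normal] [Finite (ResidueField A)]

omit [IsDomain A] [IsDiscreteValuationRing A] [IsDiscreteValuationRing B] [Module.Finite A B]
  [FaithfulSMul A B] [Finite Γ] [Algebra.IsInvariant A B Γ] [FaithfulSMul Γ B] [N.Normal]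
  [Finite (ResidueField A)] in
theorem isLocalHom_fixedPoints : IsLocalHom (algebraMap (FixedPoints.subalgebra A B N) B) :=
  ⟨fun a ha => (fixedPoints_isUnit_iff A B N a).2 ha⟩

omit [N.Normal] in
/-- The inertia group of `N` acting on `B` is all of `N` if `N ≤ Γ₀`. -/
theorem ramGroup_zero_subgroup_eq_top (hN : N ≤ ramGroup Γ B 0) : ramGroup N B 0 = ⊤ := by
  rw [eq_top_iff]
  intro h _ x
  exact hN h.2 x

omit [N.Normal] in
/-- `e(B/B^N) = |N|` if `N ≤ Γ₀`. -/
theorem map_maximalIdeal_fixedPoints (hN : N ≤ ramGroup Γ B 0) :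
    haveI := isDiscreteValuationRing_fixedPoints A B N
    Ideal.map (algebraMap (FixedPoints.subalgebra A B N) B)
      (maximalIdeal (FixedPoints.subalgebra A B N)) = maximalIdeal B ^ Nat.card N := by
  haveI := isDiscreteValuationRing_fixedPoints A B N
  haveI := isLocalHom_fixedPoints A B Γ N
  haveI := finite_over_fixedPoints A B N
  haveI := finite_fixedPoints A B N
  haveI := finite_residueField_of_finite A (FixedPoints.subalgebra A B N)
  haveI := isGaloisGroup_of_datum A B Γ
  obtain ⟨e, -, he⟩ := exists_map_maximalIdeal_eq_pow (FixedPoints.subalgebra A B N) B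
  have hcard := card_ramGroup_zero_eq (Γ := N) he
  rw [ramGroup_zero_subgroup_eq_top B Γ N hN, Subgroup.card_top] at hcard
  rw [he, hcard]

/-- **Quotient formula** (Serre, Local Fields IV §1 Prop. 3), `Fintype` form. -/
theorem quot_formula_sum [Fintype N] (hN : N ≤ ramGroup Γ B 0) {σ : Γ} (hσ : σ ∉ N) :
    ∑ h : N, lowIdx Γ B (σ * (h : Γ)) = Nat.card N * quotLowIdx A B Γ N σ := by
  haveI := isDiscreteValuationRing_fixedPoints A B N
  haveI := isLocalHom_fixedPoints A B Γ N
  haveI := finite_fixedPoints A B N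
  haveI := faithfulSMul_quotient A B Γ N
  obtain ⟨x, hx⟩ := exists_adjoin_eq_top_of_finite A B
  obtain ⟨y, hy⟩ := exists_adjoin_eq_top_of_finite A (FixedPoints.subalgebra A B N)
  have he := map_maximalIdeal_fixedPoints A B Γ N hN
  have hne : (σ : Γ ⧸ N) ≠ 1 := fun h => hσ ((QuotientGroup.eq_one_iff σ).1 h)
  -- left-hand side
  have h1 : Ideal.span {(σ : Γ ⧸ N) • y - y} =
      maximalIdeal (FixedPoints.subalgebra A B N) ^ quotLowIdx A B Γ N σ :=
    span_smul_sub_eq (A := A) hy hne
  have h2 := map_span_eq_pow_of_span_eq he h1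
  have h3 : algebraMap (FixedPoints.subalgebra A B N) B ((σ : Γ ⧸ N) • y - y) =
      σ • (y : B) - y := rfl
  rw [h3] at h2
  -- right-hand side
  have h4 : Ideal.span {∏ h : N, (x - (σ * (h : Γ)) • x)} =
      maximalIdeal B ^ ∑ h : N, lowIdx Γ B (σ * (h : Γ)) := by
    rw [← Ideal.prod_span_singleton, ← Finset.prod_pow_eq_pow_sum]
    refine Finset.prod_congr rfl fun h _ => ?_
    have hne' : σ * (h : Γ) ≠ 1 := by
      intro h1
      apply hσ
      have : σ = (h : Γ)⁻¹ := eq_inv_of_mul_eq_one_left h1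
      rw [this]
      exact N.inv_mem h.2
    rw [← span_smul_sub_eq (A := A) hx hne', ← neg_sub, Ideal.span_singleton_neg]
  have h5 : Ideal.span {σ • (y : B) - y} = Ideal.span {∏ h : N, (x - (σ * (h : Γ)) • x)} :=
    Ideal.span_singleton_eq_span_singleton.2
      (associated_of_dvd_dvd (dvd_prod_sub_smul A B Γ N σ x hy)
        (prod_sub_smul_dvd A B Γ N σ hx y))
  rw [h2, h4] at h5
  exact (maximalIdeal_pow_injective h5).symm

/-- **Quotient formula** (Serre, Local Fields IV §1 Prop. 3): for `N ⊴ Γ`, `N ≤ Γ₀`, `σ ∉ N`: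
`∑_{w ∈ N} i_Γ(σ w) = |N| · i_{Γ/N}(σ N)`. -/
theorem quot_formula (hN : N ≤ ramGroup Γ B 0) {σ : Γ} (hσ : σ ∉ N) :
    ∑ᶠ (w : Γ) (_ : w ∈ N), lowIdx Γ B (σ * w) = Nat.card N * quotLowIdx A B Γ N σ := by
  cases nonempty_fintype N
  rw [← quot_formula_sum A B Γ N hN hσ, ← finsum_eq_sum_of_fintype]
  exact (finsum_set_coe_eq_finsum_mem (N : Set Γ) (f := fun w => lowIdx Γ B (σ * w))).symm

end Formula

end Fermat.Agent.S56.H334

end
-- ===== PACK-END S56/H334/RamQuotFormula.lean

-- ===== PACK-BEGIN S19/H435/Adapter.lean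
section
/-
A3 / WP-C (helper435): adapters between Hopf lattices and the frozen A3 interface
(`Fermat.Agent.S19.OrderDatum`), and finiteness of the underlying set.
-/




set_option autoImplicit false
set_option linter.style.haveILetI false

noncomputable section

namespace Fermat.Agent.S19.H435

namespace IsHopfLattice

/-- The underlying set of a Hopf lattice is finite. -/
theorem finite {ℓ : ℕ} {M : Type*} [AddCommGroup M] {act : Gal → M → M}
    {Λ : Subalgebra (Zl ℓ) (M → _root_.Fermat.Agent.S19.H435.Qb)} (hΛ : IsHopfLattice ℓ act Λ) : Finite M := by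
  classical
  obtain ⟨S, hS⟩ := hΛ.fg
  have hSΛ : ∀ s ∈ S, s ∈ Λ := fun s hs => by
    have : s ∈ Submodule.span (Zl ℓ) (S : Set (M → _root_.Fermat.Agent.S19.H435.Qb)) := Submodule.subset_span hs
    rw [hS] at this
    exact this
  -- the values of each generator lie in a finite set
  have hfin : ∀ s : S, (Set.range (s : M → _root_.Fermat.Agent.S19.H435.Qb)).Finite := by
    intro s
    obtain ⟨p, hp, hps⟩ := IsIntegral.of_mem_of_fg Λ hΛ.fg s.1 (hSΛ s.1 s.2)
    have hp0 : p.map (algebraMap (Zl ℓ) _root_.Fermat.Agent.S19.H435.Qb) ≠ 0 := (hp.map _).ne_zero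
    refine Set.Finite.subset ((p.map (algebraMap (Zl ℓ) _root_.Fermat.Agent.S19.H435.Qb)).roots.toFinset.finite_toSet) ?_
    rintro _ ⟨m, rfl⟩
    simp only [Finset.mem_coe, Multiset.mem_toFinset, Polynomial.mem_roots hp0,
      Polynomial.IsRoot.def, Polynomial.eval_map]
    have h1 := congrFun hps m
    rw [← Polynomial.aeval_def] at h1
    have h2 : (Polynomial.aeval (s : M → _root_.Fermat.Agent.S19.H435.Qb) p) m = Polynomial.aeval ((s : M → _root_.Fermat.Agent.S19.H435.Qb) m) p := by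
      have := Polynomial.aeval_algHom_apply (Pi.evalAlgHom (Zl ℓ) (fun _ : M => _root_.Fermat.Agent.S19.H435.Qb) m)
        (s : M → _root_.Fermat.Agent.S19.H435.Qb) p
      exact this.symm
    rw [h2] at h1
    rw [← Polynomial.aeval_def]
    exact h1
  have hpi : {F : S → _root_.Fermat.Agent.S19.H435.Qb | ∀ s : S, F s ∈ Set.range s.1}.Finite := Set.Finite.pi' hfin
  let Φ : M → {F : S → _root_.Fermat.Agent.S19.H435.Qb | ∀ s : S, F s ∈ Set.range s.1} :=
    fun m => ⟨fun s => s.1 m, fun s => ⟨m, rfl⟩⟩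
  have hΦ : Function.Injective Φ := by
    intro m n hmn
    by_contra hne
    obtain ⟨f, hf, hfne⟩ := hΛ.separates m n hne
    apply hfne
    have hgen : ∀ s ∈ S, s m = s n := by
      intro s hs
      have := congrArg (fun F : {F : S → _root_.Fermat.Agent.S19.H435.Qb | ∀ s : S, F s ∈ Set.range s.1} =>
        (F : S → _root_.Fermat.Agent.S19.H435.Qb) ⟨s, hs⟩) hmn
      exact this
    have hall : ∀ g ∈ Submodule.span (Zl ℓ) (S : Set (M → _root_.Fermat.Agent.S19.H435.Qb)), g m = g n := by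
      intro g hg
      induction hg using Submodule.span_induction with
      | mem s hs => exact hgen s hs
      | zero => rfl
      | add x y _ _ hx hy => rw [Pi.add_apply, Pi.add_apply, hx, hy]
      | smul r x _ hx => rw [Pi.smul_apply, Pi.smul_apply, hx]
    exact hall f (by rw [hS]; exact hf)
  haveI := hpi.to_subtype
  exact Finite.of_injective Φ hΦ

/-- A Hopf lattice gives an order datum in the sense of the frozen A3 interface. -/
def toOrderDatum {ℓ : ℕ} {M : Type} [AddCommGroup M] {act : Gal → M → M}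
    {Λ : Subalgebra (Zl ℓ) (M → _root_.Fermat.Agent.S19.H435.Qb)} (hΛ : IsHopfLattice ℓ act Λ) :
    Fermat.Agent.S19.OrderDatum ℓ M act where
  act_add := hΛ.act_add
  gens := (Λ : Set (M → _root_.Fermat.Agent.S19.H435.Qb))
  equivariant := fun f hf => hΛ.equivariant f hf
  integral := fun _ hf m => hΛ.isIntegral_apply hf m
  separates := fun m m' h => by
    by_contra hne
    obtain ⟨f, hf, hfne⟩ := hΛ.separates m m' hne
    exact hfne (h f hf)
  add_mem := fun f hf => by
    obtain ⟨n, a, b, ha, hb, hab⟩ := hΛ.comul_mem f hf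
    have : (fun p : M × M => f (p.1 + p.2)) =
        ∑ k, (fun p : M × M => a k p.1) * (fun p : M × M => b k p.2) := by
      funext p
      rw [hab, Finset.sum_apply]
      rfl
    rw [this]
    refine Subalgebra.sum_mem _ fun k _ => Subalgebra.mul_mem _ ?_ ?_
    · exact Algebra.subset_adjoin (Or.inl ⟨a k, ha k, rfl⟩)
    · exact Algebra.subset_adjoin (Or.inr ⟨b k, hb k, rfl⟩)

/-- A Hopf lattice gives a Hopf model, given the ORD block of the frozen interface. -/
theorem hopfModel (hord : Fermat.Agent.S19.OrdStatement) {ℓ : ℕ} [Fact ℓ.Prime] {M : Type}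
    [AddCommGroup M] {act : Gal → M → M} {Λ : Subalgebra (Zl ℓ) (M → _root_.Fermat.Agent.S19.H435.Qb)}
    (hΛ : IsHopfLattice ℓ act Λ) : Fermat.Agent.S19.HopfModel ℓ M act := by
  haveI : Finite M := hΛ.finite
  exact hord ℓ M act ⟨hΛ.toOrderDatum⟩

end IsHopfLattice

end Fermat.Agent.S19.H435

end
end
-- ===== PACK-END S19/H435/Adapter.lean

-- ===== PACK-BEGIN S56/H14/CycExp.lean
section




/-!
# S56 / TWP (helper14): cyclotomic exponents and Frobenius elements on roots of unity

* `exists_isCycExp` : every `σ ∈ G_ℚ` has a cyclotomic exponent on `μ_p`.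
* `isCycExp_conj` : cyclotomic exponents are invariant under conjugation.
* `isCycExp_one_of_fixes` : if `σ` fixes `μ_{p^(n+1)}` then `1` is a cyclotomic exponent.
* `pow_dvd_sub_one_of_isFrobeniusAt` (TWP1): a Frobenius element at a valuation subring over
  `ℓ ≠ p` which fixes the `p^m`-th roots of unity forces `p^m ∣ ℓ - 1`.
-/

set_option autoImplicit false

namespace Fermat.Agent.S56.H14

open Fermat.Agent.S56

/-- Every automorphism has a cyclotomic exponent on the `p`-th roots of unity. -/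
theorem exists_isCycExp (p : ℕ) (hp : 0 < p) (σ : GQ) : ∃ a : ℕ, IsCycExp p σ a := by
  have : NeZero p := ⟨hp.ne'⟩
  obtain ⟨ζ, hζ⟩ := HasEnoughRootsOfUnity.exists_primitiveRoot Qb p
  have h1 : (σ ζ) ^ p = 1 := by rw [← map_pow, hζ.pow_eq_one, map_one]
  obtain ⟨a, -, ha⟩ := hζ.eq_pow_of_pow_eq_one h1
  refine ⟨a, fun μ hμ => ?_⟩
  obtain ⟨i, -, rfl⟩ := hζ.eq_pow_of_pow_eq_one hμ
  rw [map_pow, ← ha, ← pow_mul, ← pow_mul, mul_comm]

/-- Cyclotomic exponents are invariant under conjugation. -/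
theorem isCycExp_conj {p : ℕ} {σ : GQ} {a : ℕ} (h : IsCycExp p σ a) (g : GQ) :
    IsCycExp p (g * σ * g⁻¹) a := by
  intro μ hμ
  have h1 : (g⁻¹ μ) ^ p = 1 := by rw [← map_pow, hμ, map_one]
  have h2 : (g * σ * g⁻¹) μ = g (σ (g⁻¹ μ)) := rfl
  rw [h2, h _ h1, map_pow]
  congr 1
  exact Fermat.Agent.Lib.Cheb.H476.apply_inv_apply g μ

/-- If `σ` fixes the `p`-th roots of unity then `1` is a cyclotomic exponent of `σ`. -/
theorem isCycExp_one_of_fixes {p : ℕ} {σ : GQ} (h : ∀ μ : Qb, μ ^ p = 1 → σ μ = μ) :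
    IsCycExp p σ 1 := by
  intro μ hμ
  rw [pow_one]
  exact h μ hμ

/-- If `σ` fixes the `p^(n+1)`-th roots of unity, it fixes the `p`-th roots of unity. -/
theorem fixes_of_fixes_pow {p n : ℕ} {σ : GQ}
    (h : ∀ μ : Qb, μ ^ p ^ (n + 1) = 1 → σ μ = μ) (μ : Qb) (hμ : μ ^ p = 1) : σ μ = μ := by
  apply h
  rw [pow_succ', pow_mul, hμ, one_pow]

/-- **TWP1.** A Frobenius element at a valuation subring over a prime `ℓ ≠ p` which fixes the
`N`-th roots of unity, `N = p ^ m`, forces `N ∣ ℓ - 1`. -/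
theorem pow_dvd_sub_one_of_isFrobeniusAt {p ℓ m : ℕ} (hp : p.Prime) (hℓ : ℓ.Prime) (hne : ℓ ≠ p)
    {A : ValuationSubring Qb} (hA : A.LiesOverPrime ℓ) {τ : GQ} (hτ : A.IsFrobeniusAt τ ℓ)
    (hfix : ∀ μ : Qb, μ ^ p ^ m = 1 → τ μ = μ) : p ^ m ∣ ℓ - 1 := by
  have hN : NeZero (p ^ m) := ⟨pow_ne_zero _ hp.ne_zero⟩
  obtain ⟨ζ, hζ⟩ := HasEnoughRootsOfUnity.exists_primitiveRoot Qb (p ^ m)
  have hpv : A.valuation ((p : ℕ) : Qb) = 1 :=
    Fermat.Agent.S55.Bridge.val_prime_eq_one (A := A) hA hℓ hp hne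
  have hNv : A.valuation (((p ^ m : ℕ)) : Qb) = 1 := by
    rw [Nat.cast_pow, map_pow, hpv, one_pow]
  have hζA : ζ ∈ A := by
    rw [← A.valuation_le_one_iff]
    have h : (A.valuation ζ) ^ (p ^ m) = 1 := by rw [← map_pow, hζ.pow_eq_one, map_one]
    exact ((pow_eq_one_iff.1 h).resolve_right hN.ne).le
  have h1 := ((Fermat.Agent.Lib.Cheb.H476.isFrobeniusAt_iff A τ ℓ).mp hτ).2 ζ hζA
  rw [hfix ζ hζ.pow_eq_one] at h1
  have h2 : ζ = ζ ^ ℓ := by
    by_contra hcon
    have h3 := Fermat.Agent.S55.Bridge.val_sub_roots_eq_one (A := A) hN.ne hNv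
      hζ.pow_eq_one (by rw [← pow_mul, mul_comm, pow_mul, hζ.pow_eq_one, one_pow]) hcon
    rw [ValuationSubring.mem_nonunits_iff, h3] at h1
    exact lt_irrefl _ h1
  have h4 : ζ ^ (ℓ - 1) = 1 := by
    have hζ0 : ζ ≠ 0 := hζ.ne_zero hN.ne
    have h5 : ζ * ζ ^ (ℓ - 1) = ζ * 1 := by
      rw [← pow_succ', Nat.sub_add_cancel hℓ.one_le, mul_one]
      exact h2.symm
    exact mul_left_cancel₀ hζ0 h5
  exact hζ.dvd_of_pow_eq_one _ h4

end Fermat.Agent.S56.H14

end
-- ===== PACK-END S56/H14/CycExp.lean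

-- ===== PACK-BEGIN S56/H554/TameCyclic.lean
section






/-!
# S56 / local engine at `q ≠ p` (helper554): the KEY TAME LEMMA

`P` a valuation subring of `ℚ̄` over the prime `q`, `L ⊆ ℚ̄` a finite normal extension of `ℚ`,
`p ≠ q` a prime.

* `exists_tame_generator` : there is `τ₀ ∈ I_P` such that every `τ ∈ I_P` is `τ₀ ^ n` times an
  element which is wild on `L`.
* `tameHom_conj_frobenius` : `tame(φ τ φ⁻¹) = tame(τ) ^ q` for a Frobenius element `φ` at `P`.
* `key_tame` : **Key Tame Lemma.** There is `τ₀ ∈ I_P` such that for EVERY group hom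
  `f : G_ℚ →* Γ` which is trivial on `G_L` and has `p`-power order on `I_P`:
  `f τ ∈ ⟨f τ₀⟩` for all `τ ∈ I_P`, and `f (φ τ φ⁻¹) = f τ ^ q` for every Frobenius `φ` at `P`.
-/

set_option autoImplicit false

namespace Fermat.Agent.S56.H554

open Fermat.Agent.A2.H708

open scoped Pointwise

/-- `ℚ̄/ℚ` is algebraic (local instance for the tame character API). -/
theorem isAlgebraic_Qb : Algebra.IsAlgebraic ℚ Qb := AlgebraicClosure.isAlgebraic ℚ

attribute [local instance] isAlgebraic_Qb

variable {P : ValuationSubring Qb} {q : ℕ}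

/-- A prime `p ≠ q` is a unit of `P`. -/
theorem valuation_prime_eq_one (hq : q.Prime) (hP : P.LiesOverPrime q) {p : ℕ} (hp : p.Prime)
    (hpq : p ≠ q) : P.valuation (p : Qb) = 1 := by
  have hcop : Nat.Coprime p q := (Nat.coprime_primes hp hq).mpr hpq
  have hle : ∀ n : ℤ, P.valuation (n : Qb) ≤ 1 := fun n =>
    (P.valuation_le_one_iff _).mpr (intCast_mem P n)
  have hbez : (p : ℤ) * Nat.gcdA p q + (q : ℤ) * Nat.gcdB p q = 1 := by
    have := Nat.gcd_eq_gcd_ab p q
    rw [hcop.gcd_eq_one] at this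
    exact_mod_cast this.symm
  have hq1 : P.valuation (q : Qb) < 1 := P.mem_nonunits_iff.mp hP
  have h1 : (p : Qb) * ((Nat.gcdA p q : ℤ) : Qb) = 1 - (q : Qb) * ((Nat.gcdB p q : ℤ) : Qb) := by
    have := congrArg (fun z : ℤ => (z : Qb)) hbez
    push_cast at this
    linear_combination this
  have h2 : P.valuation ((q : Qb) * ((Nat.gcdB p q : ℤ) : Qb)) < 1 := by
    rw [map_mul]
    exact mul_lt_one_of_nonneg_of_lt_one_left zero_le hq1 (hle _)
  have h3 : P.valuation ((p : Qb) * ((Nat.gcdA p q : ℤ) : Qb)) = 1 := by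
    rw [h1]
    exact Valuation.map_one_sub_of_lt _ h2
  rw [map_mul] at h3
  have hp1 : P.valuation (p : Qb) ≤ 1 := by
    have := hle (p : ℤ)
    rwa [Int.cast_natCast] at this
  refine le_antisymm hp1 ?_
  by_contra hlt
  push Not at hlt
  have : P.valuation (p : Qb) * P.valuation ((Nat.gcdA p q : ℤ) : Qb) < 1 :=
    mul_lt_one_of_nonneg_of_lt_one_left zero_le hlt (hle _)
  exact absurd h3 this.ne

/-- The value of the tame character in the residue field. -/
theorem coe_tameHom {τ : GQ} (hτ : τ ∈ P.inertiaSubgroupIn ℚ) (c : Qbˣ)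
    (h : τ (c : Qb) / c ∈ P) :
    ((tameHom P hτ c : (IsLocalRing.ResidueField P)ˣ) : IsLocalRing.ResidueField P) =
      IsLocalRing.residue P ⟨τ (c : Qb) / c, h⟩ := by
  unfold tameHom
  rw [MonoidHom.comp_apply, ValuationSubring.coe_unitGroupToResidueFieldUnits_apply]
  congr 1
  apply Subtype.ext
  rw [ValuationSubring.coe_unitGroupMulEquiv_apply, coe_ratioHom]

theorem residue_eq_of_sub_mem_nonunits {a b : Qb} (ha : a ∈ P) (hb : b ∈ P)
    (h : a - b ∈ P.nonunits) :
    IsLocalRing.residue P ⟨a, ha⟩ = IsLocalRing.residue P ⟨b, hb⟩ := by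
  rw [← sub_eq_zero, ← map_sub, IsLocalRing.residue_eq_zero_iff,
    ← ValuationSubring.coe_mem_nonunits_iff]
  exact h

/-- **Frobenius acts on the tame character by the `q`-th power.** -/
theorem tameHom_conj_frobenius {φ τ : GQ} (hφ : P.IsFrobeniusAt φ q)
    (hτ : τ ∈ P.inertiaSubgroupIn ℚ) (hc : φ * τ * φ⁻¹ ∈ P.inertiaSubgroupIn ℚ) (c : Qbˣ) :
    tameHom P hc c = tameHom P hτ c ^ q := by
  obtain ⟨hφD, hφF⟩ := (Fermat.Agent.Lib.Cheb.H476.isFrobeniusAt_iff P φ q).mp hφ
  have hτD : τ ∈ P.decompositionSubgroup ℚ := mem_decomposition_of_mem_inertiaIn P hτ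
  set y : Qbˣ := Units.map ((φ⁻¹ : GQ) : Qb →* Qb) c with hy
  have hyc : ((y : Qbˣ) : Qb) = φ⁻¹ (c : Qb) := rfl
  have hφy : φ (y : Qb) = c := by
    rw [hyc]
    show (φ * φ⁻¹) (c : Qb) = c
    rw [mul_inv_cancel]; rfl
  have hval : P.valuation ((y : Qbˣ) : Qb) = P.valuation (c : Qb) := by
    rw [hyc]
    exact valuation_apply_of_mem_decomposition P (inv_mem hφD) (c : Qb)
  have hy' : tameHom P hτ y = tameHom P hτ c := tameHom_eq_of_valuation_eq P hτ y c hval
  rw [← hy']
  -- the unit `u = τ y / y`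
  have hu : τ (y : Qb) / y ∈ P := by
    rw [← P.valuation_le_one_iff]
    exact (valuation_apply_div_self P hτD y.ne_zero).le
  have hconj : (φ * τ * φ⁻¹) (c : Qb) / c = φ (τ (y : Qb) / y) := by
    rw [map_div₀, hφy]
    rfl
  have hc' : (φ * τ * φ⁻¹) (c : Qb) / c ∈ P := by
    rw [hconj]
    exact apply_mem_of_mem_decomposition P hφD hu
  apply Units.ext
  rw [Units.val_pow_eq_pow_val, coe_tameHom hc c hc', coe_tameHom hτ y hu, ← map_pow]
  have hpow : (⟨τ (y : Qb) / y, hu⟩ : P) ^ q = ⟨(τ (y : Qb) / y) ^ q, P.pow_mem hu q⟩ := rfl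
  rw [hpow]
  apply residue_eq_of_sub_mem_nonunits
  rw [hconj]
  exact hφF _ hu

/-- The tame character at `c`, as a group hom on the inertia group. -/
noncomputable def tameAt (P : ValuationSubring Qb) (c : Qbˣ) :
    ↥(P.inertiaSubgroupIn ℚ) →* (IsLocalRing.ResidueField P)ˣ where
  toFun τ := tameHom P τ.2 c
  map_one' := tameHom_eq_one_of_fixed P _ c rfl
  map_mul' σ τ := tameHom_mul P σ.2 τ.2 c

theorem tameAt_apply (c : Qbˣ) (τ : ↥(P.inertiaSubgroupIn ℚ)) :
    tameAt P c τ = tameHom P τ.2 c := rfl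

/-- If the tame character of `τ` is trivial at a uniformizer of `L`, then `τ` is wild on `L`. -/
theorem isWildOn_of_tameHom_uniformizer (L : IntermediateField ℚ Qb) {ϖ : L}
    (hϖ0 : (ϖ : Qb) ≠ 0)
    (hdisc : ∀ c : L, c ≠ 0 → ∃ n : ℤ, P.valuation (c : Qb) = P.valuation (ϖ : Qb) ^ n)
    {τ : GQ} (hτ : τ ∈ P.inertiaSubgroupIn ℚ)
    (h1 : tameHom P hτ (Units.mk0 (ϖ : Qb) hϖ0) = 1) : IsWildOn P τ (L : Set Qb) := by
  rw [isWildOn_iff_tameHom hτ]
  intro c hc
  have hc0 : (⟨(c : Qb), hc⟩ : L) ≠ 0 := by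
    intro h
    exact c.ne_zero (congrArg Subtype.val h)
  obtain ⟨n, hn⟩ := hdisc ⟨(c : Qb), hc⟩ hc0
  have hval : P.valuation ((c : Qbˣ) : Qb) =
      P.valuation (((Units.mk0 (ϖ : Qb) hϖ0 ^ n : Qbˣ) : Qbˣ) : Qb) := by
    rw [Units.val_zpow_eq_zpow_val, map_zpow₀]
    exact hn
  rw [tameHom_eq_of_valuation_eq P hτ c _ hval, map_zpow, h1, one_zpow]

/-- **Cyclicity of tame inertia at finite level.** -/
theorem exists_tame_generator (hq : q.Prime) (hP : P.LiesOverPrime q)
    (L : IntermediateField ℚ Qb) [FiniteDimensional ℚ L] :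
    ∃ τ₀ ∈ P.inertiaSubgroupIn ℚ, ∀ τ ∈ P.inertiaSubgroupIn ℚ,
      ∃ n : ℤ, ∃ ω ∈ P.inertiaSubgroupIn ℚ, IsWildOn P ω (L : Set Qb) ∧ τ = τ₀ ^ n * ω := by
  obtain ⟨ϖ, hϖ0, hϖlt, hdisc⟩ := exists_uniformizer (P := P) (L := L) hq hP
  have hϖ0' : (ϖ : Qb) ≠ 0 := fun h => hϖ0 (by exact_mod_cast h)
  set ϖu : Qbˣ := Units.mk0 (ϖ : Qb) hϖ0' with hϖu
  -- an exponent killing the tame character
  have hqL : ((q : ℕ) : L) ≠ 0 := by exact_mod_cast hq.ne_zero
  obtain ⟨n, hn⟩ := hdisc (q : L) hqL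
  have hqQ : (((q : ℕ) : L) : Qb) = (q : Qb) := by push_cast; rfl
  rw [hqQ] at hn
  have hq1 : P.valuation (q : Qb) < 1 := P.mem_nonunits_iff.mp hP
  have hn0 : n ≠ 0 := by
    rintro rfl
    rw [zpow_zero] at hn
    exact absurd hn hq1.ne
  have hq0 : (q : Qb) ≠ 0 := by exact_mod_cast hq.ne_zero
  have hkill : ∀ τ : ↥(P.inertiaSubgroupIn ℚ), tameAt P ϖu τ ^ n.natAbs = 1 := by
    intro τ
    have h1 : tameHom P τ.2 ϖu ^ n = 1 := by
      have hval : P.valuation (((ϖu ^ n : Qbˣ) : Qbˣ) : Qb) =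
          P.valuation (((Units.mk0 (q : Qb) hq0 : Qbˣ)) : Qb) := by
        rw [Units.val_zpow_eq_zpow_val, map_zpow₀]
        exact hn.symm
      rw [← map_zpow, tameHom_eq_of_valuation_eq P τ.2 _ _ hval]
      exact tameHom_algebraMap P τ.2 _ (q : ℚ) (by simp)
    rw [tameAt_apply]
    rcases Int.natAbs_eq n with h | h
    · rw [h, zpow_natCast] at h1
      simpa using h1
    · rw [h, zpow_neg, zpow_natCast, inv_eq_one] at h1
      simpa using h1
  have hm : NeZero n.natAbs := ⟨Int.natAbs_ne_zero.mpr hn0⟩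
  have hle : (tameAt P ϖu).range ≤ rootsOfUnity n.natAbs (IsLocalRing.ResidueField P) := by
    rintro x ⟨τ, rfl⟩
    rw [mem_rootsOfUnity]
    exact hkill τ
  have hfin : Finite ↥(tameAt P ϖu).range :=
    Finite.of_injective (Subgroup.inclusion hle) (Subgroup.inclusion_injective hle)
  obtain ⟨g, hg⟩ := IsCyclic.exists_zpow_surjective (G := ↥(tameAt P ϖu).range)
  obtain ⟨τ₀, hτ₀⟩ := g.2
  refine ⟨τ₀, τ₀.2, fun τ hτ => ?_⟩
  obtain ⟨n', hn'⟩ := hg ⟨tameAt P ϖu ⟨τ, hτ⟩, ⟨⟨τ, hτ⟩, rfl⟩⟩
  have hn'' : tameAt P ϖu τ₀ ^ n' = tameAt P ϖu ⟨τ, hτ⟩ := by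
    have := congrArg Subtype.val hn'
    simp only [Subgroup.coe_zpow] at this
    rw [← hτ₀] at this
    exact this
  set ω : ↥(P.inertiaSubgroupIn ℚ) := τ₀ ^ (-n') * ⟨τ, hτ⟩ with hω
  refine ⟨n', (ω : GQ), ω.2, ?_, ?_⟩
  · apply isWildOn_of_tameHom_uniformizer L hϖ0' hdisc ω.2
    show tameAt P ϖu ω = 1
    rw [hω, map_mul, map_zpow, zpow_neg, hn'', inv_mul_cancel]
  · have h1 : (τ₀ ^ n' * ω : ↥(P.inertiaSubgroupIn ℚ)) = ⟨τ, hτ⟩ := by
      rw [hω, zpow_neg, mul_inv_cancel_left]
    have h2 := congrArg Subtype.val h1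
    rw [Subgroup.coe_mul, Subgroup.coe_zpow] at h2
    exact h2.symm

theorem conj_mem_inertia_of_mem_decomposition {φ τ : GQ}
    (hφ : φ ∈ P.decompositionSubgroup ℚ) (hτ : τ ∈ P.inertiaSubgroupIn ℚ) :
    φ * τ * φ⁻¹ ∈ P.inertiaSubgroupIn ℚ := by
  have h := Fermat.Agent.Lib.Cheb.H476.conj_mem_inertia φ hτ
  rwa [MulAction.mem_stabilizer_iff.mp hφ] at h

/-- `φ τ φ⁻¹ τ^{-q}` is wild (on everything) for a Frobenius element `φ`. -/
theorem isWildOn_conj_frobenius {φ τ : GQ} (hφ : P.IsFrobeniusAt φ q)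
    (hτ : τ ∈ P.inertiaSubgroupIn ℚ) (E : Set Qb) :
    ∃ ω ∈ P.inertiaSubgroupIn ℚ, IsWildOn P ω E ∧ φ * τ * φ⁻¹ = ω * τ ^ q := by
  have hφD := ((Fermat.Agent.Lib.Cheb.H476.isFrobeniusAt_iff P φ q).mp hφ).1
  have hc := conj_mem_inertia_of_mem_decomposition hφD hτ
  set I := P.inertiaSubgroupIn ℚ
  set ω : ↥I := ⟨φ * τ * φ⁻¹, hc⟩ * (⟨τ, hτ⟩ ^ q)⁻¹ with hω
  refine ⟨(ω : GQ), ω.2, ?_, ?_⟩
  · rw [isWildOn_iff_tameHom ω.2]
    intro c _
    show tameAt P c ω = 1
    rw [hω, map_mul, map_inv, map_pow, tameAt_apply, tameAt_apply,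
      tameHom_conj_frobenius hφ hτ hc c, mul_inv_cancel]
  · have h1 : (ω * ⟨τ, hτ⟩ ^ q : ↥I) = ⟨φ * τ * φ⁻¹, hc⟩ := by
      rw [hω, inv_mul_cancel_right]
    have h2 := congrArg Subtype.val h1
    rw [Subgroup.coe_mul, Subgroup.coe_pow] at h2
    exact h2.symm

/-- **KEY TAME LEMMA.**  `P` over `q`, `L` finite normal over `ℚ`, `p ≠ q` prime.  There is
`τ₀ ∈ I_P` such that for every group hom `f` on `G_ℚ`, trivial on `G_L`, with `f τ` of `p`-power
order for all `τ ∈ I_P`:  `f(I_P) ⊆ ⟨f τ₀⟩`, and `f (φ τ φ⁻¹) = f τ ^ q` for every Frobenius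
element `φ` at `P` and every `τ ∈ I_P`. -/
theorem key_tame (hq : q.Prime) (hP : P.LiesOverPrime q)
    (L : IntermediateField ℚ Qb) [FiniteDimensional ℚ L] (hL : ∀ σ : GQ, ∀ x ∈ L, σ x ∈ L)
    {p : ℕ} (hp : p.Prime) (hpq : p ≠ q) :
    ∃ τ₀ ∈ P.inertiaSubgroupIn ℚ, ∀ {Γ : Type*} [Group Γ] (f : GQ →* Γ),
      (∀ σ : GQ, (∀ x ∈ L, σ x = x) → f σ = 1) →
      (∀ τ ∈ P.inertiaSubgroupIn ℚ, ∃ k : ℕ, f τ ^ p ^ k = 1) →
      (∀ τ ∈ P.inertiaSubgroupIn ℚ, ∃ n : ℤ, f τ = f τ₀ ^ n) ∧
      (∀ φ : GQ, P.IsFrobeniusAt φ q → ∀ τ ∈ P.inertiaSubgroupIn ℚ,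
        f (φ * τ * φ⁻¹) = f τ ^ q) := by
  obtain ⟨τ₀, hτ₀, hgen⟩ := exists_tame_generator hq hP L
  refine ⟨τ₀, hτ₀, fun {Γ} _ f hf hpow => ⟨fun τ hτ => ?_, fun φ hφ τ hτ => ?_⟩⟩
  · obtain ⟨n, ω, hω, hwild, rfl⟩ := hgen τ hτ
    obtain ⟨k, hk⟩ := hpow ω hω
    have h1 : f ω = 1 := map_eq_one_of_wild (A := P) f L hf hω (hL ω) hwild p hp
      (valuation_prime_eq_one hq hP hp hpq) k hk
    exact ⟨n, by rw [map_mul, map_zpow, h1, mul_one]⟩
  · obtain ⟨ω, hω, hwild, hconj⟩ := isWildOn_conj_frobenius hφ hτ (L : Set Qb)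
    obtain ⟨k, hk⟩ := hpow ω hω
    have h1 : f ω = 1 := map_eq_one_of_wild (A := P) f L hf hω (hL ω) hwild p hp
      (valuation_prime_eq_one hq hP hp hpq) k hk
    rw [hconj, map_mul, map_pow, h1, one_mul]

end Fermat.Agent.S56.H554

end
-- ===== PACK-END S56/H554/TameCyclic.lean

-- ===== PACK-BEGIN S59/H126/SmithCard.lean
section



/-!
# S59 / NM-SEL (helper126): cardinality of a module presented by a square matrix over a PID

* `card_quot_range_eq` : for an endomorphism `g` of `ι → R` (`R` a PID) with `det g ≠ 0`: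
  `#((ι → R) ⧸ range g) = #(R ⧸ (det g))`   (Smith normal form).
* `card_span_le_of_relations` : if `n : ι → X` satisfies the relations `∑ j, B i j • n j = 0`
  for a square matrix `B` with `det B ≠ 0` and finite `R ⧸ (det B)`, then the span of the `n j`
  is finite of cardinality `≤ #(R ⧸ (det B))`.
-/

set_option autoImplicit false
set_option linter.unusedSectionVars false
set_option linter.style.haveILetI false

namespace Fermat.Agent.S59.H126

open Module

section Smith

variable {R : Type*} [CommRing R] [IsDomain R] [IsPrincipalIdealRing R]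
variable {ι : Type*} [Fintype ι] [DecidableEq ι]

theorem card_pi_quot_span (a : ι → R) (ha : ∀ i, a i ≠ 0) :
    Nat.card (∀ i, R ⧸ Ideal.span {a i}) = Nat.card (R ⧸ Ideal.span {∏ i, a i}) := by
  classical
  rw [Nat.card_pi]
  have key : ∀ s : Finset ι, ∏ i ∈ s, Nat.card (R ⧸ Ideal.span {a i}) =
      Nat.card (R ⧸ Ideal.span {∏ i ∈ s, a i}) := by
    intro s
    induction s using Finset.induction_on with
    | empty =>
      rw [Finset.prod_empty, Finset.prod_empty]
      exact (Fermat.Agent.S55.H424.card_quot_span_of_isUnit isUnit_one).symm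
    | insert i s hi ih =>
      rw [Finset.prod_insert hi, Finset.prod_insert hi, ih,
        Fermat.Agent.S55.H424.card_quot_span_mul (a i) _ (fun x hx =>
          (mul_eq_zero.mp hx).resolve_left (ha i))]
  exact key Finset.univ

theorem injective_of_det_ne_zero (g : (ι → R) →ₗ[R] (ι → R)) (hdet : LinearMap.det g ≠ 0) :
    Function.Injective g := by
  rw [injective_iff_map_eq_zero]
  intro v hv
  have h1 : (LinearMap.toMatrix' g).mulVec v = 0 := by
    rw [LinearMap.toMatrix'_mulVec]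
    exact hv
  have h2 : (LinearMap.toMatrix' g).det ≠ 0 := by
    rw [LinearMap.det_toMatrix']
    exact hdet
  exact Matrix.eq_zero_of_mulVec_eq_zero h2 h1

/-- `#((ι → R) ⧸ range g) = #(R ⧸ (det g))` for `det g ≠ 0` over a PID. -/
theorem card_quot_range_eq (g : (ι → R) →ₗ[R] (ι → R)) (hdet : LinearMap.det g ≠ 0) :
    Nat.card ((ι → R) ⧸ LinearMap.range g) = Nat.card (R ⧸ Ideal.span {LinearMap.det g}) := by
  classical
  have hinj := injective_of_det_ne_zero g hdet
  have hrk : Module.finrank R (LinearMap.range g) = Module.finrank R (ι → R) :=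
    LinearMap.finrank_range_of_inj hinj
  set b : Basis ι R (ι → R) := Pi.basisFun R ι with hb
  set bM := Submodule.smithNormalFormTopBasis b hrk with hbM
  set bN := Submodule.smithNormalFormBotBasis b hrk with hbN
  set a := Submodule.smithNormalFormCoeffs b hrk with ha
  have hsnf : ∀ i, (bN i : ι → R) = a i • bM i := Submodule.smithNormalFormBotBasis_def b hrk
  have hane : ∀ i, a i ≠ 0 := Submodule.smithNormalFormCoeffs_ne_zero b hrk
  -- the quotient
  have e1 := Submodule.quotientEquivPiSpan (LinearMap.range g) b hrk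
  rw [Nat.card_congr e1.toEquiv, card_pi_quot_span a hane]
  -- the determinant
  let d : (ι → R) →ₗ[R] (ι → R) := bM.constr R (fun i => a i • bM i)
  have hd : LinearMap.det d = ∏ i, a i := by
    rw [← LinearMap.det_toMatrix bM]
    have : LinearMap.toMatrix bM bM d = Matrix.diagonal a := by
      ext i j
      rw [LinearMap.toMatrix_apply, Basis.constr_basis, map_smul, Finsupp.smul_apply,
        Basis.repr_self, Finsupp.single_apply, Matrix.diagonal_apply, smul_eq_mul]
      by_cases hij : i = j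
      · subst hij; simp
      · rw [if_neg (Ne.symm hij), if_neg hij, mul_zero]
    rw [this, Matrix.det_diagonal]
  let e : (ι → R) ≃ₗ[R] (ι → R) :=
    (LinearEquiv.ofInjective g hinj).trans (bN.equiv bM (Equiv.refl ι))
  have hcomp : ∀ x, g x = d (e x) := by
    intro x
    have h1 : e x = (bN.equiv bM (Equiv.refl ι)) (LinearEquiv.ofInjective g hinj x) := rfl
    have h2 : ∀ y : LinearMap.range g, d ((bN.equiv bM (Equiv.refl ι)) y) = (y : ι → R) := by
      intro y
      have h3 : (d.comp ((bN.equiv bM (Equiv.refl ι)) : LinearMap.range g →ₗ[R] (ι → R))) =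
          (LinearMap.range g).subtype := by
        apply bN.ext
        intro i
        rw [LinearMap.comp_apply, LinearEquiv.coe_coe, Basis.equiv_apply, Equiv.refl_apply,
          Basis.constr_basis, Submodule.subtype_apply, hsnf]
      exact congrArg (fun f => f y) h3
    rw [h1, h2]
    rfl
  have hassoc : Associated (LinearMap.det g) (LinearMap.det d) :=
    LinearMap.associated_det_of_eq_comp e g d hcomp
  rw [hd] at hassoc
  rw [Ideal.span_singleton_eq_span_singleton.mpr hassoc]

/-- A module generated by `n j` (`j : ι`) subject to the relations given by the rows of a square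
matrix `B` with `det B ≠ 0` has at most `#(R ⧸ (det B))` elements. -/
theorem card_span_le_of_relations (B : Matrix ι ι R) (hdet : B.det ≠ 0)
    [Finite (R ⧸ Ideal.span {B.det})]
    {X : Type*} [AddCommGroup X] [Module R X] (n : ι → X)
    (hrel : ∀ i, ∑ j, B i j • n j = 0) :
    Finite (Submodule.span R (Set.range n)) ∧
      Nat.card (Submodule.span R (Set.range n)) ≤ Nat.card (R ⧸ Ideal.span {B.det}) := by
  classical
  let F : (ι → R) →ₗ[R] X := Fintype.linearCombination R n
  have hF : LinearMap.range F = Submodule.span R (Set.range n) :=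
    Fintype.range_linearCombination R n
  let g : (ι → R) →ₗ[R] (ι → R) := Matrix.toLin' B.transpose
  have hg : LinearMap.det g = B.det := by
    rw [LinearMap.det_toLin', Matrix.det_transpose]
  have hker : LinearMap.range g ≤ LinearMap.ker F := by
    rintro _ ⟨v, rfl⟩
    rw [LinearMap.mem_ker]
    show Fintype.linearCombination R n (Matrix.toLin' B.transpose v) = 0
    rw [Fintype.linearCombination_apply, Matrix.toLin'_apply]
    have h1 : ∀ j, (B.transpose.mulVec v) j • n j = ∑ i, v i • (B i j • n j) := by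
      intro j
      rw [Matrix.mulVec, dotProduct, Finset.sum_smul]
      refine Finset.sum_congr rfl fun i _ => ?_
      rw [Matrix.transpose_apply, mul_comm, mul_smul]
    rw [Finset.sum_congr rfl fun j _ => h1 j, Finset.sum_comm]
    refine Finset.sum_eq_zero fun i _ => ?_
    rw [← Finset.smul_sum, hrel i, smul_zero]
  have hcard : Nat.card ((ι → R) ⧸ LinearMap.range g) = Nat.card (R ⧸ Ideal.span {B.det}) := by
    rw [card_quot_range_eq g (by rw [hg]; exact hdet), hg]
  have hpos : 0 < Nat.card (R ⧸ Ideal.span {B.det}) := Nat.card_pos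
  haveI hfin : Finite ((ι → R) ⧸ LinearMap.range g) :=
    Nat.finite_of_card_ne_zero (by rw [hcard]; exact hpos.ne')
  -- the surjection
  let G : ((ι → R) ⧸ LinearMap.range g) →ₗ[R] X := (LinearMap.range g).liftQ F hker
  have hG : LinearMap.range G = Submodule.span R (Set.range n) := by
    rw [← hF]
    exact Submodule.range_liftQ _ _ _
  have hsurj : Function.Surjective (G.rangeRestrict) := LinearMap.surjective_rangeRestrict G
  haveI : Finite (LinearMap.range G) := Finite.of_surjective _ hsurj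
  have hle : Nat.card (LinearMap.range G) ≤ Nat.card ((ι → R) ⧸ LinearMap.range g) :=
    Nat.card_le_card_of_surjective _ hsurj
  rw [hG] at hle
  refine ⟨?_, hle.trans hcard.le⟩
  rw [← hG]
  infer_instance

end Smith

end Fermat.Agent.S59.H126

end
-- ===== PACK-END S59/H126/SmithCard.lean

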