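import Fermat.Prelude.Def_ExtEndgame_ProductionDatum
import Fermat.Prelude.Def_GroupCohomology_ContinuousH1
import Mathlib
import Fermat.Prelude.Def_GaloisRep_CompletionBridge
import Fermat.Prelude.Def_GroupCohomology_ContinuousUnramified
import Fermat.Agent.Pack.S43GC.G0E9L0
import Fermat.Agent.Pack.S43GC.G0E3L1
import Fermat.Agent.Pack.S43GC.G0E9L2
import Fermat.Agent.Pack.S43GC.G0E9L3
import Fermat.Agent.Pack.S43GC.G0E5L3
import Fermat.Agent.Pack.S43GC.G0E5L2
import Fermat.Agent.Pack.S43GC.G0E10L1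
import Fermat.Agent.Pack.S43GC.G0E10L3
import Fermat.Agent.Pack.S43GC.G0E0L3
import Fermat.Agent.Pack.S43GC.G0E10L2
import Fermat.Agent.Pack.S43GC.G0E5L0
import Fermat.Agent.Pack.S43GC.G0E10L0
import Fermat.Agent.Pack.S43GC.G0E8L3
import Fermat.Agent.Pack.S43GC.G0E8L0
import Fermat.Agent.Pack.S43GC.G0E1L3
import Fermat.Agent.Pack.S43GC.G0E1L0
import Fermat.Agent.Pack.S44C.G0E10L2
import Fermat.Agent.Pack.S44C.G0E0L1
import Fermat.Agent.Pack.S43GC.G0E11L0
import Fermat.Agent.Pack.Fast891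

-- ===== PACK-BEGIN S38/H953/Frame.lean
section



/-!
# Route T (Ihara avoidance), Galois side: the ring framed at one prime (helper953)

Let `DQ` be a universal deformation ring of `ρ̄` (absolutely irreducible) for a condition `𝒟`.
The ring *framed at one place* is `R□ = DQ.R⟦Y₀, Y₁, Y₂⟧`: the three variables are the entries of
the framing matrix `G = 1 + !![Y₀, Y₁; Y₂, 0]`, a system of representatives of `1 + M₂(𝔪)` modulo
scalars.  The framed universal matrices are `r□(σ) = G · r^univ(σ) · G⁻¹`.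

* `frameMat`, `frameUnit` : the matrix `G`;
* `UFrame DQ` : a matrix form `rb` of `ρ̄` together with a matrix form `rR` of the universal
  deformation lifting `rb`;  `exists_uFrame`;
* `framedRep F : G_ℚ →* M₂(R□)` : the framed universal representation, `matCont_framedRep`.

Nothing unproved in this file.
-/

set_option autoImplicit false
set_option linter.unusedSectionVars false
set_option linter.unusedVariables false
set_option linter.style.haveILetI false

namespace Fermat.Agent.S38.H953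

noncomputable section

open IsLocalRing
open Fermat.Agent.S56 Fermat.Agent.S56.H716 Fermat.Agent.S56.H596

/-! ### The framing matrix -/

section FrameUnit

variable (R : Type) [CommRing R]

/-- The framing matrix `G = 1 + !![Y₀, Y₁; Y₂, 0]` over `R⟦Y₀, Y₁, Y₂⟧`. -/
def frameMat : Matrix (Fin 2) (Fin 2) (MvPowerSeries (Fin 3) R) :=
  !![1 + MvPowerSeries.X 0, MvPowerSeries.X 1; MvPowerSeries.X 2, 1]

theorem det_frameMat :
    (frameMat R).det = 1 + MvPowerSeries.X 0 - MvPowerSeries.X 1 * MvPowerSeries.X 2 := by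
  simp [frameMat, Matrix.det_fin_two_of]

theorem isUnit_frameMat : IsUnit (frameMat R) := by
  rw [Matrix.isUnit_iff_isUnit_det, det_frameMat, MvPowerSeries.isUnit_iff_constantCoeff]
  simp

/-- The framing matrix as a unit. -/
def frameUnit : (Matrix (Fin 2) (Fin 2) (MvPowerSeries (Fin 3) R))ˣ := (isUnit_frameMat R).unit

@[simp] theorem coe_frameUnit :
    ((frameUnit R : (Matrix (Fin 2) (Fin 2) (MvPowerSeries (Fin 3) R))ˣ) :
      Matrix (Fin 2) (Fin 2) (MvPowerSeries (Fin 3) R)) = frameMat R := rfl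

end FrameUnit

/-! ### Matrix frames of a universal deformation -/

section Frame

variable {𝒪 : Type} [CommRing 𝒪] [IsDomain 𝒪] [IsDiscreteValuationRing 𝒪]
  [IsAdicComplete (maximalIdeal 𝒪) 𝒪]
  {ρbar : ResidualGaloisRep (ResidueField 𝒪)} {𝒟 : DefCond 𝒪}

/-- A matrix frame of a universal deformation: a matrix form `rb` of `ρ̄` and a matrix form `rR`
of the universal deformation which lifts `rb` on the nose. -/
structure UFrame (DQ : GaloisRep.DeformationRingData 𝒪 ρbar 𝒟) where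
  /-- matrix form of `ρ̄` -/
  rb : GQ →* Matrix (Fin 2) (Fin 2) (ResidueField 𝒪)
  /-- `rb` factors through a finite level -/
  hrb : GaloisFactorsThroughFiniteLevel rb
  /-- `ρ̄ ≅ rb` -/
  e : ResidualGaloisRep.Equiv ρbar (Fermat.Agent.S53.toRes rb hrb)
  /-- matrix form of the universal deformation -/
  rR : GQ →* Matrix (Fin 2) (Fin 2) DQ.R
  /-- `rR` is continuous -/
  hrR : Fermat.Agent.S53.MatCont rR
  /-- `rR` lifts `rb` -/
  hlift : ∀ σ, (rR σ).map (residue DQ.R) = (rb σ).map (ResidueField.map (algebraMap 𝒪 DQ.R))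
  /-- `ρ^univ ≅ rR` -/
  eR : GaloisRepAdic.Equiv DQ.ρ (Fermat.Agent.S53.toAdic rR hrR)

theorem exists_uFrame (DQ : GaloisRep.DeformationRingData 𝒪 ρbar 𝒟) : Nonempty (UFrame DQ) := by
  obtain ⟨rb, hrb, ⟨e⟩⟩ := Fermat.Agent.S53.exists_toRes ρbar
  obtain ⟨rR, hrR, hlift, ⟨eR⟩⟩ := Fermat.Agent.S53.exists_lift_of_residual_isEquiv ρbar rb hrb
    ⟨e⟩ DQ.ρ DQ.residual_isEquiv
  exact ⟨⟨rb, hrb, e, rR, hrR, hlift, eR⟩⟩

variable {DQ : GaloisRep.DeformationRingData 𝒪 ρbar 𝒟}

/-- The coordinate system of `ρ̄.V` given by a frame. -/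
def UFrame.E (F : UFrame DQ) : ρbar.V ≃ₗ[ResidueField 𝒪] (Fin 2 → ResidueField 𝒪) :=
  F.e.toLinearEquiv

theorem UFrame.hE (F : UFrame DQ) (σ : GQ) (v : ρbar.V) :
    F.E (ρbar.ρ σ v) = (F.rb σ).mulVec (F.E v) := F.e.map_apply σ v

/-- The constants `DQ.R → DQ.R⟦Y⟧` form a local homomorphism. -/
theorem isLocalHom_C (R : Type) [CommRing R] [IsLocalRing R] :
    IsLocalHom (MvPowerSeries.C : R →+* MvPowerSeries (Fin 3) R) := by
  have h := Fermat.Agent.S53.H596.isLocalHom_algebraMap_mvPowerSeries (σ := Fin 3) (R := R)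
  rwa [← MvPowerSeries.c_eq_algebraMap] at h

/-- **The framed universal representation** `σ ↦ G · r^univ(σ) · G⁻¹` with values in
`M₂(DQ.R⟦Y₀, Y₁, Y₂⟧)`. -/
def framedRep (F : UFrame DQ) : GQ →* Matrix (Fin 2) (Fin 2) (MvPowerSeries (Fin 3) DQ.R) :=
  Fermat.Agent.S53.conjRep (frameUnit DQ.R)
    (Fermat.Agent.S53.mapRep (MvPowerSeries.C : DQ.R →+* MvPowerSeries (Fin 3) DQ.R) F.rR)

theorem framedRep_apply (F : UFrame DQ) (σ : GQ) :
    framedRep F σ = frameMat DQ.R * (F.rR σ).map MvPowerSeries.C *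
      (((frameUnit DQ.R)⁻¹ : (Matrix (Fin 2) (Fin 2) (MvPowerSeries (Fin 3) DQ.R))ˣ) :
        Matrix (Fin 2) (Fin 2) (MvPowerSeries (Fin 3) DQ.R)) := rfl

theorem matCont_framedRep (F : UFrame DQ) : Fermat.Agent.S53.MatCont (framedRep F) :=
  (F.hrR.map _ (isLocalHom_C DQ.R)).conj _

end Frame

end

end Fermat.Agent.S38.H953

end
-- ===== PACK-END S38/H953/Frame.lean

-- ===== PACK-BEGIN S55/PT/Setup.lean
section


/-!
# S55 / PT layer, part 6: the concrete arithmetic setting of S55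

`k = ZMod p`, global group `G_ℚ` with levels `globalLevels S`, local groups `Gl v` (`v ∈ S`)
with levels `localLevels v` and maps `rl v`; `μ = ofChar (cycloChar p)`.
-/

set_option autoImplicit false

noncomputable section

namespace Fermat.Agent.S55.PT

open groupCohomology ExtCitation

/-- The Prelude's local-to-global maps are compatible with the Prelude's level systems. -/
lemma rl_levelCompatible (S : Finset Nat.Primes) (q : Nat.Primes) :
    IsLevelCompatible (rl q) (globalLevels S) (localLevels q) := by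
  rintro U ⟨F, hF, rfl⟩
  exact ⟨_, ⟨F, hF.1, rfl⟩, le_rfl⟩

/-- the compatibility family indexed by `v ∈ S` -/
lemma hrl (S : Finset Nat.Primes) (v : ↥S) :
    IsLevelCompatible (rl v.1) (globalLevels S) (localLevels v.1) :=
  rl_levelCompatible S v.1

variable (p : ℕ) [Fact p.Prime]

/-- `μ_p` as a representation of `G_ℚ` over `F_p` -/
abbrev mu : Rep.{0, 0, 0} (ZMod p) GQ := ofChar (cycloChar p)

/-- `μ_p` restricted to the local group at `q` -/
abbrev muLoc (q : Nat.Primes) : Rep.{0, 0, 0} (ZMod p) (Gl q) := Rep.res (rl q) (mu p)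

/-- the Tate dual `N′ = Hom(N, μ_p)` -/
abbrev tdual (N : Rep.{0, 0, 0} (ZMod p) GQ) : Rep.{0, 0, 0} (ZMod p) GQ :=
  N.dualTwist (cycloChar p)

/-- the local cyclotomic character -/
abbrev cycloLoc (q : Nat.Primes) : Gl q →* (ZMod p)ˣ := (cycloChar p).comp (rl q)

/-- the local Tate dual -/
abbrev tdualLoc (q : Nat.Primes) (N : Rep.{0, 0, 0} (ZMod p) (Gl q)) :
    Rep.{0, 0, 0} (ZMod p) (Gl q) :=
  N.dualTwist (cycloLoc p q)

/-- A family of "invariant maps" `inv_v : H²(G_v, μ_p) → F_p`, `v ∈ S`. -/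
abbrev InvFamily (S : Finset Nat.Primes) : Type :=
  (v : ↥S) → (localLevels v.1).H2 (muLoc p v.1) →ₗ[ZMod p] ZMod p

end Fermat.Agent.S55.PT

end

end
-- ===== PACK-END S55/PT/Setup.lean

-- ===== PACK-BEGIN S55/PT/SpecF.lean
section


/-!
# S55 / layer D: framework leaves D-F1 … D-F7 (Spec pattern)

Each `def …Spec : Prop` is a leaf.  Producer: `theorem foo : FooSpec` in a NEW file
`Fermat/Agent/S55/PT/<Leaf>H<seat>.lean` (namespace `Fermat.Agent.S55.PT.H<seat>`).
All statements are about the definitions of `PT/{Levels,Coh,Les,Cone,Ind}.lean` (frozen).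
-/

set_option autoImplicit false

noncomputable section

namespace Fermat.Agent.S55.PT

open groupCohomology

/-- **D-F1.** `H⁰(B) → H⁰(C) →δ⁰ H¹(A) → H¹(B)` is exact at `H⁰(C)` and `H¹(A)`. -/
def Les0Spec : Prop :=
  ∀ (k : Type) [Field k] (G : Type) [Group G] (L : LevelSys G) (A B C : Rep.{0, 0, 0} k G)
    (E : SES A B C) (hB : L.IsUSmooth B),
    LinearMap.ker (E.del0 L hB) = LinearMap.range (pushH0 E.π E.hπ) ∧
    LinearMap.range (E.del0 L hB) = LinearMap.ker (pushH1 E.i E.hi L)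

/-- **D-F2.** `H¹(B) → H¹(C) →δ¹ H²(A) → H²(B)` is exact at `H¹(C)` and `H²(A)`. -/
def Les1Spec : Prop :=
  ∀ (k : Type) [Field k] (G : Type) [Group G] (L : LevelSys G) (A B C : Rep.{0, 0, 0} k G)
    (E : SES A B C) (hN : L.NormalCofinal) (hB : L.IsUSmooth B) (hC : L.IsUSmooth C),
    LinearMap.ker (E.del1 L hN hB hC) = LinearMap.range (pushH1 E.π E.hπ L) ∧
    LinearMap.range (E.del1 L hN hB hC) = LinearMap.ker (pushH2 E.i E.hi L)

/-- **D-F3.** Exactness at the middle terms `H⁰(B)`, `H¹(B)`, `H²(B)` and injectivity on `H⁰`. -/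
def LesMidSpec : Prop :=
  ∀ (k : Type) [Field k] (G : Type) [Group G] (L : LevelSys G) (A B C : Rep.{0, 0, 0} k G)
    (E : SES A B C) (_hN : L.NormalCofinal) (_hA : L.IsUSmooth A) (_hB : L.IsUSmooth B),
    Function.Injective (pushH0 E.i E.hi) ∧
    LinearMap.range (pushH0 E.i E.hi) = LinearMap.ker (pushH0 E.π E.hπ) ∧
    LinearMap.range (pushH1 E.i E.hi L) = LinearMap.ker (pushH1 E.π E.hπ L) ∧
    LinearMap.range (pushH2 E.i E.hi L) = LinearMap.ker (pushH2 E.π E.hπ L)

/-- **D-F4.** The cone sequence `∏_v H¹(G_v, A) →j H²_c(A) →u H²(A) →loc ∏_v H²(G_v, A)` is exact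
at `H²_c(A)` and at `H²(A)`. -/
def ConeSpec : Prop :=
  ∀ (k : Type) [Field k] (G : Type) [Group G] (ι : Type) [Fintype ι] [DecidableEq ι]
    (Gv : ι → Type) [∀ v, Group (Gv v)] (L : LevelSys G) (Lv : ∀ v, LevelSys (Gv v))
    (r : ∀ v, Gv v →* G) (hr : ∀ v, IsLevelCompatible (r v) L (Lv v))
    (_hN : L.NormalCofinal) (A : Rep.{0, 0, 0} k G) (_hA : L.IsUSmooth A),
    LinearMap.ker (uH (L := L) (Lv := Lv) (r := r) A) = LinearMap.range (jH (L := L) (Lv := Lv) (r := r) A) ∧
    LinearMap.range (uH (L := L) (Lv := Lv) (r := r) A) = LinearMap.ker (loc2 hr A)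

/-- smoothness is inherited by restriction along a level-compatible map -/
lemma LevelSys.IsUSmooth.res {k : Type} [Field k] {G G' : Type} [Group G] [Group G']
    {L : LevelSys G} {L' : LevelSys G'} {r : G' →* G} (hr : IsLevelCompatible r L L')
    {A : Rep.{0, 0, 0} k G} (hA : L.IsUSmooth A) : L'.IsUSmooth (Rep.res r A) := by
  obtain ⟨U, hU, h⟩ := hA
  obtain ⟨V, hV, hle⟩ := hr U hU
  exact ⟨V, hV, fun s hs a => h (r s) (hle hs) a⟩

/-- **D-F5.** The cone connecting map.  For a short exact sequence `0 → A → B → C → 0` of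
uniformly smooth modules such that `H²(B) → H²(C)` is surjective there is a linear map
`∂ : H²_c(C) → T³(A)` with
* `ker ∂ = im (H²_c(B) → H²_c(C))`,
* `im ∂ = ker (T³(A) → T³(B))`,
* `∂ (j b) = - [ (δ¹_v b_v)_v ]` (anticommutativity with the local connecting maps). -/
def ConeLesSpec : Prop :=
  ∀ (k : Type) [Field k] (G : Type) [Group G] (ι : Type) [Fintype ι] [DecidableEq ι]
    (Gv : ι → Type) [∀ v, Group (Gv v)] (L : LevelSys G) (Lv : ∀ v, LevelSys (Gv v))
    (r : ∀ v, Gv v →* G) (hr : ∀ v, IsLevelCompatible (r v) L (Lv v))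
    (_hN : L.NormalCofinal) (hNv : ∀ v, (Lv v).NormalCofinal)
    (A B C : Rep.{0, 0, 0} k G) (E : SES A B C)
    (_hA : L.IsUSmooth A) (hB : L.IsUSmooth B) (hC : L.IsUSmooth C),
    Function.Surjective (pushH2 E.π E.hπ L) →
    ∃ dT : Hc2 L Lv r C →ₗ[k] T3 hr A,
      LinearMap.ker dT = LinearMap.range (pushHc2 (L := L) (Lv := Lv) (r := r) E.π E.hπ) ∧
      LinearMap.range dT = LinearMap.ker (pushT3 hr E.i E.hi) ∧
      ∀ b : (v : ι) → (Lv v).H1 (Rep.res (r v) C),
        dT (jH (L := L) (Lv := Lv) (r := r) C b) =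
          - T3π hr A (fun v => (E.res (r v)).del1 (Lv v) (hNv v) (hB.res (hr v)) (hC.res (hr v))
              (b v))

/-- **D-F6.** Naturality of `δ⁰` with respect to restriction:
`res ∘ δ⁰ = δ⁰_res ∘ res` as maps `H⁰(G, C) → H¹(G', A)`. -/
def Del0ResSpec : Prop :=
  ∀ (k : Type) [Field k] (G G' : Type) [Group G] [Group G'] (L : LevelSys G) (L' : LevelSys G')
    (r : G' →* G) (hr : IsLevelCompatible r L L') (A B C : Rep.{0, 0, 0} k G) (E : SES A B C)
    (hB : L.IsUSmooth B) (c : ↥(LevelSys.H0 C)),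
    resH1 hr A (E.del0 L hB c) = (E.res r).del0 L' (hB.res hr) (resH0 r C c)

/-- **D-F7a.** Normal levels are cofinal among the global levels. -/
def GlobalNormalCofinalSpec : Prop :=
  ∀ S : Finset Nat.Primes, (globalLevels S).NormalCofinal

/-- **D-F7b.** Normal levels are cofinal among the local levels. -/
def LocalNormalCofinalSpec : Prop :=
  ∀ q : Nat.Primes, (localLevels q).NormalCofinal

/-- **D-F7c.** Global levels have finite index. -/
def GlobalFiniteIndexSpec : Prop :=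
  ∀ S : Finset Nat.Primes, (globalLevels S).FiniteIndex

/-- **D-F7d.** Local levels have finite index. -/
def LocalFiniteIndexSpec : Prop :=
  ∀ q : Nat.Primes, (localLevels q).FiniteIndex

end Fermat.Agent.S55.PT

end

end
-- ===== PACK-END S55/PT/SpecF.lean

-- ===== PACK-BEGIN S55/Local/H964/T5Middle.lean
section


/-!
# S55, layer L, T5 glue: the lower bound for a tower with an unramified quotient (helper964)

`exists_cocycle_lower_bound` : let `L / K` be finite Galois of degree `n`, `N ⊇ L` Galois over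
`K` with `N / L` unramified of degree `n`, and `E ⊆ N` Galois over `K`, unramified over `K`, with
`Gal(N/L) ∩ Gal(N/E) = 1` and `|Gal(N/E)| = e(N/K)`.  Then there is a 2-cocycle of `Gal(L/K)`
with values in `Lˣ` none of whose powers `k`, `n ∤ k`, is a coboundary.
-/

set_option autoImplicit false
set_option linter.style.haveILetI false
set_option linter.unusedSectionVars false
set_option linter.unusedVariables false

namespace Fermat.Agent.S55.Local.H964

open groupCohomology Fermat.Agent.S55.Local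

theorem exists_cocycle_lower_bound
    (hUR1 : UnramCyclicStatement) (hT2 : UnramNormRangeStatement) (hLF2 : ExistsUnifStatement)
    (hLF3 : IntUnitsComapStatement) (hA4a : CycCocycleIsCocycleStatement)
    (hA4b : CycCocycleCoboundaryIffStatement) (hA4d : CycCocyclePullbackStatement)
    (A F : Type) [CommRing A] [IsDomain A] [IsDiscreteValuationRing A]
    [IsAdicComplete (IsLocalRing.maximalIdeal A) A] [Finite (IsLocalRing.ResidueField A)]
    [Field F] [CharZero F] [Algebra A F] [IsFractionRing A F]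
    (K : Type) [Field K] [Algebra F K] [FiniteDimensional F K]
    (L : Type) [Field L] [Algebra F L] [Algebra K L] [IsScalarTower F K L]
    [FiniteDimensional K L] [IsGalois K L]
    (E : Type) [Field E] [Algebra F E] [Algebra K E] [IsScalarTower F K E]
    [FiniteDimensional K E] [IsGalois K E]
    (N : Type) [Field N] [Algebra F N] [Algebra K N] [Algebra L N] [Algebra E N]
    [IsScalarTower F K N] [IsScalarTower F L N] [IsScalarTower K L N] [IsScalarTower K E N]
    [FiniteDimensional K N] [IsGalois K N]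
    (hNL : IsUnram A F N L) (hdeg : Module.finrank L N = Module.finrank K L)
    (hEK : IsUnram A F E K)
    (hdisj : kerRes K L N ⊓ kerRes K E N = ⊥)
    (hcard : ∀ (ϖK : Kˣ) (ϖN : Nˣ), IsUnif A F K ϖK → IsUnif A F N ϖN →
        unitsIncl N K ϖK * ϖN ^ (-(Nat.card (kerRes K E N) : ℤ)) ∈ intUnits A F N) :
    ∃ cL : (L ≃ₐ[K] L) × (L ≃ₐ[K] L) → Lˣ, IsMulCocycle₂ cL ∧
      ∀ k : ℕ, IsMulCoboundary₂ (fun p => cL p ^ k) → Module.finrank K L ∣ k := by
  classical
  set n := Module.finrank K L with hn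
  have hnpos : 0 < n := Module.finrank_pos
  haveI : FiniteDimensional F L := Module.Finite.trans K L
  haveI : FiniteDimensional L N := Module.Finite.of_restrictScalars_finite K L N
  haveI : IsGalois L N := IsGalois.tower_top_of_isGalois K L N
  haveI hC : IsCyclic (E ≃ₐ[K] E) := hUR1 A F K E hEK
  -- the map `ρ : Gal(N/L) → Gal(E/K)`
  let ρ : kerRes K L N →* (E ≃ₐ[K] E) := (resHom K E N).comp (kerRes K L N).subtype
  have hρinj : Function.Injective ρ := by
    refine (injective_iff_map_eq_one ρ).2 fun s hs => ?_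
    have h1 : (s : N ≃ₐ[K] N) ∈ kerRes K L N ⊓ kerRes K E N := ⟨s.2, hs⟩
    rw [hdisj, Subgroup.mem_bot] at h1
    exact Subtype.ext h1
  haveI : IsCyclic (kerRes K L N) := isCyclic_of_injective ρ hρinj
  obtain ⟨ψ, hψ⟩ := IsCyclic.exists_generator (α := kerRes K L N)
  have hcardS : Nat.card (kerRes K L N) = n := by rw [card_kerRes, hdeg]
  have hordψ : orderOf ψ = n := by rw [orderOf_eq_card_of_forall_mem_zpowers hψ, hcardS]
  have horda : orderOf (ρ ψ) = n := by rw [orderOf_injective ρ hρinj, hordψ]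
  obtain ⟨φ, hφ, hφpow⟩ := exists_generator_pow_eq (ρ ψ)
  rw [horda] at hφpow
  set f := Nat.card (E ≃ₐ[K] E) with hf
  have hfE : f = Module.finrank K E := IsGalois.card_aut_eq_finrank K E
  have hnf : n ∣ f := by
    have := orderOf_dvd_natCard (ρ ψ)
    rwa [horda] at this
  set d := f / n with hd
  have hdn : d * n = f := Nat.div_mul_cancel hnf
  set e := Nat.card (kerRes K E N) with he
  have hef : e * f = n * n := by
    have h1 : e = Module.finrank E N := card_kerRes
    have h2 : Module.finrank K E * Module.finrank E N = Module.finrank K N :=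
      Module.finrank_mul_finrank K E N
    have h3 : Module.finrank K L * Module.finrank L N = Module.finrank K N :=
      Module.finrank_mul_finrank K L N
    rw [h1, hfE, mul_comm, h2, ← h3, hdeg]
  have hed : e * d = n := by
    have h1 : e * d * n = n * n := by rw [mul_assoc, hdn, hef]
    exact Nat.eq_of_mul_eq_mul_right hnpos h1
  have hdpos : 0 < d := Nat.pos_of_ne_zero (by rintro h; rw [h, mul_zero] at hed; omega)
  obtain ⟨ϖK, hϖK⟩ := hLF2 A F K
  obtain ⟨ϖL, hϖL⟩ := hLF2 A F L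
  -- ramification index of `L / K` is `e`
  have hram : unitsIncl L K ϖK * ϖL ^ (-(e : ℤ)) ∈ intUnits A F L := by
    have h1 := hcard ϖK (unitsIncl N L ϖL) hϖK (isUnif_unitsIncl A F hLF3 L N hNL hϖL)
    rw [← unitsIncl_unitsIncl (L := L), ← map_zpow, ← map_mul] at h1
    exact (hLF3 A F L N _).1 h1
  set u₀ : Lˣ := unitsIncl L K ϖK * ϖL ^ (-(e : ℤ)) with hu₀
  have hu₀' : unitsIncl L K ϖK = u₀ * ϖL ^ e := by
    rw [hu₀, zpow_neg, zpow_natCast, inv_mul_cancel_right]
  -- the cocycles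
  have haE : IsMulCocycle₂ (cycCocycle φ (unitsIncl E K (ϖK ^ d))) :=
    hA4a _ _ φ hφ _ (smul_unitsIncl_base φ _)
  set c₀ : (N ≃ₐ[K] N) × (N ≃ₐ[K] N) → Nˣ := fun p =>
    unitsIncl N E (cycCocycle φ (unitsIncl E K (ϖK ^ d)) (resHom K E N p.1, resHom K E N p.2))
    with hc₀def
  have hc₀ : IsMulCocycle₂ c₀ := isMulCocycle₂_inflate haE
  -- (2a) `c₀ ^ k` coboundary implies `n ∣ k`
  have h2a : ∀ k : ℕ, IsMulCoboundary₂ (fun p => c₀ p ^ k) → n ∣ k := by
    intro k hk
    have h1 : IsMulCoboundary₂ (cycCocycle φ (unitsIncl E K (ϖK ^ (d * k)))) := by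
      apply isMulCoboundary₂_of_inflate (N := N)
      have e1 : (fun p : (N ≃ₐ[K] N) × (N ≃ₐ[K] N) =>
          unitsIncl N E (cycCocycle φ (unitsIncl E K (ϖK ^ (d * k)))
            (resHom K E N p.1, resHom K E N p.2))) = fun p => c₀ p ^ k := by
        funext p
        rw [hc₀def]
        simp only
        rw [← map_pow, ← cycCocycle_pow, ← map_pow, ← pow_mul]
      rw [e1]
      exact hk
    have h2 := finrank_dvd_of_cycCocycle_coboundary A F hA4b hT2 K E hEK hϖK φ hφ (d * k) h1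
    rw [← hfE, ← hdn] at h2
    exact (Nat.mul_dvd_mul_iff_left hdpos).1 h2
  -- (2b) the restriction of `c₀` to `Gal(N/L)` is a coboundary
  have hρψ : ρ ψ = φ ^ (Nat.card (E ≃ₐ[K] E) / Nat.card (kerRes K L N)) := by
    rw [hcardS]
    exact hφpow.symm
  have hX : unitsIncl N K (ϖK ^ d) = unitsIncl N L (u₀ ^ d * ϖL ^ n) := by
    rw [← unitsIncl_unitsIncl (L := L), map_pow (unitsIncl L K), hu₀', mul_pow, ← pow_mul, hed]
  have h2b : ∃ φ' : kerRes K L N → Nˣ, ∀ s t : kerRes K L N,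
      c₀ ((s : N ≃ₐ[K] N), (t : N ≃ₐ[K] N)) =
        (s : N ≃ₐ[K] N) • φ' t / φ' (s * t) * φ' s := by
    obtain ⟨φ', hφ'⟩ := cycCocycle_kerRes_coboundary A F hA4b hT2 K L N hNL hϖL ψ hψ (u₀ ^ d)
      ((intUnits A F L).pow_mem hram d) n (by rw [hdeg])
    refine ⟨φ', fun s t => ?_⟩
    have h1 : c₀ ((s : N ≃ₐ[K] N), (t : N ≃ₐ[K] N)) =
        cycCocycle φ (unitsIncl N K (ϖK ^ d)) (ρ s, ρ t) := by
      rw [hc₀def]
      simp only
      rw [← cycCocycle_map, unitsIncl_unitsIncl]
      rfl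
    rw [h1, hA4d (E ≃ₐ[K] E) (kerRes K L N) Nˣ φ ψ ρ hφ hψ hρinj hρψ _ (s, t), hX]
    exact (hφ' s t).symm
  obtain ⟨φ', hφ'⟩ := h2b
  -- (3) descend to `Gal(L/K)`
  obtain ⟨c, f', hff', hf', i2, i1, i3⟩ :=
    mul_exists_inflated (kerRes K L N) mulHOneVanishes_kerRes hc₀ φ' hφ'
  obtain ⟨cL, hcL⟩ := exists_descend₂ f' i2 i1 i3
  refine ⟨cL, isMulCocycle₂_of_descend hf' hcL, fun k hk => h2a k ?_⟩
  obtain ⟨b, hb⟩ := (isMulCoboundary₂_iff _).1 hk
  have h1 := inflate_dMul (N := N) (f' := fun p => f' p ^ k) (cL := fun p => cL p ^ k)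
    (fun g h => by simp only [map_pow, hcL]) b hb
  refine (isMulCoboundary₂_iff _).2
    ⟨fun g => unitsIncl N L (b (resHom K L N g)) * c g ^ k, fun g h => ?_⟩
  rw [dMul_mul, dMul_pow, ← h1, hff', mul_pow]

end Fermat.Agent.S55.Local.H964

end
-- ===== PACK-END S55/Local/H964/T5Middle.lean

-- ===== PACK-BEGIN S55/Local/H535/A4c.lean
section



/-!
# S55 layer L, piece A4c (`CycCocycleSurjStatement`) — helper535

Every `2`-cocycle of a finite cyclic group is cohomologous to a standard cyclic cocycle.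
-/

set_option autoImplicit false

namespace Fermat.Agent.S55.Local.H535

open Fermat.Agent.S55.Local groupCohomology Finset

section

variable {G M : Type} [Group G] [CommGroup M] [MulDistribMulAction G M]

/-- The quotient of a cocycle by a coboundary is a cocycle. -/
lemma isMulCocycle₂_div_d1' {c : G × G → M} (hc : IsMulCocycle₂ c) (b : G → M) :
    IsMulCocycle₂ (fun p => c p / (p.1 • b p.2 / b (p.1 * p.2) * b p.1)) := by
  have h1 : d2 c = 1 := (d2_eq_one_iff c).2 hc
  have h2 : d2 (d1' b) = 1 := d2_d1' b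
  have h3 : d2 (c / d1' b) = 1 := by rw [map_div, h1, h2, div_one]
  exact (d2_eq_one_iff _).1 h3

end

/-- **A4c.** Every `2`-cocycle of a finite cyclic group is cohomologous to a standard one. -/
theorem cycCocycleSurj : Fermat.Agent.S55.Local.CycCocycleSurjStatement := by
  intro G M _ _ _ _ σ hσ c hc
  have hn : 0 < Nat.card G := Nat.card_pos
  rcases Nat.lt_or_ge (Nat.card G) 2 with h1 | h2
  · -- trivial group
    have hc1 : Nat.card G = 1 := by omega
    have hsub : ∀ g : G, g = 1 := by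
      intro g
      have := cycIdx_lt hσ g
      rw [← pow_cycIdx hσ g, show cycIdx σ g = 0 by omega, pow_zero]
    refine ⟨1, smul_one σ, fun _ => c (1, 1), fun g h => ?_⟩
    rw [hsub g, hsub h]
    simp [cycCocycle_apply]
  · set n := Nat.card G with hndef
    -- partial products and the candidate
    set Q : ℕ → M := fun m => ∏ k ∈ range m, c (σ ^ k, σ) with hQ
    have hQsucc : ∀ m, Q (m + 1) = Q m * c (σ ^ m, σ) := fun m => prod_range_succ _ _
    have hQ0 : Q 0 = 1 := prod_range_zero _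
    set x : M := Q n with hx
    set b : G → M := fun g => c (1, 1) / Q (cycIdx σ g) with hb
    set c' : G × G → M := fun p => c p / (p.1 • b p.2 / b (p.1 * p.2) * b p.1) with hc'def
    have hc' : IsMulCocycle₂ c' := isMulCocycle₂_div_d1' hc b
    have hσn : σ ^ n = 1 := by rw [hndef, ← orderOf_eq_card hσ]; exact pow_orderOf_eq_one σ
    have hbpow : ∀ i, i < n → b (σ ^ i) = c (1, 1) / Q i := by
      intro i hi
      simp only [hb, cycIdx_pow_of_lt hσ hi]
    have hbσ : b σ = 1 := by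
      have := hbpow 1 (by omega)
      rw [pow_one] at this
      rw [this, hQsucc, hQ0, one_mul, pow_zero, map_one_fst_of_isMulCocycle₂ hc σ, div_self']
    have hb1 : b 1 = c (1, 1) := by
      have := hbpow 0 (by omega)
      rw [pow_zero] at this
      rw [this, hQ0, div_one]
    -- (i) values at `(σ^i, σ)`
    have hi1 : ∀ i, i + 1 < n → c' (σ ^ i, σ) = 1 := by
      intro i hi
      simp only [hc'def]
      rw [hbσ, smul_one, ← pow_succ, hbpow (i + 1) hi, hbpow i (by omega), hQsucc]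
      apply Additive.ofMul.injective
      simp only [ofMul_mul, ofMul_div, ofMul_one]
      abel
    have hi2 : c' (σ ^ (n - 1), σ) = x := by
      simp only [hc'def]
      have e : σ ^ (n - 1) * σ = 1 := by rw [← pow_succ, Nat.sub_add_cancel (by omega), hσn]
      rw [hbσ, smul_one, e, hb1, hbpow (n - 1) (by omega)]
      have hxQ : x = Q (n - 1) * c (σ ^ (n - 1), σ) := by
        rw [hx, ← hQsucc, Nat.sub_add_cancel (by omega)]
      rw [hxQ]
      apply Additive.ofMul.injective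
      simp only [ofMul_mul, ofMul_div, ofMul_one]
      abel
    -- normalisation
    have h11 : c' (1, 1) = 1 := by
      have := hi1 0 (by omega)
      rw [pow_zero] at this
      rw [← map_one_fst_of_isMulCocycle₂ hc' σ, this]
    have hg1 : ∀ g : G, c' (g, 1) = 1 := fun g => by
      rw [map_one_snd_of_isMulCocycle₂ hc', h11, smul_one]
    -- (iii) all values
    have hall : ∀ j, j < n → ∀ i, i < n → c' (σ ^ i, σ ^ j) = x ^ ((i + j) / n) := by
      intro j
      induction j with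
      | zero =>
        intro _ i hi
        rw [pow_zero, hg1, add_zero, Nat.div_eq_of_lt hi, pow_zero]
      | succ j ih =>
        intro hj i hi
        have ihj := ih (by omega) i hi
        have hC := hc' (σ ^ i) (σ ^ j) σ
        rw [hi1 j hj, smul_one, one_mul, ← pow_succ, ← pow_add, ihj] at hC
        -- hC : c' (σ ^ (i + j), σ) * x ^ ((i + j) / n) = c' (σ ^ i, σ ^ (j + 1))
        rw [← hC]
        rcases Nat.lt_trichotomy (i + j) (n - 1) with hlt | heq | hgt
        · rw [hi1 (i + j) (by omega), one_mul, Nat.div_eq_of_lt (by omega),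
            show i + (j + 1) = i + j + 1 by ring, Nat.div_eq_of_lt (by omega)]
        · rw [heq, hi2, Nat.div_eq_of_lt (by omega), pow_zero, mul_one,
            show i + (j + 1) = n by omega, Nat.div_self hn, pow_one]
        · have hmod : σ ^ (i + j) = σ ^ (i + j - n) := by
            conv_lhs => rw [show i + j = (i + j - n) + n by omega, pow_add, hσn, mul_one]
          rw [hmod, hi1 (i + j - n) (by omega), one_mul,
            div_one_case (by omega : n ≤ i + j) (by omega),
            div_one_case (by omega : n ≤ i + (j + 1)) (by omega)]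
    -- (iv) invariance
    have hxinv : σ • x = x := by
      have hC := hc' σ (σ ^ (n - 1)) σ
      have e1 : σ * σ ^ (n - 1) = 1 := by
        rw [← pow_succ', Nat.sub_add_cancel (by omega), hσn]
      have e2 : σ ^ (n - 1) * σ = 1 := by
        rw [← pow_succ, Nat.sub_add_cancel (by omega), hσn]
      have e3 : c' (σ, σ ^ (n - 1)) = x := by
        have := hall (n - 1) (by omega) 1 (by omega)
        rw [pow_one, show 1 + (n - 1) = n by omega, Nat.div_self hn, pow_one] at this
        exact this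
      rw [e1, e2, hi2, hg1, mul_one, e3, map_one_fst_of_isMulCocycle₂ hc' σ, h11, one_mul] at hC
      exact hC.symm
    refine ⟨x, hxinv, b, fun g h => ?_⟩
    have hgh := hall (cycIdx σ h) (cycIdx_lt hσ h) (cycIdx σ g) (cycIdx_lt hσ g)
    rw [pow_cycIdx hσ, pow_cycIdx hσ] at hgh
    show g • b h / b (g * h) * b g = c (g, h) / cycCocycle σ x (g, h)
    rw [cycCocycle_apply, ← hgh]
    simp only [hc'def]
    apply Additive.ofMul.injective
    simp only [ofMul_mul, ofMul_div]
    abel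

end Fermat.Agent.S55.Local.H535

end
-- ===== PACK-END S55/Local/H535/A4c.lean

-- ===== PACK-BEGIN S55/Local/H542/FF2Final.lean
section
/-
S55, layer L, piece FF2 (helper542), unconditional form:

  theorem mulH2FiniteField : Fermat.Agent.S55.Local.MulH2FiniteFieldStatement
-/




set_option autoImplicit false

namespace Fermat.Agent.S55.Local.H542

open Fermat.Agent.S55.Local

/-- **FF2.** The multiplicative `H²` of an extension of finite fields vanishes. -/
theorem mulH2FiniteField : MulH2FiniteFieldStatement :=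
  mulH2FiniteField_of cycCocycleCoboundaryIff cycCocycleSurj

end Fermat.Agent.S55.Local.H542

end
-- ===== PACK-END S55/Local/H542/FF2Final.lean

-- ===== PACK-BEGIN S55/T/NakHomH719.lean
section


/-!
# S55, layer T, leaf T6a (Nakayama) — the internal Hom functor `Hom_ℤ(R, -)` (helper719)

* `rep_exact_iff`, `rep_shortExact_iff` : exactness in `Rep ℤ G` on elements;
* `ihomSC`, `ihomSC_shortExact` : `Hom_ℤ(R, -)` preserves short exact sequences if `R` is
  `ℤ`-projective;
* `ihomCoind₁Iso` : `Hom_ℤ(R, coind₁ A) ≅ coind₁ (Hom_ℤ(R, A))`;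
* `isCohTriv_ihom_coind₁`.
-/

set_option autoImplicit false
set_option linter.style.haveILetI false

open CategoryTheory Limits groupCohomology Rep

namespace Fermat.Agent.S55.T.H719

open Fermat.Agent.S55.H572

noncomputable section

variable {k G : Type} [CommRing k] [Group G]

/-! ## Exactness on elements -/

theorem rep_exact_iff (S : ShortComplex (Rep.{0} k G)) :
    S.Exact ↔ ∀ x : S.X₂.V, S.g.hom x = 0 → ∃ y : S.X₁.V, S.f.hom y = x := by
  rw [← ShortComplex.exact_map_iff_of_faithful S (forget₂ (Rep.{0} k G) (ModuleCat.{0} k)),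
    ShortComplex.moduleCat_exact_iff]
  rfl

theorem rep_shortExact_iff (S : ShortComplex (Rep.{0} k G)) :
    S.ShortExact ↔ Function.Injective S.f.hom ∧ Function.Surjective S.g.hom ∧
      ∀ x : S.X₂.V, S.g.hom x = 0 → ∃ y : S.X₁.V, S.f.hom y = x := by
  constructor
  · intro h
    exact ⟨(Rep.mono_iff_injective _).1 h.mono_f, (Rep.epi_iff_surjective _).1 h.epi_g,
      (rep_exact_iff S).1 h.exact⟩
  · rintro ⟨h1, h2, h3⟩
    exact { exact := (rep_exact_iff S).2 h3
            mono_f := (Rep.mono_iff_injective _).2 h1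
            epi_g := (Rep.epi_iff_surjective _).2 h2 }

/-! ## `Hom_ℤ(R, -)` on short exact sequences -/

/-- View an element of `Hom_k(R, X)` as a linear map. -/
abbrev ihomLin {R X : Rep.{0} k G} (φ : ((Rep.ihom R).obj X).V) : R.V →ₗ[k] X.V := φ

/-- View a linear map as an element of `Hom_k(R, X)`. -/
abbrev ihomMk {R X : Rep.{0} k G} (φ : R.V →ₗ[k] X.V) : ((Rep.ihom R).obj X).V := φ

theorem ihom_map_hom_apply (R : Rep.{0} k G) {X Y : Rep.{0} k G} (f : X ⟶ Y)
    (φ : ((Rep.ihom R).obj X).V) (r : R.V) :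
    ihomLin (((Rep.ihom R).map f).hom φ) r = f.hom (ihomLin φ r) := rfl

theorem ihom_ρ_apply (R X : Rep.{0} k G) (g : G) (φ : ((Rep.ihom R).obj X).V) (r : R.V) :
    ihomLin (((Rep.ihom R).obj X).ρ g φ) r = X.ρ g (ihomLin φ (R.ρ g⁻¹ r)) := rfl

/-- The image of a short complex under `Hom_ℤ(R, -)`. -/
def ihomSC (R : Rep.{0} k G) (S : ShortComplex (Rep.{0} k G)) : ShortComplex (Rep.{0} k G) :=
  ShortComplex.mk ((Rep.ihom R).map S.f) ((Rep.ihom R).map S.g) (by
    rw [← Functor.map_comp, S.zero]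
    apply Rep.hom_ext
    apply Representation.IntertwiningMap.ext
    apply LinearMap.ext
    intro φ
    apply LinearMap.ext
    intro r
    rfl)

theorem ihomSC_shortExact (R : Rep.{0} k G) (hR : Module.Projective k R.V)
    {S : ShortComplex (Rep.{0} k G)} (hS : S.ShortExact) : (ihomSC R S).ShortExact := by
  rw [rep_shortExact_iff] at hS ⊢
  obtain ⟨h1, h2, h3⟩ := hS
  refine ⟨?_, ?_, ?_⟩
  · intro φ ψ h
    apply LinearMap.ext
    intro r
    apply h1
    have := congrArg (fun χ : R.V →ₗ[k] S.X₂.V => χ r) h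
    exact this
  · intro ψ
    obtain ⟨φ, hφ⟩ := Module.projective_lifting_property S.g.hom.toLinearMap
      (ψ : R.V →ₗ[k] S.X₃.V) h2
    refine ⟨φ, ?_⟩
    apply LinearMap.ext
    intro r
    exact congrArg (fun χ : R.V →ₗ[k] S.X₃.V => χ r) hφ
  · intro ψ hψ
    have hker : ∀ r : R.V, S.g.hom (ihomLin ψ r) = 0 := fun r =>
      congrArg (fun χ : R.V →ₗ[k] S.X₃.V => χ r) hψ
    -- lift through the range of `f`
    let f' : S.X₁.V →ₗ[k] LinearMap.range S.f.hom.toLinearMap :=
      S.f.hom.toLinearMap.rangeRestrict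
    have hf' : Function.Surjective f' := LinearMap.surjective_rangeRestrict _
    let ψ' : R.V →ₗ[k] LinearMap.range S.f.hom.toLinearMap :=
      LinearMap.codRestrict _ (ψ : R.V →ₗ[k] S.X₂.V) (fun r => by
        obtain ⟨y, hy⟩ := h3 _ (hker r)
        exact ⟨y, hy⟩)
    obtain ⟨φ, hφ⟩ := Module.projective_lifting_property f' ψ' hf'
    refine ⟨φ, ?_⟩
    apply LinearMap.ext
    intro r
    have := congrArg (fun χ : R.V →ₗ[k] LinearMap.range S.f.hom.toLinearMap => (χ r : S.X₂.V)) hφ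
    exact this

/-! ## `Hom_k(R, coind₁ A) ≅ coind₁ (Hom_k(R, A))` -/

/-- Evaluation `coind₁ A → A` at `x : G` (linear, not equivariant). -/
def coind₁Eval (A : Rep.{0} k G) (x : G) : (coind₁ A).V →ₗ[k] A.V where
  toFun f := f.1 x
  map_add' _ _ := rfl
  map_smul' _ _ := rfl

theorem coind₁Eval_apply (A : Rep.{0} k G) (x : G) (f : (coind₁ A).V) :
    coind₁Eval A x f = f.1 x := rfl

/-- The linear map `A → coind₁ A` built from a family of linear maps. -/
def coind₁Pi {M : Type} [AddCommGroup M] [Module k M] (A : Rep.{0} k G)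
    (F : G → (M →ₗ[k] A.V)) : M →ₗ[k] (coind₁ A).V where
  toFun m := mkCoind (res (⊥ : Subgroup G).subtype A) (fun x => F x m)
  map_add' m m' := by
    apply Subtype.ext
    funext x
    exact map_add (F x) m m'
  map_smul' c m := by
    apply Subtype.ext
    funext x
    exact map_smul (F x) c m

theorem coind₁Pi_apply {M : Type} [AddCommGroup M] [Module k M] (A : Rep.{0} k G)
    (F : G → (M →ₗ[k] A.V)) (m : M) (x : G) : (coind₁Pi A F m).1 x = F x m := rfl

/-- Underlying linear equivalence of `ihomCoind₁Iso`: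
`φ ↦ (x ↦ (r ↦ φ (x⁻¹ r) x))`. -/
def ihomCoind₁LinearEquiv (R A : Rep.{0} k G) :
    ((Rep.ihom R).obj (coind₁ A)).V ≃ₗ[k] (coind₁ ((Rep.ihom R).obj A)).V where
  toFun φ := mkCoind (res (⊥ : Subgroup G).subtype ((Rep.ihom R).obj A))
    (fun x => ihomMk ((coind₁Eval A x) ∘ₗ (ihomLin φ) ∘ₗ (R.ρ x⁻¹)))
  map_add' φ ψ := by
    apply Subtype.ext
    funext x
    apply LinearMap.ext
    intro r
    rfl
  map_smul' c φ := by
    apply Subtype.ext
    funext x
    apply LinearMap.ext
    intro r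
    rfl
  invFun F := ihomMk (coind₁Pi A (fun x => (ihomLin (F.1 x)) ∘ₗ (R.ρ x)))
  left_inv φ := by
    apply LinearMap.ext
    intro r
    apply Subtype.ext
    funext x
    change (ihomLin φ (R.ρ x⁻¹ (R.ρ x r))).1 x = (ihomLin φ r).1 x
    rw [← Module.End.mul_apply, ← map_mul, inv_mul_cancel, map_one, Module.End.one_apply]
  right_inv F := by
    apply Subtype.ext
    funext x
    apply LinearMap.ext
    intro r
    change ihomLin (F.1 x) (R.ρ x (R.ρ x⁻¹ r)) = ihomLin (F.1 x) r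
    rw [← Module.End.mul_apply, ← map_mul, mul_inv_cancel, map_one, Module.End.one_apply]

/-- `Hom_k(R, coind₁ A) ≅ coind₁ (Hom_k(R, A))`. -/
def ihomCoind₁Iso (R A : Rep.{0} k G) :
    (Rep.ihom R).obj (coind₁ A) ≅ coind₁ ((Rep.ihom R).obj A) :=
  Rep.mkIso (Representation.Equiv.mk (ihomCoind₁LinearEquiv R A) (fun g => by
    apply LinearMap.ext
    intro φ
    apply Subtype.ext
    funext x
    apply LinearMap.ext
    intro r
    change ((coind₁ A).ρ g (ihomLin φ (R.ρ g⁻¹ (R.ρ x⁻¹ r)))).1 x =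
      (ihomLin φ (R.ρ (x * g)⁻¹ r)).1 (x * g)
    rw [coind_ρ_coe, ← Module.End.mul_apply, ← map_mul, mul_inv_rev]))

theorem isCohTriv_coind₁ [Finite G] (A : Rep.{0} k G) : IsCohTriv (coind₁ A) := by
  intro H _ n
  exact isZero_tateCohomology_res_coind₁ H A n

theorem isCohTriv_ihom_coind₁ [Finite G] (R A : Rep.{0} k G) :
    IsCohTriv ((Rep.ihom R).obj (coind₁ A)) :=
  isCohTriv_of_iso (ihomCoind₁Iso R A).symm (isCohTriv_coind₁ _)

end

end Fermat.Agent.S55.T.H719

end
-- ===== PACK-END S55/T/NakHomH719.lean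

-- ===== PACK-BEGIN S55/H424/FinLocPrelude.lean
section






/-!
# `FIN-loc` in Prelude terms: level-constant 1-cocycles of `G_{ℚ_q}` form a finite-dim. space

For `N` a finite-dimensional `𝔽_p`-representation of the Prelude's local Galois group
`primeLocalGaloisGroup q` on which some level `r⁻¹(G_F)` (`F/ℚ` finite) acts trivially, the
space `cocycles₁ N ⊓ levelCochains₁ (primeLocalToGlobal q) N` of level-constant 1-cocycles is
finite-dimensional (`prime_finiteDimensional_levelCocycles`).  Hence so is every quotient, in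
particular the level-constant `H¹` (layer D input A2 = `PT.FinLocSpec`).

Inputs: local power index `[Eˣ : (Eˣ)^p] < ∞` (`H424.localField_index_range_pow_ne_zero`),
Kummer theory via Hilbert 90 (`H424.exists_kummer_level`), Krasner (`Bridge/Krasner.lean`).
-/

set_option autoImplicit false
set_option linter.unusedSectionVars false
set_option linter.style.haveILetI false

namespace Fermat.Agent.S55.H424

open groupCohomology ExtCitation

/-- Local power index for finite extensions of `ℚ_q` inside `PadicAlgCl q`. -/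
theorem padic_index_range_pow_ne_zero (q : ℕ) [Fact q.Prime]
    (E : IntermediateField ℚ_[q] (PadicAlgCl q)) (hE : FiniteDimensional ℚ_[q] E)
    (n : ℕ) (hn : n ≠ 0) :
    (powMonoidHom n : (↥E)ˣ →* (↥E)ˣ).range.index ≠ 0 :=
  localField_index_range_pow_ne_zero ℤ_[q] ℚ_[q] ↥E n hn

/-- There is one finite `E₁/ℚ_q` such that all level-constant 1-cocycles are right
`Gal(ℚ̄_q/E₁)`-invariant. -/
theorem padic_cocycle_right_invariant (p : ℕ) [Fact p.Prime] (q : ℕ) [Fact q.Prime]
    (N : Rep.{0, 0, 0} (ZMod p) (PadicAlgCl q ≃ₐ[ℚ_[q]] PadicAlgCl q))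
    (hN : ∃ F : IntermediateField ℚ (AlgebraicClosure ℚ), FiniteDimensional ℚ F ∧
      ∀ s, localGaloisToGlobal q s ∈ F.fixingSubgroup → ∀ a : N, N.ρ s a = a) :
    ∃ E₁ : IntermediateField ℚ_[q] (PadicAlgCl q), FiniteDimensional ℚ_[q] E₁ ∧
      ∀ c ∈ cocycles₁ N, IsLevelConstant₁ (localGaloisToGlobal q) c →
        ∀ g s : PadicAlgCl q ≃ₐ[ℚ_[q]] PadicAlgCl q, s ∈ E₁.fixingSubgroup → c (g * s) = c g := by
  obtain ⟨F, hF, hFN⟩ := hN
  haveI := hF
  obtain ⟨E₀, hE₀, hE₀F⟩ := Bridge.exists_local_level_of_global q F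
  haveI := hE₀
  obtain ⟨E₁, hE₁fin, -, hE₁⟩ := cocycle_right_invariant_of_kummer (k₀ := ℚ_[q])
    (Ω := PadicAlgCl q) p
    (fun E hE => padic_index_range_pow_ne_zero q E hE p (Fact.out : p.Prime).ne_zero) N E₀
    (fun s hs a => hFN s (hE₀F s hs) a)
  exact ⟨E₁, hE₁fin, fun c hc hlc g s hs =>
    hE₁ c hc ((Bridge.isLevelConstant₁_local_iff q c).1 hlc) g s hs⟩

/-- `FIN-loc`, cocycle form, for `Gal(ℚ̄_q/ℚ_q)`. -/
theorem padic_finiteDimensional_levelCocycles (p : ℕ) [Fact p.Prime] (q : ℕ) [Fact q.Prime]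
    (N : Rep.{0, 0, 0} (ZMod p) (PadicAlgCl q ≃ₐ[ℚ_[q]] PadicAlgCl q))
    [FiniteDimensional (ZMod p) N]
    (hN : ∃ F : IntermediateField ℚ (AlgebraicClosure ℚ), FiniteDimensional ℚ F ∧
      ∀ s, localGaloisToGlobal q s ∈ F.fixingSubgroup → ∀ a : N, N.ρ s a = a) :
    FiniteDimensional (ZMod p)
      ↥(cocycles₁ N ⊓ levelCochains₁ (localGaloisToGlobal q) N) := by
  haveI : Normal ℚ_[q] (PadicAlgCl q) := IsAlgClosure.normal ℚ_[q] (PadicAlgCl q)
  obtain ⟨E₁, hE₁fin, hE₁⟩ := padic_cocycle_right_invariant p q N hN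
  haveI := hE₁fin
  haveI : E₁.fixingSubgroup.FiniteIndex := fixingSubgroup_finiteIndex E₁
  exact finite_of_right_invariant E₁.fixingSubgroup _
    (fun c hc g s hs => hE₁ c hc.1 hc.2 g s hs)

/-- `FIN-loc`, cocycle form, for the Prelude's `primeLocalGaloisGroup q`. -/
theorem prime_finiteDimensional_levelCocycles (p : ℕ) [Fact p.Prime] (q : Nat.Primes)
    (N : Rep.{0, 0, 0} (ZMod p) (primeLocalGaloisGroup q)) [FiniteDimensional (ZMod p) N]
    (hN : ∃ F : IntermediateField ℚ (AlgebraicClosure ℚ), FiniteDimensional ℚ F ∧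
      ∀ s, primeLocalToGlobal q s ∈ F.fixingSubgroup → ∀ a : N, N.ρ s a = a) :
    FiniteDimensional (ZMod p)
      ↥(cocycles₁ N ⊓ levelCochains₁ (primeLocalToGlobal q) N) := by
  letI : Fact (q : ℕ).Prime := ⟨q.2⟩
  exact padic_finiteDimensional_levelCocycles p (q : ℕ) N hN

/-- The single level killing all level-constant cocycles, in Prelude terms:
a finite `F₁/ℚ` such that every level-constant 1-cocycle is right-invariant under
`r⁻¹(G_{F₁})`. -/
theorem prime_cocycle_right_invariant (p : ℕ) [Fact p.Prime] (q : Nat.Primes)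
    (N : Rep.{0, 0, 0} (ZMod p) (primeLocalGaloisGroup q))
    (hN : ∃ F : IntermediateField ℚ (AlgebraicClosure ℚ), FiniteDimensional ℚ F ∧
      ∀ s, primeLocalToGlobal q s ∈ F.fixingSubgroup → ∀ a : N, N.ρ s a = a) :
    ∃ F₁ : IntermediateField ℚ (AlgebraicClosure ℚ), FiniteDimensional ℚ F₁ ∧
      ∀ c ∈ cocycles₁ N, IsLevelConstant₁ (primeLocalToGlobal q) c →
        ∀ g s : primeLocalGaloisGroup q, primeLocalToGlobal q s ∈ F₁.fixingSubgroup →
          c (g * s) = c g := by
  letI : Fact (q : ℕ).Prime := ⟨q.2⟩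
  obtain ⟨E₁, hE₁fin, hE₁⟩ := padic_cocycle_right_invariant p (q : ℕ) N hN
  haveI := hE₁fin
  obtain ⟨F₁, hF₁, hF₁E⟩ := Bridge.exists_global_level_of_local (q : ℕ) E₁
  exact ⟨F₁, hF₁, fun c hc hlc g s hs => hE₁ c hc hlc g s (hF₁E s hs)⟩

end Fermat.Agent.S55.H424

end
-- ===== PACK-END S55/H424/FinLocPrelude.lean

-- ===== PACK-BEGIN S55/H696/DevClosure.lean
section


/-!
# S55 / dévissage for level-constant `H³` (helper696), part 1: closure properties

Vocabulary (verbatim copies of the definitions of helper53's layer-KL interface, so that the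
final statement is definitionally the Spec `H3DevissageSpec`):

* `IsLC3 L f`      : the 3-cochain `f` is level-constant;
* `IsCoc3 A f`     : the inhomogeneous 3-cocycle condition;
* `H3Van L A`      : every level-constant 3-cocycle is `d` of a level-constant 2-cochain.

Closure properties of `H3Van` (cochain level, `k` a field):

* `h3Van_of_subsingleton` : the zero module;
* `h3Van_of_retract`      : `A → B → A` equivariant with composite an invertible scalar;
* `h3Van_of_ses`          : extensions `0 → A → B → C → 0` (`B` uniformly smooth, normal levels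
                            cofinal).
-/

set_option autoImplicit false

noncomputable section

namespace Fermat.Agent.S55.H696

open groupCohomology Fermat.Agent.S55.PT

variable {G : Type} [Group G] {k : Type}

/-- `H` contains a level. -/
def IsOpenSubgroup (L : LevelSys G) (H : Subgroup G) : Prop := ∃ U ∈ L.levels, U ≤ H

/-- Level-constant 3-cochains. -/
def IsLC3 (L : LevelSys G) {X : Type*} (f : G × G × G → X) : Prop :=
  ∃ U ∈ L.levels, ∀ g₁ g₂ g₃ s₁ s₂ s₃ : G, s₁ ∈ U → s₂ ∈ U → s₃ ∈ U →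
    f (g₁ * s₁, g₂ * s₂, g₃ * s₃) = f (g₁, g₂, g₃)

/-- The inhomogeneous 3-cocycle condition. -/
def IsCoc3 [CommRing k] (A : Rep.{0, 0, 0} k G) (f : G × G × G → A) : Prop :=
  ∀ g h i j : G,
    A.ρ g (f (h, i, j)) - f (g * h, i, j) + f (g, h * i, j) - f (g, h, i * j) + f (g, h, i) = 0

/-- `H³_lc(G, A) = 0`. -/
def H3Van [CommRing k] (L : LevelSys G) (A : Rep.{0, 0, 0} k G) : Prop :=
  ∀ z : G × G × G → A, IsLC3 L z → IsCoc3 A z →
    ∃ b : G × G → A, L.IsLC₂ b ∧ (d₂₃ A).hom b = z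

/-! ### level-constancy -/

section LC

variable {L : LevelSys G}

lemma IsLC3.comp {X Y : Type*} {f : G × G × G → X} (hf : IsLC3 L f) (φ : X → Y) :
    IsLC3 L (φ ∘ f) := by
  obtain ⟨U, hU, h⟩ := hf
  exact ⟨U, hU, fun g₁ g₂ g₃ s₁ s₂ s₃ h₁ h₂ h₃ => by
    simp only [Function.comp_apply, h g₁ g₂ g₃ s₁ s₂ s₃ h₁ h₂ h₃]⟩

lemma IsLC3.sub {X : Type*} [Sub X] {f f' : G × G × G → X} (hf : IsLC3 L f)
    (hf' : IsLC3 L f') : IsLC3 L (f - f') := by
  obtain ⟨U, hU, h⟩ := hf
  obtain ⟨V, hV, h'⟩ := hf'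
  obtain ⟨W, hW, hle⟩ := L.directed U hU V hV
  refine ⟨W, hW, fun g₁ g₂ g₃ s₁ s₂ s₃ h₁ h₂ h₃ => ?_⟩
  simp only [Pi.sub_apply]
  rw [h g₁ g₂ g₃ s₁ s₂ s₃ (hle h₁).1 (hle h₂).1 (hle h₃).1,
    h' g₁ g₂ g₃ s₁ s₂ s₃ (hle h₁).2 (hle h₂).2 (hle h₃).2]

/-- A level below two given levels which is moreover normal. -/
lemma exists_normal_level_le (hN : L.NormalCofinal) {U V : Subgroup G} (hU : U ∈ L.levels)
    (hV : V ∈ L.levels) : ∃ W ∈ L.levels, W ≤ U ∧ W ≤ V ∧ W.Normal := by
  obtain ⟨W₀, hW₀, hle⟩ := L.directed U hU V hV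
  obtain ⟨W, hW, hWle, hWn⟩ := hN W₀ hW₀
  exact ⟨W, hW, fun x hx => (hle (hWle hx)).1, fun x hx => (hle (hWle hx)).2, hWn⟩

variable [CommRing k] {A : Rep.{0, 0, 0} k G}

/-- `d` of a level-constant 2-cochain with values in a uniformly smooth module is
level-constant. -/
lemma isLC3_d₂₃ (hN : L.NormalCofinal) (hA : L.IsUSmooth A) {b : G × G → A}
    (hb : L.IsLC₂ b) : IsLC3 L ((d₂₃ A).hom b) := by
  obtain ⟨U, hU, hUA⟩ := hA
  obtain ⟨V, hV, hVb⟩ := hb
  obtain ⟨W, hW, hWU, hWV, hWn⟩ := exists_normal_level_le hN hU hV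
  refine ⟨W, hW, fun g₁ g₂ g₃ s₁ s₂ s₃ h₁ h₂ h₃ => ?_⟩
  have conj : ∀ (g s : G), s ∈ W → g⁻¹ * s * g ∈ W := fun g s hs => by
    have := hWn.conj_mem s hs g⁻¹
    simpa using this
  have e1 : g₁ * s₁ * (g₂ * s₂) = g₁ * g₂ * (g₂⁻¹ * s₁ * g₂ * s₂) := by group
  have e2 : g₂ * s₂ * (g₃ * s₃) = g₂ * g₃ * (g₃⁻¹ * s₂ * g₃ * s₃) := by group
  have m1 : g₂⁻¹ * s₁ * g₂ * s₂ ∈ V := hWV (W.mul_mem (conj g₂ s₁ h₁) h₂)
  have m2 : g₃⁻¹ * s₂ * g₃ * s₃ ∈ V := hWV (W.mul_mem (conj g₃ s₂ h₂) h₃)
  simp only [d₂₃_hom_apply]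
  rw [e1, e2, hVb g₂ g₃ s₂ s₃ (hWV h₂) (hWV h₃), hVb (g₁ * g₂) g₃ _ s₃ m1 (hWV h₃),
    hVb g₁ (g₂ * g₃) s₁ _ (hWV h₁) m2, hVb g₁ g₂ s₁ s₂ (hWV h₁) (hWV h₂), map_mul,
    Module.End.mul_apply, hUA s₁ (hWU h₁)]

end LC

/-! ### the cocycle condition -/

section Coc

variable [CommRing k] {A B : Rep.{0, 0, 0} k G}

lemma isCoc3_d₂₃ (b : G × G → A) : IsCoc3 A ((d₂₃ A).hom b) := by
  intro g h i j
  simp only [d₂₃_hom_apply, map_sub, map_add, mul_assoc]
  rw [← Module.End.mul_apply, ← map_mul]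
  abel

lemma IsCoc3.sub {f f' : G × G × G → A} (hf : IsCoc3 A f) (hf' : IsCoc3 A f') :
    IsCoc3 A (f - f') := by
  intro g h i j
  have h1 := hf g h i j
  have h2 := hf' g h i j
  simp only [Pi.sub_apply, map_sub]
  have : A.ρ g (f (h, i, j)) - A.ρ g (f' (h, i, j)) - (f (g * h, i, j) - f' (g * h, i, j)) +
      (f (g, h * i, j) - f' (g, h * i, j)) - (f (g, h, i * j) - f' (g, h, i * j)) +
      (f (g, h, i) - f' (g, h, i)) =
      (A.ρ g (f (h, i, j)) - f (g * h, i, j) + f (g, h * i, j) - f (g, h, i * j) + f (g, h, i)) -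
      (A.ρ g (f' (h, i, j)) - f' (g * h, i, j) + f' (g, h * i, j) - f' (g, h, i * j)
        + f' (g, h, i)) := by abel
  rw [this, h1, h2, sub_zero]

end Coc

/-! ### closure properties of `H3Van` -/

section Closure

variable [Field k] {A B C : Rep.{0, 0, 0} k G} {L : LevelSys G}

lemma IsCoc3.push {φ : A →ₗ[k] B} (hφ : IsEquivariant φ) {f : G × G × G → A}
    (hf : IsCoc3 A f) : IsCoc3 B (φ ∘ f) := by
  intro g h i j
  have hφ' : ∀ (g : G) (a : A), φ (A.ρ g a) = B.ρ g (φ a) := hφ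
  have := congrArg φ (hf g h i j)
  simpa only [Function.comp_apply, map_sub, map_add, map_zero, hφ'] using this

lemma IsCoc3.of_push {φ : A →ₗ[k] B} (hφ : IsEquivariant φ) (hinj : Function.Injective φ)
    {f : G × G × G → A} (hf : IsCoc3 B (φ ∘ f)) : IsCoc3 A f := by
  intro g h i j
  have hφ' : ∀ (g : G) (a : A), φ (A.ρ g a) = B.ρ g (φ a) := hφ
  apply hinj
  have := hf g h i j
  simpa only [Function.comp_apply, map_sub, map_add, map_zero, hφ'] using this

/-- The zero module. -/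
theorem h3Van_of_subsingleton [Subsingleton A] (L : LevelSys G) : H3Van L A := by
  intro z _ _
  refine ⟨0, L.isLC₂_const (0 : A), ?_⟩
  funext x
  exact Subsingleton.elim _ _

/-- Retracts (up to an invertible scalar). -/
theorem h3Van_of_retract {i : A →ₗ[k] B} {r : B →ₗ[k] A} (hi : IsEquivariant i)
    (hr : IsEquivariant r) {c : k} (hc : c ≠ 0) (hri : ∀ a : A, r (i a) = c • a)
    (hB : H3Van L B) : H3Van L A := by
  intro z hz hzc
  obtain ⟨b, hb, hdb⟩ := hB (i ∘ z) (hz.comp i) (hzc.push hi)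
  refine ⟨(c⁻¹ • r) ∘ b, hb.comp _, ?_⟩
  have hr' : IsEquivariant (A := B) (B := A) (c⁻¹ • r) := by
    intro g a
    have hr'' : ∀ (g : G) (a : B), r (B.ρ g a) = A.ρ g (r a) := hr
    simp only [LinearMap.smul_apply, hr'', map_smul]
  rw [push_d₂₃ (c⁻¹ • r) hr', hdb]
  funext x
  simp only [Function.comp_apply, LinearMap.smul_apply, hri, smul_smul, inv_mul_cancel₀ hc,
    one_smul]

/-- Isomorphisms. -/
theorem h3Van_of_equiv (e : A ≃ₗ[k] B) (he : IsEquivariant (e : A →ₗ[k] B))
    (hB : H3Van L B) : H3Van L A := by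
  refine h3Van_of_retract (i := (e : A →ₗ[k] B)) (r := (e.symm : B →ₗ[k] A)) he ?_
    (one_ne_zero : (1 : k) ≠ 0) (fun a => by simp) hB
  intro g b
  have he' : ∀ (g : G) (a : A), e (A.ρ g a) = B.ρ g (e a) := he
  apply e.injective
  simp only [LinearEquiv.coe_coe, LinearEquiv.apply_symm_apply, he']

/-- Extensions. -/
theorem h3Van_of_ses (E : SES A B C) (hN : L.NormalCofinal) (hBs : L.IsUSmooth B)
    (hA : H3Van L A) (hC : H3Van L C) : H3Van L B := by
  intro z hz hzc
  -- kill the image in `C`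
  obtain ⟨c, hc, hdc⟩ := hC (E.π ∘ z) (hz.comp E.π) (hzc.push E.hπ)
  set c' : G × G → B := E.sec ∘ c with hc'
  have hc'lc : L.IsLC₂ c' := hc.comp E.sec
  set z' : G × G × G → B := z - (d₂₃ B).hom c' with hz'
  have hz'lc : IsLC3 L z' := hz.sub (isLC3_d₂₃ hN hBs hc'lc)
  have hz'c : IsCoc3 B z' := hzc.sub (isCoc3_d₂₃ c')
  have hπz' : ∀ x, E.π (z' x) = 0 := by
    intro x
    have h1 : E.π ∘ (d₂₃ B).hom c' = (d₂₃ C).hom (E.π ∘ c') := (push_d₂₃ E.π E.hπ c').symm
    have h2 : E.π ∘ c' = c := by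
      funext y
      simp only [hc', Function.comp_apply, E.π_sec]
    have h3 := congrFun h1 x
    rw [h2, hdc] at h3
    simp only [Function.comp_apply] at h3
    simp only [hz', Pi.sub_apply, map_sub, h3, sub_self]
  -- descend to `A`
  have hiz : (E.i ∘ (E.ret ∘ z') : G × G × G → B) = z' := E.i_comp_ret_comp hπz'
  have hz''lc : IsLC3 L (E.ret ∘ z') := hz'lc.comp E.ret
  have hz''c : IsCoc3 A (E.ret ∘ z') := IsCoc3.of_push E.hi E.inj (by rw [hiz]; exact hz'c)
  obtain ⟨a, ha, hda⟩ := hA (E.ret ∘ z') hz''lc hz''c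
  refine ⟨c' + E.i ∘ a, hc'lc.add (ha.comp E.i), ?_⟩
  rw [map_add, push_d₂₃ E.i E.hi, hda, hiz, hz']
  abel

end Closure

end Fermat.Agent.S55.H696

end

end
-- ===== PACK-END S55/H696/DevClosure.lean

-- ===== PACK-BEGIN S55/Spec/Datum3.lean
section
/-
S55 moonshot — interface G/L → D, version 3 (FINAL): `IsGoodMu` (Spec/Datum2.lean) PLUS
GD5b: `C(F) / im J(F)` (the `S`-class group of `F`) is TORSION.  Chief architect: helper55.  NO sorry.

WHY (found while checking LIM2 "capitulation, cokernel part", coord/S55-E1.md §5): to push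
`f ∈ Hom_G(R, C(F))` into `Hom(R, C'(F'))`, `C' = im J`, one multiplies `f` by `w ≡ 1 (p)`,
`w ≡ 0 (m')` where `m' p^a` kills the classes of the values of `f` in `C/C'`; then GD5 applies.
This needs that every element of `C(F)` has a nonzero multiple in `im J(F)`.  In the intended model
`C/C' = Cl_S(F)`, which is finite (Mathlib: finiteness of the class group).

`GlobalSpecFin S p` is the FINAL target of layer G.   `GlobalSpec → GlobalSpecMu` is unchanged;
`GlobalSpecFin → GlobalSpecMu`.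
-/


set_option autoImplicit false

open CategoryTheory

namespace Fermat.Agent.S55.Tow

noncomputable section

variable {S : Finset Nat.Primes}

namespace TowerDatum

variable (D : TowerDatum S)

/-- GD5b: every element of `C(F)` has a nonzero multiple in the image of `J(F) = ⊕_{q ∈ S} J_q(F)`
(`C(F)/im J(F)` is the `S`-class group, a finite group). -/
def IsTorsModLocal : Prop :=
  ∀ (L : Level S) (c : (D.C L).V), ∃ m : ℕ, 0 < m ∧ D.IsLocalSum L (m • c)

/-- The properties of a tower datum consumed by the engine E1, final form. -/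
structure IsGoodFin (p : ℕ) : Prop where
  /-- GD1, GD3–GD8 (arithmetic ones above `μ_p`) -/
  good : D.IsGoodMu p
  /-- GD5b: `C(F)/im J(F)` is torsion -/
  gd5b : D.IsTorsModLocal

end TowerDatum

/-- **FINAL TARGET OF LAYER G**: a tower datum which is good above `μ_p` and whose
`C(F)/im J(F)` are torsion. -/
def GlobalSpecFin (S : Finset Nat.Primes) (p : ℕ) : Prop :=
  ∃ D : TowerDatum S, D.IsGoodFin p

theorem GlobalSpecFin.globalSpecMu {p : ℕ} (h : GlobalSpecFin S p) : GlobalSpecMu S p := by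
  obtain ⟨D, hD⟩ := h
  exact ⟨D, hD.good⟩

end

end Fermat.Agent.S55.Tow

end
-- ===== PACK-END S55/Spec/Datum3.lean

-- ===== PACK-BEGIN S55/Bridge/H175/LevelPrime.lean
section




set_option autoImplicit false
set_option linter.style.haveILetI false

/-!
# B11, part 4: prime-ideal form of the finite-level decomposition group

* `primeOfPlace V : Ideal (𝓞 K)` : the prime of the ring of integers below a valuation subring;
* `decompositionSubgroup_eq_stabilizer` : for `K/ℚ` algebraic and `V` over a rational prime, the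
  decomposition group of `V` is the stabiliser of `primeOfPlace V`;
* `levelPrime q F` : the prime `{x ∈ 𝓞 F | ‖ι x‖ < 1}` of `𝓞 F`;
* `decompositionAt_eq_stabilizer` : the image of `Gal(ℚ̄_q/ℚ_q)` in `Gal(F/ℚ)` is the stabiliser
  of `levelPrime q F`.
-/

open scoped NNReal Pointwise NumberField

namespace Fermat.Agent.S55.Bridge.H175

section General

variable {K : Type*} [Field K]

/-- The prime of `𝓞 K` below a valuation subring `V` of `K`. -/
def primeOfPlace (V : ValuationSubring K) : Ideal (𝓞 K) where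
  carrier := {b | (b : K) ∈ V.nonunits}
  add_mem' := fun {a b} ha hb => by
    change algebraMap (𝓞 K) K (a + b) ∈ V.nonunits
    rw [map_add]
    exact V.nonunits.add_mem ha hb
  zero_mem' := by
    change algebraMap (𝓞 K) K 0 ∈ V.nonunits
    rw [map_zero]
    exact V.nonunits.zero_mem
  smul_mem' := fun c b hb => by
    change algebraMap (𝓞 K) K (c * b) ∈ V.nonunits
    rw [map_mul]
    obtain ⟨hb1, hb2⟩ := ValuationSubring.mem_nonunits_iff_exists_mem_maximalIdeal.mp hb
    have hc : (c : K) ∈ V :=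
      Fermat.Agent.S54.isIntegral_mem_valuationSubring V (NumberField.RingOfIntegers.isIntegral_coe c)
    have := Ideal.mul_mem_left _ (⟨(c : K), hc⟩ : V) hb2
    exact ValuationSubring.mem_nonunits_iff_exists_mem_maximalIdeal.mpr ⟨_, this⟩

theorem mem_primeOfPlace {V : ValuationSubring K} {b : 𝓞 K} :
    b ∈ primeOfPlace V ↔ (b : K) ∈ V.nonunits := Iff.rfl

theorem primeOfPlace_isPrime (V : ValuationSubring K) : (primeOfPlace V).IsPrime := by
  constructor
  · intro h
    have : (1 : 𝓞 K) ∈ primeOfPlace V := by rw [h]; trivial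
    have h1 : algebraMap (𝓞 K) K 1 ∈ V.nonunits := this
    rw [map_one, ValuationSubring.mem_nonunits_iff] at h1
    simp at h1
  · intro a b hab
    have hab' : algebraMap (𝓞 K) K (a * b) ∈ V.nonunits := hab
    rw [map_mul] at hab'
    replace hab : (a : K) * (b : K) ∈ V.nonunits := hab'
    rw [mem_primeOfPlace, mem_primeOfPlace]
    have ha : (a : K) ∈ V :=
      Fermat.Agent.S54.isIntegral_mem_valuationSubring V (NumberField.RingOfIntegers.isIntegral_coe a)
    have hb : (b : K) ∈ V :=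
      Fermat.Agent.S54.isIntegral_mem_valuationSubring V (NumberField.RingOfIntegers.isIntegral_coe b)
    obtain ⟨h1, h2⟩ := ValuationSubring.mem_nonunits_iff_exists_mem_maximalIdeal.mp hab
    have h3 : (⟨(a : K), ha⟩ : V) * ⟨(b : K), hb⟩ ∈ IsLocalRing.maximalIdeal V := h2
    rcases (IsLocalRing.maximalIdeal.isMaximal V).isPrime.mem_or_mem h3 with h | h
    · exact Or.inl (ValuationSubring.mem_nonunits_iff_exists_mem_maximalIdeal.mpr ⟨ha, h⟩)
    · exact Or.inr (ValuationSubring.mem_nonunits_iff_exists_mem_maximalIdeal.mpr ⟨hb, h⟩)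

theorem natCast_mem_primeOfPlace {V : ValuationSubring K} {ℓ : ℕ} (hV : V.LiesOverPrime ℓ) :
    (ℓ : 𝓞 K) ∈ primeOfPlace V := by
  change algebraMap (𝓞 K) K (ℓ : 𝓞 K) ∈ V.nonunits
  rw [map_natCast]
  exact hV

variable [CharZero K]

theorem coe_smul_ringOfIntegers (σ : K ≃ₐ[ℚ] K) (b : 𝓞 K) : ((σ • b : 𝓞 K) : K) = σ (b : K) :=
  rfl

variable [Algebra.IsAlgebraic ℚ K]

/-- **Decomposition group = stabiliser of the prime below.** -/
theorem decompositionSubgroup_eq_stabilizer (V : ValuationSubring K) (ℓ : ℕ) (hℓ : ℓ.Prime)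
    (hV : V.LiesOverPrime ℓ) :
    V.decompositionSubgroup ℚ = MulAction.stabilizer (K ≃ₐ[ℚ] K) (primeOfPlace V) := by
  ext σ
  rw [ValuationSubring.decompositionSubgroup, MulAction.mem_stabilizer_iff,
    MulAction.mem_stabilizer_iff]
  constructor
  · intro h
    have hmem : ∀ x : K, σ x ∈ V ↔ x ∈ V := by
      intro x
      have h2 : σ • x ∈ σ • V ↔ x ∈ V := ValuationSubring.smul_mem_pointwise_smul_iff
      rw [h] at h2
      exact h2
    have hinv : ∀ x : K, σ⁻¹ x ∈ V.nonunits ↔ x ∈ V.nonunits := by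
      intro x
      have h3 := apply_mem_nonunits_iff V σ hmem (σ⁻¹ x)
      rw [show σ (σ⁻¹ x) = x from by simp [AlgEquiv.aut_inv]] at h3
      exact h3.symm
    ext b
    rw [Ideal.mem_pointwise_smul_iff_inv_smul_mem, mem_primeOfPlace, mem_primeOfPlace,
      coe_smul_ringOfIntegers]
    exact hinv _
  · intro h
    apply smul_valuationSubring_eq_of_algebraic V ℓ hℓ hV
    intro b hb
    let b' : 𝓞 K := ⟨b, hb⟩
    have h1 : σ • b' ∈ σ • primeOfPlace V ↔ b' ∈ primeOfPlace V :=
      Ideal.smul_mem_pointwise_smul_iff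
    rw [h] at h1
    exact h1

end General

section Padic

variable (q : ℕ) [Fact q.Prime]
variable (F : IntermediateField ℚ (AlgebraicClosure ℚ))

/-- The prime `{x ∈ 𝓞 F | ‖ι x‖ < 1}` of `𝓞 F` cut out by the `q`-adic place of `ℚ̄`. -/
noncomputable def levelPrime : Ideal (𝓞 F) := primeOfPlace (levelPlace F (padicPlace q))

theorem levelPrime_isPrime : (levelPrime q F).IsPrime := primeOfPlace_isPrime _

theorem levelPlace_liesOverPrime : (levelPlace F (padicPlace q)).LiesOverPrime q := by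
  have h := padicPlace_liesOverPrime q
  unfold ValuationSubring.LiesOverPrime at h ⊢
  rw [ValuationSubring.mem_nonunits_iff_or] at h ⊢
  rcases h with h | h
  · left
    exact_mod_cast h
  · right
    intro hc
    apply h
    have := (mem_levelPlace F).mp hc
    simpa using this

theorem natCast_mem_levelPrime : (q : 𝓞 F) ∈ levelPrime q F :=
  natCast_mem_primeOfPlace (levelPlace_liesOverPrime q F)

theorem mem_levelPrime_iff {x : 𝓞 F} :
    x ∈ levelPrime q F ↔ ‖padicEmbedding q (((x : F)) : AlgebraicClosure ℚ)‖ < 1 := by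
  unfold levelPrime
  rw [mem_primeOfPlace, ValuationSubring.mem_nonunits_iff_or]
  constructor
  · rintro (h | h)
    · rw [h]; simp
    · by_contra hc
      apply h
      rw [mem_levelPlace_padicPlace]
      push Not at hc
      rw [IntermediateField.coe_inv, map_inv₀, norm_inv]
      exact inv_le_one_of_one_le₀ hc
  · intro h
    by_cases h0 : (x : F) = 0
    · exact Or.inl h0
    · right
      intro hc
      rw [mem_levelPlace_padicPlace, IntermediateField.coe_inv, map_inv₀, norm_inv] at hc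
      have hpos : 0 < ‖padicEmbedding q (((x : F)) : AlgebraicClosure ℚ)‖ := by
        rw [norm_pos_iff]
        intro h1
        apply h0
        have h2 : (((x : F)) : AlgebraicClosure ℚ) = 0 := by
          apply Fermat.Agent.S55.H175.padicEmbedding_injective q
          rw [h1, map_zero]
        exact_mod_cast h2
      have := (inv_le_one₀ hpos).mp hc
      linarith

variable [hFn : Normal ℚ F]

/-- **The finite-level decomposition group is the stabiliser of the prime `levelPrime q F`.** -/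
theorem decompositionAt_eq_stabilizer :
    decompositionAt q F = MulAction.stabilizer (F ≃ₐ[ℚ] F) (levelPrime q F) := by
  have : Algebra.IsAlgebraic ℚ (AlgebraicClosure ℚ) := AlgebraicClosure.isAlgebraic ℚ
  have : Algebra.IsAlgebraic ℚ F := Algebra.IsAlgebraic.of_injective F.val F.val.injective
  rw [decompositionAt_eq]
  exact decompositionSubgroup_eq_stabilizer _ q Fact.out (levelPlace_liesOverPrime q F)

end Padic

end Fermat.Agent.S55.Bridge.H175

end
-- ===== PACK-END S55/Bridge/H175/LevelPrime.lean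

-- ===== PACK-BEGIN S55/G/Exist121/Desc.lean
section



/-!
# S55, layer G, block EXIST: leaf EX-DESC (descent to the base field)

Author: helper121.  `descentTop : DescentTopSpec`, unconditional, from helper773's descent library
(`Fermat.Agent.S55.G.DescH773`: `cBase`, `cBase_injective`, `mem_range_cBase_iff`,
`eAt_eq_one_of_inertia`).
-/

set_option autoImplicit false

open scoped NumberField
open IsDedekindDomain

noncomputable section

namespace Fermat.Agent.S55.G.Exist121

open Fermat.Agent.S55.G Fermat.Agent.S55.G.DescH773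

/-- `IsUnramOut` gives ramification index one at the primes outside `S`. -/
lemma eAt_eq_one_of_isUnramOut (S : Finset Nat.Primes) (G K L : Type) [Group G] [Finite G]
    [Field K] [NumberField K] [Field L] [NumberField L] [Algebra K L] [MulSemiringAction G L]
    [IsGaloisGroup G K L] (hur : IsUnramOut S G L) (w : PrimeOut S L) : eAt K w.1 = 1 := by
  have : FaithfulSMul G L := IsGaloisGroup.faithful K
  refine eAt_eq_one_of_inertia G K w.1 fun g hg => ?_
  have h1 : ∀ x : L, g • x = x := hur w.1 w.2 g hg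
  exact eq_of_smul_eq_smul (α := L) fun x => by rw [h1 x, one_smul]

/-- **EX-DESC.** -/
theorem descentTop : DescentTopSpec := by
  intro S G K L _ _ _ _ _ _ _ _ _ hS hur
  have he : ∀ w : PrimeOut S L, eAt K w.1 = 1 := eAt_eq_one_of_isUnramOut S G K L hur
  refine ⟨cBase S K L, cBase_injective S G K L hS, fun c => ?_, fun y => ?_⟩
  · have := mem_range_cBase_iff S G K L hS he c
    constructor
    · intro h
      obtain ⟨c', hc'⟩ := this.2 h
      exact ⟨c', hc'⟩
    · rintro ⟨c', rfl⟩ g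
      exact cRepr_cBase S G K L g c'
  · change cBase S K L (Submodule.Quotient.mk (y, 0)) = Submodule.Quotient.mk (jMap S K L y, 0)
    rw [cBase_mk]
    congr 1
    exact Prod.ext rfl (map_zero (divBase S K L))

end Fermat.Agent.S55.G.Exist121

end
end
-- ===== PACK-END S55/G/Exist121/Desc.lean

-- ===== PACK-BEGIN S55/G/Exist/H361/KummerField.lean
section
/-
S55 / layer G / block EXIST, leaf EX-KUM (helper361), part 3: `kummerFieldSpec : KummerFieldSpec`.

For a number field `K ∋ μ_p`, `p ∈ S`, and `pX ≤ B ≤ Δ_S(K)` of finite index over `pX`, the field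
`M = K(ᵖ√B)` (inside `AlgebraicClosure K`) with `Γ = Gal(M/K)` has all the properties required by
`KummerFieldSpec` (exact type of `G/Exist/Spec.lean`, owner helper233):

* `Γ` is commutative of exponent `p`, of order `[B : pX]`, with fixed field `K`
  (Kummer theory: `Fermat/Agent/S55/H361/Kummer.lean`);
* `M / K` is unramified outside `S` (`Unram.lean`);
* if `B ≤ Ш_S(K)`, every `S`-idèle of `K` is a norm from `M` (`SplitNorm.lean`).
-/





set_option autoImplicit false
set_option linter.unusedSectionVars false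
set_option linter.style.haveILetI false

open scoped NumberField TensorProduct
open IsDedekindDomain

noncomputable section

namespace Fermat.Agent.S55.G.Exist.H361

open Fermat.Agent.S55.G Fermat.Agent.S55.H361

section General

variable {K M : Type} [Field K] [NumberField K] [Field M] [NumberField M] [Algebra K M]
  (p : ℕ) [hp : Fact p.Prime] (S : Finset Nat.Primes)

/-- A Kummer extension generated by `p`-th roots of elements of `Δ_S(K)` is unramified outside
`S` (`p ∈ S`). -/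
theorem isUnramOut_of_kummer [HasEnoughRootsOfUnity K p]
    (hpS : (⟨p, hp.out⟩ : Nat.Primes) ∈ S) {A : Subgroup Kˣ}
    (hgen : IntermediateField.adjoin K (rootSetOf M p A) = ⊤)
    (hΔ : ∀ a ∈ A, ∀ v : PrimeOut S K, (p : ℤ) ∣ ordAt v.1 (Additive.ofMul a)) :
    IsUnramOut S (M ≃ₐ[K] M) M := by
  haveI : NeZero p := ⟨hp.out.ne_zero⟩
  intro w hw g hg x
  have h1 : g = 1 := by
    refine eq_one_of_forall_rootSetOf (n := p) hgen ?_
    rintro β ⟨a, ha, hβ⟩
    refine fixes_root_of_inertia p S hpS w hw g (fun x y hxy => ?_) a (hΔ a ha) β hβ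
    have hy : y = g • x := by
      apply NumberField.RingOfIntegers.coe_injective
      exact hxy
    rw [hy]
    exact hg x
  rw [h1]
  exact one_smul _ x

/-- `g ⊗ 1` fixes the image of `K ⊗ ℚ_S`. -/
lemma asAut_asMap (g : M ≃ₐ[K] M) (y : AS S K) :
    asAut S (M ≃ₐ[K] M) M g (asMap S K M y) = asMap S K M y := by
  induction y using TensorProduct.induction_on with
  | zero => simp
  | tmul x q =>
    have h : asMap S K M (x ⊗ₜ[ℚ] q) = (algebraMap K M x) ⊗ₜ[ℚ] q := by
      simp [asMap]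
    rw [h, asAut_tmul]
    congr 1
    exact g.commutes x
  | add a b ha hb => simp only [map_add, ha, hb]

lemma asMap_asDiag (x : K) : asMap S K M (asDiag S K x) = asDiag S M (algebraMap K M x) := by
  simp [asMap, asDiag_apply]

/-- **Split norms.**  If `M / K` is a finite abelian extension of exponent `p` (`μ_p ⊂ K`) such
that every element of its Kummer group is a `p`-th power in `K ⊗ ℚ_S`, then every `S`-idèle of `K`
is a norm from `M`. -/
theorem exists_norm_of_split {ζ : K} (hζ : IsPrimitiveRoot ζ p) [FiniteDimensional K M]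
    [IsGalois K M] [HasEnoughRootsOfUnity K p]
    (hcomm : ∀ σ τ : M ≃ₐ[K] M, σ * τ = τ * σ) (hexp : ∀ σ : M ≃ₐ[K] M, σ ^ p = 1)
    (hSha : ∀ a : kummerSubgroup K M p, ∃ u : (AS S K)ˣ,
      ((u ^ p : (AS S K)ˣ) : AS S K) = asDiag S K ((a : Kˣ) : K))
    (j : (AS S K)ˣ) :
    ∃ j' : (AS S M)ˣ,
      ∏ g : M ≃ₐ[K] M,
        Units.map (((asRingAut (M ≃ₐ[K] M) S M g : AS S M ≃+* AS S M)) : AS S M →* AS S M) j' =
      Units.map ((asMap S K M : AS S K →ₐ[ℚ] AS S M) : AS S K →* AS S M) j := by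
  classical
  haveI : NeZero p := ⟨hp.out.ne_zero⟩
  -- the data
  have h1 : ∀ i : M ≃ₐ[K] M, ∃ a : kummerSubgroup K M p, i ≠ 1 → kummerRoot K M p i a ≠ 1 := by
    intro i
    by_cases h : i = 1
    · exact ⟨1, fun h' => absurd h h'⟩
    · obtain ⟨a, ha⟩ := exists_kummerRoot_ne_one hcomm hexp h
      exact ⟨a, fun _ => ha⟩
  choose a ha using h1
  have h2 : ∀ i : M ≃ₐ[K] M, ∃ β : M, β ^ p = algebraMap K M (((a i : Kˣ)) : K) :=
    fun i => exists_root_of_mem (a i)
  choose β hβ using h2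
  choose u hu using fun i : M ≃ₐ[K] M => hSha (a i)
  let ι : K →+* AS S M := ((asDiag S M : M →ₐ[ℚ] AS S M) : M →+* AS S M).comp (algebraMap K M)
  let t : (M ≃ₐ[K] M) → AS S M := fun i =>
    asDiag S M (β i) * asMap S K M (((u i)⁻¹ : (AS S K)ˣ) : AS S K)
  have hpK : (p : K) ≠ 0 := by
    have : (p : K) = ((p : ℕ) : K) := rfl
    exact_mod_cast hp.out.ne_zero
  have hfix : ∀ (g : M ≃ₐ[K] M) (x : K), asRingAut (M ≃ₐ[K] M) S M g (ι x) = ι x := by
    intro g x
    change asAut S (M ≃ₐ[K] M) M g (asDiag S M (algebraMap K M x)) = asDiag S M (algebraMap K M x)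
    rw [asAut_asDiag]
    congr 1
    exact g.commutes x
  have ht : ∀ i, t i ^ p = 1 := by
    intro i
    change (asDiag S M (β i) * asMap S K M (((u i)⁻¹ : (AS S K)ˣ) : AS S K)) ^ p = 1
    rw [mul_pow, ← map_pow, hβ, ← asMap_asDiag, ← map_pow, ← map_mul, ← hu i, ← Units.val_pow_eq_pow_val,
      ← Units.val_mul, inv_pow, mul_inv_cancel, Units.val_one, map_one]
  have hact : ∀ i g, asRingAut (M ≃ₐ[K] M) S M g (t i) =
      ι (((kummerDual K M p (a i) g : rootsOfUnity p K) : Kˣ) : K) * t i := by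
    intro i g
    change asAut S (M ≃ₐ[K] M) M g
        (asDiag S M (β i) * asMap S K M (((u i)⁻¹ : (AS S K)ˣ) : AS S K)) =
      asDiag S M (algebraMap K M _) *
        (asDiag S M (β i) * asMap S K M (((u i)⁻¹ : (AS S K)ˣ) : AS S K))
    rw [map_mul, asAut_asMap, asAut_asDiag, ← mul_assoc, ← map_mul]
    congr 2
    rw [kummerDual_apply]
    exact kummerRoot_spec g (a i) (hβ i)
  have hsep : ∀ g : M ≃ₐ[K] M, g ≠ 1 → ∃ i, kummerDual K M p (a i) g ≠ 1 := by
    intro g hg
    exact ⟨g, by rw [kummerDual_apply]; exact ha g hg⟩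
  have hj : ∀ g : M ≃ₐ[K] M, asRingAut (M ≃ₐ[K] M) S M g
      ((Units.map ((asMap S K M : AS S K →ₐ[ℚ] AS S M) : AS S K →* AS S M) j : (AS S M)ˣ) :
        AS S M) =
      ((Units.map ((asMap S K M : AS S K →ₐ[ℚ] AS S M) : AS S K →* AS S M) j : (AS S M)ˣ) :
        AS S M) := by
    intro g
    exact asAut_asMap S g _
  exact exists_units_prod_eq hp.out ι hpK hζ (asRingAut (M ≃ₐ[K] M) S M) hfix t ht
    (fun i => kummerDual K M p (a i)) hact hsep _ hj

end General

section Translate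

variable (p : ℕ) (K : Type) [Field K]

lemma toAddSubgroup_powSubgroup :
    Subgroup.toAddSubgroup (powSubgroup K p) = pMul p (Additive Kˣ) := by
  ext x
  constructor
  · rintro ⟨b, hb⟩
    refine ⟨Additive.ofMul b, ?_⟩
    exact congrArg Additive.ofMul hb
  · rintro ⟨y, hy⟩
    refine ⟨y.toMul, ?_⟩
    exact congrArg Additive.toMul hy

end Translate

/-- **EX-KUM.** -/
theorem kummerFieldSpec : KummerFieldSpec := by
  intro p hp hp2 S K _ _ hpS hζ B hpB hBΔ hfin
  classical
  obtain ⟨ζ, hζ'⟩ := hζ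
  haveI : NeZero p := ⟨hp.out.ne_zero⟩
  haveI : HasEnoughRootsOfUnity K p := ⟨⟨ζ, hζ'⟩, inferInstance⟩
  -- the multiplicative subgroup
  let A : Subgroup Kˣ := Subgroup.toAddSubgroup.symm B
  have hAB : Subgroup.toAddSubgroup A = B := OrderIso.apply_symm_apply _ B
  have hmemA : ∀ a : Kˣ, a ∈ A ↔ Additive.ofMul a ∈ B := fun a => Iff.rfl
  have hPA : powSubgroup K p ≤ A := by
    rw [← Subgroup.toAddSubgroup.le_iff_le, hAB, toAddSubgroup_powSubgroup]
    exact hpB
  have hfinA : (powSubgroup K p).relIndex A ≠ 0 := by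
    rw [← Subgroup.relIndex_toAddSubgroup, hAB, toAddSubgroup_powSubgroup]
    exact hfin
  have hrel : (powSubgroup K p).relIndex A = (pMul p (Additive Kˣ)).relIndex B := by
    rw [← Subgroup.relIndex_toAddSubgroup, hAB, toAddSubgroup_powSubgroup]
  have hA : A ≤ kummerSubgroup K (AlgebraicClosure K) p := by
    intro a _
    obtain ⟨z, hz⟩ := IsAlgClosed.exists_pow_nat_eq
      (algebraMap K (AlgebraicClosure K) (a : K)) hp.out.pos
    exact mem_kummerSubgroup_iff'.2 ⟨z, hz⟩
  have hΔ : ∀ a ∈ A, ∀ v : PrimeOut S K, (p : ℤ) ∣ ordAt v.1 (Additive.ofMul a) := by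
    intro a ha v
    obtain ⟨d, hd⟩ := (mem_kDelta_iff p (Additive.ofMul a)).1 (hBΔ ((hmemA a).1 ha))
    refine ⟨d v, ?_⟩
    have := congrArg (fun f : PrimeOut S K →₀ ℤ => f v) hd
    simp only [Finsupp.smul_apply, nsmul_eq_mul] at this
    rw [this]
    rfl
  -- the field
  let M : IntermediateField K (AlgebraicClosure K) := kummerField (AlgebraicClosure K) p A
  haveI hfd : FiniteDimensional K M := finiteDimensional_kummerField hA hfinA
  haveI hnf : NumberField M := NumberField.of_module_finite K M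
  have hgen : IntermediateField.adjoin K (rootSetOf M p A) = ⊤ :=
    adjoin_rootSetOf_kummerField_eq_top
  have hcomm : ∀ σ τ : M ≃ₐ[K] M, σ * τ = τ * σ := mul_comm_aut_kummerField hA
  have hexp : ∀ σ : M ≃ₐ[K] M, σ ^ p = 1 := pow_eq_one_aut_kummerField hA
  have hKA : kummerSubgroup K M p = A := kummerSubgroup_kummerField hPA hA hfinA
  refine ⟨M, inferInstance, hnf, inferInstance, M ≃ₐ[K] M, inferInstance, inferInstance,
    inferInstance, inferInstance, ?_, hcomm, hexp, ?_, ?_, ?_, ?_⟩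
  · -- fixed field
    intro x
    rw [RingHom.mem_range]
    constructor
    · intro h
      exact (IsGalois.mem_range_algebraMap_iff_fixed x).2 h
    · intro h g
      exact (IsGalois.mem_range_algebraMap_iff_fixed x).1 h g
  · -- cardinality
    rw [← Nat.card_eq_fintype_card, IsGalois.card_aut_eq_finrank K M,
      finrank_kummerField hPA hA hfinA, hrel]
  · -- unramified
    exact isUnramOut_of_kummer p S hpS hgen hΔ
  · -- roots
    intro x hx
    have hxA : x.toMul ∈ A := hx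
    obtain ⟨β, hβ⟩ := mem_kummerSubgroup_iff'.1 (hKA ▸ hxA : x.toMul ∈ kummerSubgroup K M p)
    exact ⟨β, hβ⟩
  · -- split norms
    intro hSha j
    have hS : ∀ a : kummerSubgroup K M p, ∃ u : (AS S K)ˣ,
        ((u ^ p : (AS S K)ˣ) : AS S K) = asDiag S K ((a : Kˣ) : K) := by
      intro a
      have haA : (a : Kˣ) ∈ A := hKA ▸ a.2
      obtain ⟨-, u, hu⟩ := (mem_kSha_iff p (Additive.ofMul (a : Kˣ))).1
        (hSha ((hmemA _).1 haA))
      refine ⟨u.toMul, ?_⟩
      have h1 : (u.toMul ^ p : (AS S K)ˣ) = (unitsDiag S K (Additive.ofMul (a : Kˣ))).toMul :=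
        congrArg Additive.toMul hu
      rw [h1]
      rfl
    obtain ⟨j', hj'⟩ := exists_norm_of_split p S hζ' hcomm hexp hS j.toMul
    refine ⟨Additive.ofMul j', ?_⟩
    have h2 : ∀ g : M ≃ₐ[K] M, jRepr (M ≃ₐ[K] M) S M g (Additive.ofMul j') =
        Additive.ofMul (Units.map
          (((asRingAut (M ≃ₐ[K] M) S M g : AS S M ≃+* AS S M)) : AS S M →* AS S M) j') :=
      fun g => rfl
    simp_rw [h2]
    rw [← ofMul_prod, hj']
    rfl

end Fermat.Agent.S55.G.Exist.H361

end

end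
-- ===== PACK-END S55/G/Exist/H361/KummerField.lean

-- ===== PACK-BEGIN S55/G/TraceZeroBasis.lean
section
/-
S55, layer G, block G-U, subtask 287 (helper831): `TraceZeroBasisSpec`.

A `ℤ`-basis of the integral trace-zero lattice inside `ℝ^X`: fix `x₀`, take the family
`e_x - e_{x₀}` (`x ≠ x₀`), reindexed by `Fin (card {x // x ≠ x₀})`.
-/



set_option autoImplicit false

namespace Fermat.Agent.S55.G.TZB

open Fermat.Agent.S55.G

universe v

section

variable {X : Type v} [DecidableEq X] (x0 : X)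

/-- The vector `e_x - e_{x₀}` of `ℝ^X`. -/
def diffVec (x : X) : X → ℝ := Pi.single x 1 - Pi.single x0 1

/-- The vector `e_x - e_{x₀}` of `ℤ^X`. -/
def diffVecZ (x : X) : X → ℤ := Pi.single x 1 - Pi.single x0 1

lemma coeHomR_diffVecZ (x : X) : coeHomR X (diffVecZ x0 x) = diffVec x0 x := by
  funext y
  simp only [coeHomR_apply, diffVecZ, diffVec, Pi.sub_apply, Pi.single_apply]
  split_ifs <;> simp

variable [Fintype X]

lemma sum_diffVecZ (x : X) : ∑ y, diffVecZ x0 x y = 0 := by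
  simp [diffVecZ, Finset.sum_sub_distrib]

lemma diffVecZ_mem_traceZero (x : X) : diffVecZ x0 x ∈ traceZero X := by
  show sumHom X (diffVecZ x0 x) = 0
  exact sum_diffVecZ x0 x

lemma sum_diffVec (x : X) : ∑ y, diffVec x0 x y = 0 := by
  simp [diffVec, Finset.sum_sub_distrib]

/-- Evaluation of a combination of the `e_y - e_{x₀}` at a point `x ≠ x₀`. -/
lemma comb_apply_ne (c : {x : X // x ≠ x0} → ℝ) (x : X) (hx : x ≠ x0) :
    (∑ y : {x : X // x ≠ x0}, c y • diffVec x0 y.1) x = c ⟨x, hx⟩ := by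
  rw [Finset.sum_apply, Finset.sum_eq_single (⟨x, hx⟩ : {x : X // x ≠ x0})]
  · simp [diffVec, hx]
  · intro y _ hy
    have hne : x ≠ y.1 := fun h => hy (Subtype.ext h.symm)
    simp [diffVec, hne, hx]
  · intro h
    exact absurd (Finset.mem_univ _) h

/-- Evaluation of a combination of the `e_y - e_{x₀}` at `x₀`. -/
lemma comb_apply_self (c : {x : X // x ≠ x0} → ℝ) :
    (∑ y : {x : X // x ≠ x0}, c y • diffVec x0 y.1) x0 = - ∑ y, c y := by
  rw [Finset.sum_apply, ← Finset.sum_neg_distrib]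
  refine Finset.sum_congr rfl fun y _ => ?_
  have hne : x0 ≠ y.1 := fun h => y.2 h.symm
  simp [diffVec, hne]

lemma sum_subtype_ne (a : X → ℝ) :
    ∑ x, a x = a x0 + ∑ y : {x : X // x ≠ x0}, a y.1 := by
  rw [← Finset.add_sum_erase Finset.univ a (Finset.mem_univ x0)]
  congr 1
  exact Finset.sum_subtype (Finset.univ.erase x0) (fun x => by simp) a

/-- Every trace-zero real vector is the obvious combination of the `e_y - e_{x₀}`. -/
lemma decomp (a : X → ℝ) (ha : ∑ x, a x = 0) :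
    a = ∑ y : {x : X // x ≠ x0}, a y.1 • diffVec x0 y.1 := by
  funext x
  by_cases hx : x = x0
  · subst hx
    rw [comb_apply_self]
    have := sum_subtype_ne x a
    linarith
  · rw [comb_apply_ne x0 (fun y => a y.1) x hx]

end

/-- **(TZ-BASIS)**, subtask 287 (proof). -/
theorem traceZeroBasisSpec_aux : TraceZeroBasisSpec.{v} := by
  classical
  intro X _ _
  obtain ⟨x0⟩ := (inferInstance : Nonempty X)
  let Y := {x : X // x ≠ x0}
  let e : Fin (Fintype.card Y) ≃ Y := (Fintype.equivFin Y).symm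
  let b : Fin (Fintype.card Y) → (X → ℝ) := fun i => diffVec x0 (e i).1
  -- reindexing of combinations
  have hre : ∀ c : Y → ℝ, ∑ i, c (e i) • b i = ∑ y : Y, c y • diffVec x0 y.1 := fun c =>
    Fintype.sum_equiv e (fun i => c (e i) • b i) (fun y => c y • diffVec x0 y.1) (fun _ => rfl)
  have hker : ∀ i, b i ∈ LinearMap.ker (∑ x : X, LinearMap.proj x : (X → ℝ) →ₗ[ℝ] ℝ) := by
    intro i
    rw [LinearMap.mem_ker, LinearMap.sum_apply]
    simp only [LinearMap.proj_apply]
    exact sum_diffVec x0 _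
  refine ⟨Fintype.card Y, b, ?_, ?_, ?_⟩
  · -- linear independence
    rw [Fintype.linearIndependent_iff]
    intro g hg i
    have h1 : ∑ j, g j • b j = ∑ y : Y, g (e.symm y) • diffVec x0 y.1 := by
      rw [← hre (fun y => g (e.symm y))]
      simp
    rw [h1] at hg
    have h2 := comb_apply_ne x0 (fun y => g (e.symm y)) (e i).1 (e i).2
    rw [hg] at h2
    simpa using h2.symm
  · -- real span
    apply le_antisymm
    · rw [Submodule.span_le]
      rintro _ ⟨i, rfl⟩
      exact hker i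
    · intro a ha
      rw [LinearMap.mem_ker, LinearMap.sum_apply] at ha
      simp only [LinearMap.proj_apply] at ha
      rw [_root_.Fermat.Agent.S55.G.TZB.decomp x0 a ha, ← hre (fun y => a y.1)]
      exact Submodule.sum_mem _ fun i _ =>
        Submodule.smul_mem _ _ (Submodule.subset_span ⟨i, rfl⟩)
  · -- integral span
    apply le_antisymm
    · have : Submodule.span ℤ (Set.range b) ≤
          AddSubgroup.toIntSubmodule ((traceZero X).map (coeHomR X)) := by
        rw [Submodule.span_le]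
        rintro _ ⟨i, rfl⟩
        exact ⟨diffVecZ x0 (e i).1, diffVecZ_mem_traceZero x0 _, coeHomR_diffVecZ x0 _⟩
      intro v hv
      exact this hv
    · rintro _ ⟨a, ha, rfl⟩
      have ha' : ∑ x, coeHomR X a x = 0 := by
        have h0 : sumHom X a = 0 := ha
        have h1 : ((∑ x, a x : ℤ) : ℝ) = 0 := by
          have : (∑ x, a x : ℤ) = 0 := h0
          rw [this]; simp
        simpa using h1
      have hdec := _root_.Fermat.Agent.S55.G.TZB.decomp x0 (coeHomR X a) ha'
      rw [← hre (fun y => coeHomR X a y.1)] at hdec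
      show coeHomR X a ∈ Submodule.span ℤ (Set.range b)
      rw [hdec]
      refine Submodule.sum_mem _ fun i _ => ?_
      have : (coeHomR X a (e i).1) • b i = (a (e i).1) • b i := by
        rw [coeHomR_apply]
        exact Int.cast_smul_eq_zsmul ℝ _ _
      rw [this]
      exact Submodule.smul_mem _ _ (Submodule.subset_span ⟨i, rfl⟩)

end Fermat.Agent.S55.G.TZB

namespace Fermat.Agent.S55.G

universe v

/-- **(TZ-BASIS)**: a `ℤ`-basis of the integral trace-zero lattice inside `ℝ^X`. -/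
theorem traceZeroBasisSpec : TraceZeroBasisSpec.{v} := TZB.traceZeroBasisSpec_aux

end Fermat.Agent.S55.G

end
-- ===== PACK-END S55/G/TraceZeroBasis.lean

-- ===== PACK-BEGIN S55/G/Rec/H63AuxField.lean
section





/-!
# S55 / G / REC, leaf N4 : the auxiliary cyclic fields `L(r, n) ⊂ ℚ(ζ_r)`

For a prime `r` and `n ∣ r - 1` we construct, inside `ℚ̄ = AlgebraicClosure ℚ`,

* the character `auxChar63 r n : G_ℚ →* (ℤ/r)ˣ ⧸ ((ℤ/r)ˣ)ⁿ` (the mod `r` cyclotomic character
  of the Prelude followed by the quotient map), and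
* the field `auxField63 r n = ℚ̄ ^ ker (auxChar63 r n)`: the subfield of degree `n` of `ℚ(ζ_r)`.

Main results (all in Prelude language: `ValuationSubring ℚ̄`, `LiesOverPrime`,
`inertiaSubgroupIn`, `IsFrobeniusAt`, `IntermediateField.IsUnramifiedOutside`):

* `cycloChar_surjective63`, `auxChar63_surjective`;
* `card_quotient_powSubgroup63`, `isCyclic_quotient_powSubgroup63` : the target is cyclic of
  order `n`;
* `fixingSubgroup_auxField63 : (auxField63 r n).fixingSubgroup = (auxChar63 r n).ker`;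
* `finiteDimensional_auxField63`, `isGalois_auxField63`, `finrank_auxField63 : [L : ℚ] = n`;
* `auxField63_isUnramifiedOutside` : `L` is unramified outside `{r}`;
* `auxChar63_frobenius` : a Frobenius element at `ℓ ≠ r` is mapped to the class of `ℓ`;
* `exists_inertia_cycloChar_eq63`, `exists_inertia_auxChar_eq63` : `L` is totally ramified at
  `r` (the inertia group of every place over `r` surjects onto `Gal(L/ℚ)`).
-/

set_option autoImplicit false
set_option linter.style.haveILetI false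

namespace Fermat.Agent.S55.G.Rec

open ExtCitation Fermat.Agent.S55.Bridge

local notation "Qb" => AlgebraicClosure ℚ
local notation "GQ" => (AlgebraicClosure ℚ ≃ₐ[ℚ] AlgebraicClosure ℚ)

section defs

variable (r : ℕ) [Fact r.Prime] (n : ℕ)

/-- The subgroup of `n`-th powers of `(ℤ/r)ˣ`. -/
def powSubgroup63 : Subgroup (ZMod r)ˣ := (powMonoidHom n : (ZMod r)ˣ →* (ZMod r)ˣ).range

lemma mem_powSubgroup63 (a : (ZMod r)ˣ) : a ∈ powSubgroup63 r n ↔ ∃ b : (ZMod r)ˣ, b ^ n = a :=
  Iff.rfl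

/-- The character `G_ℚ → (ℤ/r)ˣ ⧸ ((ℤ/r)ˣ)ⁿ` cutting out `L(r, n)`. -/
noncomputable def auxChar63 : GQ →* (ZMod r)ˣ ⧸ powSubgroup63 r n :=
  (QuotientGroup.mk' (powSubgroup63 r n)).comp (cycloChar r)

lemma auxChar63_apply (σ : GQ) :
    auxChar63 r n σ = QuotientGroup.mk' (powSubgroup63 r n) (cycloChar r σ) := rfl

lemma auxChar63_eq_one_iff (σ : GQ) :
    auxChar63 r n σ = 1 ↔ cycloChar r σ ∈ powSubgroup63 r n := by
  rw [auxChar63_apply, QuotientGroup.mk'_apply, QuotientGroup.eq_one_iff]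

/-- The auxiliary field `L(r, n)`: the fixed field of the kernel of `auxChar63 r n`. -/
noncomputable def auxField63 : IntermediateField ℚ Qb :=
  IntermediateField.fixedField (auxChar63 r n).ker

end defs

section surj

variable (r : ℕ) [Fact r.Prime]

/-- `ℚ̄` contains a primitive `r`-th root of unity. -/
theorem exists_primitiveRoot63 : ∃ ζ : Qb, IsPrimitiveRoot ζ r := by
  haveI : NeZero r := ⟨(Fact.out : r.Prime).ne_zero⟩
  exact HasEnoughRootsOfUnity.exists_primitiveRoot Qb r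

/-- `cycloChar r σ` is characterised by its action on one primitive root. -/
theorem cycloChar_eq_of_apply63 {ζ : Qb} (hζ : IsPrimitiveRoot ζ r) (σ : GQ) (a : (ZMod r)ˣ)
    (h : σ ζ = ζ ^ (a : ZMod r).val) : cycloChar r σ = a := by
  have hr : r.Prime := Fact.out
  haveI : NeZero r := ⟨hr.ne_zero⟩
  have h1 := cycloChar_spec r σ (t := (hζ.toRootsOfUnity : Qbˣ)) hζ.toRootsOfUnity.2
  have h2 : ((hζ.toRootsOfUnity : Qbˣ) : Qb) = ζ := rfl
  rw [h2, h] at h1
  have h3 := hζ.pow_inj (ZMod.val_lt _) (ZMod.val_lt _) h1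
  apply Units.ext
  exact (ZMod.val_injective r h3).symm

/-- The mod `r` cyclotomic character of `G_ℚ` is surjective. -/
theorem cycloChar_surjective63 : Function.Surjective (cycloChar r) := by
  intro a
  have hr : r.Prime := Fact.out
  haveI : NeZero r := ⟨hr.ne_zero⟩
  obtain ⟨ζ, hζ⟩ := exists_primitiveRoot63 r
  have hcop : (a : ZMod r).val.Coprime r := ZMod.val_coe_unit_coprime a
  have hζa : IsPrimitiveRoot (ζ ^ (a : ZMod r).val) r := hζ.pow_of_coprime _ hcop
  have hmin : minpoly ℚ (ζ ^ (a : ZMod r).val) = minpoly ℚ ζ := by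
    rw [← Polynomial.cyclotomic_eq_minpoly_rat hζ hr.pos,
      ← Polynomial.cyclotomic_eq_minpoly_rat hζa hr.pos]
  haveI : Algebra.IsAlgebraic ℚ Qb := AlgebraicClosure.isAlgebraic ℚ
  haveI : IsAlgClosure ℚ Qb := ⟨inferInstance, inferInstance⟩
  haveI : Normal ℚ Qb := IsAlgClosure.normal ℚ Qb
  have halg : IsAlgebraic ℚ (ζ ^ (a : ZMod r).val) :=
    (AlgebraicClosure.isAlgebraic ℚ).isAlgebraic _
  obtain ⟨σ, hσ⟩ := minpoly.exists_algEquiv_of_root (K := ℚ) (L := Qb) (x := ζ)
    (y := ζ ^ (a : ZMod r).val) halg (by rw [hmin]; exact minpoly.aeval ℚ ζ)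
  exact ⟨σ, cycloChar_eq_of_apply63 r hζ σ a hσ⟩

theorem auxChar63_surjective (n : ℕ) : Function.Surjective (auxChar63 r n) :=
  (QuotientGroup.mk'_surjective _).comp (cycloChar_surjective63 r)

end surj

section quotient

variable (r : ℕ) [Fact r.Prime] (n : ℕ)

/-- `(ℤ/r)ˣ ⧸ ((ℤ/r)ˣ)ⁿ` has `n` elements when `n ∣ r - 1`. -/
theorem card_quotient_powSubgroup63 (hn : n ∣ r - 1) :
    Nat.card ((ZMod r)ˣ ⧸ powSubgroup63 r n) = n := by
  have hr : r.Prime := Fact.out
  have h1 : Nat.card (ZMod r)ˣ = r - 1 := by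
    rw [Nat.card_eq_fintype_card, ZMod.card_units]
  rw [← Subgroup.index_eq_card]
  unfold powSubgroup63
  rw [IsCyclic.index_powMonoidHom_range, h1]
  exact Nat.gcd_eq_right hn

theorem isCyclic_quotient_powSubgroup63 : IsCyclic ((ZMod r)ˣ ⧸ powSubgroup63 r n) :=
  inferInstance

theorem finite_quotient_powSubgroup63 : Finite ((ZMod r)ˣ ⧸ powSubgroup63 r n) :=
  inferInstance

end quotient

/-- `ℚ(ζ)` is finite over `ℚ`. -/
theorem finiteDimensional_adjoin_root63 (ζ : Qb) :
    FiniteDimensional ℚ (IntermediateField.adjoin ℚ {ζ}) :=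
  IntermediateField.adjoin.finiteDimensional
    ((AlgebraicClosure.isAlgebraic ℚ).isAlgebraic ζ).isIntegral

section galois

variable (r : ℕ) [Fact r.Prime] (n : ℕ)

/-- The kernel of the cyclotomic character is the fixing subgroup of `ℚ(ζ)`. -/
theorem ker_cycloChar_eq63 {ζ : Qb} (hζ : IsPrimitiveRoot ζ r) :
    (cycloChar r).ker = (IntermediateField.adjoin ℚ {ζ}).fixingSubgroup := by
  have hr : r.Prime := Fact.out
  haveI : NeZero r := ⟨hr.ne_zero⟩
  ext σ
  rw [MonoidHom.mem_ker, IntermediateField.mem_fixingSubgroup_iff]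
  constructor
  · intro h x hx
    have hfix : ∀ y ∈ ({ζ} : Set Qb), σ y = y := by
      intro y hy
      rw [Set.mem_singleton_iff] at hy
      subst hy
      have := (cycloChar_eq_one_iff r σ).1 h hζ.toRootsOfUnity hζ.toRootsOfUnity.2
      exact this
    -- the fixed points of `σ` form an intermediate field containing `ζ`
    have hle : IntermediateField.adjoin ℚ {ζ} ≤
        IntermediateField.fixedField (Subgroup.zpowers σ) := by
      rw [IntermediateField.adjoin_le_iff]
      intro y hy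
      rw [SetLike.mem_coe, IntermediateField.mem_fixedField_iff]
      intro τ hτ
      obtain ⟨k, rfl⟩ := Subgroup.mem_zpowers_iff.1 hτ
      have h1 : σ • y = y := hfix y hy
      have : (σ ^ k) • y = y := by
        have hs : σ ∈ MulAction.stabilizer GQ y := h1
        exact (MulAction.stabilizer GQ y).zpow_mem hs k
      exact this
    have := hle hx
    rw [IntermediateField.mem_fixedField_iff] at this
    exact this σ (Subgroup.mem_zpowers σ)
  · intro h
    have hζfix : σ ζ = ζ := h ζ (IntermediateField.subset_adjoin ℚ _ rfl)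
    apply cycloChar_eq_of_apply63 r hζ σ 1
    rw [Units.val_one, ZMod.val_one'' (by exact hr.ne_one), pow_one, hζfix]

theorem isOpen_ker_cycloChar63 : IsOpen ((cycloChar r).ker : Set GQ) := by
  obtain ⟨ζ, hζ⟩ := exists_primitiveRoot63 r
  rw [ker_cycloChar_eq63 r hζ]
  haveI := finiteDimensional_adjoin_root63 ζ
  exact IntermediateField.fixingSubgroup_isOpen _

theorem ker_cycloChar_le_ker_auxChar63 : (cycloChar r).ker ≤ (auxChar63 r n).ker := by
  intro σ hσ
  rw [MonoidHom.mem_ker] at hσ ⊢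
  rw [auxChar63_apply, hσ, map_one]

theorem isOpen_ker_auxChar63 : IsOpen ((auxChar63 r n).ker : Set GQ) :=
  Subgroup.isOpen_mono (ker_cycloChar_le_ker_auxChar63 r n) (isOpen_ker_cycloChar63 r)

theorem isClosed_ker_auxChar63 : IsClosed ((auxChar63 r n).ker : Set GQ) :=
  Subgroup.isClosed_of_isOpen _ (isOpen_ker_auxChar63 r n)

/-- Galois correspondence for `L(r, n)`. -/
theorem fixingSubgroup_auxField63 : (auxField63 r n).fixingSubgroup = (auxChar63 r n).ker := by
  haveI := Fermat.Agent.S54.isGalois_algebraicClosure_rat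
  exact InfiniteGalois.fixingSubgroup_fixedField
    ⟨(auxChar63 r n).ker, isClosed_ker_auxChar63 r n⟩

theorem mem_fixingSubgroup_auxField63 (σ : GQ) :
    σ ∈ (auxField63 r n).fixingSubgroup ↔ cycloChar r σ ∈ powSubgroup63 r n := by
  rw [fixingSubgroup_auxField63, MonoidHom.mem_ker, auxChar63_eq_one_iff]

/-- `L(r, n) ⊆ ℚ(ζ_r)`. -/
theorem auxField63_le_adjoin {ζ : Qb} (hζ : IsPrimitiveRoot ζ r) :
    auxField63 r n ≤ IntermediateField.adjoin ℚ {ζ} := by
  haveI := Fermat.Agent.S54.isGalois_algebraicClosure_rat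
  rw [← InfiniteGalois.fixedField_fixingSubgroup (IntermediateField.adjoin ℚ {ζ}),
    ← ker_cycloChar_eq63 r hζ]
  intro x hx
  rw [IntermediateField.mem_fixedField_iff]
  intro σ hσ
  have hx' := (IntermediateField.mem_fixedField_iff _ x).1 hx
  exact hx' σ (ker_cycloChar_le_ker_auxChar63 r n hσ)

theorem finiteDimensional_auxField63 : FiniteDimensional ℚ (auxField63 r n) := by
  haveI := Fermat.Agent.S54.isGalois_algebraicClosure_rat
  rw [← InfiniteGalois.isOpen_iff_finite, fixingSubgroup_auxField63]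
  exact isOpen_ker_auxChar63 r n

theorem isGalois_auxField63 : IsGalois ℚ (auxField63 r n) := by
  haveI := Fermat.Agent.S54.isGalois_algebraicClosure_rat
  have h : @IsGalois ℚ _ (auxField63 r n) _ (IntermediateField.algebra' _) := by
    rw [← InfiniteGalois.normal_iff_isGalois, fixingSubgroup_auxField63]
    exact MonoidHom.normal_ker _
  convert h
  exact Subsingleton.elim _ _

/-- `[L(r, n) : ℚ] = n` when `n ∣ r - 1`. -/
theorem finrank_auxField63 (hn : n ∣ r - 1) : Module.finrank ℚ (auxField63 r n) = n := by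
  haveI := Fermat.Agent.S54.isGalois_algebraicClosure_rat
  rw [IntermediateField.finrank_eq_fixingSubgroup_index, fixingSubgroup_auxField63,
    Subgroup.index_ker, MonoidHom.range_eq_top.2 (auxChar63_surjective r n),
    Subgroup.card_top, card_quotient_powSubgroup63 r n hn]

end galois

section arithmetic

variable (r : ℕ) [Fact r.Prime] (n : ℕ)

/-- `L(r, n)` is unramified outside `r` (Prelude form). -/
theorem auxField63_isUnramifiedOutside (S : Finset Nat.Primes)
    (hS : (⟨r, Fact.out⟩ : Nat.Primes) ∈ S) : (auxField63 r n).IsUnramifiedOutside S := by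
  refine ⟨finiteDimensional_auxField63 r n, fun q hq A hA σ hσ => ?_⟩
  have hqr : (q : ℕ) ≠ r := by
    rintro h
    apply hq
    have : q = ⟨r, Fact.out⟩ := Subtype.ext h
    rw [this]
    exact hS
  rw [mem_fixingSubgroup_auxField63,
    cycloChar_eq_one_of_mem_inertia r q.2 hqr A hA σ hσ]
  exact one_mem _

/-- The inertia groups at primes `q ≠ r` act trivially on `L(r, n)`. -/
theorem inertia_le_fixingSubgroup_auxField63 {q : ℕ} (hq : q.Prime) (hqr : q ≠ r)
    (A : ValuationSubring Qb) (hA : A.LiesOverPrime q) :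
    A.inertiaSubgroupIn ℚ ≤ (auxField63 r n).fixingSubgroup := by
  intro σ hσ
  rw [mem_fixingSubgroup_auxField63, cycloChar_eq_one_of_mem_inertia r hq hqr A hA σ hσ]
  exact one_mem _

/-- A Frobenius element with exponent `N` at a place over `ℓ ≠ r` acts on `r`-th roots of unity
by `t ↦ t ^ N`. -/
theorem frob_root_eq_pow63 {ℓ : ℕ} (hℓ : ℓ.Prime) (hℓr : ℓ ≠ r)
    (A : ValuationSubring Qb) (hA : A.LiesOverPrime ℓ) (N : ℕ)
    (τ : GQ) (hτ : A.IsFrobeniusAt τ N) {t : Qb} (htr : t ^ r = 1) : τ t = t ^ N := by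
  have hr : r.Prime := Fact.out
  by_contra hne
  have hrv := val_prime_eq_one (A := A) hA hℓ hr hℓr
  have hσt : (τ t) ^ r = 1 := by rw [← map_pow, htr, map_one]
  have htl : (t ^ N) ^ r = 1 := by rw [← pow_mul, mul_comm, pow_mul, htr, one_pow]
  have h1 := val_sub_roots_eq_one (A := A) hr.ne_zero hrv hσt htl hne
  have hvt : A.valuation t ≤ 1 := by
    have h : (A.valuation t) ^ r = 1 := by rw [← map_pow, htr, map_one]
    exact ((pow_eq_one_iff.1 h).resolve_right hr.ne_zero).le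
  have h2 := Fermat.Agent.S29.H872.frob_val_sub_lt_one A hτ t hvt
  rw [h1] at h2
  exact lt_irrefl _ h2

/-- **Cyclotomic character at Frobenius (general exponent).** -/
theorem cycloChar_frobenius63 {ℓ : ℕ} (hℓ : ℓ.Prime) (hℓr : ℓ ≠ r)
    (A : ValuationSubring Qb) (hA : A.LiesOverPrime ℓ) (N : ℕ)
    (τ : GQ) (hτ : A.IsFrobeniusAt τ N) :
    ((cycloChar r τ : (ZMod r)ˣ) : ZMod r) = (N : ZMod r) := by
  have hr : r.Prime := Fact.out
  haveI : NeZero r := ⟨hr.ne_zero⟩
  obtain ⟨ζ, hζ⟩ := exists_primitiveRoot63 r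
  have h1 := cycloChar_spec r τ (t := (hζ.toRootsOfUnity : Qbˣ)) hζ.toRootsOfUnity.2
  have h2 : ((hζ.toRootsOfUnity : Qbˣ) : Qb) = ζ := rfl
  rw [h2, frob_root_eq_pow63 r hℓ hℓr A hA N τ hτ hζ.pow_eq_one] at h1
  have h3 : ζ ^ (N % r) = ζ ^ ((cycloChar r τ : (ZMod r)ˣ) : ZMod r).val := by
    rw [← h1]
    conv_rhs => rw [← Nat.div_add_mod N r, pow_add, pow_mul, hζ.pow_eq_one, one_pow, one_mul]
  have h4 := hζ.pow_inj (Nat.mod_lt _ hr.pos) (ZMod.val_lt _) h3
  rw [← ZMod.natCast_zmod_val ((cycloChar r τ : (ZMod r)ˣ) : ZMod r), ← h4]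
  exact (ZMod.natCast_mod N r)

/-- A Frobenius element at `ℓ ≠ r` is mapped by `auxChar63` to the class of `ℓ`. -/
theorem auxChar63_frobenius {ℓ : ℕ} (hℓ : ℓ.Prime) (hℓr : ℓ ≠ r)
    (A : ValuationSubring Qb) (hA : A.LiesOverPrime ℓ) (N : ℕ)
    (τ : GQ) (hτ : A.IsFrobeniusAt τ N) (u : (ZMod r)ˣ) (hu : (u : ZMod r) = (N : ZMod r)) :
    auxChar63 r n τ = QuotientGroup.mk' (powSubgroup63 r n) u := by
  rw [auxChar63_apply]
  congr 1
  apply Units.ext
  rw [cycloChar_frobenius63 r hℓ hℓr A hA N τ hτ, hu]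

/-- **Total ramification at `r`.** For every place `A` of `ℚ̄` over `r`, the inertia group of
`A` surjects onto `Gal(ℚ(ζ_r)/ℚ)`. -/
theorem exists_inertia_cycloChar_eq63 (A : ValuationSubring Qb) (hA : A.LiesOverPrime r)
    (g : GQ) : ∃ σ ∈ A.inertiaSubgroupIn ℚ, cycloChar r σ = cycloChar r g := by
  have hr : r.Prime := Fact.out
  haveI : NeZero r := ⟨hr.ne_zero⟩
  obtain ⟨ζ, hζ⟩ := exists_primitiveRoot63 r
  have hconj : ∀ τ : GQ, (∀ x ∈ (⊥ : IntermediateField ℚ Qb), τ x = x) →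
      A.valuation (τ (ζ - 1)) = A.valuation (ζ - 1) := by
    intro τ _
    have hτζ : IsPrimitiveRoot (τ ζ) r := hζ.map_of_injective τ.injective
    rw [map_sub, map_one]
    exact Fermat.Agent.S14.H894.valuation_sub_one_eq_of_mem_primitiveRoots A r hr ζ hζ
      ((mem_primitiveRoots hr.pos).2 hτζ)
  have hbot : ∀ x ∈ (⊥ : IntermediateField ℚ Qb), g x = x := by
    intro x hx
    obtain ⟨q, rfl⟩ := IntermediateField.mem_bot.1 hx
    exact g.commutes q
  obtain ⟨σ, hσ, -, hσγ⟩ := Fermat.Agent.S14.H894.exists_inertia_eq_on_adjoin A r hr hA ⊥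
    (ζ - 1) (Fermat.Agent.S14.H894.cycloShift r) (Fermat.Agent.S14.H894.cycloShift_monic r)
    (Fermat.Agent.S14.H894.cycloShift_aeval r hr ζ hζ)
    (Fermat.Agent.S14.H894.cyclo_indep A r hr hA ζ hζ) hconj g hbot
  refine ⟨σ, hσ, ?_⟩
  have hσζ : σ ζ = g ζ := by
    have := hσγ
    rw [map_sub, map_sub, map_one, map_one] at this
    exact sub_left_injective this
  apply cycloChar_eq_of_apply63 r hζ σ (cycloChar r g)
  rw [hσζ]
  exact cycloChar_spec r g (t := (hζ.toRootsOfUnity : Qbˣ)) hζ.toRootsOfUnity.2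

/-- `L(r, n)` is totally ramified at `r`: inertia at `r` surjects onto `Gal(L(r, n)/ℚ)`. -/
theorem exists_inertia_auxChar_eq63 (A : ValuationSubring Qb) (hA : A.LiesOverPrime r)
    (g : GQ) : ∃ σ ∈ A.inertiaSubgroupIn ℚ, auxChar63 r n σ = auxChar63 r n g := by
  obtain ⟨σ, hσ, h⟩ := exists_inertia_cycloChar_eq63 r A hA g
  exact ⟨σ, hσ, by rw [auxChar63_apply, auxChar63_apply, h]⟩

/-- Total ramification, coset form: `G_ℚ = I_A · Gal(ℚ̄ / L(r, n))`. -/
theorem exists_inertia_mul_mem_fixingSubgroup63 (A : ValuationSubring Qb)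
    (hA : A.LiesOverPrime r) (g : GQ) :
    ∃ σ ∈ A.inertiaSubgroupIn ℚ, σ⁻¹ * g ∈ (auxField63 r n).fixingSubgroup := by
  obtain ⟨σ, hσ, h⟩ := exists_inertia_auxChar_eq63 r n A hA g
  refine ⟨σ, hσ, ?_⟩
  rw [fixingSubgroup_auxField63, MonoidHom.mem_ker, map_mul, map_inv, h, inv_mul_cancel]

end arithmetic

end Fermat.Agent.S55.G.Rec

end
-- ===== PACK-END S55/G/Rec/H63AuxField.lean

-- ===== PACK-BEGIN S59/TW/H959/Iface.lean
section


/-!
# Row S59, cell TW (`Arch.MinRTStatement`), LAYER 1: frozen interface (helper959)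

Layer 1 is the interface between the patching argument (proved in `TW/H959/Glue.lean`) and the
Hecke side.  Everything here is a sorry-free definition; the file is FROZEN once on main.

## Leaves (each is a `Prop`; prove `theorem foo : FooStatement`)

* `HeckeSideStatement` (MOUNTAIN = TW-HECKE + TW-TOP/M-FREE + TW-CTRL + TW-ES/TWIST + TW-LGC):
  the minimal Hecke package `P₀` with a nonzero `T₀`-module `M₀`, and for EVERY Taylor–Wiles set
  `Q` a Hecke package `P_Q` of type `Smin ∪ Q` (the Prelude ring `heckeLocal (N Q²)`), a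
  restriction map `T_Q → T₀`, a `T_Q`-module `M_Q ↠ M₀` and elements `w_i ∈ T_Q` such that
  - `w_i` is the INERTIA VALUE of the Galois representation of `P_Q` at `q_i`
    (`IsInertiaValue`, a formula in traces: `w = ξ(σ)` if `ρ|G_q = ξ ⊕ ξ'`);
  - `ker (M_Q → M₀) = (w_i - 1) M_Q`;
  - `M_Q / (w_i^(p^n) - 1)` is free over the group ring `𝒪[(ℤ/p^n)^r]` acting through the `w_i`
    (`IsGroupRingBasis`).
  No deformation ring, no power series ring, no patching on the Hecke side.
* `DefRingResStatement` (TW-GAL, small): `R_{Σ'} ↠ R_Σ` for `Σ ⊆ Σ'`.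
* `WeierstrassStatement` (Mathlib only): every power series is congruent modulo
  `((1+X_i)^(p^n) - 1)` to an `𝒪`-combination of the monomials `∏ (1+X_i)^(a_i)`, `a_i < p^n`.
* `MinNumStatement` (numerical equality for complete intersections, helper427).
* `TWPrimesStatement` (= frozen S56 in the vocabulary of `sigmaCond`).

## Glue (`TW/H959/Glue.lean`)
`minRT_of_leaves : TWPrimes → (S53 + COND) → S54 → DefRingRes → Weierstrass → MinNum → RED →
  HeckeSide → Arch.MinRTStatement`.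
-/

set_option autoImplicit false

open Polynomial IsLocalRing

namespace Fermat.Agent.S59.TW.H959

open Fermat.Agent.S59.Arch

/-! ## Taylor–Wiles sets -/

/-- `qv` is a **Taylor–Wiles set of level `n`** for `ρ̄` relative to `S`: distinct primes
`q ∉ S`, `q ≡ 1 mod p^(n+1)`, at which every Frobenius has two distinct eigenvalues in `k`.
(The first three conjuncts of the conclusion of the frozen S56.) -/
def IsTWSet {k : Type} [Field k] (p : ℕ) (ρbar : ResidualGaloisRep k) (S : Finset ℕ) (n : ℕ)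
    {r : ℕ} (qv : Fin r → ℕ) : Prop :=
  Function.Injective qv ∧
    (∀ i, (qv i).Prime ∧ qv i ∉ S ∧ p ^ (n + 1) ∣ qv i - 1) ∧
    (∀ i, ∀ P : ValuationSubring (AlgebraicClosure ℚ), P.LiesOverPrime (qv i) →
      ∀ φ : AlgebraicClosure ℚ ≃ₐ[ℚ] AlgebraicClosure ℚ, P.IsFrobeniusAt φ (qv i) →
        ∃ α β : k, α ≠ β ∧ LinearMap.charpoly (ρbar.ρ φ) = (X - C α) * (X - C β))

/-! ## The inertia value -/

/-- **The inertia value.**  `w` is the value at `σ` of the character by which inertia acts on the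
eigenline of `ρ(φ)` whose eigenvalue is congruent to `a₀`, expressed by traces: if
`charpoly ρ(φ) = (X - a)(X - b)` with `a ≡ a₀` and `a - b` a unit, then
`(a - b) w = tr ρ(φσ) - b tr ρ(σ)`.
(If `ρ(φ) = diag(a,b)` and `ρ(σ) = diag(x,y)` then `w = x`.)  `w` is unique, compatible with
base change and equivalence, and `w = 1` if `ρ(σ) = 1` (`TW/H959/Inertia.lean`). -/
def IsInertiaValue {A : Type} [CommRing A] [IsLocalRing A] (ρ : GaloisRepAdic A)
    (φ σ : AlgebraicClosure ℚ ≃ₐ[ℚ] AlgebraicClosure ℚ) (a₀ w : A) : Prop :=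
  ∃ a b : A, a - a₀ ∈ maximalIdeal A ∧ IsUnit (a - b) ∧
    LinearMap.charpoly (ρ.ρ φ) = (X - C a) * (X - C b) ∧
    (a - b) * w = ρ.trace (φ * σ) - b * ρ.trace σ

/-! ## Freeness over the group ring -/

/-- `M / (w_i^m - 1 : i) M` is **free over the group ring `𝒪[(ℤ/m)^r]`**, acting through the
`w_i`, with basis `b`: the elements `(∏ w_i^(a_i)) • b_j` (`a ∈ (Fin m)^r`, `j < d`) form an
`𝒪`-basis of the quotient. -/
def IsGroupRingBasis (𝒪 : Type) [CommRing 𝒪] {T : Type} [CommRing T] [Algebra 𝒪 T]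
    {M : Type} [AddCommGroup M] [Module T M] (m : ℕ) {r d : ℕ} (w : Fin r → T)
    (b : Fin d → M) : Prop :=
  (∀ x : M, ∃ c : Fin d → (Fin r → Fin m) → 𝒪,
      x - ∑ j, ∑ a, (algebraMap 𝒪 T (c j a) * ∏ i, w i ^ (a i : ℕ)) • b j ∈
        Ideal.span (Set.range fun i => w i ^ m - 1) • (⊤ : Submodule T M)) ∧
    ∀ c : Fin d → (Fin r → Fin m) → 𝒪,
      ∑ j, ∑ a, (algebraMap 𝒪 T (c j a) * ∏ i, w i ^ (a i : ℕ)) • b j ∈
          Ideal.span (Set.range fun i => w i ^ m - 1) • (⊤ : Submodule T M) →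
        ∀ j a, c j a = 0

/-! ## Hecke packages -/

section Pkg

variable (p : ℕ)
  (𝒪 : Type) [CommRing 𝒪] [IsDomain 𝒪] [IsDiscreteValuationRing 𝒪]
  [IsAdicComplete (maximalIdeal 𝒪) 𝒪]
  (ρbar : ResidualGaloisRep (ResidueField 𝒪))

/-- **A Hecke package of type `Σ`**: literally the data of `Arch.RTIso p 𝒪 ρ̄ t Smin Σ` before
the clause `∀ D φ, …` (see `rtIso_of_pkg`). -/
structure HeckePkg (t : PType) (Smin Sig : Finset ℕ) [NeZero (wilesLevel p t Smin Sig)] :
    Type 1 where
  /-- integral structure -/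
  integral : Fact (CuspForm.HasIntegralStructure (wilesLevel p t Smin Sig) 2)
  /-- the residual Hecke character -/
  θ : CuspForm.heckeAlgebra (wilesLevel p t Smin Sig) 2 (↑Sig : Set ℕ) →+* ResidueField 𝒪
  /-- `T` is local -/
  isLocalRing : IsLocalRing (CuspForm.heckeLocal (wilesLevel p t Smin Sig) (↑Sig : Set ℕ) 𝒪 θ)
  /-- `T` is Noetherian -/
  isNoetherianRing :
    IsNoetherianRing (CuspForm.heckeLocal (wilesLevel p t Smin Sig) (↑Sig : Set ℕ) 𝒪 θ)
  /-- `T` is complete -/
  isAdicComplete : IsAdicComplete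
    (maximalIdeal (CuspForm.heckeLocal (wilesLevel p t Smin Sig) (↑Sig : Set ℕ) 𝒪 θ))
    (CuspForm.heckeLocal (wilesLevel p t Smin Sig) (↑Sig : Set ℕ) 𝒪 θ)
  /-- `𝒪 → T` is local -/
  isLocalHom : IsLocalHom
    (algebraMap 𝒪 (CuspForm.heckeLocal (wilesLevel p t Smin Sig) (↑Sig : Set ℕ) 𝒪 θ))
  /-- `T` is finite over `𝒪` -/
  finite : Module.Finite 𝒪 (CuspForm.heckeLocal (wilesLevel p t Smin Sig) (↑Sig : Set ℕ) 𝒪 θ)
  /-- `T` is free over `𝒪` -/
  free : Module.Free 𝒪 (CuspForm.heckeLocal (wilesLevel p t Smin Sig) (↑Sig : Set ℕ) 𝒪 θ)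
  /-- the Hecke–Galois datum -/
  H : CuspForm.HeckeGaloisRepDatum (wilesLevel p t Smin Sig) (↑Sig : Set ℕ) 𝒪 θ
    (CuspForm.heckeLocal (wilesLevel p t Smin Sig) (↑Sig : Set ℕ) 𝒪 θ)
  /-- its Hecke structure is the canonical one -/
  hπ : H.π = CuspForm.heckeLocal.π (wilesLevel p t Smin Sig) (↑Sig : Set ℕ) 𝒪 θ
  /-- its residual representation is `ρ̄` -/
  hres : H.ρ.residual.IsEquiv (ρbar.baseChangeAlong (ResidueField.map (algebraMap 𝒪
    (CuspForm.heckeLocal (wilesLevel p t Smin Sig) (↑Sig : Set ℕ) 𝒪 θ))))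
  /-- it is of type `Σ` -/
  hcond : sigmaCond 𝒪 p t Smin Sig H.ρ

end Pkg

namespace HeckePkg

variable {p : ℕ}
  {𝒪 : Type} [CommRing 𝒪] [IsDomain 𝒪] [IsDiscreteValuationRing 𝒪]
  [IsAdicComplete (maximalIdeal 𝒪) 𝒪]
  {ρbar : ResidualGaloisRep (ResidueField 𝒪)} {t : PType} {Smin Sig : Finset ℕ}
  [NeZero (wilesLevel p t Smin Sig)] (P : HeckePkg p 𝒪 ρbar t Smin Sig)

/-- The Hecke ring of the package: the Prelude ring `heckeLocal N_Σ Σ 𝒪 θ`. -/
abbrev T : Type :=
  CuspForm.heckeLocal (wilesLevel p t Smin Sig) (↑Sig : Set ℕ) 𝒪 P.θ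

instance instIsLocalRingT : IsLocalRing P.T := P.isLocalRing

instance instIsNoetherianRingT : IsNoetherianRing P.T := P.isNoetherianRing

instance instIsAdicCompleteT : IsAdicComplete (maximalIdeal P.T) P.T := P.isAdicComplete

instance instIsLocalHomT : IsLocalHom (algebraMap 𝒪 P.T) := P.isLocalHom

instance instFiniteT : Module.Finite 𝒪 P.T := P.finite

instance instFreeT : Module.Free 𝒪 P.T := P.free

end HeckePkg

section Statements

variable {p : ℕ}
  {𝒪 : Type} [CommRing 𝒪] [IsDomain 𝒪] [IsDiscreteValuationRing 𝒪]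
  [IsAdicComplete (maximalIdeal 𝒪) 𝒪]
  {ρbar : ResidualGaloisRep (ResidueField 𝒪)} {t : PType} {Smin : Finset ℕ}

/-- **`RTIso` from a package**: `Arch.RTIso` is "there is a package such that every compatible
`φ : R_Σ → T_Σ` is bijective, with the numerical equality". -/
theorem rtIso_of_pkg {Sig : Finset ℕ} [hN : NeZero (wilesLevel p t Smin Sig)]
    (P : HeckePkg p 𝒪 ρbar t Smin Sig)
    (h : ∀ (D : GaloisRep.DeformationRingData 𝒪 ρbar (sigmaCond 𝒪 p t Smin Sig))
      (φ : D.R →ₐ[𝒪] P.T),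
      (∃ hφ : IsLocalHom (φ : D.R →+* P.T),
        (D.ρ.baseChangeAlong (φ : D.R →+* P.T) hφ).IsEquiv P.H.ρ) →
      Function.Bijective φ ∧
        ∃ π : P.T →ₐ[𝒪] 𝒪, Finite (NC.Cot (π.comp φ)) ∧
          Nat.card (NC.Cot (π.comp φ)) = Nat.card (𝒪 ⧸ NC.congIdeal π)) :
    RTIso p 𝒪 ρbar t Smin Sig :=
  ⟨hN, P.integral, P.θ, P.isLocalRing, P.isNoetherianRing, P.isAdicComplete,
    P.isLocalHom, P.finite, P.free, P.H, P.hπ, P.hres, P.hcond, h⟩

/-- **The Hecke side at one Taylor–Wiles set `Q = {q_i}`** (level `n`), relative to the minimal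
package `P₀` and its module `M₀`.

Classically: `P_Q.T = T_Q` acts on `M_Q = H¹(X_H(Q), 𝒪)_{𝔪_Q}` (`U_q - α̃_q ∈ 𝔪_Q`) through the
twisted operators `⟨ℓ⟩^(-1/2) T_ℓ`, `w_i` is the image of `⟨δ_i⟩^(∓1/2)` for a generator `δ_i` of
`Δ_{q_i}`, `M_Q` is free over `𝒪[Δ_Q]` and `M_Q / 𝔞_Q M_Q ≅ M₀`.  The data `(P_i, φ_i, σ_i, α_i)`
(place over `q_i`, Frobenius, inertia element, lift to `𝒪` of the chosen Frobenius eigenvalue)
identify `w_i` Galois-theoretically, so that the deformation ring can see it. -/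
def HasTWModule [NeZero (wilesLevel p t Smin Smin)] (P₀ : HeckePkg p 𝒪 ρbar t Smin Smin)
    (M₀ : Type) [AddCommGroup M₀] [Module P₀.T M₀] (n : ℕ) {r : ℕ} (qv : Fin r → ℕ) : Prop :=
  ∃ (_ : NeZero (wilesLevel p t Smin (Smin ∪ Finset.univ.image qv)))
    (PQ : HeckePkg p 𝒪 ρbar t Smin (Smin ∪ Finset.univ.image qv))
    (res : PQ.T →ₐ[𝒪] P₀.T) (hres : IsLocalHom (res : PQ.T →+* P₀.T))
    (MQ : Type) (_ : AddCommGroup MQ) (_ : Module PQ.T MQ)
    (πQ : MQ →+ M₀)
    (Pv : Fin r → ValuationSubring (AlgebraicClosure ℚ))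
    (φv σv : Fin r → (AlgebraicClosure ℚ ≃ₐ[ℚ] AlgebraicClosure ℚ))
    (αv : Fin r → 𝒪) (w : Fin r → PQ.T) (d : ℕ) (b : Fin d → MQ),
    (PQ.H.ρ.baseChangeAlong (res : PQ.T →+* P₀.T) hres).IsEquiv P₀.H.ρ ∧
    (∀ (a : PQ.T) (x : MQ), πQ (a • x) = res a • πQ x) ∧
    Function.Surjective πQ ∧
    (∀ x : MQ, πQ x = 0 ↔
      x ∈ Ideal.span (Set.range fun i => w i - 1) • (⊤ : Submodule PQ.T MQ)) ∧
    (∀ i, (Pv i).LiesOverPrime (qv i) ∧ (Pv i).IsFrobeniusAt (φv i) (qv i) ∧
      σv i ∈ (Pv i).inertiaSubgroupIn ℚ ∧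
      IsInertiaValue PQ.H.ρ (φv i) (σv i) (algebraMap 𝒪 PQ.T (αv i)) (w i)) ∧
    IsGroupRingBasis 𝒪 (p ^ n) w b

end Statements

/-! ## The leaves -/

/-- **LEAF HECKE (the mountain).**  Under the hypotheses of `Arch.MinRTStatement`: the minimal
Hecke package with an `𝒪`-point and a nonzero module, and a Taylor–Wiles module for every
Taylor–Wiles set of every level. -/
def HeckeSideStatement : Prop :=
  ∀ (p : ℕ) [Fact p.Prime]
    (𝒪 : Type) [CommRing 𝒪] [IsDomain 𝒪] [IsDiscreteValuationRing 𝒪]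
    [IsAdicComplete (maximalIdeal 𝒪) 𝒪] [Finite (ResidueField 𝒪)] [CharZero 𝒪]
    (ρbar : ResidualGaloisRep (ResidueField 𝒪)) (Smin : Finset ℕ)
    (_h : ResidualHyp p 𝒪 ρbar Smin) (t : PType)
    (_ht : (t = .flat ∧ (GaloisRepAdic.ofResidualGaloisRep ρbar).IsFlatAt p) ∨
      (t = .sord ∧ (GaloisRepAdic.ofResidualGaloisRep ρbar).IsStrictOrdinaryAt p ∧
        ¬ (GaloisRepAdic.ofResidualGaloisRep ρbar).IsFlatAt p))
    (_hN : NeZero (wilesLevel p t Smin Smin))
    (χ : CuspForm.heckeAlgebra (wilesLevel p t Smin Smin) 2 (↑Smin : Set ℕ) →+* 𝒪)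
    (_hχ : G4.ResFrobCond ρbar ((residue 𝒪).comp χ)),
    ∃ (P₀ : HeckePkg p 𝒪 ρbar t Smin Smin) (_pt : P₀.T →ₐ[𝒪] 𝒪)
      (M₀ : Type) (_ : AddCommGroup M₀) (_ : Module P₀.T M₀) (_ : Nontrivial M₀),
      ∀ (n r : ℕ) (qv : Fin r → ℕ), IsTWSet p ρbar Smin n qv → HasTWModule P₀ M₀ n qv

/-- **LEAF GAL-RES** (cell TW-GAL; also used by cell NM).  For `Σ ⊆ Σ'` the universal
deformation ring of type `Σ'` surjects onto the one of type `Σ`, compatibly with the universal
deformations.  (The map exists by universality of `R_{Σ'}`: the conditions are monotone in `Σ`.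
Surjectivity: let `R'` be the image; the push-forward of `ρ_{Σ'}` to `R'` is of type `Σ` because
`R' ⊆ R_Σ`; universality of `R_Σ` gives a section.) -/
def DefRingResStatement : Prop :=
  ∀ (p : ℕ) [Fact p.Prime] (_hp2 : p ≠ 2)
    (𝒪 : Type) [CommRing 𝒪] [IsDomain 𝒪] [IsDiscreteValuationRing 𝒪]
    [IsAdicComplete (maximalIdeal 𝒪) 𝒪] [Finite (ResidueField 𝒪)]
    (_hp𝒪 : (p : 𝒪) ∈ maximalIdeal 𝒪)
    (ρbar : ResidualGaloisRep (ResidueField 𝒪)) (t : PType) (Smin Sig Sig' : Finset ℕ)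
    (_hSig : Sig ⊆ Sig')
    (_hc : GaloisRep.IsDeformationCondition 𝒪 (sigmaCond 𝒪 p t Smin Sig))
    (_hc' : GaloisRep.IsDeformationCondition 𝒪 (sigmaCond 𝒪 p t Smin Sig'))
    (D' : GaloisRep.DeformationRingData 𝒪 ρbar (sigmaCond 𝒪 p t Smin Sig'))
    (D : GaloisRep.DeformationRingData 𝒪 ρbar (sigmaCond 𝒪 p t Smin Sig)),
    ∃ res : D'.R →ₐ[𝒪] D.R, Function.Surjective res ∧
      ∃ hres : IsLocalHom (res : D'.R →+* D.R),
        (D'.ρ.baseChangeAlong (res : D'.R →+* D.R) hres).IsEquiv D.ρ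

/-- **LEAF WEIERSTRASS** (Mathlib only).  `𝒪⟦X₁..X_r⟧ = ∑_a 𝒪·∏(1+X_i)^(a_i) + J_n`, where
`J_n = ((1+X_j)^(p^n) - 1 : j)` and `a` runs over `(Fin (p^n))^r`: the group ring
`𝒪[(ℤ/p^n)^r]` maps ONTO `𝒪⟦X⟧/J_n`.
(`(1+X)^(p^n) - 1 ≡ X^(p^n)` modulo `p`; divide with remainder modulo `𝔪_𝒪`, then iterate and
use completeness of `𝒪` and closedness of `J_n`.) -/
def WeierstrassStatement : Prop :=
  ∀ (p : ℕ) [Fact p.Prime]
    (𝒪 : Type) [CommRing 𝒪] [IsDomain 𝒪] [IsDiscreteValuationRing 𝒪]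
    [IsAdicComplete (maximalIdeal 𝒪) 𝒪] (_hp𝒪 : (p : 𝒪) ∈ maximalIdeal 𝒪)
    (n r : ℕ) (f : MvPowerSeries (Fin r) 𝒪),
    ∃ c : (Fin r → Fin (p ^ n)) → 𝒪,
      f - ∑ a, algebraMap 𝒪 (MvPowerSeries (Fin r) 𝒪) (c a) *
          ∏ i, (1 + MvPowerSeries.X i) ^ (a i : ℕ) ∈
        Ideal.span (Set.range fun j : Fin r =>
          ((1 + MvPowerSeries.X j) ^ (p ^ n) - 1 : MvPowerSeries (Fin r) 𝒪))

/-- **LEAF NUM** (numerical equality for complete intersections; helper427's
`card_cotangent_eq_of_ci` + finiteness of the cotangent space of a reduced algebra).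
If `R ≅ T` is a quotient of `𝒪⟦X₁..X_r⟧` by `r` elements and `T` is finite free over `𝒪` and
reduced, then `#(𝔭/𝔭²) = #(𝒪/η) < ∞` at every augmentation. -/
def MinNumStatement : Prop :=
  ∀ (𝒪 : Type) [CommRing 𝒪] [IsDomain 𝒪] [IsDiscreteValuationRing 𝒪]
    [IsAdicComplete (maximalIdeal 𝒪) 𝒪] [Finite (ResidueField 𝒪)] [CharZero 𝒪]
    (r : ℕ) (R : Type) [CommRing R] [Algebra 𝒪 R]
    (T : Type) [CommRing T] [IsLocalRing T] [Algebra 𝒪 T] [Module.Finite 𝒪 T]
    [Module.Free 𝒪 T] [IsReduced T]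
    (φ : R →ₐ[𝒪] T) (_hφ : Function.Bijective φ)
    (ψ : MvPowerSeries (Fin r) 𝒪 →ₐ[𝒪] R) (_hψ : Function.Surjective ψ)
    (g : Fin r → MvPowerSeries (Fin r) 𝒪) (_hker : RingHom.ker ψ = Ideal.span (Set.range g))
    (π : T →ₐ[𝒪] 𝒪),
    Finite (NC.Cot (π.comp φ)) ∧
      Nat.card (NC.Cot (π.comp φ)) = Nat.card (𝒪 ⧸ NC.congIdeal π)

/-- **LEAF TW-PRIMES** = the frozen S56 in the vocabulary of `sigmaCond`
(adapter `twPrimes_of_S56` in `TW/H959/Glue.lean`). -/
def TWPrimesStatement : Prop :=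
  ∀ (p : ℕ) [Fact p.Prime]
    (𝒪 : Type) [CommRing 𝒪] [IsDomain 𝒪] [IsDiscreteValuationRing 𝒪]
    [IsAdicComplete (maximalIdeal 𝒪) 𝒪] [Finite (ResidueField 𝒪)]
    (ρbar : ResidualGaloisRep (ResidueField 𝒪)) (Smin : Finset ℕ)
    (_h : ResidualHyp p 𝒪 ρbar Smin) (t : PType) (_ht : t = .flat ∨ t = .sord),
    ∃ r : ℕ, ∀ n : ℕ, ∃ qv : Fin r → ℕ, IsTWSet p ρbar Smin n qv ∧
      ∀ DQ : GaloisRep.DeformationRingData 𝒪 ρbar
          (sigmaCond 𝒪 p t Smin (Smin ∪ Finset.univ.image qv)),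
        ∃ γ : MvPowerSeries (Fin r) 𝒪 →ₐ[𝒪] DQ.R, Function.Surjective γ

/-- The frozen S53 (existence of universal deformation rings), as a `Prop`. -/
def DefRingExistsStatement : Prop :=
  ∀ (𝒪 : Type) [CommRing 𝒪] [IsDomain 𝒪] [IsDiscreteValuationRing 𝒪]
    [IsAdicComplete (IsLocalRing.maximalIdeal 𝒪) 𝒪] [Finite (IsLocalRing.ResidueField 𝒪)]
    (ρbar : ResidualGaloisRep (IsLocalRing.ResidueField 𝒪))
    (𝒟 : ∀ ⦃A : Type⦄ [CommRing A] [IsLocalRing A] [Algebra 𝒪 A], GaloisRepAdic A → Prop)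
    (_habs : ρbar.IsAbsolutelyIrreducible)
    (_h𝒟 : GaloisRep.IsDeformationCondition 𝒪 𝒟)
    (_hbar : 𝒟 (GaloisRepAdic.ofResidualGaloisRep ρbar))
    (_hfin : GaloisRep.TangentFinite 𝒪 ρbar 𝒟),
    Nonempty (GaloisRep.DeformationRingData 𝒪 ρbar 𝒟)

/-- The frozen S54 (`R ↠ T`), as a `Prop`. -/
def RToTStatement : Prop :=
  ∀ {𝒪 : Type} [CommRing 𝒪] [IsDomain 𝒪] [IsDiscreteValuationRing 𝒪]
    [IsAdicComplete (IsLocalRing.maximalIdeal 𝒪) 𝒪]
    {ρbar : ResidualGaloisRep (IsLocalRing.ResidueField 𝒪)}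
    {𝒟 : ∀ ⦃A : Type⦄ [CommRing A] [IsLocalRing A] [Algebra 𝒪 A], GaloisRepAdic A → Prop}
    (D : GaloisRep.DeformationRingData 𝒪 ρbar 𝒟) {N : ℕ} [NeZero N] {S : Set ℕ}
    {θ : CuspForm.heckeAlgebra N 2 S →+* IsLocalRing.ResidueField 𝒪}
    {T : Type} [CommRing T] [IsLocalRing T] [IsNoetherianRing T]
    [IsAdicComplete (IsLocalRing.maximalIdeal T) T] [Algebra 𝒪 T] [IsLocalHom (algebraMap 𝒪 T)]
    [Module.Finite 𝒪 T] [Module.Free 𝒪 T] (H : CuspForm.HeckeGaloisRepDatum N S 𝒪 θ T)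
    (_hS : ∀ q : ℕ, q.Prime → q ∣ N → q ∈ S) (_h𝒟 : 𝒟 H.ρ)
    (_hres : H.ρ.residual.IsEquiv
      (ρbar.baseChangeAlong (IsLocalRing.ResidueField.map (algebraMap 𝒪 T)))),
    ∃ φ : D.R →ₐ[𝒪] T, Function.Surjective φ ∧ ∃ hφ : IsLocalHom (φ : D.R →+* T),
      (D.ρ.baseChangeAlong (φ : D.R →+* T) hφ).IsEquiv H.ρ

end Fermat.Agent.S59.TW.H959

end
-- ===== PACK-END S59/TW/H959/Iface.lean

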