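import Mathlib
import Fermat.Agent.Pack.S43GC.G0E8L2
import Fermat.Agent.Pack.S43GC.G0E8L1
import Fermat.Agent.Pack.S43GC.G0E5L2
import Fermat.Agent.Pack.S43GC.G0E8L3
import Fermat.Agent.Pack.S43GC.G0E8L0
import Fermat.Agent.Pack.S43GC.G0E7L2
import Fermat.Agent.Pack.S43GC.G0E9L0
import Fermat.Agent.Pack.S43GC.G0E9L2
import Fermat.Agent.Pack.S43GC.G0E9L3
import Fermat.Agent.Pack.S43GC.G0E9L1
import Fermat.Agent.Pack.Fast891

-- ===== PACK-BEGIN S55/G/Rec/RelNormH707.lean
section


/-!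
# S55 / layer G / block REC : library for `relNorm`  (helper707)

`relNorm H b = ∏ᶠ t : G ⧸ H, (Quotient.out t) • b`  (Defs2).  For `H` of finite index and `b` fixed
by `H`:

* `out_smul`            : `(Quotient.out (g : G ⧸ H)) • b = g • b`;
* `relNorm_eq_prod`     : `relNorm H b = ∏ t : G ⧸ H, (Quotient.out t) • b` (Fintype product);
* `smul_relNorm`        : `σ • relNorm H b = relNorm H b` for all `σ : G`;
* `relNorm_mul`, `relNorm_one`, `relNorm_inv`, `relNorm_pow`, `relNorm_zpow`;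
* `relNorm_of_fixed`    : `relNorm H b = b ^ H.index` if `b` is fixed by `G`;
* `relNorm_trans`       : **(SA1) transitivity** `relNorm V (relNorm K b) = relNorm (K.map V.subtype) b`
                          for `K ≤ ↥V ≤ G`;
* local:  `finiteIndex_of_isOpenL`, `relNorm_rational_local` (`relNorm V a ∈ ℚ_qˣ`),
          `norm_relNorm_local` (`‖relNorm V a‖ = ‖a‖ ^ V.index`), `vdeg_eq_valuation`;
* global: `finiteIndex_of_isOpenQ`, `relNorm_rational_global` (first half of `OrbitNormSpec`).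
-/

set_option autoImplicit false
set_option linter.style.haveILetI false

noncomputable section

namespace Fermat.Agent.S55.G.Rec.RelNormH707

open Fermat.Agent.S55.G.Rec

section General

variable {G M : Type*} [Group G] [CommGroup M] [MulDistribMulAction G M]

/-- `b` is fixed by the subgroup `H`. -/
def FixedBy (H : Subgroup G) (b : M) : Prop := ∀ h ∈ H, h • b = b

lemma smul_eq_of_coset {H : Subgroup G} {b : M} (hb : FixedBy H b) {σ τ : G}
    (h : (σ : G ⧸ H) = (τ : G ⧸ H)) : σ • b = τ • b := by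
  have h1 : σ⁻¹ * τ ∈ H := QuotientGroup.eq.mp h
  have h2 : (σ⁻¹ * τ) • b = b := hb _ h1
  calc σ • b = σ • ((σ⁻¹ * τ) • b) := by rw [h2]
    _ = τ • b := by rw [smul_smul, mul_inv_cancel_left]

lemma out_smul {H : Subgroup G} {b : M} (hb : FixedBy H b) (g : G) :
    (Quotient.out (g : G ⧸ H) : G) • b = g • b :=
  smul_eq_of_coset hb (Quotient.out_eq' _)

lemma relNorm_eq_prod (H : Subgroup G) [Fintype (G ⧸ H)] (b : M) :
    relNorm H b = ∏ t : G ⧸ H, (Quotient.out t : G) • b :=
  finprod_eq_prod_of_fintype _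

lemma smul_relNorm {H : Subgroup G} [H.FiniteIndex] {b : M} (hb : FixedBy H b) (σ : G) :
    σ • relNorm H b = relNorm H b := by
  letI : Fintype (G ⧸ H) := Subgroup.fintypeQuotientOfFiniteIndex
  rw [relNorm_eq_prod, Finset.smul_prod']
  have hperm : ∀ t : G ⧸ H, σ • ((Quotient.out t : G) • b) = (Quotient.out (σ • t) : G) • b := by
    intro t
    rw [smul_smul]
    refine smul_eq_of_coset hb ?_
    have h2 : ((Quotient.out (σ • t) : G) : G ⧸ H) = σ • t := Quotient.out_eq' _
    have h3 : ((σ * Quotient.out t : G) : G ⧸ H) = σ • ((Quotient.out t : G) : G ⧸ H) := rfl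
    rw [h2, h3]
    congr 1
    exact Quotient.out_eq' t
  rw [Finset.prod_congr rfl (fun t _ => hperm t)]
  exact Fintype.prod_equiv (MulAction.toPerm σ) _ _ (fun t => rfl)

lemma relNorm_mul (H : Subgroup G) [H.FiniteIndex] (a b : M) :
    relNorm H (a * b) = relNorm H a * relNorm H b := by
  letI : Fintype (G ⧸ H) := Subgroup.fintypeQuotientOfFiniteIndex
  simp only [relNorm_eq_prod, smul_mul', Finset.prod_mul_distrib]

lemma relNorm_one (H : Subgroup G) : relNorm H (1 : M) = 1 := by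
  unfold relNorm
  simp only [smul_one, finprod_one]

/-- `relNorm H` as a monoid homomorphism. -/
def relNormHom (H : Subgroup G) [H.FiniteIndex] : M →* M where
  toFun := relNorm H
  map_one' := relNorm_one H
  map_mul' := relNorm_mul H

@[simp] lemma relNormHom_apply (H : Subgroup G) [H.FiniteIndex] (b : M) :
    relNormHom H b = relNorm H b := rfl

lemma relNorm_inv (H : Subgroup G) [H.FiniteIndex] (b : M) :
    relNorm H b⁻¹ = (relNorm H b)⁻¹ := map_inv (relNormHom H) b

lemma relNorm_pow (H : Subgroup G) [H.FiniteIndex] (b : M) (n : ℕ) :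
    relNorm H (b ^ n) = relNorm H b ^ n := map_pow (relNormHom H) b n

lemma relNorm_zpow (H : Subgroup G) [H.FiniteIndex] (b : M) (n : ℤ) :
    relNorm H (b ^ n) = relNorm H b ^ n := map_zpow (relNormHom H) b n

lemma relNorm_prod (H : Subgroup G) [H.FiniteIndex] {ι : Type*} (s : Finset ι) (f : ι → M) :
    relNorm H (∏ i ∈ s, f i) = ∏ i ∈ s, relNorm H (f i) := map_prod (relNormHom H) f s

lemma relNorm_of_fixed (H : Subgroup G) [H.FiniteIndex] {b : M} (hb : ∀ g : G, g • b = b) :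
    relNorm H b = b ^ H.index := by
  letI : Fintype (G ⧸ H) := Subgroup.fintypeQuotientOfFiniteIndex
  rw [relNorm_eq_prod]
  simp only [hb]
  rw [Finset.prod_const, Finset.card_univ, Subgroup.index_eq_card, Nat.card_eq_fintype_card]

/-- the norm of an `H`-fixed element over any system of representatives -/
lemma relNorm_eq_prod_of_bijective {H : Subgroup G} [H.FiniteIndex] {b : M} (hb : FixedBy H b)
    {ι : Type*} [Fintype ι] (r : ι → G)
    (hr : Function.Bijective fun i => ((r i : G) : G ⧸ H)) :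
    relNorm H b = ∏ i, r i • b := by
  letI : Fintype (G ⧸ H) := Subgroup.fintypeQuotientOfFiniteIndex
  rw [relNorm_eq_prod]
  symm
  refine Fintype.prod_bijective _ hr _ _ fun i => ?_
  exact (out_smul hb (r i)).symm

/-! ### Transitivity -/

variable (V : Subgroup G) (K : Subgroup ↥V)

lemma fixedBy_relNorm_sub {b : M} [K.FiniteIndex]
    (hb : FixedBy (K.map V.subtype) b) : FixedBy V (relNorm K b) := by
  intro v hv
  have hb' : FixedBy K b := fun k hk => hb (k : G) ⟨k, hk, rfl⟩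
  exact smul_relNorm (G := ↥V) hb' ⟨v, hv⟩

/-- the map `(t, s) ↦ (out t) (out s) K'` -/
def pairMap : (G ⧸ V) × (↥V ⧸ K) → G ⧸ (K.map V.subtype) :=
  fun p => (((Quotient.out p.1 : G) * ((Quotient.out p.2 : ↥V) : G) : G) : G ⧸ (K.map V.subtype))

lemma map_subtype_le_self : K.map V.subtype ≤ V := by
  rintro _ ⟨k, -, rfl⟩
  exact k.2

lemma pairMap_injective : Function.Injective (pairMap V K) := by
  rintro ⟨t, s⟩ ⟨t', s'⟩ h
  have h1 : ((Quotient.out t : G) * ((Quotient.out s : ↥V) : G))⁻¹ *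
      ((Quotient.out t' : G) * ((Quotient.out s' : ↥V) : G)) ∈ K.map V.subtype :=
    QuotientGroup.eq.mp h
  have h2 := map_subtype_le_self V K h1
  -- first components agree
  have h3 : (Quotient.out t : G)⁻¹ * (Quotient.out t' : G) ∈ V := by
    have e : (Quotient.out t : G)⁻¹ * (Quotient.out t' : G) =
        ((Quotient.out s : ↥V) : G) *
          (((Quotient.out t : G) * ((Quotient.out s : ↥V) : G))⁻¹ *
            ((Quotient.out t' : G) * ((Quotient.out s' : ↥V) : G))) *
          ((Quotient.out s' : ↥V) : G)⁻¹ := by group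
    rw [e]
    exact V.mul_mem (V.mul_mem (Quotient.out s).2 h2) (V.inv_mem (Quotient.out s').2)
  have ht : t = t' := by
    have := (QuotientGroup.eq (s := V)).mpr h3
    exact (QuotientGroup.out_eq' t).symm.trans (this.trans (QuotientGroup.out_eq' t'))
  subst ht
  have h4 : ((Quotient.out s : ↥V) : G)⁻¹ * ((Quotient.out s' : ↥V) : G) ∈ K.map V.subtype := by
    have e : ((Quotient.out s : ↥V) : G)⁻¹ * ((Quotient.out s' : ↥V) : G) =
        ((Quotient.out t : G) * ((Quotient.out s : ↥V) : G))⁻¹ *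
            ((Quotient.out t : G) * ((Quotient.out s' : ↥V) : G)) := by group
    rw [e]
    exact h1
  obtain ⟨k, hk, hk'⟩ := h4
  have h5 : (Quotient.out s : ↥V)⁻¹ * (Quotient.out s' : ↥V) = k := by
    apply Subtype.ext
    exact hk'.symm
  have hs : s = s' := by
    have := (QuotientGroup.eq (s := K)).mpr (h5 ▸ hk)
    exact (QuotientGroup.out_eq' s).symm.trans (this.trans (QuotientGroup.out_eq' s'))
  rw [hs]

lemma pairMap_surjective : Function.Surjective (pairMap V K) := by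
  intro x
  induction x using QuotientGroup.induction_on with
  | H g =>
    set t : G ⧸ V := (g : G ⧸ V) with ht
    have h1 : (Quotient.out t : G)⁻¹ * g ∈ V := by
      apply QuotientGroup.eq.mp
      rw [ht]
      exact Quotient.out_eq' _
    set v : ↥V := ⟨(Quotient.out t : G)⁻¹ * g, h1⟩ with hv
    set s : ↥V ⧸ K := (v : ↥V ⧸ K) with hs
    refine ⟨(t, s), ?_⟩
    unfold pairMap
    apply QuotientGroup.eq.mpr
    have h2 : (Quotient.out s : ↥V)⁻¹ * v ∈ K := by
      apply QuotientGroup.eq.mp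
      rw [hs]
      exact Quotient.out_eq' _
    refine ⟨(Quotient.out s : ↥V)⁻¹ * v, h2, ?_⟩
    simp only [Subgroup.coe_subtype, Subgroup.coe_mul, Subgroup.coe_inv, hv]
    group

lemma pairMap_bijective : Function.Bijective (pairMap V K) :=
  ⟨pairMap_injective V K, pairMap_surjective V K⟩

theorem finiteIndex_map [V.FiniteIndex] [K.FiniteIndex] : (K.map V.subtype).FiniteIndex := by
  haveI : Finite ((G ⧸ V) × (↥V ⧸ K)) := inferInstance
  haveI : Finite (G ⧸ (K.map V.subtype)) :=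
    Finite.of_surjective _ (pairMap_surjective V K)
  exact Subgroup.finiteIndex_of_finite_quotient

/-- **(SA1) transitivity of the norm**: for `K ≤ ↥V ≤ G` of finite indices and `b` fixed by `K`,
`N_{G/V} (N_{V/K} b) = N_{G/K} b`. -/
theorem relNorm_trans [V.FiniteIndex] [K.FiniteIndex] {b : M}
    (hb : FixedBy (K.map V.subtype) b) :
    relNorm V (relNorm (G := ↥V) K b) = relNorm (K.map V.subtype) b := by
  haveI := finiteIndex_map V K
  letI : Fintype (G ⧸ V) := Subgroup.fintypeQuotientOfFiniteIndex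
  letI : Fintype (↥V ⧸ K) := Subgroup.fintypeQuotientOfFiniteIndex
  rw [relNorm_eq_prod_of_bijective hb
    (fun p : (G ⧸ V) × (↥V ⧸ K) => (Quotient.out p.1 : G) * ((Quotient.out p.2 : ↥V) : G))
    (pairMap_bijective V K)]
  rw [relNorm_eq_prod V, relNorm_eq_prod K, Fintype.prod_prod_type]
  refine Finset.prod_congr rfl fun t _ => ?_
  rw [Finset.smul_prod']
  refine Finset.prod_congr rfl fun s _ => ?_
  rw [← smul_smul]
  rfl

end General

/-! ## Local norms -/

section Local

variable (q : ℕ) [Fact q.Prime]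

local notation "Gq" => (PadicAlgCl q ≃ₐ[ℚ_[q]] PadicAlgCl q)

lemma isGalois_local : IsGalois ℚ_[q] (PadicAlgCl q) := by
  haveI : IsAlgClosure ℚ_[q] (PadicAlgCl q) := ⟨inferInstance, inferInstance⟩
  haveI : Normal ℚ_[q] (PadicAlgCl q) := IsAlgClosure.normal ℚ_[q] (PadicAlgCl q)
  exact isGalois_iff.mpr ⟨inferInstance, inferInstance⟩

lemma finiteIndex_of_isOpenL {V : Subgroup Gq} (hV : IsOpenL q V) : V.FiniteIndex := by
  obtain ⟨E, hE, hle⟩ := hV
  haveI := isGalois_local q
  haveI : E.fixingSubgroup.FiniteIndex := by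
    refine ⟨?_⟩
    rw [← IntermediateField.finrank_eq_fixingSubgroup_index]
    exact Module.finrank_pos.ne'
  exact Subgroup.finiteIndex_of_le hle

lemma lFixed_iff_fixedBy {V : Subgroup Gq} {a : (PadicAlgCl q)ˣ} :
    LFixed q V a ↔ FixedBy V a := Iff.rfl

/-- the local norm is rational -/
theorem relNorm_rational_local {V : Subgroup Gq} [V.FiniteIndex] {a : (PadicAlgCl q)ˣ}
    (ha : LFixed q V a) :
    ∃ y : ℚ_[q], y ≠ 0 ∧ ((relNorm V a : (PadicAlgCl q)ˣ) : PadicAlgCl q) =
      algebraMap ℚ_[q] (PadicAlgCl q) y := by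
  haveI := isGalois_local q
  have hfix : ((relNorm V a : (PadicAlgCl q)ˣ) : PadicAlgCl q) ∈
      IntermediateField.fixedField (⊤ : Subgroup Gq) := by
    rintro ⟨τ, -⟩
    have := congrArg (fun u : (PadicAlgCl q)ˣ => (u : PadicAlgCl q)) (smul_relNorm (H := V) ha τ)
    exact this
  rw [InfiniteGalois.fixedField_bot, IntermediateField.mem_bot] at hfix
  obtain ⟨y, hy⟩ := hfix
  refine ⟨y, ?_, hy.symm⟩
  rintro rfl
  rw [map_zero] at hy
  exact (relNorm V a).ne_zero hy.symm

/-- absolute value of the local norm -/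
theorem norm_relNorm_local (V : Subgroup Gq) [V.FiniteIndex] (a : (PadicAlgCl q)ˣ) :
    ‖((relNorm V a : (PadicAlgCl q)ˣ) : PadicAlgCl q)‖ = ‖(a : PadicAlgCl q)‖ ^ V.index := by
  letI : Fintype (Gq ⧸ V) := Subgroup.fintypeQuotientOfFiniteIndex
  rw [relNorm_eq_prod, Units.coe_prod, norm_prod]
  have h : ∀ t : Gq ⧸ V, ‖(((Quotient.out t : Gq) • a : (PadicAlgCl q)ˣ) : PadicAlgCl q)‖ =
      ‖(a : PadicAlgCl q)‖ := fun t =>
    (spectralNorm_eq_of_equiv (Quotient.out t : Gq) (a : PadicAlgCl q)).symm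
  simp only [h]
  rw [Finset.prod_const, Finset.card_univ, Subgroup.index_eq_card, Nat.card_eq_fintype_card]

/-- `vdeg` is the valuation of the norm -/
theorem vdeg_eq_valuation {V : Subgroup Gq} [V.FiniteIndex] {a : (PadicAlgCl q)ˣ} {y : ℚ_[q]}
    (hy0 : y ≠ 0)
    (hy : ((relNorm V a : (PadicAlgCl q)ˣ) : PadicAlgCl q) = algebraMap ℚ_[q] (PadicAlgCl q) y) :
    vdeg q V a = y.valuation := by
  have hq : 1 < q := (Fact.out : q.Prime).one_lt
  unfold vdeg
  rw [← norm_relNorm_local, hy, PadicAlgCl.norm_extends, Padic.norm_eq_zpow_neg_valuation hy0,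
    Int.log_zpow hq, neg_neg]

/-- `vdeg` is additive -/
theorem vdeg_mul {V : Subgroup Gq} [V.FiniteIndex] {a b : (PadicAlgCl q)ˣ}
    (ha : LFixed q V a) (hb : LFixed q V b) :
    vdeg q V (a * b) = vdeg q V a + vdeg q V b := by
  obtain ⟨y, hy0, hy⟩ := relNorm_rational_local q ha
  obtain ⟨z, hz0, hz⟩ := relNorm_rational_local q hb
  have hyz : ((relNorm V (a * b) : (PadicAlgCl q)ˣ) : PadicAlgCl q) =
      algebraMap ℚ_[q] (PadicAlgCl q) (y * z) := by
    rw [relNorm_mul, Units.val_mul, hy, hz, map_mul]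
  rw [vdeg_eq_valuation q hy0 hy, vdeg_eq_valuation q hz0 hz,
    vdeg_eq_valuation q (mul_ne_zero hy0 hz0) hyz, Padic.valuation_mul hy0 hz0]

end Local

/-! ## Global norms -/

section Global

local notation "Qb" => AlgebraicClosure ℚ
local notation "GQ" => (AlgebraicClosure ℚ ≃ₐ[ℚ] AlgebraicClosure ℚ)

lemma isGalois_global : IsGalois ℚ Qb := by
  haveI : IsAlgClosure ℚ Qb := ⟨inferInstance, AlgebraicClosure.isAlgebraic ℚ⟩
  haveI : Normal ℚ Qb := IsAlgClosure.normal ℚ Qb
  exact isGalois_iff.mpr ⟨inferInstance, inferInstance⟩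

lemma finiteIndex_of_isOpenQ {U : Subgroup GQ} (hU : IsOpenQ U) : U.FiniteIndex := by
  obtain ⟨F, hF, hle⟩ := hU
  haveI := isGalois_global
  haveI : F.fixingSubgroup.FiniteIndex := by
    refine ⟨?_⟩
    rw [← IntermediateField.finrank_eq_fixingSubgroup_index]
    exact Module.finrank_pos.ne'
  exact Subgroup.finiteIndex_of_le hle

/-- the global norm is rational (first half of `OrbitNormSpec`) -/
theorem relNorm_rational_global {U : Subgroup GQ} [U.FiniteIndex] {a : Qbˣ} (ha : GFixed U a) :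
    ∃ y : ℚˣ, ((relNorm U a : Qbˣ) : Qb) = algebraMap ℚ Qb (y : ℚ) := by
  haveI := isGalois_global
  have hfix : ((relNorm U a : Qbˣ) : Qb) ∈
      IntermediateField.fixedField (⊤ : Subgroup GQ) := by
    rintro ⟨τ, -⟩
    have := congrArg (fun u : Qbˣ => (u : Qb)) (smul_relNorm (H := U) ha τ)
    exact this
  rw [InfiniteGalois.fixedField_bot, IntermediateField.mem_bot] at hfix
  obtain ⟨y, hy⟩ := hfix
  have hy0 : y ≠ 0 := by
    rintro rfl
    rw [map_zero] at hy
    exact (relNorm U a).ne_zero hy.symm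
  exact ⟨Units.mk0 y hy0, hy.symm⟩

end Global

end Fermat.Agent.S55.G.Rec.RelNormH707

end
end
-- ===== PACK-END S55/G/Rec/RelNormH707.lean

-- ===== PACK-BEGIN S55/G/Rec/HP/DescH126.lean
section


/-!
# S55 / G / REC / HP, leaf HP-GD (helper126): `globalUp : GlobalUpSpec`,
`globalDescent : GlobalDescentSpec`

Dictionary between level cocycles on an open `U ≤ G_ℚ` with values in `ℚ̄ˣ` and cocycles of the
finite group `lvlGal U F` with values in `Fˣ`, `F/ℚ` finite normal with `G_F ≤ U`.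
-/

set_option autoImplicit false

noncomputable section

namespace Fermat.Agent.S55.G.Rec.HP.H126

open groupCohomology Fermat.Agent.S55.G.Rec Fermat.Agent.S55.G.Rec.HP

local notation "Qb" => AlgebraicClosure ℚ
local notation "GQ" => (AlgebraicClosure ℚ ≃ₐ[ℚ] AlgebraicClosure ℚ)

section Up

variable (U : Subgroup GQ) (F : IntermediateField ℚ Qb) [Normal ℚ F]

/-- The inclusion `Fˣ → ℚ̄ˣ` as a linear map of the underlying modules. -/
def inclLinG : (G.LRep ↥(lvlGal U F) ↥F) →ₗ[ℤ] gModOn U :=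
  (MonoidHom.toAdditive (unitsInclG F)).toIntLinearMap

lemma inclLinG_apply (x : G.LRep ↥(lvlGal U F) ↥F) :
    inclLinG U F x = Additive.ofMul (unitsInclG F (Additive.toMul x)) := rfl

lemma inclLinG_injective : Function.Injective (inclLinG U F) := by
  intro x y h
  apply Additive.toMul.injective
  apply Units.ext
  apply Subtype.ext
  have h2 := congrArg (fun z : gModOn U => ((Additive.toMul z : Qbˣ) : Qb)) h
  exact h2

/-- the inclusion `Fˣ → ℚ̄ˣ` is equivariant along `lvlHom` -/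
lemma inclLinG_equivariant (u : ↥U) (x : G.LRep ↥(lvlGal U F) ↥F) :
    inclLinG U F ((G.LRep ↥(lvlGal U F) ↥F).ρ (lvlHom U F u) x) =
      (gModOn U).ρ u (inclLinG U F x) := by
  apply Additive.toMul.injective
  apply Units.ext
  exact lvlHom_smul_coe U F u _

lemma gInflCochain₁_eq (b : ↥(lvlGal U F) → Additive (↥F)ˣ) :
    gInflCochain₁ U F b = cochainsPullPush₁ (lvlHom U F) (inclLinG U F) b := rfl

lemma gInflCochain₂_eq (f : ↥(lvlGal U F) × ↥(lvlGal U F) → Additive (↥F)ˣ) :
    gInflCochain₂ U F f = cochainsPullPush₂ (lvlHom U F) (inclLinG U F) f := rfl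

/-- inflation commutes with the differential -/
theorem gInflCochain₂_d₁₂ (b : ↥(lvlGal U F) → Additive (↥F)ˣ) :
    gInflCochain₂ U F ((d₁₂ (G.LRep ↥(lvlGal U F) ↥F)).hom b) =
      (d₁₂ (gModOn U)).hom (gInflCochain₁ U F b) := by
  rw [gInflCochain₂_eq, gInflCochain₁_eq]
  exact cochainsPullPush₂_d₁₂ (lvlHom U F) (inclLinG U F) (inclLinG_equivariant U F) b

/-- an element of `U` fixing `F` pointwise has trivial image in `lvlGal U F` -/
lemma lvlHom_eq_one_of_mem {s : ↥U} (hs : (s : GQ) ∈ F.fixingSubgroup) : lvlHom U F s = 1 := by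
  apply Subtype.ext
  ext x
  rw [lvlHom_coe, lvlRes_apply_coe]
  exact (IntermediateField.mem_fixingSubgroup_iff F _).1 hs x x.2

lemma mem_fixingSubgroup_of_lvlHom_eq_one {s : ↥U} (hs : lvlHom U F s = 1) :
    (s : GQ) ∈ F.fixingSubgroup := by
  rw [IntermediateField.mem_fixingSubgroup_iff]
  intro x hx
  have h1 := lvlRes_apply_coe U F s ⟨x, hx⟩
  have h2 : lvlRes U F s = 1 := by
    have := congrArg Subtype.val hs
    simpa using this
  rw [h2] at h1
  exact h1.symm

theorem isLevelConstant₁_gInflCochain₁ [FiniteDimensional ℚ F]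
    (b : ↥(lvlGal U F) → Additive (↥F)ˣ) :
    IsLevelConstant₁ U.subtype (gInflCochain₁ U F b) := by
  refine ⟨F, inferInstance, fun g s hs => ?_⟩
  unfold gInflCochain₁
  rw [map_mul, lvlHom_eq_one_of_mem U F hs, mul_one]

theorem isLevelConstant₂_gInflCochain₂ [FiniteDimensional ℚ F]
    (f : ↥(lvlGal U F) × ↥(lvlGal U F) → Additive (↥F)ˣ) :
    IsLevelConstant₂ U.subtype (gInflCochain₂ U F f) := by
  refine ⟨F, inferInstance, fun g g' s s' hs hs' => ?_⟩
  unfold gInflCochain₂
  simp only []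
  rw [map_mul, map_mul, lvlHom_eq_one_of_mem U F hs, lvlHom_eq_one_of_mem U F hs', mul_one,
    mul_one]

end Up

/-- **HP-UP.** -/
theorem globalUp : GlobalUpSpec := by
  intro U F _ _ _ f c hinf hcls
  have hf : (f : ↥(lvlGal U F) × ↥(lvlGal U F) → Additive (↥F)ˣ) ∈
      coboundaries₂ (G.LRep ↥(lvlGal U F) ↥F) := (H2π_eq_zero_iff f).mp hcls
  obtain ⟨b, hb⟩ := hf
  rw [continuousH2π_eq_zero_iff, mem_levelCoboundaries₂_iff]
  refine ⟨gInflCochain₁ U F b, isLevelConstant₁_gInflCochain₁ U F b, ?_⟩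
  rw [hinf, ← gInflCochain₂_d₁₂, hb]

section Descent

/-- `ℚ̄/ℚ` is algebraic (for the `Algebra ℚ ℚ̄` instance found by instance search). -/
theorem isAlgebraic_Qb : Algebra.IsAlgebraic ℚ Qb :=
  AlgebraicClosure.isAlgebraic ℚ

/-- `ℚ̄/ℚ` is normal (for the `Algebra ℚ ℚ̄` instance found by instance search). -/
theorem normal_Qb : Normal ℚ Qb := by
  haveI : Algebra.IsAlgebraic ℚ Qb := isAlgebraic_Qb
  haveI : IsAlgClosure ℚ Qb := ⟨inferInstance, inferInstance⟩
  exact IsAlgClosure.normal ℚ Qb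

/-- `ℚ̄/ℚ` is Galois (for the `Algebra ℚ ℚ̄` instance found by instance search). -/
theorem isGalois_Qb : IsGalois ℚ Qb := by
  haveI : Algebra.IsAlgebraic ℚ Qb := isAlgebraic_Qb
  haveI : Normal ℚ Qb := _root_.Fermat.Agent.S55.G.Rec.HP.H126.normal_Qb
  exact isGalois_iff.mpr ⟨inferInstance, inferInstance⟩

attribute [local instance] isAlgebraic_Qb _root_.Fermat.Agent.S55.G.Rec.HP.H126.normal_Qb isGalois_Qb

variable (U : Subgroup GQ) (F : IntermediateField ℚ Qb) [Normal ℚ F]

/-- two elements of `U` with the same image in `lvlGal U F` differ by an element fixing `F` -/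
lemma exists_mul_of_lvlHom_eq {u u' : ↥U} (h : lvlHom U F u = lvlHom U F u') :
    ∃ s : ↥U, (s : GQ) ∈ F.fixingSubgroup ∧ u' = u * s := by
  refine ⟨u⁻¹ * u', mem_fixingSubgroup_of_lvlHom_eq_one U F ?_, by group⟩
  rw [map_mul, map_inv, h, inv_mul_cancel]

/-- an element of `ℚ̄ˣ` fixed by `G_F ≤ U` comes from `Fˣ` -/
lemma exists_inclLinG_eq (hFU : F.fixingSubgroup ≤ U) (a : gModOn U)
    (ha : ∀ s : ↥U, (s : GQ) ∈ F.fixingSubgroup → (gModOn U).ρ s a = a) :
    ∃ y : G.LRep ↥(lvlGal U F) ↥F, inclLinG U F y = a := by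
  have hmem : ((Additive.toMul a : Qbˣ) : Qb) ∈ F := by
    rw [← InfiniteGalois.fixedField_fixingSubgroup F, IntermediateField.mem_fixedField_iff]
    intro s hs
    have h1 := ha ⟨s, hFU hs⟩ hs
    have h2 := congrArg (fun z : gModOn U => ((Additive.toMul z : Qbˣ) : Qb)) h1
    exact h2
  have h0 : (⟨_, hmem⟩ : F) ≠ 0 := by
    intro h
    have := congrArg Subtype.val h
    exact (Additive.toMul a : Qbˣ).ne_zero this
  refine ⟨Additive.ofMul (Units.mk0 ⟨_, hmem⟩ h0), ?_⟩
  apply Additive.toMul.injective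
  apply Units.ext
  rfl

/-- inflation of 2-cochains is injective -/
lemma gInflCochain₂_injective
    (f₁ f₂ : ↥(lvlGal U F) × ↥(lvlGal U F) → Additive (↥F)ˣ)
    (h : gInflCochain₂ U F f₁ = gInflCochain₂ U F f₂) : f₁ = f₂ := by
  funext ⟨σ, τ⟩
  obtain ⟨u, rfl⟩ := lvlHom_surjective U F σ
  obtain ⟨v, rfl⟩ := lvlHom_surjective U F τ
  exact inclLinG_injective U F (congrFun h (u, v))

end Descent

/-- **HP-GD.** -/
theorem globalDescent : GlobalDescentSpec := by
  haveI : Algebra.IsAlgebraic ℚ Qb := isAlgebraic_Qb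
  haveI : Normal ℚ Qb := _root_.Fermat.Agent.S55.G.Rec.HP.H126.normal_Qb
  intro U hU c n hn F₁ hF₁
  obtain ⟨F₀, hF₀, hF₀U⟩ := hU
  obtain ⟨hcoc, Fc, hFc, hc⟩ := c.2
  have hnc : ((n • c : ↥(levelCocycles₂ U.subtype (gModOn U))) : ↥U × ↥U → gModOn U) ∈
      levelCoboundaries₂ U.subtype (gModOn U) := by
    rw [← continuousH2π_eq_zero_iff, map_nsmul]
    exact hn
  obtain ⟨b, ⟨Fb, hFb, hb⟩, hdb⟩ := (mem_levelCoboundaries₂_iff _ _ _).1 hnc
  -- the level
  haveI := hF₀; haveI := hF₁; haveI := hFc; haveI := hFb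
  let E : IntermediateField ℚ Qb := F₀ ⊔ F₁ ⊔ Fc ⊔ Fb
  let F : IntermediateField ℚ Qb := IntermediateField.normalClosure ℚ E Qb
  haveI : FiniteDimensional ℚ F := normalClosure.is_finiteDimensional ℚ E Qb
  haveI : Normal ℚ F := normalClosure.normal ℚ E Qb
  have hEF : E ≤ F := IntermediateField.le_normalClosure E
  have hF₀F : F₀ ≤ F := ((le_sup_left.trans le_sup_left).trans le_sup_left).trans hEF
  have hF₁F : F₁ ≤ F := ((le_sup_right.trans le_sup_left).trans le_sup_left).trans hEF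
  have hFcF : Fc ≤ F := (le_sup_right.trans le_sup_left).trans hEF
  have hFbF : Fb ≤ F := le_sup_right.trans hEF
  have hFU : F.fixingSubgroup ≤ U :=
    le_trans (IntermediateField.fixingSubgroup_antitone hF₀F) hF₀U
  -- `c` and `b` depend only on the images in `lvlGal U F`
  have hc1 : ∀ u₁ u₂ u₁' u₂' : ↥U, lvlHom U F u₁ = lvlHom U F u₁' →
      lvlHom U F u₂ = lvlHom U F u₂' →
      (c : ↥U × ↥U → gModOn U) (u₁', u₂') = (c : ↥U × ↥U → gModOn U) (u₁, u₂) := by
    intro u₁ u₂ u₁' u₂' h₁ h₂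
    obtain ⟨s₁, hs₁, rfl⟩ := exists_mul_of_lvlHom_eq U F h₁
    obtain ⟨s₂, hs₂, rfl⟩ := exists_mul_of_lvlHom_eq U F h₂
    exact hc u₁ u₂ s₁ s₂ (IntermediateField.fixingSubgroup_antitone hFcF hs₁)
      (IntermediateField.fixingSubgroup_antitone hFcF hs₂)
  have hb1 : ∀ u u' : ↥U, lvlHom U F u = lvlHom U F u' → b u' = b u := by
    intro u u' h
    obtain ⟨s, hs, rfl⟩ := exists_mul_of_lvlHom_eq U F h
    exact hb u s (IntermediateField.fixingSubgroup_antitone hFbF hs)
  have hcoc' := (mem_cocycles₂_iff _).1 hcoc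
  -- the values of `c` are fixed by `G_F`
  have hcfix : ∀ s : ↥U, (s : GQ) ∈ F.fixingSubgroup → ∀ h j : ↥U,
      (gModOn U).ρ s ((c : ↥U × ↥U → gModOn U) (h, j)) = (c : ↥U × ↥U → gModOn U) (h, j) := by
    intro s hs h j
    have hs1 : lvlHom U F s = 1 := lvlHom_eq_one_of_mem U F hs
    have e1 := hcoc' s h j
    have e2 := hcoc' 1 h j
    rw [hc1 h j (s * h) j (by rw [map_mul, hs1, one_mul]) rfl,
      hc1 1 h s h (by rw [map_one, hs1]) rfl,
      hc1 1 (h * j) s (h * j) (by rw [map_one, hs1]) rfl] at e1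
    rw [one_mul, map_one, Module.End.one_apply] at e2
    have e3 := add_left_cancel e2
    rw [e3] at e1
    exact (add_right_cancel e1).symm
  -- the values of `b` are fixed by `G_F`
  have hdb2 : ∀ g h : ↥U, (gModOn U).ρ g (b h) - b (g * h) + b g =
      n • (c : ↥U × ↥U → gModOn U) (g, h) := by
    intro g h
    have := congrFun hdb (g, h)
    rw [d₁₂_hom_apply] at this
    exact this
  have hbfix : ∀ s : ↥U, (s : GQ) ∈ F.fixingSubgroup → ∀ h : ↥U,
      (gModOn U).ρ s (b h) = b h := by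
    intro s hs h
    have hs1 : lvlHom U F s = 1 := lvlHom_eq_one_of_mem U F hs
    have e1 := hdb2 s h
    have e2 := hdb2 1 h
    rw [hb1 h (s * h) (by rw [map_mul, hs1, one_mul]), hb1 1 s (by rw [map_one, hs1]),
      hc1 1 h s h (by rw [map_one, hs1]) rfl, ← e2] at e1
    rw [one_mul, map_one, Module.End.one_apply] at e1
    have e3 := add_right_cancel e1
    exact sub_left_injective e3
  -- descent of `c` and `b`
  let lift : ↥(lvlGal U F) → ↥U := Function.surjInv (lvlHom_surjective U F)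
  have hlift : ∀ σ, lvlHom U F (lift σ) = σ := Function.surjInv_eq (lvlHom_surjective U F)
  have hexf : ∀ p : ↥(lvlGal U F) × ↥(lvlGal U F), ∃ y : G.LRep ↥(lvlGal U F) ↥F,
      inclLinG U F y = (c : ↥U × ↥U → gModOn U) (lift p.1, lift p.2) :=
    fun p => exists_inclLinG_eq U F hFU _ (fun s hs => hcfix s hs _ _)
  choose f hf using hexf
  have hexb : ∀ σ : ↥(lvlGal U F), ∃ y : G.LRep ↥(lvlGal U F) ↥F,
      inclLinG U F y = b (lift σ) :=
    fun σ => exists_inclLinG_eq U F hFU _ (fun s hs => hbfix s hs _)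
  choose b' hb' using hexb
  have hfc : ∀ u v : ↥U, inclLinG U F (f (lvlHom U F u, lvlHom U F v)) =
      (c : ↥U × ↥U → gModOn U) (u, v) := by
    intro u v
    rw [hf]
    exact hc1 u v _ _ (hlift _).symm (hlift _).symm
  have hbb : ∀ u : ↥U, inclLinG U F (b' (lvlHom U F u)) = b u := by
    intro u
    rw [hb']
    exact hb1 u _ (hlift _).symm
  have hinf : (c : ↥U × ↥U → gModOn U) = gInflCochain₂ U F f := by
    funext ⟨u, v⟩
    exact (hfc u v).symm
  have hinfb : b = gInflCochain₁ U F b' := by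
    funext u
    exact (hbb u).symm
  -- `f` is a cocycle
  have hfcoc : f ∈ cocycles₂ (G.LRep ↥(lvlGal U F) ↥F) := by
    rw [mem_cocycles₂_iff]
    intro σ τ υ
    obtain ⟨u, rfl⟩ := lvlHom_surjective U F σ
    obtain ⟨v, rfl⟩ := lvlHom_surjective U F τ
    obtain ⟨w, rfl⟩ := lvlHom_surjective U F υ
    apply inclLinG_injective U F
    rw [map_add, map_add, inclLinG_equivariant, ← map_mul, ← map_mul, hfc, hfc, hfc, hfc]
    exact hcoc' u v w
  -- `d b' = n • f`
  have hdb' : (d₁₂ (G.LRep ↥(lvlGal U F) ↥F)).hom b' = n • f := by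
    apply gInflCochain₂_injective U F
    rw [gInflCochain₂_d₁₂, ← hinfb, hdb, gInflCochain₂_eq, map_nsmul, ← gInflCochain₂_eq, ← hinf]
    rfl
  refine ⟨F, inferInstance, inferInstance, ⟨f, hfcoc⟩, hF₁F, hFU, hinf, ?_⟩
  rw [← map_nsmul, H2π_eq_zero_iff]
  exact ⟨b', hdb'⟩

end Fermat.Agent.S55.G.Rec.HP.H126

end
end
-- ===== PACK-END S55/G/Rec/HP/DescH126.lean

-- ===== PACK-BEGIN S55/G/Rec/Loc/ResH480.lean
section


/-!
# S55 / G / REC / LOC : leaf LOC-RES (`ResSpec`), helper480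

`theorem res_of (hO : OpenSpec) (hD : DescentSpec) : ResSpec`.

Route: by `DescentSpec` choose a finite Galois level `E / K_V` containing `K_{V'}`, with a cocycle
`f` inflating to `c`.  The same field regarded over `K_{V'}` is a level `E'` of `V'`; the
restriction `f'` of `f` to `Gal(E / K_{V'})` inflates to `c' = c|_{V'}`, and
`inv(f') = [K_{V'} : K_V] • inv(f)` by `J.inv_transport` and `J.inv_restriction`.
Finally `[K_{V'} : K_V] = [V : V']` by infinite Galois theory and `OpenSpec`.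
-/

set_option autoImplicit false

noncomputable section

namespace Fermat.Agent.S55.G.Rec.Loc.H480

open groupCohomology

/-! ## Pull–push of cocycles -/

/-- Pull–push of `2`-cocycles along a group homomorphism `φ : G' →* G` and an additive map
`ψ : A → A'` intertwining the actions. -/
def pullPush₂ {G G' : Type} [Group G] [Group G'] {A : Rep.{0} ℤ G} {A' : Rep.{0} ℤ G'}
    (φ : G' →* G) (ψ : A →+ A') (hψ : ∀ (g : G') (a : A), ψ (A.ρ (φ g) a) = A'.ρ g (ψ a))
    (f : cocycles₂ A) : cocycles₂ A' :=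
  ⟨fun p => ψ ((f : G × G → A) (φ p.1, φ p.2)), by
    rw [mem_cocycles₂_iff]
    intro g h j
    have := (mem_cocycles₂_iff (f : G × G → A)).1 f.2 (φ g) (φ h) (φ j)
    show ψ ((f : G × G → A) (φ (g * h), φ j)) + ψ ((f : G × G → A) (φ g, φ h)) =
      A'.ρ g (ψ ((f : G × G → A) (φ h, φ j))) + ψ ((f : G × G → A) (φ g, φ (h * j)))
    rw [← hψ, ← ψ.map_add, ← ψ.map_add, map_mul, map_mul, this]⟩

@[simp] lemma pullPush₂_apply {G G' : Type} [Group G] [Group G'] {A : Rep.{0} ℤ G}
    {A' : Rep.{0} ℤ G'}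
    (φ : G' →* G) (ψ : A →+ A') (hψ : ∀ (g : G') (a : A), ψ (A.ρ (φ g) a) = A'.ρ g (ψ a))
    (f : cocycles₂ A) (g h : G') :
    (pullPush₂ φ ψ hψ f : G' × G' → A') (g, h) = ψ ((f : G × G → A) (φ g, φ h)) := rfl

/-! ## Abstract restriction of the base field -/

section Abstract

variable {k Ω : Type} [Field k] [Field Ω] [Algebra k Ω]

/-- The `K`-algebra structure on `K'` for intermediate fields `K ≤ K'`. -/
@[reducible] def algOfLE {K K' : IntermediateField k Ω} (h : K ≤ K') : Algebra K K' :=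
  (IntermediateField.inclusion h).toRingHom.toAlgebra

lemma isScalarTower_algOfLE {K K' : IntermediateField k Ω} (h : K ≤ K') :
    letI := algOfLE h
    IsScalarTower K K' Ω :=
  letI := algOfLE h
  IsScalarTower.of_algebraMap_eq (fun _ => rfl)

lemma isScalarTower_base_algOfLE {K K' : IntermediateField k Ω} (h : K ≤ K') :
    letI := algOfLE h
    IsScalarTower k K K' :=
  letI := algOfLE h
  IsScalarTower.of_algebraMap_eq (fun _ => rfl)

variable {K K' : IntermediateField k Ω}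

/-- The identity map `E ≃ E'`, where `E'` is `E` regarded as an intermediate field over `K'`. -/
def upEquiv (hKK' : K ≤ K') (E : IntermediateField K Ω) (hK'E : K' ≤ E.restrictScalars k) :
    letI := algOfLE hKK'
    haveI := isScalarTower_algOfLE hKK'
    ↥E ≃ₐ[K] ↥(IntermediateField.extendScalars hK'E) :=
  letI := algOfLE hKK'
  haveI := isScalarTower_algOfLE hKK'
  { toFun := fun x => ⟨x.1, x.2⟩
    invFun := fun x => ⟨x.1, x.2⟩
    left_inv := fun _ => rfl
    right_inv := fun _ => rfl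
    map_mul' := fun _ _ => rfl
    map_add' := fun _ _ => rfl
    commutes' := fun _ => rfl }

lemma upEquiv_coe (hKK' : K ≤ K') (E : IntermediateField K Ω)
    (hK'E : K' ≤ E.restrictScalars k) (x : E) :
    ((upEquiv hKK' E hK'E x : ↥(IntermediateField.extendScalars hK'E)) : Ω) = (x : Ω) := rfl

lemma finiteDimensional_up (hKK' : K ≤ K') (E : IntermediateField K Ω)
    (hK'E : K' ≤ E.restrictScalars k) [FiniteDimensional K E] :
    FiniteDimensional K' ↥(IntermediateField.extendScalars hK'E) := by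
  let := algOfLE hKK'
  have := isScalarTower_algOfLE hKK'
  have : FiniteDimensional K ↥(IntermediateField.extendScalars hK'E) :=
    (upEquiv hKK' E hK'E).toLinearEquiv.finiteDimensional
  exact Module.Finite.right K K' ↥(IntermediateField.extendScalars hK'E)

lemma isGalois_up (hKK' : K ≤ K') (E : IntermediateField K Ω)
    (hK'E : K' ≤ E.restrictScalars k) [IsGalois K E] :
    IsGalois K' ↥(IntermediateField.extendScalars hK'E) := by
  let := algOfLE hKK'
  have := isScalarTower_algOfLE hKK'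
  have : IsGalois K ↥(IntermediateField.extendScalars hK'E) :=
    IsGalois.of_algEquiv (upEquiv hKK' E hK'E)
  exact IsGalois.tower_top_of_isGalois K K' ↥(IntermediateField.extendScalars hK'E)

/-- The restriction homomorphism `Gal(E / K') → Gal(E / K)` (with `E` over `K'` realised as
`extendScalars`). -/
def downHom (hKK' : K ≤ K') (E : IntermediateField K Ω) (hK'E : K' ≤ E.restrictScalars k) :
    (↥(IntermediateField.extendScalars hK'E) ≃ₐ[K'] ↥(IntermediateField.extendScalars hK'E)) →*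
      (↥E ≃ₐ[K] ↥E) :=
  letI := algOfLE hKK'
  haveI := isScalarTower_algOfLE hKK'
  (AlgEquiv.autCongr (upEquiv hKK' E hK'E)).symm.toMonoidHom.comp
    (AlgEquiv.restrictScalarsHom K)

lemma downHom_apply_coe (hKK' : K ≤ K') (E : IntermediateField K Ω)
    (hK'E : K' ≤ E.restrictScalars k)
    (g : ↥(IntermediateField.extendScalars hK'E) ≃ₐ[K'] ↥(IntermediateField.extendScalars hK'E))
    (x : E) :
    ((downHom hKK' E hK'E g x : E) : Ω) =
      ((g ⟨x.1, x.2⟩ : ↥(IntermediateField.extendScalars hK'E)) : Ω) := rfl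

/-- The coefficient map `Eˣ → E'ˣ` (identity on carriers). -/
def upUnits (hKK' : K ≤ K') (E : IntermediateField K Ω) (hK'E : K' ≤ E.restrictScalars k) :
    L.unitsRep K E →+ L.unitsRep K' ↥(IntermediateField.extendScalars hK'E) :=
  letI := algOfLE hKK'
  haveI := isScalarTower_algOfLE hKK'
  (show Additive (↥E)ˣ →+ Additive (↥(IntermediateField.extendScalars hK'E))ˣ from
    MonoidHom.toAdditive (Units.map ((upEquiv hKK' E hK'E : ↥E ≃ₐ[K] _) : ↥E →* _)))

lemma upUnits_coe (hKK' : K ≤ K') (E : IntermediateField K Ω)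
    (hK'E : K' ≤ E.restrictScalars k) (a : L.unitsRep K E) :
    (((Additive.toMul (upUnits hKK' E hK'E a) :
        (↥(IntermediateField.extendScalars hK'E))ˣ) :
        ↥(IntermediateField.extendScalars hK'E)) : Ω) =
      (((Additive.toMul a : (↥E)ˣ) : ↥E) : Ω) := rfl

/-- The restriction of a cocycle on `Gal(E/K)` to `Gal(E/K')`. -/
def resCocycle (hKK' : K ≤ K') (E : IntermediateField K Ω) (hK'E : K' ≤ E.restrictScalars k)
    (f : cocycles₂ (L.unitsRep K E)) :
    cocycles₂ (L.unitsRep K' ↥(IntermediateField.extendScalars hK'E)) :=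
  pullPush₂ (downHom hKK' E hK'E) (upUnits hKK' E hK'E) (fun _ _ => rfl) f

lemma resCocycle_apply (hKK' : K ≤ K') (E : IntermediateField K Ω)
    (hK'E : K' ≤ E.restrictScalars k) (f : cocycles₂ (L.unitsRep K E))
    (g h : ↥(IntermediateField.extendScalars hK'E) ≃ₐ[K']
      ↥(IntermediateField.extendScalars hK'E)) :
    (resCocycle hKK' E hK'E f : _ × _ → _) (g, h) =
      upUnits hKK' E hK'E
        ((f : (↥E ≃ₐ[K] ↥E) × (↥E ≃ₐ[K] ↥E) → L.unitsRep K E)
          (downHom hKK' E hK'E g, downHom hKK' E hK'E h)) := rfl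

/-- The invariant of the restricted cocycle. -/
theorem inv_resCocycle (hKK' : K ≤ K') (E : IntermediateField K Ω)
    (hK'E : K' ≤ E.restrictScalars k) [L.IsLocalFld K] [L.IsLocalFld K']
    [FiniteDimensional K E] [IsGalois K E]
    [FiniteDimensional K' ↥(IntermediateField.extendScalars hK'E)]
    [IsGalois K' ↥(IntermediateField.extendScalars hK'E)]
    (J : L.InvFamily) (f : cocycles₂ (L.unitsRep K E)) :
    J.inv K' ↥(IntermediateField.extendScalars hK'E) (L.cls (resCocycle hKK' E hK'E f)) =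
      (@Module.finrank K K' _ _ (algOfLE hKK').toModule) • J.inv K E (L.cls f) := by
  let := algOfLE hKK'
  have := isScalarTower_algOfLE hKK'
  have : FiniteDimensional K ↥(IntermediateField.extendScalars hK'E) :=
    (upEquiv hKK' E hK'E).toLinearEquiv.finiteDimensional
  have : IsGalois K ↥(IntermediateField.extendScalars hK'E) :=
    IsGalois.of_algEquiv (upEquiv hKK' E hK'E)
  let cc : (↥E ≃ₐ[K] ↥E) ≃* (↥(IntermediateField.extendScalars hK'E) ≃ₐ[K]
      ↥(IntermediateField.extendScalars hK'E)) := AlgEquiv.autCongr (upEquiv hKK' E hK'E)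
  let ψ₁ : L.unitsRep K E →+ L.unitsRep K ↥(IntermediateField.extendScalars hK'E) :=
    (show Additive (↥E)ˣ →+ Additive (↥(IntermediateField.extendScalars hK'E))ˣ from
      MonoidHom.toAdditive (Units.map ((upEquiv hKK' E hK'E : ↥E ≃ₐ[K] _) : ↥E →* _)))
  let f₁ : cocycles₂ (L.unitsRep K ↥(IntermediateField.extendScalars hK'E)) :=
    pullPush₂ cc.symm.toMonoidHom ψ₁ (fun _ _ => rfl) f
  have htr : L.IsTransport ((upEquiv hKK' E hK'E : ↥E ≃ₐ[K] _) : ↥E ≃+* _) cc f f₁ := by
    intro g h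
    rfl
  have hres : L.IsRestriction f₁ (resCocycle hKK' E hK'E f) := by
    intro g h
    rfl
  rw [J.inv_restriction K K' ↥(IntermediateField.extendScalars hK'E) f₁ _ hres,
    J.inv_transport K ↥E K ↥(IntermediateField.extendScalars hK'E) _ cc (fun _ _ => rfl)
      f f₁ htr]

end Abstract

/-! ## The `q`-adic situation -/

section Padic

variable (q : ℕ) [Fact q.Prime]

local notation "Gq" => (PadicAlgCl q ≃ₐ[ℚ_[q]] PadicAlgCl q)

/-- `PadicAlgCl q / ℚ_q` is Galois. -/
theorem isGalois_padicAlgCl_h480 : IsGalois ℚ_[q] (PadicAlgCl q) := by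
  have : IsAlgClosure ℚ_[q] (PadicAlgCl q) := ⟨inferInstance, inferInstance⟩
  have : Normal ℚ_[q] (PadicAlgCl q) := IsAlgClosure.normal ℚ_[q] (PadicAlgCl q)
  exact isGalois_iff.mpr ⟨inferInstance, inferInstance⟩

lemma fixedFld_mono {V V' : Subgroup Gq} (h : V' ≤ V) : fixedFld q V ≤ fixedFld q V' := by
  intro x hx
  exact fun g => hx ⟨g.1, h g.2⟩

lemma isOpenL_mono {V V' : Subgroup Gq} (h : V' ≤ V) (hV' : IsOpenL q V') : IsOpenL q V := by
  obtain ⟨E, hE, hEV⟩ := hV'
  exact ⟨E, hE, hEV.trans h⟩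

/-- `[K_{V'} : K_V] = [V : V']` for open `V' ≤ V`. -/
lemma finrank_eq_relIndex (hO : OpenSpec) {V V' : Subgroup Gq} (h : V' ≤ V)
    (hV' : IsOpenL q V') :
    @Module.finrank (fixedFld q V) (fixedFld q V') _ _ (algOfLE (fixedFld_mono q h)).toModule =
      V'.relIndex V := by
  let := algOfLE (fixedFld_mono q h)
  have := isScalarTower_base_algOfLE (fixedFld_mono q h)
  have := isGalois_padicAlgCl_h480 q
  obtain ⟨hfd', hfix'⟩ := hO q V' hV'
  obtain ⟨hfd, hfix⟩ := hO q V (_root_.Fermat.Agent.S55.G.Rec.Loc.H480.isOpenL_mono q h hV')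
  have h1 := IntermediateField.finrank_eq_fixingSubgroup_index (F := ℚ_[q])
    (E' := PadicAlgCl q) (fixedFld q V)
  have h2 := IntermediateField.finrank_eq_fixingSubgroup_index (F := ℚ_[q])
    (E' := PadicAlgCl q) (fixedFld q V')
  rw [hfix] at h1
  rw [hfix'] at h2
  have h3 := Module.finrank_mul_finrank ℚ_[q] (fixedFld q V) (fixedFld q V')
  have h4 := Subgroup.relIndex_mul_index h
  have hpos : 0 < Module.finrank ℚ_[q] (fixedFld q V) := Module.finrank_pos
  rw [h1] at h3 hpos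
  rw [h2, ← h4, mul_comm] at h3
  exact Nat.eq_of_mul_eq_mul_right hpos h3

/-- `K_{V'}` is finite over `K_V`. -/
lemma finiteDimensional_extendScalars (hO : OpenSpec) {V V' : Subgroup Gq} (h : V' ≤ V)
    (hV' : IsOpenL q V') :
    FiniteDimensional (fixedFld q V)
      ↥(IntermediateField.extendScalars (fixedFld_mono q h)) := by
  let := algOfLE (fixedFld_mono q h)
  have := isScalarTower_base_algOfLE (fixedFld_mono q h)
  obtain ⟨hfd', -⟩ := hO q V' hV'
  have : FiniteDimensional (fixedFld q V) (fixedFld q V') :=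
    Module.Finite.right ℚ_[q] (fixedFld q V) (fixedFld q V')
  let e₀ : ↥(fixedFld q V') ≃ₗ[fixedFld q V]
      ↥(IntermediateField.extendScalars (fixedFld_mono q h)) :=
    { toFun := fun x => ⟨x.1, x.2⟩
      invFun := fun x => ⟨x.1, x.2⟩
      left_inv := fun _ => rfl
      right_inv := fun _ => rfl
      map_add' := fun _ _ => rfl
      map_smul' := fun _ _ => rfl }
  exact e₀.finiteDimensional

/-- Compatibility of the finite-level restriction maps. -/
lemma downHom_resHom {V V' : Subgroup Gq} (h : V' ≤ V)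
    (E : IntermediateField (fixedFld q V) (PadicAlgCl q)) [Normal (fixedFld q V) E]
    (hK'E : fixedFld q V' ≤ E.restrictScalars ℚ_[q])
    [Normal (fixedFld q V') ↥(IntermediateField.extendScalars hK'E)] (g : ↥V') :
    downHom (fixedFld_mono q h) E hK'E
        (resHom q V' (IntermediateField.extendScalars hK'E) g) =
      resHom q V E (Subgroup.inclusion h g) := by
  apply AlgEquiv.ext
  intro x
  apply Subtype.ext
  rw [downHom_apply_coe, resHom_apply_coe, resHom_apply_coe]
  rfl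

/-- The restricted cocycle inflates to the restricted level cocycle. -/
lemma isAbsInflation_resCocycle {V V' : Subgroup Gq} (h : V' ≤ V)
    (E : IntermediateField (fixedFld q V) (PadicAlgCl q)) [Normal (fixedFld q V) E]
    (hK'E : fixedFld q V' ≤ E.restrictScalars ℚ_[q])
    [Normal (fixedFld q V') ↥(IntermediateField.extendScalars hK'E)]
    (f : cocycles₂ (L.unitsRep (fixedFld q V) E))
    (c : ↥(levelCocycles₂ (lHom q V) (lModOn q V)))
    (c' : ↥(levelCocycles₂ (lHom q V') (lModOn q V')))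
    (hcc' : ∀ g k : ↥V', (c' : ↥V' × ↥V' → lModOn q V') (g, k) =
        (c : ↥V × ↥V → lModOn q V) (Subgroup.inclusion h g, Subgroup.inclusion h k))
    (hinf : IsAbsInflation q V E f c) :
    IsAbsInflation q V' (IntermediateField.extendScalars hK'E)
      (resCocycle (fixedFld_mono q h) E hK'E f) c' := by
  funext ⟨g, k⟩
  rw [hcc' g k, hinf]
  show inflCochain₂ q V E _ (Subgroup.inclusion h g, Subgroup.inclusion h k) =
    inflCochain₂ q V' (IntermediateField.extendScalars hK'E) _ (g, k)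
  unfold inflCochain₂
  simp only [resCocycle_apply]
  rfl

/-- **LOC-RES** from `OpenSpec` and `DescentSpec`. -/
theorem res_of (hO : OpenSpec) (hD : _root_.Fermat.Agent.S55.G.Rec.Loc.DescentSpec) : ResSpec := by
  intro q _ V V' _ _ h hV' c c' hcc'
  have hV : IsOpenL q V := _root_.Fermat.Agent.S55.G.Rec.Loc.H480.isOpenL_mono q h hV'
  obtain ⟨E, hEfd, hEgal, f, hE₀E, hinf⟩ := hD q V hV c
    (IntermediateField.extendScalars (fixedFld_mono q h))
    (finiteDimensional_extendScalars q hO h hV')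
  have hK'E : fixedFld q V' ≤ E.restrictScalars ℚ_[q] := fun x hx => hE₀E hx
  have fd' := finiteDimensional_up (fixedFld_mono q h) E hK'E
  have gal' := isGalois_up (fixedFld_mono q h) E hK'E
  refine ⟨E, hEfd, hEgal, f, IntermediateField.extendScalars hK'E, fd', gal',
    resCocycle (fixedFld_mono q h) E hK'E f, hinf,
    isAbsInflation_resCocycle q h E hK'E f c c' hcc' hinf, fun J => ?_⟩
  rw [inv_resCocycle (fixedFld_mono q h) E hK'E J f, finrank_eq_relIndex q hO h hV']

end Padic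

end Fermat.Agent.S55.G.Rec.Loc.H480

end
end
-- ===== PACK-END S55/G/Rec/Loc/ResH480.lean

-- ===== PACK-BEGIN S55/G/Rec/Loc/H483/InertiaSpec.lean
section



/-!
# S55 / G / REC / LOC : inertia toolkit, interface   (helper483)

Shared input of the leaves LOC-UNR (`UnramSpec`) and LOC-UNIF (`UnifSpec`): both have hypotheses
about the *inertial* elements of `V ≤ Gal(ℚ̄_q/ℚ_q)` (`IsInertial`, a condition on ALL of `ℚ̄_q`)
and must produce a finite UNRAMIFIED level.  The bridge is

* `InertiaLiftSpec` : an element of the inertia subgroup of a finite Galois level `E / K_V`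
  is the restriction of an inertial element of `V`;
* `UnramLevelSpec` : inside every finite Galois level `E / K_V` there is a finite Galois
  UNRAMIFIED level `E₀ ≤ E` (the fixed field of inertia) such that the kernel of
  `V → Gal(E₀/K_V)` consists of the products `i * n`, `i` inertial, `n` trivial on `E`.

Unramified is `Local.IsUnram ℤ_[q] ℚ_[q] E₀ K_V` (base `(ℤ_q, ℚ_q)` of the `Local` core), so that
`Local.UnramUnitsH2Statement`, `Local.UnramCyclicStatement`, ... apply directly.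
Producer: helper483 (files `Loc/H483/*.lean`).
-/

set_option autoImplicit false

noncomputable section

namespace Fermat.Agent.S55.G.Rec.Loc.H483

open Fermat.Agent.S55.G.Rec Fermat.Agent.S55.G.Rec.Loc

/-- `ι ∈ Gal(E/K_V)` acts trivially on the residue field of `E` (norm description). -/
def IsInertialOn (q : ℕ) [Fact q.Prime] (V : Subgroup (PadicAlgCl q ≃ₐ[ℚ_[q]] PadicAlgCl q))
    (E : IntermediateField (fixedFld q V) (PadicAlgCl q)) (ι : E ≃ₐ[fixedFld q V] E) : Prop :=
  ∀ x : E, ‖(x : PadicAlgCl q)‖ ≤ 1 → ‖((ι x : E) : PadicAlgCl q) - (x : PadicAlgCl q)‖ < 1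

/-- **LOC-INERT1** norm versus integrality: an element of `ℚ̄_q` has norm `≤ 1` iff it is
integral over `ℤ_q` (in the sense `Local.IsInt` of the `Local` core, base `(ℤ_q, ℚ_q)`). -/
def NormIntegralSpec : Prop :=
  ∀ (q : ℕ) [Fact q.Prime] (x : PadicAlgCl q),
    ‖x‖ ≤ 1 ↔ Fermat.Agent.S55.Local.IsInt ℤ_[q] ℚ_[q] (PadicAlgCl q) x

/-- **LOC-INERT2** inertia lifting: an element of the inertia subgroup of a finite Galois level
`E / K_V` is the restriction of an inertial element of `V`. -/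
def InertiaLiftSpec : Prop :=
  ∀ (q : ℕ) [Fact q.Prime] (V : Subgroup (PadicAlgCl q ≃ₐ[ℚ_[q]] PadicAlgCl q)),
    IsOpenL q V →
    ∀ (E : IntermediateField (fixedFld q V) (PadicAlgCl q))
      [FiniteDimensional (fixedFld q V) E] [IsGalois (fixedFld q V) E]
      (ι : E ≃ₐ[fixedFld q V] E), IsInertialOn q V E ι →
      ∃ τ : ↥V, IsInertial q (τ : PadicAlgCl q ≃ₐ[ℚ_[q]] PadicAlgCl q) ∧ resHom q V E τ = ι

/-- **LOC-INERT3** the unramified level inside a finite Galois level: `E₀ ≤ E` finite Galois and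
unramified over `K_V`, and `w ∈ V` is trivial on `E₀` iff `w = i * n` with `i` inertial and `n`
trivial on `E`. -/
def UnramLevelSpec : Prop :=
  ∀ (q : ℕ) [Fact q.Prime] (V : Subgroup (PadicAlgCl q ≃ₐ[ℚ_[q]] PadicAlgCl q)),
    IsOpenL q V →
    ∀ (E : IntermediateField (fixedFld q V) (PadicAlgCl q))
      [FiniteDimensional (fixedFld q V) E] [IsGalois (fixedFld q V) E],
      ∃ (E₀ : IntermediateField (fixedFld q V) (PadicAlgCl q))
        (_ : FiniteDimensional (fixedFld q V) E₀) (_ : IsGalois (fixedFld q V) E₀),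
        E₀ ≤ E ∧ Fermat.Agent.S55.Local.IsUnram ℤ_[q] ℚ_[q] E₀ (fixedFld q V) ∧
        ∀ w : ↥V, resHom q V E₀ w = 1 ↔
          ∃ i n : ↥V, IsInertial q (i : PadicAlgCl q ≃ₐ[ℚ_[q]] PadicAlgCl q) ∧
            resHom q V E n = 1 ∧ w = i * n

end Fermat.Agent.S55.G.Rec.Loc.H483

end
end
-- ===== PACK-END S55/G/Rec/Loc/H483/InertiaSpec.lean

-- ===== PACK-BEGIN S55/Local/H483/Rel.lean
section


/-!
# S55, layer L : inertia group and ramification index (relative case)   (helper483)

Base `(A, F)`; `K / F` finite; `N / K` finite Galois.  We apply the absolute case to the base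
`(O_K, K)` where `O_K = integralClosure A K`.
-/

set_option autoImplicit false
set_option linter.unusedSectionVars false
set_option linter.style.haveILetI false

namespace Fermat.Agent.S55.Local.H483

open Fermat.Agent.S55.Local IsLocalRing

section Bridge

variable (A F : Type) [CommRing A] [IsDomain A] [IsDiscreteValuationRing A]
  [IsAdicComplete (IsLocalRing.maximalIdeal A) A] [Finite (IsLocalRing.ResidueField A)]
  [Field F] [CharZero F] [Algebra A F] [IsFractionRing A F]
  (K : Type) [Field K] [Algebra F K] [FiniteDimensional F K]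
  [Algebra A K] [IsScalarTower A F K]
  (N : Type) [Field N] [Algebra F N] [Algebra K N] [IsScalarTower F K N]

/-- Integrality over `O_K` is integrality over `A`. -/
lemma isInt_OK_iff (x : N) : IsInt (OO A K) K N x ↔ IsInt A F N x := by
  letI : Algebra A N := H715.algAL A F N
  haveI : IsScalarTower A F N := H715.isScalarTower_algAL A F N
  haveI : IsScalarTower (OO A K) K N := inferInstance
  haveI : IsScalarTower A K N := IsScalarTower.of_algebraMap_eq (fun a => by
    show algebraMap F N (algebraMap A F a) = algebraMap K N (algebraMap A K a)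
    rw [IsScalarTower.algebraMap_apply A F K, ← IsScalarTower.algebraMap_apply F K N])
  haveI : IsScalarTower A (OO A K) N := IsScalarTower.of_algebraMap_eq (fun a => by
    show algebraMap A N a = algebraMap K N (algebraMap (OO A K) K (algebraMap A (OO A K) a))
    rw [IsScalarTower.algebraMap_apply A K N]
    rfl)
  rw [H715.isInt_iff (OO A K) K N x, H715.isInt_iff A F N x]
  constructor
  · intro hx
    exact isIntegral_trans (R := A) (A := OO A K) x hx
  · intro hx
    exact hx.tower_top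

lemma intUnits_OK_eq : intUnits (OO A K) K N = intUnits A F N := by
  ext x
  rw [mem_intUnits, mem_intUnits, isInt_OK_iff A F K N, isInt_OK_iff A F K N]

lemma isUnif_OK_iff (ϖ : Nˣ) : IsUnif (OO A K) K N ϖ ↔ IsUnif A F N ϖ := by
  unfold IsUnif
  rw [intUnits_OK_eq A F K N, isInt_OK_iff A F K N]

lemma inMax_OK_iff (y : N) : InMax (OO A K) K N y ↔ InMax A F N y := by
  unfold InMax
  rw [isInt_OK_iff A F K N, isInt_OK_iff A F K N]

end Bridge

section Rel

variable (A F : Type) [CommRing A] [IsDomain A] [IsDiscreteValuationRing A]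
  [IsAdicComplete (IsLocalRing.maximalIdeal A) A] [Finite (IsLocalRing.ResidueField A)]
  [Field F] [CharZero F] [Algebra A F] [IsFractionRing A F]
  (K : Type) [Field K] [Algebra F K] [FiniteDimensional F K]
  (N : Type) [Field N] [Algebra F N] [Algebra K N] [IsScalarTower F K N]
  [FiniteDimensional K N] [IsGalois K N]

/-- **Inertia group of a finite Galois extension `N / K` of local fields**: a normal subgroup
`I` of `Gal(N/K)`, described intrinsically, of order `e(N/K)`. -/
theorem exists_inertia :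
    ∃ I : Subgroup (N ≃ₐ[K] N), I.Normal ∧
      (∀ σ, σ ∈ I ↔ ∀ x : N, IsInt A F N x → InMax A F N (σ x - x)) ∧
      ∀ (ϖK : Kˣ) (ϖN : Nˣ), IsUnif A F K ϖK → IsUnif A F N ϖN →
        unitsIncl N K ϖK * ϖN ^ (-(Nat.card I : ℤ)) ∈ intUnits A F N := by
  letI : Algebra A K := H715.algAL A F K
  haveI : IsScalarTower A F K := H715.isScalarTower_algAL A F K
  haveI := H715.isDiscreteValuationRing_OL A F K
  haveI := H715.isAdicComplete_OL A F K
  haveI := H715.finite_residueField_OL A F K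
  haveI := H715.isFractionRing_OL A F K
  haveI : CharZero K := charZero_of_injective_algebraMap (algebraMap F K).injective
  refine ⟨inertiaAbs (OO A K) K N, inertiaAbs_normal (OO A K) K N, ?_, ?_⟩
  · intro σ
    rw [mem_inertiaAbs_iff]
    simp only [isInt_OK_iff A F K N, inMax_OK_iff A F K N]
  · intro ϖK ϖN hK hN
    have hK' : IsUnif (OO A K) K K ϖK := (isUnif_OK_iff A F K K ϖK).2 hK
    have hN' : IsUnif (OO A K) K N ϖN := (isUnif_OK_iff A F K N ϖN).2 hN
    have := unif_mul_zpow_card_inertiaAbs (OO A K) K N ϖK ϖN hK' hN'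
    rwa [intUnits_OK_eq A F K N] at this

end Rel

end Fermat.Agent.S55.Local.H483

end
-- ===== PACK-END S55/Local/H483/Rel.lean

-- ===== PACK-BEGIN S55/G/Rec/CycloFrobH533.lean
section


/-!
# S55 / layer G / block REC, leaf REC2-L4 (helper533): `CycloFrobSpec`

`q ∤ m`: the `m`-th roots of unity of `ℚ̄_q` are pairwise incongruent modulo the maximal ideal
(`rootsOfUnity_eq_of_norm_sub_lt_one533`).  Hence an inertial automorphism fixes `μ_m`, and an
automorphism acting as `x ↦ x ^ (q ^ f)` on the residue field acts as `ζ ↦ ζ ^ (q ^ f)` on `μ_m`.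
-/

set_option autoImplicit false

namespace Fermat.Agent.S55.G.Rec.H533

open Fermat.Agent.S55.G.Rec

section Core

variable {K : Type*} [NormedField K] [IsUltrametricDist K]

/-- In an ultrametric normed field, `‖ω - 1‖ < 1` implies `‖ω ^ i - 1‖ < 1`. -/
lemma norm_pow_sub_one_lt533 {ω : K} (h : ‖ω - 1‖ < 1) (i : ℕ) : ‖ω ^ i - 1‖ < 1 := by
  induction i with
  | zero => simp
  | succ i ih =>
    have hω : ‖ω‖ ≤ 1 := by
      have : ω = (ω - 1) + 1 := by ring
      rw [this]
      refine (IsUltrametricDist.norm_add_le_max _ _).trans ?_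
      rw [norm_one]
      exact max_le h.le le_rfl
    have e : ω ^ (i + 1) - 1 = (ω ^ i - 1) * ω + (ω - 1) := by ring
    rw [e]
    refine lt_of_le_of_lt (IsUltrametricDist.norm_add_le_max _ _) (max_lt ?_ h)
    rw [norm_mul]
    calc ‖ω ^ i - 1‖ * ‖ω‖ ≤ ‖ω ^ i - 1‖ * 1 :=
          mul_le_mul_of_nonneg_left hω (norm_nonneg _)
      _ < 1 := by rw [mul_one]; exact ih

/-- In an ultrametric normed field, a finite sum of elements of norm `< 1` has norm `< 1`. -/
lemma norm_sum_lt_one533 {ι : Type*} (s : Finset ι) (f : ι → K) (h : ∀ i ∈ s, ‖f i‖ < 1) :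
    ‖∑ i ∈ s, f i‖ < 1 := by
  classical
  induction s using Finset.induction_on with
  | empty => simp
  | insert a s ha ih =>
    rw [Finset.sum_insert ha]
    refine lt_of_le_of_lt (IsUltrametricDist.norm_add_le_max _ _) (max_lt ?_ ?_)
    · exact h a (Finset.mem_insert_self a s)
    · exact ih fun i hi => h i (Finset.mem_insert_of_mem hi)

/-- If `‖(m : K)‖ = 1`, an `m`-th root of unity `ω` with `‖ω - 1‖ < 1` is `1`. -/
lemma eq_one_of_pow_eq_one_of_norm_sub_lt533 {m : ℕ} (hm : ‖(m : K)‖ = 1) {ω : K}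
    (hω : ω ^ m = 1) (h : ‖ω - 1‖ < 1) : ω = 1 := by
  by_contra hne
  have hgeom : (∑ i ∈ Finset.range m, ω ^ i) * (ω - 1) = ω ^ m - 1 := geom_sum_mul ω m
  rw [hω, sub_self] at hgeom
  have hsum : ∑ i ∈ Finset.range m, ω ^ i = 0 := by
    rcases mul_eq_zero.1 hgeom with h0 | h0
    · exact h0
    · exact absurd (sub_eq_zero.1 h0) hne
  have hm' : (m : K) = - ∑ i ∈ Finset.range m, (ω ^ i - 1) := by
    rw [Finset.sum_sub_distrib, hsum]
    simp
  have hlt : ‖(m : K)‖ < 1 := by
    rw [hm', norm_neg]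
    exact norm_sum_lt_one533 _ _ fun i _ => norm_pow_sub_one_lt533 h i
  rw [hm] at hlt
  exact lt_irrefl _ hlt

/-- If `‖(m : K)‖ = 1`, two `m`-th roots of unity which are congruent modulo the maximal ideal are
equal. -/
lemma rootsOfUnity_eq_of_norm_sub_lt_one533 {m : ℕ} (hm : ‖(m : K)‖ = 1) {ζ ξ : K}
    (hζ : ζ ^ m = 1) (hξ : ξ ^ m = 1) (h : ‖ξ - ζ‖ < 1) : ξ = ζ := by
  have hm0 : m ≠ 0 := by
    rintro rfl
    simp at hm
  have hζ0 : ζ ≠ 0 := by
    rintro rfl
    rw [zero_pow hm0] at hζ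
    exact zero_ne_one hζ
  have hnζ : ‖ζ‖ = 1 := by
    have h1 : ‖ζ‖ ^ m = 1 := by rw [← norm_pow, hζ, norm_one]
    exact (pow_eq_one_iff_of_nonneg (norm_nonneg _) hm0).1 h1
  have hω : (ξ / ζ) ^ m = 1 := by rw [div_pow, hζ, hξ, div_one]
  have hdist : ‖ξ / ζ - 1‖ < 1 := by
    have e : ξ / ζ - 1 = (ξ - ζ) / ζ := by field_simp
    rw [e, norm_div, hnζ, div_one]
    exact h
  have := eq_one_of_pow_eq_one_of_norm_sub_lt533 hm hω hdist
  exact (div_eq_one_iff_eq hζ0).1 this

end Core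

section Padic

variable (q : ℕ) [Fact q.Prime]

/-- `‖(m : ℚ̄_q)‖ = 1` for `q ∤ m`. -/
lemma norm_natCast_padicAlgCl533 {m : ℕ} (hm : ¬ q ∣ m) : ‖(m : PadicAlgCl q)‖ = 1 := by
  have h1 : ((m : ℚ_[q]) : PadicAlgCl q) = (m : PadicAlgCl q) := by
    exact map_natCast (algebraMap ℚ_[q] (PadicAlgCl q)) m
  rw [← h1, PadicAlgCl.norm_extends]
  exact (Padic.norm_natCast_eq_one_iff (p := q)).2 ((Nat.Prime.coprime_iff_not_dvd Fact.out).2 hm)

/-- **REC2-L4.** -/
theorem cycloFrob533 : CycloFrobSpec := by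
  intro q _ m hm
  have hnm : ‖(m : PadicAlgCl q)‖ = 1 := norm_natCast_padicAlgCl533 q hm
  have hm0 : m ≠ 0 := by
    rintro rfl
    exact hm (dvd_zero q)
  have hnorm : ∀ ζ : PadicAlgCl q, ζ ^ m = 1 → ‖ζ‖ ≤ 1 := by
    intro ζ hζ
    have h1 : ‖ζ‖ ^ m = 1 := by rw [← norm_pow, hζ, norm_one]
    exact ((pow_eq_one_iff_of_nonneg (norm_nonneg _) hm0).1 h1).le
  refine ⟨fun τ hτ ζ hζ => ?_, fun τ f hτ ζ hζ => ?_⟩
  · have hτζ : (τ ζ) ^ m = 1 := by rw [← map_pow, hζ, map_one]
    exact rootsOfUnity_eq_of_norm_sub_lt_one533 hnm hζ hτζ (hτ ζ (hnorm ζ hζ))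
  · have hτζ : (τ ζ) ^ m = 1 := by rw [← map_pow, hζ, map_one]
    have hζq : (ζ ^ (q ^ f)) ^ m = 1 := by rw [← pow_mul, mul_comm, pow_mul, hζ, one_pow]
    exact rootsOfUnity_eq_of_norm_sub_lt_one533 hnm hζq hτζ (hτ ζ (hnorm ζ hζ))

end Padic

end Fermat.Agent.S55.G.Rec.H533

end
-- ===== PACK-END S55/G/Rec/CycloFrobH533.lean

-- ===== PACK-BEGIN S55/L/UnrInv/Frob.lean
section


/-!
# S55, layer L, unramified invariants: rings of integers under isomorphisms, Frobenius elements
-/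

set_option autoImplicit false
set_option linter.style.haveILetI false

namespace Fermat.Agent.S55.L.UnrInv

/-- Non-units of a valuation subring: integers whose inverse is not an integer. -/
theorem mem_nonunits_iff_mem_and_inv_not_mem {F : Type*} [Field F] (C : ValuationSubring F)
    {y : F} (hy : y ≠ 0) : y ∈ C.nonunits ↔ y ∈ C ∧ y⁻¹ ∉ C := by
  have hv : C.valuation y ≠ 0 := (Valuation.ne_zero_iff _).mpr hy
  rw [C.mem_nonunits_iff]
  constructor
  · intro h
    refine ⟨(C.valuation_le_one_iff y).mp h.le, fun h' => ?_⟩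
    have h1 : C.valuation y⁻¹ ≤ 1 := (C.valuation_le_one_iff _).mpr h'
    rw [map_inv₀] at h1
    have h2 : 1 ≤ C.valuation y := (inv_le_one₀ (zero_lt_iff.mpr hv)).mp h1
    exact absurd h (not_lt.mpr h2)
  · rintro ⟨h1, h2⟩
    have h3 : C.valuation y ≤ 1 := (C.valuation_le_one_iff y).mpr h1
    rcases h3.lt_or_eq with h | h
    · exact h
    · exfalso
      apply h2
      rw [← C.valuation_le_one_iff, map_inv₀, h, inv_one]

section Equiv

variable {E E' : Type} [Field E] [Field E']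

/-- A ring isomorphism of local fields maps integers to integers. -/
theorem mem_of_ringEquiv (hint : IntegersComapSpec) [IsLocalFld E] (e : E ≃+* E')
    (B : ValuationSubring E) (B' : ValuationSubring E')
    (hB : IsLocalRingOfIntegers B) (hB' : IsLocalRingOfIntegers B') {x : E} :
    e x ∈ B' ↔ x ∈ B := by
  letI : Algebra E E' := e.toRingHom.toAlgebra
  haveI : FiniteDimensional E E' :=
    Module.Finite.of_surjective (Algebra.linearMap E E') e.surjective
  exact hint E E' B B' hB hB' x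

/-- A ring isomorphism of local fields maps non-units to non-units. -/
theorem mem_nonunits_of_ringEquiv (hint : IntegersComapSpec) [IsLocalFld E] (e : E ≃+* E')
    (B : ValuationSubring E) (B' : ValuationSubring E')
    (hB : IsLocalRingOfIntegers B) (hB' : IsLocalRingOfIntegers B') {x : E} :
    e x ∈ B'.nonunits ↔ x ∈ B.nonunits := by
  have key : ∀ y : E, e y ∈ B' ↔ y ∈ B := fun y => mem_of_ringEquiv hint e B B' hB hB'
  by_cases hx : x = 0
  · subst hx
    simp
  rw [mem_nonunits_iff_mem_and_inv_not_mem B hx,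
    mem_nonunits_iff_mem_and_inv_not_mem B' ((map_ne_zero e).mpr hx), key, ← map_inv₀, key]

end Equiv

section Finite

variable {K L : Type} [Field K] [Field L] [Algebra K L] [FiniteDimensional K L] [IsLocalFld K]

/-- Non-units map to non-units in a finite extension. -/
theorem algebraMap_mem_nonunits_iff (hint : IntegersComapSpec)
    (A : ValuationSubring K) (B : ValuationSubring L)
    (hA : IsLocalRingOfIntegers A) (hB : IsLocalRingOfIntegers B) {x : K} :
    algebraMap K L x ∈ B.nonunits ↔ x ∈ A.nonunits := by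
  have key : ∀ y : K, algebraMap K L y ∈ B ↔ y ∈ A := fun y => hint K L A B hA hB y
  by_cases hx : x = 0
  · subst hx
    simp
  rw [mem_nonunits_iff_mem_and_inv_not_mem A hx,
    mem_nonunits_iff_mem_and_inv_not_mem B ((map_ne_zero _).mpr hx), key, ← map_inv₀, key]

end Finite

end Fermat.Agent.S55.L.UnrInv

end
-- ===== PACK-END S55/L/UnrInv/Frob.lean

-- ===== PACK-BEGIN S56/Euler/H74/ShapiroH1.lean
section


/-!
# S56 / W-BASE, leaf EUL-CL (helper74), part D: Shapiro's lemma in degree 1, cochain form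

`V ≤ G` of finite index, `A : Rep k G`, `z : G → Ind_V A = (G ⧸ V →₀ A)` a 1-cocycle.  If the
component `h ↦ z h (1·V)` is a coboundary on `V` (`= h e₀ - e₀` for all `h ∈ V`), then `z` is a
coboundary.
-/

set_option autoImplicit false
set_option linter.style.haveILetI false
set_option linter.unusedSectionVars false

noncomputable section

namespace Fermat.Agent.S56.Euler.H74

open groupCohomology Fermat.Agent.S55 Fermat.Agent.S55.PT

variable {k : Type} [CommRing k] {G : Type} [Group G]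

/-- Evaluation of the induced action. -/
lemma indρ_apply_apply (V : Subgroup G) (A : Rep.{0, 0, 0} k G) (g : G)
    (f : (G ⧸ V) →₀ A) (y : G ⧸ V) :
    (K.indρ (MonoidHom.id G) V A g f) y = A.ρ g (f (g⁻¹ • y)) := by
  classical
  induction f using Finsupp.induction_linear with
  | zero => simp
  | add f₁ f₂ h₁ h₂ => rw [map_add, Finsupp.add_apply, h₁, h₂, Finsupp.add_apply, map_add]
  | single x a =>
    rw [K.indρ_single, Finsupp.single_apply, Finsupp.single_apply]
    have : ((MonoidHom.id G) g • x = y) ↔ (x = g⁻¹ • y) := by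
      constructor
      · intro h
        rw [← h]
        simp
      · intro h
        rw [h]
        simp
    by_cases hxy : x = g⁻¹ • y
    · rw [if_pos hxy, if_pos (this.2 hxy)]
    · rw [if_neg hxy, if_neg (fun h => hxy (this.1 h)), map_zero]

/-- The coefficient of an element of `Ind_V A` at a coset. -/
def coef (V : Subgroup G) (A : Rep.{0, 0, 0} k G) (f : K.indG V A) (y : G ⧸ V) : A :=
  DFunLike.coe (F := (G ⧸ V) →₀ A) f y

/-- An element of `Ind_V A` from its coefficients. -/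
def mkInd (V : Subgroup G) (A : Rep.{0, 0, 0} k G) (f : (G ⧸ V) →₀ A) : K.indG V A := f

lemma coef_mkInd (V : Subgroup G) (A : Rep.{0, 0, 0} k G) (f : (G ⧸ V) →₀ A) (y : G ⧸ V) :
    coef V A (mkInd V A f) y = f y := rfl

lemma coef_add (V : Subgroup G) (A : Rep.{0, 0, 0} k G) (f₁ f₂ : K.indG V A) (y : G ⧸ V) :
    coef V A (f₁ + f₂) y = coef V A f₁ y + coef V A f₂ y :=
  Finsupp.add_apply (g₁ := (f₁ : (G ⧸ V) →₀ A)) (g₂ := (f₂ : (G ⧸ V) →₀ A)) (a := y)

lemma coef_sub (V : Subgroup G) (A : Rep.{0, 0, 0} k G) (f₁ f₂ : K.indG V A) (y : G ⧸ V) :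
    coef V A (f₁ - f₂) y = coef V A f₁ y - coef V A f₂ y :=
  Finsupp.sub_apply (g₁ := (f₁ : (G ⧸ V) →₀ A)) (g₂ := (f₂ : (G ⧸ V) →₀ A)) (a := y)

lemma coef_ρ (V : Subgroup G) (A : Rep.{0, 0, 0} k G) (g : G) (f : K.indG V A) (y : G ⧸ V) :
    coef V A ((K.indG V A).ρ g f) y = A.ρ g (coef V A f (g⁻¹ • y)) :=
  indρ_apply_apply V A g f y

lemma coef_ext (V : Subgroup G) (A : Rep.{0, 0, 0} k G) {f₁ f₂ : K.indG V A}
    (h : ∀ y, coef V A f₁ y = coef V A f₂ y) : f₁ = f₂ :=
  Finsupp.ext (f := (f₁ : (G ⧸ V) →₀ A)) (g := (f₂ : (G ⧸ V) →₀ A)) h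

/-- **Shapiro in degree 1** (injectivity of `H¹(G, Ind_V A) → H¹(V, A)`), cochain form. -/
theorem mem_B1_indG_of_component (V : Subgroup G) [V.FiniteIndex] (A : Rep.{0, 0, 0} k G)
    (z : G → K.indG V A) (hz : z ∈ cocycles₁ (K.indG V A)) (e₀ : A)
    (he₀ : ∀ h ∈ V, coef V A (z h) ((1 : G) : G ⧸ V) = A.ρ h e₀ - e₀) :
    z ∈ LevelSys.B1 (K.indG V A) := by
  classical
  rw [mem_cocycles₁_iff] at hz
  -- the function `g ↦ g e₀ - z g (g V)` is constant on cosets
  let φ : G → A := fun g => A.ρ g e₀ - coef V A (z g) (g : G ⧸ V)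
  have hφ : ∀ (g u : G), u ∈ V → φ (g * u) = φ g := by
    intro g u hu
    show A.ρ (g * u) e₀ - coef V A (z (g * u)) ((g * u : G) : G ⧸ V) =
      A.ρ g e₀ - coef V A (z g) (g : G ⧸ V)
    have h1 : ((g * u : G) : G ⧸ V) = (g : G ⧸ V) := QuotientGroup.mk_mul_of_mem g hu
    have h2 : g⁻¹ • (g : G ⧸ V) = ((1 : G) : G ⧸ V) := by
      rw [MulAction.Quotient.smul_mk, smul_eq_mul, inv_mul_cancel]
    rw [h1, hz g u, coef_add, coef_ρ, h2, he₀ u hu, map_sub, map_mul]
    simp only [Module.End.mul_apply]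
    abel
  -- the candidate
  let E : (G ⧸ V) →₀ A := Finsupp.equivFunOnFinite.symm (fun x : G ⧸ V => φ x.out)
  have hE : ∀ g : G, coef V A (mkInd V A E) (g : G ⧸ V) = φ g := by
    intro g
    show φ ((g : G ⧸ V).out) = φ g
    obtain ⟨u, hu⟩ := QuotientGroup.mk_out_eq_mul V g
    rw [hu]
    exact hφ g u u.2
  refine ⟨mkInd V A E, ?_⟩
  funext g
  rw [d₀₁_hom_apply]
  apply coef_ext
  intro y
  obtain ⟨x, rfl⟩ := QuotientGroup.mk_surjective y
  have h3 : g⁻¹ • (x : G ⧸ V) = ((g⁻¹ * x : G) : G ⧸ V) := by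
    rw [MulAction.Quotient.smul_mk, smul_eq_mul]
  have h4 := hz g (g⁻¹ * x)
  rw [mul_inv_cancel_left] at h4
  have h5 : coef V A (z x) (x : G ⧸ V) =
      A.ρ g (coef V A (z (g⁻¹ * x)) ((g⁻¹ * x : G) : G ⧸ V)) + coef V A (z g) (x : G ⧸ V) := by
    rw [h4, coef_add, coef_ρ, h3]
  rw [coef_sub, coef_ρ, h3, hE, hE]
  show A.ρ g (A.ρ (g⁻¹ * x) e₀ - coef V A (z (g⁻¹ * x)) ((g⁻¹ * x : G) : G ⧸ V)) -
    (A.ρ x e₀ - coef V A (z x) (x : G ⧸ V)) = _
  rw [h5, map_sub]
  have h7 : A.ρ g (A.ρ (g⁻¹ * x) e₀) = A.ρ x e₀ := by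
    rw [← Module.End.mul_apply, ← map_mul, mul_inv_cancel_left]
  rw [h7]
  abel

end Fermat.Agent.S56.Euler.H74

end

end
-- ===== PACK-END S56/Euler/H74/ShapiroH1.lean

-- ===== PACK-BEGIN S56/P3/H254/Arith.lean
section


/-!
# S56 / P3, part B (arithmetic inputs), helper254

* `cycExpExists : CycExpExistsStatement` (CYCEXP)
* `cycloQuotient : CycloQuotientStatement` (CYC)
* `detOrder : DetOrderStatement` (DETORD)

Only Mathlib + the frozen P3 interface are used.
-/

set_option autoImplicit false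

namespace Fermat.Agent.S56.P3.H254

local notation "Qb" => AlgebraicClosure ℚ

/-- `ℚ̄` contains a primitive `N`-th root of unity for every `N ≠ 0`. -/
theorem exists_primitiveRoot (N : ℕ) [NeZero N] : ∃ ζ : Qb, IsPrimitiveRoot ζ N :=
  HasEnoughRootsOfUnity.exists_primitiveRoot Qb N

/-- An automorphism acts on all `N`-th roots of unity through the exponent it has on a primitive
one. -/
theorem apply_eq_pow_of_primitive {N : ℕ} [NeZero N] {ζ : Qb} (hζ : IsPrimitiveRoot ζ N)
    (σ : _root_.Fermat.Agent.S56.P3.GQ) {a : ℕ} (ha : σ ζ = ζ ^ a) (μ : Qb) (hμ : μ ^ N = 1) : σ μ = μ ^ a := by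
  obtain ⟨j, -, hj⟩ := hζ.eq_pow_of_pow_eq_one hμ
  rw [← hj, map_pow, ha, ← pow_mul, ← pow_mul, mul_comm]

/-- Every automorphism has an exponent on a primitive `N`-th root of unity. -/
theorem exists_exponent {N : ℕ} [NeZero N] {ζ : Qb} (hζ : IsPrimitiveRoot ζ N) (σ : _root_.Fermat.Agent.S56.P3.GQ) :
    ∃ a : ℕ, σ ζ = ζ ^ a := by
  have h1 : (σ ζ) ^ N = 1 := by rw [← map_pow, hζ.pow_eq_one, map_one]
  obtain ⟨a, -, ha⟩ := hζ.eq_pow_of_pow_eq_one h1
  exact ⟨a, ha.symm⟩

/-- **(CYCEXP)** every `σ ∈ G_ℚ` has a cyclotomic exponent on `μ_p`. -/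
theorem cycExpExists : CycExpExistsStatement := by
  intro p _ σ
  have hp : p.Prime := Fact.out
  haveI : NeZero p := ⟨hp.ne_zero⟩
  obtain ⟨ζ, hζ⟩ := exists_primitiveRoot p
  obtain ⟨a, ha⟩ := exists_exponent hζ σ
  exact ⟨a, fun μ hμ => apply_eq_pow_of_primitive hζ σ ha μ hμ⟩

/-- **(CYC)** `G_{ℚ(ζ_{p^(n+1)})}` is normal in `G_ℚ` with cyclic quotient (`p` odd). -/
theorem cycloQuotient : CycloQuotientStatement := by
  intro p _ hp2 n
  have hp : p.Prime := Fact.out
  haveI : NeZero (p ^ (n + 1)) := ⟨pow_ne_zero _ hp.ne_zero⟩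
  obtain ⟨ζ, hζ⟩ := exists_primitiveRoot (p ^ (n + 1))
  let χ : _root_.Fermat.Agent.S56.P3.GQ →* (ZMod (p ^ (n + 1)))ˣ := hζ.autToPow ℚ
  have hχ : ∀ σ : _root_.Fermat.Agent.S56.P3.GQ, ζ ^ ((χ σ : (ZMod (p ^ (n + 1)))ˣ) : ZMod (p ^ (n + 1))).val = σ ζ :=
    fun σ => hζ.autToPow_spec ℚ σ
  have hker : fixRootsSubgroup p n = χ.ker := by
    ext σ
    rw [mem_fixRootsSubgroup, MonoidHom.mem_ker]
    constructor
    · intro h
      have h1 : σ ζ = ζ := h ζ hζ.pow_eq_one
      have h2 := hχ σ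
      rw [h1] at h2
      have h3 : ((χ σ : (ZMod (p ^ (n + 1)))ˣ) : ZMod (p ^ (n + 1))).val
          = (1 : ZMod (p ^ (n + 1))).val := by
        have hlt : 1 < p ^ (n + 1) := Nat.one_lt_pow (Nat.succ_ne_zero n) hp.one_lt
        haveI : Fact (1 < p ^ (n + 1)) := ⟨hlt⟩
        rw [ZMod.val_one]
        refine hζ.pow_inj (ZMod.val_lt _) hlt ?_
        rw [h2, pow_one]
      exact Units.ext (ZMod.val_injective _ h3)
    · intro h μ hμ
      have h2 := hχ σ
      rw [h] at h2
      have hlt : 1 < p ^ (n + 1) := Nat.one_lt_pow (Nat.succ_ne_zero n) hp.one_lt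
      haveI : Fact (1 < p ^ (n + 1)) := ⟨hlt⟩
      rw [Units.val_one, ZMod.val_one, pow_one] at h2
      have := apply_eq_pow_of_primitive hζ σ (a := 1) (by rw [pow_one]; exact h2.symm) μ hμ
      rwa [pow_one] at this
  have hN : (fixRootsSubgroup p n).Normal := by
    rw [hker]
    exact MonoidHom.normal_ker χ
  refine ⟨hN, ?_⟩
  haveI : IsCyclic (ZMod (p ^ (n + 1)))ˣ := ZMod.isCyclic_units_of_prime_pow p hp hp2 (n + 1)
  let f : _root_.Fermat.Agent.S56.P3.GQ ⧸ fixRootsSubgroup p n →* (ZMod (p ^ (n + 1)))ˣ :=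
    QuotientGroup.lift (fixRootsSubgroup p n) χ (fun σ hσ => by
      rw [hker] at hσ
      exact hσ)
  have hf : Function.Injective f := by
    rw [injective_iff_map_eq_one]
    intro x hx
    obtain ⟨σ, rfl⟩ := QuotientGroup.mk_surjective x
    have h1 : χ σ = 1 := hx
    rw [QuotientGroup.eq_one_iff, hker]
    exact h1
  exact isCyclic_of_injective f hf

/-- The mod `p` cyclotomic character is onto: every unit of `ZMod p` is the exponent of some
automorphism on a primitive `p`-th root of unity. -/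
theorem exists_apply_eq_pow {p : ℕ} [Fact p.Prime] {ζ : Qb} (hζ : IsPrimitiveRoot ζ p)
    (a : (ZMod p)ˣ) : ∃ σ : _root_.Fermat.Agent.S56.P3.GQ, σ ζ = ζ ^ (a : ZMod p).val := by
  have hp : p.Prime := Fact.out
  haveI : NeZero p := ⟨hp.ne_zero⟩
  have hcop : (a : ZMod p).val.Coprime p := ZMod.val_coe_unit_coprime a
  have hζa : IsPrimitiveRoot (ζ ^ (a : ZMod p).val) p := hζ.pow_of_coprime _ hcop
  have hmin : minpoly ℚ (ζ ^ (a : ZMod p).val) = minpoly ℚ ζ := by
    rw [← Polynomial.cyclotomic_eq_minpoly_rat hζ hp.pos,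
      ← Polynomial.cyclotomic_eq_minpoly_rat hζa hp.pos]
  haveI : Algebra.IsAlgebraic ℚ Qb := AlgebraicClosure.isAlgebraic ℚ
  haveI : IsAlgClosure ℚ Qb := ⟨inferInstance, inferInstance⟩
  haveI : Normal ℚ Qb := IsAlgClosure.normal ℚ Qb
  have halg : IsAlgebraic ℚ (ζ ^ (a : ZMod p).val) :=
    (AlgebraicClosure.isAlgebraic ℚ).isAlgebraic _
  exact minpoly.exists_algEquiv_of_root (K := ℚ) (L := Qb) (x := ζ)
    (y := ζ ^ (a : ZMod p).val) halg (by rw [hmin]; exact minpoly.aeval ℚ ζ)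

/-- **(DETORD)** if `det ρ̄` is the mod `p` cyclotomic character, it takes a value of exact
order `p - 1`. -/
theorem detOrder : DetOrderStatement := by
  intro k _ p _ ρbar hdet
  have hp : p.Prime := Fact.out
  haveI : NeZero p := ⟨hp.ne_zero⟩
  haveI : IsCyclic (ZMod p)ˣ := ZMod.isCyclic_units_prime hp
  obtain ⟨g, hg⟩ := IsCyclic.exists_generator (α := (ZMod p)ˣ)
  have hord : orderOf g = p - 1 := by
    rw [orderOf_eq_card_of_forall_mem_zpowers hg, Nat.card_eq_fintype_card,
      ZMod.card_units_eq_totient, Nat.totient_prime hp]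
  obtain ⟨ζ, hζ⟩ := exists_primitiveRoot p
  obtain ⟨γ, hγ⟩ := exists_apply_eq_pow hζ g
  have hexp : Fermat.Agent.S56.IsCycExp p γ (g : ZMod p).val :=
    fun μ hμ => apply_eq_pow_of_primitive hζ γ hγ μ hμ
  have hdetγ := det_eq_of_isCycExp hdet hexp
  refine ⟨γ, ?_⟩
  rw [hdetγ]
  have hp0 : (p : k) = 0 := natCast_eq_zero_of_detIsCyclotomic hdet
  haveI : CharP k p := (CharP.charP_iff_prime_eq_zero hp).mpr hp0
  have h1 : (((g : ZMod p).val : ℕ) : k) = ZMod.castHom (dvd_refl p) k (g : ZMod p) := by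
    rw [ZMod.castHom_apply, ZMod.natCast_val]
  rw [h1]
  have hinj : Function.Injective (ZMod.castHom (dvd_refl p) k) := RingHom.injective _
  have h2 : orderOf ((ZMod.castHom (dvd_refl p) k) (g : ZMod p)) = orderOf (g : ZMod p) :=
    orderOf_injective ((ZMod.castHom (dvd_refl p) k : ZMod p →+* k) : ZMod p →* k) hinj _
  rw [h2, orderOf_units, hord]

end Fermat.Agent.S56.P3.H254

end
-- ===== PACK-END S56/P3/H254/Arith.lean

-- ===== PACK-BEGIN S56/FL/Glue.lean
section


/-!
# Row S56 — wall W-FLAT-SS: glue `LocalModelStatement → RamCountStatement → FlatSSStatement`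
(helper426).  Sorry-free.
-/

set_option autoImplicit false

open Polynomial IsLocalRing

noncomputable section

namespace Fermat.Agent.S56.FL

open Fermat.Agent.S56 Fermat.Agent.S56.H716

/-- Glue: the local model (different bound) and the ramification count give the top statement. -/
theorem flatSS_of (hLM : LocalModelStatement) (hRC : RamCountStatement) : FlatSSStatement := by
  intro k _ _ p _ hp2 hchar ρbar hdet hsplit P hP hirr c₁ c₂ h₁ h₂ ρ₁ ρ₂ hl₁ hl₂ hf₁ hf₂
  obtain ⟨A, B, iA1, iA2, iA3, iB1, iB2, iB3, iB4, iAB1, iAB2, iAB3, Γ, iΓ1, iΓ2, iΓ3, iΓ4, iΓ5,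
    iΓ6, π, ζ, e, hπ, hker, hA, hκ, hζ, hcyc, he, hD⟩ :=
    hLM k p hp2 hchar ρbar hdet P hP c₁ c₂ h₁ h₂ ρ₁ ρ₂ hl₁ hl₂ hf₁ hf₂
  -- a set-theoretic section of `π`
  let s : Γ → P.decompositionSubgroup ℚ := Function.surjInv hπ
  have hs : ∀ γ, π (s γ) = γ := Function.surjInv_eq hπ
  -- elements with the same image under `π`
  have key : ∀ σ τ : P.decompositionSubgroup ℚ, π σ = π τ →
      ρbar.ρ (σ : GQ) = ρbar.ρ (τ : GQ) ∧ c₁ (σ : GQ) = c₁ (τ : GQ) ∧
        c₂ (σ : GQ) = c₂ (τ : GQ) := by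
    intro σ τ h
    have h1 : π (σ⁻¹ * τ) = 1 := by rw [map_mul, map_inv, h, inv_mul_cancel]
    obtain ⟨hρ, hc1, hc2⟩ := (hker _).1 h1
    have hτ : (τ : GQ) = (σ : GQ) * ((σ⁻¹ * τ : P.decompositionSubgroup ℚ) : GQ) := by
      simp
    refine ⟨?_, ?_, ?_⟩
    · rw [hτ, map_mul, hρ, mul_one]
    · rw [hτ, h₁.map_mul, hc1]; simp
    · rw [hτ, h₂.map_mul, hc2]; simp
  -- the representation and the cocycles on `Γ`
  let ρΓ : Γ →* Module.End k ρbar.V :=
    { toFun := fun γ => ρbar.ρ ((s γ : P.decompositionSubgroup ℚ) : GQ)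
      map_one' := by
        have := (key (s 1) 1 (by rw [hs, map_one])).1
        simpa using this
      map_mul' := fun γ γ' => by
        have := (key (s (γ * γ')) (s γ * s γ') (by rw [hs, map_mul, hs, hs])).1
        simpa using this }
  have hρΓ : ∀ σ : P.decompositionSubgroup ℚ, ρΓ (π σ) = ρbar.ρ (σ : GQ) := fun σ =>
    (key (s (π σ)) σ (hs _)).1
  let d₁ : Γ → Module.End k ρbar.V := fun γ => c₁ ((s γ : P.decompositionSubgroup ℚ) : GQ)
  let d₂ : Γ → Module.End k ρbar.V := fun γ => c₂ ((s γ : P.decompositionSubgroup ℚ) : GQ)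
  have hd₁ : ∀ σ : P.decompositionSubgroup ℚ, d₁ (π σ) = c₁ (σ : GQ) := fun σ =>
    (key (s (π σ)) σ (hs _)).2.1
  have hd₂ : ∀ σ : P.decompositionSubgroup ℚ, d₂ (π σ) = c₂ (σ : GQ) := fun σ =>
    (key (s (π σ)) σ (hs _)).2.2
  have hcoc : ∀ (c : GQ → Module.End k ρbar.V) (d : Γ → Module.End k ρbar.V),
      IsAdCocycle ρbar c → (∀ σ : P.decompositionSubgroup ℚ, d (π σ) = c (σ : GQ)) →
      ∀ γ γ', d (γ * γ') = d γ + ρΓ γ * d γ' * ρΓ γ⁻¹ := by
    intro c d hc hd γ γ'
    obtain ⟨σ, rfl⟩ := hπ γ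
    obtain ⟨τ, rfl⟩ := hπ γ'
    rw [← map_mul, ← map_inv, hd, hd, hd, hρΓ, hρΓ]
    simpa using hc.map_mul (σ : GQ) (τ : GQ)
  obtain ⟨a₁, a₂, ha, m, hm⟩ := hRC p hp2 A B Γ hA hκ e he hD k hchar ρbar.V ρbar.finrank_eq ρΓ
    (by
      intro U hU
      refine hirr U (fun σ hσ x hx => ?_)
      have := hU (π ⟨σ, hσ⟩) x hx
      rwa [hρΓ] at this)
    (by
      intro γ
      obtain ⟨σ, rfl⟩ := hπ γ
      rw [hρΓ]
      exact hsplit _)
    ζ hζ
    (by
      intro γ a hγ
      obtain ⟨σ, rfl⟩ := hπ γ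
      rw [hρΓ]
      exact hdet _ a (hcyc σ a hγ))
    d₁ d₂ (hcoc c₁ d₁ h₁ hd₁) (hcoc c₂ d₂ h₂ hd₂)
    (by
      intro γ
      obtain ⟨σ, rfl⟩ := hπ γ
      rw [hd₁]
      exact h₁.trace_eq_zero _)
    (by
      intro γ
      obtain ⟨σ, rfl⟩ := hπ γ
      rw [hd₂]
      exact h₂.trace_eq_zero _)
    (by
      intro γ h1 h2 h3
      obtain ⟨σ, rfl⟩ := hπ γ
      rw [hρΓ] at h1
      rw [hd₁] at h2
      rw [hd₂] at h3
      exact (hker σ).2 ⟨h1, h2, h3⟩)
  refine ⟨a₁, a₂, ha, m, fun σ hσ => ?_⟩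
  have := hm (π ⟨σ, hσ⟩)
  rw [hd₁, hd₂, hρΓ, ← map_inv, hρΓ] at this
  simpa using this

end Fermat.Agent.S56.FL

end

end
-- ===== PACK-END S56/FL/Glue.lean

-- ===== PACK-BEGIN S56/FL/LMSpec.lean
section


/-!
# Row S56 — wall W-FLAT-SS — `LocalModelStatement`: FROZEN inner interface
(architect helper434; blueprint `coord/S56-LOCALMODEL-helper434.md` on `origin/helper434`)

    LocalModelStatement ⇐ IntStatement + StructStatement + RootStatement     (glue: `FL/LMGlue.lean`)
    RootStatement       ⇐ RationalityStatement                                (`ℚ̄`-side, Galois theory)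

The model is the `ℚ̄`-side one: `A = P ∩ ℚ̄^{D_P}`, `B = P ∩ ℚ̄^{N}`, `N = {σ ∈ D_P | ρ̄ σ = 1, c₁ σ = 0,
c₂ σ = 0}`, `Γ = D_P / N`.  No completion is used anywhere.

* `levelSet ρbar c₁ c₂ P` — the underlying set of `B` inside `ℚ̄`.
* `IntStatement` (INT; Prelude language): `A`, `B` are discrete valuation rings with all the
  instances of `LocalModelStatement`, i.e. everything EXCEPT the different bound, together with an
  embedding `ι : B → ℚ̄` with range `levelSet`, equivariant for `π : D_P → Γ`.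
* `StructStatement` (STRUCT; pure algebra, Mathlib only): structure of a Galois extension `B/A`
  of discrete valuation rings with `𝔪_A = (p)`, `κ_A = 𝔽_p`: the inertia-fixed subring `B'` has
  uniformizer `p`, `B = B'[ϖ]` with `ϖ` a root of an Eisenstein polynomial `G` of degree `e`, and if
  `G + p X^j` has a root in `B` (`p ∤ j`, `0 < j < e`) then `𝔇_{B/A} ∣ (p) 𝔪_B^{j-1}`.
* `RootStatement` (ROOT; `ℚ̄`-side, the only place where flatness is used): for every Eisenstein
  presentation `levelSet = B'[ϖ]` as above and every `j` with `p ∤ j`, `0 < j < e < j (p - 1)`,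
  the polynomial `G + p X^j` has a root in `levelSet`.
* `RationalityStatement` (Theorem A; Mathlib only): the bridge-free lifting lemma in the form
  "an automorphism fixing the values of an approximate ring homomorphism `η` fixes all points".

Nothing unproved in this file.
-/

set_option autoImplicit false

open Polynomial IsLocalRing

noncomputable section

namespace Fermat.Agent.S56.FL

open Fermat.Agent.S56 Fermat.Agent.S56.H716

/-- The underlying set of `B = P ∩ ℚ̄^N`, `N = {σ ∈ D_P | ρ̄ σ = 1, c₁ σ = 0, c₂ σ = 0}`. -/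
def levelSet {k : Type} [Field k] (ρbar : ResidualGaloisRep k)
    (c₁ c₂ : GQ → Module.End k ρbar.V) (P : ValuationSubring Qb) : Set Qb :=
  {x | x ∈ P ∧ ∀ σ ∈ P.decompositionSubgroup ℚ,
    ρbar.ρ σ = 1 → c₁ σ = 0 → c₂ σ = 0 → σ x = x}

/-- **Theorem A** (bridge-free lifting lemma, rationality form; Mathlib only).
`Ω` an algebraically closed field with a rank-one valuation `v`, integral on the image of `R`;
`H` a finite free commutative cocommutative `R`-bialgebra all of whose `Ω`-points are killed by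
`p`; `T ⊆ Ω` a subring of integral elements containing the values of all points;
`η : T → Ω` a ring homomorphism modulo `p γ` with `γ^(p-1) < |p|`, isometric modulo `γ`.
Then every valuation-preserving endomorphism `σ` of `Ω` which fixes `R` and the values of `η`
fixes all points of `H`. -/
def RationalityStatement : Prop :=
  ∀ (Ω : Type) [Field Ω] [IsAlgClosed Ω] (Γ₀ : Type) [LinearOrderedCommGroupWithZero Γ₀]
    (v : Valuation Ω Γ₀),
    (∀ x y : Γ₀, x < 1 → y ≠ 0 → ∃ n : ℕ, x ^ n ≤ y) →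
    ∀ (R : Type) [CommRing R] [Algebra R Ω], (∀ r : R, v (algebraMap R Ω r) ≤ 1) →
    ∀ (H : Type) [CommRing H] [Bialgebra R H] [Coalgebra.IsCocomm R H]
      [Module.Free R H] [Module.Finite R H] [Finite (H →ₐ[R] Ω)]
      (p : ℕ), p.Prime →
      (∀ x : WithConv (H →ₐ[R] Ω), x ^ p = 1) →
      ∀ (γ : Γ₀), γ ≠ 0 → γ ^ (p - 1) < v (p : Ω) →
      ∀ (T : Subring Ω), (∀ a ∈ T, v a ≤ 1) → (∀ (x : H →ₐ[R] Ω) (h : H), x h ∈ T) →
      ∀ (η : Ω → Ω),
        (∀ a ∈ T, v (η a) ≤ 1) →
        (∀ a ∈ T, ∀ b ∈ T, v (η (a + b) - (η a + η b)) ≤ v (p : Ω) * γ) →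
        (∀ a ∈ T, ∀ b ∈ T, v (η (a * b) - η a * η b) ≤ v (p : Ω) * γ) →
        (∀ r : R, v (η (algebraMap R Ω r) - algebraMap R Ω r) ≤ v (p : Ω) * γ) →
        (∀ a ∈ T, v (η a) ≤ γ → v a ≤ γ) →
        ∀ (σ : Ω →+* Ω), (∀ a, v (σ a) = v a) →
          (∀ r : R, σ (algebraMap R Ω r) = algebraMap R Ω r) →
          (∀ a ∈ T, σ (η a) = η a) →
          ∀ (x : H →ₐ[R] Ω) (h : H), σ (x h) = x h

/-- **ROOT** (`ℚ̄`-side; uses flatness through `RationalityStatement`).  Given an Eisenstein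
presentation `levelSet = B'[ϖ]`, `G(ϖ) = 0`, every perturbation `G + p X^j` with `p ∤ j`,
`0 < j < e < j (p - 1)` has a root in `levelSet`. -/
def RootStatement : Prop :=
  ∀ (k : Type) [Field k] [Finite k] (p : ℕ) [Fact p.Prime], p ≠ 2 → CharP k p →
    ∀ (ρbar : ResidualGaloisRep k) (P : ValuationSubring Qb), P.LiesOverPrime p →
      ∀ (c₁ c₂ : GQ → Module.End k ρbar.V), IsAdCocycle ρbar c₁ → IsAdCocycle ρbar c₂ →
        ∀ (ρ₁ ρ₂ : GaloisRepAdic (DualNumber k)), IsLiftOf ρbar c₁ ρ₁ → IsLiftOf ρbar c₂ ρ₂ →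
          ρ₁.IsFlatAt p → ρ₂.IsFlatAt p →
          ∀ (B' : Subring Qb) (ϖ : Qb) (e : ℕ) (G : Qb[X]),
            (∀ x ∈ P, (∀ σ ∈ P.decompositionSubgroup ℚ, σ x = x) → x ∈ B') →
            (∀ b ∈ B', b ∈ levelSet ρbar c₁ c₂ P) →
            (∀ b ∈ B', b ≠ 0 → ∃ n : ℕ, P.valuation b = P.valuation (p : Qb) ^ n) →
            ϖ ∈ levelSet ρbar c₁ c₂ P →
            P.valuation ϖ ^ e = P.valuation (p : Qb) →
            (∀ b ∈ levelSet ρbar c₁ c₂ P,
              ∃ a : Fin e → Qb, (∀ i, a i ∈ B') ∧ b = ∑ i, a i * ϖ ^ (i : ℕ)) →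
            G.Monic → G.natDegree = e → (∀ i, G.coeff i ∈ B') →
            (∀ i < e, P.valuation (G.coeff i) ≤ P.valuation (p : Qb)) →
            P.valuation (G.coeff 0) = P.valuation (p : Qb) →
            G.eval ϖ = 0 →
            ∀ j : ℕ, ¬ p ∣ j → 0 < j → j < e → e < j * (p - 1) →
              ∃ ϖ' ∈ levelSet ρbar c₁ c₂ P, G.eval ϖ' + (p : Qb) * ϖ' ^ j = 0

/-- **STRUCT** (pure algebra, Mathlib only).  Structure of a Galois extension `B/A` of discrete
valuation rings of characteristic `0` with `𝔪_A = (p)` and residue field `𝔽_p`, and the different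
bound from a root of the perturbed Eisenstein polynomial. -/
def StructStatement : Prop :=
  ∀ (p : ℕ) [Fact p.Prime]
    (A B : Type) [CommRing A] [IsDomain A] [IsDiscreteValuationRing A]
    [CommRing B] [IsDomain B] [IsDiscreteValuationRing B] [CharZero B]
    [Algebra A B] [Module.Finite A B] [FaithfulSMul A B]
    (Γ : Type) [Group Γ] [Finite Γ] [MulSemiringAction Γ B] [SMulCommClass Γ A B]
    [Algebra.IsInvariant A B Γ] [FaithfulSMul Γ B],
    maximalIdeal A = Ideal.span {(p : A)} →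
    Nat.card (ResidueField A) = p →
    ∀ e : ℕ, Ideal.span {(p : B)} = maximalIdeal B ^ e →
    ∃ (B' : Subring B) (ϖ : B) (G : B[X]),
      (∀ a : A, algebraMap A B a ∈ B') ∧
      (∀ b ∈ B', b ≠ 0 → ∃ (n : ℕ) (u : B), u ∈ B' ∧ IsUnit u ∧ b = (p : B) ^ n * u) ∧
      maximalIdeal B = Ideal.span {ϖ} ∧
      (∀ b : B, ∃ a : Fin e → B, (∀ i, a i ∈ B') ∧ b = ∑ i, a i * ϖ ^ (i : ℕ)) ∧
      G.Monic ∧ G.natDegree = e ∧ (∀ i, G.coeff i ∈ B') ∧
      (∀ i < e, G.coeff i ∈ Ideal.span {(p : B)}) ∧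
      (∃ u : B, IsUnit u ∧ G.coeff 0 = (p : B) * u) ∧
      G.eval ϖ = 0 ∧
      ∀ j : ℕ, ¬ p ∣ j → 0 < j → j < e →
        (∃ ϖ' : B, G.eval ϖ' + (p : B) * ϖ' ^ j = 0) →
        differentIdeal A B ∣ Ideal.span {(p : B)} * maximalIdeal B ^ (j - 1)

/-- **INT** (`ℚ̄`-side, Prelude language).  Everything in `LocalModelStatement` except the
different bound, for the concrete model `A = P ∩ ℚ̄^{D_P}`, `B ≅ levelSet` (via `ι`), `Γ = D_P / N`. -/
def IntStatement : Prop :=
  ∀ (k : Type) [Field k] [Finite k] (p : ℕ) [Fact p.Prime], p ≠ 2 → CharP k p →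
    ∀ (ρbar : ResidualGaloisRep k),
      (∀ (σ : GQ) (a : ℕ), IsCycExp p σ a → LinearMap.det (ρbar.ρ σ) = (a : k)) →
      ∀ (P : ValuationSubring Qb), P.LiesOverPrime p →
        ∀ (c₁ c₂ : GQ → Module.End k ρbar.V), IsAdCocycle ρbar c₁ → IsAdCocycle ρbar c₂ →
          ∀ (ρ₁ ρ₂ : GaloisRepAdic (DualNumber k)), IsLiftOf ρbar c₁ ρ₁ → IsLiftOf ρbar c₂ ρ₂ →
            ρ₁.IsFlatAt p → ρ₂.IsFlatAt p →
            ∃ (A B : Type) (_ : CommRing A) (_ : IsDomain A) (_ : IsDiscreteValuationRing A)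
              (_ : CommRing B) (_ : IsDomain B) (_ : IsDiscreteValuationRing B) (_ : CharZero B)
              (_ : Algebra A B) (_ : Module.Finite A B) (_ : FaithfulSMul A B)
              (Γ : Type) (_ : Group Γ) (_ : Finite Γ) (_ : MulSemiringAction Γ B)
              (_ : SMulCommClass Γ A B) (_ : Algebra.IsInvariant A B Γ) (_ : FaithfulSMul Γ B)
              (π : P.decompositionSubgroup ℚ →* Γ) (ζ : B) (e : ℕ) (ι : B →+* Qb),
              Function.Surjective π ∧
              (∀ σ : P.decompositionSubgroup ℚ,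
                π σ = 1 ↔ (ρbar.ρ (σ : GQ) = 1 ∧ c₁ (σ : GQ) = 0 ∧ c₂ (σ : GQ) = 0)) ∧
              maximalIdeal A = Ideal.span {(p : A)} ∧
              Nat.card (ResidueField A) = p ∧
              IsPrimitiveRoot ζ p ∧
              (∀ (σ : P.decompositionSubgroup ℚ) (a : ℕ),
                π σ • ζ = ζ ^ a → IsCycExp p (σ : GQ) a) ∧
              Ideal.span {(p : B)} = maximalIdeal B ^ e ∧
              Function.Injective ι ∧
              Set.range ι = levelSet ρbar c₁ c₂ P ∧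
              ∀ (σ : P.decompositionSubgroup ℚ) (b : B), ι (π σ • b) = (σ : GQ) (ι b)

end Fermat.Agent.S56.FL

end

end
-- ===== PACK-END S56/FL/LMSpec.lean

-- ===== PACK-BEGIN S56/H176/FLDStruct.lean
section




/-!
# S56 / FL STRUCT, glue: the Eisenstein presentation over an unramified subring

`A ⊂ B₁ ⊂ B` discrete valuation rings of characteristic `0`, `B` finite over `A`, the residue
field of `A` finite, `𝔪_A = (p)`, `𝔪_{B₁} = (p)` (`B₁ / A` unramified), `B₁ → B` inducing an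
isomorphism of residue fields (`hres`), `(p) = 𝔪_B ^ e`.  Then for every uniformiser `ϖ` of `B`
with minimal polynomial `G` over `B₁`:

* `B = ⨁_{i<e} B₁ ϖ^i`, `G` is Eisenstein of degree `e`;
* if `G + p X^j` has a root in `B` (`p ∤ j`, `0 < j < e`) then
  `differentIdeal A B ∣ (p) 𝔪_B^(j-1)`.

`FLD_struct_glue` packages this in the shape of `FL.StructStatement` (with the subring
`B' = range (B₁ → B)`); only the construction of `B₁` (the inertia-fixed subring) is left to the
caller.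
-/

set_option autoImplicit false
set_option linter.unusedSectionVars false
set_option linter.style.haveILetI false

namespace Fermat.Agent.S56.H176

open IsDiscreteValuationRing Polynomial

attribute [local instance] FractionRing.liftAlgebra FractionRing.isScalarTower_liftAlgebra

/-- An integer prime to the residue characteristic is a unit. -/
theorem FLD_addVal_natCast_eq_zero {R : Type*} [CommRing R] [IsDomain R]
    [IsDiscreteValuationRing R] {p j : ℕ} (hp : p.Prime)
    (hpR : (p : R) ∈ IsLocalRing.maximalIdeal R) (hpj : ¬ p ∣ j) : addVal R (j : R) = 0 := by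
  rw [addVal_eq_zero_iff]
  have hcop : IsCoprime (p : ℤ) (j : ℤ) :=
    Nat.isCoprime_iff_coprime.mpr ((Nat.Prime.coprime_iff_not_dvd hp).mpr hpj)
  obtain ⟨a, b, hab⟩ := hcop
  have h1 : (b : R) * (j : R) = 1 - (a : R) * (p : R) := by
    have := congrArg (fun z : ℤ => (z : R)) hab
    simp only [Int.cast_add, Int.cast_mul, Int.cast_natCast, Int.cast_one] at this
    rw [← this]
    ring
  have h2 : IsUnit ((b : R) * (j : R)) := by
    rw [h1]
    apply IsLocalRing.isUnit_one_sub_self_of_mem_nonunits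
    exact Ideal.mul_mem_left _ _ hpR
  exact isUnit_of_mul_isUnit_right h2

section Struct

/-- The intermediate ring is finite over the base. -/
theorem FLD_struct_finite_bot (A B₁ B : Type*) [CommRing A] [IsDomain A]
    [IsDiscreteValuationRing A] [CommRing B₁] [CommRing B] [Algebra A B₁] [Algebra B₁ B]
    [Algebra A B] [IsScalarTower A B₁ B] [Module.Finite A B] [FaithfulSMul B₁ B] :
    Module.Finite A B₁ :=
  Module.Finite.of_injective (IsScalarTower.toAlgHom A B₁ B).toLinearMap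
    (FaithfulSMul.algebraMap_injective B₁ B)

/-- The intermediate ring contains the base. -/
theorem FLD_struct_faithful_bot (A B₁ B : Type*) [CommRing A] [CommRing B₁] [CommRing B]
    [Algebra A B₁] [Algebra B₁ B] [Algebra A B] [IsScalarTower A B₁ B] [FaithfulSMul A B] :
    FaithfulSMul A B₁ := by
  rw [faithfulSMul_iff_algebraMap_injective]
  intro x y hxy
  apply FaithfulSMul.algebraMap_injective A B
  rw [IsScalarTower.algebraMap_apply A B₁ B, hxy, ← IsScalarTower.algebraMap_apply A B₁ B]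

/-- The top ring is finite over the intermediate ring. -/
theorem FLD_struct_finite_top (A B₁ B : Type*) [CommRing A] [CommRing B₁] [CommRing B]
    [Algebra A B₁] [Algebra B₁ B] [Algebra A B] [IsScalarTower A B₁ B] [Module.Finite A B] :
    Module.Finite B₁ B :=
  Module.Finite.of_restrictScalars_finite A B₁ B

variable (p : ℕ) [Fact p.Prime]
  {A : Type*} [CommRing A] [IsDomain A] [IsDiscreteValuationRing A]
  {B₁ : Type*} [CommRing B₁] [IsDomain B₁] [IsDiscreteValuationRing B₁]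
  {B : Type*} [CommRing B] [IsDomain B] [IsDiscreteValuationRing B] [CharZero B]
  [Algebra A B₁] [Algebra B₁ B] [Algebra A B] [IsScalarTower A B₁ B]
  [Module.Finite A B] [FaithfulSMul A B] [FaithfulSMul B₁ B]

omit [Fact p.Prime] [CharZero B] [IsDomain B₁] [IsDiscreteValuationRing B₁] [FaithfulSMul B₁ B]
  [Module.Finite A B] [FaithfulSMul A B] [IsDomain A] [IsDiscreteValuationRing A] in
/-- `v_B(p) = e` if `(p) = 𝔪_B ^ e`. -/
theorem FLD_struct_addVal_p {e : ℕ}
    (he : Ideal.span {(p : B)} = IsLocalRing.maximalIdeal B ^ e) :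
    addVal B (p : B) = e := by
  obtain ⟨ϖ, hϖirr⟩ := exists_irreducible B
  have hmaxB := (irreducible_iff_uniformizer ϖ).mp hϖirr
  rw [hmaxB, Ideal.span_singleton_pow, Ideal.span_singleton_eq_span_singleton] at he
  rw [(addVal_eq_iff_associated _ _).mpr he, addVal_pow, addVal_uniformizer hϖirr]
  simp

/-- **STRUCT, glue.**  The Eisenstein presentation of `B` over an unramified intermediate
discrete valuation ring `B₁` with the same residue field as `B`, and the different bound from a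
root of the perturbed Eisenstein polynomial, in the shape of `FL.StructStatement`
(with `B' = range (B₁ → B)`). -/
theorem FLD_struct_glue [Finite (IsLocalRing.ResidueField A)]
    (hA : IsLocalRing.maximalIdeal A = Ideal.span {(p : A)})
    (hB₁ : IsLocalRing.maximalIdeal B₁ = Ideal.span {(p : B₁)})
    (hres : ∀ b : B, ∃ a : B₁, b - algebraMap B₁ B a ∈ IsLocalRing.maximalIdeal B)
    (e : ℕ) (he : Ideal.span {(p : B)} = IsLocalRing.maximalIdeal B ^ e) :
    ∃ (ϖ : B) (G : B[X]),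
      (∀ a : A, algebraMap A B a ∈ (algebraMap B₁ B).range) ∧
      (∀ b ∈ (algebraMap B₁ B).range, b ≠ 0 →
        ∃ (n : ℕ) (u : B), u ∈ (algebraMap B₁ B).range ∧ IsUnit u ∧ b = (p : B) ^ n * u) ∧
      IsLocalRing.maximalIdeal B = Ideal.span {ϖ} ∧
      (∀ b : B, ∃ a : Fin e → B, (∀ i, a i ∈ (algebraMap B₁ B).range) ∧
        b = ∑ i, a i * ϖ ^ (i : ℕ)) ∧
      G.Monic ∧ G.natDegree = e ∧ (∀ i, G.coeff i ∈ (algebraMap B₁ B).range) ∧
      (∀ i < e, G.coeff i ∈ Ideal.span {(p : B)}) ∧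
      (∃ u : B, IsUnit u ∧ G.coeff 0 = (p : B) * u) ∧
      G.eval ϖ = 0 ∧
      ∀ j : ℕ, ¬ p ∣ j → 0 < j → j < e →
        (∃ ϖ' : B, G.eval ϖ' + (p : B) * ϖ' ^ j = 0) →
        differentIdeal A B ∣ Ideal.span {(p : B)} * IsLocalRing.maximalIdeal B ^ (j - 1) := by
  haveI := FLD_struct_finite_bot A B₁ B
  haveI := FLD_struct_faithful_bot A B₁ B
  haveI := FLD_struct_finite_top A B₁ B
  haveI : CharZero A := (algebraMap A B).charZero
  haveI : CharZero B₁ := (algebraMap B₁ B).charZero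
  haveI := FLD_finiteDimensional_frac B₁ B
  haveI := FLD_isSeparable_frac B₁ B
  have hp : p.Prime := Fact.out
  obtain ⟨ϖ, hϖirr⟩ := exists_irreducible B
  have hϖ := addVal_uniformizer hϖirr
  have hmaxB := (irreducible_iff_uniformizer ϖ).mp hϖirr
  have hpirr : Irreducible (p : B₁) := (irreducible_iff_uniformizer _).mpr hB₁
  have hpB₁ : addVal B₁ (p : B₁) = 1 := addVal_uniformizer hpirr
  have hpB : addVal B (p : B) = e := FLD_struct_addVal_p p he
  -- total ramification
  have hram := FLD_tot_hram (A' := B₁) (B := B) hres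
  have hne : Module.finrank (FractionRing B₁) (FractionRing B) = e := by
    have h1 := hram (p : B₁)
    rw [map_natCast, hpB, hpB₁, nsmul_one] at h1
    exact_mod_cast h1.symm
  rw [hne] at hram
  have hunr : IsLocalRing.maximalIdeal B₁ =
      (IsLocalRing.maximalIdeal A).map (algebraMap A B₁) := by
    rw [hA, Ideal.map_span, Set.image_singleton, map_natCast, hB₁]
  have hdiff := FLD_unr_differentIdeal_eq (A := A) hunr hres hϖ
  have hdeg : (minpoly B₁ ϖ).natDegree = e := by
    rw [← hne]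
    exact FLD_natDegree_minpoly B₁ (FractionRing B₁) (FractionRing B) B (hne ▸ hram) hϖ
  have hint : IsIntegral B₁ ϖ := Algebra.IsIntegral.isIntegral ϖ
  have hmonic : (minpoly B₁ ϖ).Monic := minpoly.monic hint
  refine ⟨ϖ, (minpoly B₁ ϖ).map (algebraMap B₁ B), ?_, ?_, hmaxB, ?_, hmonic.map _, ?_, ?_, ?_,
    ?_, ?_, ?_⟩
  · intro a
    exact ⟨algebraMap A B₁ a, (IsScalarTower.algebraMap_apply A B₁ B a).symm⟩
  · rintro _ ⟨b, rfl⟩ hb
    have hb0 : b ≠ 0 := fun h => hb (by rw [h, map_zero])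
    obtain ⟨n, u, hu⟩ := eq_unit_mul_pow_irreducible hb0 hpirr
    refine ⟨n, algebraMap B₁ B u, ⟨u, rfl⟩, u.isUnit.map _, ?_⟩
    rw [hu, map_mul, map_pow, map_natCast, mul_comm]
  · intro b
    have hb : b ∈ Submodule.span B₁ (Set.range fun j : Fin e => ϖ ^ (j : ℕ)) := by
      rw [FLD_tot_span hres hram hϖ]
      trivial
    obtain ⟨c, hc⟩ := (Submodule.mem_span_range_iff_exists_fun B₁).mp hb
    refine ⟨fun i => algebraMap B₁ B (c i), fun i => ⟨c i, rfl⟩, ?_⟩
    rw [← hc]
    refine Finset.sum_congr rfl fun i _ => ?_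
    rw [Algebra.smul_def]
  · rw [hmonic.natDegree_map, hdeg]
  · intro i
    rw [coeff_map]
    exact ⟨_, rfl⟩
  · intro i hi
    have h1 := FLD_minpoly_coeff_ge B₁ (FractionRing B₁) (FractionRing B) B (hne ▸ hram) hϖ
      (j := i) (by rw [hne]; exact hi)
    rw [← hpB₁, addVal_le_iff_dvd] at h1
    obtain ⟨c, hc⟩ := h1
    rw [coeff_map, hc, map_mul, map_natCast, Ideal.mem_span_singleton]
    exact ⟨_, rfl⟩
  · have h1 := FLD_minpoly_coeff_zero B₁ (FractionRing B₁) (FractionRing B) B (hne ▸ hram) hϖ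
    rw [← hpB₁, addVal_eq_iff_associated] at h1
    obtain ⟨u, hu⟩ := h1.symm
    refine ⟨algebraMap B₁ B u, u.isUnit.map _, ?_⟩
    rw [coeff_map, ← hu, map_mul, map_natCast]
  · rw [eval_map_algebraMap, minpoly.aeval]
  · intro j hpj hj0 hje ⟨ϖ', hϖ'⟩
    have hroot : aeval ϖ' (minpoly B₁ ϖ + C (p : B₁) * X ^ j) = 0 := by
      rw [map_add, map_mul, map_pow, aeval_X, aeval_C, map_natCast, ← eval_map_algebraMap]
      exact hϖ'
    have hku : addVal B₁ (j : B₁) = 0 := by
      apply FLD_addVal_natCast_eq_zero hp _ hpj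
      rw [hB₁]
      exact Ideal.subset_span rfl
    have hbound := FLD_addVal_deriv_le_of_root B₁ (FractionRing B₁) (FractionRing B) B
      (hne ▸ hram) hϖ (p : B₁) (by rw [hpB₁]) (k := j) hj0 (by rw [hne]; exact hje) hku ϖ' hroot
    rw [hne, hpB₁, nsmul_one] at hbound
    have hdvd : aeval ϖ (derivative (minpoly B₁ ϖ)) ∣ ϖ ^ (e + (j - 1)) := by
      rw [← addVal_le_iff_dvd, addVal_pow, hϖ, nsmul_one]
      refine hbound.trans (le_of_eq ?_)
      push_cast
      rfl
    rw [hdiff, he, ← pow_add, hmaxB, Ideal.span_singleton_pow]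
    exact (Ideal.span_singleton_dvd_span_singleton_iff_dvd).mpr hdvd

end Struct

end Fermat.Agent.S56.H176

end
-- ===== PACK-END S56/H176/FLDStruct.lean

-- ===== PACK-BEGIN S56/H726/Inner.lean
section


/-!
# S56 / P3(b) — from `tr Ψ = 0` on `H` to a coboundary (helper726)

(V) if `f = tr Ψ` vanishes on `H`, then `Ψ|_H` extends to a derivation of `M₂(k)`, which is
inner; (VI) a cocycle vanishing on `H` vanishes.
-/

set_option autoImplicit false

namespace Fermat.Agent.S56.H726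

open Matrix

namespace TwData

variable {k : Type*} [Field k] {G : Type*} [Group G] (D : TwData k G)

/-- Antisymmetry of the pairing `tr (Ψ σ * ρ τ)` when `f` vanishes on `H`. -/
theorem trace_ρ_mul_Ψ (hf : ∀ σ ∈ D.H, (D.Ψ σ).trace = 0) {σ τ : G} (hσ : σ ∈ D.H)
    (hτ : τ ∈ D.H) : (D.ρ σ * D.Ψ τ).trace = -(D.Ψ σ * D.ρ τ).trace := by
  have h := hf (σ * τ) (D.H.mul_mem hσ hτ)
  rw [D.Ψ_mul, D.det_H σ hσ, one_smul, Matrix.trace_add] at h
  linear_combination h

/-- (V), first step: a linear map `Dv` with `Dv (ρ σ) = Ψ σ` on `H`. -/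
theorem exists_linear (hf : ∀ σ ∈ D.H, (D.Ψ σ).trace = 0) :
    ∃ Dv : Matrix (Fin 2) (Fin 2) k →ₗ[k] Matrix (Fin 2) (Fin 2) k,
      ∀ σ ∈ D.H, Dv (D.ρ σ) = D.Ψ σ := by
  classical
  obtain ⟨b, hbs, hspan, hli⟩ := exists_linearIndependent k (D.ρ '' (D.H : Set G))
  have hsp : ⊤ ≤ Submodule.span k (Set.range (Subtype.val : b → Matrix (Fin 2) (Fin 2) k)) := by
    rw [Subtype.range_coe, hspan, D.span]
  let B := Module.Basis.mk hli hsp
  have hsel : ∀ x : b, ∃ σ : G, σ ∈ D.H ∧ D.ρ σ = x := fun x => hbs x.2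
  choose sel hselH hselρ using hsel
  let Dv : Matrix (Fin 2) (Fin 2) k →ₗ[k] Matrix (Fin 2) (Fin 2) k :=
    B.constr k (fun x : b => D.Ψ (sel x))
  have hDvB : ∀ x : b, Dv (x : Matrix (Fin 2) (Fin 2) k) = D.Ψ (sel x) := by
    intro x
    have : B x = (x : Matrix (Fin 2) (Fin 2) k) := by simp [B]
    rw [← this]
    exact B.constr_basis k _ x
  refine ⟨Dv, fun σ hσ => ?_⟩
  rw [← sub_eq_zero]
  apply D.eq_zero_of_trace_ρ_mul
  intro τ hτ
  -- two functionals agreeing on the basis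
  set L₁ : Matrix (Fin 2) (Fin 2) k →ₗ[k] k :=
    ((Matrix.traceLinearMap (Fin 2) k k).comp (LinearMap.mulLeft k (D.ρ τ))).comp Dv with hL₁
  set L₂ : Matrix (Fin 2) (Fin 2) k →ₗ[k] k :=
    -((Matrix.traceLinearMap (Fin 2) k k).comp (LinearMap.mulLeft k (D.Ψ τ))) with hL₂
  have hL : L₁ = L₂ := by
    apply B.ext
    intro x
    have hx : B x = (x : Matrix (Fin 2) (Fin 2) k) := by simp [B]
    rw [hx]
    show (D.ρ τ * Dv (x : Matrix (Fin 2) (Fin 2) k)).trace = -(D.Ψ τ * x).trace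
    rw [hDvB, D.trace_ρ_mul_Ψ hf hτ (hselH x), hselρ]
  have h1 : (D.ρ τ * Dv (D.ρ σ)).trace = -(D.Ψ τ * D.ρ σ).trace := by
    have := congrArg (fun L => L (D.ρ σ)) hL
    exact this
  rw [mul_sub, Matrix.trace_sub, h1, D.trace_ρ_mul_Ψ hf hτ hσ]
  ring

/-- (V): `Ψ` restricted to `H` is inner. -/
theorem exists_inner_on_H (hf : ∀ σ ∈ D.H, (D.Ψ σ).trace = 0) :
    ∃ m : Matrix (Fin 2) (Fin 2) k, ∀ σ ∈ D.H, D.Ψ σ = m * D.ρ σ - D.ρ σ * m := by
  obtain ⟨Dv, hDv⟩ := D.exists_linear hf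
  have step1 : ∀ σ ∈ D.H, ∀ Y, Dv (D.ρ σ * Y) = D.Ψ σ * Y + D.ρ σ * Dv Y := by
    intro σ hσ Y
    have hY : Y ∈ Submodule.span k (D.ρ '' (D.H : Set G)) := by rw [D.span]; trivial
    induction hY using Submodule.span_induction with
    | mem Y hY =>
      obtain ⟨τ, hτ, rfl⟩ := hY
      rw [← map_mul, hDv _ (D.H.mul_mem hσ hτ), hDv τ hτ, D.Ψ_mul, D.det_H σ hσ, one_smul]
    | zero => simp
    | add x y _ _ hx hy =>
      rw [mul_add, map_add, hx, hy, map_add, mul_add, mul_add]; abel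
    | smul a x _ hx =>
      rw [Matrix.mul_smul, map_smul, hx, map_smul, Matrix.mul_smul, Matrix.mul_smul, smul_add]
  have step2 : ∀ X Y, Dv (X * Y) = Dv X * Y + X * Dv Y := by
    intro X Y
    have hX : X ∈ Submodule.span k (D.ρ '' (D.H : Set G)) := by rw [D.span]; trivial
    induction hX using Submodule.span_induction with
    | mem X hX =>
      obtain ⟨σ, hσ, rfl⟩ := hX
      rw [step1 σ hσ, hDv σ hσ]
    | zero => simp
    | add x y _ _ hx hy =>
      rw [add_mul, map_add, hx, hy, map_add, add_mul, add_mul]; abel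
    | smul a x _ hx =>
      rw [Matrix.smul_mul, map_smul, hx, map_smul, Matrix.smul_mul, Matrix.smul_mul, smul_add]
  obtain ⟨m, hm⟩ := m2_inner_of_derivation Dv step2
  exact ⟨m, fun σ hσ => by rw [← hDv σ hσ, hm]⟩

/-- (VI): a cocycle (in `Ψ`-form) which vanishes on `H` vanishes. -/
theorem eq_zero_of_vanish_on_H (h2 : (2 : k) ≠ 0) (Φ : G → Matrix (Fin 2) (Fin 2) k)
    (hΦ : ∀ g h, Φ (g * h) = Φ g * D.ρ h + (D.ρ g).det • (D.ρ g * Φ h))
    (htr : ∀ g, (Φ g * D.ρ g⁻¹).trace = 0)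
    (hH : ∀ h ∈ D.H, Φ h = 0) (g : G) : Φ g = 0 := by
  have key : ∀ h ∈ D.H, (D.ρ g⁻¹ * Φ g) * D.ρ h = D.ρ h * (D.ρ g⁻¹ * Φ g) := by
    intro h hh
    have hc : g * h * g⁻¹ ∈ D.H := D.normal.conj_mem h hh g
    have e1 := hΦ g h
    rw [hH h hh, mul_zero, smul_zero, add_zero] at e1
    have e2 := hΦ (g * h * g⁻¹) g
    rw [hH _ hc, zero_mul, zero_add, D.det_H _ hc, one_smul, inv_mul_cancel_right, D.ρ_conj]
      at e2
    rw [e1] at e2
    -- e2 : Φ g * ρ h = ρ g * ρ h * ρ g⁻¹ * Φ g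
    rw [mul_assoc, e2]
    have : D.ρ g⁻¹ * (D.ρ g * D.ρ h * D.ρ g⁻¹ * Φ g) =
        (D.ρ g⁻¹ * D.ρ g) * D.ρ h * (D.ρ g⁻¹ * Φ g) := by noncomm_ring
    rw [this, D.ρ_inv_mul, one_mul]
  have hY := m2_eq_zero_of_commute h2 (D.commute_of_commute_ρ key)
    (by rw [Matrix.trace_mul_comm]; exact htr g)
  calc Φ g = (D.ρ g * D.ρ g⁻¹) * Φ g := by rw [D.ρ_mul_inv, one_mul]
    _ = D.ρ g * (D.ρ g⁻¹ * Φ g) := by rw [mul_assoc]
    _ = 0 := by rw [hY, mul_zero]

/-- **The cocycle is a coboundary** (`Ψ`-form). -/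
theorem exists_coboundary [Finite k] (p : ℕ) [Fact p.Prime] [CharP k p] (hp2 : p ≠ 2)
    (h5 : p = 5 → ∃ g : G, (D.ρ g).det ≠ 1 ∧ (D.ρ g).det ≠ -1) :
    ∃ m : Matrix (Fin 2) (Fin 2) k, m.trace = 0 ∧
      ∀ g, D.Ψ g = (D.ρ g).det • (D.ρ g * m) - m * D.ρ g := by
  have hpr : p.Prime := Fact.out
  have h2 : (2 : k) ≠ 0 := by
    have := natCast_ne_zero_of_lt (k := k) p (n := 2) (by norm_num)
      (lt_of_le_of_ne hpr.two_le (Ne.symm hp2))
    exact_mod_cast this
  have hf := D.f_eq_zero p hp2 h5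
  obtain ⟨m₀, hm₀⟩ := D.exists_inner_on_H hf
  -- normalise the trace
  set m : Matrix (Fin 2) (Fin 2) k := (m₀.trace / 2) • (1 : Matrix (Fin 2) (Fin 2) k) - m₀
    with hm
  have hmtr : m.trace = 0 := by
    rw [hm, Matrix.trace_sub, Matrix.trace_smul, Matrix.trace_one, Fintype.card_fin,
      smul_eq_mul]
    push_cast
    field_simp
    ring
  refine ⟨m, hmtr, fun g => ?_⟩
  rw [← sub_eq_zero]
  refine D.eq_zero_of_vanish_on_H h2
    (fun g => D.Ψ g - ((D.ρ g).det • (D.ρ g * m) - m * D.ρ g)) ?_ ?_ ?_ g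
  · intro g h
    rw [D.Ψ_mul, map_mul, Matrix.det_mul]
    simp only [sub_mul, mul_sub, smul_sub, Matrix.smul_mul, Matrix.mul_smul, mul_assoc,
      smul_smul]
    rw [mul_comm (D.ρ g).det (D.ρ h).det]
    abel
  · intro g
    rw [sub_mul, sub_mul, Matrix.trace_sub, Matrix.trace_sub, D.tr_zero, Matrix.smul_mul,
      Matrix.trace_smul, mul_assoc m, D.ρ_mul_inv, mul_one, hmtr,
      Matrix.trace_mul_comm (D.ρ g * m), ← mul_assoc, D.ρ_inv_mul, one_mul, hmtr]
    simp
  · intro h hh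
    rw [hm₀ h hh, D.det_H h hh, one_smul, hm]
    simp only [mul_sub, sub_mul, Matrix.mul_smul, Matrix.smul_mul, mul_one, one_mul]
    abel

end TwData

/-- **`H¹` vanishing, cocycle form.**  `k` a finite field of odd characteristic `p`,
`ρ : G →* M₂(k)`, `H ⊴ G` with `det ρ = 1` on `H` and `ρ(H)` spanning `M₂(k)`, eigenvalues of
`ρ(h)`, `h ∈ H`, in `k`; if `p = 5` assume `det ρ(g) ≠ ±1` for some `g`.  Then every cocycle
`ψ : G → sl₂(k)` for the twisted adjoint action `g · X = det ρ(g) ρ(g) X ρ(g)⁻¹` which vanishes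
on `H ∩ ker ρ` is a coboundary. -/
theorem h1_vanishing {k : Type*} [Field k] [Finite k] {G : Type*} [Group G]
    (p : ℕ) [Fact p.Prime] [CharP k p] (hp2 : p ≠ 2)
    (ρ : G →* Matrix (Fin 2) (Fin 2) k) (H : Subgroup G) (hH : H.Normal)
    (hdet : ∀ h ∈ H, (ρ h).det = 1)
    (hspan : Submodule.span k (ρ '' (H : Set G)) = ⊤)
    (hsplit : ∀ h ∈ H, ∃ α β : k, (ρ h).trace = α + β ∧ α * β = 1)
    (h5 : p = 5 → ∃ g : G, (ρ g).det ≠ 1 ∧ (ρ g).det ≠ -1)
    (ψ : G → Matrix (Fin 2) (Fin 2) k)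
    (hψtr : ∀ g, (ψ g).trace = 0)
    (hψ : ∀ g h, ψ (g * h) = ψ g + (ρ g).det • (ρ g * ψ h * ρ g⁻¹))
    (hN : ∀ h ∈ H, ρ h = 1 → ψ h = 0) :
    ∃ m : Matrix (Fin 2) (Fin 2) k, m.trace = 0 ∧
      ∀ g, ψ g = (ρ g).det • (ρ g * m * ρ g⁻¹) - m := by
  have hinv : ∀ g, ρ g * ρ g⁻¹ = 1 := fun g => by rw [← map_mul, mul_inv_cancel, map_one]
  have hinv' : ∀ g, ρ g⁻¹ * ρ g = 1 := fun g => by rw [← map_mul, inv_mul_cancel, map_one]
  let D : TwData k G :=
    { ρ := ρ
      Ψ := fun g => ψ g * ρ g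
      H := H
      normal := hH
      det_H := hdet
      Ψ_mul := fun g h => by
        have e1 : ψ g * (ρ g * ρ h) = ψ g * ρ g * ρ h := (mul_assoc _ _ _).symm
        have e2 : ρ g * ψ h * ρ g⁻¹ * (ρ g * ρ h) = ρ g * (ψ h * ρ h) := by
          have : ρ g * ψ h * ρ g⁻¹ * (ρ g * ρ h) = ρ g * ψ h * (ρ g⁻¹ * ρ g) * ρ h := by
            noncomm_ring
          rw [this, hinv', mul_one, mul_assoc]
        rw [hψ, map_mul, add_mul, Matrix.smul_mul, e1, e2]
      tr_zero := fun g => by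
        rw [mul_assoc, hinv, mul_one]
        exact hψtr g
      Ψ_N := fun h hh h1 => by
        rw [hN h hh h1, zero_mul]
      span := hspan
      split := hsplit }
  obtain ⟨m, hm, hcob⟩ := D.exists_coboundary p hp2 h5
  refine ⟨m, hm, fun g => ?_⟩
  have h := hcob g
  have e : ψ g = (ψ g * ρ g) * ρ g⁻¹ := by rw [mul_assoc, hinv, mul_one]
  rw [e]
  change ψ g * ρ g = (ρ g).det • (ρ g * m) - m * ρ g at h
  rw [h, sub_mul, Matrix.smul_mul, mul_assoc m, hinv, mul_one]

end Fermat.Agent.S56.H726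

end
-- ===== PACK-END S56/H726/Inner.lean

-- ===== PACK-BEGIN S59/Arch/WilesLevel.lean
section


/-!
# Row S59 — arithmetic of Wiles's level `N_Σ` (helper239)
-/

set_option autoImplicit false

namespace Fermat.Agent.S59.Arch

open Finset

section

variable {p : ℕ} (hp : p.Prime) {t : PType} {Smin Sig : Finset ℕ}
  (hSmin : ∀ q ∈ Smin, q.Prime) (hSig : ∀ q ∈ Sig, q.Prime)

/-- the factor at `p` -/
def pFactor (p : ℕ) (t : PType) : ℕ :=
  match t with
  | .flat => 1
  | .sord => p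
  | .ord => p

theorem wilesLevel_eq (p : ℕ) (t : PType) (Smin Sig : Finset ℕ) :
    wilesLevel p t Smin Sig =
      (∏ q ∈ Smin.erase p, q) * (∏ q ∈ Sig \ Smin, q ^ 2) * pFactor p t := by
  cases t <;> rfl

include hp in
theorem pFactor_ne_zero (t : PType) : pFactor p t ≠ 0 := by
  cases t
  · exact one_ne_zero
  · exact hp.ne_zero
  · exact hp.ne_zero

include hSmin in
theorem prodA_ne_zero : (∏ q ∈ Smin.erase p, q) ≠ 0 :=
  Finset.prod_ne_zero_iff.mpr fun q hq => (hSmin q (Finset.mem_of_mem_erase hq)).ne_zero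

include hSig in
theorem prodB_ne_zero : (∏ q ∈ Sig \ Smin, q ^ 2) ≠ 0 :=
  Finset.prod_ne_zero_iff.mpr fun q hq =>
    pow_ne_zero 2 (hSig q (Finset.mem_sdiff.mp hq).1).ne_zero

include hp hSmin hSig in
theorem wilesLevel_ne_zero : wilesLevel p t Smin Sig ≠ 0 := by
  rw [wilesLevel_eq]
  exact mul_ne_zero (mul_ne_zero (prodA_ne_zero hSmin) (prodB_ne_zero hSig))
    (pFactor_ne_zero hp t)

include hSmin in
theorem factorization_prodA (r : ℕ) :
    (∏ q ∈ Smin.erase p, q).factorization r = if r ∈ Smin.erase p then 1 else 0 := by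
  classical
  rw [Nat.factorization_prod (fun q hq => (hSmin q (Finset.mem_of_mem_erase hq)).ne_zero),
    Finsupp.finsetSum_apply]
  have : ∀ q ∈ Smin.erase p, (q.factorization r) = if q = r then 1 else 0 := by
    intro q hq
    rw [(hSmin q (Finset.mem_of_mem_erase hq)).factorization, Finsupp.single_apply]
  rw [Finset.sum_congr rfl this, Finset.sum_ite_eq']

include hSig in
theorem factorization_prodB (r : ℕ) :
    (∏ q ∈ Sig \ Smin, q ^ 2).factorization r = if r ∈ Sig \ Smin then 2 else 0 := by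
  classical
  rw [Nat.factorization_prod (fun q hq =>
      pow_ne_zero 2 (hSig q (Finset.mem_sdiff.mp hq).1).ne_zero),
    Finsupp.finsetSum_apply]
  have : ∀ q ∈ Sig \ Smin, ((q ^ 2).factorization r) = if q = r then 2 else 0 := by
    intro q hq
    rw [Nat.factorization_pow, (hSig q (Finset.mem_sdiff.mp hq).1).factorization,
      Finsupp.smul_apply, Finsupp.single_apply]
    split_ifs <;> simp
  rw [Finset.sum_congr rfl this, Finset.sum_ite_eq']

include hp in
theorem factorization_pFactor (t : PType) (r : ℕ) :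
    (pFactor p t).factorization r = if t ≠ .flat ∧ r = p then 1 else 0 := by
  cases t
  · simp [pFactor]
  · simp only [pFactor, hp.factorization, Finsupp.single_apply, ne_eq, reduceCtorEq,
      not_false_eq_true, true_and]
    split_ifs with h1 h2 h2
    · rfl
    · exact absurd h1.symm h2
    · exact absurd h2.symm h1
    · rfl
  · simp only [pFactor, hp.factorization, Finsupp.single_apply, ne_eq, reduceCtorEq,
      not_false_eq_true, true_and]
    split_ifs with h1 h2 h2
    · rfl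
    · exact absurd h1.symm h2
    · exact absurd h2.symm h1
    · rfl

include hp hSmin hSig in
theorem factorization_wilesLevel (r : ℕ) :
    (wilesLevel p t Smin Sig).factorization r =
      (if r ∈ Smin.erase p then 1 else 0) + (if r ∈ Sig \ Smin then 2 else 0) +
        (if t ≠ .flat ∧ r = p then 1 else 0) := by
  rw [wilesLevel_eq, Nat.factorization_mul
      (mul_ne_zero (prodA_ne_zero hSmin) (prodB_ne_zero hSig)) (pFactor_ne_zero hp t),
    Nat.factorization_mul (prodA_ne_zero hSmin) (prodB_ne_zero hSig)]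
  simp only [Finsupp.add_apply]
  rw [factorization_prodA hSmin, factorization_prodB hSig, factorization_pFactor hp]

include hp hSmin hSig in
/-- `p² ∤ N_Σ`. -/
theorem not_sq_dvd_wilesLevel (hpS : p ∈ Smin) : ¬ p ^ 2 ∣ wilesLevel p t Smin Sig := by
  intro h
  have h2 := (hp.pow_dvd_iff_le_factorization (wilesLevel_ne_zero hp hSmin hSig)).mp h
  rw [factorization_wilesLevel hp hSmin hSig] at h2
  have h1 : p ∉ Smin.erase p := Finset.notMem_erase p Smin
  have h3 : p ∉ Sig \ Smin := fun hh => (Finset.mem_sdiff.mp hh).2 hpS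
  rw [if_neg h1, if_neg h3] at h2
  split_ifs at h2 <;> omega

include hp hSmin hSig in
/-- `N_Σ` is cube-free. -/
theorem not_cube_dvd_wilesLevel (hpS : p ∈ Smin) (q : ℕ) (hq : q.Prime) :
    ¬ q ^ 3 ∣ wilesLevel p t Smin Sig := by
  intro h
  have h2 := (hq.pow_dvd_iff_le_factorization (wilesLevel_ne_zero hp hSmin hSig)).mp h
  rw [factorization_wilesLevel hp hSmin hSig] at h2
  by_cases h1 : q ∈ Smin.erase p
  · have h3 : q ∉ Sig \ Smin := fun hh =>
      (Finset.mem_sdiff.mp hh).2 (Finset.mem_of_mem_erase h1)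
    have h4 : ¬ (t ≠ .flat ∧ q = p) := fun hh => (Finset.ne_of_mem_erase h1) hh.2
    rw [if_pos h1, if_neg h3, if_neg h4] at h2
    omega
  · rw [if_neg h1] at h2
    by_cases h3 : q ∈ Sig \ Smin
    · have h4 : ¬ (t ≠ .flat ∧ q = p) := by
        rintro ⟨-, rfl⟩
        exact (Finset.mem_sdiff.mp h3).2 hpS
      rw [if_pos h3, if_neg h4] at h2
      omega
    · rw [if_neg h3] at h2
      split_ifs at h2 <;> omega

include hp hSmin hSig in
/-- the primes dividing `N_Σ` lie in `Σ` -/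
theorem mem_of_prime_dvd_wilesLevel (hpS : p ∈ Smin) (hsub : Smin ⊆ Sig) (q : ℕ) (hq : q.Prime)
    (h : q ∣ wilesLevel p t Smin Sig) : q ∈ Sig := by
  have h2 : 1 ≤ (wilesLevel p t Smin Sig).factorization q := by
    have := (hq.pow_dvd_iff_le_factorization (wilesLevel_ne_zero hp hSmin hSig) (k := 1)).mp
      (by simpa using h)
    exact this
  rw [factorization_wilesLevel hp hSmin hSig] at h2
  by_cases h1 : q ∈ Smin.erase p
  · exact hsub (Finset.mem_of_mem_erase h1)
  · rw [if_neg h1] at h2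
    by_cases h3 : q ∈ Sig \ Smin
    · exact (Finset.mem_sdiff.mp h3).1
    · rw [if_neg h3] at h2
      by_cases h4 : t ≠ .flat ∧ q = p
      · rw [h4.2]
        exact hsub hpS
      · rw [if_neg h4] at h2
        omega

include hp hSmin hSig in
/-- the primes of `Σ` different from `p` divide `N_Σ` -/
theorem dvd_wilesLevel_of_mem (q : ℕ) (hqS : q ∈ Sig) (hqp : q ≠ p) :
    q ∣ wilesLevel p t Smin Sig := by
  have hq : q.Prime := hSig q hqS
  have h2 : 1 ≤ (wilesLevel p t Smin Sig).factorization q := by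
    rw [factorization_wilesLevel hp hSmin hSig]
    by_cases h1 : q ∈ Smin
    · rw [if_pos (Finset.mem_erase.mpr ⟨hqp, h1⟩)]
      omega
    · rw [if_pos (Finset.mem_sdiff.mpr ⟨hqS, h1⟩)]
      omega
  have := (hq.pow_dvd_iff_le_factorization (wilesLevel_ne_zero hp hSmin hSig) (k := 1)).mpr h2
  simpa using this

include hp in
/-- `p ∣ N_Σ` if the type is not flat -/
theorem dvd_wilesLevel_of_ne_flat (ht : t ≠ .flat) : p ∣ wilesLevel p t Smin Sig := by
  rw [wilesLevel_eq]
  refine Dvd.dvd.mul_left ?_ _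
  cases t
  · exact absurd rfl ht
  · exact dvd_rfl
  · exact dvd_rfl

end

end Fermat.Agent.S59.Arch

end
-- ===== PACK-END S59/Arch/WilesLevel.lean

-- ===== PACK-BEGIN S59/H659/Pointwise.lean
section


/-!
# S59, piece G3 (helper659): the unramified and the unipotent conditions

`isCoreCond_isUnramifiedAt q` and `isCoreCond_isUnipotentOnInertiaAt q`.
-/

set_option autoImplicit false
set_option linter.unusedSectionVars false
set_option linter.style.haveILetI false

namespace Fermat.Agent.S59.H659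

open Fermat.Agent.S53 Fermat.Agent.S56.H966 IsLocalRing Polynomial

/-- Being unramified at `q` is a deformation condition. -/
theorem isCoreCond_isUnramifiedAt (q : ℕ) :
    IsCoreCond (fun _A _ _ ρ => ρ.IsUnramifiedAt q) where
  of_isEquiv := fun _ _ _ _ _ he h => isUnramifiedAt_of_isEquiv he h
  baseChangeAlong := fun _ _ _ _ _ _ φ hφ _ h => isUnramifiedAt_baseChangeAlong φ hφ h
  of_fibre := by
    intro P A B _ _ _ _ _ _ _ _ _ pA pB hpA hpB hinj r hr hA hB 𝔓 h𝔓 σ hσ
    rw [toAdic_rho_eq_one_iff]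
    have h1 := (toAdic_rho_eq_one_iff _ _ σ).mp (hA 𝔓 h𝔓 σ hσ)
    have h2 := (toAdic_rho_eq_one_iff _ _ σ).mp (hB 𝔓 h𝔓 σ hσ)
    rw [mapRep_apply] at h1 h2
    refine mat_eq_of_fibre pA pB hinj ?_ ?_
    · rw [h1]; simp
    · rw [h2]; simp
  of_quotients := by
    intro A _ _ _ _ r hr h 𝔓 h𝔓 σ hσ
    rw [toAdic_rho_eq_one_iff]
    refine mat_eq_of_quotients fun n hn => ?_
    have hloc : IsLocalRing (A ⧸ maximalIdeal A ^ n) :=
      isLocalRing_quotient _ (maximalIdeal_pow_ne_top n hn)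
    have hq : IsLocalHom (Ideal.Quotient.mk (maximalIdeal A ^ n)) :=
      IsLocalHom.of_surjective _ Ideal.Quotient.mk_surjective
    have h1 := (@toAdic_rho_eq_one_iff _ _ hloc _ _ σ).mp (h n hn hloc hq 𝔓 h𝔓 σ hσ)
    rw [mapRep_apply] at h1
    rw [h1]; simp

/-- Having unipotent inertia at `q` is a deformation condition. -/
theorem isCoreCond_isUnipotentOnInertiaAt (q : ℕ) :
    IsCoreCond (fun _A _ _ ρ => ρ.IsUnipotentOnInertiaAt q) where
  of_isEquiv := fun _ _ _ _ _ he h => isUnipotentOnInertiaAt_of_isEquiv he h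
  baseChangeAlong := fun _ _ _ _ _ _ φ hφ _ h => isUnipotentOnInertiaAt_baseChangeAlong φ hφ h
  of_fibre := by
    intro P A B _ _ _ _ _ _ _ _ _ pA pB hpA hpB hinj r hr hA hB 𝔓 h𝔓 σ hσ
    rw [charpoly_toAdic]
    have h1 := hA 𝔓 h𝔓 σ hσ
    have h2 := hB 𝔓 h𝔓 σ hσ
    rw [charpoly_toAdic, mapRep_apply, Matrix.charpoly_map] at h1 h2
    refine poly_eq_of_fibre pA pB hinj ?_ ?_
    · rw [h1]; simp
    · rw [h2]; simp
  of_quotients := by
    intro A _ _ _ _ r hr h 𝔓 h𝔓 σ hσ
    rw [charpoly_toAdic]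
    refine poly_eq_of_quotients fun n hn => ?_
    have hloc : IsLocalRing (A ⧸ maximalIdeal A ^ n) :=
      isLocalRing_quotient _ (maximalIdeal_pow_ne_top n hn)
    have hq : IsLocalHom (Ideal.Quotient.mk (maximalIdeal A ^ n)) :=
      IsLocalHom.of_surjective _ Ideal.Quotient.mk_surjective
    have h1 := h n hn hloc hq 𝔓 h𝔓 σ hσ
    rw [@charpoly_toAdic _ _ hloc, mapRep_apply, Matrix.charpoly_map] at h1
    rw [h1]; simp

end Fermat.Agent.S59.H659

end
-- ===== PACK-END S59/H659/Pointwise.lean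

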