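import Fermat.Agent.Pack.S43GC.G0E8L2
import Fermat.Agent.Pack.S43GC.G0E7L1
import Fermat.Agent.Pack.S43GC.G0E3L1
import Fermat.Agent.Pack.S43GC.G0E4L3
import Fermat.Agent.Pack.S43GC.G0E6L3
import Fermat.Agent.Pack.S43GC.G0E1L2
import Fermat.Agent.Pack.S43GC.G0E0L3
import Fermat.Agent.Pack.S43GC.G0E4L1
import Fermat.Agent.Pack.S43GC.G0E8L1
import Fermat.Agent.Pack.S44C.G0E14L2
import Fermat.Agent.Pack.S43GC.G0E9L1
import Fermat.Agent.Pack.S44C.G0E13L3
import Fermat.Agent.Pack.S43GC.G0E9L0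
import Fermat.Agent.Pack.S43GC.G0E9L2
import Fermat.Agent.Pack.S43GC.G0E10L1
import Fermat.Agent.Pack.Fast891

-- ===== PACK-BEGIN S55/G/Rec/UnramCupH900.lean
section


/-!
# S55 / layer G / block REC : leaf L3 (`UnramCupSpec`)   (helper900)

`unramCup_of : LocalStructureSpec → CupAddSpec → ∀ I, UnramCupSpec I`.

For an unramified continuous character `χ` of `V`, a Frobenius `φ` with residue degree `f` and
`a ∈ K_vˣ` with `vdeg a = f · k`:  `inv (a ∪ δχ) = k · χ(φ) / n`.

Proof: `a = π ^ k · u` (L2), `lcc` is additive in the element (K2), `inv (π ∪ δχ) = χ(φ) / n`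
(`inv_unif`) and `inv (u ∪ δχ) = 0` (`inv_unram`).
-/

set_option autoImplicit false

noncomputable section

namespace Fermat.Agent.S55.G.Rec.H900

open groupCohomology Fermat.Agent.S55.G.Rec

section

variable (q : ℕ) [Fact q.Prime]

local notation "Gq" => (PadicAlgCl q ≃ₐ[ℚ_[q]] PadicAlgCl q)

/-- The residue degree is unique. -/
lemma isResidueDegree_unique {V : Subgroup Gq} {f f' : ℕ}
    (hf : IsResidueDegree q V f) (hf' : IsResidueDegree q V f') : f = f' :=
  le_antisymm (hf.2.2 f' hf'.1 hf'.2.1) (hf'.2.2 f hf.1 hf.2.1)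

variable {q}

lemma lFixed_one (V : Subgroup Gq) : LFixed q V 1 := fun τ _ => smul_one τ

lemma lFixed_mul {V : Subgroup Gq} {a b : (PadicAlgCl q)ˣ} (ha : LFixed q V a)
    (hb : LFixed q V b) : LFixed q V (a * b) := fun τ hτ => by
  rw [smul_mul', ha τ hτ, hb τ hτ]

lemma lFixed_inv {V : Subgroup Gq} {a : (PadicAlgCl q)ˣ} (ha : LFixed q V a) :
    LFixed q V a⁻¹ := fun τ hτ => by
  rw [smul_inv', ha τ hτ]

lemma lFixed_pow {V : Subgroup Gq} {a : (PadicAlgCl q)ˣ} (ha : LFixed q V a) (m : ℕ) :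
    LFixed q V (a ^ m) := fun τ hτ => by
  rw [smul_pow', ha τ hτ]

lemma lFixed_zpow {V : Subgroup Gq} {a : (PadicAlgCl q)ˣ} (ha : LFixed q V a) (m : ℤ) :
    LFixed q V (a ^ m) := by
  cases m with
  | ofNat m => simpa using lFixed_pow ha m
  | negSucc m => simpa using lFixed_inv (lFixed_pow ha (m + 1))

/-- Additivity of the local cup class in the element, extracted from `CupAddSpec`. -/
lemma lcc_mul (hadd : CupAddSpec) (V : Subgroup Gq) (n : ℕ) [NeZero n]
    (χ : ↥V →* Multiplicative (ZMod n)) (hχ : IsLevelConstant₁ (lHom q V) χ)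
    {a b : (PadicAlgCl q)ˣ} (ha : LFixed q V a) (hb : LFixed q V b) :
    lcc q V n χ (a * b) = lcc q V n χ a + lcc q V n χ b :=
  (hadd.2 q V n χ χ a b (NeZero.ne n) hχ hχ ha hb).1

lemma lcc_one (hadd : CupAddSpec) (V : Subgroup Gq) (n : ℕ) [NeZero n]
    (χ : ↥V →* Multiplicative (ZMod n)) (hχ : IsLevelConstant₁ (lHom q V) χ) :
    lcc q V n χ 1 = 0 := by
  have h := lcc_mul hadd V n χ hχ (lFixed_one V) (lFixed_one V)
  rw [mul_one] at h
  exact left_eq_add.mp h

lemma lcc_inv (hadd : CupAddSpec) (V : Subgroup Gq) (n : ℕ) [NeZero n]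
    (χ : ↥V →* Multiplicative (ZMod n)) (hχ : IsLevelConstant₁ (lHom q V) χ)
    {a : (PadicAlgCl q)ˣ} (ha : LFixed q V a) :
    lcc q V n χ a⁻¹ = - lcc q V n χ a := by
  have h := lcc_mul hadd V n χ hχ ha (lFixed_inv ha)
  rw [mul_inv_cancel, lcc_one hadd V n χ hχ] at h
  exact (neg_eq_of_add_eq_zero_right h.symm).symm

lemma lcc_pow (hadd : CupAddSpec) (V : Subgroup Gq) (n : ℕ) [NeZero n]
    (χ : ↥V →* Multiplicative (ZMod n)) (hχ : IsLevelConstant₁ (lHom q V) χ)
    {a : (PadicAlgCl q)ˣ} (ha : LFixed q V a) (m : ℕ) :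
    lcc q V n χ (a ^ m) = m • lcc q V n χ a := by
  induction m with
  | zero => simpa using lcc_one hadd V n χ hχ
  | succ m ih =>
    rw [pow_succ, lcc_mul hadd V n χ hχ (lFixed_pow ha m) ha, ih, succ_nsmul]

lemma lcc_zpow (hadd : CupAddSpec) (V : Subgroup Gq) (n : ℕ) [NeZero n]
    (χ : ↥V →* Multiplicative (ZMod n)) (hχ : IsLevelConstant₁ (lHom q V) χ)
    {a : (PadicAlgCl q)ˣ} (ha : LFixed q V a) (m : ℤ) :
    lcc q V n χ (a ^ m) = m • lcc q V n χ a := by
  cases m with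
  | ofNat m =>
    simp only [Int.ofNat_eq_natCast, zpow_natCast, natCast_zsmul]
    exact lcc_pow hadd V n χ hχ ha m
  | negSucc m =>
    rw [zpow_negSucc, lcc_inv hadd V n χ hχ (lFixed_pow ha (m + 1)),
      lcc_pow hadd V n χ hχ ha (m + 1), negSucc_zsmul]

/-- The cup class of a unit is killed by `inv` for an unramified character. -/
lemma inv_lcc_unit (I : LocalInvSystem) (V : Subgroup Gq) (hV : IsOpenL q V) (n : ℕ) [NeZero n]
    (χ : ↥V →* Multiplicative (ZMod n)) (hχ : IsLevelConstant₁ (lHom q V) χ)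
    (hur : ∀ τ : ↥V, IsInertial q (τ : Gq) → χ τ = 1)
    {u : (PadicAlgCl q)ˣ} (hu : LFixed q V u) (hu1 : ‖(u : PadicAlgCl q)‖ = 1) :
    I.inv q V (lcc q V n χ u) = 0 := by
  have h : n ≠ 0 ∧ IsLevelConstant₁ (lHom q V) χ ∧ LFixed q V u := ⟨NeZero.ne n, hχ, hu⟩
  rw [lcc_eq q V n χ u h]
  refine I.inv_unram q V hV _ ?_ ?_ ?_
  · intro g h'
    show ‖(((u ^ (H379.carry n (chiAdd χ g) (chiAdd χ h')) : (PadicAlgCl q)ˣ)) :
      PadicAlgCl q)‖ = 1
    rw [Units.val_pow_eq_pow_val, norm_pow, hu1, one_pow]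
  · intro g h' i j hi hj
    show H379.cupChar n (chiAdd χ) (toLMod q V u) (g * i, h' * j) =
      H379.cupChar n (chiAdd χ) (toLMod q V u) (g, h')
    rw [H379.cupChar_apply, H379.cupChar_apply, chiAdd_mul, chiAdd_mul]
    have hi0 : chiAdd χ i = 0 := by
      show Multiplicative.toAdd (χ i) = 0
      rw [hur i hi]; rfl
    have hj0 : chiAdd χ j = 0 := by
      show Multiplicative.toAdd (χ j) = 0
      rw [hur j hj]; rfl
    rw [hi0, hj0, add_zero, add_zero]
  · intro g h' i _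
    show (lModOn q V).ρ i (H379.cupChar n (chiAdd χ) (toLMod q V u) (g, h')) =
      H379.cupChar n (chiAdd χ) (toLMod q V u) (g, h')
    rw [H379.cupChar_apply, map_nsmul]
    congr 1
    exact toLMod_mem_invariants hu i

/-- The cup class of a uniformizer has invariant `χ(φ)/n` for an unramified character. -/
lemma inv_lcc_unif (I : LocalInvSystem) (V : Subgroup Gq) (hV : IsOpenL q V) (n : ℕ) [NeZero n]
    (χ : ↥V →* Multiplicative (ZMod n)) (hχ : IsLevelConstant₁ (lHom q V) χ)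
    (hur : ∀ τ : ↥V, IsInertial q (τ : Gq) → χ τ = 1)
    (φ : ↥V) (hφ : IsFrobenius q V (φ : Gq))
    {π : (PadicAlgCl q)ˣ} (hπ : IsUniformizer q V (π : PadicAlgCl q)) :
    I.inv q V (lcc q V n χ π) =
      (((((chiAdd χ φ).val : ℚ) / (n : ℚ) : ℚ)) : AddCircle (1 : ℚ)) := by
  have hπf : LFixed q V π := fun τ hτ => Units.ext (hπ.1 τ hτ)
  have h : n ≠ 0 ∧ IsLevelConstant₁ (lHom q V) χ ∧ LFixed q V π := ⟨NeZero.ne n, hχ, hπf⟩
  rw [lcc_eq q V n χ π h]
  have := I.inv_unif q V hV n χ hur (φ : Gq) hφ π hπ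
    ⟨_, lcupChar_mem q V n χ π h⟩ ((isCupChar_iff _ _ _).2 rfl)
  rw [this]
  rfl

end

/-- **L3** (`UnramCupSpec`) from L2 (`LocalStructureSpec`) and K2 (`CupAddSpec`). -/
theorem unramCup_of (h2 : LocalStructureSpec) (hadd : CupAddSpec) (I : LocalInvSystem) :
    UnramCupSpec I := by
  intro q _ V hV n _ χ hχ hur f hf φ hφ a ha k hk
  obtain ⟨f', -, π, hf', -, -, hπ, -, hdec⟩ := h2 q V hV
  obtain ⟨k', u, hu, hu1, rfl, hk'⟩ := hdec a ha
  have hff : f' = f := isResidueDegree_unique q hf' hf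
  subst hff
  have hkk : k' = k := by
    have h1 : (f' : ℤ) * k' = f' * k := hk'.symm.trans hk
    have hf0 : (f' : ℤ) ≠ 0 := by exact_mod_cast hf.1.ne'
    exact mul_left_cancel₀ hf0 h1
  subst hkk
  have hπf : LFixed q V π := fun τ hτ => Units.ext (hπ.1 τ hτ)
  rw [lcc_mul hadd V n χ hχ (lFixed_zpow hπf k') hu, lcc_zpow hadd V n χ hχ hπf, map_add,
    map_zsmul, inv_lcc_unit I V hV n χ hχ hur hu hu1,
    inv_lcc_unif I V hV n χ hχ hur φ ⟨φ.2, f', hf, hφ⟩ hπ, add_zero]
  rw [← AddCircle.coe_zsmul]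
  congr 1
  rw [zsmul_eq_mul, mul_div_assoc]

end Fermat.Agent.S55.G.Rec.H900

end

end
-- ===== PACK-END S55/G/Rec/UnramCupH900.lean

-- ===== PACK-BEGIN S55/G/Rec/L4L6H854.lean
section


/-!
# S55 / layer G / block REC : leaves L4 (`CycloFrobSpec`) and L6 (`LocalRootSpec`)   (helper854)

Key lemma: in an ultrametric normed field, if `‖(m : K)‖ = 1` then two `m`-th roots of unity
which are congruent modulo the maximal ideal (`‖ζ - ζ'‖ < 1`) are equal.

* `cycloFrob : CycloFrobSpec`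
* `localRoot : LocalRootSpec`
-/

set_option autoImplicit false

noncomputable section

namespace Fermat.Agent.S55.G.Rec.H854

open Fermat.Agent.S55.G.Rec

section Ultra

variable {K : Type*} [NormedField K] [IsUltrametricDist K]

lemma norm_sub_le_max_h854 (x y : K) : ‖x - y‖ ≤ max ‖x‖ ‖y‖ := by
  have h := IsUltrametricDist.norm_add_le_max x (-y)
  rwa [norm_neg, ← sub_eq_add_neg] at h

lemma norm_geom_sum_le_one (u : K) (hu : ‖u‖ ≤ 1) (i : ℕ) :
    ‖∑ j ∈ Finset.range i, u ^ j‖ ≤ 1 := by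
  apply IsUltrametricDist.norm_sum_le_of_forall_le_of_nonneg zero_le_one
  intro j _
  rw [norm_pow]
  exact pow_le_one₀ (norm_nonneg _) hu

lemma norm_pow_sub_one_le (u : K) (hu : ‖u‖ ≤ 1) (i : ℕ) : ‖u ^ i - 1‖ ≤ ‖u - 1‖ := by
  have h : u ^ i - 1 = (∑ j ∈ Finset.range i, u ^ j) * (u - 1) := (geom_sum_mul u i).symm
  rw [h, norm_mul]
  calc ‖∑ j ∈ Finset.range i, u ^ j‖ * ‖u - 1‖ ≤ 1 * ‖u - 1‖ := by
        gcongr
        exact norm_geom_sum_le_one u hu i
    _ = ‖u - 1‖ := one_mul _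

omit [IsUltrametricDist K] in
lemma norm_eq_one_of_pow_eq_one {m : ℕ} (hm0 : m ≠ 0) (u : K) (hu : u ^ m = 1) : ‖u‖ = 1 := by
  have h : ‖u‖ ^ m = 1 := by rw [← norm_pow, hu, norm_one]
  exact (pow_eq_one_iff_of_nonneg (norm_nonneg _) hm0).mp h

/-- A root of unity of order prime to the residue characteristic which is `≡ 1` is `1`. -/
lemma eq_one_of_pow_eq_one_of_norm_lt (m : ℕ) (hm : ‖(m : K)‖ = 1) (u : K) (hu : u ^ m = 1)
    (h1 : ‖u - 1‖ < 1) : u = 1 := by
  by_contra hne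
  have hm0 : m ≠ 0 := by
    rintro rfl
    simp at hm
  have hnorm : ‖u‖ = 1 := norm_eq_one_of_pow_eq_one hm0 u hu
  have hsum : ∑ j ∈ Finset.range m, u ^ j = 0 := by
    have h := geom_sum_mul u m
    rw [hu, sub_self] at h
    exact (mul_eq_zero.mp h).resolve_right (sub_ne_zero.mpr hne)
  have hmK : (m : K) = - ∑ j ∈ Finset.range m, (u ^ j - 1) := by
    rw [Finset.sum_sub_distrib, hsum]
    simp
  have hlt : ‖(m : K)‖ < 1 := by
    rw [hmK, norm_neg]
    exact lt_of_le_of_lt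
      (IsUltrametricDist.norm_sum_le_of_forall_le_of_nonneg (norm_nonneg _)
        (fun j _ => norm_pow_sub_one_le u hnorm.le j)) h1
  rw [hm] at hlt
  exact lt_irrefl _ hlt

/-- Two `m`-th roots of unity which are congruent are equal (`m` a unit of the valuation ring). -/
lemma eq_of_pow_eq_one_of_norm_sub_lt (m : ℕ) (hm : ‖(m : K)‖ = 1) (ζ ζ' : K) (hζ : ζ ^ m = 1)
    (hζ' : ζ' ^ m = 1) (h1 : ‖ζ' - ζ‖ < 1) : ζ' = ζ := by
  have hm0 : m ≠ 0 := by
    rintro rfl
    simp at hm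
  have hn : ‖ζ‖ = 1 := norm_eq_one_of_pow_eq_one hm0 ζ hζ
  have hζ0 : ζ ≠ 0 := by
    rintro rfl
    simp at hn
  have hu : (ζ' / ζ) ^ m = 1 := by rw [div_pow, hζ, hζ', div_one]
  have h2 : ‖ζ' / ζ - 1‖ < 1 := by
    have : ζ' / ζ - 1 = (ζ' - ζ) / ζ := by field_simp
    rw [this, norm_div, hn, div_one]
    exact h1
  have := eq_one_of_pow_eq_one_of_norm_lt m hm (ζ' / ζ) hu h2
  rwa [div_eq_one_iff_eq hζ0] at this

/-- Two elements of norm `1` with the same `m`-th power which are congruent are equal. -/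
lemma eq_of_pow_eq_pow_of_norm_sub_lt (m : ℕ) (hm : ‖(m : K)‖ = 1) (x y : K) (hy : ‖y‖ = 1)
    (h : x ^ m = y ^ m) (h1 : ‖x - y‖ < 1) : x = y := by
  have hy0 : y ≠ 0 := by
    rintro rfl
    simp at hy
  have hu : (x / y) ^ m = 1 := by
    rw [div_pow, h]
    exact div_self (pow_ne_zero _ hy0)
  have h2 : ‖x / y - 1‖ < 1 := by
    have : x / y - 1 = (x - y) / y := by field_simp
    rw [this, norm_div, hy, div_one]
    exact h1
  have := eq_one_of_pow_eq_one_of_norm_lt m hm (x / y) hu h2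
  rwa [div_eq_one_iff_eq hy0] at this

lemma norm_eq_one_of_norm_one_sub_lt (b : K) (h : ‖1 - b‖ < 1) : ‖b‖ = 1 := by
  apply le_antisymm
  · have h1 : ‖b‖ = ‖1 - (1 - b)‖ := by congr 1; ring
    rw [h1]
    refine (norm_sub_le_max_h854 _ _).trans ?_
    rw [norm_one]
    exact max_le le_rfl h.le
  · by_contra hlt
    replace hlt := not_le.mp hlt
    have h1 : ‖(1 : K)‖ = ‖b + (1 - b)‖ := by congr 1; ring
    have h2 : ‖(1 : K)‖ < 1 := by
      rw [h1]
      exact lt_of_le_of_lt (IsUltrametricDist.norm_add_le_max _ _) (max_lt hlt h)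
    rw [norm_one] at h2
    exact lt_irrefl _ h2

omit [IsUltrametricDist K] in
lemma exists_norm_lt_one_of_norm_prod_lt_one (s : Multiset K) (h : ‖s.prod‖ < 1) :
    ∃ x ∈ s, ‖x‖ < 1 := by
  induction s using Multiset.induction_on with
  | empty => simp at h
  | cons a t ih =>
    rw [Multiset.prod_cons, norm_mul] at h
    by_cases ha : ‖a‖ < 1
    · exact ⟨a, Multiset.mem_cons_self a t, ha⟩
    · replace ha := not_lt.mp ha
      have ht : ‖t.prod‖ < 1 := by
        by_contra hge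
        replace hge := not_lt.mp hge
        have : (1 : ℝ) ≤ ‖a‖ * ‖t.prod‖ := one_le_mul_of_one_le_of_one_le ha hge
        exact absurd h (not_lt.mpr this)
      obtain ⟨x, hx, hx1⟩ := ih ht
      exact ⟨x, Multiset.mem_cons_of_mem hx, hx1⟩

end Ultra

section Padic

variable (q : ℕ) [Fact q.Prime]

lemma norm_natCast_padicAlgCl_eq_one {m : ℕ} (hm : ¬ q ∣ m) : ‖(m : PadicAlgCl q)‖ = 1 := by
  have h : (m : PadicAlgCl q) = algebraMap ℚ_[q] (PadicAlgCl q) (m : ℚ_[q]) := by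
    simp
  rw [h]
  have := PadicAlgCl.norm_extends q (m : ℚ_[q])
  rw [this, Padic.norm_natCast_eq_one_iff]
  exact (Nat.Prime.coprime_iff_not_dvd (Fact.out : q.Prime)).mpr hm

lemma norm_algEquiv_padicAlgCl (τ : PadicAlgCl q ≃ₐ[ℚ_[q]] PadicAlgCl q) (y : PadicAlgCl q) :
    ‖τ y‖ = ‖y‖ := by
  have := nnnorm_padicAlgCl_algEquiv q τ y
  exact congrArg NNReal.toReal this

/-- (L4) -/
theorem cycloFrob : CycloFrobSpec := by
  intro q _ m hqm
  have hm : ‖(m : PadicAlgCl q)‖ = 1 := norm_natCast_padicAlgCl_eq_one q hqm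
  have hm0 : m ≠ 0 := by
    rintro rfl
    exact hqm (dvd_zero q)
  refine ⟨?_, ?_⟩
  · intro τ hτ ζ hζ
    have hn : ‖ζ‖ = 1 := norm_eq_one_of_pow_eq_one hm0 ζ hζ
    have hτζ : (τ ζ) ^ m = 1 := by rw [← map_pow, hζ, map_one]
    exact eq_of_pow_eq_one_of_norm_sub_lt m hm ζ (τ ζ) hζ hτζ (hτ ζ hn.le)
  · intro τ f hτ ζ hζ
    have hn : ‖ζ‖ = 1 := norm_eq_one_of_pow_eq_one hm0 ζ hζ
    have hτζ : (τ ζ) ^ m = 1 := by rw [← map_pow, hζ, map_one]
    have hζq : (ζ ^ (q ^ f)) ^ m = 1 := by rw [← pow_mul, mul_comm, pow_mul, hζ, one_pow]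
    exact eq_of_pow_eq_one_of_norm_sub_lt m hm (ζ ^ (q ^ f)) (τ ζ) hζq hτζ (hτ ζ hn.le)

/-- (L6) -/
theorem localRoot : LocalRootSpec := by
  intro q _ V n hqn a haV ha1
  have hn0 : n ≠ 0 := by
    rintro rfl
    exact hqn (dvd_zero q)
  have hn : ‖(n : PadicAlgCl q)‖ = 1 := norm_natCast_padicAlgCl_eq_one q hqn
  have hmonic : (Polynomial.X ^ n - Polynomial.C (a : PadicAlgCl q)).Monic :=
    Polynomial.monic_X_pow_sub_C _ hn0
  have hsplits : (Polynomial.X ^ n - Polynomial.C (a : PadicAlgCl q)).Splits :=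
    IsAlgClosed.splits _
  have heval := hsplits.eval_eq_prod_roots_of_monic hmonic 1
  have he : (Polynomial.X ^ n - Polynomial.C (a : PadicAlgCl q)).eval 1
      = 1 - (a : PadicAlgCl q) := by simp
  have hlt : ‖((Polynomial.X ^ n - Polynomial.C (a : PadicAlgCl q)).roots.map (1 - ·)).prod‖
      < 1 := by
    rw [← heval, he, norm_sub_rev]
    exact ha1
  obtain ⟨y, hy, hylt⟩ := exists_norm_lt_one_of_norm_prod_lt_one _ hlt
  obtain ⟨b, hb, rfl⟩ := Multiset.mem_map.mp hy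
  have hbroot : b ^ n = (a : PadicAlgCl q) := by
    have := (Polynomial.mem_roots hmonic.ne_zero).mp hb
    simpa [Polynomial.IsRoot, sub_eq_zero] using this
  have hbn : ‖b‖ = 1 := norm_eq_one_of_norm_one_sub_lt b hylt
  have hb0 : b ≠ 0 := by
    rintro rfl
    simp at hbn
  refine ⟨Units.mk0 b hb0, ?_, ?_⟩
  · intro τ hτ
    apply Units.ext
    show τ b = b
    have ha' : τ (a : PadicAlgCl q) = (a : PadicAlgCl q) := congrArg Units.val (haV τ hτ)
    have h1 : (τ b) ^ n = b ^ n := by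
      rw [← map_pow, hbroot, ha']
    have h2 : ‖τ b - b‖ < 1 := by
      have h3 : τ b - b = (1 - b) - τ (1 - b) := by
        rw [map_sub, map_one]
        ring
      rw [h3]
      refine lt_of_le_of_lt (norm_sub_le_max_h854 _ _) (max_lt hylt ?_)
      rw [norm_algEquiv_padicAlgCl]
      exact hylt
    exact eq_of_pow_eq_pow_of_norm_sub_lt n hn (τ b) b hbn h1 h2
  · apply Units.ext
    rw [Units.val_pow_eq_pow_val]
    exact hbroot

end Padic

end Fermat.Agent.S55.G.Rec.H854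

end
end
-- ===== PACK-END S55/G/Rec/L4L6H854.lean

-- ===== PACK-BEGIN S55/G/Rec/L2H931/Frob.lean
section




/-!
# S55 / layer G / block REC : leaf (L2) `LocalStructureSpec`, part 1 (helper931)

Fixed fields of open subgroups of `G_{ℚ_q}`, the unit ball of `ℚ̄_q` with its Galois action, and the
existence of Frobenius lifts (via the profinite surjectivity of the stabiliser map).
-/

set_option autoImplicit false
set_option linter.style.haveILetI false

noncomputable section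

namespace Fermat.Agent.S55.G.Rec.H931

section Abstract


open scoped Pointwise

/-- Abstract existence of Frobenius lifts for a profinite group acting continuously on a
(discrete) ring `B`, relative to the subring of invariants. -/
theorem L2_exists_frob_abstract {B : Type*} [CommRing B] {G : Type*} [Group G]
    [MulSemiringAction G B] [TopologicalSpace G] [CompactSpace G] [TotallyDisconnectedSpace G]
    [IsTopologicalGroup G]
    (hcont : letI : TopologicalSpace B := ⊥; ContinuousSMul G B)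
    (Q : Ideal B) [Q.IsPrime] (p : ℕ) (hp : p.Prime) (hpQ : (p : B) ∈ Q) (f : ℕ)
    (hfix : ∀ a : B, (∀ g : G, g • a = a) → a ^ (p ^ f) - a ∈ Q)
    (hsurj : ∀ b : B, ∃ c : B, c ^ (p ^ f) - b ∈ Q) :
    ∃ σ : G, ∀ x : B, σ • x - x ^ (p ^ f) ∈ Q := by
  letI : TopologicalSpace B := ⊥
  haveI : DiscreteTopology B := ⟨rfl⟩
  haveI := hcont
  haveI : Fact p.Prime := ⟨hp⟩
  let A := FixedPoints.subring B G
  haveI : Algebra.IsInvariant A B G := ⟨fun b hb => ⟨⟨b, hb⟩, rfl⟩⟩
  let P : Ideal A := Q.under A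
  haveI : Q.LiesOver P := ⟨rfl⟩
  haveI : IsDomain (B ⧸ Q) := Ideal.Quotient.isDomain Q
  have hzero : ((p : ℕ) : B ⧸ Q) = 0 := by
    have : (Ideal.Quotient.mk Q) (p : B) = 0 := Ideal.Quotient.eq_zero_iff_mem.mpr hpQ
    simpa using this
  haveI hchar : CharP (B ⧸ Q) p := (CharP.charP_iff_prime_eq_zero hp).mpr hzero
  let F : (B ⧸ Q) →ₐ[A ⧸ P] (B ⧸ Q) :=
    { toRingHom := iterateFrobenius (B ⧸ Q) p f
      commutes' := by
        intro y
        obtain ⟨a, rfl⟩ := Ideal.Quotient.mk_surjective y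
        show iterateFrobenius _ p f (algebraMap (A ⧸ P) _ (Ideal.Quotient.mk P a)) =
          algebraMap (A ⧸ P) _ (Ideal.Quotient.mk P a)
        have h1 : algebraMap (A ⧸ P) (B ⧸ Q) (Ideal.Quotient.mk P a)
            = Ideal.Quotient.mk Q (a : B) := rfl
        rw [h1, iterateFrobenius_def, ← map_pow, ← sub_eq_zero, ← map_sub,
          Ideal.Quotient.eq_zero_iff_mem]
        exact hfix a a.2 }
  have hinj : Function.Injective F := iterateFrobenius_inj (B ⧸ Q) p f
  have hsurj' : Function.Surjective F := by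
    intro y
    obtain ⟨b, rfl⟩ := Ideal.Quotient.mk_surjective y
    obtain ⟨c, hc⟩ := hsurj b
    refine ⟨Ideal.Quotient.mk Q c, ?_⟩
    show iterateFrobenius _ p f (Ideal.Quotient.mk Q c) = _
    rw [iterateFrobenius_def, ← map_pow, ← sub_eq_zero, ← map_sub, Ideal.Quotient.eq_zero_iff_mem]
    exact hc
  let e : (B ⧸ Q) ≃ₐ[A ⧸ P] (B ⧸ Q) := AlgEquiv.ofBijective F ⟨hinj, hsurj'⟩
  obtain ⟨σ, hσ⟩ := Ideal.Quotient.stabilizerHom_surjective_of_profinite (G := G) P Q e
  refine ⟨σ.1, fun x => ?_⟩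
  have h2 := congrArg (fun t => t (Ideal.Quotient.mk Q x)) hσ
  simp only [Ideal.Quotient.stabilizerHom_apply] at h2
  have h3 : e (Ideal.Quotient.mk Q x) = Ideal.Quotient.mk Q (x ^ (p ^ f)) := by
    show iterateFrobenius _ p f (Ideal.Quotient.mk Q x) = _
    rw [iterateFrobenius_def, map_pow]
  rw [h3] at h2
  rw [← Ideal.Quotient.eq]
  exact h2


end Abstract

section Fields


open Fermat.Agent.S55

variable (q : ℕ) [Fact q.Prime]

local notation "Gq" => (PadicAlgCl q ≃ₐ[ℚ_[q]] PadicAlgCl q)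

/-- The fixed field of `V`. -/
abbrev L2_E (V : Subgroup Gq) : IntermediateField ℚ_[q] (PadicAlgCl q) :=
  IntermediateField.fixedField V

variable {q}

theorem L2_isOpen {V : Subgroup Gq} (hV : IsOpenL q V) : IsOpen (V : Set Gq) := by
  obtain ⟨E, hE, hEV⟩ := hV
  exact Subgroup.isOpen_mono hEV E.fixingSubgroup_isOpen

theorem L2_fixingSubgroup {V : Subgroup Gq} (hV : IsOpenL q V) :
    (L2_E q V).fixingSubgroup = V := by
  haveI := BLocal.isGalois_padicAlgCl q
  have hcl : IsClosed (V : Set Gq) := Subgroup.isClosed_of_isOpen V (L2_isOpen hV)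
  exact InfiniteGalois.fixingSubgroup_fixedField ⟨V, hcl⟩

theorem L2_finiteDimensional {V : Subgroup Gq} (hV : IsOpenL q V) :
    FiniteDimensional ℚ_[q] (L2_E q V) := by
  haveI := BLocal.isGalois_padicAlgCl q
  obtain ⟨E, hE, hEV⟩ := hV
  have hle : L2_E q V ≤ E := by
    have h1 : IntermediateField.fixedField V ≤ IntermediateField.fixedField E.fixingSubgroup := by
      intro x hx
      rw [IntermediateField.mem_fixedField_iff] at hx ⊢
      exact fun f hf => hx f (hEV hf)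
    rwa [InfiniteGalois.fixedField_fixingSubgroup] at h1
  exact Module.Finite.of_injective (IntermediateField.inclusion hle).toLinearMap
    (IntermediateField.inclusion hle).injective

theorem L2_mem_E_iff {V : Subgroup Gq} (x : PadicAlgCl q) :
    x ∈ L2_E q V ↔ IsFixedBy q V x := by
  rw [IntermediateField.mem_fixedField_iff]
  rfl

theorem L2_index {V : Subgroup Gq} (hV : IsOpenL q V) :
    V.index = Module.finrank ℚ_[q] (L2_E q V) := by
  haveI := BLocal.isGalois_padicAlgCl q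
  rw [IntermediateField.finrank_eq_fixingSubgroup_index, L2_fixingSubgroup hV]


end Fields

section Ball


open Fermat.Agent.S55

variable (q : ℕ) [Fact q.Prime]

local notation "Gq" => (PadicAlgCl q ≃ₐ[ℚ_[q]] PadicAlgCl q)

/-- The closed unit ball of `ℚ̄_q` as a subring. -/
def L2_O : Subring (PadicAlgCl q) where
  carrier := {x | ‖x‖ ≤ 1}
  mul_mem' := by
    intro a b ha hb
    simp only [Set.mem_ofPred_eq] at ha hb ⊢
    rw [norm_mul]
    exact mul_le_one₀ ha (norm_nonneg _) hb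
  one_mem' := by simp
  add_mem' := by
    intro a b ha hb
    simp only [Set.mem_ofPred_eq] at ha hb ⊢
    exact (IsUltrametricDist.norm_add_le_max a b).trans (max_le ha hb)
  zero_mem' := by simp
  neg_mem' := by
    intro a ha
    simp only [Set.mem_ofPred_eq] at ha ⊢
    rwa [norm_neg]

variable {q}

theorem L2_mem_O {x : PadicAlgCl q} : x ∈ L2_O q ↔ ‖x‖ ≤ 1 := Iff.rfl

theorem L2_norm_map (σ : Gq) (x : PadicAlgCl q) : ‖σ x‖ = ‖x‖ := by
  have := nnnorm_padicAlgCl_algEquiv q σ x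
  exact congrArg NNReal.toReal this

variable (q)

/-- The open unit ball, as an ideal of the closed unit ball. -/
def L2_m : Ideal (L2_O q) where
  carrier := {x | ‖(x : PadicAlgCl q)‖ < 1}
  add_mem' := by
    intro a b ha hb
    simp only [Set.mem_ofPred_eq] at ha hb ⊢
    exact (IsUltrametricDist.norm_add_le_max (a : PadicAlgCl q) b).trans_lt (max_lt ha hb)
  zero_mem' := by simp
  smul_mem' := by
    intro c x hx
    simp only [Set.mem_ofPred_eq, smul_eq_mul, Subring.coe_mul, norm_mul] at hx ⊢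
    calc ‖(c : PadicAlgCl q)‖ * ‖(x : PadicAlgCl q)‖ ≤ 1 * ‖(x : PadicAlgCl q)‖ :=
          mul_le_mul_of_nonneg_right c.2 (norm_nonneg _)
      _ < 1 := by rw [one_mul]; exact hx

variable {q}

theorem L2_mem_m {x : L2_O q} : x ∈ L2_m q ↔ ‖(x : PadicAlgCl q)‖ < 1 := Iff.rfl

instance L2_m_isPrime : (L2_m q).IsPrime := by
  constructor
  · intro h
    have : (1 : L2_O q) ∈ L2_m q := by rw [h]; trivial
    rw [L2_mem_m] at this
    simp at this
  · intro a b hab
    rw [L2_mem_m] at hab ⊢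
    rw [L2_mem_m]
    by_contra hcon
    rw [not_or, not_lt, not_lt] at hcon
    have ha : ‖(a : PadicAlgCl q)‖ = 1 := le_antisymm a.2 hcon.1
    have hb : ‖(b : PadicAlgCl q)‖ = 1 := le_antisymm b.2 hcon.2
    rw [Subring.coe_mul, norm_mul, ha, hb, mul_one] at hab
    exact lt_irrefl _ hab

/-- The action of a subgroup of the local Galois group on the unit ball. -/
instance L2_action (V : Subgroup Gq) : MulSemiringAction ↥V (L2_O q) where
  smul σ x := ⟨(σ : Gq) (x : PadicAlgCl q), by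
    rw [L2_mem_O, L2_norm_map]; exact x.2⟩
  one_smul x := Subtype.ext rfl
  mul_smul σ τ x := Subtype.ext rfl
  smul_zero σ := Subtype.ext (map_zero (σ : Gq))
  smul_add σ x y := Subtype.ext (map_add (σ : Gq) _ _)
  smul_one σ := Subtype.ext (map_one (σ : Gq))
  smul_mul σ x y := Subtype.ext (map_mul (σ : Gq) _ _)

theorem L2_coe_smul (V : Subgroup Gq) (σ : ↥V) (x : L2_O q) :
    ((σ • x : L2_O q) : PadicAlgCl q) = (σ : Gq) (x : PadicAlgCl q) := rfl

theorem L2_continuousSMul (V : Subgroup Gq) :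
    letI : TopologicalSpace (L2_O q) := ⊥
    ContinuousSMul ↥V (L2_O q) := by
  letI : TopologicalSpace (L2_O q) := ⊥
  haveI : DiscreteTopology (L2_O q) := ⟨rfl⟩
  refine ⟨?_⟩
  rw [continuous_prod_of_discrete_right]
  intro b
  rw [continuous_discrete_rng]
  intro c
  rw [isOpen_iff_mem_nhds]
  intro g hg
  let E : IntermediateField ℚ_[q] (PadicAlgCl q) :=
    IntermediateField.adjoin ℚ_[q] {(b : PadicAlgCl q)}
  haveI : FiniteDimensional ℚ_[q] E :=
    IntermediateField.adjoin.finiteDimensional (Algebra.IsIntegral.isIntegral _)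
  -- the open set `{h ∈ V | g⁻¹ h fixes E}`
  have hopen : IsOpen {h : ↥V | ((g⁻¹ * h : ↥V) : Gq) ∈ E.fixingSubgroup} := by
    have h1 : Continuous (fun h : ↥V => ((g⁻¹ * h : ↥V) : Gq)) :=
      continuous_subtype_val.comp (continuous_const.mul continuous_id)
    exact E.fixingSubgroup_isOpen.preimage h1
  refine Filter.mem_of_superset (hopen.mem_nhds ?_) ?_
  · simp only [Set.mem_ofPred_eq, inv_mul_cancel]
    exact one_mem _
  · intro h hh
    simp only [Set.mem_ofPred_eq] at hh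
    simp only [Set.mem_preimage, Set.mem_singleton_iff] at hg ⊢
    rw [← hg]
    apply Subtype.ext
    have hb : ((g⁻¹ * h : ↥V) : Gq) (b : PadicAlgCl q) = b :=
      (IntermediateField.mem_fixingSubgroup_iff E _).mp hh b
        (IntermediateField.subset_adjoin ℚ_[q] _ (Set.mem_singleton _))
    show (h : Gq) (b : PadicAlgCl q) = (g : Gq) (b : PadicAlgCl q)
    have : (h : Gq) = (g : Gq) * ((g⁻¹ * h : ↥V) : Gq) := by
      simp
    rw [this, AlgEquiv.mul_apply, hb]


end Ball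

end Fermat.Agent.S55.G.Rec.H931

namespace Fermat.Agent.S55.G.Rec.H931

open Fermat.Agent.S55

variable {q : ℕ} [Fact q.Prime]

local notation "Gq" => (PadicAlgCl q ≃ₐ[ℚ_[q]] PadicAlgCl q)

theorem L2_norm_q : ‖(q : PadicAlgCl q)‖ = (q : ℝ)⁻¹ := by
  have := L.norm_natCast_prime63 q
  simpa using this

theorem L2_exists_frob {V : Subgroup Gq} (hV : IsOpenL q V) (f : ℕ)
    (hf : ∀ x, IsFixedBy q V x → ‖x‖ ≤ 1 → ‖x ^ (q ^ f) - x‖ < 1) :
    ∃ φ : Gq, φ ∈ V ∧ ∀ x : PadicAlgCl q, ‖x‖ ≤ 1 → ‖φ x - x ^ (q ^ f)‖ < 1 := by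
  have hq : q.Prime := Fact.out
  have hcl : IsClosed (V : Set Gq) := Subgroup.isClosed_of_isOpen V (L2_isOpen hV)
  haveI : CompactSpace ↥V := isCompact_iff_compactSpace.mp hcl.isCompact
  have hqm : ((q : ℕ) : L2_O q) ∈ L2_m q := by
    rw [L2_mem_m]
    push_cast
    rw [L2_norm_q]
    exact inv_lt_one_of_one_lt₀ (by exact_mod_cast hq.one_lt)
  obtain ⟨σ, hσ⟩ := L2_exists_frob_abstract (B := L2_O q) (G := ↥V) (L2_continuousSMul V)
    (L2_m q) q hq hqm f
    (fun a ha => by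
      rw [L2_mem_m]
      push_cast
      refine hf a ?_ a.2
      intro τ hτ
      exact congrArg Subtype.val (ha ⟨τ, hτ⟩))
    (fun b => by
      obtain ⟨c, hc⟩ := IsAlgClosed.exists_pow_nat_eq (b : PadicAlgCl q)
        (pow_pos hq.pos f)
      have hc1 : ‖c‖ ≤ 1 := by
        have h1 : ‖c‖ ^ (q ^ f) ≤ 1 := by
          rw [← norm_pow, hc]; exact b.2
        by_contra hcon
        rw [not_le] at hcon
        exact absurd h1 (not_le.mpr (one_lt_pow₀ hcon (pow_pos hq.pos f).ne'))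
      refine ⟨⟨c, hc1⟩, ?_⟩
      rw [L2_mem_m]
      push_cast
      rw [hc, sub_self, norm_zero]
      exact one_pos)
  refine ⟨σ, σ.2, fun x hx => ?_⟩
  have := hσ ⟨x, hx⟩
  rw [L2_mem_m] at this
  simpa [L2_coe_smul] using this

end Fermat.Agent.S55.G.Rec.H931

end
end
-- ===== PACK-END S55/G/Rec/L2H931/Frob.lean

-- ===== PACK-BEGIN S55/G/Rec/H742/WAPlaces.lean
section





/-!
# S55 / G / REC2-G3 (helper742): places of `K = ℚ̄^U` and double cosets

* `fixK U` : the fixed field of `U`; for open `U` it is a number field with group `U`.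
* `exists_doubleCoset_of_inter_eq` : if the places `g • 𝔭`, `g' • 𝔭` of `ℚ̄` (`𝔭 = padicPlace p`)
  have the same trace on `K`, then `g' ∈ U g D_p`.
-/

set_option autoImplicit false
set_option linter.style.haveILetI false

noncomputable section

namespace Fermat.Agent.S55.G.Rec.H742

open scoped Pointwise

local notation "Qb" => AlgebraicClosure ℚ
local notation "GQ" => (AlgebraicClosure ℚ ≃ₐ[ℚ] AlgebraicClosure ℚ)

/-- The fixed field of `U`. -/
def fixK (U : Subgroup GQ) : IntermediateField ℚ Qb := IntermediateField.fixedField U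

theorem mem_fixK_iff {U : Subgroup GQ} {x : Qb} : x ∈ fixK U ↔ ∀ u ∈ U, u x = x := by
  unfold fixK
  rw [IntermediateField.mem_fixedField_iff]

theorem isOpen_of_isOpenQ {U : Subgroup GQ} (hU : IsOpenQ U) : IsOpen (U : Set GQ) := by
  obtain ⟨F, hF, hFU⟩ := hU
  exact Subgroup.isOpen_mono hFU (IntermediateField.fixingSubgroup_isOpen F)

theorem fixingSubgroup_fixK {U : Subgroup GQ} (hU : IsOpenQ U) : (fixK U).fixingSubgroup = U := by
  have hcl : IsClosed (U : Set GQ) := Subgroup.isClosed_of_isOpen U (isOpen_of_isOpenQ hU)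
  exact InfiniteGalois.fixingSubgroup_fixedField (⟨U, hcl⟩ : ClosedSubgroup GQ)

theorem fixK_le {U : Subgroup GQ} {F : IntermediateField ℚ Qb} (hFU : F.fixingSubgroup ≤ U) :
    fixK U ≤ F := by
  intro x hx
  rw [← InfiniteGalois.fixedField_fixingSubgroup F, IntermediateField.mem_fixedField_iff]
  intro σ hσ
  exact mem_fixK_iff.1 hx σ (hFU hσ)

theorem finiteDimensional_fixK {U : Subgroup GQ} (hU : IsOpenQ U) :
    FiniteDimensional ℚ (fixK U) := by
  obtain ⟨F, hF, hFU⟩ := hU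
  exact Module.Finite.of_injective (IntermediateField.inclusion (fixK_le hFU)).toLinearMap
    (IntermediateField.inclusion (fixK_le hFU)).injective

theorem gFixed_of_mem_fixK {U : Subgroup GQ} (a : Qbˣ) (ha : (a : Qb) ∈ fixK U) : GFixed U a := by
  intro u hu
  apply Units.ext
  exact mem_fixK_iff.1 ha u hu

variable (p : ℕ) [Fact p.Prime]

theorem mem_smul_padicPlace_iff (g : GQ) (x : Qb) :
    x ∈ g • padicPlace p ↔ ‖padicEmbedding p (g⁻¹ x)‖ ≤ 1 := by
  rw [ValuationSubring.mem_pointwise_smul_iff_inv_smul_mem]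
  exact Bridge.mem_padicPlace_iff_norm p

theorem natCast_mem_nonunits_smul (g : GQ) : ((p : ℕ) : Qb) ∈ (g • padicPlace p).nonunits := by
  have hp : (p : ℕ).Prime := Fact.out
  rw [ValuationSubring.mem_nonunits_iff_or]
  right
  rw [mem_smul_padicPlace_iff, map_inv₀, map_natCast, map_inv₀, norm_inv, not_le]
  have h := Bridge.norm_padicEmbedding_natCast_self p
  rw [h, inv_inv]
  exact_mod_cast hp.one_lt

/-- If the places `g • 𝔭` and `g' • 𝔭` have the same trace on `K = ℚ̄^U` then `g' ∈ U g D_p`. -/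
theorem exists_doubleCoset_of_inter_eq {U : Subgroup GQ} (hU : IsOpenQ U) (g g' : GQ)
    (h : ∀ x ∈ fixK U, ‖padicEmbedding p (g⁻¹ x)‖ ≤ 1 ↔ ‖padicEmbedding p (g'⁻¹ x)‖ ≤ 1) :
    ∃ u ∈ U, ∃ d ∈ (localGaloisToGlobal p).range, g' = u * g * d := by
  have hp : (p : ℕ).Prime := Fact.out
  obtain ⟨ρ, hρ, hρA⟩ := Fermat.Agent.S14.H714.exists_smul_eq_of_inter_eq (F := fixK U)
    (A := g • padicPlace p) (A' := g' • padicPlace p) hp (natCast_mem_nonunits_smul p g)
    (natCast_mem_nonunits_smul p g') (fun x hx => by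
      rw [mem_smul_padicPlace_iff, mem_smul_padicPlace_iff]
      exact h x hx)
  rw [fixingSubgroup_fixK hU] at hρ
  have hd : g⁻¹ * ρ * g' ∈ (padicPlace p).decompositionSubgroup ℚ := by
    rw [MulAction.mem_stabilizer_iff, mul_smul, mul_smul, hρA, inv_smul_smul]
  rw [← Bridge.range_localGaloisToGlobal] at hd
  refine ⟨ρ⁻¹, U.inv_mem hρ, g⁻¹ * ρ * g', hd, ?_⟩
  group

end Fermat.Agent.S55.G.Rec.H742

end
end
-- ===== PACK-END S55/G/Rec/H742/WAPlaces.lean

-- ===== PACK-BEGIN S55/G/Rec/LocalNormH844.lean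
section





/-!
# S55 / G / REC, leaf K5 (helper844): the local norm criterion `LocalNormSpec`

If the local cup class `a ∪ δχ ∈ Br(K_v)` vanishes, then `a` is a norm from the fixed field of
`ker χ`.

Proof.  `lcc = 0` gives a level-constant 1-cochain `x : V → ℚ̄_qˣ` with `d x = a ∪ δχ`.  On
`H = ker χ` the cup cocycle is trivial, so `x|_H` is a level-constant 1-cocycle, hence a coboundary
`h ↦ β / h β` by Hilbert 90 (`exists_unit_of_levelCocycle844`).  Correcting `x` by the coboundary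
of `β` we may assume `x|_H = 1`, and then `a = N(x σ)` where `χ σ` is the minimal positive value of
`χ` (`exists_norm_of_trivialized844`).
-/

set_option autoImplicit false
set_option linter.unusedSectionVars false
set_option linter.style.haveILetI false

noncomputable section

namespace Fermat.Agent.S55.G.Rec.H844

open groupCohomology Fermat.Agent.S55.G.Rec

/-- The stabiliser of a finite extension has finite index, also after pulling back along any
homomorphism into the Galois group. -/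
lemma finite_quotient_comap_fixing844 {K Ω : Type*} [Field K] [Field Ω] [Algebra K Ω]
    (E : IntermediateField K Ω) [FiniteDimensional K E] {H : Type*} [Group H]
    (f : H →* (Ω ≃ₐ[K] Ω)) : Finite (H ⧸ (E.fixingSubgroup.comap f)) := by
  let φ : H → (E →ₐ[K] Ω) := fun g => ((f g : Ω ≃ₐ[K] Ω) : Ω →ₐ[K] Ω).comp E.val
  have hφ : ∀ g g' : H, φ g = φ g' → g⁻¹ * g' ∈ E.fixingSubgroup.comap f := by
    intro g g' h
    rw [Subgroup.mem_comap, IntermediateField.mem_fixingSubgroup_iff]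
    intro x hx
    have := DFunLike.congr_fun h ⟨x, hx⟩
    change f g x = f g' x at this
    rw [map_mul, map_inv, AlgEquiv.mul_apply, ← this]
    exact (f g).symm_apply_apply x
  have hinj : Function.Injective
      (fun t : H ⧸ (E.fixingSubgroup.comap f) => φ (Quotient.out t)) := by
    intro t t' h
    have := hφ _ _ h
    rw [← QuotientGroup.eq, QuotientGroup.out_eq', QuotientGroup.out_eq'] at this
    exact this
  exact Finite.of_injective _ hinj

variable (q : ℕ) [Fact q.Prime]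

local notation "Gq" => (PadicAlgCl q ≃ₐ[ℚ_[q]] PadicAlgCl q)

/-- Unpacking `lcc = 0`: a level-constant (in the local sense) multiplicative 1-cochain `X` with
`d X = a ∪ δχ`. -/
lemma exists_cochain_of_lcc_eq_zero844 (V : Subgroup Gq) (n : ℕ) [NeZero n]
    (χ : ↥V →* Multiplicative (ZMod n)) (hχ : IsLevelConstant₁ (lHom q V) χ)
    (a : (PadicAlgCl q)ˣ) (ha : LFixed q V a) (h0 : lcc q V n χ a = 0) :
    ∃ (X : ↥V → (PadicAlgCl q)ˣ) (E : IntermediateField ℚ_[q] (PadicAlgCl q)),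
      FiniteDimensional ℚ_[q] E ∧
      (∀ g s : ↥V, (s : Gq) ∈ E.fixingSubgroup → X (g * s) = X g) ∧
      ∀ g h : ↥V, g • X h * X g =
        X (g * h) * a ^ H379.carry n (Multiplicative.toAdd (χ g)) (Multiplicative.toAdd (χ h)) := by
  have hh : n ≠ 0 ∧ IsLevelConstant₁ (lHom q V) χ ∧ LFixed q V a := ⟨NeZero.ne n, hχ, ha⟩
  rw [lcc_eq q V n χ a hh] at h0
  have hmem : H379.cupChar n (chiAdd χ) (toLMod q V a) ∈
      levelCoboundaries₂ (lHom q V) (lModOn q V) := by
    have := (Submodule.Quotient.mk_eq_zero _).mp h0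
    exact this
  obtain ⟨x, ⟨F, hF, hxF⟩, hdx⟩ := (mem_levelCoboundaries₂_iff _ _ _).mp hmem
  obtain ⟨E, hE, hEF⟩ := Fermat.Agent.S55.Bridge.exists_local_level_of_global q F
  obtain ⟨X, hX⟩ : ∃ X : ↥V → (PadicAlgCl q)ˣ, ∀ g, X g = Additive.toMul (x g) :=
    ⟨fun g => Additive.toMul (x g), fun _ => rfl⟩
  refine ⟨X, E, hE, ?_, ?_⟩
  · intro g s hs
    rw [hX, hX, hxF g s (hEF _ hs)]
  · intro g h
    have := congrFun hdx (g, h)
    rw [d₁₂_hom_apply] at this
    have h2 : (g • X h) / X (g * h) * X g =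
        a ^ H379.carry n (Multiplicative.toAdd (χ g)) (Multiplicative.toAdd (χ h)) := by
      rw [hX, hX, hX]
      exact congrArg Additive.toMul this
    rw [← h2]
    rw [div_mul_eq_mul_div, mul_div_cancel]

/-- Hilbert 90 on `ker χ` for a cochain which is level-constant and a cocycle on `ker χ`. -/
lemma exists_beta844 (V : Subgroup Gq) {n : ℕ} (χ : ↥V →* Multiplicative (ZMod n))
    (X : ↥V → (PadicAlgCl q)ˣ) (E : IntermediateField ℚ_[q] (PadicAlgCl q))
    [FiniteDimensional ℚ_[q] E]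
    (hXE : ∀ g s : ↥V, (s : Gq) ∈ E.fixingSubgroup → X (g * s) = X g)
    (hcoc : ∀ g h : ↥V, g ∈ χ.ker → h ∈ χ.ker → g • X h * X g = X (g * h)) :
    ∃ β : (PadicAlgCl q)ˣ, ∀ g : ↥V, g ∈ χ.ker → g • β * X g = β := by
  let f : ↥χ.ker →* Gq := V.subtype.comp χ.ker.subtype
  haveI := finite_quotient_comap_fixing844 E f
  obtain ⟨β, hβ⟩ := exists_unit_of_levelCocycle844 (H := ↥χ.ker) (Ω := PadicAlgCl q) (T := ↥E)
    ((algebraMap E (PadicAlgCl q) : E →* PadicAlgCl q)) (E.fixingSubgroup.comap f)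
    (by
      intro g hg
      rw [Subgroup.mem_comap, IntermediateField.mem_fixingSubgroup_iff]
      intro x hx
      exact hg ⟨x, hx⟩)
    (by
      intro g hg θ
      rw [Subgroup.mem_comap, IntermediateField.mem_fixingSubgroup_iff] at hg
      exact hg θ θ.2)
    (fun h => X (h : ↥V))
    (by
      intro g h
      have := hcoc g h g.2 h.2
      have h2 := congrArg (fun u : (PadicAlgCl q)ˣ => (u : PadicAlgCl q)) this
      exact h2.symm)
    (by
      intro g s hs
      exact hXE g s hs)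
  refine ⟨β, fun g hg => ?_⟩
  apply Units.ext
  exact hβ ⟨g, hg⟩

/-- **(K5)** the local norm criterion. -/
theorem localNorm : LocalNormSpec := by
  intro q _ V _ n _ χ hχ a ha h0
  obtain ⟨X, E, hE, hXE, hR⟩ := exists_cochain_of_lcc_eq_zero844 q V n χ hχ a ha h0
  -- Hilbert 90 on `ker χ`
  have hcoc : ∀ g h : ↥V, g ∈ χ.ker → h ∈ χ.ker → g • X h * X g = X (g * h) := by
    intro g h hg hh
    rw [hR g h]
    rw [MonoidHom.mem_ker] at hg
    rw [hg]
    have : H379.carry n (Multiplicative.toAdd (1 : Multiplicative (ZMod n)))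
        (Multiplicative.toAdd (χ h)) = 0 := H379.carry_zero_left n _
    rw [this, pow_zero, mul_one]
  obtain ⟨β, hβ⟩ := exists_beta844 q V χ X E hXE hcoc
  -- the corrected cochain
  obtain ⟨X', hX'⟩ : ∃ X' : ↥V → (PadicAlgCl q)ˣ, ∀ g, X' g = X g * (g • β) / β :=
    ⟨fun g => X g * (g • β) / β, fun _ => rfl⟩
  have hR' : ∀ g h : ↥V, g • X' h * X' g =
      X' (g * h) * a ^ H379.carry n (Multiplicative.toAdd (χ g)) (Multiplicative.toAdd (χ h)) := by
    intro g h
    have := hR g h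
    rw [hX', hX', hX', smul_div', smul_mul', mul_smul]
    calc g • X h * g • h • β / g • β * (X g * g • β / β)
        = (g • X h * X g) * (g • h • β) * β⁻¹ * (g • β * (g • β)⁻¹) := by
          simp only [div_eq_mul_inv]
          ac_rfl
      _ = _ := by
          rw [this, mul_inv_cancel, mul_one]
          simp only [div_eq_mul_inv]
          ac_rfl
  have h1' : ∀ h ∈ χ.ker, X' h = 1 := by
    intro h hh
    rw [hX', mul_comm, hβ h hh, div_self']
  obtain ⟨b, hb, hab⟩ := exists_norm_of_trivialized844 (χ := χ) (a := a)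
    (fun g => ha g g.2) hR' h1'
  refine ⟨b, ?_, hab⟩
  rintro τ ⟨h, hh, rfl⟩
  exact hb h hh

end Fermat.Agent.S55.G.Rec.H844

end
end
-- ===== PACK-END S55/G/Rec/LocalNormH844.lean

-- ===== PACK-BEGIN S55/G/Rec/H124/ProductFormula.lean
section


/-!
# S55 / layer G / block REC : (G1b) the product formula in degree-valuation form

`theorem productFormula_of (h1 : OrbitNormSpec) (hv : VdegSpec) : ProductFormulaSpec`.

Take norms in `ι_q (N_{K/ℚ} a) = ∏_{v | q} N_{K_v/ℚ_q} (a_v)` (G1): the left side has norm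
`q ^ (- v_q (y))`, the norm of a local relative norm is `‖a_v‖ ^ [G_{ℚ_q} : V]` (Galois invariance
of the norm of `PadicAlgCl q`), which is `q ^ (- vdeg)` by (L1).

Auxiliary results of independent use:
* `isOpenL_locSub124` : the decomposition-type subgroups of an open subgroup are open,
* `lFixed_locPushMul124` : the local image of a `U`-fixed element is fixed by `locSub q g U`,
* `finiteIndex_of_isOpenL124`, `norm_relNorm124`.
-/

set_option autoImplicit false

noncomputable section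

namespace Fermat.Agent.S55.G.Rec.H124

open Fermat.Agent.S55.G.Rec

local notation "Qb" => AlgebraicClosure ℚ
local notation "GQ" => (AlgebraicClosure ℚ ≃ₐ[ℚ] AlgebraicClosure ℚ)

section Local

variable (q : ℕ) [Fact q.Prime]

local notation "Gq" => (PadicAlgCl q ≃ₐ[ℚ_[q]] PadicAlgCl q)

/-- Galois invariance of the norm of `PadicAlgCl q`. -/
lemma norm_algEquiv124 (τ : Gq) (y : PadicAlgCl q) : ‖τ y‖ = ‖y‖ :=
  (spectralNorm_eq_of_equiv τ y).symm

/-- An open subgroup of `G_{ℚ_q}` has finite index. -/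
lemma finiteIndex_of_isOpenL124 {V : Subgroup Gq} (hV : IsOpenL q V) : V.FiniteIndex := by
  obtain ⟨E, hE, hEV⟩ := hV
  have := hE
  have h1 : E.fixingSubgroup.FiniteIndex := by
    refine ⟨?_⟩
    rw [← IntermediateField.finrank_eq_fixingSubgroup_index]
    exact Module.finrank_pos.ne'
  exact Subgroup.finiteIndex_of_le hEV

/-- The norm of a relative norm is the `index`-th power of the norm. -/
lemma norm_relNorm124 {V : Subgroup Gq} (hV : V.FiniteIndex) (b : (PadicAlgCl q)ˣ) :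
    ‖((relNorm V b : (PadicAlgCl q)ˣ) : PadicAlgCl q)‖ = ‖(b : PadicAlgCl q)‖ ^ V.index := by
  classical
  have : Finite (Gq ⧸ V) := Subgroup.finite_quotient_of_finiteIndex
  have : Fintype (Gq ⧸ V) := Fintype.ofFinite _
  unfold relNorm
  rw [finprod_eq_prod_of_fintype, Units.coe_prod, norm_prod]
  have h : ∀ t : Gq ⧸ V,
      ‖(((Quotient.out t : Gq) • b : (PadicAlgCl q)ˣ) : PadicAlgCl q)‖ = ‖(b : PadicAlgCl q)‖ :=
    fun t => norm_algEquiv124 q _ _
  simp only [h, Finset.prod_const, Finset.card_univ]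
  rw [Subgroup.index_eq_card, Nat.card_eq_fintype_card]

/-- The local image of a `U`-fixed element is fixed by `locSub q g U`. -/
lemma lFixed_locPushMul124 {U : Subgroup GQ} {a : Qbˣ} (ha : GFixed U a) (g : GQ) :
    LFixed q (locSub q g U) (locPushMul q g a) := by
  intro τ hτ
  apply Units.ext
  show τ (padicEmbedding q (g⁻¹ (a : Qb))) = padicEmbedding q (g⁻¹ (a : Qb))
  rw [← padicEmbedding_localGaloisToGlobal]
  congr 1
  have h := ha _ (mem_locSub.1 hτ)
  have h2 : (g * localGaloisToGlobal q τ * g⁻¹) (a : Qb) = a := congrArg Units.val h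
  have h3 : g (localGaloisToGlobal q τ ((g⁻¹ : GQ) (a : Qb))) = a := h2
  have h4 := congrArg (g⁻¹ : GQ) h3
  rwa [show (g⁻¹ : GQ) (g (localGaloisToGlobal q τ ((g⁻¹ : GQ) (a : Qb)))) =
    localGaloisToGlobal q τ ((g⁻¹ : GQ) (a : Qb)) from AlgEquiv.symm_apply_apply g _] at h4

/-- The decomposition-type subgroups of an open subgroup of `G_ℚ` are open. -/
lemma isOpenL_locSub124 {U : Subgroup GQ} (hU : IsOpenQ U) (g : GQ) :
    IsOpenL q (locSub q g U) := by
  obtain ⟨F, hF, hFU⟩ := hU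
  have := hF
  let pb : PowerBasis ℚ F := Field.powerBasisOfFiniteOfSeparable ℚ F
  let β : PadicAlgCl q := padicEmbedding q ((g⁻¹ : GQ) (pb.gen : Qb))
  refine ⟨IntermediateField.adjoin ℚ_[q] {β},
    IntermediateField.adjoin.finiteDimensional (Algebra.IsIntegral.isIntegral β), ?_⟩
  intro τ hτ
  rw [mem_locSub]
  apply hFU
  rw [IntermediateField.mem_fixingSubgroup_iff]
  have hβ : τ β = β :=
    (IntermediateField.mem_fixingSubgroup_iff _ _).1 hτ β
      (IntermediateField.mem_adjoin_simple_self _ _)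
  have h1 : localGaloisToGlobal q τ ((g⁻¹ : GQ) (pb.gen : Qb)) = (g⁻¹ : GQ) (pb.gen : Qb) := by
    apply (padicEmbedding q).toRingHom.injective
    show padicEmbedding q _ = padicEmbedding q _
    rw [padicEmbedding_localGaloisToGlobal]
    exact hβ
  have hα : (g * localGaloisToGlobal q τ * g⁻¹) (pb.gen : Qb) = (pb.gen : Qb) := by
    show g (localGaloisToGlobal q τ ((g⁻¹ : GQ) (pb.gen : Qb))) = (pb.gen : Qb)
    rw [h1]
    exact AlgEquiv.apply_symm_apply g _
  have key : ((g * localGaloisToGlobal q τ * g⁻¹ : GQ) : Qb →ₐ[ℚ] Qb).comp F.val = F.val :=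
    pb.algHom_ext hα
  intro x hx
  exact DFunLike.congr_fun key ⟨x, hx⟩

end Local

/-- `a ^ (∑ f) = ∏ a ^ f` for integer exponents. -/
lemma zpow_sum124 {ι : Type*} (s : Finset ι) (f : ι → ℤ) {x : ℝ} (hx : x ≠ 0) :
    x ^ (∑ i ∈ s, f i) = ∏ i ∈ s, x ^ f i := by
  classical
  induction s using Finset.induction_on with
  | empty => simp
  | insert i s hi ih => rw [Finset.sum_insert hi, Finset.prod_insert hi, zpow_add₀ hx, ih]

/-- **(G1b)** the product formula in degree-valuation form. -/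
theorem productFormula_of (h1 : OrbitNormSpec) (hv : VdegSpec) : ProductFormulaSpec := by
  intro U hU a ha y hy q _ R hR
  have hprod := (h1 U hU a ha).2 q R hR
  have hq1 : (1 : ℝ) < (q : ℝ) := by exact_mod_cast (Fact.out : q.Prime).one_lt
  have hq0 : (q : ℝ) ≠ 0 := by positivity
  -- the left side
  have hL : ‖((locPushMul q 1 (relNorm U a) : (PadicAlgCl q)ˣ) : PadicAlgCl q)‖ =
      (q : ℝ) ^ (-padicValRat q (y : ℚ)) := by
    rw [locPushMul_coe, inv_one]
    show ‖padicEmbedding q ((relNorm U a : Qbˣ) : Qb)‖ = _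
    rw [hy, AlgHom.commutes, IsScalarTower.algebraMap_apply ℚ ℚ_[q] (PadicAlgCl q),
      PadicAlgCl.norm_extends]
    rw [show (algebraMap ℚ ℚ_[q] (y : ℚ)) = (((y : ℚ)) : ℚ_[q]) from rfl,
      Padic.eq_padicNorm, padicNorm.eq_zpow_of_nonzero (Units.ne_zero y)]
    push_cast
    rfl
  -- the right side
  have hR' : ‖((∏ r ∈ R, relNorm (locSub q r U) (locPushMul q r a) : (PadicAlgCl q)ˣ) :
      PadicAlgCl q)‖ = (q : ℝ) ^ (-∑ r ∈ R, vdeg q (locSub q r U) (locPushMul q r a)) := by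
    rw [Units.coe_prod, norm_prod, ← Finset.sum_neg_distrib, zpow_sum124 _ _ hq0]
    refine Finset.prod_congr rfl fun r _ => ?_
    have hO := isOpenL_locSub124 q hU r
    rw [norm_relNorm124 q (finiteIndex_of_isOpenL124 q hO)]
    exact hv q (locSub q r U) hO _ (lFixed_locPushMul124 q ha r)
  rw [hprod, hR'] at hL
  have h := zpow_right_injective₀ (by positivity : (0 : ℝ) < q) hq1.ne' hL
  exact (neg_injective h).symm

end Fermat.Agent.S55.G.Rec.H124

end
end
-- ===== PACK-END S55/G/Rec/H124/ProductFormula.lean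

-- ===== PACK-BEGIN S55/G/Rec/HP/Glue.lean
section


/-!
# S55 / layer G / block REC / adapter HP : assembly

`hassePrinciple_of : HasseFinSpec p → GlobalDescentSpec → GlobalUpSpec → LocalGlueSpec →
    HassePrincipleSpec p`.
-/

set_option autoImplicit false

noncomputable section

namespace Fermat.Agent.S55.G.Rec.HP

open groupCohomology

local notation "Qb" => AlgebraicClosure ℚ
local notation "GQ" => (AlgebraicClosure ℚ ≃ₐ[ℚ] AlgebraicClosure ℚ)

/-- A finite extension of `ℚ` inside `ℚ̄` containing a primitive `p`-th root of unity. -/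
lemma exists_level_primitiveRoot (p : ℕ) (hp : p ≠ 0) :
    ∃ (F₁ : IntermediateField ℚ Qb) (ζ : Qb), FiniteDimensional ℚ F₁ ∧ ζ ∈ F₁ ∧
      IsPrimitiveRoot ζ p := by
  have : NeZero p := ⟨hp⟩
  have : NeZero ((p : ℕ) : Qb) := ⟨by exact_mod_cast hp⟩
  obtain ⟨ζ, hζ⟩ := HasEnoughRootsOfUnity.exists_primitiveRoot Qb p
  have hint : IsIntegral ℚ ζ := (hζ.isIntegral (Nat.pos_of_ne_zero hp)).tower_top
  refine ⟨IntermediateField.adjoin ℚ {ζ}, ζ, ?_, ?_, hζ⟩
  · exact IntermediateField.adjoin.finiteDimensional hint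
  · exact IntermediateField.mem_adjoin_simple_self ℚ ζ

/-- **HP, assembly.** -/
theorem hassePrinciple_of (p : ℕ) [hp : Fact p.Prime] (hFin : HasseFinSpec p)
    (hGD : GlobalDescentSpec) (hUp : GlobalUpSpec) (hLG : LocalGlueSpec) :
    HassePrincipleSpec p := by
  intro U hU x hx hloc
  obtain ⟨c, rfl⟩ := Submodule.mkQ_surjective _ x
  obtain ⟨k, hk⟩ := hx
  obtain ⟨F₁, ζ, hF₁, hζF₁, hζ⟩ := exists_level_primitiveRoot p hp.out.ne_zero
  obtain ⟨F, hFfin, hFnorm, f, hF₁F, hFU, hinf, htors⟩ := hGD U hU c (p ^ k) hk F₁ hF₁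
  have := hFfin
  have := hFnorm
  have hζ' : ∃ ζ' : ↥F, IsPrimitiveRoot ζ' p := by
    refine ⟨⟨ζ, hF₁F hζF₁⟩, ?_⟩
    have hinj : Function.Injective (algebraMap F Qb) := (algebraMap F Qb).injective
    exact IsPrimitiveRoot.of_map_of_injective (f := algebraMap F Qb) (by simpa using hζ) hinj
  have hfin : (H2π (G.LRep ↥(lvlGal U F) ↥F)).hom f = 0 := by
    refine hFin ↥(lvlGal U F) ↥F hζ' _ ⟨k, htors⟩ ?_
    exact hLG U F hFU f c hinf (fun q _ g => hloc q g)
  exact hUp U F hFU f c hinf hfin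

end Fermat.Agent.S55.G.Rec.HP

end
end
-- ===== PACK-END S55/G/Rec/HP/Glue.lean

-- ===== PACK-BEGIN S55/G/Rec/Loc/Glue.lean
section



/-!
# S55 / G / REC / LOC : the glue — `LocalInvSystem` from `L.InvFamily`

`localInvSystem_of J hO hD hUp hDn hRf hRs hUr hUf : LocalInvSystem`.
-/

set_option autoImplicit false

noncomputable section

namespace Fermat.Agent.S55.G.Rec.Loc

open groupCohomology

variable (q : ℕ) [Fact q.Prime]

/-! ### Linearity of inflation -/

section Linear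

variable (V : Subgroup (PadicAlgCl q ≃ₐ[ℚ_[q]] PadicAlgCl q))
  (E : IntermediateField (fixedFld q V) (PadicAlgCl q)) [Normal (fixedFld q V) E]

lemma inflCochain₂_add
    (f g : (E ≃ₐ[fixedFld q V] E) × (E ≃ₐ[fixedFld q V] E) → L.unitsRep (fixedFld q V) E) :
    inflCochain₂ q V E (f + g) = inflCochain₂ q V E f + inflCochain₂ q V E g := by
  funext p
  simp only [inflCochain₂, Pi.add_apply]
  rfl

lemma inflCochain₂_sub
    (f g : (E ≃ₐ[fixedFld q V] E) × (E ≃ₐ[fixedFld q V] E) → L.unitsRep (fixedFld q V) E) :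
    inflCochain₂ q V E (f - g) = inflCochain₂ q V E f - inflCochain₂ q V E g := by
  funext p
  simp only [inflCochain₂, Pi.sub_apply]
  rfl

variable {q V E}

lemma IsAbsInflation.add {f g : cocycles₂ (L.unitsRep (fixedFld q V) E)}
    {c d : ↥(levelCocycles₂ (lHom q V) (lModOn q V))}
    (hf : IsAbsInflation q V E f c) (hg : IsAbsInflation q V E g d) :
    IsAbsInflation q V E (f + g) (c + d) := by
  unfold IsAbsInflation at *
  have h1 : ((f + g : cocycles₂ (L.unitsRep (fixedFld q V) E)) :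
      (E ≃ₐ[fixedFld q V] E) × (E ≃ₐ[fixedFld q V] E) → L.unitsRep (fixedFld q V) E) =
      (f : (E ≃ₐ[fixedFld q V] E) × (E ≃ₐ[fixedFld q V] E) → L.unitsRep (fixedFld q V) E) +
      (g : (E ≃ₐ[fixedFld q V] E) × (E ≃ₐ[fixedFld q V] E) → L.unitsRep (fixedFld q V) E) := rfl
  rw [Submodule.coe_add, h1, inflCochain₂_add, hf, hg]

lemma IsAbsInflation.sub {f g : cocycles₂ (L.unitsRep (fixedFld q V) E)}
    {c d : ↥(levelCocycles₂ (lHom q V) (lModOn q V))}
    (hf : IsAbsInflation q V E f c) (hg : IsAbsInflation q V E g d) :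
    IsAbsInflation q V E (f - g) (c - d) := by
  unfold IsAbsInflation at *
  have h1 : ((f - g : cocycles₂ (L.unitsRep (fixedFld q V) E)) :
      (E ≃ₐ[fixedFld q V] E) × (E ≃ₐ[fixedFld q V] E) → L.unitsRep (fixedFld q V) E) =
      (f : (E ≃ₐ[fixedFld q V] E) × (E ≃ₐ[fixedFld q V] E) → L.unitsRep (fixedFld q V) E) -
      (g : (E ≃ₐ[fixedFld q V] E) × (E ≃ₐ[fixedFld q V] E) → L.unitsRep (fixedFld q V) E) := rfl
  rw [Submodule.coe_sub, h1, inflCochain₂_sub, hf, hg]

end Linear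

/-! ### Independence of the finite level -/

section Core

variable {q}
variable (J : L.InvFamily) (hO : OpenSpec) (hD : _root_.Fermat.Agent.S55.G.Rec.Loc.DescentSpec) (hDn : DownSpec) (hRf : RefineSpec)
variable (V : Subgroup (PadicAlgCl q ≃ₐ[ℚ_[q]] PadicAlgCl q))

include hO in
lemma isLocalFld_fixedFld (hV : IsOpenL q V) : L.IsLocalFld (fixedFld q V) :=
  haveI := (hO q V hV).1
  L.isLocalFld_intermediateField63 q (fixedFld q V)

lemma isGalois_sup (E₁ E₂ : IntermediateField (fixedFld q V) (PadicAlgCl q))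
    [IsGalois (fixedFld q V) E₁] [IsGalois (fixedFld q V) E₂] :
    IsGalois (fixedFld q V) ↥(E₁ ⊔ E₂) :=
  IsGalois.mk

include hDn hRf in
/-- Two finite-level representatives of the same level cocycle have the same invariant. -/
lemma inv_eq_of_isAbsInflation [L.IsLocalFld (fixedFld q V)] (hV : IsOpenL q V)
    (c : ↥(levelCocycles₂ (lHom q V) (lModOn q V)))
    (E₁ : IntermediateField (fixedFld q V) (PadicAlgCl q))
    [FiniteDimensional (fixedFld q V) E₁] [IsGalois (fixedFld q V) E₁]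
    (f₁ : cocycles₂ (L.unitsRep (fixedFld q V) E₁))
    (E₂ : IntermediateField (fixedFld q V) (PadicAlgCl q))
    [FiniteDimensional (fixedFld q V) E₂] [IsGalois (fixedFld q V) E₂]
    (f₂ : cocycles₂ (L.unitsRep (fixedFld q V) E₂))
    (h₁ : IsAbsInflation q V E₁ f₁ c) (h₂ : IsAbsInflation q V E₂ f₂ c) :
    J.inv (fixedFld q V) E₁ (L.cls f₁) = J.inv (fixedFld q V) E₂ (L.cls f₂) := by
  have : IsGalois (fixedFld q V) ↥(E₁ ⊔ E₂) := isGalois_sup V E₁ E₂
  obtain ⟨f₁', hf₁', hJ₁⟩ := hRf q V E₁ (E₁ ⊔ E₂) le_sup_left f₁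
  obtain ⟨f₂', hf₂', hJ₂⟩ := hRf q V E₂ (E₁ ⊔ E₂) le_sup_right f₂
  have h0 : IsAbsInflation q V (E₁ ⊔ E₂) (f₁' - f₂') (c - c) := (hf₁' c h₁).sub (hf₂' c h₂)
  have hcob : ((c - c : ↥(levelCocycles₂ (lHom q V) (lModOn q V))) : ↥V × ↥V → lModOn q V) ∈
      levelCoboundaries₂ (lHom q V) (lModOn q V) := by
    rw [sub_self]
    exact Submodule.zero_mem _
  have hcls : L.cls (f₁' - f₂') = 0 := hDn q V hV (E₁ ⊔ E₂) (f₁' - f₂') (c - c) h0 hcob
  have hcls' : L.cls f₁' = L.cls f₂' := by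
    have : L.cls (f₁' - f₂') = L.cls f₁' - L.cls f₂' := map_sub _ _ _
    rw [this, sub_eq_zero] at hcls
    exact hcls
  rw [← hJ₁ J, ← hJ₂ J, hcls']

include hD hDn hRf in
lemma exists_inv_value [L.IsLocalFld (fixedFld q V)] (hV : IsOpenL q V)
    (c : ↥(levelCocycles₂ (lHom q V) (lModOn q V))) :
    ∃ a : AddCircle (1 : ℚ), ∀ (E : IntermediateField (fixedFld q V) (PadicAlgCl q))
      [FiniteDimensional (fixedFld q V) E] [IsGalois (fixedFld q V) E]
      (f : cocycles₂ (L.unitsRep (fixedFld q V) E)),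
      IsAbsInflation q V E f c → J.inv (fixedFld q V) E (L.cls f) = a := by
  obtain ⟨E₀, hfd, hgal, f₀, -, h₀⟩ := hD q V hV c ⊥ inferInstance
  exact ⟨J.inv (fixedFld q V) E₀ (L.cls f₀), fun E _ _ f hf =>
    inv_eq_of_isAbsInflation J hDn hRf V hV c E f E₀ f₀ hf h₀⟩

/-- The invariant of a level cocycle on an open subgroup `V`. -/
def invCoc [L.IsLocalFld (fixedFld q V)] (hV : IsOpenL q V)
    (c : ↥(levelCocycles₂ (lHom q V) (lModOn q V))) : AddCircle (1 : ℚ) :=
  Classical.choose (exists_inv_value J hD hDn hRf V hV c)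

lemma invCoc_eq [L.IsLocalFld (fixedFld q V)] (hV : IsOpenL q V)
    (c : ↥(levelCocycles₂ (lHom q V) (lModOn q V)))
    (E : IntermediateField (fixedFld q V) (PadicAlgCl q))
    [FiniteDimensional (fixedFld q V) E] [IsGalois (fixedFld q V) E]
    (f : cocycles₂ (L.unitsRep (fixedFld q V) E)) (hf : IsAbsInflation q V E f c) :
    invCoc J hD hDn hRf V hV c = J.inv (fixedFld q V) E (L.cls f) :=
  (Classical.choose_spec (exists_inv_value J hD hDn hRf V hV c) E f hf).symm

lemma invCoc_add [L.IsLocalFld (fixedFld q V)] (hV : IsOpenL q V)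
    (c₁ c₂ : ↥(levelCocycles₂ (lHom q V) (lModOn q V))) :
    invCoc J hD hDn hRf V hV (c₁ + c₂) =
      invCoc J hD hDn hRf V hV c₁ + invCoc J hD hDn hRf V hV c₂ := by
  obtain ⟨E₁, hfd₁, hgal₁, f₁, -, h₁⟩ := hD q V hV c₁ ⊥ inferInstance
  obtain ⟨E₂, hfd₂, hgal₂, f₂, -, h₂⟩ := hD q V hV c₂ ⊥ inferInstance
  have : IsGalois (fixedFld q V) ↥(E₁ ⊔ E₂) := isGalois_sup V E₁ E₂
  obtain ⟨f₁', hf₁', hJ₁⟩ := hRf q V E₁ (E₁ ⊔ E₂) le_sup_left f₁
  obtain ⟨f₂', hf₂', hJ₂⟩ := hRf q V E₂ (E₁ ⊔ E₂) le_sup_right f₂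
  have e₁ := invCoc_eq J hD hDn hRf V hV (c₁ + c₂) (E₁ ⊔ E₂) (f₁' + f₂')
    ((hf₁' c₁ h₁).add (hf₂' c₂ h₂))
  have e₂ := invCoc_eq J hD hDn hRf V hV c₁ E₁ f₁ h₁
  have e₃ := invCoc_eq J hD hDn hRf V hV c₂ E₂ f₂ h₂
  have e₄ : L.cls (f₁' + f₂') = L.cls f₁' + L.cls f₂' := map_add _ _ _
  have e₅ : J.inv (fixedFld q V) ↥(E₁ ⊔ E₂) (L.cls f₁' + L.cls f₂') =
      J.inv (fixedFld q V) ↥(E₁ ⊔ E₂) (L.cls f₁') + J.inv (fixedFld q V) ↥(E₁ ⊔ E₂) (L.cls f₂') :=
    map_add _ _ _
  calc invCoc J hD hDn hRf V hV (c₁ + c₂)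
      = J.inv (fixedFld q V) ↥(E₁ ⊔ E₂) (L.cls (f₁' + f₂')) := e₁
    _ = J.inv (fixedFld q V) ↥(E₁ ⊔ E₂) (L.cls f₁') +
          J.inv (fixedFld q V) ↥(E₁ ⊔ E₂) (L.cls f₂') := by rw [e₄, e₅]
    _ = J.inv (fixedFld q V) E₁ (L.cls f₁) + J.inv (fixedFld q V) E₂ (L.cls f₂) := by
          rw [hJ₁ J, hJ₂ J]
    _ = invCoc J hD hDn hRf V hV c₁ + invCoc J hD hDn hRf V hV c₂ := by rw [e₂, e₃]

lemma invCoc_eq_zero_of_mem [L.IsLocalFld (fixedFld q V)] (hV : IsOpenL q V)
    (c : ↥(levelCocycles₂ (lHom q V) (lModOn q V)))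
    (hc : (c : ↥V × ↥V → lModOn q V) ∈ levelCoboundaries₂ (lHom q V) (lModOn q V)) :
    invCoc J hD hDn hRf V hV c = 0 := by
  obtain ⟨E, hfd, hgal, f, -, h⟩ := hD q V hV c ⊥ inferInstance
  rw [invCoc_eq J hD hDn hRf V hV c E f h, hDn q V hV E f c h hc, map_zero]

/-- The invariant as a linear map on level cocycles. -/
def invLin [L.IsLocalFld (fixedFld q V)] (hV : IsOpenL q V) :
    ↥(levelCocycles₂ (lHom q V) (lModOn q V)) →ₗ[ℤ] AddCircle (1 : ℚ) :=
  (AddMonoidHom.mk' (invCoc J hD hDn hRf V hV) (invCoc_add J hD hDn hRf V hV)).toIntLinearMap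

/-- The invariant map on the absolute Brauer group of an open subgroup. -/
def invOpen [L.IsLocalFld (fixedFld q V)] (hV : IsOpenL q V) :
    lBr q V →ₗ[ℤ] AddCircle (1 : ℚ) :=
  Submodule.liftQ _ (invLin J hD hDn hRf V hV) (fun c hc =>
    invCoc_eq_zero_of_mem J hD hDn hRf V hV c hc)

lemma invOpen_mk [L.IsLocalFld (fixedFld q V)] (hV : IsOpenL q V)
    (c : ↥(levelCocycles₂ (lHom q V) (lModOn q V))) :
    invOpen J hD hDn hRf V hV (continuousH2π (lHom q V) (lModOn q V) c) =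
      invCoc J hD hDn hRf V hV c := rfl

end Core

/-! ### The invariant maps for all subgroups and the `LocalInvSystem` -/

section All

variable (J : L.InvFamily) (hO : OpenSpec) (hD : _root_.Fermat.Agent.S55.G.Rec.Loc.DescentSpec) (hDn : DownSpec) (hRf : RefineSpec)

open Classical in
/-- The invariant map on `lBr q V` (zero if `V` is not open). -/
def invAll (q : ℕ) [Fact q.Prime] (V : Subgroup (PadicAlgCl q ≃ₐ[ℚ_[q]] PadicAlgCl q)) :
    lBr q V →+ AddCircle (1 : ℚ) :=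
  if hV : IsOpenL q V then
    haveI := isLocalFld_fixedFld hO V hV
    (invOpen J hD hDn hRf V hV).toAddMonoidHom
  else 0

variable {q}

lemma invAll_mk (V : Subgroup (PadicAlgCl q ≃ₐ[ℚ_[q]] PadicAlgCl q))
    [L.IsLocalFld (fixedFld q V)] (hV : IsOpenL q V)
    (c : ↥(levelCocycles₂ (lHom q V) (lModOn q V))) :
    invAll J hO hD hDn hRf q V (continuousH2π (lHom q V) (lModOn q V) c) =
      invCoc J hD hDn hRf V hV c := by
  unfold invAll
  rw [dif_pos hV]
  rfl

lemma isOpenL_mono {V V' : Subgroup (PadicAlgCl q ≃ₐ[ℚ_[q]] PadicAlgCl q)} (h : V' ≤ V)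
    (hV' : IsOpenL q V') : IsOpenL q V := by
  obtain ⟨E, hE, hle⟩ := hV'
  exact ⟨E, hE, hle.trans h⟩

end All

section Fields

variable (J : L.InvFamily) (hO : OpenSpec) (hD : _root_.Fermat.Agent.S55.G.Rec.Loc.DescentSpec) (hUp : UpSpec)
  (hDn : DownSpec) (hRf : RefineSpec) (hRs : ResSpec) (hUr : UnramSpec) (hUf : UnifSpec)
variable {q}

include hUp in
lemma invAll_injective (V : Subgroup (PadicAlgCl q ≃ₐ[ℚ_[q]] PadicAlgCl q))
    (hV : IsOpenL q V) : Function.Injective (invAll J hO hD hDn hRf q V) := by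
  have := isLocalFld_fixedFld hO V hV
  rw [injective_iff_map_eq_zero]
  intro x hx
  obtain ⟨c, rfl⟩ := Submodule.mkQ_surjective _ x
  have hx' : invAll J hO hD hDn hRf q V (continuousH2π (lHom q V) (lModOn q V) c) = 0 := hx
  rw [invAll_mk J hO hD hDn hRf V hV c] at hx'
  obtain ⟨E, hfd, hgal, f, -, h⟩ := hD q V hV c ⊥ inferInstance
  rw [invCoc_eq J hD hDn hRf V hV c E f h] at hx'
  have hcls : L.cls f = 0 := J.inv_injective (fixedFld q V) E (by rw [hx', map_zero])
  exact (continuousH2π_eq_zero_iff (lHom q V) (lModOn q V) c).2 (hUp q V hV E f c h hcls)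

/-- The restriction of a level cocycle to a subgroup. -/
def resCoc {V V' : Subgroup (PadicAlgCl q ≃ₐ[ℚ_[q]] PadicAlgCl q)} (h : V' ≤ V) :
    ↥(levelCocycles₂ (lHom q V) (lModOn q V)) →ₗ[ℤ]
      ↥(levelCocycles₂ (lHom q V') (lModOn q V')) :=
  levelCocycles₂Map (rH := lHom q V) (rG := lHom q V') (Subgroup.inclusion h)
    (fun _ => rfl) (LinearMap.id : lModOn q V →ₗ[ℤ] lModOn q V') (fun _ _ => rfl)

lemma resCoc_apply {V V' : Subgroup (PadicAlgCl q ≃ₐ[ℚ_[q]] PadicAlgCl q)} (h : V' ≤ V)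
    (c : ↥(levelCocycles₂ (lHom q V) (lModOn q V))) (g k : ↥V') :
    (resCoc h c : ↥V' × ↥V' → lModOn q V') (g, k) =
      (c : ↥V × ↥V → lModOn q V) (Subgroup.inclusion h g, Subgroup.inclusion h k) := rfl

lemma lRes_mk {V V' : Subgroup (PadicAlgCl q ≃ₐ[ℚ_[q]] PadicAlgCl q)} (h : V' ≤ V)
    (c : ↥(levelCocycles₂ (lHom q V) (lModOn q V))) :
    lRes q h (continuousH2π (lHom q V) (lModOn q V) c) =
      continuousH2π (lHom q V') (lModOn q V') (resCoc h c) := rfl

include hRs in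
lemma invAll_res (V V' : Subgroup (PadicAlgCl q ≃ₐ[ℚ_[q]] PadicAlgCl q)) (h : V' ≤ V)
    (hV' : IsOpenL q V') (x : lBr q V) :
    invAll J hO hD hDn hRf q V' (lRes q h x) =
      V'.relIndex V • invAll J hO hD hDn hRf q V x := by
  have hV : IsOpenL q V := isOpenL_mono h hV'
  have := isLocalFld_fixedFld hO V hV
  have := isLocalFld_fixedFld hO V' hV'
  obtain ⟨c, hc⟩ := Submodule.mkQ_surjective _ x
  have hx : x = continuousH2π (lHom q V) (lModOn q V) c := hc.symm
  obtain ⟨E, hfd, hgal, f, E', hfd', hgal', f', hf, hf', hJ⟩ :=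
    hRs q V V' h hV' c (resCoc h c) (resCoc_apply h c)
  have e2 : invAll J hO hD hDn hRf q V (continuousH2π (lHom q V) (lModOn q V) c) =
      J.inv (fixedFld q V) E (L.cls f) := by
    rw [invAll_mk J hO hD hDn hRf V hV]
    exact invCoc_eq J hD hDn hRf V hV c E f hf
  have e0 : invAll J hO hD hDn hRf q V' (continuousH2π (lHom q V') (lModOn q V') (resCoc h c)) =
      J.inv (fixedFld q V') E' (L.cls f') := by
    rw [invAll_mk J hO hD hDn hRf V' hV']
    exact invCoc_eq J hD hDn hRf V' hV' _ E' f' hf'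
  have e1 : invAll J hO hD hDn hRf q V' (lRes q h x) =
      invAll J hO hD hDn hRf q V' (continuousH2π (lHom q V') (lModOn q V') (resCoc h c)) :=
    congrArg (invAll J hO hD hDn hRf q V') ((congrArg (lRes q h) hx).trans (lRes_mk h c))
  have e3 : V'.relIndex V • invAll J hO hD hDn hRf q V x =
      V'.relIndex V • J.inv (fixedFld q V) E (L.cls f) :=
    congrArg (fun y => V'.relIndex V • y) ((congrArg (invAll J hO hD hDn hRf q V) hx).trans e2)
  exact (e1.trans e0).trans ((hJ J).trans e3.symm)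

include hUr in
lemma invAll_unram (V : Subgroup (PadicAlgCl q ≃ₐ[ℚ_[q]] PadicAlgCl q)) (hV : IsOpenL q V)
    (c : ↥(levelCocycles₂ (lHom q V) (lModOn q V)))
    (h1 : ∀ g h : ↥V, ‖((Additive.toMul ((c : ↥V × ↥V → lModOn q V) (g, h)) :
        (PadicAlgCl q)ˣ) : PadicAlgCl q)‖ = 1)
    (h2 : ∀ g h i j : ↥V, IsInertial q (i : PadicAlgCl q ≃ₐ[ℚ_[q]] PadicAlgCl q) →
        IsInertial q (j : PadicAlgCl q ≃ₐ[ℚ_[q]] PadicAlgCl q) →
        (c : ↥V × ↥V → lModOn q V) (g * i, h * j) = (c : ↥V × ↥V → lModOn q V) (g, h))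
    (h3 : ∀ g h i : ↥V, IsInertial q (i : PadicAlgCl q ≃ₐ[ℚ_[q]] PadicAlgCl q) →
        (lModOn q V).ρ i ((c : ↥V × ↥V → lModOn q V) (g, h)) =
          (c : ↥V × ↥V → lModOn q V) (g, h)) :
    invAll J hO hD hDn hRf q V (continuousH2π (lHom q V) (lModOn q V) c) = 0 := by
  have hc := hUr q V hV c h1 h2 h3
  rw [(continuousH2π_eq_zero_iff (lHom q V) (lModOn q V) c).2 hc, map_zero]

include hUf in
lemma invAll_unif (V : Subgroup (PadicAlgCl q ≃ₐ[ℚ_[q]] PadicAlgCl q)) (hV : IsOpenL q V)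
    (n : ℕ) [NeZero n] (χ : ↥V →* Multiplicative (ZMod n))
    (hχ : ∀ τ : ↥V, IsInertial q (τ : PadicAlgCl q ≃ₐ[ℚ_[q]] PadicAlgCl q) → χ τ = 1)
    (φ : PadicAlgCl q ≃ₐ[ℚ_[q]] PadicAlgCl q) (hφ : IsFrobenius q V φ)
    (π : (PadicAlgCl q)ˣ) (hπ : IsUniformizer q V (π : PadicAlgCl q))
    (c : ↥(levelCocycles₂ (lHom q V) (lModOn q V)))
    (hc : IsCupChar (toLMod q V π) χ (c : ↥V × ↥V → lModOn q V)) :
    invAll J hO hD hDn hRf q V (continuousH2π (lHom q V) (lModOn q V) c) =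
      (((((Multiplicative.toAdd (χ ⟨φ, hφ.1⟩)).val : ℚ) / (n : ℚ) : ℚ)) : AddCircle (1 : ℚ)) := by
  have := isLocalFld_fixedFld hO V hV
  obtain ⟨E, hfd, hgal, f, hf, hval⟩ := hUf q V hV n χ hχ φ hφ π hπ c hc J
  rw [invAll_mk J hO hD hDn hRf V hV c, invCoc_eq J hD hDn hRf V hV c E f hf]
  exact hval

end Fields

/-- **REC-LOC**: the absolute local invariant system built from the finite-level invariant
maps of layer L. -/
def localInvSystem_of (J : L.InvFamily) (hO : OpenSpec) (hD : _root_.Fermat.Agent.S55.G.Rec.Loc.DescentSpec) (hUp : UpSpec)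
    (hDn : DownSpec) (hRf : RefineSpec) (hRs : ResSpec) (hUr : UnramSpec) (hUf : UnifSpec) :
    LocalInvSystem where
  inv q _ V := invAll J hO hD hDn hRf q V
  inv_injective _ _ V hV := invAll_injective J hO hD hUp hDn hRf V hV
  inv_res _ _ V V' h hV' x := invAll_res J hO hD hDn hRf hRs V V' h hV' x
  inv_unram _ _ V hV c h1 h2 h3 := invAll_unram J hO hD hDn hRf hUr V hV c h1 h2 h3
  inv_unif _ _ V hV n _ χ hχ φ hφ π hπ c hc :=
    invAll_unif J hO hD hDn hRf hUf V hV n χ hχ φ hφ π hπ c hc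

/-- `Nonempty` form. -/
theorem nonempty_localInvSystem_of (hJ : L.InvSpec) (hO : OpenSpec) (hD : _root_.Fermat.Agent.S55.G.Rec.Loc.DescentSpec)
    (hUp : UpSpec) (hDn : DownSpec) (hRf : RefineSpec) (hRs : ResSpec) (hUr : UnramSpec)
    (hUf : UnifSpec) : Nonempty LocalInvSystem :=
  hJ.elim fun J => ⟨localInvSystem_of J hO hD hUp hDn hRf hRs hUr hUf⟩

end Fermat.Agent.S55.G.Rec.Loc

end
end
-- ===== PACK-END S55/G/Rec/Loc/Glue.lean

-- ===== PACK-BEGIN S55/L/Unram784/Poly.lean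
section


/-!
# S55, layer L, leaf L-A2 (helper784): existence of the auxiliary polynomial and of a root
-/

set_option autoImplicit false
set_option linter.unusedSectionVars false

namespace Fermat.Agent.S55.L

open IsLocalRing Polynomial

section Poly

variable {R : Type} [CommRing R] [IsLocalRing R]

/-- Monic lifts of monic polynomials over the residue field. -/
theorem u784_exists_monic_lift (f : (ResidueField R)[X]) (hf : f.Monic) :
    ∃ g : R[X], g.Monic ∧ g.map (residue R) = f ∧ g.natDegree = f.natDegree := by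
  have hmem : f ∈ Polynomial.lifts (residue R) := by
    rw [Polynomial.mem_lifts]
    exact Polynomial.map_surjective _ residue_surjective f
  obtain ⟨g, hg1, hg2, hg3⟩ := Polynomial.lifts_and_natDegree_eq_and_monic hmem hf
  exact ⟨g, hg3, hg1, hg2⟩

/-- Over a finite field there are monic irreducible polynomials of every degree `[l : k]`. -/
theorem u784_exists_irreducible_of_finrank {k l : Type} [Field k] [Field l] [Algebra k l]
    [Finite k] [Finite l] :
    ∃ f : k[X], f.Monic ∧ Irreducible f ∧ f.natDegree = Module.finrank k l := by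
  obtain ⟨θ, hθ⟩ := Field.exists_primitive_element k l
  have hint : IsIntegral k θ := Algebra.IsIntegral.isIntegral θ
  refine ⟨minpoly k θ, minpoly.monic hint, minpoly.irreducible hint, ?_⟩
  rw [← IntermediateField.adjoin.finrank hint, hθ, IntermediateField.finrank_top']

variable {S : Type} [CommRing S] [IsLocalRing S] [Algebra R S] [IsLocalHom (algebraMap R S)]
  [IsAdicComplete (maximalIdeal S) S] [Finite (ResidueField R)] [Finite (ResidueField S)]

/-- The auxiliary polynomial: monic, with irreducible reduction of degree `[l : k]`. -/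
theorem u784_exists_poly :
    ∃ g : R[X], g.Monic ∧ Irreducible (g.map (residue R)) ∧
      g.natDegree = Module.finrank (ResidueField R) (ResidueField S) := by
  obtain ⟨f, hf1, hf2, hf3⟩ :=
    u784_exists_irreducible_of_finrank (k := ResidueField R) (l := ResidueField S)
  obtain ⟨g, hg1, hg2, hg3⟩ := u784_exists_monic_lift f hf1
  exact ⟨g, hg1, hg2 ▸ hf2, hg3.trans hf3⟩

/-- A monic polynomial with irreducible reduction of degree `[l : k]` has a root in `S`. -/
theorem u784_exists_root (g : R[X]) (hg : g.Monic) (hirr : Irreducible (g.map (residue R)))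
    (hdeg : g.natDegree = Module.finrank (ResidueField R) (ResidueField S)) :
    ∃ β : S, (g.map (algebraMap R S)).IsRoot β := by
  have hdeg' : (g.map (residue R)).natDegree =
      Module.finrank (ResidueField R) (ResidueField S) := by
    rw [hg.natDegree_map, hdeg]
  have hsp := u784_splits_of_natDegree_eq (S := S) (g.map (residue R)) hirr hdeg'
  have hsep : (g.map (residue R)).Separable := PerfectField.separable_of_irreducible hirr
  have hpos : 0 < Multiset.card ((g.map (residue R)).map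
      (algebraMap (ResidueField R) (ResidueField S))).roots := by
    rw [splits_iff_card_roots.mp hsp, (hg.map _).natDegree_map, hdeg']
    exact Module.finrank_pos
  obtain ⟨r, hr⟩ := Multiset.card_pos_iff_exists_mem.mp hpos
  rw [Polynomial.mem_roots ((hg.map _).map _).ne_zero] at hr
  obtain ⟨β, hβ, -⟩ := u784_exists_lift_root g hg hsep r hr
  exact ⟨β, hβ⟩

end Poly

end Fermat.Agent.S55.L

end
-- ===== PACK-END S55/L/Unram784/Poly.lean

-- ===== PACK-BEGIN S14/H894/LocalI.lean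
section


/-!
# S14 / H894 : LOCAL-I

`exists_inertia_moving_root` : if `β ^ p ∈ K` (`p` prime) and the valuation of `β` is not the
valuation of an element of `K`, then some element of the inertia group of `A` fixes `K`
pointwise and moves `β`.

Contrapositive (`exists_valuation_eq_of_inertia_fixed`): if every element of `I_A` fixing `K`
pointwise fixes `β`, then `v(β) = v(c)` for some `c ∈ K`, hence `v(β ^ p) = v(c) ^ p`.
-/

set_option autoImplicit false
set_option linter.style.haveILetI false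

open scoped Pointwise

namespace Fermat.Agent.S14.H894

open Polynomial Fermat.Agent.S54

local notation "Qb" => AlgebraicClosure ℚ
local notation "GQ" => (AlgebraicClosure ℚ ≃ₐ[ℚ] AlgebraicClosure ℚ)

/-- An element of `ℚ̄` outside the intermediate field `K` is moved by some element of
`Gal(ℚ̄/K)`. -/
theorem exists_fixing_ne_of_not_mem (K : IntermediateField ℚ Qb) (β : Qb) (hβ : β ∉ K) :
    ∃ τ : GQ, (∀ x ∈ K, τ x = x) ∧ τ β ≠ β := by
  haveI := isGalois_algebraicClosure_rat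
  by_contra hcon
  push Not at hcon
  apply hβ
  rw [← InfiniteGalois.fixedField_fixingSubgroup K, IntermediateField.mem_fixedField_iff]
  intro τ hτ
  exact hcon τ (fun x hx => (IntermediateField.mem_fixingSubgroup_iff K τ).mp hτ x hx)

/-- **LOCAL-I**, existence form. -/
theorem exists_inertia_moving_root (A : ValuationSubring Qb) (ℓ : ℕ) (hℓ : ℓ.Prime)
    (hA : A.LiesOverPrime ℓ) (K : IntermediateField ℚ Qb) (p : ℕ) (hp : p.Prime)
    (β : Qb) (hβK : β ^ p ∈ K) (hval : ∀ c ∈ K, A.valuation β ≠ A.valuation c) :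
    ∃ σ ∈ A.inertiaSubgroupIn ℚ, (∀ x ∈ K, σ x = x) ∧ σ β ≠ β := by
  have hβ0 : β ≠ 0 := by
    rintro rfl
    exact hval 0 K.zero_mem rfl
  have hvβ0 : A.valuation β ≠ 0 := (Valuation.ne_zero_iff _).mpr hβ0
  have hβK' : β ∉ K := fun h => hval β h rfl
  obtain ⟨τ, hτK, hτβ⟩ := exists_fixing_ne_of_not_mem K β hβK'
  -- the polynomial
  let α : K := ⟨β ^ p, hβK⟩
  let f : K[X] := X ^ p - C α
  have hf : f.Monic := monic_X_pow_sub_C α hp.ne_zero
  have hdeg : f.natDegree = p := natDegree_X_pow_sub_C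
  have hγ : aeval β f = 0 := by
    simp only [f, map_sub, map_pow, aeval_X, aeval_C]
    show β ^ p - (α : Qb) = 0
    exact sub_self _
  have hindep : ∀ k : ℕ, 0 < k → k < f.natDegree → ∀ c ∈ K,
      A.valuation β ^ k ≠ A.valuation c := by
    intro k hk0 hkp c hc heq
    rw [hdeg] at hkp
    have hcop : Nat.Coprime k p :=
      (Nat.coprime_of_lt_prime hk0.ne' hkp hp).symm
    obtain ⟨m, -, hm⟩ := Nat.exists_mul_mod_eq_one_of_coprime hcop hp.one_lt
    have hkm : k * m = p * (k * m / p) + 1 := by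
      have := Nat.div_add_mod (k * m) p
      rw [hm] at this
      exact this.symm
    set t := k * m / p with ht
    have h1 : A.valuation β ^ (k * m) = A.valuation (c ^ m) := by
      rw [pow_mul, heq, map_pow]
    have h2 : A.valuation β ^ (k * m) = A.valuation ((β ^ p) ^ t) * A.valuation β := by
      rw [hkm, pow_succ, pow_mul, map_pow, map_pow]
    have hα0 : A.valuation ((β ^ p) ^ t) ≠ 0 :=
      (Valuation.ne_zero_iff _).mpr (pow_ne_zero _ (pow_ne_zero _ hβ0))
    refine hval (c ^ m / (β ^ p) ^ t) (K.div_mem (pow_mem hc m) (pow_mem hβK t)) ?_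
    rw [map_div₀, eq_div_iff hα0, mul_comm, ← h2, h1]
  have hconj : ∀ τ : GQ, (∀ x ∈ K, τ x = x) → A.valuation (τ β) = A.valuation β := by
    intro τ hτ
    have h1 : (τ β) ^ p = β ^ p := by
      rw [← map_pow]; exact hτ _ hβK
    have h2 : A.valuation (τ β) ^ p = A.valuation β ^ p := by
      rw [← Valuation.map_pow, h1, Valuation.map_pow]
    exact (pow_left_inj hp.ne_zero).mp h2
  obtain ⟨σ, hσI, hσK, hσβ⟩ :=
    exists_inertia_eq_on_adjoin A ℓ hℓ hA K β f hf hγ hindep hconj τ hτK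
  exact ⟨σ, hσI, hσK, by rw [hσβ]; exact hτβ⟩

/-- **LOCAL-I**: if every element of the inertia group of `A` fixing `K` pointwise fixes `β`,
where `β ^ p ∈ K`, then the valuation of `β` is the valuation of an element of `K`. -/
theorem exists_valuation_eq_of_inertia_fixed (A : ValuationSubring Qb) (ℓ : ℕ) (hℓ : ℓ.Prime)
    (hA : A.LiesOverPrime ℓ) (K : IntermediateField ℚ Qb) (p : ℕ) (hp : p.Prime)
    (β : Qb) (hβK : β ^ p ∈ K)
    (hfix : ∀ σ ∈ A.inertiaSubgroupIn ℚ, (∀ x ∈ K, σ x = x) → σ β = β) :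
    ∃ c ∈ K, A.valuation β = A.valuation c := by
  by_contra hcon
  push Not at hcon
  obtain ⟨σ, hσI, hσK, hσβ⟩ := exists_inertia_moving_root A ℓ hℓ hA K p hp β hβK hcon
  exact hσβ (hfix σ hσI hσK)

/-- **LOCAL-I**, Kummer form: the valuation of `α = β ^ p` is a `p`-th power of the valuation
of an element of `K`. -/
theorem exists_valuation_eq_pow_of_inertia_fixed (A : ValuationSubring Qb) (ℓ : ℕ)
    (hℓ : ℓ.Prime) (hA : A.LiesOverPrime ℓ) (K : IntermediateField ℚ Qb) (p : ℕ)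
    (hp : p.Prime) (β : Qb) (hβK : β ^ p ∈ K)
    (hfix : ∀ σ ∈ A.inertiaSubgroupIn ℚ, (∀ x ∈ K, σ x = x) → σ β = β) :
    ∃ c ∈ K, A.valuation (β ^ p) = A.valuation (c ^ p) := by
  obtain ⟨c, hc, h⟩ := exists_valuation_eq_of_inertia_fixed A ℓ hℓ hA K p hp β hβK hfix
  exact ⟨c, hc, by rw [map_pow, map_pow, h]⟩

end Fermat.Agent.S14.H894

end
-- ===== PACK-END S14/H894/LocalI.lean

-- ===== PACK-BEGIN S56/H956/TWPCocycle.lean
section



/-!
# S56 / TWP — twisted cocycles: cyclotomic exponents, conjugation of local triviality (helper956)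

* `eps k p σ` — the mod `p` cyclotomic character of `σ`, as an element of `k` (`CharP k p`);
* `tw ρbar p σ m = eps σ • ρ̄(σ) m ρ̄(σ)⁻¹` — the twisted adjoint action;
* `isTwCoboundaryOn_conj` — a global twisted cocycle which is a coboundary on `D_A` is a
  coboundary on `D_{g • A}`;
* `locTrivAt_iff` — local triviality at `ℓ` can be tested on ANY valuation subring over `ℓ`;
* `locSub` — the `k`-subspace of functions which are coboundaries on `D_A`.
-/

set_option autoImplicit false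

open Polynomial
open scoped Pointwise

noncomputable section

namespace Fermat.Agent.S56.H956

open Fermat.Agent.S56

/-! ### Cyclotomic exponents -/

theorem exists_isPrimitiveRoot_Qb (m : ℕ) (hm : m ≠ 0) : ∃ ζ : Qb, IsPrimitiveRoot ζ m := by
  have : NeZero (m : ℚ) := ⟨by exact_mod_cast hm⟩
  exact HasEnoughRootsOfUnity.exists_primitiveRoot Qb m

theorem isCycExp_one (p : ℕ) : IsCycExp p 1 1 := fun μ _ => by
  rw [pow_one]
  rfl

theorem isCycExp_mul {p : ℕ} {σ τ : GQ} {a b : ℕ} (hσ : IsCycExp p σ a)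
    (hτ : IsCycExp p τ b) : IsCycExp p (σ * τ) (a * b) := by
  intro μ hμ
  rw [AlgEquiv.mul_apply, hτ μ hμ, map_pow, hσ μ hμ, ← pow_mul]

theorem exists_isCycExp {p : ℕ} (hp : p ≠ 0) (σ : GQ) : ∃ a, IsCycExp p σ a := by
  obtain ⟨ζ, hζ⟩ := exists_isPrimitiveRoot_Qb p hp
  have : NeZero p := ⟨hp⟩
  have h1 : (σ ζ) ^ p = 1 := by rw [← map_pow, hζ.pow_eq_one, map_one]
  obtain ⟨a, -, ha⟩ := hζ.eq_pow_of_pow_eq_one h1
  refine ⟨a, fun μ hμ => ?_⟩
  obtain ⟨i, -, rfl⟩ := hζ.eq_pow_of_pow_eq_one hμ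
  rw [map_pow, ← ha, ← pow_mul, ← pow_mul, mul_comm]

theorem natCast_eq_of_isCycExp (k : Type*) [Field k] {p : ℕ} [CharP k p] (hp : p ≠ 0)
    {σ : GQ} {a b : ℕ} (ha : IsCycExp p σ a) (hb : IsCycExp p σ b) : (a : k) = (b : k) := by
  obtain ⟨ζ, hζ⟩ := exists_isPrimitiveRoot_Qb p hp
  have h1 : ζ ^ a = ζ ^ b := (ha ζ hζ.pow_eq_one).symm.trans (hb ζ hζ.pow_eq_one)
  have h2 : a ≡ b [MOD p] := by
    have h3 : IsOfFinOrder ζ := isOfFinOrder_iff_pow_eq_one.mpr ⟨p, Nat.pos_of_ne_zero hp,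
      hζ.pow_eq_one⟩
    have := h3.pow_eq_pow_iff_modEq.mp h1
    rwa [← hζ.eq_orderOf] at this
  exact (CharP.natCast_eq_natCast k p).mpr h2

/-- The mod `p` cyclotomic character, with values in `k`. -/
def eps (k : Type*) [Field k] (p : ℕ) (σ : GQ) : k :=
  open Classical in if h : ∃ a, IsCycExp p σ a then ((Classical.choose h : ℕ) : k) else 0

section eps

variable (k : Type*) [Field k] {p : ℕ} [CharP k p]

theorem eps_eq (hp : p ≠ 0) {σ : GQ} {a : ℕ} (ha : IsCycExp p σ a) : eps k p σ = (a : k) := by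
  have h : ∃ a, IsCycExp p σ a := ⟨a, ha⟩
  unfold eps
  rw [dif_pos h]
  exact natCast_eq_of_isCycExp k hp (Classical.choose_spec h) ha

theorem eps_one (hp : p ≠ 0) : eps k p 1 = 1 := by
  rw [eps_eq k hp (isCycExp_one p), Nat.cast_one]

theorem eps_mul (hp : p ≠ 0) (σ τ : GQ) : eps k p (σ * τ) = eps k p σ * eps k p τ := by
  obtain ⟨a, ha⟩ := exists_isCycExp hp σ
  obtain ⟨b, hb⟩ := exists_isCycExp hp τ
  rw [eps_eq k hp (isCycExp_mul ha hb), eps_eq k hp ha, eps_eq k hp hb, Nat.cast_mul]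

theorem eps_mul_inv (hp : p ≠ 0) (σ : GQ) : eps k p σ * eps k p σ⁻¹ = 1 := by
  rw [← eps_mul k hp, mul_inv_cancel, eps_one k hp]

theorem eps_inv_mul (hp : p ≠ 0) (σ : GQ) : eps k p σ⁻¹ * eps k p σ = 1 := by
  rw [← eps_mul k hp, inv_mul_cancel, eps_one k hp]

end eps

/-! ### The twisted adjoint action -/

section tw

variable {k : Type} [Field k] (ρbar : ResidualGaloisRep k) (p : ℕ)

/-- The twisted adjoint action of `G_ℚ` on `End_k V`. -/
def tw (σ : GQ) (m : Module.End k ρbar.V) : Module.End k ρbar.V :=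
  eps k p σ • (ρbar.ρ σ * m * ρbar.ρ σ⁻¹)

variable {ρbar p}

theorem rho_mul_rho_inv (σ : GQ) : ρbar.ρ σ * ρbar.ρ σ⁻¹ = 1 := by
  rw [← map_mul, mul_inv_cancel, map_one]

theorem rho_inv_mul_rho (σ : GQ) : ρbar.ρ σ⁻¹ * ρbar.ρ σ = 1 := by
  rw [← map_mul, inv_mul_cancel, map_one]

theorem trace_conj_rho (σ : GQ) (m : Module.End k ρbar.V) :
    LinearMap.trace k ρbar.V (ρbar.ρ σ * m * ρbar.ρ σ⁻¹) = LinearMap.trace k ρbar.V m := by
  rw [LinearMap.trace_mul_comm, ← mul_assoc, rho_inv_mul_rho, one_mul]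

theorem tw_zero (σ : GQ) : tw ρbar p σ 0 = 0 := by
  unfold tw
  rw [mul_zero, zero_mul, smul_zero]

theorem tw_add (σ : GQ) (m m' : Module.End k ρbar.V) :
    tw ρbar p σ (m + m') = tw ρbar p σ m + tw ρbar p σ m' := by
  unfold tw
  rw [mul_add, add_mul, smul_add]

theorem tw_neg (σ : GQ) (m : Module.End k ρbar.V) :
    tw ρbar p σ (-m) = -tw ρbar p σ m := by
  unfold tw
  rw [mul_neg, neg_mul, smul_neg]

theorem tw_sub (σ : GQ) (m m' : Module.End k ρbar.V) :
    tw ρbar p σ (m - m') = tw ρbar p σ m - tw ρbar p σ m' := by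
  rw [sub_eq_add_neg, tw_add, tw_neg, ← sub_eq_add_neg]

theorem tw_smul (σ : GQ) (t : k) (m : Module.End k ρbar.V) :
    tw ρbar p σ (t • m) = t • tw ρbar p σ m := by
  unfold tw
  rw [mul_smul_comm, smul_mul_assoc, smul_comm]

theorem trace_tw (σ : GQ) (m : Module.End k ρbar.V) :
    LinearMap.trace k ρbar.V (tw ρbar p σ m) = eps k p σ * LinearMap.trace k ρbar.V m := by
  unfold tw
  rw [map_smul, trace_conj_rho, smul_eq_mul]

variable [CharP k p]

theorem twAd_eq_tw (hp : p ≠ 0) {σ : GQ} {a : ℕ} (ha : IsCycExp p σ a)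
    (m : Module.End k ρbar.V) : twAd ρbar σ a m = tw ρbar p σ m := by
  unfold twAd tw
  rw [eps_eq k hp ha]

theorem tw_one (hp : p ≠ 0) (m : Module.End k ρbar.V) : tw ρbar p 1 m = m := by
  unfold tw
  rw [eps_one k hp, one_smul, inv_one, map_one, one_mul, mul_one]

theorem tw_mul (hp : p ≠ 0) (σ τ : GQ) (m : Module.End k ρbar.V) :
    tw ρbar p (σ * τ) m = tw ρbar p σ (tw ρbar p τ m) := by
  unfold tw
  rw [eps_mul k hp, mul_inv_rev, map_mul, map_mul, mul_smul_comm, smul_mul_assoc, smul_smul]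
  simp only [mul_assoc]

/-! ### Cocycles -/

variable {c : GQ → Module.End k ρbar.V}

theorem map_mul_of_isTwCocycle (hp : p ≠ 0) (hc : IsTwCocycle ρbar p c) (σ τ : GQ) :
    c (σ * τ) = c σ + tw ρbar p σ (c τ) := by
  obtain ⟨a, ha⟩ := exists_isCycExp hp σ
  rw [hc.map_mul σ τ a ha, twAd_eq_tw hp ha]

theorem map_one_of_isTwCocycle (hp : p ≠ 0) (hc : IsTwCocycle ρbar p c) : c 1 = 0 := by
  have h := map_mul_of_isTwCocycle hp hc 1 1
  rw [mul_one, tw_one hp] at h
  exact left_eq_add.mp h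

theorem tw_map_inv_of_isTwCocycle (hp : p ≠ 0) (hc : IsTwCocycle ρbar p c) (g : GQ) :
    tw ρbar p g (c g⁻¹) = -c g := by
  have h := map_mul_of_isTwCocycle hp hc g g⁻¹
  rw [mul_inv_cancel, map_one_of_isTwCocycle hp hc] at h
  exact (neg_eq_of_add_eq_zero_right h.symm).symm

theorem isTwCoboundaryOn_iff (hp : p ≠ 0) (H : Subgroup GQ) (m : Module.End k ρbar.V) :
    IsTwCoboundaryOn ρbar p H c m ↔
      LinearMap.trace k ρbar.V m = 0 ∧ ∀ σ ∈ H, c σ = tw ρbar p σ m - m := by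
  constructor
  · rintro ⟨h1, h2⟩
    refine ⟨h1, fun σ hσ => ?_⟩
    obtain ⟨a, ha⟩ := exists_isCycExp hp σ
    rw [h2 σ hσ a ha, twAd_eq_tw hp ha]
  · rintro ⟨h1, h2⟩
    refine ⟨h1, fun σ hσ a ha => ?_⟩
    rw [h2 σ hσ, twAd_eq_tw hp ha]

/-- **Conjugation of local triviality.**  A global twisted cocycle which is the coboundary of `m`
on `D_A` is the coboundary of `g · m - c(g)` on `D_{g • A}`. -/
theorem isTwCoboundaryOn_conj (hp : p ≠ 0) (hc : IsTwCocycle ρbar p c) (g : GQ)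
    (A : ValuationSubring Qb) {m : Module.End k ρbar.V}
    (hm : IsTwCoboundaryOn ρbar p (A.decompositionSubgroup ℚ) c m) :
    IsTwCoboundaryOn ρbar p ((g • A).decompositionSubgroup ℚ) c (tw ρbar p g m - c g) := by
  rw [isTwCoboundaryOn_iff hp] at hm ⊢
  obtain ⟨hm1, hm2⟩ := hm
  refine ⟨?_, fun σ' hσ' => ?_⟩
  · rw [map_sub, trace_tw, hm1, mul_zero, hc.trace_eq_zero, sub_zero]
  · -- `σ = g⁻¹ σ' g ∈ D_A`
    have hσ : g⁻¹ * σ' * g⁻¹⁻¹ ∈ A.decompositionSubgroup ℚ := by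
      have h := Fermat.Agent.Lib.Cheb.H476.conj_mem_decomposition g⁻¹ hσ'
      rwa [inv_smul_smul] at h
    rw [inv_inv] at hσ
    have hcσ := hm2 _ hσ
    have e1 : σ' = g * ((g⁻¹ * σ' * g) * g⁻¹) := by group
    have h1 : c σ' = c g + tw ρbar p g (c ((g⁻¹ * σ' * g) * g⁻¹)) := by
      conv_lhs => rw [e1]
      exact map_mul_of_isTwCocycle hp hc _ _
    have h2 := map_mul_of_isTwCocycle hp hc (g⁻¹ * σ' * g) g⁻¹
    have h3 : tw ρbar p g (tw ρbar p (g⁻¹ * σ' * g) (c g⁻¹)) = -tw ρbar p σ' (c g) := by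
      rw [← tw_mul hp, ← tw_neg, ← tw_map_inv_of_isTwCocycle hp hc g, ← tw_mul hp]
      congr 1
      group
    have h4 : tw ρbar p g (tw ρbar p (g⁻¹ * σ' * g) m) = tw ρbar p σ' (tw ρbar p g m) := by
      rw [← tw_mul hp, ← tw_mul hp]
      congr 1
      group
    rw [h1, h2, hcσ, tw_add, tw_sub, h3, h4, tw_sub]
    abel

/-- Local triviality of a global twisted cocycle at `ℓ` can be tested on any valuation subring
over `ℓ`. -/
theorem locTrivAt_iff (hp : p ≠ 0) (hc : IsTwCocycle ρbar p c) {ℓ : ℕ} (hℓ : ℓ.Prime)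
    {A : ValuationSubring Qb} (hA : A.LiesOverPrime ℓ) :
    LocTrivAt ρbar p ℓ c ↔
      ∃ m, IsTwCoboundaryOn ρbar p (A.decompositionSubgroup ℚ) c m := by
  constructor
  · rintro ⟨P, hP, m, hm⟩
    obtain ⟨g, hg⟩ := Fermat.Agent.Lib.Cheb.H476.exists_smul_eq hℓ hP hA
    have h := isTwCoboundaryOn_conj hp hc g P hm
    rw [hg] at h
    exact ⟨_, h⟩
  · rintro ⟨m, hm⟩
    exact ⟨A, hA, m, hm⟩

variable (ρbar p)

/-- The subspace of functions `G_ℚ → End V` which are twisted coboundaries on `D_A`. -/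
def locSub (hp : p ≠ 0) (A : ValuationSubring Qb) :
    Submodule k (GQ → Module.End k ρbar.V) where
  carrier := {c | ∃ m, IsTwCoboundaryOn ρbar p (A.decompositionSubgroup ℚ) c m}
  zero_mem' := by
    refine ⟨0, (isTwCoboundaryOn_iff hp _ _).mpr ⟨map_zero _, fun σ _ => ?_⟩⟩
    rw [tw_zero, sub_zero]
    rfl
  add_mem' := by
    rintro c₁ c₂ ⟨m₁, h₁⟩ ⟨m₂, h₂⟩
    rw [isTwCoboundaryOn_iff hp] at h₁ h₂
    refine ⟨m₁ + m₂, (isTwCoboundaryOn_iff hp _ _).mpr ⟨?_, fun σ hσ => ?_⟩⟩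
    · rw [map_add, h₁.1, h₂.1, add_zero]
    · rw [Pi.add_apply, h₁.2 σ hσ, h₂.2 σ hσ, tw_add]
      abel
  smul_mem' := by
    rintro t c₁ ⟨m₁, h₁⟩
    rw [isTwCoboundaryOn_iff hp] at h₁
    refine ⟨t • m₁, (isTwCoboundaryOn_iff hp _ _).mpr ⟨?_, fun σ hσ => ?_⟩⟩
    · rw [map_smul, h₁.1, smul_zero]
    · rw [Pi.smul_apply, h₁.2 σ hσ, tw_smul, smul_sub]

theorem mem_locSub (hp : p ≠ 0) (A : ValuationSubring Qb) (c : GQ → Module.End k ρbar.V) :
    c ∈ locSub ρbar p hp A ↔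
      ∃ m, IsTwCoboundaryOn ρbar p (A.decompositionSubgroup ℚ) c m :=
  Iff.rfl

end tw

end Fermat.Agent.S56.H956

end

end
-- ===== PACK-END S56/H956/TWPCocycle.lean

-- ===== PACK-BEGIN S56/P3/H306/Sel.lean
section


/-!
# S56 / P3 : piece SEL (helper306)

`sel : H1VanishStatement → Ad0IrreducibleStatement → ExistsRegularStatement →
  AbstractTWElementStatement`
-/

set_option autoImplicit false
set_option linter.unusedSectionVars false

open Polynomial

namespace Fermat.Agent.S56.P3.H306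

open Fermat.Agent.S56.P3

variable {k : Type} [Field k] {V : Type} [AddCommGroup V] [Module k V] [Module.Finite k V]
variable {Γ : Type} [Group Γ]

theorem two_ne_zero_of_char {p : ℕ} (hp : p.Prime) (hp2 : p ≠ 2) (hp0 : (p : k) = 0) :
    (2 : k) ≠ 0 := by
  intro h2
  have h2' : ((2 : ℕ) : k) = 0 := by exact_mod_cast h2
  have d1 : ringChar k ∣ p := ringChar.dvd hp0
  have d2 : ringChar k ∣ 2 := ringChar.dvd h2'
  have hr : (ringChar k).Prime := by
    rcases CharP.char_is_prime_or_zero k (ringChar k) with h | h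
    · exact h
    · rw [h, zero_dvd_iff] at d1
      exact absurd d1 hp.ne_zero
  have e1 := (Nat.prime_dvd_prime_iff_eq hr hp).mp d1
  have e2 := (Nat.prime_dvd_prime_iff_eq hr Nat.prime_two).mp d2
  exact hp2 (e1.symm.trans e2)

theorem twEnd_of_det_one {ρ : Γ →* Module.End k V} {g : Γ} (h : LinearMap.det (ρ g) = 1)
    (A : Module.End k V) : twEnd ρ g A = ρ g * A * ρ g⁻¹ := by
  rw [twEnd, h, one_smul]

/-- a regular element is not a scalar. -/
theorem not_scalar_of_isRegular {ρ : Γ →* Module.End k V} {σ : Γ} (h : IsRegular ρ σ) (c : k) :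
    ρ σ ≠ c • (1 : Module.End k V) := by
  obtain ⟨α, β, hαβ, hch⟩ := h
  intro hc
  have key : ∀ γ : k, (LinearMap.charpoly (ρ σ)).IsRoot γ → c = γ := by
    intro γ hγ
    have hE : Module.End.HasEigenvalue (ρ σ) γ :=
      (Module.End.hasEigenvalue_iff_isRoot_charpoly (ρ σ) γ).mpr hγ
    obtain ⟨v, hv⟩ := hE.exists_hasEigenvector
    have h1 : ρ σ v = γ • v := hv.apply_eq_smul
    rw [hc] at h1
    have h2 : (c - γ) • v = 0 := by
      rw [sub_smul]
      simpa [sub_eq_zero] using h1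
    rcases smul_eq_zero.mp h2 with h3 | h3
    · exact sub_eq_zero.mp h3
    · exact absurd h3 hv.2
  have hα : c = α := key α (by rw [hch]; simp [IsRoot])
  have hβ : c = β := key β (by rw [hch]; simp [IsRoot])
  exact hαβ (hα.symm.trans hβ)

/-- for a regular `σ₀`, `(Ad ρ σ₀ - 1) ad⁰` is a proper subspace of `ad⁰`. -/
theorem exists_not_mem_range {p : ℕ} (hp : p.Prime) (hp2 : p ≠ 2) (hp0 : (p : k) = 0)
    (hfin : Module.finrank k V = 2) {ρ : Γ →* Module.End k V} {σ₀ : Γ}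
    (hreg : IsRegular ρ σ₀) :
    ∃ A : Module.End k V, LinearMap.trace k V A = 0 ∧
      ∀ m : Module.End k V, LinearMap.trace k V m = 0 → A ≠ ρ σ₀ * m * ρ σ₀⁻¹ - m := by
  classical
  have h2 : (2 : k) ≠ 0 := two_ne_zero_of_char hp hp2 hp0
  set T : Module.End k V →ₗ[k] Module.End k V := conjL ρ σ₀ - LinearMap.id with hT
  have hTapp : ∀ m, T m = ρ σ₀ * m * ρ σ₀⁻¹ - m := by
    intro m
    simp [hT]
  set ad0 : Submodule k (Module.End k V) := LinearMap.ker (LinearMap.trace k V) with had0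
  have hTmem : ∀ m ∈ ad0, T m ∈ ad0 := by
    intro m hm
    rw [had0, LinearMap.mem_ker] at hm ⊢
    rw [hTapp, map_sub, trace_conj, hm, sub_zero]
  set T' : ad0 →ₗ[k] ad0 := T.restrict hTmem with hT'
  by_contra hcon
  push_neg at hcon
  have hsurj : Function.Surjective T' := by
    rintro ⟨A, hA⟩
    obtain ⟨m, hm, hAm⟩ := hcon A (LinearMap.mem_ker.mp hA)
    refine ⟨⟨m, LinearMap.mem_ker.mpr hm⟩, ?_⟩
    apply Subtype.ext
    rw [hT', LinearMap.restrict_coe_apply, hTapp]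
    exact hAm.symm
  have hinj : Function.Injective T' := LinearMap.injective_iff_surjective.mpr hsurj
  -- the trace-zero part of `ρ σ₀`
  set c : k := LinearMap.trace k V (ρ σ₀) / 2 with hc
  set m₀ : Module.End k V := ρ σ₀ - c • 1 with hm₀
  have hm₀tr : LinearMap.trace k V m₀ = 0 := by
    rw [hm₀, map_sub, map_smul, LinearMap.trace_one, hfin, hc, smul_eq_mul]
    field_simp
    push_cast
    ring
  have hm₀T : T m₀ = 0 := by
    rw [hTapp, hm₀]
    have e : ρ σ₀ * (ρ σ₀ - c • 1) * ρ σ₀⁻¹ = (ρ σ₀ - c • 1) * (ρ σ₀ * ρ σ₀⁻¹) := by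
      rw [← mul_assoc]
      congr 1
      rw [mul_sub, sub_mul, mul_smul_comm, smul_mul_assoc, mul_one, one_mul]
    rw [e, rho_mul_inv, mul_one, sub_self]
  have hm₀ne : m₀ ≠ 0 := by
    intro h
    exact not_scalar_of_isRegular hreg c (sub_eq_zero.mp h)
  have hker : T' ⟨m₀, LinearMap.mem_ker.mpr hm₀tr⟩ = T' 0 := by
    apply Subtype.ext
    rw [hT', LinearMap.restrict_coe_apply, hm₀T, map_zero]
    rfl
  have := hinj hker
  exact hm₀ne (congrArg Subtype.val this)

/-- **(SEL)** selection of the Taylor–Wiles element. -/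
theorem sel (h1 : H1VanishStatement) (hirr : Ad0IrreducibleStatement)
    (hreg : ExistsRegularStatement) : AbstractTWElementStatement := by
  intro k _ _ V _ _ _ Γ _ ρ p _ hp2 hT Δ hΔ hC hdet1 hord ψ hψ hnc
  have hp : p.Prime := Fact.out
  -- Step 1 : `ψ` does not vanish on `Δ ∩ ker ρ`
  have hex : ∃ ν ∈ Δ, ρ ν = 1 ∧ ψ ν ≠ 0 := by
    by_contra hcon
    push_neg at hcon
    exact hnc (h1 k V Γ ρ p hp2 hT Δ hC hdet1 hord ψ hψ hcon)
  obtain ⟨ν₀, hν₀Δ, hν₀ρ, hν₀ψ⟩ := hex
  -- Step 2 : `ψ(Δ ∩ ker ρ)` spans `ad⁰`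
  set Nset : Set Γ := {ν | ν ∈ Δ ∧ ρ ν = 1} with hNset
  set W : Submodule k (Module.End k V) := Submodule.span k (ψ '' Nset) with hW
  have hWtr : ∀ A ∈ W, LinearMap.trace k V A = 0 := by
    intro A hA
    have hle : W ≤ LinearMap.ker (LinearMap.trace k V) := by
      rw [hW, Submodule.span_le]
      rintro _ ⟨ν, -, rfl⟩
      exact LinearMap.mem_ker.mpr (hψ.trace_zero ν)
    exact LinearMap.mem_ker.mp (hle hA)
  have hWconj : ∀ g : Γ, ∀ A ∈ W, ρ g * A * ρ g⁻¹ ∈ W := by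
    intro g A hA
    have hle : W ≤ Submodule.comap (conjL ρ g) W := by
      rw [hW, Submodule.span_le]
      rintro _ ⟨ν, ⟨hνΔ, hνρ⟩, rfl⟩
      show conjL ρ g (ψ ν) ∈ Submodule.span k (ψ '' Nset)
      rw [conjL_apply]
      have hmem : g * ν * g⁻¹ ∈ Nset :=
        ⟨hΔ.conj_mem ν hνΔ g, by rw [map_mul, map_mul, hνρ, mul_one, rho_mul_inv]⟩
      have hconj := cocycle_conj hψ g ν hνρ
      have e : ρ g * ψ ν * ρ g⁻¹ = (LinearMap.det (ρ g))⁻¹ • ψ (g * ν * g⁻¹) := by
        rw [hconj, twEnd, smul_smul, inv_mul_cancel₀ (det_rho_ne_zero ρ g), one_smul]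
      rw [e]
      exact Submodule.smul_mem _ _ (Submodule.subset_span ⟨_, hmem, rfl⟩)
    have h := hle hA
    rwa [Submodule.mem_comap, conjL_apply] at h
  have hWne : W ≠ ⊥ := by
    intro h
    have hmem : ψ ν₀ ∈ W := Submodule.subset_span ⟨ν₀, ⟨hν₀Δ, hν₀ρ⟩, rfl⟩
    rw [h, Submodule.mem_bot] at hmem
    exact hν₀ψ hmem
  have hWtop := hirr k V Γ ρ p hp2 hT W hWtr hWconj hWne
  -- Step 3 : a regular element of `Δ`
  obtain ⟨σ₀, hσ₀Δ, hσ₀reg⟩ := hreg k V Γ ρ p hp2 hT Δ hC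
  have hσ₀det := hdet1 σ₀ hσ₀Δ
  by_cases hin : InRange ρ ψ σ₀
  swap
  · exact ⟨σ₀, hσ₀Δ, hσ₀reg, hσ₀det, hin⟩
  obtain ⟨m₁, hm₁, hm₁eq⟩ := hin
  rw [twEnd_of_det_one hσ₀det] at hm₁eq
  obtain ⟨A, hAtr, hAR⟩ := exists_not_mem_range hp hp2 hT.char_p hT.finrank_eq hσ₀reg
  -- Step 4 : some `ψ ν` is outside the range
  set R : Submodule k (Module.End k V) :=
    Submodule.map (conjL ρ σ₀ - LinearMap.id) (LinearMap.ker (LinearMap.trace k V)) with hR
  have hRmem : ∀ x, x ∈ R ↔ ∃ m, LinearMap.trace k V m = 0 ∧ x = ρ σ₀ * m * ρ σ₀⁻¹ - m := by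
    intro x
    rw [hR, Submodule.mem_map]
    constructor
    · rintro ⟨m, hm, rfl⟩
      exact ⟨m, LinearMap.mem_ker.mp hm, by simp⟩
    · rintro ⟨m, hm, rfl⟩
      exact ⟨m, LinearMap.mem_ker.mpr hm, by simp⟩
  have hAW : A ∈ W := hWtop A hAtr
  have hex2 : ∃ ν ∈ Nset, ψ ν ∉ R := by
    by_contra hcon
    push_neg at hcon
    have hle : W ≤ R := by
      rw [hW, Submodule.span_le]
      rintro _ ⟨ν, hν, rfl⟩
      exact hcon ν hν
    obtain ⟨m, hm, hAm⟩ := (hRmem A).mp (hle hAW)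
    exact hAR m hm hAm
  obtain ⟨ν, ⟨hνΔ, hνρ⟩, hνR⟩ := hex2
  have e : ρ (ν * σ₀) = ρ σ₀ := by rw [map_mul, hνρ, one_mul]
  have hdet' := hdet1 _ (Δ.mul_mem hνΔ hσ₀Δ)
  refine ⟨ν * σ₀, Δ.mul_mem hνΔ hσ₀Δ, ?_, hdet', ?_⟩
  · obtain ⟨α, β, hαβ, hch⟩ := hσ₀reg
    exact ⟨α, β, hαβ, by rw [e]; exact hch⟩
  · rintro ⟨m, hm, hmeq⟩
    rw [cocycle_mul_of_rho_eq_one hψ ν σ₀ hνρ, twEnd_congr e, twEnd_of_det_one hσ₀det] at hmeq
    apply hνR
    rw [hRmem]
    refine ⟨m - m₁, by rw [map_sub, hm, hm₁, sub_zero], ?_⟩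
    have h3 : ψ ν = (ρ σ₀ * m * ρ σ₀⁻¹ - m) - ψ σ₀ := eq_sub_of_add_eq hmeq
    rw [h3, hm₁eq, mul_sub, sub_mul]
    abel

end Fermat.Agent.S56.P3.H306

end
-- ===== PACK-END S56/P3/H306/Sel.lean

-- ===== PACK-BEGIN S56/H536/CycExp.lean
section




/-!
# S56 / TWP (helper536), part 1: cyclotomic exponents

Elementary facts about `IsCycExp p σ a` (`σ μ = μ ^ a` on `μ_p`):

* `exists_isCycExp` : every `σ` has an exponent;
* `isCycExp_not_dvd`, `isCycExp_natCast_ne_zero` : exponents are prime to `p`, hence invertible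
  in a field of characteristic `p`;
* `frobenius_apply_root` : a Frobenius element over `q ≠ p` raises `p^m`-th roots of unity to
  the `q`-th power;
* `pow_dvd_sub_one_of_frobenius_fixes` : if it fixes them, then `p ^ m ∣ q - 1`;
* `isCycExp_one_conj` : conjugates of elements fixing `μ_p` fix `μ_p`.
-/

set_option autoImplicit false
set_option linter.style.haveILetI false

open Polynomial IsLocalRing

noncomputable section

namespace Fermat.Agent.S56.H536

open Fermat.Agent.S56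

/-- The trivial element has cyclotomic exponent `1`. -/
theorem isCycExp_one_one (p : ℕ) : IsCycExp p (1 : GQ) 1 := by
  intro μ _
  rw [pow_one]
  rfl

/-- `σ` fixes the `p`-th roots of unity iff `1` is a cyclotomic exponent. -/
theorem isCycExp_one_of_fixes (p : ℕ) (σ : GQ) (h : ∀ μ : Qb, μ ^ p = 1 → σ μ = μ) :
    IsCycExp p σ 1 := by
  intro μ hμ
  rw [pow_one]
  exact h μ hμ

/-- Every element of `Gal(ℚ̄/ℚ)` has a cyclotomic exponent. -/
theorem exists_isCycExp (p : ℕ) (hp : p.Prime) (σ : GQ) : ∃ a : ℕ, IsCycExp p σ a := by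
  haveI : NeZero p := ⟨hp.ne_zero⟩
  have hζ := Fermat.Agent.S55.H414.zetaBar_spec p
  have h1 : (σ (Fermat.Agent.S55.H414.zetaBar p)) ^ p = 1 := by
    rw [← map_pow, hζ.pow_eq_one, map_one]
  obtain ⟨a, -, ha⟩ := hζ.eq_pow_of_pow_eq_one h1
  refine ⟨a, fun μ hμ => ?_⟩
  obtain ⟨i, -, hi⟩ := hζ.eq_pow_of_pow_eq_one hμ
  rw [← hi, map_pow, ← ha, ← pow_mul, ← pow_mul, mul_comm]

/-- A cyclotomic exponent is prime to `p`. -/
theorem isCycExp_not_dvd (p : ℕ) (hp : p.Prime) {σ : GQ} {a : ℕ} (h : IsCycExp p σ a) :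
    ¬ p ∣ a := by
  haveI : NeZero p := ⟨hp.ne_zero⟩
  have hζ := Fermat.Agent.S55.H414.zetaBar_spec p
  rintro ⟨b, rfl⟩
  have h1 := h _ hζ.pow_eq_one
  rw [pow_mul, hζ.pow_eq_one, one_pow] at h1
  have h2 : Fermat.Agent.S55.H414.zetaBar p = 1 :=
    σ.injective (h1.trans (map_one σ).symm)
  exact hζ.ne_one hp.one_lt h2

/-- A cyclotomic exponent is nonzero in a field of characteristic `p`. -/
theorem isCycExp_natCast_ne_zero (p : ℕ) (hp : p.Prime) {k : Type*} [Field k] [CharP k p]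
    {σ : GQ} {a : ℕ} (h : IsCycExp p σ a) : (a : k) ≠ 0 := by
  rw [Ne, CharP.cast_eq_zero_iff k p]
  exact isCycExp_not_dvd p hp h

/-- A Frobenius element over `q ≠ p` raises `p^m`-th roots of unity to the `q`-th power. -/
theorem frobenius_apply_root {p q : ℕ} (hp : p.Prime) (hq : q.Prime) (hqp : q ≠ p)
    {A : ValuationSubring Qb} (hA : A.LiesOverPrime q) {φ : GQ} (hφ : A.IsFrobeniusAt φ q)
    (m : ℕ) {μ : Qb} (hμ : μ ^ p ^ m = 1) : φ μ = μ ^ q := by
  have hv : A.valuation (p : Qb) = 1 := Fermat.Agent.S55.Bridge.val_prime_eq_one hA hq hp hqp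
  have hv' : A.valuation ((p ^ m : ℕ) : Qb) = 1 := by
    rw [Nat.cast_pow, map_pow, hv, one_pow]
  exact Fermat.Agent.S55.H414.IsFrobeniusAt_apply_root hφ (pow_ne_zero m hp.ne_zero) hv' hμ

/-- If a Frobenius element over `q ≠ p` fixes the `p^m`-th roots of unity then
`q ≡ 1 mod p^m`. -/
theorem pow_dvd_sub_one_of_frobenius_fixes {p q : ℕ} (hp : p.Prime) (hq : q.Prime)
    (hqp : q ≠ p) {A : ValuationSubring Qb} (hA : A.LiesOverPrime q) {φ : GQ}
    (hφ : A.IsFrobeniusAt φ q) (m : ℕ) (hfix : ∀ μ : Qb, μ ^ p ^ m = 1 → φ μ = μ) :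
    p ^ m ∣ q - 1 := by
  haveI : NeZero (p ^ m) := ⟨pow_ne_zero m hp.ne_zero⟩
  have hζ := Fermat.Agent.S55.H414.zetaBar_spec (p ^ m)
  have h1 := frobenius_apply_root hp hq hqp hA hφ m hζ.pow_eq_one
  rw [hfix _ hζ.pow_eq_one] at h1
  apply hζ.dvd_of_pow_eq_one
  have hq1 : q = (q - 1) + 1 := (Nat.sub_add_cancel hq.one_lt.le).symm
  have hne : Fermat.Agent.S55.H414.zetaBar (p ^ m) ≠ 0 := hζ.ne_zero (NeZero.ne _)
  have h2 : Fermat.Agent.S55.H414.zetaBar (p ^ m) ^ (q - 1) *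
      Fermat.Agent.S55.H414.zetaBar (p ^ m) = 1 * Fermat.Agent.S55.H414.zetaBar (p ^ m) := by
    rw [← pow_succ, ← hq1, one_mul]
    exact h1.symm
  exact mul_right_cancel₀ hne h2

/-- Powers of an element fixing `x` fix `x`. -/
theorem pow_apply_eq_of_apply_eq (σ : GQ) {x : Qb} (h : σ x = x) (j : ℕ) : (σ ^ j) x = x := by
  induction j with
  | zero => rfl
  | succ j ih => rw [pow_succ, AlgEquiv.mul_apply, h, ih]

/-- A `p`-th root of unity is a `p^(n+1)`-th root of unity. -/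
theorem pow_pow_succ_eq_one_of_pow_eq_one {p : ℕ} (n : ℕ) {μ : Qb} (hμ : μ ^ p = 1) :
    μ ^ p ^ (n + 1) = 1 := by
  rw [pow_succ', pow_mul, hμ, one_pow]

/-- Conjugates of elements fixing `μ_p` fix `μ_p`. -/
theorem isCycExp_one_conj (p : ℕ) {τ : GQ} (hτ : IsCycExp p τ 1) (g : GQ) :
    IsCycExp p (g * τ * g⁻¹) 1 := by
  intro μ hμ
  rw [pow_one]
  have h1 : (g⁻¹ μ) ^ p = 1 := by rw [← map_pow, hμ, map_one]
  have h2 := hτ _ h1
  rw [pow_one] at h2
  show g (τ (g⁻¹ μ)) = μ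
  rw [h2]
  exact g.apply_symm_apply μ

/-- Every `N`-th root of unity lies in `ℚ(ζ_N)`. -/
theorem mem_cycloLevel_of_pow_eq_one (N : ℕ) [NeZero N] {μ : Qb} (hμ : μ ^ N = 1) :
    μ ∈ Fermat.Agent.S55.H414.cycloLevel N := by
  obtain ⟨i, -, hi⟩ := (Fermat.Agent.S55.H414.zetaBar_spec N).eq_pow_of_pow_eq_one hμ
  rw [← hi]
  exact pow_mem (Fermat.Agent.S55.H414.zetaBar_mem_cycloLevel N) i

/-- The residue field of `𝒪` has characteristic `p` when `p ∈ 𝔪`. -/
theorem charP_residueField (𝒪 : Type) [CommRing 𝒪] [IsLocalRing 𝒪] (p : ℕ) (hp : p.Prime)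
    (hp𝒪 : (p : 𝒪) ∈ maximalIdeal 𝒪) : CharP (ResidueField 𝒪) p := by
  have h0 : (p : ResidueField 𝒪) = 0 := by
    have := (IsLocalRing.residue_eq_zero_iff (p : 𝒪)).mpr hp𝒪
    rwa [map_natCast] at this
  exact (CharP.charP_iff_prime_eq_zero hp).mpr h0

end Fermat.Agent.S56.H536
end
end
-- ===== PACK-END S56/H536/CycExp.lean

-- ===== PACK-BEGIN S19/H135/QuotPrep.lean
section
/-
Cell A3 / WP-C (helper135): preparations for quotients of Hopf lattices:
expansion of box elements in a spanning family, swap, finite generation of sublattices,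
descent of kernel-invariant functions along a surjection.
-/



set_option autoImplicit false

namespace Fermat.Agent.S19.H135

section BoxExpand

variable {R : Type*} [CommRing R] {K : Type*} [CommRing K] [Algebra R K]
variable {X Y : Type*}

/-- Elements of the box product can be expanded along a spanning family of the first factor. -/
theorem box_expand {Λ₁ : Subalgebra R (X → K)} {Λ₂ : Subalgebra R (Y → K)}
    {n : ℕ} (b : Fin n → X → K)
    (hspan : Submodule.span R (Set.range b) = Subalgebra.toSubmodule Λ₁)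
    {F : X × Y → K}
    (hF : F ∈ Λ₁.map (pull R K (Prod.fst : X × Y → X)) ⊔
      Λ₂.map (pull R K (Prod.snd : X × Y → Y))) :
    ∃ g : Fin n → Y → K, (∀ i, g i ∈ Λ₂) ∧ ∀ x y, F (x, y) = ∑ i, b i x * g i y := by
  refine box_induction (C := fun F => ∃ g : Fin n → Y → K, (∀ i, g i ∈ Λ₂) ∧
    ∀ x y, F (x, y) = ∑ i, b i x * g i y) hF ?_ ?_
  · intro a ha c hc
    have ha' : a ∈ Submodule.span R (Set.range b) := by rw [hspan]; exact ha
    obtain ⟨r, rfl⟩ := (Submodule.mem_span_range_iff_exists_fun R).mp ha'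
    refine ⟨fun i => r i • c, fun i => Λ₂.smul_mem hc _, fun x y => ?_⟩
    simp only [Finset.sum_apply, Pi.smul_apply, Finset.sum_mul]
    refine Finset.sum_congr rfl (fun i _ => ?_)
    rw [Algebra.smul_def, Algebra.smul_def]
    ring
  · rintro F₁ F₂ ⟨g₁, hg₁, e₁⟩ ⟨g₂, hg₂, e₂⟩
    refine ⟨fun i => g₁ i + g₂ i, fun i => Λ₂.add_mem (hg₁ i) (hg₂ i), fun x y => ?_⟩
    simp only [Pi.add_apply, e₁, e₂, mul_add, Finset.sum_add_distrib]

theorem box_swap {Λ₁ : Subalgebra R (X → K)} {Λ₂ : Subalgebra R (Y → K)} {F : X × Y → K}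
    (hF : F ∈ Λ₁.map (pull R K (Prod.fst : X × Y → X)) ⊔
      Λ₂.map (pull R K (Prod.snd : X × Y → Y))) :
    (fun p : Y × X => F (p.2, p.1)) ∈ Λ₂.map (pull R K (Prod.fst : Y × X → Y)) ⊔
      Λ₁.map (pull R K (Prod.snd : Y × X → X)) := by
  refine box_induction (C := fun F => (fun p : Y × X => F (p.2, p.1)) ∈
    Λ₂.map (pull R K (Prod.fst : Y × X → Y)) ⊔ Λ₁.map (pull R K (Prod.snd : Y × X → X))) hF ?_ ?_
  · intro a ha c hc
    have := mul_mem_box (Λ₁ := Λ₂) (Λ₂ := Λ₁) hc ha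
    convert this using 1
    funext p
    exact mul_comm _ _
  · intro F₁ F₂ h₁ h₂
    exact Subalgebra.add_mem _ h₁ h₂

/-- Expansion along a spanning family of the second factor. -/
theorem box_expand' {Λ₁ : Subalgebra R (X → K)} {Λ₂ : Subalgebra R (Y → K)}
    {n : ℕ} (u : Fin n → Y → K)
    (hspan : Submodule.span R (Set.range u) = Subalgebra.toSubmodule Λ₂)
    {F : X × Y → K}
    (hF : F ∈ Λ₁.map (pull R K (Prod.fst : X × Y → X)) ⊔
      Λ₂.map (pull R K (Prod.snd : X × Y → Y))) :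
    ∃ k : Fin n → X → K, (∀ i, k i ∈ Λ₁) ∧ ∀ x y, F (x, y) = ∑ i, k i x * u i y := by
  obtain ⟨k, hk, e⟩ := box_expand u hspan (box_swap hF)
  refine ⟨k, hk, fun x y => ?_⟩
  rw [e y x]
  exact Finset.sum_congr rfl (fun i _ => mul_comm _ _)

theorem sum_mul_mem_box {Λ₁ : Subalgebra R (X → K)} {Λ₂ : Subalgebra R (Y → K)}
    {n : ℕ} (a : Fin n → X → K) (c : Fin n → Y → K) (ha : ∀ i, a i ∈ Λ₁) (hc : ∀ i, c i ∈ Λ₂) :
    (fun p : X × Y => ∑ i, a i p.1 * c i p.2) ∈ Λ₁.map (pull R K (Prod.fst : X × Y → X)) ⊔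
      Λ₂.map (pull R K (Prod.snd : X × Y → Y)) := by
  have h : (fun p : X × Y => ∑ i, a i p.1 * c i p.2) =
      ∑ i, (fun p : X × Y => a i p.1 * c i p.2) := by
    funext p
    simp only [Finset.sum_apply]
  rw [h]
  exact Subalgebra.sum_mem _ (fun i _ => mul_mem_box (ha i) (hc i))

end BoxExpand

section FG

variable {R : Type*} [CommRing R] [IsNoetherianRing R] {V : Type*} [AddCommGroup V] [Module R V]

theorem fg_of_le_of_fg_h135 {N P : Submodule R V} (hN : N.FG) (hle : P ≤ N) : P.FG := by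
  have : IsNoetherian R N := isNoetherian_of_fg_of_noetherian N hN
  have h1 : (P.comap N.subtype).FG := IsNoetherian.noetherian _
  have h2 : (P.comap N.subtype).map N.subtype = P := by
    rw [Submodule.map_comap_subtype]
    exact inf_eq_right.mpr hle
  rw [← h2]
  exact h1.map _

end FG

section Descend

variable {M M₂ : Type*} [AddCommGroup M] [AddCommGroup M₂] {K : Type*}

/-- A function invariant under translation by the kernel of a surjection `q` factors through
`q`. -/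
theorem exists_factor_of_ker_invariant (q : M →+ M₂) (hq : Function.Surjective q)
    (f : M → K) (hf : ∀ m k : M, q k = 0 → f (m + k) = f m) :
    ∃ g : M₂ → K, ∀ m, g (q m) = f m := by
  refine ⟨fun y => f (Function.surjInv hq y), fun m => ?_⟩
  have h1 : q (Function.surjInv hq (q m)) = q m := Function.surjInv_eq hq (q m)
  have h2 : q (m - Function.surjInv hq (q m)) = 0 := by rw [map_sub, h1, sub_self]
  have := hf (Function.surjInv hq (q m)) _ h2
  rw [add_sub_cancel] at this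
  exact this.symm

end Descend

end Fermat.Agent.S19.H135

end
-- ===== PACK-END S19/H135/QuotPrep.lean

-- ===== PACK-BEGIN S19/H19/Torsion.lean
section
/-
A3 / S19, helper19 — piece ORD, part 7: orders on the torsion of a Galois module.

`J` an abelian group with an additive action of `G_ℚ`, `T = J[n]`.  A finitely generated
equivariant `R`-subalgebra of functions `T → ℚ̄` separating points and closed under
`f ↦ f(s+t)` yields exactly the conclusion of the frozen statement S19 (for `J = J₀(N)`,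
`R = ℤ_(ℓ)`).  Mathlib only.
-/


set_option autoImplicit false
set_option linter.unusedSectionVars false
set_option linter.style.haveILetI false

noncomputable section

namespace Fermat.Agent.S19.H19

open scoped BigOperators TensorProduct

/-- A principal ideal subring of `ℚ` is integrally closed in `ℚ`. -/
theorem mem_of_isIntegral_of_pid (R : Subring ℚ) [IsPrincipalIdealRing R] (q : ℚ)
    (hq : IsIntegral R q) : q ∈ R := by
  haveI : FaithfulSMul R ℚ :=
    (faithfulSMul_iff_algebraMap_injective R ℚ).mpr Subtype.val_injective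
  haveI : IsFractionRing R ℚ := by
    apply IsFractionRing.of_field
    intro z
    refine ⟨⟨(z.num : ℚ), intCast_mem R z.num⟩, ⟨(z.den : ℚ), natCast_mem R z.den⟩, ?_⟩
    exact (Rat.num_div_den z).symm
  obtain ⟨y, hy⟩ := (IsIntegrallyClosed.isIntegral_iff (R := R) (K := ℚ)).mp hq
  rw [← hy]
  exact y.2

section Torsion

variable {J : Type} [AddCommGroup J] [DistribMulAction _root_.Fermat.Agent.S19.H19.GalQ J] (n : ℤ)

/-- The Galois action on the `n`-torsion. -/
def torsionAct (σ : _root_.Fermat.Agent.S19.H19.GalQ) (m : Submodule.torsionBy ℤ J n) : Submodule.torsionBy ℤ J n :=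
  ⟨σ • (m : J), by
    have hm := m.2
    rw [Submodule.mem_torsionBy_iff] at hm ⊢
    have h1 : n • (σ • (m : J)) = σ • (n • (m : J)) :=
      (map_zsmul (DistribSMul.toAddMonoidHom J σ) n (m : J)).symm
    rw [h1, hm, smul_zero]⟩

@[simp] theorem coe_torsionAct (σ : _root_.Fermat.Agent.S19.H19.GalQ) (m : Submodule.torsionBy ℤ J n) :
    ((torsionAct n σ m : Submodule.torsionBy ℤ J n) : J) = σ • (m : J) := rfl

/-- **Piece ORD for torsion modules**: the S19-shaped conclusion from an order. -/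
theorem exists_hopf_torsion (R : Subring ℚ) [IsPrincipalIdealRing R]
    [Finite (Submodule.torsionBy ℤ J n)]
    (H : Subalgebra R (Submodule.torsionBy ℤ J n → _root_.Fermat.Agent.S19.H19.Qb))
    (hequiv : ∀ f ∈ H, ∀ (σ : _root_.Fermat.Agent.S19.H19.GalQ) (m : Submodule.torsionBy ℤ J n),
      f (torsionAct n σ m) = σ (f m))
    (hfg : (Subalgebra.toSubmodule H).FG)
    (hsep : ∀ m m' : Submodule.torsionBy ℤ J n, m ≠ m' → ∃ f ∈ H, f m ≠ f m')
    (hcomul : ∀ f ∈ H, (fun p : Submodule.torsionBy ℤ J n × Submodule.torsionBy ℤ J n =>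
      f (p.1 + p.2)) ∈ (prodMap H.val H.val).range) :
    ∃ (H' : Type) (_ : CommRing H') (_ : HopfAlgebra R H'),
      Module.Finite R H' ∧ Module.Flat R H' ∧ Coalgebra.IsCocomm R H' ∧
      ∃ e : WithConv (H' →ₐ[R] AlgebraicClosure ℚ) ≃ ↥(Submodule.torsionBy ℤ J n),
        (∀ f g, e (f * g) = e f + e g) ∧
        ∀ (σ : AlgebraicClosure ℚ ≃ₐ[ℚ] AlgebraicClosure ℚ)
          (f g : WithConv (H' →ₐ[R] AlgebraicClosure ℚ)),
          (∀ h : H', g h = σ (f h)) → ((e g : J)) = σ • (e f : J) := by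
  obtain ⟨H', i1, i2, h1, h2, h3, e, he1, he2⟩ :=
    exists_hopf_of_equivariant_order (act := torsionAct (J := J) n) R
      (mem_of_isIntegral_of_pid R)
      (fun m => Subtype.ext (one_smul _root_.Fermat.Agent.S19.H19.GalQ (m : J)))
      (fun σ τ m => Subtype.ext (mul_smul σ τ (m : J)).symm)
      (fun σ => Subtype.ext (smul_zero σ))
      H hequiv hfg hsep hcomul
  exact ⟨H', i1, i2, h1, h2, h3, e, he1, fun σ f g hfg =>
    congrArg Subtype.val (he2 σ f g hfg)⟩

end Torsion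

end Fermat.Agent.S19.H19

end

end
-- ===== PACK-END S19/H19/Torsion.lean

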