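import Mathlib
import Fermat.Agent.Pack.S43GC.G0E9L2
import Fermat.Agent.Pack.S43GC.G0E3L2
import Fermat.Agent.Pack.S43GC.G0E10L1
import Fermat.Agent.Pack.S43GC.G0E0L3
import Fermat.Agent.Pack.S43GC.G0E10L0
import Fermat.Agent.Pack.S43GC.G0E10L2
import Fermat.Agent.Pack.S43GC.G0E7L2
import Fermat.Agent.Pack.S43GC.G0E7L3
import Fermat.Agent.Pack.S43GC.G0E9L1
import Fermat.Agent.Pack.S43GC.G0E5L3
import Fermat.Agent.Pack.S43GC.G0E3L3
import Fermat.Agent.Pack.S43GC.G0E6L1
import Fermat.Agent.Pack.S43GC.G0E8L3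
import Fermat.Agent.Pack.S43GC.G0E8L2
import Fermat.Agent.Pack.S43GC.G0E6L3
import Fermat.Agent.Pack.S43GC.G0E10L3
import Fermat.Agent.Pack.S43GC.G0E3L1
import Fermat.Agent.Pack.S43GC.G0E4L2
import Fermat.Agent.Pack.S43GC.G0E2L1
import Fermat.Agent.Pack.Fast891

-- ===== PACK-BEGIN S55/KL/TransportH496.lean
section


/-!
# S55 / layer KL, leaf KL-TR (helper496): `TransportSpec`

For `U = Gal(Ω/E)` and the level `V = Gal(Ω/E')` (`E'/K` finite Galois): `M = E·E'` is finite
Galois over `E`, `U/(V ∩ U) ≅ Gal(M/E)` has order `[M : E]`, and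
`Hⁿ(U/(V ∩ U), (Ωˣ)^{V ∩ U}) ≅ Hⁿ(Gal(M/E), Mˣ)` for all `n`.
-/

set_option autoImplicit false

noncomputable section

namespace Fermat.Agent.S55.KL.H496

open CategoryTheory groupCohomology

/-- **KL-TR.** -/
theorem transport : TransportSpec := by
  intro K Ω _ _ _ _ E E'
  exact ⟨finiteDimensional_comp496 E E'.toIntermediateField,
    isGalois_comp496 E E'.toIntermediateField,
    card_quot496 E E'.toIntermediateField,
    fun n => ⟨transportIso496 E E'.toIntermediateField n⟩⟩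

end Fermat.Agent.S55.KL.H496

end
end
-- ===== PACK-END S55/KL/TransportH496.lean

-- ===== PACK-BEGIN S55/Local/H954/T4.lean
section



/-!
# S55, layer L (core of helper715), piece **T4**: `CyclicH2CardStatement → H2CardDvdStatement`
(helper954)

`|H²(Gal(L/K), Lˣ)|` divides `[L : K]` for every finite Galois extension of local fields, from the
cyclic case: Sylow reduction (`card_H2_dvd_card_of_sylow`), `p`-group induction along a normal
subgroup of index `p` (inflation–restriction in degree `2`, Hilbert 90), Galois correspondence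
(`transportIso`, `quotTransportIso`).
-/

set_option autoImplicit false
set_option linter.unusedSectionVars false
set_option linter.style.haveILetI false

namespace Fermat.Agent.S55.Local.H954

open groupCohomology CategoryTheory IntermediateField Fermat.Agent.S55.Local
  Fermat.Agent.S55.L Fermat.Agent.S55.L.H954 Fermat.Agent.S55.H954

section

/-- The `p`-group case of T4. -/
theorem h2_card_dvd_of_pgroup_local
    (A F : Type) [CommRing A] [IsDomain A] [IsDiscreteValuationRing A]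
    [IsAdicComplete (IsLocalRing.maximalIdeal A) A] [Finite (IsLocalRing.ResidueField A)]
    [Field F] [CharZero F] [Algebra A F] [IsFractionRing A F]
    (hcyc : CyclicH2CardStatement) (p : ℕ) [hp : Fact p.Prime] :
    ∀ (n : ℕ) (K : Type) [Field K] [Algebra F K] [FiniteDimensional F K]
      (L : Type) [Field L] [Algebra F L] [Algebra K L] [IsScalarTower F K L]
      [FiniteDimensional K L] [IsGalois K L], Nat.card (L ≃ₐ[K] L) = p ^ n →
      Finite (H2 (unitsRep K L)) ∧ Nat.card (H2 (unitsRep K L)) ∣ p ^ n := by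
  intro n
  induction n with
  | zero =>
    intro K _ _ _ L _ _ _ _ _ _ hG
    rw [pow_zero] at hG
    have hz : ∀ x : H2 (unitsRep K L), x = 0 := H2_eq_zero_of_card_eq_one (unitsRep K L) hG
    haveI : Subsingleton (H2 (unitsRep K L)) := ⟨fun a b => (hz a).trans (hz b).symm⟩
    refine ⟨inferInstance, ?_⟩
    rw [Nat.card_unique]
    exact one_dvd _
  | succ n ih =>
    intro K _ _ _ L _ _ _ _ _ _ hG
    obtain ⟨N, hN⟩ := Sylow.exists_subgroup_card_pow_prime (G := L ≃ₐ[K] L) p (n := n)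
      (by rw [hG]; exact pow_dvd_pow p (Nat.le_succ n))
    have hidx : N.index = p := by
      have h := N.card_mul_index
      rw [hN, hG, pow_succ] at h
      exact Nat.eq_of_mul_eq_mul_left (pow_pos hp.out.pos n) h
    haveI hNn : N.Normal := Subgroup.normal_of_index_eq_minFac_card (by
      rw [hidx, hG, Nat.pow_minFac (Nat.succ_ne_zero n), hp.out.minFac_eq])
    -- the intermediate field is a local field
    haveI : FiniteDimensional F (fixedField N) := FiniteDimensional.trans F K (fixedField N)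
    haveI : IsScalarTower F (fixedField N) L := IsScalarTower.of_algebraMap_eq (fun _ => rfl)
    -- the top layer `L / F`
    haveI : IsGalois (fixedField N) L := IsGalois.tower_top_of_isGalois K _ L
    have IH := ih (fixedField N) L ((card_aut_fixedField K L N).trans hN)
    have hNc : Finite (H2 (Rep.res N.subtype (unitsRep K L))) ∧
        Nat.card (H2 (Rep.res N.subtype (unitsRep K L))) ∣ p ^ n :=
      finite_and_card_of_addEquiv (transportAddEquiv K L N 2) IH
    -- the bottom layer, cyclic of degree `p`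
    have hq : Nat.card ((fixedField N) ≃ₐ[K] (fixedField N)) = p := by
      rw [← Nat.card_congr (IsGalois.normalAutEquivQuotient N).toEquiv,
        ← Subgroup.index_eq_card]
      exact hidx
    haveI : IsCyclic ((fixedField N) ≃ₐ[K] (fixedField N)) := isCyclic_of_prime_card hq
    have hQc : Nat.card (H2 (unitsRep K (fixedField N))) = p := by
      have := hcyc A F K (fixedField N) inferInstance
      rw [← IsGalois.card_aut_eq_finrank, hq] at this
      exact this
    have hQf : Finite (H2 (unitsRep K (fixedField N))) :=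
      Nat.finite_of_card_ne_zero (by rw [hQc]; exact hp.out.ne_zero)
    have hQ : Finite (H2 ((unitsRep K L).quotientToInvariants N)) ∧
        Nat.card (H2 ((unitsRep K L).quotientToInvariants N)) ∣ p :=
      finite_and_card_of_addEquiv (quotTransportIso K L N 2).toLinearEquiv.toAddEquiv
        ⟨hQf, hQc ▸ dvd_rfl⟩
    obtain ⟨hfin, hdvd⟩ := H2_card_dvd_mul_of_normal (unitsRep K L) N
      (H1_res_eq_zero K L N) hNc.1 hQ.1 hNc.2 hQ.2
    refine ⟨hfin, ?_⟩
    rw [pow_succ, mul_comm]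
    exact hdvd

end

/-- **T4** (`H2CardDvdStatement`) from the cyclic case **T3'**. -/
theorem h2CardDvd_of_cyclicH2Card (hcyc : CyclicH2CardStatement) : H2CardDvdStatement := by
  intro A F _ _ _ _ _ _ _ _ _ K _ _ _ L _ _ _ _ _ _
  have key : Finite (H2 (unitsRep K L)) ∧
      Nat.card (H2 (unitsRep K L)) ∣ Nat.card (L ≃ₐ[K] L) := by
    refine card_H2_dvd_card_of_sylow (unitsRep K L) (fun p hp _ => ?_)
    haveI : Fact p.Prime := ⟨hp⟩
    obtain ⟨P⟩ : Nonempty (Sylow p (L ≃ₐ[K] L)) := inferInstance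
    refine ⟨P, ?_⟩
    have hP : Nat.card (P : Subgroup (L ≃ₐ[K] L)) =
        p ^ ((Nat.card (L ≃ₐ[K] L)).factorization p) := Sylow.card_eq_multiplicity P
    haveI : FiniteDimensional F (fixedField (P : Subgroup (L ≃ₐ[K] L))) :=
      FiniteDimensional.trans F K _
    haveI : IsScalarTower F (fixedField (P : Subgroup (L ≃ₐ[K] L))) L :=
      IsScalarTower.of_algebraMap_eq (fun _ => rfl)
    haveI : IsGalois (fixedField (P : Subgroup (L ≃ₐ[K] L))) L :=
      IsGalois.tower_top_of_isGalois K _ L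
    have h := h2_card_dvd_of_pgroup_local A F hcyc p _
      (fixedField (P : Subgroup (L ≃ₐ[K] L))) L ((card_aut_fixedField K L _).trans hP)
    rw [hP]
    exact finite_and_card_of_addEquiv (transportAddEquiv K L _ 2) h
  rw [← IsGalois.card_aut_eq_finrank]
  exact key.2

end Fermat.Agent.S55.Local.H954

end
-- ===== PACK-END S55/Local/H954/T4.lean

-- ===== PACK-BEGIN S55/T/HerbrandH895.lean
section



/-!
# S55, layer T, leaves T2a / T2b / T2c (helper895)

* `cyclicCard : CyclicCardSpec`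
* `herbrand : HerbrandSpec`
* `herbrandFinite : HerbrandFiniteSpec`

All three are unconditional.  They are deduced from the elementary Herbrand-quotient library
`Fermat.Agent.S55.Herbrand` (index calculus) and Mathlib's computation of the cohomology of a
finite cyclic group.
-/

set_option autoImplicit false

namespace Fermat.Agent.S55.T.H895

open CategoryTheory groupCohomology Fermat.Agent.S55.Herbrand

section Basic

variable {k G : Type} [CommRing k] [Group G]

/-- additive endomorphism given by the action of `g`. -/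
def act (A : Rep.{0} k G) (g : G) : AddMonoid.End A.V := (A.ρ g).toAddMonoidHom

@[simp] lemma act_apply (A : Rep.{0} k G) (g : G) (x : A.V) : act A g x = A.ρ g x := rfl

lemma act_pow_apply (A : Rep.{0} k G) (g : G) (i : ℕ) (x : A.V) :
    (act A g ^ i) x = A.ρ (g ^ i) x := by
  induction i generalizing x with
  | zero => simp
  | succ i ih =>
    rw [pow_succ, pow_succ]
    change (act A g ^ i) (act A g x) = _
    rw [ih, act_apply, map_mul]
    rfl

lemma mul_comm_of_gen (g : G) (hg : ∀ x, x ∈ Subgroup.zpowers g) (a b : G) : a * b = b * a := by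
  obtain ⟨m, rfl⟩ := Subgroup.mem_zpowers_iff.1 (hg a)
  obtain ⟨n, rfl⟩ := Subgroup.mem_zpowers_iff.1 (hg b)
  rw [← zpow_add, ← zpow_add, add_comm]

lemma act_pow_card [Finite G] (A : Rep.{0} k G) (g : G) : act A g ^ Nat.card G = 1 := by
  ext x
  rw [act_pow_apply, pow_card_eq_one', map_one]
  rfl

/-- equivariance of a morphism of representations, in the form used by the Herbrand library. -/
lemma hom_act {A B : Rep.{0} k G} (f : A ⟶ B) (g : G) (x : A.V) :
    f.hom (act A g x) = act B g (f.hom x) := by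
  simp only [act_apply]
  exact Rep.hom_comm_apply f g x

variable [Fintype G]

theorem card_H2 (A : Rep.{0} k G) (g : G) (hg : ∀ x, x ∈ Subgroup.zpowers g) :
    Nat.card (groupCohomology A 2) = h0 (act A g) (Nat.card G) := by
  let inst : CommGroup G := { (inferInstance : Group G) with mul_comm := mul_comm_of_gen g hg }
  exact card_groupCohomology_even A g hg 2 (by decide)

theorem card_H1 (A : Rep.{0} k G) (g : G) (hg : ∀ x, x ∈ Subgroup.zpowers g) :
    Nat.card (groupCohomology A 1) = h1 (act A g) (Nat.card G) := by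
  let inst : CommGroup G := { (inferInstance : Group G) with mul_comm := mul_comm_of_gen g hg }
  exact card_groupCohomology_odd A g hg 1 (by decide)

lemma normN_act_apply (A : Rep.{0} k G) (g : G) (hg : ∀ x, x ∈ Subgroup.zpowers g) (x : A.V) :
    normN (act A g) (Nat.card G) x = A.ρ.norm x := by
  rw [normN_apply]
  have : A.ρ.norm x = ∑ h : G, A.ρ h x := by
    simp [Representation.norm]
  rw [this, sum_eq_sum_range_pow g hg]
  exact Finset.sum_congr rfl fun i _ => act_pow_apply A g i x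

lemma range_normN_act (A : Rep.{0} k G) (g : G) (hg : ∀ x, x ∈ Subgroup.zpowers g) :
    AddMonoidHom.range (normN (act A g) (Nat.card G)) =
      (LinearMap.range A.ρ.norm).toAddSubgroup := by
  ext x
  constructor
  · rintro ⟨y, rfl⟩
    exact ⟨y, (normN_act_apply A g hg y).symm⟩
  · rintro ⟨y, rfl⟩
    exact ⟨y, normN_act_apply A g hg y⟩

lemma ker_normN_act (A : Rep.{0} k G) (g : G) (hg : ∀ x, x ∈ Subgroup.zpowers g) :
    AddMonoidHom.ker (normN (act A g) (Nat.card G)) =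
      (LinearMap.ker A.ρ.norm).toAddSubgroup := by
  ext x
  rw [AddMonoidHom.mem_ker, normN_act_apply A g hg]
  rfl

omit [Fintype G] in
lemma ker_delta_act (A : Rep.{0} k G) (g : G) (hg : ∀ x, x ∈ Subgroup.zpowers g) :
    AddMonoidHom.ker (delta (act A g)) = A.ρ.invariants.toAddSubgroup := by
  ext x
  rw [AddMonoidHom.mem_ker, delta_apply, sub_eq_zero, act_apply]
  exact (Representation.mem_invariants_iff_of_forall_mem_zpowers A.ρ g hg x).symm

omit [Fintype G] in
lemma range_sub_one_le [Finite G] (A : Rep.{0} k G) (g : G)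
    (hg : ∀ x, x ∈ Subgroup.zpowers g) (h : G) :
    LinearMap.range (A.ρ h - 1) ≤ LinearMap.range (A.ρ g - 1) := by
  classical
  obtain ⟨i, -, rfl⟩ :=
    Finset.mem_image.1 ((mem_zpowers_iff_mem_range_orderOf (x := g) (y := h)).1 (hg h))
  rintro _ ⟨x, rfl⟩
  have key : A.ρ (g ^ i) - 1 = (A.ρ g - 1) * ∑ j ∈ Finset.range i, A.ρ g ^ j := by
    rw [mul_geom_sum, map_pow]
  rw [key]
  exact ⟨(∑ j ∈ Finset.range i, A.ρ g ^ j) x, rfl⟩

omit [Fintype G] in
lemma range_delta_act [Finite G] (A : Rep.{0} k G) (g : G)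
    (hg : ∀ x, x ∈ Subgroup.zpowers g) :
    AddMonoidHom.range (delta (act A g)) =
      (⨆ h : G, LinearMap.range (A.ρ h - 1)).toAddSubgroup := by
  have hsup : (⨆ h : G, LinearMap.range (A.ρ h - 1)) = LinearMap.range (A.ρ g - 1) :=
    le_antisymm (iSup_le fun h => range_sub_one_le A g hg h)
      (le_iSup (fun h : G => LinearMap.range (A.ρ h - 1)) g)
  rw [hsup]
  ext x
  constructor
  · rintro ⟨y, rfl⟩
    exact ⟨y, rfl⟩
  · rintro ⟨y, rfl⟩
    exact ⟨y, rfl⟩

theorem hat0Card_eq (A : Rep.{0} k G) (g : G) (hg : ∀ x, x ∈ Subgroup.zpowers g) :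
    hat0Card A = h0 (act A g) (Nat.card G) := by
  rw [h0_eq_relIndex, ker_delta_act A g hg, range_normN_act A g hg]
  rfl

theorem hatNeg1Card_eq (A : Rep.{0} k G) (g : G) (hg : ∀ x, x ∈ Subgroup.zpowers g) :
    hatNeg1Card A = h1 (act A g) (Nat.card G) := by
  rw [h1_eq_relIndex, ker_normN_act A g hg, range_delta_act A g hg]
  rfl

end Basic

/-- **T2a.** -/
theorem cyclicCard : CyclicCardSpec := by
  intro k G _ _ _ _ A
  obtain ⟨g, hg⟩ := IsCyclic.exists_generator (α := G)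
  exact ⟨(card_H2 A g hg).trans (hat0Card_eq A g hg).symm,
    (card_H1 A g hg).trans (hatNeg1Card_eq A g hg).symm⟩

section Fin

variable {k G : Type} [CommRing k] [Group G] [Fintype G]

/-- finiteness of `H¹` and `H²` is the statement that the Herbrand quotient is defined. -/
lemma fin_iff (A : Rep.{0} k G) (g : G) (hg : ∀ x, x ∈ Subgroup.zpowers g) :
    (Finite (groupCohomology A 1) ∧ Finite (groupCohomology A 2)) ↔
      HerbrandDefined (act A g) (Nat.card G) := by
  rw [herbrandDefined_iff, ← card_H2 A g hg, ← card_H1 A g hg]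
  constructor
  · rintro ⟨h1, h2⟩
    exact ⟨Nat.card_pos.ne', Nat.card_pos.ne'⟩
  · rintro ⟨h2, h1⟩
    exact ⟨(Nat.card_ne_zero.1 h1).2, (Nat.card_ne_zero.1 h2).2⟩

end Fin

/-- **T2b.** -/
theorem herbrand : HerbrandSpec := by
  intro k G _ _ _ _ S hS
  let _ : Fintype G := Fintype.ofFinite G
  obtain ⟨g, hg⟩ := IsCyclic.exists_generator (α := G)
  have hi : Function.Injective S.f.hom := (Rep.mono_iff_injective S.f).1 hS.2
  have hp : Function.Surjective S.g.hom := (Rep.epi_iff_surjective S.g).1 hS.3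
  have hrk : LinearMap.range S.f.hom.toLinearMap = LinearMap.ker S.g.hom.toLinearMap :=
    (hS.exact.map (forget₂ (Rep k G) (ModuleCat k))).moduleCat_range_eq_ker
  set i : S.X₁.V →+ S.X₂.V := S.f.hom.toLinearMap.toAddMonoidHom with hi_def
  set p : S.X₂.V →+ S.X₃.V := S.g.hom.toLinearMap.toAddMonoidHom with hp_def
  have hi' : Function.Injective i := hi
  have hp' : Function.Surjective p := hp
  have hex : p.ker = i.range := by
    ext x
    have := congrArg (fun M : Submodule k S.X₂.V => x ∈ M) hrk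
    simp only [LinearMap.mem_range, LinearMap.mem_ker, eq_iff_iff] at this
    rw [AddMonoidHom.mem_ker, AddMonoidHom.mem_range]
    exact this.symm
  have hiσ : ∀ a, i (act S.X₁ g a) = act S.X₂ g (i a) := fun a => hom_act S.f g a
  have hpσ : ∀ b, p (act S.X₂ g b) = act S.X₃ g (p b) := fun b => hom_act S.g g b
  have hσ : act S.X₂ g ^ Nat.card G = 1 := act_pow_card S.X₂ g
  intro fin
  have hfin : ∀ A : Rep.{0} k G, fin A ↔ HerbrandDefined (act A g) (Nat.card G) :=
    fun A => fin_iff A g hg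
  refine ⟨?_, ?_, ?_, ?_⟩
  · intro h1 h3
    exact (hfin _).2 (herbrandDefined_mid hσ hi' hp' hex hiσ hpσ ((hfin _).1 h1) ((hfin _).1 h3))
  · intro h1 h2
    exact (hfin _).2
      (herbrandDefined_right hσ hi' hp' hex hiσ hpσ ((hfin _).1 h1) ((hfin _).1 h2))
  · intro h2 h3
    exact (hfin _).2
      (herbrandDefined_left hσ hi' hp' hex hiσ hpσ ((hfin _).1 h2) ((hfin _).1 h3))
  · intro _ _ _
    rw [card_H2 S.X₂ g hg, card_H1 S.X₁ g hg, card_H1 S.X₃ g hg, card_H1 S.X₂ g hg,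
      card_H2 S.X₁ g hg, card_H2 S.X₃ g hg]
    have hex6 := hexagon_of_exact (fA := delta (act S.X₁ g)) (gA := normN (act S.X₁ g) (Nat.card G))
      (fB := delta (act S.X₂ g)) (gB := normN (act S.X₂ g) (Nat.card G))
      (fC := delta (act S.X₃ g)) (gC := normN (act S.X₃ g) (Nat.card G))
      (delta_normN hσ) (normN_delta hσ) hi' hp' hex
      (map_delta_of_comm hiσ) (map_normN_of_comm hiσ _)
      (map_delta_of_comm hpσ) (map_normN_of_comm hpσ _)
    -- hex6 : h0 A * h0 C * h1 B = h1 A * h1 C * h0 B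
    change h0 (act S.X₁ g) _ * h0 (act S.X₃ g) _ * h1 (act S.X₂ g) _ =
      h1 (act S.X₁ g) _ * h1 (act S.X₃ g) _ * h0 (act S.X₂ g) _ at hex6
    linarith [hex6]

/-- **T2c.** -/
theorem herbrandFinite : HerbrandFiniteSpec := by
  intro k G _ _ _ _ A hA
  let _ : Fintype G := Fintype.ofFinite G
  obtain ⟨g, hg⟩ := IsCyclic.exists_generator (α := G)
  have : Finite A.V := hA
  have hdef : HerbrandDefined (act A g) (Nat.card G) := herbrandDefined_of_finite _ _
  obtain ⟨f1, f2⟩ := (fin_iff A g hg).2 hdef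
  refine ⟨f1, f2, ?_⟩
  rw [card_H1 A g hg, card_H2 A g hg]
  exact (h0_eq_h1_of_finite (act_pow_card A g)).symm

end Fermat.Agent.S55.T.H895

end
-- ===== PACK-END S55/T/HerbrandH895.lean

-- ===== PACK-BEGIN S55/H295/InfRes.lean
section


/-!
# Cohomological triviality, part 3: higher inflation–restriction (vanishing form)

For `S ⊴ G` and `A : Rep k G`:

* `isZero_H_quot_of`: if `Hⁱ(S, A) = 0` for `1 ≤ i ≤ n` and `Hⁿ⁺¹(G, A) = 0`, then
  `Hⁿ⁺¹(G ⧸ S, A^S) = 0` (injectivity of inflation);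
* `isZero_H_of_quot`: if `Hⁱ(S, A) = 0` for `1 ≤ i ≤ n + 1` and `Hⁿ⁺¹(G ⧸ S, A^S) = 0`, then
  `Hⁿ⁺¹(G, A) = 0` (exactness in the middle).

Both are proved by dimension shifting, starting from Mathlib's degree-one statement.
-/

set_option autoImplicit false

open CategoryTheory groupCohomology Rep Limits

universe u

namespace Fermat.Agent.S55.H295

noncomputable section

variable {k G : Type u} [CommRing k] [Group G] (S : Subgroup G) [S.Normal]

/-- The invariants of the shifting sequence, as a short exact sequence of `G ⧸ S`-modules. -/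
lemma upSES_qti_shortExact (A : Rep.{u} k G)
    (h1 : IsZero (groupCohomology (res S.subtype A) 1)) :
    ((upSES A).map (quotientToInvariantsFunctor.{u} k S)).ShortExact :=
  shortExact_quotientToInvariants S (upSES_shortExact A) h1

/-- Injectivity of inflation in degree `n + 1`, in vanishing form. -/
theorem isZero_H_quot_of : ∀ (n : ℕ) (A : Rep.{u} k G),
    (∀ i, i < n → IsZero (groupCohomology (res S.subtype A) (i + 1))) →
    IsZero (groupCohomology A (n + 1)) →
    IsZero (groupCohomology (A.quotientToInvariants S) (n + 1)) := by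
  intro n
  induction n with
  | zero =>
    intro A _ hG
    have h := IsZero.of_mono (H1InfRes A S).f (show IsZero (H1InfRes A S).X₂ from hG)
    exact h
  | succ n ih =>
    intro A hS hG
    have hS1 : IsZero (groupCohomology (res S.subtype A) 1) := hS 0 (Nat.succ_pos n)
    have hup : IsZero (groupCohomology ((up A).quotientToInvariants S) (n + 1)) := by
      apply ih (up A)
      · intro i hi
        exact (isZero_H_up_iff S.subtype S.subtype_injective A i).2 (hS (i + 1) (by omega))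
      · exact (isZero_H_up_iff_self A n).2 hG
    exact isZero_H_left (upSES_qti_shortExact S A hS1) (n + 1) hup
      (isZero_H_quotientToInvariants_coindBot S A (n + 1))

/-- Exactness of inflation–restriction in the middle in degree `n + 1`, in vanishing form. -/
theorem isZero_H_of_quot : ∀ (n : ℕ) (A : Rep.{u} k G),
    (∀ i, i ≤ n → IsZero (groupCohomology (res S.subtype A) (i + 1))) →
    IsZero (groupCohomology (A.quotientToInvariants S) (n + 1)) →
    IsZero (groupCohomology A (n + 1)) := by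
  intro n
  induction n with
  | zero =>
    intro A hS hQ
    exact (H1InfRes_exact A S).isZero_of_both_isZero hQ (hS 0 le_rfl)
  | succ n ih =>
    intro A hS hQ
    have hS1 : IsZero (groupCohomology (res S.subtype A) 1) := hS 0 (Nat.zero_le _)
    have hupQ : IsZero (groupCohomology ((up A).quotientToInvariants S) (n + 1)) :=
      isZero_H_right (upSES_qti_shortExact S A hS1) (n + 1)
        (isZero_H_quotientToInvariants_coindBot S A n) hQ
    have hup : IsZero (groupCohomology (up A) (n + 1)) := by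
      apply ih (up A) _ hupQ
      intro i hi
      exact (isZero_H_up_iff S.subtype S.subtype_injective A i).2 (hS (i + 1) (by omega))
    exact (isZero_H_up_iff_self A n).1 hup

end

end Fermat.Agent.S55.H295

end
-- ===== PACK-END S55/H295/InfRes.lean

-- ===== PACK-BEGIN S55/T/NakH837/Coind.lean
section


/-!
# S55, layer T, leaf T6 (helper837): `coind₁ A` is weakly projective; lifting and extension

* `isWeakProj_coind₁` : `coind₁ A = Fun(G, A)` is weakly projective.
* `exists_lift_coind₁` : a morphism `coind₁ A ⟶ Z` lifts along a surjection `Y ⟶ Z`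
  (if `A` is projective over `k`).
* `coind₁ι_comp_normHom_ev` : a norm `N ψ : A ⟶ T` extends to `coind₁ A ⟶ T`.
-/

set_option autoImplicit false
set_option linter.unusedSectionVars false

open CategoryTheory groupCohomology

namespace Fermat.Agent.S55.T.H837

open Fermat.Agent.S55.H572

noncomputable section

variable {k G : Type} [CommRing k] [Group G] [Fintype G]

/-- Evaluation at `1 : G`, as a linear map `coind₁ A → A`. -/
def ev₁ (A : Rep.{0} k G) : (coind₁ A).V →ₗ[k] A.V where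
  toFun φ := φ.1 1
  map_add' _ _ := rfl
  map_smul' _ _ := rfl

lemma ev₁_apply (A : Rep.{0} k G) (φ : (coind₁ A).V) : ev₁ A φ = φ.1 1 := rfl

open Classical in
/-- The function supported at `1 : G` with value `a`, as a linear map `A → coind₁ A`. -/
def place₁ (A : Rep.{0} k G) : A.V →ₗ[k] (coind₁ A).V where
  toFun a := mkCoind (Rep.res (⊥ : Subgroup G).subtype A) (fun x => if x = 1 then a else 0)
  map_add' a b := by
    apply Subtype.ext
    funext x
    change (if x = 1 then a + b else 0) = (if x = 1 then a else 0) + (if x = 1 then b else 0)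
    split_ifs <;> simp
  map_smul' r a := by
    apply Subtype.ext
    funext x
    change (if x = 1 then r • a else 0) = r • (if x = 1 then a else 0)
    split_ifs <;> simp

open Classical in
lemma place₁_apply (A : Rep.{0} k G) (a : A.V) (x : G) :
    (place₁ A a).1 x = if x = 1 then a else 0 := rfl

lemma ev₁_coind₁ι (A : Rep.{0} k G) (a : A.V) : ev₁ A ((coind₁ι A).hom a) = a := by
  rw [ev₁_apply, coind₁ι_hom_apply, map_one]
  rfl

lemma coind₁_sum_coe {ι : Type*} (A : Rep.{0} k G) (s : Finset ι) (F : ι → (coind₁ A).V)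
    (x : G) : (∑ i ∈ s, F i).1 x = ∑ i ∈ s, (F i).1 x := by
  rw [Submodule.coe_sum, Finset.sum_apply]

/-- `coind₁ A` is weakly projective. -/
theorem isWeakProj_coind₁ (A : Rep.{0} k G) : IsWeakProj (coind₁ A) := by
  classical
  refine ⟨place₁ A ∘ₗ ev₁ A, fun φ => ?_⟩
  apply Subtype.ext
  funext x
  rw [coind₁_sum_coe]
  have key : ∀ g : G, ((coind₁ A).ρ g ((place₁ A ∘ₗ ev₁ A) ((coind₁ A).ρ g⁻¹ φ))).1 x =
      if g = x⁻¹ then φ.1 x else 0 := by
    intro g
    rw [coind_ρ_coe, LinearMap.comp_apply, place₁_apply, ev₁_apply, coind_ρ_coe, one_mul]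
    by_cases h : g = x⁻¹
    · subst h
      simp
    · have : ¬ x * g = 1 := fun h' => h (eq_inv_of_mul_eq_one_right h')
      simp [h, this]
  rw [Finset.sum_congr rfl fun g _ => key g]
  simp

/-- A morphism out of `coind₁ A` is a norm. -/
lemma hom_coind₁_eq_normHom {A B : Rep.{0} k G} (F : coind₁ A ⟶ B) :
    ∃ ψ : (coind₁ A).V →ₗ[k] B.V, F = normHom ψ :=
  hom_eq_normHom_of_isWeakProj_left (isWeakProj_coind₁ A) F

/-- Lifting property of `coind₁ A` (for `A` projective over `k`) against surjections. -/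
theorem exists_lift_coind₁ {A Y Z : Rep.{0} k G} [Module.Projective k A.V] (q : Y ⟶ Z)
    (hq : Function.Surjective q.hom) (F : coind₁ A ⟶ Z) :
    ∃ F' : coind₁ A ⟶ Y, F' ≫ q = F := by
  obtain ⟨h, hh⟩ := Module.projective_lifting_property q.hom.toLinearMap
    (F.hom.toLinearMap ∘ₗ place₁ A) hq
  refine ⟨normHom (h ∘ₗ ev₁ A), ?_⟩
  rw [normHom_comp, ← LinearMap.comp_assoc, hh, LinearMap.comp_assoc, ← normHom_comp]
  obtain ⟨u, hu⟩ := isWeakProj_coind₁ A
  have : normHom (place₁ A ∘ₗ ev₁ A) = 𝟙 (coind₁ A) := by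
    apply IsWeakProj.normHom_eq
    classical
    intro φ
    apply Subtype.ext
    funext x
    rw [coind₁_sum_coe]
    have key : ∀ g : G, ((coind₁ A).ρ g ((place₁ A ∘ₗ ev₁ A) ((coind₁ A).ρ g⁻¹ φ))).1 x =
        if g = x⁻¹ then φ.1 x else 0 := by
      intro g
      rw [coind_ρ_coe, LinearMap.comp_apply, place₁_apply, ev₁_apply, coind_ρ_coe, one_mul]
      by_cases h : g = x⁻¹
      · subst h
        simp
      · have : ¬ x * g = 1 := fun h' => h (eq_inv_of_mul_eq_one_right h')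
        simp [h, this]
    rw [Finset.sum_congr rfl fun g _ => key g]
    simp
  rw [this, Category.id_comp]

/-- A norm `N ψ : A ⟶ T` extends along `A ⟶ coind₁ A`. -/
theorem coind₁ι_comp_normHom_ev {A T : Rep.{0} k G} (ψ : A.V →ₗ[k] T.V) :
    coind₁ι A ≫ normHom (ψ ∘ₗ ev₁ A) = normHom ψ := by
  rw [comp_normHom]
  congr 1
  apply LinearMap.ext
  intro a
  change ψ (ev₁ A ((coind₁ι A).hom a)) = ψ a
  rw [ev₁_coind₁ι]

end

end Fermat.Agent.S55.T.H837

end
-- ===== PACK-END S55/T/NakH837/Coind.lean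

-- ===== PACK-BEGIN S55/T/PermMainH652.lean
section




/-!
# S55, layer T, piece T10 (helper652): unconditional form

`permSpec : PermSpec` and `permH1Spec : PermH1Spec`, from `PermH652` (conditional proofs),
`ShapiroH303.shapiroRecognition` and `H635.directSum`.
-/

set_option autoImplicit false

namespace Fermat.Agent.S55.T.H652

open Fermat.Agent.S55.T

/-- **T10.**  Permutation modules over a finite group: localisations detect classes and are
surjective orbitwise. -/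
theorem permSpec : PermSpec :=
  permSpec_of ShapiroH303.shapiroRecognition H635.directSum

/-- **T10'.**  `H¹(G, ℤ[X]) = 0` for a finite group `G`. -/
theorem permH1Spec : PermH1Spec :=
  permH1Spec_of ShapiroH303.shapiroRecognition H635.directSum

end Fermat.Agent.S55.T.H652

end
-- ===== PACK-END S55/T/PermMainH652.lean

-- ===== PACK-BEGIN S55/K/T2aH635.lean
section



/-!
# S55 / layer K, leaf K-T2a (helper635): closure properties of `H3Vanish`

Cochain level, ANY commutative coefficient ring `k`, any group `G` with a level system `L`.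

* `d34_d₂₃`, `d₂₃_isLC₃`, `d₂₃_comp`, `d34_comp` : basics in degree 3;
* `h3Vanish_of_retract`, `h3Vanish_of_addEquiv` : retracts, isomorphisms;
* `h3Vanish_of_extension` : extensions `0 → A → B → C → 0` (additive equivariant maps,
  `B` uniformly smooth, normal levels cofinal);
* `h3Vanish_of_sum_eq_id`, `h3Vanish_of_bijective_pi` : finite direct sums;
* `h3Vanish_of_subsingleton` : the zero module;
* `h3Vanish_of_ses` : extensions in the form of `PT.SES` (coefficients in a field).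
-/

set_option autoImplicit false

noncomputable section

namespace Fermat.Agent.S55.K.H635

open groupCohomology Fermat.Agent.S55.PT

variable {k : Type} [CommRing k] {G : Type} [Group G]

/-! ### Basics in degree 3 -/

/-- `d ∘ d = 0` in degrees `2 → 3 → 4`. -/
theorem d34_d₂₃ (A : Rep.{0, 0, 0} k G) (b : G × G → A) : d34 A ((d₂₃ A).hom b) = 0 := by
  funext x
  obtain ⟨g₁, g₂, g₃, g₄⟩ := x
  simp only [d34, d₂₃_hom_apply, map_add, map_sub, Pi.zero_apply, map_mul, Module.End.mul_apply,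
    mul_assoc]
  abel

/-- `d34` is additive. -/
theorem d34_sub (A : Rep.{0, 0, 0} k G) (f f' : G × G × G → A) :
    d34 A (f - f') = d34 A f - d34 A f' := by
  funext x
  simp only [d34, Pi.sub_apply, map_sub]
  abel

theorem isLC₃_comp {L : LevelSys G} {X Y : Type*} {f : G × G × G → X} (hf : IsLC₃ L f)
    (φ : X → Y) : IsLC₃ L (φ ∘ f) := by
  obtain ⟨U, hU, h⟩ := hf
  exact ⟨U, hU, fun g₁ g₂ g₃ s₁ s₂ s₃ h₁ h₂ h₃ => by
    simp only [Function.comp_apply, h g₁ g₂ g₃ s₁ s₂ s₃ h₁ h₂ h₃]⟩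

theorem isLC₃_map₂ {L : LevelSys G} {X Y Z : Type*} {f : G × G × G → X} {f' : G × G × G → Y}
    (hf : IsLC₃ L f) (hf' : IsLC₃ L f') (φ : X → Y → Z) :
    IsLC₃ L (fun x => φ (f x) (f' x)) := by
  obtain ⟨U, hU, h⟩ := hf
  obtain ⟨V, hV, h'⟩ := hf'
  obtain ⟨W, hW, hle⟩ := L.directed U hU V hV
  refine ⟨W, hW, fun g₁ g₂ g₃ s₁ s₂ s₃ h₁ h₂ h₃ => ?_⟩
  simp only
  rw [h g₁ g₂ g₃ s₁ s₂ s₃ (hle h₁).1 (hle h₂).1 (hle h₃).1,
    h' g₁ g₂ g₃ s₁ s₂ s₃ (hle h₁).2 (hle h₂).2 (hle h₃).2]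

theorem isLC₃_sub {L : LevelSys G} {X : Type*} [Sub X] {f f' : G × G × G → X}
    (hf : IsLC₃ L f) (hf' : IsLC₃ L f') : IsLC₃ L (f - f') :=
  isLC₃_map₂ hf hf' (· - ·)

theorem isLC₃_add {L : LevelSys G} {X : Type*} [Add X] {f f' : G × G × G → X}
    (hf : IsLC₃ L f) (hf' : IsLC₃ L f') : IsLC₃ L (f + f') :=
  isLC₃_map₂ hf hf' (· + ·)

/-- The coboundary of a level-constant 2-cochain is level-constant. -/
theorem d₂₃_isLC₃ {L : LevelSys G} (hN : L.NormalCofinal) {A : Rep.{0, 0, 0} k G}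
    (hA : L.IsUSmooth A) {b : G × G → A} (hb : L.IsLC₂ b) : IsLC₃ L ((d₂₃ A).hom b) := by
  obtain ⟨U, hU, h⟩ := hA
  obtain ⟨V, hV, hb⟩ := hb
  obtain ⟨W, hW, hWle⟩ := L.directed U hU V hV
  obtain ⟨N, hNl, hNW, hNn⟩ := hN W hW
  refine ⟨N, hNl, fun g₁ g₂ g₃ s₁ s₂ s₃ h₁ h₂ h₃ => ?_⟩
  have hV' : ∀ s ∈ N, s ∈ V := fun s hs => (hWle (hNW hs)).2
  have hU' : ∀ s ∈ N, s ∈ U := fun s hs => (hWle (hNW hs)).1
  have hconj : ∀ (g s : G), s ∈ N → g⁻¹ * s * g ∈ N := by
    intro g s hs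
    have := hNn.conj_mem s hs g⁻¹
    simpa using this
  have e1 : g₁ * s₁ * (g₂ * s₂) = g₁ * g₂ * (g₂⁻¹ * s₁ * g₂ * s₂) := by group
  have e2 : g₂ * s₂ * (g₃ * s₃) = g₂ * g₃ * (g₃⁻¹ * s₂ * g₃ * s₃) := by group
  simp only [d₂₃_hom_apply]
  rw [e1, e2, hb g₂ g₃ s₂ s₃ (hV' _ h₂) (hV' _ h₃),
    hb (g₁ * g₂) g₃ _ s₃ (hV' _ (N.mul_mem (hconj g₂ s₁ h₁) h₂)) (hV' _ h₃),
    hb g₁ (g₂ * g₃) s₁ _ (hV' _ h₁) (hV' _ (N.mul_mem (hconj g₃ s₂ h₂) h₃)),
    hb g₁ g₂ s₁ s₂ (hV' _ h₁) (hV' _ h₂), map_mul, Module.End.mul_apply, h s₁ (hU' _ h₁)]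

section Comp

variable {A B : Rep.{0, 0, 0} k G} (φ : A →+ B) (hφ : ∀ (g : G) (a : A), φ (A.ρ g a) = B.ρ g (φ a))

include hφ in
/-- `d₂₃` commutes with equivariant additive maps. -/
theorem d₂₃_comp (b : G × G → A) : (d₂₃ B).hom (φ ∘ b) = φ ∘ (d₂₃ A).hom b := by
  funext x
  simp only [d₂₃_hom_apply, Function.comp_apply, map_add, map_sub, hφ]

include hφ in
/-- `d34` commutes with equivariant additive maps. -/
theorem d34_comp (f : G × G × G → A) : d34 B (φ ∘ f) = φ ∘ d34 A f := by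
  funext x
  simp only [d34, Function.comp_apply, map_add, map_sub, hφ]

end Comp

/-! ### Retracts and isomorphisms -/

/-- `H3Vanish` passes to retracts. -/
theorem h3Vanish_of_retract {L : LevelSys G} {A B : Rep.{0, 0, 0} k G} (i : A →+ B) (r : B →+ A)
    (hi : ∀ (g : G) (a : A), i (A.ρ g a) = B.ρ g (i a))
    (hr : ∀ (g : G) (b : B), r (B.ρ g b) = A.ρ g (r b))
    (hri : ∀ a : A, r (i a) = a) (hB : H3Vanish L B) : H3Vanish L A := by
  intro f hf hdf
  have h1 : d34 B (i ∘ f) = 0 := by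
    rw [d34_comp i hi, hdf]
    funext x
    exact map_zero i
  obtain ⟨b, hb, hdb⟩ := hB (i ∘ f) (isLC₃_comp hf i) h1
  refine ⟨r ∘ b, LevelSys.IsLC₂.comp hb r, ?_⟩
  rw [d₂₃_comp r hr, hdb]
  funext x
  exact hri (f x)

/-- `H3Vanish` is invariant under equivariant additive isomorphisms. -/
theorem h3Vanish_of_addEquiv {L : LevelSys G} {A B : Rep.{0, 0, 0} k G} (e : A ≃+ B)
    (he : ∀ (g : G) (a : A), e (A.ρ g a) = B.ρ g (e a)) (hB : H3Vanish L B) : H3Vanish L A := by
  refine h3Vanish_of_retract e.toAddMonoidHom e.symm.toAddMonoidHom he ?_ ?_ hB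
  · intro g b
    apply e.injective
    show e (e.symm (B.ρ g b)) = e (A.ρ g (e.symm b))
    rw [he, e.apply_symm_apply, e.apply_symm_apply]
  · intro a
    exact e.symm_apply_apply a

/-- The zero module. -/
theorem h3Vanish_of_subsingleton {L : LevelSys G} {A : Rep.{0, 0, 0} k G} [Subsingleton A] :
    H3Vanish L A := by
  intro f _ _
  refine ⟨0, (L.C2 A).zero_mem, ?_⟩
  funext x
  exact Subsingleton.elim _ _

/-! ### Extensions -/

/-- `H3Vanish` is closed under extensions `0 → A → B → C → 0`. -/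
theorem h3Vanish_of_extension {L : LevelSys G} (hN : L.NormalCofinal)
    {A B C : Rep.{0, 0, 0} k G} (hB : L.IsUSmooth B) (i : A →+ B) (π : B →+ C)
    (hi : ∀ (g : G) (a : A), i (A.ρ g a) = B.ρ g (i a))
    (hπ : ∀ (g : G) (b : B), π (B.ρ g b) = C.ρ g (π b))
    (hinj : Function.Injective i) (hsurj : Function.Surjective π)
    (hex : ∀ b : B, π b = 0 → ∃ a : A, i a = b)
    (hA : H3Vanish L A) (hC : H3Vanish L C) : H3Vanish L B := by
  classical
  intro f hf hdf
  -- the image in `C` is a coboundary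
  have h1 : d34 C (π ∘ f) = 0 := by
    rw [d34_comp π hπ, hdf]
    funext x
    exact map_zero π
  obtain ⟨b'', hb'', hdb''⟩ := hC (π ∘ f) (isLC₃_comp hf π) h1
  -- lift `b''` to `B`
  set bt : G × G → B := Function.surjInv hsurj ∘ b'' with hbt
  have hbtLC : L.IsLC₂ bt := LevelSys.IsLC₂.comp hb'' _
  have hπbt : (π ∘ bt : G × G → C) = b'' := by
    funext x
    exact Function.surjInv_eq hsurj (b'' x)
  -- `f' = f - d bt` has values in `ker π = im i`
  set f' : G × G × G → B := f - (d₂₃ B).hom bt with hf'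
  have hf'LC : IsLC₃ L f' := isLC₃_sub hf (d₂₃_isLC₃ hN hB hbtLC)
  have hπf' : ∀ x, π (f' x) = 0 := by
    intro x
    have h2 := congrFun (d₂₃_comp π hπ bt) x
    rw [hπbt, hdb''] at h2
    simp only [hf', Pi.sub_apply, map_sub]
    simp only [Function.comp_apply] at h2
    rw [← h2, sub_self]
  -- a set-theoretic inverse of `i` on `ker π`
  let ι : B → A := fun b => if h : π b = 0 then Classical.choose (hex b h) else 0
  have hι : ∀ b, π b = 0 → i (ι b) = b := by
    intro b h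
    simp only [ι, dif_pos h]
    exact Classical.choose_spec (hex b h)
  set f'' : G × G × G → A := ι ∘ f' with hf''
  have hif'' : (i ∘ f'' : G × G × G → B) = f' := by
    funext x
    exact hι _ (hπf' x)
  have hdf'' : d34 A f'' = 0 := by
    have h3 : (i ∘ d34 A f'' : G × G × G × G → B) = 0 := by
      rw [← d34_comp i hi, hif'', hf', d34_sub, hdf, d34_d₂₃, sub_zero]
    funext x
    apply hinj
    rw [Pi.zero_apply, map_zero]
    exact congrFun h3 x
  obtain ⟨b', hb', hdb'⟩ := hA f'' (isLC₃_comp hf'LC ι) hdf''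
  refine ⟨i ∘ b' + bt, (L.C2 B).add_mem (LevelSys.IsLC₂.comp hb' i) hbtLC, ?_⟩
  rw [map_add, d₂₃_comp i hi, hdb', hif'', hf']
  abel

/-! ### Finite direct sums -/

/-- `H3Vanish` is closed under finite direct sums, in "biproduct" form: `B` with equivariant maps
`inc j : A j → B`, `pr j : B → A j` such that `∑ j, inc j (pr j b) = b`. -/
theorem h3Vanish_of_sum_eq_id {L : LevelSys G} {ι : Type} [Fintype ι]
    (A : ι → Rep.{0, 0, 0} k G) (B : Rep.{0, 0, 0} k G)
    (inc : ∀ j, A j →+ B) (pr : ∀ j, B →+ A j)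
    (hinc : ∀ (j : ι) (g : G) (a : A j), inc j ((A j).ρ g a) = B.ρ g (inc j a))
    (hpr : ∀ (j : ι) (g : G) (b : B), pr j (B.ρ g b) = (A j).ρ g (pr j b))
    (hsum : ∀ b : B, ∑ j, inc j (pr j b) = b)
    (hA : ∀ j, H3Vanish L (A j)) : H3Vanish L B := by
  classical
  intro f hf hdf
  have h1 : ∀ j, d34 (A j) (pr j ∘ f) = 0 := by
    intro j
    rw [d34_comp (pr j) (hpr j), hdf]
    funext x
    exact map_zero (pr j)
  choose b hb hdb using fun j => hA j (pr j ∘ f) (isLC₃_comp hf (pr j)) (h1 j)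
  refine ⟨∑ j, (inc j ∘ b j : G × G → B), (L.C2 B).sum_mem fun j _ =>
    LevelSys.IsLC₂.comp (hb j) (inc j), ?_⟩
  rw [map_sum]
  funext x
  rw [Finset.sum_apply, ← hsum (f x)]
  refine Finset.sum_congr rfl fun j _ => ?_
  rw [d₂₃_comp (inc j) (hinc j), hdb j]
  rfl

/-- `H3Vanish` is closed under finite products, in the form of `T.FiniteProdSpec`: the map
`B → ∏ j, A j` with components `pr j` is bijective. -/
theorem h3Vanish_of_bijective_pi {L : LevelSys G} {ι : Type} [Finite ι]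
    (A : ι → Rep.{0, 0, 0} k G) (B : Rep.{0, 0, 0} k G) (pr : ∀ j, B →+ A j)
    (hpr : ∀ (j : ι) (g : G) (b : B), pr j (B.ρ g b) = (A j).ρ g (pr j b))
    (hbij : Function.Bijective (fun (b : B) (j : ι) => pr j b))
    (hA : ∀ j, H3Vanish L (A j)) : H3Vanish L B := by
  classical
  have : Fintype ι := Fintype.ofFinite ι
  intro f hf hdf
  have h1 : ∀ j, d34 (A j) (pr j ∘ f) = 0 := by
    intro j
    rw [d34_comp (pr j) (hpr j), hdf]
    funext x
    exact map_zero (pr j)
  choose b hb hdb using fun j => hA j (pr j ∘ f) (isLC₃_comp hf (pr j)) (h1 j)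
  -- the inverse of `B → ∏ A j`
  let e : B ≃ (∀ j, A j) := Equiv.ofBijective _ hbij
  have he : ∀ (y : ∀ j, A j) (j : ι), pr j (e.symm y) = y j := by
    intro y j
    exact congrFun (e.apply_symm_apply y) j
  set bb : G × G → B := fun x => e.symm (fun j => b j x) with hbb
  have hbbLC : L.IsLC₂ bb := by
    -- a common level for the finitely many `b j`
    have hall : ∀ T : Finset ι, ∃ U ∈ L.levels, ∀ j ∈ T, ∀ g g' s s' : G, s ∈ U → s' ∈ U →
        b j (g * s, g' * s') = b j (g, g') := by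
      intro T
      induction T using Finset.induction_on with
      | empty =>
        obtain ⟨U, hU⟩ := L.nonempty
        exact ⟨U, hU, fun j hj => absurd hj (Finset.notMem_empty j)⟩
      | insert a T _ ih =>
        obtain ⟨U, hU, h⟩ := ih
        obtain ⟨V, hV, h'⟩ := hb a
        obtain ⟨W, hW, hle⟩ := L.directed U hU V hV
        refine ⟨W, hW, fun j hj g g' s s' hs hs' => ?_⟩
        rcases Finset.mem_insert.1 hj with rfl | hj
        · exact h' g g' s s' (hle hs).2 (hle hs').2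
        · exact h j hj g g' s s' (hle hs).1 (hle hs').1
    obtain ⟨U, hU, h⟩ := hall Finset.univ
    refine ⟨U, hU, fun g g' s s' hs hs' => ?_⟩
    simp only [hbb]
    congr 1
    funext j
    exact h j (Finset.mem_univ j) g g' s s' hs hs'
  refine ⟨bb, hbbLC, ?_⟩
  funext x
  apply hbij.1
  funext j
  show pr j ((d₂₃ B).hom bb x) = pr j (f x)
  have h2 := congrFun (d₂₃_comp (pr j) (hpr j) bb) x
  have h3 : (pr j ∘ bb : G × G → A j) = b j := by
    funext y
    exact he _ j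
  rw [h3, hdb j] at h2
  simp only [Function.comp_apply] at h2
  exact h2.symm

/-! ### Field coefficients: the `PT` form -/

/-- `H3Vanish` is closed under extensions, in the form of `PT.SES`. -/
theorem h3Vanish_of_ses {F : Type} [Field F] {L : LevelSys G} (hN : L.NormalCofinal)
    {A B C : Rep.{0, 0, 0} F G} (E : SES A B C) (hB : L.IsUSmooth B)
    (hA : H3Vanish L A) (hC : H3Vanish L C) : H3Vanish L B :=
  h3Vanish_of_extension hN hB E.i.toAddMonoidHom E.π.toAddMonoidHom E.hi E.hπ E.inj E.surj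
    (fun b hb => by
      have : b ∈ LinearMap.range E.i := by rw [E.exact]; exact hb
      exact this) hA hC

/-- `H3Vanish` passes to retracts (`PT.IsEquivariant` form). -/
theorem h3Vanish_of_retract' {F : Type} [Field F] {L : LevelSys G}
    {A B : Rep.{0, 0, 0} F G} (i : A →ₗ[F] B) (r : B →ₗ[F] A) (hi : IsEquivariant i)
    (hr : IsEquivariant r) (hri : ∀ a : A, r (i a) = a) (hB : H3Vanish L B) : H3Vanish L A :=
  h3Vanish_of_retract i.toAddMonoidHom r.toAddMonoidHom hi hr hri hB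

/-- `H3Vanish` is invariant under equivariant linear isomorphisms (`PT.IsEquivariant` form). -/
theorem h3Vanish_of_linearEquiv {F : Type} [Field F] {L : LevelSys G}
    {A B : Rep.{0, 0, 0} F G} (e : A ≃ₗ[F] B) (he : IsEquivariant e.toLinearMap)
    (hB : H3Vanish L B) : H3Vanish L A :=
  h3Vanish_of_addEquiv e.toAddEquiv he hB

end Fermat.Agent.S55.K.H635

end
end
-- ===== PACK-END S55/K/T2aH635.lean

-- ===== PACK-BEGIN S55/KL/H510/Surj2Core.lean
section


/-!
# S55 / layer KL (helper53), leaf KL-P2 (`Surj2OfH3Spec`): core, independent of the location of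
the interface `KL/Spec.lean` (imports only the landed `PT` layer)

`surj2OfH3_core_h510` is the statement of `Surj2OfH3Spec` with `H3Vanish`, `IsLC₃`, `IsCocycle₃`
unfolded.  Adapter (one line, wherever the Spec lives):

  `theorem surj2OfH3 : Surj2OfH3Spec := fun G _ L p _ hNC hH3 =>`
  `  Fermat.Agent.S55.KL.H510.surj2OfH3_core_h510 G L p hNC hH3`

`H³_lc(G, R) = 0` for all finite `R` ⇒ `H²_lc(G, −)` is right exact.

Lift a cocycle `n` to the cochain `ñ = sec ∘ n` (`sec` a linear section of `φ`); `d ñ` is a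
level-constant 3-cocycle with values in `R = ker φ`; write `d ñ = d b` with `b` a level-constant
2-cochain of `R`; then `ñ - b` is a level-constant 2-cocycle of `P` lifting `n`.
-/

set_option autoImplicit false
set_option linter.style.haveILetI false

noncomputable section

namespace Fermat.Agent.S55.KL.H510

open groupCohomology ExtCitation Fermat.Agent.S55.PT

variable {k : Type} [Field k] {G : Type} [Group G]

/-- `d₂₃` of a cochain which is right-invariant under a normal subgroup `V` acting trivially on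
the coefficients is right-invariant under `V` (in all three variables). -/
theorem d₂₃_rightInv_h510 (P : Rep.{0, 0, 0} k G) (V : Subgroup G) [V.Normal]
    (hP : ∀ s ∈ V, ∀ a : P, P.ρ s a = a) (f : G × G → P)
    (hf : ∀ g g' s s' : G, s ∈ V → s' ∈ V → f (g * s, g' * s') = f (g, g'))
    (g h i s₁ s₂ s₃ : G) (h₁ : s₁ ∈ V) (h₂ : s₂ ∈ V) (h₃ : s₃ ∈ V) :
    (d₂₃ P).hom f (g * s₁, h * s₂, i * s₃) = (d₂₃ P).hom f (g, h, i) := by
  have e1 : f (h * s₂, i * s₃) = f (h, i) := hf h i s₂ s₃ h₂ h₃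
  have e2 : f (g * s₁ * (h * s₂), i * s₃) = f (g * h, i) := by
    have hm : h⁻¹ * s₁ * h * s₂ ∈ V := by
      refine V.mul_mem ?_ h₂
      have := ‹V.Normal›.conj_mem s₁ h₁ h⁻¹
      simpa using this
    have : g * s₁ * (h * s₂) = g * h * (h⁻¹ * s₁ * h * s₂) := by group
    rw [this]
    exact hf (g * h) i _ s₃ hm h₃
  have e3 : f (g * s₁, h * s₂ * (i * s₃)) = f (g, h * i) := by
    have hm : i⁻¹ * s₂ * i * s₃ ∈ V := by
      refine V.mul_mem ?_ h₃
      have := ‹V.Normal›.conj_mem s₂ h₂ i⁻¹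
      simpa using this
    have : h * s₂ * (i * s₃) = h * i * (i⁻¹ * s₂ * i * s₃) := by group
    rw [this]
    exact hf g (h * i) s₁ _ h₁ hm
  have e4 : f (g * s₁, h * s₂) = f (g, h) := hf g h s₁ s₂ h₁ h₂
  have e5 : P.ρ (g * s₁) (f (h, i)) = P.ρ g (f (h, i)) := by
    rw [map_mul]
    show P.ρ g (P.ρ s₁ (f (h, i))) = _
    rw [hP s₁ h₁]
  simp only [d₂₃_hom_apply]
  rw [e1, e2, e3, e4, e5]

/-- `d ∘ d = 0` in degrees 2, 3, inhomogeneous form. -/
theorem d₂₃_isCocycle_h510 (P : Rep.{0, 0, 0} k G) (f : G × G → P) (g h i j : G) :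
    P.ρ g ((d₂₃ P).hom f (h, i, j)) - (d₂₃ P).hom f (g * h, i, j)
      + (d₂₃ P).hom f (g, h * i, j) - (d₂₃ P).hom f (g, h, i * j)
      + (d₂₃ P).hom f (g, h, i) = 0 := by
  have e : P.ρ (g * h) (f (i, j)) = P.ρ g (P.ρ h (f (i, j))) := by
    rw [map_mul]; rfl
  simp only [d₂₃_hom_apply, map_add, map_sub, e, mul_assoc]
  abel

/-- **KL-P2** (`Surj2OfH3Spec`, unfolded): `H³_lc(G, R) = 0` for all finite `R` ⇒ `H²_lc(G, −)` is
right exact. -/
theorem surj2OfH3_core_h510 (G : Type) [Group G] (L : LevelSys G) (p : ℕ) [Fact p.Prime]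
    (hNC : L.NormalCofinal)
    (hH3 : ∀ R : Rep.{0, 0, 0} (ZMod p) G, FiniteDimensional (ZMod p) R → L.IsUSmooth R →
      ∀ z : G × G × G → R,
        (∃ U ∈ L.levels, ∀ g₁ g₂ g₃ s₁ s₂ s₃ : G, s₁ ∈ U → s₂ ∈ U → s₃ ∈ U →
          z (g₁ * s₁, g₂ * s₂, g₃ * s₃) = z (g₁, g₂, g₃)) →
        (∀ g h i j : G,
          R.ρ g (z (h, i, j)) - z (g * h, i, j) + z (g, h * i, j) - z (g, h, i * j)
            + z (g, h, i) = 0) →
        ∃ b : G × G → R, L.IsLC₂ b ∧ (d₂₃ R).hom b = z)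
    (P N : Rep.{0, 0, 0} (ZMod p) G) (φ : P →ₗ[ZMod p] N) (hφ : IsEquivariant φ)
    (hfdP : FiniteDimensional (ZMod p) P) (hsmP : L.IsUSmooth P) (_hsmN : L.IsUSmooth N)
    (hsurj : Function.Surjective φ) : Function.Surjective (pushH2 φ hφ L) := by
  intro y
  haveI := hfdP
  obtain ⟨sec, hsec⟩ := φ.exists_rightInverse_of_surjective (LinearMap.range_eq_top.2 hsurj)
  have hsec' : ∀ x : N, φ (sec x) = x := fun x => LinearMap.congr_fun hsec x
  obtain ⟨n, rfl⟩ := L.H2π_surjective N y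
  have hn0 : (d₂₃ N).hom (n : G × G → N) = 0 := n.2.1
  have hnLC : L.IsLC₂ (n : G × G → N) := n.2.2
  -- the lifted cochain
  let ñ : G × G → P := sec ∘ (n : G × G → N)
  have hñLC : L.IsLC₂ ñ := hnLC.comp sec
  have hφñ : φ ∘ ñ = (n : G × G → N) := by
    funext x
    exact hsec' _
  have hz : ∀ x, (d₂₃ P).hom ñ x ∈ LinearMap.ker φ := by
    intro x
    rw [LinearMap.mem_ker]
    have h1 := congrFun (push_d₂₃ φ hφ ñ) x
    rw [hφñ, hn0] at h1
    exact h1.symm
  -- the kernel representation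
  have hfdR : FiniteDimensional (ZMod p) (kerRep φ hφ) :=
    inferInstanceAs (FiniteDimensional (ZMod p) ↥(LinearMap.ker φ))
  obtain ⟨U₁, hU₁, hU₁P⟩ := hsmP
  have hsmR : L.IsUSmooth (kerRep φ hφ) :=
    ⟨U₁, hU₁, fun s hs a => Subtype.ext (hU₁P s hs (a : P))⟩
  let z : G × G × G → kerRep φ hφ := fun x => ⟨(d₂₃ P).hom ñ x, hz x⟩
  -- a normal level below the level of `ñ` and the level acting trivially on `P`
  obtain ⟨U₂, hU₂, hU₂ñ⟩ := hñLC
  obtain ⟨W, hW, hWle⟩ := L.directed U₁ hU₁ U₂ hU₂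
  obtain ⟨V, hV, hVW, hVn⟩ := hNC W hW
  haveI := hVn
  have hzLC : ∃ U ∈ L.levels, ∀ g₁ g₂ g₃ s₁ s₂ s₃ : G, s₁ ∈ U → s₂ ∈ U → s₃ ∈ U →
      z (g₁ * s₁, g₂ * s₂, g₃ * s₃) = z (g₁, g₂, g₃) := by
    refine ⟨V, hV, fun g₁ g₂ g₃ s₁ s₂ s₃ h₁ h₂ h₃ => Subtype.ext ?_⟩
    exact d₂₃_rightInv_h510 P V (fun s hs a => hU₁P s (hWle (hVW hs)).1 a) ñ
      (fun g g' s s' hs hs' => hU₂ñ g g' s s' (hWle (hVW hs)).2 (hWle (hVW hs')).2)
      g₁ g₂ g₃ s₁ s₂ s₃ h₁ h₂ h₃
  have hzcoc : ∀ g h i j : G,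
      (kerRep φ hφ).ρ g (z (h, i, j)) - z (g * h, i, j) + z (g, h * i, j) - z (g, h, i * j)
        + z (g, h, i) = 0 := by
    intro g h i j
    apply Subtype.ext
    exact d₂₃_isCocycle_h510 P ñ g h i j
  obtain ⟨b, hbLC, hb⟩ := hH3 (kerRep φ hφ) hfdR hsmR z hzLC hzcoc
  -- the corrected lift
  have hdb : (d₂₃ P).hom (kerIncl φ ∘ b) = (d₂₃ P).hom ñ := by
    rw [push_d₂₃ (A := kerRep φ hφ) (B := P) (kerIncl φ) (kerIncl_equivariant φ hφ) b, hb]
    rfl
  have hcLC : L.IsLC₂ (ñ - kerIncl φ ∘ b) :=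
    (L.C2 P).sub_mem (show ñ ∈ L.C2 P from ⟨U₂, hU₂, hU₂ñ⟩)
      (show kerIncl φ ∘ b ∈ L.C2 P from hbLC.comp (kerIncl φ))
  have hccoc : ñ - kerIncl φ ∘ b ∈ cocycles₂ P := by
    show (d₂₃ P).hom (ñ - kerIncl φ ∘ b) = 0
    rw [map_sub, hdb, sub_self]
  refine ⟨L.H2π P ⟨ñ - kerIncl φ ∘ b, hccoc, hcLC⟩, ?_⟩
  rw [pushH2_mk]
  congr 1
  apply Subtype.ext
  funext x
  show φ (ñ x - kerIncl φ (b x)) = (n : G × G → N) x
  rw [map_sub, show φ (kerIncl φ (b x)) = 0 from LinearMap.mem_ker.1 (b x).2, sub_zero]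
  exact hsec' _

end Fermat.Agent.S55.KL.H510

end
end
-- ===== PACK-END S55/KL/H510/Surj2Core.lean

-- ===== PACK-BEGIN S55/K/H724/Basic.lean
section


/-!
# S55 / layer K : basic cochain lemmas for the leaves K-T3, K-T4   (helper724)

* additive equivariant maps between representations over DIFFERENT coefficient rings commute
  with the differentials `d₀₁`, `d₁₂`, `d₂₃`, `d34` (`comp_d01`, …);
* `K-I3` in degrees 0 and 1 (`smooth_of_d01_lc`, `smooth_of_d12_lc`);
* a smooth level-constant cochain has level-constant coboundary (`d01_lc_of_smooth`,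
  `d12_lc_of_smooth`);
* common normal levels for finitely many smooth elements (`exists_common_level`);
* level-constant functions have finitely many values (`finite_range_of_lc`).
-/

set_option autoImplicit false

noncomputable section

namespace Fermat.Agent.S55.K.H724

open groupCohomology Fermat.Agent.S55.PT Fermat.Agent.S55.K

/-! ### additive equivariant maps -/

section Equiv

variable {G : Type} [Group G] {k k' : Type} [CommRing k] [CommRing k']
variable {A : Rep.{0, 0, 0} k G} {B : Rep.{0, 0, 0} k' G}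

/-- `φ : A →+ B` commutes with the actions. -/
def IsAddEquivariant (φ : A →+ B) : Prop := ∀ (g : G) (a : A), φ (A.ρ g a) = B.ρ g (φ a)

variable {φ : A →+ B} (hφ : IsAddEquivariant φ)

include hφ

lemma comp_d01 (a : A) : (φ ∘ (d₀₁ A).hom a : G → B) = (d₀₁ B).hom (φ a) := by
  funext g
  simp only [Function.comp_apply, d₀₁_hom_apply, map_sub]
  rw [hφ g a]

lemma comp_d12 (f : G → A) : (φ ∘ (d₁₂ A).hom f : G × G → B) = (d₁₂ B).hom (φ ∘ f) := by
  funext ⟨g, h⟩
  simp only [Function.comp_apply, d₁₂_hom_apply, map_sub, map_add]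
  rw [hφ g _]

lemma comp_d23 (f : G × G → A) :
    (φ ∘ (d₂₃ A).hom f : G × G × G → B) = (d₂₃ B).hom (φ ∘ f) := by
  funext ⟨g, h, j⟩
  simp only [Function.comp_apply, d₂₃_hom_apply, map_sub, map_add]
  rw [hφ g _]

lemma comp_d34 (f : G × G × G → A) :
    (φ ∘ d34 A f : G × G × G × G → B) = d34 B (φ ∘ f) := by
  funext ⟨g, h, j, l⟩
  simp only [Function.comp_apply, d34, map_sub, map_add]
  rw [hφ g _]

end Equiv

/-! ### smooth elements, level-constant cochains -/

section Smooth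

variable {G : Type} [Group G] (L : LevelSys G) {k : Type} [CommRing k] (A : Rep.{0, 0, 0} k G)

/-- an element fixed by some level -/
def IsSm (a : A) : Prop := ∃ U ∈ L.levels, ∀ s ∈ U, A.ρ s a = a

variable {L A}

lemma isSm_zero : IsSm L A 0 := by
  obtain ⟨U, hU⟩ := L.nonempty
  exact ⟨U, hU, fun s _ => map_zero _⟩

/-- Finitely many smooth elements are fixed by a common normal level inside a given level. -/
lemma exists_common_level (hN : L.NormalCofinal) (T : Finset A) (hT : ∀ a ∈ T, IsSm L A a)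
    (W : Subgroup G) (hW : W ∈ L.levels) :
    ∃ U ∈ L.levels, U ≤ W ∧ U.Normal ∧ ∀ a ∈ T, ∀ s ∈ U, A.ρ s a = a := by
  classical
  induction T using Finset.induction_on with
  | empty =>
    obtain ⟨U, hU, hUW, hUn⟩ := hN W hW
    exact ⟨U, hU, hUW, hUn, fun a ha => absurd ha (Finset.notMem_empty a)⟩
  | insert a T _ ih =>
    obtain ⟨U, hU, hUW, -, hfix⟩ := ih (fun b hb => hT b (Finset.mem_insert_of_mem hb))
    obtain ⟨U', hU', hfix'⟩ := hT a (Finset.mem_insert_self a T)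
    obtain ⟨U'', hU'', hle⟩ := L.directed U hU U' hU'
    obtain ⟨U₃, hU₃, hle₃, hn₃⟩ := hN U'' hU''
    refine ⟨U₃, hU₃, fun s hs => hUW (hle (hle₃ hs)).1, hn₃, fun b hb s hs => ?_⟩
    rcases Finset.mem_insert.1 hb with rfl | hb
    · exact hfix' s (hle (hle₃ hs)).2
    · exact hfix b hb s (hle (hle₃ hs)).1

/-- A function which is right-invariant under a subgroup of finite index has finite range. -/
lemma finite_range_of_rightInv {X : Type*} (U : Subgroup G) [U.FiniteIndex] (f : G → X)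
    (hf : ∀ g s : G, s ∈ U → f (g * s) = f g) : (Set.range f).Finite := by
  haveI : Finite (G ⧸ U) := Subgroup.finite_quotient_of_finiteIndex
  let f' : G ⧸ U → X := Quotient.lift f (by
    intro a b hab
    have hab' : a⁻¹ * b ∈ U := QuotientGroup.leftRel_apply.1 hab
    have := hf a (a⁻¹ * b) hab'
    rw [mul_inv_cancel_left] at this
    exact this.symm)
  have : Set.range f ⊆ Set.range f' := by
    rintro x ⟨g, rfl⟩
    exact ⟨(g : G ⧸ U), rfl⟩
  exact (Set.finite_range f').subset this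

/-- **K-I3, degree 0.** If `d a` is level constant then `a` is smooth. -/
lemma smooth_of_d01_lc (a : A) (h : L.IsLC₁ ((d₀₁ A).hom a)) : IsSm L A a := by
  obtain ⟨U, hU, hc⟩ := h
  refine ⟨U, hU, fun s hs => ?_⟩
  have h1 := hc 1 s hs
  rw [d₀₁_hom_apply, d₀₁_hom_apply, one_mul, map_one, Module.End.one_apply, sub_self,
    sub_eq_zero] at h1
  exact h1

/-- A smooth element has level-constant coboundary. -/
lemma d01_lc_of_smooth (a : A) (h : IsSm L A a) : L.IsLC₁ ((d₀₁ A).hom a) := by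
  obtain ⟨U, hU, hfix⟩ := h
  refine ⟨U, hU, fun g s hs => ?_⟩
  rw [d₀₁_hom_apply, d₀₁_hom_apply, map_mul, Module.End.mul_apply, hfix s hs]

/-- **K-I3, degree 1.** If `a` and `d a` are level constant then `a` is right-invariant under a
normal level `U` (inside any given level) which fixes all values of `a`. -/
lemma smooth_of_d12_lc (hN : L.NormalCofinal) (a : G → A) (ha : L.IsLC₁ a)
    (hda : L.IsLC₂ ((d₁₂ A).hom a)) (W : Subgroup G) (hW : W ∈ L.levels) :
    ∃ U ∈ L.levels, U ≤ W ∧ U.Normal ∧ (∀ g s : G, s ∈ U → a (g * s) = a g) ∧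
      ∀ g s : G, s ∈ U → A.ρ s (a g) = a g := by
  obtain ⟨U₁, hU₁, h₁⟩ := ha
  obtain ⟨U₂, hU₂, h₂⟩ := hda
  obtain ⟨U₃, hU₃, hle₃⟩ := L.directed U₁ hU₁ U₂ hU₂
  obtain ⟨U₄, hU₄, hle₄⟩ := L.directed U₃ hU₃ W hW
  obtain ⟨U, hU, hle, hn⟩ := hN U₄ hU₄
  have hUU₁ : U ≤ U₁ := fun s hs => (hle₃ (hle₄ (hle hs)).1).1
  have hUU₂ : U ≤ U₂ := fun s hs => (hle₃ (hle₄ (hle hs)).1).2
  refine ⟨U, hU, fun s hs => (hle₄ (hle hs)).2, hn, fun g s hs => h₁ g s (hUU₁ hs),
    fun g s hs => ?_⟩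
  have h3 := h₂ 1 g s 1 (hUU₂ hs) (one_mem _)
  rw [d₁₂_hom_apply, d₁₂_hom_apply] at h3
  simp only [one_mul, mul_one, map_one, Module.End.one_apply] at h3
  -- a (s * g) = a (g * (g⁻¹ * s * g)) = a g
  have h4 : a (s * g) = a g := by
    have : s * g = g * (g⁻¹ * s * g) := by group
    rw [this]
    exact h₁ g _ (hUU₁ (by
      have := hn.conj_mem s hs g⁻¹
      simpa using this))
  have h5 : a s = a 1 := by
    have := h₁ 1 s (hUU₁ hs)
    rwa [one_mul] at this
  rw [h4, h5] at h3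
  have h6 : A.ρ s (a g) - a g = 0 := by
    have : A.ρ s (a g) - a g + a 1 = a g - a g + a 1 := h3
    rw [sub_self, zero_add] at this
    exact add_eq_right.1 this
  exact sub_eq_zero.1 h6

/-- A cochain which is right-invariant under a normal subgroup `U` fixing all its values has a
coboundary which is right-invariant under `U`. -/
lemma d12_rightInv_of_smooth (U : Subgroup G) [hn : U.Normal] (a : G → A)
    (ha : ∀ g s : G, s ∈ U → a (g * s) = a g) (hfix : ∀ g s : G, s ∈ U → A.ρ s (a g) = a g)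
    (g g' s s' : G) (hs : s ∈ U) (hs' : s' ∈ U) :
    (d₁₂ A).hom a (g * s, g' * s') = (d₁₂ A).hom a (g, g') := by
  rw [d₁₂_hom_apply, d₁₂_hom_apply]
  have h1 : a (g' * s') = a g' := ha g' s' hs'
  have h2 : a (g * s) = a g := ha g s hs
  have h3 : a (g * s * (g' * s')) = a (g * g') := by
    have : g * s * (g' * s') = g * g' * ((g'⁻¹ * s * g') * s') := by group
    rw [this]
    exact ha _ _ (U.mul_mem (by
      have := hn.conj_mem s hs g'⁻¹
      simpa using this) hs')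
  rw [h1, h2, h3, map_mul, Module.End.mul_apply, hfix g' s hs]

end Smooth

end Fermat.Agent.S55.K.H724

end

end
-- ===== PACK-END S55/K/H724/Basic.lean

-- ===== PACK-BEGIN S55/K/GO3H535/Spec.lean
section



/-!
# S55 / layer K / arithmetic input GO3 (`HasseESpec`) via the REC model   (helper535)

Route (no tower datum, no idèles):

  `hasseE_of : ShapiroInjSpec S → CapDivSpec p S → HassePrincipleSpec p → LocalInvSystem →
      HasseESpec p S`        (file `GO3H535/Main.lean`)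

* evaluate a level-constant 2-cocycle `x` of `Ind_V 𝔼` at the coset `V`: a 2-cocycle `x'` of `V`
  with values in `𝔼 ⊂ ℚ̄ˣ`, i.e. a class `ξ ∈ gBr V = Br(K_V)` with `p ξ = 0`;
* `ξ` is locally trivial at every place `(q, g)`:  `q ∉ S` by `inv_unram` + `inv_injective`
  (unit values, unramified level), `q ∈ S` by hypothesis + the conjugation homotopy;
* Hasse principle (`G.Rec.HassePrincipleSpec p`) ⇒ `x' = d z`, `z` a level cochain of `ℚ̄ˣ`;
* Hilbert 90 (landed `H844.exists_unit_of_levelCocycle844`) ⇒ `z` may be taken constant modulo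
  an `S`-level;
* **`CapDivSpec`** (arithmetic leaf: capitulation of `p`-classes, Kummer) ⇒ `z` may be taken
  `S`-unit valued;
* **`ShapiroInjSpec`** (formal leaf, = K-COL (d)) ⇒ `x` is a level-constant coboundary.

This file: the two leaf statements.  `def … : Prop` only, no `sorry`.
-/

set_option autoImplicit false

noncomputable section

namespace Fermat.Agent.S55.K.GO3H535

open groupCohomology Fermat.Agent.S55.PT Fermat.Agent.S55.Bridge

/-- `a ∈ ℚ̄ˣ` is `S`-smooth: fixed by some level `G_F`, `F/ℚ` finite unramified outside `S`. -/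
def IsSm (S : Finset Nat.Primes) (a : Qbarˣ) : Prop :=
  ∃ U ∈ (globalLevels S).levels, ∀ s ∈ U, s • a = a

/-- evaluation `Ind_V A → A` at a coset (`ℤ`-linear; equivariant for the stabiliser of the
coset). -/
def evAt (V : Subgroup _root_.Fermat.Agent.S55.PT.GQ) (A : Rep.{0, 0, 0} ℤ _root_.Fermat.Agent.S55.PT.GQ) (c : _root_.Fermat.Agent.S55.PT.GQ ⧸ V) : indG V A →ₗ[ℤ] A :=
  Finsupp.lapply c

/-- **GO3-CAPDIV** (arithmetic leaf).  `V = G_K` a level, `β` an `S`-smooth element such that for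
every `σ ∈ V` the element `σβ/β` is, up to an `S`-unit, the `p`-th power of an `S`-smooth
element (i.e. the `S`-divisor of `β` is `V`-invariant modulo `p`).  Then there is an `S`-smooth
`α` with `(σα/α)^p ≡ σβ/β` modulo `S`-units for all `σ ∈ V`.

Proof sketch.  `F ∋ β` a Galois `S`-level, `D = div^S_F(β)`; `D mod p` is `Gal(F/K)`-invariant and
`F/K` is unramified outside `S`, so `D = ext(𝔠) + p𝔞`, `𝔠 ∈ Div^S(K)`.  `Cl_S(K)` is finite:
`p^a h' 𝔠 = div(κ)`, `κ ∈ Kˣ`, `p ∤ h'`.  `δ := κ^(1/p^a)` and `α₂ := (β^h'/δ)^(1/p)` are `S`-smooth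
(Kummer, `p ∈ S`: their radicands have `S`-divisors divisible by `p^a`, resp. `p`);
`(σα₂/α₂)^p = (σβ/β)^h' · (δ/σδ)` and `δ/σδ ∈ μ_{p^a}`.  With `r h' + s p = 1`:
`α := α₂^r β^s`. -/
def CapDivSpec (p : ℕ) [Fact p.Prime] (S : Finset Nat.Primes) : Prop :=
  ExtCitation.pPrime p ∈ S →
  ∀ V ∈ (globalLevels S).levels, ∀ β : Qbarˣ, IsSm S β →
    (∀ σ ∈ V, ∃ w : Qbarˣ, IsSm S w ∧ IsSUnit S (w ^ p / (σ • β / β))) →
    ∃ α : Qbarˣ, IsSm S α ∧ ∀ σ ∈ V, IsSUnit S ((σ • α / α) ^ p / (σ • β / β))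

/-- **GO3-SHAP** (formal leaf = injectivity of Shapiro's map on level-constant `H²`).
If the evaluation at the coset `V` of a level-constant 2-cocycle `x` of `Ind_V A`, restricted
to `V`, is the coboundary of a cochain `y : V → A` which is constant modulo a level, then `x` is
a level-constant coboundary.

Proof sketch.  `U ≤ V` a normal level modulo which `x`, `y` are constant; all values are
`U`-invariant (K-I3), `(Ind_V A)^U = Ind_{V/U}(A^U)`, finite Shapiro (landed `T.ShapiroExplicitSpec`)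
for `V/U ≤ G/U`, inflate back. -/
def ShapiroInjSpec (S : Finset Nat.Primes) : Prop :=
  ∀ (A : Rep.{0, 0, 0} ℤ _root_.Fermat.Agent.S55.PT.GQ), ∀ V ∈ (globalLevels S).levels,
    ∀ x ∈ (globalLevels S).Z2 (indG V A),
    (∃ y : ↥V → A,
      (∃ U ∈ (globalLevels S).levels, U ≤ V ∧ ∀ v s : ↥V, (s : _root_.Fermat.Agent.S55.PT.GQ) ∈ U → y (v * s) = y v) ∧
      ∀ v₁ v₂ : ↥V,
        evAt V A ((1 : _root_.Fermat.Agent.S55.PT.GQ) : _root_.Fermat.Agent.S55.PT.GQ ⧸ V) (x ((v₁ : _root_.Fermat.Agent.S55.PT.GQ), (v₂ : _root_.Fermat.Agent.S55.PT.GQ))) =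
          A.ρ (v₁ : _root_.Fermat.Agent.S55.PT.GQ) (y v₂) - y (v₁ * v₂) + y v₁) →
    x ∈ (globalLevels S).B2 (indG V A)

end Fermat.Agent.S55.K.GO3H535

end

end
-- ===== PACK-END S55/K/GO3H535/Spec.lean

-- ===== PACK-BEGIN S55/Herbrand/RepCyclic.lean
section


/-!
# Herbrand indices of a representation of a finite cyclic group (no `CommGroup` instance)

Same as `RepBridge.lean`, but for `[Group G]` together with a generator `g`
(`hg : ∀ x, x ∈ Subgroup.zpowers g`), which is the form needed for Galois groups.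

* `gAct A g` : the additive endomorphism `ρ g` of `A`;
* `card_H2_eq_h0`, `card_H1_eq_h1` : `|H²(G, A)| = h0`, `|H¹(G, A)| = h1`;
* `ker_delta_gAct` : `ker (g - 1) = A^G`;
* `range_normN_gAct`, `ker_normN_gAct` : `normN = ∑_{h ∈ G} ρ h`;
* `range_delta_gAct` : `im (g - 1) = ∑_h im (h - 1)`.
-/

set_option autoImplicit false

namespace Fermat.Agent.S55.Herbrand

open CategoryTheory groupCohomology

universe u

variable {k G : Type u} [CommRing k] [Group G]

/-- additive endomorphism given by the action of `g`. -/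
def gAct (A : Rep k G) (g : G) : AddMonoid.End A.V := (A.ρ g).toAddMonoidHom

@[simp] lemma gAct_apply (A : Rep k G) (g : G) (x : A.V) : gAct A g x = A.ρ g x := rfl

lemma gAct_pow_apply (A : Rep k G) (g : G) (i : ℕ) (x : A.V) :
    (gAct A g ^ i) x = A.ρ (g ^ i) x := by
  induction i generalizing x with
  | zero => simp
  | succ i ih =>
    rw [pow_succ, pow_succ]
    change (gAct A g ^ i) (gAct A g x) = _
    rw [ih, gAct_apply, map_mul]
    rfl

lemma mul_comm_of_forall_mem_zpowers (g : G) (hg : ∀ x, x ∈ Subgroup.zpowers g) (a b : G) :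
    a * b = b * a := by
  obtain ⟨m, rfl⟩ := Subgroup.mem_zpowers_iff.1 (hg a)
  obtain ⟨n, rfl⟩ := Subgroup.mem_zpowers_iff.1 (hg b)
  rw [← zpow_add, ← zpow_add, add_comm]

lemma gAct_pow_card [Finite G] (A : Rep k G) (g : G) : gAct A g ^ Nat.card G = 1 := by
  ext x
  rw [gAct_pow_apply, pow_card_eq_one', map_one]
  rfl

/-- equivariance of a morphism of representations. -/
lemma hom_gAct {A B : Rep k G} (f : A ⟶ B) (g : G) (x : A.V) :
    f.hom (gAct A g x) = gAct B g (f.hom x) := by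
  simp only [gAct_apply]
  exact Rep.hom_comm_apply f g x

lemma ker_delta_gAct (A : Rep k G) (g : G) (hg : ∀ x, x ∈ Subgroup.zpowers g) :
    AddMonoidHom.ker (delta (gAct A g)) = A.ρ.invariants.toAddSubgroup := by
  ext x
  rw [AddMonoidHom.mem_ker, delta_apply, sub_eq_zero, gAct_apply]
  exact (Representation.mem_invariants_iff_of_forall_mem_zpowers A.ρ g hg x).symm

lemma range_sub_one_le_of_gen [Finite G] (A : Rep k G) (g : G)
    (hg : ∀ x, x ∈ Subgroup.zpowers g) (h : G) :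
    LinearMap.range (A.ρ h - 1) ≤ LinearMap.range (A.ρ g - 1) := by
  classical
  obtain ⟨i, -, rfl⟩ :=
    Finset.mem_image.1 ((mem_zpowers_iff_mem_range_orderOf (x := g) (y := h)).1 (hg h))
  rintro _ ⟨x, rfl⟩
  have key : A.ρ (g ^ i) - 1 = (A.ρ g - 1) * ∑ j ∈ Finset.range i, A.ρ g ^ j := by
    rw [mul_geom_sum, map_pow]
  rw [key]
  exact ⟨(∑ j ∈ Finset.range i, A.ρ g ^ j) x, rfl⟩

lemma range_delta_gAct [Finite G] (A : Rep k G) (g : G)
    (hg : ∀ x, x ∈ Subgroup.zpowers g) :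
    AddMonoidHom.range (delta (gAct A g)) =
      (⨆ h : G, LinearMap.range (A.ρ h - 1)).toAddSubgroup := by
  have hsup : (⨆ h : G, LinearMap.range (A.ρ h - 1)) = LinearMap.range (A.ρ g - 1) :=
    le_antisymm (iSup_le fun h => range_sub_one_le_of_gen A g hg h)
      (le_iSup (fun h : G => LinearMap.range (A.ρ h - 1)) g)
  rw [hsup]
  ext x
  constructor
  · rintro ⟨y, rfl⟩
    exact ⟨y, rfl⟩
  · rintro ⟨y, rfl⟩
    exact ⟨y, rfl⟩

variable [Fintype G]

theorem card_H2_eq_h0 (A : Rep k G) (g : G) (hg : ∀ x, x ∈ Subgroup.zpowers g) :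
    Nat.card (groupCohomology A 2) = h0 (gAct A g) (Nat.card G) := by
  let inst : CommGroup G :=
    { (inferInstance : Group G) with mul_comm := mul_comm_of_forall_mem_zpowers g hg }
  exact card_groupCohomology_even A g hg 2 (by decide)

theorem card_H1_eq_h1 (A : Rep k G) (g : G) (hg : ∀ x, x ∈ Subgroup.zpowers g) :
    Nat.card (groupCohomology A 1) = h1 (gAct A g) (Nat.card G) := by
  let inst : CommGroup G :=
    { (inferInstance : Group G) with mul_comm := mul_comm_of_forall_mem_zpowers g hg }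
  exact card_groupCohomology_odd A g hg 1 (by decide)

lemma normN_gAct_apply (A : Rep k G) (g : G) (hg : ∀ x, x ∈ Subgroup.zpowers g) (x : A.V) :
    normN (gAct A g) (Nat.card G) x = ∑ h : G, A.ρ h x := by
  rw [normN_apply, sum_eq_sum_range_pow g hg]
  exact Finset.sum_congr rfl fun i _ => gAct_pow_apply A g i x

lemma normN_gAct_apply' (A : Rep k G) (g : G) (hg : ∀ x, x ∈ Subgroup.zpowers g) (x : A.V) :
    normN (gAct A g) (Nat.card G) x = A.ρ.norm x := by
  rw [normN_gAct_apply A g hg]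
  simp [Representation.norm]

lemma range_normN_gAct (A : Rep k G) (g : G) (hg : ∀ x, x ∈ Subgroup.zpowers g) :
    AddMonoidHom.range (normN (gAct A g) (Nat.card G)) =
      (LinearMap.range A.ρ.norm).toAddSubgroup := by
  ext x
  constructor
  · rintro ⟨y, rfl⟩
    exact ⟨y, (normN_gAct_apply' A g hg y).symm⟩
  · rintro ⟨y, rfl⟩
    exact ⟨y, normN_gAct_apply' A g hg y⟩

lemma ker_normN_gAct (A : Rep k G) (g : G) (hg : ∀ x, x ∈ Subgroup.zpowers g) :
    AddMonoidHom.ker (normN (gAct A g) (Nat.card G)) =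
      (LinearMap.ker A.ρ.norm).toAddSubgroup := by
  ext x
  rw [AddMonoidHom.mem_ker, normN_gAct_apply' A g hg]
  rfl

/-- finiteness of `H¹` and `H²` is the statement that the Herbrand quotient is defined. -/
lemma finite_H1_and_H2_iff (A : Rep k G) (g : G) (hg : ∀ x, x ∈ Subgroup.zpowers g) :
    (Finite (groupCohomology A 1) ∧ Finite (groupCohomology A 2)) ↔
      HerbrandDefined (gAct A g) (Nat.card G) := by
  rw [herbrandDefined_iff, ← card_H2_eq_h0 A g hg, ← card_H1_eq_h1 A g hg]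
  constructor
  · rintro ⟨h1, h2⟩
    exact ⟨Nat.card_pos.ne', Nat.card_pos.ne'⟩
  · rintro ⟨h2, h1⟩
    exact ⟨(Nat.card_ne_zero.1 h1).2, (Nat.card_ne_zero.1 h2).2⟩

end Fermat.Agent.S55.Herbrand

end
-- ===== PACK-END S55/Herbrand/RepCyclic.lean

-- ===== PACK-BEGIN S55/G/UnitsAssembly.lean
section
/-
S55, layer G, block G-U (helper595): assembly A2, `UnitsHerbrandSpec` from the leaf specs
`UnitsLogSpec`, `LatticeSpec`, `TraceZeroSpec`, `OrbitInfSpec`, `TraceZeroBasisSpec`.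

`𝒪_L^× → φ(𝒪_L^×)` has finite kernel; `φ(𝒪_L^×)` and the integral trace-zero lattice are two
`G`-stable lattices spanning the trace-zero hyperplane of `ℝ^{places}`, hence have the same
Herbrand quotient (`LatticeSpec`); the latter is computed by `TraceZeroSpec`.
-/







set_option autoImplicit false

namespace Fermat.Agent.S55.G

open Fermat.Agent.S55.Herbrand NumberField

universe u v

section PermLin

variable (G : Type u) [Group G] (X : Type v) [MulAction G X]

/-- The permutation action as an `ℝ`-linear map. -/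
def permLin (τ : G) : (X → ℝ) →ₗ[ℝ] (X → ℝ) := LinearMap.funLeft ℝ ℝ (fun x => τ⁻¹ • x)

lemma permLin_apply (τ : G) (a : X → ℝ) : permLin G X τ a = permHomR G X τ a := rfl

lemma permLin_pow (τ : G) (k : ℕ) : permLin G X τ ^ k = permLin G X (τ ^ k) := by
  induction k with
  | zero =>
    refine LinearMap.ext fun a => ?_
    rw [pow_zero, pow_zero, permLin_apply, permHomR_one]
    rfl
  | succ k ih =>
    refine LinearMap.ext fun a => ?_
    rw [pow_succ, ih, pow_succ, Module.End.mul_apply, permLin_apply, permLin_apply,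
      permLin_apply, permHomR_mul]

lemma permLin_sub_one (σ : G) :
    (permLin G X σ - 1 : (X → ℝ) →ₗ[ℝ] (X → ℝ)).toAddMonoidHom = permAugR G X σ := by
  refine AddMonoidHom.ext fun a => ?_
  rfl

lemma permLin_sum_pow [Fintype G] (σ : G) (hσ : ∀ τ : G, τ ∈ Subgroup.zpowers σ) :
    (∑ k ∈ Finset.range (Fintype.card G), permLin G X σ ^ k :
      (X → ℝ) →ₗ[ℝ] (X → ℝ)).toAddMonoidHom = permNormR G X := by
  classical
  refine AddMonoidHom.ext fun a => ?_
  show (∑ k ∈ Finset.range (Fintype.card G), permLin G X σ ^ k) a = permNormR G X a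
  rw [LinearMap.sum_apply, permNormR_apply]
  simp only [permLin_pow, permLin_apply]
  have himg := IsCyclic.image_range_card hσ
  rw [Nat.card_eq_fintype_card] at himg
  rw [← himg, Finset.sum_image]
  have hord : orderOf σ = Fintype.card G := by
    rw [orderOf_eq_card_of_forall_mem_zpowers hσ, Nat.card_eq_fintype_card]
  intro i hi j hj hij
  apply pow_injOn_Iio_orderOf (x := σ)
  · rw [hord]
    exact Finset.mem_range.1 hi
  · rw [hord]
    exact Finset.mem_range.1 hj
  · exact hij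

end PermLin

/-- **Assembly A2.** -/
theorem unitsHerbrandSpec_of (hLog : UnitsLogSpec.{u, v}) (hLat : LatticeSpec.{v})
    (hTZ : TraceZeroSpec.{v, v}) (hOrb : OrbitInfSpec.{u, v}) (hB : TraceZeroBasisSpec.{v}) :
    UnitsHerbrandSpec.{u, v} := by
  intro K L _ _ _ _ _ _ σ hσ
  obtain ⟨φ, hφ, hfin, r, b, hb_li, hb_span, hb_img⟩ := hLog K L
  obtain ⟨r₂, b₂, hb₂_li, hb₂_span, hb₂_img⟩ := hB (InfinitePlace L)
  -- the two ranks agree
  have hr : r = r₂ := by
    have h1 := finrank_span_eq_card hb_li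
    have h2 := finrank_span_eq_card hb₂_li
    rw [Fintype.card_fin] at h1 h2
    rw [← h1, ← h2, hb_span, hb₂_span]
    rfl
  subst hr
  -- equivariance of `φ`
  have hφf : ∀ x, φ (unitsAug K L σ x) =
      permAugR (L ≃ₐ[K] L) (InfinitePlace L) σ (φ x) := by
    intro x
    rw [unitsAug_apply, permAugR_apply, map_sub, hφ]
  have hφg : ∀ x, φ (unitsNorm K L x) = permNormR (L ≃ₐ[K] L) (InfinitePlace L) (φ x) := by
    intro x
    rw [unitsNorm_apply, permNormR_apply, map_sum]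
    simp only [hφ]
  -- step 1: finite kernel
  have hfin' : Finite ↥(φ.ker ⊓ intUnits L) := hfin
  obtain ⟨k1, k2⟩ := hIndexSub_of_finite_ker (unitsAug K L σ) (unitsNorm K L)
    (permAugR (L ≃ₐ[K] L) (InfinitePlace L) σ) (permNormR (L ≃ₐ[K] L) (InfinitePlace L)) φ
    hφf hφg (intUnits L) (unitsAug_mem_intUnits K L σ) (unitsNorm_mem_intUnits K L)
    (fun x _ => unitsAug_unitsNorm K L σ x) (fun x _ => unitsNorm_unitsAug K L σ x) hfin'
  -- step 2: the lattice lemma
  have hn : 0 < Fintype.card (L ≃ₐ[K] L) := Fintype.card_pos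
  have hsn : permLin (L ≃ₐ[K] L) (InfinitePlace L) σ ^ Fintype.card (L ≃ₐ[K] L) = 1 := by
    rw [permLin_pow, pow_card_eq_one]
    refine LinearMap.ext fun a => ?_
    rw [permLin_apply, permHomR_one]
    rfl
  have hst₁ : ∀ i, permLin (L ≃ₐ[K] L) (InfinitePlace L) σ (b i) ∈
      Submodule.span ℤ (Set.range b) := by
    intro i
    have hi : b i ∈ (Submodule.span ℤ (Set.range b)).toAddSubgroup :=
      Submodule.subset_span ⟨i, rfl⟩
    rw [← hb_img] at hi
    obtain ⟨x, hx, hxb⟩ := hi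
    have : permLin (L ≃ₐ[K] L) (InfinitePlace L) σ (b i) ∈
        (Submodule.span ℤ (Set.range b)).toAddSubgroup := by
      rw [← hb_img, ← hxb, permLin_apply, ← hφ]
      exact ⟨_, unitsHom_mem_intUnits K L σ x hx, rfl⟩
    exact this
  have hst₂ : ∀ i, permLin (L ≃ₐ[K] L) (InfinitePlace L) σ (b₂ i) ∈
      Submodule.span ℤ (Set.range b₂) := by
    intro i
    have hi : b₂ i ∈ (Submodule.span ℤ (Set.range b₂)).toAddSubgroup :=
      Submodule.subset_span ⟨i, rfl⟩
    rw [hb₂_img] at hi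
    obtain ⟨a, ha, hab⟩ := hi
    have : permLin (L ≃ₐ[K] L) (InfinitePlace L) σ (b₂ i) ∈
        (Submodule.span ℤ (Set.range b₂)).toAddSubgroup := by
      rw [hb₂_img, ← hab, permLin_apply, ← coeHomR_permHom]
      refine ⟨_, ?_, rfl⟩
      show sumHom (InfinitePlace L) (permHom (L ≃ₐ[K] L) (InfinitePlace L) σ a) = 0
      rw [sumHom_permHom]
      exact ha
    exact this
  obtain ⟨l1, l2, l3, l4, l5⟩ := hLat (InfinitePlace L → ℝ)
    (permLin (L ≃ₐ[K] L) (InfinitePlace L) σ) (Fintype.card (L ≃ₐ[K] L)) r hn hsn b b₂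
    hb_li hb₂_li (hb_span.trans hb₂_span.symm) hst₁ hst₂
  rw [permLin_sub_one, permLin_sum_pow _ _ σ hσ, ← hb_img] at l1 l2
  rw [permLin_sub_one, permLin_sum_pow _ _ σ hσ, hb₂_img] at l3 l4
  rw [permLin_sub_one, permLin_sum_pow _ _ σ hσ, ← hb_img, hb₂_img] at l5
  -- step 3: transport from `ℤ^X` to `ℝ^X`
  have m1 := hIndexSub_map_of_injective (permAug (L ≃ₐ[K] L) (InfinitePlace L) σ)
    (permNorm (L ≃ₐ[K] L) (InfinitePlace L)) (permAugR (L ≃ₐ[K] L) (InfinitePlace L) σ)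
    (permNormR (L ≃ₐ[K] L) (InfinitePlace L)) (coeHomR (InfinitePlace L))
    (coeHomR_injective _) (coeHomR_permAug _ _ σ) (coeHomR_permNorm _ _)
    (traceZero (InfinitePlace L))
  have m2 := hIndexSub_map_of_injective (permNorm (L ≃ₐ[K] L) (InfinitePlace L))
    (permAug (L ≃ₐ[K] L) (InfinitePlace L) σ) (permNormR (L ≃ₐ[K] L) (InfinitePlace L))
    (permAugR (L ≃ₐ[K] L) (InfinitePlace L) σ) (coeHomR (InfinitePlace L))
    (coeHomR_injective _) (coeHomR_permNorm _ _) (coeHomR_permAug _ _ σ)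
    (traceZero (InfinitePlace L))
  rw [m1] at l3 l5
  rw [m2] at l4 l5
  -- step 4: the trace-zero lattice
  obtain ⟨t1, t2, t3⟩ := hTZ (L ≃ₐ[K] L) (InfinitePlace L) σ hσ
  rw [hOrb K L] at t3
  have hcard : Fintype.card (L ≃ₐ[K] L) = Module.finrank K L := by
    rw [← Nat.card_eq_fintype_card]
    exact IsGalois.card_aut_eq_finrank K L
  rw [hcard] at t3
  -- conclusion
  obtain ⟨c1, c2⟩ := k1.2 ⟨l1, l2⟩
  refine ⟨c1, c2, ?_⟩
  have hne : hIndexSub (permNormR (L ≃ₐ[K] L) (InfinitePlace L))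
      (permAugR (L ≃ₐ[K] L) (InfinitePlace L) σ) ((intUnits L).map φ) *
      hIndexSub (permNorm (L ≃ₐ[K] L) (InfinitePlace L))
        (permAug (L ≃ₐ[K] L) (InfinitePlace L) σ) (traceZero (InfinitePlace L)) ≠ 0 :=
    Nat.mul_ne_zero l2 l4
  apply Nat.eq_of_mul_eq_mul_right (Nat.pos_of_ne_zero hne)
  generalize hIndexSub (unitsAug K L σ) (unitsNorm K L) (intUnits L) = a at *
  generalize hIndexSub (unitsNorm K L) (unitsAug K L σ) (intUnits L) = b' at *
  generalize hIndexSub (permAugR (L ≃ₐ[K] L) (InfinitePlace L) σ)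
    (permNormR (L ≃ₐ[K] L) (InfinitePlace L)) ((intUnits L).map φ) = a₁ at *
  generalize hIndexSub (permNormR (L ≃ₐ[K] L) (InfinitePlace L))
    (permAugR (L ≃ₐ[K] L) (InfinitePlace L) σ) ((intUnits L).map φ) = b₁ at *
  generalize hIndexSub (permAug (L ≃ₐ[K] L) (InfinitePlace L) σ)
    (permNorm (L ≃ₐ[K] L) (InfinitePlace L)) (traceZero (InfinitePlace L)) = a₂ at *
  generalize hIndexSub (permNorm (L ≃ₐ[K] L) (InfinitePlace L))
    (permAug (L ≃ₐ[K] L) (InfinitePlace L) σ) (traceZero (InfinitePlace L)) = b₂' at *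
  calc a * Module.finrank K L * (b₁ * b₂')
      = (a * b₁) * (Module.finrank K L * b₂') := by ring
    _ = (b' * a₁) * (Module.finrank K L * b₂') := by rw [k2]
    _ = b' * Module.finrank K L * (a₁ * b₂') := by ring
    _ = b' * Module.finrank K L * (a₂ * b₁) := by rw [l5]
    _ = b' * b₁ * (a₂ * Module.finrank K L) := by ring
    _ = b' * b₁ * (b₂' * infDegProd K L) := by rw [t3]
    _ = b' * infDegProd K L * (b₁ * b₂') := by ring

end Fermat.Agent.S55.G

end
-- ===== PACK-END S55/G/UnitsAssembly.lean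

-- ===== PACK-BEGIN S55/G/Rec/SCH174/Reps.lean
section


/-!
# S55 / G / REC, leaf SC (helper174) : finite systems of double-coset representatives exist
-/

set_option autoImplicit false
set_option linter.style.haveILetI false

noncomputable section

namespace Fermat.Agent.S55.G.Rec.H174

open Fermat.Agent.S55.G.Rec

local notation "Qb" => AlgebraicClosure ℚ
local notation "GQ" => (AlgebraicClosure ℚ ≃ₐ[ℚ] AlgebraicClosure ℚ)

/-- If `U` has finite index, there is a finite system of representatives of `U \ G / D`. -/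
theorem exists_isDoubleCosetReps {G : Type*} [Group G] (U D : Subgroup G) [Finite (G ⧸ U)] :
    ∃ R : Finset G, IsDoubleCosetReps U D R := by
  classical
  have hfin : Finite (DoubleCoset.Quotient (U : Set G) D) := by
    let f : G ⧸ U → DoubleCoset.Quotient (U : Set G) D :=
      Quotient.lift (fun g : G => DoubleCoset.mk U D g⁻¹) (by
        intro a b hab
        have hab' : a⁻¹ * b ∈ U := QuotientGroup.leftRel_apply.1 hab
        rw [DoubleCoset.eq]
        refine ⟨b⁻¹ * a, ?_, 1, D.one_mem, by group⟩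
        have := U.inv_mem hab'
        simpa using this)
    apply Finite.of_surjective f
    intro x
    obtain ⟨g, rfl⟩ := Quotient.exists_rep x
    refine ⟨QuotientGroup.mk g⁻¹, ?_⟩
    show DoubleCoset.mk U D (g⁻¹)⁻¹ = _
    rw [inv_inv]
  haveI := Fintype.ofFinite (DoubleCoset.Quotient (U : Set G) D)
  refine ⟨Finset.univ.image (fun x : DoubleCoset.Quotient (U : Set G) D => x.out), fun g => ?_⟩
  refine ⟨(DoubleCoset.mk U D g).out, ⟨Finset.mem_image.2 ⟨_, Finset.mem_univ _, rfl⟩, ?_⟩, ?_⟩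
  · exact (DoubleCoset.eq U D (DoubleCoset.mk U D g).out g).1 (DoubleCoset.out_eq' U D _)
  · rintro r ⟨hr, u, hu, d, hd, hg⟩
    obtain ⟨x, -, rfl⟩ := Finset.mem_image.1 hr
    have : DoubleCoset.mk U D g = x := by
      rw [← DoubleCoset.out_eq' U D x]
      exact ((DoubleCoset.eq U D x.out g).2 ⟨u, hu, d, hd, hg⟩).symm
    rw [this]

/-- Finite systems of representatives of the places of `ℚ̄^U` above `q` exist. -/
theorem exists_placeReps {U : Subgroup GQ} (hU : IsOpenQ U) (q : ℕ) [Fact q.Prime] :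
    ∃ R : Finset GQ, IsDoubleCosetReps U (localGaloisToGlobal q).range R := by
  haveI := H934.finite_quotient_of_isOpenQ hU
  exact exists_isDoubleCosetReps U _

end Fermat.Agent.S55.G.Rec.H174

end
end
-- ===== PACK-END S55/G/Rec/SCH174/Reps.lean

-- ===== PACK-BEGIN S55/G/Rec/StepALocH511.lean
section


/-!
# S55 / layer G / block REC / STEP A : the two local computations (helper511)

* `H511.exists_inv_eq` : at a place above `q ∤ m` the invariant of the cup class `a ∪ δχ`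
  (`χ` cyclotomic mod `m`) is `k · χ(σ) / n` where `σ ∈ U` acts on `μ_m` by `q ^ f` and
  `vdeg a = f · k`.
* `H511.exists_norm_approx` : at a place above `ℓ` where the cup class is trivial, the local norm
  of `a` to `ℚ_ℓ` is `± ℓ^k · t` mod `ℓ^(k+e)`, `t` the cyclotomic value of some `κ ∈ ker χ`.
-/

set_option autoImplicit false
set_option linter.style.haveILetI false

noncomputable section

namespace Fermat.Agent.S55.G.Rec.H511

open Fermat.Agent.S55.G.Rec groupCohomology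

local notation "Qb" => AlgebraicClosure ℚ
local notation "GQ" => (AlgebraicClosure ℚ ≃ₐ[ℚ] AlgebraicClosure ℚ)

theorem exists_inv_eq (hK1 : CupLocSpec) (hL2 : LocalStructureSpec) (hL4 : CycloFrobSpec)
    (I : LocalInvSystem) (hL3 : UnramCupSpec I)
    (U : Subgroup GQ) (hU : IsOpenQ U) (m : ℕ) [NeZero m] (n : ℕ) [NeZero n]
    (χ : ↥U →* Multiplicative (ZMod n)) (hχ : IsLevelConstant₁ U.subtype χ)
    (hcyc : IsCycloChar U m χ) (a : Qbˣ) (ha : GFixed U a)
    (q : ℕ) [Fact q.Prime] (hqm : Nat.Coprime q m) (r : GQ) :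
    ∃ (σ : ↥U) (k : ℤ) (f : ℕ),
      I.inv q (locSub q r U) (locBr q r U (gcc U n χ a)) =
        ((((k : ℚ) * ((chiAdd χ σ).val : ℚ) / (n : ℚ) : ℚ)) : AddCircle (1 : ℚ)) ∧
      cyc m (σ : GQ) = (ZMod.unitOfCoprime q hqm) ^ f ∧
      vdeg q (locSub q r U) (locPushMul q r a) = f * k := by
  have hq : q.Prime := Fact.out
  have hqm' : ¬ q ∣ m := (Nat.Prime.coprime_iff_not_dvd hq).mp hqm
  obtain ⟨⟨hχr, har⟩, hloc⟩ := hK1 q r U n χ a (NeZero.ne n) hχ ha
  have hV : IsOpenL q (locSub q r U) := isOpenL_locSub q r U hU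
  obtain ⟨f, φ, π, hf, hφV, hφ, -, -, hall⟩ := hL2 q (locSub q r U) hV
  obtain ⟨k, u, -, -, -, hvdeg⟩ := hall (locPushMul q r a) har
  have hunr : ∀ τ : ↥(locSub q r U),
      IsInertial q (τ : PadicAlgCl q ≃ₐ[ℚ_[q]] PadicAlgCl q) →
      (χ.comp (locHom q r U)) τ = 1 := by
    intro τ hτ
    apply hcyc
    intro ζ hζ
    apply fixes_of_cyc_eq_one m _ _ hζ
    rw [locHom_coe, cyc_conj]
    exact cyc_loc_eq_one q m _ ((hL4 q m hqm').1 _ hτ)
  have h3 := hL3 q (locSub q r U) hV n (χ.comp (locHom q r U)) hχr hunr f hf ⟨φ, hφV⟩ hφ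
    (locPushMul q r a) har k hvdeg
  refine ⟨locHom q r U ⟨φ, hφV⟩, k, f, ?_, ?_, hvdeg⟩
  · rw [hloc]
    exact h3
  · apply Units.ext
    rw [locHom_coe, cyc_conj, cyc_loc_coe q m (q ^ f) φ ((hL4 q m hqm').2 φ f hφ),
      Units.val_pow_eq_pow_val, ZMod.coe_unitOfCoprime, Nat.cast_pow]

lemma finite_quotient_subgroupOf {G : Type*} [Group G] {H' H : Subgroup G} (hle : H' ≤ H)
    [Finite (G ⧸ H')] : Finite (↥H ⧸ H'.subgroupOf H) := by
  let e := Subgroup.quotientEquivProdOfLE hle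
  haveI : Finite ((G ⧸ H) × ↥H ⧸ H'.subgroupOf H) := Finite.of_equiv _ e
  haveI : Nonempty (G ⧸ H) := ⟨((1 : G) : G ⧸ H)⟩
  exact Finite.prod_right (G ⧸ H)

theorem exists_norm_approx (hK1 : CupLocSpec) (hK5 : LocalNormSpec) (hL5 : LocalCycloNormSpec)
    (U : Subgroup GQ) (hU : IsOpenQ U) (ℓ : ℕ) [Fact ℓ.Prime] (hℓ2 : ℓ ≠ 2) (e : ℕ) (he : 0 < e)
    [NeZero (ℓ ^ e)]
    (n : ℕ) [NeZero n] (χ : ↥U →* Multiplicative (ZMod n)) (hχ : IsLevelConstant₁ U.subtype χ)
    (a : Qbˣ) (ha : GFixed U a) (r : GQ)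
    (hloc : locBr ℓ r U (gcc U n χ a) = 0) :
    ∃ (k : ℤ) (s : ℤˣ) (t : ℕ) (κ : ↥U), χ κ = 1 ∧
      ((cyc (ℓ ^ e) (κ : GQ) : (ZMod (ℓ ^ e))ˣ) : ZMod (ℓ ^ e)) = (t : ZMod (ℓ ^ e)) ∧
      ‖((relNorm (locSub ℓ r U) (locPushMul ℓ r a) : (PadicAlgCl ℓ)ˣ) : PadicAlgCl ℓ) -
          ((s : ℤ) : PadicAlgCl ℓ) * (ℓ : PadicAlgCl ℓ) ^ k * (t : PadicAlgCl ℓ)‖
        ≤ ‖(ℓ : PadicAlgCl ℓ)‖ ^ (k + e) := by
  classical
  obtain ⟨⟨hχr, har⟩, hK1eq⟩ := hK1 ℓ r U n χ a (NeZero.ne n) hχ ha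
  rw [hK1eq] at hloc
  have hV : IsOpenL ℓ (locSub ℓ r U) := isOpenL_locSub ℓ r U hU
  obtain ⟨b, hb, hab⟩ := hK5 ℓ (locSub ℓ r U) hV n (χ.comp (locHom ℓ r U)) hχr
    (locPushMul ℓ r a) har hloc
  set V := locSub ℓ r U with hVdef
  set χr := χ.comp (locHom ℓ r U) with hχrdef
  set H' : Subgroup (PadicAlgCl ℓ ≃ₐ[ℚ_[ℓ]] PadicAlgCl ℓ) := χr.ker.map V.subtype with hH'
  set Cker : Subgroup (ZMod (ℓ ^ e))ˣ := χ.ker.map ((cyc (ℓ ^ e)).comp U.subtype) with hCker
  set W : Subgroup (PadicAlgCl ℓ ≃ₐ[ℚ_[ℓ]] PadicAlgCl ℓ) :=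
    Cker.comap ((cyc (ℓ ^ e)).comp (localGaloisToGlobal ℓ)) with hW
  have hH'V : H' ≤ V := Subgroup.map_subtype_le _
  have hH'W : H' ≤ W := by
    rintro τ' ⟨τ, hτ, rfl⟩
    show cyc (ℓ ^ e) (localGaloisToGlobal ℓ (τ : PadicAlgCl ℓ ≃ₐ[ℚ_[ℓ]] PadicAlgCl ℓ)) ∈ Cker
    refine ⟨locHom ℓ r U τ, hτ, ?_⟩
    show cyc (ℓ ^ e) ((locHom ℓ r U τ : ↥U) : GQ) = _
    rw [locHom_coe, cyc_conj]
  -- finiteness
  haveI hfinV : Finite ((PadicAlgCl ℓ ≃ₐ[ℚ_[ℓ]] PadicAlgCl ℓ) ⧸ V) :=
    finite_quotient_of_isOpenL ℓ V hV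
  have hidx : H'.index ≠ 0 := by
    rw [hH', Subgroup.index_map_subtype]
    refine mul_ne_zero ?_ (index_ne_zero_of_isOpenL ℓ V hV)
    rw [Subgroup.index_ker]
    exact Nat.card_pos.ne'
  haveI : H'.FiniteIndex := ⟨hidx⟩
  haveI hfinH' : Finite ((PadicAlgCl ℓ ≃ₐ[ℚ_[ℓ]] PadicAlgCl ℓ) ⧸ H') :=
    Subgroup.finite_quotient_of_finiteIndex
  have hb' : ∀ h ∈ H', h • b = b := hb
  -- norm from `L_w` to `ℚ_ℓ` through `K_v`
  have hsub : H'.subgroupOf V = χr.ker :=
    Subgroup.comap_map_eq_self_of_injective (Subgroup.subtype_injective V) χr.ker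
  have h1 : relNorm V (locPushMul ℓ r a) = relNorm H' b := by
    rw [hab, ← hsub]
    exact relNorm_trans hH'V hb'
  -- norm from `L_w` to `ℚ_ℓ` through `E`
  set b' : (PadicAlgCl ℓ)ˣ := relNorm (G := ↥W) (H'.subgroupOf W) b with hb'def
  have h2 : relNorm W b' = relNorm H' b := relNorm_trans hH'W hb'
  haveI : Finite (↥W ⧸ H'.subgroupOf W) := finite_quotient_subgroupOf hH'W
  have hfix : LFixed ℓ W b' := by
    intro τ hτ
    have hbW : ∀ h ∈ H'.subgroupOf W, h • b = b := fun h hh => hb' (h : _) hh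
    exact smul_relNorm (G := ↥W) (M := (PadicAlgCl ℓ)ˣ) (H'.subgroupOf W) hbW ⟨τ, hτ⟩
  have hZW : ∀ τ : PadicAlgCl ℓ ≃ₐ[ℚ_[ℓ]] PadicAlgCl ℓ,
      (∀ ζ : PadicAlgCl ℓ, ζ ^ (ℓ ^ e) = 1 → τ ζ = ζ) → τ ∈ W := by
    intro τ hτ
    show cyc (ℓ ^ e) (localGaloisToGlobal ℓ τ) ∈ Cker
    rw [cyc_loc_eq_one ℓ (ℓ ^ e) τ hτ]
    exact one_mem _
  obtain ⟨k, s, t, τ, hτW, hτt, hest⟩ := hL5 ℓ hℓ2 e he W hZW b' hfix
  obtain ⟨κ, hκ, hκτ⟩ := hτW
  refine ⟨k, s, t, κ, hκ, ?_, ?_⟩
  · have h3 : cyc (ℓ ^ e) (κ : GQ) = cyc (ℓ ^ e) (localGaloisToGlobal ℓ τ) := hκτ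
    rw [h3]
    exact cyc_loc_coe ℓ (ℓ ^ e) t τ hτt
  · rw [h1, ← h2]
    exact hest

end Fermat.Agent.S55.G.Rec.H511

end
end
-- ===== PACK-END S55/G/Rec/StepALocH511.lean

-- ===== PACK-BEGIN S53/GlueSpec.lean
section





set_option autoImplicit false
set_option linter.unusedSectionVars false
set_option linter.unusedVariables false
set_option linter.style.haveILetI false

open IsLocalRing GaloisRep

noncomputable section

namespace Fermat.Agent.S53

section Local

variable {𝒪 : Type} [CommRing 𝒪] [IsLocalRing 𝒪]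

/-- Every `𝒪`-algebra hom into a local algebra with residue field `k` is local. -/
lemma isLocalHom_of_residue_surjective {R A : Type} [CommRing R] [IsLocalRing R] [Algebra 𝒪 R]
    [CommRing A] [IsLocalRing A] [Algebra 𝒪 A]
    (hsurj : Function.Surjective (IsLocalRing.residue A ∘ algebraMap 𝒪 A))
    (φ : R →ₐ[𝒪] A) : IsLocalHom (φ : R →+* A) := by
  refine ⟨fun a ha => ?_⟩
  by_contra hna
  have ham : a ∈ maximalIdeal R := hna
  obtain ⟨v, hv⟩ := ha.exists_right_inv
  obtain ⟨o, ho⟩ := hsurj (IsLocalRing.residue A v)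
  simp only [Function.comp_apply] at ho
  have h1 : IsUnit (1 - a * algebraMap 𝒪 R o) := by
    have : a * algebraMap 𝒪 R o ∈ maximalIdeal R := Ideal.mul_mem_right _ _ ham
    by_contra h
    have h2 : 1 - a * algebraMap 𝒪 R o ∈ maximalIdeal R := h
    have := Ideal.add_mem _ h2 this
    rw [sub_add_cancel] at this
    exact (maximalIdeal.isMaximal R).ne_top ((Ideal.eq_top_iff_one _).2 this)
  have h3 : IsUnit (φ (1 - a * algebraMap 𝒪 R o)) := h1.map φ
  have h4 : φ (1 - a * algebraMap 𝒪 R o) ∈ maximalIdeal A := by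
    rw [← IsLocalRing.residue_eq_zero_iff]
    have hφa : (φ : R →+* A) a = φ a := rfl
    rw [map_sub, map_one, map_mul, AlgHom.commutes, map_sub, map_one, map_mul, ho,
      ← map_mul, ← hφa, hv, map_one, sub_self]
  exact h4 h3

lemma isLiftC_iff_specIsLift {A : Type} [CommRing A] [IsLocalRing A] [Algebra 𝒪 A]
    [IsLocalHom (algebraMap 𝒪 A)]
    (rbar : GQ →* M2 (ResidueField 𝒪)) (c : Idx → 𝒪)
    (hc : ∀ t, residue 𝒪 (c t) = entries rbar t) (r : GQ →* M2 A) :
    IsLiftC c (entries r) ↔ Spec.IsLift rbar r := by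
  rw [isLiftC_iff_lift rbar c hc r]
  constructor
  · intro h σ i j
    exact congrFun (congrFun (h σ) i) j
  · intro h σ
    ext i j
    exact h σ i j

/-- Adapter: a normal form package in the shape of the row spec gives a rigid kit. -/
def rigidKit_of_package (rbar : GQ →* M2 (ResidueField 𝒪)) (c : Idx → 𝒪)
    (hc : ∀ t, residue 𝒪 (c t) = entries rbar t)
    (N : Spec.NormalFormPackage 𝒪 GQ rbar) : RigidKit 𝒪 c where
  m := N.m
  coord := fun a => (N.g a, N.i a, N.j a)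
  cst := N.d
  cst_res := fun a => by
    rw [hc]
    exact (N.base a).symm
  rigid := fun A _ _ _ _ _ r r' hl hl' hn hn' P hP =>
    N.rigid r r' ((isLiftC_iff_specIsLift rbar c hc r).1 hl)
      ((isLiftC_iff_specIsLift rbar c hc r').1 hl') hn hn' P hP
  exists_norm := fun A _ _ _ _ _ r hl => by
    obtain ⟨P, r', hl', hn', hP⟩ :=
      N.exists_normalized r ((isLiftC_iff_specIsLift rbar c hc r).1 hl)
    have hr' : r' = conjRep P r := by
      ext σ : 1
      rw [conjRep_apply, hP σ, mul_assoc, Units.mul_inv, mul_one]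
    subst hr'
    exact ⟨P, (isLiftC_iff_specIsLift rbar c hc _).2 hl', hn'⟩

end Local

section Main

variable (𝒪 : Type) [CommRing 𝒪] [IsDomain 𝒪] [IsDiscreteValuationRing 𝒪]
    [IsAdicComplete (IsLocalRing.maximalIdeal 𝒪) 𝒪]

theorem exists_rigidKit_of_rigidStatement (hB : Spec.RigidStatement)
    (ρbar : ResidualGaloisRep (IsLocalRing.ResidueField 𝒪))
    (habs : ρbar.IsAbsolutelyIrreducible) :
    ∃ (rbar : GQ →* M2 (ResidueField 𝒪)) (hrbar : GaloisFactorsThroughFiniteLevel rbar)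
      (c : Idx → 𝒪), ρbar.IsEquiv (toRes rbar hrbar) ∧ (∀ t, residue 𝒪 (c t) = entries rbar t) ∧
      Nonempty (RigidKit 𝒪 c) := by
  obtain ⟨rb0, hrb0, e0⟩ := exists_toRes ρbar
  obtain ⟨Q, rbar, hQ, ⟨N⟩⟩ := hB 𝒪 GQ rb0
    (fun X hX => schur_matrix ρbar habs rb0 hrb0 e0 X hX)
  have hrbar : GaloisFactorsThroughFiniteLevel rbar := by
    obtain ⟨L, hL, h1⟩ := hrb0
    refine ⟨L, hL, fun σ hσ => ?_⟩
    have h2 := hQ σ
    rw [h1 σ hσ, mul_one] at h2
    have h3 : rbar σ = rbar σ * (Q : M2 (ResidueField 𝒪)) * ((Q⁻¹ : (M2 (ResidueField 𝒪))ˣ) :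
        M2 (ResidueField 𝒪)) := by
      rw [mul_assoc, Units.mul_inv, mul_one]
    rw [h3, ← h2, Units.mul_inv]
  have e1 : (toRes rb0 hrb0).IsEquiv (toRes rbar hrbar) :=
    (toRes_isEquiv_iff rb0 rbar hrb0 hrbar).2 ⟨Q, hQ⟩
  choose c hc using fun t : Idx => IsLocalRing.residue_surjective (entries rbar t)
  obtain ⟨e0⟩ := e0
  obtain ⟨e1⟩ := e1
  exact ⟨rbar, hrbar, c, ⟨e0.trans e1⟩, hc, ⟨rigidKit_of_package rbar c hc N⟩⟩

variable {𝒪}

theorem Lpred_tangent_finite
    (ρbar : ResidualGaloisRep (IsLocalRing.ResidueField 𝒪))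
    (𝒟 : ∀ ⦃A : Type⦄ [CommRing A] [IsLocalRing A] [Algebra 𝒪 A], GaloisRepAdic A → Prop)
    (hfin : GaloisRep.TangentFinite 𝒪 ρbar 𝒟)
    (rbar : GQ →* M2 (ResidueField 𝒪)) (hrbar : GaloisFactorsThroughFiniteLevel rbar)
    (e0 : ρbar.IsEquiv (toRes rbar hrbar))
    (c : Idx → 𝒪) (hc : ∀ t, residue 𝒪 (c t) = entries rbar t)
    (K : RigidKit 𝒪 c) :
    Finite {x : Idx → DualNumber (ResidueField 𝒪) //
      @Lpred 𝒪 _ _ 𝒟 c K (DualNumber (ResidueField 𝒪)) _ _ (Spec.dualNumberAlgebra 𝒪) x} := by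
  letI : Algebra 𝒪 (DualNumber (ResidueField 𝒪)) := dualAlgebra 𝒪
  haveI : IsLocalHom (algebraMap 𝒪 (DualNumber (ResidueField 𝒪))) := isLocalHom_dualAlgebra 𝒪
  haveI : IsArtinianRing (DualNumber (ResidueField 𝒪)) := isArtinianRing_dualNumber _
  let X := {x : Idx → DualNumber (ResidueField 𝒪) // Lpred 𝒟 K x}
  show Finite X
  let f : X → GQ →* M2 (DualNumber (ResidueField 𝒪)) := fun x => x.2.choose
  have hc' : ∀ x : X, MatCont (f x) := fun x => x.2.choose_spec.choose
  have hspec : ∀ x : X, entries (f x) = x.1 ∧ 𝒟 (toAdic (f x) (hc' x)) ∧ IsLiftC c x.1 ∧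
      NormC K.coord K.cst x.1 := fun x => x.2.choose_spec.choose_spec
  refine finite_of_tangentFinite ρbar 𝒟 hfin rbar hrbar e0 X f hc' ?_ (fun x => (hspec x).2.1) ?_
  · intro x
    have h1 : IsLiftC c (entries (f x)) := by rw [(hspec x).1]; exact (hspec x).2.2.1
    exact (isLiftC_iff_lift rbar c hc (f x)).1 h1
  · intro x y hxy
    rw [toAdic_isEquiv_iff] at hxy
    obtain ⟨P, hP⟩ := hxy
    have h1 : IsLiftC c (entries (f x)) := by rw [(hspec x).1]; exact (hspec x).2.2.1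
    have h2 : IsLiftC c (entries (f y)) := by rw [(hspec y).1]; exact (hspec y).2.2.1
    have h3 : NormC K.coord K.cst (entries (f x)) := by rw [(hspec x).1]; exact (hspec x).2.2.2
    have h4 : NormC K.coord K.cst (entries (f y)) := by rw [(hspec y).1]; exact (hspec y).2.2.2
    have := K.rigid (f x) (f y) h1 h2 h3 h4 P hP
    apply Subtype.ext
    rw [← (hspec x).1, ← (hspec y).1, this]

theorem coordFunctor_Lpred
    (ρbar : ResidualGaloisRep (IsLocalRing.ResidueField 𝒪))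
    (𝒟 : ∀ ⦃A : Type⦄ [CommRing A] [IsLocalRing A] [Algebra 𝒪 A], GaloisRepAdic A → Prop)
    (h𝒟 : GaloisRep.IsDeformationCondition 𝒪 𝒟)
    (hbar : 𝒟 (GaloisRepAdic.ofResidualGaloisRep ρbar))
    (hfin : GaloisRep.TangentFinite 𝒪 ρbar 𝒟)
    (rbar : GQ →* M2 (ResidueField 𝒪)) (hrbar : GaloisFactorsThroughFiniteLevel rbar)
    (e0 : ρbar.IsEquiv (toRes rbar hrbar))
    (c : Idx → 𝒪) (hc : ∀ t, residue 𝒪 (c t) = entries rbar t)
    (K : RigidKit 𝒪 c) :
    Spec.CoordFunctor 𝒪 Idx c (Lpred 𝒟 K) where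
  red := fun A _ _ _ hA x hx => by
    obtain ⟨-, -, -, -, hl, -⟩ := hx
    exact hl
  base := Lpred_base h𝒟 K ρbar hbar rbar hrbar e0 hc
  push := fun A B _ _ _ _ _ _ hA hB φ hφ x hx => Lpred_map h𝒟 K hA hB φ hφ hx
  descent := fun A B _ _ _ _ _ _ hA hB φ hφ hinj x hx => Lpred_inj h𝒟 K hA hB φ hφ hinj hx
  fibre := fun A B C P _ _ _ _ _ _ _ _ _ _ _ _ hA hB hC hP f g pA pB hpA hpB hfg hinj hsurj
      x hxA hxB =>
    Lpred_fibre h𝒟 K hA hB hC hP f g pA pB hpA hpB hfg hinj hsurj hxA hxB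
  tangent := Lpred_tangent_finite ρbar 𝒟 hfin rbar hrbar e0 c hc K

/-- Adapter from the row-spec conclusion to `UniversalPoint`. -/
def universalPoint_of_coordUniversal
    {𝒟 : ∀ ⦃A : Type⦄ [CommRing A] [IsLocalRing A] [Algebra 𝒪 A], GaloisRepAdic A → Prop}
    (h𝒟 : GaloisRep.IsDeformationCondition 𝒪 𝒟)
    {c : Idx → 𝒪} (K : RigidKit 𝒪 c)
    (U : Spec.CoordUniversal 𝒪 Idx (Lpred 𝒟 K)) : UniversalPoint 𝒪 Idx (Lpred 𝒟 K) :=
  haveI := U.isCNL.isNoetherianRing
  haveI := U.isCNL.isAdicComplete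
  { R := U.R
    instIsNoetherianRing := U.isCNL.isNoetherianRing
    instIsAdicComplete := U.isCNL.isAdicComplete
    instIsLocalHom := U.isCNL.isLocalHom
    residue_surjective := U.isCNL.residue_surjective
    xu := U.xR
    mem := Lpred_limit_mpr h𝒟 K U.isCNL.isLocalHom U.isCNL.residue_surjective
      (fun B _ _ _ hB q hq hqs => U.quot hB q hqs)
    universal := fun A _ _ _ _ _ hloc hsurj y hy => by
      obtain ⟨φ, hφ, huniq⟩ := U.univ A ⟨inferInstance, inferInstance, hloc, hsurj⟩ y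
        (fun B _ _ _ hB q hqs => Lpred_limit_mp h𝒟 K hloc hsurj hy hB q
          (IsLocalHom.of_surjective _ hqs) hqs)
      exact ⟨φ, ⟨isLocalHom_of_residue_surjective hsurj φ, hφ⟩, fun φ' h => huniq φ' h.2⟩ }

variable (𝒪)

/-- The S53 statement, from the two row-spec deliverables. -/
theorem nonempty_deformationRingData_of_spec
    (hD : Spec.AbstractCoreStatement) (hB : Spec.RigidStatement)
    [Finite (IsLocalRing.ResidueField 𝒪)]
    (ρbar : ResidualGaloisRep (IsLocalRing.ResidueField 𝒪))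
    (𝒟 : ∀ ⦃A : Type⦄ [CommRing A] [IsLocalRing A] [Algebra 𝒪 A], GaloisRepAdic A → Prop)
    (habs : ρbar.IsAbsolutelyIrreducible)
    (h𝒟 : GaloisRep.IsDeformationCondition 𝒪 𝒟)
    (hbar : 𝒟 (GaloisRepAdic.ofResidualGaloisRep ρbar))
    (hfin : GaloisRep.TangentFinite 𝒪 ρbar 𝒟) :
    Nonempty (GaloisRep.DeformationRingData 𝒪 ρbar 𝒟) := by
  obtain ⟨rbar, hrbar, c, e0, hc, ⟨K⟩⟩ := exists_rigidKit_of_rigidStatement 𝒪 hB ρbar habs
  obtain ⟨U⟩ := hD 𝒪 Idx c (Lpred 𝒟 K)
    (coordFunctor_Lpred ρbar 𝒟 h𝒟 hbar hfin rbar hrbar e0 c hc K)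
  exact deformationRingData_of_universalPoint 𝒪 ρbar 𝒟 habs h𝒟 rbar hrbar e0 c hc K
    (universalPoint_of_coordUniversal h𝒟 K U)

end Main

end Fermat.Agent.S53

end

end
-- ===== PACK-END S53/GlueSpec.lean

-- ===== PACK-BEGIN S59/TW/H653/Systems.lean
section



/-!
# S59 / TW-HECKE (helper653): the coset systems of `T_ℓ` and `U_q` on `K`, `Γ₁(M) ≤ K ≤ Γ₀(M)`

* `IsCosetSystem.twist` : changing the representatives of a coset system by left factors;
* `IsNormRep M X` : `X ∈ GL(2, ℝ)` is an integral matrix `≡ [[1, *], [0, *]] mod M`;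
* `normRep_coc` : if `X * g = g' * Y` with `X, Y` normalised and `g ∈ Γ₀(M)`, then `g' ∈ Γ₀(M)` and
  `dUnit g' = dUnit g`;
* `system_of_gamma0` : a coset system for `Γ₀(M)` with normalised representatives is a coset system
  for every `K` with `Γ₁(M) ≤ K ≤ Γ₀(M)`, with the same cocycle;
* `repsU_system0`, `repsT_system0`, `repsU_system`, `repsT_system`.
-/

set_option autoImplicit false

namespace Fermat.Agent.S59.TW.H653

open CongruenceSubgroup Matrix.SpecialLinearGroup ModularCurve.Period ModularForm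
open Fermat.Agent.S29.H642 Fermat.Agent.S41.H761
open P2MW.S_ModularForm_heckeT_slash_eq_self_of_mem_Gamma0.ModularForm.HeckeSlashInvariance
open scoped MatrixGroups

/-! ## Twisting a coset system -/

section Twist

variable {𝒢 Γ Γ' : Type*} [Group 𝒢] [Group Γ] [Group Γ'] {I : Type*}
variable {ι : Γ →* 𝒢} {ι' : Γ' →* 𝒢} {ρ : I → 𝒢}

/-- Changing the representatives of a coset system by left factors from `Γ`. -/
theorem twist (h : IsCosetSystem ι ι' ρ) (τ : I → Γ) :
    IsCosetSystem ι ι' (fun i => ι (τ i) * ρ i) where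
  inj := h.inj
  exists_mul := by
    intro i g'
    refine ⟨h.act i g', τ i * h.coc i g' * (τ (h.act i g'))⁻¹, ?_⟩
    simp only [map_mul, map_inv, mul_assoc, inv_mul_cancel_left]
    rw [h.spec i g']
  eq_of_mul := by
    intro i j g e
    apply h.eq_of_mul i j ((τ i)⁻¹ * g * τ j)
    simp only [map_mul, map_inv, mul_assoc]
    rw [← e, inv_mul_cancel_left]

theorem twist_act (h : IsCosetSystem ι ι' ρ) (τ : I → Γ) (i : I) (g' : Γ') :
    (twist h τ).act i g' = h.act i g' := by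
  apply (twist h τ).act_eq (g := τ i * h.coc i g' * (τ (h.act i g'))⁻¹)
  simp only [map_mul, map_inv, mul_assoc, inv_mul_cancel_left]
  rw [h.spec i g']

theorem twist_coc (h : IsCosetSystem ι ι' ρ) (τ : I → Γ) (i : I) (g' : Γ') :
    (twist h τ).coc i g' = τ i * h.coc i g' * (τ (h.act i g'))⁻¹ := by
  apply (twist h τ).coc_eq (j := h.act i g')
  simp only [map_mul, map_inv, mul_assoc, inv_mul_cancel_left]
  rw [h.spec i g']

theorem twist_transfer [Fintype I] {A : Type*} [AddCommGroup A] (h : IsCosetSystem ι ι' ρ)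
    (τ : I → Γ) (φ : Additive Γ →+ A) : (twist h τ).transfer φ = h.transfer φ := by
  refine AddMonoidHom.ext fun g' => ?_
  obtain ⟨g, rfl⟩ : ∃ g : Γ', Additive.ofMul g = g' := ⟨Additive.toMul g', rfl⟩
  rw [IsCosetSystem.transfer_apply, IsCosetSystem.transfer_apply]
  have hc : ∀ i, φ (Additive.ofMul ((twist h τ).coc i g)) =
      φ (Additive.ofMul (τ i)) + φ (Additive.ofMul (h.coc i g)) -
        φ (Additive.ofMul (τ (h.act i g))) := by
    intro i
    rw [twist_coc, ofMul_mul, ofMul_mul, ofMul_inv, map_add, map_add, map_neg, sub_eq_add_neg]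
  simp only [hc, Finset.sum_add_distrib, Finset.sum_sub_distrib]
  have hperm : ∑ i, φ (Additive.ofMul (τ (h.act i g))) = ∑ i, φ (Additive.ofMul (τ i)) :=
    Equiv.sum_comp (h.actEquiv g) (fun i => φ (Additive.ofMul (τ i)))
  rw [hperm]
  abel

end Twist

/-! ## Normalised representatives -/

/-- `X ∈ GL(2, ℝ)` is an integral matrix `[[a, b], [c, d]]` with `M ∣ c` and `a ≡ 1 mod M`. -/
def IsNormRep (M : ℕ) (X : GL (Fin 2) ℝ) : Prop :=
  ∃ a b c d : ℤ, (M : ℤ) ∣ c ∧ (M : ℤ) ∣ a - 1 ∧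
    (X : Matrix (Fin 2) (Fin 2) ℝ) = !![(a : ℝ), (b : ℝ); (c : ℝ), (d : ℝ)]

variable {M : ℕ}

theorem isNormRep_heckeMatrix {q : ℕ} (hq : q ≠ 0) (j : ℕ) : IsNormRep M (heckeMatrix q j) :=
  ⟨1, j, 0, q, dvd_zero _, by simp, by rw [val_heckeMatrix hq]; simp⟩

/-- Two elements of `Γ₀(M)` with the same upper left entry mod `M` have the same `dUnit`. -/
theorem dUnit_eq_of_a_eq {g g' : Gamma0 M}
    (h : (((g : SL(2, ℤ)) 0 0 : ℤ) : ZMod M) = (((g' : SL(2, ℤ)) 0 0 : ℤ) : ZMod M)) :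
    dUnit M g = dUnit M g' := by
  apply Units.ext
  rw [coe_dUnit, coe_dUnit]
  have h1 := a_mul_d_of_mem_Gamma0 g
  have h2 := a_mul_d_of_mem_Gamma0 g'
  calc (((g : SL(2, ℤ)) 1 1 : ℤ) : ZMod M)
      = (((g' : SL(2, ℤ)) 0 0 : ℤ) : ZMod M) * (((g' : SL(2, ℤ)) 1 1 : ℤ) : ZMod M) *
          (((g : SL(2, ℤ)) 1 1 : ℤ) : ZMod M) := by rw [h2, one_mul]
    _ = (((g : SL(2, ℤ)) 0 0 : ℤ) : ZMod M) * (((g : SL(2, ℤ)) 1 1 : ℤ) : ZMod M) *
          (((g' : SL(2, ℤ)) 1 1 : ℤ) : ZMod M) := by rw [h]; ring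
    _ = (((g' : SL(2, ℤ)) 1 1 : ℤ) : ZMod M) := by rw [h1, one_mul]

/-- If `X * g = g' * Y` with normalised `X`, `Y` and `g ∈ Γ₀(M)`, then `g' ∈ Γ₀(M)` and `g'` has the
same upper left entry mod `M` as `g`. -/
theorem normRep_coc_aux {X Y : GL (Fin 2) ℝ} (hX : IsNormRep M X) (hY : IsNormRep M Y)
    {g g' : SL(2, ℤ)} (hg : g ∈ Gamma0 M) (e : X * mapGL ℝ g = mapGL ℝ g' * Y) :
    (M : ℤ) ∣ g' 1 0 ∧ (M : ℤ) ∣ g' 0 0 - g 0 0 := by
  obtain ⟨a, b, c, d, hc, ha, hXe⟩ := hX
  obtain ⟨a', b', c', d', hc', ha', hYe⟩ := hY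
  have hgc : (M : ℤ) ∣ g 1 0 := dvd_of_mem_Gamma0 hg
  have e00 := congrArg (fun Z : GL (Fin 2) ℝ => (Z : Matrix (Fin 2) (Fin 2) ℝ) 0 0) e
  have e10 := congrArg (fun Z : GL (Fin 2) ℝ => (Z : Matrix (Fin 2) (Fin 2) ℝ) 1 0) e
  simp only [coe_mul_apply, coe_mapGL_apply, hXe, hYe, Matrix.of_apply, Matrix.cons_val',
    Matrix.cons_val_zero, Matrix.cons_val_one, Matrix.cons_val_fin_one] at e00 e10
  have i00 : a * g 0 0 + b * g 1 0 = g' 0 0 * a' + g' 0 1 * c' := by exact_mod_cast e00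
  have i10 : c * g 0 0 + d * g 1 0 = g' 1 0 * a' + g' 1 1 * c' := by exact_mod_cast e10
  obtain ⟨k1, hk1⟩ := hc
  obtain ⟨k2, hk2⟩ := ha
  obtain ⟨k3, hk3⟩ := hc'
  obtain ⟨k4, hk4⟩ := ha'
  obtain ⟨k5, hk5⟩ := hgc
  have ha1 : a = 1 + M * k2 := by linarith
  have ha2 : a' = 1 + M * k4 := by linarith
  constructor
  · refine ⟨k1 * g 0 0 + d * k5 - g' 1 0 * k4 - g' 1 1 * k3, ?_⟩
    rw [hk1, hk5, ha2, hk3] at i10
    linear_combination -i10
  · refine ⟨k2 * g 0 0 + b * k5 - g' 0 0 * k4 - g' 0 1 * k3, ?_⟩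
    rw [ha1, hk5, ha2, hk3] at i00
    linear_combination -i00

theorem normRep_coc {X Y : GL (Fin 2) ℝ} (hX : IsNormRep M X) (hY : IsNormRep M Y)
    {g : Gamma0 M} {g' : SL(2, ℤ)} (e : X * ιN M g = mapGL ℝ g' * Y) :
    ∃ hg' : g' ∈ Gamma0 M, dUnit M ⟨g', hg'⟩ = dUnit M g := by
  obtain ⟨h1, h2⟩ := normRep_coc_aux hX hY g.2 e
  refine ⟨mem_Gamma0_of_dvd h1, dUnit_eq_of_a_eq ?_⟩
  have h3 : (((g' 0 0 - (g : SL(2, ℤ)) 0 0 : ℤ)) : ZMod M) = 0 :=
    (ZMod.intCast_zmod_eq_zero_iff_dvd _ _).mpr h2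
  push_cast at h3
  exact sub_eq_zero.mp h3

/-! ## From `Γ₀(M)` to `K` -/

section Restrict

variable {K : Subgroup SL(2, ℤ)} {I : Type*} {ρ : I → GL (Fin 2) ℝ}

/-- The cocycle of a normalised coset system of `Γ₀(M)` preserves `dUnit`. -/
theorem dUnit_coc (h₀ : IsCosetSystem (ιN M) (ιN M) ρ) (hρ : ∀ i, IsNormRep M (ρ i)) (i : I)
    (g : Gamma0 M) : dUnit M (h₀.coc i g) = dUnit M g := by
  obtain ⟨_, h2⟩ := normRep_coc (hρ i) (hρ (h₀.act i g)) (g := g)
    (g' := ((h₀.coc i g : Gamma0 M) : SL(2, ℤ))) (h₀.spec i g)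
  exact h2

theorem coc_mem (hK : IsMid M K) (h₀ : IsCosetSystem (ιN M) (ιN M) ρ)
    (hρ : ∀ i, IsNormRep M (ρ i)) (i : I) (g' : K) :
    ((h₀.coc i (inclK hK g') : Gamma0 M) : SL(2, ℤ)) ∈ K :=
  hK.mem_of_dUnit_eq (k := inclK hK g') g'.2 (dUnit_coc h₀ hρ i _)

/-- A coset system for `Γ₀(M)` with normalised representatives is a coset system for every
`K` with `Γ₁(M) ≤ K ≤ Γ₀(M)`. -/
theorem system_of_gamma0 (hK : IsMid M K) (h₀ : IsCosetSystem (ιN M) (ιN M) ρ)
    (hρ : ∀ i, IsNormRep M (ρ i)) : IsCosetSystem (ιK K) (ιK K) ρ where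
  inj := ιK_injective K
  exists_mul := fun i g' =>
    ⟨h₀.act i (inclK hK g'), ⟨_, coc_mem hK h₀ hρ i g'⟩, h₀.spec i (inclK hK g')⟩
  eq_of_mul := fun i j g e => h₀.eq_of_mul i j (inclK hK g) e

theorem system_of_gamma0_act (hK : IsMid M K) (h₀ : IsCosetSystem (ιN M) (ιN M) ρ)
    (hρ : ∀ i, IsNormRep M (ρ i)) (i : I) (g' : K) :
    (system_of_gamma0 hK h₀ hρ).act i g' = h₀.act i (inclK hK g') :=
  (system_of_gamma0 hK h₀ hρ).act_eq (g := ⟨_, coc_mem hK h₀ hρ i g'⟩)
    (h₀.spec i (inclK hK g'))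

theorem system_of_gamma0_coc (hK : IsMid M K) (h₀ : IsCosetSystem (ιN M) (ιN M) ρ)
    (hρ : ∀ i, IsNormRep M (ρ i)) (i : I) (g' : K) :
    inclK hK ((system_of_gamma0 hK h₀ hρ).coc i g') = h₀.coc i (inclK hK g') := by
  rw [(system_of_gamma0 hK h₀ hρ).coc_eq (g := ⟨_, coc_mem hK h₀ hρ i g'⟩)
    (h₀.spec i (inclK hK g'))]
  rfl

/-- Restriction to `K` commutes with the transfer of a normalised coset system. -/
theorem system_of_gamma0_transfer [Fintype I] {A : Type*} [AddCommGroup A] (hK : IsMid M K)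
    (h₀ : IsCosetSystem (ιN M) (ιN M) ρ) (hρ : ∀ i, IsNormRep M (ρ i))
    (φ : Additive (Gamma0 M) →+ A) :
    (system_of_gamma0 hK h₀ hρ).transfer (resK hK.le φ) = resK hK.le (h₀.transfer φ) := by
  refine AddMonoidHom.ext fun g' => ?_
  obtain ⟨g, rfl⟩ : ∃ g : K, Additive.ofMul g = g' := ⟨Additive.toMul g', rfl⟩
  rw [IsCosetSystem.transfer_apply, resK_apply, IsCosetSystem.transfer_apply]
  refine Finset.sum_congr rfl fun i _ => ?_
  rw [resK_apply]
  congr 2
  exact system_of_gamma0_coc hK h₀ hρ i g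

/-- More generally, restriction from `K` to `K' ≤ K` commutes with the transfers. -/
theorem system_of_gamma0_transfer_res [Fintype I] {A : Type*} [AddCommGroup A]
    {K' : Subgroup SL(2, ℤ)} (hK : IsMid M K) (hK' : IsMid M K') (h : K' ≤ K)
    (h₀ : IsCosetSystem (ιN M) (ιN M) ρ) (hρ : ∀ i, IsNormRep M (ρ i)) (φ : Additive K →+ A) :
    (system_of_gamma0 hK' h₀ hρ).transfer (resK h φ) =
      resK h ((system_of_gamma0 hK h₀ hρ).transfer φ) := by
  refine AddMonoidHom.ext fun g' => ?_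
  obtain ⟨g, rfl⟩ : ∃ g : K', Additive.ofMul g = g' := ⟨Additive.toMul g', rfl⟩
  rw [IsCosetSystem.transfer_apply, resK_apply, IsCosetSystem.transfer_apply]
  refine Finset.sum_congr rfl fun i _ => ?_
  rw [resK_apply]
  congr 2
  apply inclK_injective hK
  rw [system_of_gamma0_coc hK h₀ hρ]
  exact system_of_gamma0_coc hK' h₀ hρ i g

end Restrict

/-! ## The systems of `U_q` and `T_ℓ` -/

section UT

variable {K : Subgroup SL(2, ℤ)}

/-- The representatives of `U_q` (`q ∣ M` prime) form a coset system for `Γ₀(M)`. -/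
theorem repsU_system0 {q : ℕ} [Fact q.Prime] (hq : q ∣ M) :
    IsCosetSystem (ιN M) (ιN M) (repsU q) where
  inj := ιN_injective M
  exists_mul := by
    intro j g
    have hM : (M : ℤ) ∣ (g : SL(2, ℤ)) 1 0 := dvd_of_mem_Gamma0 g.2
    have hc : (q : ℤ) ∣ (g : SL(2, ℤ)) 1 0 := dvd_trans (by exact_mod_cast hq) hM
    obtain ⟨g', hg', e⟩ := heckeMatrix_mul_of_dvd (g : SL(2, ℤ)) hc j
    refine ⟨_, ⟨g', mem_Gamma0_of_dvd ?_⟩, e⟩
    rw [hg']
    exact Dvd.dvd.mul_left hM _
  eq_of_mul := by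
    intro j k g e
    have e' : heckeRep q (j : OnePoint (ZMod q)) =
        mapGL ℝ (g : SL(2, ℤ)) * heckeRep q (k : OnePoint (ZMod q)) := e
    exact OnePoint.coe_injective (heckeRep_eq_of_mul e')

theorem isNormRep_repsU (q : ℕ) [Fact q.Prime] (j : ZMod q) : IsNormRep M (repsU q j) :=
  isNormRep_heckeMatrix (Fact.out : q.Prime).ne_zero _

/-- The representatives of `U_q` (`q ∣ M` prime) form a coset system for `K`. -/
theorem repsU_system (hK : IsMid M K) {q : ℕ} [Fact q.Prime] (hq : q ∣ M) :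
    IsCosetSystem (ιK K) (ιK K) (repsU q) :=
  system_of_gamma0 hK (repsU_system0 hq) (isNormRep_repsU q)

/-- The twisting elements of `T_ℓ`. -/
noncomputable def tauT (M ℓ : ℕ) (x : OnePoint (ZMod ℓ)) : Gamma0 M :=
  x.elim (sigma M ℓ) (fun _ => 1)

theorem repsT_eq_twist (M ℓ : ℕ) :
    repsT M ℓ = fun x => ιN M (tauT M ℓ x) * heckeRep ℓ x := by
  funext x
  induction x using OnePoint.rec with
  | infty => rfl
  | coe j =>
    show heckeMatrix ℓ j.val = ιN M 1 * heckeMatrix ℓ j.val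
    rw [map_one, one_mul]

/-- The representatives of `T_ℓ` (`ℓ ∤ M` prime) form a coset system for `Γ₀(M)`. -/
theorem repsT_system0 {ℓ : ℕ} [Fact ℓ.Prime] (hℓ : ¬ ℓ ∣ M) :
    IsCosetSystem (ιN M) (ιN M) (repsT M ℓ) := by
  rw [repsT_eq_twist]
  exact twist (heckeSystem hℓ) (tauT M ℓ)

theorem sigma_spec {ℓ : ℕ} (hℓ : Nat.Coprime ℓ M) :
    ((sigma M ℓ : Gamma0 M) : SL(2, ℤ)) 0 0 = Int.gcdA ℓ M ∧
    ((sigma M ℓ : Gamma0 M) : SL(2, ℤ)) 0 1 = -Int.gcdB ℓ M ∧
    ((sigma M ℓ : Gamma0 M) : SL(2, ℤ)) 1 0 = M ∧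
    ((sigma M ℓ : Gamma0 M) : SL(2, ℤ)) 1 1 = ℓ ∧
    Int.gcdA ℓ M * (ℓ : ℤ) + Int.gcdB ℓ M * (M : ℤ) = 1 := by
  have h1 : ((Nat.gcd ℓ M : ℕ) : ℤ) = ℓ * Int.gcdA ℓ M + M * Int.gcdB ℓ M :=
    Int.gcd_eq_gcd_ab ℓ M
  rw [Nat.Coprime] at hℓ
  rw [hℓ] at h1
  have h2 : (Int.gcdA ℓ M) * (ℓ : ℤ) - (-Int.gcdB ℓ M) * (M : ℤ) = 1 := by
    push_cast at h1
    linear_combination -h1
  have h3 : sigma M ℓ = mkGamma0 M (Int.gcdA ℓ M) (-Int.gcdB ℓ M) M ℓ h2 (dvd_refl _) := by
    unfold sigma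
    rw [dif_pos h2]
  obtain ⟨e00, e01, e10, e11⟩ := mkGamma0_apply M (Int.gcdA ℓ M) (-Int.gcdB ℓ M) M ℓ h2
    (dvd_refl _)
  rw [h3]
  exact ⟨e00, e01, e10, e11, by linear_combination h2⟩

theorem dUnit_sigma {ℓ : ℕ} (hℓ : Nat.Coprime ℓ M) :
    ((dUnit M (sigma M ℓ) : (ZMod M)ˣ) : ZMod M) = (ℓ : ZMod M) := by
  rw [coe_dUnit, (sigma_spec hℓ).2.2.2.1]
  push_cast
  rfl

theorem isNormRep_repsT {ℓ : ℕ} [Fact ℓ.Prime] (hℓ : ¬ ℓ ∣ M) (x : OnePoint (ZMod ℓ)) :
    IsNormRep M (repsT M ℓ x) := by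
  have hp : ℓ ≠ 0 := (Fact.out : ℓ.Prime).ne_zero
  induction x using OnePoint.rec with
  | coe j => exact isNormRep_heckeMatrix hp _
  | infty =>
    have hcop : Nat.Coprime ℓ M := (Nat.Prime.coprime_iff_not_dvd Fact.out).mpr hℓ
    obtain ⟨s00, s01, s10, s11, hs⟩ := sigma_spec hcop
    refine ⟨Int.gcdA ℓ M * ℓ, -Int.gcdB ℓ M, M * ℓ, ℓ, Dvd.intro _ rfl,
      ⟨-Int.gcdB ℓ M, by linear_combination hs⟩, ?_⟩
    rw [repsT_infty]
    ext i j
    fin_cases i <;> fin_cases j <;>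
      simp only [coe_mul_apply, coe_ιN_apply, val_heckeDiagMatrix hp, Matrix.of_apply,
        Matrix.cons_val', Matrix.cons_val_zero, Matrix.cons_val_one, Matrix.cons_val_fin_one,
        Fin.zero_eta, Fin.mk_one, s00, s01, s10, s11] <;>
      push_cast <;> ring

/-- The representatives of `T_ℓ` (`ℓ ∤ M` prime) form a coset system for `K`. -/
theorem repsT_system (hK : IsMid M K) {ℓ : ℕ} [Fact ℓ.Prime] (hℓ : ¬ ℓ ∣ M) :
    IsCosetSystem (ιK K) (ιK K) (repsT M ℓ) :=
  system_of_gamma0 hK (repsT_system0 hℓ) (isNormRep_repsT hℓ)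

variable {A : Type*} [AddCommGroup A]

theorem TK_eq (hK : IsMid M K) {ℓ : ℕ} [Fact ℓ.Prime] (hℓ : ¬ ℓ ∣ M) (φ : Additive K →+ A) :
    TK M K ℓ φ = (repsT_system hK hℓ).transfer φ :=
  sysOp_eq _ φ

theorem UK_eq (hK : IsMid M K) {q : ℕ} [Fact q.Prime] (hq : q ∣ M) (φ : Additive K →+ A) :
    UK K q φ = (repsU_system hK hq).transfer φ :=
  sysOp_eq _ φ

/-- The transfer of the twisted system of `Γ₀(M)` is the Hecke transfer `T_ℓ` of S29/S41. -/
theorem repsT_system0_transfer {ℓ : ℕ} [Fact ℓ.Prime] (hℓ : ¬ ℓ ∣ M)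
    (φ : Additive (Gamma0 M) →+ A) :
    (repsT_system0 hℓ).transfer φ = heckeTransfer hℓ φ := by
  rw [heckeTransfer_eq_transfer]
  have key : ∀ (ρ : OnePoint (ZMod ℓ) → GL (Fin 2) ℝ) (e : ρ = fun x => ιN M (tauT M ℓ x) *
      heckeRep ℓ x) (h : IsCosetSystem (ιN M) (ιN M) ρ),
      h.transfer φ = (heckeSystem hℓ).transfer φ := by
    intro ρ e h
    subst e
    exact twist_transfer (heckeSystem hℓ) (tauT M ℓ) φ
  exact key _ (repsT_eq_twist M ℓ) _

/-- `T_ℓ` on `Hom(Γ₀(M), A)` is the Hecke transfer of S29/S41. -/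
theorem TK_Gamma0 {ℓ : ℕ} [Fact ℓ.Prime] (hℓ : ¬ ℓ ∣ M) (φ : Additive (Gamma0 M) →+ A) :
    TK M (Gamma0 M) ℓ φ = heckeTransfer hℓ φ := by
  rw [← repsT_system0_transfer hℓ]
  exact sysOp_eq (repsT_system0 hℓ) φ

/-- **`T_ℓ` commutes with restriction** from `K` to `K' ≤ K`. -/
theorem resK_TK {K' : Subgroup SL(2, ℤ)} (hK : IsMid M K) (hK' : IsMid M K') (h : K' ≤ K)
    {ℓ : ℕ} [Fact ℓ.Prime] (hℓ : ¬ ℓ ∣ M) (φ : Additive K →+ A) :
    TK M K' ℓ (resK h φ) = resK h (TK M K ℓ φ) := by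
  rw [TK_eq hK hℓ, TK_eq hK' hℓ]
  exact system_of_gamma0_transfer_res hK hK' h (repsT_system0 hℓ) (isNormRep_repsT hℓ) φ

/-- **`T_ℓ` commutes with restriction from `Γ₀(M)` to `K`.** -/
theorem resK_heckeTransfer (hK : IsMid M K) {ℓ : ℕ} [Fact ℓ.Prime] (hℓ : ¬ ℓ ∣ M)
    (φ : Additive (Gamma0 M) →+ A) :
    TK M K ℓ (resK hK.le φ) = resK hK.le (heckeTransfer hℓ φ) := by
  rw [← TK_Gamma0 hℓ]
  exact resK_TK (isMid_Gamma0 M) hK hK.le hℓ φ

/-- **`U_q` commutes with restriction** from `K` to `K' ≤ K`. -/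
theorem resK_UK {K' : Subgroup SL(2, ℤ)} (hK : IsMid M K) (hK' : IsMid M K') (h : K' ≤ K)
    {q : ℕ} [Fact q.Prime] (hq : q ∣ M) (φ : Additive K →+ A) :
    UK K' q (resK h φ) = resK h (UK K q φ) := by
  rw [UK_eq hK hq, UK_eq hK' hq]
  exact system_of_gamma0_transfer_res hK hK' h (repsU_system0 hq) (isNormRep_repsU q) φ

/-! ### Additivity and naturality in the coefficients -/

theorem TK_add (hK : IsMid M K) {ℓ : ℕ} [Fact ℓ.Prime] (hℓ : ¬ ℓ ∣ M) (φ ψ : Additive K →+ A) :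
    TK M K ℓ (φ + ψ) = TK M K ℓ φ + TK M K ℓ ψ := by
  simp only [TK_eq hK hℓ, IsCosetSystem.transfer_add]

theorem UK_add (hK : IsMid M K) {q : ℕ} [Fact q.Prime] (hq : q ∣ M) (φ ψ : Additive K →+ A) :
    UK K q (φ + ψ) = UK K q φ + UK K q ψ := by
  simp only [UK_eq hK hq, IsCosetSystem.transfer_add]

theorem TK_comp {B : Type*} [AddCommGroup B] (hK : IsMid M K) {ℓ : ℕ} [Fact ℓ.Prime]
    (hℓ : ¬ ℓ ∣ M) (π : A →+ B) (φ : Additive K →+ A) :
    TK M K ℓ (π.comp φ) = π.comp (TK M K ℓ φ) := by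
  simp only [TK_eq hK hℓ, IsCosetSystem.transfer_comp_left]

theorem UK_comp {B : Type*} [AddCommGroup B] (hK : IsMid M K) {q : ℕ} [Fact q.Prime]
    (hq : q ∣ M) (π : A →+ B) (φ : Additive K →+ A) :
    UK K q (π.comp φ) = π.comp (UK K q φ) := by
  simp only [UK_eq hK hq, IsCosetSystem.transfer_comp_left]

/-- `T_ℓ` as an additive endomorphism of `X_K(A)`. -/
noncomputable def TKHom (hK : IsMid M K) (A : Type*) [AddCommGroup A] {ℓ : ℕ} [Fact ℓ.Prime]
    (hℓ : ¬ ℓ ∣ M) : (Additive K →+ A) →+ (Additive K →+ A) where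
  toFun := TK M K ℓ
  map_zero' := by
    have := TK_add hK hℓ (0 : Additive K →+ A) 0
    rw [add_zero] at this
    exact left_eq_add.mp this
  map_add' := TK_add hK hℓ

/-- `U_q` as an additive endomorphism of `X_K(A)`. -/
noncomputable def UKHom (hK : IsMid M K) (A : Type*) [AddCommGroup A] {q : ℕ} [Fact q.Prime]
    (hq : q ∣ M) : (Additive K →+ A) →+ (Additive K →+ A) where
  toFun := UK K q
  map_zero' := by
    have := UK_add hK hq (0 : Additive K →+ A) 0
    rw [add_zero] at this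
    exact left_eq_add.mp this
  map_add' := UK_add hK hq

@[simp] theorem TKHom_apply (hK : IsMid M K) {ℓ : ℕ} [Fact ℓ.Prime] (hℓ : ¬ ℓ ∣ M)
    (φ : Additive K →+ A) : TKHom hK A hℓ φ = TK M K ℓ φ := rfl

@[simp] theorem UKHom_apply (hK : IsMid M K) {q : ℕ} [Fact q.Prime] (hq : q ∣ M)
    (φ : Additive K →+ A) : UKHom hK A hq φ = UK K q φ := rfl

end UT

end Fermat.Agent.S59.TW.H653

end
-- ===== PACK-END S59/TW/H653/Systems.lean

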