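import Fermat.Agent.Pack.S43GC.G0E12L3
import Fermat.Agent.Pack.S43GC.G0E12L0
import Fermat.Agent.Pack.S43GC.G0E3L0
import Fermat.Agent.Pack.S43GC.G0E12L2
import Fermat.Agent.Pack.S43GC.G0E12L1
import Fermat.Agent.Pack.S43GC.G2E0L0
import Fermat.Agent.Pack.S43GC.G0E0L1
import Fermat.Agent.Pack.S43GC.G0E7L3
import Fermat.Agent.Pack.S43GC.G0E11L3
import Fermat.Agent.Pack.S43GC.G0E1L0
import Fermat.Agent.Pack.S43GC.G0E1L2
import Fermat.Agent.Pack.S43GC.G0E11L1
import Fermat.Agent.Pack.S43GC.G0E5L0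
import Fermat.Agent.Pack.S43GC.G0E5L2
import Fermat.Agent.Pack.S43GC.G0E6L1
import Fermat.Agent.Pack.S43GC.G0E11L2
import Fermat.Agent.Pack.S43GC.G0E11L0
import Fermat.Agent.Pack.S43GC.G0E2L0
import Fermat.Agent.Pack.S43GC.G0E9L2
import Fermat.Agent.Pack.S43GC.G0E4L3
import Fermat.Agent.Pack.Fast891

-- ===== PACK-BEGIN S55/PT/Top.lean
section


/-!
# S55 / PT layer, part 7: top-degree pairings

* `charHom χ N ⊆ Dual N`: functionals `f` with `f (g n) = χ(g) f(n)`, i.e. equivariant maps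
  `N → ofChar χ`, i.e. `H⁰(N.dualTwist χ)`;
* `topPair L χ inv N : H²(N) → Dual (charHom χ N)`, `x ↦ (f ↦ inv (f_* x))`;
* `twTriv χ W`: the vector space `W` with action `g ↦ χ(g) • id` (so `ofChar χ = twTriv χ k`);
* `augTw U N : Ind_U (twTriv χ N) → N`, `single γU n ↦ χ(γ)⁻¹ • γ n`.
-/

set_option autoImplicit false

noncomputable section

namespace Fermat.Agent.S55.PT

open groupCohomology

variable {k : Type} [Field k] {G : Type} [Group G]

/-! ### additivity of push-forwards in the map -/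

section PushAdd

variable {A B : Rep.{0, 0, 0} k G} (L : LevelSys G)

lemma isEquivariant_add {φ ψ : A →ₗ[k] B} (hφ : IsEquivariant φ) (hψ : IsEquivariant ψ) :
    IsEquivariant (φ + ψ) := by
  intro g a
  have hφ' : ∀ (g : G) (a : A), φ (A.ρ g a) = B.ρ g (φ a) := hφ
  have hψ' : ∀ (g : G) (a : A), ψ (A.ρ g a) = B.ρ g (ψ a) := hψ
  simp only [LinearMap.add_apply, hφ', hψ', map_add]

lemma isEquivariant_smul (c : k) {φ : A →ₗ[k] B} (hφ : IsEquivariant φ) :
    IsEquivariant (c • φ) := by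
  intro g a
  have hφ' : ∀ (g : G) (a : A), φ (A.ρ g a) = B.ρ g (φ a) := hφ
  simp only [LinearMap.smul_apply, map_smul, hφ']

lemma isEquivariant_zero : IsEquivariant (0 : A →ₗ[k] B) := by
  intro g a
  simp

lemma pushH2_congr {φ ψ : A →ₗ[k] B} (hφ : IsEquivariant φ) (hψ : IsEquivariant ψ)
    (h : φ = ψ) (x : L.H2 A) : pushH2 φ hφ L x = pushH2 ψ hψ L x := by
  subst h
  rfl

lemma pushH2_add {φ ψ : A →ₗ[k] B} (hφ : IsEquivariant φ) (hψ : IsEquivariant ψ)
    (x : L.H2 A) :
    pushH2 (φ + ψ) (isEquivariant_add hφ hψ) L x = pushH2 φ hφ L x + pushH2 ψ hψ L x := by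
  obtain ⟨c, rfl⟩ := L.H2π_surjective A x
  rw [pushH2_mk, pushH2_mk, pushH2_mk, ← map_add]
  rfl

lemma pushH2_smul (a : k) {φ : A →ₗ[k] B} (hφ : IsEquivariant φ) (x : L.H2 A) :
    pushH2 (a • φ) (isEquivariant_smul a hφ) L x = a • pushH2 φ hφ L x := by
  obtain ⟨c, rfl⟩ := L.H2π_surjective A x
  rw [pushH2_mk, pushH2_mk, ← map_smul]
  rfl

lemma pushH2_comp {C : Rep.{0, 0, 0} k G} {φ : A →ₗ[k] B} {ψ : B →ₗ[k] C}
    (hφ : IsEquivariant φ) (hψ : IsEquivariant ψ) (hψφ : IsEquivariant (ψ ∘ₗ φ)) (x : L.H2 A) :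
    pushH2 (ψ ∘ₗ φ) hψφ L x = pushH2 ψ hψ L (pushH2 φ hφ L x) := by
  obtain ⟨c, rfl⟩ := L.H2π_surjective A x
  rfl

lemma isEquivariant_comp {C : Rep.{0, 0, 0} k G} {φ : A →ₗ[k] B} {ψ : B →ₗ[k] C}
    (hφ : IsEquivariant φ) (hψ : IsEquivariant ψ) : IsEquivariant (ψ ∘ₗ φ) := by
  intro g a
  have hφ' : ∀ (g : G) (a : A), φ (A.ρ g a) = B.ρ g (φ a) := hφ
  have hψ' : ∀ (g : G) (b : B), ψ (B.ρ g b) = C.ρ g (ψ b) := hψ
  simp only [LinearMap.comp_apply, hφ', hψ']

end PushAdd

/-! ### `χ`-equivariant functionals -/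

section CharHom

variable (χ : G →* kˣ) (N : Rep.{0, 0, 0} k G)

/-- functionals `f : N → k` with `f (g n) = χ(g) f(n)` -/
def charHom : Submodule k (Module.Dual k N) where
  carrier := {f | ∀ (g : G) (n : N), f (N.ρ g n) = (χ g : k) * f n}
  add_mem' := by
    intro f f' hf hf' g n
    simp only [LinearMap.add_apply, hf g n, hf' g n, mul_add]
  zero_mem' := by
    intro g n
    simp
  smul_mem' := by
    intro c f hf g n
    simp only [LinearMap.smul_apply, hf g n, smul_eq_mul]
    ring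

lemma mem_charHom_iff (f : Module.Dual k N) :
    f ∈ charHom χ N ↔ ∀ (g : G) (n : N), f (N.ρ g n) = (χ g : k) * f n := Iff.rfl

lemma ofChar_ρ_apply (g : G) (c : k) : (ofChar χ).ρ g c = (χ g : k) * c := by
  show ((Representation.trivial k G k).twist χ) g c = _
  simp [Representation.twist_apply_apply]

/-- an element of `charHom χ N` is an equivariant map `N → ofChar χ` -/
lemma charHom_equivariant {f : Module.Dual k N} (hf : f ∈ charHom χ N) :
    IsEquivariant (A := N) (B := ofChar χ) f := by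
  intro g n
  rw [ofChar_ρ_apply]
  exact hf g n

/-- `H⁰(N.dualTwist χ) = charHom χ N` as subspaces of `Dual N` -/
lemma H0_dualTwist_eq : (LevelSys.H0 (N.dualTwist χ) : Submodule k (Module.Dual k N)) =
    charHom χ N := by
  ext f
  have key : ∀ (g : G) (n : N), (((N.ρ.dual.twist χ) g) f) n = (χ g : k) * f (N.ρ g⁻¹ n) := by
    intro g n
    simp only [Representation.twist_apply_apply, Representation.dual_apply,
      LinearMap.smul_apply, Module.Dual.transpose_apply, LinearMap.comp_apply, smul_eq_mul]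
  have hinv : ∀ (g : G) (n : N), N.ρ g⁻¹ (N.ρ g n) = n := by
    intro g n
    rw [← Module.End.mul_apply, ← map_mul, inv_mul_cancel, map_one, Module.End.one_apply]
  have hinv' : ∀ (g : G) (n : N), N.ρ g (N.ρ g⁻¹ n) = n := by
    intro g n
    rw [← Module.End.mul_apply, ← map_mul, mul_inv_cancel, map_one, Module.End.one_apply]
  constructor
  · intro hf g n
    have h : ((N.ρ.dual.twist χ) g) f = f := hf g
    have h2 : (((N.ρ.dual.twist χ) g) f) (N.ρ g n) = f (N.ρ g n) := by rw [h]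
    rw [key, hinv] at h2
    exact h2.symm
  · intro hf g
    show ((N.ρ.dual.twist χ) g) f = f
    apply LinearMap.ext
    intro n
    rw [key]
    have h := hf g (N.ρ g⁻¹ n)
    rw [hinv'] at h
    exact h.symm

end CharHom

/-! ### the top pairing -/

section TopPair

variable (L : LevelSys G) (χ : G →* kˣ) (inv : L.H2 (ofChar χ) →ₗ[k] k) (N : Rep.{0, 0, 0} k G)

/-- `f_* : H²(N) → H²(ofChar χ)` for `f ∈ charHom χ N` -/
def pushChar (f : ↥(charHom χ N)) : L.H2 N →ₗ[k] L.H2 (ofChar χ) :=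
  pushH2 (A := N) (B := ofChar χ) (f : Module.Dual k N) (charHom_equivariant χ N f.2) L

lemma pushChar_add (f f' : ↥(charHom χ N)) (x : L.H2 N) :
    pushChar L χ N (f + f') x = pushChar L χ N f x + pushChar L χ N f' x :=
  pushH2_add (A := N) (B := ofChar χ) L (charHom_equivariant χ N f.2)
    (charHom_equivariant χ N f'.2) x

lemma pushChar_smul (a : k) (f : ↥(charHom χ N)) (x : L.H2 N) :
    pushChar L χ N (a • f) x = a • pushChar L χ N f x :=
  pushH2_smul (A := N) (B := ofChar χ) L a (charHom_equivariant χ N f.2) x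

/-- The top pairing `H²(N) → Dual (charHom χ N)`, `x ↦ (f ↦ inv (f_* x))`. -/
def topPair : L.H2 N →ₗ[k] Module.Dual k ↥(charHom χ N) :=
  LinearMap.mk₂ k (fun x f => inv (pushChar L χ N f x))
    (fun x x' f => by simp only [map_add])
    (fun a x f => by simp only [map_smul])
    (fun x f f' => by rw [pushChar_add, map_add])
    (fun a x f => by rw [pushChar_smul, map_smul])

@[simp] lemma topPair_apply (x : L.H2 N) (f : ↥(charHom χ N)) :
    topPair L χ inv N x f = inv (pushChar L χ N f x) := rfl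

end TopPair

/-! ### twisted trivial modules and the twisted augmentation -/

section Tw

variable (χ : G →* kˣ)

/-- the vector space `W` with `G` acting through `χ` -/
abbrev twTriv (W : Type) [AddCommGroup W] [Module k W] : Rep.{0, 0, 0} k G :=
  Rep.of ((Representation.trivial k G W).twist χ)

lemma twTriv_ρ_apply (W : Type) [AddCommGroup W] [Module k W] (g : G) (w : W) :
    (twTriv χ W).ρ g w = (χ g : k) • w := by
  show ((Representation.trivial k G W).twist χ) g w = _
  simp [Representation.twist_apply_apply]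

lemma ofChar_eq_twTriv : (ofChar χ : Rep.{0, 0, 0} k G) = twTriv χ k := rfl

variable (U : Subgroup G) [U.Normal] (N : Rep.{0, 0, 0} k G)

omit [U.Normal] in
/-- the function `γU ↦ χ(γ)⁻¹ • ρ(γ)` on `G ⧸ U`, well defined when `U` acts trivially on `N`
and `χ` is trivial on `U` (otherwise junk: we use `Quotient.out`) -/
def twAct (x : G ⧸ U) : N →ₗ[k] N :=
  (((χ (Quotient.out x))⁻¹ : kˣ) : k) • N.ρ (Quotient.out x)

omit [U.Normal] in
/-- the twisted augmentation `Ind_U (twTriv χ N) → N`, `single γU n ↦ χ(γ)⁻¹ • γ n` -/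
def augTw : ((G ⧸ U) →₀ N) →ₗ[k] N :=
  Finsupp.lsum k (fun x : G ⧸ U => twAct χ U N x)

omit [U.Normal] in
@[simp] lemma augTw_single (x : G ⧸ U) (n : N) :
    augTw χ U N (Finsupp.single x n : (G ⧸ U) →₀ N) = twAct χ U N x n := by
  rw [augTw, Finsupp.lsum_single]

omit [U.Normal] in
lemma twAct_mk (hχ : ∀ u ∈ U, χ u = 1) (hN : ∀ u ∈ U, N.ρ u = 1) (g : G) :
    twAct χ U N (g : G ⧸ U) = (((χ g)⁻¹ : kˣ) : k) • N.ρ g := by
  obtain ⟨u, hu⟩ := QuotientGroup.mk_out_eq_mul U g
  unfold twAct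
  rw [hu, map_mul, map_mul, hχ u u.2, hN u u.2, mul_one, mul_one]

omit [U.Normal] in
/-- the twisted augmentation is equivariant (when `U` acts trivially on `N` and `χ|_U = 1`) -/
lemma augTw_equivariant (hχ : ∀ u ∈ U, χ u = 1) (hN : ∀ u ∈ U, N.ρ u = 1) :
    IsEquivariant (A := indRep U (twTriv χ N)) (B := N) (augTw χ U N) := by
  intro g
  have : (augTw χ U N) ∘ₗ (indAct U (twTriv χ N) g) = (N.ρ g) ∘ₗ (augTw χ U N) := by
    apply Finsupp.lhom_ext
    intro x n
    induction x using QuotientGroup.induction_on with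
    | H a =>
      rw [LinearMap.comp_apply, LinearMap.comp_apply, indAct_single, augTw_single, augTw_single]
      have h1 : (g • (a : G ⧸ U)) = ((g * a : G) : G ⧸ U) := rfl
      rw [h1, twAct_mk χ U N hχ hN, twAct_mk χ U N hχ hN, twTriv_ρ_apply]
      simp only [LinearMap.smul_apply, map_mul, Module.End.mul_apply, map_smul, smul_smul]
      congr 1
      simp only [Units.val_mul, Units.val_inv_eq_inv_val, mul_inv_rev]
      have h1 : (χ g : k) ≠ 0 := (χ g).ne_zero
      have h2 : (χ a : k) ≠ 0 := (χ a).ne_zero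
      field_simp
  exact fun a => LinearMap.congr_fun this a

omit [U.Normal] in
lemma augTw_surjective (hχ : ∀ u ∈ U, χ u = 1) (hN : ∀ u ∈ U, N.ρ u = 1) :
    Function.Surjective (augTw χ U N) := by
  intro n
  refine ⟨(Finsupp.single ((1 : G) : G ⧸ U) n : (G ⧸ U) →₀ N), ?_⟩
  rw [augTw_single, twAct_mk χ U N hχ hN]
  simp

omit [U.Normal] in
/-- level change is compatible with the twisted augmentations -/
lemma augTw_indLE {V : Subgroup G} (h : U ≤ V) (hχ : ∀ u ∈ V, χ u = 1)
    (hN : ∀ u ∈ V, N.ρ u = 1) (a : (G ⧸ U) →₀ N) :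
    augTw χ V N (indLE (twTriv χ N) h a) = augTw χ U N a := by
  have : (augTw χ V N) ∘ₗ (indLE (twTriv χ N) h) = augTw χ U N := by
    apply Finsupp.lhom_ext
    intro x n
    induction x using QuotientGroup.induction_on with
    | H g =>
      rw [LinearMap.comp_apply, indLE_single, augTw_single, augTw_single]
      have h1 : Subgroup.quotientMapOfLE h (g : G ⧸ U) = (g : G ⧸ V) := rfl
      rw [h1, twAct_mk χ V N hχ hN, twAct_mk χ U N (fun u hu => hχ u (h hu))
        (fun u hu => hN u (h hu))]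
  exact LinearMap.congr_fun this a

/-- the presentation `0 → R → Ind_U (twTriv χ N) → N → 0` -/
def twSES (hχ : ∀ u ∈ U, χ u = 1) (hN : ∀ u ∈ U, N.ρ u = 1) :
    SES (kerRep (A := indRep U (twTriv χ N)) (B := N) (augTw χ U N)
      (augTw_equivariant χ U N hχ hN)) (indRep U (twTriv χ N)) N :=
  kerSES (A := indRep U (twTriv χ N)) (B := N) (augTw χ U N) (augTw_equivariant χ U N hχ hN)
    (augTw_surjective χ U N hχ hN)

end Tw

/-! ### the global top map on `∏_v H²(G_v, −)` and on `T³` -/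

section Glob

variable {ι : Type} [Fintype ι] [DecidableEq ι] {Gv : ι → Type} [∀ v, Group (Gv v)]
variable {L : LevelSys G} {Lv : ∀ v, LevelSys (Gv v)} {r : ∀ v, Gv v →* G}
variable (hr : ∀ v, IsLevelCompatible (r v) L (Lv v))
variable (χ : G →* kˣ) (inv : ∀ v, (Lv v).H2 (ofChar (χ.comp (r v))) →ₗ[k] k)
variable (N : Rep.{0, 0, 0} k G)

/-- a global `χ`-equivariant functional is locally `χ ∘ r`-equivariant -/
def charHomRes {G' : Type} [Group G'] (s : G' →* G) :
    ↥(charHom χ N) →ₗ[k] ↥(charHom (χ.comp s) (Rep.res s N)) where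
  toFun f := ⟨(f : Module.Dual k N), fun g n => f.2 (s g) n⟩
  map_add' _ _ := rfl
  map_smul' _ _ := rfl

@[simp] lemma coe_charHomRes {G' : Type} [Group G'] (s : G' →* G) (f : ↥(charHom χ N)) :
    ((charHomRes χ N s f : ↥(charHom (χ.comp s) (Rep.res s N))) : Module.Dual k N) = f := rfl

/-- `(x_v)_v ↦ (f ↦ Σ_v inv_v (f_* x_v))` -/
def topGlobFun : ((v : ι) → (Lv v).H2 (Rep.res (r v) N)) →ₗ[k] Module.Dual k ↥(charHom χ N) :=
  ∑ v : ι, (Module.Dual.transpose (R := k) (charHomRes χ N (r v))) ∘ₗ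
    (topPair (Lv v) (χ.comp (r v)) (inv v) (Rep.res (r v) N)) ∘ₗ LinearMap.proj v

lemma topGlobFun_apply (x : (v : ι) → (Lv v).H2 (Rep.res (r v) N)) (f : ↥(charHom χ N)) :
    topGlobFun χ inv N x f =
      ∑ v : ι, inv v (pushChar (Lv v) (χ.comp (r v)) (Rep.res (r v) N)
        (charHomRes χ N (r v) f) (x v)) := by
  simp only [topGlobFun, LinearMap.sum_apply, LinearMap.comp_apply, LinearMap.proj_apply,
    Module.Dual.transpose_apply, topPair_apply]

/-- reciprocity for `inv`: `Σ_v inv_v (loc_v y) = 0` for `y ∈ H²(G, ofChar χ)` -/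
def IsRecip : Prop :=
  ∀ y : L.H2 (ofChar χ), ∑ v : ι, inv v (resH2 (hr v) (ofChar χ) y) = 0

variable {χ inv}

include hr in
lemma topGlobFun_loc2 (hrec : IsRecip hr χ inv) (y : L.H2 N) :
    topGlobFun χ inv N (loc2 hr N y) = 0 := by
  apply LinearMap.ext
  intro f
  rw [topGlobFun_apply, LinearMap.zero_apply]
  have h := hrec (pushChar L χ N f y)
  rw [← h]
  refine Finset.sum_congr rfl fun v _ => ?_
  congr 1
  exact (resH2_pushH2 (A := N) (B := ofChar χ) (f : Module.Dual k N)
    (charHom_equivariant χ N f.2) (hr v) y).symm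

/-- The global top map `Θ(N) : T³(N) → Dual (charHom χ N)`. -/
def topT3 (hrec : IsRecip hr χ inv) : T3 hr N →ₗ[k] Module.Dual k ↥(charHom χ N) :=
  Submodule.liftQ _ (topGlobFun χ inv N) (by
    rintro x ⟨y, rfl⟩
    exact topGlobFun_loc2 hr N hrec y)

@[simp] lemma topT3_mk (hrec : IsRecip hr χ inv) (x : (v : ι) → (Lv v).H2 (Rep.res (r v) N)) :
    topT3 hr N hrec (T3π hr N x) = topGlobFun χ inv N x := rfl

end Glob

end Fermat.Agent.S55.PT

end

end
-- ===== PACK-END S55/PT/Top.lean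

-- ===== PACK-BEGIN S55/PT/SpecFH113.lean
section



/-!
# S55 / layer D: producers for the framework leaves D-F1 … D-F6 (helper113)

* `les0Spec    : Les0Spec`     (D-F1)
* `les1Spec    : Les1Spec`     (D-F2)
* `lesMidSpec  : LesMidSpec`   (D-F3)
* `coneSpec    : ConeSpec`     (D-F4)
* `coneLesSpec : ConeLesSpec`  (D-F5)
* `del0ResSpec : Del0ResSpec`  (D-F6)
-/

set_option autoImplicit false
set_option linter.unusedSectionVars false

noncomputable section

namespace Fermat.Agent.S55.PT.H113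

open groupCohomology Fermat.Agent.S55.PT

/-- **D-F1.** -/
theorem les0Spec : Les0Spec := fun _ _ _ _ L _ _ _ E hB =>
  ⟨ker_del0 E L hB, range_del0 E L hB⟩

/-- **D-F2.** -/
theorem les1Spec : Les1Spec := fun _ _ _ _ L _ _ _ E hN hB hC =>
  ⟨ker_del1 E L hN hB hC, range_del1 E L hN hB hC⟩

section H0

variable {k : Type} [Field k] {G : Type} [Group G] {A B C : Rep.{0, 0, 0} k G} (E : SES A B C)

theorem pushH0_i_injective : Function.Injective (pushH0 E.i E.hi) := by
  intro a a' h
  apply Subtype.ext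
  apply E.inj
  have := congrArg Subtype.val h
  exact this

theorem range_pushH0_i :
    LinearMap.range (pushH0 E.i E.hi) = LinearMap.ker (pushH0 E.π E.hπ) := by
  ext b
  rw [LinearMap.mem_range, LinearMap.mem_ker]
  constructor
  · rintro ⟨a, rfl⟩
    apply Subtype.ext
    show E.π (E.i (a : A)) = 0
    exact E.π_i _
  · intro hb
    have hb0 : E.π (b : B) = 0 := congrArg Subtype.val hb
    have hinv : ∀ g : G, A.ρ g (E.ret (b : B)) = E.ret (b : B) := by
      intro g
      apply E.inj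
      rw [ses_hi E g, E.i_ret hb0]
      exact b.2 g
    refine ⟨⟨E.ret (b : B), hinv⟩, ?_⟩
    apply Subtype.ext
    show E.i (E.ret (b : B)) = b
    exact E.i_ret hb0

end H0

/-- **D-F3.** -/
theorem lesMidSpec : LesMidSpec := fun _ _ _ _ L _ _ _ E hN _ hB =>
  ⟨pushH0_i_injective E, range_pushH0_i E, (ker_pushH1 E L hB).symm, (ker_pushH2 E L hN hB).symm⟩

/-- **D-F4.** -/
theorem coneSpec : ConeSpec := fun _ _ _ _ _ _ _ _ _ _ _ _ hr _ A _ =>
  ⟨ker_uH hr A, range_uH hr A⟩

/-- **D-F5.** -/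
theorem coneLesSpec : ConeLesSpec :=
  fun _ _ _ _ _ _ _ _ _ _ _ _ hr hN hNv _ _ _ E _ hB hC hsurj =>
    ⟨coneDel hr E hN hNv hB hsurj, ker_coneDel hr E hN hNv hB hsurj,
      range_coneDel hr E hN hNv hB hsurj,
      fun b => coneDel_jH hr E hN hNv hB hsurj (fun v => hB.res (hr v))
        (fun v => hC.res (hr v)) b⟩

/-- **D-F6.** -/
theorem del0ResSpec : Del0ResSpec := fun _ _ _ _ _ _ _ _ _ hr _ _ _ E hB c =>
  resH1_del0 E hr hB (hB.res hr) c

end Fermat.Agent.S55.PT.H113

end


end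
-- ===== PACK-END S55/PT/SpecFH113.lean

-- ===== PACK-BEGIN S55/KL/DevSylowH543.lean
section



/-!
# S55, layer KL / KB, leaf KB-DEV-B : `DevSylowSpec` (helper543)

Sylow reduction for `colim H³(Γ, R) = 0`:  to prove that every class of
`H³(Γ ⧸ V', R^{V'})` is effaceable (for a finite smooth `p`-torsion module `R`) it suffices to
prove it for the open subgroups `U` such that `U ⧸ V` is a `p`-group for a level `V ≤ V₀` acting
trivially on `R`.

Proof.  Choose a level `V ≤ V₀` acting trivially on `R`, a Sylow `p`-subgroup `P` of `Γ ⧸ V` and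
let `U` be its preimage.  For every level `W ≤ V` the index of the image of `U` in `Γ ⧸ W` is
`[Γ : U]`, prime to `p`; hence (`ResIndexSpec`) `rest : Hⁿ(Γ ⧸ W, R^W) → Hⁿ(U ⧸ W, R^W)` is
injective.  As `rest` commutes with inflation, a class which becomes effaceable after `rest` is
effaceable.

Main results:
* `HLmap_comp`, `HLmap_congr`, `infl_infl`, `rest_infl` : functoriality of finite-level cohomology;
* `eq_zero_of_rest_eq_zero` : injectivity of `rest` in the coprime index case;
* `devSylow_of : T.ResIndexSpec → DevSylowSpec`, `devSylow : DevSylowSpec`.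
-/

set_option autoImplicit false
set_option linter.style.haveILetI false

open CategoryTheory groupCohomology

namespace Fermat.Agent.S55.KL.H543

open Fermat.Agent.S55.KL

variable {k : Type} [CommRing k]

/-! ## Functoriality of `HLmap` -/

section Functoriality

variable {Γ Γ' Γ'' : Type} [Group Γ] [Group Γ'] [Group Γ'']

lemma HLmap_congr {B : Rep.{0} k Γ} {B' : Rep.{0} k Γ'} {f f' : Γ' →* Γ} {W : Subgroup Γ}
    [W.Normal] {W' : Subgroup Γ'} [W'.Normal] (hf : W' ≤ W.comap f) (hf' : W' ≤ W.comap f')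
    (φ : Rep.res f B ⟶ B') (φ' : Rep.res f' B ⟶ B') (h : f = f')
    (hφ : ∀ b : B.V, φ.hom b = φ'.hom b) (n : ℕ) :
    HLmap f hf φ n = HLmap f' hf' φ' n := by
  subst h
  refine groupCohomology.map_congr rfl ?_ n
  ext b
  exact hφ b.1

lemma HLmap_comp {B : Rep.{0} k Γ} {B' : Rep.{0} k Γ'} {B'' : Rep.{0} k Γ''}
    (f : Γ' →* Γ) (g : Γ'' →* Γ') {W : Subgroup Γ} [W.Normal] {W' : Subgroup Γ'} [W'.Normal]
    {W'' : Subgroup Γ''} [W''.Normal] (hf : W' ≤ W.comap f) (hg : W'' ≤ W'.comap g)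
    (φ : Rep.res f B ⟶ B') (ψ : Rep.res g B' ⟶ B'') (n : ℕ) :
    HLmap f hf φ n ≫ HLmap g hg ψ n =
      HLmap (f.comp g) (fun _ hx => hf (hg hx)) ((Rep.resFunctor g).map φ ≫ ψ) n := by
  unfold HLmap
  rw [← groupCohomology.map_comp]
  refine groupCohomology.map_congr ?_ ?_ n
  · ext x
    rfl
  · ext b
    rfl

end Functoriality

section InflRest

variable {Γ : Type} [Group Γ]

/-- Inflation is transitive. -/
lemma infl_infl (B : Rep.{0} k Γ) {W'' W' W : Subgroup Γ} [W''.Normal] [W'.Normal] [W.Normal]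
    (h' : W'' ≤ W') (h : W' ≤ W) (n : ℕ) (y : HL B W n) :
    (infl B h' n).hom ((infl B h n).hom y) = (infl B (h'.trans h) n).hom y := by
  have e : infl B h n ≫ infl B h' n = infl B (h'.trans h) n := by
    unfold infl
    rw [HLmap_comp]
    exact HLmap_congr _ _ _ _ rfl (fun b => rfl) n
  rw [← e]
  rfl

/-- Restriction commutes with inflation. -/
lemma rest_infl (B : Rep.{0} k Γ) (U : Subgroup Γ) {W' W : Subgroup Γ} [W'.Normal] [W.Normal]
    (h : W' ≤ W) (n : ℕ) (y : HL B W n) :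
    (rest B U W' n).hom ((infl B h n).hom y) =
      (infl (Rep.res U.subtype B) (W' := W'.subgroupOf U) (W := W.subgroupOf U)
        (fun _ hx => h hx) n).hom ((rest B U W n).hom y) := by
  have e : infl B h n ≫ rest B U W' n =
      rest B U W n ≫ infl (Rep.res U.subtype B) (W' := W'.subgroupOf U) (W := W.subgroupOf U)
        (fun _ hx => h hx) n := by
    have e1 := HLmap_comp (B := B) (B' := B) (B'' := Rep.res U.subtype B) (MonoidHom.id Γ)
      U.subtype (W := W) (W' := W') (W'' := W'.subgroupOf U) (by simpa using h) le_rfl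
      (𝟙 B) (𝟙 (Rep.res U.subtype B)) n
    have e2 := HLmap_comp (B := B) (B' := Rep.res U.subtype B) (B'' := Rep.res U.subtype B)
      U.subtype (MonoidHom.id ↥U) (W := W) (W' := W.subgroupOf U) (W'' := W'.subgroupOf U)
      le_rfl (fun _ hx => h hx) (𝟙 (Rep.res U.subtype B)) (𝟙 (Rep.res U.subtype B)) n
    exact e1.trans ((HLmap_congr _ _ _ _ rfl (fun b => rfl) n).trans e2.symm)
  have e' := congrArg (fun f => f.hom y) e
  exact e'

end InflRest

/-! ## Injectivity of restriction to a subgroup of index prime to `p` -/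

section RestInj

variable {Γ : Type} [Group Γ]

/-- The natural map `U ⧸ (W ∩ U) → Γ ⧸ W`. -/
noncomputable abbrev quotIncl (U W : Subgroup Γ) [W.Normal] :
    ↥U ⧸ W.subgroupOf U →* Γ ⧸ W :=
  QuotientGroup.map (W.subgroupOf U) W U.subtype le_rfl

lemma quotIncl_injective (U W : Subgroup Γ) [W.Normal] : Function.Injective (quotIncl U W) := by
  rw [injective_iff_map_eq_one]
  intro x hx
  induction x using QuotientGroup.induction_on with
  | H u =>
    have h1 : ((u : Γ) : Γ ⧸ W) = 1 := hx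
    rw [QuotientGroup.eq_one_iff] at h1 ⊢
    exact h1

lemma comap_range_quotIncl (U W : Subgroup Γ) [W.Normal] (hWU : W ≤ U) :
    (quotIncl U W).range.comap (QuotientGroup.mk' W) = U := by
  ext g
  simp only [Subgroup.mem_comap, MonoidHom.mem_range]
  constructor
  · rintro ⟨x, hx⟩
    induction x using QuotientGroup.induction_on with
    | H u =>
      have h1 : ((u : Γ) : Γ ⧸ W) = (g : Γ ⧸ W) := hx
      rw [QuotientGroup.eq] at h1
      have h2 := U.mul_mem u.2 (hWU h1)
      simpa using h2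
  · intro hg
    exact ⟨((⟨g, hg⟩ : U) : ↥U ⧸ W.subgroupOf U), rfl⟩

lemma index_range_quotIncl (U W : Subgroup Γ) [W.Normal] (hWU : W ≤ U) :
    (quotIncl U W).range.index = U.index := by
  conv_rhs => rw [← comap_range_quotIncl U W hWU]
  exact (Subgroup.index_comap_of_surjective _ (QuotientGroup.mk'_surjective W)).symm

/-- The section of `quotIncl` over its range. -/
noncomputable def quotSec (U W : Subgroup Γ) [W.Normal] :
    ↥(quotIncl U W).range →* ↥U ⧸ W.subgroupOf U :=
  (MonoidHom.ofInjective (quotIncl_injective U W)).symm.toMonoidHom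

lemma quotIncl_quotSec (U W : Subgroup Γ) [W.Normal] (h : ↥(quotIncl U W).range) :
    quotIncl U W (quotSec U W h) = (h : Γ ⧸ W) := by
  have := (MonoidHom.ofInjective (quotIncl_injective U W)).apply_symm_apply h
  exact congrArg Subtype.val this

/-- `B^{W ∩ U} → B^W` for `W ≤ U` (underlying linear map). -/
def invBackLin (B : Rep.{0} k Γ) (U W : Subgroup Γ) (hWU : W ≤ U) :
    ↥(Representation.invariants ((Rep.res U.subtype B).ρ.comp (W.subgroupOf U).subtype)) →ₗ[k]
      ↥(Representation.invariants (B.ρ.comp W.subtype)) where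
  toFun b := ⟨b.1, fun w => b.2 ⟨⟨w.1, hWU w.2⟩, Subgroup.mem_subgroupOf.2 w.2⟩⟩
  map_add' _ _ := rfl
  map_smul' _ _ := rfl

/-- `B^{W ∩ U} → B^W` as a morphism of representations of the image of `U` in `Γ ⧸ W`. -/
noncomputable def invBack (B : Rep.{0} k Γ) (U W : Subgroup Γ) [W.Normal] (hWU : W ≤ U) :
    Rep.res (quotSec U W) ((Rep.res U.subtype B).quotientToInvariants (W.subgroupOf U)) ⟶
      Rep.res (quotIncl U W).range.subtype (B.quotientToInvariants W) :=
  Rep.ofHom ⟨invBackLin B U W hWU, fun h => by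
    have hj := quotIncl_quotSec U W h
    ext b
    show (((Rep.res U.subtype B).quotientToInvariants (W.subgroupOf U)).ρ (quotSec U W h) b).1 =
      ((B.quotientToInvariants W).ρ (h : Γ ⧸ W) (invBackLin B U W hWU b)).1
    rw [← hj]
    generalize quotSec U W h = x
    induction x using QuotientGroup.induction_on with
    | H u => rfl⟩

/-- `rest` followed by the transport back is the restriction to the image of `U` in `Γ ⧸ W`. -/
lemma rest_comp_back (B : Rep.{0} k Γ) (U W : Subgroup Γ) [W.Normal] (hWU : W ≤ U) (n : ℕ) :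
    rest B U W n ≫ groupCohomology.map (quotSec U W) (invBack B U W hWU) n =
      Fermat.Agent.S55.T.resMap (B.quotientToInvariants W) (quotIncl U W).range n := by
  unfold rest HLmap Fermat.Agent.S55.T.resMap
  rw [← groupCohomology.map_comp]
  refine groupCohomology.map_congr ?_ ?_ n
  · ext h
    exact quotIncl_quotSec U W h
  · ext b
    rfl

/-- If `rest y = 0` then `[Γ : U] • y = 0` (for `W ≤ U`). -/
theorem index_nsmul_eq_zero_of_rest (hRI : Fermat.Agent.S55.T.ResIndexSpec) (B : Rep.{0} k Γ)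
    (U W : Subgroup Γ) [W.Normal] [W.FiniteIndex] (hWU : W ≤ U) (n : ℕ) (hn : 0 < n)
    (y : HL B W n) (hy : (rest B U W n).hom y = 0) : U.index • y = 0 := by
  haveI : Finite (Γ ⧸ W) := Subgroup.finite_quotient_of_finiteIndex
  have h1 : (Fermat.Agent.S55.T.resMap (B.quotientToInvariants W) (quotIncl U W).range n).hom y
      = 0 := by
    rw [← rest_comp_back B U W hWU n]
    simp [hy]
  have h2 := hRI k (Γ ⧸ W) (B.quotientToInvariants W) (quotIncl U W).range n hn y h1
  rwa [index_range_quotIncl U W hWU] at h2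

lemma nsmul_eq_zero_of_coeff {G : Type} [Group G] (A : Rep.{0} k G) (p n : ℕ)
    (hA : ∀ a : A.V, p • a = 0) (x : groupCohomology A n) : p • x = 0 := by
  induction x using groupCohomology_induction_on with
  | h c =>
    have hc : p • c = 0 := by
      apply (ModuleCat.mono_iff_injective (iCocycles A n)).1 inferInstance
      rw [map_nsmul, map_zero]
      funext g
      exact hA _
    rw [← map_nsmul, hc, map_zero]

/-- **Injectivity of `rest`** on the cohomology of a `p`-torsion module, for `U` of index prime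
to `p`. -/
theorem eq_zero_of_rest_eq_zero (hRI : Fermat.Agent.S55.T.ResIndexSpec) (B : Rep.{0} k Γ)
    (p : ℕ) (hB : ∀ b : B.V, p • b = 0)
    (U W : Subgroup Γ) [W.Normal] [W.FiniteIndex] (hWU : W ≤ U) (hU : Nat.Coprime U.index p)
    (n : ℕ) (hn : 0 < n)
    (y : HL B W n) (hy : (rest B U W n).hom y = 0) : y = 0 := by
  have h1 := index_nsmul_eq_zero_of_rest hRI B U W hWU n hn y hy
  have h2 : p • y = 0 :=
    nsmul_eq_zero_of_coeff (B.quotientToInvariants W) p n
      (fun a => Subtype.ext (hB a.1)) y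
  have h3 : addOrderOf y ∣ 1 := by
    rw [← Nat.Coprime.gcd_eq_one hU]
    exact Nat.dvd_gcd (addOrderOf_dvd_of_nsmul_eq_zero h1) (addOrderOf_dvd_of_nsmul_eq_zero h2)
  exact AddMonoid.addOrderOf_eq_one_iff.1 (Nat.dvd_one.1 h3)

end RestInj

/-! ## Levels acting trivially, Sylow subgroups -/

section Sylow

variable {Γ : Type} [Group Γ]

/-- A finite smooth module is fixed by a level (which may be chosen below a given level). -/
lemma exists_lvl_actsTrivially (N : NLevels Γ) (R : Rep.{0} k Γ) [Finite R.V]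
    (hs : IsSmooth N R) (V₀ : N.Lvl) : ∃ V : N.Lvl, V.W ≤ V₀.W ∧ ActsTrivially V.W R := by
  classical
  have key : ∀ s : Finset R.V, ∃ V : N.Lvl, V.W ≤ V₀.W ∧ ∀ w ∈ V.W, ∀ b ∈ s, R.ρ w b = b := by
    intro s
    induction s using Finset.induction_on with
    | empty => exact ⟨V₀, le_rfl, by simp⟩
    | insert a s ha ih =>
      obtain ⟨V, hV, hVs⟩ := ih
      obtain ⟨W, hW, hWa⟩ := hs a
      obtain ⟨X, hX1, hX2⟩ := N.exists_le V ⟨W, hW⟩
      refine ⟨X, hX1.trans hV, fun w hw b hb => ?_⟩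
      rcases Finset.mem_insert.1 hb with rfl | hb
      · exact hWa w (hX2 hw)
      · exact hVs w (hX1 hw) b hb
  haveI := Fintype.ofFinite R.V
  obtain ⟨V, hV, h⟩ := key Finset.univ
  exact ⟨V, hV, fun w hw b => h w hw b (Finset.mem_univ b)⟩

/-- The preimage of a Sylow `p`-subgroup of `Γ ⧸ W`. -/
lemma exists_sylow_preimage (W : Subgroup Γ) [W.Normal] [W.FiniteIndex] (p : ℕ) (hp : p.Prime) :
    ∃ U : Subgroup Γ, W ≤ U ∧ IsPGroup p (↥U ⧸ W.subgroupOf U) ∧ Nat.Coprime U.index p := by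
  haveI : Fact p.Prime := ⟨hp⟩
  haveI : Finite (Γ ⧸ W) := Subgroup.finite_quotient_of_finiteIndex
  obtain ⟨P⟩ : Nonempty (Sylow p (Γ ⧸ W)) := inferInstance
  refine ⟨(P : Subgroup (Γ ⧸ W)).comap (QuotientGroup.mk' W), ?_, ?_, ?_⟩
  · intro w hw
    show ((w : Γ) : Γ ⧸ W) ∈ (P : Subgroup (Γ ⧸ W))
    rw [(QuotientGroup.eq_one_iff w).2 hw]
    exact Subgroup.one_mem _
  · intro x
    induction x using QuotientGroup.induction_on with
    | H u =>
      obtain ⟨j, hj⟩ := P.isPGroup' ⟨((u : Γ) : Γ ⧸ W), u.2⟩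
      refine ⟨j, ?_⟩
      have h1 : (((u : Γ) : Γ ⧸ W)) ^ (p ^ j) = 1 := congrArg Subtype.val hj
      rw [← QuotientGroup.mk_pow, QuotientGroup.eq_one_iff] at h1
      rw [← QuotientGroup.mk_pow, QuotientGroup.eq_one_iff, Subgroup.mem_subgroupOf]
      simpa using h1
  · rw [Subgroup.index_comap_of_surjective _ (QuotientGroup.mk'_surjective W)]
    exact ((Nat.Prime.coprime_iff_not_dvd hp).2 P.not_dvd_index).symm

end Sylow

/-! ## The Sylow reduction -/

/-- **KB-DEV-B** from `ResIndexSpec`. -/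
theorem devSylow_of (hRI : Fermat.Agent.S55.T.ResIndexSpec) : DevSylowSpec := by
  intro k Γ _ _ N p hp R hfin htors hsm V₀ H V' y
  haveI := hfin
  obtain ⟨V, hVV₀, hVtriv⟩ := exists_lvl_actsTrivially N R hsm V₀
  obtain ⟨U, hVU, hPG, hcop⟩ := exists_sylow_preimage V.W p hp
  have hEff := H U V hVU hVV₀ hVtriv hPG
  obtain ⟨X, hXV', hXV⟩ := N.exists_le V' V
  obtain ⟨Y', hY', hz⟩ := hEff (X.restrict U) ((rest R U X.W 3).hom ((infl R hXV' 3).hom y))
  obtain ⟨W'', hW'', hYW⟩ := Y'.mem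
  obtain ⟨X', hX'W, hX'X⟩ := N.exists_le ⟨W'', hW''⟩ X
  have hle : X'.W.subgroupOf U ≤ Y'.W := by
    rw [hYW]
    exact fun _ hx => hX'W hx
  refine ⟨X', hX'X.trans hXV', ?_⟩
  rw [← infl_infl R hX'X hXV' 3 y]
  apply eq_zero_of_rest_eq_zero hRI R p htors U X'.W (hX'X.trans (hXV.trans hVU)) hcop 3
    (by norm_num)
  rw [rest_infl R U hX'X 3]
  have h1 := infl_infl (Rep.res U.subtype R) hle hY' 3
    ((rest R U X.W 3).hom ((infl R hXV' 3).hom y))
  rw [hz, map_zero] at h1
  exact h1.symm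

/-- **KB-DEV-B.** -/
theorem devSylow : DevSylowSpec := devSylow_of Fermat.Agent.S55.T.H572.resIndex

end Fermat.Agent.S55.KL.H543

end
-- ===== PACK-END S55/KL/DevSylowH543.lean

-- ===== PACK-BEGIN S55/H295/Core.lean
section



/-!
# Cohomological triviality, part 4: the core of the twin-vanishing criterion

Let `G` be a finite group and `A : Rep k G`.  Write `TwinVanish A d` for
"`H^d(H, A) = H^{d+1}(H, A) = 0` for every injective `f : H →* G`" (hom-form).

* `isZero_H3_of_twinVanish` : `TwinVanish A 1 → H³(G, A) = 0`;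
* `isZero_H1_of_twinVanish` : `TwinVanish A 2 → H¹(G, A) = 0`.

Proof: Sylow reduction (`helper783`), induction on the order of a `p`-group through a normal
subgroup of index `p`, higher inflation–restriction (`InfRes.lean`) and periodicity of the
cohomology of cyclic groups (Mathlib).
-/

set_option autoImplicit false

open CategoryTheory groupCohomology Rep Limits

universe u

namespace Fermat.Agent.S55.H295

noncomputable section

variable {k : Type u} [CommRing k]

/-- Hom-form twin vanishing: `H^d` and `H^{d+1}` vanish on every "subgroup" `f : H ↪ G`. -/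
def TwinVanish {G : Type u} [Group G] (A : Rep.{u} k G) (d : ℕ) : Prop :=
  ∀ (H : Type u) [Group H] (f : H →* G), Function.Injective f →
    IsZero (groupCohomology (res f A) d) ∧ IsZero (groupCohomology (res f A) (d + 1))

lemma TwinVanish.res {G : Type u} [Group G] {A : Rep.{u} k G} {d : ℕ} (h : TwinVanish A d)
    {H : Type u} [Group H] (f : H →* G) (hf : Function.Injective f) :
    TwinVanish (res f A) d :=
  fun K _ g hg => h K (f.comp g) (hf.comp hg)

lemma TwinVanish.self {G : Type u} [Group G] {A : Rep.{u} k G} {d : ℕ} (h : TwinVanish A d) :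
    IsZero (groupCohomology A d) ∧ IsZero (groupCohomology A (d + 1)) :=
  h G (MonoidHom.id G) Function.injective_id

/-- Subgroup-form twin vanishing implies hom-form twin vanishing. -/
lemma twinVanish_of_subgroups {G : Type u} [Group G] (A : Rep.{u} k G) (d : ℕ)
    (h : ∀ H : Subgroup G, IsZero (groupCohomology (Rep.res H.subtype A) d) ∧
      IsZero (groupCohomology (Rep.res H.subtype A) (d + 1))) :
    TwinVanish A d :=
  fun _ _ f hf => ⟨isZero_res_of_range f hf A d (h f.range).1,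
    isZero_res_of_range f hf A (d + 1) (h f.range).2⟩

/-- Periodicity for finite cyclic groups: `H¹ = 0 ↔ H³ = 0`. -/
theorem isZero_H1_iff_H3_of_isCyclic {Q : Type u} [Group Q] [Finite Q] [IsCyclic Q]
    (B : Rep.{u} k Q) :
    IsZero (groupCohomology B 1) ↔ IsZero (groupCohomology B 3) := by
  classical
  obtain ⟨g, hg⟩ := IsCyclic.exists_generator (α := Q)
  let _ : Fintype Q := Fintype.ofFinite Q
  let _ : CommGroup Q := IsCyclic.commGroup
  have e1 := Rep.FiniteCyclicGroup.groupCohomologyIsoOdd B g hg 1 (by decide)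
  have e3 := Rep.FiniteCyclicGroup.groupCohomologyIsoOdd B g hg 3 (by decide)
  exact (e1 ≪≫ e3.symm).isZero_iff

/-- A nontrivial finite `p`-group has a normal subgroup of index `p`. -/
theorem exists_normal_index_prime {p : ℕ} [hp : Fact p.Prime] {G : Type u} [Group G] [Finite G]
    (hG : IsPGroup p G) (hnt : Nontrivial G) : ∃ S : Subgroup G, S.Normal ∧ S.index = p := by
  obtain ⟨n, hn⟩ := (IsPGroup.iff_card (p := p) (G := G)).1 hG
  have hn0 : n ≠ 0 := by
    rintro rfl
    rw [pow_zero] at hn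
    have := Finite.one_lt_card (α := G)
    omega
  obtain ⟨m, rfl⟩ := Nat.exists_eq_succ_of_ne_zero hn0
  obtain ⟨K, hK⟩ := Sylow.exists_subgroup_card_pow_prime (G := G) p (n := m)
    (by rw [hn]; exact pow_dvd_pow p (Nat.le_succ m))
  have hidx : K.index = p := by
    have h := K.card_mul_index
    rw [hK, hn, pow_succ] at h
    exact Nat.eq_of_mul_eq_mul_left (pow_pos hp.out.pos m) h
  refine ⟨K, ?_, hidx⟩
  apply Subgroup.normal_of_index_eq_minFac_card
  rw [hidx, hn, Nat.Prime.pow_minFac hp.out (Nat.succ_ne_zero m)]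

/-- The data used in the induction step: a normal subgroup of index `p`, of smaller order,
with cyclic quotient. -/
theorem exists_normal_step {p : ℕ} [hp : Fact p.Prime] {G : Type u} [Group G] [Finite G]
    (hG : IsPGroup p G) (hnt : Nontrivial G) :
    ∃ S : Subgroup G, ∃ _ : S.Normal, Nat.card S < Nat.card G ∧ IsCyclic (G ⧸ S) := by
  obtain ⟨S, hS, hidx⟩ := exists_normal_index_prime hG hnt
  refine ⟨S, hS, ?_, ?_⟩
  · have h := S.card_mul_index
    rw [hidx] at h
    have hpos : 0 < Nat.card S := Nat.card_pos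
    have h2 : 2 ≤ p := hp.out.two_le
    nlinarith
  · have hcard : Nat.card (G ⧸ S) = p := by rw [← Subgroup.index_eq_card, hidx]
    exact isCyclic_of_prime_card hcard

/-- Core (a) for `p`-groups. -/
theorem isZero_H3_of_pGroup (p : ℕ) [hp : Fact p.Prime] :
    ∀ (n : ℕ) (G : Type u) [Group G] [Finite G], Nat.card G ≤ n → IsPGroup p G →
      ∀ A : Rep.{u} k G, TwinVanish A 1 → IsZero (groupCohomology A 3) := by
  intro n
  induction n with
  | zero =>
    intro G _ _ hcard _ A _
    have : 0 < Nat.card G := Nat.card_pos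
    omega
  | succ n ih =>
    intro G _ _ hcard hG A hA
    rcases subsingleton_or_nontrivial G with hs | hnt
    · exact isZero_groupCohomology_succ_of_subsingleton A 2
    · obtain ⟨S, hSn, hlt, hcyc⟩ := exists_normal_step hG hnt
      have hS12 := hA S S.subtype S.subtype_injective
      have hS3 : IsZero (groupCohomology (res S.subtype A) 3) :=
        ih S (by omega) (hG.to_subgroup S) (res S.subtype A) (hA.res S.subtype S.subtype_injective)
      have hG1 : IsZero (groupCohomology A 1) := hA.self.1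
      have hQ1 : IsZero (groupCohomology (A.quotientToInvariants S) 1) :=
        isZero_H_quot_of S 0 A (fun i hi => absurd hi (Nat.not_lt_zero i)) hG1
      have hQ3 : IsZero (groupCohomology (A.quotientToInvariants S) 3) :=
        (isZero_H1_iff_H3_of_isCyclic _).1 hQ1
      refine isZero_H_of_quot S 2 A (fun i hi => ?_) hQ3
      interval_cases i
      · exact hS12.1
      · exact hS12.2
      · exact hS3

/-- Core (b') for `p`-groups. -/
theorem isZero_H1_of_pGroup (p : ℕ) [hp : Fact p.Prime] :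
    ∀ (n : ℕ) (G : Type u) [Group G] [Finite G], Nat.card G ≤ n → IsPGroup p G →
      ∀ A : Rep.{u} k G, TwinVanish A 2 → IsZero (groupCohomology A 1) := by
  intro n
  induction n with
  | zero =>
    intro G _ _ hcard _ A _
    have : 0 < Nat.card G := Nat.card_pos
    omega
  | succ n ih =>
    intro G _ _ hcard hG A hA
    rcases subsingleton_or_nontrivial G with hs | hnt
    · exact isZero_groupCohomology_succ_of_subsingleton A 0
    · obtain ⟨S, hSn, hlt, hcyc⟩ := exists_normal_step hG hnt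
      have hS23 := hA S S.subtype S.subtype_injective
      have hS1 : IsZero (groupCohomology (res S.subtype A) 1) :=
        ih S (by omega) (hG.to_subgroup S) (res S.subtype A) (hA.res S.subtype S.subtype_injective)
      have hG3 : IsZero (groupCohomology A 3) := hA.self.2
      have hQ3 : IsZero (groupCohomology (A.quotientToInvariants S) 3) := by
        refine isZero_H_quot_of S 2 A (fun i hi => ?_) hG3
        interval_cases i
        · exact hS1
        · exact hS23.1
      have hQ1 : IsZero (groupCohomology (A.quotientToInvariants S) 1) :=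
        (isZero_H1_iff_H3_of_isCyclic _).2 hQ3
      refine isZero_H_of_quot S 0 A (fun i hi => ?_) hQ1
      interval_cases i
      exact hS1

section Sylow

variable {G : Type u} [Group G] [Finite G]

/-- Core (a): twin vanishing in degrees `1, 2` implies `H³(G, A) = 0`. -/
theorem isZero_H3_of_twinVanish (A : Rep.{u} k G) (hA : TwinVanish A 1) :
    IsZero (groupCohomology A 3) := by
  have key : ∀ x : groupCohomology A 3, x = 0 := by
    intro x
    apply Fermat.Agent.S55.H783.eq_zero_of_forall_sylow A 2 x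
    intro p _ P
    have hz : IsZero (groupCohomology (res (P : Subgroup G).subtype A) 3) :=
      isZero_H3_of_pGroup p (Nat.card P) P le_rfl P.isPGroup' _
        (hA.res _ (Subgroup.subtype_injective _))
    exact (ModuleCat.subsingleton_of_isZero hz).elim _ _
  have : Subsingleton (groupCohomology A 3) := ⟨fun x y => by rw [key x, key y]⟩
  exact ModuleCat.isZero_of_subsingleton _

/-- Core (b'): twin vanishing in degrees `2, 3` implies `H¹(G, A) = 0`. -/
theorem isZero_H1_of_twinVanish (A : Rep.{u} k G) (hA : TwinVanish A 2) :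
    IsZero (groupCohomology A 1) := by
  have key : ∀ x : groupCohomology A 1, x = 0 := by
    intro x
    apply Fermat.Agent.S55.H783.eq_zero_of_forall_sylow A 0 x
    intro p _ P
    have hz : IsZero (groupCohomology (res (P : Subgroup G).subtype A) 1) :=
      isZero_H1_of_pGroup p (Nat.card P) P le_rfl P.isPGroup' _
        (hA.res _ (Subgroup.subtype_injective _))
    exact (ModuleCat.subsingleton_of_isZero hz).elim _ _
  have : Subsingleton (groupCohomology A 1) := ⟨fun x y => by rw [key x, key y]⟩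
  exact ModuleCat.isZero_of_subsingleton _

end Sylow

end

end Fermat.Agent.S55.H295

end
-- ===== PACK-END S55/H295/Core.lean

-- ===== PACK-BEGIN S55/T/NakCoverH719.lean
section


/-!
# S55, layer T, leaf T6a (Nakayama) — torsion-free covers and reduction mod `p` (helper719)

* `PTorsionFree p M` : multiplication by `p` is injective on `M`;
* `coverSC X : 0 → K → coind₁ (k^(X)) → X → 0`, with `K` and the middle term torsion-free
  (if `k` is);
* `pSC A p : 0 → A → A → A/p → 0` for `p`-torsion-free `A`.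
-/

set_option autoImplicit false
set_option linter.style.haveILetI false

open CategoryTheory Limits groupCohomology Rep

namespace Fermat.Agent.S55.T.H719

open Fermat.Agent.S55.H572

noncomputable section

variable {k G : Type} [CommRing k] [Group G]

/-- Multiplication by `p` is injective. -/
def PTorsionFree (p : ℕ) (M : Type) [AddCommGroup M] : Prop := ∀ x : M, p • x = 0 → x = 0

theorem pTorsionFree_of_injective {p : ℕ} {M N : Type} [AddCommGroup M] [AddCommGroup N]
    (f : M →+ N) (hf : Function.Injective f) (hN : PTorsionFree p N) : PTorsionFree p M := by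
  intro x hx
  apply hf
  rw [map_zero]
  apply hN
  rw [← map_nsmul, hx, map_zero]

theorem pTorsionFree_ihom {p : ℕ} (R X : Rep.{0} k G) (hX : PTorsionFree p X.V) :
    PTorsionFree p ((Rep.ihom R).obj X).V := by
  intro φ hφ
  apply LinearMap.ext
  intro r
  apply hX
  have := congrArg (fun χ : R.V →ₗ[k] X.V => χ r) hφ
  exact this

theorem pTorsionFree_coind₁ {p : ℕ} (A : Rep.{0} k G) (hA : PTorsionFree p A.V) :
    PTorsionFree p (coind₁ A).V := by
  intro f hf
  apply Subtype.ext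
  funext x
  apply hA
  have := congrArg (fun χ : (coind₁ A).V => χ.1 x) hf
  simpa using this

theorem pTorsionFree_finsupp {p : ℕ} (hk : PTorsionFree p k) (ι : Type) :
    PTorsionFree p (ι →₀ k) := by
  intro f hf
  apply Finsupp.ext
  intro i
  apply hk
  have := congrArg (fun χ : ι →₀ k => χ i) hf
  simpa using this

/-! ## The free cover -/

section Cover

variable [Fintype G]

/-- The coefficient module of the cover: the free `k`-module on the set `X`, with trivial
action. -/
abbrev coverCoeff (X : Rep.{0} k G) : Rep.{0} k G := Rep.trivial k G (X.V →₀ k)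

/-- Underlying linear map of `coverπ`. -/
def coverπLin (X : Rep.{0} k G) : (coind₁ (coverCoeff X)).V →ₗ[k] X.V where
  toFun f := ∑ x : G, X.ρ x⁻¹ (Finsupp.linearCombination k (id : X.V → X.V) (f.1 x))
  map_add' f g := by
    rw [← Finset.sum_add_distrib]
    refine Finset.sum_congr rfl fun x _ => ?_
    rw [← map_add, ← map_add]
    rfl
  map_smul' r f := by
    rw [RingHom.id_apply, Finset.smul_sum]
    refine Finset.sum_congr rfl fun x _ => ?_
    rw [← map_smul, ← map_smul]
    rfl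

/-- The cover `coind₁ (k^(X)) ⟶ X`. -/
def coverπ (X : Rep.{0} k G) : coind₁ (coverCoeff X) ⟶ X :=
  Rep.ofHom (ρ := (coind₁ (coverCoeff X)).ρ) (σ := X.ρ) ⟨coverπLin X, fun g => by
    apply LinearMap.ext
    intro f
    change ∑ x : G, X.ρ x⁻¹ (Finsupp.linearCombination k (id : X.V → X.V) (f.1 (x * g))) =
      X.ρ g (∑ x : G, X.ρ x⁻¹ (Finsupp.linearCombination k (id : X.V → X.V) (f.1 x)))
    rw [map_sum]
    refine Fintype.sum_equiv (Equiv.mulRight g) _ _ fun x => ?_
    change X.ρ x⁻¹ _ = X.ρ g (X.ρ (x * g)⁻¹ _)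
    rw [← Module.End.mul_apply, ← map_mul, mul_inv_rev, mul_inv_cancel_left]
    rfl⟩

theorem coverπ_hom_apply (X : Rep.{0} k G) (f : (coind₁ (coverCoeff X)).V) :
    (coverπ X).hom f =
      ∑ x : G, X.ρ x⁻¹ (Finsupp.linearCombination k (id : X.V → X.V) (f.1 x)) := rfl

instance coverπ_epi (X : Rep.{0} k G) : Epi (coverπ X) := by
  classical
  rw [Rep.epi_iff_surjective]
  intro a
  refine ⟨mkCoind (res (⊥ : Subgroup G).subtype (coverCoeff X))
    (fun x => if x = 1 then Finsupp.single a 1 else 0), ?_⟩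
  rw [coverπ_hom_apply]
  rw [Finset.sum_eq_single (1 : G)]
  · simp
  · intro x _ hx
    simp [hx]
  · intro h; exact absurd (Finset.mem_univ _) h

/-- The short exact sequence `0 → K → coind₁ (k^(X)) → X → 0`. -/
def coverSC (X : Rep.{0} k G) : ShortComplex (Rep.{0} k G) :=
  ShortComplex.mk (kernel.ι (coverπ X)) (coverπ X) (kernel.condition _)

theorem coverSC_shortExact (X : Rep.{0} k G) : (coverSC X).ShortExact where
  exact := ShortComplex.exact_of_f_is_kernel _ (kernelIsKernel _)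
  mono_f := equalizer.ι_mono
  epi_g := coverπ_epi X

theorem pTorsionFree_coverSC_X₂ {p : ℕ} (hk : PTorsionFree p k) (X : Rep.{0} k G) :
    PTorsionFree p (coverSC X).X₂.V :=
  pTorsionFree_coind₁ _ (pTorsionFree_finsupp hk _)

theorem pTorsionFree_coverSC_X₁ {p : ℕ} (hk : PTorsionFree p k) (X : Rep.{0} k G) :
    PTorsionFree p (coverSC X).X₁.V :=
  pTorsionFree_of_injective (coverSC X).f.hom.toLinearMap.toAddMonoidHom
    ((Rep.mono_iff_injective _).1 (coverSC_shortExact X).mono_f) (pTorsionFree_coverSC_X₂ hk X)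

end Cover

/-! ## Reduction mod `p` -/

theorem nsmul_id_hom_apply (A : Rep.{0} k G) (p : ℕ) (x : A.V) :
    (p • 𝟙 A : A ⟶ A).hom x = p • x := by
  rw [← Nat.cast_smul_eq_nsmul k p (𝟙 A), Rep.smul_hom]
  change (p : k) • x = p • x
  exact Nat.cast_smul_eq_nsmul k p x

/-- The short complex `A --p--> A --> A/p`. -/
def pSC (A : Rep.{0} k G) (p : ℕ) : ShortComplex (Rep.{0} k G) :=
  ShortComplex.mk (p • 𝟙 A) (cokernel.π (p • 𝟙 A)) (cokernel.condition _)

theorem pSC_shortExact (A : Rep.{0} k G) (p : ℕ) (hA : PTorsionFree p A.V) :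
    (pSC A p).ShortExact where
  exact := ShortComplex.exact_of_g_is_cokernel _ (cokernelIsCokernel _)
  mono_f := by
    rw [Rep.mono_iff_injective]
    intro (x : A.V) (y : A.V) h
    have h' : (p • 𝟙 A : A ⟶ A).hom x = (p • 𝟙 A : A ⟶ A).hom y := h
    rw [nsmul_id_hom_apply, nsmul_id_hom_apply] at h'
    have h2 : p • (x - y) = 0 := by rw [smul_sub, h', sub_self]
    exact sub_eq_zero.1 (hA _ h2)
  epi_g := coequalizer.π_epi

theorem pSC_X₃_nsmul (A : Rep.{0} k G) (p : ℕ) (v : (pSC A p).X₃.V) : p • v = 0 := by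
  obtain ⟨(a : A.V), rfl⟩ :=
    (Rep.epi_iff_surjective (cokernel.π (p • 𝟙 A : A ⟶ A))).1 coequalizer.π_epi v
  have h1 : (cokernel.π (p • 𝟙 A : A ⟶ A)).hom ((p • 𝟙 A : A ⟶ A).hom a) = 0 :=
    congrArg (fun f : A ⟶ cokernel (p • 𝟙 A : A ⟶ A) => f.hom a)
      (cokernel.condition (p • 𝟙 A : A ⟶ A))
  rw [nsmul_id_hom_apply, map_nsmul] at h1
  exact h1

end

end Fermat.Agent.S55.T.H719

end
-- ===== PACK-END S55/T/NakCoverH719.lean

-- ===== PACK-BEGIN S55/T/T6pH353/Transfer.lean
section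


/-!
# S55, layer T, leaf T6p (helper353): the transfer formula

For a subgroup `H ≤ G` of finite index, `G`-representations `A`, `B`, an `H`-morphism
`f₀ : Res_H A ⟶ Res_H B` and all `n`:

`(N_{G/H} f₀)_* = cor ∘ (f₀)_* ∘ res : Hⁿ(G, A) ⟶ Hⁿ(G, B)`

(`transfer`), where `cor = H572.cor` is the corestriction defined by dimension shifting.
-/

set_option autoImplicit false

open CategoryTheory groupCohomology Rep Limits

universe u

namespace Fermat.Agent.S55.T.H353

open Fermat.Agent.S55.H572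

noncomputable section

variable {k G : Type u} [CommRing k] [Group G] (H : Subgroup G)

/-! ### The map induced by an `H`-morphism on `coind₁` -/

/-- Underlying linear map of `coindH`: `φ ↦ (x ↦ x f₀ (x⁻¹ φ(x)))`. -/
def coindHLin {A B : Rep.{u} k G} (f₀ : res H.subtype A ⟶ res H.subtype B) :
    (coind₁ A).V →ₗ[k] (coind₁ B).V where
  toFun φ := mkCoind (res (⊥ : Subgroup G).subtype B) (fun x => conjTerm H f₀ x (φ.1 x))
  map_add' φ ψ := by
    apply Subtype.ext
    funext x
    simp [conjTerm]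
  map_smul' r φ := by
    apply Subtype.ext
    funext x
    simp [conjTerm]

lemma coindHLin_apply {A B : Rep.{u} k G} (f₀ : res H.subtype A ⟶ res H.subtype B)
    (φ : (coind₁ A).V) (x : G) : (coindHLin H f₀ φ).1 x = conjTerm H f₀ x (φ.1 x) := rfl

/-- The `H`-morphism `Res_H (coind₁ A) ⟶ Res_H (coind₁ B)` induced by an `H`-morphism
`f₀ : Res_H A ⟶ Res_H B`; it extends `f₀` along `coind₁ι`. -/
def coindH {A B : Rep.{u} k G} (f₀ : res H.subtype A ⟶ res H.subtype B) :
    res H.subtype (coind₁ A) ⟶ res H.subtype (coind₁ B) :=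
  Rep.ofHom (ρ := (res H.subtype (coind₁ A)).ρ) (σ := (res H.subtype (coind₁ B)).ρ)
    ⟨coindHLin H f₀, fun h => by
      apply LinearMap.ext
      intro φ
      apply Subtype.ext
      funext x
      change conjTerm H f₀ x (φ.1 (x * (h : G))) = conjTerm H f₀ (x * (h : G)) (φ.1 (x * (h : G)))
      rw [conjTerm_mul_mem]⟩

lemma coindH_hom_apply {A B : Rep.{u} k G} (f₀ : res H.subtype A ⟶ res H.subtype B)
    (φ : (coind₁ A).V) (x : G) : ((coindH H f₀).hom φ).1 x = conjTerm H f₀ x (φ.1 x) := rfl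

lemma coind₁ι_coindH {A B : Rep.{u} k G} (f₀ : res H.subtype A ⟶ res H.subtype B) :
    (resFunctor H.subtype).map (coind₁ι A) ≫ coindH H f₀ =
      f₀ ≫ (resFunctor H.subtype).map (coind₁ι B) := by
  apply Rep.hom_ext
  apply Representation.IntertwiningMap.ext
  apply LinearMap.ext
  intro a
  apply Subtype.ext
  funext x
  change conjTerm H f₀ x (A.ρ x a) = B.ρ x (f₀.hom a)
  unfold conjTerm
  rw [← Module.End.mul_apply (A.ρ x⁻¹), ← map_mul]
  simp

/-! ### The map induced by an `H`-morphism on `up` -/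

instance epi_upSCRes_g (A : Rep.{u} k G) : Epi (upSCRes H A).g :=
  (upSCRes_shortExact H A).epi_g

lemma upH_aux {A B : Rep.{u} k G} (f₀ : res H.subtype A ⟶ res H.subtype B) :
    (resFunctor H.subtype).map (coind₁ι A) ≫ coindH H f₀ ≫
      (resFunctor H.subtype).map (upπ B) = 0 := by
  rw [← Category.assoc, coind₁ι_coindH, Category.assoc, ← Functor.map_comp]
  have h2 : coind₁ι B ≫ upπ B = 0 := (upSC B).zero
  rw [h2, Functor.map_zero, comp_zero]

/-- The `H`-morphism `Res_H (up A) ⟶ Res_H (up B)` induced by an `H`-morphism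
`f₀ : Res_H A ⟶ Res_H B`. -/
def upH {A B : Rep.{u} k G} (f₀ : res H.subtype A ⟶ res H.subtype B) :
    res H.subtype (up A) ⟶ res H.subtype (up B) :=
  (upSCRes_shortExact H A).exact.desc (coindH H f₀ ≫ (resFunctor H.subtype).map (upπ B))
    (upH_aux H f₀)

lemma upπ_upH {A B : Rep.{u} k G} (f₀ : res H.subtype A ⟶ res H.subtype B) :
    (resFunctor H.subtype).map (upπ A) ≫ upH H f₀ =
      coindH H f₀ ≫ (resFunctor H.subtype).map (upπ B) :=
  (upSCRes_shortExact H A).exact.g_desc _ (upH_aux H f₀)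

/-- The morphism of short complexes `Res_H (upSC A) ⟶ Res_H (upSC B)` induced by an
`H`-morphism. -/
def upHSCMap {A B : Rep.{u} k G} (f₀ : res H.subtype A ⟶ res H.subtype B) :
    upSCRes H A ⟶ upSCRes H B where
  τ₁ := f₀
  τ₂ := coindH H f₀
  τ₃ := upH H f₀
  comm₁₂ := (coind₁ι_coindH H f₀).symm
  comm₂₃ := (upπ_upH H f₀).symm

/-- The connecting maps `δ_H` are natural with respect to `H`-morphisms. -/
lemma δH_naturalH {A B : Rep.{u} k G} (f₀ : res H.subtype A ⟶ res H.subtype B) (n : ℕ) :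
    δH H A n ≫ groupCohomology.map (MonoidHom.id H) f₀ (n + 1) =
      groupCohomology.map (MonoidHom.id H) (upH H f₀) n ≫ δH H B n :=
  groupCohomology.δ_naturality (upSCRes_shortExact H A) (upSCRes_shortExact H B)
    (upHSCMap H f₀) n (n + 1) rfl

/-! ### Relative norms of the induced maps -/

variable [Fintype (G ⧸ H)]

lemma normRel_coindH {A B : Rep.{u} k G} (f₀ : res H.subtype A ⟶ res H.subtype B) :
    normRel H (coindH H f₀) = coind₁Map (normRel H f₀) := by
  apply Rep.hom_ext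
  apply Representation.IntertwiningMap.ext
  apply LinearMap.ext
  intro φ
  apply Subtype.ext
  funext x
  change (∑ q : G ⧸ H, (coind₁ B).ρ q.out ((coindH H f₀).hom ((coind₁ A).ρ q.out⁻¹ φ))).1 x =
    ∑ q : G ⧸ H, conjTerm H f₀ q.out (φ.1 x)
  rw [Submodule.coe_sum, Finset.sum_apply]
  have h1 : ∀ q : G ⧸ H,
      ((coind₁ B).ρ q.out ((coindH H f₀).hom ((coind₁ A).ρ q.out⁻¹ φ))).1 x =
        conjTerm H f₀ ((x • q : G ⧸ H)).out (φ.1 x) := by
    intro q
    change conjTerm H f₀ (x * q.out) (φ.1 (x * q.out * q.out⁻¹)) = _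
    rw [mul_inv_cancel_right]
    have h2 : (x • q : G ⧸ H) = QuotientGroup.mk (x * q.out) := by
      conv_lhs => rw [← QuotientGroup.out_eq' q]
      rfl
    rw [h2, conjTerm_out]
  rw [Finset.sum_congr rfl (fun q _ => h1 q)]
  exact Fintype.sum_equiv (MulAction.toPerm x) _ _ (fun q => rfl)

lemma normRel_upH {A B : Rep.{u} k G} (f₀ : res H.subtype A ⟶ res H.subtype B) :
    normRel H (upH H f₀) = upMap (normRel H f₀) := by
  rw [← cancel_epi (upπ A), ← normRel_comp_left, upπ_upH, normRel_comp_right, normRel_coindH,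
    upπ_naturality]

/-! ### The transfer formula -/

set_option backward.isDefEq.respectTransparency false in
/-- The transfer formula in degree `0`. -/
theorem transfer_zero {A B : Rep.{u} k G} (f₀ : res H.subtype A ⟶ res H.subtype B) :
    groupCohomology.map (MonoidHom.id G) (normRel H f₀) 0 =
      resH H A 0 ≫ groupCohomology.map (MonoidHom.id H) f₀ 0 ≫ cor H 0 B := by
  have hcor : cor H 0 B = cor0 H B := rfl
  rw [hcor, cor0, ← cancel_mono (H0Iso B).hom]
  simp only [Category.assoc, Iso.inv_hom_id, Category.comp_id]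
  rw [map_id_comp_H0Iso_hom, map_id_comp_H0Iso_hom_assoc, ← Category.assoc (resH H A 0),
    resH_H0Iso, Category.assoc]
  congr 1
  apply ModuleCat.hom_ext
  apply LinearMap.ext
  intro a
  apply Subtype.ext
  change ∑ q : G ⧸ H, B.ρ q.out (f₀.hom (A.ρ q.out⁻¹ a.1)) =
    ∑ q : G ⧸ H, B.ρ q.out (f₀.hom a.1)
  refine Finset.sum_congr rfl fun q _ => ?_
  rw [a.2 q.out⁻¹]

/-- The map induced on `Hⁿ(G, -)` by a `G`-morphism (explicit implicit arguments). -/
abbrev mapG {A B : Rep.{u} k G} (f : A ⟶ B) (n : ℕ) :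
    groupCohomology A n ⟶ groupCohomology B n :=
  groupCohomology.map (MonoidHom.id G) f n

/-- The map induced on `Hⁿ(H, -)` by an `H`-morphism between restrictions. -/
abbrev mapH {A B : Rep.{u} k G} (f₀ : res H.subtype A ⟶ res H.subtype B) (n : ℕ) :
    groupCohomology (res H.subtype A) n ⟶ groupCohomology (res H.subtype B) n :=
  groupCohomology.map (MonoidHom.id H) f₀ n

lemma transfer_step (n : ℕ)
    (ih : ∀ {A B : Rep.{u} k G} (f₀ : res H.subtype A ⟶ res H.subtype B),
      mapG (normRel H f₀) n = resH H A n ≫ mapH H f₀ n ≫ cor H n B)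
    {A B : Rep.{u} k G} (f₀ : res H.subtype A ⟶ res H.subtype B) :
    mapG (normRel H f₀) (n + 1) = resH H A (n + 1) ≫ mapH H f₀ (n + 1) ≫ cor H (n + 1) B := by
  have e1 : δG A n ≫ mapG (normRel H f₀) (n + 1) = mapG (upMap (normRel H f₀)) n ≫ δG B n :=
    δG_natural (normRel H f₀) n
  have e2 : mapG (upMap (normRel H f₀)) n =
      resH H (up A) n ≫ mapH H (upH H f₀) n ≫ cor H n (up B) := by
    rw [← normRel_upH]
    exact ih (upH H f₀)
  have e3 : δH H B n ≫ cor H (n + 1) B = cor H n (up B) ≫ δG B n := δH_cor H n B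
  have e4 : δH H A n ≫ mapH H f₀ (n + 1) = mapH H (upH H f₀) n ≫ δH H B n :=
    δH_naturalH H f₀ n
  have e5 : δG A n ≫ resH H A (n + 1) = resH H (up A) n ≫ δH H A n := δG_resH H A n
  rw [← cancel_epi (δG A n), e1, e2]
  calc (resH H (up A) n ≫ mapH H (upH H f₀) n ≫ cor H n (up B)) ≫ δG B n
      = resH H (up A) n ≫ mapH H (upH H f₀) n ≫ (cor H n (up B) ≫ δG B n) := by
        simp only [Category.assoc]
    _ = resH H (up A) n ≫ (mapH H (upH H f₀) n ≫ δH H B n) ≫ cor H (n + 1) B := by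
        rw [← e3]
        simp only [Category.assoc]
    _ = (resH H (up A) n ≫ δH H A n) ≫ mapH H f₀ (n + 1) ≫ cor H (n + 1) B := by
        rw [← e4]
        simp only [Category.assoc]
    _ = δG A n ≫ resH H A (n + 1) ≫ mapH H f₀ (n + 1) ≫ cor H (n + 1) B := by
        rw [← e5]
        simp only [Category.assoc]

/-- **Transfer formula.**  For an `H`-morphism `f₀ : Res_H A ⟶ Res_H B`, the map induced on
`Hⁿ(G, -)` by the relative norm `N_{G/H} f₀` is `cor ∘ (f₀)_* ∘ res`. -/
theorem transfer (n : ℕ) : ∀ {A B : Rep.{u} k G} (f₀ : res H.subtype A ⟶ res H.subtype B),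
    groupCohomology.map (MonoidHom.id G) (normRel H f₀) n =
      resH H A n ≫ groupCohomology.map (MonoidHom.id H) f₀ n ≫ cor H n B := by
  induction n with
  | zero => exact fun f₀ => transfer_zero H f₀
  | succ n ih => exact fun f₀ => transfer_step H n ih f₀

/-- The transfer formula, elementwise. -/
theorem transfer_apply (n : ℕ) {A B : Rep.{u} k G} (f₀ : res H.subtype A ⟶ res H.subtype B)
    (x : groupCohomology A n) :
    (groupCohomology.map (MonoidHom.id G) (normRel H f₀) n).hom x =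
      (cor H n B).hom ((groupCohomology.map (MonoidHom.id H) f₀ n).hom
        ((resH H A n).hom x)) := by
  rw [transfer H n f₀]
  rfl

end

end Fermat.Agent.S55.T.H353

end
-- ===== PACK-END S55/T/T6pH353/Transfer.lean

-- ===== PACK-BEGIN S55/KL/PUnboundedH707.lean
section




/-!
# S55 / layer KL, leaf KL-A3 (`LocalPUnboundedSpec`)   (helper707)

The `p`-part of the indices `[G_{ℚ_q} : V]` of the normal local levels `V ≤ V₀` is unbounded:

`localPUnbounded p q V₀ hV₀ m : ∃ V ∈ (localLevels q).levels, V.Normal ∧ V ≤ V₀ ∧ p ^ m ∣ V.index`.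

This is the statement `KL.LocalPUnboundedSpec` of helper53's `KL/Spec.lean` with
`PUnbounded (localLevels q) p V₀ (fun V => V.index)` unfolded (so that this file only depends on
files which are on main): `fun p _ q V₀ h => localPUnbounded p q V₀ h` has that type.

Proof: `V` = pull-back of `G_E`, `E` the normal closure of `F₀ · ℚ(ζ_{p^n})`, `n ≫ 0`, and
helper414's CYC-INF (`H414.exists_forall_pow_dvd_relIndex_primeLocal`: the local degree of
`ℚ(ζ_{p^n})` at `q` is divisible by `p ^ m`).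
-/

set_option autoImplicit false
set_option linter.style.haveILetI false

namespace Fermat.Agent.S55.KL.PUnboundedH707

open Fermat.Agent.S55.PT Fermat.Agent.S55.H414 ExtCitation

/-- the index of a pulled-back level is the local degree -/
theorem index_comap_fixingSubgroup {G : Type} [Group G] (r : G →* GQ)
    (F : IntermediateField ℚ (AlgebraicClosure ℚ)) :
    (F.fixingSubgroup.comap r).index = F.fixingSubgroup.relIndex r.range :=
  Subgroup.index_comap F.fixingSubgroup r

/-- General form: along ANY homomorphism `r : G → G_ℚ` for which the degrees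
`[r(G) : r(G) ∩ G_{ℚ(ζ_{p^n})}]` are `p`-adically unbounded. -/
theorem pullback_pUnbounded {G : Type} [Group G] (r : G →* GQ) (p : ℕ) [Fact p.Prime]
    (hcyc : ∀ k : ℕ, ∃ n : ℕ, p ^ k ∣ (cycloLevel (p ^ n)).fixingSubgroup.relIndex r.range)
    (V₀ : Subgroup G) (hV₀ : V₀ ∈ (pullbackLevels r).levels) (m : ℕ) :
    ∃ V : Subgroup G, V ∈ (pullbackLevels r).levels ∧ V.Normal ∧ V ≤ V₀ ∧ p ^ m ∣ V.index := by
  obtain ⟨F₀, hF₀, rfl⟩ := hV₀
  haveI := hF₀
  obtain ⟨n, hn⟩ := hcyc m
  haveI : FiniteDimensional ℚ (cycloLevel (p ^ n)) := by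
    unfold cycloLevel
    exact IntermediateField.adjoin.finiteDimensional
      ((AlgebraicClosure.isAlgebraic ℚ).isIntegral.isIntegral _)
  -- the level of `F₀ · ℚ(ζ_{p^n})`
  have hU : (F₀ ⊔ cycloLevel (p ^ n)).fixingSubgroup.comap r ∈ (pullbackLevels r).levels :=
    ⟨F₀ ⊔ cycloLevel (p ^ n), inferInstance, rfl⟩
  obtain ⟨V, hV, hVU, hVn⟩ := pullbackLevels_normal_cofinal724 r _ hU
  refine ⟨V, hV, hVn, ?_, ?_⟩
  · exact hVU.trans (Subgroup.comap_mono (IntermediateField.fixingSubgroup_antitone le_sup_left))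
  · have h1 : ((F₀ ⊔ cycloLevel (p ^ n)).fixingSubgroup.comap r).index ∣ V.index :=
      Subgroup.index_dvd_of_le hVU
    have h2 : (cycloLevel (p ^ n)).fixingSubgroup.relIndex r.range ∣
        (F₀ ⊔ cycloLevel (p ^ n)).fixingSubgroup.relIndex r.range :=
      relIndex_fixingSubgroup_dvd_of_le le_sup_right _
    rw [index_comap_fixingSubgroup] at h1
    exact hn.trans (h2.trans h1)

/-- **KL-A3** (`LocalPUnboundedSpec`, unfolded). -/
theorem localPUnbounded (p : ℕ) [Fact p.Prime] (q : Nat.Primes) (V₀ : Subgroup (Gl q))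
    (hV₀ : V₀ ∈ (localLevels q).levels) (m : ℕ) :
    ∃ V : Subgroup (Gl q), V ∈ (localLevels q).levels ∧ V.Normal ∧ V ≤ V₀ ∧ p ^ m ∣ V.index := by
  refine pullback_pUnbounded (rl q) p ?_ V₀ hV₀ m
  intro k
  obtain ⟨n₀, hn₀⟩ := exists_forall_pow_dvd_relIndex_primeLocal p q k
  exact ⟨n₀, hn₀ n₀ le_rfl⟩

end Fermat.Agent.S55.KL.PUnboundedH707

end
-- ===== PACK-END S55/KL/PUnboundedH707.lean

-- ===== PACK-BEGIN S55/L/H355/Unram.lean
section




/-!
# S55, layer L, helper355: unramified extensions — valuations, Galois stability, Frobenius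

Setting: `L/K` fields, `A ⊆ K`, `B ⊆ L` rings of integers (complete DVRs with finite residue
fields), `π` a uniformizer of `A` whose image `ϖ` is a uniformizer of `B`.
-/

set_option autoImplicit false
set_option linter.style.haveILetI false

namespace Fermat.Agent.S55.L.H355

open Fermat.Agent.S55.L

section General

variable {L : Type} [Field L] {B : ValuationSubring L} {ϖ : L}

/-- Decomposition `y = ϖ ^ ordZ y * w` with `w` a unit. -/
theorem exists_unit_mul_zpow (hB : IsDiscreteValuationRing B) (hϖ : IsUniformizer B ϖ) (y : Lˣ) :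
    ∃ w : Lˣ, w ∈ B.unitGroup ∧
      y = (Units.mk0 ϖ (isUniformizer_ne_zero hϖ)) ^ (ordZ B ϖ y) * w := by
  set ϖu : Lˣ := Units.mk0 ϖ (isUniformizer_ne_zero hϖ) with hϖu
  refine ⟨ϖu ^ (-ordZ B ϖ y) * y, ?_, ?_⟩
  · rw [← ordZ_eq_zero_iff hB hϖ, ordZ_mul hB hϖ, ordZ_zpow hB hϖ,
      ordZ_uniformizer hB hϖ ϖu rfl]
    ring
  · rw [← mul_assoc, ← zpow_add, add_neg_cancel, zpow_zero, one_mul]

/-- Any field automorphism fixing the uniformizer preserves `ordZ`. -/
theorem ordZ_map_of_fix (hB : IsLocalRingOfIntegers B) (hϖ : IsUniformizer B ϖ)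
    (σ : L →+* L) (hσ : σ ϖ = ϖ) (y : Lˣ) :
    ordZ B ϖ (Units.map (σ : L →* L) y) = ordZ B ϖ y := by
  have hBd : IsDiscreteValuationRing B := hB.1
  obtain ⟨w, hw, hy⟩ := exists_unit_mul_zpow hBd hϖ y
  set ϖu : Lˣ := Units.mk0 ϖ (isUniformizer_ne_zero hϖ) with hϖu
  have h1 : Units.map (σ : L →* L) ϖu = ϖu := by
    apply Units.ext
    simpa [hϖu] using hσ
  have h2 : Units.map (σ : L →* L) w ∈ B.unitGroup := map_mem_unitGroup hB hBd σ hw
  have h3 : Units.map (σ : L →* L) y = ϖu ^ (ordZ B ϖ y) * Units.map (σ : L →* L) w := by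
    conv_lhs => rw [hy]
    rw [map_mul, map_zpow, h1]
  rw [h3, ordZ_mul hBd hϖ, ordZ_zpow hBd hϖ, ordZ_uniformizer hBd hϖ ϖu rfl,
    (ordZ_eq_zero_iff hBd hϖ _).2 h2]
  ring

theorem map_mem_of_fix (hB : IsLocalRingOfIntegers B) (hϖ : IsUniformizer B ϖ)
    (σ : L →+* L) (hσ : σ ϖ = ϖ) {x : L} (hx : x ∈ B) : σ x ∈ B := by
  have hBd : IsDiscreteValuationRing B := hB.1
  by_cases h0 : x = 0
  · rw [h0, map_zero]; exact B.zero_mem
  have h1 := (ordZ_nonneg_iff hBd hϖ (Units.mk0 x h0)).2 hx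
  rw [← ordZ_map_of_fix hB hϖ σ hσ] at h1
  exact (ordZ_nonneg_iff hBd hϖ _).1 h1

theorem map_val_lt_one_of_fix (hB : IsLocalRingOfIntegers B) (hϖ : IsUniformizer B ϖ)
    (σ : L →+* L) (hσ : σ ϖ = ϖ) {x : L} (hx : B.valuation x < 1) : B.valuation (σ x) < 1 := by
  have hBd : IsDiscreteValuationRing B := hB.1
  by_cases h0 : x = 0
  · rw [h0, map_zero, map_zero]; exact zero_lt_one
  have h1 := (ordZ_pos_iff hBd hϖ (Units.mk0 x h0)).2 ((B.mem_nonunits_iff).2 hx)
  rw [← ordZ_map_of_fix hB hϖ σ hσ] at h1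
  exact (B.mem_nonunits_iff).1 ((ordZ_pos_iff hBd hϖ _).1 h1)

/-- Iterating a Frobenius congruence. -/
theorem frob_iterate (hB : IsLocalRingOfIntegers B) (hϖ : IsUniformizer B ϖ)
    (φ : L →+* L) (hφϖ : φ ϖ = ϖ) (q : ℕ)
    (hφ : ∀ x ∈ B, B.valuation (φ x - x ^ q) < 1) (i : ℕ) :
    ∀ x ∈ B, B.valuation ((φ ^ i) x - x ^ (q ^ i)) < 1 := by
  induction i with
  | zero =>
    intro x _
    simp
  | succ i ih =>
    intro x hx
    have e : (φ ^ (i + 1)) x - x ^ (q ^ (i + 1)) =
        φ ((φ ^ i) x - x ^ (q ^ i)) + (φ (x ^ (q ^ i)) - (x ^ (q ^ i)) ^ q) := by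
      rw [pow_succ', RingHom.mul_def, RingHom.comp_apply, map_sub, ← pow_mul, ← pow_succ]
      ring
    rw [e]
    exact Valuation.map_add_lt _ (map_val_lt_one_of_fix hB hϖ φ hφϖ (ih x hx))
      (hφ _ (B.pow_mem hx _))

end General

section Unram

variable {K L : Type} [Field K] [Field L] [Algebra K L]
  {A : ValuationSubring K} {B : ValuationSubring L} {π : K}
  (hA : IsLocalRingOfIntegers A) (hB : IsLocalRingOfIntegers B)
  (hπ : IsUniformizer A π) (hπB : IsUniformizer B (algebraMap K L π))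

include hA hB hπ hπB in
/-- In an unramified extension, `ord_B` restricts to `ord_A`. -/
theorem ordZ_algebraMap (x : Kˣ) :
    ordZ B (algebraMap K L π) (Units.map (algebraMap K L : K →* L) x) = ordZ A π x := by
  have hAd : IsDiscreteValuationRing A := hA.1
  have hBd : IsDiscreteValuationRing B := hB.1
  obtain ⟨u, hu, hx⟩ := exists_unit_mul_zpow hAd hπ x
  set πu : Kˣ := Units.mk0 π (isUniformizer_ne_zero hπ) with hπu
  have h1 : ordZ B (algebraMap K L π) (Units.map (algebraMap K L : K →* L) πu) = 1 :=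
    ordZ_uniformizer hBd hπB _ rfl
  have h2 : Units.map (algebraMap K L : K →* L) u ∈ B.unitGroup :=
    map_mem_unitGroup hA hBd (algebraMap K L) hu
  conv_lhs => rw [hx]
  rw [map_mul, map_zpow, ordZ_mul hBd hπB, ordZ_zpow hBd hπB, h1,
    (ordZ_eq_zero_iff hBd hπB _).2 h2]
  ring

include hA hB hπ hπB in
/-- `|k_B| = |k_A| ^ [L : K]` for an unramified extension. -/
theorem card_residue_unram :
    Nat.card (IsLocalRing.ResidueField B) =
      Nat.card (IsLocalRing.ResidueField A) ^ Module.finrank K L := by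
  have := card_residue_pow_eq hA hB hπ hπB (e := 1) (by rw [pow_one]) one_pos
  rwa [pow_one] at this

end Unram

end Fermat.Agent.S55.L.H355

end
-- ===== PACK-END S55/L/H355/Unram.lean

-- ===== PACK-BEGIN S55/G/Rec/Loc/H483/NormInt.lean
section



/-!
# S55 / G / REC / LOC : norm versus integrality in `ℚ̄_q`   (helper483)

`normIntegral : NormIntegralSpec` — `‖x‖ ≤ 1 ↔ x` integral over `ℤ_q`, for `x : PadicAlgCl q`
(the norm of `PadicAlgCl q` is the spectral norm, so this is `spectralValue_le_one_iff` for the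
minimal polynomial), and consequences for intermediate fields.
-/

set_option autoImplicit false

noncomputable section

namespace Fermat.Agent.S55.G.Rec.Loc.H483

open Fermat.Agent.S55.G.Rec Fermat.Agent.S55.G.Rec.Loc Fermat.Agent.S55.Local Polynomial

section

variable (q : ℕ) [Fact q.Prime]

lemma toL_padic_eq :
    toL ℤ_[q] ℚ_[q] (PadicAlgCl q) = algebraMap ℤ_[q] (PadicAlgCl q) := by
  ext a
  exact (IsScalarTower.algebraMap_apply ℤ_[q] ℚ_[q] (PadicAlgCl q) a).symm

lemma isInt_padic_iff (x : PadicAlgCl q) :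
    IsInt ℤ_[q] ℚ_[q] (PadicAlgCl q) x ↔ IsIntegral ℤ_[q] x := by
  unfold IsInt IsIntegral
  rw [toL_padic_eq]

theorem norm_le_one_iff_isIntegral (x : PadicAlgCl q) : ‖x‖ ≤ 1 ↔ IsIntegral ℤ_[q] x := by
  have hint : IsIntegral ℚ_[q] x := Algebra.IsIntegral.isIntegral x
  rw [← PadicAlgCl.spectralNorm_eq, spectralNorm, spectralValue_le_one_iff (minpoly.monic hint)]
  constructor
  · intro h
    have hl : minpoly ℚ_[q] x ∈ Polynomial.lifts (algebraMap ℤ_[q] ℚ_[q]) := by
      rw [Polynomial.lifts_iff_coeff_lifts]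
      intro n
      exact ⟨⟨(minpoly ℚ_[q] x).coeff n, h n⟩, rfl⟩
    obtain ⟨p, hp, -, hmonic⟩ :=
      Polynomial.lifts_and_degree_eq_and_monic hl (minpoly.monic hint)
    refine ⟨p, hmonic, ?_⟩
    have h1 : Polynomial.eval₂ (algebraMap ℤ_[q] (PadicAlgCl q)) x p =
        Polynomial.eval₂ (algebraMap ℚ_[q] (PadicAlgCl q)) x
          (p.map (algebraMap ℤ_[q] ℚ_[q])) := by
      rw [Polynomial.eval₂_map, IsScalarTower.algebraMap_eq ℤ_[q] ℚ_[q] (PadicAlgCl q)]
    rw [h1, hp]
    exact minpoly.aeval ℚ_[q] x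
  · intro hx n
    rw [minpoly.isIntegrallyClosed_eq_field_fractions' ℚ_[q] hx, Polynomial.coeff_map]
    exact PadicInt.norm_le_one _

/-- **LOC-INERT1** -/
theorem normIntegral : NormIntegralSpec := by
  intro q _ x
  rw [isInt_padic_iff]
  exact norm_le_one_iff_isIntegral q x

end

end Fermat.Agent.S55.G.Rec.Loc.H483

end
end
-- ===== PACK-END S55/G/Rec/Loc/H483/NormInt.lean

-- ===== PACK-BEGIN S55/Local/H483/UR6.lean
section




/-!
# S55, layer L, pieces UR6 / UR6' : `InertiaStatement`, `InertiaCardStatement`   (helper483)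

* `inertiaCard483 : InertiaCardStatement` (UR6' of `Spec2.lean`),
* `inertia483 : InertiaStatement` (UR6 of `Spec.lean`).

The inertia subgroup `I` of `Gal(N/K)` is the Mathlib inertia group of the maximal ideal of the
ring of integers of `N` (see `Abs.lean`, `Rel.lean`); it is described intrinsically by
`σ ∈ I ↔ ∀ x integral, σ x - x ∈ 𝔪_N` and has order `e(N/K)`.  For an intermediate field `E`
the inertia subgroup of `N / E` is `Gal(N/E) ⊓ I` (same intrinsic description), whence
`e(N/E) = |Gal(N/E) ⊓ I|` and, by multiplicativity of `e`, `e(E/K) = |I| / |Gal(N/E) ⊓ I|`.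
-/

set_option autoImplicit false
set_option linter.unusedSectionVars false
set_option linter.style.haveILetI false

namespace Fermat.Agent.S55.Local.H483

open Fermat.Agent.S55.Local

section Unram

variable (A F : Type) [CommRing A] [Field F] [Algebra A F]
  (K : Type) [Field K] [Algebra F K]
  (L : Type) [Field L] [Algebra F L] [Algebra K L] [IsScalarTower F K L]

/-- Given uniformizers with `ϖK = unit * ϖL ^ e`, `L / K` is unramified iff `e = 1`. -/
lemma isUnram_iff_of_unif {ϖK : Kˣ} {ϖL : Lˣ} (hK : IsUnif A F K ϖK) (hL : IsUnif A F L ϖL)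
    {e : ℕ} (he : unitsIncl L K ϖK * ϖL ^ (-(e : ℤ)) ∈ intUnits A F L) :
    IsUnram A F L K ↔ e = 1 := by
  constructor
  · intro h
    obtain ⟨y, hy⟩ := h ϖL
    obtain ⟨m, hm⟩ := hK.2.2 y
    have hm' : unitsIncl L K (y * ϖK ^ (-m)) ∈ intUnits A F L :=
      (H724.unitsIncl_mem_intUnits_iff724 A F K L _).2 hm
    have key : ϖL ^ (1 - (e : ℤ) * m) ∈ intUnits A F L := by
      have := (intUnits A F L).mul_mem ((intUnits A F L).mul_mem hy hm')
        ((intUnits A F L).zpow_mem he m)
      have heq : ϖL * (unitsIncl L K y)⁻¹ * unitsIncl L K (y * ϖK ^ (-m)) *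
          (unitsIncl L K ϖK * ϖL ^ (-(e : ℤ))) ^ m = ϖL ^ (1 - (e : ℤ) * m) := by
        rw [map_mul, map_zpow]
        apply Additive.ofMul.injective
        simp only [ofMul_mul, ofMul_zpow, ofMul_inv]
        module
      rwa [heq] at this
    have h0 := H724.zpow_mem_intUnits724 A F L hL.1 hL.2.1 key
    have h1 : (e : ℤ) * m = 1 := by linarith
    have h2 : (e : ℤ) = 1 := by
      rcases Int.eq_one_or_neg_one_of_mul_eq_one h1 with h | h
      · exact h
      · have : (0 : ℤ) ≤ e := Int.natCast_nonneg e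
        omega
    exact_mod_cast h2
  · rintro rfl
    intro x
    obtain ⟨n, hn⟩ := hL.2.2 x
    refine ⟨ϖK ^ n, ?_⟩
    have := (intUnits A F L).mul_mem hn ((intUnits A F L).zpow_mem he (-n))
    have heq : x * ϖL ^ (-n) * (unitsIncl L K ϖK * ϖL ^ (-((1 : ℕ) : ℤ))) ^ (-n) =
        x * (unitsIncl L K (ϖK ^ n))⁻¹ := by
      rw [map_zpow]
      apply Additive.ofMul.injective
      simp only [ofMul_mul, ofMul_zpow, ofMul_inv]
      push_cast
      module
    rwa [heq] at this

end Unram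

section Tower

variable (A F : Type) [CommRing A] [IsDomain A] [IsDiscreteValuationRing A]
  [IsAdicComplete (IsLocalRing.maximalIdeal A) A] [Finite (IsLocalRing.ResidueField A)]
  [Field F] [CharZero F] [Algebra A F] [IsFractionRing A F]
  (K : Type) [Field K] [Algebra F K] [FiniteDimensional F K]
  (N : Type) [Field N] [Algebra F N] [Algebra K N] [IsScalarTower F K N]
  [FiniteDimensional K N] [IsGalois K N]
  (E : Type) [Field E] [Algebra F E] [Algebra K E] [Algebra E N]
  [IsScalarTower F K E] [IsScalarTower F E N] [IsScalarTower K E N]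

/-- The tower argument, for an abstract intermediate field `K ⊆ E ⊆ N` and a subgroup `H`
which is the fixing subgroup of `E`. -/
theorem tower_inertia (I : Subgroup (N ≃ₐ[K] N))
    (hmem : ∀ σ, σ ∈ I ↔ ∀ x : N, IsInt A F N x → InMax A F N (σ x - x))
    (hcard : ∀ (ϖK : Kˣ) (ϖN : Nˣ), IsUnif A F K ϖK → IsUnif A F N ϖN →
      unitsIncl N K ϖK * ϖN ^ (-(Nat.card I : ℤ)) ∈ intUnits A F N)
    (H : Subgroup (N ≃ₐ[K] N))
    (hH : ∀ σ : N ≃ₐ[K] N, σ ∈ H ↔ ∀ x : E, σ (algebraMap E N x) = algebraMap E N x) :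
    (IsUnram A F N E ↔ H ⊓ I = ⊥) ∧ (IsUnram A F E K ↔ I ≤ H) := by
  haveI : FiniteDimensional F N := FiniteDimensional.trans F K N
  haveI : FiniteDimensional F E := FiniteDimensional.left F E N
  haveI : FiniteDimensional K E := FiniteDimensional.left K E N
  haveI : FiniteDimensional E N := FiniteDimensional.right K E N
  haveI : IsGalois E N := IsGalois.tower_top_of_isGalois K E N
  obtain ⟨IE, -, hmemE, hcardE⟩ := exists_inertia A F E N
  obtain ⟨ϖK, hϖK⟩ := H608.exists_isUnif A F K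
  obtain ⟨ϖE, hϖE⟩ := H608.exists_isUnif A F E
  obtain ⟨ϖN, hϖN⟩ := H608.exists_isUnif A F N
  -- the inertia subgroup of `N / E` is `H ⊓ I`
  have hcardEq : Nat.card IE = Nat.card ↥(H ⊓ I) := by
    have hmap : ∀ σ : N ≃ₐ[E] N, σ ∈ IE → AlgEquiv.restrictScalars K σ ∈ H ⊓ I := by
      intro σ hσ
      refine ⟨(hH _).2 (fun x => ?_), (hmem _).2 (fun x hx => ?_)⟩
      · exact σ.commutes x
      · exact (hmemE σ).1 hσ x hx
    refine Nat.card_eq_of_bijective
      (fun σ : IE => (⟨AlgEquiv.restrictScalars K σ.1, hmap σ.1 σ.2⟩ : ↥(H ⊓ I))) ⟨?_, ?_⟩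
    · intro σ τ hστ
      have h1 : AlgEquiv.restrictScalars K σ.1 = AlgEquiv.restrictScalars K τ.1 :=
        congrArg Subtype.val hστ
      exact Subtype.ext (AlgEquiv.restrictScalars_injective K h1)
    · rintro ⟨τ, hτH, hτI⟩
      have hτE : ∀ x : E, τ (algebraMap E N x) = algebraMap E N x := (hH τ).1 hτH
      let σ : N ≃ₐ[E] N := AlgEquiv.ofRingEquiv (f := τ.toRingEquiv) hτE
      have hσ : σ ∈ IE := (hmemE σ).2 (fun x hx => (hmem τ).1 hτI x hx)
      refine ⟨⟨σ, hσ⟩, Subtype.ext ?_⟩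
      ext x
      rfl
  -- `e(E/K)` and multiplicativity
  obtain ⟨e', f', -, he', -⟩ := H724.ramification_core724 A F K E ϖK ϖE hϖK hϖE
  have hcK := hcard ϖK ϖN hϖK hϖN
  have hcE := hcardE ϖE ϖN hϖE hϖN
  have hmul : (Nat.card I : ℤ) = e' * Nat.card IE := by
    have he'' : unitsIncl N E (unitsIncl E K ϖK * ϖE ^ (-(e' : ℤ))) ∈ intUnits A F N :=
      (H724.unitsIncl_mem_intUnits_iff724 A F E N _).2 he'
    have hincl : unitsIncl N E (unitsIncl E K ϖK) = unitsIncl N K ϖK := by
      ext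
      simp only [unitsIncl_coe]
      exact (IsScalarTower.algebraMap_apply K E N _).symm
    rw [map_mul, map_zpow, hincl] at he''
    have key : ϖN ^ ((e' : ℤ) * Nat.card IE - Nat.card I) ∈ intUnits A F N := by
      have := (intUnits A F N).mul_mem
        ((intUnits A F N).mul_mem hcK ((intUnits A F N).inv_mem he''))
        ((intUnits A F N).zpow_mem hcE (-(e' : ℤ)))
      have heq : unitsIncl N K ϖK * ϖN ^ (-(Nat.card I : ℤ)) *
          (unitsIncl N K ϖK * unitsIncl N E ϖE ^ (-(e' : ℤ)))⁻¹ *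
          (unitsIncl N E ϖE * ϖN ^ (-(Nat.card IE : ℤ))) ^ (-(e' : ℤ)) =
          ϖN ^ ((e' : ℤ) * Nat.card IE - Nat.card I) := by
        apply Additive.ofMul.injective
        simp only [ofMul_mul, ofMul_zpow, ofMul_inv]
        module
      rwa [heq] at this
    have h0 := H724.zpow_mem_intUnits724 A F N hϖN.1 hϖN.2.1 key
    linarith
  have hmulN : Nat.card I = e' * Nat.card ↥(H ⊓ I) := by
    rw [← hcardEq]
    exact_mod_cast hmul
  have hpos : 0 < Nat.card ↥(H ⊓ I) := Nat.card_pos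
  have hposI : 0 < Nat.card I := Nat.card_pos
  constructor
  · rw [isUnram_iff_of_unif A F E N hϖE hϖN hcE, hcardEq]
    exact Subgroup.card_eq_one
  · rw [isUnram_iff_of_unif A F K E hϖK hϖE he']
    constructor
    · intro h1
      have hc : Nat.card I = Nat.card ↥(H ⊓ I) := by rw [hmulN, h1, one_mul]
      have heq : H ⊓ I = I := Subgroup.eq_of_le_of_card_ge inf_le_right hc.le
      rw [← heq]
      exact inf_le_left
    · intro hle
      have heq : H ⊓ I = I := inf_eq_right.2 hle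
      rw [heq] at hmulN
      have : e' * Nat.card I = 1 * Nat.card I := by rw [one_mul]; exact hmulN.symm
      exact Nat.eq_of_mul_eq_mul_right hposI this

end Tower

section Final

/-- **UR6'** (`InertiaCardStatement` of `Spec2.lean`): inertia subgroup with the unramified
sub-extension property and of order the ramification index. -/
theorem inertiaCard483 : InertiaCardStatement := by
  intro A F _ _ _ _ _ _ _ _ _ K _ _ _ N _ _ _ _ _ _
  obtain ⟨I, hI, hmem, hcard⟩ := exists_inertia A F K N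
  refine ⟨I, hI, ?_, hcard⟩
  intro E
  letI algFE : Algebra F E := ((algebraMap K E).comp (algebraMap F K)).toAlgebra
  haveI : @IsScalarTower F K E _ _ (@Algebra.toSMul F E _ _ algFE) :=
    IsScalarTower.of_algebraMap_eq (fun _ => rfl)
  haveI : @IsScalarTower F E N (@Algebra.toSMul F E _ _ algFE) _ _ :=
    IsScalarTower.of_algebraMap_eq (fun x => by
      show algebraMap F N x = algebraMap E N (algebraMap K E (algebraMap F K x))
      rw [← IsScalarTower.algebraMap_apply K E N, ← IsScalarTower.algebraMap_apply F K N])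
  exact tower_inertia A F K N E I hmem hcard E.fixingSubgroup (fun σ => by
    rw [IntermediateField.mem_fixingSubgroup_iff]
    exact ⟨fun h x => h x.1 x.2, fun h x hx => h ⟨x, hx⟩⟩)

/-- **UR6** (`InertiaStatement` of `Spec.lean`). -/
theorem inertia483 : InertiaStatement :=
  inertiaStatement_of_inertiaCard inertiaCard483

end Final

end Fermat.Agent.S55.Local.H483

end
-- ===== PACK-END S55/Local/H483/UR6.lean

-- ===== PACK-BEGIN S55/L/Unram784/Inst.lean
section



/-!
# S55, layer L, leaf L-A2 (helper784): from valuation subrings to the AKLB setting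

For unramified data `(A, B, π)` (`IsUnramifiedExt`) we build the local algebra structure
`A → B` and verify the hypotheses of the ring-level theory.
-/

set_option autoImplicit false
set_option linter.unusedSectionVars false

namespace Fermat.Agent.S55.L

open IsLocalRing Polynomial

section Inst

variable {K L : Type} [Field K] [Field L] [Algebra K L] (A : ValuationSubring K)
  (B : ValuationSubring L)

/-- The inclusion `A → B` induced by `K → L`. -/
def u784_incl (hAB : ∀ x : K, x ∈ A → algebraMap K L x ∈ B) : ↥A →+* ↥B where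
  toFun x := ⟨algebraMap K L x, hAB x x.2⟩
  map_one' := Subtype.ext (by simp)
  map_mul' x y := Subtype.ext (by simp)
  map_zero' := Subtype.ext (by simp)
  map_add' x y := Subtype.ext (by simp)

@[simp]
theorem u784_incl_coe (hAB : ∀ x : K, x ∈ A → algebraMap K L x ∈ B) (x : A) :
    ((u784_incl A B hAB x : B) : L) = algebraMap K L (x : K) := rfl

variable {A B}

/-- Master theorem for unramified data `(A, B, π)`. -/
theorem u784_master [CharZero K] (hA : IsLocalRingOfIntegers A) (hB : IsLocalRingOfIntegers B)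
    (π : K) (hπA : IsUniformizer A π) (hπB : IsUniformizer B (algebraMap K L π)) :
    FiniteDimensional K L ∧ IsGalois K L ∧
    (∃ g : (↥A)[X], g.Monic ∧ Irreducible (g.map (residue ↥A)) ∧
      g.natDegree = Module.finrank K L) ∧
    (∀ g : (↥A)[X], g.Monic → Irreducible (g.map (residue ↥A)) →
      g.natDegree = Module.finrank K L →
        ((g.map (algebraMap ↥A K)).map (algebraMap K L)).Splits) ∧
    (∃ φ : L ≃ₐ[K] L, (∀ x ∈ B, φ x - x ^ Nat.card (ResidueField ↥A) ∈ B.nonunits) ∧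
      ∀ σ : L ≃ₐ[K] L, σ ∈ Subgroup.zpowers φ) := by
  have hAB : ∀ x : K, x ∈ A → algebraMap K L x ∈ B :=
    fun x hx => u784_algebraMap_mem hA hB π hπA hπB hx
  obtain ⟨hdvrA, hcA, hfA⟩ := id hA
  obtain ⟨hdvrB, hcB, hfB⟩ := id hB
  let _ : Algebra ↥A ↥B := (u784_incl A B hAB).toAlgebra
  have halg : ∀ x : A, ((algebraMap ↥A ↥B x : B) : L) = algebraMap K L (x : K) := fun _ => rfl
  have : IsScalarTower ↥A ↥B L := IsScalarTower.of_algebraMap_eq (fun x => rfl)
  have : IsLocalHom (algebraMap ↥A ↥B) := by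
    refine ⟨fun a ha => ?_⟩
    rw [A.valuation_eq_one_iff]
    rcases A.valuation_lt_one_or_eq_one a with h1 | h1
    · exfalso
      have h2 : algebraMap K L (a : K) ∈ B.nonunits :=
        u784_algebraMap_mem_nonunits hA hB π hπA hπB (A.mem_nonunits_iff.mpr h1)
      have h3 := (B.valuation_eq_one_iff _).mp ha
      rw [halg] at h3
      exact (B.mem_nonunits_iff.mp h2).ne h3
    · exact h1
  have hunr : (maximalIdeal ↥A).map (algebraMap ↥A ↥B) = maximalIdeal ↥B := by
    obtain ⟨hπ, hirr⟩ := hπA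
    obtain ⟨hπ', hirr'⟩ := hπB
    rw [(IsDiscreteValuationRing.irreducible_iff_uniformizer _).mp hirr,
      (IsDiscreteValuationRing.irreducible_iff_uniformizer _).mp hirr', Ideal.map_span,
      Set.image_singleton]
    rfl
  obtain ⟨g₀, hg₀, hirr₀, hdeg₀⟩ := u784_exists_poly (R := ↥A) (S := ↥B)
  obtain ⟨β₀, hβ₀⟩ := u784_exists_root g₀ hg₀ hirr₀ hdeg₀
  have hfin : Module.finrank K L = g₀.natDegree :=
    u784_finrank_eq hunr g₀ hg₀ hirr₀ hdeg₀ β₀ hβ₀
  refine ⟨u784_finiteDimensional hunr g₀ hg₀ hirr₀ hdeg₀ β₀ hβ₀,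
    u784_isGalois hunr g₀ hg₀ hirr₀ hdeg₀ β₀ hβ₀, ⟨g₀, hg₀, hirr₀, hfin.symm⟩, ?_, ?_⟩
  · intro g hg hirr hdeg
    exact u784_splits g hg hirr (hdeg.trans (hfin.trans hdeg₀))
  · obtain ⟨φ, hφ1, hφ2⟩ := u784_exists_frobenius (K := K) (L := L) hunr g₀ hg₀ hirr₀ hdeg₀ β₀ hβ₀
    refine ⟨φ, fun x hx => ?_, hφ2⟩
    obtain ⟨y, hy1, hy2⟩ := hφ1 ⟨x, hx⟩
    replace hy1 : ((y : B) : L) = φ x := hy1
    rw [ValuationSubring.mem_nonunits_iff_exists_mem_maximalIdeal]
    have hmem : φ x - x ^ Nat.card (ResidueField ↥A) ∈ B := by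
      have : φ x - x ^ Nat.card (ResidueField ↥A) =
          ((y - ⟨x, hx⟩ ^ Nat.card (ResidueField ↥A) : B) : L) := by
        rw [← hy1]
        rfl
      rw [this]
      exact Subtype.coe_prop _
    refine ⟨hmem, ?_⟩
    have heq : (⟨φ x - x ^ Nat.card (ResidueField ↥A), hmem⟩ : B) =
        y - ⟨x, hx⟩ ^ Nat.card (ResidueField ↥A) := by
      apply Subtype.ext
      change φ x - x ^ Nat.card (ResidueField ↥A) = (y : L) - x ^ Nat.card (ResidueField ↥A)
      rw [hy1]
    rw [heq]
    exact hy2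

end Inst

end Fermat.Agent.S55.L

end
-- ===== PACK-END S55/L/Unram784/Inst.lean

-- ===== PACK-BEGIN S56/H716/SBSpec.lean
section


/-!
# Row S56 — SELBOUND, layer 2: FROZEN statements (deputy helper716)

`SELBOUND(cond)  ⇐  LOC(cond) + GW-WALL`,     `LOC(cond)  ⇐  LOC-MIN + LOC-P(cond)`
(glue: `H716/SBGlue.lean`, proved).

`M = ad⁰ρ̄`, `D_P` = decomposition group of the place `P`, `h⁰(D_P) = dim H⁰(D_P, M)`.

## Local leaves (elementary; one place at a time)

`LocalBoundAt ρbar P Ty d`: there is a `k`-space `Λ` of functions, `dim Λ ≤ h⁰(D_P) + d`, such that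
every ad⁰-cocycle `c` having a lift of local type `Ty` is, on `D_P`, cohomologous to an element of `Λ`.

* `LocMinStatement`   (LOC-MIN): `v ∈ Smin`, `v ≠ p`, type "unipotent on inertia at `v`": `d = 0`.
  (`ρ̄` is ramified at `v`, inertia image cyclic ⇒ class trivial on inertia ⇒ `H¹_ur`, `dim = h⁰`.)
* `LocOrdPStatement`  (LOC-SO): at `p`, type "strictly ordinary, det cyclotomic": `d = 1`.
  (quotient character rigid since `z² = 1`; classes come from `H¹(D_P, k(1))`, Kummer `dim = 2`.)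
* `LocFlatPStatement` (LOC-FLAT): at `p`, type "flat, det cyclotomic": `d = 1`.
  (ordinary case: connected–étale sequence; supersingular case: Fontaine's different bound.)

## The wall

* `GWWallStatement` (GW-WALL = Greenberg–Wiles/Poitou–Tate inequality, pure Galois cohomology of
  `M` and `M' = M(1)`; no deformation theory): for a suitable choice `Pl` of places over `Smin`,
  whenever spaces `Λ v` (`v ∈ Smin`) with `dim Λ v ≤ h⁰(D_{Pl v}) + δ v`, `∑ δ v ≤ 1` are given,
  there is a dual Selmer frame `D` such that for every set `Q` of Taylor–Wiles primes killing `D`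
  the Selmer cocycles of `(Λ, Q)` span, modulo coboundaries, a space of dimension `≤ #Q`.
  (Wiles' formula: `h¹_L(M) − h¹_{L^⊥}(M') = h⁰(M) − h⁰(M') + ∑_v (dim L_v − h⁰(D_v, M))`, with
  `h⁰(G_ℚ, M) = h⁰(G_ℚ, M') = 0`, the term `−1` at `∞` (`ρ̄` odd), `+1` at every `q ∈ Q`, `≤ δ v` at
  `v ∈ Smin`, `0` elsewhere; `D` = cocycle representatives of `H¹_{L^⊥}(G_ℚ, M')`.)

Nothing unproved in this file.  Plan: `coord/S56-TB.md` on `origin/main`.
-/

set_option autoImplicit false

open Polynomial IsLocalRing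

noncomputable section

namespace Fermat.Agent.S56.H716

open Fermat.Agent.S56

section

variable {k : Type} [Field k] (ρbar : ResidualGaloisRep k)

/-- The numerical hypotheses on the local spaces `Λ v`, `v ∈ Smin`:
`dim Λ v ≤ h⁰(D_{Pl v}, ad⁰ρ̄) + δ v` and `∑_{v ∈ Smin} δ v ≤ 1`. -/
def LocBounds (Pl : ℕ → ValuationSubring Qb)
    (Λ : ℕ → Submodule k (GQ → Module.End k ρbar.V)) (δ : ℕ → ℕ) (Smin : Finset ℕ) : Prop :=
  (∀ v ∈ Smin, Module.Finite k (Λ v) ∧
    Module.finrank k (Λ v) ≤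
      Module.finrank k (adInv ρbar ((Pl v).decompositionSubgroup ℚ)) + δ v) ∧
  ∑ v ∈ Smin, δ v ≤ 1

/-- Local tangent bound at the place `P` for the local lifting type `Ty`, with defect `d`. -/
def LocalBoundAt (P : ValuationSubring Qb) (Ty : GaloisRepAdic (DualNumber k) → Prop)
    (d : ℕ) : Prop :=
  ∃ Λ : Submodule k (GQ → Module.End k ρbar.V), Module.Finite k Λ ∧
    Module.finrank k Λ ≤ Module.finrank k (adInv ρbar (P.decompositionSubgroup ℚ)) + d ∧
    ∀ c : GQ → Module.End k ρbar.V, IsAdCocycle ρbar c →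
      (∃ ρ' : GaloisRepAdic (DualNumber k), IsLiftOf ρbar c ρ' ∧ Ty ρ') →
      ∃ t ∈ Λ, IsAdCoboundaryOn ρbar (P.decompositionSubgroup ℚ) (c - t)

end

section

variable (𝒪 : Type) [CommRing 𝒪] [IsDomain 𝒪] [IsDiscreteValuationRing 𝒪]
  [IsAdicComplete (maximalIdeal 𝒪) 𝒪]
  (p : ℕ) (ρbar : ResidualGaloisRep (ResidueField 𝒪)) (S Smin : Finset ℕ)

/-- (LOC) for a family of conditions indexed by the auxiliary set `Q`: for every choice of places
over `Smin` there are local spaces with the right dimensions which capture the tangent cocycles. -/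
def Loc (cond : Finset ℕ → DefCond 𝒪) : Prop :=
  ∀ Pl : ℕ → ValuationSubring Qb, (∀ v ∈ Smin, (Pl v).LiesOverPrime v) →
    ∃ (Λ : ℕ → Submodule (ResidueField 𝒪) (GQ → Module.End (ResidueField 𝒪) ρbar.V))
      (δ : ℕ → ℕ), LocBounds ρbar Pl Λ δ Smin ∧
      ∀ Q : Finset ℕ, (∀ q ∈ Q, IsTWPrime ρbar p S q) →
        ∀ c, IsTanCocycle 𝒪 ρbar (cond Q) c → IsSelCocycle ρbar Pl Λ Smin Q c

/-- (GW-WALL) for one residual representation. -/
def GWWall : Prop :=
  ∃ Pl : ℕ → ValuationSubring Qb, (∀ v ∈ Smin, (Pl v).LiesOverPrime v) ∧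
    ∀ (Λ : ℕ → Submodule (ResidueField 𝒪) (GQ → Module.End (ResidueField 𝒪) ρbar.V))
      (δ : ℕ → ℕ), LocBounds ρbar Pl Λ δ Smin →
      ∃ D : Submodule (ResidueField 𝒪) (GQ → Module.End (ResidueField 𝒪) ρbar.V),
        IsDualFrame ρbar p D ∧
        ∀ Q : Finset ℕ, (∀ q ∈ Q, IsTWPrime ρbar p S q) → Kills ρbar p D Q →
          ∃ T : Submodule (ResidueField 𝒪) (GQ → Module.End (ResidueField 𝒪) ρbar.V),
            Module.Finite (ResidueField 𝒪) T ∧
            Module.finrank (ResidueField 𝒪) T ≤ Q.card ∧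
            ∀ c, IsSelCocycle ρbar Pl Λ Smin Q c → ∃ t ∈ T, IsAdCoboundary ρbar (c - t)

end

/-- (LOC-ord). -/
def LocOrdStatement : Prop :=
  ∀ (𝒪 : Type) [CommRing 𝒪] [IsDomain 𝒪] [IsDiscreteValuationRing 𝒪]
    [IsAdicComplete (maximalIdeal 𝒪) 𝒪] [Finite (ResidueField 𝒪)]
    (p : ℕ) (ρbar : ResidualGaloisRep (ResidueField 𝒪)) (S Smin : Finset ℕ),
    Hyp 𝒪 p ρbar S Smin → Loc 𝒪 p ρbar S Smin (ordCond 𝒪 p Smin)

/-- (LOC-flat). -/
def LocFlatStatement : Prop :=
  ∀ (𝒪 : Type) [CommRing 𝒪] [IsDomain 𝒪] [IsDiscreteValuationRing 𝒪]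
    [IsAdicComplete (maximalIdeal 𝒪) 𝒪] [Finite (ResidueField 𝒪)]
    (p : ℕ) (ρbar : ResidualGaloisRep (ResidueField 𝒪)) (S Smin : Finset ℕ),
    Hyp 𝒪 p ρbar S Smin → Loc 𝒪 p ρbar S Smin (flatCond 𝒪 p Smin)

/-- (GW-WALL): the Greenberg–Wiles inequality for `ad⁰ρ̄`. -/
def GWWallStatement : Prop :=
  ∀ (𝒪 : Type) [CommRing 𝒪] [IsDomain 𝒪] [IsDiscreteValuationRing 𝒪]
    [IsAdicComplete (maximalIdeal 𝒪) 𝒪] [Finite (ResidueField 𝒪)]
    (p : ℕ) (ρbar : ResidualGaloisRep (ResidueField 𝒪)) (S Smin : Finset ℕ),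
    Hyp 𝒪 p ρbar S Smin → GWWall 𝒪 p ρbar S Smin

/-- (LOC-MIN): at `v ∈ Smin`, `v ≠ p`, unipotent-on-inertia lifts have classes in a space of
dimension `≤ h⁰(D_P, ad⁰ρ̄)`. -/
def LocMinStatement : Prop :=
  ∀ (𝒪 : Type) [CommRing 𝒪] [IsDomain 𝒪] [IsDiscreteValuationRing 𝒪]
    [IsAdicComplete (maximalIdeal 𝒪) 𝒪] [Finite (ResidueField 𝒪)]
    (p : ℕ) (ρbar : ResidualGaloisRep (ResidueField 𝒪)) (S Smin : Finset ℕ),
    Hyp 𝒪 p ρbar S Smin → ∀ v ∈ Smin, v ≠ p →
      ∀ P : ValuationSubring Qb, P.LiesOverPrime v →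
        LocalBoundAt ρbar P (fun ρ' => ρ'.DetIsCyclotomic p ∧ ρ'.IsUnipotentOnInertiaAt v) 0

/-- (LOC-SO): at `p`, strictly ordinary lifts with cyclotomic determinant have classes in a space
of dimension `≤ h⁰(D_P, ad⁰ρ̄) + 1`. -/
def LocOrdPStatement : Prop :=
  ∀ (𝒪 : Type) [CommRing 𝒪] [IsDomain 𝒪] [IsDiscreteValuationRing 𝒪]
    [IsAdicComplete (maximalIdeal 𝒪) 𝒪] [Finite (ResidueField 𝒪)]
    (p : ℕ) (ρbar : ResidualGaloisRep (ResidueField 𝒪)) (S Smin : Finset ℕ),
    Hyp 𝒪 p ρbar S Smin →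
      ∀ P : ValuationSubring Qb, P.LiesOverPrime p →
        LocalBoundAt ρbar P (fun ρ' => ρ'.DetIsCyclotomic p ∧ ρ'.IsStrictOrdinaryAt p) 1

/-- (LOC-FLAT): at `p`, flat lifts with cyclotomic determinant have classes in a space of
dimension `≤ h⁰(D_P, ad⁰ρ̄) + 1`. -/
def LocFlatPStatement : Prop :=
  ∀ (𝒪 : Type) [CommRing 𝒪] [IsDomain 𝒪] [IsDiscreteValuationRing 𝒪]
    [IsAdicComplete (maximalIdeal 𝒪) 𝒪] [Finite (ResidueField 𝒪)]
    (p : ℕ) (ρbar : ResidualGaloisRep (ResidueField 𝒪)) (S Smin : Finset ℕ),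
    Hyp 𝒪 p ρbar S Smin →
      ∀ P : ValuationSubring Qb, P.LiesOverPrime p →
        LocalBoundAt ρbar P (fun ρ' => ρ'.DetIsCyclotomic p ∧ ρ'.IsFlatAt p) 1

end Fermat.Agent.S56.H716

end

end
-- ===== PACK-END S56/H716/SBSpec.lean

-- ===== PACK-BEGIN S56/H434/RationalityMain.lean
section



/-!
# S56 / W-FLAT-SS: `RationalityStatement` (Theorem A) PROVED  (helper434)

`rationality : Fermat.Agent.S56.FL.RationalityStatement`, the bridge-free lifting lemma in
rationality form, from `H434.acts_trivially_of_approx_hom`.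
-/

set_option autoImplicit false

namespace Fermat.Agent.S56.H434

/-- **Theorem A**, in the frozen form of `FL/LMSpec.lean`. -/
theorem rationality : Fermat.Agent.S56.FL.RationalityStatement := by
  intro Ω _ _ Γ₀ _ v harch R _ _ hR H _ _ _ _ _ _ p hp hkill γ hγ0 hγ T hTint hT η hη1 hη2 hη3
    hη4 hiso σ hσv hσR hση
  exact acts_trivially_of_approx_hom v harch hR hp hkill hγ0 hγ T hTint hT η
    ⟨hη1, hη2, hη3, hη4⟩ hiso σ hσv hσR hση

end Fermat.Agent.S56.H434

end
-- ===== PACK-END S56/H434/RationalityMain.lean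

-- ===== PACK-BEGIN S19/H15/OrdBasic.lean
section





/-!
# Cell A3 (S19) — node ORD, part 1 (helper15): basic consequences of an `OrderDatum`

From an `OrderDatum ℓ M act` (only axiom on `act`: additivity):
* `act` is automatically a group action fixing `0` (`act_one`, `act_mul`, `act_zero`):
  `act σ m` is the unique point with `f (act σ m) = σ (f m)` for all generators `f`;
* the `ℤ_(ℓ)`-algebra `ordAlg D` generated by the generators consists of equivariant functions
  with integral values and separates points.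
-/

set_option autoImplicit false
set_option linter.style.haveILetI false

noncomputable section

namespace Fermat.Agent.S19.H15

open Fermat.Agent.S19

variable {ℓ : ℕ} {M : Type} [AddCommGroup M] {act : GalQ → M → M}

theorem act_one (D : OrderDatum ℓ M act) (m : M) : act 1 m = m :=
  D.separates _ _ fun f hf => by
    rw [D.equivariant f hf 1 m]
    rfl

theorem act_mul (D : OrderDatum ℓ M act) (σ τ : GalQ) (m : M) :
    act σ (act τ m) = act (σ * τ) m :=
  D.separates _ _ fun f hf => by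
    rw [D.equivariant f hf σ, D.equivariant f hf τ, D.equivariant f hf (σ * τ)]
    rfl

theorem act_zero (D : OrderDatum ℓ M act) (σ : GalQ) : act σ 0 = 0 := by
  have h := D.act_add σ 0 0
  rw [add_zero] at h
  exact left_eq_add.mp h

/-- The `ℤ_(ℓ)`-algebra generated by the generators of an order datum. -/
def ordAlg (D : OrderDatum ℓ M act) : Subalgebra (Rl ℓ) (M → Qb) :=
  Algebra.adjoin (Rl ℓ) D.gens

theorem gens_le_ordAlg (D : OrderDatum ℓ M act) : D.gens ⊆ (ordAlg D : Set (M → Qb)) :=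
  Algebra.subset_adjoin

/-- equivariant functions form a subalgebra -/
def equivSubalgebra (ℓ : ℕ) {X : Type} (act : GalQ → X → X) : Subalgebra (Rl ℓ) (X → Qb) where
  carrier := {f | H19.IsEquivariant act f}
  mul_mem' := fun {f g} hf hg σ m => by
    show f (act σ m) * g (act σ m) = σ (f m * g m)
    rw [hf σ m, hg σ m, map_mul]
  one_mem' := fun σ m => (map_one σ).symm
  add_mem' := fun {f g} hf hg σ m => by
    show f (act σ m) + g (act σ m) = σ (f m + g m)
    rw [hf σ m, hg σ m, map_add]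
  zero_mem' := fun σ m => (map_zero σ).symm
  algebraMap_mem' := fun r σ m => by
    show algebraMap (Rl ℓ) Qb r = σ (algebraMap (Rl ℓ) Qb r)
    have h : algebraMap (Rl ℓ) Qb r = algebraMap ℚ Qb (r : ℚ) := rfl
    rw [h, σ.commutes]

theorem mem_equivSubalgebra {X : Type} {act : GalQ → X → X} {f : X → Qb} :
    f ∈ equivSubalgebra ℓ act ↔ H19.IsEquivariant act f := Iff.rfl

/-- functions with integral values form a subalgebra -/
def intSubalgebra (ℓ : ℕ) (X : Type) : Subalgebra (Rl ℓ) (X → Qb) where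
  carrier := {f | ∀ x, IsIntegral (Rl ℓ) (f x)}
  mul_mem' := fun {f g} hf hg x => (hf x).mul (hg x)
  one_mem' := fun _ => isIntegral_one
  add_mem' := fun {f g} hf hg x => (hf x).add (hg x)
  zero_mem' := fun _ => isIntegral_zero
  algebraMap_mem' := fun _ _ => isIntegral_algebraMap

theorem mem_intSubalgebra {X : Type} {f : X → Qb} :
    f ∈ intSubalgebra ℓ X ↔ ∀ x, IsIntegral (Rl ℓ) (f x) := Iff.rfl

theorem ordAlg_equivariant (D : OrderDatum ℓ M act) :
    ∀ f ∈ ordAlg D, H19.IsEquivariant act f := by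
  have h : ordAlg D ≤ equivSubalgebra ℓ act :=
    Algebra.adjoin_le fun f hf => D.equivariant f hf
  exact fun f hf => h hf

theorem ordAlg_integral (D : OrderDatum ℓ M act) :
    ∀ f ∈ ordAlg D, ∀ m, IsIntegral (Rl ℓ) (f m) := by
  have h : ordAlg D ≤ intSubalgebra ℓ M :=
    Algebra.adjoin_le fun f hf => D.integral f hf
  exact fun f hf => h hf

theorem ordAlg_separates (D : OrderDatum ℓ M act) :
    ∀ m m' : M, m ≠ m' → ∃ f ∈ ordAlg D, f m ≠ f m' := by
  intro m m' hne
  by_contra hcon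
  push Not at hcon
  exact hne (D.separates m m' fun f hf => hcon f (gens_le_ordAlg D hf))

end Fermat.Agent.S19.H15

end

end
-- ===== PACK-END S19/H15/OrdBasic.lean

-- ===== PACK-BEGIN S59/TW/Spec.lean
section


/-!
# Row S59, cell TW (Taylor–Wiles), LAYER 2: the Hecke side — frozen interface (helper24)

Layer 1 (helper959, `TW/H959/Iface.lean`) reduces `Arch.MinRTStatement` to
`H959.HeckeSideStatement` (+ Galois side + Weierstrass + numerical equality).
Layer 2 (this file) splits `H959.HeckeSideStatement` into independent leaves.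
Only sorry-free definitions here; the file is FROZEN once on main.  Board: `coord/S59-TW.md`.

## Leaves (each is a `Prop`; prove `theorem foo : FooStatement`)

| leaf | Prop | content | kind |
|---|---|---|---|
| PKG   | `PkgStatement`   | the Hecke package `P_Σ` over a given Frobenius character `θ` of level `N_Σ` | G4 + S31–S34 + TW-STRICT + Brauer–Nesbitt |
| RESG  | `ResGalStatement` | a restriction `res : T_Q → T_min` (`T_ℓ ↦ T_ℓ`) is local and `ρ_{T_Q} ⊗_res T_min ≅ ρ_{T_min}` | Chebotarev (on main) + `H307.isEquiv_of_trace_eq` |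
| AUT   | `AutStatement`   | the modules `M₀`, `M_Q` (`AutLevel`) with the comparison `AutLevel.Cmp` | MOUNTAIN: M-FREE (on main) + TW-HECKE + TW-CTRL + TW-ES/TWIST + (TW-LGC or TW-ALG) |
| CMPL  | `CmpOfLgcStatement` | route LGC: `AutLevel.Lgc → AutLevel.Cmp` | pure algebra (`H525.basis_transfer`) + INO |
| INX   | `InertiaExistsStatement` | inertia values exist (Hensel for `X² - tX + d`) | Mathlib + Prelude |
| INO   | `InertiaOrderStatement` | an inertia value at a Taylor–Wiles prime `q` has order dividing the `p`-part of `q - 1`, and `charpoly ρ(σ) = (X - w)(X - w⁻¹)` | Galois side (TW-GAL1) |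
| CYC   | `CycloSurjStatement` | inertia at `q` surjects onto `(ℤ/q)^×` | `ℚ(ζ_q)` totally ramified at `q` |
| ALG   | `AlgStatement`   | basis transfer from the diamond structure to the inertia values + reduction modulo `w^(p^n) - 1` | Mathlib only |

Assembly (file `TW/Asm.lean`, helper24):
`heckeSide_of_leaves : PkgStatement → ResGalStatement → AutStatement → InertiaExistsStatement →
  InertiaOrderStatement → CycloSurjStatement → AlgStatement → H959.HeckeSideStatement`.

## The automorphic module, abstractly (`AutLevel`)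

`M_Q = H¹_par(Γ₀(N) ∩ Γ_H(Q), 𝒪)` localised at the maximal ideal of `ρ̄` (anemic; optionally also
at `U_q - α̃_q`), a module over `T_Q = heckeLocal (N Q²) (Smin ∪ Q)` through the twisted operators
`t_ℓ = ⟨ℓ⟩^{-1/2} T_ℓ`; `dia a` = a diamond operator normalisation on the `p`-Sylow quotient
`Δ_Q` of `∏ (ℤ/q_j)^×` (any normalisation `⟨a⟩^{c}`, `c` prime to `p`, is allowed: only `Cmp`
uses it); `M_Q` is free over `𝒪[Δ_Q]` and `M_Q / I_Δ M_Q ≅ M₀`, semilinearly over `res`.
`M₀` is ANY nonzero `T_min`-module, independent of `Q` (`H¹_par(Γ₀(N), 𝒪)_𝔪` or a power of it).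
-/

set_option autoImplicit false

open Polynomial IsLocalRing

namespace Fermat.Agent.S59.TW

open Fermat.Agent.S59.Arch Fermat.Agent.S59.TW.H959

/-- `σ` acts on the `q`-th roots of unity by `μ ↦ μ ^ a`. -/
def CycloAt (q : ℕ) (σ : GQ) (a : ℕ) : Prop :=
  ∀ μ : Qb, μ ^ q = 1 → σ μ = μ ^ a

section Aut

variable {p : ℕ}
  {𝒪 : Type} [CommRing 𝒪] [IsDomain 𝒪] [IsDiscreteValuationRing 𝒪]
  [IsAdicComplete (maximalIdeal 𝒪) 𝒪]
  {ρbar : ResidualGaloisRep (ResidueField 𝒪)} {t : PType} {Smin : Finset ℕ}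

/-- `res : T_Σ' → T_Σ` is a **restriction map**: it maps `T_ℓ` to `T_ℓ` for all primes `ℓ` which
are good for both levels. -/
def IsRestriction {Sig Sig' : Finset ℕ}
    [NeZero (wilesLevel p t Smin Sig)] [NeZero (wilesLevel p t Smin Sig')]
    (P : HeckePkg p 𝒪 ρbar t Smin Sig) (P' : HeckePkg p 𝒪 ρbar t Smin Sig')
    (res : P'.T →ₐ[𝒪] P.T) : Prop :=
  ∀ (ℓ : ℕ) (hℓ : ℓ.Prime)
    (hℓN' : ¬ ℓ ∣ wilesLevel p t Smin Sig') (hℓS' : ℓ ∉ (↑Sig' : Set ℕ))
    (hℓN : ¬ ℓ ∣ wilesLevel p t Smin Sig) (hℓS : ℓ ∉ (↑Sig : Set ℕ)),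
    res (P'.H.π (CuspForm.heckeAlgebra.T hℓ hℓN' hℓS')) =
      P.H.π (CuspForm.heckeAlgebra.T hℓ hℓN hℓS)

/-- **The automorphic Taylor–Wiles module at the set `Q = qv`**, abstractly (see the header). -/
structure AutLevel [NeZero (wilesLevel p t Smin Smin)] (P₀ : HeckePkg p 𝒪 ρbar t Smin Smin)
    (M₀ : Type) [AddCommGroup M₀] [Module P₀.T M₀] {r : ℕ} (qv : Fin r → ℕ)
    [NeZero (wilesLevel p t Smin (Smin ∪ Finset.univ.image qv))]
    (PQ : HeckePkg p 𝒪 ρbar t Smin (Smin ∪ Finset.univ.image qv))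
    (res : PQ.T →ₐ[𝒪] P₀.T) : Type 1 where
  /-- the module `M_Q` -/
  MQ : Type
  [instAddCommGroup : AddCommGroup MQ]
  [instModule : Module PQ.T MQ]
  /-- the (normalised) diamond operators -/
  dia : (∀ j : Fin r, (ZMod (qv j))ˣ) →* Module.End PQ.T MQ
  /-- the diamond action factors through the `p`-Sylow quotient -/
  dia_pow : ∀ a : ∀ j : Fin r, (ZMod (qv j))ˣ,
    dia (fun j => a j ^ p ^ padicValNat p (qv j - 1)) = 1
  /-- `M_Q` is free of finite rank over `𝒪[Δ_Q]`: for primitive roots `g_j` mod `q_j`, the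
  elements `dia (g^e) b_i`, `0 ≤ e_j < p^{m_j}` (`m_j = v_p(q_j - 1)`), form an `𝒪`-basis. -/
  free : ∀ g : ∀ j : Fin r, (ZMod (qv j))ˣ, (∀ j, orderOf (g j) = qv j - 1) →
    ∃ (d : ℕ) (b : Fin d → MQ), ∀ y : MQ,
      ∃! c : Fin d → (∀ j : Fin r, Fin (p ^ padicValNat p (qv j - 1))) → 𝒪,
        y = ∑ i, ∑ e, algebraMap 𝒪 PQ.T (c i e) • dia (fun j => g j ^ (e j : ℕ)) (b i)
  /-- the projection to the minimal level -/
  π : MQ →+ M₀
  π_smul : ∀ (s : PQ.T) (y : MQ), π (s • y) = res s • π y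
  π_surjective : Function.Surjective π
  /-- the kernel of `π` is the augmentation submodule of the diamond action -/
  ker_π : ∀ y : MQ, π y = 0 ↔
    y ∈ AddSubgroup.closure {z : MQ | ∃ (a : ∀ j : Fin r, (ZMod (qv j))ˣ) (y' : MQ),
      z = dia a y' - y'}

attribute [instance] AutLevel.instAddCommGroup AutLevel.instModule

variable [NeZero (wilesLevel p t Smin Smin)] {P₀ : HeckePkg p 𝒪 ρbar t Smin Smin}
  {M₀ : Type} [AddCommGroup M₀] [Module P₀.T M₀] {r : ℕ} {qv : Fin r → ℕ}
  [NeZero (wilesLevel p t Smin (Smin ∪ Finset.univ.image qv))]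
  {PQ : HeckePkg p 𝒪 ρbar t Smin (Smin ∪ Finset.univ.image qv)}
  {res : PQ.T →ₐ[𝒪] P₀.T}

/-- **The comparison of the Galois and the diamond structure on `M_Q`** (what the patching
consumes).  For a place `P` over `q_j`, a Frobenius `φ` at `P`, `σ` in the inertia group of `P`
acting on `μ_{q_j}` through a PRIMITIVE ROOT `a`, and every inertia value `w ∈ T_Q` of
`ρ_{T_Q}` at `(φ, σ)` (`H959.IsInertiaValue`, any Frobenius eigenvalue `a₀`):
`(w - 1) M_Q = (dia_j a - 1) M_Q`.

Route LGC: `Lgc` + INO give `(w - X)(w X - 1) = 0` on `M_Q` (`X = dia_j a`), and the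
two-structure lemma `H525.basis_transfer` applies (`CmpOfLgcStatement`).
Route TW-ALG (helper314, `coord/S59-TWALG-helper314.md`): from (T) `(w - 1) M_Q ⊆ (X - 1) M_Q` and
(R). -/
def AutLevel.Cmp (A : AutLevel P₀ M₀ qv PQ res) : Prop :=
  ∀ (j : Fin r) (P : ValuationSubring Qb), P.LiesOverPrime (qv j) →
    ∀ φ : GQ, P.IsFrobeniusAt φ (qv j) →
    ∀ σ ∈ P.inertiaSubgroupIn ℚ, ∀ a : (ZMod (qv j))ˣ, orderOf a = qv j - 1 →
      CycloAt (qv j) σ (a : ZMod (qv j)).val →
      ∀ a₀ w : PQ.T, IsInertiaValue PQ.H.ρ φ σ a₀ w →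
        ∀ y : A.MQ, (∃ y' : A.MQ, y = w • y' - y') ↔
          ∃ y' : A.MQ, y = A.dia (Pi.mulSingle j a) y' - y'

/-- **The local–global compatibility at the Taylor–Wiles primes (inertial type only).**
For `σ` in an inertia group at `q_j` acting on `μ_{q_j}` by `a`: the trace of `ρ_{T_Q}(σ)` acts on
`M_Q` as `dia a + dia a⁻¹` (for the normalisation `dia = ⟨·⟩^{-1/2}`: `ρ_f|_{I_q} ≅ 1 ⊕ ε_f` and
`ρ_{T_Q}` specialises to `ρ_f ⊗ ε_f^{-1/2}`). -/
def AutLevel.Lgc (A : AutLevel P₀ M₀ qv PQ res) : Prop :=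
  ∀ (j : Fin r) (P : ValuationSubring Qb), P.LiesOverPrime (qv j) →
    ∀ σ ∈ P.inertiaSubgroupIn ℚ, ∀ a : (ZMod (qv j))ˣ,
      CycloAt (qv j) σ (a : ZMod (qv j)).val →
      ∀ y : A.MQ,
        PQ.H.ρ.trace σ • y = A.dia (Pi.mulSingle j a) y + A.dia (Pi.mulSingle j a⁻¹) y

end Aut

/-! ## The leaves -/

/-- **PKG.**  Under the hypotheses of the minimal case: for every finite set of primes
`Σ ⊇ Smin` and every Frobenius character `θ` of `ρ̄` on the Hecke algebra of level `N_Σ` away from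
`Σ`, the Hecke package of type `Σ` with residual character `θ` exists.
Inputs: S23 (integral structure), `S59.H7` (instances of `heckeLocal`), G4 (`G4.g4_of`: the
datum), S31 (unramified outside `Σ`), S32 / S33 + TW-STRICT (`H649`) (at `p`), S34 (unipotent at
`Smin ∖ {p}`), determinant by Chebotarev, residual equivalence (Brauer–Nesbitt). -/
def PkgStatement : Prop :=
  ∀ (p : ℕ) [Fact p.Prime]
    (𝒪 : Type) [CommRing 𝒪] [IsDomain 𝒪] [IsDiscreteValuationRing 𝒪]
    [IsAdicComplete (maximalIdeal 𝒪) 𝒪] [Finite (ResidueField 𝒪)] [CharZero 𝒪]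
    (ρbar : ResidualGaloisRep (ResidueField 𝒪)) (Smin : Finset ℕ)
    (_h : ResidualHyp p 𝒪 ρbar Smin) (t : PType)
    (_ht : (t = .flat ∧ (GaloisRepAdic.ofResidualGaloisRep ρbar).IsFlatAt p) ∨
      (t = .sord ∧ (GaloisRepAdic.ofResidualGaloisRep ρbar).IsStrictOrdinaryAt p ∧
        ¬ (GaloisRepAdic.ofResidualGaloisRep ρbar).IsFlatAt p))
    (Sig : Finset ℕ) (_hSig : Smin ⊆ Sig) (_hSigP : ∀ q ∈ Sig, q.Prime)
    [NeZero (wilesLevel p t Smin Sig)]
    (θ : CuspForm.heckeAlgebra (wilesLevel p t Smin Sig) 2 (↑Sig : Set ℕ) →+* ResidueField 𝒪)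
    (_hθ : G4.ResFrobCond ρbar θ),
    ∃ P : HeckePkg p 𝒪 ρbar t Smin Sig, P.θ = θ

/-- **RESG.**  A restriction map between two Hecke packages (`Σ ⊆ Σ'`) is a local homomorphism
and is compatible with the Galois representations.
(`tr ρ'(Frob_ℓ) ↦ tr ρ(Frob_ℓ)` for almost all `ℓ`; Chebotarev `Lib.Cheb.chebotarev` + continuity
`H765.exists_level_trace_sub_mem`; then `H307.isEquiv_of_trace_eq`.) -/
def ResGalStatement : Prop :=
  ∀ (p : ℕ) [Fact p.Prime] (_hp2 : p ≠ 2)
    (𝒪 : Type) [CommRing 𝒪] [IsDomain 𝒪] [IsDiscreteValuationRing 𝒪]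
    [IsAdicComplete (maximalIdeal 𝒪) 𝒪] [Finite (ResidueField 𝒪)] [CharZero 𝒪]
    (_hp𝒪 : (p : 𝒪) ∈ maximalIdeal 𝒪)
    (ρbar : ResidualGaloisRep (ResidueField 𝒪)) (_habs : ρbar.IsAbsolutelyIrreducible)
    (t : PType) (Smin Sig Sig' : Finset ℕ) (_hSig : Sig ⊆ Sig')
    [NeZero (wilesLevel p t Smin Sig)] [NeZero (wilesLevel p t Smin Sig')]
    (P : HeckePkg p 𝒪 ρbar t Smin Sig) (P' : HeckePkg p 𝒪 ρbar t Smin Sig')
    (res : P'.T →ₐ[𝒪] P.T), IsRestriction P P' res →
    ∃ hres : IsLocalHom (res : P'.T →+* P.T),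
      (P'.H.ρ.baseChangeAlong (res : P'.T →+* P.T) hres).IsEquiv P.H.ρ

/-- **AUT (the mountain).**  The minimal module `M₀` (nonzero, a `T_min`-module) and, for every
set of Taylor–Wiles primes, every Hecke package `P_Q` at the level `Q` and every restriction map
`res : T_Q → T_min`, an automorphic Taylor–Wiles module satisfying the comparison `Cmp`.
Cell-internal decomposition (Betti vocabulary): board `coord/S59-TW.md`. -/
def AutStatement : Prop :=
  ∀ (p : ℕ) [Fact p.Prime]
    (𝒪 : Type) [CommRing 𝒪] [IsDomain 𝒪] [IsDiscreteValuationRing 𝒪]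
    [IsAdicComplete (maximalIdeal 𝒪) 𝒪] [Finite (ResidueField 𝒪)] [CharZero 𝒪]
    (ρbar : ResidualGaloisRep (ResidueField 𝒪)) (Smin : Finset ℕ)
    (_h : ResidualHyp p 𝒪 ρbar Smin) (t : PType)
    (_ht : (t = .flat ∧ (GaloisRepAdic.ofResidualGaloisRep ρbar).IsFlatAt p) ∨
      (t = .sord ∧ (GaloisRepAdic.ofResidualGaloisRep ρbar).IsStrictOrdinaryAt p ∧
        ¬ (GaloisRepAdic.ofResidualGaloisRep ρbar).IsFlatAt p))
    [NeZero (wilesLevel p t Smin Smin)]
    (P₀ : HeckePkg p 𝒪 ρbar t Smin Smin),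
    ∃ (M₀ : Type) (_ : AddCommGroup M₀) (_ : Module P₀.T M₀) (_ : Nontrivial M₀),
      ∀ (n r : ℕ) (qv : Fin r → ℕ) (_hq : IsTWSet p ρbar Smin n qv)
        [NeZero (wilesLevel p t Smin (Smin ∪ Finset.univ.image qv))]
        (PQ : HeckePkg p 𝒪 ρbar t Smin (Smin ∪ Finset.univ.image qv))
        (res : PQ.T →ₐ[𝒪] P₀.T) (_hres : IsRestriction P₀ PQ res),
        ∃ A : AutLevel P₀ M₀ qv PQ res, A.Cmp

/-- **INX.**  Inertia values exist: if `ρ̄(φ)` has two distinct eigenvalues `α ≠ β` in the residue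
field and `a₀` lifts `α`, then for every `σ` there is `w` with `IsInertiaValue ρ φ σ a₀ w`
(Hensel's lemma for the characteristic polynomial of `ρ(φ)`; `a - b` is a unit). -/
def InertiaExistsStatement : Prop :=
  ∀ (A : Type) [CommRing A] [IsLocalRing A] [IsNoetherianRing A]
    [IsAdicComplete (maximalIdeal A) A] (ρ : GaloisRepAdic A) (φ σ : GQ) (a₀ : A)
    (β : ResidueField A), residue A a₀ ≠ β →
    LinearMap.charpoly (ρ.residual.ρ φ) = (X - C (residue A a₀)) * (X - C β) →
    ∃ w : A, IsInertiaValue ρ φ σ a₀ w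

/-- **INO.**  At a prime `q ≠ p` with `p ∣ q - 1` where the residual representation is
unramified and a Frobenius has distinct eigenvalues, for a representation with cyclotomic
determinant over a complete Noetherian local ring with finite residue field of characteristic
`p`: every inertia value `w` at `(φ, σ)`, `σ` in the inertia group, is a root of
`charpoly ρ(σ) = (X - w)(X - w')` with `w w' = 1`, of order dividing the `p`-part of `q - 1`.
(TW-GAL1: `ρ|_{G_q} = ξ ⊕ ξ'`, `w = ξ(σ)`, `ξ ξ' = ε_p` is unramified, `ξ|_{I_q}` factors through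
the tame quotient, on which Frobenius acts by `q`, and has pro-`p` image.) -/
def InertiaOrderStatement : Prop :=
  ∀ (p : ℕ) [Fact p.Prime] (A : Type) [CommRing A] [IsLocalRing A] [IsNoetherianRing A]
    [IsAdicComplete (maximalIdeal A) A] [Finite (ResidueField A)]
    (_hpA : (p : A) ∈ maximalIdeal A)
    (ρ : GaloisRepAdic A) (_hdet : ρ.DetIsCyclotomic p)
    (q : ℕ) (_hq : q.Prime) (_hqp : q ≠ p) (_hpq : p ∣ q - 1)
    (_hunr : ρ.residual.IsUnramifiedAt q)
    (P : ValuationSubring Qb) (_hP : P.LiesOverPrime q) (φ : GQ) (_hφ : P.IsFrobeniusAt φ q)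
    (σ : GQ) (_hσ : σ ∈ P.inertiaSubgroupIn ℚ) (a₀ w : A), IsInertiaValue ρ φ σ a₀ w →
    ∃ w' : A, w * w' = 1 ∧ w ^ (p ^ padicValNat p (q - 1)) = 1 ∧
      LinearMap.charpoly (ρ.ρ σ) = (X - C w) * (X - C w')

/-- **CYC.**  The inertia group at `q` surjects onto `(ℤ/q)^×` (`ℚ(ζ_q)/ℚ` is totally ramified
at `q`). -/
def CycloSurjStatement : Prop :=
  ∀ (q : ℕ), q.Prime → ∀ P : ValuationSubring Qb, P.LiesOverPrime q →
    ∀ a : (ZMod q)ˣ, ∃ σ ∈ P.inertiaSubgroupIn ℚ, CycloAt q σ (a : ZMod q).val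

/-- **ALG (Mathlib only).**  Basis transfer and reduction.  `V` a module over an `𝒪`-algebra `T`
(`p` odd, `p ∈ Jac 𝒪`, `𝒪` a domain of characteristic `0`), `dia : ∏ G_j → Aut_T V` a
representation of a product of commutative groups, `g_j ∈ G_j` with `dia (g_j)^(p^(m_j)) = 1`
such that the `dia (g^e) b_i` (`e_j < p^(m_j)`) form an `𝒪`-basis of `V`; `w_j ∈ T` with
`w_j^(p^(m_j)) = 1` and `(w_j - 1) V = (dia g_j - 1) V`; `n ≤ m_j`.
Then `V / (w_j^(p^n) - 1)` is free over `𝒪[(ℤ/p^n)^r]` through the `w_j` with basis `b`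
(`H959.IsGroupRingBasis`).
(Nakayama as in `H525.basis_transfer`: the `w^e b_i` span `V`, count ranks; then fold the
exponents modulo `p^n`.) -/
def AlgStatement : Prop :=
  ∀ (p : ℕ) (_hp : p.Prime) (_hp2 : p ≠ 2) (𝒪 : Type) [CommRing 𝒪] [IsDomain 𝒪] [CharZero 𝒪]
    (_hpJ : (p : 𝒪) ∈ Ideal.jacobson (⊥ : Ideal 𝒪))
    (T : Type) [CommRing T] [Algebra 𝒪 T] (V : Type) [AddCommGroup V] [Module T V]
    (r : ℕ) (G : Fin r → Type) [∀ j, CommGroup (G j)] (m : Fin r → ℕ) (n : ℕ)
    (_hn : ∀ j, n ≤ m j)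
    (dia : (∀ j : Fin r, G j) →* Module.End T V) (g : ∀ j : Fin r, G j)
    (_hX : ∀ j, dia (Pi.mulSingle j (g j)) ^ (p ^ m j) = 1)
    (d : ℕ) (b : Fin d → V)
    (_hb : ∀ y : V, ∃! c : Fin d → (∀ j : Fin r, Fin (p ^ m j)) → 𝒪,
      y = ∑ i, ∑ e, algebraMap 𝒪 T (c i e) • dia (fun j => g j ^ (e j : ℕ)) (b i))
    (w : Fin r → T) (_hw : ∀ j, w j ^ (p ^ m j) = 1)
    (_hrange : ∀ (j : Fin r) (y : V),
      (∃ y' : V, y = w j • y' - y') ↔ ∃ y' : V, y = dia (Pi.mulSingle j (g j)) y' - y'),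
    IsGroupRingBasis 𝒪 (p ^ n) w b

/-- **CMPL (route LGC; pure algebra).**  `p` odd: the local–global compatibility `Lgc` implies
the comparison `Cmp`, given INO.  (`H525.basis_transfer`.) -/
def CmpOfLgcStatement : Prop :=
  InertiaOrderStatement →
  ∀ (p : ℕ) [Fact p.Prime] (_hp2 : p ≠ 2)
    (𝒪 : Type) [CommRing 𝒪] [IsDomain 𝒪] [IsDiscreteValuationRing 𝒪]
    [IsAdicComplete (maximalIdeal 𝒪) 𝒪] [Finite (ResidueField 𝒪)] [CharZero 𝒪]
    (ρbar : ResidualGaloisRep (ResidueField 𝒪)) (Smin : Finset ℕ)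
    (_h : ResidualHyp p 𝒪 ρbar Smin) (t : PType)
    [NeZero (wilesLevel p t Smin Smin)]
    (P₀ : HeckePkg p 𝒪 ρbar t Smin Smin)
    (M₀ : Type) [AddCommGroup M₀] [Module P₀.T M₀]
    (n r : ℕ) (qv : Fin r → ℕ) (_hq : IsTWSet p ρbar Smin n qv)
    [NeZero (wilesLevel p t Smin (Smin ∪ Finset.univ.image qv))]
    (PQ : HeckePkg p 𝒪 ρbar t Smin (Smin ∪ Finset.univ.image qv))
    (res : PQ.T →ₐ[𝒪] P₀.T)
    (A : AutLevel P₀ M₀ qv PQ res), A.Lgc → A.Cmp

end Fermat.Agent.S59.TW

end
-- ===== PACK-END S59/TW/Spec.lean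

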