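import Mathlib
import Fermat.Prelude.Def_Algebra_PatchingDatum
import Fermat.Agent.Pack.S43GC.G0E12L3
import Fermat.Agent.Pack.S43GC.G0E7L3
import Fermat.Agent.Pack.S43GC.G0E12L2
import Fermat.Agent.Pack.S44C.G0E19L1
import Fermat.Agent.Pack.S43GC.G0E12L0
import Fermat.Agent.Pack.S43GC.G0E5L2
import Fermat.Agent.Pack.S43GC.G0E8L2
import Fermat.Agent.Pack.S43GC.G0E8L3
import Fermat.Agent.Pack.S43GC.G0E0L3
import Fermat.Agent.Pack.S43GC.G0E11L3
import Fermat.Agent.Pack.S43GC.G0E11L1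
import Fermat.Agent.Pack.S43GC.G0E4L3
import Fermat.Agent.Pack.S43GC.G0E10L3
import Fermat.Agent.Pack.S43GC.G0E11L0
import Fermat.Agent.Pack.S43GC.G0E11L2
import Fermat.Agent.Pack.S43GC.G0E2L0
import Fermat.Agent.Pack.S44C.G0E6L0
import Fermat.Agent.Pack.S43GC.G0E9L1
import Fermat.Agent.Pack.S43GC.G0E12L1
import Fermat.Agent.Pack.S43GC.G0E3L3
import Fermat.Agent.Pack.Fast891

-- ===== PACK-BEGIN S55/PT/Spec.lean
section


/-!
# S55 / layer D (duality engine, route C′): INTERFACE — inputs A1–A8 and Theorem D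

See `coord/S55-D.md` (branch `origin/helper835`).  Spec pattern: every statement here is a
`def … : Prop`; producers prove `theorem foo : FooSpec p S`, consumers take hypotheses.

Notation: `L = globalLevels S` on `G_ℚ`; `Lv = localLevels v` on `G_v = Gl v`;
`H^i = LevelSys.H1 / LevelSys.H2` (level-constant cochain cohomology = Prelude's definition);
`μ = mu p`; `Ind_U N = indRep U N = (G ⧸ U →₀ N)`.
-/

set_option autoImplicit false

noncomputable section

namespace Fermat.Agent.S55.PT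

open groupCohomology ExtCitation

variable (p : ℕ) [Fact p.Prime] (S : Finset Nat.Primes)

/-! ## Inputs (outputs of the arithmetic layers K, KL) -/

/-- **A1 (FIN-glob).** `H¹_S(N)` is finite-dimensional for finite-dimensional smooth `N`. -/
def FinGlobSpec : Prop :=
  ∀ N : Rep.{0, 0, 0} (ZMod p) GQ, FiniteDimensional (ZMod p) N → (globalLevels S).IsUSmooth N →
    FiniteDimensional (ZMod p) ((globalLevels S).H1 N)

/-- **A2 (FIN-loc).** `H¹(G_q, N)` is finite-dimensional for finite-dimensional smooth `N`. -/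
def FinLocSpec : Prop :=
  ∀ q : Nat.Primes, q ∈ S → ∀ N : Rep.{0, 0, 0} (ZMod p) (Gl q), FiniteDimensional (ZMod p) N →
    (localLevels q).IsUSmooth N → FiniteDimensional (ZMod p) ((localLevels q).H1 N)

/-- **A3 (SURJ2-glob).** `H²_S` is right exact on finite-dimensional smooth modules
(`cd_p(G_S) ≤ 2`, `p` odd). -/
def Surj2GlobSpec : Prop :=
  ∀ (P N : Rep.{0, 0, 0} (ZMod p) GQ) (φ : P →ₗ[ZMod p] N) (hφ : IsEquivariant φ),
    FiniteDimensional (ZMod p) P → (globalLevels S).IsUSmooth P → (globalLevels S).IsUSmooth N →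
    Function.Surjective φ → Function.Surjective (pushH2 φ hφ (globalLevels S))

/-- **A4 (SURJ2-loc).** `H²(G_q, −)` is right exact on finite-dimensional smooth modules
(`cd_p(G_q) ≤ 2`). -/
def Surj2LocSpec : Prop :=
  ∀ q : Nat.Primes, q ∈ S → ∀ (P N : Rep.{0, 0, 0} (ZMod p) (Gl q)) (φ : P →ₗ[ZMod p] N)
    (hφ : IsEquivariant φ),
    FiniteDimensional (ZMod p) P → (localLevels q).IsUSmooth P → (localLevels q).IsUSmooth N →
    Function.Surjective φ → Function.Surjective (pushH2 φ hφ (localLevels q))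

variable {p S} in
/-- **A5′ (RECIP).** `Σ_v inv_v(loc_v y) = 0` for `y ∈ H²_S(μ)`. -/
def RecipSpec (inv : InvFamily p S) : Prop :=
  ∀ y : (globalLevels S).H2 (mu p), ∑ v : ↥S, inv v (resH2 (hrl S v) (mu p) y) = 0

variable {p S} in
/-- **A6 (TOP-loc-ind).** For a normal local level `W` acting trivially on `μ`:
`inv_v ∘ aug_* : H²(G_v, Ind_W μ) → F_p` is bijective (`Br(E)[p] ≅ Z/p`, `inv_E = inv_v ∘ cor`). -/
def TopLocIndSpec (inv : InvFamily p S) : Prop :=
  ∀ (v : ↥S) (W : Subgroup (Gl v.1)), W ∈ (localLevels v.1).levels → W.Normal →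
    (∀ s ∈ W, (muLoc p v.1).ρ s = 1) →
    Function.Bijective ((inv v) ∘ₗ
      pushH2 (A := indRep W (muLoc p v.1)) (B := muLoc p v.1) (indAug W (muLoc p v.1))
        (indAug_equivariant W (muLoc p v.1)) (localLevels v.1))

variable {p S} in
/-- the functional `x ↦ Σ_v inv_v(aug_* x_v)` on `∏_v H²(G_v, Ind_U μ)` -/
def topIndFun (inv : InvFamily p S) (U : Subgroup GQ) :
    ((v : ↥S) → (localLevels v.1).H2 (Rep.res (rl v.1) (indRep U (mu p)))) →ₗ[ZMod p] ZMod p :=
  ∑ v : ↥S, (inv v) ∘ₗ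
    pushH2 (A := Rep.res (rl v.1) (indRep U (mu p))) (B := muLoc p v.1) (indAug U (mu p))
      ((indAug_equivariant U (mu p)).res (rl v.1)) (localLevels v.1) ∘ₗ LinearMap.proj v

variable {p S} in
/-- **A7 (TOP-glob-ind).** For a normal level `U` acting trivially on `μ`: a family
`x ∈ ∏_v H²(G_v, Ind_U μ)` with `Σ_v inv_v(aug_* x_v) = 0` is the localisation of a global class
(`H²(G_S(K), μ_p) → ⊕_{w ∈ S_K} Br(K_w)[p] → Z/p` exact in the middle). -/
def TopGlobIndSpec (inv : InvFamily p S) : Prop :=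
  ∀ (U : Subgroup GQ), U ∈ (globalLevels S).levels → U.Normal → (∀ s ∈ U, (mu p).ρ s = 1) →
    ∀ x : (v : ↥S) → (localLevels v.1).H2 (Rep.res (rl v.1) (indRep U (mu p))),
      topIndFun inv U x = 0 → x ∈ LinearMap.range (loc2 (hrl S) (indRep U (mu p)))

/-- **A5–A7.** There is a family of invariant maps satisfying RECIP, TOP-loc-ind, TOP-glob-ind. -/
def InvSpec : Prop :=
  ∃ inv : InvFamily p S, RecipSpec inv ∧ TopLocIndSpec inv ∧ TopGlobIndSpec inv

/-- **A8 (CAP).** For every normal level `V` acting trivially on `μ` there is a normal level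
`U ≤ V` such that `Ш²(Ind_U μ) → Ш²(Ind_V μ)` is zero
(`Ш²(G_S(K), μ_p) = Cl_S(K)/p`; the norm from the `p`-Hilbert `S`-class field kills `Cl_S/p`). -/
def CapSpec : Prop :=
  ∀ (V : Subgroup GQ), V ∈ (globalLevels S).levels → V.Normal → (∀ s ∈ V, (mu p).ρ s = 1) →
    ∃ (U : Subgroup GQ) (h : U ≤ V), U ∈ (globalLevels S).levels ∧ U.Normal ∧
      ∀ x ∈ Sha2 (hrl S) (indRep U (mu p)),
        pushH2 (A := indRep U (mu p)) (B := indRep V (mu p)) (indLE (mu p) h)
          (indLE_equivariant U (mu p) h) (globalLevels S) x = 0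

/-! ## Output of layer D -/

/-- **Theorem D.** `Ш²(M) ≅ Dual(Ш¹(M′))` for finite-dimensional smooth `M`. -/
def TheoremDSpec : Prop :=
  ∀ M : Rep.{0, 0, 0} (ZMod p) GQ, FiniteDimensional (ZMod p) M → (globalLevels S).IsUSmooth M →
    Nonempty (↥(Sha2 (hrl S) M) ≃ₗ[ZMod p]
      Module.Dual (ZMod p) ↥(Sha1 (hrl S) (tdual p M)))

/-- **Master statement of layer D** (to be assembled from the leaves). -/
def MasterSpec : Prop :=
  p ≠ 2 → pPrime p ∈ S → FinGlobSpec p S → FinLocSpec p S → Surj2GlobSpec p S →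
    Surj2LocSpec p S → InvSpec p S → CapSpec p S → TheoremDSpec p S

/-- **Leaf D-B.** S55 follows from Theorem D (bridge to the Prelude's `sha₁`, `sha₂`). -/
def BridgeSpec : Prop :=
  p ≠ 2 → pPrime p ∈ S → TheoremDSpec p S →
    ∀ (M : Rep (ZMod p) (AlgebraicClosure ℚ ≃ₐ[ℚ] AlgebraicClosure ℚ))
      [FiniteDimensional (ZMod p) M],
      (∀ m : M, ∃ F : IntermediateField ℚ (AlgebraicClosure ℚ), FiniteDimensional ℚ F ∧
        ∀ s ∈ F.fixingSubgroup, M.ρ s m = m) →
      (∀ q : Nat.Primes, q ∉ S → ∀ A : ValuationSubring (AlgebraicClosure ℚ),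
        A.LiesOverPrime (q : ℕ) → ∀ g ∈ A.inertiaSubgroupIn ℚ, M.ρ g = 1) →
      ∃ B : sha₁ S (M.dualTwist (cycloChar p)) →ₗ[ZMod p] sha₂ S M →ₗ[ZMod p] ZMod p,
        (∀ y, (∀ x, B y x = 0) → y = 0) ∧ (∀ x, (∀ y, B y x = 0) → x = 0)

end Fermat.Agent.S55.PT

end

end
-- ===== PACK-END S55/PT/Spec.lean

-- ===== PACK-BEGIN S55/PT/LevelsH724.lean
section



/-!
# S55 / layer D, leaf D-F7 : the Prelude level systems   (helper724)

Producers for the four Props of `PT/SpecF.lean`: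

* `globalNormalCofinal : GlobalNormalCofinalSpec`
* `localNormalCofinal : LocalNormalCofinalSpec`
* `globalFiniteIndex : GlobalFiniteIndexSpec`
* `localFiniteIndex : LocalFiniteIndexSpec`

(Normal cofinality is `PT/LevelsNormal.lean`, already on main.)
-/

set_option autoImplicit false

namespace Fermat.Agent.S55.PT.H724

open Fermat.Agent.S55.Bridge Fermat.Agent.S55.PT

attribute [local instance] isAlgebraic_Qbar isGalois_Qbar

/-- `G_F` has finite index in `G_ℚ` for a finite extension `F/ℚ`. -/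
theorem fixingSubgroup_finiteIndex (F : IntermediateField ℚ (AlgebraicClosure ℚ))
    [FiniteDimensional ℚ F] : F.fixingSubgroup.FiniteIndex := by
  refine ⟨?_⟩
  rw [← IntermediateField.finrank_eq_fixingSubgroup_index]
  exact Module.finrank_pos.ne'

/-- The preimage of a subgroup of finite index has finite index. -/
theorem comap_finiteIndex {G G' : Type*} [Group G] [Group G'] (f : G' →* G)
    (H : Subgroup G) [H.FiniteIndex] : (H.comap f).FiniteIndex := by
  refine ⟨?_⟩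
  rw [Subgroup.index_comap]
  have h : H.IsFiniteRelIndex f.range := Subgroup.isFiniteRelIndex_of_finiteIndex
  exact Subgroup.relIndex_ne_zero

/-- Every pulled-back level has finite index. -/
theorem pullbackLevels_finiteIndex {G : Type} [Group G] (r : G →* _root_.Fermat.Agent.S55.PT.GQ) :
    (pullbackLevels r).FiniteIndex := by
  rintro U ⟨F, hF, rfl⟩
  have := hF
  have := fixingSubgroup_finiteIndex F
  exact comap_finiteIndex r F.fixingSubgroup

/-- Normal levels are cofinal among pulled-back levels. -/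
theorem pullbackLevels_normalCofinal {G : Type} [Group G] (r : G →* _root_.Fermat.Agent.S55.PT.GQ) :
    (pullbackLevels r).NormalCofinal :=
  pullbackLevels_normal_cofinal724 r

/-- **D-F7a.** -/
theorem globalNormalCofinal : GlobalNormalCofinalSpec :=
  fun S => globalLevels_normal_cofinal724 S

/-- **D-F7b.** -/
theorem localNormalCofinal : LocalNormalCofinalSpec :=
  fun q => pullbackLevels_normalCofinal (rl q)

/-- **D-F7c.** -/
theorem globalFiniteIndex : GlobalFiniteIndexSpec := by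
  rintro S U ⟨F, hF, rfl⟩
  have := hF.1
  exact fixingSubgroup_finiteIndex F

/-- **D-F7d.** -/
theorem localFiniteIndex : LocalFiniteIndexSpec :=
  fun q => pullbackLevels_finiteIndex (rl q)

end Fermat.Agent.S55.PT.H724

end
-- ===== PACK-END S55/PT/LevelsH724.lean

-- ===== PACK-BEGIN S55/H901/H1FinMain.lean
section



/-!
# S55 / G5: finiteness of `H¹(G_S, M)` — unconditional form

`UnramClassicalSpec S` is discharged by helper594's B10 (`Bridge/H594/Unram.lean`), giving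

* `finiteDimensional_continuousH1S` : `H¹(G_S, M)` is finite-dimensional,
* `finiteDimensional_sha₁`, `finiteDimensional_sha₁_dualTwist`.
-/

set_option autoImplicit false
set_option linter.style.haveILetI false
set_option linter.unusedSectionVars false

open IntermediateField groupCohomology ExtCitation IsDedekindDomain
open scoped NumberField

namespace Fermat.Agent.S55.H901

open Fermat.Agent.S55.Bridge

/-- **B10-classical**, from helper594's `isUnramifiedOutside_iff_ramificationIdxIn`. -/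
theorem unramClassicalSpec (S : Finset Nat.Primes) : UnramClassicalSpec S := by
  intro F hNF hF hgal w q hq hqS hqw
  haveI := hF.1
  have hqS' : (⟨q, hq⟩ : Nat.Primes) ∉ S := fun h => hqS ⟨q, hq⟩ h rfl
  have h1 := (H594.isUnramifiedOutside_iff_ramificationIdxIn F S).1 hF ⟨q, hq⟩ hqS'
  haveI hgalg : IsGaloisGroup (F ≃ₐ[ℚ] F) ℤ (𝓞 F) :=
    IsGaloisGroup.of_isFractionRing (F ≃ₐ[ℚ] F) ℤ (𝓞 F) ℚ F
  haveI := w.isPrime
  haveI := H594.liesOver_span_of_natCast_mem F hq w.asIdeal hqw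
  have hq0 : Ideal.span {(q : ℤ)} ≠ ⊥ := by
    rw [Ne, Ideal.span_singleton_eq_bot]
    exact_mod_cast hq.ne_zero
  rw [Ideal.ramificationIdx'_eq_ramificationIdx _ _ hq0,
    ← Ideal.ramificationIdxIn_eq_ramificationIdx (Ideal.span {(q : ℤ)}) w.asIdeal (F ≃ₐ[ℚ] F)]
  exact h1

variable {p : ℕ} [Fact p.Prime]

/-- **G5**: `H¹(G_S, M)` is finite-dimensional. -/
theorem finiteDimensional_continuousH1S (S : Finset Nat.Primes) (hpS : pPrime p ∈ S)
    (M : Rep.{0, 0, 0} (ZMod p) (AlgebraicClosure ℚ ≃ₐ[ℚ] AlgebraicClosure ℚ))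
    [FiniteDimensional (ZMod p) M]
    (hsm : ∀ m : M, ∃ F : IntermediateField ℚ (AlgebraicClosure ℚ), FiniteDimensional ℚ F ∧
      ∀ s ∈ F.fixingSubgroup, M.ρ s m = m)
    (hMur : ∀ q : Nat.Primes, q ∉ S → ∀ A : ValuationSubring (AlgebraicClosure ℚ),
      A.LiesOverPrime (q : ℕ) → ∀ g ∈ A.inertiaSubgroupIn ℚ, M.ρ g = 1) :
    FiniteDimensional (ZMod p) (continuousH1S S M) :=
  finiteDimensional_continuousH1S_of S (unramClassicalSpec S) hpS M hsm hMur

/-- `H¹(G_S, M)` is a finite set. -/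
theorem finite_continuousH1S (S : Finset Nat.Primes) (hpS : pPrime p ∈ S)
    (M : Rep.{0, 0, 0} (ZMod p) (AlgebraicClosure ℚ ≃ₐ[ℚ] AlgebraicClosure ℚ))
    [FiniteDimensional (ZMod p) M]
    (hsm : ∀ m : M, ∃ F : IntermediateField ℚ (AlgebraicClosure ℚ), FiniteDimensional ℚ F ∧
      ∀ s ∈ F.fixingSubgroup, M.ρ s m = m)
    (hMur : ∀ q : Nat.Primes, q ∉ S → ∀ A : ValuationSubring (AlgebraicClosure ℚ),
      A.LiesOverPrime (q : ℕ) → ∀ g ∈ A.inertiaSubgroupIn ℚ, M.ρ g = 1) :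
    Finite (continuousH1S S M) :=
  finite_continuousH1S_of S (unramClassicalSpec S) hpS M hsm hMur

/-- `Ш¹_S(M)` is finite-dimensional. -/
theorem finiteDimensional_sha₁ (S : Finset Nat.Primes) (hpS : pPrime p ∈ S)
    (M : Rep.{0, 0, 0} (ZMod p) (AlgebraicClosure ℚ ≃ₐ[ℚ] AlgebraicClosure ℚ))
    [FiniteDimensional (ZMod p) M]
    (hsm : ∀ m : M, ∃ F : IntermediateField ℚ (AlgebraicClosure ℚ), FiniteDimensional ℚ F ∧
      ∀ s ∈ F.fixingSubgroup, M.ρ s m = m)
    (hMur : ∀ q : Nat.Primes, q ∉ S → ∀ A : ValuationSubring (AlgebraicClosure ℚ),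
      A.LiesOverPrime (q : ℕ) → ∀ g ∈ A.inertiaSubgroupIn ℚ, M.ρ g = 1) :
    FiniteDimensional (ZMod p) (sha₁ S M) :=
  finiteDimensional_sha₁_of S (unramClassicalSpec S) hpS M hsm hMur

/-- `Ш¹_S(M*(1))` is finite-dimensional: the first of the three facts to which S55 reduces. -/
theorem finiteDimensional_sha₁_dualTwist (S : Finset Nat.Primes) (hpS : pPrime p ∈ S)
    (M : Rep.{0, 0, 0} (ZMod p) (AlgebraicClosure ℚ ≃ₐ[ℚ] AlgebraicClosure ℚ))
    [FiniteDimensional (ZMod p) M]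
    (hsm : ∀ m : M, ∃ F : IntermediateField ℚ (AlgebraicClosure ℚ), FiniteDimensional ℚ F ∧
      ∀ s ∈ F.fixingSubgroup, M.ρ s m = m)
    (hMur : ∀ q : Nat.Primes, q ∉ S → ∀ A : ValuationSubring (AlgebraicClosure ℚ),
      A.LiesOverPrime (q : ℕ) → ∀ g ∈ A.inertiaSubgroupIn ℚ, M.ρ g = 1) :
    FiniteDimensional (ZMod p) (sha₁ S (M.dualTwist (cycloChar p))) :=
  finiteDimensional_sha₁ S hpS (M.dualTwist (cycloChar p)) (dualTwist_smooth M hsm)
    (dualTwist_unramified M S hpS hMur)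

end Fermat.Agent.S55.H901

end
-- ===== PACK-END S55/H901/H1FinMain.lean

-- ===== PACK-BEGIN S55/Local/H775/Inertia.lean
section



/-!
# S55 layer L, piece UR6 (helper775): `InertiaStatement` and `InertiaCardStatement`

* `inertiaCard775 : InertiaCardStatement` (interface `Local/Spec2.lean`: existence of a normal
  subgroup `I` with the UR6 property and `|I| = e(N/K)`);
* `inertia775 : InertiaStatement` (frozen interface `Local/Spec.lean`);
* `exists_inertia_card775`: the unbundled form of `inertiaCard775`.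
-/

set_option autoImplicit false
set_option linter.unusedSectionVars false
set_option linter.style.haveILetI false

namespace Fermat.Agent.S55.Local.H775

open Fermat.Agent.S55.Local IsLocalRing

section Concrete

variable (A F : Type) [CommRing A] [IsDomain A] [IsDiscreteValuationRing A]
  [IsAdicComplete (IsLocalRing.maximalIdeal A) A] [Finite (IsLocalRing.ResidueField A)]
  [Field F] [CharZero F] [Algebra A F] [IsFractionRing A F]
  (K : Type) [Field K] [Algebra F K] [FiniteDimensional F K]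
  (N : Type) [Field N] [Algebra F N] [Algebra K N] [IsScalarTower F K N]
  [FiniteDimensional K N] [IsGalois K N]

variable {K N} in
lemma mem_fixedUnits_fixingSubgroup_iff (E : IntermediateField K N) (y : Nˣ) :
    y ∈ fixedUnits K N E.fixingSubgroup ↔ (y : N) ∈ E := by
  rw [mem_fixedUnits_iff_coe, ← IntermediateField.mem_fixedField_iff,
    IsGalois.fixedField_fixingSubgroup]

variable {K N} in
lemma exists_unitsIncl_eq_of_mem (E : IntermediateField K N) {y : Nˣ} (hy : (y : N) ∈ E) :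
    ∃ y' : Eˣ, unitsIncl N E y' = y := by
  have h0 : (⟨(y : N), hy⟩ : E) ≠ 0 := by
    intro h
    exact y.ne_zero (congrArg (fun t : E => (t : N)) h)
  exact ⟨Units.mk0 ⟨(y : N), hy⟩ h0, Units.ext rfl⟩

variable {K N} in
lemma exists_unitsIncl_eq_of_mem_top {y : Nˣ} (hy : y ∈ fixedUnits K N ⊤) :
    ∃ z : Kˣ, unitsIncl N K z = y := by
  rw [mem_fixedUnits_iff_coe] at hy
  obtain ⟨z, hz⟩ := (IsGalois.mem_range_algebraMap_iff_fixed (F := K) (E := N) (y : N)).mpr
    (fun σ => hy σ (Subgroup.mem_top σ))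
  have h0 : z ≠ 0 := by
    rintro rfl
    rw [map_zero] at hz
    exact y.ne_zero hz.symm
  exact ⟨Units.mk0 z h0, Units.ext hz⟩

/-- Integral units of a subfield are detected in the big field. -/
lemma unitsIncl_mem_intUnits_iff (A F : Type) [CommRing A] [Field F] [Algebra A F]
    (K : Type) [Field K] [Algebra F K]
    (N : Type) [Field N] [Algebra F N] [Algebra K N] [IsScalarTower F K N] (y : Kˣ) :
    unitsIncl N K y ∈ intUnits A F N ↔ y ∈ intUnits A F K := by
  rw [mem_intUnits, mem_intUnits]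
  have h1 : ((unitsIncl N K y : Nˣ) : N) = algebraMap K N (y : K) := rfl
  have h2 : (((unitsIncl N K y)⁻¹ : Nˣ) : N) = algebraMap K N ((y⁻¹ : Kˣ) : K) := by
    rw [← map_inv]; rfl
  rw [h1, h2, H608.isInt_algebraMap_iff, H608.isInt_algebraMap_iff]

/-- The UR6 property follows from the structure property of `exists_inertia_dvd`. -/
theorem isInertia_of_dvd {ϖ : Nˣ} (hϖ : IsUnif A F N ϖ) (I : Subgroup (N ≃ₐ[K] N))
    (hI : ∀ H : Subgroup (N ≃ₐ[K] N),
      0 < Nat.card ↥(I ⊓ H) ∧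
      (∀ y ∈ fixedUnits K N H, ((Nat.card ↥(I ⊓ H) : ℕ) : ℤ) ∣ ord A F N ϖ y) ∧
      (∃ y ∈ fixedUnits K N H, ord A F N ϖ y = (Nat.card ↥(I ⊓ H) : ℕ))) :
    IsInertiaSubgroup A F K N I := by
  intro E
  letI : Algebra F E := ((algebraMap K E).comp (algebraMap F K)).toAlgebra
  haveI : IsScalarTower F K E := IsScalarTower.of_algebraMap_eq (fun _ => rfl)
  haveI : IsScalarTower F E N := by
    refine IsScalarTower.of_algebraMap_eq (fun x => ?_)
    rw [IsScalarTower.algebraMap_apply F K N, IsScalarTower.algebraMap_apply F K E,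
      ← IsScalarTower.algebraMap_apply K E N]
  obtain ⟨hpos, hdvd, y₀, hy₀, hy₀c⟩ := hI E.fixingSubgroup
  obtain ⟨hposT, hdvdT, y₁, hy₁, hy₁c⟩ := hI ⊤
  have htop : Nat.card ↥(I ⊓ (⊤ : Subgroup (N ≃ₐ[K] N))) = Nat.card ↥I := by rw [inf_top_eq]
  have htower : ∀ z : Kˣ, unitsIncl N E (unitsIncl E K z) = unitsIncl N K z := by
    intro z
    apply Units.ext
    show algebraMap E N (algebraMap K E (z : K)) = algebraMap K N (z : K)
    rw [← IsScalarTower.algebraMap_apply K E N]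
  constructor
  · -- (i)
    show IsUnram A F N E ↔ E.fixingSubgroup ⊓ I = ⊥
    constructor
    · intro hU
      obtain ⟨y, hy⟩ := hU ϖ
      have h1 : ord A F N ϖ (unitsIncl N E y) = 1 := by
        rw [← ord_eq_of_div_mem hϖ hy, ord_self hϖ]
      have h2 := hdvd (unitsIncl N E y)
        ((mem_fixedUnits_fixingSubgroup_iff E _).mpr (y : E).2)
      rw [h1] at h2
      have h3 : Nat.card ↥(I ⊓ E.fixingSubgroup) = 1 := by
        have : (Nat.card ↥(I ⊓ E.fixingSubgroup) : ℤ) = 1 :=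
          Int.eq_one_of_dvd_one (by positivity) h2
        exact_mod_cast this
      rw [inf_comm]
      exact Subgroup.card_eq_one.mp h3
    · intro hbot
      have h3 : Nat.card ↥(I ⊓ E.fixingSubgroup) = 1 := by
        rw [inf_comm, hbot]
        exact Subgroup.card_eq_one.mpr rfl
      rw [h3] at hy₀c
      obtain ⟨y₀', hy₀'⟩ := exists_unitsIncl_eq_of_mem E
        ((mem_fixedUnits_fixingSubgroup_iff E _).mp hy₀)
      intro x
      refine ⟨y₀' ^ (ord A F N ϖ x), ?_⟩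
      apply div_mem_of_ord_eq hϖ
      rw [map_zpow, hy₀', ord_zpow hϖ, hy₀c]
      push_cast
      ring
  · -- (ii)
    show IsUnram A F E K ↔ I ≤ E.fixingSubgroup
    constructor
    · intro hU
      obtain ⟨y₀', hy₀'⟩ := exists_unitsIncl_eq_of_mem E
        ((mem_fixedUnits_fixingSubgroup_iff E _).mp hy₀)
      obtain ⟨z, hz⟩ := hU y₀'
      have hz' : unitsIncl N E (y₀' * (unitsIncl E K z)⁻¹) ∈ intUnits A F N :=
        (unitsIncl_mem_intUnits_iff A F E N _).mpr hz
      rw [map_mul, map_inv, hy₀', htower] at hz'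
      have h1 : ord A F N ϖ (unitsIncl N K z) = (Nat.card ↥(I ⊓ E.fixingSubgroup) : ℕ) := by
        rw [← ord_eq_of_div_mem hϖ hz', hy₀c]
      have h2 := hdvdT (unitsIncl N K z) (unitsIncl_mem_fixedUnits ⊤ z)
      rw [h1, htop] at h2
      have h3 : Nat.card ↥I ∣ Nat.card ↥(I ⊓ E.fixingSubgroup) := by exact_mod_cast h2
      have h4 : Nat.card ↥I ≤ Nat.card ↥(I ⊓ E.fixingSubgroup) := Nat.le_of_dvd hpos h3
      have h5 : I ⊓ E.fixingSubgroup = I := Subgroup.eq_of_le_of_card_ge inf_le_left h4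
      exact inf_eq_left.mp h5
    · intro hle
      have h5 : I ⊓ E.fixingSubgroup = I := inf_eq_left.mpr hle
      rw [h5] at hdvd
      rw [htop] at hy₁c
      obtain ⟨z, hz⟩ := exists_unitsIncl_eq_of_mem_top hy₁
      intro x
      obtain ⟨m, hm⟩ := hdvd (unitsIncl N E x)
        ((mem_fixedUnits_fixingSubgroup_iff E _).mpr (x : E).2)
      refine ⟨z ^ m, ?_⟩
      rw [← unitsIncl_mem_intUnits_iff A F E N, map_mul, map_inv, htower]
      apply div_mem_of_ord_eq hϖ
      rw [hm, map_zpow, hz, ord_zpow hϖ, hy₁c]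
      ring

/-- Existence of the inertia subgroup with the UR6 property and of order `e(N/K)`. -/
theorem exists_inertia_card775 :
    ∃ I : Subgroup (N ≃ₐ[K] N), I.Normal ∧ IsInertiaSubgroup A F K N I ∧
      ∀ (ϖK : Kˣ) (ϖN : Nˣ), IsUnif A F K ϖK → IsUnif A F N ϖN →
        unitsIncl N K ϖK * ϖN ^ (-(Nat.card I : ℤ)) ∈ intUnits A F N := by
  haveI : FiniteDimensional F N := FiniteDimensional.trans F K N
  obtain ⟨ϖ, hϖ⟩ := H608.exists_isUnif A F N
  obtain ⟨I, hIn, hI⟩ := exists_inertia_dvd A F K N hϖ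
  refine ⟨I, hIn, isInertia_of_dvd A F K N hϖ I hI, ?_⟩
  intro ϖK ϖN hK hN
  obtain ⟨hposT, hdvdT, y₁, hy₁, hy₁c⟩ := hI ⊤
  have htop : Nat.card ↥(I ⊓ (⊤ : Subgroup (N ≃ₐ[K] N))) = Nat.card ↥I := by rw [inf_top_eq]
  rw [htop] at hposT hdvdT hy₁c
  -- `ord (ϖK) = |I|`
  have h1 := hdvdT (unitsIncl N K ϖK) (unitsIncl_mem_fixedUnits ⊤ ϖK)
  have h2 : 0 < ord A F N ϖ (unitsIncl N K ϖK) := ord_unitsIncl_unif_pos (K := K) hϖ hK
  obtain ⟨z, hz⟩ := exists_unitsIncl_eq_of_mem_top hy₁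
  obtain ⟨n, hn⟩ := hK.2.2 z
  have hn' : unitsIncl N K (z * ϖK ^ (-n)) ∈ intUnits A F N :=
    (unitsIncl_mem_intUnits_iff A F K N _).mpr hn
  have h3 : ord A F N ϖ (unitsIncl N K (z * ϖK ^ (-n))) = 0 := (ord_eq_zero_iff hϖ).mpr hn'
  rw [map_mul, map_zpow, ord_mul hϖ, ord_zpow hϖ, hz, hy₁c] at h3
  have h4 : ord A F N ϖ (unitsIncl N K ϖK) ∣ (Nat.card ↥I : ℤ) := ⟨n, by linarith⟩
  have h5 : ord A F N ϖ (unitsIncl N K ϖK) = (Nat.card ↥I : ℤ) :=
    Int.dvd_antisymm h2.le (by positivity) h4 h1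
  apply (ord_eq_zero_iff hϖ).mp
  rw [ord_mul hϖ, ord_zpow hϖ, h5, ord_eq_ord hN hϖ ϖN, ord_self hN]
  ring

end Concrete

/-- **UR6** `InertiaStatement`, exact frozen form. -/
theorem inertia775 : InertiaStatement := by
  intro A F _ _ _ _ _ _ _ _ _ K _ _ _ N _ _ _ _ _ _
  obtain ⟨I, hIn, hI, -⟩ := exists_inertia_card775 A F K N
  exact ⟨I, hIn, hI⟩

/-- **UR6'** `InertiaCardStatement`, exact form of `Local/Spec2.lean`. -/
theorem inertiaCard775 : InertiaCardStatement := by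
  intro A F _ _ _ _ _ _ _ _ _ K _ _ _ N _ _ _ _ _ _
  exact exists_inertia_card775 A F K N

end Fermat.Agent.S55.Local.H775

end
-- ===== PACK-END S55/Local/H775/Inertia.lean

-- ===== PACK-BEGIN S55/G/Rec/Loc/DownH363.lean
section





/-!
# S55 / G / REC / LOC : leaf LOC-DOWN (`DownSpec`) — helper363

Inflation from a finite Galois level `E / K_V` to the absolute level `V` is injective on classes:
if the level cocycle `c = Inf f` on `V` is the coboundary of a level-constant `1`-cochain `x`,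
then `f` is a coboundary.

Proof.  `x` is right-invariant under `G_{E₁} ∩ V` for a finite `E₁ / ℚ_q` (Krasner bridge), hence
takes finitely many values.  Let `N / K_V` be finite Galois containing `E`, `E₁` and the values of
`x`.  Then `x` descends to a `1`-cochain `b` of `Gal(N / K_V)` with values in `Nˣ`, and
`d b = Inf_{E → N} f`.  Inflation `H²(E / K_V) → H²(N / K_V)` is injective (Hilbert 90;
`L.Inv481.inflPair_pull_injective`), so `cls f = 0`.

Main results: `down_of : OpenSpec → DownSpec` and `down : DownSpec`.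
-/

set_option autoImplicit false
set_option linter.style.haveILetI false
set_option linter.unusedSectionVars false

noncomputable section

namespace Fermat.Agent.S55.G.Rec.Loc.H363

open groupCohomology IntermediateField

variable (q : ℕ) [Fact q.Prime]

/-- `V → Gal(ℚ̄_q / K_V)` is onto when `V` is the full fixing subgroup of its fixed field. -/
lemma toAbsGal_surjective (V : Subgroup (PadicAlgCl q ≃ₐ[ℚ_[q]] PadicAlgCl q))
    (hfix : (fixedFld q V).fixingSubgroup = V) : Function.Surjective (toAbsGal q V) := by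
  intro σ
  have hτ : (((IntermediateField.fixingSubgroupEquiv (fixedFld q V)).symm σ :
      ↥(fixedFld q V).fixingSubgroup) : PadicAlgCl q ≃ₐ[ℚ_[q]] PadicAlgCl q) ∈ V :=
    (le_of_eq hfix) ((IntermediateField.fixingSubgroupEquiv (fixedFld q V)).symm σ).2
  refine ⟨⟨_, hτ⟩, ?_⟩
  ext y
  rw [toAbsGal_apply]
  have h2 := congrArg (fun τ : PadicAlgCl q ≃ₐ[fixedFld q V] PadicAlgCl q => τ y)
    ((IntermediateField.fixingSubgroupEquiv (fixedFld q V)).apply_symm_apply σ)
  exact h2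

/-- Restriction `V → Gal(N / K_V)` is onto when `V` is the full fixing subgroup. -/
lemma resHom_surjective (V : Subgroup (PadicAlgCl q ≃ₐ[ℚ_[q]] PadicAlgCl q))
    (hfix : (fixedFld q V).fixingSubgroup = V)
    (N : IntermediateField (fixedFld q V) (PadicAlgCl q)) [Normal (fixedFld q V) N] :
    Function.Surjective (resHom q V N) := by
  intro σ
  obtain ⟨τ, hτ⟩ := AlgEquiv.restrictNormalHom_surjective (F := fixedFld q V) (K₁ := N)
    (PadicAlgCl q) σ
  obtain ⟨g, rfl⟩ := toAbsGal_surjective q V hfix τ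
  exact ⟨g, hτ⟩

/-- A finite Galois level above `E`, a finite `E₁ / ℚ_q` and a finite set `T`. -/
lemma exists_galois_level (K : IntermediateField ℚ_[q] (PadicAlgCl q))
    (E : IntermediateField K (PadicAlgCl q)) [FiniteDimensional K E]
    (E₁ : IntermediateField ℚ_[q] (PadicAlgCl q)) [FiniteDimensional ℚ_[q] E₁]
    (T : Set (PadicAlgCl q)) (hT : T.Finite) :
    ∃ N : IntermediateField K (PadicAlgCl q), FiniteDimensional K N ∧ IsGalois K N ∧ E ≤ N ∧
      (∀ y ∈ E₁, y ∈ N) ∧ ∀ t ∈ T, t ∈ N := by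
  obtain ⟨α, hα⟩ := Field.exists_primitive_element ℚ_[q] E₁
  haveI hTfin : Finite ↑(insert (α : PadicAlgCl q) T) := (hT.insert _).to_subtype
  have hint : ∀ y ∈ insert (α : PadicAlgCl q) T, IsIntegral K y :=
    fun y _ => Algebra.IsIntegral.isIntegral y
  haveI := IntermediateField.finiteDimensional_adjoin (K := K) hint
  haveI : FiniteDimensional K ↥(E ⊔ adjoin K (insert (α : PadicAlgCl q) T)) :=
    IntermediateField.finiteDimensional_sup _ _
  have hle : E ⊔ adjoin K (insert (α : PadicAlgCl q) T) ≤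
      normalClosure K ↥(E ⊔ adjoin K (insert (α : PadicAlgCl q) T)) (PadicAlgCl q) :=
    IntermediateField.le_normalClosure _
  have hsub : ∀ t ∈ insert (α : PadicAlgCl q) T,
      t ∈ normalClosure K ↥(E ⊔ adjoin K (insert (α : PadicAlgCl q) T)) (PadicAlgCl q) :=
    fun t ht => hle ((le_sup_right : adjoin K (insert (α : PadicAlgCl q) T) ≤ _)
      (IntermediateField.subset_adjoin K _ ht))
  refine ⟨normalClosure K ↥(E ⊔ adjoin K (insert (α : PadicAlgCl q) T)) (PadicAlgCl q),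
    inferInstance, ⟨⟩, le_sup_left.trans hle, ?_, fun t ht => hsub t (Set.mem_insert_of_mem _ ht)⟩
  intro y hy
  have hy' : (⟨y, hy⟩ : E₁) ∈ IntermediateField.adjoin ℚ_[q] {α} := by rw [hα]; trivial
  have hyα : y ∈ IntermediateField.adjoin ℚ_[q] {(α : PadicAlgCl q)} := by
    have h1 : IntermediateField.lift (IntermediateField.adjoin ℚ_[q] {α})
        = IntermediateField.adjoin ℚ_[q] {(α : PadicAlgCl q)} := by
      rw [IntermediateField.lift_adjoin, Set.image_singleton]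
    rw [← h1]
    exact (IntermediateField.mem_lift (⟨y, hy⟩ : E₁)).2 hy'
  have hle2 : IntermediateField.adjoin ℚ_[q] {(α : PadicAlgCl q)} ≤
      (normalClosure K ↥(E ⊔ adjoin K (insert (α : PadicAlgCl q) T))
        (PadicAlgCl q)).restrictScalars ℚ_[q] := by
    rw [IntermediateField.adjoin_le_iff]
    rintro z hz
    rw [Set.mem_singleton_iff] at hz
    subst hz
    exact hsub _ (Set.mem_insert _ _)
  exact hle2 hyα

/-- If `g, g' ∈ V` have the same restriction to a level `M ⊇ E₁`, then `g⁻¹ g'` fixes `E₁`. -/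
lemma inv_mul_mem_fixingSubgroup (V : Subgroup (PadicAlgCl q ≃ₐ[ℚ_[q]] PadicAlgCl q))
    (M : IntermediateField (fixedFld q V) (PadicAlgCl q)) [Normal (fixedFld q V) M]
    (E₁ : IntermediateField ℚ_[q] (PadicAlgCl q)) (hM : ∀ y ∈ E₁, y ∈ M)
    (g g' : ↥V) (h : resHom q V M g = resHom q V M g') :
    ((g⁻¹ * g' : ↥V) : PadicAlgCl q ≃ₐ[ℚ_[q]] PadicAlgCl q) ∈ E₁.fixingSubgroup := by
  rw [IntermediateField.mem_fixingSubgroup_iff]
  intro y hy
  have h1 := resHom_apply_coe q V M g ⟨y, hM y hy⟩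
  have h2 := resHom_apply_coe q V M g' ⟨y, hM y hy⟩
  rw [h] at h1
  have h3 : (g : PadicAlgCl q ≃ₐ[ℚ_[q]] PadicAlgCl q) y =
      (g' : PadicAlgCl q ≃ₐ[ℚ_[q]] PadicAlgCl q) y := h1.symm.trans h2
  show (g : PadicAlgCl q ≃ₐ[ℚ_[q]] PadicAlgCl q)⁻¹
    ((g' : PadicAlgCl q ≃ₐ[ℚ_[q]] PadicAlgCl q) y) = y
  rw [← h3]
  exact AlgEquiv.symm_apply_apply _ y

/-- The unit of an intermediate field with a given value. -/
def unitOfMem {K : Type} [Field K] [Algebra K (PadicAlgCl q)]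
    (N : IntermediateField K (PadicAlgCl q)) (u : (PadicAlgCl q)ˣ)
    (h : (u : PadicAlgCl q) ∈ N) : (↥N)ˣ :=
  Units.mk0 ⟨(u : PadicAlgCl q), h⟩ (fun h0 => u.ne_zero (congrArg Subtype.val h0))

lemma unitsIncl_unitOfMem (V : Subgroup (PadicAlgCl q ≃ₐ[ℚ_[q]] PadicAlgCl q))
    (N : IntermediateField (fixedFld q V) (PadicAlgCl q)) (u : (PadicAlgCl q)ˣ)
    (h : (u : PadicAlgCl q) ∈ N) : unitsIncl q V N (unitOfMem q N u h) = u := by
  apply Units.ext
  rfl

lemma unitsIncl_injective (V : Subgroup (PadicAlgCl q ≃ₐ[ℚ_[q]] PadicAlgCl q))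
    (N : IntermediateField (fixedFld q V) (PadicAlgCl q)) :
    Function.Injective (unitsIncl q V N) := by
  intro a b hab
  apply Units.ext
  apply Subtype.ext
  exact congrArg (fun u : (PadicAlgCl q)ˣ => (u : PadicAlgCl q)) hab

/-- equivariance of the inclusion `Nˣ → ℚ̄_qˣ` -/
lemma unitsIncl_smul (V : Subgroup (PadicAlgCl q ≃ₐ[ℚ_[q]] PadicAlgCl q))
    (N : IntermediateField (fixedFld q V) (PadicAlgCl q)) [Normal (fixedFld q V) N]
    (g : ↥V) (u : (↥N)ˣ) :
    ((unitsIncl q V N (Additive.toMul ((L.unitsRep (fixedFld q V) N).ρ (resHom q V N g)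
        (Additive.ofMul u))) : (PadicAlgCl q)ˣ) : PadicAlgCl q) =
      (g : PadicAlgCl q ≃ₐ[ℚ_[q]] PadicAlgCl q) ((unitsIncl q V N u : (PadicAlgCl q)ˣ) :
        PadicAlgCl q) :=
  resHom_apply_coe q V N g (u : ↥N)

/-- The inclusion `Nˣ → ℚ̄_qˣ`, additively, between the Galois modules. -/
def inclAdd (V : Subgroup (PadicAlgCl q ≃ₐ[ℚ_[q]] PadicAlgCl q))
    (N : IntermediateField (fixedFld q V) (PadicAlgCl q)) :
    L.unitsRep (fixedFld q V) N →+ lModOn q V :=
  (MonoidHom.toAdditive (unitsIncl q V N) : Additive (↥N)ˣ →+ Additive (PadicAlgCl q)ˣ)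

lemma inclAdd_apply (V : Subgroup (PadicAlgCl q ≃ₐ[ℚ_[q]] PadicAlgCl q))
    (N : IntermediateField (fixedFld q V) (PadicAlgCl q)) (a : L.unitsRep (fixedFld q V) N) :
    inclAdd q V N a = Additive.ofMul (unitsIncl q V N (Additive.toMul a)) := rfl

lemma inclAdd_injective (V : Subgroup (PadicAlgCl q ≃ₐ[ℚ_[q]] PadicAlgCl q))
    (N : IntermediateField (fixedFld q V) (PadicAlgCl q)) :
    Function.Injective (inclAdd q V N) := by
  intro a b hab
  apply Additive.toMul.injective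
  apply unitsIncl_injective q V N
  exact congrArg Additive.toMul hab

lemma inclAdd_ρ (V : Subgroup (PadicAlgCl q ≃ₐ[ℚ_[q]] PadicAlgCl q))
    (N : IntermediateField (fixedFld q V) (PadicAlgCl q)) [Normal (fixedFld q V) N]
    (g : ↥V) (a : L.unitsRep (fixedFld q V) N) :
    inclAdd q V N ((L.unitsRep (fixedFld q V) N).ρ (resHom q V N g) a) =
      (lModOn q V).ρ g (inclAdd q V N a) := by
  apply Additive.toMul.injective
  apply Units.ext
  exact resHom_apply_coe q V N g ((Additive.toMul a : (↥N)ˣ) : ↥N)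

/-- compatibility of the restrictions `V → Gal(N/K_V) → Gal(E/K_V)` -/
lemma restrictNormalHom_resHom (V : Subgroup (PadicAlgCl q ≃ₐ[ℚ_[q]] PadicAlgCl q))
    (E N : IntermediateField (fixedFld q V) (PadicAlgCl q)) [Normal (fixedFld q V) E]
    [Normal (fixedFld q V) N] [Algebra ↥E ↥N] [IsScalarTower (fixedFld q V) ↥E ↥N]
    (hι : ∀ y : ↥E, ((algebraMap ↥E ↥N y : ↥N) : PadicAlgCl q) = (y : PadicAlgCl q)) (g : ↥V) :
    AlgEquiv.restrictNormalHom (F := fixedFld q V) (K₁ := ↥N) ↥E (resHom q V N g) =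
      resHom q V E g := by
  ext y
  have h1 : algebraMap ↥E ↥N ((AlgEquiv.restrictNormalHom (F := fixedFld q V) (K₁ := ↥N) ↥E
      (resHom q V N g)) y) = (resHom q V N g) (algebraMap ↥E ↥N y) :=
    AlgEquiv.restrictNormal_commutes (resHom q V N g) ↥E y
  have h2 : ((algebraMap ↥E ↥N ((AlgEquiv.restrictNormalHom (F := fixedFld q V) (K₁ := ↥N) ↥E
      (resHom q V N g)) y) : ↥N) : PadicAlgCl q) =
      (((resHom q V N g) (algebraMap ↥E ↥N y) : ↥N) : PadicAlgCl q) := by rw [h1]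
  rw [hι, resHom_apply_coe, hι] at h2
  exact h2.trans (resHom_apply_coe q V E g y).symm

/-- the inflation of `f` to `N`, pushed to `ℚ̄_qˣ`, is the absolute inflation of `f` -/
lemma inclAdd_pullCocycle (V : Subgroup (PadicAlgCl q ≃ₐ[ℚ_[q]] PadicAlgCl q))
    (E N : IntermediateField (fixedFld q V) (PadicAlgCl q)) [Normal (fixedFld q V) E]
    [Normal (fixedFld q V) N] [Algebra ↥E ↥N] [IsScalarTower (fixedFld q V) ↥E ↥N]
    (hι : ∀ y : ↥E, ((algebraMap ↥E ↥N y : ↥N) : PadicAlgCl q) = (y : PadicAlgCl q))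
    (f : cocycles₂ (L.unitsRep (fixedFld q V) E)) (g h : ↥V) :
    inclAdd q V N (((L.Inv481.inflPair (fixedFld q V) E N).pullCocycle f :
        (N ≃ₐ[fixedFld q V] N) × (N ≃ₐ[fixedFld q V] N) → L.unitsRep (fixedFld q V) N)
        (resHom q V N g, resHom q V N h)) =
      inflCochain₂ q V E (f : (E ≃ₐ[fixedFld q V] E) × (E ≃ₐ[fixedFld q V] E) →
        L.unitsRep (fixedFld q V) E) (g, h) := by
  rw [(L.Inv481.inflPair (fixedFld q V) E N).isPull_pullCocycle f (resHom q V N g)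
    (resHom q V N h)]
  have r1 : (L.Inv481.inflPair (fixedFld q V) E N).f (resHom q V N g) = resHom q V E g :=
    restrictNormalHom_resHom q V E N hι g
  have r2 : (L.Inv481.inflPair (fixedFld q V) E N).f (resHom q V N h) = resHom q V E h :=
    restrictNormalHom_resHom q V E N hι h
  rw [r1, r2]
  apply Additive.toMul.injective
  apply Units.ext
  exact hι _

/-- Descent of a level-constant `1`-cochain: if `x` only depends on the restriction to `N` and
takes values in `N`, it comes from a cochain of `Gal(N / K_V)`. -/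
lemma exists_descent (V : Subgroup (PadicAlgCl q ≃ₐ[ℚ_[q]] PadicAlgCl q))
    (hfix : (fixedFld q V).fixingSubgroup = V)
    (N : IntermediateField (fixedFld q V) (PadicAlgCl q)) [Normal (fixedFld q V) N]
    (x : ↥V → lModOn q V)
    (hdep : ∀ g g' : ↥V, resHom q V N g = resHom q V N g' → x g = x g')
    (hval : ∀ g : ↥V, ((Additive.toMul (x g) : (PadicAlgCl q)ˣ) : PadicAlgCl q) ∈ N) :
    ∃ b : (N ≃ₐ[fixedFld q V] N) → L.unitsRep (fixedFld q V) N,
      ∀ g : ↥V, inclAdd q V N (b (resHom q V N g)) = x g := by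
  have hsurj := resHom_surjective q V hfix N
  choose lift hlift using hsurj
  refine ⟨fun σ => Additive.ofMul (unitOfMem q N (Additive.toMul (x (lift σ))) (hval (lift σ))),
    fun g => ?_⟩
  show Additive.ofMul (unitsIncl q V N (unitOfMem q N _ _)) = _
  rw [unitsIncl_unitOfMem, hdep _ g (hlift _)]
  rfl

/-- If the absolute inflation of `f` is `d x` with `x` descending to the level `N ⊇ E`, then the
inflation of `f` to `N` is a coboundary. -/
lemma pullCocycle_mem_coboundaries₂ (V : Subgroup (PadicAlgCl q ≃ₐ[ℚ_[q]] PadicAlgCl q))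
    (hfix : (fixedFld q V).fixingSubgroup = V)
    (E N : IntermediateField (fixedFld q V) (PadicAlgCl q)) [Normal (fixedFld q V) E]
    [Normal (fixedFld q V) N] [Algebra ↥E ↥N] [IsScalarTower (fixedFld q V) ↥E ↥N]
    (hι : ∀ y : ↥E, ((algebraMap ↥E ↥N y : ↥N) : PadicAlgCl q) = (y : PadicAlgCl q))
    (f : cocycles₂ (L.unitsRep (fixedFld q V) E))
    (x : ↥V → lModOn q V)
    (hd : (d₁₂ (lModOn q V)).hom x = inflCochain₂ q V E
      (f : (E ≃ₐ[fixedFld q V] E) × (E ≃ₐ[fixedFld q V] E) → L.unitsRep (fixedFld q V) E))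
    (b : (N ≃ₐ[fixedFld q V] N) → L.unitsRep (fixedFld q V) N)
    (hb : ∀ g : ↥V, inclAdd q V N (b (resHom q V N g)) = x g) :
    ((L.Inv481.inflPair (fixedFld q V) E N).pullCocycle f :
        (N ≃ₐ[fixedFld q V] N) × (N ≃ₐ[fixedFld q V] N) → L.unitsRep (fixedFld q V) N) ∈
      coboundaries₂ (L.unitsRep (fixedFld q V) N) := by
  refine ⟨b, ?_⟩
  funext ⟨σ, τ⟩
  obtain ⟨g, rfl⟩ := resHom_surjective q V hfix N σ
  obtain ⟨h, rfl⟩ := resHom_surjective q V hfix N τ
  apply inclAdd_injective q V N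
  have h1 := inclAdd_pullCocycle q V E N hι f g h
  have h2 : (d₁₂ (lModOn q V)).hom x (g, h) = (lModOn q V).ρ g (x h) - x (g * h) + x g :=
    d₁₂_hom_apply _ _ _
  have h3 : (d₁₂ (L.unitsRep (fixedFld q V) N)).hom b (resHom q V N g, resHom q V N h) =
      (L.unitsRep (fixedFld q V) N).ρ (resHom q V N g) (b (resHom q V N h)) -
        b (resHom q V N g * resHom q V N h) + b (resHom q V N g) :=
    d₁₂_hom_apply _ _ _
  have h4 : inclAdd q V N ((L.unitsRep (fixedFld q V) N).ρ (resHom q V N g)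
      (b (resHom q V N h)) - b (resHom q V N g * resHom q V N h) + b (resHom q V N g)) =
      (lModOn q V).ρ g (x h) - x (g * h) + x g := by
    rw [map_add, map_sub, inclAdd_ρ, ← map_mul, hb, hb, hb]
  exact (congrArg (inclAdd q V N) h3).trans
    (h4.trans (h2.symm.trans ((congrFun hd (g, h)).trans h1.symm)))

/-- Injectivity of inflation at finite level, in the form needed here. -/
lemma cls_eq_zero_of_pullCocycle (K E N : Type) [Field K] [Field E] [Field N] [Algebra K E]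
    [Algebra K N] [Algebra E N] [IsScalarTower K E N] [Normal K E] [FiniteDimensional K N]
    [IsGalois K N] (f : cocycles₂ (L.unitsRep K E))
    (h : ((L.Inv481.inflPair K E N).pullCocycle f : (N ≃ₐ[K] N) × (N ≃ₐ[K] N) → L.unitsRep K N) ∈
      coboundaries₂ (L.unitsRep K N)) : L.cls f = 0 := by
  apply L.Inv481.inflPair_pull_injective K E N
  rw [map_zero, L.Inv481.GalPair.pull_cls]
  exact (H2π_eq_zero_iff _).2 h

/-- **LOC-DOWN**: inflation to the absolute level is injective on classes. -/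
theorem down_of (hO : OpenSpec) : DownSpec := by
  intro q _ V hV E _ _ f c hinfl hcob
  obtain ⟨hfin, hfix⟩ := hO q V hV
  obtain ⟨x, hx, hd⟩ := (mem_levelCoboundaries₂_iff _ _ _).1 hcob
  obtain ⟨F, hF, hxF⟩ := hx
  haveI := hF
  obtain ⟨E₁, hE₁, hE₁F⟩ := Bridge.exists_local_level_of_global q F
  haveI := hE₁
  have hxE₁ : ∀ g s : ↥V,
      (s : PadicAlgCl q ≃ₐ[ℚ_[q]] PadicAlgCl q) ∈ E₁.fixingSubgroup → x (g * s) = x g :=
    fun g s hs => hxF g s (hE₁F _ hs)
  -- `x g` depends only on the restriction of `g` to a level containing `E₁`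
  have hdep : ∀ (M : IntermediateField (fixedFld q V) (PadicAlgCl q)) [Normal (fixedFld q V) M],
      (∀ y ∈ E₁, y ∈ M) → ∀ g g' : ↥V, resHom q V M g = resHom q V M g' → x g = x g' := by
    intro M _ hM g g' h
    have := hxE₁ g (g⁻¹ * g') (inv_mul_mem_fixingSubgroup q V M E₁ hM g g' h)
    rw [mul_inv_cancel_left] at this
    exact this.symm
  -- first level: finitely many values
  obtain ⟨N₁, hN₁fin, hN₁gal, -, hN₁E₁, -⟩ :=
    exists_galois_level q (fixedFld q V) E E₁ ∅ Set.finite_empty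
  haveI := hN₁fin
  haveI := hN₁gal
  have hsurj₁ := resHom_surjective q V hfix N₁
  choose lift₁ hlift₁ using hsurj₁
  have hT : (Set.range (fun σ : N₁ ≃ₐ[fixedFld q V] N₁ =>
      ((Additive.toMul (x (lift₁ σ)) : (PadicAlgCl q)ˣ) : PadicAlgCl q))).Finite :=
    Set.finite_range _
  -- second level: contains `E`, `E₁` and the values of `x`
  obtain ⟨N, hNfin, hNgal, hEN, hNE₁, hNT⟩ := exists_galois_level q (fixedFld q V) E E₁ _ hT
  haveI := hNfin
  haveI := hNgal
  have hval : ∀ g : ↥V, ((Additive.toMul (x g) : (PadicAlgCl q)ˣ) : PadicAlgCl q) ∈ N := by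
    intro g
    apply hNT
    refine ⟨resHom q V N₁ g, ?_⟩
    show ((Additive.toMul (x (lift₁ (resHom q V N₁ g))) : (PadicAlgCl q)ˣ) : PadicAlgCl q) = _
    rw [hdep N₁ hN₁E₁ _ g (hlift₁ _)]
  obtain ⟨b, hb⟩ := exists_descent q V hfix N x (hdep N hNE₁) hval
  -- the tower `K_V ⊆ E ⊆ N`
  letI : Algebra ↥E ↥N := (IntermediateField.inclusion hEN).toRingHom.toAlgebra
  haveI : IsScalarTower (fixedFld q V) ↥E ↥N := IsScalarTower.of_algebraMap_eq (fun _ => rfl)
  have hι : ∀ y : ↥E, ((algebraMap ↥E ↥N y : ↥N) : PadicAlgCl q) = (y : PadicAlgCl q) :=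
    fun _ => rfl
  have hd' : (d₁₂ (lModOn q V)).hom x = inflCochain₂ q V E
      (f : (E ≃ₐ[fixedFld q V] E) × (E ≃ₐ[fixedFld q V] E) → L.unitsRep (fixedFld q V) E) :=
    hd.trans hinfl
  exact cls_eq_zero_of_pullCocycle (fixedFld q V) E N f
    (pullCocycle_mem_coboundaries₂ q V hfix E N hι f x hd' b hb)

/-- **LOC-DOWN**, unconditionally (`OpenSpec` is `H478.openSpec`). -/
theorem down : DownSpec := down_of H478.openSpec

end Fermat.Agent.S55.G.Rec.Loc.H363

end

end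
-- ===== PACK-END S55/G/Rec/Loc/DownH363.lean

-- ===== PACK-BEGIN S55/L/UnrInv/Pack.lean
section



/-!
# S55, layer L, unramified invariants: the package of data of an unramified extension
-/

set_option autoImplicit false
set_option linter.style.haveILetI false

namespace Fermat.Agent.S55.L.UnrInv

open groupCohomology

/-- The data attached to an unramified extension `E/K` of local fields which is used to define
the invariant map. -/
structure UnrPack (K E : Type) [Field K] [Field E] [Algebra K E] where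
  /-- ring of integers of `K` -/
  A : ValuationSubring K
  /-- ring of integers of `E` -/
  B : ValuationSubring E
  hA : IsLocalRingOfIntegers A
  hB : IsLocalRingOfIntegers B
  /-- the Frobenius -/
  φ : E ≃ₐ[K] E
  frob : ∀ x ∈ B, φ x - x ^ Nat.card (IsLocalRing.ResidueField A) ∈ B.nonunits
  gen : ∀ g : E ≃ₐ[K] E, g ∈ Subgroup.zpowers φ
  ordπ : ∀ π : K, IsUniformizer A π → ordZ B hB.1 (algebraMap K E π) = 1
  galB : ∀ (g : E ≃ₐ[K] E) (x : E), g x ∈ B ↔ x ∈ B
  galNon : ∀ (g : E ≃ₐ[K] E) (x : E), g x ∈ B.nonunits ↔ x ∈ B.nonunits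
  intAB : ∀ x : K, algebraMap K E x ∈ B ↔ x ∈ A
  inertia : ∀ g : E ≃ₐ[K] E, (∀ x ∈ B, g x - x ∈ B.nonunits) → g = 1

variable {K E : Type} [Field K] [Field E] [Algebra K E]

/-- Existence of the package. -/
theorem exists_unrPack [FiniteDimensional K E] [IsLocalFld K]
    (h0 : RingOfIntegersUniqueSpec) (h1 : FiniteExtSpec)
    (hcyc : UnramifiedCyclicSpec) (hint : IntegersComapSpec) (hin : UnramifiedInertiaSpec)
    (hu : IsUnramifiedExt K E) : Nonempty (UnrPack K E) := by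
  haveI : IsLocalFld E := h1 K E
  obtain ⟨A, B, π₀, hA, hB, hπ₀A, hπ₀B⟩ := hu
  obtain ⟨-, φ, ⟨A₁, B₁, hA₁, hB₁, hfrob⟩, hgen⟩ := hcyc K E ⟨A, B, π₀, hA, hB, hπ₀A, hπ₀B⟩
  obtain rfl : A₁ = A := h0 K A₁ A hA₁ hA
  obtain rfl : B₁ = B := h0 E B₁ B hB₁ hB
  have hAB : ∀ x : K, algebraMap K E x ∈ B₁ ↔ x ∈ A₁ := hint K E A₁ B₁ hA hB
  refine ⟨⟨A₁, B₁, hA, hB, φ, hfrob, hgen, ?_, ?_, ?_, hAB, ?_⟩⟩
  · intro π hπ
    have hπ0 : π ≠ 0 := uniformizer_ne_zero A₁ hπ
    have hπ₀0 : π₀ ≠ 0 := uniformizer_ne_zero A₁ hπ₀A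
    have hu0 : π / π₀ ≠ 0 := div_ne_zero hπ0 hπ₀0
    have h1 : ordZ A₁ hA.1 (π / π₀) = 0 := by
      rw [div_eq_mul_inv, ordZ_mul A₁ hA.1 hπ0 (inv_ne_zero hπ₀0), ordZ_inv,
        ordZ_uniformizer A₁ hA.1 hπ, ordZ_uniformizer A₁ hA.1 hπ₀A]
      ring
    obtain ⟨h2, h3⟩ := (ordZ_eq_zero_iff A₁ hA.1 hu0).mp h1
    have h4 : ordZ B₁ hB.1 (algebraMap K E (π / π₀)) = 0 := by
      rw [ordZ_eq_zero_iff B₁ hB.1 ((map_ne_zero _).mpr hu0), ← map_inv₀]
      exact ⟨(hAB _).mpr h2, (hAB _).mpr h3⟩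
    have h5 : algebraMap K E π = algebraMap K E (π / π₀) * algebraMap K E π₀ := by
      rw [← map_mul, div_mul_cancel₀ _ hπ₀0]
    rw [h5, ordZ_mul B₁ hB.1 ((map_ne_zero _).mpr hu0) ((map_ne_zero _).mpr hπ₀0), h4,
      ordZ_uniformizer B₁ hB.1 hπ₀B]
    ring
  · intro g x
    exact mem_of_ringEquiv hint g.toRingEquiv B₁ B₁ hB hB
  · intro g x
    exact mem_nonunits_of_ringEquiv hint g.toRingEquiv B₁ B₁ hB hB
  · intro g hg
    exact hin K E ⟨A₁, B₁, π₀, hA, hB, hπ₀A, hπ₀B⟩ B₁ hB g hg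

namespace UnrPack

variable (P : UnrPack K E)

/-- the valuation of `E` as an additive map on the Galois module `Eˣ` -/
noncomputable def w : (unitsRep K E) →+ ℤ where
  toFun x := ordZ P.B P.hB.1 ((Additive.toMul (α := Eˣ) x : Eˣ) : E)
  map_zero' := by
    change ordZ P.B P.hB.1 ((1 : Eˣ) : E) = 0
    simp
  map_add' x y := by
    change ordZ P.B P.hB.1
      (((Additive.toMul (α := Eˣ) x * Additive.toMul (α := Eˣ) y : Eˣ)) : E) = _
    rw [Units.val_mul, ordZ_mul P.B P.hB.1 (Units.ne_zero _) (Units.ne_zero _)]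

theorem w_apply (x : unitsRep K E) :
    P.w x = ordZ P.B P.hB.1 ((Additive.toMul (α := Eˣ) x : Eˣ) : E) := rfl

theorem ordZ_gal (g : E ≃ₐ[K] E) (x : E) : ordZ P.B P.hB.1 (g x) = ordZ P.B P.hB.1 x :=
  ordZ_equiv P.B P.hB.1 P.B P.hB.1 g.toRingEquiv
    (fun x hx => (P.galB g x).mpr hx)
    (fun y hy => by
      have := (P.galB g (g.symm y))
      rw [AlgEquiv.apply_symm_apply] at this
      exact this.mp hy) x

theorem w_invariant (g : E ≃ₐ[K] E) (x : unitsRep K E) :
    P.w ((unitsRep K E).ρ g x) = P.w x :=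
  P.ordZ_gal g _

end UnrPack

end Fermat.Agent.S55.L.UnrInv

end
-- ===== PACK-END S55/L/UnrInv/Pack.lean

-- ===== PACK-BEGIN S55/E1/H603/FiniteRamification.lean
section
/-
S55 bridge (helper603): FINITENESS OF RAMIFICATION in the Prelude's valuation-subring language.

`exists_isUnramifiedOutside F : ∃ S', F.IsUnramifiedOutside S'` for every finite `F/ℚ` inside `ℚ̄`,
and `exists_isUnramifiedOutside_ge S F : ∃ S' ⊇ S, F.IsUnramifiedOutside S'`.
Hence every finite Galois `F'/ℚ` is a `Tow.Level S'` for some `S' ⊇ S`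
(`exists_level_of_nLevel`).

Proof: `F = ℚ(α)`; for almost all `q` the differences of the conjugates of `α` are units at
every place above `q`, and an element of inertia moves `α` to a congruent conjugate.
Mathlib + Prelude + Bridge (on main).  No sorry.
-/


set_option autoImplicit false

namespace Fermat.Agent.S55.E1.H603

open Fermat.Agent.S55.Tow

section Units

variable (A : ValuationSubring Qbar)

theorem intCast_mem' (m : ℤ) : ((m : ℤ) : Qbar) ∈ A := intCast_mem A m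

/-- An integer prime to `q` is a unit at every place above `q`. -/
theorem inv_intCast_mem {q : ℕ} (hq : q.Prime) (hA : A.LiesOverPrime q) (m : ℤ)
    (hm : ¬ ((q : ℤ) ∣ m)) : ((m : Qbar))⁻¹ ∈ A := by
  have hcop : IsCoprime m (q : ℤ) := by
    have hqz : Prime (q : ℤ) := Nat.prime_iff_prime_int.1 hq
    exact ((hqz.coprime_iff_not_dvd).2 hm).symm
  obtain ⟨a, b, hab⟩ := hcop
  -- `m` is not a nonunit
  have hv : ¬ A.valuation (m : Qbar) < 1 := by
    intro hlt
    have hmn : (m : Qbar) ∈ A.nonunits := (A.mem_nonunits_iff).2 hlt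
    have hqn : ((q : ℕ) : Qbar) ∈ A.nonunits := hA
    have hmul : ∀ (c x : Qbar), c ∈ A → x ∈ A.nonunits → c * x ∈ A.nonunits := by
      intro c x hc hx
      rw [A.mem_nonunits_iff] at hx ⊢
      rw [map_mul]
      have hc1 : A.valuation c ≤ 1 := (A.valuation_le_one_iff c).2 hc
      calc A.valuation c * A.valuation x ≤ 1 * A.valuation x := by gcongr
        _ = A.valuation x := one_mul _
        _ < 1 := hx
    have h1 : (a : Qbar) * m ∈ A.nonunits := hmul _ _ (intCast_mem A a) hmn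
    have h2 : (b : Qbar) * (q : ℕ) ∈ A.nonunits := hmul _ _ (intCast_mem A b) hqn
    have h3 : (a : Qbar) * m + (b : Qbar) * (q : ℕ) ∈ A.nonunits := by
      rw [A.mem_nonunits_iff] at h1 h2 ⊢
      exact lt_of_le_of_lt (A.valuation.map_add _ _) (max_lt h1 h2)
    have h4 : (a : Qbar) * m + (b : Qbar) * (q : ℕ) = 1 := by
      have := congrArg (fun z : ℤ => (z : Qbar)) hab
      simpa using this
    rw [h4, A.mem_nonunits_iff, map_one] at h3
    exact lt_irrefl _ h3
  have hm0 : (m : Qbar) ≠ 0 := by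
    intro h0
    rw [h0, map_zero] at hv
    exact hv zero_lt_one
  rw [← A.valuation_le_one_iff, map_inv₀]
  have hge : 1 ≤ A.valuation (m : Qbar) := not_lt.1 hv
  exact inv_le_one_of_one_le₀ hge

/-- An element integral over `ℤ` lies in every valuation subring. -/
theorem mem_of_isIntegral_int {x : Qbar} (hx : IsIntegral ℤ x) : x ∈ A := by
  have h1 : IsIntegral A x := hx.tower_top
  obtain ⟨y, rfl⟩ := IsIntegrallyClosed.isIntegral_iff.1 h1
  exact y.2

end Units

/-- Every element of `ℚ̄` is integral at all places above all but finitely many primes. -/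
theorem exists_int_forall_mem (β : Qbar) :
    ∃ y : ℤ, y ≠ 0 ∧ ∀ q : ℕ, q.Prime → ¬ ((q : ℤ) ∣ y) →
      ∀ A : ValuationSubring Qbar, A.LiesOverPrime q → β ∈ A := by
  have halgQ : IsAlgebraic ℚ β := (Fermat.Agent.S55.Bridge.isAlgebraic_Qbar).isAlgebraic β
  have halg : IsAlgebraic ℤ β := (IsFractionRing.isAlgebraic_iff ℤ ℚ Qbar).2 halgQ
  obtain ⟨y, hy0, hy⟩ := halg.exists_integral_multiple
  refine ⟨y, hy0, fun q hq hqy A hA => ?_⟩
  have h1 : y • β ∈ A := mem_of_isIntegral_int A hy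
  have h2 : ((y : Qbar))⁻¹ ∈ A := inv_intCast_mem A hq hA y hqy
  have hy0' : (y : Qbar) ≠ 0 := by exact_mod_cast hy0
  have : β = ((y : Qbar))⁻¹ * (y • β) := by
    rw [zsmul_eq_mul, ← mul_assoc, inv_mul_cancel₀ hy0', one_mul]
  rw [this]
  exact A.mul_mem _ _ h2 h1

/-- Every nonzero element of `ℚ̄` is a unit at all places above all but finitely many primes. -/
theorem exists_int_forall_inv_mem (β : Qbar) :
    ∃ y : ℤ, y ≠ 0 ∧ ∀ q : ℕ, q.Prime → ¬ ((q : ℤ) ∣ y) →
      ∀ A : ValuationSubring Qbar, A.LiesOverPrime q → β⁻¹ ∈ A :=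
  exists_int_forall_mem β⁻¹

/-- A finite set of elements: common bad integer. -/
theorem exists_int_forall_mem_finset (T : Finset Qbar) :
    ∃ y : ℤ, y ≠ 0 ∧ ∀ q : ℕ, q.Prime → ¬ ((q : ℤ) ∣ y) →
      ∀ A : ValuationSubring Qbar, A.LiesOverPrime q → ∀ β ∈ T, β ∈ A ∧ β⁻¹ ∈ A := by
  classical
  induction T using Finset.induction_on with
  | empty => exact ⟨1, one_ne_zero, fun _ _ _ _ _ β hβ => absurd hβ (Finset.notMem_empty β)⟩
  | insert b T _ ih =>
    obtain ⟨y, hy0, hy⟩ := ih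
    obtain ⟨y₁, hy₁0, hy₁⟩ := exists_int_forall_mem b
    obtain ⟨y₂, hy₂0, hy₂⟩ := exists_int_forall_inv_mem b
    refine ⟨y * y₁ * y₂, mul_ne_zero (mul_ne_zero hy0 hy₁0) hy₂0, fun q hq hqy A hA β hβ => ?_⟩
    have hq1 : ¬ ((q : ℤ) ∣ y) := fun h => hqy (Dvd.dvd.mul_right (Dvd.dvd.mul_right h _) _)
    have hq2 : ¬ ((q : ℤ) ∣ y₁) := fun h => hqy (Dvd.dvd.mul_right (Dvd.dvd.mul_left h _) _)
    have hq3 : ¬ ((q : ℤ) ∣ y₂) := fun h => hqy (Dvd.dvd.mul_left h _)
    rcases Finset.mem_insert.1 hβ with rfl | hβT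
    · exact ⟨hy₁ q hq hq2 A hA, hy₂ q hq hq3 A hA⟩
    · exact hy q hq hq1 A hA β hβT

/-- **Finiteness of ramification.** -/
theorem exists_isUnramifiedOutside (F : IntermediateField ℚ Qbar) (hF : FiniteDimensional ℚ F) :
    ∃ S' : Finset Nat.Primes, F.IsUnramifiedOutside S' := by
  classical
  obtain ⟨α, hα⟩ := Field.exists_primitive_element ℚ F
  -- the conjugates of `α`
  let f := minpoly ℚ (α : Qbar)
  have hint : IsIntegral ℚ (α : Qbar) :=
    (Fermat.Agent.S55.Bridge.isAlgebraic_Qbar).isAlgebraic (α : Qbar) |>.isIntegral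
  have hf0 : f ≠ 0 := minpoly.ne_zero hint
  let R : Finset Qbar := (f.rootSet Qbar).toFinset
  let D : Finset Qbar := insert (α : Qbar) ((R ×ˢ R).image fun x => x.1 - x.2)
  obtain ⟨y, hy0, hy⟩ := exists_int_forall_mem_finset D
  -- the bad primes
  let Sn : Finset ℕ := y.natAbs.primeFactors
  let S' : Finset Nat.Primes := Sn.attach.image fun q => ⟨q.1, Nat.prime_of_mem_primeFactors q.2⟩
  refine ⟨S', hF, fun q hq A hA σ hσ => ?_⟩
  have hqy : ¬ (((q : ℕ) : ℤ) ∣ y) := by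
    intro hdvd
    apply hq
    have h1 : (q : ℕ) ∣ y.natAbs := Int.natCast_dvd.1 hdvd
    have h2 : (q : ℕ) ∈ Sn :=
      Nat.mem_primeFactors.2 ⟨q.2, h1, Int.natAbs_ne_zero.2 hy0⟩
    exact Finset.mem_image.2 ⟨⟨(q : ℕ), h2⟩, Finset.mem_attach _ _, Subtype.ext rfl⟩
  have hD := hy q q.2 hqy A hA
  have hαA : (α : Qbar) ∈ A := (hD _ (Finset.mem_insert_self _ _)).1
  rw [Fermat.Agent.S55.Bridge.mem_inertiaSubgroupIn_iff] at hσ
  have hnon : σ (α : Qbar) - α ∈ A.nonunits := hσ.2 _ hαA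
  -- `σ α` is a conjugate of `α`
  have hαR : (α : Qbar) ∈ R := by
    rw [Set.mem_toFinset, Polynomial.mem_rootSet]
    exact ⟨hf0, minpoly.aeval ℚ _⟩
  have hσR : σ (α : Qbar) ∈ R := by
    rw [Set.mem_toFinset, Polynomial.mem_rootSet]
    exact ⟨hf0, minpoly.aeval_algHom ℚ (σ : Qbar →ₐ[ℚ] Qbar) _⟩
  have hfix : σ (α : Qbar) = α := by
    by_contra hne
    have hd : σ (α : Qbar) - α ∈ D :=
      Finset.mem_insert_of_mem (Finset.mem_image.2
        ⟨(σ (α : Qbar), (α : Qbar)), Finset.mem_product.2 ⟨hσR, hαR⟩, rfl⟩)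
    have hinv := (hD _ hd).2
    have hne0 : σ (α : Qbar) - α ≠ 0 := sub_ne_zero.2 hne
    rw [A.mem_nonunits_iff] at hnon
    rw [← A.valuation_le_one_iff, map_inv₀] at hinv
    have hpos : 0 < A.valuation (σ (α : Qbar) - α) :=
      lt_of_le_of_ne zero_le (Ne.symm ((map_ne_zero _).2 hne0))
    have h1 : 1 ≤ A.valuation (σ (α : Qbar) - α) := by
      by_contra hlt
      rw [not_le] at hlt
      have : 1 < (A.valuation (σ (α : Qbar) - α))⁻¹ := (one_lt_inv₀ hpos).2 hlt
      exact absurd hinv (not_le.2 this)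
    exact absurd hnon (not_lt.2 h1)
  -- hence `σ` fixes `F = ℚ(α)`
  rw [IntermediateField.mem_fixingSubgroup_iff]
  intro x hx
  have hx' : (⟨x, hx⟩ : F) ∈ IntermediateField.adjoin ℚ {α} := by rw [hα]; trivial
  have hle : IntermediateField.adjoin ℚ {(α : Qbar)}
      ≤ IntermediateField.fixedField (Subgroup.zpowers σ) := by
    rw [IntermediateField.adjoin_le_iff]
    rintro z hz
    rw [Set.mem_singleton_iff] at hz
    subst hz
    rintro ⟨τ, hτ⟩
    obtain ⟨n, rfl⟩ := Subgroup.mem_zpowers_iff.1 hτ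
    show (σ ^ n) (α : Qbar) = α
    have hstab : σ ∈ MulAction.stabilizer (Qbar ≃ₐ[ℚ] Qbar) (α : Qbar) := hfix
    exact (Subgroup.zpow_mem _ hstab n : _)
  have hxα : x ∈ IntermediateField.adjoin ℚ {(α : Qbar)} := by
    have h1 : IntermediateField.lift (IntermediateField.adjoin ℚ {α})
        = IntermediateField.adjoin ℚ {(α : Qbar)} := by
      rw [IntermediateField.lift_adjoin, Set.image_singleton]
    rw [← h1]
    exact (IntermediateField.mem_lift (⟨x, hx⟩ : F)).2 hx'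
  exact hle hxα ⟨σ, Subgroup.mem_zpowers _⟩

/-- Finiteness of ramification, above a given set. -/
theorem exists_isUnramifiedOutside_ge (S : Finset Nat.Primes) (F : IntermediateField ℚ Qbar)
    (hF : FiniteDimensional ℚ F) :
    ∃ S' : Finset Nat.Primes, S ⊆ S' ∧ F.IsUnramifiedOutside S' := by
  classical
  obtain ⟨S₁, hS₁⟩ := exists_isUnramifiedOutside F hF
  exact ⟨S ∪ S₁, Finset.subset_union_left, hS₁.mono Finset.subset_union_right⟩

end Fermat.Agent.S55.E1.H603

end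
-- ===== PACK-END S55/E1/H603/FiniteRamification.lean

-- ===== PACK-BEGIN S56/FL/RamGlue.lean
section


/-!
# Row S56 — wall W-FLAT-SS, piece RAMCOUNT: glue (helper426).  Sorry-free.

`ramCount_of : RCTame → RCInfl → RCWild → RCBreak → RCLine → RamCountStatement`.
-/

set_option autoImplicit false

open Polynomial IsLocalRing

noncomputable section

namespace Fermat.Agent.S56.FL

/-- Glue for the ramification count. -/
theorem ramCount_of (hT : RCTameStatement) (hI : RCInflStatement) (hW : RCWildStatement)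
    (hB : RCBreakStatement) (hL : RCLineStatement) : RamCountStatement := by
  intro p hpf hp2 A B _ _ _ _ _ _ _ _ _ _ Γ _ _ _ _ _ _ hA hκ e he hD k _ _ hchar V _ _ _ hV ρ
    hirr hsplit ζ hζ hdet c₁ c₂ hc₁ hc₂ htr₁ htr₂ hfaith
  let d : RCDatum :=
    { p := p, A := A, B := B, Γ := Γ, k := k, V := V, hp := hpf.out, hp2 := hp2, hA := hA,
      hκ := hκ, e := e, he := he, hD := hD, hchar := hchar, hV := hV, ρ := ρ, hirr := hirr,
      hsplit := hsplit, ζ := ζ, hζ := hζ, hdet := hdet, c₁ := c₁, c₂ := c₂, hc₁ := hc₁,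
      hc₂ := hc₂, htr₁ := htr₁, htr₂ := htr₂, hfaith := hfaith }
  have hT' : ¬ p ∣ ρ.ker.index := hT d
  have hW' : d.KerEqWild := hW d hT'
  obtain ⟨a₁, a₂, ha, hker⟩ := hL d hT' hW' (hB d hT' hW')
  have := hchar
  obtain ⟨m, hm⟩ := hI p Γ k V ρ hT' (fun σ => a₁ • c₁ σ + a₂ • c₂ σ)
    (by
      intro σ τ
      simp only [hc₁, hc₂, smul_add, mul_add, add_mul, mul_smul_comm, smul_mul_assoc]
      abel)
    (fun σ hσ => hker σ hσ)
  exact ⟨a₁, a₂, ha, m, hm⟩

end Fermat.Agent.S56.FL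

end

end
-- ===== PACK-END S56/FL/RamGlue.lean

-- ===== PACK-BEGIN S56/H956/TWPFrob.lean
section




/-!
# S56 / TWP — one Taylor–Wiles prime from one Taylor–Wiles element (helper956)

`exists_prime_of_element`: Frobenius' density theorem (`FrobeniusDivisionStatement`) turns an
element `σ` fixing `μ_{p^{n+1}}` with distinct `ρ̄`-eigenvalues into a prime `ℓ ≡ 1 mod p^{n+1}`,
outside any given finite set, all of whose Frobenius elements have distinct eigenvalues, together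
with an element `τ` of a decomposition group over `ℓ` which agrees with `σ` on a prescribed finite
extension `L`, on `ρ̄` and on `μ_{p^{n+1}}`.

`exists_prime_not_locTrivAt`: for a global twisted cocycle `c` which is not a coboundary, the
Taylor–Wiles element of (P3) gives such a prime at which `c` is not locally trivial.
-/

set_option autoImplicit false

open Polynomial IsLocalRing
open scoped Pointwise

noncomputable section

namespace Fermat.Agent.S56.H956

open Fermat.Agent.S56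

/-! ### The field of `m`-th roots of unity -/

/-- The field generated by the `m`-th roots of unity. -/
def cycField (m : ℕ) : IntermediateField ℚ Qb :=
  IntermediateField.adjoin ℚ {x : Qb | x ^ m = 1}

theorem mem_cycField {m : ℕ} {x : Qb} (hx : x ^ m = 1) : x ∈ cycField m :=
  IntermediateField.subset_adjoin ℚ _ hx

theorem finiteDimensional_cycField {m : ℕ} (hm : m ≠ 0) :
    FiniteDimensional ℚ (cycField m) := by
  have hfin : Set.Finite {x : Qb | x ^ m = 1} := by
    have : {x : Qb | x ^ m = 1} = ↑(Polynomial.nthRootsFinset m (1 : Qb)) := by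
      ext x
      simp [Polynomial.mem_nthRootsFinset (Nat.pos_of_ne_zero hm)]
    rw [this]
    exact Finset.finite_toSet _
  have : Finite {x : Qb | x ^ m = 1} := hfin.to_subtype
  exact IntermediateField.finiteDimensional_adjoin
    (fun x _ => ((AlgebraicClosure.isAlgebraic ℚ).isAlgebraic x).isIntegral)

/-! ### Frobenius elements fixing roots of unity -/

/-- If a Frobenius element at `ℓ ≠ p` fixes the `p^{n+1}`-th roots of unity, then
`ℓ ≡ 1 mod p^{n+1}`. -/
theorem dvd_sub_one_of_isFrobeniusAt {p ℓ : ℕ} (hp : p.Prime) (hℓ : ℓ.Prime) (hne : ℓ ≠ p)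
    (n : ℕ) {A : ValuationSubring Qb} (hA : A.LiesOverPrime ℓ) {τ : GQ}
    (hτ : A.IsFrobeniusAt τ ℓ) (hfix : ∀ μ : Qb, μ ^ p ^ (n + 1) = 1 → τ μ = μ) :
    p ^ (n + 1) ∣ ℓ - 1 := by
  have hm0 : p ^ (n + 1) ≠ 0 := pow_ne_zero _ hp.ne_zero
  obtain ⟨ζ, hζ⟩ := exists_isPrimitiveRoot_Qb (p ^ (n + 1)) hm0
  have hpv : A.valuation (p : Qb) = 1 :=
    Fermat.Agent.S55.Bridge.val_prime_eq_one hA hℓ hp hne
  have hmv : A.valuation ((p ^ (n + 1) : ℕ) : Qb) = 1 := by
    rw [Nat.cast_pow, map_pow, hpv, one_pow]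
  have hζA : ζ ∈ A := by
    rw [← A.valuation_le_one_iff]
    have h : (A.valuation ζ) ^ (p ^ (n + 1)) = 1 := by
      rw [← map_pow, hζ.pow_eq_one, map_one]
    exact ((pow_eq_one_iff.1 h).resolve_right hm0).le
  have h1 : τ ζ - ζ ^ ℓ ∈ A.nonunits :=
    ((Fermat.Agent.Lib.Cheb.H476.isFrobeniusAt_iff A τ ℓ).mp hτ).2 ζ hζA
  rw [hfix ζ hζ.pow_eq_one] at h1
  have h2 : ζ ^ ℓ = ζ := by
    by_contra hne'
    have hζℓ : (ζ ^ ℓ) ^ (p ^ (n + 1)) = 1 := by
      rw [← pow_mul, mul_comm, pow_mul, hζ.pow_eq_one, one_pow]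
    have h3 := Fermat.Agent.S55.Bridge.val_sub_roots_eq_one (A := A) hm0 hmv hζ.pow_eq_one hζℓ
      (Ne.symm hne')
    rw [ValuationSubring.mem_nonunits_iff, h3] at h1
    exact lt_irrefl _ h1
  have h4 : ζ ^ (ℓ - 1) = 1 := by
    have h5 : ζ ^ (ℓ - 1) * ζ = 1 * ζ := by
      rw [← pow_succ, Nat.sub_add_cancel hℓ.one_le, h2, one_mul]
    exact mul_right_cancel₀ (hζ.ne_zero hm0) h5
  exact (hζ.pow_eq_one_iff_dvd _).mp h4

/-! ### Factoring through a finite level -/

theorem rho_eq_of_eqOn {k : Type} [Field k] (ρbar : ResidualGaloisRep k)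
    {L : IntermediateField ℚ Qb}
    (hL : ∀ σ : GQ, (∀ x ∈ L, σ x = x) → ρbar.ρ σ = 1) {g h : GQ}
    (hgh : ∀ x ∈ L, g x = h x) : ρbar.ρ g = ρbar.ρ h := by
  have h1 : ρbar.ρ (h⁻¹ * g) = 1 := hL _ (fun x hx => by
    rw [AlgEquiv.mul_apply, hgh x hx]
    exact h.symm_apply_apply x)
  have h2 : g = h * (h⁻¹ * g) := by group
  rw [h2, map_mul, h1, mul_one]

theorem charP_residueField {𝒪 : Type} [CommRing 𝒪] [IsLocalRing 𝒪] {p : ℕ} (hp : p.Prime)
    (hp𝒪 : (p : 𝒪) ∈ maximalIdeal 𝒪) : CharP (ResidueField 𝒪) p := by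
  rw [CharP.charP_iff_prime_eq_zero hp]
  have h : residue 𝒪 (p : 𝒪) = 0 := (residue_eq_zero_iff _).mpr hp𝒪
  rwa [map_natCast] at h

/-! ### One prime from one element -/

theorem pow_apply_eq_self {σ : GQ} {μ : Qb} (h : σ μ = μ) (i : ℕ) : (σ ^ i) μ = μ := by
  induction i with
  | zero => rw [pow_zero]; rfl
  | succ i ih => rw [pow_succ, AlgEquiv.mul_apply, h, ih]

/-- **One Taylor–Wiles prime from one Taylor–Wiles element.** -/
theorem exists_prime_of_element
    (hCheb : Fermat.Agent.Lib.Cheb.Spec.FrobeniusDivisionStatement)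
    {𝒪 : Type} [CommRing 𝒪] [IsDomain 𝒪] [IsDiscreteValuationRing 𝒪]
    {p : ℕ} {ρbar : ResidualGaloisRep (ResidueField 𝒪)} {S Smin : Finset ℕ}
    (H : Hyp 𝒪 p ρbar S Smin) (n : ℕ) (T : Finset ℕ) (L : IntermediateField ℚ Qb)
    (hL : FiniteDimensional ℚ L) (σ : GQ)
    (hσμ : ∀ μ : Qb, μ ^ p ^ (n + 1) = 1 → σ μ = μ)
    (hσe : ∃ α β : ResidueField 𝒪, α ≠ β ∧
      LinearMap.charpoly (ρbar.ρ σ) = (X - C α) * (X - C β)) :
    ∃ ℓ : ℕ, ℓ.Prime ∧ ℓ ∉ S ∧ ℓ ∉ T ∧ p ^ (n + 1) ∣ ℓ - 1 ∧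
      (∀ P : ValuationSubring Qb, P.LiesOverPrime ℓ → ∀ φ : GQ, P.IsFrobeniusAt φ ℓ →
        ∃ α β : ResidueField 𝒪, α ≠ β ∧
          LinearMap.charpoly (ρbar.ρ φ) = (X - C α) * (X - C β)) ∧
      ∃ (A : ValuationSubring Qb) (τ : GQ), A.LiesOverPrime ℓ ∧
        τ ∈ A.decompositionSubgroup ℚ ∧ (∀ x ∈ L, τ x = σ x) ∧ ρbar.ρ τ = ρbar.ρ σ ∧
        (∀ μ : Qb, μ ^ p ^ (n + 1) = 1 → τ μ = μ) := by
  obtain ⟨Lρ, hLρ, hρ⟩ := ρbar.factorsThroughFiniteLevel
  have hm0 : p ^ (n + 1) ≠ 0 := pow_ne_zero _ H.hp.ne_zero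
  have hcyc := finiteDimensional_cycField hm0
  -- the level
  have hE : FiniteDimensional ℚ ↥(Lρ ⊔ L ⊔ cycField (p ^ (n + 1))) := inferInstance
  have hLρE : Lρ ≤ Lρ ⊔ L ⊔ cycField (p ^ (n + 1)) := le_sup_left.trans le_sup_left
  have hLE : L ≤ Lρ ⊔ L ⊔ cycField (p ^ (n + 1)) := le_sup_right.trans le_sup_left
  have hcE : cycField (p ^ (n + 1)) ≤ Lρ ⊔ L ⊔ cycField (p ^ (n + 1)) := le_sup_right
  obtain ⟨ℓ, A, τ, k, j, hℓ, hℓS, hA, hτ, -, hτk, hτj⟩ :=
    hCheb (Lρ ⊔ L ⊔ cycField (p ^ (n + 1))) hE σ (S ∪ T ∪ {p})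
  have hℓS' : ℓ ∉ S := fun h => hℓS (Finset.mem_union_left _ (Finset.mem_union_left _ h))
  have hℓT : ℓ ∉ T := fun h => hℓS (Finset.mem_union_left _ (Finset.mem_union_right _ h))
  have hℓp : ℓ ≠ p := fun h => hℓS (Finset.mem_union_right _ (Finset.mem_singleton.mpr h))
  -- `ρ̄`
  have hρj : ρbar.ρ (τ ^ j) = ρbar.ρ σ :=
    rho_eq_of_eqOn ρbar hρ (fun x hx => hτj x (hLρE hx))
  -- roots of unity
  have hτμ : ∀ μ : Qb, μ ^ p ^ (n + 1) = 1 → τ μ = μ := by
    intro μ hμ
    rw [hτk μ (hcE (mem_cycField hμ))]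
    exact pow_apply_eq_self (hσμ μ hμ) k
  have hτjμ : ∀ μ : Qb, μ ^ p ^ (n + 1) = 1 → (τ ^ j) μ = μ := by
    intro μ hμ
    rw [hτj μ (hcE (mem_cycField hμ))]
    exact hσμ μ hμ
  -- the congruence
  have hdvd : p ^ (n + 1) ∣ ℓ - 1 := dvd_sub_one_of_isFrobeniusAt H.hp hℓ hℓp n hA hτ hτμ
  -- `ρ̄` is unramified at `ℓ`
  have hur : ρbar.IsUnramifiedAt ℓ := by
    by_contra hnot
    exact hℓS' (H.hSmin ((H.hmin ℓ hℓ hℓp).mpr hnot))
  -- distinct eigenvalues of `ρ̄ τ`
  obtain ⟨α, β, hαβ, hσc⟩ := hσe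
  obtain ⟨a, b, hab⟩ := H.hsplit τ
  have hne : a ≠ b := by
    refine ne_of_pow_charpoly (ρbar.ρ τ) j hab ?_ hαβ
    rw [← map_pow, hρj]
    exact hσc
  refine ⟨ℓ, hℓ, hℓS', hℓT, hdvd, fun P hP φ hφ => ⟨a, b, hne, ?_⟩,
    A, τ ^ j, hA, pow_mem hτ.mem_decompositionSubgroup j, fun x hx => hτj x (hLE hx), hρj, hτjμ⟩
  rw [Fermat.Agent.Lib.Cheb.H476.charpoly_eq_of_isFrobeniusAt ρbar hℓ hur hA hP hτ hφ]
  exact hab

/-- **One Taylor–Wiles prime detecting a class.**  For a global twisted cocycle `c` which is not a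
coboundary, there is a Taylor–Wiles prime `ℓ ≡ 1 mod p^{n+1}` outside `S ∪ T` at which `c` is not
locally trivial. -/
theorem exists_prime_not_locTrivAt (hP3 : TWElementStatement)
    (hCheb : Fermat.Agent.Lib.Cheb.Spec.FrobeniusDivisionStatement)
    {𝒪 : Type} [CommRing 𝒪] [IsDomain 𝒪] [IsDiscreteValuationRing 𝒪]
    [IsAdicComplete (maximalIdeal 𝒪) 𝒪] [Finite (ResidueField 𝒪)]
    {p : ℕ} {ρbar : ResidualGaloisRep (ResidueField 𝒪)} {S Smin : Finset ℕ}
    (H : Hyp 𝒪 p ρbar S Smin) (n : ℕ) (T : Finset ℕ)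
    {c : GQ → Module.End (ResidueField 𝒪) ρbar.V} (hc : IsTwCocycle ρbar p c)
    (hnc : ¬ IsTwCoboundary ρbar p c) :
    ∃ ℓ : ℕ, ℓ.Prime ∧ ℓ ∉ S ∧ ℓ ∉ T ∧ p ^ (n + 1) ∣ ℓ - 1 ∧
      (∀ P : ValuationSubring Qb, P.LiesOverPrime ℓ → ∀ φ : GQ, P.IsFrobeniusAt φ ℓ →
        ∃ α β : ResidueField 𝒪, α ≠ β ∧
          LinearMap.charpoly (ρbar.ρ φ) = (X - C α) * (X - C β)) ∧
      ¬ LocTrivAt ρbar p ℓ c := by
  have : CharP (ResidueField 𝒪) p := charP_residueField H.hp H.hp𝒪
  have hp0 : p ≠ 0 := H.hp.ne_zero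
  obtain ⟨σ, hσμ, hσe, hσc⟩ := (hP3 𝒪 p ρbar S Smin H).1 c hc hnc n
  obtain ⟨Lc, hLc, hcL⟩ := hc.level
  obtain ⟨ℓ, hℓ, hℓS, hℓT, hdvd, hfrob, A, τ, hA, hτD, hτL, hτρ, hτμ⟩ :=
    exists_prime_of_element hCheb H n T Lc hLc σ hσμ hσe
  refine ⟨ℓ, hℓ, hℓS, hℓT, hdvd, hfrob, fun hloc => ?_⟩
  obtain ⟨m, hm⟩ := (locTrivAt_iff hp0 hc hℓ hA).mp hloc
  obtain ⟨hm1, hm2⟩ := hm
  -- `τ` acts trivially on `μ_p`
  have hexp : IsCycExp p τ 1 := by
    intro μ hμ
    rw [pow_one]
    refine hτμ μ ?_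
    rw [pow_succ', pow_mul, hμ, one_pow]
  have h1 := hm2 τ hτD 1 hexp
  -- `c τ = c σ`
  have h2 : c τ = c σ := by
    have e : τ = σ * (σ⁻¹ * τ) := by group
    rw [e]
    refine hcL σ (σ⁻¹ * τ) (fun x hx => ?_)
    rw [AlgEquiv.mul_apply, hτL x hx]
    exact σ.symm_apply_apply x
  -- `ρ̄ τ⁻¹ = ρ̄ σ⁻¹`
  have h3 : ρbar.ρ τ⁻¹ = ρbar.ρ σ⁻¹ := by
    calc ρbar.ρ τ⁻¹ = ρbar.ρ τ⁻¹ * (ρbar.ρ σ * ρbar.ρ σ⁻¹) := by
          rw [rho_mul_rho_inv, mul_one]
      _ = ρbar.ρ τ⁻¹ * ρbar.ρ τ * ρbar.ρ σ⁻¹ := by rw [hτρ, mul_assoc]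
      _ = ρbar.ρ σ⁻¹ := by rw [rho_inv_mul_rho, one_mul]
  refine hσc m hm1 ?_
  rw [← h2, h1]
  unfold twAd
  rw [Nat.cast_one, one_smul, hτρ, h3]

/-- **One more Taylor–Wiles prime** (no class to detect). -/
theorem exists_prime_pad (hP3 : TWElementStatement)
    (hCheb : Fermat.Agent.Lib.Cheb.Spec.FrobeniusDivisionStatement)
    {𝒪 : Type} [CommRing 𝒪] [IsDomain 𝒪] [IsDiscreteValuationRing 𝒪]
    [IsAdicComplete (maximalIdeal 𝒪) 𝒪] [Finite (ResidueField 𝒪)]
    {p : ℕ} {ρbar : ResidualGaloisRep (ResidueField 𝒪)} {S Smin : Finset ℕ}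
    (H : Hyp 𝒪 p ρbar S Smin) (n : ℕ) (T : Finset ℕ) :
    ∃ ℓ : ℕ, ℓ.Prime ∧ ℓ ∉ S ∧ ℓ ∉ T ∧ p ^ (n + 1) ∣ ℓ - 1 ∧
      (∀ P : ValuationSubring Qb, P.LiesOverPrime ℓ → ∀ φ : GQ, P.IsFrobeniusAt φ ℓ →
        ∃ α β : ResidueField 𝒪, α ≠ β ∧
          LinearMap.charpoly (ρbar.ρ φ) = (X - C α) * (X - C β)) := by
  obtain ⟨σ, hσμ, hσe⟩ := (hP3 𝒪 p ρbar S Smin H).2 n
  obtain ⟨ℓ, hℓ, hℓS, hℓT, hdvd, hfrob, -⟩ :=
    exists_prime_of_element hCheb H n T ⊥ inferInstance σ hσμ hσe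
  exact ⟨ℓ, hℓ, hℓS, hℓT, hdvd, hfrob⟩

end Fermat.Agent.S56.H956

end

end
-- ===== PACK-END S56/H956/TWPFrob.lean

-- ===== PACK-BEGIN S56/P3/H306/H1Adapt.lean
section



/-!
# S56 / P3 : piece H1ADAPT (helper306)

`h1_of_span : SpanDeltaStatement → H1VanishStatement`, from helper726's matrix theorem
`Fermat.Agent.S56.H726.h1_vanishing`.
-/

set_option autoImplicit false
set_option linter.unusedSectionVars false

open Polynomial

namespace Fermat.Agent.S56.P3.H306

open Fermat.Agent.S56.P3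

/-- trace and determinant of a `2 × 2` matrix with split characteristic polynomial. -/
theorem trace_det_of_charpoly {k : Type} [Field k] (M : Matrix (Fin 2) (Fin 2) k) {α β : k}
    (h : M.charpoly = (X - C α) * (X - C β)) : M.trace = α + β ∧ M.det = α * β := by
  rw [Matrix.charpoly_fin_two] at h
  have h1 := congrArg (fun q => q.coeff 1) h
  have h0 := congrArg (fun q => q.coeff 0) h
  have e : (X - C α) * (X - C β) = X ^ 2 - C (α + β) * X + C (α * β) := by
    simp only [map_add, map_mul]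
    ring
  simp only [e] at h1 h0
  simp [coeff_X, coeff_C] at h1 h0
  exact ⟨by linear_combination (-1 : k) * h1, by linear_combination h0⟩

/-- **(H1ADAPT)** -/
theorem h1_of_span (hs : SpanDeltaStatement) : H1VanishStatement := by
  intro k _ _ V _ _ _ Γ _ ρ p _ hp2 hT Δ hΔ hC hdet1 hord ψ hψ hvan
  classical
  have hp : p.Prime := Fact.out
  have : CharP k p := (CharP.charP_iff_prime_eq_zero hp).mpr hT.char_p
  set b : Module.Basis (Fin 2) k V := Module.finBasisOfFinrankEq k V hT.finrank_eq with hb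
  set E : Module.End k V ≃ₐ[k] Matrix (Fin 2) (Fin 2) k := LinearMap.toMatrixAlgEquiv b with hE
  have hEdet : ∀ A : Module.End k V, (E A).det = LinearMap.det A := fun A =>
    LinearMap.det_toMatrix b A
  have hEtr : ∀ A : Module.End k V, (E A).trace = LinearMap.trace k V A := fun A =>
    (LinearMap.trace_eq_matrix_trace k b A).symm
  have hEch : ∀ A : Module.End k V, (E A).charpoly = LinearMap.charpoly A := fun A =>
    LinearMap.charpoly_toMatrix A b
  set ρ' : Γ →* Matrix (Fin 2) (Fin 2) k := (E : Module.End k V →* _).comp ρ with hρ'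
  have hρ'app : ∀ g, ρ' g = E (ρ g) := fun g => rfl
  -- hypotheses of the core theorem
  have hdet' : ∀ h ∈ Δ, (ρ' h).det = 1 := fun h hh => by rw [hρ'app, hEdet, hdet1 h hh]
  have hspan' : Submodule.span k (ρ' '' (Δ : Set Γ)) = ⊤ := by
    have h0 := hs k V Γ ρ p hp2 hT Δ hC
    have h1 : ρ' '' (Δ : Set Γ) =
        (E.toLinearEquiv : Module.End k V →ₗ[k] Matrix (Fin 2) (Fin 2) k) ''
          (Set.range fun δ : Δ => ρ (δ : Γ)) := by
      ext x
      constructor
      · rintro ⟨g, hg, rfl⟩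
        exact ⟨ρ g, ⟨⟨g, hg⟩, rfl⟩, rfl⟩
      · rintro ⟨_, ⟨⟨g, hg⟩, rfl⟩, rfl⟩
        exact ⟨g, hg, rfl⟩
    rw [h1, Submodule.span_image, h0, Submodule.map_top, LinearMap.range_eq_top]
    exact E.toLinearEquiv.surjective
  have hsplit' : ∀ h ∈ Δ, ∃ α β : k, (ρ' h).trace = α + β ∧ α * β = 1 := by
    intro h hh
    obtain ⟨α, β, hch⟩ := hT.split h
    have := trace_det_of_charpoly (E (ρ h)) (by rw [hEch]; exact hch)
    exact ⟨α, β, this.1, by rw [← this.2, hEdet, hdet1 h hh]⟩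
  have h5 : p = 5 → ∃ g : Γ, (ρ' g).det ≠ 1 ∧ (ρ' g).det ≠ -1 := by
    intro hp5
    obtain ⟨γ, hγ⟩ := hord
    refine ⟨γ, ?_, ?_⟩
    · intro h
      rw [hρ'app, hEdet] at h
      rw [h, orderOf_one, hp5] at hγ
      omega
    · intro h
      rw [hρ'app, hEdet] at h
      have h2 : (LinearMap.det (ρ γ)) ^ 2 = 1 := by rw [h]; norm_num
      have := orderOf_dvd_of_pow_eq_one h2
      rw [hγ, hp5] at this
      omega
  have hψtr : ∀ g, (E (ψ g)).trace = 0 := fun g => by rw [hEtr, hψ.trace_zero]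
  have hψmul : ∀ g h, E (ψ (g * h)) =
      E (ψ g) + (ρ' g).det • (ρ' g * E (ψ h) * ρ' g⁻¹) := by
    intro g h
    rw [hψ.map_mul, map_add, twEnd, map_smul, map_mul, map_mul, hρ'app, hρ'app, hEdet]
  have hN : ∀ h ∈ Δ, ρ' h = 1 → E (ψ h) = 0 := by
    intro h hh h1
    have : ρ h = 1 := E.injective (by rw [map_one]; exact h1)
    rw [hvan h hh this, map_zero]
  obtain ⟨m, hm, hcob⟩ := Fermat.Agent.S56.H726.h1_vanishing p hp2 ρ' Δ hΔ hdet' hspan' hsplit'
    h5 (fun g => E (ψ g)) hψtr hψmul hN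
  refine ⟨E.symm m, ?_, fun g => ?_⟩
  · rw [← hEtr, AlgEquiv.apply_symm_apply, hm]
  · apply E.injective
    rw [hcob g, map_sub, twEnd, map_smul, map_mul, map_mul, AlgEquiv.apply_symm_apply,
      hρ'app, hρ'app, hEdet]

end Fermat.Agent.S56.P3.H306

end
-- ===== PACK-END S56/P3/H306/H1Adapt.lean

-- ===== PACK-BEGIN S19/H135/Quotient.lean
section
/-
Cell A3 / WP-C (helper135): Hopf lattices pass to quotients by stable subgroups, WITHOUT Cartier
duality.  For an equivariant surjection `q : M →+ M₂` the lattice on `M₂` is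
`Λ₂ = {g | g ∘ q ∈ Λ}`.
* comultiplication: expansion in `ℚ̄`-independent bases + invariance under the kernel;
* separation of points: traces `m ↦ ∑_{k ∈ ker q} h (m + k)` lie in `Λ` (descent of
  coefficients) and Dedekind independence of the evaluation characters.
-/


set_option autoImplicit false

namespace Fermat.Agent.S19.H135

section Quot

variable {ℓ : ℕ} [Fact ℓ.Prime] {M M₂ : Type} [AddCommGroup M] [AddCommGroup M₂]
  {act : (AlgebraicClosure ℚ ≃ₐ[ℚ] AlgebraicClosure ℚ) → M → M}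
  {act₂ : (AlgebraicClosure ℚ ≃ₐ[ℚ] AlgebraicClosure ℚ) → M₂ → M₂}
  {Λ : Subalgebra (GaloisRep.ratLocalizedAt ℓ) (M → AlgebraicClosure ℚ)}

omit [Fact ℓ.Prime] in
/-- Translates of elements of a Hopf lattice, expanded in a spanning family: the coefficients
are values of elements of the lattice. -/
theorem IsHopfLattice.exists_translate_expansion (hΛ : IsHopfLattice ℓ act Λ)
    {n : ℕ} (b : Fin n → M → AlgebraicClosure ℚ)
    (hspan : Submodule.span (GaloisRep.ratLocalizedAt ℓ) (Set.range b) =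
      Subalgebra.toSubmodule Λ)
    {h : M → AlgebraicClosure ℚ} (hh : h ∈ Λ) :
    ∃ g : Fin n → M → AlgebraicClosure ℚ, (∀ i, g i ∈ Λ) ∧
      ∀ m k, h (m + k) = ∑ i, b i m * g i k :=
  box_expand b hspan (hΛ.comul_mem hh)

/-- The trace of an element of a Hopf lattice over a finite stable set of translations lies in
the lattice. -/
theorem IsHopfLattice.trace_mem (hΛ : IsHopfLattice ℓ act Λ) (K : Finset M)
    (hK : ∀ σ, ∀ k, k ∈ K ↔ act σ k ∈ K)
    {h : M → AlgebraicClosure ℚ} (hh : h ∈ Λ) :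
    (fun m => ∑ k ∈ K, h (m + k)) ∈ Λ := by
  have hact : ∀ σ, Function.Surjective (act σ) := fun σ => (hΛ.act_bijective σ).2
  obtain ⟨n, b, hbΛ, hbli, hbspan⟩ := exists_basis_of_fg_equivariant act hact
    (Subalgebra.toSubmodule Λ) hΛ.fg hΛ.equivariant
  obtain ⟨g, hg, hexp⟩ := hΛ.exists_translate_expansion b hbspan hh
  have hrepr : (fun m => ∑ k ∈ K, h (m + k)) = ∑ i, (∑ k ∈ K, g i k) • b i := by
    funext m
    simp only [Finset.sum_apply, Pi.smul_apply, smul_eq_mul, hexp]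
    rw [Finset.sum_comm]
    refine Finset.sum_congr rfl (fun i _ => ?_)
    rw [Finset.sum_mul]
    exact Finset.sum_congr rfl (fun k _ => mul_comm _ _)
  have hmem : ∑ i, (∑ k ∈ K, g i k) • b i ∈
      Submodule.span (GaloisRep.ratLocalizedAt ℓ) (Set.range b) := by
    refine mem_of_integral_combination act hact b (fun i σ m => hΛ.equivariant _ (hbΛ i) σ m)
      hbli _ (fun i => IsIntegral.sum _ (fun k _ => hΛ.isIntegral_apply (hg i) k)) ?_
    intro σ m
    rw [← hrepr]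
    show ∑ k ∈ K, h (act σ m + k) = σ (∑ k ∈ K, h (m + k))
    rw [map_sum]
    refine Finset.sum_nbij' (fun k => act σ⁻¹ k) (fun k => act σ k) ?_ ?_ ?_ ?_ ?_
    · intro k hk
      rw [hK σ, ← hΛ.act_mul, mul_inv_cancel, hΛ.act_one]
      exact hk
    · intro k hk
      exact (hK σ k).mp hk
    · intro k _
      rw [← hΛ.act_mul, mul_inv_cancel, hΛ.act_one]
    · intro k _
      rw [← hΛ.act_mul, inv_mul_cancel, hΛ.act_one]
    · intro k _
      rw [← hΛ.equivariant h hh, hΛ.act_add, ← hΛ.act_mul, mul_inv_cancel, hΛ.act_one]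
  rw [hrepr]
  rw [hbspan] at hmem
  exact hmem

variable (q : M →+ M₂)

omit [Fact ℓ.Prime] in
theorem IsHopfLattice.quot_equivariant (hΛ : IsHopfLattice ℓ act Λ)
    (hq : Function.Surjective q) (heq : ∀ σ m, q (act σ m) = act₂ σ (q m))
    (g : M₂ → AlgebraicClosure ℚ)
    (hg : g ∈ Λ.comap (pull (GaloisRep.ratLocalizedAt ℓ) (AlgebraicClosure ℚ) q))
    (σ : AlgebraicClosure ℚ ≃ₐ[ℚ] AlgebraicClosure ℚ) (y : M₂) :
    g (act₂ σ y) = σ (g y) := by
  obtain ⟨m, rfl⟩ := hq y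
  rw [← heq]
  exact hΛ.equivariant _ hg σ m

theorem IsHopfLattice.quot_fg (hΛ : IsHopfLattice ℓ act Λ) (hq : Function.Surjective q) :
    (Subalgebra.toSubmodule
      (Λ.comap (pull (GaloisRep.ratLocalizedAt ℓ) (AlgebraicClosure ℚ) q))).FG := by
  refine Submodule.fg_of_fg_map_injective
    (pull (GaloisRep.ratLocalizedAt ℓ) (AlgebraicClosure ℚ) q).toLinearMap
    (pull_injective (GaloisRep.ratLocalizedAt ℓ) (AlgebraicClosure ℚ) hq) ?_
  refine fg_of_le_of_fg_h135 hΛ.fg ?_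
  rintro _ ⟨g, hg, rfl⟩
  exact hg

omit [Fact ℓ.Prime] in
theorem IsHopfLattice.quot_act_surjective (hΛ : IsHopfLattice ℓ act Λ)
    (hq : Function.Surjective q) (heq : ∀ σ m, q (act σ m) = act₂ σ (q m))
    (σ : AlgebraicClosure ℚ ≃ₐ[ℚ] AlgebraicClosure ℚ) : Function.Surjective (act₂ σ) := by
  intro y
  obtain ⟨m, rfl⟩ := hq y
  obtain ⟨m', rfl⟩ := (hΛ.act_bijective σ).2 m
  exact ⟨q m', (heq σ m').symm⟩

/-- Comultiplication on the quotient lattice. -/
theorem IsHopfLattice.quot_comul (hΛ : IsHopfLattice ℓ act Λ)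
    (hq : Function.Surjective q) (heq : ∀ σ m, q (act σ m) = act₂ σ (q m))
    {g : M₂ → AlgebraicClosure ℚ}
    (hg : g ∈ Λ.comap (pull (GaloisRep.ratLocalizedAt ℓ) (AlgebraicClosure ℚ) q)) :
    (fun p : M₂ × M₂ => g (p.1 + p.2)) ∈
      (Λ.comap (pull (GaloisRep.ratLocalizedAt ℓ) (AlgebraicClosure ℚ) q)).map
        (pull (GaloisRep.ratLocalizedAt ℓ) (AlgebraicClosure ℚ) (Prod.fst : M₂ × M₂ → M₂)) ⊔
      (Λ.comap (pull (GaloisRep.ratLocalizedAt ℓ) (AlgebraicClosure ℚ) q)).map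
        (pull (GaloisRep.ratLocalizedAt ℓ) (AlgebraicClosure ℚ) (Prod.snd : M₂ × M₂ → M₂)) := by
  set Λ₂ := Λ.comap (pull (GaloisRep.ratLocalizedAt ℓ) (AlgebraicClosure ℚ) q) with hΛ₂
  have hact : ∀ σ, Function.Surjective (act σ) := fun σ => (hΛ.act_bijective σ).2
  have hact₂ : ∀ σ, Function.Surjective (act₂ σ) := hΛ.quot_act_surjective q hq heq
  obtain ⟨n, b, hbΛ, hbli, hbspan⟩ := exists_basis_of_fg_equivariant act hact
    (Subalgebra.toSubmodule Λ) hΛ.fg hΛ.equivariant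
  obtain ⟨n₂, u, huΛ, huli, huspan⟩ := exists_basis_of_fg_equivariant act₂ hact₂
    (Subalgebra.toSubmodule Λ₂) (hΛ.quot_fg q hq) (hΛ.quot_equivariant q hq heq)
  -- Step 1: expand `f (m + n)`, `f = g ∘ q`, along the basis `b` in the first variable
  have hf : (fun m => g (q m)) ∈ Λ := hg
  obtain ⟨c, hc, hexp⟩ := hΛ.exists_translate_expansion b hbspan hf
  -- Step 2: the `c i` are invariant under the kernel
  have hcinv : ∀ i, ∀ m k : M, q k = 0 → c i (m + k) = c i m := by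
    intro i m k hk
    have h1 : ∑ j, (c j (m + k) - c j m) • b j = 0 := by
      funext x
      simp only [Finset.sum_apply, Pi.smul_apply, smul_eq_mul, Pi.zero_apply, sub_mul,
        Finset.sum_sub_distrib]
      have e1 := hexp x (m + k)
      have e2 := hexp x m
      have e3 : g (q (x + (m + k))) = g (q (x + m)) := by
        simp only [map_add, hk, add_zero]
      rw [e1, e2] at e3
      rw [sub_eq_zero]
      calc ∑ j, c j (m + k) * b j x = ∑ j, b j x * c j (m + k) :=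
            Finset.sum_congr rfl (fun j _ => mul_comm _ _)
        _ = ∑ j, b j x * c j m := e3
        _ = ∑ j, c j m * b j x := Finset.sum_congr rfl (fun j _ => mul_comm _ _)
    have := linearIndependent_iff'.mp hbli Finset.univ _ h1 i (Finset.mem_univ i)
    exact sub_eq_zero.mp this
  have hcbar : ∀ i, ∃ cb : M₂ → AlgebraicClosure ℚ, ∀ m, cb (q m) = c i m :=
    fun i => exists_factor_of_ker_invariant q hq (c i) (hcinv i)
  choose cb hcb using hcbar
  have hcbΛ : ∀ i, cb i ∈ Λ₂ := by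
    intro i
    show (fun m => cb i (q m)) ∈ Λ
    have : (fun m => cb i (q m)) = c i := funext (hcb i)
    rw [this]
    exact hc i
  -- Step 3: the mixed function on `M × M₂`, expanded along `u` in the second variable
  have hmixed : (fun p : M × M₂ => ∑ i, b i p.1 * cb i p.2) ∈
      Λ.map (pull (GaloisRep.ratLocalizedAt ℓ) (AlgebraicClosure ℚ) (Prod.fst : M × M₂ → M)) ⊔
      Λ₂.map (pull (GaloisRep.ratLocalizedAt ℓ) (AlgebraicClosure ℚ)
        (Prod.snd : M × M₂ → M₂)) :=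
    sum_mul_mem_box b cb hbΛ hcbΛ
  obtain ⟨d, hd, hexp₂⟩ := box_expand' u huspan hmixed
  have hmix_eq : ∀ m m' : M, ∑ i, d i m * u i (q m') = g (q m + q m') := by
    intro m m'
    rw [← hexp₂ m (q m')]
    simp only [hcb]
    rw [← hexp m m', map_add]
  -- Step 4: the `d i` are invariant under the kernel
  have hdinv : ∀ i, ∀ m k : M, q k = 0 → d i (m + k) = d i m := by
    intro i m k hk
    have h1 : ∑ j, (d j (m + k) - d j m) • u j = 0 := by
      funext y
      obtain ⟨m', rfl⟩ := hq y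
      simp only [Finset.sum_apply, Pi.smul_apply, smul_eq_mul, Pi.zero_apply, sub_mul,
        Finset.sum_sub_distrib]
      rw [hmix_eq, hmix_eq, map_add, hk, add_zero, sub_self]
    have := linearIndependent_iff'.mp huli Finset.univ _ h1 i (Finset.mem_univ i)
    exact sub_eq_zero.mp this
  have hdbar : ∀ i, ∃ db : M₂ → AlgebraicClosure ℚ, ∀ m, db (q m) = d i m :=
    fun i => exists_factor_of_ker_invariant q hq (d i) (hdinv i)
  choose db hdb using hdbar
  have hdbΛ : ∀ i, db i ∈ Λ₂ := by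
    intro i
    show (fun m => db i (q m)) ∈ Λ
    have : (fun m => db i (q m)) = d i := funext (hdb i)
    rw [this]
    exact hd i
  -- Step 5: conclusion
  have hfinal : (fun p : M₂ × M₂ => g (p.1 + p.2)) =
      fun p : M₂ × M₂ => ∑ i, db i p.1 * u i p.2 := by
    funext p
    obtain ⟨m, hm⟩ := hq p.1
    obtain ⟨m', hm'⟩ := hq p.2
    rw [← hm, ← hm']
    simp only [hdb]
    exact (hmix_eq m m').symm
  rw [hfinal]
  exact sum_mul_mem_box db u hdbΛ huΛ

/-- Separation of points on the quotient. -/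
theorem IsHopfLattice.quot_separates (hΛ : IsHopfLattice ℓ act Λ)
    (hq : Function.Surjective q) (heq : ∀ σ m, q (act σ m) = act₂ σ (q m))
    (x y : M₂)
    (hxy : ∀ g ∈ Λ.comap (pull (GaloisRep.ratLocalizedAt ℓ) (AlgebraicClosure ℚ) q),
      g x = g y) : x = y := by
  classical
  have hfinM : Finite M := hΛ.finite
  let _ : Fintype M := Fintype.ofFinite M
  obtain ⟨m₁, rfl⟩ := hq x
  obtain ⟨m₂, rfl⟩ := hq y
  have hact₂0 : ∀ σ, act₂ σ 0 = 0 := by
    intro σ
    have := heq σ 0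
    rw [hΛ.act_zero, map_zero] at this
    exact this.symm
  set K : Finset M := Finset.univ.filter (fun k => q k = 0) with hKdef
  have hKmem : ∀ k, k ∈ K ↔ q k = 0 := fun k => by simp [hKdef]
  have hK : ∀ σ, ∀ k, k ∈ K ↔ act σ k ∈ K := by
    intro σ k
    rw [hKmem, hKmem, heq]
    constructor
    · intro h
      rw [h, hact₂0]
    · intro h
      have h2 := congrArg (act₂ σ⁻¹) h
      rw [← heq, ← heq, ← hΛ.act_mul, inv_mul_cancel, hΛ.act_one, hact₂0] at h2
      exact h2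
  -- traces agree
  have htr : ∀ h ∈ Λ, ∑ k ∈ K, h (m₁ + k) = ∑ k ∈ K, h (m₂ + k) := by
    intro h hh
    have hT := hΛ.trace_mem K hK hh
    have hinv : ∀ m k : M, q k = 0 →
        (fun m => ∑ k ∈ K, h (m + k)) (m + k) = (fun m => ∑ k ∈ K, h (m + k)) m := by
      intro m k hk
      show ∑ k' ∈ K, h (m + k + k') = ∑ k' ∈ K, h (m + k')
      refine Finset.sum_nbij' (fun k' => k + k') (fun k' => -k + k') ?_ ?_ ?_ ?_ ?_
      · intro k' hk'
        rw [hKmem] at hk' ⊢
        rw [map_add, hk, hk', add_zero]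
      · intro k' hk'
        rw [hKmem] at hk' ⊢
        rw [map_add, map_neg, hk, hk', neg_zero, add_zero]
      · intro k' _
        simp
      · intro k' _
        simp
      · intro k' _
        rw [add_assoc]
    obtain ⟨T, hT'⟩ := exists_factor_of_ker_invariant q hq
      (fun m => ∑ k ∈ K, h (m + k)) hinv
    have hTΛ : T ∈ Λ.comap (pull (GaloisRep.ratLocalizedAt ℓ) (AlgebraicClosure ℚ) q) := by
      show (fun m => T (q m)) ∈ Λ
      have : (fun m => T (q m)) = fun m => ∑ k ∈ K, h (m + k) := funext hT'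
      rw [this]
      exact hT
    have := hxy T hTΛ
    rw [hT', hT'] at this
    exact this
  -- Dedekind independence of the evaluation characters of `Λ`
  let ev : M → (Λ →* AlgebraicClosure ℚ) := fun m =>
    ((Pi.evalRingHom (fun _ : M => AlgebraicClosure ℚ) m).comp
      (Λ.val : Λ →+* (M → AlgebraicClosure ℚ)) : Λ →+* AlgebraicClosure ℚ).toMonoidHom
  have hev : ∀ m (h : Λ), ev m h = (h : M → AlgebraicClosure ℚ) m := fun _ _ => rfl
  have hevinj : Function.Injective ev := by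
    intro a a' haa
    apply hΛ.separates
    intro h hh
    have := congrArg (fun φ : Λ →* AlgebraicClosure ℚ => φ ⟨h, hh⟩) haa
    exact this
  have hli : LinearIndependent (AlgebraicClosure ℚ)
      (fun m : M => (ev m : Λ → AlgebraicClosure ℚ)) :=
    (linearIndependent_monoidHom Λ (AlgebraicClosure ℚ)).comp ev hevinj
  let coef : M → AlgebraicClosure ℚ := fun m =>
    (if m - m₁ ∈ K then 1 else 0) - (if m - m₂ ∈ K then 1 else 0)
  have hsum : ∑ m, coef m • (ev m : Λ → AlgebraicClosure ℚ) = 0 := by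
    funext h
    simp only [Finset.sum_apply, Pi.smul_apply, smul_eq_mul, Pi.zero_apply, coef, sub_mul,
      Finset.sum_sub_distrib, ite_mul, one_mul, zero_mul, hev]
    rw [sub_eq_zero]
    have key : ∀ m₀ : M, ∑ m, (if m - m₀ ∈ K then (h : M → AlgebraicClosure ℚ) m else 0) =
        ∑ k ∈ K, (h : M → AlgebraicClosure ℚ) (m₀ + k) := by
      intro m₀
      rw [← Finset.sum_filter]
      refine Finset.sum_nbij' (fun m => m - m₀) (fun k => m₀ + k) ?_ ?_ ?_ ?_ ?_
      · intro m hm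
        exact (Finset.mem_filter.mp hm).2
      · intro k hk
        simp only [Finset.mem_filter, Finset.mem_univ, true_and, add_sub_cancel_left]
        exact hk
      · intro m _
        simp
      · intro k _
        simp
      · intro m _
        simp
    rw [key m₁, key m₂]
    exact htr h h.2
  have hcoef := linearIndependent_iff'.mp hli Finset.univ coef hsum m₁ (Finset.mem_univ m₁)
  have h0K : (0 : M) ∈ K := (hKmem 0).mpr (map_zero q)
  simp only [coef, sub_self, h0K, if_true] at hcoef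
  by_cases hmem : m₁ - m₂ ∈ K
  · have := (hKmem _).mp hmem
    rw [map_sub, sub_eq_zero] at this
    exact this
  · rw [if_neg hmem, sub_zero] at hcoef
    exact absurd hcoef one_ne_zero

/-- **Quotients of Hopf lattices.** -/
theorem IsHopfLattice.quot (hΛ : IsHopfLattice ℓ act Λ)
    (hq : Function.Surjective q) (heq : ∀ σ m, q (act σ m) = act₂ σ (q m)) :
    IsHopfLattice ℓ act₂
      (Λ.comap (pull (GaloisRep.ratLocalizedAt ℓ) (AlgebraicClosure ℚ) q)) := by
  refine ⟨hΛ.quot_fg q hq, hΛ.quot_equivariant q hq heq, hΛ.quot_separates q hq heq, ?_⟩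
  rintro _ ⟨g, hg, rfl⟩
  exact hΛ.quot_comul q hq heq hg

theorem HasHopfLattice.of_surjective (h : HasHopfLattice ℓ M act)
    (hq : Function.Surjective q) (heq : ∀ σ m, q (act σ m) = act₂ σ (q m)) :
    HasHopfLattice ℓ M₂ act₂ := by
  obtain ⟨Λ, hΛ⟩ := h
  exact ⟨_, hΛ.quot q hq heq⟩

end Quot

end Fermat.Agent.S19.H135

end
-- ===== PACK-END S19/H135/Quotient.lean

-- ===== PACK-BEGIN S53/Abstract3.lean
section


set_option autoImplicit false
set_option linter.unusedSectionVars false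
set_option linter.unusedVariables false
set_option linter.style.haveILetI false

namespace Fermat.Agent.S53

open IsLocalRing GaloisRep CA

section

variable {𝒪 : Type} [CommRing 𝒪] [IsDomain 𝒪] [IsDiscreteValuationRing 𝒪]
  [IsAdicComplete (IsLocalRing.maximalIdeal 𝒪) 𝒪] [Finite (IsLocalRing.ResidueField 𝒪)]
variable {ι : Type}

/-- `x` is a point over `S ⧸ J` whose chosen coordinates are the variables, `J` open. -/
structure GoodPt (c : ι → 𝒪) (L : PointFamily 𝒪 ι) {d : ℕ} (idx : Fin d → ι)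
    (J : Ideal (PS 𝒪 d)) [IsLocalRing (PS 𝒪 d ⧸ J)] (x : ι → PS 𝒪 d ⧸ J) : Prop where
  isOpen : ∃ n : ℕ, maximalIdeal (PS 𝒪 d) ^ n ≤ J
  mem : L x
  coord_eq : ∀ l, coord c idx x l = Ideal.Quotient.mk J (MvPowerSeries.X l)

/-- `J` is a good ideal: proper, open and `S ⧸ J` carries a point with coordinates `X`. -/
def Good (c : ι → 𝒪) (L : PointFamily 𝒪 ι) {d : ℕ} (idx : Fin d → ι)
    (J : Ideal (PS 𝒪 d)) : Prop :=
  ∃ (hJ : J ≠ ⊤) (x : ι → PS 𝒪 d ⧸ J),
    haveI : IsLocalRing (PS 𝒪 d ⧸ J) := isLocalRing_quot hJ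
    GoodPt c L idx J x

theorem GoodPt.test {c : ι → 𝒪} {L : PointFamily 𝒪 ι} {d : ℕ} {idx : Fin d → ι}
    {J : Ideal (PS 𝒪 d)} [IsLocalRing (PS 𝒪 d ⧸ J)] {x : ι → PS 𝒪 d ⧸ J}
    (h : GoodPt c L idx J x) : IsArtinianTestAlgebra 𝒪 (PS 𝒪 d ⧸ J) := by
  obtain ⟨n, hn⟩ := h.isOpen
  exact ps_quot_test J n hn

theorem Good.ne_top {c : ι → 𝒪} {L : PointFamily 𝒪 ι} {d : ℕ} {idx : Fin d → ι}
    {J : Ideal (PS 𝒪 d)} (h : Good c L idx J) : J ≠ ⊤ := h.1

/-- **Lemma C.** good points push forward to larger proper ideals. -/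
theorem GoodPt.factor {c : ι → 𝒪} {L : PointFamily 𝒪 ι} (hL : IsRigidFamily 𝒪 ι c L)
    {d : ℕ} {idx : Fin d → ι}
    {J J' : Ideal (PS 𝒪 d)} [IsLocalRing (PS 𝒪 d ⧸ J)] [IsLocalRing (PS 𝒪 d ⧸ J')]
    {x : ι → PS 𝒪 d ⧸ J} (h : GoodPt c L idx J x) (hJJ' : J ≤ J') :
    GoodPt c L idx J' (fun i => Ideal.Quotient.factorₐ 𝒪 hJJ' (x i)) := by
  obtain ⟨n, hn⟩ := h.isOpen
  have hT' : IsArtinianTestAlgebra 𝒪 (PS 𝒪 d ⧸ J') := ps_quot_test J' n (hn.trans hJJ')
  refine ⟨⟨n, hn.trans hJJ'⟩, hL.map h.test hT' _ (test_isLocalHom h.test _) h.mem, ?_⟩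
  intro l
  rw [coord_map, h.coord_eq, Ideal.Quotient.factorₐ_apply_mk]

theorem Good.of_le {c : ι → 𝒪} {L : PointFamily 𝒪 ι} (hL : IsRigidFamily 𝒪 ι c L)
    {d : ℕ} {idx : Fin d → ι} {J J' : Ideal (PS 𝒪 d)} (h : Good c L idx J) (hJJ' : J ≤ J')
    (hJ' : J' ≠ ⊤) : Good c L idx J' := by
  obtain ⟨hJ, x, hx⟩ := h
  haveI := isLocalRing_quot hJ
  haveI := isLocalRing_quot hJ'
  exact ⟨hJ', _, hx.factor hL hJJ'⟩

/-- good points are unique -/
theorem GoodPt.unique {c : ι → 𝒪} {L : PointFamily 𝒪 ι} (hL : IsRigidFamily 𝒪 ι c L)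
    {d : ℕ} {idx : Fin d → ι} (hsep : Sep c L idx)
    {J : Ideal (PS 𝒪 d)} [IsLocalRing (PS 𝒪 d ⧸ J)]
    {x y : ι → PS 𝒪 d ⧸ J} (hx : GoodPt c L idx J x) (hy : GoodPt c L idx J y) : x = y :=
  eq_of_coord_eq hL hsep hx.test hx.mem hy.mem (fun l => by rw [hx.coord_eq, hy.coord_eq])

/-- **Lemma C'.** good points are compatible. -/
theorem GoodPt.factor_eq {c : ι → 𝒪} {L : PointFamily 𝒪 ι} (hL : IsRigidFamily 𝒪 ι c L)
    {d : ℕ} {idx : Fin d → ι} (hsep : Sep c L idx)
    {J J' : Ideal (PS 𝒪 d)} [IsLocalRing (PS 𝒪 d ⧸ J)] [IsLocalRing (PS 𝒪 d ⧸ J')]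
    {x : ι → PS 𝒪 d ⧸ J} {x' : ι → PS 𝒪 d ⧸ J'}
    (h : GoodPt c L idx J x) (h' : GoodPt c L idx J' x') (hJJ' : J ≤ J') (i : ι) :
    Ideal.Quotient.factorₐ 𝒪 hJJ' (x i) = x' i :=
  congrFun ((h.factor hL hJJ').unique hL hsep h') i

/-- **Lemma D.** good ideals are closed under intersection. -/
theorem Good.inf {c : ι → 𝒪} {L : PointFamily 𝒪 ι} (hL : IsRigidFamily 𝒪 ι c L)
    {d : ℕ} {idx : Fin d → ι} (hsep : Sep c L idx)
    {J J' : Ideal (PS 𝒪 d)} (h : Good c L idx J) (h' : Good c L idx J') :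
    Good c L idx (J ⊓ J') := by
  classical
  obtain ⟨hJ, x, hx⟩ := h
  obtain ⟨hJ', x', hx'⟩ := h'
  have hinf : J ⊓ J' ≠ ⊤ := ne_top_of_le_ne_top hJ inf_le_left
  have hsup : J ⊔ J' ≠ ⊤ :=
    ne_top_of_le_ne_top (Ideal.IsMaximal.ne_top (inferInstance : (maximalIdeal (PS 𝒪 d)).IsMaximal))
      (sup_le (le_maximalIdeal hJ) (le_maximalIdeal hJ'))
  haveI := isLocalRing_quot hJ
  haveI := isLocalRing_quot hJ'
  haveI := isLocalRing_quot hinf
  haveI := isLocalRing_quot hsup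
  obtain ⟨n, hn⟩ := hx.isOpen
  obtain ⟨n', hn'⟩ := hx'.isOpen
  have hopen : maximalIdeal (PS 𝒪 d) ^ (max n n') ≤ J ⊓ J' :=
    le_inf ((Ideal.pow_le_pow_right (le_max_left n n')).trans hn)
      ((Ideal.pow_le_pow_right (le_max_right n n')).trans hn')
  have hP : IsArtinianTestAlgebra 𝒪 (PS 𝒪 d ⧸ J ⊓ J') := ps_quot_test _ _ hopen
  have hC : IsArtinianTestAlgebra 𝒪 (PS 𝒪 d ⧸ J ⊔ J') :=
    ps_quot_test _ n (hn.trans le_sup_left)
  let f : (PS 𝒪 d ⧸ J) →ₐ[𝒪] (PS 𝒪 d ⧸ J ⊔ J') := Ideal.Quotient.factorₐ 𝒪 le_sup_left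
  let g : (PS 𝒪 d ⧸ J') →ₐ[𝒪] (PS 𝒪 d ⧸ J ⊔ J') := Ideal.Quotient.factorₐ 𝒪 le_sup_right
  let pA : (PS 𝒪 d ⧸ J ⊓ J') →ₐ[𝒪] (PS 𝒪 d ⧸ J) := Ideal.Quotient.factorₐ 𝒪 inf_le_left
  let pB : (PS 𝒪 d ⧸ J ⊓ J') →ₐ[𝒪] (PS 𝒪 d ⧸ J') := Ideal.Quotient.factorₐ 𝒪 inf_le_right
  have hfg : ∀ i, f (x i) = g (x' i) := fun i =>
    (hx.factor_eq hL hsep (hx'.factor hL le_sup_right) le_sup_left i)
  have hsurj : ∀ a b, f a = g b → ∃ p, pA p = a ∧ pB p = b := by
    intro a b hab
    obtain ⟨s, rfl⟩ := Ideal.Quotient.mk_surjective a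
    obtain ⟨t, rfl⟩ := Ideal.Quotient.mk_surjective b
    have h1 : Ideal.Quotient.mk (J ⊔ J') s = Ideal.Quotient.mk (J ⊔ J') t := by
      simpa [f, g] using hab
    rw [Ideal.Quotient.eq, Submodule.mem_sup] at h1
    obtain ⟨j, hj, j', hj', hjj'⟩ := h1
    refine ⟨Ideal.Quotient.mk _ (s - j), ?_, ?_⟩
    · show Ideal.Quotient.factorₐ 𝒪 _ _ = _
      rw [Ideal.Quotient.factorₐ_apply_mk, Ideal.Quotient.eq]
      simpa using J.neg_mem hj
    · show Ideal.Quotient.factorₐ 𝒪 _ _ = _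
      rw [Ideal.Quotient.factorₐ_apply_mk, Ideal.Quotient.eq]
      have : s - j - t = j' := by linear_combination hjj'.symm
      rw [this]
      exact hj'
  have hinj : Function.Injective (fun p => (pA p, pB p)) := by
    intro p q hpq
    obtain ⟨s, rfl⟩ := Ideal.Quotient.mk_surjective p
    obtain ⟨t, rfl⟩ := Ideal.Quotient.mk_surjective q
    have h1 : pA (Ideal.Quotient.mk _ s) = pA (Ideal.Quotient.mk _ t) := congrArg Prod.fst hpq
    have h2 : pB (Ideal.Quotient.mk _ s) = pB (Ideal.Quotient.mk _ t) := congrArg Prod.snd hpq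
    simp only [pA, pB, Ideal.Quotient.factorₐ_apply_mk] at h1 h2
    rw [Ideal.Quotient.eq] at h1 h2 ⊢
    exact ⟨h1, h2⟩
  choose z hzA hzB using fun i => hsurj (x i) (x' i) (hfg i)
  have hLz : L z := by
    refine hL.fibre hx.test hx'.test hC hP f g pA pB (test_isLocalHom hP _) (test_isLocalHom hP _)
      ?_ hinj hsurj ?_ ?_
    · apply AlgHom.ext
      intro p
      obtain ⟨s, rfl⟩ := Ideal.Quotient.mk_surjective p
      simp [f, g, pA, pB]
    · have : (fun i => pA (z i)) = x := funext hzA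
      rw [this]; exact hx.mem
    · have : (fun i => pB (z i)) = x' := funext hzB
      rw [this]; exact hx'.mem
  refine ⟨hinf, z, ⟨_, hopen⟩, hLz, ?_⟩
  intro l
  apply hinj
  have h1 : pA (coord c idx z l) = coord c idx x l := by
    rw [← coord_map]; simp only [hzA]
  have h2 : pB (coord c idx z l) = coord c idx x' l := by
    rw [← coord_map]; simp only [hzB]
  show (pA (coord c idx z l), pB (coord c idx z l)) = (pA _, pB _)
  rw [h1, h2, hx.coord_eq, hx'.coord_eq]
  simp [pA, pB]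

end

end Fermat.Agent.S53

end
-- ===== PACK-END S53/Abstract3.lean

-- ===== PACK-BEGIN S59/Patch/H967/Coord.lean
section




/-!
# Coordinate data of a patching level (helper967, row S59, piece PATCH)
-/

set_option autoImplicit false

namespace Fermat.Agent.S59.Patch.H967

open MvPowerSeries IsLocalRing

/-- The coordinate description of a patching level with respect to a fixed basis `μ` of `M`:
the two algebra maps and the matrices `A f` of the action of `f` on the level module, which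
form a ring homomorphism modulo `J`. -/
structure CoordData (𝒪 : Type) [CommRing 𝒪] [IsLocalRing 𝒪] (r : ℕ) (R : Type) [CommRing R]
    [Algebra 𝒪 R] {M : Type} [AddCommGroup M] [Module R M] {d : ℕ} (μ : Fin d → M)
    (J : Ideal (MvPowerSeries (Fin r) 𝒪)) (E : ℕ) where
  φ : MvPowerSeries (Fin r) 𝒪 →ₐ[𝒪] MvPowerSeries (Fin r) 𝒪
  ψ : MvPowerSeries (Fin r) 𝒪 →ₐ[𝒪] R
  A : MvPowerSeries (Fin r) 𝒪 → Matrix (Fin d) (Fin d) (MvPowerSeries (Fin r) 𝒪)
  ψ_surjective : Function.Surjective ψ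
  ψ_φ_X : ∀ i : Fin r, ψ (φ (X i)) = 0
  A_add : ∀ f g i j, A (f + g) i j - (A f i j + A g i j) ∈ J
  A_mul : ∀ f g i j, A (f * g) i j - (A f * A g) i j ∈ J
  A_one : ∀ i j, A 1 i j - (1 : Matrix (Fin d) (Fin d) (MvPowerSeries (Fin r) 𝒪)) i j ∈ J
  A_φ : ∀ c i j, A (φ c) i j -
    (c • (1 : Matrix (Fin d) (Fin d) (MvPowerSeries (Fin r) 𝒪))) i j ∈ J
  A_π : ∀ f j, ∑ i, algebraMap 𝒪 R (constantCoeff (A f i j)) • μ i = ψ f • μ j
  A_small : ∀ k g, g ∈ maximalIdeal (MvPowerSeries (Fin r) 𝒪) ^ (E * k) →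
    ∀ i j, A g i j ∈ maximalIdeal (MvPowerSeries (Fin r) 𝒪) ^ k ⊔ J

section Exists

variable {𝒪 : Type} [CommRing 𝒪] [IsLocalRing 𝒪] [Finite (ResidueField 𝒪)]
  {r : ℕ} {R : Type} [CommRing R] [Algebra 𝒪 R]
  {M : Type} [AddCommGroup M] [Module R M] {J : Ideal (MvPowerSeries (Fin r) 𝒪)}

/-- The uniform continuity estimate for a frame. -/
theorem IsFrame.pow_smul_top_le {N : Type} [AddCommGroup N] [Module (MvPowerSeries (Fin r) 𝒪) N]
    {φ : MvPowerSeries (Fin r) 𝒪 →ₐ[𝒪] MvPowerSeries (Fin r) 𝒪} {d : ℕ} {b : Fin d → N}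
    (h : IsFrame φ b J) (k : ℕ) :
    maximalIdeal (MvPowerSeries (Fin r) 𝒪) ^ (Nat.card (Fin d → ResidueField 𝒪) * k) •
        (⊤ : Submodule (MvPowerSeries (Fin r) 𝒪) N) ≤
      Ideal.map (φ : MvPowerSeries (Fin r) 𝒪 →+* MvPowerSeries (Fin r) 𝒪)
        (maximalIdeal (MvPowerSeries (Fin r) 𝒪) ^ k) •
        (⊤ : Submodule (MvPowerSeries (Fin r) 𝒪) N) := by
  classical
  set U : Submodule (MvPowerSeries (Fin r) 𝒪) N :=
    Ideal.map (φ : MvPowerSeries (Fin r) 𝒪 →+* MvPowerSeries (Fin r) 𝒪)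
        (maximalIdeal (MvPowerSeries (Fin r) 𝒪)) •
        (⊤ : Submodule (MvPowerSeries (Fin r) 𝒪) N) with hU
  -- a section of the residue map
  have hs : Function.Surjective (IsLocalRing.residue 𝒪) := IsLocalRing.residue_surjective
  let s : ResidueField 𝒪 → 𝒪 := Function.surjInv hs
  have hss : ∀ t, IsLocalRing.residue 𝒪 (s t) = t := Function.surjInv_eq hs
  let F : (Fin d → ResidueField 𝒪) → N ⧸ U := fun t =>
    Submodule.Quotient.mk (comb φ b (fun i => C (s (t i))))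
  have hF : Function.Surjective F := by
    intro y
    obtain ⟨x, rfl⟩ := Submodule.Quotient.mk_surjective U y
    obtain ⟨c, rfl⟩ := h.span x
    refine ⟨fun i => IsLocalRing.residue 𝒪 (constantCoeff (c i)), ?_⟩
    show Submodule.Quotient.mk _ = Submodule.Quotient.mk _
    rw [Submodule.Quotient.eq, ← comb_sub]
    unfold comb
    refine Submodule.sum_mem _ fun i _ => ?_
    refine Submodule.smul_mem_smul (Ideal.mem_map_of_mem _ ?_) Submodule.mem_top
    rw [Pi.sub_apply, Fermat.Agent.S53.H173.mem_maximalIdeal_iff_constantCoeff, map_sub,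
      constantCoeff_C, ← IsLocalRing.residue_eq_zero_iff, map_sub, hss, sub_self]
  haveI : Finite (N ⧸ U) := Finite.of_surjective F hF
  have hcard : Nat.card (N ⧸ U) ≤ Nat.card (Fin d → ResidueField 𝒪) :=
    Nat.card_le_card_of_surjective F hF
  haveI : Module.Finite (MvPowerSeries (Fin r) 𝒪) N := by
    refine ⟨⟨Finset.univ.image b, ?_⟩⟩
    rw [eq_top_iff]
    intro x _
    obtain ⟨c, rfl⟩ := h.span x
    unfold comb
    refine Submodule.sum_mem _ fun i _ => Submodule.smul_mem _ _ (Submodule.subset_span ?_)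
    simp
  have h1 := maximalIdeal_pow_smul_top_le_of_card_le U _ hcard
  have h2 := pow_smul_top_le_pow_smul_top h1 k
  rw [← pow_mul, ← Ideal.map_pow] at h2
  exact h2

/-- Existence of coordinate data for a patching level. -/
theorem exists_coordData (L : Algebra.PatchingLevel 𝒪 r R M J) (hJ : J ≤ varIdeal 𝒪 r)
    {d : ℕ} {μ : Fin d → M} (hμ : IsOBasis 𝒪 R μ) :
    Nonempty (CoordData 𝒪 r R μ J (Nat.card (Fin d → ResidueField 𝒪))) := by
  classical
  obtain ⟨g, h, hgh, hhg, hg⟩ := hμ.exists_transition (level_isOBasis L hJ)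
  -- the matrices over the power series ring
  set G : Matrix (Fin d) (Fin L.d) (MvPowerSeries (Fin r) 𝒪) :=
    g.map (C : 𝒪 →+* MvPowerSeries (Fin r) 𝒪) with hG
  set H : Matrix (Fin L.d) (Fin d) (MvPowerSeries (Fin r) 𝒪) :=
    h.map (C : 𝒪 →+* MvPowerSeries (Fin r) 𝒪) with hH
  have hGH : G * H = 1 := by
    rw [hG, hH, ← Matrix.map_mul, hgh, Matrix.map_one _ (map_zero _) (map_one _)]
  have hHG : H * G = 1 := by
    rw [hG, hH, ← Matrix.map_mul, hhg, Matrix.map_one _ (map_zero _) (map_one _)]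
  set b' : Fin d → L.N := fun i => comb L.φ L.b (G i) with hb'
  have hfr : IsFrame L.φ b' J := (level_isFrame L).rebase G H hGH hHG
  have hπb : ∀ i, L.π (b' i) = μ i := by
    intro i
    rw [hb', level_pi_comb, hg i]
    refine Finset.sum_congr rfl fun j _ => ?_
    simp [hG]
  have hπc : ∀ c : Fin d → MvPowerSeries (Fin r) 𝒪,
      L.π (comb L.φ b' c) = ∑ i, algebraMap 𝒪 R (constantCoeff (c i)) • μ i := by
    intro c
    rw [level_pi_comb]
    exact Finset.sum_congr rfl fun i _ => by rw [hπb]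
  -- the coordinate matrices
  have hex : ∀ (f : MvPowerSeries (Fin r) 𝒪) (j : Fin d),
      ∃ c : Fin d → MvPowerSeries (Fin r) 𝒪, f • b' j = comb L.φ b' c := fun f j => hfr.span _
  choose A' hA' using hex
  set A : MvPowerSeries (Fin r) 𝒪 → Matrix (Fin d) (Fin d) (MvPowerSeries (Fin r) 𝒪) :=
    fun f => Matrix.of fun i j => A' f j i with hAdef
  have hA : ∀ f j, f • b' j = comb L.φ b' (fun i => A f i j) := fun f j => hA' f j
  have hsm := hfr.smul_comb A hA
  refine ⟨{ φ := L.φ, ψ := L.ψ, A := A, ψ_surjective := L.ψ_surjective, ψ_φ_X := L.ψ_φ_X,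
            A_add := ?_, A_mul := ?_, A_one := ?_, A_φ := ?_, A_π := ?_, A_small := ?_ }⟩
  · intro f g' i j
    refine hfr.sub_mem (c := fun i => A (f + g') i j) (c' := fun i => A f i j + A g' i j) ?_ i
    rw [← hA, add_smul, hA, hA, ← comb_add]
    rfl
  · intro f g' i j
    refine hfr.sub_mem (c := fun i => A (f * g') i j) (c' := fun i => (A f * A g') i j) ?_ i
    rw [← hA, mul_smul, hA g', hsm]
    rfl
  · intro i j
    refine hfr.sub_mem (c := fun i => A 1 i j)
      (c' := fun i => (1 : Matrix (Fin d) (Fin d) (MvPowerSeries (Fin r) 𝒪)) i j) ?_ i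
    rw [← hA, one_smul]
    have h1 : (fun i => (1 : Matrix (Fin d) (Fin d) (MvPowerSeries (Fin r) 𝒪)) i j) =
        Pi.single j 1 := by
      funext i
      rw [Matrix.one_apply, Pi.single_apply]
    rw [h1, comb_single, map_one, one_smul]
  · intro c i j
    refine hfr.sub_mem (c := fun i => A (L.φ c) i j)
      (c' := fun i => (c • (1 : Matrix (Fin d) (Fin d) (MvPowerSeries (Fin r) 𝒪))) i j) ?_ i
    rw [← hA]
    have h1 : (fun i => (c • (1 : Matrix (Fin d) (Fin d) (MvPowerSeries (Fin r) 𝒪))) i j) =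
        Pi.single j c := by
      funext i
      rw [Matrix.smul_apply, Matrix.one_apply, Pi.single_apply, smul_eq_mul, mul_ite, mul_one,
        mul_zero]
    rw [h1, comb_single]
  · intro f j
    rw [← hπc, ← hA, L.π_smul, hπb]
  · intro k g' hg' i j
    have h1 : g' • b' j ∈
        maximalIdeal (MvPowerSeries (Fin r) 𝒪) ^ (Nat.card (Fin d → ResidueField 𝒪) * k) •
          (⊤ : Submodule (MvPowerSeries (Fin r) 𝒪) L.N) :=
      Submodule.smul_mem_smul hg' Submodule.mem_top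
    obtain ⟨c, hcI, hc⟩ := hfr.exists_coords_of_mem_smul_top _ (hfr.pow_smul_top_le k h1)
    have h2 := hfr.sub_mem (c := fun i => A g' i j) (c' := c) (by rw [← hA, hc]) i
    have h3 : A g' i j = c i + (A g' i j - c i) := by ring
    rw [h3]
    exact Submodule.add_mem_sup (hcI i) h2

end Exists

end Fermat.Agent.S59.Patch.H967

end
-- ===== PACK-END S59/Patch/H967/Coord.lean

-- ===== PACK-BEGIN S59/TW/H653/Diamond.lean
section



/-!
# S59 / TW-HECKE (helper653): diamond operators on `X_K(A) = Hom(K, A)`, `Γ₁(M) ≤ K ≤ Γ₀(M)`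

* `diamond_one`, `diamond_mul`, `diamond_of_mem`, `diamond_congr` : `g ↦ diamond hK g` is an action
  of `Γ₀(M)` which factors through `dUnit : Γ₀(M) → (ℤ/M)ˣ` and is trivial on `K`;
* `dUnit_surjective` : `Γ₀(M) → (ℤ/M)ˣ` is surjective (`M ≠ 0`);
* `diamondU hK u` : the diamond operator `⟨u⟩` of `u ∈ (ℤ/M)ˣ`; `diamondU_mul`, `diamondU_of_mem`;
* `diamondHom hK A : (ℤ/M)ˣ →* AddMonoid.End X_K(A)`, trivial on `dUnit K`;
* `diamond_transfer` : diamond operators commute with the transfer of every normalised coset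
  system of `Γ₀(M)`; `diamond_TK`, `diamond_UK`.
-/

set_option autoImplicit false

namespace Fermat.Agent.S59.TW.H653

open CongruenceSubgroup Matrix.SpecialLinearGroup ModularCurve.Period ModularForm
open Fermat.Agent.S29.H642 Fermat.Agent.S41.H761
open P2MW.S_ModularForm_heckeT_slash_eq_self_of_mem_Gamma0.ModularForm.HeckeSlashInvariance
open scoped MatrixGroups

variable {M : ℕ} {K : Subgroup SL(2, ℤ)} {A : Type*} [AddCommGroup A]

theorem diamond_add (hK : IsMid M K) (g : Gamma0 M) (φ ψ : Additive K →+ A) :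
    diamond hK g (φ + ψ) = diamond hK g φ + diamond hK g ψ := rfl

theorem diamond_zero (hK : IsMid M K) (g : Gamma0 M) :
    diamond hK g (0 : Additive K →+ A) = 0 := rfl

theorem diamond_comp {B : Type*} [AddCommGroup B] (hK : IsMid M K) (g : Gamma0 M) (π : A →+ B)
    (φ : Additive K →+ A) : diamond hK g (π.comp φ) = π.comp (diamond hK g φ) := rfl

theorem diamond_one (hK : IsMid M K) (φ : Additive K →+ A) : diamond hK 1 φ = φ := by
  refine AddMonoidHom.ext fun h' => ?_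
  obtain ⟨h, rfl⟩ : ∃ h : K, Additive.ofMul h = h' := ⟨Additive.toMul h', rfl⟩
  rw [diamond_apply]
  congr 2
  apply Subtype.ext
  simp

theorem diamond_mul (hK : IsMid M K) (g g' : Gamma0 M) (φ : Additive K →+ A) :
    diamond hK (g * g') φ = diamond hK g' (diamond hK g φ) := by
  refine AddMonoidHom.ext fun h' => ?_
  obtain ⟨h, rfl⟩ : ∃ h : K, Additive.ofMul h = h' := ⟨Additive.toMul h', rfl⟩
  rw [diamond_apply, diamond_apply, diamond_apply]
  congr 2
  apply Subtype.ext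
  simp [mul_assoc]

/-- Inner automorphisms act trivially: `⟨g⟩ = 1` for `g ∈ K`. -/
theorem diamond_of_mem (hK : IsMid M K) {g : Gamma0 M} (hg : (g : SL(2, ℤ)) ∈ K)
    (φ : Additive K →+ A) : diamond hK g φ = φ := by
  refine AddMonoidHom.ext fun h' => ?_
  obtain ⟨h, rfl⟩ : ∃ h : K, Additive.ofMul h = h' := ⟨Additive.toMul h', rfl⟩
  rw [diamond_apply]
  let k : K := ⟨(g : SL(2, ℤ)), hg⟩
  have e : conjK hK g h = k * h * k⁻¹ := by
    apply Subtype.ext
    rfl
  rw [e, ofMul_mul, ofMul_mul, ofMul_inv, map_add, map_add, map_neg]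
  abel

/-- `⟨g⟩ = 1` if `d(g) ≡ 1 mod M`. -/
theorem diamond_of_dUnit (hK : IsMid M K) {g : Gamma0 M} (hg : dUnit M g = 1)
    (φ : Additive K →+ A) : diamond hK g φ = φ :=
  diamond_of_mem hK (hK.mem_of_dUnit_eq_one hg) φ

/-- `⟨g⟩ = ⟨g'⟩` if `g⁻¹ g' ∈ K`. -/
theorem diamond_congr_of_mem (hK : IsMid M K) {g g' : Gamma0 M}
    (hg : ((g⁻¹ * g' : Gamma0 M) : SL(2, ℤ)) ∈ K) (φ : Additive K →+ A) :
    diamond hK g φ = diamond hK g' φ := by
  have h1 : g' = g * (g⁻¹ * g') := by rw [mul_inv_cancel_left]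
  rw [h1, diamond_mul, diamond_of_mem hK hg]

/-- `⟨g⟩` only depends on `d(g) mod M`. -/
theorem diamond_congr (hK : IsMid M K) {g g' : Gamma0 M} (hg : dUnit M g = dUnit M g')
    (φ : Additive K →+ A) : diamond hK g φ = diamond hK g' φ := by
  apply diamond_congr_of_mem
  apply hK.mem_of_dUnit_eq_one
  rw [map_mul, map_inv, hg, inv_mul_cancel]

theorem diamond_comm (hK : IsMid M K) (g g' : Gamma0 M) (φ : Additive K →+ A) :
    diamond hK g (diamond hK g' φ) = diamond hK g' (diamond hK g φ) := by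
  rw [← diamond_mul, ← diamond_mul]
  apply diamond_congr
  rw [map_mul, map_mul, mul_comm]

/-! ## Surjectivity of `dUnit` and the action of `(ℤ/M)ˣ` -/

theorem dUnit_sigma_val [NeZero M] (u : (ZMod M)ˣ) : dUnit M (sigma M (u : ZMod M).val) = u := by
  apply Units.ext
  rw [dUnit_sigma (ZMod.val_coe_unit_coprime u), ZMod.natCast_zmod_val]

/-- `Γ₀(M) → (ℤ/M)ˣ` is surjective. -/
theorem dUnit_surjective [NeZero M] : Function.Surjective (dUnit M) :=
  fun u => ⟨_, dUnit_sigma_val u⟩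

/-- The diamond operator `⟨u⟩`, `u ∈ (ℤ/M)ˣ`, on `X_K(A)`: `diamond g` for any `g ∈ Γ₀(M)` with
`d(g) ≡ u mod M`. -/
noncomputable def diamondU (hK : IsMid M K) (u : (ZMod M)ˣ) (φ : Additive K →+ A) :
    Additive K →+ A :=
  diamond hK (sigma M (u : ZMod M).val) φ

theorem diamond_eq_diamondU [NeZero M] (hK : IsMid M K) (g : Gamma0 M) (φ : Additive K →+ A) :
    diamond hK g φ = diamondU hK (dUnit M g) φ := by
  apply diamond_congr
  rw [dUnit_sigma_val]

theorem diamondU_eq [NeZero M] (hK : IsMid M K) {u : (ZMod M)ˣ} {g : Gamma0 M}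
    (hg : dUnit M g = u) (φ : Additive K →+ A) : diamondU hK u φ = diamond hK g φ := by
  rw [diamond_eq_diamondU, hg]

theorem diamondU_one [NeZero M] (hK : IsMid M K) (φ : Additive K →+ A) :
    diamondU hK 1 φ = φ := by
  rw [diamondU_eq hK (g := 1) (map_one _), diamond_one]

theorem diamondU_mul [NeZero M] (hK : IsMid M K) (u v : (ZMod M)ˣ) (φ : Additive K →+ A) :
    diamondU hK (u * v) φ = diamondU hK u (diamondU hK v φ) := by
  obtain ⟨g, rfl⟩ := dUnit_surjective u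
  obtain ⟨g', rfl⟩ := dUnit_surjective v
  rw [← map_mul, ← diamond_eq_diamondU, ← diamond_eq_diamondU, ← diamond_eq_diamondU,
    diamond_mul, diamond_comm]

/-- `⟨d(k)⟩ = 1` for `k ∈ K`. -/
theorem diamondU_of_mem [NeZero M] (hK : IsMid M K) {g : Gamma0 M} (hg : (g : SL(2, ℤ)) ∈ K)
    (φ : Additive K →+ A) : diamondU hK (dUnit M g) φ = φ := by
  rw [← diamond_eq_diamondU, diamond_of_mem hK hg]

theorem diamondU_add (hK : IsMid M K) (u : (ZMod M)ˣ) (φ ψ : Additive K →+ A) :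
    diamondU hK u (φ + ψ) = diamondU hK u φ + diamondU hK u ψ := rfl

theorem diamondU_comp {B : Type*} [AddCommGroup B] (hK : IsMid M K) (u : (ZMod M)ˣ)
    (π : A →+ B) (φ : Additive K →+ A) :
    diamondU hK u (π.comp φ) = π.comp (diamondU hK u φ) := rfl

/-- The diamond action of `(ℤ/M)ˣ` on `X_K(A)` as a monoid homomorphism to the endomorphisms;
it is trivial on the image of `K` (`diamondHom_of_mem`). -/
noncomputable def diamondHom [NeZero M] (hK : IsMid M K) (A : Type*) [AddCommGroup A] :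
    (ZMod M)ˣ →* AddMonoid.End (Additive K →+ A) where
  toFun u :=
    { toFun := diamondU hK u
      map_zero' := rfl
      map_add' := diamondU_add hK u }
  map_one' := by
    refine AddMonoidHom.ext fun φ => ?_
    exact diamondU_one hK φ
  map_mul' u v := by
    refine AddMonoidHom.ext fun φ => ?_
    exact diamondU_mul hK u v φ

@[simp] theorem diamondHom_apply [NeZero M] (hK : IsMid M K) (u : (ZMod M)ˣ)
    (φ : Additive K →+ A) : diamondHom hK A u φ = diamondU hK u φ := rfl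

theorem diamondHom_of_mem [NeZero M] (hK : IsMid M K) {g : Gamma0 M}
    (hg : (g : SL(2, ℤ)) ∈ K) : diamondHom hK A (dUnit M g) = 1 := by
  refine AddMonoidHom.ext fun φ => ?_
  exact diamondU_of_mem hK hg φ

/-- For `K = Γ_H(M)` the diamond action is trivial on `H`. -/
theorem diamondHom_GammaH [NeZero M] {H : Subgroup (ZMod M)ˣ} {u : (ZMod M)ˣ} (hu : u ∈ H) :
    diamondHom (isMid_GammaH M H) A u = 1 := by
  obtain ⟨g, rfl⟩ := dUnit_surjective u
  exact diamondHom_of_mem _ (mem_GammaH.mpr ⟨g.2, hu⟩)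

/-! ## Diamond operators commute with normalised coset systems -/

section Commute

variable {I : Type*} [Fintype I] {ρ : I → GL (Fin 2) ℝ}

/-- **Diamond operators commute with the transfer of a normalised coset system.** -/
theorem diamond_transfer (hK : IsMid M K) (h₀ : IsCosetSystem (ιN M) (ιN M) ρ)
    (hρ : ∀ i, IsNormRep M (ρ i)) (g : Gamma0 M) (φ : Additive K →+ A) :
    (system_of_gamma0 hK h₀ hρ).transfer (diamond hK g φ) =
      diamond hK g ((system_of_gamma0 hK h₀ hρ).transfer φ) := by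
  set hH := system_of_gamma0 hK h₀ hρ with hHdef
  -- `m i = g⁻¹ * coc₀ i g ∈ K`
  have hm : ∀ i, ((g⁻¹ * h₀.coc i g : Gamma0 M) : SL(2, ℤ)) ∈ K := by
    intro i
    apply hK.mem_of_dUnit_eq_one
    rw [map_mul, map_inv, dUnit_coc h₀ hρ, inv_mul_cancel]
  let m : I → K := fun i => ⟨_, hm i⟩
  have hmcoe : ∀ i, inclK hK (m i) = g⁻¹ * h₀.coc i g := fun i => rfl
  refine AddMonoidHom.ext fun k' => ?_
  obtain ⟨k, rfl⟩ : ∃ k : K, Additive.ofMul k = k' := ⟨Additive.toMul k', rfl⟩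
  rw [diamond_apply, IsCosetSystem.transfer_apply, IsCosetSystem.transfer_apply]
  -- the key identity
  have cocinv : ∀ (a : I) (x : Gamma0 M), h₀.coc a x⁻¹ = (h₀.coc (h₀.act a x⁻¹) x)⁻¹ := by
    intro a x
    have := h₀.coc_mul a x⁻¹ x
    rw [inv_mul_cancel, h₀.coc_one] at this
    exact eq_inv_of_mul_eq_one_left this.symm
  have e2 : ∀ x : K, inclK hK (conjK hK g x) = g * inclK hK x * g⁻¹ := fun _ => rfl
  have key : ∀ i, hH.coc i (conjK hK g k) =
      conjK hK g (m i * hH.coc (h₀.act i g) k * (m (hH.act i (conjK hK g k)))⁻¹) := by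
    intro i
    apply inclK_injective hK
    have hj : hH.act i (conjK hK g k) = h₀.act i (g * inclK hK k * g⁻¹) := by
      rw [system_of_gamma0_act hK h₀ hρ, e2]
    have hL : inclK hK (hH.coc i (conjK hK g k)) = h₀.coc i (g * inclK hK k * g⁻¹) := by
      rw [system_of_gamma0_coc hK h₀ hρ, e2]
    have hc2 : inclK hK (hH.coc (h₀.act i g) k) = h₀.coc (h₀.act i g) (inclK hK k) :=
      system_of_gamma0_coc hK h₀ hρ _ _
    have hR : inclK hK (conjK hK g
        (m i * hH.coc (h₀.act i g) k * (m (hH.act i (conjK hK g k)))⁻¹)) =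
        g * ((g⁻¹ * h₀.coc i g) * h₀.coc (h₀.act i g) (inclK hK k) *
          (g⁻¹ * h₀.coc (h₀.act i (g * inclK hK k * g⁻¹)) g)⁻¹) * g⁻¹ := by
      rw [e2, (inclK hK).map_mul, (inclK hK).map_mul, (inclK hK).map_inv, hmcoe, hmcoe, hc2,
        hj]
    rw [hL, hR, h₀.coc_mul, h₀.coc_mul, cocinv]
    have hact : h₀.act (h₀.act i (g * inclK hK k)) g⁻¹ = h₀.act i (g * inclK hK k * g⁻¹) :=
      (h₀.act_mul i (g * inclK hK k) g⁻¹).symm
    rw [hact]
    group
  have hconj : ∀ a b c : K, conjK hK g (a * b * c⁻¹) =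
      conjK hK g a * conjK hK g b * (conjK hK g c)⁻¹ := by
    intro a b c
    rw [(conjK hK g).map_mul, (conjK hK g).map_mul, (conjK hK g).map_inv]
  have hsum : ∀ i, φ (Additive.ofMul (hH.coc i (conjK hK g k))) =
      diamond hK g φ (Additive.ofMul (m i)) +
        diamond hK g φ (Additive.ofMul (hH.coc (h₀.act i g) k)) -
        diamond hK g φ (Additive.ofMul (m (hH.act i (conjK hK g k)))) := by
    intro i
    rw [key i, diamond_apply, diamond_apply, diamond_apply, hconj, ofMul_mul,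
      ofMul_mul, ofMul_inv, map_add, map_add, map_neg, sub_eq_add_neg]
  simp only [hsum, Finset.sum_add_distrib, Finset.sum_sub_distrib]
  have hp1 : ∑ i, diamond hK g φ (Additive.ofMul (m (hH.act i (conjK hK g k)))) =
      ∑ i, diamond hK g φ (Additive.ofMul (m i)) :=
    Equiv.sum_comp (hH.actEquiv (conjK hK g k))
      (fun i => diamond hK g φ (Additive.ofMul (m i)))
  have hp2 : ∑ i, diamond hK g φ (Additive.ofMul (hH.coc (h₀.act i g) k)) =
      ∑ i, diamond hK g φ (Additive.ofMul (hH.coc i k)) :=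
    Equiv.sum_comp (h₀.actEquiv g)
      (fun i => diamond hK g φ (Additive.ofMul (hH.coc i k)))
  rw [hp1, hp2]
  abel

theorem diamond_TK (hK : IsMid M K) {ℓ : ℕ} [Fact ℓ.Prime] (hℓ : ¬ ℓ ∣ M) (g : Gamma0 M)
    (φ : Additive K →+ A) :
    TK M K ℓ (diamond hK g φ) = diamond hK g (TK M K ℓ φ) := by
  rw [TK_eq hK hℓ, TK_eq hK hℓ]
  exact diamond_transfer hK (repsT_system0 hℓ) (isNormRep_repsT hℓ) g φ

theorem diamond_UK (hK : IsMid M K) {q : ℕ} [Fact q.Prime] (hq : q ∣ M) (g : Gamma0 M)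
    (φ : Additive K →+ A) :
    UK K q (diamond hK g φ) = diamond hK g (UK K q φ) := by
  rw [UK_eq hK hq, UK_eq hK hq]
  exact diamond_transfer hK (repsU_system0 hq) (isNormRep_repsU q) g φ

theorem diamondU_TK (hK : IsMid M K) {ℓ : ℕ} [Fact ℓ.Prime] (hℓ : ¬ ℓ ∣ M) (u : (ZMod M)ˣ)
    (φ : Additive K →+ A) :
    TK M K ℓ (diamondU hK u φ) = diamondU hK u (TK M K ℓ φ) :=
  diamond_TK hK hℓ _ φ

theorem diamondU_UK (hK : IsMid M K) {q : ℕ} [Fact q.Prime] (hq : q ∣ M) (u : (ZMod M)ˣ)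
    (φ : Additive K →+ A) :
    UK K q (diamondU hK u φ) = diamondU hK u (UK K q φ) :=
  diamond_UK hK hq _ φ

end Commute

end Fermat.Agent.S59.TW.H653

end
-- ===== PACK-END S59/TW/H653/Diamond.lean

-- ===== PACK-BEGIN S59/TW/H206/Weierstrass.lean
section



/-!
# Row S59, cell TW, leaf WEIERSTRASS (helper206)

`weierstrass : H959.WeierstrassStatement` (verbatim frozen interface of helper959,
`TW/H959/Iface.lean`), from the Mathlib-only core `weierstrass_core`.
-/

set_option autoImplicit false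

namespace Fermat.Agent.S59.TW.H206

open IsLocalRing

/-- **LEAF WEIERSTRASS** of the cell TW. -/
theorem weierstrass : Fermat.Agent.S59.TW.H959.WeierstrassStatement := by
  intro p hp 𝒪 _ _ _ _ hp𝒪 n r f
  obtain ⟨c, hc⟩ := weierstrass_core (O := 𝒪) p hp.out hp𝒪 n r f
  refine ⟨c, ?_⟩
  have e : ∑ a, algebraMap 𝒪 (MvPowerSeries (Fin r) 𝒪) (c a) *
      ∏ i, (1 + MvPowerSeries.X i) ^ (a i : ℕ) = ∑ a, c a • mono 𝒪 (p ^ n) a := by
    refine Finset.sum_congr rfl fun a _ => ?_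
    rw [Algebra.smul_def]
    rfl
  rw [e]
  exact hc

end Fermat.Agent.S59.TW.H206

end
-- ===== PACK-END S59/TW/H206/Weierstrass.lean

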