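import Mathlib
import Fermat.Prelude.Def_ExtEndgame_ProductionDatum
import Fermat.Agent.Pack.S43GC.G0E12L3
import Fermat.Agent.Pack.S43GC.G0E0L3
import Fermat.Agent.Pack.S44C.G0E6L0
import Fermat.Agent.Pack.S43GC.G0E3L1
import Fermat.Agent.Pack.S44C.G0E19L1
import Fermat.Agent.Pack.S43GC.G0E12L2
import Fermat.Agent.Pack.S43GC.G0E12L0
import Fermat.Agent.Pack.S43GC.G0E8L2
import Fermat.Agent.Pack.S43GC.G0E8L1
import Fermat.Agent.Pack.S43GC.G0E1L2
import Fermat.Agent.Pack.S43GC.G0E13L0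
import Fermat.Agent.Pack.S43GC.G0E13L2
import Fermat.Agent.Pack.S43GC.G0E13L3
import Fermat.Agent.Pack.Fast891

-- ===== PACK-BEGIN S55/Local/H374/KummerEmb.lean
section




/-!
# S55 / layer KL, leaf KL-A2 (`LocalKummerEmbSpec`), core                    (helper374)

`ℚ̄_qˣ` (as a representation of the Prelude's local Galois group `Gl q`) is smooth for the local
level system, `p`-divisible, and `μ_p = F_p(χ_cyc)` embeds equivariantly onto its `p`-torsion.

Everything is stated in unfolded form (only `PT` vocabulary), so that the file does not depend on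
the location of the KL interface.
-/

set_option autoImplicit false
set_option linter.style.haveILetI false

noncomputable section

namespace Fermat.Agent.S55.Local.H374

open groupCohomology ExtCitation Fermat.Agent.S55.PT Fermat.Agent.S55.Bridge

/-- `ℚ̄_qˣ` (written additively) as a representation of the Prelude's local Galois group
(the same expression as `KL.unitsA`). -/
abbrev unitsQ (q : Nat.Primes) : Rep.{0, 0, 0} ℤ (Gl q) :=
  letI : Fact (q : ℕ).Prime := ⟨q.2⟩
  (Rep.ofAlgebraAutOnUnits ℚ_[(q : ℕ)] (PadicAlgCl (q : ℕ)) :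
    Rep ℤ (PadicAlgCl (q : ℕ) ≃ₐ[ℚ_[(q : ℕ)]] PadicAlgCl (q : ℕ)))

/-- **KL-A2, part 1**: `ℚ̄_qˣ` is smooth (Krasner). -/
theorem unitsQ_isSmooth (q : Nat.Primes) : (localLevels q).IsSmooth (unitsQ q) := by
  haveI : Fact (q : ℕ).Prime := ⟨q.2⟩
  haveI : Algebra.IsAlgebraic ℚ (AlgebraicClosure ℚ) := AlgebraicClosure.isAlgebraic ℚ
  intro a
  let u : (PadicAlgCl (q : ℕ))ˣ := Additive.toMul a
  obtain ⟨b, hb⟩ := exists_global_generator (q : ℕ) (u : PadicAlgCl (q : ℕ))
  haveI : FiniteDimensional ℚ (IntermediateField.adjoin ℚ {b}) :=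
    IntermediateField.adjoin.finiteDimensional (Algebra.IsIntegral.isIntegral b)
  refine ⟨_, ⟨IntermediateField.adjoin ℚ {b}, inferInstance, rfl⟩, ?_⟩
  intro s hs
  let s' : PadicAlgCl (q : ℕ) ≃ₐ[ℚ_[(q : ℕ)]] PadicAlgCl (q : ℕ) := s
  have hsb : localGaloisToGlobal (q : ℕ) s' b = b := by
    have hs' : rl q s ∈ (IntermediateField.adjoin ℚ {b}).fixingSubgroup := hs
    exact (IntermediateField.mem_fixingSubgroup_iff _ _).1 hs' b
      (IntermediateField.subset_adjoin ℚ _ (Set.mem_singleton b))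
  have hsu : s' (u : PadicAlgCl (q : ℕ)) = u := fixes_adjoin_of_fixes (q : ℕ) s' b hsb _ hb
  apply Additive.toMul.injective
  apply Units.ext
  exact hsu

/-- **KL-A2, part 2**: `ℚ̄_qˣ` is divisible. -/
theorem unitsQ_divisible (n : ℕ) (hn : 0 < n) (q : Nat.Primes) :
    ∀ b : unitsQ q, ∃ c : unitsQ q, n • c = b := by
  haveI : Fact (q : ℕ).Prime := ⟨q.2⟩
  intro b
  let u : (PadicAlgCl (q : ℕ))ˣ := Additive.toMul b
  obtain ⟨v, hv⟩ := IsAlgClosed.exists_pow_nat_eq (u : PadicAlgCl (q : ℕ)) hn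
  have hv0 : v ≠ 0 := by
    rintro rfl
    rw [zero_pow hn.ne'] at hv
    exact u.ne_zero hv.symm
  refine ⟨Additive.ofMul (Units.mk0 v hv0), ?_⟩
  apply Additive.toMul.injective
  apply Units.ext
  show ((Units.mk0 v hv0) ^ n : (PadicAlgCl (q : ℕ))ˣ).1 = (u : PadicAlgCl (q : ℕ))
  rw [Units.val_pow_eq_pow_val, Units.val_mk0, hv]

/-- additive maps out of `ZMod n` are determined by the image of `1` -/
theorem zmod_addMonoidHom_ext {A : Type*} [AddCommGroup A] {n : ℕ} (f g : ZMod n →+ A)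
    (h : f 1 = g 1) : f = g := by
  have hfg : f.comp (Int.castAddHom (ZMod n)) = g.comp (Int.castAddHom (ZMod n)) := by
    ext
    simpa using h
  ext x
  obtain ⟨k, rfl⟩ := ZMod.intCast_surjective x
  exact DFunLike.congr_fun hfg k

variable (p : ℕ) [Fact p.Prime]

/-- **KL-A2, part 3**: `μ_p` embeds equivariantly onto the `p`-torsion of `ℚ̄_qˣ`. -/
theorem exists_kummerEmb (q : Nat.Primes) :
    ∃ ι : muLoc p q →+ unitsQ q, Function.Injective ι ∧
      (∀ (g : Gl q) (m : muLoc p q), ι ((muLoc p q).ρ g m) = (unitsQ q).ρ g (ι m)) ∧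
      ∀ b : unitsQ q, p • b = 0 ↔ b ∈ Set.range ι := by
  haveI : Fact (q : ℕ).Prime := ⟨q.2⟩
  have hp : p.Prime := Fact.out
  haveI : NeZero p := ⟨hp.ne_zero⟩
  -- a primitive `p`-th root of unity in `ℚ̄` and its image in `ℚ̄_q`
  obtain ⟨ζ₀, hζ₀⟩ := HasEnoughRootsOfUnity.exists_primitiveRoot (AlgebraicClosure ℚ) p
  have hζ : IsPrimitiveRoot (padicEmbedding (q : ℕ) ζ₀) p :=
    hζ₀.map_of_injective (padicEmbedding (q : ℕ)).toRingHom.injective
  set ζ : PadicAlgCl (q : ℕ) := padicEmbedding (q : ℕ) ζ₀ with hζdef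
  have hζ0 : ζ ≠ 0 := hζ.ne_zero hp.ne_zero
  let ζu : (PadicAlgCl (q : ℕ))ˣ := Units.mk0 ζ hζ0
  have hζu : IsPrimitiveRoot ζu p := by
    rw [← IsPrimitiveRoot.coe_units_iff]
    exact hζ
  let z : unitsQ q := Additive.ofMul ζu
  have hz : (p : ℤ) • z = 0 := by
    rw [natCast_zsmul]
    apply Additive.toMul.injective
    show ζu ^ p = 1
    exact hζu.pow_eq_one
  let ι : muLoc p q →+ unitsQ q := ZMod.lift p ⟨zmultiplesHom (unitsQ q) z, by simpa using hz⟩
  have hι_int : ∀ k : ℤ, ι ((k : ZMod p) : muLoc p q) = k • z := fun k => by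
    show ZMod.lift p _ (k : ZMod p) = k • z
    rw [ZMod.lift_coe]
    rfl
  have hι_one : ι (1 : ZMod p) = z := by
    have h := hι_int 1
    rwa [Int.cast_one, one_zsmul] at h
  -- the Galois action on `ζ`
  have hgζ : ∀ g : Gl q, (unitsQ q).ρ g z
      = ((((cycloChar p (rl q g) : (ZMod p)ˣ) : ZMod p).val : ℕ) : ℤ) • z := by
    intro g
    let g' : PadicAlgCl (q : ℕ) ≃ₐ[ℚ_[(q : ℕ)]] PadicAlgCl (q : ℕ) := g
    have hζ₀0 : ζ₀ ≠ 0 := hζ₀.ne_zero hp.ne_zero
    have hmem : Units.mk0 ζ₀ hζ₀0 ∈ rootsOfUnity p (AlgebraicClosure ℚ) := by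
      rw [mem_rootsOfUnity]
      apply Units.ext
      rw [Units.val_pow_eq_pow_val, Units.val_mk0, Units.val_one]
      exact hζ₀.pow_eq_one
    have h1 := cycloChar_spec p (localGaloisToGlobal (q : ℕ) g') hmem
    rw [Units.val_mk0] at h1
    have h2 : g' ζ = ζ ^ ((cycloChar p (localGaloisToGlobal (q : ℕ) g') : (ZMod p)ˣ) : ZMod p).val := by
      rw [hζdef, ← padicEmbedding_localGaloisToGlobal, h1, map_pow]
    rw [natCast_zsmul]
    apply Additive.toMul.injective
    apply Units.ext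
    show g' ζ = ((ζu ^ (((cycloChar p (rl q g) : (ZMod p)ˣ) : ZMod p).val) :
      (PadicAlgCl (q : ℕ))ˣ) : PadicAlgCl (q : ℕ))
    rw [Units.val_pow_eq_pow_val]
    exact h2
  refine ⟨ι, ?_, ?_, ?_⟩
  · -- injectivity
    rw [injective_iff_map_eq_zero]
    intro m hm
    obtain ⟨k, rfl⟩ := ZMod.intCast_surjective (m : ZMod p)
    rw [hι_int] at hm
    have h1 : ζu ^ k = 1 := congrArg Additive.toMul hm
    rw [hζu.zpow_eq_one_iff_dvd] at h1
    exact (ZMod.intCast_zmod_eq_zero_iff_dvd k p).2 h1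
  · -- equivariance
    intro g m
    let φ₁ : ZMod p →+ unitsQ q :=
      (ι : ZMod p →+ unitsQ q).comp ((muLoc p q).ρ g : ZMod p →ₗ[ZMod p] ZMod p).toAddMonoidHom
    let φ₂ : ZMod p →+ unitsQ q :=
      (((unitsQ q).ρ g : unitsQ q →ₗ[ℤ] unitsQ q).toAddMonoidHom).comp (ι : ZMod p →+ unitsQ q)
    have h12 : φ₁ = φ₂ := by
      apply zmod_addMonoidHom_ext
      show ι ((muLoc p q).ρ g (1 : ZMod p)) = (unitsQ q).ρ g (ι (1 : ZMod p))
      rw [hι_one, hgζ g]
      have hρ : (muLoc p q).ρ g (1 : ZMod p)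
          = ((((((cycloChar p (rl q g) : (ZMod p)ˣ) : ZMod p).val : ℕ) : ℤ) : ZMod p) :
              ZMod p) := by
        show ((cycloChar p (rl q g) : (ZMod p)ˣ) : ZMod p) • (1 : ZMod p) = _
        rw [smul_eq_mul, mul_one, Int.cast_natCast, ZMod.natCast_val, ZMod.cast_id]
      rw [hρ]
      exact hι_int _
    exact DFunLike.congr_fun h12 m
  · -- the range is the `p`-torsion
    intro b
    constructor
    · intro hb
      let u : (PadicAlgCl (q : ℕ))ˣ := Additive.toMul b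
      have hu : u ^ p = 1 := congrArg Additive.toMul hb
      have hu' : (u : PadicAlgCl (q : ℕ)) ^ p = 1 := by
        rw [← Units.val_pow_eq_pow_val, hu, Units.val_one]
      obtain ⟨i, -, hi⟩ := hζ.eq_pow_of_pow_eq_one hu'
      refine ⟨((i : ℤ) : ZMod p), ?_⟩
      rw [hι_int, natCast_zsmul]
      apply Additive.toMul.injective
      apply Units.ext
      show ((ζu ^ i : (PadicAlgCl (q : ℕ))ˣ) : PadicAlgCl (q : ℕ)) = u
      rw [Units.val_pow_eq_pow_val]
      exact hi
    · rintro ⟨m, rfl⟩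
      rw [← map_nsmul]
      have : p • (m : ZMod p) = 0 := by
        rw [nsmul_eq_mul, CharP.cast_eq_zero, zero_mul]
      rw [this, map_zero]

end Fermat.Agent.S55.Local.H374

end

end
-- ===== PACK-END S55/Local/H374/KummerEmb.lean

-- ===== PACK-BEGIN S55/Bridge/H175/PrimeLevel.lean
section




set_option autoImplicit false
set_option linter.style.haveILetI false

/-!
# B11, part 5: the finite-level dictionary for the Prelude's `primeLocalToGlobal`

Everything of `LocalLevel`, `LevelGalois`, `DecompLevel`, `LevelPrime` restated for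
`q : Nat.Primes` and the Prelude objects `primeLocalGaloisGroup q`, `primeLocalToGlobal q`,
`primeLocalPlace q`.
-/

open scoped NNReal Pointwise NumberField

namespace Fermat.Agent.S55.Bridge.H175

open ExtCitation

variable (q : Nat.Primes) (F : IntermediateField ℚ (AlgebraicClosure ℚ))

/-- The local level `F_q = ℚ_q · ι(F)` for `q : Nat.Primes`. -/
noncomputable def primeLocalLevel :
    letI : Fact (q : ℕ).Prime := ⟨q.2⟩
    IntermediateField ℚ_[(q : ℕ)] (PadicAlgCl (q : ℕ)) :=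
  letI : Fact (q : ℕ).Prime := ⟨q.2⟩
  localLevel (q : ℕ) F

theorem finiteDimensional_primeLocalLevel [FiniteDimensional ℚ F] :
    letI : Fact (q : ℕ).Prime := ⟨q.2⟩
    FiniteDimensional ℚ_[(q : ℕ)] (primeLocalLevel q F) :=
  letI : Fact (q : ℕ).Prime := ⟨q.2⟩
  finiteDimensional_localLevel (q : ℕ) F

theorem isGalois_primeLocalLevel [Normal ℚ F] :
    letI : Fact (q : ℕ).Prime := ⟨q.2⟩
    IsGalois ℚ_[(q : ℕ)] (primeLocalLevel q F) :=
  letI : Fact (q : ℕ).Prime := ⟨q.2⟩
  isGalois_localLevel (q : ℕ) F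

/-- **`(primeLocalToGlobal q)⁻¹(G_F) = Gal(ℚ̄_q/F_q)`.** -/
theorem comap_primeLocalToGlobal_fixingSubgroup :
    letI : Fact (q : ℕ).Prime := ⟨q.2⟩
    F.fixingSubgroup.comap (primeLocalToGlobal q) = (primeLocalLevel q F).fixingSubgroup :=
  letI : Fact (q : ℕ).Prime := ⟨q.2⟩
  comap_fixingSubgroup (q : ℕ) F

/-- An element of the local Galois group restricts to `G_F` iff it fixes `ι(F)` pointwise. -/
theorem primeLocalToGlobal_mem_fixingSubgroup_iff
    (τ : letI : Fact (q : ℕ).Prime := ⟨q.2⟩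
      PadicAlgCl (q : ℕ) ≃ₐ[ℚ_[(q : ℕ)]] PadicAlgCl (q : ℕ)) :
    letI : Fact (q : ℕ).Prime := ⟨q.2⟩
    primeLocalToGlobal q τ ∈ F.fixingSubgroup ↔
      ∀ x ∈ F, τ (padicEmbedding (q : ℕ) x) = padicEmbedding (q : ℕ) x := by
  letI : Fact (q : ℕ).Prime := ⟨q.2⟩
  rw [IntermediateField.mem_fixingSubgroup_iff]
  constructor
  · intro h x hx
    have h1 := h x hx
    have h2 := padicEmbedding_localGaloisToGlobal (q : ℕ) τ x
    rw [← h2]
    exact congrArg _ h1
  · intro h x hx
    apply Fermat.Agent.S55.H175.padicEmbedding_injective (q : ℕ)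
    have h2 := padicEmbedding_localGaloisToGlobal (q : ℕ) τ x
    exact h2.trans (h x hx)

section Normal

variable [hFn : Normal ℚ F]

/-- `Gal(ℚ̄_q/ℚ_q) → Gal(F/ℚ)` for `q : Nat.Primes`. -/
noncomputable def primeToLevel : primeLocalGaloisGroup q →* (F ≃ₐ[ℚ] F) :=
  (AlgEquiv.restrictNormalHom (F := ℚ) (K₁ := AlgebraicClosure ℚ) F).comp (primeLocalToGlobal q)

theorem primeToLevel_apply_coe (τ : primeLocalGaloisGroup q) (x : F) :
    ((primeToLevel q F τ x : F) : AlgebraicClosure ℚ) =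
      primeLocalToGlobal q τ (x : AlgebraicClosure ℚ) :=
  AlgEquiv.restrictNormal_commutes (primeLocalToGlobal q τ) F x

theorem primeToLevel_eq_toLevel :
    letI : Fact (q : ℕ).Prime := ⟨q.2⟩
    primeToLevel q F = toLevel (q : ℕ) F := rfl

omit hFn in
/-- The prime of `𝓞 F` below the Prelude place `primeLocalPlace q`. -/
noncomputable def primeLevelPrime : Ideal (𝓞 F) := primeOfPlace (levelPlace F (primeLocalPlace q))

omit hFn in
theorem primeLevelPrime_isPrime : (primeLevelPrime q F).IsPrime := primeOfPlace_isPrime _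

omit hFn in
theorem natCast_mem_primeLevelPrime : ((q : ℕ) : 𝓞 F) ∈ primeLevelPrime q F :=
  letI : Fact (q : ℕ).Prime := ⟨q.2⟩
  natCast_mem_levelPrime (q : ℕ) F

/-- **The image of the local Galois group in `Gal(F/ℚ)` is the decomposition group** of the
valuation subring `primeLocalPlace q ∩ F`. -/
theorem range_primeToLevel :
    (primeToLevel q F).range = (levelPlace F (primeLocalPlace q)).decompositionSubgroup ℚ :=
  letI : Fact (q : ℕ).Prime := ⟨q.2⟩
  decompositionAt_eq (q : ℕ) F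

/-- **The image of the local Galois group in `Gal(F/ℚ)` is the stabiliser of the prime**
`primeLevelPrime q F` of `𝓞 F`. -/
theorem range_primeToLevel_eq_stabilizer :
    (primeToLevel q F).range = MulAction.stabilizer (F ≃ₐ[ℚ] F) (primeLevelPrime q F) :=
  letI : Fact (q : ℕ).Prime := ⟨q.2⟩
  decompositionAt_eq_stabilizer (q : ℕ) F

/-- **`ker (Gal(ℚ̄_q/ℚ_q) → Gal(F/ℚ)) = Gal(ℚ̄_q/F_q)`.** -/
theorem ker_primeToLevel :
    letI : Fact (q : ℕ).Prime := ⟨q.2⟩
    (primeToLevel q F).ker = (primeLocalLevel q F).fixingSubgroup :=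
  letI : Fact (q : ℕ).Prime := ⟨q.2⟩
  ker_toLevel (q : ℕ) F

/-- The order of the finite-level decomposition group is the local degree `[F_q : ℚ_q]`. -/
theorem card_range_primeToLevel [FiniteDimensional ℚ F] :
    letI : Fact (q : ℕ).Prime := ⟨q.2⟩
    Nat.card (primeToLevel q F).range = Module.finrank ℚ_[(q : ℕ)] (primeLocalLevel q F) :=
  letI : Fact (q : ℕ).Prime := ⟨q.2⟩
  card_decompositionAt (q : ℕ) F

end Normal

end Fermat.Agent.S55.Bridge.H175

end
-- ===== PACK-END S55/Bridge/H175/PrimeLevel.lean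

-- ===== PACK-BEGIN S55/E1/Tr/Defs.lean
section
/-
S55 engine E1 — block ALG, part 3: DEFINITIONS for ALG9 (edge map), ALG10 (transitions),
ALG11 (local injectivity).   Sub-architect: helper895 (assigned by helper55, note #4405).
Blueprint: coord/S55-E1.md §3.   NO sorry.   Namespace `Fermat.Agent.S55.E1`.

CHANGE OF GROUP.  Data: `π : G' →* G`, `N : Rep ℤ G`, `N' : Rep ℤ G'`,
`ν : N' ⟶ Rep.res π N` (in the tower: the identity), `X : Rep ℤ G`, `X' : Rep ℤ G'`,
`ι : Rep.res π X ⟶ X'` (SEMILINEAR form: `ι (π(g') x) = g' ι(x)`).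

* `trP π ν : stdP N' ⟶ Rep.res π (stdP N)`      `ρ : g' e_{n'} ↦ π(g') e_{ν n'}`;
* `trR π ν : stdR N' ⟶ Rep.res π (stdR N)`      restriction of `ρ` to `R'` (`trR_stdι`);
* `trA π ν ι : homA N X →+ homA N' X'`,  `trB π ν ι : homB N X →+ homB N' X'`   `f ↦ ι ∘ f ∘ ρ`;
  `trA_resBA` (tr commutes with `res : Bc → A`), `Extends.tr`;
* `trIhom π a ι : Rep.res π (Hom(A, X)) ⟶ Hom(A', X')`   `φ ↦ ι ∘ φ ∘ a`  (generic `k`);
* `trE2 π ν ι : E2 N X →+ E2 N' X'`              on `𝔈² = H¹(G, Hom_ℤ(R, X))`;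
* `infCoeff π ι n : Hⁿ(G, X) →+ Hⁿ(G', X')`      `inf_ι = ι_* ∘ (inflation along π)`.

EDGE MAP.  `edgeB N X = 𝔹 = im(Hom_ℤ(P, X) → Hom_ℤ(R, X))` (a `G`-module),
`edgeSC N X : 0 → Hom_ℤ(N, X) → Hom_ℤ(P, X) → 𝔹 → 0` (`edgeSC_shortExact`),
`edgeδ N X : H¹(G, 𝔹) → H²(G, Hom_ℤ(N, X))` (bijective: ALG9),
`edgeIncl N X : H¹(G, 𝔹) → 𝔈²(X)`;  `IsEdge x y : Prop`  (`y = e(x)`),
`trEdgeB π ν ι : Rep.res π (edgeB N X) ⟶ edgeB N' X'`.
-/



set_option autoImplicit false

open CategoryTheory CategoryTheory.Limits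

namespace Fermat.Agent.S55.E1

noncomputable section

variable {G G' : Type} [Group G] [Group G'] (π : G' →* G)
variable {N : Rep.{0} ℤ G} {N' : Rep.{0} ℤ G'} (ν : N' ⟶ Rep.res π N)

/-- `ρ : P' → P`, `g' • e_{n'} ↦ π(g') • e_{ν n'}`. -/
def trP : stdP N' ⟶ Rep.res π (stdP N) :=
  Rep.freeLift ℤ G' (Rep.res π (stdP N)) (fun n' : N'.V => stdE N (ν.hom n'))

lemma trP_stdE (n' : N'.V) : (trP π ν).hom (stdE N' n') = stdE N (ν.hom n') := by
  simp [trP, stdE]

lemma resFunctor_map_hom_apply {A B : Rep.{0} ℤ G} (f : A ⟶ B) (x : A.V) :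
    ((Rep.resFunctor π).map f).hom x = f.hom x := rfl

lemma trP_stdε : trP π ν ≫ (Rep.resFunctor π).map (stdε N) = stdε N' ≫ ν := by
  apply Rep.free_ext
  intro n'
  have h1 := trP_stdE π ν n'
  have h2 := stdε_stdE N' n'
  have h3 := stdε_stdE N (ν.hom n')
  unfold stdE at h1 h2 h3
  rw [Rep.comp_apply, Rep.comp_apply]
  erw [h1, h2]
  exact h3

lemma trP_stdε_apply (x : (stdP N').V) :
    (stdε N).hom ((trP π ν).hom x) = ν.hom ((stdε N').hom x) := by
  have := congrArg (fun f => f.hom x) (trP_stdε π ν)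
  exact this

/-- `ρ|_{R'} : R' → R`. -/
def trR : stdR N' ⟶ Rep.res π (stdR N) :=
  kernel.lift ((Rep.resFunctor π).map (stdε N)) (stdι N' ≫ trP π ν) (by
    rw [Category.assoc, trP_stdε, ← Category.assoc]
    have : stdι N' ≫ stdε N' = 0 := kernel.condition _
    rw [this, zero_comp]) ≫ (PreservesKernel.iso (Rep.resFunctor π) (stdε N)).inv

lemma trR_stdι : trR π ν ≫ (Rep.resFunctor π).map (stdι N) = stdι N' ≫ trP π ν := by
  have h := PreservesKernel.iso_inv_ι (Rep.resFunctor π) (stdε N)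
  exact (Category.assoc _ _ _).trans ((congrArg (fun t => _ ≫ t) h).trans (kernel.lift_ι _ _ _))

lemma trR_stdι_apply (r : (stdR N').V) :
    (stdι N).hom ((trR π ν).hom r) = (trP π ν).hom ((stdι N').hom r) := by
  have := congrArg (fun f => f.hom r) (trR_stdι π ν)
  exact this

end

end Fermat.Agent.S55.E1

namespace Fermat.Agent.S55.E1

noncomputable section

variable {G G' : Type} [Group G] [Group G'] (π : G' →* G)
variable {N : Rep.{0} ℤ G} {N' : Rep.{0} ℤ G'} (ν : N' ⟶ Rep.res π N)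
variable {X : Rep.{0} ℤ G} {X' : Rep.{0} ℤ G'} (ι : Rep.res π X ⟶ X')


/-- Pointwise extensionality for morphisms of representations. -/
lemma repHom_ext_tr {H : Type} [Group H] {A B : Rep.{0} ℤ H} {f g : A ⟶ B}
    (h : ∀ x : A.V, f.hom x = g.hom x) : f = g := by
  apply Rep.hom_ext
  apply DFunLike.ext
  exact h

/-- `tr : A(X) → A'(X')`, `f ↦ ι ∘ f ∘ ρ`. -/
def trA : homA N X →+ homA N' X' where
  toFun f := trR π ν ≫ (Rep.resFunctor π).map f ≫ ι
  map_zero' := by
    rw [Functor.map_zero, zero_comp, comp_zero]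
  map_add' f g := by
    rw [Functor.map_add, Preadditive.add_comp, Preadditive.comp_add]

/-- `tr : Bc(X) → Bc'(X')`, `h ↦ ι ∘ h ∘ ρ`. -/
def trB : homB N X →+ homB N' X' where
  toFun h := trP π ν ≫ (Rep.resFunctor π).map h ≫ ι
  map_zero' := by
    rw [Functor.map_zero, zero_comp, comp_zero]
  map_add' f g := by
    rw [Functor.map_add, Preadditive.add_comp, Preadditive.comp_add]

lemma trA_hom_apply (f : homA N X) (r : (stdR N').V) :
    (trA π ν ι f).hom r = ι.hom (f.hom ((trR π ν).hom r)) := rfl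

lemma trB_hom_apply (h : homB N X) (x : (stdP N').V) :
    (trB π ν ι h).hom x = ι.hom (h.hom ((trP π ν).hom x)) := rfl

/-- `tr` commutes with `res : Bc → A`. -/
lemma trA_resBA (h : homB N X) : trA π ν ι (resBA N X h) = resBA N' X' (trB π ν ι h) := by
  change trR π ν ≫ (Rep.resFunctor π).map (stdι N ≫ h) ≫ ι =
    stdι N' ≫ trP π ν ≫ (Rep.resFunctor π).map h ≫ ι
  rw [Functor.map_comp, ← Category.assoc, ← Category.assoc, trR_stdι]
  simp only [Category.assoc]

/-- `tr` preserves extendability. -/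
lemma Extends.tr {f : homA N X} (hf : Extends f) : Extends (trA π ν ι f) := by
  obtain ⟨h, rfl⟩ := hf
  exact ⟨trB π ν ι h, (trA_resBA π ν ι h).symm⟩

end

end Fermat.Agent.S55.E1

namespace Fermat.Agent.S55.E1

noncomputable section

section Generic

variable {k G G' : Type} [CommRing k] [Group G] [Group G'] (π : G' →* G)
variable {A X : Rep.{0} k G} {A' X' : Rep.{0} k G'}

/-- The linear map `φ ↦ ι ∘ φ ∘ a` on `Hom_k(A, X) → Hom_k(A', X')`. -/
def trHomLin (a : A' ⟶ Rep.res π A) (ι : Rep.res π X ⟶ X') :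
    (A.V →ₗ[k] X.V) →ₗ[k] (A'.V →ₗ[k] X'.V) where
  toFun φ := ι.hom.toLinearMap ∘ₗ φ ∘ₗ a.hom.toLinearMap
  map_add' φ ψ := by
    ext x
    simp
  map_smul' c φ := by
    ext x
    simp

lemma trHomLin_apply (a : A' ⟶ Rep.res π A) (ι : Rep.res π X ⟶ X') (φ : A.V →ₗ[k] X.V)
    (x : A'.V) : trHomLin π a ι φ x = ι.hom (φ (a.hom x)) := rfl

/-- `Φ : res_π Hom_k(A, X) ⟶ Hom_k(A', X')`, `φ ↦ ι ∘ φ ∘ a`, as a morphism of `G'`-modules. -/
def trIhom (a : A' ⟶ Rep.res π A) (ι : Rep.res π X ⟶ X') :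
    Rep.res π ((Rep.ihom A).obj X) ⟶ (Rep.ihom A').obj X' :=
  Rep.ofHom ⟨trHomLin π a ι, fun g' => by
    refine LinearMap.ext fun (φ : A.V →ₗ[k] X.V) => LinearMap.ext fun x => ?_
    have h1 : a.hom (A'.ρ g'⁻¹ x) = A.ρ (π g')⁻¹ (a.hom x) := by
      have := Rep.hom_comm_apply a g'⁻¹ x
      rw [this]
      change A.ρ (π g'⁻¹) _ = _
      rw [map_inv]
    have h2 : ∀ y : X.V, ι.hom (X.ρ (π g') y) = X'.ρ g' (ι.hom y) :=
      fun y => Rep.hom_comm_apply ι g' y
    change ι.hom (X.ρ (π g') (φ (A.ρ (π g')⁻¹ (a.hom x)))) =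
      X'.ρ g' (ι.hom (φ (a.hom (A'.ρ g'⁻¹ x))))
    rw [h1, h2]⟩

end Generic

end

end Fermat.Agent.S55.E1

namespace Fermat.Agent.S55.E1

noncomputable section

section GenericEdge

variable {k G : Type} [CommRing k] [Group G]

/-- Precomposition `Hom_k(B, X) ⟶ Hom_k(A, X)`, `φ ↦ φ ∘ a`, as a morphism of `G`-modules. -/
def ihomPre {A B : Rep.{0} k G} (a : A ⟶ B) (X : Rep.{0} k G) :
    (Rep.ihom B).obj X ⟶ (Rep.ihom A).obj X :=
  Rep.ofHom ⟨LinearMap.lcomp k X.V a.hom.toLinearMap, fun g => by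
    refine LinearMap.ext fun (φ : B.V →ₗ[k] X.V) => LinearMap.ext fun x => ?_
    change X.ρ g (φ (B.ρ g⁻¹ (a.hom x))) = X.ρ g (φ (a.hom (A.ρ g⁻¹ x)))
    rw [Rep.hom_comm_apply]⟩

lemma ihomPre_hom_apply {A B : Rep.{0} k G} (a : A ⟶ B) (X : Rep.{0} k G)
    (φ : B.V →ₗ[k] X.V) (x : A.V) :
    (show A.V →ₗ[k] X.V from (ihomPre a X).hom φ) x = φ (a.hom x) := rfl

/-- The image of `Hom_k(B, X) → Hom_k(A, X)` as a submodule. -/
def ihomImage {A B : Rep.{0} k G} (a : A ⟶ B) (X : Rep.{0} k G) :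
    Submodule k ((Rep.ihom A).obj X).V :=
  LinearMap.range (ihomPre a X).hom.toLinearMap

lemma ihomImage_stable {A B : Rep.{0} k G} (a : A ⟶ B) (X : Rep.{0} k G) (g : G) :
    ihomImage a X ≤ (ihomImage a X).comap (((Rep.ihom A).obj X).ρ g) := by
  rintro _ ⟨ψ, rfl⟩
  exact ⟨((Rep.ihom B).obj X).ρ g ψ, (Rep.hom_comm_apply (ihomPre a X) g ψ)⟩

/-- `𝔹 = im(Hom_k(B, X) → Hom_k(A, X))` as a `G`-module. -/
def ihomImageRep {A B : Rep.{0} k G} (a : A ⟶ B) (X : Rep.{0} k G) : Rep.{0} k G :=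
  Rep.subrepresentation ((Rep.ihom A).obj X) (ihomImage a X) (ihomImage_stable a X)

/-- The inclusion `𝔹 ⟶ Hom_k(A, X)`. -/
def ihomImageIncl {A B : Rep.{0} k G} (a : A ⟶ B) (X : Rep.{0} k G) :
    ihomImageRep a X ⟶ (Rep.ihom A).obj X :=
  Rep.subtype ((Rep.ihom A).obj X) (ihomImage a X) (ihomImage_stable a X)

/-- The projection `Hom_k(B, X) ⟶ 𝔹`. -/
def ihomImageProj {A B : Rep.{0} k G} (a : A ⟶ B) (X : Rep.{0} k G) :
    (Rep.ihom B).obj X ⟶ ihomImageRep a X :=
  Rep.ofHom ⟨(ihomPre a X).hom.toLinearMap.rangeRestrict, fun g => by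
    refine LinearMap.ext fun φ => Subtype.ext ?_
    exact Rep.hom_comm_apply (ihomPre a X) g φ⟩

end GenericEdge

end

end Fermat.Agent.S55.E1

namespace Fermat.Agent.S55.E1

noncomputable section

section GenericEdge2

variable {k G : Type} [CommRing k] [Group G]

/-- For a short complex `A → B → C` the short complex
`Hom_k(C, X) → Hom_k(B, X) → im(Hom_k(B, X) → Hom_k(A, X))`. -/
def ihomImageSC (S : ShortComplex (Rep.{0} k G)) (X : Rep.{0} k G) :
    ShortComplex (Rep.{0} k G) :=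
  ShortComplex.mk (ihomPre S.g X) (ihomImageProj S.f X) (by
    apply Rep.hom_ext
    apply DFunLike.ext
    intro (φ : S.X₃.V →ₗ[k] X.V)
    apply Subtype.ext
    apply LinearMap.ext
    intro x
    change φ (S.g.hom (S.f.hom x)) = 0
    have h : S.f ≫ S.g = 0 := S.zero
    have h' : S.g.hom (S.f.hom x) = 0 := by
      have := congrArg (fun t => t.hom x) h
      exact this
    rw [h', map_zero])

end GenericEdge2

end

end Fermat.Agent.S55.E1

namespace Fermat.Agent.S55.E1

noncomputable section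

section GenericEdge3

variable {k G : Type} [CommRing k] [Group G]

open Fermat.Agent.S55.T.H719 in
theorem ihomImageSC_shortExact (S : ShortComplex (Rep.{0} k G)) (hS : S.ShortExact)
    (X : Rep.{0} k G) : (ihomImageSC S X).ShortExact := by
  obtain ⟨hinj, hsurj, hex⟩ := (rep_shortExact_iff S).1 hS
  rw [rep_shortExact_iff]
  refine ⟨?_, ?_, ?_⟩
  · intro (φ : S.X₃.V →ₗ[k] X.V) (ψ : S.X₃.V →ₗ[k] X.V) h
    apply LinearMap.ext
    intro c
    obtain ⟨b, rfl⟩ := hsurj c
    exact LinearMap.congr_fun h b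
  · rintro ⟨_, ⟨ψ, rfl⟩⟩
    exact ⟨ψ, rfl⟩
  · intro (ψ : S.X₂.V →ₗ[k] X.V) hψ
    have hψ' : ∀ a : S.X₁.V, ψ (S.f.hom a) = 0 := by
      intro a
      have := congrArg (fun t : (ihomImageRep S.f X).V => (show S.X₁.V →ₗ[k] X.V from t.1) a) hψ
      exact this
    have hker : LinearMap.ker S.g.hom.toLinearMap ≤ LinearMap.ker ψ := by
      intro b hb
      obtain ⟨a, rfl⟩ := hex b hb
      exact hψ' a
    let e := S.g.hom.toLinearMap.quotKerEquivOfSurjective hsurj
    refine ⟨((LinearMap.ker S.g.hom.toLinearMap).liftQ ψ hker) ∘ₗ e.symm.toLinearMap, ?_⟩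
    apply LinearMap.ext
    intro b
    change ((LinearMap.ker S.g.hom.toLinearMap).liftQ ψ hker) (e.symm (S.g.hom b)) = ψ b
    have : e.symm (S.g.hom b) = Submodule.Quotient.mk b := by
      rw [LinearEquiv.symm_apply_eq]
      rfl
    rw [this, Submodule.liftQ_apply]

end GenericEdge3

end

end Fermat.Agent.S55.E1

namespace Fermat.Agent.S55.E1

noncomputable section

/-! ## Transitions on `𝔈²` and on cohomology -/

section TrE2

variable {G G' : Type} [Group G] [Group G'] (π : G' →* G)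
variable {N : Rep.{0} ℤ G} {N' : Rep.{0} ℤ G'} (ν : N' ⟶ Rep.res π N)
variable {X : Rep.{0} ℤ G} {X' : Rep.{0} ℤ G'} (ι : Rep.res π X ⟶ X')

/-- `inf_ι = ι_* ∘ (inflation along π) : Hⁿ(G, X) → Hⁿ(G', X')`. -/
def infCoeff (n : ℕ) : groupCohomology X n →ₗ[ℤ] groupCohomology X' n :=
  (groupCohomology.map π ι n).hom

/-- `tr : 𝔈²_G(X) → 𝔈²_{G'}(X')`, on cocycles `tr(c)(g') = ι ∘ c(π g') ∘ ρ`. -/
def trE2 : E2 N X →ₗ[ℤ] E2 N' X' :=
  (groupCohomology.map π (trIhom π (trR π ν) ι) 1).hom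

end TrE2

/-! ## The edge map -/

section Edge

variable {G : Type} [Group G]

/-- `𝔹 = im(Hom_ℤ(P, X) → Hom_ℤ(R, X))` as a `G`-module. -/
def edgeB (N X : Rep.{0} ℤ G) : Rep.{0} ℤ G := ihomImageRep (stdι N) X

/-- The short complex `0 → Hom_ℤ(N, X) → Hom_ℤ(P, X) → 𝔹 → 0`. -/
def edgeSC (N X : Rep.{0} ℤ G) : ShortComplex (Rep.{0} ℤ G) := ihomImageSC (stdSC N) X

theorem edgeSC_shortExact (N X : Rep.{0} ℤ G) : (edgeSC N X).ShortExact :=
  ihomImageSC_shortExact (stdSC N) (stdSC_shortExact N) X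

/-- The connecting map `δ' : H¹(G, 𝔹) → H²(G, Hom_ℤ(N, X))` (bijective by ALG9). -/
def edgeδ (N X : Rep.{0} ℤ G) :
    groupCohomology (edgeB N X) 1 →ₗ[ℤ] groupCohomology ((Rep.ihom N).obj X) 2 :=
  (groupCohomology.δ (edgeSC_shortExact N X) 1 2 rfl).hom

/-- `incl_* : H¹(G, 𝔹) → 𝔈²(X) = H¹(G, Hom_ℤ(R, X))`. -/
def edgeIncl (N X : Rep.{0} ℤ G) : groupCohomology (edgeB N X) 1 →ₗ[ℤ] E2 N X :=
  (T.coeffMap (ihomImageIncl (stdι N) X) 1).hom

/-- `y = e(x)`: the edge map `e = incl_* ∘ δ'⁻¹ : H²(G, Hom_ℤ(N, X)) → 𝔈²(X)` as a relation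
(functional and total by ALG9). -/
def IsEdge {N X : Rep.{0} ℤ G} (x : groupCohomology ((Rep.ihom N).obj X) 2) (y : E2 N X) : Prop :=
  ∃ b : groupCohomology (edgeB N X) 1, edgeδ N X b = x ∧ edgeIncl N X b = y

end Edge

section TrEdgeGeneric

variable {k G G' : Type} [CommRing k] [Group G] [Group G'] (π : G' →* G)
variable {A B X : Rep.{0} k G} {A' B' X' : Rep.{0} k G'}
variable (a : A ⟶ B) (a' : A' ⟶ B') (tA : A' ⟶ Rep.res π A) (tB : B' ⟶ Rep.res π B)
variable (ι : Rep.res π X ⟶ X')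

lemma trIhom_mem_ihomImage (hsq : ∀ x : A'.V, a.hom (tA.hom x) = tB.hom (a'.hom x))
    (φ : ((Rep.ihom A).obj X).V) (hφ : φ ∈ ihomImage a X) :
    (trIhom π tA ι).hom φ ∈ ihomImage a' X' := by
  obtain ⟨ψ, rfl⟩ := hφ
  refine ⟨(trIhom π tB ι).hom ψ, ?_⟩
  refine LinearMap.ext fun r => ?_
  change ι.hom ((show B.V →ₗ[k] X.V from ψ) (tB.hom (a'.hom r))) =
    ι.hom ((show B.V →ₗ[k] X.V from ψ) (a.hom (tA.hom r)))
  rw [hsq]

/-- `tr : res_π im(Hom(B, X) → Hom(A, X)) ⟶ im(Hom(B', X') → Hom(A', X'))`, the restriction of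
`φ ↦ ι ∘ φ ∘ tA`. -/
def trImage (hsq : ∀ x : A'.V, a.hom (tA.hom x) = tB.hom (a'.hom x)) :
    Rep.res π (ihomImageRep a X) ⟶ ihomImageRep a' X' :=
  Rep.ofHom ⟨((trIhom π tA ι).hom.toLinearMap.comp
      (ihomImage a X).subtype).codRestrict (ihomImage a' X')
      (fun φ => trIhom_mem_ihomImage π a a' tA tB ι hsq φ.1 φ.2), fun g' => by
    refine LinearMap.ext fun φ => Subtype.ext ?_
    exact Rep.hom_comm_apply (trIhom π tA ι) g' φ.1⟩

end TrEdgeGeneric

section TrEdge

variable {G G' : Type} [Group G] [Group G'] (π : G' →* G)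
variable {N : Rep.{0} ℤ G} {N' : Rep.{0} ℤ G'} (ν : N' ⟶ Rep.res π N)
variable {X : Rep.{0} ℤ G} {X' : Rep.{0} ℤ G'} (ι : Rep.res π X ⟶ X')

/-- `tr : res_π 𝔹 ⟶ 𝔹'`, the restriction of `φ ↦ ι ∘ φ ∘ ρ`. -/
def trEdgeB : Rep.res π (edgeB N X) ⟶ edgeB N' X' :=
  trImage π (stdι N) (stdι N') (trR π ν) (trP π ν) ι (fun r => trR_stdι_apply π ν r)

end TrEdge

end

end Fermat.Agent.S55.E1

end
-- ===== PACK-END S55/E1/Tr/Defs.lean

-- ===== PACK-BEGIN S55/Bridge/PlacePrime.lean
section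


/-!
# S55 bridge, part B17: places of `ℚ̄` versus primes of `𝓞 F`

`F/ℚ` finite inside `ℚ̄`, `A` a valuation subring of `ℚ̄` over a prime number `q`.

* `placePrime F A hq hA : HeightOneSpectrum (𝓞 F)` — the prime `A ∩ 𝓞 F`
  (`= H594.primeBelowF F A`);
* `mem_iff_valuation_le_one` : for `x ∈ F`, `x ∈ A ↔ w.valuation x ≤ 1`;
* `unit_iff_valuation_eq_one` : `x ∈ A ∧ x⁻¹ ∈ A ↔ w.valuation x = 1`;
* `exists_place_eq` : every finite prime of `F` is `placePrime` of some place of `ℚ̄`.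
-/

set_option autoImplicit false
set_option linter.unusedSectionVars false

namespace Fermat.Agent.S55.Bridge

open Fermat.Agent.S54 NumberField IsDedekindDomain
open scoped Pointwise

attribute [local instance] isAlgebraic_Qbar isGalois_Qbar

section

variable (F : IntermediateField ℚ (AlgebraicClosure ℚ)) [FiniteDimensional ℚ F]

attribute [local instance] H594.numberField_of_finite

variable (A : ValuationSubring (AlgebraicClosure ℚ))

theorem primeBelowF_ne_bot {q : ℕ} (hq : q.Prime) (hA : A.LiesOverPrime q) :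
    H594.primeBelowF F A ≠ ⊥ := by
  intro h
  have h1 : (q : 𝓞 F) ∈ H594.primeBelowF F A := H594.natCast_mem_primeBelowF F A hA
  rw [h, Ideal.mem_bot] at h1
  exact hq.ne_zero (by exact_mod_cast h1)

/-- The finite prime of `F` below a place `A` of `ℚ̄` over a prime number. -/
noncomputable def placePrime {q : ℕ} (hq : q.Prime) (hA : A.LiesOverPrime q) :
    HeightOneSpectrum (𝓞 F) where
  asIdeal := H594.primeBelowF F A
  isPrime := H594.primeBelowF_isPrime F A
  ne_bot := primeBelowF_ne_bot F A hq hA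

theorem placePrime_asIdeal {q : ℕ} (hq : q.Prime) (hA : A.LiesOverPrime q) :
    (placePrime F A hq hA).asIdeal = H594.primeBelowF F A := rfl

/-- An element of `𝓞 F` outside the prime below `A` is a unit of `A`. -/
theorem valuation_eq_one_of_notMem_primeBelowF (s : 𝓞 F) (hs : s ∉ H594.primeBelowF F A) :
    A.valuation (algebraMap (𝓞 F) (AlgebraicClosure ℚ) s) = 1 := by
  have h1 : A.valuation (algebraMap (𝓞 F) (AlgebraicClosure ℚ) s) ≤ 1 :=
    (A.valuation_le_one_iff _).2 (H594.algebraMap_ringOfIntegers_mem F A s)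
  rw [H594.mem_primeBelowF, ValuationSubring.mem_nonunits_iff, not_lt] at hs
  exact le_antisymm h1 hs

/-- `x ∈ F` with `w.valuation x ≤ 1` is a quotient `a / s`, `s ∉ w`. -/
theorem exists_div_of_valuation_le_one (w : HeightOneSpectrum (𝓞 F)) (x : F)
    (hx : w.valuation F x ≤ 1) :
    ∃ (a s : 𝓞 F), s ∉ w.asIdeal ∧ x * algebraMap (𝓞 F) F s = algebraMap (𝓞 F) F a := by
  have hmem : x ∈ (w.valuation F).valuationSubring := hx
  rw [← HeightOneSpectrum.valuationSubringAtPrime_eq_valuationSubring] at hmem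
  obtain ⟨a, s, hs, rfl⟩ := hmem
  refine ⟨a, s, hs, ?_⟩
  have hs0 : algebraMap (𝓞 F) F s ≠ 0 := by
    intro h0
    have : s = 0 := (FaithfulSMul.algebraMap_injective (𝓞 F) F) (by rw [h0, map_zero])
    subst this
    exact hs (Ideal.zero_mem _)
  rw [mul_assoc, inv_mul_cancel₀ hs0, mul_one]

variable {q : ℕ} (hq : q.Prime) (hA : A.LiesOverPrime q)

/-- **B17a.** For `x ∈ F`: `x ∈ A` iff `x` is integral at the prime of `F` below `A`. -/
theorem mem_iff_valuation_le_one (x : F) :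
    (x : AlgebraicClosure ℚ) ∈ A ↔ (placePrime F A hq hA).valuation F x ≤ 1 := by
  have key : ∀ y : F, (placePrime F A hq hA).valuation F y ≤ 1 →
      A.valuation (y : AlgebraicClosure ℚ) ≤ 1 ∧
        ((placePrime F A hq hA).valuation F y < 1 → A.valuation (y : AlgebraicClosure ℚ) < 1) := by
    intro y hy
    obtain ⟨a, s, hs, hys⟩ := exists_div_of_valuation_le_one F _ y hy
    have hsv := valuation_eq_one_of_notMem_primeBelowF F A s hs
    have hys' : (y : AlgebraicClosure ℚ) * algebraMap (𝓞 F) (AlgebraicClosure ℚ) s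
        = algebraMap (𝓞 F) (AlgebraicClosure ℚ) a := by
      have := congrArg (fun t : F => (t : AlgebraicClosure ℚ)) hys
      simp only [IntermediateField.coe_mul] at this
      exact this
    have hval : A.valuation (y : AlgebraicClosure ℚ)
        = A.valuation (algebraMap (𝓞 F) (AlgebraicClosure ℚ) a) := by
      rw [← hys', map_mul, hsv, mul_one]
    refine ⟨?_, fun hlt => ?_⟩
    · rw [hval]
      exact (A.valuation_le_one_iff _).2 (H594.algebraMap_ringOfIntegers_mem F A a)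
    · rw [hval, ← ValuationSubring.mem_nonunits_iff, ← H594.mem_primeBelowF]
      -- `a ∈ w` since `w.valuation (a / s) < 1`
      have h1 : (placePrime F A hq hA).valuation F (algebraMap (𝓞 F) F a) < 1 := by
        rw [← hys, map_mul]
        have h2 : (placePrime F A hq hA).valuation F (algebraMap (𝓞 F) F s) = 1 :=
          (HeightOneSpectrum.valuation_eq_one_iff_notMem (K := F) (placePrime F A hq hA)).2 hs
        rw [h2, mul_one]
        exact hlt
      exact (HeightOneSpectrum.valuation_lt_one_iff_mem (K := F) (placePrime F A hq hA) a).1 h1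
  constructor
  · intro hx
    by_contra hgt
    rw [not_le] at hgt
    have hx0 : x ≠ 0 := by
      rintro rfl
      rw [map_zero] at hgt
      exact not_lt.2 zero_le_one hgt
    have hinv : (placePrime F A hq hA).valuation F x⁻¹ < 1 := by
      rw [map_inv₀]
      exact (inv_lt_one₀ (lt_trans zero_lt_one hgt)).2 hgt
    have h1 := (key x⁻¹ hinv.le).2 hinv
    have h2 : A.valuation (x : AlgebraicClosure ℚ) ≤ 1 := (A.valuation_le_one_iff _).2 hx
    have h3 : A.valuation ((x⁻¹ : F) : AlgebraicClosure ℚ) * A.valuation (x : AlgebraicClosure ℚ)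
        = 1 := by
      rw [← map_mul]
      have : ((x⁻¹ : F) : AlgebraicClosure ℚ) * (x : AlgebraicClosure ℚ) = 1 := by
        have := congrArg (fun t : F => (t : AlgebraicClosure ℚ)) (inv_mul_cancel₀ hx0)
        simpa using this
      rw [this, map_one]
    have h4 : A.valuation ((x⁻¹ : F) : AlgebraicClosure ℚ) * A.valuation (x : AlgebraicClosure ℚ)
        < 1 := by
      calc A.valuation ((x⁻¹ : F) : AlgebraicClosure ℚ) * A.valuation (x : AlgebraicClosure ℚ)
          ≤ A.valuation ((x⁻¹ : F) : AlgebraicClosure ℚ) * 1 := by gcongr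
        _ < 1 := by rwa [mul_one]
    rw [h3] at h4
    exact lt_irrefl _ h4
  · intro hx
    exact (A.valuation_le_one_iff _).1 (key x hx).1

/-- **B17a'.** A unit of `F` is a unit of `A` iff it has valuation `1` at the prime below. -/
theorem unit_iff_valuation_eq_one (u : Fˣ) :
    (((u : F) : AlgebraicClosure ℚ) ∈ A ∧ (((u⁻¹ : Fˣ) : F) : AlgebraicClosure ℚ) ∈ A) ↔
      (placePrime F A hq hA).valuation F (u : F) = 1 := by
  rw [mem_iff_valuation_le_one F A hq hA, mem_iff_valuation_le_one F A hq hA]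
  have hinv : (placePrime F A hq hA).valuation F ((u⁻¹ : Fˣ) : F)
      = ((placePrime F A hq hA).valuation F (u : F))⁻¹ := by
    rw [Units.val_inv_eq_inv_val, map_inv₀]
  have hne : (placePrime F A hq hA).valuation F (u : F) ≠ 0 :=
    (Valuation.ne_zero_iff _).2 u.ne_zero
  rw [hinv]
  constructor
  · rintro ⟨h1, h2⟩
    refine le_antisymm h1 ?_
    exact (inv_le_one₀ (zero_lt_iff.2 hne)).1 h2
  · intro h
    rw [h, inv_one]
    exact ⟨le_rfl, le_rfl⟩

end

section Exists

variable (F : IntermediateField ℚ (AlgebraicClosure ℚ)) [FiniteDimensional ℚ F]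

attribute [local instance] H594.numberField_of_finite

/-- Every finite prime of a number field contains a rational prime. -/
theorem exists_prime_natCast_mem_asIdeal (w : HeightOneSpectrum (𝓞 F)) :
    ∃ q : ℕ, q.Prime ∧ (q : 𝓞 F) ∈ w.asIdeal := by
  haveI : w.asIdeal.IsMaximal := w.isMaximal
  haveI : (w.asIdeal.under ℤ).IsPrime := Ideal.IsPrime.under ℤ w.asIdeal
  have hne : w.asIdeal.under ℤ ≠ ⊥ := Ideal.under_ne_bot ℤ w.ne_bot
  obtain ⟨n, hn⟩ := IsPrincipalIdealRing.principal (w.asIdeal.under ℤ)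
  have hn' : w.asIdeal.under ℤ = Ideal.span {n} := hn
  have hn0 : n ≠ 0 := by
    rintro rfl
    apply hne
    rw [hn']
    exact Ideal.span_singleton_eq_bot.2 rfl
  have hprime : Prime n := by
    rw [← Ideal.span_singleton_prime hn0, ← hn']
    infer_instance
  refine ⟨n.natAbs, Int.prime_iff_natAbs_prime.1 hprime, ?_⟩
  have hmem : (n.natAbs : ℤ) ∈ w.asIdeal.under ℤ := by
    rw [hn', Ideal.mem_span_singleton]
    exact Int.dvd_natAbs.2 (dvd_refl n)
  have := (Ideal.mem_comap).1 hmem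
  simpa using this

/-- **B17b.** Every finite prime of `F` lies below a place of `ℚ̄` over a prime number. -/
theorem exists_place_eq (w : HeightOneSpectrum (𝓞 F)) :
    ∃ (q : ℕ) (_ : q.Prime) (A : ValuationSubring (AlgebraicClosure ℚ)) (_ : A.LiesOverPrime q),
      H594.primeBelowF F A = w.asIdeal := by
  obtain ⟨q, hq, hqw⟩ := exists_prime_natCast_mem_asIdeal F w
  haveI hmax : w.asIdeal.IsMaximal := w.isMaximal
  -- a valuation subring of `ℚ̄` above `w`
  let A₀ : Subring (AlgebraicClosure ℚ) := (algebraMap (𝓞 F) (AlgebraicClosure ℚ)).range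
  let g : 𝓞 F →+* A₀ := (algebraMap (𝓞 F) (AlgebraicClosure ℚ)).rangeRestrict
  have hginj : Function.Injective g := by
    intro x y hxy
    have h1 : algebraMap (𝓞 F) (AlgebraicClosure ℚ) x =
        algebraMap (𝓞 F) (AlgebraicClosure ℚ) y :=
      congrArg (fun z : A₀ => (z : AlgebraicClosure ℚ)) hxy
    exact FaithfulSMul.algebraMap_injective (𝓞 F) (AlgebraicClosure ℚ) h1
  have hgsurj : Function.Surjective g :=
    (algebraMap (𝓞 F) (AlgebraicClosure ℚ)).rangeRestrict_surjective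
  have hI : w.asIdeal.map g ≠ ⊤ := by
    intro htop
    have h1 : (w.asIdeal.map g).comap g = w.asIdeal :=
      Ideal.comap_map_of_bijective g ⟨hginj, hgsurj⟩
    rw [htop, Ideal.comap_top] at h1
    exact hmax.ne_top h1.symm
  obtain ⟨A, -, hA⟩ := Ideal.image_subset_nonunits_valuationSubring _ hI
  have hPA : ∀ x ∈ w.asIdeal, algebraMap (𝓞 F) (AlgebraicClosure ℚ) x ∈ A.nonunits := by
    intro x hx
    exact hA ⟨g x, Ideal.mem_map_of_mem g hx, rfl⟩
  have hAq : A.LiesOverPrime q := by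
    have := hPA _ hqw
    rwa [map_natCast] at this
  refine ⟨q, hq, A, hAq, ?_⟩
  have hle : w.asIdeal ≤ H594.primeBelowF F A := fun x hx => hPA x hx
  exact (hmax.eq_of_le (H594.primeBelowF_isPrime F A).ne_top hle).symm

end Exists

end Fermat.Agent.S55.Bridge

end
-- ===== PACK-END S55/Bridge/PlacePrime.lean

-- ===== PACK-BEGIN S55/T/InfResTorsH244.lean
section





/-!
# Inflation–restriction in degree 2 up to torsion, and its `p`-local form  (helper244)

`A : Rep k G`, `S ⊴ G`, `m : ℕ` with `m • H¹(S, A) = 0`.  Then (vocabulary of `T/Spec.lean`)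

* `nsmul_eq_zero_of_infMap_eq_zero` : `inf y = 0 → m • y = 0`   (`y ∈ H²(G ⧸ S, A^S)`),
* `exists_infMap_eq_nsmul_of_resMap_eq_zero` : `res_S x = 0 → ∃ y, inf y = m • x`.

`p`-local consequences (`p.Coprime m`): inflation is injective on `p`-primary elements, and a
`p`-primary class with trivial restriction to `S` is inflated.

This is the form of inflation–restriction needed for class modules "at `p`": there `H¹(P, C) = 0`
is only known for `p`-subgroups `P`, so for a normal subgroup `S` which is not a `p`-group one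
only knows `[S : P] • H¹(S, C) = 0` (`P` a Sylow `p`-subgroup of `S`, `ResIndexSpec`);
see `hOneKilled_of_sylow`.
-/

set_option autoImplicit false
set_option linter.unusedSectionVars false

namespace Fermat.Agent.S55.T.H244

open CategoryTheory groupCohomology Rep Fermat.Agent.S55.H954

variable {k G : Type} [CommRing k] [Group G]
variable (A : Rep.{0} k G) (S : Subgroup G) [S.Normal]

variable {A S} in
lemma hOneKilledBy_of_H1 {m : ℕ} (h : ∀ x : groupCohomology (resSub A S) 1, m • x = 0) :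
    HOneKilledBy m A.ρ S := by
  intro w hw
  have hmem : w ∈ cocycles₁ (res S.subtype A) :=
    (mem_cocycles₁_iff (A := res S.subtype A) w).2 (fun s t => hw s t)
  have h0 := h (H1π _ ⟨w, hmem⟩)
  rw [← map_nsmul, H1π_eq_zero_iff] at h0
  obtain ⟨a, ha⟩ := h0
  refine ⟨a, fun s => ?_⟩
  have := congr_fun ha s
  rw [d₀₁_hom_apply] at this
  exact this.symm

set_option backward.defeqAttrib.useBackward true in
set_option backward.isDefEq.respectTransparency false in
/-- If `m` kills `H¹(S, A)` and `res_S x = 0`, then `m • x` is inflated from `G ⧸ S`. -/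
theorem exists_infMap_eq_nsmul_of_resMap_eq_zero {m : ℕ}
    (h : ∀ x : groupCohomology (resSub A S) 1, m • x = 0)
    (x : groupCohomology A 2) (hx : (resMap A S 2).hom x = 0) :
    ∃ y : groupCohomology (A.quotientToInvariants S) 2, (infMap A S 2).hom y = m • x := by
  induction x using H2_induction_on with | @h x =>
  have hx' : H2π (res S.subtype A) (mapCocycles₂ S.subtype (𝟙 (res S.subtype A)) x) = 0 := by
    rw [← H2π_comp_map_apply S.subtype]; exact hx
  obtain ⟨(φ : S → A), hφ⟩ := (H2π_eq_zero_iff _).1 hx'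
  have hcoc : IsTwoCocycle A.ρ x := (mem_cocycles₂_iff _).1 x.2
  have hφ' : ∀ s t : S, x ((s : G), (t : G)) = A.ρ s (φ t) - φ (s * t) + φ s := by
    intro s t
    have := congr_fun hφ (s, t)
    rw [d₁₂_hom_apply] at this
    exact this.symm
  obtain ⟨c, f', hff', hf'coc, i2, i1, i3⟩ :=
    exists_inflated_of_res_coboundary_nsmul A.ρ S (hOneKilledBy_of_H1 h) hcoc φ hφ'
  have hwd : ∀ g₁ h₁ g₂ h₂ : G, QuotientGroup.leftRel S g₁ g₂ → QuotientGroup.leftRel S h₁ h₂ →
      f' (g₁, h₁) = f' (g₂, h₂) := by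
    intro g₁ h₁ g₂ h₂ hg hh
    rw [QuotientGroup.leftRel_apply] at hg hh
    have e1 : g₂ = g₁ * (g₁⁻¹ * g₂) := by group
    have e2 : h₂ = h₁ * (h₁⁻¹ * h₂) := by group
    rw [e1, e2, i1 _ hg, i2 _ hh]
  have hinvar : ∀ g h : G, f' (g, h) ∈ Representation.invariants (A.ρ.comp S.subtype) := by
    intro g h s
    exact i3 s s.2 g h
  let fbar : (G ⧸ S) × (G ⧸ S) → (A.quotientToInvariants S) := fun p =>
    Quotient.liftOn₂' p.1 p.2 (fun g h => (⟨f' (g, h), hinvar g h⟩ : (A.quotientToInvariants S)))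
      (fun g₁ h₁ g₂ h₂ hg hh => Subtype.ext (hwd g₁ h₁ g₂ h₂ hg hh))
  have hfbar : fbar ∈ cocycles₂ (A.quotientToInvariants S) := by
    rw [mem_cocycles₂_iff]
    intro g h j
    induction g using QuotientGroup.induction_on with | @H g =>
    induction h using QuotientGroup.induction_on with | @H h =>
    induction j using QuotientGroup.induction_on with | @H j =>
    apply Subtype.ext
    exact hf'coc g h j
  refine ⟨H2π _ ⟨fbar, hfbar⟩, ?_⟩
  rw [← map_nsmul]
  erw [H2π_comp_map_apply (QuotientGroup.mk' S)]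
  rw [H2π_eq_iff]
  refine ⟨-c, ?_⟩
  funext ⟨g, j⟩
  have := congr_fun hff' (g, j)
  rw [d₁₂_hom_apply]
  change _ = f' (g, j) - (m • x) (g, j)
  have hmx : (m • x) (g, j) = (m • (x : G × G → A)) (g, j) := rfl
  rw [hmx, this]
  simp only [Pi.add_apply, dOne_apply, Pi.neg_apply, map_neg]
  abel

set_option backward.defeqAttrib.useBackward true in
set_option backward.isDefEq.respectTransparency false in
/-- If `m` kills `H¹(S, A)` and `inf y = 0`, then `m • y = 0`. -/
theorem nsmul_eq_zero_of_infMap_eq_zero {m : ℕ}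
    (h : ∀ x : groupCohomology (resSub A S) 1, m • x = 0)
    (y : groupCohomology (A.quotientToInvariants S) 2) (hy : (infMap A S 2).hom y = 0) :
    m • y = 0 := by
  induction y using H2_induction_on with | @h x =>
  have hx : H2π A (mapCocycles₂ (QuotientGroup.mk' S)
      (ofHom <| A.ρ.quotientToInvariants_lift S) x) = 0 := by
    rw [← H2π_comp_map_apply (QuotientGroup.mk' S)]; exact hy
  obtain ⟨(c : G → A), hc⟩ := (H2π_eq_zero_iff _).1 hx
  set f' : G × G → A := fun p => ((x ((p.1 : G ⧸ S), (p.2 : G ⧸ S)) : A.quotientToInvariants S) : A)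
    with hf'
  have hc' : f' = dOne A.ρ c := by
    funext ⟨g, j⟩
    have := congr_fun hc (g, j)
    rw [d₁₂_hom_apply] at this
    rw [dOne_apply, this]
    rfl
  have hq : ∀ s ∈ S, ∀ g : G, ((g * s : G) : G ⧸ S) = (g : G ⧸ S) := by
    intro s hs g
    rw [QuotientGroup.mk_mul, (QuotientGroup.eq_one_iff s).2 hs, mul_one]
  obtain ⟨c', hd, hright, hval⟩ := exists_invariant_cochain_of_inf_coboundary_nsmul A.ρ S
    (hOneKilledBy_of_H1 h) (f' := f')
    (fun s hs g j => by simp only [hf', hq s hs])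
    (fun s hs g j => by simp only [hf', hq s hs])
    (fun s hs g j => (x ((g : G ⧸ S), (j : G ⧸ S))).2 ⟨s, hs⟩) c hc'
  rw [← map_nsmul, H2π_eq_zero_iff]
  refine ⟨fun q => Quotient.liftOn' q
    (fun g => (⟨c' g, fun s => hval s s.2 g⟩ : (A.quotientToInvariants S)))
    (fun g₁ g₂ hg => Subtype.ext ?_), ?_⟩
  · rw [QuotientGroup.leftRel_apply] at hg
    have e1 : g₂ = g₁ * (g₁⁻¹ * g₂) := by group
    change c' g₁ = c' g₂
    rw [e1, hright _ hg]
  · funext ⟨g, j⟩
    induction g using QuotientGroup.induction_on with | @H g =>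
    induction j using QuotientGroup.induction_on with | @H j =>
    apply Subtype.ext
    have := congr_fun hd (g, j)
    rw [d₁₂_hom_apply]
    exact this.symm

end Fermat.Agent.S55.T.H244

namespace Fermat.Agent.S55.T.H244

open CategoryTheory groupCohomology Rep

section PLocal

variable {k G : Type} [CommRing k] [Group G]
variable (A : Rep.{0} k G) (S : Subgroup G) [S.Normal]

/-- Elementary: an element of an additive group killed by two coprime integers is zero. -/
lemma eq_zero_of_coprime_nsmul {M : Type*} [AddCommGroup M] {a b : ℕ} (hab : a.Coprime b)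
    {x : M} (ha : a • x = 0) (hb : b • x = 0) : x = 0 := by
  have h1 : addOrderOf x ∣ a := addOrderOf_dvd_of_nsmul_eq_zero ha
  have h2 : addOrderOf x ∣ b := addOrderOf_dvd_of_nsmul_eq_zero hb
  have h3 : addOrderOf x ∣ 1 := by
    have := Nat.dvd_gcd h1 h2
    rwa [hab] at this
  have h4 : addOrderOf x = 1 := Nat.dvd_one.1 h3
  exact AddMonoid.addOrderOf_eq_one_iff.1 h4

/-- Elementary: if `a • x = 0` and `a`, `m` are coprime, then `x` is a multiple of `m • x`. -/
lemma exists_nsmul_nsmul_eq_of_coprime {M : Type*} [AddCommGroup M] {a m : ℕ}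
    (ham : a.Coprime m) (ha0 : 0 < a) {x : M} (ha : a • x = 0) : ∃ u : ℕ, u • m • x = x := by
  rcases Nat.lt_or_ge 1 a with h1 | h1
  · -- `m u ≡ 1 mod a`
    obtain ⟨u, -, hu⟩ := Nat.exists_mul_mod_eq_one_of_coprime ham.symm h1
    refine ⟨u, ?_⟩
    have hdm : m * u = a * (m * u / a) + 1 := by
      have := Nat.div_add_mod (m * u) a
      rw [hu] at this
      exact this.symm
    rw [← mul_nsmul', mul_comm u m, hdm, add_nsmul, one_nsmul, mul_nsmul, ha,
      smul_zero, zero_add]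
  · have h1' : a = 1 := le_antisymm h1 ha0
    subst h1'
    have hx0 : x = 0 := by simpa using ha
    exact ⟨0, by rw [hx0, smul_zero, smul_zero]⟩

/-- **`p`-local inflation–restriction, injectivity.**  If `m` kills `H¹(S, A)`, `a` is coprime
to `m` (e.g. `a = p ^ n`, `p ∤ m`) and `a • y = 0`, then `inf y = 0 → y = 0`. -/
theorem eq_zero_of_infMap_eq_zero_of_coprime {m a : ℕ} (ham : a.Coprime m)
    (h : ∀ x : groupCohomology (resSub A S) 1, m • x = 0)
    (y : groupCohomology (A.quotientToInvariants S) 2) (hay : a • y = 0)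
    (hy : (infMap A S 2).hom y = 0) : y = 0 :=
  eq_zero_of_coprime_nsmul ham hay (nsmul_eq_zero_of_infMap_eq_zero A S h y hy)

/-- **`p`-local inflation–restriction, exactness.**  If `m` kills `H¹(S, A)`, `a > 0` is coprime
to `m`, `a • x = 0` and `res_S x = 0`, then `x` is inflated from `G ⧸ S`. -/
theorem exists_infMap_eq_of_resMap_eq_zero_of_coprime {m a : ℕ} (ham : a.Coprime m)
    (ha0 : 0 < a) (h : ∀ x : groupCohomology (resSub A S) 1, m • x = 0)
    (x : groupCohomology A 2) (hax : a • x = 0) (hx : (resMap A S 2).hom x = 0) :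
    ∃ y : groupCohomology (A.quotientToInvariants S) 2, (infMap A S 2).hom y = x := by
  obtain ⟨y₀, hy₀⟩ := exists_infMap_eq_nsmul_of_resMap_eq_zero A S h x hx
  obtain ⟨u, hu⟩ := exists_nsmul_nsmul_eq_of_coprime ham ha0 hax
  exact ⟨u • y₀, by rw [map_nsmul, hy₀, hu]⟩

/-! ### Where the hypothesis `m • H¹(S, A) = 0` comes from -/

/-- If `H¹(P, A) = 0` for a subgroup `P ≤ S` (e.g. a Sylow `p`-subgroup and `A` a class module
"at `p`"), then `[S : P]` kills `H¹(S, A)`.  (`ResIndexSpec` for the group `S`.) -/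
theorem hOne_nsmul_eq_zero_of_subgroup (S : Subgroup G) [Finite S] (P : Subgroup S)
    (hP : ∀ z : groupCohomology (resSub (resSub A S) P) 1, z = 0)
    (x : groupCohomology (resSub A S) 1) : P.index • x = 0 :=
  H572.resIndex k S (resSub A S) P 1 Nat.one_pos x (hP _)

/-- **`p`-local inflation–restriction in degree 2**, Sylow form.  `S ⊴ G` finite, `P ≤ S` with
`H¹(P, A) = 0`, `a` coprime to `[S : P]`:
* `inf : H²(G ⧸ S, A^S) → H²(G, A)` is injective on elements killed by `a`;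
* an element of `H²(G, A)` killed by `a` (`a > 0`) with zero restriction to `S` is inflated. -/
theorem infRes2_of_subgroup [Finite S] (P : Subgroup S)
    (hP : ∀ z : groupCohomology (resSub (resSub A S) P) 1, z = 0)
    {a : ℕ} (ha : a.Coprime P.index) :
    (∀ y : groupCohomology (A.quotientToInvariants S) 2, a • y = 0 →
      (infMap A S 2).hom y = 0 → y = 0) ∧
    (0 < a → ∀ x : groupCohomology A 2, a • x = 0 → (resMap A S 2).hom x = 0 →
      ∃ y : groupCohomology (A.quotientToInvariants S) 2, (infMap A S 2).hom y = x) :=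
  ⟨fun y hay hy => eq_zero_of_infMap_eq_zero_of_coprime A S ha
      (hOne_nsmul_eq_zero_of_subgroup A S P hP) y hay hy,
   fun ha0 x hax hx => exists_infMap_eq_of_resMap_eq_zero_of_coprime A S ha ha0
      (hOne_nsmul_eq_zero_of_subgroup A S P hP) x hax hx⟩

/-- In the exactness statement the preimage may be chosen killed by `a` as well (so the
`a`-torsion of `H²(G ⧸ S, A^S)` maps ONTO the `a`-torsion of `ker res`), provided `a` is coprime
to `m`. -/
theorem exists_infMap_eq_of_resMap_eq_zero_of_coprime' {m a : ℕ} (ham : a.Coprime m)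
    (ha0 : 0 < a) (h : ∀ x : groupCohomology (resSub A S) 1, m • x = 0)
    (x : groupCohomology A 2) (hax : a • x = 0) (hx : (resMap A S 2).hom x = 0) :
    ∃ y : groupCohomology (A.quotientToInvariants S) 2,
      a • y = 0 ∧ (infMap A S 2).hom y = x := by
  obtain ⟨y₀, hy₀⟩ := exists_infMap_eq_nsmul_of_resMap_eq_zero A S h x hx
  obtain ⟨u, hu⟩ := exists_nsmul_nsmul_eq_of_coprime ham ha0 hax
  -- `y₁ = u • y₀` maps to `x`; `a • y₁` maps to `0`, so `m • a • y₁ = 0`; correct `y₁` by a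
  -- multiple: `y = (v * m) • y₁` with `v m ≡ 1 mod a`.
  have hy₁ : (infMap A S 2).hom (u • y₀) = x := by rw [map_nsmul, hy₀, hu]
  have hkill : m • a • (u • y₀) = 0 :=
    nsmul_eq_zero_of_infMap_eq_zero A S h _ (by rw [map_nsmul, hy₁, hax])
  obtain ⟨v, hv⟩ := exists_nsmul_nsmul_eq_of_coprime ham ha0 hax
  refine ⟨v • m • (u • y₀), ?_, ?_⟩
  · rw [smul_comm a v, smul_comm a m, hkill, smul_zero]
  · rw [map_nsmul, map_nsmul, hy₁, hv]

end PLocal

end Fermat.Agent.S55.T.H244

end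
-- ===== PACK-END S55/T/InfResTorsH244.lean

-- ===== PACK-BEGIN S55/G/PL1H597/Inj.lean
section
/-
S55 (Poitou–Tate), layer G, leaf G-PL1 (`PlacePrimeSpec`) — helper597.
Part 3: injectivity of `𝔪 ↦ primeOf 𝔪` (approximation argument).
-/


set_option autoImplicit false
set_option linter.unusedSectionVars false
set_option linter.style.haveILetI false
set_option linter.unusedSimpArgs false
set_option backward.isDefEq.respectTransparency false

open scoped NumberField TensorProduct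
open IsDedekindDomain Polynomial

noncomputable section

namespace Fermat.Agent.S55.G.PL1H597

open Fermat.Agent.S55.G

variable {S : Finset Nat.Primes} {L : Type} [Field L] [NumberField L]

/-! ### `intA 𝔪 ∩ L` is the localisation of `𝓞 L` at `primeOf 𝔪` -/

lemma inv_mem_intA_of_notMem (𝔪 : SPlace S L) (d : 𝓞 L) (hd : d ∉ (primeOf 𝔪).asIdeal) :
    (toLoc S 𝔪 (d : L))⁻¹ ∈ intA 𝔪 := by
  rw [mem_primeOf_iff, mem_nonunits_iff_inv] at hd
  push Not at hd
  exact hd.2

lemma toLoc_coe_mem_intA (𝔪 : SPlace S L) (a : 𝓞 L) : toLoc S 𝔪 (a : L) ∈ intA 𝔪 :=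
  toLoc_mem_intA_of_isIntegral 𝔪 _ (NumberField.RingOfIntegers.isIntegral_coe a)

lemma toLoc_mem_intA_iff (𝔪 : SPlace S L) (x : L) :
    toLoc S 𝔪 x ∈ intA 𝔪 ↔
      ∃ (n d : 𝓞 L), d ∉ (primeOf 𝔪).asIdeal ∧ x * (d : L) = (n : L) := by
  constructor
  · intro hx
    obtain ⟨n, ⟨d, hd⟩, h | h⟩ :=
      (primeOf 𝔪).exists_primeCompl_mul_eq_or_mul_eq (K := L) x
    · exact ⟨n, d, hd, h⟩
    · refine ⟨d, n, ?_, h⟩
      intro hn
      apply hd
      change d ∈ (primeOf 𝔪).asIdeal
      rw [mem_primeOf_iff, ValuationSubring.mem_nonunits_iff] at hn ⊢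
      have h1 : toLoc S 𝔪 (d : L) = toLoc S 𝔪 x * toLoc S 𝔪 (n : L) := by
        rw [← map_mul]
        exact congrArg _ h.symm
      rw [h1, map_mul]
      have h2 : (intA 𝔪).valuation (toLoc S 𝔪 x) ≤ 1 := ((intA 𝔪).valuation_le_one_iff _).2 hx
      calc (intA 𝔪).valuation (toLoc S 𝔪 x) * (intA 𝔪).valuation (toLoc S 𝔪 (n : L))
          ≤ 1 * (intA 𝔪).valuation (toLoc S 𝔪 (n : L)) := mul_le_mul_left h2 _
        _ < 1 := by rw [one_mul]; exact hn
  · rintro ⟨n, d, hd, h⟩
    have hd0 : toLoc S 𝔪 (d : L) ≠ 0 := by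
      intro h0
      apply hd
      rw [mem_primeOf_iff, h0]
      exact (mem_nonunits_iff_inv _ _).2 (Or.inl rfl)
    have h1 : toLoc S 𝔪 x = toLoc S 𝔪 (n : L) * (toLoc S 𝔪 (d : L))⁻¹ := by
      rw [eq_mul_inv_iff_mul_eq₀ hd0, ← map_mul, h]
    rw [h1]
    exact (intA 𝔪).mul_mem _ _ (toLoc_coe_mem_intA 𝔪 n) (inv_mem_intA_of_notMem 𝔪 d hd)

lemma toLoc_mem_intA_congr {𝔪 𝔪' : SPlace S L} (h : primeOf 𝔪 = primeOf 𝔪') (x : L) :
    toLoc S 𝔪 x ∈ intA 𝔪 ↔ toLoc S 𝔪' x ∈ intA 𝔪' := by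
  rw [toLoc_mem_intA_iff, toLoc_mem_intA_iff, h]

/-! ### The lattice `𝓞 L ⊗ ℤ_q` -/

/-- The additive subgroup of `L ⊗ ℚ_S` generated by the `a ⊗ b` with `a` integral and `b`
integral at `q`. -/
def R1 (q : S) : AddSubgroup (AS S L) :=
  AddSubgroup.closure
    {y | ∃ (a : 𝓞 L) (b : QS S), ‖QS.toPi S b q‖ ≤ 1 ∧ y = (a : L) ⊗ₜ[ℚ] b}

lemma exists_pow_mul_norm_le_one (q : Nat.Primes) (b : Qq q) :
    ∃ k : ℕ, ‖(((q : ℕ) : ℕ) : Qq q) ^ k * b‖ ≤ 1 := by
  haveI : Fact (q : ℕ).Prime := ⟨q.2⟩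
  have hq1 : (1 : ℝ) < ((q : ℕ) : ℝ) := by exact_mod_cast q.2.one_lt
  have hq0 : (0 : ℝ) < ((q : ℕ) : ℝ) := by linarith
  obtain ⟨k, hk⟩ := pow_unbounded_of_one_lt ‖b‖ hq1
  refine ⟨k, ?_⟩
  have h2 : ‖(((q : ℕ) : ℕ) : Qq q)‖ = ((q : ℕ) : ℝ)⁻¹ := Padic.norm_p
  rw [norm_mul, norm_pow, h2, inv_pow]
  rw [inv_mul_le_iff₀ (pow_pos hq0 k), mul_one]
  exact hk.le

lemma exists_zsmul_mem_R1 (q : S) (z : AS S L) : ∃ t : ℤ, t ≠ 0 ∧ t • z ∈ R1 (L := L) q := by
  induction z using TensorProduct.induction_on with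
  | zero => exact ⟨1, one_ne_zero, by rw [smul_zero]; exact (R1 q).zero_mem⟩
  | tmul x b =>
    obtain ⟨d, hd0, hd'⟩ := exists_integral_multiples ℤ ℚ ({x} : Finset L)
    have hd : IsIntegral ℤ (d • x) := hd' x (Finset.mem_singleton_self x)
    obtain ⟨k, hk⟩ := exists_pow_mul_norm_le_one q.1 (QS.toPi S b q)
    refine ⟨d * ((q.1 : ℕ) : ℤ) ^ k, mul_ne_zero hd0 (pow_ne_zero _ ?_), ?_⟩
    · exact_mod_cast q.1.2.ne_zero
    · apply AddSubgroup.subset_closure
      refine ⟨IsIntegralClosure.mk' (𝓞 L) (d • x) hd, (((q.1 : ℕ) : ℤ) ^ k) • b, ?_, ?_⟩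
      · have : QS.toPi S ((((q.1 : ℕ) : ℤ) ^ k) • b) q =
            (((q.1 : ℕ) : ℕ) : Qq q.1) ^ k * QS.toPi S b q := by
          rw [map_zsmul]
          simp [zsmul_eq_mul]
        rw [this]
        exact hk
      · rw [mul_smul, TensorProduct.smul_tmul', TensorProduct.smul_tmul',
          ← TensorProduct.smul_tmul]
        congr 1
        rw [smul_comm]
        congr 1
        exact (IsIntegralClosure.algebraMap_mk' (𝓞 L) (d • x) hd).symm
  | add z₁ z₂ h₁ h₂ =>
    obtain ⟨t₁, ht₁, hz₁⟩ := h₁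
    obtain ⟨t₂, ht₂, hz₂⟩ := h₂
    refine ⟨t₁ * t₂, mul_ne_zero ht₁ ht₂, ?_⟩
    rw [smul_add]
    refine (R1 q).add_mem ?_ ?_
    · rw [mul_comm, mul_smul]
      exact (R1 q).zsmul_mem hz₁ t₂
    · rw [mul_smul]
      exact (R1 q).zsmul_mem hz₂ t₁

/-- Approximation: modulo `q ^ k`, every element of the lattice is congruent to an element of
`𝓞 L`, simultaneously at all places over `q`. -/
lemma exists_approx (q : S) (k : ℕ) (y : AS S L) (hy : y ∈ R1 (L := L) q) :
    ∃ y₀ : 𝓞 L, ∀ (𝔪 : SPlace S L), Over 𝔪 q → ∃ α ∈ intA 𝔪,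
      LocField.mk S 𝔪 y - toLoc S 𝔪 (y₀ : L) = (((q.1 : ℕ) : ℕ) : LocField S 𝔪) ^ k * α := by
  haveI : Fact (q.1 : ℕ).Prime := ⟨q.1.2⟩
  induction hy using AddSubgroup.closure_induction with
  | mem y hy =>
    obtain ⟨a, b, hb, rfl⟩ := hy
    let bq : ℤ_[(q.1 : ℕ)] := ⟨QS.toPi S b q, hb⟩
    obtain ⟨c, hc⟩ := Ideal.mem_span_singleton'.1 (PadicInt.appr_spec k bq)
    have hc' : ((c : ℤ_[(q.1 : ℕ)]) : Qq q.1) * (((q.1 : ℕ) : ℕ) : Qq q.1) ^ k =
        QS.toPi S b q - ((bq.appr k : ℕ) : Qq q.1) := by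
      have := congrArg (fun u : ℤ_[(q.1 : ℕ)] => (u : ℚ_[(q.1 : ℕ)])) hc
      simpa [bq] using this
    refine ⟨(bq.appr k : ℕ) * a, fun 𝔪 h => ⟨toLoc S 𝔪 (a : L) * ofQq 𝔪 q h (c : Qq q.1), ?_, ?_⟩⟩
    · refine (intA 𝔪).mul_mem _ _ (toLoc_coe_mem_intA 𝔪 a) ?_
      rw [ofQq_mem_intA_iff]
      exact c.2
    · rw [mk_tmul, ofQS_eq_ofQq h]
      have h1 : QS.toPi S b q = (c : Qq q.1) * (((q.1 : ℕ) : ℕ) : Qq q.1) ^ k +
          ((bq.appr k : ℕ) : Qq q.1) := by
        rw [hc']; ring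
      rw [h1, map_add, map_mul, map_pow, map_natCast, map_natCast]
      push_cast
      rw [map_mul, map_natCast]
      ring
  | zero =>
    refine ⟨0, fun 𝔪 _ => ⟨0, (intA 𝔪).zero_mem, ?_⟩⟩
    simp
  | add y₁ y₂ _ _ h₁ h₂ =>
    obtain ⟨a₁, ha₁⟩ := h₁
    obtain ⟨a₂, ha₂⟩ := h₂
    refine ⟨a₁ + a₂, fun 𝔪 h => ?_⟩
    obtain ⟨α₁, hα₁, e₁⟩ := ha₁ 𝔪 h
    obtain ⟨α₂, hα₂, e₂⟩ := ha₂ 𝔪 h
    refine ⟨α₁ + α₂, (intA 𝔪).add_mem _ _ hα₁ hα₂, ?_⟩
    have : LocField.mk S 𝔪 (y₁ + y₂) - toLoc S 𝔪 ((a₁ + a₂ : 𝓞 L) : L) =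
        (LocField.mk S 𝔪 y₁ - toLoc S 𝔪 (a₁ : L)) + (LocField.mk S 𝔪 y₂ - toLoc S 𝔪 (a₂ : L)) := by
      push_cast
      rw [map_add, map_add]
      ring
    rw [this, e₁, e₂, mul_add]
  | neg y _ h₁ =>
    obtain ⟨a₁, ha₁⟩ := h₁
    refine ⟨-a₁, fun 𝔪 h => ?_⟩
    obtain ⟨α₁, hα₁, e₁⟩ := ha₁ 𝔪 h
    refine ⟨-α₁, (intA 𝔪).neg_mem _ hα₁, ?_⟩
    have : LocField.mk S 𝔪 (-y) - toLoc S 𝔪 ((-a₁ : 𝓞 L) : L) =
        -(LocField.mk S 𝔪 y - toLoc S 𝔪 (a₁ : L)) := by
      push_cast
      rw [map_neg, map_neg]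
      ring
    rw [this, e₁, mul_neg]

/-- An element of `L_𝔪` divisible by all powers of `q` in `intA 𝔪` is zero. -/
lemma eq_zero_of_forall_pow_dvd (𝔪 : SPlace S L) (q : S) (h : Over 𝔪 q) (c : LocField S 𝔪)
    (hc : ∀ k : ℕ, ∃ α ∈ intA 𝔪, c = (((q.1 : ℕ) : ℕ) : LocField S 𝔪) ^ k * α) : c = 0 := by
  obtain ⟨hdvr, -, -⟩ := intA_spec 𝔪
  haveI := hdvr
  have hcA : c ∈ intA 𝔪 := by
    obtain ⟨α, hα, e⟩ := hc 0
    rw [e, pow_zero, one_mul]
    exact hα
  have hqA : (((q.1 : ℕ) : ℕ) : LocField S 𝔪) ∈ (intA 𝔪).nonunits := natCast_mem_nonunits 𝔪 q h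
  obtain ⟨hq1, hq2⟩ := ValuationSubring.mem_nonunits_iff_exists_mem_maximalIdeal.1 hqA
  have hmem : ∀ k : ℕ, (⟨c, hcA⟩ : intA 𝔪) ∈ IsLocalRing.maximalIdeal (intA 𝔪) ^ k := by
    intro k
    obtain ⟨α, hα, e⟩ := hc k
    have : (⟨c, hcA⟩ : intA 𝔪) = ⟨_, hq1⟩ ^ k * ⟨α, hα⟩ := by
      apply Subtype.ext
      simpa using e
    rw [this]
    exact Ideal.mul_mem_right _ _ (Ideal.pow_mem_pow hq2 k)
  have hbot : (⟨c, hcA⟩ : intA 𝔪) ∈ (⨅ k : ℕ, IsLocalRing.maximalIdeal (intA 𝔪) ^ k) :=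
    (Ideal.mem_iInf).2 hmem
  rw [Ideal.iInf_pow_eq_bot_of_isLocalRing _ (IsLocalRing.maximalIdeal.isMaximal _).ne_top,
    Ideal.mem_bot] at hbot
  exact congrArg Subtype.val hbot

/-- Two places with the same prime below them have the same kernel. -/
lemma le_of_primeOf_eq {𝔪 𝔪' : SPlace S L} (h : primeOf 𝔪 = primeOf 𝔪') :
    𝔪.asIdeal ≤ 𝔪'.asIdeal := by
  intro z hz
  set q := qAt 𝔪 with hq
  have hov : Over 𝔪 q := over_qAt 𝔪
  have hov' : Over 𝔪' q := by
    rw [over_iff_mem, ← h, ← over_iff_mem]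
    exact hov
  obtain ⟨t, ht0, hty⟩ := exists_zsmul_mem_R1 (L := L) q z
  have hmk0 : LocField.mk S 𝔪 (t • z) = 0 := by
    rw [LocField.mk_eq_zero_iff]
    exact 𝔪.asIdeal.toAddSubgroup.zsmul_mem hz t
  have hqne : (((q.1 : ℕ) : ℕ) : L) ≠ 0 := by
    exact_mod_cast q.1.2.ne_zero
  have key : LocField.mk S 𝔪' (t • z) = 0 := by
    apply eq_zero_of_forall_pow_dvd 𝔪' q hov'
    intro k
    obtain ⟨y₀, hy₀⟩ := exists_approx q k (t • z) hty
    obtain ⟨α, hα, e⟩ := hy₀ 𝔪 hov
    obtain ⟨α', hα', e'⟩ := hy₀ 𝔪' hov'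
    rw [hmk0, zero_sub] at e
    -- `y₀ / q ^ k` is integral at `𝔪`, hence at `𝔪'`
    have hx : toLoc S 𝔪 ((y₀ : L) / (((q.1 : ℕ) : ℕ) : L) ^ k) ∈ intA 𝔪 := by
      have hqk : (((q.1 : ℕ) : ℕ) : LocField S 𝔪) ^ k ≠ 0 := by
        apply pow_ne_zero
        exact_mod_cast q.1.2.ne_zero
      have : toLoc S 𝔪 ((y₀ : L) / (((q.1 : ℕ) : ℕ) : L) ^ k) = -α := by
        rw [map_div₀, map_pow, map_natCast, div_eq_iff hqk, mul_comm, mul_neg, ← e, neg_neg]
      rw [this]
      exact (intA 𝔪).neg_mem _ hα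
    rw [toLoc_mem_intA_congr h] at hx
    refine ⟨α' + toLoc S 𝔪' ((y₀ : L) / (((q.1 : ℕ) : ℕ) : L) ^ k),
      (intA 𝔪').add_mem _ _ hα' hx, ?_⟩
    have hqk : (((q.1 : ℕ) : ℕ) : LocField S 𝔪') ^ k ≠ 0 := by
      apply pow_ne_zero
      exact_mod_cast q.1.2.ne_zero
    rw [mul_add, ← e', map_div₀, map_pow, map_natCast, mul_div_cancel₀ _ hqk]
    ring
  rw [← LocField.mk_eq_zero_iff]
  have h1 : LocField.mk S 𝔪' (t • z) = (t : LocField S 𝔪') * LocField.mk S 𝔪' z := by
    rw [zsmul_eq_mul, map_mul, map_intCast]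
  rw [h1] at key
  rcases mul_eq_zero.1 key with h0 | h0
  · exact absurd (by exact_mod_cast h0) ht0
  · exact h0

theorem primeOf_injective : Function.Injective (primeOf : SPlace S L → HeightOneSpectrum (𝓞 L)) := by
  intro 𝔪 𝔪' h
  apply MaximalSpectrum.ext
  exact 𝔪.isMaximal.eq_of_le 𝔪'.isMaximal.ne_top (le_of_primeOf_eq h)

end Fermat.Agent.S55.G.PL1H597

end
end
-- ===== PACK-END S55/G/PL1H597/Inj.lean

-- ===== PACK-BEGIN S55/G/Rec/Glob/CyclicSplit.lean
section



/-!
# S55 / REC / leaf K4 : `CyclicSplitSpec` (helper64)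

`cyclicSplit : CyclicSplitSpec` — a class of `Br(K)`, `K = ℚ̄^U`, which dies in `Br(L)`, `L / K`
cyclic cut out by a surjective continuous character `χ : U → ℤ/n`, is the cup class `a ∪ δχ` for
some `a ∈ Kˣ`.

Proof: descend the cocycle and the trivialising 1-cochain to a finite Galois level `E / K`
(global dictionary `Glob/Basic.lean`, `Glob/Cochain.lean`), apply the finite-level statement
`exists_cupChar_of_res_coboundary` (`Glob/CyclicFinite.lean`: inflation–restriction, Hilbert 90,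
cyclic periodicity), and inflate back.
-/

set_option autoImplicit false
set_option linter.style.haveILetI false

noncomputable section

namespace Fermat.Agent.S55.G.Rec.Glob

open groupCohomology IntermediateField

local notation "Qb" => AlgebraicClosure ℚ
local notation "GQ" => (AlgebraicClosure ℚ ≃ₐ[ℚ] AlgebraicClosure ℚ)

/-- The kernel of a continuous character of an open subgroup is open. -/
theorem isOpenQ_ker_map {U : Subgroup GQ} (hU : IsOpenQ U) {n : ℕ}
    (χ : ↥U →* Multiplicative (ZMod n)) (hχ : IsLevelConstant₁ U.subtype χ) :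
    IsOpenQ (χ.ker.map U.subtype) := by
  obtain ⟨F, hF, hFU⟩ := hU
  obtain ⟨F', hF', h⟩ := hχ
  haveI := hF
  haveI := hF'
  refine ⟨F ⊔ F', inferInstance, fun s hs => ?_⟩
  have hsU : s ∈ U := hFU (IntermediateField.fixingSubgroup_antitone le_sup_left hs)
  refine Subgroup.mem_map.2 ⟨⟨s, hsU⟩, ?_, rfl⟩
  rw [MonoidHom.mem_ker]
  have := h 1 ⟨s, hsU⟩ (IntermediateField.fixingSubgroup_antitone le_sup_right hs)
  rwa [one_mul, map_one] at this

set_option maxHeartbeats 1600000 in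
/-- **K4**: global cyclic splitting. -/
theorem cyclicSplit : CyclicSplitSpec := by
  intro U hU n _ χ hχ hsurj x hx
  have hle : χ.ker.map U.subtype ≤ U := Subgroup.map_subtype_le _
  have hU' : IsOpenQ (χ.ker.map U.subtype) := isOpenQ_ker_map hU χ hχ
  -- a representative
  obtain ⟨c, rfl⟩ := Submodule.mkQ_surjective _ x
  -- its restriction is a level coboundary
  have hx' : (cochainsPullPush₂ (Subgroup.inclusion hle)
      (LinearMap.id : gModOn U →ₗ[ℤ] gModOn (χ.ker.map U.subtype))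
      (c : ↥U × ↥U → gModOn U)) ∈
        levelCoboundaries₂ (χ.ker.map U.subtype).subtype (gModOn (χ.ker.map U.subtype)) :=
    (continuousH2π_eq_zero_iff _ _ _).1 hx
  obtain ⟨b, hb, hdb⟩ := (mem_levelCoboundaries₂_iff _ _ _).1 hx'
  have hbfin := finite_range_of_isLevelConstant₁ hU' hb
  obtain ⟨Fb, hFb, hbconst⟩ := hb
  have hχ' := hχ
  obtain ⟨Fχ, hFχ, hχconst⟩ := hχ'
  haveI := hFb
  haveI := hFχ
  -- the finite level
  obtain ⟨E, hfd, hgal, cbar, hFE, hTE, hcbar⟩ := exists_level_eq_infl₂ hU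
    (c : ↥U × ↥U → gModOn U) c.2.2 (Fb ⊔ Fχ)
    ((fun m : gModOn (χ.ker.map U.subtype) => ((Additive.toMul m : Qbˣ) : Qb)) '' Set.range b)
    (hbfin.image _)
  haveI := hfd
  haveI := hgal
  have hcoc : IsMulCocycle₂ cbar := by
    rw [← infl₂_mem_cocycles₂_iff hU E cbar, hcbar]
    exact c.2.1
  have hFbE : ∀ s : ↥U, resHom U E s = 1 → (s : GQ) ∈ Fb.fixingSubgroup := fun s hs =>
    mem_fixingSubgroup_of_resHom_eq_one U E s hs (fun x hx => hFE x (le_sup_left (a := Fb) hx))
  have hFχE : ∀ s : ↥U, resHom U E s = 1 → (s : GQ) ∈ Fχ.fixingSubgroup := fun s hs =>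
    mem_fixingSubgroup_of_resHom_eq_one U E s hs (fun x hx => hFE x (le_sup_right (b := Fχ) hx))
  -- the character at finite level
  have hkerχ : (resHom U E).ker ≤ χ.ker := by
    intro s hs
    rw [MonoidHom.mem_ker] at hs ⊢
    have := hχconst 1 s (hFχE s hs)
    rwa [one_mul, map_one] at this
  let χbar : (E ≃ₐ[fixedFld U] E) →* Multiplicative (ZMod n) :=
    MonoidHom.liftOfSurjective (resHom U E) (resHom_surjective hU E) ⟨χ, hkerχ⟩
  have hχbar : ∀ u : ↥U, χbar (resHom U E u) = χ u := fun u =>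
    MonoidHom.liftOfRightInverse_comp_apply _ _ _ _ u
  have hχbarsurj : Function.Surjective χbar := by
    intro m
    obtain ⟨u, rfl⟩ := hsurj m
    exact ⟨resHom U E u, hχbar u⟩
  -- lifting elements of `ker χbar` to `U' = ker χ`
  have hlift : ∀ s : χbar.ker, ∃ v : ↥(χ.ker.map U.subtype),
      resHom U E (Subgroup.inclusion hle v) = (s : E ≃ₐ[fixedFld U] E) := by
    intro s
    obtain ⟨u, hu⟩ := resHom_surjective hU E (s : E ≃ₐ[fixedFld U] E)
    have hmem : u ∈ χ.ker := by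
      rw [MonoidHom.mem_ker, ← hχbar, hu]
      exact MonoidHom.mem_ker.1 s.2
    refine ⟨⟨(u : GQ), Subgroup.mem_map.2 ⟨u, hmem, rfl⟩⟩, ?_⟩
    rw [← hu]
    rfl
  choose up hup using hlift
  have hvalb : ∀ v : ↥(χ.ker.map U.subtype), ((Additive.toMul (b v) : Qbˣ) : Qb) ∈ E :=
    fun v => hTE _ ⟨b v, ⟨v, rfl⟩, rfl⟩
  choose β hβ using fun s : χbar.ker => exists_unitsIncl_eq U E (hvalb (up s))
  -- `b` is constant modulo the level
  have hbE : ∀ v r : ↥(χ.ker.map U.subtype), resHom U E (Subgroup.inclusion hle r) = 1 →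
      b (v * r) = b v := fun v r hr => hbconst v r (hFbE _ hr)
  have hβcob : ∀ s t : χbar.ker, (s : E ≃ₐ[fixedFld U] E) • β t / β (s * t) * β s =
      cbar ((s : E ≃ₐ[fixedFld U] E), t) := by
    intro s t
    apply unitsIncl_injective U E
    -- the value of `b` at `up (s * t)`
    have hr : resHom U E (Subgroup.inclusion hle ((up s * up t)⁻¹ * up (s * t))) = 1 := by
      rw [map_mul (Subgroup.inclusion hle), map_mul (resHom U E), hup (s * t),
        map_inv (Subgroup.inclusion hle), map_inv (resHom U E),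
        map_mul (Subgroup.inclusion hle), map_mul (resHom U E), hup s, hup t]
      exact inv_mul_cancel _
    have hbst : b (up (s * t)) = b (up s * up t) := by
      have := hbE (up s * up t) ((up s * up t)⁻¹ * up (s * t)) hr
      rwa [mul_inv_cancel_left] at this
    have hs : (s : E ≃ₐ[fixedFld U] E) • β t =
        resHom U E (Subgroup.inclusion hle (up s)) • β t := by rw [hup s]
    rw [map_mul, map_div, hs, unitsIncl_smul, hβ, hβ, hβ, hbst]
    -- the coboundary relation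
    have h1 := congrFun hdb (up s, up t)
    rw [d₁₂_hom_apply] at h1
    have h2 : (c : ↥U × ↥U → gModOn U)
        (Subgroup.inclusion hle (up s), Subgroup.inclusion hle (up t)) =
        Additive.ofMul (unitsIncl U E (cbar (resHom U E (Subgroup.inclusion hle (up s)),
          resHom U E (Subgroup.inclusion hle (up t))))) := by
      rw [← hcbar]
      rfl
    have h3 := congrArg Additive.toMul (h1.trans h2)
    rw [hup s, hup t] at h3
    exact h3
  -- the finite-level theorem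
  obtain ⟨a, w, hw⟩ := exists_cupChar_of_res_coboundary (fixedFld U) E n χbar hχbarsurj cbar hcoc
    β hβcob
  -- the element `a` of `K`, in `ℚ̄`
  have haQfix : GFixed U (unitsIncl U E (Units.map (algebraMap (fixedFld U) E :
      (fixedFld U) →* E) a)) := by
    intro u hu
    apply Units.ext
    exact (IntermediateField.mem_fixedField_iff U _).1 (a : fixedFld U).2 u hu
  refine ⟨unitsIncl U E (Units.map (algebraMap (fixedFld U) E : (fixedFld U) →* E) a),
    haQfix, ?_⟩
  rw [gcc_eq U n χ _ ⟨NeZero.ne n, hχ, haQfix⟩]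
  refine (Submodule.Quotient.eq _).2 ?_
  refine (mem_levelCoboundaries₂_iff _ _ _).2 ⟨infl₁ U E w, isLevelConstant₁_infl₁ hU E w, ?_⟩
  rw [d₁₂_infl₁]
  funext ⟨g, k⟩
  have h1 : (c : ↥U × ↥U → gModOn U) (g, k) =
      Additive.ofMul (unitsIncl U E (cbar (resHom U E g, resHom U E k))) := by
    rw [← hcbar]
    rfl
  have key : unitsIncl U E (resHom U E g • w (resHom U E k) /
        w (resHom U E g * resHom U E k) * w (resHom U E g)) =
      unitsIncl U E (cbar (resHom U E g, resHom U E k)) /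
        (unitsIncl U E (Units.map (algebraMap (fixedFld U) E : (fixedFld U) →* E) a)) ^
          (H379.carry n (chiAdd χ g) (chiAdd χ k)) := by
    rw [hw, hχbar, hχbar]
    generalize (resHom U E g • w (resHom U E k) / w (resHom U E g * resHom U E k) *
      w (resHom U E g)) = X
    rw [map_mul, map_pow]
    exact (mul_div_cancel_right _ _).symm
  have h2 : infl₂ U E (fun p => p.1 • w p.2 / w (p.1 * p.2) * w p.1) (g, k) =
      Additive.ofMul (unitsIncl U E (cbar (resHom U E g, resHom U E k)) /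
        (unitsIncl U E (Units.map (algebraMap (fixedFld U) E : (fixedFld U) →* E) a)) ^
          (H379.carry n (chiAdd χ g) (chiAdd χ k))) :=
    congrArg Additive.ofMul key
  rw [h2, Submodule.subtype_apply, Submodule.coe_sub, Pi.sub_apply, h1]
  rfl

end Fermat.Agent.S55.G.Rec.Glob

end
end
-- ===== PACK-END S55/G/Rec/Glob/CyclicSplit.lean

-- ===== PACK-BEGIN S55/G/Rec/HP/SylH841.lean
section



/-!
# S55 / layer G / block REC / adapter HP : leaf HP-SYL (helper841, subtask 484)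

`hasseFin_of : HasseFinPSpec p → HasseFinSpec p` (`p` prime): the finite-level Hasse principle
for `p`-primary classes follows from the case of `p`-groups, by restriction to a Sylow
`p`-subgroup `P ≤ Γ` (`[Γ : P] • x = 0` if `res_P x = 0`, layer T `ResIndexSpec`), since the
localisation maps commute with restriction.
-/

set_option autoImplicit false
set_option linter.unusedSectionVars false

noncomputable section

namespace Fermat.Agent.S55.G.Rec.HP.H841

open groupCohomology CategoryTheory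

section Square

variable (S : Finset Nat.Primes) {Γ : Type} (L : Type) [Group Γ] [Field L] [CharZero L]
  [MulSemiringAction Γ L] (P : Subgroup Γ)

/-- The restriction of `Lˣ` to a subgroup `P ≤ Γ` is `Lˣ` with its `P`-action. -/
lemma res_LRep : Rep.res P.subtype (G.LRep Γ L) = G.LRep ↥P L := rfl

/-- The decomposition group of `𝔪` in `P` sits inside the decomposition group in `Γ`. -/
def decompIncl (𝔪 : G.SPlace S L) : ↥(G.decomp S ↥P 𝔪) →* ↥(G.decomp S Γ 𝔪) where
  toFun g := ⟨((g : ↥P) : Γ), g.2⟩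
  map_one' := rfl
  map_mul' _ _ := rfl

@[simp] lemma decompIncl_coe (𝔪 : G.SPlace S L) (g : ↥(G.decomp S ↥P 𝔪)) :
    ((decompIncl S L P 𝔪 g : ↥(G.decomp S Γ 𝔪)) : Γ) = ((g : ↥P) : Γ) := rfl

/-- The local module of `P` at `𝔪` is the restriction of the local module of `Γ`. -/
lemma res_LocRep (𝔪 : G.SPlace S L) :
    Rep.res (decompIncl S L P 𝔪) (G.LocRep S Γ 𝔪) = G.LocRep S ↥P 𝔪 := rfl

/-- The restriction map on the local cohomology groups. -/
def locRes (𝔪 : G.SPlace S L) (n : ℕ) :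
    groupCohomology (G.LocRep S Γ 𝔪) n ⟶ groupCohomology (G.LocRep S ↥P 𝔪) n :=
  groupCohomology.map (decompIncl S L P 𝔪)
    (𝟙 (Rep.res (decompIncl S L P 𝔪) (G.LocRep S Γ 𝔪))) n

/-- The global restriction map `Hⁿ(Γ, Lˣ) ⟶ Hⁿ(P, Lˣ)`. -/
def globRes (n : ℕ) : groupCohomology (G.LRep Γ L) n ⟶ groupCohomology (G.LRep ↥P L) n :=
  groupCohomology.map P.subtype (𝟙 (Rep.res P.subtype (G.LRep Γ L))) n

lemma globRes_eq_resMap (n : ℕ) :
    globRes L P n = Fermat.Agent.S55.T.resMap (G.LRep Γ L) P n := rfl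

/-- **Localisation commutes with restriction to a subgroup.** -/
theorem globRes_locMapL (𝔪 : G.SPlace S L) (n : ℕ) :
    globRes L P n ≫ G.locMapL S ↥P 𝔪 n = G.locMapL S Γ 𝔪 n ≫ _root_.Fermat.Agent.S55.G.Rec.HP.H841.locRes S L P 𝔪 n := by
  have h1 := groupCohomology.map_comp (A := G.LRep Γ L) (B := G.LRep ↥P L)
    (C := G.LocRep S ↥P 𝔪) P.subtype (G.decomp S ↥P 𝔪).subtype
    (𝟙 (Rep.res P.subtype (G.LRep Γ L))) (G.lToLocRepHom S ↥P 𝔪) n
  have h2 := groupCohomology.map_comp (A := G.LRep Γ L) (B := G.LocRep S Γ 𝔪)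
    (C := G.LocRep S ↥P 𝔪) (G.decomp S Γ 𝔪).subtype (decompIncl S L P 𝔪)
    (G.lToLocRepHom S Γ 𝔪) (𝟙 (Rep.res (decompIncl S L P 𝔪) (G.LocRep S Γ 𝔪))) n
  exact h1.symm.trans ((groupCohomology.map_congr rfl rfl n).trans h2)

end Square

/-- **HP-SYL**: the finite-level Hasse principle for `p`-groups implies the finite-level Hasse
principle for classes of `p`-power order of arbitrary finite groups. -/
theorem hasseFin_of (p : ℕ) [hp : Fact p.Prime] (hP : HasseFinPSpec p) : HasseFinSpec p := by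
  intro Γ L _ _ _ _ _ _ hζ x hx hloc
  obtain ⟨k, hk⟩ := hx
  classical
  obtain ⟨P⟩ : Nonempty (Sylow p Γ) := inferInstance
  have h0 : (globRes L (P : Subgroup Γ) 2).hom x = 0 := by
    refine hP ↥(P : Subgroup Γ) L P.isPGroup' hζ _ ?_
    intro S 𝔪
    have h := ConcreteCategory.congr_hom (globRes_locMapL S L (P : Subgroup Γ) 𝔪 2) x
    rw [ConcreteCategory.comp_apply, ConcreteCategory.comp_apply] at h
    rw [h, hloc S 𝔪, map_zero]
  have h1 : (P : Subgroup Γ).index • x = 0 :=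
    Fermat.Agent.S55.T.H572.resIndex ℤ Γ (G.LRep Γ L) (P : Subgroup Γ) 2 (by norm_num) x h0
  have hcop : Nat.Coprime (P : Subgroup Γ).index (p ^ k) :=
    Nat.Coprime.pow_right k ((Nat.Prime.coprime_iff_not_dvd hp.out).2 P.not_dvd_index).symm
  have h3 : addOrderOf x ∣ 1 := by
    rw [← Nat.Coprime.gcd_eq_one hcop]
    exact Nat.dvd_gcd (addOrderOf_dvd_of_nsmul_eq_zero h1) (addOrderOf_dvd_of_nsmul_eq_zero hk)
  exact AddMonoid.addOrderOf_eq_one_iff.1 (Nat.dvd_one.1 h3)

end Fermat.Agent.S55.G.Rec.HP.H841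


end
end
-- ===== PACK-END S55/G/Rec/HP/SylH841.lean

-- ===== PACK-BEGIN S55/G/Rec/Loc/UnifH544/Galois.lean
section





/-!
# S55 / G / REC / LOC, leaf LOC-UNIF (helper544), part 3: Galois theory

* `exists_level_of_cupChar544`: a character `χ` whose cup cocycle with a non-unit `π` is
  level-constant is continuous (trivial on `V ∩ Gal(ℚ̄_q / E₁)`, `E₁ / ℚ_q` finite);
* `exists_cyclotomic_level544`: a continuous unramified character of an open subgroup `V` is
  trivial on the elements of `V` fixing `μ_r`, for some `r` prime to `q`  (infinite Galois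
  theory: the fixed field of `ker χ` is contained in `K_V(μ')`, `μ'` the roots of unity of order
  prime to `q`, because an automorphism fixing `μ'` is inertial);
* `cycLevel544 q V r = K_V(μ_r)`, finite Galois over `K_V`;
* `resHom_surjective544`, `descChar544`: the character induced on `Gal(K_V(μ_r) / K_V)`.
-/

set_option autoImplicit false
set_option linter.unusedSectionVars false

noncomputable section

namespace Fermat.Agent.S55.G.Rec.Loc.H544

open groupCohomology Fermat.Agent.S55.G.Rec Fermat.Agent.S55.G.Rec.Loc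

variable (q : ℕ) [Fact q.Prime]

local notation "Gq" => (PadicAlgCl q ≃ₐ[ℚ_[q]] PadicAlgCl q)

/-! ### Continuity of the character -/

theorem toLMod_nsmul544 (V : Subgroup Gq) (x : (PadicAlgCl q)ˣ) (k : ℕ) :
    k • toLMod q V x = toLMod q V (x ^ k) := rfl

theorem toLMod_injective544 (V : Subgroup Gq) : Function.Injective (toLMod q V) :=
  fun _ _ h => h

theorem isCupChar_apply544 {G A : Type*} [Group G] [AddCommGroup A] {n : ℕ} {a : A}
    {χ : G →* Multiplicative (ZMod n)} {c : G × G → A} (hc : IsCupChar a χ c) (g h : G) :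
    c (g, h) = carry χ g h • a := hc g h

/-- A power of a non-unit is `1` only for the exponent `0`. -/
theorem pow_eq_one_imp544 (π : (PadicAlgCl q)ˣ) (hπ : ‖(π : PadicAlgCl q)‖ < 1) (k : ℕ)
    (hk : π ^ k = 1) : k = 0 := by
  by_contra h0
  have h1 : ‖((π ^ k : (PadicAlgCl q)ˣ) : PadicAlgCl q)‖ < 1 := by
    rw [Units.val_pow_eq_pow_val, norm_pow]
    exact pow_lt_one₀ (norm_nonneg _) hπ h0
  rw [hk, Units.val_one, norm_one] at h1
  exact lt_irrefl _ h1

/-- **Continuity.**  If the cup cocycle of `χ` with a non-unit `π` is level-constant then `χ` is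
trivial on `V ∩ Gal(ℚ̄_q / E₁)` for some finite extension `E₁ / ℚ_q`. -/
theorem exists_level_of_cupChar544 (V : Subgroup Gq) (n : ℕ) [NeZero n]
    (χ : ↥V →* Multiplicative (ZMod n)) (π : (PadicAlgCl q)ˣ) (hπ : ‖(π : PadicAlgCl q)‖ < 1)
    (c : ↥(levelCocycles₂ (lHom q V) (lModOn q V)))
    (hc : IsCupChar (toLMod q V π) χ (c : ↥V × ↥V → lModOn q V)) :
    ∃ E₁ : IntermediateField ℚ_[q] (PadicAlgCl q), FiniteDimensional ℚ_[q] E₁ ∧
      ∀ τ : ↥V, (τ : Gq) ∈ E₁.fixingSubgroup → χ τ = 1 := by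
  obtain ⟨-, F, hF, hconst⟩ := (mem_levelCocycles₂_iff _ _ _).1 c.2
  haveI := hF
  obtain ⟨E₁, hE₁, hloc⟩ := Bridge.exists_local_level_of_global q F
  refine ⟨E₁, hE₁, fun τ hτ => ?_⟩
  have hτF : lHom q V τ ∈ F.fixingSubgroup := hloc _ hτ
  have h1F : lHom q V 1 ∈ F.fixingSubgroup := by
    rw [map_one]
    exact Subgroup.one_mem _
  have h1 := hconst 1 τ⁻¹ τ 1 hτF h1F
  rw [one_mul, mul_one, isCupChar_apply544 hc, isCupChar_apply544 hc, carry_one_left, zero_smul,
    toLMod_nsmul544] at h1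
  have h2 : π ^ carry χ τ τ⁻¹ = 1 := toLMod_injective544 q V h1
  have h3 : carry χ τ τ⁻¹ = 0 := pow_eq_one_imp544 q π hπ _ h2
  have h4 := lift_add_lift χ τ τ⁻¹
  rw [h3, mul_zero, add_zero, mul_inv_cancel, lift_map_one] at h4
  have h5 : lift χ τ = 0 := by omega
  have h6 : Multiplicative.toAdd (χ τ) = 0 := (ZMod.val_eq_zero _).1 h5
  exact h6

/-! ### The cyclotomic level -/

/-- **Unramified continuous characters are trivial on `Gal(ℚ̄_q / K_V(μ_r))`** for some `r` prime
to `q`. -/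
theorem exists_cyclotomic_level544 (hO : OpenSpec) (V : Subgroup Gq) (hV : IsOpenL q V) (n : ℕ)
    (χ : ↥V →* Multiplicative (ZMod n))
    (hχ : ∀ τ : ↥V, IsInertial q (τ : Gq) → χ τ = 1)
    (hcont : ∃ E₁ : IntermediateField ℚ_[q] (PadicAlgCl q), FiniteDimensional ℚ_[q] E₁ ∧
      ∀ τ : ↥V, (τ : Gq) ∈ E₁.fixingSubgroup → χ τ = 1) :
    ∃ r : ℕ, 0 < r ∧ ¬ q ∣ r ∧
      ∀ τ : ↥V, (∀ ζ : PadicAlgCl q, ζ ^ r = 1 → (τ : Gq) ζ = ζ) → χ τ = 1 := by
  classical
  obtain ⟨E₁, hE₁, hE₁χ⟩ := hcont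
  obtain ⟨E₀, hE₀, hE₀V⟩ := id hV
  obtain ⟨hKfin, hKfix⟩ := hO q V hV
  set H : Subgroup Gq := χ.ker.map V.subtype with hH
  have hHmem : ∀ τ : Gq, τ ∈ H ↔ ∃ h : τ ∈ V, χ ⟨τ, h⟩ = 1 := by
    intro τ
    rw [hH, Subgroup.mem_map]
    constructor
    · rintro ⟨x, hx, rfl⟩
      exact ⟨x.2, MonoidHom.mem_ker.1 hx⟩
    · rintro ⟨h, hh⟩
      exact ⟨⟨τ, h⟩, MonoidHom.mem_ker.2 hh, rfl⟩
  have hHopen : IsOpenL q H := by
    haveI := hE₁
    haveI := hE₀
    refine ⟨E₁ ⊔ E₀, inferInstance, fun τ hτ => ?_⟩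
    have h0 : τ ∈ V := hE₀V (IntermediateField.fixingSubgroup_antitone le_sup_right hτ)
    have h1 := hE₁χ ⟨τ, h0⟩ (IntermediateField.fixingSubgroup_antitone le_sup_left hτ)
    exact (hHmem τ).2 ⟨h0, h1⟩
  obtain ⟨hMfin, hMfix⟩ := hO q H hHopen
  -- the fixed field of `H` is contained in `W = K_V(μ')`
  set μ' : Set (PadicAlgCl q) := {ζ | ∃ r : ℕ, ¬ q ∣ r ∧ ζ ^ r = 1} with hμ'
  set W : IntermediateField ℚ_[q] (PadicAlgCl q) :=
    IntermediateField.adjoin ℚ_[q] ((fixedFld q V : Set (PadicAlgCl q)) ∪ μ') with hW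
  have hWH : W.fixingSubgroup ≤ H := by
    intro τ hτ
    rw [IntermediateField.mem_fixingSubgroup_iff] at hτ
    have hτV : τ ∈ V := by
      rw [← hKfix, IntermediateField.mem_fixingSubgroup_iff]
      intro x hx
      exact hτ x (IntermediateField.subset_adjoin _ _ (Or.inl hx))
    have hin : IsInertial q τ := isInertial_of_fixes_roots544 q τ fun r ζ hr hζ =>
      hτ ζ (IntermediateField.subset_adjoin _ _ (Or.inr ⟨r, hr, hζ⟩))
    exact (hHmem τ).2 ⟨hτV, hχ ⟨τ, hτV⟩ hin⟩
  have hMW : fixedFld q H ≤ W := by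
    have h1 : IntermediateField.fixedField H ≤ IntermediateField.fixedField W.fixingSubgroup :=
      IntermediateField.fixedField_le hWH
    rwa [InfiniteGalois.fixedField_fixingSubgroup] at h1
  -- a primitive element of the fixed field of `H`
  haveI := hMfin
  obtain ⟨α, hα⟩ := Field.exists_primitive_element ℚ_[q] (fixedFld q H)
  have hαW : (α : PadicAlgCl q) ∈ W := hMW α.2
  obtain ⟨T, hTsub, hαT⟩ := IntermediateField.exists_finset_of_mem_adjoin hαW
  -- orders
  have hord : ∀ t : PadicAlgCl q, ∃ r : ℕ, 0 < r ∧ ¬ q ∣ r ∧ (t ∈ μ' → t ^ r = 1) := by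
    intro t
    by_cases ht : t ∈ μ'
    · obtain ⟨r, hr, hζ⟩ := ht
      refine ⟨r, ?_, hr, fun _ => hζ⟩
      rcases Nat.eq_zero_or_pos r with h0 | h0
      · exact absurd (h0 ▸ dvd_zero q) hr
      · exact h0
    · refine ⟨1, one_pos, fun h => ?_, fun h => absurd h ht⟩
      exact (Fact.out : q.Prime).one_lt.ne' (Nat.dvd_one.1 h)
  choose ord hord0 hordq hordpow using hord
  refine ⟨∏ t ∈ T, ord t, Finset.prod_pos fun t _ => hord0 t, ?_, ?_⟩
  · intro hdiv
    obtain ⟨t, -, ht⟩ := (Prime.dvd_finsetProd_iff (Nat.Prime.prime Fact.out) _).1 hdiv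
    exact hordq t ht
  · intro τ hτ
    have hfixT : ∀ t ∈ T, (τ : Gq) t = t := by
      intro t ht
      rcases hTsub ht with hK | hμ
      · exact (IntermediateField.mem_fixedField_iff _ _).1 hK τ τ.2
      · apply hτ
        obtain ⟨k, hk⟩ := Finset.dvd_prod_of_mem ord ht
        rw [hk, pow_mul, hordpow t hμ, one_pow]
    have hτα : (τ : Gq) (α : PadicAlgCl q) = α := by
      have hle : IntermediateField.adjoin ℚ_[q] (T : Set (PadicAlgCl q)) ≤
          IntermediateField.fixedField (Subgroup.zpowers (τ : Gq)) := by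
        rw [IntermediateField.adjoin_le_iff]
        intro t ht
        rintro ⟨σ, hσ⟩
        obtain ⟨m, rfl⟩ := Subgroup.mem_zpowers_iff.1 hσ
        have hfix : (τ : Gq) ∈ MulAction.stabilizer Gq t := hfixT t ht
        exact (Subgroup.zpow_mem _ hfix m : _)
      exact hle hαT ⟨τ, Subgroup.mem_zpowers _⟩
    have hτM : (τ : Gq) ∈ (fixedFld q H).fixingSubgroup := by
      rw [IntermediateField.mem_fixingSubgroup_iff]
      intro y hy
      have hy' : (⟨y, hy⟩ : fixedFld q H) ∈ IntermediateField.adjoin ℚ_[q] {α} := by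
        rw [hα]; trivial
      have hle : IntermediateField.adjoin ℚ_[q] {(α : PadicAlgCl q)} ≤
          IntermediateField.fixedField (Subgroup.zpowers (τ : Gq)) := by
        rw [IntermediateField.adjoin_le_iff]
        rintro z hz
        rw [Set.mem_singleton_iff] at hz
        subst hz
        rintro ⟨σ, hσ⟩
        obtain ⟨m, rfl⟩ := Subgroup.mem_zpowers_iff.1 hσ
        have hfix : (τ : Gq) ∈ MulAction.stabilizer Gq (α : PadicAlgCl q) := hτα
        exact (Subgroup.zpow_mem _ hfix m : _)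
      have hyα : y ∈ IntermediateField.adjoin ℚ_[q] {(α : PadicAlgCl q)} := by
        have h1 : IntermediateField.lift (IntermediateField.adjoin ℚ_[q] {α}) =
            IntermediateField.adjoin ℚ_[q] {(α : PadicAlgCl q)} := by
          rw [IntermediateField.lift_adjoin, Set.image_singleton]
        rw [← h1]
        exact (IntermediateField.mem_lift (⟨y, hy⟩ : fixedFld q H)).2 hy'
      exact hle hyα ⟨τ, Subgroup.mem_zpowers _⟩
    rw [hMfix] at hτM
    obtain ⟨h, hh⟩ := (hHmem _).1 hτM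
    exact hh

/-! ### The level `K_V(μ_r)` -/

/-- The polynomial `X ^ r - 1` over `K_V`. -/
def cycPoly544 (V : Subgroup Gq) (r : ℕ) : Polynomial (fixedFld q V) := Polynomial.X ^ r - 1

/-- The level `K_V(μ_r)`. -/
def cycLevel544 (V : Subgroup Gq) (r : ℕ) : IntermediateField (fixedFld q V) (PadicAlgCl q) :=
  IntermediateField.adjoin (fixedFld q V) ((cycPoly544 q V r).rootSet (PadicAlgCl q))

theorem cycPoly_ne_zero544 (V : Subgroup Gq) {r : ℕ} (hr : 0 < r) : cycPoly544 q V r ≠ 0 :=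
  (Polynomial.monic_X_pow_sub_C (1 : fixedFld q V) hr.ne').ne_zero

theorem mem_rootSet_cycPoly544 (V : Subgroup Gq) {r : ℕ} (hr : 0 < r) (ζ : PadicAlgCl q) :
    ζ ∈ (cycPoly544 q V r).rootSet (PadicAlgCl q) ↔ ζ ^ r = 1 := by
  rw [Polynomial.mem_rootSet_of_ne (cycPoly_ne_zero544 q V hr), cycPoly544]
  simp [sub_eq_zero]

theorem isSplittingField_cycLevel544 (V : Subgroup Gq) (r : ℕ) :
    Polynomial.IsSplittingField (fixedFld q V) (cycLevel544 q V r) (cycPoly544 q V r) :=
  IntermediateField.adjoin_rootSet_isSplittingField (IsAlgClosed.splits _)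

theorem normal_cycLevel544 (V : Subgroup Gq) (r : ℕ) :
    Normal (fixedFld q V) (cycLevel544 q V r) :=
  haveI := isSplittingField_cycLevel544 q V r
  Normal.of_isSplittingField (cycPoly544 q V r)

theorem finiteDimensional_cycLevel544 (V : Subgroup Gq) (r : ℕ) :
    FiniteDimensional (fixedFld q V) (cycLevel544 q V r) :=
  haveI := isSplittingField_cycLevel544 q V r
  Polynomial.IsSplittingField.finiteDimensional _ (cycPoly544 q V r)

theorem isGalois_cycLevel544 (V : Subgroup Gq) (r : ℕ) :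
    IsGalois (fixedFld q V) (cycLevel544 q V r) :=
  haveI := normal_cycLevel544 q V r
  ⟨⟩

/-- An automorphism of `K_V(μ_r)` fixing `μ_r` is trivial. -/
theorem eq_one_of_fixes_roots544 (V : Subgroup Gq) {r : ℕ} (hr : 0 < r)
    (σ : cycLevel544 q V r ≃ₐ[fixedFld q V] cycLevel544 q V r)
    (hσ : ∀ x : cycLevel544 q V r, (x : PadicAlgCl q) ^ r = 1 → σ x = x) : σ = 1 := by
  apply AlgEquiv.ext
  rintro ⟨x, hx⟩
  rw [AlgEquiv.one_apply]
  induction hx using IntermediateField.adjoin_induction with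
  | mem y hy =>
    exact hσ _ ((mem_rootSet_cycPoly544 q V hr y).1 hy)
  | algebraMap y =>
    exact σ.commutes y
  | add y z hy hz ihy ihz =>
    have : (⟨y + z, add_mem hy hz⟩ : cycLevel544 q V r) = ⟨y, hy⟩ + ⟨z, hz⟩ := rfl
    rw [this, map_add, ihy, ihz]
  | inv y hy ihy =>
    have : (⟨y⁻¹, inv_mem hy⟩ : cycLevel544 q V r) = (⟨y, hy⟩ : cycLevel544 q V r)⁻¹ := rfl
    rw [this, map_inv₀, ihy]
  | mul y z hy hz ihy ihz =>
    have : (⟨y * z, mul_mem hy hz⟩ : cycLevel544 q V r) = ⟨y, hy⟩ * ⟨z, hz⟩ := rfl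
    rw [this, map_mul, ihy, ihz]

/-! ### Restriction to a finite level -/

/-- Restriction `V → Gal(E / K_V)` is surjective, if `V = Gal(ℚ̄_q / K_V)`. -/
theorem resHom_surjective544 (V : Subgroup Gq) (hfix : (fixedFld q V).fixingSubgroup = V)
    (E : IntermediateField (fixedFld q V) (PadicAlgCl q)) [Normal (fixedFld q V) E] :
    Function.Surjective (resHom q V E) := by
  intro σ
  obtain ⟨τ, hτ⟩ := AlgEquiv.restrictNormalHom_surjective (PadicAlgCl q) σ
  have hmem' : (τ.restrictScalars ℚ_[q] : Gq) ∈ (fixedFld q V).fixingSubgroup := by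
    rw [IntermediateField.mem_fixingSubgroup_iff]
    intro x hx
    exact τ.commutes ⟨x, hx⟩
  have hmem : (τ.restrictScalars ℚ_[q] : Gq) ∈ V := hfix.le hmem'
  refine ⟨⟨τ.restrictScalars ℚ_[q], hmem⟩, ?_⟩
  have h1 : toAbsGal q V ⟨τ.restrictScalars ℚ_[q], hmem⟩ = τ := by
    apply AlgEquiv.ext
    intro x
    rw [toAbsGal_apply]
    rfl
  rw [← hτ, resHom, MonoidHom.comp_apply, h1]

/-- Elements of `Gal(E / K_V)` are isometries. -/
theorem norm_resHom544 (V : Subgroup Gq)
    (E : IntermediateField (fixedFld q V) (PadicAlgCl q)) [Normal (fixedFld q V) E]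
    (g : ↥V) (x : E) : ‖((resHom q V E g x : E) : PadicAlgCl q)‖ = ‖(x : PadicAlgCl q)‖ := by
  rw [resHom_apply_coe, norm_galois544]

theorem norm_algEquiv544 (V : Subgroup Gq) (hfix : (fixedFld q V).fixingSubgroup = V)
    (E : IntermediateField (fixedFld q V) (PadicAlgCl q)) [Normal (fixedFld q V) E]
    (σ : E ≃ₐ[fixedFld q V] E) (x : E) : ‖((σ x : E) : PadicAlgCl q)‖ = ‖(x : PadicAlgCl q)‖ := by
  obtain ⟨g, rfl⟩ := resHom_surjective544 q V hfix E σ
  exact norm_resHom544 q V E g x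

/-- The kernel of restriction to `K_V(μ_r)` fixes `μ_r`. -/
theorem fixes_of_resHom_eq_one544 (V : Subgroup Gq) {r : ℕ} (hr : 0 < r) (g : ↥V)
    (hg : haveI := normal_cycLevel544 q V r; resHom q V (cycLevel544 q V r) g = 1)
    (ζ : PadicAlgCl q) (hζ : ζ ^ r = 1) : (g : Gq) ζ = ζ := by
  haveI := normal_cycLevel544 q V r
  have hmem : ζ ∈ cycLevel544 q V r :=
    IntermediateField.subset_adjoin _ _ ((mem_rootSet_cycPoly544 q V hr ζ).2 hζ)
  have h1 := resHom_apply_coe q V (cycLevel544 q V r) g ⟨ζ, hmem⟩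
  rw [hg, AlgEquiv.one_apply] at h1
  exact h1.symm

/-- The character induced on a finite level through which it factors. -/
def descChar544 (V : Subgroup Gq) (E : IntermediateField (fixedFld q V) (PadicAlgCl q))
    [Normal (fixedFld q V) E] {n : ℕ} (χ : ↥V →* Multiplicative (ZMod n))
    (hsurj : Function.Surjective (resHom q V E))
    (hker : (resHom q V E).ker ≤ χ.ker) :
    (E ≃ₐ[fixedFld q V] E) →* Multiplicative (ZMod n) :=
  (resHom q V E).liftOfSurjective hsurj ⟨χ, hker⟩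

theorem descChar_resHom544 (V : Subgroup Gq)
    (E : IntermediateField (fixedFld q V) (PadicAlgCl q))
    [Normal (fixedFld q V) E] {n : ℕ} (χ : ↥V →* Multiplicative (ZMod n))
    (hsurj : Function.Surjective (resHom q V E))
    (hker : (resHom q V E).ker ≤ χ.ker) (g : ↥V) :
    descChar544 q V E χ hsurj hker (resHom q V E g) = χ g :=
  MonoidHom.liftOfRightInverse_comp_apply _ _ _ ⟨χ, hker⟩ g

end Fermat.Agent.S55.G.Rec.Loc.H544

end
end
-- ===== PACK-END S55/G/Rec/Loc/UnifH544/Galois.lean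

-- ===== PACK-BEGIN S55/L/Unram784/CyclicUnique.lean
section


/-!
# S55, layer L, leaf L-A2 (helper784): `UnramifiedCyclicSpec` and `UnramifiedUniqueSpec`
-/

set_option autoImplicit false
set_option linter.unusedSectionVars false

namespace Fermat.Agent.S55.L

open IsLocalRing Polynomial

/-- **L-A2b**: an unramified extension of local fields is Galois and cyclic, generated by a
Frobenius element. -/
theorem u784_unramifiedCyclic : UnramifiedCyclicSpec := by
  intro K L _ _ _ _ hK hun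
  obtain ⟨A, B, π, hA, hB, hπA, hπB⟩ := hun
  have := hK.charZero
  obtain ⟨-, hgal, -, -, φ, hφ1, hφ2⟩ := u784_master hA hB π hπA hπB
  exact ⟨hgal, φ, ⟨A, B, hA, hB, hφ1⟩, hφ2⟩

/-- **L-A2c**: inside a finite extension, two unramified subextensions of the same degree
coincide. -/
theorem u784_unramifiedUnique : UnramifiedUniqueSpec := by
  intro K M _ _ _ _ hK E E' hE hE' hdeg
  obtain ⟨A, B, π, hA, hB, hπA, hπB⟩ := hE
  obtain ⟨A', B', π', hA', hB', hπA', hπB'⟩ := hE'
  have hAA : A' = A := u784_ringOfIntegersUnique K A' A hA' hA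
  subst hAA
  have := hK.charZero
  obtain ⟨hdvrA, hcA, hfA⟩ := id hA
  obtain ⟨-, -, ⟨g, hg, hirr, hgdeg⟩, hsplit, -⟩ := u784_master (L := E) hA hB π hπA hπB
  obtain ⟨-, -, -, hsplit', -⟩ := u784_master (L := E') hA hB' π' hπA' hπB'
  have hs := hsplit g hg hirr hgdeg
  have hs' := hsplit' g hg hirr (hgdeg.trans hdeg)
  have hirrK : Irreducible (g.map (algebraMap ↥A' K)) :=
    u784_irreducible_map_fraction g hg hirr
  have hmonK : (g.map (algebraMap ↥A' K)).Monic := hg.map _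
  -- a root in `E'`
  have hdeg0 : ((g.map (algebraMap ↥A' K)).map (algebraMap K E')).degree ≠ 0 := by
    rw [Polynomial.degree_map]
    exact (Polynomial.degree_pos_of_irreducible hirrK).ne'
  obtain ⟨β', hβ'⟩ := hs'.exists_eval_eq_zero hdeg0
  rw [Polynomial.eval_map, ← Polynomial.aeval_def] at hβ'
  have hβM : aeval (β' : M) (g.map (algebraMap ↥A' K)) = 0 := by
    have := congrArg (E'.val) hβ'
    rwa [← Polynomial.aeval_algHom_apply, map_zero] at this
  -- the root lies in `E`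
  have hmemE : (β' : M) ∈ E := by
    have h1 : (β' : M) ∈ (g.map (algebraMap ↥A' K)).rootSet M :=
      Polynomial.mem_rootSet.mpr ⟨hmonK.ne_zero, hβM⟩
    rw [← hs.image_rootSet E.val] at h1
    obtain ⟨e, -, he⟩ := h1
    rw [← he]
    exact e.2
  have hmin : minpoly K (β' : M) = g.map (algebraMap ↥A' K) :=
    (minpoly.eq_of_irreducible_of_monic hirrK hβM hmonK).symm
  have hint : IsIntegral K (β' : M) := Algebra.IsIntegral.isIntegral _
  have hfr : Module.finrank K (IntermediateField.adjoin K {(β' : M)}) = Module.finrank K E := by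
    rw [IntermediateField.adjoin.finrank hint, hmin, hg.natDegree_map, hgdeg]
  have h1 : IntermediateField.adjoin K {(β' : M)} = E :=
    IntermediateField.eq_of_le_of_finrank_eq
      (IntermediateField.adjoin_simple_le_iff.mpr hmemE) hfr
  have h2 : IntermediateField.adjoin K {(β' : M)} = E' :=
    IntermediateField.eq_of_le_of_finrank_eq
      (IntermediateField.adjoin_simple_le_iff.mpr β'.2) (hfr.trans hdeg)
  rw [← h1, h2]

end Fermat.Agent.S55.L

end
-- ===== PACK-END S55/L/Unram784/CyclicUnique.lean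

-- ===== PACK-BEGIN S55/L/Inv481/Emb.lean
section


/-!
# S55 / layer L / leaf L-C2 (helper481): pairs attached to embeddings

For a `K`-algebra homomorphism `j : A →ₐ[K] B` of fields with `A/K` normal we get the pair
`embPair j : (K, A) → (K, B)` (restriction of automorphisms along `j`).  Its pull-back on `H²`
is the inflation along `j`; it is injective when `B/K` is finite Galois.
-/

set_option autoImplicit false
set_option linter.style.haveILetI false

namespace Fermat.Agent.S55.L.Inv481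

open groupCohomology

section PullLemmas

variable {K L K' L' K'' L'' : Type} [Field K] [Field L] [Algebra K L] [Field K'] [Field L']
  [Algebra K' L'] [Field K''] [Field L''] [Algebra K'' L'']

theorem GalPair.pull_eq_of_ι_eq {P Q : GalPair K L K' L'} (h : P.ι = Q.ι)
    (x : H2 (unitsRep K L)) : P.pull x = Q.pull x := by
  rw [GalPair.pull_congr h]

/-- a composite of pull-backs is the pull-back along any pair with the composite ring
homomorphism -/
theorem GalPair.pull_pull (P : GalPair K L K' L') (Q : GalPair K' L' K'' L'')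
    (R : GalPair K L K'' L'') (h : R.ι = Q.ι.comp P.ι) (x : H2 (unitsRep K L)) :
    Q.pull (P.pull x) = R.pull x := by
  rw [← GalPair.pull_comp]
  exact GalPair.pull_eq_of_ι_eq h.symm x

end PullLemmas

section Emb

variable {K A B C : Type} [Field K] [Field A] [Field B] [Field C] [Algebra K A] [Algebra K B]
  [Algebra K C]

/-- The pair `(K, A) → (K, B)` of an embedding `j : A →ₐ[K] B`, `A/K` normal. -/
noncomputable def embPair [Normal K A] (j : A →ₐ[K] B) : GalPair K A K B :=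
  letI : Algebra A B := j.toRingHom.toAlgebra
  haveI : IsScalarTower K A B := IsScalarTower.of_algebraMap_eq (fun x => (j.commutes x).symm)
  inflPair K A B

@[simp] theorem embPair_ι [Normal K A] (j : A →ₐ[K] B) : (embPair j).ι = (j : A →+* B) := rfl

theorem embPair_comp [Normal K A] [Normal K B] (j : A →ₐ[K] B) (k : B →ₐ[K] C) :
    embPair (k.comp j) = (embPair j).comp (embPair k) :=
  GalPair.ext' rfl

theorem embPair_pull_comp [Normal K A] [Normal K B] (j : A →ₐ[K] B) (k : B →ₐ[K] C)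
    (x : H2 (unitsRep K A)) :
    (embPair (k.comp j)).pull x = (embPair k).pull ((embPair j).pull x) := by
  rw [embPair_comp, GalPair.pull_comp]

theorem embPair_pull_injective [Normal K A] [FiniteDimensional K B] [IsGalois K B]
    (j : A →ₐ[K] B) : Function.Injective (embPair j).pull := by
  letI : Algebra A B := j.toRingHom.toAlgebra
  haveI : IsScalarTower K A B := IsScalarTower.of_algebraMap_eq (fun x => (j.commutes x).symm)
  exact inflPair_pull_injective K A B

theorem inflPair_eq_embPair [Algebra A B] [IsScalarTower K A B] [Normal K A] :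
    inflPair K A B = embPair (IsScalarTower.toAlgHom K A B) :=
  GalPair.ext' rfl

theorem embPair_id_pull [Normal K A] (x : H2 (unitsRep K A)) :
    (embPair (AlgHom.id K A)).pull x = x :=
  GalPair.pull_eq_self_of_ι_eq_id _ rfl x

end Emb

section BaseIso

variable {K K' M : Type} [Field K] [Field K'] [Field M] [Algebra K M] [Algebra K' M]

/-- Change of the base field along an isomorphism `K ≃ K'` compatible with the algebra maps:
the Galois groups are the same. -/
noncomputable def autCongrBase (e₀ : K ≃+* K')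
    (h : ∀ a, algebraMap K' M (e₀ a) = algebraMap K M a) : (M ≃ₐ[K] M) ≃* (M ≃ₐ[K'] M) where
  toFun g :=
    { g.toRingEquiv with
      commutes' := fun a' => by
        obtain ⟨a, rfl⟩ := e₀.surjective a'
        rw [h]
        exact g.commutes a }
  invFun g :=
    { g.toRingEquiv with
      commutes' := fun a => by
        rw [← h]
        exact g.commutes (e₀ a) }
  left_inv g := by ext x; rfl
  right_inv g := by ext x; rfl
  map_mul' g g' := by ext x; rfl

@[simp] theorem autCongrBase_apply (e₀ : K ≃+* K')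
    (h : ∀ a, algebraMap K' M (e₀ a) = algebraMap K M a) (g : M ≃ₐ[K] M) (x : M) :
    autCongrBase e₀ h g x = g x := rfl

/-- The pair `(K, M) → (K', M)` of a change of base field along an isomorphism. -/
noncomputable def basePair (e₀ : K ≃+* K')
    (h : ∀ a, algebraMap K' M (e₀ a) = algebraMap K M a) : GalPair K M K' M :=
  transPair (RingEquiv.refl M) (autCongrBase e₀ h) (fun _ _ => rfl)

@[simp] theorem basePair_ι (e₀ : K ≃+* K')
    (h : ∀ a, algebraMap K' M (e₀ a) = algebraMap K M a) :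
    (basePair e₀ h).ι = RingHom.id M := rfl

end BaseIso

end Fermat.Agent.S55.L.Inv481

end
-- ===== PACK-END S55/L/Inv481/Emb.lean

-- ===== PACK-BEGIN S55/E1/H603/FinLevelLoc.lean
section
/-
S55 / engine E1 / block LIM, B-part of LIM5 (helper603): local vanishing at finite level.

For a level `F` (`L : Tow.Level S`), a class `x ∈ H²(Gal(F/ℚ), A)` and `q`:
the localisation at `q` of the inflation of `x` vanishes in the Prelude group
`continuousH2 (locQ q) _` iff the inflation of `x` to `Gal(F'_q/ℚ_q) = G_{ℚ_q} ⧸ V_q(F')`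
vanishes for some finite normal `F' ⊇ F` (NO ramification condition on `F'`).

* `NLevel` : finite normal subfields of `ℚ̄`;  `NLevel.V`, `NLevel.Dec`, `decToGal`, `locInfl₂`;
* `locRes₂S_infl₂_eq_zero_iff`, `infl₂_mem_sha₂_iff`.
-/



set_option autoImplicit false

namespace Fermat.Agent.S55.E1.H603

open groupCohomology CategoryTheory ExtCitation Fermat.Agent.S55.Tow

noncomputable section

/-- A finite normal subextension of `ℚ̄/ℚ` (normality recorded on the fixing subgroup). -/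
structure NLevel where
  /-- the field -/
  F : IntermediateField ℚ Qbar
  fin : FiniteDimensional ℚ F
  normalU : (F.fixingSubgroup).Normal

/-- Every finite subextension lies in a finite normal one. -/
theorem exists_nLevel_ge (F : IntermediateField ℚ Qbar) (hF : FiniteDimensional ℚ F) :
    ∃ N : NLevel, F ≤ N.F := by
  have hQ : IsGalois ℚ Qbar := Fermat.Agent.S55.Bridge.isGalois_Qbar
  have hnorm : Normal ℚ (IntermediateField.normalClosure ℚ F Qbar) := normalClosure.normal ℚ F Qbar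
  have hfin : FiniteDimensional ℚ (IntermediateField.normalClosure ℚ F Qbar) :=
    normalClosure.is_finiteDimensional ℚ F Qbar
  have hgal : IsGalois ℚ (IntermediateField.normalClosure ℚ F Qbar) := ⟨⟩
  refine ⟨⟨IntermediateField.normalClosure ℚ F Qbar, hfin, ?_⟩, F.le_normalClosure⟩
  exact (InfiniteGalois.normal_iff_isGalois _).2 hgal

variable {S : Finset Nat.Primes}

/-- A level is in particular a finite normal field. -/
def nLevelOf (L : Level S) : NLevel := ⟨L.F, L.unram.1, L.normalU⟩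

/-- `V_q(F') = Gal(ℚ̄_q / F'_q)`, the preimage of `G_{F'}` in the local Galois group. -/
def NLevel.V (N : NLevel) (q : Nat.Primes) : Subgroup (GQp q) := N.F.fixingSubgroup.comap (locQ q)

instance NLevel.normalV (N : NLevel) (q : Nat.Primes) : (N.V q).Normal := by
  have := N.normalU
  unfold NLevel.V
  infer_instance

/-- `Gal(F'_q/ℚ_q)` as a quotient of the local Galois group. -/
abbrev NLevel.Dec (N : NLevel) (q : Nat.Primes) : Type := GQp q ⧸ N.V q

theorem nLevelOf_V (L : Level S) (q : Nat.Primes) : (nLevelOf L).V q = L.V q := rfl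

/-- `Gal(F'_q/ℚ_q) → Gal(F/ℚ)` for `F ≤ F'`. -/
def decToGal (L : Level S) (N : NLevel) (h : L.F ≤ N.F) (q : Nat.Primes) : N.Dec q →* L.Gal :=
  QuotientGroup.map (N.V q) L.U (locQ q)
    (fun _ hs => IntermediateField.fixingSubgroup_antitone h hs)

@[simp] theorem decToGal_mk (L : Level S) (N : NLevel) (h : L.F ≤ N.F) (q : Nat.Primes)
    (g : GQp q) : decToGal L N h q (QuotientGroup.mk g) = QuotientGroup.mk (locQ q g) := rfl

/-- Every finite normal field is a level for a suitable finite set of primes containing `S`. -/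
theorem exists_level_of_nLevel (S : Finset Nat.Primes) (N : NLevel) :
    ∃ S' : Finset Nat.Primes, S ⊆ S' ∧ ∃ L' : Level S', L'.F = N.F := by
  obtain ⟨S', hS, hur⟩ := exists_isUnramifiedOutside_ge S N.F N.fin
  exact ⟨S', hS, ⟨N.F, hur, N.normalU⟩, rfl⟩

variable {K : Type} [Field K] (A : Rep.{0, 0, 0} K GQ)

/-- inflation-restriction `H²(Gal(F/ℚ), A^{U_F}) → H²(Gal(F'_q/ℚ_q), A^{U_F})`. -/
def locInfl₂ (L : Level S) (N : NLevel) (h : L.F ≤ N.F) (q : Nat.Primes) :
    H2 (coeff A L) →ₗ[K] H2 (Rep.res (decToGal L N h q) (coeff A L)) :=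
  (groupCohomology.map (decToGal L N h q) (𝟙 (Rep.res (decToGal L N h q) (coeff A L))) 2).hom

/-- the same on cocycles -/
def locInflCoc₂ (L : Level S) (N : NLevel) (h : L.F ≤ N.F) (q : Nat.Primes) :
    cocycles₂ (coeff A L) →ₗ[K] cocycles₂ (Rep.res (decToGal L N h q) (coeff A L)) :=
  (mapCocycles₂ (decToGal L N h q) (𝟙 (Rep.res (decToGal L N h q) (coeff A L)))).hom

@[simp] theorem locInflCoc₂_apply (L : Level S) (N : NLevel) (h : L.F ≤ N.F) (q : Nat.Primes)
    (c : cocycles₂ (coeff A L)) (g g' : N.Dec q) :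
    locInflCoc₂ A L N h q c (g, g') = c (decToGal L N h q g, decToGal L N h q g') := rfl

theorem locInfl₂_mk (L : Level S) (N : NLevel) (h : L.F ≤ N.F) (q : Nat.Primes)
    (c : cocycles₂ (coeff A L)) :
    locInfl₂ A L N h q ((H2π (coeff A L)).hom c) =
      (H2π (Rep.res (decToGal L N h q) (coeff A L))).hom (locInflCoc₂ A L N h q c) := by
  have hcomp := congrArg (fun φ => φ.hom c)
    (H2π_comp_map (A := coeff A L) (B := Rep.res (decToGal L N h q) (coeff A L))
      (decToGal L N h q) (𝟙 (Rep.res (decToGal L N h q) (coeff A L))))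
  simp only [ModuleCat.hom_comp, LinearMap.comp_apply] at hcomp
  exact hcomp

theorem mk_mul_of_mem_V (N : NLevel) (q : Nat.Primes) (g s : GQp q) (hs : s ∈ N.V q) :
    (QuotientGroup.mk (g * s) : N.Dec q) = QuotientGroup.mk g := by
  rw [QuotientGroup.eq]
  simpa using (N.V q).inv_mem hs

/-- **Local vanishing at finite level.** -/
theorem locRes₂S_infl₂_eq_zero_iff (L : Level S) (hA : ∀ s ∈ L.U, ∀ a : A, A.ρ s a = a)
    (q : Nat.Primes) (x : H2 (coeff A L)) :
    locRes₂S S A (locQ q) (infl₂ A L x) = 0 ↔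
      ∃ N : NLevel, ∃ h : L.F ≤ N.F, locInfl₂ A L N h q x = 0 := by
  induction x using H2_induction_on with | @h c =>
  rw [infl₂_mk, Fermat.Agent.S55.Bridge.locRes₂S_mk_eq_zero_iff]
  constructor
  · rintro ⟨y, ⟨F₁, hF₁, hy⟩, hd⟩
    have hfin : FiniteDimensional ℚ ↥(F₁ ⊔ L.F) := by
      have := L.unram.1
      exact IntermediateField.finiteDimensional_sup F₁ L.F
    obtain ⟨N, hN⟩ := exists_nLevel_ge (F₁ ⊔ L.F) hfin
    have hle : L.F ≤ N.F := le_trans le_sup_right hN
    have hle₁ : F₁ ≤ N.F := le_trans le_sup_left hN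
    refine ⟨N, hle, ?_⟩
    rw [locInfl₂_mk, H2π_eq_zero_iff]
    have hwd : ∀ g g' : GQp q, (QuotientGroup.leftRel (N.V q)) g g' →
        toCoeff A L hA (y g) = toCoeff A L hA (y g') := by
      intro g g' hgg
      apply Subtype.ext
      have hs : g⁻¹ * g' ∈ N.V q := QuotientGroup.leftRel_apply.1 hgg
      have := hy g (g⁻¹ * g') (IntermediateField.fixingSubgroup_antitone hle₁ hs)
      rw [mul_inv_cancel_left] at this
      exact this.symm
    refine ⟨fun g => Quotient.liftOn' g (fun g => toCoeff A L hA (y g)) hwd, ?_⟩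
    funext ⟨g, g'⟩
    induction g using QuotientGroup.induction_on with | @H g =>
    induction g' using QuotientGroup.induction_on with | @H g' =>
    apply Subtype.ext
    rw [d₁₂_hom_apply]
    exact hd g g'
  · rintro ⟨N, hle, hx⟩
    rw [locInfl₂_mk, H2π_eq_zero_iff] at hx
    obtain ⟨ybar, hybar⟩ := hx
    refine ⟨fun g => ((ybar (QuotientGroup.mk g) : coeff A L) : A), ⟨N.F, N.fin, ?_⟩, ?_⟩
    · intro g s hs
      have hs' : s ∈ N.V q := hs
      show ((ybar (QuotientGroup.mk (g * s)) : coeff A L) : A) = _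
      rw [mk_mul_of_mem_V N q g s hs']
    · intro g g'
      have := congrFun hybar (QuotientGroup.mk g, QuotientGroup.mk g')
      rw [d₁₂_hom_apply] at this
      have h2 := congrArg (fun z : coeff A L => (z : A)) this
      exact h2

/-- **Finite-level description of `sha₂`.** -/
theorem infl₂_mem_sha₂_iff (h2 : (2 : K) ≠ 0) (L : Level S)
    (hA : ∀ s ∈ L.U, ∀ a : A, A.ρ s a = a) (x : H2 (coeff A L)) :
    infl₂ A L x ∈ sha₂ S A ↔
      ∀ q : S, ∃ N : NLevel, ∃ h : L.F ≤ N.F, locInfl₂ A L N h q.1 x = 0 := by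
  rw [Fermat.Agent.S55.Bridge.mem_sha₂_iff S h2]
  exact forall_congr' fun q => locRes₂S_infl₂_eq_zero_iff A L hA q.1 x

end

end Fermat.Agent.S55.E1.H603

end
-- ===== PACK-END S55/E1/H603/FinLevelLoc.lean

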