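import Mathlib
import Fermat.Agent.Pack.S43GC.G0E12L3
import Fermat.Agent.Pack.S43GC.G0E10L1
import Fermat.Agent.Pack.S43GC.G0E0L2
import Fermat.Agent.Pack.S43GC.G0E8L3
import Fermat.Agent.Pack.S43GC.G0E8L1
import Fermat.Agent.Pack.S44C.G0E12L3
import Fermat.Agent.Pack.S43GC.G0E12L1
import Fermat.Agent.Pack.S43GC.G0E10L0
import Fermat.Agent.Pack.S43GC.G0E12L0
import Fermat.Agent.Pack.S43GC.G0E6L1
import Fermat.Agent.Pack.S43GC.G0E10L3
import Fermat.Agent.Pack.S43GC.G0E8L2
import Fermat.Agent.Pack.S43GC.G0E8L0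
import Fermat.Agent.Pack.S43GC.G0E10L2
import Fermat.Agent.Pack.S43GC.G0E13L3
import Fermat.Agent.Pack.S43GC.G0E0L1
import Fermat.Agent.Pack.S44C.G0E19L1
import Fermat.Agent.Pack.S43GC.G0E0L3
import Fermat.Agent.Pack.S43GC.G0E5L2
import Fermat.Agent.Pack.S43GC.G0E13L2
import Fermat.Agent.Pack.S43GC.G0E11L3
import Fermat.Agent.Pack.Fast891

-- ===== PACK-BEGIN S55/Inv/WrH413/Global.lean
section








/-!
# S55 / INV-WR (helper413), part 5: the Brauer class of a `μ_p`-valued 2-cocycle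

For a level-constant 2-cocycle `c` of `G_ℚ` with values in `μ_p = ofChar (cycloChar p)` we form
the class `gClass p S c ∈ Br(ℚ) = gBr ⊤` of `(g, h) ↦ ζ ^ c(g, h)` and compute its localisations.
-/

set_option autoImplicit false
set_option linter.style.haveILetI false
set_option linter.unusedSectionVars false

noncomputable section

namespace Fermat.Agent.S55.Inv.H413

open Fermat.Agent.S55.PT Fermat.Agent.S55.G.Rec groupCohomology ExtCitation

local notation "Qb" => AlgebraicClosure ℚ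
local notation "T" => (⊤ : Subgroup GQ)

variable (p : ℕ) [Fact p.Prime] (S : Finset Nat.Primes)

/-- `kap` as a map of the underlying modules. -/
def kapT : ↥(mu p) →+ ↥(gModOn T) := kap p

lemma kapT_equivariant (g : ↥T) (a : ↥(mu p)) :
    kapT p ((mu p).ρ ((Subgroup.subtype T) g) a) = (gModOn T).ρ g (kapT p a) := by
  apply Additive.toMul.injective
  apply Units.ext
  exact kapV_equivariant p (g : GQ) a

/-- the global `ℚ̄ˣ`-valued 2-cochain `(g, h) ↦ ζ ^ c(g, h)` -/
def gCoch (c : GQ × GQ → ↥(mu p)) : ↥T × ↥T → ↥(gModOn T) :=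
  pp₂ (mu p) (gModOn T) (Subgroup.subtype T) (kapT p) c

lemma gCoch_apply (c : GQ × GQ → ↥(mu p)) (g h : ↥T) :
    gCoch p c (g, h) = kapT p (c ((g : GQ), (h : GQ))) := rfl

lemma gCoch_mem (c : ↥((globalLevels S).Z2 (mu p))) :
    gCoch p (c : GQ × GQ → ↥(mu p)) ∈ levelCocycles₂ (Subgroup.subtype T) (gModOn T) := by
  refine ⟨pp₂_mem_cocycles₂ (mu p) (gModOn T) (Subgroup.subtype T) (kapT p) (kapT_equivariant p) c.2.1, ?_⟩
  obtain ⟨U, ⟨F, hF, rfl⟩, h⟩ := c.2.2
  refine ⟨F, hF.1, fun g g' s s' hs hs' => ?_⟩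
  rw [gCoch_apply, gCoch_apply]
  exact congrArg (kapT p) (h (g : GQ) (g' : GQ) (s : GQ) (s' : GQ) hs hs')

/-- the Brauer class of `c` -/
def gClass (c : ↥((globalLevels S).Z2 (mu p))) : gBr T :=
  continuousH2π (Subgroup.subtype T) (gModOn T) ⟨gCoch p (c : GQ × GQ → ↥(mu p)), gCoch_mem p S c⟩

lemma gClass_torsion (c : ↥((globalLevels S).Z2 (mu p))) : p ^ 1 • gClass p S c = 0 := by
  rw [pow_one]
  unfold gClass
  rw [← map_nsmul]
  have : p • (⟨gCoch p (c : GQ × GQ → ↥(mu p)), gCoch_mem p S c⟩ :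
      ↥(levelCocycles₂ (Subgroup.subtype T) (gModOn T))) = 0 := by
    apply Subtype.ext
    funext ⟨g, h⟩
    show p • kapT p ((c : GQ × GQ → ↥(mu p)) ((g : GQ), (h : GQ))) = 0
    rw [← map_nsmul]
    have h0 : p • ((c : GQ × GQ → ↥(mu p)) ((g : GQ), (h : GQ))) = 0 := by
      show p • ((c : GQ × GQ → ↥(mu p)) ((g : GQ), (h : GQ)) : ZMod p) = 0
      rw [nsmul_eq_mul, ZMod.natCast_self, zero_mul]
    rw [h0, map_zero]
  rw [this, map_zero]

lemma isOpenQ_top : IsOpenQ T := ⟨⊥, inferInstance, le_top⟩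

lemma isDoubleCosetReps_top (D : Subgroup GQ) : IsDoubleCosetReps T D {1} := by
  intro g
  refine ⟨1, ⟨Finset.mem_singleton_self 1, g, Subgroup.mem_top g, 1, one_mem D, by simp⟩,
    fun r hr => Finset.mem_singleton.1 hr.1⟩

section Local

variable (q : ℕ) [Fact q.Prime]

local notation "Ω" => PadicAlgCl q
local notation "Gq" => (PadicAlgCl q ≃ₐ[ℚ_[q]] PadicAlgCl q)

/-- the local cyclotomic character, as a function -/
def chiq (g : Gq) : ZMod p := ((cycloChar p (localGaloisToGlobal q g) : (ZMod p)ˣ) : ZMod p)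

lemma mem_locSub_top (τ : Gq) : τ ∈ locSub q 1 T := Subgroup.mem_top _

/-- `lamq` as a map into the local module -/
def lamT : ZMod p →+ ↥(lModOn q (locSub q 1 T)) := lamq p q

lemma lamT_equivariant (g : ↥(locSub q 1 T)) (a : ZMod p) :
    (lModOn q (locSub q 1 T)).ρ g (lamT p q a) = lamT p q (chiq p q (g : Gq) * a) := by
  apply Additive.toMul.injective
  apply Units.ext
  exact (lamq_equivariant p q (g : Gq) a).symm

lemma locCochain_gCoch (c : GQ × GQ → ↥(mu p)) (τ₁ τ₂ : ↥(locSub q 1 T)) :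
    locCochain₂ q 1 T (gCoch p c) (τ₁, τ₂) =
      lamT p q (c (localGaloisToGlobal q (τ₁ : Gq), localGaloisToGlobal q (τ₂ : Gq))) := by
  apply Additive.toMul.injective
  apply Units.ext
  show padicEmbedding q ((1 : GQ)⁻¹ (kapV p (c ((1 : GQ) * localGaloisToGlobal q (τ₁ : Gq) * 1⁻¹,
    (1 : GQ) * localGaloisToGlobal q (τ₂ : Gq) * 1⁻¹)))) = padicEmbedding q (kapV p
      (c (localGaloisToGlobal q (τ₁ : Gq), localGaloisToGlobal q (τ₂ : Gq))))
  rw [inv_one, one_mul, mul_one, one_mul, mul_one]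
  rfl

/-- If the restriction of `c` to `G_q` is a level-constant coboundary, the Brauer class of `c`
is trivial at `q`. -/
theorem locBr_eq_zero_of_cob (c : ↥((globalLevels S).Z2 (mu p))) (x : Gq → ZMod p)
    (hx : IsLevelConstant₁ (localGaloisToGlobal q) x)
    (hdx : ∀ g h : Gq, chiq p q g * x h - x (g * h) + x g =
      (c : GQ × GQ → ↥(mu p)) (localGaloisToGlobal q g, localGaloisToGlobal q h)) :
    locBr q 1 T (gClass p S c) = 0 := by
  unfold gClass
  rw [locBr_mk, continuousH2π_eq_zero_iff, mem_levelCoboundaries₂_iff]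
  refine ⟨fun τ => lamT p q (x (τ : Gq)), ?_, ?_⟩
  · obtain ⟨F, hF, h⟩ := hx
    refine ⟨F, hF, fun g s hs => ?_⟩
    show lamT p q (x ((g : Gq) * (s : Gq))) = lamT p q (x (g : Gq))
    rw [h (g : Gq) (s : Gq) hs]
  · funext ⟨g, h⟩
    rw [d₁₂_hom_apply, coe_locCocycles₂]
    show (lModOn q (locSub q 1 T)).ρ g (lamT p q (x (h : Gq))) - lamT p q (x ((g : Gq) * (h : Gq)))
      + lamT p q (x (g : Gq)) = locCochain₂ q 1 T (gCoch p (c : GQ × GQ → ↥(mu p))) (g, h)
    rw [locCochain_gCoch, ← hdx, map_add, map_sub, lamT_equivariant]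

/-- **Local Kummer injectivity**, applied to the Brauer class of `c`. -/
theorem exists_cob_of_locBr_eq_zero (c : ↥((globalLevels S).Z2 (mu p)))
    (h0 : locBr q 1 T (gClass p S c) = 0) :
    ∃ x : Gq → ZMod p, IsLevelConstant₁ (localGaloisToGlobal q) x ∧
      ∀ g h : Gq, chiq p q g * x h - x (g * h) + x g =
        (c : GQ × GQ → ↥(mu p)) (localGaloisToGlobal q g, localGaloisToGlobal q h) := by
  unfold gClass at h0
  rw [locBr_mk, continuousH2π_eq_zero_iff, mem_levelCoboundaries₂_iff] at h0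
  obtain ⟨bL, hbL, hd⟩ := h0
  refine local_kummer q p (lamq p q) (lamq_injective p q) (lamq_surj p q) (chiq p q)
    (lamq_equivariant p q)
    (fun y => (c : GQ × GQ → ↥(mu p)) (localGaloisToGlobal q y.1, localGaloisToGlobal q y.2))
    (fun τ => Additive.toMul (bL ⟨τ, mem_locSub_top q τ⟩)) ?_ ?_
  · obtain ⟨F, hF, h⟩ := hbL
    refine ⟨F, hF, fun g s hs => ?_⟩
    exact congrArg Additive.toMul (h ⟨g, mem_locSub_top q g⟩ ⟨s, mem_locSub_top q s⟩ hs)
  · intro g h
    have h1 := congrFun hd (⟨g, mem_locSub_top q g⟩, ⟨h, mem_locSub_top q h⟩)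
    rw [d₁₂_hom_apply, coe_locCocycles₂, locCochain_gCoch] at h1
    have h2 := congrArg (fun m : ↥(lModOn q (locSub q 1 T)) =>
      ((Additive.toMul m : Ωˣ) : Ω)) h1
    exact h2

end Local

end Fermat.Agent.S55.Inv.H413

end

end
-- ===== PACK-END S55/Inv/WrH413/Global.lean

-- ===== PACK-BEGIN S55/PT/LevelsH723.lean
section



/-!
# S55 / layer D, framework leaf D-F7 (helper723): the two Prelude level systems

* normal levels are cofinal (`GlobalNormalCofinalSpec`, `LocalNormalCofinalSpec`);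
* all levels have finite index (`GlobalFiniteIndexSpec`, `LocalFiniteIndexSpec`).
-/

set_option autoImplicit false
set_option linter.style.haveILetI false

noncomputable section

namespace Fermat.Agent.S55.PT.H723

open groupCohomology Fermat.Agent.S55.PT

/-- Every global level contains a normal global level (Galois closure inside the maximal
extension unramified outside `S`). -/
theorem globalLevels_normalCofinal (S : Finset Nat.Primes) : (globalLevels S).NormalCofinal := by
  rintro U ⟨F, hF, rfl⟩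
  obtain ⟨L, hL, hgal, hle⟩ := Fermat.Agent.S55.Bridge.exists_galois_level_ge S F hF
  haveI := Fermat.Agent.S55.Bridge.isGalois_Qbar
  haveI := Fermat.Agent.S55.Bridge.isAlgebraic_Qbar
  exact ⟨L.fixingSubgroup, ⟨L, hL, rfl⟩, IntermediateField.fixingSubgroup_antitone hle,
    (InfiniteGalois.normal_iff_isGalois L).2 hgal⟩

/-- Every pulled-back level contains a normal pulled-back level. -/
theorem pullbackLevels_normalCofinal {G : Type} [Group G] (r : G →* GQ) :
    (pullbackLevels r).NormalCofinal := by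
  rintro U ⟨F, hF, rfl⟩
  haveI := hF
  haveI := Fermat.Agent.S55.Bridge.isGalois_Qbar
  haveI := Fermat.Agent.S55.Bridge.isAlgebraic_Qbar
  have hfinN : FiniteDimensional ℚ (IntermediateField.normalClosure ℚ F (AlgebraicClosure ℚ)) :=
    normalClosure.is_finiteDimensional ℚ F (AlgebraicClosure ℚ)
  have hgalN : IsGalois ℚ (IntermediateField.normalClosure ℚ F (AlgebraicClosure ℚ)) :=
    IsGalois.normalClosure ℚ F (AlgebraicClosure ℚ)
  have hnormal : (IntermediateField.normalClosure ℚ F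
      (AlgebraicClosure ℚ)).fixingSubgroup.Normal :=
    (InfiniteGalois.normal_iff_isGalois _).2 hgalN
  refine ⟨_, ⟨IntermediateField.normalClosure ℚ F (AlgebraicClosure ℚ), hfinN, rfl⟩, ?_, ?_⟩
  · exact Subgroup.comap_mono
      (IntermediateField.fixingSubgroup_antitone (IntermediateField.le_normalClosure F))
  · exact hnormal.comap r

/-- `G_F` has finite index in `G_ℚ` for `F/ℚ` finite. -/
theorem fixingSubgroup_finiteIndex (F : IntermediateField ℚ (AlgebraicClosure ℚ))
    [FiniteDimensional ℚ F] : F.fixingSubgroup.FiniteIndex := by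
  haveI := Fermat.Agent.S55.Bridge.isGalois_Qbar
  haveI := Fermat.Agent.S55.Bridge.isAlgebraic_Qbar
  haveI : Finite (GQ ⧸ F.fixingSubgroup) :=
    Subgroup.quotient_finite_of_isOpen F.fixingSubgroup F.fixingSubgroup_isOpen
  exact Subgroup.finiteIndex_of_finite_quotient

theorem globalLevels_finiteIndex (S : Finset Nat.Primes) : (globalLevels S).FiniteIndex := by
  rintro U ⟨F, hF, rfl⟩
  haveI := hF.1
  exact fixingSubgroup_finiteIndex F

theorem pullbackLevels_finiteIndex {G : Type} [Group G] (r : G →* GQ) :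
    (pullbackLevels r).FiniteIndex := by
  rintro U ⟨F, hF, rfl⟩
  haveI := hF
  haveI := fixingSubgroup_finiteIndex F
  refine ⟨?_⟩
  rw [Subgroup.index_comap]
  exact (Subgroup.instFiniteIndex_subgroupOf F.fixingSubgroup r.range).index_ne_zero

/-- **D-F7a** -/
theorem globalNormalCofinal : GlobalNormalCofinalSpec := globalLevels_normalCofinal

/-- **D-F7b** -/
theorem localNormalCofinal : LocalNormalCofinalSpec := fun q => pullbackLevels_normalCofinal (rl q)

/-- **D-F7c** -/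
theorem globalFiniteIndex : GlobalFiniteIndexSpec := globalLevels_finiteIndex

/-- **D-F7d** -/
theorem localFiniteIndex : LocalFiniteIndexSpec := fun q => pullbackLevels_finiteIndex (rl q)

end Fermat.Agent.S55.PT.H723

end

end
-- ===== PACK-END S55/PT/LevelsH723.lean

-- ===== PACK-BEGIN S55/K/H724/Ind.lean
section


/-!
# S55 / layer K : induced modules, coordinates, Kummer lifting   (helper724)

* `indρ_apply` : `(g • f) x = g • f (g⁻¹ • x)` on `Ind_V A = (G ⧸ V →₀ A)`;
* a normal subgroup `U ≤ V` acts trivially on `G ⧸ V`; coordinates of `U`-fixed elements;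
* equivariance of `indMap`-type maps (`mapRange`) and of `indProj`;
* `IsPDiv` : smooth elements are `p`-divisible by smooth elements; `isPDiv_ind` : this passes
  from `A` to `Ind_V A`; `exists_root_cochain` : `p`-th roots of smooth level-constant cochains.
-/

set_option autoImplicit false

noncomputable section

namespace Fermat.Agent.S55.K.H724

open groupCohomology Fermat.Agent.S55.PT Fermat.Agent.S55.K

section Ind

variable {k : Type} [CommRing k] {G H : Type} [Group G] [Group H]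

/-- view an element of `Ind_V A` as a `Finsupp` -/
def toF (φ : H →* G) (V : Subgroup G) (A : Rep.{0, 0, 0} k H) (e : ind φ V A) :
    (G ⧸ V) →₀ A := e

/-- view a `Finsupp` as an element of `Ind_V A` -/
def ofF (φ : H →* G) (V : Subgroup G) (A : Rep.{0, 0, 0} k H) (e : (G ⧸ V) →₀ A) :
    ind φ V A := e

lemma ind_ρ_eq (φ : H →* G) (V : Subgroup G) (A : Rep.{0, 0, 0} k H) (h : H) :
    (ind φ V A).ρ h = indρ φ V A h := rfl

/-- the action on `Ind_V A` in coordinates -/
lemma indρ_apply (φ : H →* G) (V : Subgroup G) (A : Rep.{0, 0, 0} k H) (h : H)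
    (f : (G ⧸ V) →₀ A) (x : G ⧸ V) :
    (indρ φ V A h f) x = A.ρ h (f ((φ h)⁻¹ • x)) := by
  classical
  induction f using Finsupp.induction_linear with
  | zero => simp
  | add f g hf hg =>
    rw [map_add, Finsupp.add_apply, hf, hg, Finsupp.add_apply, map_add]
  | single y a =>
    rw [indρ_single, Finsupp.single_apply, Finsupp.single_apply]
    by_cases hxy : φ h • y = x
    · have : y = (φ h)⁻¹ • x := by rw [← hxy, inv_smul_smul]
      rw [if_pos hxy, if_pos this]
    · have : ¬ y = (φ h)⁻¹ • x := by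
        intro hy
        exact hxy (by rw [hy, smul_inv_smul])
      rw [if_neg hxy, if_neg this, map_zero]

/-- a normal subgroup `U ≤ V` acts trivially on `G ⧸ V` -/
lemma smul_quot_of_normal_le {U V : Subgroup G} [hn : U.Normal] (hUV : U ≤ V) (u : G)
    (hu : u ∈ U) (x : G ⧸ V) : u • x = x := by
  induction x using QuotientGroup.induction_on with
  | H g =>
    show ((u * g : G) : G ⧸ V) = (g : G ⧸ V)
    rw [QuotientGroup.eq]
    apply hUV
    have := hn.conj_mem u⁻¹ (U.inv_mem hu) g⁻¹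
    simpa [mul_assoc] using this

/-- coordinates of an element of `Ind_V A` fixed by `u ∈ U`, `U ≤ V` normal -/
lemma coord_fixed {U V : Subgroup G} [U.Normal] (hUV : U ≤ V) (A : Rep.{0, 0, 0} k G)
    (f : (G ⧸ V) →₀ A) (u : G) (hu : u ∈ U)
    (hf : indρ (MonoidHom.id G) V A u f = f) (x : G ⧸ V) : A.ρ u (f x) = f x := by
  have h := indρ_apply (MonoidHom.id G) V A u f x
  rw [hf, MonoidHom.id_apply, smul_quot_of_normal_le hUV u⁻¹ (U.inv_mem hu)] at h
  exact h.symm

/-- an element of `Ind_V A` with coordinates fixed by `u ∈ U`, `U ≤ V` normal, is fixed -/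
lemma fixed_of_coord {U V : Subgroup G} [U.Normal] (hUV : U ≤ V) (A : Rep.{0, 0, 0} k G)
    (f : (G ⧸ V) →₀ A) (u : G) (hu : u ∈ U) (hf : ∀ x, A.ρ u (f x) = f x) :
    indρ (MonoidHom.id G) V A u f = f := by
  ext x
  rw [indρ_apply, MonoidHom.id_apply, smul_quot_of_normal_le hUV u⁻¹ (U.inv_mem hu), hf]

end Ind

/-! ### `mapRange` and `indProj` are equivariant -/

section MapRange

variable {k k' : Type} [CommRing k] [CommRing k'] {G H : Type} [Group G] [Group H]

/-- `Ind_V A → Ind_V B` induced by an additive map `A →+ B` which is equivariant along `φ` -/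
lemma mapRange_equivariant (φ : H →* G) (V : Subgroup G) {A : Rep.{0, 0, 0} k G}
    {B : Rep.{0, 0, 0} k' H} (ψ : A →+ B) (hψ : ∀ (h : H) (a : A), ψ (A.ρ (φ h) a) = B.ρ h (ψ a))
    (h : H) (f : (G ⧸ V) →₀ A) :
    Finsupp.mapRange.addMonoidHom ψ (indρ (MonoidHom.id G) V A (φ h) f) =
      indρ φ V B h (Finsupp.mapRange.addMonoidHom ψ f) := by
  ext x
  rw [Finsupp.mapRange.addMonoidHom_apply, Finsupp.mapRange_apply, indρ_apply, indρ_apply,
    Finsupp.mapRange.addMonoidHom_apply, Finsupp.mapRange_apply, hψ]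
  rfl

variable (φ : H →* G) {U V : Subgroup G} (hUV : U ≤ V) (A : Rep.{0, 0, 0} k H)

/-- the map `G ⧸ U → G ⧸ V` -/
def quotLE : G ⧸ U → G ⧸ V :=
  Quotient.map' id (fun a b hab => by
    rw [QuotientGroup.leftRel_apply] at hab ⊢
    exact hUV hab)

lemma quotLE_mk (g : G) : quotLE hUV (g : G ⧸ U) = (g : G ⧸ V) := rfl

lemma quotLE_smul (g : G) (x : G ⧸ U) : quotLE hUV (g • x) = g • quotLE hUV x := by
  induction x using QuotientGroup.induction_on with
  | H a => rfl

/-- `indProj` as a map of `Finsupp`s -/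
def projF : ((G ⧸ U) →₀ A) →ₗ[k] ((G ⧸ V) →₀ A) := Finsupp.lmapDomain A k (quotLE hUV)

lemma indProj_eq_projF (f : ind φ U A) : indProj φ hUV A f = projF hUV A f := rfl

lemma projF_single (x : G ⧸ U) (a : A) :
    projF hUV A (Finsupp.single x a) = Finsupp.single (quotLE hUV x) a := by
  rw [projF, Finsupp.lmapDomain_apply, Finsupp.mapDomain_single]

lemma projF_equivariant (h : H) (f : (G ⧸ U) →₀ A) :
    projF hUV A (indρ φ U A h f) = indρ φ V A h (projF hUV A f) := by
  have key : projF hUV A ∘ₗ indρ φ U A h = indρ φ V A h ∘ₗ projF hUV A := by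
    apply Finsupp.lhom_ext
    intro y a
    rw [LinearMap.comp_apply, LinearMap.comp_apply, indρ_single, projF_single, projF_single,
      indρ_single, quotLE_smul]
  exact LinearMap.congr_fun key f

end MapRange

/-! ### `p`-divisibility of smooth elements -/

section PDiv

variable {G : Type} [Group G] (L : LevelSys G) (A : Rep.{0, 0, 0} ℤ G) (p : ℕ)

/-- smooth elements are `p`-divisible by smooth elements -/
def IsPDiv : Prop := ∀ a : A, IsSm L A a → ∃ b : A, p • b = a ∧ IsSm L A b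

variable {L A p}

/-- `p`-divisibility of smooth elements passes to `Ind_V A`. -/
lemma isPDiv_ind (hN : L.NormalCofinal) (h : IsPDiv L A p) (V : Subgroup G)
    (hV : V ∈ L.levels) : IsPDiv L (indG V A) p := by
  classical
  intro e he
  obtain ⟨U₀, hU₀, hfix₀⟩ := he
  obtain ⟨U₁', hU₁', hle₁'⟩ := L.directed U₀ hU₀ V hV
  obtain ⟨U₁, hU₁, hle₁, hn₁⟩ := hN U₁' hU₁'
  have hU₁V : U₁ ≤ V := fun s hs => (hle₁' (hle₁ hs)).2
  have hU₁U₀ : U₁ ≤ U₀ := fun s hs => (hle₁' (hle₁ hs)).1
  let ef : (G ⧸ V) →₀ A := e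
  have hcoord : ∀ x, IsSm L A (ef x) := fun x =>
    ⟨U₁, hU₁, fun s hs => coord_fixed hU₁V A ef s hs (hfix₀ s (hU₁U₀ hs)) x⟩
  choose! root hroot using h
  let root' : A → A := fun a => if a = 0 then 0 else root a
  have hroot'0 : root' 0 = 0 := if_pos rfl
  have hroot' : ∀ a, IsSm L A a → p • root' a = a ∧ IsSm L A (root' a) := by
    intro a ha
    by_cases h0 : a = 0
    · subst h0
      rw [hroot'0]
      exact ⟨smul_zero _, isSm_zero⟩
    · simp only [root', if_neg h0]
      exact hroot a ha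
  let e' : (G ⧸ V) →₀ A := Finsupp.mapRange root' hroot'0 ef
  refine ⟨e', ?_, ?_⟩
  · show (p • e' : (G ⧸ V) →₀ A) = ef
    ext x
    rw [Finsupp.smul_apply, Finsupp.mapRange_apply]
    exact (hroot' (ef x) (hcoord x)).1
  · obtain ⟨U₂, hU₂, hle₂, hn₂, hfix₂⟩ := exists_common_level hN
      (ef.support.image (fun x => root' (ef x)))
      (fun a ha => by
        obtain ⟨x, -, rfl⟩ := Finset.mem_image.1 ha
        exact (hroot' (ef x) (hcoord x)).2) V hV
    refine ⟨U₂, hU₂, fun s hs => ?_⟩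
    apply fixed_of_coord hle₂ A e' s hs
    intro x
    by_cases hx : x ∈ ef.support
    · exact hfix₂ _ (Finset.mem_image_of_mem _ hx) s hs
    · have h0 : ef x = 0 := Finsupp.notMem_support_iff.1 hx
      have h1 : e' x = 0 := by rw [Finsupp.mapRange_apply, h0, hroot'0]
      rw [h1, map_zero]

/-- `p`-th roots of smooth level-constant 1-cochains. -/
lemma exists_root_cochain (hN : L.NormalCofinal) (hF : L.FiniteIndex) (h : IsPDiv L A p)
    (a : G → A) (U : Subgroup G) (hU : U ∈ L.levels)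
    (ha : ∀ g s : G, s ∈ U → a (g * s) = a g) (hfix : ∀ g s : G, s ∈ U → A.ρ s (a g) = a g) :
    ∃ a' : G → A, p • a' = a ∧ ∃ U' ∈ L.levels, U' ≤ U ∧ U'.Normal ∧
      (∀ g s : G, s ∈ U' → a' (g * s) = a' g) ∧ ∀ g s : G, s ∈ U' → A.ρ s (a' g) = a' g := by
  classical
  choose! root hroot using h
  have hsm : ∀ g, IsSm L A (a g) := fun g => ⟨U, hU, fun s hs => hfix g s hs⟩
  haveI := hF U hU
  have hfin : (Set.range a).Finite := finite_range_of_rightInv U a ha
  obtain ⟨U', hU', hle', hn', hfix'⟩ := exists_common_level hN (hfin.toFinset.image root)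
    (fun b hb => by
      obtain ⟨c, hc, rfl⟩ := Finset.mem_image.1 hb
      obtain ⟨g, rfl⟩ := hfin.mem_toFinset.1 hc
      exact (hroot (a g) (hsm g)).2) U hU
  refine ⟨fun g => root (a g), ?_, U', hU', hle', hn', fun g s hs => ?_, fun g s hs => ?_⟩
  · funext g
    exact (hroot (a g) (hsm g)).1
  · show root (a (g * s)) = root (a g)
    rw [ha g s (hle' hs)]
  · exact hfix' _ (Finset.mem_image_of_mem _ (hfin.mem_toFinset.2 ⟨g, rfl⟩)) s hs

end PDiv

end Fermat.Agent.S55.K.H724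

end

end
-- ===== PACK-END S55/K/H724/Ind.lean

-- ===== PACK-BEGIN S55/E1/Lim/Obj.lean
section
/-
S55 engine E1 — block LIM: OBJECTS OF THE TOWER (definitions, sorry-free).
Sub-architect E1-LIM: helper474.  Blueprint: coord/S55-E1.md §4, coord/S55-E1-LIM.md.
Namespace `Fermat.Agent.S55.E1.Lim`.  Built on the canonical `Spec/Tower*.lean`, `Spec/Datum2.lean`,
`Bridge/FiniteLevel.lean`.

* `homOfAdd` : a `Rep ℤ G`-morphism from an equivariant additive map;
* `zRep A : Rep ℤ G` : restriction of scalars of `A : Rep k G` to `ℤ` (same carrier);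
* `piRep A : Rep ℤ G` : the product of a family of `G`-modules (carrier `∀ i, (A i).V`),
  `piProj`, `piLift`, `piDesc`;
* `sUnits L : Rep ℤ L.Gal` : the `S`-units `E(F)` of a level, `sIncl : E(F) ⟶ Fˣ`, `trS`;
* `Jtot L = ∏_{q ∈ S} J_q(F)`, `diagTot : E(F) ⟶ J(F)`, `jTot D : J(F) ⟶ C(F)`, `trJtot`;
* `C1 D L = im (J(F) → C(F))`, `jC1 : J(F) ⟶ C'(F)`, `inclC1 : C'(F) ⟶ C(F)`, `trC1`.
-/



set_option autoImplicit false

open CategoryTheory CategoryTheory.Limits

namespace Fermat.Agent.S55.E1.Lim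

open Fermat.Agent.S55.Tow

noncomputable section

attribute [local instance 10000] Rep.hV2
attribute [local instance 9000] Pi.module

/-! ## Generic helpers -/

section Generic

variable {G G' : Type} [Group G] [Group G']

/-- The `ℤ`-linear map underlying an additive map between `G`-modules. -/
def linOfAdd {A : Rep.{0} ℤ G} {B : Rep.{0} ℤ G'} (k : A.V →+ B.V) : A.V →ₗ[ℤ] B.V where
  toFun := k
  map_add' := map_add k
  map_smul' m x := by
    have h1 := int_smul_eq_zsmul A.hV2 m x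
    have h2 := int_smul_eq_zsmul B.hV2 m (k x)
    exact (congrArg k h1).trans ((map_zsmul k m x).trans h2.symm)

@[simp] lemma linOfAdd_apply {A : Rep.{0} ℤ G} {B : Rep.{0} ℤ G'} (k : A.V →+ B.V) (a : A.V) :
    linOfAdd k a = k a := rfl

/-- A morphism of `G`-modules from an equivariant additive map. -/
def homOfAdd {A B : Rep.{0} ℤ G} (k : A.V →+ B.V)
    (hk : ∀ (g : G) (a : A.V), k (A.ρ g a) = B.ρ g (k a)) : A ⟶ B :=
  Rep.ofHom ⟨linOfAdd k, fun g => LinearMap.ext (hk g)⟩

@[simp] lemma homOfAdd_apply {A B : Rep.{0} ℤ G} (k : A.V →+ B.V)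
    (hk : ∀ (g : G) (a : A.V), k (A.ρ g a) = B.ρ g (k a)) (a : A.V) :
    (homOfAdd k hk).hom a = k a := rfl

/-- A semilinear morphism `Res_π A ⟶ B` from an additive map with `k (π(g') a) = g' k(a)`. -/
def semiOfAdd (π : G' →* G) {A : Rep.{0} ℤ G} {B : Rep.{0} ℤ G'} (k : A.V →+ B.V)
    (hk : ∀ (g' : G') (a : A.V), k (A.ρ (π g') a) = B.ρ g' (k a)) : Rep.res π A ⟶ B :=
  Rep.ofHom ⟨linOfAdd (A := Rep.res π A) k, fun g' => LinearMap.ext (hk g')⟩

@[simp] lemma semiOfAdd_apply (π : G' →* G) {A : Rep.{0} ℤ G} {B : Rep.{0} ℤ G'} (k : A.V →+ B.V)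
    (hk : ∀ (g' : G') (a : A.V), k (A.ρ (π g') a) = B.ρ g' (k a)) (a : A.V) :
    (semiOfAdd π k hk).hom a = k a := rfl

/-- A submodule (for the module structure of `A`) from an additive subgroup. -/
def subOfAdd (A : Rep.{0} ℤ G) (W : AddSubgroup A.V) : Submodule ℤ A.V where
  carrier := W
  add_mem' := W.add_mem
  zero_mem' := W.zero_mem
  smul_mem' m x hx := by
    have h1 := int_smul_eq_zsmul A.hV2 m x
    exact Eq.mpr (congrArg (fun t => t ∈ W) h1) (W.zsmul_mem hx m)

@[simp] lemma mem_subOfAdd (A : Rep.{0} ℤ G) (W : AddSubgroup A.V) (x : A.V) :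
    x ∈ subOfAdd A W ↔ x ∈ W := Iff.rfl

/-- The sub-`G`-module on a `G`-stable additive subgroup. -/
def subRep (A : Rep.{0} ℤ G) (W : AddSubgroup A.V) (hW : ∀ (g : G) (x : A.V), x ∈ W → A.ρ g x ∈ W) :
    Rep.{0} ℤ G :=
  Rep.subrepresentation A (subOfAdd A W) (fun g x hx => hW g x hx)

/-- The inclusion of `subRep`. -/
def subIncl (A : Rep.{0} ℤ G) (W : AddSubgroup A.V)
    (hW : ∀ (g : G) (x : A.V), x ∈ W → A.ρ g x ∈ W) : subRep A W hW ⟶ A :=
  Rep.subtype A (subOfAdd A W) (fun g x hx => hW g x hx)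

/-- The underlying element of the ambient module. -/
def subVal {A : Rep.{0} ℤ G} {W : AddSubgroup A.V}
    {hW : ∀ (g : G) (x : A.V), x ∈ W → A.ρ g x ∈ W} (x : (subRep A W hW).V) : A.V :=
  (subIncl A W hW).hom x

lemma subVal_mem {A : Rep.{0} ℤ G} {W : AddSubgroup A.V}
    {hW : ∀ (g : G) (x : A.V), x ∈ W → A.ρ g x ∈ W} (x : (subRep A W hW).V) :
    subVal x ∈ W := x.2

lemma subVal_injective {A : Rep.{0} ℤ G} {W : AddSubgroup A.V}
    {hW : ∀ (g : G) (x : A.V), x ∈ W → A.ρ g x ∈ W} :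
    Function.Injective (subVal : (subRep A W hW).V → A.V) := Subtype.val_injective

/-- Constructor for elements of `subRep`. -/
def subMk {A : Rep.{0} ℤ G} {W : AddSubgroup A.V}
    {hW : ∀ (g : G) (x : A.V), x ∈ W → A.ρ g x ∈ W} (a : A.V) (ha : a ∈ W) :
    (subRep A W hW).V := ⟨a, ha⟩

@[simp] lemma subVal_subMk {A : Rep.{0} ℤ G} {W : AddSubgroup A.V}
    {hW : ∀ (g : G) (x : A.V), x ∈ W → A.ρ g x ∈ W} (a : A.V) (ha : a ∈ W) :
    subVal (subMk (hW := hW) a ha) = a := rfl

lemma subVal_ρ {A : Rep.{0} ℤ G} {W : AddSubgroup A.V}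
    {hW : ∀ (g : G) (x : A.V), x ∈ W → A.ρ g x ∈ W} (g : G) (x : (subRep A W hW).V) :
    subVal ((subRep A W hW).ρ g x) = A.ρ g (subVal x) := rfl

lemma subVal_add {A : Rep.{0} ℤ G} {W : AddSubgroup A.V}
    {hW : ∀ (g : G) (x : A.V), x ∈ W → A.ρ g x ∈ W} (x y : (subRep A W hW).V) :
    subVal (x + y) = subVal x + subVal y := rfl

/-- Corestriction of a morphism to a `G`-stable subgroup containing its image. -/
def subLift {A B : Rep.{0} ℤ G} (W : AddSubgroup A.V)
    (hW : ∀ (g : G) (x : A.V), x ∈ W → A.ρ g x ∈ W) (f : B ⟶ A) (hf : ∀ b : B.V, f.hom b ∈ W) :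
    B ⟶ subRep A W hW :=
  homOfAdd
    { toFun := fun b => subMk (f.hom b) (hf b)
      map_zero' := subVal_injective (by
        show f.hom 0 = 0
        exact map_zero f.hom)
      map_add' := fun x y => subVal_injective (by
        show f.hom (x + y) = f.hom x + f.hom y
        exact map_add f.hom x y) }
    (fun g b => subVal_injective (by
      show f.hom (B.ρ g b) = A.ρ g (f.hom b)
      exact Rep.hom_comm_apply f g b))

@[simp] lemma subVal_subLift {A B : Rep.{0} ℤ G} (W : AddSubgroup A.V)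
    (hW : ∀ (g : G) (x : A.V), x ∈ W → A.ρ g x ∈ W) (f : B ⟶ A) (hf : ∀ b : B.V, f.hom b ∈ W)
    (b : B.V) : subVal ((subLift W hW f hf).hom b) = f.hom b := rfl

/-- Semilinear map between sub-modules induced by a semilinear map of the ambient modules. -/
def subSemi (π : G' →* G) {A : Rep.{0} ℤ G} {B : Rep.{0} ℤ G'} (W : AddSubgroup A.V)
    (hW : ∀ (g : G) (x : A.V), x ∈ W → A.ρ g x ∈ W) (W' : AddSubgroup B.V)
    (hW' : ∀ (g : G') (x : B.V), x ∈ W' → B.ρ g x ∈ W') (ι : Rep.res π A ⟶ B)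
    (hι : ∀ a : A.V, a ∈ W → ι.hom a ∈ W') :
    Rep.res π (subRep A W hW) ⟶ subRep B W' hW' :=
  semiOfAdd π (A := subRep A W hW) (B := subRep B W' hW')
    { toFun := fun x => subMk (ι.hom (subVal (A := A) (hW := hW) x))
        (hι _ (subVal_mem (A := A) (hW := hW) x))
      map_zero' := subVal_injective (by
        show ι.hom (0 : A.V) = 0
        exact map_zero ι.hom)
      map_add' := fun x y => subVal_injective (by
        show ι.hom (subVal (A := A) (hW := hW) x + subVal (A := A) (hW := hW) y : A.V) =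
          ι.hom (subVal (A := A) (hW := hW) x) + ι.hom (subVal (A := A) (hW := hW) y)
        exact map_add ι.hom _ _) }
    (fun g' x => subVal_injective (by
      show ι.hom (A.ρ (π g') (subVal (A := A) (hW := hW) x)) =
        B.ρ g' (ι.hom (subVal (A := A) (hW := hW) x))
      exact Rep.hom_comm_apply ι g' (subVal (A := A) (hW := hW) x)))

@[simp] lemma subVal_subSemi (π : G' →* G) {A : Rep.{0} ℤ G} {B : Rep.{0} ℤ G'}
    (W : AddSubgroup A.V) (hW : ∀ (g : G) (x : A.V), x ∈ W → A.ρ g x ∈ W) (W' : AddSubgroup B.V)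
    (hW' : ∀ (g : G') (x : B.V), x ∈ W' → B.ρ g x ∈ W') (ι : Rep.res π A ⟶ B)
    (hι : ∀ a : A.V, a ∈ W → ι.hom a ∈ W') (x : (subRep A W hW).V) :
    subVal (hW := hW') ((subSemi π W hW W' hW' ι hι).hom x) =
      ι.hom (subVal (A := A) (hW := hW) x) := rfl

end Generic

/-! ## Restriction of scalars to `ℤ` -/

section ZRep

variable {k G : Type} [CommRing k] [Group G]

/-- Restriction of scalars to `ℤ` (same carrier, same action). -/
def zRep (A : Rep.{0} k G) : Rep.{0} ℤ G :=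
  @Rep.of ℤ G _ _ A.V _ (AddCommGroup.toIntModule A.V)
    { toFun := fun g => (AddMonoidHom.mk' (A.ρ g) (map_add _)).toIntLinearMap
      map_one' := by
        refine LinearMap.ext fun a => ?_
        show A.ρ 1 a = a
        rw [map_one]; rfl
      map_mul' := fun g h => by
        refine LinearMap.ext fun a => ?_
        show A.ρ (g * h) a = A.ρ g (A.ρ h a)
        rw [map_mul]; rfl }

/-- The carrier of `zRep A` is the carrier of `A`. -/
def zOf {A : Rep.{0} k G} (a : A.V) : (zRep A).V := a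

/-- The carrier of `zRep A` is the carrier of `A`. -/
def zTo {A : Rep.{0} k G} (a : (zRep A).V) : A.V := a

@[simp] lemma zTo_zOf {A : Rep.{0} k G} (a : A.V) : zTo (zOf a) = a := rfl

@[simp] lemma zOf_zTo {A : Rep.{0} k G} (a : (zRep A).V) : zOf (zTo a) = a := rfl

lemma zRep_ρ (A : Rep.{0} k G) (g : G) (a : (zRep A).V) : zTo ((zRep A).ρ g a) = A.ρ g (zTo a) :=
  rfl

lemma zTo_add {A : Rep.{0} k G} (a b : (zRep A).V) : zTo (a + b) = zTo a + zTo b := rfl

lemma zRep_ρ_eq_one {A : Rep.{0} k G} {g : G} (h : A.ρ g = 1) : (zRep A).ρ g = 1 := by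
  refine LinearMap.ext fun a => ?_
  show A.ρ g (zTo a) = a
  rw [h]; rfl

end ZRep

/-! ## Products -/

section Pi

variable {G G' : Type} [Group G] [Group G'] {ι : Type}

/-- The product of a family of `G`-modules. -/
def piRep (A : ι → Rep.{0} ℤ G) : Rep.{0} ℤ G :=
  @Rep.of ℤ G _ _ (∀ i, (A i).V) _ (Pi.module ι (fun i => (A i).V) ℤ)
    { toFun := fun g => LinearMap.pi (fun i => (A i).ρ g ∘ₗ LinearMap.proj i)
      map_one' := by
        refine LinearMap.ext fun a => funext fun i => ?_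
        show (A i).ρ 1 (a i) = a i
        rw [map_one]; rfl
      map_mul' := fun g h => by
        refine LinearMap.ext fun a => funext fun i => ?_
        show (A i).ρ (g * h) (a i) = (A i).ρ g ((A i).ρ h (a i))
        rw [map_mul]; rfl }

/-- Components of an element of the product. -/
def piTo {A : ι → Rep.{0} ℤ G} (x : (piRep A).V) (i : ι) : (A i).V := x i

/-- Constructor for elements of the product. -/
def piOf {A : ι → Rep.{0} ℤ G} (x : ∀ i, (A i).V) : (piRep A).V := x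

@[simp] lemma piTo_piOf {A : ι → Rep.{0} ℤ G} (x : ∀ i, (A i).V) (i : ι) :
    piTo (piOf x) i = x i := rfl

lemma piRep_ext {A : ι → Rep.{0} ℤ G} {x y : (piRep A).V} (h : ∀ i, piTo x i = piTo y i) :
    x = y := funext h

lemma piTo_ρ {A : ι → Rep.{0} ℤ G} (g : G) (x : (piRep A).V) (i : ι) :
    piTo ((piRep A).ρ g x) i = (A i).ρ g (piTo x i) := rfl

lemma piTo_add {A : ι → Rep.{0} ℤ G} (x y : (piRep A).V) (i : ι) :
    piTo (x + y) i = piTo x i + piTo y i := rfl

/-- The projections. -/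
def piProj (A : ι → Rep.{0} ℤ G) (i : ι) : piRep A ⟶ A i :=
  homOfAdd { toFun := fun x => piTo x i, map_zero' := rfl, map_add' := fun _ _ => rfl }
    (fun _ _ => rfl)

@[simp] lemma piProj_apply (A : ι → Rep.{0} ℤ G) (i : ι) (x : (piRep A).V) :
    (piProj A i).hom x = piTo x i := rfl

/-- The universal map into the product. -/
def piLift {A : ι → Rep.{0} ℤ G} {X : Rep.{0} ℤ G} (f : ∀ i, X ⟶ A i) : X ⟶ piRep A :=
  homOfAdd
    { toFun := fun x => piOf (fun i => (f i).hom x)
      map_zero' := piRep_ext fun i => map_zero (f i).hom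
      map_add' := fun x y => piRep_ext fun i => map_add (f i).hom x y }
    (fun g x => piRep_ext fun i => Rep.hom_comm_apply (f i) g x)

@[simp] lemma piTo_piLift {A : ι → Rep.{0} ℤ G} {X : Rep.{0} ℤ G} (f : ∀ i, X ⟶ A i) (x : X.V)
    (i : ι) : piTo ((piLift f).hom x) i = (f i).hom x := rfl

/-- The sum map out of a finite product. -/
def piDesc [Fintype ι] {A : ι → Rep.{0} ℤ G} {X : Rep.{0} ℤ G} (f : ∀ i, A i ⟶ X) :
    piRep A ⟶ X :=
  homOfAdd
    { toFun := fun x => ∑ i, (f i).hom (piTo x i)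
      map_zero' := by
        refine Finset.sum_eq_zero fun i _ => ?_
        exact map_zero (f i).hom
      map_add' := fun x y => by
        rw [← Finset.sum_add_distrib]
        refine Finset.sum_congr rfl fun i _ => ?_
        exact map_add (f i).hom _ _ }
    (fun g x => by
      show ∑ i, (f i).hom (piTo ((piRep A).ρ g x) i) = X.ρ g (∑ i, (f i).hom (piTo x i))
      rw [map_sum]
      refine Finset.sum_congr rfl fun i _ => ?_
      exact Rep.hom_comm_apply (f i) g _)

lemma piDesc_apply [Fintype ι] {A : ι → Rep.{0} ℤ G} {X : Rep.{0} ℤ G} (f : ∀ i, A i ⟶ X)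
    (x : (piRep A).V) : (piDesc f).hom x = ∑ i, (f i).hom (piTo x i) := rfl

/-- Semilinear map between products, componentwise. -/
def piSemi (π : G' →* G) {A : ι → Rep.{0} ℤ G} {A' : ι → Rep.{0} ℤ G'}
    (t : ∀ i, Rep.res π (A i) ⟶ A' i) : Rep.res π (piRep A) ⟶ piRep A' :=
  semiOfAdd π (A := piRep A) (B := piRep A')
    { toFun := fun x => piOf (fun i => (t i).hom (piTo (A := A) x i))
      map_zero' := piRep_ext fun i => map_zero (t i).hom
      map_add' := fun x y => piRep_ext fun i => map_add (t i).hom _ _ }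
    (fun g' x => piRep_ext fun i => Rep.hom_comm_apply (t i) g' (piTo (A := A) x i))

@[simp] lemma piTo_piSemi (π : G' →* G) {A : ι → Rep.{0} ℤ G} {A' : ι → Rep.{0} ℤ G'}
    (t : ∀ i, Rep.res π (A i) ⟶ A' i) (x : (piRep A).V) (i : ι) :
    piTo (A := A') ((piSemi π t).hom x) i = (t i).hom (piTo (A := A) x i) := rfl

end Pi

/-! ## The `S`-units of a level -/

section SUnits

variable {S : Finset Nat.Primes}

lemma isSUnit_zero (L : Level S) : L.IsSUnit 0 := by
  intro ℓ hℓ A hA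
  have h1 : ((L.val 0 : Qbarˣ) : Qbar) = 1 := rfl
  have h2 : (((L.val 0)⁻¹ : Qbarˣ) : Qbar) = 1 := by
    have : L.val 0 = 1 := rfl
    rw [this, inv_one]; rfl
  rw [h1, h2]
  exact ⟨A.one_mem, A.one_mem⟩

lemma isSUnit_add (L : Level S) {x y : L.units.V} (hx : L.IsSUnit x) (hy : L.IsSUnit y) :
    L.IsSUnit (x + y) := by
  intro ℓ hℓ A hA
  have h1 : L.val (x + y) = L.val x * L.val y := rfl
  rw [h1, mul_inv, Units.val_mul, Units.val_mul]
  exact ⟨A.mul_mem _ _ (hx ℓ hℓ A hA).1 (hy ℓ hℓ A hA).1,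
    A.mul_mem _ _ (hx ℓ hℓ A hA).2 (hy ℓ hℓ A hA).2⟩

lemma isSUnit_neg (L : Level S) {x : L.units.V} (hx : L.IsSUnit x) : L.IsSUnit (-x) := by
  intro ℓ hℓ A hA
  have h1 : L.val (-x) = (L.val x)⁻¹ := rfl
  rw [h1, inv_inv]
  exact ⟨(hx ℓ hℓ A hA).2, (hx ℓ hℓ A hA).1⟩

/-- The additive subgroup of `S`-units of `F` all of whose conjugates are `S`-units
(= all `S`-units, leaf `LIM-E0`). -/
def sUnitsAdd (L : Level S) : AddSubgroup L.units.V where
  carrier := {x | ∀ g : L.Gal, L.IsSUnit (L.units.ρ g x)}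
  zero_mem' := fun g => by
    rw [map_zero]; exact isSUnit_zero L
  add_mem' := fun {a b} ha hb g => by
    rw [map_add]; exact isSUnit_add L (ha g) (hb g)
  neg_mem' := fun {a} ha g => by
    rw [map_neg]; exact isSUnit_neg L (ha g)

lemma mem_sUnitsAdd (L : Level S) (x : L.units.V) :
    x ∈ sUnitsAdd L ↔ ∀ g : L.Gal, L.IsSUnit (L.units.ρ g x) := Iff.rfl

lemma isSUnit_of_mem (L : Level S) {x : L.units.V} (hx : x ∈ sUnitsAdd L) : L.IsSUnit x := by
  have := hx 1
  rwa [map_one] at this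

lemma sUnitsAdd_stable (L : Level S) (g : L.Gal) (x : L.units.V) (hx : x ∈ sUnitsAdd L) :
    L.units.ρ g x ∈ sUnitsAdd L := fun g' => by
  have := hx (g' * g)
  rwa [map_mul] at this

/-- `E(F)`: the `S`-units of a level, as a `Gal(F/ℚ)`-module. -/
def sUnits (L : Level S) : Rep.{0} ℤ L.Gal := subRep L.units (sUnitsAdd L) (sUnitsAdd_stable L)

/-- The inclusion `E(F) ⟶ Fˣ`. -/
def sIncl (L : Level S) : sUnits L ⟶ L.units := subIncl L.units (sUnitsAdd L) (sUnitsAdd_stable L)

lemma sIncl_injective (L : Level S) : Function.Injective (sIncl L).hom := Subtype.val_injective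

lemma sIncl_mem (L : Level S) (e : (sUnits L).V) : (sIncl L).hom e ∈ sUnitsAdd L := e.2

lemma trUnits_mem {L L' : Level S} (h : L ≤ L') (x : L.units.V) (hx : x ∈ sUnitsAdd L) :
    (Level.trUnits h).hom x ∈ sUnitsAdd L' := by
  intro g'
  have h1 : L'.units.ρ g' ((Level.trUnits h).hom x) =
      (Level.trUnits h).hom (L.units.ρ (Level.proj h g') x) :=
    (Rep.hom_comm_apply (Level.trUnits h) g' x).symm
  rw [h1]
  exact hx (Level.proj h g')

/-- The inclusion `E(F) ⊂ E(F')` as a semilinear map. -/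
def trS {L L' : Level S} (h : L ≤ L') : Rep.res (Level.proj h) (sUnits L) ⟶ sUnits L' :=
  subSemi (Level.proj h) (sUnitsAdd L) (sUnitsAdd_stable L) (sUnitsAdd L') (sUnitsAdd_stable L')
    (Level.trUnits h) (trUnits_mem h)

lemma sIncl_trS {L L' : Level S} (h : L ≤ L') (e : (sUnits L).V) :
    (sIncl L').hom ((trS h).hom e) = (Level.trUnits h).hom ((sIncl L).hom e) := rfl

end SUnits

/-! ## `J(F) = ∏_{q ∈ S} J_q(F)` and `C'(F) = im (J(F) → C(F))` -/

section JC

variable {S : Finset Nat.Primes}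

/-- `J(F) = ∏_{q ∈ S} J_q(F)`. -/
def Jtot (L : Level S) : Rep.{0} ℤ L.Gal := piRep (fun q : S => L.J q.1)

/-- The diagonal `E(F) ⟶ J(F)`. -/
def diagTot (L : Level S) : sUnits L ⟶ Jtot L := piLift (fun q : S => sIncl L ≫ L.diag q.1)

lemma piTo_diagTot (L : Level S) (e : (sUnits L).V) (q : S) :
    piTo ((diagTot L).hom e) q = (L.diag q.1).hom ((sIncl L).hom e) := rfl

/-- `J(F) ⟶ J(F')`. -/
def trJtot {L L' : Level S} (h : L ≤ L') : Rep.res (Level.proj h) (Jtot L) ⟶ Jtot L' :=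
  piSemi (Level.proj h) (fun q : S => Level.trJ h q.1)

lemma piTo_trJtot {L L' : Level S} (h : L ≤ L') (x : (Jtot L).V) (q : S) :
    piTo ((trJtot h).hom x) q = (Level.trJ h q.1).hom (piTo x q) := rfl

variable (D : TowerDatum S)

/-- `J(F) ⟶ C(F)`, `(x_q) ↦ ∑_q j_q(x_q)`. -/
def jTot (L : Level S) : Jtot L ⟶ D.C L := piDesc (fun q : S => D.j L q.1)

lemma jTot_apply (L : Level S) (x : (Jtot L).V) :
    (jTot D L).hom x = ∑ q : S, (D.j L q.1).hom (piTo x q) := rfl

lemma isLocalSum_iff (L : Level S) (c : (D.C L).V) :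
    D.IsLocalSum L c ↔ ∃ x : (Jtot L).V, (jTot D L).hom x = c :=
  ⟨fun ⟨x, hx⟩ => ⟨piOf x, hx.symm⟩, fun ⟨x, hx⟩ => ⟨fun q => piTo x q, hx.symm⟩⟩

/-- The image of `J(F) → C(F)` as an additive subgroup. -/
def C1Add (L : Level S) : AddSubgroup (D.C L).V where
  carrier := {c | ∃ x : (Jtot L).V, (jTot D L).hom x = c}
  zero_mem' := ⟨0, map_zero _⟩
  add_mem' := fun {a b} ⟨x, hx⟩ ⟨y, hy⟩ => ⟨x + y, by rw [map_add, hx, hy]⟩
  neg_mem' := fun {a} ⟨x, hx⟩ => ⟨-x, by rw [map_neg, hx]⟩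

lemma mem_C1Add (L : Level S) (c : (D.C L).V) : c ∈ C1Add D L ↔ D.IsLocalSum L c :=
  (isLocalSum_iff D L c).symm

lemma C1Add_stable (L : Level S) (g : L.Gal) (c : (D.C L).V) (hc : c ∈ C1Add D L) :
    (D.C L).ρ g c ∈ C1Add D L := by
  obtain ⟨x, rfl⟩ := hc
  exact ⟨(Jtot L).ρ g x, Rep.hom_comm_apply (jTot D L) g x⟩

/-- `C'(F) = im (J(F) → C(F))` as a `Gal(F/ℚ)`-module. -/
def C1 (L : Level S) : Rep.{0} ℤ L.Gal := subRep (D.C L) (C1Add D L) (C1Add_stable D L)

/-- The inclusion `C'(F) ⟶ C(F)`. -/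
def inclC1 (L : Level S) : C1 D L ⟶ D.C L := subIncl (D.C L) (C1Add D L) (C1Add_stable D L)

lemma inclC1_injective (L : Level S) : Function.Injective (inclC1 D L).hom :=
  Subtype.val_injective

/-- The surjection `J(F) ⟶ C'(F)`. -/
def jC1 (L : Level S) : Jtot L ⟶ C1 D L :=
  subLift (C1Add D L) (C1Add_stable D L) (jTot D L) (fun x => ⟨x, rfl⟩)

lemma jC1_inclC1 (L : Level S) : jC1 D L ≫ inclC1 D L = jTot D L := rfl

lemma jC1_surjective (L : Level S) : Function.Surjective (jC1 D L).hom := by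
  rintro ⟨c, x, hx⟩
  exact ⟨x, Subtype.ext hx⟩

/-- GD7a in the form used here: `tr` is compatible with `j_q` for `q ∈ S`. -/
def TrCompat : Prop :=
  ∀ {L L' : Level S} (h : L ≤ L') (q : Nat.Primes), q ∈ S → ∀ (x : (L.J q).V),
    (D.tr h).hom ((D.j L q).hom x) = (D.j L' q).hom ((Level.trJ h q).hom x)

variable {D}

lemma tr_jTot (h7 : TrCompat D) {L L' : Level S} (h : L ≤ L') (x : (Jtot L).V) :
    (D.tr h).hom ((jTot D L).hom x) = (jTot D L').hom ((trJtot h).hom x) := by
  rw [jTot_apply, jTot_apply, map_sum]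
  refine Finset.sum_congr rfl fun q _ => ?_
  exact h7 h q.1 q.2 _

lemma tr_mem_C1Add (h7 : TrCompat D) {L L' : Level S} (h : L ≤ L') (c : (D.C L).V)
    (hc : c ∈ C1Add D L) : (D.tr h).hom c ∈ C1Add D L' := by
  obtain ⟨x, rfl⟩ := hc
  exact ⟨(trJtot h).hom x, (tr_jTot h7 h x).symm⟩

/-- `C'(F) ⟶ C'(F')`. -/
def trC1 (h7 : TrCompat D) {L L' : Level S} (h : L ≤ L') :
    Rep.res (Level.proj h) (C1 D L) ⟶ C1 D L' :=
  subSemi (Level.proj h) (C1Add D L) (C1Add_stable D L) (C1Add D L') (C1Add_stable D L')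
    (D.tr h) (tr_mem_C1Add h7 h)

lemma inclC1_trC1 (h7 : TrCompat D) {L L' : Level S} (h : L ≤ L') (c : (C1 D L).V) :
    (inclC1 D L').hom ((trC1 h7 h).hom c) = (D.tr h).hom ((inclC1 D L).hom c) := rfl

lemma trC1_jC1 (h7 : TrCompat D) {L L' : Level S} (h : L ≤ L') (x : (Jtot L).V) :
    (trC1 h7 h).hom ((jC1 D L).hom x) = (jC1 D L').hom ((trJtot h).hom x) :=
  inclC1_injective D L' (tr_jTot h7 h x)

end JC

/-! ## The short exact sequence `0 → E(F) → J(F) → C'(F) → 0` -/

section Ses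

variable {S : Finset Nat.Primes} (D : TowerDatum S)

/-- GD4 in the form used here. -/
def KerDiag : Prop :=
  ∀ (L : Level S) (x : ∀ q : S, (L.J q.1).V),
    ∑ q : S, (D.j L q.1).hom (x q) = 0 ↔
      ∃ e : L.units.V, L.IsSUnit e ∧ ∀ q : S, x q = (L.diag q.1).hom e

variable {D}

lemma diagTot_jTot (h4 : KerDiag D) (L : Level S) (e : (sUnits L).V) :
    (jTot D L).hom ((diagTot L).hom e) = 0 := by
  rw [jTot_apply]
  exact (h4 L _).2 ⟨(sIncl L).hom e, isSUnit_of_mem L (sIncl_mem L e), fun q => rfl⟩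

lemma diagTot_jC1 (h4 : KerDiag D) (L : Level S) : diagTot L ≫ jC1 D L = 0 := by
  apply Rep.hom_ext
  apply DFunLike.ext
  intro e
  exact inclC1_injective D L (diagTot_jTot h4 L e)

/-- The short complex `E(F) → J(F) → C'(F)` (short exact: leaf `LIM-SES`). -/
def ses (h4 : KerDiag D) (L : Level S) : ShortComplex (Rep.{0} ℤ L.Gal) :=
  ShortComplex.mk (diagTot L) (jC1 D L) (diagTot_jC1 h4 L)

end Ses

/-! ## Coefficient modules at finite level -/

section Coeff

variable {S : Finset Nat.Primes} (A : Rep.{0} ℤ GQ)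

/-- `A` as a `Gal(F/ℚ)`-module (`Bridge.atLevel`), for `F` trivialising `A`. -/
abbrev lev (L : Level S) (hL : ∀ s ∈ L.U, A.ρ s = 1) : Rep.{0} ℤ L.Gal :=
  Fermat.Agent.S55.Bridge.atLevel A L hL

/-- Triviality passes to higher levels. -/
lemma triv_of_le {L L' : Level S} (h : L ≤ L') (hL : ∀ s ∈ L.U, A.ρ s = 1) :
    ∀ s ∈ L'.U, A.ρ s = 1 := Fermat.Agent.S55.Bridge.trivial_of_le A h hL

/-- The identity of `A` as a morphism `A_{F'} ⟶ Res (A_F)` (the `ν` of the transition maps). -/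
def levν {L L' : Level S} (h : L ≤ L') (hL : ∀ s ∈ L.U, A.ρ s = 1) :
    lev A L' (triv_of_le A h hL) ⟶ Rep.res (Level.proj h) (lev A L hL) :=
  Rep.ofHom ⟨LinearMap.id, fun g => QuotientGroup.induction_on g fun _ => rfl⟩

/-- The identity of `A` as an isomorphism `A_{F'} ≅ Res (A_F)`. -/
def levIso {L L' : Level S} (h : L ≤ L') (hL : ∀ s ∈ L.U, A.ρ s = 1) :
    lev A L' (triv_of_le A h hL) ≅ Rep.res (Level.proj h) (lev A L hL) where
  hom := levν A h hL
  inv := Fermat.Agent.S55.Bridge.levelHom A h hL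
  hom_inv_id := by
    apply Rep.hom_ext
    apply DFunLike.ext
    intro x
    rfl
  inv_hom_id := by
    apply Rep.hom_ext
    apply DFunLike.ext
    intro x
    rfl

@[simp] lemma levν_apply {L L' : Level S} (h : L ≤ L') (hL : ∀ s ∈ L.U, A.ρ s = 1)
    (a : A.V) : (levν A h hL).hom a = a := rfl

@[simp] lemma levIso_hom {L L' : Level S} (h : L ≤ L') (hL : ∀ s ∈ L.U, A.ρ s = 1) :
    (levIso A h hL).hom = levν A h hL := rfl

end Coeff

end

end Fermat.Agent.S55.E1.Lim

end
-- ===== PACK-END S55/E1/Lim/Obj.lean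

-- ===== PACK-BEGIN S55/G/Exist121/Trans.lean
section


/-!
# S55, layer G, block EXIST: transitivity of norms

Author: helper121.  Let `K₁ ⊂ L` be number fields, `G` a finite group acting on `L`, `Q` a finite
group acting on `K₁`, `φ : G → Q` a surjection compatible with the actions such that `K₁` is the
fixed field of `ker φ`, and `L/K₁` unramified outside `S`.  If `N_Q C_S(K₁) ⊆ p · C_S(K₁)^Q` then
`N_G C_S(L) ⊆ p · C_S(L)^G`  (`norm_in_p_trans`).

Proof: `N_G = N_Q ∘ N_{ker φ}` and `C_S(L)^{ker φ} = C_S(K₁)` (descent, helper773's `cBase`).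
-/

set_option autoImplicit false
set_option linter.unusedSectionVars false
set_option linter.style.haveILetI false

open scoped NumberField
open IsDedekindDomain

noncomputable section

namespace Fermat.Agent.S55.G.Exist121

open Fermat.Agent.S55.G Fermat.Agent.S55.G.DescH773

section Sum

variable {G Q M : Type*} [Group G] [Fintype G] [Group Q] [Fintype Q] [AddCommMonoid M]

/-- Summation over a finite group along a surjection `φ : G → Q`:
`∑_g f(g) = ∑_q ∑_{k ∈ ker φ} f(s(q) k)` for any section `s`. -/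
lemma sum_eq_sum_ker (φ : G →* Q) [Fintype φ.ker] (s : Q → G) (hs : ∀ q, φ (s q) = q)
    (f : G → M) : ∑ g : G, f g = ∑ q : Q, ∑ k : φ.ker, f (s q * (k : G)) := by
  classical
  let e : Q × φ.ker → G := fun x => s x.1 * (x.2 : G)
  have he : Function.Bijective e := by
    constructor
    · rintro ⟨q, k⟩ ⟨q', k'⟩ h
      have h1 : s q * (k : G) = s q' * (k' : G) := h
      have h2 := congrArg φ h1
      rw [map_mul, map_mul, hs, hs, (MonoidHom.mem_ker).1 k.2, (MonoidHom.mem_ker).1 k'.2,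
        mul_one, mul_one] at h2
      subst h2
      have h3 : (k : G) = (k' : G) := mul_left_cancel h1
      exact Prod.ext rfl (Subtype.ext h3)
    · intro g
      refine ⟨(φ g, ⟨(s (φ g))⁻¹ * g, ?_⟩), ?_⟩
      · rw [MonoidHom.mem_ker, map_mul, map_inv, hs, inv_mul_cancel]
      · show s (φ g) * ((s (φ g))⁻¹ * g) = g
        rw [mul_inv_cancel_left]
  rw [← Fintype.sum_prod_type' (f := fun q (k : φ.ker) => f (s q * (k : G)))]
  exact (Fintype.sum_equiv (Equiv.ofBijective e he) _ _ (fun x => rfl)).symm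

end Sum

/-- **Transitivity of norms.** -/
theorem norm_in_p_trans (S : Finset Nat.Primes) (p : ℕ) (G Q K₁ L : Type) [Group G] [Fintype G]
    [Group Q] [Fintype Q] [Field K₁] [NumberField K₁] [Field L] [NumberField L] [Algebra K₁ L]
    [MulSemiringAction G L] [MulSemiringAction Q K₁]
    (φ : G →* Q) (hφ : Function.Surjective φ)
    (hcompat : ∀ (g : G) (x : K₁), algebraMap K₁ L (φ g • x) = g • algebraMap K₁ L x)
    [IsGaloisGroup φ.ker K₁ L] (hS : S.Nonempty) (hunr : IsUnramOut S G L)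
    (h₁ : ∀ c₁ : CS S K₁, ∃ c₀ : CS S K₁, (∀ q : Q, cRepr S Q K₁ q c₀ = c₀) ∧
      ∑ q : Q, cRepr S Q K₁ q c₁ = p • c₀) :
    ∀ c : CS S L, ∃ c₀ : CS S L, (∀ g : G, cRepr S G L g c₀ = c₀) ∧
      ∑ g : G, cRepr S G L g c = p • c₀ := by
  classical
  intro c
  letI : Fintype φ.ker := Fintype.ofFinite _
  -- the norm for `ker φ`
  set n : CS S L := ∑ k : φ.ker, cRepr S G L (k : G) c with hn
  have hninv : ∀ k : φ.ker, cRepr S φ.ker L k n = n := by
    intro k
    rw [cRepr_subgroup, hn, map_sum]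
    refine Fintype.sum_equiv (Equiv.mulLeft k) _ _ (fun k' => ?_)
    show cRepr S G L (k : G) (cRepr S G L (k' : G) c) = cRepr S G L ((k * k' : φ.ker) : G) c
    rw [Subgroup.coe_mul, map_mul]
    rfl
  have hunr' : IsUnramOut S φ.ker L := fun w hw k hk x => hunr w hw (k : G) hk x
  have he : ∀ w : PrimeOut S L, eAt K₁ w.1 = 1 :=
    eAt_eq_one_of_isUnramOut S φ.ker K₁ L hunr'
  obtain ⟨c₁, hc₁⟩ := exists_cBase_eq_of_fixed S φ.ker K₁ L hS he n hninv
  obtain ⟨c₀', hinv, hsum⟩ := h₁ c₁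
  have hcb : ∀ (g : G) (x : CS S K₁),
      cRepr S G L g (cBase S K₁ L x) = cBase S K₁ L (cRepr S Q K₁ (φ g) x) :=
    fun g x => (cBase_cRepr_of_compat S Q G K₁ L (φ g) g (hcompat g) x).symm
  refine ⟨cBase S K₁ L c₀', fun g => ?_, ?_⟩
  · rw [hcb, hinv]
  · obtain ⟨s, hs⟩ := hφ.hasRightInverse
    rw [sum_eq_sum_ker φ s hs (fun g => cRepr S G L g c)]
    have h2 : ∀ q : Q, ∑ k : φ.ker, cRepr S G L (s q * (k : G)) c =
        cBase S K₁ L (cRepr S Q K₁ q c₁) := by
      intro q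
      have h3 : ∀ k : φ.ker, cRepr S G L (s q * (k : G)) c =
          cRepr S G L (s q) (cRepr S G L (k : G) c) := by
        intro k
        rw [map_mul]
        rfl
      simp only [h3]
      rw [← map_sum, ← hn, ← hc₁, hcb, hs]
    simp only [h2]
    rw [← map_sum, hsum, map_nsmul]

end Fermat.Agent.S55.G.Exist121

end
end
-- ===== PACK-END S55/G/Exist121/Trans.lean

-- ===== PACK-BEGIN S55/G/UnitsHerbrand.lean
section
/-
S55, layer G, block G-U (helper595): **the Herbrand quotient of the units and of the `T`-units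
of a cyclic extension of number fields** — final theorems of the block.

For `L/K` cyclic of degree `n` with generator `σ`, `f = σ - 1`, `g = N` on `Additive Lˣ`:

* `unitsHerbrandSpec`  : `[𝒪_L^× ∩ ker f : g 𝒪_L^×] * n = [𝒪_L^× ∩ ker g : f 𝒪_L^×] * ∏_{v | ∞} n_v`
  with both indices finite;
* `sUnitsHerbrandSpec` : the same for the `T`-units with `∏_{v | ∞} n_v * ∏_{v ∈ T} e_v f_v`.

Leaves: helper379 (`PermSpec`), helper793 (`LatticeSpec`), helper101 (`UnitsLogSpec`),
helper434 (`OrbitInfSpec`), helper707 (`SUnitsOrdSpec`, `SUnitsStableSpec`),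
helper831 (`TraceZeroBasisSpec`); assemblies: helper595.
-/














set_option autoImplicit false

namespace Fermat.Agent.S55.G

universe u v

/-- Herbrand quotient of the trace-zero permutation lattice. -/
theorem traceZeroSpec : TraceZeroSpec.{u, v} := traceZeroSpec_of Perm379.permSpec

/-- **Herbrand quotient of the units** of a cyclic extension of number fields. -/
theorem unitsHerbrandSpec : UnitsHerbrandSpec.{u, v} :=
  unitsHerbrandSpec_of Log101.unitsLogSpec Lat793.latticeSpec traceZeroSpec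
    Orb434.orbitInfSpec traceZeroBasisSpec

/-- **Herbrand quotient of the `T`-units** of a cyclic extension of number fields. -/
theorem sUnitsHerbrandSpec : SUnitsHerbrandSpec.{u, v} :=
  sUnitsHerbrandSpec_of unitsHerbrandSpec OrdH707.sUnitsOrd Perm379.permSpec
    StabH707.sUnitsStable

end Fermat.Agent.S55.G

end
-- ===== PACK-END S55/G/UnitsHerbrand.lean

-- ===== PACK-BEGIN S55/G/H357/SecondIneq.lean
section





/-!
# S55, layer G (helper357): the second inequality, analytic form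

`L / K` an extension of number fields, `A` a finite abelian group, and a family of completely
multiplicative functions `ψ χ` on the nonzero ideals of `K` (`χ` in the dual of `A`) with
`ψ χ v = χ (a v)` at the good primes and `ψ χ v = 0` at the (finitely many) bad primes.
If `a v = 1` for every good prime `v` of `K` lying under a prime of `L` of degree one, and the
series `L(s, ψ χ)` are bounded on `(1, 2]` for `χ ≠ 1`, then `#A ≤ [L : K]`.
-/

set_option autoImplicit false
set_option linter.unusedSectionVars false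

namespace Fermat.Agent.S55.G.H357

open NumberField IsDedekindDomain Filter Topology
open scoped nonZeroDivisors
open Fermat.Agent.S14

/-- The elementary comparison of growth rates behind the second inequality. -/
theorem growth_contra {h n : ℕ} (hnh : n < h) {c C δ : ℝ} (hc : 0 < c) (hC : 0 < C)
    (hδ : 0 < δ)
    (H : ∀ s : ℝ, 1 < s → s < 1 + δ →
      ∃ P : ℝ, 1 ≤ P ∧ c / (s - 1) ≤ P ^ n ∧ P ^ h ≤ C / (s - 1)) : False := by
  have hch : 0 < c ^ h := pow_pos hc h
  have hCn : 0 < C ^ n := pow_pos hC n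
  set t : ℝ := min (δ / 2) (min (1 / 2) (c ^ h / (2 * C ^ n))) with ht
  have ht0 : 0 < t := by
    rw [ht]
    refine lt_min (by linarith) (lt_min (by norm_num) (by positivity))
  have htδ : t < δ := lt_of_le_of_lt (min_le_left _ _) (by linarith)
  have ht1 : t ≤ 1 := by
    have : t ≤ 1 / 2 := (min_le_right _ _).trans (min_le_left _ _)
    linarith
  have htc : t * C ^ n < c ^ h := by
    have h1 : t ≤ c ^ h / (2 * C ^ n) := (min_le_right _ _).trans (min_le_right _ _)
    have h2 : t * C ^ n ≤ c ^ h / (2 * C ^ n) * C ^ n :=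
      mul_le_mul_of_nonneg_right h1 hCn.le
    have h3 : c ^ h / (2 * C ^ n) * C ^ n = c ^ h / 2 := by
      field_simp
    linarith
  obtain ⟨P, hP1, hPn, hPh⟩ := H (1 + t) (by linarith) (by linarith)
  rw [add_sub_cancel_left] at hPn hPh
  have hP0 : 0 ≤ P := by linarith
  -- `(c / t)^h ≤ P^(n h) ≤ (C / t)^n`
  have hkey : (c / t) ^ h ≤ (C / t) ^ n := by
    calc (c / t) ^ h ≤ (P ^ n) ^ h := pow_le_pow_left₀ (by positivity) hPn h
      _ = (P ^ h) ^ n := by rw [← pow_mul, ← pow_mul, mul_comm]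
      _ ≤ (C / t) ^ n := pow_le_pow_left₀ (by positivity) hPh n
  rw [div_pow, div_pow, div_le_div_iff₀ (pow_pos ht0 h) (pow_pos ht0 n)] at hkey
  -- `t^h ≤ t^(n+1)`
  have hth : t ^ h ≤ t ^ n * t := by
    rw [← pow_succ]
    exact pow_le_pow_of_le_one ht0.le ht1 hnh
  have htn : 0 < t ^ n := pow_pos ht0 n
  have : c ^ h * t ^ n ≤ (t * C ^ n) * t ^ n := by
    calc c ^ h * t ^ n ≤ C ^ n * t ^ h := hkey
      _ ≤ C ^ n * (t ^ n * t) := mul_le_mul_of_nonneg_left hth hCn.le
      _ = (t * C ^ n) * t ^ n := by ring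
  have := le_of_mul_le_mul_right this htn
  linarith

variable {K L : Type*} [Field K] [NumberField K] [Field L] [NumberField L] [Algebra K L]

/-- **Second inequality, analytic form.** -/
theorem card_le_finrank_of_bounded {A : Type*} [CommGroup A] [Finite A]
    (ψ : (A →* ℂˣ) → ((Ideal (𝓞 K))⁰ →* ℂ)) (hnorm : ∀ χ I, ‖ψ χ I‖ ≤ 1)
    (a : HeightOneSpectrum (𝓞 K) → A) (Bad : Set (HeightOneSpectrum (𝓞 K)))
    (hBad : Bad.Finite)
    (hgood : ∀ χ v, v ∉ Bad → ψ χ (H163.toI0 v) = ((χ (a v) : ℂˣ) : ℂ))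
    (hbad : ∀ χ v, v ∈ Bad → ψ χ (H163.toI0 v) = 0)
    (hbdd : ∀ χ : A →* ℂˣ, χ ≠ 1 → LrayBounded (ψ χ))
    (hsplit : ∀ w : HeightOneSpectrum (𝓞 L), (Ideal.absNorm w.asIdeal).Prime →
      und K L w ∉ Bad → a (und K L w) = 1) :
    Nat.card A ≤ Module.finrank K L := by
  by_contra hlt
  rw [not_le] at hlt
  obtain ⟨C₁, hC₁, hup⟩ := kernel_mass_le ψ hnorm a Bad hgood hbad hbdd
  obtain ⟨C₂, hC₂, hlow⟩ := lower_mass K L Bad hBad
  obtain ⟨_, CK, δK, _, hδK, hZK⟩ := H163.zetaBounds (K := K)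
  obtain ⟨cL, _, δL, hcL, hδL, hZL⟩ := H163.zetaBounds (K := L)
  refine growth_contra hlt (c := cL / C₂) (C := C₁ * (|CK| + 1)) (δ := min 1 (min δK δL))
    (by positivity) (by positivity) (lt_min one_pos (lt_min hδK hδL)) ?_
  intro s hs1 hsδ
  have hm1 : min 1 (min δK δL) ≤ 1 := min_le_left _ _
  have hm2 : min 1 (min δK δL) ≤ δK := (min_le_right _ _).trans (min_le_left _ _)
  have hm3 : min 1 (min δK δL) ≤ δL := (min_le_right _ _).trans (min_le_right _ _)
  have hs2 : s ≤ 2 := by linarith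
  have hsK : s < 1 + δK := by linarith
  have hsL : s < 1 + δL := by linarith
  have hs0 : 0 < s - 1 := by linarith
  obtain ⟨T, hT, hTle⟩ := hlow s hs1 hs2
  refine ⟨∏ v ∈ T, (1 + H163.normPow s (H163.toI0 v)), ?_, ?_, ?_⟩
  · refine Finset.one_le_prod (fun v _ => ?_)
    have := H163.normPow_pos s (H163.toI0 v)
    linarith
  · have h1 := (hZL s hs1 hsL).1
    rw [H163.zetaI_eq_zetaR] at h1
    have h2 := h1.trans hTle
    rw [div_div, div_le_iff₀ (by positivity)]
    rw [div_le_iff₀ hs0] at h2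
    calc cL ≤ C₂ * (∏ v ∈ T, (1 + H163.normPow s (H163.toI0 v))) ^ Module.finrank K L *
          (s - 1) := h2
      _ = _ := by ring
  · have h1 := (hZK s hs1 hsK).2
    rw [H163.zetaI_eq_zetaR] at h1
    have h2 := hup s hs1 hs2 T (fun v hv => by
      obtain ⟨hvB, w, hw, hwv⟩ := hT v hv
      refine ⟨hvB, ?_⟩
      rw [← hwv]
      exact hsplit w hw (hwv ▸ hvB))
    refine h2.trans ?_
    rw [mul_div_assoc]
    refine mul_le_mul_of_nonneg_left (h1.trans ?_) hC₁.le
    exact div_le_div_of_nonneg_right (by linarith [le_abs_self CK]) hs0.le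

end Fermat.Agent.S55.G.H357

end
-- ===== PACK-END S55/G/H357/SecondIneq.lean

-- ===== PACK-BEGIN S55/G/Rec/StepBH415.lean
section



/-!
# S55 / layer G / block REC, leaf SB (helper415): STEP B, `TrivAbovePSpec`

`trivAboveP_of : HassePrincipleSpec p → CyclicSplitSpec → SupportFiniteSpec → LocResSpec →
  CycloSumSpec I → TrivAbovePSpec I p`   (`p` odd).

Proof (blueprint §1 STEP B).  Let `x ∈ Br(K)`, `p ^ k • x = 0`, `x_v = 0` for `v | p`, `T` the
(finite) support of `x`.  For `N ≫ 0` the local degrees at the primes of `T` of `ℚ(ζ_{p^N})/ℚ` are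
divisible by `p ^ (k + D)`, `D = [G_ℚ : U]! · (p - 1)` (helper414, `CycloMain`).  Let `χ` be the
`p`-part of the cyclotomic character mod `p ^ N` restricted to `U`, viewed as a surjective character
onto `ℤ/p^j`.  Then all the local degrees of `ker χ` over `U` at the places above `T` are divisible
by `p ^ k`; hence `res x` is locally trivial everywhere, hence trivial by the Hasse principle,
hence `x = a ∪ δχ` by cyclic splitting, and STEP A applies.
-/

set_option autoImplicit false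

noncomputable section

namespace Fermat.Agent.S55.G.Rec.H415

open Fermat.Agent.S55.G.Rec groupCohomology Fermat.Agent.S55.H414 ExtCitation

local notation "Qb" => AlgebraicClosure ℚ
local notation "GQ" => (AlgebraicClosure ℚ ≃ₐ[ℚ] AlgebraicClosure ℚ)

/-- A homomorphism to a finite cyclic group whose values are killed by a power of `p` gives a
surjective character onto `ℤ/p^j` with the same kernel. -/
theorem exists_char_of_cyclic {G A : Type*} [Group G] [CommGroup A] [IsCyclic A] [Finite A]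
    (p : ℕ) [Fact p.Prime] (M : ℕ) (ψ : G →* A) (hψ : ∀ g, ψ g ^ (p ^ M) = 1) :
    ∃ (j : ℕ) (χ : G →* Multiplicative (ZMod (p ^ j))),
      Function.Surjective χ ∧ ∀ g, χ g = 1 ↔ ψ g = 1 := by
  have hP : IsPGroup p ψ.range := by
    rintro ⟨_, g, rfl⟩
    exact ⟨M, Subtype.ext (by simpa using hψ g)⟩
  obtain ⟨j, hj⟩ := IsPGroup.iff_card.1 hP
  have e := zmodCyclicMulEquiv (inferInstance : IsCyclic ψ.range)
  rw [hj] at e
  refine ⟨j, e.symm.toMonoidHom.comp ψ.rangeRestrict, ?_, fun g => ?_⟩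
  · exact e.symm.surjective.comp ψ.rangeRestrict_surjective
  · rw [MonoidHom.comp_apply]
    show e.symm (ψ.rangeRestrict g) = 1 ↔ _
    rw [MulEquiv.map_eq_one_iff, Subtype.ext_iff]
    rfl

/-- If `p ^ K` divides the local degree at `q` of `ℚ(ζ_{p^N})/ℚ`, some element of the local Galois
group has a cyclotomic value of order divisible by `p ^ K`. -/
theorem exists_local_elt (p : ℕ) [Fact p.Prime] (hp2 : p ≠ 2) (N K : ℕ) (Q : Nat.Primes)
    [hQ : Fact (Q : ℕ).Prime]
    (h : p ^ K ∣ (cycloLevel (p ^ N)).fixingSubgroup.relIndex (primeLocalToGlobal Q).range) :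
    ∃ τ : PadicAlgCl (Q : ℕ) ≃ₐ[ℚ_[(Q : ℕ)]] PadicAlgCl (Q : ℕ),
      p ^ K ∣ orderOf (cycloPow (p ^ N) (localGaloisToGlobal (Q : ℕ) τ)) := by
  haveI : IsCyclic (ZMod (p ^ N))ˣ := ZMod.isCyclic_units_of_prime_pow p Fact.out hp2 N
  have h' : p ^ K ∣
      (cycloLevel (p ^ N)).fixingSubgroup.relIndex (localGaloisToGlobal (Q : ℕ)).range := h
  rw [← ker_cycloPow, Subgroup.relIndex_ker, MonoidHom.map_range] at h'
  obtain ⟨⟨w, τ, rfl⟩, hw⟩ := IsCyclic.exists_generator
    (α := ↥((cycloPow (p ^ N)).comp (localGaloisToGlobal (Q : ℕ))).range)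
  refine ⟨τ, ?_⟩
  have h1 := orderOf_eq_card_of_forall_mem_zpowers hw
  rw [← Subgroup.orderOf_coe] at h1
  rw [← h1] at h'
  exact h'

/-- Localisation preserves `n`-torsion. -/
theorem nsmul_locBr_eq_zero (q : ℕ) [Fact q.Prime] (g : GQ) (U : Subgroup GQ) (x : gBr U) (n : ℕ)
    (hk : n • x = 0) : n • locBr q g U x = 0 := by
  have h1 := (locBr q g U).toAddMonoidHom.map_nsmul n x
  have h2 := congrArg (locBr q g U) hk
  rw [map_zero] at h2
  rw [← h2]
  exact h1.symm

/-- Restriction preserves `n`-torsion. -/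
theorem nsmul_gRes_eq_zero {U U' : Subgroup GQ} (h : U' ≤ U) (x : gBr U) (n : ℕ)
    (hk : n • x = 0) : n • gRes h x = 0 := by
  have h1 := (gRes h).toAddMonoidHom.map_nsmul n x
  have h2 := congrArg (gRes h) hk
  rw [map_zero] at h2
  rw [← h2]
  exact h1.symm

/-- A multiple of the order kills the invariant. -/
theorem nsmul_inv_eq_zero (I : LocalInvSystem) (q : ℕ) [Fact q.Prime]
    (V : Subgroup (PadicAlgCl q ≃ₐ[ℚ_[q]] PadicAlgCl q)) (y : lBr q V) (n d : ℕ)
    (hk : n • y = 0) (hd : n ∣ d) : d • I.inv q V y = 0 := by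
  obtain ⟨r, rfl⟩ := hd
  rw [mul_comm, mul_smul, ← map_nsmul, hk, map_zero, smul_zero]

/-- If the local degree is divisible by `n` and `n • x = 0`, then `res x` is locally trivial. -/
theorem lRes_locBr_eq_zero_of_dvd (I : LocalInvSystem) (q : ℕ) [Fact q.Prime] (g : GQ)
    {U U' : Subgroup GQ} (h : U' ≤ U) (hU' : IsOpenQ U') (x : gBr U) (n : ℕ) (hk : n • x = 0)
    (hdiv : n ∣ (locSub q g U').relIndex (locSub q g U)) :
    lRes q (V := locSub q g U) (V' := locSub q g U') (fun _ hτ => h hτ) (locBr q g U x) = 0 := by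
  have hV'open : IsOpenL q (locSub q g U') := isOpenL_locSub hU' q g
  apply I.inv_injective q _ hV'open
  refine ((I.inv_res q _ _ _ hV'open _).trans ?_).trans (map_zero _).symm
  exact nsmul_inv_eq_zero I q _ _ _ _ (nsmul_locBr_eq_zero q g U x n hk) hdiv

/-- The group-theoretic key: the local degrees of `ker χ` are divisible by `p ^ k`. -/
theorem pow_dvd_relIndex_locSub_ker (p : ℕ) [Fact p.Prime] (q : ℕ) [Fact q.Prime] (g : GQ)
    (U : Subgroup GQ) (hidx : U.index ≠ 0) {C : Type*} [CommGroup C] (c : GQ →* C) (e : ℕ)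
    (he : 0 < e) (j : ℕ) (χ : ↥U →* Multiplicative (ZMod (p ^ j)))
    (hχc : ∀ u : ↥U, χ u = 1 ↔ c (u : GQ) ^ e = 1)
    (τ : PadicAlgCl q ≃ₐ[ℚ_[q]] PadicAlgCl q) (k : ℕ)
    (hτ : p ^ (k + (U.index).factorial * e) ∣ orderOf (c (localGaloisToGlobal q τ))) :
    p ^ k ∣ (locSub q g (χ.ker.map U.subtype)).relIndex (locSub q g U) := by
  have hp : p.Prime := Fact.out
  obtain ⟨D₀, hD₀⟩ : ∃ D₀ : ℕ, D₀ = (U.index).factorial := ⟨_, rfl⟩
  obtain ⟨D, hD⟩ : ∃ D : ℕ, D = D₀ * e := ⟨_, rfl⟩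
  rw [← hD₀, ← hD] at hτ
  have hDpos : 0 < D := by
    rw [hD, hD₀]
    exact Nat.mul_pos (Nat.factorial_pos _) he
  have hcardB : Nat.card (Multiplicative (ZMod (p ^ j))) = p ^ j :=
    (Nat.card_congr Multiplicative.toAdd).trans (Nat.card_zmod _)
  rw [relIndex_locSub_ker]
  have hcard : Nat.card (χ.comp (locHom q g U)).range ∣ p ^ j := by
    have := Subgroup.card_subgroup_dvd_card (χ.comp (locHom q g U)).range
    rwa [hcardB] at this
  obtain ⟨i, -, hi⟩ := (Nat.dvd_prime_pow hp).1 hcard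
  rw [hi]
  apply pow_dvd_pow
  by_contra hlt
  rw [not_le] at hlt
  have hτV : τ ^ D₀ ∈ locSub q g U := by
    rw [mem_locSub, map_pow, ← conj_pow, hD₀]
    exact Subgroup.pow_mem_of_index_ne_zero_of_dvd hidx _
      (fun m hm hm' => Nat.dvd_factorial hm hm')
  have hw1 : (χ.comp (locHom q g U)) ⟨τ ^ D₀, hτV⟩ ^ (p ^ i) = 1 := by
    have hwmem : (χ.comp (locHom q g U)) ⟨τ ^ D₀, hτV⟩ ∈ (χ.comp (locHom q g U)).range :=
      ⟨_, rfl⟩
    have h := pow_card_eq_one' (G := ↥(χ.comp (locHom q g U)).range)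
      (x := ⟨_, hwmem⟩)
    rw [hi] at h
    exact congrArg Subtype.val h
  have h2 : χ ((locHom q g U ⟨τ ^ D₀, hτV⟩) ^ (p ^ i)) = 1 := by
    rw [map_pow]
    exact hw1
  rw [hχc, Subgroup.coe_pow, map_pow] at h2
  have h3 : c ((locHom q g U ⟨τ ^ D₀, hτV⟩ : ↥U) : GQ) = c (localGaloisToGlobal q τ) ^ D₀ := by
    rw [locHom_coe]
    simp only [map_mul, map_inv, map_pow]
    rw [mul_comm, inv_mul_cancel_left]
  rw [h3, ← pow_mul, ← pow_mul] at h2
  have h4 : orderOf (c (localGaloisToGlobal q τ)) ∣ D₀ * (p ^ i * e) :=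
    orderOf_dvd_of_pow_eq_one h2
  have h5 : p ^ (k + D) ∣ D * p ^ i := by
    have : D₀ * (p ^ i * e) = D * p ^ i := by rw [hD]; ring
    rw [← this]
    exact hτ.trans h4
  have h6 : p ^ i * p ^ (D + 1) ∣ p ^ i * D := by
    rw [← pow_add, mul_comm (p ^ i) D]
    exact (pow_dvd_pow p (by omega)).trans h5
  have h7 : p ^ (D + 1) ∣ D := Nat.dvd_of_mul_dvd_mul_left (pow_pos hp.pos i) h6
  have h8 := Nat.le_of_dvd hDpos h7
  have h9 : D < p ^ (D + 1) :=
    (Nat.lt_pow_self hp.one_lt).trans_le (Nat.pow_le_pow_right hp.pos (Nat.le_succ _))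
  omega

/-- **STEP B** of the norm route. -/
theorem trivAboveP_of (I : LocalInvSystem) (p : ℕ) [Fact p.Prime] (hp2 : p ≠ 2)
    (hHP : HassePrincipleSpec p) (hK4 : CyclicSplitSpec) (hG4 : SupportFiniteSpec)
    (hG5 : LocResSpec) (hSA : CycloSumSpec I) : TrivAbovePSpec I p := by
  intro U hU x hx hloc R hR
  obtain ⟨k, hk⟩ := hx
  have hp : p.Prime := Fact.out
  have hTfin := hG4 I U hU x
  have hidx : U.index ≠ 0 := index_ne_zero_of_isOpenQ hU
  have hepos : 0 < p - 1 := Nat.sub_pos_of_lt hp.one_lt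
  obtain ⟨n₀, hn₀⟩ := exists_forall_forall_pow_dvd_relIndex_primeLocal p hTfin.toFinset
    (k + (U.index).factorial * (p - 1))
  obtain ⟨N, hNdef⟩ : ∃ N : ℕ, N = n₀ + 1 := ⟨_, rfl⟩
  have hN := hn₀ N (by omega)
  haveI : IsCyclic (ZMod (p ^ N))ˣ := ZMod.isCyclic_units_of_prime_pow p hp hp2 N
  -- the character
  obtain ⟨ψ, hψ_apply⟩ : ∃ ψ : ↥U →* (ZMod (p ^ N))ˣ,
      ∀ u : ↥U, ψ u = cycloPow (p ^ N) (u : GQ) ^ (p - 1) :=
    ⟨(powMonoidHom (p - 1)).comp ((cycloPow (p ^ N)).comp U.subtype), fun u => rfl⟩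
  have hψ : ∀ u, ψ u ^ (p ^ n₀) = 1 := by
    intro u
    rw [hψ_apply, ← pow_mul, mul_comm]
    have h1 : p ^ n₀ * (p - 1) = Nat.totient (p ^ N) := by
      rw [hNdef, Nat.totient_prime_pow_succ hp n₀]
    rw [h1]
    exact ZMod.pow_totient _
  obtain ⟨j, χ, hsurj, hχ1⟩ := exists_char_of_cyclic p n₀ ψ hψ
  have hχc : ∀ u : ↥U, χ u = 1 ↔ cycloPow (p ^ N) (u : GQ) ^ (p - 1) = 1 := by
    intro u
    rw [hχ1, hψ_apply]
  have hker : ∀ u : ↥U, (u : GQ) ∈ (cycloLevel (p ^ N)).fixingSubgroup → χ u = 1 := by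
    intro u hu
    rw [hχc]
    rw [← ker_cycloPow, MonoidHom.mem_ker] at hu
    rw [hu, one_pow]
  have hlevel : IsLevelConstant₁ U.subtype χ :=
    ⟨cycloLevel (p ^ N), inferInstance, fun g s hs => by rw [map_mul, hker s hs, mul_one]⟩
  have hcyc : IsCycloChar U (p ^ N) χ := by
    intro σ hσ
    apply hker
    rw [mem_fixingSubgroup_cycloLevel_iff]
    exact hσ _ (zetaBar_spec (p ^ N)).pow_eq_one
  haveI : NeZero (p ^ j) := ⟨pow_ne_zero _ hp.ne_zero⟩
  have hodd : Odd (p ^ j) := (hp.odd_of_ne_two hp2).pow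
  -- the kernel is open
  have hU' : IsOpenQ (χ.ker.map U.subtype) := by
    refine isOpenQ_of_level hU (cycloLevel (p ^ N)) (fun σ hσU hσ => ?_)
    exact ⟨⟨σ, hσU⟩, hker ⟨σ, hσU⟩ hσ, rfl⟩
  -- the restriction to the kernel is locally trivial, hence trivial
  have hres : gRes (U := U) (U' := χ.ker.map U.subtype) (Subgroup.map_subtype_le _) x = 0 := by
    refine hHP _ hU' _ ⟨k, nsmul_gRes_eq_zero _ x _ hk⟩ ?_
    intro q hq g
    obtain ⟨Q, rfl⟩ : ∃ Q : Nat.Primes, (Q : ℕ) = q := ⟨⟨q, hq.out⟩, rfl⟩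
    rw [hG5 (Q : ℕ) g U _ (Subgroup.map_subtype_le _) x]
    by_cases hqT : Q ∈ hTfin.toFinset
    · -- the local degree is divisible by `p ^ k`
      exact (exists_local_elt p hp2 N _ Q (hN Q hqT)).elim fun τ hτ =>
        lRes_locBr_eq_zero_of_dvd I (Q : ℕ) g (Subgroup.map_subtype_le _) hU' x (p ^ k) hk
          (pow_dvd_relIndex_locSub_ker p (Q : ℕ) g U hidx (cycloPow (p ^ N)) (p - 1) hepos j χ
            hχc τ k hτ)
    · have h0 : locBr (Q : ℕ) g U x = 0 := by
        by_contra h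
        exact hqT (hTfin.mem_toFinset.2 ⟨g, h⟩)
      rw [h0, map_zero]
  obtain ⟨a, ha, hxa⟩ := hK4 U hU (p ^ j) χ hlevel hsurj x hres
  rw [hxa]
  refine hSA U hU p hp2 N (by omega) (p ^ j) hodd χ hlevel hcyc a ha (fun g => ?_) R hR
  rw [← hxa]
  exact hloc g

end Fermat.Agent.S55.G.Rec.H415

end
end
-- ===== PACK-END S55/G/Rec/StepBH415.lean

-- ===== PACK-BEGIN S55/L/UnrInv/PackInv.lean
section


/-!
# S55, layer L, unramified invariants: the invariant map of a package, normalisation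
-/

set_option autoImplicit false
set_option linter.style.haveILetI false

namespace Fermat.Agent.S55.L.UnrInv

open groupCohomology

theorem sub_mem_nonunits {F : Type*} [Field F] (C : ValuationSubring F) {a b : F}
    (ha : a ∈ C.nonunits) (hb : b ∈ C.nonunits) : a - b ∈ C.nonunits := by
  rw [C.mem_nonunits_iff] at ha hb ⊢
  exact lt_of_le_of_lt (Valuation.map_sub _ _ _) (max_lt ha hb)

variable {K E : Type} [Field K] [Field E] [Algebra K E]

namespace UnrPack

variable (P : UnrPack K E)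

section

variable [FiniteDimensional K E] [IsGalois K E]

theorem frob_pow_finrank : P.φ ^ Module.finrank K E = 1 := by
  rw [← IsGalois.card_aut_eq_finrank K E]
  exact pow_card_eq_one'

theorem orderOf_frob : orderOf P.φ = Module.finrank K E := by
  rw [← IsGalois.card_aut_eq_finrank K E]
  apply orderOf_eq_card_of_forall_mem_zpowers
  exact P.gen

/-- The invariant map attached to a package. -/
noncomputable def inv : H2 (unitsRep K E) →+ AddCircle (1 : ℚ) :=
  cycInv P.φ (Module.finrank K E) Module.finrank_pos P.frob_pow_finrank P.w P.w_invariant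

theorem inv_cls (c : cocycles₂ (unitsRep K E)) :
    P.inv (cls c) =
      (((P.w (cycSum P.φ (Module.finrank K E) (c : _ × _ → unitsRep K E)) : ℤ) : ℚ) /
        (Module.finrank K E : ℚ) : ℚ) :=
  cycInv_H2π _ _ _ _ _ _ c

end

/-- Uniqueness of the Frobenius. -/
theorem frob_unique [FiniteDimensional K E] [IsLocalFld K]
    (h0 : RingOfIntegersUniqueSpec) (h1 : FiniteExtSpec)
    {φ' : E ≃ₐ[K] E} (hφ' : IsFrobeniusElt K E φ') : φ' = P.φ := by
  haveI : IsLocalFld E := h1 K E
  obtain ⟨A₁, B₁, hA₁, hB₁, hfrob⟩ := hφ'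
  obtain rfl : A₁ = P.A := h0 K A₁ P.A hA₁ P.hA
  obtain rfl : B₁ = P.B := h0 E B₁ P.B hB₁ P.hB
  have key : P.φ⁻¹ * φ' = 1 := by
    apply P.inertia
    intro x hx
    have h2 : φ' x - P.φ x ∈ P.B.nonunits := by
      have := sub_mem_nonunits P.B (hfrob x hx) (P.frob x hx)
      simpa using this
    have h3 : P.φ⁻¹ (φ' x - P.φ x) ∈ P.B.nonunits := (P.galNon P.φ⁻¹ _).mpr h2
    have h4 : P.φ⁻¹ (φ' x - P.φ x) = (P.φ⁻¹ * φ') x - x := by
      rw [map_sub, AlgEquiv.mul_apply]
      congr 1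
      exact P.φ.symm_apply_apply x
    rw [← h4]
    exact h3
  have := congrArg (fun g => P.φ * g) key
  simpa [← mul_assoc] using this

/-- **Normalisation**: the class of the cyclic cocycle of `(Frobenius, uniformizer)` has
invariant `1/n`. -/
theorem inv_cyclic [FiniteDimensional K E] [IsGalois K E] [IsLocalFld K]
    (h0 : RingOfIntegersUniqueSpec) (h1 : FiniteExtSpec)
    (A' : ValuationSubring K) (hA' : IsLocalRingOfIntegers A')
    (φ' : E ≃ₐ[K] E) (hφ' : IsFrobeniusElt K E φ')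
    (π : Kˣ) (hπ : IsUniformizer A' (π : K))
    (f : cocycles₂ (unitsRep K E)) (hf : IsCyclicCocycle φ' π f) :
    P.inv (cls f) = (((Module.finrank K E : ℚ)⁻¹ : ℚ) : AddCircle (1 : ℚ)) := by
  obtain rfl : A' = P.A := h0 K A' P.A hA' P.hA
  obtain rfl : φ' = P.φ := P.frob_unique h0 h1 hφ'
  rw [P.inv_cls]
  have hn : 0 < Module.finrank K E := Module.finrank_pos
  rcases Nat.lt_or_ge 1 (Module.finrank K E) with h2 | h2
  · -- `n ≥ 2`
    obtain ⟨a, ha⟩ : ∃ a : unitsRep K E,
        a = Additive.ofMul (Units.map (algebraMap K E : K →* E) π) := ⟨_, rfl⟩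
    have hf' : ∀ i j : ℕ, i < Module.finrank K E → j < Module.finrank K E →
        (f : _ × _ → unitsRep K E) (P.φ ^ i, P.φ ^ j) =
          if i + j < Module.finrank K E then 0 else a := by
      intro i j hi hj
      rw [ha]
      exact hf i j hi hj
    have hsum : cycSum P.φ (Module.finrank K E) (f : _ × _ → unitsRep K E) = a := by
      unfold cycSum
      have hterm : ∀ i ∈ Finset.range (Module.finrank K E),
          (f : _ × _ → unitsRep K E) (P.φ ^ i, P.φ) =
            if i = Module.finrank K E - 1 then a else 0 := by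
        intro i hi
        rw [Finset.mem_range] at hi
        have := hf' i 1 hi h2
        rw [pow_one] at this
        rw [this]
        by_cases hi' : i = Module.finrank K E - 1
        · rw [if_neg (by omega), if_pos hi']
        · rw [if_pos (by omega), if_neg hi']
      rw [Finset.sum_congr rfl hterm, Finset.sum_ite_eq' (Finset.range (Module.finrank K E))
        (Module.finrank K E - 1), if_pos (Finset.mem_range.mpr (by omega))]
    rw [hsum, P.w_apply, ha]
    have : ((Additive.toMul (α := Eˣ)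
        (Additive.ofMul (Units.map (algebraMap K E : K →* E) π)) : Eˣ) : E) =
          algebraMap K E (π : K) := rfl
    rw [this, P.ordπ (π : K) hπ]
    simp [one_div]
  · -- `n = 1`
    have hn1 : Module.finrank K E = 1 := by omega
    have hφ1 : P.φ = 1 := by
      have := P.frob_pow_finrank
      rwa [hn1, pow_one] at this
    have hsum : cycSum P.φ (Module.finrank K E) (f : _ × _ → unitsRep K E) = 0 := by
      unfold cycSum
      rw [hn1, Finset.sum_range_one]
      have := hf 0 0 hn hn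
      rw [if_pos (by omega), pow_zero] at this
      rw [pow_zero, hφ1]
      exact this
    rw [hsum, map_zero, hn1]
    simp only [Int.cast_zero, Nat.cast_one, div_one, inv_one]
    rw [AddCircle.coe_zero]
    exact (AddCircle.coe_period (1 : ℚ)).symm

end UnrPack

end Fermat.Agent.S55.L.UnrInv

end
-- ===== PACK-END S55/L/UnrInv/PackInv.lean

-- ===== PACK-BEGIN S55/H654/Selmer.lean
section




set_option autoImplicit false
set_option linter.style.haveILetI false
set_option linter.unusedSectionVars false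
set_option linter.unusedVariables false

/-!
# S55, leaf G5-FIN (helper654), part 3: finiteness of `H¹_cont(G_S, M)`

Kummer theory: `S`-level characters of `G_L` (`μ_p ⊂ L`) inject into the Selmer group
`L(S_L, p)`, which is finite (helper901).
-/

namespace Fermat.Agent.S55.H654

open groupCohomology IntermediateField ExtCitation NumberField IsDedekindDomain

attribute [local instance] Fermat.Agent.S55.Bridge.isAlgebraic_Qbar
  Fermat.Agent.S55.Bridge.isGalois_Qbar Fermat.Agent.S55.Bridge.H594.numberField_of_finite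

/-- If `q` is unramified in `E` (no prime of `𝓞 E` contains `q` to the second power), `v` is a
prime of `𝓞 K` over `q`, and `α ∈ Kˣ` becomes a `p`-th power in `E`, then `p ∣ v(α)`. -/
theorem dvd_valuationOfNeZero_of_pow_eq {K E : Type*} [Field K] [NumberField K] [Field E]
    [NumberField E] [Algebra K E] {p : ℕ} (hp : p ≠ 0)
    (v : HeightOneSpectrum (𝓞 K)) (q : ℕ) (hqv : (q : 𝓞 K) ∈ v.asIdeal)
    (hunr : ∀ P : Ideal (𝓞 E), P.IsPrime → (q : 𝓞 E) ∈ P → (q : 𝓞 E) ∉ P ^ 2)
    (α : Kˣ) (β : E) (h : algebraMap K E α = β ^ p) :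
    (p : ℤ) ∣ Multiplicative.toAdd (v.valuationOfNeZero α) := by
  haveI : v.asIdeal.IsMaximal := v.isMaximal
  obtain ⟨P, hPmax, hPover⟩ :=
    Ideal.exists_maximal_ideal_liesOver_of_isIntegral (S := 𝓞 E) v.asIdeal
  have hP0 : P ≠ ⊥ := Ideal.ne_bot_of_liesOver_of_ne_bot v.ne_bot P
  let w : HeightOneSpectrum (𝓞 E) := ⟨P, hPmax.isPrime, hP0⟩
  haveI : w.asIdeal.LiesOver v.asIdeal := hPover
  have hle : Ideal.map (algebraMap (𝓞 K) (𝓞 E)) v.asIdeal ≤ P := by
    rw [Ideal.map_le_iff_le_comap]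
    exact (Ideal.over_def P v.asIdeal).le
  have hqP : (q : 𝓞 E) ∈ P := by
    have := hle (Ideal.mem_map_of_mem (algebraMap (𝓞 K) (𝓞 E)) hqv)
    simpa using this
  have he : Ideal.ramificationIdx' v.asIdeal w.asIdeal = 1 := by
    apply Ideal.ramificationIdx'_spec
    · simpa using hle
    · intro hcon
      have := hcon (Ideal.mem_map_of_mem (algebraMap (𝓞 K) (𝓞 E)) hqv)
      apply hunr P hPmax.isPrime hqP
      simpa using this
  have hval := HeightOneSpectrum.valuation_liesOver (K := K) E v w (α : K)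
  rw [he, pow_one, h, map_pow] at hval
  have hβ0 : β ≠ 0 := by
    intro hβ
    rw [hβ, zero_pow hp] at h
    exact α.ne_zero ((map_eq_zero_iff _ (algebraMap K E).injective).1 h)
  have h1 : ((v.valuationOfNeZero α : Multiplicative ℤ) : WithZero (Multiplicative ℤ)) =
      (((w.valuationOfNeZero (Units.mk0 β hβ0)) ^ p : Multiplicative ℤ) :
        WithZero (Multiplicative ℤ)) := by
    rw [WithZero.coe_pow, HeightOneSpectrum.valuationOfNeZero_eq,
      HeightOneSpectrum.valuationOfNeZero_eq]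
    exact hval
  have h2 := WithZero.coe_inj.1 h1
  rw [h2, toAdd_pow, nsmul_eq_mul]
  exact dvd_mul_right _ _

theorem not_map_le_sq_of_ramificationIdx'_eq_one {R T : Type*} [CommRing R] [CommRing T]
    [Algebra R T] {p : Ideal R} {P : Ideal T}
    (h : Ideal.ramificationIdx' p P = 1) : ¬ Ideal.map (algebraMap R T) p ≤ P ^ 2 := by
  intro hcon
  by_cases hb : BddAbove {n | Ideal.map (algebraMap R T) p ≤ P ^ n}
  · have h2 : 2 ≤ Ideal.ramificationIdx' p P := le_csSup hb hcon
    omega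
  · have h0 : Ideal.ramificationIdx' p P = 0 := Nat.sSup_of_not_bddAbove hb
    omega

/-- A prime number `q ∉ S` is not in the square of any prime of `𝓞 F`, for `F` finite Galois and
unramified outside `S`. -/
theorem natCast_notMem_sq_of_isUnramifiedOutside (F : IntermediateField ℚ (AlgebraicClosure ℚ))
    [FiniteDimensional ℚ F] [IsGalois ℚ F] (S : Finset Nat.Primes)
    (hF : F.IsUnramifiedOutside S) (q : Nat.Primes) (hq : q ∉ S)
    (P : Ideal (𝓞 F)) (hP : P.IsPrime) (hqP : ((q : ℕ) : 𝓞 F) ∈ P) :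
    ((q : ℕ) : 𝓞 F) ∉ P ^ 2 := by
  haveI hgal : IsGaloisGroup (F ≃ₐ[ℚ] F) ℤ (𝓞 F) :=
    IsGaloisGroup.of_isFractionRing (F ≃ₐ[ℚ] F) ℤ (𝓞 F) ℚ F
  haveI hmax : (Ideal.span {((q : ℕ) : ℤ)}).IsMaximal :=
    PrincipalIdealRing.isMaximal_of_irreducible (Nat.prime_iff_prime_int.mp q.2).irreducible
  haveI hprime : (Ideal.span {((q : ℕ) : ℤ)}).IsPrime := hmax.isPrime
  haveI := hP
  haveI := Bridge.H594.liesOver_span_of_natCast_mem F q.2 P hqP
  have h1 := (Bridge.H594.isUnramifiedOutside_iff_ramificationIdxIn F S).1 hF q hq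
  have h2 := Ideal.ramificationIdxIn_eq_ramificationIdx (Ideal.span {((q : ℕ) : ℤ)}) P
    (F ≃ₐ[ℚ] F)
  have hq0 : Ideal.span {((q : ℕ) : ℤ)} ≠ ⊥ := by
    rw [Ne, Ideal.span_singleton_eq_bot]
    exact_mod_cast q.2.ne_zero
  have h3 := Ideal.ramificationIdx'_eq_ramificationIdx (Ideal.span {((q : ℕ) : ℤ)}) P hq0
  have h4 : Ideal.ramificationIdx' (Ideal.span {((q : ℕ) : ℤ)}) P = 1 := by
    rw [h3, ← h2, h1]
  have h5 := not_map_le_sq_of_ramificationIdx'_eq_one h4
  intro hcon
  apply h5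
  rw [Ideal.map_span, Ideal.span_le]
  rintro _ ⟨x, hx, rfl⟩
  rw [Set.mem_singleton_iff] at hx
  subst hx
  simpa using hcon

/-- Every height one prime of the ring of integers of a number field contains a prime number. -/
theorem exists_prime_natCast_mem {K : Type*} [Field K] [NumberField K]
    (v : HeightOneSpectrum (𝓞 K)) : ∃ q : Nat.Primes, ((q : ℕ) : 𝓞 K) ∈ v.asIdeal := by
  have hne : v.asIdeal.under ℤ ≠ ⊥ := Ideal.under_ne_bot ℤ v.ne_bot
  haveI : (v.asIdeal.under ℤ).IsPrime := Ideal.IsPrime.under ℤ v.asIdeal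
  obtain ⟨g, hg⟩ := (inferInstance : (v.asIdeal.under ℤ).IsPrincipal)
  have hg' : v.asIdeal.under ℤ = Ideal.span {g} := hg
  have hg0 : g ≠ 0 := by
    rintro rfl
    apply hne
    rw [hg']
    simp
  have hgp : Prime g := by
    rw [← Ideal.span_singleton_prime hg0, ← hg']
    infer_instance
  have hq : (g.natAbs).Prime := Int.prime_iff_natAbs_prime.1 hgp
  refine ⟨⟨g.natAbs, hq⟩, ?_⟩
  have h1 : ((g.natAbs : ℕ) : ℤ) ∈ v.asIdeal.under ℤ := by
    rw [hg', Ideal.mem_span_singleton]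
    exact Int.dvd_natCast.mpr (dvd_refl _)
  have h2 : algebraMap ℤ (𝓞 K) ((g.natAbs : ℕ) : ℤ) ∈ v.asIdeal := h1
  simpa using h2

/-- The primes of `𝓞 K` above a finite set `S` of prime numbers. -/
def primesAbove {K : Type*} [Field K] [NumberField K] (S : Finset Nat.Primes) :
    Set (HeightOneSpectrum (𝓞 K)) :=
  {v | ∃ q ∈ S, ((q : ℕ) : 𝓞 K) ∈ v.asIdeal}

theorem primesAbove_finite {K : Type*} [Field K] [NumberField K] (S : Finset Nat.Primes) :
    (primesAbove (K := K) S).Finite := by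
  have h : primesAbove (K := K) S =
      ⋃ q ∈ S, {v : HeightOneSpectrum (𝓞 K) | ((q : ℕ) : 𝓞 K) ∈ v.asIdeal} := by
    ext v
    simp [primesAbove]
  rw [h]
  refine Set.Finite.biUnion S.finite_toSet (fun q _ => ?_)
  have hq0 : Ideal.span {((q : ℕ) : 𝓞 K)} ≠ 0 := by
    rw [Ne, Ideal.zero_eq_bot, Ideal.span_singleton_eq_bot]
    exact_mod_cast q.2.ne_zero
  refine (Ideal.finite_factors hq0).subset (fun v hv => ?_)
  simp only [Set.mem_ofPred_eq] at hv ⊢
  rw [Ideal.dvd_iff_le, Ideal.span_le, Set.singleton_subset_iff]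
  exact hv

variable {p : ℕ} [Fact p.Prime] (S : Finset Nat.Primes)

/-- **Kummer classes are unramified outside `S`.** -/
theorem kummer_mem_selmerGroup (L : IntermediateField ℚ (AlgebraicClosure ℚ))
    [FiniteDimensional ℚ L] {F' : IntermediateField ℚ (AlgebraicClosure ℚ)}
    (hF' : F'.IsUnramifiedOutside S) (hGal : IsGalois ℚ F') (hLF' : L ≤ F')
    {β : AlgebraicClosure ℚ} (hβF' : β ∈ F') (hβL : β ^ p ∈ L) (hβ0 : β ≠ 0) :
    (QuotientGroup.mk (Units.mk0 (⟨β ^ p, hβL⟩ : L)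
        (fun h => pow_ne_zero p hβ0 (congrArg Subtype.val h))) :
      (↥L)ˣ ⧸ (powMonoidHom p : (↥L)ˣ →* (↥L)ˣ).range) ∈
      selmerGroup (R := 𝓞 L) (K := L) (S := primesAbove (K := L) S) (n := p) := by
  have hp0 : p ≠ 0 := (Fact.out : p.Prime).ne_zero
  haveI : FiniteDimensional ℚ F' := hF'.1
  intro v hv
  rw [Fermat.Agent.S55.H901.valuationOfNeZeroMod_mk_eq_one_iff]
  obtain ⟨q, hq⟩ := exists_prime_natCast_mem v
  have hqS : q ∉ S := fun hqS => hv ⟨q, hqS, hq⟩
  letI : Algebra ↥L ↥F' := (IntermediateField.inclusion hLF').toRingHom.toAlgebra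
  exact dvd_valuationOfNeZero_of_pow_eq (K := L) (E := F') hp0 v q hq
    (fun P hP hqP => natCast_notMem_sq_of_isUnramifiedOutside F' S hF' q hqS P hP hqP)
    _ ⟨β, hβF'⟩ (Subtype.ext rfl)

/-- **Finiteness of level characters** (Kummer theory + finiteness of the Selmer group). -/
theorem finite_levelChar (L : IntermediateField ℚ (AlgebraicClosure ℚ))
    [FiniteDimensional ℚ L] (hL : L.IsUnramifiedOutside S)
    {ζ : AlgebraicClosure ℚ} (hζ : IsPrimitiveRoot ζ p) (hζL : ζ ∈ L) :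
    (LevelChar S L (ZMod p)).Finite := by
  have hp0 : p ≠ 0 := (Fact.out : p.Prime).ne_zero
  let Sel : Subgroup ((↥L)ˣ ⧸ (powMonoidHom p : (↥L)ˣ →* (↥L)ˣ).range) :=
    selmerGroup (R := 𝓞 L) (K := L) (S := primesAbove (K := L) S) (n := p)
  have hfin : Finite Sel :=
    Fermat.Agent.S55.H901.selmerGroup_finite (primesAbove_finite S) (Nat.pos_of_ne_zero hp0)
  -- the relation "c is the Kummer class of χ"
  let Rel : (L.fixingSubgroup → ZMod p) →
      ((↥L)ˣ ⧸ (powMonoidHom p : (↥L)ˣ →* (↥L)ˣ).range) → Prop :=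
    fun χ c => ∃ (β : AlgebraicClosure ℚ) (hβL : β ^ p ∈ L) (hβ0 : β ≠ 0),
      IsKummerGen L ζ χ β ∧
      c = QuotientGroup.mk (Units.mk0 (⟨β ^ p, hβL⟩ : L)
        (fun h => pow_ne_zero p hβ0 (congrArg Subtype.val h)))
  have hsub : ∀ c, {χ | Rel χ c}.Subsingleton := by
    rintro c χ ⟨β, hβL, hβ0, hgen, hc⟩ χ' ⟨β', hβ'L, hβ'0, hgen', hc'⟩
    rw [hc] at hc'
    rw [QuotientGroup.eq] at hc'
    obtain ⟨γ, hγ⟩ := hc'
    have hγ' := congrArg (fun u : (↥L)ˣ => ((u : L) : AlgebraicClosure ℚ)) hγ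
    simp only [powMonoidHom_apply, Units.val_pow_eq_pow_val, SubmonoidClass.coe_pow,
      Units.val_mul, Units.val_inv_eq_inv_val, Units.val_mk0, MulMemClass.coe_mul,
      IntermediateField.coe_inv] at hγ'
    refine IsKummerGen.eq_of_pow_eq hζ hζL hgen hgen' hβ0 hβ'0 (γ : L).2 ?_
    rw [hγ']
    field_simp
  have hex : ∀ χ ∈ LevelChar S L (ZMod p), ∃ c ∈ (Sel : Set ((↥L)ˣ ⧸ (powMonoidHom p : (↥L)ˣ →* (↥L)ˣ).range)), Rel χ c := by
    intro χ hχ
    obtain ⟨F', β, hF', hGal, hLF', hβF', hβ0, hgen⟩ := exists_kummer_generator S L hL hζ hζL hχ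
    have hβL : β ^ p ∈ L := IsKummerGen.pow_mem hζ.pow_eq_one (χ := χ) hgen
    exact ⟨_, kummer_mem_selmerGroup S L hF' hGal hLF' hβF' hβL hβ0, β, hβL, hβ0, hgen, rfl⟩
  have hfin' : (Sel : Set ((↥L)ˣ ⧸ (powMonoidHom p : (↥L)ˣ →* (↥L)ˣ).range)).Finite := Set.toFinite _
  refine (Set.Finite.biUnion hfin' (fun c _ => (hsub c).finite)).subset (fun χ hχ => ?_)
  obtain ⟨c, hc, hrel⟩ := hex χ hχ
  exact Set.mem_biUnion hc hrel

/-- **G5-FIN.** `H¹_cont(G_{ℚ,S}, M)` is finite-dimensional for every finite-dimensional smooth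
`𝔽_p`-representation `M` of `G_ℚ` unramified outside `S ∋ p`. -/
theorem finiteDimensional_continuousH1S (hpS : pPrime p ∈ S)
    (M : Rep.{0, 0, 0} (ZMod p) (AlgebraicClosure ℚ ≃ₐ[ℚ] AlgebraicClosure ℚ))
    [FiniteDimensional (ZMod p) M]
    (hsm : ∀ m : M, ∃ F : IntermediateField ℚ (AlgebraicClosure ℚ),
      FiniteDimensional ℚ F ∧ ∀ s ∈ F.fixingSubgroup, M.ρ s m = m)
    (hMur : ∀ q : Nat.Primes, q ∉ S → ∀ A : ValuationSubring (AlgebraicClosure ℚ),
      A.LiesOverPrime (q : ℕ) → ∀ g ∈ A.inertiaSubgroupIn ℚ, M.ρ g = 1) :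
    FiniteDimensional (ZMod p) (continuousH1S S M) := by
  obtain ⟨L, hL, hGal, hLM, hcyc, -⟩ := Bridge.exists_common_galois_level M S hpS hsm hMur
  obtain ⟨ζ, hζ⟩ := exists_primitiveRoot_Qbar (p := p)
  have hζL : ζ ∈ L := primitiveRoot_mem_of_cycloChar L hcyc hζ.pow_eq_one
  haveI : FiniteDimensional ℚ L := hL.1
  exact finiteDimensional_continuousH1S_of_levelChar S M L hL.1 hLM
    (finite_levelChar S L hL hζ hζL)

/-- `Ш¹_S(A)` is finite-dimensional. -/
theorem finiteDimensional_sha₁ (hpS : pPrime p ∈ S)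
    (A : Rep.{0, 0, 0} (ZMod p) (AlgebraicClosure ℚ ≃ₐ[ℚ] AlgebraicClosure ℚ))
    [FiniteDimensional (ZMod p) A]
    (hsm : ∀ m : A, ∃ F : IntermediateField ℚ (AlgebraicClosure ℚ),
      FiniteDimensional ℚ F ∧ ∀ s ∈ F.fixingSubgroup, A.ρ s m = m)
    (hur : ∀ q : Nat.Primes, q ∉ S → ∀ V : ValuationSubring (AlgebraicClosure ℚ),
      V.LiesOverPrime (q : ℕ) → ∀ g ∈ V.inertiaSubgroupIn ℚ, A.ρ g = 1) :
    FiniteDimensional (ZMod p) (sha₁ S A) := by
  haveI := finiteDimensional_continuousH1S S hpS A hsm hur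
  exact Submodule.finiteDimensional_of_le (inf_le_left : sha₁ S A ≤ continuousH1S S A)

/-- `Ш¹_S(M^∨(1))` is finite-dimensional: the `Ш¹` side of the frozen statement S55. -/
theorem finiteDimensional_sha₁_dualTwist (hpS : pPrime p ∈ S)
    (M : Rep.{0, 0, 0} (ZMod p) (AlgebraicClosure ℚ ≃ₐ[ℚ] AlgebraicClosure ℚ))
    [FiniteDimensional (ZMod p) M]
    (hsm : ∀ m : M, ∃ F : IntermediateField ℚ (AlgebraicClosure ℚ),
      FiniteDimensional ℚ F ∧ ∀ s ∈ F.fixingSubgroup, M.ρ s m = m)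
    (hMur : ∀ q : Nat.Primes, q ∉ S → ∀ A : ValuationSubring (AlgebraicClosure ℚ),
      A.LiesOverPrime (q : ℕ) → ∀ g ∈ A.inertiaSubgroupIn ℚ, M.ρ g = 1) :
    FiniteDimensional (ZMod p) (sha₁ S (M.dualTwist (cycloChar p))) := by
  haveI : FiniteDimensional (ZMod p) (M.dualTwist (cycloChar p)) :=
    inferInstanceAs (FiniteDimensional (ZMod p) (Module.Dual (ZMod p) M))
  exact finiteDimensional_sha₁ S hpS _ (Bridge.dualTwist_smooth M hsm)
    (Bridge.dualTwist_unramified M S hpS hMur)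

end Fermat.Agent.S55.H654

end
-- ===== PACK-END S55/H654/Selmer.lean

-- ===== PACK-BEGIN S55/Local/H717/H2CardDvd.lean
section




/-!
# S55, layer L, glue T4 (helper717): `|H²(Gal(L/K), Lˣ)|` divides `[L : K]`

`h2CardDvd_of : CyclicNormIndexStatement → T.UglySpec → H2CardDvdStatement`.
-/

set_option autoImplicit false
set_option linter.style.haveILetI false
set_option linter.unusedSectionVars false

namespace Fermat.Agent.S55.Local.H717

open Fermat.Agent.S55.Herbrand Fermat.Agent.S55.Local CategoryTheory groupCohomology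

section Hilbert90

variable {K L : Type} [Field K] [Field L] [Algebra K L] [FiniteDimensional K L]

/-- Noether's form of Hilbert 90 for a subgroup `H ≤ Gal(L/K)`. -/
theorem hilbert90_subgroup (H : Subgroup (L ≃ₐ[K] L)) (f : H → Lˣ)
    (hf : ∀ g h : H, f (g * h) = (g : L ≃ₐ[K] L) • f h * f g) :
    ∃ β : Lˣ, ∀ g : H, (g : L ≃ₐ[K] L) • β / β = f g := by
  classical
  -- Dedekind independence of the characters `h : L → L`, `h ∈ H`
  have hli : LinearIndependent L (fun h : H => (((h : L ≃ₐ[K] L) : L → L))) :=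
    LinearIndependent.comp (ι' := H) (linearIndependent_monoidHom L L)
      (fun h => (((h : L ≃ₐ[K] L) : L →ₐ[K] L) : L →* L))
      (fun x y h => Subtype.ext (by
        ext z
        exact DFunLike.congr_fun h z))
  have hne : (∑ h : H, (f h : L) • (((h : L ≃ₐ[K] L) : L → L))) ≠ 0 := by
    intro h0
    have := Fintype.linearIndependent_iff.1 hli (fun h => (f h : L)) h0 1
    exact Units.ne_zero (f 1) this
  obtain ⟨z, hz⟩ : ∃ z, (∑ h : H, (f h : L) • (((h : L ≃ₐ[K] L) : L → L))) z ≠ 0 :=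
    not_forall.1 (fun hall => hne (funext hall))
  have hz' : (∑ h : H, (f h : L) * (h : L ≃ₐ[K] L) z) ≠ 0 := by
    simpa [Finset.sum_apply] using hz
  refine ⟨(Units.mk0 _ hz')⁻¹, fun g => ?_⟩
  rw [smul_inv', div_inv_eq_mul, inv_mul_eq_iff_eq_mul]
  apply Units.ext
  simp only [Units.val_mul, Units.val_mk0, AlgEquiv.smul_units_def, Units.coe_map,
    MonoidHom.coe_coe]
  rw [map_sum, Finset.sum_mul]
  have := Fintype.sum_bijective (fun i : H => g * i) (Group.mulLeft_bijective g)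
    (fun i => (f (g * i) : L) * ((g * i : H) : L ≃ₐ[K] L) z)
    (fun i => (f i : L) * (i : L ≃ₐ[K] L) z) (fun i => rfl)
  rw [← this]
  refine Finset.sum_congr rfl fun i _ => ?_
  rw [hf g i]
  simp only [Units.val_mul, AlgEquiv.smul_units_def, Units.coe_map, MonoidHom.coe_coe,
    Subgroup.coe_mul, AlgEquiv.mul_apply, map_mul]
  ring

/-- `H¹(H, Lˣ) = 0` for every subgroup `H ≤ Gal(L/K)`. -/
theorem isZero_H1_resSub (H : Subgroup (L ≃ₐ[K] L)) :
    Limits.IsZero (groupCohomology (T.resSub (Rep.ofAlgebraAutOnUnits K L) H) 1) := by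
  rw [ModuleCat.isZero_iff_subsingleton]
  refine ⟨fun a b => ?_⟩
  suffices h : ∀ x : H1 (T.resSub (Rep.ofAlgebraAutOnUnits K L) H), x = 0 by
    rw [h a, h b]
  intro x
  induction x using H1_induction_on with
  | h c =>
    rw [H1π_eq_zero_iff]
    have hc := (mem_cocycles₁_iff (c : H → _)).1 c.2
    obtain ⟨β, hβ⟩ := hilbert90_subgroup H (fun h => Additive.toMul (c h)) (fun g h => by
      have := hc g h
      exact congrArg Additive.toMul this)
    refine ⟨Additive.ofMul β, funext fun g => ?_⟩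
    have := hβ g
    exact congrArg Additive.ofMul this

end Hilbert90

section Layer

open IntermediateField

variable {K L : Type} [Field K] [Field L] [Algebra K L] [FiniteDimensional K L] [IsGalois K L]
variable (H : Subgroup (L ≃ₐ[K] L)) (N : Subgroup H) [N.Normal]

/-- The fixed field `E₁ = L^H`. -/
abbrev layerBot : IntermediateField K L := fixedField H

/-- `φ : H ≃* Gal(L/E₁)`. -/
noncomputable abbrev layerPhi : H ≃* (L ≃ₐ[layerBot H] L) := subgroupEquivAlgEquiv H

lemma layerPhi_apply (h : H) (x : L) : layerPhi H h x = (h : L ≃ₐ[K] L) x := rfl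

/-- `N₁ = φ(N) ≤ Gal(L/E₁)`. -/
noncomputable abbrev layerN : Subgroup (L ≃ₐ[layerBot H] L) :=
  N.map ((layerPhi H : H ≃* (L ≃ₐ[layerBot H] L)) : H →* (L ≃ₐ[layerBot H] L))

instance layerN_normal : (layerN H N).Normal :=
  Subgroup.Normal.map inferInstance _ (layerPhi H).surjective

/-- The fixed field `E₂ = L^N`, as an intermediate field of `L / E₁`. -/
noncomputable abbrev layerTop : IntermediateField (layerBot H) L := fixedField (layerN H N)

/-- `Ψ : H ⧸ N ≃* Gal(E₂/E₁)`. -/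
noncomputable def layerPsi : H ⧸ N ≃* ((layerTop H N) ≃ₐ[layerBot H] (layerTop H N)) :=
  (QuotientGroup.congr N (layerN H N) (layerPhi H) rfl).trans
    (IsGalois.normalAutEquivQuotient (layerN H N))

lemma layerPsi_mk_apply (h : H) (x : layerTop H N) :
    ((layerPsi H N (QuotientGroup.mk h) x : layerTop H N) : L) = (h : L ≃ₐ[K] L) (x : L) := by
  simp only [layerPsi, MulEquiv.trans_apply, QuotientGroup.congr_mk]
  rw [IsGalois.normalAutEquivQuotient_apply, AlgEquiv.restrictNormalHom_apply]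
  rfl

lemma mem_layerTop_iff (x : L) :
    x ∈ layerTop H N ↔ ∀ n : N, ((n : H) : L ≃ₐ[K] L) x = x := by
  rw [IntermediateField.mem_fixedField_iff]
  constructor
  · intro h n
    exact h (layerPhi H n) ⟨n, n.2, rfl⟩
  · rintro h f ⟨n, hn, rfl⟩
    exact h ⟨n, hn⟩

/-- The underlying unit of an element of the restricted representation. -/
def uv (x : (T.resSub (Rep.ofAlgebraAutOnUnits K L) H).V) : Lˣ :=
  Additive.toMul (Rep.toAdditive (M := L ≃ₐ[K] L) (G := Lˣ) x)

/-- The element of the restricted representation attached to a unit. -/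
def vu (u : Lˣ) : (T.resSub (Rep.ofAlgebraAutOnUnits K L) H).V :=
  (Rep.toAdditive (M := L ≃ₐ[K] L) (G := Lˣ)).symm (Additive.ofMul u)

@[simp] lemma uv_vu (u : Lˣ) : uv H (vu H u) = u := rfl

@[simp] lemma vu_uv (x : (T.resSub (Rep.ofAlgebraAutOnUnits K L) H).V) : vu H (uv H x) = x := rfl

lemma uv_injective : Function.Injective (uv (K := K) (L := L) H) := fun x y h => by
  rw [← vu_uv H x, ← vu_uv H y, h]

@[simp] lemma uv_zero : uv H (0 : (T.resSub (Rep.ofAlgebraAutOnUnits K L) H).V) = 1 := rfl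

@[simp] lemma uv_add (x y : (T.resSub (Rep.ofAlgebraAutOnUnits K L) H).V) :
    uv H (x + y) = uv H x * uv H y := rfl

@[simp] lemma uv_ρ (h : H) (x : (T.resSub (Rep.ofAlgebraAutOnUnits K L) H).V) :
    ((uv H ((T.resSub (Rep.ofAlgebraAutOnUnits K L) H).ρ h x) : Lˣ) : L) =
      (h : L ≃ₐ[K] L) ((uv H x : Lˣ) : L) := rfl

/-- The `H ⧸ N`-representation `(Lˣ)^N`. -/
noncomputable abbrev layerRep : Rep.{0} ℤ (H ⧸ N) :=
  (T.resSub (Rep.ofAlgebraAutOnUnits K L) H).quotientToInvariants N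

lemma layerRep_mem_iff (x : (T.resSub (Rep.ofAlgebraAutOnUnits K L) H).V) :
    x ∈ Representation.invariants
        ((T.resSub (Rep.ofAlgebraAutOnUnits K L) H).ρ.comp N.subtype) ↔
      ∀ n : N, ((n : H) : L ≃ₐ[K] L) ((uv H x : Lˣ) : L) = ((uv H x : Lˣ) : L) := by
  rw [Representation.mem_invariants]
  constructor
  · intro h n
    exact congrArg (fun z => ((uv H z : Lˣ) : L)) (h n)
  · intro h n
    apply uv_injective H
    apply Units.ext
    exact h n

/-- The underlying unit of an element of `(Lˣ)^N`. -/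
def uvB (y : (layerRep H N).V) : Lˣ := uv H y.1

lemma uvB_injective : Function.Injective (uvB (K := K) (L := L) H N) := fun x y h =>
  Subtype.ext (uv_injective H h)

lemma uvB_ρ_mk (h : H) (y : (layerRep H N).V) :
    ((uvB H N ((layerRep H N).ρ (QuotientGroup.mk h) y) : Lˣ) : L) =
      (h : L ≃ₐ[K] L) ((uvB H N y : Lˣ) : L) := rfl

lemma uvB_mem (y : (layerRep H N).V) : ((uvB H N y : Lˣ) : L) ∈ layerTop H N :=
  (mem_layerTop_iff H N _).2 ((layerRep_mem_iff H N y.1).1 y.2)

/-- The additive map `Additive E₂ˣ → (Lˣ)^N`. -/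
noncomputable def layerE₀ : Additive (layerTop H N)ˣ →+ (layerRep H N).V where
  toFun x := ⟨vu H (Units.map (algebraMap (layerTop H N) L : layerTop H N →* L) x.toMul),
    (layerRep_mem_iff H N _).2 fun n => by
      have := (mem_layerTop_iff H N ((x.toMul : (layerTop H N)ˣ) : layerTop H N)).1
        (x.toMul : (layerTop H N)ˣ).1.2 n
      simpa using this⟩
  map_zero' := rfl
  map_add' _ _ := rfl

lemma uvB_layerE₀ (x : Additive (layerTop H N)ˣ) :
    ((uvB H N (layerE₀ H N x) : Lˣ) : L) = ((x.toMul : (layerTop H N)ˣ) : layerTop H N) := rfl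

lemma layerE₀_bijective : Function.Bijective (layerE₀ H N) := by
  constructor
  · intro x y hxy
    have h : (((x.toMul : (layerTop H N)ˣ) : layerTop H N) : L) =
        ((y.toMul : (layerTop H N)ˣ) : layerTop H N) :=
      congrArg (fun z : (layerRep H N).V => ((uvB H N z : Lˣ) : L)) hxy
    apply Additive.toMul.injective
    apply Units.ext
    exact Subtype.ext h
  · intro y
    have hmem := uvB_mem H N y
    have hne : (⟨_, hmem⟩ : layerTop H N) ≠ 0 := by
      intro h0
      have := congrArg (fun z : layerTop H N => (z : L)) h0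
      exact (uvB H N y).ne_zero this
    refine ⟨Additive.ofMul (Units.mk0 ⟨_, hmem⟩ hne), ?_⟩
    apply uvB_injective H N
    apply Units.ext
    rfl

/-- The additive equivalence `Additive E₂ˣ ≃+ (Lˣ)^N`. -/
noncomputable def layerE : Additive (layerTop H N)ˣ ≃+ (layerRep H N).V :=
  AddEquiv.ofBijective (layerE₀ H N) (layerE₀_bijective H N)

lemma uvB_layerE (x : Additive (layerTop H N)ˣ) :
    ((uvB H N (layerE H N x) : Lˣ) : L) = ((x.toMul : (layerTop H N)ˣ) : layerTop H N) := rfl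

/-- `|H²(H/N, (Lˣ)^N)| = [E₁ˣ : N_{E₂/E₁} E₂ˣ]` when `H/N` is cyclic, where `E₁ = L^H`,
`E₂ = L^N`. -/
theorem card_H2_layerRep (hcyc : IsCyclic (H ⧸ N)) :
    Nat.card (groupCohomology (layerRep H N) 2) =
      (normUnits (layerTop H N) (layerBot H)).range.index := by
  obtain ⟨g, hg⟩ := IsCyclic.exists_generator (α := H ⧸ N)
  letI : CommGroup (H ⧸ N) := IsCyclic.commGroup
  letI : Fintype (H ⧸ N) := Fintype.ofFinite _
  have h1 := card_groupCohomology_even (layerRep H N) g hg 2 (by decide)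
  rw [h1]
  have hτ : ∀ x, x ∈ Subgroup.zpowers (layerPsi H N g) := by
    intro x
    obtain ⟨y, rfl⟩ := (layerPsi H N).surjective x
    obtain ⟨k, rfl⟩ := Subgroup.mem_zpowers_iff.1 (hg y)
    exact ⟨k, (map_zpow (layerPsi H N) g k).symm⟩
  rw [← h0_unitsEnd_eq_index (layerPsi H N g) hτ, ← Nat.card_congr (layerPsi H N).toEquiv]
  symm
  refine h0_eq_of_equiv (layerE H N) ?_ _
  intro a
  obtain ⟨h, rfl⟩ := QuotientGroup.mk_surjective g
  apply uvB_injective H N
  apply Units.ext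
  rw [uvB_layerE]
  have e1 : ((uvB H N (repEnd (layerRep H N) (QuotientGroup.mk h) (layerE H N a)) : Lˣ) : L) =
      (h : L ≃ₐ[K] L) ((uvB H N (layerE H N a) : Lˣ) : L) := uvB_ρ_mk H N h _
  rw [e1, uvB_layerE, ← layerPsi_mk_apply]
  rfl

end Layer

/-- **Glue T4.**  `|H²(Gal(L/K), Lˣ)|` divides `[L : K]`, from the cyclic norm index statement
and the "ugly lemma" of layer T. -/
theorem h2CardDvd_of (hT3 : CyclicNormIndexStatement) (hUgly : T.UglySpec) :
    H2CardDvdStatement := by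
  intro A F _ _ _ _ _ _ _ _ _ K _ _ _ L _ _ _ _ _ _
  have key := hUgly ℤ (L ≃ₐ[K] L) (Rep.ofAlgebraAutOnUnits K L) (isZero_H1_resSub (K := K) (L := L))
    (fun H N _ hp => by
      have hcyc : IsCyclic (H ⧸ N) := isCyclic_of_prime_card (p := Nat.card (H ⧸ N))
        (hp := ⟨hp⟩) rfl
      have hcard := card_H2_layerRep H N hcyc
      haveI : FiniteDimensional F (layerBot H) := FiniteDimensional.trans F K (layerBot H)
      letI : Algebra F (layerTop H N) :=
        ((algebraMap (layerBot H) (layerTop H N)).comp (algebraMap F (layerBot H))).toAlgebra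
      haveI : IsScalarTower F (layerBot H) (layerTop H N) :=
        IsScalarTower.of_algebraMap_eq (fun _ => rfl)
      have hcyc' : IsCyclic ((layerTop H N) ≃ₐ[layerBot H] (layerTop H N)) :=
        isCyclic_of_surjective (layerPsi H N) (layerPsi H N).surjective
      have h3 := hT3 A F (layerBot H) (layerTop H N) hcyc'
      have h4 : Nat.card (groupCohomology (layerRep H N) 2) = Nat.card (H ⧸ N) := by
        rw [hcard, h3, ← IsGalois.card_aut_eq_finrank]
        exact (Nat.card_congr (layerPsi H N).toEquiv).symm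
      refine ⟨?_, ?_⟩
      · exact Nat.finite_of_card_ne_zero (h4 ▸ hp.ne_zero)
      · exact h4 ▸ dvd_rfl) ⊤
  obtain ⟨hfin, hdvd⟩ := key
  have hinj : Function.Injective
      (T.resMap (Rep.ofAlgebraAutOnUnits K L) (⊤ : Subgroup (L ≃ₐ[K] L)) 2).hom := by
    rw [injective_iff_map_eq_zero]
    intro x hx
    have := H119.index_nsmul_eq_zero_of_resMap_eq_zero_two (Rep.ofAlgebraAutOnUnits K L)
      (⊤ : Subgroup (L ≃ₐ[K] L)) x hx
    rw [Subgroup.index_top] at this
    exact (one_nsmul x).symm.trans this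
  have h5 := AddSubgroup.card_dvd_of_injective
    ((T.resMap (Rep.ofAlgebraAutOnUnits K L) (⊤ : Subgroup (L ≃ₐ[K] L)) 2).hom.toAddMonoidHom)
    hinj
  rw [Subgroup.card_top, IsGalois.card_aut_eq_finrank] at hdvd
  exact h5.trans hdvd

end Fermat.Agent.S55.Local.H717

end
-- ===== PACK-END S55/Local/H717/H2CardDvd.lean

-- ===== PACK-BEGIN S56/H716/SBGlue.lean
section



/-!
# Row S56 — SELBOUND, layer 2: glue (deputy helper716)

* `unramAt_of_isLiftOf` (LOC-UR): a lift unramified at `q` has a cocycle vanishing on inertia.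
* `loc_of_local`        : `LOC(cond)` from one `LocalBoundAt` per place of `Smin`.
* `locOrd_of`   : `LocMinStatement → LocOrdPStatement → LocOrdStatement`
* `locFlat_of`  : `LocMinStatement → LocFlatPStatement → LocFlatStatement`
* `selBoundOrd_of`  : `LocOrdStatement → GWWallStatement → SelBoundOrdStatement`
* `selBoundFlat_of` : `LocFlatStatement → GWWallStatement → SelBoundFlatStatement`
* `tangentBoundOrd_of_leaves`, `tangentBoundFlat_of_leaves`: the two (TB) statements of layer 0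
  from the leaves `DICT`, `LOC-MIN`, `LOC-SO` / `LOC-FLAT` and the wall `GW-WALL`.
-/

set_option autoImplicit false

open Polynomial IsLocalRing
open scoped TensorProduct

noncomputable section

namespace Fermat.Agent.S56.H716

open Fermat.Agent.S56

section

variable {k : Type} [Field k] (ρbar : ResidualGaloisRep k)

/-- If the lift `(1 + ε c(σ)) ρ̄(σ)` is the identity, then `c(σ) = 0`. -/
lemma eq_zero_of_liftEnd_eq_one {c : GQ → Module.End k ρbar.V} {σ : GQ}
    (h : liftEnd ρbar c σ = 1) : c σ = 0 := by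
  have hinv : ρbar.ρ σ * ρbar.ρ σ⁻¹ = 1 := by rw [← map_mul, mul_inv_cancel, map_one]
  have key : ∀ w : ρbar.V, c σ (ρbar.ρ σ w) = 0 := by
    intro w
    have h1 := congrArg (fun f => f ((1 : DualNumber k) ⊗ₜ[k] w)) h
    simp only [liftEnd, LinearMap.add_apply, LinearMap.smul_apply, LinearMap.baseChange_tmul,
      Module.End.one_apply, Module.End.mul_apply, TensorProduct.smul_tmul', smul_eq_mul,
      mul_one] at h1
    have h2 := congrArg (fun x => TensorProduct.lid k ρbar.V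
      ((TrivSqZeroExt.sndHom k k).rTensor ρbar.V x)) h1
    simpa using h2
  ext w
  have h3 := key (ρbar.ρ σ⁻¹ w)
  have h4 : ρbar.ρ σ (ρbar.ρ σ⁻¹ w) = w := by
    rw [← Module.End.mul_apply, hinv, Module.End.one_apply]
  rw [h4] at h3
  simpa using h3

/-- (LOC-UR) The cocycle of a lift which is unramified at `q` vanishes on inertia at `q`. -/
lemma unramAt_of_isLiftOf {c : GQ → Module.End k ρbar.V} {ρ' : GaloisRepAdic (DualNumber k)}
    (hl : IsLiftOf ρbar c ρ') {q : ℕ} (hu : ρ'.IsUnramifiedAt q) : UnramAt ρbar c q := by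
  obtain ⟨e, he⟩ := hl
  intro P hP σ hσ
  apply eq_zero_of_liftEnd_eq_one
  refine LinearMap.ext fun x => ?_
  obtain ⟨v, rfl⟩ := e.surjective x
  rw [← he σ v, hu P hP σ hσ, Module.End.one_apply, Module.End.one_apply]

end

section

variable (𝒪 : Type) [CommRing 𝒪] [IsDomain 𝒪] [IsDiscreteValuationRing 𝒪]
  (p : ℕ) (ρbar : ResidualGaloisRep (ResidueField 𝒪)) (S Smin : Finset ℕ)

/-- `LOC(cond)` from one local bound per place of `Smin`. -/
theorem loc_of_local (cond : Finset ℕ → DefCond 𝒪)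
    (Ty : ℕ → GaloisRepAdic (DualNumber (ResidueField 𝒪)) → Prop) (d : ℕ → ℕ)
    (hd : ∑ v ∈ Smin, d v ≤ 1)
    (hloc : ∀ v ∈ Smin, ∀ P : ValuationSubring Qb, P.LiesOverPrime v →
      LocalBoundAt ρbar P (Ty v) (d v))
    (hTy : ∀ (Q : Finset ℕ) (ρ' : GaloisRepAdic (DualNumber (ResidueField 𝒪))),
      @cond Q (DualNumber (ResidueField 𝒪)) _ _ (tanAlgebra 𝒪) ρ' →
        (∀ v ∈ Smin, Ty v ρ') ∧ ∀ q : ℕ, q.Prime → q ∉ Smin ∪ Q → ρ'.IsUnramifiedAt q) :
    Loc 𝒪 p ρbar S Smin cond := by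
  classical
  intro Pl hPl
  let Λ : ℕ → Submodule (ResidueField 𝒪) (GQ → Module.End (ResidueField 𝒪) ρbar.V) :=
    fun v => if h : v ∈ Smin then (hloc v h (Pl v) (hPl v h)).choose else ⊥
  have hΛ : ∀ v (h : v ∈ Smin), Λ v = (hloc v h (Pl v) (hPl v h)).choose := fun v h => dif_pos h
  refine ⟨Λ, d, ⟨fun v hv => ?_, hd⟩, fun Q _ c hc => ?_⟩
  · rw [hΛ v hv]
    exact ⟨(hloc v hv (Pl v) (hPl v hv)).choose_spec.1,
      (hloc v hv (Pl v) (hPl v hv)).choose_spec.2.1⟩
  · obtain ⟨hcoc, ρ', hl, hcond⟩ := hc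
    obtain ⟨hT, hur⟩ := hTy Q ρ' hcond
    refine ⟨hcoc, fun q hq hqn => unramAt_of_isLiftOf ρbar hl (hur q hq hqn), fun v hv => ?_⟩
    rw [hΛ v hv]
    exact (hloc v hv (Pl v) (hPl v hv)).choose_spec.2.2 c hcoc ⟨ρ', hl, hT v hv⟩

/-- `SELBOUND(cond) ⇐ LOC(cond) + GW-WALL`. -/
theorem selBound_of_loc_gwWall (cond : Finset ℕ → DefCond 𝒪)
    (hloc : Loc 𝒪 p ρbar S Smin cond) (hw : GWWall 𝒪 p ρbar S Smin) :
    SelBound 𝒪 p ρbar S cond := by
  obtain ⟨Pl, hPl, hW⟩ := hw
  obtain ⟨Λ, δ, hb, hsel⟩ := hloc Pl hPl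
  obtain ⟨D, hD, h⟩ := hW Λ δ hb
  refine ⟨D, hD, fun Q hQ hK => ?_⟩
  obtain ⟨T, hT1, hT2, hT3⟩ := h Q hQ hK
  exact ⟨T, hT1, hT2, fun c hc => hT3 c (hsel Q hQ c hc)⟩

end

/-- The sum of the defects `1` at `p` and `0` elsewhere. -/
lemma sum_defect_le_one (p : ℕ) (Smin : Finset ℕ) :
    ∑ v ∈ Smin, (if v = p then 1 else 0 : ℕ) ≤ 1 := by
  classical
  rw [Finset.sum_ite_eq' Smin p (fun _ => (1 : ℕ))]
  split_ifs <;> simp

/-- (LOC-ord) from the local leaves (LOC-MIN) and (LOC-SO). -/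
theorem locOrd_of (hmin : LocMinStatement) (hord : LocOrdPStatement) : LocOrdStatement := by
  classical
  intro 𝒪 _ _ _ _ _ p ρbar S Smin hyp
  refine loc_of_local 𝒪 p ρbar S Smin (ordCond 𝒪 p Smin)
    (fun v ρ' => if v = p then ρ'.DetIsCyclotomic p ∧ ρ'.IsStrictOrdinaryAt p
      else ρ'.DetIsCyclotomic p ∧ ρ'.IsUnipotentOnInertiaAt v)
    (fun v => if v = p then 1 else 0) (sum_defect_le_one p Smin) ?_ ?_
  · intro v hv P hP
    by_cases hvp : v = p
    · subst hvp
      simpa using hord 𝒪 v ρbar S Smin hyp P hP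
    · simpa [hvp] using hmin 𝒪 p ρbar S Smin hyp v hv hvp P hP
  · rintro Q ρ' ⟨⟨hdet, hso, hur⟩, huni⟩
    refine ⟨fun v hv => ?_, hur⟩
    by_cases hvp : v = p
    · simp only [hvp, if_true]
      exact ⟨hdet, hso⟩
    · simp only [hvp, if_false]
      exact ⟨hdet, huni v hv (hyp.hS v (hyp.hSmin hv)) hvp⟩

/-- (LOC-flat) from the local leaves (LOC-MIN) and (LOC-FLAT). -/
theorem locFlat_of (hmin : LocMinStatement) (hflat : LocFlatPStatement) : LocFlatStatement := by
  classical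
  intro 𝒪 _ _ _ _ _ p ρbar S Smin hyp
  refine loc_of_local 𝒪 p ρbar S Smin (flatCond 𝒪 p Smin)
    (fun v ρ' => if v = p then ρ'.DetIsCyclotomic p ∧ ρ'.IsFlatAt p
      else ρ'.DetIsCyclotomic p ∧ ρ'.IsUnipotentOnInertiaAt v)
    (fun v => if v = p then 1 else 0) (sum_defect_le_one p Smin) ?_ ?_
  · intro v hv P hP
    by_cases hvp : v = p
    · subst hvp
      simpa using hflat 𝒪 v ρbar S Smin hyp P hP
    · simpa [hvp] using hmin 𝒪 p ρbar S Smin hyp v hv hvp P hP
  · rintro Q ρ' ⟨⟨hdet, hfl, hur⟩, huni⟩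
    refine ⟨fun v hv => ?_, hur⟩
    by_cases hvp : v = p
    · simp only [hvp, if_true]
      exact ⟨hdet, hfl⟩
    · simp only [hvp, if_false]
      exact ⟨hdet, huni v hv (hyp.hS v (hyp.hSmin hv)) hvp⟩

/-- (SELBOUND-ord) from (LOC-ord) and the wall. -/
theorem selBoundOrd_of (hloc : LocOrdStatement) (hw : GWWallStatement) : SelBoundOrdStatement :=
  fun 𝒪 _ _ _ _ _ p ρbar S Smin hyp =>
    selBound_of_loc_gwWall 𝒪 p ρbar S Smin (ordCond 𝒪 p Smin)
      (hloc 𝒪 p ρbar S Smin hyp) (hw 𝒪 p ρbar S Smin hyp)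

/-- (SELBOUND-flat) from (LOC-flat) and the wall. -/
theorem selBoundFlat_of (hloc : LocFlatStatement) (hw : GWWallStatement) :
    SelBoundFlatStatement :=
  fun 𝒪 _ _ _ _ _ p ρbar S Smin hyp =>
    selBound_of_loc_gwWall 𝒪 p ρbar S Smin (flatCond 𝒪 p Smin)
      (hloc 𝒪 p ρbar S Smin hyp) (hw 𝒪 p ρbar S Smin hyp)

/-- (TB-ord) of layer 0 from the leaves. -/
theorem tangentBoundOrd_of_leaves (hdict : DictOrdStatement) (hmin : LocMinStatement)
    (hord : LocOrdPStatement) (hw : GWWallStatement) : TangentBoundOrdStatement :=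
  tangentBoundOrd_of hdict (selBoundOrd_of (locOrd_of hmin hord) hw)

/-- (TB-flat) of layer 0 from the leaves. -/
theorem tangentBoundFlat_of_leaves (hdict : DictFlatStatement) (hmin : LocMinStatement)
    (hflat : LocFlatPStatement) (hw : GWWallStatement) : TangentBoundFlatStatement :=
  tangentBoundFlat_of hdict (selBoundFlat_of (locFlat_of hmin hflat) hw)

end Fermat.Agent.S56.H716

end

end
-- ===== PACK-END S56/H716/SBGlue.lean

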