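import Mathlib
import Fermat.Agent.Pack.S43GC.G0E8L3
import Fermat.Agent.Pack.S43GC.G0E12L2
import Fermat.Agent.Pack.S43GC.G0E3L3
import Fermat.Agent.Pack.S44C.G0E17L2
import Fermat.Agent.Pack.S43GC.G0E3L0
import Fermat.Agent.Pack.S43GC.G0E10L1
import Fermat.Agent.Pack.S43GC.G0E5L2
import Fermat.Agent.Pack.S43GC.G0E12L1
import Fermat.Agent.Pack.S43GC.G0E1L2
import Fermat.Agent.Pack.S43GC.G0E1L3
import Fermat.Agent.Pack.S43GC.G0E10L3
import Fermat.Agent.Pack.S43GC.G0E10L0
import Fermat.Agent.Pack.S43GC.G0E13L1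
import Fermat.Agent.Pack.S43GC.G0E13L2
import Fermat.Agent.Pack.S43GC.G0E6L1
import Fermat.Agent.Pack.S43GC.G0E8L0
import Fermat.Agent.Pack.S43GC.G0E12L0
import Fermat.Agent.Pack.S43GC.G0E4L1
import Fermat.Agent.Pack.S43GC.G0E12L3
import Fermat.Agent.Pack.S44C.G0E16L1
import Fermat.Agent.Pack.S44C.G0E19L1
import Fermat.Agent.Pack.Fast891

-- ===== PACK-BEGIN S55/G/Exist121/Core.lean
section




/-!
# S55, layer G, block EXIST: the existence theorem mod `p` from its leaves

Author: helper121.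

* `relIndex_selmer_le` : Kummer bound `[V_S(K) : pKˣ] ≤ [G^ab : pG^ab]` when every element of
  `V_S(K)` is a `p`-th power in `L` (`L/K` Galois with group `G`, `μ_p ⊂ K`).
* `count_of` : `PowIndexSpec → ShaBoundSpec → CountSpec`.
* `existCore_of` : `RecipSpec → DescentTopSpec → CountSpec → ExistCoreSpec`.
-/

set_option autoImplicit false

open scoped NumberField
open IsDedekindDomain

noncomputable section

namespace Fermat.Agent.S55.G.Exist121

open Fermat.Agent.S55.G

/-! ## 1. The Kummer bound -/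

section Kummer

variable {G K L : Type} [Group G] [Field K] [Field L] [Algebra K L] [MulSemiringAction G L]
  [IsGaloisGroup G K L] {p : ℕ} [NeZero p]

lemma smul_algebraMap_eq (g : G) (k : K) : g • algebraMap K L k = algebraMap K L k := by
  have := IsGaloisGroup.commutes (G := G) (A := K) (B := L)
  exact smul_algebraMap g k

/-- `p`-th roots of unity of `L` are fixed by `G` when `μ_p ⊂ K`. -/
lemma smul_eq_of_pow_eq_one {ζ : K} (hζ : IsPrimitiveRoot ζ p) (g : G) {ξ : L} (hξ : ξ ^ p = 1) :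
    g • ξ = ξ := by
  have hζL : IsPrimitiveRoot (algebraMap K L ζ) p := hζ.map_of_injective (algebraMap K L).injective
  obtain ⟨i, -, rfl⟩ := hζL.eq_pow_of_pow_eq_one hξ
  rw [← map_pow]
  exact smul_algebraMap_eq g _

/-- The Kummer character `g ↦ g(y)/y` attached to `y ∈ L` with `y^p ∈ K`. -/
def kummerChar {ζ : K} (hζ : IsPrimitiveRoot ζ p) (y : L) (hy : y ≠ 0) (x : K)
    (hyx : y ^ p = algebraMap K L x) : G →* Lˣ where
  toFun g := Units.mk0 (g • y / y) (div_ne_zero ((smul_ne_zero_iff_ne g).2 hy) hy)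
  map_one' := by
    apply Units.ext
    simp [div_self hy]
  map_mul' g h := by
    apply Units.ext
    have h1 : (h • y / y) ^ p = 1 := by
      rw [div_pow, ← smul_pow', hyx, smul_algebraMap_eq, div_self]
      rw [← hyx]
      exact pow_ne_zero _ hy
    have h2 : g • (h • y / y) = h • y / y := smul_eq_of_pow_eq_one hζ g h1
    have h3 : g • (h • y) = (h • y / y) * (g • y) := by
      have : h • y = (h • y / y) * y := by field_simp
      conv_lhs => rw [this, smul_mul', h2]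
    show (g * h) • y / y = (g • y / y) * (h • y / y)
    rw [mul_smul, h3]
    field_simp

lemma kummerChar_apply {ζ : K} (hζ : IsPrimitiveRoot ζ p) (y : L) (hy : y ≠ 0) (x : K)
    (hyx : y ^ p = algebraMap K L x) (g : G) :
    ((kummerChar hζ y hy x hyx g : Lˣ) : L) = g • y / y := rfl

lemma kummerChar_pow {ζ : K} (hζ : IsPrimitiveRoot ζ p) (y : L) (hy : y ≠ 0) (x : K)
    (hyx : y ^ p = algebraMap K L x) (g : G) :
    (kummerChar hζ y hy x hyx g) ^ p = 1 := by
  apply Units.ext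
  rw [Units.val_pow_eq_pow_val, kummerChar_apply, Units.val_one, div_pow, ← smul_pow', hyx,
    smul_algebraMap_eq, div_self]
  rw [← hyx]
  exact pow_ne_zero _ hy

end Kummer

section KummerBound

variable (G K L : Type) [Group G] [Finite G] [Field K]
  [Field L] [Algebra K L] [MulSemiringAction G L] [IsGaloisGroup G K L]
  (p : ℕ) [NeZero p]

/-- **Kummer bound.**  If `μ_p ⊂ K` and every element of a subgroup `V ⊇ pKˣ` of `Kˣ` is a
`p`-th power in `L`, then `[V : pKˣ] ≤ [G^ab : p G^ab]`. -/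
theorem relIndex_le_of_sat (V : AddSubgroup (Additive Kˣ)) {ζ : K} (hζ : IsPrimitiveRoot ζ p)
    (hsat : ∀ x : Additive Kˣ, x ∈ V →
      ∃ y : L, y ^ p = algebraMap K L ((x.toMul : Kˣ) : K)) :
    (pMul (Additive Kˣ) p).relIndex V ≤ (pMul (Additive (Abelianization G)) p).index := by
  classical
  have hζL : IsPrimitiveRoot (algebraMap K L ζ) p := hζ.map_of_injective (algebraMap K L).injective
  have : HasEnoughRootsOfUnity L p := ⟨⟨_, hζL⟩, inferInstance⟩
  -- chosen roots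
  let y : V → L := fun v => (hsat v.1 v.2).choose
  have hy : ∀ v : V, y v ^ p = algebraMap K L ((v.1.toMul : Kˣ) : K) :=
    fun v => (hsat v.1 v.2).choose_spec
  have hy0 : ∀ v : V, y v ≠ 0 := by
    intro v h0
    have h1 := hy v
    rw [h0, zero_pow (NeZero.ne p)] at h1
    have h2 : ((v.1.toMul : Kˣ) : K) = 0 := (algebraMap K L).injective (by rw [← h1, map_zero])
    exact (Units.ne_zero _) h2
  let κ : V → (G →* Lˣ) := fun v => kummerChar hζ (y v) (hy0 v) _ (hy v)
  refine relIndex_le_of_kummer (M := L) V (pMul (Additive Kˣ) p) p κ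
    (fun v g => kummerChar_pow hζ _ _ _ _ g) ?_
  intro v v' h
  -- `y v / y v'` is fixed by `G`
  have h1 : ∀ g : G, g • (y v / y v') = y v / y v' := by
    intro g
    have h2 := congrArg (fun φ : G →* Lˣ => ((φ g : Lˣ) : L)) h
    simp only [κ, kummerChar_apply] at h2
    rw [smul_div₀']
    have hgv : g • y v ≠ 0 := (smul_ne_zero_iff_ne g).2 (hy0 v)
    have hgv' : g • y v' ≠ 0 := (smul_ne_zero_iff_ne g).2 (hy0 v')
    have := hy0 v
    have := hy0 v'
    field_simp at h2 ⊢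
    rw [h2]
  obtain ⟨t, ht⟩ := (IsGaloisGroup.isInvariant (G := G) (A := K) (B := L)).isInvariant _ h1
  have ht0 : t ≠ 0 := by
    rintro rfl
    rw [map_zero] at ht
    exact (div_ne_zero (hy0 v) (hy0 v')) ht.symm
  have h3 : t ^ p * ((v'.1.toMul : Kˣ) : K) = ((v.1.toMul : Kˣ) : K) := by
    apply (algebraMap K L).injective
    rw [map_mul, map_pow, ht, ← hy v, ← hy v', div_pow, div_mul_cancel₀]
    exact pow_ne_zero _ (hy0 v')
  refine ⟨Additive.ofMul (Units.mk0 t ht0), ?_⟩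
  apply Additive.toMul.injective
  apply Units.ext
  show ((Units.mk0 t ht0 ^ p : Kˣ) : K) = (((v.1.toMul : Kˣ) / (v'.1.toMul : Kˣ) : Kˣ) : K)
  rw [Units.val_pow_eq_pow_val, Units.val_mk0, Units.val_div_eq_div_val, ← h3,
    mul_div_assoc, div_self (Units.ne_zero _), mul_one]

end KummerBound

/-! ## 2. Counting -/

section Count

variable (S : Finset Nat.Primes) (K : Type) [Field K] [NumberField K] (p : ℕ)

/-- `[C_S(K) : p C_S(K)]` is the index of `Kˣ + p (J_S × Div^S)` in `J_S × Div^S`. -/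
lemma index_pMul_CS :
    (pMul (CS S K) p).index = (classP (unitsDiag S K) (ordHom S K) p).index := by
  have hsurj : Function.Surjective ((principal S K).mkQ.toAddMonoidHom) :=
    Submodule.mkQ_surjective _
  rw [index_pMul_of_surjective _ hsurj, classP, sup_comm]
  congr 2
  ext y
  rw [AddMonoidHom.mem_ker]
  show (principal S K).mkQ y = 0 ↔ _
  rw [Submodule.mkQ_apply, Submodule.Quotient.mk_eq_zero]
  rfl

/-- `[E : pE]` in the two vocabularies. -/
lemma relIndex_pKer_eq :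
    (pKer (ordHom S K) p).relIndex (ordHom S K).ker =
      (nsmulAddMonoidHom (α := sUnit S K) p).range.index := by
  rw [AddSubgroup.relIndex]
  have h : (pKer (ordHom S K) p).addSubgroupOf (ordHom S K).ker =
      (nsmulAddMonoidHom (α := (ordHom S K).ker) p).range := by
    ext x
    rw [AddSubgroup.mem_addSubgroupOf]
    constructor
    · rintro ⟨z, hz, hzx⟩
      exact ⟨⟨z, hz⟩, Subtype.ext hzx⟩
    · rintro ⟨z, rfl⟩
      exact ⟨z.1, z.2, rfl⟩
  rw [h]
  rfl

lemma relIndex_pKer_ne_zero (hp : p ≠ 0) {ζ : K} (hζ : IsPrimitiveRoot ζ p) :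
    (pKer (ordHom S K) p).relIndex (ordHom S K).ker ≠ 0 := by
  rw [relIndex_pKer_eq, SesH604.index_range_nsmul_sUnit_of_primitiveRoot S K p hp hζ]
  exact pow_ne_zero _ hp

omit [NumberField K] in
lemma div_torsionFree (hp : p ≠ 0) (i : PrimeOut S K →₀ ℤ) (h : p • i = 0) : i = 0 := by
  ext w
  have h1 := DFunLike.congr_fun h w
  simp only [Finsupp.smul_apply, Finsupp.zero_apply, nsmul_eq_mul] at h1
  rcases mul_eq_zero.1 h1 with h2 | h2
  · exact absurd (by exact_mod_cast h2) hp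
  · simpa using h2

/-- **EX-COUNT from EX-POW and EX-SHA.** -/
theorem count_of (hPow : PowIndexSpec) (hSha : ShaBoundSpec) : CountSpec := by
  intro p hp hp2 S K _ _ hpS hζ
  obtain ⟨ζ, hζ'⟩ := hζ
  have hp0 : p ≠ 0 := hp.out.ne_zero
  have hI := div_torsionFree S K p hp0
  have hfin := ClsH604.ordHom_range_index_ne_zero S K
  have hE := relIndex_pKer_ne_zero S K p hp0 hζ'
  have hJ := hPow p hp2 S K hpS ⟨ζ, hζ'⟩
  have hS := hSha p hp2 S K hpS ⟨ζ, hζ'⟩
  rw [index_pMul_CS]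
  exact ⟨index_classP_ne_zero _ _ p hfin hE hJ,
    index_classP_le _ _ p hI hfin hE hJ hS⟩

end Count

/-! ## 3. The existence theorem mod `p` -/

section Exist

/-- **EX-CORE from reciprocity, descent and counting.** -/
theorem existCore_of (hRec : RecipSpec) (hDesc : DescentTopSpec) (hCount : CountSpec) :
    ExistCoreSpec := by
  intro p hp hp2 S G K L _ _ _ _ _ _ _ _ _ hpS hG hunr hζ hsat c
  obtain ⟨ζ, hζ'⟩ := hζ
  have hSne : S.Nonempty := ⟨_, hpS⟩
  have : FaithfulSMul G L := IsGaloisGroup.faithful K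
  have hfix : HasFixedRootOfUnity p G L :=
    ⟨algebraMap K L ζ, hζ'.map_of_injective (algebraMap K L).injective,
      fun g => smul_algebraMap_eq g ζ⟩
  obtain ⟨e⟩ := hRec p hp2 S G L hpS hG hunr hfix
  obtain ⟨ι, hιinj, hιrange, -⟩ := hDesc S G K L hSne hunr
  obtain ⟨hC0, hCle⟩ := hCount p hp2 S K hpS ⟨ζ, hζ'⟩
  have hK := relIndex_le_of_sat G K L p (selmer S K p) hζ' hsat
  -- the invariants
  set A : Submodule ℤ (CS S L) := (cRepr S G L).invariants with hA
  have hmemA : ∀ c : CS S L, c ∈ A ↔ ∀ g : G, cRepr S G L g c = c :=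
    fun c => Representation.mem_invariants _ c
  -- `C_S(K) ≃ A`
  let ι' : CS S K →+ A := ι.codRestrict A.toAddSubgroup
    (fun x => (hmemA _).2 ((hιrange _).2 ⟨x, rfl⟩))
  have hι'bij : Function.Bijective ι' := by
    constructor
    · intro x y hxy
      exact hιinj (congrArg Subtype.val hxy)
    · intro a
      obtain ⟨x, hx⟩ := (hιrange a.1).1 ((hmemA _).1 a.2)
      exact ⟨x, Subtype.ext hx⟩
  let eA : CS S K ≃+ A := AddEquiv.ofBijective ι' hι'bij
  have hidx : (pMul A p).index = (pMul (CS S K) p).index := (index_pMul_congr eA p).symm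
  -- the projection to `Ĥ⁰`
  let N : Submodule ℤ A := (LinearMap.range (cRepr S G L).norm).comap A.subtype
  let π : A →+ T.hat0 (CRep S G L) := N.mkQ.toAddMonoidHom
  have hπ : Function.Surjective π := Submodule.mkQ_surjective _
  have hker := ker_le_pMul_of_equiv π hπ e p (hidx ▸ hC0)
    (hidx ▸ (hCle.trans hK))
  -- the norm of `c`
  have hnorm : (cRepr S G L).norm c ∈ A := by
    rw [hmemA]
    intro g
    have := Representation.self_norm_apply (cRepr S G L) g c
    exact this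
  have hmem : (⟨(cRepr S G L).norm c, hnorm⟩ : A) ∈ π.ker := by
    rw [AddMonoidHom.mem_ker]
    show N.mkQ _ = 0
    rw [Submodule.mkQ_apply, Submodule.Quotient.mk_eq_zero]
    exact ⟨c, rfl⟩
  obtain ⟨b, hb⟩ := hker hmem
  refine ⟨b.1, (hmemA _).1 b.2, ?_⟩
  have h1 := congrArg Subtype.val hb
  have h2 : (cRepr S G L).norm c = ∑ g : G, cRepr S G L g c := by
    simp [Representation.norm]
  rw [← h2]
  exact h1.symm

end Exist

end Fermat.Agent.S55.G.Exist121

end
end
-- ===== PACK-END S55/G/Exist121/Core.lean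

-- ===== PACK-BEGIN S55/G/PL1H597/Surj.lean
section
/-
S55 (Poitou–Tate), layer G, leaf G-PL1 (`PlacePrimeSpec`) — helper597.
Part 4: surjectivity of `𝔪 ↦ primeOf 𝔪` onto the primes above `S` (integrality argument).
-/


set_option autoImplicit false
set_option linter.unusedSectionVars false
set_option linter.style.haveILetI false
set_option linter.unusedSimpArgs false
set_option backward.isDefEq.respectTransparency false

open scoped NumberField TensorProduct
open IsDedekindDomain Polynomial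

noncomputable section

namespace Fermat.Agent.S55.G.PL1H597

open Fermat.Agent.S55.G

variable {S : Finset Nat.Primes} {L : Type} [Field L] [NumberField L]

/-! ### `L ⊗ ℚ_S` is Artinian -/

instance isArtinianRing_QS : IsArtinianRing (QS S) :=
  inferInstanceAs (IsArtinianRing (∀ q : S, Qq q.1))

instance isArtinianRing_AS : IsArtinianRing (AS S L) := by
  haveI : IsArtinianRing (QS S ⊗[ℚ] L) := IsArtinianRing.of_finite (QS S) (QS S ⊗[ℚ] L)
  exact Function.Surjective.isArtinianRing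
    (f := ((Algebra.TensorProduct.comm ℚ (QS S) L : (QS S ⊗[ℚ] L) ≃ₐ[ℚ] (L ⊗[ℚ] QS S)) :
      (QS S ⊗[ℚ] L) →+* (L ⊗[ℚ] QS S)))
    (Algebra.TensorProduct.comm ℚ (QS S) L).surjective

instance finite_SPlace : Finite (SPlace S L) :=
  inferInstanceAs (Finite (MaximalSpectrum (AS S L)))

/-! ### Global integrality from local integrality -/

lemma exists_monic_eval₂_eq_zero (u : AS S L) (h : ∀ 𝔪 : SPlace S L, IntAS 𝔪 u) :
    ∃ P : (ZS S)[X], P.Monic ∧ Polynomial.eval₂ (zsIncl S L) u P = 0 := by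
  classical
  haveI : Fintype (SPlace S L) := Fintype.ofFinite _
  choose P hP hPu using h
  let Q : (ZS S)[X] := ∏ 𝔪 : SPlace S L, P 𝔪
  have hQ : Q.Monic := Polynomial.monic_prod_of_monic _ _ (fun 𝔪 _ => hP 𝔪)
  have hQu : Polynomial.eval₂ (zsIncl S L) u Q ∈ Ideal.jacobson (⊥ : Ideal (AS S L)) := by
    rw [Ideal.jacobson, Ideal.mem_sInf]
    rintro J ⟨-, hJ⟩
    have h1 : Polynomial.eval₂ (zsIncl S L) u Q =
        ∏ 𝔪 : SPlace S L, Polynomial.eval₂ (zsIncl S L) u (P 𝔪) :=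
      Polynomial.eval₂_finsetProd _ _ _ _
    rw [h1]
    exact Ideal.mem_of_dvd _ (Finset.dvd_prod_of_mem _ (Finset.mem_univ (⟨J, hJ⟩ : SPlace S L)))
      (hPu ⟨J, hJ⟩)
  obtain ⟨n, hn⟩ := IsArtinianRing.isNilpotent_jacobson_bot (R := AS S L)
  refine ⟨Q ^ n, hQ.pow n, ?_⟩
  rw [Polynomial.eval₂_pow]
  have h2 := Ideal.pow_mem_pow hQu n
  rw [hn] at h2
  exact h2

/-! ### The integral model `𝓞 L ⊗ ℤ_S` -/

variable (S L) in
/-- The comparison map `𝓞 L ⊗[ℤ] ℤ_S → L ⊗[ℚ] ℚ_S`. -/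
def iotaT : (𝓞 L ⊗[ℤ] ZS S) →ₐ[ℤ] AS S L :=
  Algebra.TensorProduct.lift
    (((asDiag S L : L →ₐ[ℚ] AS S L) : L →+* AS S L).comp (algebraMap (𝓞 L) L)).toIntAlgHom
    (zsIncl S L).toIntAlgHom
    (fun _ _ => Commute.all _ _)

lemma iotaT_tmul (a : 𝓞 L) (z : ZS S) :
    iotaT S L (a ⊗ₜ[ℤ] z) = (a : L) ⊗ₜ[ℚ] (z : QS S) := by
  simp [iotaT, zsIncl, asIncl]

instance flat_int_QS : Module.Flat ℤ (QS S) := Module.Flat.trans ℤ ℚ (QS S)

lemma iotaT_injective : Function.Injective (iotaT S L) := by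
  let f : 𝓞 L →ₗ[ℤ] L := (Algebra.linearMap (𝓞 L) L).restrictScalars ℤ
  let g : ZS S →ₗ[ℤ] QS S := (ZS S).subtype.toIntAlgHom.toLinearMap
  have hf : Function.Injective f := NumberField.RingOfIntegers.coe_injective
  have hg : Function.Injective g := Subtype.val_injective
  have h1 : Function.Injective (TensorProduct.map f g) :=
    TensorProduct.map_injective_of_flat_flat' f g hf hg
  let e : L ⊗[ℤ] QS S ≃ₗ[ℤ] L ⊗[ℚ] QS S :=
    TensorProduct.equivOfCompatibleSMul ℚ ℤ ℤ L (QS S)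
  have h2 : ∀ t, iotaT S L t = e (TensorProduct.map f g t) := by
    intro t
    induction t using TensorProduct.induction_on with
    | zero => simp
    | tmul a z =>
      rw [iotaT_tmul, TensorProduct.map_tmul]
      rfl
    | add t₁ t₂ h₁ h₂ => rw [map_add, map_add, map_add, h₁, h₂]
  intro t₁ t₂ h
  rw [h2, h2] at h
  exact h1 (e.injective h)

/-- The residue map `ℤ_S → ℤ_q`. -/
def zsToPadicInt (q : S) : letI : Fact (q.1 : ℕ).Prime := ⟨q.1.2⟩; ZS S →+* ℤ_[(q.1 : ℕ)] :=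
  letI : Fact (q.1 : ℕ).Prime := ⟨q.1.2⟩
  { toFun := fun z => ⟨QS.toPi S z.1 q, (mem_Zq _ _).1 (z.2 q)⟩
    map_one' := rfl
    map_mul' := fun _ _ => rfl
    map_zero' := rfl
    map_add' := fun _ _ => rfl }

/-- The residue map `ℤ_S → 𝓞 L ⧸ w` for a prime `w` above `q ∈ S`. -/
def zsRes (w : HeightOneSpectrum (𝓞 L)) (q : S)
    (hq : (((q.1 : ℕ) : ℕ) : 𝓞 L) ∈ w.asIdeal) : ZS S →+* (𝓞 L ⧸ w.asIdeal) :=
  letI : Fact (q.1 : ℕ).Prime := ⟨q.1.2⟩
  haveI : CharP (𝓞 L ⧸ w.asIdeal) (q.1 : ℕ) := by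
    haveI : Nontrivial (𝓞 L ⧸ w.asIdeal) := Ideal.Quotient.nontrivial_iff.2 w.isPrime.ne_top
    rw [CharP.charP_iff_prime_eq_zero q.1.2]
    have : (((q.1 : ℕ) : ℕ) : 𝓞 L ⧸ w.asIdeal) =
        Ideal.Quotient.mk w.asIdeal (((q.1 : ℕ) : ℕ) : 𝓞 L) := (map_natCast _ _).symm
    rw [this, Ideal.Quotient.eq_zero_iff_mem]
    exact hq
  ((ZMod.castHom (dvd_refl (q.1 : ℕ)) (𝓞 L ⧸ w.asIdeal)).comp PadicInt.toZMod).comp
    (zsToPadicInt q)

/-- The reduction map `𝓞 L ⊗[ℤ] ℤ_S → 𝓞 L ⧸ w` for a prime `w` above `q ∈ S`. -/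
def phiW (w : HeightOneSpectrum (𝓞 L)) (q : S)
    (hq : (((q.1 : ℕ) : ℕ) : 𝓞 L) ∈ w.asIdeal) : (𝓞 L ⊗[ℤ] ZS S) →ₐ[ℤ] (𝓞 L ⧸ w.asIdeal) :=
  Algebra.TensorProduct.lift (Ideal.Quotient.mk w.asIdeal).toIntAlgHom
    (zsRes w q hq).toIntAlgHom (fun _ _ => Commute.all _ _)

lemma phiW_tmul_one (w : HeightOneSpectrum (𝓞 L)) (q : S)
    (hq : (((q.1 : ℕ) : ℕ) : 𝓞 L) ∈ w.asIdeal) (a : 𝓞 L) :
    phiW w q hq (a ⊗ₜ[ℤ] 1) = Ideal.Quotient.mk w.asIdeal a := by
  simp [phiW]

/-! ### Surjectivity -/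

lemma exists_mem_notMem (w : HeightOneSpectrum (𝓞 L)) (hab : IsAbove S L w)
    (hw : ∀ 𝔪 : SPlace S L, primeOf 𝔪 ≠ w) :
    ∃ x : 𝓞 L, x ∈ w.asIdeal ∧ x ≠ 0 ∧ ∀ 𝔪 : SPlace S L, x ∉ (primeOf 𝔪).asIdeal := by
  classical
  haveI : Fintype (SPlace S L) := Fintype.ofFinite _
  by_cases hne : Nonempty (SPlace S L)
  · obtain ⟨𝔪₀⟩ := hne
    by_contra hcon
    push Not at hcon
    have hsub : ((w.asIdeal : Ideal (𝓞 L)) : Set (𝓞 L)) ⊆
        ⋃ 𝔪 ∈ ((Finset.univ : Finset (SPlace S L)) : Set (SPlace S L)),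
          ((primeOf 𝔪).asIdeal : Set (𝓞 L)) := by
      intro x hx
      rcases eq_or_ne x 0 with rfl | hx0
      · exact Set.mem_biUnion (Finset.mem_coe.2 (Finset.mem_univ 𝔪₀)) (Ideal.zero_mem _)
      · obtain ⟨𝔪, h𝔪⟩ := hcon x hx hx0
        exact Set.mem_biUnion (Finset.mem_coe.2 (Finset.mem_univ 𝔪)) h𝔪
    obtain ⟨𝔪, -, hle⟩ := (Ideal.subset_union_prime (f := fun 𝔪 : SPlace S L => (primeOf 𝔪).asIdeal)
      𝔪₀ 𝔪₀ (fun 𝔪 _ _ _ => (primeOf 𝔪).isPrime)).1 hsub
    apply hw 𝔪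
    apply HeightOneSpectrum.ext
    exact (w.isMaximal.eq_of_le (primeOf 𝔪).isPrime.ne_top hle).symm
  · obtain ⟨q, hqS, hq⟩ := hab
    refine ⟨((q : ℕ) : 𝓞 L), hq, ?_, fun 𝔪 => absurd ⟨𝔪⟩ hne⟩
    exact_mod_cast q.2.ne_zero

theorem exists_primeOf_eq (w : HeightOneSpectrum (𝓞 L)) (hab : IsAbove S L w) :
    ∃ 𝔪 : SPlace S L, primeOf 𝔪 = w := by
  by_contra hcon
  push Not at hcon
  obtain ⟨x, hxw, hx0, hx⟩ := exists_mem_notMem w hab hcon
  obtain ⟨q, hqS, hq⟩ := hab
  have hxL : (x : L) ≠ 0 := fun h => hx0 (NumberField.RingOfIntegers.coe_eq_zero_iff.1 h)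
  -- local integrality of `x⁻¹`
  have hint : ∀ 𝔪 : SPlace S L, IntAS 𝔪 (asDiag S L ((x : L)⁻¹)) := by
    intro 𝔪
    have := hx 𝔪
    rw [mem_primeOf_iff_intAS] at this
    push Not at this
    exact this.2
  obtain ⟨P, hP, hPu⟩ := exists_monic_eval₂_eq_zero _ hint
  -- pass to the reversed polynomial
  have h1 : asDiag S L (x : L) * asDiag S L ((x : L)⁻¹) = 1 := by
    rw [← map_mul, mul_inv_cancel₀ hxL, map_one]
  letI inv : Invertible (asDiag S L ((x : L)⁻¹)) :=
    ⟨asDiag S L (x : L), h1, by rw [mul_comm]; exact h1⟩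
  have h2 : Polynomial.eval₂ (zsIncl S L) (asDiag S L (x : L)) P.reverse = 0 :=
    (Polynomial.eval₂_reverse_eq_zero_iff (zsIncl S L) (asDiag S L ((x : L)⁻¹)) P).2 hPu
  -- lift the identity to `𝓞 L ⊗ ℤ_S`
  let incl : ZS S →+* (𝓞 L ⊗[ℤ] ZS S) :=
    (Algebra.TensorProduct.includeRight : ZS S →ₐ[ℤ] (𝓞 L ⊗[ℤ] ZS S))
  let τ : 𝓞 L ⊗[ℤ] ZS S := Polynomial.eval₂ incl (x ⊗ₜ[ℤ] 1) P.reverse
  have hτ : τ = 0 := by
    apply iotaT_injective
    rw [map_zero]
    have h3 : ((iotaT S L : (𝓞 L ⊗[ℤ] ZS S) →+* AS S L)).comp incl = zsIncl S L := by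
      ext z
      change iotaT S L ((1 : 𝓞 L) ⊗ₜ[ℤ] z) = _
      rw [iotaT_tmul]
      simp [zsIncl, asIncl]
    have h4 : iotaT S L (x ⊗ₜ[ℤ] (1 : ZS S)) = asDiag S L (x : L) := by
      rw [iotaT_tmul]
      rfl
    have := Polynomial.hom_eval₂ P.reverse incl
      ((iotaT S L : (𝓞 L ⊗[ℤ] ZS S) →+* AS S L)) (x ⊗ₜ[ℤ] 1)
    rw [h3] at this
    change iotaT S L τ = 0
    change iotaT S L τ = _ at this
    rw [this]
    change Polynomial.eval₂ (zsIncl S L) (iotaT S L (x ⊗ₜ[ℤ] (1 : ZS S))) P.reverse = 0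
    rw [h4]
    exact h2
  -- reduce modulo `w`
  have h5 := Polynomial.hom_eval₂ P.reverse incl
      ((phiW w ⟨q, hqS⟩ hq : (𝓞 L ⊗[ℤ] ZS S) →+* (𝓞 L ⧸ w.asIdeal))) (x ⊗ₜ[ℤ] 1)
  change phiW w ⟨q, hqS⟩ hq τ = Polynomial.eval₂ _ (phiW w ⟨q, hqS⟩ hq (x ⊗ₜ[ℤ] 1)) _ at h5
  rw [hτ, map_zero, phiW_tmul_one, Ideal.Quotient.eq_zero_iff_mem.2 hxw,
    Polynomial.eval₂_at_zero, Polynomial.coeff_zero_reverse, hP.leadingCoeff, map_one] at h5
  haveI : Nontrivial (𝓞 L ⧸ w.asIdeal) := Ideal.Quotient.nontrivial_iff.2 w.isPrime.ne_top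
  exact zero_ne_one h5

end Fermat.Agent.S55.G.PL1H597

end
end
-- ===== PACK-END S55/G/PL1H597/Surj.lean

-- ===== PACK-BEGIN S14/H74/ClassSum.lean
section



/-!
# S14/N1 (helper74): ideals in a class and principal multiples of a fixed ideal (piece P4)
-/

namespace Fermat.Agent.S14.H74

open NumberField

open scoped nonZeroDivisors

variable {K : Type*} [Field K] [NumberField K]

/-- Multiplication by `J` identifies the ideals of the class `C` with the nonzero principal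
ideals contained in `J`, when `J` lies in the class `C⁻¹`. -/
noncomputable def classEquiv {C : ClassGroup (𝓞 K)} {J : (Ideal (𝓞 K))⁰}
    (hJ : ClassGroup.mk0 J = C⁻¹) :
    {I : (Ideal (𝓞 K))⁰ // ClassGroup.mk0 I = C} ≃ PJ (J : Ideal (𝓞 K)) :=
  Equiv.ofBijective (fun I ↦ ⟨(I.1 : Ideal (𝓞 K)) * (J : Ideal (𝓞 K)),
    nonZeroDivisors.coe_ne_zero (I.1 * J),
    (ClassGroup.mk0_eq_one_iff (I.1 * J).2).mp (by rw [map_mul, I.2, hJ, mul_inv_cancel]),
    Ideal.mul_le_right⟩) (by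
    constructor
    · intro I I' h
      have h1 : (I.1 : Ideal (𝓞 K)) * (J : Ideal (𝓞 K)) = (I'.1 : Ideal (𝓞 K)) * J :=
        congrArg Subtype.val h
      have h2 : (I.1 : Ideal (𝓞 K)) = I'.1 :=
        mul_right_cancel₀ (nonZeroDivisors.coe_ne_zero J) h1
      exact Subtype.ext (Subtype.ext h2)
    · rintro ⟨I', hI'0, hI'p, hI'J⟩
      obtain ⟨I'', rfl⟩ := Ideal.dvd_iff_le.mpr hI'J
      have hI''0 : I'' ≠ ⊥ := by
        rintro rfl
        exact hI'0 (by simp)
      let I0 : (Ideal (𝓞 K))⁰ := ⟨I'', mem_nonZeroDivisors_of_ne_zero hI''0⟩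
      have hmk : ClassGroup.mk0 I0 = C := by
        have h1 : ClassGroup.mk0 (J * I0) = 1 := by
          rw [ClassGroup.mk0_eq_one_iff (J * I0).2]
          exact hI'p
        rw [map_mul, hJ] at h1
        exact (inv_mul_eq_one.mp h1).symm
      refine ⟨⟨I0, hmk⟩, Subtype.ext ?_⟩
      show I'' * (J : Ideal (𝓞 K)) = (J : Ideal (𝓞 K)) * I''
      exact mul_comm _ _)

theorem classEquiv_apply {C : ClassGroup (𝓞 K)} {J : (Ideal (𝓞 K))⁰}
    (hJ : ClassGroup.mk0 J = C⁻¹) (I : {I : (Ideal (𝓞 K))⁰ // ClassGroup.mk0 I = C}) :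
    (classEquiv hJ I).1 = (I.1 : Ideal (𝓞 K)) * (J : Ideal (𝓞 K)) := rfl

/-- **P4**. -/
theorem classZeta_eq {C : ClassGroup (𝓞 K)} {J : (Ideal (𝓞 K))⁰}
    (hJ : ClassGroup.mk0 J = C⁻¹) (s : ℝ) :
    classZeta K C s = (Ideal.absNorm (J : Ideal (𝓞 K)) : ℝ) ^ s *
      ∑' I : PJ (J : Ideal (𝓞 K)), (Ideal.absNorm I.1 : ℝ) ^ (-s) := by
  have hJ1 : (0 : ℝ) < Ideal.absNorm (J : Ideal (𝓞 K)) := by
    have := one_le_absNorm K J
    linarith
  rw [← (classEquiv hJ).tsum_eq, ← tsum_mul_left]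
  unfold classZeta
  refine tsum_congr fun I ↦ ?_
  rw [classEquiv_apply, map_mul, Nat.cast_mul, Real.mul_rpow (Nat.cast_nonneg _) hJ1.le,
    mul_comm, mul_assoc, ← Real.rpow_add hJ1, neg_add_cancel, Real.rpow_zero, mul_one]

end Fermat.Agent.S14.H74

end
-- ===== PACK-END S14/H74/ClassSum.lean

-- ===== PACK-BEGIN S55/G/SI777/Final.lean
section
/-
S55, layer G, block G-SI-FINAL (helper777): assembly of the SECOND INEQUALITY
`SecondInequalitySpec` (helper421 `G/Spec.lean`) from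

* `IndexBoundStatement` : the index bound `[C_S(K) : H] ≤ [L : K]` for every subgroup
  `H ⊇ n • C_S(K)` containing the classes `(0, [w ∩ K])` of the primes below the primes `w` of
  `L` of prime absolute norm (the analytic second inequality in the `S`-idèle model; helper963's
  G-SI-BRIDGE on top of the ideal-theoretic `RayDatum.card_le_finrank`);
* helper773's Galois descent `C_S(K) ≃ C_S(L)^G` (`DescH773`);
* `T.CyclicCardSpec` (`|H²(G, A)| = [A^G : N_G A]` for cyclic `G`; on main).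
-/




set_option autoImplicit false
set_option linter.unusedSectionVars false

open scoped NumberField TensorProduct Pointwise
open IsDedekindDomain CategoryTheory groupCohomology

noncomputable section

namespace Fermat.Agent.S55.G.SI777

open Fermat.Agent.S55.G Fermat.Agent.S55.G.DescH773

/-- **Index bound (analytic second inequality in the `S`-idèle class group).**
Let `L/K` be number fields, `S ≠ ∅`, `n > 0`, and `H ≤ C_S(K)` a subgroup containing
`n • C_S(K)` and the class of `(0, [w ∩ K])` for every prime `w` of `L` outside `S` of prime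
absolute norm.  Then `H` has finite index at most `[L : K]`. -/
def IndexBoundStatement : Prop :=
  ∀ (S : Finset Nat.Primes) (K L : Type) [Field K] [NumberField K] [Field L] [NumberField L]
    [Algebra K L] (n : ℕ), 0 < n → S.Nonempty →
    ∀ H : AddSubgroup (CS S K),
      (∀ c : CS S K, n • c ∈ H) →
      (∀ w : PrimeOut S L, (Ideal.absNorm w.1.asIdeal).Prime →
        (Submodule.Quotient.mk ((0, Finsupp.single (primeOutUnder S K L w) 1) : JD S K) :
          CS S K) ∈ H) →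
      H.index ≠ 0 ∧ H.index ≤ Module.finrank K L

section Adapter

variable (G L : Type) [Group G] [Finite G] [Field L] [NumberField L] [MulSemiringAction G L]
  [FaithfulSMul G L]

/-- The fixed field of a finite group acting on a number field is a number field. -/
instance numberField_fixedPoints : NumberField (FixedPoints.subfield G L) where
  to_charZero := inferInstance
  to_finiteDimensional :=
    FiniteDimensional.of_injective
      ((algebraMap (FixedPoints.subfield G L) L).toRatAlgHom.toLinearMap)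
      (algebraMap (FixedPoints.subfield G L) L).injective

end Adapter

section Main

/-- A subgroup `H ⊇ p • A` (`p` prime) of finite index at most `p` has index dividing `p`. -/
lemma index_dvd_prime {A : Type*} [AddCommGroup A] (H : AddSubgroup A) (p : ℕ) (hp : p.Prime)
    (hpH : ∀ a : A, p • a ∈ H) (h0 : H.index ≠ 0) (hle : H.index ≤ p) : H.index ∣ p := by
  by_cases h1 : H.index = 1
  · rw [h1]
    exact one_dvd _
  · obtain ⟨q, hq, hqd⟩ := Nat.exists_prime_and_dvd h1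
    have : H.FiniteIndex := ⟨h0⟩
    have : Finite (A ⧸ H) := AddSubgroup.finite_quotient_of_finiteIndex
    have := Fact.mk hq
    obtain ⟨x, hx⟩ := exists_prime_addOrderOf_dvd_card' (G := A ⧸ H) q
      (by rwa [← AddSubgroup.index_eq_card])
    have hpx : p • x = 0 := by
      obtain ⟨a, rfl⟩ := QuotientAddGroup.mk_surjective x
      exact (QuotientAddGroup.eq_zero_iff _).2 (hpH a)
    have hqp' : q ∣ p := hx ▸ addOrderOf_dvd_of_nsmul_eq_zero hpx
    have hqp : q = p := (Nat.prime_dvd_prime_iff_eq hq hp).1 hqp'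
    subst hqp
    exact (Nat.le_antisymm hle (Nat.le_of_dvd (Nat.pos_of_ne_zero h0) hqd)) ▸ dvd_rfl

/-- **G-SI (second inequality)**, from the analytic index bound in the `S`-idèle model,
helper773's Galois descent and the cyclic cohomology computation `T.CyclicCardSpec`.
(The root of unity hypothesis is not used.) -/
theorem secondInequality_of (hB : IndexBoundStatement) (hT : T.CyclicCardSpec) :
    SecondInequalitySpec := by
  intro p hp _ S G L _ _ _ _ _ _ hpS hcard hunr _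
  have hS : S.Nonempty := ⟨_, hpS⟩
  let _ : Fintype G := Fintype.ofFinite G
  have : IsCyclic G := isCyclic_of_prime_card hcard
  have hin : ∀ w : HeightOneSpectrum (𝓞 L), ¬ IsAbove S L w →
      ∀ g : G, (∀ x : 𝓞 L, g • x - x ∈ w.asIdeal) → g = 1 := by
    intro w hw g hg
    exact FaithfulSMul.eq_of_smul_eq_smul (α := L) (fun x => by rw [hunr w hw g hg x, one_smul])
  have hur : ∀ w : PrimeOut S L, eAt (FixedPoints.subfield G L) w.1 = 1 :=
    fun w => _root_.Fermat.Agent.S55.G.SI777.eAt_eq_one_of_inertia G (FixedPoints.subfield G L) w.1 (hin w.1 w.2)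
  have hfin : Module.finrank (FixedPoints.subfield G L) L = p := by
    rw [← IsGaloisGroup.card_eq_finrank G, hcard]
  have hcardF : Fintype.card G = p := by rw [← Nat.card_eq_fintype_card, hcard]
  have hpmem : ∀ c : CS S (FixedPoints.subfield G L),
      p • c ∈ normSub S G (FixedPoints.subfield G L) L :=
    fun c => hcardF ▸ card_smul_mem_normSub S G (FixedPoints.subfield G L) L c
  obtain ⟨h0, hle⟩ := hB S (FixedPoints.subfield G L) L p hp.out.pos hS
    (normSub S G (FixedPoints.subfield G L) L) hpmem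
    (fun w hw => single_mem_normSub S G (FixedPoints.subfield G L) L hur w (fun g hg =>
      stabilizer_trivial G (FixedPoints.subfield G L) w.1 (hin w.1 w.2)
        (inertiaDeg_eq_one_of_absNorm_prime (FixedPoints.subfield G L) w.1 hw) g
        (congrArg Subtype.val hg)))
  rw [hfin] at hle
  have hdvd : (normSub S G (FixedPoints.subfield G L) L).index ∣ p :=
    index_dvd_prime _ p hp.out hpmem h0 hle
  have hH2 : Nat.card (groupCohomology (CRep S G L) 2) =
      (normSub S G (FixedPoints.subfield G L) L).index := by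
    rw [(hT ℤ G (CRep S G L)).1]
    exact relIndex_norm_invariants S G (FixedPoints.subfield G L) L hS hur
  refine ⟨?_, hH2 ▸ hdvd⟩
  exact Nat.finite_of_card_ne_zero (hH2 ▸ h0)

/-- **G-SI** from the index bound alone (`T.CyclicCardSpec` is on main: helper895). -/
theorem secondInequality_of_indexBound (hB : IndexBoundStatement) : SecondInequalitySpec :=
  secondInequality_of hB T.H895.cyclicCard

end Main

end Fermat.Agent.S55.G.SI777

end
end
-- ===== PACK-END S55/G/SI777/Final.lean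

-- ===== PACK-BEGIN S55/G/Rec/StepAH511.lean
section



/-!
# S55 / layer G / block REC / STEP A : the cyclotomic sum formula (helper511)

`H511.cycloSum_of` : `CycloSumSpec I` from the leaves `K1` (`CupLocSpec`), `K5` (`LocalNormSpec`),
`L2` (`LocalStructureSpec`), `L3` (`UnramCupSpec I`), `L4` (`CycloFrobSpec`),
`L5` (`LocalCycloNormSpec`), `G1` (`OrbitNormSpec`), `G1'` (`ProductFormulaSpec`) and
`G4` (`SupportFiniteSpec`).

Proof (blueprint §1, STEP A).  Let `x = a ∪ δχ`, `y = N_{K/ℚ}(a) ∈ ℚˣ`, `m = ℓ^e`, `c` the cyclotomic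
character mod `m`.
* `v ∤ ℓ` : `inv_v(x_v) = k_v · χ(σ_v)/n`, `σ_v ∈ U` with `c(σ_v) = q^{f_v}`, `vdeg_v(a) = f_v k_v`.
  So `∑_{v ∤ ℓ} inv_v(x_v) = χ(Σ)/n` with `c(Σ) = ∏_{q ≠ ℓ} q^{v_q(y)}` (product formula).
* `v ∣ ℓ` : `x_v = 0` ⟹ `N_{K_v/ℚ_ℓ}(a_v) ≡ ± ℓ^k t_v mod ℓ^{k+e}`, `t_v = c(κ_v)`, `κ_v ∈ ker χ`.
  So `y ≡ ± ℓ^K ∏ t_v`, hence `∏_{q ≠ ℓ} q^{v_q(y)} = ± c(κ)`, `κ ∈ ker χ`.
* `χ` is trivial on `ker c` and of odd order ⟹ `χ(Σ) = 0`.
-/

set_option autoImplicit false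
set_option linter.style.haveILetI false

noncomputable section

namespace Fermat.Agent.S55.G.Rec.H511

open Fermat.Agent.S55.G.Rec groupCohomology

local notation "Qb" => AlgebraicClosure ℚ
local notation "GQ" => (AlgebraicClosure ℚ ≃ₐ[ℚ] AlgebraicClosure ℚ)

/-! ## Small auxiliary lemmas -/

lemma prod_zpow_const {G ι : Type*} [CommGroup G] (s : Finset ι) (g : G) (f : ι → ℤ) :
    ∏ i ∈ s, g ^ f i = g ^ ∑ i ∈ s, f i := by
  classical
  induction s using Finset.induction_on with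
  | empty => simp
  | insert a s ha ih => rw [Finset.prod_insert ha, Finset.sum_insert ha, ih, zpow_add]

lemma prod_zpow_const₀ {K ι : Type*} [Field K] (s : Finset ι) {g : K} (hg : g ≠ 0) (f : ι → ℤ) :
    ∏ i ∈ s, g ^ f i = g ^ ∑ i ∈ s, f i := by
  classical
  induction s using Finset.induction_on with
  | empty => simp
  | insert a s ha ih => rw [Finset.prod_insert ha, Finset.sum_insert ha, ih, zpow_add₀ hg]

/-- The unit `q mod m` (junk `1` if `q` is not prime to `m`). -/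
def uq (m : ℕ) (q : ℕ) : (ZMod m)ˣ :=
  if h : Nat.Coprime q m then ZMod.unitOfCoprime q h else 1

lemma uq_coe {m q : ℕ} (h : Nat.Coprime q m) : ((uq m q : (ZMod m)ˣ) : ZMod m) = (q : ZMod m) := by
  rw [uq, dif_pos h, ZMod.coe_unitOfCoprime]

/-- The degree-valuation of `a` at the place `(q, r)` of `ℚ̄^U`. -/
def vdAt (U : Subgroup GQ) (a : Qbˣ) (q : Nat.Primes) (r : GQ) : ℤ :=
  haveI : Fact (q : ℕ).Prime := ⟨q.2⟩
  vdeg (q : ℕ) (locSub (q : ℕ) r U) (locPushMul (q : ℕ) r a)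

/-! ## The places away from `ℓ` -/

theorem key_away (hK1 : CupLocSpec) (hL2 : LocalStructureSpec) (hL4 : CycloFrobSpec)
    (I : LocalInvSystem) (hL3 : UnramCupSpec I)
    (U : Subgroup GQ) (hU : IsOpenQ U) (m : ℕ) [NeZero m] (n : ℕ) [NeZero n]
    (χ : ↥U →* Multiplicative (ZMod n)) (hχ : IsLevelConstant₁ U.subtype χ)
    (hcyc : IsCycloChar U m χ) (a : Qbˣ) (ha : GFixed U a)
    (q : Nat.Primes) (r : GQ) :
    ∃ (σ : ↥U) (k : ℤ), Nat.Coprime (q : ℕ) m →
      (I.invAt q r U (gcc U n χ a) =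
        ((((k : ℚ) * ((chiAdd χ σ).val : ℚ) / (n : ℚ) : ℚ)) : AddCircle (1 : ℚ)) ∧
      cyc m (σ : GQ) ^ k = uq m (q : ℕ) ^ vdAt U a q r) := by
  by_cases hq : Nat.Coprime (q : ℕ) m
  · haveI : Fact (q : ℕ).Prime := ⟨q.2⟩
    obtain ⟨σ, k, f, h1, h2, h3⟩ :=
      exists_inv_eq hK1 hL2 hL4 I hL3 U hU m n χ hχ hcyc a ha (q : ℕ) hq r
    refine ⟨σ, k, fun _ => ⟨h1, ?_⟩⟩
    rw [h2, vdAt, h3, uq, dif_pos hq, ← zpow_natCast, ← zpow_mul]
  · exact ⟨1, 0, fun h => absurd h hq⟩

/-! ## The places above `ℓ` -/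

theorem key_above (hK1 : CupLocSpec) (hK5 : LocalNormSpec) (hL5 : LocalCycloNormSpec)
    (hG1 : OrbitNormSpec)
    (U : Subgroup GQ) (hU : IsOpenQ U) (ℓ : ℕ) [Fact ℓ.Prime] (hℓ2 : ℓ ≠ 2) (e : ℕ) (he : 0 < e)
    [NeZero (ℓ ^ e)]
    (n : ℕ) [NeZero n] (χ : ↥U →* Multiplicative (ZMod n)) (hχ : IsLevelConstant₁ U.subtype χ)
    (a : Qbˣ) (ha : GFixed U a)
    (hloc : ∀ r : GQ, locBr ℓ r U (gcc U n χ a) = 0)
    (Rℓ : Finset GQ) (hRℓ : IsDoubleCosetReps U (localGaloisToGlobal ℓ).range Rℓ)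
    (y : ℚˣ) (hy : ((relNorm U a : Qbˣ) : Qb) = algebraMap ℚ Qb (y : ℚ)) :
    ∃ (K : ℤ) (S : ℤˣ) (P : ℕ) (κ : ↥U), χ κ = 1 ∧
      ((cyc (ℓ ^ e) (κ : GQ) : (ZMod (ℓ ^ e))ˣ) : ZMod (ℓ ^ e)) = (P : ZMod (ℓ ^ e)) ∧
      ‖((y : ℚ) : ℚ_[ℓ]) - ((S : ℤ) : ℚ_[ℓ]) * (ℓ : ℚ_[ℓ]) ^ K * (P : ℚ_[ℓ])‖
        ≤ ‖(ℓ : ℚ_[ℓ])‖ ^ (K + e) := by
  classical
  have hℓ : ℓ.Prime := Fact.out
  choose k s t κ hκ hκt hest using fun r : GQ =>
    exists_norm_approx hK1 hK5 hL5 U hU ℓ hℓ2 e he n χ hχ a ha r (hloc r)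
  -- the product of the `κ r`
  set c : ↥U →* (ZMod (ℓ ^ e))ˣ := (cyc (ℓ ^ e)).comp U.subtype with hc
  have hmem : ∏ r ∈ Rℓ, c (κ r) ∈ χ.ker.map c :=
    Subgroup.prod_mem _ fun r _ => Subgroup.mem_map_of_mem c (MonoidHom.mem_ker.mpr (hκ r))
  obtain ⟨κ₀, hκ₀, hκ₀c⟩ := hmem
  have hcoe : ∀ r, ((c (κ r) : (ZMod (ℓ ^ e))ˣ) : ZMod (ℓ ^ e)) = (t r : ZMod (ℓ ^ e)) := hκt
  have htcop : ∀ r, Nat.Coprime ℓ (t r) := by
    intro r
    have h1 : IsUnit ((t r : ℕ) : ZMod (ℓ ^ e)) := by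
      rw [← hcoe r]; exact Units.isUnit _
    have h2 : Nat.Coprime (t r) (ℓ ^ e) := (ZMod.isUnit_iff_coprime _ _).mp h1
    exact ((Nat.coprime_pow_right_iff he _ _).mp h2).symm
  have hℓ0 : (ℓ : PadicAlgCl ℓ) ≠ 0 := Nat.cast_ne_zero.mpr hℓ.ne_zero
  have hnormℓ : ‖(ℓ : PadicAlgCl ℓ)‖ = ‖(ℓ : ℚ_[ℓ])‖ := by
    rw [← PadicAlgCl.norm_extends, map_natCast]
  have hnormℓ_pos : 0 < ‖(ℓ : PadicAlgCl ℓ)‖ := norm_pos_iff.mpr hℓ0
  have hnormℓ_le : ‖(ℓ : PadicAlgCl ℓ)‖ ≤ 1 := by
    rw [hnormℓ]; exact (Padic.norm_p_lt_one).le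
  have hnormt : ∀ r, ‖(t r : PadicAlgCl ℓ)‖ = 1 := by
    intro r
    have h1 : ‖((t r : ℕ) : ℚ_[ℓ])‖ = 1 := Padic.norm_natCast_eq_one_iff.mpr (htcop r)
    rw [← h1, ← PadicAlgCl.norm_extends, map_natCast]
  have hnorms : ∀ r, ‖(((s r : ℤˣ) : ℤ) : PadicAlgCl ℓ)‖ = 1 := by
    intro r
    rcases Int.units_eq_one_or (s r) with h | h <;> simp [h]
  -- the product estimate
  set xs : GQ → PadicAlgCl ℓ := fun r =>
    ((relNorm (locSub ℓ r U) (locPushMul ℓ r a) : (PadicAlgCl ℓ)ˣ) : PadicAlgCl ℓ) with hxs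
  set ys : GQ → PadicAlgCl ℓ := fun r =>
    (((s r : ℤˣ) : ℤ) : PadicAlgCl ℓ) * (ℓ : PadicAlgCl ℓ) ^ (k r) * (t r : PadicAlgCl ℓ) with hys
  have hysnorm : ∀ r, ‖ys r‖ = ‖(ℓ : PadicAlgCl ℓ)‖ ^ (k r) := by
    intro r
    simp only [hys, norm_mul, hnorms r, hnormt r, one_mul, mul_one, norm_zpow]
  have hε : ∀ r ∈ Rℓ, ‖xs r - ys r‖ ≤ ‖(ℓ : PadicAlgCl ℓ)‖ ^ e * ‖ys r‖ := by
    intro r _
    rw [hysnorm r, ← zpow_natCast, ← zpow_add₀ hnormℓ_pos.ne', add_comm]
    exact hest r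
  have hprodest := (norm_prod_sub_prod_le Rℓ xs ys (‖(ℓ : PadicAlgCl ℓ)‖ ^ e)
    (pow_nonneg (norm_nonneg _) e) (pow_le_one₀ (norm_nonneg _) hnormℓ_le) hε).2
  -- the product of the `xs`
  have hxprod : ∏ r ∈ Rℓ, xs r = algebraMap ℚ_[ℓ] (PadicAlgCl ℓ) ((y : ℚ) : ℚ_[ℓ]) := by
    have h1 := (hG1 U hU a ha).2 ℓ Rℓ hRℓ
    have h2 : ∏ r ∈ Rℓ, xs r = ((locPushMul ℓ 1 (relNorm U a) : (PadicAlgCl ℓ)ˣ) : PadicAlgCl ℓ) := by
      rw [h1, Units.coe_prod]
    rw [h2, locPushMul_coe, inv_one, AlgEquiv.one_apply, hy, AlgHom.commutes, map_ratCast,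
      eq_ratCast]
  -- the product of the `ys`
  set K : ℤ := ∑ r ∈ Rℓ, k r with hK
  set S : ℤˣ := ∏ r ∈ Rℓ, s r with hS
  set P : ℕ := ∏ r ∈ Rℓ, t r with hP
  have hyprod : ∏ r ∈ Rℓ, ys r = algebraMap ℚ_[ℓ] (PadicAlgCl ℓ)
      (((S : ℤ) : ℚ_[ℓ]) * (ℓ : ℚ_[ℓ]) ^ K * (P : ℚ_[ℓ])) := by
    simp only [hys, Finset.prod_mul_distrib]
    rw [prod_zpow_const₀ Rℓ hℓ0, map_mul, map_mul, map_zpow₀, map_natCast, map_natCast,
      map_intCast, hS, hP, Units.coe_prod, Int.cast_prod, Nat.cast_prod]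
  have hynorm : ∏ r ∈ Rℓ, ‖ys r‖ = ‖(ℓ : PadicAlgCl ℓ)‖ ^ K := by
    simp_rw [hysnorm]
    exact prod_zpow_const₀ Rℓ hnormℓ_pos.ne' _
  refine ⟨K, S, P, κ₀, MonoidHom.mem_ker.mp hκ₀, ?_, ?_⟩
  · show ((c κ₀ : (ZMod (ℓ ^ e))ˣ) : ZMod (ℓ ^ e)) = _
    rw [hκ₀c, Units.coe_prod, hP, Nat.cast_prod]
    exact Finset.prod_congr rfl fun r _ => hcoe r
  · rw [hxprod, hyprod, ← map_sub, hynorm] at hprodest
    have h3 := hprodest
    rw [show ‖algebraMap ℚ_[ℓ] (PadicAlgCl ℓ) (((y : ℚ) : ℚ_[ℓ]) -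
        ((S : ℤ) : ℚ_[ℓ]) * (ℓ : ℚ_[ℓ]) ^ K * (P : ℚ_[ℓ]))‖ = ‖((y : ℚ) : ℚ_[ℓ]) -
        ((S : ℤ) : ℚ_[ℓ]) * (ℓ : ℚ_[ℓ]) ^ K * (P : ℚ_[ℓ])‖ from PadicAlgCl.norm_extends _ _,
      hnormℓ, ← zpow_natCast, ← zpow_add₀ (norm_pos_iff.mpr (Nat.cast_ne_zero.mpr hℓ.ne_zero)).ne',
      add_comm] at h3
    exact h3

/-! ## STEP A -/

/-- **STEP A** of the norm route: the cyclotomic sum formula, from the leaves. -/
theorem cycloSum_of (hK1 : CupLocSpec) (hK5 : LocalNormSpec) (hL2 : LocalStructureSpec)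
    (hL4 : CycloFrobSpec) (hL5 : LocalCycloNormSpec) (hG1 : OrbitNormSpec)
    (hG1b : ProductFormulaSpec) (hG4 : SupportFiniteSpec) (I : LocalInvSystem)
    (hL3 : UnramCupSpec I) : CycloSumSpec I := by
  classical
  intro U hU ℓ _ hℓ2 e he n hn χ hχ hcyc a ha hloc R hR
  have hℓ : ℓ.Prime := Fact.out
  haveI : NeZero (ℓ ^ e) := ⟨pow_ne_zero e hℓ.ne_zero⟩
  haveI : NeZero n := ⟨hn.pos.ne'⟩
  obtain ⟨y, hy⟩ := (hG1 U hU a ha).1
  set ℓp : Nat.Primes := ⟨ℓ, hℓ⟩ with hℓp
  -- data away from `ℓ`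
  choose σ k hσk using fun (p : Nat.Primes × GQ) =>
    key_away hK1 hL2 hL4 I hL3 U hU (ℓ ^ e) n χ hχ hcyc a ha p.1 p.2
  -- data above `ℓ`
  obtain ⟨K, S, P, κ, hκ, hκP, hest⟩ := key_above hK1 hK5 hL5 hG1 U hU ℓ hℓ2 e he n χ hχ a ha
    hloc (R ℓp) (hR ℓp) y hy
  have hcop : ∀ q : Nat.Primes, q ≠ ℓp → Nat.Coprime (q : ℕ) (ℓ ^ e) := by
    intro q hq
    apply Nat.Coprime.pow_right
    exact (Nat.coprime_primes q.2 hℓ).mpr (fun h => hq (Subtype.ext h))
  -- the finite sets of primes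
  have hfin := hG4 I U hU (gcc U n χ a)
  set Sy : Finset Nat.Primes :=
    Finset.subtype Nat.Prime ((y : ℚ).num.natAbs * (y : ℚ).den).primeFactors with hSy
  set S0 : Finset Nat.Primes := hfin.toFinset ∪ Sy with hS0
  set S' : Finset Nat.Primes := S0.erase ℓp with hS'
  have hsupp : Function.support
      (fun q : Nat.Primes => ∑ r ∈ R q, I.invAt q r U (gcc U n χ a)) ⊆ ↑S0 := by
    intro q hq
    rw [Function.mem_support] at hq
    obtain ⟨r, hr, hne⟩ := Finset.exists_ne_zero_of_sum_ne_zero hq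
    rw [Finset.mem_coe, hS0, Finset.mem_union]
    left
    rw [Set.Finite.mem_toFinset]
    refine ⟨r, fun h0 => hne ?_⟩
    unfold LocalInvSystem.invAt
    rw [h0, map_zero]
  show I.sumInv U R (gcc U n χ a) = 0
  unfold LocalInvSystem.sumInv
  rw [finsum_eq_sum_of_support_subset _ hsupp]
  have hℓterm : ∑ r ∈ R ℓp, I.invAt ℓp r U (gcc U n χ a) = 0 := by
    refine Finset.sum_eq_zero fun r _ => ?_
    unfold LocalInvSystem.invAt
    have := hloc r
    rw [this, map_zero]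
  rw [← Finset.sum_erase S0 hℓterm]
  have hterm : ∀ q ∈ S', ∀ r ∈ R q, I.invAt q r U (gcc U n χ a) =
      ((((k (q, r) : ℚ) * ((chiAdd χ (σ (q, r))).val : ℚ) / (n : ℚ) : ℚ)) :
        AddCircle (1 : ℚ)) := by
    intro q hq r _
    exact (hσk (q, r) (hcop q (Finset.ne_of_mem_erase hq))).1
  rw [Finset.sum_congr rfl (fun q hq => Finset.sum_congr rfl (hterm q hq))]
  rw [Finset.sum_sigma' S' R (fun q r =>
    ((((k (q, r) : ℚ) * ((chiAdd χ (σ (q, r))).val : ℚ) / (n : ℚ) : ℚ)) : AddCircle (1 : ℚ)))]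
  refine addCircle_sum_eq_zero (S'.sigma R) n (fun p => k (p.1, p.2))
    (fun p => chiAdd χ (σ (p.1, p.2))) ?_
  -- the group-theoretic heart
  set c : ↥U →* (ZMod (ℓ ^ e))ˣ := (cyc (ℓ ^ e)).comp U.subtype with hc
  set θ : ↥U →* (ZMod (ℓ ^ e))ˣ × Multiplicative (ZMod n) := c.prod χ with hθ
  set tw : (ZMod (ℓ ^ e))ˣ × Multiplicative (ZMod n) :=
    ∏ p ∈ S'.sigma R, θ (σ (p.1, p.2)) ^ k (p.1, p.2) with htw
  have hmem : (tw.1, tw.2) ∈ θ.range :=
    Subgroup.prod_mem _ fun p _ => Subgroup.zpow_mem _ (MonoidHom.mem_range.mpr ⟨_, rfl⟩) _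
  have htw2 : tw.2 = ∏ p ∈ S'.sigma R, χ (σ (p.1, p.2)) ^ k (p.1, p.2) := by
    rw [htw]
    rw [show (∏ p ∈ S'.sigma R, θ (σ (p.1, p.2)) ^ k (p.1, p.2)).2 =
      MonoidHom.snd _ _ (∏ p ∈ S'.sigma R, θ (σ (p.1, p.2)) ^ k (p.1, p.2)) from rfl, map_prod]
    refine Finset.prod_congr rfl fun p _ => ?_
    rw [map_zpow]
    rfl
  have htw1 : tw.1 = ∏ q ∈ S', uq (ℓ ^ e) (q : ℕ) ^ padicValRat (q : ℕ) (y : ℚ) := by
    rw [htw]
    rw [show (∏ p ∈ S'.sigma R, θ (σ (p.1, p.2)) ^ k (p.1, p.2)).1 =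
      MonoidHom.fst _ _ (∏ p ∈ S'.sigma R, θ (σ (p.1, p.2)) ^ k (p.1, p.2)) from rfl, map_prod]
    rw [← Finset.prod_sigma' S' R (fun q r =>
      (MonoidHom.fst _ _) (θ (σ (q, r)) ^ k (q, r)))]
    refine Finset.prod_congr rfl fun q hq => ?_
    have h1 : ∀ r ∈ R q, (MonoidHom.fst _ _) (θ (σ (q, r)) ^ k (q, r)) =
        uq (ℓ ^ e) (q : ℕ) ^ vdAt U a q r := by
      intro r _
      rw [map_zpow]
      exact (hσk (q, r) (hcop q (Finset.ne_of_mem_erase hq))).2
    rw [Finset.prod_congr rfl h1, prod_zpow_const]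
    congr 1
    haveI : Fact (q : ℕ).Prime := ⟨q.2⟩
    exact (hG1b U hU a ha y hy (q : ℕ) (R q) (hR q)).symm
  -- the congruence
  have hPunit : IsUnit ((P : ℕ) : ZMod (ℓ ^ e)) := by
    rw [← hκP]; exact Units.isUnit _
  have hPℓ : ¬ ℓ ∣ P := by
    have h2 : Nat.Coprime P (ℓ ^ e) := (ZMod.isUnit_iff_coprime _ _).mp hPunit
    have h3 : Nat.Coprime P ℓ := (Nat.coprime_pow_right_iff he _ _).mp h2
    exact fun h => hℓ.one_lt.ne' (Nat.eq_one_of_dvd_coprimes h3 h (dvd_refl ℓ))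
  have hy0 : (y : ℚ) ≠ 0 := y.ne_zero
  let emb : Nat.Primes ↪ ℕ := ⟨fun q => (q : ℕ), fun a b h => Subtype.ext h⟩
  set T : Finset ℕ := S'.map emb with hT
  have hTmem : ∀ q ∈ T, q.Prime ∧ q ≠ ℓ := by
    intro q hq
    obtain ⟨q', hq', rfl⟩ := Finset.mem_map.mp hq
    exact ⟨q'.2, fun h => (Finset.ne_of_mem_erase hq') (Subtype.ext h)⟩
  have hTu : ∀ q ∈ T, ((uq (ℓ ^ e) q : (ZMod (ℓ ^ e))ˣ) : ZMod (ℓ ^ e)) = (q : ZMod (ℓ ^ e)) := by
    intro q hq
    obtain ⟨q', hq', rfl⟩ := Finset.mem_map.mp hq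
    exact uq_coe (hcop q' (Finset.ne_of_mem_erase hq'))
  have hTsupp : ∀ q : ℕ, q.Prime → q ≠ ℓ → padicValRat q (y : ℚ) ≠ 0 → q ∈ T := by
    intro q hq hqℓ hval
    haveI : Fact q.Prime := ⟨hq⟩
    refine Finset.mem_map.mpr ⟨(⟨q, hq⟩ : Nat.Primes), ?_, rfl⟩
    refine Finset.mem_erase.mpr ⟨fun h => hqℓ (congrArg Subtype.val h), ?_⟩
    refine Finset.mem_union.mpr (Or.inr ?_)
    refine Finset.mem_subtype.mpr ?_
    show q ∈ ((y : ℚ).num.natAbs * (y : ℚ).den).primeFactors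
    have hnum : (y : ℚ).num.natAbs ≠ 0 := Int.natAbs_ne_zero.mpr (Rat.num_ne_zero.mpr hy0)
    have hden : (y : ℚ).den ≠ 0 := (y : ℚ).den_ne_zero
    rw [Nat.mem_primeFactors]
    refine ⟨hq, ?_, mul_ne_zero hnum hden⟩
    by_contra hnd
    have h1 : ¬ q ∣ (y : ℚ).num.natAbs := fun h => hnd (Dvd.dvd.mul_right h _)
    have h2 : ¬ q ∣ (y : ℚ).den := fun h => hnd (Dvd.dvd.mul_left h _)
    apply hval
    show (padicValInt q (y : ℚ).num : ℤ) - (padicValNat q (y : ℚ).den : ℤ) = 0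
    have h3 : padicValInt q (y : ℚ).num = padicValNat q (y : ℚ).num.natAbs := rfl
    rw [h3, padicValNat.eq_zero_of_not_dvd h1, padicValNat.eq_zero_of_not_dvd h2]
    simp
  have hpm := unit_prod_eq_pm ℓ e (y : ℚ) hy0 S K P hPℓ hest he (uq (ℓ ^ e)) T hTmem hTu hTsupp
    (c κ) hκP
  rw [hT, Finset.prod_map] at hpm
  have hpm' : tw.1 = c κ ∨ tw.1 = (-1 : (ZMod (ℓ ^ e))ˣ) * c κ := by
    rw [htw1, neg_one_mul]
    exact hpm
  have hcyc' : ∀ τ : ↥U, c τ = 1 → χ τ = 1 := fun τ h =>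
    hcyc τ (fun ζ hζ => fixes_of_cyc_eq_one (ℓ ^ e) _ h hζ)
  have hw : tw.2 = 1 := chi_eq_one_of_mem_range hn c χ hcyc' hmem (-1) (by simp) κ hκ hpm'
  rw [htw2] at hw
  have := congrArg Multiplicative.toAdd hw
  rw [toAdd_prod, toAdd_one] at this
  rw [← this]
  refine Finset.sum_congr rfl fun p _ => ?_
  rw [toAdd_zpow]
  rfl

end Fermat.Agent.S55.G.Rec.H511

end
end
-- ===== PACK-END S55/G/Rec/StepAH511.lean

-- ===== PACK-BEGIN S55/G/Rec/SCH174/Main.lean
section







/-!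
# S55 / G / REC, leaf SC (helper174) : STEP C, `KillAbovePSpec`

`killAboveP_core` : for `p` odd, from the leaf specs K1, K2, L2, L3, L4, L6, G3 and STEP A,
every `x ∈ Br(K)(p)` differs from a cup class `y = a ∪ δχ_r` with vanishing sum of invariants
by a class which is locally trivial at all places above `p`.
-/

set_option autoImplicit false
set_option linter.style.haveILetI false
set_option linter.unusedSectionVars false

noncomputable section

namespace Fermat.Agent.S55.G.Rec.H174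

open groupCohomology Fermat.Agent.S55.G.Rec

local notation "Qb" => AlgebraicClosure ℚ
local notation "GQ" => (AlgebraicClosure ℚ ≃ₐ[ℚ] AlgebraicClosure ℚ)

/-- **STEP C.** -/
theorem killAboveP_core (I : LocalInvSystem) (p : ℕ) [Fact p.Prime] (hp2 : p ≠ 2)
    (hK1 : CupLocSpec) (hK2 : CupAddSpec) (hL2 : LocalStructureSpec) (hL3 : UnramCupSpec I)
    (hL4 : CycloFrobSpec) (hL6 : LocalRootSpec) (hG3 : WeakApproxSpec) (hSA : CycloSumSpec I) :
    KillAbovePSpec I p := by
  intro U hU x hx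
  obtain ⟨k, hk⟩ := hx
  have hp : p.Prime := Fact.out
  -- places above `p`
  obtain ⟨Rp, hRp⟩ := exists_placeReps hU p
  -- local structure at every `g`
  have hopen : ∀ g : GQ, IsOpenL p (locSub p g U) := fun g => H181.isOpenL_locSub p g hU
  choose f φ π hf hφmem hφ hπ hvπ hdec using fun g : GQ => hL2 p (locSub p g U) (hopen g)
  -- the auxiliary prime `r`
  obtain ⟨r, hr, hrp, hord, hdvd⟩ := H897.exists_prime_orderOf_eq_prime_pow' p hp
    (k + Rp.sup (fun g => padicValNat p (f g)) + 1) (by omega)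
  haveI : Fact r.Prime := ⟨hr⟩
  have hpr : p ≠ r := hrp.symm
  have hNpos : 1 ≤ k + Rp.sup (fun g => padicValNat p (f g)) + 1 := by omega
  have hr2 : r ≠ 2 := by
    have h1 : p ^ (k + Rp.sup (fun g => padicValNat p (f g)) + 1) ≤ r - 1 :=
      Nat.le_of_dvd (by have := hr.two_le; omega) hdvd
    have h2 : p ^ 1 ≤ p ^ (k + Rp.sup (fun g => padicValNat p (f g)) + 1) :=
      Nat.pow_le_pow_right hp.pos hNpos
    have h3 := hp.two_le
    rw [pow_one] at h2
    omega
  have hprdvd : ¬ p ∣ r := fun h => hpr ((Nat.prime_dvd_prime_iff_eq hp hr).1 h)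
  -- the character
  have hn0 : ppart p r ≠ 0 := ppart_ne_zero p r
  have hχlc : IsLevelConstant₁ U.subtype (chiU p r U) := isLevelConstant₁_chiU p r U
  have hχcyc : IsCycloChar U (r ^ 1) (chiU p r U) := isCycloChar_chiU p r U
  have hrn : ¬ r ∣ ppart p r := by
    intro h
    exact hpr ((Nat.prime_dvd_prime_iff_eq hr hp).1 (hr.dvd_of_dvd_pow h)).symm
  have hodd : Odd (ppart p r) := (hp.odd_of_ne_two hp2).pow
  -- Frobenius elements
  have hFrob : ∀ g : GQ, chiAdd (chiU p r U) (locHom p g U ⟨φ g, hφmem g⟩) =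
      f g • tzero p r hpr := by
    intro g
    have hact := (hL4 p r hprdvd).2 (φ g) (f g) (hφ g)
    exact chiAdd_chiQ_of_acts p r hpr (acts_conj_loc p r (p ^ f g) g (φ g) hact)
  -- the local invariants of `x` above `p` are killed by `p ^ k`
  have hξ : ∀ g : GQ, p ^ k • I.inv p (locSub p g U) (locBr p g U x) = 0 := by
    intro g
    rw [← map_nsmul, ← map_nsmul, hk, map_zero, map_zero]
  -- solving for the valuations
  have hsolve : ∀ g ∈ Rp, ∃ j : ℤ,
      ((((j : ℚ) * ((chiAdd (chiU p r U) (locHom p g U ⟨φ g, hφmem g⟩)).val : ℚ) /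
        (ppart p r : ℚ) : ℚ)) : AddCircle (1 : ℚ)) = I.inv p (locSub p g U) (locBr p g U x) := by
    intro g hg
    have hle : padicValNat p (f g) ≤ Rp.sup (fun g => padicValNat p (f g)) :=
      Finset.le_sup (f := fun g => padicValNat p (f g)) hg
    obtain ⟨b, hkb, hb⟩ := addOrderOf_nsmul_prime_pow (k := k) hp
      (addOrderOf_tzero p r hpr hord) (hf g).1.ne' (by omega)
    rw [hFrob g]
    exact exists_int_mul_val_div_eq (ppart p r) hp _ hb hkb (hξ g)
  choose! j hj using hsolve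
  -- weak approximation
  obtain ⟨a, ha, hap, har⟩ := hG3 U hU p r hpr Rp hRp j
  refine ⟨gcc U (ppart p r) (chiU p r U) a, ⟨expM p r, ?_⟩, ?_, ?_⟩
  · -- `y` is killed by `p ^ M`
    exact gcc_nsmul_eq_zero hK2 U (ppart p r) hn0 (chiU p r U) hχlc a ha
  · -- local triviality of `x - y` above `p`
    intro g'
    obtain ⟨r₀, ⟨hr₀, hrep⟩, -⟩ := hRp g'
    refine locBr_eq_zero_of_doubleCoset p hU hrep _ ?_
    apply I.inv_injective p (locSub p r₀ U) (hopen r₀)
    rw [map_zero, map_sub, map_sub, sub_eq_zero, ← hj r₀ hr₀]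
    obtain ⟨⟨hlc', hfix'⟩, heq⟩ := hK1 p r₀ U (ppart p r) (chiU p r U) a hn0 hχlc ha
    rw [heq]
    -- the localised character is unramified
    have hunr : ∀ τ : ↥(locSub p r₀ U),
        IsInertial p (τ : PadicAlgCl p ≃ₐ[ℚ_[p]] PadicAlgCl p) →
        (chiU p r U).comp (locHom p r₀ U) τ = 1 := by
      intro τ hτ
      have hfixμ := (hL4 p r hprdvd).1 (τ : PadicAlgCl p ≃ₐ[ℚ_[p]] PadicAlgCl p) hτ
      show chiQ p r (r₀ * localGaloisToGlobal p τ * r₀⁻¹) = 1
      apply chiQ_eq_one_of_fixes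
      intro ζ hζ
      have := acts_conj_loc p r 1 r₀ (τ : PadicAlgCl p ≃ₐ[ℚ_[p]] PadicAlgCl p)
        (fun ζ' hζ' => by rw [hfixμ ζ' hζ', pow_one]) ζ hζ
      rwa [pow_one] at this
    -- the valuation of `a` at the place `r₀`
    obtain ⟨π', u', hπ', hu', hdec'⟩ := hap r₀ hr₀
    obtain ⟨k', u, hufix, hu, hdecL, hvdeg⟩ := hdec r₀ (locPushMul p r₀ a) hfix'
    have hkj : k' = j r₀ := zpow_exponent_unique p (hπ r₀) hπ' hu hu' (hdecL.symm.trans hdec')
    rw [hkj] at hvdeg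
    have hinv := hL3 p (locSub p r₀ U) (hopen r₀) (ppart p r)
      ((chiU p r U).comp (locHom p r₀ U)) hlc' hunr (f r₀) (hf r₀) ⟨φ r₀, hφmem r₀⟩ (hφ r₀)
      (locPushMul p r₀ a) hfix' (j r₀) hvdeg
    rw [hinv]
    rfl
  · -- the sum of the invariants of `y` vanishes
    intro R hR
    refine hSA U hU r hr2 1 one_pos (ppart p r) hodd (chiU p r U) hχlc hχcyc a ha ?_ R hR
    intro g
    obtain ⟨⟨hlc', hfix'⟩, heq⟩ := hK1 r g U (ppart p r) (chiU p r U) a hn0 hχlc ha
    rw [heq]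
    obtain ⟨b, hb, hba⟩ := hL6 r (locSub r g U) (ppart p r) hrn (locPushMul r g a) hfix' (har g)
    rw [← hba]
    exact lcc_pow_self_eq_zero r hK2 _ _ hn0 _ hlc' b hb

end Fermat.Agent.S55.G.Rec.H174

end
end
-- ===== PACK-END S55/G/Rec/SCH174/Main.lean

-- ===== PACK-BEGIN S55/G/Rec/H742/WeakApprox.lean
section


/-!
# S55 / G / REC2-G3 (helper742): `WeakApproxSpec`

`weakApprox : WeakApproxSpec` (exact Spec2 statement): weak approximation in `K = ℚ̄^U` with
prescribed valuations at the places above `p` and closeness to `1` at the places above `r`.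

Proof: Mathlib's abstract weak approximation theorem `AbsoluteValue.denseRange_algebraMap_pi`
applied to the absolute values `x ↦ ‖ι_p (g⁻¹ x)‖` (`g ∈ Rp`) and `x ↦ ‖ι_r (φ x)‖`
(`φ : K → ℚ̄` an embedding); distinct `g ∈ Rp` give distinct places (`exists_doubleCoset_of_inter_eq`),
uniformizers exist (`exists_isUniformizer`) and their norms are attained on `K`
(`exists_global_norm_eq`).
-/

set_option autoImplicit false
set_option linter.style.haveILetI false

noncomputable section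

namespace Fermat.Agent.S55.G.Rec.H742

open scoped Pointwise

local notation "Qb" => AlgebraicClosure ℚ
local notation "GQ" => (AlgebraicClosure ℚ ≃ₐ[ℚ] AlgebraicClosure ℚ)

section Abs

variable (p : ℕ) [Fact p.Prime] (K : IntermediateField ℚ Qb)

/-- The absolute value `x ↦ ‖ι_p (φ x)‖` on `K`, for an embedding `φ : K → ℚ̄`. -/
def embAbs (φ : K →ₐ[ℚ] Qb) : AbsoluteValue K ℝ where
  toFun x := ‖padicEmbedding p (φ x)‖
  map_mul' x y := by simp [map_mul]
  nonneg' x := norm_nonneg _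
  eq_zero' x := by simp
  add_le' x y := by
    simp only [map_add]
    exact norm_add_le _ _

theorem embAbs_apply (φ : K →ₐ[ℚ] Qb) (x : K) : embAbs p K φ x = ‖padicEmbedding p (φ x)‖ := rfl

/-- The embedding `x ↦ g⁻¹ x` of `K`. -/
def gEmb (g : GQ) : K →ₐ[ℚ] Qb := ((g⁻¹ : GQ) : Qb ≃ₐ[ℚ] Qb).toAlgHom.comp K.val

theorem gEmb_apply (g : GQ) (x : K) : gEmb K g x = g⁻¹ (x : Qb) := rfl

theorem embAbs_natCast_self (φ : K →ₐ[ℚ] Qb) : embAbs p K φ ((p : ℕ) : K) = (p : ℝ)⁻¹ := by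
  rw [embAbs_apply, map_natCast, map_natCast]
  exact norm_natCast_self_padicAlgCl p

theorem embAbs_natCast_of_ne (φ : K →ₐ[ℚ] Qb) {r : ℕ} (hr : r.Prime) (hrp : r ≠ p) :
    embAbs p K φ ((r : ℕ) : K) = 1 := by
  rw [embAbs_apply, map_natCast, map_natCast]
  exact norm_natCast_padicAlgCl_of_ne p hr hrp

theorem natCast_ne_zero_K : ((p : ℕ) : K) ≠ 0 := by
  have hp : (p : ℕ).Prime := Fact.out
  exact_mod_cast hp.ne_zero

theorem inv_natCast_ne_one : ((p : ℕ) : ℝ)⁻¹ ≠ 1 := by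
  have hp : (p : ℕ).Prime := Fact.out
  rw [ne_eq, inv_eq_one]
  exact_mod_cast hp.one_lt.ne'

theorem embAbs_isNontrivial (φ : K →ₐ[ℚ] Qb) : (embAbs p K φ).IsNontrivial :=
  ⟨((p : ℕ) : K), natCast_ne_zero_K p K, by
    rw [embAbs_natCast_self]
    exact inv_natCast_ne_one p⟩

theorem embAbs_eq_of_isEquiv (φ ψ : K →ₐ[ℚ] Qb)
    (h : (embAbs p K φ).IsEquiv (embAbs p K ψ)) : embAbs p K φ = embAbs p K ψ := by
  refine eq_of_isEquiv_of_apply_eq h (natCast_ne_zero_K p K) ?_ ?_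
  · rw [embAbs_natCast_self]
    exact inv_natCast_ne_one p
  · rw [embAbs_natCast_self, embAbs_natCast_self]

theorem embAbs_not_isEquiv (r : ℕ) [Fact r.Prime] (hpr : p ≠ r) (φ ψ : K →ₐ[ℚ] Qb) :
    ¬ (embAbs p K φ).IsEquiv (embAbs r K ψ) := by
  intro h
  have hp : (p : ℕ).Prime := Fact.out
  have h1 : embAbs p K φ ((p : ℕ) : K) < 1 := by
    rw [embAbs_natCast_self]
    exact inv_lt_one_of_one_lt₀ (by exact_mod_cast hp.one_lt)
  have h2 := h.lt_one_iff.1 h1
  rw [embAbs_natCast_of_ne r K ψ hp hpr] at h2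
  exact lt_irrefl _ h2

end Abs

/-- `locSub p g U` has finite index for open `U`. -/
theorem index_locSub_ne_zero (p : ℕ) [Fact p.Prime] {U : Subgroup GQ} (hU : IsOpenQ U) (g : GQ) :
    (locSub p g U).index ≠ 0 := by
  haveI : Finite (GQ ⧸ U) := Subgroup.quotient_finite_of_isOpen U (isOpen_of_isOpenQ hU)
  haveI : U.FiniteIndex := Subgroup.finiteIndex_of_finite_quotient
  haveI h1 : (U.comap (MulAut.conj g).toMonoidHom).FiniteIndex := by
    refine ⟨?_⟩
    rw [Subgroup.index_comap]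
    exact Subgroup.FiniteIndex.index_ne_zero (H := U.subgroupOf _)
  unfold locSub
  rw [Subgroup.index_comap]
  exact Subgroup.FiniteIndex.index_ne_zero
    (H := (U.comap (MulAut.conj g).toMonoidHom).subgroupOf _)

/-- distinct representatives give distinct places of `K` -/
theorem eq_of_embAbs_eq (p : ℕ) [Fact p.Prime] {U : Subgroup GQ} (hU : IsOpenQ U)
    {R : Finset GQ} (hR : IsDoubleCosetReps U (localGaloisToGlobal p).range R) {g g' : GQ}
    (hg : g ∈ R) (hg' : g' ∈ R)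
    (h : embAbs p (fixK U) (gEmb (fixK U) g') = embAbs p (fixK U) (gEmb (fixK U) g)) :
    g' = g := by
  obtain ⟨u, hu, d, hd, hgg⟩ := exists_doubleCoset_of_inter_eq p hU g g' (fun x hx => by
    have := congrArg (fun v : AbsoluteValue (fixK U) ℝ => v ⟨x, hx⟩) h
    simp only [embAbs_apply, gEmb_apply] at this
    rw [this])
  obtain ⟨r, -, hr⟩ := hR g'
  have h1 : g' = r := hr g' ⟨hg', 1, U.one_mem, 1, Subgroup.one_mem _, by simp⟩
  have h2 : g = r := hr g ⟨hg, u, hu, d, hd, hgg⟩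
  rw [h1, h2]

/-- **Leaf (G3)**: weak approximation. -/
theorem weakApprox : WeakApproxSpec := by
  classical
  intro U hU p r _ _ hpr Rp hRp j
  have hpP : (p : ℕ).Prime := Fact.out
  have hrP : (r : ℕ).Prime := Fact.out
  set K := fixK U with hK
  haveI : FiniteDimensional ℚ K := finiteDimensional_fixK hU
  -- uniformizers and global elements with the same norm
  have hπex : ∀ g : GQ, ∃ π : (PadicAlgCl p)ˣ,
      IsUniformizer p (locSub p g U) (π : PadicAlgCl p) :=
    fun g => exists_isUniformizer p (locSub p g U) (index_locSub_ne_zero p hU g)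
  choose π hπ using hπex
  have hxex : ∀ g : GQ, ∃ x : K, x ≠ 0 ∧
      embAbs p K (gEmb K g) x = ‖((π g : (PadicAlgCl p)ˣ) : PadicAlgCl p)‖ := by
    intro g
    obtain ⟨x, hx, hx0, hxn⟩ := exists_global_norm_eq p hU g (π g) (π g).ne_zero (hπ g).1
    exact ⟨⟨x, hx⟩, fun h => hx0 (congrArg Subtype.val h), hxn⟩
  choose x hx0 hxn using hxex
  -- the finite set of absolute values
  let Sp : Set (AbsoluteValue K ℝ) := (fun g => embAbs p K (gEmb K g)) '' (Rp : Set GQ)
  let Sr : Set (AbsoluteValue K ℝ) := Set.range (fun φ : K →ₐ[ℚ] Qb => embAbs r K φ)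
  have hfin : (Sp ∪ Sr).Finite :=
    (Rp.finite_toSet.image _).union (Set.finite_range _)
  haveI : Finite ↥(Sp ∪ Sr) := hfin.to_subtype
  let v : ↥(Sp ∪ Sr) → AbsoluteValue K ℝ := Subtype.val
  have hnontriv : ∀ i, (v i).IsNontrivial := by
    rintro ⟨w, hw | hw⟩
    · obtain ⟨g, -, rfl⟩ := hw
      exact embAbs_isNontrivial p K _
    · obtain ⟨φ, rfl⟩ := hw
      exact embAbs_isNontrivial r K _
  have hpair : Pairwise fun i j ↦ ¬ (v i).IsEquiv (v j) := by
    rintro ⟨w, hw⟩ ⟨w', hw'⟩ hne heq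
    apply hne
    apply Subtype.ext
    show w = w'
    change w.IsEquiv w' at heq
    rcases hw with hw | hw <;> rcases hw' with hw' | hw'
    · obtain ⟨g, -, rfl⟩ := hw
      obtain ⟨g', -, rfl⟩ := hw'
      exact embAbs_eq_of_isEquiv p K _ _ heq
    · obtain ⟨g, -, rfl⟩ := hw
      obtain ⟨φ, rfl⟩ := hw'
      exact absurd heq (embAbs_not_isEquiv p K r hpr _ _)
    · obtain ⟨φ, rfl⟩ := hw
      obtain ⟨g', -, rfl⟩ := hw'
      exact absurd heq.symm (embAbs_not_isEquiv p K r hpr _ _)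
    · obtain ⟨φ, rfl⟩ := hw
      obtain ⟨φ', rfl⟩ := hw'
      exact embAbs_eq_of_isEquiv r K _ _ heq
  -- targets
  let t : ↥(Sp ∪ Sr) → K := fun i =>
    if h : ∃ g, g ∈ Rp ∧ embAbs p K (gEmb K g) = i.1 then x h.choose ^ j h.choose else 1
  have ht0 : ∀ i, t i ≠ 0 := by
    intro i
    simp only [t]
    split_ifs with h
    · exact zpow_ne_zero _ (hx0 _)
    · exact one_ne_zero
  let ε : ↥(Sp ∪ Sr) → ℝ := fun i => min (v i (t i)) 1
  have hε : ∀ i, 0 < ε i := fun i => lt_min ((v i).pos (ht0 i)) one_pos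
  obtain ⟨a, ha⟩ := exists_approx' v hnontriv hpair t ε hε
  -- the `p`-adic places
  have hP : ∀ g ∈ Rp, embAbs p K (gEmb K g) a =
      ‖((π g : (PadicAlgCl p)ˣ) : PadicAlgCl p)‖ ^ j g := by
    intro g hg
    have hmem : embAbs p K (gEmb K g) ∈ Sp ∪ Sr := Or.inl ⟨g, hg, rfl⟩
    have hex : ∃ g', g' ∈ Rp ∧ embAbs p K (gEmb K g') = embAbs p K (gEmb K g) := ⟨g, hg, rfl⟩
    have hch : hex.choose = g :=
      eq_of_embAbs_eq p hU hRp hg hex.choose_spec.1 hex.choose_spec.2
    have hti : t ⟨_, hmem⟩ = x g ^ j g := by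
      simp only [t]
      rw [dif_pos hex, hch]
    have h1 := ha ⟨_, hmem⟩
    have h2 : embAbs p K (gEmb K g) (a - x g ^ j g) < embAbs p K (gEmb K g) (x g ^ j g) := by
      have : ε ⟨_, hmem⟩ ≤ embAbs p K (gEmb K g) (x g ^ j g) := by
        simp only [ε, v]
        rw [hti]
        exact min_le_left _ _
      have h3 : embAbs p K (gEmb K g) (a - t ⟨_, hmem⟩) < ε ⟨_, hmem⟩ := h1
      rw [hti] at h3
      exact lt_of_lt_of_le h3 this
    have h4 : embAbs p K (gEmb K g) a = embAbs p K (gEmb K g) (x g ^ j g) := by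
      simp only [embAbs_apply] at h2 ⊢
      rw [map_sub, map_sub] at h2
      exact norm_eq_of_norm_sub_lt p h2
    rw [h4, map_zpow₀, hxn]
  -- the `r`-adic places
  have hR : ∀ φ : K →ₐ[ℚ] Qb, embAbs r K φ (a - 1) < 1 := by
    intro φ
    have hmem : embAbs r K φ ∈ Sp ∪ Sr := Or.inr ⟨φ, rfl⟩
    have hnex : ¬ ∃ g, g ∈ Rp ∧ embAbs p K (gEmb K g) = embAbs r K φ := by
      rintro ⟨g, -, hg⟩
      refine embAbs_not_isEquiv p K r hpr (gEmb K g) φ ?_
      rw [hg]
      exact AbsoluteValue.IsEquiv.refl _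
    have hti : t ⟨_, hmem⟩ = 1 := by
      simp only [t]
      rw [dif_neg hnex]
    have h1 : embAbs r K φ (a - t ⟨_, hmem⟩) < ε ⟨_, hmem⟩ := ha ⟨_, hmem⟩
    rw [hti] at h1
    exact lt_of_lt_of_le h1 (min_le_right _ _)
  have ha0 : (a : Qb) ≠ 0 := by
    intro h0
    have h1 := hR (gEmb K 1)
    have ha' : a = 0 := Subtype.ext h0
    rw [ha', zero_sub, map_neg_eq_map, map_one] at h1
    exact lt_irrefl _ h1
  refine ⟨Units.mk0 (a : Qb) ha0, gFixed_of_mem_fixK _ a.2, ?_, ?_⟩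
  · intro g hg
    have hnorm : ‖padicEmbedding p (g⁻¹ (a : Qb))‖ =
        ‖((π g : (PadicAlgCl p)ˣ) : PadicAlgCl p)‖ ^ j g := hP g hg
    refine ⟨π g, (π g ^ j g)⁻¹ * locPushMul p g (Units.mk0 (a : Qb) ha0), hπ g, ?_, ?_⟩
    · rw [Units.val_mul, norm_mul, Units.val_inv_eq_inv_val, norm_inv,
        Units.val_zpow_eq_zpow_val, norm_zpow, locPushMul_coe, Units.val_mk0, hnorm]
      have hne : ‖((π g : (PadicAlgCl p)ˣ) : PadicAlgCl p)‖ ^ j g ≠ 0 :=
        zpow_ne_zero _ (norm_ne_zero_iff.2 (π g).ne_zero)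
      exact inv_mul_cancel₀ hne
    · rw [mul_inv_cancel_left]
  · intro g
    have h1 := hR (gEmb K g)
    rw [embAbs_apply] at h1
    have h2 : padicEmbedding r (gEmb K g (a - 1)) =
        padicEmbedding r (g⁻¹ (a : Qb)) - 1 := by
      rw [gEmb_apply]
      push_cast
      rw [map_sub, map_sub, map_one, map_one]
    rw [h2] at h1
    rw [locPushMul_coe, Units.val_mk0]
    exact h1

end Fermat.Agent.S55.G.Rec.H742

end
end
-- ===== PACK-END S55/G/Rec/H742/WeakApprox.lean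

-- ===== PACK-BEGIN S55/Local/H483/Surj.lean
section


/-!
# S55, layer L : the inertia subgroup of a quotient is the image of inertia   (helper483)

`K ⊆ E ⊆ N`, `N / K` finite Galois, `E / K` normal.  Every `ι ∈ Gal(E/K)` acting trivially on the
residue field of `E` is the restriction of some `σ ∈ Gal(N/K)` acting trivially on the residue
field of `N` (`exists_inertial_lift`).  Proof by counting: `|I(N/K)| = |I(E/K)| · |I(N/E)|`.
-/

set_option autoImplicit false
set_option linter.unusedSectionVars false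
set_option linter.style.haveILetI false

namespace Fermat.Agent.S55.Local.H483

open Fermat.Agent.S55.Local

section Surj

variable (A F : Type) [CommRing A] [IsDomain A] [IsDiscreteValuationRing A]
  [IsAdicComplete (IsLocalRing.maximalIdeal A) A] [Finite (IsLocalRing.ResidueField A)]
  [Field F] [CharZero F] [Algebra A F] [IsFractionRing A F]
  (K : Type) [Field K] [Algebra F K] [FiniteDimensional F K]
  (N : Type) [Field N] [Algebra F N] [Algebra K N] [IsScalarTower F K N]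
  [FiniteDimensional K N] [IsGalois K N]
  (E : Type) [Field E] [Algebra F E] [Algebra K E] [Algebra E N]
  [IsScalarTower F K E] [IsScalarTower F E N] [IsScalarTower K E N]

/-- Multiplicativity of the orders of inertia subgroups in a tower. -/
theorem card_inertia_tower (I : Subgroup (N ≃ₐ[K] N))
    (hmem : ∀ σ, σ ∈ I ↔ ∀ x : N, IsInt A F N x → InMax A F N (σ x - x))
    (hcard : ∀ (ϖK : Kˣ) (ϖN : Nˣ), IsUnif A F K ϖK → IsUnif A F N ϖN →
      unitsIncl N K ϖK * ϖN ^ (-(Nat.card I : ℤ)) ∈ intUnits A F N)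
    (H : Subgroup (N ≃ₐ[K] N))
    (hH : ∀ σ : N ≃ₐ[K] N, σ ∈ H ↔ ∀ x : E, σ (algebraMap E N x) = algebraMap E N x)
    (e' : ℕ)
    (he' : ∀ (ϖK : Kˣ) (ϖE : Eˣ), IsUnif A F K ϖK → IsUnif A F E ϖE →
      unitsIncl E K ϖK * ϖE ^ (-(e' : ℤ)) ∈ intUnits A F E) :
    Nat.card I = e' * Nat.card ↥(H ⊓ I) := by
  haveI : FiniteDimensional F N := FiniteDimensional.trans F K N
  haveI : FiniteDimensional F E := FiniteDimensional.left F E N
  haveI : FiniteDimensional K E := FiniteDimensional.left K E N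
  haveI : FiniteDimensional E N := FiniteDimensional.right K E N
  haveI : IsGalois E N := IsGalois.tower_top_of_isGalois K E N
  obtain ⟨IE, -, hmemE, hcardE⟩ := exists_inertia A F E N
  obtain ⟨ϖK, hϖK⟩ := H608.exists_isUnif A F K
  obtain ⟨ϖE, hϖE⟩ := H608.exists_isUnif A F E
  obtain ⟨ϖN, hϖN⟩ := H608.exists_isUnif A F N
  have hcardEq : Nat.card IE = Nat.card ↥(H ⊓ I) := by
    have hmap : ∀ σ : N ≃ₐ[E] N, σ ∈ IE → AlgEquiv.restrictScalars K σ ∈ H ⊓ I := by
      intro σ hσ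
      refine ⟨(hH _).2 (fun x => ?_), (hmem _).2 (fun x hx => ?_)⟩
      · exact σ.commutes x
      · exact (hmemE σ).1 hσ x hx
    refine Nat.card_eq_of_bijective
      (fun σ : IE => (⟨AlgEquiv.restrictScalars K σ.1, hmap σ.1 σ.2⟩ : ↥(H ⊓ I))) ⟨?_, ?_⟩
    · intro σ τ hστ
      have h1 : AlgEquiv.restrictScalars K σ.1 = AlgEquiv.restrictScalars K τ.1 :=
        congrArg Subtype.val hστ
      exact Subtype.ext (AlgEquiv.restrictScalars_injective K h1)
    · rintro ⟨τ, hτH, hτI⟩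
      have hτE : ∀ x : E, τ (algebraMap E N x) = algebraMap E N x := (hH τ).1 hτH
      let σ : N ≃ₐ[E] N := AlgEquiv.ofRingEquiv (f := τ.toRingEquiv) hτE
      have hσ : σ ∈ IE := (hmemE σ).2 (fun x hx => (hmem τ).1 hτI x hx)
      refine ⟨⟨σ, hσ⟩, Subtype.ext ?_⟩
      ext x
      rfl
  have he'' := he' ϖK ϖE hϖK hϖE
  have hcK := hcard ϖK ϖN hϖK hϖN
  have hcE := hcardE ϖE ϖN hϖE hϖN
  have hmul : (Nat.card I : ℤ) = e' * Nat.card IE := by
    have he3 : unitsIncl N E (unitsIncl E K ϖK * ϖE ^ (-(e' : ℤ))) ∈ intUnits A F N :=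
      (H724.unitsIncl_mem_intUnits_iff724 A F E N _).2 he''
    have hincl : unitsIncl N E (unitsIncl E K ϖK) = unitsIncl N K ϖK := by
      ext
      simp only [unitsIncl_coe]
      exact (IsScalarTower.algebraMap_apply K E N _).symm
    rw [map_mul, map_zpow, hincl] at he3
    have key : ϖN ^ ((e' : ℤ) * Nat.card IE - Nat.card I) ∈ intUnits A F N := by
      have := (intUnits A F N).mul_mem
        ((intUnits A F N).mul_mem hcK ((intUnits A F N).inv_mem he3))
        ((intUnits A F N).zpow_mem hcE (-(e' : ℤ)))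
      have heq : unitsIncl N K ϖK * ϖN ^ (-(Nat.card I : ℤ)) *
          (unitsIncl N K ϖK * unitsIncl N E ϖE ^ (-(e' : ℤ)))⁻¹ *
          (unitsIncl N E ϖE * ϖN ^ (-(Nat.card IE : ℤ))) ^ (-(e' : ℤ)) =
          ϖN ^ ((e' : ℤ) * Nat.card IE - Nat.card I) := by
        apply Additive.ofMul.injective
        simp only [ofMul_mul, ofMul_zpow, ofMul_inv]
        module
      rwa [heq] at this
    have h0 := H724.zpow_mem_intUnits724 A F N hϖN.1 hϖN.2.1 key
    linarith
  rw [← hcardEq]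
  exact_mod_cast hmul

variable [Normal K E]

/-- **Inertia of a quotient**: every element of `Gal(E/K)` acting trivially on the residue field
is the restriction of an element of `Gal(N/K)` acting trivially on the residue field. -/
theorem exists_inertial_lift (ι : E ≃ₐ[K] E)
    (hι : ∀ x : E, IsInt A F E x → InMax A F E (ι x - x)) :
    ∃ σ : N ≃ₐ[K] N, (∀ x : N, IsInt A F N x → InMax A F N (σ x - x)) ∧
      ∀ x : E, σ (algebraMap E N x) = algebraMap E N (ι x) := by
  haveI : FiniteDimensional F N := FiniteDimensional.trans F K N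
  haveI : FiniteDimensional F E := FiniteDimensional.left F E N
  haveI : FiniteDimensional K E := FiniteDimensional.left K E N
  haveI : IsGalois K E :=
    isGalois_iff.2 ⟨Algebra.isSeparable_tower_bot_of_isSeparable K E N, inferInstance⟩
  obtain ⟨I, -, hmem, hcard⟩ := exists_inertia A F K N
  obtain ⟨J, -, hmemJ, hcardJ⟩ := exists_inertia A F K E
  -- restriction
  let r : (N ≃ₐ[K] N) →* (E ≃ₐ[K] E) := AlgEquiv.restrictNormalHom E
  have hr : ∀ (σ : N ≃ₐ[K] N) (x : E), algebraMap E N (r σ x) = σ (algebraMap E N x) :=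
    fun σ x => AlgEquiv.restrictNormal_commutes σ E x
  -- integrality is intrinsic
  have hint : ∀ y : E, IsInt A F N (algebraMap E N y) ↔ IsInt A F E y :=
    fun y => H724.isInt_algebraMap_iff724 A F E N y
  have hmax : ∀ y : E, InMax A F N (algebraMap E N y) ↔ InMax A F E y := by
    intro y
    unfold InMax
    rw [hint, ← map_inv₀, hint]
    simp only [map_eq_zero]
  -- `r` maps `I` into `J`
  have hrI : ∀ σ ∈ I, r σ ∈ J := by
    intro σ hσ
    rw [hmemJ]
    intro x hx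
    rw [← hmax, map_sub, hr]
    exact (hmem σ).1 hσ _ ((hint x).2 hx)
  -- the kernel of `r`
  have hker : ∀ σ : N ≃ₐ[K] N, σ ∈ r.ker ↔ ∀ x : E, σ (algebraMap E N x) = algebraMap E N x := by
    intro σ
    rw [MonoidHom.mem_ker]
    constructor
    · intro h x
      rw [← hr, h]
      rfl
    · intro h
      ext x
      apply (algebraMap E N).injective
      rw [hr, h]
      rfl
  have hmulc := card_inertia_tower A F K N E I hmem hcard r.ker hker (Nat.card J) hcardJ
  -- the restriction of `r` to `I`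
  let f : ↥I →* (E ≃ₐ[K] E) := r.comp I.subtype
  have hfker : Nat.card f.ker = Nat.card ↥(r.ker ⊓ I) := by
    refine Nat.card_eq_of_bijective
      (fun σ : f.ker => (⟨σ.1.1, ⟨σ.2, σ.1.2⟩⟩ : ↥(r.ker ⊓ I))) ⟨?_, ?_⟩
    · intro σ τ h
      have h' : (σ.1.1 : N ≃ₐ[K] N) = τ.1.1 :=
        congrArg (fun z : ↥(r.ker ⊓ I) => (z : N ≃ₐ[K] N)) h
      exact Subtype.ext (Subtype.ext h')
    · rintro ⟨σ, hσ1, hσ2⟩
      exact ⟨⟨⟨σ, hσ2⟩, hσ1⟩, rfl⟩
  have hrange : f.range ≤ J := by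
    rintro _ ⟨σ, rfl⟩
    exact hrI σ.1 σ.2
  have hidx : Nat.card ↥I = Nat.card f.ker * Nat.card f.range := by
    rw [← Subgroup.index_ker f, mul_comm]
    exact (Subgroup.index_mul_card f.ker).symm
  have hpos : 0 < Nat.card ↥(r.ker ⊓ I) := Nat.card_pos
  have hcr : Nat.card f.range = Nat.card J := by
    rw [hfker, hmulc, mul_comm] at hidx
    exact (Nat.eq_of_mul_eq_mul_left hpos hidx).symm
  have heq : f.range = J := Subgroup.eq_of_le_of_card_ge hrange hcr.ge
  have hιJ : ι ∈ J := (hmemJ ι).2 hι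
  rw [← heq] at hιJ
  obtain ⟨σ, hσ⟩ := hιJ
  refine ⟨σ.1, (hmem σ.1).1 σ.2, fun x => ?_⟩
  rw [← hr]
  exact congrArg (algebraMap E N) (DFunLike.congr_fun hσ x)

end Surj

end Fermat.Agent.S55.Local.H483

end
-- ===== PACK-END S55/Local/H483/Surj.lean

-- ===== PACK-BEGIN S56/H614/UnitsCharpoly.lean
section







/-!
# S56 / W-BASE / W3-UNITS (helper614): the characteristic polynomial of a Galois element on the
`T`-units modulo `p`

`L/K` a Galois extension of number fields, `T` a finite set of primes of `K`, `τ ∈ Gal(L/K)`,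
`k` any field.  With `E = 𝒪_{L,T}^×` (the `T`-units of `L`, `sUnitsSub`), `μ` the group of roots
of unity (`torsSub`):

  `charpoly (k ⊗ τ|_E) * (X - 1) = charpoly (k ⊗ τ|_μ) * permCharpoly (infinite places)
                                        * permCharpoly (primes above T)`       (`sUnits_charpoly`)

Inputs: the landed S55 layer G blocks `Log101` (equivariant logarithmic lattice of the units) and
`OrdH707` (valuation map on the `T`-units).
-/

set_option autoImplicit false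
set_option linter.unusedSectionVars false
set_option linter.style.haveILetI false

noncomputable section

namespace Fermat.Agent.S56.H614

open Fermat.Agent.S55.G NumberField IsDedekindDomain Polynomial Module

open scoped TensorProduct

universe u v

variable (K : Type u) (L : Type v) [Field K] [Field L] [NumberField K] [NumberField L]
  [Algebra K L] [IsGalois K L] (T : Finset (HeightOneSpectrum (𝓞 K)))

/-- The action of `τ` on `Lˣ` (additively), as a `ℤ`-linear map. -/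
def unitsLin (τ : L ≃ₐ[K] L) : Additive Lˣ →ₗ[ℤ] Additive Lˣ :=
  (unitsHom K L τ).toIntLinearMap

/-- The `T`-units of `L`, as a `ℤ`-submodule of `Lˣ`. -/
def sUnitsSub : Submodule ℤ (Additive Lˣ) := AddSubgroup.toIntSubmodule (sUnits K L T)

/-- The units of `𝒪_L`, as a `ℤ`-submodule of `Lˣ`. -/
def intUnitsSub : Submodule ℤ (Additive Lˣ) := AddSubgroup.toIntSubmodule (intUnits L)

/-- The roots of unity of `L` (units killed by the logarithmic map), as a `ℤ`-submodule. -/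
def torsSub : Submodule ℤ (Additive Lˣ) :=
  AddSubgroup.toIntSubmodule ((Log101.phi L).ker ⊓ intUnits L)

lemma mem_sUnitsSub (x : Additive Lˣ) : x ∈ sUnitsSub K L T ↔ x ∈ sUnits K L T := Iff.rfl

lemma mem_intUnitsSub (x : Additive Lˣ) : x ∈ intUnitsSub L ↔ x ∈ intUnits L := Iff.rfl

lemma mem_torsSub (x : Additive Lˣ) :
    x ∈ torsSub L ↔ Log101.phi L x = 0 ∧ x ∈ intUnits L := Iff.rfl

lemma intUnits_eq : intUnits L = (OrdH707.ordHom K L T).ker ⊓ sUnits K L T :=
  (OrdH707.ker_inf_sUnits K L T).symm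

lemma intUnitsSub_le_sUnitsSub : intUnitsSub L ≤ sUnitsSub K L T := by
  intro x hx
  rw [mem_intUnitsSub, intUnits_eq K L T] at hx
  exact hx.2

lemma torsSub_le_intUnitsSub : torsSub L ≤ intUnitsSub L := fun _ hx => hx.2

lemma sUnitsSub_stable (τ : L ≃ₐ[K] L) :
    sUnitsSub K L T ≤ (sUnitsSub K L T).comap (unitsLin K L τ) :=
  fun x hx => StabH707.sUnitsStable K L T τ x hx

lemma intUnitsSub_stable (τ : L ≃ₐ[K] L) :
    intUnitsSub L ≤ (intUnitsSub L).comap (unitsLin K L τ) := by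
  intro x hx
  rw [Submodule.mem_comap, mem_intUnitsSub, intUnits_eq K L (∅ : Finset _)]
  rw [mem_intUnitsSub, intUnits_eq K L (∅ : Finset _)] at hx
  refine ⟨?_, StabH707.sUnitsStable K L ∅ τ x hx.2⟩
  have h := OrdH707.ordHom_equivariant K L ∅ τ x
  have hx1 : OrdH707.ordHom K L ∅ x = 0 := hx.1
  change OrdH707.ordHom K L ∅ (unitsHom K L τ x) = 0
  rw [h, hx1, map_zero]

lemma torsSub_stable (τ : L ≃ₐ[K] L) :
    torsSub L ≤ (torsSub L).comap (unitsLin K L τ) := by
  intro x hx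
  rw [Submodule.mem_comap, mem_torsSub]
  rw [mem_torsSub] at hx
  refine ⟨?_, intUnitsSub_stable K L τ hx.2⟩
  change Log101.phi L (unitsHom K L τ x) = 0
  rw [Log101.phi_equivariant, hx.1, map_zero]

/-- `τ` on the `T`-units. -/
def sUnitsEnd (τ : L ≃ₐ[K] L) : ↥(sUnitsSub K L T) →ₗ[ℤ] ↥(sUnitsSub K L T) :=
  (unitsLin K L τ).restrict (sUnitsSub_stable K L T τ)

/-- `τ` on the units. -/
def intUnitsEnd (τ : L ≃ₐ[K] L) : ↥(intUnitsSub L) →ₗ[ℤ] ↥(intUnitsSub L) :=
  (unitsLin K L τ).restrict (intUnitsSub_stable K L τ)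

/-- `τ` on the roots of unity. -/
def torsEnd (τ : L ≃ₐ[K] L) : ↥(torsSub L) →ₗ[ℤ] ↥(torsSub L) :=
  (unitsLin K L τ).restrict (torsSub_stable K L τ)

/-! ### The logarithmic lattice -/

/-- The logarithmic lattice of the units inside `ℝ^{infinite places}`. -/
def logLattice : Submodule ℤ (InfinitePlace L → ℝ) :=
  Submodule.span ℤ (Set.range (Log101.bFam L))

lemma bFam_linearIndependent_int : LinearIndependent ℤ (Log101.bFam L) :=
  (Log101.bFam_linearIndependent L).restrict_scalars (by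
    intro a b h
    simpa using h)

/-- The `ℤ`-basis of the logarithmic lattice. -/
def logLatticeBasis : Basis (Fin (Units.rank L)) ℤ ↥(logLattice L) :=
  Basis.span (bFam_linearIndependent_int L)

lemma logLatticeBasis_coe (i : Fin (Units.rank L)) :
    ((logLatticeBasis L i : ↥(logLattice L)) : InfinitePlace L → ℝ) = Log101.bFam L i :=
  congrArg Subtype.val (Basis.span_apply (bFam_linearIndependent_int L) i)

instance logLattice_free : Module.Free ℤ ↥(logLattice L) :=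
  Module.Free.of_basis (logLatticeBasis L)

instance logLattice_finite : Module.Finite ℤ ↥(logLattice L) :=
  Module.Finite.of_basis (logLatticeBasis L)

/-- The logarithmic map as a `ℤ`-linear map. -/
def phiLin : Additive Lˣ →ₗ[ℤ] (InfinitePlace L → ℝ) := (Log101.phi L).toIntLinearMap

lemma mem_logLattice_iff (y : InfinitePlace L → ℝ) :
    y ∈ logLattice L ↔ ∃ x ∈ intUnits L, Log101.phi L x = y := by
  have h := Log101.map_phi_intUnits L
  have : y ∈ (intUnits L).map (Log101.phi L) ↔ y ∈ logLattice L := by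
    rw [h]; rfl
  rw [← this]
  rfl

lemma phiLin_mem_logLattice (x : ↥(intUnitsSub L)) : phiLin L (x : Additive Lˣ) ∈ logLattice L :=
  (mem_logLattice_iff L _).mpr ⟨x, x.2, rfl⟩

/-- The logarithmic map from the units onto the logarithmic lattice. -/
def logMap : ↥(intUnitsSub L) →ₗ[ℤ] ↥(logLattice L) :=
  ((phiLin L).domRestrict (intUnitsSub L)).codRestrict (logLattice L) (phiLin_mem_logLattice L)

lemma logMap_coe (x : ↥(intUnitsSub L)) :
    ((logMap L x : ↥(logLattice L)) : InfinitePlace L → ℝ) = Log101.phi L (x : Additive Lˣ) := rfl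

lemma logMap_surjective : Function.Surjective (logMap L) := by
  rintro ⟨y, hy⟩
  obtain ⟨x, hx, rfl⟩ := (mem_logLattice_iff L y).mp hy
  exact ⟨⟨x, hx⟩, Subtype.ext rfl⟩

lemma range_torsIncl :
    LinearMap.range (Submodule.inclusion (torsSub_le_intUnitsSub L)) =
      LinearMap.ker (logMap L) := by
  ext x
  rw [Submodule.range_inclusion, Submodule.mem_comap, LinearMap.mem_ker]
  constructor
  · intro hx
    exact Subtype.ext hx.1
  · intro hx
    exact ⟨congrArg Subtype.val hx, x.2⟩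

instance torsSub_finite : Module.Finite ℤ ↥(torsSub L) := by
  haveI : Finite ↥(torsSub L) := Log101.finite_ker_inf L
  exact Module.Finite.of_finite

instance intUnitsSub_finite : Module.Finite ℤ ↥(intUnitsSub L) :=
  finite_of_exact (Submodule.inclusion (torsSub_le_intUnitsSub L)) (logMap L)
    (logMap_surjective L) (range_torsIncl L)

/-- The permutation action of `τ` on `ℝ^{infinite places}`. -/
def permR (τ : L ≃ₐ[K] L) : (InfinitePlace L → ℝ) →ₗ[ℝ] (InfinitePlace L → ℝ) :=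
  LinearMap.funLeft ℝ ℝ (fun w : InfinitePlace L => τ⁻¹ • w)

lemma phi_unitsLin (τ : L ≃ₐ[K] L) (x : Additive Lˣ) :
    Log101.phi L (unitsLin K L τ x) = permR K L τ (Log101.phi L x) :=
  Log101.phi_equivariant K L τ x

lemma logLattice_stable (τ : L ≃ₐ[K] L) :
    logLattice L ≤ (logLattice L).comap ((permR K L τ).restrictScalars ℤ) := by
  intro y hy
  obtain ⟨x, hx, rfl⟩ := (mem_logLattice_iff L y).mp hy
  rw [Submodule.mem_comap, LinearMap.restrictScalars_apply, ← phi_unitsLin]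
  exact (mem_logLattice_iff L _).mpr ⟨_, intUnitsSub_stable K L τ hx, rfl⟩

/-- `τ` on the logarithmic lattice. -/
def logLatticeEnd (τ : L ≃ₐ[K] L) : ↥(logLattice L) →ₗ[ℤ] ↥(logLattice L) :=
  ((permR K L τ).restrictScalars ℤ).restrict (logLattice_stable K L τ)

/-- Step 2: units = roots of unity + logarithmic lattice. -/
theorem intUnits_charpoly (k : Type*) [Field k] (τ : L ≃ₐ[K] L) :
    ((intUnitsEnd K L τ).baseChange k).charpoly =
      ((torsEnd K L τ).baseChange k).charpoly * ((logLatticeEnd K L τ).baseChange k).charpoly := by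
  refine charpoly_baseChange_of_exact' k (Submodule.inclusion (torsSub_le_intUnitsSub L))
    (Submodule.inclusion_injective _) (logMap L) (logMap_surjective L) (range_torsIncl L)
    (torsEnd K L τ) (intUnitsEnd K L τ) (logLatticeEnd K L τ) ?_ ?_
  · apply LinearMap.ext
    intro x
    rfl
  · apply LinearMap.ext
    intro x
    apply Subtype.ext
    exact phi_unitsLin K L τ (x : Additive Lˣ)

/-! ### Step 3: the logarithmic lattice versus the permutation lattice of the infinite places -/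

/-- The sum of the coordinates. -/
def sumR : (InfinitePlace L → ℝ) →ₗ[ℝ] ℝ := ∑ w : InfinitePlace L, LinearMap.proj w

lemma sumR_apply (a : InfinitePlace L → ℝ) : sumR L a = ∑ w, a w := by
  simp [sumR, LinearMap.sum_apply]

lemma traceZeroR_eq_ker : traceZeroR L = LinearMap.ker (sumR L) := rfl

lemma sumR_permR (τ : L ≃ₐ[K] L) (a : InfinitePlace L → ℝ) :
    sumR L (permR K L τ a) = sumR L a := by
  rw [sumR_apply, sumR_apply]
  exact Equiv.sum_comp (MulAction.toPerm τ⁻¹ : Equiv.Perm (InfinitePlace L)) a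

lemma sumR_surjective : Function.Surjective (sumR L) := by
  classical
  intro c
  obtain ⟨w₀⟩ : Nonempty (InfinitePlace L) := inferInstance
  refine ⟨Pi.single w₀ c, ?_⟩
  rw [sumR_apply, Finset.sum_pi_single']
  simp

lemma traceZeroR_stable (τ : L ≃ₐ[K] L) :
    traceZeroR L ≤ (traceZeroR L).comap (permR K L τ) := by
  intro a ha
  rw [traceZeroR_eq_ker, LinearMap.mem_ker] at ha
  rw [Submodule.mem_comap, traceZeroR_eq_ker, LinearMap.mem_ker, sumR_permR, ha]

/-- The characteristic polynomial of `τ` on the trace-zero hyperplane. -/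
theorem traceZeroR_charpoly (τ : L ≃ₐ[K] L) :
    ((permR K L τ).restrict (traceZeroR_stable K L τ)).charpoly * (X - 1) =
      permCharpoly ℝ (fun w : InfinitePlace L => τ⁻¹ • w) := by
  have h := charpoly_of_exact (k := ℝ) (traceZeroR L).subtype (Submodule.injective_subtype _)
    (sumR L) (sumR_surjective L)
    (by rw [Submodule.range_subtype, traceZeroR_eq_ker])
    ((permR K L τ).restrict (traceZeroR_stable K L τ)) (permR K L τ) LinearMap.id
    (by apply LinearMap.ext; intro x; rfl)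
    (by apply LinearMap.ext; intro x; exact sumR_permR K L τ x)
  have h1 : (LinearMap.id : ℝ →ₗ[ℝ] ℝ).charpoly = X - 1 := by
    have := LinearMap.charpoly_one (R := ℝ) (M := ℝ)
    rw [Module.finrank_self, pow_one] at this
    exact this
  rw [h1] at h
  rw [← h]
  rfl

/-- Step 3: the characteristic polynomial of `τ` on the logarithmic lattice. -/
theorem logLattice_charpoly (τ : L ≃ₐ[K] L) :
    (logLatticeEnd K L τ).charpoly * (X - 1) =
      permCharpoly ℤ (fun w : InfinitePlace L => τ⁻¹ • w) := by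
  classical
  have hfun : (fun i => (logLattice L).subtype (logLatticeBasis L i)) = Log101.bFam L :=
    funext (logLatticeBasis_coe L)
  have h := charpoly_of_real_lattice (logLatticeBasis L) (logLattice L).subtype
    (by rw [hfun]; exact Log101.bFam_linearIndependent L)
    (logLatticeEnd K L τ) (permR K L τ) (fun x => rfl) (traceZeroR L)
    (by rw [hfun]; exact Log101.span_real_bFam L) (traceZeroR_stable K L τ)
  have h2 := traceZeroR_charpoly K L τ
  rw [h, ← permCharpoly_map ℤ (Int.castRingHom ℝ)] at h2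
  apply Polynomial.map_injective (Int.castRingHom ℝ) Int.cast_injective
  rw [Polynomial.map_mul, Polynomial.map_sub, Polynomial.map_X, Polynomial.map_one]
  exact h2

/-! ### Steps 1 and 4: the valuation lattice of the `T`-units -/

instance primesAbove_finite : Finite ↥(primesAbove K L T) :=
  (OrdH707.finite_primesAbove K L T).to_subtype

/-- The permutation `w ↦ τ⁻¹ w` of the primes of `L` above `T`. -/
def primePerm (τ : L ≃ₐ[K] L) : ↥(primesAbove K L T) → ↥(primesAbove K L T) :=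
  fun w => ⟨OrdH707.smulH K L τ⁻¹ w.1, OrdH707.smulH_mem K L T τ⁻¹ w.2⟩

/-- The valuation map as a `ℤ`-linear map. -/
def ordLin : Additive Lˣ →ₗ[ℤ] (↥(primesAbove K L T) → ℤ) :=
  (OrdH707.ordHom K L T).toIntLinearMap

lemma ordLin_unitsLin (τ : L ≃ₐ[K] L) (x : Additive Lˣ) :
    ordLin K L T (unitsLin K L τ x) =
      LinearMap.funLeft ℤ ℤ (primePerm K L T τ) (ordLin K L T x) :=
  OrdH707.ordHom_equivariant K L T τ x

/-- The valuation lattice: the image of the `T`-units in `ℤ^{primes above T}`. -/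
def ordLattice : Submodule ℤ (↥(primesAbove K L T) → ℤ) :=
  (sUnitsSub K L T).map (ordLin K L T)

/-- The valuation map from the `T`-units onto the valuation lattice. -/
def ordMap : ↥(sUnitsSub K L T) →ₗ[ℤ] ↥(ordLattice K L T) :=
  (ordLin K L T).submoduleMap (sUnitsSub K L T)

lemma ordMap_coe (x : ↥(sUnitsSub K L T)) :
    ((ordMap K L T x : ↥(ordLattice K L T)) : ↥(primesAbove K L T) → ℤ) =
      OrdH707.ordHom K L T (x : Additive Lˣ) := rfl

lemma ordMap_surjective : Function.Surjective (ordMap K L T) :=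
  LinearMap.submoduleMap_surjective _ _

lemma range_intUnitsIncl :
    LinearMap.range (Submodule.inclusion (intUnitsSub_le_sUnitsSub K L T)) =
      LinearMap.ker (ordMap K L T) := by
  ext x
  rw [Submodule.range_inclusion, Submodule.mem_comap, LinearMap.mem_ker, mem_intUnitsSub,
    intUnits_eq K L T]
  constructor
  · intro hx
    exact Subtype.ext hx.1
  · intro hx
    exact ⟨congrArg Subtype.val hx, x.2⟩

instance sUnitsSub_finite : Module.Finite ℤ ↥(sUnitsSub K L T) :=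
  finite_of_exact (Submodule.inclusion (intUnitsSub_le_sUnitsSub K L T)) (ordMap K L T)
    (ordMap_surjective K L T) (range_intUnitsIncl K L T)

lemma ordLattice_stable (τ : L ≃ₐ[K] L) :
    ordLattice K L T ≤ (ordLattice K L T).comap (LinearMap.funLeft ℤ ℤ (primePerm K L T τ)) := by
  rintro y ⟨x, hx, rfl⟩
  rw [Submodule.mem_comap, ← ordLin_unitsLin]
  exact ⟨_, sUnitsSub_stable K L T τ hx, rfl⟩

/-- `τ` on the valuation lattice. -/
def ordLatticeEnd (τ : L ≃ₐ[K] L) : ↥(ordLattice K L T) →ₗ[ℤ] ↥(ordLattice K L T) :=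
  (LinearMap.funLeft ℤ ℤ (primePerm K L T τ)).restrict (ordLattice_stable K L T τ)

/-- Step 1: `T`-units = units + valuation lattice. -/
theorem sUnits_charpoly_step (k : Type*) [Field k] (τ : L ≃ₐ[K] L) :
    ((sUnitsEnd K L T τ).baseChange k).charpoly =
      ((intUnitsEnd K L τ).baseChange k).charpoly *
        ((ordLatticeEnd K L T τ).baseChange k).charpoly := by
  refine charpoly_baseChange_of_exact' k (Submodule.inclusion (intUnitsSub_le_sUnitsSub K L T))
    (Submodule.inclusion_injective _) (ordMap K L T) (ordMap_surjective K L T)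
    (range_intUnitsIncl K L T)
    (intUnitsEnd K L τ) (sUnitsEnd K L T τ) (ordLatticeEnd K L T τ) ?_ ?_
  · apply LinearMap.ext
    intro x
    rfl
  · apply LinearMap.ext
    intro x
    apply Subtype.ext
    exact ordLin_unitsLin K L T τ (x : Additive Lˣ)

/-- Step 4: the characteristic polynomial of `τ` on the valuation lattice. -/
theorem ordLattice_charpoly (τ : L ≃ₐ[K] L) :
    (ordLatticeEnd K L T τ).charpoly = permCharpoly ℤ (primePerm K L T τ) := by
  have hidx := OrdH707.index_map_ordHom K L T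
  refine charpoly_restrict_of_smul_mem (LinearMap.funLeft ℤ ℤ (primePerm K L T τ))
    (ordLattice K L T) (ordLattice_stable K L T τ)
    (((sUnits K L T).map (OrdH707.ordHom K L T)).index : ℤ) (by exact_mod_cast hidx) ?_
  intro x
  have h := AddSubgroup.nsmul_index_mem ((sUnits K L T).map (OrdH707.ordHom K L T)) x
  rw [natCast_zsmul]
  exact h

/-- **The characteristic polynomial of a Galois element on the `T`-units modulo `p`** (and over
any field `k`): with `E` the `T`-units of `L` and `μ` the roots of unity of `L`,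
`charpoly (k ⊗ τ|_E) * (X - 1) = charpoly (k ⊗ τ|_μ) * permCharpoly(infinite places)
  * permCharpoly(primes above T)`. -/
theorem sUnits_charpoly (k : Type*) [Field k] (τ : L ≃ₐ[K] L) :
    ((sUnitsEnd K L T τ).baseChange k).charpoly * (X - 1) =
      ((torsEnd K L τ).baseChange k).charpoly *
        permCharpoly k (fun w : InfinitePlace L => τ⁻¹ • w) *
        permCharpoly k (primePerm K L T τ) := by
  rw [sUnits_charpoly_step, intUnits_charpoly, LinearMap.charpoly_baseChange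
    (logLatticeEnd K L τ), LinearMap.charpoly_baseChange (ordLatticeEnd K L T τ),
    ordLattice_charpoly, permCharpoly_map, ← permCharpoly_map ℤ (algebraMap ℤ k)
      (fun w : InfinitePlace L => τ⁻¹ • w), ← logLattice_charpoly K L τ]
  rw [Polynomial.map_mul, Polynomial.map_sub, Polynomial.map_X, Polynomial.map_one]
  ring

/-- The units version (`T = ∅` is not needed): `charpoly (k ⊗ τ|_U) * (X - 1) =
charpoly (k ⊗ τ|_μ) * permCharpoly(infinite places)`. -/
theorem intUnits_charpoly' (k : Type*) [Field k] (τ : L ≃ₐ[K] L) :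
    ((intUnitsEnd K L τ).baseChange k).charpoly * (X - 1) =
      ((torsEnd K L τ).baseChange k).charpoly *
        permCharpoly k (fun w : InfinitePlace L => τ⁻¹ • w) := by
  rw [intUnits_charpoly, LinearMap.charpoly_baseChange (logLatticeEnd K L τ),
    ← permCharpoly_map ℤ (algebraMap ℤ k) (fun w : InfinitePlace L => τ⁻¹ • w),
    ← logLattice_charpoly K L τ]
  rw [Polynomial.map_mul, Polynomial.map_sub, Polynomial.map_X, Polynomial.map_one]
  ring

end Fermat.Agent.S56.H614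

end

end
-- ===== PACK-END S56/H614/UnitsCharpoly.lean

-- ===== PACK-BEGIN S56/H716/GWSpec.lean
section


/-!
# Row S56 — the wall GW-WALL, layer 3: FROZEN statements (deputy helper716)

`GW-WALL  ⇐  BASE + REC-Q`      (glue: `H716/GWGlue.lean`)

`M = ad⁰ρ̄`, `M' = M(1)`; plain-function language of layers 0–2.  For a choice `Pl` of places over
`Smin`, the STRICT Selmer cocycles of `Q` are the ad⁰-cocycles which are unramified outside
`Smin ∪ Q` and coboundaries on `D_{Pl v}` for every `v ∈ Smin`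
(`IsSelCocycle ρbar Pl (fun _ => ⊥) Smin Q c`).

* `BaseStatement` (BASE = Tate's global Euler characteristic + frozen S55 + the tail of the
  Poitou–Tate sequence): there are a dual frame `D`, all of whose elements are unramified outside
  `Smin`, and a finite-dimensional space `X` representing all strict Selmer classes of `Q = ∅`
  (`= Ш¹_Smin(M)`), with

      `dim X + ∑_{v ∈ Smin} h⁰(D_{Pl v}, M) + 1 ≤ dim D`.

  (True with equality for `D` = representatives of ALL of `H¹(G_{ℚ,Smin}, M')`: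
  `h¹(M') = h²(M') − χ(M')`, `χ(M') = h⁰(G_ℝ, M') − dim M' = −1`,
  `h²(M') = dim Ш²(M') + ∑_v h²(G_v, M') − h⁰(G_ℚ, M)`, `Ш²(M') ≅ Ш¹(M)^∨`.)
* `RecQStatement` (REC-Q = reciprocity over `Q` + tame local duality at Taylor–Wiles primes):
  for EVERY dual frame `D` unramified outside `Smin` and every set `Q` of Taylor–Wiles primes
  killing `D`, the strict Selmer classes of `Q` modulo those of `∅` have dimension `≤ #Q − dim D`.

Nothing unproved in this file.  Plan: `coord/S56-TB.md` on `origin/main`.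
-/

set_option autoImplicit false

open Polynomial IsLocalRing

noncomputable section

namespace Fermat.Agent.S56.H716

open Fermat.Agent.S56

section

variable (𝒪 : Type) [CommRing 𝒪] [IsDomain 𝒪] [IsDiscreteValuationRing 𝒪]
  (p : ℕ) (ρbar : ResidualGaloisRep (ResidueField 𝒪)) (S Smin : Finset ℕ)

/-- (BASE) for one residual representation. -/
def Base : Prop :=
  ∃ Pl : ℕ → ValuationSubring Qb, (∀ v ∈ Smin, (Pl v).LiesOverPrime v) ∧
    ∃ D X : Submodule (ResidueField 𝒪) (GQ → Module.End (ResidueField 𝒪) ρbar.V),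
      IsDualFrame ρbar p D ∧
      (∀ y ∈ D, ∀ q : ℕ, q.Prime → q ∉ Smin → UnramAt ρbar y q) ∧
      Module.Finite (ResidueField 𝒪) X ∧
      (∀ c, IsSelCocycle ρbar Pl (fun _ => ⊥) Smin ∅ c → ∃ t ∈ X, IsAdCoboundary ρbar (c - t)) ∧
      Module.finrank (ResidueField 𝒪) X +
          ∑ v ∈ Smin, Module.finrank (ResidueField 𝒪)
            (adInv ρbar ((Pl v).decompositionSubgroup ℚ)) + 1
        ≤ Module.finrank (ResidueField 𝒪) D

/-- (REC-Q) for one residual representation. -/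
def RecQ : Prop :=
  ∀ Pl : ℕ → ValuationSubring Qb, (∀ v ∈ Smin, (Pl v).LiesOverPrime v) →
    ∀ D : Submodule (ResidueField 𝒪) (GQ → Module.End (ResidueField 𝒪) ρbar.V),
      IsDualFrame ρbar p D →
      (∀ y ∈ D, ∀ q : ℕ, q.Prime → q ∉ Smin → UnramAt ρbar y q) →
      ∀ Q : Finset ℕ, (∀ q ∈ Q, IsTWPrime ρbar p S q) → Kills ρbar p D Q →
        ∃ U : Submodule (ResidueField 𝒪) (GQ → Module.End (ResidueField 𝒪) ρbar.V),
          Module.Finite (ResidueField 𝒪) U ∧
          Module.finrank (ResidueField 𝒪) U + Module.finrank (ResidueField 𝒪) D ≤ Q.card ∧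
          ∀ c, IsSelCocycle ρbar Pl (fun _ => ⊥) Smin Q c →
            ∃ u ∈ U, ∃ c', IsSelCocycle ρbar Pl (fun _ => ⊥) Smin ∅ c' ∧
              IsAdCoboundary ρbar (c - u - c')

end

/-- (BASE): lower bound for `h¹(G_{ℚ,Smin}, ad⁰ρ̄(1))`. -/
def BaseStatement : Prop :=
  ∀ (𝒪 : Type) [CommRing 𝒪] [IsDomain 𝒪] [IsDiscreteValuationRing 𝒪]
    [IsAdicComplete (maximalIdeal 𝒪) 𝒪] [Finite (ResidueField 𝒪)]
    (p : ℕ) (ρbar : ResidualGaloisRep (ResidueField 𝒪)) (S Smin : Finset ℕ),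
    Hyp 𝒪 p ρbar S Smin → Base 𝒪 p ρbar Smin

/-- (REC-Q): reciprocity over the Taylor–Wiles primes. -/
def RecQStatement : Prop :=
  ∀ (𝒪 : Type) [CommRing 𝒪] [IsDomain 𝒪] [IsDiscreteValuationRing 𝒪]
    [IsAdicComplete (maximalIdeal 𝒪) 𝒪] [Finite (ResidueField 𝒪)]
    (p : ℕ) (ρbar : ResidualGaloisRep (ResidueField 𝒪)) (S Smin : Finset ℕ),
    Hyp 𝒪 p ρbar S Smin → RecQ 𝒪 p ρbar S Smin

end Fermat.Agent.S56.H716

end

end
-- ===== PACK-END S56/H716/GWSpec.lean

-- ===== PACK-BEGIN S56/Euler/H726/Sha1Abs.lean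
section


/-!
# S56 / W-BASE / Euler characteristic, leaf EUL-SHA2 (helper726): abstract part

Plain cocycle lemmas for an arbitrary group `G` and `N : Rep k G`:

* `coc_mul`, `coc_one`, `coc_inv` : the cocycle identity in plain form;
* `zeroSub c hc`                  : the zero set of a cocycle is a subgroup;
* `coc_mul_right_of_zero`         : right invariance under the zero set;
* `cob_conj`                      : a cocycle which is a coboundary on `σ` is a coboundary on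
                                    `g σ g⁻¹` (explicit 0-cochain);
* `mem_B1_dualTwist_ind`          : **contracting homotopy**: a cocycle with values in
  `(Ind_U M)′ = (indRep U M).dualTwist χ` which vanishes on `U` is a coboundary
  (`H¹(G/U, coinduced) = 0`, explicit formula, no finiteness, no normality).
-/

set_option autoImplicit false

noncomputable section

namespace Fermat.Agent.S56.Euler.H726

open Fermat.Agent.S55.PT groupCohomology

section Abs

variable {k : Type} [Field k] {G : Type} [Group G] (N : Rep.{0, 0, 0} k G)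

lemma coc_mul {c : G → N} (hc : c ∈ cocycles₁ N) (g h : G) :
    c (g * h) = N.ρ g (c h) + c g :=
  (mem_cocycles₁_iff c).1 hc g h

lemma coc_one {c : G → N} (hc : c ∈ cocycles₁ N) : c 1 = 0 := by
  have h := coc_mul N hc 1 1
  rw [mul_one, map_one, Module.End.one_apply] at h
  have h2 : c 1 + 0 = c 1 + c 1 := by rw [add_zero]; exact h
  exact (add_left_cancel h2).symm

lemma rho_inv_apply (g : G) (x : N) : N.ρ g⁻¹ (N.ρ g x) = x := by
  rw [← Module.End.mul_apply, ← map_mul, inv_mul_cancel, map_one, Module.End.one_apply]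

lemma rho_apply_inv (g : G) (x : N) : N.ρ g (N.ρ g⁻¹ x) = x := by
  rw [← Module.End.mul_apply, ← map_mul, mul_inv_cancel, map_one, Module.End.one_apply]

lemma coc_inv {c : G → N} (hc : c ∈ cocycles₁ N) (g : G) :
    c g⁻¹ = - N.ρ g⁻¹ (c g) := by
  have h := coc_mul N hc g⁻¹ g
  rw [inv_mul_cancel, coc_one N hc] at h
  exact eq_neg_of_add_eq_zero_right h.symm

/-- The zero set of a cocycle is a subgroup. -/
def zeroSub (c : G → N) (hc : c ∈ cocycles₁ N) : Subgroup G where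
  carrier := {s | c s = 0}
  one_mem' := coc_one N hc
  mul_mem' := by
    intro a b ha hb
    have ha' : c a = 0 := ha
    have hb' : c b = 0 := hb
    show c (a * b) = 0
    rw [coc_mul N hc, ha', hb', map_zero, add_zero]
  inv_mem' := by
    intro a ha
    have ha' : c a = 0 := ha
    show c a⁻¹ = 0
    rw [coc_inv N hc, ha', map_zero, neg_zero]

lemma mem_zeroSub {c : G → N} (hc : c ∈ cocycles₁ N) (s : G) :
    s ∈ zeroSub N c hc ↔ c s = 0 := Iff.rfl

lemma coc_mul_right_of_zero {c : G → N} (hc : c ∈ cocycles₁ N) (g s : G) (hs : c s = 0) :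
    c (g * s) = c g := by
  rw [coc_mul N hc, hs, map_zero, zero_add]

/-- Conjugation of a local coboundary. -/
lemma cob_conj {c : G → N} (hc : c ∈ cocycles₁ N) (g σ : G) (n : N)
    (h : c σ = N.ρ σ n - n) :
    c (g * σ * g⁻¹) = N.ρ (g * σ * g⁻¹) (N.ρ g n - c g) - (N.ρ g n - c g) := by
  have e1 : c (g * σ * g⁻¹) = N.ρ (g * σ) (c g⁻¹) + c (g * σ) := coc_mul N hc _ _
  have e2 : c (g * σ) = N.ρ g (c σ) + c g := coc_mul N hc _ _
  have e3 : N.ρ (g * σ) (c g⁻¹) = - N.ρ (g * σ * g⁻¹) (c g) := by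
    rw [coc_inv N hc, map_neg, ← Module.End.mul_apply, ← map_mul]
  have e4 : N.ρ (g * σ * g⁻¹) (N.ρ g n) = N.ρ g (N.ρ σ n) := by
    rw [← Module.End.mul_apply, ← map_mul, inv_mul_cancel_right, map_mul, Module.End.mul_apply]
  rw [e1, e2, e3, h, map_sub, map_sub, e4]
  abel

end Abs

section Homotopy

variable {k : Type} [Field k] {G : Type} [Group G]
variable (U : Subgroup G) (M : Rep.{0, 0, 0} k G) (χ : G →* kˣ)

/-- the `0`-cochain of the contracting homotopy -/
def homotopyElt (c : G → ((indRep U M).dualTwist χ)) : ((G ⧸ U) →₀ M) →ₗ[k] k :=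
  - Finsupp.lsum k (fun x : G ⧸ U =>
      ((c (Quotient.out x) : ((G ⧸ U) →₀ M) →ₗ[k] k)).comp (Finsupp.lsingle x))

lemma homotopyElt_single (c : G → ((indRep U M).dualTwist χ)) (x : G ⧸ U) (m : M) :
    homotopyElt U M χ c (Finsupp.single x m) =
      - (c (Quotient.out x) : ((G ⧸ U) →₀ M) →ₗ[k] k) (Finsupp.single x m) := by
  unfold homotopyElt
  rw [LinearMap.neg_apply, Finsupp.lsum_single]
  rfl

/-- **Contracting homotopy.**  A cocycle with values in `(Ind_U M)′` which vanishes on `U` is a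
coboundary. -/
theorem mem_B1_dualTwist_ind (c : G → ((indRep U M).dualTwist χ))
    (hc : c ∈ cocycles₁ ((indRep U M).dualTwist χ)) (hU : ∀ u ∈ U, c u = 0) :
    c ∈ LevelSys.B1 ((indRep U M).dualTwist χ) := by
  refine ⟨(homotopyElt U M χ c : Module.Dual k ((G ⧸ U) →₀ M)), ?_⟩
  funext g
  rw [d₀₁_hom_apply]
  -- compare the two functionals on `single x m`
  have key : ∀ (x : G ⧸ U) (m : M),
      (((indRep U M).dualTwist χ).ρ g (homotopyElt U M χ c) - homotopyElt U M χ c :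
        ((G ⧸ U) →₀ M) →ₗ[k] k) (Finsupp.single x m) =
      (c g : ((G ⧸ U) →₀ M) →ₗ[k] k) (Finsupp.single x m) := by
    intro x m
    -- `out x = g * out (g⁻¹ • x) * u`
    have hx : ((g * Quotient.out (g⁻¹ • x) : G) : G ⧸ U) = x := by
      have h1 : ((g * Quotient.out (g⁻¹ • x) : G) : G ⧸ U) =
          g • ((Quotient.out (g⁻¹ • x) : G) : G ⧸ U) := rfl
      rw [h1, QuotientGroup.out_eq', smul_inv_smul]
    have hx' : ((Quotient.out x : G) : G ⧸ U) = ((g * Quotient.out (g⁻¹ • x) : G) : G ⧸ U) := by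
      rw [hx, QuotientGroup.out_eq']
    obtain ⟨u, hu, hu'⟩ : ∃ u ∈ U, Quotient.out x = g * Quotient.out (g⁻¹ • x) * u := by
      have := QuotientGroup.eq.1 hx'.symm
      exact ⟨_, this, by group⟩
    have hcx : c (Quotient.out x) =
        ((indRep U M).dualTwist χ).ρ g (c (Quotient.out (g⁻¹ • x))) + c g := by
      rw [hu', coc_mul_right_of_zero _ hc _ u (hU u hu), coc_mul _ hc]
    rw [LinearMap.sub_apply, Rep.dualTwist_ρ_apply, LinearMap.smul_apply, LinearMap.comp_apply,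
      homotopyElt_single]
    have hact : (indRep U M).ρ g⁻¹ (Finsupp.single x m : (G ⧸ U) →₀ M) =
        (Finsupp.single (g⁻¹ • x) (M.ρ g⁻¹ m) : (G ⧸ U) →₀ M) := indRep_ρ_single U M g⁻¹ x m
    rw [hact, homotopyElt_single, hcx]
    rw [LinearMap.add_apply, Rep.dualTwist_ρ_apply, LinearMap.smul_apply, LinearMap.comp_apply,
      hact]
    simp only [smul_eq_mul, mul_neg, neg_add_rev]
    ring
  have : (((indRep U M).dualTwist χ).ρ g (homotopyElt U M χ c) - homotopyElt U M χ c :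
        ((G ⧸ U) →₀ M) →ₗ[k] k) = (c g : ((G ⧸ U) →₀ M) →ₗ[k] k) := by
    apply Finsupp.lhom_ext
    exact key
  exact this

end Homotopy

end Fermat.Agent.S56.Euler.H726

end

end
-- ===== PACK-END S56/Euler/H726/Sha1Abs.lean

-- ===== PACK-BEGIN S56/H66/VG0.lean
section




/-!
# S56 / FLAT-O, leaf FO-VG (helper66): valuation inputs, part 0

`vg0` : an element of `ℚ̄` fixed by the inertia group of `A | p` has `A`-valuation in `v(p)^ℤ`
("the inertia field is unramified").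
-/

set_option autoImplicit false
set_option linter.style.haveILetI false

open NumberField IsDedekindDomain
open scoped Pointwise

namespace Fermat.Agent.S56.H66

local notation "Qb" => AlgebraicClosure ℚ
local notation "GQ" => (AlgebraicClosure ℚ ≃ₐ[ℚ] AlgebraicClosure ℚ)

/-- A finite Galois extension of `ℚ` inside `ℚ̄` containing a given element. -/
theorem exists_finite_galois_mem (a : Qb) :
    ∃ F : IntermediateField ℚ Qb, FiniteDimensional ℚ F ∧ IsGalois ℚ F ∧ a ∈ F := by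
  have halg : IsAlgebraic ℚ a := (AlgebraicClosure.isAlgebraic ℚ).isAlgebraic a
  haveI : FiniteDimensional ℚ (IntermediateField.adjoin ℚ {a}) :=
    IntermediateField.adjoin.finiteDimensional halg.isIntegral
  haveI : Algebra.IsAlgebraic ℚ Qb := AlgebraicClosure.isAlgebraic ℚ
  haveI : IsAlgClosure ℚ Qb := ⟨inferInstance, inferInstance⟩
  haveI : Normal ℚ Qb := IsAlgClosure.normal ℚ Qb
  refine ⟨IntermediateField.normalClosure ℚ (IntermediateField.adjoin ℚ {a}) Qb,
    inferInstance, ?_, ?_⟩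
  · haveI : Normal ℚ (IntermediateField.normalClosure ℚ (IntermediateField.adjoin ℚ {a}) Qb) :=
      normalClosure.normal ℚ (IntermediateField.adjoin ℚ {a}) Qb
    exact ⟨⟩
  · exact (IntermediateField.le_normalClosure _) (IntermediateField.mem_adjoin_simple_self ℚ a)

/-- Finite-level core of `vg0`: `F/ℚ` finite Galois inside `ℚ̄`, `x ∈ F` fixed by the inertia
group (in `Gal(F/ℚ)`) of the prime of `𝓞 F` below `A`.  Then `v_A(x) ∈ v_A(p)^ℤ`. -/
theorem vg0_finite (p : ℕ) (hp : p.Prime) (A : ValuationSubring Qb) (hA : A.LiesOverPrime p)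
    (F : IntermediateField ℚ Qb) [FiniteDimensional ℚ F] [IsGalois ℚ F]
    (x : F) (hx0 : x ≠ 0)
    (hfix : ∀ τ ∈ (Fermat.Agent.S55.Bridge.H594.primeBelowF F A).inertia (F ≃ₐ[ℚ] F), τ x = x) :
    ∃ n : ℤ, A.valuation (x : Qb) = A.valuation (p : Qb) ^ n := by
  classical
  haveI : NumberField F := Fermat.Agent.S55.Bridge.H594.numberField_of_finite F
  set P : Ideal (𝓞 F) := Fermat.Agent.S55.Bridge.H594.primeBelowF F A with hP
  haveI hPprime : P.IsPrime := Fermat.Agent.S55.Bridge.H594.primeBelowF_isPrime F A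
  have hpP : ((p : ℕ) : 𝓞 F) ∈ P := Fermat.Agent.S55.Bridge.H594.natCast_mem_primeBelowF F A hA
  have hPne : P ≠ ⊥ := by
    intro h
    rw [h, Ideal.mem_bot] at hpP
    exact (by exact_mod_cast hp.ne_zero : ((p : ℕ) : 𝓞 F) ≠ 0) hpP
  haveI hPmax : P.IsMaximal := Ring.DimensionLEOne.maximalOfPrime hPne hPprime
  -- the inertia field
  let K : IntermediateField ℚ F := IntermediateField.fixedField (P.inertia (F ≃ₐ[ℚ] F))
  have hxK : x ∈ K := by
    rw [IntermediateField.mem_fixedField_iff]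
    intro τ hτ
    exact hfix τ hτ
  have he : (P.under (𝓞 K)).ramificationIdx ℤ = 1 := by
    apply Fermat.Agent.S17.H140.ramificationIdx_under_eq_one F K P
    intro σ hσ a ha
    exact (IntermediateField.mem_fixedField_iff _ a).mp ha σ hσ
  -- `K` as a number field with an algebra map to `ℚ̄`
  letI algK : Algebra K Qb := ((algebraMap F Qb).comp (algebraMap K F)).toAlgebra
  have halgK : ∀ y : K, algebraMap K Qb y = (((y : F)) : Qb) := fun y => rfl
  set Q : Ideal (𝓞 K) := P.under (𝓞 K) with hQ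
  haveI hQprime : Q.IsPrime := Ideal.IsPrime.under (𝓞 K) P
  have hmemQ : ∀ y : 𝓞 K, y ∈ Q ↔ (((y : K) : F) : Qb) ∈ A.nonunits := by
    intro y
    rw [hQ, Ideal.under_def, Ideal.mem_comap, hP, Fermat.Agent.S55.Bridge.H594.mem_primeBelowF]
    rfl
  have hpQ : ((p : ℕ) : 𝓞 K) ∈ Q := by
    rw [hmemQ]
    have hA' : (p : Qb) ∈ A.nonunits := hA
    simpa using hA'
  have hQne : Q ≠ ⊥ := by
    intro h
    rw [h, Ideal.mem_bot] at hpQ
    exact (by exact_mod_cast hp.ne_zero : ((p : ℕ) : 𝓞 K) ≠ 0) hpQ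
  let w : HeightOneSpectrum (𝓞 K) := ⟨Q, hQprime, hQne⟩
  have hw : w.asIdeal = Fermat.Agent.S14.H937.primeOf K A := by
    ext y
    rw [Fermat.Agent.S14.H937.mem_primeOf]
    exact hmemQ y
  -- the prime of `ℤ` below
  set q : Ideal ℤ := Q.under ℤ with hq
  haveI hqprime : q.IsPrime := Ideal.IsPrime.under ℤ Q
  have hpq : (p : ℤ) ∈ q := by
    rw [hq, Ideal.under_def, Ideal.mem_comap]
    simpa using hpQ
  have hqspan : q = Ideal.span {(p : ℤ)} := by
    have hmax : (Ideal.span {(p : ℤ)}).IsMaximal :=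
      PrincipalIdealRing.isMaximal_of_irreducible
        (Nat.prime_iff_prime_int.mp hp).irreducible
    have hle : Ideal.span {(p : ℤ)} ≤ q := (Ideal.span_singleton_le_iff_mem q).mpr hpq
    exact (hmax.eq_of_le hqprime.ne_top hle).symm
  have hqne : q ≠ ⊥ := by
    rw [hqspan]
    simp [hp.ne_zero]
  let v : HeightOneSpectrum ℤ := ⟨q, hqprime, hqne⟩
  haveI hlies : w.asIdeal.LiesOver v.asIdeal := ⟨rfl⟩
  have he' : v.asIdeal.ramificationIdx' w.asIdeal = 1 := by
    rw [Ideal.ramificationIdx'_eq_ramificationIdx v.asIdeal w.asIdeal hqne]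
    exact he
  have hvp : v.valuation ℚ (algebraMap ℤ ℚ (p : ℤ)) = WithZero.exp (-1 : ℤ) := by
    rw [HeightOneSpectrum.valuation_of_algebraMap]
    exact v.intValuation_singleton (by exact_mod_cast hp.ne_zero) hqspan
  have hwp : w.valuation K ((p : ℕ) : K) = WithZero.exp (-1 : ℤ) := by
    have h1 := HeightOneSpectrum.valuation_liesOver K v w (algebraMap ℤ ℚ (p : ℤ))
    rw [he', pow_one, hvp] at h1
    rw [h1]
    congr 1
  -- the element
  let xK : K := ⟨x, hxK⟩
  have hxK0 : xK ≠ 0 := by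
    intro h
    apply hx0
    have := congrArg (fun y : K => (y : F)) h
    simpa [xK] using this
  have hwx : w.valuation K xK ≠ 0 := (Valuation.ne_zero_iff _).mpr hxK0
  obtain ⟨m, hm⟩ : ∃ m : ℤ, w.valuation K xK = WithZero.exp m :=
    ⟨WithZero.log _, (WithZero.exp_log hwx).symm⟩
  refine ⟨-m, ?_⟩
  have hpK0 : ((p : ℕ) : K) ≠ 0 := by exact_mod_cast hp.ne_zero
  have h2 : w.valuation K (xK / ((p : ℕ) : K) ^ (-m)) = 1 := by
    rw [map_div₀, map_zpow₀, hwp, hm, ← WithZero.exp_zsmul]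
    simp
  have h3 := Fermat.Agent.S14.H937.valuation_eq_one_of K A w hw _ h2
  have h4 : algebraMap K Qb (xK / ((p : ℕ) : K) ^ (-m)) = (x : Qb) / (p : Qb) ^ (-m) := by
    rw [map_div₀, map_zpow₀, map_natCast]
    rfl
  rw [h4, map_div₀, map_zpow₀] at h3
  have hpv : A.valuation (p : Qb) ^ (-m) ≠ 0 := by
    apply zpow_ne_zero
    rw [Valuation.ne_zero_iff]
    exact_mod_cast hp.ne_zero
  exact (div_eq_one_iff_eq hpv).mp h3

/-- **(VG0)** An element of `ℚ̄` fixed by the inertia group of `A | p` has `A`-valuation in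
`v(p)^ℤ` (the inertia field is unramified). -/
theorem vg0 (p : ℕ) (hp : p.Prime) (A : ValuationSubring Qb) (hA : A.LiesOverPrime p)
    (a : Qb) (ha : a ≠ 0) (hfix : ∀ σ ∈ A.inertiaSubgroupIn ℚ, σ a = a) :
    ∃ n : ℤ, A.valuation a = A.valuation (p : Qb) ^ n := by
  obtain ⟨F, hFfin, hFgal, haF⟩ := exists_finite_galois_mem a
  haveI := hFfin
  haveI := hFgal
  have h := vg0_finite p hp A hA F ⟨a, haF⟩ (fun h0 => ha (congrArg Subtype.val h0)) ?_
  · exact h
  · intro τ hτ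
    rw [← Fermat.Agent.S55.Bridge.H594.map_inertiaSubgroupIn_eq F A hp hA] at hτ
    obtain ⟨σ, hσ, rfl⟩ := hτ
    apply Subtype.ext
    rw [Fermat.Agent.S55.Bridge.H594.restrictNormalHom_apply]
    exact hfix σ hσ

/-- (VG0), integral form: a non-unit of `A` fixed by inertia is divisible by `p` in `A`:
`v(a) ≤ v(p)`. -/
theorem vg0_le (p : ℕ) (hp : p.Prime) (A : ValuationSubring Qb) (hA : A.LiesOverPrime p)
    (a : Qb) (ha : a ∈ A.nonunits) (hfix : ∀ σ ∈ A.inertiaSubgroupIn ℚ, σ a = a) :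
    A.valuation a ≤ A.valuation (p : Qb) := by
  rcases eq_or_ne a 0 with rfl | ha0
  · simp
  obtain ⟨n, hn⟩ := vg0 p hp A hA a ha0 hfix
  have hpv : A.valuation (p : Qb) < 1 := (A.mem_nonunits_iff).mp hA
  have hp0 : A.valuation (p : Qb) ≠ 0 := by
    rw [Valuation.ne_zero_iff]
    exact_mod_cast hp.ne_zero
  have hav : A.valuation a < 1 := (A.mem_nonunits_iff).mp ha
  rw [hn] at hav ⊢
  -- `v(p)^n < 1` with `v(p) < 1` forces `n ≥ 1`
  have hn1 : 1 ≤ n := by
    by_contra hcon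
    push Not at hcon
    have hn0 : n ≤ 0 := by omega
    have : 1 ≤ A.valuation (p : Qb) ^ n := by
      obtain ⟨k, rfl⟩ : ∃ k : ℕ, n = -(k : ℤ) := ⟨(-n).toNat, by omega⟩
      rw [zpow_neg, zpow_natCast]
      exact (one_le_inv₀ (pow_pos (zero_lt_iff.mpr hp0) k)).mpr (pow_le_one₀ zero_le hpv.le)
    exact absurd hav (not_lt.mpr this)
  obtain ⟨k, rfl⟩ : ∃ k : ℕ, n = (k : ℤ) + 1 := ⟨(n - 1).toNat, by omega⟩
  rw [zpow_add_one₀ hp0, zpow_natCast]
  calc A.valuation (p : Qb) ^ k * A.valuation (p : Qb)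
      ≤ 1 * A.valuation (p : Qb) := by
        gcongr
        exact pow_le_one₀ zero_le hpv.le
    _ = A.valuation (p : Qb) := one_mul _

end Fermat.Agent.S56.H66

end
-- ===== PACK-END S56/H66/VG0.lean

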