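import Mathlib
import Fermat.Agent.Pack.S43GC.G0E12L3
import Fermat.Agent.Pack.S43GC.G0E12L2
import Fermat.Agent.Pack.S43GC.G0E12L1
import Fermat.Agent.Pack.S43GC.G0E7L3
import Fermat.Agent.Pack.S43GC.G0E0L1
import Fermat.Agent.Pack.S43GC.G0E7L0
import Fermat.Agent.Pack.S43GC.G0E3L3
import Fermat.Agent.Pack.S43GC.G0E7L1
import Fermat.Agent.Pack.S43GC.G0E11L1
import Fermat.Agent.Pack.S43GC.G0E6L0
import Fermat.Agent.Pack.S43GC.G0E3L1
import Fermat.Agent.Pack.S43GC.G0E10L3
import Fermat.Agent.Pack.S43GC.G0E11L3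
import Fermat.Agent.Pack.S43GC.G0E11L0
import Fermat.Agent.Pack.S43GC.G0E2L0
import Fermat.Agent.Pack.S43GC.G0E5L1
import Fermat.Agent.Pack.S43GC.G0E11L2
import Fermat.Agent.Pack.S43GC.G0E9L2
import Fermat.Agent.Pack.Fast891

-- ===== PACK-BEGIN S38/H953/FrDict.lean
section


/-!
# Route T (Ihara avoidance), Galois side: the FRAMED dictionary (helper953)

`DQ` a universal deformation ring of type `𝒟`, `F : UFrame DQ` a matrix frame,
`R□ = DQ.R⟦Y₀, Y₁, Y₂⟧`, `r□ = framedRep F`.  To a tangent vector `ψ : R□ → k[ε]` we attach the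
cocycle `frCoc F ψ : σ ↦ (ε-part of ψ(r□ σ)) · ρ̄(σ)⁻¹`.

Main results:
* `frCoc_type`      : `frCoc F ψ` is a tangent cocycle of type `𝒟`, or a cocycle which is a
  coboundary;
* `frCoc_eq_zero`   : `frCoc F ψ σ = 0` as soon as `ψ` has no `ε`-part on the entries of `r□ σ`;
* `frCoc_injective` : `ψ ↦ frCoc F ψ` is injective ON THE NOSE (the framing variables absorb the
  coboundaries).

Nothing unproved in this file.
-/

set_option autoImplicit false
set_option linter.unusedSectionVars false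
set_option linter.unusedVariables false
set_option linter.style.haveILetI false

namespace Fermat.Agent.S38.H953

noncomputable section

open IsLocalRing TrivSqZeroExt
open Fermat.Agent.S56 Fermat.Agent.S56.H716 Fermat.Agent.S56.H596

/-! ### Matrices over the dual numbers -/

section DualAux

variable {k : Type} [Field k]

theorem dmk_one_zero : dmk (1 : Matrix (Fin 2) (Fin 2) k) 0 = 1 := by
  apply dualMat_ext
  · rw [m0_dmk, m0_one]
  · rw [m1_dmk, m1_one]

theorem m0_unit_inv (P : (Matrix (Fin 2) (Fin 2) (DualNumber k))ˣ)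
    (h : m0 (P : Matrix (Fin 2) (Fin 2) (DualNumber k)) = 1) :
    m0 ((P⁻¹ : (Matrix (Fin 2) (Fin 2) (DualNumber k))ˣ) :
      Matrix (Fin 2) (Fin 2) (DualNumber k)) = 1 := by
  have h1 := congrArg m0 P.mul_inv
  rw [m0_mul, h, one_mul, m0_one] at h1
  exact h1

theorem m1_unit_inv (P : (Matrix (Fin 2) (Fin 2) (DualNumber k))ˣ)
    (h : m0 (P : Matrix (Fin 2) (Fin 2) (DualNumber k)) = 1) :
    m1 ((P⁻¹ : (Matrix (Fin 2) (Fin 2) (DualNumber k))ˣ) :
      Matrix (Fin 2) (Fin 2) (DualNumber k)) =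
      - m1 (P : Matrix (Fin 2) (Fin 2) (DualNumber k)) := by
  have h1 := congrArg m1 P.mul_inv
  rw [m1_mul, h, one_mul, m0_unit_inv P h, mul_one, m1_one] at h1
  exact eq_neg_of_add_eq_zero_left h1

theorem m0_conj (P : (Matrix (Fin 2) (Fin 2) (DualNumber k))ˣ)
    (h : m0 (P : Matrix (Fin 2) (Fin 2) (DualNumber k)) = 1)
    (X : Matrix (Fin 2) (Fin 2) (DualNumber k)) :
    m0 ((P : Matrix (Fin 2) (Fin 2) (DualNumber k)) * X *
      ((P⁻¹ : (Matrix (Fin 2) (Fin 2) (DualNumber k))ˣ) :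
        Matrix (Fin 2) (Fin 2) (DualNumber k))) = m0 X := by
  rw [m0_mul, m0_mul, h, m0_unit_inv P h, one_mul, mul_one]

theorem m1_conj (P : (Matrix (Fin 2) (Fin 2) (DualNumber k))ˣ)
    (h : m0 (P : Matrix (Fin 2) (Fin 2) (DualNumber k)) = 1)
    (X : Matrix (Fin 2) (Fin 2) (DualNumber k)) :
    m1 ((P : Matrix (Fin 2) (Fin 2) (DualNumber k)) * X *
      ((P⁻¹ : (Matrix (Fin 2) (Fin 2) (DualNumber k))ˣ) :
        Matrix (Fin 2) (Fin 2) (DualNumber k))) =
      m1 X + (m1 (P : Matrix (Fin 2) (Fin 2) (DualNumber k)) * m0 X -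
        m0 X * m1 (P : Matrix (Fin 2) (Fin 2) (DualNumber k))) := by
  rw [m1_mul, m1_mul, m0_mul, h, m0_unit_inv P h, m1_unit_inv P h, one_mul, one_mul, mul_one,
    mul_neg]
  abel

end DualAux

/-! ### Tangent vectors of the framed ring -/

section Core

variable {𝒪 : Type} [CommRing 𝒪] [IsDomain 𝒪] [IsDiscreteValuationRing 𝒪]
  [IsAdicComplete (maximalIdeal 𝒪) 𝒪]
  {ρbar : ResidualGaloisRep (ResidueField 𝒪)} {𝒟 : DefCond 𝒪}
  {DQ : GaloisRep.DeformationRingData 𝒪 ρbar 𝒟}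

attribute [local instance] Fermat.Agent.S56.tanAlgebra

/-- The restriction of a tangent vector of `R□ = DQ.R⟦Y⟧` to the constants. -/
def tanC (ψ : TanHom 𝒪 (MvPowerSeries (Fin 3) DQ.R)) : TanHom 𝒪 DQ.R :=
  { toRingHom := (ψ : MvPowerSeries (Fin 3) DQ.R →+* DualNumber (ResidueField 𝒪)).comp
      (MvPowerSeries.C : DQ.R →+* MvPowerSeries (Fin 3) DQ.R)
    commutes' := fun a => by
      have h := ψ.commutes a
      rw [MvPowerSeries.algebraMap_apply] at h
      exact h }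

@[simp] theorem tanC_apply (ψ : TanHom 𝒪 (MvPowerSeries (Fin 3) DQ.R)) (x : DQ.R) :
    tanC ψ x = ψ (MvPowerSeries.C x) := rfl

theorem fst_map_X (ψ : TanHom 𝒪 (MvPowerSeries (Fin 3) DQ.R)) (i : Fin 3) :
    TrivSqZeroExt.fst (ψ (MvPowerSeries.X i)) = 0 := by
  rw [← mem_maximalIdeal_dualNumber_iff]
  exact Fermat.Agent.S56.H966.map_mem_maximalIdeal
    (ψ : MvPowerSeries (Fin 3) DQ.R →+* DualNumber (ResidueField 𝒪)) (isLocalHom_tanHom ψ)
    (Fermat.Agent.S53.H596.X_mem_maximalIdeal_mvPowerSeries i)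

/-- The `ε`-part of the image of the framing matrix. -/
def frameZ (ψ : TanHom 𝒪 (MvPowerSeries (Fin 3) DQ.R)) :
    Matrix (Fin 2) (Fin 2) (ResidueField 𝒪) :=
  !![TrivSqZeroExt.snd (ψ (MvPowerSeries.X 0)), TrivSqZeroExt.snd (ψ (MvPowerSeries.X 1));
     TrivSqZeroExt.snd (ψ (MvPowerSeries.X 2)), 0]

theorem map_frameMat (ψ : TanHom 𝒪 (MvPowerSeries (Fin 3) DQ.R)) :
    (frameMat DQ.R).map (ψ : MvPowerSeries (Fin 3) DQ.R →+* DualNumber (ResidueField 𝒪)) =
      dmk 1 (frameZ ψ) := by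
  apply dualMat_ext
  · rw [m0_dmk]
    ext i j
    fin_cases i <;> fin_cases j <;> simp [frameMat, fst_map_X]
  · rw [m1_dmk]
    ext i j
    fin_cases i <;> fin_cases j <;> simp [frameMat, frameZ]

theorem unitsMap_frameUnit (ψ : TanHom 𝒪 (MvPowerSeries (Fin 3) DQ.R)) :
    Units.map (ψ : MvPowerSeries (Fin 3) DQ.R →+* DualNumber (ResidueField 𝒪)).mapMatrix.toMonoidHom
      (frameUnit DQ.R) = dunit (frameZ ψ) := by
  apply Units.ext
  rw [coe_dunit, ← map_frameMat]
  rfl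

/-- The matrix representation over `k[ε]` attached to a tangent vector of the framed ring. -/
def frRep (F : UFrame DQ) (ψ : TanHom 𝒪 (MvPowerSeries (Fin 3) DQ.R)) :
    GQ →* Matrix (Fin 2) (Fin 2) (DualNumber (ResidueField 𝒪)) :=
  Fermat.Agent.S53.mapRep
    (ψ : MvPowerSeries (Fin 3) DQ.R →+* DualNumber (ResidueField 𝒪)) (framedRep F)

/-- The matrix representation over `k[ε]` attached to the restriction to the constants. -/
def cRep (F : UFrame DQ) (ψ : TanHom 𝒪 (MvPowerSeries (Fin 3) DQ.R)) :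
    GQ →* Matrix (Fin 2) (Fin 2) (DualNumber (ResidueField 𝒪)) :=
  Fermat.Agent.S53.mapRep (tanC ψ : DQ.R →+* DualNumber (ResidueField 𝒪)) F.rR

/-- **The cocycle of a tangent vector of the framed ring.** -/
def frCoc (F : UFrame DQ) (ψ : TanHom 𝒪 (MvPowerSeries (Fin 3) DQ.R)) :
    GQ → Module.End (ResidueField 𝒪) ρbar.V :=
  coc ρbar F.E (frRep F ψ) F.rb

theorem frRep_apply (F : UFrame DQ) (ψ : TanHom 𝒪 (MvPowerSeries (Fin 3) DQ.R)) (σ : GQ) :
    frRep F ψ σ = (dunit (frameZ ψ) : Matrix (Fin 2) (Fin 2) (DualNumber (ResidueField 𝒪))) *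
      cRep F ψ σ * (((dunit (frameZ ψ))⁻¹ :
        (Matrix (Fin 2) (Fin 2) (DualNumber (ResidueField 𝒪)))ˣ) :
          Matrix (Fin 2) (Fin 2) (DualNumber (ResidueField 𝒪))) := by
  have h1 : (((dunit (frameZ ψ))⁻¹ : (Matrix (Fin 2) (Fin 2) (DualNumber (ResidueField 𝒪)))ˣ) :
      Matrix (Fin 2) (Fin 2) (DualNumber (ResidueField 𝒪))) =
      (ψ : MvPowerSeries (Fin 3) DQ.R →+* DualNumber (ResidueField 𝒪)).mapMatrix
        (((frameUnit DQ.R)⁻¹ : (Matrix (Fin 2) (Fin 2) (MvPowerSeries (Fin 3) DQ.R))ˣ) :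
          Matrix (Fin 2) (Fin 2) (MvPowerSeries (Fin 3) DQ.R)) := by
    rw [← unitsMap_frameUnit ψ, ← map_inv]
    rfl
  have h2 : ((dunit (frameZ ψ) : (Matrix (Fin 2) (Fin 2) (DualNumber (ResidueField 𝒪)))ˣ) :
      Matrix (Fin 2) (Fin 2) (DualNumber (ResidueField 𝒪))) =
      (ψ : MvPowerSeries (Fin 3) DQ.R →+* DualNumber (ResidueField 𝒪)).mapMatrix
        (frameMat DQ.R) := by
    rw [← unitsMap_frameUnit ψ]
    rfl
  have h3 : cRep F ψ σ =
      (ψ : MvPowerSeries (Fin 3) DQ.R →+* DualNumber (ResidueField 𝒪)).mapMatrix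
        ((F.rR σ).map MvPowerSeries.C) := by
    ext i j <;> rfl
  rw [h1, h2, h3, ← map_mul, ← map_mul]
  rfl

theorem m0_dunit (M : Matrix (Fin 2) (Fin 2) (ResidueField 𝒪)) :
    m0 ((dunit M : (Matrix (Fin 2) (Fin 2) (DualNumber (ResidueField 𝒪)))ˣ) :
      Matrix (Fin 2) (Fin 2) (DualNumber (ResidueField 𝒪))) = 1 := by
  rw [coe_dunit, m0_dmk]

theorem m1_dunit (M : Matrix (Fin 2) (Fin 2) (ResidueField 𝒪)) :
    m1 ((dunit M : (Matrix (Fin 2) (Fin 2) (DualNumber (ResidueField 𝒪)))ˣ) :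
      Matrix (Fin 2) (Fin 2) (DualNumber (ResidueField 𝒪))) = M := by
  rw [coe_dunit, m1_dmk]

theorem m0_cRep (F : UFrame DQ) (ψ : TanHom 𝒪 (MvPowerSeries (Fin 3) DQ.R)) (σ : GQ) :
    m0 (cRep F ψ σ) = F.rb σ := by
  ext i j
  have h1 := congrFun (congrFun (F.hlift σ) i) j
  simp only [Matrix.map_apply] at h1
  exact fst_tanHom_eq_of_map DQ.instIsLocalHom (tanC ψ) (F.rR σ i j) (F.rb σ i j) h1

theorem m0_frRep (F : UFrame DQ) (ψ : TanHom 𝒪 (MvPowerSeries (Fin 3) DQ.R)) (σ : GQ) :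
    m0 (frRep F ψ σ) = F.rb σ := by
  rw [frRep_apply, m0_conj _ (m0_dunit _), m0_cRep]

theorem m1_frRep (F : UFrame DQ) (ψ : TanHom 𝒪 (MvPowerSeries (Fin 3) DQ.R)) (σ : GQ) :
    m1 (frRep F ψ σ) = m1 (cRep F ψ σ) + (frameZ ψ * F.rb σ - F.rb σ * frameZ ψ) := by
  rw [frRep_apply, m1_conj _ (m0_dunit _), m0_cRep, m1_dunit]

theorem det_frRep (F : UFrame DQ) (ψ : TanHom 𝒪 (MvPowerSeries (Fin 3) DQ.R)) (σ : GQ) :
    (frRep F ψ σ).det = (cRep F ψ σ).det := by
  rw [frRep_apply, Matrix.det_units_conj]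

theorem matCont_cRep (F : UFrame DQ) (ψ : TanHom 𝒪 (MvPowerSeries (Fin 3) DQ.R)) :
    Fermat.Agent.S53.MatCont (cRep F ψ) :=
  F.hrR.map _ (isLocalHom_tanHom (tanC ψ))

theorem matCont_frRep (F : UFrame DQ) (ψ : TanHom 𝒪 (MvPowerSeries (Fin 3) DQ.R)) :
    Fermat.Agent.S53.MatCont (frRep F ψ) :=
  (matCont_framedRep F).map _ (isLocalHom_tanHom ψ)

/-- The cocycle of `ψ` is the cocycle of its restriction to the constants plus the coboundary of
`- frameZ ψ`. -/
theorem cocMat_frRep (F : UFrame DQ) (ψ : TanHom 𝒪 (MvPowerSeries (Fin 3) DQ.R)) (σ : GQ) :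
    cocMat F.rb (frRep F ψ) σ = cocMat F.rb (cRep F ψ) σ +
      (frameZ ψ - F.rb σ * frameZ ψ * F.rb σ⁻¹) := by
  unfold cocMat
  rw [m1_frRep, add_mul, sub_mul, mul_assoc (frameZ ψ), rb_mul_inv, mul_one]

/-! ### Vanishing -/

/-- The cocycle of `ψ` vanishes at `σ` as soon as `ψ` has no `ε`-part on the entries of the
framed universal matrix `r□(σ)`. -/
theorem frCoc_eq_zero (F : UFrame DQ) (ψ : TanHom 𝒪 (MvPowerSeries (Fin 3) DQ.R)) (σ : GQ)
    (h : ∀ i j, TrivSqZeroExt.snd (ψ (framedRep F σ i j)) = 0) : frCoc F ψ σ = 0 := by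
  have hm1 : m1 (frRep F ψ σ) = 0 := by
    ext i j
    exact h i j
  show matToEnd F.E (cocMat F.rb (frRep F ψ) σ) = 0
  rw [cocMat_eq_zero_of_m1 σ hm1, map_zero]

/-! ### Equivalences -/

theorem equiv_cRep (F : UFrame DQ) (ψ : TanHom 𝒪 (MvPowerSeries (Fin 3) DQ.R)) :
    Nonempty (GaloisRepAdic.Equiv
      (DQ.ρ.baseChangeAlong (tanC ψ : DQ.R →+* DualNumber (ResidueField 𝒪))
        (isLocalHom_tanHom (tanC ψ)))
      (Fermat.Agent.S53.toAdic (cRep F ψ) (matCont_cRep F ψ))) := by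
  obtain ⟨e2⟩ := Fermat.Agent.S53.baseChangeAlong_toAdic
    (tanC ψ : DQ.R →+* DualNumber (ResidueField 𝒪)) (isLocalHom_tanHom (tanC ψ)) F.rR F.hrR
  exact ⟨(F.eR.baseChangeAlong (tanC ψ : DQ.R →+* DualNumber (ResidueField 𝒪))
    (isLocalHom_tanHom (tanC ψ))).trans e2⟩

theorem isEquiv_cRep_frRep (F : UFrame DQ) (ψ : TanHom 𝒪 (MvPowerSeries (Fin 3) DQ.R)) :
    (Fermat.Agent.S53.toAdic (cRep F ψ) (matCont_cRep F ψ)).IsEquiv
      (Fermat.Agent.S53.toAdic (frRep F ψ) (matCont_frRep F ψ)) := by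
  rw [Fermat.Agent.S53.toAdic_isEquiv_iff]
  refine ⟨dunit (frameZ ψ), fun σ => ?_⟩
  rw [frRep_apply, mul_assoc, Units.inv_mul, mul_one]

theorem equiv_frRep (F : UFrame DQ) (ψ : TanHom 𝒪 (MvPowerSeries (Fin 3) DQ.R)) :
    Nonempty (GaloisRepAdic.Equiv
      (DQ.ρ.baseChangeAlong (tanC ψ : DQ.R →+* DualNumber (ResidueField 𝒪))
        (isLocalHom_tanHom (tanC ψ)))
      (Fermat.Agent.S53.toAdic (frRep F ψ) (matCont_frRep F ψ))) := by
  obtain ⟨e1⟩ := equiv_cRep F ψ
  obtain ⟨e2⟩ := isEquiv_cRep_frRep F ψ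
  exact ⟨e1.trans e2⟩

theorem snd_tanC_eq_zero (ψ : TanHom 𝒪 (MvPowerSeries (Fin 3) DQ.R))
    (hs : ¬ Function.Surjective (tanC ψ)) (x : DQ.R) : TrivSqZeroExt.snd (tanC ψ x) = 0 := by
  by_contra hx
  exact hs (tanHom_surjective_of_snd_ne_zero (tanC ψ) x hx)

theorem m1_cRep_eq_zero (F : UFrame DQ) (ψ : TanHom 𝒪 (MvPowerSeries (Fin 3) DQ.R))
    (hs : ¬ Function.Surjective (tanC ψ)) (σ : GQ) : m1 (cRep F ψ σ) = 0 := by
  ext i j
  exact snd_tanC_eq_zero ψ hs _

/-! ### Type of the cocycle -/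

/-- **FR-DICT, type.**  The cocycle of a tangent vector of the framed ring is a tangent cocycle of
type `𝒟`, or (trivial restriction to the constants) a cocycle which is a coboundary. -/
theorem frCoc_type (p : ℕ) (hp : p.Prime)
    (hdet : ∀ ρ' : GaloisRepAdic (DualNumber (ResidueField 𝒪)), 𝒟 ρ' → ρ'.DetIsCyclotomic p)
    (hbc : ∀ (φ : TanHom 𝒪 DQ.R)
      (hφ : IsLocalHom (φ : DQ.R →+* DualNumber (ResidueField 𝒪))), Function.Surjective φ →
      𝒟 (DQ.ρ.baseChangeAlong (φ : DQ.R →+* DualNumber (ResidueField 𝒪)) hφ))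
    (F : UFrame DQ) (ψ : TanHom 𝒪 (MvPowerSeries (Fin 3) DQ.R)) :
    IsTanCocycle 𝒪 ρbar 𝒟 (frCoc F ψ) ∨
      (IsAdCocycle ρbar (frCoc F ψ) ∧ IsAdCoboundary ρbar (frCoc F ψ)) := by
  by_cases hs : Function.Surjective (tanC ψ)
  · left
    have h𝒟 := hbc (tanC ψ) (isLocalHom_tanHom (tanC ψ)) hs
    obtain ⟨e3⟩ := equiv_frRep F ψ
    have hF : ∀ σ v, e3.toLinearEquiv
        ((DQ.ρ.baseChangeAlong (tanC ψ : DQ.R →+* DualNumber (ResidueField 𝒪))
          (isLocalHom_tanHom (tanC ψ))).ρ σ v) = (frRep F ψ σ).mulVec (e3.toLinearEquiv v) :=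
      fun σ v => e3.map_apply σ v
    have hdetσ : ∀ σ, TrivSqZeroExt.snd (frRep F ψ σ).det = 0 := fun σ =>
      snd_det_eq_zero p hp _ (hdet _ h𝒟) (frRep F ψ) e3.toLinearEquiv hF σ
    exact ⟨isAdCocycle_coc F.hE (m0_frRep F ψ) hdetσ (matCont_frRep F ψ), _,
      isLiftOf_coc F.hE (m0_frRep F ψ) (matCont_frRep F ψ) _ e3.toLinearEquiv hF, h𝒟⟩
  · right
    have hm1 := m1_cRep_eq_zero F ψ hs
    have hdetσ : ∀ σ, TrivSqZeroExt.snd (frRep F ψ σ).det = 0 := by
      intro σ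
      rw [det_frRep, snd_det, hm1, zero_mul, Matrix.trace_zero]
    refine ⟨isAdCocycle_coc F.hE (m0_frRep F ψ) hdetσ (matCont_frRep F ψ), ?_⟩
    refine ⟨matToEnd F.E (- frameZ ψ), fun σ => ?_⟩
    show matToEnd F.E (cocMat F.rb (frRep F ψ) σ) = _
    rw [cocMat_frRep, cocMat_eq_zero_of_m1 σ (hm1 σ), zero_add, rho_eq_matToEnd F.hE σ,
      rho_eq_matToEnd F.hE σ⁻¹, ← map_mul, ← map_mul, ← map_sub]
    congr 1
    rw [mul_neg, neg_mul, sub_neg_eq_add, add_comm, sub_eq_add_neg]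

/-! ### Injectivity -/

/-- Two tangent vectors of `DQ.R⟦Y⟧` which agree on the constants and on the variables are
equal. -/
theorem tanHom_ext_of_C_X (ψ ψ' : TanHom 𝒪 (MvPowerSeries (Fin 3) DQ.R))
    (hC : tanC ψ = tanC ψ')
    (hX : ∀ i, ψ (MvPowerSeries.X i) = ψ' (MvPowerSeries.X i)) : ψ = ψ' := by
  letI : Algebra DQ.R (DualNumber (ResidueField 𝒪)) :=
    (tanC ψ : DQ.R →+* DualNumber (ResidueField 𝒪)).toAlgebra
  let χ : MvPowerSeries (Fin 3) DQ.R →ₐ[DQ.R] DualNumber (ResidueField 𝒪) :=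
    { toRingHom := (ψ : MvPowerSeries (Fin 3) DQ.R →+* DualNumber (ResidueField 𝒪))
      commutes' := fun x => by
        show ψ (algebraMap DQ.R (MvPowerSeries (Fin 3) DQ.R) x) = tanC ψ x
        rw [← MvPowerSeries.c_eq_algebraMap]
        rfl }
  let χ' : MvPowerSeries (Fin 3) DQ.R →ₐ[DQ.R] DualNumber (ResidueField 𝒪) :=
    { toRingHom := (ψ' : MvPowerSeries (Fin 3) DQ.R →+* DualNumber (ResidueField 𝒪))
      commutes' := fun x => by
        show ψ' (algebraMap DQ.R (MvPowerSeries (Fin 3) DQ.R) x) = tanC ψ x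
        rw [hC, ← MvPowerSeries.c_eq_algebraMap]
        rfl }
  haveI : IsHausdorff (maximalIdeal (DualNumber (ResidueField 𝒪)))
      (DualNumber (ResidueField 𝒪)) :=
    (isAdicComplete_dualNumber (ResidueField 𝒪)).toIsHausdorff
  have h : χ = χ' := Fermat.Agent.S53.H596.algHom_ext_of_X
    (maximalIdeal (DualNumber (ResidueField 𝒪)))
    (fun i => (mem_maximalIdeal_dualNumber_iff _).2 (fst_map_X ψ i)) hX
  apply AlgHom.ext
  intro f
  exact DFunLike.congr_fun h f

theorem map_residue_cRep (F : UFrame DQ) (ψ : TanHom 𝒪 (MvPowerSeries (Fin 3) DQ.R)) (σ : GQ) :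
    (cRep F ψ σ).map (residue (DualNumber (ResidueField 𝒪))) =
      (F.rb σ).map (@ResidueField.map 𝒪 (DualNumber (ResidueField 𝒪)) _ _ _ _
        (algebraMap 𝒪 (DualNumber (ResidueField 𝒪))) (isLocalHom_tanAlgebra 𝒪)) := by
  ext i j
  simp only [Matrix.map_apply]
  rw [residue_dualNumber_eq]
  congr 1
  exact congrFun (congrFun (m0_cRep F ψ σ) i) j

theorem residual_isEquiv_tanC (F : UFrame DQ) (ψ : TanHom 𝒪 (MvPowerSeries (Fin 3) DQ.R)) :
    (DQ.ρ.baseChangeAlong (tanC ψ : DQ.R →+* DualNumber (ResidueField 𝒪))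
      (isLocalHom_tanHom (tanC ψ))).residual.IsEquiv
    (ρbar.baseChangeAlong
      (@ResidueField.map 𝒪 (DualNumber (ResidueField 𝒪)) _ _ _ _
        (algebraMap 𝒪 (DualNumber (ResidueField 𝒪))) (isLocalHom_tanAlgebra 𝒪))) := by
  haveI hlocD := isLocalHom_tanAlgebra 𝒪
  obtain ⟨e4⟩ := equiv_cRep F ψ
  obtain ⟨e5⟩ := Fermat.Agent.S53.residual_isEquiv_of_lift ρbar F.rb F.hrb ⟨F.e⟩ (cRep F ψ)
    (matCont_cRep F ψ) (map_residue_cRep F ψ)
  exact ⟨e4.residual.trans e5⟩

/-- Equal cocycles have equal matrix representations. -/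
theorem frRep_eq_of_frCoc_eq (F : UFrame DQ) (ψ ψ' : TanHom 𝒪 (MvPowerSeries (Fin 3) DQ.R))
    (h : frCoc F ψ = frCoc F ψ') (σ : GQ) : frRep F ψ σ = frRep F ψ' σ := by
  have hM : ∀ σ, cocMat F.rb (frRep F ψ) σ - cocMat F.rb (frRep F ψ') σ =
      F.rb σ * 0 * F.rb σ⁻¹ - 0 := by
    intro σ
    have h1 : matToEnd F.E (cocMat F.rb (frRep F ψ) σ) =
        matToEnd F.E (cocMat F.rb (frRep F ψ') σ) := congrFun h σ
    rw [(matToEnd F.E).injective h1, sub_self, mul_zero, zero_mul, sub_self]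
  have h1 := dmk_mul_eq_of_coboundary (m0_frRep F ψ) (m0_frRep F ψ') 0 hM σ
  rwa [dmk_one_zero, one_mul, mul_one] at h1

/-- Equal matrix representations have equivalent restrictions to the constants. -/
theorem equiv_tanC_of_frRep_eq (F : UFrame DQ) (ψ ψ' : TanHom 𝒪 (MvPowerSeries (Fin 3) DQ.R))
    (hrep : ∀ σ, frRep F ψ σ = frRep F ψ' σ) :
    Nonempty (GaloisRepAdic.Equiv
      (DQ.ρ.baseChangeAlong (tanC ψ : DQ.R →+* DualNumber (ResidueField 𝒪))
        (isLocalHom_tanHom (tanC ψ)))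
      (DQ.ρ.baseChangeAlong (tanC ψ' : DQ.R →+* DualNumber (ResidueField 𝒪))
        (isLocalHom_tanHom (tanC ψ')))) := by
  have hmid : (Fermat.Agent.S53.toAdic (frRep F ψ) (matCont_frRep F ψ)).IsEquiv
      (Fermat.Agent.S53.toAdic (frRep F ψ') (matCont_frRep F ψ')) := by
    rw [Fermat.Agent.S53.toAdic_isEquiv_iff]
    exact ⟨1, fun σ => by rw [Units.val_one, one_mul, mul_one, hrep σ]⟩
  obtain ⟨e1⟩ := equiv_frRep F ψ
  obtain ⟨e2⟩ := equiv_frRep F ψ'
  obtain ⟨e3⟩ := hmid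
  exact ⟨(e1.trans e3).trans e2.symm⟩

/-- Equal matrix representations have equal restrictions to the constants. -/
theorem tanC_eq_of_frRep_eq
    (hbc : ∀ (φ : TanHom 𝒪 DQ.R)
      (hφ : IsLocalHom (φ : DQ.R →+* DualNumber (ResidueField 𝒪))), Function.Surjective φ →
      𝒟 (DQ.ρ.baseChangeAlong (φ : DQ.R →+* DualNumber (ResidueField 𝒪)) hφ))
    (F : UFrame DQ) (ψ ψ' : TanHom 𝒪 (MvPowerSeries (Fin 3) DQ.R))
    (hrep : ∀ σ, frRep F ψ σ = frRep F ψ' σ) : tanC ψ = tanC ψ' := by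
  haveI hlocD := isLocalHom_tanAlgebra 𝒪
  haveI := isAdicComplete_dualNumber (ResidueField 𝒪)
  obtain ⟨hφφ'⟩ := equiv_tanC_of_frRep_eq F ψ ψ' hrep
  by_cases hs' : Function.Surjective (tanC ψ')
  · have huniv := DQ.universal (DualNumber (ResidueField 𝒪)) (residue_tanAlgebra_surjective 𝒪)
      _ (hbc (tanC ψ') (isLocalHom_tanHom (tanC ψ')) hs') (residual_isEquiv_tanC F ψ')
    exact huniv.unique ⟨isLocalHom_tanHom (tanC ψ), ⟨hφφ'⟩⟩
      ⟨isLocalHom_tanHom (tanC ψ'), ⟨GaloisRepAdic.Equiv.refl _⟩⟩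
  · by_cases hs : Function.Surjective (tanC ψ)
    · have huniv := DQ.universal (DualNumber (ResidueField 𝒪))
        (residue_tanAlgebra_surjective 𝒪) _ (hbc (tanC ψ) (isLocalHom_tanHom (tanC ψ)) hs)
        (residual_isEquiv_tanC F ψ)
      exact huniv.unique ⟨isLocalHom_tanHom (tanC ψ), ⟨GaloisRepAdic.Equiv.refl _⟩⟩
        ⟨isLocalHom_tanHom (tanC ψ'), ⟨hφφ'.symm⟩⟩
    · exact tanHom_eq_of_snd_eq_zero DQ.residue_surjective (tanC ψ) (tanC ψ')
        (snd_tanC_eq_zero ψ hs) (snd_tanC_eq_zero ψ' hs')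

/-- Equal matrix representations have equal framings (Schur's lemma). -/
theorem frameZ_eq_of_frRep_eq (F : UFrame DQ) (ψ ψ' : TanHom 𝒪 (MvPowerSeries (Fin 3) DQ.R))
    (hC : tanC ψ = tanC ψ')
    (hrep : ∀ σ, frRep F ψ σ = frRep F ψ' σ) : frameZ ψ = frameZ ψ' := by
  have hcR : ∀ σ, cRep F ψ σ = cRep F ψ' σ := by
    intro σ
    unfold cRep
    rw [hC]
  have hZ : ∀ σ, (frameZ ψ - frameZ ψ') * F.rb σ = F.rb σ * (frameZ ψ - frameZ ψ') := by
    intro σ
    have h1 := congrArg m1 (hrep σ)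
    rw [m1_frRep, m1_frRep, hcR σ] at h1
    have h2 := add_left_cancel h1
    rw [sub_mul, mul_sub]
    rw [sub_eq_sub_iff_add_eq_add] at h2 ⊢
    rw [h2, add_comm]
  obtain ⟨c, hc⟩ := Fermat.Agent.S53.schur_matrix ρbar DQ.absIrr F.rb F.hrb ⟨F.e⟩ _ hZ
  have hc0 : c = 0 := by
    have h1 := congrFun (congrFun hc 1) 1
    simp [frameZ] at h1
    exact h1.symm
  rw [hc0, zero_smul] at hc
  exact sub_eq_zero.1 hc

theorem map_X_eq_of_frameZ_eq (ψ ψ' : TanHom 𝒪 (MvPowerSeries (Fin 3) DQ.R))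
    (hZZ : frameZ ψ = frameZ ψ') (i : Fin 3) :
    ψ (MvPowerSeries.X i) = ψ' (MvPowerSeries.X i) := by
  apply TrivSqZeroExt.ext
  · rw [fst_map_X, fst_map_X]
  · fin_cases i
    · have h1 := congrFun (congrFun hZZ 0) 0
      simpa [frameZ] using h1
    · have h1 := congrFun (congrFun hZZ 0) 1
      simpa [frameZ] using h1
    · have h1 := congrFun (congrFun hZZ 1) 0
      simpa [frameZ] using h1

/-- **FR-DICT, injectivity.**  `ψ ↦ frCoc F ψ` is injective on the nose. -/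
theorem frCoc_injective
    (hbc : ∀ (φ : TanHom 𝒪 DQ.R)
      (hφ : IsLocalHom (φ : DQ.R →+* DualNumber (ResidueField 𝒪))), Function.Surjective φ →
      𝒟 (DQ.ρ.baseChangeAlong (φ : DQ.R →+* DualNumber (ResidueField 𝒪)) hφ))
    (F : UFrame DQ) : Function.Injective (frCoc (𝒪 := 𝒪) F) := by
  intro ψ ψ' h
  have hrep := frRep_eq_of_frCoc_eq F ψ ψ' h
  have hC := tanC_eq_of_frRep_eq hbc F ψ ψ' hrep
  exact tanHom_ext_of_C_X ψ ψ' hC
    (map_X_eq_of_frameZ_eq ψ ψ' (frameZ_eq_of_frRep_eq F ψ ψ' hC hrep))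

end Core

end

end Fermat.Agent.S38.H953

end
-- ===== PACK-END S38/H953/FrDict.lean

-- ===== PACK-BEGIN S55/H953/PadicNormIndex.lean
section


/-!
# S55 / local norm index theorem for finite extensions of `ℚ_[q]` (Mathlib-only statement)

For `K` a finite extension of `ℚ_[q]` and `L/K` a finite cyclic Galois extension:
`[Kˣ : N_{L/K}(Lˣ)] = [L : K]`.
-/

set_option autoImplicit false

namespace Fermat.Agent.S55.H953

/-- **Local norm index theorem** for a complete, locally compact, ultrametric, nontrivially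
normed base field `K` and an abstract finite cyclic extension `L/K`. -/
theorem norm_index_eq_finrank_of_proper (K L : Type) [NontriviallyNormedField K]
    [IsUltrametricDist K] [ProperSpace K] [Field L] [Algebra K L] [FiniteDimensional K L]
    [IsGalois K L] [IsCyclic (L ≃ₐ[K] L)] :
    (Units.map (Algebra.norm K : L →* K)).range.index = Module.finrank K L := by
  letI : NormedField L := spectralNorm.normedField K L
  letI : NormedAlgebra K L := spectralNorm.normedAlgebra K L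
  haveI : ProperSpace L := FiniteDimensional.proper K L
  exact norm_index_eq_finrank_of_normed

/-- **Local norm index theorem**: for `K/ℚ_[q]` finite and `L/K` finite cyclic Galois,
`[Kˣ : N_{L/K}(Lˣ)] = [L : K]`. -/
theorem padic_norm_index_eq_finrank (q : ℕ) [Fact q.Prime] (K L : Type) [Field K] [Field L]
    [Algebra ℚ_[q] K] [FiniteDimensional ℚ_[q] K] [Algebra K L] [FiniteDimensional K L]
    [IsGalois K L] [IsCyclic (L ≃ₐ[K] L)] :
    (Units.map (Algebra.norm K : L →* K)).range.index = Module.finrank K L := by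
  letI : NontriviallyNormedField K := spectralNorm.nontriviallyNormedField ℚ_[q] K
  letI : NormedAlgebra ℚ_[q] K := spectralNorm.normedAlgebra ℚ_[q] K
  haveI : IsUltrametricDist K := IsUltrametricDist.of_normedAlgebra ℚ_[q]
  haveI : ProperSpace K := FiniteDimensional.proper ℚ_[q] K
  exact norm_index_eq_finrank_of_proper K L

end Fermat.Agent.S55.H953

end
-- ===== PACK-END S55/H953/PadicNormIndex.lean

-- ===== PACK-BEGIN S55/K/T1H635.lean
section



/-!
# S55 / layer K, leaf K-T1 (helper635): `surjH2_of : H3FinSpec p S → SurjH2Spec p S`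

`cd_p ≤ 2` in cochain form: if `H³_S` vanishes on finite modules then `H²_S` is right exact.
Given `φ : P ↠ N` and a level-constant 2-cocycle `x` of `N`, lift `x` to the level-constant
cochain `x̃ = sec ∘ x` of `P`; `d x̃` is a level-constant 3-cocycle with values in `R = ker φ`,
hence `d x̃ = d b` with `b` level-constant in `R`, and `x̃ - b` is a cocycle of `P` lifting `x`.
-/

set_option autoImplicit false

noncomputable section

namespace Fermat.Agent.S55.K.H635

open groupCohomology Fermat.Agent.S55.PT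

section Abstract

variable {F : Type} [Field F] {G : Type} [Group G]

/-- The kernel of an equivariant linear map, as a representation. -/
def kerRep {P N : Rep.{0, 0, 0} F G} (φ : P →ₗ[F] N) (hφ : IsEquivariant φ) :
    Rep.{0, 0, 0} F G :=
  Rep.of (P.ρ.subrepresentation (LinearMap.ker φ) (fun g x hx => by
    rw [LinearMap.mem_ker] at hx
    show φ (P.ρ g x) = 0
    rw [hφ g x, hx, map_zero]))

/-- The inclusion `ker φ → P`. -/
def kerIncl {P N : Rep.{0, 0, 0} F G} (φ : P →ₗ[F] N) (hφ : IsEquivariant φ) :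
    _root_.Fermat.Agent.S55.K.H635.kerRep φ hφ →ₗ[F] P :=
  (LinearMap.ker φ).subtype

theorem kerIncl_equivariant {P N : Rep.{0, 0, 0} F G} (φ : P →ₗ[F] N) (hφ : IsEquivariant φ) :
    IsEquivariant (_root_.Fermat.Agent.S55.K.H635.kerIncl φ hφ) := fun _ _ => rfl

theorem kerIncl_injective {P N : Rep.{0, 0, 0} F G} (φ : P →ₗ[F] N) (hφ : IsEquivariant φ) :
    Function.Injective (_root_.Fermat.Agent.S55.K.H635.kerIncl φ hφ) := Subtype.val_injective

theorem apply_kerIncl {P N : Rep.{0, 0, 0} F G} (φ : P →ₗ[F] N) (hφ : IsEquivariant φ)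
    (a : _root_.Fermat.Agent.S55.K.H635.kerRep φ hφ) : φ (_root_.Fermat.Agent.S55.K.H635.kerIncl φ hφ a) = 0 :=
  LinearMap.mem_ker.1 (Subtype.property (show ↥(LinearMap.ker φ) from a))

theorem kerRep_isUSmooth {P N : Rep.{0, 0, 0} F G} (φ : P →ₗ[F] N) (hφ : IsEquivariant φ)
    {L : LevelSys G} (hP : L.IsUSmooth P) : L.IsUSmooth (_root_.Fermat.Agent.S55.K.H635.kerRep φ hφ) := by
  obtain ⟨U, hU, h⟩ := hP
  exact ⟨U, hU, fun s hs a => Subtype.ext (h s hs (_root_.Fermat.Agent.S55.K.H635.kerIncl φ hφ a))⟩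

theorem kerRep_finiteDimensional {P N : Rep.{0, 0, 0} F G} (φ : P →ₗ[F] N)
    (hφ : IsEquivariant φ) [FiniteDimensional F P] : FiniteDimensional F (_root_.Fermat.Agent.S55.K.H635.kerRep φ hφ) :=
  inferInstanceAs (FiniteDimensional F ↥(LinearMap.ker φ))

/-- **K-T1, abstract form.**  If `H³_L(ker φ) = 0` then `H²_L(P) → H²_L(N)` is surjective. -/
theorem pushH2_surjective_of_h3Vanish {L : LevelSys G} (hN : L.NormalCofinal)
    {P N : Rep.{0, 0, 0} F G} (hP : L.IsUSmooth P) (φ : P →ₗ[F] N) (hφ : IsEquivariant φ)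
    (hsurj : Function.Surjective φ) (hR : H3Vanish L (_root_.Fermat.Agent.S55.K.H635.kerRep φ hφ)) :
    Function.Surjective (pushH2 φ hφ L) := by
  intro y
  obtain ⟨x, rfl⟩ := L.H2π_surjective N y
  -- lift of `x`
  set xt : G × G → P := Function.surjInv hsurj ∘ (x : G × G → N) with hxt
  have hxtLC : L.IsLC₂ xt := LevelSys.IsLC₂.comp x.2.2 _
  have hφxt : (φ ∘ xt : G × G → N) = (x : G × G → N) := by
    funext z
    exact Function.surjInv_eq hsurj _
  -- `c = d xt` has values in `ker φ`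
  have hc : ∀ z, φ ((d₂₃ P).hom xt z) = 0 := by
    intro z
    have h1 := congrFun (push_d₂₃ φ hφ xt) z
    have h2 : (d₂₃ N).hom (x : G × G → N) = 0 := x.2.1
    rw [hφxt, h2] at h1
    exact h1.symm
  set c' : G × G × G → _root_.Fermat.Agent.S55.K.H635.kerRep φ hφ := fun z => ⟨(d₂₃ P).hom xt z, hc z⟩ with hc'
  have hιc' : (_root_.Fermat.Agent.S55.K.H635.kerIncl φ hφ ∘ c' : G × G × G → P) = (d₂₃ P).hom xt := rfl
  have hc'LC : IsLC₃ L c' := by
    obtain ⟨U, hU, h⟩ := d₂₃_isLC₃ hN hP hxtLC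
    exact ⟨U, hU, fun g₁ g₂ g₃ s₁ s₂ s₃ h₁ h₂ h₃ => Subtype.ext (h g₁ g₂ g₃ s₁ s₂ s₃ h₁ h₂ h₃)⟩
  have hdc' : d34 (_root_.Fermat.Agent.S55.K.H635.kerRep φ hφ) c' = 0 := by
    have h3 : (_root_.Fermat.Agent.S55.K.H635.kerIncl φ hφ ∘ d34 (_root_.Fermat.Agent.S55.K.H635.kerRep φ hφ) c' : G × G × G × G → P) = 0 := by
      have h4 := d34_comp (_root_.Fermat.Agent.S55.K.H635.kerIncl φ hφ).toAddMonoidHom (_root_.Fermat.Agent.S55.K.H635.kerIncl_equivariant φ hφ) c'
      have h5 : d34 P (_root_.Fermat.Agent.S55.K.H635.kerIncl φ hφ ∘ c') = 0 := by rw [hιc', d34_d₂₃]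
      exact h4.symm.trans h5
    funext z
    apply _root_.Fermat.Agent.S55.K.H635.kerIncl_injective φ hφ
    rw [Pi.zero_apply, map_zero]
    exact congrFun h3 z
  obtain ⟨b, hb, hdb⟩ := hR c' hc'LC hdc'
  -- the corrected lift
  have hιb : (d₂₃ P).hom (_root_.Fermat.Agent.S55.K.H635.kerIncl φ hφ ∘ b) = (d₂₃ P).hom xt := by
    rw [push_d₂₃ (_root_.Fermat.Agent.S55.K.H635.kerIncl φ hφ) (_root_.Fermat.Agent.S55.K.H635.kerIncl_equivariant φ hφ), hdb, hιc']
  have hy'Z : xt - (_root_.Fermat.Agent.S55.K.H635.kerIncl φ hφ ∘ b : G × G → P) ∈ L.Z2 P := by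
    refine ⟨?_, (L.C2 P).sub_mem hxtLC (LevelSys.IsLC₂.comp hb (_root_.Fermat.Agent.S55.K.H635.kerIncl φ hφ))⟩
    show (d₂₃ P).hom (xt - (_root_.Fermat.Agent.S55.K.H635.kerIncl φ hφ ∘ b : G × G → P)) = 0
    rw [map_sub, hιb, sub_self]
  refine ⟨L.H2π P ⟨_, hy'Z⟩, ?_⟩
  rw [pushH2_mk]
  congr 1
  apply Subtype.ext
  funext z
  show φ (xt z - _root_.Fermat.Agent.S55.K.H635.kerIncl φ hφ (b z)) = (x : G × G → N) z
  rw [map_sub, apply_kerIncl, sub_zero]
  exact congrFun hφxt z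

end Abstract

/-- **K-T1.** -/
theorem surjH2_of (p : ℕ) [Fact p.Prime] (S : Finset Nat.Primes) (h : H3FinSpec p S) :
    SurjH2Spec p S := by
  intro hp2 hpS P N hPfin _ hP _ φ hφ hsurj
  have hN : (globalLevels S).NormalCofinal := globalLevels_normal_cofinal724 S
  have := hPfin
  exact pushH2_surjective_of_h3Vanish hN hP φ hφ hsurj
    (h hp2 hpS (_root_.Fermat.Agent.S55.K.H635.kerRep φ hφ) (kerRep_finiteDimensional φ hφ) (kerRep_isUSmooth φ hφ hP))

end Fermat.Agent.S55.K.H635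

end
end
-- ===== PACK-END S55/K/T1H635.lean

-- ===== PACK-BEGIN S55/PT/FrattiniH424.lean
section





/-!
# S55: local `p`-Frattini finiteness and basic properties of the local levels (helper424)

Stated with `PT/Levels.lean` only (no dependence on any `KL` interface), in unfolded form:

* `localLevels_pFrattini` : for every local level `U` there is a local level `V ≤ U` such that every
  level-constant `χ : G_q → 𝔽_p` which is additive on `U` vanishes on `V`
  (this is literally `KL.PFrattiniFinite (localLevels q) p` of helper53's `KL/Defs.lean`);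
* `localLevels_normalCofinal`, `localLevels_finiteIndex`.
-/

set_option autoImplicit false
set_option linter.unusedSectionVars false
set_option linter.style.haveILetI false

namespace Fermat.Agent.S55.PT.H424

open groupCohomology ExtCitation Fermat.Agent.S55.PT

/-- Kummer level, in terms of `Gal(ℚ̄_q/ℚ_q)` and global levels. -/
theorem padic_pFrattini (p : ℕ) [Fact p.Prime] (q : ℕ) [Fact q.Prime]
    (F : IntermediateField ℚ (AlgebraicClosure ℚ)) [FiniteDimensional ℚ F] :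
    ∃ F₁ : IntermediateField ℚ (AlgebraicClosure ℚ), FiniteDimensional ℚ F₁ ∧ F ≤ F₁ ∧
      ∀ χ : (PadicAlgCl q ≃ₐ[ℚ_[q]] PadicAlgCl q) → ZMod p,
        (∀ s t, localGaloisToGlobal q s ∈ F.fixingSubgroup →
          localGaloisToGlobal q t ∈ F.fixingSubgroup → χ (s * t) = χ s + χ t) →
        IsLevelConstant₁ (localGaloisToGlobal q) χ →
        ∀ s, localGaloisToGlobal q s ∈ F₁.fixingSubgroup → χ s = 0 := by
  obtain ⟨E₀, hE₀, hE₀F⟩ := Bridge.exists_local_level_of_global q F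
  haveI := hE₀
  obtain ⟨E₁, hE₁fin, -, hE₁⟩ :=
    Fermat.Agent.S55.H424.exists_kummer_level_intermediate (k₀ := ℚ_[q]) (Ω := PadicAlgCl q) p
      (Fact.out : p.Prime).ne_zero
      (fun E hE => Fermat.Agent.S55.H424.padic_index_range_pow_ne_zero q E hE p
        (Fact.out : p.Prime).ne_zero) E₀
  haveI := hE₁fin
  obtain ⟨F₁, hF₁, hF₁E⟩ := Bridge.exists_global_level_of_local q E₁
  haveI := hF₁
  refine ⟨F ⊔ F₁, inferInstance, le_sup_left, ?_⟩
  intro χ hadd hlc s hs
  have hs₁ : localGaloisToGlobal q s ∈ F₁.fixingSubgroup :=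
    IntermediateField.fixingSubgroup_le (le_sup_right : F₁ ≤ F ⊔ F₁) hs
  have hχ1 : χ 1 = 0 := by
    have h := hadd 1 1 (by rw [map_one]; exact Subgroup.one_mem _)
      (by rw [map_one]; exact Subgroup.one_mem _)
    rw [mul_one] at h
    exact left_eq_add.1 h
  obtain ⟨E', hE'fin, hE'⟩ := (Bridge.isLevelConstant₁_local_iff q χ).1 hlc
  refine hE₁ χ (fun g hg h hh => hadd g h (hE₀F g hg) (hE₀F h hh)) ⟨E', hE'fin, fun t ht => ?_⟩ s
    (hF₁E s hs₁)
  have := hE' 1 t ht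
  rw [one_mul, hχ1] at this
  exact this

/-- **Local `p`-Frattini finiteness** (`= KL.PFrattiniFinite (localLevels q) p`, unfolded). -/
theorem localLevels_pFrattini (p : ℕ) [Fact p.Prime] (q : Nat.Primes) :
    ∀ U ∈ (localLevels q).levels, ∃ V ∈ (localLevels q).levels, V ≤ U ∧
      ∀ χ : Gl q → ZMod p, (∀ s t : Gl q, s ∈ U → t ∈ U → χ (s * t) = χ s + χ t) →
        (localLevels q).IsLC₁ χ → ∀ s ∈ V, χ s = 0 := by
  letI : Fact (q : ℕ).Prime := ⟨q.2⟩
  rintro U ⟨F, hF, rfl⟩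
  haveI := hF
  obtain ⟨F₁, hF₁, hle, h⟩ := padic_pFrattini p (q : ℕ) F
  refine ⟨_, ⟨F₁, hF₁, rfl⟩, Subgroup.comap_mono (IntermediateField.fixingSubgroup_le hle), ?_⟩
  intro χ hadd hlc s hs
  exact h χ (fun s t hs ht => hadd s t hs ht) ((isLC₁_pullbackLevels_iff (rl q) χ).1 hlc) s hs

/-- Normal local levels are cofinal. -/
theorem localLevels_normalCofinal (q : Nat.Primes) : (localLevels q).NormalCofinal :=
  pullbackLevels_normal_cofinal724 (rl q)

/-- Local levels have finite index. -/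
theorem localLevels_finiteIndex (q : Nat.Primes) : (localLevels q).FiniteIndex := by
  rintro U ⟨F, hF, rfl⟩
  haveI := hF
  haveI : Algebra.IsAlgebraic ℚ (AlgebraicClosure ℚ) := AlgebraicClosure.isAlgebraic ℚ
  haveI : IsAlgClosure ℚ (AlgebraicClosure ℚ) := ⟨inferInstance, inferInstance⟩
  haveI : Normal ℚ (AlgebraicClosure ℚ) := IsAlgClosure.normal ℚ (AlgebraicClosure ℚ)
  exact Fermat.Agent.S55.H424.comap_fixingSubgroup_finiteIndex (rl q) F

/-- Global levels: normal levels are cofinal. -/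
theorem globalLevels_normalCofinal (S : Finset Nat.Primes) : (globalLevels S).NormalCofinal :=
  globalLevels_normal_cofinal724 S

end Fermat.Agent.S55.PT.H424

end
-- ===== PACK-END S55/PT/FrattiniH424.lean

-- ===== PACK-BEGIN S55/G/Rec/Loc/UnifH544/Norm.lean
section




/-!
# S55 / G / REC / LOC, leaf LOC-UNIF (helper544), part 1: the norm of `PadicAlgCl q`

* `norm_galois544`: automorphisms of `ℚ̄_q / ℚ_q` are isometries;
* `norm_coeff_minpoly_le_one544`: `‖x‖ ≤ 1` implies that the minimal polynomial of `x` over `ℚ_q`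
  has coefficients of norm `≤ 1`;
* `norm_le_one_of_eval₂_eq_zero544`: roots of monic polynomials with coefficients of norm `≤ 1`
  have norm `≤ 1` (ultrametric fields);
* `exists_rootOfUnity_near544`: Teichmüller representatives: every `x` of norm `1` is congruent
  modulo the maximal ideal to a root of unity of order prime to `q`;
* `isInertial_of_fixes_roots544`: an automorphism fixing all roots of unity of order prime to `q`
  is inertial.
-/

set_option autoImplicit false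

noncomputable section

namespace Fermat.Agent.S55.G.Rec.Loc.H544

open Polynomial

section Ultra

variable {R L : Type*} [CommRing R] [NormedField L] [IsUltrametricDist L]

/-- Roots of monic polynomials with coefficients of norm `≤ 1` have norm `≤ 1`. -/
theorem norm_le_one_of_eval₂_eq_zero544 (φ : R →+* L) (hφ : ∀ r, ‖φ r‖ ≤ 1) (p : R[X])
    (hp : p.Monic) (x : L) (hx : p.eval₂ φ x = 0) : ‖x‖ ≤ 1 := by
  by_contra hlt
  rw [not_le] at hlt
  have hx0 : 0 < ‖x‖ := lt_trans zero_lt_one hlt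
  rw [eval₂_eq_sum_range, Finset.sum_range_succ, hp.coeff_natDegree, map_one, one_mul] at hx
  have h1 : x ^ p.natDegree = - ∑ i ∈ Finset.range p.natDegree, φ (p.coeff i) * x ^ i :=
    eq_neg_of_add_eq_zero_right hx
  rcases Nat.eq_zero_or_pos p.natDegree with h0 | hpos
  · rw [h0] at h1
    simp at h1
  have h2 : ‖∑ i ∈ Finset.range p.natDegree, φ (p.coeff i) * x ^ i‖ ≤
      ‖x‖ ^ (p.natDegree - 1) := by
    refine IsUltrametricDist.norm_sum_le_of_forall_le_of_nonneg (by positivity) ?_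
    intro i hi
    rw [Finset.mem_range] at hi
    rw [norm_mul, norm_pow]
    calc ‖φ (p.coeff i)‖ * ‖x‖ ^ i ≤ 1 * ‖x‖ ^ i :=
          mul_le_mul_of_nonneg_right (hφ _) (by positivity)
      _ = ‖x‖ ^ i := one_mul _
      _ ≤ ‖x‖ ^ (p.natDegree - 1) := pow_le_pow_right₀ hlt.le (by omega)
  have h3 : ‖x‖ ^ p.natDegree ≤ ‖x‖ ^ (p.natDegree - 1) := by
    rw [← norm_pow, h1, norm_neg]
    exact h2
  have h4 : ‖x‖ ^ (p.natDegree - 1) < ‖x‖ ^ p.natDegree :=
    pow_lt_pow_right₀ hlt (by omega)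
  exact absurd h3 (not_le.2 h4)

end Ultra

variable (q : ℕ) [Fact q.Prime]

local notation "Gq" => (PadicAlgCl q ≃ₐ[ℚ_[q]] PadicAlgCl q)

/-- Automorphisms of `ℚ̄_q / ℚ_q` are isometries. -/
theorem norm_galois544 (τ : Gq) (x : PadicAlgCl q) : ‖τ x‖ = ‖x‖ := by
  rw [← PadicAlgCl.spectralNorm_eq, ← PadicAlgCl.spectralNorm_eq]
  exact (spectralNorm_eq_of_equiv τ x).symm

/-- `‖x‖ ≤ 1` implies that the minimal polynomial of `x` over `ℚ_q` has coefficients of norm
`≤ 1`. -/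
theorem norm_coeff_minpoly_le_one544 {x : PadicAlgCl q} (hx : ‖x‖ ≤ 1) (n : ℕ) :
    ‖(minpoly ℚ_[q] x).coeff n‖ ≤ 1 := by
  have hint : IsIntegral ℚ_[q] x := Algebra.IsIntegral.isIntegral x
  have h : spectralValue (minpoly ℚ_[q] x) ≤ 1 := by
    have h1 : spectralNorm ℚ_[q] (PadicAlgCl q) x = ‖x‖ := PadicAlgCl.spectralNorm_eq q x
    rw [spectralNorm] at h1
    rw [h1]
    exact hx
  exact (spectralValue_le_one_iff (minpoly.monic hint)).1 h n

/-- An ultrametric inequality. -/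
theorem norm_sub_lt_one544 {x y : PadicAlgCl q} (hx : ‖x‖ < 1) (hy : ‖y‖ < 1) : ‖x - y‖ < 1 := by
  rw [sub_eq_add_neg]
  refine lt_of_le_of_lt (IsUltrametricDist.norm_add_le_max _ _) (max_lt hx ?_)
  rwa [norm_neg]

theorem norm_add_lt_one544 {x y : PadicAlgCl q} (hx : ‖x‖ < 1) (hy : ‖y‖ < 1) : ‖x + y‖ < 1 :=
  lt_of_le_of_lt (IsUltrametricDist.norm_add_le_max _ _) (max_lt hx hy)

/-! ### Valuation subrings cut out by a norm -/

section NormVS

variable {F : Type*} [Field F] {L : Type*} [NormedField L] (ι : F →+* L)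
  (A : ValuationSubring F) (hA : ∀ x : F, x ∈ A ↔ ‖ι x‖ ≤ 1)

include hA in
/-- The nonunits of a valuation subring cut out by a norm are the elements of norm `< 1`. -/
theorem mem_nonunits_iff_norm544 (x : F) : x ∈ A.nonunits ↔ ‖ι x‖ < 1 := by
  rw [ValuationSubring.mem_nonunits_iff_or]
  by_cases hx : x = 0
  · subst hx
    simp
  · have hι : ι x ≠ 0 := (map_ne_zero ι).2 hx
    have hpos : 0 < ‖ι x‖ := norm_pos_iff.2 hι
    rw [hA, map_inv₀, norm_inv, not_le]
    constructor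
    · rintro (h | h)
      · exact absurd h hx
      · exact (one_lt_inv₀ hpos).1 h
    · intro h
      exact Or.inr ((one_lt_inv₀ hpos).2 h)

include hA in
theorem mem_maximalIdeal_iff_norm544 (a : A) :
    a ∈ IsLocalRing.maximalIdeal A ↔ ‖ι (a : F)‖ < 1 := by
  rw [← ValuationSubring.coe_mem_nonunits_iff, mem_nonunits_iff_norm544 ι A hA]

end NormVS

/-! ### Teichmüller representatives -/

/-- In an ultrametric normed field, a product of elements of norm `≥ 1` has norm `≥ 1`. -/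
theorem one_le_norm_multiset_prod544 {L : Type*} [NormedField L] (s : Multiset L)
    (h : ∀ a ∈ s, 1 ≤ ‖a‖) : 1 ≤ ‖s.prod‖ := by
  induction s using Multiset.induction_on with
  | empty => simp
  | cons a s ih =>
    rw [Multiset.prod_cons, norm_mul]
    have h1 : 1 ≤ ‖a‖ := h a (Multiset.mem_cons_self a s)
    have h2 : 1 ≤ ‖s.prod‖ := ih fun b hb => h b (Multiset.mem_cons_of_mem hb)
    calc (1 : ℝ) = 1 * 1 := (one_mul 1).symm
      _ ≤ ‖a‖ * ‖s.prod‖ := mul_le_mul h1 h2 zero_le_one (le_trans zero_le_one h1)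

/-- `‖(q : ℚ̄_q)‖ < 1`. -/
theorem norm_prime_lt_one544 : ‖(q : PadicAlgCl q)‖ < 1 := by
  have h1 : ((q : ℚ_[q]) : PadicAlgCl q) = (q : PadicAlgCl q) :=
    map_natCast (algebraMap ℚ_[q] (PadicAlgCl q)) q
  rw [← h1, PadicAlgCl.norm_extends, Padic.norm_p]
  have hq : (1 : ℝ) < q := by exact_mod_cast (Fact.out : q.Prime).one_lt
  exact inv_lt_one_of_one_lt₀ hq

/-- Every element of the unit ball of `ℚ̄_q` is fixed modulo the maximal ideal by a power of the
Frobenius: `x ^ Q ≡ x` with `Q > 1` a power of `q` (the order of the residue field of `ℚ_q(x)`). -/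
theorem exists_pow_card_sub_lt544 (x : PadicAlgCl q) (hx : ‖x‖ ≤ 1) :
    ∃ Q : ℕ, q ∣ Q ∧ 1 < Q ∧ ‖x ^ Q - x‖ < 1 := by
  have hint : IsIntegral ℚ_[q] x := Algebra.IsIntegral.isIntegral x
  set E : IntermediateField ℚ_[q] (PadicAlgCl q) := IntermediateField.adjoin ℚ_[q] {x} with hE
  haveI : FiniteDimensional ℚ_[q] E := IntermediateField.adjoin.finiteDimensional hint
  obtain ⟨A, ⟨hdvr, -, hfin⟩, hmem⟩ := L.exists_ringOfIntegers_eq_unitBall63 q E
  haveI := hfin
  have hA : ∀ y : E, y ∈ A ↔ ‖(algebraMap E (PadicAlgCl q)) y‖ ≤ 1 := hmem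
  letI : Fintype (IsLocalRing.ResidueField A) := Fintype.ofFinite _
  set Q : ℕ := Fintype.card (IsLocalRing.ResidueField A) with hQ
  -- the residue characteristic
  have hq0 : ((q : ℕ) : IsLocalRing.ResidueField A) = 0 := by
    have h1 : ((q : ℕ) : A) ∈ IsLocalRing.maximalIdeal A := by
      rw [mem_maximalIdeal_iff_norm544 _ A hA]
      have : (algebraMap E (PadicAlgCl q)) (((q : ℕ) : A) : E) = (q : PadicAlgCl q) := by
        simp
      rw [this]
      exact norm_prime_lt_one544 q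
    have h2 := (IsLocalRing.residue_eq_zero_iff ((q : ℕ) : A)).2 h1
    rwa [map_natCast] at h2
  haveI : CharP (IsLocalRing.ResidueField A) q :=
    (CharP.charP_iff_prime_eq_zero (Fact.out : q.Prime)).2 hq0
  obtain ⟨n, -, hn⟩ := FiniteField.card (IsLocalRing.ResidueField A) q
  have hqQ : q ∣ Q := by
    rw [hQ, hn]
    exact dvd_pow_self q n.ne_zero
  have hQ1 : 1 < Q := Fintype.one_lt_card
  refine ⟨Q, hqQ, hQ1, ?_⟩
  -- the element
  let x' : E := ⟨x, IntermediateField.subset_adjoin ℚ_[q] {x} rfl⟩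
  have hx' : x' ∈ A := (hmem x').2 hx
  let xA : A := ⟨x', hx'⟩
  have h1 : IsLocalRing.residue A (xA ^ Q - xA) = 0 := by
    rw [map_sub, map_pow, hQ, FiniteField.pow_card, sub_self]
  have h2 := (IsLocalRing.residue_eq_zero_iff _).1 h1
  rw [mem_maximalIdeal_iff_norm544 _ A hA] at h2
  exact h2

/-- **Teichmüller representatives.**  Every `x` of norm `1` is congruent modulo the maximal ideal
to a root of unity of order prime to `q`. -/
theorem exists_rootOfUnity_near544 (x : PadicAlgCl q) (hx : ‖x‖ = 1) :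
    ∃ (r : ℕ) (ζ : PadicAlgCl q), ¬ q ∣ r ∧ ζ ^ r = 1 ∧ ‖x - ζ‖ < 1 := by
  obtain ⟨Q, hqQ, hQ1, hlt⟩ := exists_pow_card_sub_lt544 q x hx.le
  have hq2 : 2 ≤ q := (Fact.out : q.Prime).two_le
  have hr : ¬ q ∣ Q - 1 := by
    intro h
    have h1 : q ∣ Q - (Q - 1) := Nat.dvd_sub hqQ h
    have h2 : Q - (Q - 1) = 1 := by omega
    rw [h2, Nat.dvd_one] at h1
    omega
  have hr0 : Q - 1 ≠ 0 := by omega
  have hfac : x ^ Q - x = x * (x ^ (Q - 1) - 1) := by
    have : Q = (Q - 1) + 1 := by omega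
    conv_lhs => rw [this, pow_succ]
    ring
  rw [hfac, norm_mul, hx, one_mul] at hlt
  -- factor `X ^ r - 1`
  set P : (PadicAlgCl q)[X] := X ^ (Q - 1) - 1 with hP
  have hPm : P.Monic := monic_X_pow_sub_C 1 hr0
  have hsplit : P.Splits := IsAlgClosed.splits P
  have heval : P.eval x = (P.roots.map fun a => x - a).prod :=
    hsplit.eval_eq_prod_roots_of_monic hPm x
  have hev : P.eval x = x ^ (Q - 1) - 1 := by simp [hP]
  rw [hev] at heval
  by_contra hcon
  have hall : ∀ a ∈ P.roots.map fun a => x - a, 1 ≤ ‖a‖ := by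
    intro a ha
    rw [Multiset.mem_map] at ha
    obtain ⟨ζ, hζ, rfl⟩ := ha
    by_contra hlt'
    rw [not_le] at hlt'
    apply hcon
    refine ⟨Q - 1, ζ, hr, ?_, hlt'⟩
    have h0 := (mem_roots hPm.ne_zero).1 hζ
    rw [IsRoot.def, hP] at h0
    simp only [eval_sub, eval_pow, eval_X, eval_one] at h0
    exact sub_eq_zero.1 h0
  have := one_le_norm_multiset_prod544 _ hall
  rw [← heval] at this
  exact absurd hlt (not_lt.2 this)

/-- An automorphism fixing all roots of unity of order prime to `q` is inertial. -/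
theorem isInertial_of_fixes_roots544 (τ : Gq)
    (hτ : ∀ (r : ℕ) (ζ : PadicAlgCl q), ¬ q ∣ r → ζ ^ r = 1 → τ ζ = ζ) : IsInertial q τ := by
  intro x hx
  rcases lt_or_eq_of_le hx with hlt | heq
  · exact norm_sub_lt_one544 q (by rwa [norm_galois544]) hlt
  · obtain ⟨r, ζ, hr, hζ, hnear⟩ := exists_rootOfUnity_near544 q x heq
    have e : τ x - x = τ (x - ζ) - (x - ζ) := by
      rw [map_sub, hτ r ζ hr hζ]
      ring
    rw [e]
    exact norm_sub_lt_one544 q (by rwa [norm_galois544]) hnear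

/-- Inertial automorphisms fix the roots of unity of order prime to `q`. -/
theorem fixes_roots_of_isInertial544 (τ : Gq) (hτ : IsInertial q τ) (r : ℕ) (ζ : PadicAlgCl q)
    (hr : ¬ q ∣ r) (hζ : ζ ^ r = 1) : τ ζ = ζ :=
  (H533.cycloFrob533 q r hr).1 τ hτ ζ hζ

end Fermat.Agent.S55.G.Rec.Loc.H544

end
end
-- ===== PACK-END S55/G/Rec/Loc/UnifH544/Norm.lean

-- ===== PACK-BEGIN S55/L/UnrInv/Inertia775.lean
section





/-!
# S55, layer L, leaves UI-INT and UI-INERTIA (helper775)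

* `integersComap775 : UnrInv.IntegersComapSpec` (`B ∩ K = A`);
* `unramifiedInertia775 : UnrInv.UnramifiedInertiaSpec` (the inertia group of an unramified
  extension is trivial);
* `mem_iff_isIntegral775`: the ring of integers of a finite extension is the integral closure.

Route: uniqueness of the ring of integers (`ringOfIntegersUnique775`), the integral closure is a
ring of integers (`exists_ringOfIntegers_eq_integralClosure286`), and
`Local.H775.card_inertia_inf_eq` (Mathlib `Ideal.card_inertia_eq_ramificationIdxIn`).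
-/

set_option autoImplicit false
set_option linter.unusedSectionVars false
set_option linter.style.haveILetI false

namespace Fermat.Agent.S55.L.UnrInv

open Fermat.Agent.S55.L IsLocalRing

section Generic

variable {K L : Type} [Field K] [Field L] [Algebra K L] [FiniteDimensional K L] [IsLocalFld K]

/-- The ring of integers of a finite extension is the integral closure of the ring of integers of
the base field, and it meets the base field in the ring of integers of the base field. -/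
theorem mem_iff_isIntegral775 (A : ValuationSubring K) (B : ValuationSubring L)
    (hA : IsLocalRingOfIntegers A) (hB : IsLocalRingOfIntegers B)
    [Algebra A L] [IsScalarTower A K L] :
    (∀ x : L, x ∈ B ↔ IsIntegral A x) ∧ (∀ x : K, algebraMap K L x ∈ B ↔ x ∈ A) := by
  haveI : CharZero K := IsLocalFld.charZero
  haveI : IsLocalFld L := finiteExt286 K L
  obtain ⟨B₁, hB₁, h1, h2⟩ := exists_ringOfIntegers_eq_integralClosure286 (K := K) (L := L) A hA
  have hBB : B = B₁ := ringOfIntegersUnique775 L B B₁ hB hB₁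
  subst hBB
  exact ⟨h1, h2⟩

end Generic

/-- **UI-INT** -/
theorem integersComap775 : IntegersComapSpec := by
  intro K L _ _ _ _ _ A B hA hB x
  letI : Algebra A L := ((algebraMap K L).comp (algebraMap A K)).toAlgebra
  haveI : IsScalarTower A K L := IsScalarTower.of_algebraMap_eq (fun _ => rfl)
  exact (mem_iff_isIntegral775 A B hA hB).2 x

/-- **UI-INERTIA** -/
theorem unramifiedInertia775 : UnramifiedInertiaSpec := by
  intro K E _ _ _ _ hK hU B hB g hg
  obtain ⟨A₀, B₀, π, hA₀, hB₀, hπA, hπB⟩ := hU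
  haveI : CharZero K := IsLocalFld.charZero
  haveI : IsLocalFld E := finiteExt286 K E
  have hBB : B₀ = B := ringOfIntegersUnique775 E B₀ B hB₀ hB
  subst hBB
  letI : Algebra A₀ E := ((algebraMap K E).comp (algebraMap A₀ K)).toAlgebra
  haveI : IsScalarTower A₀ K E := IsScalarTower.of_algebraMap_eq (fun _ => rfl)
  obtain ⟨hmem, -⟩ := mem_iff_isIntegral775 A₀ B₀ hA₀ hB₀
  -- the integral closure as a ring
  obtain ⟨hloc, hdvr, hcomp, hfin⟩ :=
    isLocalRingOfIntegers_integralClosure286 (K := K) (L := E) A₀ hA₀ (integralClosure A₀ E)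
  haveI := hdvr
  haveI : Finite (ResidueField (integralClosure A₀ E)) := hfin
  haveI := hA₀.1
  haveI : Module.Finite A₀ (integralClosure A₀ E) :=
    IsIntegralClosure.finite A₀ K E (integralClosure A₀ E)
  haveI : IsFractionRing (integralClosure A₀ E) E :=
    IsIntegralClosure.isFractionRing_of_finite_extension A₀ K E _
  haveI : SMulCommClass (E ≃ₐ[K] E) A₀ E := by
    refine ⟨fun σ a x => ?_⟩
    rw [Algebra.smul_def, Algebra.smul_def, AlgEquiv.smul_def, AlgEquiv.smul_def, map_mul]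
    congr 1
    show σ (algebraMap K E (algebraMap A₀ K a)) = algebraMap K E (algebraMap A₀ K a)
    exact σ.commutes _
  haveI : FaithfulSMul (E ≃ₐ[K] E) (integralClosure A₀ E) := by
    refine ⟨fun {σ τ} h => ?_⟩
    apply AlgEquiv.ext
    intro x
    obtain ⟨a, b, hb, rfl⟩ := IsFractionRing.div_surjective (A := integralClosure A₀ E) x
    have ha' : σ (a : E) = τ (a : E) :=
      congrArg (fun t : integralClosure A₀ E => (t : E)) (h a)
    have hb' : σ (b : E) = τ (b : E) :=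
      congrArg (fun t : integralClosure A₀ E => (t : E)) (h b)
    have e1 : algebraMap (integralClosure A₀ E) E a = (a : E) := rfl
    have e2 : algebraMap (integralClosure A₀ E) E b = (b : E) := rfl
    rw [e1, e2, map_div₀, map_div₀, ha', hb']
  -- the uniformizer
  obtain ⟨hπmem, hπirr⟩ := hπB
  have hπint : algebraMap K E π ∈ integralClosure A₀ E := (hmem _).mp hπmem
  set r : integralClosure A₀ E := ⟨algebraMap K E π, hπint⟩ with hr
  have hrirr : Irreducible r := by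
    -- transport irreducibility along the identification of `B₀` with the integral closure
    let e : B₀ ≃+* integralClosure A₀ E :=
      { toFun := fun x => ⟨x, (hmem _).mp x.2⟩
        invFun := fun x => ⟨x, (hmem _).mpr x.2⟩
        left_inv := fun _ => rfl
        right_inv := fun _ => rfl
        map_mul' := fun _ _ => rfl
        map_add' := fun _ _ => rfl }
    have : r = e ⟨algebraMap K E π, hπmem⟩ := rfl
    rw [this]
    exact (MulEquiv.irreducible_iff e.toMulEquiv).mpr hπirr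
  have hmax : maximalIdeal (integralClosure A₀ E) = Ideal.span {r} := hrirr.maximalIdeal_eq
  have hcard := Local.H775.card_inertia_inf_eq (A := A₀) (S := integralClosure A₀ E)
    (G := E ≃ₐ[K] E) (Subgroup.zpowers g) 1 (fun r _ hr => by simpa using hr) ⟨r, ?_, ?_, ?_⟩
  · -- `g` lies in the inertia group
    have hgin : g ∈ (maximalIdeal (integralClosure A₀ E)).inertia (E ≃ₐ[K] E) ⊓
        Subgroup.zpowers g := by
      refine ⟨fun s => ?_, Subgroup.mem_zpowers g⟩
      show g • s - s ∈ maximalIdeal (integralClosure A₀ E)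
      rw [mem_maximalIdeal, mem_nonunits_iff]
      intro hu
      have hsB : (s : E) ∈ B₀ := (hmem _).mpr s.2
      obtain ⟨ha, hmaxB⟩ :=
        ValuationSubring.mem_nonunits_iff_exists_mem_maximalIdeal.mp (hg (s : E) hsB)
      rw [mem_maximalIdeal, mem_nonunits_iff] at hmaxB
      apply hmaxB
      obtain ⟨t, ht⟩ := isUnit_iff_exists_inv.mp hu
      refine isUnit_iff_exists_inv.mpr ⟨⟨(t : E), (hmem _).mpr t.2⟩, Subtype.ext ?_⟩
      have := congrArg (fun z : integralClosure A₀ E => (z : E)) ht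
      simpa using this
    have hbot : (maximalIdeal (integralClosure A₀ E)).inertia (E ≃ₐ[K] E) ⊓
        Subgroup.zpowers g = ⊥ := Subgroup.card_eq_one.mp hcard
    rw [hbot, Subgroup.mem_bot] at hgin
    exact hgin
  · intro σ _
    apply Subtype.ext
    show σ (algebraMap K E π) = algebraMap K E π
    exact σ.commutes π
  · rw [hmax]
    exact Ideal.mem_span_singleton_self r
  · rw [hmax, Ideal.span_singleton_pow, Ideal.mem_span_singleton]
    rintro ⟨c, hc⟩
    have h0 : r ≠ 0 := hrirr.ne_zero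
    have h1 : r * (r * c) = r * 1 := by
      rw [mul_one, ← mul_assoc, ← pow_two]
      exact hc.symm
    have h2 : r * c = 1 := mul_left_cancel₀ h0 h1
    exact hrirr.not_isUnit (isUnit_iff_exists_inv.mpr ⟨c, h2⟩)

end Fermat.Agent.S55.L.UnrInv

end
-- ===== PACK-END S55/L/UnrInv/Inertia775.lean

-- ===== PACK-BEGIN S55/L/Inv481/Transport.lean
section


/-!
# S55 / layer L / leaf L-C2 (helper481): transport of local-field structure along isomorphisms

`IsLocalRingOfIntegers`, `IsUniformizer`, `IsUnramifiedExt` are invariant under compatible ring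
isomorphisms.
-/

set_option autoImplicit false
set_option linter.style.haveILetI false

namespace Fermat.Agent.S55.L.Inv481

section Transport

variable {K K' : Type} [Field K] [Field K']

/-- the ring isomorphism between the preimage of a valuation subring under a ring isomorphism
and the valuation subring -/
noncomputable def comapEquiv (e : K' ≃+* K) (A : ValuationSubring K) :
    A.comap (e : K' →+* K) ≃+* A where
  toFun x := ⟨e x, x.2⟩
  invFun y := ⟨e.symm y, by
    rw [ValuationSubring.mem_comap]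
    change e (e.symm y) ∈ A
    rw [e.apply_symm_apply]
    exact y.2⟩
  left_inv x := Subtype.ext (e.symm_apply_apply _)
  right_inv y := Subtype.ext (e.apply_symm_apply _)
  map_mul' x y := Subtype.ext (map_mul e _ _)
  map_add' x y := Subtype.ext (map_add e _ _)

@[simp] theorem comapEquiv_apply_coe (e : K' ≃+* K) (A : ValuationSubring K)
    (x : A.comap (e : K' →+* K)) : ((comapEquiv e A x : A) : K) = e x := rfl

theorem isLocalRingOfIntegers_comap (e : K' ≃+* K) {A : ValuationSubring K}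
    (hA : IsLocalRingOfIntegers A) : IsLocalRingOfIntegers (A.comap (e : K' →+* K)) := by
  obtain ⟨h1, h2, h3⟩ := hA
  have hdvr : IsDiscreteValuationRing (A.comap (e : K' →+* K)) :=
    IsDiscreteValuationRing.RingEquivClass.isDiscreteValuationRing (comapEquiv e A).symm
  refine ⟨hdvr, ?_, ?_⟩
  · have hmap : (IsLocalRing.maximalIdeal A).map ((comapEquiv e A).symm) =
        IsLocalRing.maximalIdeal (A.comap (e : K' →+* K)) :=
      IsLocalRing.map_ringEquiv_maximalIdeal _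
    rw [← hmap]
    exact (IsAdicComplete.congr_ringEquiv (IsLocalRing.maximalIdeal A)
      (comapEquiv e A).symm).mpr h2
  · exact Finite.of_equiv _ (IsLocalRing.ResidueField.mapEquiv (comapEquiv e A).symm).toEquiv

theorem isUniformizer_comap (e : K' ≃+* K) {A : ValuationSubring K} {π : K}
    (hπ : IsUniformizer A π) : IsUniformizer (A.comap (e : K' →+* K)) (e.symm π) := by
  obtain ⟨h, hirr⟩ := hπ
  have hmem : e.symm π ∈ A.comap (e : K' →+* K) := by
    rw [ValuationSubring.mem_comap]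
    change e (e.symm π) ∈ A
    rw [e.apply_symm_apply]
    exact h
  refine ⟨hmem, ?_⟩
  have : (comapEquiv e A) ⟨e.symm π, hmem⟩ = ⟨π, h⟩ := Subtype.ext (e.apply_symm_apply π)
  rw [← MulEquiv.irreducible_iff (comapEquiv e A).toMulEquiv]
  change Irreducible ((comapEquiv e A) ⟨e.symm π, hmem⟩)
  rw [this]
  exact hirr

end Transport

section UnrTransport

variable {K E K' E' : Type} [Field K] [Field E] [Algebra K E] [Field K'] [Field E']
  [Algebra K' E']

/-- `IsUnramifiedExt` is invariant under compatible isomorphisms. -/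
theorem isUnramifiedExt_of_equiv (e₀ : K ≃+* K') (e : E ≃+* E')
    (h : ∀ x, e (algebraMap K E x) = algebraMap K' E' (e₀ x)) (hu : IsUnramifiedExt K E) :
    IsUnramifiedExt K' E' := by
  obtain ⟨A, B, π, hA, hB, hπA, hπB⟩ := hu
  refine ⟨A.comap (e₀.symm : K' →+* K), B.comap (e.symm : E' →+* E), e₀ π,
    isLocalRingOfIntegers_comap e₀.symm hA, isLocalRingOfIntegers_comap e.symm hB, ?_, ?_⟩
  · have := isUniformizer_comap e₀.symm hπA
    simpa using this
  · have := isUniformizer_comap e.symm hπB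
    rw [← h]
    simpa using this

/-- `IsUnramifiedExt` is invariant under `K`-algebra isomorphisms of the top field. -/
theorem isUnramifiedExt_of_algEquiv {K E E' : Type} [Field K] [Field E] [Algebra K E]
    [Field E'] [Algebra K E'] (e : E ≃ₐ[K] E') (hu : IsUnramifiedExt K E) :
    IsUnramifiedExt K E' :=
  isUnramifiedExt_of_equiv (RingEquiv.refl K) e.toRingEquiv (fun x => e.commutes x) hu

end UnrTransport

end Fermat.Agent.S55.L.Inv481

end
-- ===== PACK-END S55/L/Inv481/Transport.lean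

-- ===== PACK-BEGIN S55/L/Unr534/Main.lean
section


/-!
# S55, layer L, unramified extensions (helper534): nesting and base change

Inputs of leaf L-C2 (`InvSpec`, helper481, `L/Inv481/Inputs.lean`):

* `unrNest534 : RingOfIntegersUniqueSpec → UnrNestSpec` (statement unfolded);
* `unrBC534   : RingOfIntegersUniqueSpec → UnrBCSpec`   (statement unfolded).

Both follow from the characterisation: `E / K` is unramified iff `E = K(ζ)` for a root of unity
`ζ` of order prime to the residue characteristic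
(`exists_root_of_isUnramifiedExt534`, `isUnramifiedExt_of_root534`).
-/

set_option autoImplicit false
set_option linter.style.haveILetI false
set_option linter.unusedSectionVars false

namespace Fermat.Agent.S55.L.Unr534

open IsLocalRing Polynomial IntermediateField

/-- An unramified extension of degree `n` is generated by a primitive `(Q ^ n - 1)`-th root of
unity, `Q` the cardinality of the residue field of `K`. -/
theorem exists_root_of_isUnramifiedExt534 (h0 : RingOfIntegersUniqueSpec)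
    {K : Type} [Field K] [IsLocalFld K] (A : ValuationSubring K) (hA : IsLocalRingOfIntegers A)
    (E : Type) [Field E] [Algebra K E] [FiniteDimensional K E] (hE : IsUnramifiedExt K E) :
    haveI := hA.1
    ∃ ζ : E, IsPrimitiveRoot ζ (Nat.card (ResidueField A) ^ Module.finrank K E - 1) ∧
      IntermediateField.adjoin K {ζ} = ⊤ := by
  haveI := IsLocalFld.charZero (K := K)
  haveI := hA.1
  haveI := hA.2.1
  haveI := hA.2.2
  obtain ⟨A₁, B, π, hA₁, hB, hπ, hπ'⟩ := hE
  have hAA : A₁ = A := h0 K A₁ A hA₁ hA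
  subst hAA
  have hBB : B = intVS534 A₁ E hA := eq_intVS534 A₁ E h0 hA B hB
  subst hBB
  have hunr := (isUniformizer_intVS_iff534 A₁ E hA π hπ).mp hπ'
  exact exists_primitiveRoot_of_unram534 A₁ K E hunr

/-- `K(ζ) / K` is unramified for a root of unity `ζ` of order prime to the residue
characteristic. -/
theorem isUnramifiedExt_of_root534
    {K : Type} [Field K] [IsLocalFld K] (A : ValuationSubring K) (hA : IsLocalRingOfIntegers A)
    (E : Type) [Field E] [Algebra K E] [FiniteDimensional K E] (ζ : E) (m : ℕ)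
    (hm : IsUnit ((m : ℕ) : A)) (hζ : ζ ^ m = 1) (htop : IntermediateField.adjoin K {ζ} = ⊤) :
    IsUnramifiedExt K E := by
  haveI := IsLocalFld.charZero (K := K)
  haveI := hA.1
  haveI := hA.2.1
  haveI := hA.2.2
  obtain ⟨π, hπ⟩ := exists_isUniformizer534 A hA
  exact ⟨A, intVS534 A E hA, π, hA, isLocalRingOfIntegers_intVS534 A E hA, hπ,
    (isUniformizer_intVS_iff534 A E hA π hπ).mpr (unram_of_adjoin_root534 A K E ζ m hm hζ htop)⟩

/-- The image in `M` of a generator of an intermediate field generates it. -/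
theorem eq_adjoin_of_adjoin_eq_top534 {K M : Type} [Field K] [Field M] [Algebra K M]
    (E : IntermediateField K M) (ζ : E) (htop : IntermediateField.adjoin K {ζ} = ⊤) :
    E = K⟮(ζ : M)⟯ := by
  have h := congrArg (IntermediateField.map E.val) htop
  rw [IntermediateField.adjoin_map, Set.image_singleton, ← AlgHom.fieldRange_eq_map,
    IntermediateField.fieldRange_val] at h
  exact h.symm

/-- The generator of a simple extension generates it. -/
theorem adjoin_gen_eq_top534 {K M : Type} [Field K] [Field M] [Algebra K M] (z : M) :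
    IntermediateField.adjoin K {(⟨z, mem_adjoin_simple_self K z⟩ : K⟮z⟯)} = ⊤ := by
  apply IntermediateField.map_injective (K⟮z⟯).val
  rw [IntermediateField.adjoin_map, Set.image_singleton, ← AlgHom.fieldRange_eq_map,
    IntermediateField.fieldRange_val]
  rfl

theorem one_le_pow_sub_one534 {Q n : ℕ} (hQ : 2 ≤ Q) (hn : 0 < n) : 1 ≤ Q ^ n - 1 := by
  have h1 : Q ^ 1 ≤ Q ^ n := Nat.pow_le_pow_right (by omega) hn
  rw [pow_one] at h1
  omega

/-- **UnrNestSpec** (statement unfolded), assuming uniqueness of the ring of integers. -/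
theorem unrNest534 (h0 : RingOfIntegersUniqueSpec) :
    ∀ (K M : Type) [Field K] [Field M] [Algebra K M] [FiniteDimensional K M] [IsLocalFld K]
      (E₁ E₂ : IntermediateField K M), IsUnramifiedExt K E₁ → IsUnramifiedExt K E₂ →
        Module.finrank K E₁ ∣ Module.finrank K E₂ → E₁ ≤ E₂ := by
  intro K M _ _ _ _ hK E₁ E₂ h1 h2 hdvd
  obtain ⟨A, hA⟩ := hK.exists_ringOfIntegers
  haveI := hA.1
  haveI := hA.2.1
  haveI := hA.2.2
  obtain ⟨ζ₁, hζ₁, htop₁⟩ := exists_root_of_isUnramifiedExt534 h0 A hA E₁ h1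
  obtain ⟨ζ₂, hζ₂, -⟩ := exists_root_of_isUnramifiedExt534 h0 A hA E₂ h2
  set Q := Nat.card (ResidueField A) with hQ
  have hQ2 : 2 ≤ Q := two_le_card_residue534 A
  have hn₂ : 0 < Module.finrank K E₂ := Module.finrank_pos
  have hm₂ : 1 ≤ Q ^ Module.finrank K E₂ - 1 := one_le_pow_sub_one534 hQ2 hn₂
  haveI : NeZero (Q ^ Module.finrank K E₂ - 1) := ⟨by omega⟩
  have hmdvd : (Q ^ Module.finrank K E₁ - 1) ∣ (Q ^ Module.finrank K E₂ - 1) := by
    obtain ⟨k, hk⟩ := hdvd
    rw [hk, pow_mul]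
    exact Nat.sub_one_dvd_pow_sub_one _ _
  have hζ₁M : ((ζ₁ : E₁) : M) ^ (Q ^ Module.finrank K E₂ - 1) = 1 := by
    obtain ⟨k, hk⟩ := hmdvd
    rw [hk, pow_mul]
    have := congrArg (fun x : E₁ => (x : M)) hζ₁.pow_eq_one
    simp only [SubmonoidClass.coe_pow, OneMemClass.coe_one] at this
    rw [this, one_pow]
  have hζ₂M : IsPrimitiveRoot ((ζ₂ : E₂) : M) (Q ^ Module.finrank K E₂ - 1) :=
    hζ₂.map_of_injective (f := E₂.val) E₂.val.injective
  obtain ⟨i, -, hi⟩ := hζ₂M.eq_pow_of_pow_eq_one hζ₁M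
  have hmem : ((ζ₁ : E₁) : M) ∈ E₂ := by
    rw [← hi]
    exact pow_mem ζ₂.2 i
  rw [eq_adjoin_of_adjoin_eq_top534 E₁ ζ₁ htop₁]
  exact IntermediateField.adjoin_simple_le_iff.mpr hmem

/-- `Q ^ n - 1` is a unit of a local ring with residue field of cardinality `Q`. -/
theorem isUnit_card_pow_sub_one534 (R : Type) [CommRing R] [IsLocalRing R]
    [IsAdicComplete (maximalIdeal R) R] [Finite (ResidueField R)] {n : ℕ} (hn : 0 < n) :
    IsUnit (((Nat.card (ResidueField R) ^ n - 1 : ℕ) : ℕ) : R) := by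
  rw [← notMem_maximalIdeal, ← residue_eq_zero_iff, map_natCast]
  have h1 : 1 ≤ Nat.card (ResidueField R) ^ n := Nat.one_le_pow _ _ Nat.card_pos
  rw [Nat.cast_sub h1, Nat.cast_pow, card_residue_cast534 R, zero_pow hn.ne']
  simp

/-- A natural number which is a unit in the ring of integers of `K` is a unit in the ring of
integers of any finite extension `K'`. -/
theorem isUnit_natCast_ext534 (h0 : RingOfIntegersUniqueSpec)
    {K : Type} [Field K] [CharZero K] (A : ValuationSubring K) (hA : IsLocalRingOfIntegers A)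
    (K' : Type) [Field K'] [Algebra K K'] [FiniteDimensional K K']
    (A' : ValuationSubring K') (hA' : IsLocalRingOfIntegers A') (m : ℕ)
    (hm : IsUnit ((m : ℕ) : A)) : IsUnit ((m : ℕ) : A') := by
  haveI := hA.1
  haveI := hA.2.1
  haveI := hA.2.2
  have hAA : A' = intVS534 A K' hA := eq_intVS534 A K' h0 hA A' hA'
  subst hAA
  have h1 : IsUnit ((m : ℕ) : OE A K') := by
    have := hm.map (algebraMap A (OE A K'))
    rwa [map_natCast] at this
  have h2 := h1.map (equivVS534 A K' hA).symm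
  rwa [map_natCast] at h2

/-- **UnrBCSpec** (statement unfolded), assuming uniqueness of the ring of integers. -/
theorem unrBC534 (h0 : RingOfIntegersUniqueSpec) :
    ∀ (K K' M : Type) [Field K] [Field K'] [Field M] [Algebra K K'] [Algebra K M] [Algebra K' M]
      [IsScalarTower K K' M] [FiniteDimensional K M] [IsLocalFld K] [IsLocalFld K']
      (E : IntermediateField K M), IsUnramifiedExt K E →
        ∃ E' : IntermediateField K' M, IsUnramifiedExt K' E' ∧ ∀ x : M, x ∈ E → x ∈ E' := by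
  intro K K' M _ _ _ _ _ _ _ _ hK hK' E hE
  obtain ⟨A, hA⟩ := hK.exists_ringOfIntegers
  obtain ⟨A', hA'⟩ := hK'.exists_ringOfIntegers
  haveI := hK.charZero
  haveI := hA.1
  haveI := hA.2.1
  haveI := hA.2.2
  haveI : FiniteDimensional K K' := FiniteDimensional.left K K' M
  haveI : FiniteDimensional K' M := FiniteDimensional.right K K' M
  obtain ⟨ζ, hζ, htop⟩ := exists_root_of_isUnramifiedExt534 h0 A hA E hE
  set m := Nat.card (ResidueField A) ^ Module.finrank K E - 1 with hm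
  have hn : 0 < Module.finrank K E := Module.finrank_pos
  have hmA : IsUnit ((m : ℕ) : A) := isUnit_card_pow_sub_one534 A hn
  have hmA' : IsUnit ((m : ℕ) : A') := isUnit_natCast_ext534 h0 A hA K' A' hA' m hmA
  have hζM : ((ζ : E) : M) ^ m = 1 := by
    have := congrArg (fun x : E => (x : M)) hζ.pow_eq_one
    simpa using this
  refine ⟨K'⟮((ζ : E) : M)⟯, ?_, fun x hx => ?_⟩
  · refine isUnramifiedExt_of_root534 A' hA' (K'⟮((ζ : E) : M)⟯)
      ⟨((ζ : E) : M), mem_adjoin_simple_self K' _⟩ m hmA' (Subtype.ext ?_)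
      (adjoin_gen_eq_top534 _)
    simpa using hζM
  · rw [eq_adjoin_of_adjoin_eq_top534 E ζ htop] at hx
    have hle : K⟮((ζ : E) : M)⟯ ≤ (K'⟮((ζ : E) : M)⟯).restrictScalars K :=
      IntermediateField.adjoin_simple_le_iff.mpr (mem_adjoin_simple_self K' _)
    exact hle hx

end Fermat.Agent.S55.L.Unr534

end
-- ===== PACK-END S55/L/Unr534/Main.lean

-- ===== PACK-BEGIN S55/E1/H603/FinLevelH2.lean
section
/-
S55 / engine E1 / block LIM, B-part of LIM5 (helper603): the Prelude `continuousH2S S A` and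
`sha₂ S A` as elementwise colimits of the finite-level groups `H²(Gal(F/ℚ), A^{U_F})`.

* `H2desc` : descend a linear map from 2-cocycles to `H2`;
* `infl₂ A L : H2 (coeff A L) →ₗ[K] continuousH2S S A`, `tr₂ A h : H2 (coeff A L) →ₗ[K] H2 (coeff A L')`;
* `infl₂_tr₂` (compat), `exists_infl₂_eq` (surj), `exists_tr₂_eq_zero` (sep)
  = the three fields of `E1.AddSys.IsColim` (helper474, `E1/LimAbs.lean`).

Mathlib + Prelude + `Spec/Tower.lean` + `Bridge/Cochain.lean`.  No sorry.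
-/


set_option autoImplicit false

namespace Fermat.Agent.S55.E1.H603

open groupCohomology CategoryTheory ExtCitation Fermat.Agent.S55.Tow

noncomputable section

/-! ### Descending maps from cocycles to `H²` -/

section Desc

variable {k G : Type} [CommRing k] [Group G] (A : Rep.{0, 0, 0} k G)

theorem H2π_surjective : Function.Surjective (H2π A).hom :=
  (ModuleCat.epi_iff_surjective (H2π A)).1 inferInstance

theorem ker_H2π_le {X : Type} [AddCommGroup X] [Module k X] (φ : cocycles₂ A →ₗ[k] X)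
    (h : ∀ c : cocycles₂ A, (c : G × G → A) ∈ coboundaries₂ A → φ c = 0) :
    LinearMap.ker (H2π A).hom ≤ LinearMap.ker φ := fun c hc =>
  LinearMap.mem_ker.2 (h c ((H2π_eq_zero_iff c).1 (LinearMap.mem_ker.1 hc)))

/-- A linear map on 2-cocycles killing the coboundaries descends to `H²`. -/
def H2desc {X : Type} [AddCommGroup X] [Module k X] (φ : cocycles₂ A →ₗ[k] X)
    (h : ∀ c : cocycles₂ A, (c : G × G → A) ∈ coboundaries₂ A → φ c = 0) : H2 A →ₗ[k] X :=
  ((LinearMap.ker (H2π A).hom).liftQ φ (ker_H2π_le A φ h)) ∘ₗ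
    ((H2π A).hom.quotKerEquivOfSurjective (H2π_surjective A)).symm.toLinearMap

theorem H2desc_mk {X : Type} [AddCommGroup X] [Module k X] (φ : cocycles₂ A →ₗ[k] X)
    (h : ∀ c : cocycles₂ A, (c : G × G → A) ∈ coboundaries₂ A → φ c = 0) (c : cocycles₂ A) :
    H2desc A φ h ((H2π A).hom c) = φ c := by
  have : ((H2π A).hom.quotKerEquivOfSurjective (H2π_surjective A)).symm ((H2π A).hom c)
      = Submodule.Quotient.mk c := by
    rw [LinearEquiv.symm_apply_eq]
    rfl
  simp only [H2desc, LinearMap.comp_apply, LinearEquiv.coe_coe, this, Submodule.liftQ_apply]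

end Desc

variable {S : Finset Nat.Primes} {K : Type} [Field K] (A : Rep.{0, 0, 0} K GQ)

/-! ### Inflation to the Prelude `continuousH2S` -/

/-- inflation of 2-cocycles -/
def inflCoc₂ (L : Level S) : cocycles₂ (coeff A L) →ₗ[K] cocycles₂ A :=
  (mapCocycles₂ (QuotientGroup.mk' L.U) (liftHom A L)).hom

@[simp] theorem inflCoc₂_apply (L : Level S) (c : cocycles₂ (coeff A L)) (g h : GQ) :
    inflCoc₂ A L c (g, h) = ((c (QuotientGroup.mk g, QuotientGroup.mk h) : coeff A L) : A) := rfl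

theorem mk_mul_of_mem (L : Level S) (g s : GQ) (hs : s ∈ L.U) :
    (QuotientGroup.mk (g * s) : L.Gal) = QuotientGroup.mk g := by
  rw [QuotientGroup.eq]
  simpa using (L.U).inv_mem hs

theorem isConstMod₂_inflCoc₂ (L : Level S) (c : cocycles₂ (coeff A L)) :
    Fermat.Agent.S55.Bridge.IsConstMod₂ L.U (inflCoc₂ A L c) := by
  intro g g' s s' hs hs'
  rw [inflCoc₂_apply, inflCoc₂_apply, mk_mul_of_mem L g s hs, mk_mul_of_mem L g' s' hs']

theorem inflCoc₂_mem_levelCocyclesS₂ (L : Level S) (c : cocycles₂ (coeff A L)) :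
    (inflCoc₂ A L c : GQ × GQ → A) ∈ levelCocyclesS₂ S A :=
  ⟨(inflCoc₂ A L c).2, ⟨L.F, L.unram, isConstMod₂_inflCoc₂ A L c⟩⟩

/-- inflation of 2-cocycles, landing in the level-constant cocycles of the Prelude. -/
def inflLC₂ (L : Level S) : cocycles₂ (coeff A L) →ₗ[K] levelCocyclesS₂ S A :=
  ((cocycles₂ A).subtype ∘ₗ inflCoc₂ A L).codRestrict (levelCocyclesS₂ S A)
    (inflCoc₂_mem_levelCocyclesS₂ A L)

@[simp] theorem coe_inflLC₂ (L : Level S) (c : cocycles₂ (coeff A L)) :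
    ((inflLC₂ A L c : levelCocyclesS₂ S A) : GQ × GQ → A) = inflCoc₂ A L c := rfl

/-- inflation of 1-cochains -/
def inflCoch₁ (L : Level S) (x : L.Gal → coeff A L) : GQ → A :=
  fun g => ((x (QuotientGroup.mk g) : coeff A L) : A)

theorem isConstMod₁_inflCoch₁ (L : Level S) (x : L.Gal → coeff A L) :
    Fermat.Agent.S55.Bridge.IsConstMod₁ L.U (inflCoch₁ A L x) := by
  intro g s hs
  unfold inflCoch₁
  rw [mk_mul_of_mem L g s hs]

theorem d₁₂_inflCoch₁ (L : Level S) (x : L.Gal → coeff A L) (g h : GQ) :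
    (d₁₂ A).hom (inflCoch₁ A L x) (g, h) =
      (((d₁₂ (coeff A L)).hom x (QuotientGroup.mk g, QuotientGroup.mk h) : coeff A L) : A) := by
  rw [d₁₂_hom_apply, d₁₂_hom_apply]
  rfl

theorem inflLC₂_eq_zero_of_mem_coboundaries (L : Level S) (c : cocycles₂ (coeff A L))
    (hc : (c : L.Gal × L.Gal → coeff A L) ∈ coboundaries₂ (coeff A L)) :
    continuousH2Sπ S A (inflLC₂ A L c) = 0 := by
  rw [continuousH2Sπ_eq_zero_iff, mem_levelCoboundariesS₂_iff]
  obtain ⟨x, hx⟩ := hc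
  refine ⟨inflCoch₁ A L x, ⟨L.F, L.unram, isConstMod₁_inflCoch₁ A L x⟩, ?_⟩
  funext ⟨g, h⟩
  rw [d₁₂_inflCoch₁, coe_inflLC₂, inflCoc₂_apply]
  have := congrFun hx (QuotientGroup.mk g, QuotientGroup.mk h)
  rw [← this]

/-- inflation `H²(Gal(F/ℚ), A^{U_F}) → continuousH2S S A`. -/
def infl₂ (L : Level S) : H2 (coeff A L) →ₗ[K] continuousH2S S A :=
  H2desc (coeff A L) (continuousH2Sπ S A ∘ₗ inflLC₂ A L)
    (fun c hc => inflLC₂_eq_zero_of_mem_coboundaries A L c hc)

theorem infl₂_mk (L : Level S) (c : cocycles₂ (coeff A L)) :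
    infl₂ A L ((H2π (coeff A L)).hom c) = continuousH2Sπ S A (inflLC₂ A L c) :=
  H2desc_mk (coeff A L) _ _ c

/-! ### Transition maps between levels -/

/-- the inclusion `A^{U_F} ⊆ A^{U_{F'}}` for `F ≤ F'`, as a linear map. -/
def transLin {L L' : Level S} (h : L ≤ L') : (coeff A L) →ₗ[K] (coeff A L') where
  toFun a := ⟨(a : A), fun s => a.2 ⟨s.1, Level.U_anti h s.2⟩⟩
  map_add' _ _ := rfl
  map_smul' _ _ := rfl

@[simp] theorem coe_transLin {L L' : Level S} (h : L ≤ L') (a : coeff A L) :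
    ((transLin A h a : coeff A L') : A) = (a : A) := rfl

/-- the inclusion `A^{U_F} ⊆ A^{U_{F'}}` as a morphism along `Gal(F'/ℚ) → Gal(F/ℚ)`. -/
def transHom {L L' : Level S} (h : L ≤ L') :
    Rep.res (Level.proj h) (coeff A L) ⟶ coeff A L' :=
  Rep.ofHom ⟨transLin A h, fun g => by
    induction g using QuotientGroup.induction_on with | @H g =>
    rfl⟩

/-- inflation `H²(Gal(F/ℚ), A^{U_F}) → H²(Gal(F'/ℚ), A^{U_{F'}})` for `F ≤ F'`. -/
def tr₂ {L L' : Level S} (h : L ≤ L') : H2 (coeff A L) →ₗ[K] H2 (coeff A L') :=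
  (groupCohomology.map (Level.proj h) (transHom A h) 2).hom

/-- inflation of 2-cocycles between levels. -/
def trCoc₂ {L L' : Level S} (h : L ≤ L') : cocycles₂ (coeff A L) →ₗ[K] cocycles₂ (coeff A L') :=
  (mapCocycles₂ (Level.proj h) (transHom A h)).hom

theorem proj_mk {L L' : Level S} (h : L ≤ L') (g : GQ) :
    Level.proj h (QuotientGroup.mk g) = QuotientGroup.mk g := rfl

@[simp] theorem trCoc₂_apply {L L' : Level S} (h : L ≤ L') (c : cocycles₂ (coeff A L))
    (g g' : L'.Gal) :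
    trCoc₂ A h c (g, g') = transLin A h (c (Level.proj h g, Level.proj h g')) := rfl

theorem tr₂_mk {L L' : Level S} (h : L ≤ L') (c : cocycles₂ (coeff A L)) :
    tr₂ A h ((H2π (coeff A L)).hom c) = (H2π (coeff A L')).hom (trCoc₂ A h c) := by
  have hcomp := congrArg (fun φ => φ.hom c)
    (H2π_comp_map (A := coeff A L) (B := coeff A L') (Level.proj h) (transHom A h))
  simp only [ModuleCat.hom_comp, LinearMap.comp_apply] at hcomp
  exact hcomp

theorem inflCoc₂_trCoc₂ {L L' : Level S} (h : L ≤ L') (c : cocycles₂ (coeff A L)) :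
    inflCoc₂ A L' (trCoc₂ A h c) = inflCoc₂ A L c := by
  apply Subtype.ext
  funext ⟨g, g'⟩
  rfl

/-- **compat**: inflation to the Prelude group commutes with the transition maps. -/
theorem infl₂_tr₂ {L L' : Level S} (h : L ≤ L') (x : H2 (coeff A L)) :
    infl₂ A L' (tr₂ A h x) = infl₂ A L x := by
  induction x using H2_induction_on with | @h c =>
  rw [tr₂_mk, infl₂_mk, infl₂_mk]
  congr 1

theorem tr₂_tr₂ {L L' L'' : Level S} (h : L ≤ L') (h' : L' ≤ L'') (x : H2 (coeff A L)) :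
    tr₂ A h' (tr₂ A h x) = tr₂ A (h.trans h') x := by
  induction x using H2_induction_on with | @h c =>
  rw [tr₂_mk, tr₂_mk, tr₂_mk]
  congr 1
  apply Subtype.ext
  funext ⟨g, g'⟩
  induction g using QuotientGroup.induction_on with | @H g =>
  induction g' using QuotientGroup.induction_on with | @H g' =>
  rfl

/-! ### Descent of level-constant cochains -/

/-- the element `a`, viewed in `A^{U_F}` when `U_F` acts trivially. -/
def toCoeff (L : Level S) (hA : ∀ s ∈ L.U, ∀ a : A, A.ρ s a = a) (a : A) : coeff A L :=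
  ⟨a, fun s => hA s.1 s.2 a⟩

@[simp] theorem coe_toCoeff (L : Level S) (hA : ∀ s ∈ L.U, ∀ a : A, A.ρ s a = a) (a : A) :
    ((toCoeff A L hA a : coeff A L) : A) = a := rfl

theorem exists_inflCoch₁_eq (L : Level S) (hA : ∀ s ∈ L.U, ∀ a : A, A.ρ s a = a)
    (c : GQ → A) (hc : Fermat.Agent.S55.Bridge.IsConstMod₁ L.U c) :
    ∃ cbar : L.Gal → coeff A L, inflCoch₁ A L cbar = c := by
  refine ⟨fun g => Quotient.liftOn' g (fun g => toCoeff A L hA (c g)) ?_, ?_⟩
  · intro g g' h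
    apply Subtype.ext
    have := hc g (g⁻¹ * g') (QuotientGroup.leftRel_apply.1 h)
    rw [mul_inv_cancel_left] at this
    exact this.symm
  · funext g
    rfl

theorem exists_inflCoc₂_eq (L : Level S) (hA : ∀ s ∈ L.U, ∀ a : A, A.ρ s a = a)
    (f : cocycles₂ A) (hf : Fermat.Agent.S55.Bridge.IsConstMod₂ L.U f) :
    ∃ cbar : cocycles₂ (coeff A L), inflCoc₂ A L cbar = f := by
  have hwd : ∀ (g h g' h' : GQ), (QuotientGroup.leftRel L.U) g g' →
      (QuotientGroup.leftRel L.U) h h' →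
      toCoeff A L hA (f (g, h)) = toCoeff A L hA (f (g', h')) := by
    intro g h g' h' hg hh
    apply Subtype.ext
    have := hf g h (g⁻¹ * g') (h⁻¹ * h') (QuotientGroup.leftRel_apply.1 hg)
      (QuotientGroup.leftRel_apply.1 hh)
    rw [mul_inv_cancel_left, mul_inv_cancel_left] at this
    exact this.symm
  have h3 := (mem_cocycles₂_iff (f : GQ × GQ → A)).1 f.2
  refine ⟨⟨fun x => Quotient.liftOn₂' x.1 x.2 (fun g h => toCoeff A L hA (f (g, h))) hwd, ?_⟩, ?_⟩
  · rw [mem_cocycles₂_iff]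
    intro g h j
    induction g using QuotientGroup.induction_on with | @H g =>
    induction h using QuotientGroup.induction_on with | @H h =>
    induction j using QuotientGroup.induction_on with | @H j =>
    apply Subtype.ext
    exact h3 g h j
  · apply Subtype.ext
    funext ⟨g, h⟩
    rfl

/-! ### The colimit properties -/

/-- **surj**: every class of `continuousH2S S A` is inflated from a level above a given one
on which `A` is trivial. -/
theorem exists_infl₂_eq (L₀ : Level S) (hA : ∀ s ∈ L₀.U, ∀ a : A, A.ρ s a = a)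
    (y : continuousH2S S A) :
    ∃ L : Level S, L₀ ≤ L ∧ ∃ x : H2 (coeff A L), infl₂ A L x = y := by
  obtain ⟨F, hF, hgal, hle, f, hf, rfl⟩ :=
    Fermat.Agent.S55.Bridge.exists_rep_continuousH2S S A y L₀.F L₀.unram
  have hle' : L₀ ≤ levelOfGalois F hF hgal := hle
  have hAL : ∀ s ∈ (levelOfGalois F hF hgal).U, ∀ a : A, A.ρ s a = a :=
    fun s hs => hA s (Level.U_anti hle' hs)
  obtain ⟨cbar, hcbar⟩ := exists_inflCoc₂_eq A (levelOfGalois F hF hgal) hAL
    ⟨(f : GQ × GQ → A), f.2.1⟩ hf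
  refine ⟨levelOfGalois F hF hgal, hle', (H2π _).hom cbar, ?_⟩
  rw [infl₂_mk]
  congr 1
  apply Subtype.ext
  have := congrArg (fun z : cocycles₂ A => (z : GQ × GQ → A)) hcbar
  exact this

/-- **sep**: a class at level `F` dying in `continuousH2S S A` dies at a higher level. -/
theorem exists_tr₂_eq_zero (L : Level S) (hA : ∀ s ∈ L.U, ∀ a : A, A.ρ s a = a)
    (x : H2 (coeff A L)) (hx : infl₂ A L x = 0) :
    ∃ L' : Level S, ∃ h : L ≤ L', tr₂ A h x = 0 := by
  induction x using H2_induction_on with | @h c =>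
  rw [infl₂_mk] at hx
  obtain ⟨F, hF, hgal, hle, y, hy, hd⟩ :=
    (Fermat.Agent.S55.Bridge.continuousH2Sπ_eq_zero_iff_galois S A _ L.F L.unram).1 hx
  have hle' : L ≤ levelOfGalois F hF hgal := hle
  have hAL : ∀ s ∈ (levelOfGalois F hF hgal).U, ∀ a : A, A.ρ s a = a :=
    fun s hs => hA s (Level.U_anti hle' hs)
  obtain ⟨ybar, hybar⟩ := exists_inflCoch₁_eq A (levelOfGalois F hF hgal) hAL y hy
  refine ⟨levelOfGalois F hF hgal, hle', ?_⟩
  rw [tr₂_mk, H2π_eq_zero_iff]
  refine ⟨ybar, ?_⟩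
  funext ⟨g, g'⟩
  induction g using QuotientGroup.induction_on with | @H g =>
  induction g' using QuotientGroup.induction_on with | @H g' =>
  apply Subtype.ext
  have h1 := d₁₂_inflCoch₁ A (levelOfGalois F hF hgal) ybar g g'
  rw [hybar, hd] at h1
  rw [← h1]
  rfl

end

end Fermat.Agent.S55.E1.H603

end
-- ===== PACK-END S55/E1/H603/FinLevelH2.lean

-- ===== PACK-BEGIN S56/FL/RamLemSpec.lean
section


/-!
# Row S56 — W-FLAT-SS, piece FL-RAM: FROZEN statements of the ramification lemmas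
(sub-architect helper426).  Pure algebra, Mathlib only.  Nothing unproved in this file.

These are the inputs that the abstract count `H846.FLCntStatement` needs from ramification theory,
stated for an `RCDatum` `d` (only `A ⊂ B`, `Γ`, `p`, `hA`, `hκ`, `e`, `he`, `hD` are used).
Notation: `𝔪 = maximalIdeal d.B`, `κ = ResidueField d.B`, `Γ_n = ramGroup d.B d.Γ n`.

For a normal subgroup `N ≤ Γ₁` the ring `B^N` is a discrete valuation ring, totally ramified of
degree `|N|` under `B`; so for `y ∈ B^N`: `v_{B^N}(y) ≥ j ↔ y ∈ 𝔪 ^ (|N| j)`.  We therefore define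
the ramification groups of `Γ` acting on `B^N` WITHOUT leaving `B`:
`qRam d N n = {σ | ∀ x ∈ B^N, σ x - x ∈ 𝔪 ^ (|N| (n + 1))}`   (`qRam d ⊥ n = Γ_n`).

* `RLWildStatement`   : `Γ₁` is a `p`-group.
* `RLCommStatement`   : `[Γ, Γ] ≤ Γ₀`.
* `RLTameStatement`   : tame generator `τ₀`, Frobenius lift `φ`, the tame character `μ = θ₀(τ₀)`.
* `RLThetaStatement`  : the maps `θ_n : Γ_n / Γ_{n+1} ↪ κ` (`n ≥ 1`) with their equivariance.
* `RLQuotStatement`   : the groups `qRam d N n` (normal subgroups, comparison with `Γ₀, Γ₁`,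
  commutator rule, separatedness).
* `RLQuotFormulaStatement` : Serre, *Local Fields* IV §1 Prop. 3.
* `RLHilbertStatement`: `e = |Γ₀|` and Hilbert's formula `𝔇_{B/A} = 𝔪 ^ (∑_n (|Γ_n| - 1))`.
-/

set_option autoImplicit false

open Polynomial IsLocalRing

noncomputable section

namespace Fermat.Agent.S56.FL

namespace RCDatum

/-- The ramification groups of `Γ` acting on `B^N`, as subsets of `Γ`, defined inside `B`. -/
def qRam (d : RCDatum) (N : Subgroup d.Γ) (n : ℕ) : Set d.Γ :=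
  {σ | ∀ x : d.B, (∀ ν ∈ N, ν • x = x) → σ • x - x ∈ maximalIdeal d.B ^ (Nat.card N * (n + 1))}

/-- `N` is a normal subgroup of `Γ` contained in the wild inertia group `Γ₁`. -/
def IsWildNormal (d : RCDatum) (N : Subgroup d.Γ) : Prop :=
  N.Normal ∧ N ≤ ramGroup d.B d.Γ 1

end RCDatum

/-- (RL-A) the wild inertia group is a `p`-group. -/
def RLWildStatement : Prop :=
  ∀ d : RCDatum, IsPGroup d.p (ramGroup d.B d.Γ 1)

/-- (RL-B) commutators lie in the inertia group. -/
def RLCommStatement : Prop :=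
  ∀ d : RCDatum, ∀ g h : d.Γ, g * h * g⁻¹ * h⁻¹ ∈ ramGroup d.B d.Γ 0

/-- (RL-C) tame inertia is cyclic, generated by `τ₀`, with faithful tame character `μ = θ₀(τ₀)`;
`Γ / Γ₀` is generated by a Frobenius lift `φ`, and `φ τ₀ φ⁻¹ ≡ τ₀ ^ p` modulo `Γ₁`. -/
def RLTameStatement : Prop :=
  ∀ d : RCDatum, ∃ τ₀ ∈ ramGroup d.B d.Γ 0, ∃ φ : d.Γ, ∃ μ : ResidueField d.B,
    (∀ σ ∈ ramGroup d.B d.Γ 0, ∃ j : ℕ, σ * (τ₀ ^ j)⁻¹ ∈ ramGroup d.B d.Γ 1) ∧
    (∀ j : ℕ, τ₀ ^ j ∈ ramGroup d.B d.Γ 1 ↔ μ ^ j = 1) ∧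
    (∀ ϖ : d.B, Irreducible ϖ → ∀ u : d.B, τ₀ • ϖ = u * ϖ → residue d.B u = μ) ∧
    (∀ x : d.B, residue d.B (φ • x) = residue d.B x ^ d.p) ∧
    (∀ σ : d.Γ, ∃ j : ℕ, σ * (φ ^ j)⁻¹ ∈ ramGroup d.B d.Γ 0) ∧
    φ * τ₀ * φ⁻¹ * (τ₀ ^ d.p)⁻¹ ∈ ramGroup d.B d.Γ 1

/-- (RL-θ) for a uniformizer `ϖ` and `n ≥ 1` the map `θ_n(σ) = ((σ ϖ - ϖ) / ϖ ^ (n + 1)) mod 𝔪` on
`Γ_n`: additive, with kernel `Γ_{n+1}`, and `θ_n(g σ g⁻¹) = ū_g ^ n · ḡ(θ_n(σ))` where
`g ϖ = u_g ϖ`. -/
def RLThetaStatement : Prop :=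
  ∀ d : RCDatum, ∀ ϖ : d.B, Irreducible ϖ → ∀ n : ℕ, 1 ≤ n →
    ∃ θ : d.Γ → ResidueField d.B,
      (∀ σ ∈ ramGroup d.B d.Γ n, ∀ a : d.B,
        σ • ϖ - ϖ = a * ϖ ^ (n + 1) → θ σ = residue d.B a) ∧
      (∀ σ ∈ ramGroup d.B d.Γ n, ∀ τ ∈ ramGroup d.B d.Γ n, θ (σ * τ) = θ σ + θ τ) ∧
      (∀ σ ∈ ramGroup d.B d.Γ n, θ σ = 0 → σ ∈ ramGroup d.B d.Γ (n + 1)) ∧
      (∀ σ ∈ ramGroup d.B d.Γ n, ∀ (g : d.Γ) (u a : d.B), g • ϖ = u * ϖ →
        residue d.B a = θ σ → θ (g * σ * g⁻¹) = residue d.B u ^ n * residue d.B (g • a))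

/-- (RL-Q) the ramification groups of the quotients `Γ / N`, `N ≤ Γ₁` normal. -/
def RLQuotStatement : Prop :=
  ∀ d : RCDatum, ∀ N : Subgroup d.Γ, d.IsWildNormal N →
    -- subgroups, normal
    (∀ n, ∃ F : Subgroup d.Γ, F.Normal ∧ (F : Set d.Γ) = d.qRam N n) ∧
    -- comparison with the inertia and wild inertia groups of `Γ`
    (∀ σ ∈ ramGroup d.B d.Γ 0, σ ∈ d.qRam N 0) ∧
    (∀ σ ∈ ramGroup d.B d.Γ 1, σ ∈ d.qRam N 1) ∧
    (∀ σ ∈ ramGroup d.B d.Γ 0, σ ∈ d.qRam N 1 → σ ∈ ramGroup d.B d.Γ 1) ∧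
    -- separatedness
    (∀ σ : d.Γ, σ ∉ N → ∃ n, σ ∉ d.qRam N n) ∧
    -- commutator rule
    (∀ n, 1 ≤ n → ∀ σ ∈ d.qRam N n, σ ∉ d.qRam N (n + 1) → ∀ τ ∈ ramGroup d.B d.Γ 0,
      (τ * σ * τ⁻¹ * σ⁻¹ ∈ d.qRam N (n + 1) ↔ τ ^ n ∈ d.qRam N 1))

/-- (RL-QF) the quotient formula: for `σ ∉ N`,
`∑_{w ∈ N} i_Γ(σ w) = |N| · i_{Γ/N}(σ N)`, where `i_Γ(τ) = #{n | τ ∈ Γ_n}` and
`i_{Γ/N}(σ N) = #{n | σ ∈ qRam d N n}`. -/
def RLQuotFormulaStatement : Prop :=
  ∀ d : RCDatum, ∀ N : Subgroup d.Γ, d.IsWildNormal N → ∀ σ : d.Γ, σ ∉ N →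
    ∑ᶠ (w : d.Γ) (_ : w ∈ N), Nat.card {n : ℕ | σ * w ∈ ramGroup d.B d.Γ n} =
      Nat.card N * Nat.card {n : ℕ | σ ∈ d.qRam N n}

/-- (RL-H) `e(B/A) = |Γ₀|` and Hilbert's formula for the different. -/
def RLHilbertStatement : Prop :=
  ∀ d : RCDatum, d.e = Nat.card (ramGroup d.B d.Γ 0) ∧
    differentIdeal d.A d.B =
      maximalIdeal d.B ^ (∑ᶠ n : ℕ, (Nat.card (ramGroup d.B d.Γ n) - 1))

end Fermat.Agent.S56.FL

end

end
-- ===== PACK-END S56/FL/RamLemSpec.lean

-- ===== PACK-BEGIN S19/H435/OfModel.lean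
section
/-
A3 / WP-C piece A (helper435): a Hopf model (frozen interface `HopfModel`) gives a Hopf lattice:
`Λ :=` image of `H` under evaluation at the points.
-/




set_option autoImplicit false
set_option linter.style.haveILetI false

noncomputable section

namespace Fermat.Agent.S19.H435

open TensorProduct

/-- Every tensor is a `Fin`-indexed sum of pure tensors. -/
theorem exists_fin_tmul {R : Type*} [CommSemiring R] {A B : Type*} [AddCommMonoid A]
    [AddCommMonoid B] [Module R A] [Module R B] (t : A ⊗[R] B) :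
    ∃ (n : ℕ) (a : Fin n → A) (b : Fin n → B), t = ∑ k, a k ⊗ₜ[R] b k := by
  induction t using TensorProduct.induction_on with
  | zero => exact ⟨0, Fin.elim0, Fin.elim0, by simp⟩
  | tmul a b => exact ⟨1, fun _ => a, fun _ => b, by simp⟩
  | add x y hx hy =>
    obtain ⟨n, a, b, rfl⟩ := hx
    obtain ⟨m, a', b', rfl⟩ := hy
    refine ⟨n + m, Fin.append a a', Fin.append b b', ?_⟩
    rw [Fin.sum_univ_add]
    simp only [Fin.append_left, Fin.append_right]

/-- **Piece A.** A Hopf model gives a Hopf lattice. -/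
theorem exists_isHopfLattice_of_hopfModel {ℓ : ℕ} {M : Type} [AddCommGroup M]
    {act : Gal → M → M} (h : Fermat.Agent.S19.HopfModel ℓ M act) :
    ∃ Λ : Subalgebra (Zl ℓ) (M → _root_.Fermat.Agent.S19.H435.Qb), IsHopfLattice ℓ act Λ := by
  obtain ⟨H, _, _, hfin, -, -, e, hmul, hgal⟩ := h
  let ev : H →ₐ[Zl ℓ] (M → _root_.Fermat.Agent.S19.H435.Qb) := AlgHom.pi (fun m => (e.symm m).ofConv)
  have hev : ∀ (x : H) (m : M), ev x m = (e.symm m).ofConv x := fun _ _ => rfl
  refine ⟨ev.range, ?_, ?_, ?_, ?_⟩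
  · -- finitely generated
    have h1 : Subalgebra.toSubmodule ev.range = Submodule.map ev.toLinearMap ⊤ := by
      ext f
      simp [AlgHom.mem_range]
    rw [h1]
    exact Submodule.FG.map _ (Module.finite_def.mp hfin)
  · -- equivariance
    rintro _ ⟨x, rfl⟩ σ m
    show ev x (act σ m) = σ (ev x m)
    rw [hev, hev]
    let σR : _root_.Fermat.Agent.S19.H435.Qb →ₐ[Zl ℓ] _root_.Fermat.Agent.S19.H435.Qb := (σ : _root_.Fermat.Agent.S19.H435.Qb →ₐ[ℚ] _root_.Fermat.Agent.S19.H435.Qb).restrictScalars (Zl ℓ)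
    let y : WithConv (H →ₐ[Zl ℓ] _root_.Fermat.Agent.S19.H435.Qb) := WithConv.toConv (σR.comp (e.symm m).ofConv)
    have hy : e y = act σ (e (e.symm m)) := hgal σ (e.symm m) y (fun _ => rfl)
    rw [Equiv.apply_symm_apply] at hy
    rw [← hy, Equiv.symm_apply_apply]
    rfl
  · -- separation
    intro m n hmn
    by_contra hcon
    push Not at hcon
    apply hmn
    have : e.symm m = e.symm n := by
      apply WithConv.ext
      apply AlgHom.ext
      intro x
      have := hcon (ev x) ⟨x, rfl⟩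
      rw [hev, hev] at this
      exact this
    exact e.symm.injective this
  · -- comultiplication
    rintro _ ⟨x, rfl⟩
    obtain ⟨n, a, b, hab⟩ := exists_fin_tmul (R := Zl ℓ) (CoalgebraStruct.comul (R := Zl ℓ) x)
    refine ⟨n, fun k => ev (a k), fun k => ev (b k), fun k => ⟨a k, rfl⟩, fun k => ⟨b k, rfl⟩, ?_⟩
    intro s t
    have hst : e.symm (s + t) = e.symm s * e.symm t := by
      apply e.injective
      rw [hmul, Equiv.apply_symm_apply, Equiv.apply_symm_apply, Equiv.apply_symm_apply]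
    show ev x (s + t) = ∑ k, ev (a k) s * ev (b k) t
    rw [hev, hst, AlgHom.convMul_apply, hab, map_sum]
    refine Finset.sum_congr rfl fun k _ => ?_
    rw [Algebra.TensorProduct.lift_tmul]
    rfl

end Fermat.Agent.S19.H435

end
end
-- ===== PACK-END S19/H435/OfModel.lean

-- ===== PACK-BEGIN S56/H554/LocTW.lean
section




/-!
# S56 / leaf LOC-TW (helper554): cocycles on the inertia group at a prime `q ≠ p`

`k` a field of characteristic `p`, `ρbar : ResidualGaloisRep k` unramified at `P | q`, `q ≠ p`.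
`c` is an ad-cocycle (`H716.IsAdCocycle`) or more generally any function satisfying the
cocycle relation (`IsCoc`).

* `coc_add_on_inertia`, `cocHom` : `c` is an additive hom on `I_P`;
* `coc_eq_zero_of_wild` : `c` kills the elements of `I_P` which are wild on its level;
* `coc_conj_frobenius` : `c (φ τ φ⁻¹) = q • c τ` for `τ ∈ I_P`, `φ` a Frobenius element at `P`;
* `coc_commute_frobenius` : if `p ∣ q - 1` then `c τ` commutes with `ρ̄ φ`;
* `exists_inertia_generator` : a generator `τ₀ ∈ I_P` which works for ALL cocycles of a given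
  level: `c τ = n • c τ₀`.
-/

set_option autoImplicit false

open scoped Pointwise

namespace Fermat.Agent.S56.H554

open Fermat.Agent.A2.H708 Fermat.Agent.S56 Fermat.Agent.S56.H716

attribute [local instance] isAlgebraic_Qb

variable {k : Type} [Field k] (ρbar : ResidualGaloisRep k)

/-- The cocycle relation and level-constancy, without the trace condition. -/
structure IsCoc (L : IntermediateField ℚ Qb) (c : GQ → Module.End k ρbar.V) : Prop where
  map_mul : ∀ σ τ, c (σ * τ) = c σ + ρbar.ρ σ * c τ * ρbar.ρ σ⁻¹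
  level : ∀ σ τ : GQ, (∀ x ∈ L, τ x = x) → c (σ * τ) = c σ

variable {ρbar}

theorem IsCoc.mono {L L' : IntermediateField ℚ Qb} (h : L ≤ L') {c : GQ → Module.End k ρbar.V}
    (hc : IsCoc ρbar L c) : IsCoc ρbar L' c :=
  ⟨hc.map_mul, fun σ τ hτ => hc.level σ τ fun x hx => hτ x (h hx)⟩

theorem IsCoc.map_one {L : IntermediateField ℚ Qb} {c : GQ → Module.End k ρbar.V}
    (hc : IsCoc ρbar L c) : c 1 = 0 := by
  have h := hc.map_mul 1 1
  rw [mul_one, _root_.map_one, inv_one, _root_.map_one, one_mul, mul_one] at h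
  exact left_eq_add.mp h

theorem IsCoc.eq_zero_of_fixes {L : IntermediateField ℚ Qb} {c : GQ → Module.End k ρbar.V}
    (hc : IsCoc ρbar L c) {τ : GQ} (hτ : ∀ x ∈ L, τ x = x) : c τ = 0 := by
  have h := hc.level 1 τ hτ
  rwa [one_mul, hc.map_one] at h

theorem isCoc_of_isAdCocycle {c : GQ → Module.End k ρbar.V} (hc : IsAdCocycle ρbar c) :
    ∃ L : IntermediateField ℚ Qb, FiniteDimensional ℚ L ∧ IsCoc ρbar L c := by
  obtain ⟨L, hL, h⟩ := hc.level
  exact ⟨L, hL, ⟨hc.map_mul, h⟩⟩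

section inertia

variable {P : ValuationSubring Qb}

/-- On a subgroup where `ρ̄` is trivial, a cocycle is additive. -/
theorem IsCoc.add_of_rho_eq_one {L : IntermediateField ℚ Qb} {c : GQ → Module.End k ρbar.V}
    (hc : IsCoc ρbar L c) {σ : GQ} (hσ : ρbar.ρ σ = 1) (τ : GQ) : c (σ * τ) = c σ + c τ := by
  have h1 : ρbar.ρ σ⁻¹ = 1 := by
    have := _root_.map_mul ρbar.ρ σ σ⁻¹
    rw [mul_inv_cancel, _root_.map_one, hσ, one_mul] at this
    exact this.symm
  rw [hc.map_mul, hσ, h1, one_mul, mul_one]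

/-- The restriction of a cocycle to the inertia group (where `ρ̄` is trivial), as a hom. -/
noncomputable def cocHom {L : IntermediateField ℚ Qb} {c : GQ → Module.End k ρbar.V}
    (hc : IsCoc ρbar L c) (hur : ∀ σ ∈ P.inertiaSubgroupIn ℚ, ρbar.ρ σ = 1) :
    ↥(P.inertiaSubgroupIn ℚ) →* Multiplicative (Module.End k ρbar.V) where
  toFun σ := Multiplicative.ofAdd (c σ)
  map_one' := by
    show Multiplicative.ofAdd (c 1) = 1
    rw [hc.map_one]
    rfl
  map_mul' σ τ := by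
    show Multiplicative.ofAdd (c (σ * τ)) = Multiplicative.ofAdd (c σ) * Multiplicative.ofAdd (c τ)
    rw [hc.add_of_rho_eq_one (hur σ σ.2)]
    rfl

theorem cocHom_apply {L : IntermediateField ℚ Qb} {c : GQ → Module.End k ρbar.V}
    (hc : IsCoc ρbar L c) (hur : ∀ σ ∈ P.inertiaSubgroupIn ℚ, ρbar.ρ σ = 1)
    (σ : ↥(P.inertiaSubgroupIn ℚ)) :
    cocHom hc hur σ = Multiplicative.ofAdd (c σ) := rfl

theorem IsCoc.map_pow_of_mem_inertia {L : IntermediateField ℚ Qb}
    {c : GQ → Module.End k ρbar.V} (hc : IsCoc ρbar L c)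
    (hur : ∀ σ ∈ P.inertiaSubgroupIn ℚ, ρbar.ρ σ = 1) {τ : GQ}
    (hτ : τ ∈ P.inertiaSubgroupIn ℚ) (n : ℕ) : c (τ ^ n) = n • c τ := by
  have h := map_pow (cocHom hc hur) ⟨τ, hτ⟩ n
  have h1 : cocHom hc hur (⟨τ, hτ⟩ ^ n) = Multiplicative.ofAdd (c (τ ^ n)) := rfl
  rw [h1, cocHom_apply] at h
  exact Multiplicative.ofAdd.injective h

theorem IsCoc.map_zpow_of_mem_inertia {L : IntermediateField ℚ Qb}
    {c : GQ → Module.End k ρbar.V} (hc : IsCoc ρbar L c)
    (hur : ∀ σ ∈ P.inertiaSubgroupIn ℚ, ρbar.ρ σ = 1) {τ : GQ}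
    (hτ : τ ∈ P.inertiaSubgroupIn ℚ) (n : ℤ) : c (τ ^ n) = n • c τ := by
  have h := map_zpow (cocHom hc hur) ⟨τ, hτ⟩ n
  have h1 : cocHom hc hur (⟨τ, hτ⟩ ^ n) = Multiplicative.ofAdd (c (τ ^ n)) := rfl
  rw [h1, cocHom_apply] at h
  exact Multiplicative.ofAdd.injective h

variable {q p : ℕ}

/-- **Wild elements are killed by cocycles** (`char k = p ≠ q`). -/
theorem IsCoc.eq_zero_of_wild [CharP k p] (hq : q.Prime) (hP : P.LiesOverPrime q)
    (hp : p.Prime) (hpq : p ≠ q)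
    {L : IntermediateField ℚ Qb} [FiniteDimensional ℚ L] (hL : ∀ σ : GQ, ∀ x ∈ L, σ x ∈ L)
    {c : GQ → Module.End k ρbar.V} (hc : IsCoc ρbar L c)
    (hur : ∀ σ ∈ P.inertiaSubgroupIn ℚ, ρbar.ρ σ = 1) {ω : GQ}
    (hω : ω ∈ P.inertiaSubgroupIn ℚ) (hwild : IsWildOn P ω (L : Set Qb)) : c ω = 0 := by
  have h := map_eq_one_of_wild_subgroup (A := P) (P.inertiaSubgroupIn ℚ) (cocHom hc hur) L
    (fun σ hσ => by
      rw [cocHom_apply, hc.eq_zero_of_fixes hσ]
      rfl)
    hω hω (hL ω) hwild p hp (valuation_prime_eq_one hq hP hp hpq) 1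
    (by
      rw [pow_one, ← map_pow]
      have h1 : cocHom hc hur (⟨ω, hω⟩ ^ p) = Multiplicative.ofAdd (c (ω ^ p)) := rfl
      rw [h1, hc.map_pow_of_mem_inertia hur hω, ← Nat.cast_smul_eq_nsmul k, CharP.cast_eq_zero,
        zero_smul]
      rfl)
  rw [cocHom_apply] at h
  exact Multiplicative.ofAdd.injective h

/-- **Frobenius relation for cocycles**: `c (φ τ φ⁻¹) = q • c τ` on inertia. -/
theorem IsCoc.conj_frobenius [CharP k p] (hq : q.Prime) (hP : P.LiesOverPrime q)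
    (hp : p.Prime) (hpq : p ≠ q)
    {L : IntermediateField ℚ Qb} [FiniteDimensional ℚ L] (hL : ∀ σ : GQ, ∀ x ∈ L, σ x ∈ L)
    {c : GQ → Module.End k ρbar.V} (hc : IsCoc ρbar L c)
    (hur : ∀ σ ∈ P.inertiaSubgroupIn ℚ, ρbar.ρ σ = 1) {φ τ : GQ}
    (hφ : P.IsFrobeniusAt φ q) (hτ : τ ∈ P.inertiaSubgroupIn ℚ) :
    c (φ * τ * φ⁻¹) = q • c τ := by
  obtain ⟨ω, hω, hwild, hconj⟩ := isWildOn_conj_frobenius hφ hτ (L : Set Qb)
  rw [hconj, hc.add_of_rho_eq_one (hur ω hω), hc.eq_zero_of_wild hq hP hp hpq hL hur hω hwild,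
    zero_add, hc.map_pow_of_mem_inertia hur hτ]

theorem rho_mul_inv (σ : GQ) : ρbar.ρ σ * ρbar.ρ σ⁻¹ = 1 := by
  rw [← map_mul, mul_inv_cancel, map_one]

theorem rho_inv_mul (σ : GQ) : ρbar.ρ σ⁻¹ * ρbar.ρ σ = 1 := by
  rw [← map_mul, inv_mul_cancel, map_one]

/-- The cocycle relation for a conjugate: `c (φ τ φ⁻¹) = ρ̄φ (c τ) ρ̄φ⁻¹` if `ρ̄ τ = 1`. -/
theorem IsCoc.map_conj {L : IntermediateField ℚ Qb} {c : GQ → Module.End k ρbar.V}
    (hc : IsCoc ρbar L c) (φ : GQ) {τ : GQ} (hτ : ρbar.ρ τ = 1) :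
    c (φ * τ * φ⁻¹) = ρbar.ρ φ * c τ * ρbar.ρ φ⁻¹ := by
  have h0 : c φ + ρbar.ρ φ * c φ⁻¹ * ρbar.ρ φ⁻¹ = 0 := by
    have := hc.map_mul φ φ⁻¹
    rw [mul_inv_cancel, hc.map_one] at this
    exact this.symm
  rw [mul_assoc, hc.map_mul φ (τ * φ⁻¹), hc.add_of_rho_eq_one hτ, mul_add, add_mul, ← add_assoc,
    add_right_comm, h0, zero_add]

/-- **T3.** If `q ≡ 1 mod p`, the values of a cocycle on inertia commute with `ρ̄(Frob)`. -/
theorem IsCoc.commute_frobenius [CharP k p] (hq : q.Prime) (hP : P.LiesOverPrime q)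
    (hp : p.Prime) (hpq : p ≠ q) (hq1 : p ∣ q - 1)
    {L : IntermediateField ℚ Qb} [FiniteDimensional ℚ L] (hL : ∀ σ : GQ, ∀ x ∈ L, σ x ∈ L)
    {c : GQ → Module.End k ρbar.V} (hc : IsCoc ρbar L c)
    (hur : ∀ σ ∈ P.inertiaSubgroupIn ℚ, ρbar.ρ σ = 1) {φ τ : GQ}
    (hφ : P.IsFrobeniusAt φ q) (hτ : τ ∈ P.inertiaSubgroupIn ℚ) :
    ρbar.ρ φ * c τ = c τ * ρbar.ρ φ := by
  have hqk : ((q : ℕ) : k) = 1 := by
    have h1 : ((q - 1 : ℕ) : k) = 0 := (CharP.cast_eq_zero_iff k p _).mpr hq1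
    have h2 : q = (q - 1) + 1 := (Nat.sub_add_cancel hq.one_le).symm
    rw [h2, Nat.cast_add, h1, zero_add, Nat.cast_one]
  have h1 := hc.conj_frobenius hq hP hp hpq hL hur hφ hτ
  rw [hc.map_conj φ (hur τ hτ), ← Nat.cast_smul_eq_nsmul k, hqk, one_smul] at h1
  calc ρbar.ρ φ * c τ = ρbar.ρ φ * c τ * (ρbar.ρ φ⁻¹ * ρbar.ρ φ) := by
        rw [rho_inv_mul, mul_one]
    _ = (ρbar.ρ φ * c τ * ρbar.ρ φ⁻¹) * ρbar.ρ φ := by rw [mul_assoc, mul_assoc, mul_assoc]
    _ = c τ * ρbar.ρ φ := by rw [h1]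

/-- **T4.** A generator of tame inertia which works for ALL cocycles of level `L`. -/
theorem exists_inertia_generator [CharP k p] (hq : q.Prime) (hP : P.LiesOverPrime q)
    (hp : p.Prime) (hpq : p ≠ q)
    (L : IntermediateField ℚ Qb) [FiniteDimensional ℚ L] (hL : ∀ σ : GQ, ∀ x ∈ L, σ x ∈ L)
    (hur : ∀ σ ∈ P.inertiaSubgroupIn ℚ, ρbar.ρ σ = 1) :
    ∃ τ₀ ∈ P.inertiaSubgroupIn ℚ, ∀ c : GQ → Module.End k ρbar.V, IsCoc ρbar L c →
      ∀ τ ∈ P.inertiaSubgroupIn ℚ, ∃ n : ℤ, c τ = n • c τ₀ := by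
  obtain ⟨τ₀, hτ₀, hgen⟩ := exists_tame_generator hq hP L
  refine ⟨τ₀, hτ₀, fun c hc τ hτ => ?_⟩
  obtain ⟨n, ω, hω, hwild, rfl⟩ := hgen τ hτ
  refine ⟨n, ?_⟩
  have h1 : ρbar.ρ (τ₀ ^ n) = 1 := hur _ (zpow_mem hτ₀ n)
  rw [hc.add_of_rho_eq_one h1, hc.eq_zero_of_wild hq hP hp hpq hL hur hω hwild, add_zero,
    hc.map_zpow_of_mem_inertia hur hτ₀]

end inertia

end Fermat.Agent.S56.H554

end
-- ===== PACK-END S56/H554/LocTW.lean

-- ===== PACK-BEGIN S56/H536/Cocycle.lean
section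


/-!
# S56 / TWP (helper536), part 2: algebra of twisted cocycles

For a twisted cocycle `c` (`IsTwCocycle`):

* `cocycle_one` : `c 1 = 0`;
* `cocycle_eq_of_agree` : `c σ = c τ` when `σ` and `τ` agree on the level of `c`;
* `coboundary_pow` : if `τ` fixes `μ_p` and `c τ = Ad(τ) m - m` then `c (τ ^ j) = Ad(τ ^ j) m - m`;
* `coboundary_of_conj` : if `φ` fixes `μ_p` and `c (g φ g⁻¹) = Ad(g φ g⁻¹) m₀ - m₀` with `tr m₀ = 0`
  then `c φ = Ad(φ) m - m` for some `m` with `tr m = 0`;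
* `coboundary_at_frobenius_of_locTrivAt` : a cocycle which is locally trivial at `q ≡ 1 mod p`
  takes a "coboundary value" at EVERY Frobenius element over `q`.
-/

set_option autoImplicit false
set_option linter.style.haveILetI false

open Polynomial IsLocalRing

noncomputable section

namespace Fermat.Agent.S56.H536

open Fermat.Agent.S56

variable {k : Type} [Field k] (ρbar : ResidualGaloisRep k) (p : ℕ)

theorem rho_mul_rho_inv (σ : GQ) : ρbar.ρ σ * ρbar.ρ σ⁻¹ = 1 := by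
  rw [← map_mul, mul_inv_cancel, map_one]

theorem rho_inv_mul_rho (σ : GQ) : ρbar.ρ σ⁻¹ * ρbar.ρ σ = 1 := by
  rw [← map_mul, inv_mul_cancel, map_one]

/-- Conjugation does not change the trace. -/
theorem trace_conj_eq {E : Type*} [AddCommGroup E] [Module k E] (R R' x : Module.End k E)
    (hR : R * R' = 1) : LinearMap.trace k E (R' * x * R) = LinearMap.trace k E x := by
  rw [LinearMap.trace_mul_comm, ← mul_assoc, hR, one_mul]

/-- The abstract computation behind `coboundary_of_conj`. -/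
theorem conj_algebra {E : Type*} [Ring E] [Algebra k E] (R R' F F' : E)
    (hR' : R' * R = 1) (a : k) (ha : a ≠ 0) (cg cg' cφ m₀ : E)
    (h1 : cg + a • (R * cg' * R') = 0)
    (h2 : cg + a • (R * (cφ + F * cg' * F') * R') = (R * F * R') * m₀ * (R * F' * R') - m₀) :
    cφ = F * (a⁻¹ • (R' * (m₀ + cg) * R)) * F' - a⁻¹ • (R' * (m₀ + cg) * R) := by
  have hRx : ∀ x : E, R' * (R * x) = x := fun x => by rw [← mul_assoc, hR', one_mul]
  have e1 : a • cg' = -(R' * cg * R) := by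
    have h := congrArg (fun x => R' * x * R) h1
    simp only [mul_add, add_mul, mul_smul_comm, smul_mul_assoc, mul_zero, zero_mul] at h
    have e : R' * (R * cg' * R') * R = cg' := by
      rw [mul_assoc R, hRx, mul_assoc, hR', mul_one]
    rw [e] at h
    exact eq_neg_of_add_eq_zero_right h
  have e2 : R' * cg * R + (a • cφ + F * (a • cg') * F') =
      F * (R' * m₀ * R) * F' - R' * m₀ * R := by
    have h := congrArg (fun x => R' * x * R) h2
    simp only [mul_add, add_mul, mul_sub, sub_mul, mul_smul_comm, smul_mul_assoc, smul_add] at h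
    have e : R' * (R * cφ * R') * R = cφ := by
      rw [mul_assoc R, hRx, mul_assoc, hR', mul_one]
    have e' : R' * (R * (F * cg' * F') * R') * R = F * cg' * F' := by
      rw [mul_assoc R, hRx, mul_assoc, hR', mul_one]
    have e'' : R' * (R * F * R' * m₀ * (R * F' * R')) * R = F * (R' * m₀ * R) * F' := by
      have : R * F * R' * m₀ * (R * F' * R') = R * (F * (R' * m₀ * R) * F' * R') := by
        simp only [mul_assoc]
      rw [this, hRx, mul_assoc, hR', mul_one]
    rw [e, e', e''] at h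
    rw [mul_smul_comm, smul_mul_assoc]
    exact h
  rw [e1] at e2
  have e3 : a • cφ = F * (R' * (m₀ + cg) * R) * F' - R' * (m₀ + cg) * R := by
    have : a • cφ = F * (R' * m₀ * R) * F' - R' * m₀ * R - R' * cg * R
        - F * (-(R' * cg * R)) * F' := by
      rw [← e2]; abel
    rw [this]
    simp only [mul_add, add_mul, mul_neg, neg_mul]
    abel
  have e4 : cφ = a⁻¹ • (a • cφ) := by rw [smul_smul, inv_mul_cancel₀ ha, one_smul]
  rw [e4, e3, smul_sub, mul_smul_comm, smul_mul_assoc]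

variable {ρbar p}

/-- `c 1 = 0`. -/
theorem cocycle_one {c : GQ → Module.End k ρbar.V} (hc : IsTwCocycle ρbar p c) : c 1 = 0 := by
  have h := hc.map_mul 1 1 1 (isCycExp_one_one p)
  simp only [twAd, mul_one, Nat.cast_one, one_smul, map_one, inv_one, one_mul] at h
  exact left_eq_add.mp h

/-- `c` depends only on the restriction to its level. -/
theorem cocycle_eq_of_agree {c : GQ → Module.End k ρbar.V} (hc : IsTwCocycle ρbar p c) :
    ∃ L : IntermediateField ℚ Qb, FiniteDimensional ℚ L ∧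
      ∀ σ τ : GQ, (∀ x ∈ L, σ x = τ x) → c σ = c τ := by
  obtain ⟨L, hL, h⟩ := hc.level
  refine ⟨L, hL, fun σ τ hστ => ?_⟩
  have h1 : ∀ x ∈ L, (τ⁻¹ * σ) x = x := by
    intro x hx
    rw [AlgEquiv.mul_apply, hστ x hx]
    exact τ.symm_apply_apply x
  have h2 := h τ (τ⁻¹ * σ) h1
  rwa [mul_inv_cancel_left] at h2

/-- If `τ` fixes `μ_p` and `c τ` is the coboundary value of `m`, so is `c (τ ^ j)`. -/
theorem coboundary_pow {c : GQ → Module.End k ρbar.V} (hc : IsTwCocycle ρbar p c) (τ : GQ)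
    (hτ : IsCycExp p τ 1) (m : Module.End k ρbar.V)
    (h : c τ = ρbar.ρ τ * m * ρbar.ρ τ⁻¹ - m) (j : ℕ) :
    c (τ ^ j) = ρbar.ρ (τ ^ j) * m * ρbar.ρ (τ ^ j)⁻¹ - m := by
  induction j with
  | zero =>
    rw [pow_zero, cocycle_one hc, inv_one, map_one, one_mul, mul_one, sub_self]
  | succ j ih =>
    rw [pow_succ', hc.map_mul τ (τ ^ j) 1 hτ, ih, h, mul_inv_rev, map_mul, map_mul]
    simp only [twAd, Nat.cast_one, one_smul, mul_sub, sub_mul, mul_assoc]
    abel

/-- Conjugation: a coboundary value at `g φ g⁻¹` gives a coboundary value at `φ`. -/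
theorem coboundary_of_conj [CharP k p] (hp : p.Prime) {c : GQ → Module.End k ρbar.V}
    (hc : IsTwCocycle ρbar p c) (g φ : GQ) (hφ : IsCycExp p φ 1) (m₀ : Module.End k ρbar.V)
    (hm₀ : LinearMap.trace k ρbar.V m₀ = 0)
    (h : c (g * φ * g⁻¹) = ρbar.ρ (g * φ * g⁻¹) * m₀ * ρbar.ρ (g * φ * g⁻¹)⁻¹ - m₀) :
    ∃ m : Module.End k ρbar.V, LinearMap.trace k ρbar.V m = 0 ∧
      c φ = ρbar.ρ φ * m * ρbar.ρ φ⁻¹ - m := by
  obtain ⟨a, ha⟩ := exists_isCycExp p hp g
  have ha0 : (a : k) ≠ 0 := isCycExp_natCast_ne_zero p hp ha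
  have h1 : c g + (a : k) • (ρbar.ρ g * c g⁻¹ * ρbar.ρ g⁻¹) = 0 := by
    have := hc.map_mul g g⁻¹ a ha
    rw [mul_inv_cancel, cocycle_one hc] at this
    exact this.symm
  have h2 : c g + (a : k) • (ρbar.ρ g * (c φ + ρbar.ρ φ * c g⁻¹ * ρbar.ρ φ⁻¹) * ρbar.ρ g⁻¹) =
      (ρbar.ρ g * ρbar.ρ φ * ρbar.ρ g⁻¹) * m₀ * (ρbar.ρ g * ρbar.ρ φ⁻¹ * ρbar.ρ g⁻¹) - m₀ := by
    have e1 := hc.map_mul g (φ * g⁻¹) a ha
    have e2 := hc.map_mul φ g⁻¹ 1 hφ
    simp only [twAd, Nat.cast_one, one_smul] at e1 e2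
    rw [e2, ← mul_assoc] at e1
    rw [← e1, h]
    have e3 : (g * φ * g⁻¹)⁻¹ = g * φ⁻¹ * g⁻¹ := by group
    rw [e3, map_mul, map_mul, map_mul, map_mul]
  refine ⟨(a : k)⁻¹ • (ρbar.ρ g⁻¹ * (m₀ + c g) * ρbar.ρ g), ?_, ?_⟩
  · rw [map_smul, trace_conj_eq _ _ _ (rho_mul_rho_inv ρbar g), map_add, hm₀,
      hc.trace_eq_zero, add_zero, smul_zero]
  · exact conj_algebra (ρbar.ρ g) (ρbar.ρ g⁻¹) (ρbar.ρ φ) (ρbar.ρ φ⁻¹)
      (rho_inv_mul_rho ρbar g) (a : k) ha0 (c g) (c g⁻¹) (c φ) m₀ h1 h2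

/-- **TWP2.**  If the cocycle `c` is locally trivial at the prime `q ≠ p`, `q ≡ 1 mod p`, then
its value at EVERY Frobenius element over `q` is a coboundary value. -/
theorem coboundary_at_frobenius_of_locTrivAt [CharP k p] (hp : p.Prime)
    {c : GQ → Module.End k ρbar.V} (hc : IsTwCocycle ρbar p c) {q : ℕ} (hq : q.Prime)
    (hloc : LocTrivAt ρbar p q c) {A : ValuationSubring Qb} (hA : A.LiesOverPrime q) {τ : GQ}
    (hτ : A.IsFrobeniusAt τ q) (hτ1 : IsCycExp p τ 1) :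
    ∃ m : Module.End k ρbar.V, LinearMap.trace k ρbar.V m = 0 ∧
      c τ = ρbar.ρ τ * m * ρbar.ρ τ⁻¹ - m := by
  obtain ⟨P, hP, m₀, hm₀, hcob⟩ := hloc
  obtain ⟨g, hg⟩ := Fermat.Agent.Lib.Cheb.H476.exists_smul_eq hq hA hP
  have hmem : g * τ * g⁻¹ ∈ P.decompositionSubgroup ℚ := by
    have := Fermat.Agent.Lib.Cheb.H476.conj_mem_decomposition g hτ.mem_decompositionSubgroup
    rwa [hg] at this
  have h := hcob _ hmem 1 (isCycExp_one_conj p hτ1 g)
  simp only [twAd, Nat.cast_one, one_smul] at h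
  exact coboundary_of_conj hp hc g τ hτ1 m₀ hm₀ h

end Fermat.Agent.S56.H536

end
end
-- ===== PACK-END S56/H536/Cocycle.lean

-- ===== PACK-BEGIN S59/H659/Cyclo.lean
section



/-!
# S59, piece G3 (helper659): cyclotomic congruences

* `IsCycExp N σ a` : `σ` acts on the `N`-th roots of unity of `ℚ̄` by `μ ↦ μ ^ a`;
  existence (`exists_isCycExp`) and uniqueness modulo `N` (`IsCycExp.modEq`).
* `CycCong p σ d z` : the congruences `d ≡ a z` modulo `pⁿ` for all cyclotomic exponents `a` of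
  `σ` at the levels `pⁿ` ("`d = ε(σ) z`"), as they occur in the Prelude's `DetIsCyclotomic` and
  `IsStrictOrdinaryAt`; they are stable under ring homomorphisms (`CycCong.map`), descend along
  jointly injective pairs of homomorphisms to rings in which `p` is nilpotent
  (`CycCong.of_fibre`) and from the quotients `A ⧸ 𝔪ⁿ` (`CycCong.of_quotients`).
* `exists_inertia_cycExp_ne_one` : for an odd prime `p` the inertia group of a place of `ℚ̄`
  over `p` acts non-trivially on the `p`-th roots of unity.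
-/

set_option autoImplicit false
set_option linter.unusedSectionVars false
set_option linter.style.haveILetI false

namespace Fermat.Agent.S59.H659

open Fermat.Agent.S53 IsLocalRing Polynomial

/-- `σ` acts on the `N`-th roots of unity by `μ ↦ μ ^ a`. -/
def IsCycExp (N : ℕ) (σ : GQ) (a : ℕ) : Prop :=
  ∀ μ : AlgebraicClosure ℚ, μ ^ N = 1 → σ μ = μ ^ a

theorem exists_isCycExp (N : ℕ) (hN : N ≠ 0) (σ : GQ) : ∃ a : ℕ, IsCycExp N σ a := by
  haveI : NeZero N := ⟨hN⟩
  refine ⟨(modularCyclotomicCharacter.toFun N (σ : AlgebraicClosure ℚ ≃+* AlgebraicClosure ℚ)).val,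
    fun μ hμ => ?_⟩
  have hu : IsUnit μ := IsUnit.of_pow_eq_one hμ hN
  have hmem : hu.unit ∈ rootsOfUnity N (AlgebraicClosure ℚ) := by
    rw [mem_rootsOfUnity]
    apply Units.ext
    rw [Units.val_pow_eq_pow_val, IsUnit.unit_spec, hμ, Units.val_one]
  have := modularCyclotomicCharacter.toFun_spec'
    (σ : AlgebraicClosure ℚ ≃+* AlgebraicClosure ℚ) hmem
  simpa using this

theorem IsCycExp.of_dvd {N N' : ℕ} (h : N ∣ N') {σ : GQ} {a : ℕ} (ha : IsCycExp N' σ a) :
    IsCycExp N σ a := by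
  intro μ hμ
  obtain ⟨c, rfl⟩ := h
  exact ha μ (by rw [pow_mul, hμ, one_pow])

theorem IsCycExp.modEq {N : ℕ} (hN : N ≠ 0) {σ : GQ} {a a' : ℕ} (h : IsCycExp N σ a)
    (h' : IsCycExp N σ a') : a ≡ a' [MOD N] := by
  haveI : NeZero N := ⟨hN⟩
  obtain ⟨ζ, hζ⟩ := HasEnoughRootsOfUnity.exists_primitiveRoot (AlgebraicClosure ℚ) N
  have h1 : ζ ^ a = ζ ^ a' := by rw [← h ζ hζ.pow_eq_one, ← h' ζ hζ.pow_eq_one]
  have hfin : IsOfFinOrder ζ := isOfFinOrder_iff_pow_eq_one.mpr ⟨N, Nat.pos_of_ne_zero hN,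
    hζ.pow_eq_one⟩
  have h2 := hfin.pow_eq_pow_iff_modEq.mp h1
  rwa [← hζ.eq_orderOf] at h2

/-- The difference of two cyclotomic exponents at level `N` is divisible by `N` in any ring. -/
theorem IsCycExp.sub_mem {N : ℕ} (hN : N ≠ 0) {σ : GQ} {a a' : ℕ} (h : IsCycExp N σ a)
    (h' : IsCycExp N σ a') (A : Type) [CommRing A] :
    (a : A) - (a' : A) ∈ Ideal.span {((N : ℕ) : A)} := by
  have h1 := (Int.natCast_modEq_iff.mpr (h'.modEq hN h)).dvd
  obtain ⟨c, hc⟩ := h1
  rw [Ideal.mem_span_singleton']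
  refine ⟨(c : A), ?_⟩
  have : ((a : ℤ) - (a' : ℤ) : ℤ) = N * c := hc
  have h2 := congrArg (Int.cast : ℤ → A) this
  push_cast at h2
  rw [h2, mul_comm]

/-- The congruences `d ≡ ε(σ) z` modulo all powers of `p`. -/
def CycCong (p : ℕ) (σ : GQ) {A : Type} [CommRing A] (d z : A) : Prop :=
  ∀ n a : ℕ, (∀ μ : AlgebraicClosure ℚ, μ ^ p ^ n = 1 → σ μ = μ ^ a) →
    d - (a : A) * z ∈ Ideal.span {((p ^ n : ℕ) : A)}

theorem CycCong.map {p : ℕ} {σ : GQ} {A B : Type} [CommRing A] [CommRing B] (φ : A →+* B)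
    {d z : A} (h : CycCong p σ d z) : CycCong p σ (φ d) (φ z) := by
  intro n a ha
  have h1 := Ideal.mem_map_of_mem φ (h n a ha)
  rw [Ideal.map_span, Set.image_singleton, map_natCast, map_sub, map_mul, map_natCast] at h1
  exact h1

/-- If `p ^ N = 0` in `A` and `d ≡ ε(σ) z`, then `d = a z` for every exponent `a` of level
`p ^ N`. -/
theorem CycCong.eq_of_pow_eq_zero {p : ℕ} {σ : GQ} {A : Type} [CommRing A] {d z : A}
    (h : CycCong p σ d z) {N : ℕ} (hN : (p : A) ^ N = 0) {a : ℕ} (ha : IsCycExp (p ^ N) σ a) :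
    d = (a : A) * z := by
  have h1 := h N a ha
  rw [Nat.cast_pow, hN, Ideal.span_singleton_eq_bot.mpr rfl, Ideal.mem_bot, sub_eq_zero] at h1
  exact h1

/-- If `p ^ N = 0` in `A` and `d = a z` for one exponent `a` of level `p ^ N`, then
`d ≡ ε(σ) z`. -/
theorem CycCong.of_eq {p : ℕ} (hp : p ≠ 0) {σ : GQ} {A : Type} [CommRing A] {d z : A}
    {N : ℕ} (hN : (p : A) ^ N = 0) {a : ℕ} (ha : IsCycExp (p ^ N) σ a) (h : d = (a : A) * z) :
    CycCong p σ d z := by
  intro n b hb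
  have hb' : IsCycExp (p ^ n) σ b := hb
  rw [h, ← sub_mul]
  refine Ideal.mul_mem_right _ _ ?_
  rcases le_total n N with hnN | hNn
  · exact (ha.of_dvd (pow_dvd_pow p hnN)).sub_mem (pow_ne_zero _ hp) hb' A
  · have h1 := ha.sub_mem (pow_ne_zero _ hp) (hb'.of_dvd (pow_dvd_pow p hNn)) A
    rw [Nat.cast_pow, hN, Ideal.span_singleton_eq_bot.mpr rfl, Ideal.mem_bot] at h1
    rw [h1]
    exact Ideal.zero_mem _

/-- Descent of the cyclotomic congruences along a jointly injective pair of homomorphisms to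
rings in which `p` is nilpotent. -/
theorem CycCong.of_fibre {p : ℕ} (hp : p ≠ 0) {σ : GQ} {P A B : Type} [CommRing P] [CommRing A]
    [CommRing B] (pA : P →+* A) (pB : P →+* B)
    (hinj : Function.Injective (fun x => (pA x, pB x)))
    (hpA : IsNilpotent (p : A)) (hpB : IsNilpotent (p : B)) {d z : P}
    (hA : CycCong p σ (pA d) (pA z)) (hB : CycCong p σ (pB d) (pB z)) : CycCong p σ d z := by
  obtain ⟨N₁, hN₁⟩ := hpA
  obtain ⟨N₂, hN₂⟩ := hpB
  set N := N₁ + N₂ with hN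
  have hNA : (p : A) ^ N = 0 := by rw [hN, pow_add, hN₁, zero_mul]
  have hNB : (p : B) ^ N = 0 := by rw [hN, pow_add, hN₂, mul_zero]
  have hNP : (p : P) ^ N = 0 :=
    eq_zero_of_fibre pA pB hinj (by rw [map_pow, map_natCast, hNA])
      (by rw [map_pow, map_natCast, hNB])
  obtain ⟨a, ha⟩ := exists_isCycExp (p ^ N) (pow_ne_zero _ hp) σ
  refine CycCong.of_eq hp hNP ha (eq_of_fibre pA pB hinj ?_ ?_)
  · rw [map_mul, map_natCast]
    exact hA.eq_of_pow_eq_zero hNA ha
  · rw [map_mul, map_natCast]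
    exact hB.eq_of_pow_eq_zero hNB ha

/-- Descent of the cyclotomic congruences from the quotients `A ⧸ 𝔪ⁿ`. -/
theorem CycCong.of_quotients {p : ℕ} {σ : GQ} {A : Type} [CommRing A] [IsLocalRing A]
    [IsNoetherianRing A] {d z : A}
    (h : ∀ n : ℕ, n ≠ 0 → CycCong p σ (Ideal.Quotient.mk (maximalIdeal A ^ n) d)
      (Ideal.Quotient.mk (maximalIdeal A ^ n) z)) : CycCong p σ d z := by
  intro n a ha
  refine mem_of_quotients _ fun k hk => ?_
  have h1 := h k hk n a ha
  rw [Ideal.map_span, Set.image_singleton, map_natCast, map_sub, map_mul, map_natCast]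
  exact h1

/-- In an Artinian local ring with residue characteristic `p`, `p` is nilpotent. -/
theorem isNilpotent_natCast_of_mem {A : Type} [CommRing A] [IsLocalRing A] [IsArtinianRing A]
    {p : ℕ} (h : (p : A) ∈ maximalIdeal A) : IsNilpotent (p : A) := by
  obtain ⟨n, hn⟩ := exists_maximalIdeal_pow_eq_bot_of_isArtinianRing A
  refine ⟨n, ?_⟩
  have := Ideal.pow_mem_pow h n
  rwa [hn, Ideal.mem_bot] at this

/-- **Total ramification of `ℚ(ζ_p)` at `p`.** For an odd prime `p` and a place of `ℚ̄` over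
`p`, some element of the inertia group acts on the `p`-th roots of unity by an exponent
`a ≢ 1 mod p`. -/
theorem exists_inertia_cycExp_ne_one (p : ℕ) (hp : p.Prime) (hp2 : p ≠ 2)
    (𝔓 : ValuationSubring (AlgebraicClosure ℚ)) (h𝔓 : 𝔓.LiesOverPrime p) :
    ∃ σ ∈ 𝔓.inertiaSubgroupIn ℚ, ∀ a : ℕ, IsCycExp p σ a → ¬ a ≡ 1 [MOD p] := by
  haveI : NeZero p := ⟨hp.ne_zero⟩
  obtain ⟨ζ, hζ⟩ := HasEnoughRootsOfUnity.exists_primitiveRoot (AlgebraicClosure ℚ) p
  -- an automorphism moving `ζ`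
  have hζ2 : ζ ^ 2 ≠ ζ := by
    intro h
    have h1 : ζ ^ 2 = ζ ^ 1 := by rw [h, pow_one]
    have h2 := hζ.pow_inj (i := 2) (j := 1)
      (lt_of_le_of_ne hp.two_le (Ne.symm hp2)) hp.one_lt h1
    omega
  have hζ2' : IsPrimitiveRoot (ζ ^ 2) p := by
    refine hζ.pow_of_coprime 2 ?_
    exact (Nat.coprime_primes Nat.prime_two hp).mpr (Ne.symm hp2)
  obtain ⟨g, hg⟩ : ∃ g : GQ, g ζ = ζ ^ 2 := by
    haveI := Fermat.Agent.S54.isGalois_algebraicClosure_rat
    have hirr : Irreducible (cyclotomic p ℚ) := cyclotomic.irreducible_rat hp.pos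
    have hmin1 : minpoly ℚ ζ = cyclotomic p ℚ :=
      (hζ.minpoly_eq_cyclotomic_of_irreducible hirr).symm
    have hmin2 : minpoly ℚ (ζ ^ 2) = cyclotomic p ℚ :=
      (hζ2'.minpoly_eq_cyclotomic_of_irreducible hirr).symm
    have hconj : IsConjRoot ℚ (ζ ^ 2) ζ := by
      rw [IsConjRoot, hmin1, hmin2]
    obtain ⟨g, hg⟩ := (isConjRoot_iff_exists_algEquiv (K := ℚ) (L := AlgebraicClosure ℚ)
      (x := ζ ^ 2) (y := ζ)).mp hconj
    exact ⟨g, hg⟩
  have hconj : ∀ τ : GQ, (∀ x ∈ (⊥ : IntermediateField ℚ (AlgebraicClosure ℚ)), τ x = x) →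
      𝔓.valuation (τ (ζ - 1)) = 𝔓.valuation (ζ - 1) := by
    intro τ _
    have hτζ : IsPrimitiveRoot (τ ζ) p := hζ.map_of_injective τ.injective
    rw [map_sub, map_one]
    exact Fermat.Agent.S14.H894.valuation_sub_one_eq_of_mem_primitiveRoots 𝔓 p hp ζ hζ
      ((mem_primitiveRoots hp.pos).2 hτζ)
  have hbot : ∀ x ∈ (⊥ : IntermediateField ℚ (AlgebraicClosure ℚ)), g x = x := by
    intro x hx
    obtain ⟨q, rfl⟩ := IntermediateField.mem_bot.1 hx
    exact g.commutes q
  obtain ⟨σ, hσ, -, hσγ⟩ := Fermat.Agent.S14.H894.exists_inertia_eq_on_adjoin 𝔓 p hp h𝔓 ⊥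
    (ζ - 1) (Fermat.Agent.S14.H894.cycloShift p) (Fermat.Agent.S14.H894.cycloShift_monic p)
    (Fermat.Agent.S14.H894.cycloShift_aeval p hp ζ hζ)
    (Fermat.Agent.S14.H894.cyclo_indep 𝔓 p hp h𝔓 ζ hζ) hconj g hbot
  have hσζ : σ ζ = ζ ^ 2 := by
    have := hσγ
    rw [map_sub, map_sub, map_one, map_one] at this
    rw [← hg]
    exact sub_left_injective this
  refine ⟨σ, hσ, fun a ha hcon => hζ2 ?_⟩
  have hfin : IsOfFinOrder ζ := isOfFinOrder_iff_pow_eq_one.mpr ⟨p, hp.pos, hζ.pow_eq_one⟩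
  have h1 : ζ ^ a = ζ ^ 1 := by
    rw [hfin.pow_eq_pow_iff_modEq, ← hζ.eq_orderOf]
    exact hcon
  rw [← hσζ, ha ζ hζ.pow_eq_one, h1, pow_one]

end Fermat.Agent.S59.H659

end
-- ===== PACK-END S59/H659/Cyclo.lean

-- ===== PACK-BEGIN S53/Final.lean
section



set_option autoImplicit false

open IsLocalRing GaloisRep

namespace Fermat.Agent.S53

/-- The S53 statement from the abstract core alone (block B = `Rigid.rigidStatement` is done). -/
theorem nonempty_deformationRingData_of_core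
    (hD : Spec.AbstractCoreStatement)
    (𝒪 : Type) [CommRing 𝒪] [IsDomain 𝒪] [IsDiscreteValuationRing 𝒪]
    [IsAdicComplete (IsLocalRing.maximalIdeal 𝒪) 𝒪] [Finite (IsLocalRing.ResidueField 𝒪)]
    (ρbar : ResidualGaloisRep (IsLocalRing.ResidueField 𝒪))
    (𝒟 : ∀ ⦃A : Type⦄ [CommRing A] [IsLocalRing A] [Algebra 𝒪 A], GaloisRepAdic A → Prop)
    (habs : ρbar.IsAbsolutelyIrreducible)
    (h𝒟 : GaloisRep.IsDeformationCondition 𝒪 𝒟)
    (hbar : 𝒟 (GaloisRepAdic.ofResidualGaloisRep ρbar))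
    (hfin : GaloisRep.TangentFinite 𝒪 ρbar 𝒟) :
    Nonempty (GaloisRep.DeformationRingData 𝒪 ρbar 𝒟) :=
  nonempty_deformationRingData_of_spec 𝒪 hD Rigid.rigidStatement ρbar 𝒟 habs h𝒟 hbar hfin

end Fermat.Agent.S53

end
-- ===== PACK-END S53/Final.lean

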