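import Mathlib
import Fermat.Prelude.Def_Algebra_PatchingDatum
import Fermat.Agent.Pack.S43GC.G0E12L3
import Fermat.Agent.Pack.S43GC.G0E12L1
import Fermat.Agent.Pack.S43GC.G0E7L0
import Fermat.Agent.Pack.S43GC.G0E0L3
import Fermat.Agent.Pack.S43GC.G0E11L2
import Fermat.Agent.Pack.S43GC.G0E11L0
import Fermat.Agent.Pack.S43GC.G0E3L1
import Fermat.Agent.Pack.S43GC.G0E6L2
import Fermat.Agent.Pack.S43GC.G0E10L0
import Fermat.Agent.Pack.S43GC.G0E8L1
import Fermat.Agent.Pack.S43GC.G0E9L0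
import Fermat.Agent.Pack.S43GC.G0E11L1
import Fermat.Agent.Pack.S43GC.G0E2L1
import Fermat.Agent.Pack.S43GC.G0E6L0
import Fermat.Agent.Pack.S44C.G0E0L3
import Fermat.Agent.Pack.S43GC.G0E4L3
import Fermat.Agent.Pack.S43GC.G0E5L1
import Fermat.Agent.Pack.S43GC.G0E11L3
import Fermat.Agent.Pack.S43GC.G0E2L3
import Fermat.Agent.Pack.S43GC.G0E2L0
import Fermat.Agent.Pack.S43GC.G0E2L2
import Fermat.Agent.Pack.S43GC.G0E10L2
import Fermat.Agent.Pack.S43GC.G0E12L2
import Fermat.Agent.Pack.Fast891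

-- ===== PACK-BEGIN S55/Local/H964/T5.lean
section


/-!
# S55, layer L, piece T5 : `H²(Gal(L/K), Lˣ)` is cyclic of order `[L : K]` (helper964)

`h2Cyclic_of` : the glue theorem deriving `H2CyclicStatement` (T5) from

* UR5 `ExistsUnramExtStatement`, UR6' `InertiaCardStatement` (`Spec2.lean`),
  UR1 `UnramCyclicStatement`, T2 `UnramNormRangeStatement`,
* LF2 `ExistsUnifStatement`, LF3 `IntUnitsComapStatement`,
* A4a, A4b, A4d (standard cocycles of cyclic groups),
* T4 `H2CardDvdStatement` (upper bound).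

Proof (helper715's plan, §3 of `coord/S55-L.md`): `n = [L : K]`; `N / L` unramified of degree
`n`, Galois over `K` (UR5); `I` the inertia subgroup of `Gal(N/K)`, `E = N^I`; `E / K` is
unramified, hence cyclic, and `Gal(N/L) → Gal(E/K)` is injective.  The standard cocycle of
`ϖK ^ ([E : K] / n)` for a suitable generator of `Gal(E/K)` inflates to a cocycle of `Gal(N/K)`
whose class has order divisible by `n` (T2 for `E / K`) and whose restriction to `Gal(N/L)` is
trivial (T2 for `N / L`, as `|I| = e(N/K) = e(L/K)`); by inflation–restriction (Hilbert 90) it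
comes from a class of `H²(Gal(L/K), Lˣ)` of order divisible by `n`; conclude with T4.
-/

set_option autoImplicit false
set_option linter.style.haveILetI false
set_option linter.unusedSectionVars false
set_option linter.unusedVariables false

namespace Fermat.Agent.S55.Local.H964

open groupCohomology Fermat.Agent.S55.Local

/-- The lower bound of T5 in cocycle form: there is a 2-cocycle of `Gal(L/K)` with values in
`Lˣ` such that if its `k`-th power is a coboundary then `[L : K] ∣ k`. -/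
theorem exists_cocycle_order (hUR5 : ExistsUnramExtStatement) (hIC : InertiaCardStatement)
    (hUR1 : UnramCyclicStatement) (hT2 : UnramNormRangeStatement) (hLF2 : ExistsUnifStatement)
    (hLF3 : IntUnitsComapStatement) (hA4a : CycCocycleIsCocycleStatement)
    (hA4b : CycCocycleCoboundaryIffStatement) (hA4d : CycCocyclePullbackStatement)
    (A F : Type) [CommRing A] [IsDomain A] [IsDiscreteValuationRing A]
    [IsAdicComplete (IsLocalRing.maximalIdeal A) A] [Finite (IsLocalRing.ResidueField A)]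
    [Field F] [CharZero F] [Algebra A F] [IsFractionRing A F]
    (K : Type) [Field K] [Algebra F K] [FiniteDimensional F K]
    (L : Type) [Field L] [Algebra F L] [Algebra K L] [IsScalarTower F K L]
    [FiniteDimensional K L] [IsGalois K L] :
    ∃ cL : (L ≃ₐ[K] L) × (L ≃ₐ[K] L) → Lˣ, IsMulCocycle₂ cL ∧
      ∀ k : ℕ, IsMulCoboundary₂ (fun p => cL p ^ k) → Module.finrank K L ∣ k := by
  classical
  have hnpos : 0 < Module.finrank K L := Module.finrank_pos
  obtain ⟨N, _, _, _, _, _, _, _, _, _, hNL, hdeg⟩ := hUR5 A F K L (Module.finrank K L) hnpos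
  obtain ⟨I, hInormal, hI, hIcard⟩ := hIC A F K N
  haveI := hInormal
  -- the maximal unramified subextension
  let Ku : IntermediateField K N := IntermediateField.fixedField I
  letI algFKu : Algebra F Ku := ((algebraMap K Ku).comp (algebraMap F K)).toAlgebra
  haveI : IsScalarTower F K Ku := IsScalarTower.of_algebraMap_eq (fun _ => rfl)
  haveI : IsGalois K Ku := IsGalois.of_fixedField_normal_subgroup I
  have hker : kerRes K Ku N = I := by
    unfold kerRes resHom
    rw [IntermediateField.restrictNormalHom_ker, IntermediateField.fixingSubgroup_fixedField]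
  have hKuK : IsUnram A F Ku K :=
    (hI Ku).2.2 (le_of_eq (IntermediateField.fixingSubgroup_fixedField I).symm)
  -- `Gal(N/L) ⊓ I = ⊥`
  have hdisj : kerRes K L N ⊓ kerRes K Ku N = ⊥ := by
    rw [hker]
    have h1 := (hI (IntermediateField.fixedField (kerRes K L N))).1
    rw [IntermediateField.fixingSubgroup_fixedField] at h1
    apply h1.1
    intro x
    obtain ⟨y, hy⟩ := hNL x
    have hmem : algebraMap L N (y : L) ∈ IntermediateField.fixedField (kerRes K L N) := by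
      rw [IntermediateField.mem_fixedField_iff]
      intro s hs
      exact (mem_kerRes_iff s).1 hs _
    have hne : (⟨algebraMap L N (y : L), hmem⟩ :
        IntermediateField.fixedField (kerRes K L N)) ≠ 0 := by
      intro h0
      have := congrArg Subtype.val h0
      simp at this
    refine ⟨Units.mk0 _ hne, ?_⟩
    have e1 : unitsIncl N (IntermediateField.fixedField (kerRes K L N)) (Units.mk0 _ hne) =
        unitsIncl N L y := Units.ext rfl
    rw [e1]
    exact hy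
  exact exists_cocycle_lower_bound hUR1 hT2 hLF2 hLF3 hA4a hA4b hA4d A F K L Ku N hNL hdeg hKuK
    hdisj (by rw [hker]; exact hIcard)

/-- **T5** (glue): `H²(Gal(L/K), Lˣ)` is cyclic of order `[L : K]`. -/
theorem h2Cyclic_of (hUR5 : ExistsUnramExtStatement) (hIC : InertiaCardStatement)
    (hUR1 : UnramCyclicStatement) (hT2 : UnramNormRangeStatement) (hLF2 : ExistsUnifStatement)
    (hLF3 : IntUnitsComapStatement) (hA4a : CycCocycleIsCocycleStatement)
    (hA4b : CycCocycleCoboundaryIffStatement) (hA4d : CycCocyclePullbackStatement)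
    (hT4 : H2CardDvdStatement) : H2CyclicStatement := by
  intro A F _ _ _ _ _ _ _ _ _ K _ _ _ L _ _ _ _ _ _
  have hnpos : 0 < Module.finrank K L := Module.finrank_pos
  obtain ⟨cL, hcL, hlow⟩ :=
    exists_cocycle_order hUR5 hIC hUR1 hT2 hLF2 hLF3 hA4a hA4b hA4d A F K L
  refine card_eq_and_isAddCyclic hnpos (hT4 A F K L)
    (H2π (Rep.ofAlgebraAutOnUnits K L) (cocyclesOfIsMulCocycle₂ hcL)) (fun k hk => hlow k ?_)
  rw [← map_nsmul, H2π_eq_zero_iff] at hk
  have h1 := isMulCoboundary₂_of_mem_coboundaries₂ _ hk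
  exact h1

end Fermat.Agent.S55.Local.H964

end
-- ===== PACK-END S55/Local/H964/T5.lean

-- ===== PACK-BEGIN S55/T/NakH837/Lattice.lean
section


/-!
# S55, layer T, leaf T6 (helper837): dimension shifting preserves lattices

If `A` is finitely generated and free over a PID `k`, so are `coind₁ A` and `up A = coind₁ A / A`.
-/

set_option autoImplicit false
set_option linter.unusedSectionVars false
set_option linter.style.haveILetI false

open CategoryTheory groupCohomology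

namespace Fermat.Agent.S55.T.H837

open Fermat.Agent.S55.H572

noncomputable section

variable {k G : Type} [CommRing k] [Group G]

/-- `coind₁ A` is the module of all functions `G → A`. -/
def coind₁Equiv (A : Rep.{0} k G) : (coind₁ A).V ≃ₗ[k] (G → A.V) where
  toFun φ := φ.1
  map_add' _ _ := rfl
  map_smul' _ _ := rfl
  invFun f := mkCoind (Rep.res (⊥ : Subgroup G).subtype A) f
  left_inv _ := rfl
  right_inv _ := rfl

theorem finite_coind₁ [Finite G] (A : Rep.{0} k G) [Module.Finite k A.V] :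
    Module.Finite k (coind₁ A).V :=
  Module.Finite.equiv (coind₁Equiv A).symm

theorem free_coind₁ [Finite G] (A : Rep.{0} k G) [Module.Free k A.V] :
    Module.Free k (coind₁ A).V :=
  Module.Free.of_equiv (coind₁Equiv A).symm

theorem finite_up [Finite G] (A : Rep.{0} k G) [Module.Finite k A.V] :
    Module.Finite k (up A).V := by
  haveI : Module.Finite k (coind₁ A).V := finite_coind₁ A
  exact Module.Finite.of_surjective (upπ A).hom.toLinearMap
    ((Rep.epi_iff_surjective (upπ A)).1 inferInstance)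

/-- Concrete exactness of `A → coind₁ A → up A`. -/
lemma exists_of_upπ_eq_zero (A : Rep.{0} k G) (φ : (coind₁ A).V) (h : (upπ A).hom φ = 0) :
    ∃ a : A.V, (coind₁ι A).hom a = φ := by
  have hr : LinearMap.range (upSC A).f.hom.toLinearMap = LinearMap.ker (upSC A).g.hom.toLinearMap :=
    ((upSC_shortExact A).exact.map (forget₂ (Rep k G) (ModuleCat k))).moduleCat_range_eq_ker
  have : φ ∈ LinearMap.ker (upSC A).g.hom.toLinearMap := h
  rw [← hr] at this
  exact this

theorem isTorsionFree_up [IsDomain k] (A : Rep.{0} k G) [Module.IsTorsionFree k A.V] :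
    Module.IsTorsionFree k (up A).V where
  isSMulRegular r hr := by
    have hr0 : r ≠ 0 := hr.ne_zero
    intro y₁ y₂ hy
    have hy' : r • (y₁ - y₂) = 0 := by
      rw [smul_sub]; exact sub_eq_zero.2 hy
    obtain ⟨φ, hφ⟩ := (Rep.epi_iff_surjective (upπ A)).1 inferInstance (y₁ - y₂)
    have h0 : (upπ A).hom (r • φ) = 0 := by
      rw [map_smul, hφ, hy']
    obtain ⟨a, ha⟩ := exists_of_upπ_eq_zero A _ h0
    have h1 : ∀ x : G, r • φ.1 x = A.ρ x a := fun x => by
      have := congrArg (fun ψ : (coind₁ A).V => ψ.1 x) ha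
      rw [← coind₁ι_hom_apply A a x]
      exact this.symm
    have h2 : (coind₁ι A).hom (φ.1 1) = φ := by
      apply Subtype.ext
      funext x
      rw [coind₁ι_hom_apply]
      apply smul_right_injective (M := A.V) hr0
      change r • A.ρ x (φ.1 1) = r • φ.1 x
      rw [← map_smul, h1 1, h1 x, map_one]
      rfl
    have h3 : y₁ - y₂ = 0 := by
      rw [← hφ, ← h2]
      exact congrArg (fun m : A ⟶ up A => m.hom (φ.1 1)) (upSC A).zero
    exact sub_eq_zero.1 h3

/-- `up A` is finitely generated free over a PID if `A` is. -/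
theorem free_up [Finite G] [IsDomain k] [IsPrincipalIdealRing k] (A : Rep.{0} k G)
    [Module.Free k A.V] [Module.Finite k A.V] : Module.Free k (up A).V := by
  haveI : Module.Finite k (up A).V := finite_up A
  haveI : Module.IsTorsionFree k A.V := inferInstance
  haveI : Module.IsTorsionFree k (up A).V := isTorsionFree_up A
  exact Module.free_of_finite_type_torsion_free'

/-- The invariants of a lattice over a PID are free. -/
theorem free_invariants [IsDomain k] [IsPrincipalIdealRing k] (L : Rep.{0} k G)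
    [Module.Free k L.V] [Module.Finite k L.V] : Module.Free k L.ρ.invariants := by
  haveI : IsNoetherian k L.V := isNoetherian_of_isNoetherianRing_of_finite k L.V
  haveI : Module.Finite k L.ρ.invariants :=
    Module.Finite.of_injective L.ρ.invariants.subtype Subtype.val_injective
  haveI : Module.IsTorsionFree k L.V := inferInstance
  haveI : Module.IsTorsionFree k L.ρ.invariants :=
    Function.Injective.moduleIsTorsionFree L.ρ.invariants.subtype Subtype.val_injective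
      (fun _ _ => rfl)
  exact Module.free_of_finite_type_torsion_free'

end

end Fermat.Agent.S55.T.H837

end
-- ===== PACK-END S55/T/NakH837/Lattice.lean

-- ===== PACK-BEGIN S55/PT/FiniteIndexH424.lean
section



/-!
# S55 / layer D leaves **D-F7c, D-F7d**: global and local levels have finite index (helper424)
-/

set_option autoImplicit false
set_option linter.unusedSectionVars false
set_option linter.style.haveILetI false

namespace Fermat.Agent.S55.PT.H424

open Fermat.Agent.S55.PT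

/-- **D-F7c.** Global levels have finite index. -/
theorem globalFiniteIndex : GlobalFiniteIndexSpec := by
  rintro S U ⟨F, hF, rfl⟩
  haveI : FiniteDimensional ℚ F := hF.1
  haveI : Algebra.IsAlgebraic ℚ (AlgebraicClosure ℚ) := AlgebraicClosure.isAlgebraic ℚ
  haveI : IsAlgClosure ℚ (AlgebraicClosure ℚ) := ⟨inferInstance, inferInstance⟩
  haveI : Normal ℚ (AlgebraicClosure ℚ) := IsAlgClosure.normal ℚ (AlgebraicClosure ℚ)
  exact Fermat.Agent.S55.H424.fixingSubgroup_finiteIndex F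

/-- Levels pulled back along any `r : G → G_ℚ` have finite index. -/
theorem pullbackLevels_finiteIndex {G : Type} [Group G] (r : G →* GQ) :
    (pullbackLevels r).FiniteIndex := by
  rintro U ⟨F, hF, rfl⟩
  haveI := hF
  haveI : Algebra.IsAlgebraic ℚ (AlgebraicClosure ℚ) := AlgebraicClosure.isAlgebraic ℚ
  haveI : IsAlgClosure ℚ (AlgebraicClosure ℚ) := ⟨inferInstance, inferInstance⟩
  haveI : Normal ℚ (AlgebraicClosure ℚ) := IsAlgClosure.normal ℚ (AlgebraicClosure ℚ)
  exact Fermat.Agent.S55.H424.comap_fixingSubgroup_finiteIndex r F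

/-- **D-F7d.** Local levels have finite index. -/
theorem localFiniteIndex : LocalFiniteIndexSpec :=
  fun q => pullbackLevels_finiteIndex (rl q)

end Fermat.Agent.S55.PT.H424

end
-- ===== PACK-END S55/PT/FiniteIndexH424.lean

-- ===== PACK-BEGIN S55/H696/DevFilt.lean
section



/-!
# S55 / dévissage (helper696), part 3: the filtration of `Ind_H R`

`H ≤ G` a subgroup, `R` a representation of `G` over a field `k`.  For a subspace `N ≤ R` put

  `filt H R N = {f : G ⧸ H →₀ R | ∀ g, g⁻¹ • f (g H) ∈ N}`,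

a `G`-stable subspace of `Ind_H R = (G ⧸ H →₀ R)` (diagonal action); `filtRep H R N` is the
corresponding representation.  If `N` is `H`-stable, `ℓ` is a linear form on `R` which is
`H`-invariant on `N` and does not vanish on `N`, and `μ` is a line on which `H` acts trivially,
there is a short exact sequence

  `0 → filtRep H R (N ⊓ ker ℓ) → filtRep H R N → Ind_H μ → 0`          (`filtSES`).
-/

set_option autoImplicit false

noncomputable section

namespace Fermat.Agent.S55.H696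

open groupCohomology Fermat.Agent.S55.PT

variable {G : Type} [Group G] {k : Type} [Field k]

/-! ### the induced action, pointwise -/

lemma indAct_apply (H : Subgroup G) (M : Rep.{0, 0, 0} k G) (g : G) (f : (G ⧸ H) →₀ M)
    (x : G ⧸ H) : indAct H M g f x = M.ρ g (f (g⁻¹ • x)) := by
  have key : (Finsupp.lapply x) ∘ₗ (indAct H M g) =
      (M.ρ g) ∘ₗ (Finsupp.lapply (g⁻¹ • x) : ((G ⧸ H) →₀ M) →ₗ[k] M) := by
    apply Finsupp.lhom_ext
    intro y m
    simp only [LinearMap.comp_apply, indAct_single, Finsupp.lapply_apply]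
    by_cases h : g • y = x
    · subst h
      rw [inv_smul_smul, Finsupp.single_eq_same, Finsupp.single_eq_same]
    · have h' : ¬ y = g⁻¹ • x := fun h' => h (by rw [h', smul_inv_smul])
      have e1 : (Finsupp.single (g • y) (M.ρ g m) : (G ⧸ H) →₀ M) x = 0 := by
        classical
        rw [Finsupp.single_apply, if_neg h]
      have e2 : (Finsupp.single y m : (G ⧸ H) →₀ M) (g⁻¹ • x) = 0 := by
        classical
        rw [Finsupp.single_apply, if_neg h']
      rw [e1, e2, map_zero]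
  exact LinearMap.congr_fun key f

lemma smul_mk_eq (H : Subgroup G) (g a : G) : g • (a : G ⧸ H) = ((g * a : G) : G ⧸ H) := rfl

/-! ### the filtration -/

section Filt

variable (H : Subgroup G) (R : Rep.{0, 0, 0} k G)

/-- `{f : G ⧸ H →₀ R | ∀ g, g⁻¹ • f (g H) ∈ N}` -/
def filt (N : Submodule k R) : Submodule k ((G ⧸ H) →₀ R) where
  carrier := {f | ∀ g : G, R.ρ g⁻¹ (f (g : G ⧸ H)) ∈ N}
  add_mem' := by
    intro f f' hf hf' g
    simp only [Finsupp.coe_add, Pi.add_apply, map_add]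
    exact N.add_mem (hf g) (hf' g)
  zero_mem' := by
    intro g
    simp only [Finsupp.coe_zero, Pi.zero_apply, map_zero]
    exact N.zero_mem
  smul_mem' := by
    intro c f hf g
    simp only [Finsupp.coe_smul, Pi.smul_apply, map_smul]
    exact N.smul_mem c (hf g)

variable {H R}

lemma mem_filt {N : Submodule k R} {f : (G ⧸ H) →₀ R} :
    f ∈ filt H R N ↔ ∀ g : G, R.ρ g⁻¹ (f (g : G ⧸ H)) ∈ N := Iff.rfl

lemma filt_mono {N N' : Submodule k R} (h : N' ≤ N) : filt H R N' ≤ filt H R N :=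
  fun _ hf g => h (hf g)

variable (H R)

lemma filt_le_comap (N : Submodule k R) (g : G) :
    filt H R N ≤ (filt H R N).comap (indRho H R g) := by
  intro f hf a
  show R.ρ a⁻¹ (indAct H R g f (a : G ⧸ H)) ∈ N
  rw [indAct_apply, smul_mk_eq, ← Module.End.mul_apply, ← map_mul]
  have := hf (g⁻¹ * a)
  rwa [mul_inv_rev, inv_inv] at this

/-- the representation on `filt H R N` -/
abbrev filtRep (N : Submodule k R) : Rep.{0, 0, 0} k G :=
  Rep.of ((indRho H R).subrepresentation (filt H R N) (filt_le_comap H R N))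

lemma filtRep_ρ_coe (N : Submodule k R) (g : G) (f : ↥(filt H R N)) :
    (((filtRep H R N).ρ g f : ↥(filt H R N)) : (G ⧸ H) →₀ R) =
      indAct H R g (f : (G ⧸ H) →₀ R) := rfl

instance filtRep_bot_subsingleton : Subsingleton (filtRep H R (⊥ : Submodule k R)) := by
  refine ⟨fun a b => ?_⟩
  have h0 : ∀ f : ↥(filt H R (⊥ : Submodule k R)), (f : (G ⧸ H) →₀ R) = 0 := by
    intro f
    ext x
    induction x using QuotientGroup.induction_on with
    | H g =>
      have h1 : R.ρ g⁻¹ ((f : (G ⧸ H) →₀ R) (g : G ⧸ H)) = 0 := (Submodule.mem_bot k).1 (f.2 g)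
      have h2 := congrArg (R.ρ g) h1
      rw [← Module.End.mul_apply, ← map_mul, mul_inv_cancel, map_one, map_zero] at h2
      exact h2
  exact Subtype.ext ((h0 a).trans (h0 b).symm)

/-- a normal subgroup contained in `H` and acting trivially on `R` acts trivially on
`Ind_H R` -/
lemma indAct_eq_self_of_normal (U : Subgroup G) [U.Normal] (hUH : U ≤ H)
    (hUR : ∀ s ∈ U, ∀ r : R, R.ρ s r = r) (s : G) (hs : s ∈ U) (f : (G ⧸ H) →₀ R) :
    indAct H R s f = f := by
  ext x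
  rw [indAct_apply, hUR s hs]
  congr 1
  induction x using QuotientGroup.induction_on with
  | H g =>
    rw [smul_mk_eq]
    apply QuotientGroup.eq.2
    have h1 : g⁻¹ * s * g⁻¹⁻¹ ∈ U := ‹U.Normal›.conj_mem s hs g⁻¹
    have h2 : (s⁻¹ * g)⁻¹ * g = g⁻¹ * s * g⁻¹⁻¹ := by group
    rw [h2]
    exact hUH h1

end Filt

/-! ### the graded pieces -/

section Graded

variable (H : Subgroup G) (R μ : Rep.{0, 0, 0} k G) (ℓ : R →ₗ[k] k) (m₀ : μ)

/-- the component `r ↦ ℓ (x̃⁻¹ r) • x̃ m₀` at the coset `x` (`x̃` the chosen representative) -/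
def gradAt (x : G ⧸ H) : R →ₗ[k] μ :=
  (LinearMap.toSpanSingleton k μ (μ.ρ (Quotient.out x) m₀)) ∘ₗ ℓ ∘ₗ (R.ρ (Quotient.out x)⁻¹)

lemma gradAt_apply (x : G ⧸ H) (r : R) :
    gradAt H R μ ℓ m₀ x r = ℓ (R.ρ (Quotient.out x)⁻¹ r) • μ.ρ (Quotient.out x) m₀ := rfl

/-- the map `Ind_H R → Ind_H μ`, `f ↦ (x ↦ ℓ (x̃⁻¹ f x) • x̃ m₀)` -/
def grad : ((G ⧸ H) →₀ R) →ₗ[k] ((G ⧸ H) →₀ μ) :=
  Finsupp.lsum k (fun x : G ⧸ H => (Finsupp.lsingle x) ∘ₗ (gradAt H R μ ℓ m₀ x))

lemma grad_single (x : G ⧸ H) (r : R) :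
    grad H R μ ℓ m₀ (Finsupp.single x r) = Finsupp.single x (gradAt H R μ ℓ m₀ x r) := by
  rw [grad, Finsupp.lsum_single]
  rfl

lemma grad_apply (f : (G ⧸ H) →₀ R) (x : G ⧸ H) :
    grad H R μ ℓ m₀ f x = gradAt H R μ ℓ m₀ x (f x) := by
  have key : (Finsupp.lapply x) ∘ₗ (grad H R μ ℓ m₀) =
      (gradAt H R μ ℓ m₀ x) ∘ₗ (Finsupp.lapply x : ((G ⧸ H) →₀ R) →ₗ[k] R) := by
    apply Finsupp.lhom_ext
    intro y r
    simp only [LinearMap.comp_apply, grad_single, Finsupp.lapply_apply]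
    by_cases h : y = x
    · subst h
      rw [Finsupp.single_eq_same, Finsupp.single_eq_same]
    · have e1 : (Finsupp.single y (gradAt H R μ ℓ m₀ y r) : (G ⧸ H) →₀ μ) x = 0 := by
        classical
        rw [Finsupp.single_apply, if_neg h]
      have e2 : (Finsupp.single y r : (G ⧸ H) →₀ R) x = 0 := by
        classical
        rw [Finsupp.single_apply, if_neg h]
      rw [e1, e2, map_zero]
  exact LinearMap.congr_fun key f

variable {H R μ ℓ m₀}

/-- Independence of the representative. -/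
lemma grad_apply_mk {N : Submodule k R} (hμH : ∀ h ∈ H, μ.ρ h = 1)
    (hℓ : ∀ h ∈ H, ∀ n ∈ N, ℓ (R.ρ h n) = ℓ n) {f : (G ⧸ H) →₀ R} (hf : f ∈ filt H R N)
    (g : G) :
    grad H R μ ℓ m₀ f (g : G ⧸ H) = ℓ (R.ρ g⁻¹ (f (g : G ⧸ H))) • μ.ρ g m₀ := by
  rw [grad_apply, gradAt_apply]
  obtain ⟨h, hh⟩ := QuotientGroup.mk_out_eq_mul H g
  have hout : Quotient.out (g : G ⧸ H) = g * (h : G) := hh
  rw [hout, mul_inv_rev, map_mul, map_mul, Module.End.mul_apply, Module.End.mul_apply,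
    hμH h h.2, Module.End.one_apply, hℓ _ (H.inv_mem h.2) _ (hf g)]

lemma grad_indAct {N : Submodule k R} (hμH : ∀ h ∈ H, μ.ρ h = 1)
    (hℓ : ∀ h ∈ H, ∀ n ∈ N, ℓ (R.ρ h n) = ℓ n) {f : (G ⧸ H) →₀ R} (hf : f ∈ filt H R N)
    (g : G) :
    grad H R μ ℓ m₀ (indAct H R g f) = indAct H μ g (grad H R μ ℓ m₀ f) := by
  have hf' : indAct H R g f ∈ filt H R N := filt_le_comap H R N g hf
  ext x
  induction x using QuotientGroup.induction_on with
  | H a =>
    rw [grad_apply_mk hμH hℓ hf' a, indAct_apply, indAct_apply,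
      smul_mk_eq, grad_apply_mk hμH hℓ hf (g⁻¹ * a), map_smul, ← Module.End.mul_apply,
      ← Module.End.mul_apply, ← map_mul, ← map_mul, mul_inv_rev, inv_inv, mul_inv_cancel_left]

lemma rho_ne_zero (hm₀ : m₀ ≠ 0) (g : G) : μ.ρ g m₀ ≠ 0 := by
  intro h
  apply hm₀
  have := congrArg (μ.ρ g⁻¹) h
  rwa [← Module.End.mul_apply, ← map_mul, inv_mul_cancel, map_one, map_zero] at this

lemma grad_eq_zero_iff {N : Submodule k R} (hμH : ∀ h ∈ H, μ.ρ h = 1)
    (hℓ : ∀ h ∈ H, ∀ n ∈ N, ℓ (R.ρ h n) = ℓ n) (hm₀ : m₀ ≠ 0) {f : (G ⧸ H) →₀ R}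
    (hf : f ∈ filt H R N) :
    grad H R μ ℓ m₀ f = 0 ↔ f ∈ filt H R (N ⊓ LinearMap.ker ℓ) := by
  constructor
  · intro h g
    refine ⟨hf g, ?_⟩
    have h1 := grad_apply_mk (m₀ := m₀) hμH hℓ hf g
    rw [h, Finsupp.coe_zero, Pi.zero_apply] at h1
    rcases smul_eq_zero.1 h1.symm with h2 | h2
    · exact h2
    · exact absurd h2 (rho_ne_zero hm₀ g)
  · intro h
    ext x
    induction x using QuotientGroup.induction_on with
    | H g =>
      rw [grad_apply_mk hμH hℓ hf g, Finsupp.coe_zero, Pi.zero_apply]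
      have : ℓ (R.ρ g⁻¹ (f (g : G ⧸ H))) = 0 := (h g).2
      rw [this, zero_smul]

lemma exists_grad_eq_single {N : Submodule k R} (hμ1 : Module.finrank k μ = 1)
    (hμH : ∀ h ∈ H, μ.ρ h = 1) (hNH : ∀ h ∈ H, N ≤ N.comap (R.ρ h))
    (hℓ : ∀ h ∈ H, ∀ n ∈ N, ℓ (R.ρ h n) = ℓ n) (hm₀ : m₀ ≠ 0) {n₀ : R} (hn₀ : n₀ ∈ N)
    (hℓn₀ : ℓ n₀ ≠ 0) (g : G) (m : μ) :
    ∃ f ∈ filt H R N, grad H R μ ℓ m₀ f = Finsupp.single (g : G ⧸ H) m := by
  obtain ⟨c, hc⟩ := (finrank_eq_one_iff_of_nonzero' (μ.ρ g m₀) (rho_ne_zero hm₀ g)).1 hμ1 m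
  set r : R := (c * (ℓ n₀)⁻¹) • R.ρ g n₀ with hr
  have hmem : (Finsupp.single (g : G ⧸ H) r : (G ⧸ H) →₀ R) ∈ filt H R N := by
    intro a
    by_cases h : (g : G ⧸ H) = (a : G ⧸ H)
    · rw [← h, Finsupp.single_eq_same, hr, map_smul, ← Module.End.mul_apply, ← map_mul]
      have hH : a⁻¹ * g ∈ H := by
        have := QuotientGroup.eq.1 h.symm
        exact this
      exact N.smul_mem _ (hNH _ hH hn₀)
    · have e : (Finsupp.single (g : G ⧸ H) r : (G ⧸ H) →₀ R) (a : G ⧸ H) = 0 := by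
        classical
        rw [Finsupp.single_apply, if_neg h]
      rw [e, map_zero]
      exact N.zero_mem
  refine ⟨_, hmem, ?_⟩
  have h1 := grad_apply_mk (m₀ := m₀) hμH hℓ hmem g
  rw [grad_single] at h1 ⊢
  rw [Finsupp.single_eq_same] at h1
  rw [h1, Finsupp.single_eq_same, hr, map_smul, ← Module.End.mul_apply, ← map_mul,
    inv_mul_cancel, map_one, Module.End.one_apply, map_smul, smul_eq_mul, mul_assoc,
    inv_mul_cancel₀ hℓn₀, mul_one, hc]

variable (H R μ ℓ m₀)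

/-- the short exact sequence `0 → filt (N ⊓ ker ℓ) → filt N → Ind_H μ → 0` -/
def filtSES (N : Submodule k R) (hμ1 : Module.finrank k μ = 1)
    (hμH : ∀ h ∈ H, μ.ρ h = 1) (hNH : ∀ h ∈ H, N ≤ N.comap (R.ρ h))
    (hℓ : ∀ h ∈ H, ∀ n ∈ N, ℓ (R.ρ h n) = ℓ n) (hm₀ : m₀ ≠ 0)
    (hn₀ : ∃ n₀ ∈ N, ℓ n₀ ≠ 0) :
    SES (filtRep H R (N ⊓ LinearMap.ker ℓ)) (filtRep H R N) (indRep H μ) where
  i := Submodule.inclusion (filt_mono (inf_le_left : N ⊓ LinearMap.ker ℓ ≤ N))
  π := (grad H R μ ℓ m₀) ∘ₗ (filt H R N).subtype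
  hi := fun _ _ => rfl
  hπ := fun g f => grad_indAct hμH hℓ f.2 g
  inj := Submodule.inclusion_injective _
  surj := by
    obtain ⟨n₀, hn₀N, hℓn₀⟩ := hn₀
    intro F
    induction F using Finsupp.induction_linear with
    | zero => exact ⟨0, map_zero _⟩
    | add a b ha hb =>
      obtain ⟨fa, hfa⟩ := ha
      obtain ⟨fb, hfb⟩ := hb
      exact ⟨fa + fb, by rw [map_add, hfa, hfb]⟩
    | single x m =>
      induction x using QuotientGroup.induction_on with
      | H g =>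
        obtain ⟨f, hf, hfg⟩ := exists_grad_eq_single hμ1 hμH hNH hℓ hm₀ hn₀N hℓn₀ g m
        exact ⟨⟨f, hf⟩, hfg⟩
  exact := by
    ext f
    constructor
    · rintro ⟨f', rfl⟩
      rw [LinearMap.mem_ker]
      exact (grad_eq_zero_iff hμH hℓ hm₀ (filt_mono inf_le_left f'.2)).2 f'.2
    · intro hf
      rw [LinearMap.mem_ker] at hf
      exact ⟨⟨f.1, (grad_eq_zero_iff hμH hℓ hm₀ f.2).1 hf⟩, rfl⟩

end Graded

end Fermat.Agent.S55.H696

end

end
-- ===== PACK-END S55/H696/DevFilt.lean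

-- ===== PACK-BEGIN S55/G/Rec/H742/WAUnif.lean
section




/-!
# S55 / G / REC2-G3 (helper742): uniformizers and density of `K` in `K_v`

* `exists_isUniformizer` : the fixed field of a subgroup of finite index of `G_{ℚ_p}` has a
  uniformizer.
* `exists_global_norm_eq` : every nonzero element of the fixed field of `locSub p g U` has the
  same norm as (the image of) some element of `K = ℚ̄^U`  (density of `K` in `K_v`).
-/

set_option autoImplicit false
set_option linter.style.haveILetI false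

noncomputable section

namespace Fermat.Agent.S55.G.Rec.H742

open scoped Pointwise

local notation "Qb" => AlgebraicClosure ℚ
local notation "GQ" => (AlgebraicClosure ℚ ≃ₐ[ℚ] AlgebraicClosure ℚ)

variable (p : ℕ) [Fact p.Prime]

local notation "Gp" => (PadicAlgCl p ≃ₐ[ℚ_[p]] PadicAlgCl p)

theorem norm_natCast_self_padicAlgCl : ‖((p : ℕ) : PadicAlgCl p)‖ = (p : ℝ)⁻¹ := by
  have h : ((p : ℕ) : PadicAlgCl p) = algebraMap ℚ_[p] (PadicAlgCl p) (p : ℚ_[p]) := by
    rw [map_natCast]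
  rw [h, PadicAlgCl.norm_extends, Padic.norm_p]

theorem norm_natCast_padicAlgCl_of_ne {r : ℕ} (hr : r.Prime) (hpr : r ≠ p) :
    ‖((r : ℕ) : PadicAlgCl p)‖ = 1 := by
  have hp : (p : ℕ).Prime := Fact.out
  have h : ((r : ℕ) : PadicAlgCl p) = algebraMap ℚ_[p] (PadicAlgCl p) (r : ℚ_[p]) := by
    rw [map_natCast]
  rw [h, PadicAlgCl.norm_extends, Padic.norm_natCast_eq_one_iff]
  exact ((Nat.coprime_primes hr hp).2 hpr).symm

/-- ultrametric: `‖a - b‖ < ‖b‖` implies `‖a‖ = ‖b‖` -/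
theorem norm_eq_of_norm_sub_lt {a b : PadicAlgCl p} (h : ‖a - b‖ < ‖b‖) : ‖a‖ = ‖b‖ := by
  have h1 : ‖(a - b) + b‖ = max ‖a - b‖ ‖b‖ :=
    IsUltrametricDist.norm_add_eq_max_of_norm_ne_norm h.ne
  rw [sub_add_cancel] at h1
  rw [h1, max_eq_right h.le]

/-- the fixed field of a subgroup of finite index has a uniformizer -/
theorem exists_isUniformizer (V : Subgroup Gp) (hV : V.index ≠ 0) :
    ∃ π : (PadicAlgCl p)ˣ, IsUniformizer p V (π : PadicAlgCl p) := by
  have hp : (p : ℕ).Prime := Fact.out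
  have hp1 : (1 : ℝ) < p := by exact_mod_cast hp.one_lt
  have hp0 : (0 : ℝ) < p := by exact_mod_cast hp.pos
  set n := V.index with hn
  let P : ℤ → Prop := fun k => ∃ x : (PadicAlgCl p)ˣ, LFixed p V x ∧ ‖(x : PadicAlgCl p)‖ < 1 ∧
    ‖(x : PadicAlgCl p)‖ ^ n = (p : ℝ) ^ k
  have hbdd : ∀ k, P k → k ≤ -1 := by
    rintro k ⟨x, -, hx1, hxk⟩
    have h1 : ‖(x : PadicAlgCl p)‖ ^ n < 1 := pow_lt_one₀ (norm_nonneg _) hx1 hV
    rw [hxk] at h1
    by_contra hk
    push Not at hk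
    have hk0 : 0 ≤ k := by omega
    have : (1 : ℝ) ≤ (p : ℝ) ^ k := one_le_zpow₀ hp1.le hk0
    linarith
  have hne : ∃ k, P k := by
    have hpu : IsUnit ((p : ℕ) : PadicAlgCl p) := by
      rw [isUnit_iff_ne_zero]
      exact_mod_cast hp.ne_zero
    obtain ⟨u, hu⟩ := hpu
    have hfix : LFixed p V u := by
      intro τ _
      apply Units.ext
      show τ (u : PadicAlgCl p) = u
      rw [hu, map_natCast]
    obtain ⟨k, hk⟩ := VdegH707.exists_zpow p V u hfix
    refine ⟨k, u, hfix, ?_, hk⟩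
    rw [hu, norm_natCast_self_padicAlgCl]
    exact inv_lt_one_of_one_lt₀ hp1
  obtain ⟨k₀, ⟨π, hπfix, hπ1, hπk⟩, hmax⟩ := Int.exists_greatest_of_bdd ⟨-1, hbdd⟩ hne
  refine ⟨π, ?_, π.ne_zero, hπ1, ?_⟩
  · intro τ hτ
    exact congrArg (fun u : (PadicAlgCl p)ˣ => (u : PadicAlgCl p)) (hπfix τ hτ)
  · intro x hxfix hx1
    rcases eq_or_ne x 0 with rfl | hx0
    · rw [norm_zero]
      exact norm_nonneg _
    · obtain ⟨u, hu⟩ := isUnit_iff_ne_zero.2 hx0
      have hfix : LFixed p V u := by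
        intro τ hτ
        apply Units.ext
        show τ (u : PadicAlgCl p) = u
        rw [hu]
        exact hxfix τ hτ
      obtain ⟨k, hk⟩ := VdegH707.exists_zpow p V u hfix
      rw [hu] at hk
      have hPk : P k := ⟨u, hfix, by rw [hu]; exact hx1, by rw [hu]; exact hk⟩
      have hkk : k ≤ k₀ := hmax k hPk
      have h2 : ‖x‖ ^ n ≤ ‖(π : PadicAlgCl p)‖ ^ n := by
        rw [hk, hπk]
        exact zpow_le_zpow_right₀ hp1.le hkk
      exact (pow_le_pow_iff_left₀ (norm_nonneg _) (norm_nonneg _) hV).1 h2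

/-! ## Density of `K` in `K_v` -/

/-- the ring homomorphism `x ↦ ι_p (g⁻¹ x)` -/
def twEmb (g : GQ) : Qb →+* PadicAlgCl p :=
  (padicEmbedding p).toRingHom.comp ((g⁻¹ : GQ) : Qb ≃ₐ[ℚ] Qb).toAlgHom.toRingHom

theorem twEmb_apply (g : GQ) (x : Qb) : twEmb p g x = padicEmbedding p (g⁻¹ x) := rfl

/-- the image of `K = ℚ̄^U` in `ℚ̄_p` under `ι_p ∘ g⁻¹` -/
def imK (g : GQ) (U : Subgroup GQ) : Subring (PadicAlgCl p) :=
  (fixK U).toSubalgebra.toSubring.map (twEmb p g)

theorem mem_imK_iff (g : GQ) (U : Subgroup GQ) (y : PadicAlgCl p) :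
    y ∈ imK p g U ↔ ∃ x ∈ fixK U, padicEmbedding p (g⁻¹ x) = y := by
  unfold imK
  rw [Subring.mem_map]
  rfl

theorem algebraMap_mem_closure_imK (g : GQ) (U : Subgroup GQ) (y : ℚ_[p]) :
    algebraMap ℚ_[p] (PadicAlgCl p) y ∈ (imK p g U).topologicalClosure := by
  have hcont : Continuous (algebraMap ℚ_[p] (PadicAlgCl p)) := continuous_algebraMap _ _
  refine DenseRange.induction_on (Padic.denseRange_ratCast p) y ?_ ?_
  · exact (Subring.isClosed_topologicalClosure (imK p g U)).preimage hcont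
  · intro c
    apply Subring.le_topologicalClosure
    rw [mem_imK_iff]
    refine ⟨(c : Qb), ?_, ?_⟩
    · have : (c : Qb) = algebraMap ℚ Qb c := (eq_ratCast _ c).symm
      rw [this]
      exact (fixK U).algebraMap_mem c
    · rw [map_ratCast, map_ratCast, map_ratCast]

/-- the closure of the image of `K`, as a `ℚ_p`-subalgebra -/
def clK (g : GQ) (U : Subgroup GQ) : Subalgebra ℚ_[p] (PadicAlgCl p) :=
  { (imK p g U).topologicalClosure with
    algebraMap_mem' := fun y => algebraMap_mem_closure_imK p g U y }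

theorem mem_clK_iff (g : GQ) (U : Subgroup GQ) (y : PadicAlgCl p) :
    y ∈ clK p g U ↔ y ∈ closure ((imK p g U : Subring (PadicAlgCl p)) : Set (PadicAlgCl p)) :=
  Iff.rfl

/-- elements fixed by `locSub p g U` lie in `ℚ_p (ι_p g⁻¹ K)` -/
theorem mem_adjoin_of_isFixedBy {U : Subgroup GQ} (hU : IsOpenQ U) (g : GQ) (π : PadicAlgCl p)
    (hπ : IsFixedBy p (locSub p g U) π) :
    π ∈ IntermediateField.adjoin ℚ_[p] ((imK p g U : Subring (PadicAlgCl p)) : Set (PadicAlgCl p)) := by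
  haveI := BLocal.isGalois_padicAlgCl p
  set E := IntermediateField.adjoin ℚ_[p]
    ((imK p g U : Subring (PadicAlgCl p)) : Set (PadicAlgCl p)) with hE
  rw [← InfiniteGalois.fixedField_fixingSubgroup E, IntermediateField.mem_fixedField_iff]
  intro τ hτ
  apply hπ
  rw [mem_locSub, ← fixingSubgroup_fixK hU, IntermediateField.mem_fixingSubgroup_iff]
  intro x hx
  have hmem : padicEmbedding p (g⁻¹ x) ∈ E := by
    apply IntermediateField.subset_adjoin
    rw [SetLike.mem_coe, mem_imK_iff]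
    exact ⟨x, hx, rfl⟩
  have h1 : τ (padicEmbedding p (g⁻¹ x)) = padicEmbedding p (g⁻¹ x) :=
    (IntermediateField.mem_fixingSubgroup_iff E τ).1 hτ _ hmem
  rw [← padicEmbedding_localGaloisToGlobal] at h1
  have h2 : localGaloisToGlobal p τ (g⁻¹ x) = g⁻¹ x := (padicEmbedding p).injective h1
  show g (localGaloisToGlobal p τ (g⁻¹ x)) = x
  rw [h2]
  exact AlgEquiv.apply_symm_apply g x

/-- **Density**: a nonzero element of `K_v` has the norm of an element of `K`. -/
theorem exists_global_norm_eq {U : Subgroup GQ} (hU : IsOpenQ U) (g : GQ) (π : PadicAlgCl p)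
    (hπ0 : π ≠ 0) (hπ : IsFixedBy p (locSub p g U) π) :
    ∃ x ∈ fixK U, x ≠ 0 ∧ ‖padicEmbedding p (g⁻¹ x)‖ = ‖π‖ := by
  have h1 := mem_adjoin_of_isFixedBy p hU g π hπ
  have h2 : π ∈ Algebra.adjoin ℚ_[p]
      ((imK p g U : Subring (PadicAlgCl p)) : Set (PadicAlgCl p)) := by
    rw [← IntermediateField.adjoin_toSubalgebra]
    exact h1
  have h3 : π ∈ clK p g U := by
    refine (Algebra.adjoin_le (S := clK p g U) ?_) h2
    intro y hy
    exact Subring.le_topologicalClosure _ hy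
  rw [mem_clK_iff, Metric.mem_closure_iff] at h3
  obtain ⟨s, hs, hsπ⟩ := h3 ‖π‖ (norm_pos_iff.2 hπ0)
  rw [SetLike.mem_coe, mem_imK_iff] at hs
  obtain ⟨x, hx, rfl⟩ := hs
  rw [dist_comm, dist_eq_norm] at hsπ
  have hnorm := norm_eq_of_norm_sub_lt p hsπ
  refine ⟨x, hx, ?_, hnorm⟩
  rintro rfl
  rw [map_zero, map_zero, norm_zero] at hnorm
  exact hπ0 (norm_eq_zero.1 hnorm.symm)

end Fermat.Agent.S55.G.Rec.H742

end
end
-- ===== PACK-END S55/G/Rec/H742/WAUnif.lean

-- ===== PACK-BEGIN S55/Cap/Mod.lean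
section



/-!
# S55 / A8 (CAP): the big Galois modules `𝔼 ⊂ 𝕁`   (helper303)

* `SU S`  (`𝔼`) : the smooth `S`-units of `ℚ̄`, i.e. the `S`-units of the maximal extension
  `ℚ_S` of `ℚ` unramified outside `S`;  `= colim_L {e ∈ L.units | L.IsSUnit e}`;
* `JJ S q` (`𝕁_q`) : the smooth coinduction of `ℚ̄_qˣ` from the Prelude local group at `q`:
  functions `f : G_ℚ → ℚ̄_qˣ` with `f (d g) = d f(g)` (`d` local) which are right-invariant under
  some level `U_L`; `G_ℚ` acts by right translation;  `= colim_L (L.J q)`;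
* `JJS S = ∏_{q ∈ S} 𝕁_q`  (`𝕁`);
* `iEJ S : 𝔼 → 𝕁`, the diagonal embedding `x ↦ (g ↦ emb_q (g x))_q`.

All are `G_ℚ`-modules (`AddCommGroup` + `DistribMulAction`), smooth for the tower `Tow.Level S`.
-/

set_option autoImplicit false
set_option linter.unusedVariables false
set_option linter.unusedSectionVars false
set_option linter.style.haveILetI false

noncomputable section

namespace Fermat.Agent.S55.Cap

open Fermat.Agent.S55.PT Fermat.Agent.S55.Tow

variable (S : Finset Nat.Primes)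

/-! ### levels -/

/-- the compositum of two levels -/
def capSup (L L' : Level S) : Level S where
  F := L.F ⊔ L'.F
  unram := L.unram.sup L'.unram
  normalU := by
    rw [IntermediateField.fixingSubgroup_sup]
    haveI := L.normalU
    haveI := L'.normalU
    infer_instance

lemma le_capSup_left (L L' : Level S) : L ≤ capSup S L L' :=
  (le_sup_left : L.F ≤ L.F ⊔ L'.F)

lemma le_capSup_right (L L' : Level S) : L' ≤ capSup S L L' :=
  (le_sup_right : L'.F ≤ L.F ⊔ L'.F)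

/-- the bottom level `ℚ` -/
def capBot : Level S where
  F := ⊥
  unram := IntermediateField.isUnramifiedOutside_bot S
  normalU := by
    have : (⊥ : IntermediateField ℚ Qbar).fixingSubgroup = ⊤ := by
      ext g
      simp only [Subgroup.mem_top, iff_true]
      rw [IntermediateField.mem_fixingSubgroup_iff]
      intro x hx
      obtain ⟨r, rfl⟩ := IntermediateField.mem_bot.1 hx
      exact g.commutes r
    rw [this]
    infer_instance

lemma Level.U_mem_globalLevels (L : Level S) : L.U ∈ (globalLevels S).levels :=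
  ⟨L.F, L.unram, rfl⟩

lemma Level.conj_mem_U (L : Level S) {u : Tow.GQ} (hu : u ∈ L.U) (g : Tow.GQ) : g * u * g⁻¹ ∈ L.U :=
  L.normalU.conj_mem u hu g

lemma Level.conj_mem_U' (L : Level S) {u : Tow.GQ} (hu : u ∈ L.U) (g : Tow.GQ) : g⁻¹ * u * g ∈ L.U := by
  have := L.normalU.conj_mem u hu g⁻¹
  rwa [inv_inv] at this

/-! ### `𝔼` -/

/-- `x ∈ ℚ̄ˣ` is a unit at all places outside `S` -/
def IsSUq (x : unitsQbar.V) : Prop :=
  ∀ ℓ : Nat.Primes, ℓ ∉ S → ∀ A : ValuationSubring Qbar, A.LiesOverPrime (ℓ : ℕ) →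
    ((Additive.toMul x : Qbarˣ) : Qbar) ∈ A ∧ (((Additive.toMul x)⁻¹ : Qbarˣ) : Qbar) ∈ A

lemma isSUq_iff (L : Level S) (e : L.units.V) : L.IsSUnit e ↔ IsSUq S (L.unitsCoe e) := Iff.rfl

lemma toMul_add' (x y : unitsQbar.V) :
    (Additive.toMul (x + y) : Qbarˣ) = (Additive.toMul x : Qbarˣ) * (Additive.toMul y : Qbarˣ) :=
  rfl

lemma toMul_neg' (x : unitsQbar.V) :
    (Additive.toMul (-x) : Qbarˣ) = (Additive.toMul x : Qbarˣ)⁻¹ := rfl

lemma toMul_zero' : (Additive.toMul (0 : unitsQbar.V) : Qbarˣ) = 1 := rfl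

lemma toMul_ρ (g : Tow.GQ) (x : unitsQbar.V) :
    ((Additive.toMul (unitsQbar.ρ g x) : Qbarˣ) : Qbar) = g ((Additive.toMul x : Qbarˣ) : Qbar) :=
  rfl

lemma toMul_ρ_inv (g : Tow.GQ) (x : unitsQbar.V) :
    (((Additive.toMul (unitsQbar.ρ g x))⁻¹ : Qbarˣ) : Qbar)
      = g (((Additive.toMul x)⁻¹ : Qbarˣ) : Qbar) := by
  rw [Units.val_inv_eq_inv_val, Units.val_inv_eq_inv_val, toMul_ρ, map_inv₀]

/-- the transport of a valuation subring by an automorphism lies over the same prime -/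
lemma liesOverPrime_comap (A : ValuationSubring Qbar) (g : Tow.GQ) (ℓ : ℕ)
    (hA : A.LiesOverPrime ℓ) :
    (A.comap ((g : Qbar ≃ₐ[ℚ] Qbar) : Qbar →+* Qbar)).LiesOverPrime ℓ := by
  unfold ValuationSubring.LiesOverPrime at hA ⊢
  rw [ValuationSubring.mem_nonunits_iff_or] at hA ⊢
  rcases hA with h0 | h
  · exact Or.inl h0
  · right
    intro hmem
    apply h
    rw [ValuationSubring.mem_comap] at hmem
    have : ((g : Qbar ≃ₐ[ℚ] Qbar) : Qbar →+* Qbar) ((ℓ : Qbar)⁻¹) = (ℓ : Qbar)⁻¹ := by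
      rw [map_inv₀, map_natCast]
    rwa [this] at hmem

lemma isSUq_ρ (g : Tow.GQ) {x : unitsQbar.V} (hx : IsSUq S x) : IsSUq S (unitsQbar.ρ g x) := by
  intro ℓ hℓ A hA
  obtain ⟨h1, h2⟩ := hx ℓ hℓ _ (liesOverPrime_comap A g ℓ hA)
  rw [ValuationSubring.mem_comap] at h1 h2
  exact ⟨by rw [toMul_ρ]; exact h1, by rw [toMul_ρ_inv]; exact h2⟩

/-- the smooth `S`-units, as a subgroup of `ℚ̄ˣ` -/
def SUsub : AddSubgroup unitsQbar.V where
  carrier := {x | IsSUq S x ∧ ∃ L : Level S, ∀ g ∈ L.U, unitsQbar.ρ g x = x}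
  zero_mem' := by
    refine ⟨fun ℓ hℓ A hA => ?_, capBot S, fun g hg => map_zero _⟩
    rw [toMul_zero']
    exact ⟨A.one_mem, by rw [inv_one]; exact A.one_mem⟩
  add_mem' := by
    rintro x y ⟨hx, L, hL⟩ ⟨hy, L', hL'⟩
    refine ⟨fun ℓ hℓ A hA => ?_, capSup S L L', fun g hg => ?_⟩
    · obtain ⟨h1, h2⟩ := hx ℓ hℓ A hA
      obtain ⟨h3, h4⟩ := hy ℓ hℓ A hA
      rw [toMul_add']
      constructor
      · rw [Units.val_mul]
        exact A.mul_mem _ _ h1 h3
      · rw [mul_inv, Units.val_mul]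
        exact A.mul_mem _ _ h2 h4
    · rw [map_add, hL g (Level.U_anti (le_capSup_left S L L') hg),
        hL' g (Level.U_anti (le_capSup_right S L L') hg)]
  neg_mem' := by
    rintro x ⟨hx, L, hL⟩
    refine ⟨fun ℓ hℓ A hA => ?_, L, fun g hg => ?_⟩
    · obtain ⟨h1, h2⟩ := hx ℓ hℓ A hA
      rw [toMul_neg']
      exact ⟨h2, by rw [inv_inv]; exact h1⟩
    · rw [map_neg, hL g hg]

/-- `𝔼` : the smooth `S`-units -/
def SU : Type := ↥(SUsub S)

instance SU.instAddCommGroup : AddCommGroup (SU S) :=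
  inferInstanceAs (AddCommGroup ↥(SUsub S))

/-- the underlying element of `ℚ̄ˣ` -/
def SU.val : SU S →+ unitsQbar.V := (SUsub S).subtype

lemma SU.val_injective : Function.Injective (SU.val S) := Subtype.val_injective

lemma SU.isSUq (x : SU S) : IsSUq S (SU.val S x) := x.2.1

lemma SU.exists_level (x : SU S) : ∃ L : Level S, ∀ g ∈ L.U, unitsQbar.ρ g (SU.val S x) = SU.val S x :=
  x.2.2

lemma SU.ext {x y : SU S} (h : SU.val S x = SU.val S y) : x = y := SU.val_injective S h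

/-- constructor for elements of `𝔼` -/
def SU.mk (x : unitsQbar.V) (hx : IsSUq S x)
    (hsm : ∃ L : Level S, ∀ g ∈ L.U, unitsQbar.ρ g x = x) : SU S := ⟨x, hx, hsm⟩

@[simp] lemma SU.val_mk (x : unitsQbar.V) (hx) (hsm) : SU.val S (SU.mk S x hx hsm) = x := rfl

lemma ρ_comm_of_fixed (L : Level S) (g : Tow.GQ) {x : unitsQbar.V}
    (hx : ∀ u ∈ L.U, unitsQbar.ρ u x = x) : ∀ u ∈ L.U, unitsQbar.ρ u (unitsQbar.ρ g x) = unitsQbar.ρ g x := by
  intro u hu
  have h1 : u * g = g * (g⁻¹ * u * g) := by group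
  rw [← Module.End.mul_apply, ← map_mul, h1, map_mul, Module.End.mul_apply,
    hx _ (Level.conj_mem_U' S L hu g)]

instance SU.instDistribMulAction : DistribMulAction Tow.GQ (SU S) where
  smul g x := SU.mk S (unitsQbar.ρ g (SU.val S x)) (isSUq_ρ S g (SU.isSUq S x)) (by
    obtain ⟨L, hL⟩ := SU.exists_level S x
    exact ⟨L, ρ_comm_of_fixed S L g hL⟩)
  one_smul x := by
    apply SU.ext
    show unitsQbar.ρ 1 (SU.val S x) = SU.val S x
    rw [map_one, Module.End.one_apply]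
  mul_smul g h x := by
    apply SU.ext
    show unitsQbar.ρ (g * h) (SU.val S x) = unitsQbar.ρ g (unitsQbar.ρ h (SU.val S x))
    rw [map_mul, Module.End.mul_apply]
  smul_zero g := by
    apply SU.ext
    show unitsQbar.ρ g (SU.val S 0) = SU.val S 0
    rw [map_zero, map_zero]
  smul_add g x y := by
    apply SU.ext
    show unitsQbar.ρ g (SU.val S (x + y)) = unitsQbar.ρ g (SU.val S x) + unitsQbar.ρ g (SU.val S y)
    rw [map_add, map_add]

@[simp] lemma SU.val_smul (g : Tow.GQ) (x : SU S) :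
    SU.val S (g • x) = unitsQbar.ρ g (SU.val S x) := rfl

/-- `𝔼` is smooth for the tower -/
lemma SU.smooth (x : SU S) : ∃ L : Level S, ∀ g ∈ L.U, g • x = x := by
  obtain ⟨L, hL⟩ := SU.exists_level S x
  exact ⟨L, fun g hg => SU.ext S (hL g hg)⟩

/-! ### `𝕁` -/

/-- the smooth coinduction of `ℚ̄_qˣ`, as a subgroup of the group of all functions -/
def JJsub (q : Nat.Primes) : AddSubgroup (Tow.GQ → (unitsQpbar q).V) where
  carrier := {f | (∀ (d : GQp q) (g : Tow.GQ), f (locQ q d * g) = (unitsQpbar q).ρ d (f g)) ∧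
    ∃ L : Level S, ∀ u ∈ L.U, ∀ g : Tow.GQ, f (g * u) = f g}
  zero_mem' := ⟨fun d g => (map_zero _).symm, capBot S, fun u hu g => rfl⟩
  add_mem' := by
    rintro f f' ⟨hf, L, hL⟩ ⟨hf', L', hL'⟩
    refine ⟨fun d g => ?_, capSup S L L', fun u hu g => ?_⟩
    · show f (locQ q d * g) + f' (locQ q d * g) = (unitsQpbar q).ρ d (f g + f' g)
      rw [hf, hf', map_add]
    · show f (g * u) + f' (g * u) = f g + f' g
      rw [hL u (Level.U_anti (le_capSup_left S L L') hu),
        hL' u (Level.U_anti (le_capSup_right S L L') hu)]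
  neg_mem' := by
    rintro f ⟨hf, L, hL⟩
    refine ⟨fun d g => ?_, L, fun u hu g => ?_⟩
    · show -f (locQ q d * g) = (unitsQpbar q).ρ d (-f g)
      rw [hf, map_neg]
    · show -f (g * u) = -f g
      rw [hL u hu]

/-- `𝕁_q` -/
def JJ (q : Nat.Primes) : Type := ↥(JJsub S q)

instance JJ.instAddCommGroup (q : Nat.Primes) : AddCommGroup (JJ S q) :=
  inferInstanceAs (AddCommGroup ↥(JJsub S q))

/-- the underlying function -/
def JJ.val (q : Nat.Primes) : JJ S q →+ (Tow.GQ → (unitsQpbar q).V) := (JJsub S q).subtype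

/-- evaluation at `g` -/
def JJ.ev (q : Nat.Primes) (g : Tow.GQ) : JJ S q →+ (unitsQpbar q).V :=
  (Pi.evalAddMonoidHom _ g).comp (JJ.val S q)

lemma JJ.ext {q : Nat.Primes} {f f' : JJ S q} (h : ∀ g, JJ.ev S q g f = JJ.ev S q g f') : f = f' :=
  Subtype.ext (funext h)

lemma JJ.ev_mul_left (q : Nat.Primes) (f : JJ S q) (d : GQp q) (g : Tow.GQ) :
    JJ.ev S q (locQ q d * g) f = (unitsQpbar q).ρ d (JJ.ev S q g f) := f.2.1 d g

lemma JJ.exists_level (q : Nat.Primes) (f : JJ S q) :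
    ∃ L : Level S, ∀ u ∈ L.U, ∀ g : Tow.GQ, JJ.ev S q (g * u) f = JJ.ev S q g f := f.2.2

/-- constructor for elements of `𝕁_q` -/
def JJ.mk (q : Nat.Primes) (f : Tow.GQ → (unitsQpbar q).V)
    (h1 : ∀ (d : GQp q) (g : Tow.GQ), f (locQ q d * g) = (unitsQpbar q).ρ d (f g))
    (h2 : ∃ L : Level S, ∀ u ∈ L.U, ∀ g : Tow.GQ, f (g * u) = f g) : JJ S q := ⟨f, h1, h2⟩

@[simp] lemma JJ.ev_mk (q : Nat.Primes) (f) (h1) (h2) (g : Tow.GQ) :
    JJ.ev S q g (JJ.mk S q f h1 h2) = f g := rfl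

instance JJ.instDistribMulAction (q : Nat.Primes) : DistribMulAction Tow.GQ (JJ S q) where
  smul γ f := JJ.mk S q (fun g => JJ.ev S q (g * γ) f)
    (fun d g => by
      show JJ.ev S q (locQ q d * g * γ) f = _
      rw [mul_assoc, JJ.ev_mul_left])
    (by
      obtain ⟨L, hL⟩ := JJ.exists_level S q f
      refine ⟨L, fun u hu g => ?_⟩
      show JJ.ev S q (g * u * γ) f = JJ.ev S q (g * γ) f
      have h1 : g * u * γ = g * γ * (γ⁻¹ * u * γ) := by group
      rw [h1, hL _ (Level.conj_mem_U' S L hu γ)])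
  one_smul f := by
    apply JJ.ext
    intro g
    show JJ.ev S q (g * 1) f = _
    rw [mul_one]
  mul_smul γ γ' f := by
    apply JJ.ext
    intro g
    show JJ.ev S q (g * (γ * γ')) f = JJ.ev S q (g * γ * γ') f
    rw [mul_assoc]
  smul_zero γ := by
    apply JJ.ext
    intro g
    rfl
  smul_add γ f f' := by
    apply JJ.ext
    intro g
    rfl

@[simp] lemma JJ.ev_smul (q : Nat.Primes) (γ g : Tow.GQ) (f : JJ S q) :
    JJ.ev S q g (γ • f) = JJ.ev S q (g * γ) f := rfl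

/-- `𝕁_q` is smooth for the tower -/
lemma JJ.smooth (q : Nat.Primes) (f : JJ S q) : ∃ L : Level S, ∀ u ∈ L.U, u • f = f := by
  obtain ⟨L, hL⟩ := JJ.exists_level S q f
  exact ⟨L, fun u hu => JJ.ext S fun g => hL u hu g⟩

/-- `𝕁 = ∏_{q ∈ S} 𝕁_q` -/
def JJS : Type := (q : ↥S) → JJ S q.1

instance JJS.instAddCommGroup : AddCommGroup (JJS S) :=
  inferInstanceAs (AddCommGroup ((q : ↥S) → JJ S q.1))

instance JJS.instDistribMulAction : DistribMulAction Tow.GQ (JJS S) :=
  inferInstanceAs (DistribMulAction Tow.GQ ((q : ↥S) → JJ S q.1))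

/-- the `q`-component -/
def JJS.proj (q : ↥S) : JJS S →+ JJ S q.1 := Pi.evalAddMonoidHom _ q

lemma JJS.ext {x y : JJS S} (h : ∀ q, JJS.proj S q x = JJS.proj S q y) : x = y := funext h

@[simp] lemma JJS.proj_smul (q : ↥S) (γ : Tow.GQ) (x : JJS S) :
    JJS.proj S q (γ • x) = γ • JJS.proj S q x := rfl

/-- `𝕁` is smooth for the tower -/
lemma JJS.smooth (x : JJS S) : ∃ L : Level S, ∀ u ∈ L.U, u • x = x := by
  classical
  have key : ∀ T : Finset ↥S, ∃ L : Level S, ∀ q ∈ T, ∀ u ∈ L.U, u • JJS.proj S q x = JJS.proj S q x := by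
    intro T
    induction T using Finset.induction_on with
    | empty => exact ⟨capBot S, fun q hq => absurd hq (Finset.notMem_empty q)⟩
    | insert a T ha ih =>
      obtain ⟨L, hL⟩ := ih
      obtain ⟨L', hL'⟩ := JJ.smooth S a.1 (JJS.proj S a x)
      refine ⟨capSup S L L', fun q hq u hu => ?_⟩
      rcases Finset.mem_insert.1 hq with rfl | hq'
      · exact hL' u (Level.U_anti (le_capSup_right S L L') hu)
      · exact hL q hq' u (Level.U_anti (le_capSup_left S L L') hu)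
  obtain ⟨L, hL⟩ := key Finset.univ
  exact ⟨L, fun u hu => JJS.ext S fun q => hL q (Finset.mem_univ q) u hu⟩

/-! ### the diagonal embedding `𝔼 → 𝕁` -/

/-- the `q`-component of the diagonal embedding: `x ↦ (g ↦ emb_q (g x))` -/
def iEJq (q : Nat.Primes) : SU S →+ JJ S q where
  toFun x := JJ.mk S q (fun g => embQbar q (unitsQbar.ρ g (SU.val S x)))
    (fun d g => by
      rw [map_mul, Module.End.mul_apply, embQbar_equivariant])
    (by
      obtain ⟨L, hL⟩ := SU.exists_level S x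
      refine ⟨L, fun u hu g => ?_⟩
      rw [map_mul, Module.End.mul_apply, hL u hu])
  map_zero' := by
    apply JJ.ext
    intro g
    show embQbar q (unitsQbar.ρ g (SU.val S 0)) = 0
    rw [map_zero, map_zero, map_zero]
  map_add' x y := by
    apply JJ.ext
    intro g
    show embQbar q (unitsQbar.ρ g (SU.val S (x + y))) =
      embQbar q (unitsQbar.ρ g (SU.val S x)) + embQbar q (unitsQbar.ρ g (SU.val S y))
    rw [map_add, map_add, map_add]

@[simp] lemma ev_iEJq (q : Nat.Primes) (g : Tow.GQ) (x : SU S) :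
    JJ.ev S q g (iEJq S q x) = embQbar q (unitsQbar.ρ g (SU.val S x)) := rfl

lemma iEJq_smul (q : Nat.Primes) (γ : Tow.GQ) (x : SU S) : iEJq S q (γ • x) = γ • iEJq S q x := by
  apply JJ.ext
  intro g
  rw [JJ.ev_smul, ev_iEJq, ev_iEJq, SU.val_smul, map_mul, Module.End.mul_apply]

lemma embQbar_injective (q : Nat.Primes) : Function.Injective (embQbar q) := by
  intro x y h
  apply Additive.toMul.injective
  apply Units.ext
  have h' := congrArg (fun z : (unitsQpbar q).V =>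
    ((Additive.toMul z : (PadicAlgCl (q : ℕ))ˣ) : PadicAlgCl (q : ℕ))) h
  exact (padicEmbedding (q : ℕ)).toRingHom.injective h'

lemma iEJq_injective (q : Nat.Primes) : Function.Injective (iEJq S q) := by
  intro x y h
  apply SU.ext
  have h1 := congrArg (JJ.ev S q 1) h
  rw [ev_iEJq, ev_iEJq, map_one, Module.End.one_apply, Module.End.one_apply] at h1
  exact embQbar_injective q h1

/-- the diagonal embedding `𝔼 → 𝕁` -/
def iEJ : SU S →+ JJS S := AddMonoidHom.mk' (fun x q => iEJq S q.1 x) (fun x y => by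
  funext q
  exact map_add (iEJq S q.1) x y)

@[simp] lemma proj_iEJ (q : ↥S) (x : SU S) : JJS.proj S q (iEJ S x) = iEJq S q.1 x := rfl

lemma iEJ_smul (γ : Tow.GQ) (x : SU S) : iEJ S (γ • x) = γ • iEJ S x :=
  JJS.ext S fun q => iEJq_smul S q.1 γ x

lemma iEJ_injective (hS : S.Nonempty) : Function.Injective (iEJ S) := by
  obtain ⟨q, hq⟩ := hS
  intro x y h
  exact iEJq_injective S q (congrArg (JJS.proj S ⟨q, hq⟩) h)

end Fermat.Agent.S55.Cap

end
end
-- ===== PACK-END S55/Cap/Mod.lean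

-- ===== PACK-BEGIN S56/H666/Inv0.lean
section





/-!
# S56 / TB layer 2, leaf INV0 (helper666)

Under the standing hypotheses `Hyp` of S56 (`M = ad⁰ρ̄`):

* `inv0_line` : no nonzero trace-zero `m` with `ρ̄σ m ρ̄σ⁻¹ ∈ k·m` for all `σ`
  (no Galois-stable line in `ad⁰ρ̄`, whatever the character);
* `adInv_top_eq_bot` : `H⁰(G_ℚ, ad⁰ρ̄) = 0`, in the form `adInv ρbar ⊤ = ⊥`;
* `inv0_twisted` : `H⁰(G_ℚ, ad⁰ρ̄(1)) = 0`: no nonzero trace-zero `m` with
  `a • (ρ̄σ m ρ̄σ⁻¹) = m` whenever `IsCycExp p σ a`;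
* `inv0_twisted_inv` : the same for the inverse twist `ρ̄σ m ρ̄σ⁻¹ = a • m`.
-/

set_option autoImplicit false

open Polynomial IsLocalRing

namespace Fermat.Agent.S56.H666

open Fermat.Agent.S56

variable {𝒪 : Type} [CommRing 𝒪] [IsDomain 𝒪] [IsDiscreteValuationRing 𝒪]
  {p : ℕ} {ρbar : ResidualGaloisRep (ResidueField 𝒪)} {S Smin : Finset ℕ}

/-- No Galois-stable line in `ad⁰ρ̄`. -/
theorem inv0_line (H : Hyp 𝒪 p ρbar S Smin) (m : Module.End (ResidueField 𝒪) ρbar.V)
    (htr : LinearMap.trace (ResidueField 𝒪) ρbar.V m = 0)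
    (hst : ∀ σ : GQ, ∃ c : ResidueField 𝒪, ρbar.ρ σ * m * ρbar.ρ σ⁻¹ = c • m) : m = 0 := by
  by_contra hm
  have : Fact p.Prime := ⟨H.hp⟩
  exact Fermat.Agent.S56.P3.H666.line_false ρbar.ρ p H.hp2 (Fermat.Agent.S56.P3.twHyp_of_hyp H)
    m hm htr hst

/-- `H⁰(G_ℚ, ad⁰ρ̄) = 0`. -/
theorem adInv_top_eq_bot (H : Hyp 𝒪 p ρbar S Smin) :
    Fermat.Agent.S56.H716.adInv ρbar ⊤ = ⊥ := by
  rw [Submodule.eq_bot_iff]
  rintro m ⟨htr, hinv⟩
  refine inv0_line H m htr (fun σ => ⟨1, ?_⟩)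
  rw [one_smul]
  exact hinv σ (Subgroup.mem_top σ)

/-- `H⁰(G_ℚ, ad⁰ρ̄(1)) = 0`. -/
theorem inv0_twisted (H : Hyp 𝒪 p ρbar S Smin) (m : Module.End (ResidueField 𝒪) ρbar.V)
    (htr : LinearMap.trace (ResidueField 𝒪) ρbar.V m = 0)
    (hinv : ∀ (σ : GQ) (a : ℕ), IsCycExp p σ a →
      (a : ResidueField 𝒪) • (ρbar.ρ σ * m * ρbar.ρ σ⁻¹) = m) : m = 0 := by
  have : Fact p.Prime := ⟨H.hp⟩
  refine inv0_line H m htr (fun σ => ?_)
  obtain ⟨a, ha⟩ := Fermat.Agent.S56.P3.H254.cycExpExists p σ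
  have h1 := hinv σ a ha
  by_cases ha0 : (a : ResidueField 𝒪) = 0
  · refine ⟨0, ?_⟩
    rw [ha0, zero_smul] at h1
    rw [← h1, mul_zero, zero_mul, smul_zero]
  · refine ⟨(a : ResidueField 𝒪)⁻¹, ?_⟩
    rw [← h1, smul_smul, inv_mul_cancel₀ ha0, one_smul, h1]

/-- `H⁰(G_ℚ, ad⁰ρ̄(-1)) = 0`. -/
theorem inv0_twisted_inv (H : Hyp 𝒪 p ρbar S Smin) (m : Module.End (ResidueField 𝒪) ρbar.V)
    (htr : LinearMap.trace (ResidueField 𝒪) ρbar.V m = 0)
    (hinv : ∀ (σ : GQ) (a : ℕ), IsCycExp p σ a →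
      ρbar.ρ σ * m * ρbar.ρ σ⁻¹ = (a : ResidueField 𝒪) • m) : m = 0 := by
  have : Fact p.Prime := ⟨H.hp⟩
  refine inv0_line H m htr (fun σ => ?_)
  obtain ⟨a, ha⟩ := Fermat.Agent.S56.P3.H254.cycExpExists p σ
  exact ⟨a, hinv σ a ha⟩

end Fermat.Agent.S56.H666

end
-- ===== PACK-END S56/H666/Inv0.lean

-- ===== PACK-BEGIN S56/FL/RCInfl.lean
section


/-!
# Row S56 — W-FLAT-SS, leaf RCInfl (inflation–restriction by averaging) (helper426)

`rcInfl : RCInflStatement`.  Sorry-free, Mathlib only.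
-/

set_option autoImplicit false

open Polynomial IsLocalRing

noncomputable section

namespace Fermat.Agent.S56.FL

section

variable {Γ : Type} [Group Γ] {k : Type} [Field k] {V : Type} [AddCommGroup V] [Module k V]
  (ρ : Γ →* Module.End k V)

lemma rho_mul_rho_inv' (σ : Γ) : ρ σ * ρ σ⁻¹ = 1 := by
  rw [← map_mul, mul_inv_cancel, map_one]

lemma rho_inv_mul_rho' (σ : Γ) : ρ σ⁻¹ * ρ σ = 1 := by
  rw [← map_mul, inv_mul_cancel, map_one]

/-- A cocycle vanishing on `ker ρ` is constant on cosets of `ker ρ`. -/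
lemma cocycle_eq_of_rho_eq {c : Γ → Module.End k V}
    (hc : ∀ σ τ, c (σ * τ) = c σ + ρ σ * c τ * ρ σ⁻¹) (hv : ∀ σ, ρ σ = 1 → c σ = 0)
    {σ τ : Γ} (h : ρ σ = ρ τ) : c σ = c τ := by
  have h1 : τ = σ * (σ⁻¹ * τ) := by group
  have h2 : ρ (σ⁻¹ * τ) = 1 := by rw [map_mul, ← h, rho_inv_mul_rho']
  rw [h1, hc, hv _ h2]
  simp

end

/-- (IR) inflation–restriction by averaging over `Γ / ker ρ`. -/
theorem rcInfl : RCInflStatement := by
  intro p hp Γ _ _ k _ _ V _ _ ρ hindex c hc hv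
  classical
  -- the quotient `Δ = Γ / ker ρ`
  set K : Subgroup Γ := ρ.ker with hK
  have : Fintype (Γ ⧸ K) := Fintype.ofFinite _
  have hcard : ((Nat.card (Γ ⧸ K) : ℕ) : k) ≠ 0 := by
    intro h0
    rw [CharP.cast_eq_zero_iff k p] at h0
    exact hindex (by simpa [Subgroup.index] using h0)
  -- `c` and `ρ` factor through `Δ`
  have hρ : ∀ σ τ : Γ, (σ : Γ ⧸ K) = (τ : Γ ⧸ K) → ρ σ = ρ τ := by
    intro σ τ h
    have hmem : σ⁻¹ * τ ∈ K := QuotientGroup.eq.1 h
    have h2 : ρ (σ⁻¹ * τ) = 1 := hmem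
    have h1 : τ = σ * (σ⁻¹ * τ) := by group
    rw [h1, map_mul, h2, mul_one]
  have hcΔ : ∀ σ τ : Γ, (σ : Γ ⧸ K) = (τ : Γ ⧸ K) → c σ = c τ :=
    fun σ τ h => cocycle_eq_of_rho_eq ρ hc hv (hρ σ τ h)
  let cΔ : Γ ⧸ K → Module.End k V := fun x => c (Quotient.out x)
  have hcΔ' : ∀ σ : Γ, cΔ (σ : Γ ⧸ K) = c σ := fun σ =>
    hcΔ _ _ (QuotientGroup.out_eq' (σ : Γ ⧸ K))
  -- the averaging element
  set s : Module.End k V := ∑ x : Γ ⧸ K, cΔ x with hs
  set N : k := ((Nat.card (Γ ⧸ K) : ℕ) : k) with hN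
  refine ⟨-(N⁻¹ • s), fun σ => ?_⟩
  -- `ρ σ * s * ρ σ⁻¹ = s - N • c σ`
  have key : ρ σ * s * ρ σ⁻¹ = s - N • c σ := by
    have h1 : ρ σ * s * ρ σ⁻¹ = ∑ x : Γ ⧸ K, ρ σ * cΔ x * ρ σ⁻¹ := by
      rw [hs, Finset.mul_sum, Finset.sum_mul]
    have h2 : ∀ x : Γ ⧸ K, ρ σ * cΔ x * ρ σ⁻¹ = cΔ ((σ : Γ ⧸ K) * x) - c σ := by
      intro x
      obtain ⟨τ, rfl⟩ := QuotientGroup.mk_surjective x
      rw [hcΔ', ← QuotientGroup.mk_mul, hcΔ', hc]
      abel
    rw [h1, Finset.sum_congr rfl (fun x _ => h2 x), Finset.sum_sub_distrib]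
    have h3 : ∑ x : Γ ⧸ K, cΔ ((σ : Γ ⧸ K) * x) = s := by
      rw [hs]
      exact Fintype.sum_equiv (Equiv.mulLeft (σ : Γ ⧸ K)) _ _ (fun x => rfl)
    rw [h3, Finset.sum_const, Finset.card_univ, hN, Nat.card_eq_fintype_card, Nat.cast_smul_eq_nsmul]
  rw [mul_neg, neg_mul, mul_smul_comm, smul_mul_assoc, key, smul_sub, smul_smul,
    inv_mul_cancel₀ hcard, one_smul]
  abel

end Fermat.Agent.S56.FL

end

end
-- ===== PACK-END S56/FL/RCInfl.lean

-- ===== PACK-BEGIN S56/FL/LMGlue.lean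
section


/-!
# Row S56 — wall W-FLAT-SS — glue
`IntStatement → StructStatement → RootStatement → LocalModelStatement`  (helper434).  Sorry-free.
-/

set_option autoImplicit false

open Polynomial IsLocalRing

noncomputable section

namespace Fermat.Agent.S56.FL

open Fermat.Agent.S56 Fermat.Agent.S56.H716

/-- A unit of `B` maps to an element of valuation `1` when `ι` lands in `P`. -/
theorem valuation_eq_one_of_isUnit {B : Type} [CommRing B] (P : ValuationSubring Qb)
    (ι : B →+* Qb) (hι : ∀ b, ι b ∈ P) {u : B} (hu : IsUnit u) : P.valuation (ι u) = 1 := by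
  obtain ⟨w, hw⟩ := hu.exists_right_inv
  have h1 : P.valuation (ι u) ≤ 1 := (P.valuation_le_one_iff _).mpr (hι u)
  have h2 : P.valuation (ι w) ≤ 1 := (P.valuation_le_one_iff _).mpr (hι w)
  have h3 : P.valuation (ι u) * P.valuation (ι w) = 1 := by
    rw [← map_mul, ← map_mul, hw, map_one, map_one]
  refine le_antisymm h1 ?_
  calc (1 : P.ValueGroup) = P.valuation (ι u) * P.valuation (ι w) := h3.symm
    _ ≤ P.valuation (ι u) * 1 := mul_le_mul' le_rfl h2
    _ = P.valuation (ι u) := mul_one _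

/-- Glue: the concrete model, the structure theory and the root statement give the local model
with its different bound. -/
theorem localModel_of (hInt : IntStatement) (hStruct : StructStatement) (hRoot : RootStatement) :
    LocalModelStatement := by
  intro k _ _ p _ hp2 hchar ρbar hdet P hP c₁ c₂ h₁ h₂ ρ₁ ρ₂ hl₁ hl₂ hf₁ hf₂
  obtain ⟨A, B, iA1, iA2, iA3, iB1, iB2, iB3, iB4, iAB1, iAB2, iAB3, Γ, iΓ1, iΓ2, iΓ3, iΓ4, iΓ5,
    iΓ6, π, ζ, e, ι, hπ, hker, hA, hκ, hζ, hcyc, he, hιinj, hιrange, hequiv⟩ :=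
    hInt k p hp2 hchar ρbar hdet P hP c₁ c₂ h₁ h₂ ρ₁ ρ₂ hl₁ hl₂ hf₁ hf₂
  refine ⟨A, B, iA1, iA2, iA3, iB1, iB2, iB3, iB4, iAB1, iAB2, iAB3, Γ, iΓ1, iΓ2, iΓ3, iΓ4, iΓ5,
    iΓ6, π, ζ, e, hπ, hker, hA, hκ, hζ, hcyc, he, ?_⟩
  obtain ⟨B', ϖ, G, hAB', hB'val, hϖ, hrep, hGm, hGdeg, hGcoef, hGp, hG0, hGroot, hbound⟩ :=
    hStruct p A B Γ hA hκ e he
  intro j hpj hje hej
  have hj0 : 0 < j := by
    rcases Nat.eq_zero_or_pos j with h | h
    · subst h; simp at hej
    · exact h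
  refine hbound j hpj hj0 hje ?_
  -- range of `ι`
  have hιmem : ∀ b : B, ι b ∈ levelSet ρbar c₁ c₂ P := fun b => hιrange ▸ Set.mem_range_self b
  have hιP : ∀ b : B, ι b ∈ P := fun b => (hιmem b).1
  have hιp : ι (p : B) = (p : Qb) := map_natCast ι p
  -- the root in `ℚ̄`
  obtain ⟨ϖ', hϖ'mem, hϖ'root⟩ := hRoot k p hp2 hchar ρbar P hP c₁ c₂ h₁ h₂ ρ₁ ρ₂ hl₁ hl₂ hf₁ hf₂
    (B'.map ι) (ι ϖ) e (G.map ι)
    (by
      intro x hxP hxfix
      have hx : x ∈ levelSet ρbar c₁ c₂ P := ⟨hxP, fun σ hσ _ _ _ => hxfix σ hσ⟩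
      rw [← hιrange] at hx
      obtain ⟨b, rfl⟩ := hx
      have hbfix : ∀ γ : Γ, γ • b = b := by
        intro γ
        obtain ⟨σ, rfl⟩ := hπ γ
        apply hιinj
        rw [hequiv]
        exact hxfix σ σ.2
      obtain ⟨a, rfl⟩ := Algebra.IsInvariant.isInvariant (A := A) (G := Γ) b hbfix
      exact Subring.mem_map.mpr ⟨_, hAB' a, rfl⟩)
    (by
      intro b hb
      obtain ⟨b₀, -, rfl⟩ := Subring.mem_map.mp hb
      exact hιmem b₀)
    (by
      intro b hb hb0
      obtain ⟨b₀, hb₀, rfl⟩ := Subring.mem_map.mp hb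
      have hb₀0 : b₀ ≠ 0 := by
        rintro rfl
        exact hb0 (map_zero ι)
      obtain ⟨n, u, -, hu, rfl⟩ := hB'val b₀ hb₀ hb₀0
      refine ⟨n, ?_⟩
      rw [map_mul, map_pow, hιp, map_mul, map_pow, valuation_eq_one_of_isUnit P ι hιP hu,
        mul_one])
    (hιmem ϖ)
    (by
      have h1 : Ideal.span {(p : B)} = Ideal.span {ϖ ^ e} := by
        rw [he, hϖ, Ideal.span_singleton_pow]
      obtain ⟨u, hu⟩ := (Ideal.span_singleton_eq_span_singleton.mp h1)
      have : P.valuation (ι ((p : B) * (u : B))) = P.valuation (ι (ϖ ^ e)) := by rw [hu]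
      rw [map_mul, map_mul, hιp, valuation_eq_one_of_isUnit P ι hιP u.isUnit, mul_one,
        map_pow, map_pow] at this
      exact this.symm)
    (by
      intro b hb
      rw [← hιrange] at hb
      obtain ⟨b₀, rfl⟩ := hb
      obtain ⟨a, ha, hsum⟩ := hrep b₀
      refine ⟨fun i => ι (a i), fun i => Subring.mem_map.mpr ⟨_, ha i, rfl⟩, ?_⟩
      rw [hsum, map_sum]
      refine Finset.sum_congr rfl fun i _ => ?_
      rw [map_mul, map_pow])
    (hGm.map ι)
    (by rw [hGm.natDegree_map, hGdeg])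
    (by
      intro i
      rw [coeff_map]
      exact Subring.mem_map.mpr ⟨_, hGcoef i, rfl⟩)
    (by
      intro i hi
      obtain ⟨b, hb⟩ := Ideal.mem_span_singleton'.mp (hGp i hi)
      rw [coeff_map, ← hb, map_mul, map_mul, hιp]
      calc P.valuation (ι b) * P.valuation (p : Qb) ≤ 1 * P.valuation (p : Qb) :=
            mul_le_mul' ((P.valuation_le_one_iff _).mpr (hιP b)) le_rfl
        _ = P.valuation (p : Qb) := one_mul _)
    (by
      obtain ⟨u, hu, hG0u⟩ := hG0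
      rw [coeff_map, hG0u, map_mul, map_mul, hιp, valuation_eq_one_of_isUnit P ι hιP hu,
        mul_one])
    (by rw [eval_map, eval₂_at_apply, hGroot, map_zero])
    j hpj hj0 hje hej
  rw [← hιrange] at hϖ'mem
  obtain ⟨b', rfl⟩ := hϖ'mem
  refine ⟨b', hιinj ?_⟩
  rw [map_add, map_mul, map_pow, hιp, map_zero, ← hϖ'root, eval_map, eval₂_at_apply]

end Fermat.Agent.S56.FL

end

end
-- ===== PACK-END S56/FL/LMGlue.lean

-- ===== PACK-BEGIN S56/H287/StructMain.lean
section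




/-!
# S56 / LocalModel / STRUCT (helper287): `FL.StructStatement`

`struct : FL.StructStatement`, assembled from

* `H287/StructInertia.lean` — the inertia-fixed subring `B' = B^{Γ₀}` is a discrete valuation
  ring, unramified over `A` (`𝔪_{B'} = (p)`), with the same residue field as `B`;
* `H176/FLDStruct.lean` (helper176) — `FLD_struct_glue`: the Eisenstein presentation of `B` over
  an unramified intermediate discrete valuation ring with the same residue field, and the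
  different bound.
-/

set_option autoImplicit false

open IsLocalRing

namespace Fermat.Agent.S56.H287

/-- **STRUCT**: the frozen leaf `FL.StructStatement`. -/
theorem struct : Fermat.Agent.S56.FL.StructStatement := by
  intro p _ A B _ _ _ _ _ _ _ _ _ _ Γ _ _ _ _ _ _ hA hκ e he
  haveI : Finite (ResidueField A) :=
    Nat.finite_of_card_ne_zero (by rw [hκ]; exact (Fact.out : p.Prime).ne_zero)
  have hB₁ : maximalIdeal (inertiaSub A B Γ) = Ideal.span {(p : inertiaSub A B Γ)} := by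
    rw [← map_maximalIdeal_inertiaSub A B Γ, hA, Ideal.map_span, Set.image_singleton,
      map_natCast]
  obtain ⟨ϖ, G, h⟩ := H176.FLD_struct_glue p (A := A) (B₁ := inertiaSub A B Γ) (B := B) hA hB₁
    (exists_sub_mem_maximalIdeal A B Γ) e he
  exact ⟨(algebraMap (inertiaSub A B Γ) B).range, ϖ, G, h⟩

end Fermat.Agent.S56.H287

end
-- ===== PACK-END S56/H287/StructMain.lean

-- ===== PACK-BEGIN S56/H254/RootR2.lean
section






/-!
# S56 / W-FLAT-SS / LocalModel / ROOT, step R2 (helper254)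

`FL.RationalityStatement` (Theorem A) applied to the pair of flat lifts:

* `levelSubring ρbar c₁ c₂ P` — `FL.levelSet` as a subring of `ℚ̄`;
* `point_mem_levelSet` — values of points of the flat model of `V_{c₁} × V_{c₂}` lie in `levelSet`;
* `level_of_fixes` — **R2**: if `η` is an approximate ring homomorphism on `levelSet`
  (hypotheses of Theorem A, `γ ^ (p-1) < |p|`), then every `σ ∈ D_P` fixing the values of `η`
  satisfies `ρ̄ σ = 1`, `c₁ σ = 0`, `c₂ σ = 0`.

Sorry-free.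
-/

set_option autoImplicit false

open scoped TensorProduct
open WithConv

noncomputable section

namespace Fermat.Agent.S56.H254

open Fermat.Agent.S56 Fermat.Agent.S56.H716 Fermat.Agent.S56.FL

local notation "Zloc" => GaloisRep.ratLocalizedAt

section level

variable {k : Type} [Field k] (ρbar : ResidualGaloisRep k)
  (c₁ c₂ : GQ → Module.End k ρbar.V) (P : ValuationSubring Qb)

/-- `FL.levelSet` as a subring of `ℚ̄`. -/
def levelSubring : Subring Qb where
  carrier := levelSet ρbar c₁ c₂ P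
  mul_mem' := by
    rintro a b ⟨ha, ha'⟩ ⟨hb, hb'⟩
    refine ⟨P.mul_mem _ _ ha hb, fun σ hσ h1 h2 h3 => ?_⟩
    rw [map_mul, ha' σ hσ h1 h2 h3, hb' σ hσ h1 h2 h3]
  one_mem' := ⟨P.one_mem, fun σ _ _ _ _ => map_one σ⟩
  add_mem' := by
    rintro a b ⟨ha, ha'⟩ ⟨hb, hb'⟩
    refine ⟨P.add_mem _ _ ha hb, fun σ hσ h1 h2 h3 => ?_⟩
    rw [map_add, ha' σ hσ h1 h2 h3, hb' σ hσ h1 h2 h3]
  zero_mem' := ⟨P.zero_mem, fun σ _ _ _ _ => map_zero σ⟩
  neg_mem' := by
    rintro a ⟨ha, ha'⟩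
    refine ⟨P.neg_mem _ ha, fun σ hσ h1 h2 h3 => ?_⟩
    rw [map_neg, ha' σ hσ h1 h2 h3]

@[simp] theorem mem_levelSubring {x : Qb} :
    x ∈ levelSubring ρbar c₁ c₂ P ↔ x ∈ levelSet ρbar c₁ c₂ P := Iff.rfl

end level

/-- The rank-one condition of `FL.RationalityStatement` for a valuation subring of `ℚ̄` over a
prime. -/
theorem rankOne_of_liesOverPrime (P : ValuationSubring Qb) {p : ℕ} (hp : p.Prime)
    (hP : P.LiesOverPrime p) :
    ∀ x y : P.ValueGroup, x < 1 → y ≠ 0 → ∃ n : ℕ, x ^ n ≤ y := by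
  haveI : Algebra.IsAlgebraic ℚ Qb := AlgebraicClosure.isAlgebraic ℚ
  intro x y hx hy
  obtain ⟨a, rfl⟩ := P.valuation_surjective x
  obtain ⟨d, rfl⟩ := P.valuation_surjective y
  have ha : a ∈ P.nonunits := (ValuationSubring.mem_nonunits_iff (A := P)).mpr hx
  have hd : d ≠ 0 := (Valuation.ne_zero_iff _).mp hy
  obtain ⟨m, hm⟩ := Fermat.Agent.S37.H700.archVal_of_liesOverPrime P hp hP a ha d hd
  exact ⟨m, hm.le⟩

section points

variable {k : Type} [Field k] {ρbar : ResidualGaloisRep k}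
  {c₁ c₂ : GQ → Module.End k ρbar.V} {P : ValuationSubring Qb} {p : ℕ}

/-- In an additive group, an additive bijection from a convolution monoid sends `1` to `0`. -/
theorem map_one_of_add {M X : Type} [Monoid M] [AddCommGroup X] (e : M ≃ X)
    (hadd : ∀ f g : M, e (f * g) = e f + e g) : e 1 = 0 := by
  have h := hadd 1 1
  rw [mul_one] at h
  exact left_eq_add.mp h

/-- An additive bijection sends powers to multiples. -/
theorem map_pow_of_add {M X : Type} [Monoid M] [AddCommGroup X] (e : M ≃ X)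
    (hadd : ∀ f g : M, e (f * g) = e f + e g) (f : M) (n : ℕ) : e (f ^ n) = n • e f := by
  induction n with
  | zero => rw [pow_zero, zero_smul, map_one_of_add e hadd]
  | succ n ih => rw [pow_succ, hadd, ih, succ_nsmul]

/-- **R2.**  Theorem A for the pair of flat lifts: an element of the decomposition group which
fixes the values of an approximate ring homomorphism `η` on `levelSet` acts trivially on
`V_{c₁} × V_{c₂}`. -/
theorem level_of_fixes (hRat : RationalityStatement) [Finite k] [Fact p.Prime] (hchar : CharP k p)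
    (hP : P.LiesOverPrime p)
    {ρ₁ ρ₂ : GaloisRepAdic (DualNumber k)} (h₁ : IsLiftOf ρbar c₁ ρ₁) (h₂ : IsLiftOf ρbar c₂ ρ₂)
    (hf₁ : ρ₁.IsFlatAt p) (hf₂ : ρ₂.IsFlatAt p)
    (γ : P.ValueGroup) (hγ0 : γ ≠ 0) (hγ : γ ^ (p - 1) < P.valuation (p : Qb))
    (η : Qb → Qb)
    (hη1 : ∀ a ∈ levelSet ρbar c₁ c₂ P, P.valuation (η a) ≤ 1)
    (hηadd : ∀ a ∈ levelSet ρbar c₁ c₂ P, ∀ b ∈ levelSet ρbar c₁ c₂ P,
      P.valuation (η (a + b) - (η a + η b)) ≤ P.valuation (p : Qb) * γ)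
    (hηmul : ∀ a ∈ levelSet ρbar c₁ c₂ P, ∀ b ∈ levelSet ρbar c₁ c₂ P,
      P.valuation (η (a * b) - η a * η b) ≤ P.valuation (p : Qb) * γ)
    (hηR : ∀ r : Zloc p, P.valuation (η (algebraMap (Zloc p) Qb r) - algebraMap (Zloc p) Qb r)
      ≤ P.valuation (p : Qb) * γ)
    (hηiso : ∀ a ∈ levelSet ρbar c₁ c₂ P, P.valuation (η a) ≤ γ → P.valuation a ≤ γ)
    {σ : GQ} (hσ : σ ∈ P.decompositionSubgroup ℚ)
    (hfix : ∀ a ∈ levelSet ρbar c₁ c₂ P, σ (η a) = η a) :
    ρbar.ρ σ = 1 ∧ c₁ σ = 0 ∧ c₂ σ = 0 := by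
  haveI : Algebra.IsAlgebraic ℚ Qb := AlgebraicClosure.isAlgebraic ℚ
  have hp : p.Prime := Fact.out
  obtain ⟨H, i1, i2, hfin, hflat, hco, e, hadd, heq⟩ := isFlatMod_pair h₁ hf₁ h₂ hf₂
  -- the action is trivial on `N`
  have hN : ∀ τ ∈ P.decompositionSubgroup ℚ, ρbar.ρ τ = 1 → c₁ τ = 0 → c₂ τ = 0 →
      ∀ (f : H →ₐ[Zloc p] Qb) (h : H), τ (f h) = f h := by
    intro τ _ h1 h2 h3 f h
    have hact := (pair_fixed_iff c₁ c₂ τ).mpr ⟨h1, h2, h3⟩
    have hg : e (toConv (galPoint τ f)) = e (toConv f) :=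
      (heq τ (toConv f) (toConv (galPoint τ f)) (fun h => rfl)).trans (hact _)
    have := e.injective hg
    have h4 : galPoint τ f = f := WithConv.toConv_injective this
    have := congrArg (fun g : H →ₐ[Zloc p] Qb => g h) h4
    exact this
  -- instances for Theorem A
  haveI : Module.Finite (Zloc p) H := hfin
  haveI : Module.Flat (Zloc p) H := hflat
  haveI : Coalgebra.IsCocomm (Zloc p) H := hco
  haveI : Module.Free (Zloc p) H := Module.free_of_flat_of_isLocalRing
  haveI : Finite (DualNumber k) := finite_dualNumber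
  haveI : Finite (DualNumber k ⊗[k] ρbar.V) := by
    haveI : Module.Finite k (DualNumber k) := Module.Finite.of_finite
    haveI : Module.Finite k (DualNumber k ⊗[k] ρbar.V) := inferInstance
    exact Module.finite_of_finite k
  haveI : Finite (WithConv (H →ₐ[Zloc p] Qb)) := Finite.of_equiv _ e.symm
  haveI : Finite (H →ₐ[Zloc p] Qb) := Finite.of_equiv _ (WithConv.equiv _)
  -- points are killed by `p`
  have hpk : (p : k) = 0 := CharP.cast_eq_zero k p
  have hpow : ∀ x : WithConv (H →ₐ[Zloc p] Qb), x ^ p = 1 := by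
    intro x
    apply e.injective
    rw [map_pow_of_add e hadd, map_one_of_add e hadd]
    have : (p : ℕ) • e x = (p : k) • e x := (Nat.cast_smul_eq_nsmul k p (e x)).symm
    rw [this, hpk, zero_smul]
  -- apply Theorem A
  have key := hRat Qb P.ValueGroup P.valuation (rankOne_of_liesOverPrime P hp hP) (Zloc p)
    (fun r => (P.valuation_le_one_iff _).mpr (algebraMap_mem_valuationSubring P hP r))
    H p hp hpow γ hγ0 hγ (levelSubring ρbar c₁ c₂ P)
    (fun a ha => (P.valuation_le_one_iff _).mpr ha.1)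
    (fun x h => ⟨point_mem_valuationSubring P hP x h, fun τ hτ h1 h2 h3 => hN τ hτ h1 h2 h3 x h⟩)
    η hη1 hηadd hηmul hηR hηiso
    (σ : Qb →+* Qb)
    (fun a => Fermat.Agent.A2.H708.valuation_apply_of_mem_decomposition P hσ a)
    (fun r => σ.commutes _)
    hfix
  -- conclude
  refine (pair_fixed_iff c₁ c₂ σ).mp fun x => ?_
  obtain ⟨f, rfl⟩ := e.surjective x
  have hg : e (toConv (galPoint σ f.ofConv)) = (liftEnd ρbar c₁ σ (e f).1, liftEnd ρbar c₂ σ (e f).2) :=
    heq σ f (toConv (galPoint σ f.ofConv)) (fun h => rfl)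
  rw [← hg]
  congr 1
  apply WithConv.ofConv_injective
  refine AlgHom.ext fun h => ?_
  exact key f.ofConv h

end points

end Fermat.Agent.S56.H254

end

end
-- ===== PACK-END S56/H254/RootR2.lean

-- ===== PACK-BEGIN S56/H794/LocMinA.lean
section





/-!
# S56 / LOC-MIN-A (helper794): unipotent inertia ⟹ the tangent cocycle is a coboundary on inertia

`ρbar : ResidualGaloisRep k`, `p = 0` in `k`, `p` odd, `c` an ad⁰-cocycle (`H716.IsAdCocycle`),
`ρ'` a lift of `c` to `k[ε]` (`H716.IsLiftOf`) which is unipotent on inertia at a prime `q ≠ p`,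
`P | q` a valuation subring at which `ρbar` is ramified.  Then there is `m` of trace zero with
`c σ = ρ̄(σ) m ρ̄(σ)⁻¹ − m` for all `σ ∈ I_P` (`exists_coboundary_on_inertia_of_unipotent`).

Proof: `σ ↦ (1 + ε c σ) ρ̄ σ` has image of exponent `p` on `I_P` (Cayley–Hamilton), hence cyclic
image (landed `inertia_image_pow_of_ne_one`), generated by the image of any `τ` with
`ρ̄ τ ≠ 1`; the 2×2 lemma (`Nilp2.lean`) conjugates `(1 + ε c τ) ρ̄ τ` to `ρ̄ τ`.
-/

set_option autoImplicit false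

open scoped TensorProduct
open Polynomial

noncomputable section

namespace Fermat.Agent.S56.H794

open Fermat.Agent.S56 Fermat.Agent.S56.H716

variable {k : Type} [Field k] (ρbar : ResidualGaloisRep k)

theorem liftEnd_eq_dualEnd (c : GQ → Module.End k ρbar.V) (σ : GQ) :
    liftEnd ρbar c σ = dualEnd (ρbar.ρ σ) (c σ * ρbar.ρ σ) := rfl

theorem rho_mul_rho_inv (σ : GQ) : ρbar.ρ σ * ρbar.ρ σ⁻¹ = 1 := by
  rw [← map_mul, mul_inv_cancel, map_one]

theorem rho_inv_mul_rho (σ : GQ) : ρbar.ρ σ⁻¹ * ρbar.ρ σ = 1 := by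
  rw [← map_mul, inv_mul_cancel, map_one]

variable {ρbar}

theorem IsAdCocycle_map_one {c : GQ → Module.End k ρbar.V} (hc : IsAdCocycle ρbar c) :
    c 1 = 0 := by
  have h := hc.map_mul 1 1
  rw [mul_one, map_one, inv_one, map_one, one_mul, mul_one] at h
  exact left_eq_add.mp h

theorem liftEnd_mul {c : GQ → Module.End k ρbar.V} (hc : IsAdCocycle ρbar c) (σ τ : GQ) :
    liftEnd ρbar c (σ * τ) = liftEnd ρbar c σ * liftEnd ρbar c τ := by
  rw [liftEnd_eq_dualEnd, liftEnd_eq_dualEnd, liftEnd_eq_dualEnd, dualEnd_mul, hc.map_mul,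
    map_mul]
  have key : (c σ + ρbar.ρ σ * c τ * ρbar.ρ σ⁻¹) * (ρbar.ρ σ * ρbar.ρ τ) =
      ρbar.ρ σ * (c τ * ρbar.ρ τ) + c σ * ρbar.ρ σ * ρbar.ρ τ := by
    rw [add_mul, add_comm]
    have e1 : ρbar.ρ σ * c τ * ρbar.ρ σ⁻¹ * (ρbar.ρ σ * ρbar.ρ τ) =
        ρbar.ρ σ * (c τ * ρbar.ρ τ) := by
      simp only [mul_assoc]
      rw [← mul_assoc (ρbar.ρ σ⁻¹), rho_inv_mul_rho, one_mul]
    rw [e1, mul_assoc (c σ)]
  rw [key]

theorem liftEnd_one {c : GQ → Module.End k ρbar.V} (hc : IsAdCocycle ρbar c) :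
    liftEnd ρbar c 1 = 1 := by
  rw [liftEnd_eq_dualEnd, IsAdCocycle_map_one hc, zero_mul, map_one, dualEnd_one_zero]

/-- The lift `σ ↦ (1 + ε c σ) ρ̄ σ` as a monoid homomorphism. -/
def liftMonoidHom {c : GQ → Module.End k ρbar.V} (hc : IsAdCocycle ρbar c) :
    GQ →* Module.End (DualNumber k) (DualNumber k ⊗[k] ρbar.V) where
  toFun := liftEnd ρbar c
  map_one' := liftEnd_one hc
  map_mul' := liftEnd_mul hc

/-- The lift as a homomorphism to the unit group. -/
def liftUnits {c : GQ → Module.End k ρbar.V} (hc : IsAdCocycle ρbar c) :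
    GQ →* (Module.End (DualNumber k) (DualNumber k ⊗[k] ρbar.V))ˣ :=
  (liftMonoidHom hc).toHomUnits

theorem coe_liftUnits {c : GQ → Module.End k ρbar.V} (hc : IsAdCocycle ρbar c) (σ : GQ) :
    ((liftUnits hc σ : (Module.End (DualNumber k) (DualNumber k ⊗[k] ρbar.V))ˣ) :
      Module.End (DualNumber k) (DualNumber k ⊗[k] ρbar.V)) = liftEnd ρbar c σ := rfl

theorem finiteLevel_liftUnits {c : GQ → Module.End k ρbar.V} (hc : IsAdCocycle ρbar c) :
    FiniteLevel (liftUnits hc) := by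
  obtain ⟨L₁, hL₁, h₁⟩ := ρbar.factorsThroughFiniteLevel
  obtain ⟨L₂, hL₂, h₂⟩ := hc.level
  refine ⟨L₁ ⊔ L₂, IntermediateField.finiteDimensional_sup L₁ L₂, fun τ hτ => ?_⟩
  apply Units.ext
  rw [coe_liftUnits, Units.val_one, liftEnd_eq_dualEnd]
  have hρ : ρbar.ρ τ = 1 := h₁ τ (fun x hx => hτ x ((le_sup_left : L₁ ≤ L₁ ⊔ L₂) hx))
  have hcτ : c τ = 0 := by
    have := h₂ 1 τ (fun x hx => hτ x ((le_sup_right : L₂ ≤ L₁ ⊔ L₂) hx))
    rw [one_mul, IsAdCocycle_map_one hc] at this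
    exact this
  rw [hρ, hcτ, zero_mul, dualEnd_one_zero]

/-- Two cocycle-like functions agreeing at `τ` agree on the powers of `τ`. -/
theorem cocycle_pow_eq {c : GQ → Module.End k ρbar.V} (hc : IsAdCocycle ρbar c)
    (m : Module.End k ρbar.V) (τ : GQ) (h : c τ = ρbar.ρ τ * m * ρbar.ρ τ⁻¹ - m) (j : ℕ) :
    c (τ ^ j) = ρbar.ρ (τ ^ j) * m * ρbar.ρ (τ ^ j)⁻¹ - m := by
  induction j with
  | zero => simp [IsAdCocycle_map_one hc]
  | succ j ih =>
    rw [pow_succ, hc.map_mul, ih, h, mul_inv_rev, map_mul, map_mul]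
    have e1 : ρbar.ρ (τ ^ j) * (ρbar.ρ τ * m * ρbar.ρ τ⁻¹ - m) * ρbar.ρ (τ ^ j)⁻¹ =
        ρbar.ρ (τ ^ j) * ρbar.ρ τ * m * (ρbar.ρ τ⁻¹ * ρbar.ρ (τ ^ j)⁻¹) -
          ρbar.ρ (τ ^ j) * m * ρbar.ρ (τ ^ j)⁻¹ := by
      rw [mul_sub, sub_mul]
      simp only [mul_assoc]
    rw [e1]
    abel

/-- Unipotent lifts: for `σ` in inertia, `(liftEnd c σ − 1)² = 0`. -/
theorem liftEnd_sub_one_sq {c : GQ → Module.End k ρbar.V}
    {ρ' : GaloisRepAdic (DualNumber k)} (hlift : IsLiftOf ρbar c ρ')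
    {q : ℕ} (hunip : ρ'.IsUnipotentOnInertiaAt q)
    {P : ValuationSubring Qb} (hP : P.LiesOverPrime q) {σ : GQ}
    (hσ : σ ∈ P.inertiaSubgroupIn ℚ) :
    (liftEnd ρbar c σ - 1) * (liftEnd ρbar c σ - 1) = 0 := by
  obtain ⟨e, he⟩ := hlift
  have hconj : liftEnd ρbar c σ = e.conj (ρ'.ρ σ) := by
    apply LinearMap.ext
    intro x
    rw [LinearEquiv.conj_apply_apply, he, LinearEquiv.apply_symm_apply]
  have hchar : LinearMap.charpoly (liftEnd ρbar c σ) = (X - 1) ^ 2 := by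
    rw [hconj, LinearEquiv.charpoly_conj]
    exact hunip P hP σ hσ
  have hCH := LinearMap.aeval_self_charpoly (liftEnd ρbar c σ)
  rw [hchar] at hCH
  simpa [pow_two] using hCH

/-- The components of `(liftEnd c σ − 1)² = 0`. -/
theorem unipotent_components {c : GQ → Module.End k ρbar.V}
    {ρ' : GaloisRepAdic (DualNumber k)} (hlift : IsLiftOf ρbar c ρ')
    {q : ℕ} (hunip : ρ'.IsUnipotentOnInertiaAt q)
    {P : ValuationSubring Qb} (hP : P.LiesOverPrime q) {σ : GQ}
    (hσ : σ ∈ P.inertiaSubgroupIn ℚ) :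
    (ρbar.ρ σ - 1) * (ρbar.ρ σ - 1) = 0 ∧
      (ρbar.ρ σ - 1) * (c σ * ρbar.ρ σ) + c σ * ρbar.ρ σ * (ρbar.ρ σ - 1) = 0 := by
  have h := liftEnd_sub_one_sq hlift hunip hP hσ
  have h1 : liftEnd ρbar c σ - 1 = dualEnd (ρbar.ρ σ - 1) (c σ * ρbar.ρ σ) := by
    rw [liftEnd_eq_dualEnd, ← dualEnd_one_zero, dualEnd_sub, sub_zero]
  rw [h1, dualEnd_mul] at h
  exact dualEnd_eq_zero h

/-- Unipotent lifts have exponent `p` on inertia. -/
theorem liftEnd_pow_eq_one {p : ℕ} (hpk : (p : k) = 0) {c : GQ → Module.End k ρbar.V}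
    {ρ' : GaloisRepAdic (DualNumber k)} (hlift : IsLiftOf ρbar c ρ')
    {q : ℕ} (hunip : ρ'.IsUnipotentOnInertiaAt q)
    {P : ValuationSubring Qb} (hP : P.LiesOverPrime q) {σ : GQ}
    (hσ : σ ∈ P.inertiaSubgroupIn ℚ) :
    liftEnd ρbar c σ ^ p = 1 := by
  have h := liftEnd_sub_one_sq hlift hunip hP hσ
  have key := one_add_pow_of_sq_zero (liftEnd ρbar c σ - 1) h p
  have h1 : (1 : Module.End (DualNumber k) (DualNumber k ⊗[k] ρbar.V)) +
      (liftEnd ρbar c σ - 1) = liftEnd ρbar c σ := by abel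
  rw [h1] at key
  rw [key]
  have h2 : (p : DualNumber k) = 0 := by
    rw [← map_natCast (algebraMap k (DualNumber k)) p, hpk, map_zero]
  have hp0 : ∀ w : DualNumber k ⊗[k] ρbar.V, p • w = 0 := by
    intro w
    have : (p : DualNumber k) • w = p • w := Nat.cast_smul_eq_nsmul (DualNumber k) p w
    rw [← this, h2, zero_smul]
  have hpX : p • (liftEnd ρbar c σ - 1) = 0 := by
    apply LinearMap.ext
    intro w
    rw [LinearMap.smul_apply, LinearMap.zero_apply]
    exact hp0 _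
  rw [hpX, add_zero]

theorem two_ne_zero_of_odd_char {p : ℕ} (hp : p.Prime) (hp2 : p ≠ 2) (hpk : (p : k) = 0) :
    (2 : k) ≠ 0 := by
  intro h2
  obtain ⟨a, ha⟩ := hp.odd_of_ne_two hp2
  have h1 : (p : k) = 2 * (a : k) + 1 := by
    rw [ha]
    push_cast
    ring
  rw [h2, zero_mul, zero_add] at h1
  exact one_ne_zero (h1.symm.trans hpk)

/-- **LOC-MIN-A.**  A tangent cocycle whose lift is unipotent on inertia at `q ≠ p` is a
coboundary (of a trace-zero endomorphism) on the inertia group of every place `P | q` at which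
`ρ̄` is ramified. -/
theorem exists_coboundary_on_inertia_of_unipotent
    {p : ℕ} (hp : p.Prime) (hp2 : p ≠ 2) (hpk : (p : k) = 0)
    {c : GQ → Module.End k ρbar.V} (hc : IsAdCocycle ρbar c)
    {ρ' : GaloisRepAdic (DualNumber k)} (hlift : IsLiftOf ρbar c ρ')
    {q : ℕ} (hq : q.Prime) (hqp : q ≠ p) (hunip : ρ'.IsUnipotentOnInertiaAt q)
    {P : ValuationSubring Qb} (hP : P.LiesOverPrime q)
    (hram : ∃ τ ∈ P.inertiaSubgroupIn ℚ, ρbar.ρ τ ≠ 1) :
    ∃ m : Module.End k ρbar.V, LinearMap.trace k ρbar.V m = 0 ∧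
      ∀ σ ∈ P.inertiaSubgroupIn ℚ, c σ = ρbar.ρ σ * m * ρbar.ρ σ⁻¹ - m := by
  obtain ⟨τ, hτ, hτ1⟩ := hram
  obtain ⟨hN2, hNB⟩ := unipotent_components hlift hunip hP hτ
  obtain ⟨N, hN⟩ : ∃ N : Module.End k ρbar.V, ρbar.ρ τ - 1 = N := ⟨_, rfl⟩
  have hρτ : ρbar.ρ τ = 1 + N := by rw [← hN]; abel
  rw [hN] at hN2 hNB
  rw [hρτ] at hNB
  have hN0 : N ≠ 0 := by
    rw [← hN]
    exact sub_ne_zero.mpr hτ1
  have hNC : N * c τ * (1 + N) + c τ * (1 + N) * N = 0 := by
    rw [mul_assoc]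
    exact hNB
  obtain ⟨m, hm0, hm⟩ := exists_trace_zero_conj_sub ρbar.finrank_eq
    (two_ne_zero_of_odd_char hp hp2 hpk) N (c τ) hN2 hN0 (hc.trace_eq_zero τ) hNC
  have hinv : ρbar.ρ τ⁻¹ = 1 - N := by
    have h1 : ρbar.ρ τ * (1 - N) = 1 := by
      rw [hρτ, add_mul, mul_sub, mul_sub, mul_one, one_mul, hN2, mul_one]
      abel
    calc ρbar.ρ τ⁻¹ = ρbar.ρ τ⁻¹ * (ρbar.ρ τ * (1 - N)) := by rw [h1, mul_one]
      _ = (ρbar.ρ τ⁻¹ * ρbar.ρ τ) * (1 - N) := by rw [mul_assoc]
      _ = 1 - N := by rw [rho_inv_mul_rho, one_mul]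
  have hcτ : c τ = ρbar.ρ τ * m * ρbar.ρ τ⁻¹ - m := by
    rw [hinv, hρτ]
    exact hm
  refine ⟨m, hm0, fun σ hσ => ?_⟩
  have hexp : ∀ τ' ∈ P.inertiaSubgroupIn ℚ, liftUnits hc τ' ^ p = 1 := by
    intro τ' hτ'
    apply Units.ext
    rw [Units.val_pow_eq_pow_val, coe_liftUnits, Units.val_one]
    exact liftEnd_pow_eq_one hpk hlift hunip hP hτ'
  have hne : liftUnits hc τ ≠ 1 := by
    intro h
    have h' := congrArg Units.val h
    rw [coe_liftUnits, Units.val_one, liftEnd_eq_dualEnd] at h'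
    exact hτ1 (dualEnd_eq_one h').1
  obtain ⟨j, -, hj⟩ := inertia_image_pow_of_ne_one (finiteLevel_liftUnits hc) hq hP hp
    (Ne.symm hqp) hexp hσ hτ hne
  rw [← map_pow] at hj
  have hj' := congrArg Units.val hj
  rw [coe_liftUnits, coe_liftUnits, liftEnd_eq_dualEnd, liftEnd_eq_dualEnd] at hj'
  obtain ⟨hρ, hcρ⟩ := dualEnd_injective hj'
  have hinvσ : ρbar.ρ σ⁻¹ = ρbar.ρ (τ ^ j)⁻¹ := by
    calc ρbar.ρ σ⁻¹ = ρbar.ρ σ⁻¹ * (ρbar.ρ (τ ^ j) * ρbar.ρ (τ ^ j)⁻¹) := by
          rw [rho_mul_rho_inv, mul_one]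
      _ = (ρbar.ρ σ⁻¹ * ρbar.ρ σ) * ρbar.ρ (τ ^ j)⁻¹ := by rw [← hρ, mul_assoc]
      _ = ρbar.ρ (τ ^ j)⁻¹ := by rw [rho_inv_mul_rho, one_mul]
  have hcσ : c σ = c (τ ^ j) := by
    calc c σ = c σ * ρbar.ρ σ * ρbar.ρ σ⁻¹ := by rw [mul_assoc, rho_mul_rho_inv, mul_one]
      _ = c (τ ^ j) * ρbar.ρ (τ ^ j) * ρbar.ρ (τ ^ j)⁻¹ := by rw [hcρ, hinvσ]
      _ = c (τ ^ j) := by rw [mul_assoc, rho_mul_rho_inv, mul_one]
  rw [hcσ, cocycle_pow_eq hc m τ hcτ j, hρ, hinvσ]

end Fermat.Agent.S56.H794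

end

end
-- ===== PACK-END S56/H794/LocMinA.lean

-- ===== PACK-BEGIN S59/H126/Count.lean
section



/-!
# S59 / NM-SEL (helper126): the counting step at a finite level (pure algebra)

`A` is an `𝒪`-algebra (`𝒪` a PID) with a square-zero ideal `Ibar` such that `A = 𝒪 + Ibar`.
`Φ` is a matrix over `A` congruent to `F₀ ∈ M₂(𝒪)` modulo `Ibar`, `N₀` a matrix with entries in
`Ibar`, `det (1 + N₀) = 1`, `det F₀ = q` and `Φ (1 + N₀) = (1 + N₀)^q Φ`.  Then the ideal of `A`
generated by multiples of the entries of `N₀` has at most `#(𝒪 ⧸ det (sl2Mat F₀ q²))` elements.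
-/

set_option autoImplicit false
set_option linter.unusedSectionVars false
set_option linter.style.haveILetI false

namespace Fermat.Agent.S59.H126

section Pow

variable {A : Type*} [CommRing A]

theorem one_add_pow_of_mul_self_eq_zero {n : Type*} [Fintype n] [DecidableEq n]
    (N : Matrix n n A) (hN : N * N = 0) (m : ℕ) : (1 + N) ^ m = 1 + m • N := by
  induction m with
  | zero => simp
  | succ m ih =>
    rw [pow_succ, ih, mul_add, mul_one, add_mul, one_mul, smul_mul_assoc, hN, smul_zero,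
      add_zero, succ_nsmul]
    abel

end Pow

section Count

variable {𝒪 : Type*} [CommRing 𝒪] [IsDomain 𝒪] [IsPrincipalIdealRing 𝒪]
variable {A : Type*} [CommRing A] [Algebra 𝒪 A]

theorem count_level (Ibar : Ideal A) (hsq : ∀ a ∈ Ibar, ∀ b ∈ Ibar, a * b = 0)
    (hdec : ∀ a : A, ∃ o : 𝒪, a - algebraMap 𝒪 A o ∈ Ibar)
    (Φ N₀ : Matrix (Fin 2) (Fin 2) A) (F₀ : Matrix (Fin 2) (Fin 2) 𝒪)
    (hΦ : ∀ i j, Φ i j - algebraMap 𝒪 A (F₀ i j) ∈ Ibar)
    (hN₀ : ∀ i j, N₀ i j ∈ Ibar)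
    (q : ℕ) (hrel : Φ * (1 + N₀) = (1 + N₀) ^ q * Φ)
    (hdetN : (1 + N₀).det = 1) (hdetF : F₀.det = (q : 𝒪))
    (G : Set A) (hG : ∀ g ∈ G, ∃ (m : ℕ) (i j : Fin 2), g = m • N₀ i j)
    (hc : (sl2Mat F₀ ((q : 𝒪) ^ 2)).det ≠ 0)
    [Finite (𝒪 ⧸ Ideal.span {(sl2Mat F₀ ((q : 𝒪) ^ 2)).det})]
    (s : Finset A) (hs : ∀ y ∈ s, y ∈ Ideal.span G) :
    s.card ≤ Nat.card (𝒪 ⧸ Ideal.span {(sl2Mat F₀ ((q : 𝒪) ^ 2)).det}) := by
  classical
  -- `N₀² = 0`
  have hNN : N₀ * N₀ = 0 := by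
    ext i j
    rw [Matrix.mul_apply, Matrix.zero_apply]
    exact Finset.sum_eq_zero fun k _ => hsq _ (hN₀ i k) _ (hN₀ k j)
  have hpow : (1 + N₀) ^ q = 1 + q • N₀ := one_add_pow_of_mul_self_eq_zero N₀ hNN q
  -- `Φ N₀ = q N₀ Φ`
  have h1 : Φ * N₀ = q • (N₀ * Φ) := by
    have h := hrel
    rw [hpow, mul_add, mul_one, add_mul, one_mul, smul_mul_assoc] at h
    exact add_left_cancel h
  set Fb : Matrix (Fin 2) (Fin 2) A := F₀.map (algebraMap 𝒪 A) with hFb
  have h2 : Φ * N₀ = Fb * N₀ := by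
    ext i j
    rw [Matrix.mul_apply, Matrix.mul_apply]
    refine Finset.sum_congr rfl fun k _ => ?_
    have := hsq _ (hΦ i k) _ (hN₀ k j)
    rw [hFb, Matrix.map_apply]
    linear_combination this
  have h3 : N₀ * Φ = N₀ * Fb := by
    ext i j
    rw [Matrix.mul_apply, Matrix.mul_apply]
    refine Finset.sum_congr rfl fun k _ => ?_
    have := hsq _ (hN₀ i k) _ (hΦ k j)
    rw [hFb, Matrix.map_apply]
    linear_combination this
  have h4 : Fb * N₀ = (q : A) • (N₀ * Fb) := by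
    rw [← h2, ← h3, h1, Nat.cast_smul_eq_nsmul]
  -- trace zero
  have htr : N₀ 1 1 = - N₀ 0 0 := by
    have h := hdetN
    rw [Matrix.det_fin_two] at h
    simp only [Matrix.add_apply, Matrix.one_apply_eq, Matrix.one_apply_ne, ne_eq, one_ne_zero,
      not_false_eq_true, zero_ne_one, zero_add, Fin.isValue] at h
    have e1 := hsq _ (hN₀ 0 0) _ (hN₀ 1 1)
    have e2 := hsq _ (hN₀ 0 1) _ (hN₀ 1 0)
    linear_combination h - e1 + e2
  have hdetFb : Fb.det = (q : A) := by
    have : Fb.det = algebraMap 𝒪 A F₀.det := by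
      rw [hFb, RingHom.map_det]
      rfl
    rw [this, hdetF, map_natCast]
  set n : Fin 3 → A := ![N₀ 0 0, N₀ 0 1, N₀ 1 0] with hn
  have hrel0 := sl2Mat_relation Fb N₀ (q : A) h4 htr hdetFb
  have hmap : sl2Mat Fb ((q : A) ^ 2) = (sl2Mat F₀ ((q : 𝒪) ^ 2)).map (algebraMap 𝒪 A) := by
    rw [sl2Mat_map, map_pow, map_natCast]
  have hrel' : ∀ i, ∑ j, (sl2Mat F₀ ((q : 𝒪) ^ 2)) i j • n j = 0 := by
    intro i
    have := hrel0 i
    rw [hmap] at this
    simpa only [Matrix.map_apply, Algebra.smul_def] using this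
  obtain ⟨hfin, hcard⟩ := card_span_le_of_relations (R := 𝒪) (sl2Mat F₀ ((q : 𝒪) ^ 2)) hc n hrel'
  set Y : Submodule 𝒪 A := Submodule.span 𝒪 (Set.range n) with hY
  have hnY : ∀ j, n j ∈ Y := fun j => Submodule.subset_span ⟨j, rfl⟩
  have hNY : ∀ i j, N₀ i j ∈ Y := by
    intro i j
    fin_cases i <;> fin_cases j
    · exact hnY 0
    · exact hnY 1
    · exact hnY 2
    · show N₀ 1 1 ∈ Y
      rw [htr]
      exact Y.neg_mem (hnY 0)
  have hOI : ∀ (o : 𝒪) (y : A), y ∈ Ibar → o • y ∈ Ibar := by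
    intro o y hy
    rw [Algebra.smul_def]
    exact Ibar.mul_mem_left _ hy
  have hmem : ∀ y ∈ Ideal.span G, y ∈ Y ∧ y ∈ Ibar := by
    intro y hy
    refine Submodule.span_induction (p := fun y _ => y ∈ Y ∧ y ∈ Ibar) ?_ ?_ ?_ ?_ hy
    · intro g hg
      obtain ⟨m, i, j, rfl⟩ := hG g hg
      exact ⟨Y.nsmul_mem (hNY i j) m, Ibar.toAddSubmonoid.nsmul_mem (hN₀ i j) m⟩
    · exact ⟨Y.zero_mem, Ibar.zero_mem⟩
    · intro y z _ _ hy hz
      exact ⟨Y.add_mem hy.1 hz.1, Ibar.add_mem hy.2 hz.2⟩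
    · intro a y _ hy
      obtain ⟨o, ho⟩ := hdec a
      have h0 := hsq _ ho _ hy.2
      have : a • y = o • y := by
        rw [smul_eq_mul, Algebra.smul_def]
        linear_combination h0
      rw [this]
      exact ⟨Y.smul_mem o hy.1, hOI o y hy.2⟩
  haveI := hfin
  let f : {y : A // y ∈ s} → Y := fun y => ⟨y.1, (hmem y.1 (hs y.1 y.2)).1⟩
  have hf : Function.Injective f := by
    intro y z hyz
    exact Subtype.ext (congrArg (fun w : Y => (w : A)) hyz)
  have hle := Nat.card_le_card_of_injective f hf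
  have hsc : Nat.card {y : A // y ∈ s} = s.card := by
    rw [Nat.card_eq_fintype_card]
    exact Fintype.card_coe s
  rw [hsc] at hle
  exact hle.trans hcard

end Count

end Fermat.Agent.S59.H126

end
-- ===== PACK-END S59/H126/Count.lean

-- ===== PACK-BEGIN S59/H247/TFLift.lean
section


/-!
# S59 / G3-TF, part 1: lifting inertia elements over an arbitrary base field

Generalisation of `Fermat.Agent.S55.Bridge.exists_mem_inertia_restrict_eq` (which needs the
intermediate field to be normal over `ℚ`): here the intermediate field `N` only has to be stable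
under the given automorphism `σ`, and the hypotheses are only on algebraic integers of `N`.

* `exists_smul_eq_of_integral`: places of `ℚ̄` inducing the same prime on the integers of `N`
  are conjugate under `G_N`.
* `exists_mem_inertia_restrict_eq_of_integral`: if `σ N ⊆ N`, `σ⁻¹ N ⊆ N` and `σ b - b ∈ 𝔪_A` for
  all algebraic integers `b ∈ N`, then `σ|_N` is the restriction of an element of `I_A`.
-/

set_option autoImplicit false
set_option linter.style.haveILetI false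

namespace Fermat.Agent.S59.H247

open scoped Pointwise
open Fermat.Agent.S54 Fermat.Agent.S55.Bridge

attribute [local instance] isAlgebraic_Qbar isGalois_Qbar

section Lift

variable (N : IntermediateField ℚ (AlgebraicClosure ℚ))

/-- Places of `ℚ̄` which induce the same prime on the algebraic integers of `N` are conjugate
under `G_N`. -/
theorem exists_smul_eq_of_integral {A A' : ValuationSubring (AlgebraicClosure ℚ)}
    {q : ℕ} (hq : q.Prime) (hA : A.LiesOverPrime q) (hA' : A'.LiesOverPrime q)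
    (h : ∀ x ∈ N, IsIntegral ℤ x → (x ∈ A.nonunits ↔ x ∈ A'.nonunits)) :
    ∃ τ ∈ N.fixingSubgroup, τ • A = A' := by
  letI : TopologicalSpace (integralClosure ℤ (AlgebraicClosure ℚ)) := ⊥
  haveI : DiscreteTopology (integralClosure ℤ (AlgebraicClosure ℚ)) := ⟨rfl⟩
  haveI := compactSpace_fixingSubgroup N
  haveI := totallyDisconnectedSpace_fixingSubgroup N
  haveI := continuousSMul_fixingSubgroup N
  haveI := smulCommClass_fixedPoints N
  haveI := isInvariant_fixedPoints N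
  haveI := primeBelow_isPrime A
  haveI := primeBelow_isPrime A'
  have hunder : (primeBelow A).under
      (FixedPoints.subalgebra ℤ (integralClosure ℤ (AlgebraicClosure ℚ)) ↥N.fixingSubgroup)
      = (primeBelow A').under
      (FixedPoints.subalgebra ℤ (integralClosure ℤ (AlgebraicClosure ℚ)) ↥N.fixingSubgroup) := by
    ext a
    rw [Ideal.mem_comap, Ideal.mem_comap]
    show ((a.1 : integralClosure ℤ (AlgebraicClosure ℚ)) : AlgebraicClosure ℚ) ∈ A.nonunits ↔
      ((a.1 : integralClosure ℤ (AlgebraicClosure ℚ)) : AlgebraicClosure ℚ) ∈ A'.nonunits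
    have haN : ((a.1 : integralClosure ℤ (AlgebraicClosure ℚ)) : AlgebraicClosure ℚ) ∈ N := by
      apply mem_of_fixed_by_fixingSubgroup
      intro g hg
      have := a.2 ⟨g, hg⟩
      exact congrArg Subtype.val this
    exact h _ haN a.1.2
  obtain ⟨τ, hτ⟩ := Algebra.IsInvariant.exists_smul_of_under_eq_of_profinite
    (A := FixedPoints.subalgebra ℤ (integralClosure ℤ (AlgebraicClosure ℚ)) ↥N.fixingSubgroup)
    (G := ↥N.fixingSubgroup) (primeBelow A) (primeBelow A') hunder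
  refine ⟨τ.1, τ.2, ?_⟩
  apply valuationSubring_ext_of_primeBelow hq (liesOverPrime_smul A τ.1 q hA) hA'
  rw [primeBelow_smul, hτ]
  rfl

/-- If `σ` and `σ⁻¹` preserve `N` and `σ` moves every algebraic integer of `N` by an element of
the maximal ideal of `A`, then `σ|_N` is the restriction of an element of the decomposition
group of `A`. -/
theorem exists_mem_decomposition_restrict_eq_of_integral
    {A : ValuationSubring (AlgebraicClosure ℚ)} {q : ℕ} (hq : q.Prime) (hA : A.LiesOverPrime q)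
    (σ : AlgebraicClosure ℚ ≃ₐ[ℚ] AlgebraicClosure ℚ)
    (hσN : ∀ x ∈ N, σ x ∈ N) (hσN' : ∀ x ∈ N, σ⁻¹ x ∈ N)
    (hσI : ∀ x ∈ N, IsIntegral ℤ x → σ x - x ∈ A.nonunits) :
    ∃ σ' ∈ A.decompositionSubgroup ℚ, ∀ x ∈ N, σ' x = σ x := by
  have hA' : (σ • A).LiesOverPrime q := liesOverPrime_smul A σ q hA
  have hcomp : ∀ x ∈ N, IsIntegral ℤ x → (x ∈ (σ • A).nonunits ↔ x ∈ A.nonunits) := by
    intro x hx hxi
    rw [mem_nonunits_smul_iff]
    have hy : σ⁻¹ x ∈ N := hσN' x hx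
    have hyi : IsIntegral ℤ (σ⁻¹ x) := hxi.map (σ⁻¹ : AlgebraicClosure ℚ ≃ₐ[ℚ] AlgebraicClosure ℚ)
    have h1 := hσI (σ⁻¹ x) hy hyi
    have h2 : σ (σ⁻¹ x) = x := by
      show (σ * σ⁻¹) x = x
      rw [mul_inv_cancel]
      rfl
    rw [h2] at h1
    constructor
    · intro h3
      have := A.nonunits.add_mem h1 h3
      rwa [sub_add_cancel] at this
    · intro h3
      have := A.nonunits.sub_mem h3 h1
      rwa [sub_sub_cancel] at this
  obtain ⟨τ, hτ, hτA⟩ := exists_smul_eq_of_integral N hq hA' hA hcomp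
  refine ⟨τ * σ, ?_, ?_⟩
  · rw [MulAction.mem_stabilizer_iff, mul_smul]
    exact hτA
  · intro x hx
    show τ (σ x) = σ x
    exact (IntermediateField.mem_fixingSubgroup_iff N _).1 hτ _ (hσN x hx)

/-- **Lifting inertia.** If `σ` and `σ⁻¹` preserve `N` and `σ` moves every algebraic integer of
`N` by an element of the maximal ideal of `A`, then `σ|_N` is the restriction of an element of
the inertia group of `A`. -/
theorem exists_mem_inertia_restrict_eq_of_integral
    {A : ValuationSubring (AlgebraicClosure ℚ)} {q : ℕ} (hq : q.Prime) (hA : A.LiesOverPrime q)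
    (σ : AlgebraicClosure ℚ ≃ₐ[ℚ] AlgebraicClosure ℚ)
    (hσN : ∀ x ∈ N, σ x ∈ N) (hσN' : ∀ x ∈ N, σ⁻¹ x ∈ N)
    (hσI : ∀ x ∈ N, IsIntegral ℤ x → σ x - x ∈ A.nonunits) :
    ∃ σ' ∈ A.inertiaSubgroupIn ℚ, ∀ x ∈ N, σ' x = σ x := by
  -- step 1: we may assume `σ ∈ D_A`
  obtain ⟨σ₁, hσ₁D, hσ₁N⟩ :=
    exists_mem_decomposition_restrict_eq_of_integral N hq hA σ hσN hσN' hσI
  have hσ₁I : ∀ x ∈ N, IsIntegral ℤ x → σ₁ x - x ∈ A.nonunits := fun x hx hxi => by
    rw [hσ₁N x hx]; exact hσI x hx hxi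
  -- step 2: the profinite group `G_N` acting on `ℤ̄`
  letI : TopologicalSpace (integralClosure ℤ (AlgebraicClosure ℚ)) := ⊥
  haveI : DiscreteTopology (integralClosure ℤ (AlgebraicClosure ℚ)) := ⟨rfl⟩
  haveI := compactSpace_fixingSubgroup N
  haveI := totallyDisconnectedSpace_fixingSubgroup N
  haveI := continuousSMul_fixingSubgroup N
  haveI := smulCommClass_fixedPoints N
  haveI := isInvariant_fixedPoints N
  haveI hQprime := primeBelow_isPrime A
  haveI hlies : (primeBelow A).LiesOver ((primeBelow A).under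
      (FixedPoints.subalgebra ℤ (integralClosure ℤ (AlgebraicClosure ℚ)) ↥N.fixingSubgroup)) :=
    ⟨rfl⟩
  have hσ₁Q : σ₁ • primeBelow A = primeBelow A := by
    rw [← primeBelow_smul, MulAction.mem_stabilizer_iff.1 hσ₁D]
  -- the automorphism of `ℤ̄ / Q` induced by `σ₁`
  let e₀ : (integralClosure ℤ (AlgebraicClosure ℚ) ⧸ primeBelow A) ≃+*
      (integralClosure ℤ (AlgebraicClosure ℚ) ⧸ primeBelow A) :=
    Ideal.quotientEquiv (primeBelow A) (primeBelow A)
      (MulSemiringAction.toRingEquiv (AlgebraicClosure ℚ ≃ₐ[ℚ] AlgebraicClosure ℚ)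
        (integralClosure ℤ (AlgebraicClosure ℚ)) σ₁) hσ₁Q.symm
  have he₀ : ∀ b : integralClosure ℤ (AlgebraicClosure ℚ),
      e₀ (Ideal.Quotient.mk _ b) = Ideal.Quotient.mk _ (σ₁ • b) := fun b => rfl
  let e : (integralClosure ℤ (AlgebraicClosure ℚ) ⧸ primeBelow A) ≃ₐ[
      (FixedPoints.subalgebra ℤ (integralClosure ℤ (AlgebraicClosure ℚ)) ↥N.fixingSubgroup) ⧸
        (primeBelow A).under
          (FixedPoints.subalgebra ℤ (integralClosure ℤ (AlgebraicClosure ℚ)) ↥N.fixingSubgroup)]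
      (integralClosure ℤ (AlgebraicClosure ℚ) ⧸ primeBelow A) :=
    AlgEquiv.ofRingEquiv (f := e₀) (by
      intro y
      obtain ⟨a, rfl⟩ := Ideal.Quotient.mk_surjective y
      show e₀ (Ideal.Quotient.mk _ (a.1)) = Ideal.Quotient.mk _ (a.1)
      rw [he₀, Ideal.Quotient.eq, mem_primeBelow]
      have haN : ((a.1 : integralClosure ℤ (AlgebraicClosure ℚ)) : AlgebraicClosure ℚ) ∈ N := by
        apply mem_of_fixed_by_fixingSubgroup
        intro g hg
        have := a.2 ⟨g, hg⟩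
        exact congrArg Subtype.val this
      exact hσ₁I _ haN a.1.2)
  obtain ⟨τ, hτ⟩ := Ideal.Quotient.stabilizerHom_surjective_of_profinite
    (G := ↥N.fixingSubgroup)
    ((primeBelow A).under
      (FixedPoints.subalgebra ℤ (integralClosure ℤ (AlgebraicClosure ℚ)) ↥N.fixingSubgroup))
    (primeBelow A) e
  -- `τ ∈ G_N` stabilises `Q` and induces the same automorphism as `σ₁`
  have hτQ : (τ.1.1 : AlgebraicClosure ℚ ≃ₐ[ℚ] AlgebraicClosure ℚ) • primeBelow A
      = primeBelow A := τ.2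
  have hτD : (τ.1.1 : AlgebraicClosure ℚ ≃ₐ[ℚ] AlgebraicClosure ℚ) ∈ A.decompositionSubgroup ℚ := by
    rw [MulAction.mem_stabilizer_iff]
    apply valuationSubring_ext_of_primeBelow hq (liesOverPrime_smul A _ q hA) hA
    rw [primeBelow_smul, hτQ]
  have hτσ : ∀ b : integralClosure ℤ (AlgebraicClosure ℚ),
      (τ.1.1 : AlgebraicClosure ℚ ≃ₐ[ℚ] AlgebraicClosure ℚ) (b : AlgebraicClosure ℚ)
        - σ₁ (b : AlgebraicClosure ℚ) ∈ A.nonunits := by
    intro b
    have h1 := congrArg (fun f => f (Ideal.Quotient.mk _ b)) hτ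
    simp only [Ideal.Quotient.stabilizerHom_apply] at h1
    have h2 : e (Ideal.Quotient.mk _ b) = Ideal.Quotient.mk _ (σ₁ • b) := he₀ b
    rw [h2, Ideal.Quotient.eq, mem_primeBelow] at h1
    exact h1
  refine ⟨(τ.1.1)⁻¹ * σ₁, ?_, ?_⟩
  · apply mem_inertia_of_forall_integral A hq hA
      (Subgroup.mul_mem _ (Subgroup.inv_mem _ hτD) hσ₁D)
    intro b hb
    have h3 := hτσ ⟨b, hb⟩
    have h4 : ((τ.1.1)⁻¹ * σ₁) b - b
        = (τ.1.1 : AlgebraicClosure ℚ ≃ₐ[ℚ] AlgebraicClosure ℚ)⁻¹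
            (-((τ.1.1 : AlgebraicClosure ℚ ≃ₐ[ℚ] AlgebraicClosure ℚ) b - σ₁ b)) := by
      rw [map_neg, map_sub]
      have h5 : (τ.1.1 : AlgebraicClosure ℚ ≃ₐ[ℚ] AlgebraicClosure ℚ)⁻¹ ((τ.1.1) b) = b := by
        show ((τ.1.1)⁻¹ * τ.1.1) b = b
        rw [inv_mul_cancel]
        rfl
      rw [h5]
      show (τ.1.1)⁻¹ (σ₁ b) - b = _
      ring
    rw [h4, mem_nonunits_of_mem_decomposition A (Subgroup.inv_mem _ hτD)]
    exact A.nonunits.neg_mem h3
  · intro x hx
    rw [← hσ₁N x hx]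
    show (τ.1.1)⁻¹ (σ₁ x) = σ₁ x
    have hmem : σ₁ x ∈ N := by rw [hσ₁N x hx]; exact hσN x hx
    exact (IntermediateField.mem_fixingSubgroup_iff N _).1 (Subgroup.inv_mem _ τ.1.2) _ hmem

end Lift

end Fermat.Agent.S59.H247

end
-- ===== PACK-END S59/H247/TFLift.lean

-- ===== PACK-BEGIN S59/Patch/H967/Exact.lean
section




/-!
# From exact coordinate data to a patching level with trivial relation ideal
(helper967, row S59, piece PATCH)
-/

set_option autoImplicit false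

namespace Fermat.Agent.S59.Patch.H967

open MvPowerSeries IsLocalRing

/-- Exact coordinate data: the matrices `A f` form a ring homomorphism. -/
structure ExactData (𝒪 : Type) [CommRing 𝒪] (r : ℕ) (R : Type) [CommRing R]
    [Algebra 𝒪 R] {M : Type} [AddCommGroup M] [Module R M] {d : ℕ} (μ : Fin d → M) where
  φ : MvPowerSeries (Fin r) 𝒪 →ₐ[𝒪] MvPowerSeries (Fin r) 𝒪
  ψ : MvPowerSeries (Fin r) 𝒪 →ₐ[𝒪] R
  A : MvPowerSeries (Fin r) 𝒪 →+* Matrix (Fin d) (Fin d) (MvPowerSeries (Fin r) 𝒪)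
  ψ_surjective : Function.Surjective ψ
  ψ_φ_X : ∀ i : Fin r, ψ (φ (X i)) = 0
  A_φ : ∀ c, A (φ c) = c • (1 : Matrix (Fin d) (Fin d) (MvPowerSeries (Fin r) 𝒪))
  A_π : ∀ f j, ∑ i, algebraMap 𝒪 R (constantCoeff (A f i j)) • μ i = ψ f • μ j

/-- The underlying type of the limit module. -/
def LimN (𝒪 : Type) [CommRing 𝒪] (r d : ℕ) : Type := Fin d → MvPowerSeries (Fin r) 𝒪

/-- The identity, viewed as a map into the limit module. -/
def LimN.of {𝒪 : Type} [CommRing 𝒪] {r d : ℕ} (v : Fin d → MvPowerSeries (Fin r) 𝒪) :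
    LimN 𝒪 r d := v

noncomputable instance instAddCommGroupLimN (𝒪 : Type) [CommRing 𝒪] (r d : ℕ) :
    AddCommGroup (LimN 𝒪 r d) :=
  inferInstanceAs (AddCommGroup (Fin d → MvPowerSeries (Fin r) 𝒪))

section ToLevel

variable {𝒪 : Type} [CommRing 𝒪] {r : ℕ} {R : Type} [CommRing R] [Algebra 𝒪 R]
  {M : Type} [AddCommGroup M] [Module R M] {d : ℕ} {μ : Fin d → M}

section MulVec

variable (A : MvPowerSeries (Fin r) 𝒪 →+* Matrix (Fin d) (Fin d) (MvPowerSeries (Fin r) 𝒪))

theorem mv_one (v : Fin d → MvPowerSeries (Fin r) 𝒪) : Matrix.mulVec (A 1) v = v := by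
  rw [map_one, Matrix.one_mulVec]

theorem mv_mul (f g : MvPowerSeries (Fin r) 𝒪) (v : Fin d → MvPowerSeries (Fin r) 𝒪) :
    Matrix.mulVec (A (f * g)) v = Matrix.mulVec (A f) (Matrix.mulVec (A g) v) := by
  rw [map_mul, Matrix.mulVec_mulVec]

theorem mv_add (f g : MvPowerSeries (Fin r) 𝒪) (v : Fin d → MvPowerSeries (Fin r) 𝒪) :
    Matrix.mulVec (A (f + g)) v = Matrix.mulVec (A f) v + Matrix.mulVec (A g) v := by
  rw [map_add, Matrix.add_mulVec]

theorem mv_zero (v : Fin d → MvPowerSeries (Fin r) 𝒪) : Matrix.mulVec (A 0) v = 0 := by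
  rw [map_zero, Matrix.zero_mulVec]

/-- The module structure on the limit module given by a matrix representation. -/
@[reducible] noncomputable def limModule : Module (MvPowerSeries (Fin r) 𝒪) (LimN 𝒪 r d) where
  smul f v := Matrix.mulVec (A f) v
  one_smul v := mv_one A v
  mul_smul f g v := mv_mul A f g v
  smul_zero f := Matrix.mulVec_zero (A f)
  smul_add f v w := Matrix.mulVec_add (A f) v w
  add_smul f g v := mv_add A f g v
  zero_smul v := mv_zero A v

end MulVec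

/-- The projection of the limit module onto `M`. -/
noncomputable def limPi (𝒪 : Type) [CommRing 𝒪] (r : ℕ) (R : Type) [CommRing R] [Algebra 𝒪 R]
    {M : Type} [AddCommGroup M] [Module R M] {d : ℕ} (μ : Fin d → M) :
    (Fin d → MvPowerSeries (Fin r) 𝒪) →+ M where
  toFun v := ∑ i, algebraMap 𝒪 R (constantCoeff (v i)) • μ i
  map_zero' := by
    show ∑ i, algebraMap 𝒪 R (constantCoeff ((0 : Fin d → MvPowerSeries (Fin r) 𝒪) i)) • μ i = 0
    refine Finset.sum_eq_zero fun i _ => ?_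
    rw [Pi.zero_apply, map_zero, map_zero, zero_smul]
  map_add' v w := by
    show ∑ i, algebraMap 𝒪 R (constantCoeff ((v + w) i)) • μ i =
      ∑ i, algebraMap 𝒪 R (constantCoeff (v i)) • μ i +
        ∑ i, algebraMap 𝒪 R (constantCoeff (w i)) • μ i
    rw [← Finset.sum_add_distrib]
    refine Finset.sum_congr rfl fun i _ => ?_
    rw [Pi.add_apply, map_add, map_add, add_smul]

theorem limPi_apply (v : Fin d → MvPowerSeries (Fin r) 𝒪) :
    limPi 𝒪 r R μ v = ∑ i, algebraMap 𝒪 R (constantCoeff (v i)) • μ i := rfl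

variable (D : ExactData 𝒪 r R μ)

theorem limPi_mulVec (f : MvPowerSeries (Fin r) 𝒪) (v : Fin d → MvPowerSeries (Fin r) 𝒪) :
    limPi 𝒪 r R μ (Matrix.mulVec (D.A f) v) = D.ψ f • limPi 𝒪 r R μ v := by
  rw [limPi_apply, limPi_apply, Finset.smul_sum]
  have h1 : ∀ i, algebraMap 𝒪 R (constantCoeff (Matrix.mulVec (D.A f) v i)) • μ i =
      ∑ j, algebraMap 𝒪 R (constantCoeff (v j)) •
        (algebraMap 𝒪 R (constantCoeff (D.A f i j)) • μ i) := by
    intro i
    simp only [Matrix.mulVec, dotProduct, map_sum, map_mul, Finset.sum_smul, mul_smul]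
    exact Finset.sum_congr rfl fun j _ => smul_comm _ _ _
  simp only [h1]
  rw [Finset.sum_comm]
  refine Finset.sum_congr rfl fun j _ => ?_
  rw [← Finset.smul_sum, D.A_π, smul_comm]

theorem mulVec_phi (c : MvPowerSeries (Fin r) 𝒪) (v : Fin d → MvPowerSeries (Fin r) 𝒪) :
    Matrix.mulVec (D.A (D.φ c)) v = c • v := by
  rw [D.A_φ, Matrix.smul_mulVec, Matrix.one_mulVec]

theorem sum_mulVec_phi_single (c : Fin d → MvPowerSeries (Fin r) 𝒪) :
    ∑ i, Matrix.mulVec (D.A (D.φ (c i)))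
      (Pi.single i 1 : Fin d → MvPowerSeries (Fin r) 𝒪) = c := by
  classical
  have h1 : ∀ i, Matrix.mulVec (D.A (D.φ (c i)))
      (Pi.single i 1 : Fin d → MvPowerSeries (Fin r) 𝒪) = Pi.single i (c i) := by
    intro i
    rw [mulVec_phi]
    funext j
    by_cases hij : j = i
    · subst hij
      rw [Pi.smul_apply, Pi.single_eq_same, Pi.single_eq_same, smul_eq_mul, mul_one]
    · rw [Pi.smul_apply, Pi.single_eq_of_ne hij, Pi.single_eq_of_ne hij, smul_zero]
  simp only [h1]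
  exact Finset.univ_sum_single c

theorem eq_sum_mulVec_phi_X {x : Fin d → MvPowerSeries (Fin r) 𝒪}
    (hx : ∀ i, constantCoeff (x i) = 0) :
    ∃ w : Fin r → Fin d → MvPowerSeries (Fin r) 𝒪,
      x = ∑ l, Matrix.mulVec (D.A (D.φ (X l))) (w l) := by
  have hw : ∀ i, ∃ w : Fin r → MvPowerSeries (Fin r) 𝒪, x i = ∑ l, X l * w l :=
    fun i => exists_eq_sum_X_mul (hx i)
  choose w hw using hw
  refine ⟨fun l i => w i l, ?_⟩
  funext i
  rw [hw i, Finset.sum_apply]
  refine Finset.sum_congr rfl fun l _ => ?_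
  rw [mulVec_phi]
  rfl

theorem psi_eq_zero_of_mem_span {a : MvPowerSeries (Fin r) 𝒪}
    (ha : a ∈ Ideal.span (Set.range fun i : Fin r => D.φ (X i))) : D.ψ a = 0 := by
  have h1 : Ideal.span (Set.range fun i : Fin r => D.φ (X i)) ≤
      RingHom.ker (D.ψ : MvPowerSeries (Fin r) 𝒪 →+* R) := by
    rw [Ideal.span_le]
    rintro _ ⟨i, rfl⟩
    exact D.ψ_φ_X i
  exact h1 ha

/-- The patching level with trivial relation ideal attached to exact coordinate data. -/
noncomputable def ExactData.toLevel (hμ : IsOBasis 𝒪 R μ) : Algebra.PatchingLevel 𝒪 r R M ⊥ :=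
  letI : Module (MvPowerSeries (Fin r) 𝒪) (LimN 𝒪 r d) := limModule D.A
  { N := LimN 𝒪 r d
    φ := D.φ
    ψ := D.ψ
    ψ_surjective := D.ψ_surjective
    ψ_φ_X := D.ψ_φ_X
    π := limPi 𝒪 r R μ
    π_smul := fun f x => limPi_mulVec D f x
    π_surjective := by
      intro m
      obtain ⟨a, rfl⟩ := hμ.span m
      refine ⟨LimN.of fun i => C (a i), ?_⟩
      refine (limPi_apply (R := R) (μ := μ) (fun i => C (a i))).trans ?_
      exact Finset.sum_congr rfl fun i _ => by rw [constantCoeff_C]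
    ker_π := by
      intro x
      constructor
      · intro hx
        have h0 := hμ.indep _ hx
        obtain ⟨w, hw⟩ := eq_sum_mulVec_phi_X D h0
        have hx' : x = ∑ l, D.φ (X l) • LimN.of (w l) := hw
        rw [hx']
        exact Submodule.sum_mem _ fun l _ =>
          Submodule.smul_mem_smul (Ideal.subset_span ⟨l, rfl⟩) Submodule.mem_top
      · intro hx
        refine Submodule.smul_induction_on hx ?_ ?_
        · intro a ha n _
          have h1 : limPi 𝒪 r R μ (a • n) = D.ψ a • limPi 𝒪 r R μ n := limPi_mulVec D a n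
          have h3 : ∀ m : M, D.ψ a • m = 0 := fun m => by
            rw [psi_eq_zero_of_mem_span D ha, zero_smul]
          exact h1.trans (h3 _)
        · intro y z hy hz
          have h2 : limPi 𝒪 r R μ (y + z) = limPi 𝒪 r R μ y + limPi 𝒪 r R μ z :=
            map_add (limPi 𝒪 r R μ) y z
          exact h2.trans ((congrArg₂ (· + ·) hy hz).trans (add_zero 0))
    d := d
    b := fun i => LimN.of (Pi.single i 1)
    b_span := fun x => ⟨x, (sum_mulVec_phi_single D x).symm⟩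
    b_rel := by
      intro c
      have h1 : (∑ i, D.φ (c i) • LimN.of (Pi.single i 1 : Fin d → MvPowerSeries (Fin r) 𝒪)) =
          LimN.of c := sum_mulVec_phi_single D c
      show (∑ i, D.φ (c i) • LimN.of (Pi.single i 1 : Fin d → MvPowerSeries (Fin r) 𝒪)) = 0 ↔ _
      rw [h1]
      constructor
      · intro h i
        have h' : c = 0 := h
        rw [Ideal.mem_bot, h']
        rfl
      · intro h
        have h' : c = 0 := funext fun i => (Ideal.mem_bot).mp (h i)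
        rw [h']
        rfl }

end ToLevel

end Fermat.Agent.S59.Patch.H967

end
-- ===== PACK-END S59/Patch/H967/Exact.lean

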