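import Mathlib
import Fermat.Agent.Pack.S43GC.G0E3L2
import Fermat.Agent.Pack.S44C.G0E19L1
import Fermat.Agent.Pack.S43GC.G0E5L2
import Fermat.Agent.Pack.S43GC.G0E12L1
import Fermat.Agent.Pack.S43GC.G0E12L0
import Fermat.Agent.Pack.S43GC.G0E12L3
import Fermat.Agent.Pack.S43GC.G0E1L1
import Fermat.Agent.Pack.S43GC.G0E6L1
import Fermat.Agent.Pack.S43GC.G0E8L2
import Fermat.Agent.Pack.S43GC.G0E12L2
import Fermat.Agent.Pack.S43GC.G0E3L3
import Fermat.Agent.Pack.S43GC.G0E11L2
import Fermat.Agent.Pack.S43GC.G0E13L2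
import Fermat.Agent.Pack.S43GC.G0E11L0
import Fermat.Agent.Pack.S43GC.G0E4L0
import Fermat.Agent.Pack.S43GC.G0E13L0
import Fermat.Agent.Pack.S43GC.G0E11L3
import Fermat.Agent.Pack.S43GC.G0E3L1
import Fermat.Agent.Pack.S43GC.G0E13L1
import Fermat.Agent.Pack.Fast891

-- ===== PACK-BEGIN S55/E1/H594/LevelUnram.lean
section
/-
S55 / engine E1 / G-ADAPTER leaf LVL (helper594), part 2.

The ramification hypothesis of layer G (`G.IsUnramOut`, `G/Spec.lean`) for a tower level:
`level_isUnramOut : G.IsUnramOut S L.Gal L.F`, deduced from the Prelude hypothesis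
`L.unram : L.F.IsUnramifiedOutside S` through B10 (`Bridge/H594/Unram.lean`).
Also: `G.IsUnramOut` passes to any group acting through a homomorphism (subgroups).
No `sorry`.
-/




set_option autoImplicit false
set_option linter.unusedSectionVars false
set_option linter.style.haveILetI false

namespace Fermat.Agent.S55.E1.H594

open Fermat.Agent.S55 Fermat.Agent.S55.Tow Fermat.Agent.S55.Bridge NumberField
open IsDedekindDomain

attribute [local instance] isAlgebraic_Qbar isGalois_Qbar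

noncomputable section

/-- Every finite prime of a number field contains a rational prime. -/
theorem exists_prime_natCast_mem {K : Type} [Field K] [NumberField K]
    (w : HeightOneSpectrum (𝓞 K)) : ∃ q : Nat.Primes, ((q : ℕ) : 𝓞 K) ∈ w.asIdeal := by
  haveI : w.asIdeal.IsMaximal := w.isMaximal
  letI : Field (𝓞 K ⧸ w.asIdeal) := Ideal.Quotient.field w.asIdeal
  haveI : Finite (𝓞 K ⧸ w.asIdeal) := Ideal.finiteQuotientOfFreeOfNeBot w.asIdeal w.ne_bot
  have hq : (ringChar (𝓞 K ⧸ w.asIdeal)).Prime :=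
    CharP.char_is_prime (𝓞 K ⧸ w.asIdeal) (ringChar (𝓞 K ⧸ w.asIdeal))
  refine ⟨⟨ringChar (𝓞 K ⧸ w.asIdeal), hq⟩, ?_⟩
  rw [← Ideal.Quotient.eq_zero_iff_mem, map_natCast]
  exact CharP.cast_eq_zero _ _

/-- `G.IsUnramOut` in terms of rational primes: it suffices to control the primes of `𝓞 K`
containing a rational prime `q ∉ S`. -/
theorem isUnramOut_of_forall_prime (S : Finset Nat.Primes) (Γ K : Type) [Group Γ] [Field K]
    [NumberField K] [MulSemiringAction Γ K]
    (h : ∀ q : Nat.Primes, q ∉ S → ∀ P : Ideal (𝓞 K), P.IsPrime → ((q : ℕ) : 𝓞 K) ∈ P →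
      ∀ g : Γ, (∀ x : 𝓞 K, g • x - x ∈ P) → ∀ x : K, g • x = x) :
    G.IsUnramOut S Γ K := by
  intro w hw g hg x
  obtain ⟨q, hq⟩ := exists_prime_natCast_mem w
  exact h q (fun hqS => hw ⟨q, hqS, hq⟩) w.asIdeal w.isPrime hq g hg x

/-- `G.IsUnramOut` passes to a group acting through a homomorphism `φ : Γ' → Γ`
(e.g. a subgroup). -/
theorem isUnramOut_of_hom (S : Finset Nat.Primes) (Γ Γ' K : Type) [Group Γ] [Group Γ'] [Field K]
    [NumberField K] [MulSemiringAction Γ K] [MulSemiringAction Γ' K] (φ : Γ' →* Γ)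
    (hφ : ∀ (g : Γ') (x : K), g • x = φ g • x) (h : G.IsUnramOut S Γ K) :
    G.IsUnramOut S Γ' K := by
  intro w hw g hg x
  rw [hφ]
  refine h w hw (φ g) (fun y => ?_) x
  have : φ g • y = g • y := Subtype.ext (hφ g (y : K)).symm
  rw [this]
  exact hg y

/-- `G.IsUnramOut` for a subgroup. -/
theorem isUnramOut_subgroup (S : Finset Nat.Primes) (Γ K : Type) [Group Γ] [Field K]
    [NumberField K] [MulSemiringAction Γ K] (H : Subgroup Γ) (h : G.IsUnramOut S Γ K) :
    G.IsUnramOut S H K :=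
  isUnramOut_of_hom S Γ H K H.subtype (fun _ _ => rfl) h

section aut

variable (F : IntermediateField ℚ (AlgebraicClosure ℚ)) [FiniteDimensional ℚ F] [IsGalois ℚ F]

attribute [local instance] H594.numberField_of_finite

/-- B10 in the vocabulary of layer G, for the full Galois group `Gal(F/ℚ)`. -/
theorem isUnramOut_aut_of_isUnramifiedOutside (S : Finset Nat.Primes)
    (h : F.IsUnramifiedOutside S) : G.IsUnramOut S (F ≃ₐ[ℚ] F) F := by
  refine isUnramOut_of_forall_prime S _ _ (fun q hq P hP hqP g hg x => ?_)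
  have h1 := (H594.isUnramifiedOutside_iff_inertia_eq_bot F S).1 h q hq P hP hqP
  have h2 : g ∈ P.inertia (F ≃ₐ[ℚ] F) := hg
  rw [h1, Subgroup.mem_bot] at h2
  rw [h2, one_smul]

end aut

variable {S : Finset Nat.Primes} (L : Level S)

/-- **LVL (3)**: a tower level is unramified outside `S` in the sense of layer G. -/
theorem level_isUnramOut : G.IsUnramOut S L.Gal L.F :=
  isUnramOut_of_hom S (L.F ≃ₐ[ℚ] L.F) L.Gal L.F (levelGalEquiv L).toMonoidHom (fun _ _ => rfl)
    (isUnramOut_aut_of_isUnramifiedOutside L.F S L.unram)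

/-- The same for every subgroup of `L.Gal`. -/
theorem level_isUnramOut_subgroup (H : Subgroup L.Gal) : G.IsUnramOut S H L.F :=
  isUnramOut_subgroup S L.Gal L.F H (level_isUnramOut L)

end

end Fermat.Agent.S55.E1.H594

end
-- ===== PACK-END S55/E1/H594/LevelUnram.lean

-- ===== PACK-BEGIN S55/K/GO3H535/H371/Ord.lean
section


/-!
# S55 / layer K / GO3-CAPDIV (helper371), part 1: units and orders at a place of `ℚ̄`

`A` a valuation subring of `ℚ̄`, `q` a natural number (a prime below `A`).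

* `UnitAt A x`     : `x` is a unit of `A` (`A.valuation x = 1`);
* `HasOrd A q x n` : `x / q ^ n` is a unit of `A` (`A.valuation x = A.valuation q ^ n`);
* algebra of both notions, uniqueness of the order, behaviour under `G_ℚ`;
* `isSUnit_iff` : `IsSUnit S x ↔ ∀ A outside S, UnitAt A x`.
-/

set_option autoImplicit false

noncomputable section

namespace Fermat.Agent.S55.K.GO3H535.H371

open Fermat.Agent.S55.PT Fermat.Agent.S55.Bridge Fermat.Agent.S55.K
open scoped Pointwise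

variable (A : ValuationSubring Qbar)

/-- `x` is a unit of the valuation subring `A`. -/
def UnitAt (x : Qbar) : Prop := A.valuation x = 1

variable {A}

theorem UnitAt.ne_zero {x : Qbar} (h : UnitAt A x) : x ≠ 0 := by
  rintro rfl
  rw [UnitAt, map_zero] at h
  exact zero_ne_one h

theorem unitAt_one : UnitAt A (1 : Qbar) := map_one _

theorem UnitAt.mul {x y : Qbar} (hx : UnitAt A x) (hy : UnitAt A y) : UnitAt A (x * y) := by
  rw [UnitAt, map_mul, hx, hy, mul_one]

theorem UnitAt.inv {x : Qbar} (hx : UnitAt A x) : UnitAt A x⁻¹ := by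
  rw [UnitAt, map_inv₀, hx, inv_one]

theorem UnitAt.div {x y : Qbar} (hx : UnitAt A x) (hy : UnitAt A y) : UnitAt A (x / y) := by
  rw [UnitAt, map_div₀, hx, hy, div_one]

theorem UnitAt.pow {x : Qbar} (hx : UnitAt A x) (n : ℕ) : UnitAt A (x ^ n) := by
  rw [UnitAt, map_pow, hx, one_pow]

theorem UnitAt.zpow {x : Qbar} (hx : UnitAt A x) (n : ℤ) : UnitAt A (x ^ n) := by
  rw [UnitAt, map_zpow₀, hx, one_zpow]

theorem unitAt_of_pow {x : Qbar} {n : ℕ} (hn : n ≠ 0) (hx : UnitAt A (x ^ n)) : UnitAt A x := by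
  rw [UnitAt, map_pow] at hx
  exact (pow_eq_one_iff_of_nonneg zero_le hn).1 hx

theorem unitAt_iff_mem {x : Qbar} (hx : x ≠ 0) : UnitAt A x ↔ x ∈ A ∧ x⁻¹ ∈ A := by
  constructor
  · intro h
    exact ⟨(A.valuation_le_one_iff _).1 h.le, (A.valuation_le_one_iff _).1 h.inv.le⟩
  · rintro ⟨h1, h2⟩
    have h3 : A.valuation x ≤ 1 := (A.valuation_le_one_iff _).2 h1
    have h4 : A.valuation x⁻¹ ≤ 1 := (A.valuation_le_one_iff _).2 h2
    have h0 : A.valuation x ≠ 0 := (Valuation.ne_zero_iff _).2 hx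
    rw [map_inv₀] at h4
    exact le_antisymm h3 ((inv_le_one₀ (zero_lt_iff.2 h0)).1 h4)

theorem unitAt_units_iff (x : Qbarˣ) :
    UnitAt A (x : Qbar) ↔ (x : Qbar) ∈ A ∧ ((x⁻¹ : Qbarˣ) : Qbar) ∈ A := by
  rw [unitAt_iff_mem x.ne_zero, Units.val_inv_eq_inv_val]

theorem isSUnit_iff (S : Finset Nat.Primes) (x : Qbarˣ) :
    IsSUnit S x ↔ ∀ A : ValuationSubring Qbar, OutsideS S A → UnitAt A (x : Qbar) := by
  constructor
  · intro h A hA
    exact (unitAt_units_iff x).2 (h A hA)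
  · intro h A hA
    exact (unitAt_units_iff x).1 (h A hA)

theorem unitAt_smul_iff (σ : _root_.Fermat.Agent.S55.PT.GQ) (x : Qbar) : UnitAt (σ • A) x ↔ UnitAt A (σ⁻¹ x) := by
  rcases eq_or_ne x 0 with rfl | hx
  · rw [map_zero]
    exact ⟨fun h => absurd rfl h.ne_zero, fun h => absurd rfl h.ne_zero⟩
  · have hx' : σ⁻¹ x ≠ 0 := by
      rw [Ne, map_eq_zero_iff _ (σ⁻¹).injective]
      exact hx
    rw [unitAt_iff_mem hx, unitAt_iff_mem hx', mem_smul_valuationSubring_iff,
      mem_smul_valuationSubring_iff, map_inv₀]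

theorem unitAt_inv_smul_iff (σ : _root_.Fermat.Agent.S55.PT.GQ) (x : Qbar) : UnitAt (σ⁻¹ • A) x ↔ UnitAt A (σ x) := by
  rw [unitAt_smul_iff, inv_inv]

variable (A)

/-- `x` has order `n` at the place `A` with respect to `q`: `x / q ^ n` is a unit of `A`. -/
def HasOrd (q : ℕ) (x : Qbar) (n : ℤ) : Prop := A.valuation x = A.valuation (q : Qbar) ^ n

variable {A} {q : ℕ}

theorem hasOrd_iff_unitAt (hq : q ≠ 0) (x : Qbar) (n : ℤ) :
    HasOrd A q x n ↔ UnitAt A (x / (q : Qbar) ^ n) := by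
  have hq0 : A.valuation (q : Qbar) ≠ 0 := by
    rw [Valuation.ne_zero_iff]
    exact_mod_cast hq
  have hqn : A.valuation (q : Qbar) ^ n ≠ 0 := zpow_ne_zero n hq0
  rw [HasOrd, UnitAt, map_div₀, map_zpow₀, div_eq_one_iff_eq hqn]

theorem HasOrd.ne_zero (hq : q ≠ 0) {x : Qbar} {n : ℤ} (h : HasOrd A q x n) : x ≠ 0 := by
  rintro rfl
  have := ((hasOrd_iff_unitAt hq _ _).1 h).ne_zero
  simp at this

theorem hasOrd_zero_iff (x : Qbar) : HasOrd A q x 0 ↔ UnitAt A x := by
  rw [HasOrd, UnitAt, zpow_zero]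

theorem hasOrd_natCast : HasOrd A q (q : Qbar) 1 := by
  rw [HasOrd, zpow_one]

theorem HasOrd.mul {x y : Qbar} {n m : ℤ} (hq : q ≠ 0) (hx : HasOrd A q x n)
    (hy : HasOrd A q y m) : HasOrd A q (x * y) (n + m) := by
  have hq0 : A.valuation (q : Qbar) ≠ 0 := by
    rw [Valuation.ne_zero_iff]
    exact_mod_cast hq
  rw [HasOrd, map_mul, hx, hy, zpow_add₀ hq0]

theorem HasOrd.inv {x : Qbar} {n : ℤ} (hx : HasOrd A q x n) : HasOrd A q x⁻¹ (-n) := by
  rw [HasOrd, map_inv₀, hx, zpow_neg]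

theorem HasOrd.div {x y : Qbar} {n m : ℤ} (hq : q ≠ 0) (hx : HasOrd A q x n)
    (hy : HasOrd A q y m) : HasOrd A q (x / y) (n - m) := by
  rw [div_eq_mul_inv, sub_eq_add_neg]
  exact hx.mul hq hy.inv

theorem HasOrd.pow {x : Qbar} {n : ℤ} (hx : HasOrd A q x n) (k : ℕ) :
    HasOrd A q (x ^ k) (n * k) := by
  rw [HasOrd, map_pow, hx, zpow_mul, zpow_natCast]

theorem HasOrd.zpow {x : Qbar} {n : ℤ} (hx : HasOrd A q x n) (k : ℤ) :
    HasOrd A q (x ^ k) (n * k) := by
  rw [HasOrd, map_zpow₀, hx, zpow_mul]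

theorem HasOrd.of_unitAt {x : Qbar} (hx : UnitAt A x) : HasOrd A q x 0 :=
  (hasOrd_zero_iff x).2 hx

/-- The order is unique at a place over `q`. -/
theorem HasOrd.unique (hq : q ≠ 0) (hA : A.LiesOverPrime q) {x : Qbar} {n m : ℤ}
    (hn : HasOrd A q x n) (hm : HasOrd A q x m) : n = m := by
  have hq0 : A.valuation (q : Qbar) ≠ 0 := by
    rw [Valuation.ne_zero_iff]
    exact_mod_cast hq
  have hlt : A.valuation (q : Qbar) < 1 := (A.mem_nonunits_iff).mp hA
  have h : A.valuation (q : Qbar) ^ n = A.valuation (q : Qbar) ^ m := hn.symm.trans hm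
  exact zpow_right_injective₀ (zero_lt_iff.2 hq0) hlt.ne h

/-- A unit with an order has order `0`. -/
theorem HasOrd.eq_zero_of_unitAt (hq : q ≠ 0) (hA : A.LiesOverPrime q) {x : Qbar} {n : ℤ}
    (hn : HasOrd A q x n) (hx : UnitAt A x) : n = 0 :=
  hn.unique hq hA (HasOrd.of_unitAt hx)

theorem HasOrd.unitAt_of_eq_zero {x : Qbar} {n : ℤ} (hn : HasOrd A q x n) (h0 : n = 0) :
    UnitAt A x := by
  subst h0
  exact (hasOrd_zero_iff x).1 hn

theorem hasOrd_smul_iff (hq : q ≠ 0) (σ : _root_.Fermat.Agent.S55.PT.GQ) (x : Qbar) (n : ℤ) :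
    HasOrd (σ • A) q x n ↔ HasOrd A q (σ⁻¹ x) n := by
  rw [hasOrd_iff_unitAt hq, hasOrd_iff_unitAt hq, unitAt_smul_iff, map_div₀, map_zpow₀,
    map_natCast]

theorem hasOrd_inv_smul_iff (hq : q ≠ 0) (σ : _root_.Fermat.Agent.S55.PT.GQ) (x : Qbar) (n : ℤ) :
    HasOrd (σ⁻¹ • A) q x n ↔ HasOrd A q (σ x) n := by
  rw [hasOrd_smul_iff hq, inv_inv]

end Fermat.Agent.S55.K.GO3H535.H371

end
end
-- ===== PACK-END S55/K/GO3H535/H371/Ord.lean

-- ===== PACK-BEGIN S55/H713/Graded.lean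
section


/-!
# Graded exactness for the normal basis lattice (cyclic Galois group)
-/

set_option autoImplicit false
set_option linter.unusedSectionVars false

namespace Fermat.Agent.S55.H713

variable {F E : Type*} [Field F] [Field E] [Algebra F E] [FiniteDimensional F E] [IsGalois F E]
variable {O : ValuationSubring E}

lemma exists_pow_eq_of_generator {σ : Gal(E/F)} (hσ : ∀ g, g ∈ Subgroup.zpowers σ)
    (g : Gal(E/F)) : ∃ j : ℕ, σ ^ j = g := by
  have h := hσ g
  rw [← (isOfFinOrder_of_finite σ).mem_powers_iff_mem_zpowers] at h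
  exact (Submonoid.mem_powers_iff _ _).1 h

lemma repr_sum_smul_nb (c : Gal(E/F) → F) (k : Gal(E/F)) :
    (nb F E).repr (∑ g, c g • nb F E g) k = c k := by
  classical
  rw [map_sum, Finset.sum_apply']
  simp [Finsupp.single_apply]

lemma smul_nb_one_mem {s c : F} (hc : algebraMap F E (c / s) ∈ O) :
    c • nb F E 1 ∈ normLat O s := by
  classical
  intro k
  rw [map_smul, Module.Basis.repr_self, Finsupp.smul_apply, Finsupp.single_apply, smul_eq_mul]
  split_ifs
  · simpa using hc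
  · simp [O.zero_mem]

/-- exactness at the trace, modulo `p`. -/
theorem ex1_E {σ : Gal(E/F)} (hσ : ∀ g, g ∈ Subgroup.zpowers σ) {p t : F}
    {x : E} (hx : x ∈ normLat O t) (hsx : σ x - x ∈ normLat O (p * t)) :
    ∃ b ∈ normLat O t, x - ∑ g : Gal(E/F), g b ∈ normLat O (p * t) := by
  set r := (nb F E).repr x with hr
  have hstep : ∀ g : Gal(E/F), algebraMap F E ((r (σ⁻¹ * g) - r g) / (p * t)) ∈ O := by
    intro g
    have := hsx g
    rwa [map_sub, Finsupp.sub_apply, repr_galois] at this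
  have hpow : ∀ j : ℕ, algebraMap F E ((r (σ ^ j) - r 1) / (p * t)) ∈ O := by
    intro j
    induction j with
    | zero => simp [O.zero_mem]
    | succ j ih =>
      have h1 := hstep (σ ^ (j + 1))
      have e : σ⁻¹ * σ ^ (j + 1) = σ ^ j := by
        rw [pow_succ']; group
      rw [e] at h1
      have : (r (σ ^ (j + 1)) - r 1) / (p * t) =
          (r (σ ^ j) - r 1) / (p * t) - (r (σ ^ j) - r (σ ^ (j + 1))) / (p * t) := by
        ring
      rw [this, map_sub]
      exact O.toSubring.sub_mem ih h1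
  have hall : ∀ g : Gal(E/F), algebraMap F E ((r g - r 1) / (p * t)) ∈ O := by
    intro g
    obtain ⟨j, rfl⟩ := exists_pow_eq_of_generator hσ g
    exact hpow j
  refine ⟨r 1 • nb F E 1, smul_nb_one_mem (hx 1), ?_⟩
  intro k
  have h1 : ∑ g : Gal(E/F), g (r 1 • nb F E 1) = ∑ g : Gal(E/F), r 1 • nb F E g := by
    refine Finset.sum_congr rfl (fun g _ => ?_)
    rw [map_smul, galois_nb, mul_one]
  rw [h1, map_sub, Finsupp.sub_apply, repr_sum_smul_nb]
  exact hall k

/-- the partial orbit sums. -/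
noncomputable def orbSum (σ : Gal(E/F)) (j : ℕ) : E := ∑ i ∈ Finset.range j, nb F E (σ ^ i)

lemma galois_orbSum (σ : Gal(E/F)) (j : ℕ) :
    σ (orbSum σ j) - orbSum σ j = nb F E (σ ^ j) - nb F E 1 := by
  induction j with
  | zero => simp [orbSum]
  | succ j ih =>
    have e1 : orbSum σ (j + 1) = orbSum σ j + nb F E (σ ^ j) := by
      simp [orbSum, Finset.sum_range_succ]
    rw [e1, map_add, galois_nb, ← pow_succ']
    have : σ (orbSum σ j) + nb F E (σ ^ (j + 1)) - (orbSum σ j + nb F E (σ ^ j)) =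
        (σ (orbSum σ j) - orbSum σ j) + (nb F E (σ ^ (j + 1)) - nb F E (σ ^ j)) := by ring
    rw [this, ih]; ring

lemma smul_orbSum_mem {t : F} (ht : t ≠ 0) (σ : Gal(E/F)) (j : ℕ) :
    t • orbSum σ j ∈ normLat O t := by
  rw [orbSum, Finset.smul_sum]
  exact (normLat O t).sum_mem (fun i _ => smul_nb_mem_normLat ht _)

/-- exactness at `σ - 1`, modulo `p`. -/
theorem ex2_E {σ : Gal(E/F)} (hσ : ∀ g, g ∈ Subgroup.zpowers σ) {p t : F} (ht : t ≠ 0)
    {x : E} (hx : x ∈ normLat O t) (hsx : ∑ g : Gal(E/F), g x ∈ normLat O (p * t)) :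
    ∃ b ∈ normLat O t, x - (σ b - b) ∈ normLat O (p * t) := by
  classical
  set r := (nb F E).repr x with hr
  -- the sum of the coordinates
  have hs : algebraMap F E ((∑ g : Gal(E/F), r g) / (p * t)) ∈ O := by
    have := hsx 1
    rw [map_sum, Finset.sum_apply'] at this
    have e : ∑ g : Gal(E/F), (nb F E).repr (g x) 1 = ∑ g : Gal(E/F), r g := by
      refine Fintype.sum_equiv (Equiv.inv _) _ _ (fun g => ?_)
      rw [repr_galois]; simp [hr]
    rwa [e] at this
  choose j hj using exists_pow_eq_of_generator hσ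
  refine ⟨∑ g : Gal(E/F), r g • orbSum σ (j g), ?_, ?_⟩
  · refine (normLat O t).sum_mem (fun g _ => ?_)
    have : r g • orbSum σ (j g) = (r g / t) • (t • orbSum σ (j g)) := by
      rw [smul_smul, div_mul_cancel₀ _ ht]
    rw [this]
    exact smul_mem_normLat (hx g) (smul_orbSum_mem ht σ (j g))
  · have h1 : σ (∑ g : Gal(E/F), r g • orbSum σ (j g)) - ∑ g : Gal(E/F), r g • orbSum σ (j g) =
        ∑ g : Gal(E/F), r g • (nb F E g - nb F E 1) := by
      rw [map_sum, ← Finset.sum_sub_distrib]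
      refine Finset.sum_congr rfl (fun g _ => ?_)
      rw [map_smul, ← smul_sub, galois_orbSum, hj]
    have h2 : ∑ g : Gal(E/F), r g • (nb F E g - nb F E 1) =
        x - (∑ g : Gal(E/F), r g) • nb F E 1 := by
      simp_rw [smul_sub]
      rw [Finset.sum_sub_distrib, ← Finset.sum_smul]
      congr 1
      exact (nb F E).sum_repr x
    rw [h1, h2, sub_sub_cancel]
    exact smul_nb_one_mem hs

end Fermat.Agent.S55.H713

end
-- ===== PACK-END S55/H713/Graded.lean

-- ===== PACK-BEGIN S55/E1/Main3.lean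
section
/-
S55 engine E1 — top level, version 3 (CANONICAL, FINAL): the engine consumes
`Tow.GlobalSpecFin` (= `GlobalSpecMu` + GD5b, see Spec/Datum3.lean).
Chief architect: helper55.  NO sorry.

`EngineSpecFin` = the TARGET of layer D (engine E1, block LIM).
`S55_of_specsFin : EngineSpecFin → InputsSpecFin → <frozen statement S55>`.
(`EngineSpecMu → EngineSpecFin`, so a proof of the older target is still accepted.)
-/



set_option autoImplicit false

open CategoryTheory Module groupCohomology ExtCitation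

namespace Fermat.Agent.S55.E1

open Fermat.Agent.S55.Tow

/-- **TARGET OF LAYER D (engine E1), final form.** -/
def EngineSpecFin : Prop :=
  ∀ (p : ℕ) [Fact p.Prime], p ≠ 2 → ∀ (S : Finset Nat.Primes), pPrime p ∈ S →
    TateNakayamaAtSpec → GlobalSpecFin S p → LocalSpec p → SUnitsDivSpec S p → H1FiniteSpec S p →
    ∀ (M : Rep.{0, 0, 0} (ZMod p) (AlgebraicClosure ℚ ≃ₐ[ℚ] AlgebraicClosure ℚ))
      [FiniteDimensional (ZMod p) M], IsAdmissible S M → DimEq S M

/-- The arithmetic inputs (for all odd `p ∈ S`), final form. -/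
def InputsSpecFin : Prop :=
  TateNakayamaAtSpec ∧
  ∀ (p : ℕ) [Fact p.Prime], p ≠ 2 → ∀ (S : Finset Nat.Primes), pPrime p ∈ S →
    GlobalSpecFin S p ∧ LocalSpec p ∧ SUnitsDivSpec S p ∧ H1FiniteSpec S p

theorem EngineSpecMu.engineSpecFin (h : EngineSpecMu) : EngineSpecFin :=
  fun p _ hp2 S hpS hT hG hL hU hF M _ hM =>
    h p hp2 S hpS hT hG.globalSpecMu hL hU hF M hM

/-- S55 from the engine and the arithmetic inputs (final form). -/
theorem S55_of_specsFin (hE : EngineSpecFin) (hI : InputsSpecFin)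
    {p : ℕ} [Fact p.Prime] (hp2 : p ≠ 2) (S : Finset Nat.Primes) (hpS : pPrime p ∈ S)
    (M : Rep (ZMod p) (AlgebraicClosure ℚ ≃ₐ[ℚ] AlgebraicClosure ℚ))
    [FiniteDimensional (ZMod p) M]
    (hsm : ∀ m : M, ∃ F : IntermediateField ℚ (AlgebraicClosure ℚ), FiniteDimensional ℚ F ∧
      ∀ s ∈ F.fixingSubgroup, M.ρ s m = m)
    (hMur : ∀ q : Nat.Primes, q ∉ S → ∀ A : ValuationSubring (AlgebraicClosure ℚ),
      A.LiesOverPrime (q : ℕ) → ∀ g ∈ A.inertiaSubgroupIn ℚ, M.ρ g = 1) :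
    ∃ B : sha₁ S (M.dualTwist (cycloChar p)) →ₗ[ZMod p] sha₂ S M →ₗ[ZMod p] ZMod p,
      (∀ y, (∀ x, B y x = 0) → y = 0) ∧ (∀ x, (∀ y, B y x = 0) → x = 0) := by
  obtain ⟨hT, hrest⟩ := hI
  obtain ⟨hG, hL, hU, hF⟩ := hrest p hp2 S hpS
  obtain ⟨h1, h2, h3⟩ := hE p hp2 S hpS hT hG hL hU hF M ⟨hsm, hMur⟩
  exact Fermat.Agent.S55.Bridge.pairing_of_finrank_eq S M h1 h2 h3

end Fermat.Agent.S55.E1

end
-- ===== PACK-END S55/E1/Main3.lean

-- ===== PACK-BEGIN S55/G/FI/FirstIneqH895.lean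
section
/-
S55, layer G, leaf **G-FI : the FIRST INEQUALITY** in Herbrand form (helper895), on helper421's
intrinsic model (`G/Defs.lean`).

For `L/K` a cyclic extension of number fields, `G = Gal(L/K) = ⟨σ⟩`, `S` a finite nonempty set
of rational primes, `C_S(L) = (J_S(L) × Div^S(L)) / Lˣ`:

  `h₀(C_S(L)) * ∏_{v | ∞} n_v = h₁(C_S(L)) * [L : K]`,   both finite

(`firstIneqSpec_of`), i.e. `|H²(G, C_S(L))| * ∏ n_v = |H¹(G, C_S(L))| * [L : K]`
(`firstIneq_card_of`), and `|H²(G, C_S(L))| = [L : K] * |H¹(G, C_S(L))|` for `[L : K]` odd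
(`firstIneq_card_of_odd`).

INPUTS (explicit hypotheses):
* `SUnitsHerbrandSpec` (block G-U, helper595, PROVED on main: `sUnitsHerbrandSpec`);
* `JHerbrandSpec` : `h₀(J_S(L)) = ∏_{v ∈ S_K} e_v f_v`, `h₁(J_S(L)) = 1`
  (leaf G-LOC + local norm index of layer L);
* `ClSFiniteSpec` : `[Div^S(L) : div(Lˣ)] < ∞` (finiteness of the `S`-class group, leaf G-SES).

The bookkeeping is the sequence `0 → E_S → J_S → C_S → Cl_S → 0`
(`jToC_ker`, `unitsDiag_injective`, `jToC_range_index`), see `KerCokerH895.lean`.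
No `sorry`.
-/






set_option autoImplicit false
set_option linter.unusedSectionVars false
set_option linter.style.haveILetI false

open Fermat.Agent.S55.G Fermat.Agent.S55.Herbrand
open scoped NumberField TensorProduct
open IsDedekindDomain

namespace Fermat.Agent.S55.G.FIH895

/-! ## 1. The primes of `K` above `S` -/

section Primes

variable (S : Finset Nat.Primes) (K : Type) [Field K] [NumberField K]

lemma natCast_ne_zero_of_prime (q : Nat.Primes) : ((q : ℕ) : 𝓞 K) ≠ 0 := by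
  exact_mod_cast q.2.ne_zero

/-- The set of primes of `K` above `S` is finite. -/
lemma finite_isAbove : {v : HeightOneSpectrum (𝓞 K) | IsAbove S K v}.Finite := by
  classical
  have h : {v : HeightOneSpectrum (𝓞 K) | IsAbove S K v} ⊆
      ⋃ q ∈ S, {v : HeightOneSpectrum (𝓞 K) | v.asIdeal ∣ Ideal.span {((q : ℕ) : 𝓞 K)}} := by
    rintro v ⟨q, hq, hv⟩
    simp only [Set.mem_iUnion, Set.mem_ofPred_eq, exists_prop]
    refine ⟨q, hq, ?_⟩
    rw [Ideal.dvd_iff_le, Ideal.span_singleton_le_iff_mem]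
    exact hv
  refine Set.Finite.subset ?_ h
  refine Set.Finite.biUnion S.finite_toSet fun q _ => ?_
  apply Ideal.finite_factors
  intro h0
  rw [Ideal.zero_eq_bot, Ideal.span_singleton_eq_bot] at h0
  exact natCast_ne_zero_of_prime K q h0

/-- The finite set `S_K` of primes of `K` above `S`. -/
noncomputable def primesOver : Finset (HeightOneSpectrum (𝓞 K)) := (finite_isAbove S K).toFinset

lemma mem_primesOver_iff (v : HeightOneSpectrum (𝓞 K)) : v ∈ primesOver S K ↔ IsAbove S K v := by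
  simp [primesOver]

end Primes

section Above

variable (S : Finset Nat.Primes) (K L : Type) [Field K] [Field L] [NumberField K] [NumberField L]
  [Algebra K L]

/-- The primes of `L` over `S_K` are the primes of `L` above `S`. -/
lemma primesAbove_primesOver :
    primesAbove K L (primesOver S K) = {w | IsAbove S L w} := by
  ext w
  simp only [primesAbove, Set.mem_ofPred_eq, mem_primesOver_iff]
  constructor
  · rintro ⟨v, ⟨q, hq, hv⟩, hwv⟩
    refine ⟨q, hq, ?_⟩
    rw [← hwv, Ideal.under_def, Ideal.mem_comap, map_natCast] at hv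
    exact hv
  · rintro ⟨q, hq, hw⟩
    have hmem : ((q : ℕ) : 𝓞 K) ∈ w.asIdeal.under (𝓞 K) := by
      rw [Ideal.under_def, Ideal.mem_comap, map_natCast]
      exact hw
    have hne : w.asIdeal.under (𝓞 K) ≠ ⊥ := by
      intro h
      rw [h, Ideal.mem_bot] at hmem
      exact natCast_ne_zero_of_prime K q hmem
    exact ⟨⟨w.asIdeal.under (𝓞 K), inferInstance, hne⟩, ⟨q, hq, hmem⟩, rfl⟩

/-- helper595's `T`-units for `T = S_K` are helper421's `S`-units. -/
lemma sUnits_primesOver : sUnits K L (primesOver S K) = (sUnit S L).toAddSubgroup := by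
  ext x
  unfold sUnits
  rw [primesAbove_primesOver]
  change x.toMul ∈ Set.unit _ L ↔ x ∈ sUnit S L
  rw [mem_sUnit_iff]
  constructor
  · intro h w
    rw [ordAt_eq_zero_iff]
    exact h w.1 w.2
  · intro h w hw
    have := h ⟨w, hw⟩
    rwa [ordAt_eq_zero_iff] at this

end Above

/-! ## 2. The diagonal embedding is injective -/

section Diag

variable (S : Finset Nat.Primes) (L : Type) [Field L] [CharZero L]

lemma nontrivial_QS (hS : S.Nonempty) : Nontrivial (QS S) := by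
  obtain ⟨q, hq⟩ := hS
  haveI : Nonempty S := ⟨⟨q, hq⟩⟩
  exact inferInstanceAs (Nontrivial (∀ q : S, Qq q.1))

lemma asDiag_injective (hS : S.Nonempty) : Function.Injective (asDiag S L) := by
  haveI := nontrivial_QS S hS
  exact Algebra.TensorProduct.includeLeft_injective (S := ℚ) (algebraMap ℚ (QS S)).injective

lemma unitsDiag_injective (hS : S.Nonempty) : Function.Injective (unitsDiag S L) := by
  intro x y h
  apply Additive.toMul.injective
  apply Units.ext
  apply asDiag_injective S L hS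
  have := congrArg (fun z : Additive (AS S L)ˣ => ((z.toMul : (AS S L)ˣ) : AS S L)) h
  simpa only [coe_unitsDiag_apply] using this

end Diag

/-! ## 3. The map `J_S(L) → C_S(L)`: kernel, range, equivariance -/

section JToC

variable (S : Finset Nat.Primes) (L : Type) [Field L] [NumberField L]

/-- The map `J_S(L) → C_S(L)` as an additive map. -/
noncomputable def jToC : Additive (AS S L)ˣ →+ CS S L :=
  ((principal S L).mkQ.toAddMonoidHom).comp
    (AddMonoidHom.inl (Additive (AS S L)ˣ) (PrimeOut S L →₀ ℤ))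

lemma jToC_apply (j : Additive (AS S L)ˣ) :
    jToC S L j = (principal S L).mkQ ((j, 0) : JD S L) := rfl

/-- `ker (J_S → C_S) = E_S` (embedded diagonally). -/
lemma jToC_ker : (jToC S L).ker = (sUnit S L).toAddSubgroup.map (unitsDiag S L) := by
  ext j
  rw [AddMonoidHom.mem_ker, jToC_apply, Submodule.mkQ_apply, Submodule.Quotient.mk_eq_zero,
    mem_principal_iff, AddSubgroup.mem_map]
  constructor
  · rintro ⟨x, hx⟩
    have h1 : unitsDiag S L x = j := congrArg Prod.fst hx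
    have h2 : ordHom S L x = 0 := congrArg Prod.snd hx
    exact ⟨x, h2, h1⟩
  · rintro ⟨x, hx, rfl⟩
    refine ⟨x, Prod.ext rfl ?_⟩
    exact hx

lemma jToC_range : (jToC S L).range = (jImage S L).toAddSubgroup := by
  ext c
  constructor
  · rintro ⟨j, rfl⟩
    exact ⟨j, rfl⟩
  · rintro ⟨j, rfl⟩
    exact ⟨j, rfl⟩

/-- `[C_S : im J_S] = [Div^S : div(Lˣ)]` (the order of the `S`-class group). -/
lemma jToC_range_index : (jToC S L).range.index = (ordHom S L).range.index := by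
  have h1 : (jToC S L).range =
      ((AddMonoidHom.inl (Additive (AS S L)ˣ) (PrimeOut S L →₀ ℤ)).range).map
        (principal S L).mkQ.toAddMonoidHom := by
    rw [jToC, AddMonoidHom.range_comp]
  have hsurj : Function.Surjective (principal S L).mkQ.toAddMonoidHom :=
    (principal S L).mkQ_surjective
  have hker : ((principal S L).mkQ.toAddMonoidHom).ker = (principal S L).toAddSubgroup := by
    ext y
    rw [AddMonoidHom.mem_ker]
    exact Submodule.Quotient.mk_eq_zero _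
  have h2 : (AddMonoidHom.inl (Additive (AS S L)ˣ) (PrimeOut S L →₀ ℤ)).range ⊔
      (principal S L).toAddSubgroup =
      (ordHom S L).range.comap (AddMonoidHom.snd (Additive (AS S L)ˣ) (PrimeOut S L →₀ ℤ)) := by
    apply le_antisymm
    · refine sup_le ?_ ?_
      · rintro _ ⟨j, rfl⟩
        exact ⟨0, by simp⟩
      · rintro _ ⟨x, rfl⟩
        exact ⟨x, rfl⟩
    · rintro ⟨j, d⟩ ⟨x, hx⟩
      have hx' : ordHom S L x = d := hx
      rw [AddSubgroup.mem_sup]
      refine ⟨(j - unitsDiag S L x, 0), ⟨j - unitsDiag S L x, rfl⟩, diagHom S L x, ⟨x, rfl⟩, ?_⟩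
      refine Prod.ext ?_ ?_
      · simp
      · simp [hx']
  have hrange : ((principal S L).mkQ.toAddMonoidHom).range = ⊤ :=
    AddMonoidHom.range_eq_top.2 hsurj
  rw [h1, AddSubgroup.index_map, hker, h2, hrange, AddSubgroup.index_top, mul_one,
    AddSubgroup.index_comap_of_surjective]
  exact fun d => ⟨(0, d), rfl⟩

variable (G : Type) [Group G] [MulSemiringAction G L]

lemma jToC_equivariant (g : G) (j : Additive (AS S L)ˣ) :
    jToC S L (jRepr G S L g j) = cRepr S G L g (jToC S L j) := by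
  rw [jToC_apply, jToC_apply]
  change _ = (principal S L).mkQ (jdRepr S G L g ((j, 0) : JD S L))
  have h : ((jRepr G S L g j, 0) : JD S L) = jdRepr S G L g ((j, 0) : JD S L) := by
    refine Prod.ext rfl ?_
    simp [jdRepr, Representation.prod]
  rw [h]

lemma jToCRepHom_apply (j : Additive (AS S L)ˣ) :
    (jToCRepHom S G L).hom j = jToC S L j := rfl

end JToC

/-! ## 4. Specs -/

/-- **(J) Herbrand indices of the `S`-idèles**: for `L/K` cyclic with generator `σ`,
`h₀(J_S(L)) = ∏_{v ∈ S_K} e_v f_v` and `h₁(J_S(L)) = 1`.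
(Leaf G-LOC: `(L ⊗ ℚ_q)ˣ = ∏_{v | q} Ind_{G_w}^G L_wˣ`, Shapiro in Herbrand form, and the local
norm index `[K_vˣ : N L_wˣ] = e_v f_v`, Hilbert 90.) -/
def JHerbrandSpec : Prop :=
  ∀ (K L : Type) [Field K] [Field L] [NumberField K] [NumberField L] [Algebra K L]
    [IsGalois K L] (σ : L ≃ₐ[K] L), (∀ τ : L ≃ₐ[K] L, τ ∈ Subgroup.zpowers σ) →
    ∀ S : Finset Nat.Primes,
      h0 (gAct (JRep (L ≃ₐ[K] L) S L) σ) (Nat.card (L ≃ₐ[K] L)) =
        finDegProd K L (primesOver S K) ∧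
      h1 (gAct (JRep (L ≃ₐ[K] L) S L) σ) (Nat.card (L ≃ₐ[K] L)) = 1

/-- **(Cl) finiteness of the `S`-class group**: `div(Lˣ)` has finite index in `Div^S(L)`. -/
def ClSFiniteSpec : Prop :=
  ∀ (L : Type) [Field L] [NumberField L] (S : Finset Nat.Primes), (ordHom S L).range.index ≠ 0

/-- **(FI) first inequality, Herbrand form**: for `L/K` cyclic with generator `σ` and `S ≠ ∅`,
`h₀(C_S(L)) * ∏_{v | ∞} n_v = h₁(C_S(L)) * [L : K]`, both indices finite. -/
def FirstIneqSpec : Prop :=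
  ∀ (K L : Type) [Field K] [Field L] [NumberField K] [NumberField L] [Algebra K L]
    [IsGalois K L] (σ : L ≃ₐ[K] L), (∀ τ : L ≃ₐ[K] L, τ ∈ Subgroup.zpowers σ) →
    ∀ S : Finset Nat.Primes, S.Nonempty →
      h0 (gAct (CRep S (L ≃ₐ[K] L) L) σ) (Nat.card (L ≃ₐ[K] L)) ≠ 0 ∧
      h1 (gAct (CRep S (L ≃ₐ[K] L) L) σ) (Nat.card (L ≃ₐ[K] L)) ≠ 0 ∧
      h0 (gAct (CRep S (L ≃ₐ[K] L) L) σ) (Nat.card (L ≃ₐ[K] L)) * infDegProd K L =
        h1 (gAct (CRep S (L ≃ₐ[K] L) L) σ) (Nat.card (L ≃ₐ[K] L)) * Module.finrank K L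

/-! ## 5. Assembly -/

section Assembly

variable (K L : Type) [Field K] [Field L] [NumberField K] [NumberField L] [Algebra K L]
  [IsGalois K L]

lemma delta_gAct_LRep (σ : L ≃ₐ[K] L) :
    (delta (gAct (LRep (L ≃ₐ[K] L) L) σ) : Additive Lˣ →+ Additive Lˣ) = unitsAug K L σ := rfl

lemma normN_gAct_LRep (σ : L ≃ₐ[K] L) (hσ : ∀ τ : L ≃ₐ[K] L, τ ∈ Subgroup.zpowers σ) :
    (normN (gAct (LRep (L ≃ₐ[K] L) L) σ) (Nat.card (L ≃ₐ[K] L)) :
      Additive Lˣ →+ Additive Lˣ) = unitsNorm K L := by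
  refine AddMonoidHom.ext fun x => ?_
  refine (normN_gAct_apply (LRep (L ≃ₐ[K] L) L) σ hσ x).trans ?_
  unfold unitsNorm
  rw [AddMonoidHom.finsetSum_apply]
  rfl

lemma finDegProd_ne_zero (T : Finset (HeightOneSpectrum (𝓞 K))) : finDegProd K L T ≠ 0 := by
  unfold finDegProd
  refine Finset.prod_ne_zero_iff.2 fun v _ => mul_ne_zero ?_ ?_
  · exact Ideal.ramificationIdxIn_ne_zero (L ≃ₐ[K] L)
  · exact Ideal.inertiaDegIn_ne_zero (L ≃ₐ[K] L)

end Assembly

lemma firstIneq_arith (a a' c c' n I P : ℕ) (ha' : a' ≠ 0) (hP : P ≠ 0)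
    (hc : a * c = a' * c' * P) (hu : a * n = a' * (I * P)) : c * I = c' * n := by
  have key : (c * I) * (a' * P) = (c' * n) * (a' * P) := by
    calc (c * I) * (a' * P) = c * (a' * (I * P)) := by ring
      _ = c * (a * n) := by rw [hu]
      _ = (a * c) * n := by ring
      _ = (a' * c' * P) * n := by rw [hc]
      _ = _ := by ring
  exact Nat.eq_of_mul_eq_mul_right (Nat.pos_of_ne_zero (mul_ne_zero ha' hP)) key

/-- **First inequality (Herbrand form) from its three inputs.** -/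
theorem firstIneqSpec_of (hU : SUnitsHerbrandSpec.{0, 0}) (hJ : JHerbrandSpec)
    (hCl : ClSFiniteSpec) : FirstIneqSpec := by
  intro K L _ _ _ _ _ _ σ hσ S hS
  obtain ⟨u1, u2, u3⟩ := hU K L σ hσ (primesOver S K)
  obtain ⟨j0, j1⟩ := hJ K L σ hσ S
  unfold h0 at j0
  unfold h1 at j1
  rw [sUnits_primesOver] at u1 u2 u3
  rw [← delta_gAct_LRep, ← normN_gAct_LRep K L σ hσ] at u1 u2 u3
  have hP : finDegProd K L (primesOver S K) ≠ 0 := finDegProd_ne_zero K L _
  have hισ : ∀ u : Additive Lˣ, unitsDiag S L (gAct (LRep (L ≃ₐ[K] L) L) σ u) =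
      gAct (JRep (L ≃ₐ[K] L) S L) σ (unitsDiag S L u) :=
    fun u => unitsDiag_equivariant (L ≃ₐ[K] L) S L σ u
  have hφσ : ∀ j : Additive (AS S L)ˣ, jToC S L (gAct (JRep (L ≃ₐ[K] L) S L) σ j) =
      gAct (CRep S (L ≃ₐ[K] L) L) σ (jToC S L j) :=
    fun j => jToC_equivariant S L (L ≃ₐ[K] L) σ j
  have hJpow := gAct_pow_card (JRep (L ≃ₐ[K] L) S L) σ
  have hCpow := gAct_pow_card (CRep S (L ≃ₐ[K] L) L) σ
  have hfin : (jToC S L).range.index ≠ 0 := by
    rw [jToC_range_index]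
    exact hCl L S
  obtain ⟨⟨c0, c1⟩, hc⟩ := kerCoker
    (delta (gAct (LRep (L ≃ₐ[K] L) L) σ))
    (normN (gAct (LRep (L ≃ₐ[K] L) L) σ) (Nat.card (L ≃ₐ[K] L)))
    (delta (gAct (JRep (L ≃ₐ[K] L) S L) σ))
    (normN (gAct (JRep (L ≃ₐ[K] L) S L) σ) (Nat.card (L ≃ₐ[K] L)))
    (delta (gAct (CRep S (L ≃ₐ[K] L) L) σ))
    (normN (gAct (CRep S (L ≃ₐ[K] L) L) σ) (Nat.card (L ≃ₐ[K] L)))
    (unitsDiag S L) (jToC S L) (sUnit S L).toAddSubgroup
    (unitsDiag_injective S L hS)
    (fun u => map_delta_of_comm hισ u) (fun u => map_normN_of_comm hισ _ u)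
    (fun j => map_delta_of_comm hφσ j) (fun j => map_normN_of_comm hφσ _ j)
    (jToC_ker S L) hfin
    (fun j => delta_normN hJpow j) (fun j => normN_delta hJpow j)
    (fun c => delta_normN hCpow c) (fun c => normN_delta hCpow c)
    ⟨u1, u2⟩ ⟨by rw [j0]; exact hP, by rw [j1]; exact one_ne_zero⟩
  refine ⟨c0, c1, ?_⟩
  change hIndex _ _ * _ = hIndex _ _ * _
  rw [j0, j1, mul_one] at hc
  exact firstIneq_arith _ _ _ _ _ _ _ u2 hP hc u3

/-! ## 6. Cohomological form -/

section Card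

open groupCohomology

variable (K L : Type) [Field K] [Field L] [NumberField K] [NumberField L] [Algebra K L]
  [IsGalois K L]

/-- For `[L : K]` odd no infinite place ramifies: `∏_{v | ∞} n_v = 1`. -/
lemma infDegProd_eq_one_of_odd (hodd : Odd (Module.finrank K L)) : infDegProd K L = 1 := by
  unfold infDegProd
  refine Finset.prod_eq_one fun v _ => ?_
  rw [if_pos]
  by_contra hv
  exact (Nat.not_even_iff_odd.2 hodd)
    (NumberField.InfinitePlace.even_finrank_of_not_isUnramifiedIn hv)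

/-- **First inequality, cohomological form**: `H¹(G, C_S(L))` and `H²(G, C_S(L))` are finite and
`|H²(G, C_S(L))| * ∏_{v | ∞} n_v = |H¹(G, C_S(L))| * [L : K]`. -/
theorem firstIneq_card_of (hFI : FirstIneqSpec) (σ : L ≃ₐ[K] L)
    (hσ : ∀ τ : L ≃ₐ[K] L, τ ∈ Subgroup.zpowers σ) (S : Finset Nat.Primes) (hS : S.Nonempty) :
    Finite (groupCohomology (CRep S (L ≃ₐ[K] L) L) 1) ∧
    Finite (groupCohomology (CRep S (L ≃ₐ[K] L) L) 2) ∧
    Nat.card (groupCohomology (CRep S (L ≃ₐ[K] L) L) 2) * infDegProd K L =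
      Nat.card (groupCohomology (CRep S (L ≃ₐ[K] L) L) 1) * Module.finrank K L := by
  obtain ⟨c0, c1, hc⟩ := hFI K L σ hσ S hS
  rw [← card_H2_eq_h0 (CRep S (L ≃ₐ[K] L) L) σ hσ] at c0 hc
  rw [← card_H1_eq_h1 (CRep S (L ≃ₐ[K] L) L) σ hσ] at c1 hc
  exact ⟨(Nat.card_ne_zero.1 c1).2, (Nat.card_ne_zero.1 c0).2, hc⟩

/-- **First inequality for odd degree**: `|H²(G, C_S(L))| = [L : K] * |H¹(G, C_S(L))|`. -/
theorem firstIneq_card_of_odd (hFI : FirstIneqSpec) (σ : L ≃ₐ[K] L)
    (hσ : ∀ τ : L ≃ₐ[K] L, τ ∈ Subgroup.zpowers σ) (S : Finset Nat.Primes) (hS : S.Nonempty)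
    (hodd : Odd (Module.finrank K L)) :
    Finite (groupCohomology (CRep S (L ≃ₐ[K] L) L) 1) ∧
    Finite (groupCohomology (CRep S (L ≃ₐ[K] L) L) 2) ∧
    Nat.card (groupCohomology (CRep S (L ≃ₐ[K] L) L) 2) =
      Module.finrank K L * Nat.card (groupCohomology (CRep S (L ≃ₐ[K] L) L) 1) := by
  obtain ⟨f1, f2, h⟩ := firstIneq_card_of K L hFI σ hσ S hS
  rw [infDegProd_eq_one_of_odd K L hodd, mul_one] at h
  exact ⟨f1, f2, by rw [h, mul_comm]⟩

/-- In particular `[L : K]` divides `|H²(G, C_S(L))|` (the first inequality proper). -/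
theorem finrank_dvd_card_H2_of_odd (hFI : FirstIneqSpec) (σ : L ≃ₐ[K] L)
    (hσ : ∀ τ : L ≃ₐ[K] L, τ ∈ Subgroup.zpowers σ) (S : Finset Nat.Primes) (hS : S.Nonempty)
    (hodd : Odd (Module.finrank K L)) :
    Module.finrank K L ∣ Nat.card (groupCohomology (CRep S (L ≃ₐ[K] L) L) 2) :=
  ⟨_, (firstIneq_card_of_odd K L hFI σ hσ S hS hodd).2.2⟩

end Card

end Fermat.Agent.S55.G.FIH895

end
-- ===== PACK-END S55/G/FI/FirstIneqH895.lean

-- ===== PACK-BEGIN S55/G/SeqH604.lean
section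
/-
S55, layer G, leaf G-SES part (d) (helper604), on top of helper421's `G/Defs.lean`.

The two short exact sequences of `Rep ℤ G` used for the Herbrand quotient of `C_S(L)`:

* `0 → E_S(L) → J_S(L) → C'_S(L) → 0`      (`ejcShortComplex`,  `C'_S = J_S / E_S`),
* `0 → C'_S(L) → C_S(L) → Cl_S(L) → 0`     (`cclShortComplex`), with `Cl_S(L)` FINITE.
-/



set_option autoImplicit false
set_option linter.unusedSectionVars false

open scoped NumberField TensorProduct
open IsDedekindDomain CategoryTheory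

noncomputable section

namespace Fermat.Agent.S55.G.SeqH604

open Fermat.Agent.S55.G Fermat.Agent.S55.G.SesH604 Fermat.Agent.S55.G.ClsH604

variable (S : Finset Nat.Primes) (G L : Type) [Group G] [Field L] [NumberField L]
  [MulSemiringAction G L]

/-! ## 1. `E_S → J_S → C'_S` -/

/-- The map `E_S(L) → J_S(L)`, `e ↦ e ⊗ 1`, as a linear map. -/
def eToJ : sUnit S L →ₗ[ℤ] Additive (AS S L)ˣ :=
  (unitsDiag S L).toIntLinearMap ∘ₗ (sUnit S L).subtype

@[simp] lemma eToJ_apply (e : sUnit S L) : eToJ S L e = unitsDiag S L e.1 := rfl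

lemma eToJ_equivariant (g : G) (e : sUnit S L) :
    eToJ S L (eRepr S G L g e) = jRepr G S L g (eToJ S L e) :=
  unitsDiag_equivariant G S L g e.1

lemma eToJ_injective (hS : S.Nonempty) : Function.Injective (eToJ S L) := by
  intro x y hxy
  exact Subtype.ext (unitsDiag_injective S L hS hxy)

/-- The image of the `S`-units in the `S`-idèles. -/
def eImage : Submodule ℤ (Additive (AS S L)ˣ) := LinearMap.range (eToJ S L)

lemma eImage_stable (g : G) : eImage S L ≤ (eImage S L).comap (jRepr G S L g) := by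
  rintro _ ⟨e, rfl⟩
  exact ⟨eRepr S G L g e, eToJ_equivariant S G L g e⟩

/-- The representation of `G` on `C'_S(L) = J_S(L) / E_S(L)`. -/
def cPrimeRepr : Representation ℤ G (Additive (AS S L)ˣ ⧸ eImage S L) :=
  (jRepr G S L).quotient (eImage S L) (eImage_stable S G L)

/-- `C'_S(L) = J_S(L) / E_S(L)` as an object of `Rep ℤ G`. -/
def CPrimeRep : Rep ℤ G := Rep.of (cPrimeRepr S G L)

/-- `E_S(L) ⟶ J_S(L)` in `Rep ℤ G`. -/
def eToJRepHom : ERep S G L ⟶ JRep G S L :=
  Rep.ofHom ⟨eToJ S L, fun g => LinearMap.ext fun e => eToJ_equivariant S G L g e⟩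

/-- `J_S(L) ⟶ C'_S(L)` in `Rep ℤ G`. -/
def jToCPrimeRepHom : JRep G S L ⟶ CPrimeRep S G L :=
  Rep.ofHom ⟨(eImage S L).mkQ, fun _ => LinearMap.ext fun _ => rfl⟩

/-- The short complex `E_S(L) ⟶ J_S(L) ⟶ C'_S(L)`. -/
def ejcShortComplex : ShortComplex (Rep ℤ G) :=
  ShortComplex.mk (eToJRepHom S G L) (jToCPrimeRepHom S G L) (by
    ext x
    exact (Submodule.Quotient.mk_eq_zero _).2 ⟨x, rfl⟩)

/-- **G-SES (d1).** `0 → E_S(L) → J_S(L) → C'_S(L) → 0` is short exact when `S ≠ ∅`. -/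
theorem ejcShortComplex_shortExact (hS : S.Nonempty) : (ejcShortComplex S G L).ShortExact := by
  refine Fermat.Agent.S55.H295.rep_shortExact_of (k := ℤ) (ejcShortComplex S G L) ?_ ?_ ?_
  · intro x y hxy
    exact eToJ_injective S L hS hxy
  · intro x hx
    have hx' : x ∈ eImage S L := (Submodule.Quotient.mk_eq_zero _).1 hx
    obtain ⟨y, hy⟩ := hx'
    exact ⟨y, hy⟩
  · exact Submodule.mkQ_surjective _

/-! ## 2. `C'_S → C_S → Cl_S` -/

/-- The linear map `J_S(L) → C_S(L)`. -/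
def jToC : Additive (AS S L)ˣ →ₗ[ℤ] CS S L :=
  (principal S L).mkQ ∘ₗ LinearMap.inl ℤ (Additive (AS S L)ˣ) (PrimeOut S L →₀ ℤ)

lemma range_jToC : LinearMap.range (jToC S L) = jImage S L := rfl

lemma jToC_apply (j : Additive (AS S L)ˣ) :
    jToC S L j = Submodule.Quotient.mk ((j, 0) : JD S L) := rfl

/-- `(j, 0)` is principal iff `j` comes from an `S`-unit. -/
lemma jToC_eq_zero_iff (j : Additive (AS S L)ˣ) : jToC S L j = 0 ↔ j ∈ eImage S L := by
  rw [jToC_apply, Submodule.Quotient.mk_eq_zero]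
  constructor
  · rintro ⟨x, hx⟩
    have h1 : unitsDiag S L x = j := congrArg Prod.fst hx
    have h2 : ordHom S L x = 0 := congrArg Prod.snd hx
    exact ⟨⟨x, h2⟩, h1⟩
  · rintro ⟨e, rfl⟩
    refine ⟨e.1, Prod.ext rfl ?_⟩
    exact e.2

lemma ker_jToC : LinearMap.ker (jToC S L) = eImage S L := by
  ext j
  exact jToC_eq_zero_iff S L j

/-- The linear map `C'_S(L) → C_S(L)`. -/
def cPrimeToC : (Additive (AS S L)ˣ ⧸ eImage S L) →ₗ[ℤ] CS S L :=
  (eImage S L).liftQ (jToC S L) (ker_jToC S L).ge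

@[simp] lemma cPrimeToC_mk (j : Additive (AS S L)ˣ) :
    cPrimeToC S L (Submodule.Quotient.mk j) = jToC S L j := rfl

lemma cPrimeToC_injective : Function.Injective (cPrimeToC S L) := by
  rw [← LinearMap.ker_eq_bot, cPrimeToC, Submodule.ker_liftQ_eq_bot _ _ _ (ker_jToC S L).le]

lemma range_cPrimeToC : LinearMap.range (cPrimeToC S L) = jImage S L := by
  rw [cPrimeToC, Submodule.range_liftQ, range_jToC]

lemma jToC_equivariant (g : G) (j : Additive (AS S L)ˣ) :
    jToC S L (jRepr G S L g j) = cRepr S G L g (jToC S L j) := by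
  rw [jToC_apply, jToC_apply]
  change _ = Submodule.Quotient.mk (jdRepr S G L g ((j, 0) : JD S L))
  have h : jdRepr S G L g ((j, 0) : JD S L) = ((jRepr G S L g j, 0) : JD S L) := by
    refine Prod.ext rfl ?_
    simp [jdRepr, Representation.prod]
  rw [h]

lemma cPrimeToC_equivariant (g : G) (c : Additive (AS S L)ˣ ⧸ eImage S L) :
    cPrimeToC S L (cPrimeRepr S G L g c) = cRepr S G L g (cPrimeToC S L c) := by
  induction c using Submodule.Quotient.induction_on with
  | H j => exact jToC_equivariant S G L g j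

lemma jImage_stable (g : G) : jImage S L ≤ (jImage S L).comap (cRepr S G L g) := by
  rintro _ ⟨j, rfl⟩
  exact ⟨jRepr G S L g j, jToC_equivariant S G L g j⟩

/-- The representation of `G` on `Cl_S(L) = C_S(L) / C'_S(L)`. -/
def clRepr : Representation ℤ G (CS S L ⧸ jImage S L) :=
  (cRepr S G L).quotient (jImage S L) (jImage_stable S G L)

/-- The `S`-class group `Cl_S(L) = C_S(L) / C'_S(L)` as an object of `Rep ℤ G`. -/
def ClRep : Rep ℤ G := Rep.of (clRepr S G L)

/-- `C'_S(L) ⟶ C_S(L)` in `Rep ℤ G`. -/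
def cPrimeToCRepHom : CPrimeRep S G L ⟶ CRep S G L :=
  Rep.ofHom ⟨cPrimeToC S L, fun g => LinearMap.ext fun c => cPrimeToC_equivariant S G L g c⟩

/-- `C_S(L) ⟶ Cl_S(L)` in `Rep ℤ G`. -/
def cToClRepHom : CRep S G L ⟶ ClRep S G L :=
  Rep.ofHom ⟨(jImage S L).mkQ, fun _ => LinearMap.ext fun _ => rfl⟩

/-- The short complex `C'_S(L) ⟶ C_S(L) ⟶ Cl_S(L)`. -/
def cclShortComplex : ShortComplex (Rep ℤ G) :=
  ShortComplex.mk (cPrimeToCRepHom S G L) (cToClRepHom S G L) (by
    ext x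
    refine (Submodule.Quotient.mk_eq_zero _).2 ?_
    rw [← range_cPrimeToC]
    exact ⟨x, rfl⟩)

/-- **G-SES (d2).** `0 → C'_S(L) → C_S(L) → Cl_S(L) → 0` is short exact. -/
theorem cclShortComplex_shortExact : (cclShortComplex S G L).ShortExact := by
  refine Fermat.Agent.S55.H295.rep_shortExact_of (k := ℤ) (cclShortComplex S G L) ?_ ?_ ?_
  · intro x y hxy
    exact cPrimeToC_injective S L hxy
  · intro x hx
    have hx' : x ∈ jImage S L := (Submodule.Quotient.mk_eq_zero _).1 hx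
    rw [← range_cPrimeToC] at hx'
    obtain ⟨y, hy⟩ := hx'
    exact ⟨y, hy⟩
  · exact Submodule.mkQ_surjective _

/-! ## 3. Finiteness of `Cl_S` -/

/-- The map `Div^S(L) → Cl_S(L) = C_S(L)/C'_S(L)`. -/
def divToCl : (PrimeOut S L →₀ ℤ) →ₗ[ℤ] (CS S L ⧸ jImage S L) :=
  (jImage S L).mkQ ∘ₗ (principal S L).mkQ ∘ₗ
    LinearMap.inr ℤ (Additive (AS S L)ˣ) (PrimeOut S L →₀ ℤ)

lemma divToCl_surjective : Function.Surjective (divToCl S L) := by
  intro c
  induction c using Submodule.Quotient.induction_on with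
  | H c =>
    induction c using Submodule.Quotient.induction_on with
    | H jd =>
      refine ⟨jd.2, ?_⟩
      change Submodule.Quotient.mk (Submodule.Quotient.mk ((0, jd.2) : JD S L)) = _
      rw [Submodule.Quotient.eq]
      refine ⟨-jd.1, ?_⟩
      change Submodule.Quotient.mk ((-jd.1, 0) : JD S L) = _
      rw [← Submodule.Quotient.mk_sub]
      congr 1
      refine Prod.ext ?_ ?_ <;> simp

lemma ordHom_range_le_ker_divToCl :
    (ordHom S L).range ≤ (divToCl S L).toAddMonoidHom.ker := by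
  rintro _ ⟨x, rfl⟩
  change divToCl S L (ordHom S L x) = 0
  change Submodule.Quotient.mk (Submodule.Quotient.mk ((0, ordHom S L x) : JD S L)) = 0
  rw [Submodule.Quotient.mk_eq_zero]
  refine ⟨-(unitsDiag S L x), ?_⟩
  change Submodule.Quotient.mk ((-(unitsDiag S L x), 0) : JD S L) = _
  rw [eq_comm, ← sub_eq_zero, ← Submodule.Quotient.mk_sub, Submodule.Quotient.mk_eq_zero]
  refine ⟨x, ?_⟩
  refine Prod.ext ?_ ?_ <;> simp

/-- **G-SES (d3).** The `S`-class group `Cl_S(L) = C_S(L) / C'_S(L)` is finite. -/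
instance finite_cl : Finite (CS S L ⧸ jImage S L) := by
  have hfi : (divToCl S L).toAddMonoidHom.ker.FiniteIndex :=
    AddSubgroup.finiteIndex_of_le (ordHom_range_le_ker_divToCl S L)
  have hfin : Finite ((PrimeOut S L →₀ ℤ) ⧸ (divToCl S L).toAddMonoidHom.ker) :=
    AddSubgroup.finite_quotient_of_finiteIndex
  have e := QuotientAddGroup.quotientKerEquivOfSurjective (divToCl S L).toAddMonoidHom
    (divToCl_surjective S L)
  exact Finite.of_equiv _ e.toEquiv

instance finite_ClRep : Finite (ClRep S G L).V := finite_cl S L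

end Fermat.Agent.S55.G.SeqH604

end
end
-- ===== PACK-END S55/G/SeqH604.lean

-- ===== PACK-BEGIN S55/Local/H608/Inertia.lean
section


/-!
# S55 layer L (helper608): the inertia subgroup in the Spec language

* `IsNonUnitInt A F L y` : `y` lies in the maximal ideal of the ring of integers of `L`.
* `inertiaSub A F K L`   : the inertia subgroup of `Gal(L/K)`.
* `mem_inertiaSub_iff`   : `σ ∈ I ↔ ∀ x integral, σ x - x` lies in the maximal ideal.
* `card_inertiaSub`      : `|I| = e(L/K)`.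
-/

set_option autoImplicit false
set_option linter.unusedSectionVars false
set_option linter.style.haveILetI false

namespace Fermat.Agent.S55.Local.H608

open IsLocalRing

/-- `y` lies in the maximal ideal of the ring of integers of `L`. -/
def IsNonUnitInt (A F : Type) [CommRing A] [Field F] [Algebra A F]
    (L : Type) [Field L] [Algebra F L] (y : L) : Prop :=
  IsInt A F L y ∧ ∀ u : Lˣ, (u : L) = y → u ∉ intUnits A F L

section Inertia

variable (A F : Type) [CommRing A] [IsDomain A] [IsDiscreteValuationRing A]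
  [IsAdicComplete (maximalIdeal A) A] [Finite (ResidueField A)]
  [Field F] [CharZero F] [Algebra A F] [IsFractionRing A F]
  (K : Type) [Field K] [Algebra F K] [FiniteDimensional F K]
  (L : Type) [Field L] [Algebra F L] [Algebra K L] [IsScalarTower F K L] [FiniteDimensional K L]

/-- The inertia subgroup of `Gal(L/K)`. -/
noncomputable def inertiaSub : Subgroup (L ≃ₐ[K] L) :=
  letI : Algebra A K := (toL A F K).toAlgebra
  haveI : IsScalarTower A F K := IsScalarTower.of_algebraMap_eq (fun _ => rfl)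
  haveI := isDVR_intCl A F K
  haveI := isAdicComplete_intCl A F K
  haveI := isFractionRing_intCl A F K
  haveI := charZero_of_base F K
  haveI := isLocalRing_intCl (integralClosure A K) K L
  haveI := isFractionRing_intCl (integralClosure A K) K L
  letI : MulSemiringAction Gal(L/K) (integralClosure (integralClosure A K) L) :=
    IsIntegralClosure.MulSemiringAction (integralClosure A K) K L
      (integralClosure (integralClosure A K) L)
  (maximalIdeal (integralClosure (integralClosure A K) L)).inertia Gal(L/K)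

theorem card_inertiaSub [IsGalois K L] :
    Nat.card (inertiaSub A F K L) = relRamIdx A F K L := by
  letI : Algebra A K := (toL A F K).toAlgebra
  haveI : IsScalarTower A F K := IsScalarTower.of_algebraMap_eq (fun _ => rfl)
  haveI := isDVR_intCl A F K
  haveI := isAdicComplete_intCl A F K
  haveI := finite_residueField_intCl A F K
  haveI := isFractionRing_intCl A F K
  haveI := charZero_of_base F K
  exact card_inertia_eq_ramIdx (integralClosure A K) K L

theorem mem_inertiaSub_iff (σ : L ≃ₐ[K] L) :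
    σ ∈ inertiaSub A F K L ↔ ∀ x : L, IsInt A F L x → IsNonUnitInt A F L (σ x - x) := by
  letI : Algebra A K := (toL A F K).toAlgebra
  haveI : IsScalarTower A F K := IsScalarTower.of_algebraMap_eq (fun _ => rfl)
  haveI := isDVR_intCl A F K
  haveI := isAdicComplete_intCl A F K
  haveI := finite_residueField_intCl A F K
  haveI := isFractionRing_intCl A F K
  haveI := charZero_of_base F K
  haveI := isDVR_intCl (integralClosure A K) K L
  haveI := isFractionRing_intCl (integralClosure A K) K L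
  letI : MulSemiringAction Gal(L/K) (integralClosure (integralClosure A K) L) :=
    IsIntegralClosure.MulSemiringAction (integralClosure A K) K L
      (integralClosure (integralClosure A K) L)
  have hm := isModel_relIntCl A F K L
  have hcoe : ∀ s : integralClosure (integralClosure A K) L,
      algebraMap (integralClosure (integralClosure A K) L) L (σ • s - s) =
        σ (algebraMap (integralClosure (integralClosure A K) L) L s) -
          algebraMap (integralClosure (integralClosure A K) L) L s := by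
    intro s
    rw [map_sub]
    congr 1
    exact algebraMap_galRestrict_apply (integralClosure A K) σ s
  have hmax : ∀ y : integralClosure (integralClosure A K) L,
      y ∈ maximalIdeal (integralClosure (integralClosure A K) L) ↔
        IsNonUnitInt A F L (algebraMap (integralClosure (integralClosure A K) L) L y) := by
    intro y
    rw [mem_maximalIdeal, mem_nonunits_iff]
    constructor
    · intro hy
      refine ⟨hm.isInt y, fun u hu hmem => hy ?_⟩
      obtain ⟨t, ht, htu⟩ := (hm.mem_intUnits_iff u).mp hmem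
      have : t = y := IsFractionRing.injective _ L (by rw [htu, hu])
      exact this ▸ ht
    · rintro ⟨-, h2⟩ hy
      have hy0 : algebraMap (integralClosure (integralClosure A K) L) L y ≠ 0 :=
        hm.map_ne_zero hy.ne_zero
      exact h2 (Units.mk0 _ hy0) rfl (hm.mem_intUnits_of_isUnit hy _ rfl)
  show σ ∈ (maximalIdeal (integralClosure (integralClosure A K) L)).inertia Gal(L/K) ↔ _
  rw [AddSubgroup.mem_inertia]
  constructor
  · intro h x hx
    obtain ⟨s, rfl⟩ := (hm x).mpr hx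
    rw [← hcoe]
    exact (hmax _).mp (h s)
  · intro h s
    show σ • s - s ∈ maximalIdeal (integralClosure (integralClosure A K) L)
    rw [hmax, hcoe]
    exact h _ (hm.isInt s)

end Inertia

end Fermat.Agent.S55.Local.H608

end
-- ===== PACK-END S55/Local/H608/Inertia.lean

-- ===== PACK-BEGIN S55/H963/RayBound.lean
section


/-!
# S55 / leaf RAY-N1 (helper963): partial zeta functions of ray classes differ by `O(1)`

Main theorem `RayDatum.exists_zeta_sub_bound`: for a smoothing kernel `κ` with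
`(s - 1) Φ(s) = O(1)`, a nonzero ideal `𝔠` coprime to the modulus and a class `a`,
`|ζ(s, a) - ζ(s, a ψ(𝔠))| ≤ B` uniformly in `s ∈ (1, 2]`.
-/

set_option autoImplicit false

namespace Fermat.Agent.S55.H963

open NumberField

variable {K : Type*} [Field K] [NumberField K] {A : Type*} [CommGroup A]

theorem one_le_absNorm_cast {I : Ideal (𝓞 K)} (hI : I ≠ ⊥) : (1 : ℝ) ≤ Ideal.absNorm I := by
  have : Ideal.absNorm I ≠ 0 := by
    rw [Ne, Ideal.absNorm_eq_zero_iff]
    exact hI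
  exact_mod_cast Nat.one_le_iff_ne_zero.mpr this

theorem rpow_le_sq_of_le_two {x s : ℝ} (hx : 1 ≤ x) (hs : s ≤ 2) : x ^ s ≤ x ^ 2 := by
  have := Real.rpow_le_rpow_of_exponent_le hx hs
  simpa using this

namespace RayDatum

variable (D : RayDatum K A) (κ : UnitKernel K)

theorem tsum_genSet_le_total (P : Set (Ideal (𝓞 K))) {s : ℝ} (hs : 1 < s) :
    ∑' x : genSet P, κ.F s x ≤ κ.total s := by
  unfold UnitKernel.total
  rw [tsum_subtype (genSet P) (κ.F s)]
  refine Summable.tsum_le_tsum (fun x => ?_)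
    ((κ.summable s hs).indicator _) (κ.summable s hs)
  exact Set.indicator_le_self' (fun _ _ => κ.nonneg s _) x

theorem tsum_genSet_nonneg (P : Set (Ideal (𝓞 K))) (s : ℝ) :
    0 ≤ ∑' x : genSet P, κ.F s x :=
  tsum_nonneg fun _ => κ.nonneg s _

include κ in
/-- **Per-class comparison.** -/
theorem exists_zetaDvdAt_bound (𝔠 : Ideal (𝓞 K)) (h𝔠 : 𝔠 ≠ ⊥) (h𝔠m : IsCoprime 𝔠 D.m) (a : A)
    (C : ClassGroup (𝓞 K)) : ∃ B : ℝ, ∀ s : ℝ, 1 < s → s ≤ 2 →
      |(Ideal.absNorm 𝔠 : ℝ) * D.zetaDvdAt 𝔠 a C s - D.zetaDvdAt ⊤ a C s| ≤ B := by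
  obtain ⟨𝔟, h𝔟, h𝔟m, h𝔟C⟩ := exists_coprime_rep D.m D.m_ne_bot C⁻¹
  obtain ⟨B₁, hB₁⟩ := D.exists_below_bound κ (𝔠 * 𝔟) (mul_ne_zero h𝔠 h𝔟) (h𝔠m.mul_left h𝔟m)
    (a * D.ψ 𝔟)
  obtain ⟨B₂, hB₂⟩ := D.exists_below_bound κ (⊤ * 𝔟) (by rwa [Ideal.top_mul])
    (by rwa [Ideal.top_mul]) (a * D.ψ 𝔟)
  have hN𝔟 : (1 : ℝ) ≤ Ideal.absNorm 𝔟 := one_le_absNorm_cast h𝔟
  have hNm : (1 : ℝ) ≤ Ideal.absNorm D.m := one_le_absNorm_cast D.m_ne_bot
  refine ⟨(Ideal.absNorm 𝔟 : ℝ) ^ 2 * (κ.w⁻¹ * (B₁ + B₂)), fun s hs1 hs2 => ?_⟩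
  rw [D.zetaDvdAt_eq κ h𝔟 h𝔟m h𝔟C 𝔠 a hs1, D.zetaDvdAt_eq κ h𝔟 h𝔟m h𝔟C ⊤ a hs1]
  set X₁ := ∑' x : genSet (D.below (𝔠 * 𝔟) (a * D.ψ 𝔟)), κ.F s x with hX₁
  set X₂ := ∑' x : genSet (D.below (⊤ * 𝔟) (a * D.ψ 𝔟)), κ.F s x with hX₂
  have h1 := hB₁ s hs1 hs2
  have h2 := hB₂ s hs1 hs2
  rw [← hX₁, _root_.map_mul, Nat.cast_mul] at h1
  rw [← hX₂, Ideal.top_mul] at h2
  rw [Ideal.top_mul] at hX₂
  have hw : 0 < κ.w⁻¹ := inv_pos.mpr κ.w_pos
  have hpos : 0 ≤ (Ideal.absNorm 𝔟 : ℝ) ^ s := Real.rpow_nonneg (by linarith) _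
  have hle : (Ideal.absNorm 𝔟 : ℝ) ^ s ≤ (Ideal.absNorm 𝔟 : ℝ) ^ 2 :=
    rpow_le_sq_of_le_two hN𝔟 hs2
  have h3 : |(Ideal.absNorm 𝔠 : ℝ) * X₁ - X₂| ≤ B₁ + B₂ := by
    have e : (Ideal.absNorm 𝔟 : ℝ) * (Ideal.absNorm D.m : ℝ) *
        ((Ideal.absNorm 𝔠 : ℝ) * X₁ - X₂) =
        ((Ideal.absNorm 𝔠 : ℝ) * (Ideal.absNorm 𝔟 : ℝ) * (Ideal.absNorm D.m : ℝ) * X₁ -
          (Nat.card (D.theta (a * D.ψ 𝔟)) : ℝ) * κ.total s) -
        ((Ideal.absNorm 𝔟 : ℝ) * (Ideal.absNorm D.m : ℝ) * X₂ -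
          (Nat.card (D.theta (a * D.ψ 𝔟)) : ℝ) * κ.total s) := by ring
    have h4 : |(Ideal.absNorm 𝔟 : ℝ) * (Ideal.absNorm D.m : ℝ) *
        ((Ideal.absNorm 𝔠 : ℝ) * X₁ - X₂)| ≤ B₁ + B₂ := by
      rw [e]
      exact (abs_sub _ _).trans (add_le_add h1 h2)
    have h5 : (1 : ℝ) ≤ (Ideal.absNorm 𝔟 : ℝ) * (Ideal.absNorm D.m : ℝ) := by nlinarith
    rw [abs_mul, abs_of_nonneg (by linarith : (0 : ℝ) ≤
      (Ideal.absNorm 𝔟 : ℝ) * (Ideal.absNorm D.m : ℝ))] at h4
    have h6 : 0 ≤ |(Ideal.absNorm 𝔠 : ℝ) * X₁ - X₂| := abs_nonneg _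
    nlinarith
  have hB : 0 ≤ B₁ + B₂ := (abs_nonneg _).trans h3
  have e2 : (Ideal.absNorm 𝔠 : ℝ) * ((Ideal.absNorm 𝔟 : ℝ) ^ s * (κ.w⁻¹ * X₁)) -
      (Ideal.absNorm 𝔟 : ℝ) ^ s * (κ.w⁻¹ * X₂) =
      (Ideal.absNorm 𝔟 : ℝ) ^ s * (κ.w⁻¹ * ((Ideal.absNorm 𝔠 : ℝ) * X₁ - X₂)) := by ring
  rw [e2, abs_mul, abs_mul, abs_of_nonneg hpos, abs_of_pos hw]
  exact mul_le_mul hle (mul_le_mul_of_nonneg_left h3 hw.le)
    (mul_nonneg hw.le (abs_nonneg _)) (by positivity)

include κ in
/-- **(★)** `N(𝔠) * ∑_{I ∈ class a, 𝔠 ∣ I} N(I)^(-s) = ζ(s, a) + O(1)`. -/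
theorem exists_zetaDvd_bound (𝔠 : Ideal (𝓞 K)) (h𝔠 : 𝔠 ≠ ⊥) (h𝔠m : IsCoprime 𝔠 D.m) (a : A) :
    ∃ B : ℝ, ∀ s : ℝ, 1 < s → s ≤ 2 →
      |(Ideal.absNorm 𝔠 : ℝ) * D.zetaDvd 𝔠 a s - D.zeta a s| ≤ B := by
  classical
  choose B hB using fun C => D.exists_zetaDvdAt_bound κ 𝔠 h𝔠 h𝔠m a C
  refine ⟨∑ C : ClassGroup (𝓞 K), B C, fun s hs1 hs2 => ?_⟩
  rw [← D.zetaDvd_top a s, D.zetaDvd_eq_sum κ 𝔠 a hs1, D.zetaDvd_eq_sum κ ⊤ a hs1,
    Finset.mul_sum, ← Finset.sum_sub_distrib]
  exact (Finset.abs_sum_le_sum_abs _ _).trans (Finset.sum_le_sum fun C _ => hB C s hs1 hs2)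

/-- **Growth**: the partial zeta functions are dominated by the total smoothed sum. -/
theorem exists_zeta_le_total (a : A) : ∃ c : ℝ, 0 ≤ c ∧ ∀ s : ℝ, 1 < s → s ≤ 2 →
    D.zeta a s ≤ c * κ.total s := by
  classical
  have key : ∀ C : ClassGroup (𝓞 K), ∃ c : ℝ, 0 ≤ c ∧ ∀ s : ℝ, 1 < s → s ≤ 2 →
      D.zetaDvdAt ⊤ a C s ≤ c * κ.total s := by
    intro C
    obtain ⟨𝔟, h𝔟, h𝔟m, h𝔟C⟩ := exists_coprime_rep D.m D.m_ne_bot C⁻¹
    have hN𝔟 : (1 : ℝ) ≤ Ideal.absNorm 𝔟 := one_le_absNorm_cast h𝔟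
    have hw : 0 < κ.w⁻¹ := inv_pos.mpr κ.w_pos
    refine ⟨(Ideal.absNorm 𝔟 : ℝ) ^ 2 * κ.w⁻¹, by positivity, fun s hs1 hs2 => ?_⟩
    rw [D.zetaDvdAt_eq κ h𝔟 h𝔟m h𝔟C ⊤ a hs1, mul_assoc]
    have hpos : 0 ≤ (Ideal.absNorm 𝔟 : ℝ) ^ s := Real.rpow_nonneg (by linarith) _
    have hle : (Ideal.absNorm 𝔟 : ℝ) ^ s ≤ (Ideal.absNorm 𝔟 : ℝ) ^ 2 :=
      rpow_le_sq_of_le_two hN𝔟 hs2
    have h1 := tsum_genSet_le_total κ (D.below (⊤ * 𝔟) (a * D.ψ 𝔟)) hs1
    have h2 := tsum_genSet_nonneg κ (D.below (⊤ * 𝔟) (a * D.ψ 𝔟)) s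
    exact mul_le_mul hle (mul_le_mul_of_nonneg_left h1 hw.le) (mul_nonneg hw.le h2)
      (by positivity)
  choose c hc0 hc using key
  refine ⟨∑ C : ClassGroup (𝓞 K), c C, Finset.sum_nonneg fun C _ => hc0 C,
    fun s hs1 hs2 => ?_⟩
  rw [← D.zetaDvd_top a s, D.zetaDvd_eq_sum κ ⊤ a hs1, Finset.sum_mul]
  exact Finset.sum_le_sum fun C _ => hc C s hs1 hs2

theorem zeta_nonneg (a : A) (s : ℝ) : 0 ≤ D.zeta a s :=
  tsum_nonneg fun _ => Real.rpow_nonneg (Nat.cast_nonneg _) _

/-- **Translation by `𝔠`.** -/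
theorem zeta_eq_zetaDvd (𝔠 : Ideal (𝓞 K)) (h𝔠 : 𝔠 ≠ ⊥) (h𝔠m : IsCoprime 𝔠 D.m) (a : A)
    (s : ℝ) : D.zeta a s = (Ideal.absNorm 𝔠 : ℝ) ^ s * D.zetaDvd 𝔠 (a * D.ψ 𝔠) s := by
  unfold zeta zetaDvd
  refine tsum_mul_ideal 𝔠 h𝔠 (D.cls a) (D.clsDvd 𝔠 (a * D.ψ 𝔠)) ?_ ?_ s
  · rintro I ⟨hI0, hIm, hIψ⟩
    exact ⟨mul_ne_zero hI0 h𝔠, hIm.mul_left h𝔠m, by rw [D.map_mul _ _ hIm h𝔠m, hIψ],
      Ideal.mul_le_right⟩
  · rintro J ⟨hJ0, hJm, hJψ, hJle⟩
    obtain ⟨I, hI⟩ := Ideal.dvd_iff_le.mpr hJle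
    have hJeq : I * 𝔠 = J := by rw [hI, mul_comm]
    have hI0 : I ≠ ⊥ := by
      rintro rfl
      exact hJ0 (by rw [← hJeq]; simp)
    have hIm : IsCoprime I D.m := by
      rw [← hJeq] at hJm
      exact hJm.of_mul_left_left
    refine ⟨I, ⟨hI0, hIm, ?_⟩, hJeq⟩
    have h1 : D.ψ I * D.ψ 𝔠 = a * D.ψ 𝔠 := by
      rw [← D.map_mul _ _ hIm h𝔠m, hJeq, hJψ]
    exact mul_right_cancel h1

/-- **RAY-N1**: the partial zeta functions of two classes in the same coset of the image of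
`ψ` differ by a bounded function on `(1, 2]`. -/
theorem exists_zeta_sub_bound
    (hgrow : ∃ G : ℝ, ∀ s : ℝ, 1 < s → s ≤ 2 → (s - 1) * κ.total s ≤ G)
    (𝔠 : Ideal (𝓞 K)) (h𝔠 : 𝔠 ≠ ⊥) (h𝔠m : IsCoprime 𝔠 D.m) (a : A) :
    ∃ B : ℝ, ∀ s : ℝ, 1 < s → s ≤ 2 → |D.zeta a s - D.zeta (a * D.ψ 𝔠) s| ≤ B := by
  obtain ⟨G, hG⟩ := hgrow
  obtain ⟨B₀, hB₀⟩ := D.exists_zetaDvd_bound κ 𝔠 h𝔠 h𝔠m (a * D.ψ 𝔠)
  obtain ⟨c, hc0, hc⟩ := D.exists_zeta_le_total κ (a * D.ψ 𝔠)
  have hN : (1 : ℝ) ≤ Ideal.absNorm 𝔠 := one_le_absNorm_cast h𝔠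
  have hN0 : (0 : ℝ) < Ideal.absNorm 𝔠 := by linarith
  refine ⟨(Ideal.absNorm 𝔠 : ℝ) * B₀ + ((Ideal.absNorm 𝔠 : ℝ) - 1) * (c * G),
    fun s hs1 hs2 => ?_⟩
  set N : ℝ := (Ideal.absNorm 𝔠 : ℝ) with hNdef
  set Zd := D.zetaDvd 𝔠 (a * D.ψ 𝔠) s with hZd
  set Z' := D.zeta (a * D.ψ 𝔠) s with hZ'
  have h0 := hB₀ s hs1 hs2
  rw [← hZd, ← hZ'] at h0
  have hB₀0 : 0 ≤ B₀ := (abs_nonneg _).trans h0
  have hZ'0 : 0 ≤ Z' := D.zeta_nonneg _ _
  have hpow : N ^ s = N ^ (s - 1) * N := by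
    rw [← Real.rpow_add_one hN0.ne' (s - 1)]
    congr 1
    ring
  have hp1 : 1 ≤ N ^ (s - 1) := Real.one_le_rpow hN (by linarith)
  have hp2 : N ^ (s - 1) ≤ N := by
    have := Real.rpow_le_rpow_of_exponent_le hN (by linarith : s - 1 ≤ 1)
    simpa using this
  have hp3 : N ^ (s - 1) - 1 ≤ (s - 1) * (N - 1) := by
    have := rpow_one_add_le_one_add_mul_self (s := N - 1) (by linarith)
      (p := s - 1) (by linarith) (by linarith)
    have e : 1 + (N - 1) = N := by ring
    rw [e] at this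
    linarith
  rw [D.zeta_eq_zetaDvd 𝔠 h𝔠 h𝔠m a s, ← hZd, hpow]
  have e : N ^ (s - 1) * N * Zd - Z' = N ^ (s - 1) * (N * Zd - Z') + (N ^ (s - 1) - 1) * Z' := by
    ring
  rw [e]
  refine (abs_add_le _ _).trans (add_le_add ?_ ?_)
  · rw [abs_mul, abs_of_nonneg (by linarith : (0 : ℝ) ≤ N ^ (s - 1))]
    exact mul_le_mul hp2 h0 (abs_nonneg _) hN0.le
  · rw [abs_mul, abs_of_nonneg (by linarith : (0 : ℝ) ≤ N ^ (s - 1) - 1), abs_of_nonneg hZ'0]
    have h1 : Z' ≤ c * κ.total s := hc s hs1 hs2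
    have h2 : (s - 1) * κ.total s ≤ G := hG s hs1 hs2
    have h3 : 0 ≤ κ.total s := κ.total_nonneg s
    have hs0 : 0 < s - 1 := by linarith
    calc (N ^ (s - 1) - 1) * Z' ≤ ((s - 1) * (N - 1)) * (c * κ.total s) :=
          mul_le_mul hp3 h1 hZ'0 (by nlinarith)
      _ = (N - 1) * (c * ((s - 1) * κ.total s)) := by ring
      _ ≤ (N - 1) * (c * G) :=
          mul_le_mul_of_nonneg_left (mul_le_mul_of_nonneg_left h2 hc0) (by linarith)

end RayDatum

end Fermat.Agent.S55.H963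

end
-- ===== PACK-END S55/H963/RayBound.lean

-- ===== PACK-BEGIN S55/G/Rec/L2H931/Arith.lean
section




/-!
# S55 / layer G / block REC : leaf (L2) `LocalStructureSpec`, part 2 (helper931)

Arithmetic of the unit ball `B` of a finite extension `E / ℚ_q` inside `ℚ̄_q`:
units, maximal ideal, uniformizers, residue degree, and the fundamental identity `e f = n`
(from helper355's cardinality form).
-/

set_option autoImplicit false
set_option linter.style.haveILetI false

noncomputable section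

namespace Fermat.Agent.S55.G.Rec.H931

open Fermat.Agent.S55

section VS

variable {F : Type} [Field F] (B : ValuationSubring F) (N : F →*₀ ℝ) (hN : ∀ x, 0 ≤ N x)
  (hB : ∀ x : F, x ∈ B ↔ N x ≤ 1)

include hN hB in
theorem L2_isUnit_iff (x : B) : IsUnit x ↔ N (x : F) = 1 := by
  constructor
  · intro hx
    obtain ⟨y, hy⟩ := hx.exists_right_inv
    have h1 : N (x : F) * N (y : F) = 1 := by
      rw [← map_mul]
      have := congrArg (fun z : B => N (z : F)) hy
      simpa using this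
    have hx1 : N (x : F) ≤ 1 := (hB _).1 x.2
    have hy1 : N (y : F) ≤ 1 := (hB _).1 y.2
    by_contra hne
    have hlt : N (x : F) < 1 := lt_of_le_of_ne hx1 hne
    have : N (x : F) * N (y : F) < 1 := by
      calc N (x : F) * N (y : F) ≤ N (x : F) * 1 :=
            mul_le_mul_of_nonneg_left hy1 (hN _)
        _ < 1 := by rw [mul_one]; exact hlt
    rw [h1] at this
    exact lt_irrefl _ this
  · intro hx
    have hx0 : (x : F) ≠ 0 := by
      intro h0
      rw [h0, map_zero] at hx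
      exact zero_ne_one hx
    have hinv : (x : F)⁻¹ ∈ B := by
      rw [hB, map_inv₀, hx, inv_one]
    refine IsUnit.of_mul_eq_one ⟨(x : F)⁻¹, hinv⟩ ?_
    apply Subtype.ext
    show (x : F) * (x : F)⁻¹ = 1
    exact mul_inv_cancel₀ hx0

include hN hB in
theorem L2_mem_maximalIdeal_iff (x : B) : x ∈ IsLocalRing.maximalIdeal B ↔ N (x : F) < 1 := by
  rw [IsLocalRing.mem_maximalIdeal, mem_nonunits_iff, L2_isUnit_iff B N hN hB]
  have hx1 : N (x : F) ≤ 1 := (hB _).1 x.2
  constructor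
  · intro h; exact lt_of_le_of_ne hx1 h
  · intro h; exact h.ne

include hN hB in
theorem L2_norm_unitGroup (u : Fˣ) (hu : u ∈ B.unitGroup) : N (u : F) = 1 := by
  have h1 : B.valuation (u : F) = 1 := (B.mem_unitGroup_iff u).1 hu
  have h2 : (u : F) ∈ B := (B.valuation_le_one_iff _).1 h1.le
  have h3 : ((u⁻¹ : Fˣ) : F) ∈ B := by
    rw [← B.valuation_le_one_iff, Units.val_inv_eq_inv_val, map_inv₀, h1, inv_one]
  have h4 : N (u : F) ≤ 1 := (hB _).1 h2
  have h5 : N ((u⁻¹ : Fˣ) : F) ≤ 1 := (hB _).1 h3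
  rw [Units.val_inv_eq_inv_val, map_inv₀] at h5
  have hpos : 0 < N (u : F) := lt_of_le_of_ne (hN _) (Ne.symm ((map_ne_zero N).2 u.ne_zero))
  have h6 : 1 ≤ N (u : F) := by
    rwa [inv_le_one₀ hpos] at h5
  exact le_antisymm h4 h6

end VS

section PadicBase

variable (q : ℕ) [Fact q.Prime]

/-- The unit ball of `ℚ_q` as a valuation subring. -/
def L2_A : ValuationSubring ℚ_[q] := L.unitBall63 ℚ_[q]

variable {q}

theorem L2_mem_A {x : ℚ_[q]} : x ∈ L2_A q ↔ ‖x‖ ≤ 1 := L.mem_unitBall63 ℚ_[q] x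

theorem L2_A_isLocal : L.IsLocalRingOfIntegers (L2_A q) :=
  L.isLocalRingOfIntegers_unitBall63 ℚ_[q]

variable (q) in
/-- `ℤ_q` is the unit ball. -/
def L2_equivA : ℤ_[q] ≃+* ↥(L2_A q) where
  toFun x := ⟨(x : ℚ_[q]), L2_mem_A.2 x.2⟩
  invFun y := ⟨(y : ℚ_[q]), L2_mem_A.1 y.2⟩
  left_inv _ := rfl
  right_inv _ := rfl
  map_mul' _ _ := rfl
  map_add' _ _ := rfl

theorem L2_card_residue_A : Nat.card (IsLocalRing.ResidueField (L2_A q)) = q := by
  have e1 : IsLocalRing.ResidueField ℤ_[q] ≃+* IsLocalRing.ResidueField (L2_A q) :=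
    IsLocalRing.ResidueField.mapEquiv (L2_equivA q)
  rw [← Nat.card_congr e1.toEquiv, Nat.card_congr (PadicInt.residueField (p := q)).toEquiv,
    Nat.card_zmod]

theorem L2_q_mem_A : (q : ℚ_[q]) ∈ L2_A q := by
  rw [L2_mem_A, Padic.norm_p]
  exact inv_le_one_of_one_le₀ (by exact_mod_cast (Fact.out : q.Prime).one_lt.le)

theorem L2_isUniformizer_q : L.IsUniformizer (L2_A q) (q : ℚ_[q]) := by
  refine ⟨L2_q_mem_A, ?_⟩
  have hq : q.Prime := Fact.out
  have hirr : Irreducible (q : ℤ_[q]) := PadicInt.irreducible_p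
  have := (MulEquiv.irreducible_iff (L2_equivA q).toMulEquiv).2 hirr
  exact this

end PadicBase

section Ext

variable {q : ℕ} [Fact q.Prime]

/-- The norm of `ℚ̄_q` restricted to an intermediate field. -/
def L2_N (E : IntermediateField ℚ_[q] (PadicAlgCl q)) : ↥E →*₀ ℝ where
  toFun x := ‖(x : PadicAlgCl q)‖
  map_zero' := by simp
  map_one' := by simp
  map_mul' x y := by simp

theorem L2_N_apply (E : IntermediateField ℚ_[q] (PadicAlgCl q)) (x : E) :
    L2_N E x = ‖(x : PadicAlgCl q)‖ := rfl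

/-- The structure of a finite extension `E / ℚ_q` inside `ℚ̄_q`: residue degree `f`, ramification
index `e`, uniformizer `ϖ`, with `e f = [E : ℚ_q]`. -/
theorem L2_structure (E : IntermediateField ℚ_[q] (PadicAlgCl q)) [FiniteDimensional ℚ_[q] E] :
    ∃ (f e : ℕ) (ϖ : E), 0 < f ∧ e * f = Module.finrank ℚ_[q] E ∧ ϖ ≠ 0 ∧
      ‖(ϖ : PadicAlgCl q)‖ < 1 ∧ ‖(ϖ : PadicAlgCl q)‖ ^ e = (q : ℝ)⁻¹ ∧
      (∀ x : E, ‖(x : PadicAlgCl q)‖ < 1 → ‖(x : PadicAlgCl q)‖ ≤ ‖(ϖ : PadicAlgCl q)‖) ∧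
      (∀ x : E, x ≠ 0 → ∃ (k : ℤ) (u : E), ‖(u : PadicAlgCl q)‖ = 1 ∧ x = ϖ ^ k * u) ∧
      (∀ x : E, ‖(x : PadicAlgCl q)‖ ≤ 1 → ‖(x : PadicAlgCl q) ^ (q ^ f) - x‖ < 1) ∧
      (∀ m, 0 < m →
        (∀ x : E, ‖(x : PadicAlgCl q)‖ ≤ 1 → ‖(x : PadicAlgCl q) ^ (q ^ m) - x‖ < 1) → f ≤ m) := by
  classical
  have hq : q.Prime := Fact.out
  obtain ⟨B, hBloc, hBmem⟩ := L.exists_ringOfIntegers_eq_unitBall63 q E
  have hN : ∀ x, 0 ≤ L2_N E x := fun x => norm_nonneg (x : PadicAlgCl q)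
  have hBmem' : ∀ x : E, x ∈ B ↔ L2_N E x ≤ 1 := hBmem
  haveI : IsDiscreteValuationRing B := hBloc.1
  haveI : Finite (IsLocalRing.ResidueField B) := hBloc.2.2
  letI : Fintype (IsLocalRing.ResidueField B) := Fintype.ofFinite _
  obtain ⟨ϖ, hϖm, hϖirr⟩ := L.H355.exists_isUniformizer hBloc.1
  have hϖ : L.IsUniformizer B ϖ := ⟨hϖm, hϖirr⟩
  have hϖ0 : ϖ ≠ 0 := L.H355.isUniformizer_ne_zero hϖ
  -- norm of the uniformizer
  have hϖlt : ‖(ϖ : PadicAlgCl q)‖ < 1 := by
    have h1 : (⟨ϖ, hϖm⟩ : B) ∈ IsLocalRing.maximalIdeal B := by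
      rw [IsLocalRing.mem_maximalIdeal]; exact hϖirr.not_isUnit
    have h2 := (L2_mem_maximalIdeal_iff B (L2_N E) hN hBmem' ⟨ϖ, hϖm⟩).1 h1
    rw [L2_N_apply] at h2
    exact h2
  have hϖpos : 0 < ‖(ϖ : PadicAlgCl q)‖ := by
    rw [norm_pos_iff]
    intro h0
    exact hϖ0 (Subtype.ext h0)
  -- the prime `q` in `B`
  have hqnorm : ‖((algebraMap ℚ_[q] E (q : ℚ_[q]) : E) : PadicAlgCl q)‖ = (q : ℝ)⁻¹ :=
    L.norm_natCast_prime63 q
  have hqinv_lt : (q : ℝ)⁻¹ < 1 := inv_lt_one_of_one_lt₀ (by exact_mod_cast hq.one_lt)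
  have hqB : algebraMap ℚ_[q] E (q : ℚ_[q]) ∈ B := by
    rw [hBmem, hqnorm]; exact hqinv_lt.le
  have hq0 : (⟨algebraMap ℚ_[q] E (q : ℚ_[q]), hqB⟩ : B) ≠ 0 := by
    intro h0
    have h1 := congrArg (fun z : B => ‖((z : E) : PadicAlgCl q)‖) h0
    simp only [hqnorm] at h1
    simp at h1
    exact hq.ne_zero h1
  obtain ⟨e, u, hu⟩ := IsDiscreteValuationRing.eq_unit_mul_pow_irreducible hq0 hϖirr
  have hu' : algebraMap ℚ_[q] E (q : ℚ_[q]) = ((u : B) : E) * ϖ ^ e := by
    have := congrArg Subtype.val hu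
    simpa using this
  have hunorm : ‖(((u : B) : E) : PadicAlgCl q)‖ = 1 := by
    have h2 := (L2_isUnit_iff B (L2_N E) hN hBmem' (u : B)).1 u.isUnit
    rw [L2_N_apply] at h2
    exact h2
  have hnorme : ‖(ϖ : PadicAlgCl q)‖ ^ e = (q : ℝ)⁻¹ := by
    rw [← hqnorm, hu']
    push_cast
    rw [norm_mul, norm_pow, hunorm, one_mul]
  have he : 0 < e := by
    rcases Nat.eq_zero_or_pos e with h0 | h0
    · rw [h0, pow_zero] at hnorme
      rw [← hnorme] at hqinv_lt
      exact absurd hqinv_lt (lt_irrefl _)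
    · exact h0
  have hval : B.valuation (algebraMap ℚ_[q] E (q : ℚ_[q])) = B.valuation ϖ ^ e := by
    rw [hu', map_mul, map_pow, B.valuation_unit u, one_mul]
  -- the fundamental identity
  have hfund := L.H355.card_residue_pow_eq L2_A_isLocal hBloc L2_isUniformizer_q hϖ hval he
  rw [L2_card_residue_A] at hfund
  have hcard1 : 1 < Nat.card (IsLocalRing.ResidueField B) := L.H355.one_lt_card_residue hBloc
  obtain ⟨f, -, hf⟩ : ∃ f, f ≤ Module.finrank ℚ_[q] E ∧
      Nat.card (IsLocalRing.ResidueField B) = q ^ f := by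
    apply (Nat.dvd_prime_pow hq).1
    rw [← hfund]
    exact dvd_pow_self _ he.ne'
  have hfpos : 0 < f := by
    rcases Nat.eq_zero_or_pos f with h0 | h0
    · rw [h0, pow_zero] at hf
      rw [hf] at hcard1
      exact absurd hcard1 (lt_irrefl _)
    · exact h0
  have hef : e * f = Module.finrank ℚ_[q] E := by
    rw [hf, ← pow_mul] at hfund
    have := Nat.pow_right_injective hq.two_le hfund
    rw [← this, mul_comm]
  -- residues
  have hres : ∀ (x : E) (hx : x ∈ B) (m : ℕ),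
      (IsLocalRing.residue B ⟨x, hx⟩) ^ (q ^ m) = IsLocalRing.residue B ⟨x, hx⟩ ↔
        ‖(x : PadicAlgCl q) ^ (q ^ m) - x‖ < 1 := by
    intro x hx m
    have h2 := L2_mem_maximalIdeal_iff B (L2_N E) hN hBmem' ((⟨x, hx⟩ : B) ^ (q ^ m) - ⟨x, hx⟩)
    rw [L2_N_apply] at h2
    rw [← map_pow, ← sub_eq_zero, ← map_sub, IsLocalRing.residue_eq_zero_iff, h2]
    rfl
  refine ⟨f, e, ϖ, hfpos, hef, hϖ0, hϖlt, hnorme, ?_, ?_, ?_, ?_⟩
  · -- maximality of the norm of the uniformizer
    intro x hx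
    have hxB : x ∈ B := (hBmem x).2 hx.le
    have h1 : (⟨x, hxB⟩ : B) ∈ IsLocalRing.maximalIdeal B := by
      have h2 := L2_mem_maximalIdeal_iff B (L2_N E) hN hBmem' ⟨x, hxB⟩
      rw [L2_N_apply] at h2
      exact h2.2 hx
    rw [hϖirr.maximalIdeal_eq, Ideal.mem_span_singleton'] at h1
    obtain ⟨y, hy⟩ := h1
    have h2 : (x : PadicAlgCl q) = ((y : E) : PadicAlgCl q) * (ϖ : PadicAlgCl q) := by
      have := congrArg (fun z : B => ((z : E) : PadicAlgCl q)) hy
      simpa using this.symm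
    rw [h2, norm_mul]
    calc ‖((y : E) : PadicAlgCl q)‖ * ‖(ϖ : PadicAlgCl q)‖ ≤ 1 * ‖(ϖ : PadicAlgCl q)‖ :=
          mul_le_mul_of_nonneg_right ((hBmem _).1 y.2) (norm_nonneg _)
      _ = ‖(ϖ : PadicAlgCl q)‖ := one_mul _
  · -- decomposition
    intro x hx
    obtain ⟨w, hw, hxw⟩ := L.H355.exists_unit_mul_zpow hBloc.1 hϖ (Units.mk0 x hx)
    refine ⟨L.H355.ordZ B ϖ (Units.mk0 x hx), (w : E), ?_, ?_⟩
    · have h2 := L2_norm_unitGroup B (L2_N E) hN hBmem' w hw
      rw [L2_N_apply] at h2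
      exact h2
    · have := congrArg (fun z : (↥E)ˣ => (z : E)) hxw
      simpa using this
  · -- the residue degree property
    intro x hx
    have hxB : x ∈ B := (hBmem x).2 hx
    rw [← hres x hxB f, ← hf, Nat.card_eq_fintype_card]
    exact FiniteField.pow_card _
  · -- minimality
    intro m hm hall
    have hall' : ∀ t : IsLocalRing.ResidueField B, t ^ (q ^ m) = t ^ 1 := by
      intro t
      obtain ⟨⟨x, hxB⟩, rfl⟩ := IsLocalRing.residue_surjective t
      rw [pow_one, hres x hxB m]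
      exact hall x ((hBmem x).1 hxB)
    have h1 := L.H355.modEq_of_forall_pow_eq hall'
    rw [hf] at h1
    have h2 : q ^ m ≡ q ^ 0 [MOD q ^ f - 1] := by simpa using h1
    have h3 := L.H355.modEq_of_pow_modEq hq.two_le hfpos h2
    have h4 : f ∣ m := (Nat.modEq_zero_iff_dvd).1 h3
    exact Nat.le_of_dvd hm h4

end Ext

end Fermat.Agent.S55.G.Rec.H931

end
end
-- ===== PACK-END S55/G/Rec/L2H931/Arith.lean

-- ===== PACK-BEGIN S55/L/Unram784/Exists.lean
section



/-!
# S55, layer L, leaf L-A2 (helper784): `UnramifiedExistsSpec`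

For a local field `K` with ring of integers `A` and `n > 0`, take `g : A[X]` monic whose
reduction is irreducible of degree `n`, `S = A[X]/(g)` and `L = Frac S`.
-/

set_option autoImplicit false
set_option linter.unusedSectionVars false

namespace Fermat.Agent.S55.L

open IsLocalRing Polynomial

section Transport

variable {S L : Type} [CommRing S] [IsDomain S] [IsDiscreteValuationRing S] [Field L]
  [Algebra S L] [IsFractionRing S L]

/-- The valuation subring of `L = Frac S` attached to the discrete valuation ring `S`. -/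
noncomputable def u784_valSubring (S L : Type) [CommRing S] [IsDomain S]
    [IsDiscreteValuationRing S] [Field L] [Algebra S L] [IsFractionRing S L] :
    ValuationSubring L :=
  (ValuationRing.valuation S L).valuationSubring

theorem u784_mem_valSubring (x : L) :
    x ∈ u784_valSubring S L ↔ ∃ a : S, algebraMap S L a = x :=
  ValuationRing.mem_integer_iff S L x

/-- `S ≃ B`. -/
noncomputable def u784_equivValSubring (S L : Type) [CommRing S] [IsDomain S]
    [IsDiscreteValuationRing S] [Field L] [Algebra S L] [IsFractionRing S L] :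
    S ≃+* ↥(u784_valSubring S L) :=
  RingEquiv.ofBijective
    ((algebraMap S L).codRestrict (u784_valSubring S L).toSubring
      (fun a => (u784_mem_valSubring (algebraMap S L a)).mpr ⟨a, rfl⟩))
    ⟨fun a b h => IsFractionRing.injective S L (congrArg Subtype.val h),
      fun x => by
        obtain ⟨a, ha⟩ := (u784_mem_valSubring (x : L)).mp x.2
        exact ⟨a, Subtype.ext ha⟩⟩

@[simp]
theorem u784_equivValSubring_coe (a : S) :
    ((u784_equivValSubring S L a : u784_valSubring S L) : L) = algebraMap S L a := rfl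

theorem u784_map_maximalIdeal_equiv {S T : Type} [CommRing S] [CommRing T] [IsLocalRing S]
    [IsLocalRing T] (e : S ≃+* T) : (maximalIdeal S).map e = maximalIdeal T :=
  IsLocalRing.eq_maximalIdeal
    ((Ideal.isMaximal_map_iff_of_bijective (f := e) e.bijective).mpr
      (IsLocalRing.maximalIdeal.isMaximal S))

/-- The valuation subring attached to a complete DVR with finite residue field is a ring of
integers. -/
theorem u784_isLocalRingOfIntegers_valSubring [IsAdicComplete (maximalIdeal S) S]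
    [Finite (ResidueField S)] : IsLocalRingOfIntegers (u784_valSubring S L) := by
  let e := u784_equivValSubring S L
  have hpir : IsPrincipalIdealRing ↥(u784_valSubring S L) :=
    IsPrincipalIdealRing.of_surjective e.toRingHom e.surjective
  have hmax : (maximalIdeal S).map e = maximalIdeal ↥(u784_valSubring S L) :=
    u784_map_maximalIdeal_equiv e
  have hdvr : IsDiscreteValuationRing ↥(u784_valSubring S L) := by
    refine IsDiscreteValuationRing.mk ?_
    rw [← hmax]
    intro h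
    have h2 : maximalIdeal S = ⊥ := by
      rw [eq_bot_iff]
      intro x hx
      have h3 : e x ∈ (maximalIdeal S).map e := Ideal.mem_map_of_mem _ hx
      rw [h, Ideal.mem_bot] at h3
      rw [Ideal.mem_bot]
      exact (map_eq_zero_iff e e.injective).mp h3
    exact IsDiscreteValuationRing.not_a_field S h2
  refine ⟨hdvr, ?_, ?_⟩
  · rw [← hmax]
    exact (IsAdicComplete.congr_ringEquiv (maximalIdeal S) e).mpr inferInstance
  · exact Finite.of_equiv _ (ResidueField.mapEquiv e).toEquiv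

end Transport

/-- **L-A2a**: existence of the unramified extension of each degree. -/
theorem u784_unramifiedExists : UnramifiedExistsSpec := by
  intro K _ hK n hn
  obtain ⟨A, hA⟩ := hK.exists_ringOfIntegers
  have := hK.charZero
  obtain ⟨hdvrA, hcA, hfA⟩ := id hA
  -- the polynomial
  obtain ⟨p, hp⟩ := CharP.exists (ResidueField ↥A)
  have : Fact p.Prime := ⟨CharP.char_is_prime (ResidueField ↥A) p⟩
  have : NeZero n := ⟨hn.ne'⟩
  obtain ⟨f, hf1, hf2, hf3⟩ := u784_exists_irreducible_of_finrank (k := ResidueField ↥A)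
    (l := FiniteField.Extension (ResidueField ↥A) p n)
  rw [FiniteField.finrank_extension] at hf3
  obtain ⟨g, hg, hgf, hgdeg⟩ := u784_exists_monic_lift f hf1
  have hirr : Irreducible (g.map (residue ↥A)) := hgf ▸ hf2
  have hgn : g.natDegree = n := hgdeg.trans hf3
  -- the ring `S = A[X]/(g)` and its fraction field
  obtain ⟨hdom, hdvr, hmeq, hcomp, hfin, hcard, hloc⟩ := u784_adjoinRoot_package g hg hirr
  have hinjS : Function.Injective (algebraMap ↥A (AdjoinRoot g)) :=
    AdjoinRoot.of.injective_of_degree_ne_zero (u784_adjoinRoot_degree_ne_zero g hg hirr)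
  have hinjA : Function.Injective (algebraMap ↥A (FractionRing (AdjoinRoot g))) := by
    rw [IsScalarTower.algebraMap_eq ↥A (AdjoinRoot g) (FractionRing (AdjoinRoot g))]
    exact (IsFractionRing.injective (AdjoinRoot g) (FractionRing (AdjoinRoot g))).comp hinjS
  let _ : Algebra K (FractionRing (AdjoinRoot g)) := (IsFractionRing.lift hinjA).toAlgebra
  have hψ : ∀ x : ↥A, algebraMap K (FractionRing (AdjoinRoot g)) (algebraMap ↥A K x) =
      algebraMap ↥A (FractionRing (AdjoinRoot g)) x := fun x =>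
    IsFractionRing.lift_algebraMap hinjA x
  have : IsScalarTower ↥A K (FractionRing (AdjoinRoot g)) :=
    IsScalarTower.of_algebraMap_eq (fun x => (hψ x).symm)
  have hdeg : g.natDegree =
      Module.finrank (ResidueField ↥A) (ResidueField (AdjoinRoot g)) := by
    have h1 := Module.natCard_eq_pow_finrank (K := ResidueField ↥A)
      (V := ResidueField (AdjoinRoot g))
    rw [hcard] at h1
    exact Nat.pow_right_injective (u784_two_le_card_residue (R := ↥A)) h1
  have hroot : (g.map (algebraMap ↥A (AdjoinRoot g))).IsRoot (AdjoinRoot.root g) := by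
    rw [IsRoot.def, Polynomial.eval_map]
    exact AdjoinRoot.eval₂_root g
  have hfinrank : Module.finrank K (FractionRing (AdjoinRoot g)) = n :=
    (u784_finrank_eq hmeq g hg hirr hdeg _ hroot).trans hgn
  have hfd : FiniteDimensional K (FractionRing (AdjoinRoot g)) :=
    u784_finiteDimensional hmeq g hg hirr hdeg _ hroot
  -- the valuation subring and the uniformizer
  obtain ⟨ϖ, hϖ⟩ := IsDiscreteValuationRing.exists_irreducible ↥A
  have hϖS : Irreducible (algebraMap ↥A (AdjoinRoot g) ϖ) :=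
    u784_irreducible_algebraMap hmeq ϖ hϖ
  have hB := u784_isLocalRingOfIntegers_valSubring (S := AdjoinRoot g)
    (L := FractionRing (AdjoinRoot g))
  refine ⟨FractionRing (AdjoinRoot g), inferInstance, inferInstance, hfd,
    ⟨A, u784_valSubring (AdjoinRoot g) (FractionRing (AdjoinRoot g)), (ϖ : K), hA, hB,
      ⟨ϖ.2, hϖ⟩, ?_⟩, hfinrank⟩
  have hval : algebraMap K (FractionRing (AdjoinRoot g)) (ϖ : K) =
      algebraMap (AdjoinRoot g) (FractionRing (AdjoinRoot g))
        (algebraMap ↥A (AdjoinRoot g) ϖ) := by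
    rw [← IsScalarTower.algebraMap_apply ↥A (AdjoinRoot g) (FractionRing (AdjoinRoot g)),
      ← hψ]
    rfl
  have hmem : algebraMap K (FractionRing (AdjoinRoot g)) (ϖ : K) ∈
      u784_valSubring (AdjoinRoot g) (FractionRing (AdjoinRoot g)) :=
    (u784_mem_valSubring _).mpr ⟨_, hval.symm⟩
  refine ⟨hmem, ?_⟩
  have heq : (⟨algebraMap K (FractionRing (AdjoinRoot g)) (ϖ : K), hmem⟩ :
      u784_valSubring (AdjoinRoot g) (FractionRing (AdjoinRoot g))) =
      u784_equivValSubring (AdjoinRoot g) (FractionRing (AdjoinRoot g))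
        (algebraMap ↥A (AdjoinRoot g) ϖ) := Subtype.ext hval
  rw [heq]
  exact (MulEquiv.irreducible_iff
    (u784_equivValSubring (AdjoinRoot g) (FractionRing (AdjoinRoot g)))).mpr hϖS

end Fermat.Agent.S55.L

end
-- ===== PACK-END S55/L/Unram784/Exists.lean

-- ===== PACK-BEGIN S55/L/Unr534/Closed.lean
section




/-!
# S55, layer L (helper534): `UnrNestSpec` and `UnrBCSpec` closed

The two inputs of leaf L-C2 (`Inv481.inv_of`) about unramified subextensions, in EXACTLY the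
shape of `L/Inv481/Inputs.lean`, unconditionally.
-/

set_option autoImplicit false

namespace Fermat.Agent.S55.L.Unr534

/-- **UnrNestSpec**: unramified subextensions of a finite extension are nested by degree. -/
theorem unrNestSpec534 : Inv481.UnrNestSpec := unrNest534 ringOfIntegersUnique775

/-- **UnrBCSpec**: the compositum of an unramified extension with a finite extension is
unramified over the latter. -/
theorem unrBCSpec534 : Inv481.UnrBCSpec := unrBC534 ringOfIntegersUnique775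

end Fermat.Agent.S55.L.Unr534

end
-- ===== PACK-END S55/L/Unr534/Closed.lean

-- ===== PACK-BEGIN S55/Cap/C1H239/Dict.lean
section


/-!
# S55 / A8 (helper239): dictionary between the big modules `𝔼 ⊂ 𝕁` and the finite levels

For a level `L : Tow.Level S`:

* `ofJq L q : J_q(L) →+ 𝕁_q`  (`(L.J q).V → JJ S q`), injective, `G_ℚ`-equivariant, with image the
  `L.U`-invariants, compatible with the transition maps `Level.trJ`;
* `JL L = ∏_{q ∈ S} J_q(L)` as a `G_ℚ`-module (type synonym), `ofJ L : JL L →+ 𝕁`;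
* `ofE L e he : 𝔼` for an `S`-unit `e` of `L`, `exists_ofE` (the `L.U`-invariants of `𝔼`);
* `ofJ_diag` : `ofJ L (diag e) = iEJ (ofE e)`.

Everything is sorry-free and uses only `Cap/Mod.lean` (helper303) and the frozen tower.
-/

set_option autoImplicit false
set_option linter.unusedVariables false
set_option linter.unusedSectionVars false
set_option linter.style.haveILetI false

noncomputable section

namespace Fermat.Agent.S55.Cap.H239

open Fermat.Agent.S55.PT Fermat.Agent.S55.Tow Fermat.Agent.S55.Cap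

variable {S : Finset Nat.Primes}

/-! ### `J_q(L) → 𝕁_q` -/

lemma mk_locQ_mul (L : Level S) (q : Nat.Primes) (d : GQp q) (g : Tow.GQ) :
    (QuotientGroup.mk (locQ q d * g) : L.Gal) =
      L.decHom q (QuotientGroup.mk d) * (QuotientGroup.mk g : L.Gal) := rfl

/-- the inclusion `J_q(L) → 𝕁_q`: `y ↦ (g ↦ y(ḡ))` -/
def ofJq (L : Level S) (q : Nat.Primes) : (L.J q).V →+ JJ S q where
  toFun y := JJ.mk S q (fun g => L.locCoe q (L.Jeval q y (QuotientGroup.mk g)))
    (fun d g => by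
      show L.locCoe q (L.Jeval q y (QuotientGroup.mk (locQ q d * g))) = _
      rw [mk_locQ_mul, L.Jeval_mul, Level.locUnits_ρ_coe])
    ⟨L, fun u hu g => by
      have : (QuotientGroup.mk (g * u) : L.Gal) = QuotientGroup.mk g := by
        rw [QuotientGroup.eq]
        have : (g * u)⁻¹ * g = u⁻¹ := by group
        rw [this]
        exact L.U.inv_mem hu
      show L.locCoe q (L.Jeval q y (QuotientGroup.mk (g * u))) = _
      rw [this]⟩
  map_zero' := by
    apply JJ.ext
    intro g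
    rfl
  map_add' y y' := by
    apply JJ.ext
    intro g
    rfl

@[simp] lemma ev_ofJq (L : Level S) (q : Nat.Primes) (y : (L.J q).V) (g : Tow.GQ) :
    JJ.ev S q g (ofJq L q y) = L.locCoe q (L.Jeval q y (QuotientGroup.mk g)) := rfl

lemma ofJq_injective (L : Level S) (q : Nat.Primes) : Function.Injective (ofJq L q) := by
  intro y y' h
  apply L.J_ext q
  intro g
  induction g using QuotientGroup.induction_on with
  | H g =>
    apply L.locCoe_injective q
    have := congrArg (JJ.ev S q g) h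
    rwa [ev_ofJq, ev_ofJq] at this

lemma ofJq_smul (L : Level S) (q : Nat.Primes) (g : Tow.GQ) (y : (L.J q).V) :
    ofJq L q ((L.J q).ρ (QuotientGroup.mk g) y) = g • ofJq L q y := by
  apply JJ.ext
  intro g'
  rw [JJ.ev_smul, ev_ofJq, ev_ofJq, L.Jeval_ρ]
  rfl

lemma ofJq_trJ {L L' : Level S} (h : L ≤ L') (q : Nat.Primes) (y : (L.J q).V) :
    ofJq L' q ((Level.trJ h q).hom y) = ofJq L q y := by
  apply JJ.ext
  intro g
  rfl

/-- the image of `ofJq L q` is the group of `L.U`-invariants of `𝕁_q` -/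
lemma exists_ofJq (L : Level S) (q : Nat.Primes) (x : JJ S q) (hx : ∀ u ∈ L.U, u • x = x) :
    ∃ y : (L.J q).V, ofJq L q y = x := by
  have hinv : ∀ (g u : Tow.GQ), u ∈ L.U → JJ.ev S q (g * u) x = JJ.ev S q g x := by
    intro g u hu
    have := congrArg (JJ.ev S q g) (hx u hu)
    rwa [JJ.ev_smul] at this
  have hfix : ∀ (g : Tow.GQ) (d : GQp q), d ∈ L.V q →
      (unitsQpbar q).ρ d (JJ.ev S q g x) = JJ.ev S q g x := by
    intro g d hd
    rw [← JJ.ev_mul_left]
    have h1 : locQ q d * g = g * (g⁻¹ * locQ q d * g) := by group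
    rw [h1]
    exact hinv g _ (Level.conj_mem_U' S L hd g)
  have hout : ∀ g : Tow.GQ, JJ.ev S q ((QuotientGroup.mk g : L.Gal).out) x = JJ.ev S q g x := by
    intro g
    obtain ⟨u, hu⟩ := QuotientGroup.mk_out_eq_mul L.U g
    rw [hu]
    exact hinv g u u.2
  let yf : L.Gal → (L.locUnits q).V := fun c => L.locMk q (JJ.ev S q c.out x) (hfix c.out)
  have hyf : ∀ g : Tow.GQ, L.locCoe q (yf (QuotientGroup.mk g)) = JJ.ev S q g x := fun g => hout g
  refine ⟨⟨yf, fun d c => ?_⟩, ?_⟩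
  · induction d using QuotientGroup.induction_on with
    | H d =>
      induction c using QuotientGroup.induction_on with
      | H g =>
        apply L.locCoe_injective q
        rw [← mk_locQ_mul, hyf, Level.locUnits_ρ_coe, hyf, JJ.ev_mul_left]
  · apply JJ.ext
    intro g
    exact hyf g

/-! ### `J(L) = ∏_{q ∈ S} J_q(L)` as a `G_ℚ`-module -/

/-- `J(L) = ∏_{q ∈ S} J_q(L)` -/
def JL (L : Level S) : Type := (q : ↥S) → (L.J q.1).V

instance JL.instAddCommGroup (L : Level S) : AddCommGroup (JL L) :=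
  inferInstanceAs (AddCommGroup ((q : ↥S) → (L.J q.1).V))

/-- the `q`-component -/
def JL.proj (L : Level S) (q : ↥S) : JL L →+ (L.J q.1).V := Pi.evalAddMonoidHom _ q

/-- constructor -/
def JL.mk (L : Level S) (y : (q : ↥S) → (L.J q.1).V) : JL L := y

@[simp] lemma JL.proj_mk (L : Level S) (y : (q : ↥S) → (L.J q.1).V) (q : ↥S) :
    JL.proj L q (JL.mk L y) = y q := rfl

lemma JL.ext {L : Level S} {y y' : JL L} (h : ∀ q, JL.proj L q y = JL.proj L q y') : y = y' :=
  funext h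

instance JL.instDistribMulAction (L : Level S) : DistribMulAction Tow.GQ (JL L) where
  smul g y := fun q => (L.J q.1).ρ (QuotientGroup.mk g) (y q)
  one_smul y := by
    funext q
    show (L.J q.1).ρ (QuotientGroup.mk (1 : Tow.GQ)) (y q) = y q
    rw [QuotientGroup.mk_one, map_one, Module.End.one_apply]
  mul_smul g h y := by
    funext q
    show (L.J q.1).ρ (QuotientGroup.mk (g * h)) (y q) =
      (L.J q.1).ρ (QuotientGroup.mk g) ((L.J q.1).ρ (QuotientGroup.mk h) (y q))
    rw [QuotientGroup.mk_mul, map_mul, Module.End.mul_apply]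
  smul_zero g := by
    funext q
    exact map_zero ((L.J q.1).ρ (QuotientGroup.mk g))
  smul_add g y y' := by
    funext q
    exact map_add ((L.J q.1).ρ (QuotientGroup.mk g)) (y q) (y' q)

@[simp] lemma JL.proj_smul (L : Level S) (q : ↥S) (g : Tow.GQ) (y : JL L) :
    JL.proj L q (g • y) = (L.J q.1).ρ (QuotientGroup.mk g) (JL.proj L q y) := rfl

/-- the inclusion `J(L) → 𝕁` -/
def ofJ (L : Level S) : JL L →+ JJS S :=
  AddMonoidHom.mk' (fun y q => ofJq L q.1 (y q)) (fun y y' => by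
    funext q
    exact map_add (ofJq L q.1) (y q) (y' q))

@[simp] lemma proj_ofJ (L : Level S) (q : ↥S) (y : JL L) :
    JJS.proj S q (ofJ L y) = ofJq L q.1 (JL.proj L q y) := rfl

lemma ofJ_injective (L : Level S) : Function.Injective (ofJ L) := by
  intro y y' h
  apply JL.ext
  intro q
  exact ofJq_injective L q.1 (congrArg (JJS.proj S q) h)

lemma ofJ_smul (L : Level S) (g : Tow.GQ) (y : JL L) : ofJ L (g • y) = g • ofJ L y :=
  JJS.ext S fun q => ofJq_smul L q.1 g (y q)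

/-- the image of `ofJ L` is the group of `L.U`-invariants of `𝕁` -/
lemma exists_ofJ (L : Level S) (x : JJS S) (hx : ∀ u ∈ L.U, u • x = x) :
    ∃ y : JL L, ofJ L y = x := by
  have h : ∀ q : ↥S, ∃ y : (L.J q.1).V, ofJq L q.1 y = JJS.proj S q x := fun q =>
    exists_ofJq L q.1 _ (fun u hu => by
      have := congrArg (JJS.proj S q) (hx u hu)
      rwa [JJS.proj_smul] at this)
  choose y hy using h
  exact ⟨JL.mk L y, JJS.ext S fun q => hy q⟩

/-- the transition map `J(L) → J(L')` -/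
def trJL {L L' : Level S} (h : L ≤ L') : JL L →+ JL L' :=
  AddMonoidHom.mk' (fun y q => (Level.trJ h q.1).hom (y q)) (fun y y' => by
    funext q
    exact map_add (Level.trJ h q.1).hom (y q) (y' q))

@[simp] lemma proj_trJL {L L' : Level S} (h : L ≤ L') (q : ↥S) (y : JL L) :
    JL.proj L' q (trJL h y) = (Level.trJ h q.1).hom (JL.proj L q y) := rfl

lemma ofJ_trJL {L L' : Level S} (h : L ≤ L') (y : JL L) : ofJ L' (trJL h y) = ofJ L y :=
  JJS.ext S fun q => ofJq_trJ h q.1 (y q)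

lemma trJL_smul {L L' : Level S} (h : L ≤ L') (g : Tow.GQ) (y : JL L) :
    trJL h (g • y) = g • trJL h y := by
  apply ofJ_injective L'
  rw [ofJ_trJL, ofJ_smul, ofJ_smul, ofJ_trJL]

/-! ### `S`-units -/

/-- an `S`-unit of `L` as an element of `𝔼` -/
def ofE (L : Level S) (e : L.units.V) (he : L.IsSUnit e) : SU S :=
  SU.mk S (L.unitsCoe e) he ⟨L, fun g hg => L.unitsCoe_fixed e g hg⟩

@[simp] lemma val_ofE (L : Level S) (e : L.units.V) (he : L.IsSUnit e) :
    SU.val S (ofE L e he) = L.unitsCoe e := rfl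

/-- the `L.U`-invariants of `𝔼` are the `S`-units of `L` -/
lemma exists_ofE (L : Level S) (x : SU S) (hx : ∀ u ∈ L.U, u • x = x) :
    ∃ (e : L.units.V) (he : L.IsSUnit e), ofE L e he = x := by
  refine ⟨L.unitsMk (SU.val S x) (fun g hg => ?_), SU.isSUq S x, ?_⟩
  · have := congrArg (SU.val S) (hx g hg)
    rwa [SU.val_smul] at this
  · apply SU.ext
    rfl

lemma ofJq_diag (L : Level S) (q : Nat.Primes) (e : L.units.V) (he : L.IsSUnit e) :
    ofJq L q ((L.diag q).hom e) = iEJq S q (ofE L e he) := by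
  apply JJ.ext
  intro g
  rfl

/-- the diagonal element of `J(L)` attached to `e ∈ Lˣ` -/
def diagL (L : Level S) (e : L.units.V) : JL L := JL.mk L (fun q => (L.diag q.1).hom e)

@[simp] lemma proj_diagL (L : Level S) (e : L.units.V) (q : ↥S) :
    JL.proj L q (diagL L e) = (L.diag q.1).hom e := rfl

lemma ofJ_diagL (L : Level S) (e : L.units.V) (he : L.IsSUnit e) :
    ofJ L (diagL L e) = iEJ S (ofE L e he) :=
  JJS.ext S fun q => ofJq_diag L q.1 e he

end Fermat.Agent.S55.Cap.H239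

end
end
-- ===== PACK-END S55/Cap/C1H239/Dict.lean

-- ===== PACK-BEGIN S56/Br/H374/Fp.lean
section


/-!
# Row S56 — BRIDGE (B5): restriction of scalars `k → F_p`                     (helper374)

The S55 `PT` layer computes with `F_p`-representations; the plain-function language of S56
lives over the residue field `k`.  An `F_p`-dimension only sees the additive group, so the
dictionary is organised around ADDITIVE equivariant bijections `B ≃+ A` between an
`F_p`-representation `B` and a `k`-representation `A` (`AEq p B A`):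

* `finrank_eq_of_addEquiv` : `W' ≃+ W`, `W'` over `F_p`, `W` over `k` ⇒
  `dim_{F_p} W' = [k : F_p] · dim_k W`  (`fpDeg k p = [k : F_p]`);
* `AEq.H1AddEquiv`, `AEq.sha1AddEquiv`, `AEq.H0AddEquiv` and the resulting
  `AEq.finrank_H1`, `AEq.finrank_Sha1`, `AEq.finrank_H0`, `AEq.finite_H1`;
* `resFp p A` : restriction of scalars of `A : Rep k G` to `F_p`, with `resFpAEq`.
-/

set_option autoImplicit false
set_option linter.style.haveILetI false
set_option linter.unusedSectionVars false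

noncomputable section

namespace Fermat.Agent.S56.Br

open Fermat.Agent.S55.PT groupCohomology

/-! ### `F_p`-structures on `k`-modules -/

section FpStruct

variable (k : Type) [Field k] (p : ℕ) [Fact p.Prime] [CharP k p]

/-- The `F_p`-module structure of a `k`-module. -/
@[reducible] def fpMod (W : Type*) [AddCommGroup W] [Module k W] : Module (ZMod p) W :=
  Module.compHom W (ZMod.castHom (dvd_refl p) k)

/-- The degree `[k : F_p]`. -/
def fpDeg : ℕ := @Module.finrank (ZMod p) k _ _ (fpMod k p k)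

theorem finrank_fpMod (W : Type*) [AddCommGroup W] [Module k W] :
    @Module.finrank (ZMod p) W _ _ (fpMod k p W) = fpDeg k p * Module.finrank k W := by
  letI := fpMod k p k
  letI := fpMod k p W
  haveI : IsScalarTower (ZMod p) k W := ⟨fun a r w => by
    show (ZMod.castHom (dvd_refl p) k a * r) • w = ZMod.castHom (dvd_refl p) k a • (r • w)
    rw [mul_smul]⟩
  exact (Module.finrank_mul_finrank (ZMod p) k W).symm

theorem fpDeg_pos [Finite k] : 0 < fpDeg k p := by
  letI := fpMod k p k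
  haveI : Module.Finite (ZMod p) k := Module.Finite.of_finite
  exact Module.finrank_pos

variable {k}

/-- An `F_p`-dimension only sees the additive group. -/
theorem finrank_eq_of_addEquiv {W W' : Type*} [AddCommGroup W] [Module k W] [AddCommGroup W']
    [Module (ZMod p) W'] (e : W' ≃+ W) :
    Module.finrank (ZMod p) W' = fpDeg k p * Module.finrank k W := by
  rw [← finrank_fpMod k p W]
  letI := fpMod k p W
  exact (LinearEquiv.ofBijective (e.toAddMonoidHom.toZModLinearMap p) e.bijective).finrank_eq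

/-- Finiteness only sees the underlying set. -/
theorem moduleFinite_of_addEquiv [Finite k] {W W' : Type*} [AddCommGroup W] [Module k W]
    [AddCommGroup W'] [Module (ZMod p) W'] [Module.Finite (ZMod p) W'] (e : W' ≃+ W) :
    Module.Finite k W := by
  haveI : Finite W' := Module.finite_of_finite (ZMod p)
  haveI : Finite W := Finite.of_equiv W' e.toEquiv
  exact Module.Finite.of_finite

end FpStruct

/-! ### Additive equivariant bijections -/

section AEqSec

variable {G : Type} [Group G] {k : Type} [Field k] (p : ℕ) [Fact p.Prime] [CharP k p]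

/-- An additive equivariant bijection between an `F_p`-representation and a
`k`-representation. -/
structure AEq (B : Rep.{0, 0, 0} (ZMod p) G) (A : Rep.{0, 0, 0} k G) where
  /-- the additive bijection -/
  e : B.V ≃+ A.V
  /-- equivariance -/
  he : ∀ (g : G) (b : B.V), e (B.ρ g b) = A.ρ g (e b)

namespace AEq

variable {p} {B : Rep.{0, 0, 0} (ZMod p) G} {A : Rep.{0, 0, 0} k G} (E : AEq p B A)

theorem he_symm (g : G) (a : A.V) : E.e.symm (A.ρ g a) = B.ρ g (E.e.symm a) := by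
  apply E.e.injective
  rw [E.he, AddEquiv.apply_symm_apply, AddEquiv.apply_symm_apply]

/-- The same bijection, for the restrictions along `r : G' → G`. -/
def res {G' : Type} [Group G'] (r : G' →* G) : AEq p (Rep.res r B) (Rep.res r A) where
  e := E.e
  he g b := E.he (r g) b

@[simp] theorem res_e {G' : Type} [Group G'] (r : G' →* G) (b : B.V) :
    (E.res r).e b = E.e b := rfl

/-- Post-composition with `e`. -/
def comp (f : G → B.V) : G → A.V := fun g => E.e (f g)

/-- Post-composition with `e⁻¹`. -/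
def compSymm (f : G → A.V) : G → B.V := fun g => E.e.symm (f g)

@[simp] theorem comp_apply (f : G → B.V) (g : G) : E.comp f g = E.e (f g) := rfl
@[simp] theorem compSymm_apply (f : G → A.V) (g : G) : E.compSymm f g = E.e.symm (f g) := rfl

@[simp] theorem comp_compSymm (f : G → A.V) : E.comp (E.compSymm f) = f := by
  funext g
  simp

@[simp] theorem compSymm_comp (f : G → B.V) : E.compSymm (E.comp f) = f := by
  funext g
  simp

theorem comp_add (f f' : G → B.V) : E.comp (f + f') = E.comp f + E.comp f' := by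
  funext g
  simp

theorem comp_mem_cocycles₁ {f : G → B.V} (hf : f ∈ cocycles₁ B) : E.comp f ∈ cocycles₁ A := by
  rw [groupCohomology.mem_cocycles₁_iff] at hf ⊢
  intro g h
  simp only [comp_apply]
  rw [hf g h, map_add, E.he]

theorem compSymm_mem_cocycles₁ {f : G → A.V} (hf : f ∈ cocycles₁ A) :
    E.compSymm f ∈ cocycles₁ B := by
  rw [groupCohomology.mem_cocycles₁_iff] at hf ⊢
  intro g h
  simp only [compSymm_apply]
  rw [hf g h, map_add, E.he_symm]

theorem comp_mem_B1 {f : G → B.V} (hf : f ∈ LevelSys.B1 B) : E.comp f ∈ LevelSys.B1 A := by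
  obtain ⟨m, rfl⟩ := hf
  refine ⟨E.e m, ?_⟩
  funext g
  simp only [comp_apply, d₀₁_hom_apply]
  rw [map_sub, E.he]

theorem compSymm_mem_B1 {f : G → A.V} (hf : f ∈ LevelSys.B1 A) :
    E.compSymm f ∈ LevelSys.B1 B := by
  obtain ⟨m, rfl⟩ := hf
  refine ⟨E.e.symm m, ?_⟩
  funext g
  simp only [compSymm_apply, d₀₁_hom_apply]
  rw [map_sub, E.he_symm]

theorem comp_mem_B1_iff (f : G → B.V) : E.comp f ∈ LevelSys.B1 A ↔ f ∈ LevelSys.B1 B :=
  ⟨fun h => by simpa using E.compSymm_mem_B1 h, E.comp_mem_B1⟩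

variable (L : LevelSys G)

theorem comp_mem_Z1 {f : G → B.V} (hf : f ∈ L.Z1 B) : E.comp f ∈ L.Z1 A :=
  ⟨E.comp_mem_cocycles₁ hf.1, LevelSys.IsLC₁.comp hf.2 E.e⟩

theorem compSymm_mem_Z1 {f : G → A.V} (hf : f ∈ L.Z1 A) : E.compSymm f ∈ L.Z1 B :=
  ⟨E.compSymm_mem_cocycles₁ hf.1, LevelSys.IsLC₁.comp hf.2 E.e.symm⟩

theorem comp_mem_Z1_iff (f : G → B.V) : E.comp f ∈ L.Z1 A ↔ f ∈ L.Z1 B :=
  ⟨fun h => by simpa using E.compSymm_mem_Z1 L h, E.comp_mem_Z1 L⟩

/-- The bijection on level-constant cocycles. -/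
def Z1AddEquiv : ↥(L.Z1 B) ≃+ ↥(L.Z1 A) where
  toFun c := ⟨E.comp c.1, E.comp_mem_Z1 L c.2⟩
  invFun c := ⟨E.compSymm c.1, E.compSymm_mem_Z1 L c.2⟩
  left_inv c := Subtype.ext (E.compSymm_comp c.1)
  right_inv c := Subtype.ext (E.comp_compSymm c.1)
  map_add' c c' := Subtype.ext (E.comp_add c.1 c'.1)

@[simp] theorem coe_Z1AddEquiv (c : ↥(L.Z1 B)) :
    ((E.Z1AddEquiv L c : ↥(L.Z1 A)) : G → A.V) = E.comp c.1 := rfl

/-- The bijection on `H¹`. -/
def H1AddEquiv : L.H1 B ≃+ L.H1 A :=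
  letI := fpMod k p (L.H1 A)
  let ψ : ↥(L.Z1 B) →ₗ[ZMod p] L.H1 A :=
    ((L.H1π A).toAddMonoidHom.comp (E.Z1AddEquiv L).toAddMonoidHom).toZModLinearMap p
  have hψ : ∀ c, ψ c = L.H1π A (E.Z1AddEquiv L c) := fun _ => rfl
  let φ : L.H1 B →ₗ[ZMod p] L.H1 A :=
    Submodule.liftQ ((LevelSys.B1 B).comap (L.Z1 B).subtype) ψ (by
      intro c hc
      rw [LinearMap.mem_ker, hψ, L.H1π_eq_zero_iff]
      exact E.comp_mem_B1 hc)
  have hφ : ∀ c, φ (L.H1π B c) = L.H1π A (E.Z1AddEquiv L c) := fun _ => rfl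
  AddEquiv.ofBijective φ.toAddMonoidHom (by
    constructor
    · rw [injective_iff_map_eq_zero]
      intro x hx
      obtain ⟨c, rfl⟩ := L.H1π_surjective B x
      have h1 : L.H1π A (E.Z1AddEquiv L c) = 0 := hx
      rw [L.H1π_eq_zero_iff] at h1 ⊢
      exact (E.comp_mem_B1_iff c.1).1 h1
    · intro y
      obtain ⟨c, rfl⟩ := L.H1π_surjective A y
      refine ⟨L.H1π B ((E.Z1AddEquiv L).symm c), ?_⟩
      show φ (L.H1π B ((E.Z1AddEquiv L).symm c)) = _
      rw [hφ, AddEquiv.apply_symm_apply])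

@[simp] theorem H1AddEquiv_mk (c : ↥(L.Z1 B)) :
    E.H1AddEquiv L (L.H1π B c) = L.H1π A (E.Z1AddEquiv L c) := rfl

include E in
theorem finrank_H1 :
    Module.finrank (ZMod p) (L.H1 B) = fpDeg k p * Module.finrank k (L.H1 A) :=
  finrank_eq_of_addEquiv p (E.H1AddEquiv L)

include E in
theorem finite_H1 [Finite k] [Module.Finite (ZMod p) (L.H1 B)] : Module.Finite k (L.H1 A) :=
  moduleFinite_of_addEquiv p (E.H1AddEquiv L)

/-! #### Invariants -/

/-- The bijection on invariants. -/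
def H0AddEquiv : ↥(LevelSys.H0 B) ≃+ ↥(LevelSys.H0 A) where
  toFun b := ⟨E.e b.1, fun g => by rw [← E.he, b.2 g]⟩
  invFun a := ⟨E.e.symm a.1, fun g => by rw [← E.he_symm, a.2 g]⟩
  left_inv b := Subtype.ext (E.e.symm_apply_apply b.1)
  right_inv a := Subtype.ext (E.e.apply_symm_apply a.1)
  map_add' b b' := Subtype.ext (E.e.map_add b.1 b'.1)

include E in
theorem finrank_H0 :
    Module.finrank (ZMod p) ↥(LevelSys.H0 B) = fpDeg k p * Module.finrank k ↥(LevelSys.H0 A) :=
  finrank_eq_of_addEquiv p E.H0AddEquiv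

/-! #### `Ш¹` -/

section Sha

variable {ι : Type} [Fintype ι] [DecidableEq ι] {Gv : ι → Type} [∀ v, Group (Gv v)] {L}
  {Lv : ∀ v, LevelSys (Gv v)} {r : ∀ v, Gv v →* G}
  (hr : ∀ v, IsLevelCompatible (r v) L (Lv v))

/-- The class of `c` lies in `Ш¹` iff all local restrictions are coboundaries. -/
theorem _root_.Fermat.Agent.S56.Br.H1π_mem_Sha1_iff_gen {k₀ : Type} [Field k₀]
    (M : Rep.{0, 0, 0} k₀ G) (c : ↥(L.Z1 M)) :
    L.H1π M c ∈ Sha1 hr M ↔
      ∀ v, ((c : G → M.V) ∘ r v : Gv v → M.V) ∈ LevelSys.B1 (Rep.res (r v) M) := by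
  rw [LinearMap.mem_ker]
  constructor
  · intro h v
    have h1 := congrFun h v
    rw [loc1_apply, resH1_mk] at h1
    exact ((Lv v).H1π_eq_zero_iff _ _).1 h1
  · intro h
    funext v
    rw [loc1_apply, resH1_mk]
    exact ((Lv v).H1π_eq_zero_iff _ _).2 (h v)

theorem H1AddEquiv_mem_Sha1_iff (x : L.H1 B) :
    E.H1AddEquiv L x ∈ Sha1 hr A ↔ x ∈ Sha1 hr B := by
  obtain ⟨c, rfl⟩ := L.H1π_surjective B x
  rw [H1AddEquiv_mk, H1π_mem_Sha1_iff_gen hr A, H1π_mem_Sha1_iff_gen hr B]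
  refine forall_congr' fun v => ?_
  exact (E.res (r v)).comp_mem_B1_iff ((c : G → B.V) ∘ r v)

/-- The bijection on `Ш¹`. -/
def sha1AddEquiv : ↥(Sha1 hr B) ≃+ ↥(Sha1 hr A) where
  toFun x := ⟨E.H1AddEquiv L x.1, (E.H1AddEquiv_mem_Sha1_iff hr x.1).2 x.2⟩
  invFun y := ⟨(E.H1AddEquiv L).symm y.1, by
    rw [← E.H1AddEquiv_mem_Sha1_iff hr, AddEquiv.apply_symm_apply]
    exact y.2⟩
  left_inv x := Subtype.ext ((E.H1AddEquiv L).symm_apply_apply x.1)
  right_inv y := Subtype.ext ((E.H1AddEquiv L).apply_symm_apply y.1)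
  map_add' x x' := Subtype.ext ((E.H1AddEquiv L).map_add x.1 x'.1)

include E in
theorem finrank_Sha1 :
    Module.finrank (ZMod p) ↥(Sha1 hr B) = fpDeg k p * Module.finrank k ↥(Sha1 hr A) :=
  finrank_eq_of_addEquiv p (E.sha1AddEquiv hr)

end Sha

end AEq

/-! ### Restriction of scalars -/

/-- Restriction of scalars of a `k`-representation to `F_p`. -/
def resFp (A : Rep.{0, 0, 0} k G) : Rep.{0, 0, 0} (ZMod p) G :=
  letI := fpMod k p A.V
  Rep.of (k := ZMod p) (G := G) (X := A.V)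
    { toFun := fun g => (A.ρ g).toAddMonoidHom.toZModLinearMap p
      map_one' := by
        apply LinearMap.ext
        intro a
        show A.ρ 1 a = a
        rw [map_one, Module.End.one_apply]
      map_mul' := fun g h => by
        apply LinearMap.ext
        intro a
        show A.ρ (g * h) a = A.ρ g (A.ρ h a)
        rw [map_mul, Module.End.mul_apply] }

/-- The identity, as an additive equivariant bijection `resFp p A ≃+ A`. -/
def resFpAEq (A : Rep.{0, 0, 0} k G) : AEq p (resFp p A) A where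
  e := AddEquiv.refl A.V
  he _ _ := rfl

theorem resFp_ρ_apply (A : Rep.{0, 0, 0} k G) (g : G) (a : A.V) :
    (resFp p A).ρ g a = A.ρ g a := rfl

theorem finiteDimensional_resFp [Finite k] (A : Rep.{0, 0, 0} k G) [Module.Finite k A.V] :
    FiniteDimensional (ZMod p) (resFp p A) := by
  haveI : Finite A.V := Module.finite_of_finite k
  haveI : Finite (resFp p A).V := ‹Finite A.V›
  exact Module.Finite.of_finite

end AEqSec

end Fermat.Agent.S56.Br

end

end
-- ===== PACK-END S56/Br/H374/Fp.lean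

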