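import Mathlib
import Fermat.Prelude.Def_Algebra_PatchingDatum
import Fermat.Agent.Pack.S43GC.G0E13L2
import Fermat.Agent.Pack.S43GC.G0E13L3
import Fermat.Agent.Pack.S43GC.G0E9L1
import Fermat.Agent.Pack.S43GC.G0E13L1
import Fermat.Agent.Pack.S43GC.G0E7L3
import Fermat.Agent.Pack.S43GC.G0E12L3
import Fermat.Agent.Pack.S44C.G0E6L0
import Fermat.Agent.Pack.S43GC.G0E13L0
import Fermat.Agent.Pack.S43GC.G0E9L0
import Fermat.Agent.Pack.S43GC.G0E11L3
import Fermat.Agent.Pack.S43GC.G0E10L3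
import Fermat.Agent.Pack.S43GC.G0E11L2
import Fermat.Agent.Pack.S44C.G0E14L2
import Fermat.Agent.Pack.S43GC.G0E2L0
import Fermat.Agent.Pack.Fast891

-- ===== PACK-BEGIN S55/PT/T2aH299/Push.lean
section


/-!
# S55 / layer D, leaf D-T2a: linearity of `pushH2` in the map

`pushH2L L A B : equivHom A B →ₗ[k] (H²(A) →ₗ[k] H²(B))`, so that push-forwards commute with finite
sums of equivariant maps.
-/

set_option autoImplicit false

noncomputable section

namespace Fermat.Agent.S55.PT.H299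

open Fermat.Agent.S55.PT groupCohomology

variable {k : Type} [Field k] {G : Type} [Group G]

/-- the submodule of equivariant linear maps -/
def equivHom (A B : Rep.{0, 0, 0} k G) : Submodule k (A →ₗ[k] B) where
  carrier := {φ | IsEquivariant φ}
  add_mem' hφ hψ := isEquivariant_add hφ hψ
  zero_mem' := isEquivariant_zero
  smul_mem' c _ hφ := isEquivariant_smul c hφ

lemma mem_equivHom {A B : Rep.{0, 0, 0} k G} (φ : A →ₗ[k] B) :
    φ ∈ equivHom A B ↔ IsEquivariant φ := Iff.rfl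

variable (L : LevelSys G)

/-- `φ ↦ φ_*` as a linear map on equivariant maps -/
def pushH2L (A B : Rep.{0, 0, 0} k G) : ↥(equivHom A B) →ₗ[k] (L.H2 A →ₗ[k] L.H2 B) where
  toFun φ := pushH2 (φ : A →ₗ[k] B) φ.2 L
  map_add' φ ψ := by
    apply LinearMap.ext
    intro x
    exact pushH2_add L φ.2 ψ.2 x
  map_smul' c φ := by
    apply LinearMap.ext
    intro x
    exact pushH2_smul L c φ.2 x

@[simp] lemma pushH2L_apply {A B : Rep.{0, 0, 0} k G} (φ : ↥(equivHom A B)) (x : L.H2 A) :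
    pushH2L L A B φ x = pushH2 (φ : A →ₗ[k] B) φ.2 L x := rfl

lemma pushH2_id {A : Rep.{0, 0, 0} k G} (h : IsEquivariant (LinearMap.id : A →ₗ[k] A))
    (x : L.H2 A) : pushH2 (LinearMap.id : A →ₗ[k] A) h L x = x := by
  obtain ⟨c, rfl⟩ := L.H2π_surjective A x
  rfl

/-- push-forward along a finite sum of equivariant maps -/
lemma pushH2_sum {A B : Rep.{0, 0, 0} k G} {ι : Type} (s : Finset ι) (φ : ι → A →ₗ[k] B)
    (hφ : ∀ i, IsEquivariant (φ i)) (h : IsEquivariant (∑ i ∈ s, φ i)) (x : L.H2 A) :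
    pushH2 (∑ i ∈ s, φ i) h L x = ∑ i ∈ s, pushH2 (φ i) (hφ i) L x := by
  have h1 : (⟨∑ i ∈ s, φ i, h⟩ : ↥(equivHom A B)) = ∑ i ∈ s, ⟨φ i, hφ i⟩ := by
    apply Subtype.ext
    rw [Submodule.coe_sum]
  have h2 : pushH2 (∑ i ∈ s, φ i) h L x =
      pushH2L L A B (⟨∑ i ∈ s, φ i, h⟩ : ↥(equivHom A B)) x := rfl
  rw [h2, h1, map_sum, LinearMap.sum_apply]
  rfl

end Fermat.Agent.S55.PT.H299

end

end
-- ===== PACK-END S55/PT/T2aH299/Push.lean

-- ===== PACK-BEGIN S55/PT/AdaptKH835.lean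
section



/-!
# S55: adapters layer K (helper4) → layer D (helper835)

* `surj2Glob_of_K : p ≠ 2 → pPrime p ∈ S → K.SurjH2Spec p S → PT.Surj2GlobSpec p S`  (input A3)
* `cap_of_K      : p ≠ 2 → pPrime p ∈ S → K.CapSpec p S → PT.CapSpec p S`            (input A8)

The second one translates the cochain form of CAP (coefficients `indG U (muP p)`) into the
class form (coefficients `indRep U (mu p)`, `Ш²`, `pushH2 (indLE …)`), via the (non canonical)
equivariant linear isomorphism `μ = ofChar χ_p ≃ muP p`.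
-/

set_option autoImplicit false

noncomputable section

namespace Fermat.Agent.S55.PT.AdK

open groupCohomology ExtCitation Fermat.Agent.S55.Bridge Fermat.Agent.S55.PT

variable (p : ℕ) [Fact p.Prime] (S : Finset Nat.Primes)

/-- **A3 adapter.** -/
theorem surj2Glob_of_K (hp2 : p ≠ 2) (hpS : pPrime p ∈ S) (h : K.SurjH2Spec p S) :
    Surj2GlobSpec p S := by
  intro P N φ hφ hP hPs hNs hsurj
  have hN : FiniteDimensional (ZMod p) N := Module.Finite.of_surjective φ hsurj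
  exact h hp2 hpS P N hP hN hPs hNs φ hφ hsurj

/-- the linear isomorphism `μ = 𝔽_p(χ_p) ≃ μ_p` (a choice of a primitive root of unity) -/
def muEquiv : (mu p) ≃ₗ[ZMod p] (muP p) := muPLinearEquiv p

lemma muEquiv_equivariant :
    IsEquivariant (A := mu p) (B := muP p) (muEquiv p : mu p →ₗ[ZMod p] muP p) := by
  intro g a
  exact LinearMap.congr_fun ((muPRepEquivOfChar p).isIntertwining' g) a

lemma muEquiv_symm_equivariant :
    IsEquivariant (A := muP p) (B := mu p) ((muEquiv p).symm : muP p →ₗ[ZMod p] mu p) := by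
  intro g a
  apply (muEquiv p).injective
  have h := muEquiv_equivariant p g ((muEquiv p).symm a)
  simp only [LinearEquiv.coe_coe, LinearEquiv.apply_symm_apply] at h ⊢
  exact h.symm

variable {p}

/-- `Ind_U μ → Ind_U μ_p` (on the underlying `Finsupp`s) -/
def indMuE (U : Subgroup _root_.Fermat.Agent.S55.PT.GQ) : ((_root_.Fermat.Agent.S55.PT.GQ ⧸ U) →₀ mu p) →ₗ[ZMod p] ((_root_.Fermat.Agent.S55.PT.GQ ⧸ U) →₀ muP p) :=
  Finsupp.mapRange.linearMap (muEquiv p : mu p →ₗ[ZMod p] muP p)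

/-- `Ind_U μ_p → Ind_U μ` (on the underlying `Finsupp`s) -/
def indMuEInv (U : Subgroup _root_.Fermat.Agent.S55.PT.GQ) : ((_root_.Fermat.Agent.S55.PT.GQ ⧸ U) →₀ muP p) →ₗ[ZMod p] ((_root_.Fermat.Agent.S55.PT.GQ ⧸ U) →₀ mu p) :=
  Finsupp.mapRange.linearMap ((muEquiv p).symm : muP p →ₗ[ZMod p] mu p)

lemma indMuE_single (U : Subgroup _root_.Fermat.Agent.S55.PT.GQ) (x : _root_.Fermat.Agent.S55.PT.GQ ⧸ U) (m : mu p) :
    indMuE U (Finsupp.single x m) = Finsupp.single x (muEquiv p m) := by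
  rw [indMuE, Finsupp.mapRange.linearMap_apply, Finsupp.mapRange_single]
  rfl

lemma indMuEInv_single (U : Subgroup _root_.Fermat.Agent.S55.PT.GQ) (x : _root_.Fermat.Agent.S55.PT.GQ ⧸ U) (m : muP p) :
    indMuEInv U (Finsupp.single x m) = Finsupp.single x ((muEquiv p).symm m) := by
  rw [indMuEInv, Finsupp.mapRange.linearMap_apply, Finsupp.mapRange_single]
  rfl

lemma indMuE_comm (U : Subgroup _root_.Fermat.Agent.S55.PT.GQ) (g : _root_.Fermat.Agent.S55.PT.GQ) :
    (indMuE U) ∘ₗ (indRho U (mu p) g) =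
      (K.indρ (MonoidHom.id _root_.Fermat.Agent.S55.PT.GQ) U (muP p) g) ∘ₗ (indMuE (p := p) U) := by
  apply Finsupp.lhom_ext
  intro x m
  rw [LinearMap.comp_apply, LinearMap.comp_apply, indMuE_single, K.indρ_single]
  have h1 : indRho U (mu p) g (Finsupp.single x m) = Finsupp.single (g • x) ((mu p).ρ g m) :=
    indRep_ρ_single U (mu p) g x m
  rw [h1, indMuE_single]
  congr 1
  exact muEquiv_equivariant p g m

lemma indMuEInv_comm (U : Subgroup _root_.Fermat.Agent.S55.PT.GQ) (g : _root_.Fermat.Agent.S55.PT.GQ) :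
    (indMuEInv U) ∘ₗ (K.indρ (MonoidHom.id _root_.Fermat.Agent.S55.PT.GQ) U (muP p) g) =
      (indRho U (mu p) g) ∘ₗ (indMuEInv (p := p) U) := by
  apply Finsupp.lhom_ext
  intro x m
  rw [LinearMap.comp_apply, LinearMap.comp_apply, indMuEInv_single, K.indρ_single,
    indMuEInv_single]
  have h1 : indRho U (mu p) g (Finsupp.single x ((muEquiv p).symm m)) =
      Finsupp.single (g • x) ((mu p).ρ g ((muEquiv p).symm m)) :=
    indRep_ρ_single U (mu p) g x _
  rw [h1]
  congr 1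
  exact muEquiv_symm_equivariant p g m

lemma indMuE_equivariant (U : Subgroup _root_.Fermat.Agent.S55.PT.GQ) :
    IsEquivariant (A := indRep U (mu p)) (B := K.indG U (muP p)) (indMuE U) :=
  fun g a => LinearMap.congr_fun (indMuE_comm U g) a

lemma indMuEInv_equivariant (U : Subgroup _root_.Fermat.Agent.S55.PT.GQ) :
    IsEquivariant (A := K.indG U (muP p)) (B := indRep U (mu p)) (indMuEInv U) :=
  fun g a => LinearMap.congr_fun (indMuEInv_comm U g) a

/-- `K.indProj` on the underlying `Finsupp`s -/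
lemma indProj_single835 {U V : Subgroup _root_.Fermat.Agent.S55.PT.GQ} (h : U ≤ V) (x : _root_.Fermat.Agent.S55.PT.GQ ⧸ U) (m : muP p) :
    K.indProj (MonoidHom.id _root_.Fermat.Agent.S55.PT.GQ) h (muP p) (Finsupp.single x m : (_root_.Fermat.Agent.S55.PT.GQ ⧸ U) →₀ muP p) =
      (Finsupp.single (Subgroup.quotientMapOfLE h x) m : (_root_.Fermat.Agent.S55.PT.GQ ⧸ V) →₀ muP p) := by
  change Finsupp.lmapDomain _ _ _ (Finsupp.single x m) = _
  rw [Finsupp.lmapDomain_apply, Finsupp.mapDomain_single]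
  rfl

lemma indMuEInv_indProj_indMuE {U V : Subgroup _root_.Fermat.Agent.S55.PT.GQ} (h : U ≤ V) :
    (indMuEInv V) ∘ₗ ((show ((_root_.Fermat.Agent.S55.PT.GQ ⧸ U) →₀ muP p) →ₗ[ZMod p] ((_root_.Fermat.Agent.S55.PT.GQ ⧸ V) →₀ muP p) from
      K.indProj (MonoidHom.id _root_.Fermat.Agent.S55.PT.GQ) h (muP p)) ∘ₗ (indMuE (p := p) U)) = indLE (mu p) h := by
  apply Finsupp.lhom_ext
  intro x m
  rw [LinearMap.comp_apply, LinearMap.comp_apply, indMuE_single, indLE_single]
  have h1 := indProj_single835 h x (muEquiv p m)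
  erw [h1]
  rw [indMuEInv_single, LinearEquiv.symm_apply_apply]

variable (p)

/-- **A8 adapter.** -/
theorem cap_of_K (hp2 : p ≠ 2) (hpS : pPrime p ∈ S) (hK : K.CapSpec p S) : CapSpec p S := by
  intro V hV _ _
  obtain ⟨U, hU, hUV, hUn, hcap⟩ := hK hp2 hpS V hV
  refine ⟨U, hUV, hU, hUn, fun x hx => ?_⟩
  obtain ⟨z, rfl⟩ := (globalLevels S).H2π_surjective _ x
  rw [pushH2_mk, LevelSys.H2π_eq_zero_iff, coe_pushZ2]
  -- the cocycle with coefficients in `Ind_U μ_p`
  have hz' : (indMuE U ∘ (z : _root_.Fermat.Agent.S55.PT.GQ × _root_.Fermat.Agent.S55.PT.GQ → indRep U (mu p))) ∈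
      (globalLevels S).Z2 (K.indG U (muP p)) :=
    push_mem_Z2 (A := indRep U (mu p)) (B := K.indG U (muP p)) (indMuE U)
      (indMuE_equivariant U) (globalLevels S) z.2
  -- local triviality
  have hloc : ∀ q ∈ S, ((indMuE U ∘ (z : _root_.Fermat.Agent.S55.PT.GQ × _root_.Fermat.Agent.S55.PT.GQ → indRep U (mu p))) ∘ Prod.map (rl q) (rl q) :
      Gl q × Gl q → K.indG U (muP p)) ∈
        (localLevels q).B2 (Rep.res (rl q) (K.indG U (muP p))) := by
    intro q hq
    have h1 : resH2 (hrl S ⟨q, hq⟩) (indRep U (mu p)) ((globalLevels S).H2π _ z) = 0 := by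
      have := LinearMap.mem_ker.1 hx
      exact congrFun this ⟨q, hq⟩
    rw [resH2_mk, LevelSys.H2π_eq_zero_iff, coe_resZ2] at h1
    exact push_mem_B2 (A := Rep.res (rl q) (indRep U (mu p)))
      (B := Rep.res (rl q) (K.indG U (muP p))) (indMuE U)
      ((indMuE_equivariant U).res (rl q)) (localLevels q) h1
  have h2 := hcap _ hz' hloc
  have h3 := push_mem_B2 (A := K.indG V (muP p)) (B := indRep V (mu p)) (indMuEInv V)
    (indMuEInv_equivariant V) (globalLevels S) h2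
  convert h3 using 1
  funext y
  exact (LinearMap.congr_fun (indMuEInv_indProj_indMuE hUV) _).symm

end Fermat.Agent.S55.PT.AdK

end

end
-- ===== PACK-END S55/PT/AdaptKH835.lean

-- ===== PACK-BEGIN S55/KL/H510/TopLocIndCore.lean
section


/-!
# S55 / layer KL (helper53), leaf KL-P4 (`TopLocIndOfSpec`): core, independent of the location of
the interface `KL/Spec.lean` (imports only the landed `PT` layer)

`topLocIndOf_core_h510` is the statement of `TopLocIndOfSpec` verbatim.  Adapter (one line):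

  `theorem topLocIndOf : TopLocIndOfSpec := Fermat.Agent.S55.KL.H510.topLocIndOf_core_h510`

A6 (`PT.TopLocIndSpec inv`) from right exactness of `H²` (A4) and the cardinality
`|H²(G_v, Ind_W μ)| = p`, for any family of bijective maps `inv_v`.
-/

set_option autoImplicit false
set_option linter.style.haveILetI false

noncomputable section

namespace Fermat.Agent.S55.KL.H510

open groupCohomology ExtCitation Fermat.Agent.S55.PT

/-- A normal subgroup `W` acting trivially on `M` acts trivially on `Ind_W M`. -/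
theorem indRep_ρ_eq_of_normal_h510 {k : Type} [Field k] {G : Type} [Group G] (W : Subgroup G)
    [W.Normal] (M : Rep.{0, 0, 0} k G) (hW : ∀ s ∈ W, M.ρ s = 1) (s : G) (hs : s ∈ W)
    (a : indRep W M) : (indRep W M).ρ s a = a := by
  have key : (indRep W M).ρ s = LinearMap.id := by
    apply Finsupp.lhom_ext
    intro x m
    have h1 : s • x = x := by
      induction x using QuotientGroup.induction_on with
      | H g =>
        show ((s * g : G) : G ⧸ W) = (g : G ⧸ W)
        rw [eq_comm, QuotientGroup.eq]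
        have : g⁻¹ * (s * g) = g⁻¹ * s * g⁻¹⁻¹ := by simp [mul_assoc]
        rw [this]
        exact ‹W.Normal›.conj_mem s hs g⁻¹
    have h2 : M.ρ s m = m := by rw [hW s hs]; rfl
    rw [LinearMap.id_apply]
    exact (indRep_ρ_single W M s x m).trans (by rw [h1, h2])
  rw [key]; rfl

/-- **KL-P4** (`TopLocIndOfSpec`, verbatim): A6 from right exactness and the cardinality of
`H²(G_v, Ind_W μ)`, for ANY family of bijective maps `inv_v`. -/
theorem topLocIndOf_core_h510 :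
    ∀ (p : ℕ) [Fact p.Prime] (S : Finset Nat.Primes) (inv : InvFamily p S),
      (∀ v : ↥S, Function.Bijective (inv v)) →
      (∀ v : ↥S, (localLevels v.1).FiniteIndex) →
      Surj2LocSpec p S →
      (∀ (v : ↥S) (W : Subgroup (Gl v.1)), W ∈ (localLevels v.1).levels → W.Normal →
        (∀ s ∈ W, (muLoc p v.1).ρ s = 1) →
        Nat.card ((localLevels v.1).H2 (indRep W (muLoc p v.1))) = p) →
      TopLocIndSpec inv := by
  intro p _ S inv hinv hfi hsurj hcard v W hW hWn hWtriv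
  haveI := hWn
  haveI : W.FiniteIndex := hfi v W hW
  haveI : Finite (Gl v.1 ⧸ W) := Subgroup.finite_quotient_of_finiteIndex
  haveI hfdμ : FiniteDimensional (ZMod p) (muLoc p v.1) :=
    inferInstanceAs (FiniteDimensional (ZMod p) (ZMod p))
  have hfd : FiniteDimensional (ZMod p) (indRep W (muLoc p v.1)) :=
    inferInstanceAs (Module.Finite (ZMod p) ((Gl v.1 ⧸ W) →₀ (muLoc p v.1)))
  have hsm : (localLevels v.1).IsUSmooth (indRep W (muLoc p v.1)) :=
    ⟨W, hW, fun s hs a => indRep_ρ_eq_of_normal_h510 W (muLoc p v.1) hWtriv s hs a⟩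
  have hsmμ : (localLevels v.1).IsUSmooth (muLoc p v.1) :=
    ⟨W, hW, fun s hs a => by rw [hWtriv s hs]; rfl⟩
  have h1 : Function.Surjective
      (pushH2 (A := indRep W (muLoc p v.1)) (B := muLoc p v.1) (indAug W (muLoc p v.1))
        (indAug_equivariant W (muLoc p v.1)) (localLevels v.1)) :=
    hsurj v.1 v.2 (indRep W (muLoc p v.1)) (muLoc p v.1) (indAug W (muLoc p v.1))
      (indAug_equivariant W (muLoc p v.1)) hfd hsm hsmμ (indAug_surjective W (muLoc p v.1))
  have hp : p ≠ 0 := (Fact.out : p.Prime).ne_zero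
  have hcμ : Nat.card ((localLevels v.1).H2 (muLoc p v.1)) = p := by
    rw [Nat.card_eq_of_bijective _ (hinv v), Nat.card_zmod]
  have hcI : Nat.card ((localLevels v.1).H2 (indRep W (muLoc p v.1))) = p :=
    hcard v W hW hWn hWtriv
  haveI : Finite ((localLevels v.1).H2 (indRep W (muLoc p v.1))) :=
    Nat.finite_of_card_ne_zero (by rw [hcI]; exact hp)
  have h2 : Function.Bijective
      (pushH2 (A := indRep W (muLoc p v.1)) (B := muLoc p v.1) (indAug W (muLoc p v.1))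
        (indAug_equivariant W (muLoc p v.1)) (localLevels v.1)) :=
    h1.bijective_of_nat_card_le (by rw [hcI, hcμ])
  rw [LinearMap.coe_comp]
  exact (hinv v).comp h2

end Fermat.Agent.S55.KL.H510

end
end
-- ===== PACK-END S55/KL/H510/TopLocIndCore.lean

-- ===== PACK-BEGIN S55/H696/Devissage.lean
section


/-!
# S55 / dévissage for level-constant `H³` (helper696): main theorem

`devissage` : let `G` be a group with a level system `L` (normal levels cofinal, levels of finite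
index), `p` a prime, `μ` a uniformly smooth one-dimensional `𝔽_p`-representation such that
`H³_lc(G, Ind_H μ) = 0` for every open subgroup `H` acting trivially on `μ`.  Then
`H³_lc(G, R) = 0` for every finite-dimensional uniformly smooth `𝔽_p`-representation `R`.

The statement is (up to the names `IsOpenSubgroup`, `H3Van`, which are verbatim copies of
`KL.IsOpenSub`, `KL.H3Vanish`) the leaf **KL-P3** `H3DevissageSpec` of helper53's layer KL.

Proof.  `U` a normal level acting trivially on `R` and `μ`, `H` the preimage of a Sylow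
`p`-subgroup of `G ⧸ U`.
* `R` is a retract (up to the unit `[G : H]`) of `Ind_H R`            (`h3Van_of_filtRep_top`);
* `Ind_H R = filt ⊤` has a `G`-stable flag `filt N`, `N` running through an `H`-stable flag of
  `R` with trivial graded pieces, and `filt N / filt N' ≅ Ind_H μ`     (`h3Van_filtRep`);
* `H³_lc = 0` is stable under extensions                               (`h3Van_of_ses`).
-/

set_option autoImplicit false
set_option linter.style.haveILetI false

noncomputable section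

namespace Fermat.Agent.S55.H696

open groupCohomology Fermat.Agent.S55.PT

variable {G : Type} [Group G] {p : ℕ} [hp : Fact p.Prime]

/-- Induction along the flag. -/
theorem h3Van_filtRep (L : LevelSys G) (hN : L.NormalCofinal) (H U : Subgroup G) [U.Normal]
    (hU : U ∈ L.levels) (hUH : U ≤ H) (hpow : ∀ h ∈ H, ∃ n : ℕ, h ^ p ^ n ∈ U)
    (R μ : Rep.{0, 0, 0} (ZMod p) G) [FiniteDimensional (ZMod p) R]
    (hUR : ∀ s ∈ U, ∀ r : R, R.ρ s r = r)
    (hμ1 : Module.finrank (ZMod p) μ = 1) (hμH : ∀ h ∈ H, μ.ρ h = 1)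
    (hInd : H3Van L (indRep H μ)) :
    ∀ (d : ℕ) (N : Submodule (ZMod p) R), (∀ h ∈ H, N ≤ N.comap (R.ρ h)) →
      Module.finrank (ZMod p) N = d → H3Van L (filtRep H R N) := by
  intro d
  induction d using Nat.strong_induction_on with
  | _ d ih =>
    intro N hNH hd
    by_cases hbot : N = ⊥
    · subst hbot
      exact h3Van_of_subsingleton L
    · -- an invariant linear form
      let ρH : Representation (ZMod p) ↥H R := R.ρ.comp H.subtype
      have hpow' : ∀ h : ↥H, ∃ n : ℕ, ρH (h ^ p ^ n) = 1 := by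
        intro h
        obtain ⟨n, hn⟩ := hpow h h.2
        refine ⟨n, ?_⟩
        apply LinearMap.ext
        intro r
        show R.ρ ((h ^ p ^ n : ↥H) : G) r = r
        rw [Subgroup.coe_pow]
        exact hUR _ hn r
      obtain ⟨ℓ, hℓ, n₀, hn₀, hℓn₀⟩ := exists_invariant_functional ρH hpow' N hbot
        (fun h => hNH h h.2)
      have hℓ' : ∀ h ∈ H, ∀ n ∈ N, ℓ (R.ρ h n) = ℓ n := fun h hh n hn => hℓ ⟨h, hh⟩ n hn
      obtain ⟨m₀, hm₀, -⟩ := finrank_eq_one_iff'.1 hμ1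
      -- the smaller subspace
      have hN'H : ∀ h ∈ H, (N ⊓ LinearMap.ker ℓ) ≤ (N ⊓ LinearMap.ker ℓ).comap (R.ρ h) := by
        intro h hh n hn
        refine ⟨hNH h hh hn.1, ?_⟩
        show ℓ (R.ρ h n) = 0
        rw [hℓ' h hh n hn.1]
        exact hn.2
      have hlt : N ⊓ LinearMap.ker ℓ < N := by
        refine lt_of_le_of_ne inf_le_left fun h => ?_
        have : n₀ ∈ N ⊓ LinearMap.ker ℓ := by rw [h]; exact hn₀
        exact hℓn₀ this.2
      have hfr : Module.finrank (ZMod p) ↥(N ⊓ LinearMap.ker ℓ) < d := by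
        rw [← hd]
        exact Submodule.finrank_lt_finrank_of_lt hlt
      have hA : H3Van L (filtRep H R (N ⊓ LinearMap.ker ℓ)) := ih _ hfr _ hN'H rfl
      have hBs : L.IsUSmooth (filtRep H R N) :=
        ⟨U, hU, fun s hs a => Subtype.ext (indAct_eq_self_of_normal H R U hUH hUR s hs a.1)⟩
      exact h3Van_of_ses (filtSES H R μ ℓ m₀ N hμ1 hμH hNH hℓ' hm₀ ⟨n₀, hn₀, hℓn₀⟩) hN hBs
        hA hInd

/-- `R` is a retract of `Ind_H R` if `[G : H]` is prime to `p`. -/
theorem h3Van_of_filtRep_top (L : LevelSys G) (H : Subgroup G) [H.FiniteIndex]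
    (hidx : ¬ p ∣ H.index) (R : Rep.{0, 0, 0} (ZMod p) G)
    (h : H3Van L (filtRep H R ⊤)) : H3Van L R := by
  classical
  haveI : Fintype (G ⧸ H) := Fintype.ofFinite _
  let diag0 : R →ₗ[ZMod p] ((G ⧸ H) →₀ R) := ∑ x : G ⧸ H, Finsupp.lsingle x
  have hdiag0 : ∀ r : R, diag0 r = ∑ x : G ⧸ H, Finsupp.single x r := by
    intro r
    simp only [diag0, LinearMap.sum_apply, Finsupp.lsingle_apply]
  let diag : R →ₗ[ZMod p] ↥(filt H R (⊤ : Submodule (ZMod p) R)) :=
    diag0.codRestrict _ (fun _ _ => Submodule.mem_top)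
  let aug : ↥(filt H R (⊤ : Submodule (ZMod p) R)) →ₗ[ZMod p] R :=
    (indAug H R) ∘ₗ (filt H R ⊤).subtype
  have hdiag : IsEquivariant (A := R) (B := filtRep H R ⊤) diag := by
    intro g r
    apply Subtype.ext
    show diag0 (R.ρ g r) = indAct H R g (diag0 r)
    rw [hdiag0, hdiag0, map_sum]
    simp only [indAct_single]
    exact (Equiv.sum_comp (MulAction.toPerm g : Equiv.Perm (G ⧸ H))
      (fun x => (Finsupp.single x (R.ρ g r) : (G ⧸ H) →₀ R))).symm
  have haug : IsEquivariant (A := filtRep H R ⊤) (B := R) aug := by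
    intro g f
    exact indAug_equivariant H R g f.1
  have hc : ((H.index : ℕ) : ZMod p) ≠ 0 := by
    rw [Ne, ZMod.natCast_eq_zero_iff]
    exact hidx
  refine h3Van_of_retract hdiag haug hc (fun r => ?_) h
  show indAug H R (diag0 r) = _
  rw [hdiag0, map_sum]
  simp only [indAug_single, Finset.sum_const, Finset.card_univ]
  rw [← Nat.card_eq_fintype_card, ← Subgroup.index_eq_card, Nat.cast_smul_eq_nsmul]

/-- **Dévissage** (leaf KL-P3). -/
theorem devissage (G : Type) [Group G] (L : LevelSys G) (p : ℕ) [Fact p.Prime]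
    (μ : Rep.{0, 0, 0} (ZMod p) G)
    (hNC : L.NormalCofinal) (hFI : L.FiniteIndex) (hμ1 : Module.finrank (ZMod p) μ = 1)
    (hμs : L.IsUSmooth μ)
    (hInd : ∀ H : Subgroup G, IsOpenSubgroup L H → (∀ s ∈ H, μ.ρ s = 1) →
      H3Van L (indRep H μ))
    (R : Rep.{0, 0, 0} (ZMod p) G) (hR : FiniteDimensional (ZMod p) R) (hRs : L.IsUSmooth R) :
    H3Van L R := by
  classical
  obtain ⟨U₁, hU₁, h1⟩ := hμs
  obtain ⟨U₂, hU₂, h2⟩ := hRs
  obtain ⟨U, hU, hUU₁, hUU₂, hUn⟩ := exists_normal_level_le hNC hU₁ hU₂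
  haveI := hUn
  haveI : U.FiniteIndex := hFI U hU
  haveI : Finite (G ⧸ U) := Subgroup.finite_quotient_of_finiteIndex
  let P : Sylow p (G ⧸ U) := Classical.arbitrary _
  let H : Subgroup G := (P : Subgroup (G ⧸ U)).comap (QuotientGroup.mk' U)
  have hUH : U ≤ H := by
    intro s hs
    show QuotientGroup.mk' U s ∈ (P : Subgroup (G ⧸ U))
    have h1 : QuotientGroup.mk' U s = 1 := (QuotientGroup.eq_one_iff s).2 hs
    rw [h1]
    exact Subgroup.one_mem _
  have hpow : ∀ h ∈ H, ∃ n : ℕ, h ^ p ^ n ∈ U := by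
    intro h hh
    obtain ⟨n, hn⟩ := P.isPGroup' ⟨QuotientGroup.mk' U h, hh⟩
    refine ⟨n, ?_⟩
    have h3 := congrArg Subtype.val hn
    simp only [Subgroup.coe_pow, Subgroup.coe_one] at h3
    rw [← map_pow] at h3
    exact (QuotientGroup.eq_one_iff _).1 h3
  have hidx : ¬ p ∣ H.index := by
    have : H.index = (P : Subgroup (G ⧸ U)).index :=
      Subgroup.index_comap_of_surjective _ (QuotientGroup.mk'_surjective U)
    rw [this]
    exact P.not_dvd_index
  haveI : H.FiniteIndex := ⟨fun h0 => hidx (by rw [h0]; exact dvd_zero p)⟩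
  have hμH : ∀ h ∈ H, μ.ρ h = 1 := by
    intro h hh
    obtain ⟨n, hn⟩ := hpow h hh
    refine rho_eq_one_of_finrank_eq_one μ.ρ hμ1 h n ?_
    apply LinearMap.ext
    intro m
    exact h1 _ (hUU₁ hn) m
  have hIndH : H3Van L (indRep H μ) := hInd H ⟨U, hU, hUH⟩ hμH
  haveI := hR
  have htop : H3Van L (filtRep H R ⊤) :=
    h3Van_filtRep L hNC H U hU hUH hpow R μ (fun s hs r => h2 s (hUU₂ hs) r) hμ1 hμH hIndH _ ⊤
      (fun _ _ _ _ => Submodule.mem_top) rfl
  exact h3Van_of_filtRep_top L H hidx R htop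

end Fermat.Agent.S55.H696

end

end
-- ===== PACK-END S55/H696/Devissage.lean

-- ===== PACK-BEGIN S55/H587/LocalLevels.lean
section





/-!
# S55: the local level systems and `μ_p` (leaves KL-A0, KL-A5 of route C′)        (helper587)

Stated with all Spec-definitions UNFOLDED, in terms of the PT-layer vocabulary on main only
(`PT.localLevels`, `PT.muLoc`, `LevelSys.NormalCofinal/FiniteIndex/IsUSmooth`), so that the file
does not depend on the location of the KL interface file.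

* `localLevels_normalCofinal`, `localNormalCofinal : PT.LocalNormalCofinalSpec` (D-F7b);
* `localLevelsSpec` : `∀ q, (localLevels q).NormalCofinal ∧ (localLevels q).FiniteIndex`
  (this is, verbatim, the body of `LocalLevelsSpec`, KL-A0);
* `mu_isUSmooth_pullback`, `muLoc_isUSmooth`, `muLoc_finrank`;
* `localMuSpec` : `∀ p q, finrank (muLoc p q) = 1 ∧ (localLevels q).IsUSmooth (muLoc p q)`
  (verbatim the body of `LocalMuSpec`, KL-A5).
-/

set_option autoImplicit false
set_option linter.style.haveILetI false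

noncomputable section

namespace Fermat.Agent.S55.H587

open groupCohomology ExtCitation Fermat.Agent.S55.PT Fermat.Agent.S55.Bridge

/-! ## KL-A0 -/

/-- Normal levels are cofinal among the levels pulled back along any `r : G → G_ℚ`. -/
theorem pullbackLevels_normalCofinal {G : Type} [Group G] (r : G →* _root_.Fermat.Agent.S55.PT.GQ) :
    (pullbackLevels r).NormalCofinal :=
  pullbackLevels_normal_cofinal724 r

/-- Normal levels are cofinal among the local levels. -/
theorem localLevels_normalCofinal (q : Nat.Primes) : (localLevels q).NormalCofinal :=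
  pullbackLevels_normalCofinal (rl q)

/-- **D-F7b.** -/
theorem localNormalCofinal : LocalNormalCofinalSpec :=
  fun q => localLevels_normalCofinal q

/-- **KL-A0** (body of `LocalLevelsSpec`). -/
theorem localLevelsSpec :
    ∀ q : Nat.Primes, (localLevels q).NormalCofinal ∧ (localLevels q).FiniteIndex :=
  fun q => ⟨localLevels_normalCofinal q, Fermat.Agent.S55.PT.H424.localFiniteIndex q⟩

/-! ## KL-A5 -/

variable (p : ℕ) [Fact p.Prime]

/-- The field `ℚ(μ_p) ⊂ ℚ̄`. -/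
def cycloField : IntermediateField ℚ (AlgebraicClosure ℚ) :=
  IntermediateField.adjoin ℚ
    (Set.range fun t : rootsOfUnity p (AlgebraicClosure ℚ) =>
      (((t : (AlgebraicClosure ℚ)ˣ) : AlgebraicClosure ℚ)))

instance cycloField_finiteDimensional : FiniteDimensional ℚ (cycloField p) := by
  haveI : NeZero p := ⟨(Fact.out : p.Prime).ne_zero⟩
  haveI : Finite (rootsOfUnity p (AlgebraicClosure ℚ)) := inferInstance
  refine IntermediateField.finiteDimensional_adjoin (K := ℚ)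
    (S := Set.range fun t : rootsOfUnity p (AlgebraicClosure ℚ) =>
      (((t : (AlgebraicClosure ℚ)ˣ) : AlgebraicClosure ℚ))) ?_
  intro x _
  haveI : Algebra.IsAlgebraic ℚ (AlgebraicClosure ℚ) := AlgebraicClosure.isAlgebraic ℚ
  exact (Algebra.IsAlgebraic.isAlgebraic (R := ℚ) x).isIntegral

/-- An automorphism fixing `ℚ(μ_p)` has trivial cyclotomic character. -/
theorem cycloChar_eq_one_of_mem_fixingSubgroup (σ : _root_.Fermat.Agent.S55.PT.GQ)
    (hσ : σ ∈ (cycloField p).fixingSubgroup) : cycloChar p σ = 1 := by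
  apply cycloChar_eq_one_of_fixes
  intro t ht
  have hmem : ((t : AlgebraicClosure ℚ)) ∈ cycloField p :=
    IntermediateField.subset_adjoin ℚ _ ⟨⟨t, ht⟩, rfl⟩
  exact hσ ⟨_, hmem⟩

/-- `μ_p`, pulled back along any `r : G → G_ℚ`, is uniformly smooth for the pulled-back levels. -/
theorem mu_isUSmooth_pullback {G : Type} [Group G] (r : G →* _root_.Fermat.Agent.S55.PT.GQ) :
    (pullbackLevels r).IsUSmooth (Rep.res r (mu p)) := by
  refine ⟨_, ⟨cycloField p, inferInstance, rfl⟩, ?_⟩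
  intro s hs a
  have h1 : cycloChar p (r s) = 1 := _root_.Fermat.Agent.S55.H587.cycloChar_eq_one_of_mem_fixingSubgroup p (r s) hs
  show ((cycloChar p (r s) : (ZMod p)ˣ) : ZMod p) • (a : ZMod p) = a
  rw [h1]
  simp

/-- `μ_p` is uniformly smooth for the local levels. -/
theorem muLoc_isUSmooth (q : Nat.Primes) : (localLevels q).IsUSmooth (muLoc p q) :=
  mu_isUSmooth_pullback p (rl q)

/-- `μ_p` is one-dimensional. -/
theorem muLoc_finrank (q : Nat.Primes) : Module.finrank (ZMod p) (muLoc p q) = 1 :=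
  Module.finrank_self (ZMod p)

/-- `μ_p` is one-dimensional (global version). -/
theorem mu_finrank : Module.finrank (ZMod p) (mu p) = 1 :=
  Module.finrank_self (ZMod p)

/-- **KL-A5** (body of `LocalMuSpec`). -/
theorem localMuSpec :
    ∀ (p : ℕ) [Fact p.Prime] (q : Nat.Primes),
      Module.finrank (ZMod p) (muLoc p q) = 1 ∧ (localLevels q).IsUSmooth (muLoc p q) :=
  fun p _ q => ⟨muLoc_finrank p q, muLoc_isUSmooth p q⟩

end Fermat.Agent.S55.H587

end

end
-- ===== PACK-END S55/H587/LocalLevels.lean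

-- ===== PACK-BEGIN S56/H102/RLHilbert.lean
section



/-!
# S56 / W-FLAT-SS, FL-RAM: `FL.RLHilbertStatement` VERBATIM (helper102)

Adapter from `H334.card_ramGroup_zero_eq` (`e = |Γ₀|`), `H334.exists_adjoin_eq_top_of_finite`
(`B = A[x]`) and `H334.differentIdeal_eq_pow_sum_lowIdx` (Hilbert's formula
`𝔇_{B/A} = 𝔪 ^ (∑_{σ ≠ 1} i_Γ(σ))`) to the frozen shape of `FL/RamLemSpec.lean`:
`𝔇_{B/A} = 𝔪 ^ (∑ᶠ n, (|Γ_n| - 1))`  (double counting `∑_{σ ≠ 1} i_Γ(σ) = ∑_n (|Γ_n| - 1)`).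
-/

set_option autoImplicit false
set_option linter.unusedSectionVars false
set_option linter.style.haveILetI false

open IsLocalRing

namespace Fermat.Agent.S56.H102.RLH

open Fermat.Agent.S56.H334 Fermat.Agent.S56.FL

section Count

variable {B : Type*} [CommRing B] [IsDomain B] [IsDiscreteValuationRing B]
variable {Γ : Type*} [Group Γ] [MulSemiringAction Γ B]

/-- Double counting: `∑_{σ ≠ 1} i_Γ(σ) = ∑_n (|Γ_n| - 1)`. -/
theorem sum_lowIdx_eq_finsum [Fintype Γ] [DecidableEq Γ] [FaithfulSMul Γ B] :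
    ∑ σ ∈ Finset.univ.erase (1 : Γ), lowIdx Γ B σ =
      ∑ᶠ n : ℕ, (Nat.card (H334.ramGroup Γ B n) - 1) := by
  classical
  obtain ⟨M, hM⟩ := exists_ramGroup_eq_bot (Γ := Γ) (B := B)
  have hbot : ∀ n, M ≤ n → H334.ramGroup Γ B n = ⊥ := fun n hn =>
    le_bot_iff.1 (hM ▸ H334.ramGroup_antitone hn)
  -- the right-hand side is a finite sum
  have hcard : ∀ n, Nat.card (H334.ramGroup Γ B n) - 1 =
      ((Finset.univ.erase (1 : Γ)).filter fun σ => σ ∈ H334.ramGroup Γ B n).card := by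
    intro n
    have h1 : Nat.card (H334.ramGroup Γ B n) =
        ((Finset.univ : Finset Γ).filter fun σ => σ ∈ H334.ramGroup Γ B n).card := by
      rw [Nat.card_eq_fintype_card]
      exact Fintype.card_of_subtype _ (fun x => by simp)
    have h2 : (Finset.univ.erase (1 : Γ)).filter (fun σ => σ ∈ H334.ramGroup Γ B n) =
        ((Finset.univ : Finset Γ).filter fun σ => σ ∈ H334.ramGroup Γ B n).erase 1 := by
      ext σ
      simp only [Finset.mem_filter, Finset.mem_erase, Finset.mem_univ, true_and, and_true]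
    rw [h1, h2, Finset.card_erase_of_mem]
    simp only [Finset.mem_filter, Finset.mem_univ, true_and]
    exact Subgroup.one_mem (H334.ramGroup Γ B n)
  have hR : ∑ᶠ n : ℕ, (Nat.card (H334.ramGroup Γ B n) - 1) =
      ∑ n ∈ Finset.range M, (Nat.card (H334.ramGroup Γ B n) - 1) := by
    apply finsum_eq_sum_of_support_subset
    intro n hn
    rw [Function.mem_support] at hn
    rw [Finset.coe_range, Set.mem_Iio]
    by_contra hlt
    rw [not_lt] at hlt
    apply hn
    simp [hbot n hlt]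
  -- the left-hand side
  have hL : ∀ σ ∈ Finset.univ.erase (1 : Γ), lowIdx Γ B σ =
      ((Finset.range M).filter fun n => σ ∈ H334.ramGroup Γ B n).card := by
    intro σ hσ
    have hσ1 : σ ≠ 1 := (Finset.mem_erase.1 hσ).1
    have hle : lowIdx Γ B σ ≤ M := by
      by_contra hlt
      rw [not_le] at hlt
      have := (mem_ramGroup_iff_lt_lowIdx hσ1 M).2 hlt
      rw [hM, Subgroup.mem_bot] at this
      exact hσ1 this
    have hfil : (Finset.range M).filter (fun n => σ ∈ H334.ramGroup Γ B n) =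
        Finset.range (lowIdx Γ B σ) := by
      ext n
      simp only [Finset.mem_filter, Finset.mem_range, mem_ramGroup_iff_lt_lowIdx hσ1]
      omega
    rw [hfil, Finset.card_range]
  rw [hR, Finset.sum_congr rfl hL, Finset.sum_congr rfl (fun n _ => hcard n)]
  simp only [Finset.card_filter]
  exact Finset.sum_comm

end Count

section Datum

variable (A B Γ : Type*) [CommRing A] [IsDomain A] [IsDiscreteValuationRing A]
  [CommRing B] [IsDomain B] [IsDiscreteValuationRing B] [Algebra A B] [Module.Finite A B]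
  [FaithfulSMul A B] [Group Γ] [Finite Γ] [MulSemiringAction Γ B] [SMulCommClass Γ A B]
  [Algebra.IsInvariant A B Γ] [FaithfulSMul Γ B] [Finite (ResidueField A)]

attribute [local instance] FractionRing.liftAlgebra in
/-- Hilbert's formula in the setting of `FL.RCDatum`. -/
theorem differentIdeal_eq_pow_sum_lowIdx_of_datum [Fintype Γ] [DecidableEq Γ] :
    differentIdeal A B =
      maximalIdeal B ^ (∑ σ ∈ Finset.univ.erase (1 : Γ), lowIdx Γ B σ) := by
  letI := IsFractionRing.mulSemiringAction Γ B (FractionRing B)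
  haveI : IsGaloisGroup Γ A B := ⟨inferInstance, inferInstance, inferInstance⟩
  haveI : IsGaloisGroup Γ (FractionRing A) (FractionRing B) :=
    IsGaloisGroup.to_isFractionRing Γ A B (FractionRing A) (FractionRing B)
  haveI : IsGalois (FractionRing A) (FractionRing B) :=
    IsGaloisGroup.isGalois Γ (FractionRing A) (FractionRing B)
  haveI : FiniteDimensional (FractionRing A) (FractionRing B) :=
    IsGaloisGroup.finiteDimensional Γ (FractionRing A) (FractionRing B)
  haveI : IsIntegralClosure B A (FractionRing B) :=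
    IsIntegralClosure.of_isIntegrallyClosed B A (FractionRing B)
  obtain ⟨x, hx⟩ := exists_adjoin_eq_top_of_finite A B
  exact differentIdeal_eq_pow_sum_lowIdx A (FractionRing A) (FractionRing B) Γ hx

end Datum

/-- **RL-H**, verbatim. -/
theorem rlHilbert : RLHilbertStatement := by
  classical
  intro d
  haveI : Finite (ResidueField d.A) := by
    apply Nat.finite_of_card_ne_zero
    rw [d.hκ]
    exact d.hp.ne_zero
  haveI : IsGaloisGroup d.Γ d.A d.B := ⟨inferInstance, inferInstance, inferInstance⟩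
  cases nonempty_fintype d.Γ
  refine ⟨?_, ?_⟩
  · have he : Ideal.map (algebraMap d.A d.B) (maximalIdeal d.A) = maximalIdeal d.B ^ d.e := by
      rw [d.hA, Ideal.map_span, Set.image_singleton, map_natCast, d.he]
    exact (card_ramGroup_zero_eq (Γ := d.Γ) he).symm
  · rw [differentIdeal_eq_pow_sum_lowIdx_of_datum d.A d.B d.Γ, sum_lowIdx_eq_finsum]
    rfl

end Fermat.Agent.S56.H102.RLH

end
-- ===== PACK-END S56/H102/RLHilbert.lean

-- ===== PACK-BEGIN S56/H656/LocOrdP.lean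
section






/-!
# Row S56 — leaf LOC-SO, complete (helper656): `locOrdP : H716.LocOrdPStatement`

The frozen layer-2 leaf `LocOrdPStatement` of `S56/H716/SBSpec.lean`: at a place `P | p`, the
classes on `D_P` of the `ad⁰`-cocycles having a strictly ordinary lift with cyclotomic
determinant lie in a space of dimension `≤ h⁰(D_P, ad⁰ρ̄) + 1`.  Uses KUMMER-P
(`H734.kummerP`).  Single file (sections: dual-number coordinates, structure of a strictly
ordinary lift, inertia at `p` acts non-trivially on `μ_p`, linear algebra, cocycle calculus,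
the bound).  Nothing unproved in this file.
-/
/-!
# S56 / LOC-SO (helper656): coordinates on `k[ε] ⊗ V`

Every element of `k[ε] ⊗_k V` is uniquely `1 ⊗ v₀ + ε • (1 ⊗ v₁)`.  We provide the two coordinate
maps `dPi0`, `dPi1`, the inclusion `dIota`, and the formulas for scalar multiplication, base
changed endomorphisms and `liftEnd` in these coordinates.
-/

set_option autoImplicit false

open scoped TensorProduct

noncomputable section

namespace Fermat.Agent.S56.H656

open Fermat.Agent.S56 Fermat.Agent.S56.H716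

section coord

variable {k : Type} [Field k] {V : Type} [AddCommGroup V] [Module k V]

/-- `v ↦ 1 ⊗ v`. -/
def dIota : V →ₗ[k] (DualNumber k ⊗[k] V) := TensorProduct.mk k (DualNumber k) V 1

/-- The constant coordinate of an element of `k[ε] ⊗ V`. -/
def dPi0 : (DualNumber k ⊗[k] V) →ₗ[k] V :=
  TensorProduct.lift ((LinearMap.lsmul k V).comp (TrivSqZeroExt.fstHom k k k).toLinearMap)

/-- The `ε`-coordinate of an element of `k[ε] ⊗ V`. -/
def dPi1 : (DualNumber k ⊗[k] V) →ₗ[k] V :=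
  TensorProduct.lift ((LinearMap.lsmul k V).comp (TrivSqZeroExt.sndHom k k))

@[simp] theorem dIota_apply (v : V) : dIota (k := k) v = (1 : DualNumber k) ⊗ₜ[k] v := rfl

@[simp] theorem dPi0_tmul (a : DualNumber k) (v : V) :
    dPi0 (a ⊗ₜ[k] v) = TrivSqZeroExt.fst a • v := by
  simp [dPi0]

@[simp] theorem dPi1_tmul (a : DualNumber k) (v : V) :
    dPi1 (a ⊗ₜ[k] v) = TrivSqZeroExt.snd a • v := by
  simp [dPi1]

theorem dPi0_dIota (v : V) : dPi0 (dIota (k := k) v) = v := by simp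

theorem dPi1_dIota (v : V) : dPi1 (dIota (k := k) v) = 0 := by simp

theorem dualNumber_eq (a : DualNumber k) :
    a = TrivSqZeroExt.fst a • (1 : DualNumber k) + TrivSqZeroExt.snd a • DualNumber.eps := by
  apply TrivSqZeroExt.ext <;> simp

theorem tmul_eq_coord (a : DualNumber k) (v : V) :
    a ⊗ₜ[k] v = dIota (TrivSqZeroExt.fst a • v) +
      (DualNumber.eps : DualNumber k) • dIota (TrivSqZeroExt.snd a • v) := by
  have h1 : dIota (k := k) (TrivSqZeroExt.fst a • v) =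
      (TrivSqZeroExt.fst a • (1 : DualNumber k)) ⊗ₜ[k] v := by
    rw [dIota_apply, TensorProduct.smul_tmul]
  have h2 : (DualNumber.eps : DualNumber k) • dIota (k := k) (TrivSqZeroExt.snd a • v) =
      (TrivSqZeroExt.snd a • (DualNumber.eps : DualNumber k)) ⊗ₜ[k] v := by
    rw [dIota_apply, TensorProduct.smul_tmul', smul_eq_mul, mul_one, TensorProduct.smul_tmul]
  rw [h1, h2, ← TensorProduct.add_tmul, ← dualNumber_eq a]

/-- Every element is `ι (π₀ w) + ε • ι (π₁ w)`. -/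
theorem eq_coord (w : DualNumber k ⊗[k] V) :
    w = dIota (dPi0 w) + (DualNumber.eps : DualNumber k) • dIota (dPi1 w) := by
  induction w using TensorProduct.induction_on with
  | zero => simp
  | tmul a v => rw [dPi0_tmul, dPi1_tmul]; exact tmul_eq_coord a v
  | add x y hx hy =>
    rw [map_add, map_add, map_add, map_add, smul_add]
    conv_lhs => rw [hx, hy]
    abel

theorem dPi0_smul (x : DualNumber k) (w : DualNumber k ⊗[k] V) :
    dPi0 (x • w) = TrivSqZeroExt.fst x • dPi0 w := by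
  induction w using TensorProduct.induction_on with
  | zero => simp
  | tmul a v =>
    rw [TensorProduct.smul_tmul', dPi0_tmul, dPi0_tmul, smul_eq_mul, TrivSqZeroExt.fst_mul,
      mul_smul]
  | add x' y hx hy => rw [smul_add, map_add, map_add, hx, hy, smul_add]

theorem dPi1_smul (x : DualNumber k) (w : DualNumber k ⊗[k] V) :
    dPi1 (x • w) = TrivSqZeroExt.fst x • dPi1 w + TrivSqZeroExt.snd x • dPi0 w := by
  induction w using TensorProduct.induction_on with
  | zero => simp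
  | tmul a v =>
    rw [TensorProduct.smul_tmul', dPi1_tmul, dPi1_tmul, dPi0_tmul, smul_eq_mul,
      TrivSqZeroExt.snd_mul]
    simp only [smul_eq_mul, MulOpposite.smul_eq_mul_unop, MulOpposite.unop_op, add_smul,
      mul_smul]
  | add x' y hx hy =>
    rw [smul_add, map_add, map_add, map_add, hx, hy, smul_add, smul_add]
    abel

theorem dPi0_baseChange (f : Module.End k V) (w : DualNumber k ⊗[k] V) :
    dPi0 (f.baseChange (DualNumber k) w) = f (dPi0 w) := by
  induction w using TensorProduct.induction_on with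
  | zero => simp
  | tmul a v => rw [LinearMap.baseChange_tmul, dPi0_tmul, dPi0_tmul, map_smul]
  | add x y hx hy => rw [map_add, map_add, map_add, hx, hy, map_add]

theorem dPi1_baseChange (f : Module.End k V) (w : DualNumber k ⊗[k] V) :
    dPi1 (f.baseChange (DualNumber k) w) = f (dPi1 w) := by
  induction w using TensorProduct.induction_on with
  | zero => simp
  | tmul a v => rw [LinearMap.baseChange_tmul, dPi1_tmul, dPi1_tmul, map_smul]
  | add x y hx hy => rw [map_add, map_add, map_add, hx, hy, map_add]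

theorem coord_ext {w w' : DualNumber k ⊗[k] V} (h0 : dPi0 w = dPi0 w') (h1 : dPi1 w = dPi1 w') :
    w = w' := by
  rw [eq_coord w, eq_coord w', h0, h1]

end coord

section lift

variable {k : Type} [Field k] (ρbar : ResidualGaloisRep k)

theorem dPi0_liftEnd (c : GQ → Module.End k ρbar.V) (σ : GQ)
    (w : DualNumber k ⊗[k] ρbar.V) :
    dPi0 (liftEnd ρbar c σ w) = ρbar.ρ σ (dPi0 w) := by
  unfold liftEnd
  rw [LinearMap.add_apply, LinearMap.smul_apply, map_add, dPi0_smul, dPi0_baseChange,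
    DualNumber.fst_eps, zero_smul, add_zero]

theorem dPi1_liftEnd (c : GQ → Module.End k ρbar.V) (σ : GQ)
    (w : DualNumber k ⊗[k] ρbar.V) :
    dPi1 (liftEnd ρbar c σ w) = ρbar.ρ σ (dPi1 w) + c σ (ρbar.ρ σ (dPi0 w)) := by
  unfold liftEnd
  rw [LinearMap.add_apply, LinearMap.smul_apply, map_add, dPi1_smul, dPi1_baseChange,
    dPi0_baseChange, DualNumber.fst_eps, DualNumber.snd_eps, zero_smul, zero_add, one_smul,
    Module.End.mul_apply]

end lift

end Fermat.Agent.S56.H656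

end

/-!
# S56 / LOC-SO (helper656), part 1: the shape of a strict-ordinary tangent cocycle on `D_P`

Let `ρ'` be a lift of `ρ̄` to the dual numbers `k[ε]` with cocycle `c` (`IsLiftOf ρbar c ρ'`),
with cyclotomic determinant and strict-ordinary at `p` (`p` odd).  For a place `P` over `p` the
strict-ordinary line of `ρ'` has a generator with coordinates `(ℓ₀, ℓ₁)`, `ℓ₀ ≠ 0`, and for every
`σ ∈ D_P` there is `z₀ ∈ k` with `z₀² = 1` such that (with `a` a cyclotomic exponent of `σ`)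

* `ρ̄(σ) ℓ₀ = a z₀ ℓ₀` and `ρ̄(σ) ℓ₁ + c(σ) ρ̄(σ) ℓ₀ = a z₀ ℓ₁`   (NO `ε`-part: rigidity),
* `ρ̄(σ) v − z₀ v = s ℓ₀` and `c(σ) ρ̄(σ) v = s ℓ₁ + t ℓ₀` for every `v`,
* `z₀ = 1` if `σ` is in the inertia group.

This is `locSO_struct`.  The rigidity `z² = 1 ⇒ z ∈ {±1} ⊂ k` uses `DetIsCyclotomic` and `p ≠ 2`.
-/

set_option autoImplicit false

open scoped TensorProduct
open IsLocalRing

noncomputable section

namespace Fermat.Agent.S56.H656

open Fermat.Agent.S56 Fermat.Agent.S56.H716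

section dual

variable {k : Type} [Field k]

theorem fst_eq_zero_of_mem_maximalIdeal {x : DualNumber k}
    (hx : x ∈ maximalIdeal (DualNumber k)) : TrivSqZeroExt.fst x = 0 := by
  by_contra h
  have hu : IsUnit x := TrivSqZeroExt.isUnit_iff_isUnit_fst.mpr (isUnit_iff_ne_zero.mpr h)
  exact (mem_maximalIdeal x).mp hx hu

theorem natCast_dual_eq_zero {p : ℕ} (hp : (p : DualNumber k) ∈ maximalIdeal (DualNumber k)) :
    (p : DualNumber k) = 0 := by
  apply TrivSqZeroExt.ext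
  · exact fst_eq_zero_of_mem_maximalIdeal hp
  · simp

theorem natCast_eq_zero_of_mem {p : ℕ}
    (hp : (p : DualNumber k) ∈ maximalIdeal (DualNumber k)) : (p : k) = 0 := by
  have := fst_eq_zero_of_mem_maximalIdeal hp
  rwa [TrivSqZeroExt.fst_natCast] at this

theorem span_pow_one_eq_bot {p : ℕ} (hp : (p : DualNumber k) ∈ maximalIdeal (DualNumber k)) :
    Ideal.span {(((p ^ 1 : ℕ)) : DualNumber k)} = ⊥ := by
  rw [pow_one, natCast_dual_eq_zero hp, Ideal.span_singleton_eq_bot]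

/-- In `k[ε]`, `char k ≠ 2`: `z * z = 1` forces `z` to be a constant `±1`. -/
theorem snd_eq_zero_of_mul_self_eq_one (h2 : (2 : k) ≠ 0) {z : DualNumber k} (hz : z * z = 1) :
    TrivSqZeroExt.fst z * TrivSqZeroExt.fst z = 1 ∧ TrivSqZeroExt.snd z = 0 := by
  have h0 : TrivSqZeroExt.fst z * TrivSqZeroExt.fst z = 1 := by
    have := congrArg TrivSqZeroExt.fst hz
    simpa using this
  refine ⟨h0, ?_⟩
  have h1 := congrArg TrivSqZeroExt.snd hz
  simp only [TrivSqZeroExt.snd_mul, TrivSqZeroExt.snd_one, smul_eq_mul,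
    MulOpposite.smul_eq_mul_unop, MulOpposite.unop_op] at h1
  have hz0 : TrivSqZeroExt.fst z ≠ 0 := by
    intro h
    rw [h, mul_zero] at h0
    exact zero_ne_one h0
  have h3 : (2 : k) * (TrivSqZeroExt.fst z * TrivSqZeroExt.snd z) = 0 := by
    rw [← h1]; ring
  rcases mul_eq_zero.mp h3 with h | h
  · exact absurd h h2
  · rcases mul_eq_zero.mp h with h | h
    · exact absurd h hz0
    · exact h

end dual

section cyc

variable {k : Type} [Field k]

/-- A cyclotomic exponent is nonzero in characteristic `p`. -/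
theorem isCycExp_cast_ne_zero {p : ℕ} (hp : p.Prime) [CharP k p] {σ : GQ} {a : ℕ}
    (ha : IsCycExp p σ a) : (a : k) ≠ 0 := by
  intro h0
  obtain ⟨ζ, hζ⟩ := Fermat.Agent.S56.H966.exists_primitiveRoot_Qb p hp.ne_zero
  have hdvd : p ∣ a := (CharP.cast_eq_zero_iff k p a).mp h0
  have h1 : σ ζ = 1 := by
    rw [ha ζ hζ.pow_eq_one]
    obtain ⟨b, rfl⟩ := hdvd
    rw [pow_mul, hζ.pow_eq_one, one_pow]
  have h2 : ζ = 1 := by
    have : σ ζ = σ 1 := by rw [h1, map_one]
    exact σ.injective this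
  exact hp.one_lt.ne' (hζ.unique (h2 ▸ IsPrimitiveRoot.one) )

end cyc

section struct

variable {k : Type} [Field k] (ρbar : ResidualGaloisRep k)

theorem mem_decomposition_of_mem_inertia {P : ValuationSubring Qb} {σ : GQ}
    (hσ : σ ∈ P.inertiaSubgroupIn ℚ) : σ ∈ P.decompositionSubgroup ℚ := by
  obtain ⟨x, -, rfl⟩ := Subgroup.mem_map.mp hσ
  exact x.2

/-- **LOC-SO, part 1** (see the module docstring). -/
theorem locSO_struct (p : ℕ) (hp : p.Prime) (hp2 : p ≠ 2)
    (c : GQ → Module.End k ρbar.V) (ρ' : GaloisRepAdic (DualNumber k))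
    (hlift : IsLiftOf ρbar c ρ') (hdet : ρ'.DetIsCyclotomic p) (hso : ρ'.IsStrictOrdinaryAt p)
    (P : ValuationSubring Qb) (hP : P.LiesOverPrime p) :
    ∃ ℓ₀ ℓ₁ : ρbar.V, ℓ₀ ≠ 0 ∧
      ∀ σ ∈ P.decompositionSubgroup ℚ, ∃ z₀ : k, z₀ * z₀ = 1 ∧
        (∀ a : ℕ, IsCycExp p σ a →
          ρbar.ρ σ ℓ₀ = ((a : k) * z₀) • ℓ₀ ∧
          ρbar.ρ σ ℓ₁ + c σ (ρbar.ρ σ ℓ₀) = ((a : k) * z₀) • ℓ₁) ∧
        (∀ v : ρbar.V, ∃ s t : k, ρbar.ρ σ v - z₀ • v = s • ℓ₀ ∧
          c σ (ρbar.ρ σ v) = s • ℓ₁ + t • ℓ₀) ∧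
        (σ ∈ P.inertiaSubgroupIn ℚ → z₀ = 1) := by
  classical
  have hpm := hso.1
  have hpk : (p : k) = 0 := natCast_eq_zero_of_mem hpm
  have : CharP k p := (CharP.charP_iff_prime_eq_zero hp).mpr hpk
  have h2k : (2 : k) ≠ 0 := by
    intro h
    have h' : ((2 : ℕ) : k) = 0 := by exact_mod_cast h
    have hdvd : p ∣ 2 := (CharP.cast_eq_zero_iff k p 2).mp h'
    exact hp2 ((Nat.prime_dvd_prime_iff_eq hp Nat.prime_two).mp hdvd)
  have hbot := span_pow_one_eq_bot (k := k) hpm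
  obtain ⟨L, ⟨b, hLb⟩, -, hI, hchar⟩ := hso.2 P hP
  obtain ⟨e, he⟩ := hlift
  have hb0L : b 0 ∈ L := by rw [hLb]; exact Submodule.mem_span_singleton_self _
  refine ⟨dPi0 (e (b 0)), dPi1 (e (b 0)), ?_, ?_⟩
  · -- `ℓ₀ ≠ 0`
    intro h0
    have hε : (DualNumber.eps : DualNumber k) • e (b 0) = 0 := by
      apply coord_ext
      · rw [dPi0_smul, h0, smul_zero, map_zero]
      · rw [dPi1_smul, h0, DualNumber.fst_eps, zero_smul, smul_zero, add_zero, map_zero]
    rw [← map_smul, LinearEquiv.map_eq_zero_iff] at hε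
    have h1 := congrArg (fun f => b.repr f 0) hε
    simp only [map_smul, Module.Basis.repr_self, Finsupp.smul_apply, Finsupp.single_eq_same,
      smul_eq_mul, mul_one, map_zero, Finsupp.zero_apply] at h1
    have h2 := congrArg TrivSqZeroExt.snd h1
    simp at h2
  · intro σ hσ
    obtain ⟨x, z, hx, hz, hcyc⟩ := hchar σ hσ
    obtain ⟨a₀, ha₀⟩ := Fermat.Agent.S56.H966.exists_isCycExp p hp.ne_zero σ
    have hcond : ∀ a : ℕ, IsCycExp p σ a → ∀ μ : Qb, μ ^ p ^ 1 = 1 → σ μ = μ ^ a := by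
      intro a ha μ hμ
      rw [pow_one] at hμ
      exact ha μ hμ
    -- `x = a z` and `det = a`
    have hxz : ∀ a : ℕ, IsCycExp p σ a → x = (a : DualNumber k) * z := by
      intro a ha
      have := hcyc 1 a (hcond a ha)
      rw [hbot, Ideal.mem_bot, sub_eq_zero] at this
      exact this
    have hdeta : ∀ a : ℕ, IsCycExp p σ a → LinearMap.det (ρ'.ρ σ) = (a : DualNumber k) := by
      intro a ha
      have := hdet.2 1 σ a (hcond a ha)
      rw [hbot, Ideal.mem_bot, sub_eq_zero] at this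
      exact this
    -- the matrix of `ρ'(σ)` in the basis `b`
    obtain ⟨t₁, ht₁⟩ : ∃ t₁ : DualNumber k, ρ'.ρ σ (b 1) - z • b 1 = t₁ • b 0 := by
      have := hz (b 1)
      rw [hLb, Submodule.mem_span_singleton] at this
      obtain ⟨t, ht⟩ := this
      exact ⟨t, ht.symm⟩
    have hb1 : ρ'.ρ σ (b 1) = z • b 1 + t₁ • b 0 := by
      rw [← ht₁]; abel
    have hdetxz : LinearMap.det (ρ'.ρ σ) = x * z := by
      rw [← LinearMap.det_toMatrix b, Matrix.det_fin_two]
      simp only [LinearMap.toMatrix_apply, hx (b 0) hb0L, hb1, map_smul, map_add,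
        Module.Basis.repr_self, Finsupp.smul_apply, Finsupp.add_apply, smul_eq_mul]
      simp
    have hzz : z * z = 1 := by
      have h1 : (a₀ : DualNumber k) * (z * z) = (a₀ : DualNumber k) := by
        calc (a₀ : DualNumber k) * (z * z) = ((a₀ : DualNumber k) * z) * z := by ring
          _ = x * z := by rw [← hxz a₀ ha₀]
          _ = LinearMap.det (ρ'.ρ σ) := hdetxz.symm
          _ = (a₀ : DualNumber k) := hdeta a₀ ha₀
      have hunit : IsUnit (a₀ : DualNumber k) := by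
        rw [TrivSqZeroExt.isUnit_iff_isUnit_fst, TrivSqZeroExt.fst_natCast]
        exact isUnit_iff_ne_zero.mpr (isCycExp_cast_ne_zero hp ha₀)
      have h2 : (a₀ : DualNumber k) * (z * z) = (a₀ : DualNumber k) * 1 := by rw [h1, mul_one]
      exact hunit.mul_left_cancel h2
    obtain ⟨hz0, hz1⟩ := snd_eq_zero_of_mul_self_eq_one h2k hzz
    have hxfst : ∀ a : ℕ, IsCycExp p σ a → TrivSqZeroExt.fst x = (a : k) * TrivSqZeroExt.fst z := by
      intro a ha
      rw [hxz a ha, TrivSqZeroExt.fst_mul, TrivSqZeroExt.fst_natCast]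
    have hxsnd : TrivSqZeroExt.snd x = 0 := by
      rw [hxz a₀ ha₀, TrivSqZeroExt.snd_mul, hz1, TrivSqZeroExt.snd_natCast]
      simp
    refine ⟨TrivSqZeroExt.fst z, hz0, ?_, ?_, ?_⟩
    · intro a ha
      have hA : liftEnd ρbar c σ (e (b 0)) = x • e (b 0) := by
        rw [← he, hx (b 0) hb0L, map_smul]
      constructor
      · have := congrArg dPi0 hA
        rw [dPi0_liftEnd, dPi0_smul, hxfst a ha] at this
        exact this
      · have := congrArg dPi1 hA
        rw [dPi1_liftEnd, dPi1_smul, hxfst a ha, hxsnd, zero_smul, add_zero] at this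
        exact this
    · intro v
      have hv := hz (e.symm (dIota v))
      rw [hLb, Submodule.mem_span_singleton] at hv
      obtain ⟨t, ht⟩ := hv
      have hB : liftEnd ρbar c σ (dIota v) - z • dIota v = t • e (b 0) := by
        have := congrArg e ht
        rw [map_smul, map_sub, he, map_smul, LinearEquiv.apply_symm_apply] at this
        exact this.symm
      refine ⟨TrivSqZeroExt.fst t, TrivSqZeroExt.snd t, ?_, ?_⟩
      · have := congrArg dPi0 hB
        rw [map_sub, dPi0_liftEnd, dPi0_smul, dPi0_smul, dPi0_dIota] at this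
        exact this
      · have := congrArg dPi1 hB
        rw [map_sub, dPi1_liftEnd, dPi1_smul, dPi1_smul, dPi0_dIota, dPi1_dIota, hz1,
          map_zero, zero_add, smul_zero, zero_smul, add_zero, sub_zero] at this
        exact this
    · intro hσI
      -- on inertia `(z - 1) • b 1 ∈ L`, hence `z = 1`
      have h1 := hI σ hσI (b 1)
      have h2 := hz (b 1)
      have h3 : (z - 1) • b 1 ∈ L := by
        have : (z - 1) • b 1 = (ρ'.ρ σ (b 1) - b 1) - (ρ'.ρ σ (b 1) - z • b 1) := by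
          rw [sub_smul, one_smul]; abel
        rw [this]
        exact L.sub_mem h1 h2
      rw [hLb, Submodule.mem_span_singleton] at h3
      obtain ⟨t, ht⟩ := h3
      have h4 := congrArg (fun f => b.repr f 1) ht
      simp only [map_smul, Module.Basis.repr_self, Finsupp.smul_apply, smul_eq_mul] at h4
      have h5 : z - 1 = 0 := by
        have e1 : (Finsupp.single (0 : Fin 2) (1 : DualNumber k)) 1 = 0 := by
          rw [Finsupp.single_apply]; simp
        have e2 : (Finsupp.single (1 : Fin 2) (1 : DualNumber k)) 1 = 1 := by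
          rw [Finsupp.single_apply]; simp
        rw [e1, e2, mul_zero, mul_one] at h4
        exact h4.symm
      have h6 : z = 1 := sub_eq_zero.mp h5
      rw [h6, TrivSqZeroExt.fst_one]

end struct

end Fermat.Agent.S56.H656

end

/-!
# S56 / LOC-SO (helper656): inertia at `p` acts non-trivially on `μ_p` (`p` odd)

`exists_inertia_isCycExp_ne_one`: for a place `P` of `ℚ̄` over an odd prime `p` there is `σ` in the
inertia group of `P` with a cyclotomic exponent `a` on `μ_p` such that `a ≠ 1` in characteristic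
`p`.  (Total ramification of `ℚ(ζ_p)` at `p`, landed `S14/H894/TotRam`.)
-/

set_option autoImplicit false

noncomputable section

namespace Fermat.Agent.S56.H656

open Fermat.Agent.S56

/-- For every `g ∈ G_ℚ` there is `σ` in the inertia group of `P` (over `p`) with `σ ζ = g ζ`. -/
theorem exists_inertia_apply_eq {p : ℕ} (hp : p.Prime) (P : ValuationSubring Qb)
    (hP : P.LiesOverPrime p) {ζ : Qb} (hζ : IsPrimitiveRoot ζ p) (g : GQ) :
    ∃ σ ∈ P.inertiaSubgroupIn ℚ, σ ζ = g ζ := by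
  have hconj : ∀ τ : GQ, (∀ x ∈ (⊥ : IntermediateField ℚ Qb), τ x = x) →
      P.valuation (τ (ζ - 1)) = P.valuation (ζ - 1) := by
    intro τ _
    have hτζ : IsPrimitiveRoot (τ ζ) p := hζ.map_of_injective τ.injective
    rw [map_sub, map_one]
    exact Fermat.Agent.S14.H894.valuation_sub_one_eq_of_mem_primitiveRoots P p hp ζ hζ
      ((mem_primitiveRoots hp.pos).2 hτζ)
  have hbot : ∀ x ∈ (⊥ : IntermediateField ℚ Qb), g x = x := by
    intro x hx
    obtain ⟨q, rfl⟩ := IntermediateField.mem_bot.1 hx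
    exact g.commutes q
  obtain ⟨σ, hσ, -, hσγ⟩ := Fermat.Agent.S14.H894.exists_inertia_eq_on_adjoin P p hp hP ⊥
    (ζ - 1) (Fermat.Agent.S14.H894.cycloShift p) (Fermat.Agent.S14.H894.cycloShift_monic p)
    (Fermat.Agent.S14.H894.cycloShift_aeval p hp ζ hζ)
    (Fermat.Agent.S14.H894.cyclo_indep P p hp hP ζ hζ) hconj g hbot
  refine ⟨σ, hσ, ?_⟩
  rw [map_sub, map_sub, map_one, map_one] at hσγ
  exact sub_left_injective hσγ

/-- Some element of `G_ℚ` moves a primitive `p`-th root of unity, `p ≥ 3`. -/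
theorem exists_apply_ne_of_primitiveRoot {p : ℕ} (hp : p.Prime) (hp2 : p ≠ 2) {ζ : Qb}
    (hζ : IsPrimitiveRoot ζ p) : ∃ g : GQ, g ζ ≠ ζ := by
  have hnot : ζ ∉ (⊥ : IntermediateField ℚ Qb) := by
    intro hmem
    obtain ⟨q, hq⟩ := IntermediateField.mem_bot.1 hmem
    have hqp : q ^ p = 1 := by
      have h1 : (algebraMap ℚ Qb q) ^ p = 1 := by rw [hq, hζ.pow_eq_one]
      rw [← map_pow] at h1
      exact (algebraMap ℚ Qb).injective (by rw [h1, map_one])
    have hodd : Odd p := hp.odd_of_ne_two hp2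
    have hq1 : q = 1 := hodd.strictMono_pow.injective (by simpa using hqp)
    have hζ1 : ζ = 1 := by rw [← hq, hq1, map_one]
    exact hp.one_lt.ne' (hζ.unique (hζ1 ▸ IsPrimitiveRoot.one))
  obtain ⟨τ, -, hτ⟩ := Fermat.Agent.S14.H894.exists_fixing_ne_of_not_mem ⊥ ζ hnot
  exact ⟨τ, hτ⟩

/-- Inertia at `p` acts non-trivially on `μ_p` for `p` odd. -/
theorem exists_inertia_isCycExp_ne_one {p : ℕ} (hp : p.Prime) (hp2 : p ≠ 2)
    (k : Type) [Field k] [CharP k p] (P : ValuationSubring Qb) (hP : P.LiesOverPrime p) :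
    ∃ σ ∈ P.inertiaSubgroupIn ℚ, ∃ a : ℕ, IsCycExp p σ a ∧ (a : k) ≠ 1 := by
  obtain ⟨ζ, hζ⟩ := Fermat.Agent.S56.H966.exists_primitiveRoot_Qb p hp.ne_zero
  obtain ⟨g, hg⟩ := exists_apply_ne_of_primitiveRoot hp hp2 hζ
  obtain ⟨σ, hσ, hσζ⟩ := exists_inertia_apply_eq hp P hP hζ g
  obtain ⟨a, ha⟩ := Fermat.Agent.S56.H966.exists_isCycExp p hp.ne_zero σ
  refine ⟨σ, hσ, a, ha, ?_⟩
  intro h1
  apply hg
  rw [← hσζ, ha ζ hζ.pow_eq_one]
  have h2 : ((a : ℕ) : k) = ((1 : ℕ) : k) := by rw [h1, Nat.cast_one]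
  have h3 : a ≡ 1 [MOD p] := (CharP.natCast_eq_natCast k p).mp h2
  have hfin : IsOfFinOrder ζ :=
    isOfFinOrder_iff_pow_eq_one.mpr ⟨p, hp.pos, hζ.pow_eq_one⟩
  have h4 : ζ ^ a = ζ ^ 1 := by
    rw [hfin.pow_eq_pow_iff_modEq, ← hζ.eq_orderOf]
    exact h3
  rw [h4, pow_one]

end Fermat.Agent.S56.H656

end

/-!
# S56 / LOC-SO (helper656): the linear algebra (no Galois theory)

`V` is a plane over a field `k` with a basis `B`; `ℓ₀ = B 0` spans the "ordinary line".
* `nil0 B`  — the nilpotent `n₀ : v ↦ g(v) ℓ₀` (`g = B.coord 1`), a generator of `Hom(V/L, L)`;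
* `proj0 B` — the projector `d : v ↦ f(v) ℓ₀` (`f = B.coord 0`).
-/

set_option autoImplicit false

noncomputable section

namespace Fermat.Agent.S56.H656

variable {k : Type} [Field k] {V : Type} [AddCommGroup V] [Module k V]

/-- `n₀ : v ↦ (B.coord 1 v) • B 0`. -/
def nil0 (B : Module.Basis (Fin 2) k V) : Module.End k V := (B.coord 1).smulRight (B 0)

/-- `d : v ↦ (B.coord 0 v) • B 0`. -/
def proj0 (B : Module.Basis (Fin 2) k V) : Module.End k V := (B.coord 0).smulRight (B 0)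

variable (B : Module.Basis (Fin 2) k V)

@[simp] theorem nil0_apply (u : V) : nil0 B u = B.coord 1 u • B 0 := rfl

@[simp] theorem proj0_apply (u : V) : proj0 B u = B.coord 0 u • B 0 := rfl

theorem coord0_self : B.coord 0 (B 0) = 1 := by simp

theorem coord1_self0 : B.coord 1 (B 0) = 0 := by
  rw [Module.Basis.coord_apply, Module.Basis.repr_self, Finsupp.single_apply]; simp

theorem coord0_self1 : B.coord 0 (B 1) = 0 := by
  rw [Module.Basis.coord_apply, Module.Basis.repr_self, Finsupp.single_apply]; simp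

theorem coord1_self : B.coord 1 (B 1) = 1 := by simp

theorem basis0_ne_zero : B 0 ≠ 0 := B.ne_zero 0

theorem expand (u : V) : u = B.coord 0 u • B 0 + B.coord 1 u • B 1 := by
  have h := B.sum_repr u
  rw [Fin.sum_univ_two] at h
  exact h.symm

theorem smul_basis0_inj {s t : k} (h : s • B 0 = t • B 0) : s = t := by
  have := congrArg (B.coord 0) h
  simpa using this

/-- An endomorphism killing `ℓ₀` with image in `k ℓ₀` is a multiple of `n₀`. -/
theorem eq_smul_nil0 (C : Module.End k V) (h0 : C (B 0) = 0)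
    (h1 : ∀ u, ∃ t : k, C u = t • B 0) : C = B.coord 0 (C (B 1)) • nil0 B := by
  apply LinearMap.ext
  intro u
  obtain ⟨t, ht⟩ := h1 (B 1)
  conv_lhs => rw [expand B u]
  rw [map_add, map_smul, map_smul, h0, smul_zero, zero_add, LinearMap.smul_apply, nil0_apply,
    ht, map_smul, coord0_self, smul_eq_mul, mul_one, smul_smul, smul_smul, mul_comm]

theorem coord0_smul_nil0_basis1 (κ : k) : B.coord 0 ((κ • nil0 B) (B 1)) = κ := by
  rw [LinearMap.smul_apply, nil0_apply, coord1_self, one_smul, map_smul, coord0_self,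
    smul_eq_mul, mul_one]

theorem nil0_ne_zero : nil0 B ≠ 0 := by
  intro h
  have := coord0_smul_nil0_basis1 B 1
  rw [one_smul, h, LinearMap.zero_apply, map_zero] at this
  exact zero_ne_one this

theorem smul_nil0_inj {s t : k} (h : s • nil0 B = t • nil0 B) : s = t := by
  rw [← coord0_smul_nil0_basis1 B s, h, coord0_smul_nil0_basis1]

section conj

variable (R Rinv : Module.End k V) (hR : R * Rinv = 1) (hR' : Rinv * R = 1)
  (x₀ z₀ : k) (hzz : z₀ * z₀ = 1) (h1 : R (B 0) = x₀ • B 0)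
  (h3 : ∀ v, ∃ s : k, R v - z₀ • v = s • B 0)

include hR in
theorem apply_inv_apply' (u : V) : R (Rinv u) = u := by
  have := congrArg (fun F : Module.End k V => F u) hR
  simpa using this

include hR' in
theorem inv_apply_apply' (u : V) : Rinv (R u) = u := by
  have := congrArg (fun F : Module.End k V => F u) hR'
  simpa using this

include hR hzz h3 in
theorem coord1_inv (u : V) : B.coord 1 (Rinv u) = z₀ * B.coord 1 u := by
  obtain ⟨s, hs⟩ := h3 (Rinv u)
  rw [apply_inv_apply' R Rinv hR] at hs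
  have := congrArg (B.coord 1) hs
  rw [map_sub, map_smul, map_smul, coord1_self0, smul_eq_mul, smul_eq_mul, mul_zero,
    sub_eq_zero] at this
  rw [this, ← mul_assoc, hzz, one_mul]

include hR hzz h1 h3 in
/-- `R n₀ R⁻¹ = x₀ z₀ n₀`. -/
theorem conj_nil0 : R * nil0 B * Rinv = (x₀ * z₀) • nil0 B := by
  apply LinearMap.ext
  intro u
  rw [Module.End.mul_apply, Module.End.mul_apply, nil0_apply, map_smul, h1,
    coord1_inv B R Rinv hR z₀ hzz h3, LinearMap.smul_apply, nil0_apply, smul_smul, smul_smul]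
  congr 1
  ring

include hR' h1 in
theorem inv_basis0 (hx₀ : x₀ ≠ 0) : Rinv (B 0) = x₀⁻¹ • B 0 := by
  have h : Rinv (R (B 0)) = B 0 := inv_apply_apply' R Rinv hR' _
  rw [h1, map_smul] at h
  calc Rinv (B 0) = x₀⁻¹ • (x₀ • Rinv (B 0)) := by
        rw [smul_smul, inv_mul_cancel₀ hx₀, one_smul]
    _ = x₀⁻¹ • B 0 := by rw [h]

include hR' h1 in
/-- `R d R⁻¹ − d` kills `ℓ₀`. -/
theorem conj_proj0_basis0 (hx₀ : x₀ ≠ 0) : (R * proj0 B * Rinv - proj0 B) (B 0) = 0 := by
  have e0 : B.coord 0 (x₀⁻¹ • B 0) = x₀⁻¹ := by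
    rw [map_smul, coord0_self, smul_eq_mul, mul_one]
  have e1 : (R * proj0 B * Rinv) (B 0) = B 0 := by
    rw [Module.End.mul_apply, Module.End.mul_apply, inv_basis0 B R Rinv hR' x₀ h1 hx₀,
      proj0_apply, e0, map_smul, h1, smul_smul, inv_mul_cancel₀ hx₀, one_smul]
  have e2 : proj0 B (B 0) = B 0 := by rw [proj0_apply, coord0_self, one_smul]
  rw [LinearMap.sub_apply, e1, e2, sub_self]

include h1 in
/-- `R d R⁻¹ − d` has image in `k ℓ₀`. -/
theorem conj_proj0_mem (u : V) : ∃ t : k, (R * proj0 B * Rinv - proj0 B) u = t • B 0 := by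
  refine ⟨B.coord 0 (Rinv u) * x₀ - B.coord 0 u, ?_⟩
  rw [LinearMap.sub_apply, Module.End.mul_apply, Module.End.mul_apply, proj0_apply, proj0_apply,
    map_smul, h1, smul_smul, sub_smul]

end conj

section cprime

variable (R Rinv C : Module.End k V) (hR : R * Rinv = 1) (hR' : Rinv * R = 1)
  (ℓ₁ : V) (x₀ z₀ : k) (hx₀ : x₀ ≠ 0)
  (h1 : R (B 0) = x₀ • B 0) (h2 : R ℓ₁ + C (R (B 0)) = x₀ • ℓ₁)
  (h3 : ∀ v, ∃ s t : k, R v - z₀ • v = s • B 0 ∧ C (R v) = s • ℓ₁ + t • B 0)

/-- The correcting endomorphism `m : v ↦ f(v) ℓ₁`. -/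
def corr (ℓ₁ : V) : Module.End k V := (B.coord 0).smulRight ℓ₁

@[simp] theorem corr_apply (u : V) : corr B ℓ₁ u = B.coord 0 u • ℓ₁ := rfl

include hR' hx₀ h1 h2 in
theorem cprime_basis0 : (C + (R * corr B ℓ₁ * Rinv - corr B ℓ₁)) (B 0) = 0 := by
  have hRl : R ℓ₁ = x₀ • ℓ₁ - x₀ • C (B 0) := by
    rw [h1, map_smul] at h2
    rw [← h2]; abel
  have e0 : B.coord 0 (x₀⁻¹ • B 0) = x₀⁻¹ := by
    rw [map_smul, coord0_self, smul_eq_mul, mul_one]
  have e1 : (R * corr B ℓ₁ * Rinv) (B 0) = ℓ₁ - C (B 0) := by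
    rw [Module.End.mul_apply, Module.End.mul_apply, inv_basis0 B R Rinv hR' x₀ h1 hx₀,
      corr_apply, e0, map_smul, hRl, smul_sub, smul_smul, smul_smul, inv_mul_cancel₀ hx₀,
      one_smul, one_smul]
  have e2 : corr B ℓ₁ (B 0) = ℓ₁ := by rw [corr_apply, coord0_self, one_smul]
  rw [LinearMap.add_apply, LinearMap.sub_apply, e1, e2]
  abel

include hR h1 h2 h3 in
theorem cprime_mem (u : V) : ∃ t : k, (C + (R * corr B ℓ₁ * Rinv - corr B ℓ₁)) u = t • B 0 := by
  obtain ⟨s, t, hs, ht⟩ := h3 (Rinv u)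
  rw [apply_inv_apply' R Rinv hR] at hs ht
  obtain ⟨s'', t'', hs'', ht''⟩ := h3 (B 0)
  have hs2 : s'' = x₀ - z₀ := by
    rw [h1, ← sub_smul] at hs''
    exact (smul_basis0_inj B hs'').symm
  have hRl : R ℓ₁ = z₀ • ℓ₁ - t'' • B 0 := by
    have : R ℓ₁ = x₀ • ℓ₁ - C (R (B 0)) := by rw [← h2]; abel
    rw [this, ht'', hs2, sub_smul]; abel
  have hf : B.coord 0 u - z₀ * B.coord 0 (Rinv u) = s := by
    have := congrArg (B.coord 0) hs
    rw [map_sub, map_smul, map_smul, coord0_self, smul_eq_mul, smul_eq_mul, mul_one] at this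
    exact this
  refine ⟨t - B.coord 0 (Rinv u) * t'', ?_⟩
  rw [LinearMap.add_apply, LinearMap.sub_apply, Module.End.mul_apply, Module.End.mul_apply,
    corr_apply, corr_apply, map_smul, hRl, ht, ← hf]
  module

end cprime

section traces

variable [Module.Finite k V]

theorem trace_nil0 : LinearMap.trace k V (nil0 B) = 0 := by
  rw [nil0, LinearMap.trace_smulRight, coord1_self0]

theorem trace_proj0 : LinearMap.trace k V (proj0 B) = 1 := by
  rw [proj0, LinearMap.trace_smulRight, coord0_self]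

omit [Module.Finite k V] in
theorem finrank_eq_two_of_basis (B' : Module.Basis (Fin 2) k V) : Module.finrank k V = 2 := by
  rw [Module.finrank_eq_card_basis B', Fintype.card_fin]

omit [Module.Finite k V] in
theorem trace_conj_sub (R Rinv m : Module.End k V) (hR' : Rinv * R = 1) :
    LinearMap.trace k V (R * m * Rinv - m) = 0 := by
  rw [map_sub, LinearMap.trace_mul_comm, ← mul_assoc, hR', one_mul, sub_self]

end traces

end Fermat.Agent.S56.H656

end

/-!
# S56 / LOC-SO (helper656): cocycle calculus on `D_P` relative to the ordinary line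

* `IsSOLine`, `IsSOData`: the data produced by `locSO_struct`; uniqueness of the line
  (`IsSOLine.unique`, uses that inertia at `p` acts non-trivially on `μ_p`).
* `isAdCocycle_cob`, `IsAdCocycle.add`: coboundaries and sums are cocycles of finite level.
* `kappa_props`: an `ad⁰`-cocycle with values in `Hom(V/L, L)` on `D_P` is `κ • n₀` with `κ` an
  `ω`-twisted `k`-valued cocycle on `D_P` of (global) finite level.
-/

set_option autoImplicit false

open IsLocalRing

noncomputable section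

namespace Fermat.Agent.S56.H656

open Fermat.Agent.S56 Fermat.Agent.S56.H716

section line

variable {k : Type} [Field k] (ρbar : ResidualGaloisRep k) (p : ℕ) (P : ValuationSubring Qb)

/-- The `c`-independent part of the strict-ordinary data: `ℓ₀` spans a `D_P`-stable line on
which `σ` acts by `ω(σ) z₀(σ)`, `z₀(σ) = ±1` is the action on the quotient, inertia acts trivially
on the quotient. -/
def IsSOLine (ℓ₀ : ρbar.V) : Prop :=
  ℓ₀ ≠ 0 ∧ ∀ σ ∈ P.decompositionSubgroup ℚ, ∃ z₀ : k, z₀ * z₀ = 1 ∧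
    (∀ a : ℕ, IsCycExp p σ a → ρbar.ρ σ ℓ₀ = ((a : k) * z₀) • ℓ₀) ∧
    (∀ v : ρbar.V, ∃ s : k, ρbar.ρ σ v - z₀ • v = s • ℓ₀) ∧
    (σ ∈ P.inertiaSubgroupIn ℚ → z₀ = 1)

/-- The full strict-ordinary data of a tangent cocycle `c` (output of `locSO_struct`). -/
def IsSOData (c : GQ → Module.End k ρbar.V) (ℓ₀ ℓ₁ : ρbar.V) : Prop :=
  ℓ₀ ≠ 0 ∧ ∀ σ ∈ P.decompositionSubgroup ℚ, ∃ z₀ : k, z₀ * z₀ = 1 ∧
    (∀ a : ℕ, IsCycExp p σ a →
      ρbar.ρ σ ℓ₀ = ((a : k) * z₀) • ℓ₀ ∧
      ρbar.ρ σ ℓ₁ + c σ (ρbar.ρ σ ℓ₀) = ((a : k) * z₀) • ℓ₁) ∧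
    (∀ v : ρbar.V, ∃ s t : k, ρbar.ρ σ v - z₀ • v = s • ℓ₀ ∧
      c σ (ρbar.ρ σ v) = s • ℓ₁ + t • ℓ₀) ∧
    (σ ∈ P.inertiaSubgroupIn ℚ → z₀ = 1)

variable {ρbar p P}

theorem IsSOData.isSOLine {c : GQ → Module.End k ρbar.V} {ℓ₀ ℓ₁ : ρbar.V}
    (h : IsSOData ρbar p P c ℓ₀ ℓ₁) : IsSOLine ρbar p P ℓ₀ := by
  refine ⟨h.1, fun σ hσ => ?_⟩
  obtain ⟨z₀, hzz, ha, hv, hI⟩ := h.2 σ hσ
  refine ⟨z₀, hzz, fun a hcyc => (ha a hcyc).1, fun v => ?_, hI⟩
  obtain ⟨s, t, hs, -⟩ := hv v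
  exact ⟨s, hs⟩

theorem IsSOData.smul {c : GQ → Module.End k ρbar.V} {ℓ₀ ℓ₁ : ρbar.V}
    (h : IsSOData ρbar p P c ℓ₀ ℓ₁) {r : k} (hr : r ≠ 0) :
    IsSOData ρbar p P c (r • ℓ₀) (r • ℓ₁) := by
  refine ⟨smul_ne_zero hr h.1, fun σ hσ => ?_⟩
  obtain ⟨z₀, hzz, ha, hv, hI⟩ := h.2 σ hσ
  refine ⟨z₀, hzz, fun a hcyc => ?_, fun v => ?_, hI⟩
  · obtain ⟨h1, h2⟩ := ha a hcyc
    constructor
    · rw [map_smul, h1, smul_comm]
    · rw [map_smul, map_smul, map_smul, ← smul_add, h2, smul_comm]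
  · obtain ⟨s, t, hs, ht⟩ := hv v
    refine ⟨s * r⁻¹, t * r⁻¹, ?_, ?_⟩
    · rw [hs, smul_smul, mul_assoc, inv_mul_cancel₀ hr, mul_one]
    · rw [ht, smul_smul, smul_smul, mul_assoc, mul_assoc, inv_mul_cancel₀ hr, mul_one, mul_one]

/-- The ordinary line is unique (`p` odd). -/
theorem IsSOLine.unique [CharP k p] (hp : p.Prime) (hp2 : p ≠ 2) (hP : P.LiesOverPrime p)
    {ℓ₀ ℓ₀' : ρbar.V} (h : IsSOLine ρbar p P ℓ₀) (h' : IsSOLine ρbar p P ℓ₀') :
    ∃ r : k, r ≠ 0 ∧ ℓ₀' = r • ℓ₀ := by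
  obtain ⟨σ, hσI, a, ha, ha1⟩ := exists_inertia_isCycExp_ne_one hp hp2 k P hP
  have hσD := mem_decomposition_of_mem_inertia hσI
  obtain ⟨z₀, -, -, hv, hI⟩ := h.2 σ hσD
  obtain ⟨z₀', -, hcyc', -, hI'⟩ := h'.2 σ hσD
  have hz : z₀ = 1 := hI hσI
  have hz' : z₀' = 1 := hI' hσI
  obtain ⟨s, hs⟩ := hv ℓ₀'
  rw [hcyc' a ha, hz, hz', mul_one, one_smul] at hs
  have ha1' : (a : k) - 1 ≠ 0 := sub_ne_zero.mpr ha1
  have hs' : ((a : k) - 1) • ℓ₀' = s • ℓ₀ := by rw [sub_smul, one_smul]; exact hs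
  have hℓ : ℓ₀' = (((a : k) - 1)⁻¹ * s) • ℓ₀ := by
    rw [mul_smul, ← hs', smul_smul, inv_mul_cancel₀ ha1', one_smul]
  refine ⟨((a : k) - 1)⁻¹ * s, ?_, hℓ⟩
  intro h0
  rw [h0, zero_smul] at hℓ
  exact h'.1 hℓ

end line

section cocycles

variable {k : Type} [Field k] (ρbar : ResidualGaloisRep k)

theorem rho_mul_inv' (σ : GQ) : ρbar.ρ σ * ρbar.ρ σ⁻¹ = 1 := by
  rw [← map_mul, mul_inv_cancel, map_one]

theorem rho_inv_mul' (σ : GQ) : ρbar.ρ σ⁻¹ * ρbar.ρ σ = 1 := by
  rw [← map_mul, inv_mul_cancel, map_one]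

/-- Coboundaries are cocycles of finite level. -/
theorem isAdCocycle_cob (m : Module.End k ρbar.V) :
    IsAdCocycle ρbar (fun σ => ρbar.ρ σ * m * ρbar.ρ σ⁻¹ - m) where
  trace_eq_zero σ := trace_conj_sub _ _ m (rho_inv_mul' ρbar σ)
  map_mul σ τ := by
    simp only [map_mul, mul_inv_rev, mul_sub, sub_mul, mul_assoc]
    abel
  level := by
    obtain ⟨L, hL, h1⟩ := ρbar.factorsThroughFiniteLevel
    refine ⟨L, hL, fun σ τ hτ => ?_⟩
    have hτ1 : ρbar.ρ τ = 1 := h1 τ hτ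
    have hτi : ρbar.ρ τ⁻¹ = 1 := by
      apply h1
      intro x hx
      have := hτ x hx
      calc τ⁻¹ x = τ⁻¹ (τ x) := by rw [this]
        _ = x := by
          show (τ⁻¹ * τ) x = x
          rw [inv_mul_cancel]; rfl
    show ρbar.ρ (σ * τ) * m * ρbar.ρ (σ * τ)⁻¹ - m = ρbar.ρ σ * m * ρbar.ρ σ⁻¹ - m
    rw [mul_inv_rev, map_mul, map_mul, hτ1, hτi, mul_one, one_mul]

variable {ρbar}

theorem IsAdCocycle.add' {c₁ c₂ : GQ → Module.End k ρbar.V} (h₁ : IsAdCocycle ρbar c₁)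
    (h₂ : IsAdCocycle ρbar c₂) : IsAdCocycle ρbar (fun σ => c₁ σ + c₂ σ) where
  trace_eq_zero σ := by rw [map_add, h₁.trace_eq_zero, h₂.trace_eq_zero, add_zero]
  map_mul σ τ := by
    rw [h₁.map_mul, h₂.map_mul, mul_add, add_mul]
    abel
  level := by
    obtain ⟨L₁, hL₁, h1⟩ := h₁.level
    obtain ⟨L₂, hL₂, h2⟩ := h₂.level
    have := hL₁
    have := hL₂
    refine ⟨L₁ ⊔ L₂, IntermediateField.finiteDimensional_sup L₁ L₂, fun σ τ hτ => ?_⟩
    rw [h1 σ τ fun x hx => hτ x ((le_sup_left : L₁ ≤ L₁ ⊔ L₂) hx),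
      h2 σ τ fun x hx => hτ x ((le_sup_right : L₂ ≤ L₁ ⊔ L₂) hx)]

end cocycles

section kappa

variable {k : Type} [Field k] {ρbar : ResidualGaloisRep k} {p : ℕ} {P : ValuationSubring Qb}
  (B : Module.Basis (Fin 2) k ρbar.V)

/-- On `D_P`, conjugation by `ρ̄(σ)` multiplies `n₀` by the cyclotomic character. -/
theorem conj_nil0_of_line (hline : IsSOLine ρbar p P (B 0)) {σ : GQ}
    (hσ : σ ∈ P.decompositionSubgroup ℚ) {a : ℕ} (ha : IsCycExp p σ a) :
    ρbar.ρ σ * nil0 B * ρbar.ρ σ⁻¹ = (a : k) • nil0 B := by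
  obtain ⟨z₀, hzz, hcyc, hv, -⟩ := hline.2 σ hσ
  rw [conj_nil0 B (ρbar.ρ σ) (ρbar.ρ σ⁻¹) (rho_mul_inv' ρbar σ) ((a : k) * z₀) z₀ hzz
    (hcyc a ha) hv, mul_assoc, hzz, mul_one]

/-- An `ad⁰`-cocycle with values in `Hom(V/L, L)` on `D_P` is `κ • n₀`, `κ` an `ω`-twisted cocycle
on `D_P` of global finite level. -/
theorem kappa_props (hline : IsSOLine ρbar p P (B 0)) {c' : GQ → Module.End k ρbar.V}
    (hc' : IsAdCocycle ρbar c')
    (hval : ∀ σ ∈ P.decompositionSubgroup ℚ, c' σ (B 0) = 0 ∧ ∀ u, ∃ t : k, c' σ u = t • B 0) :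
    (∀ σ ∈ P.decompositionSubgroup ℚ, c' σ = B.coord 0 (c' σ (B 1)) • nil0 B) ∧
    (∀ σ ∈ P.decompositionSubgroup ℚ, ∀ τ ∈ P.decompositionSubgroup ℚ, ∀ a : ℕ,
      IsCycExp p σ a →
        B.coord 0 (c' (σ * τ) (B 1)) = B.coord 0 (c' σ (B 1)) + (a : k) * B.coord 0 (c' τ (B 1))) ∧
    (∃ L : IntermediateField ℚ Qb, FiniteDimensional ℚ L ∧
      ∀ σ τ : GQ, (∀ x ∈ L, τ x = x) →
        B.coord 0 (c' (σ * τ) (B 1)) = B.coord 0 (c' σ (B 1))) := by
  have h1 : ∀ σ ∈ P.decompositionSubgroup ℚ, c' σ = B.coord 0 (c' σ (B 1)) • nil0 B :=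
    fun σ hσ => eq_smul_nil0 B (c' σ) (hval σ hσ).1 (hval σ hσ).2
  refine ⟨h1, ?_, ?_⟩
  · intro σ hσ τ hτ a ha
    have e1 : c' (σ * τ) = c' σ + ρbar.ρ σ * c' τ * ρbar.ρ σ⁻¹ := hc'.map_mul σ τ
    have e2 : ρbar.ρ σ * c' τ * ρbar.ρ σ⁻¹ =
        (B.coord 0 (c' τ (B 1)) * (a : k)) • nil0 B := by
      conv_lhs => rw [h1 τ hτ]
      rw [mul_smul_comm, smul_mul_assoc, conj_nil0_of_line B hline hσ ha, smul_smul]
    have e3 : c' (σ * τ) =
        (B.coord 0 (c' σ (B 1)) + (a : k) * B.coord 0 (c' τ (B 1))) • nil0 B := by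
      rw [e1, e2, add_smul, mul_comm]
      congr 1
      exact h1 σ hσ
    rw [e3, coord0_smul_nil0_basis1]
  · obtain ⟨L, hL, h⟩ := hc'.level
    exact ⟨L, hL, fun σ τ hτ => by rw [h σ τ hτ]⟩

end kappa

end Fermat.Agent.S56.H656

end

/-!
# S56 / LOC-SO (helper656): the local tangent bound at `p`, strict-ordinary condition

`locSO_of_kummerP : KummerPStatement → LocSOStatement`.

Every strict-ordinary tangent cocycle is, on `D_P`, cohomologous to `κ • n₀` with `κ` an
`ω`-twisted cocycle (`LocSOStruct`, `LocSOCoc`); by KUMMER-P these span a space of dimension `≤ 2`.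
If `H⁰(D_P, ad⁰ρ̄) = 0` the coboundary of the projector onto the ordinary line is a nonzero class
of this type which dies in `ad⁰`, so the span has dimension `≤ 1`.
-/

set_option autoImplicit false

open IsLocalRing

noncomputable section

namespace Fermat.Agent.S56.H656

open Fermat.Agent.S56 Fermat.Agent.S56.H716

section aux

variable {k : Type} [Field k] {W : Type} [AddCommGroup W] [Module k W]

theorem finrank_span_pair_le (t₁ t₂ : W) :
    Module.finrank k (Submodule.span k ({t₁, t₂} : Set W)) ≤ 2 := by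
  classical
  have h := finrank_span_finset_le_card (R := k) ({t₁, t₂} : Finset W)
  have h2 : ({t₁, t₂} : Finset W).card ≤ 2 := Finset.card_le_two
  have : ((({t₁, t₂} : Finset W) : Set W)) = ({t₁, t₂} : Set W) := by simp
  rw [this] at h
  exact h.trans h2

theorem finrank_span_single_le (t₁ : W) :
    Module.finrank k (Submodule.span k ({t₁} : Set W)) ≤ 1 := by
  classical
  have h := finrank_span_finset_le_card (R := k) ({t₁} : Finset W)
  have h2 : ({t₁} : Finset W).card ≤ 1 := by simp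
  have : ((({t₁} : Finset W) : Set W)) = ({t₁} : Set W) := by simp
  rw [this] at h
  exact h.trans h2

end aux

section main

variable {k : Type} [Field k] {ρbar : ResidualGaloisRep k} {p : ℕ} {P : ValuationSubring Qb}
  (B : Module.Basis (Fin 2) k ρbar.V)

/-- The coboundary of `m' • n₀` on `D_P`. -/
theorem cob_smul_nil0 (hline : IsSOLine ρbar p P (B 0)) {σ : GQ}
    (hσ : σ ∈ P.decompositionSubgroup ℚ) {a : ℕ} (ha : IsCycExp p σ a) (m' : k) :
    ρbar.ρ σ * (m' • nil0 B) * ρbar.ρ σ⁻¹ - m' • nil0 B = (((a : k) - 1) * m') • nil0 B := by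
  rw [mul_smul_comm, smul_mul_assoc, conj_nil0_of_line B hline hσ ha, smul_smul, ← sub_smul]
  congr 1
  ring

/-- Values of the corrected cocycle `c + ∂(corr)` on `D_P`. -/
theorem corrected_values [CharP k p] (hp : p.Prime) {c : GQ → Module.End k ρbar.V} {ℓ₁ : ρbar.V}
    (hdata : IsSOData ρbar p P c (B 0) ℓ₁) {σ : GQ} (hσ : σ ∈ P.decompositionSubgroup ℚ) :
    (c σ + (ρbar.ρ σ * corr B ℓ₁ * ρbar.ρ σ⁻¹ - corr B ℓ₁)) (B 0) = 0 ∧
      ∀ u, ∃ t : k, (c σ + (ρbar.ρ σ * corr B ℓ₁ * ρbar.ρ σ⁻¹ - corr B ℓ₁)) u = t • B 0 := by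
  obtain ⟨z₀, hzz, hcyc, hv, -⟩ := hdata.2 σ hσ
  obtain ⟨a, ha⟩ := Fermat.Agent.S56.H966.exists_isCycExp p hp.ne_zero σ
  have ha0 : (a : k) ≠ 0 := isCycExp_cast_ne_zero hp ha
  have hz0 : z₀ ≠ 0 := by
    intro h
    rw [h, mul_zero] at hzz
    exact zero_ne_one hzz
  have hx0 : (a : k) * z₀ ≠ 0 := mul_ne_zero ha0 hz0
  exact ⟨cprime_basis0 B (ρbar.ρ σ) (ρbar.ρ σ⁻¹) (c σ) (rho_inv_mul' ρbar σ) ℓ₁ _ hx0
      (hcyc a ha).1 (hcyc a ha).2,
    cprime_mem B (ρbar.ρ σ) (ρbar.ρ σ⁻¹) (c σ) (rho_mul_inv' ρbar σ) ℓ₁ _ z₀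
      (hcyc a ha).1 (hcyc a ha).2 hv⟩

/-- Values of the coboundary of the projector on `D_P`. -/
theorem proj_values [CharP k p] (hp : p.Prime) (hline : IsSOLine ρbar p P (B 0)) {σ : GQ}
    (hσ : σ ∈ P.decompositionSubgroup ℚ) :
    (ρbar.ρ σ * proj0 B * ρbar.ρ σ⁻¹ - proj0 B) (B 0) = 0 ∧
      ∀ u, ∃ t : k, (ρbar.ρ σ * proj0 B * ρbar.ρ σ⁻¹ - proj0 B) u = t • B 0 := by
  obtain ⟨z₀, hzz, hcyc, -, -⟩ := hline.2 σ hσ
  obtain ⟨a, ha⟩ := Fermat.Agent.S56.H966.exists_isCycExp p hp.ne_zero σ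
  have ha0 : (a : k) ≠ 0 := isCycExp_cast_ne_zero hp ha
  have hz0 : z₀ ≠ 0 := by
    intro h
    rw [h, mul_zero] at hzz
    exact zero_ne_one hzz
  have hx0 : (a : k) * z₀ ≠ 0 := mul_ne_zero ha0 hz0
  exact ⟨conj_proj0_basis0 B (ρbar.ρ σ) (ρbar.ρ σ⁻¹) (rho_inv_mul' ρbar σ) _ (hcyc a ha) hx0,
    conj_proj0_mem B (ρbar.ρ σ) (ρbar.ρ σ⁻¹) _ (hcyc a ha)⟩

/-- **Key step**: with KUMMER-P functions `κ₁ κ₂`, every cocycle with strict-ordinary data
relative to the line `B 0` is on `D_P` cohomologous to `(x κ₁ + y κ₂) • n₀`. -/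
theorem key_of_data [CharP k p] (hp : p.Prime) {κ₁ κ₂ : GQ → k}
    (hκ : ∀ κ : GQ → k,
      (∀ σ ∈ P.decompositionSubgroup ℚ, ∀ τ ∈ P.decompositionSubgroup ℚ, ∀ a : ℕ,
        IsCycExp p σ a → κ (σ * τ) = κ σ + (a : k) * κ τ) →
      (∃ L : IntermediateField ℚ Qb, FiniteDimensional ℚ L ∧
        ∀ σ τ : GQ, (∀ x ∈ L, τ x = x) → κ (σ * τ) = κ σ) →
      ∃ x y m : k, ∀ σ ∈ P.decompositionSubgroup ℚ, ∀ a : ℕ, IsCycExp p σ a →
        κ σ = x * κ₁ σ + y * κ₂ σ + ((a : k) - 1) * m)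
    {c : GQ → Module.End k ρbar.V} (hc : IsAdCocycle ρbar c) {ℓ₁ : ρbar.V}
    (hdata : IsSOData ρbar p P c (B 0) ℓ₁) :
    ∃ (x y : k) (M : Module.End k ρbar.V), ∀ σ ∈ P.decompositionSubgroup ℚ,
      c σ - (x * κ₁ σ + y * κ₂ σ) • nil0 B = ρbar.ρ σ * M * ρbar.ρ σ⁻¹ - M := by
  have hline := hdata.isSOLine
  have hc' : IsAdCocycle ρbar
      (fun σ => c σ + (ρbar.ρ σ * corr B ℓ₁ * ρbar.ρ σ⁻¹ - corr B ℓ₁)) :=
    IsAdCocycle.add' hc (isAdCocycle_cob ρbar (corr B ℓ₁))
  obtain ⟨h1, h2, h3⟩ := kappa_props B hline hc' (fun σ hσ => corrected_values B hp hdata hσ)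
  obtain ⟨x, y, m', hxy⟩ := hκ
    (fun σ => B.coord 0 ((c σ + (ρbar.ρ σ * corr B ℓ₁ * ρbar.ρ σ⁻¹ - corr B ℓ₁)) (B 1))) h2 h3
  refine ⟨x, y, m' • nil0 B - corr B ℓ₁, fun σ hσ => ?_⟩
  obtain ⟨a, ha⟩ := Fermat.Agent.S56.H966.exists_isCycExp p hp.ne_zero σ
  have e1 := h1 σ hσ
  have e2 := hxy σ hσ a ha
  beta_reduce at e1 e2
  rw [e2] at e1
  have e3 := cob_smul_nil0 B hline hσ ha m'
  have e4 : ρbar.ρ σ * (m' • nil0 B - corr B ℓ₁) * ρbar.ρ σ⁻¹ - (m' • nil0 B - corr B ℓ₁) =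
      (ρbar.ρ σ * (m' • nil0 B) * ρbar.ρ σ⁻¹ - m' • nil0 B) -
        (ρbar.ρ σ * corr B ℓ₁ * ρbar.ρ σ⁻¹ - corr B ℓ₁) := by
    rw [mul_sub, sub_mul]; abel
  rw [e4, e3]
  have e5 : c σ = (x * κ₁ σ + y * κ₂ σ + ((a : k) - 1) * m') • nil0 B -
      (ρbar.ρ σ * corr B ℓ₁ * ρbar.ρ σ⁻¹ - corr B ℓ₁) := by
    rw [← e1]; abel
  rw [e5, add_smul]
  abel

/-- The cocycle of the projector, in KUMMER-P coordinates. -/
theorem key_of_proj [CharP k p] (hp : p.Prime) {κ₁ κ₂ : GQ → k}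
    (hκ : ∀ κ : GQ → k,
      (∀ σ ∈ P.decompositionSubgroup ℚ, ∀ τ ∈ P.decompositionSubgroup ℚ, ∀ a : ℕ,
        IsCycExp p σ a → κ (σ * τ) = κ σ + (a : k) * κ τ) →
      (∃ L : IntermediateField ℚ Qb, FiniteDimensional ℚ L ∧
        ∀ σ τ : GQ, (∀ x ∈ L, τ x = x) → κ (σ * τ) = κ σ) →
      ∃ x y m : k, ∀ σ ∈ P.decompositionSubgroup ℚ, ∀ a : ℕ, IsCycExp p σ a →
        κ σ = x * κ₁ σ + y * κ₂ σ + ((a : k) - 1) * m)
    (hline : IsSOLine ρbar p P (B 0)) :
    ∃ (x y m : k), ∀ σ ∈ P.decompositionSubgroup ℚ,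
      (x * κ₁ σ + y * κ₂ σ) • nil0 B =
        ρbar.ρ σ * (proj0 B - m • nil0 B) * ρbar.ρ σ⁻¹ - (proj0 B - m • nil0 B) := by
  have hc' : IsAdCocycle ρbar (fun σ => ρbar.ρ σ * proj0 B * ρbar.ρ σ⁻¹ - proj0 B) :=
    isAdCocycle_cob ρbar (proj0 B)
  obtain ⟨h1, h2, h3⟩ := kappa_props B hline hc' (fun σ hσ => proj_values B hp hline hσ)
  obtain ⟨x, y, m', hxy⟩ := hκ
    (fun σ => B.coord 0 ((ρbar.ρ σ * proj0 B * ρbar.ρ σ⁻¹ - proj0 B) (B 1))) h2 h3
  refine ⟨x, y, m', fun σ hσ => ?_⟩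
  obtain ⟨a, ha⟩ := Fermat.Agent.S56.H966.exists_isCycExp p hp.ne_zero σ
  have e1 := h1 σ hσ
  have e2 := hxy σ hσ a ha
  beta_reduce at e1 e2
  rw [e2] at e1
  have e3 := cob_smul_nil0 B hline hσ ha m'
  have e4 : ρbar.ρ σ * (proj0 B - m' • nil0 B) * ρbar.ρ σ⁻¹ - (proj0 B - m' • nil0 B) =
      (ρbar.ρ σ * proj0 B * ρbar.ρ σ⁻¹ - proj0 B) -
        (ρbar.ρ σ * (m' • nil0 B) * ρbar.ρ σ⁻¹ - m' • nil0 B) := by
    rw [mul_sub, sub_mul]; abel
  rw [e4, e3, e1]
  module

end main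

section final

variable {k : Type} [Field k]

theorem exists_basis_zero_eq {V : Type} [AddCommGroup V] [Module k V]
    (h2 : Module.finrank k V = 2) {ℓ₀ : V} (h0 : ℓ₀ ≠ 0) :
    ∃ B : Module.Basis (Fin 2) k V, B 0 = ℓ₀ := by
  obtain ⟨y, hy⟩ := exists_linearIndependent_pair_of_one_lt_finrank (R := k) (by omega) h0
  refine ⟨basisOfLinearIndependentOfCardEqFinrank hy (by rw [Fintype.card_fin, h2]), ?_⟩
  rw [coe_basisOfLinearIndependentOfCardEqFinrank]
  rfl

theorem exists_complement_pair {x_d y_d : k} (h : ¬ (x_d = 0 ∧ y_d = 0)) :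
    ∃ x_t y_t : k, ∀ x y : k, ∃ α β : k, x = α * x_d + β * x_t ∧ y = α * y_d + β * y_t := by
  by_cases hx : x_d = 0
  · have hy : y_d ≠ 0 := fun hy => h ⟨hx, hy⟩
    refine ⟨1, 0, fun x y => ⟨y / y_d, x, ?_, ?_⟩⟩
    · rw [hx]; ring
    · field_simp; ring
  · refine ⟨0, 1, fun x y => ⟨x / x_d, y - x / x_d * y_d, ?_, ?_⟩⟩
    · field_simp; ring
    · ring

theorem conj_add_smul {V' : Type} [AddCommGroup V'] [Module k V']
    (R Rinv M N : Module.End k V') (α : k) :
    R * (M + α • N) * Rinv - (M + α • N) = (R * M * Rinv - M) + α • (R * N * Rinv - N) := by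
  rw [mul_add, add_mul, mul_smul_comm, smul_mul_assoc, smul_sub]
  abel

/-- **LOC-SO over a field**: the local tangent bound at `p` for strictly ordinary lifts with
cyclotomic determinant, defect `1`. -/
theorem localBoundAt_so {p : ℕ} [CharP k p] (hp : p.Prime) (hp2 : p ≠ 2)
    (ρbar : ResidualGaloisRep k) (P : ValuationSubring Qb) (hP : P.LiesOverPrime p) :
    LocalBoundAt ρbar P (fun ρ' => ρ'.DetIsCyclotomic p ∧ ρ'.IsStrictOrdinaryAt p) 1 := by
  classical
  haveI : Fact p.Prime := ⟨hp⟩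
  by_cases hex : ∃ (c : GQ → Module.End k ρbar.V) (ρ' : GaloisRepAdic (DualNumber k)),
      IsLiftOf ρbar c ρ' ∧ ρ'.DetIsCyclotomic p ∧ ρ'.IsStrictOrdinaryAt p
  swap
  · refine ⟨⊥, inferInstance, ?_, fun c _ h => ?_⟩
    · rw [finrank_bot]; exact Nat.zero_le _
    · obtain ⟨ρ', hl, hd, hs⟩ := h
      exact (hex ⟨c, ρ', hl, hd, hs⟩).elim
  obtain ⟨c₀, ρ₀, hl₀, hd₀, hs₀⟩ := hex
  obtain ⟨ℓ₀, ℓ₁, hdata₀⟩ := locSO_struct ρbar p hp hp2 c₀ ρ₀ hl₀ hd₀ hs₀ P hP
  have hdata₀' : IsSOData ρbar p P c₀ ℓ₀ ℓ₁ := hdata₀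
  obtain ⟨B, hB0⟩ := exists_basis_zero_eq ρbar.finrank_eq hdata₀'.1
  have hline : IsSOLine ρbar p P (B 0) := by rw [hB0]; exact hdata₀'.isSOLine
  obtain ⟨κ₁, κ₂, -, -, hκ'⟩ := Fermat.Agent.S56.H734.kummerP p hp2 k P hP
  have hκ : ∀ κ : GQ → k,
      (∀ σ ∈ P.decompositionSubgroup ℚ, ∀ τ ∈ P.decompositionSubgroup ℚ, ∀ a : ℕ,
        IsCycExp p σ a → κ (σ * τ) = κ σ + (a : k) * κ τ) →
      (∃ L : IntermediateField ℚ Qb, FiniteDimensional ℚ L ∧
        ∀ σ τ : GQ, (∀ x ∈ L, τ x = x) → κ (σ * τ) = κ σ) →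
      ∃ x y m : k, ∀ σ ∈ P.decompositionSubgroup ℚ, ∀ a : ℕ, IsCycExp p σ a →
        κ σ = x * κ₁ σ + y * κ₂ σ + ((a : k) - 1) * m := by
    rintro κ hc ⟨L, hL, hl⟩
    exact hκ' κ hc ⟨L, hL, fun σ _ τ _ hτ => hl σ τ hτ⟩
  -- every admissible cocycle is cohomologous on `D_P` to `(x κ₁ + y κ₂) • n₀`
  have key : ∀ c : GQ → Module.End k ρbar.V, IsAdCocycle ρbar c →
      (∃ ρ' : GaloisRepAdic (DualNumber k), IsLiftOf ρbar c ρ' ∧
        ρ'.DetIsCyclotomic p ∧ ρ'.IsStrictOrdinaryAt p) →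
      ∃ (x y : k) (M : Module.End k ρbar.V), ∀ σ ∈ P.decompositionSubgroup ℚ,
        c σ - (x * κ₁ σ + y * κ₂ σ) • nil0 B = ρbar.ρ σ * M * ρbar.ρ σ⁻¹ - M := by
    rintro c hc ⟨ρ', hl, hd, hs⟩
    obtain ⟨ℓ₀', ℓ₁', hdata⟩ := locSO_struct ρbar p hp hp2 c ρ' hl hd hs P hP
    have hdata' : IsSOData ρbar p P c ℓ₀' ℓ₁' := hdata
    obtain ⟨r, hr, hrl⟩ := IsSOLine.unique hp hp2 hP hline hdata'.isSOLine
    have h2 := hdata'.smul (inv_ne_zero hr)
    have e : r⁻¹ • ℓ₀' = B 0 := by rw [hrl, smul_smul, inv_mul_cancel₀ hr, one_smul]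
    rw [e] at h2
    exact key_of_data B hp hκ hc h2
  set t₁ : GQ → Module.End k ρbar.V := fun σ => κ₁ σ • nil0 B with ht₁
  set t₂ : GQ → Module.End k ρbar.V := fun σ => κ₂ σ • nil0 B with ht₂
  by_cases hinv : adInv ρbar (P.decompositionSubgroup ℚ) = ⊥
  · -- `H⁰ = 0`: the projector cocycle is a non-trivial relation
    obtain ⟨x_d, y_d, m_d, hd⟩ := key_of_proj B hp hκ hline
    have h2k : (2 : k) ≠ 0 := by
      intro h
      have h' : ((2 : ℕ) : k) = 0 := by exact_mod_cast h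
      have hdvd : p ∣ 2 := (CharP.cast_eq_zero_iff k p 2).mp h'
      exact hp2 ((Nat.prime_dvd_prime_iff_eq hp Nat.prime_two).mp hdvd)
    have hne : ¬ (x_d = 0 ∧ y_d = 0) := by
      rintro ⟨hx, hy⟩
      have hmem : proj0 B - m_d • nil0 B - (2 : k)⁻¹ • (1 : Module.End k ρbar.V) ∈
          adInv ρbar (P.decompositionSubgroup ℚ) := by
        refine ⟨?_, fun σ hσ => ?_⟩
        · rw [map_sub, map_sub, map_smul, map_smul, trace_proj0, trace_nil0,
            LinearMap.trace_one, ρbar.finrank_eq]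
          simp only [smul_eq_mul, mul_zero, sub_zero, Nat.cast_ofNat]
          rw [inv_mul_cancel₀ h2k, sub_self]
        · have h := hd σ hσ
          rw [hx, hy, zero_mul, zero_mul, add_zero, zero_smul] at h
          have h' : ρbar.ρ σ * (proj0 B - m_d • nil0 B) * ρbar.ρ σ⁻¹ =
              proj0 B - m_d • nil0 B := (sub_eq_zero.mp h.symm)
          rw [mul_sub, sub_mul, h', mul_smul_comm, smul_mul_assoc, mul_one,
            rho_mul_inv' ρbar σ]
      rw [hinv, Submodule.mem_bot] at hmem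
      have h0 := congrArg (fun F : Module.End k ρbar.V => B.coord 0 (F (B 0))) hmem
      simp only [LinearMap.sub_apply, LinearMap.smul_apply, proj0_apply, nil0_apply,
        Module.End.one_apply, map_sub, map_smul, coord0_self, coord1_self0, smul_eq_mul,
        mul_one, zero_smul, smul_zero, sub_zero, one_smul, LinearMap.zero_apply,
        map_zero] at h0
      have : (2 : k)⁻¹ = 1 := (sub_eq_zero.mp h0).symm
      have h21 : (2 : k) = 1 := by
        have := congrArg (fun t => (2 : k) * t) this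
        simp only [mul_inv_cancel₀ h2k, mul_one] at this
        exact this.symm
      have h10 : (1 : k) = 0 := by
        have : (2 : k) - 1 = 0 := by rw [h21, sub_self]
        norm_num at this
      exact one_ne_zero h10
    obtain ⟨x_t, y_t, hcomp⟩ := exists_complement_pair hne
    refine ⟨Submodule.span k {x_t • t₁ + y_t • t₂},
      Module.Finite.span_of_finite k (Set.toFinite _), ?_, fun c hc hex' => ?_⟩
    · rw [hinv, finrank_bot, zero_add]
      exact finrank_span_single_le _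
    · obtain ⟨x, y, M, hM⟩ := key c hc hex'
      obtain ⟨α, β, hx, hy⟩ := hcomp x y
      refine ⟨β • (x_t • t₁ + y_t • t₂),
        Submodule.smul_mem _ _ (Submodule.subset_span (Set.mem_singleton _)),
        M + α • (proj0 B - m_d • nil0 B), fun σ hσ => ?_⟩
      rw [conj_add_smul, ← hM σ hσ, ← hd σ hσ]
      show c σ - β • (x_t • κ₁ σ • nil0 B + y_t • κ₂ σ • nil0 B) = _
      rw [hx, hy]
      module
  · -- `H⁰ ≠ 0`: the Kummer bound suffices
    refine ⟨Submodule.span k {t₁, t₂}, Module.Finite.span_of_finite k (Set.toFinite _), ?_,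
      fun c hc hex' => ?_⟩
    · have h1 : 1 ≤ Module.finrank k (adInv ρbar (P.decompositionSubgroup ℚ)) :=
        Submodule.one_le_finrank_iff.mpr hinv
      have h2 := finrank_span_pair_le (k := k) t₁ t₂
      omega
    · obtain ⟨x, y, M, hM⟩ := key c hc hex'
      refine ⟨x • t₁ + y • t₂, ?_, M, fun σ hσ => ?_⟩
      · exact Submodule.add_mem _
          (Submodule.smul_mem _ _ (Submodule.subset_span (Set.mem_insert _ _)))
          (Submodule.smul_mem _ _ (Submodule.subset_span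
            (Set.mem_insert_of_mem _ (Set.mem_singleton _))))
      · rw [← hM σ hσ]
        show c σ - (x • κ₁ σ • nil0 B + y • κ₂ σ • nil0 B) = _
        module

end final

/-- **LOC-SO** (frozen layer-2 leaf `LocOrdPStatement` of `H716/SBSpec.lean`). -/
theorem locOrdP : LocOrdPStatement := by
  intro 𝒪 _ _ _ _ _ p ρbar S Smin hyp P hP
  have hpk : ((p : ℕ) : ResidueField 𝒪) = 0 := by
    have h := (IsLocalRing.residue_eq_zero_iff (p : 𝒪)).mpr hyp.hp𝒪
    rwa [map_natCast] at h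
  haveI : CharP (ResidueField 𝒪) p := (CharP.charP_iff_prime_eq_zero hyp.hp).mpr hpk
  exact localBoundAt_so hyp.hp hyp.hp2 ρbar P hP

end Fermat.Agent.S56.H656

end

end
-- ===== PACK-END S56/H656/LocOrdP.lean

-- ===== PACK-BEGIN S56/H794/LocMinSpec.lean
section




/-!
# S56 / LOC-MIN (helper794): interface + glue  `LOC-MIN ⇐ LOC-MIN-A (landed) + LOC-MIN-B`

* `LocMinBStatement` (LOC-MIN-B, "unramified classes"; any field `k`, any prime `q`, any place
  `P | q`): there is a `k`-space `Λ` of functions with `dim Λ ≤ h⁰(D_P, ad⁰ρ̄)` such that every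
  ad⁰-cocycle which is a coboundary on the inertia group `I_P` is, on `D_P`, cohomologous to an
  element of `Λ`.  (`H¹_ur(D_P, M) = H¹(D_P/I_P, M^{I_P})`, `dim = h⁰(D_P, M)`.)
* `ramified_at_of_hyp`: under `Hyp`, `ρ̄` is ramified at EVERY place `P` over `v ∈ Smin`, `v ≠ p`.
* `locMin_of_B : LocMinBStatement → H716.LocMinStatement` (glue with the landed LOC-MIN-A,
  `exists_coboundary_on_inertia_of_unipotent`).

Nothing unproved in this file.
-/

set_option autoImplicit false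

open Polynomial IsLocalRing

noncomputable section

namespace Fermat.Agent.S56.H794

open Fermat.Agent.S56 Fermat.Agent.S56.H716

/-- (LOC-MIN-B) unramified classes: cocycles which are coboundaries on the inertia group `I_P`
are, on the decomposition group `D_P`, cohomologous to the elements of a space of dimension
`≤ h⁰(D_P, ad⁰ρ̄)`. -/
def LocMinBStatement : Prop :=
  ∀ (k : Type) [Field k] (ρbar : ResidualGaloisRep k) (q : ℕ), q.Prime →
    ∀ P : ValuationSubring Qb, P.LiesOverPrime q →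
      ∃ Λ : Submodule k (GQ → Module.End k ρbar.V), Module.Finite k Λ ∧
        Module.finrank k Λ ≤ Module.finrank k (adInv ρbar (P.decompositionSubgroup ℚ)) ∧
        ∀ c : GQ → Module.End k ρbar.V, IsAdCocycle ρbar c →
          IsAdCoboundaryOn ρbar (P.inertiaSubgroupIn ℚ) c →
          ∃ t ∈ Λ, IsAdCoboundaryOn ρbar (P.decompositionSubgroup ℚ) (c - t)

section

variable {𝒪 : Type} [CommRing 𝒪] [IsDomain 𝒪] [IsDiscreteValuationRing 𝒪]
  {p : ℕ} {ρbar : ResidualGaloisRep (ResidueField 𝒪)} {S Smin : Finset ℕ}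

/-- Under `Hyp`, the residue characteristic is `p`. -/
theorem natCast_residueField_eq_zero_of_hyp (h : Hyp 𝒪 p ρbar S Smin) :
    (p : ResidueField 𝒪) = 0 := by
  have h1 : IsLocalRing.residue 𝒪 (p : 𝒪) = 0 :=
    (IsLocalRing.residue_eq_zero_iff _).mpr h.hp𝒪
  rwa [map_natCast] at h1

/-- Under `Hyp`, the primes of `Smin` are prime numbers. -/
theorem prime_of_mem_Smin (h : Hyp 𝒪 p ρbar S Smin) {v : ℕ} (hv : v ∈ Smin) : v.Prime :=
  h.hS v (h.hSmin hv)

/-- Under `Hyp`, `ρ̄` is ramified at every place over `v ∈ Smin`, `v ≠ p`. -/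
theorem ramified_at_of_hyp (h : Hyp 𝒪 p ρbar S Smin) {v : ℕ} (hv : v ∈ Smin) (hvp : v ≠ p)
    {P : ValuationSubring Qb} (hP : P.LiesOverPrime v) :
    ∃ τ ∈ P.inertiaSubgroupIn ℚ, ρbar.ρ τ ≠ 1 := by
  have hvprime : v.Prime := prime_of_mem_Smin h hv
  by_contra hcon
  push Not at hcon
  refine (h.hmin v hvprime hvp).mp hv ?_
  intro A hA σ hσ
  exact Fermat.Agent.Lib.Cheb.H476.map_inertia_eq_one_of_liesOver ρbar.ρ hvprime hP hA hcon σ hσ

end

/-- **Glue**: LOC-MIN from LOC-MIN-B and the landed LOC-MIN-A. -/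
theorem locMin_of_B (hB : LocMinBStatement) : LocMinStatement := by
  intro 𝒪 _ _ _ _ _ p ρbar S Smin h v hv hvp P hP
  have hvprime : v.Prime := prime_of_mem_Smin h hv
  have hpk : (p : ResidueField 𝒪) = 0 := natCast_residueField_eq_zero_of_hyp h
  have hram := ramified_at_of_hyp h hv hvp hP
  obtain ⟨Λ, hfin, hrk, hΛ⟩ := hB (ResidueField 𝒪) ρbar v hvprime P hP
  refine ⟨Λ, hfin, by simpa using hrk, ?_⟩
  rintro c hc ⟨ρ', hlift, -, hunip⟩
  obtain ⟨m, -, hm⟩ := exists_coboundary_on_inertia_of_unipotent h.hp h.hp2 hpk hc hlift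
    hvprime hvp hunip hP hram
  exact hΛ c hc ⟨m, hm⟩

end Fermat.Agent.S56.H794

end

end
-- ===== PACK-END S56/H794/LocMinSpec.lean

-- ===== PACK-BEGIN S56/H554/LocTWCup.lean
section




/-!
# S56 / leaf LOC-TW (helper554): the tame local pairing at a Taylor–Wiles prime is non-degenerate

`q ≡ 1 mod p` a prime, `P | q`, `ρ̄` unramified at `P`, `φ` a Frobenius element at `P`,
`τ ∈ I_P`.  `x` an (untwisted) ad-cocycle, `y` a twisted cocycle vanishing on `I_P`.

* `fixes_mu_of_mem_inertia`, `fixes_mu_of_isFrobeniusAt` : `I_P` and `φ` fix `μ_p` pointwise.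
* `trace_mul_eq_zero_of_cup_coboundary` : **NONDEG.** if the cup product
  `(σ, σ') ↦ tr (x σ · σ(y σ'))` is a coboundary `dλ` on the decomposition group `D_P`
  (`λ` of finite level), then `tr (x τ · y φ) = 0`.
  (Heisenberg argument: `λ` is additive on `I_P`, `φ τ φ⁻¹ = ω τ^q` with `ω` wild.)

So for ANY injective linear `inv_q` on `H²(D_P, k(1))` the pairing
`(x, y) ↦ inv_q (x ∪ y)` on `(ramified part of x) × (y mod coboundaries)` is non-degenerate as soon
as `tr (x τ · y φ) ≠ 0`.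
-/

set_option autoImplicit false

open scoped Pointwise

namespace Fermat.Agent.S56.H554

open Fermat.Agent.A2.H708 Fermat.Agent.S56 Fermat.Agent.S56.H716

attribute [local instance] isAlgebraic_Qb

variable {P : ValuationSubring Qb} {q p : ℕ}

/-- The inertia group at `P | q`, `q ≠ p`, fixes the `p`-th roots of unity. -/
theorem fixes_mu_of_mem_inertia (hq : q.Prime) (hP : P.LiesOverPrime q) (hp : p.Prime)
    (hpq : p ≠ q) {τ : GQ} (hτ : τ ∈ P.inertiaSubgroupIn ℚ) : IsCycExp p τ 1 := by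
  intro μ hμ
  rw [pow_one]
  by_contra hne
  have hpv : P.valuation ((p : ℕ) : Qb) = 1 := valuation_prime_eq_one hq hP hp hpq
  have hτμ : (τ μ) ^ p = 1 := by rw [← map_pow, hμ, map_one]
  have h1 := Fermat.Agent.S55.Bridge.val_sub_roots_eq_one (A := P) hp.ne_zero hpv hτμ hμ hne
  have hμA : P.valuation μ ≤ 1 := by
    rw [P.valuation_le_one_iff]
    exact Fermat.Agent.S54.isIntegral_mem_valuationSubring P
      (IsIntegral.of_pow hp.pos (hμ ▸ isIntegral_one))
  have h2 := Fermat.Agent.S55.Bridge.inertia_val_sub_lt_one P hτ μ hμA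
  exact absurd h1 h2.ne

/-- A Frobenius element at `P | q` with `q ≡ 1 mod p` fixes the `p`-th roots of unity. -/
theorem fixes_mu_of_isFrobeniusAt (hq : q.Prime) (hP : P.LiesOverPrime q) (hp : p.Prime)
    (hpq : p ≠ q) (hq1 : p ∣ q - 1) {φ : GQ} (hφ : P.IsFrobeniusAt φ q) : IsCycExp p φ 1 := by
  intro μ hμ
  rw [pow_one]
  obtain ⟨-, hφF⟩ := (Fermat.Agent.Lib.Cheb.H476.isFrobeniusAt_iff P φ q).mp hφ
  have hμq : μ ^ q = μ := by
    obtain ⟨m, hm⟩ := hq1
    have h2 : q = p * m + 1 := by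
      have := Nat.sub_add_cancel hq.one_le
      omega
    rw [h2, pow_succ, pow_mul, hμ, one_pow, one_mul]
  by_contra hne
  have hpv : P.valuation ((p : ℕ) : Qb) = 1 := valuation_prime_eq_one hq hP hp hpq
  have hφμ : (φ μ) ^ p = 1 := by rw [← map_pow, hμ, map_one]
  have h1 := Fermat.Agent.S55.Bridge.val_sub_roots_eq_one (A := P) hp.ne_zero hpv hφμ hμ hne
  have hμA : μ ∈ P := Fermat.Agent.S54.isIntegral_mem_valuationSubring P
      (IsIntegral.of_pow hp.pos (hμ ▸ isIntegral_one))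
  have h2 := hφF μ hμA
  rw [hμq, P.mem_nonunits_iff] at h2
  exact absurd h1 h2.ne

variable {k : Type} [Field k] {ρbar : ResidualGaloisRep k}

theorem twAd_one (σ : GQ) (m : Module.End k ρbar.V) :
    twAd ρbar σ 1 m = ρbar.ρ σ * m * ρbar.ρ σ⁻¹ := by
  unfold twAd
  rw [Nat.cast_one, one_smul]

/-- **NONDEG at a Taylor–Wiles prime.**  If the cup product of the ad-cocycle `x` and the
twisted cocycle `y` (unramified at `P`) is the coboundary of a cochain `lam` of finite level on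
the decomposition group `D_P`, then `tr (x τ · y φ) = 0` for every `τ ∈ I_P` and every Frobenius
element `φ` at `P`. -/
theorem trace_mul_eq_zero_of_cup_coboundary [CharP k p] (hq : q.Prime)
    (hP : P.LiesOverPrime q) (hp : p.Prime) (hpq : p ≠ q) (hq1 : p ∣ q - 1)
    {L : IntermediateField ℚ Qb} [FiniteDimensional ℚ L] (hL : ∀ σ : GQ, ∀ x ∈ L, σ x ∈ L)
    (hur : ∀ σ ∈ P.inertiaSubgroupIn ℚ, ρbar.ρ σ = 1)
    {x : GQ → Module.End k ρbar.V} (hx : IsCoc ρbar L x)
    {y : GQ → Module.End k ρbar.V}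
    (hy : ∀ σ τ a, IsCycExp p σ a → y (σ * τ) = y σ + twAd ρbar σ a (y τ))
    (hyI : ∀ τ ∈ P.inertiaSubgroupIn ℚ, y τ = 0)
    {lam : GQ → k}
    (hlamL : ∀ τ ∈ P.inertiaSubgroupIn ℚ, (∀ z ∈ L, τ z = z) → lam τ = lam 1)
    (hcob : ∀ σ ∈ P.decompositionSubgroup ℚ, ∀ σ' ∈ P.decompositionSubgroup ℚ,
      ∀ a, IsCycExp p σ a →
        LinearMap.trace k ρbar.V (x σ * twAd ρbar σ a (y σ')) =
          (a : k) * lam σ' - lam (σ * σ') + lam σ)
    {φ τ : GQ} (hφ : P.IsFrobeniusAt φ q) (hτ : τ ∈ P.inertiaSubgroupIn ℚ) :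
    LinearMap.trace k ρbar.V (x τ * y φ) = 0 := by
  have hφD : φ ∈ P.decompositionSubgroup ℚ :=
    ((Fermat.Agent.Lib.Cheb.H476.isFrobeniusAt_iff P φ q).mp hφ).1
  have hID : ∀ σ ∈ P.inertiaSubgroupIn ℚ, σ ∈ P.decompositionSubgroup ℚ := fun σ hσ =>
    mem_decomposition_of_mem_inertiaIn P hσ
  have hφ1 : IsCycExp p φ 1 := fixes_mu_of_isFrobeniusAt hq hP hp hpq hq1 hφ
  have hI1 : ∀ σ ∈ P.inertiaSubgroupIn ℚ, IsCycExp p σ 1 := fun σ hσ =>
    fixes_mu_of_mem_inertia hq hP hp hpq hσ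
  -- the coboundary relation for elements fixing `μ_p`
  have hrel : ∀ σ ∈ P.decompositionSubgroup ℚ, ∀ σ' ∈ P.decompositionSubgroup ℚ,
      IsCycExp p σ 1 → lam (σ * σ') = lam σ + lam σ' -
        LinearMap.trace k ρbar.V (x σ * (ρbar.ρ σ * y σ' * ρbar.ρ σ⁻¹)) := by
    intro σ hσ σ' hσ' h1
    have := hcob σ hσ σ' hσ' 1 h1
    rw [twAd_one, Nat.cast_one, one_mul] at this
    rw [this]
    ring
  have hy1 : y 1 = 0 := by
    have h := hy 1 1 1 (fun μ _ => by rw [pow_one]; rfl)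
    rw [mul_one, twAd_one, map_one, inv_one, map_one, one_mul, mul_one] at h
    exact left_eq_add.mp h
  -- `lam 1 = 0`
  have hlam1 : lam 1 = 0 := by
    have h := hrel 1 (one_mem _) 1 (one_mem _) (fun μ _ => by rw [pow_one]; rfl)
    rw [mul_one, hx.map_one, zero_mul, map_zero, sub_zero] at h
    exact left_eq_add.mp h
  -- `lam` is additive on inertia
  have hadd : ∀ σ ∈ P.inertiaSubgroupIn ℚ, ∀ σ' ∈ P.inertiaSubgroupIn ℚ,
      lam (σ * σ') = lam σ + lam σ' := by
    intro σ hσ σ' hσ'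
    rw [hrel σ (hID σ hσ) σ' (hID σ' hσ') (hI1 σ hσ), hyI σ' hσ', mul_zero, zero_mul, mul_zero,
      map_zero, sub_zero]
  let lamHom : ↥(P.inertiaSubgroupIn ℚ) →* Multiplicative k :=
    { toFun := fun σ => Multiplicative.ofAdd (lam σ)
      map_one' := by
        show Multiplicative.ofAdd (lam 1) = 1
        rw [hlam1]; rfl
      map_mul' := fun σ σ' => by
        show Multiplicative.ofAdd (lam (σ * σ')) = _
        rw [hadd σ σ.2 σ' σ'.2]; rfl }
  have hlamHom : ∀ σ : ↥(P.inertiaSubgroupIn ℚ), lamHom σ = Multiplicative.ofAdd (lam σ) :=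
    fun _ => rfl
  have hlampow : ∀ σ ∈ P.inertiaSubgroupIn ℚ, ∀ n : ℕ, lam (σ ^ n) = n • lam σ := by
    intro σ hσ n
    have h := map_pow lamHom ⟨σ, hσ⟩ n
    have h1 : lamHom (⟨σ, hσ⟩ ^ n) = Multiplicative.ofAdd (lam (σ ^ n)) := rfl
    rw [h1, hlamHom] at h
    exact Multiplicative.ofAdd.injective h
  have hcast : ∀ (n : ℕ) (z : k), n • z = (n : k) * z := fun n z => nsmul_eq_mul n z
  have hqk : ((q : ℕ) : k) = 1 := by
    have h1 : ((q - 1 : ℕ) : k) = 0 := (CharP.cast_eq_zero_iff k p _).mpr hq1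
    have h2 : q = (q - 1) + 1 := (Nat.sub_add_cancel hq.one_le).symm
    rw [h2, Nat.cast_add, h1, zero_add, Nat.cast_one]
  -- wild elements are killed by `lam`
  have hwildlam : ∀ ω ∈ P.inertiaSubgroupIn ℚ, IsWildOn P ω (L : Set Qb) → lam ω = 0 := by
    intro ω hω hwild
    have h := map_eq_one_of_wild_subgroup (A := P) (P.inertiaSubgroupIn ℚ) lamHom L
      (fun σ hσ => by
        rw [hlamHom, hlamL σ σ.2 hσ, hlam1]
        rfl)
      hω hω (hL ω) hwild p hp (valuation_prime_eq_one hq hP hp hpq) 1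
      (by
        rw [pow_one, ← map_pow]
        have h1 : lamHom (⟨ω, hω⟩ ^ p) = Multiplicative.ofAdd (lam (ω ^ p)) := rfl
        rw [h1, hlampow ω hω, hcast, CharP.cast_eq_zero, zero_mul]
        rfl)
    rw [hlamHom] at h
    exact Multiplicative.ofAdd.injective h
  -- first computation of `lam (φ τ φ⁻¹)`
  obtain ⟨ω, hω, hwild, hconj⟩ := isWildOn_conj_frobenius hφ hτ (L : Set Qb)
  have hA : lam (φ * τ * φ⁻¹) = lam τ := by
    rw [hconj, hadd ω hω _ (pow_mem hτ q), hwildlam ω hω hwild, zero_add, hlampow τ hτ, hcast,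
      hqk, one_mul]
  -- second computation
  have hρτ : ρbar.ρ τ = 1 := hur τ hτ
  have hφτD : φ * τ ∈ P.decompositionSubgroup ℚ := mul_mem hφD (hID τ hτ)
  have hφinvD : φ⁻¹ ∈ P.decompositionSubgroup ℚ := inv_mem hφD
  have hφτ1 : IsCycExp p (φ * τ) 1 := by
    intro μ hμ
    have h1 := hI1 τ hτ μ hμ
    have h2 := hφ1 μ hμ
    rw [pow_one] at h1 h2 ⊢
    show φ (τ μ) = μ
    rw [h1, h2]
  have hYdef : ρbar.ρ φ * y φ⁻¹ * ρbar.ρ φ⁻¹ = -y φ := by
    have h := hy φ φ⁻¹ 1 hφ1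
    rw [mul_inv_cancel, hy1, twAd_one] at h
    exact eq_neg_of_add_eq_zero_right h.symm
  have hρφτ : ρbar.ρ (φ * τ) = ρbar.ρ φ := by rw [map_mul, hρτ, mul_one]
  have hρφτinv : ρbar.ρ (φ * τ)⁻¹ = ρbar.ρ φ⁻¹ := by
    rw [mul_inv_rev, map_mul]
    have : ρbar.ρ τ⁻¹ = 1 := hur _ (inv_mem hτ)
    rw [this, one_mul]
  have h1 := hrel φ hφD τ (hID τ hτ) hφ1
  rw [hyI τ hτ, mul_zero, zero_mul, mul_zero, map_zero, sub_zero] at h1
  have h2 := hrel (φ * τ) hφτD φ⁻¹ hφinvD hφτ1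
  rw [hρφτ, hρφτinv, hYdef, hx.map_mul φ τ] at h2
  have h3 := hrel φ hφD φ⁻¹ hφinvD hφ1
  rw [mul_inv_cancel, hlam1, hYdef] at h3
  have hcomm := hx.commute_frobenius hq hP hp hpq hq1 hL hur hφ hτ
  have hconjx : ρbar.ρ φ * x τ * ρbar.ρ φ⁻¹ = x τ := by
    rw [hcomm, mul_assoc, rho_mul_inv, mul_one]
  rw [hconjx, h1, add_mul, map_add] at h2
  rw [hA] at h2
  simp only [mul_neg, map_neg] at h2 h3
  linear_combination h3 - h2

end Fermat.Agent.S56.H554

end
-- ===== PACK-END S56/H554/LocTWCup.lean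

-- ===== PACK-BEGIN S59/Patch/H967/Limit.lean
section







/-!
# The limit of a sequence of coordinate data (helper967, row S59, piece PATCH)
-/

set_option autoImplicit false
set_option linter.unusedSectionVars false
set_option linter.style.haveILetI false

namespace Fermat.Agent.S59.Patch.H967

open MvPowerSeries IsLocalRing Filter

section PS

variable (𝒪 : Type) [CommRing 𝒪] [IsDomain 𝒪] [IsDiscreteValuationRing 𝒪]
  [IsAdicComplete (maximalIdeal 𝒪) 𝒪] [Finite (ResidueField 𝒪)] (r : ℕ)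

theorem isProfiniteAdic_ps : IsProfiniteAdic (maximalIdeal (MvPowerSeries (Fin r) 𝒪)) :=
  have h := Fermat.Agent.S53.CA.ps_isAdicComplete 𝒪 r
  ⟨h.toIsHausdorff, h.toIsPrecomplete, fun k => Fermat.Agent.S53.CA.ps_finite_quotient 𝒪 r k⟩

end PS

section LocalHom

variable {𝒪 : Type} [CommRing 𝒪] [IsLocalRing 𝒪] {r : ℕ} {R : Type} [CommRing R] [Algebra 𝒪 R]
  [IsLocalRing R]

theorem algHom_mem_pow (ψ : MvPowerSeries (Fin r) 𝒪 →ₐ[𝒪] R) (hψ : Function.Surjective ψ)
    {k : ℕ} {g : MvPowerSeries (Fin r) 𝒪}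
    (hg : g ∈ maximalIdeal (MvPowerSeries (Fin r) 𝒪) ^ k) : ψ g ∈ maximalIdeal R ^ k := by
  haveI : IsLocalHom (ψ : MvPowerSeries (Fin r) 𝒪 →+* R) := IsLocalHom.of_surjective _ hψ
  have h1 : Ideal.map (ψ : MvPowerSeries (Fin r) 𝒪 →+* R)
      (maximalIdeal (MvPowerSeries (Fin r) 𝒪) ^ k) ≤ maximalIdeal R ^ k := by
    rw [Ideal.map_pow]
    exact Ideal.pow_right_mono (IsLocalRing.map_maximalIdeal_le _) k
  exact h1 (Ideal.mem_map_of_mem _ hg)

theorem constantCoeff_mem_pow {k : ℕ} {g : MvPowerSeries (Fin r) 𝒪}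
    (hg : g ∈ maximalIdeal (MvPowerSeries (Fin r) 𝒪) ^ k) :
    constantCoeff g ∈ maximalIdeal 𝒪 ^ k := by
  have h := (Fermat.Agent.S53.H173.mem_maximalIdeal_pow_iff k g).mp hg 0
  simpa using h

theorem algebraMap_constantCoeff_mem_pow (ψ : MvPowerSeries (Fin r) 𝒪 →ₐ[𝒪] R)
    (hψ : Function.Surjective ψ) {k : ℕ} {g : MvPowerSeries (Fin r) 𝒪}
    (hg : g ∈ maximalIdeal (MvPowerSeries (Fin r) 𝒪) ^ k) :
    algebraMap 𝒪 R (constantCoeff g) ∈ maximalIdeal R ^ k := by
  have h1 : (C (constantCoeff g) : MvPowerSeries (Fin r) 𝒪) ∈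
      maximalIdeal (MvPowerSeries (Fin r) 𝒪) ^ k :=
    Fermat.Agent.S53.H173.C_mem_maximalIdeal_pow (constantCoeff_mem_pow hg)
  have h2 := algHom_mem_pow ψ hψ h1
  have h3 : (C (constantCoeff g) : MvPowerSeries (Fin r) 𝒪) =
      algebraMap 𝒪 (MvPowerSeries (Fin r) 𝒪) (constantCoeff g) := rfl
  rwa [h3, AlgHom.commutes] at h2

end LocalHom

section Limit

variable {𝒪 : Type} [CommRing 𝒪] [IsLocalRing 𝒪]
  {r : ℕ} {R : Type} [CommRing R] [Algebra 𝒪 R] [IsLocalRing R] [IsNoetherianRing R]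
  {M : Type} [AddCommGroup M] [Module R M] [Module.Finite R M] {d : ℕ} {μ : Fin d → M} {E : ℕ}
  (hΛ : IsProfiniteAdic (maximalIdeal (MvPowerSeries (Fin r) 𝒪)))
  (hR : IsProfiniteAdic (maximalIdeal R))
  (Y : ∀ n : ℕ, CoordData 𝒪 r R μ (maximalIdeal (MvPowerSeries (Fin r) 𝒪) ^ n) E)

/-- The limit of the maps `φ`. -/
noncomputable def limPhi : MvPowerSeries (Fin r) 𝒪 →ₐ[𝒪] MvPowerSeries (Fin r) 𝒪 :=
  { (ulimHom hΛ).comp (RingHom.pi fun n =>
      ((Y n).φ : MvPowerSeries (Fin r) 𝒪 →+* MvPowerSeries (Fin r) 𝒪)) with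
    commutes' := fun a => by
      show ulim hΛ (fun n => (Y n).φ (algebraMap 𝒪 (MvPowerSeries (Fin r) 𝒪) a)) =
        algebraMap 𝒪 (MvPowerSeries (Fin r) 𝒪) a
      simp only [AlgHom.commutes]
      exact ulim_const hΛ _ }

theorem limPhi_apply (c : MvPowerSeries (Fin r) 𝒪) :
    limPhi hΛ Y c = ulim hΛ (fun n => (Y n).φ c) := rfl

/-- The limit of the maps `ψ`. -/
noncomputable def limPsi : MvPowerSeries (Fin r) 𝒪 →ₐ[𝒪] R :=
  { (ulimHom hR).comp (RingHom.pi fun n => ((Y n).ψ : MvPowerSeries (Fin r) 𝒪 →+* R)) with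
    commutes' := fun a => by
      show ulim hR (fun n => (Y n).ψ (algebraMap 𝒪 (MvPowerSeries (Fin r) 𝒪) a)) =
        algebraMap 𝒪 R a
      simp only [AlgHom.commutes]
      exact ulim_const hR _ }

theorem limPsi_apply (f : MvPowerSeries (Fin r) 𝒪) :
    limPsi hR Y f = ulim hR (fun n => (Y n).ψ f) := rfl

theorem isUlim_limPhi (c : MvPowerSeries (Fin r) 𝒪) :
    IsUlim (maximalIdeal (MvPowerSeries (Fin r) 𝒪)) (hyperfilter ℕ)
      (fun n => (Y n).φ c) (limPhi hΛ Y c) :=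
  isUlim_ulim hΛ _

theorem isUlim_limPsi (f : MvPowerSeries (Fin r) 𝒪) :
    IsUlim (maximalIdeal R) (hyperfilter ℕ) (fun n => (Y n).ψ f) (limPsi hR Y f) :=
  isUlim_ulim hR _

theorem coord_A_zero (n : ℕ) (i j : Fin d) :
    (Y n).A 0 i j ∈ maximalIdeal (MvPowerSeries (Fin r) 𝒪) ^ n := by
  have h := (Y n).A_add 0 0 i j
  rw [add_zero] at h
  have h2 : (Y n).A 0 i j = - ((Y n).A 0 i j - ((Y n).A 0 i j + (Y n).A 0 i j)) := by ring
  rw [h2]
  exact Ideal.neg_mem_iff _ |>.mpr h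

/-- The limit of the matrices `A`. -/
noncomputable def limA :
    MvPowerSeries (Fin r) 𝒪 →+* Matrix (Fin d) (Fin d) (MvPowerSeries (Fin r) 𝒪) where
  toFun f := Matrix.of fun i j => ulim hΛ (fun n => (Y n).A f i j)
  map_one' := by
    refine Matrix.ext fun i j => ?_
    show ulim hΛ (fun n => (Y n).A 1 i j) = _
    rw [← ulim_const hΛ ((1 : Matrix (Fin d) (Fin d) (MvPowerSeries (Fin r) 𝒪)) i j)]
    exact ulim_congr_of_mem_pow hΛ fun n => (Y n).A_one i j
  map_mul' f g := by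
    refine Matrix.ext fun i j => ?_
    show ulim hΛ (fun n => (Y n).A (f * g) i j) =
      ((Matrix.of fun i j => ulim hΛ (fun n => (Y n).A f i j)) *
        (Matrix.of fun i j => ulim hΛ (fun n => (Y n).A g i j))) i j
    rw [Matrix.mul_apply]
    simp only [Matrix.of_apply]
    simp only [← ulim_mul, ← ulim_sum]
    refine ulim_congr_of_mem_pow hΛ fun n => ?_
    have h := (Y n).A_mul f g i j
    rwa [Matrix.mul_apply] at h
  map_zero' := by
    refine Matrix.ext fun i j => ?_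
    show ulim hΛ (fun n => (Y n).A 0 i j) = 0
    exact ulim_eq_zero_of_mem_pow hΛ fun n => coord_A_zero Y n i j
  map_add' f g := by
    refine Matrix.ext fun i j => ?_
    show ulim hΛ (fun n => (Y n).A (f + g) i j) =
      ulim hΛ (fun n => (Y n).A f i j) + ulim hΛ (fun n => (Y n).A g i j)
    rw [← ulim_add]
    exact ulim_congr_of_mem_pow hΛ fun n => (Y n).A_add f g i j

theorem limA_apply (f : MvPowerSeries (Fin r) 𝒪) (i j : Fin d) :
    limA hΛ Y f i j = ulim hΛ (fun n => (Y n).A f i j) := rfl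

theorem isUlim_limA (f : MvPowerSeries (Fin r) 𝒪) (i j : Fin d) :
    IsUlim (maximalIdeal (MvPowerSeries (Fin r) 𝒪)) (hyperfilter ℕ)
      (fun n => (Y n).A f i j) (limA hΛ Y f i j) :=
  isUlim_ulim hΛ _

theorem eventually_ge_hyperfilter (k : ℕ) :
    ∀ᶠ n in ((hyperfilter ℕ : Ultrafilter ℕ) : Filter ℕ), k ≤ n :=
  Nat.hyperfilter_le_atTop (eventually_ge_atTop k)

/-- Compatibility of the limit matrices with the limit of the `φ`. -/
theorem limA_limPhi (c : MvPowerSeries (Fin r) 𝒪) :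
    limA hΛ Y (limPhi hΛ Y c) =
      c • (1 : Matrix (Fin d) (Fin d) (MvPowerSeries (Fin r) 𝒪)) := by
  refine Matrix.ext fun i j => ?_
  rw [limA_apply]
  refine IsUlim.eq_ulim hΛ ?_
  intro k
  filter_upwards [isUlim_limPhi hΛ Y c (E * k), eventually_ge_hyperfilter k] with n h1 hn
  -- e = φ∞ c - φ_n c
  have hle : maximalIdeal (MvPowerSeries (Fin r) 𝒪) ^ n ≤
      maximalIdeal (MvPowerSeries (Fin r) 𝒪) ^ k := Ideal.pow_le_pow_right hn
  have he : limPhi hΛ Y c - (Y n).φ c ∈ maximalIdeal (MvPowerSeries (Fin r) 𝒪) ^ (E * k) := by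
    have : limPhi hΛ Y c - (Y n).φ c = - ((Y n).φ c - limPhi hΛ Y c) := by ring
    rw [this]
    exact Ideal.neg_mem_iff _ |>.mpr h1
  have h2 := (Y n).A_small k _ he i j
  rw [sup_eq_left.mpr hle] at h2
  have h3 := hle ((Y n).A_add ((Y n).φ c) (limPhi hΛ Y c - (Y n).φ c) i j)
  rw [add_sub_cancel] at h3
  have h4 := hle ((Y n).A_φ c i j)
  have h5 : (Y n).A (limPhi hΛ Y c) i j -
      (c • (1 : Matrix (Fin d) (Fin d) (MvPowerSeries (Fin r) 𝒪))) i j =
      ((Y n).A (limPhi hΛ Y c) i j - ((Y n).A ((Y n).φ c) i j +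
        (Y n).A (limPhi hΛ Y c - (Y n).φ c) i j)) +
      ((Y n).A ((Y n).φ c) i j -
        (c • (1 : Matrix (Fin d) (Fin d) (MvPowerSeries (Fin r) 𝒪))) i j) +
      (Y n).A (limPhi hΛ Y c - (Y n).φ c) i j := by ring
  rw [h5]
  exact Ideal.add_mem _ (Ideal.add_mem _ h3 h4) h2

include hΛ in
theorem limPsi_surjective : Function.Surjective (limPsi hR Y) := by
  intro y
  have h1 : ∀ n, ∃ f, (Y n).ψ f = y := fun n => (Y n).ψ_surjective y
  choose f hf using h1
  refine ⟨ulim hΛ f, ?_⟩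
  rw [limPsi_apply]
  refine IsUlim.eq_ulim hR ?_
  intro k
  filter_upwards [isUlim_ulim hΛ f k] with n hn
  have h2 : (Y n).ψ (ulim hΛ f) - y = - (Y n).ψ (f n - ulim hΛ f) := by
    rw [map_sub, hf n]
    ring
  rw [h2]
  exact Ideal.neg_mem_iff _ |>.mpr (algHom_mem_pow _ (Y n).ψ_surjective hn)

theorem limPsi_limPhi_X (i : Fin r) : limPsi hR Y (limPhi hΛ Y (X i)) = 0 := by
  rw [limPsi_apply]
  refine IsUlim.eq_ulim hR ?_
  intro k
  filter_upwards [isUlim_limPhi hΛ Y (X i) k] with n hn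
  have h2 : (Y n).ψ (limPhi hΛ Y (X i)) - 0 =
      - (Y n).ψ ((Y n).φ (X i) - limPhi hΛ Y (X i)) := by
    rw [map_sub, (Y n).ψ_φ_X i]
    ring
  rw [h2]
  exact Ideal.neg_mem_iff _ |>.mpr (algHom_mem_pow _ (Y n).ψ_surjective hn)

theorem limA_pi (f : MvPowerSeries (Fin r) 𝒪) (j : Fin d) :
    ∑ i, algebraMap 𝒪 R (constantCoeff (limA hΛ Y f i j)) • μ i = limPsi hR Y f • μ j := by
  rw [← sub_eq_zero]
  have hmem : (∑ i, algebraMap 𝒪 R (constantCoeff (limA hΛ Y f i j)) • μ i -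
      limPsi hR Y f • μ j) ∈ (⨅ k : ℕ, maximalIdeal R ^ k • (⊤ : Submodule R M)) := by
    rw [Submodule.mem_iInf]
    intro k
    have h1 : ∀ᶠ n in ((hyperfilter ℕ : Ultrafilter ℕ) : Filter ℕ),
        ∀ i, (Y n).A f i j - limA hΛ Y f i j ∈ maximalIdeal (MvPowerSeries (Fin r) 𝒪) ^ k :=
      Filter.eventually_all.mpr fun i => isUlim_limA hΛ Y f i j k
    obtain ⟨n, hn1, hn2⟩ := (h1.and (isUlim_limPsi hR Y f k)).exists
    have h2 : ∑ i, algebraMap 𝒪 R (constantCoeff (limA hΛ Y f i j)) • μ i -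
        limPsi hR Y f • μ j =
        ((Y n).ψ f - limPsi hR Y f) • μ j -
        ∑ i, algebraMap 𝒪 R (constantCoeff ((Y n).A f i j - limA hΛ Y f i j)) • μ i := by
      simp only [map_sub, sub_smul, Finset.sum_sub_distrib]
      rw [(Y n).A_π f j]
      abel
    rw [h2]
    refine Submodule.sub_mem _ (Submodule.smul_mem_smul hn2 Submodule.mem_top)
      (Submodule.sum_mem _ fun i _ => Submodule.smul_mem_smul ?_ Submodule.mem_top)
    exact algebraMap_constantCoeff_mem_pow (Y n).ψ (Y n).ψ_surjective (hn1 i)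
  rw [Ideal.iInf_pow_smul_eq_bot_of_isLocalRing _ (maximalIdeal.isMaximal R).ne_top] at hmem
  exact (Submodule.mem_bot R).mp hmem

/-- The exact coordinate data obtained as a limit. -/
noncomputable def limData : ExactData 𝒪 r R μ where
  φ := limPhi hΛ Y
  ψ := limPsi hR Y
  A := limA hΛ Y
  ψ_surjective := limPsi_surjective hΛ hR Y
  ψ_φ_X := limPsi_limPhi_X hΛ hR Y
  A_φ := limA_limPhi hΛ Y
  A_π := limA_pi hΛ hR Y

end Limit

end Fermat.Agent.S59.Patch.H967

end
-- ===== PACK-END S59/Patch/H967/Limit.lean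

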