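import Mathlib
import Fermat.Agent.Pack.S43GC.G0E7L2
import Fermat.Agent.Pack.S43GC.G0E13L3
import Fermat.Agent.Pack.S43GC.G0E0L3
import Fermat.Agent.Pack.S43GC.G0E3L2
import Fermat.Agent.Pack.S43GC.G0E13L0
import Fermat.Agent.Pack.S43GC.G0E0L0
import Fermat.Agent.Pack.S43GC.G0E13L2
import Fermat.Agent.Pack.S43GC.G0E14L0
import Fermat.Agent.Pack.S43GC.G0E7L3
import Fermat.Agent.Pack.S43GC.G0E0L1
import Fermat.Agent.Pack.S43GC.G0E13L1
import Fermat.Agent.Pack.S43GC.G0E4L2
import Fermat.Agent.Pack.S43GC.G0E2L3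
import Fermat.Agent.Pack.S43GC.G0E5L1
import Fermat.Agent.Pack.S43GC.G0E2L0
import Fermat.Agent.Pack.S43GC.G0E4L0
import Fermat.Agent.Pack.S43GC.G0E9L2
import Fermat.Agent.Pack.S43GC.G0E5L3
import Fermat.Agent.Pack.S43GC.G0E14L3
import Fermat.Agent.Pack.Fast891

-- ===== PACK-BEGIN S55/KL/AdapterPT.lean
section




/-!
# S55, layer KL: final adapter to layer D — `LocalSurjH2Spec ⇒ PT.Surj2LocSpec` (input A4)

Architect/owner: helper183.
-/

set_option autoImplicit false
set_option linter.style.haveILetI false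

open CategoryTheory groupCohomology ExtCitation

namespace Fermat.Agent.S55.KL

section Krasner

variable (q : ℕ) [Fact q.Prime]

/-- Every finite extension of `ℚ_q` inside `PadicAlgCl q` is contained in a finite Galois one. -/
lemma exists_finiteGalois_ge (E : IntermediateField ℚ_[q] (PadicAlgCl q))
    [FiniteDimensional ℚ_[q] E] :
    ∃ E' : FiniteGaloisIntermediateField ℚ_[q] (PadicAlgCl q), E ≤ E'.toIntermediateField := by
  haveI : FiniteDimensional ℚ_[q] ↥(IntermediateField.normalClosure ℚ_[q] E (PadicAlgCl q)) :=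
    inferInstance
  haveI : IsGalois ℚ_[q] ↥(IntermediateField.normalClosure ℚ_[q] E (PadicAlgCl q)) :=
    ⟨⟩
  exact ⟨{ toIntermediateField := IntermediateField.normalClosure ℚ_[q] E (PadicAlgCl q) },
    IntermediateField.le_normalClosure E⟩

/-- level-constancy for `galLevels` = level-constancy modulo `Gal(Ω/E)`, `E/ℚ_q` finite. -/
lemma isLC₂_galLevels_iff {X : Type*}
    (f : (PadicAlgCl q ≃ₐ[ℚ_[q]] PadicAlgCl q) × (PadicAlgCl q ≃ₐ[ℚ_[q]] PadicAlgCl q) → X) :
    IsLC₂ (galLevels ℚ_[q] (PadicAlgCl q)) f ↔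
      ∃ E : IntermediateField ℚ_[q] (PadicAlgCl q), FiniteDimensional ℚ_[q] E ∧
        ∀ g g' s s' : PadicAlgCl q ≃ₐ[ℚ_[q]] PadicAlgCl q, s ∈ E.fixingSubgroup →
          s' ∈ E.fixingSubgroup → f (g * s, g' * s') = f (g, g') := by
  constructor
  · rintro ⟨W, ⟨E', rfl⟩, h⟩
    exact ⟨E'.toIntermediateField, inferInstance, h⟩
  · rintro ⟨E, hE, h⟩
    haveI := hE
    obtain ⟨E', hE'⟩ := exists_finiteGalois_ge q E
    refine ⟨_, ⟨E', rfl⟩, fun g g' s s' hs hs' => h g g' s s' ?_ ?_⟩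
    · exact IntermediateField.fixingSubgroup_antitone hE' hs
    · exact IntermediateField.fixingSubgroup_antitone hE' hs'

lemma isLC₁_galLevels_iff {X : Type*}
    (f : (PadicAlgCl q ≃ₐ[ℚ_[q]] PadicAlgCl q) → X) :
    IsLC₁ (galLevels ℚ_[q] (PadicAlgCl q)) f ↔
      ∃ E : IntermediateField ℚ_[q] (PadicAlgCl q), FiniteDimensional ℚ_[q] E ∧
        ∀ g s : PadicAlgCl q ≃ₐ[ℚ_[q]] PadicAlgCl q, s ∈ E.fixingSubgroup →
          f (g * s) = f g := by
  constructor
  · rintro ⟨W, ⟨E', rfl⟩, h⟩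
    exact ⟨E'.toIntermediateField, inferInstance, h⟩
  · rintro ⟨E, hE, h⟩
    haveI := hE
    obtain ⟨E', hE'⟩ := exists_finiteGalois_ge q E
    exact ⟨_, ⟨E', rfl⟩, fun g s hs => h g s (IntermediateField.fixingSubgroup_antitone hE' hs)⟩

end Krasner

/-! ## The adapter -/

/-- PT-level-constancy on the local group = `galLevels`-level-constancy. -/
lemma pt_isLC₂_iff (q : Nat.Primes) {X : Type*} (f : PT.Gl q × PT.Gl q → X) :
    (PT.localLevels q).IsLC₂ f ↔
      letI : Fact (q : ℕ).Prime := ⟨q.2⟩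
      IsLC₂ (galLevels ℚ_[(q : ℕ)] (PadicAlgCl (q : ℕ))) f := by
  letI : Fact (q : ℕ).Prime := ⟨q.2⟩
  rw [PT.isLC₂_pullbackLevels_iff]
  exact (Bridge.isLevelConstant₂_local_iff (q : ℕ) f).trans (isLC₂_galLevels_iff (q : ℕ) f).symm

lemma pt_isLC₁_iff (q : Nat.Primes) {X : Type*} (f : PT.Gl q → X) :
    (PT.localLevels q).IsLC₁ f ↔
      letI : Fact (q : ℕ).Prime := ⟨q.2⟩
      IsLC₁ (galLevels ℚ_[(q : ℕ)] (PadicAlgCl (q : ℕ))) f := by
  letI : Fact (q : ℕ).Prime := ⟨q.2⟩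
  rw [PT.isLC₁_pullbackLevels_iff]
  exact (Bridge.isLevelConstant₁_local_iff (q : ℕ) f).trans (isLC₁_galLevels_iff (q : ℕ) f).symm

/-- **General adapter** (local and global): if the level system `𝓛` of layer D and the normal
level system `N` define the same level-constant cochains, then the elementwise lifting property
(conclusion of `SurjH2Spec`) gives right exactness of `H²` in the form consumed by layer D. -/
theorem pushH2_surjective_of_lift {Γ : Type} [Group Γ] (𝓛 : PT.LevelSys Γ) (N : NLevels Γ)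
    (p : ℕ) [Fact p.Prime]
    (h1 : ∀ (X : Type) (f : Γ → X), 𝓛.IsLC₁ f ↔ IsLC₁ N f)
    (h2 : ∀ (X : Type) (f : Γ × Γ → X), 𝓛.IsLC₂ f ↔ IsLC₂ N f)
    (hlift : ∀ (P Q : Rep.{0} (ZMod p) Γ) (Φ : P ⟶ Q), Function.Surjective Φ.hom → Finite P.V →
      IsSmooth N P → ∀ c ∈ cocycles₂ Q, IsLC₂ N c →
        ∃ c' ∈ cocycles₂ P, IsLC₂ N c' ∧ ∃ b : Γ → Q.V, IsLC₁ N b ∧
          ∀ g h : Γ, Φ.hom (c' (g, h)) = c (g, h) + (d₁₂ Q).hom b (g, h))
    (P Q : Rep.{0, 0, 0} (ZMod p) Γ) (φ : P →ₗ[ZMod p] Q) (hφ : PT.IsEquivariant φ)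
    (hfd : FiniteDimensional (ZMod p) P) (hsmP : 𝓛.IsUSmooth P) (hsurj : Function.Surjective φ) :
    Function.Surjective (PT.pushH2 φ hφ 𝓛) := by
  intro y
  obtain ⟨c, rfl⟩ := 𝓛.H2π_surjective Q y
  have hc1 : (c : Γ × Γ → Q) ∈ cocycles₂ Q := c.2.1
  have hc2 : 𝓛.IsLC₂ (c : Γ × Γ → Q) := c.2.2
  let Φ : P ⟶ Q := Rep.ofHom ⟨φ, fun g => by ext x; exact hφ g x⟩
  have hfin : Finite P.V := Module.finite_of_finite (ZMod p)
  have hsm : IsSmooth N P := by
    obtain ⟨U, hU, hUt⟩ := hsmP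
    have hconst : 𝓛.IsLC₁ (fun g : Γ => P.ρ g) := by
      refine ⟨U, hU, fun g s hs => ?_⟩
      ext a
      simp [map_mul, hUt s hs a]
    obtain ⟨W, hW, hWc⟩ := (h1 _ _).1 hconst
    intro b
    refine ⟨W, hW, fun w hw => ?_⟩
    have := hWc 1 w hw
    simp only [one_mul] at this
    have h2 := LinearMap.congr_fun this b
    exact h2.trans (LinearMap.congr_fun (map_one P.ρ) b)
  obtain ⟨c', hc'1, hc'2, b, hb, hcb⟩ :=
    hlift P Q Φ (fun x => hsurj x) hfin hsm (c : Γ × Γ → Q) hc1 ((h2 _ _).1 hc2)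
  have hc'Z : c' ∈ 𝓛.Z2 P := ⟨hc'1, (h2 _ _).2 hc'2⟩
  refine ⟨𝓛.H2π P ⟨c', hc'Z⟩, ?_⟩
  rw [PT.pushH2_mk]
  have hsub : 𝓛.H2π Q (PT.pushZ2 φ hφ 𝓛 ⟨c', hc'Z⟩) - 𝓛.H2π Q c = 0 := by
    rw [← map_sub, PT.LevelSys.H2π_eq_zero_iff]
    refine ⟨b, (h1 _ _).2 hb, ?_⟩
    funext ⟨g, g'⟩
    have h3 : φ (c' (g, g')) = (c : Γ × Γ → Q) (g, g') + (d₁₂ Q).hom b (g, g') := hcb g g'
    show (d₁₂ Q).hom b (g, g') = φ (c' (g, g')) - (c : Γ × Γ → Q) (g, g')
    rw [h3]
    abel
  exact sub_eq_zero.1 hsub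

/-- The same with the abstract machine plugged in: `SurjH2Spec` + `cd_p ≤ 2`. -/
theorem pushH2_surjective_of_cd {Γ : Type} [Group Γ] (𝓛 : PT.LevelSys Γ) (N : NLevels Γ)
    (p : ℕ) [Fact p.Prime]
    (h1 : ∀ (X : Type) (f : Γ → X), 𝓛.IsLC₁ f ↔ IsLC₁ N f)
    (h2 : ∀ (X : Type) (f : Γ × Γ → X), 𝓛.IsLC₂ f ↔ IsLC₂ N f)
    (hS : SurjH2Spec) (hcd : CdLeTwo N (ZMod p) p)
    (P Q : Rep.{0, 0, 0} (ZMod p) Γ) (φ : P →ₗ[ZMod p] Q) (hφ : PT.IsEquivariant φ)
    (hfd : FiniteDimensional (ZMod p) P) (hsmP : 𝓛.IsUSmooth P) (hsurj : Function.Surjective φ) :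
    Function.Surjective (PT.pushH2 φ hφ 𝓛) :=
  pushH2_surjective_of_lift 𝓛 N p h1 h2
    (fun P Q Φ hΦ hfin hsm c hc hlc =>
      hS (ZMod p) Γ N p Fact.out hcd P Q Φ hΦ hfin
        (fun x => by
          have h0 : (p : ZMod p) = 0 := ZMod.natCast_self p
          rw [← Nat.cast_smul_eq_nsmul (ZMod p), h0, zero_smul]) hsm c hc hlc)
    P Q φ hφ hfd hsmP hsurj

/-- **Input A4 of layer D** from the finite-level statement `LocalSurjH2Spec`. -/
theorem surj2Loc_of (p : ℕ) [Fact p.Prime] (S : Finset Nat.Primes) (h : LocalSurjH2Spec) :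
    PT.Surj2LocSpec p S := by
  intro q _ P N φ hφ hfd hsmP _ hsurj
  letI : Fact (q : ℕ).Prime := ⟨q.2⟩
  exact pushH2_surjective_of_lift (PT.localLevels q)
    (galLevels ℚ_[(q : ℕ)] (PadicAlgCl (q : ℕ))) p
    (fun X f => pt_isLC₁_iff q f) (fun X f => pt_isLC₂_iff q f)
    (fun P Q Φ hΦ hfin hsm c hc hlc => h (q : ℕ) p Fact.out P Q Φ hΦ hfin hsm c hc hlc)
    P N φ hφ hfd hsmP hsurj

/-- **Input A4 of layer D** from `SurjH2Spec` and `LocalCdSpec`. -/
theorem surj2Loc_of_cd (p : ℕ) [Fact p.Prime] (S : Finset Nat.Primes) (hS : SurjH2Spec)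
    (hcd : LocalCdSpec) : PT.Surj2LocSpec p S := by
  intro q _ P N φ hφ hfd hsmP _ hsurj
  letI : Fact (q : ℕ).Prime := ⟨q.2⟩
  exact pushH2_surjective_of_cd (PT.localLevels q)
    (galLevels ℚ_[(q : ℕ)] (PadicAlgCl (q : ℕ))) p
    (fun X f => pt_isLC₁_iff q f) (fun X f => pt_isLC₂_iff q f) hS
    (hcd (q : ℕ) p Fact.out).2 P N φ hφ hfd hsmP hsurj

end Fermat.Agent.S55.KL

end
-- ===== PACK-END S55/KL/AdapterPT.lean

-- ===== PACK-BEGIN S55/Local/H953/T3.lean
section




/-!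
# S55, layer L: (T3) the local norm index theorem `CyclicNormIndexStatement`

Proof: put the `𝔪`-adic norm on `F = Frac A` (`H953/DVRNormed.lean`: `F` becomes a locally compact
ultrametric nontrivially normed field), extend it to `K` by the spectral norm and apply
`Fermat.Agent.S55.H953.norm_index_eq_finrank_of_proper`.
-/

set_option autoImplicit false

namespace Fermat.Agent.S55.Local.H953

open Fermat.Agent.S55.H953

/-- **(T3)** local norm index: `[Kˣ : N(Lˣ)] = [L : K]` for `L / K` cyclic. -/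
theorem cyclicNormIndex : CyclicNormIndexStatement := by
  intro A F _ _ _ _ _ _ _ _ _ K _ _ _ L _ _ _ _ _ _ hcyc
  letI : NontriviallyNormedField F := dvrNontriviallyNormedField A F
  haveI : IsUltrametricDist F := dvr_isUltrametricDist A F
  haveI : ProperSpace F := dvr_properSpace A F
  letI : NontriviallyNormedField K := spectralNorm.nontriviallyNormedField F K
  letI : NormedAlgebra F K := spectralNorm.normedAlgebra F K
  haveI : IsUltrametricDist K := IsUltrametricDist.of_normedAlgebra F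
  haveI : ProperSpace K := FiniteDimensional.proper F K
  haveI := hcyc
  exact norm_index_eq_finrank_of_proper K L

end Fermat.Agent.S55.Local.H953

end
-- ===== PACK-END S55/Local/H953/T3.lean

-- ===== PACK-BEGIN S55/T/NakPGroupH719.lean
section


/-!
# S55, layer T, leaf T6a (Nakayama) — modules over `p`-groups killed by `p` (helper719)

* `exists_fixed_ne_zero` : a nonzero module killed by `p` over a finite `p`-group has a nonzero
  fixed vector;
* `exists_iso_coind₁_of_pGroup` : if moreover `H¹(P, V) = 0` (and the invariants are a direct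
  summand as `k`-module, automatic for `k = ℤ`), then `V ≅ coind₁ (V^P)`.
-/

set_option autoImplicit false
set_option linter.style.haveILetI false

open CategoryTheory Limits groupCohomology Rep

namespace Fermat.Agent.S55.T.H719

open Fermat.Agent.S55.H572

noncomputable section

variable {k : Type} [CommRing k]

/-- **Fixed point lemma**: a nonzero module killed by `p` over a finite `p`-group has a nonzero
fixed vector. -/
theorem exists_fixed_ne_zero {P : Type} [Group P] [Finite P] {p : ℕ} [Fact p.Prime]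
    (hP : IsPGroup p P) (M : Rep.{0} k P) (hpM : ∀ m : M.V, p • m = 0) (hM : Nontrivial M.V) :
    ∃ m : M.V, m ≠ 0 ∧ ∀ g : P, M.ρ g m = m := by
  obtain ⟨m₀, hm₀⟩ := exists_ne (0 : M.V)
  let S : Set M.V := Set.range (fun g : P => M.ρ g m₀)
  haveI : Finite S := Set.finite_range _
  let M₀ : AddSubgroup M.V := AddSubgroup.closure S
  have hstable : ∀ (g : P) (m : M.V), m ∈ M₀ → M.ρ g m ∈ M₀ := by
    intro g m hm
    induction hm using AddSubgroup.closure_induction with
    | mem x hx =>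
      obtain ⟨h, rfl⟩ := hx
      apply AddSubgroup.subset_closure
      refine ⟨g * h, ?_⟩
      change M.ρ (g * h) m₀ = M.ρ g (M.ρ h m₀)
      rw [map_mul]
      rfl
    | zero => rw [map_zero]; exact M₀.zero_mem
    | add x y _ _ hx hy => rw [map_add]; exact M₀.add_mem hx hy
    | neg x _ hx => rw [map_neg]; exact M₀.neg_mem hx
  letI : MulAction P M₀ :=
    { smul := fun g m => ⟨M.ρ g m.1, hstable g m.1 m.2⟩
      one_smul := fun m => by
        apply Subtype.ext
        change M.ρ 1 m.1 = m.1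
        rw [map_one]
        rfl
      mul_smul := fun g h m => by
        apply Subtype.ext
        change M.ρ (g * h) m.1 = M.ρ g (M.ρ h m.1)
        rw [map_mul]
        rfl }
  have hsmul : ∀ (g : P) (m : M₀), ((g • m : M₀) : M.V) = M.ρ g m.1 := fun _ _ => rfl
  have hfin : Finite M₀ := by
    haveI : AddGroup.FG M₀ := AddGroup.closure_finite_fg S
    apply AddCommGroup.finite_of_fg_isAddTorsion
    intro m
    rw [isOfFinAddOrder_iff_nsmul_eq_zero]
    refine ⟨p, (Fact.out : p.Prime).pos, ?_⟩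
    apply Subtype.ext
    rw [AddSubgroup.coe_nsmul]
    exact hpM _
  have hm₀mem : m₀ ∈ M₀ := by
    apply AddSubgroup.subset_closure
    refine ⟨1, ?_⟩
    change M.ρ 1 m₀ = m₀
    rw [map_one]
    rfl
  have hpg : IsPGroup p (Multiplicative M₀) := by
    intro x
    refine ⟨1, ?_⟩
    rw [pow_one]
    change Multiplicative.ofAdd (p • Multiplicative.toAdd x) = 1
    have : p • Multiplicative.toAdd x = 0 := by
      apply Subtype.ext
      rw [AddSubgroup.coe_nsmul]
      exact hpM _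
    rw [this]
    rfl
  have hcard : p ∣ Nat.card M₀ := by
    haveI : Finite (Multiplicative M₀) := hfin
    rcases hpg.card_eq_or_dvd with h1 | h1
    · exfalso
      have h2 : Nat.card M₀ = 1 := h1
      rw [Nat.card_eq_one_iff_unique] at h2
      obtain ⟨hs, _⟩ := h2
      have := hs.elim (⟨m₀, hm₀mem⟩ : M₀) 0
      exact hm₀ (congrArg Subtype.val this)
    · exact h1
  have h0 : (0 : M₀) ∈ MulAction.fixedPoints P M₀ := by
    intro g
    apply Subtype.ext
    rw [hsmul]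
    exact map_zero _
  obtain ⟨b, hb, hb0⟩ := hP.exists_fixed_point_of_prime_dvd_card_of_fixed_point M₀ hcard h0
  refine ⟨b.1, ?_, fun g => ?_⟩
  · intro h
    apply hb0
    apply Subtype.ext
    exact h.symm
  · have := hb g
    exact congrArg Subtype.val this

/-! ## Structure of `p`-torsion modules with vanishing `H¹` over a `p`-group -/

section Structure

variable {P : Type} [Group P]

/-- The coefficient module `V^P` with trivial action. -/
abbrev invCoeff (V : Rep.{0} k P) : Rep.{0} k P := Rep.trivial k P V.ρ.invariants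

/-- The comparison map `V ⟶ coind₁ (V^P)`, `v ↦ (x ↦ π (x v))`, attached to a `k`-linear
retraction `π : V → V^P`. -/
def toCoindInv (V : Rep.{0} k P) (π : V.V →ₗ[k] V.ρ.invariants) : V ⟶ coind₁ (invCoeff V) :=
  Rep.ofHom (ρ := V.ρ) (σ := (coind₁ (invCoeff V)).ρ)
    ⟨coind₁Pi (invCoeff V) (fun x => π ∘ₗ V.ρ x), fun g => by
      apply LinearMap.ext
      intro v
      apply Subtype.ext
      funext x
      change π (V.ρ x (V.ρ g v)) = π (V.ρ (x * g) v)
      rw [map_mul]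
      rfl⟩

theorem toCoindInv_hom_apply (V : Rep.{0} k P) (π : V.V →ₗ[k] V.ρ.invariants) (v : V.V)
    (x : P) : ((toCoindInv V π).hom v).1 x = π (V.ρ x v) := rfl

theorem toCoindInv_injective [Finite P] {p : ℕ} [Fact p.Prime] (hP : IsPGroup p P)
    (V : Rep.{0} k P) (hpV : ∀ v : V.V, p • v = 0) (π : V.V →ₗ[k] V.ρ.invariants)
    (hπ : ∀ w : V.ρ.invariants, π w = w) : Function.Injective (toCoindInv V π).hom := by
  obtain ⟨φ, hφ⟩ : ∃ φ : V ⟶ coind₁ (invCoeff V), φ = toCoindInv V π := ⟨_, rfl⟩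
  have hφapp : ∀ (v : V.V) (x : P), (φ.hom v).1 x = π (V.ρ x v) := by
    subst hφ
    exact toCoindInv_hom_apply V π
  rw [← hφ]
  have hex : (ShortComplex.mk (kernel.ι φ) φ (kernel.condition φ)).Exact :=
    ShortComplex.exact_of_f_is_kernel _ (kernelIsKernel _)
  rw [rep_exact_iff] at hex
  have hinj : Function.Injective (kernel.ι φ).hom :=
    (Rep.mono_iff_injective _).1 equalizer.ι_mono
  have hsub : Subsingleton (kernel φ).V := by
    by_contra hns
    rw [not_subsingleton_iff_nontrivial] at hns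
    have hpN : ∀ n : (kernel φ).V, p • n = 0 := by
      intro n
      apply hinj
      rw [map_nsmul, map_zero]
      exact hpV _
    obtain ⟨n, hn0, hnfix⟩ := exists_fixed_ne_zero hP (kernel φ) hpN hns
    have hv : ∀ g : P, V.ρ g ((kernel.ι φ).hom n) = (kernel.ι φ).hom n := by
      intro g
      rw [← Rep.hom_comm_apply, hnfix g]
    have hφv : φ.hom ((kernel.ι φ).hom n) = 0 := by
      have := congrArg (fun f : kernel φ ⟶ coind₁ (invCoeff V) => f.hom n) (kernel.condition φ)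
      exact this
    have h1 : (φ.hom ((kernel.ι φ).hom n)).1 1 = π ((kernel.ι φ).hom n) := by
      rw [hφapp, map_one]
      rfl
    have h2 : π ((kernel.ι φ).hom n) = ⟨(kernel.ι φ).hom n, hv⟩ := hπ ⟨_, hv⟩
    rw [hφv] at h1
    have h3 : (⟨(kernel.ι φ).hom n, hv⟩ : V.ρ.invariants) = 0 := by
      rw [← h2, ← h1]
      rfl
    have h4 : (kernel.ι φ).hom n = 0 := congrArg Subtype.val h3
    apply hn0
    apply hinj
    rw [h4, map_zero]
  intro x y hxy
  have h0 : φ.hom (x - y) = 0 := by rw [map_sub, hxy, sub_self]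
  obtain ⟨n, hn⟩ := hex (x - y) h0
  have : n = 0 := Subsingleton.elim _ _
  rw [this, map_zero] at hn
  exact sub_eq_zero.1 hn.symm

theorem toCoindInv_surjective [Finite P] {p : ℕ} [Fact p.Prime] (hP : IsPGroup p P)
    (V : Rep.{0} k P) (hpV : ∀ v : V.V, p • v = 0) (hH1 : H1Triv V)
    (π : V.V →ₗ[k] V.ρ.invariants) (hπ : ∀ w : V.ρ.invariants, π w = w) :
    Function.Surjective (toCoindInv V π).hom := by
  have hinj := toCoindInv_injective hP V hpV π hπ
  obtain ⟨φ, hφ⟩ : ∃ φ : V ⟶ coind₁ (invCoeff V), φ = toCoindInv V π := ⟨_, rfl⟩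
  have hφapp : ∀ (v : V.V) (x : P), (φ.hom v).1 x = π (V.ρ x v) := by
    subst hφ
    exact toCoindInv_hom_apply V π
  rw [← hφ] at hinj ⊢
  have hex : (ShortComplex.mk φ (cokernel.π φ) (cokernel.condition φ)).Exact :=
    ShortComplex.exact_of_g_is_cokernel _ (cokernelIsCokernel _)
  rw [rep_exact_iff] at hex
  have hsurj : Function.Surjective (cokernel.π φ).hom :=
    (Rep.epi_iff_surjective _).1 coequalizer.π_epi
  have hqφ : ∀ v : V.V, (cokernel.π φ).hom (φ.hom v) = 0 := fun v =>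
    congrArg (fun f : V ⟶ cokernel φ => f.hom v) (cokernel.condition φ)
  -- elements of `coind₁ (V^P)` are killed by `p`
  have hpW : ∀ f : (coind₁ (invCoeff V)).V, p • f = 0 := by
    intro f
    apply Subtype.ext
    funext x
    change p • f.1 x = 0
    apply Subtype.ext
    rw [Submodule.coe_smul_of_tower]
    exact hpV _
  have hsub : Subsingleton (cokernel φ).V := by
    by_contra hns
    rw [not_subsingleton_iff_nontrivial] at hns
    have hpC : ∀ c : (cokernel φ).V, p • c = 0 := by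
      intro c
      obtain ⟨f, rfl⟩ := hsurj c
      rw [← map_nsmul, hpW, map_zero]
    obtain ⟨c, hc0, hcfix⟩ := exists_fixed_ne_zero hP (cokernel φ) hpC hns
    obtain ⟨f, rfl⟩ := hsurj c
    have hker : ∀ g : P, (cokernel.π φ).hom ((coind₁ (invCoeff V)).ρ g f - f) = 0 := by
      intro g
      rw [map_sub, Rep.hom_comm_apply, hcfix g, sub_self]
    have hex' : ∀ g : P, ∃ v : V.V, φ.hom v = (coind₁ (invCoeff V)).ρ g f - f :=
      fun g => hex _ (hker g)
    choose c₁ hc₁ using hex'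
    have hcoc : ∀ g h : P, c₁ (g * h) = V.ρ g (c₁ h) + c₁ g := by
      intro g h
      apply hinj
      have e1 : (coind₁ (invCoeff V)).ρ (g * h) f =
          (coind₁ (invCoeff V)).ρ g ((coind₁ (invCoeff V)).ρ h f) := by
        rw [map_mul]
        rfl
      rw [hc₁ (g * h), map_add, Rep.hom_comm_apply, hc₁ h, hc₁ g, map_sub, e1]
      abel
    obtain ⟨y, hy⟩ := hH1 c₁ hcoc
    have hfix : ∀ g : P, (coind₁ (invCoeff V)).ρ g (f - φ.hom y) = f - φ.hom y := by
      intro g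
      have h1 : φ.hom (V.ρ g y - y) = (coind₁ (invCoeff V)).ρ g f - f := by
        rw [← hy, hc₁]
      rw [map_sub, Rep.hom_comm_apply] at h1
      rw [map_sub]
      rw [sub_eq_sub_iff_add_eq_add] at h1 ⊢
      rw [← h1]
      abel
    have hconst : ∀ x : P, (f - φ.hom y).1 x = (f - φ.hom y).1 1 := by
      intro x
      have h5 := congrArg (fun F : (coind₁ (invCoeff V)).V => F.1 1) (hfix x)
      have h6 : ((coind₁ (invCoeff V)).ρ x (f - φ.hom y)).1 1 = (f - φ.hom y).1 (1 * x) :=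
        coind_ρ_coe _ x _ 1
      rw [one_mul] at h6
      rw [← h6]
      exact h5
    have hw : φ.hom (((f - φ.hom y).1 1 : V.ρ.invariants) : V.V) = f - φ.hom y := by
      apply Subtype.ext
      funext x
      rw [hφapp, hconst x]
      have h3 : V.ρ x (((f - φ.hom y).1 1 : V.ρ.invariants) : V.V) =
          (((f - φ.hom y).1 1 : V.ρ.invariants) : V.V) := ((f - φ.hom y).1 1).2 x
      rw [h3]
      exact hπ _
    have hf : f = φ.hom (y + (((f - φ.hom y).1 1 : V.ρ.invariants) : V.V)) := by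
      rw [map_add, hw]
      abel
    apply hc0
    rw [hf]
    exact hqφ _
  intro f
  exact hex f (Subsingleton.elim _ _)

/-- **Structure theorem**: over a finite `p`-group `P`, a module `V` killed by `p` with
`H¹(P, V) = 0` whose invariants have a `k`-linear retraction is coinduced:
`V ≅ coind₁ (V^P)`. -/
theorem exists_iso_coind₁_of_pGroup [Finite P] {p : ℕ} [Fact p.Prime] (hP : IsPGroup p P)
    (V : Rep.{0} k P) (hpV : ∀ v : V.V, p • v = 0) (hH1 : H1Triv V)
    (hret : ∃ π : V.V →ₗ[k] V.ρ.invariants, ∀ w : V.ρ.invariants, π w = w) :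
    Nonempty (V ≅ coind₁ (invCoeff V)) := by
  obtain ⟨π, hπ⟩ := hret
  haveI : Mono (toCoindInv V π) :=
    (Rep.mono_iff_injective _).2 (toCoindInv_injective hP V hpV π hπ)
  haveI : Epi (toCoindInv V π) :=
    (Rep.epi_iff_surjective _).2 (toCoindInv_surjective hP V hpV hH1 π hπ)
  haveI : IsIso (toCoindInv V π) := isIso_of_mono_of_epi _
  exact ⟨asIso (toCoindInv V π)⟩

end Structure

end

end Fermat.Agent.S55.T.H719

end
-- ===== PACK-END S55/T/NakPGroupH719.lean

-- ===== PACK-BEGIN S55/K/H724/Mu.lean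
section



/-!
# S55 / layer K : the Kummer map `Ind_V μ_p → Ind_V 𝔼`   (helper724)

* `muToE_equivariant`, `indMuToE_equivariant`, `indMuToE_injective`;
* `exists_tors` : the image of `Ind_V μ_p` is the `p`-torsion of `Ind_V 𝔼`;
* `isPDiv_of_kummer` : `KummerSpec` in the form `IsPDiv`.
-/

set_option autoImplicit false

noncomputable section

namespace Fermat.Agent.S55.K.H724

open groupCohomology Fermat.Agent.S55.PT Fermat.Agent.S55.K Fermat.Agent.S55.Bridge

variable (p : ℕ) [Fact p.Prime] (S : Finset Nat.Primes)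

lemma sUnits_ρ_coe (g : _root_.Fermat.Agent.S55.PT.GQ) (x : sUnits S) :
    ((Additive.toMul (sUnitsIncl S ((sUnits S).ρ g x)) : Qbarˣ) : Qbar) =
      g ((Additive.toMul (sUnitsIncl S x) : Qbarˣ) : Qbar) := rfl

lemma sUnitsIncl_injective : Function.Injective (sUnitsIncl S) :=
  Subtype.val_injective

lemma muToE_coe (x : muP p) :
    ((Additive.toMul (sUnitsIncl S (muToE p S x)) : Qbarˣ) : Qbar) =
      ((MuP.root (p := p) x : rootsOfUnity p Qbar) : Qbarˣ) := rfl

lemma muToE_equivariant (g : _root_.Fermat.Agent.S55.PT.GQ) (a : muP p) :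
    muToE p S ((muP p).ρ g a) = (sUnits S).ρ g (muToE p S a) := by
  apply sUnitsIncl_injective
  apply Additive.toMul.injective
  apply Units.ext
  exact (muToE_coe p S _).trans ((muPRep_apply p g a).trans
    ((congrArg g (muToE_coe p S a)).symm.trans (sUnits_ρ_coe S g _).symm))

lemma indMuToE_equivariant (V : Subgroup _root_.Fermat.Agent.S55.PT.GQ) : IsAddEquivariant (indMuToE p S V) := by
  intro g a
  exact mapRange_equivariant (MonoidHom.id _root_.Fermat.Agent.S55.PT.GQ) V (muToE p S) (muToE_equivariant p S) g a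

lemma indMuToE_injective (V : Subgroup _root_.Fermat.Agent.S55.PT.GQ) : Function.Injective (indMuToE p S V) := by
  intro a b hab
  exact Finsupp.mapRange_injective (muToE p S) (map_zero _) (muToE_injective p S) hab

/-- the `p`-torsion of `𝔼` is `μ_p` -/
lemma exists_tors₀ (t : sUnits S) (ht : p • t = 0) : ∃ m : muP p, muToE p S m = t := by
  have h1 : (Additive.toMul (sUnitsIncl S t) : Qbarˣ) ^ p = 1 := by
    have h2 : sUnitsIncl S (p • t) = 0 := by rw [ht, map_zero]
    rw [map_nsmul] at h2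
    exact h2
  have h3 : (Additive.toMul (sUnitsIncl S t) : Qbarˣ) ∈ rootsOfUnity p Qbar :=
    (mem_rootsOfUnity p _).2 h1
  refine ⟨MuP.of p ⟨_, h3⟩, ?_⟩
  apply sUnitsIncl_injective
  rfl

/-- the `p`-torsion of `Ind_V 𝔼` is `Ind_V μ_p` -/
lemma exists_tors (V : Subgroup _root_.Fermat.Agent.S55.PT.GQ) :
    ∃ F : indG V (sUnits S) → indG V (muP p),
      ∀ e : indG V (sUnits S), p • e = 0 → indMuToE p S V (F e) = e := by
  classical
  have h : ∀ t : sUnits S, ∃ m : muP p, p • t = 0 → muToE p S m = t := by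
    intro t
    by_cases ht : p • t = 0
    · obtain ⟨m, hm⟩ := exists_tors₀ p S t ht
      exact ⟨m, fun _ => hm⟩
    · exact ⟨0, fun h => absurd h ht⟩
  choose tors htors using h
  let tors' : sUnits S → muP p := fun t => if t = 0 then 0 else tors t
  have htors'0 : tors' 0 = 0 := if_pos rfl
  have htors' : ∀ t : sUnits S, p • t = 0 → muToE p S (tors' t) = t := by
    intro t ht
    by_cases h0 : t = 0
    · subst h0
      rw [htors'0, map_zero]
    · simp only [tors', if_neg h0]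
      exact htors t ht
  refine ⟨fun e => ofF (MonoidHom.id _root_.Fermat.Agent.S55.PT.GQ) V (muP p)
    (Finsupp.mapRange tors' htors'0 (toF (MonoidHom.id _root_.Fermat.Agent.S55.PT.GQ) V (sUnits S) e)), fun e he => ?_⟩
  let ef : (_root_.Fermat.Agent.S55.PT.GQ ⧸ V) →₀ sUnits S := toF (MonoidHom.id _root_.Fermat.Agent.S55.PT.GQ) V (sUnits S) e
  have he' : ∀ x, p • ef x = 0 := by
    intro x
    have h0 : p • ef = 0 := he
    have : (p • ef) x = 0 := by
      rw [h0]
      rfl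
    rwa [Finsupp.smul_apply] at this
  show Finsupp.mapRange (muToE p S) (map_zero _) (Finsupp.mapRange tors' htors'0 ef) = ef
  ext x
  rw [Finsupp.mapRange_apply, Finsupp.mapRange_apply]
  exact htors' _ (he' x)

/-- `KummerSpec` says that smooth `S`-units are `p`-divisible by smooth `S`-units. -/
lemma isPDiv_of_kummer (hK : KummerSpec p S) (hpS : ExtCitation.pPrime p ∈ S) :
    IsPDiv (globalLevels S) (sUnits S) p :=
  fun a ha => hK hpS a ha

/-- normal levels are cofinal in `globalLevels S` -/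
lemma globalLevels_normalCofinal : (globalLevels S).NormalCofinal :=
  globalLevels_normal_cofinal724 S

/-- levels of `globalLevels S` have finite index -/
lemma globalLevels_finiteIndex : (globalLevels S).FiniteIndex := by
  rintro U ⟨F, hF, rfl⟩
  have := hF.1
  have := isAlgebraic_Qbar
  have := isGalois_Qbar
  refine ⟨?_⟩
  rw [← IntermediateField.finrank_eq_fixingSubgroup_index]
  exact Module.finrank_pos.ne'

end Fermat.Agent.S55.K.H724

end

end
-- ===== PACK-END S55/K/H724/Mu.lean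

-- ===== PACK-BEGIN S55/ColH543/Colimit.lean
section




/-!
# S55 / colimit dictionary (helper543), part 3: level-constant cochains versus finite levels

`G` a group with a level system `L : PT.LevelSys G` whose normal levels are cofinal
(`hN : L.NormalCofinal`), `A : Rep k G` ARBITRARY (no smoothness assumption: by the key remark of
`Cochain.lean` the values of a level-constant cochain with level-constant coboundary are
automatically invariant under a normal level).

Finite levels are in Mathlib form: `KL.HL A U n = groupCohomology (A.quotientToInvariants U) n`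
with the transition maps `KL.infl A h n` (`h : U' ≤ U`).

## Elementwise dictionary
* `exists_inf₁_of_mem_Z1`, `exists_inf₂_of_mem_Z2`, `exists_inf₃_of_isLC₃` : a level-constant
  cocycle is inflated from a cocycle of a normal level (below any given level);
* `inf₁_mem_B1_iff`, `inf₂_mem_B2_iff`, `inf₃_mem_B3_iff` : an inflated cocycle is the coboundary
  of a level-constant cochain iff its class dies at some smaller normal level;
* `inf₂_comp`, … : compatibility of inflation with `KL.HLmap` (restriction to subgroups /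
  local groups, change of coefficients, transition maps).

## Cochain-level predicates of layer K  ↔  finite-level predicates of layer KL
* `h3Vanish_iff`     : `H3Vanish L A ↔ KL.EffAll N A 3`,
* `h3TorsVanish_iff` : `H3TorsVanish L A n ↔ KL.EffTors N A n 3`,
* `h2Divisible_iff`  : `H2Divisible L A n ↔ KL.EffDiv N A n 2`,
where `N = nLevels L hN hF` is the system of normal levels of `L`.
-/

set_option autoImplicit false
set_option linter.style.haveILetI false

noncomputable section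

open groupCohomology CategoryTheory

namespace Fermat.Agent.S55.ColH543

open Fermat.Agent.S55.PT Fermat.Agent.S55.KL

variable {k : Type} [CommRing k] {G : Type} [Group G]

/-! ## Normal levels -/

/-- The system of normal levels of `L`, as a `KL.NLevels`. -/
def nLevels (L : LevelSys G) (hN : L.NormalCofinal) (hF : L.FiniteIndex) : NLevels G where
  carrier := {U | U ∈ L.levels ∧ U.Normal}
  normal _ hU := hU.2
  finiteIndex _ hU := hF _ hU.1
  nonempty := by
    obtain ⟨U, hU⟩ := L.nonempty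
    obtain ⟨V, hV, -, hVn⟩ := hN U hU
    exact ⟨V, hV, hVn⟩
  directed := by
    rintro U ⟨hU, -⟩ V ⟨hV, -⟩
    obtain ⟨W, hW, hle⟩ := L.directed U hU V hV
    obtain ⟨X, hX, hXW, hXn⟩ := hN W hW
    exact ⟨X, ⟨hX, hXn⟩, hXW.trans hle⟩

lemma mem_nLevels {L : LevelSys G} {hN : L.NormalCofinal} {hF : L.FiniteIndex} {U : Subgroup G} :
    U ∈ (nLevels L hN hF).carrier ↔ U ∈ L.levels ∧ U.Normal := Iff.rfl

/-- Below two levels of `L` there is a normal level. -/
lemma exists_normal_le {L : LevelSys G} (hN : L.NormalCofinal) {U V : Subgroup G}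
    (hU : U ∈ L.levels) (hV : V ∈ L.levels) :
    ∃ W ∈ L.levels, W.Normal ∧ W ≤ U ∧ W ≤ V := by
  obtain ⟨W, hW, hle⟩ := L.directed U hU V hV
  obtain ⟨X, hX, hXW, hXn⟩ := hN W hW
  exact ⟨X, hX, hXn, hXW.trans (le_inf_iff.1 hle).1, hXW.trans (le_inf_iff.1 hle).2⟩

/-- Level-constant 3-cochains (the same predicate as `K.IsLC₃`). -/
def IsLC₃ (L : LevelSys G) {X : Type*} (f : G × G × G → X) : Prop :=
  ∃ U ∈ L.levels, ∀ g₁ g₂ g₃ s₁ s₂ s₃ : G, s₁ ∈ U → s₂ ∈ U → s₃ ∈ U →
    f (g₁ * s₁, g₂ * s₂, g₃ * s₃) = f (g₁, g₂, g₃)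

lemma isLC₁_iff {L : LevelSys G} {X : Type*} (f : G → X) :
    L.IsLC₁ f ↔ ∃ U ∈ L.levels, IsRInv₁ U f := Iff.rfl

lemma isLC₂_iff {L : LevelSys G} {X : Type*} (f : G × G → X) :
    L.IsLC₂ f ↔ ∃ U ∈ L.levels, IsRInv₂ U f := Iff.rfl

lemma isLC₃_iff {L : LevelSys G} {X : Type*} (f : G × G × G → X) :
    IsLC₃ L f ↔ ∃ U ∈ L.levels, IsRInv₃ U f := Iff.rfl

/-! ## Inflation of cocycles -/

section InfCocycles

variable (A : Rep.{0, 0, 0} k G) (U : Subgroup G) [U.Normal]

lemma inf₁_mem_cocycles₁ (c : cocycles₁ (A.quotientToInvariants U)) :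
    inf₁ A U c ∈ cocycles₁ A := by
  show (d₁₂ A).hom (inf₁ A U c) = 0
  rw [d₁₂_inf₁, show (d₁₂ (A.quotientToInvariants U)).hom c = 0 from c.2, map_zero]

lemma inf₂_mem_cocycles₂ (c : cocycles₂ (A.quotientToInvariants U)) :
    inf₂ A U c ∈ cocycles₂ A := by
  show (d₂₃ A).hom (inf₂ A U c) = 0
  rw [d₂₃_inf₂, show (d₂₃ (A.quotientToInvariants U)).hom c = 0 from c.2, map_zero]

lemma inf₃_mem_cocycles₃ (c : cocycles₃ (A.quotientToInvariants U)) :
    inf₃ A U c ∈ cocycles₃ A := by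
  show d34 A (inf₃ A U c) = 0
  rw [d34_inf₃, show d34 (A.quotientToInvariants U) c = 0 from c.2, map_zero]

variable {A U}

lemma mem_cocycles₁_of_inf₁ {c : G ⧸ U → A.quotientToInvariants U}
    (h : inf₁ A U c ∈ cocycles₁ A) : c ∈ cocycles₁ (A.quotientToInvariants U) := by
  apply inf₂_injective A U
  rw [← d₁₂_inf₁, map_zero]
  exact h

lemma mem_cocycles₂_of_inf₂ {c : (G ⧸ U) × (G ⧸ U) → A.quotientToInvariants U}
    (h : inf₂ A U c ∈ cocycles₂ A) : c ∈ cocycles₂ (A.quotientToInvariants U) := by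
  apply inf₃_injective A U
  rw [← d₂₃_inf₂, map_zero]
  exact h

lemma mem_cocycles₃_of_inf₃ {c : (G ⧸ U) × (G ⧸ U) × (G ⧸ U) → A.quotientToInvariants U}
    (h : inf₃ A U c ∈ cocycles₃ A) : c ∈ cocycles₃ (A.quotientToInvariants U) := by
  apply inf₄_injective A U
  show inf₄ A U (d34 (A.quotientToInvariants U) c) = inf₄ A U 0
  rw [← d34_inf₃, map_zero]
  exact h

end InfCocycles

/-! ## Compatibility of inflation with `KL.HLmap` -/

section Compat

variable {G' : Type} [Group G'] {A : Rep.{0, 0, 0} k G} {A' : Rep.{0, 0, 0} k G'}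
  (f : G' →* G) {U : Subgroup G} [U.Normal] {U' : Subgroup G'} [U'.Normal]
  (hf : U' ≤ U.comap f) (φ : Rep.res f A ⟶ A')

/-- The group homomorphism `G' ⧸ U' → G ⧸ U` underlying `KL.HLmap f hf φ`. -/
abbrev qmap : G' ⧸ U' →* G ⧸ U := QuotientGroup.map U' U f hf

lemma inf₁_comp (c : cocycles₁ (A.quotientToInvariants U)) :
    inf₁ A' U' ((mapCocycles₁ (qmap f hf) (invMap f hf φ)).hom c) =
      fun x => φ.hom (inf₁ A U c (f x)) := by
  funext x
  rfl

lemma inf₂_comp (c : cocycles₂ (A.quotientToInvariants U)) :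
    inf₂ A' U' ((mapCocycles₂ (qmap f hf) (invMap f hf φ)).hom c) =
      fun x => φ.hom (inf₂ A U c (f x.1, f x.2)) := by
  funext ⟨x, y⟩
  rfl

lemma inf₃_comp (c : cocycles₃ (A.quotientToInvariants U)) :
    inf₃ A' U' (mapCocycles₃ (qmap f hf) (invMap f hf φ) c) =
      fun x => φ.hom (inf₃ A U c (f x.1, f x.2.1, f x.2.2)) := by
  funext ⟨x, y, z⟩
  rfl

/-- `KL.HLmap` on explicit 1-cocycles. -/
lemma HLmap_H1π (c : cocycles₁ (A.quotientToInvariants U)) :
    (HLmap f hf φ 1).hom (H1π _ c) =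
      H1π _ ((mapCocycles₁ (qmap f hf) (invMap f hf φ)).hom c) :=
  H1π_comp_map_apply (qmap f hf) (invMap f hf φ) c

/-- `KL.HLmap` on explicit 2-cocycles. -/
lemma HLmap_H2π (c : cocycles₂ (A.quotientToInvariants U)) :
    (HLmap f hf φ 2).hom (H2π _ c) =
      H2π _ ((mapCocycles₂ (qmap f hf) (invMap f hf φ)).hom c) :=
  H2π_comp_map_apply (qmap f hf) (invMap f hf φ) c

/-- `KL.HLmap` on explicit 3-cocycles. -/
lemma HLmap_H3π (c : cocycles₃ (A.quotientToInvariants U)) :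
    (HLmap f hf φ 3).hom (H3π _ c) = H3π _ (mapCocycles₃ (qmap f hf) (invMap f hf φ) c) :=
  map_H3π (qmap f hf) (invMap f hf φ) c

end Compat

/-! ## Transition maps between levels, on explicit cocycles -/

section Lev

variable (A : Rep.{0, 0, 0} k G) {U' U : Subgroup G} [U'.Normal] [U.Normal] (h : U' ≤ U)

/-- The transition map on 1-cocycles. -/
def lev₁ : cocycles₁ (A.quotientToInvariants U) →ₗ[k] cocycles₁ (A.quotientToInvariants U') :=
  (mapCocycles₁ (qmap (MonoidHom.id G) (U := U) (U' := U') (by simpa using h))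
    (invMap (MonoidHom.id G) (W := U) (W' := U') (by simpa using h) (𝟙 A))).hom

/-- The transition map on 2-cocycles. -/
def lev₂ : cocycles₂ (A.quotientToInvariants U) →ₗ[k] cocycles₂ (A.quotientToInvariants U') :=
  (mapCocycles₂ (qmap (MonoidHom.id G) (U := U) (U' := U') (by simpa using h))
    (invMap (MonoidHom.id G) (W := U) (W' := U') (by simpa using h) (𝟙 A))).hom

/-- The transition map on 3-cocycles. -/
def lev₃ : cocycles₃ (A.quotientToInvariants U) →ₗ[k] cocycles₃ (A.quotientToInvariants U') :=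
  mapCocycles₃ (qmap (MonoidHom.id G) (U := U) (U' := U') (by simpa using h))
    (invMap (MonoidHom.id G) (W := U) (W' := U') (by simpa using h) (𝟙 A))

@[simp] lemma inf₁_lev₁ (c : cocycles₁ (A.quotientToInvariants U)) :
    inf₁ A U' (lev₁ A h c) = inf₁ A U c := by
  funext x
  rfl

@[simp] lemma inf₂_lev₂ (c : cocycles₂ (A.quotientToInvariants U)) :
    inf₂ A U' (lev₂ A h c) = inf₂ A U c := by
  funext ⟨x, y⟩
  rfl

@[simp] lemma inf₃_lev₃ (c : cocycles₃ (A.quotientToInvariants U)) :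
    inf₃ A U' (lev₃ A h c) = inf₃ A U c := by
  funext ⟨x, y, z⟩
  rfl

lemma infl_H1π (c : cocycles₁ (A.quotientToInvariants U)) :
    (infl A h 1).hom (H1π _ c) = H1π _ (lev₁ A h c) :=
  HLmap_H1π _ _ _ c

lemma infl_H2π (c : cocycles₂ (A.quotientToInvariants U)) :
    (infl A h 2).hom (H2π _ c) = H2π _ (lev₂ A h c) :=
  HLmap_H2π _ _ _ c

lemma infl_H3π (c : cocycles₃ (A.quotientToInvariants U)) :
    (infl A h 3).hom (H3π _ c) = H3π _ (lev₃ A h c) :=
  HLmap_H3π _ _ _ c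

end Lev

/-! ## The elementwise dictionary -/

section Dictionary

variable {L : LevelSys G} {A : Rep.{0, 0, 0} k G}

lemma isLC₁_inf₁ {U : Subgroup G} [U.Normal] (hU : U ∈ L.levels)
    (c : G ⧸ U → A.quotientToInvariants U) : L.IsLC₁ (inf₁ A U c) :=
  ⟨U, hU, isRInv₁_inf₁ A U c⟩

lemma isLC₂_inf₂ {U : Subgroup G} [U.Normal] (hU : U ∈ L.levels)
    (c : (G ⧸ U) × (G ⧸ U) → A.quotientToInvariants U) : L.IsLC₂ (inf₂ A U c) :=
  ⟨U, hU, isRInv₂_inf₂ A U c⟩

lemma isLC₃_inf₃ {U : Subgroup G} [U.Normal] (hU : U ∈ L.levels)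
    (c : (G ⧸ U) × (G ⧸ U) × (G ⧸ U) → A.quotientToInvariants U) : IsLC₃ L (inf₃ A U c) :=
  ⟨U, hU, isRInv₃_inf₃ A U c⟩

lemma inf₁_mem_Z1 {U : Subgroup G} [U.Normal] (hU : U ∈ L.levels)
    (c : cocycles₁ (A.quotientToInvariants U)) : inf₁ A U c ∈ L.Z1 A :=
  Submodule.mem_inf.2 ⟨inf₁_mem_cocycles₁ A U c, isLC₁_inf₁ hU c⟩

lemma inf₂_mem_Z2 {U : Subgroup G} [U.Normal] (hU : U ∈ L.levels)
    (c : cocycles₂ (A.quotientToInvariants U)) : inf₂ A U c ∈ L.Z2 A :=
  Submodule.mem_inf.2 ⟨inf₂_mem_cocycles₂ A U c, isLC₂_inf₂ hU c⟩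

/-- The inflation of a coboundary is the coboundary of a level-constant cochain. -/
lemma inf₂_mem_B2_of_mem {U : Subgroup G} [U.Normal] (hU : U ∈ L.levels)
    {c : (G ⧸ U) × (G ⧸ U) → A.quotientToInvariants U}
    (hc : c ∈ coboundaries₂ (A.quotientToInvariants U)) : inf₂ A U c ∈ L.B2 A := by
  obtain ⟨b', rfl⟩ := hc
  exact ⟨inf₁ A U b', isLC₁_inf₁ hU b', d₁₂_inf₁ A U b'⟩

lemma inf₂_mem_B2_of_H2π {U : Subgroup G} [U.Normal] (hU : U ∈ L.levels)
    {c : cocycles₂ (A.quotientToInvariants U)} (hc : H2π _ c = 0) : inf₂ A U c ∈ L.B2 A :=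
  inf₂_mem_B2_of_mem hU ((H2π_eq_zero_iff c).1 hc)

/-- The inflation of a coboundary is the coboundary of a level-constant cochain. -/
lemma inf₃_mem_B3_of_mem {U : Subgroup G} [U.Normal] (hU : U ∈ L.levels)
    {c : (G ⧸ U) × (G ⧸ U) × (G ⧸ U) → A.quotientToInvariants U}
    (hc : c ∈ coboundaries₃ (A.quotientToInvariants U)) :
    ∃ b ∈ L.C2 A, (d₂₃ A).hom b = inf₃ A U c := by
  obtain ⟨b', rfl⟩ := hc
  exact ⟨inf₂ A U b', isLC₂_inf₂ hU b', d₂₃_inf₂ A U b'⟩

lemma inf₃_mem_B3_of_H3π {U : Subgroup G} [U.Normal] (hU : U ∈ L.levels)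
    {c : cocycles₃ (A.quotientToInvariants U)} (hc : H3π _ c = 0) :
    ∃ b ∈ L.C2 A, (d₂₃ A).hom b = inf₃ A U c :=
  inf₃_mem_B3_of_mem hU ((H3π_eq_zero_iff c).1 hc)

variable (hN : L.NormalCofinal)
include hN

/-- A level-constant 1-cochain whose coboundary is right invariant under a level is inflated from
a normal level. -/
theorem exists_inf₁_of_isLC₁ {f : G → A} (hf : L.IsLC₁ f) {W : Subgroup G} (hW : W ∈ L.levels)
    (hd : IsRInv₂ W ((d₁₂ A).hom f)) {U₀ : Subgroup G} (hU₀ : U₀ ∈ L.levels) :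
    ∃ (U : Subgroup G) (_ : U.Normal) (_ : U ∈ L.levels) (_ : U ≤ U₀) (_ : U ≤ W)
      (c : G ⧸ U → A.quotientToInvariants U), inf₁ A U c = f := by
  obtain ⟨W', hW', hfW'⟩ := hf
  obtain ⟨U₁, hU₁, -, hU₁W', hU₁W⟩ := exists_normal_le hN hW' hW
  obtain ⟨U, hU, hUn, hUU₁, hUU₀⟩ := exists_normal_le hN hU₁ hU₀
  haveI := hUn
  have hr : IsRInv₁ U f := IsRInv₁.mono (hUU₁.trans hU₁W') hfW'
  have hd' : IsRInv₂ U ((d₁₂ A).hom f) := hd.mono (hUU₁.trans hU₁W)
  obtain ⟨c, hc⟩ := exists_inf₁ hr (isInv_of_isRInv₁ hr hd')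
  exact ⟨U, hUn, hU, hUU₀, hUU₁.trans hU₁W, c, hc⟩

/-- A level-constant 2-cochain whose coboundary is right invariant under a level is inflated from
a normal level. -/
theorem exists_inf₂_of_isLC₂ {f : G × G → A} (hf : L.IsLC₂ f) {W : Subgroup G}
    (hW : W ∈ L.levels) (hd : IsRInv₃ W ((d₂₃ A).hom f)) {U₀ : Subgroup G}
    (hU₀ : U₀ ∈ L.levels) :
    ∃ (U : Subgroup G) (_ : U.Normal) (_ : U ∈ L.levels) (_ : U ≤ U₀) (_ : U ≤ W)
      (c : (G ⧸ U) × (G ⧸ U) → A.quotientToInvariants U), inf₂ A U c = f := by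
  obtain ⟨W', hW', hfW'⟩ := hf
  obtain ⟨U₁, hU₁, -, hU₁W', hU₁W⟩ := exists_normal_le hN hW' hW
  obtain ⟨U, hU, hUn, hUU₁, hUU₀⟩ := exists_normal_le hN hU₁ hU₀
  haveI := hUn
  have hr : IsRInv₂ U f := IsRInv₂.mono (hUU₁.trans hU₁W') hfW'
  have hd' : IsRInv₃ U ((d₂₃ A).hom f) := hd.mono (hUU₁.trans hU₁W)
  obtain ⟨c, hc⟩ := exists_inf₂ hr (isInv_of_isRInv₂ hr hd')
  exact ⟨U, hUn, hU, hUU₀, hUU₁.trans hU₁W, c, hc⟩

/-- A level-constant 1-cocycle is inflated from a cocycle of a normal level. -/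
theorem exists_inf₁_of_mem_Z1 {f : G → A} (hf : f ∈ L.Z1 A) {U₀ : Subgroup G}
    (hU₀ : U₀ ∈ L.levels) :
    ∃ (U : Subgroup G) (_ : U.Normal) (_ : U ∈ L.levels) (_ : U ≤ U₀)
      (c : cocycles₁ (A.quotientToInvariants U)), inf₁ A U c = f := by
  obtain ⟨hcoc, hlc⟩ := Submodule.mem_inf.1 hf
  have hd : IsRInv₂ U₀ ((d₁₂ A).hom f) := by
    rw [show (d₁₂ A).hom f = 0 from hcoc]
    exact isRInv₂_zero U₀
  obtain ⟨U, hUn, hU, hUU₀, -, c, hc⟩ := exists_inf₁_of_isLC₁ hN hlc hU₀ hd hU₀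
  haveI := hUn
  exact ⟨U, hUn, hU, hUU₀, ⟨c, mem_cocycles₁_of_inf₁ (hc ▸ hcoc)⟩, hc⟩

/-- A level-constant 2-cocycle is inflated from a cocycle of a normal level. -/
theorem exists_inf₂_of_mem_Z2 {f : G × G → A} (hf : f ∈ L.Z2 A) {U₀ : Subgroup G}
    (hU₀ : U₀ ∈ L.levels) :
    ∃ (U : Subgroup G) (_ : U.Normal) (_ : U ∈ L.levels) (_ : U ≤ U₀)
      (c : cocycles₂ (A.quotientToInvariants U)), inf₂ A U c = f := by
  obtain ⟨hcoc, hlc⟩ := Submodule.mem_inf.1 hf
  have hd : IsRInv₃ U₀ ((d₂₃ A).hom f) := by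
    rw [show (d₂₃ A).hom f = 0 from hcoc]
    exact isRInv₃_zero U₀
  obtain ⟨U, hUn, hU, hUU₀, -, c, hc⟩ := exists_inf₂_of_isLC₂ hN hlc hU₀ hd hU₀
  haveI := hUn
  exact ⟨U, hUn, hU, hUU₀, ⟨c, mem_cocycles₂_of_inf₂ (hc ▸ hcoc)⟩, hc⟩

/-- A level-constant 3-cocycle is inflated from a cocycle of a normal level. -/
theorem exists_inf₃_of_isLC₃ {f : G × G × G → A} (hf : IsLC₃ L f) (hcoc : d34 A f = 0)
    {U₀ : Subgroup G} (hU₀ : U₀ ∈ L.levels) :
    ∃ (U : Subgroup G) (_ : U.Normal) (_ : U ∈ L.levels) (_ : U ≤ U₀)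
      (c : cocycles₃ (A.quotientToInvariants U)), inf₃ A U c = f := by
  obtain ⟨W', hW', hfW'⟩ := hf
  obtain ⟨U, hU, hUn, hUW', hUU₀⟩ := exists_normal_le hN hW' hU₀
  haveI := hUn
  have hr : IsRInv₃ U f := IsRInv₃.mono hUW' hfW'
  have hd : IsRInv₄ U (d34 A f) := by
    rw [hcoc]
    exact isRInv₄_zero U
  obtain ⟨c, hc⟩ := exists_inf₃ hr (isInv_of_isRInv₃ hr hd)
  exact ⟨U, hUn, hU, hUU₀, ⟨c, mem_cocycles₃_of_inf₃ (hc ▸ hcoc)⟩, hc⟩

omit hN in
/-- Inflation `H¹(G ⧸ U, A^U) → H¹_L(A)` is injective (cochain form). -/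
theorem inf₁_mem_B1_iff {U : Subgroup G} [U.Normal] (c : cocycles₁ (A.quotientToInvariants U)) :
    inf₁ A U c ∈ LevelSys.B1 A ↔
      (c : G ⧸ U → A.quotientToInvariants U) ∈ coboundaries₁ (A.quotientToInvariants U) := by
  constructor
  · rintro ⟨a, ha⟩
    have hd : IsRInv₁ U ((d₀₁ A).hom a) := by
      rw [ha]
      exact isRInv₁_inf₁ A U c
    obtain ⟨a', rfl⟩ := exists_inf₀ (isInv_of_isRInv₀ hd)
    refine ⟨a', ?_⟩
    apply inf₁_injective A U
    rw [← d₀₁_inf₀]
    exact ha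
  · rintro ⟨a', ha'⟩
    refine ⟨inf₀ A U a', ?_⟩
    rw [d₀₁_inf₀, ha']

omit hN in
/-- Inflation `H¹(G ⧸ U, A^U) → H¹_L(A)` is injective (class form). -/
theorem inf₁_mem_B1_iff_H1π {U : Subgroup G} [U.Normal]
    (c : cocycles₁ (A.quotientToInvariants U)) :
    inf₁ A U c ∈ LevelSys.B1 A ↔ H1π (A.quotientToInvariants U) c = 0 := by
  rw [inf₁_mem_B1_iff, H1π_eq_zero_iff]

/-- An inflated 2-cocycle is the coboundary of a level-constant cochain iff it becomes a
coboundary at a smaller normal level. -/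
theorem inf₂_mem_B2_iff {U : Subgroup G} [U.Normal] (hU : U ∈ L.levels)
    (c : cocycles₂ (A.quotientToInvariants U)) :
    inf₂ A U c ∈ L.B2 A ↔
      ∃ (U' : Subgroup G) (_ : U'.Normal) (_ : U' ∈ L.levels) (h : U' ≤ U),
        (lev₂ A h c : (G ⧸ U') × (G ⧸ U') → A.quotientToInvariants U') ∈
          coboundaries₂ (A.quotientToInvariants U') := by
  constructor
  · rintro ⟨b, hb, hbc⟩
    have hd : IsRInv₃ U ((d₂₃ A).hom ((d₁₂ A).hom b)) := by
      have : (d₂₃ A).hom ((d₁₂ A).hom b) = 0 := congr($(d₁₂_comp_d₂₃ A) b)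
      rw [this]
      exact isRInv₃_zero U
    have hd' : IsRInv₂ U ((d₁₂ A).hom b) := by
      rw [hbc]
      exact isRInv₂_inf₂ A U c
    obtain ⟨U', hU'n, hU', hU'U, -, b', hb'⟩ := exists_inf₁_of_isLC₁ hN hb hU hd' hU
    haveI := hU'n
    refine ⟨U', hU'n, hU', hU'U, b', ?_⟩
    apply inf₂_injective A U'
    rw [← d₁₂_inf₁, hb', inf₂_lev₂]
    exact hbc
  · rintro ⟨U', hU'n, hU', hU'U, b', hb'⟩
    haveI := hU'n
    refine ⟨inf₁ A U' b', isLC₁_inf₁ hU' b', ?_⟩
    rw [d₁₂_inf₁, hb', inf₂_lev₂]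

/-- Class form of `inf₂_mem_B2_iff`. -/
theorem inf₂_mem_B2_iff_infl {U : Subgroup G} [U.Normal] (hU : U ∈ L.levels)
    (c : cocycles₂ (A.quotientToInvariants U)) :
    inf₂ A U c ∈ L.B2 A ↔
      ∃ (U' : Subgroup G) (_ : U'.Normal) (_ : U' ∈ L.levels) (h : U' ≤ U),
        (infl A h 2).hom (H2π _ c) = 0 := by
  rw [inf₂_mem_B2_iff hN hU]
  constructor
  · rintro ⟨U', hU'n, hU', h, hc⟩
    haveI := hU'n
    exact ⟨U', hU'n, hU', h, by rw [infl_H2π]; exact (H2π_eq_zero_iff _).2 hc⟩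
  · rintro ⟨U', hU'n, hU', h, hc⟩
    haveI := hU'n
    exact ⟨U', hU'n, hU', h, by rw [infl_H2π] at hc; exact (H2π_eq_zero_iff _).1 hc⟩

/-- An inflated 3-cocycle is the coboundary of a level-constant cochain iff it becomes a
coboundary at a smaller normal level. -/
theorem inf₃_mem_B3_iff {U : Subgroup G} [U.Normal] (hU : U ∈ L.levels)
    (c : cocycles₃ (A.quotientToInvariants U)) :
    (∃ b ∈ L.C2 A, (d₂₃ A).hom b = inf₃ A U c) ↔
      ∃ (U' : Subgroup G) (_ : U'.Normal) (_ : U' ∈ L.levels) (h : U' ≤ U),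
        (lev₃ A h c : (G ⧸ U') × (G ⧸ U') × (G ⧸ U') → A.quotientToInvariants U') ∈
          coboundaries₃ (A.quotientToInvariants U') := by
  constructor
  · rintro ⟨b, hb, hbc⟩
    have hd' : IsRInv₃ U ((d₂₃ A).hom b) := by
      rw [hbc]
      exact isRInv₃_inf₃ A U c
    obtain ⟨U', hU'n, hU', hU'U, -, b', hb'⟩ := exists_inf₂_of_isLC₂ hN hb hU hd' hU
    haveI := hU'n
    refine ⟨U', hU'n, hU', hU'U, b', ?_⟩
    apply inf₃_injective A U'
    rw [← d₂₃_inf₂, hb', inf₃_lev₃]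
    exact hbc
  · rintro ⟨U', hU'n, hU', hU'U, b', hb'⟩
    haveI := hU'n
    refine ⟨inf₂ A U' b', isLC₂_inf₂ hU' b', ?_⟩
    rw [d₂₃_inf₂, hb', inf₃_lev₃]

/-- Class form of `inf₃_mem_B3_iff`. -/
theorem inf₃_mem_B3_iff_infl {U : Subgroup G} [U.Normal] (hU : U ∈ L.levels)
    (c : cocycles₃ (A.quotientToInvariants U)) :
    (∃ b ∈ L.C2 A, (d₂₃ A).hom b = inf₃ A U c) ↔
      ∃ (U' : Subgroup G) (_ : U'.Normal) (_ : U' ∈ L.levels) (h : U' ≤ U),
        (infl A h 3).hom (H3π _ c) = 0 := by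
  rw [inf₃_mem_B3_iff hN hU]
  constructor
  · rintro ⟨U', hU'n, hU', h, hc⟩
    haveI := hU'n
    exact ⟨U', hU'n, hU', h, by rw [infl_H3π]; exact (H3π_eq_zero_iff _).2 hc⟩
  · rintro ⟨U', hU'n, hU', h, hc⟩
    haveI := hU'n
    exact ⟨U', hU'n, hU', h, by rw [infl_H3π] at hc; exact (H3π_eq_zero_iff _).1 hc⟩

end Dictionary

/-! ## Cochain-level predicates (layer K) versus finite-level predicates (layer KL) -/

section Predicates

/-- `H³_L(A) = 0` (cochain form; the same predicate as `K.H3Vanish`). -/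
def H3Vanish (L : LevelSys G) (A : Rep.{0, 0, 0} k G) : Prop :=
  ∀ f : G × G × G → A, IsLC₃ L f → d34 A f = 0 → ∃ b ∈ L.C2 A, (d₂₃ A).hom b = f

/-- `H³_L(A)[n] = 0` (cochain form; the same predicate as `K.H3TorsVanish`). -/
def H3TorsVanish (L : LevelSys G) (A : Rep.{0, 0, 0} k G) (n : ℕ) : Prop :=
  ∀ f : G × G × G → A, IsLC₃ L f → d34 A f = 0 →
    (∃ b ∈ L.C2 A, (d₂₃ A).hom b = n • f) → ∃ b ∈ L.C2 A, (d₂₃ A).hom b = f

/-- `H²_L(A)` is `n`-divisible (cochain form; the same predicate as `K.H2Divisible`). -/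
def H2Divisible (L : LevelSys G) (A : Rep.{0, 0, 0} k G) (n : ℕ) : Prop :=
  ∀ f ∈ L.Z2 A, ∃ f' ∈ L.Z2 A, f - n • f' ∈ L.B2 A

/-- `H¹_L(A) = 0` (cochain form). -/
def H1Vanish (L : LevelSys G) (A : Rep.{0, 0, 0} k G) : Prop :=
  ∀ f ∈ L.Z1 A, f ∈ LevelSys.B1 A

/-- `H²_L(A) = 0` (cochain form). -/
def H2Vanish (L : LevelSys G) (A : Rep.{0, 0, 0} k G) : Prop :=
  ∀ f ∈ L.Z2 A, f ∈ L.B2 A

variable {L : LevelSys G} (hN : L.NormalCofinal) (hF : L.FiniteIndex) (A : Rep.{0, 0, 0} k G)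

/-- A normal level of `L` as a level of `nLevels L hN hF`. -/
abbrev toLvl {U : Subgroup G} (hU : U ∈ L.levels) (hUn : U.Normal) : (nLevels L hN hF).Lvl :=
  ⟨U, hU, hUn⟩

/-- **`H³_L(A) = 0` iff `colim_U H³(G ⧸ U, A^U) = 0`.** -/
theorem h3Vanish_iff : H3Vanish L A ↔ EffAll (nLevels L hN hF) A 3 := by
  constructor
  · intro H V y
    induction y using H3_induction_on with
    | h c =>
    obtain ⟨b, hb, hbc⟩ := H (inf₃ A V.W c) (isLC₃_inf₃ (A := A) (U := V.W) V.mem.1 _) (inf₃_mem_cocycles₃ A V.W c)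
    obtain ⟨U', hU'n, hU', h, hc⟩ := (inf₃_mem_B3_iff_infl hN V.mem.1 c).1 ⟨b, hb, hbc⟩
    exact ⟨toLvl hN hF hU' hU'n, h, hc⟩
  · intro H f hf hcoc
    obtain ⟨U₀, hU₀⟩ := L.nonempty
    obtain ⟨U, hUn, hU, -, c, rfl⟩ := exists_inf₃_of_isLC₃ hN hf hcoc hU₀
    haveI := hUn
    obtain ⟨V', h, hc⟩ := H (toLvl hN hF hU hUn) (H3π _ c)
    exact (inf₃_mem_B3_iff_infl hN hU c).2 ⟨V'.W, V'.mem.2, V'.mem.1, h, hc⟩

/-- **`H³_L(A)[n] = 0` iff `colim_U H³(G ⧸ U, A^U)[n] = 0`.** -/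
theorem h3TorsVanish_iff (n : ℕ) : H3TorsVanish L A n ↔ EffTors (nLevels L hN hF) A n 3 := by
  constructor
  · intro H V y hy
    induction y using H3_induction_on with
    | h c =>
    have hnc : ((n • c : cocycles₃ (A.quotientToInvariants V.W)) :
        (G ⧸ V.W) × (G ⧸ V.W) × (G ⧸ V.W) → A.quotientToInvariants V.W) ∈
        coboundaries₃ (A.quotientToInvariants V.W) := by
      rw [← H3π_eq_zero_iff, map_nsmul]
      exact hy
    obtain ⟨b', hb'⟩ := hnc
    have h1 : ∃ b ∈ L.C2 A, (d₂₃ A).hom b = n • inf₃ A V.W c := by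
      refine ⟨inf₂ A V.W b', isLC₂_inf₂ V.mem.1 b', ?_⟩
      rw [d₂₃_inf₂, hb', ← map_nsmul]
      rfl
    obtain ⟨b, hb, hbc⟩ := H (inf₃ A V.W c) (isLC₃_inf₃ (A := A) (U := V.W) V.mem.1 _) (inf₃_mem_cocycles₃ A V.W c) h1
    obtain ⟨U', hU'n, hU', h, hc⟩ := (inf₃_mem_B3_iff_infl hN V.mem.1 c).1 ⟨b, hb, hbc⟩
    exact ⟨toLvl hN hF hU' hU'n, h, hc⟩
  · intro H f hf hcoc hnf
    obtain ⟨U₀, hU₀⟩ := L.nonempty
    obtain ⟨U, hUn, hU, -, c, rfl⟩ := exists_inf₃_of_isLC₃ hN hf hcoc hU₀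
    haveI := hUn
    have h1 : ∃ b ∈ L.C2 A, (d₂₃ A).hom b = inf₃ A U (n • c : cocycles₃ _) := by
      obtain ⟨b, hb, hbc⟩ := hnf
      refine ⟨b, hb, ?_⟩
      rw [hbc, ← map_nsmul]
      rfl
    obtain ⟨U₁, hU₁n, hU₁, h₁, hc₁⟩ := (inf₃_mem_B3_iff_infl hN hU (n • c)).1 h1
    haveI := hU₁n
    rw [map_nsmul, map_nsmul] at hc₁
    obtain ⟨V', h', hc'⟩ := H (toLvl hN hF hU₁ hU₁n) ((infl A h₁ 3).hom (H3π _ c)) hc₁
    have h2 : (infl A (h'.trans h₁) 3).hom (H3π _ c) = 0 := by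
      rw [← H543.infl_infl A h' h₁ 3]
      exact hc'
    exact (inf₃_mem_B3_iff_infl hN hU c).2 ⟨V'.W, V'.mem.2, V'.mem.1, h'.trans h₁, h2⟩

/-- **`H²_L(A)` is `n`-divisible iff `colim_U H²(G ⧸ U, A^U) ⊗ ℤ/n = 0`.** -/
theorem h2Divisible_iff (n : ℕ) : H2Divisible L A n ↔ EffDiv (nLevels L hN hF) A n 2 := by
  constructor
  · intro H V x
    induction x using H2_induction_on with
    | h c =>
    obtain ⟨f', hf', hff'⟩ := H (inf₂ A V.W c) (inf₂_mem_Z2 V.mem.1 c)
    obtain ⟨U₁, hU₁n, hU₁, h₁, c', rfl⟩ := exists_inf₂_of_mem_Z2 hN hf' V.mem.1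
    haveI := hU₁n
    have e : inf₂ A V.W c - n • inf₂ A U₁ c' = inf₂ A U₁ (lev₂ A h₁ c - n • c' : cocycles₂ _) := by
      rw [← inf₂_lev₂ A h₁ c, ← map_nsmul, ← map_sub]
      rfl
    rw [e] at hff'
    obtain ⟨U', hU'n, hU', h', hc⟩ := (inf₂_mem_B2_iff_infl hN hU₁ _).1 hff'
    haveI := hU'n
    refine ⟨toLvl hN hF hU' hU'n, h'.trans h₁, (infl A h' 2).hom (H2π _ c'), ?_⟩
    rw [map_sub, map_sub, map_nsmul, map_nsmul, sub_eq_zero, ← infl_H2π A h₁ c,
      H543.infl_infl A h' h₁ 2] at hc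
    exact hc
  · intro H f hf
    obtain ⟨U₀, hU₀⟩ := L.nonempty
    obtain ⟨U, hUn, hU, -, c, rfl⟩ := exists_inf₂_of_mem_Z2 hN hf hU₀
    haveI := hUn
    obtain ⟨V', h, w, hw⟩ := H (toLvl hN hF hU hUn) (H2π _ c)
    have h' : V'.W ≤ U := h
    induction w using H2_induction_on with
    | h c' =>
    refine ⟨inf₂ A V'.W c', inf₂_mem_Z2 V'.mem.1 c', ?_⟩
    have e : inf₂ A U c - n • inf₂ A V'.W c' =
        inf₂ A V'.W (lev₂ A h' c - n • c' : cocycles₂ _) := by
      rw [← inf₂_lev₂ A h' c, ← map_nsmul, ← map_sub]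
      rfl
    rw [e]
    refine inf₂_mem_B2_of_H2π V'.mem.1 ?_
    rw [map_sub, map_nsmul, ← infl_H2π, sub_eq_zero]
    exact hw

/-- **`H²_L(A) = 0` iff `colim_U H²(G ⧸ U, A^U) = 0`.** -/
theorem h2Vanish_iff : H2Vanish L A ↔ EffAll (nLevels L hN hF) A 2 := by
  constructor
  · intro H V y
    induction y using H2_induction_on with
    | h c =>
    obtain ⟨U', hU'n, hU', h, hc⟩ :=
      (inf₂_mem_B2_iff_infl hN V.mem.1 c).1 (H _ (inf₂_mem_Z2 V.mem.1 c))
    exact ⟨toLvl hN hF hU' hU'n, h, hc⟩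
  · intro H f hf
    obtain ⟨U₀, hU₀⟩ := L.nonempty
    obtain ⟨U, hUn, hU, -, c, rfl⟩ := exists_inf₂_of_mem_Z2 hN hf hU₀
    haveI := hUn
    obtain ⟨V', h, hc⟩ := H (toLvl hN hF hU hUn) (H2π _ c)
    exact (inf₂_mem_B2_iff_infl hN hU c).2 ⟨V'.W, V'.mem.2, V'.mem.1, h, hc⟩

/-- **`H¹_L(A) = 0` iff `H¹(G ⧸ U, A^U) = 0` for all normal levels `U`** (inflation is injective
in degree `1`). -/
theorem h1Vanish_iff :
    H1Vanish L A ↔ ∀ (V : (nLevels L hN hF).Lvl) (y : HL A V.W 1), y = 0 := by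
  constructor
  · intro H V y
    induction y using H1_induction_on with
    | h c => exact (inf₁_mem_B1_iff_H1π c).1 (H _ (inf₁_mem_Z1 V.mem.1 c))
  · intro H f hf
    obtain ⟨U₀, hU₀⟩ := L.nonempty
    obtain ⟨U, hUn, hU, -, c, rfl⟩ := exists_inf₁_of_mem_Z1 hN hf hU₀
    haveI := hUn
    exact (inf₁_mem_B1_iff_H1π c).2 (H (toLvl hN hF hU hUn) (H1π _ c))

end Predicates

end Fermat.Agent.S55.ColH543

end

end
-- ===== PACK-END S55/ColH543/Colimit.lean

-- ===== PACK-BEGIN S56/FL/RamGlue2.lean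
section



/-!
# Row S56 — W-FLAT-SS, piece RAMCOUNT: second glue (helper426).  Sorry-free.

`RCDepStatement` merges `RCWild + RCBreak + RCLine` into one target (the shape delivered by the
abstract count `H846.FLCntStatement` once its hypotheses are instantiated from an `RCDatum`):

`ramCount_of_dep : RCTameStatement → RCDepStatement → RamCountStatement`.
-/

set_option autoImplicit false

open Polynomial IsLocalRing

noncomputable section

namespace Fermat.Agent.S56.FL

/-- (DEP) `c₁, c₂` are linearly dependent on `ker ρ` (given `p ∤ [Γ : ker ρ]`). -/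
def RCDepStatement : Prop :=
  ∀ d : RCDatum, ¬ d.p ∣ d.ρ.ker.index → d.DepOnKer

/-- The three-step form of the count gives the one-step form. -/
theorem rcDep_of (hW : RCWildStatement) (hB : RCBreakStatement) (hL : RCLineStatement) :
    RCDepStatement :=
  fun d hd => hL d hd (hW d hd) (hB d hd (hW d hd))

/-- Glue for the ramification count, one-step form. -/
theorem ramCount_of_dep (hT : RCTameStatement) (hDep : RCDepStatement) : RamCountStatement := by
  intro p hpf hp2 A B _ _ _ _ _ _ _ _ _ _ Γ _ _ _ _ _ _ hA hκ e he hD k _ _ hchar V _ _ _ hV ρ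
    hirr hsplit ζ hζ hdet c₁ c₂ hc₁ hc₂ htr₁ htr₂ hfaith
  let d : RCDatum :=
    { p := p, A := A, B := B, Γ := Γ, k := k, V := V, hp := hpf.out, hp2 := hp2, hA := hA,
      hκ := hκ, e := e, he := he, hD := hD, hchar := hchar, hV := hV, ρ := ρ, hirr := hirr,
      hsplit := hsplit, ζ := ζ, hζ := hζ, hdet := hdet, c₁ := c₁, c₂ := c₂, hc₁ := hc₁,
      hc₂ := hc₂, htr₁ := htr₁, htr₂ := htr₂, hfaith := hfaith }
  have hT' : ¬ p ∣ ρ.ker.index := hT d
  obtain ⟨a₁, a₂, ha, hker⟩ := hDep d hT'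
  have := hchar
  obtain ⟨m, hm⟩ := rcInfl p Γ k V ρ hT' (fun σ => a₁ • c₁ σ + a₂ • c₂ σ)
    (by
      intro σ τ
      simp only [hc₁, hc₂, smul_add, mul_add, add_mul, mul_smul_comm, smul_mul_assoc]
      abel)
    (fun σ hσ => hker σ hσ)
  exact ⟨a₁, a₂, ha, m, hm⟩

end Fermat.Agent.S56.FL

end

end
-- ===== PACK-END S56/FL/RamGlue2.lean

-- ===== PACK-BEGIN S56/H116/Root.lean
section




/-!
# S56 / W-FLAT-SS / LocalModel / ROOT: assembly (helper116)

`root_of : FL.RationalityStatement → FL.RootStatement`.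

Ingredients:
* R1 (`H116.Root.exists_eta`, `RootEta.lean`): the perturbation map `η : ∑ a_i ϖ^i ↦ ∑ a_i ϖ'^i`
  attached to a root `ϖ'` of `G + p X^j` is additive, multiplicative modulo `p ϖ^j`, isometric and
  the identity on `B'`;
* R2 (`H254.level_of_fixes`): Theorem A for the pair of flat lifts;
* R3 (`H434.mem_decompositionSubgroup_of_fixes`, `H434.fixes_of_fixes`): Galois theory
  (`G1`: automorphisms fixing the decomposition ring lie in `D_P`; `G2`: degree count).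

Sorry-free.
-/

set_option autoImplicit false

open Polynomial

noncomputable section

namespace Fermat.Agent.S56.H116.Root

open Fermat.Agent.S56 Fermat.Agent.S56.H716 Fermat.Agent.S56.FL

local notation "Zloc" => GaloisRep.ratLocalizedAt

/-- An automorphism fixing `B'` pointwise and fixing `z` fixes the values at `z` of the
polynomials with coefficients in `B'`. -/
theorem apply_ev_of_fixes (B' : Subring Qb) (σ : GQ) (hσ : ∀ b ∈ B', σ b = b) {z : Qb}
    (hz : σ z = z) (f : Polynomial B') : σ (ev B' z f) = ev B' z f := by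
  rw [ev_apply]
  have h1 := Polynomial.hom_eval₂ f B'.subtype (σ : Qb →+* Qb) z
  have h2 : ((σ : Qb →+* Qb).comp B'.subtype) = B'.subtype := by
    ext b
    exact hσ b b.2
  rw [h2] at h1
  have h3 : (σ : Qb →+* Qb) z = z := hz
  rw [h3] at h1
  exact h1

/-- Uniqueness of Eisenstein expansions, `Fin e`-indexed form. -/
theorem EisPres.eq_zero_of_sum_fin_eq_zero {Ω : Type*} [Field Ω] {Γ₀ : Type*}
    [LinearOrderedCommGroupWithZero Γ₀] {v : Valuation Ω Γ₀} {B' : Subring Ω} {π : Ω} {e : ℕ}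
    {ϖ : Ω} (h : EisPres v B' π e ϖ) (a : Fin e → Ω) (ha : ∀ i, a i ∈ B')
    (hsum : ∑ i, a i * ϖ ^ (i : ℕ) = 0) (i : Fin e) : a i = 0 := by
  classical
  set a' : ℕ → Ω := fun n => if hn : n < e then a ⟨n, hn⟩ else 0 with ha'
  have ha'mem : ∀ n, a' n ∈ B' := by
    intro n
    by_cases hn : n < e
    · simp only [ha', hn, dif_pos]
      exact ha _
    · simp only [ha', hn, dif_neg, not_false_eq_true]
      exact B'.zero_mem
  have hsum' : ∑ n ∈ Finset.range e, a' n * ϖ ^ n = 0 := by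
    rw [Finset.sum_range]
    rw [← hsum]
    refine Finset.sum_congr rfl fun n _ => ?_
    simp only [ha', n.2, dif_pos, Fin.eta]
  have := h.eq_zero_of_sum_eq_zero a' ha'mem hsum' i i.2
  simpa only [ha', i.2, dif_pos, Fin.eta] using this

/-- **ROOT.**  `RootStatement ⇐ RationalityStatement`. -/
theorem root_of (hRat : RationalityStatement) : RootStatement := by
  intro k _ _ p _ _ hchar ρbar P hP c₁ c₂ _ _ ρ₁ ρ₂ h₁ h₂ hf₁ hf₂ B' ϖ e G hA hB' hval hϖ hvpow
    hexp hGm hGdeg hGcoef hGval hG0 hroot j _ hj0 hje hejp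
  have hp : p.Prime := Fact.out
  have hp0 : (p : Qb) ≠ 0 := by exact_mod_cast hp.ne_zero
  have hvp_lt : P.valuation (p : Qb) < 1 := (ValuationSubring.mem_nonunits_iff (A := P)).mp hP
  have hvp_ne : P.valuation (p : Qb) ≠ 0 := (Valuation.ne_zero_iff _).mpr hp0
  have he0 : 0 < e := hj0.trans hje
  have hE : EisPres P.valuation B' (p : Qb) e ϖ :=
    { int := fun b hb => (P.valuation_le_one_iff _).mpr (hB' b hb).1
      val := hval
      vpow := hvpow
      lt_one := hvp_lt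
      ne_zero := hvp_ne
      epos := he0 }
  -- the perturbed polynomial
  have hdeglt : (C (p : Qb) * X ^ j).degree < G.degree := by
    refine lt_of_le_of_lt (Polynomial.degree_C_mul_X_pow_le j _) ?_
    rw [Polynomial.degree_eq_natDegree hGm.ne_zero, hGdeg]
    exact_mod_cast hje
  have hG'm : (G + C (p : Qb) * X ^ j).Monic := hGm.add_of_left hdeglt
  have hG'deg : (G + C (p : Qb) * X ^ j).natDegree = e := by
    rw [Polynomial.natDegree_add_eq_left_of_degree_lt hdeglt, hGdeg]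
  have hG'coef : ∀ i, (G + C (p : Qb) * X ^ j).coeff i ∈ B' := by
    intro i
    rw [Polynomial.coeff_add, Polynomial.coeff_C_mul_X_pow]
    refine B'.add_mem (hGcoef i) ?_
    split_ifs
    · exact natCast_mem B' p
    · exact B'.zero_mem
  obtain ⟨ϖ', hϖ'⟩ : ∃ z, (G + C (p : Qb) * X ^ j).eval z = 0 := by
    refine IsAlgClosed.exists_root _ ?_
    rw [Polynomial.degree_eq_natDegree hG'm.ne_zero, hG'deg]
    exact_mod_cast he0.ne'
  have hroot' : G.eval ϖ' + (p : Qb) * ϖ' ^ j = 0 := by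
    simpa only [Polynomial.eval_add, Polynomial.eval_mul, Polynomial.eval_C, Polynomial.eval_pow,
      Polynomial.eval_X] using hϖ'
  -- R1
  obtain ⟨hvϖ', η, hη1, hηadd, hηmul, hηB, hηv, hηev⟩ :=
    exists_eta B' hE hGm hGdeg hGcoef hGval hG0 hroot hj0 hje hroot'
      (levelSet ρbar c₁ c₂ P) hexp
  -- the bound `γ ^ (p - 1) < |p|` for `γ = |ϖ| ^ j`
  have hγ : (P.valuation ϖ ^ j) ^ (p - 1) < P.valuation (p : Qb) := by
    rw [← pow_mul, ← hvpow]
    exact pow_lt_pow_right_of_lt_one₀ hE.vϖ_pos hE.vϖ_lt_one hejp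
  have hZ : ∀ r : Zloc p, algebraMap (Zloc p) Qb r ∈ B' := fun r =>
    hA _ (H254.algebraMap_mem_valuationSubring P hP r) (fun τ _ => τ.commutes _)
  -- every automorphism fixing `B'` and `ϖ'` fixes `ϖ`
  have hkey : ∀ σ : GQ, (∀ b ∈ B', σ b = b) → σ ϖ' = ϖ' → σ ϖ = ϖ := by
    intro σ hσB hσϖ'
    have hσD : σ ∈ P.decompositionSubgroup ℚ :=
      H434.mem_decompositionSubgroup_of_fixes P σ (fun x hx hfix => hσB x (hA x hx hfix))
    have hfix : ∀ a ∈ levelSet ρbar c₁ c₂ P, σ (η a) = η a := by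
      intro a ha
      obtain ⟨f, hf⟩ := hηev a ha
      rw [hf]
      exact apply_ev_of_fixes B' σ hσB hσϖ' f
    obtain ⟨h1, h2, h3⟩ := H254.level_of_fixes hRat hchar hP h₁ h₂ hf₁ hf₂
      (P.valuation ϖ ^ j) (pow_ne_zero _ hE.vϖ_ne_zero) hγ η hη1
      (fun a ha b hb => by rw [hηadd a ha b hb, sub_self, map_zero]; exact zero_le)
      hηmul
      (fun r => by rw [hηB _ (hZ r), sub_self, map_zero]; exact zero_le)
      (fun a ha h => by rw [← hηv a ha]; exact h)
      hσD hfix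
    exact hϖ.2 σ hσD h1 h2 h3
  -- R3: degree count
  have hfinal := H434.fixes_of_fixes B' ϖ ϖ' e (G + C (p : Qb) * X ^ j) hG'm hG'deg hG'coef hϖ'
    (fun a ha hsum => hE.eq_zero_of_sum_fin_eq_zero a ha hsum) hkey
  refine ⟨ϖ', ⟨(P.valuation_le_one_iff _).mp (hvϖ' ▸ hE.vϖ_le_one), fun τ hτ h1 h2 h3 => ?_⟩,
    hroot'⟩
  exact hfinal τ (fun b hb => (hB' b hb).2 τ hτ h1 h2 h3) (hϖ.2 τ hτ h1 h2 h3)

end Fermat.Agent.S56.H116.Root

end

end
-- ===== PACK-END S56/H116/Root.lean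

-- ===== PACK-BEGIN S56/H906/FlatOSpec.lean
section



/-!
# Row S56 — FLAT-O (flat tangent bound at `p`, reducible case): interface (helper906)

Plan and all the mathematics: `coord/S56-FLATO-helper906.md` on `origin/helper906`.

`FlatOStatement`  ⇐  (FI) + (FT) + (FU) + (KUM) + (TAMEFROB) + (UNRHOM)      (assembly = piece ASM)

Everything local at `p` is phrased on the landed A3 Hopf lattices
(`Fermat.Agent.S19.H435.IsHopfLattice`): a `ℤ_(p)`-subalgebra `Λ ⊂ (M → ℚ̄)` of equivariant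
functions on a finite Galois module `M`, closed under `f ↦ f(x + y)`.  A Prelude `IsFlatAt`
gives such a lattice by `Fermat.Agent.S19.H435.exists_isHopfLattice_of_hopfModel`; quotients
are `IsHopfLattice.quotient`.

* `UnrValStatement` (UNR): an inertia-fixed element of `ℚ̄` has the valuation of a power of `p`.
* `LemmaAStatement` (A): a point of order `p` all of whose coordinates are `≡` the coordinates
  of `0` modulo `lam`, where `v(lam)^(p-1) < v(p)`, is `0`.
* `FlatInertiaStatement` (FI): an inertia-fixed point in the subgroup generated by the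
  `σ y - y`, `σ ∈ I_P`, is `0`.                                           [(UNR) + (A)]
* `FlatTameStatement` (FT): if inertia acts on `x ≠ 0` through `𝔽_p^×`, the character is trivial
  or the cyclotomic character.                                        [(UNR) + (A) + leading terms]
* `FlatUnitStatement` (FU): unit resolvent = "peu ramifié".
* `KumStatement` (KUM): the peu ramifié classes in `H¹(D_P, k(a))`, `a|_I = ω`, span `≤ 1`
  dimension.
* `TameFrobStatement`, `UnramHomStatement`: structure of `D_P / wild inertia`.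

Nothing is proved in this file; nothing is `sorry`.
-/

set_option autoImplicit false

open Polynomial IsLocalRing

noncomputable section

namespace Fermat.Agent.S56.H906

open Fermat.Agent.S56 Fermat.Agent.S56.H716

/-- `ℤ_(p)` (the Prelude ring). -/
abbrev Zp (p : ℕ) : Type := Fermat.Agent.S19.H435.Zl p

/-- Hopf lattices of cell A3. -/
abbrev IsHL (p : ℕ) {M : Type} [AddCommGroup M] (act : GQ → M → M)
    (Λ : Subalgebra (Zp p) (M → Qb)) : Prop :=
  Fermat.Agent.S19.H435.IsHopfLattice p act Λ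

/-! ## Local flatness inputs -/

/-- (UNR) the inertia field is unramified: the valuation of an inertia-fixed element is an
integral power of the valuation of `p`. -/
def UnrValStatement : Prop :=
  ∀ p : ℕ, p.Prime → ∀ P : ValuationSubring Qb, P.LiesOverPrime p →
    ∀ y : Qb, y ≠ 0 → (∀ σ ∈ P.inertiaSubgroupIn ℚ, σ y = y) →
      ∃ n : ℤ, P.valuation y = P.valuation (p : Qb) ^ n

/-- (A) rigidity of points of order `p` ("Lemma A", all `p`; for `lam = p` it needs `p ≥ 3`). -/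
def LemmaAStatement : Prop :=
  ∀ (p : ℕ) [Fact p.Prime] (M : Type) [AddCommGroup M] [Finite M] (act : GQ → M → M)
    (Λ : Subalgebra (Zp p) (M → Qb)), IsHL p act Λ →
    ∀ P : ValuationSubring Qb, P.LiesOverPrime p →
    ∀ (x : M) (lam : Qb), p • x = 0 →
      P.valuation lam ^ (p - 1) < P.valuation (p : Qb) →
      (∀ f ∈ Λ, P.valuation (f x - f 0) ≤ P.valuation lam) → x = 0

/-- (FI) connected–étale, Galois-module form: `(I_aug M) ∩ M^I = 0` for a flat `M` killed by
`p`, `p` odd. -/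
def FlatInertiaStatement : Prop :=
  ∀ (p : ℕ) [Fact p.Prime], p ≠ 2 →
    ∀ (M : Type) [AddCommGroup M] [Finite M] (act : GQ → M → M)
    (Λ : Subalgebra (Zp p) (M → Qb)), IsHL p act Λ → (∀ x : M, p • x = 0) →
    ∀ P : ValuationSubring Qb, P.LiesOverPrime p → ∀ x : M,
      (∀ σ ∈ P.inertiaSubgroupIn ℚ, act σ x = x) →
      x ∈ AddSubgroup.closure
        {z : M | ∃ σ ∈ P.inertiaSubgroupIn ℚ, ∃ y : M, z = act σ y - y} →
      x = 0

/-- (FT) Raynaud's tame characters in the only case needed: if inertia acts on a nonzero point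
`x` of a flat `M` (killed by `p`, `p` odd) through scalars of `𝔽_p`, then it acts trivially or
through the cyclotomic character. -/
def FlatTameStatement : Prop :=
  ∀ (p : ℕ) [Fact p.Prime], p ≠ 2 →
    ∀ (M : Type) [AddCommGroup M] [Finite M] (act : GQ → M → M)
    (Λ : Subalgebra (Zp p) (M → Qb)), IsHL p act Λ → (∀ x : M, p • x = 0) →
    ∀ P : ValuationSubring Qb, P.LiesOverPrime p → ∀ x : M, x ≠ 0 →
      (∀ τ ∈ P.inertiaSubgroupIn ℚ, ∃ n : ℕ, act τ x = n • x) →
      (∀ τ ∈ P.inertiaSubgroupIn ℚ, act τ x = x) ∨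
        (∀ τ ∈ P.inertiaSubgroupIn ℚ, ∀ a : ℕ, IsCycExp p τ a → act τ x = a • x)

/-- (FU) unit resolvent.  `H := {σ ∈ I_P : σ ζ = ζ}`; `L ⊂ M` a subgroup fixed pointwise by `H`
and containing all `σ y - y` (`σ ∈ H`).  Then for every point `x` and every additive character
`ξ : M → 𝔽_p` the Kummer character `σ ↦ ζ^{ξ(σ x - x)}` of `H` is the Kummer character of a
`P`-unit. -/
def FlatUnitStatement : Prop :=
  ∀ (p : ℕ) [Fact p.Prime]
    (M : Type) [AddCommGroup M] [Finite M] (act : GQ → M → M)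
    (Λ : Subalgebra (Zp p) (M → Qb)), IsHL p act Λ → (∀ x : M, p • x = 0) →
    ∀ P : ValuationSubring Qb, P.LiesOverPrime p →
    ∀ ζ : Qb, IsPrimitiveRoot ζ p → ∀ L : AddSubgroup M,
      (∀ σ ∈ P.inertiaSubgroupIn ℚ, σ ζ = ζ → ∀ t ∈ L, act σ t = t) →
      (∀ σ ∈ P.inertiaSubgroupIn ℚ, σ ζ = ζ → ∀ y : M, act σ y - y ∈ L) →
      ∀ (ξ : M →+ ZMod p) (x : M),
        ∃ B : Qb, P.valuation B = 1 ∧
          ∀ σ ∈ P.inertiaSubgroupIn ℚ, σ ζ = ζ → σ B = ζ ^ (ξ (act σ x - x)).val * B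

/-! ## Local Galois cohomology at `p` -/

section Loc

variable (p : ℕ) (P : ValuationSubring Qb) {k : Type} [Field k]

/-- `a` has finite level on `D_P`. -/
def HasLevelOn (a : GQ → k) : Prop :=
  ∃ L : IntermediateField ℚ Qb, FiniteDimensional ℚ L ∧
    ∀ σ ∈ P.decompositionSubgroup ℚ, ∀ τ ∈ P.decompositionSubgroup ℚ,
      (∀ x ∈ L, τ x = x) → a (σ * τ) = a σ

/-- `a : G_ℚ → k` restricts to a character of `D_P` of finite level. -/
structure IsLocChar (a : GQ → k) : Prop where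
  map_one : a 1 = 1
  map_mul : ∀ σ ∈ P.decompositionSubgroup ℚ, ∀ τ ∈ P.decompositionSubgroup ℚ,
    a (σ * τ) = a σ * a τ
  level : HasLevelOn P a

/-- `a` is a character of `D_P` which is the mod-`p` cyclotomic character on inertia. -/
structure IsOrdChar (a : GQ → k) : Prop extends IsLocChar P a where
  cyc : ∀ σ ∈ P.inertiaSubgroupIn ℚ, ∀ n : ℕ, IsCycExp p σ n → a σ = (n : k)

/-- `c` restricts to a cocycle `D_P → k(a)` of finite level. -/
structure IsLocCocycle (a c : GQ → k) : Prop where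
  map_mul : ∀ σ ∈ P.decompositionSubgroup ℚ, ∀ τ ∈ P.decompositionSubgroup ℚ,
    c (σ * τ) = c σ + a σ * c τ
  level : HasLevelOn P c

/-- `c` is *peu ramifié*: every `𝔽_p`-component of `c`, restricted to `{σ ∈ I_P : σ ζ = ζ}`,
is the Kummer character of a `P`-unit. -/
def IsPeu (c : GQ → k) : Prop :=
  ∀ ζ : Qb, IsPrimitiveRoot ζ p → ∀ ℓ : k →+ ZMod p,
    ∃ B : Qb, P.valuation B = 1 ∧
      ∀ σ ∈ P.inertiaSubgroupIn ℚ, σ ζ = ζ → σ B = ζ ^ (ℓ (c σ)).val * B

end Loc

/-- (KUM) the peu ramifié classes in `H¹(D_P, k(a))`, `a|_{I_P}` cyclotomic, span at most one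
dimension. -/
def KumStatement : Prop :=
  ∀ (p : ℕ) [Fact p.Prime], p ≠ 2 → ∀ (k : Type) [Field k] [Finite k] [CharP k p]
    (P : ValuationSubring Qb), P.LiesOverPrime p → ∀ a : GQ → k, IsOrdChar p P a →
    ∃ c₀ : GQ → k, ∀ c : GQ → k, IsLocCocycle P a c → IsPeu p P c →
      ∃ lam m : k, ∀ σ ∈ P.decompositionSubgroup ℚ, c σ = lam * c₀ σ + (a σ - 1) * m

/-- (TAMEFROB) a character `D_P → k^×` (`k` finite of characteristic `p`) has values in
`𝔽_p^×` on inertia. -/
def TameFrobStatement : Prop :=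
  ∀ (p : ℕ) [Fact p.Prime] (k : Type) [Field k] [Finite k] [CharP k p]
    (P : ValuationSubring Qb), P.LiesOverPrime p → ∀ a : GQ → k, IsLocChar P a →
    ∀ τ ∈ P.inertiaSubgroupIn ℚ, a τ ^ p = a τ

/-- (UNRHOM) `D_P / I_P` is procyclic: an unramified homomorphism `D_P → k` of finite level
vanishing at one (suitable) element `φ` vanishes. -/
def UnramHomStatement : Prop :=
  ∀ (p : ℕ), p.Prime → ∀ (P : ValuationSubring Qb), P.LiesOverPrime p →
    ∃ φ ∈ P.decompositionSubgroup ℚ, ∀ (k : Type) [Field k] (h : GQ → k),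
      (∀ σ ∈ P.decompositionSubgroup ℚ, ∀ τ ∈ P.decompositionSubgroup ℚ,
        h (σ * τ) = h σ + h τ) →
      HasLevelOn P h → (∀ σ ∈ P.inertiaSubgroupIn ℚ, h σ = 0) → h φ = 0 →
      ∀ σ ∈ P.decompositionSubgroup ℚ, h σ = 0

/-! ## The local bound -/

section Top

variable {k : Type} [Field k] (ρbar : ResidualGaloisRep k) (P : ValuationSubring Qb)

/-- `H⁰(D_P, ad⁰ ρ̄)`: trace-zero endomorphisms commuting with `ρ̄(D_P)`. -/
def adInv : Submodule k (Module.End k ρbar.V) where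
  carrier := {m | LinearMap.trace k ρbar.V m = 0 ∧
    ∀ σ ∈ P.decompositionSubgroup ℚ, ρbar.ρ σ * m = m * ρbar.ρ σ}
  add_mem' := by
    rintro a b ⟨ha, ha'⟩ ⟨hb, hb'⟩
    refine ⟨by rw [map_add, ha, hb, add_zero], fun σ hσ => ?_⟩
    rw [mul_add, add_mul, ha' σ hσ, hb' σ hσ]
  zero_mem' := ⟨map_zero _, fun σ _ => by rw [mul_zero, zero_mul]⟩
  smul_mem' := by
    rintro r a ⟨ha, ha'⟩
    refine ⟨by rw [map_smul, ha, smul_zero], fun σ hσ => ?_⟩
    rw [mul_smul_comm, smul_mul_assoc, ha' σ hσ]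

/-- `c` and `t` are cohomologous on `D_P` (as `ad⁰`-valued cochains). -/
def CohomOn (c t : GQ → Module.End k ρbar.V) : Prop :=
  ∃ m : Module.End k ρbar.V, LinearMap.trace k ρbar.V m = 0 ∧
    ∀ σ ∈ P.decompositionSubgroup ℚ, c σ - t σ = ρbar.ρ σ * m * ρbar.ρ σ⁻¹ - m

end Top

/-- The local flat bound at `P | p`: all flat tangent cocycles (any `Q`) lie, on `D_P` and modulo
coboundaries, in one `k`-space of dimension `≤ h⁰(D_P, ad⁰ ρ̄) + 1`. -/
def LocalBoundFlatAt (𝒪 : Type) [CommRing 𝒪] [IsLocalRing 𝒪] (p : ℕ)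
    (ρbar : ResidualGaloisRep (ResidueField 𝒪)) (Smin : Finset ℕ)
    (P : ValuationSubring Qb) : Prop :=
  ∃ T : Submodule (ResidueField 𝒪) (GQ → Module.End (ResidueField 𝒪) ρbar.V),
    Module.Finite (ResidueField 𝒪) T ∧
    Module.finrank (ResidueField 𝒪) T ≤ Module.finrank (ResidueField 𝒪) (_root_.Fermat.Agent.S56.H906.adInv ρbar P) + 1 ∧
    ∀ (Q : Finset ℕ) (c : GQ → Module.End (ResidueField 𝒪) ρbar.V),
      IsTanCocycle 𝒪 ρbar (flatCond 𝒪 p Smin Q) c → ∃ t ∈ T, CohomOn ρbar P c t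

/-- `ρ̄|_{D_P}` is reducible. -/
def IsReducibleAt {k : Type} [Field k] (ρbar : ResidualGaloisRep k)
    (P : ValuationSubring Qb) : Prop :=
  ∃ W : Submodule k ρbar.V, W ≠ ⊥ ∧ W ≠ ⊤ ∧
    ∀ σ ∈ P.decompositionSubgroup ℚ, ∀ x ∈ W, ρbar.ρ σ x ∈ W

/-- (FLAT-O) the local flat bound when `ρ̄|_{D_P}` is reducible. -/
def FlatOStatement : Prop :=
  ∀ (𝒪 : Type) [CommRing 𝒪] [IsDomain 𝒪] [IsDiscreteValuationRing 𝒪]
    [IsAdicComplete (maximalIdeal 𝒪) 𝒪] [Finite (ResidueField 𝒪)]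
    (p : ℕ) (ρbar : ResidualGaloisRep (ResidueField 𝒪)) (S Smin : Finset ℕ),
    Hyp 𝒪 p ρbar S Smin → ∀ P : ValuationSubring Qb, P.LiesOverPrime p →
      IsReducibleAt ρbar P → LocalBoundFlatAt 𝒪 p ρbar Smin P

/-- (FLAT-SS) the local flat bound when `ρ̄|_{D_P}` is irreducible (owner: FL plan of helper426). -/
def FlatSSStatement : Prop :=
  ∀ (𝒪 : Type) [CommRing 𝒪] [IsDomain 𝒪] [IsDiscreteValuationRing 𝒪]
    [IsAdicComplete (maximalIdeal 𝒪) 𝒪] [Finite (ResidueField 𝒪)]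
    (p : ℕ) (ρbar : ResidualGaloisRep (ResidueField 𝒪)) (S Smin : Finset ℕ),
    Hyp 𝒪 p ρbar S Smin → ∀ P : ValuationSubring Qb, P.LiesOverPrime p →
      ¬ IsReducibleAt ρbar P → LocalBoundFlatAt 𝒪 p ρbar Smin P

/-- (FLAT) = (FLAT-O) + (FLAT-SS): the local flat bound at every `P | p`. -/
def FlatStatement : Prop :=
  ∀ (𝒪 : Type) [CommRing 𝒪] [IsDomain 𝒪] [IsDiscreteValuationRing 𝒪]
    [IsAdicComplete (maximalIdeal 𝒪) 𝒪] [Finite (ResidueField 𝒪)]
    (p : ℕ) (ρbar : ResidualGaloisRep (ResidueField 𝒪)) (S Smin : Finset ℕ),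
    Hyp 𝒪 p ρbar S Smin → ∀ P : ValuationSubring Qb, P.LiesOverPrime p →
      LocalBoundFlatAt 𝒪 p ρbar Smin P

theorem flat_of_cases (hO : FlatOStatement) (hSS : FlatSSStatement) : FlatStatement := by
  intro 𝒪 _ _ _ _ _ p ρbar S Smin hyp P hP
  by_cases h : IsReducibleAt ρbar P
  · exact hO 𝒪 p ρbar S Smin hyp P hP h
  · exact hSS 𝒪 p ρbar S Smin hyp P hP h

/-- Target of the assembly (piece ASM). -/
def AsmStatement : Prop :=
  FlatInertiaStatement → FlatTameStatement → FlatUnitStatement → KumStatement →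
    TameFrobStatement → UnramHomStatement → FlatOStatement

end Fermat.Agent.S56.H906

end

end
-- ===== PACK-END S56/H906/FlatOSpec.lean

-- ===== PACK-BEGIN S19/H435/Sub.lean
section
/-
A3 / WP-C pieces C, D (helper435): pullback of a Hopf lattice along an injective, additive,
Galois-compatible map (sub-objects and transport along isomorphisms).
-/




set_option autoImplicit false
set_option linter.style.haveILetI false

noncomputable section

namespace Fermat.Agent.S19.H435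

variable {ℓ : ℕ} {M : Type*} [AddCommGroup M] {act : Gal → M → M}
  {Λ : Subalgebra (Zl ℓ) (M → _root_.Fermat.Agent.S19.H435.Qb)}

namespace IsHopfLattice

/-- **Pieces C, D (sub-objects, transport).** Restriction of a Hopf lattice along an injective
additive map compatible with the Galois actions. -/
theorem pullback (hΛ : IsHopfLattice ℓ act Λ) {M' : Type*} [AddCommGroup M'] (ι : M' →+ M)
    (hι : Function.Injective ι) (act' : Gal → M' → M')
    (hcompat : ∀ σ m', ι (act' σ m') = act σ (ι m')) :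
    IsHopfLattice ℓ act' (Λ.map (precompAlgHom ℓ ι)) := by
  refine ⟨?_, ?_, ?_, ?_⟩
  · have h1 : Subalgebra.toSubmodule (Λ.map (precompAlgHom ℓ ι)) =
        (Subalgebra.toSubmodule Λ).map (precompAlgHom ℓ ι).toLinearMap := by
      ext f
      simp [Subalgebra.mem_map]
    rw [h1]
    exact hΛ.fg.map _
  · rintro _ ⟨f, hf, rfl⟩ σ m'
    show f (ι (act' σ m')) = σ (f (ι m'))
    rw [hcompat]
    exact hΛ.equivariant f hf σ (ι m')
  · intro m n hmn
    obtain ⟨f, hf, hfne⟩ := hΛ.separates (ι m) (ι n) (fun h => hmn (hι h))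
    exact ⟨precompAlgHom ℓ ι f, ⟨f, hf, rfl⟩, hfne⟩
  · rintro _ ⟨f, hf, rfl⟩
    obtain ⟨n, a, b, ha, hb, hab⟩ := hΛ.comul_mem f hf
    refine ⟨n, fun k => precompAlgHom ℓ ι (a k), fun k => precompAlgHom ℓ ι (b k),
      fun k => ⟨a k, ha k, rfl⟩, fun k => ⟨b k, hb k, rfl⟩, ?_⟩
    intro x y
    show f (ι (x + y)) = ∑ k, a k (ι x) * b k (ι y)
    rw [map_add, hab]

end IsHopfLattice

section HopfModel

open Fermat.Agent.S19 (HopfModel OrdStatement)

/-- Sub-objects (and transport): Hopf models pull back along injective compatible maps. -/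
theorem hopfModel_of_injective (hord : OrdStatement) {ℓ : ℕ} [Fact ℓ.Prime] {M M' : Type}
    [AddCommGroup M] [AddCommGroup M'] {act : Gal → M → M} (h : HopfModel ℓ M act)
    (ι : M' →+ M) (hι : Function.Injective ι) (act' : Gal → M' → M')
    (hcompat : ∀ σ m', ι (act' σ m') = act σ (ι m')) : HopfModel ℓ M' act' := by
  obtain ⟨Λ, hΛ⟩ := exists_isHopfLattice_of_hopfModel h
  exact (hΛ.pullback ι hι act' hcompat).hopfModel hord

/-- Quotients: Hopf models push forward along surjective compatible maps. -/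
theorem hopfModel_of_surjective (hord : OrdStatement) {ℓ : ℕ} [Fact ℓ.Prime] {M M'' : Type}
    [AddCommGroup M] [AddCommGroup M''] {act : Gal → M → M} (h : HopfModel ℓ M act)
    (π : M →+ M'') (hπ : Function.Surjective π) (act'' : Gal → M'' → M'')
    (hcompat : ∀ σ m, act'' σ (π m) = π (act σ m)) : HopfModel ℓ M'' act'' := by
  obtain ⟨Λ, hΛ⟩ := exists_isHopfLattice_of_hopfModel h
  haveI : Finite M := hΛ.finite
  exact (hΛ.quotient π hπ act'' hcompat).hopfModel hord

/-- Subquotients of Hopf models are Hopf models. -/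
theorem hopfModel_of_subquotient (hord : OrdStatement) {ℓ : ℕ} [Fact ℓ.Prime] {M M' M'' : Type}
    [AddCommGroup M] [AddCommGroup M'] [AddCommGroup M''] {act : Gal → M → M}
    (h : HopfModel ℓ M act)
    (ι : M' →+ M) (hι : Function.Injective ι) (act' : Gal → M' → M')
    (hcompat' : ∀ σ m', ι (act' σ m') = act σ (ι m'))
    (π : M' →+ M'') (hπ : Function.Surjective π) (act'' : Gal → M'' → M'')
    (hcompat'' : ∀ σ m, act'' σ (π m) = π (act' σ m)) : HopfModel ℓ M'' act'' :=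
  hopfModel_of_surjective hord (hopfModel_of_injective hord h ι hι act' hcompat') π hπ act''
    hcompat''

end HopfModel

end Fermat.Agent.S19.H435

end
end
-- ===== PACK-END S19/H435/Sub.lean

-- ===== PACK-BEGIN S59/H659/SOMat.lean
section


/-!
# S59, piece G3 (helper659): the strictly ordinary condition, matrix level

`IsSOStd 𝔓 p r` : the matrix representation `r` is in "strictly ordinary standard form" at the
place `𝔓` over `p`: the decomposition group acts by upper triangular matrices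
`[[x, *], [0, z]]` with `x = ε z` (`ε` the `p`-adic cyclotomic character) and `z = 1` on
inertia.

Main results, for an odd prime `p`:

* `exists_isSOStd_of_fibre` : if the push-forwards of `r` along a jointly injective pair of
  local homomorphisms of Artinian local rings are conjugate to representations in standard form,
  then so is `r`;
* `exists_isSOStd_of_quotients` : the same for the quotients `A ⧸ 𝔪ⁿ` of a Noetherian local ring.

The point is that the stable line is unique: it is spanned by a column of `r σ₀ - 1`, where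
`σ₀` is an element of the inertia group on which the cyclotomic character is not `1` modulo `p`.
-/

set_option autoImplicit false
set_option linter.unusedSectionVars false
set_option linter.style.haveILetI false

namespace Fermat.Agent.S59.H659

open Fermat.Agent.S53 IsLocalRing Polynomial

/-- Strictly ordinary standard form at the place `𝔓`. -/
structure IsSOStd (𝔓 : ValuationSubring (AlgebraicClosure ℚ)) (p : ℕ) {A : Type} [CommRing A]
    (r : GQ →* M2 A) : Prop where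
  dec : ∀ σ ∈ 𝔓.decompositionSubgroup ℚ, r σ 1 0 = 0 ∧ CycCong p σ (r σ 0 0) (r σ 1 1)
  inert : ∀ σ ∈ 𝔓.inertiaSubgroupIn ℚ, r σ 1 1 = 1

theorem mem_decomposition_of_mem_inertia {𝔓 : ValuationSubring (AlgebraicClosure ℚ)} {σ : GQ}
    (hσ : σ ∈ 𝔓.inertiaSubgroupIn ℚ) : σ ∈ 𝔓.decompositionSubgroup ℚ := by
  obtain ⟨τ, -, rfl⟩ := hσ
  exact τ.2

section Conj

variable {A B : Type} [CommRing A] [CommRing B]

/-- Conjugation of a matrix representation by a unit (over any commutative ring; it is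
`S53.conjRep` over local rings). -/
noncomputable def cj (P : (M2 A)ˣ) (r : GQ →* M2 A) : GQ →* M2 A where
  toFun σ := (P : M2 A) * r σ * ((P⁻¹ : (M2 A)ˣ) : M2 A)
  map_one' := by simp
  map_mul' σ τ := by
    rw [map_mul]
    simp only [mul_assoc]
    congr 2
    rw [← mul_assoc (((P⁻¹ : (M2 A)ˣ) : M2 A)), Units.inv_mul, one_mul]

theorem cj_apply (P : (M2 A)ˣ) (r : GQ →* M2 A) (σ : GQ) :
    cj P r σ = (P : M2 A) * r σ * ((P⁻¹ : (M2 A)ˣ) : M2 A) := rfl

theorem cj_eq_conjRep [IsLocalRing A] (P : (M2 A)ˣ) (r : GQ →* M2 A) : cj P r = conjRep P r :=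
  MonoidHom.ext fun σ => by rw [cj_apply, conjRep_apply]

theorem cj_mul_eq (P : (M2 A)ˣ) (r : GQ →* M2 A) (σ : GQ) :
    (P : M2 A) * r σ = cj P r σ * P := by
  rw [cj_apply, mul_assoc, Units.inv_mul, mul_one]

theorem cj_cj (P Q : (M2 A)ˣ) (r : GQ →* M2 A) : cj P (cj Q r) = cj (P * Q) r := by
  refine MonoidHom.ext fun σ => ?_
  simp only [cj_apply, Units.val_mul, mul_inv_rev, mul_assoc]

theorem unit_inv_map (φ : A →+* B) (P : (M2 A)ˣ) :
    (((P⁻¹ : (M2 A)ˣ) : M2 A)).map φ = ((Units.map φ.mapMatrix.toMonoidHom P)⁻¹ : (M2 B)ˣ) := by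
  rw [← map_inv]
  rfl

theorem mapRep_cj (φ : A →+* B) (P : (M2 A)ˣ) (r : GQ →* M2 A) :
    mapRep φ (cj P r) = cj (Units.map φ.mapMatrix.toMonoidHom P) (mapRep φ r) := by
  refine MonoidHom.ext fun σ => ?_
  rw [mapRep_apply, cj_apply, cj_apply, Matrix.map_mul, Matrix.map_mul, mapRep_apply,
    unit_inv_map]
  rfl

end Conj

section Descent

variable {𝔓 : ValuationSubring (AlgebraicClosure ℚ)} {p : ℕ}

/-- Standard form descends along jointly injective pairs. -/
theorem IsSOStd.of_fibre (hp : p ≠ 0) {P A B : Type} [CommRing P] [CommRing A] [CommRing B]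
    (pA : P →+* A) (pB : P →+* B) (hinj : Function.Injective (fun x => (pA x, pB x)))
    (hpA : IsNilpotent (p : A)) (hpB : IsNilpotent (p : B)) {r : GQ →* M2 P}
    (hA : IsSOStd 𝔓 p (mapRep pA r)) (hB : IsSOStd 𝔓 p (mapRep pB r)) : IsSOStd 𝔓 p r where
  dec := by
    intro σ hσ
    obtain ⟨hA1, hA2⟩ := hA.dec σ hσ
    obtain ⟨hB1, hB2⟩ := hB.dec σ hσ
    rw [mapRep_apply_apply] at hA1 hB1
    rw [mapRep_apply_apply, mapRep_apply_apply] at hA2 hB2
    exact ⟨eq_zero_of_fibre pA pB hinj hA1 hB1, CycCong.of_fibre hp pA pB hinj hpA hpB hA2 hB2⟩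
  inert := by
    intro σ hσ
    have hA1 := hA.inert σ hσ
    have hB1 := hB.inert σ hσ
    rw [mapRep_apply_apply] at hA1 hB1
    exact eq_of_fibre pA pB hinj (by rw [hA1, map_one]) (by rw [hB1, map_one])

/-- Standard form descends from the quotients `A ⧸ 𝔪ⁿ`. -/
theorem IsSOStd.of_quotients {A : Type} [CommRing A] [IsLocalRing A] [IsNoetherianRing A]
    {r : GQ →* M2 A}
    (h : ∀ n : ℕ, n ≠ 0 → IsSOStd 𝔓 p (mapRep (Ideal.Quotient.mk (maximalIdeal A ^ n)) r)) :
    IsSOStd 𝔓 p r where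
  dec := by
    intro σ hσ
    refine ⟨eq_zero_of_quotients fun n hn => ?_, CycCong.of_quotients fun n hn => ?_⟩
    · have := ((h n hn).dec σ hσ).1
      rwa [mapRep_apply_apply] at this
    · have := ((h n hn).dec σ hσ).2
      rwa [mapRep_apply_apply, mapRep_apply_apply] at this
  inert := by
    intro σ hσ
    refine eq_of_quotients fun n hn => ?_
    have := (h n hn).inert σ hσ
    rw [mapRep_apply_apply] at this
    rw [this, map_one]

end Descent

section Triangular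

variable {A : Type} [CommRing A]

/-- Conjugation by an invertible upper triangular matrix preserves upper triangular matrices and
their diagonal entries. -/
theorem conj_triangular (T : (M2 A)ˣ) (hT : (T : M2 A) 1 0 = 0) (M M' : M2 A)
    (h : (T : M2 A) * M' = M * T) (hM : M 1 0 = 0) :
    M' 1 0 = 0 ∧ M' 0 0 = M 0 0 ∧ M' 1 1 = M 1 1 := by
  have hdet : IsUnit ((T : M2 A).det) := (Matrix.isUnit_iff_isUnit_det _).1 T.isUnit
  rw [Matrix.det_fin_two, hT, mul_zero, sub_zero] at hdet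
  have h0 : IsUnit ((T : M2 A) 0 0) := isUnit_of_mul_isUnit_left hdet
  have h1 : IsUnit ((T : M2 A) 1 1) := isUnit_of_mul_isUnit_right hdet
  have e10 := congrFun (congrFun h 1) 0
  have e11 := congrFun (congrFun h 1) 1
  have e00 := congrFun (congrFun h 0) 0
  simp only [Matrix.mul_apply, Fin.sum_univ_two, hT, hM, zero_mul, mul_zero, zero_add,
    add_zero] at e10 e11 e00
  have k10 : M' 1 0 = 0 := (h1.mul_right_eq_zero).mp e10
  refine ⟨k10, ?_, ?_⟩
  · rw [k10, mul_zero, add_zero] at e00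
    exact h0.mul_left_cancel (by rw [e00, mul_comm])
  · exact h1.mul_left_cancel (by rw [e11, mul_comm])

variable {𝔓 : ValuationSubring (AlgebraicClosure ℚ)} {p : ℕ}

/-- Standard form is preserved by conjugation with invertible upper triangular matrices. -/
theorem IsSOStd.conj_triangular {r : GQ →* M2 A} (h : IsSOStd 𝔓 p r) (T : (M2 A)ˣ)
    (hT : (T : M2 A) 1 0 = 0) : IsSOStd 𝔓 p (cj T⁻¹ r) := by
  have key : ∀ σ : GQ, r σ 1 0 = 0 → cj T⁻¹ r σ 1 0 = 0 ∧
      cj T⁻¹ r σ 0 0 = r σ 0 0 ∧ cj T⁻¹ r σ 1 1 = r σ 1 1 := by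
    intro σ hσ
    refine Fermat.Agent.S59.H659.conj_triangular T hT (r σ) (cj T⁻¹ r σ) ?_ hσ
    rw [cj_apply, inv_inv, ← mul_assoc, ← mul_assoc, Units.mul_inv, one_mul]
  constructor
  · intro σ hσ
    obtain ⟨h1, h2⟩ := h.dec σ hσ
    obtain ⟨k1, k2, k3⟩ := key σ h1
    exact ⟨k1, by rw [k2, k3]; exact h2⟩
  · intro σ hσ
    obtain ⟨h1, -⟩ := h.dec σ (mem_decomposition_of_mem_inertia hσ)
    obtain ⟨-, -, k3⟩ := key σ h1
    rw [k3]
    exact h.inert σ hσ

end Triangular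

section Canonical

variable {R : Type} [CommRing R] [IsLocalRing R]

/-- A matrix over a local ring whose trace is a unit has a column which is the first column of an
invertible matrix. -/
theorem exists_unit_col (N : M2 R) (hN : IsUnit N.trace) :
    ∃ (Q : (M2 R)ˣ) (j : Fin 2), ∀ i, (Q : M2 R) i 0 = N i j := by
  rw [Matrix.trace_fin_two] at hN
  rcases IsLocalRing.isUnit_or_isUnit_of_isUnit_add hN with h | h
  · have hdet : IsUnit (!![N 0 0, 0; N 1 0, 1] : M2 R).det := by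
      rw [Matrix.det_fin_two_of]
      simpa using h
    obtain ⟨Q, hQ⟩ := (Matrix.isUnit_iff_isUnit_det _).2 hdet
    refine ⟨Q, 0, fun i => ?_⟩
    rw [hQ]
    fin_cases i <;> rfl
  · have hdet : IsUnit (!![N 0 1, 1; N 1 1, 0] : M2 R).det := by
      rw [Matrix.det_fin_two_of]
      simpa using h
    obtain ⟨Q, hQ⟩ := (Matrix.isUnit_iff_isUnit_det _).2 hdet
    refine ⟨Q, 1, fun i => ?_⟩
    rw [hQ]
    fin_cases i <;> rfl

end Canonical

section Main

variable {𝔓 : ValuationSubring (AlgebraicClosure ℚ)} {p : ℕ}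

/-- If `a ≢ 1 mod p` and `p` lies in the maximal ideal, then `a - 1` is a unit. -/
theorem isUnit_natCast_sub_one {A : Type} [CommRing A] [IsLocalRing A] (hp : p.Prime)
    (hpA : (p : A) ∈ maximalIdeal A) {a : ℕ} (ha : ¬ a ≡ 1 [MOD p]) :
    IsUnit ((a : A) - 1) := by
  have h1 : ¬ (p : ℤ) ∣ (a : ℤ) - 1 := by
    intro h
    apply ha
    have := (Int.modEq_iff_dvd (n := (p : ℤ)) (a := 1) (b := (a : ℤ))).mpr h
    exact (Int.natCast_modEq_iff.mp (by exact_mod_cast this.symm))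
  have h2 : IsCoprime ((a : ℤ) - 1) (p : ℤ) :=
    (IsCoprime.symm ((Nat.prime_iff_prime_int.mp hp).coprime_iff_not_dvd.mpr h1))
  obtain ⟨s, t, hst⟩ := h2
  have h3 : (s : A) * ((a : A) - 1) + (t : A) * (p : A) = 1 := by
    have := congrArg (Int.cast : ℤ → A) hst
    push_cast at this
    exact this
  have h4 : IsUnit ((s : A) * ((a : A) - 1)) := by
    have h5 : (s : A) * ((a : A) - 1) = 1 - (t : A) * (p : A) := eq_sub_of_add_eq h3
    rw [h5]
    by_contra hcon
    have h6 : 1 - (t : A) * (p : A) ∈ maximalIdeal A := hcon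
    have h7 : (t : A) * (p : A) ∈ maximalIdeal A := Ideal.mul_mem_left _ _ hpA
    have h8 : (1 : A) ∈ maximalIdeal A := by
      have := Ideal.add_mem _ h6 h7
      rwa [sub_add_cancel] at this
    exact (Ideal.ne_top_iff_one _).mp Ideal.IsPrime.ne_top' h8
  exact isUnit_of_mul_isUnit_right h4

/-- The trace of `r σ₀ - 1` is a unit when `r` is conjugate to a representation in standard form
and the cyclotomic character of `σ₀ ∈ I` is not `1` modulo `p`. -/
theorem isUnit_trace_sub_one {A : Type} [CommRing A] [IsLocalRing A] (hp : p.Prime)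
    (hpA : (p : A) ∈ maximalIdeal A) {r : GQ →* M2 A} (P : (M2 A)ˣ)
    (h : IsSOStd 𝔓 p (cj P r)) {σ₀ : GQ} (hσ₀ : σ₀ ∈ 𝔓.inertiaSubgroupIn ℚ)
    (hσ₀' : ∀ a : ℕ, IsCycExp p σ₀ a → ¬ a ≡ 1 [MOD p]) : IsUnit (r σ₀ - 1).trace := by
  obtain ⟨a, ha⟩ := exists_isCycExp p hp.ne_zero σ₀
  have h1 := (h.dec σ₀ (mem_decomposition_of_mem_inertia hσ₀)).2 1 a (by rwa [pow_one])
  have h2 := h.inert σ₀ hσ₀
  have htr : (r σ₀ - 1).trace = cj P r σ₀ 0 0 - 1 := by
    have h3 : (cj P r σ₀).trace = (r σ₀).trace := by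
      rw [cj_apply]
      exact Matrix.trace_units_conj P (r σ₀)
    rw [Matrix.trace_sub, ← h3, Matrix.trace_fin_two, Matrix.trace_fin_two, h2]
    simp only [Matrix.one_apply_eq]
    ring
  rw [htr]
  rw [h2, mul_one, pow_one] at h1
  have h4 : cj P r σ₀ 0 0 - (a : A) ∈ maximalIdeal A := by
    obtain ⟨c, hc⟩ := Ideal.mem_span_singleton'.mp h1
    rw [← hc]
    exact Ideal.mul_mem_left _ _ hpA
  have h5 : IsUnit ((a : A) - 1) := isUnit_natCast_sub_one hp hpA (hσ₀' a ha)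
  have h6 : cj P r σ₀ 0 0 - 1 = ((a : A) - 1) + (cj P r σ₀ 0 0 - (a : A)) := by ring
  rw [h6]
  by_contra hcon
  have h7 : ((a : A) - 1) + (cj P r σ₀ 0 0 - (a : A)) ∈ maximalIdeal A := hcon
  have h8 : (a : A) - 1 ∈ maximalIdeal A := by
    have := Ideal.sub_mem _ h7 h4
    rwa [add_sub_cancel_right] at this
  exact h8 h5

/-- **The stable line is canonical.** Let `Q` be an invertible matrix whose first column is a
column of `r σ₀ - 1`, `σ₀` in the inertia group. If the push-forward of `r` along `φ` is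
conjugate to a representation in standard form, then the push-forward of `Q⁻¹ r Q` is in standard
form. -/
theorem isSOStd_mapRep_conj {R A : Type} [CommRing R] [CommRing A] (φ : R →+* A)
    {r : GQ →* M2 R} {σ₀ : GQ} (hσ₀ : σ₀ ∈ 𝔓.inertiaSubgroupIn ℚ) (Q : (M2 R)ˣ) (j : Fin 2)
    (hQ : ∀ i, (Q : M2 R) i 0 = (r σ₀ - 1) i j) (P : (M2 A)ˣ)
    (h : IsSOStd 𝔓 p (cj P (mapRep φ r))) :
    IsSOStd 𝔓 p (mapRep φ (cj Q⁻¹ r)) := by
  set Qφ : (M2 A)ˣ := Units.map φ.mapMatrix.toMonoidHom Q with hQφ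
  set T : (M2 A)ˣ := P * Qφ with hT
  have h10 := (h.dec σ₀ (mem_decomposition_of_mem_inertia hσ₀)).1
  have h11 := h.inert σ₀ hσ₀
  -- `P * φ (r σ₀ - 1) = (r' σ₀ - 1) * P`
  have hconj : (P : M2 A) * (mapRep φ r σ₀ - 1) = (cj P (mapRep φ r) σ₀ - 1) * P := by
    rw [mul_sub, sub_mul, mul_one, one_mul, cj_mul_eq]
  have hrow : ∀ k, ((P : M2 A) * (mapRep φ r σ₀ - 1)) 1 k = 0 := by
    intro k
    rw [hconj, Matrix.mul_apply, Fin.sum_univ_two, Matrix.sub_apply, Matrix.sub_apply, h10, h11]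
    simp
  have hT10 : (T : M2 A) 1 0 = 0 := by
    have h1 : ∀ i, (Qφ : M2 A) i 0 = (mapRep φ r σ₀ - 1) i j := by
      intro i
      show φ ((Q : M2 R) i 0) = _
      rw [hQ i, Matrix.sub_apply, Matrix.sub_apply, map_sub, mapRep_apply_apply]
      congr 1
      by_cases hij : i = j
      · subst hij; simp
      · simp [hij]
    have h2 := hrow j
    rw [Matrix.mul_apply, Fin.sum_univ_two] at h2
    rw [hT, Units.val_mul, Matrix.mul_apply, Fin.sum_univ_two, h1 0, h1 1]
    exact h2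
  have h3 := h.conj_triangular T hT10
  rw [cj_cj] at h3
  have h4 : T⁻¹ * P = Qφ⁻¹ := by
    rw [hT, mul_inv_rev, inv_mul_cancel_right]
  rw [h4] at h3
  rw [mapRep_cj, map_inv]
  exact h3

/-- **Strictly ordinary descent along jointly injective pairs.** -/
theorem exists_isSOStd_of_fibre (hp : p.Prime) (hp2 : p ≠ 2) (h𝔓 : 𝔓.LiesOverPrime p)
    {P A B : Type} [CommRing P] [IsLocalRing P] [CommRing A] [IsLocalRing A] [CommRing B]
    [IsLocalRing B] [IsArtinianRing A] [IsArtinianRing B]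
    (pA : P →+* A) (pB : P →+* B) (hpA : IsLocalHom pA)
    (hinj : Function.Injective (fun x => (pA x, pB x)))
    (hA : (p : A) ∈ maximalIdeal A) (hB : (p : B) ∈ maximalIdeal B) (r : GQ →* M2 P)
    (h1 : ∃ U : (M2 A)ˣ, IsSOStd 𝔓 p (cj U (mapRep pA r)))
    (h2 : ∃ U : (M2 B)ˣ, IsSOStd 𝔓 p (cj U (mapRep pB r))) :
    ∃ U : (M2 P)ˣ, IsSOStd 𝔓 p (cj U r) := by
  obtain ⟨σ₀, hσ₀, hσ₀'⟩ := exists_inertia_cycExp_ne_one p hp hp2 𝔓 h𝔓
  obtain ⟨UA, hUA⟩ := h1
  obtain ⟨UB, hUB⟩ := h2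
  have htr : IsUnit (r σ₀ - 1).trace := by
    have h3 := isUnit_trace_sub_one hp hA UA hUA hσ₀ hσ₀'
    have h4 : (mapRep pA r σ₀ - 1).trace = pA (r σ₀ - 1).trace := by
      rw [Matrix.trace_fin_two, Matrix.trace_fin_two]
      simp
    rw [h4] at h3
    exact isUnit_of_map_unit pA _ h3
  obtain ⟨Q, j, hQ⟩ := exists_unit_col (r σ₀ - 1) htr
  exact ⟨Q⁻¹, IsSOStd.of_fibre hp.ne_zero pA pB hinj (isNilpotent_natCast_of_mem hA)
    (isNilpotent_natCast_of_mem hB) (isSOStd_mapRep_conj pA hσ₀ Q j hQ UA hUA)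
    (isSOStd_mapRep_conj pB hσ₀ Q j hQ UB hUB)⟩

/-- **Strictly ordinary descent from the quotients `A ⧸ 𝔪ⁿ`.** -/
theorem exists_isSOStd_of_quotients (hp : p.Prime) (hp2 : p ≠ 2) (h𝔓 : 𝔓.LiesOverPrime p)
    {A : Type} [CommRing A] [IsLocalRing A] [IsNoetherianRing A] (r : GQ →* M2 A)
    (hloc : IsLocalRing (A ⧸ maximalIdeal A ^ 1))
    (hA : (p : A ⧸ maximalIdeal A ^ 1) ∈ maximalIdeal (A ⧸ maximalIdeal A ^ 1))
    (h : ∀ n : ℕ, n ≠ 0 → ∃ U : (M2 (A ⧸ maximalIdeal A ^ n))ˣ,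
      IsSOStd 𝔓 p (cj U (mapRep (Ideal.Quotient.mk (maximalIdeal A ^ n)) r))) :
    ∃ U : (M2 A)ˣ, IsSOStd 𝔓 p (cj U r) := by
  obtain ⟨σ₀, hσ₀, hσ₀'⟩ := exists_inertia_cycExp_ne_one p hp hp2 𝔓 h𝔓
  have htr : IsUnit (r σ₀ - 1).trace := by
    obtain ⟨U1, hU1⟩ := h 1 one_ne_zero
    have h3 := isUnit_trace_sub_one hp hA U1 hU1 hσ₀ hσ₀'
    have h4 : (mapRep (Ideal.Quotient.mk (maximalIdeal A ^ 1)) r σ₀ - 1).trace =
        Ideal.Quotient.mk (maximalIdeal A ^ 1) (r σ₀ - 1).trace := by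
      rw [Matrix.trace_fin_two, Matrix.trace_fin_two]
      simp
    rw [h4] at h3
    haveI : IsLocalHom (Ideal.Quotient.mk (maximalIdeal A ^ 1)) :=
      IsLocalHom.of_surjective _ Ideal.Quotient.mk_surjective
    exact isUnit_of_map_unit (Ideal.Quotient.mk (maximalIdeal A ^ 1)) _ h3
  obtain ⟨Q, j, hQ⟩ := exists_unit_col (r σ₀ - 1) htr
  refine ⟨Q⁻¹, IsSOStd.of_quotients fun n hn => ?_⟩
  obtain ⟨Un, hUn⟩ := h n hn
  exact isSOStd_mapRep_conj _ hσ₀ Q j hQ Un hUn

end Main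

end Fermat.Agent.S59.H659

end
-- ===== PACK-END S59/H659/SOMat.lean

-- ===== PACK-BEGIN S19/H135/Closure.lean
section
/-
Cell A3 / WP-C (helper135): closure properties of Hopf models (the S19 / `IsFlatAt`
existential) under equivariant sub-objects, quotients, products, finite powers and
sub-quotients, and the glue to `GaloisRepAdic.IsFlatAt` (piece C4).

Everything is relative to the ORD block `Fermat.Agent.S19.OrdStatement` of the frozen A3
interface (order datum on a finite module gives a Hopf model), taken as a hypothesis.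
-/





set_option autoImplicit false

namespace Fermat.Agent.S19.H135

open Fermat.Agent.S19

section Adapter

variable {ℓ : ℕ} {M : Type} [AddCommGroup M] {act : GalQ → M → M}

/-- `FlatModel` is the frozen `HopfModel`. -/
theorem flatModel_iff_hopfModel : FlatModel ℓ M act ↔ HopfModel ℓ M act := Iff.rfl

/-- A Hopf lattice is an order datum of the frozen A3 interface. -/
def IsHopfLattice.toOrderDatum {Λ : Subalgebra (GaloisRep.ratLocalizedAt ℓ) (M → Qb)}
    (hΛ : IsHopfLattice ℓ act Λ) : OrderDatum ℓ M act where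
  act_add := hΛ.act_add
  gens := (Λ : Set (M → Qb))
  equivariant := fun f hf => hΛ.equivariant f hf
  integral := fun _ hf m => hΛ.isIntegral_apply hf m
  separates := hΛ.separates
  add_mem := fun f hf => by
    refine box_induction (C := fun F => F ∈ Algebra.adjoin (Zb ℓ)
      (coordFunctions (Λ : Set (M → Qb)))) (hΛ.comul_mem hf) ?_ ?_
    · intro a ha b hb
      have h1 : (fun p : M × M => a p.1) ∈ Algebra.adjoin (Zb ℓ)
          (coordFunctions (Λ : Set (M → Qb))) :=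
        Algebra.subset_adjoin (Or.inl ⟨a, ha, rfl⟩)
      have h2 : (fun p : M × M => b p.2) ∈ Algebra.adjoin (Zb ℓ)
          (coordFunctions (Λ : Set (M → Qb))) :=
        Algebra.subset_adjoin (Or.inr ⟨b, hb, rfl⟩)
      exact Subalgebra.mul_mem _ h1 h2
    · intro F₁ F₂ h₁ h₂
      exact Subalgebra.add_mem _ h₁ h₂

/-- A Hopf lattice gives a Hopf model (given the ORD block). -/
theorem HasHopfLattice.hopfModel (hord : OrdStatement) [Fact ℓ.Prime]
    (h : HasHopfLattice ℓ M act) : HopfModel ℓ M act := by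
  obtain ⟨Λ, hΛ⟩ := h
  have : Finite M := hΛ.finite
  exact hord ℓ M act ⟨hΛ.toOrderDatum⟩

/-- The ORD block implies the hypothesis `Layer0` of this library. -/
theorem layer0_of_ordStatement (hord : OrdStatement) [Fact ℓ.Prime] : Layer0 ℓ :=
  fun _ _ _ h => h.hopfModel hord

theorem HopfModel.hasHopfLattice_h135 (h : HopfModel ℓ M act) : HasHopfLattice ℓ M act :=
  FlatModel.hasHopfLattice h

/-- A module carrying a Hopf model is finite. -/
theorem HopfModel.finite_h135 (h : HopfModel ℓ M act) : Finite M := by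
  obtain ⟨Λ, hΛ⟩ := HopfModel.hasHopfLattice_h135 h
  exact hΛ.finite

/-- The Galois action of a module carrying a Hopf model is additive. -/
theorem HopfModel.act_add_h135 (h : HopfModel ℓ M act) (σ : GalQ) (m n : M) :
    act σ (m + n) = act σ m + act σ n := by
  obtain ⟨Λ, hΛ⟩ := HopfModel.hasHopfLattice_h135 h
  exact hΛ.act_add σ m n

/-- The Galois action of a module carrying a Hopf model is an action. -/
theorem HopfModel.act_mul_h135 (h : HopfModel ℓ M act) (σ τ : GalQ) (m : M) :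
    act (σ * τ) m = act σ (act τ m) := by
  obtain ⟨Λ, hΛ⟩ := HopfModel.hasHopfLattice_h135 h
  exact hΛ.act_mul σ τ m

theorem HopfModel.act_one_h135 (h : HopfModel ℓ M act) (m : M) : act 1 m = m := by
  obtain ⟨Λ, hΛ⟩ := HopfModel.hasHopfLattice_h135 h
  exact hΛ.act_one m

end Adapter

section Closure

variable (hord : OrdStatement) {ℓ : ℕ} [Fact ℓ.Prime]
variable {M M₁ M₂ : Type} [AddCommGroup M] [AddCommGroup M₁] [AddCommGroup M₂]
  {act : GalQ → M → M} {act₁ : GalQ → M₁ → M₁} {act₂ : GalQ → M₂ → M₂}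

include hord

/-- **Sub-objects**: Hopf models restrict along equivariant additive injections. -/
theorem hopfModel_of_injective (h : HopfModel ℓ M act) (i : M₁ →+ M)
    (hi : Function.Injective i) (heq : ∀ σ m, i (act₁ σ m) = act σ (i m)) :
    HopfModel ℓ M₁ act₁ :=
  ((HopfModel.hasHopfLattice_h135 h).of_injective i hi heq).hopfModel hord

/-- **Transport** along equivariant additive isomorphisms. -/
theorem hopfModel_of_addEquiv (h : HopfModel ℓ M act) (e : M ≃+ M₁)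
    (heq : ∀ σ m, e (act σ m) = act₁ σ (e m)) : HopfModel ℓ M₁ act₁ :=
  ((HopfModel.hasHopfLattice_h135 h).of_addEquiv e heq).hopfModel hord

/-- **Quotients**: Hopf models descend along equivariant additive surjections. -/
theorem hopfModel_of_surjective (h : HopfModel ℓ M act) (q : M →+ M₂)
    (hq : Function.Surjective q) (heq : ∀ σ m, q (act σ m) = act₂ σ (q m)) :
    HopfModel ℓ M₂ act₂ :=
  ((HopfModel.hasHopfLattice_h135 h).of_surjective q hq heq).hopfModel hord

/-- **Sub-quotients**. -/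
theorem hopfModel_of_subquotient (h : HopfModel ℓ M act) (i : M₁ →+ M)
    (hi : Function.Injective i) (hieq : ∀ σ m, i (act₁ σ m) = act σ (i m))
    (q : M₁ →+ M₂) (hq : Function.Surjective q) (hqeq : ∀ σ m, q (act₁ σ m) = act₂ σ (q m)) :
    HopfModel ℓ M₂ act₂ :=
  (((HopfModel.hasHopfLattice_h135 h).of_injective i hi hieq).of_surjective q hq hqeq).hopfModel
    hord

/-- **Binary products**. -/
theorem hopfModel_prod (h₁ : HopfModel ℓ M₁ act₁) (h₂ : HopfModel ℓ M₂ act₂) :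
    HopfModel ℓ (M₁ × M₂) (fun σ m => (act₁ σ m.1, act₂ σ m.2)) :=
  ((HopfModel.hasHopfLattice_h135 h₁).prod (HopfModel.hasHopfLattice_h135 h₂)).hopfModel hord

/-- **Finite powers**. -/
theorem hopfModel_power (h : HopfModel ℓ M act) (ι : Type) [Finite ι] :
    HopfModel ℓ (ι → M) (fun σ v i => act σ (v i)) :=
  ((HopfModel.hasHopfLattice_h135 h).power ι).hopfModel hord

/-- Stable subgroups. -/
theorem hopfModel_addSubgroup (h : HopfModel ℓ M act) (M' : AddSubgroup M)
    (hM' : ∀ σ, ∀ m ∈ M', act σ m ∈ M') :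
    HopfModel ℓ M' (fun σ m => ⟨act σ m.1, hM' σ m.1 m.2⟩) :=
  ((HopfModel.hasHopfLattice_h135 h).addSubgroup M' hM').hopfModel hord

end Closure

section C4

variable (hord : OrdStatement) {p : ℕ} [Fact p.Prime]
variable {A : Type} [CommRing A] [IsLocalRing A]

include hord

/-- **Piece C4.**  A Galois representation all of whose finite quotients `V / I V` are
equivariant sub-quotients of modules carrying Hopf models is flat at `p`. -/
theorem isFlatAt_of_subquotient (ρ : GaloisRepAdic A)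
    (hres : Finite (IsLocalRing.ResidueField A))
    (h : ∀ I : Ideal A, Finite (A ⧸ I) →
      ∃ (M : Type) (_ : AddCommGroup M) (act : GalQ → M → M)
        (M₁ : Type) (_ : AddCommGroup M₁) (act₁ : GalQ → M₁ → M₁)
        (i : M₁ →+ M) (q : M₁ →+ ρ.V ⧸ (I • (⊤ : Submodule A ρ.V))),
        HopfModel p M act ∧ Function.Injective i ∧ (∀ σ m, i (act₁ σ m) = act σ (i m)) ∧
        Function.Surjective q ∧ ∀ σ m, q (act₁ σ m) = ρ.levelAction I σ (q m)) :
    ρ.IsFlatAt p := by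
  refine ⟨hres, fun I hI => ?_⟩
  obtain ⟨M, _, act, M₁, _, act₁, i, q, hM, hi, hieq, hq, hqeq⟩ := h I hI
  exact hopfModel_of_subquotient hord hM i hi hieq q hq hqeq

/-- Variant of C4 with the Hopf models provided by the frozen S19 for the torsion of `J₀(N)`:
it suffices to present every `V / I V` as a sub-quotient of a finite power of some
`J₀(N)[p^k]`. -/
theorem isFlatAt_of_subquotient_tors (N : ℕ)
    (hS19 : ∀ k : ℕ, HopfModel p (Tors N p k) (torsAct N p k))
    (ρ : GaloisRepAdic A) (hres : Finite (IsLocalRing.ResidueField A))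
    (h : ∀ I : Ideal A, Finite (A ⧸ I) →
      ∃ (k r : ℕ) (M₁ : Type) (_ : AddCommGroup M₁) (act₁ : GalQ → M₁ → M₁)
        (i : M₁ →+ (Fin r → Tors N p k)) (q : M₁ →+ ρ.V ⧸ (I • (⊤ : Submodule A ρ.V))),
        Function.Injective i ∧ (∀ σ m, i (act₁ σ m) = fun j => torsAct N p k σ (i m j)) ∧
        Function.Surjective q ∧ ∀ σ m, q (act₁ σ m) = ρ.levelAction I σ (q m)) :
    ρ.IsFlatAt p := by
  refine isFlatAt_of_subquotient hord ρ hres (fun I hI => ?_)
  obtain ⟨k, r, M₁, _, act₁, i, q, hi, hieq, hq, hqeq⟩ := h I hI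
  exact ⟨Fin r → Tors N p k, inferInstance, fun σ v j => torsAct N p k σ (v j), M₁, _, act₁, i, q,
    hopfModel_power hord (hS19 k) (Fin r), hi, hieq, hq, hqeq⟩

end C4

section Frozen

/-- The frozen S19 conclusion gives a Hopf model for the torsion module (converse of
`Fermat.Agent.S19.frozen_of_hopfModel`). -/
theorem hopfModel_of_frozenShape (N ℓ k : ℕ)
    (h : ∃ (H : Type) (_ : CommRing H) (_ : HopfAlgebra (GaloisRep.ratLocalizedAt ℓ) H),
      Module.Finite (GaloisRep.ratLocalizedAt ℓ) H ∧ Module.Flat (GaloisRep.ratLocalizedAt ℓ) H ∧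
      Coalgebra.IsCocomm (GaloisRep.ratLocalizedAt ℓ) H ∧
      ∃ e : WithConv (H →ₐ[GaloisRep.ratLocalizedAt ℓ] AlgebraicClosure ℚ) ≃
          ↥(Submodule.torsionBy ℤ (ModularCurve.JZero N) ((ℓ : ℤ) ^ k)),
        (∀ f g, e (f * g) = e f + e g) ∧
        ∀ (σ : AlgebraicClosure ℚ ≃ₐ[ℚ] AlgebraicClosure ℚ)
          (f g : WithConv (H →ₐ[GaloisRep.ratLocalizedAt ℓ] AlgebraicClosure ℚ)),
          (∀ h : H, g h = σ (f h)) →
            ((e g : ModularCurve.JZero N)) = σ • (e f : ModularCurve.JZero N)) :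
    HopfModel ℓ (Tors N ℓ k) (torsAct N ℓ k) := by
  obtain ⟨H, i1, i2, hfin, hflat, hco, e, hmul, hgal⟩ := h
  refine ⟨H, i1, i2, hfin, hflat, hco, e, hmul, ?_⟩
  intro σ f g hfg
  exact Subtype.ext (hgal σ f g hfg)

end Frozen

end Fermat.Agent.S19.H135

end
-- ===== PACK-END S19/H135/Closure.lean

-- ===== PACK-BEGIN S19/H15/OrdDescent.lean
section


/-!
# Cell A3 (S19) — node ORD, part 2 (helper15): descent `Z̄_(ℓ) → ℤ_(ℓ)`

`mem_of_mem_span_of_equivariant`: for a finitely generated `ℤ_(ℓ)`-subalgebra `Λ` of equivariant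
functions `X → Q̄` (any `Gal`-set `X`), an EQUIVARIANT function in the `Z̄_(ℓ)`-span of `Λ` lies
in `Λ`.  (Same proof as helper435's lemma for Hopf lattices, for arbitrary `X`.)
-/

set_option autoImplicit false
set_option linter.style.haveILetI false

noncomputable section

namespace Fermat.Agent.S19.H15

open Fermat.Agent.S19

variable {ℓ : ℕ} [Fact ℓ.Prime]

theorem isIntegrallyClosed_Rl (q : ℚ) (hq : IsIntegral (Rl ℓ) q) : q ∈ Rl ℓ := by
  haveI : IsPrincipalIdealRing ↥(GaloisRep.ratLocalizedAt ℓ) := inferInstance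
  exact H19.mem_of_isIntegral_of_pid (Rl ℓ) q hq

/-- **Descent.** -/
theorem mem_of_mem_span_of_equivariant {X : Type} {act : GalQ → X → X}
    (hone : ∀ m, act 1 m = m) (hact : ∀ σ τ m, act σ (act τ m) = act (σ * τ) m)
    (Λ : Subalgebra (Rl ℓ) (X → Qb)) (hequiv : ∀ f ∈ Λ, H19.IsEquivariant act f)
    (hfg : (Subalgebra.toSubmodule Λ).FG)
    {u : X → Qb} (hu : u ∈ Submodule.span (Zb ℓ) (Λ : Set (X → Qb)))
    (hueq : H19.IsEquivariant act u) : u ∈ Λ := by
  classical
  haveI : IsPrincipalIdealRing ↥(GaloisRep.ratLocalizedAt ℓ) := inferInstance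
  obtain ⟨ι, hι, b, hb⟩ := H19.good_of_equivariant (Rl ℓ) hone hact Λ hequiv hfg
  haveI := Fintype.ofFinite ι
  -- coordinates with integral coefficients
  have hcoord : ∀ v ∈ Submodule.span (Zb ℓ) (Λ : Set (X → Qb)),
      ∃ W : ι → Qb, (∀ i, IsIntegral (Rl ℓ) (W i)) ∧ v = ∑ i, W i • ((b i : Λ) : X → Qb) := by
    intro v hv
    induction hv using Submodule.span_induction with
    | mem f hf =>
      refine ⟨fun i => algebraMap (Rl ℓ) Qb (b.repr ⟨f, hf⟩ i), fun i => isIntegral_algebraMap, ?_⟩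
      have h1 := congrArg (fun g : Λ => (g : X → Qb)) (b.sum_repr ⟨f, hf⟩)
      simp only at h1
      refine h1.symm.trans ?_
      rw [AddSubmonoidClass.coe_finsetSum]
      refine Finset.sum_congr rfl fun i _ => ?_
      show ((b.repr ⟨f, hf⟩ i) • ((b i : Λ) : X → Qb)) = _
      rw [algebraMap_smul]
    | zero => exact ⟨0, fun i => isIntegral_zero, by simp⟩
    | add x y _ _ hx hy =>
      obtain ⟨W, hW, rfl⟩ := hx
      obtain ⟨W', hW', rfl⟩ := hy
      refine ⟨W + W', fun i => (hW i).add (hW' i), ?_⟩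
      simp [add_smul, Finset.sum_add_distrib]
    | smul z x _ hx =>
      obtain ⟨W, hW, rfl⟩ := hx
      refine ⟨fun i => (z : Qb) * W i, fun i => z.2.mul (hW i), ?_⟩
      show (z : Qb) • (∑ i, W i • ((b i : Λ) : X → Qb)) = _
      rw [Finset.smul_sum]
      refine Finset.sum_congr rfl fun i _ => ?_
      rw [smul_smul]
  obtain ⟨W, hW, rfl⟩ := hcoord u hu
  have hpt : ∀ m : X, (∑ i, W i • ((b i : Λ) : X → Qb)) m = ∑ i, W i * ((b i : Λ) : X → Qb) m := by
    intro m
    simp [Finset.sum_apply]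
  have hfix : ∀ (σ : GalQ) (i : ι), σ (W i) = W i := by
    intro σ
    have h0 : ∑ i, (σ (W i) - W i) • ((b i : Λ) : X → Qb) = 0 := by
      funext m
      simp only [Finset.sum_apply, Pi.smul_apply, smul_eq_mul, Pi.zero_apply, sub_mul,
        Finset.sum_sub_distrib]
      have h1 := hueq σ⁻¹ m
      rw [hpt, hpt] at h1
      have h2 := congrArg σ h1
      rw [map_sum] at h2
      have h3 : σ (σ⁻¹ (∑ i, W i * ((b i : Λ) : X → Qb) m)) = ∑ i, W i * ((b i : Λ) : X → Qb) m :=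
        AlgEquiv.apply_symm_apply σ _
      rw [h3] at h2
      rw [← h2, sub_eq_zero]
      refine Finset.sum_congr rfl fun i _ => ?_
      rw [map_mul, hequiv _ (b i).2 σ⁻¹ m]
      congr 1
      exact (AlgEquiv.apply_symm_apply σ (((b i : Λ) : X → Qb) m)).symm
    intro i
    have := (Fintype.linearIndependent_iff.mp hb) _ h0 i
    exact sub_eq_zero.mp this
  have hr : ∀ i, ∃ r : Rl ℓ, algebraMap (Rl ℓ) Qb r = W i := fun i =>
    H19.mem_range_of_fixed_of_isIntegral (Rl ℓ) isIntegrallyClosed_Rl (W i)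
      (fun σ => hfix σ i) (hW i)
  choose r hr using hr
  have : ∑ i, W i • ((b i : Λ) : X → Qb) = ∑ i, r i • ((b i : Λ) : X → Qb) := by
    refine Finset.sum_congr rfl fun i _ => ?_
    rw [← hr i, algebraMap_smul]
  rw [this]
  exact Subalgebra.sum_mem _ fun i _ => Subalgebra.smul_mem _ (b i).2 _

end Fermat.Agent.S19.H15

end

end
-- ===== PACK-END S19/H15/OrdDescent.lean

-- ===== PACK-BEGIN S53/GlueRigidFamily.lean
section



set_option autoImplicit false
set_option linter.unusedSectionVars false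
set_option linter.unusedVariables false

open IsLocalRing GaloisRep

noncomputable section

namespace Fermat.Agent.S53

variable {𝒪 : Type} [CommRing 𝒪] [IsDomain 𝒪] [IsDiscreteValuationRing 𝒪]
    [IsAdicComplete (IsLocalRing.maximalIdeal 𝒪) 𝒪]

/-- `Lpred` is a rigid family in the sense of helper353's `AbstractDefs`. -/
theorem isRigidFamily_Lpred
    (ρbar : ResidualGaloisRep (IsLocalRing.ResidueField 𝒪))
    (𝒟 : ∀ ⦃A : Type⦄ [CommRing A] [IsLocalRing A] [Algebra 𝒪 A], GaloisRepAdic A → Prop)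
    (h𝒟 : GaloisRep.IsDeformationCondition 𝒪 𝒟)
    (hbar : 𝒟 (GaloisRepAdic.ofResidualGaloisRep ρbar))
    (hfin : GaloisRep.TangentFinite 𝒪 ρbar 𝒟)
    (rbar : GQ →* M2 (ResidueField 𝒪)) (hrbar : GaloisFactorsThroughFiniteLevel rbar)
    (e0 : ρbar.IsEquiv (toRes rbar hrbar))
    (c : Idx → 𝒪) (hc : ∀ t, residue 𝒪 (c t) = entries rbar t)
    (K : RigidKit 𝒪 c) :
    IsRigidFamily 𝒪 Idx c (Lpred 𝒟 K) where
  res := fun A _ _ _ hA x hx => by
    obtain ⟨-, -, -, -, hl, -⟩ := hx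
    exact hl
  base := Lpred_base h𝒟 K ρbar hbar rbar hrbar e0 hc
  map := fun A B _ _ _ _ _ _ hA hB φ hφ x hx => Lpred_map h𝒟 K hA hB φ hφ hx
  inj := fun A B _ _ _ _ _ _ hA hB φ hφ hinj x hx => Lpred_inj h𝒟 K hA hB φ hφ hinj hx
  fibre := fun A B C P _ _ _ _ _ _ _ _ _ _ _ _ hA hB hC hP f g pA pB hpA hpB hfg hinj hsurj
      x hxA hxB =>
    Lpred_fibre h𝒟 K hA hB hC hP f g pA pB hpA hpB hfg hinj hsurj hxA hxB
  tangent := H416.tangent_of_finite Idx c (Lpred 𝒟 K)
    (fun A _ _ _ hA x hx => by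
      obtain ⟨-, -, -, -, hl, -⟩ := hx
      exact hl)
    (fun A B _ _ _ _ _ _ hA hB φ hφ x hx => Lpred_map h𝒟 K hA hB φ hφ hx)
    (Lpred_tangent_finite ρbar 𝒟 hfin rbar hrbar e0 c hc K)
  limit := fun A _ _ _ _ _ hloc hsurj x =>
    ⟨fun hx B _ _ _ hB q hq hqs => Lpred_limit_mp h𝒟 K hloc hsurj hx hB q hq hqs,
     fun h => Lpred_limit_mpr h𝒟 K hloc hsurj h⟩

/-- The S53 statement from the abstract core in helper353's shape. -/
theorem nonempty_deformationRingData_of_rigidFamilyCore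
    (hD : ∀ (𝒪 : Type) [CommRing 𝒪] [IsDomain 𝒪] [IsDiscreteValuationRing 𝒪]
      [IsAdicComplete (IsLocalRing.maximalIdeal 𝒪) 𝒪] [Finite (IsLocalRing.ResidueField 𝒪)]
      (ι : Type) (c : ι → 𝒪) (L : PointFamily 𝒪 ι), IsRigidFamily 𝒪 ι c L →
      Nonempty (UniversalPoint 𝒪 ι L))
    (𝒪 : Type) [CommRing 𝒪] [IsDomain 𝒪] [IsDiscreteValuationRing 𝒪]
    [IsAdicComplete (IsLocalRing.maximalIdeal 𝒪) 𝒪] [Finite (IsLocalRing.ResidueField 𝒪)]
    (ρbar : ResidualGaloisRep (IsLocalRing.ResidueField 𝒪))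
    (𝒟 : ∀ ⦃A : Type⦄ [CommRing A] [IsLocalRing A] [Algebra 𝒪 A], GaloisRepAdic A → Prop)
    (habs : ρbar.IsAbsolutelyIrreducible)
    (h𝒟 : GaloisRep.IsDeformationCondition 𝒪 𝒟)
    (hbar : 𝒟 (GaloisRepAdic.ofResidualGaloisRep ρbar))
    (hfin : GaloisRep.TangentFinite 𝒪 ρbar 𝒟) :
    Nonempty (GaloisRep.DeformationRingData 𝒪 ρbar 𝒟) := by
  obtain ⟨rbar, hrbar, c, e0, hc, ⟨K⟩⟩ :=
    exists_rigidKit_of_rigidStatement 𝒪 Rigid.rigidStatement ρbar habs
  obtain ⟨U⟩ := hD 𝒪 Idx c (Lpred 𝒟 K)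
    (isRigidFamily_Lpred ρbar 𝒟 h𝒟 hbar hfin rbar hrbar e0 c hc K)
  exact deformationRingData_of_universalPoint 𝒪 ρbar 𝒟 habs h𝒟 rbar hrbar e0 c hc K U

end Fermat.Agent.S53

end

end
-- ===== PACK-END S53/GlueRigidFamily.lean

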