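import Fermat.Agent.Pack.S43GC.G0E13L0
import Fermat.Agent.Pack.S43GC.G0E13L2
import Fermat.Agent.Pack.S43GC.G0E13L3
import Fermat.Agent.Pack.S43GC.G0E12L3
import Fermat.Agent.Pack.S43GC.G0E7L2
import Fermat.Agent.Pack.S43GC.G0E0L3
import Fermat.Agent.Pack.S43GC.G0E3L1
import Fermat.Agent.Pack.S43GC.G0E0L0
import Fermat.Agent.Pack.S43GC.G0E9L1
import Fermat.Agent.Pack.S43GC.G0E7L3
import Fermat.Agent.Pack.S43GC.G0E13L1
import Fermat.Agent.Pack.S43GC.G0E11L0
import Fermat.Agent.Pack.S44C.G0E1L1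
import Fermat.Agent.Pack.S43GC.G0E4L3
import Fermat.Agent.Pack.S44C.G0E14L2
import Fermat.Agent.Pack.S43GC.G0E9L2
import Fermat.Agent.Pack.S43GC.G0E9L0
import Fermat.Agent.Pack.S43GC.G0E9L3
import Fermat.Agent.Pack.S43GC.G0E2L3
import Fermat.Agent.Pack.Fast891

-- ===== PACK-BEGIN S38/H953/RelP1.lean
section


/-!
# Route T (Ihara avoidance), Galois side: the RELATIVE presentation (helper953)

`DQ` a universal deformation ring of type `𝒟`, `F : UFrame DQ`, `R□ = DQ.R⟦Y₀, Y₁, Y₂⟧`,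
`r□ = framedRep F`.  Let `B` be a complete Noetherian local `𝒪`-algebra (the local framed ring)
and let `R□` be a `B`-algebra such that the entries of `r□(σ)`, `σ ∈ D` (the decomposition group),
come from `B`.

* `RelSel 𝒪 ρbar 𝒟 D r` (REL-SEL, the input from Galois cohomology): the tangent cocycles of type
  `𝒟` (and the cocycles which are coboundaries) VANISHING on `D` lie in a `k`-space of dimension
  `≤ r`;
* `exists_surjective_of_relSel` (REL-P1): `RelSel ⟹ B⟦x₁, …, x_r⟧ ↠ R□`.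

Nothing unproved in this file.
-/

set_option autoImplicit false
set_option linter.unusedSectionVars false
set_option linter.unusedVariables false
set_option linter.style.haveILetI false

namespace Fermat.Agent.S38.H953

noncomputable section

open IsLocalRing TrivSqZeroExt
open Fermat.Agent.S56 Fermat.Agent.S56.H716 Fermat.Agent.S56.H596

/-! ### Change of field in the dual numbers -/

section DualMap

variable {K K' : Type} [Field K] [Field K']

/-- The ring homomorphism `K[ε] → K'[ε]` induced by `K → K'`. -/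
def dualMap (f : K →+* K') : DualNumber K →+* DualNumber K' where
  toFun z := TrivSqZeroExt.inl (f (TrivSqZeroExt.fst z)) + TrivSqZeroExt.inr (f (TrivSqZeroExt.snd z))
  map_one' := by
    ext <;> simp
  map_mul' x y := by
    ext <;> simp
  map_zero' := by
    ext <;> simp
  map_add' x y := by
    ext <;> simp

@[simp] theorem fst_dualMap (f : K →+* K') (z : DualNumber K) :
    TrivSqZeroExt.fst (dualMap f z) = f (TrivSqZeroExt.fst z) := by
  simp [dualMap]

@[simp] theorem snd_dualMap (f : K →+* K') (z : DualNumber K) :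
    TrivSqZeroExt.snd (dualMap f z) = f (TrivSqZeroExt.snd z) := by
  simp [dualMap]

theorem dualMap_inl (f : K →+* K') (a : K) :
    dualMap f (TrivSqZeroExt.inl a) = TrivSqZeroExt.inl (f a) := by
  ext <;> simp

theorem dualMap_injective (f : K →+* K') : Function.Injective (dualMap f) := by
  intro x y h
  ext
  · exact f.injective (by simpa using congrArg TrivSqZeroExt.fst h)
  · exact f.injective (by simpa using congrArg TrivSqZeroExt.snd h)

end DualMap

/-! ### The relative Selmer bound (frozen shape) -/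

section RelSelDef

variable (𝒪 : Type) [CommRing 𝒪] [IsLocalRing 𝒪]
  (ρbar : ResidualGaloisRep (ResidueField 𝒪))

/-- **(REL-SEL)** the tangent cocycles of type `𝒟`, and the cocycles which are coboundaries,
which VANISH (as functions) on the set `D` lie in a `k`-space of cocycles of dimension `≤ r`. -/
def RelSel (𝒟 : DefCond 𝒪) (D : Set GQ) (r : ℕ) : Prop :=
  ∃ T : Submodule (ResidueField 𝒪) (GQ → Module.End (ResidueField 𝒪) ρbar.V),
    Module.Finite (ResidueField 𝒪) T ∧ Module.finrank (ResidueField 𝒪) T ≤ r ∧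
    ∀ c, (IsTanCocycle 𝒪 ρbar 𝒟 c ∨ (IsAdCocycle ρbar c ∧ IsAdCoboundary ρbar c)) →
      (∀ σ ∈ D, c σ = 0) → c ∈ T

end RelSelDef

/-! ### The relative presentation -/

section Rel

variable {𝒪 : Type} [CommRing 𝒪] [IsDomain 𝒪] [IsDiscreteValuationRing 𝒪]
  [IsAdicComplete (maximalIdeal 𝒪) 𝒪]
  {ρbar : ResidualGaloisRep (ResidueField 𝒪)} {𝒟 : DefCond 𝒪}
  {DQ : GaloisRep.DeformationRingData 𝒪 ρbar 𝒟}

attribute [local instance] Fermat.Agent.S56.tanAlgebra

theorem residue_surjective_frRing :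
    Function.Surjective (residue (MvPowerSeries (Fin 3) DQ.R) ∘
      algebraMap 𝒪 (MvPowerSeries (Fin 3) DQ.R)) := by
  intro y
  obtain ⟨x, hx⟩ := Fermat.Agent.S53.H596.residue_surjective_mvPowerSeries (σ := Fin 3)
    (R := DQ.R) y
  obtain ⟨a, ha⟩ := DQ.residue_surjective (residue DQ.R x)
  refine ⟨a, ?_⟩
  rw [Function.comp_apply] at hx ha ⊢
  rw [← hx, ← sub_eq_zero, ← map_sub, residue_eq_zero_iff, MvPowerSeries.algebraMap_apply,
    ← MvPowerSeries.c_eq_algebraMap, ← map_sub]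
  have h1 : algebraMap 𝒪 DQ.R a - x ∈ maximalIdeal DQ.R := by
    rw [← residue_eq_zero_iff, map_sub, ha, sub_self]
  exact Fermat.Agent.S53.H596.C_mem_maximalIdeal_mvPowerSeries h1

variable (B : Type) [CommRing B] [IsLocalRing B] [Algebra 𝒪 B]
  [Algebra B (MvPowerSeries (Fin 3) DQ.R)] [IsScalarTower 𝒪 B (MvPowerSeries (Fin 3) DQ.R)]

theorem isLocalHom_base :
    IsLocalHom (algebraMap B (MvPowerSeries (Fin 3) DQ.R)) :=
  isLocalHom_of_residue_surjective (residue_surjective_frRing (DQ := DQ))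
    (IsScalarTower.toAlgHom 𝒪 B (MvPowerSeries (Fin 3) DQ.R))

theorem residue_surjective_base :
    Function.Surjective (residue (MvPowerSeries (Fin 3) DQ.R) ∘
      algebraMap B (MvPowerSeries (Fin 3) DQ.R)) := by
  intro y
  obtain ⟨a, ha⟩ := residue_surjective_frRing (DQ := DQ) y
  refine ⟨algebraMap 𝒪 B a, ?_⟩
  rw [Function.comp_apply] at ha ⊢
  rw [← ha, ← IsScalarTower.algebraMap_apply]

theorem isLocalHom_to_base (DQ : GaloisRep.DeformationRingData 𝒪 ρbar 𝒟)
    [Algebra B (MvPowerSeries (Fin 3) DQ.R)] [IsScalarTower 𝒪 B (MvPowerSeries (Fin 3) DQ.R)] :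
    IsLocalHom (algebraMap 𝒪 B) := by
  refine ⟨fun a ha => ?_⟩
  have h1 : IsUnit (algebraMap 𝒪 (MvPowerSeries (Fin 3) DQ.R) a) := by
    rw [IsScalarTower.algebraMap_apply 𝒪 B (MvPowerSeries (Fin 3) DQ.R)]
    exact ha.map _
  rw [MvPowerSeries.algebraMap_apply, MvPowerSeries.isUnit_iff_constantCoeff,
    MvPowerSeries.constantCoeff_C] at h1
  exact isUnit_of_map_unit (algebraMap 𝒪 DQ.R) a h1

theorem residue_surjective_to_base (DQ : GaloisRep.DeformationRingData 𝒪 ρbar 𝒟)
    [Algebra B (MvPowerSeries (Fin 3) DQ.R)] [IsScalarTower 𝒪 B (MvPowerSeries (Fin 3) DQ.R)] :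
    Function.Surjective (residue B ∘ algebraMap 𝒪 B) := by
  intro y
  obtain ⟨b, rfl⟩ := residue_surjective y
  obtain ⟨a, ha⟩ := residue_surjective_frRing (DQ := DQ)
    (residue _ (algebraMap B (MvPowerSeries (Fin 3) DQ.R) b))
  refine ⟨a, ?_⟩
  rw [Function.comp_apply] at ha ⊢
  rw [IsScalarTower.algebraMap_apply 𝒪 B (MvPowerSeries (Fin 3) DQ.R), ← sub_eq_zero, ← map_sub,
    ← map_sub, residue_eq_zero_iff] at ha
  rw [← sub_eq_zero, ← map_sub, residue_eq_zero_iff]
  by_contra hcon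
  have hu : IsUnit (algebraMap 𝒪 B a - b) := by
    by_contra hnu
    exact hcon ((mem_maximalIdeal _).2 hnu)
  exact (mem_maximalIdeal _).1 ha (hu.map _)

end Rel

/-! ### The main theorem -/

section Main

variable {𝒪 : Type} [CommRing 𝒪] [IsDomain 𝒪] [IsDiscreteValuationRing 𝒪]
  [IsAdicComplete (maximalIdeal 𝒪) 𝒪]
  {ρbar : ResidualGaloisRep (ResidueField 𝒪)} {𝒟 : DefCond 𝒪}

attribute [local instance] Fermat.Agent.S56.tanAlgebra

variable (B : Type) [CommRing B] [IsLocalRing B] [Algebra 𝒪 B]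
  (DQ : GaloisRep.DeformationRingData 𝒪 ρbar 𝒟)
  [Algebra B (MvPowerSeries (Fin 3) DQ.R)] [IsScalarTower 𝒪 B (MvPowerSeries (Fin 3) DQ.R)]

/-- The residue fields of `𝒪` and of the base `B` agree. -/
def resEquiv : ResidueField 𝒪 ≃+* ResidueField B :=
  haveI := isLocalHom_to_base B DQ
  RingEquiv.ofBijective (ResidueField.map (algebraMap 𝒪 B))
    ⟨(ResidueField.map (algebraMap 𝒪 B)).injective, fun y => by
      obtain ⟨a, ha⟩ := residue_surjective_to_base B DQ y
      exact ⟨residue 𝒪 a, by rw [ResidueField.map_residue]; exact ha⟩⟩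

theorem resEquiv_residue (a : 𝒪) :
    resEquiv B DQ (residue 𝒪 a) = residue B (algebraMap 𝒪 B a) := by
  haveI := isLocalHom_to_base B DQ
  exact ResidueField.map_residue (algebraMap 𝒪 B) a

theorem resEquiv_symm_residue (a : 𝒪) :
    (resEquiv B DQ).symm (residue B (algebraMap 𝒪 B a)) = residue 𝒪 a := by
  rw [← resEquiv_residue B DQ a, RingEquiv.symm_apply_apply]

/-- Transport of a tangent vector over `B` to a tangent vector over `𝒪`. -/
def tanOfBase (ψ : MvPowerSeries (Fin 3) DQ.R →ₐ[B] DualNumber (ResidueField B)) :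
    TanHom 𝒪 (MvPowerSeries (Fin 3) DQ.R) :=
  { toRingHom := (dualMap ((resEquiv B DQ).symm : ResidueField B →+* ResidueField 𝒪)).comp
      (ψ : MvPowerSeries (Fin 3) DQ.R →+* DualNumber (ResidueField B))
    commutes' := fun a => by
      show dualMap _ (ψ (algebraMap 𝒪 (MvPowerSeries (Fin 3) DQ.R) a)) = _
      rw [IsScalarTower.algebraMap_apply 𝒪 B (MvPowerSeries (Fin 3) DQ.R), AlgHom.commutes,
        tanAlgebra_algebraMap, dualMap_inl, tanAlgebra_algebraMap]
      congr 1
      exact resEquiv_symm_residue B DQ a }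

theorem tanOfBase_apply (ψ : MvPowerSeries (Fin 3) DQ.R →ₐ[B] DualNumber (ResidueField B))
    (f : MvPowerSeries (Fin 3) DQ.R) :
    tanOfBase B DQ ψ f =
      dualMap ((resEquiv B DQ).symm : ResidueField B →+* ResidueField 𝒪) (ψ f) := rfl

theorem tanOfBase_injective : Function.Injective (tanOfBase B DQ) := by
  intro ψ ψ' h
  apply AlgHom.ext
  intro f
  apply dualMap_injective ((resEquiv B DQ).symm : ResidueField B →+* ResidueField 𝒪)
  rw [← tanOfBase_apply, ← tanOfBase_apply, h]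

theorem snd_tanOfBase_algebraMap
    (ψ : MvPowerSeries (Fin 3) DQ.R →ₐ[B] DualNumber (ResidueField B)) (b : B) :
    TrivSqZeroExt.snd (tanOfBase B DQ ψ (algebraMap B (MvPowerSeries (Fin 3) DQ.R) b)) = 0 := by
  rw [tanOfBase_apply, AlgHom.commutes, tanAlgebra_algebraMap, dualMap_inl,
    TrivSqZeroExt.snd_inl]

variable {B} {DQ}

/-- **(REL-P1)** relative presentation of the ring framed at one place: if the tangent cocycles
of type `𝒟` vanishing on `D` form a space of dimension `≤ r`, and the framed universal matrices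
`r□(σ)`, `σ ∈ D`, have their entries in (the image of) the complete Noetherian local
`𝒪`-algebra `B`, then `DQ.R⟦Y₀, Y₁, Y₂⟧` is a quotient of `B⟦x₁, …, x_r⟧`. -/
theorem exists_surjective_of_relSel [Finite (ResidueField 𝒪)]
    [IsNoetherianRing B] [IsAdicComplete (maximalIdeal B) B]
    (p : ℕ) (hp : p.Prime)
    (hdet : ∀ ρ' : GaloisRepAdic (DualNumber (ResidueField 𝒪)), 𝒟 ρ' → ρ'.DetIsCyclotomic p)
    (hbc : ∀ (φ : TanHom 𝒪 DQ.R)
      (hφ : IsLocalHom (φ : DQ.R →+* DualNumber (ResidueField 𝒪))), Function.Surjective φ →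
      𝒟 (DQ.ρ.baseChangeAlong (φ : DQ.R →+* DualNumber (ResidueField 𝒪)) hφ))
    (F : UFrame DQ) (D : Set GQ)
    (hD : ∀ σ ∈ D, ∀ i j, framedRep F σ i j ∈
      Set.range (algebraMap B (MvPowerSeries (Fin 3) DQ.R)))
    (r : ℕ) (hsel : RelSel 𝒪 ρbar 𝒟 D r) :
    ∃ γ : MvPowerSeries (Fin r) B →ₐ[B] MvPowerSeries (Fin 3) DQ.R, Function.Surjective γ := by
  obtain ⟨T, hTfin, hTr, hT⟩ := hsel
  haveI := hTfin
  haveI : IsAdicComplete (maximalIdeal (MvPowerSeries (Fin 3) DQ.R))
      (MvPowerSeries (Fin 3) DQ.R) := Fermat.Agent.S53.H596.isAdicComplete_mvPowerSeries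
  haveI : Finite (ResidueField B) := Finite.of_equiv _ (resEquiv B DQ).toEquiv
  haveI : Finite T := Module.finite_of_finite (ResidueField 𝒪)
  have hmem : ∀ ψ : MvPowerSeries (Fin 3) DQ.R →ₐ[B] DualNumber (ResidueField B),
      frCoc F (tanOfBase B DQ ψ) ∈ T := by
    intro ψ
    refine hT _ (frCoc_type p hp hdet hbc F (tanOfBase B DQ ψ)) (fun σ hσ => ?_)
    refine frCoc_eq_zero F (tanOfBase B DQ ψ) σ (fun i j => ?_)
    obtain ⟨b, hb⟩ := hD σ hσ i j
    rw [← hb]
    exact snd_tanOfBase_algebraMap B DQ ψ b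
  let G : (MvPowerSeries (Fin 3) DQ.R →ₐ[B] DualNumber (ResidueField B)) → T :=
    fun ψ => ⟨frCoc F (tanOfBase B DQ ψ), hmem ψ⟩
  have hG : Function.Injective G := by
    intro ψ ψ' h
    have h1 : frCoc F (tanOfBase B DQ ψ) = frCoc F (tanOfBase B DQ ψ') :=
      congrArg Subtype.val h
    exact tanOfBase_injective B DQ (frCoc_injective hbc F h1)
  have hcard : Nat.card T ≤ Nat.card (ResidueField B) ^ r := by
    rw [Module.natCard_eq_pow_finrank (K := ResidueField 𝒪) (V := T),
      ← Nat.card_congr (resEquiv B DQ).toEquiv]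
    exact Nat.pow_le_pow_right Nat.card_pos hTr
  exact exists_surjective_of_card_le (isLocalHom_base (DQ := DQ) B)
    (residue_surjective_base (DQ := DQ) B) (tanAlgebra_algebraMap B) r G hG hcard

end Main

end

end Fermat.Agent.S38.H953

end
-- ===== PACK-END S38/H953/RelP1.lean

-- ===== PACK-BEGIN S55/PT/SpecT.lean
section




/-!
# S55 / layer D: leaves D-I2 (effaceability), D-T2 (dévissage of the top pairings),
D-T3 (CAP for all modules), D-E (abstract engine)

Spec pattern.  Producer: `theorem foo : FooSpec …` in a NEW file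
`Fermat/Agent/S55/PT/<Leaf>H<seat>.lean`.
-/

set_option autoImplicit false

noncomputable section

namespace Fermat.Agent.S55.PT

open groupCohomology ExtCitation

/-! ## D-I2: effaceability of `H¹` of the dual (formal, from finiteness) -/

/-- **D-I2 (E2).**  If `H¹(M′)` is finite-dimensional then for every level `V` acting trivially on
`M` and `χ` there is a normal level `U ≤ V` such that `H¹(M′) → H¹((Ind_U (twTriv χ M))′)`
(induced by the dual of the twisted augmentation) is zero.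
Proof: a cocycle `c` which is right-`U`-invariant becomes the coboundary of
`F (single γU w) = χ(γ)⁻¹ c(γ)(γ w)`. -/
def EffaceSpec : Prop :=
  ∀ (k : Type) [Field k] (G : Type) [Group G] (L : LevelSys G) (_hN : L.NormalCofinal)
    (χ : G →* kˣ) (M : Rep.{0, 0, 0} k G) (_hM : L.IsUSmooth M),
    FiniteDimensional k (L.H1 (M.dualTwist χ)) →
    ∀ V ∈ L.levels, ∀ (hχ : ∀ u ∈ V, χ u = 1) (hMV : ∀ u ∈ V, M.ρ u = 1),
      ∃ (U : Subgroup G) (hUV : U ≤ V), U ∈ L.levels ∧ U.Normal ∧
        ∀ x : L.H1 (M.dualTwist χ),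
          pushH1 (A := M.dualTwist χ) (B := (indRep U (twTriv χ M)).dualTwist χ)
            (augTw χ U M).dualMap
            (dualMap_equivariant χ (A := indRep U (twTriv χ M)) (B := M) (augTw χ U M)
              (augTw_equivariant χ U M (fun u hu => hχ u (hUV hu)) (fun u hu => hMV u (hUV hu))))
            L x = 0

/-! ## D-T2: the top pairings are bijective for ALL finite-dimensional smooth modules -/

variable (p : ℕ) [Fact p.Prime] (S : Finset Nat.Primes)

variable {p S} in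
/-- local top-degree duality for all finite-dimensional smooth modules:
`H²(G_v, N) ≃ Dual (Hom_{G_v}(N, μ))` -/
def TopLocSpec (inv : InvFamily p S) : Prop :=
  ∀ (v : ↥S) (N : Rep.{0, 0, 0} (ZMod p) (Gl v.1)), FiniteDimensional (ZMod p) N →
    (localLevels v.1).IsUSmooth N →
    Function.Bijective (topPair (localLevels v.1) (cycloLoc p v.1) (inv v) N)

variable {p S} in
/-- global top-degree duality for all finite-dimensional smooth modules:
`T³(N) ≃ Dual (Hom_G(N, μ))` -/
def TopGlobSpec (inv : InvFamily p S) (hrec : IsRecip (hrl S) (cycloChar p) inv) : Prop :=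
  ∀ (N : Rep.{0, 0, 0} (ZMod p) GQ), FiniteDimensional (ZMod p) N →
    (globalLevels S).IsUSmooth N →
    Function.Bijective (topT3 (hrl S) N hrec)

/-- **D-T2a.**  Local dévissage: A4 + A6 ⇒ local top duality for all modules.
Proof: present `N` by `Q = Ind_W (twTriv χ N) ↠ N` (`W` a normal level trivial on `N`, `χ`);
`θ(Q)` bijective by coordinates (`indMap W λ`, `λ ∈ Dual N`) from A6; `θ(N)` surjective since
`Dual (charHom Q) ↠ Dual (charHom N)`; injective by the four lemma, using `θ(ker)` surjective,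
exactness at `H²(Q)` (D-F3) and A4. -/
def TopLocDevSpec : Prop :=
  LesMidSpec → LocalNormalCofinalSpec → LocalFiniteIndexSpec →
    ∀ inv : InvFamily p S, TopLocIndSpec inv → Surj2LocSpec p S → TopLocSpec inv

/-- **D-T2b.**  Global dévissage: A3 + A4 + A7 + local top duality ⇒ global top duality for all
modules.  Surjectivity of `Θ(N)` comes from ONE place (`p ∈ S`); injectivity by the four lemma
for `T³(ker) → T³(Q) → T³(N) → 0`, `Q = Ind_U (twTriv χ N)`. -/
def TopGlobDevSpec : Prop :=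
  LesMidSpec → GlobalNormalCofinalSpec → LocalNormalCofinalSpec → GlobalFiniteIndexSpec →
    pPrime p ∈ S →
    ∀ (inv : InvFamily p S) (hrec : IsRecip (hrl S) (cycloChar p) inv),
      TopLocSpec inv → TopGlobIndSpec inv → Surj2GlobSpec p S → Surj2LocSpec p S →
      TopGlobSpec inv hrec

/-! ## D-T3: CAP for all modules -/

/-- CAP for all modules: `Ш²(Ind_U (twTriv χ M)) → Ш²(M)` is zero for suitable `U`. -/
def CapAllSpec : Prop :=
  ∀ (M : Rep.{0, 0, 0} (ZMod p) GQ), FiniteDimensional (ZMod p) M →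
    ∀ V ∈ (globalLevels S).levels, ∀ (hχ : ∀ u ∈ V, cycloChar p u = 1)
      (hMV : ∀ u ∈ V, M.ρ u = 1),
      ∃ (U : Subgroup GQ) (hUV : U ≤ V), U ∈ (globalLevels S).levels ∧ U.Normal ∧
        ∀ x ∈ Sha2 (hrl S) (indRep U (twTriv (cycloChar p) M)),
          pushH2 (A := indRep U (twTriv (cycloChar p) M)) (B := M) (augTw (cycloChar p) U M)
            (augTw_equivariant (cycloChar p) U M (fun u hu => hχ u (hUV hu))
              (fun u hu => hMV u (hUV hu)))
            (globalLevels S) x = 0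

/-- **D-T3.**  A8 ⇒ CAP for all modules (coordinates `indMap U λ` + level change + `augTw`). -/
def CapDevSpec : Prop :=
  GlobalNormalCofinalSpec → CapSpec p S → CapAllSpec p S

end Fermat.Agent.S55.PT

end

end
-- ===== PACK-END S55/PT/SpecT.lean

-- ===== PACK-BEGIN S55/H295/CohTriv.lean
section




/-!
# Cohomological triviality, part 5: the twin-vanishing criterion (`T4a`)

`twinVanishing : T.TwinVanishingSpec`: if `H¹(H, A) = H²(H, A) = 0` for every subgroup `H` of the
finite group `G`, then `A` is cohomologically trivial, i.e. `Ĥⁿ(H, A) = 0` for all `n : ℤ` and all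
`H ≤ G`.

More generally (`isCohTriv_of_tate_twin`), vanishing of `Ĥ^q` and `Ĥ^{q+1}` on all subgroups for
a single `q : ℤ` suffices.
-/

set_option autoImplicit false

open CategoryTheory groupCohomology Rep Limits

universe u

namespace Fermat.Agent.S55.H295

noncomputable section

variable {k G : Type u} [CommRing k] [Group G]

/-- Tate cohomology in positive degrees is group cohomology (vanishing form). -/
lemma isZero_tate_iff_group {H : Type u} [Group H] [Fintype H] (M : Rep.{u} k H) (n : ℕ)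
    [NeZero n] : IsZero (tateCohomology M (n : ℤ)) ↔ IsZero (groupCohomology M n) :=
  ((TateCohomology.isoGroupCohomology n).app M).isZero_iff

/-- Twin vanishing of Tate cohomology in degrees `q, q + 1` on all subgroups. -/
def TateTwin (A : Rep.{u} k G) (q : ℤ) : Prop :=
  ∀ (H : Subgroup G) [Fintype H],
    IsZero (tateCohomology (res H.subtype A) q) ∧ IsZero (tateCohomology (res H.subtype A) (q + 1))

lemma TateTwin.cast {A : Rep.{u} k G} {q q' : ℤ} (h : TateTwin A q) (e : q = q') :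
    TateTwin A q' := e ▸ h

lemma isZero_tate_up_iff (H : Subgroup G) [Fintype H] (A : Rep.{u} k G) (n m : ℤ)
    (h : n + 1 = m) :
    IsZero (tateCohomology (res H.subtype (H572.up A)) n) ↔
      IsZero (tateCohomology (res H.subtype A) m) := by
  subst h
  exact (H572.tateUpIso H A n).isZero_iff

lemma isZero_tate_down_iff [Fintype G] (H : Subgroup G) [Fintype H] (A : Rep.{u} k G) (n m : ℤ)
    (h : n + 1 = m) :
    IsZero (tateCohomology (res H.subtype A) n) ↔
      IsZero (tateCohomology (res H.subtype (H572.down A)) m) := by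
  subst h
  exact (H572.tateDownIso H A n).isZero_iff

lemma TateTwin.up {A : Rep.{u} k G} {q : ℤ} (h : TateTwin A (q + 1)) :
    TateTwin (H572.up A) q := fun H _ =>
  ⟨(isZero_tate_up_iff H A q (q + 1) rfl).2 (h H).1,
    (isZero_tate_up_iff H A (q + 1) (q + 1 + 1) rfl).2 (h H).2⟩

lemma TateTwin.of_up {A : Rep.{u} k G} {q : ℤ} (h : TateTwin (H572.up A) q) :
    TateTwin A (q + 1) := fun H _ =>
  ⟨(isZero_tate_up_iff H A q (q + 1) rfl).1 (h H).1,
    (isZero_tate_up_iff H A (q + 1) (q + 1 + 1) rfl).1 (h H).2⟩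

lemma TateTwin.down [Fintype G] {A : Rep.{u} k G} {q : ℤ} (h : TateTwin A q) :
    TateTwin (H572.down A) (q + 1) := fun H _ =>
  ⟨(isZero_tate_down_iff H A q (q + 1) rfl).1 (h H).1,
    (isZero_tate_down_iff H A (q + 1) (q + 1 + 1) rfl).1 (h H).2⟩

lemma TateTwin.of_down [Fintype G] {A : Rep.{u} k G} {q : ℤ}
    (h : TateTwin (H572.down A) (q + 1)) : TateTwin A q := fun H _ =>
  ⟨(isZero_tate_down_iff H A q (q + 1) rfl).2 (h H).1,
    (isZero_tate_down_iff H A (q + 1) (q + 1 + 1) rfl).2 (h H).2⟩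

section Finite

variable [Finite G]

/-- From Tate twin vanishing in degrees `d, d + 1 ≥ 1` to hom-form twin vanishing. -/
lemma TateTwin.twinVanish {A : Rep.{u} k G} (d : ℕ) [NeZero d]
    (h : TateTwin A (d : ℤ)) : TwinVanish A d := by
  classical
  apply twinVanish_of_subgroups
  intro H
  let _ : Fintype H := Fintype.ofFinite H
  exact ⟨(isZero_tate_iff_group _ d).1 (h H).1, (isZero_tate_iff_group _ (d + 1)).1 (h H).2⟩

/-- Key step upward: Tate twin vanishing in degrees `1, 2` gives vanishing in degree `3`. -/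
lemma TateTwin.three {A : Rep.{u} k G} (h : TateTwin A 1) (H : Subgroup G) [Fintype H] :
    IsZero (tateCohomology (res H.subtype A) 3) := by
  have h1 : TwinVanish A 1 := TateTwin.twinVanish 1 h
  have h3 := isZero_H3_of_twinVanish (res H.subtype A) (h1.res H.subtype H.subtype_injective)
  exact (isZero_tate_iff_group (res H.subtype A) 3).2 h3

/-- Key step downward: Tate twin vanishing in degrees `2, 3` gives vanishing in degree `1`. -/
lemma TateTwin.one {A : Rep.{u} k G} (h : TateTwin A 2) (H : Subgroup G) [Fintype H] :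
    IsZero (tateCohomology (res H.subtype A) 1) := by
  have h1 : TwinVanish A 2 := TateTwin.twinVanish 2 h
  have h3 := isZero_H1_of_twinVanish (res H.subtype A) (h1.res H.subtype H.subtype_injective)
  exact (isZero_tate_iff_group (res H.subtype A) 1).2 h3

lemma TateTwin.succ_of_one {A : Rep.{u} k G} (h : TateTwin A 1) : TateTwin A 2 :=
  fun H _ => ⟨(h H).2, h.three H⟩

lemma TateTwin.pred_of_two {A : Rep.{u} k G} (h : TateTwin A 2) : TateTwin A 1 :=
  fun H _ => ⟨h.one H, (h H).1⟩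

/-- Moving the window up by one, at an arbitrary position `1 + m`, `m ≥ 0`. -/
lemma TateTwin.succ_nat : ∀ (m : ℕ) (A : Rep.{u} k G), TateTwin A (1 + m) →
    TateTwin A (1 + m + 1) := by
  intro m
  induction m with
  | zero =>
    intro A h
    have h' : TateTwin A 1 := h.cast (by simp)
    exact h'.succ_of_one.cast (by simp)
  | succ m ih =>
    intro A h
    have h1 : TateTwin (H572.up A) (1 + m) :=
      TateTwin.up (h.cast (by push_cast; ring))
    have h2 := (ih (H572.up A) h1).of_up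
    exact h2.cast (by push_cast; ring)

end Finite

section Fintype

variable [Fintype G]

/-- Moving the window down by one, at an arbitrary position `2 - m`, `m ≥ 0`. -/
lemma TateTwin.pred_nat : ∀ (m : ℕ) (A : Rep.{u} k G), TateTwin A (2 - m) →
    TateTwin A (2 - m - 1) := by
  intro m
  induction m with
  | zero =>
    intro A h
    have h' : TateTwin A 2 := h.cast (by simp)
    exact h'.pred_of_two.cast (by simp)
  | succ m ih =>
    intro A h
    have h1 : TateTwin (H572.down A) (2 - m) :=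
      (TateTwin.down h).cast (by push_cast; ring)
    have h2 := ih (H572.down A) h1
    apply TateTwin.of_down
    exact h2.cast (by push_cast; ring)

/-- From the window at `1` to the window at `1 + m`. -/
lemma TateTwin.add_nat (A : Rep.{u} k G) (h : TateTwin A 1) : ∀ m : ℕ, TateTwin A (1 + m) := by
  intro m
  induction m with
  | zero => exact h.cast (by simp)
  | succ m ih =>
    exact (TateTwin.succ_nat m A ih).cast (by push_cast; ring)

/-- From the window at `1` to the window at `1 - m`. -/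
lemma TateTwin.sub_nat (A : Rep.{u} k G) (h : TateTwin A 1) : ∀ m : ℕ, TateTwin A (1 - m) := by
  intro m
  induction m with
  | zero => exact h.cast (by simp)
  | succ m ih =>
    have h2 : TateTwin A (2 - (m + 1 : ℕ)) := ih.cast (by push_cast; ring)
    exact (TateTwin.pred_nat (m + 1) A h2).cast (by push_cast; ring)

/-- **Twin-vanishing criterion, Tate form at `1`.** -/
theorem isZero_tate_of_tateTwin_one (A : Rep.{u} k G) (h : TateTwin A 1)
    (H : Subgroup G) [Fintype H] (n : ℤ) :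
    IsZero (tateCohomology (res H.subtype A) n) := by
  rcases le_total 1 n with hn | hn
  · obtain ⟨m, rfl⟩ : ∃ m : ℕ, n = 1 + m := ⟨(n - 1).toNat, by omega⟩
    exact (TateTwin.add_nat A h m H).1
  · obtain ⟨m, rfl⟩ : ∃ m : ℕ, n = 1 - m := ⟨(1 - n).toNat, by omega⟩
    exact (TateTwin.sub_nat A h m H).1

end Fintype

end

end Fermat.Agent.S55.H295

end
-- ===== PACK-END S55/H295/CohTriv.lean

-- ===== PACK-BEGIN S55/T/T6pH353/SylowClass.lean
section




/-!
# S55, layer T, leaf T6p (helper353): a class module at `p` restricts to a class module over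
every `p`-subgroup; corestriction is injective on `H²(P, C)` for a Sylow `p`-subgroup `P`.
-/

set_option autoImplicit false

open CategoryTheory groupCohomology

namespace Fermat.Agent.S55.T.H353

open Fermat.Agent.S55.H572 Fermat.Agent.S55.E1

noncomputable section

/-! ### Elementary group theory -/

/-- A generator of a finite group has order the cardinality of the group. -/
lemma addOrderOf_eq_card_of_forall_nsmul {M : Type} [AddCommGroup M] (g : M)
    (hgen : ∀ x : M, ∃ n : ℕ, x = n • g) : addOrderOf g = Nat.card M := by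
  have htop : AddSubgroup.zmultiples g = ⊤ := by
    rw [eq_top_iff]
    intro x _
    obtain ⟨n, rfl⟩ := hgen x
    exact AddSubgroup.nsmul_mem _ (AddSubgroup.mem_zmultiples g) n
  rw [← Nat.card_zmultiples, htop, AddSubgroup.card_top]

/-! ### Transitivity of restriction -/

section Transport

variable {k G : Type} [CommRing k] [Group G] (A : Rep.{0} k G) (P : Subgroup G) (K : Subgroup P)

/-- Transitivity of restriction, on cohomology: `Hⁿ(K, (A|_P)|_K) ≅ Hⁿ(K', A|_{K'})` where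
`K' = K.map P.subtype` is `K` viewed as a subgroup of `G`. -/
def resResIso353 (n : ℕ) :
    groupCohomology (T.resSub (T.resSub A P) K) n ≅
      groupCohomology (T.resSub A (K.map P.subtype)) n :=
  groupCohomology.mapIso (K.equivMapOfInjective P.subtype P.subtype_injective)
    (LinearEquiv.refl k A.V) (fun g => by
      ext x
      rfl) n

/-- Compatibility of `resResIso353` with the restriction maps. -/
lemma resMap_resResIso353_inv (n : ℕ) :
    T.resMap A (K.map P.subtype) n ≫ (resResIso353 A P K n).inv =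
      T.resMap A P n ≫ T.resMap (T.resSub A P) K n := by
  unfold resResIso353
  rw [groupCohomology.mapIso_inv]
  refine (groupCohomology.map_comp _ _ _ _ n).symm.trans ?_
  refine Eq.trans ?_ (groupCohomology.map_comp _ _ _ _ n)
  exact groupCohomology.map_congr rfl rfl n

lemma resResIso353_inv_resMap (n : ℕ) (x : groupCohomology A n) :
    (resResIso353 A P K n).inv.hom ((T.resMap A (K.map P.subtype) n).hom x) =
      (T.resMap (T.resSub A P) K n).hom ((T.resMap A P n).hom x) := by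
  have h := congrArg (fun f => f.hom x) (resMap_resResIso353_inv A P K n)
  exact h

lemma resResIso353_hom_resMap (n : ℕ) (x : groupCohomology A n) :
    (resResIso353 A P K n).hom.hom ((T.resMap (T.resSub A P) K n).hom ((T.resMap A P n).hom x)) =
      (T.resMap A (K.map P.subtype) n).hom x := by
  rw [← resResIso353_inv_resMap]
  exact congrArg (fun f => f.hom ((T.resMap A (K.map P.subtype) n).hom x))
    (resResIso353 A P K n).inv_hom_id

lemma card_map_subtype353 : Nat.card (K.map P.subtype) = Nat.card K :=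
  (Nat.card_congr (K.equivMapOfInjective P.subtype P.subtype_injective).toEquiv).symm

end Transport

/-! ### Restriction of a class module at `p` to a `p`-subgroup -/

section ClassModule

variable {G : Type} [Group G] [Finite G]

/-- For a `p`-subgroup `P`, the class `res_P γ` has order `|P|`. -/
lemma addOrderOf_resMap_of_classModuleAt {p : ℕ} {C : Rep.{0} ℤ G} {γ : groupCohomology C 2}
    (hC : IsClassModuleAt p C γ) (P : Subgroup G) (hP : IsPGroup p P) :
    addOrderOf ((T.resMap C P 2).hom γ) = Nat.card P := by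
  obtain ⟨-, hcard, hgen⟩ := hC P hP
  rw [addOrderOf_eq_card_of_forall_nsmul _ hgen, hcard]

/-- A class module at `p` restricts to a class module (in the sense of `T.IsClassModule`) over
every `p`-subgroup. -/
theorem isClassModule_of_isPGroup {p : ℕ} {C : Rep.{0} ℤ G} {γ : groupCohomology C 2}
    (hC : IsClassModuleAt p C γ) (P : Subgroup G) (hP : IsPGroup p P) :
    T.IsClassModule (T.resSub C P) ((T.resMap C P 2).hom γ) := by
  intro K
  have hK' : IsPGroup p (K.map P.subtype) := hP.to_le (Subgroup.map_subtype_le K)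
  obtain ⟨h1, hcard, hgen⟩ := hC (K.map P.subtype) hK'
  have hord : addOrderOf ((T.resMap C (K.map P.subtype) 2).hom γ) = Nat.card K := by
    rw [addOrderOf_resMap_of_classModuleAt hC _ hK', card_map_subtype353]
  have hg : (resResIso353 C P K 2).inv.hom ((T.resMap C (K.map P.subtype) 2).hom γ) =
      (T.resMap (T.resSub C P) K 2).hom ((T.resMap C P 2).hom γ) :=
    resResIso353_inv_resMap C P K 2 γ
  have hg' : (resResIso353 C P K 2).hom.hom
      ((T.resMap (T.resSub C P) K 2).hom ((T.resMap C P 2).hom γ)) =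
      (T.resMap C (K.map P.subtype) 2).hom γ :=
    resResIso353_hom_resMap C P K 2 γ
  have hinj : Function.Injective (resResIso353 C P K 2).hom.hom := by
    intro a b hab
    have h := congrArg (resResIso353 C P K 2).inv.hom hab
    have e := fun z => congrArg (fun f => f.hom z) (resResIso353 C P K 2).hom_inv_id
    exact (e a).symm.trans (h.trans (e b))
  refine ⟨Limits.IsZero.of_iso h1 (resResIso353 C P K 1), ?_, ?_, ?_⟩
  · intro x
    obtain ⟨n, hn⟩ := hgen ((resResIso353 C P K 2).hom.hom x)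
    refine ⟨(n : ℤ), hinj ?_⟩
    rw [T.modSMul_eq_zsmul, natCast_zsmul, map_nsmul, hg']
    exact hn
  · intro c hc
    rw [T.modSMul_eq_zsmul] at hc
    have h2 : c • (T.resMap C (K.map P.subtype) 2).hom γ = 0 := by
      rw [← hg', ← map_zsmul, hc, map_zero]
    have h3 := (addOrderOf_dvd_iff_zsmul_eq_zero).2 h2
    rw [hord] at h3
    obtain ⟨d, hd⟩ := h3
    exact ⟨d, hd⟩
  · rw [T.modSMul_eq_zsmul]
    apply hinj
    rw [map_zsmul, hg', map_zero]
    apply (addOrderOf_dvd_iff_zsmul_eq_zero).1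
    rw [hord]

/-- Corestriction from a `p`-subgroup `P` of index prime to `p` is injective on `H²(P, C)` for a
class module `C` at `p`. -/
theorem cor_injective_of_classModuleAt {p : ℕ} {C : Rep.{0} ℤ G} {γ : groupCohomology C 2}
    (hC : IsClassModuleAt p C γ) (P : Subgroup G) (hP : IsPGroup p P)
    (hidx : (Nat.card P).Coprime P.index) [Fintype (G ⧸ P)]
    (z : groupCohomology (T.resSub C P) 2) (hz : (cor P 2 C).hom z = 0) : z = 0 := by
  obtain ⟨-, -, hgen⟩ := hC P hP
  obtain ⟨n, rfl⟩ := hgen z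
  have hcr : (cor P 2 C).hom ((T.resMap C P 2).hom γ) = P.index • γ := by
    have h := congrArg (fun f => f.hom γ) (resH_cor P 2 C)
    exact h
  rw [map_nsmul, hcr] at hz
  have h2 : (n * P.index) • (T.resMap C P 2).hom γ = 0 := by
    rw [mul_smul, ← map_nsmul, ← map_nsmul, hz, map_zero]
  have h3 := (addOrderOf_dvd_iff_nsmul_eq_zero).2 h2
  rw [addOrderOf_resMap_of_classModuleAt hC P hP] at h3
  have h4 : Nat.card P ∣ n := hidx.dvd_of_dvd_mul_right h3
  apply (addOrderOf_dvd_iff_nsmul_eq_zero).1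
  rw [addOrderOf_resMap_of_classModuleAt hC P hP]
  exact h4

end ClassModule

end

end Fermat.Agent.S55.T.H353

end
-- ===== PACK-END S55/T/T6pH353/SylowClass.lean

-- ===== PACK-BEGIN S55/K/T3H397.lean
section
/-
S55 moonshot — LAYER K, leaf K-T3 (helper397).

`h3IndMu_of : KummerSpec p S → H2DivESpec p S → H3TorsESpec p S → H3IndMuSpec p S`

Cochain-level proof (blueprint `coord/S55-K.md` §2, origin/helper4).
`M = Ind_V μ ⊂ E = Ind_V 𝔼`:  `c ∈ Z³_LC(M)`; `p·c = 0` ⇒ (GO2) `c = d b`, `b ∈ C²_LC(E)`;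
`p·b ∈ Z²_LC(E)` ⇒ (GO1) `p·b = p·y + d a`; (KUM) `a = p·ã` with `ã`, `d ã` level-constant;
`b′ := b − y − d ã` is killed by `p`, hence comes from `C²_LC(M)`, and `d b′ = c`.
-/




set_option autoImplicit false

noncomputable section

namespace Fermat.Agent.S55.K.H397

open groupCohomology Fermat.Agent.S55.PT Fermat.Agent.S55.Bridge Fermat.Agent.S55.K

/-! ### 1. Abstract part: a level system on a group `G` -/

section Abstract

variable {G : Type} [Group G] (L : LevelSys G)
variable {k : Type} [CommRing k] (E : Rep.{0, 0, 0} k G)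

/-- `e` is fixed by some level. -/
def Sm (e : E) : Prop := ∃ U ∈ L.levels, ∀ s ∈ U, E.ρ s e = e

lemma sm_zero : Sm L E 0 := by
  obtain ⟨U, hU⟩ := L.nonempty
  exact ⟨U, hU, fun s _ => map_zero _⟩

/-- Finitely many smooth elements are fixed by a common level. -/
lemma exists_common_level (T : Finset E) (hT : ∀ e ∈ T, Sm L E e) :
    ∃ W ∈ L.levels, ∀ e ∈ T, ∀ s ∈ W, E.ρ s e = e := by
  classical
  induction T using Finset.induction_on with
  | empty =>
    obtain ⟨U, hU⟩ := L.nonempty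
    exact ⟨U, hU, by simp⟩
  | insert a T ha ih =>
    obtain ⟨W, hW, h⟩ := ih (fun e he => hT e (Finset.mem_insert_of_mem he))
    obtain ⟨U, hU, h'⟩ := hT a (Finset.mem_insert_self a T)
    obtain ⟨W', hW', hle⟩ := L.directed U hU W hW
    refine ⟨W', hW', fun e he s hs => ?_⟩
    rcases Finset.mem_insert.1 he with rfl | he
    · exact h' s (hle hs).1
    · exact h e he s (hle hs).2

variable {L E}

/-- KEY REMARK (K-I3, degree 1): if `a` and `d a` are constant modulo a normal subgroup `U`,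
then all values of `a` are `U`-invariant. -/
lemma values_invariant {U : Subgroup G} (hn : U.Normal) (a : G → E)
    (ha : ∀ g s, s ∈ U → a (g * s) = a g)
    (hda : ∀ g g' s s', s ∈ U → s' ∈ U →
      (d₁₂ E).hom a (g * s, g' * s') = (d₁₂ E).hom a (g, g'))
    (s : G) (hs : s ∈ U) (g : G) : E.ρ s (a g) = a g := by
  have h1 := hda 1 g s 1 hs U.one_mem
  simp only [d₁₂_hom_apply, one_mul, mul_one, map_one, Module.End.one_apply] at h1
  have h2 : a (s * g) = a g := by
    have e : s * g = g * (g⁻¹ * s * g⁻¹⁻¹) := by group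
    rw [e]
    exact ha g _ (hn.conj_mem s hs g⁻¹)
  have h3 : a s = a 1 := by simpa using ha 1 s hs
  rw [h2, h3] at h1
  have h4 : E.ρ s (a g) - a g = a g - a g := add_right_cancel h1
  rw [sub_self, sub_eq_zero] at h4
  exact h4

/-- Lifting through multiplication by `p` (K-I4 for `p : E → E`). -/
lemma exists_root_cochain (hF : L.FiniteIndex) (p : ℕ)
    (hkum : ∀ x : E, Sm L E x → ∃ y : E, p • y = x ∧ Sm L E y)
    {U : Subgroup G} (hU : U ∈ L.levels) (a : G → E)
    (ha : ∀ g s, s ∈ U → a (g * s) = a g)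
    (hsm : ∀ g, Sm L E (a g)) :
    ∃ a' : G → E, p • a' = a ∧ (∀ g s, s ∈ U → a' (g * s) = a' g) ∧
      ∃ W ∈ L.levels, ∀ s ∈ W, ∀ g, E.ρ s (a' g) = a' g := by
  classical
  have hfi : U.FiniteIndex := hF U hU
  let _ : Fintype (G ⧸ U) := Subgroup.fintypeQuotientOfFiniteIndex
  choose r hr hr' using fun x : {x : E // Sm L E x} => hkum x.1 x.2
  let q : G ⧸ U → E := fun c => r ⟨a c.out, hsm _⟩
  refine ⟨fun g => q (g : G ⧸ U), ?_, ?_, ?_⟩
  · funext g
    simp only [Pi.smul_apply, q]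
    rw [hr]
    obtain ⟨u, hu⟩ := QuotientGroup.mk_out_eq_mul U g
    simp only [hu]
    exact ha g u u.2
  · intro g s hs
    have e : ((g * s : G) : G ⧸ U) = (g : G ⧸ U) := by
      rw [QuotientGroup.eq]
      simpa using U.inv_mem hs
    simp only [e]
  · obtain ⟨W, hW, h⟩ := exists_common_level L E (Finset.univ.image q) (by
      intro e he
      obtain ⟨c, -, rfl⟩ := Finset.mem_image.1 he
      exact hr' _)
    exact ⟨W, hW, fun s hs g => h _ (Finset.mem_image_of_mem _ (Finset.mem_univ _)) s hs⟩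

/-- `d a` is level-constant if `a` is constant modulo a normal level and has values fixed by a
level. -/
lemma d12_isLC {U : Subgroup G} (hn : U.Normal) (hU : U ∈ L.levels) {W : Subgroup G}
    (hW : W ∈ L.levels) (a : G → E) (ha : ∀ g s, s ∈ U → a (g * s) = a g)
    (hfix : ∀ s ∈ W, ∀ g, E.ρ s (a g) = a g) : L.IsLC₂ ((d₁₂ E).hom a) := by
  obtain ⟨W', hW', hle⟩ := L.directed U hU W hW
  refine ⟨W', hW', fun g g' s s' hs hs' => ?_⟩
  simp only [d₁₂_hom_apply]
  have e1 : a (g' * s') = a g' := ha _ _ (hle hs').1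
  have e2 : a (g * s) = a g := ha _ _ (hle hs).1
  have e3 : a (g * s * (g' * s')) = a (g * g') := by
    have e : g * s * (g' * s') = g * g' * ((g'⁻¹ * s * g'⁻¹⁻¹) * s') := by group
    rw [e]
    exact ha _ _ (U.mul_mem (hn.conj_mem s (hle hs).1 g'⁻¹) (hle hs').1)
  rw [e1, e2, e3, map_mul, Module.End.mul_apply, hfix s (hle hs).2]

end Abstract

section Main

variable {G : Type} [Group G] {L : LevelSys G}
variable {k k' : Type} [CommRing k] [CommRing k']
variable {M : Rep.{0, 0, 0} k G} {E : Rep.{0, 0, 0} k' G}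

lemma d34_comp (ι : M →+ E) (heq : ∀ g m, ι (M.ρ g m) = E.ρ g (ι m)) (c : G × G × G → M) :
    d34 E (ι ∘ c) = ι ∘ d34 M c := by
  funext x
  simp only [d34, Function.comp_apply, map_add, map_sub, heq]

lemma d23_comp (ι : M →+ E) (heq : ∀ g m, ι (M.ρ g m) = E.ρ g (ι m)) (b : G × G → M) :
    (d₂₃ E).hom (ι ∘ b) = ι ∘ (d₂₃ M).hom b := by
  funext x
  simp only [d₂₃_hom_apply, Function.comp_apply, map_add, map_sub, heq]

lemma d23_d12 (a : G → E) : (d₂₃ E).hom ((d₁₂ E).hom a) = 0 := by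
  have h := LinearMap.congr_fun (congrArg ModuleCat.Hom.hom (d₁₂_comp_d₂₃ E)) a
  exact h

/-- **K-T3, abstract form.**  Let `ι : M → E` be an injective equivariant additive map whose
image is `E[p]`, and assume that the smooth part of `E` is `p`-divisible.  If `H²_L(E)` is
`p`-divisible and `H³_L(E)[p] = 0`, then `H³_L(M) = 0`. -/
theorem h3Vanish_of (hN : L.NormalCofinal) (hF : L.FiniteIndex) (p : ℕ)
    (ι : M →+ E) (hinj : Function.Injective ι)
    (heq : ∀ g m, ι (M.ρ g m) = E.ρ g (ι m))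
    (hpM : ∀ m : M, p • m = 0)
    (htors : ∀ e : E, p • e = 0 → ∃ m, ι m = e)
    (hkum : ∀ x : E, Sm L E x → ∃ y : E, p • y = x ∧ Sm L E y)
    (hdiv : H2Divisible L E p) (htv : H3TorsVanish L E p) : H3Vanish L M := by
  intro c hc hdc
  -- Step 1: `ι ∘ c = d b`
  have hc' : IsLC₃ L (ι ∘ c) := by
    obtain ⟨U, hU, h⟩ := hc
    exact ⟨U, hU, fun g₁ g₂ g₃ s₁ s₂ s₃ h₁ h₂ h₃ => by
      simp only [Function.comp_apply, h g₁ g₂ g₃ s₁ s₂ s₃ h₁ h₂ h₃]⟩
  have hdc' : d34 E (ι ∘ c) = 0 := by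
    rw [d34_comp ι heq, hdc]
    funext x
    exact map_zero ι
  have hpc : p • (ι ∘ c) = 0 := by
    funext x
    simp only [Pi.smul_apply, Function.comp_apply, Pi.zero_apply]
    rw [← map_nsmul, hpM, map_zero]
  obtain ⟨b, hb, hdb⟩ := htv (ι ∘ c) hc' hdc' ⟨0, (L.C2 E).zero_mem, by rw [map_zero, hpc]⟩
  -- Step 2: `p b = p y + d a`
  have hpb : p • b ∈ L.Z2 E := by
    refine ⟨?_, nsmul_mem hb p⟩
    show (d₂₃ E).hom (p • b) = 0
    rw [map_nsmul, hdb, hpc]
  obtain ⟨y, hy, a, ha, hda⟩ := hdiv (p • b) hpb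
  -- Step 3: `a = p a'`
  have hlc : L.IsLC₂ (p • b - p • y) := (L.C2 E).sub_mem (nsmul_mem hb p) (nsmul_mem hy.2 p)
  obtain ⟨U₁, hU₁, h₁⟩ := hlc
  obtain ⟨U₂, hU₂, h₂⟩ := ha
  obtain ⟨U₃, hU₃, hle₃⟩ := L.directed U₁ hU₁ U₂ hU₂
  obtain ⟨U, hU, hleU, hn⟩ := hN U₃ hU₃
  have haU : ∀ g s, s ∈ U → a (g * s) = a g := fun g s hs => h₂ g s (hle₃ (hleU hs)).2
  have hdaU : ∀ g g' s s', s ∈ U → s' ∈ U →
      (d₁₂ E).hom a (g * s, g' * s') = (d₁₂ E).hom a (g, g') := by
    intro g g' s s' hs hs'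
    rw [hda]
    exact h₁ g g' s s' (hle₃ (hleU hs)).1 (hle₃ (hleU hs')).1
  have hinv := values_invariant hn a haU hdaU
  obtain ⟨a', hpa', ha'U, W, hW, hfix⟩ := exists_root_cochain hF p hkum hU a haU
    (fun g => ⟨U, hU, fun s hs => hinv s hs g⟩)
  have hda' : L.IsLC₂ ((d₁₂ E).hom a') := d12_isLC hn hU hW a' ha'U hfix
  -- Step 4: `b' = b - y - d a'`
  obtain ⟨b', hb'def⟩ : ∃ b' : G × G → E, b' = b - y - (d₁₂ E).hom a' := ⟨_, rfl⟩
  have hb'C : b' ∈ L.C2 E := by
    rw [hb'def]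
    exact (L.C2 E).sub_mem ((L.C2 E).sub_mem hb hy.2) hda'
  have hpb' : p • b' = 0 := by
    rw [hb'def, smul_sub, smul_sub, ← map_nsmul, hpa', hda, sub_self]
  have hdb' : (d₂₃ E).hom b' = ι ∘ c := by
    have h1 : (d₂₃ E).hom y = 0 := hy.1
    rw [hb'def, map_sub, map_sub, hdb, h1, d23_d12, sub_zero, sub_zero]
  have hval : ∀ x, ∃ m, ι m = b' x := fun x => htors _ (by simpa using congrFun hpb' x)
  choose b'' hb'' using hval
  have hιb : ι ∘ b'' = b' := funext hb''
  refine ⟨b'', ?_, ?_⟩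
  · obtain ⟨W', hW', h⟩ := hb'C
    refine ⟨W', hW', fun g g' s s' hs hs' => hinj ?_⟩
    rw [hb'', hb'']
    exact h g g' s s' hs hs'
  · funext x
    apply hinj
    have h := congrFun (d23_comp ι heq b'') x
    rw [hιb, hdb'] at h
    exact h.symm

end Main

/-! ### 2. Induced modules -/

section Ind

variable {G : Type} [Group G] {L : LevelSys G}
variable {k : Type} [CommRing k] (A : Rep.{0, 0, 0} k G)

lemma smul_coset_of_normal {U V : Subgroup G} (hn : U.Normal) (hle : U ≤ V) (s : G)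
    (hs : s ∈ U) (c : G ⧸ V) : s • c = c := by
  induction c using QuotientGroup.induction_on with
  | H g =>
    rw [MulAction.Quotient.smul_mk, QuotientGroup.eq]
    have h : (s • g)⁻¹ * g = g⁻¹ * s⁻¹ * g⁻¹⁻¹ := by
      rw [smul_eq_mul]
      group
    rw [h]
    exact hle (hn.conj_mem _ (U.inv_mem hs) _)

lemma indρ_of_trivial (V : Subgroup G) (s : G) (h : ∀ c : G ⧸ V, s • c = c)
    (x : (G ⧸ V) →₀ A) :
    indρ (MonoidHom.id G) V A s x = Finsupp.mapRange (A.ρ s) (map_zero _) x := by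
  have e : (fun c : G ⧸ V => (MonoidHom.id G) s • c) = id := funext h
  simp only [indρ, MonoidHom.coe_mk, OneHom.coe_mk, LinearMap.coe_comp, Function.comp_apply,
    Finsupp.mapRange.linearMap_apply, Finsupp.lmapDomain_apply, e, Finsupp.mapDomain_id]

/-- The smooth part of `Ind_V A` is `p`-divisible if the smooth part of `A` is. -/
lemma kummer_ind (hN : L.NormalCofinal) (p : ℕ)
    (hkum : ∀ x : A, Sm L A x → ∃ y : A, p • y = x ∧ Sm L A y)
    {V : Subgroup G} (hV : V ∈ L.levels) (x : indG V A) (hx : Sm L (indG V A) x) :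
    ∃ y : indG V A, p • y = x ∧ Sm L (indG V A) y := by
  classical
  obtain ⟨U, hU, hx⟩ := hx
  obtain ⟨U₁, hU₁, hle₁⟩ := L.directed U hU V hV
  obtain ⟨U', hU', hle', hn⟩ := hN U₁ hU₁
  have htriv : ∀ s ∈ U', ∀ c : G ⧸ V, s • c = c := fun s hs c =>
    smul_coset_of_normal hn (fun t ht => (hle₁ (hle' ht)).2) s hs c
  obtain ⟨x', hx'⟩ : ∃ x' : (G ⧸ V) →₀ A, x' = x := ⟨x, rfl⟩
  have hcoef : ∀ c, Sm L A (x' c) := fun c => ⟨U', hU', fun s hs => by
    have h := hx s (hle₁ (hle' hs)).1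
    have h' : indρ (MonoidHom.id G) V A s x' = x' := by rw [hx']; exact h
    rw [indρ_of_trivial A V s (htriv s hs)] at h'
    have h'' := DFunLike.congr_fun h' c
    simpa using h''⟩
  choose r hr hr' using fun z : {z : A // Sm L A z} => hkum z.1 z.2
  let y : (G ⧸ V) →₀ A := Finsupp.onFinset x'.support
    (fun c => if x' c = 0 then 0 else r ⟨x' c, hcoef c⟩) (by
      intro c hc
      rw [Finsupp.mem_support_iff]
      intro h0
      exact hc (if_pos h0))
  have hy : ∀ c, y c = if x' c = 0 then 0 else r ⟨x' c, hcoef c⟩ := fun c => rfl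
  refine ⟨y, ?_, ?_⟩
  · rw [← hx']
    refine Finsupp.ext fun c => ?_
    show p • y c = x' c
    rw [hy]
    split_ifs with h0
    · rw [h0, smul_zero]
    · exact hr _
  · obtain ⟨W, hW, hfix⟩ := exists_common_level L A
      (x'.support.image (fun c => r ⟨x' c, hcoef c⟩)) (by
        intro e he
        obtain ⟨c, -, rfl⟩ := Finset.mem_image.1 he
        exact hr' _)
    obtain ⟨W', hW', hleW⟩ := L.directed U' hU' W hW
    refine ⟨W', hW', fun s hs => ?_⟩
    show indρ (MonoidHom.id G) V A s y = y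
    rw [indρ_of_trivial A V s (htriv s (hleW hs).1)]
    refine Finsupp.ext fun c => ?_
    rw [Finsupp.mapRange_apply, hy]
    split_ifs with h0
    · exact map_zero _
    · exact hfix _ (Finset.mem_image_of_mem _ (Finsupp.mem_support_iff.2 h0)) s (hleW hs).2

end Ind

/-! ### 3. The Kummer sequence `0 → μ_p → 𝔼 → 𝔼` -/

section Kummer

variable (p : ℕ) [Fact p.Prime] (S : Finset Nat.Primes) (V : Subgroup _root_.Fermat.Agent.S55.PT.GQ)

lemma muToE_equivariant (g : _root_.Fermat.Agent.S55.PT.GQ) (m : muP p) :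
    muToE p S ((muP p).ρ g m) = (sUnits S).ρ g (muToE p S m) := by
  apply Subtype.ext
  show Additive.ofMul ((MuP.root (p := p) (muPRep p g m) : rootsOfUnity p Qbar) : Qbarˣ)
    = Additive.ofMul (g • ((MuP.root (p := p) m : rootsOfUnity p Qbar) : Qbarˣ))
  congr 1
  apply Units.ext
  exact muPRep_apply p g m

lemma muToE_tors (x : sUnits S) (hx : p • x = 0) : ∃ m : muP p, muToE p S m = x := by
  obtain ⟨u, hu⟩ := x
  have h : (Additive.toMul u) ^ p = 1 := by
    have h1 := congrArg Subtype.val hx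
    exact h1
  exact ⟨MuP.of p ⟨Additive.toMul u, (mem_rootsOfUnity p _).2 h⟩, Subtype.ext rfl⟩

lemma indMuToE_injective : Function.Injective (indMuToE p S V) :=
  Finsupp.mapRange_injective (muToE p S) (map_zero _) (muToE_injective p S)

lemma indMuToE_equivariant (g : _root_.Fermat.Agent.S55.PT.GQ) (m : indG V (muP p)) :
    indMuToE p S V ((indG V (muP p)).ρ g m) = (indG V (sUnits S)).ρ g (indMuToE p S V m) := by
  obtain ⟨m', hm'⟩ : ∃ m' : (_root_.Fermat.Agent.S55.PT.GQ ⧸ V) →₀ muP p, m' = m := ⟨m, rfl⟩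
  rw [← hm']
  show Finsupp.mapRange (muToE p S) (map_zero _)
      (Finsupp.mapDomain (fun c : _root_.Fermat.Agent.S55.PT.GQ ⧸ V => g • c)
        (Finsupp.mapRange ((muP p).ρ g) (map_zero _) m'))
    = Finsupp.mapDomain (fun c : _root_.Fermat.Agent.S55.PT.GQ ⧸ V => g • c)
        (Finsupp.mapRange ((sUnits S).ρ g) (map_zero _)
          (Finsupp.mapRange (muToE p S) (map_zero _) m'))
  rw [← Finsupp.mapDomain_mapRange _ _ _ _ (map_add (muToE p S))]
  congr 1
  refine Finsupp.ext fun c => ?_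
  rw [Finsupp.mapRange_apply, Finsupp.mapRange_apply, Finsupp.mapRange_apply,
    Finsupp.mapRange_apply]
  exact muToE_equivariant p S g (m' c)

lemma indMuToE_tors (e : indG V (sUnits S)) (he : p • e = 0) :
    ∃ m, indMuToE p S V m = e := by
  classical
  obtain ⟨e', he'⟩ : ∃ e' : (_root_.Fermat.Agent.S55.PT.GQ ⧸ V) →₀ sUnits S, e' = e := ⟨e, rfl⟩
  have h : ∀ c, ∃ m : muP p, muToE p S m = e' c := fun c => muToE_tors p S _ (by
    have h1 : p • e' = 0 := by rw [he']; exact he
    have h2 := DFunLike.congr_fun h1 c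
    simpa using h2)
  choose f hf using h
  refine ⟨Finsupp.onFinset e'.support f ?_, ?_⟩
  · intro c hc
    rw [Finsupp.mem_support_iff]
    intro h0
    apply hc
    apply muToE_injective p S
    rw [hf, h0, map_zero]
  · rw [← he']
    refine Finsupp.ext fun c => ?_
    show muToE p S (f c) = e' c
    exact hf c

lemma ind_nsmul_p (m : indG V (muP p)) : p • m = 0 := by
  obtain ⟨m', hm'⟩ : ∃ m' : (_root_.Fermat.Agent.S55.PT.GQ ⧸ V) →₀ MuP p, m' = m := ⟨m, rfl⟩
  rw [← hm']
  refine Finsupp.ext fun c => ?_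
  show p • m' c = 0
  exact MuP.nsmul_p _

end Kummer

/-! ### 4. K-T3 -/

section Final

variable (p : ℕ) [Fact p.Prime] (S : Finset Nat.Primes)

/-- **Leaf K-T3.** `H³_S(Ind_V μ_p) = 0` from KUM, GO1 and GO2. -/
theorem h3IndMu_of (hK : KummerSpec p S) (h2 : H2DivESpec p S) (h3 : H3TorsESpec p S) :
    H3IndMuSpec p S := by
  intro hp2 hpS V hV
  have hN : (globalLevels S).NormalCofinal := globalLevels_normal_cofinal724 S
  have hF : (globalLevels S).FiniteIndex := H424.globalFiniteIndex S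
  exact h3Vanish_of hN hF p (indMuToE p S V) (indMuToE_injective p S V)
    (indMuToE_equivariant p S V) (ind_nsmul_p p V) (indMuToE_tors p S V)
    (kummer_ind (sUnits S) hN p (fun x hx => hK hpS x hx) hV)
    (h2 hp2 hpS V hV) (h3 hp2 hpS V hV)

end Final

end Fermat.Agent.S55.K.H397

end

end
-- ===== PACK-END S55/K/T3H397.lean

-- ===== PACK-BEGIN S55/KC/Defs.lean
section


/-!
# S55 / layer KC (cochain-level Kummer machine; local A6/A4 and library for layer K): vocabulary          (architect: helper53)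

Blueprint: `coord/S55-KC.md` (branch `origin/helper53`).

Layer KC produces the LOCAL inputs of layer D (`PT/Spec.lean`):
`FinLocSpec` (A2), `Surj2LocSpec` (A4) and, for ANY family `inv` of bijective maps, `TopLocIndSpec inv`
(A6), from the finite-level local class field theory of layer L (class module, Hilbert 90) and the
finite-group toolkit of layer T (Shapiro, Tate `H³ = 0`).

Everything is phrased for an abstract group `G` with a level system `L : PT.LevelSys G`
(think `G = G_{ℚ_q}`, levels = open subgroups) and a `ℤ`-representation `B` of `G`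
(think `B = ℚ̄_qˣ`, or `B = Ind_H ℚ̄_qˣ`), the "Kummer module".

* degree-3 level-constant cochains: `IsLC₃`, `IsCocycle₃`, `H3Vanish`  (`H³_lc(G, A) = 0`);
* `H1Vanish` (`H¹_lc(G, A) = 0`);
* `IsKummerEmb p M B ι` : `ι : M → B` identifies the `F_p`-representation `M` with `B[p]`;
* `indR H B = (G ⧸ H →₀ B)` : induced module with diagonal action, over any commutative ring
  (`PT.indRep` is the same definition, but only over fields);
* `IsClassFormation L A` : finite-level class module property of `A` along the normal levels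
  (Mathlib's `groupCohomology` of the finite quotients `G ⧸ V` acting on `A^V`);
* `IsWCF L B V₀ n` : "weak class formation below `V₀`": `H¹ = 0`, `H² ≅ ℤ/n(V)`, `H³ = 0` at the
  normal levels `V ≤ V₀`;
* `PFrattiniFinite L p` : every open subgroup has only finitely many open subgroups of index `p`;
* `unitsA q` : `ℚ̄_qˣ` as a representation of the Prelude's local Galois group `Gl q`.
-/

set_option autoImplicit false

noncomputable section

namespace Fermat.Agent.S55.KC

open groupCohomology ExtCitation Fermat.Agent.S55.PT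

variable {G : Type} [Group G] {k : Type} [CommRing k]

/-! ## 1. Open subgroups; level-constant cochains in degree 3 -/

/-- `H` contains a level ("`H` is open"). -/
def IsOpenSub (L : LevelSys G) (H : Subgroup G) : Prop := ∃ U ∈ L.levels, U ≤ H

/-- Level-constant 3-cochains. -/
def IsLC₃ (L : LevelSys G) {X : Type*} (f : G × G × G → X) : Prop :=
  ∃ U ∈ L.levels, ∀ g₁ g₂ g₃ s₁ s₂ s₃ : G, s₁ ∈ U → s₂ ∈ U → s₃ ∈ U →
    f (g₁ * s₁, g₂ * s₂, g₃ * s₃) = f (g₁, g₂, g₃)

/-- The inhomogeneous 3-cocycle condition `d₃₄ f = 0`. -/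
def IsCocycle₃ (A : Rep.{0, 0, 0} k G) (f : G × G × G → A) : Prop :=
  ∀ g h i j : G,
    A.ρ g (f (h, i, j)) - f (g * h, i, j) + f (g, h * i, j) - f (g, h, i * j) + f (g, h, i) = 0

/-- `H¹_lc(G, A) = 0`: every level-constant 1-cocycle is a coboundary. -/
def H1Vanish (L : LevelSys G) (A : Rep.{0, 0, 0} k G) : Prop :=
  ∀ f : G → A, f ∈ cocycles₁ A → L.IsLC₁ f → ∃ a : A, (d₀₁ A).hom a = f

/-- `H³_lc(G, A) = 0`: every level-constant 3-cocycle is `d` of a level-constant 2-cochain. -/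
def H3Vanish (L : LevelSys G) (A : Rep.{0, 0, 0} k G) : Prop :=
  ∀ z : G × G × G → A, IsLC₃ L z → IsCocycle₃ A z →
    ∃ b : G × G → A, L.IsLC₂ b ∧ (d₂₃ A).hom b = z

/-- `H²_lc(G, A)` is `p`-divisible (cochain form). -/
def H2Divisible (L : LevelSys G) (p : ℕ) (A : Rep.{0, 0, 0} k G) : Prop :=
  ∀ a : G × G → A, a ∈ L.Z2 A → ∃ a' : G × G → A, a' ∈ L.Z2 A ∧ a - p • a' ∈ L.B2 A

/-! ## 2. Cochains inflated from a fixed normal subgroup `V` ("finite level `V`") -/

/-- 1-cochains inflated from `(G ⧸ V, A^V)`. -/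
def IsAt₁ (V : Subgroup G) (A : Rep.{0, 0, 0} k G) (x : G → A) : Prop :=
  ∀ g s : G, s ∈ V → x (g * s) = x g ∧ A.ρ s (x g) = x g

/-- 2-cochains inflated from `(G ⧸ V, A^V)`. -/
def IsAt₂ (V : Subgroup G) (A : Rep.{0, 0, 0} k G) (f : G × G → A) : Prop :=
  ∀ g h s t : G, s ∈ V → t ∈ V → f (g * s, h * t) = f (g, h) ∧ A.ρ s (f (g, h)) = f (g, h)

/-- 3-cochains inflated from `(G ⧸ V, A^V)`. -/
def IsAt₃ (V : Subgroup G) (A : Rep.{0, 0, 0} k G) (f : G × G × G → A) : Prop :=
  ∀ g h i s t u : G, s ∈ V → t ∈ V → u ∈ V →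
    f (g * s, h * t, i * u) = f (g, h, i) ∧ A.ρ s (f (g, h, i)) = f (g, h, i)

/-- `H¹(G ⧸ V, A^V) = 0`, cochain form. -/
def H1VanishAt (V : Subgroup G) (A : Rep.{0, 0, 0} k G) : Prop :=
  ∀ f : G → A, f ∈ cocycles₁ A → IsAt₁ V A f →
    ∃ a : A, (∀ s ∈ V, A.ρ s a = a) ∧ (d₀₁ A).hom a = f

/-- `[f] = 0` in `H²(G ⧸ V, A^V)`, cochain form. -/
def IsCobAt₂ (V : Subgroup G) (A : Rep.{0, 0, 0} k G) (f : G × G → A) : Prop :=
  ∃ x : G → A, IsAt₁ V A x ∧ (d₁₂ A).hom x = f

/-- `H³(G ⧸ V, A^V) = 0`, cochain form. -/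
def H3VanishAt (V : Subgroup G) (A : Rep.{0, 0, 0} k G) : Prop :=
  ∀ z : G × G × G → A, IsAt₃ V A z → IsCocycle₃ A z →
    ∃ b : G × G → A, IsAt₂ V A b ∧ (d₂₃ A).hom b = z

/-- 2-cocycles inflated from `(G ⧸ V, A^V)`. -/
def Z2At (V : Subgroup G) (A : Rep.{0, 0, 0} k G) : AddSubgroup (G × G → A) where
  carrier := {f | f ∈ cocycles₂ A ∧ IsAt₂ V A f}
  add_mem' := by
    rintro f f' ⟨hf, hf2⟩ ⟨hf', hf2'⟩
    refine ⟨(cocycles₂ A).add_mem hf hf', fun g h s t hs ht => ⟨?_, ?_⟩⟩
    · simp only [Pi.add_apply, (hf2 g h s t hs ht).1, (hf2' g h s t hs ht).1]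
    · simp only [Pi.add_apply, map_add, (hf2 g h s t hs ht).2, (hf2' g h s t hs ht).2]
  zero_mem' := ⟨(cocycles₂ A).zero_mem, fun g h s t _ _ => ⟨rfl, by simp⟩⟩
  neg_mem' := by
    rintro f ⟨hf, hf2⟩
    refine ⟨(cocycles₂ A).neg_mem hf, fun g h s t hs ht => ⟨?_, ?_⟩⟩
    · simp only [Pi.neg_apply, (hf2 g h s t hs ht).1]
    · simp only [Pi.neg_apply, map_neg, (hf2 g h s t hs ht).2]

/-- 2-coboundaries at level `V`: `d` of a 1-cochain inflated from `(G ⧸ V, A^V)`. -/
def B2At (V : Subgroup G) (A : Rep.{0, 0, 0} k G) : AddSubgroup (G × G → A) where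
  carrier := {f | IsCobAt₂ V A f}
  add_mem' := by
    rintro f f' ⟨x, hx, rfl⟩ ⟨x', hx', rfl⟩
    refine ⟨x + x', fun g s hs => ⟨?_, ?_⟩, map_add _ _ _⟩
    · simp only [Pi.add_apply, (hx g s hs).1, (hx' g s hs).1]
    · simp only [Pi.add_apply, map_add, (hx g s hs).2, (hx' g s hs).2]
  zero_mem' := ⟨0, fun g s _ => ⟨rfl, by simp⟩, map_zero _⟩
  neg_mem' := by
    rintro f ⟨x, hx, rfl⟩
    refine ⟨-x, fun g s hs => ⟨?_, ?_⟩, map_neg _ _⟩
    · simp only [Pi.neg_apply, (hx g s hs).1]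
    · simp only [Pi.neg_apply, map_neg, (hx g s hs).2]

/-- `H²(G ⧸ V, A^V)` in cochain form: cocycles inflated from level `V` modulo coboundaries at
level `V`. -/
abbrev H2At (V : Subgroup G) (A : Rep.{0, 0, 0} k G) : Type :=
  ↥(Z2At V A) ⧸ (B2At V A).addSubgroupOf (Z2At V A)

/-! ## 3. Kummer embeddings -/

/-- `B` is `p`-divisible. -/
def IsPDivisible (p : ℕ) (B : Type) [AddCommGroup B] : Prop := ∀ b : B, ∃ c : B, p • c = b

/-- `ι : M → B` is an injective equivariant additive map with image `B[p]`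
(`M = μ_p`, `B = ℚ̄ˣ`). -/
structure IsKummerEmb (p : ℕ) [Fact p.Prime] (M : Rep.{0, 0, 0} (ZMod p) G)
    (B : Rep.{0, 0, 0} ℤ G) (ι : M →+ B) : Prop where
  injective : Function.Injective ι
  equivariant : ∀ (g : G) (m : M), ι (M.ρ g m) = B.ρ g (ι m)
  range_eq : ∀ b : B, p • b = 0 ↔ b ∈ Set.range ι

/-! ## 4. Induced modules over an arbitrary commutative ring -/

section Ind

variable (H : Subgroup G) (B : Rep.{0, 0, 0} k G)

/-- the action of `g` on `G ⧸ H →₀ B`: `single x b ↦ single (g • x) (g • b)` -/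
def indActR (g : G) : ((G ⧸ H) →₀ B) →ₗ[k] ((G ⧸ H) →₀ B) :=
  (Finsupp.lmapDomain B k (fun x : G ⧸ H => g • x)) ∘ₗ (Finsupp.mapRange.linearMap (B.ρ g))

@[simp] lemma indActR_single (g : G) (x : G ⧸ H) (b : B) :
    indActR H B g (Finsupp.single x b) = Finsupp.single (g • x) (B.ρ g b) := by
  rw [indActR, LinearMap.comp_apply, Finsupp.mapRange.linearMap_apply, Finsupp.mapRange_single,
    Finsupp.lmapDomain_apply, Finsupp.mapDomain_single]

/-- the diagonal representation on `G ⧸ H →₀ B` -/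
def indRhoR : Representation k G ((G ⧸ H) →₀ B) where
  toFun := indActR H B
  map_one' := by
    apply Finsupp.lhom_ext
    intro x m
    simp
  map_mul' g h := by
    apply Finsupp.lhom_ext
    intro x m
    simp [mul_smul]

/-- `Ind_H B = (G ⧸ H →₀ B)` with the diagonal action (any commutative ring `k`). -/
abbrev indR : Rep.{0, 0, 0} k G := Rep.of (indRhoR H B)

lemma indR_ρ_single (g : G) (x : G ⧸ H) (b : B) :
    (indR H B).ρ g (Finsupp.single x b : (G ⧸ H) →₀ B) =
      (Finsupp.single (g • x) (B.ρ g b) : (G ⧸ H) →₀ B) :=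
  indActR_single H B g x b

end Ind

/-- The additive map `Ind_H M → Ind_H B` induced by `ι : M → B`. -/
def indEmb (p : ℕ) [Fact p.Prime] (H : Subgroup G) (M : Rep.{0, 0, 0} (ZMod p) G)
    (B : Rep.{0, 0, 0} ℤ G) (ι : M →+ B) : indRep H M →+ indR H B :=
  Finsupp.mapRange.addMonoidHom ι

/-! ## 5. Class formations at finite level (Mathlib's `groupCohomology` of `G ⧸ V`) -/

/-- `(G, L, A)` is a class formation: for every normal level `V` and every subgroup `H'` of the
finite group `G ⧸ V`:  `H¹(H', A^V) = 0` and `H²(H', A^V) ≅ ℤ/|H'|`.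
(For `G = G_{ℚ_q}`, `A = ℚ̄_qˣ`: `G ⧸ V = Gal(E/ℚ_q)`, `A^V = Eˣ`; this is `L.ClassModuleSpec`.) -/
def IsClassFormation (L : LevelSys G) (A : Rep.{0, 0, 0} ℤ G) : Prop :=
  ∀ (V : Subgroup G) [V.Normal], V ∈ L.levels → ∀ H' : Subgroup (G ⧸ V),
    Subsingleton (H1 (Rep.res H'.subtype (A.quotientToInvariants V))) ∧
      Nonempty (H2 (Rep.res H'.subtype (A.quotientToInvariants V)) ≃+ ZMod (Nat.card H'))

/-- `(G, L, B)` is a weak class formation below the level `V₀`, with orders `n`: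
at every normal level `V ≤ V₀`:  `H¹(G ⧸ V, B^V) = 0`, `H²(G ⧸ V, B^V) ≅ ℤ/n(V)`, `n(V) > 0`,
`H³(G ⧸ V, B^V) = 0`; and `H¹(V ⧸ V', B^{V'}) = 0` for normal levels `V' ≤ V ≤ V₀`
(so that inflation `H²(G ⧸ V, B^V) → H²(G ⧸ V', B^{V'})` is injective). -/
structure IsWCF (L : LevelSys G) (B : Rep.{0, 0, 0} ℤ G) (V₀ : Subgroup G)
    (n : Subgroup G → ℕ) : Prop where
  h1 : ∀ (V : Subgroup G) [V.Normal], V ∈ L.levels → V ≤ V₀ →
    Subsingleton (H1 (B.quotientToInvariants V))
  h1rel : ∀ (V' : Subgroup G) [V'.Normal] (V : Subgroup G) [V.Normal], V' ∈ L.levels →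
    V ∈ L.levels → V' ≤ V → V ≤ V₀ →
    Subsingleton (H1 (Rep.res (V.map (QuotientGroup.mk' V')).subtype
      (B.quotientToInvariants V')))
  h2 : ∀ (V : Subgroup G) [V.Normal], V ∈ L.levels → V ≤ V₀ →
    Nonempty (H2 (B.quotientToInvariants V) ≃+ ZMod (n V))
  npos : ∀ (V : Subgroup G) [V.Normal], V ∈ L.levels → V ≤ V₀ → 0 < n V
  h3 : ∀ (V : Subgroup G) [V.Normal], V ∈ L.levels → V ≤ V₀ →
    Subsingleton (groupCohomology (B.quotientToInvariants V) 3)

/-- The `p`-parts of the orders `n(V)`, `V ≤ V₀` normal level, are unbounded. -/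
def PUnbounded (L : LevelSys G) (p : ℕ) (V₀ : Subgroup G) (n : Subgroup G → ℕ) : Prop :=
  ∀ m : ℕ, ∃ V : Subgroup G, V ∈ L.levels ∧ V.Normal ∧ V ≤ V₀ ∧ p ^ m ∣ n V

/-! ## 6. Finiteness of the `p`-Frattini quotients -/

/-- For every level `U` there is a level `V ≤ U` killed by every level-constant function
`χ : G → F_p` which is additive on `U`
("`U` has only finitely many open subgroups of index `p`"). -/
def PFrattiniFinite (L : LevelSys G) (p : ℕ) : Prop :=
  ∀ U ∈ L.levels, ∃ V ∈ L.levels, V ≤ U ∧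
    ∀ χ : G → ZMod p, (∀ s t : G, s ∈ U → t ∈ U → χ (s * t) = χ s + χ t) → L.IsLC₁ χ →
      ∀ s ∈ V, χ s = 0

/-! ## 7. The arithmetic instance -/

/-- `ℚ̄_qˣ` (written additively) as a representation of the Prelude's local Galois group. -/
def unitsA (q : Nat.Primes) : Rep.{0, 0, 0} ℤ (Gl q) :=
  letI : Fact (q : ℕ).Prime := ⟨q.2⟩
  (Rep.ofAlgebraAutOnUnits ℚ_[(q : ℕ)] (PadicAlgCl (q : ℕ)) :
    Rep ℤ (PadicAlgCl (q : ℕ) ≃ₐ[ℚ_[(q : ℕ)]] PadicAlgCl (q : ℕ)))

end Fermat.Agent.S55.KC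

end

end
-- ===== PACK-END S55/KC/Defs.lean

-- ===== PACK-BEGIN S56/Br/H374/Ad.lean
section






/-!
# Row S56 — BRIDGE (B1, B4): plain ad⁰-cocycles ⟷ level-constant cocycles of `adRep`  (helper374)

`adRep ρbar : Rep k G_ℚ` is the adjoint representation on the trace-zero endomorphisms of
`V = ρbar.V`.  The plain-function language of layers 0–3 (`IsAdCocycle`, `UnramAt`,
`IsAdCoboundary`) is translated into the vocabulary of the S55 `PT` layer
(`(globalLevels T).Z1`, `B1`, ...).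

* `toEnd`                     : `(G_ℚ → adRep) →ₗ (G_ℚ → End V)` (injective);
* `mem_Z1_global_iff` (B1+B4) : `f ∈ (globalLevels T).Z1 (adRep ρbar)` iff `toEnd f` is an
  `IsAdCocycle` which is `UnramAt` every prime outside `Σ`;
* `isAdCoboundary_toEnd_iff`  : `IsAdCoboundary (toEnd f) ↔ f ∈ B1 (adRep ρbar)` (char `≠ 2`).
-/

set_option autoImplicit false
set_option linter.style.haveILetI false
set_option linter.unusedSectionVars false

noncomputable section

namespace Fermat.Agent.S56.Br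

open Fermat.Agent.S56 Fermat.Agent.S56.H716 Fermat.Agent.S55.PT groupCohomology

variable {k : Type} [Field k] (ρbar : ResidualGaloisRep k)

/-- The trace-zero endomorphisms of `V`. -/
def End0 : Submodule k (Module.End k ρbar.V) := LinearMap.ker (LinearMap.trace k ρbar.V)

variable {ρbar} in
theorem mem_End0 {m : Module.End k ρbar.V} : m ∈ End0 ρbar ↔ LinearMap.trace k ρbar.V m = 0 :=
  LinearMap.mem_ker

/-- `Ad ρ̄(σ)` on `End V`. -/
def adEnd (σ : _root_.Fermat.Agent.S56.GQ) : Module.End k ρbar.V →ₗ[k] Module.End k ρbar.V where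
  toFun m := ρbar.ρ σ * m * ρbar.ρ σ⁻¹
  map_add' a b := by rw [mul_add, add_mul]
  map_smul' r a := by rw [mul_smul_comm, smul_mul_assoc, RingHom.id_apply]

@[simp] theorem adEnd_apply (σ : _root_.Fermat.Agent.S56.GQ) (m : Module.End k ρbar.V) :
    adEnd ρbar σ m = ρbar.ρ σ * m * ρbar.ρ σ⁻¹ := rfl

theorem rho_inv_mul (σ : _root_.Fermat.Agent.S56.GQ) : ρbar.ρ σ⁻¹ * ρbar.ρ σ = 1 := by
  rw [← map_mul, inv_mul_cancel, map_one]

theorem rho_mul_inv (σ : _root_.Fermat.Agent.S56.GQ) : ρbar.ρ σ * ρbar.ρ σ⁻¹ = 1 := by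
  rw [← map_mul, mul_inv_cancel, map_one]

theorem trace_adEnd (σ : _root_.Fermat.Agent.S56.GQ) (m : Module.End k ρbar.V) :
    LinearMap.trace k ρbar.V (adEnd ρbar σ m) = LinearMap.trace k ρbar.V m := by
  rw [adEnd_apply, LinearMap.trace_mul_comm, ← mul_assoc, rho_inv_mul, one_mul]

theorem adEnd_one : adEnd ρbar 1 = LinearMap.id := by
  ext m : 1
  simp [adEnd_apply]

theorem adEnd_mul (σ τ : _root_.Fermat.Agent.S56.GQ) : adEnd ρbar (σ * τ) = adEnd ρbar σ ∘ₗ adEnd ρbar τ := by
  ext m : 1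
  simp only [adEnd_apply, LinearMap.comp_apply, map_mul, mul_inv_rev, mul_assoc]

/-- The adjoint representation on trace-zero endomorphisms. -/
def adRho : Representation k _root_.Fermat.Agent.S56.GQ (End0 ρbar) where
  toFun σ := (adEnd ρbar σ).restrict (p := End0 ρbar) (q := End0 ρbar)
    (fun m hm => mem_End0.2 (by rw [trace_adEnd]; exact mem_End0.1 hm))
  map_one' := by
    ext m : 2
    simp [adEnd_one]
  map_mul' σ τ := by
    ext m : 2
    simp [adEnd_mul]

/-- `ad⁰ρ̄` as an object of `Rep k G_ℚ`. -/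
abbrev adRep : Rep.{0, 0, 0} k _root_.Fermat.Agent.S56.GQ := Rep.of (adRho ρbar)

/-- The underlying endomorphism of an element of `adRep`. -/
def val : adRep ρbar →ₗ[k] Module.End k ρbar.V := (End0 ρbar).subtype

theorem val_injective : Function.Injective (val ρbar) := Subtype.val_injective

theorem trace_val (m : adRep ρbar) : LinearMap.trace k ρbar.V (val ρbar m) = 0 :=
  mem_End0.1 (m : End0 ρbar).2

/-- An endomorphism of trace zero, as an element of `adRep`. -/
def mk0 (m : Module.End k ρbar.V) (hm : LinearMap.trace k ρbar.V m = 0) : adRep ρbar :=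
  (⟨m, mem_End0.2 hm⟩ : End0 ρbar)

@[simp] theorem val_mk0 (m : Module.End k ρbar.V) (hm : LinearMap.trace k ρbar.V m = 0) :
    val ρbar (mk0 ρbar m hm) = m := rfl

theorem val_ρ (σ : _root_.Fermat.Agent.S56.GQ) (m : adRep ρbar) :
    val ρbar ((adRep ρbar).ρ σ m) = ρbar.ρ σ * val ρbar m * ρbar.ρ σ⁻¹ := rfl

/-- Post-composition with `val`: functions to `adRep` as functions to `End V`. -/
def toEnd : (_root_.Fermat.Agent.S56.GQ → adRep ρbar) →ₗ[k] (_root_.Fermat.Agent.S56.GQ → Module.End k ρbar.V) where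
  toFun f σ := val ρbar (f σ)
  map_add' f g := by funext σ; exact (val ρbar).map_add (f σ) (g σ)
  map_smul' r f := by funext σ; exact (val ρbar).map_smul r (f σ)

@[simp] theorem toEnd_apply (f : _root_.Fermat.Agent.S56.GQ → adRep ρbar) (σ : _root_.Fermat.Agent.S56.GQ) : toEnd ρbar f σ = val ρbar (f σ) := rfl

theorem toEnd_injective : Function.Injective (toEnd ρbar) := by
  intro f g h
  funext σ
  exact val_injective ρbar (congrFun h σ)

/-- A trace-zero valued function as a function to `adRep`. -/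
def ofEnd (c : _root_.Fermat.Agent.S56.GQ → Module.End k ρbar.V) (hc : ∀ σ, LinearMap.trace k ρbar.V (c σ) = 0) :
    _root_.Fermat.Agent.S56.GQ → adRep ρbar := fun σ => mk0 ρbar (c σ) (hc σ)

@[simp] theorem toEnd_ofEnd (c : _root_.Fermat.Agent.S56.GQ → Module.End k ρbar.V)
    (hc : ∀ σ, LinearMap.trace k ρbar.V (c σ) = 0) : toEnd ρbar (ofEnd ρbar c hc) = c := rfl

/-! ### Cocycles -/

theorem mem_cocycles₁_iff (f : _root_.Fermat.Agent.S56.GQ → adRep ρbar) :
    f ∈ cocycles₁ (adRep ρbar) ↔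
      ∀ σ τ, toEnd ρbar f (σ * τ) = toEnd ρbar f σ + ρbar.ρ σ * toEnd ρbar f τ * ρbar.ρ σ⁻¹ := by
  rw [groupCohomology.mem_cocycles₁_iff]
  constructor
  · intro h σ τ
    have := congrArg (val ρbar) (h σ τ)
    rw [map_add, val_ρ] at this
    rw [toEnd_apply, this, add_comm]
    rfl
  · intro h σ τ
    apply val_injective
    rw [map_add, val_ρ]
    have := h σ τ
    rw [toEnd_apply] at this
    rw [this, add_comm]
    rfl

theorem toEnd_one_of_cocycle {c : _root_.Fermat.Agent.S56.GQ → Module.End k ρbar.V}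
    (h : ∀ σ τ, c (σ * τ) = c σ + ρbar.ρ σ * c τ * ρbar.ρ σ⁻¹) : c 1 = 0 := by
  have h1 := h 1 1
  rw [mul_one, inv_one, map_one, one_mul, mul_one] at h1
  exact left_eq_add.mp h1

/-- The right stabiliser of a function on `G_ℚ`. -/
def rightStab {X : Type*} (c : _root_.Fermat.Agent.S56.GQ → X) : Subgroup _root_.Fermat.Agent.S56.GQ where
  carrier := {τ | ∀ σ, c (σ * τ) = c σ}
  one_mem' σ := by rw [mul_one]
  mul_mem' {a b} ha hb σ := by rw [← mul_assoc, hb, ha]
  inv_mem' {a} ha σ := by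
    have := ha (σ * a⁻¹)
    rw [inv_mul_cancel_right] at this
    exact this.symm

theorem mem_rightStab {X : Type*} {c : _root_.Fermat.Agent.S56.GQ → X} {τ : _root_.Fermat.Agent.S56.GQ} :
    τ ∈ rightStab c ↔ ∀ σ, c (σ * τ) = c σ := Iff.rfl

/-- A cocycle is right-invariant under every element on which it vanishes. -/
theorem mem_rightStab_of_eq_zero {c : _root_.Fermat.Agent.S56.GQ → Module.End k ρbar.V}
    (h : ∀ σ τ, c (σ * τ) = c σ + ρbar.ρ σ * c τ * ρbar.ρ σ⁻¹) {τ : _root_.Fermat.Agent.S56.GQ} (hτ : c τ = 0) :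
    τ ∈ rightStab c := by
  intro σ
  rw [h, hτ, mul_zero, zero_mul, add_zero]

/-- **B4 (INFL).**  A function of finite level which is right-invariant under all inertia groups
outside `Σ` is level-constant for a finite extension unramified outside `Σ`. -/
theorem isLC₁_global_of_level (T : Finset Nat.Primes) {X : Type*} (c : _root_.Fermat.Agent.S56.GQ → X)
    (hlevel : ∃ L : IntermediateField ℚ Qb, FiniteDimensional ℚ L ∧
      ∀ σ τ : _root_.Fermat.Agent.S56.GQ, (∀ x ∈ L, τ x = x) → c (σ * τ) = c σ)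
    (hur : ∀ q : Nat.Primes, q ∉ T → ∀ P : ValuationSubring Qb, P.LiesOverPrime (q : ℕ) →
      ∀ τ ∈ P.inertiaSubgroupIn ℚ, ∀ σ, c (σ * τ) = c σ) :
    (globalLevels T).IsLC₁ c := by
  obtain ⟨L, hLfin, hL⟩ := hlevel
  obtain ⟨F, hF, hfix, -⟩ := Fermat.Agent.S55.Bridge.exists_level_of_subgroup T (rightStab c) L
    hLfin
    (fun τ hτ σ => hL σ τ (fun x hx => (IntermediateField.mem_fixingSubgroup_iff L τ).1 hτ x hx))
    (fun q hq P hP τ hτ => hur q hq P hP τ hτ)
  refine ⟨F.fixingSubgroup, ⟨F, hF, rfl⟩, fun g s hs => ?_⟩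
  rw [hfix] at hs
  exact hs g

/-- **B1 + B4.**  Level-constant cocycles of `adRep` for the levels unramified outside `Σ` are
exactly the plain ad⁰-cocycles of finite level which are unramified outside `Σ`. -/
theorem mem_Z1_global_iff (T : Finset Nat.Primes) (f : _root_.Fermat.Agent.S56.GQ → adRep ρbar) :
    f ∈ (globalLevels T).Z1 (adRep ρbar) ↔
      IsAdCocycle ρbar (toEnd ρbar f) ∧
        ∀ q : Nat.Primes, q ∉ T → UnramAt ρbar (toEnd ρbar f) (q : ℕ) := by
  constructor
  · rintro ⟨hcoc, U, ⟨F, hF, rfl⟩, hU⟩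
    have hmul := (mem_cocycles₁_iff ρbar f).1 hcoc
    refine ⟨⟨fun σ => trace_val ρbar (f σ), hmul, F, hF.1, fun σ τ hτ => ?_⟩, ?_⟩
    · rw [toEnd_apply, toEnd_apply, hU σ τ ((IntermediateField.mem_fixingSubgroup_iff F τ).2 hτ)]
    · intro q hq P hP σ hσ
      have h1 : f (1 * σ) = f 1 := hU 1 σ (hF.2 q hq P hP hσ)
      rw [one_mul] at h1
      rw [toEnd_apply, h1, ← toEnd_apply, toEnd_one_of_cocycle ρbar hmul]
  · rintro ⟨hcoc, hur⟩
    refine ⟨(mem_cocycles₁_iff ρbar f).2 hcoc.map_mul, ?_⟩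
    apply isLC₁_global_of_level
    · obtain ⟨L, hL, h⟩ := hcoc.level
      exact ⟨L, hL, fun σ τ hτ => toEnd_injective ρbar |> fun hinj =>
        val_injective ρbar (h σ τ hτ)⟩
    · intro q hq P hP τ hτ σ
      apply val_injective
      exact mem_rightStab_of_eq_zero ρbar hcoc.map_mul (hur q hq P hP τ hτ) σ

/-! ### Coboundaries -/

/-- The trace-zero part `m - (tr m / 2) • 1` of an endomorphism (`2 ≠ 0`). -/
def tracelessPart (m : Module.End k ρbar.V) (h2 : (2 : k) ≠ 0) : adRep ρbar :=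
  mk0 ρbar (m - (LinearMap.trace k ρbar.V m / 2) • (1 : Module.End k ρbar.V)) (by
    rw [map_sub, map_smul, LinearMap.trace_one, ρbar.finrank_eq, smul_eq_mul, Nat.cast_ofNat,
      div_mul_cancel₀ _ h2, sub_self])

theorem val_tracelessPart (m : Module.End k ρbar.V) (h2 : (2 : k) ≠ 0) :
    val ρbar (tracelessPart ρbar m h2)
      = m - (LinearMap.trace k ρbar.V m / 2) • (1 : Module.End k ρbar.V) := rfl

/-- The coboundary of `m` equals the coboundary of its trace-zero part. -/
theorem coboundary_tracelessPart (m : Module.End k ρbar.V) (h2 : (2 : k) ≠ 0) (σ : _root_.Fermat.Agent.S56.GQ) :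
    val ρbar ((adRep ρbar).ρ σ (tracelessPart ρbar m h2)) - val ρbar (tracelessPart ρbar m h2)
      = ρbar.ρ σ * m * ρbar.ρ σ⁻¹ - m := by
  rw [val_ρ, val_tracelessPart, mul_sub, sub_mul, mul_smul_comm, smul_mul_assoc, mul_one,
    rho_mul_inv]
  abel

/-- Coboundaries on a subgroup, in terms of `adRep` (`2 ≠ 0`). -/
theorem isAdCoboundaryOn_iff (h2 : (2 : k) ≠ 0) (H : Subgroup _root_.Fermat.Agent.S56.GQ)
    (c : _root_.Fermat.Agent.S56.GQ → Module.End k ρbar.V) :
    IsAdCoboundaryOn ρbar H c ↔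
      ∃ m₀ : adRep ρbar, ∀ σ ∈ H, c σ = val ρbar ((adRep ρbar).ρ σ m₀) - val ρbar m₀ := by
  constructor
  · rintro ⟨m, hm⟩
    exact ⟨tracelessPart ρbar m h2, fun σ hσ => by
      rw [coboundary_tracelessPart, hm σ hσ]⟩
  · rintro ⟨m₀, hm⟩
    exact ⟨val ρbar m₀, fun σ hσ => by rw [hm σ hσ, val_ρ]⟩

theorem isAdCoboundary_iff_on_top (c : _root_.Fermat.Agent.S56.GQ → Module.End k ρbar.V) :
    IsAdCoboundary ρbar c ↔ IsAdCoboundaryOn ρbar ⊤ c :=
  ⟨fun ⟨m, hm⟩ => ⟨m, fun σ _ => hm σ⟩, fun ⟨m, hm⟩ => ⟨m, fun σ => hm σ (Subgroup.mem_top σ)⟩⟩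

/-- **B1, coboundaries.**  `IsAdCoboundary (toEnd f) ↔ f ∈ B¹(adRep)`  (`2 ≠ 0`). -/
theorem isAdCoboundary_toEnd_iff (h2 : (2 : k) ≠ 0) (f : _root_.Fermat.Agent.S56.GQ → adRep ρbar) :
    IsAdCoboundary ρbar (toEnd ρbar f) ↔ f ∈ LevelSys.B1 (adRep ρbar) := by
  rw [isAdCoboundary_iff_on_top, isAdCoboundaryOn_iff ρbar h2]
  constructor
  · rintro ⟨m₀, hm⟩
    refine ⟨m₀, ?_⟩
    funext σ
    apply val_injective
    have h1 := hm σ (Subgroup.mem_top σ)
    rw [toEnd_apply] at h1
    rw [h1, ← map_sub]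
    rfl
  · rintro ⟨m₀, rfl⟩
    exact ⟨m₀, fun σ _ => by
      rw [toEnd_apply, ← map_sub]
      rfl⟩

/-! ### Invariants -/

/-- `adInv ρbar H` is the image of the `H`-invariants of `adRep`. -/
theorem mem_adInv_iff (H : Subgroup _root_.Fermat.Agent.S56.GQ) (m : Module.End k ρbar.V) :
    m ∈ adInv ρbar H ↔ ∃ m₀ : adRep ρbar, val ρbar m₀ = m ∧ ∀ σ ∈ H, (adRep ρbar).ρ σ m₀ = m₀ := by
  constructor
  · rintro ⟨htr, hfix⟩
    refine ⟨mk0 ρbar m htr, rfl, fun σ hσ => ?_⟩
    apply val_injective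
    rw [val_ρ, val_mk0, hfix σ hσ]
  · rintro ⟨m₀, rfl, hfix⟩
    refine ⟨trace_val ρbar m₀, fun σ hσ => ?_⟩
    rw [← val_ρ, hfix σ hσ]

/-! ### Independence of the place (conjugation) -/

open scoped Pointwise in
/-- For a cocycle, being a coboundary on the decomposition group of `P` or of `g • P` is the
same. -/
theorem isAdCoboundaryOn_smul {c : _root_.Fermat.Agent.S56.GQ → Module.End k ρbar.V}
    (hc : ∀ σ τ, c (σ * τ) = c σ + ρbar.ρ σ * c τ * ρbar.ρ σ⁻¹)
    (P : ValuationSubring Qb) (g : _root_.Fermat.Agent.S56.GQ)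
    (h : IsAdCoboundaryOn ρbar (P.decompositionSubgroup ℚ) c) :
    IsAdCoboundaryOn ρbar ((g • P).decompositionSubgroup ℚ) c := by
  obtain ⟨m, hm⟩ := h
  refine ⟨ρbar.ρ g * m * ρbar.ρ g⁻¹ - c g, fun σ' hσ' => ?_⟩
  -- `σ' = g σ g⁻¹` with `σ ∈ D_P`
  set σ : _root_.Fermat.Agent.S56.GQ := g⁻¹ * σ' * g with hσdef
  have hσ : σ ∈ P.decompositionSubgroup ℚ := by
    have h1 := Fermat.Agent.Lib.Cheb.H476.conj_mem_decomposition g⁻¹ hσ'
    rw [inv_inv, inv_smul_smul] at h1
    exact h1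
  have hσ' : σ' = g * σ * g⁻¹ := by rw [hσdef]; group
  have hg1 : c g⁻¹ = - (ρbar.ρ g⁻¹ * c g * ρbar.ρ g) := by
    have h1 := hc g⁻¹ g
    rw [inv_mul_cancel, toEnd_one_of_cocycle ρbar hc, inv_inv] at h1
    exact eq_neg_of_add_eq_zero_left h1.symm
  have e1 : ∀ x : Module.End k ρbar.V, ρbar.ρ g⁻¹ * (ρbar.ρ g * x) = x := fun x => by
    rw [← mul_assoc, rho_inv_mul, one_mul]
  rw [hσ', hc, hc, hm σ hσ, hg1]
  simp only [map_mul, mul_inv_rev, inv_inv, mul_sub, sub_mul, mul_neg, neg_mul, mul_assoc, e1]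
  abel

/-- For a cocycle, being a coboundary on the decomposition group does not depend on the place
over a given prime. -/
theorem isAdCoboundaryOn_of_liesOver {c : _root_.Fermat.Agent.S56.GQ → Module.End k ρbar.V}
    (hc : ∀ σ τ, c (σ * τ) = c σ + ρbar.ρ σ * c τ * ρbar.ρ σ⁻¹)
    {q : ℕ} (hq : q.Prime) {P P' : ValuationSubring Qb} (hP : P.LiesOverPrime q)
    (hP' : P'.LiesOverPrime q)
    (h : IsAdCoboundaryOn ρbar (P.decompositionSubgroup ℚ) c) :
    IsAdCoboundaryOn ρbar (P'.decompositionSubgroup ℚ) c := by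
  obtain ⟨g, rfl⟩ := Fermat.Agent.Lib.Cheb.H476.exists_smul_eq hq hP hP'
  exact isAdCoboundaryOn_smul ρbar hc P g h

/-! ### B3: the local groups of the Prelude -/

open ExtCitation in
/-- **B3, coboundaries.**  On the decomposition group of the Prelude's place over `v`, being a
coboundary is the same as being a coboundary after restriction to the Prelude's local Galois
group `Gl v`  (`2 ≠ 0`). -/
theorem isAdCoboundaryOn_primeLocalPlace_iff (h2 : (2 : k) ≠ 0) (v : Nat.Primes)
    (f : _root_.Fermat.Agent.S56.GQ → adRep ρbar) :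
    IsAdCoboundaryOn ρbar ((primeLocalPlace v).decompositionSubgroup ℚ) (toEnd ρbar f) ↔
      (f ∘ rl v : Gl v → adRep ρbar) ∈ LevelSys.B1 (Rep.res (rl v) (adRep ρbar)) := by
  rw [isAdCoboundaryOn_iff ρbar h2, ← Fermat.Agent.S55.Bridge.range_primeLocalToGlobal]
  constructor
  · rintro ⟨m₀, hm⟩
    refine ⟨m₀, ?_⟩
    funext τ
    apply val_injective
    have h1 := hm (rl v τ) ⟨τ, rfl⟩
    rw [toEnd_apply] at h1
    rw [Function.comp_apply, h1, ← map_sub]
    rfl
  · rintro ⟨m₀, hm⟩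
    refine ⟨m₀, ?_⟩
    rintro _ ⟨τ, rfl⟩
    have h1 := congrFun hm τ
    rw [Function.comp_apply] at h1
    rw [toEnd_apply, ← h1, ← map_sub]
    rfl

open ExtCitation in
/-- **B3, invariants.**  `H⁰(Gl v, ad⁰ρ̄)` is `adInv` of the decomposition group of the Prelude's
place over `v`. -/
def adInvLocalEquiv (v : Nat.Primes) :
    adInv ρbar ((primeLocalPlace v).decompositionSubgroup ℚ) ≃ₗ[k]
      LevelSys.H0 (Rep.res (rl v) (adRep ρbar)) where
  toFun m := ⟨mk0 ρbar m.1 m.2.1, fun τ => by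
    apply val_injective
    have hτ : rl v τ ∈ (primeLocalPlace v).decompositionSubgroup ℚ := by
      rw [← Fermat.Agent.S55.Bridge.range_primeLocalToGlobal]
      exact ⟨τ, rfl⟩
    exact m.2.2 (rl v τ) hτ⟩
  invFun m := ⟨val ρbar m.1, trace_val ρbar m.1, fun σ hσ => by
    rw [← Fermat.Agent.S55.Bridge.range_primeLocalToGlobal] at hσ
    obtain ⟨τ, rfl⟩ := hσ
    exact congrArg (val ρbar) (m.2 τ)⟩
  map_add' a b := rfl
  map_smul' r a := rfl
  left_inv m := rfl
  right_inv m := rfl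

/-! ### Sets of primes, strict Selmer cocycles -/

/-- A finite set of natural numbers as a finite set of primes (the non-primes are dropped). -/
def primesOf (T : Finset ℕ) : Finset Nat.Primes := T.subtype Nat.Prime

theorem mem_primesOf {T : Finset ℕ} {q : Nat.Primes} : q ∈ primesOf T ↔ (q : ℕ) ∈ T :=
  Finset.mem_subtype

theorem unram_outside_iff (T : Finset ℕ) (c : _root_.Fermat.Agent.S56.GQ → Module.End k ρbar.V) :
    (∀ q : ℕ, q.Prime → q ∉ T → UnramAt ρbar c q) ↔
      ∀ q : Nat.Primes, q ∉ primesOf T → UnramAt ρbar c (q : ℕ) :=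
  ⟨fun h q hq => h q q.2 (fun hq' => hq (mem_primesOf.2 hq')),
    fun h q hq hqT => h ⟨q, hq⟩ (fun hq' => hqT (mem_primesOf.1 hq'))⟩

/-- **B1 + B4**, `Finset ℕ` form. -/
theorem mem_Z1_primesOf_iff (T : Finset ℕ) (f : _root_.Fermat.Agent.S56.GQ → adRep ρbar) :
    f ∈ (globalLevels (primesOf T)).Z1 (adRep ρbar) ↔
      IsAdCocycle ρbar (toEnd ρbar f) ∧
        ∀ q : ℕ, q.Prime → q ∉ T → UnramAt ρbar (toEnd ρbar f) q := by
  rw [mem_Z1_global_iff, unram_outside_iff]

open ExtCitation Fermat.Agent.S55.Bridge in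
/-- The Prelude's place over `v` lies over `v`. -/
theorem primeLocalPlace_liesOver (v : Nat.Primes) :
    (primeLocalPlace v).LiesOverPrime (v : ℕ) := by
  letI : Fact (v : ℕ).Prime := ⟨v.2⟩
  show ((v : ℕ) : Qb) ∈ (padicPlace (v : ℕ)).nonunits
  rw [ValuationSubring.mem_nonunits_iff_exists_mem_maximalIdeal]
  have hq : (1 : ℝ) < (v : ℕ) := by exact_mod_cast v.2.one_lt
  have hmem : ((v : ℕ) : Qb) ∈ padicPlace (v : ℕ) := by
    rw [mem_padicPlace_iff_norm, norm_padicEmbedding_natCast_self]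
    exact inv_le_one_of_one_le₀ hq.le
  refine ⟨hmem, ?_⟩
  rw [IsLocalRing.mem_maximalIdeal, mem_nonunits_iff]
  rintro ⟨u, hu⟩
  have h1 : ((u⁻¹ : (padicPlace (v : ℕ))ˣ) : padicPlace (v : ℕ)) * u = 1 := by simp
  have h2 : (((u⁻¹ : (padicPlace (v : ℕ))ˣ) : padicPlace (v : ℕ)) : Qb) * ((v : ℕ) : Qb) = 1 := by
    have := congrArg (Subtype.val) h1
    rw [hu] at this
    simpa using this
  have h3 := ((u⁻¹ : (padicPlace (v : ℕ))ˣ) : padicPlace (v : ℕ)).2
  rw [mem_padicPlace_iff_norm] at h3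
  have h4 := congrArg (fun z => ‖padicEmbedding (v : ℕ) z‖) h2
  simp only [map_mul, norm_mul, map_one, norm_one] at h4
  rw [norm_padicEmbedding_natCast_self] at h4
  have hinv : ((v : ℕ) : ℝ)⁻¹ < 1 := inv_lt_one_of_one_lt₀ hq
  have hpos : (0 : ℝ) < ((v : ℕ) : ℝ)⁻¹ := by positivity
  nlinarith [norm_nonneg (padicEmbedding (v : ℕ)
    (((u⁻¹ : (padicPlace (v : ℕ))ˣ) : padicPlace (v : ℕ)) : Qb))]

open ExtCitation in
/-- **Strict Selmer cocycles** (`Λ = ⊥`) in `PT` vocabulary: level-constant cocycles for the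
levels unramified outside `Smin ∪ Q` whose restrictions to the Prelude's local groups `Gl v`,
`v ∈ Smin`, are coboundaries.  (`2 ≠ 0`; the places `Pl v` are arbitrary places over `v`.) -/
theorem isSelCocycle_bot_iff (h2 : (2 : k) ≠ 0) (Smin Q : Finset ℕ)
    (Pl : ℕ → ValuationSubring Qb) (hPl : ∀ v ∈ Smin, (Pl v).LiesOverPrime v)
    (hS : ∀ v ∈ Smin, v.Prime) (f : _root_.Fermat.Agent.S56.GQ → adRep ρbar) :
    IsSelCocycle ρbar Pl (fun _ => ⊥) Smin Q (toEnd ρbar f) ↔
      f ∈ (globalLevels (primesOf (Smin ∪ Q))).Z1 (adRep ρbar) ∧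
        ∀ v : Nat.Primes, (v : ℕ) ∈ Smin →
          (f ∘ rl v : Gl v → adRep ρbar) ∈ LevelSys.B1 (Rep.res (rl v) (adRep ρbar)) := by
  have hplace : ∀ v : Nat.Primes, (primeLocalPlace v).LiesOverPrime (v : ℕ) :=
    primeLocalPlace_liesOver
  rw [mem_Z1_primesOf_iff]
  constructor
  · intro h
    refine ⟨⟨h.cocycle, h.unram⟩, fun v hv => ?_⟩
    rw [← isAdCoboundaryOn_primeLocalPlace_iff ρbar h2]
    obtain ⟨t, ht, hcob⟩ := h.loc (v : ℕ) hv
    rw [(Submodule.mem_bot k).1 ht, sub_zero] at hcob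
    exact isAdCoboundaryOn_of_liesOver ρbar h.cocycle.map_mul v.2 (hPl _ hv) (hplace v) hcob
  · rintro ⟨⟨hcoc, hur⟩, hloc⟩
    refine ⟨hcoc, hur, fun v hv => ⟨0, Submodule.zero_mem _, ?_⟩⟩
    rw [sub_zero]
    have h1 := (isAdCoboundaryOn_primeLocalPlace_iff ρbar h2 ⟨v, hS v hv⟩ f).2
      (hloc ⟨v, hS v hv⟩ hv)
    exact isAdCoboundaryOn_of_liesOver ρbar hcoc.map_mul (hS v hv) (hplace ⟨v, hS v hv⟩)
      (hPl v hv) h1

end Fermat.Agent.S56.Br

end

end
-- ===== PACK-END S56/Br/H374/Ad.lean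

-- ===== PACK-BEGIN S56/H334/RLBase.lean
section



/-!
# S56 / W-FLAT-SS, piece FL-RAM (helper334): the frozen statements `RLWild`, `RLComm`

Bridge from `FL.RCDatum` to the setting of `H334/Ram*.lean`, and proofs of
`FL.RLWildStatement`, `FL.RLCommStatement` (verbatim from `FL/RamLemSpec.lean`).
-/

set_option autoImplicit false
set_option linter.unusedSectionVars false
set_option linter.style.haveILetI false

open IsLocalRing

namespace Fermat.Agent.S56.H334

open Fermat.Agent.S56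

section Bridge

variable (d : FL.RCDatum)

theorem fl_ramGroup_eq (n : ℕ) : FL.ramGroup d.B d.Γ n = ramGroup d.Γ d.B n := rfl

theorem rc_fact_prime : Fact d.p.Prime := ⟨d.hp⟩

theorem rc_finite_residue : Finite (ResidueField d.A) :=
  Nat.finite_of_card_ne_zero (by rw [d.hκ]; exact d.hp.ne_zero)

theorem rc_charP_residue : CharP (ResidueField d.A) d.p := by
  rw [CharP.charP_iff_prime_eq_zero d.hp]
  have h1 : (d.p : d.A) ∈ maximalIdeal d.A := by
    rw [d.hA]; exact Ideal.mem_span_singleton_self _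
  have h2 := (residue_eq_zero_iff (d.p : d.A)).2 h1
  rwa [map_natCast] at h2

theorem rc_charP_residue_B : CharP (ResidueField d.B) d.p :=
  haveI := rc_charP_residue d
  charP_residueField_of_charP d.A d.B d.p

theorem rc_finite_residue_B : Finite (ResidueField d.B) :=
  haveI := rc_finite_residue d
  finite_residueField_of_finite d.A d.B

theorem rc_inertiaResidue : InertiaResidue d.Γ d.B :=
  haveI := rc_finite_residue d
  inertiaResidue_of_datum d.A d.B d.Γ

end Bridge

/-- **RL-A** (frozen `FL.RLWildStatement`): the wild inertia group is a `p`-group. -/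
theorem rlWild : FL.RLWildStatement := by
  intro d
  haveI := rc_fact_prime d
  haveI := rc_finite_residue d
  haveI := rc_charP_residue d
  exact isPGroup_ramGroup_one_of_datum d.A d.B d.Γ d.p

/-- **RL-B** (frozen `FL.RLCommStatement`): commutators lie in the inertia group. -/
theorem rlComm : FL.RLCommStatement := by
  intro d g h
  haveI := rc_finite_residue d
  exact commutator_mem_ramGroup_zero_of_datum d.A d.B d.Γ g h

end Fermat.Agent.S56.H334

end
-- ===== PACK-END S56/H334/RLBase.lean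

-- ===== PACK-BEGIN S56/H102/RLQuotFormula.lean
section



/-!
# S56 / W-FLAT-SS, FL-RAM: `FL.RLQuotFormulaStatement` VERBATIM (helper102)

Adapter from `H334.quot_formula` (Serre, Local Fields IV §1 Prop. 3; same statement as
`H102.quot_formula_finsum`) to the frozen shape of `FL/RamLemSpec.lean`:
`i_Γ(τ) = #{n | τ ∈ Γ_n}` and `i_{Γ/N}(σ N) = #{n | σ ∈ qRam d N n}`.
-/

set_option autoImplicit false
set_option linter.unusedSectionVars false
set_option linter.style.haveILetI false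

open IsLocalRing

namespace Fermat.Agent.S56.H102.RLQF

open Fermat.Agent.S56.H334 Fermat.Agent.S56.FL

/-- `#{n | n < k} = k`. -/
theorem card_setOf_lt (k : ℕ) : Nat.card {n : ℕ | n < k} = k := by
  have h : {n : ℕ | n < k} = Set.Iio k := rfl
  rw [h, Nat.card_eq_card_toFinset]
  simp

section General

variable {B : Type*} [CommRing B] [IsDomain B] [IsDiscreteValuationRing B]
variable {Γ : Type*} [Group Γ] [MulSemiringAction Γ B]

/-- `i_Γ(σ) = #{n | σ ∈ Γ_n}` for `σ ≠ 1`. -/
theorem card_setOf_mem_ramGroup [FaithfulSMul Γ B] {σ : Γ} (hσ : σ ≠ 1) :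
    Nat.card {n : ℕ | σ ∈ H334.ramGroup Γ B n} = lowIdx Γ B σ := by
  have h : {n : ℕ | σ ∈ H334.ramGroup Γ B n} = {n : ℕ | n < lowIdx Γ B σ} := by
    ext n
    exact mem_ramGroup_iff_lt_lowIdx hσ n
  rw [h, card_setOf_lt]

end General

section Datum

variable (A B Γ : Type*) [CommRing A] [IsDomain A] [IsDiscreteValuationRing A]
  [CommRing B] [IsDomain B] [IsDiscreteValuationRing B] [Algebra A B] [Module.Finite A B]
  [FaithfulSMul A B] [Group Γ] [Finite Γ] [MulSemiringAction Γ B] [SMulCommClass Γ A B]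
  [Algebra.IsInvariant A B Γ] [FaithfulSMul Γ B]
  (N : Subgroup Γ) [N.Normal] [Finite (ResidueField A)]

/-- The ramification groups of `Γ ⧸ N` acting on `B^N`, described inside `B`. -/
theorem mem_quotRamGroup_iff_forall (hN : N ≤ H334.ramGroup Γ B 0) (n : ℕ) (σ : Γ) :
    σ ∈ quotRamGroup A B Γ N n ↔
      ∀ x : B, (∀ ν ∈ N, ν • x = x) → σ • x - x ∈ maximalIdeal B ^ (Nat.card N * (n + 1)) := by
  haveI := isDiscreteValuationRing_fixedPoints A B N
  haveI := isLocalHom_fixedPoints A B Γ N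
  have he := map_maximalIdeal_fixedPoints A B Γ N hN
  rw [mem_quotRamGroup_iff]
  constructor
  · intro h x hx
    have hxS : x ∈ FixedPoints.subalgebra A B N := fun ν => hx ν.1 ν.2
    have h1 : (σ : Γ ⧸ N) • (⟨x, hxS⟩ : FixedPoints.subalgebra A B N) - ⟨x, hxS⟩ ∈
        maximalIdeal (FixedPoints.subalgebra A B N) ^ (n + 1) := h ⟨x, hxS⟩
    rw [mem_maximalIdeal_pow_iff_of_map_eq he] at h1
    exact h1
  · intro h x
    show (σ : Γ ⧸ N) • x - x ∈ maximalIdeal (FixedPoints.subalgebra A B N) ^ (n + 1)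
    rw [mem_maximalIdeal_pow_iff_of_map_eq he]
    exact h (x : B) fun ν hν => x.2 ⟨ν, hν⟩

/-- `i_{Γ/N}(σ N) = #{n | σ ∈ F N n}` for `σ ∉ N`. -/
theorem card_setOf_mem_quotRamGroup {σ : Γ} (hσ : σ ∉ N) :
    Nat.card {n : ℕ | σ ∈ quotRamGroup A B Γ N n} = quotLowIdx A B Γ N σ := by
  have h : {n : ℕ | σ ∈ quotRamGroup A B Γ N n} = {n : ℕ | n < quotLowIdx A B Γ N σ} := by
    ext n
    show σ ∈ quotRamGroup A B Γ N n ↔ n < quotLowIdx A B Γ N σ
    rw [mem_quotRamGroup_iff_lowIdx]
    constructor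
    · rintro (h | h)
      · exact absurd h hσ
      · exact h
    · intro h
      exact Or.inr h
  rw [h, card_setOf_lt]

end Datum

/-- **RL-QF**, verbatim. -/
theorem rlQuotFormula : RLQuotFormulaStatement := by
  intro d N hN σ hσ
  haveI : N.Normal := hN.1
  haveI : Finite (ResidueField d.A) := by
    apply Nat.finite_of_card_ne_zero
    rw [d.hκ]
    exact d.hp.ne_zero
  have hN0 : N ≤ H334.ramGroup d.Γ d.B 0 := fun ν hν =>
    H334.ramGroup_antitone (Nat.zero_le 1) (hN.2 hν)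
  have key := H334.quot_formula d.A d.B d.Γ N hN0 hσ
  have h1 : ∀ w : d.Γ, w ∈ N →
      Nat.card {n : ℕ | σ * w ∈ FL.ramGroup d.B d.Γ n} = lowIdx d.Γ d.B (σ * w) := by
    intro w hw
    have hne : σ * w ≠ 1 := by
      intro h
      apply hσ
      have : σ = w⁻¹ := eq_inv_of_mul_eq_one_left h
      rw [this]
      exact N.inv_mem hw
    exact card_setOf_mem_ramGroup hne
  have h2 : Nat.card {n : ℕ | σ ∈ d.qRam N n} = quotLowIdx d.A d.B d.Γ N σ := by
    have hset : {n : ℕ | σ ∈ d.qRam N n} = {n : ℕ | σ ∈ quotRamGroup d.A d.B d.Γ N n} := by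
      ext n
      exact (_root_.Fermat.Agent.S56.H102.RLQF.mem_quotRamGroup_iff_forall d.A d.B d.Γ N hN0 n σ).symm
    rw [hset, card_setOf_mem_quotRamGroup d.A d.B d.Γ N hσ]
  rw [h2, ← key]
  exact finsum_congr fun w => finsum_congr fun hw => h1 w hw

end Fermat.Agent.S56.H102.RLQF

end
-- ===== PACK-END S56/H102/RLQuotFormula.lean

-- ===== PACK-BEGIN S56/H956/TWP.lean
section


/-!
# S56 / TWP — Taylor–Wiles primes from the Taylor–Wiles element (helper956)

`twPrimesOfElement : TWPrimesOfElementStatement`, i.e.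
`TWElementStatement → FrobeniusDivisionStatement → TWPrimesStatement`:
given the group-theoretic Taylor–Wiles element (P3) and Frobenius' density theorem (Lib/Cheb
Tier 1), every dual Selmer frame `D` of dimension `r` is killed by `r` distinct Taylor–Wiles primes
`q ≡ 1 mod p^{n+1}`.

Proof: induction on the number `i` of primes already chosen, carrying a subspace `W ≤ D` of
dimension `≤ r - i` which contains every class of `D` locally trivial at the chosen primes.  If
`W ≠ 0`, pick `0 ≠ c ∈ W`; `exists_prime_not_locTrivAt` gives a new prime `ℓ` at which `c` is not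
locally trivial, and `W ⊓ locSub A` (for a place `A` over `ℓ`) is strictly smaller.  If `W = 0`
pad with any further Taylor–Wiles prime.
-/

set_option autoImplicit false

open Polynomial IsLocalRing
open scoped Pointwise

noncomputable section

namespace Fermat.Agent.S56.H956

open Fermat.Agent.S56

section

variable (hP3 : TWElementStatement)
  (hCheb : Fermat.Agent.Lib.Cheb.Spec.FrobeniusDivisionStatement)
  {𝒪 : Type} [CommRing 𝒪] [IsDomain 𝒪] [IsDiscreteValuationRing 𝒪]
  [IsAdicComplete (maximalIdeal 𝒪) 𝒪] [Finite (ResidueField 𝒪)]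
  {p : ℕ} {ρbar : ResidualGaloisRep (ResidueField 𝒪)} {S Smin : Finset ℕ}

include hP3 hCheb in
/-- The induction: `i` Taylor–Wiles primes cutting `D` down to dimension `≤ r - i`. -/
theorem exists_finset_cut (H : Hyp 𝒪 p ρbar S Smin)
    (D : Submodule (ResidueField 𝒪) (GQ → Module.End (ResidueField 𝒪) ρbar.V))
    (hD : IsDualFrame ρbar p D) (n : ℕ) (i : ℕ) :
    ∃ (Q : Finset ℕ) (W : Submodule (ResidueField 𝒪) (GQ → Module.End (ResidueField 𝒪) ρbar.V)),
      Q.card = i ∧
      (∀ q ∈ Q, q.Prime ∧ q ∉ S ∧ p ^ (n + 1) ∣ q - 1 ∧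
        ∀ P : ValuationSubring Qb, P.LiesOverPrime q → ∀ φ : GQ, P.IsFrobeniusAt φ q →
          ∃ α β : ResidueField 𝒪, α ≠ β ∧
            LinearMap.charpoly (ρbar.ρ φ) = (X - C α) * (X - C β)) ∧
      W ≤ D ∧
      Module.finrank (ResidueField 𝒪) W ≤ Module.finrank (ResidueField 𝒪) D - i ∧
      ∀ c ∈ D, (∀ q ∈ Q, LocTrivAt ρbar p q c) → c ∈ W := by
  have : CharP (ResidueField 𝒪) p := charP_residueField H.hp H.hp𝒪
  have hp0 : p ≠ 0 := H.hp.ne_zero
  have hDfin : Module.Finite (ResidueField 𝒪) D := hD.finite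
  induction i with
  | zero =>
    exact ⟨∅, D, Finset.card_empty, fun q hq => absurd hq (Finset.notMem_empty q), le_rfl,
      le_rfl, fun c hc _ => hc⟩
  | succ i ih =>
    obtain ⟨Q, W, hcard, hgood, hWD, hrank, hW⟩ := ih
    by_cases hbot : W = ⊥
    · -- pad
      obtain ⟨ℓ, hℓ, hℓS, hℓQ, hdvd, hfrob⟩ := exists_prime_pad hP3 hCheb H n Q
      refine ⟨insert ℓ Q, ⊥, ?_, ?_, bot_le, ?_, ?_⟩
      · rw [Finset.card_insert_of_notMem hℓQ, hcard]
      · intro q hq
        rcases Finset.mem_insert.mp hq with rfl | hq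
        · exact ⟨hℓ, hℓS, hdvd, hfrob⟩
        · exact hgood q hq
      · rw [finrank_bot]
        exact Nat.zero_le _
      · intro c hc hloc
        rw [← hbot]
        exact hW c hc (fun q hq => hloc q (Finset.mem_insert_of_mem hq))
    · -- cut
      obtain ⟨c, hcW, hc0⟩ := Submodule.exists_mem_ne_zero_of_ne_bot hbot
      have hcD : c ∈ D := hWD hcW
      have hcc : IsTwCocycle ρbar p c := hD.isTwCocycle c hcD
      have hnc : ¬ IsTwCoboundary ρbar p c := fun h => hc0 (hD.inj c hcD h)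
      obtain ⟨ℓ, hℓ, hℓS, hℓQ, hdvd, hfrob, hnloc⟩ :=
        exists_prime_not_locTrivAt hP3 hCheb H n Q hcc hnc
      obtain ⟨A, hA⟩ := Fermat.Agent.S54.exists_valuationSubring_liesOver ℓ hℓ
      have hWfin : Module.Finite (ResidueField 𝒪) W := Submodule.finiteDimensional_of_le hWD
      have hlt : W ⊓ locSub ρbar p hp0 A < W := by
        refine lt_of_le_of_ne inf_le_left (fun heq => hnloc ?_)
        have hmem : c ∈ W ⊓ locSub ρbar p hp0 A := by
          rw [heq]
          exact hcW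
        obtain ⟨m, hm⟩ := hmem.2
        exact ⟨A, hA, m, hm⟩
      have hrk := Submodule.finrank_lt_finrank_of_lt hlt
      refine ⟨insert ℓ Q, W ⊓ locSub ρbar p hp0 A, ?_, ?_, inf_le_left.trans hWD, ?_, ?_⟩
      · rw [Finset.card_insert_of_notMem hℓQ, hcard]
      · intro q hq
        rcases Finset.mem_insert.mp hq with rfl | hq
        · exact ⟨hℓ, hℓS, hdvd, hfrob⟩
        · exact hgood q hq
      · omega
      · intro c' hc' hloc
        refine ⟨hW c' hc' (fun q hq => hloc q (Finset.mem_insert_of_mem hq)), ?_⟩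
        exact (locTrivAt_iff hp0 (hD.isTwCocycle c' hc') hℓ hA).mp
          (hloc ℓ (Finset.mem_insert_self ℓ Q))

end

/-- **(TWP-of)** Taylor–Wiles primes from the Taylor–Wiles element and Frobenius density. -/
theorem twPrimesOfElement : TWPrimesOfElementStatement := by
  intro hP3 hCheb 𝒪 _ _ _ _ _ p ρbar S Smin H D hD n
  have hDfin : Module.Finite (ResidueField 𝒪) D := hD.finite
  obtain ⟨Q, W, hcard, hgood, hWD, hrank, hW⟩ :=
    exists_finset_cut hP3 hCheb H D hD n (Module.finrank (ResidueField 𝒪) D)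
  have hWfin : Module.Finite (ResidueField 𝒪) W := Submodule.finiteDimensional_of_le hWD
  have hWbot : W = ⊥ := by
    rw [Nat.sub_self, Nat.le_zero] at hrank
    exact Submodule.finrank_eq_zero.mp hrank
  have himg : Finset.univ.image (Q.orderEmbOfFin hcard) = Q :=
    Finset.image_orderEmbOfFin_univ Q hcard
  refine ⟨Q.orderEmbOfFin hcard, (Q.orderEmbOfFin hcard).injective, fun i => ?_, fun i => ?_,
    ?_⟩
  · obtain ⟨h1, h2, h3, -⟩ := hgood _ (Finset.orderEmbOfFin_mem Q hcard i)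
    exact ⟨h1, h2, h3⟩
  · exact (hgood _ (Finset.orderEmbOfFin_mem Q hcard i)).2.2.2
  · rw [himg]
    intro c hc hloc
    have := hW c hc hloc
    rw [hWbot] at this
    exact (Submodule.mem_bot _).mp this

end Fermat.Agent.S56.H956

end

end
-- ===== PACK-END S56/H956/TWP.lean

-- ===== PACK-BEGIN S59/H126/Galois.lean
section






/-!
# S59 / NM-SEL (helper126): the inertia ideal at an auxiliary prime `q`

`r : G_ℚ → GL₂(R)` a continuous matrix representation over a Noetherian local `𝒪`-algebra `R`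
with cyclotomic determinant, `x : R → 𝒪` an augmentation with kernel `I`, `q ≠ p` a prime such
that `r ≡ 1` modulo `I` on the inertia group `I_P` at a place `P ∣ q`, `φ` a Frobenius at `P`.

`inertiaIdeal r P` is the ideal generated by the entries of `r τ - 1`, `τ ∈ I_P`.

`inertia_count` : the image of `inertiaIdeal r P` in `I / I²` has at most `#(𝒪/c)` elements,
`c = (q - 1)((tr x(r φ))² - (q + 1)²)` (in the form: every finite subset of the inertia ideal
which is injective modulo `I²` has at most `#(𝒪/c)` elements).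

Proof: at every finite level `R ⧸ (I² + 𝔪ᵏ)` the image of inertia is a `p`-group, hence cyclic,
generated by some `r τ₀`, and `r φ · r τ₀ = (r τ₀)^q · r φ` (tame inertia, `S56.H186`);
then `Count.count_level`; finally Krull's intersection theorem.
-/

set_option autoImplicit false
set_option linter.unusedSectionVars false
set_option linter.style.haveILetI false

open IsLocalRing

namespace Fermat.Agent.S59.H126

open Fermat.Agent.S53

/-- The ideal generated by the entries of `r τ - 1`, `τ` in the inertia group at `P`. -/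
def inertiaIdeal {R : Type} [CommRing R] (r : GQ →* M2 R)
    (P : ValuationSubring (AlgebraicClosure ℚ)) : Ideal R :=
  Ideal.span {e | ∃ τ ∈ P.inertiaSubgroupIn ℚ, ∃ i j : Fin 2, e = (r τ - 1) i j}

theorem entry_mem_inertiaIdeal {R : Type} [CommRing R] (r : GQ →* M2 R)
    (P : ValuationSubring (AlgebraicClosure ℚ)) {τ : GQ} (hτ : τ ∈ P.inertiaSubgroupIn ℚ)
    (i j : Fin 2) : (r τ - 1) i j ∈ inertiaIdeal r P :=
  Ideal.subset_span ⟨τ, hτ, i, j, rfl⟩

section DetCyc

variable {p : ℕ} [Fact p.Prime] {R : Type} [CommRing R] [IsLocalRing R] [IsNoetherianRing R]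

/-- The determinant of a representation with cyclotomic determinant, at an element acting on
all `p`-power roots of unity by `μ ↦ μ ^ a`. -/
theorem det_eq_natCast_of_detIsCyclotomic (r : GQ →* M2 R) (hr : MatCont r)
    (hdet : (toAdic r hr).DetIsCyclotomic p) (σ : GQ) (a : ℕ)
    (h : ∀ (n : ℕ) (μ : AlgebraicClosure ℚ), μ ^ p ^ n = 1 → σ μ = μ ^ a) :
    (r σ).det = (a : R) := by
  have hp := hdet.1
  have h1 : ∀ n, (r σ).det - a ∈ maximalIdeal R ^ n := by
    intro n
    have h2 := hdet.2 n σ a (h n)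
    rw [Fermat.Agent.S59.H659.det_toAdic] at h2
    have h3 : Ideal.span {((p ^ n : ℕ) : R)} ≤ maximalIdeal R ^ n := by
      rw [Ideal.span_singleton_le_iff_mem, Nat.cast_pow]
      exact Ideal.pow_mem_pow hp n
    exact h3 h2
  have h3 : (r σ).det - a ∈ (⊥ : Ideal R) := by
    apply Fermat.Agent.S59.H540.mem_of_forall_mem_sup_pow
    intro k
    exact Ideal.mem_sup_right (h1 k)
  rwa [Ideal.mem_bot, sub_eq_zero] at h3

theorem det_inertia_eq_one (r : GQ →* M2 R) (hr : MatCont r)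
    (hdet : (toAdic r hr).DetIsCyclotomic p) {q : ℕ} (hq : q.Prime) (hqp : q ≠ p)
    (P : ValuationSubring (AlgebraicClosure ℚ)) (hP : P.LiesOverPrime q)
    {τ : GQ} (hτ : τ ∈ P.inertiaSubgroupIn ℚ) : (r τ).det = 1 := by
  have h := det_eq_natCast_of_detIsCyclotomic r hr hdet τ 1 (fun n μ hμ => by
    rw [pow_one]
    exact Fermat.Agent.S30.H870.inertia_root_eq p hq hqp P hP τ hτ hμ)
  rwa [Nat.cast_one] at h

theorem det_frobenius_eq (r : GQ →* M2 R) (hr : MatCont r)
    (hdet : (toAdic r hr).DetIsCyclotomic p) {q : ℕ} (hq : q.Prime) (hqp : q ≠ p)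
    (P : ValuationSubring (AlgebraicClosure ℚ)) (hP : P.LiesOverPrime q)
    {φ : GQ} (hφ : P.IsFrobeniusAt φ q) : (r φ).det = (q : R) :=
  det_eq_natCast_of_detIsCyclotomic r hr hdet φ q (fun _ _ hμ =>
    Fermat.Agent.S30.H870.frob_root_pow_eq p hq hqp P hP φ hφ hμ)

end DetCyc

section Level

variable {R : Type} [CommRing R] {A : Type} [CommRing A]

theorem mapRep_eq_one_add (f : R →+* A) (r : GQ →* M2 R) (σ : GQ) :
    mapRep f r σ = 1 + (r σ - 1).map f := by
  ext i j
  rw [mapRep_apply, Matrix.add_apply, Matrix.map_apply, Matrix.map_apply, Matrix.sub_apply,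
    map_sub]
  by_cases hij : i = j
  · subst hij
    rw [Matrix.one_apply_eq, Matrix.one_apply_eq, map_one]
    ring
  · rw [Matrix.one_apply_ne hij, Matrix.one_apply_ne hij, map_zero]
    ring

theorem mapRep_eq_one_of_mem_ker (f : R →+* A) (r : GQ →* M2 R) (σ : GQ)
    (h : ∀ i j, (r σ - 1) i j ∈ RingHom.ker f) : mapRep f r σ = 1 := by
  rw [mapRep_eq_one_add]
  have : (r σ - 1).map f = 0 := by
    ext i j
    rw [Matrix.map_apply, Matrix.zero_apply]
    exact h i j
  rw [this, add_zero]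

end Level

section Main

variable {p : ℕ} [Fact p.Prime]
  {𝒪 : Type} [CommRing 𝒪] [IsDomain 𝒪] [IsDiscreteValuationRing 𝒪]
  {R : Type} [CommRing R] [IsLocalRing R] [IsNoetherianRing R] [Algebra 𝒪 R]

/-- **The count.**  Every finite subset of the inertia ideal which is injective modulo `I²` has
at most `#(𝒪/c)` elements. -/
theorem inertia_count {q : ℕ} (hq : q.Prime) (hqp : q ≠ p) (hqu : IsUnit (q : 𝒪))
    (x : R →ₐ[𝒪] 𝒪) (r : GQ →* M2 R) (hr : MatCont r)
    (hdet : (toAdic r hr).DetIsCyclotomic p)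
    (P : ValuationSubring (AlgebraicClosure ℚ)) (hP : P.LiesOverPrime q)
    (φ : GQ) (hφ : P.IsFrobeniusAt φ q)
    (hI : ∀ τ ∈ P.inertiaSubgroupIn ℚ, ∀ i j, (r τ - 1) i j ∈ RingHom.ker (x : R →+* 𝒪))
    (hc : ((q : 𝒪) - 1) * (x (r φ).trace ^ 2 - ((q : 𝒪) + 1) ^ 2) ≠ 0)
    (hfin : Finite (𝒪 ⧸ Ideal.span {((q : 𝒪) - 1) * (x (r φ).trace ^ 2 - ((q : 𝒪) + 1) ^ 2)}))
    (s : Finset R) (hs : ∀ y ∈ s, y ∈ inertiaIdeal r P)
    (hinj : ∀ y ∈ s, ∀ y' ∈ s, y - y' ∈ (RingHom.ker (x : R →+* 𝒪)) ^ 2 → y = y') :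
    s.card ≤ Nat.card
      (𝒪 ⧸ Ideal.span {((q : 𝒪) - 1) * (x (r φ).trace ^ 2 - ((q : 𝒪) + 1) ^ 2)}) := by
  classical
  have hpp : p.Prime := Fact.out
  set I : Ideal R := RingHom.ker (x : R →+* 𝒪) with hIdef
  -- choice of the level
  have hkr : ∀ pr : R × R, ∃ k : ℕ,
      pr.1 - pr.2 ∈ I ^ 2 ⊔ maximalIdeal R ^ k → pr.1 - pr.2 ∈ I ^ 2 := by
    intro pr
    by_cases h : pr.1 - pr.2 ∈ I ^ 2
    · exact ⟨0, fun _ => h⟩
    · by_contra hne
      push Not at hne
      exact h (Fermat.Agent.S59.H540.mem_of_forall_mem_sup_pow (I ^ 2) _ fun k => (hne k).1)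
  choose kf hkf using hkr
  set k : ℕ := (s ×ˢ s).sup kf with hk
  have hkle : ∀ y ∈ s, ∀ y' ∈ s, kf (y, y') ≤ k := fun y hy y' hy' =>
    Finset.le_sup (f := kf) (Finset.mem_product.mpr ⟨hy, hy'⟩)
  set 𝔞 : Ideal R := I ^ 2 ⊔ maximalIdeal R ^ k with h𝔞
  have hsep : ∀ y ∈ s, ∀ y' ∈ s, y - y' ∈ 𝔞 → y = y' := by
    intro y hy y' hy' h
    apply hinj y hy y' hy'
    apply hkf (y, y')
    have hmono : 𝔞 ≤ I ^ 2 ⊔ maximalIdeal R ^ kf (y, y') :=
      sup_le_sup_left (Ideal.pow_le_pow_right (hkle y hy y' hy')) _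
    exact hmono h
  -- the finite level
  let mk : R →+* R ⧸ 𝔞 := Ideal.Quotient.mk 𝔞
  have hmk : ∀ a : R, mk a = 0 ↔ a ∈ 𝔞 := fun a => Ideal.Quotient.eq_zero_iff_mem
  have hmksurj : Function.Surjective mk := Ideal.Quotient.mk_surjective
  have halg : ∀ o : 𝒪, algebraMap 𝒪 (R ⧸ 𝔞) o = mk (algebraMap 𝒪 R o) := fun o => rfl
  set Ibar : Ideal (R ⧸ 𝔞) := I.map mk with hIbar
  have hsq : ∀ a ∈ Ibar, ∀ b ∈ Ibar, a * b = 0 := by
    intro a ha b hb
    obtain ⟨a', ha', rfl⟩ := (Ideal.mem_map_iff_of_surjective mk hmksurj).mp ha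
    obtain ⟨b', hb', rfl⟩ := (Ideal.mem_map_iff_of_surjective mk hmksurj).mp hb
    rw [← map_mul, hmk]
    refine Ideal.mem_sup_left ?_
    rw [pow_two]
    exact Ideal.mul_mem_mul ha' hb'
  have hxmem : ∀ a : R, a - algebraMap 𝒪 R (x a) ∈ I := by
    intro a
    rw [hIdef, RingHom.mem_ker, map_sub]
    show x a - x (algebraMap 𝒪 R (x a)) = 0
    rw [x.commutes, Algebra.algebraMap_self_apply, sub_self]
  have hdec : ∀ a : R ⧸ 𝔞, ∃ o : 𝒪, a - algebraMap 𝒪 (R ⧸ 𝔞) o ∈ Ibar := by
    intro a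
    obtain ⟨a', rfl⟩ := hmksurj a
    refine ⟨x a', ?_⟩
    rw [halg, ← map_sub]
    exact Ideal.mem_map_of_mem mk (hxmem a')
  let π : GQ →* M2 (R ⧸ 𝔞) := mapRep mk r
  have hπ : ∀ σ, π σ = 1 + (r σ - 1).map mk := fun σ => mapRep_eq_one_add mk r σ
  -- finite level
  have hlevel : ∃ E : IntermediateField ℚ (AlgebraicClosure ℚ), FiniteDimensional ℚ E ∧
      ∀ σ : AlgebraicClosure ℚ ≃ₐ[ℚ] AlgebraicClosure ℚ, (∀ x ∈ E, σ x = x) → π σ = 1 := by
    obtain ⟨L, hL, h⟩ := hr k
    refine ⟨L, hL, fun σ hσ => ?_⟩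
    apply mapRep_eq_one_of_mem_ker
    intro i j
    rw [RingHom.mem_ker]
    exact (hmk _).mpr (Ideal.mem_sup_right (h σ hσ i j))
  -- entries on inertia
  have hNI : ∀ τ ∈ P.inertiaSubgroupIn ℚ, ∀ i j, ((r τ - 1).map mk) i j ∈ Ibar := by
    intro τ hτ i j
    rw [Matrix.map_apply]
    exact Ideal.mem_map_of_mem mk (hI τ hτ i j)
  have hNN : ∀ τ ∈ P.inertiaSubgroupIn ℚ, (r τ - 1).map mk * (r τ - 1).map mk = 0 := by
    intro τ hτ
    ext i j
    rw [Matrix.mul_apply, Matrix.zero_apply]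
    exact Finset.sum_eq_zero fun l _ => hsq _ (hNI τ hτ i l) _ (hNI τ hτ l j)
  have hπpow : ∀ τ ∈ P.inertiaSubgroupIn ℚ, ∀ m : ℕ, π τ ^ m = 1 + m • (r τ - 1).map mk := by
    intro τ hτ m
    rw [hπ]
    exact one_add_pow_of_mul_self_eq_zero _ (hNN τ hτ) m
  have hpk : ((p ^ k : ℕ) : R ⧸ 𝔞) = 0 := by
    have : ((p ^ k : ℕ) : R ⧸ 𝔞) = mk ((p : R) ^ k) := by
      rw [map_pow, map_natCast, Nat.cast_pow]
    rw [this, hmk]
    exact Ideal.mem_sup_right (Ideal.pow_mem_pow hdet.1 k)
  have htors : ∀ σ ∈ P.inertiaSubgroupIn ℚ, ∃ a : ℕ, π σ ^ (p ^ a) = 1 := by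
    intro τ hτ
    refine ⟨k, ?_⟩
    rw [hπpow τ hτ, ← Nat.cast_smul_eq_nsmul (R ⧸ 𝔞), hpk, zero_smul, add_zero]
  have hcop : Nat.Coprime p q := (Nat.coprime_primes hpp hq).mpr (Ne.symm hqp)
  obtain ⟨τ₀, hτ₀, hgen⟩ := Fermat.Agent.S56.H186.tame_cyclic P π hP hq hlevel hcop htors
  have hfrob := Fermat.Agent.S56.H186.tame_frobenius P π hP hq hlevel hcop htors hφ hτ₀
  set N₀ : M2 (R ⧸ 𝔞) := (r τ₀ - 1).map mk with hN₀def
  have hπτ₀ : π τ₀ = 1 + N₀ := hπ τ₀
  have hrel : π φ * (1 + N₀) = (1 + N₀) ^ q * π φ := by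
    rw [← hπτ₀, ← hfrob, ← map_mul, ← map_mul]
    congr 1
    group
  -- determinants
  have hdetN : (1 + N₀).det = 1 := by
    rw [← hπτ₀]
    show ((r τ₀).map mk).det = 1
    have h1 : ((r τ₀).map mk).det = mk (r τ₀).det := by
      rw [RingHom.map_det]
      rfl
    rw [h1, det_inertia_eq_one r hr hdet hq hqp P hP hτ₀, map_one]
  set F₀ : M2 𝒪 := (r φ).map x with hF₀
  have hdetF : F₀.det = (q : 𝒪) := by
    have h1 : F₀.det = x (r φ).det := (RingHom.map_det (x : R →+* 𝒪) (r φ)).symm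
    rw [h1, det_frobenius_eq r hr hdet hq hqp P hP hφ, map_natCast]
  have htrF : F₀.trace = x (r φ).trace := by
    rw [hF₀, Matrix.trace_fin_two, Matrix.trace_fin_two, map_add]
    rfl
  have hΦ : ∀ i j, π φ i j - algebraMap 𝒪 (R ⧸ 𝔞) (F₀ i j) ∈ Ibar := by
    intro i j
    rw [halg]
    show mk (r φ i j) - mk (algebraMap 𝒪 R (x (r φ i j))) ∈ Ibar
    rw [← map_sub]
    exact Ideal.mem_map_of_mem mk (hxmem _)
  -- generators
  set G : Set (R ⧸ 𝔞) :=
    {g | ∃ τ ∈ P.inertiaSubgroupIn ℚ, ∃ i j : Fin 2, g = mk ((r τ - 1) i j)} with hGdef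
  have hG : ∀ g ∈ G, ∃ (m : ℕ) (i j : Fin 2), g = m • N₀ i j := by
    rintro g ⟨τ, hτ, i, j, rfl⟩
    obtain ⟨m, hm⟩ := hgen τ hτ
    refine ⟨m, i, j, ?_⟩
    have h1 : (r τ - 1).map mk = m • N₀ := by
      have h2 : 1 + (r τ - 1).map mk = 1 + m • N₀ := by
        rw [← hπ τ, hm, hπpow τ₀ hτ₀]
      exact add_left_cancel h2
    have h3 := congrFun (congrFun h1 i) j
    rw [Matrix.map_apply] at h3
    rw [h3, Matrix.smul_apply]
  -- the determinant of the relation matrix
  have hdetB : (sl2Mat F₀ ((q : 𝒪) ^ 2)).det =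
      (q : 𝒪) ^ 3 * (((q : 𝒪) - 1) * (x (r φ).trace ^ 2 - ((q : 𝒪) + 1) ^ 2)) := by
    rw [det_sl2Mat_of_det F₀ (q : 𝒪) hdetF, htrF]
  have hspan : Ideal.span {(sl2Mat F₀ ((q : 𝒪) ^ 2)).det} =
      Ideal.span {((q : 𝒪) - 1) * (x (r φ).trace ^ 2 - ((q : 𝒪) + 1) ^ 2)} := by
    rw [hdetB, Ideal.span_singleton_eq_span_singleton]
    exact (associated_unit_mul_left _ _ (hqu.pow 3)).symm.symm
  have hcB : (sl2Mat F₀ ((q : 𝒪) ^ 2)).det ≠ 0 := by
    rw [hdetB]
    exact mul_ne_zero (pow_ne_zero 3 hqu.ne_zero) hc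
  haveI : Finite (𝒪 ⧸ Ideal.span {(sl2Mat F₀ ((q : 𝒪) ^ 2)).det}) := by
    rw [hspan]
    exact hfin
  -- the image of `s`
  have hsimg : ∀ y ∈ s.image mk, y ∈ Ideal.span G := by
    intro y hy
    obtain ⟨y', hy', rfl⟩ := Finset.mem_image.mp hy
    have h1 : mk y' ∈ (inertiaIdeal r P).map mk := Ideal.mem_map_of_mem mk (hs y' hy')
    rw [inertiaIdeal, Ideal.map_span] at h1
    refine Ideal.span_mono ?_ h1
    rintro _ ⟨e, ⟨τ, hτ, i, j, rfl⟩, rfl⟩
    exact ⟨τ, hτ, i, j, rfl⟩
  have hcount := count_level (𝒪 := 𝒪) Ibar hsq hdec (π φ) N₀ F₀ hΦ (hNI τ₀ hτ₀) q hrel hdetN hdetF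
    G hG hcB (s.image mk) hsimg
  have hcard : (s.image mk).card = s.card := by
    apply Finset.card_image_of_injOn
    intro y hy y' hy' hyy'
    apply hsep y hy y' hy'
    rw [← hmk, map_sub, sub_eq_zero]
    exact hyy'
  rw [hcard, hspan] at hcount
  exact hcount

end Main

end Fermat.Agent.S59.H126

end
-- ===== PACK-END S59/H126/Galois.lean

-- ===== PACK-BEGIN S59/H659/DetCyc.lean
section


/-!
# S59, piece G3 (helper659): the determinant condition

`isCoreCond_detIsCyclotomic p` : "the determinant is the `p`-adic cyclotomic character" is a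
deformation condition.
-/

set_option autoImplicit false
set_option linter.unusedSectionVars false
set_option linter.style.haveILetI false

namespace Fermat.Agent.S59.H659

open Fermat.Agent.S53 Fermat.Agent.S56.H966 IsLocalRing Polynomial

theorem detIsCyclotomic_toAdic_iff {A : Type} [CommRing A] [IsLocalRing A] (r : GQ →* M2 A)
    (hr : MatCont r) (p : ℕ) :
    (toAdic r hr).DetIsCyclotomic p ↔
      (p : A) ∈ maximalIdeal A ∧ ∀ σ : GQ, CycCong p σ (r σ).det 1 := by
  constructor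
  · rintro ⟨h1, h2⟩
    refine ⟨h1, fun σ n a ha => ?_⟩
    have := h2 n σ a ha
    rwa [det_toAdic, ← mul_one (a : A)] at this
  · rintro ⟨h1, h2⟩
    refine ⟨h1, fun n σ a ha => ?_⟩
    have := h2 σ n a ha
    rwa [det_toAdic, ← mul_one (a : A)]

theorem det_mapRep {A B : Type} [CommRing A] [CommRing B] (φ : A →+* B) (r : GQ →* M2 A)
    (σ : GQ) : (mapRep φ r σ).det = φ (r σ).det := by
  rw [mapRep_apply, RingHom.map_det]
  rfl

/-- The determinant condition is a deformation condition. -/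
theorem isCoreCond_detIsCyclotomic (p : ℕ) (hp : p ≠ 0) :
    IsCoreCond (fun _A _ _ ρ => ρ.DetIsCyclotomic p) where
  of_isEquiv := fun _ _ _ _ _ he h => detIsCyclotomic_of_isEquiv he h
  baseChangeAlong := fun _ _ _ _ _ _ φ hφ _ h => detIsCyclotomic_baseChangeAlong φ hφ h
  of_fibre := by
    intro P A B _ _ _ _ _ _ _ _ _ pA pB hpA hpB hinj r hr hA hB
    rw [detIsCyclotomic_toAdic_iff] at hA hB ⊢
    refine ⟨natCast_mem_maximalIdeal_of_map pA hA.1, fun σ => ?_⟩
    refine CycCong.of_fibre hp pA pB hinj (isNilpotent_natCast_of_mem hA.1)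
      (isNilpotent_natCast_of_mem hB.1) ?_ ?_
    · have := hA.2 σ
      rwa [det_mapRep, ← map_one pA] at this
    · have := hB.2 σ
      rwa [det_mapRep, ← map_one pB] at this
  of_quotients := by
    intro A _ _ _ _ r hr h
    rw [detIsCyclotomic_toAdic_iff]
    have hloc : ∀ n : ℕ, n ≠ 0 → IsLocalRing (A ⧸ maximalIdeal A ^ n) := fun n hn =>
      isLocalRing_quotient _ (maximalIdeal_pow_ne_top n hn)
    have hq : ∀ n : ℕ, n ≠ 0 → IsLocalHom (Ideal.Quotient.mk (maximalIdeal A ^ n)) :=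
      fun n hn =>
        haveI := hloc n hn
        IsLocalHom.of_surjective _ Ideal.Quotient.mk_surjective
    have key : ∀ n : ℕ, ∀ hn : n ≠ 0,
        ((p : A ⧸ maximalIdeal A ^ n) ∈ @maximalIdeal (A ⧸ maximalIdeal A ^ n) _ (hloc n hn)) ∧
        ∀ σ : GQ, CycCong p σ (Ideal.Quotient.mk (maximalIdeal A ^ n) (r σ).det)
          (Ideal.Quotient.mk (maximalIdeal A ^ n) 1) := by
      intro n hn
      have h1 := h n hn (hloc n hn) (hq n hn)
      rw [@detIsCyclotomic_toAdic_iff _ _ (hloc n hn)] at h1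
      refine ⟨h1.1, fun σ => ?_⟩
      have := h1.2 σ
      rwa [det_mapRep, ← map_one (Ideal.Quotient.mk (maximalIdeal A ^ n))] at this
    refine ⟨?_, fun σ => CycCong.of_quotients fun n hn => (key n hn).2 σ⟩
    exact @natCast_mem_maximalIdeal_of_map _ _ _ _ _ (hloc 1 one_ne_zero)
      (Ideal.Quotient.mk (maximalIdeal A ^ 1)) p (key 1 one_ne_zero).1

end Fermat.Agent.S59.H659

end
-- ===== PACK-END S59/H659/DetCyc.lean

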