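import Fermat.Agent.Pack.S43GC.G0E13L3
import Fermat.Agent.Pack.S43GC.G0E7L3
import Fermat.Agent.Pack.S43GC.G0E0L0
import Fermat.Agent.Pack.S43GC.G0E5L0
import Fermat.Agent.Pack.S43GC.G0E14L0
import Fermat.Agent.Pack.S43GC.G0E12L3
import Fermat.Agent.Pack.S43GC.G0E0L3
import Fermat.Agent.Pack.S43GC.G0E13L0
import Fermat.Agent.Pack.S43GC.G0E13L2
import Fermat.Agent.Pack.S43GC.G0E9L2
import Fermat.Agent.Pack.S43GC.G0E4L3
import Fermat.Agent.Pack.S43GC.G0E2L2
import Fermat.Agent.Pack.S43GC.G0E9L0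
import Fermat.Agent.Pack.S43GC.G0E11L2
import Fermat.Agent.Pack.S43GC.G0E11L0
import Fermat.Agent.Pack.S43GC.G0E11L3
import Fermat.Agent.Pack.S43GC.G0E13L1
import Fermat.Agent.Pack.Fast891

-- ===== PACK-BEGIN S55/PT/BridgeH724.lean
section





/-!
# S55 / layer D, leaf D-B : `BridgeSpec`   (helper724)

Port of `PT/BridgeSha724.lean` to the frozen base `PT/{Levels,…,Spec}.lean` of helper835.

Global group `G_ℚ` with the levels `globalLevels S`; local groups `Gl q`, `q ∈ S`, with the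
levels `localLevels q` and the Prelude maps `rl q`.  For a coefficient field `K` with `2 ≠ 0`
(so that the archimedean place does not contribute: `Bridge/Archimedean.lean`):

* `h2GlobalEquiv : (globalLevels S).H2 M ≃ₗ[K] continuousH2S S M`;
* `sha2Equiv : Sha2 (hrl S) M ≃ₗ[K] sha₂ S M`;
* `toH1 : (globalLevels S).H1 A →ₗ[K] H1 A` (injective, range `continuousH1S S A`);
* `sha1Equiv : Sha1 (hrl S) A ≃ₗ[K] sha₁ S A`;
* `s55_of_sha2_equiv_dual_sha1` : the conclusion of S55 from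
  `Sha2 M ≃ₗ Dual (Sha1 M′)` (the output of Theorem D);
* `isUSmooth_of_s55_hyps` : `M` and `M′` are uniformly smooth under the hypotheses of S55;
* `bridge : BridgeSpec p S` : S55 from Theorem D.
-/

set_option autoImplicit false

noncomputable section

namespace Fermat.Agent.S55.PT.H724

open groupCohomology ExtCitation

variable (S : Finset Nat.Primes)

variable {K : Type} [Field K] (M : Rep.{0, 0, 0} K GQ)

/-! ### Degree 2 -/

lemma C1_globalLevels_eq : (globalLevels S).C1 M = levelCochainsS₁ S M := by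
  ext f
  exact isLC₁_globalLevels_iff S f

lemma C2_globalLevels_eq : (globalLevels S).C2 M = levelCochainsS₂ S M := by
  ext f
  exact isLC₂_globalLevels_iff S f

lemma Z2_globalLevels_eq : (globalLevels S).Z2 M = levelCocyclesS₂ S M := by
  unfold LevelSys.Z2 levelCocyclesS₂
  rw [C2_globalLevels_eq]

lemma B2_globalLevels_eq : (globalLevels S).B2 M = levelCoboundariesS₂ S M := by
  unfold LevelSys.B2 levelCoboundariesS₂
  rw [C1_globalLevels_eq]

/-- `PT`'s global `H²` is the Prelude's `continuousH2S`. -/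
def h2GlobalEquiv : (globalLevels S).H2 M ≃ₗ[K] continuousH2S S M :=
  Submodule.Quotient.equiv (((globalLevels S).B2 M).comap ((globalLevels S).Z2 M).subtype)
    ((levelCoboundariesS₂ S M).comap (levelCocyclesS₂ S M).subtype)
    (LinearEquiv.ofEq _ _ (Z2_globalLevels_eq S M)) (by
      ext x
      simp only [Submodule.mem_map, Submodule.mem_comap, Submodule.subtype_apply]
      constructor
      · rintro ⟨y, hy, rfl⟩
        rw [B2_globalLevels_eq] at hy
        exact hy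
      · intro hx
        refine ⟨(LinearEquiv.ofEq _ _ (Z2_globalLevels_eq S M)).symm x, ?_,
          LinearEquiv.apply_symm_apply _ x⟩
        rw [B2_globalLevels_eq]
        exact hx)

lemma h2GlobalEquiv_mk (z : ↥((globalLevels S).Z2 M)) :
    h2GlobalEquiv S M ((globalLevels S).H2π M z) =
      continuousH2Sπ S M (LinearEquiv.ofEq _ _ (Z2_globalLevels_eq S M) z) := rfl

/-- Membership in `Sha2` on representatives. -/
lemma H2π_mem_Sha2_iff (z : ↥((globalLevels S).Z2 M)) :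
    (globalLevels S).H2π M z ∈ Sha2 (hrl S) M ↔
      ∀ q : ↥S, ∃ c : primeLocalGaloisGroup q.1 → M,
        IsLevelConstant₁ (primeLocalToGlobal q.1) c ∧
        ∀ h h' : primeLocalGaloisGroup q.1,
          M.ρ (primeLocalToGlobal q.1 h) (c h') - c (h * h') + c h
          = (z : GQ × GQ → M) (primeLocalToGlobal q.1 h, primeLocalToGlobal q.1 h') := by
  rw [LinearMap.mem_ker]
  constructor
  · intro h q
    have hq : resH2 (hrl S q) M ((globalLevels S).H2π M z) = 0 := congrFun h q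
    rw [resH2_mk, LevelSys.H2π_eq_zero_iff] at hq
    obtain ⟨c, hc, hd⟩ := hq
    refine ⟨c, (isLC₁_pullbackLevels_iff (rl q.1) c).1 hc, fun h h' => ?_⟩
    have := congrFun hd (h, h')
    rw [d₁₂_hom_apply] at this
    exact this
  · intro h
    funext q
    show resH2 (hrl S q) M ((globalLevels S).H2π M z) = 0
    rw [resH2_mk, LevelSys.H2π_eq_zero_iff]
    obtain ⟨c, hc, hd⟩ := h q
    refine ⟨c, (isLC₁_pullbackLevels_iff (rl q.1) c).2 hc, ?_⟩
    funext ⟨h, h'⟩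
    rw [d₁₂_hom_apply]
    exact hd h h'

variable (h2 : (2 : K) ≠ 0)

include h2 in
lemma map_Sha2_eq :
    (Sha2 (hrl S) M).map (h2GlobalEquiv S M : (globalLevels S).H2 M →ₗ[K] continuousH2S S M)
      = sha₂ S M := by
  ext y
  simp only [Submodule.mem_map]
  constructor
  · rintro ⟨x, hx, rfl⟩
    obtain ⟨z, rfl⟩ := (globalLevels S).H2π_surjective M x
    rw [LinearEquiv.coe_coe, h2GlobalEquiv_mk,
      Fermat.Agent.S55.Bridge.mem_sha₂_mk_iff S h2]
    exact (H2π_mem_Sha2_iff S M z).1 hx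
  · intro hy
    obtain ⟨f, rfl⟩ := Submodule.mkQ_surjective _ y
    refine ⟨(globalLevels S).H2π M
      ((LinearEquiv.ofEq _ _ (Z2_globalLevels_eq S M)).symm f), ?_, ?_⟩
    · rw [H2π_mem_Sha2_iff]
      exact (Fermat.Agent.S55.Bridge.mem_sha₂_mk_iff S h2 M f).1 hy
    · rw [LinearEquiv.coe_coe, h2GlobalEquiv_mk, LinearEquiv.apply_symm_apply]

/-- **D-B, degree 2.** `PT.Sha2` is the Prelude's `sha₂`. -/
def sha2Equiv : ↥(Sha2 (hrl S) M) ≃ₗ[K] ↥(sha₂ S M) :=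
  (h2GlobalEquiv S M).ofSubmodules _ _ (map_Sha2_eq S M h2)

/-! ### Degree 1 -/

variable (A : Rep.{0, 0, 0} K GQ)

/-- Level-constant cocycles as Mathlib cocycles. -/
def Z1ToCocycles : ↥((globalLevels S).Z1 A) →ₗ[K] ↥(cocycles₁ A) :=
  Submodule.inclusion inf_le_left

@[simp] lemma coe_Z1ToCocycles (c : ↥((globalLevels S).Z1 A)) :
    ((Z1ToCocycles S A c : ↥(cocycles₁ A)) : GQ → A) = (c : GQ → A) := rfl

/-- The natural map from level-constant `H¹` to Mathlib's `H¹` (it is injective with range the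
Prelude's `continuousH1S`). -/
def toH1 : (globalLevels S).H1 A →ₗ[K] H1 A :=
  Submodule.liftQ _ ((H1π A).hom ∘ₗ Z1ToCocycles S A) (by
    intro c hc
    rw [LinearMap.mem_ker, LinearMap.comp_apply]
    exact (H1π_eq_zero_iff _).2 hc)

lemma toH1_mk (c : ↥((globalLevels S).Z1 A)) :
    toH1 S A ((globalLevels S).H1π A c) = (H1π A).hom (Z1ToCocycles S A c) := rfl

lemma toH1_injective : Function.Injective (toH1 S A) := by
  rw [← LinearMap.ker_eq_bot, LinearMap.ker_eq_bot']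
  intro x hx
  obtain ⟨c, rfl⟩ := (globalLevels S).H1π_surjective A x
  rw [toH1_mk] at hx
  rw [LevelSys.H1π_eq_zero_iff]
  exact (H1π_eq_zero_iff _).1 hx

lemma range_toH1 : LinearMap.range (toH1 S A) = continuousH1S S A := by
  ext y
  rw [mem_continuousH1S_iff]
  constructor
  · rintro ⟨x, rfl⟩
    obtain ⟨c, rfl⟩ := (globalLevels S).H1π_surjective A x
    exact ⟨Z1ToCocycles S A c, (isLC₁_globalLevels_iff S _).1 c.2.2, rfl⟩
  · rintro ⟨c, hc, rfl⟩
    exact ⟨(globalLevels S).H1π A ⟨(c : GQ → A), c.2, (isLC₁_globalLevels_iff S _).2 hc⟩, rfl⟩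

/-- Membership in `Sha1` on representatives. -/
lemma H1π_mem_Sha1_iff (c : ↥((globalLevels S).Z1 A)) :
    (globalLevels S).H1π A c ∈ Sha1 (hrl S) A ↔
      ∀ q : ↥S, ∃ a : A, ∀ h : primeLocalGaloisGroup q.1,
        (c : GQ → A) (primeLocalToGlobal q.1 h) = A.ρ (primeLocalToGlobal q.1 h) a - a := by
  rw [LinearMap.mem_ker]
  constructor
  · intro h q
    have hq : resH1 (hrl S q) A ((globalLevels S).H1π A c) = 0 := congrFun h q
    rw [resH1_mk, LevelSys.H1π_eq_zero_iff] at hq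
    obtain ⟨a, ha⟩ := hq
    refine ⟨a, fun h => ?_⟩
    have := congrFun ha h
    rw [d₀₁_hom_apply] at this
    exact this.symm
  · intro h
    funext q
    show resH1 (hrl S q) A ((globalLevels S).H1π A c) = 0
    rw [resH1_mk, LevelSys.H1π_eq_zero_iff]
    obtain ⟨a, ha⟩ := h q
    refine ⟨a, ?_⟩
    funext h
    rw [d₀₁_hom_apply]
    exact (ha h).symm

include h2 in
lemma toH1_mem_sha₁_iff (x : (globalLevels S).H1 A) :
    toH1 S A x ∈ sha₁ S A ↔ x ∈ Sha1 (hrl S) A := by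
  obtain ⟨c, rfl⟩ := (globalLevels S).H1π_surjective A x
  rw [toH1_mk, Fermat.Agent.S55.Bridge.mem_sha₁_iff_cocycle S h2, H1π_mem_Sha1_iff]
  constructor
  · rintro ⟨c', -, hcc', hloc⟩ q
    -- `c'` and `c` differ by a coboundary
    have hsub : (H1π A).hom (c' - Z1ToCocycles S A c) = 0 := by
      rw [map_sub, hcc', sub_self]
    obtain ⟨a₀, ha₀⟩ := (H1π_eq_zero_iff _).1 hsub
    obtain ⟨a, ha⟩ := hloc q
    refine ⟨a - a₀, fun h => ?_⟩
    have h1 := congrFun ha₀ (primeLocalToGlobal q.1 h)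
    rw [d₀₁_hom_apply] at h1
    have h3 : (c' : GQ → A) (primeLocalToGlobal q.1 h) - (c : GQ → A) (primeLocalToGlobal q.1 h)
        = A.ρ (primeLocalToGlobal q.1 h) a₀ - a₀ := h1.symm
    have h4 := ha h
    rw [map_sub]
    rw [h4] at h3
    have : (c : GQ → A) (primeLocalToGlobal q.1 h) =
        (A.ρ (primeLocalToGlobal q.1 h) a - a) - (A.ρ (primeLocalToGlobal q.1 h) a₀ - a₀) := by
      rw [← h3]; abel
    rw [this]; abel
  · intro h
    exact ⟨Z1ToCocycles S A c, (isLC₁_globalLevels_iff S _).1 c.2.2, rfl, h⟩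

/-- **D-B, degree 1.** `PT.Sha1` is the Prelude's `sha₁`. -/
def sha1Equiv : ↥(Sha1 (hrl S) A) ≃ₗ[K] ↥(sha₁ S A) :=
  LinearEquiv.ofBijective
    ((toH1 S A).restrict (p := Sha1 (hrl S) A) (q := sha₁ S A)
      (fun x hx => (toH1_mem_sha₁_iff S h2 A x).2 hx))
    ⟨fun x y hxy => Subtype.ext (toH1_injective S A (congrArg Subtype.val hxy)), by
      rintro ⟨y, hy⟩
      obtain ⟨c, hc, rfl, hloc⟩ := (Fermat.Agent.S55.Bridge.mem_sha₁_iff_cocycle S h2 A y).1 hy
      let z : ↥((globalLevels S).Z1 A) :=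
        ⟨(c : GQ → A), c.2, (isLC₁_globalLevels_iff S _).2 hc⟩
      have hz : (globalLevels S).H1π A z ∈ Sha1 (hrl S) A :=
        (H1π_mem_Sha1_iff S A z).2 hloc
      exact ⟨⟨_, hz⟩, Subtype.ext rfl⟩⟩

lemma sha1Equiv_apply (x : ↥(Sha1 (hrl S) A)) :
    ((sha1Equiv S h2 A x : ↥(sha₁ S A)) : H1 A) = toH1 S A x := rfl

end Fermat.Agent.S55.PT.H724

namespace Fermat.Agent.S55.PT.H724

open groupCohomology ExtCitation

/-- **D-B, assembly.**  The conclusion of S55 follows from `Ш²(M) ≃ Dual Ш¹(M′)` for the `PT`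
groups (the output of Theorem D of layer D). -/
theorem s55_of_sha2_equiv_dual_sha1 {p : ℕ} [Fact p.Prime] (hp2 : p ≠ 2)
    (S : Finset Nat.Primes) (M : Rep.{0, 0, 0} (ZMod p) GQ)
    (e : ↥(Sha2 (hrl S) M) ≃ₗ[ZMod p]
      Module.Dual (ZMod p) ↥(Sha1 (hrl S) (M.dualTwist (cycloChar p)))) :
    ∃ B : sha₁ S (M.dualTwist (cycloChar p)) →ₗ[ZMod p] sha₂ S M →ₗ[ZMod p] ZMod p,
      (∀ y, (∀ x, B y x = 0) → y = 0) ∧ (∀ x, (∀ y, B y x = 0) → x = 0) := by
  have h2 : (2 : ZMod p) ≠ 0 := Fermat.Agent.S55.Bridge.two_ne_zero_zmod hp2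
  let e₂ := sha2Equiv S M h2
  let e₁ := sha1Equiv S h2 (M.dualTwist (cycloChar p))
  let E : ↥(sha₂ S M) ≃ₗ[ZMod p]
      Module.Dual (ZMod p) ↥(sha₁ S (M.dualTwist (cycloChar p))) :=
    e₂.symm.trans (e.trans e₁.symm.dualMap)
  obtain ⟨B, hB1, hB2⟩ := Fermat.Agent.S55.Bridge.exists_pairing_of_equiv_dual E
  exact ⟨B.flip, fun y hy => hB2 y (fun x => hy x), fun x hx => hB1 x (fun y => hx y)⟩

/-! ### Smoothness of `M` and `M′` from the hypotheses of S55 -/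

/-- Under the hypotheses of S55, `M` and `M′ = M.dualTwist χ_p` are uniformly smooth for the
levels unramified outside `S` (one common Galois level acts trivially on both). -/
theorem isUSmooth_of_s55_hyps {p : ℕ} [Fact p.Prime] (S : Finset Nat.Primes)
    (hpS : pPrime p ∈ S) (M : Rep.{0, 0, 0} (ZMod p) GQ) [FiniteDimensional (ZMod p) M]
    (hsm : ∀ m : M, ∃ F : IntermediateField ℚ (AlgebraicClosure ℚ), FiniteDimensional ℚ F ∧
      ∀ s ∈ F.fixingSubgroup, M.ρ s m = m)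
    (hMur : ∀ q : Nat.Primes, q ∉ S → ∀ A : ValuationSubring (AlgebraicClosure ℚ),
      A.LiesOverPrime (q : ℕ) → ∀ g ∈ A.inertiaSubgroupIn ℚ, M.ρ g = 1) :
    (globalLevels S).IsUSmooth M ∧ (globalLevels S).IsUSmooth (M.dualTwist (cycloChar p)) := by
  obtain ⟨L, hL, -, hM, -, hM'⟩ :=
    Fermat.Agent.S55.Bridge.exists_common_galois_level M S hpS hsm hMur
  refine ⟨⟨L.fixingSubgroup, ⟨L, hL, rfl⟩, fun s hs a => ?_⟩,
    ⟨L.fixingSubgroup, ⟨L, hL, rfl⟩, fun s hs a => ?_⟩⟩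
  · rw [hM s hs]; rfl
  · rw [hM' s hs]; rfl

/-- **Leaf D-B.**  If Theorem D holds (`Ш²(M) ≃ Dual Ш¹(M′)` for every finite-dimensional
uniformly smooth `M`), then the statement of S55 holds. -/
theorem bridge (p : ℕ) [Fact p.Prime] (S : Finset Nat.Primes) : BridgeSpec p S := by
  intro hp2 hpS hD M _ hsm hMur
  obtain ⟨h1, -⟩ := isUSmooth_of_s55_hyps S hpS M hsm hMur
  obtain ⟨e⟩ := hD M inferInstance h1
  exact s55_of_sha2_equiv_dual_sha1 hp2 S M e

end Fermat.Agent.S55.PT.H724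

end

end
-- ===== PACK-END S55/PT/BridgeH724.lean

-- ===== PACK-BEGIN S55/PT/FinGlobH593.lean
section



/-!
# S55 / layer K, input A1 (FIN-glob) of the duality engine D   (helper593)

`finGlob p S : FinGlobSpec p S` — for every finite-dimensional `F_p`-representation `N` of `G_ℚ`
on which some level `G_F` (`F/ℚ` finite, unramified outside `S`) acts trivially, the
level-constant cohomology group `H¹_S(N) = (globalLevels S).H1 N` is finite-dimensional.

UNCONDITIONAL (no hypothesis `p ∈ S`): a cocycle that is level-constant for `S` is level-constant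
for `S' = S ∪ {p}`, and helper901's uniform level bound (`H901.exists_level_bound`, Kummer theory +
finiteness of the Selmer group `L(S', p)`) applies to `S'`.  Hence all `S`-level-constant
cocycles factor through ONE finite quotient `G_ℚ / G_{Lmax}`, so that `Z¹_S(N)` is a finite set.

Also exported: `finite_Z1` (the cocycle group itself is finite), `finite_H1`.
-/

set_option autoImplicit false
set_option linter.style.haveILetI false

namespace Fermat.Agent.S55.PT.H593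

open groupCohomology ExtCitation IntermediateField Fermat.Agent.S55.PT

variable (p : ℕ) [Fact p.Prime] (S : Finset Nat.Primes)

/-- A uniformly smooth representation for `globalLevels S` is smooth in the Prelude's sense. -/
theorem smooth_of_isUSmooth (N : Rep.{0, 0, 0} (ZMod p) GQ)
    (h : (globalLevels S).IsUSmooth N) :
    ∀ m : N, ∃ F : IntermediateField ℚ (AlgebraicClosure ℚ), FiniteDimensional ℚ F ∧
      ∀ s ∈ F.fixingSubgroup, N.ρ s m = m := by
  obtain ⟨U, ⟨F, hF, rfl⟩, hU⟩ := h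
  exact fun m => ⟨F, hF.1, fun s hs => hU s hs m⟩

/-- A uniformly smooth representation for `globalLevels S` is unramified outside every
`S' ⊇ S`. -/
theorem unramified_of_isUSmooth (N : Rep.{0, 0, 0} (ZMod p) GQ)
    (h : (globalLevels S).IsUSmooth N) {S' : Finset Nat.Primes} (hSS' : S ⊆ S') :
    ∀ q : Nat.Primes, q ∉ S' → ∀ A : ValuationSubring (AlgebraicClosure ℚ),
      A.LiesOverPrime (q : ℕ) → ∀ g ∈ A.inertiaSubgroupIn ℚ, N.ρ g = 1 := by
  obtain ⟨U, ⟨F, hF, rfl⟩, hU⟩ := h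
  intro q hq A hA g hg
  have hgF : g ∈ F.fixingSubgroup := hF.2 q (fun hqS => hq (hSS' hqS)) A hA hg
  ext m
  exact hU g hgF m

/-- **Uniform level bound** for the level-constant cocycles of `globalLevels S`
(no hypothesis `p ∈ S`). -/
theorem exists_level_bound_Z1 (N : Rep.{0, 0, 0} (ZMod p) GQ) [FiniteDimensional (ZMod p) N]
    (h : (globalLevels S).IsUSmooth N) :
    ∃ Lmax : IntermediateField ℚ (AlgebraicClosure ℚ), FiniteDimensional ℚ Lmax ∧
      ∀ c : ↥((globalLevels S).Z1 N), ∀ s ∈ Lmax.fixingSubgroup, (c : GQ → N) s = 0 := by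
  classical
  have hSS' : S ⊆ insert (pPrime p) S := Finset.subset_insert _ _
  obtain ⟨Lmax, hfin, hb⟩ := H901.exists_level_bound (p := p) (insert (pPrime p) S)
    (H901.unramClassicalSpec _) (Finset.mem_insert_self _ _) N
    (smooth_of_isUSmooth p S N h) (unramified_of_isUSmooth p S N h hSS')
  refine ⟨Lmax, hfin, fun c s hs => ?_⟩
  have hc1 : (c : GQ → N) ∈ cocycles₁ N := c.2.1
  have hc2 : (globalLevels S).IsLC₁ (c : GQ → N) := c.2.2
  obtain ⟨F, hF, hconst⟩ := (isLC₁_globalLevels_iff S _).1 hc2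
  exact hb ⟨(c : GQ → N), hc1⟩ ⟨F, hF.mono hSS', hconst⟩ s hs

/-- `Z¹_S(N)` is a finite set. -/
theorem finite_Z1 (N : Rep.{0, 0, 0} (ZMod p) GQ) [FiniteDimensional (ZMod p) N]
    (h : (globalLevels S).IsUSmooth N) : Finite ↥((globalLevels S).Z1 N) := by
  classical
  obtain ⟨Lmax, hfin, hb⟩ := exists_level_bound_Z1 p S N h
  haveI := hfin
  haveI := H901.finite_quotient_fixingSubgroup Lmax
  haveI : Finite N := Module.finite_of_finite (ZMod p)
  let Φ : ↥((globalLevels S).Z1 N) → (GQ ⧸ Lmax.fixingSubgroup → N) :=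
    fun c q => (c : GQ → N) (Quotient.out q)
  have hconst : ∀ (c : ↥((globalLevels S).Z1 N)) (g : GQ),
      (c : GQ → N) (Quotient.out (QuotientGroup.mk g : GQ ⧸ Lmax.fixingSubgroup)) =
        (c : GQ → N) g := by
    intro c g
    obtain ⟨t, ht⟩ := QuotientGroup.mk_out_eq_mul Lmax.fixingSubgroup g
    have hc1 : (c : GQ → N) ∈ cocycles₁ N := c.2.1
    rw [ht, (mem_cocycles₁_iff (c : GQ → N)).1 hc1 g t, hb c t t.2, map_zero, zero_add]
  refine Finite.of_injective Φ (fun c c' hcc' => ?_)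
  apply Subtype.ext
  funext g
  rw [← hconst c g, ← hconst c' g]
  exact congrFun hcc' _

/-- `H¹_S(N)` is a finite set. -/
theorem finite_H1 (N : Rep.{0, 0, 0} (ZMod p) GQ) [FiniteDimensional (ZMod p) N]
    (h : (globalLevels S).IsUSmooth N) : Finite ((globalLevels S).H1 N) := by
  haveI := finite_Z1 p S N h
  exact Finite.of_surjective _ ((globalLevels S).H1π_surjective N)

/-- **A1 (FIN-glob)**, unconditional. -/
theorem finGlob : FinGlobSpec p S := by
  intro N hfd hsm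
  haveI := hfd
  haveI := finite_H1 p S N hsm
  exact Module.Finite.of_finite

end Fermat.Agent.S55.PT.H593

end
-- ===== PACK-END S55/PT/FinGlobH593.lean

-- ===== PACK-BEGIN S55/Inv/Spec.lean
section


/-!
# S55 / layer D input `InvSpec` (A5, A5′, A6, A7): FROZEN SUB-INTERFACE (sub-architect helper3)

Blueprint: `coord/S55-INV.md` on `origin/helper3`.

`PT.InvSpec p S` (existence of invariant maps with RECIP, TOP-loc-ind, TOP-glob-ind) is reduced
in `Inv/Top.lean` (complete) to FOUR statements, three of which do not mention invariants: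

* `PT.Surj2LocSpec p S`     (A4, subtask 351, owner elsewhere);
* `LocalInvRecipSpec p S`   : non-zero functionals `inv_v` on `H²(G_v, μ_p)` with reciprocity;
* `LocDimSpec p S`          : `dim H²(G_v, Ind_W μ) ≤ 1`           (`Br(E)[p] ≅ ℤ/p`);
* `GlobCokerSpec p S`       : the global classes fill a hyperplane of `∏_v H²(G_v, Ind_U μ)`
                              (`dim coker ≤ 1`; NO invariants, NO corestriction compatibility).

All statements are about the level-constant cochain cohomology of `PT/Levels.lean`.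
-/

set_option autoImplicit false

noncomputable section

namespace Fermat.Agent.S55.Inv

open Fermat.Agent.S55.PT groupCohomology ExtCitation

variable (p : ℕ) [Fact p.Prime] (S : Finset Nat.Primes)

/-- **INV-1 (local invariants + reciprocity).**  There are NON-ZERO linear functionals
`inv_v : H²(G_v, μ_p) → F_p` (`v ∈ S`) such that `Σ_v inv_v(loc_v y) = 0` for every global class
`y ∈ H²_S(μ_p)`.  (Any normalisation.) -/
def LocalInvRecipSpec : Prop :=
  ∃ inv : InvFamily p S, (∀ v : ↥S, inv v ≠ 0) ∧ RecipSpec inv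

/-- **INV-2 (local dimension).**  For a normal local level `W` acting trivially on `μ_p`, the
space `H²(G_v, Ind_W μ_p)` is at most one-dimensional: any two classes are linearly dependent.
(Shapiro: it is `H²(E, μ_p) = Br(E)[p] ≅ ℤ/p`, `E` the fixed field of `W`.) -/
def LocDimSpec : Prop :=
  ∀ (v : ↥S) (W : Subgroup (Gl v.1)), W ∈ (localLevels v.1).levels → W.Normal →
    (∀ s ∈ W, (muLoc p v.1).ρ s = 1) →
    ∀ x y : (localLevels v.1).H2 (indRep W (muLoc p v.1)),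
      ∃ a b : ZMod p, (a ≠ 0 ∨ b ≠ 0) ∧ a • x + b • y = 0

/-- **INV-3 (global cokernel).**  For a normal global level `U` acting trivially on `μ_p`, the
image of `H²_S(Ind_U μ_p) → ∏_{v ∈ S} H²(G_v, Ind_U μ_p)` contains the kernel of some linear
functional, i.e. it has codimension `≤ 1`.
(Classically: `H²(G_S(K), μ_p) → ⊕_{w ∈ S_K} Br(K_w)[p]` has cokernel of order `≤ p`.) -/
def GlobCokerSpec : Prop :=
  ∀ (U : Subgroup GQ), U ∈ (globalLevels S).levels → U.Normal → (∀ s ∈ U, (mu p).ρ s = 1) →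
    ∃ f : ((v : ↥S) → (localLevels v.1).H2 (Rep.res (rl v.1) (indRep U (mu p)))) →ₗ[ZMod p]
        ZMod p,
      LinearMap.ker f ≤ LinearMap.range (loc2 (hrl S) (indRep U (mu p)))

end Fermat.Agent.S55.Inv

end

end
-- ===== PACK-END S55/Inv/Spec.lean

-- ===== PACK-BEGIN S55/K/AR/Defs.lean
section
/-
S55 moonshot — LAYER K, block AR (ARITHMETIC CORE): definitions.        Architect: helper4.
Namespace `Fermat.Agent.S55.K.AR`.  No `sorry`.  Blueprint: `coord/S55-K-AR.md`.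

Vocabulary = the tower (`Spec/Tower*.lean`, `Spec/Datum3.lean`, helper55) and the tower objects
of helper474 (`E1/Lim/Obj.lean`: `sUnits L = E(F)`, `Jtot L = ∏_{q ∈ S} J_q(F)`, `C1 D L = im(J → C)`,
`diagTot`, `jTot`, `jC1`, `inclC1`, `trS`, `trJtot`, `trC1`, `ses`).

New here: cohomology of SUBGROUPS `H ≤ Gal(F/ℚ)` (relative extensions `F/K`, `K = F^H`) and the
inflation maps `Hⁿ(H, A(F)) → Hⁿ(H', A(F'))`, `H' = ` preimage of `H` in `Gal(F'/ℚ)`.
-/




set_option autoImplicit false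

open CategoryTheory

namespace Fermat.Agent.S55.K.AR

open Fermat.Agent.S55 Fermat.Agent.S55.Tow

noncomputable section

variable {S : Finset Nat.Primes}

/-! ## Cohomology of subgroups -/

section General

variable {Γ Γ' : Type} [Group Γ] [Group Γ']

/-- `Hⁿ(H, A)` for a subgroup `H ≤ Γ`. -/
abbrev Hn (H : Subgroup Γ) (A : Rep.{0} ℤ Γ) (n : ℕ) : ModuleCat.{0} ℤ :=
  groupCohomology (T.resSub A H) n

/-- The map `Hⁿ(H, A) → Hⁿ(H, B)` induced by `f : A ⟶ B`. -/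
abbrev coe (H : Subgroup Γ) {A B : Rep.{0} ℤ Γ} (f : A ⟶ B) (n : ℕ) : Hn H A n →ₗ[ℤ] Hn H B n :=
  (T.coeffMap ((Rep.resFunctor H.subtype).map f) n).hom

/-- The restriction of `π : Γ' → Γ` to the preimage of `H`. -/
abbrev projSub (π : Γ' →* Γ) (H : Subgroup Γ) : ↥(H.comap π) →* ↥H := π.subgroupComap H

/-- A semilinear map `t : Res_π A ⟶ A'` restricted to the preimage of `H`. -/
def semiSub (π : Γ' →* Γ) (H : Subgroup Γ) {A : Rep.{0} ℤ Γ} {A' : Rep.{0} ℤ Γ'}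
    (t : Rep.res π A ⟶ A') :
    Rep.res (projSub π H) (T.resSub A H) ⟶ T.resSub A' (H.comap π) :=
  E1.Lim.semiOfAdd (projSub π H) (A := T.resSub A H) (B := T.resSub A' (H.comap π))
    { toFun := fun x => t.hom x
      map_zero' := map_zero t.hom
      map_add' := map_add t.hom }
    (fun g x => Rep.hom_comm_apply t (g : Γ') x)

@[simp] lemma semiSub_apply (π : Γ' →* Γ) (H : Subgroup Γ) {A : Rep.{0} ℤ Γ}
    {A' : Rep.{0} ℤ Γ'} (t : Rep.res π A ⟶ A') (x : A.V) :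
    (semiSub π H t).hom x = t.hom x := rfl

/-- **Inflation for subgroups**: `Hⁿ(H, A) → Hⁿ(π⁻¹ H, A')` along `π : Γ' → Γ` and a semilinear
`t : Res_π A ⟶ A'`. -/
def infSub (π : Γ' →* Γ) (H : Subgroup Γ) {A : Rep.{0} ℤ Γ} {A' : Rep.{0} ℤ Γ'}
    (t : Rep.res π A ⟶ A') (n : ℕ) : Hn H A n →ₗ[ℤ] Hn (H.comap π) A' n :=
  (groupCohomology.map (projSub π H) (semiSub π H t) n).hom

/-- `x` is `p`-primary torsion. -/
def IsPPrim (p : ℕ) {A : Type} [AddCommGroup A] (x : A) : Prop := ∃ k : ℕ, p ^ k • x = 0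

end General

/-! ## The tower -/

/-- The preimage of `H ≤ Gal(F/ℚ)` in `Gal(F'/ℚ)`:  `Gal(F'/K)` for `K = F^H`. -/
abbrev up {L L' : Level S} (h : L ≤ L') (H : Subgroup L.Gal) : Subgroup L'.Gal :=
  H.comap (Level.proj h)

/-- Inflation `Hⁿ(Gal(F/K), A(F)) → Hⁿ(Gal(F'/K), A'(F'))`. -/
abbrev infUp {L L' : Level S} (h : L ≤ L') (H : Subgroup L.Gal) {A : Rep.{0} ℤ L.Gal}
    {A' : Rep.{0} ℤ L'.Gal} (t : Rep.res (Level.proj h) A ⟶ A') (n : ℕ) :
    Hn H A n →ₗ[ℤ] Hn (up h H) A' n :=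
  infSub (Level.proj h) H t n

/-- The inclusion of the factor `J_q(F)` into `J(F) = ∏_{q ∈ S} J_q(F)`. -/
def inclJ (L : Level S) (q : S) : L.J q.1 ⟶ E1.Lim.Jtot L :=
  E1.Lim.homOfAdd
    { toFun := fun x => E1.Lim.piOf (A := fun q : S => L.J q.1)
        (Pi.single (M := fun q : S => (L.J q.1).V) q x)
      map_zero' := by
        refine E1.Lim.piRep_ext fun q' => ?_
        show (Pi.single (M := fun q : S => (L.J q.1).V) q 0) q' = 0
        rw [Pi.single_zero]; rfl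
      map_add' := fun x y => by
        refine E1.Lim.piRep_ext fun q' => ?_
        show (Pi.single (M := fun q : S => (L.J q.1).V) q (x + y)) q' =
          (Pi.single (M := fun q : S => (L.J q.1).V) q x) q' +
            (Pi.single (M := fun q : S => (L.J q.1).V) q y) q'
        rw [Pi.single_add]; rfl }
    (fun g x => by
      refine E1.Lim.piRep_ext fun q' => ?_
      show (Pi.single (M := fun q : S => (L.J q.1).V) q ((L.J q.1).ρ g x)) q' =
        (L.J q'.1).ρ g ((Pi.single (M := fun q : S => (L.J q.1).V) q x) q')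
      by_cases hq : q' = q
      · subst hq
        rw [Pi.single_eq_same, Pi.single_eq_same]
      · rw [Pi.single_eq_of_ne hq, Pi.single_eq_of_ne hq, map_zero])

lemma piTo_inclJ_same (L : Level S) (q : S) (x : (L.J q.1).V) :
    E1.Lim.piTo ((inclJ L q).hom x) q = x := by
  show (Pi.single (M := fun q : S => (L.J q.1).V) q x) q = x
  rw [Pi.single_eq_same]

lemma piTo_inclJ_of_ne (L : Level S) {q q' : S} (h : q' ≠ q) (x : (L.J q.1).V) :
    E1.Lim.piTo ((inclJ L q).hom x) q' = 0 := by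
  show (Pi.single (M := fun q : S => (L.J q.1).V) q x) q' = 0
  rw [Pi.single_eq_of_ne h]

/-- `j ∘ incl_q = j_q`. -/
lemma jTot_inclJ (D : TowerDatum S) (L : Level S) (q : S) (x : (L.J q.1).V) :
    (E1.Lim.jTot D L).hom ((inclJ L q).hom x) = (D.j L q.1).hom x := by
  classical
  rw [E1.Lim.jTot_apply, Finset.sum_eq_single q]
  · rw [piTo_inclJ_same]
  · intro q' _ hq'
    rw [piTo_inclJ_of_ne L hq', map_zero]
  · intro h
    exact absurd (Finset.mem_univ q) h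

end

end Fermat.Agent.S55.K.AR

end
-- ===== PACK-END S55/K/AR/Defs.lean

-- ===== PACK-BEGIN S56/FL/ShapeSpec.lean
section


/-!
# Row S56 — W-FLAT-SS, piece RAMCOUNT: FROZEN statements `RLCyc` and `RCShape`
(sub-architect helper426).  Pure algebra, Mathlib only.  Nothing unproved in this file.

These are the last two inputs of the bridge `FL/CntBridge.lean`
(`RCDepStatement ⇐ H846.FLCntStatement + H846.FLCycStatement + RL* + RLCyc + RCShape`).

* `RCDatum.TameData d τ₀ φ μ` : the conclusion of `RLTameStatement` for given `τ₀ φ μ`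
  (tame generator, Frobenius lift, tame character value `μ = θ₀(τ₀)`).
* `RLCycStatement` : the mod-`p` cyclotomic character has exact order `p - 1` on tame inertia:
  if `τ₀ ^ j • ζ = ζ ^ a` then `a ≡ 1 [MOD p] ↔ p - 1 ∣ j`.
  (Proof: `v_B(ζ - 1) = e / (p - 1) =: s`, `σ(ζ - 1)/(ζ - 1) ≡ a`, and `≡ θ₀(σ) ^ s` for `σ ∈ Γ₀`;
  `e = |Γ₀| = e₀ p ^ r` with `e₀ = ord μ`, so `μ ^ s` has exact order `p - 1`.)
* `RCShapeStatement` : the shape of `ρ` and of `Ad ρ` on trace-zero endomorphisms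
  (the supersingular structure theorem, linear algebra + arithmetic of the orders):
  in the eigenbasis `v₁, v₂` of `ρ τ₀ = diag(χ, χ')`, with `ρ φ` antidiagonal,
  `ℓ₁ z = z₁₁`, `ℓp z = z₁₂`, `ℓm z = z₂₁`, `ψ₀ = χ / χ'`, `m = ord ψ₀`.
  (`χ' = χ ^ p`, `χ = χ' ^ p`, `det ρ τ₀ = χ ^ (p + 1)` of exact order `p - 1` by `hcyc`, so
  `ord χ = (p - 1) m`, `m ∣ p + 1`, `(p + 1) / m` odd.)
-/

set_option autoImplicit false

open Polynomial IsLocalRing

noncomputable section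

namespace Fermat.Agent.S56.FL

namespace RCDatum

/-- The conclusion of `RLTameStatement` for given `τ₀ φ μ`. -/
def TameData (d : RCDatum) (τ₀ φ : d.Γ) (μ : ResidueField d.B) : Prop :=
  τ₀ ∈ ramGroup d.B d.Γ 0 ∧
    (∀ σ ∈ ramGroup d.B d.Γ 0, ∃ j : ℕ, σ * (τ₀ ^ j)⁻¹ ∈ ramGroup d.B d.Γ 1) ∧
    (∀ j : ℕ, τ₀ ^ j ∈ ramGroup d.B d.Γ 1 ↔ μ ^ j = 1) ∧
    (∀ ϖ : d.B, Irreducible ϖ → ∀ u : d.B, τ₀ • ϖ = u * ϖ → residue d.B u = μ) ∧
    (∀ x : d.B, residue d.B (φ • x) = residue d.B x ^ d.p) ∧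
    (∀ σ : d.Γ, ∃ j : ℕ, σ * (φ ^ j)⁻¹ ∈ ramGroup d.B d.Γ 0) ∧
    φ * τ₀ * φ⁻¹ * (τ₀ ^ d.p)⁻¹ ∈ ramGroup d.B d.Γ 1

end RCDatum

/-- `RLTameStatement` produces `TameData`. -/
theorem exists_tameData (h : RLTameStatement) (d : RCDatum) :
    ∃ (τ₀ φ : d.Γ) (μ : ResidueField d.B), d.TameData τ₀ φ μ := by
  obtain ⟨τ₀, hτ₀, φ, μ, h1, h2, h3, h4, h5, h6⟩ := h d
  exact ⟨τ₀, φ, μ, hτ₀, h1, h2, h3, h4, h5, h6⟩

/-- (RL-CYC) the mod-`p` cyclotomic character has exact order `p - 1` on tame inertia. -/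
def RLCycStatement : Prop :=
  ∀ d : RCDatum, IsPGroup d.p (ramGroup d.B d.Γ 1) →
    d.e = Nat.card (ramGroup d.B d.Γ 0) →
    ∀ (τ₀ φ : d.Γ) (μ : ResidueField d.B), d.TameData τ₀ φ μ →
      ∀ j a : ℕ, τ₀ ^ j • d.ζ = d.ζ ^ a → (a ≡ 1 [MOD d.p] ↔ d.p - 1 ∣ j)

/-- (SHAPE) the supersingular structure theorem for `ρ` and `Ad ρ`. -/
def RCShapeStatement : Prop :=
  ∀ d : RCDatum, ¬ d.p ∣ d.ρ.ker.index →
    IsPGroup d.p (ramGroup d.B d.Γ 1) →
    ∀ (τ₀ φ : d.Γ) (μ : ResidueField d.B), d.TameData τ₀ φ μ →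
      (∀ j a : ℕ, τ₀ ^ j • d.ζ = d.ζ ^ a → (a ≡ 1 [MOD d.p] ↔ d.p - 1 ∣ j)) →
      ∃ (ℓ₁ ℓp ℓm : Module.End d.k d.V →ₗ[d.k] d.k) (ψ₀ a b : d.k) (m : ℕ),
        (∀ z : Module.End d.k d.V, LinearMap.trace d.k d.V z = 0 →
          ℓ₁ z = 0 → ℓp z = 0 → ℓm z = 0 → z = 0) ∧
        (∀ z, ℓ₁ (d.ρ τ₀ * z * d.ρ τ₀⁻¹) = ℓ₁ z) ∧
        (∀ z, ℓp (d.ρ τ₀ * z * d.ρ τ₀⁻¹) = ψ₀ * ℓp z) ∧
        (∀ z, ℓm (d.ρ τ₀ * z * d.ρ τ₀⁻¹) = ψ₀⁻¹ * ℓm z) ∧
        (∀ z, LinearMap.trace d.k d.V z = 0 → ℓ₁ (d.ρ φ * z * d.ρ φ⁻¹) = - ℓ₁ z) ∧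
        (∀ z, ℓp (d.ρ φ * z * d.ρ φ⁻¹) = a * ℓm z) ∧
        (∀ z, ℓm (d.ρ φ * z * d.ρ φ⁻¹) = b * ℓp z) ∧
        m ∣ d.p + 1 ∧ Odd ((d.p + 1) / m) ∧
        (∀ j : ℕ, d.ρ (τ₀ ^ j) = 1 ↔ (d.p - 1) * m ∣ j) ∧
        (∀ j : ℕ, ψ₀ ^ j = 1 ↔ m ∣ j) ∧
        Nat.card (ramGroup d.B d.Γ 0) =
          (d.p - 1) * m * Nat.card (d.ρ.ker ⊓ ramGroup d.B d.Γ 0 : Subgroup d.Γ)

end Fermat.Agent.S56.FL

end

end
-- ===== PACK-END S56/FL/ShapeSpec.lean

-- ===== PACK-BEGIN S56/FL/Top.lean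
section



/-!
# Row S56 — leaf LOC-FLAT of TB layer 2: `LocFlatPStatement ⇐ FlatSS + FlatO` (helper426)

* `FlatOStatement` (FLAT-O, ordinary case): `H716.LocFlatPStatement` under the extra hypothesis
  that `ρ̄|_{D_P}` is reducible (there is a `D_P`-stable line).  Sub-architects helper66 / helper6.
* `FlatSSStatement` (W-FLAT-SS, supersingular case): `FL/Spec.lean`.
* `locFlatP_of : FlatSSStatement → FlatOStatement → H716.LocFlatPStatement`  — PROVED here.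

Sorry-free.
-/

set_option autoImplicit false

open Polynomial IsLocalRing

noncomputable section

namespace Fermat.Agent.S56.FL

open Fermat.Agent.S56 Fermat.Agent.S56.H716

/-- **FLAT-O**: the flat local tangent bound at `p` when `ρ̄|_{D_P}` is reducible. -/
def FlatOStatement : Prop :=
  ∀ (𝒪 : Type) [CommRing 𝒪] [IsDomain 𝒪] [IsDiscreteValuationRing 𝒪]
    [IsAdicComplete (maximalIdeal 𝒪) 𝒪] [Finite (ResidueField 𝒪)]
    (p : ℕ) (ρbar : ResidualGaloisRep (ResidueField 𝒪)) (S Smin : Finset ℕ),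
    Hyp 𝒪 p ρbar S Smin →
      ∀ P : ValuationSubring Qb, P.LiesOverPrime p →
        (∃ U : Submodule (ResidueField 𝒪) ρbar.V, U ≠ ⊥ ∧ U ≠ ⊤ ∧
          ∀ σ ∈ P.decompositionSubgroup ℚ, ∀ x ∈ U, ρbar.ρ σ x ∈ U) →
        LocalBoundAt ρbar P (fun ρ' => ρ'.DetIsCyclotomic p ∧ ρ'.IsFlatAt p) 1

/-- `DetIsCyclotomic` in the `IsCycExp` form. -/
theorem det_eq_natCast_of_isCycExp {k : Type} [Field k] {p : ℕ} {ρbar : ResidualGaloisRep k}
    (hdet : (GaloisRepAdic.ofResidualGaloisRep ρbar).DetIsCyclotomic p) {σ : GQ} {a : ℕ}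
    (h : IsCycExp p σ a) : LinearMap.det (ρbar.ρ σ) = (a : k) := by
  have hp0 : (p : k) = 0 := by
    have h := hdet.1
    rwa [IsLocalRing.maximalIdeal_eq_bot, Ideal.mem_bot] at h
  have h1 := hdet.2 1 σ a (fun μ hμ => h μ (by simpa using hμ))
  have h0 : ((p ^ 1 : ℕ) : k) = 0 := by simpa using hp0
  rw [h0, Ideal.mem_span_singleton, zero_dvd_iff, sub_eq_zero] at h1
  exact h1

/-- LOC-FLAT from the supersingular and the ordinary case. -/
theorem locFlatP_of (hSS : FlatSSStatement) (hO : FlatOStatement) : LocFlatPStatement := by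
  intro 𝒪 _ _ _ _ _ p ρbar S Smin H P hP
  by_cases hred : ∃ U : Submodule (ResidueField 𝒪) ρbar.V, U ≠ ⊥ ∧ U ≠ ⊤ ∧
      ∀ σ ∈ P.decompositionSubgroup ℚ, ∀ x ∈ U, ρbar.ρ σ x ∈ U
  · exact hO 𝒪 p ρbar S Smin H P hP hred
  -- supersingular case
  have hirr : ∀ U : Submodule (ResidueField 𝒪) ρbar.V,
      (∀ σ ∈ P.decompositionSubgroup ℚ, ∀ x ∈ U, ρbar.ρ σ x ∈ U) → U = ⊥ ∨ U = ⊤ := by
    intro U hU
    by_contra hcon
    rw [not_or] at hcon
    exact hred ⟨U, hcon.1, hcon.2, hU⟩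
  have : Fact p.Prime := ⟨H.hp⟩
  have hp0 : (p : ResidueField 𝒪) = 0 := by
    have h := H.hdet.1
    rwa [IsLocalRing.maximalIdeal_eq_bot, Ideal.mem_bot] at h
  have hchar : CharP (ResidueField 𝒪) p := (CharP.charP_iff_prime_eq_zero H.hp).2 hp0
  have hdet : ∀ (σ : GQ) (a : ℕ), IsCycExp p σ a →
      LinearMap.det (ρbar.ρ σ) = (a : ResidueField 𝒪) :=
    fun σ a h => det_eq_natCast_of_isCycExp H.hdet h
  set D := P.decompositionSubgroup ℚ with hDdef
  set Ty : GaloisRepAdic (DualNumber (ResidueField 𝒪)) → Prop :=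
    fun ρ' => ρ'.DetIsCyclotomic p ∧ ρ'.IsFlatAt p with hTy
  by_cases hex : ∃ c₀ : GQ → Module.End (ResidueField 𝒪) ρbar.V, IsAdCocycle ρbar c₀ ∧
      (∃ ρ' : GaloisRepAdic (DualNumber (ResidueField 𝒪)), IsLiftOf ρbar c₀ ρ' ∧ Ty ρ') ∧
      ¬ IsAdCoboundaryOn ρbar D c₀
  · obtain ⟨c₀, hc₀, ⟨ρ₀, hl₀, hT₀⟩, hnc⟩ := hex
    refine ⟨Submodule.span (ResidueField 𝒪) {c₀}, inferInstance, ?_, ?_⟩
    · refine le_trans (finrank_span_le_card ({c₀} : Set _)) ?_
      simp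
    · intro c hc ⟨ρ', hl, hT⟩
      obtain ⟨a₁, a₂, ha, m, hm⟩ := hSS (ResidueField 𝒪) p H.hp2 hchar ρbar hdet H.hsplit P hP
        hirr c₀ c hc₀ hc ρ₀ ρ' hl₀ hl hT₀.2 hT.2
      have ha₂ : a₂ ≠ 0 := by
        intro h0
        have ha₁ : a₁ ≠ 0 := by
          rcases ha with h | h
          · exact h
          · exact absurd h0 h
        apply hnc
        refine ⟨a₁⁻¹ • m, fun σ hσ => ?_⟩
        have := hm σ hσ
        rw [h0, zero_smul, add_zero] at this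
        calc c₀ σ = a₁⁻¹ • (a₁ • c₀ σ) := by rw [smul_smul, inv_mul_cancel₀ ha₁, one_smul]
          _ = a₁⁻¹ • (ρbar.ρ σ * m * ρbar.ρ σ⁻¹ - m) := by rw [this]
          _ = ρbar.ρ σ * (a₁⁻¹ • m) * ρbar.ρ σ⁻¹ - a₁⁻¹ • m := by
            rw [smul_sub, mul_smul_comm, smul_mul_assoc]
      refine ⟨(-(a₂⁻¹ * a₁)) • c₀, Submodule.smul_mem _ _ (Submodule.mem_span_singleton_self c₀),
        a₂⁻¹ • m, fun σ hσ => ?_⟩
      have := hm σ hσ
      have h2 : c σ = a₂⁻¹ • (ρbar.ρ σ * m * ρbar.ρ σ⁻¹ - m) - (a₂⁻¹ * a₁) • c₀ σ := by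
        rw [← this, smul_add, smul_smul, smul_smul, inv_mul_cancel₀ ha₂, one_smul]
        abel
      show c σ - (-(a₂⁻¹ * a₁)) • c₀ σ = _
      rw [h2, smul_sub, mul_smul_comm, smul_mul_assoc, neg_smul]
      abel
  · refine ⟨⊥, inferInstance, by simp, ?_⟩
    intro c hc hl
    refine ⟨0, Submodule.zero_mem _, ?_⟩
    rw [sub_zero]
    by_contra hcon
    exact hex ⟨c, hc, hl, hcon⟩

end Fermat.Agent.S56.FL

end

end
-- ===== PACK-END S56/FL/Top.lean

-- ===== PACK-BEGIN S56/H194/RCTame.lean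
section




/-!
# S56 / W-FLAT-SS, leaf RCTame (helper194)

`rcTame_of : RLWildStatement → RLTameStatement → RCTameStatement`:
for an `RCDatum` the image of `ρ` has order prime to `p` (`p ∤ [Γ : ker ρ]`).

Proof: the abstract structure theorem `SS.Hyp.structure_thm` (`SSAbs.lean`, `SSAd.lean`) for
`D = Γ`, `I = Γ₀`, `W = Γ₁`, Frobenius lift `φ`; its hypotheses are exactly the frozen
ramification lemmas (RL-A) `Γ₁` is a `p`-group and (RL-C) tame generator / Frobenius lift.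
Then every `ρ σ` is monomial in a basis, `ρ σ ^ (2 (|k| - 1)) = 1`, and Cauchy.
-/

set_option autoImplicit false

open Polynomial IsLocalRing

namespace Fermat.Agent.S56.H194

open Fermat.Agent.S56.FL

section Ram

variable {B Γ : Type} [CommRing B] [IsLocalRing B] [Group Γ] [MulSemiringAction Γ B]

theorem smul_mem_maximalIdeal_pow (g : Γ) (n : ℕ) {x : B} (hx : x ∈ maximalIdeal B ^ n) :
    g • x ∈ maximalIdeal B ^ n := by
  have hmap : (maximalIdeal B).map (MulSemiringAction.toRingHom Γ B g) ≤ maximalIdeal B := by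
    rw [Ideal.map_le_iff_le_comap]
    intro y hy
    rw [Ideal.mem_comap, mem_maximalIdeal, mem_nonunits_iff] at *
    intro hu
    apply hy
    have := hu.map (MulSemiringAction.toRingHom Γ B g⁻¹)
    simpa using this
  have h1 : g • x ∈ (maximalIdeal B ^ n).map (MulSemiringAction.toRingHom Γ B g) :=
    Ideal.mem_map_of_mem _ hx
  rw [Ideal.map_pow] at h1
  exact Ideal.pow_right_mono hmap n h1

theorem ramGroup_conj_mem (n : ℕ) (g : Γ) {σ : Γ} (hσ : σ ∈ ramGroup B Γ n) :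
    g * σ * g⁻¹ ∈ ramGroup B Γ n := by
  rw [mem_ramGroup] at hσ ⊢
  intro x
  have h := smul_mem_maximalIdeal_pow g (n + 1) (hσ (g⁻¹ • x))
  rwa [smul_sub, smul_inv_smul, ← mul_smul, ← mul_smul] at h

theorem ramGroup_normal (n : ℕ) : (ramGroup B Γ n).Normal :=
  ⟨fun _ hσ g => ramGroup_conj_mem n g hσ⟩

theorem ramGroup_one_le_zero : ramGroup B Γ 1 ≤ ramGroup B Γ 0 := by
  intro σ hσ
  rw [mem_ramGroup] at hσ ⊢
  intro x
  exact Ideal.pow_le_pow_right (by norm_num) (hσ x)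

end Ram

theorem natCast_p_mem_maximalIdeal (d : RCDatum) : (d.p : d.B) ∈ maximalIdeal d.B := by
  have hmax : ((maximalIdeal d.B).comap (algebraMap d.A d.B)).IsMaximal :=
    Ideal.isMaximal_comap_of_isIntegral_of_isMaximal _
  have heq := IsLocalRing.eq_maximalIdeal hmax
  have hp : (d.p : d.A) ∈ maximalIdeal d.A := by
    rw [d.hA]; exact Ideal.mem_span_singleton_self _
  rw [← heq, Ideal.mem_comap, map_natCast] at hp
  exact hp

theorem charP_residueField (d : RCDatum) : CharP (ResidueField d.B) d.p := by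
  have h0 : ((d.p : ℕ) : ResidueField d.B) = 0 := by
    have := (residue_eq_zero_iff _).mpr (natCast_p_mem_maximalIdeal d)
    rwa [map_natCast] at this
  have hdvd : ringChar (ResidueField d.B) ∣ d.p := (ringChar.spec _ _).mp h0
  rcases (Nat.dvd_prime d.hp).mp hdvd with h1 | hp
  · exact absurd h1 CharP.ringChar_ne_one
  · exact ringChar.of_eq hp

/-- The hypotheses of the abstract (SS) statement hold for an `RCDatum`, given the frozen
ramification lemmas (RL-A) and (RL-C). -/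
theorem exists_hyp_of (hW : RLWildStatement) (hT : RLTameStatement) (d : RCDatum) :
    ∃ φ : d.Γ, SS.Hyp d.p d.ρ ⊤ (ramGroup d.B d.Γ 0) (ramGroup d.B d.Γ 1) φ := by
  obtain ⟨τ₀, hτ₀, φ, μ, hgen₀, hμ, hu, -, hgenφ, hfrob⟩ := hT d
  have : Fact d.p.Prime := ⟨d.hp⟩
  have := charP_residueField d
  have hnorm : (ramGroup d.B d.Γ 1).Normal := ramGroup_normal 1
  set W := ramGroup d.B d.Γ 1 with hWdef
  set I := ramGroup d.B d.Γ 0 with hIdef
  -- the quotient map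
  let q : d.Γ →* d.Γ ⧸ W := QuotientGroup.mk' W
  have hq1 : ∀ σ : d.Γ, q σ = 1 ↔ σ ∈ W := fun σ => QuotientGroup.eq_one_iff σ
  have hqI : ∀ σ ∈ I, ∃ j : ℕ, q σ = q τ₀ ^ j := by
    intro σ hσ
    obtain ⟨j, hj⟩ := hgen₀ σ hσ
    refine ⟨j, ?_⟩
    have := (hq1 _).mpr hj
    rw [map_mul, map_inv, map_pow, mul_inv_eq_one] at this
    exact this
  -- a prime-to-`p` exponent killing the tame quotient
  have hN : ∃ N : ℕ, ¬ d.p ∣ N ∧ q τ₀ ^ N = 1 := by
    have hord : orderOf τ₀ ≠ 0 := (orderOf_pos τ₀).ne'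
    obtain ⟨a, N, hpN, hN⟩ := Nat.exists_eq_pow_mul_and_not_dvd hord d.p d.hp.ne_one
    refine ⟨N, hpN, ?_⟩
    have h1 : μ ^ orderOf τ₀ = 1 := by
      rw [← hμ, pow_orderOf_eq_one]
      exact one_mem _
    rw [hN, ExpChar.pow_prime_pow_mul_eq_one_iff] at h1
    rw [← map_pow, hq1]
    exact (hμ N).mpr h1
  obtain ⟨N, hpN, hN⟩ := hN
  refine ⟨φ, ?_⟩
  refine
    { finrank_eq := d.hV
      I_le := le_top
      W_le := ramGroup_one_le_zero
      I_norm := fun g _ τ hτ => ramGroup_conj_mem 0 g hτ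
      W_norm := fun g _ w hw => ramGroup_conj_mem 1 g hw
      W_pow := ?_
      comm := ?_
      tame := ?_
      phi_mem := Subgroup.mem_top φ
      gen := ?_
      frob := ?_
      split := d.hsplit
      irr := fun U hU => d.hirr U (fun σ x hx => hU σ (Subgroup.mem_top σ) x hx) }
  · -- `W` is a `p`-group
    intro w hw
    obtain ⟨a, ha⟩ := hW d ⟨w, hw⟩
    refine ⟨a, ?_⟩
    have : w ^ d.p ^ a = 1 := by
      have := congrArg Subtype.val ha
      simpa using this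
    rw [← map_pow, this, map_one]
  · -- commutators of inertia elements are wild
    intro σ hσ τ hτ
    obtain ⟨i, hi⟩ := hqI σ hσ
    obtain ⟨j, hj⟩ := hqI τ hτ
    refine ⟨σ * τ * σ⁻¹ * τ⁻¹, ?_, rfl⟩
    rw [← hq1, map_mul, map_mul, map_mul, map_inv, map_inv, hi, hj]
    rw [mul_inv_eq_one, mul_inv_eq_iff_eq_mul, ← pow_add, ← pow_add, add_comm]
  · -- tameness
    intro τ hτ
    obtain ⟨j, hj⟩ := hqI τ hτ
    refine ⟨N, hpN, τ ^ N, ?_, rfl⟩
    rw [← hq1, map_pow, hj, ← pow_mul, mul_comm, pow_mul, hN, one_pow]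
  · -- generation by Frobenius and inertia
    intro σ _
    obtain ⟨j, hj⟩ := hgenφ σ
    refine ⟨j, (φ ^ j)⁻¹ * (σ * (φ ^ j)⁻¹) * φ ^ j, ?_, ?_⟩
    · have := ramGroup_conj_mem 0 (φ ^ j)⁻¹ hj
      rwa [inv_inv] at this
    · congr 1
      group
  · -- the Frobenius relation
    intro τ hτ
    obtain ⟨j, hj⟩ := hqI τ hτ
    have hφτ₀ : q φ * q τ₀ * (q φ)⁻¹ = q τ₀ ^ d.p := by
      have := (hq1 _).mpr hfrob
      rw [map_mul, map_mul, map_mul, map_inv, map_inv, map_pow, mul_inv_eq_one] at this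
      exact this
    have hmem : (τ ^ d.p)⁻¹ * (φ * τ * φ⁻¹) ∈ W := by
      rw [← hq1, map_mul, map_inv, map_pow, map_mul, map_mul, map_inv, hj, inv_mul_eq_one,
        ← conj_pow, hφτ₀, ← pow_mul, ← pow_mul, mul_comm]
    refine ⟨_, hmem, ?_⟩
    congr 1
    group

/-- **RCTame** from the frozen ramification lemmas (RL-A) and (RL-C). -/
theorem rcTame_of (hW : RLWildStatement) (hT : RLTameStatement) : RCTameStatement := by
  intro d
  obtain ⟨φ, hyp⟩ := exists_hyp_of hW hT d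
  have : Fact d.p.Prime := ⟨d.hp⟩
  have := d.hchar
  obtain ⟨N, hpN, hN⟩ := hyp.exists_exponent d.hp2
  have hne := IR.natCast_card_quotient_ne_zero (k := d.k) d.p d.ρ.ker N hpN (fun σ => by
    rw [MonoidHom.mem_ker, map_pow]
    exact hN σ (Subgroup.mem_top σ))
  intro hdvd
  apply hne
  rw [← Subgroup.index_eq_card]
  exact (CharP.cast_eq_zero_iff d.k d.p _).mpr hdvd

end Fermat.Agent.S56.H194

end
-- ===== PACK-END S56/H194/RCTame.lean

-- ===== PACK-BEGIN S56/P3/H306/Final.lean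
section





/-!
# S56 / P3 : assembly from the five remaining leaves (helper306)

`twElement_of_leaves : SPAN → IRR → (SPAN → REG) → CYC → DETORD →
  Fermat.Agent.S56.TWElementStatement`
-/

set_option autoImplicit false

namespace Fermat.Agent.S56.P3.H306

open Fermat.Agent.S56.P3

/-- (CYCEXP) from helper14's `exists_isCycExp`. -/
theorem cycExpExists : CycExpExistsStatement := fun p hp σ =>
  Fermat.Agent.S56.H14.exists_isCycExp p hp.out.pos σ

/-- **P3 from the five remaining leaves** SPAN, IRR, REG, CYC, DETORD. -/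
theorem twElement_of_leaves (hspan : SpanDeltaStatement) (hirr : Ad0IrreducibleStatement)
    (hreg : SpanDeltaStatement → ExistsRegularStatement) (hcyc : CycloQuotientStatement)
    (hord : DetOrderStatement) : Fermat.Agent.S56.TWElementStatement :=
  twElement_of_pieces (sel (h1_of_span hspan) hirr (hreg hspan)) (hreg hspan) hcyc
    cycExpExists hord

end Fermat.Agent.S56.P3.H306

end
-- ===== PACK-END S56/P3/H306/Final.lean

-- ===== PACK-BEGIN S56/H606/UnrBound.lean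
section



/-!
# S56 / LOC-MIN-B (helper606): the unramified local bound

`ρbar : ResidualGaloisRep k`, `P` a valuation subring of `ℚ̄` over a prime `q`, `φ` a Frobenius
element at `P`.  If every ad⁰-cocycle of local type `Ty` is a coboundary on the inertia group
`I_P`, then the local tangent bound with defect `0` holds at `P`
(`H716.LocalBoundAt ρbar P Ty 0`): the classes on `D_P` of these cocycles are unramified, and
`dim H¹_ur(D_P, ad⁰ρ̄) = dim coker(φ − 1 | (ad⁰)^{I_P}) = dim ker(φ − 1 | (ad⁰)^{I_P}) = h⁰(D_P)`.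

The structure of the decomposition group enters through the landed
`exists_frobenius_pow_mul_inertia` (`H606/Gen.lean`): modulo any finite level, `D_P = ⟨φ⟩ I_P`.

Main results (namespace `Fermat.Agent.S56.H606`):
* `isAdCocycle_cob`, `isAdCocycle_sub`, … : the ad⁰-cocycles form a `k`-space containing the
  coboundaries;
* `apply_frobenius_mem_adInv` : an ad⁰-cocycle vanishing on `I_P` has `c φ ∈ (ad⁰)^{I_P}`;
* `eq_zero_on_decomposition` : an ad⁰-cocycle vanishing on `I_P` and at `φ` vanishes on `D_P`;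
* `mem_adInv_decomposition` : `(ad⁰)^{I_P} ∩ ker(φ − 1) = (ad⁰)^{D_P}`;
* `exists_unramified_space`, `localBoundAt_zero_of_frobenius` : the local bound.
-/

set_option autoImplicit false
set_option linter.style.haveILetI false

open Polynomial

noncomputable section

namespace Fermat.Agent.S56.H606

open Fermat.Agent.S56 Fermat.Agent.S56.H716

variable {k : Type} [Field k] (ρbar : ResidualGaloisRep k)

/-! ## 1. Conjugation and coboundaries -/

theorem rho_mul_inv (σ : GQ) : ρbar.ρ σ * ρbar.ρ σ⁻¹ = 1 := by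
  rw [← map_mul, mul_inv_cancel, map_one]

theorem rho_inv_mul (σ : GQ) : ρbar.ρ σ⁻¹ * ρbar.ρ σ = 1 := by
  rw [← map_mul, inv_mul_cancel, map_one]

/-- Conjugation by a product. -/
theorem conj_mul (σ τ : GQ) (m : Module.End k ρbar.V) :
    ρbar.ρ (σ * τ) * m * ρbar.ρ (σ * τ)⁻¹ =
      ρbar.ρ σ * (ρbar.ρ τ * m * ρbar.ρ τ⁻¹) * ρbar.ρ σ⁻¹ := by
  rw [mul_inv_rev, map_mul, map_mul]
  simp only [mul_assoc]

/-- Conjugation by the identity. -/
theorem conj_one (m : Module.End k ρbar.V) :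
    ρbar.ρ (1 : GQ) * m * ρbar.ρ (1 : GQ)⁻¹ = m := by
  rw [inv_one, map_one, one_mul, mul_one]

/-- Conjugation preserves the trace. -/
theorem trace_conj (σ : GQ) (m : Module.End k ρbar.V) :
    LinearMap.trace k ρbar.V (ρbar.ρ σ * m * ρbar.ρ σ⁻¹) = LinearMap.trace k ρbar.V m := by
  rw [LinearMap.trace_mul_comm, ← mul_assoc, rho_inv_mul, one_mul]

/-- Conjugation of a difference. -/
theorem conj_sub (σ : GQ) (a b : Module.End k ρbar.V) :
    ρbar.ρ σ * (a - b) * ρbar.ρ σ⁻¹ =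
      ρbar.ρ σ * a * ρbar.ρ σ⁻¹ - ρbar.ρ σ * b * ρbar.ρ σ⁻¹ := by
  rw [mul_sub, sub_mul]

/-- Conjugation of a sum. -/
theorem conj_add (σ : GQ) (a b : Module.End k ρbar.V) :
    ρbar.ρ σ * (a + b) * ρbar.ρ σ⁻¹ =
      ρbar.ρ σ * a * ρbar.ρ σ⁻¹ + ρbar.ρ σ * b * ρbar.ρ σ⁻¹ := by
  rw [mul_add, add_mul]

/-- Conjugation of zero. -/
theorem conj_zero (σ : GQ) :
    ρbar.ρ σ * (0 : Module.End k ρbar.V) * ρbar.ρ σ⁻¹ = 0 := by
  rw [mul_zero, zero_mul]

/-- Conjugation of a scalar multiple. -/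
theorem conj_smul (σ : GQ) (r : k) (a : Module.End k ρbar.V) :
    ρbar.ρ σ * (r • a) * ρbar.ρ σ⁻¹ = r • (ρbar.ρ σ * a * ρbar.ρ σ⁻¹) := by
  rw [mul_smul_comm, smul_mul_assoc]

/-- The coboundary of `m`. -/
def cob (m : Module.End k ρbar.V) : GQ → Module.End k ρbar.V :=
  fun σ => ρbar.ρ σ * m * ρbar.ρ σ⁻¹ - m

theorem cob_apply (m : Module.End k ρbar.V) (σ : GQ) :
    cob ρbar m σ = ρbar.ρ σ * m * ρbar.ρ σ⁻¹ - m := rfl

/-- Coboundaries are ad⁰-cocycles. -/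
theorem isAdCocycle_cob (m : Module.End k ρbar.V) : IsAdCocycle ρbar (cob ρbar m) := by
  refine ⟨fun σ => ?_, fun σ τ => ?_, ?_⟩
  · rw [cob_apply, map_sub, trace_conj, sub_self]
  · rw [cob_apply, cob_apply, cob_apply, conj_mul, conj_sub]
    abel
  · obtain ⟨L, hL, h⟩ := ρbar.factorsThroughFiniteLevel
    refine ⟨L, hL, fun σ τ hτ => ?_⟩
    rw [cob_apply, cob_apply, conj_mul, conj_of_eq_one ρbar (h τ hτ)]
where
  conj_of_eq_one (ρbar : ResidualGaloisRep k) {τ : GQ} (h : ρbar.ρ τ = 1)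
      {m : Module.End k ρbar.V} : ρbar.ρ τ * m * ρbar.ρ τ⁻¹ = m := by
    have h' : ρbar.ρ τ⁻¹ = 1 := by
      have := rho_inv_mul ρbar τ
      rwa [h, mul_one] at this
    rw [h, h', one_mul, mul_one]

variable {ρbar}

theorem adCocycle_apply_one {c : GQ → Module.End k ρbar.V} (hc : IsAdCocycle ρbar c) :
    c 1 = 0 := by
  have h := hc.map_mul 1 1
  rw [mul_one, conj_one] at h
  exact left_eq_add.mp h

theorem isAdCocycle_zero : IsAdCocycle ρbar (0 : GQ → Module.End k ρbar.V) := by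
  refine ⟨fun σ => ?_, fun σ τ => ?_, ⟨⊥, inferInstance, fun σ τ _ => rfl⟩⟩
  · rw [Pi.zero_apply, map_zero]
  · rw [Pi.zero_apply, Pi.zero_apply, Pi.zero_apply, conj_zero, add_zero]

theorem isAdCocycle_add {c c' : GQ → Module.End k ρbar.V} (hc : IsAdCocycle ρbar c)
    (hc' : IsAdCocycle ρbar c') : IsAdCocycle ρbar (c + c') := by
  refine ⟨fun σ => ?_, fun σ τ => ?_, ?_⟩
  · rw [Pi.add_apply, map_add, hc.trace_eq_zero, hc'.trace_eq_zero, add_zero]
  · rw [Pi.add_apply, Pi.add_apply, Pi.add_apply, hc.map_mul, hc'.map_mul, conj_add]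
    abel
  · obtain ⟨L, hL, h⟩ := hc.level
    obtain ⟨L', hL', h'⟩ := hc'.level
    refine ⟨L ⊔ L', IntermediateField.finiteDimensional_sup L L', fun σ τ hτ => ?_⟩
    rw [Pi.add_apply, Pi.add_apply,
      h σ τ (fun x hx => hτ x ((le_sup_left : L ≤ L ⊔ L') hx)),
      h' σ τ (fun x hx => hτ x ((le_sup_right : L' ≤ L ⊔ L') hx))]

theorem isAdCocycle_smul {c : GQ → Module.End k ρbar.V} (hc : IsAdCocycle ρbar c) (r : k) :
    IsAdCocycle ρbar (r • c) := by
  refine ⟨fun σ => ?_, fun σ τ => ?_, ?_⟩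
  · rw [Pi.smul_apply, map_smul, hc.trace_eq_zero, smul_zero]
  · rw [Pi.smul_apply, Pi.smul_apply, Pi.smul_apply, hc.map_mul, conj_smul, smul_add]
  · obtain ⟨L, hL, h⟩ := hc.level
    refine ⟨L, hL, fun σ τ hτ => ?_⟩
    rw [Pi.smul_apply, Pi.smul_apply, h σ τ hτ]

theorem isAdCocycle_neg {c : GQ → Module.End k ρbar.V} (hc : IsAdCocycle ρbar c) :
    IsAdCocycle ρbar (-c) := by
  have := isAdCocycle_smul hc (-1 : k)
  rwa [neg_one_smul] at this

theorem isAdCocycle_sub {c c' : GQ → Module.End k ρbar.V} (hc : IsAdCocycle ρbar c)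
    (hc' : IsAdCocycle ρbar c') : IsAdCocycle ρbar (c - c') := by
  rw [sub_eq_add_neg]
  exact isAdCocycle_add hc (isAdCocycle_neg hc')

/-- The value of a cocycle at a power. -/
theorem adCocycle_apply_pow_eq_zero {c : GQ → Module.End k ρbar.V} (hc : IsAdCocycle ρbar c)
    {φ : GQ} (h : c φ = 0) (n : ℕ) : c (φ ^ n) = 0 := by
  induction n with
  | zero => rw [pow_zero, adCocycle_apply_one hc]
  | succ n ih => rw [pow_succ, hc.map_mul, ih, h, conj_zero, add_zero]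

/-! ## 2. Cocycles on the decomposition group -/

section decomp

open scoped Pointwise

variable (P : ValuationSubring Qb)

/-- The inertia group is normalised by the decomposition group. -/
theorem inv_conj_mem_inertia {φ ι : GQ} (hφ : φ ∈ P.decompositionSubgroup ℚ)
    (hι : ι ∈ P.inertiaSubgroupIn ℚ) : φ⁻¹ * ι * φ ∈ P.inertiaSubgroupIn ℚ := by
  have h := Fermat.Agent.S55.Bridge.conj_mem_inertiaSubgroupIn P φ⁻¹ ι hι
  have hP : φ⁻¹ • P = P := MulAction.mem_stabilizer_iff.mp (Subgroup.inv_mem _ hφ)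
  rw [hP, inv_inv] at h
  exact h

variable {P}

/-- An ad⁰-cocycle vanishing on `I_P` takes `I_P`-invariant values on `D_P`. -/
theorem conj_apply_eq_of_vanishes {c : GQ → Module.End k ρbar.V} (hc : IsAdCocycle ρbar c)
    (hI : ∀ ι ∈ P.inertiaSubgroupIn ℚ, c ι = 0) {φ : GQ}
    (hφ : φ ∈ P.decompositionSubgroup ℚ) {ι : GQ} (hι : ι ∈ P.inertiaSubgroupIn ℚ) :
    ρbar.ρ ι * c φ * ρbar.ρ ι⁻¹ = c φ := by
  have h1 : c (ι * φ) = ρbar.ρ ι * c φ * ρbar.ρ ι⁻¹ := by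
    rw [hc.map_mul, hI ι hι, zero_add]
  have h2 : ι * φ = φ * (φ⁻¹ * ι * φ) := by group
  have h3 : c (φ * (φ⁻¹ * ι * φ)) = c φ := by
    rw [hc.map_mul, hI _ (inv_conj_mem_inertia P hφ hι), conj_zero, add_zero]
  rw [← h1, h2, h3]

/-- An ad⁰-cocycle vanishing on `I_P` has `c φ ∈ H⁰(I_P, ad⁰ρ̄)` for `φ ∈ D_P`. -/
theorem apply_mem_adInv {c : GQ → Module.End k ρbar.V} (hc : IsAdCocycle ρbar c)
    (hI : ∀ ι ∈ P.inertiaSubgroupIn ℚ, c ι = 0) {φ : GQ}
    (hφ : φ ∈ P.decompositionSubgroup ℚ) : c φ ∈ adInv ρbar (P.inertiaSubgroupIn ℚ) :=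
  ⟨hc.trace_eq_zero φ, fun _ hι => conj_apply_eq_of_vanishes hc hI hφ hι⟩

/-- **Unramified cocycles are determined by their value at Frobenius.**  An ad⁰-cocycle
vanishing on `I_P` and at a Frobenius element `φ` vanishes on `D_P`. -/
theorem eq_zero_on_decomposition {q : ℕ} (hq : q.Prime) (hP : P.LiesOverPrime q) {φ : GQ}
    (hφ : P.IsFrobeniusAt φ q) {c : GQ → Module.End k ρbar.V} (hc : IsAdCocycle ρbar c)
    (hI : ∀ ι ∈ P.inertiaSubgroupIn ℚ, c ι = 0) (hcφ : c φ = 0) {σ : GQ}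
    (hσ : σ ∈ P.decompositionSubgroup ℚ) : c σ = 0 := by
  obtain ⟨L, hL, h⟩ := hc.level
  haveI := hL
  obtain ⟨n, ι, hι, hσL⟩ := exists_frobenius_pow_mul_inertia hq hP L hφ hσ
  have h1 : σ = (φ ^ n * ι) * ((φ ^ n * ι)⁻¹ * σ) := by group
  have h2 : ∀ x ∈ L, ((φ ^ n * ι)⁻¹ * σ) x = x := by
    intro x hx
    show (φ ^ n * ι)⁻¹ (σ x) = x
    rw [hσL x hx]
    show ((φ ^ n * ι)⁻¹ * (φ ^ n * ι)) x = x
    rw [inv_mul_cancel]
    rfl
  rw [h1, h _ _ h2, hc.map_mul, hI ι hι, conj_zero, add_zero,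
    adCocycle_apply_pow_eq_zero hc hcφ]

variable (ρbar) in
/-- The stabiliser of an endomorphism under the adjoint action. -/
def adStab (x : Module.End k ρbar.V) : Subgroup GQ where
  carrier := {σ | ρbar.ρ σ * x * ρbar.ρ σ⁻¹ = x}
  mul_mem' := fun {a b} ha hb => by
    show ρbar.ρ (a * b) * x * ρbar.ρ (a * b)⁻¹ = x
    rw [conj_mul, hb, ha]
  one_mem' := conj_one ρbar x
  inv_mem' := fun {a} ha => by
    show ρbar.ρ a⁻¹ * x * ρbar.ρ a⁻¹⁻¹ = x
    have h1 : ρbar.ρ a⁻¹ * (ρbar.ρ a * x * ρbar.ρ a⁻¹) * ρbar.ρ a⁻¹⁻¹ = x := by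
      rw [← conj_mul, inv_mul_cancel, conj_one]
    rw [ha] at h1
    exact h1

theorem mem_adStab {x : Module.End k ρbar.V} {σ : GQ} :
    σ ∈ adStab ρbar x ↔ ρbar.ρ σ * x * ρbar.ρ σ⁻¹ = x := Iff.rfl

/-- **Invariants.**  An endomorphism fixed by `I_P` and by a Frobenius element is fixed by
`D_P`. -/
theorem conj_eq_of_mem_decomposition {q : ℕ} (hq : q.Prime) (hP : P.LiesOverPrime q) {φ : GQ}
    (hφ : P.IsFrobeniusAt φ q) {x : Module.End k ρbar.V}
    (hI : ∀ ι ∈ P.inertiaSubgroupIn ℚ, ρbar.ρ ι * x * ρbar.ρ ι⁻¹ = x)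
    (hxφ : ρbar.ρ φ * x * ρbar.ρ φ⁻¹ = x) {σ : GQ}
    (hσ : σ ∈ P.decompositionSubgroup ℚ) : ρbar.ρ σ * x * ρbar.ρ σ⁻¹ = x := by
  obtain ⟨L, hL, h⟩ := ρbar.factorsThroughFiniteLevel
  haveI := hL
  obtain ⟨n, ι, hι, hσL⟩ := exists_frobenius_pow_mul_inertia hq hP L hφ hσ
  have h1 : σ = (φ ^ n * ι) * ((φ ^ n * ι)⁻¹ * σ) := by group
  have h2 : ∀ x ∈ L, ((φ ^ n * ι)⁻¹ * σ) x = x := by
    intro x hx
    show (φ ^ n * ι)⁻¹ (σ x) = x
    rw [hσL x hx]
    show ((φ ^ n * ι)⁻¹ * (φ ^ n * ι)) x = x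
    rw [inv_mul_cancel]
    rfl
  have h3 : (φ ^ n * ι)⁻¹ * σ ∈ adStab ρbar x := by
    rw [mem_adStab]
    exact isAdCocycle_cob.conj_of_eq_one ρbar (h _ h2)
  have h4 : φ ^ n * ι ∈ adStab ρbar x :=
    Subgroup.mul_mem _ (Subgroup.pow_mem _ (mem_adStab.mpr hxφ) n) (mem_adStab.mpr (hI ι hι))
  rw [← mem_adStab, h1]
  exact Subgroup.mul_mem _ h4 h3

end decomp

/-! ## 3. The local bound -/

section bound

variable (ρbar) (P : ValuationSubring Qb)

theorem cob_add (a b : Module.End k ρbar.V) : cob ρbar (a + b) = cob ρbar a + cob ρbar b := by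
  funext σ
  rw [Pi.add_apply, cob_apply, cob_apply, cob_apply, conj_add]
  abel

theorem cob_smul (r : k) (a : Module.End k ρbar.V) : cob ρbar (r • a) = r • cob ρbar a := by
  funext σ
  rw [Pi.smul_apply, cob_apply, cob_apply, conj_smul, smul_sub]

/-- The `k`-space of ad⁰-cocycles vanishing on `I_P`. -/
def unrCocycles : Submodule k (GQ → Module.End k ρbar.V) where
  carrier := {c | IsAdCocycle ρbar c ∧ ∀ ι ∈ P.inertiaSubgroupIn ℚ, c ι = 0}
  add_mem' := fun {a b} ha hb =>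
    ⟨isAdCocycle_add ha.1 hb.1, fun ι hι => by
      rw [Pi.add_apply, ha.2 ι hι, hb.2 ι hι, add_zero]⟩
  zero_mem' := ⟨isAdCocycle_zero, fun _ _ => rfl⟩
  smul_mem' := fun r a ha =>
    ⟨isAdCocycle_smul ha.1 r, fun ι hι => by rw [Pi.smul_apply, ha.2 ι hι, smul_zero]⟩

variable {ρbar P}

theorem mem_unrCocycles {c : GQ → Module.End k ρbar.V} :
    c ∈ unrCocycles ρbar P ↔ IsAdCocycle ρbar c ∧ ∀ ι ∈ P.inertiaSubgroupIn ℚ, c ι = 0 :=
  Iff.rfl

/-- The coboundary of an `I_P`-invariant endomorphism vanishes on `I_P`. -/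
theorem cob_mem_unrCocycles {x : Module.End k ρbar.V}
    (hx : ∀ ι ∈ P.inertiaSubgroupIn ℚ, ρbar.ρ ι * x * ρbar.ρ ι⁻¹ = x) :
    cob ρbar x ∈ unrCocycles ρbar P :=
  ⟨isAdCocycle_cob ρbar x, fun ι hι => by rw [cob_apply, hx ι hι, sub_self]⟩

variable (ρbar P)

/-- Evaluation of unramified cocycles at `φ ∈ D_P`, with values in `H⁰(I_P, ad⁰ρ̄)`. -/
def evalAt (φ : GQ) (hφ : φ ∈ P.decompositionSubgroup ℚ) :
    unrCocycles ρbar P →ₗ[k] adInv ρbar (P.inertiaSubgroupIn ℚ) where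
  toFun c := ⟨c.1 φ, apply_mem_adInv c.2.1 c.2.2 hφ⟩
  map_add' := fun _ _ => rfl
  map_smul' := fun _ _ => rfl

/-- `Ad φ − 1` on `H⁰(I_P, ad⁰ρ̄)`, for `φ ∈ D_P`. -/
def frobSubOne (φ : GQ) (hφ : φ ∈ P.decompositionSubgroup ℚ) :
    adInv ρbar (P.inertiaSubgroupIn ℚ) →ₗ[k] adInv ρbar (P.inertiaSubgroupIn ℚ) where
  toFun x := ⟨cob ρbar x.1 φ,
    apply_mem_adInv (cob_mem_unrCocycles x.2.2).1 (cob_mem_unrCocycles x.2.2).2 hφ⟩
  map_add' := fun a b => by
    apply Subtype.ext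
    show cob ρbar (a.1 + b.1) φ = cob ρbar a.1 φ + cob ρbar b.1 φ
    rw [cob_add]
    rfl
  map_smul' := fun r a => by
    apply Subtype.ext
    show cob ρbar (r • a.1) φ = r • cob ρbar a.1 φ
    rw [cob_smul]
    rfl

variable {ρbar P}

/-- The kernel of `Ad φ − 1` on `H⁰(I_P, ad⁰ρ̄)` is `H⁰(D_P, ad⁰ρ̄)`. -/
theorem finrank_ker_frobSubOne_le {q : ℕ} (hq : q.Prime) (hP : P.LiesOverPrime q) {φ : GQ}
    (hφ : P.IsFrobeniusAt φ q) :
    Module.finrank k (LinearMap.ker (frobSubOne ρbar P φ hφ.mem_decompositionSubgroup)) ≤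
      Module.finrank k (adInv ρbar (P.decompositionSubgroup ℚ)) := by
  let j : LinearMap.ker (frobSubOne ρbar P φ hφ.mem_decompositionSubgroup) →ₗ[k]
      adInv ρbar (P.decompositionSubgroup ℚ) :=
    { toFun := fun x => ⟨x.1.1, x.1.2.1, fun σ hσ => by
        have hx : frobSubOne ρbar P φ hφ.mem_decompositionSubgroup x.1 = 0 := x.2
        have hx' : cob ρbar x.1.1 φ = 0 := congrArg Subtype.val hx
        rw [cob_apply, sub_eq_zero] at hx'
        exact conj_eq_of_mem_decomposition hq hP hφ x.1.2.2 hx' hσ⟩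
      map_add' := fun _ _ => rfl
      map_smul' := fun _ _ => rfl }
  have hj : Function.Injective j := by
    intro a b hab
    apply Subtype.ext
    apply Subtype.ext
    have h1 : (j a).1 = (j b).1 := congrArg Subtype.val hab
    exact h1
  exact LinearMap.finrank_le_finrank_of_injective hj

/-- **LOC-MIN-B, unramified classes.**  There is a `k`-space `Λ` of functions with
`dim Λ ≤ h⁰(D_P, ad⁰ρ̄)` such that every ad⁰-cocycle which is a coboundary on the inertia group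
`I_P` is, on `D_P`, cohomologous to an element of `Λ`. -/
theorem exists_unramified_space {q : ℕ} (hq : q.Prime) (hP : P.LiesOverPrime q) {φ : GQ}
    (hφ : P.IsFrobeniusAt φ q) :
    ∃ Λ : Submodule k (GQ → Module.End k ρbar.V), Module.Finite k Λ ∧
      Module.finrank k Λ ≤ Module.finrank k (adInv ρbar (P.decompositionSubgroup ℚ)) ∧
      ∀ c : GQ → Module.End k ρbar.V, IsAdCocycle ρbar c →
        IsAdCoboundaryOn ρbar (P.inertiaSubgroupIn ℚ) c →
        ∃ t ∈ Λ, IsAdCoboundaryOn ρbar (P.decompositionSubgroup ℚ) (c - t) := by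
  have hφD := hφ.mem_decompositionSubgroup
  let T := frobSubOne ρbar P φ hφD
  let ev := evalAt ρbar P φ hφD
  let f : unrCocycles ρbar P →ₗ[k] (adInv ρbar (P.inertiaSubgroupIn ℚ) ⧸ LinearMap.range T) :=
    (LinearMap.range T).mkQ ∘ₗ ev
  obtain ⟨g, hg⟩ := LinearMap.exists_rightInverse_of_surjective f.rangeRestrict
    (LinearMap.range_rangeRestrict f)
  refine ⟨LinearMap.range ((unrCocycles ρbar P).subtype ∘ₗ g), ?_, ?_, ?_⟩
  · infer_instance
  · calc Module.finrank k (LinearMap.range ((unrCocycles ρbar P).subtype ∘ₗ g))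
        ≤ Module.finrank k (LinearMap.range f) := LinearMap.finrank_range_le _
      _ ≤ Module.finrank k (adInv ρbar (P.inertiaSubgroupIn ℚ) ⧸ LinearMap.range T) :=
          Submodule.finrank_le _
      _ = Module.finrank k (LinearMap.ker T) := by
          have h1 := Submodule.finrank_quotient_add_finrank (LinearMap.range T)
          have h2 := LinearMap.finrank_range_add_finrank_ker T
          omega
      _ ≤ Module.finrank k (adInv ρbar (P.decompositionSubgroup ℚ)) :=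
          finrank_ker_frobSubOne_le hq hP hφ
  · rintro c hc ⟨m, hm⟩
    let c' : unrCocycles ρbar P := ⟨c - cob ρbar m, isAdCocycle_sub hc (isAdCocycle_cob ρbar m),
      fun ι hι => by rw [Pi.sub_apply, hm ι hι, cob_apply, sub_self]⟩
    let r : LinearMap.range f := f.rangeRestrict c'
    refine ⟨((g r : unrCocycles ρbar P) : GQ → Module.End k ρbar.V), ⟨r, rfl⟩, ?_⟩
    have h1 : f (c' - g r) = 0 := by
      rw [map_sub, sub_eq_zero]
      have := congrArg Subtype.val (LinearMap.congr_fun hg r)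
      exact this.symm
    have h2 : ev (c' - g r) ∈ LinearMap.range T := (Submodule.Quotient.mk_eq_zero _).mp h1
    obtain ⟨u, hu⟩ := h2
    have hu' : cob ρbar u.1 φ = c φ - cob ρbar m φ - (g r).1 φ := congrArg Subtype.val hu
    have hcu : cob ρbar u.1 ∈ unrCocycles ρbar P := cob_mem_unrCocycles u.2.2
    have hmem : ((c' - g r : unrCocycles ρbar P) : GQ → Module.End k ρbar.V) - cob ρbar u.1 ∈
        unrCocycles ρbar P := Submodule.sub_mem _ (c' - g r).2 hcu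
    refine ⟨m + u.1, fun σ hσ => ?_⟩
    have hz := eq_zero_on_decomposition hq hP hφ hmem.1 hmem.2 (by
      show c φ - cob ρbar m φ - (g r).1 φ - cob ρbar u.1 φ = 0
      rw [hu', sub_self]) hσ
    have hz' : c σ - cob ρbar m σ - (g r).1 σ - cob ρbar u.1 σ = 0 := hz
    show c σ - (g r).1 σ = ρbar.ρ σ * (m + u.1) * ρbar.ρ σ⁻¹ - (m + u.1)
    have h3 : ρbar.ρ σ * (m + u.1) * ρbar.ρ σ⁻¹ - (m + u.1) = cob ρbar m σ + cob ρbar u.1 σ := by
      rw [cob_apply, cob_apply, conj_add]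
      abel
    rw [h3]
    have h4 : c σ - (g r).1 σ =
        (c σ - cob ρbar m σ - (g r).1 σ - cob ρbar u.1 σ) + (cob ρbar m σ + cob ρbar u.1 σ) := by
      abel
    rw [h4, hz', zero_add]

/-- **LOC-MIN-B, local bound.**  If every ad⁰-cocycle of local type `Ty` is a coboundary on the
inertia group `I_P`, then the local bound with defect `0` holds at `P`. -/
theorem localBoundAt_zero_of_frobenius {q : ℕ} (hq : q.Prime) (hP : P.LiesOverPrime q) {φ : GQ}
    (hφ : P.IsFrobeniusAt φ q) (Ty : GaloisRepAdic (DualNumber k) → Prop)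
    (h : ∀ c : GQ → Module.End k ρbar.V, IsAdCocycle ρbar c →
      (∃ ρ' : GaloisRepAdic (DualNumber k), IsLiftOf ρbar c ρ' ∧ Ty ρ') →
      IsAdCoboundaryOn ρbar (P.inertiaSubgroupIn ℚ) c) :
    LocalBoundAt ρbar P Ty 0 := by
  obtain ⟨Λ, h1, h2, h3⟩ := exists_unramified_space (ρbar := ρbar) hq hP hφ
  exact ⟨Λ, h1, h2, fun c hc hTy => h3 c hc (h c hc hTy)⟩

end bound

end Fermat.Agent.S56.H606

end

end
-- ===== PACK-END S56/H606/UnrBound.lean

-- ===== PACK-BEGIN S19/H15/OrdFG.lean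
section


/-!
# Cell A3 (S19) — node ORD, part 3 (helper15): finite generation

`exists_bound`: for a finitely generated, separating `ℤ_(ℓ)`-subalgebra `H₀` of equivariant
functions on a finite `Gal`-set `M` there is `d ≠ 0` in `ℤ_(ℓ)` with `d • u ∈ H₀` for EVERY
equivariant function `u` with integral values (Gram matrix of the pairing `Σ_m f(m) g(m)`).

`ordAlg_fg`: the algebra generated by the generators of an order datum is a finitely generated
`ℤ_(ℓ)`-module.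
-/

set_option autoImplicit false
set_option linter.style.haveILetI false

noncomputable section

namespace Fermat.Agent.S19.H15

open Fermat.Agent.S19
open scoped Matrix

variable {ℓ : ℕ} [Fact ℓ.Prime]

omit [Fact ℓ.Prime] in
/-- A function on a finite set with integral values is integral. -/
theorem isIntegral_of_forall_apply {X : Type} [Finite X] (f : X → Qb)
    (hf : ∀ x, IsIntegral (Rl ℓ) (f x)) : IsIntegral (Rl ℓ) f := by
  classical
  haveI := Fintype.ofFinite X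
  choose p hp hp0 using hf
  refine ⟨∏ x, p x, Polynomial.monic_prod_of_monic _ _ fun x _ => hp x, ?_⟩
  funext y
  have h1 : (Polynomial.eval₂ (algebraMap (Rl ℓ) (X → Qb)) f (∏ x, p x)) y =
      Polynomial.eval₂ (algebraMap (Rl ℓ) Qb) (f y) (∏ x, p x) := by
    have := Polynomial.aeval_algHom_apply (Pi.evalAlgHom (Rl ℓ) (fun _ : X => Qb) y) f (∏ x, p x)
    simp only [Polynomial.aeval_def, Pi.evalAlgHom_apply] at this
    exact this.symm
  rw [h1, Polynomial.eval₂_finsetProd]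
  exact Finset.prod_eq_zero (Finset.mem_univ y) (hp0 y)

section Bound

variable {M : Type} {act : GalQ → M → M}

/-- the pairing -/
def pair [Fintype M] (f g : M → Qb) : Qb := ∑ m, f m * g m

theorem pair_fixed [Fintype M] (hone : ∀ m, act 1 m = m)
    (hact : ∀ σ τ m, act σ (act τ m) = act (σ * τ) m)
    {f g : M → Qb} (hf : H19.IsEquivariant act f) (hg : H19.IsEquivariant act g) (σ : GalQ) :
    σ (pair f g) = pair f g := by
  unfold pair
  rw [map_sum]
  let e : M ≃ M :=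
    { toFun := act σ
      invFun := act σ⁻¹
      left_inv := fun m => by rw [hact, inv_mul_cancel, hone]
      right_inv := fun m => by rw [hact, mul_inv_cancel, hone] }
  rw [← Equiv.sum_comp e (fun m => f m * g m)]
  refine Finset.sum_congr rfl fun m _ => ?_
  show σ (f m * g m) = f (act σ m) * g (act σ m)
  rw [map_mul, hf σ m, hg σ m]

omit [Fact ℓ.Prime] in
theorem pair_integral [Fintype M] {f g : M → Qb} (hf : ∀ m, IsIntegral (Rl ℓ) (f m))
    (hg : ∀ m, IsIntegral (Rl ℓ) (g m)) : IsIntegral (Rl ℓ) (pair f g) :=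
  IsIntegral.sum _ fun m _ => (hf m).mul (hg m)

theorem exists_Rl_pair [Fintype M] (hone : ∀ m, act 1 m = m)
    (hact : ∀ σ τ m, act σ (act τ m) = act (σ * τ) m)
    {f g : M → Qb} (hf : H19.IsEquivariant act f) (hg : H19.IsEquivariant act g)
    (hfi : ∀ m, IsIntegral (Rl ℓ) (f m)) (hgi : ∀ m, IsIntegral (Rl ℓ) (g m)) :
    ∃ r : Rl ℓ, algebraMap (Rl ℓ) Qb r = pair f g := by
  haveI : IsPrincipalIdealRing ↥(GaloisRep.ratLocalizedAt ℓ) := inferInstance
  exact H19.mem_range_of_fixed_of_isIntegral (Rl ℓ)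
    (fun q hq => H19.mem_of_isIntegral_of_pid (Rl ℓ) q hq) _
    (fun σ => pair_fixed hone hact hf hg σ) (pair_integral hfi hgi)

omit [Fact ℓ.Prime] in
/-- The `Q̄`-span of a separating subalgebra is everything. -/
theorem span_Qb_eq_top [Finite M] (H₀ : Subalgebra (Rl ℓ) (M → Qb))
    (hsep : ∀ m m' : M, m ≠ m' → ∃ f ∈ H₀, f m ≠ f m') :
    Submodule.span Qb (H₀ : Set (M → Qb)) = ⊤ := by
  have h1 : Algebra.adjoin Qb (H₀ : Set (M → Qb)) = ⊤ := by
    apply H19.subalgebra_eq_top_of_separates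
    intro m m' hne
    obtain ⟨f, hf, hfm⟩ := hsep m m' hne
    exact ⟨f, Algebra.subset_adjoin hf, hfm⟩
  have h2 := Algebra.adjoin_eq_span Qb (H₀ : Set (M → Qb))
  have h3 : Submonoid.closure (H₀ : Set (M → Qb)) = H₀.toSubmonoid :=
    Submonoid.closure_eq H₀.toSubmonoid
  rw [h3, h1] at h2
  rw [eq_top_iff]
  intro x _
  have : x ∈ Subalgebra.toSubmodule (⊤ : Subalgebra Qb (M → Qb)) := by simp
  rw [h2] at this
  exact this

/-- **Bounded denominators.** -/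
theorem exists_bound [Finite M] (hone : ∀ m, act 1 m = m)
    (hact : ∀ σ τ m, act σ (act τ m) = act (σ * τ) m)
    (H₀ : Subalgebra (Rl ℓ) (M → Qb)) (hequiv : ∀ f ∈ H₀, H19.IsEquivariant act f)
    (hfg : (Subalgebra.toSubmodule H₀).FG)
    (hsep : ∀ m m' : M, m ≠ m' → ∃ f ∈ H₀, f m ≠ f m') :
    ∃ d : Rl ℓ, d ≠ 0 ∧ ∀ u : M → Qb, H19.IsEquivariant act u →
      (∀ m, IsIntegral (Rl ℓ) (u m)) → d • u ∈ H₀ := by
  classical
  haveI := Fintype.ofFinite M
  haveI : IsPrincipalIdealRing ↥(GaloisRep.ratLocalizedAt ℓ) := inferInstance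
  obtain ⟨ι, hι, b, hb⟩ := H19.good_of_equivariant (Rl ℓ) hone hact H₀ hequiv hfg
  haveI := Fintype.ofFinite ι
  -- the basis functions
  set e : ι → M → Qb := fun i => ((b i : H₀) : M → Qb) with he
  have hemem : ∀ i, e i ∈ H₀ := fun i => (b i).2
  have heq : ∀ i, H19.IsEquivariant act (e i) := fun i => hequiv _ (hemem i)
  have hint₀ : ∀ f ∈ H₀, ∀ m, IsIntegral (Rl ℓ) (f m) := by
    intro f hf m
    haveI : Module.Finite (Rl ℓ) H₀ := Module.Finite.iff_fg.mpr hfg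
    have h1 : IsIntegral (Rl ℓ) (⟨f, hf⟩ : H₀) := Algebra.IsIntegral.isIntegral _
    exact h1.map (H19.IsOrder.evPt H₀ m)
  have hei : ∀ i m, IsIntegral (Rl ℓ) (e i m) := fun i m => hint₀ _ (hemem i) m
  have hli : LinearIndependent Qb e := hb
  -- every function is a `Q̄`-combination of the `e i`
  have hspan : ∀ u : M → Qb, ∃ c : ι → Qb, u = ∑ i, c i • e i := by
    have h1 : Submodule.span Qb (Set.range e) = ⊤ := by
      rw [eq_top_iff, ← span_Qb_eq_top H₀ hsep]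
      refine Submodule.span_le.mpr ?_
      intro f hf
      have h2 := congrArg (fun g : H₀ => (g : M → Qb)) (b.sum_repr ⟨f, hf⟩)
      simp only at h2
      rw [SetLike.mem_coe, ← h2, AddSubmonoidClass.coe_finsetSum]
      refine Submodule.sum_mem _ fun i _ => ?_
      have h3 : (((b.repr ⟨f, hf⟩ i) • b i : H₀) : M → Qb) =
          (algebraMap (Rl ℓ) Qb (b.repr ⟨f, hf⟩ i)) • e i := by
        rw [algebraMap_smul]
        rfl
      rw [h3]
      exact Submodule.smul_mem _ _ (Submodule.subset_span ⟨i, rfl⟩)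
    intro u
    have hu : u ∈ Submodule.span Qb (Set.range e) := by rw [h1]; trivial
    obtain ⟨c, hc⟩ := (Submodule.mem_span_range_iff_exists_fun Qb).mp hu
    exact ⟨c, hc.symm⟩
  -- Gram matrix
  choose g hg using fun i j => exists_Rl_pair (ℓ := ℓ) hone hact (heq i) (heq j) (hei i) (hei j)
  let G : Matrix ι ι (Rl ℓ) := Matrix.of g
  let GQ : Matrix ι ι Qb := G.map (algebraMap (Rl ℓ) Qb)
  have hGQ : ∀ i j, GQ i j = pair (e i) (e j) := fun i j => hg i j
  have hpair_sum : ∀ (c : ι → Qb) (j : ι), pair (∑ i, c i • e i) (e j) = (c ᵥ* GQ) j := by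
    intro c j
    simp only [pair, Matrix.vecMul, dotProduct, hGQ, Finset.sum_apply, Pi.smul_apply,
      smul_eq_mul, Finset.sum_mul, Finset.mul_sum]
    rw [Finset.sum_comm]
    refine Finset.sum_congr rfl fun i _ => Finset.sum_congr rfl fun m _ => by ring
  have hdetQ : GQ.det = algebraMap (Rl ℓ) Qb G.det := (RingHom.map_det _ _).symm
  have hinj : Function.Injective (algebraMap (Rl ℓ) Qb) := H19.algebraMap_subring_injective (Rl ℓ)
  -- the determinant is nonzero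
  have hdet : G.det ≠ 0 := by
    intro h0
    have h1 : GQ.det = 0 := by rw [hdetQ, h0, map_zero]
    obtain ⟨x, hx0, hx⟩ := Matrix.exists_vecMul_eq_zero_iff.mpr h1
    -- `w = Σ x i • e i` is orthogonal to everything
    set w : M → Qb := ∑ i, x i • e i with hw
    have hwe : ∀ j, pair w (e j) = 0 := by
      intro j
      rw [hw, hpair_sum, hx]
      rfl
    have hwall : ∀ f : M → Qb, pair w f = 0 := by
      intro f
      obtain ⟨c, rfl⟩ := hspan f
      have : pair w (∑ i, c i • e i) = ∑ i, c i * pair w (e i) := by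
        simp only [pair, Finset.sum_apply, Pi.smul_apply, smul_eq_mul, Finset.mul_sum]
        rw [Finset.sum_comm]
        refine Finset.sum_congr rfl fun i _ => Finset.sum_congr rfl fun m _ => by ring
      rw [this]
      exact Finset.sum_eq_zero fun i _ => by rw [hwe i, mul_zero]
    have hw0 : w = 0 := by
      funext m
      have := hwall (Pi.single m 1)
      simp only [pair, Pi.single_apply, mul_ite, mul_one, mul_zero, Finset.sum_ite_eq',
        Finset.mem_univ, if_true] at this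
      exact this
    have hx' := (Fintype.linearIndependent_iff.mp hli) x (hw ▸ hw0)
    exact hx0 (funext hx')
  refine ⟨G.det, hdet, fun u hu hui => ?_⟩
  obtain ⟨c, rfl⟩ := hspan u
  -- the pairings with the basis are in `R`
  choose r hr using fun j =>
    exists_Rl_pair (ℓ := ℓ) hone hact hu (heq j) hui (hei j)
  have hv : c ᵥ* GQ = fun j => algebraMap (Rl ℓ) Qb (r j) := by
    funext j
    rw [← hpair_sum, hr j]
  -- multiply by the adjugate
  have hadj : (GQ.det) • c = (fun j => algebraMap (Rl ℓ) Qb (r j)) ᵥ* GQ.adjugate := by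
    rw [← hv, Matrix.vecMul_vecMul, Matrix.mul_adjugate, Matrix.vecMul_smul, Matrix.vecMul_one]
  have hadj' : GQ.adjugate = G.adjugate.map (algebraMap (Rl ℓ) Qb) :=
    (RingHom.map_adjugate _ _).symm
  have hci : ∀ i, algebraMap (Rl ℓ) Qb G.det * c i =
      algebraMap (Rl ℓ) Qb (∑ j, r j * G.adjugate j i) := by
    intro i
    have := congrFun hadj i
    rw [Pi.smul_apply, smul_eq_mul, hdetQ] at this
    rw [this, hadj', map_sum]
    simp only [Matrix.vecMul, dotProduct, Matrix.map_apply, map_mul]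
  have hfinal : G.det • (∑ i, c i • e i) = ∑ i, (∑ j, r j * G.adjugate j i) • e i := by
    rw [Finset.smul_sum]
    refine Finset.sum_congr rfl fun i _ => ?_
    funext m
    simp only [Pi.smul_apply, smul_eq_mul]
    rw [Algebra.smul_def, Algebra.smul_def, ← mul_assoc, hci i]
  rw [hfinal]
  exact Subalgebra.sum_mem _ fun i _ => Subalgebra.smul_mem _ (hemem i) _

end Bound

end Fermat.Agent.S19.H15

end

end
-- ===== PACK-END S19/H15/OrdFG.lean

-- ===== PACK-BEGIN S59/H247/TFRam.lean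
section



/-!
# S59 / G3-TF, part 3: unramified Kummer extensions have `p`-divisible valuations

`F ⊆ ℚ̄` a number field, `v` a prime of `𝓞 F`, `α ^ p = a ∈ Fˣ`, and some `σ₁ ∈ G_F` moves `α`.
If for every place `A` of `ℚ̄` over `v` the group `I_A ∩ G_F` fixes `α`, then `p ∣ ord_v a`.
-/

set_option autoImplicit false
set_option linter.style.haveILetI false
set_option linter.unusedSectionVars false

namespace Fermat.Agent.S59.H247

open NumberField IsDedekindDomain Fermat.Agent.S54 Fermat.Agent.S55.Bridge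

/-- number field structure on a finite-dimensional subfield of `ℚ̄` -/
theorem numberField_of_finiteDimensional (F : IntermediateField ℚ (AlgebraicClosure ℚ))
    [FiniteDimensional ℚ F] : NumberField F := ⟨⟩

attribute [local instance] numberField_of_finiteDimensional

variable (F : IntermediateField ℚ (AlgebraicClosure ℚ)) [FiniteDimensional ℚ F]

/-- the embedding of the ring of integers of `F` into `ℚ̄` -/
noncomputable def intEmb : 𝓞 F →+* AlgebraicClosure ℚ :=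
  (algebraMap F (AlgebraicClosure ℚ)).comp (algebraMap (𝓞 F) F)

theorem intEmb_apply (x : 𝓞 F) : intEmb F x = ((x : F) : AlgebraicClosure ℚ) := rfl

theorem intEmb_injective : Function.Injective (intEmb F) :=
  (algebraMap F (AlgebraicClosure ℚ)).injective.comp RingOfIntegers.coe_injective

theorem intEmb_isIntegral (x : 𝓞 F) : IsIntegral ℤ (intEmb F x) := by
  have h : IsIntegral ℤ (x : F) := RingOfIntegers.isIntegral_coe x
  exact h.map (IsScalarTower.toAlgHom ℤ F (AlgebraicClosure ℚ))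

theorem intEmb_mem (A : ValuationSubring (AlgebraicClosure ℚ)) (x : 𝓞 F) : intEmb F x ∈ A :=
  isIntegral_mem_valuationSubring A (intEmb_isIntegral F x)

/-- `A` lies over the prime `v` of `𝓞 F`. -/
def LiesOverHS (A : ValuationSubring (AlgebraicClosure ℚ)) (v : HeightOneSpectrum (𝓞 F)) : Prop :=
  ∀ x : 𝓞 F, x ∈ v.asIdeal → intEmb F x ∈ A.nonunits

variable {F}

theorem LiesOverHS.mem_iff {A : ValuationSubring (AlgebraicClosure ℚ)}
    {v : HeightOneSpectrum (𝓞 F)} (hA : LiesOverHS F A v) (x : 𝓞 F) :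
    intEmb F x ∈ A.nonunits ↔ x ∈ v.asIdeal := by
  refine ⟨fun hx => ?_, hA x⟩
  by_contra hxv
  obtain ⟨y, i, hi, hyi⟩ := v.isMaximal.exists_inv hxv
  have h1 : intEmb F (y * x + i) ∈ A.nonunits := by
    rw [map_add, map_mul]
    refine A.nonunits.add_mem ?_ (hA i hi)
    rw [ValuationSubring.mem_nonunits_iff, map_mul]
    rw [ValuationSubring.mem_nonunits_iff] at hx
    calc A.valuation (intEmb F y) * A.valuation (intEmb F x)
        ≤ 1 * A.valuation (intEmb F x) :=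
          mul_le_mul_left ((A.valuation_le_one_iff _).2 (intEmb_mem F A y)) _
      _ = A.valuation (intEmb F x) := one_mul _
      _ < 1 := hx
  rw [hyi, map_one, ValuationSubring.mem_nonunits_iff, map_one] at h1
  exact lt_irrefl _ h1

/-- Every prime of `𝓞 F` lies below some place of `ℚ̄`. -/
theorem exists_liesOverHS (v : HeightOneSpectrum (𝓞 F)) :
    ∃ A : ValuationSubring (AlgebraicClosure ℚ), LiesOverHS F A v := by
  let A₀ : Subring (AlgebraicClosure ℚ) := (intEmb F).range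
  let I : Ideal A₀ := Ideal.map (intEmb F).rangeRestrict v.asIdeal
  have hI : I ≠ ⊤ := by
    intro h
    have h1 : (1 : A₀) ∈ I := by rw [h]; trivial
    rw [Ideal.mem_map_iff_of_surjective _ (intEmb F).rangeRestrict_surjective] at h1
    obtain ⟨x, hx, hx1⟩ := h1
    have h2 : intEmb F x = 1 := congrArg Subtype.val hx1
    have h3 : x = 1 := intEmb_injective F (by rw [h2, map_one])
    rw [h3] at hx
    exact v.isPrime.ne_top ((Ideal.eq_top_iff_one _).2 hx)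
  obtain ⟨A, -, hA⟩ := Ideal.image_subset_nonunits_valuationSubring I hI
  refine ⟨A, fun x hx => hA ?_⟩
  exact ⟨(intEmb F).rangeRestrict x, Ideal.mem_map_of_mem _ hx, rfl⟩

/-- A place over `v` lies over a rational prime contained in `v`. -/
theorem LiesOverHS.exists_prime {A : ValuationSubring (AlgebraicClosure ℚ)}
    {v : HeightOneSpectrum (𝓞 F)} (hA : LiesOverHS F A v) :
    ∃ q : ℕ, q.Prime ∧ A.LiesOverPrime q ∧ (q : 𝓞 F) ∈ v.asIdeal := by
  haveI : (v.asIdeal.under ℤ).IsPrime := inferInstance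
  have hne : v.asIdeal.under ℤ ≠ ⊥ := Ideal.under_ne_bot ℤ v.ne_bot
  have hgen := Submodule.IsPrincipal.prime_generator_of_isPrime (v.asIdeal.under ℤ) hne
  have hg_mem : Submodule.IsPrincipal.generator (v.asIdeal.under ℤ) ∈ v.asIdeal.under ℤ :=
    Submodule.IsPrincipal.generator_mem _
  set g := Submodule.IsPrincipal.generator (v.asIdeal.under ℤ) with hg
  have hq : g.natAbs.Prime := Int.prime_iff_natAbs_prime.1 hgen
  have hqmem : ((g.natAbs : ℕ) : ℤ) ∈ v.asIdeal.under ℤ := by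
    rcases Int.natAbs_eq g with h | h
    · rw [← h]; exact hg_mem
    · have : ((g.natAbs : ℕ) : ℤ) = -g := by omega
      rw [this]
      exact (v.asIdeal.under ℤ).neg_mem hg_mem
  have hqv : ((g.natAbs : ℕ) : 𝓞 F) ∈ v.asIdeal := by
    have := Ideal.mem_comap.1 hqmem
    simpa using this
  refine ⟨g.natAbs, hq, ?_, hqv⟩
  have := hA _ hqv
  rw [map_natCast] at this
  exact this

/-- comparison of the `v`-adic valuation with the valuation of a place over `v` -/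
theorem LiesOverHS.valuation_lt_one {A : ValuationSubring (AlgebraicClosure ℚ)}
    {v : HeightOneSpectrum (𝓞 F)} (hA : LiesOverHS F A v) (u : F)
    (hu : v.valuation F u < 1) : A.valuation (u : AlgebraicClosure ℚ) < 1 := by
  obtain ⟨n, d, hnd⟩ := v.exists_primeCompl_mul_eq_of_integer u hu.le
  have hd1 : v.valuation F (algebraMap (𝓞 F) F d) = 1 :=
    (HeightOneSpectrum.valuation_eq_one_iff_notMem v).2 d.2
  have hn : v.valuation F (algebraMap (𝓞 F) F n) < 1 := by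
    rw [← hnd, map_mul, hd1, mul_one]; exact hu
  have hnv : n ∈ v.asIdeal := (v.valuation_lt_one_iff_mem n).1 hn
  have hAn : A.valuation (intEmb F n) < 1 := (ValuationSubring.mem_nonunits_iff A).1 (hA n hnv)
  have hAd : A.valuation (intEmb F d) = 1 :=
    le_antisymm ((A.valuation_le_one_iff _).2 (intEmb_mem F A d))
      (not_lt.1 fun h => d.2 ((hA.mem_iff d).1 ((ValuationSubring.mem_nonunits_iff A).2 h)))
  have hmul : (u : AlgebraicClosure ℚ) * intEmb F d = intEmb F n := by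
    have := congrArg (algebraMap F (AlgebraicClosure ℚ)) hnd
    rw [map_mul] at this
    exact this
  calc A.valuation (u : AlgebraicClosure ℚ)
      = A.valuation (u : AlgebraicClosure ℚ) * A.valuation (intEmb F d) := by rw [hAd, mul_one]
    _ = A.valuation (intEmb F n) := by rw [← map_mul, hmul]
    _ < 1 := hAn

/-- a unit at the place `A` over `v` has trivial `v`-adic valuation -/
theorem LiesOverHS.valuationOfNeZero_eq_one {A : ValuationSubring (AlgebraicClosure ℚ)}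
    {v : HeightOneSpectrum (𝓞 F)} (hA : LiesOverHS F A v) (u : Fˣ)
    (hu : A.valuation (((u : F) : AlgebraicClosure ℚ)) = 1) : v.valuationOfNeZero u = 1 := by
  have h1 : ¬ v.valuation F (u : F) < 1 := fun h => by
    have := hA.valuation_lt_one _ h
    rw [hu] at this
    exact lt_irrefl _ this
  have h2 : ¬ v.valuation F ((u⁻¹ : Fˣ) : F) < 1 := fun h => by
    have := hA.valuation_lt_one _ h
    rw [Units.val_inv_eq_inv_val] at this
    push_cast at this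
    rw [map_inv₀, hu, inv_one] at this
    exact lt_irrefl _ this
  have h3 : v.valuation F (u : F) = 1 := by
    rcases lt_trichotomy (v.valuation F (u : F)) 1 with h | h | h
    · exact absurd h h1
    · exact h
    · exfalso
      apply h2
      rw [Units.val_inv_eq_inv_val, map_inv₀]
      exact inv_lt_one_of_one_lt₀ h
  rw [← WithZero.coe_inj, HeightOneSpectrum.valuationOfNeZero_eq]
  exact h3

/-- an automorphism fixing `F` and multiplying `α` by an element of `F` preserves `F(α)` -/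
theorem map_mem_adjoin_of_mul {p : ℕ} (hp : 0 < p) {α ξ : AlgebraicClosure ℚ} (a : F)
    (hα : α ^ p = (a : AlgebraicClosure ℚ)) (hξ : ξ ∈ F)
    (τ : AlgebraicClosure ℚ ≃ₐ[ℚ] AlgebraicClosure ℚ) (hτF : ∀ x ∈ F, τ x = x)
    (hτα : τ α = ξ * α) {x : AlgebraicClosure ℚ} (hx : x ∈ IntermediateField.adjoin F {α}) :
    τ x ∈ IntermediateField.adjoin F {α} := by
  obtain ⟨c, rfl⟩ := exists_coeff_of_mem_adjoin F hp a hα hx
  rw [map_sum]
  refine sum_mem fun i _ => ?_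
  rw [map_mul, map_pow, hτα, hτF _ (c i).2]
  have hαm : α ∈ IntermediateField.adjoin F {α} := IntermediateField.mem_adjoin_simple_self F α
  have hξm : ξ ∈ IntermediateField.adjoin F {α} :=
    (IntermediateField.adjoin F {α}).algebraMap_mem ⟨ξ, hξ⟩
  have hcm : ((c i : F) : AlgebraicClosure ℚ) ∈ IntermediateField.adjoin F {α} :=
    (IntermediateField.adjoin F {α}).algebraMap_mem (c i)
  exact mul_mem hcm (pow_mem (mul_mem hξm hαm) i)

/-- **Unramified Kummer extensions have `p`-divisible valuations.** -/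
theorem dvd_valuationOfNeZero_of_inertia_fixes {p : ℕ} (hp : p.Prime)
    (v : HeightOneSpectrum (𝓞 F)) {α ζ' : AlgebraicClosure ℚ} (a : Fˣ)
    (hα : α ^ p = (((a : F)) : AlgebraicClosure ℚ)) (hζ' : ζ' ^ p = 1) (hζ'1 : ζ' ≠ 1)
    (hζ'F : ζ' ∈ F) (σ₁ : AlgebraicClosure ℚ ≃ₐ[ℚ] AlgebraicClosure ℚ)
    (hσ₁F : ∀ x ∈ F, σ₁ x = x) (hσ₁α : σ₁ α = ζ' * α)
    (hunr : ∀ A : ValuationSubring (AlgebraicClosure ℚ), LiesOverHS F A v →
      ∀ σ ∈ A.inertiaSubgroupIn ℚ, (∀ x ∈ F, σ x = x) → σ α = α) :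
    (p : ℤ) ∣ Multiplicative.toAdd (v.valuationOfNeZero a) := by
  obtain ⟨A, hA⟩ := exists_liesOverHS v
  obtain ⟨q, hq, hAq, -⟩ := hA.exists_prime
  by_contra hdvd
  have ha0 : (((a : F)) : AlgebraicClosure ℚ) ≠ 0 := by
    have := a.ne_zero
    exact_mod_cast this
  have hα0 : α ≠ 0 := by
    intro h
    rw [h, zero_pow hp.ne_zero] at hα
    exact ha0 hα.symm
  have hval : ∀ c : F, c ≠ 0 → ∀ k : ℕ, 0 < k → k < p →
      A.valuation α ^ k ≠ A.valuation (c : AlgebraicClosure ℚ) := by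
    intro c hc k hk hkp h
    have hcv : A.valuation (c : AlgebraicClosure ℚ) ≠ 0 :=
      (Valuation.ne_zero_iff _).2 (by exact_mod_cast hc)
    have h1 : A.valuation ((((a ^ k * (Units.mk0 c hc ^ p)⁻¹ : Fˣ) : F)) : AlgebraicClosure ℚ)
        = 1 := by
      rw [Units.val_mul, Units.val_inv_eq_inv_val, Units.val_pow_eq_pow_val,
        Units.val_pow_eq_pow_val, Units.val_mk0]
      push_cast
      rw [map_mul, map_pow, map_inv₀, map_pow, ← hα, map_pow, ← pow_mul, mul_comm p k, pow_mul, h]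
      exact mul_inv_cancel₀ (pow_ne_zero _ hcv)
    have h2 := hA.valuationOfNeZero_eq_one _ h1
    rw [map_mul, map_inv, map_pow, map_pow] at h2
    have h3 : (k : ℤ) * Multiplicative.toAdd (v.valuationOfNeZero a)
        = p * Multiplicative.toAdd (v.valuationOfNeZero (Units.mk0 c hc)) := by
      have := congrArg Multiplicative.toAdd h2
      simp only [toAdd_mul, toAdd_inv, toAdd_pow, toAdd_one, nsmul_eq_mul] at this
      linarith
    apply hdvd
    have hcop : IsCoprime (p : ℤ) (k : ℤ) := by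
      rw [Int.isCoprime_iff_gcd_eq_one, Int.gcd_natCast_natCast]
      exact (Nat.coprime_of_lt_prime hk.ne' hkp hp)
    exact hcop.dvd_of_dvd_mul_left (Dvd.intro _ h3.symm)
  set N : IntermediateField ℚ (AlgebraicClosure ℚ) :=
    (IntermediateField.adjoin F {α}).restrictScalars ℚ with hN
  have hmemN : ∀ x, x ∈ N ↔ x ∈ IntermediateField.adjoin F {α} := fun x => Iff.rfl
  have hσ₁inv : ∀ x, σ₁⁻¹ (σ₁ x) = x := fun x => by
    show (σ₁⁻¹ * σ₁) x = x
    rw [inv_mul_cancel]; rfl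
  have hσ₁ζ : σ₁ ζ' = ζ' := hσ₁F _ hζ'F
  have hζ'0 : ζ' ≠ 0 := by
    intro h
    rw [h, zero_pow hp.ne_zero] at hζ'
    exact zero_ne_one hζ'
  have hinvF : ∀ x ∈ F, σ₁⁻¹ x = x := fun x hx => by
    conv_lhs => rw [← hσ₁F x hx]
    exact hσ₁inv x
  have hinvα : σ₁⁻¹ α = ζ'⁻¹ * α := by
    have : σ₁ (ζ'⁻¹ * α) = α := by
      rw [map_mul, map_inv₀, hσ₁ζ, hσ₁α, ← mul_assoc, inv_mul_cancel₀ hζ'0, one_mul]
    conv_lhs => rw [← this]
    exact hσ₁inv _
  have hσN : ∀ x ∈ N, σ₁ x ∈ N := fun x hx =>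
    map_mem_adjoin_of_mul hp.pos (a : F) hα hζ'F σ₁ hσ₁F hσ₁α hx
  have hσN' : ∀ x ∈ N, σ₁⁻¹ x ∈ N := fun x hx =>
    map_mem_adjoin_of_mul hp.pos (a : F) hα (F.inv_mem hζ'F) σ₁⁻¹ hinvF hinvα hx
  have hσI : ∀ x ∈ N, IsIntegral ℤ x → σ₁ x - x ∈ A.nonunits := fun x hx hxi =>
    kummer_sub_mem_nonunits hp.pos (a : F) hα hα0 hζ' σ₁ hσ₁F hσ₁α hval hx
      (isIntegral_mem_valuationSubring A hxi)
  obtain ⟨σ', hσ'I, hσ'N⟩ :=
    exists_mem_inertia_restrict_eq_of_integral N hq hAq σ₁ hσN hσN' hσI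
  have hFN : ∀ x ∈ F, x ∈ N := fun x hx =>
    (IntermediateField.adjoin F {α}).algebraMap_mem ⟨x, hx⟩
  have hσ'F : ∀ x ∈ F, σ' x = x := fun x hx => by rw [hσ'N x (hFN x hx), hσ₁F x hx]
  have hσ'α : σ' α = α := hunr A hA σ' hσ'I hσ'F
  rw [hσ'N α (IntermediateField.mem_adjoin_simple_self F α), hσ₁α] at hσ'α
  apply hζ'1
  have := mul_right_cancel₀ hα0 (hσ'α.trans (one_mul α).symm)
  exact this

end Fermat.Agent.S59.H247

end
-- ===== PACK-END S59/H247/TFRam.lean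

-- ===== PACK-BEGIN S53/Abstract4.lean
section


set_option autoImplicit false
set_option linter.unusedSectionVars false
set_option linter.unusedVariables false
set_option linter.style.haveILetI false

namespace Fermat.Agent.S53

open IsLocalRing GaloisRep CA

/-- a finite nonempty set closed under binary infima contains its infimum -/
theorem sInf_mem_of_finite {α : Type*} [CompleteLattice α] {s : Set α} (hs : s.Finite)
    (hne : s.Nonempty) (hinf : ∀ a ∈ s, ∀ b ∈ s, a ⊓ b ∈ s) : sInf s ∈ s := by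
  classical
  have key : ∀ t : Finset α, t.Nonempty → (↑t ⊆ s) → t.inf id ∈ s := by
    intro t ht
    induction ht using Finset.Nonempty.cons_induction with
    | singleton a =>
      intro h
      simpa using h (Finset.mem_coe.mpr (Finset.mem_singleton_self a))
    | cons a t ha ht ih =>
      intro h
      rw [Finset.inf_cons]
      refine hinf _ (h (by simp)) _ (ih (fun x hx => h (by simp [Finset.mem_coe.mp hx])))
  have := key hs.toFinset (by simpa using hne) (by simp)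
  rwa [Finset.inf_id_eq_sInf, Set.Finite.coe_toFinset] at this

section

variable {𝒪 : Type} [CommRing 𝒪] [IsDomain 𝒪] [IsDiscreteValuationRing 𝒪]
  [IsAdicComplete (IsLocalRing.maximalIdeal 𝒪) 𝒪] [Finite (IsLocalRing.ResidueField 𝒪)]
variable {ι : Type}

/-- there are finitely many ideals containing a given power of the maximal ideal -/
theorem finite_ideals_above (d n : ℕ) :
    {J : Ideal (PS 𝒪 d) | maximalIdeal (PS 𝒪 d) ^ n ≤ J}.Finite := by
  haveI : Finite (PS 𝒪 d ⧸ maximalIdeal (PS 𝒪 d) ^ n) := ps_finite_quotient 𝒪 d n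
  have hfin : Finite (Ideal (PS 𝒪 d ⧸ maximalIdeal (PS 𝒪 d) ^ n)) := inferInstance
  refine Set.Finite.of_finite_image (f := Ideal.map (Ideal.Quotient.mk (maximalIdeal (PS 𝒪 d) ^ n)))
    (Set.toFinite _) ?_
  intro J hJ J' hJ' h
  have h1 := congrArg (Ideal.comap (Ideal.Quotient.mk (maximalIdeal (PS 𝒪 d) ^ n))) h
  rw [Ideal.comap_map_of_surjective _ Ideal.Quotient.mk_surjective,
    Ideal.comap_map_of_surjective _ Ideal.Quotient.mk_surjective,
    ← RingHom.ker_eq_comap_bot, Ideal.mk_ker] at h1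
  rwa [sup_eq_left.mpr hJ, sup_eq_left.mpr hJ'] at h1

/-- the maximal ideal is good -/
theorem good_maximalIdeal {c : ι → 𝒪} {L : PointFamily 𝒪 ι} (hL : IsRigidFamily 𝒪 ι c L)
    {d : ℕ} (idx : Fin d → ι) : Good c L idx (maximalIdeal (PS 𝒪 d)) := by
  have hm : maximalIdeal (PS 𝒪 d) ≠ ⊤ := Ideal.IsMaximal.ne_top inferInstance
  haveI := isLocalRing_quot hm
  have hT : IsArtinianTestAlgebra 𝒪 (PS 𝒪 d ⧸ maximalIdeal (PS 𝒪 d)) :=
    ps_quot_test _ 1 (by rw [pow_one])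
  have hk : IsArtinianTestAlgebra 𝒪 (ResidueField 𝒪) := test_residueField 𝒪
  have hkill : ∀ a ∈ maximalIdeal 𝒪,
      (Algebra.ofId 𝒪 (PS 𝒪 d ⧸ maximalIdeal (PS 𝒪 d))) a = 0 := by
    intro a ha
    have hloc := ps_isLocalHom 𝒪 d
    have : algebraMap 𝒪 (PS 𝒪 d) a ∈ maximalIdeal (PS 𝒪 d) := by
      rw [mem_maximalIdeal, mem_nonunits_iff] at ha ⊢
      intro h
      exact ha (isUnit_of_map_unit (algebraMap 𝒪 (PS 𝒪 d)) a h)
    exact Ideal.Quotient.eq_zero_iff_mem.mpr this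
  let ψ : ResidueField 𝒪 →ₐ[𝒪] (PS 𝒪 d ⧸ maximalIdeal (PS 𝒪 d)) :=
    Ideal.Quotient.liftₐ (maximalIdeal 𝒪) (Algebra.ofId 𝒪 _) hkill
  have hx : L (fun i => ψ (algebraMap 𝒪 (ResidueField 𝒪) (c i))) :=
    hL.map hk hT ψ (test_isLocalHom hk _) hL.base
  have hx' : L (fun i => algebraMap 𝒪 (PS 𝒪 d ⧸ maximalIdeal (PS 𝒪 d)) (c i)) := by
    have : (fun i => ψ (algebraMap 𝒪 (ResidueField 𝒪) (c i))) =
        (fun i => algebraMap 𝒪 (PS 𝒪 d ⧸ maximalIdeal (PS 𝒪 d)) (c i)) := by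
      funext i
      exact ψ.commutes (c i)
    rw [← this]; exact hx
  refine ⟨hm, _, ⟨1, by rw [pow_one]⟩, hx', ?_⟩
  intro l
  simp only [coord, sub_self]
  exact (Ideal.Quotient.eq_zero_iff_mem.mpr (ps_X_mem 𝒪 d l)).symm

/-- the set of good ideals containing `m ^ n` -/
def goodSet (c : ι → 𝒪) (L : PointFamily 𝒪 ι) {d : ℕ} (idx : Fin d → ι) (n : ℕ) :
    Set (Ideal (PS 𝒪 d)) :=
  {J | Good c L idx J ∧ maximalIdeal (PS 𝒪 d) ^ n ≤ J}

/-- the smallest good ideal containing `m ^ n` -/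
noncomputable def Imin (c : ι → 𝒪) (L : PointFamily 𝒪 ι) {d : ℕ} (idx : Fin d → ι) (n : ℕ) :
    Ideal (PS 𝒪 d) :=
  sInf (goodSet c L idx n)

/-- **Lemma E.** -/
theorem Imin_mem {c : ι → 𝒪} {L : PointFamily 𝒪 ι} (hL : IsRigidFamily 𝒪 ι c L)
    {d : ℕ} {idx : Fin d → ι} (hsep : Sep c L idx) {n : ℕ} (hn : 1 ≤ n) :
    Imin c L idx n ∈ goodSet c L idx n := by
  apply sInf_mem_of_finite
  · exact (finite_ideals_above d n).subset (fun J hJ => hJ.2)
  · exact ⟨maximalIdeal (PS 𝒪 d), good_maximalIdeal hL idx, Ideal.pow_le_self (by omega)⟩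
  · intro J hJ J' hJ'
    exact ⟨hJ.1.inf hL hsep hJ'.1, le_inf hJ.2 hJ'.2⟩

theorem Imin_good {c : ι → 𝒪} {L : PointFamily 𝒪 ι} (hL : IsRigidFamily 𝒪 ι c L)
    {d : ℕ} {idx : Fin d → ι} (hsep : Sep c L idx) {n : ℕ} (hn : 1 ≤ n) :
    Good c L idx (Imin c L idx n) := (Imin_mem hL hsep hn).1

theorem pow_le_Imin (c : ι → 𝒪) (L : PointFamily 𝒪 ι) {d : ℕ} (idx : Fin d → ι) (n : ℕ) :
    maximalIdeal (PS 𝒪 d) ^ n ≤ Imin c L idx n :=
  le_sInf (fun J hJ => hJ.2)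

theorem Imin_le {c : ι → 𝒪} {L : PointFamily 𝒪 ι} {d : ℕ} {idx : Fin d → ι} {n : ℕ}
    {J : Ideal (PS 𝒪 d)} (hJ : Good c L idx J) (hn : maximalIdeal (PS 𝒪 d) ^ n ≤ J) :
    Imin c L idx n ≤ J :=
  sInf_le ⟨hJ, hn⟩

theorem Imin_zero (c : ι → 𝒪) (L : PointFamily 𝒪 ι) {d : ℕ} (idx : Fin d → ι) :
    Imin c L idx 0 = ⊤ := by
  have : goodSet c L idx 0 = (∅ : Set (Ideal (PS 𝒪 d))) := by
    ext J
    simp only [goodSet, Set.mem_setOf_eq, Set.mem_empty_iff_false, iff_false, not_and]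
    intro hJ h
    rw [pow_zero, Ideal.one_eq_top, top_le_iff] at h
    exact hJ.ne_top h
  rw [Imin, this, sInf_empty]

/-- **Lemma F.** the tower is strict -/
theorem Imin_succ {c : ι → 𝒪} {L : PointFamily 𝒪 ι} (hL : IsRigidFamily 𝒪 ι c L)
    {d : ℕ} {idx : Fin d → ι} (hsep : Sep c L idx) (n : ℕ) :
    Imin c L idx n = Imin c L idx (n + 1) ⊔ maximalIdeal (PS 𝒪 d) ^ n := by
  rcases Nat.eq_zero_or_pos n with rfl | hn
  · rw [Imin_zero, pow_zero, Ideal.one_eq_top, sup_top_eq]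
  apply le_antisymm
  · have hg : Good c L idx (Imin c L idx (n + 1)) := Imin_good hL hsep (by omega)
    have hle : Imin c L idx (n + 1) ⊔ maximalIdeal (PS 𝒪 d) ^ n ≤ maximalIdeal (PS 𝒪 d) :=
      sup_le (le_maximalIdeal hg.ne_top) (Ideal.pow_le_self (by omega))
    have hne : Imin c L idx (n + 1) ⊔ maximalIdeal (PS 𝒪 d) ^ n ≠ ⊤ :=
      ne_top_of_le_ne_top (Ideal.IsMaximal.ne_top inferInstance) hle
    exact Imin_le (hg.of_le hL le_sup_left hne) le_sup_right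
  · refine sup_le ?_ (pow_le_Imin c L idx n)
    exact Imin_le (Imin_good hL hsep hn)
      ((Ideal.pow_le_pow_right (Nat.le_succ n)).trans (pow_le_Imin c L idx n))

/-- the intersection of the tower -/
noncomputable def Iinf (c : ι → 𝒪) (L : PointFamily 𝒪 ι) {d : ℕ} (idx : Fin d → ι) :
    Ideal (PS 𝒪 d) :=
  ⨅ n, Imin c L idx n

theorem Imin_eq_Iinf_sup {c : ι → 𝒪} {L : PointFamily 𝒪 ι} (hL : IsRigidFamily 𝒪 ι c L)
    {d : ℕ} {idx : Fin d → ι} (hsep : Sep c L idx) (n : ℕ) :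
    Imin c L idx n = Iinf c L idx ⊔ maximalIdeal (PS 𝒪 d) ^ n :=
  tower (Imin c L idx) (Imin_succ hL hsep) n

theorem Iinf_le_Imin (c : ι → 𝒪) (L : PointFamily 𝒪 ι) {d : ℕ} (idx : Fin d → ι) (n : ℕ) :
    Iinf c L idx ≤ Imin c L idx n := iInf_le _ n

theorem Iinf_ne_top {c : ι → 𝒪} {L : PointFamily 𝒪 ι} (hL : IsRigidFamily 𝒪 ι c L)
    {d : ℕ} {idx : Fin d → ι} (hsep : Sep c L idx) : Iinf c L idx ≠ ⊤ :=
  ne_top_of_le_ne_top (Imin_good hL hsep le_rfl).ne_top (Iinf_le_Imin c L idx 1)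

end

end Fermat.Agent.S53

end
-- ===== PACK-END S53/Abstract4.lean

-- ===== PACK-BEGIN S59/TW/Aut/Spec.lean
section



/-!
# Row S59 / row 37, cell TW, LAYER 3: the automorphic module (`TW.AutStatement`) — interface
(AUT assembler helper511; board `coord/S59-AUT.md`)

Layer 2 (`TW/Spec.lean`, helper24) asks for `AutStatement`: a nonzero `T_min`-module `M₀` and, for
every Taylor–Wiles set `Q`, every package `P_Q` and every restriction map `res : T_Q → T_min`, an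
`AutLevel` (module `M_Q` over `T_Q`, diamond action, freeness over `𝒪[Δ_Q]`, `π : M_Q ↠ M₀` with
kernel the augmentation submodule) satisfying the comparison `Cmp`.

This file cuts `AutStatement` into leaves, in the Betti vocabulary of helper653
(`TW/H653/{Defs,Systems,Diamond}.lean`): `X_K(𝒪) = Additive K →+ 𝒪`, `TK`, `UK`, `diamondU`.
Only sorry-free definitions here.  The glue `aut_of_leaves` is in `TW/Aut/Skel.lean`.

## The objects (all CONCRETE, so that the leaves are independent)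

* `N₀ = wilesLevel p t Smin Smin`, `M_Q = bLevel N₀ qv = N₀ · ∏ q_j` (NOT `N₀ · ∏ q_j²`);
* `Δ_Q = Delta p qv = ∏ (ℤ/q_j)ˣ / (p^{m_j}-th powers)`, `κ_Q = kappa : Γ₀(M_Q) → Δ_Q`,
  `K_Q = KQ p N₀ qv = ker κ_Q = GammaH M_Q (ker χ_Q)` (`= MFree.kerSub κ_Q` by `rfl`);
* `M_Q := V`, THE localisation of `X_{K_Q}(𝒪)` at the maximal ideal
  `(𝔪_𝒪, T_ℓ - c_ℓ (ℓ ∉ Smin ∪ Q, c_ℓ ↦ θ_Q(T_ℓ)), U_{q_j} - α_j)` (`IsLocPart`), where `α_j ∈ 𝒪`
  lifts ONE of the two eigenvalues of `ρ̄(Frob_{q_j})`.  The localisation at `U_q - α` is forced by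
  the frozen quantifier order (`M₀` is chosen before `Q`: review of helper864);
* `M₀ := V₀`, the localisation of `X_{Γ₀(N₀)}(𝒪)` at `(𝔪_𝒪, T_ℓ - c_ℓ)`;
* `T_Q = P_Q.T` acts on `V` through `t_ℓ = ⟨ℓ⟩^h T_ℓ` (`h` is found by the owner of MODQ,
  `2h ≡ -1` modulo the exponent of `Δ_Q`: `IsHalf`); the diamond action of `AutLevel` is the plain one
  (`Cmp` does not depend on the normalisation).

## Leaves (each is a `Prop`; prove `theorem foo : FooStatement` VERBATIM)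

| leaf | Prop | content | inputs |
|---|---|---|---|
| IDEM   | `IdemStatement`    | the localisation `V` exists, for ANY `K`, ANY eigen-system | Mathlib + H653 commutation; `X_K(𝒪)` finite free |
| MOD0   | `Mod0Statement`    | `T_min` acts on `V₀`, `T_ℓ ↦ TK ℓ` | ES (S21) + `heckeLocal` (`S59/H7`) |
| NONTRIV| `NontrivStatement` | `V₀ ≠ 0` | ES + faithfulness of the Hecke algebra on `S₂` |
| MODQ   | `ModQStatement`    | `T_Q = heckeLocal (N₀ Q²)` acts on `V`, `T_ℓ ↦ ⟨ℓ⟩^h TK ℓ` | TW-ES (helper658) + TW-TWIST (helper564) |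
| FREE   | `FreeQStatement`   | `V` has an `𝒪`-basis `⟨g^e⟩ b_i` | M-FREE (`MFree.free`, on main) + (Ell) at `p = 3` |
| CTRL   | `CtrlStatement`    | `π : V ↠ V₀`, Hecke-equivariant, `ker π = I_Δ V` | M-FREE (ker cor, cor onto) + TW-CTRL (helper105) |
| CMP    | `CmpStatement`     | `(w - 1) V = (⟨a⟩_j - 1) V` for every inertia value `w` | TW-ALG (helper314): (T) + (R) ⇐ S31, frozen S36, E2 |
-/

set_option autoImplicit false

open Polynomial IsLocalRing CongruenceSubgroup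
open scoped MatrixGroups

namespace Fermat.Agent.S59.TW.Aut

open Fermat.Agent.S59.Arch Fermat.Agent.S59.TW.H959 Fermat.Agent.S59.TW.H653

/-! ## The Betti level of a Taylor–Wiles set -/

section Level

variable (p N₀ : ℕ) {r : ℕ} (qv : Fin r → ℕ)

/-- The Betti level `M_Q = N₀ · ∏ q_j` of the Taylor–Wiles set `Q = {q_j}`. -/
def bLevel : ℕ := N₀ * ∏ j, qv j

theorem dvd_bLevel (j : Fin r) : qv j ∣ bLevel N₀ qv :=
  Dvd.dvd.mul_left (Finset.dvd_prod_of_mem qv (Finset.mem_univ j)) N₀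

theorem self_dvd_bLevel : N₀ ∣ bLevel N₀ qv := Dvd.intro _ rfl

/-- The subgroup of the `p^{m_j}`-th powers, `m_j = v_p(q_j - 1)`. -/
def powSub : Subgroup (∀ j : Fin r, (ZMod (qv j))ˣ) :=
  Subgroup.pi Set.univ fun j =>
    (powMonoidHom (p ^ padicValNat p (qv j - 1)) : (ZMod (qv j))ˣ →* (ZMod (qv j))ˣ).range

/-- `Δ_Q`: the product of the `p`-Sylow quotients of the `(ℤ/q_j)ˣ`. -/
abbrev Delta : Type := (∀ j : Fin r, (ZMod (qv j))ˣ) ⧸ powSub p qv

/-- Reduction `(ℤ/M_Q)ˣ → ∏ (ℤ/q_j)ˣ`. -/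
def red : (ZMod (bLevel N₀ qv))ˣ →* ∀ j : Fin r, (ZMod (qv j))ˣ :=
  MonoidHom.pi fun j => ZMod.unitsMap (dvd_bLevel N₀ qv j)

/-- `χ_Q : (ℤ/M_Q)ˣ → Δ_Q`. -/
def chi : (ZMod (bLevel N₀ qv))ˣ →* Delta p qv :=
  (QuotientGroup.mk' (powSub p qv)).comp (red N₀ qv)

/-- `κ_Q : Γ₀(M_Q) → Δ_Q`, `γ ↦ (d mod q_j)_j`. -/
def kappa : Gamma0 (bLevel N₀ qv) →* Delta p qv :=
  (chi p N₀ qv).comp (dUnit (bLevel N₀ qv))

/-- `K_Q = ker κ_Q`, the group `Γ₀(N₀) ∩ Γ_H(Q)` of Taylor–Wiles. -/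
def KQ : Subgroup SL(2, ℤ) := GammaH (bLevel N₀ qv) (chi p N₀ qv).ker

theorem isMid_KQ : IsMid (bLevel N₀ qv) (KQ p N₀ qv) := isMid_GammaH _ _

/-- `K_Q` in the vocabulary of block M-FREE: `K_Q = MFree.kerSub κ_Q`. -/
theorem KQ_eq_ker :
    KQ p N₀ qv = (kappa p N₀ qv).ker.map (Gamma0 (bLevel N₀ qv)).subtype := rfl

/-- A lift of `a ∈ ∏ (ℤ/q_j)ˣ` to `(ℤ/M_Q)ˣ` (any: the diamond operator of `K_Q` depends only on
the class of `red u` in `Δ_Q`). -/
noncomputable def liftU (a : ∀ j : Fin r, (ZMod (qv j))ˣ) : (ZMod (bLevel N₀ qv))ˣ :=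
  open scoped Classical in if h : ∃ u, red N₀ qv u = a then h.choose else 1

theorem red_liftU {a : ∀ j : Fin r, (ZMod (qv j))ˣ} (h : ∃ u, red N₀ qv u = a) :
    red N₀ qv (liftU N₀ qv a) = a := by
  unfold liftU
  rw [dif_pos h]
  exact h.choose_spec

end Level

/-- The class of `ℓ` in `(ℤ/M)ˣ` (`1` if `ℓ` is not prime to `M`). -/
noncomputable def uOf (M ℓ : ℕ) : (ZMod M)ˣ :=
  open scoped Classical in if h : Nat.Coprime ℓ M then ZMod.unitOfCoprime ℓ h else 1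

theorem coe_uOf {M ℓ : ℕ} (h : Nat.Coprime ℓ M) : ((uOf M ℓ : (ZMod M)ˣ) : ZMod M) = ℓ := by
  unfold uOf
  rw [dif_pos h]
  rfl

/-! ## The localisation of `X_K(𝒪)` at a maximal ideal of the Hecke algebra -/

section Loc

variable {M : ℕ} {K : Subgroup SL(2, ℤ)} (hK : IsMid M K)
  {𝒪 : Type} [CommRing 𝒪] [IsLocalRing 𝒪]

/-- `𝔪_𝒪 · X_K(𝒪)`. -/
def mX (K : Subgroup SL(2, ℤ)) (𝒪 : Type) [CommRing 𝒪] [IsLocalRing 𝒪] :
    Submodule 𝒪 (Additive K →+ 𝒪) :=
  maximalIdeal 𝒪 • (⊤ : Submodule 𝒪 (Additive K →+ 𝒪))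

/-- **`V` is the localisation of `X_K(𝒪)` at the maximal ideal `𝔫 = (𝔪_𝒪, T_ℓ - c, U_q - α)`**,
`(ℓ, c) ∈ Tset`, `(q, α) ∈ Uset`, of the algebra generated by all the `T_ℓ` (`ℓ ∤ M`), `U_q`
(`q ∣ M`) and the diamond operators:

* `V` is the image of a projector `e` commuting with all these operators;
* the generators of `𝔫` are nilpotent on `V / 𝔪_𝒪 V`;
* FULLNESS: `ker e / 𝔪_𝒪` contains no nonzero vector killed by all the generators of `𝔫`.

For `X_K(𝒪)` finite free over a complete discrete valuation ring `𝒪`, such a `V` exists and is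
unique (`IdemStatement`; it is `0` if `𝔫` is the unit ideal). -/
structure IsLocPart (Tset Uset : Set (ℕ × 𝒪)) (V : Submodule 𝒪 (Additive K →+ 𝒪)) : Prop where
  exists_proj : ∃ e : (Additive K →+ 𝒪) →ₗ[𝒪] (Additive K →+ 𝒪),
    (∀ x, e (e x) = e x) ∧ (∀ x, e x ∈ V) ∧ (∀ x ∈ V, e x = x) ∧
    (∀ (ℓ : ℕ) [Fact ℓ.Prime], ¬ ℓ ∣ M → ∀ x, e (TK M K ℓ x) = TK M K ℓ (e x)) ∧
    (∀ (q : ℕ) [Fact q.Prime], q ∣ M → ∀ x, e (UK K q x) = UK K q (e x)) ∧
    (∀ (u : (ZMod M)ˣ) (x), e (diamondU hK u x) = diamondU hK u (e x)) ∧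
    ∀ x, e x = 0 →
      (∀ (ℓ : ℕ) [Fact ℓ.Prime] (c : 𝒪), (ℓ, c) ∈ Tset → TK M K ℓ x - c • x ∈ mX K 𝒪) →
      (∀ (q : ℕ) [Fact q.Prime] (α : 𝒪), (q, α) ∈ Uset → UK K q x - α • x ∈ mX K 𝒪) →
      x ∈ mX K 𝒪
  nilp_T : ∀ (ℓ : ℕ) [Fact ℓ.Prime] (c : 𝒪), (ℓ, c) ∈ Tset →
    ∃ m : ℕ, ∀ x ∈ V, (fun y => TK M K ℓ y - c • y)^[m] x ∈ mX K 𝒪
  nilp_U : ∀ (q : ℕ) [Fact q.Prime] (α : 𝒪), (q, α) ∈ Uset →
    ∃ m : ℕ, ∀ x ∈ V, (fun y => UK K q y - α • y)^[m] x ∈ mX K 𝒪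

end Loc

/-! ## The eigen-systems -/

section Ctx

variable {p : ℕ}
  {𝒪 : Type} [CommRing 𝒪] [IsDomain 𝒪] [IsDiscreteValuationRing 𝒪]
  [IsAdicComplete (maximalIdeal 𝒪) 𝒪]
  {ρbar : ResidualGaloisRep (ResidueField 𝒪)} {t : PType} {Smin : Finset ℕ}

/-- The pairs `(ℓ, c)`: `ℓ` a good prime of the package `P` and `c ∈ 𝒪` a lift of `θ(T_ℓ)`. -/
def TsetOf {Sig : Finset ℕ} [NeZero (wilesLevel p t Smin Sig)]
    (P : HeckePkg p 𝒪 ρbar t Smin Sig) : Set (ℕ × 𝒪) :=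
  {x | ∃ (hℓ : x.1.Prime) (hℓN : ¬ x.1 ∣ wilesLevel p t Smin Sig)
    (hℓS : x.1 ∉ (↑Sig : Set ℕ)),
    residue 𝒪 x.2 = P.θ (CuspForm.heckeAlgebra.T hℓ hℓN hℓS)}

/-- The pairs `(q_j, α_j)`. -/
def UsetOf {r : ℕ} (qv : Fin r → ℕ) (α : Fin r → 𝒪) : Set (ℕ × 𝒪) :=
  {x | ∃ j, x = (qv j, α j)}

/-- `α_j` lifts an eigenvalue of `ρ̄(Frob_{q_j})`, for every `j`. -/
def IsFrobLift (ρbar : ResidualGaloisRep (ResidueField 𝒪)) {r : ℕ} (qv : Fin r → ℕ)
    (α : Fin r → 𝒪) : Prop :=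
  ∀ j, ∃ (P : ValuationSubring Qb) (φ : GQ) (β : ResidueField 𝒪),
    P.LiesOverPrime (qv j) ∧ P.IsFrobeniusAt φ (qv j) ∧ residue 𝒪 (α j) ≠ β ∧
    LinearMap.charpoly (ρbar.ρ φ) = (X - C (residue 𝒪 (α j))) * (X - C β)

/-- The algebra action `a` of the Hecke ring of the package `P` on `V ⊆ X_K(𝒪)` maps `T_ℓ` to the
operator `τ ℓ`, for every good prime `ℓ` of `P`. -/
def ActsBy {Sig : Finset ℕ} [NeZero (wilesLevel p t Smin Sig)]
    (P : HeckePkg p 𝒪 ρbar t Smin Sig) {K : Subgroup SL(2, ℤ)}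
    (V : Submodule 𝒪 (Additive K →+ 𝒪)) (a : P.T →ₐ[𝒪] Module.End 𝒪 V)
    (τ : ∀ ℓ : ℕ, ℓ.Prime → (Additive K →+ 𝒪) → (Additive K →+ 𝒪)) : Prop :=
  ∀ (ℓ : ℕ) (hℓ : ℓ.Prime) (hℓN : ¬ ℓ ∣ wilesLevel p t Smin Sig)
    (hℓS : ℓ ∉ (↑Sig : Set ℕ)) (v : V),
    ((a (P.H.π (CuspForm.heckeAlgebra.T hℓ hℓN hℓS)) v : V) : Additive K →+ 𝒪) = τ ℓ hℓ v

/-- `T_ℓ` on `X_K(𝒪)`, with the primality of `ℓ` as an explicit argument. -/
noncomputable def tOp (M : ℕ) (K : Subgroup SL(2, ℤ)) (𝒪 : Type) [CommRing 𝒪]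
    (ℓ : ℕ) (hℓ : ℓ.Prime) (x : Additive K →+ 𝒪) : Additive K →+ 𝒪 :=
  @TK M K 𝒪 _ ℓ ⟨hℓ.ne_zero⟩ x

/-- `⟨ℓ⟩^h T_ℓ` on `X_K(𝒪)`. -/
noncomputable def tOpTw {M : ℕ} {K : Subgroup SL(2, ℤ)} (hK : IsMid M K) (𝒪 : Type) [CommRing 𝒪]
    (h : ℕ) (ℓ : ℕ) (hℓ : ℓ.Prime) (x : Additive K →+ 𝒪) : Additive K →+ 𝒪 :=
  diamondU hK (uOf M ℓ ^ h) (tOp M K 𝒪 ℓ hℓ x)

end Ctx

/-! ## The leaves at the minimal level -/

section Min

variable {p : ℕ}
  {𝒪 : Type} [CommRing 𝒪] [IsDomain 𝒪] [IsDiscreteValuationRing 𝒪]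
  [IsAdicComplete (maximalIdeal 𝒪) 𝒪]
  {ρbar : ResidualGaloisRep (ResidueField 𝒪)} {t : PType} {Smin : Finset ℕ}
  [NeZero (wilesLevel p t Smin Smin)]

/-- `V₀` is the localisation of `X_{Γ₀(N₀)}(𝒪)` at the maximal ideal of the package `P₀`. -/
def IsMinPart (P₀ : HeckePkg p 𝒪 ρbar t Smin Smin)
    (V₀ : Submodule 𝒪 (Additive (Gamma0 (wilesLevel p t Smin Smin)) →+ 𝒪)) : Prop :=
  IsLocPart (isMid_Gamma0 (wilesLevel p t Smin Smin)) (TsetOf P₀) ∅ V₀

/-- The action of `T_min` on `V₀`: `T_ℓ ↦ T_ℓ`. -/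
def IsMinAction (P₀ : HeckePkg p 𝒪 ρbar t Smin Smin)
    (V₀ : Submodule 𝒪 (Additive (Gamma0 (wilesLevel p t Smin Smin)) →+ 𝒪))
    (a₀ : P₀.T →ₐ[𝒪] Module.End 𝒪 V₀) : Prop :=
  ActsBy P₀ V₀ a₀ (tOp (wilesLevel p t Smin Smin) (Gamma0 (wilesLevel p t Smin Smin)) 𝒪)

end Min

/-! ## The leaves at the level `Q` -/

section LevelQ

variable {p : ℕ}
  {𝒪 : Type} [CommRing 𝒪] [IsDomain 𝒪] [IsDiscreteValuationRing 𝒪]
  [IsAdicComplete (maximalIdeal 𝒪) 𝒪]
  {ρbar : ResidualGaloisRep (ResidueField 𝒪)} {t : PType} {Smin : Finset ℕ}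
  {r : ℕ} {qv : Fin r → ℕ}
  [NeZero (wilesLevel p t Smin (Smin ∪ Finset.univ.image qv))]

/-- The Betti module at the level `Q`: `X_{K_Q}(𝒪)`. -/
abbrev XQ (p : ℕ) (t : PType) (Smin : Finset ℕ) {r : ℕ} (qv : Fin r → ℕ) (𝒪 : Type)
    [CommRing 𝒪] : Type :=
  Additive (KQ p (wilesLevel p t Smin Smin) qv) →+ 𝒪

/-- `V` is the localisation of `X_{K_Q}(𝒪)` at the maximal ideal of the package `P_Q` and of
`U_{q_j} - α_j`. -/
def IsQPart (PQ : HeckePkg p 𝒪 ρbar t Smin (Smin ∪ Finset.univ.image qv)) (α : Fin r → 𝒪)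
    (V : Submodule 𝒪 (XQ p t Smin qv 𝒪)) : Prop :=
  IsLocPart (isMid_KQ p (wilesLevel p t Smin Smin) qv) (TsetOf PQ) (UsetOf qv α) V

/-- `h` is `-1/2` modulo the exponent of `Δ_Q`: `p^{m_j} ∣ 2 h + 1` for all `j`
(for example `h = (∏ p^{m_j} - 1) / 2`). -/
def IsHalf (p : ℕ) {r : ℕ} (qv : Fin r → ℕ) (h : ℕ) : Prop :=
  ∀ j : Fin r, p ^ padicValNat p (qv j - 1) ∣ 2 * h + 1

/-- The action of `T_Q` on `V`: `T_ℓ ↦ ⟨ℓ⟩^h T_ℓ`. -/
def IsQAction (PQ : HeckePkg p 𝒪 ρbar t Smin (Smin ∪ Finset.univ.image qv))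
    (V : Submodule 𝒪 (XQ p t Smin qv 𝒪)) (h : ℕ) (a : PQ.T →ₐ[𝒪] Module.End 𝒪 V) : Prop :=
  ActsBy PQ V a (tOpTw (isMid_KQ p (wilesLevel p t Smin Smin) qv) 𝒪 h)

/-- The plain diamond operator of `a ∈ ∏ (ℤ/q_j)ˣ` on `X_{K_Q}(𝒪)`. -/
noncomputable def diaQ (p : ℕ) (t : PType) (Smin : Finset ℕ) {r : ℕ} (qv : Fin r → ℕ)
    (𝒪 : Type) [CommRing 𝒪] (a : ∀ j : Fin r, (ZMod (qv j))ˣ) (x : XQ p t Smin qv 𝒪) :
    XQ p t Smin qv 𝒪 :=
  diamondU (isMid_KQ p (wilesLevel p t Smin Smin) qv) (liftU (wilesLevel p t Smin Smin) qv a) x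

/-- **FREE at `V`**: for primitive roots `g_j`, an `𝒪`-basis of the form `⟨g^e⟩ b_i`. -/
def FreeAt (V : Submodule 𝒪 (XQ p t Smin qv 𝒪)) : Prop :=
  ∀ g : ∀ j : Fin r, (ZMod (qv j))ˣ, (∀ j, orderOf (g j) = qv j - 1) →
    ∃ (d : ℕ) (b : Fin d → V), ∀ y : V,
      ∃! c : Fin d → (∀ j : Fin r, Fin (p ^ padicValNat p (qv j - 1))) → 𝒪,
        (y : XQ p t Smin qv 𝒪) =
          ∑ i, ∑ e, c i e • diaQ p t Smin qv 𝒪 (fun j => g j ^ (e j : ℕ)) (b i)

/-- **CTRL at `(V₀, V)`**: a surjective `𝒪`-linear map `π : V → V₀`, commuting with the `T_ℓ`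
(`ℓ ∤ M_Q`), whose kernel is the augmentation submodule of the diamond action. -/
def CtrlAt (V₀ : Submodule 𝒪 (Additive (Gamma0 (wilesLevel p t Smin Smin)) →+ 𝒪))
    (V : Submodule 𝒪 (XQ p t Smin qv 𝒪)) : Prop :=
  ∃ π : V →ₗ[𝒪] V₀, Function.Surjective π ∧
    (∀ (ℓ : ℕ) (hℓ : ℓ.Prime), ¬ ℓ ∣ bLevel (wilesLevel p t Smin Smin) qv →
      ∀ v v' : V, (v' : XQ p t Smin qv 𝒪) =
          tOp (bLevel (wilesLevel p t Smin Smin) qv) (KQ p (wilesLevel p t Smin Smin) qv) 𝒪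
            ℓ hℓ v →
        ((π v' : V₀) : Additive (Gamma0 (wilesLevel p t Smin Smin)) →+ 𝒪) =
          tOp (wilesLevel p t Smin Smin) (Gamma0 (wilesLevel p t Smin Smin)) 𝒪 ℓ hℓ (π v)) ∧
    ∀ y : V, π y = 0 ↔
      y ∈ AddSubgroup.closure {z : V | ∃ (a : ∀ j : Fin r, (ZMod (qv j))ˣ) (y' : V),
        (z : XQ p t Smin qv 𝒪) = diaQ p t Smin qv 𝒪 a y' - y'}

/-- **CMP at `(V, a)`**: the comparison of `AutLevel.Cmp`, for the action `a` of `T_Q` on `V` and
the plain diamond operators. -/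
def CmpAt (PQ : HeckePkg p 𝒪 ρbar t Smin (Smin ∪ Finset.univ.image qv))
    (V : Submodule 𝒪 (XQ p t Smin qv 𝒪)) (a : PQ.T →ₐ[𝒪] Module.End 𝒪 V) : Prop :=
  ∀ (j : Fin r) (P : ValuationSubring Qb), P.LiesOverPrime (qv j) →
    ∀ φ : GQ, P.IsFrobeniusAt φ (qv j) →
    ∀ σ ∈ P.inertiaSubgroupIn ℚ, ∀ u : (ZMod (qv j))ˣ, orderOf u = qv j - 1 →
      CycloAt (qv j) σ (u : ZMod (qv j)).val →
      ∀ a₀ w : PQ.T, IsInertiaValue PQ.H.ρ φ σ a₀ w →
        ∀ y : V, (∃ y' : V, y = a w y' - y') ↔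
          ∃ y' : V, (y : XQ p t Smin qv 𝒪) = diaQ p t Smin qv 𝒪 (Pi.mulSingle j u) y' - y'

end LevelQ

/-! ## The leaves, as closed statements -/

/-- **IDEM** (Mathlib + H653).  For every `K` between `Γ₁(M)` and `Γ₀(M)` (`M ≠ 0`) and every
eigen-system, the localisation of `X_K(𝒪)` exists.
(`X_K(𝒪)` is finite free over `𝒪`; the `𝒪`-algebra generated by the operators is commutative
[`H653.TK_comm`, `TK_UK_comm`, `UK_comm`, `diamond_TK`, `diamond_UK`] and finite over the complete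
ring `𝒪`, hence a product of local rings.) -/
def IdemStatement : Prop :=
  ∀ (𝒪 : Type) [CommRing 𝒪] [IsDomain 𝒪] [IsDiscreteValuationRing 𝒪]
    [IsAdicComplete (maximalIdeal 𝒪) 𝒪]
    (M : ℕ) (_hM : M ≠ 0) (K : Subgroup SL(2, ℤ)) (hK : IsMid M K) (Tset Uset : Set (ℕ × 𝒪)),
    (∀ x ∈ Tset, x.1.Prime ∧ ¬ x.1 ∣ M) → (∀ x ∈ Uset, x.1.Prime ∧ x.1 ∣ M) →
    ∃ V : Submodule 𝒪 (Additive K →+ 𝒪), IsLocPart hK Tset Uset V

/-- **MOD0.**  The Hecke ring `T_min` of the minimal package acts on `V₀`, `T_ℓ ↦ T_ℓ`.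
(Eichler–Shimura S21: a relation between the `T_ℓ` on `S₂(Γ₀(N₀))` holds on `Hom(Γ₀(N₀), ℂ)_par`;
`V₀` is cuspidal because `ρ̄` is irreducible; the elements outside the maximal ideal of `θ` act
invertibly on `V₀`.) -/
def Mod0Statement : Prop :=
  ∀ (p : ℕ) [Fact p.Prime]
    (𝒪 : Type) [CommRing 𝒪] [IsDomain 𝒪] [IsDiscreteValuationRing 𝒪]
    [IsAdicComplete (maximalIdeal 𝒪) 𝒪] [Finite (ResidueField 𝒪)] [CharZero 𝒪]
    (ρbar : ResidualGaloisRep (ResidueField 𝒪)) (Smin : Finset ℕ)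
    (_h : ResidualHyp p 𝒪 ρbar Smin) (t : PType)
    (_ht : (t = .flat ∧ (GaloisRepAdic.ofResidualGaloisRep ρbar).IsFlatAt p) ∨
      (t = .sord ∧ (GaloisRepAdic.ofResidualGaloisRep ρbar).IsStrictOrdinaryAt p ∧
        ¬ (GaloisRepAdic.ofResidualGaloisRep ρbar).IsFlatAt p))
    [NeZero (wilesLevel p t Smin Smin)]
    (P₀ : HeckePkg p 𝒪 ρbar t Smin Smin)
    (V₀ : Submodule 𝒪 (Additive (Gamma0 (wilesLevel p t Smin Smin)) →+ 𝒪)),
    IsMinPart P₀ V₀ → ∃ a₀ : P₀.T →ₐ[𝒪] Module.End 𝒪 V₀, IsMinAction P₀ V₀ a₀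

/-- **NONTRIV.**  `V₀ ≠ 0`: the eigen-system `θ` of the package occurs in `X_{Γ₀(N₀)}(𝒪)`.
(The Hecke algebra acts faithfully on `S₂(Γ₀(N₀))`, hence on `Hom(Γ₀(N₀), ℤ)_par` by S21.) -/
def NontrivStatement : Prop :=
  ∀ (p : ℕ) [Fact p.Prime]
    (𝒪 : Type) [CommRing 𝒪] [IsDomain 𝒪] [IsDiscreteValuationRing 𝒪]
    [IsAdicComplete (maximalIdeal 𝒪) 𝒪] [Finite (ResidueField 𝒪)] [CharZero 𝒪]
    (ρbar : ResidualGaloisRep (ResidueField 𝒪)) (Smin : Finset ℕ)
    (_h : ResidualHyp p 𝒪 ρbar Smin) (t : PType)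
    (_ht : (t = .flat ∧ (GaloisRepAdic.ofResidualGaloisRep ρbar).IsFlatAt p) ∨
      (t = .sord ∧ (GaloisRepAdic.ofResidualGaloisRep ρbar).IsStrictOrdinaryAt p ∧
        ¬ (GaloisRepAdic.ofResidualGaloisRep ρbar).IsFlatAt p))
    [NeZero (wilesLevel p t Smin Smin)]
    (P₀ : HeckePkg p 𝒪 ρbar t Smin Smin)
    (V₀ : Submodule 𝒪 (Additive (Gamma0 (wilesLevel p t Smin Smin)) →+ 𝒪)),
    IsMinPart P₀ V₀ → Nontrivial V₀

/-- **MODQ.**  The Hecke ring `T_Q = heckeLocal (N₀ Q²)` acts on `V ⊆ X_{K_Q}(𝒪)` through the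
twisted operators `⟨ℓ⟩^h T_ℓ`, for a suitable `h` with `2 h ≡ -1` modulo the exponent of `Δ_Q`.
(TW-ES: Eichler–Shimura for `K_Q` [helper658]; TW-TWIST: `f ↦ f ⊗ ψ^{-1/2}` from
`S₂(Γ₀(M_Q), ψ)` to `S₂(Γ₀(N₀ Q²))` [helper564]; semisimplicity of the `T_ℓ`.) -/
def ModQStatement : Prop :=
  ∀ (p : ℕ) [Fact p.Prime]
    (𝒪 : Type) [CommRing 𝒪] [IsDomain 𝒪] [IsDiscreteValuationRing 𝒪]
    [IsAdicComplete (maximalIdeal 𝒪) 𝒪] [Finite (ResidueField 𝒪)] [CharZero 𝒪]
    (ρbar : ResidualGaloisRep (ResidueField 𝒪)) (Smin : Finset ℕ)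
    (_h : ResidualHyp p 𝒪 ρbar Smin) (t : PType)
    (_ht : (t = .flat ∧ (GaloisRepAdic.ofResidualGaloisRep ρbar).IsFlatAt p) ∨
      (t = .sord ∧ (GaloisRepAdic.ofResidualGaloisRep ρbar).IsStrictOrdinaryAt p ∧
        ¬ (GaloisRepAdic.ofResidualGaloisRep ρbar).IsFlatAt p))
    [NeZero (wilesLevel p t Smin Smin)]
    (P₀ : HeckePkg p 𝒪 ρbar t Smin Smin)
    (n r : ℕ) (qv : Fin r → ℕ) (_hq : IsTWSet p ρbar Smin n qv)
    [NeZero (wilesLevel p t Smin (Smin ∪ Finset.univ.image qv))]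
    (PQ : HeckePkg p 𝒪 ρbar t Smin (Smin ∪ Finset.univ.image qv))
    (res : PQ.T →ₐ[𝒪] P₀.T) (_hres : IsRestriction P₀ PQ res)
    (α : Fin r → 𝒪) (_hα : IsFrobLift ρbar qv α)
    (V : Submodule 𝒪 (XQ p t Smin qv 𝒪)),
    IsQPart PQ α V →
      ∃ (h : ℕ) (a : PQ.T →ₐ[𝒪] Module.End 𝒪 V), IsHalf p qv h ∧ IsQAction PQ V h a

/-- **FREE.**  `V` is free over `𝒪[Δ_Q]`: it has an `𝒪`-basis `⟨g^e⟩ b_i`.
(`MFree.free` at `κ = kappa`, `e` = the projector of `V`, `t = T_l` for an auxiliary prime `l`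
with `θ(T_l) ≠ l + 1`.  Hypothesis (Ell) of `MFree.free` — the elements of finite order of
`Γ₀(M_Q)` lie in `K_Q` — holds if `p ≥ 5` or if `N₀` has a prime factor `≡ 2` modulo `3`; in the
remaining case `p = 3` pass to an auxiliary level `Γ₀(M_Q r)`.) -/
def FreeQStatement : Prop :=
  ∀ (p : ℕ) [Fact p.Prime]
    (𝒪 : Type) [CommRing 𝒪] [IsDomain 𝒪] [IsDiscreteValuationRing 𝒪]
    [IsAdicComplete (maximalIdeal 𝒪) 𝒪] [Finite (ResidueField 𝒪)] [CharZero 𝒪]
    (ρbar : ResidualGaloisRep (ResidueField 𝒪)) (Smin : Finset ℕ)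
    (_h : ResidualHyp p 𝒪 ρbar Smin) (t : PType)
    (_ht : (t = .flat ∧ (GaloisRepAdic.ofResidualGaloisRep ρbar).IsFlatAt p) ∨
      (t = .sord ∧ (GaloisRepAdic.ofResidualGaloisRep ρbar).IsStrictOrdinaryAt p ∧
        ¬ (GaloisRepAdic.ofResidualGaloisRep ρbar).IsFlatAt p))
    [NeZero (wilesLevel p t Smin Smin)]
    (P₀ : HeckePkg p 𝒪 ρbar t Smin Smin)
    (n r : ℕ) (qv : Fin r → ℕ) (_hq : IsTWSet p ρbar Smin n qv)
    [NeZero (wilesLevel p t Smin (Smin ∪ Finset.univ.image qv))]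
    (PQ : HeckePkg p 𝒪 ρbar t Smin (Smin ∪ Finset.univ.image qv))
    (res : PQ.T →ₐ[𝒪] P₀.T) (_hres : IsRestriction P₀ PQ res)
    (α : Fin r → 𝒪) (_hα : IsFrobLift ρbar qv α)
    (V : Submodule 𝒪 (XQ p t Smin qv 𝒪)),
    IsQPart PQ α V → FreeAt V

/-- **CTRL.**  `V / I_Δ V ≅ V₀`.
(`MFree.free`: `ker (cor | V) = I_Δ V` and `cor` is onto; TW-CTRL [helper105]: the localisation of
`X_{Γ₀(M_Q)}(𝒪)` at `(θ, U_q - α)` is isomorphic to `V₀` by the transfers `t₂`.) -/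
def CtrlStatement : Prop :=
  ∀ (p : ℕ) [Fact p.Prime]
    (𝒪 : Type) [CommRing 𝒪] [IsDomain 𝒪] [IsDiscreteValuationRing 𝒪]
    [IsAdicComplete (maximalIdeal 𝒪) 𝒪] [Finite (ResidueField 𝒪)] [CharZero 𝒪]
    (ρbar : ResidualGaloisRep (ResidueField 𝒪)) (Smin : Finset ℕ)
    (_h : ResidualHyp p 𝒪 ρbar Smin) (t : PType)
    (_ht : (t = .flat ∧ (GaloisRepAdic.ofResidualGaloisRep ρbar).IsFlatAt p) ∨
      (t = .sord ∧ (GaloisRepAdic.ofResidualGaloisRep ρbar).IsStrictOrdinaryAt p ∧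
        ¬ (GaloisRepAdic.ofResidualGaloisRep ρbar).IsFlatAt p))
    [NeZero (wilesLevel p t Smin Smin)]
    (P₀ : HeckePkg p 𝒪 ρbar t Smin Smin)
    (n r : ℕ) (qv : Fin r → ℕ) (_hq : IsTWSet p ρbar Smin n qv)
    [NeZero (wilesLevel p t Smin (Smin ∪ Finset.univ.image qv))]
    (PQ : HeckePkg p 𝒪 ρbar t Smin (Smin ∪ Finset.univ.image qv))
    (res : PQ.T →ₐ[𝒪] P₀.T) (_hres : IsRestriction P₀ PQ res)
    (α : Fin r → 𝒪) (_hα : IsFrobLift ρbar qv α)
    (V₀ : Submodule 𝒪 (Additive (Gamma0 (wilesLevel p t Smin Smin)) →+ 𝒪))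
    (V : Submodule 𝒪 (XQ p t Smin qv 𝒪)),
    IsMinPart P₀ V₀ → IsQPart PQ α V → CtrlAt V₀ V

/-- **CMP.**  The comparison of the Galois and the diamond structure on `V`.
(Route TW-ALG, helper314 `TW/H314/CmpTR.lean`: (T) `(w - 1) V ⊆ (⟨u⟩_j - 1) V` and (R).) -/
def CmpStatement : Prop :=
  ∀ (p : ℕ) [Fact p.Prime]
    (𝒪 : Type) [CommRing 𝒪] [IsDomain 𝒪] [IsDiscreteValuationRing 𝒪]
    [IsAdicComplete (maximalIdeal 𝒪) 𝒪] [Finite (ResidueField 𝒪)] [CharZero 𝒪]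
    (ρbar : ResidualGaloisRep (ResidueField 𝒪)) (Smin : Finset ℕ)
    (_h : ResidualHyp p 𝒪 ρbar Smin) (t : PType)
    (_ht : (t = .flat ∧ (GaloisRepAdic.ofResidualGaloisRep ρbar).IsFlatAt p) ∨
      (t = .sord ∧ (GaloisRepAdic.ofResidualGaloisRep ρbar).IsStrictOrdinaryAt p ∧
        ¬ (GaloisRepAdic.ofResidualGaloisRep ρbar).IsFlatAt p))
    [NeZero (wilesLevel p t Smin Smin)]
    (P₀ : HeckePkg p 𝒪 ρbar t Smin Smin)
    (n r : ℕ) (qv : Fin r → ℕ) (_hq : IsTWSet p ρbar Smin n qv)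
    [NeZero (wilesLevel p t Smin (Smin ∪ Finset.univ.image qv))]
    (PQ : HeckePkg p 𝒪 ρbar t Smin (Smin ∪ Finset.univ.image qv))
    (res : PQ.T →ₐ[𝒪] P₀.T) (_hres : IsRestriction P₀ PQ res)
    (α : Fin r → 𝒪) (_hα : IsFrobLift ρbar qv α)
    (V : Submodule 𝒪 (XQ p t Smin qv 𝒪)) (h : ℕ) (a : PQ.T →ₐ[𝒪] Module.End 𝒪 V),
    IsQPart PQ α V → IsHalf p qv h → IsQAction PQ V h a → CmpAt PQ V a

end Fermat.Agent.S59.TW.Aut

end
-- ===== PACK-END S59/TW/Aut/Spec.lean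

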