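import Mathlib
import Fermat.Prelude.Def_GaloisRep_StrictOrdinary
import Fermat.Agent.Pack.S43GC.G0E9L1
import Fermat.Agent.Pack.S43GC.G0E13L3
import Fermat.Agent.Pack.S43GC.G0E0L0
import Fermat.Agent.Pack.S44C.G0E0L1
import Fermat.Agent.Pack.S43GC.G0E14L1
import Fermat.Agent.Pack.S43GC.G0E1L2
import Fermat.Agent.Pack.S43GC.G0E14L3
import Fermat.Agent.Pack.S43GC.G0E14L2
import Fermat.Agent.Pack.S43GC.G0E10L2
import Fermat.Agent.Pack.S43GC.G0E11L0
import Fermat.Agent.Pack.S43GC.G0E11L2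
import Fermat.Agent.Pack.S43GC.G0E14L0
import Fermat.Agent.Pack.S43GC.G0E15L2
import Fermat.Agent.Pack.S44C.G0E6L0
import Fermat.Agent.Pack.S43GC.G0E15L3
import Fermat.Agent.Pack.S43GC.G0E15L1
import Fermat.Agent.Pack.S43GC.G0E15L0
import Fermat.Agent.Pack.S43GC.G0E11L1
import Fermat.Agent.Pack.S44C.G0E0L3
import Fermat.Agent.Pack.Fast891

-- ===== PACK-BEGIN S55/K/AdapterPTH723.lean
section



/-!
# S55 / layer K → layer D adapters (helper723)

The outputs of layer K (`K/Spec.lean`, cochain form, coefficients `Bridge.muP p`, induced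
modules `K.indG`) in the exact shape of the inputs of layer D (`PT/Spec.lean`, coefficients
`PT.mu p = ofChar (cycloChar p)`, induced modules `PT.indRep`):

* `surj2Glob_of : K.SurjH2Spec p S → p ≠ 2 → pPrime p ∈ S → PT.Surj2GlobSpec p S`  (A3);
* `cap_of       : K.CapSpec p S → p ≠ 2 → pPrime p ∈ S → PT.CapSpec p S`          (A8).
-/

set_option autoImplicit false
set_option linter.unusedSectionVars false
set_option linter.style.haveILetI false

noncomputable section

namespace Fermat.Agent.S55.K.H723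

open groupCohomology Fermat.Agent.S55.PT Fermat.Agent.S55.Bridge ExtCitation

variable (p : ℕ) [Fact p.Prime] (S : Finset Nat.Primes)

/-- **A3**: the `K`-form of right exactness of `H²_S` gives the `PT`-form. -/
theorem surj2Glob_of (h : Fermat.Agent.S55.K.SurjH2Spec p S) (hp2 : p ≠ 2)
    (hpS : pPrime p ∈ S) : Fermat.Agent.S55.PT.Surj2GlobSpec p S := by
  intro P N φ hφ hP hPs hNs hsurj
  have hN : FiniteDimensional (ZMod p) N := by
    haveI := hP
    exact Module.Finite.of_surjective φ hsurj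
  exact h hp2 hpS P N hP hN hPs hNs φ hφ hsurj

/-! ### comparison of the two induced modules -/

section Compare

/-- the coefficient identification `μ = ofChar χ_p ≃ μ_p` (any linear equivalence is
equivariant, both actions being scalar multiplication by `χ_p`) -/
def coeffEquiv : (mu p : Rep.{0, 0, 0} (ZMod p) _root_.Fermat.Agent.S55.PT.GQ) ≃ₗ[ZMod p]
    (muP p : Rep.{0, 0, 0} (ZMod p) _root_.Fermat.Agent.S55.PT.GQ) :=
  muPLinearEquiv p

variable (U : Subgroup _root_.Fermat.Agent.S55.PT.GQ)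

/-- `Ind_U μ → Ind_U μ_p` (`PT` model to `K` model), coefficientwise `muPLinearEquiv`. -/
def toK : ((_root_.Fermat.Agent.S55.PT.GQ ⧸ U) →₀ (mu p : Rep.{0, 0, 0} (ZMod p) _root_.Fermat.Agent.S55.PT.GQ)) →ₗ[ZMod p]
    ((_root_.Fermat.Agent.S55.PT.GQ ⧸ U) →₀ (muP p : Rep.{0, 0, 0} (ZMod p) _root_.Fermat.Agent.S55.PT.GQ)) :=
  Finsupp.mapRange.linearMap (coeffEquiv p).toLinearMap

/-- `Ind_U μ_p → Ind_U μ` (`K` model to `PT` model). -/
def ofK : ((_root_.Fermat.Agent.S55.PT.GQ ⧸ U) →₀ (muP p : Rep.{0, 0, 0} (ZMod p) _root_.Fermat.Agent.S55.PT.GQ)) →ₗ[ZMod p]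
    ((_root_.Fermat.Agent.S55.PT.GQ ⧸ U) →₀ (mu p : Rep.{0, 0, 0} (ZMod p) _root_.Fermat.Agent.S55.PT.GQ)) :=
  Finsupp.mapRange.linearMap (coeffEquiv p).symm.toLinearMap

lemma toK_single (x : _root_.Fermat.Agent.S55.PT.GQ ⧸ U) (m : (mu p : Rep.{0, 0, 0} (ZMod p) _root_.Fermat.Agent.S55.PT.GQ)) :
    toK p U (Finsupp.single x m) = Finsupp.single x (coeffEquiv p m) := by
  rw [toK, Finsupp.mapRange.linearMap_apply, Finsupp.mapRange_single]
  rfl

lemma ofK_single (x : _root_.Fermat.Agent.S55.PT.GQ ⧸ U) (m : (muP p : Rep.{0, 0, 0} (ZMod p) _root_.Fermat.Agent.S55.PT.GQ)) :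
    ofK p U (Finsupp.single x m) = Finsupp.single x ((coeffEquiv p).symm m) := by
  rw [ofK, Finsupp.mapRange.linearMap_apply, Finsupp.mapRange_single]
  rfl

lemma ofK_toK (a : (_root_.Fermat.Agent.S55.PT.GQ ⧸ U) →₀ (mu p : Rep.{0, 0, 0} (ZMod p) _root_.Fermat.Agent.S55.PT.GQ)) :
    ofK p U (toK p U a) = a := by
  have h : (ofK p U) ∘ₗ (toK p U) = LinearMap.id := by
    apply Finsupp.lhom_ext
    intro x m
    rw [LinearMap.comp_apply, toK_single, ofK_single, LinearEquiv.symm_apply_apply]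
    rfl
  exact LinearMap.congr_fun h a

lemma mu_ρ_apply (g : _root_.Fermat.Agent.S55.PT.GQ) (m : (mu p : Rep.{0, 0, 0} (ZMod p) _root_.Fermat.Agent.S55.PT.GQ)) :
    (mu p).ρ g m = ((cycloChar p g : (ZMod p)ˣ) : ZMod p) • m := by
  show ((Representation.trivial (ZMod p) _root_.Fermat.Agent.S55.PT.GQ (ZMod p)).twist (cycloChar p)) g m = _
  simp [Representation.twist_apply_apply]

lemma muP_ρ_apply (g : _root_.Fermat.Agent.S55.PT.GQ) (m : (muP p : Rep.{0, 0, 0} (ZMod p) _root_.Fermat.Agent.S55.PT.GQ)) :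
    (muP p).ρ g m = ((cycloChar p g : (ZMod p)ˣ) : ZMod p) • m := rfl

/-- the `K`-action on `Ind_U μ_p`, as a linear map of `Finsupp`s -/
def actK (g : _root_.Fermat.Agent.S55.PT.GQ) : ((_root_.Fermat.Agent.S55.PT.GQ ⧸ U) →₀ (muP p : Rep.{0, 0, 0} (ZMod p) _root_.Fermat.Agent.S55.PT.GQ)) →ₗ[ZMod p]
    ((_root_.Fermat.Agent.S55.PT.GQ ⧸ U) →₀ (muP p : Rep.{0, 0, 0} (ZMod p) _root_.Fermat.Agent.S55.PT.GQ)) :=
  indρ (MonoidHom.id _root_.Fermat.Agent.S55.PT.GQ) U (muP p) g

lemma actK_single (g : _root_.Fermat.Agent.S55.PT.GQ) (x : _root_.Fermat.Agent.S55.PT.GQ ⧸ U) (m : (muP p : Rep.{0, 0, 0} (ZMod p) _root_.Fermat.Agent.S55.PT.GQ)) :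
    actK p U g (Finsupp.single x m) = Finsupp.single (g • x) ((muP p).ρ g m) :=
  indρ_single (MonoidHom.id _root_.Fermat.Agent.S55.PT.GQ) U (muP p) g x m

variable {U} in
/-- the `K`-level change `Ind_U μ_p → Ind_V μ_p`, as a linear map of `Finsupp`s -/
def projK {V : Subgroup _root_.Fermat.Agent.S55.PT.GQ} (h : U ≤ V) :
    ((_root_.Fermat.Agent.S55.PT.GQ ⧸ U) →₀ (muP p : Rep.{0, 0, 0} (ZMod p) _root_.Fermat.Agent.S55.PT.GQ)) →ₗ[ZMod p]
      ((_root_.Fermat.Agent.S55.PT.GQ ⧸ V) →₀ (muP p : Rep.{0, 0, 0} (ZMod p) _root_.Fermat.Agent.S55.PT.GQ)) :=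
  indProj (MonoidHom.id _root_.Fermat.Agent.S55.PT.GQ) h (muP p)

variable {U} in
lemma projK_single {V : Subgroup _root_.Fermat.Agent.S55.PT.GQ} (h : U ≤ V) (x : _root_.Fermat.Agent.S55.PT.GQ ⧸ U)
    (m : (muP p : Rep.{0, 0, 0} (ZMod p) _root_.Fermat.Agent.S55.PT.GQ)) :
    projK p h (Finsupp.single x m) = Finsupp.single (Subgroup.quotientMapOfLE h x) m := by
  show Finsupp.lmapDomain _ _ _ (Finsupp.single x m) = _
  rw [Finsupp.lmapDomain_apply, Finsupp.mapDomain_single]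
  rfl

/-- `toK` is equivariant. -/
lemma toK_equivariant :
    IsEquivariant (A := indRep U (mu p)) (B := indG U (muP p)) (toK p U) := by
  intro g
  have h : (toK p U) ∘ₗ (indAct U (mu p) g) = (actK p U g) ∘ₗ (toK p U) := by
    apply Finsupp.lhom_ext
    intro x m
    rw [LinearMap.comp_apply, LinearMap.comp_apply, indAct_single, toK_single, toK_single,
      actK_single, mu_ρ_apply, muP_ρ_apply, map_smul]
  exact fun a => LinearMap.congr_fun h a

/-- `ofK` is equivariant. -/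
lemma ofK_equivariant :
    IsEquivariant (A := indG U (muP p)) (B := indRep U (mu p)) (ofK p U) := by
  intro g
  have h : (ofK p U) ∘ₗ (actK p U g) = (indAct U (mu p) g) ∘ₗ (ofK p U) := by
    apply Finsupp.lhom_ext
    intro x m
    rw [LinearMap.comp_apply, LinearMap.comp_apply, actK_single, ofK_single, ofK_single,
      indAct_single, mu_ρ_apply, muP_ρ_apply, map_smul]
  exact fun a => LinearMap.congr_fun h a

variable {U} in
/-- compatibility of the level change maps -/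
lemma toK_indLE {V : Subgroup _root_.Fermat.Agent.S55.PT.GQ} (h : U ≤ V)
    (a : (_root_.Fermat.Agent.S55.PT.GQ ⧸ U) →₀ (mu p : Rep.{0, 0, 0} (ZMod p) _root_.Fermat.Agent.S55.PT.GQ)) :
    toK p V (indLE (mu p) h a) = projK p h (toK p U a) := by
  have hh : (toK p V) ∘ₗ (indLE (mu p) h) = (projK p h) ∘ₗ (toK p U) := by
    apply Finsupp.lhom_ext
    intro x m
    rw [LinearMap.comp_apply, LinearMap.comp_apply, indLE_single, toK_single, toK_single,
      projK_single]
  exact LinearMap.congr_fun hh a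

end Compare

/-- **A8**: the `K`-form of CAP gives the `PT`-form. -/
theorem cap_of (h : Fermat.Agent.S55.K.CapSpec p S) (hp2 : p ≠ 2)
    (hpS : pPrime p ∈ S) : Fermat.Agent.S55.PT.CapSpec p S := by
  intro V hV _ _
  obtain ⟨U, hU, hUV, hUn, hcap⟩ := h hp2 hpS V hV
  refine ⟨U, hUV, hU, hUn, fun x hx => ?_⟩
  obtain ⟨c, rfl⟩ := (globalLevels S).H2π_surjective _ x
  rw [pushH2_mk, LevelSys.H2π_eq_zero_iff, coe_pushZ2]
  -- the cocycle in the `K` model
  have hcK : (toK p U ∘ (c : _root_.Fermat.Agent.S55.PT.GQ × _root_.Fermat.Agent.S55.PT.GQ → indRep U (mu p)) : _root_.Fermat.Agent.S55.PT.GQ × _root_.Fermat.Agent.S55.PT.GQ → indG U (muP p)) ∈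
      (globalLevels S).Z2 (indG U (muP p)) :=
    push_mem_Z2 (A := indRep U (mu p)) (B := indG U (muP p)) (toK p U) (toK_equivariant p U)
      (globalLevels S) c.2
  -- it is locally a coboundary
  have hloc : ∀ q ∈ S, ((toK p U ∘ (c : _root_.Fermat.Agent.S55.PT.GQ × _root_.Fermat.Agent.S55.PT.GQ → indRep U (mu p))) ∘ Prod.map (rl q) (rl q) :
      Gl q × Gl q → indG U (muP p)) ∈
      (localLevels q).B2 (Rep.res (rl q) (indG U (muP p))) := by
    intro q hq
    have h1 := congrFun (LinearMap.mem_ker.1 hx) ⟨q, hq⟩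
    rw [loc2_apply, resH2_mk, Pi.zero_apply, LevelSys.H2π_eq_zero_iff, coe_resZ2] at h1
    exact push_mem_B2 (A := Rep.res (rl q) (indRep U (mu p)))
      (B := Rep.res (rl q) (indG U (muP p))) (toK p U)
      ((toK_equivariant p U).res (rl q)) (localLevels q) h1
  have h2 := hcap _ hcK hloc
  -- back to the `PT` model
  have h3 := push_mem_B2 (A := indG V (muP p)) (B := indRep V (mu p)) (ofK p V)
    (ofK_equivariant p V) (globalLevels S) h2
  have h4 : (ofK p V ∘ (indProj (MonoidHom.id _root_.Fermat.Agent.S55.PT.GQ) hUV (muP p) ∘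
      (toK p U ∘ (c : _root_.Fermat.Agent.S55.PT.GQ × _root_.Fermat.Agent.S55.PT.GQ → indRep U (mu p)))) : _root_.Fermat.Agent.S55.PT.GQ × _root_.Fermat.Agent.S55.PT.GQ → indRep V (mu p)) =
      indLE (mu p) hUV ∘ (c : _root_.Fermat.Agent.S55.PT.GQ × _root_.Fermat.Agent.S55.PT.GQ → indRep U (mu p)) := by
    funext y
    exact (congrArg (ofK p V) (toK_indLE p hUV ((c : _root_.Fermat.Agent.S55.PT.GQ × _root_.Fermat.Agent.S55.PT.GQ → indRep U (mu p)) y)).symm).trans
      (ofK_toK p V _)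
  exact Eq.mp (congrArg (fun f : _root_.Fermat.Agent.S55.PT.GQ × _root_.Fermat.Agent.S55.PT.GQ → indRep V (mu p) =>
    f ∈ (globalLevels S).B2 (indRep V (mu p))) h4) h3

end Fermat.Agent.S55.K.H723

end

end
-- ===== PACK-END S55/K/AdapterPTH723.lean

-- ===== PACK-BEGIN S55/Bridge/H175/TowerDict.lean
section






set_option autoImplicit false
set_option linter.style.haveILetI false
set_option linter.unusedSectionVars false

/-!
# B15: dictionary between the tower `Tow.Level` and concrete Galois groups / unit groups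

For `L : Tow.Level S` with field `F = L.F`, and `q : Nat.Primes` with local level
`E = F_q = primeLocalLevel q F`:

* `level_isGalois`, `level_normal`, `level_finiteDimensional`;
* `galEquiv L : L.Gal ≃* Gal(F/ℚ)`, `unitsEquiv L : L.units ≃+ Fˣ` (equivariant);
* `decEquiv L q : L.Dec q ≃* Gal(E/ℚ_q)`, `locUnitsEquiv L q : L.locUnits q ≃+ Eˣ` (equivariant);
* `galEquiv_decHom`, `decHom_injective`, `map_range_decHom` (image of the decomposition group =
  stabiliser of the prime `primeLevelPrime q F` of `𝓞 F`).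
-/

open scoped NNReal Pointwise NumberField

namespace Fermat.Agent.S55.Bridge.H175

open ExtCitation Fermat.Agent.S55

variable {S : Finset Nat.Primes} (L : Tow.Level S) (q : Nat.Primes)

/-! ### The global side -/

theorem level_finiteDimensional : FiniteDimensional ℚ L.F := L.unram.1

theorem level_isGalois : IsGalois ℚ L.F := by
  have hgal := Fermat.Agent.S54.isGalois_algebraicClosure_rat
  exact (InfiniteGalois.normal_iff_isGalois L.F).mp L.normalU

theorem level_normal : Normal ℚ L.F := (level_isGalois L).to_normal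

theorem level_U_eq :
    haveI := level_normal L
    L.U = (AlgEquiv.restrictNormalHom (F := ℚ) (K₁ := AlgebraicClosure ℚ) L.F).ker := by
  exact (@IntermediateField.restrictNormalHom_ker _ _ _ _ _ L.F (level_normal L)).symm

/-- `Gal(ℚ̄/ℚ) ⧸ Gal(ℚ̄/F) ≃* Gal(F/ℚ)`. -/
noncomputable def galEquiv : L.Gal ≃* (L.F ≃ₐ[ℚ] L.F) :=
  haveI := Fermat.Agent.S54.isGalois_algebraicClosure_rat
  haveI := level_normal L
  quotEquiv L.F L.U (level_U_eq L)

theorem galEquiv_mk_apply_coe (σ : Tow.GQ) (x : L.F) :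
    ((galEquiv L (QuotientGroup.mk σ) x : L.F) : AlgebraicClosure ℚ) =
      σ (x : AlgebraicClosure ℚ) :=
  haveI := Fermat.Agent.S54.isGalois_algebraicClosure_rat
  haveI := level_normal L
  quotEquiv_mk_apply L.F L.U (level_U_eq L) σ x

/-- `(ℚ̄ˣ)^{Gal(ℚ̄/F)} ≃+ Fˣ`. -/
noncomputable def unitsEquiv : (L.units).V ≃+ (Rep.ofAlgebraAutOnUnits ℚ L.F).V :=
  haveI := Fermat.Agent.S54.isGalois_algebraicClosure_rat
  haveI := level_normal L
  invUnitsEquiv L.F L.U (level_U_eq L)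

/-- Equivariance of `unitsEquiv` along `galEquiv`. -/
theorem unitsEquiv_ρ (g : L.Gal) (x : (L.units).V) :
    unitsEquiv L ((L.units).ρ g x) =
      (Rep.ofAlgebraAutOnUnits ℚ L.F).ρ (galEquiv L g) (unitsEquiv L x) :=
  haveI := Fermat.Agent.S54.isGalois_algebraicClosure_rat
  haveI := level_normal L
  invUnitsEquiv_ρ L.F L.U (level_U_eq L) g x

/-! ### The local side -/

theorem isGalois_padicAlgCl' :
    letI : Fact (q : ℕ).Prime := ⟨q.2⟩
    IsGalois ℚ_[(q : ℕ)] (PadicAlgCl (q : ℕ)) := by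
  letI : Fact (q : ℕ).Prime := ⟨q.2⟩
  haveI := normal_padicAlgCl (q : ℕ)
  exact isGalois_iff.mpr ⟨inferInstance, inferInstance⟩

theorem normal_primeLocalLevel :
    letI : Fact (q : ℕ).Prime := ⟨q.2⟩
    Normal ℚ_[(q : ℕ)] (primeLocalLevel q L.F) := by
  letI : Fact (q : ℕ).Prime := ⟨q.2⟩
  haveI := level_normal L
  exact normal_localLevel (q : ℕ) L.F

/-- `L.V q = Gal(ℚ̄_q/F_q)`. -/
theorem level_V_eq_fixingSubgroup :
    letI : Fact (q : ℕ).Prime := ⟨q.2⟩
    L.V q = (primeLocalLevel q L.F).fixingSubgroup :=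
  comap_primeLocalToGlobal_fixingSubgroup q L.F

theorem level_V_eq :
    letI : Fact (q : ℕ).Prime := ⟨q.2⟩
    haveI := normal_primeLocalLevel L q
    L.V q = (AlgEquiv.restrictNormalHom (F := ℚ_[(q : ℕ)]) (K₁ := PadicAlgCl (q : ℕ))
      (primeLocalLevel q L.F)).ker := by
  letI : Fact (q : ℕ).Prime := ⟨q.2⟩
  haveI := normal_primeLocalLevel L q
  exact (level_V_eq_fixingSubgroup L q).trans
    (IntermediateField.restrictNormalHom_ker (primeLocalLevel q L.F)).symm

/-- `Gal(ℚ̄_q/ℚ_q) ⧸ Gal(ℚ̄_q/F_q) ≃* Gal(F_q/ℚ_q)`. -/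
noncomputable def decEquiv :
    letI : Fact (q : ℕ).Prime := ⟨q.2⟩
    L.Dec q ≃* (primeLocalLevel q L.F ≃ₐ[ℚ_[(q : ℕ)]] primeLocalLevel q L.F) :=
  letI : Fact (q : ℕ).Prime := ⟨q.2⟩
  haveI := isGalois_padicAlgCl' q
  haveI := normal_primeLocalLevel L q
  quotEquiv (hNn := Tow.Level.normalV L q) (primeLocalLevel q L.F) (L.V q) (level_V_eq L q)

theorem decEquiv_mk_apply_coe
    (τ : letI : Fact (q : ℕ).Prime := ⟨q.2⟩
      PadicAlgCl (q : ℕ) ≃ₐ[ℚ_[(q : ℕ)]] PadicAlgCl (q : ℕ))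
    (y : letI : Fact (q : ℕ).Prime := ⟨q.2⟩
      primeLocalLevel q L.F) :
    letI : Fact (q : ℕ).Prime := ⟨q.2⟩
    ((decEquiv L q (QuotientGroup.mk τ) y : primeLocalLevel q L.F) : PadicAlgCl (q : ℕ)) =
      τ (y : PadicAlgCl (q : ℕ)) :=
  letI : Fact (q : ℕ).Prime := ⟨q.2⟩
  haveI := isGalois_padicAlgCl' q
  haveI := normal_primeLocalLevel L q
  quotEquiv_mk_apply (hNn := Tow.Level.normalV L q) (primeLocalLevel q L.F) (L.V q)
    (level_V_eq L q) τ y

/-- `(ℚ̄_qˣ)^{Gal(ℚ̄_q/F_q)} ≃+ F_qˣ`. -/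
noncomputable def locUnitsEquiv :
    letI : Fact (q : ℕ).Prime := ⟨q.2⟩
    (L.locUnits q).V ≃+ (Rep.ofAlgebraAutOnUnits ℚ_[(q : ℕ)] (primeLocalLevel q L.F)).V :=
  letI : Fact (q : ℕ).Prime := ⟨q.2⟩
  haveI := isGalois_padicAlgCl' q
  haveI := normal_primeLocalLevel L q
  invUnitsEquiv (hNn := Tow.Level.normalV L q) (primeLocalLevel q L.F) (L.V q) (level_V_eq L q)

/-- Equivariance of `locUnitsEquiv` along `decEquiv`. -/
theorem locUnitsEquiv_ρ (g : L.Dec q) (x : (L.locUnits q).V) :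
    letI : Fact (q : ℕ).Prime := ⟨q.2⟩
    locUnitsEquiv L q ((L.locUnits q).ρ g x) =
      (Rep.ofAlgebraAutOnUnits ℚ_[(q : ℕ)] (primeLocalLevel q L.F)).ρ (decEquiv L q g)
        (locUnitsEquiv L q x) :=
  letI : Fact (q : ℕ).Prime := ⟨q.2⟩
  haveI := isGalois_padicAlgCl' q
  haveI := normal_primeLocalLevel L q
  invUnitsEquiv_ρ (hNn := Tow.Level.normalV L q) (primeLocalLevel q L.F) (L.V q)
    (level_V_eq L q) g x

/-! ### Compatibility of the two sides -/

/-- `galEquiv ∘ decHom ∘ mk = primeToLevel` : the decomposition map of the tower is restriction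
of automorphisms along `ι : F → F_q`. -/
theorem galEquiv_decHom_mk (τ : Tow.GQp q) :
    galEquiv L (L.decHom q (QuotientGroup.mk τ)) =
      @primeToLevel q L.F (level_normal L) τ := rfl

/-- `ι (galEquiv (decHom g) x) = decEquiv g (ι x)` for `x ∈ F`. -/
theorem padicEmbedding_galEquiv_decHom (g : L.Dec q) (x : L.F) :
    letI : Fact (q : ℕ).Prime := ⟨q.2⟩
    padicEmbedding (q : ℕ) ((galEquiv L (L.decHom q g) x : L.F) : AlgebraicClosure ℚ) =
      ((decEquiv L q g ⟨padicEmbedding (q : ℕ) (x : AlgebraicClosure ℚ),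
        padicEmbedding_mem_localLevel x.2⟩ : primeLocalLevel q L.F) : PadicAlgCl (q : ℕ)) := by
  letI : Fact (q : ℕ).Prime := ⟨q.2⟩
  obtain ⟨τ, rfl⟩ := QuotientGroup.mk_surjective g
  have h1 := decEquiv_mk_apply_coe L q τ
    ⟨padicEmbedding (q : ℕ) (x : AlgebraicClosure ℚ), padicEmbedding_mem_localLevel x.2⟩
  have h2 := @padicEmbedding_toLevel (q : ℕ) _ L.F (level_normal L) τ x
  exact h2.trans h1.symm

/-- The decomposition map `Gal(F_q/ℚ_q) → Gal(F/ℚ)` of the tower is injective. -/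
theorem decHom_injective : Function.Injective (L.decHom q) := by
  rw [injective_iff_map_eq_one]
  intro g hg
  obtain ⟨τ, rfl⟩ := QuotientGroup.mk_surjective g
  have h1 : (QuotientGroup.mk (Tow.locQ q τ) : L.Gal) = 1 := hg
  rw [QuotientGroup.eq_one_iff] at h1
  exact (QuotientGroup.eq_one_iff τ).mpr h1

/-- **The image of the decomposition group of the tower in `Gal(F/ℚ)` is the stabiliser of the
prime `primeLevelPrime q F` of `𝓞 F`.** -/
theorem map_range_decHom :
    (L.decHom q).range.map (galEquiv L).toMonoidHom =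
      MulAction.stabilizer (L.F ≃ₐ[ℚ] L.F) (primeLevelPrime q L.F) := by
  haveI := level_normal L
  rw [← range_primeToLevel_eq_stabilizer q L.F]
  ext σ
  constructor
  · rintro ⟨_, ⟨g, rfl⟩, rfl⟩
    obtain ⟨τ, rfl⟩ := QuotientGroup.mk_surjective g
    exact ⟨τ, (galEquiv_decHom_mk L q τ).symm⟩
  · rintro ⟨τ, rfl⟩
    exact ⟨_, ⟨QuotientGroup.mk τ, rfl⟩, galEquiv_decHom_mk L q τ⟩

/-- Cardinality of the decomposition group of the tower: the local degree `[F_q : ℚ_q]`. -/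
theorem card_dec :
    letI : Fact (q : ℕ).Prime := ⟨q.2⟩
    Nat.card (L.Dec q) = Module.finrank ℚ_[(q : ℕ)] (primeLocalLevel q L.F) := by
  letI : Fact (q : ℕ).Prime := ⟨q.2⟩
  haveI := level_normal L
  haveI := level_finiteDimensional L
  haveI := finiteDimensional_localLevel (q : ℕ) L.F
  haveI := isGalois_localLevel (q : ℕ) L.F
  rw [Nat.card_congr (decEquiv L q).toEquiv]
  exact IsGalois.card_aut_eq_finrank ℚ_[(q : ℕ)] (localLevel (q : ℕ) L.F)

/-- Cardinality of the Galois group of the tower. -/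
theorem card_gal : Nat.card L.Gal = Module.finrank ℚ L.F := by
  haveI := level_isGalois L
  haveI := level_finiteDimensional L
  rw [Nat.card_congr (galEquiv L).toEquiv]
  exact IsGalois.card_aut_eq_finrank ℚ L.F

end Fermat.Agent.S55.Bridge.H175

end
-- ===== PACK-END S55/Bridge/H175/TowerDict.lean

-- ===== PACK-BEGIN S55/K/GO3H535/H371/Unram.lean
section



/-!
# S55 / layer K / GO3-CAPDIV (helper371), part 2: orders at unramified places

`F/ℚ` finite Galois, unramified outside `S`, `A` a place of `ℚ̄` over `q ∉ S`, `w = A ∩ 𝓞 F`.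
Then `q` is a uniformiser at `w`, hence for `x ∈ F` with `w.valuation x = exp (-n)` the element
`x / q ^ n` is a unit of `A`: `HasOrd A q x n`.
-/

set_option autoImplicit false
set_option linter.unusedSectionVars false
set_option linter.style.haveILetI false

noncomputable section

namespace Fermat.Agent.S55.K.GO3H535.H371

open Fermat.Agent.S55.PT Fermat.Agent.S55.Bridge Fermat.Agent.S55.K
open NumberField IsDedekindDomain
open scoped Pointwise

attribute [local instance] isAlgebraic_Qbar isGalois_Qbar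

section

variable (F : IntermediateField ℚ (AlgebraicClosure ℚ)) [FiniteDimensional ℚ F] [IsGalois ℚ F]

attribute [local instance] H594.numberField_of_finite

/-- A prime number of ramification index `1` in `𝓞 F` is a uniformiser at every prime of `𝓞 F`
containing it. -/
theorem intValuation_natCast_of_ramificationIdxIn {q : ℕ} (hq : q.Prime)
    (he : (Ideal.span {(q : ℤ)}).ramificationIdxIn (𝓞 F) = 1)
    (w : HeightOneSpectrum (𝓞 F)) (hw : (q : 𝓞 F) ∈ w.asIdeal) :
    w.intValuation (q : 𝓞 F) = WithZero.exp (-1 : ℤ) := by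
  haveI hgal : IsGaloisGroup (F ≃ₐ[ℚ] F) ℤ (𝓞 F) :=
    IsGaloisGroup.of_isFractionRing (F ≃ₐ[ℚ] F) ℤ (𝓞 F) ℚ F
  haveI hmax : (Ideal.span {(q : ℤ)}).IsMaximal :=
    PrincipalIdealRing.isMaximal_of_irreducible (Nat.prime_iff_prime_int.mp hq).irreducible
  haveI hprime : (Ideal.span {(q : ℤ)}).IsPrime := hmax.isPrime
  haveI := w.isPrime
  haveI := H594.liesOver_span_of_natCast_mem F hq w.asIdeal hw
  have hq0 : (q : 𝓞 F) ≠ 0 := by
    exact_mod_cast hq.ne_zero
  have hmap : (Ideal.span {(q : ℤ)}).map (algebraMap ℤ (𝓞 F)) = Ideal.span {(q : 𝓞 F)} := by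
    rw [Ideal.map_span, Set.image_singleton]
    simp
  have hmap0 : (Ideal.span {(q : ℤ)}).map (algebraMap ℤ (𝓞 F)) ≠ ⊥ := by
    rw [hmap, Ne, Ideal.span_singleton_eq_bot]
    exact hq0
  have h1 := Ideal.ramificationIdxIn_eq_ramificationIdx (Ideal.span {(q : ℤ)}) w.asIdeal
    (F ≃ₐ[ℚ] F)
  rw [he] at h1
  have h2 := Ideal.IsDedekindDomain.ramificationIdx_eq_normalizedFactors_count
    (Ideal.span {(q : ℤ)}) w.asIdeal hmap0
  rw [← h1, hmap] at h2
  have hsp : (Ideal.span {(q : 𝓞 F)} : Ideal (𝓞 F)) ≠ 0 := by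
    rw [Ne, Ideal.zero_eq_bot, Ideal.span_singleton_eq_bot]
    exact hq0
  rw [w.intValuation_if_neg hq0, Ideal.count_associates_factors_eq hsp w.isPrime w.ne_bot, ← h2]
  rfl

variable {S : Finset Nat.Primes}

/-- At a place `A` over `q ∉ S`, the prime `q` is a uniformiser of the level `F`. -/
theorem valuation_natCast_placePrime (hF : F.IsUnramifiedOutside S) {q : Nat.Primes}
    (hq : q ∉ S) (A : ValuationSubring (AlgebraicClosure ℚ)) (hA : A.LiesOverPrime (q : ℕ)) :
    (placePrime F A q.2 hA).valuation F ((q : ℕ) : F) = WithZero.exp (-1 : ℤ) := by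
  have he := (H594.isUnramifiedOutside_iff_ramificationIdxIn F S).1 hF q hq
  have hw : ((q : ℕ) : 𝓞 F) ∈ (placePrime F A q.2 hA).asIdeal :=
    H594.natCast_mem_primeBelowF F A hA
  have h := intValuation_natCast_of_ramificationIdxIn F q.2 he (placePrime F A q.2 hA) hw
  rw [← h, ← HeightOneSpectrum.valuation_of_algebraMap (K := F)]
  simp

/-- **Orders at unramified places.**  If `x ∈ F` has valuation `exp (-n)` at the prime of `F`
below `A`, then `x` has order `n` at `A`. -/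
theorem hasOrd_of_valuation_eq (hF : F.IsUnramifiedOutside S) {q : Nat.Primes}
    (hq : q ∉ S) (A : ValuationSubring (AlgebraicClosure ℚ)) (hA : A.LiesOverPrime (q : ℕ))
    (x : F) (n : ℤ) (hx : (placePrime F A q.2 hA).valuation F x = WithZero.exp (-n)) :
    HasOrd A (q : ℕ) (x : AlgebraicClosure ℚ) n := by
  have hq0 : ((q : ℕ) : F) ≠ 0 := by
    exact_mod_cast q.2.ne_zero
  have hx0 : x ≠ 0 := by
    rintro rfl
    rw [map_zero] at hx
    exact WithZero.exp_ne_zero.symm hx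
  have hy0 : x / ((q : ℕ) : F) ^ n ≠ 0 := div_ne_zero hx0 (zpow_ne_zero n hq0)
  have hval : (placePrime F A q.2 hA).valuation F (x / ((q : ℕ) : F) ^ n) = 1 := by
    rw [map_div₀, map_zpow₀, valuation_natCast_placePrime F hF hq A hA, hx, ← WithZero.exp_zsmul,
      smul_eq_mul, mul_neg, mul_one]
    exact div_self WithZero.exp_ne_zero
  have h := (unit_iff_valuation_eq_one F A q.2 hA (Units.mk0 _ hy0)).2 hval
  rw [hasOrd_iff_unitAt q.2.ne_zero]
  have hcoe : (((Units.mk0 _ hy0 : Fˣ) : F) : AlgebraicClosure ℚ) =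
      (x : AlgebraicClosure ℚ) / ((q : ℕ) : AlgebraicClosure ℚ) ^ n := by
    show algebraMap F (AlgebraicClosure ℚ) (x / ((q : ℕ) : F) ^ n) = _
    rw [map_div₀, map_zpow₀, map_natCast]
    rfl
  have hne : (x : AlgebraicClosure ℚ) / ((q : ℕ) : AlgebraicClosure ℚ) ^ n ≠ 0 := by
    rw [← hcoe]
    simpa using hy0
  rw [unitAt_iff_mem hne, ← hcoe]
  refine ⟨h.1, ?_⟩
  have := h.2
  simpa using this

/-- Every nonzero element of a Galois level has an order at every place outside `S`. -/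
theorem exists_hasOrd_of_mem (hF : F.IsUnramifiedOutside S) {q : Nat.Primes}
    (hq : q ∉ S) (A : ValuationSubring (AlgebraicClosure ℚ)) (hA : A.LiesOverPrime (q : ℕ))
    (x : F) (hx : x ≠ 0) : ∃ n : ℤ, HasOrd A (q : ℕ) (x : AlgebraicClosure ℚ) n := by
  have hv : (placePrime F A q.2 hA).valuation F x ≠ 0 := (Valuation.ne_zero_iff _).2 hx
  refine ⟨-WithZero.log ((placePrime F A q.2 hA).valuation F x),
    hasOrd_of_valuation_eq F hF hq A hA x _ ?_⟩
  rw [neg_neg, WithZero.exp_log hv]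

end

end Fermat.Agent.S55.K.GO3H535.H371

end
end
-- ===== PACK-END S55/K/GO3H535/H371/Unram.lean

-- ===== PACK-BEGIN S55/G/Rec/KillAbovePH174.lean
section






/-!
# S55 / G / REC, leaf SC (helper174) : `KillAbovePSpec` from the remaining open leaves

`killAboveP_of` : STEP C for odd `p`, from `LocalStructureSpec` (L2), `WeakApproxSpec` (G3) and
STEP A (`CycloSumSpec I`).  The leaves K1, K2, L3 (from L2), L4, L6 are taken from main.
The fully hypothesis-parametrised version is `killAboveP_core` (`SCH174/Main.lean`).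
-/

set_option autoImplicit false

namespace Fermat.Agent.S55.G.Rec.H174

open Fermat.Agent.S55.G.Rec

/-- **STEP C** (`KillAbovePSpec`) for odd `p`. -/
theorem killAboveP_of (I : LocalInvSystem) (p : ℕ) [Fact p.Prime] (hp2 : p ≠ 2)
    (hL2 : LocalStructureSpec) (hG3 : WeakApproxSpec) (hSA : CycloSumSpec I) :
    KillAbovePSpec I p :=
  killAboveP_core I p hp2 H496.cupLoc H496.cupAdd hL2 (H900.unramCup_of hL2 H496.cupAdd I)
    H854.cycloFrob H854.localRoot hG3 hSA

end Fermat.Agent.S55.G.Rec.H174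

end
-- ===== PACK-END S55/G/Rec/KillAbovePH174.lean

-- ===== PACK-BEGIN S55/G/Rec/L2H931.lean
section


/-!
# S55 / layer G / block REC : leaf (L2) `LocalStructureSpec`  (helper931)

For an open subgroup `V ≤ G_{ℚ_q}` with fixed field `E`: the residue degree `f`, a Frobenius lift
`φ ∈ V`, a uniformizer `π` with `vdeg π = f`, and the decomposition `a = π ^ k * u` with
`vdeg a = f * k`.

* Frobenius lift: `L2H931/Frob.lean` (profinite surjectivity of the stabiliser map);
* arithmetic of `E`: `L2H931/Arith.lean` (unit ball is a complete DVR with finite residue field,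
  fundamental identity `e f = n` from helper355's `card_residue_pow_eq`).
-/

set_option autoImplicit false
set_option linter.style.haveILetI false

noncomputable section

namespace Fermat.Agent.S55.G.Rec.H931

open Fermat.Agent.S55 Fermat.Agent.S55.G.Rec

/-- **Leaf (L2)**: local structure of the fixed field of an open subgroup of `G_{ℚ_q}`. -/
theorem localStructure : LocalStructureSpec := by
  intro q _ V hV
  have hq : q.Prime := Fact.out
  haveI : FiniteDimensional ℚ_[q] (L2_E q V) := L2_finiteDimensional hV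
  obtain ⟨f, e, ϖ, hfpos, hef, hϖ0, hϖlt, hnorme, hmax, hdec, hres, hmin⟩ :=
    L2_structure (L2_E q V)
  have hfix_iff : ∀ x : PadicAlgCl q, IsFixedBy q V x ↔ x ∈ L2_E q V :=
    fun x => (L2_mem_E_iff x).symm
  -- residue degree
  have hRD : IsResidueDegree q V f := by
    refine ⟨hfpos, ?_, ?_⟩
    · intro x hx hx1
      exact hres ⟨x, (hfix_iff x).1 hx⟩ hx1
    · intro m hm hall
      exact hmin m hm (fun x hx1 => hall x ((hfix_iff x).2 x.2) hx1)
  obtain ⟨φ, hφV, hφ⟩ := L2_exists_frob hV f hRD.2.1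
  -- the uniformizer as a unit
  have hϖ0' : (ϖ : PadicAlgCl q) ≠ 0 := fun h => hϖ0 (Subtype.ext h)
  set π : (PadicAlgCl q)ˣ := Units.mk0 (ϖ : PadicAlgCl q) hϖ0' with hπ
  have hπval : (π : PadicAlgCl q) = ϖ := rfl
  have hπfix : IsFixedBy q V (π : PadicAlgCl q) := (hfix_iff _).2 ϖ.2
  have hUnif : IsUniformizer q V (π : PadicAlgCl q) := by
    refine ⟨hπfix, hϖ0', hϖlt, ?_⟩
    intro x hx hx1
    exact hmax ⟨x, (hfix_iff x).1 hx⟩ hx1
  -- index and norms
  have hidx : V.index = e * f := by rw [L2_index hV, hef]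
  have hnormπ : ‖(π : PadicAlgCl q)‖ ^ V.index = (q : ℝ) ^ (-(f : ℤ)) := by
    rw [hidx, pow_mul, hπval, hnorme, zpow_neg, zpow_natCast, inv_pow]
  have hvπ : vdeg q V π = f := by
    unfold vdeg
    rw [hnormπ, Int.log_zpow hq.one_lt, neg_neg]
  refine ⟨f, φ, π, hRD, hφV, hφ, hUnif, hvπ, ?_⟩
  intro a ha
  have ha' : IsFixedBy q V (a : PadicAlgCl q) := by
    intro τ hτ
    have := congrArg (fun u : (PadicAlgCl q)ˣ => (u : PadicAlgCl q)) (ha τ hτ)
    exact this
  have haE : (a : PadicAlgCl q) ∈ L2_E q V := (hfix_iff _).1 ha'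
  have ha0 : (⟨a, haE⟩ : L2_E q V) ≠ 0 := by
    intro h
    exact a.ne_zero (congrArg Subtype.val h)
  obtain ⟨k, u, hu1, hau⟩ := hdec ⟨a, haE⟩ ha0
  have hu0 : (u : PadicAlgCl q) ≠ 0 := by
    intro h
    rw [h, norm_zero] at hu1
    exact zero_ne_one hu1
  have hau' : (a : PadicAlgCl q) = (ϖ : PadicAlgCl q) ^ k * (u : PadicAlgCl q) := by
    have hz : ((ϖ ^ k : L2_E q V) : PadicAlgCl q) = (ϖ : PadicAlgCl q) ^ k :=
      map_zpow₀ (L2_E q V).val ϖ k
    have := congrArg (fun z : L2_E q V => (z : PadicAlgCl q)) hau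
    simp only [MulMemClass.coe_mul, hz] at this
    exact this
  have hnorma : ‖(a : PadicAlgCl q)‖ = ‖(π : PadicAlgCl q)‖ ^ k := by
    rw [hau', norm_mul, norm_zpow, hu1, mul_one, hπval]
  refine ⟨k, Units.mk0 (u : PadicAlgCl q) hu0, ?_, hu1, ?_, ?_⟩
  · intro τ hτ
    apply Units.ext
    exact (hfix_iff _).2 u.2 τ hτ
  · apply Units.ext
    rw [Units.val_mul, Units.val_zpow_eq_zpow_val, Units.val_mk0]
    exact hau'
  · have h1 : ‖(a : PadicAlgCl q)‖ ^ V.index = (q : ℝ) ^ (-((f : ℤ) * k)) := by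
      rw [hnorma, ← zpow_natCast, ← zpow_mul, mul_comm k, zpow_mul, zpow_natCast, hnormπ,
        ← zpow_mul, neg_mul]
    unfold vdeg
    rw [h1, Int.log_zpow hq.one_lt, neg_neg]

end Fermat.Agent.S55.G.Rec.H931

end
end
-- ===== PACK-END S55/G/Rec/L2H931.lean

-- ===== PACK-BEGIN S55/L/Unram784.lean
section



/-!
# S55, layer L, leaf L-A2 (helper784): unramified extensions of local fields

Summary file.  Main results (all unconditional, Mathlib + `L/Spec*.lean` only):

* `u784_unramifiedExists : UnramifiedExistsSpec`   (L-A2a)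
* `u784_unramifiedCyclic : UnramifiedCyclicSpec`   (L-A2b)
* `u784_unramifiedUnique : UnramifiedUniqueSpec`   (L-A2c)
* `u784_ringOfIntegersUnique : RingOfIntegersUniqueSpec`   (L-A0, by-product)
-/

namespace Fermat.Agent.S55.L

/-- **L-A2**: the three specifications on unramified extensions. -/
theorem u784_unramified_all :
    UnramifiedExistsSpec ∧ UnramifiedCyclicSpec ∧ UnramifiedUniqueSpec :=
  ⟨u784_unramifiedExists, u784_unramifiedCyclic, u784_unramifiedUnique⟩

end Fermat.Agent.S55.L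

end
-- ===== PACK-END S55/L/Unram784.lean

-- ===== PACK-BEGIN S55/L/UnrInv/Congr.lean
section


/-!
# S55, layer L, unramified invariants: congruences modulo the maximal ideal, powers of Frobenius
-/

set_option autoImplicit false
set_option linter.style.haveILetI false

namespace Fermat.Agent.S55.L.UnrInv

theorem zero_mem_nonunits {F : Type*} [Field F] (C : ValuationSubring F) :
    (0 : F) ∈ C.nonunits := by
  rw [C.mem_nonunits_iff, map_zero]
  exact zero_lt_one

theorem add_mem_nonunits {F : Type*} [Field F] (C : ValuationSubring F) {a b : F}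
    (ha : a ∈ C.nonunits) (hb : b ∈ C.nonunits) : a + b ∈ C.nonunits := by
  rw [C.mem_nonunits_iff] at ha hb ⊢
  exact lt_of_le_of_lt (Valuation.map_add _ _ _) (max_lt ha hb)

theorem mul_mem_nonunits_of_mem {F : Type*} [Field F] (C : ValuationSubring F) {a s : F}
    (ha : a ∈ C.nonunits) (hs : s ∈ C) : a * s ∈ C.nonunits := by
  rw [C.mem_nonunits_iff] at ha ⊢
  have h1 : C.valuation s ≤ 1 := (C.valuation_le_one_iff s).mpr hs
  rw [map_mul]
  exact lt_of_le_of_lt (mul_le_of_le_one_right' h1) ha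

theorem pow_sub_pow_mem_nonunits {F : Type*} [Field F] (C : ValuationSubring F) {a b : F}
    (ha : a ∈ C) (hb : b ∈ C) (h : a - b ∈ C.nonunits) (q : ℕ) :
    a ^ q - b ^ q ∈ C.nonunits := by
  obtain ⟨s, hs⟩ := sub_dvd_pow_sub_pow (⟨a, ha⟩ : C) ⟨b, hb⟩ q
  have hs' : a ^ q - b ^ q = (a - b) * (s : F) := by
    have := congrArg (Subtype.val) hs
    simpa using this
  rw [hs']
  exact mul_mem_nonunits_of_mem C h s.2

variable {K E : Type} [Field K] [Field E] [Algebra K E]

namespace UnrPack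

variable (P : UnrPack K E)

/-- Powers of the Frobenius. -/
theorem frob_pow (f : ℕ) : ∀ x ∈ P.B,
    (P.φ ^ f) x - x ^ (Nat.card (IsLocalRing.ResidueField P.A) ^ f) ∈ P.B.nonunits := by
  induction f with
  | zero =>
    intro x _
    simp only [pow_zero, pow_one, AlgEquiv.one_apply, sub_self]
    exact zero_mem_nonunits P.B
  | succ f ih =>
    intro x hx
    set q := Nat.card (IsLocalRing.ResidueField P.A) with hq
    have hy : (P.φ ^ f) x ∈ P.B := (P.galB (P.φ ^ f) x).mpr hx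
    have h1 : P.φ ((P.φ ^ f) x) - ((P.φ ^ f) x) ^ q ∈ P.B.nonunits := P.frob _ hy
    have h2 : ((P.φ ^ f) x) ^ q - (x ^ (q ^ f)) ^ q ∈ P.B.nonunits :=
      pow_sub_pow_mem_nonunits P.B hy (P.B.pow_mem hx _) (ih x hx) q
    have h3 : (P.φ ^ (f + 1)) x - x ^ (q ^ (f + 1)) =
        (P.φ ((P.φ ^ f) x) - ((P.φ ^ f) x) ^ q) + (((P.φ ^ f) x) ^ q - (x ^ (q ^ f)) ^ q) := by
      rw [pow_succ' P.φ f, AlgEquiv.mul_apply, pow_succ q f, pow_mul]
      ring
    rw [h3]
    exact add_mem_nonunits P.B h1 h2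

/-- An automorphism which is a `q^f`-Frobenius is the `f`-th power of the Frobenius. -/
theorem eq_frob_pow (g : E ≃ₐ[K] E) (f : ℕ)
    (hg : ∀ x ∈ P.B, g x - x ^ (Nat.card (IsLocalRing.ResidueField P.A) ^ f) ∈ P.B.nonunits) :
    g = P.φ ^ f := by
  have key : (P.φ ^ f)⁻¹ * g = 1 := by
    apply P.inertia
    intro x hx
    have h2 : g x - (P.φ ^ f) x ∈ P.B.nonunits := by
      have := sub_mem_nonunits P.B (hg x hx) (P.frob_pow f x hx)
      simpa using this
    have h3 : (P.φ ^ f)⁻¹ (g x - (P.φ ^ f) x) ∈ P.B.nonunits :=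
      (P.galNon (P.φ ^ f)⁻¹ _).mpr h2
    have h4 : (P.φ ^ f)⁻¹ (g x - (P.φ ^ f) x) = ((P.φ ^ f)⁻¹ * g) x - x := by
      rw [map_sub, AlgEquiv.mul_apply]
      congr 1
      exact (P.φ ^ f).symm_apply_apply x
    rw [← h4]
    exact h3
  have := congrArg (fun t => (P.φ ^ f) * t) key
  simpa [← mul_assoc] using this

end UnrPack

end Fermat.Agent.S55.L.UnrInv

end
-- ===== PACK-END S55/L/UnrInv/Congr.lean

-- ===== PACK-BEGIN S56/Br/H374/Tw.lean
section



/-!
# Row S56 — BRIDGE (B1, B3, B4), twisted part: `ad⁰ρ̄(1)`                    (helper374)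

`adTw ρbar p : Rep k G_ℚ` is `adRep ρbar` twisted by the mod `p` cyclotomic character
(`cycK k p : G_ℚ →* kˣ`, the Prelude's `cycloChar p` pushed to `k`).  The plain-function
language of layer 0 (`IsTwCocycle`, `IsTwCoboundary`, `LocTrivAt`, `IsDualFrame`, `Kills`)
is translated into the vocabulary of the S55 `PT` layer.
-/

set_option autoImplicit false
set_option linter.style.haveILetI false
set_option linter.unusedSectionVars false

noncomputable section

namespace Fermat.Agent.S56.Br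

open Fermat.Agent.S56 Fermat.Agent.S56.H716 Fermat.Agent.S55.PT groupCohomology ExtCitation

/-! ### The cyclotomic character with values in `k` -/

section Cyc

variable (k : Type) [Field k] (p : ℕ) [Fact p.Prime] [CharP k p]

/-- The mod `p` cyclotomic character with values in `kˣ`. -/
def cycK : _root_.Fermat.Agent.S56.GQ →* kˣ :=
  (Units.map ((ZMod.castHom (dvd_refl p) k : ZMod p →+* k) : ZMod p →* k)).comp (cycloChar p)

theorem cycK_coe (σ : _root_.Fermat.Agent.S56.GQ) :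
    ((cycK k p σ : kˣ) : k) = ZMod.castHom (dvd_refl p) k ((cycloChar p σ : (ZMod p)ˣ) : ZMod p) :=
  rfl

variable {p}

/-- The exponent `(cycloChar p σ).val` is a cyclotomic exponent of `σ`. -/
theorem isCycExp_val (σ : _root_.Fermat.Agent.S56.GQ) : IsCycExp p σ ((cycloChar p σ : (ZMod p)ˣ) : ZMod p).val := by
  intro μ hμ
  have hp : p.Prime := Fact.out
  by_cases h0 : μ = 0
  · subst h0
    rw [zero_pow hp.ne_zero] at hμ
    exact absurd hμ zero_ne_one
  · have hmem : Units.mk0 μ h0 ∈ rootsOfUnity p Qb := by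
      rw [mem_rootsOfUnity]
      apply Units.ext
      rw [Units.val_pow_eq_pow_val, Units.val_mk0, Units.val_one]
      exact hμ
    have := Fermat.Agent.S55.Bridge.cycloChar_spec p σ hmem
    rwa [Units.val_mk0] at this

/-- Any cyclotomic exponent of `σ` reduces to `cycloChar p σ`. -/
theorem natCast_eq_cycloChar {σ : _root_.Fermat.Agent.S56.GQ} {a : ℕ} (h : IsCycExp p σ a) :
    (a : ZMod p) = ((cycloChar p σ : (ZMod p)ˣ) : ZMod p) := by
  have hp : p.Prime := Fact.out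
  haveI : NeZero p := ⟨hp.ne_zero⟩
  obtain ⟨ζ, hζ⟩ := HasEnoughRootsOfUnity.exists_primitiveRoot Qb p
  have h1 := h ζ hζ.pow_eq_one
  have h2 := isCycExp_val (p := p) σ ζ hζ.pow_eq_one
  rw [h1] at h2
  have h4 : a ≡ ((cycloChar p σ : (ZMod p)ˣ) : ZMod p).val [MOD p] := by
    have := (hζ.isOfFinOrder hp.ne_zero).pow_eq_pow_iff_modEq.1 h2
    rwa [← hζ.eq_orderOf] at this
  have h5 := (ZMod.natCast_eq_natCast_iff a _ p).2 h4
  rw [h5, ZMod.natCast_val, ZMod.cast_id]

theorem natCast_eq_cycK {σ : _root_.Fermat.Agent.S56.GQ} {a : ℕ} (h : IsCycExp p σ a) :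
    (a : k) = ((cycK k p σ : kˣ) : k) := by
  rw [cycK_coe, ← natCast_eq_cycloChar h, map_natCast]

end Cyc

/-! ### Abstract: coboundaries on conjugate subgroups -/

section Abstract

variable {G : Type} [Group G] {k : Type} [CommRing k] (A : Rep.{0, 0, 0} k G)

/-- If a cocycle is the coboundary of `m` on `D`, it is the coboundary of `g m - f g` on
`g D g⁻¹`. -/
theorem coboundaryOn_conj {f : G → A} (hf : f ∈ cocycles₁ A) (D : Subgroup G) (g : G) (m : A)
    (hm : ∀ σ ∈ D, f σ = A.ρ σ m - m) (σ : G) (hσ : σ ∈ D) :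
    f (g * σ * g⁻¹) = A.ρ (g * σ * g⁻¹) (A.ρ g m - f g) - (A.ρ g m - f g) := by
  have hc := (groupCohomology.mem_cocycles₁_iff f).1 hf
  have h1 : f 1 = 0 := cocycles₁_map_one (⟨f, hf⟩ : cocycles₁ A)
  have hinv : f g⁻¹ = - A.ρ g⁻¹ (f g) := by
    have h2 := hc g⁻¹ g
    rw [inv_mul_cancel, h1] at h2
    exact eq_neg_of_add_eq_zero_right h2.symm
  have e1 : ∀ x : A, A.ρ g⁻¹ (A.ρ g x) = x := fun x => by
    rw [← Module.End.mul_apply, ← map_mul, inv_mul_cancel, map_one, Module.End.one_apply]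
  rw [hc, hc, hm σ hσ, hinv]
  simp only [map_mul, Module.End.mul_apply, map_sub, map_neg, e1]
  abel

end Abstract

/-! ### The twisted adjoint representation -/

variable {k : Type} [Field k] (ρbar : ResidualGaloisRep k) (p : ℕ) [Fact p.Prime] [CharP k p]

/-- `ad⁰ρ̄(1)` as an object of `Rep k G_ℚ`. -/
abbrev adTw : Rep.{0, 0, 0} k _root_.Fermat.Agent.S56.GQ := (adRep ρbar).twist (cycK k p)

/-- The underlying endomorphism of an element of `adTw`. -/
def valTw : adTw ρbar p →ₗ[k] Module.End k ρbar.V := (End0 ρbar).subtype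

theorem valTw_injective : Function.Injective (valTw ρbar p) := Subtype.val_injective

theorem trace_valTw (m : adTw ρbar p) : LinearMap.trace k ρbar.V (valTw ρbar p m) = 0 :=
  mem_End0.1 (m : End0 ρbar).2

/-- An endomorphism of trace zero, as an element of `adTw`. -/
def mkTw (m : Module.End k ρbar.V) (hm : LinearMap.trace k ρbar.V m = 0) : adTw ρbar p :=
  (⟨m, mem_End0.2 hm⟩ : End0 ρbar)

@[simp] theorem valTw_mkTw (m : Module.End k ρbar.V) (hm : LinearMap.trace k ρbar.V m = 0) :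
    valTw ρbar p (mkTw ρbar p m hm) = m := rfl

theorem valTw_ρ (σ : _root_.Fermat.Agent.S56.GQ) (m : adTw ρbar p) :
    valTw ρbar p ((adTw ρbar p).ρ σ m)
      = ((cycK k p σ : kˣ) : k) • (ρbar.ρ σ * valTw ρbar p m * ρbar.ρ σ⁻¹) := rfl

theorem valTw_ρ_of_isCycExp {σ : _root_.Fermat.Agent.S56.GQ} {a : ℕ} (h : IsCycExp p σ a) (m : adTw ρbar p) :
    valTw ρbar p ((adTw ρbar p).ρ σ m) = twAd ρbar σ a (valTw ρbar p m) := by
  rw [valTw_ρ, twAd, natCast_eq_cycK k h]

/-- Post-composition with `valTw`. -/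
def toEndTw : (_root_.Fermat.Agent.S56.GQ → adTw ρbar p) →ₗ[k] (_root_.Fermat.Agent.S56.GQ → Module.End k ρbar.V) where
  toFun f σ := valTw ρbar p (f σ)
  map_add' f g := by funext σ; exact (valTw ρbar p).map_add (f σ) (g σ)
  map_smul' r f := by funext σ; exact (valTw ρbar p).map_smul r (f σ)

@[simp] theorem toEndTw_apply (f : _root_.Fermat.Agent.S56.GQ → adTw ρbar p) (σ : _root_.Fermat.Agent.S56.GQ) :
    toEndTw ρbar p f σ = valTw ρbar p (f σ) := rfl

theorem toEndTw_injective : Function.Injective (toEndTw ρbar p) := by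
  intro f g h
  funext σ
  exact valTw_injective ρbar p (congrFun h σ)

/-- A trace-zero valued function as a function to `adTw`. -/
def ofEndTw (c : _root_.Fermat.Agent.S56.GQ → Module.End k ρbar.V) (hc : ∀ σ, LinearMap.trace k ρbar.V (c σ) = 0) :
    _root_.Fermat.Agent.S56.GQ → adTw ρbar p := fun σ => mkTw ρbar p (c σ) (hc σ)

@[simp] theorem toEndTw_ofEndTw (c : _root_.Fermat.Agent.S56.GQ → Module.End k ρbar.V)
    (hc : ∀ σ, LinearMap.trace k ρbar.V (c σ) = 0) :
    toEndTw ρbar p (ofEndTw ρbar p c hc) = c := rfl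

/-! ### Cocycles -/

theorem mem_cocycles₁_tw_iff (f : _root_.Fermat.Agent.S56.GQ → adTw ρbar p) :
    f ∈ cocycles₁ (adTw ρbar p) ↔
      ∀ σ τ a, IsCycExp p σ a →
        toEndTw ρbar p f (σ * τ) = toEndTw ρbar p f σ + twAd ρbar σ a (toEndTw ρbar p f τ) := by
  rw [groupCohomology.mem_cocycles₁_iff]
  constructor
  · intro h σ τ a ha
    have := congrArg (valTw ρbar p) (h σ τ)
    rw [map_add, valTw_ρ_of_isCycExp ρbar p ha] at this
    rw [toEndTw_apply, this, add_comm]
    rfl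
  · intro h σ τ
    apply valTw_injective
    rw [map_add, valTw_ρ_of_isCycExp ρbar p (isCycExp_val σ)]
    have := h σ τ _ (isCycExp_val σ)
    rw [toEndTw_apply] at this
    rw [this, add_comm]
    rfl

theorem twCocycle_one {c : _root_.Fermat.Agent.S56.GQ → Module.End k ρbar.V}
    (h : ∀ σ τ a, IsCycExp p σ a → c (σ * τ) = c σ + twAd ρbar σ a (c τ)) : c 1 = 0 := by
  have h1 := h 1 1 1 (fun μ _ => by rw [pow_one]; rfl)
  rw [mul_one, twAd, inv_one, map_one, one_mul, mul_one, Nat.cast_one, one_smul] at h1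
  exact left_eq_add.mp h1

/-- **B1 + B4, twisted.**  Level-constant cocycles of `adTw` for the levels unramified outside
`T` are exactly the plain twisted cocycles of finite level which are unramified outside `T`. -/
theorem mem_Z1_global_tw_iff (T : Finset Nat.Primes) (f : _root_.Fermat.Agent.S56.GQ → adTw ρbar p) :
    f ∈ (globalLevels T).Z1 (adTw ρbar p) ↔
      IsTwCocycle ρbar p (toEndTw ρbar p f) ∧
        ∀ q : Nat.Primes, q ∉ T → UnramAt ρbar (toEndTw ρbar p f) (q : ℕ) := by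
  constructor
  · rintro ⟨hcoc, U, ⟨F, hF, rfl⟩, hU⟩
    have hmul := (mem_cocycles₁_tw_iff ρbar p f).1 hcoc
    refine ⟨⟨fun σ => trace_valTw ρbar p (f σ), hmul, F, hF.1, fun σ τ hτ => ?_⟩, ?_⟩
    · rw [toEndTw_apply, toEndTw_apply,
        hU σ τ ((IntermediateField.mem_fixingSubgroup_iff F τ).2 hτ)]
    · intro q hq P hP σ hσ
      have h1 : f (1 * σ) = f 1 := hU 1 σ (hF.2 q hq P hP hσ)
      rw [one_mul] at h1
      rw [toEndTw_apply, h1, ← toEndTw_apply, twCocycle_one ρbar p hmul]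
  · rintro ⟨hcoc, hur⟩
    refine ⟨(mem_cocycles₁_tw_iff ρbar p f).2 hcoc.map_mul, ?_⟩
    apply isLC₁_global_of_level
    · obtain ⟨L, hL, h⟩ := hcoc.level
      exact ⟨L, hL, fun σ τ hτ => valTw_injective ρbar p (h σ τ hτ)⟩
    · intro q hq P hP τ hτ σ
      apply valTw_injective
      have h0 : toEndTw ρbar p f τ = 0 := hur q hq P hP τ hτ
      have h1 := hcoc.map_mul σ τ _ (isCycExp_val σ)
      rw [h0, twAd, mul_zero, zero_mul, smul_zero, add_zero] at h1
      exact h1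

/-- **B1 + B4, twisted**, `Finset ℕ` form. -/
theorem mem_Z1_primesOf_tw_iff (T : Finset ℕ) (f : _root_.Fermat.Agent.S56.GQ → adTw ρbar p) :
    f ∈ (globalLevels (primesOf T)).Z1 (adTw ρbar p) ↔
      IsTwCocycle ρbar p (toEndTw ρbar p f) ∧
        ∀ q : ℕ, q.Prime → q ∉ T → UnramAt ρbar (toEndTw ρbar p f) q := by
  rw [mem_Z1_global_tw_iff, unram_outside_iff]

/-! ### Coboundaries -/

/-- Twisted coboundaries on a subgroup, in terms of `adTw`. -/
theorem isTwCoboundaryOn_iff (H : Subgroup _root_.Fermat.Agent.S56.GQ) (c : _root_.Fermat.Agent.S56.GQ → Module.End k ρbar.V) :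
    (∃ m, IsTwCoboundaryOn ρbar p H c m) ↔
      ∃ m₀ : adTw ρbar p, ∀ σ ∈ H,
        c σ = valTw ρbar p ((adTw ρbar p).ρ σ m₀) - valTw ρbar p m₀ := by
  constructor
  · rintro ⟨m, htr, hm⟩
    refine ⟨mkTw ρbar p m htr, fun σ hσ => ?_⟩
    rw [valTw_ρ_of_isCycExp ρbar p (isCycExp_val σ), valTw_mkTw]
    exact hm σ hσ _ (isCycExp_val σ)
  · rintro ⟨m₀, hm⟩
    refine ⟨valTw ρbar p m₀, trace_valTw ρbar p m₀, fun σ hσ a ha => ?_⟩
    rw [hm σ hσ, valTw_ρ_of_isCycExp ρbar p ha]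

/-- **B1, twisted coboundaries.** -/
theorem isTwCoboundary_toEndTw_iff (f : _root_.Fermat.Agent.S56.GQ → adTw ρbar p) :
    IsTwCoboundary ρbar p (toEndTw ρbar p f) ↔ f ∈ LevelSys.B1 (adTw ρbar p) := by
  unfold IsTwCoboundary
  rw [isTwCoboundaryOn_iff]
  constructor
  · rintro ⟨m₀, hm⟩
    refine ⟨m₀, ?_⟩
    funext σ
    apply valTw_injective
    have h1 := hm σ (Subgroup.mem_top σ)
    rw [toEndTw_apply] at h1
    rw [h1, ← map_sub]
    rfl
  · rintro ⟨m₀, rfl⟩
    exact ⟨m₀, fun σ _ => by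
      rw [toEndTw_apply, ← map_sub]
      rfl⟩

/-! ### B3, twisted: local triviality -/

open scoped Pointwise in
/-- **B3, twisted.**  `LocTrivAt` (a coboundary on SOME decomposition group over `v`) is the
vanishing of the restriction to the Prelude's local group `Gl v`. -/
theorem locTrivAt_iff (v : Nat.Primes) (f : _root_.Fermat.Agent.S56.GQ → adTw ρbar p)
    (hf : f ∈ cocycles₁ (adTw ρbar p)) :
    LocTrivAt ρbar p (v : ℕ) (toEndTw ρbar p f) ↔
      (f ∘ rl v : Gl v → adTw ρbar p) ∈ LevelSys.B1 (Rep.res (rl v) (adTw ρbar p)) := by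
  constructor
  · rintro ⟨P, hP, hm⟩
    obtain ⟨m₀, hm₀⟩ := (isTwCoboundaryOn_iff ρbar p _ _).1 hm
    obtain ⟨g, hg⟩ := Fermat.Agent.Lib.Cheb.H476.exists_smul_eq v.2 hP
      (primeLocalPlace_liesOver v)
    have hm₀' : ∀ σ ∈ P.decompositionSubgroup ℚ, f σ = (adTw ρbar p).ρ σ m₀ - m₀ := by
      intro σ hσ
      apply valTw_injective
      rw [map_sub]
      exact hm₀ σ hσ
    refine ⟨(adTw ρbar p).ρ g m₀ - f g, ?_⟩
    funext τ
    have hτ : rl v τ ∈ (primeLocalPlace v).decompositionSubgroup ℚ := by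
      rw [← Fermat.Agent.S55.Bridge.range_primeLocalToGlobal]
      exact ⟨τ, rfl⟩
    have hσ : g⁻¹ * rl v τ * g ∈ P.decompositionSubgroup ℚ := by
      rw [← hg] at hτ
      have h1 := Fermat.Agent.Lib.Cheb.H476.conj_mem_decomposition g⁻¹ hτ
      rw [inv_inv, inv_smul_smul] at h1
      exact h1
    have h2 := coboundaryOn_conj (adTw ρbar p) hf (P.decompositionSubgroup ℚ) g m₀ hm₀' _ hσ
    have e : g * (g⁻¹ * rl v τ * g) * g⁻¹ = rl v τ := by group
    rw [e] at h2
    rw [Function.comp_apply, h2]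
    rfl
  · rintro ⟨m₀, hm⟩
    refine ⟨primeLocalPlace v, primeLocalPlace_liesOver v, ?_⟩
    rw [isTwCoboundaryOn_iff]
    refine ⟨m₀, ?_⟩
    rw [← Fermat.Agent.S55.Bridge.range_primeLocalToGlobal]
    rintro _ ⟨τ, rfl⟩
    have h1 := congrFun hm τ
    rw [Function.comp_apply] at h1
    rw [toEndTw_apply, ← h1, ← map_sub]
    rfl

end Fermat.Agent.S56.Br

end

end
-- ===== PACK-END S56/Br/H374/Tw.lean

-- ===== PACK-BEGIN S56/H914/BRCocycle.lean
section


/-!
# Row S56 — W-FLAT-SS, piece FL-BR (helper914), part 1: cocycle side (Prelude language)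

Blueprint: `coord/S56-FLATSS-helper426.md` (origin/helper426), pieces (IR) and the map
`W = Gal(L/F₀) → (ad⁰V)²`.

* `adCocycle_one`, `adCocycle_mul_of_ker`, `adCocycle_inv_of_ker`, `adCocycle_conj_of_ker`:
  an ad⁰-cocycle restricted to `ker ρ̄` is an additive homomorphism, equivariant for conjugation.
* `adCocycle_eq_of_rho_eq`: a cocycle vanishing on `D ∩ ker ρ̄` factors through `ρ̄(D)`.
* `isAdCoboundaryOn_of_vanish_ker` (IR): if moreover `#ρ̄(D)` is invertible in `k`, the cocycle is a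
  coboundary on `D`.
* `liftEnd_eq_one_iff`: `(1 + ε c(σ)) ρ̄(σ) = 1 ↔ ρ̄(σ) = 1 ∧ c(σ) = 0`.
* `rho_eq_one_iff_of_isLiftOf`: for a lift `ρ'` of `c`: `ρ'(σ) = 1 ↔ ρ̄(σ) = 1 ∧ c(σ) = 0`.
-/

set_option autoImplicit false

open Polynomial IsLocalRing
open scoped TensorProduct

noncomputable section

namespace Fermat.Agent.S56.H914

open Fermat.Agent.S56 Fermat.Agent.S56.H716

section Basic

variable {k : Type} [Field k] (ρbar : ResidualGaloisRep k)

lemma rho_mul_inv (σ : GQ) : ρbar.ρ σ * ρbar.ρ σ⁻¹ = 1 := by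
  rw [← map_mul, mul_inv_cancel, map_one]

lemma rho_inv_mul (σ : GQ) : ρbar.ρ σ⁻¹ * ρbar.ρ σ = 1 := by
  rw [← map_mul, inv_mul_cancel, map_one]

lemma rho_inv_eq_one {σ : GQ} (h : ρbar.ρ σ = 1) : ρbar.ρ σ⁻¹ = 1 := by
  have := rho_mul_inv ρbar σ
  rwa [h, one_mul] at this

variable {ρbar}

lemma adCocycle_one {c : GQ → Module.End k ρbar.V} (hc : IsAdCocycle ρbar c) : c 1 = 0 := by
  have h := hc.map_mul 1 1
  rw [mul_one, map_one, inv_one, map_one, one_mul, mul_one] at h
  exact left_eq_add.mp h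

lemma adCocycle_mul_of_ker {c : GQ → Module.End k ρbar.V} (hc : IsAdCocycle ρbar c)
    {σ : GQ} (hσ : ρbar.ρ σ = 1) (τ : GQ) : c (σ * τ) = c σ + c τ := by
  rw [hc.map_mul, hσ, rho_inv_eq_one ρbar hσ, one_mul, mul_one]

lemma adCocycle_inv_of_ker {c : GQ → Module.End k ρbar.V} (hc : IsAdCocycle ρbar c)
    {σ : GQ} (hσ : ρbar.ρ σ = 1) : c σ⁻¹ = - c σ := by
  have h := adCocycle_mul_of_ker hc hσ σ⁻¹
  rw [mul_inv_cancel, adCocycle_one hc] at h
  exact eq_neg_of_add_eq_zero_right h.symm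

/-- On `ker ρ̄` the cocycle is equivariant for conjugation. -/
lemma adCocycle_conj_of_ker {c : GQ → Module.End k ρbar.V} (hc : IsAdCocycle ρbar c)
    {σ : GQ} (hσ : ρbar.ρ σ = 1) (g : GQ) :
    c (g * σ * g⁻¹) = ρbar.ρ g * c σ * ρbar.ρ g⁻¹ := by
  have h1 : c (g * g⁻¹) = c g + ρbar.ρ g * c g⁻¹ * ρbar.ρ g⁻¹ := hc.map_mul g g⁻¹
  rw [mul_inv_cancel, adCocycle_one hc] at h1
  have h2 : c (g * σ * g⁻¹) = c (g * σ) + ρbar.ρ (g * σ) * c g⁻¹ * ρbar.ρ (g * σ)⁻¹ :=
    hc.map_mul (g * σ) g⁻¹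
  have h3 : ρbar.ρ (g * σ) = ρbar.ρ g := by rw [map_mul, hσ, mul_one]
  have h4 : ρbar.ρ (g * σ)⁻¹ = ρbar.ρ g⁻¹ := by
    rw [mul_inv_rev, map_mul, rho_inv_eq_one ρbar hσ, one_mul]
  rw [h2, h3, h4, hc.map_mul g σ]
  rw [add_assoc, add_comm (ρbar.ρ g * c σ * ρbar.ρ g⁻¹), ← add_assoc, ← h1, zero_add]

/-- A cocycle vanishing on `D ∩ ker ρ̄` only depends on `ρ̄(σ)` for `σ ∈ D`. -/
lemma adCocycle_eq_of_rho_eq {c : GQ → Module.End k ρbar.V} (hc : IsAdCocycle ρbar c)
    (D : Subgroup GQ) (hvan : ∀ σ ∈ D, ρbar.ρ σ = 1 → c σ = 0)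
    {σ τ : GQ} (hσ : σ ∈ D) (hτ : τ ∈ D) (h : ρbar.ρ σ = ρbar.ρ τ) : c σ = c τ := by
  have hmem : σ⁻¹ * τ ∈ D := D.mul_mem (D.inv_mem hσ) hτ
  have hker : ρbar.ρ (σ⁻¹ * τ) = 1 := by
    rw [map_mul, ← h, rho_inv_mul]
  have h0 := hvan _ hmem hker
  have h1 := hc.map_mul σ (σ⁻¹ * τ)
  rw [mul_inv_cancel_left, h0, mul_zero, zero_mul, add_zero] at h1
  exact h1.symm

end Basic

section IR

variable {k : Type} [Field k] {ρbar : ResidualGaloisRep k}

/-- **(IR)** A cocycle vanishing on `D ∩ ker ρ̄` is a coboundary on `D`, as soon as the order of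
the finite group `ρ̄(D)` is invertible in `k` (averaging). -/
theorem isAdCoboundaryOn_of_vanish_ker {c : GQ → Module.End k ρbar.V} (hc : IsAdCocycle ρbar c)
    (D : Subgroup GQ) (hfin : (ρbar.ρ '' (D : Set GQ)).Finite)
    (hn : ((hfin.toFinset.card : ℕ) : k) ≠ 0)
    (hvan : ∀ σ ∈ D, ρbar.ρ σ = 1 → c σ = 0) : IsAdCoboundaryOn ρbar D c := by
  classical
  set s : Finset (Module.End k ρbar.V) := hfin.toFinset with hs
  have hmem : ∀ δ, δ ∈ s ↔ ∃ σ ∈ D, ρbar.ρ σ = δ := by
    intro δ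
    rw [hs, Set.Finite.mem_toFinset]
    exact Iff.rfl
  -- the cocycle as a function on the image
  let ct : Module.End k ρbar.V → Module.End k ρbar.V := fun δ =>
    if h : ∃ σ ∈ D, ρbar.ρ σ = δ then c h.choose else 0
  have hct : ∀ σ ∈ D, ct (ρbar.ρ σ) = c σ := by
    intro σ hσ
    have h : ∃ τ ∈ D, ρbar.ρ τ = ρbar.ρ σ := ⟨σ, hσ, rfl⟩
    show (if h : ∃ τ ∈ D, ρbar.ρ τ = ρbar.ρ σ then c h.choose else 0) = c σ
    rw [dif_pos h]
    exact adCocycle_eq_of_rho_eq hc D hvan h.choose_spec.1 hσ h.choose_spec.2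
  set S : Module.End k ρbar.V := ∑ δ ∈ s, ct δ with hS
  have key : ∀ σ ∈ D, S = (s.card : k) • c σ + ρbar.ρ σ * S * ρbar.ρ σ⁻¹ := by
    intro σ hσ
    have h1 : ∑ δ ∈ s, ct (ρbar.ρ σ * δ) = S := by
      rw [hS]
      refine Finset.sum_bij' (fun δ _ => ρbar.ρ σ * δ) (fun δ _ => ρbar.ρ σ⁻¹ * δ) ?_ ?_ ?_ ?_ ?_
      · intro δ hδ
        obtain ⟨τ, hτ, rfl⟩ := (hmem δ).mp hδ
        exact (hmem _).mpr ⟨σ * τ, D.mul_mem hσ hτ, map_mul _ _ _⟩
      · intro δ hδ
        obtain ⟨τ, hτ, rfl⟩ := (hmem δ).mp hδ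
        exact (hmem _).mpr ⟨σ⁻¹ * τ, D.mul_mem (D.inv_mem hσ) hτ, map_mul _ _ _⟩
      · intro δ _
        rw [← mul_assoc, rho_inv_mul, one_mul]
      · intro δ _
        rw [← mul_assoc, rho_mul_inv, one_mul]
      · intro δ _
        rfl
    have h2 : ∀ δ ∈ s, ct (ρbar.ρ σ * δ) = c σ + ρbar.ρ σ * ct δ * ρbar.ρ σ⁻¹ := by
      intro δ hδ
      obtain ⟨τ, hτ, rfl⟩ := (hmem δ).mp hδ
      rw [← map_mul, hct _ (D.mul_mem hσ hτ), hct _ hτ, hc.map_mul]
    have h5 : ∑ δ ∈ s, ct (ρbar.ρ σ * δ) = (s.card : k) • c σ + ρbar.ρ σ * S * ρbar.ρ σ⁻¹ := by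
      rw [Finset.sum_congr rfl h2, Finset.sum_add_distrib, Finset.sum_const,
        ← Finset.sum_mul, ← Finset.mul_sum, Nat.cast_smul_eq_nsmul]
    rw [← h5, h1]
  refine ⟨-((s.card : k)⁻¹ • S), fun σ hσ => ?_⟩
  have h := key σ hσ
  have h3 : (s.card : k) • c σ = S - ρbar.ρ σ * S * ρbar.ρ σ⁻¹ := by
    rw [eq_sub_iff_add_eq]
    exact h.symm
  have h4 : c σ = (s.card : k)⁻¹ • (S - ρbar.ρ σ * S * ρbar.ρ σ⁻¹) := by
    rw [← h3, smul_smul, inv_mul_cancel₀ hn, one_smul]
  rw [h4, mul_neg, neg_mul, mul_smul_comm, smul_mul_assoc, smul_sub]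
  abel

end IR

section Lift

variable {k : Type} [Field k] (ρbar : ResidualGaloisRep k)

/-- If the lift `(1 + ε c(σ)) ρ̄(σ)` is the identity, then `ρ̄(σ) = 1`. -/
lemma rho_eq_one_of_liftEnd_eq_one {c : GQ → Module.End k ρbar.V} {σ : GQ}
    (h : liftEnd ρbar c σ = 1) : ρbar.ρ σ = 1 := by
  ext w
  have h1 := congrArg (fun f => f ((1 : DualNumber k) ⊗ₜ[k] w)) h
  simp only [liftEnd, LinearMap.add_apply, LinearMap.smul_apply, LinearMap.baseChange_tmul,
    Module.End.one_apply, Module.End.mul_apply, TensorProduct.smul_tmul', smul_eq_mul,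
    mul_one] at h1
  have h2 := congrArg (fun x => TensorProduct.lid k ρbar.V
    ((TrivSqZeroExt.fstHom k k k).toLinearMap.rTensor ρbar.V x)) h1
  simpa using h2

/-- `(1 + ε c(σ)) ρ̄(σ) = 1 ↔ ρ̄(σ) = 1 ∧ c(σ) = 0`. -/
theorem liftEnd_eq_one_iff {c : GQ → Module.End k ρbar.V} {σ : GQ} :
    liftEnd ρbar c σ = 1 ↔ ρbar.ρ σ = 1 ∧ c σ = 0 := by
  constructor
  · intro h
    exact ⟨rho_eq_one_of_liftEnd_eq_one ρbar h, eq_zero_of_liftEnd_eq_one ρbar h⟩
  · rintro ⟨h1, h2⟩
    rw [liftEnd, h1, h2, zero_mul, LinearMap.baseChange_zero, LinearMap.baseChange_one]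
    refine LinearMap.ext fun x => ?_
    rw [LinearMap.add_apply, LinearMap.smul_apply, LinearMap.zero_apply, smul_zero, add_zero]

/-- For a lift `ρ'` of `c`: `ρ'(σ) = 1 ↔ ρ̄(σ) = 1 ∧ c(σ) = 0`. -/
theorem rho_eq_one_iff_of_isLiftOf {c : GQ → Module.End k ρbar.V}
    {ρ' : GaloisRepAdic (DualNumber k)} (hl : IsLiftOf ρbar c ρ') (σ : GQ) :
    ρ'.ρ σ = 1 ↔ ρbar.ρ σ = 1 ∧ c σ = 0 := by
  obtain ⟨e, he⟩ := hl
  rw [← liftEnd_eq_one_iff]
  constructor
  · intro h
    refine LinearMap.ext fun x => ?_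
    obtain ⟨v, rfl⟩ := e.surjective x
    rw [← he σ v, h, Module.End.one_apply, Module.End.one_apply]
  · intro h
    refine LinearMap.ext fun v => ?_
    apply e.injective
    rw [he σ v, h, Module.End.one_apply, Module.End.one_apply]

end Lift

end Fermat.Agent.S56.H914

end

end
-- ===== PACK-END S56/H914/BRCocycle.lean

-- ===== PACK-BEGIN S56/H194/RLCyc.lean
section



/-!
# S56 / W-FLAT-SS, leaf RL-CYC (helper194): `rlCyc : FL.RLCycStatement`

The mod-`p` cyclotomic character has exact order `p - 1` on tame inertia: for an `RCDatum` with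
`Γ₁` a `p`-group, `e = |Γ₀|` and tame data `(τ₀, φ, μ)`:
`τ₀ ^ j • ζ = ζ ^ a → (a ≡ 1 [MOD p] ↔ p - 1 ∣ j)`.

Proof.  `(p) = (ζ - 1)^(p-1)`, so `ζ - 1 = w ϖ^t` with `e = t (p - 1)`.  For `σ = τ₀ ^ j`,
`σ ϖ = u ϖ` with `ū = μ ^ j`, and `σ (ζ - 1) = ζ ^ a - 1 = (ζ - 1)(1 + ζ + ⋯ + ζ^(a-1))` gives
`μ ^ (j t) = a` in the residue field.  Finally `|Γ₀| = ord(μ) |Γ₁| = ord(μ) p ^ s`, so
`ord(μ) = (p - 1) t'`, `t = p ^ s t'`, and `ord(μ) ∣ j t ↔ p - 1 ∣ j`.
-/

set_option autoImplicit false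

open Polynomial IsLocalRing Finset

namespace Fermat.Agent.S56.H194

open Fermat.Agent.S56.FL

/-- `(p) = (ζ - 1)^(p-1)` as ideals of a domain containing a primitive `p`-th root of unity. -/
theorem span_natCast_eq_span_zeta_sub_one_pow {R : Type*} [CommRing R] [IsDomain R] {p : ℕ}
    (hp : p.Prime) {ζ : R} (hζ : IsPrimitiveRoot ζ p) :
    Ideal.span {(p : R)} = Ideal.span {ζ - 1} ^ (p - 1) := by
  obtain ⟨n, rfl⟩ : ∃ n, p = n + 1 := ⟨p - 1, (Nat.succ_pred_eq_of_pos hp.pos).symm⟩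
  have hprod := hζ.prod_one_sub_pow_eq_order
  have h1 : ∀ k ∈ range n, Ideal.span {1 - ζ ^ (k + 1)} = Ideal.span {ζ - 1} := by
    intro k hk
    have hcop : (k + 1).Coprime (n + 1) :=
      (Nat.coprime_of_lt_prime (Nat.succ_ne_zero k) (Nat.succ_lt_succ (mem_range.mp hk)) hp).symm
    have := hζ.associated_sub_one_pow_sub_one_of_coprime hcop
    rw [← neg_sub, Ideal.span_singleton_neg]
    exact (Ideal.span_singleton_eq_span_singleton.mpr this).symm
  rw [Nat.add_sub_cancel]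
  calc Ideal.span {((n + 1 : ℕ) : R)} = Ideal.span {∏ k ∈ range n, (1 - ζ ^ (k + 1))} := by
        rw [hprod]; push_cast; rfl
    _ = ∏ k ∈ range n, Ideal.span {1 - ζ ^ (k + 1)} := (Ideal.prod_span_singleton _ _).symm
    _ = Ideal.span {ζ - 1} ^ n := by rw [prod_congr rfl h1, prod_const, card_range]

section Action

variable {B Γ : Type} [CommRing B] [IsDomain B] [IsDiscreteValuationRing B] [Group Γ]
  [MulSemiringAction Γ B]

omit [IsDomain B] [IsDiscreteValuationRing B] in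
theorem irreducible_smul' (g : Γ) {ϖ : B} (hϖ : Irreducible ϖ) : Irreducible (g • ϖ) :=
  (MulEquiv.irreducible_iff (MulSemiringAction.toRingEquiv Γ B g)).mpr hϖ

theorem exists_smul_eq_mul (g : Γ) {ϖ : B} (hϖ : Irreducible ϖ) :
    ∃ u : B, IsUnit u ∧ g • ϖ = u * ϖ := by
  obtain ⟨c, hc⟩ := IsDiscreteValuationRing.associated_of_irreducible B hϖ (irreducible_smul' g hϖ)
  exact ⟨c, c.isUnit, by rw [← hc, mul_comm]⟩

theorem residue_smul_of_mem_ramGroup_zero {σ : Γ} (hσ : σ ∈ ramGroup B Γ 0) (x : B) :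
    residue B (σ • x) = residue B x := by
  have h := hσ x
  rw [zero_add, pow_one] at h
  have := (residue_eq_zero_iff _).mpr h
  rwa [map_sub, sub_eq_zero] at this

end Action

/-- For tame data `(τ₀, φ, μ)`: `τ₀ ^ j • ϖ = u ϖ` implies `ū = μ ^ j`. -/
theorem residue_unit_pow (d : RCDatum) {τ₀ φ : d.Γ} {μ : ResidueField d.B}
    (hT : d.TameData τ₀ φ μ) {ϖ : d.B} (hϖ : Irreducible ϖ) :
    ∀ (j : ℕ) (u : d.B), τ₀ ^ j • ϖ = u * ϖ → residue d.B u = μ ^ j := by
  obtain ⟨hτ₀, -, -, hu, -, -, -⟩ := hT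
  have hϖ0 : ϖ ≠ 0 := hϖ.ne_zero
  intro j
  induction j with
  | zero =>
    intro u h
    rw [pow_zero, one_smul] at h
    have : u = 1 := by
      have h2 : (1 : d.B) * ϖ = u * ϖ := by rw [one_mul]; exact h
      exact (mul_right_cancel₀ hϖ0 h2).symm
    rw [this, map_one, pow_zero]
  | succ j ih =>
    intro u h
    obtain ⟨u₁, -, h₁⟩ := exists_smul_eq_mul τ₀ hϖ
    obtain ⟨uj, -, hj⟩ := exists_smul_eq_mul (τ₀ ^ j) hϖ
    have e1 : τ₀ ^ (j + 1) • ϖ = (τ₀ ^ j • u₁ * uj) * ϖ := by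
      rw [pow_succ, mul_smul, h₁, smul_mul', hj, mul_assoc]
    have e2 : u = τ₀ ^ j • u₁ * uj := mul_right_cancel₀ hϖ0 (h.symm.trans e1)
    rw [e2, map_mul, residue_smul_of_mem_ramGroup_zero (Subgroup.pow_mem _ hτ₀ j), hu ϖ hϖ u₁ h₁,
      ih uj hj, pow_succ, mul_comm]

/-- `|Γ₀| = ord(μ) · |Γ₁|` for tame data `(τ₀, φ, μ)`. -/
theorem card_inertia_eq (d : RCDatum) {τ₀ φ : d.Γ} {μ : ResidueField d.B}
    (hT : d.TameData τ₀ φ μ) :
    Nat.card (ramGroup d.B d.Γ 0) = orderOf μ * Nat.card (ramGroup d.B d.Γ 1) := by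
  obtain ⟨hτ₀, hgen, hμ, -, -, -, -⟩ := hT
  have hnorm : (ramGroup d.B d.Γ 1).Normal := ramGroup_normal 1
  have hle : ramGroup d.B d.Γ 1 ≤ ramGroup d.B d.Γ 0 := ramGroup_one_le_zero
  set I := ramGroup d.B d.Γ 0 with hI
  set W' : Subgroup I := (ramGroup d.B d.Γ 1).subgroupOf I with hW'
  have hnorm' : W'.Normal := Subgroup.Normal.subgroupOf hnorm I
  let x₀ : I := ⟨τ₀, hτ₀⟩
  let q₀ : I ⧸ W' := QuotientGroup.mk x₀
  have hq₀ : ∀ n : ℕ, q₀ ^ n = 1 ↔ μ ^ n = 1 := by
    intro n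
    rw [← hμ n]
    show ((x₀ ^ n : I) : I ⧸ W') = 1 ↔ _
    rw [QuotientGroup.eq_one_iff, hW', Subgroup.mem_subgroupOf]
    rfl
  have hall : ∀ y : I ⧸ W', y ∈ Subgroup.zpowers q₀ := by
    intro y
    induction y using QuotientGroup.induction_on with
    | H σ =>
      obtain ⟨j, hj⟩ := hgen σ.1 σ.2
      refine ⟨(j : ℤ), ?_⟩
      have h1 : (σ * (x₀ ^ j)⁻¹ : I) ∈ W' := by
        rw [hW', Subgroup.mem_subgroupOf]
        exact hj
      have h2 := (QuotientGroup.eq_one_iff (N := W') (σ * (x₀ ^ j)⁻¹)).mpr h1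
      rw [QuotientGroup.mk_mul, QuotientGroup.mk_inv, QuotientGroup.mk_pow, mul_inv_eq_one] at h2
      show q₀ ^ (j : ℤ) = _
      rw [zpow_natCast]
      exact h2.symm
  have hcard : orderOf q₀ = Nat.card (I ⧸ W') := orderOf_eq_card_of_forall_mem_zpowers hall
  have hord : orderOf q₀ = orderOf μ := orderOf_eq_orderOf_iff.mpr hq₀
  rw [Subgroup.card_eq_card_quotient_mul_card_subgroup W', ← hcard, hord,
    Nat.card_congr (Subgroup.subgroupOfEquivOfLe hle).toEquiv]

/-- The arithmetic at the end of RL-CYC. -/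
theorem dvd_mul_iff_of_mul_eq {P E₀ t s p j : ℕ} (hE₀ : 0 < E₀) (hp : 0 < p)
    (hcop : Nat.Coprime P p) (h : t * P = E₀ * p ^ s) : E₀ ∣ j * t ↔ P ∣ j := by
  have hcop' : Nat.Coprime (p ^ s) P := (Nat.Coprime.pow_right s hcop).symm
  have h1 : p ^ s ∣ t := by
    have : p ^ s ∣ t * P := ⟨E₀, by rw [h, mul_comm]⟩
    exact hcop'.dvd_of_dvd_mul_right this
  obtain ⟨t', rfl⟩ := h1
  have hps : 0 < p ^ s := Nat.pow_pos hp
  have hE : E₀ = t' * P := by
    have : p ^ s * (t' * P) = p ^ s * E₀ := by rw [← mul_assoc, h, mul_comm]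
    exact (Nat.eq_of_mul_eq_mul_left hps this).symm
  have ht' : 0 < t' := by
    rcases Nat.eq_zero_or_pos t' with h0 | h0
    · rw [h0, zero_mul] at hE
      exact absurd hE hE₀.ne'
    · exact h0
  subst hE
  constructor
  · intro hd
    have h2 : t' * P ∣ t' * (j * p ^ s) := by
      have : j * (p ^ s * t') = t' * (j * p ^ s) := by ring
      rwa [this] at hd
    have h3 : P ∣ j * p ^ s := (Nat.mul_dvd_mul_iff_left ht').mp h2
    exact hcop'.symm.dvd_of_dvd_mul_right h3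
  · rintro ⟨c, rfl⟩
    exact ⟨c * p ^ s, by ring⟩

/-- **RL-CYC.** -/
theorem rlCyc : RLCycStatement := by
  intro d hW he τ₀ φ μ hT j a hja
  have hp := d.hp
  have hchar := charP_residueField d
  have hτ₀ : τ₀ ∈ ramGroup d.B d.Γ 0 := hT.1
  have hμ : ∀ j : ℕ, τ₀ ^ j ∈ ramGroup d.B d.Γ 1 ↔ μ ^ j = 1 := hT.2.2.1
  -- uniformizer
  obtain ⟨ϖ, hϖ⟩ := IsDiscreteValuationRing.exists_irreducible d.B
  have hϖ0 : ϖ ≠ 0 := hϖ.ne_zero
  have hζ1 : d.ζ - 1 ≠ 0 := sub_ne_zero.mpr (d.hζ.ne_one hp.one_lt)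
  obtain ⟨t, w, hw⟩ := IsDiscreteValuationRing.eq_unit_mul_pow_irreducible hζ1 hϖ
  -- `e = t (p - 1)`
  have het : d.e = t * (d.p - 1) := by
    have h1 := span_natCast_eq_span_zeta_sub_one_pow hp d.hζ
    rw [d.he, hw, hϖ.maximalIdeal_eq, Ideal.span_singleton_pow, Ideal.span_singleton_pow,
      Ideal.span_singleton_eq_span_singleton] at h1
    obtain ⟨u, hu'⟩ := h1
    have h2 : (u : d.B) * ϖ ^ d.e = ((w ^ (d.p - 1) : d.Bˣ) : d.B) * ϖ ^ (t * (d.p - 1)) := by
      rw [mul_comm, hu', mul_pow, ← pow_mul, Units.val_pow_eq_pow_val]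
    exact IsDiscreteValuationRing.unit_mul_pow_congr_pow hϖ hϖ _ _ _ _ h2
  -- `0 < e`, hence `0 < t`
  have hepos : 0 < d.e := by
    rcases Nat.eq_zero_or_pos d.e with h0 | h0
    · exfalso
      have h1 := d.he
      rw [h0, pow_zero, Ideal.one_eq_top, Ideal.span_singleton_eq_top] at h1
      exact (mem_nonunits_iff.mp ((mem_maximalIdeal _).mp (natCast_p_mem_maximalIdeal d))) h1
    · exact h0
  have htpos : 0 < t := by
    rcases Nat.eq_zero_or_pos t with h0 | h0
    · rw [h0, zero_mul] at het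
      exact absurd het hepos.ne'
    · exact h0
  -- `ζ ≡ 1`
  have hresζ : residue d.B d.ζ = 1 := by
    have hmem : d.ζ - 1 ∈ maximalIdeal d.B := by
      rw [hw, hϖ.maximalIdeal_eq]
      exact Ideal.mul_mem_left _ _ (Ideal.pow_mem_of_mem _ (Ideal.mem_span_singleton_self ϖ) t htpos)
    have := (residue_eq_zero_iff _).mpr hmem
    rwa [map_sub, map_one, sub_eq_zero] at this
  -- the key congruence `μ ^ (j t) = a`
  set σ := τ₀ ^ j with hσ
  have hσmem : σ ∈ ramGroup d.B d.Γ 0 := Subgroup.pow_mem _ hτ₀ j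
  obtain ⟨u, -, hu⟩ := exists_smul_eq_mul σ hϖ
  have hresu : residue d.B u = μ ^ j := residue_unit_pow d hT hϖ j u hu
  have key : residue d.B (w : d.B) * μ ^ (j * t) = residue d.B (w : d.B) * (a : ResidueField d.B) := by
    have e1 : σ • (d.ζ - 1) = (σ • (w : d.B) * u ^ t) * ϖ ^ t := by
      rw [hw, smul_mul', smul_pow', hu, mul_pow, mul_assoc]
    have e2 : σ • (d.ζ - 1) = ((w : d.B) * ∑ i ∈ range a, d.ζ ^ i) * ϖ ^ t := by
      rw [smul_sub, smul_one, hja, ← mul_geom_sum, hw]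
      ring
    have e3 : σ • (w : d.B) * u ^ t = (w : d.B) * ∑ i ∈ range a, d.ζ ^ i :=
      mul_right_cancel₀ (pow_ne_zero t hϖ0) (e1.symm.trans e2)
    have e4 := congrArg (residue d.B) e3
    rw [map_mul, map_mul, map_pow, residue_smul_of_mem_ramGroup_zero hσmem, hresu, ← pow_mul,
      map_sum] at e4
    rw [e4]
    congr 1
    simp only [map_pow, hresζ, one_pow, sum_const, card_range, nsmul_eq_mul, mul_one]
  have hwne : residue d.B (w : d.B) ≠ 0 := by
    intro h0
    exact (mem_nonunits_iff.mp ((mem_maximalIdeal _).mp ((residue_eq_zero_iff _).mp h0))) w.isUnit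
  have hkey : μ ^ (j * t) = (a : ResidueField d.B) := mul_left_cancel₀ hwne key
  -- `a ≡ 1 [MOD p] ↔ ord μ ∣ j t`
  have h3 : a ≡ 1 [MOD d.p] ↔ orderOf μ ∣ j * t := by
    rw [orderOf_dvd_iff_pow_eq_one, hkey, ← CharP.natCast_eq_natCast (ResidueField d.B) d.p,
      Nat.cast_one]
  rw [h3]
  -- counting
  have hcard := card_inertia_eq d hT
  have hfact : Fact d.p.Prime := ⟨hp⟩
  obtain ⟨s, hs⟩ := hW.exists_card_eq
  have hordpos : 0 < orderOf μ := by
    have hfin : IsOfFinOrder τ₀ := isOfFinOrder_of_finite τ₀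
    have h1 : μ ^ orderOf τ₀ = 1 := by
      rw [← hμ, pow_orderOf_eq_one]
      exact one_mem _
    exact orderOf_pos_iff.mpr (isOfFinOrder_iff_pow_eq_one.mpr ⟨_, hfin.orderOf_pos, h1⟩)
  have hcop : Nat.Coprime (d.p - 1) d.p := by
    have : Nat.Coprime d.p (d.p - 1) :=
      Nat.coprime_of_lt_prime (Nat.sub_pos_of_lt hp.one_lt).ne' (Nat.sub_lt hp.pos Nat.one_pos) hp
    exact this.symm
  exact dvd_mul_iff_of_mul_eq hordpos hp.pos hcop (by rw [← het, he, hcard, hs])

end Fermat.Agent.S56.H194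

end
-- ===== PACK-END S56/H194/RLCyc.lean

-- ===== PACK-BEGIN S56/FO/H6/CE.lean
section






/-!
# S56 / FLAT-O / leaf CE (helper6): kernel of reduction = augmentation

`(M, act, Λ)` a Hopf lattice over `ℤ_(p)`, `p` odd, `p • M = 0`, `P | p` a place of `ℚ̄`,
`I = P.inertiaSubgroupIn ℚ`.

* `ConnEtStatement` (CE): a point `x` with `v(f x - f 0) < 1` for all `f ∈ Λ` (a point of the
  kernel of reduction) lies in the subgroup generated by the `act σ y - y`, `σ ∈ I`.
* `UnrVal1Statement` (VG1): an element of `ℚ̄` fixed by `I₁ = {σ ∈ I : σ ζ = ζ}` which is a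
  non-unit has valuation `≤ v(ζ - 1)`.
* `connEt_of : UnrVal1Statement → ConnEtStatement`.

Plan and use in the FLAT-O assembly: `coord/S56-FLAT-O-CE-helper6.md` (origin/helper6).
No quotient of Hopf lattices, no Cartier duality: only CHAR-INT (`CharInt.lean`).
-/

set_option autoImplicit false
set_option linter.style.haveILetI false
set_option linter.unusedSectionVars false

noncomputable section

namespace Fermat.Agent.S56.FO.H6

open Fermat.Agent.S56
open scoped BigOperators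

/-- (VG1) a non-unit of `ℚ̄` fixed by `{σ ∈ I_P : σ ζ = ζ}` has valuation `≤ v(ζ - 1)`. -/
def UnrVal1Statement : Prop :=
  ∀ p : ℕ, p.Prime → ∀ P : ValuationSubring Qb, P.LiesOverPrime p →
    ∀ ζ : Qb, IsPrimitiveRoot ζ p → ∀ y : Qb,
      (∀ σ ∈ P.inertiaSubgroupIn ℚ, σ ζ = ζ → σ y = y) → P.valuation y < 1 →
      P.valuation y ≤ P.valuation (ζ - 1)

/-- (CE) the kernel of reduction of a Hopf lattice killed by `p` (`p` odd) is contained in the
augmentation subgroup of inertia. -/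
def ConnEtStatement : Prop :=
  ∀ (p : ℕ) [Fact p.Prime], p ≠ 2 →
    ∀ (M : Type) [AddCommGroup M] [Finite M] (act : GQ → M → M)
    (Λ : Subalgebra (H906.Zp p) (M → Qb)), H906.IsHL p act Λ → (∀ x : M, p • x = 0) →
    ∀ P : ValuationSubring Qb, P.LiesOverPrime p → ∀ x : M,
      (∀ f ∈ Λ, P.valuation (f x - f 0) < 1) →
      x ∈ AddSubgroup.closure
        {z : M | ∃ σ ∈ P.inertiaSubgroupIn ℚ, ∃ y : M, z = act σ y - y}

/-! ## Auxiliary lemmas -/

/-- Elements of `ℤ_(p)` are `P`-integral for `P | p`. -/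
theorem valuation_Zl_le_one {p : ℕ} (hp : p.Prime) (P : ValuationSubring Qb)
    (hP : P.LiesOverPrime p) (r : H906.Zp p) :
    P.valuation (algebraMap (H906.Zp p) Qb r) ≤ 1 := by
  have hden : (r : ℚ).den.Coprime p := r.2
  have hq : algebraMap (H906.Zp p) Qb r = algebraMap ℚ Qb (r : ℚ) := rfl
  have h1 : algebraMap ℚ Qb (r : ℚ) = ((r : ℚ).num : Qb) / (((r : ℚ).den : ℤ) : Qb) := by
    conv_lhs => rw [← Rat.num_div_den (r : ℚ)]
    rw [map_div₀, map_intCast, map_natCast]
    push_cast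
    rfl
  rw [hq, h1, map_div₀]
  have hnd : ¬ (p : ℤ) ∣ (((r : ℚ).den : ℕ) : ℤ) := by
    intro h
    have h2 : p ∣ (r : ℚ).den := by exact_mod_cast h
    have h3 := Nat.Coprime.eq_one_of_dvd hden.symm h2
    exact hp.one_lt.ne' h3
  rw [Fermat.Agent.S14.H894.valuation_intCast_eq_one P p hp hP _ hnd, div_one]
  exact Fermat.Agent.S14.H894.valuation_intCast_le_one P _

/-- Elements of `ℚ̄` integral over `ℤ_(p)` are `P`-integral for `P | p`. -/
theorem valuation_le_one_of_isIntegral {p : ℕ} (hp : p.Prime) (P : ValuationSubring Qb)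
    (hP : P.LiesOverPrime p) {c : Qb} (hc : IsIntegral (H906.Zp p) c) :
    P.valuation c ≤ 1 := by
  obtain ⟨f, hf, hfc⟩ := hc
  by_contra hlt
  rw [not_le] at hlt
  have hn : f.natDegree ≠ 0 := by
    intro hn
    have h1 : f = 1 := by
      have := Polynomial.eq_C_of_natDegree_eq_zero hn
      rw [this]
      have h2 : f.coeff 0 = 1 := by
        have := hf.coeff_natDegree
        rwa [hn] at this
      rw [h2, map_one]
    rw [h1, Polynomial.eval₂_one] at hfc
    exact one_ne_zero hfc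
  rw [Polynomial.eval₂_eq_sum_range, Finset.sum_range_succ, hf.coeff_natDegree, map_one,
    one_mul, add_eq_zero_iff_eq_neg] at hfc
  have h3 := congrArg P.valuation hfc
  rw [Valuation.map_neg, map_pow] at h3
  have h4 : P.valuation (∑ i ∈ Finset.range f.natDegree,
      algebraMap (H906.Zp p) Qb (f.coeff i) * c ^ i) < P.valuation c ^ f.natDegree := by
    refine P.valuation.map_sum_lt ?_ ?_
    · exact pow_ne_zero _ (ne_of_gt (lt_trans zero_lt_one hlt))
    · intro i hi
      rw [Finset.mem_range] at hi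
      rw [map_mul, map_pow]
      calc P.valuation (algebraMap (H906.Zp p) Qb (f.coeff i)) * P.valuation c ^ i
          ≤ 1 * P.valuation c ^ i :=
            mul_le_mul_of_nonneg_right (valuation_Zl_le_one hp P hP _) zero_le
        _ = P.valuation c ^ i := one_mul _
        _ < P.valuation c ^ f.natDegree := pow_lt_pow_right₀ hlt hi
  rw [h3] at h4
  exact lt_irrefl _ h4

/-- A vector outside a subspace is detected by a linear form vanishing on the subspace. -/
theorem exists_dual_of_not_mem {p : ℕ} [Fact p.Prime] {M : Type*} [AddCommGroup M]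
    [Module (ZMod p) M] (Z : Submodule (ZMod p) M) {x₀ : M} (hx : x₀ ∉ Z) :
    ∃ f : M →ₗ[ZMod p] ZMod p, f x₀ ≠ 0 ∧ ∀ z ∈ Z, f z = 0 := by
  obtain ⟨f, hf, hfZ⟩ : ∃ f : M →ₗ[ZMod p] ZMod p, f x₀ ≠ 0 ∧ Z.map f = ⊥ :=
    Submodule.exists_dual_map_eq_bot_of_notMem hx inferInstance
  refine ⟨f, hf, fun z hz => ?_⟩
  have : f z ∈ Z.map f := ⟨z, hz, rfl⟩
  rw [hfZ] at this
  exact (Submodule.mem_bot _).mp this

/-- A point outside a subgroup of a group killed by `p` is detected by an additive character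
with values in `ZMod p`. -/
theorem exists_addChar_of_not_mem {p : ℕ} [Fact p.Prime] {M : Type*} [AddCommGroup M]
    (hpM : ∀ x : M, p • x = 0) (Z : AddSubgroup M) {x₀ : M} (hx : x₀ ∉ Z) :
    ∃ ξ : M →+ ZMod p, (∀ z ∈ Z, ξ z = 0) ∧ ξ x₀ ≠ 0 := by
  letI : Module (ZMod p) M := AddCommGroup.zmodModule hpM
  obtain ⟨f, hf, hfZ⟩ := exists_dual_of_not_mem (AddSubgroup.toZModSubmodule p Z) hx
  exact ⟨f.toAddMonoidHom, fun z hz => hfZ z hz, hf⟩

/-- The multiplicative character `m ↦ ζ ^ (ξ m).val`. -/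
theorem zeta_pow_val_add {p : ℕ} [Fact p.Prime] {ζ : Qb} (hζ : ζ ^ p = 1) (a b : ZMod p) :
    ζ ^ (a + b).val = ζ ^ a.val * ζ ^ b.val := by
  rw [ZMod.val_add, ← pow_add]
  exact (pow_eq_pow_mod _ hζ).symm

/-! ## The theorem -/

/-- **(CE)** from (VG1). -/
theorem connEt_of (hV : UnrVal1Statement) : ConnEtStatement := by
  intro p _ hp2 M _ _ act Λ hΛ hpM P hP x₀ hx₀
  classical
  have hp : p.Prime := Fact.out
  haveI : NeZero p := ⟨hp.ne_zero⟩
  by_contra hx
  set Z : AddSubgroup M := AddSubgroup.closure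
    {z : M | ∃ σ ∈ P.inertiaSubgroupIn ℚ, ∃ y : M, z = act σ y - y} with hZ
  -- (1) the character
  obtain ⟨ξ, hξZ, hξx⟩ := exists_addChar_of_not_mem hpM Z hx
  obtain ⟨ζ, hζ⟩ := Fermat.Agent.S56.P3.H254.exists_primitiveRoot p
  have hζp : ζ ^ p = 1 := hζ.pow_eq_one
  set χ : M → Qb := fun m => ζ ^ (ξ m).val with hχdef
  have hχ0 : χ 0 = 1 := by
    show ζ ^ (ξ 0).val = 1
    rw [map_zero, ZMod.val_zero, pow_zero]
  have hχadd : ∀ x y : M, χ (x + y) = χ x * χ y := by
    intro x y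
    show ζ ^ (ξ (x + y)).val = _
    rw [map_add]
    exact zeta_pow_val_add hζp _ _
  have hχp : ∀ m : M, χ m ^ p = 1 := by
    intro m
    show (ζ ^ (ξ m).val) ^ p = 1
    rw [← pow_mul, mul_comm, pow_mul, hζp, one_pow]
  -- `χ` is invariant under inertia translations
  have hχact : ∀ σ ∈ P.inertiaSubgroupIn ℚ, ∀ m : M, χ (act σ m) = χ m := by
    intro σ hσ m
    have h1 : act σ m - m ∈ Z := AddSubgroup.subset_closure ⟨σ, hσ, m, rfl⟩
    have h2 : ξ (act σ m) = ξ m := by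
      have := hξZ _ h1
      rw [map_sub, sub_eq_zero] at this
      exact this
    show ζ ^ (ξ (act σ m)).val = ζ ^ (ξ m).val
    rw [h2]
  -- (3) the basis and the coefficients
  obtain ⟨n, e, he, -, hliQ, hexp⟩ := Fermat.Agent.S19.H435.IsHopfLattice.exists_basis hΛ
  have hli := Fintype.linearIndependent_iff.mp hliQ
  obtain ⟨c, hcint, hc⟩ := isIntegral_coeff_of_character hΛ e he hliQ hexp χ hχ0 hχadd
  have hχc : ∀ m : M, χ m = ∑ i, c i * e i m := by
    intro m
    rw [hc, sum_Qb_smul_apply]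
  -- the inverse character
  set χ' : M → Qb := fun m => χ m ^ (p - 1) with hχ'def
  have hχ'0 : χ' 0 = 1 := by
    show χ 0 ^ (p - 1) = 1
    rw [hχ0, one_pow]
  have hχ'add : ∀ x y : M, χ' (x + y) = χ' x * χ' y := by
    intro x y
    show χ (x + y) ^ (p - 1) = χ x ^ (p - 1) * χ y ^ (p - 1)
    rw [hχadd, mul_pow]
  obtain ⟨c', hc'int, hc'⟩ := isIntegral_coeff_of_character hΛ e he hliQ hexp χ' hχ'0 hχ'add
  have hχ'c : ∀ m : M, χ' m = ∑ i, c' i * e i m := by
    intro m
    rw [hc', sum_Qb_smul_apply]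
  -- the unit function and the structure constants
  obtain ⟨u, hu⟩ := hexp 1 Λ.one_mem
  have hu1 : ∀ m : M, (1 : Qb) = ∑ k, algebraMap (H906.Zp p) Qb (u k) * e k m := by
    intro m
    have := congrFun hu m
    rw [sum_Zl_smul_apply] at this
    exact this
  choose s hs using fun i j => hexp (e i * e j) (Λ.mul_mem (he i) (he j))
  have hs' : ∀ (i j : Fin n) (m : M),
      e i m * e j m = ∑ k, algebraMap (H906.Zp p) Qb (s i j k) * e k m := by
    intro i j m
    have := congrFun (hs i j) m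
    rw [sum_Zl_smul_apply] at this
    exact this
  -- (5) twisting
  have htw : ∀ σ ∈ P.inertiaSubgroupIn ℚ, ∀ a : ℕ, σ ζ = ζ ^ a →
      ∀ m : M, ∑ i, σ (c i) * e i m = χ m ^ a := by
    intro σ hσ a ha m
    have hσi : σ⁻¹ ∈ P.inertiaSubgroupIn ℚ := Subgroup.inv_mem _ hσ
    have h1 : χ (act σ⁻¹ m) = ∑ i, c i * σ⁻¹ (e i m) := by
      rw [hχc]
      refine Finset.sum_congr rfl fun i _ => ?_
      rw [hΛ.equivariant _ (he i) σ⁻¹ m]
    have h2 := congrArg σ h1
    rw [map_sum, hχact σ⁻¹ hσi m] at h2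
    have h3 : ∀ i, σ (c i * σ⁻¹ (e i m)) = σ (c i) * e i m := by
      intro i
      rw [map_mul]
      congr 1
      exact AlgEquiv.apply_symm_apply σ (e i m)
    rw [Finset.sum_congr rfl fun i _ => h3 i] at h2
    rw [← h2]
    show σ (ζ ^ (ξ m).val) = (ζ ^ (ξ m).val) ^ a
    rw [map_pow, ha, ← pow_mul, ← pow_mul, mul_comm]
  -- (4) an inertia element acting by `ζ ↦ ζ²`
  have h2p : Nat.Coprime 2 p := by
    rw [Nat.coprime_comm]
    exact (Nat.coprime_primes hp Nat.prime_two).mpr hp2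
  obtain ⟨g, hg⟩ := Fermat.Agent.S56.P3.H254.exists_apply_eq_pow hζ (ZMod.unitOfCoprime 2 h2p)
  have hval2 : ((ZMod.unitOfCoprime 2 h2p : (ZMod p)ˣ) : ZMod p).val = 2 := by
    rw [ZMod.coe_unitOfCoprime, ZMod.val_natCast]
    refine Nat.mod_eq_of_lt ?_
    have := hp.two_le
    omega
  rw [hval2] at hg
  obtain ⟨τ, hτ, hτζ⟩ := Fermat.Agent.S56.H656.exists_inertia_apply_eq hp P hP hζ g
  rw [hg] at hτζ
  -- valuations of the coefficients
  have hvc : ∀ i, P.valuation (c i) ≤ 1 := fun i => valuation_le_one_of_isIntegral hp P hP (hcint i)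
  have hvc' : ∀ i, P.valuation (c' i) ≤ 1 :=
    fun i => valuation_le_one_of_isIntegral hp P hP (hc'int i)
  set t : Fin n → Qb := fun j => τ (c j) - c j with ht
  have hvt : ∀ j, P.valuation (t j) < 1 := fun j =>
    Fermat.Agent.A2.H708.valuation_sub_lt_one_of_mem_inertiaIn P hτ (hvc j)
  -- (6a) `c k - u k = D k`
  set D : Fin n → Qb := fun k => ∑ i, ∑ j, c' i * t j * algebraMap (H906.Zp p) Qb (s i j k)
    with hD
  have hcu : ∀ k, c k - algebraMap (H906.Zp p) Qb (u k) = D k := by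
    intro k
    have h0 : ∑ k, (c k - algebraMap (H906.Zp p) Qb (u k) - D k) • e k = 0 := by
      funext m
      rw [sum_Qb_smul_apply, Pi.zero_apply]
      simp only [sub_mul, Finset.sum_sub_distrib]
      rw [← hχc m, ← hu1 m]
      -- `χ m - 1 = χ' m * (χ m ^ 2 - χ m)`
      have h1 : χ m - 1 = χ' m * (χ m ^ 2 - χ m) := by
        show χ m - 1 = χ m ^ (p - 1) * (χ m ^ 2 - χ m)
        have hpp : χ m ^ (p - 1) * χ m = 1 := by
          rw [← pow_succ, Nat.sub_add_cancel hp.one_le, hχp]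
        calc χ m - 1 = (χ m ^ (p - 1) * χ m) * χ m - χ m ^ (p - 1) * χ m := by
              rw [hpp, one_mul]
          _ = χ m ^ (p - 1) * (χ m ^ 2 - χ m) := by ring
      have h2 : χ m ^ 2 - χ m = ∑ j, t j * e j m := by
        rw [← htw τ hτ 2 hτζ m, hχc m, ← Finset.sum_sub_distrib]
        refine Finset.sum_congr rfl fun j _ => ?_
        rw [ht]
        ring
      have h3 : ∑ k, D k * e k m = χ' m * (χ m ^ 2 - χ m) := by
        rw [h2, hχ'c m, Finset.sum_mul_sum]
        have h4 : ∀ i j, c' i * e i m * (t j * e j m) =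
            ∑ k, c' i * t j * algebraMap (H906.Zp p) Qb (s i j k) * e k m := by
          intro i j
          have : c' i * e i m * (t j * e j m) = c' i * t j * (e i m * e j m) := by ring
          rw [this, hs' i j m, Finset.mul_sum]
          refine Finset.sum_congr rfl fun k _ => ?_
          ring
        simp_rw [h4]
        rw [hD]
        simp only [Finset.sum_mul]
        rw [Finset.sum_comm]
        refine Finset.sum_congr rfl fun i _ => ?_
        rw [Finset.sum_comm]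
      rw [h3, h1, sub_self]
    exact sub_eq_zero.mp (hli _ h0 k)
  have hvD : ∀ k, P.valuation (D k) < 1 := by
    intro k
    refine P.valuation.map_sum_lt one_ne_zero fun i _ => ?_
    refine P.valuation.map_sum_lt one_ne_zero fun j _ => ?_
    rw [map_mul, map_mul]
    calc P.valuation (c' i) * P.valuation (t j) *
          P.valuation (algebraMap (H906.Zp p) Qb (s i j k))
        ≤ 1 * P.valuation (t j) * 1 := by
          gcongr
          · exact hvc' i
          · exact valuation_Zl_le_one hp P hP _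
      _ = P.valuation (t j) := by rw [one_mul, mul_one]
      _ < 1 := hvt j
  -- (6b) the coefficients are fixed by `I₁`
  have hfix : ∀ σ ∈ P.inertiaSubgroupIn ℚ, σ ζ = ζ → ∀ k, σ (D k) = D k := by
    intro σ hσ hσζ k
    have hck : σ (c k) = c k := by
      have h0 : ∑ i, (σ (c i) - c i) • e i = 0 := by
        funext m
        rw [sum_Qb_smul_apply, Pi.zero_apply]
        simp only [sub_mul, Finset.sum_sub_distrib]
        rw [htw σ hσ 1 (by rw [pow_one]; exact hσζ) m, pow_one, ← hχc m, sub_self]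
      exact sub_eq_zero.mp (hli _ h0 k)
    rw [← hcu k, map_sub, hck]
    congr 1
    exact σ.commutes ((u k : ℚ))
  -- (VG1)
  have hvD' : ∀ k, P.valuation (D k) ≤ P.valuation (ζ - 1) := fun k =>
    hV p hp P hP ζ hζ (D k) (fun σ hσ hσζ => hfix σ hσ hσζ k) (hvD k)
  -- (7) the value at `x₀`
  have hval : χ x₀ - 1 = ∑ k, D k * (e k x₀ - e k 0) := by
    have h1 : χ x₀ - 1 = ∑ k, c k * (e k x₀ - e k 0) := by
      rw [← hχ0, hχc x₀, hχc 0, ← Finset.sum_sub_distrib]
      refine Finset.sum_congr rfl fun k _ => ?_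
      ring
    have h2 : ∑ k, algebraMap (H906.Zp p) Qb (u k) * (e k x₀ - e k 0) = 0 := by
      simp only [mul_sub, Finset.sum_sub_distrib]
      rw [← hu1 x₀, ← hu1 0, sub_self]
    rw [h1, ← sub_zero (∑ k, c k * (e k x₀ - e k 0)), ← h2, ← Finset.sum_sub_distrib]
    refine Finset.sum_congr rfl fun k _ => ?_
    rw [← hcu k]
    ring
  have hπ0 : P.valuation (ζ - 1) ≠ 0 :=
    Fermat.Agent.S14.H894.valuation_zeta_sub_one_ne_zero P p hp ζ hζ
  have hlt : P.valuation (χ x₀ - 1) < P.valuation (ζ - 1) := by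
    rw [hval]
    refine P.valuation.map_sum_lt hπ0 fun k _ => ?_
    rw [map_mul]
    calc P.valuation (D k) * P.valuation (e k x₀ - e k 0)
        ≤ P.valuation (ζ - 1) * P.valuation (e k x₀ - e k 0) :=
          mul_le_mul_of_nonneg_right (hvD' k) zero_le
      _ < P.valuation (ζ - 1) * 1 :=
          mul_lt_mul_of_pos_left (hx₀ _ (he k)) (zero_lt_iff.mpr hπ0)
      _ = P.valuation (ζ - 1) := mul_one _
  -- (8) `χ x₀` is a primitive `p`-th root of unity
  have hk0 : (ξ x₀).val ≠ 0 := by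
    intro h
    exact hξx ((ZMod.val_eq_zero _).mp h)
  have hcop : (ξ x₀).val.Coprime p := by
    rw [Nat.coprime_comm, hp.coprime_iff_not_dvd]
    intro hdvd
    have h1 := Nat.le_of_dvd (Nat.pos_of_ne_zero hk0) hdvd
    exact absurd (ZMod.val_lt (ξ x₀)) (not_lt.mpr h1)
  have hprim : IsPrimitiveRoot (χ x₀) p := hζ.pow_of_coprime _ hcop
  have heq := Fermat.Agent.S14.H894.valuation_sub_one_eq_of_mem_primitiveRoots P p hp ζ hζ
    ((mem_primitiveRoots hp.pos).mpr hprim)
  rw [heq] at hlt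
  exact lt_irrefl _ hlt

end Fermat.Agent.S56.FO.H6

end
end
-- ===== PACK-END S56/FO/H6/CE.lean

-- ===== PACK-BEGIN S56/H14/InvInj.lean
section


/-!
# Row S56 — REC-Q input: the local invariant map is injective when `μ_p` is locally trivial
(helper14)

S55's interface (`PT/Spec.lean`, A6 = `TopLocIndSpec`) says that `inv_v ∘ aug_*` is bijective on
`H²(G_v, Ind_W μ)` for every normal local level `W` acting trivially on `μ`.  For `W = ⊤`
(possible exactly when `G_v` acts trivially on `μ_p`, e.g. `v ≡ 1 mod p`) the augmentation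
`Ind_⊤ μ → μ` is an isomorphism, hence `inv_v` itself is bijective on `H²(G_v, μ_p)`.

* `injective_of_bijective_comp_indAug` — abstract form (any group, level system, module);
* `inv_bijective_of_topLocInd`, `inv_injective_of_topLocInd` — the arithmetic instance.

Nothing unproved in this file.
-/

set_option autoImplicit false

noncomputable section

namespace Fermat.Agent.S56.H14

open groupCohomology Fermat.Agent.S55.PT

section Abstract

variable {k : Type} [Field k] {G : Type} [Group G] (L : LevelSys G) (N : Rep.{0, 0, 0} k G)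
  (U : Subgroup G)

/-- The section `m ↦ single 1 m` of the augmentation `Ind_U N → N`. -/
def indUnit : N →ₗ[k] ((G ⧸ U) →₀ N) := Finsupp.lsingle ((1 : G) : G ⧸ U)

lemma indAug_indUnit (m : N) : indAug U N (indUnit N U m) = m :=
  indAug_single U N _ m

/-- If `U` is the whole group, `m ↦ single 1 m` is equivariant. -/
lemma indUnit_equivariant (hU : ∀ g : G, g ∈ U) :
    IsEquivariant (A := N) (B := indRep U N) (indUnit N U) := by
  intro g m
  show (Finsupp.single ((1 : G) : G ⧸ U) (N.ρ g m) : (G ⧸ U) →₀ N) =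
    (indRep U N).ρ g (Finsupp.single ((1 : G) : G ⧸ U) m : (G ⧸ U) →₀ N)
  rw [indRep_ρ_single]
  congr 1
  show ((1 : G) : G ⧸ U) = ((g * 1 : G) : G ⧸ U)
  rw [mul_one, QuotientGroup.eq]
  exact U.mul_mem (U.inv_mem (U.one_mem)) (hU g)

/-- If `U` is the whole group and `f ∘ aug_*` is injective on `H²(Ind_U N)`, then `f` is
injective on `H²(N)`. -/
theorem injective_of_injective_comp_indAug (hU : ∀ g : G, g ∈ U) {X : Type*} [AddCommGroup X]
    [Module k X] (f : L.H2 N →ₗ[k] X)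
    (h : Function.Injective (f ∘ₗ
      pushH2 (A := indRep U N) (B := N) (indAug U N) (indAug_equivariant U N) L)) :
    Function.Injective f := by
  rw [injective_iff_map_eq_zero]
  intro z hz
  have h1 : pushH2 (A := indRep U N) (B := N) (indAug U N) (indAug_equivariant U N) L
      (pushH2 (A := N) (B := indRep U N) (indUnit N U) (indUnit_equivariant N U hU) L z) = z := by
    obtain ⟨c, rfl⟩ := L.H2π_surjective N z
    rw [pushH2_mk, pushH2_mk]
    congr 1
    apply Subtype.ext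
    funext x
    simp only [coe_pushZ2, Function.comp_apply, indAug_indUnit]
  have h2 : (f ∘ₗ pushH2 (A := indRep U N) (B := N) (indAug U N) (indAug_equivariant U N) L)
      (pushH2 (A := N) (B := indRep U N) (indUnit N U) (indUnit_equivariant N U hU) L z) = 0 := by
    rw [LinearMap.comp_apply, h1, hz]
  have h3 := (injective_iff_map_eq_zero _).1 h _ h2
  rw [← h1, h3, map_zero]

/-- If `U` is the whole group and `f ∘ aug_*` is surjective, then `f` is surjective. -/
theorem surjective_of_surjective_comp_indAug {X : Type*} [AddCommGroup X]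
    [Module k X] (f : L.H2 N →ₗ[k] X)
    (h : Function.Surjective (f ∘ₗ
      pushH2 (A := indRep U N) (B := N) (indAug U N) (indAug_equivariant U N) L)) :
    Function.Surjective f := fun x => by
  obtain ⟨y, hy⟩ := h x
  exact ⟨_, hy⟩

end Abstract

section Arith

variable {p : ℕ} [Fact p.Prime] {S : Finset Nat.Primes}

/-- The whole local Galois group is a local level. -/
lemma top_mem_localLevels (q : Nat.Primes) : (⊤ : Subgroup (Gl q)) ∈ (localLevels q).levels := by
  refine ⟨⊥, inferInstance, ?_⟩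
  rw [IntermediateField.fixingSubgroup_bot, Subgroup.comap_top]

/-- **`inv_v` is bijective on `H²(G_v, μ_p)`** when `G_v` acts trivially on `μ_p`
(from S55's A6 with `W = ⊤`). -/
theorem inv_bijective_of_topLocInd {inv : InvFamily p S} (h : TopLocIndSpec inv) (v : ↥S)
    (hμ : ∀ s : Gl v.1, (muLoc p v.1).ρ s = 1) : Function.Bijective (inv v) := by
  have hb := h v ⊤ (top_mem_localLevels v.1) inferInstance (fun s _ => hμ s)
  exact ⟨injective_of_injective_comp_indAug (localLevels v.1) (muLoc p v.1) ⊤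
      (fun _ => Subgroup.mem_top _) (inv v) hb.1,
    surjective_of_surjective_comp_indAug (localLevels v.1) (muLoc p v.1) ⊤ (inv v) hb.2⟩

theorem inv_injective_of_topLocInd {inv : InvFamily p S} (h : TopLocIndSpec inv) (v : ↥S)
    (hμ : ∀ s : Gl v.1, (muLoc p v.1).ρ s = 1) : Function.Injective (inv v) :=
  (inv_bijective_of_topLocInd h v hμ).1

end Arith

end Fermat.Agent.S56.H14

end

end
-- ===== PACK-END S56/H14/InvInj.lean

-- ===== PACK-BEGIN S59/H659/SOBridge.lean
section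



/-!
# S59, piece G3 (helper659): the strictly ordinary condition, from lines to matrices

`isStrictOrdinaryAt_toAdic_iff` : the representation `toAdic r hr` is strictly ordinary at `p`
(Prelude) iff `p` lies in the maximal ideal and for every place `𝔓` over `p` the matrix
representation `r` is conjugate to one in strictly ordinary standard form at `𝔓`.
-/

set_option autoImplicit false
set_option linter.unusedSectionVars false
set_option linter.style.haveILetI false

namespace Fermat.Agent.S59.H659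

open Fermat.Agent.S53 IsLocalRing Polynomial

section Basis

variable {A V : Type} [CommRing A] [AddCommGroup V] [Module A V]
  (b : Module.Basis (Fin 2) A V)

theorem mem_span_zero_iff (v : V) : v ∈ Submodule.span A {b 0} ↔ b.repr v 1 = 0 := by
  constructor
  · intro h
    obtain ⟨c, rfl⟩ := Submodule.mem_span_singleton.mp h
    simp
  · intro h
    have h1 := b.sum_repr v
    rw [Fin.sum_univ_two, h, zero_smul, add_zero] at h1
    rw [← h1]
    exact Submodule.smul_mem _ _ (Submodule.mem_span_singleton_self _)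

theorem repr_apply_one (f : V →ₗ[A] V) (v : V) :
    b.repr (f v) 1 = LinearMap.toMatrix b b f 1 0 * b.repr v 0 +
      LinearMap.toMatrix b b f 1 1 * b.repr v 1 := by
  have h := congrFun (LinearMap.toMatrix_mulVec_repr b b f v) 1
  rw [← h, Matrix.mulVec, dotProduct, Fin.sum_univ_two]

theorem map_mem_span_iff (f : V →ₗ[A] V) :
    (∀ v ∈ Submodule.span A {b 0}, f v ∈ Submodule.span A {b 0}) ↔
      LinearMap.toMatrix b b f 1 0 = 0 := by
  constructor
  · intro h
    have h1 := (mem_span_zero_iff b _).mp (h (b 0) (Submodule.mem_span_singleton_self _))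
    rwa [LinearMap.toMatrix_apply]
  · intro h v hv
    rw [mem_span_zero_iff, repr_apply_one, h, (mem_span_zero_iff b v).mp hv]
    simp

theorem sub_smul_mem_span_iff (f : V →ₗ[A] V) (z : A) :
    (∀ v, f v - z • v ∈ Submodule.span A {b 0}) ↔
      LinearMap.toMatrix b b f 1 0 = 0 ∧ LinearMap.toMatrix b b f 1 1 = z := by
  constructor
  · intro h
    have h0 := (mem_span_zero_iff b _).mp (h (b 0))
    have h1 := (mem_span_zero_iff b _).mp (h (b 1))
    rw [map_sub, map_smul, Finsupp.sub_apply, Finsupp.smul_apply, repr_apply_one] at h0 h1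
    simp only [Module.Basis.repr_self, Finsupp.single_eq_same, mul_one, smul_eq_mul] at h0 h1
    rw [Finsupp.single_eq_of_ne (by decide)] at h0 h1
    simp only [mul_zero, add_zero, sub_zero, zero_add] at h0 h1
    exact ⟨h0, sub_eq_zero.mp h1⟩
  · rintro ⟨h0, h1⟩ v
    rw [mem_span_zero_iff, map_sub, map_smul, Finsupp.sub_apply, Finsupp.smul_apply,
      repr_apply_one, h0, h1]
    simp

theorem eq_smul_on_span_iff (f : V →ₗ[A] V) (x : A) :
    (∀ w ∈ Submodule.span A {b 0}, f w = x • w) ↔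
      LinearMap.toMatrix b b f 1 0 = 0 ∧ LinearMap.toMatrix b b f 0 0 = x := by
  constructor
  · intro h
    have h1 := h (b 0) (Submodule.mem_span_singleton_self _)
    rw [LinearMap.toMatrix_apply, LinearMap.toMatrix_apply, h1]
    simp
  · rintro ⟨h0, h1⟩ w hw
    obtain ⟨c, rfl⟩ := Submodule.mem_span_singleton.mp hw
    have h2 := b.sum_repr (f (b 0))
    rw [Fin.sum_univ_two, ← LinearMap.toMatrix_apply b b f 0 0,
      ← LinearMap.toMatrix_apply b b f 1 0, h0, h1, zero_smul, add_zero] at h2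
    rw [map_smul, ← h2, smul_comm]

end Basis

section Bridge

variable {A : Type} [CommRing A] [IsLocalRing A]

/-- The matrix of `M` acting on `A²` in a basis `b` whose coordinate map is given by the
invertible matrix `U`. -/
theorem toMatrix_matEnd (b : Module.Basis (Fin 2) A (Fin 2 → A)) (U : (M2 A)ˣ)
    (hU : ∀ v : Fin 2 → A, (U : M2 A).mulVec v = b.equivFun v) (M : M2 A) :
    LinearMap.toMatrix b b (matEnd A M) = (U : M2 A) * M * ((U⁻¹ : (M2 A)ˣ) : M2 A) := by
  refine mulVec_injective_M2 fun w => ?_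
  have hw : w = b.equivFun (((U⁻¹ : (M2 A)ˣ) : M2 A).mulVec w) := by
    rw [← hU, Matrix.mulVec_mulVec, Units.mul_inv, Matrix.one_mulVec]
  have h1 := LinearMap.toMatrix_mulVec_repr b b (matEnd A M) (((U⁻¹ : (M2 A)ˣ) : M2 A).mulVec w)
  have h2 : (b.repr (((U⁻¹ : (M2 A)ˣ) : M2 A).mulVec w) : Fin 2 → A) = w := hw.symm
  rw [h2] at h1
  rw [h1, ← Matrix.mulVec_mulVec, ← Matrix.mulVec_mulVec, hU]
  rfl

/-- The local part of the Prelude's `IsStrictOrdinaryAt`, in terms of a basis. -/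
theorem soLoc_iff_basis (ρ : GaloisRepAdic A) (p : ℕ)
    (𝔓 : ValuationSubring (AlgebraicClosure ℚ)) :
    (∃ L : Submodule A ρ.V,
      (∃ b : Module.Basis (Fin 2) A ρ.V, L = Submodule.span A {b 0}) ∧
      (∀ σ ∈ 𝔓.decompositionSubgroup ℚ, ∀ v ∈ L, ρ.ρ σ v ∈ L) ∧
      (∀ σ ∈ 𝔓.inertiaSubgroupIn ℚ, ∀ v : ρ.V, ρ.ρ σ v - v ∈ L) ∧
      (∀ σ ∈ 𝔓.decompositionSubgroup ℚ, ∃ x z : A,
        (∀ w ∈ L, ρ.ρ σ w = x • w) ∧ (∀ v : ρ.V, ρ.ρ σ v - z • v ∈ L) ∧
        ∀ (n a : ℕ), (∀ μ : AlgebraicClosure ℚ, μ ^ p ^ n = 1 → σ μ = μ ^ a) →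
          x - (a : A) * z ∈ Ideal.span {((p ^ n : ℕ) : A)})) ↔
    ∃ b : Module.Basis (Fin 2) A ρ.V,
      (∀ σ ∈ 𝔓.decompositionSubgroup ℚ, LinearMap.toMatrix b b (ρ.ρ σ) 1 0 = 0 ∧
        CycCong p σ (LinearMap.toMatrix b b (ρ.ρ σ) 0 0) (LinearMap.toMatrix b b (ρ.ρ σ) 1 1)) ∧
      (∀ σ ∈ 𝔓.inertiaSubgroupIn ℚ, LinearMap.toMatrix b b (ρ.ρ σ) 1 1 = 1) := by
  constructor
  · rintro ⟨L, ⟨b, rfl⟩, hD, hI, hx⟩
    refine ⟨b, fun σ hσ => ?_, fun σ hσ => ?_⟩
    · obtain ⟨x, z, h1, h2, h3⟩ := hx σ hσ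
      obtain ⟨h10, h00⟩ := (eq_smul_on_span_iff b (ρ.ρ σ) x).mp h1
      obtain ⟨-, h11⟩ := (sub_smul_mem_span_iff b (ρ.ρ σ) z).mp h2
      refine ⟨h10, ?_⟩
      rw [h00, h11]
      exact h3
    · have h1 : ∀ v, ρ.ρ σ v - (1 : A) • v ∈ Submodule.span A {b 0} := fun v => by
        rw [one_smul]; exact hI σ hσ v
      exact ((sub_smul_mem_span_iff b (ρ.ρ σ) 1).mp h1).2
  · rintro ⟨b, hD, hI⟩
    refine ⟨Submodule.span A {b 0}, ⟨b, rfl⟩, fun σ hσ => ?_, fun σ hσ v => ?_, fun σ hσ => ?_⟩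
    · exact (map_mem_span_iff b (ρ.ρ σ)).mpr (hD σ hσ).1
    · have h1 := (sub_smul_mem_span_iff b (ρ.ρ σ) 1).mpr
        ⟨(hD σ (mem_decomposition_of_mem_inertia hσ)).1, hI σ hσ⟩ v
      rwa [one_smul] at h1
    · exact ⟨_, _, (eq_smul_on_span_iff b (ρ.ρ σ) _).mpr ⟨(hD σ hσ).1, rfl⟩,
        (sub_smul_mem_span_iff b (ρ.ρ σ) _).mpr ⟨(hD σ hσ).1, rfl⟩, (hD σ hσ).2⟩

/-- **Strictly ordinary representations in terms of matrices.** -/
theorem isStrictOrdinaryAt_toAdic_iff (r : GQ →* M2 A) (hr : MatCont r) (p : ℕ) :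
    (toAdic r hr).IsStrictOrdinaryAt p ↔
      (p : A) ∈ maximalIdeal A ∧ ∀ 𝔓 : ValuationSubring (AlgebraicClosure ℚ),
        𝔓.LiesOverPrime p → ∃ U : (M2 A)ˣ, IsSOStd 𝔓 p (cj U r) := by
  have key : ∀ (b : Module.Basis (Fin 2) A (Fin 2 → A)) (U : (M2 A)ˣ),
      (∀ v : Fin 2 → A, (U : M2 A).mulVec v = b.equivFun v) →
      ∀ σ, LinearMap.toMatrix b b ((toAdic r hr).ρ σ) = cj U r σ := fun b U hU σ =>
    toMatrix_matEnd b U hU (r σ)
  unfold GaloisRepAdic.IsStrictOrdinaryAt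
  refine and_congr Iff.rfl (forall_congr' fun 𝔓 => forall_congr' fun h𝔓 => ?_)
  rw [soLoc_iff_basis]
  constructor
  · rintro ⟨b, hD, hI⟩
    have hU : ∀ v : Fin 2 → A, ((equivUnit b.equivFun : (M2 A)ˣ) : M2 A).mulVec v =
        b.equivFun v := fun v => equivUnit_mulVec b.equivFun v
    refine ⟨equivUnit b.equivFun, ⟨fun σ hσ => ?_, fun σ hσ => ?_⟩⟩
    · rw [← key b _ hU σ]
      exact hD σ hσ
    · rw [← key b _ hU σ]
      exact hI σ hσ
  · rintro ⟨U, hU⟩
    let b : Module.Basis (Fin 2) A (Fin 2 → A) := Module.Basis.ofEquivFun (unitEquiv U)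
    have hb : ∀ v : Fin 2 → A, (U : M2 A).mulVec v = b.equivFun v := fun v => by
      rw [Module.Basis.equivFun_ofEquivFun]
      rfl
    refine ⟨b, fun σ hσ => ?_, fun σ hσ => ?_⟩
    · have h1 := hU.dec σ hσ
      rw [← key b U hb σ] at h1
      exact h1
    · have h1 := hU.inert σ hσ
      rw [← key b U hb σ] at h1
      exact h1

end Bridge

end Fermat.Agent.S59.H659

end
-- ===== PACK-END S59/H659/SOBridge.lean

-- ===== PACK-BEGIN S19/H15/Ord.lean
section



/-!
# Cell A3 (S19) — node ORD (helper15): `ordStatement : OrdStatement`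

An `OrderDatum` on a finite module gives a finite flat commutative cocommutative Hopf algebra over
`ℤ_(ℓ)` with the prescribed points.  The Hopf algebra itself is helper19's
`H19.exists_hopf_of_equivariant_order`; this file supplies its hypotheses for
`H := Algebra.adjoin ℤ_(ℓ) gens`:

* `ordAlg_fg`    : `H` is a finitely generated module (bounded denominators, `exists_bound`);
* `ordAlg_comul` : `f ∘ add` lies in the image of `H ⊗ H` (descent `Z̄_(ℓ) → ℤ_(ℓ)` of `add_mem`).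
-/

set_option autoImplicit false
set_option linter.style.haveILetI false

noncomputable section

namespace Fermat.Agent.S19.H15

open Fermat.Agent.S19
open scoped TensorProduct

variable {ℓ : ℕ} [Fact ℓ.Prime] {M : Type} [AddCommGroup M] [Finite M] {act : GalQ → M → M}

/-- The algebra of an order datum is a finitely generated module. -/
theorem ordAlg_fg (D : OrderDatum ℓ M act) : (Subalgebra.toSubmodule (ordAlg D)).FG := by
  classical
  haveI : IsPrincipalIdealRing ↥(GaloisRep.ratLocalizedAt ℓ) := inferInstance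
  haveI : IsNoetherianRing ↥(Rl ℓ) := inferInstance
  -- a finite separating set of generators
  have hex : ∀ p : {p : M × M // p.1 ≠ p.2}, ∃ f ∈ D.gens, f p.1.1 ≠ f p.1.2 := by
    intro p
    by_contra hcon
    push Not at hcon
    exact p.2 (D.separates _ _ hcon)
  choose F hF hFne using hex
  set H₀ : Subalgebra (Rl ℓ) (M → Qb) := Algebra.adjoin (Rl ℓ) (Set.range F) with hH₀
  have hle : H₀ ≤ ordAlg D := Algebra.adjoin_mono (by rintro _ ⟨p, rfl⟩; exact hF p)
  have hfg₀ : (Subalgebra.toSubmodule H₀).FG :=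
    fg_adjoin_of_finite (Set.finite_range F) (by
      rintro _ ⟨p, rfl⟩
      exact isIntegral_of_forall_apply _ (D.integral _ (hF p)))
  have hsep₀ : ∀ m m' : M, m ≠ m' → ∃ f ∈ H₀, f m ≠ f m' := fun m m' hne =>
    ⟨F ⟨(m, m'), hne⟩, Algebra.subset_adjoin ⟨_, rfl⟩, hFne ⟨(m, m'), hne⟩⟩
  obtain ⟨d, hd0, hd⟩ := exists_bound (act_one D) (act_mul D) H₀
    (fun f hf => ordAlg_equivariant D f (hle hf)) hfg₀ hsep₀
  let φ : (M → Qb) →ₗ[Rl ℓ] (M → Qb) := LinearMap.lsmul (Rl ℓ) (M → Qb) d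
  have hφ : Function.Injective φ := by
    intro u v huv
    funext m
    have h1 := congrFun huv m
    simp only [φ, LinearMap.lsmul_apply, Pi.smul_apply, Algebra.smul_def] at h1
    have h2 : algebraMap (Rl ℓ) Qb d ≠ 0 := fun h =>
      hd0 (H19.algebraMap_subring_injective (Rl ℓ) (h.trans (map_zero _).symm))
    exact mul_left_cancel₀ h2 h1
  have hmap : (Subalgebra.toSubmodule (ordAlg D)).map φ ≤ Subalgebra.toSubmodule H₀ := by
    rintro _ ⟨u, hu, rfl⟩
    exact hd u (ordAlg_equivariant D u hu) (ordAlg_integral D u hu)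
  exact Submodule.fg_of_fg_map_injective φ hφ (Submodule.FG.of_le hfg₀ hmap)

/-- the diagonal action on pairs -/
def act₂ (act : GalQ → M → M) (σ : GalQ) (p : M × M) : M × M := (act σ p.1, act σ p.2)

omit [Fact ℓ.Prime] [Finite M] in
theorem range_prodMap_equivariant (D : OrderDatum ℓ M act) :
    ∀ F ∈ (H19.prodMap (ordAlg D).val (ordAlg D).val).range,
      H19.IsEquivariant (act₂ act) F := by
  rintro _ ⟨t, rfl⟩
  induction t using TensorProduct.induction_on with
  | zero =>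
    intro σ p
    simp
  | tmul a b =>
    intro σ p
    show (H19.prodMap (ordAlg D).val (ordAlg D).val) (a ⊗ₜ[Rl ℓ] b) (act₂ act σ p) =
      σ ((H19.prodMap (ordAlg D).val (ordAlg D).val) (a ⊗ₜ[Rl ℓ] b) p)
    rw [H19.prodMap_tmul, H19.prodMap_tmul]
    show (a : M → Qb) (act σ p.1) * (b : M → Qb) (act σ p.2) = _
    rw [ordAlg_equivariant D _ a.2 σ, ordAlg_equivariant D _ b.2 σ, map_mul]
    rfl
  | add x y hx hy =>
    intro σ p
    rw [map_add, Pi.add_apply, Pi.add_apply, hx σ p, hy σ p, map_add]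

theorem range_prodMap_fg (D : OrderDatum ℓ M act) :
    (Subalgebra.toSubmodule (H19.prodMap (ordAlg D).val (ordAlg D).val).range).FG := by
  haveI : Module.Finite (Rl ℓ) (ordAlg D) := Module.Finite.iff_fg.mpr (ordAlg_fg D)
  have h1 : (⊤ : Submodule (Rl ℓ) ((ordAlg D) ⊗[Rl ℓ] (ordAlg D))).FG := Module.Finite.fg_top
  have h2 := h1.map (H19.prodMap (ordAlg D).val (ordAlg D).val).toLinearMap
  convert h2 using 1
  ext x
  simp [AlgHom.mem_range]

omit [Fact ℓ.Prime] [Finite M] in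
theorem coordFunctions_subset_range (D : OrderDatum ℓ M act) :
    coordFunctions D.gens ⊆
      ((H19.prodMap (ordAlg D).val (ordAlg D).val).range : Set (M × M → Qb)) := by
  rintro _ (⟨h, hh, rfl⟩ | ⟨h, hh, rfl⟩)
  · refine ⟨(⟨h, gens_le_ordAlg D hh⟩ : ordAlg D) ⊗ₜ[Rl ℓ] 1, ?_⟩
    funext p
    show (H19.prodMap (ordAlg D).val (ordAlg D).val)
      ((⟨h, gens_le_ordAlg D hh⟩ : ordAlg D) ⊗ₜ[Rl ℓ] 1) p = h p.1
    rw [H19.prodMap_tmul]
    simp
  · refine ⟨(1 : ordAlg D) ⊗ₜ[Rl ℓ] (⟨h, gens_le_ordAlg D hh⟩ : ordAlg D), ?_⟩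
    funext p
    show (H19.prodMap (ordAlg D).val (ordAlg D).val)
      ((1 : ordAlg D) ⊗ₜ[Rl ℓ] (⟨h, gens_le_ordAlg D hh⟩ : ordAlg D)) p = h p.2
    rw [H19.prodMap_tmul]
    simp

/-- `f ∘ add` lies in the image of `H ⊗ H`, for the generators. -/
theorem gens_comul (D : OrderDatum ℓ M act) (f : M → Qb) (hf : f ∈ D.gens) :
    (fun p : M × M => f (p.1 + p.2)) ∈ (H19.prodMap (ordAlg D).val (ordAlg D).val).range := by
  set Λ₂ := (H19.prodMap (ordAlg D).val (ordAlg D).val).range with hΛ₂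
  refine mem_of_mem_span_of_equivariant (act := act₂ act)
    (fun p => Prod.ext (act_one D p.1) (act_one D p.2))
    (fun σ τ p => Prod.ext (act_mul D σ τ p.1) (act_mul D σ τ p.2))
    Λ₂ (range_prodMap_equivariant D) (range_prodMap_fg D) ?_ ?_
  · -- membership in the `Zb`-span
    have h1 : Algebra.adjoin (Zb ℓ) (coordFunctions D.gens) ≤
        Algebra.adjoin (Zb ℓ) (Λ₂ : Set (M × M → Qb)) :=
      Algebra.adjoin_mono (coordFunctions_subset_range D)
    have h2 := Algebra.adjoin_eq_span (Zb ℓ) (Λ₂ : Set (M × M → Qb))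
    have h3 : Submonoid.closure (Λ₂ : Set (M × M → Qb)) = Λ₂.toSubmonoid :=
      Submonoid.closure_eq Λ₂.toSubmonoid
    rw [h3] at h2
    have h4 : (fun p : M × M => f (p.1 + p.2)) ∈
        Subalgebra.toSubmodule (Algebra.adjoin (Zb ℓ) (Λ₂ : Set (M × M → Qb))) :=
      h1 (D.add_mem f hf)
    rw [h2] at h4
    exact h4
  · intro σ p
    show f (act σ p.1 + act σ p.2) = σ (f (p.1 + p.2))
    rw [← D.act_add, D.equivariant f hf]

/-- `f ∘ add` lies in the image of `H ⊗ H`, for all `f ∈ H`. -/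
theorem ordAlg_comul (D : OrderDatum ℓ M act) :
    ∀ f ∈ ordAlg D, (fun p : M × M => f (p.1 + p.2)) ∈
      (H19.prodMap (ordAlg D).val (ordAlg D).val).range := by
  have h : ordAlg D ≤ (H19.prodMap (ordAlg D).val (ordAlg D).val).range.comap
      (H19.pullback (Rl ℓ) Qb (fun p : M × M => p.1 + p.2)) :=
    Algebra.adjoin_le fun f hf => gens_comul D f hf
  exact fun f hf => h hf

/-- **Node ORD.** -/
theorem ordStatement : OrdStatement := by
  intro ℓ _ M _ _ act hD
  obtain ⟨D⟩ := hD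
  haveI : IsPrincipalIdealRing ↥(GaloisRep.ratLocalizedAt ℓ) := inferInstance
  exact H19.exists_hopf_of_equivariant_order (Rl ℓ) isIntegrallyClosed_Rl
    (act_one D) (act_mul D) (act_zero D) (ordAlg D) (ordAlg_equivariant D) (ordAlg_fg D)
    (ordAlg_separates D) (ordAlg_comul D)

end Fermat.Agent.S19.H15

end

end
-- ===== PACK-END S19/H15/Ord.lean

-- ===== PACK-BEGIN S53/Abstract5.lean
section


set_option autoImplicit false
set_option linter.unusedSectionVars false
set_option linter.unusedVariables false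
set_option linter.style.haveILetI false

namespace Fermat.Agent.S53

open IsLocalRing GaloisRep CA

section General

/-- membership in powers of the maximal ideal of a quotient -/
theorem mk_mem_maximalIdeal_pow {A : Type} [CommRing A] [IsLocalRing A] (I : Ideal A)
    [IsLocalRing (A ⧸ I)] (n : ℕ) (s : A) :
    Ideal.Quotient.mk I s ∈ maximalIdeal (A ⧸ I) ^ n ↔ s ∈ I ⊔ maximalIdeal A ^ n := by
  rw [← map_mk_maximalIdeal, ← Ideal.map_pow]
  have h := Ideal.comap_map_of_surjective (Ideal.Quotient.mk I) Ideal.Quotient.mk_surjective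
    (maximalIdeal A ^ n)
  rw [← RingHom.ker_eq_comap_bot, Ideal.mk_ker] at h
  rw [sup_comm, ← h, Ideal.mem_comap]

/-- limits of Cauchy sequences in a precomplete local ring -/
theorem exists_limit {A : Type} [CommRing A] [IsLocalRing A] [IsPrecomplete (maximalIdeal A) A]
    (f : ℕ → A) (hf : ∀ n, f (n + 1) - f n ∈ maximalIdeal A ^ n) :
    ∃ a, ∀ n, a - f n ∈ maximalIdeal A ^ n := by
  have hmono : ∀ m n, m ≤ n → f n - f m ∈ maximalIdeal A ^ m := by
    intro m n hmn
    induction n, hmn using Nat.le_induction with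
    | base => simp
    | succ n hmn ih =>
      have h1 : f (n + 1) - f m = (f (n + 1) - f n) + (f n - f m) := by ring
      rw [h1]
      exact Ideal.add_mem _ (Ideal.pow_le_pow_right hmn (hf n)) ih
  obtain ⟨a, ha⟩ := IsPrecomplete.prec (I := maximalIdeal A) (M := A) inferInstance (f := f)
    (by
      intro m n hmn
      rw [SModEq.sub_mem]
      have := hmono m n hmn
      have h2 : f m - f n = -(f n - f m) := by ring
      rw [h2]
      simpa using (maximalIdeal A ^ m).neg_mem this)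
  refine ⟨a, fun n => ?_⟩
  have := ha n
  rw [SModEq.sub_mem] at this
  have h3 : f n - a ∈ maximalIdeal A ^ n := by simpa using this
  have h2 : a - f n = -(f n - a) := by ring
  rw [h2]
  exact (maximalIdeal A ^ n).neg_mem h3

/-- separatedness -/
theorem eq_of_forall_sub_mem_pow {A : Type} [CommRing A] [IsLocalRing A]
    [IsHausdorff (maximalIdeal A) A] {a b : A} (h : ∀ n, a - b ∈ maximalIdeal A ^ n) : a = b := by
  rw [← sub_eq_zero]
  apply IsHausdorff.haus' (I := maximalIdeal A)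
  intro n
  rw [SModEq.sub_mem]
  simpa using h n

end General

section

variable {𝒪 : Type} [CommRing 𝒪] [IsDomain 𝒪] [IsDiscreteValuationRing 𝒪]
  [IsAdicComplete (IsLocalRing.maximalIdeal 𝒪) 𝒪] [Finite (IsLocalRing.ResidueField 𝒪)]
variable {ι : Type} {c : ι → 𝒪} {L : PointFamily 𝒪 ι} (hL : IsRigidFamily 𝒪 ι c L)
variable {d : ℕ} {idx : Fin d → ι} (hsep : Sep c L idx)

include hL hsep

theorem isLocalRing_Imin (n : ℕ) : IsLocalRing (PS 𝒪 d ⧸ Imin c L idx (n + 1)) :=
  isLocalRing_quot (Imin_good hL hsep (Nat.succ_pos n)).ne_top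

theorem isLocalRing_Iinf : IsLocalRing (PS 𝒪 d ⧸ Iinf c L idx) :=
  isLocalRing_quot (Iinf_ne_top hL hsep)

/-- the canonical point over `S ⧸ I_{n+1}` -/
noncomputable def xn (n : ℕ) : ι → PS 𝒪 d ⧸ Imin c L idx (n + 1) :=
  (Imin_good hL hsep (Nat.succ_pos n)).2.choose

theorem xn_spec (n : ℕ) :
    haveI := isLocalRing_Imin hL hsep n
    GoodPt c L idx (Imin c L idx (n + 1)) (xn hL hsep n) :=
  (Imin_good hL hsep (Nat.succ_pos n)).2.choose_spec

/-- lifts of the coordinates of the canonical points -/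
noncomputable def sn (n : ℕ) (i : ι) : PS 𝒪 d :=
  (Ideal.Quotient.mk_surjective (xn hL hsep n i)).choose

theorem sn_spec (n : ℕ) (i : ι) :
    Ideal.Quotient.mk (Imin c L idx (n + 1)) (sn hL hsep n i) = xn hL hsep n i :=
  (Ideal.Quotient.mk_surjective (xn hL hsep n i)).choose_spec

theorem Imin_succ_le (n : ℕ) : Imin c L idx (n + 1 + 1) ≤ Imin c L idx (n + 1) := by
  rw [Imin_succ hL hsep (n + 1)]
  exact le_sup_left

theorem sn_compat (n : ℕ) (i : ι) :
    sn hL hsep (n + 1) i - sn hL hsep n i ∈ Imin c L idx (n + 1) := by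
  haveI := isLocalRing_Imin hL hsep n
  haveI := isLocalRing_Imin hL hsep (n + 1)
  have h := (xn_spec hL hsep (n + 1)).factor_eq hL hsep (xn_spec hL hsep n)
    (Imin_succ_le hL hsep n) i
  rw [← sn_spec, ← sn_spec, Ideal.Quotient.factorₐ_apply_mk, Ideal.Quotient.eq] at h
  exact h

theorem exists_xu (i : ι) :
    ∃ u : PS 𝒪 d ⧸ Iinf c L idx, ∀ n,
      Ideal.Quotient.factorₐ 𝒪 (Iinf_le_Imin c L idx (n + 1)) u = xn hL hsep n i := by
  haveI := isLocalRing_Iinf hL hsep
  haveI : IsAdicComplete (maximalIdeal (PS 𝒪 d ⧸ Iinf c L idx)) (PS 𝒪 d ⧸ Iinf c L idx) :=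
    ps_quot_isAdicComplete _
  obtain ⟨u, hu⟩ := exists_limit
    (fun n => Ideal.Quotient.mk (Iinf c L idx) (sn hL hsep n i)) (by
      intro n
      rw [← map_sub, mk_mem_maximalIdeal_pow]
      have h1 := sn_compat hL hsep n i
      rw [Imin_eq_Iinf_sup hL hsep (n + 1)] at h1
      have h2 : Iinf c L idx ⊔ maximalIdeal (PS 𝒪 d) ^ (n + 1) ≤
          Iinf c L idx ⊔ maximalIdeal (PS 𝒪 d) ^ n :=
        sup_le_sup_left (Ideal.pow_le_pow_right (Nat.le_succ n)) _
      exact h2 h1)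
  refine ⟨u, fun n => ?_⟩
  obtain ⟨t, rfl⟩ := Ideal.Quotient.mk_surjective u
  rw [Ideal.Quotient.factorₐ_apply_mk, ← sn_spec, Ideal.Quotient.eq]
  -- t - s_n ∈ I_{n+1}
  have h1 := hu (n + 1)
  rw [← map_sub, mk_mem_maximalIdeal_pow, ← Imin_eq_Iinf_sup hL hsep (n + 1)] at h1
  have h2 := sn_compat hL hsep n i
  have : t - sn hL hsep n i = (t - sn hL hsep (n + 1) i) + (sn hL hsep (n + 1) i - sn hL hsep n i) := by
    ring
  rw [this]
  exact Ideal.add_mem _ h1 h2

/-- the universal point -/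
noncomputable def xu (i : ι) : PS 𝒪 d ⧸ Iinf c L idx :=
  (exists_xu hL hsep i).choose

theorem xu_spec (n : ℕ) (i : ι) :
    Ideal.Quotient.factorₐ 𝒪 (Iinf_le_Imin c L idx (n + 1)) (xu hL hsep i) = xn hL hsep n i :=
  (exists_xu hL hsep i).choose_spec n

/-- the kernel of `R → S ⧸ I_n` is `m_R ^ n` -/
theorem factor_eq_zero_iff (n : ℕ) (u : PS 𝒪 d ⧸ Iinf c L idx) :
    haveI := isLocalRing_Iinf hL hsep
    Ideal.Quotient.factorₐ 𝒪 (Iinf_le_Imin c L idx n) u = 0 ↔
      u ∈ maximalIdeal (PS 𝒪 d ⧸ Iinf c L idx) ^ n := by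
  haveI := isLocalRing_Iinf hL hsep
  obtain ⟨t, rfl⟩ := Ideal.Quotient.mk_surjective u
  rw [Ideal.Quotient.factorₐ_apply_mk, Ideal.Quotient.eq_zero_iff_mem, mk_mem_maximalIdeal_pow,
    ← Imin_eq_Iinf_sup hL hsep n]

theorem coord_xu (l : Fin d) :
    coord c idx (xu hL hsep) l = Ideal.Quotient.mk (Iinf c L idx) (MvPowerSeries.X l) := by
  haveI := isLocalRing_Iinf hL hsep
  haveI : IsAdicComplete (maximalIdeal (PS 𝒪 d ⧸ Iinf c L idx)) (PS 𝒪 d ⧸ Iinf c L idx) :=
    ps_quot_isAdicComplete _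
  apply eq_of_forall_sub_mem_pow
  intro n
  refine Ideal.pow_le_pow_right (Nat.le_succ n) ?_
  rw [← factor_eq_zero_iff hL hsep (n + 1), map_sub, sub_eq_zero, ← coord_map]
  haveI := isLocalRing_Imin hL hsep n
  have h1 : (fun i => Ideal.Quotient.factorₐ 𝒪 (Iinf_le_Imin c L idx (n + 1)) (xu hL hsep i)) =
      xn hL hsep n := funext (xu_spec hL hsep n)
  rw [h1, (xn_spec hL hsep n).coord_eq, Ideal.Quotient.factorₐ_apply_mk]

end

end Fermat.Agent.S53

end
-- ===== PACK-END S53/Abstract5.lean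

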