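import Fermat.Agent.Pack.S43GC.G0E15L2
import Fermat.Agent.Pack.S43GC.G0E3L1
import Fermat.Agent.Pack.S43GC.G0E5L1
import Fermat.Agent.Pack.S43GC.G0E14L3
import Fermat.Agent.Pack.S43GC.G0E14L1
import Fermat.Agent.Pack.S44C.G0E6L0
import Fermat.Agent.Pack.S43GC.G0E3L3
import Fermat.Agent.Pack.S43GC.G0E8L0
import Fermat.Agent.Pack.S43GC.G0E13L3
import Fermat.Agent.Pack.S43GC.G0E5L2
import Fermat.Agent.Pack.S43GC.G0E13L2
import Fermat.Agent.Pack.S43GC.G0E14L2
import Fermat.Agent.Pack.S43GC.G0E13L1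
import Fermat.Agent.Pack.S43GC.G0E14L0
import Fermat.Agent.Pack.S43GC.G0E8L3
import Fermat.Agent.Pack.S43GC.G0E15L1
import Fermat.Agent.Pack.S43GC.G0E4L1
import Fermat.Agent.Pack.S43GC.G0E15L3
import Fermat.Agent.Pack.S43GC.G0E9L2
import Fermat.Agent.Pack.S43GC.G0E9L1
import Fermat.Agent.Pack.S43GC.G0E11L1
import Fermat.Agent.Pack.S43GC.G0E12L0
import Fermat.Agent.Pack.S43GC.G0E0L1
import Fermat.Agent.Pack.S43GC.G0E15L0
import Fermat.Agent.Pack.Fast891

-- ===== PACK-BEGIN S55/PT/Glue.lean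
section



/-!
# S55 / layer D: glue lemmas for the assembly (helper835)

Small compatibilities between the definitions of `PT/{Coh,Cone,Ind,Top}.lean`.
-/

set_option autoImplicit false

noncomputable section

namespace Fermat.Agent.S55.PT

open groupCohomology

variable {k : Type} [Field k] {G : Type} [Group G]

/-! ### invariants of twisted duals -/

lemma dualTwist_fixed_iff (χ : G →* kˣ) (N : Rep.{0, 0, 0} k G) (g : G) (f : Module.Dual k N) :
    (N.dualTwist χ).ρ g f = f ↔ ∀ n : N, f (N.ρ g n) = (χ g : k) * f n := by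
  have key : ∀ (n : N), (((N.ρ.dual.twist χ) g) f) n = (χ g : k) * f (N.ρ g⁻¹ n) := by
    intro n
    simp only [Representation.twist_apply_apply, Representation.dual_apply,
      LinearMap.smul_apply, Module.Dual.transpose_apply, LinearMap.comp_apply, smul_eq_mul]
  have hinv : ∀ (n : N), N.ρ g⁻¹ (N.ρ g n) = n := by
    intro n
    rw [← Module.End.mul_apply, ← map_mul, inv_mul_cancel, map_one, Module.End.one_apply]
  have hinv' : ∀ (n : N), N.ρ g (N.ρ g⁻¹ n) = n := by
    intro n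
    rw [← Module.End.mul_apply, ← map_mul, mul_inv_cancel, map_one, Module.End.one_apply]
  constructor
  · intro h n
    have h' : ((N.ρ.dual.twist χ) g) f = f := h
    have h2 : (((N.ρ.dual.twist χ) g) f) (N.ρ g n) = f (N.ρ g n) := by rw [h']
    rw [key, hinv] at h2
    exact h2.symm
  · intro hf
    show ((N.ρ.dual.twist χ) g) f = f
    apply LinearMap.ext
    intro n
    rw [key]
    have h := hf (N.ρ g⁻¹ n)
    rw [hinv'] at h
    exact h.symm

/-- `H⁰(G', (N.dualTwist χ)|_{G'}) = charHom (χ ∘ s) (N|_{G'})` as subspaces of `Dual N` -/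
lemma H0_res_dualTwist_eq (χ : G →* kˣ) (N : Rep.{0, 0, 0} k G) {G' : Type} [Group G']
    (s : G' →* G) :
    (LevelSys.H0 (Rep.res s (N.dualTwist χ)) : Submodule k (Module.Dual k N)) =
      charHom (χ.comp s) (Rep.res s N) := by
  ext f
  constructor
  · intro hf g n
    exact (dualTwist_fixed_iff χ N (s g) f).1 (hf g) n
  · intro hf g
    exact (dualTwist_fixed_iff χ N (s g) f).2 (fun n => hf g n)

/-! ### functionals -/

section Comap

variable (χ : G →* kˣ) {A B : Rep.{0, 0, 0} k G} (φ : A →ₗ[k] B) (hφ : IsEquivariant φ)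

/-- `f ↦ f ∘ φ : charHom χ B → charHom χ A` -/
def charHomComap : ↥(charHom χ B) →ₗ[k] ↥(charHom χ A) where
  toFun f := ⟨(f : Module.Dual k B) ∘ₗ φ, fun g a => by
    have hφ' : ∀ (g : G) (a : A), φ (A.ρ g a) = B.ρ g (φ a) := hφ
    rw [LinearMap.comp_apply, LinearMap.comp_apply, hφ']
    exact f.2 g (φ a)⟩
  map_add' _ _ := rfl
  map_smul' _ _ := rfl

@[simp] lemma coe_charHomComap (f : ↥(charHom χ B)) :
    ((charHomComap χ φ hφ f : ↥(charHom χ A)) : Module.Dual k A) = (f : Module.Dual k B) ∘ₗ φ :=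
  rfl

lemma pushChar_pushH2 (L : LevelSys G) (f : ↥(charHom χ B)) (x : L.H2 A) :
    pushChar L χ B f (pushH2 φ hφ L x) = pushChar L χ A (charHomComap χ φ hφ f) x := by
  obtain ⟨c, rfl⟩ := L.H2π_surjective A x
  rfl

/-- naturality of the top pairing -/
lemma topPair_pushH2 (L : LevelSys G) (inv : L.H2 (ofChar χ) →ₗ[k] k) (f : ↥(charHom χ B))
    (x : L.H2 A) :
    topPair L χ inv B (pushH2 φ hφ L x) f = topPair L χ inv A x (charHomComap χ φ hφ f) := by
  rw [topPair_apply, topPair_apply, pushChar_pushH2]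

end Comap

/-! ### the cone and push-forwards -/

section ConePush

variable {ι : Type} [Fintype ι] [DecidableEq ι] {Gv : ι → Type} [∀ v, Group (Gv v)]
variable {L : LevelSys G} {Lv : ∀ v, LevelSys (Gv v)} {r : ∀ v, Gv v →* G}
variable (hr : ∀ v, IsLevelCompatible (r v) L (Lv v))
variable {A B : Rep.{0, 0, 0} k G} (φ : A →ₗ[k] B) (hφ : IsEquivariant φ)

lemma uH_pushHc2 (y : Hc2 L Lv r A) :
    uH B (pushHc2 (L := L) (Lv := Lv) (r := r) φ hφ y) = pushH2 φ hφ L (uH A y) := by
  obtain ⟨z, rfl⟩ := Hc2π_surjective (L := L) (Lv := Lv) (r := r) A y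
  rfl

variable (χ : G →* kˣ) (inv : ∀ v, (Lv v).H2 (ofChar (χ.comp (r v))) →ₗ[k] k)

lemma topGlobFun_pushLoc2 (f : ↥(charHom χ B)) (x : (v : ι) → (Lv v).H2 (Rep.res (r v) A)) :
    topGlobFun χ inv B (pushLoc2 φ hφ x) f = topGlobFun χ inv A x (charHomComap χ φ hφ f) := by
  rw [topGlobFun_apply, topGlobFun_apply]
  refine Finset.sum_congr rfl fun v _ => ?_
  congr 1
  rw [pushLoc2_apply]
  exact pushChar_pushH2 (χ.comp (r v)) (A := Rep.res (r v) A) (B := Rep.res (r v) B) φ
    (hφ.res (r v)) (Lv v) (charHomRes χ B (r v) f) (x v)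

/-- naturality of the global top map -/
lemma topT3_pushT3 (hrec : IsRecip hr χ inv) (f : ↥(charHom χ B)) (t : T3 hr A) :
    topT3 hr B hrec (pushT3 hr φ hφ t) f = topT3 hr A hrec t (charHomComap χ φ hφ f) := by
  obtain ⟨x, rfl⟩ := T3π_surjective hr A t
  rw [pushT3_mk, topT3_mk, topT3_mk]
  exact topGlobFun_pushLoc2 φ hφ χ inv f x

end ConePush

/-! ### trivial actions -/

section Triv

variable (χ : G →* kˣ) (U : Subgroup G) (N : Rep.{0, 0, 0} k G)

lemma indRep_ρ_eq_one [hU : U.Normal] (hN : ∀ u ∈ U, N.ρ u = 1) (u : G) (hu : u ∈ U) :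
    (indRep U N).ρ u = 1 := by
  show indAct U N u = 1
  apply Finsupp.lhom_ext
  intro x n
  induction x using QuotientGroup.induction_on with
  | H a =>
    rw [indAct_single, hN u hu, Module.End.one_apply, Module.End.one_apply]
    congr 1
    show ((u * a : G) : G ⧸ U) = (a : G ⧸ U)
    rw [QuotientGroup.eq]
    have : (u * a)⁻¹ * a = a⁻¹ * u⁻¹ * a := by group
    rw [this]
    have h := hU.conj_mem u⁻¹ (U.inv_mem hu) a⁻¹
    simpa using h

lemma twTriv_ρ_eq_one (W : Type) [AddCommGroup W] [Module k W] (u : G) (hu : χ u = 1) :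
    (twTriv (G := G) χ W).ρ u = 1 := by
  apply LinearMap.ext
  intro w
  rw [twTriv_ρ_apply, hu]
  simp

lemma dualTwist_ρ_eq_one' (u : G) (hχ : χ u = 1) (hN : N.ρ u = 1) :
    (N.dualTwist χ).ρ u = 1 := by
  apply LinearMap.ext
  intro f
  rw [Module.End.one_apply]
  rw [dualTwist_fixed_iff]
  intro n
  rw [hN, hχ]
  simp

lemma kerRep_ρ_eq_one {A B : Rep.{0, 0, 0} k G} (φ : A →ₗ[k] B) (hφ : IsEquivariant φ) (u : G)
    (hA : A.ρ u = 1) : (kerRep φ hφ).ρ u = 1 := by
  apply LinearMap.ext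
  intro a
  apply Subtype.ext
  show A.ρ u (a : A) = (a : A)
  rw [hA]
  rfl

lemma isUSmooth_of_trivial (L : LevelSys G) {U : Subgroup G} (hU : U ∈ L.levels)
    {N : Rep.{0, 0, 0} k G} (hN : ∀ u ∈ U, N.ρ u = 1) : L.IsUSmooth N :=
  ⟨U, hU, fun s hs a => by rw [hN s hs]; rfl⟩

end Triv

end Fermat.Agent.S55.PT

end

end
-- ===== PACK-END S55/PT/Glue.lean

-- ===== PACK-BEGIN S55/E1/H594/LevelProj.lean
section
/-
S55 / engine E1 / G-ADAPTER leaf LVL (helper594), part 4: compatibility with `Level.proj`.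

For levels `L ≤ L'`: the inclusion `L.F → L'.F` is equivariant along
`Level.proj h : L'.Gal → L.Gal`, the fixed field of `Level.relGal h` is `L.F`, and the two
hypotheses of `G.DescentSpec` hold in exactly the required form
(`G = L'.Gal`, `N = Level.relGal h`, `G ⧸ N` acting on `L.F` through `G ⧸ N → L.Gal`).
Also: a `p`-group acting on a field fixes the `p`-th roots of unity
(`G.HasFixedRootOfUnity` for `p`-subgroups of `L.Gal` when `μ_p ⊂ L.F`).
No `sorry`.
-/



set_option autoImplicit false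
set_option linter.unusedSectionVars false
set_option linter.style.haveILetI false

namespace Fermat.Agent.S55.E1.H594

open Fermat.Agent.S55 Fermat.Agent.S55.Tow Fermat.Agent.S55.Bridge NumberField

attribute [local instance] isAlgebraic_Qbar isGalois_Qbar

noncomputable section

variable {S : Finset Nat.Primes} {L L' : Level S} (h : L ≤ L')

/-- The inclusion `L.F → L'.F` for `L ≤ L'`. -/
def levelIncl : L.F →+* L'.F where
  toFun x := ⟨(x : Qbar), h x.2⟩
  map_one' := rfl
  map_mul' _ _ := rfl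
  map_zero' := rfl
  map_add' _ _ := rfl

theorem coe_levelIncl (x : L.F) : ((levelIncl h x : L'.F) : Qbar) = (x : Qbar) := rfl

theorem levelIncl_injective : Function.Injective (levelIncl h) :=
  (levelIncl h).injective

theorem mem_range_levelIncl_iff (x : L'.F) : x ∈ (levelIncl h).range ↔ (x : Qbar) ∈ L.F := by
  constructor
  · rintro ⟨y, rfl⟩
    exact y.2
  · intro hx
    exact ⟨⟨(x : Qbar), hx⟩, rfl⟩

theorem level_proj_mk (σ : _root_.Fermat.Agent.S55.Tow.GQ) :
    Level.proj h (QuotientGroup.mk σ : L'.Gal) = (QuotientGroup.mk σ : L.Gal) := rfl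

theorem level_proj_surjective : Function.Surjective (Level.proj h) := by
  intro g
  induction g using QuotientGroup.induction_on with
  | H σ => exact ⟨QuotientGroup.mk σ, rfl⟩

/-- The inclusion is equivariant along `Level.proj h`. -/
theorem levelIncl_proj_smul (g : L'.Gal) (x : L.F) :
    levelIncl h ((Level.proj h g) • x) = g • levelIncl h x := by
  induction g using QuotientGroup.induction_on with
  | H σ =>
    apply Subtype.ext
    rw [coe_levelIncl, level_proj_mk, level_mk_smul, level_mk_smul, coe_levelIncl]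

theorem mk_mem_relGal_iff (σ : _root_.Fermat.Agent.S55.Tow.GQ) :
    (QuotientGroup.mk σ : L'.Gal) ∈ Level.relGal h ↔ σ ∈ L.U := by
  unfold Level.relGal
  rw [MonoidHom.mem_ker, level_proj_mk]
  exact QuotientGroup.eq_one_iff σ

/-- The fixed field of `Gal(F'/F) = Level.relGal h` in `F'` is `F`. -/
theorem level_relGal_fixed_iff (x : L'.F) :
    (∀ n : Level.relGal h, (n : L'.Gal) • x = x) ↔ x ∈ (levelIncl h).range := by
  rw [mem_range_levelIncl_iff]
  constructor
  · intro hx
    refine mem_level_of_fixed L _ (fun σ hσ => ?_)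
    have := hx ⟨QuotientGroup.mk σ, (mk_mem_relGal_iff h σ).2 hσ⟩
    have h2 := congrArg (fun y : L'.F => (y : Qbar)) this
    simpa only [level_mk_smul] using h2
  · intro hx n
    obtain ⟨n, hn⟩ := n
    induction n using QuotientGroup.induction_on with
    | H σ =>
      apply Subtype.ext
      rw [level_mk_smul]
      exact fixed_of_mem_level L _ hx σ ((mk_mem_relGal_iff h σ).1 hn)

instance relGal_normal : (Level.relGal h).Normal := by
  unfold Level.relGal
  infer_instance

/-- `Gal(F'/ℚ) ⧸ Gal(F'/F) → Gal(F/ℚ)` (an isomorphism). -/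
def levelQuotHom : L'.Gal ⧸ Level.relGal h →* L.Gal :=
  QuotientGroup.kerLift (Level.proj h)

theorem levelQuotHom_mk (g : L'.Gal) :
    levelQuotHom h (QuotientGroup.mk g) = Level.proj h g := rfl

theorem levelQuotHom_bijective : Function.Bijective (levelQuotHom h) :=
  ⟨QuotientGroup.kerLift_injective (Level.proj h), fun g => by
    obtain ⟨g', rfl⟩ := level_proj_surjective h g
    exact ⟨QuotientGroup.mk g', rfl⟩⟩

/-- `Gal(F'/ℚ) ⧸ Gal(F'/F) ≃* Gal(F/ℚ)`. -/
def levelQuotEquiv : L'.Gal ⧸ Level.relGal h ≃* L.Gal :=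
  MulEquiv.ofBijective (levelQuotHom h) (levelQuotHom_bijective h)

/-- The action of `Gal(F'/ℚ) ⧸ Gal(F'/F)` on `F` (a definition, not an instance). -/
@[reducible] def levelQuotAction : MulSemiringAction (L'.Gal ⧸ Level.relGal h) L.F :=
  MulSemiringAction.compHom L.F (levelQuotHom h)

/-- `F'` as an algebra over `F` (a definition, not an instance). -/
@[reducible] def levelAlgebra : Algebra L.F L'.F := (levelIncl h).toAlgebra

/-- First hypothesis of `G.DescentSpec` for `L ≤ L'`. -/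
theorem level_descent_fixed :
    letI := levelAlgebra h
    ∀ x : L'.F, (∀ n : Level.relGal h, (n : L'.Gal) • x = x) ↔
      x ∈ (algebraMap L.F L'.F).range :=
  level_relGal_fixed_iff h

/-- Second hypothesis of `G.DescentSpec` for `L ≤ L'`. -/
theorem level_descent_equivariant :
    letI := levelAlgebra h
    letI := levelQuotAction h
    ∀ (g : L'.Gal) (x : L.F),
      algebraMap L.F L'.F ((g : L'.Gal ⧸ Level.relGal h) • x) = g • algebraMap L.F L'.F x :=
  fun g x => levelIncl_proj_smul h g x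

/-- The action of the quotient on `F` is faithful. -/
theorem levelQuot_faithfulSMul :
    letI := levelQuotAction h
    FaithfulSMul (L'.Gal ⧸ Level.relGal h) L.F := by
  letI := levelQuotAction h
  refine ⟨fun hab => ?_⟩
  apply (levelQuotHom_bijective h).1
  exact (level_faithfulSMul L).eq_of_smul_eq_smul hab

/-- `F/ℚ` is unramified outside `S` for the quotient action as well. -/
theorem levelQuot_isUnramOut :
    letI := levelQuotAction h
    G.IsUnramOut S (L'.Gal ⧸ Level.relGal h) L.F :=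
  letI := levelQuotAction h
  isUnramOut_of_hom S L.Gal (L'.Gal ⧸ Level.relGal h) L.F (levelQuotHom h) (fun _ _ => rfl)
    (level_isUnramOut L)

end

section roots

/-- A finite `p`-group acting on a field by automorphisms fixes every `p`-th root of unity. -/
theorem smul_eq_of_isPGroup_of_pow_eq_one {p : ℕ} [Fact p.Prime] {Γ K : Type} [Group Γ] [Finite Γ]
    [Field K] [MulSemiringAction Γ K] (hΓ : IsPGroup p Γ) {ζ : K} (hζ : ζ ^ p = 1) (g : Γ) :
    g • ζ = ζ := by
  classical
  by_cases h1 : ζ = 1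
  · rw [h1, smul_one]
  have hp : 0 < p := (Fact.out : p.Prime).pos
  set T : Finset K := (Polynomial.nthRootsFinset p (1 : K)).erase 1 with hT
  have hsub : MulAction.orbit Γ ζ ⊆ (T : Set K) := by
    rintro _ ⟨a, rfl⟩
    simp only [hT, Finset.coe_erase, Set.mem_sdiff, Finset.mem_coe, Set.mem_singleton_iff]
    constructor
    · rw [Polynomial.mem_nthRootsFinset hp]
      change (a • ζ) ^ p = 1
      rw [← smul_pow', hζ, smul_one]
    · intro h
      apply h1
      have := congrArg (fun y => a⁻¹ • y) h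
      simpa using this
  haveI : Finite (MulAction.orbit Γ ζ) := Set.Finite.subset T.finite_toSet hsub
  obtain ⟨n, hn⟩ := hΓ.card_orbit ζ
  have hle : Nat.card (MulAction.orbit Γ ζ) ≤ T.card := by
    have := Nat.card_mono T.finite_toSet hsub
    simpa using this
  have hT1 : T.card < p := by
    have h2 : (1 : K) ∈ Polynomial.nthRootsFinset p (1 : K) := by
      rw [Polynomial.mem_nthRootsFinset hp]
      exact one_pow p
    have h3 := Finset.card_erase_of_mem h2
    have h4 : (Polynomial.nthRootsFinset p (1 : K)).card ≤ p := by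
      unfold Polynomial.nthRootsFinset
      exact (Multiset.toFinset_card_le _).trans (Polynomial.card_nthRoots p 1)
    have h5 : 0 < (Polynomial.nthRootsFinset p (1 : K)).card := Finset.card_pos.2 ⟨1, h2⟩
    rw [← hT] at h3
    omega
  have hn0 : n = 0 := by
    by_contra hne
    have : p ≤ p ^ n := Nat.le_self_pow hne p
    rw [hn] at hle
    omega
  rw [hn0, pow_zero] at hn
  have hsingle : (MulAction.orbit Γ ζ).Subsingleton := by
    have := (Nat.card_eq_one_iff_unique.1 hn).1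
    intro a ha b hb
    have := Subsingleton.elim (⟨a, ha⟩ : MulAction.orbit Γ ζ) ⟨b, hb⟩
    exact congrArg Subtype.val this
  exact hsingle (MulAction.mem_orbit ζ g) (MulAction.mem_orbit_self ζ)

/-- `G.HasFixedRootOfUnity` for a finite `p`-group acting on a field containing a primitive
`p`-th root of unity. -/
theorem hasFixedRootOfUnity_of_isPGroup {p : ℕ} [Fact p.Prime] {Γ K : Type} [Group Γ] [Finite Γ]
    [Field K] [MulSemiringAction Γ K] (hΓ : IsPGroup p Γ) {ζ : K} (hζ : IsPrimitiveRoot ζ p) :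
    G.HasFixedRootOfUnity p Γ K :=
  ⟨ζ, hζ, fun g => smul_eq_of_isPGroup_of_pow_eq_one hΓ hζ.pow_eq_one g⟩

variable {S : Finset Nat.Primes} (L : Level S)

/-- If `μ_p ⊂ F`, every `p`-subgroup of `Gal(F/ℚ)` fixes a primitive `p`-th root of unity. -/
theorem level_hasFixedRootOfUnity {p : ℕ} [Fact p.Prime] {ζ : Qbar} (hζF : ζ ∈ L.F)
    (hζ : IsPrimitiveRoot ζ p) (H : Subgroup L.Gal) (hH : IsPGroup p H) :
    G.HasFixedRootOfUnity p H L.F := by
  haveI : Finite L.Gal := level_finite_gal L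
  refine hasFixedRootOfUnity_of_isPGroup hH (ζ := (⟨ζ, hζF⟩ : L.F)) ?_
  exact IsPrimitiveRoot.of_map_of_injective (f := L.F.val) hζ Subtype.val_injective

/-- Subgroups of `Gal(F/ℚ)` act faithfully on `F`. -/
theorem level_faithfulSMul_subgroup (H : Subgroup L.Gal) : FaithfulSMul H L.F :=
  ⟨fun hab => Subtype.ext ((level_faithfulSMul L).eq_of_smul_eq_smul hab)⟩

end roots

end Fermat.Agent.S55.E1.H594

end
-- ===== PACK-END S55/E1/H594/LevelProj.lean

-- ===== PACK-BEGIN S55/H713/GoodLattice.lean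
section


/-!
# Existence of a good lattice in a Galois-stable complete discrete valuation ring
-/

set_option autoImplicit false
set_option linter.unusedSectionVars false

open IsLocalRing

namespace Fermat.Agent.S55.H713

variable {F E : Type*} [Field F] [Field E] [Algebra F E] [FiniteDimensional F E] [IsGalois F E]
variable {O : ValuationSubring E}

/-- The action of the Galois group on a stable valuation subring. -/
@[reducible] def galAction (hstab : GalStable F O) : MulSemiringAction Gal(E/F) O where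
  smul g x := ⟨g x.1, hstab g x.1 x.2⟩
  one_smul _ := Subtype.ext rfl
  mul_smul _ _ _ := Subtype.ext rfl
  smul_zero g := Subtype.ext (map_zero g)
  smul_add g _ _ := Subtype.ext (map_add g _ _)
  smul_one g := Subtype.ext (map_one g)
  smul_mul g _ _ := Subtype.ext (map_mul g _ _)

lemma coe_galAction_smul (hstab : GalStable F O) (g : Gal(E/F)) (x : O) :
    letI := galAction hstab
    ((g • x : O) : E) = g (x : E) := rfl

/-- The lattice inside `O`. -/
def latO (O : ValuationSubring E) (t : F) : AddSubgroup O :=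
  (normLat O t).comap (O.subtype : O →+* E).toAddMonoidHom

lemma mem_latO {t : F} {x : O} : x ∈ latO O t ↔ (x : E) ∈ normLat O t := Iff.rfl

variable [IsDiscreteValuationRing O]

section

variable {p : F} (hp : IsParam O p) (hstab : GalStable F O)

include hp hstab in
lemma mem_lat_latO {t : F} (ht : t ≠ 0) (hθ : t • nb F E 1 ∈ O) (k : ℕ) (x : O) :
    x ∈ lat hp.toO (latO O t) k ↔ (x : E) ∈ normLat O (p ^ k * t) := by
  constructor
  · intro hx
    obtain ⟨a, ha, rfl⟩ := mem_lat.1 hx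
    have : ((hp.toO ^ k * a : O) : E) = p ^ k • (a : E) := by
      rw [Subring.coe_mul, hp.coe_toO_pow, Algebra.smul_def]
    rw [this]
    exact smul_mem_normLat_mul (hp.pow_ne_zero k) ha
  · intro hx
    have h1 : (p ^ k)⁻¹ • (x : E) ∈ normLat O t := (mem_normLat_mul (hp.pow_ne_zero k)).1 hx
    have h2 : (p ^ k)⁻¹ • (x : E) ∈ O := normLat_le hstab ht hθ h1
    refine mem_lat.2 ⟨⟨_, h2⟩, h1, ?_⟩
    apply Subtype.ext
    rw [Subring.coe_mul, hp.coe_toO_pow]
    change algebraMap F E (p ^ k) * ((p ^ k)⁻¹ • (x : E)) = x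
    rw [← Algebra.smul_def, smul_smul, mul_inv_cancel₀ (hp.pow_ne_zero k), one_smul]

end

/-- **Existence of a good lattice.** -/
theorem exists_goodLattice (hstab : GalStable F O) (σ : Gal(E/F))
    (hσ : ∀ g, g ∈ Subgroup.zpowers σ) :
    letI := galAction hstab
    ∃ (π : O) (M : AddSubgroup O), IsGoodLattice σ π M := by
  classical
  let _ := galAction hstab
  obtain ⟨p, hp⟩ := exists_isParam (F := F) hstab
  obtain ⟨N₁, hN₁⟩ := hp.exists_pow_smul_mem (nb F E 1)
  -- a common exponent for the dual basis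
  have hN₀ : ∃ N₀, ∀ g : Gal(E/F), p ^ N₀ • dnb F E g ∈ O := by
    choose k hk using fun g : Gal(E/F) => hp.exists_pow_smul_mem (dnb F E g)
    exact ⟨Finset.univ.sup k, fun g =>
      hp.smul_mem_of_le (Finset.le_sup (Finset.mem_univ g)) (hk g)⟩
  obtain ⟨N₀, hN₀⟩ := hN₀
  set m := N₀ + 2 * N₁ + 1 with hm
  have ht : p ^ m ≠ 0 := hp.pow_ne_zero m
  have hθ : p ^ m • nb F E 1 ∈ O := hp.smul_mem_of_le (by omega) hN₁
  have hlat := mem_lat_latO hp hstab ht hθ
  -- openness in the form `p ^ (N₀ + j) • O ⊆ normLat (p ^ j)`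
  have hopen : ∀ (j c : ℕ) (y : E), y ∈ O → N₀ + j ≤ c → p ^ c • y ∈ normLat O (p ^ j) := by
    intro j c y hy hc
    obtain ⟨d, rfl⟩ := Nat.exists_eq_add_of_le hc
    have e : p ^ (N₀ + j + d) • y = p ^ (N₀ + j) • (p ^ d • y) := by
      rw [smul_smul, ← pow_add]
    rw [e]
    refine smul_mem_normLat_of_mem hstab (fun g => ?_) (hp.smul_mem hy d)
    have : p ^ (N₀ + j) / p ^ j = p ^ N₀ := by
      rw [pow_add, mul_div_assoc, div_self (hp.pow_ne_zero j), mul_one]
    rw [this]
    exact hN₀ g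
  -- elements of the lattice are divisible by `p ^ (m - N₁)`
  have hdiv : ∀ x : E, x ∈ normLat O (p ^ m) →
      ∃ y ∈ O, x = p ^ (N₀ + N₁ + 1) • y := by
    intro x hx
    have e : p ^ m = p ^ (N₀ + N₁ + 1) * p ^ N₁ := by
      rw [← pow_add]; congr 1; omega
    rw [e] at hx
    have h1 := (mem_normLat_mul (hp.pow_ne_zero _)).1 hx
    refine ⟨_, normLat_le hstab (hp.pow_ne_zero N₁) hN₁ h1, ?_⟩
    rw [smul_smul, mul_inv_cancel₀ (hp.pow_ne_zero _), one_smul]
  refine ⟨hp.toO, latO O (p ^ m), ?_⟩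
  refine
    { pi_fixed := ?_
      pi_mem := hp.toO_mem_maximalIdeal
      pi_ne := hp.toO_ne_zero
      smul_mem := ?_
      pi_mul_mem := ?_
      mul_mem := ?_
      isOpen := ?_
      le_max := ?_
      ex1 := ?_
      ex2 := ?_ }
  · intro g
    apply Subtype.ext
    change g (algebraMap F E p) = algebraMap F E p
    exact g.commutes p
  · intro g a ha
    exact galois_mem_normLat g ha
  · intro a ha
    have : ((hp.toO * a : O) : E) = p • (a : E) := by
      rw [Subring.coe_mul, Algebra.smul_def]; rfl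
    rw [mem_latO, this]
    exact smul_mem_normLat hp.mem ha
  · intro a ha b hb
    obtain ⟨a', ha', hae⟩ := hdiv a ha
    obtain ⟨b', hb', hbe⟩ := hdiv b hb
    have hab : ((a * b : O) : E) ∈ normLat O (p ^ 1 * p ^ m) := by
      have e : ((a * b : O) : E) = p ^ (N₀ + (m + 1)) • (a' * b') := by
        rw [Subring.coe_mul, hae, hbe, smul_mul_smul_comm, ← pow_add]
        congr 2; omega
      rw [e, ← pow_add, add_comm 1 m]
      exact hopen (m + 1) _ _ (O.mul_mem _ _ ha' hb') le_rfl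
    obtain ⟨c, hc, hce⟩ := mem_lat.1 ((hlat 1 (a * b)).2 hab)
    exact ⟨c, hc, by rw [← hce, pow_one]⟩
  · intro k
    obtain ⟨e, he⟩ := hp.exists_pow_le
    refine ⟨e * (N₀ + (k + m)), fun x hx => ?_⟩
    obtain ⟨y, hy⟩ := he _ x hx
    rw [hlat k x, ← pow_add]
    have : (x : E) = p ^ (N₀ + (k + m)) • (y : E) := by
      rw [hy, Subring.coe_mul, hp.coe_toO_pow, Algebra.smul_def]
    rw [this]
    exact hopen (k + m) _ _ y.2 le_rfl
  · intro a ha
    obtain ⟨a', ha', hae⟩ := hdiv a ha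
    have : a = hp.toO ^ (N₀ + N₁ + 1) * ⟨a', ha'⟩ := by
      apply Subtype.ext
      rw [Subring.coe_mul, hp.coe_toO_pow, hae, Algebra.smul_def]
    rw [this]
    exact Ideal.mul_mem_right _ _
      (Ideal.pow_mem_of_mem _ hp.toO_mem_maximalIdeal _ (by omega))
  · intro a ha hsa
    have h1 : σ (a : E) - a ∈ normLat O (p * p ^ m) := by
      have := (hlat 1 _).1 hsa
      rwa [pow_one] at this
    obtain ⟨b, hb, hab⟩ := ex1_E hσ ha h1
    have hbO : b ∈ O := normLat_le hstab ht hθ hb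
    refine ⟨⟨b, hbO⟩, hb, ?_⟩
    rw [hlat 1, pow_one]
    have : ((a - ∑ g : Gal(E/F), g • (⟨b, hbO⟩ : O) : O) : E) =
        (a : E) - ∑ g : Gal(E/F), g b := by
      rw [AddSubgroupClass.coe_sub]
      congr 1
      rw [← O.subtype_apply, map_sum]
      rfl
    rw [this]
    exact hab
  · intro a ha hsa
    have h1 : ∑ g : Gal(E/F), g (a : E) ∈ normLat O (p * p ^ m) := by
      have := (hlat 1 _).1 hsa
      rw [pow_one] at this
      have e : ((∑ g : Gal(E/F), g • a : O) : E) = ∑ g : Gal(E/F), g (a : E) := by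
        rw [← O.subtype_apply, map_sum]
        rfl
      rwa [e] at this
    obtain ⟨b, hb, hab⟩ := ex2_E hσ ht ha h1
    have hbO : b ∈ O := normLat_le hstab ht hθ hb
    refine ⟨⟨b, hbO⟩, hb, ?_⟩
    rw [hlat 1, pow_one]
    exact hab

end Fermat.Agent.S55.H713

end
-- ===== PACK-END S55/H713/GoodLattice.lean

-- ===== PACK-BEGIN S55/Bridge/SUnitDict.lean
section





/-!
# S55 bridge, part B17: the `S`-unit dictionary

For a tower level `L` the Prelude-style predicate `Tow.Level.IsSUnit` (unit at every place of `ℚ̄`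
over a prime outside `S`) corresponds, under helper594's isomorphism
`E1.H594.levelUnitsIso : G.LRep L.Gal L.F ≅ L.units`, to the classical `S`-units
`G.sUnit S L.F = ker (Fˣ → Div^S)` of layer G (`G/Defs.lean`).

* `forall_place_unit_iff_mem_sUnit` (field form), `isSUnit_levelUnitsIso_iff` (tower form).
-/

set_option autoImplicit false
set_option linter.unusedSectionVars false

namespace Fermat.Agent.S55.Bridge

open Fermat.Agent.S54 NumberField IsDedekindDomain Fermat.Agent.S55.E1.H594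

attribute [local instance] isAlgebraic_Qbar isGalois_Qbar

variable {S : Finset Nat.Primes} (L : Tow.Level S)

/-- **B17c (field form).** `u ∈ Fˣ` is a unit at all places of `ℚ̄` over primes outside `S` iff it
is an `S`-unit in the sense of layer G. -/
theorem forall_place_unit_iff_mem_sUnit (u : Additive (L.F)ˣ) :
    (∀ ℓ : Nat.Primes, ℓ ∉ S → ∀ A : ValuationSubring (AlgebraicClosure ℚ),
      A.LiesOverPrime (ℓ : ℕ) →
        (((u.toMul : (L.F)ˣ) : L.F) : AlgebraicClosure ℚ) ∈ A ∧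
        ((((u.toMul)⁻¹ : (L.F)ˣ) : L.F) : AlgebraicClosure ℚ) ∈ A) ↔
      u ∈ G.sUnit S L.F := by
  rw [G.mem_sUnit_iff]
  constructor
  · intro h w
    rw [G.ordAt_eq_zero_iff]
    obtain ⟨q, hq, A, hA, hPA⟩ := exists_place_eq L.F w.1
    have hqS : (⟨q, hq⟩ : Nat.Primes) ∉ S := by
      intro hmem
      apply w.2
      refine ⟨⟨q, hq⟩, hmem, ?_⟩
      rw [← hPA]
      exact H594.natCast_mem_primeBelowF L.F A hA
    have h1 := (unit_iff_valuation_eq_one L.F A hq hA u.toMul).1 (h ⟨q, hq⟩ hqS A hA)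
    have hw : placePrime L.F A hq hA = w.1 := HeightOneSpectrum.ext hPA
    rw [hw] at h1
    exact h1
  · intro h ℓ hℓ A hA
    rw [unit_iff_valuation_eq_one L.F A ℓ.2 hA]
    have hout : ¬ G.IsAbove S L.F (placePrime L.F A ℓ.2 hA) := by
      rintro ⟨q, hqS, hq⟩
      have hq' : ((q : ℕ) : AlgebraicClosure ℚ) ∈ A.nonunits := by
        have := (H594.mem_primeBelowF L.F A _).1 hq
        rwa [map_natCast] at this
      have hne : (ℓ : ℕ) ≠ q := by
        intro heq
        apply hℓ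
        have : ℓ = q := Subtype.ext heq
        rw [this]
        exact hqS
      have hv := val_prime_eq_one (A := A) hA ℓ.2 q.2 hne
      rw [ValuationSubring.mem_nonunits_iff, hv] at hq'
      exact lt_irrefl _ hq'
    exact (G.ordAt_eq_zero_iff _ u).1 (h ⟨placePrime L.F A ℓ.2 hA, hout⟩)

/-- **B17d (tower form).** Under `levelUnitsIso`, `Tow.Level.IsSUnit` is membership in the
`S`-units `G.sUnit S L.F` of layer G. -/
theorem isSUnit_levelUnitsIso_iff (u : Additive (L.F)ˣ) :
    L.IsSUnit ((levelUnitsIso L).hom.hom u) ↔ u ∈ G.sUnit S L.F := by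
  rw [← forall_place_unit_iff_mem_sUnit]
  unfold Tow.Level.IsSUnit
  refine forall_congr' fun ℓ => forall_congr' fun _ => forall_congr' fun A =>
    forall_congr' fun _ => ?_
  have h1 : ((L.val ((levelUnitsIso L).hom.hom u) : Tow.Qbarˣ) : Tow.Qbar)
      = (((u.toMul : (L.F)ˣ) : L.F) : AlgebraicClosure ℚ) := rfl
  have h2 : (((L.val ((levelUnitsIso L).hom.hom u))⁻¹ : Tow.Qbarˣ) : Tow.Qbar)
      = ((((u.toMul)⁻¹ : (L.F)ˣ) : L.F) : AlgebraicClosure ℚ) := by
    rw [Units.val_inv_eq_inv_val, h1, Units.val_inv_eq_inv_val]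
    rfl
  rw [h1, h2]

end Fermat.Agent.S55.Bridge

end
-- ===== PACK-END S55/Bridge/SUnitDict.lean

-- ===== PACK-BEGIN S55/Bridge/H1FiniteSpec.lean
section



/-!
# S55: the input `H1FiniteSpec` (GD10) of the engine E1, in the exact frozen shape

`h1FiniteSpec : Tow.H1FiniteSpec S p` for `p ∈ S`, from helper901's
`H901.finiteDimensional_continuousH1S` (on main).
-/

set_option autoImplicit false

namespace Fermat.Agent.S55.Bridge

open groupCohomology ExtCitation

/-- **GD10** in the frozen shape of `Spec/Datum.lean`. -/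
theorem h1FiniteSpec {p : ℕ} [Fact p.Prime] (S : Finset Nat.Primes) (hpS : pPrime p ∈ S) :
    Tow.H1FiniteSpec S p := by
  intro N _ hL
  obtain ⟨L, hL⟩ := hL
  refine H901.finiteDimensional_continuousH1S S hpS N ?_ ?_
  · intro m
    exact ⟨L.F, L.unram.1, fun s hs => by rw [hL s hs]; rfl⟩
  · intro q hq A hA g hg
    exact hL g (L.unram.2 q hq A hA hg)

end Fermat.Agent.S55.Bridge

end
-- ===== PACK-END S55/Bridge/H1FiniteSpec.lean

-- ===== PACK-BEGIN S55/G/JCount903/Count.lean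
section
/-
S55, layer G, J-GLUE (input `JHerbrandSpec` of G-FI), COUNT half (helper903).

For `L/K` Galois with group `G = Gal(L/K)`, `S` a finite set of rational primes and `R` a set of
representatives of the `G`-orbits of the places of `L` above `S` (tensor model `SPlace S L`):

  `∏_{r ∈ R} |D_r| = ∏_{v ∈ S_K} e_v f_v`     (`prod_card_decomp_eq`),

given the dictionary `PlacePrimeSpec` (places ↔ primes of `𝓞 L` above `S`, leaf G-PL1).
-/




set_option autoImplicit false
set_option linter.unusedSectionVars false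
set_option linter.style.haveILetI false
set_option maxHeartbeats 400000

open scoped NumberField TensorProduct
open IsDedekindDomain

noncomputable section

namespace Fermat.Agent.S55.G.JCount903

open Fermat.Agent.S55.G Fermat.Agent.S55.G.OrdH707 Fermat.Agent.S55.G.FIH895

variable (K L : Type) [Field K] [Field L] [NumberField K] [NumberField L] [Algebra K L]
  [IsGalois K L] (S : Finset Nat.Primes)

/-- helper421's action on primes coincides with helper707's. -/
lemma primeSMul_eq_smulH (τ : L ≃ₐ[K] L) (w : HeightOneSpectrum (𝓞 L)) :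
    primeSMul (L ≃ₐ[K] L) τ w = smulH K L τ w := by
  apply HeightOneSpectrum.ext
  rfl

/-- The prime `β r`, viewed as a prime of `L` above `S_K`. -/
def toAbove (β : SPlace S L ≃ PrimeIn S L) (r : SPlace S L) :
    ↥(primesAbove K L (primesOver S K)) :=
  ⟨(β r).1, (Set.ext_iff.mp (primesAbove_primesOver S K L) (β r).1).mpr (β r).2⟩

lemma toAbove_coe (β : SPlace S L ≃ PrimeIn S L) (r : SPlace S L) :
    ((toAbove K L S β r : ↥(primesAbove K L (primesOver S K))) : HeightOneSpectrum (𝓞 L)) =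
      (β r).1 := rfl

lemma toAbove_injective (β : SPlace S L ≃ PrimeIn S L) :
    Function.Injective (toAbove K L S β) := by
  intro r₁ r₂ h
  apply β.injective
  apply Subtype.ext
  exact congrArg (fun w : ↥(primesAbove K L (primesOver S K)) => w.1) h

lemma toAbove_surjective (β : SPlace S L ≃ PrimeIn S L) :
    Function.Surjective (toAbove K L S β) := by
  intro w
  have hw : IsAbove S L w.1 :=
    (Set.ext_iff.mp (primesAbove_primesOver S K L) w.1).mp w.2
  refine ⟨β.symm ⟨w.1, hw⟩, ?_⟩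
  apply Subtype.ext
  rw [toAbove_coe, Equiv.apply_symm_apply]

variable {K L S} in
/-- Equivariance of `toAbove`. -/
lemma toAbove_smul {β : SPlace S L ≃ PrimeIn S L}
    (hβ : ∀ (g : L ≃ₐ[K] L) (𝔪 : SPlace S L),
      (β (sPlaceSMul S (L ≃ₐ[K] L) g 𝔪)).1 = primeSMul (L ≃ₐ[K] L) g (β 𝔪).1)
    (g : L ≃ₐ[K] L) (r : SPlace S L) :
    toAbove K L S β (sPlaceSMul S (L ≃ₐ[K] L) g r) =
      (letI := actX K L (primesOver S K); g • toAbove K L S β r) := by
  apply Subtype.ext
  rw [toAbove_coe, hβ, actX_coe, toAbove_coe, primeSMul_eq_smulH]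

variable {K L S} in
lemma mem_decomp_iff_smul {β : SPlace S L ≃ PrimeIn S L}
    (hβ : ∀ (g : L ≃ₐ[K] L) (𝔪 : SPlace S L),
      (β (sPlaceSMul S (L ≃ₐ[K] L) g 𝔪)).1 = primeSMul (L ≃ₐ[K] L) g (β 𝔪).1)
    (g : L ≃ₐ[K] L) (r : SPlace S L) :
    g ∈ decomp S (L ≃ₐ[K] L) r ↔
      g ∈ (letI := actX K L (primesOver S K);
        MulAction.stabilizer (L ≃ₐ[K] L) (toAbove K L S β r)) := by
  letI := actX K L (primesOver S K)
  rw [mem_decomp_iff, MulAction.mem_stabilizer_iff, ← toAbove_smul hβ]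
  constructor
  · intro h
    rw [h]
  · intro h
    exact toAbove_injective K L S β h

variable {K L S} in
/-- `|D_r| = e_v f_v` for the prime `v` of `K` below `β r`. -/
lemma card_decomp {β : SPlace S L ≃ PrimeIn S L}
    (hβ : ∀ (g : L ≃ₐ[K] L) (𝔪 : SPlace S L),
      (β (sPlaceSMul S (L ≃ₐ[K] L) g 𝔪)).1 = primeSMul (L ≃ₐ[K] L) g (β 𝔪).1)
    (r : SPlace S L) :
    Nat.card (decomp S (L ≃ₐ[K] L) r) =
      (below K L (primesOver S K) (toAbove K L S β r)).1.asIdeal.ramificationIdxIn (𝓞 L) *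
        (below K L (primesOver S K) (toAbove K L S β r)).1.asIdeal.inertiaDegIn (𝓞 L) := by
  rw [← card_stabilizer K L (primesOver S K) (toAbove K L S β r)]
  letI := actX K L (primesOver S K)
  have h : decomp S (L ≃ₐ[K] L) r =
      MulAction.stabilizer (L ≃ₐ[K] L) (toAbove K L S β r) := by
    ext g
    exact mem_decomp_iff_smul hβ g r
  rw [h]

/-- **COUNT.**  For a set `R` of representatives of the `Gal(L/K)`-orbits of the places of `L`
above `S`:  `∏_{r ∈ R} |D_r| = ∏_{v ∈ S_K} e_v f_v`. -/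
theorem prod_card_decomp_eq (hPP : PlacePrimeSpec) (R : Finset (SPlace S L))
    (hR : ∀ 𝔪 : SPlace S L, ∃! r : SPlace S L,
      r ∈ R ∧ ∃ g : L ≃ₐ[K] L, sPlaceSMul S (L ≃ₐ[K] L) g r = 𝔪) :
    ∏ r ∈ R, Nat.card (decomp S (L ≃ₐ[K] L) r) = finDegProd K L (primesOver S K) := by
  classical
  obtain ⟨β, hβ', -⟩ := hPP S L
  have hβ : ∀ (g : L ≃ₐ[K] L) (𝔪 : SPlace S L),
      (β (sPlaceSMul S (L ≃ₐ[K] L) g 𝔪)).1 = primeSMul (L ≃ₐ[K] L) g (β 𝔪).1 :=
    fun g 𝔪 => hβ' (L ≃ₐ[K] L) g 𝔪
  letI := actX K L (primesOver S K)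
  unfold finDegProd
  refine Finset.prod_bij
    (fun r _ => (below K L (primesOver S K) (toAbove K L S β r)).1) ?_ ?_ ?_ ?_
  · intro r _
    exact (below K L (primesOver S K) (toAbove K L S β r)).2
  · intro r₁ h₁ r₂ h₂ h
    have hb : below K L (primesOver S K) (toAbove K L S β r₁) =
        below K L (primesOver S K) (toAbove K L S β r₂) := Subtype.ext h
    obtain ⟨τ, hτ⟩ := exists_smul_eq_of_below_eq K L (primesOver S K) _ _ hb
    rw [← toAbove_smul hβ] at hτ
    have hτ' := toAbove_injective K L S β hτ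
    obtain ⟨r, -, hu⟩ := hR r₂
    have e₁ : r₁ = r := hu r₁ ⟨h₁, τ, hτ'⟩
    have e₂ : r₂ = r := hu r₂ ⟨h₂, 1, (sPlaceAction S (L ≃ₐ[K] L) L).one_smul r₂⟩
    rw [e₁, e₂]
  · intro v hv
    obtain ⟨w, hw⟩ := exists_above K L (primesOver S K) ⟨v, hv⟩
    obtain ⟨𝔪, rfl⟩ := toAbove_surjective K L S β w
    obtain ⟨r, ⟨hrR, g, hg⟩, -⟩ := hR 𝔪
    refine ⟨r, hrR, ?_⟩
    have : below K L (primesOver S K) (toAbove K L S β r) = ⟨v, hv⟩ := by
      rw [← hw, ← hg, toAbove_smul hβ, below_smul]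
    rw [this]
  · intro r _
    exact card_decomp hβ r

end Fermat.Agent.S55.G.JCount903

end
end
-- ===== PACK-END S55/G/JCount903/Count.lean

-- ===== PACK-BEGIN S55/G/Rec/Loc/H483/InertiaLift.lean
section



/-!
# S55 / G / REC / LOC : inertia lifting   (helper483)

`inertiaLift_of (hO : OpenSpec) : InertiaLiftSpec` — an element of the inertia subgroup of a
finite Galois level `E / K_V` is the restriction of an inertial element of `V`.

Proof: finite-level surjectivity of inertia (`Local.H483.exists_inertial_lift`, a counting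
argument) and compactness of `Gal(ℚ̄_q / K_V)` for the Krull topology.
-/

set_option autoImplicit false
set_option linter.unusedSectionVars false
set_option linter.style.haveILetI false

noncomputable section

namespace Fermat.Agent.S55.G.Rec.Loc.H483

open Fermat.Agent.S55.G.Rec Fermat.Agent.S55.G.Rec.Loc Fermat.Agent.S55.Local

section Level

variable (q : ℕ) [Fact q.Prime] (K : IntermediateField ℚ_[q] (PadicAlgCl q))
  (M : IntermediateField K (PadicAlgCl q))

lemma isScalarTower_level : IsScalarTower ℚ_[q] M (PadicAlgCl q) :=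
  IsScalarTower.of_algebraMap_eq (fun _ => rfl)

/-- integrality in a level is the norm condition -/
lemma isInt_level_iff (x : M) : IsInt ℤ_[q] ℚ_[q] M x ↔ ‖(x : PadicAlgCl q)‖ ≤ 1 := by
  haveI := isScalarTower_level q K M
  rw [← H724.isInt_algebraMap_iff724 ℤ_[q] ℚ_[q] M (PadicAlgCl q) x, ← normIntegral q]
  rfl

lemma inMax_level_iff (y : M) :
    Local.H483.InMax ℤ_[q] ℚ_[q] M y ↔ ‖(y : PadicAlgCl q)‖ < 1 := by
  unfold Local.H483.InMax
  rw [isInt_level_iff, isInt_level_iff]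
  have hinv : (((y⁻¹ : M)) : PadicAlgCl q) = (y : PadicAlgCl q)⁻¹ := rfl
  rw [hinv, norm_inv]
  by_cases hy : y = 0
  · subst hy
    simp
  · have hy' : (y : PadicAlgCl q) ≠ 0 := fun h => hy (Subtype.ext h)
    have hpos : 0 < ‖(y : PadicAlgCl q)‖ := norm_pos_iff.2 hy'
    constructor
    · rintro ⟨-, h | h⟩
      · exact absurd h hy
      · rw [not_le] at h
        exact (one_lt_inv₀ hpos).1 h
    · intro h
      exact ⟨h.le, Or.inr (not_le.2 ((one_lt_inv₀ hpos).2 h))⟩

end Level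

section Lift

variable (q : ℕ) [Fact q.Prime] (K : IntermediateField ℚ_[q] (PadicAlgCl q))
  [FiniteDimensional ℚ_[q] K]

/-- Finite-level surjectivity of inertia, for levels `E ≤ E'` inside `ℚ̄_q`. -/
theorem exists_inertial_lift_level (E E' : IntermediateField K (PadicAlgCl q))
    [FiniteDimensional K E] [IsGalois K E] [FiniteDimensional K E'] [IsGalois K E']
    (h : E ≤ E') (ι : E ≃ₐ[K] E)
    (hι : ∀ x : E, ‖(x : PadicAlgCl q)‖ ≤ 1 →
      ‖((ι x : E) : PadicAlgCl q) - (x : PadicAlgCl q)‖ < 1) :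
    ∃ σ : E' ≃ₐ[K] E',
      (∀ x : E', ‖(x : PadicAlgCl q)‖ ≤ 1 →
        ‖((σ x : E') : PadicAlgCl q) - (x : PadicAlgCl q)‖ < 1) ∧
      ∀ x : E, ((σ (IntermediateField.inclusion h x) : E') : PadicAlgCl q) =
        ((ι x : E) : PadicAlgCl q) := by
  letI : Algebra E E' := (IntermediateField.inclusion h).toAlgebra
  haveI : IsScalarTower K E E' := IsScalarTower.of_algebraMap_eq (fun _ => rfl)
  haveI : IsScalarTower ℚ_[q] E E' := IsScalarTower.of_algebraMap_eq (fun _ => rfl)
  obtain ⟨σ, hσ, hσι⟩ := Local.H483.exists_inertial_lift ℤ_[q] ℚ_[q] K E' E ι (fun x hx => by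
    rw [inMax_level_iff]
    exact hι x ((isInt_level_iff q K E x).1 hx))
  refine ⟨σ, fun x hx => ?_, fun x => ?_⟩
  · have := hσ x ((isInt_level_iff q K E' x).2 hx)
    rwa [inMax_level_iff] at this
  · exact congrArg (fun z : E' => (z : PadicAlgCl q)) (hσι x)

/-- for fixed `x`, any condition on `τ x` is open in the Krull topology -/
lemma isOpen_setOf_apply_mem (x : PadicAlgCl q) (T : Set (PadicAlgCl q)) :
    IsOpen {τ : PadicAlgCl q ≃ₐ[K] PadicAlgCl q | τ x ∈ T} := by
  rw [isOpen_iff_forall_mem_open]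
  intro τ₀ hτ₀
  refine ⟨(fun g => τ₀⁻¹ * g) ⁻¹'
    (MulAction.stabilizer (PadicAlgCl q ≃ₐ[K] PadicAlgCl q) x :
      Set (PadicAlgCl q ≃ₐ[K] PadicAlgCl q)), ?_, ?_, ?_⟩
  · intro g hg
    have h1 : (τ₀⁻¹ * g) • x = x := hg
    have h2 : g x = τ₀ x := by
      have := congrArg (fun y => τ₀ y) h1
      simpa [AlgEquiv.smul_def, AlgEquiv.mul_apply] using this
    show g x ∈ T
    rw [h2]
    exact hτ₀
  · exact (stabilizer_isOpen_of_isIntegral x).preimage (continuous_const.mul continuous_id)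
  · show τ₀⁻¹ * τ₀ ∈ MulAction.stabilizer _ x
    rw [inv_mul_cancel]
    exact Subgroup.one_mem _

lemma isClosed_setOf_apply_mem (x : PadicAlgCl q) (T : Set (PadicAlgCl q)) :
    IsClosed {τ : PadicAlgCl q ≃ₐ[K] PadicAlgCl q | τ x ∈ T} := by
  have := isOpen_setOf_apply_mem q K x Tᶜ
  rw [← isOpen_compl_iff]
  convert this using 1
  ext τ
  simp

/-- **Inertia lifting**, in terms of `Gal(ℚ̄_q / K)`. -/
theorem exists_inertial_extension (E : IntermediateField K (PadicAlgCl q))
    [FiniteDimensional K E] [IsGalois K E] (ι : E ≃ₐ[K] E)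
    (hι : ∀ x : E, ‖(x : PadicAlgCl q)‖ ≤ 1 →
      ‖((ι x : E) : PadicAlgCl q) - (x : PadicAlgCl q)‖ < 1) :
    ∃ τ : PadicAlgCl q ≃ₐ[K] PadicAlgCl q,
      (∀ x : PadicAlgCl q, ‖x‖ ≤ 1 → ‖τ x - x‖ < 1) ∧
      ∀ x : E, τ (x : PadicAlgCl q) = ((ι x : E) : PadicAlgCl q) := by
  haveI : IsGalois K (PadicAlgCl q) := inferInstance
  let S : FiniteGaloisIntermediateField K (PadicAlgCl q) →
      Set (PadicAlgCl q ≃ₐ[K] PadicAlgCl q) := fun L =>
    {τ | (∀ x : E, τ (x : PadicAlgCl q) = ((ι x : E) : PadicAlgCl q)) ∧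
      ∀ x ∈ L.toIntermediateField, ‖x‖ ≤ 1 → ‖τ x - x‖ < 1}
  have hmono : ∀ L₁ L₂ : FiniteGaloisIntermediateField K (PadicAlgCl q), L₁ ≤ L₂ →
      S L₂ ⊆ S L₁ := by
    intro L₁ L₂ hle τ hτ
    exact ⟨hτ.1, fun x hx hx1 => hτ.2 x (hle hx) hx1⟩
  have hdir : Directed (· ⊇ ·) S := by
    intro L₁ L₂
    exact ⟨L₁ ⊔ L₂, hmono _ _ le_sup_left, hmono _ _ le_sup_right⟩
  have hclosed : ∀ L, IsClosed (S L) := by
    intro L
    have h1 : S L = (⋂ x : E, {τ : PadicAlgCl q ≃ₐ[K] PadicAlgCl q |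
          τ (x : PadicAlgCl q) ∈ ({((ι x : E) : PadicAlgCl q)} : Set (PadicAlgCl q))}) ∩
        ⋂ x : PadicAlgCl q, {τ : PadicAlgCl q ≃ₐ[K] PadicAlgCl q |
          τ x ∈ {y : PadicAlgCl q | x ∈ L.toIntermediateField → ‖x‖ ≤ 1 → ‖y - x‖ < 1}} := by
      ext τ
      simp only [S, Set.mem_ofPred_eq, Set.mem_inter_iff, Set.mem_iInter, Set.mem_singleton_iff]
    rw [h1]
    exact (isClosed_iInter fun x => isClosed_setOf_apply_mem q K _ _).inter
      (isClosed_iInter fun x => isClosed_setOf_apply_mem q K _ _)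
  have hne : ∀ L, (S L).Nonempty := by
    intro L
    let E' : IntermediateField K (PadicAlgCl q) := E ⊔ L.toIntermediateField
    haveI : FiniteDimensional K E' := inferInstance
    haveI : IsGalois K E' := inferInstance
    have hle : E ≤ E' := le_sup_left
    have hle' : L.toIntermediateField ≤ E' := le_sup_right
    obtain ⟨σ, hσ, hσι⟩ := exists_inertial_lift_level q K E E' hle ι hι
    refine ⟨σ.liftNormal (PadicAlgCl q), fun x => ?_, fun x hx hx1 => ?_⟩
    · have := σ.liftNormal_commutes (PadicAlgCl q) (IntermediateField.inclusion hle x)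
      rw [← hσι x]
      exact this
    · have := σ.liftNormal_commutes (PadicAlgCl q) (⟨x, hle' hx⟩ : E')
      have h2 : σ.liftNormal (PadicAlgCl q) x = ((σ ⟨x, hle' hx⟩ : E') : PadicAlgCl q) := this
      rw [h2]
      exact hσ ⟨x, hle' hx⟩ hx1
  obtain ⟨τ, hτ⟩ := IsCompact.nonempty_iInter_of_directed_nonempty_isCompact_isClosed S hdir hne
    (fun L => (hclosed L).isCompact) hclosed
  rw [Set.mem_iInter] at hτ
  refine ⟨τ, fun x hx => ?_, (hτ ⊥).1⟩
  exact (hτ (FiniteGaloisIntermediateField.adjoin K {x})).2 x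
    (FiniteGaloisIntermediateField.subset_adjoin K {x} (Set.mem_singleton x)) hx

end Lift

/-- **LOC-INERT2** inertia lifting. -/
theorem inertiaLift_of (hO : OpenSpec) : InertiaLiftSpec := by
  intro q _ V hV E _ _ ι hι
  obtain ⟨hfin, hfix⟩ := hO q V hV
  haveI := hfin
  obtain ⟨τ, hτ1, hτ2⟩ := exists_inertial_extension q (fixedFld q V) E ι hι
  have hmem0 : τ.restrictScalars ℚ_[q] ∈ (fixedFld q V).fixingSubgroup :=
    (IntermediateField.mem_fixingSubgroup_iff _ _).2 (fun x hx => τ.commutes ⟨x, hx⟩)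
  have hmem : τ.restrictScalars ℚ_[q] ∈ V := hfix.le hmem0
  refine ⟨⟨τ.restrictScalars ℚ_[q], hmem⟩, fun x hx => hτ1 x hx, ?_⟩
  ext x
  rw [resHom_apply_coe]
  exact hτ2 x

end Fermat.Agent.S55.G.Rec.Loc.H483

end
end
-- ===== PACK-END S55/G/Rec/Loc/H483/InertiaLift.lean

-- ===== PACK-BEGIN S55/Cap/Spec.lean
section



/-!
# S55 / layer K, input A8 (CAP): INTERFACE   (sub-architect helper303)

Blueprint: `coord/S55-K-A8.md` (branch `origin/helper303`).  Spec pattern: every statement is a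
`def … : Prop`; producers prove `theorem foo : FooSpec …` in a NEW file
`Fermat/Agent/S55/Cap/<Leaf>H<seat>.lean`; the consumer is `Cap/Main.lean`
(`capSpec_of_leaves`, PROVED).

Objects (`Cap/Mod.lean`, `Cap/IndM.lean`):  `𝔼 = SU S` (smooth `S`-units), `𝕁 = JJS S`
(smooth `S`-idèles `∏_{q ∈ S} Coind^{sm} ℚ̄_qˣ`), `i = iEJ S : 𝔼 → 𝕁` (diagonal),
`Ind_U X = IndM U X = (G_ℚ ⧸ U →₀ X)` with the diagonal action, `IndM.map`, `IndM.le`.
The idèle class module does NOT appear in the leaves: `𝕁/𝔼` is its `p`-local stand-in.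

Leaves:

| leaf | statement | classical content | input |
|---|---|---|---|
| `MuSpec`    | `μ_p ↪ 𝔼` equivariant, image `= 𝔼[p]` | roots of unity | Bridge/MuP, H654 |
| `HasMuSpec` | `μ` trivial on `U_L` ⇒ `μ_p ⊂ L.F` | Galois correspondence | Mathlib |
| `EDivSpec`  | `𝔼` is `p`-divisible | Kummer, `p ∈ S` | `Tow.SUnitsDivSpec` (on main) |
| `J1Spec`    | `H¹(G_S, Ind_U 𝕁) = 0` (cochains) | Hilbert 90 + Shapiro | `Tow.LocalSpec` |
| `J2Spec`    | `Ш²`-classes die in `H²(G_S, Ind_U 𝕁)` (cochains) | H90 ⇒ inflation injective, Shapiro | `Tow.LocalSpec` |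
| `C1Spec`    | `H¹(G_S, Ind_U (𝕁/𝔼))` has no `p`-part (cochains) | `H¹(C) = 0` + capitulation | GD1, GD4, GD5, GD7, GD11 |
| `C2Spec`    | `∀ V ∃ U`: `N_{U→V} (𝕁/𝔼)^U ⊆ p (𝕁/𝔼)^V` up to prime-to-`p` | existence theorem mod `p` | GD4–GD7, GD11, GD12 |
-/

set_option autoImplicit false

noncomputable section

namespace Fermat.Agent.S55.Cap

open Fermat.Agent.S55.PT Fermat.Agent.S55.Tow groupCohomology ExtCitation

variable (p : ℕ) [Fact p.Prime] (S : Finset Nat.Primes)

/-! ## additions to the tower datum (tell helper55 / helper955) -/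

/-- **GD11**: `C(F)/im J(F)` (the `S`-class group) is torsion. -/
def ClTorsion {S : Finset Nat.Primes} (D : TowerDatum S) : Prop :=
  ∀ (L : Level S) (c : (D.C L).V), ∃ n : ℕ, 0 < n ∧ D.IsLocalSum L (n • c)

/-- **GD12**: Galois descent in the tower: an element of `C(F')` fixed by `Gal(F'/F)` comes from
`C(F)` (after passing to a higher level). -/
def Descent {S : Finset Nat.Primes} (D : TowerDatum S) : Prop :=
  ∀ {L L' : Level S} (h : L ≤ L') (c : (D.C L').V),
    (∀ σ ∈ Level.relGal h, (D.C L').ρ σ c = c) →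
    ∃ (L'' : Level S) (h' : L' ≤ L'') (c₁ : (D.C L).V),
      (D.tr h').hom c = (D.tr (h.trans h')).hom c₁

/-- the input of layer G consumed by A8: a good tower datum with GD11 and GD12 -/
def GlobalSpecCap : Prop :=
  ∃ D : TowerDatum S, D.IsGoodMu p ∧ ClTorsion D ∧ Descent D

/-! ## the leaves -/

/-- **MU.**  An equivariant embedding `μ_p → 𝔼` whose image is the `p`-torsion of `𝔼`. -/
def MuSpec : Prop :=
  ∃ ι₀ : ↥(mu p) →+ SU S, Function.Injective ι₀ ∧
    (∀ (g : Tow.GQ) (a : ↥(mu p)), ι₀ ((mu p).ρ g a) = g • ι₀ a) ∧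
    (∀ e : SU S, p • e = 0 → ∃ a, ι₀ a = e)

/-- **HASMU.**  If `U_L` acts trivially on `μ = ofChar (cycloChar p)` then `μ_p ⊂ L.F`. -/
def HasMuSpec : Prop :=
  ∀ L : Level S, (∀ s ∈ L.U, (mu p).ρ s = 1) → L.HasMu p

/-- **EDIV.**  `𝔼` is `p`-divisible. -/
def EDivSpec : Prop := ∀ x : SU S, ∃ y : SU S, p • y = x

/-- **J1.**  Level-constant 1-cocycles `G_ℚ → Ind_U 𝕁` are coboundaries
(`H¹(G_S(K_U), 𝕁) = ⊕_w H¹(Gal(Ω_w/K_{U,w}), Ω_wˣ) = 0`). -/
def J1Spec : Prop :=
  ∀ (L₁ : Level S) (f : Tow.GQ → IndM L₁.U (JJS S)), (globalLevels S).IsLC₁ f →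
    (∀ g h, f (g * h) = f g + g • f h) → ∃ q : IndM L₁.U (JJS S), ∀ g, f g = g • q - q

/-- **J2.**  A level-constant 2-cocycle with values in `Ind_U μ` whose class is locally trivial at
all `v ∈ S` becomes the coboundary of a level-constant 1-cochain in `Ind_U 𝕁`. -/
def J2Spec : Prop :=
  ∀ (ι₀ : ↥(mu p) →+ SU S), (∀ (g : Tow.GQ) (a : ↥(mu p)), ι₀ ((mu p).ρ g a) = g • ι₀ a) →
    ∀ (L₁ : Level S), (∀ s ∈ L₁.U, (mu p).ρ s = 1) →
    ∀ c : ↥((globalLevels S).Z2 (indRep L₁.U (mu p))),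
      (globalLevels S).H2π (indRep L₁.U (mu p)) c ∈ Sha2 (hrl S) (indRep L₁.U (mu p)) →
      ∃ b : Tow.GQ → IndM L₁.U (JJS S), (globalLevels S).IsLC₁ b ∧
        ∀ g h, IndM.map L₁.U (iEJ S) (IndM.map L₁.U ι₀
            (IndM.ofF L₁.U ((c : Tow.GQ × Tow.GQ → (Tow.GQ ⧸ L₁.U) →₀ ↥(mu p)) (g, h))))
          = g • b h - b (g * h) + b g

/-- **C1.**  `H¹(G_S(K_U), 𝕁/𝔼)` has no `p`-part, in cochain form: a level-constant 1-cochain `b`
in `Ind_U 𝕁` whose coboundary has values in `Ind_U 𝔼` is, up to a prime-to-`p` multiple and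
modulo `Ind_U 𝔼`, a coboundary. -/
def C1Spec : Prop :=
  ∀ (L₁ : Level S) (b : Tow.GQ → IndM L₁.U (JJS S)), (globalLevels S).IsLC₁ b →
    (∀ g h, ∃ e : IndM L₁.U (SU S), IndM.map L₁.U (iEJ S) e = g • b h - b (g * h) + b g) →
    ∃ (m : ℕ) (q₁ : IndM L₁.U (JJS S)), m.Coprime p ∧
      ∀ g, ∃ e : IndM L₁.U (SU S), IndM.map L₁.U (iEJ S) e = m • b g - (g • q₁ - q₁)

/-- **C2.**  Existence theorem mod `p`: for every level `L₀ ⊇ μ_p` there is a level `L₁ ≥ L₀` such
that the norm `Ind_{U₁} → Ind_{U₀}` maps `(𝕁/𝔼)`-invariants into `p · (𝕁/𝔼)`-invariants, up to a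
prime-to-`p` factor. -/
def C2Spec : Prop :=
  ∀ (L₀ : Level S), L₀.HasMu p → ∃ (L₁ : Level S) (h : L₀ ≤ L₁),
    ∀ q : IndM L₁.U (JJS S),
      (∀ g : Tow.GQ, ∃ e : IndM L₁.U (SU S), IndM.map L₁.U (iEJ S) e = g • q - q) →
      ∃ (n : ℕ) (q₂ : IndM L₀.U (JJS S)), n.Coprime p ∧
        (∀ g : Tow.GQ, ∃ e : IndM L₀.U (SU S), IndM.map L₀.U (iEJ S) e = g • q₂ - q₂) ∧
        ∃ ε : IndM L₀.U (SU S),
          IndM.map L₀.U (iEJ S) ε = n • IndM.le (Level.U_anti h) q - p • q₂

/-! ## the adapters (= the work of the leaves `J1`, `J2`, `C1`, `C2`) -/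

/-- leaf **J1** -/
def J1AdapterSpec : Prop := LocalSpec p → J1Spec S

/-- leaf **J2** -/
def J2AdapterSpec : Prop := LocalSpec p → J2Spec p S

/-- leaf **C1** -/
def C1AdapterSpec : Prop :=
  (∃ D : TowerDatum S, D.IsGoodMu p ∧ ClTorsion D) → SUnitsDivSpec S p → C1Spec p S

/-- leaf **C2** -/
def C2AdapterSpec : Prop := GlobalSpecCap p S → C2Spec p S

/-- leaf **EDIV** -/
def EDivAdapterSpec : Prop := SUnitsDivSpec S p → EDivSpec p S

end Fermat.Agent.S55.Cap

end
end
-- ===== PACK-END S55/Cap/Spec.lean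

-- ===== PACK-BEGIN S55/Cap/J2H164/LocalInf.lean
section



/-!
# S55 / A8 (CAP), leaf J2, part (B): local inflation-injectivity   (helper164)

Coefficients: `A' = (G_ℚ ⧸ U₁ → ℚ̄_qˣ)` (`U₁ = L₁.U`), with the diagonal action of the local group
`(d • a) y = d (a ((locQ q d)⁻¹ • y))`.

`LocalInfSpec S` : a 2-cochain `z` of the local group which is right-invariant under `V_L(q)`
(`L ≥ L₁` a level of `S`) and which is the coboundary of a 1-cochain `β` that is level-constant for
SOME finite `F/ℚ` (no ramification condition), is the coboundary of a 1-cochain `β'` that is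
right-invariant under `V_L(q)`.

`localInf : LocalSpec p → LocalInfSpec S`  (only Hilbert 90, i.e. part 2 of `LocalSpec`, is used).
-/

set_option autoImplicit false
set_option linter.unusedVariables false
set_option linter.unusedSectionVars false

noncomputable section

namespace Fermat.Agent.S55.Cap.J2H164

open Fermat.Agent.S55.Tow groupCohomology CategoryTheory

/-- **Interface of part (B).** -/
def LocalInfSpec (S : Finset Nat.Primes) : Prop :=
  ∀ (q : Nat.Primes) (L₁ L : Level S), L₁ ≤ L →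
  ∀ (z : GQp q × GQp q → (GQ ⧸ L₁.U) → (unitsQpbar q).V)
    (β : GQp q → (GQ ⧸ L₁.U) → (unitsQpbar q).V),
    (∀ d d' e e', e ∈ L.V q → e' ∈ L.V q → z (d * e, d' * e') = z (d, d')) →
    (∃ F : IntermediateField ℚ Qbar, FiniteDimensional ℚ F ∧
      ∀ d e, e ∈ F.fixingSubgroup.comap (locQ q) → β (d * e) = β d) →
    (∀ d d' y, (unitsQpbar q).ρ d (β d' ((locQ q d)⁻¹ • y)) - β (d * d') y + β d y
      = z (d, d') y) →
    ∃ β' : GQp q → (GQ ⧸ L₁.U) → (unitsQpbar q).V,
      (∀ d e, e ∈ L.V q → β' (d * e) = β' d) ∧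
      (∀ d d' y, (unitsQpbar q).ρ d (β' d' ((locQ q d)⁻¹ • y)) - β' (d * d') y + β' d y
        = z (d, d') y)

section H90

variable {k G : Type} [CommRing k] [Group G] (A : Rep.{0} k G)

/-- vanishing of `H¹` in elementwise form -/
lemma exists_of_isZero_H1_h164 (hz : Limits.IsZero (groupCohomology A 1))
    (f : G → A) (hf : ∀ g h : G, f (g * h) = A.ρ g (f h) + f g) :
    ∃ y : A, ∀ g : G, A.ρ g y - y = f g := by
  have hmem : f ∈ cocycles₁ A := (mem_cocycles₁_iff f).2 hf
  have : Subsingleton (groupCohomology A 1) :=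
    (ModuleCat.isZero_iff_subsingleton).1 hz
  have h0 : H1π A ⟨f, hmem⟩ = 0 := Subsingleton.elim _ _
  obtain ⟨y, hy⟩ := (H1π_eq_zero_iff _).1 h0
  refine ⟨y, fun g => ?_⟩
  have := congrFun hy g
  rw [d₀₁_hom_apply] at this
  exact this

end H90

variable {S' : Finset Nat.Primes}

lemma mem_V_of_mem_ker {L L' : Level S'} (h : L ≤ L') (q : Nat.Primes) (e : GQp q)
    (he : (QuotientGroup.mk e : L'.Dec q) ∈ (Level.projDec h q).ker) : e ∈ L.V q := by
  rw [MonoidHom.mem_ker, Level.projDec_mk] at he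
  exact (QuotientGroup.eq_one_iff e).1 he

lemma mk_mem_ker {L L' : Level S'} (h : L ≤ L') (q : Nat.Primes) (e : GQp q)
    (he : e ∈ L.V q) : (QuotientGroup.mk e : L'.Dec q) ∈ (Level.projDec h q).ker := by
  rw [MonoidHom.mem_ker, Level.projDec_mk]
  exact (QuotientGroup.eq_one_iff e).2 he

/-- **Hilbert 90 for `L'_q / L_q`, elementwise**: a 1-cocycle on `V_L(q)` which is
right-invariant under `V_{L'}(q)` is a coboundary. -/
lemma h90_elem {p : ℕ} (hL : LocalSpec p) (L L' : Level S') (h : L ≤ L') (q : Nat.Primes)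
    (f : GQp q → (unitsQpbar q).V)
    (hcoc : ∀ e ∈ L.V q, ∀ e' ∈ L.V q, f (e * e') = (unitsQpbar q).ρ e (f e') + f e)
    (hinv : ∀ e ∈ L.V q, ∀ v ∈ L'.V q, f (e * v) = f e) :
    ∃ m : (unitsQpbar q).V, ∀ e ∈ L.V q, f e = (unitsQpbar q).ρ e m - m := by
  have hVle : L'.V q ≤ L.V q := Level.V_anti h q
  -- `f 1 = 0`
  have hf1 : f 1 = 0 := by
    have h1 := hcoc 1 (one_mem _) 1 (one_mem _)
    rw [mul_one, map_one, Module.End.one_apply] at h1
    exact left_eq_add.mp h1
  have hfv : ∀ v ∈ L'.V q, f v = 0 := by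
    intro v hv
    have h1 := hinv 1 (one_mem _) v hv
    rwa [one_mul, hf1] at h1
  have hfix : ∀ e ∈ L.V q, ∀ v ∈ L'.V q, (unitsQpbar q).ρ v (f e) = f e := by
    intro e he v hv
    have h1 := hcoc v (hVle hv) e he
    rw [hfv v hv, add_zero] at h1
    have h2 : v * e = e * (e⁻¹ * v * e) := by group
    have h3 : e⁻¹ * v * e ∈ L'.V q := by
      have := (Level.normalV L' q).conj_mem v hv e⁻¹
      rwa [inv_inv] at this
    rw [h2, hinv e he _ h3] at h1
    exact h1.symm
  -- the descended cocycle on `ker (Dec L' → Dec L)`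
  have hout : ∀ k : (Level.projDec h q).ker, Quotient.out (k : L'.Dec q) ∈ L.V q := by
    intro k
    apply mem_V_of_mem_ker h q
    have : (QuotientGroup.mk (Quotient.out (k : L'.Dec q)) : L'.Dec q) = k :=
      QuotientGroup.out_eq' _
    rw [this]
    exact k.2
  have hrep : ∀ e ∈ L.V q, f (Quotient.out (QuotientGroup.mk e : L'.Dec q)) = f e := by
    intro e he
    have h1 : (QuotientGroup.mk (Quotient.out (QuotientGroup.mk e : L'.Dec q)) : L'.Dec q)
        = QuotientGroup.mk e := QuotientGroup.out_eq' _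
    have h2 : e⁻¹ * Quotient.out (QuotientGroup.mk e : L'.Dec q) ∈ L'.V q :=
      QuotientGroup.eq.1 h1.symm
    have h3 := hinv e he _ h2
    rwa [mul_inv_cancel_left] at h3
  let F : (Level.projDec h q).ker → (L'.locUnits q).V := fun k =>
    L'.locMk q (f (Quotient.out (k : L'.Dec q))) (fun v hv => hfix _ (hout k) v hv)
  have hF : ∀ k k' : (Level.projDec h q).ker,
      F (k * k') = (T.resSub (L'.locUnits q) (Level.projDec h q).ker).ρ k (F k') + F k := by
    intro k k'
    apply L'.locCoe_injective q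
    rw [map_add]
    show f (Quotient.out ((k * k' : (Level.projDec h q).ker) : L'.Dec q)) =
      L'.locCoe q ((L'.locUnits q).ρ (k : L'.Dec q) (F k')) + f (Quotient.out (k : L'.Dec q))
    have hk : (QuotientGroup.mk (Quotient.out (k : L'.Dec q)) : L'.Dec q) = k :=
      QuotientGroup.out_eq' _
    have hk' : (QuotientGroup.mk (Quotient.out (k' : L'.Dec q)) : L'.Dec q) = k' :=
      QuotientGroup.out_eq' _
    have h1 : L'.locCoe q ((L'.locUnits q).ρ (k : L'.Dec q) (F k'))
        = (unitsQpbar q).ρ (Quotient.out (k : L'.Dec q)) (f (Quotient.out (k' : L'.Dec q))) := by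
      conv_lhs => rw [← hk]
      rw [Level.locUnits_ρ_coe]
      rfl
    rw [h1, ← hcoc _ (hout k) _ (hout k')]
    have h2 : ((k * k' : (Level.projDec h q).ker) : L'.Dec q)
        = QuotientGroup.mk (Quotient.out (k : L'.Dec q) * Quotient.out (k' : L'.Dec q)) := by
      rw [QuotientGroup.mk_mul, hk, hk']
      rfl
    rw [h2]
    exact hrep _ (mul_mem (hout k) (hout k'))
  obtain ⟨y₀, hy₀⟩ := exists_of_isZero_H1_h164
    (T.resSub (L'.locUnits q) (Level.projDec h q).ker) (hL.2.1 S' L L' h q) F hF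
  refine ⟨L'.locCoe q y₀, fun e he => ?_⟩
  have h1 := hy₀ ⟨QuotientGroup.mk e, mk_mem_ker h q e he⟩
  have h2 := congrArg (L'.locCoe q) h1
  rw [map_sub] at h2
  have h3 : L'.locCoe q ((T.resSub (L'.locUnits q) (Level.projDec h q).ker).ρ
      ⟨QuotientGroup.mk e, mk_mem_ker h q e he⟩ y₀) = (unitsQpbar q).ρ e (L'.locCoe q y₀) :=
    Level.locUnits_ρ_coe L' q e y₀
  rw [h3] at h2
  rw [h2]
  exact (hrep e he).symm

/-- elements of `U_L` act trivially on `G_ℚ ⧸ U₁` for `L₁ ≤ L` -/
lemma smul_eq_of_mem_U {S : Finset Nat.Primes} {L₁ L : Level S} (h₁ : L₁ ≤ L) {u : GQ}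
    (hu : u ∈ L.U) (y : GQ ⧸ L₁.U) : u • y = y := by
  induction y using QuotientGroup.induction_on with
  | H g =>
    show ((u * g : GQ) : GQ ⧸ L₁.U) = (g : GQ ⧸ L₁.U)
    rw [eq_comm, QuotientGroup.eq]
    have h1 : u ∈ L₁.U := Level.U_anti h₁ hu
    have h2 := (Level.instNormalU L₁).conj_mem u h1 g⁻¹
    rwa [inv_inv] at h2

/-- **Part (B) of leaf J2**: local inflation-injectivity in cochain form. -/
theorem localInf {p : ℕ} (S : Finset Nat.Primes) (hL : LocalSpec p) : LocalInfSpec S := by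
  intro q L₁ L h₁ z β hz hβF hd
  obtain ⟨F, hF, hβF⟩ := hβF
  -- a level `L' ≥ L` (for some `S' ⊇ S`) carrying `β`
  have hfinL : FiniteDimensional ℚ L.F := L.unram.1
  have hfin : FiniteDimensional ℚ ↥(F ⊔ L.F) := inferInstance
  obtain ⟨N, hN⟩ := E1.H603.exists_nLevel_ge (F ⊔ L.F) hfin
  obtain ⟨S', hS, L', hL'⟩ := E1.H603.exists_level_of_nLevel S N
  have hLL' : Level.ofLE hS L ≤ L' := by
    show L.F ≤ L'.F
    rw [hL']
    exact le_sup_right.trans hN
  have hFL' : F ≤ L'.F := by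
    rw [hL']
    exact le_sup_left.trans hN
  have hβ : ∀ d, ∀ v ∈ L'.V q, β (d * v) = β d := fun d v hv =>
    hβF d v (IntermediateField.fixingSubgroup_antitone hFL' hv)
  -- `V_L(q)` acts trivially on `G_ℚ ⧸ U₁`
  have htriv : ∀ e ∈ L.V q, ∀ y : GQ ⧸ L₁.U, (locQ q e)⁻¹ • y = y := fun e he y =>
    smul_eq_of_mem_U h₁ (inv_mem he) y
  have hsm : ∀ (d d' : GQp q) (y : GQ ⧸ L₁.U),
      (locQ q (d * d'))⁻¹ • y = (locQ q d')⁻¹ • (locQ q d)⁻¹ • y := by
    intro d d' y
    rw [map_mul, mul_inv_rev, mul_smul]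
  have hone : ∀ y : GQ ⧸ L₁.U, (locQ q 1)⁻¹ • y = y := by
    intro y
    rw [map_one, inv_one, one_smul]
  -- `β 1 = z (1,1)`
  have hβ1 : ∀ y, β 1 y = z (1, 1) y := by
    intro y
    have h1 := hd 1 1 y
    rw [hone, map_one, Module.End.one_apply, mul_one] at h1
    rw [← h1]
    abel
  -- `z (d, 1) y = d (z (1,1) (d⁻¹ y))`
  have hzd1 : ∀ d y, z (d, 1) y = (unitsQpbar q).ρ d (z (1, 1) ((locQ q d)⁻¹ • y)) := by
    intro d y
    have h1 := hd d 1 y
    rw [mul_one, hβ1] at h1
    rw [← h1]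
    abel
  -- `z (1,1)` is fixed by `V_L(q)`
  have hmfix : ∀ e ∈ L.V q, ∀ y, (unitsQpbar q).ρ e (z (1, 1) y) = z (1, 1) y := by
    intro e he y
    have h1 := hzd1 e y
    rw [htriv e he] at h1
    have h2 := hz 1 1 e 1 he (one_mem _)
    rw [one_mul, mul_one] at h2
    rw [← h1, h2]
  -- Hilbert 90 componentwise
  have key : ∀ y : GQ ⧸ L₁.U, ∃ m : (unitsQpbar q).V,
      ∀ e ∈ L.V q, β e y - z (1, 1) y = (unitsQpbar q).ρ e m - m := by
    intro y
    apply h90_elem hL (Level.ofLE hS L) L' hLL' q (fun e => β e y - z (1, 1) y)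
    · intro e he e' he'
      have h1 := hd e e' y
      rw [htriv e he] at h1
      have h2 := hz 1 1 e e' he he'
      rw [one_mul, one_mul] at h2
      rw [h2] at h1
      show β (e * e') y - z (1, 1) y
        = (unitsQpbar q).ρ e (β e' y - z (1, 1) y) + (β e y - z (1, 1) y)
      rw [map_sub, hmfix e he, ← h1]
      abel
    · intro e he v hv
      show β (e * v) y - z (1, 1) y = β e y - z (1, 1) y
      rw [hβ e v hv]
  choose μ₀ hμ₀ using key
  refine ⟨fun d y => β d y - ((unitsQpbar q).ρ d (μ₀ ((locQ q d)⁻¹ • y)) - μ₀ y), ?_, ?_⟩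
  · intro d e he
    funext y
    show β (d * e) y - ((unitsQpbar q).ρ (d * e) (μ₀ ((locQ q (d * e))⁻¹ • y)) - μ₀ y)
      = β d y - ((unitsQpbar q).ρ d (μ₀ ((locQ q d)⁻¹ • y)) - μ₀ y)
    have h1 := hd d e y
    have h2 := hz d 1 1 e (one_mem _) he
    rw [mul_one, one_mul] at h2
    rw [h2, hzd1] at h1
    have h3 := hμ₀ ((locQ q d)⁻¹ • y) e he
    have h4 : β e ((locQ q d)⁻¹ • y)
        = z (1, 1) ((locQ q d)⁻¹ • y)
          + ((unitsQpbar q).ρ e (μ₀ ((locQ q d)⁻¹ • y)) - μ₀ ((locQ q d)⁻¹ • y)) := by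
      rw [← h3]
      abel
    rw [h4, map_add, map_sub] at h1
    have h5 : β (d * e) y = β d y + ((unitsQpbar q).ρ d ((unitsQpbar q).ρ e
        (μ₀ ((locQ q d)⁻¹ • y))) - (unitsQpbar q).ρ d (μ₀ ((locQ q d)⁻¹ • y))) := by
      linear_combination (norm := abel) -h1
    rw [h5, hsm, htriv e he, map_mul, Module.End.mul_apply]
    abel
  · intro d d' y
    show (unitsQpbar q).ρ d (β d' ((locQ q d)⁻¹ • y)
          - ((unitsQpbar q).ρ d' (μ₀ ((locQ q d')⁻¹ • (locQ q d)⁻¹ • y))
            - μ₀ ((locQ q d)⁻¹ • y)))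
        - (β (d * d') y - ((unitsQpbar q).ρ (d * d') (μ₀ ((locQ q (d * d'))⁻¹ • y)) - μ₀ y))
        + (β d y - ((unitsQpbar q).ρ d (μ₀ ((locQ q d)⁻¹ • y)) - μ₀ y))
      = z (d, d') y
    rw [← hd d d' y, hsm, map_sub, map_sub, map_mul, Module.End.mul_apply]
    abel

end Fermat.Agent.S55.Cap.J2H164

end
end
-- ===== PACK-END S55/Cap/J2H164/LocalInf.lean

-- ===== PACK-BEGIN S56/H716/GWGlue.lean
section



/-!
# Row S56 — the wall GW-WALL, layer 3: glue `GW-WALL ⇐ BASE + REC-Q` (deputy helper716)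

Pure linear algebra:

* `exists_local_lift`: the Selmer cocycles of `(Λ, Q)` modulo the strict ones are spanned by a
  space `W` with `dim W ≤ ∑_{v ∈ Smin} dim Λ v`;
* `gwWall_of_base_recQ : Base → RecQ → GWWall`;
* `gwWall_of : BaseStatement → RecQStatement → GWWallStatement`;
* `tangentBoundOrd_of_walls`, `tangentBoundFlat_of_walls`: the two (TB) statements of layer 0 from
  `DICT`, `LOC-MIN`, `LOC-SO` / `LOC-FLAT`, `BASE`, `REC-Q`.
-/

set_option autoImplicit false

open Polynomial IsLocalRing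

noncomputable section

namespace Fermat.Agent.S56.H716

open Fermat.Agent.S56

/-- A linear relation `R ≤ E × T` with `T` finite-dimensional: modulo `{e | (e, 0) ∈ R}` the
first projection of `R` is spanned by a space of dimension `≤ dim T`. -/
theorem exists_lift_of_rel {k E T : Type*} [Field k] [AddCommGroup E]
    [Module k E] [AddCommGroup T] [Module k T] [Module.Finite k T]
    (R : Submodule k (E × T)) :
    ∃ W : Submodule k E, Module.Finite k W ∧ Module.finrank k W ≤ Module.finrank k T ∧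
      ∀ x ∈ R, ∃ w ∈ W, ((x.1 - w, 0) : E × T) ∈ R := by
  classical
  let f₁ : ↥R →ₗ[k] E := (LinearMap.fst k E T).comp R.subtype
  let f₂ : ↥R →ₗ[k] T := (LinearMap.snd k E T).comp R.subtype
  obtain ⟨C, hC⟩ := Submodule.exists_isCompl (LinearMap.ker f₂)
  have hinj : Function.Injective (f₂.comp C.subtype) := by
    refine (injective_iff_map_eq_zero _).2 fun c hc => ?_
    have h1 : (c : ↥R) ∈ LinearMap.ker f₂ := hc
    have h2 : (c : ↥R) ∈ LinearMap.ker f₂ ⊓ C := ⟨h1, c.2⟩
    rw [hC.inf_eq_bot] at h2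
    exact Subtype.ext ((Submodule.mem_bot k).1 h2)
  have hCfin : Module.Finite k ↥C := Module.Finite.of_injective _ hinj
  refine ⟨C.map f₁, inferInstance, ?_, ?_⟩
  · calc Module.finrank k ↥(C.map f₁) ≤ Module.finrank k ↥C := Submodule.finrank_map_le f₁ C
      _ ≤ Module.finrank k T := LinearMap.finrank_le_finrank_of_injective hinj
  · intro x hx
    have hx' : (⟨x, hx⟩ : ↥R) ∈ LinearMap.ker f₂ ⊔ C := by rw [hC.sup_eq_top]; trivial
    obtain ⟨r₀, hr₀, rc, hrc, hsum⟩ := Submodule.mem_sup.1 hx'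
    refine ⟨f₁ rc, Submodule.mem_map_of_mem hrc, ?_⟩
    have h0 : f₂ r₀ = 0 := hr₀
    have e : ((x.1 - f₁ rc, 0) : E × T) = (r₀ : E × T) := by
      have h3 : (r₀ : E × T) + (rc : E × T) = x := congrArg Subtype.val hsum
      have h4 : (r₀ : E × T).2 = 0 := h0
      refine Prod.ext ?_ h4.symm
      show x.1 - (rc : E × T).1 = (r₀ : E × T).1
      rw [← h3]
      simp
    rw [e]
    exact r₀.2

section Closure

variable {k : Type} [Field k] (ρbar : ResidualGaloisRep k)

lemma IsAdCoboundary.add {c c' : GQ → Module.End k ρbar.V} (h : IsAdCoboundary ρbar c)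
    (h' : IsAdCoboundary ρbar c') : IsAdCoboundary ρbar (c + c') := by
  obtain ⟨m, hm⟩ := h
  obtain ⟨m', hm'⟩ := h'
  refine ⟨m + m', fun σ => ?_⟩
  rw [Pi.add_apply, hm σ, hm' σ, mul_add, add_mul]
  abel

lemma IsAdCoboundaryOn.zero (H : Subgroup GQ) :
    IsAdCoboundaryOn ρbar H (0 : GQ → Module.End k ρbar.V) :=
  ⟨0, fun σ _ => by simp⟩

lemma IsAdCoboundaryOn.add {H : Subgroup GQ} {c c' : GQ → Module.End k ρbar.V}
    (h : IsAdCoboundaryOn ρbar H c) (h' : IsAdCoboundaryOn ρbar H c') :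
    IsAdCoboundaryOn ρbar H (c + c') := by
  obtain ⟨m, hm⟩ := h
  obtain ⟨m', hm'⟩ := h'
  refine ⟨m + m', fun σ hσ => ?_⟩
  rw [Pi.add_apply, hm σ hσ, hm' σ hσ, mul_add, add_mul]
  abel

lemma IsAdCoboundaryOn.smul {H : Subgroup GQ} {c : GQ → Module.End k ρbar.V} (a : k)
    (h : IsAdCoboundaryOn ρbar H c) : IsAdCoboundaryOn ρbar H (a • c) := by
  obtain ⟨m, hm⟩ := h
  refine ⟨a • m, fun σ hσ => ?_⟩
  rw [Pi.smul_apply, hm σ hσ, mul_smul_comm, smul_mul_assoc, smul_sub]

lemma IsAdCoboundaryOn.sub {H : Subgroup GQ} {c c' : GQ → Module.End k ρbar.V}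
    (h : IsAdCoboundaryOn ρbar H c) (h' : IsAdCoboundaryOn ρbar H c') :
    IsAdCoboundaryOn ρbar H (c - c') := by
  have := h.add ρbar (h'.smul ρbar (-1))
  simpa [sub_eq_add_neg] using this

lemma IsAdCocycle.zero : IsAdCocycle ρbar (0 : GQ → Module.End k ρbar.V) where
  trace_eq_zero σ := by simp
  map_mul σ τ := by simp
  level := ⟨⊥, inferInstance, fun _ _ _ => rfl⟩

lemma IsAdCocycle.add {c c' : GQ → Module.End k ρbar.V} (h : IsAdCocycle ρbar c)
    (h' : IsAdCocycle ρbar c') : IsAdCocycle ρbar (c + c') where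
  trace_eq_zero σ := by rw [Pi.add_apply, map_add, h.trace_eq_zero, h'.trace_eq_zero, add_zero]
  map_mul σ τ := by
    simp only [Pi.add_apply]
    rw [h.map_mul, h'.map_mul, mul_add, add_mul]
    abel
  level := by
    obtain ⟨L, hL, hLc⟩ := h.level
    obtain ⟨L', hL', hLc'⟩ := h'.level
    refine ⟨L ⊔ L', inferInstance, fun σ τ hτ => ?_⟩
    simp only [Pi.add_apply]
    rw [hLc σ τ fun x hx => hτ x ((le_sup_left : L ≤ L ⊔ L') hx),
      hLc' σ τ fun x hx => hτ x ((le_sup_right : L' ≤ L ⊔ L') hx)]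

lemma IsAdCocycle.smul {c : GQ → Module.End k ρbar.V} (a : k) (h : IsAdCocycle ρbar c) :
    IsAdCocycle ρbar (a • c) where
  trace_eq_zero σ := by rw [Pi.smul_apply, map_smul, h.trace_eq_zero, smul_zero]
  map_mul σ τ := by
    simp only [Pi.smul_apply]
    rw [h.map_mul, smul_add, mul_smul_comm, smul_mul_assoc]
  level := by
    obtain ⟨L, hL, hLc⟩ := h.level
    exact ⟨L, hL, fun σ τ hτ => by simp only [Pi.smul_apply]; rw [hLc σ τ hτ]⟩

lemma IsAdCocycle.sub {c c' : GQ → Module.End k ρbar.V} (h : IsAdCocycle ρbar c)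
    (h' : IsAdCocycle ρbar c') : IsAdCocycle ρbar (c - c') := by
  have := h.add ρbar (h'.smul ρbar (-1))
  simpa [sub_eq_add_neg] using this

lemma UnramAt.add {c c' : GQ → Module.End k ρbar.V} {q : ℕ} (h : UnramAt ρbar c q)
    (h' : UnramAt ρbar c' q) : UnramAt ρbar (c + c') q := fun P hP σ hσ => by
  rw [Pi.add_apply, h P hP σ hσ, h' P hP σ hσ, add_zero]

lemma UnramAt.smul {c : GQ → Module.End k ρbar.V} {q : ℕ} (a : k) (h : UnramAt ρbar c q) :
    UnramAt ρbar (a • c) q := fun P hP σ hσ => by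
  rw [Pi.smul_apply, h P hP σ hσ, smul_zero]

lemma UnramAt.zero (q : ℕ) : UnramAt ρbar (0 : GQ → Module.End k ρbar.V) q :=
  fun _ _ _ _ => rfl

variable (Pl : ℕ → ValuationSubring Qb)
  (Λ : ℕ → Submodule k (GQ → Module.End k ρbar.V)) (Smin Q : Finset ℕ)

lemma IsSelCocycle.zero : IsSelCocycle ρbar Pl Λ Smin Q 0 where
  cocycle := IsAdCocycle.zero ρbar
  unram q _ _ := UnramAt.zero ρbar q
  loc v _ := ⟨0, (Λ v).zero_mem, by simpa using IsAdCoboundaryOn.zero ρbar _⟩

variable {Pl Λ Smin Q}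

lemma IsSelCocycle.add {c c' : GQ → Module.End k ρbar.V}
    (h : IsSelCocycle ρbar Pl Λ Smin Q c) (h' : IsSelCocycle ρbar Pl Λ Smin Q c') :
    IsSelCocycle ρbar Pl Λ Smin Q (c + c') where
  cocycle := h.cocycle.add ρbar h'.cocycle
  unram q hq hqn := (h.unram q hq hqn).add ρbar (h'.unram q hq hqn)
  loc v hv := by
    obtain ⟨t, ht, hc⟩ := h.loc v hv
    obtain ⟨t', ht', hc'⟩ := h'.loc v hv
    refine ⟨t + t', (Λ v).add_mem ht ht', ?_⟩
    have := hc.add ρbar hc'
    rwa [show c - t + (c' - t') = c + c' - (t + t') by abel] at this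

lemma IsSelCocycle.smul {c : GQ → Module.End k ρbar.V} (a : k)
    (h : IsSelCocycle ρbar Pl Λ Smin Q c) : IsSelCocycle ρbar Pl Λ Smin Q (a • c) where
  cocycle := h.cocycle.smul ρbar a
  unram q hq hqn := (h.unram q hq hqn).smul ρbar a
  loc v hv := by
    obtain ⟨t, ht, hc⟩ := h.loc v hv
    refine ⟨a • t, (Λ v).smul_mem a ht, ?_⟩
    have := hc.smul ρbar a
    rwa [smul_sub] at this

lemma IsSelCocycle.sub {c c' : GQ → Module.End k ρbar.V}
    (h : IsSelCocycle ρbar Pl Λ Smin Q c) (h' : IsSelCocycle ρbar Pl Λ Smin Q c') :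
    IsSelCocycle ρbar Pl Λ Smin Q (c - c') := by
  have := h.add ρbar (h'.smul ρbar (-1))
  simpa [sub_eq_add_neg] using this

/-- The relation "`c` is a Selmer cocycle and `t v` represents its local class at `v`",
as a submodule of `E × ∏_{v ∈ Smin} Λ v`. -/
def selRel (Pl : ℕ → ValuationSubring Qb)
    (Λ : ℕ → Submodule k (GQ → Module.End k ρbar.V)) (Smin Q : Finset ℕ) :
    Submodule k ((GQ → Module.End k ρbar.V) × ((v : ↥Smin) → ↥(Λ v.1))) where
  carrier := {x | IsSelCocycle ρbar Pl Λ Smin Q x.1 ∧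
    ∀ v : ↥Smin, IsAdCoboundaryOn ρbar ((Pl v.1).decompositionSubgroup ℚ)
      (x.1 - ((x.2 v : ↥(Λ v.1)) : GQ → Module.End k ρbar.V))}
  add_mem' := by
    rintro x y ⟨hx, hx'⟩ ⟨hy, hy'⟩
    refine ⟨hx.add ρbar hy, fun v => ?_⟩
    have := (hx' v).add ρbar (hy' v)
    simp only [Prod.fst_add, Prod.snd_add, Pi.add_apply, Submodule.coe_add]
    rwa [show x.1 - ((x.2 v : ↥(Λ v.1)) : GQ → Module.End k ρbar.V) +
      (y.1 - ((y.2 v : ↥(Λ v.1)) : GQ → Module.End k ρbar.V)) =
      x.1 + y.1 - (((x.2 v : ↥(Λ v.1)) : GQ → Module.End k ρbar.V) +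
        ((y.2 v : ↥(Λ v.1)) : GQ → Module.End k ρbar.V)) by abel] at this
  zero_mem' := by
    refine ⟨IsSelCocycle.zero ρbar Pl Λ Smin Q, fun v => ?_⟩
    simpa using IsAdCoboundaryOn.zero ρbar _
  smul_mem' := by
    rintro a x ⟨hx, hx'⟩
    refine ⟨hx.smul ρbar a, fun v => ?_⟩
    have := (hx' v).smul ρbar a
    simp only [Prod.smul_fst, Prod.smul_snd, Pi.smul_apply, Submodule.coe_smul]
    rwa [smul_sub] at this

/-- The Selmer cocycles of `(Λ, Q)` are spanned, modulo the strict Selmer cocycles, by a space of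
dimension `≤ ∑_{v ∈ Smin} dim Λ v`. -/
theorem exists_local_lift (Pl : ℕ → ValuationSubring Qb)
    (Λ : ℕ → Submodule k (GQ → Module.End k ρbar.V)) (Smin Q : Finset ℕ)
    (hfin : ∀ v ∈ Smin, Module.Finite k (Λ v)) :
    ∃ W : Submodule k (GQ → Module.End k ρbar.V), Module.Finite k W ∧
      Module.finrank k W ≤ ∑ v ∈ Smin, Module.finrank k (Λ v) ∧
      ∀ c, IsSelCocycle ρbar Pl Λ Smin Q c →
        ∃ w ∈ W, IsSelCocycle ρbar Pl (fun _ => ⊥) Smin Q (c - w) := by
  classical
  have hfin' : ∀ v : ↥Smin, Module.Finite k ↥(Λ v.1) := fun v => hfin v.1 v.2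
  obtain ⟨W, hWfin, hWdim, hW⟩ := exists_lift_of_rel (selRel ρbar Pl Λ Smin Q)
  refine ⟨W, hWfin, ?_, ?_⟩
  · calc Module.finrank k ↥W ≤ Module.finrank k ((v : ↥Smin) → ↥(Λ v.1)) := hWdim
      _ = ∑ v : ↥Smin, Module.finrank k ↥(Λ v.1) := Module.finrank_pi_fintype k
      _ = ∑ v ∈ Smin, Module.finrank k (Λ v) :=
          Finset.sum_coe_sort Smin fun v => Module.finrank k ↥(Λ v)
  · intro c hc
    choose t ht htc using hc.loc
    let tt : (v : ↥Smin) → ↥(Λ v.1) := fun v => ⟨t v.1 v.2, ht v.1 v.2⟩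
    have hmem : ((c, tt) : (GQ → Module.End k ρbar.V) × ((v : ↥Smin) → ↥(Λ v.1))) ∈
        selRel ρbar Pl Λ Smin Q := ⟨hc, fun v => htc v.1 v.2⟩
    obtain ⟨w, hw, hsel, hcob⟩ := hW _ hmem
    refine ⟨w, hw, hsel.cocycle, hsel.unram, fun v hv => ⟨0, Submodule.zero_mem _, ?_⟩⟩
    have := hcob ⟨v, hv⟩
    simpa using this

end Closure

section

variable (𝒪 : Type) [CommRing 𝒪] [IsDomain 𝒪] [IsDiscreteValuationRing 𝒪]
  (p : ℕ) (ρbar : ResidualGaloisRep (ResidueField 𝒪)) (S Smin : Finset ℕ)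

/-- **Glue** `GW-WALL ⇐ BASE + REC-Q`. -/
theorem gwWall_of_base_recQ (hb : Base 𝒪 p ρbar Smin) (hr : RecQ 𝒪 p ρbar S Smin) :
    GWWall 𝒪 p ρbar S Smin := by
  classical
  obtain ⟨Pl, hPl, D, X, hD, hDur, hXfin, hX, hdim⟩ := hb
  refine ⟨Pl, hPl, fun Λ δ hΛ => ⟨D, hD, fun Q hQ hK => ?_⟩⟩
  obtain ⟨U, hUfin, hUdim, hU⟩ := hr Pl hPl D hD hDur Q hQ hK
  obtain ⟨W, hWfin, hWdim, hW⟩ :=
    exists_local_lift ρbar Pl Λ Smin Q fun v hv => (hΛ.1 v hv).1
  have := hXfin
  have := hUfin
  have := hWfin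
  refine ⟨W ⊔ U ⊔ X, inferInstance, ?_, fun c hc => ?_⟩
  · have h1 : Module.finrank (ResidueField 𝒪) ↥(W ⊔ U ⊔ X) ≤
        Module.finrank (ResidueField 𝒪) W + Module.finrank (ResidueField 𝒪) U +
          Module.finrank (ResidueField 𝒪) X :=
      (Submodule.finrank_add_le_finrank_add_finrank (W ⊔ U) X).trans
        (Nat.add_le_add_right (Submodule.finrank_add_le_finrank_add_finrank W U) _)
    have h2 : ∑ v ∈ Smin, Module.finrank (ResidueField 𝒪) (Λ v) ≤
        ∑ v ∈ Smin, Module.finrank (ResidueField 𝒪)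
          (adInv ρbar ((Pl v).decompositionSubgroup ℚ)) + ∑ v ∈ Smin, δ v := by
      rw [← Finset.sum_add_distrib]
      exact Finset.sum_le_sum fun v hv => (hΛ.1 v hv).2
    have h3 := hΛ.2
    omega
  · obtain ⟨w, hw, hcw⟩ := hW c hc
    obtain ⟨u, hu, c', hc', hcob⟩ := hU (c - w) hcw
    obtain ⟨x, hx, hcob'⟩ := hX c' hc'
    refine ⟨w + u + x, Submodule.add_mem _ (Submodule.add_mem _
      (Submodule.mem_sup_left (Submodule.mem_sup_left hw))
      (Submodule.mem_sup_left (Submodule.mem_sup_right hu)))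
      (Submodule.mem_sup_right hx), ?_⟩
    have := hcob.add ρbar hcob'
    rwa [show c - w - u - c' + (c' - x) = c - (w + u + x) by abel] at this

end

/-- (GW-WALL) from (BASE) and (REC-Q). -/
theorem gwWall_of (hb : BaseStatement) (hr : RecQStatement) : GWWallStatement :=
  fun 𝒪 _ _ _ _ _ p ρbar S Smin hyp =>
    gwWall_of_base_recQ 𝒪 p ρbar S Smin (hb 𝒪 p ρbar S Smin hyp) (hr 𝒪 p ρbar S Smin hyp)

/-- (TB-ord) of layer 0 from the leaves and the two walls. -/
theorem tangentBoundOrd_of_walls (hdict : DictOrdStatement) (hmin : LocMinStatement)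
    (hord : LocOrdPStatement) (hb : BaseStatement) (hr : RecQStatement) :
    TangentBoundOrdStatement :=
  tangentBoundOrd_of_leaves hdict hmin hord (gwWall_of hb hr)

/-- (TB-flat) of layer 0 from the leaves and the two walls. -/
theorem tangentBoundFlat_of_walls (hdict : DictFlatStatement) (hmin : LocMinStatement)
    (hflat : LocFlatPStatement) (hb : BaseStatement) (hr : RecQStatement) :
    TangentBoundFlatStatement :=
  tangentBoundFlat_of_leaves hdict hmin hflat (gwWall_of hb hr)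

end Fermat.Agent.S56.H716

end

end
-- ===== PACK-END S56/H716/GWGlue.lean

-- ===== PACK-BEGIN S56/Euler/H74/ValBasic.lean
section



/-!
# S56 / W-BASE, leaf EUL-CL (helper74), part B0: elementary facts on valuation subrings of `ℚ̄`

* `val_natCast_eq_one`   : a nonzero natural number none of whose prime factors lies under `A`
                            is a unit of `A`;
* `mem_of_no_prime`      : a valuation subring lying over no prime is everything;
* `exists_unit_away`     : every `a ∈ ℚ̄ˣ` is a unit at all places over primes not dividing some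
                            `M ≠ 0`;
* `prime_unique`         : a valuation subring lies over at most one prime.
-/

set_option autoImplicit false
set_option linter.style.haveILetI false

namespace Fermat.Agent.S56.Euler.H74

open Fermat.Agent.S55.Bridge Fermat.Agent.S54

local notation "Qb" => AlgebraicClosure ℚ
local notation "GQ" => (AlgebraicClosure ℚ ≃ₐ[ℚ] AlgebraicClosure ℚ)

variable (A : ValuationSubring Qb)

/-- A natural number is in `A`. -/
lemma val_natCast_le_one (n : ℕ) : A.valuation (n : Qb) ≤ 1 :=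
  (A.valuation_le_one_iff _).mpr (natCast_mem A n)

/-- A nonzero natural number none of whose prime factors lies under `A` is a unit of `A`. -/
theorem val_natCast_eq_one (m : ℕ) (hm : m ≠ 0)
    (h : ∀ q : ℕ, q.Prime → q ∣ m → ¬ A.LiesOverPrime q) : A.valuation (m : Qb) = 1 := by
  induction m using Nat.recOnMul with
  | zero => exact absurd rfl hm
  | one => simp
  | prime p hp =>
    have h1 := h p hp dvd_rfl
    have h2 : ¬ A.valuation (p : Qb) < 1 := fun hlt => h1 ((A.mem_nonunits_iff).2 hlt)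
    exact le_antisymm (val_natCast_le_one A p) (not_lt.1 h2)
  | mul a b iha ihb =>
    have ha : a ≠ 0 := fun h0 => hm (by rw [h0, zero_mul])
    have hb : b ≠ 0 := fun h0 => hm (by rw [h0, mul_zero])
    rw [Nat.cast_mul, map_mul,
      iha ha (fun q hq hqa => h q hq (Dvd.dvd.mul_right hqa b)),
      ihb hb (fun q hq hqb => h q hq (Dvd.dvd.mul_left hqb a)), mul_one]

/-- A valuation subring lies over at most one prime. -/
theorem prime_unique {q q' : ℕ} (hq : q.Prime) (hq' : q'.Prime) (hA : A.LiesOverPrime q)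
    (hA' : A.LiesOverPrime q') : q = q' := by
  by_contra hne
  have h1 := val_prime_eq_one (A := A) hA hq hq' hne
  have h2 : A.valuation (q' : Qb) < 1 := (A.mem_nonunits_iff).1 hA'
  rw [h1] at h2
  exact lt_irrefl _ h2

/-- If `A` lies over `q` and `q ∤ m`, `m ≠ 0`, then `m` is a unit of `A`. -/
theorem val_natCast_eq_one_of_not_dvd {q : ℕ} (hq : q.Prime) (hA : A.LiesOverPrime q)
    (m : ℕ) (hqm : ¬ q ∣ m) : A.valuation (m : Qb) = 1 := by
  have hm : m ≠ 0 := fun h0 => hqm (by rw [h0]; exact dvd_zero q)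
  refine val_natCast_eq_one A m hm (fun q' hq' hq'm hA' => ?_)
  have := prime_unique A hq hq' hA hA'
  exact hqm (this ▸ hq'm)

/-- Integral multiples: every `x ∈ ℚ̄` has a nonzero natural multiple which is integral. -/
theorem exists_nat_mul_integral (x : Qb) :
    ∃ m : ℕ, m ≠ 0 ∧ IsIntegral ℤ ((m : Qb) * x) := by
  have halg : IsAlgebraic ℚ x := (AlgebraicClosure.isAlgebraic ℚ).isAlgebraic x
  have halg' : IsAlgebraic ℤ x := (IsFractionRing.isAlgebraic_iff ℤ ℚ Qb).2 halg
  obtain ⟨y, hy, hint⟩ := halg'.exists_integral_multiple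
  refine ⟨y.natAbs, Int.natAbs_ne_zero.2 hy, ?_⟩
  rcases Int.natAbs_eq y with h | h
  · have : ((y.natAbs : ℕ) : Qb) * x = y • x := by
      rw [zsmul_eq_mul]
      congr 1
      conv_rhs => rw [h]
      simp
    rw [this]
    exact hint
  · have : ((y.natAbs : ℕ) : Qb) * x = -(y • x) := by
      rw [zsmul_eq_mul, ← neg_mul]
      congr 1
      conv_rhs => rw [h]
      simp
    rw [this]
    exact hint.neg

/-- If `m x` is integral and `m` is a unit of `A`, then `x ∈ A`. -/
theorem mem_of_mul_integral {x : Qb} {m : ℕ} (hint : IsIntegral ℤ ((m : Qb) * x))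
    (hm : A.valuation (m : Qb) = 1) : x ∈ A := by
  rw [← A.valuation_le_one_iff]
  have h1 : A.valuation ((m : Qb) * x) ≤ 1 :=
    (A.valuation_le_one_iff _).2 (isIntegral_mem_valuationSubring A hint)
  rwa [map_mul, hm, one_mul] at h1

/-- A valuation subring of `ℚ̄` lying over no prime is everything. -/
theorem mem_of_no_prime (h : ∀ q : ℕ, q.Prime → ¬ A.LiesOverPrime q) (x : Qb) : x ∈ A := by
  obtain ⟨m, hm, hint⟩ := exists_nat_mul_integral x
  exact mem_of_mul_integral A hint (val_natCast_eq_one A m hm (fun q hq _ => h q hq))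

/-- Every `a ∈ ℚ̄ˣ` is a unit at all places over primes not dividing some `M ≠ 0`. -/
theorem exists_unit_away (a : Qbˣ) :
    ∃ M : ℕ, M ≠ 0 ∧ ∀ (B : ValuationSubring Qb) (q : ℕ), q.Prime → B.LiesOverPrime q →
      ¬ q ∣ M → (a : Qb) ∈ B ∧ ((a⁻¹ : Qbˣ) : Qb) ∈ B := by
  obtain ⟨m, hm, hint⟩ := exists_nat_mul_integral (a : Qb)
  obtain ⟨m', hm', hint'⟩ := exists_nat_mul_integral ((a⁻¹ : Qbˣ) : Qb)
  refine ⟨m * m', Nat.mul_ne_zero hm hm', fun B q hq hB hqM => ⟨?_, ?_⟩⟩
  · exact mem_of_mul_integral B hint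
      (val_natCast_eq_one_of_not_dvd B hq hB m (fun h => hqM (Dvd.dvd.mul_right h m')))
  · exact mem_of_mul_integral B hint'
      (val_natCast_eq_one_of_not_dvd B hq hB m' (fun h => hqM (Dvd.dvd.mul_left h m)))

end Fermat.Agent.S56.Euler.H74

end
-- ===== PACK-END S56/Euler/H74/ValBasic.lean

-- ===== PACK-BEGIN S56/H906/LemmaA.lean
section



/-!
# S56 / FLAT-O, piece (A): rigidity of points of order `p` of a Hopf lattice (helper906)

`lemmaA : LemmaAStatement`.  Newton's forward differences for `n ↦ f (n • x)`; no completion, no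
units of the convolution ring.

Reusable: `zp_mem`, `apply_mem` (values of a Hopf lattice lie in `P`), `pspan` (the `P`-span of a
Hopf lattice), `translate` and `delta_mem` (the difference operator maps `P·Λ` into `μ·P·Λ`).
-/

set_option autoImplicit false
set_option linter.unusedSectionVars false

open Polynomial

noncomputable section

namespace Fermat.Agent.S56.H906

open Fermat.Agent.S56

section Basic

variable {p : ℕ} (P : ValuationSubring Qb)

/-- `ℤ_(p) ⊂ P` for `P` above `p`. -/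
theorem zp_mem (hp : p.Prime) (hP : P.LiesOverPrime p) (r : Zp p) :
    algebraMap (Zp p) Qb r ∈ P := by
  have hr : (r : ℚ).den.Coprime p := r.2
  have h1 : algebraMap (Zp p) Qb r = algebraMap ℚ Qb (r : ℚ) := rfl
  rw [h1]
  have h2 : (r : ℚ) = ((r : ℚ).num : ℚ) / ((r : ℚ).den : ℚ) := (Rat.num_div_den _).symm
  rw [h2, map_div₀, map_intCast, map_natCast]
  have hden : ((r : ℚ).den : Qb) ∉ P.nonunits := by
    have := Fermat.Agent.S14.H714.intCast_not_mem_nonunits P hp hP (n := ((r : ℚ).den : ℤ))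
      (by
        intro hd
        have hd' : p ∣ (r : ℚ).den := by exact_mod_cast hd
        have := Nat.Coprime.eq_one_of_dvd hr.symm hd'
        exact hp.one_lt.ne' this)
    simpa using this
  have hdenmem : (((r : ℚ).den : Qb))⁻¹ ∈ P :=
    (Fermat.Agent.S14.H714.inv_mem_of_not_mem_nonunits P hden).2
  rw [div_eq_mul_inv]
  exact mul_mem (intCast_mem P _) hdenmem

/-- An element of `ℚ̄` which is integral over `ℤ_(p)` lies in `P`. -/
theorem mem_of_isIntegral_zp (hp : p.Prime) (hP : P.LiesOverPrime p) {y : Qb}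
    (hy : IsIntegral (Zp p) y) : y ∈ P := by
  obtain ⟨q, hq, hqy⟩ := hy
  -- the ring hom `ℤ_(p) → P`
  let ι : Zp p →+* P :=
    { toFun := fun r => ⟨algebraMap (Zp p) Qb r, zp_mem P hp hP r⟩
      map_one' := Subtype.ext (map_one _)
      map_mul' := fun a b => Subtype.ext (map_mul _ a b)
      map_zero' := Subtype.ext (map_zero _)
      map_add' := fun a b => Subtype.ext (map_add _ a b) }
  have hint : IsIntegral P y := by
    refine ⟨q.map ι, hq.map ι, ?_⟩
    rw [Polynomial.eval₂_map]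
    have : (algebraMap P Qb).comp ι = algebraMap (Zp p) Qb := by
      ext r; rfl
    rw [this]
    exact hqy
  obtain ⟨z, hz⟩ := (IsIntegrallyClosed.isIntegral_iff (R := P) (K := Qb)).mp hint
  rw [← hz]
  exact z.2

end Basic

section Lattice

variable {p : ℕ} [Fact p.Prime] {M : Type} [AddCommGroup M] {act : GQ → M → M}
  {Λ : Subalgebra (Zp p) (M → Qb)} (P : ValuationSubring Qb)

/-- Values of the functions of a Hopf lattice lie in every `P` above `p`. -/
theorem apply_mem (hΛ : IsHL p act Λ) (hP : P.LiesOverPrime p) {f : M → Qb} (hf : f ∈ Λ)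
    (m : M) : f m ∈ P :=
  mem_of_isIntegral_zp P (Fact.out : p.Prime) hP
    (Fermat.Agent.S19.H435.IsHopfLattice.isIntegral_apply hΛ hf m)

/-- The `P`-span of a lattice of functions. -/
def pspan (Λ : Subalgebra (Zp p) (M → Qb)) : Submodule P (M → Qb) :=
  Submodule.span P (Λ : Set (M → Qb))

theorem subset_pspan {f : M → Qb} (hf : f ∈ Λ) : f ∈ pspan P Λ :=
  Submodule.subset_span hf

/-- Values of elements of the `P`-span lie in `P`. -/
theorem pspan_apply_mem (hΛ : IsHL p act Λ) (hP : P.LiesOverPrime p) {F : M → Qb}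
    (hF : F ∈ pspan P Λ) (m : M) : F m ∈ P := by
  induction hF using Submodule.span_induction with
  | mem f hf => exact apply_mem P hΛ hP hf m
  | zero => exact P.zero_mem
  | add F G _ _ hF hG => exact P.add_mem _ _ hF hG
  | smul a F _ hF => exact P.mul_mem _ _ a.2 hF

/-- Translation by `x`. -/
def translate (x : M) : Module.End Qb (M → Qb) := LinearMap.funLeft Qb Qb (fun y => y + x)

@[simp] theorem translate_apply (x : M) (F : M → Qb) (y : M) : translate x F y = F (y + x) := rfl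

theorem translate_pow (x : M) (n : ℕ) : translate x ^ n = translate (n • x) := by
  induction n with
  | zero =>
    ext F y
    simp [translate, LinearMap.funLeft]
  | succ n ih =>
    rw [pow_succ, ih]
    ext F y
    simp only [Module.End.mul_apply, translate_apply, succ_nsmul]
    congr 1
    abel

/-- The difference operator `F ↦ F(· + x) - F`. -/
def delta (x : M) : Module.End Qb (M → Qb) := translate x - 1

theorem delta_apply (x : M) (F : M → Qb) (y : M) : delta x F y = F (y + x) - F y := rfl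

/-- If all coordinates of `x` are congruent to those of `0` modulo `μ`, then the difference
operator maps `P·Λ` into `μ·P·Λ`. -/
theorem delta_mem (hΛ : IsHL p act Λ) (x : M) (μ : Qb) (hμ : μ ≠ 0)
    (hle : ∀ g ∈ Λ, P.valuation (g x - g 0) ≤ P.valuation μ)
    {F : M → Qb} (hF : F ∈ pspan P Λ) :
    ∃ G ∈ pspan P Λ, delta x F = μ • G := by
  induction hF using Submodule.span_induction with
  | mem f hf =>
    obtain ⟨n, a, b, ha, hb, hab⟩ := hΛ.comul_mem f hf
    have hq : ∀ k, (b k x - b k 0) / μ ∈ P := by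
      intro k
      rw [← ValuationSubring.valuation_le_one_iff, map_div₀]
      exact div_le_one_of_le₀ (hle _ (hb k)) zero_le
    refine ⟨∑ k, (⟨(b k x - b k 0) / μ, hq k⟩ : P) • a k,
      Submodule.sum_mem _ fun k _ => Submodule.smul_mem _ _ (subset_pspan P (ha k)), ?_⟩
    funext y
    rw [delta_apply]
    have h1 := hab y x
    have h2 := hab y 0
    rw [add_zero] at h2
    rw [h1]
    conv_lhs => rw [h2]
    rw [← Finset.sum_sub_distrib]
    simp only [Pi.smul_apply, Finset.sum_apply, smul_eq_mul, Finset.mul_sum]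
    refine Finset.sum_congr rfl fun k _ => ?_
    show a k y * b k x - a k y * b k 0 = μ * (((b k x - b k 0) / μ) * a k y)
    field_simp
  | zero => exact ⟨0, Submodule.zero_mem _, by simp⟩
  | add F G _ _ hF hG =>
    obtain ⟨F', hF', hF''⟩ := hF
    obtain ⟨G', hG', hG''⟩ := hG
    exact ⟨F' + G', Submodule.add_mem _ hF' hG', by rw [map_add, hF'', hG'', smul_add]⟩
  | smul a F _ hF =>
    obtain ⟨F', hF', hF''⟩ := hF
    refine ⟨a • F', Submodule.smul_mem _ _ hF', ?_⟩
    have : (a • F : M → Qb) = (a : Qb) • F := rfl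
    rw [this, map_smul, hF'']
    have : (a • F' : M → Qb) = (a : Qb) • F' := rfl
    rw [this, smul_comm]

/-- Iterated differences. -/
theorem delta_pow_mem (hΛ : IsHL p act Λ) (x : M) (μ : Qb) (hμ : μ ≠ 0)
    (hle : ∀ g ∈ Λ, P.valuation (g x - g 0) ≤ P.valuation μ) (j : ℕ)
    {F : M → Qb} (hF : F ∈ pspan P Λ) :
    ∃ G ∈ pspan P Λ, (delta x ^ j) F = μ ^ j • G := by
  induction j generalizing F with
  | zero => exact ⟨F, hF, by simp⟩
  | succ j ih =>
    obtain ⟨G, hG, hG'⟩ := delta_mem P hΛ x μ hμ hle hF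
    obtain ⟨G₂, hG₂, hG₂'⟩ := ih hG
    refine ⟨G₂, hG₂, ?_⟩
    rw [pow_succ, Module.End.mul_apply, hG', map_smul, hG₂', smul_smul, ← pow_succ']

/-- The binomial expansion of `translate (p • x)` evaluated at `0`. -/
theorem sum_choose_delta (x : M) (n : ℕ) (F : M → Qb) :
    F (n • x) = ∑ m ∈ Finset.range (n + 1), (n.choose m : Qb) * (delta x ^ m) F 0 := by
  have h1 : translate x = delta x + 1 := by rw [delta]; abel
  have h2 : translate x ^ n = ∑ m ∈ Finset.range (n + 1),
      delta x ^ m * 1 ^ (n - m) * (n.choose m : Module.End Qb (M → Qb)) := by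
    rw [h1]
    exact (Commute.one_right (delta x)).add_pow n
  have h3 := congrFun (congrArg (fun T : Module.End Qb (M → Qb) => T F) h2) 0
  simp only [translate_pow, translate_apply, zero_add] at h3
  rw [h3, LinearMap.sum_apply, Finset.sum_apply]
  refine Finset.sum_congr rfl fun m _ => ?_
  rw [one_pow, mul_one, Module.End.mul_apply]
  have : ∀ k : ℕ, ((k : Module.End Qb (M → Qb))) F = (k : Qb) • F := by
    intro k
    rw [Nat.cast_smul_eq_nsmul]
    induction k with
    | zero => simp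
    | succ k ih => simp [add_smul, ih]
  rw [this, map_smul, Pi.smul_apply, smul_eq_mul]

end Lattice

/-- **(A)** rigidity of points of order `p`. -/
theorem lemmaA : LemmaAStatement := by
  intro p _ M _ _ act Λ hΛ P hP x lam hpx hlam hle
  have hp : p.Prime := Fact.out
  by_contra hx
  set v := P.valuation with hv
  have hvp : v (p : Qb) < 1 := (ValuationSubring.mem_nonunits_iff P).mp hP
  have hlam1 : v lam < 1 := by
    by_contra hcon
    rw [not_lt] at hcon
    have : (1 : P.ValueGroup) ≤ v lam ^ (p - 1) := one_le_pow₀ hcon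
    exact absurd (lt_of_le_of_lt this (lt_trans hlam hvp)) (lt_irrefl _)
  obtain ⟨f₀, hf₀, hne⟩ := hΛ.separates x 0 hx
  obtain ⟨n, e, he, -, -, hexp⟩ := Fermat.Agent.S19.H435.IsHopfLattice.exists_basis hΛ
  -- coordinates of a general element
  have hcoord : ∀ g ∈ Λ, ∃ c : Fin n → Zp p,
      g x - g 0 = ∑ i, algebraMap (Zp p) Qb (c i) * (e i x - e i 0) := by
    intro g hg
    obtain ⟨c, hc⟩ := hexp g hg
    refine ⟨c, ?_⟩
    have h1 : ∀ y : M, g y = ∑ i, algebraMap (Zp p) Qb (c i) * e i y := by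
      intro y
      rw [hc, Finset.sum_apply]
      refine Finset.sum_congr rfl fun i _ => ?_
      rw [Pi.smul_apply, Algebra.smul_def]
    rw [h1 x, h1 0, ← Finset.sum_sub_distrib]
    exact Finset.sum_congr rfl fun i _ => by ring
  -- some coordinate difference is nonzero
  have hex : ∃ i, e i x - e i 0 ≠ 0 := by
    by_contra hcon
    push Not at hcon
    obtain ⟨c, hc⟩ := hcoord f₀ hf₀
    apply hne
    rw [← sub_eq_zero, hc]
    exact Finset.sum_eq_zero fun i _ => by rw [hcon i, mul_zero]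
  obtain ⟨i₁, hi₁⟩ := hex
  obtain ⟨i₀, -, hi₀⟩ := Finset.exists_max_image Finset.univ (fun i => v (e i x - e i 0))
    ⟨i₁, Finset.mem_univ _⟩
  set μ := e i₀ x - e i₀ 0 with hμdef
  have hμ0 : μ ≠ 0 := by
    intro h0
    have h1 := hi₀ i₁ (Finset.mem_univ _)
    rw [h0, map_zero] at h1
    exact hi₁ ((Valuation.zero_iff v).mp (le_antisymm h1 zero_le))
  have hvμ0 : v μ ≠ 0 := (Valuation.ne_zero_iff v).mpr hμ0
  have hmax : ∀ g ∈ Λ, v (g x - g 0) ≤ v μ := by
    intro g hg
    obtain ⟨c, hc⟩ := hcoord g hg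
    rw [hc]
    refine Valuation.map_sum_le v fun i _ => ?_
    rw [map_mul]
    calc v (algebraMap (Zp p) Qb (c i)) * v (e i x - e i 0)
        ≤ 1 * v (e i x - e i 0) := by
          gcongr
          exact (ValuationSubring.valuation_le_one_iff P _).mpr (zp_mem P hp hP (c i))
      _ = v (e i x - e i 0) := one_mul _
      _ ≤ v μ := hi₀ i (Finset.mem_univ _)
  have hμlam : v μ ≤ v lam := hle _ (he i₀)
  have hμ1 : v μ < 1 := lt_of_le_of_lt hμlam hlam1
  have hμp : v μ ^ (p - 1) < v (p : Qb) :=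
    lt_of_le_of_lt (pow_le_pow_left₀ zero_le hμlam _) hlam
  -- Newton
  have hN := sum_choose_delta x p (e i₀)
  rw [hpx] at hN
  obtain ⟨q, hq⟩ : ∃ q, p = q + 2 := ⟨p - 2, by have := hp.two_le; omega⟩
  have hterm : ∀ m, ∃ g : Qb, g ∈ P ∧ (delta x ^ m) (e i₀) 0 = μ ^ m * g := by
    intro m
    obtain ⟨G, hG, hG'⟩ := delta_pow_mem P hΛ x μ hμ0 hmax m (subset_pspan P (he i₀))
    exact ⟨G 0, pspan_apply_mem P hΛ hP hG 0, by rw [hG']; rfl⟩
  rw [hq, Finset.sum_range_succ', Finset.sum_range_succ'] at hN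
  simp only [Nat.choose_zero_right, Nat.cast_one, pow_zero, Module.End.one_apply, one_mul,
    zero_add, Nat.choose_one_right, pow_one] at hN
  have hd1 : delta x (e i₀) 0 = μ := by rw [delta_apply, zero_add]
  rw [hd1, ← hq] at hN
  have hsum : (p : Qb) * μ = - ∑ k ∈ Finset.range (q + 1),
      ((p.choose (k + 1 + 1) : ℕ) : Qb) * (delta x ^ (k + 1 + 1)) (e i₀) 0 := by
    have := hN
    linear_combination -this
  have hlt : v (∑ k ∈ Finset.range (q + 1),
      ((p.choose (k + 1 + 1) : ℕ) : Qb) * (delta x ^ (k + 1 + 1)) (e i₀) 0) < v ((p : Qb) * μ) := by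
    have hpm0 : v ((p : Qb) * μ) ≠ 0 := by
      rw [map_mul]
      exact mul_ne_zero ((Valuation.ne_zero_iff v).mpr (by exact_mod_cast hp.ne_zero)) hvμ0
    refine Valuation.map_sum_lt v hpm0 fun k hk => ?_
    obtain ⟨g, hg, hg'⟩ := hterm (k + 1 + 1)
    have hg1 : v g ≤ 1 := (ValuationSubring.valuation_le_one_iff P _).mpr hg
    rw [hg', map_mul, map_mul, map_pow, map_mul]
    rw [Finset.mem_range] at hk
    by_cases hkq : k = q
    · -- the last term: choose = 1
      subst hkq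
      rw [← hq, Nat.choose_self, Nat.cast_one, map_one, one_mul]
      have h1 : v μ ^ p = v μ ^ (p - 1) * v μ := by
        rw [← pow_succ]; congr 1; have := hp.two_le; omega
      rw [h1]
      calc v μ ^ (p - 1) * v μ * v g ≤ v μ ^ (p - 1) * v μ * 1 := by gcongr
        _ = v μ ^ (p - 1) * v μ := mul_one _
        _ < v (p : Qb) * v μ := by
          exact mul_lt_mul_of_pos_right hμp (zero_lt_iff.mpr hvμ0)
    · -- middle terms: `p ∣ choose`
      have hk2 : k + 1 + 1 < p := by omega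
      have hdvd : p ∣ p.choose (k + 1 + 1) := hp.dvd_choose_self (by omega) hk2
      obtain ⟨t, ht⟩ := hdvd
      have hc : v ((p.choose (k + 1 + 1) : ℕ) : Qb) ≤ v (p : Qb) := by
        rw [ht, Nat.cast_mul, map_mul]
        calc v (p : Qb) * v (t : Qb) ≤ v (p : Qb) * 1 := by
              gcongr
              exact (ValuationSubring.valuation_le_one_iff P _).mpr (natCast_mem P t)
          _ = v (p : Qb) := mul_one _
      have hμk : v μ ^ (k + 1 + 1) < v μ := by
        calc v μ ^ (k + 1 + 1) = v μ ^ (k + 1) * v μ := pow_succ _ _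
          _ < 1 * v μ := by
            refine mul_lt_mul_of_pos_right ?_ (zero_lt_iff.mpr hvμ0)
            exact pow_lt_one₀ zero_le hμ1 (by omega)
          _ = v μ := one_mul _
      calc v ((p.choose (k + 1 + 1) : ℕ) : Qb) * (v μ ^ (k + 1 + 1) * v g)
          ≤ v (p : Qb) * (v μ ^ (k + 1 + 1) * 1) := by gcongr
        _ = v (p : Qb) * v μ ^ (k + 1 + 1) := by rw [mul_one]
        _ < v (p : Qb) * v μ := by
          refine mul_lt_mul_of_pos_left hμk (zero_lt_iff.mpr ?_)
          exact (Valuation.ne_zero_iff v).mpr (by exact_mod_cast hp.ne_zero)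
  rw [hsum, Valuation.map_neg] at hlt
  exact lt_irrefl _ hlt

end Fermat.Agent.S56.H906

end

end
-- ===== PACK-END S56/H906/LemmaA.lean

-- ===== PACK-BEGIN S56/P3/H306/TWElement.lean
section






/-!
# S56 / P3 : FINAL (helper306)

`twElement : Fermat.Agent.S56.TWElementStatement` — the Taylor–Wiles element (DDT Lemma 2.48 +
Theorem 2.49, group theory part), assembled from the leaves
SPAN (helper769), REG (helper635), IRR (helper934), CYC + DETORD (helper254),
H1 core (helper726) + H1ADAPT, SEL, CYCEXP, glue (helper306).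
-/

set_option autoImplicit false

namespace Fermat.Agent.S56.P3.H306

open Fermat.Agent.S56.P3

/-- **P3** : the Taylor–Wiles element. -/
theorem twElement : Fermat.Agent.S56.TWElementStatement :=
  twElement_of_leaves H769.spanDelta H934.ad0Irreducible H635.reg H254.cycloQuotient
    H254.detOrder

end Fermat.Agent.S56.P3.H306

end
-- ===== PACK-END S56/P3/H306/TWElement.lean

-- ===== PACK-BEGIN S56/RQ/Defs.lean
section


/-!
# Row S56 — REC-Q (reciprocity over the Taylor–Wiles primes): FROZEN definitions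
(sub-architect helper554)

Plain-function language of layers 0–3 (`c, y : G_ℚ → End_k V`, `V = ρbar.V`).  `k(1)` is `k` with
`σ` acting by the cyclotomic exponent (`IsCycExp p σ a`, `a` well defined mod `p`).

* `cup ρbar c y`      — the cup-product 2-cochain `(σ, τ) ↦ tr (c σ · σ(y τ))` of an ad-cocycle `c`
  and a twisted cocycle `y`, written WITHOUT the cyclotomic exponent: `σ(y τ) = y (σ τ) − y σ`.
* `IsCoc₂On p H z`    — `z : G_ℚ × G_ℚ → k` satisfies the 2-cocycle identity of `k(1)` on `H`.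
* `IsLC₂On H z`       — `z` is level-constant on `H` (for some finite level).
* `IsCob₂On p H z`    — on `H`, `z = dλ` for a 1-cochain `λ : G_ℚ → k` which is level-constant on `H`.
* `IsGlobZ p Sg z`    — `z` is a global 2-cocycle of `k(1)`, level-constant for a finite level
  unramified outside `Sg`.
* `PlainRecip k p Sg` — the reciprocity package in plain language: places `Pv v` over `v ∈ Sg` and
  `k`-linear "invariants" `inv v` on 2-cochains, killing local coboundaries, injective on local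
  classes at `v ≡ 1 mod p`, with `∑_{v ∈ Sg} inv v z = 0` for global `z`.

Nothing unproved in this file.  Plan: `coord/S56-RECQ.md` on `origin/main`.
-/

set_option autoImplicit false

open Polynomial IsLocalRing

noncomputable section

namespace Fermat.Agent.S56.RQ

open Fermat.Agent.S56 Fermat.Agent.S56.H716

section

variable {k : Type} [Field k] (ρbar : ResidualGaloisRep k)

/-- The cup product `(σ, τ) ↦ tr (c σ · σ(y τ))`, where `σ(y τ) = y (σ τ) − y σ` (cocycle relation
of the twisted cocycle `y`). -/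
def cup (c y : GQ → Module.End k ρbar.V) : GQ × GQ → k :=
  fun x => LinearMap.trace k ρbar.V (c x.1 * (y (x.1 * x.2) - y x.1))

end

section

variable {k : Type} [Field k] (p : ℕ)

/-- The 2-cocycle identity of `k(1)` on the subgroup `H`. -/
def IsCoc₂On (H : Subgroup GQ) (z : GQ × GQ → k) : Prop :=
  ∀ σ ∈ H, ∀ τ ∈ H, ∀ υ ∈ H, ∀ a : ℕ, IsCycExp p σ a →
    (a : k) * z (τ, υ) + z (σ, τ * υ) = z (σ * τ, υ) + z (σ, τ)

/-- `z` is level-constant on the subgroup `H`. -/
def IsLC₂On (H : Subgroup GQ) (z : GQ × GQ → k) : Prop :=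
  ∃ L : IntermediateField ℚ Qb, FiniteDimensional ℚ L ∧
    ∀ σ ∈ H, ∀ τ ∈ H, ∀ s ∈ H, ∀ s' ∈ H, (∀ x ∈ L, s x = x) → (∀ x ∈ L, s' x = x) →
      z (σ * s, τ * s') = z (σ, τ)

/-- On the subgroup `H`, `z` is the coboundary of a 1-cochain of `k(1)` which is level-constant
on `H`. -/
def IsCob₂On (H : Subgroup GQ) (z : GQ × GQ → k) : Prop :=
  ∃ lam : GQ → k,
    (∃ L : IntermediateField ℚ Qb, FiniteDimensional ℚ L ∧
      ∀ σ ∈ H, ∀ s ∈ H, (∀ x ∈ L, s x = x) → lam (σ * s) = lam σ) ∧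
    ∀ σ ∈ H, ∀ τ ∈ H, ∀ a : ℕ, IsCycExp p σ a →
      z (σ, τ) = (a : k) * lam τ - lam (σ * τ) + lam σ

/-- `z` is a global 2-cocycle of `k(1)`, level-constant for a finite level which is unramified
outside `Sg`. -/
def IsGlobZ (Sg : Finset ℕ) (z : GQ × GQ → k) : Prop :=
  IsCoc₂On p ⊤ z ∧
    ∃ L : IntermediateField ℚ Qb, FiniteDimensional ℚ L ∧
      (∀ q : ℕ, q.Prime → q ∉ Sg → ∀ P : ValuationSubring Qb, P.LiesOverPrime q →
        ∀ s ∈ P.inertiaSubgroupIn ℚ, ∀ x ∈ L, s x = x) ∧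
      ∀ σ τ s s' : GQ, (∀ x ∈ L, s x = x) → (∀ x ∈ L, s' x = x) → z (σ * s, τ * s') = z (σ, τ)

variable (k) in
/-- The reciprocity package for `k(1)` and the finite set of primes `Sg`, in plain language. -/
def PlainRecip (Sg : Finset ℕ) : Prop :=
  ∃ (Pv : ℕ → ValuationSubring Qb) (inv : ℕ → (GQ × GQ → k) →ₗ[k] k),
    (∀ v ∈ Sg, (Pv v).LiesOverPrime v) ∧
    (∀ v ∈ Sg, ∀ z : GQ × GQ → k,
      IsCob₂On p ((Pv v).decompositionSubgroup ℚ) z → inv v z = 0) ∧
    (∀ v ∈ Sg, p ∣ v - 1 → ∀ z : GQ × GQ → k,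
      IsCoc₂On p ((Pv v).decompositionSubgroup ℚ) z →
      IsLC₂On ((Pv v).decompositionSubgroup ℚ) z → inv v z = 0 →
      IsCob₂On p ((Pv v).decompositionSubgroup ℚ) z) ∧
    (∀ z : GQ × GQ → k, IsGlobZ p Sg z → ∑ v ∈ Sg, inv v z = 0)

end

end Fermat.Agent.S56.RQ

end

end
-- ===== PACK-END S56/RQ/Defs.lean

-- ===== PACK-BEGIN S59/H247/TFSelmer.lean
section




/-!
# S59 / G3-TF, part 5: finitely many `ℤ/p`-characters of `G_F` unramified outside `S`

For a number field `F ⊆ ℚ̄` containing `μ_p` and a finite set `S` of rational primes there is a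
finite extension `M / F` such that every continuous additive character `χ : G_F → ℤ/p` which is
trivial on the groups `I_A ∩ G_F` (`A` over a prime `q ∉ S`) is trivial on `G_M`.
-/

set_option autoImplicit false
set_option linter.style.haveILetI false
set_option linter.unusedSectionVars false

namespace Fermat.Agent.S59.H247

open NumberField IsDedekindDomain Fermat.Agent.S54 Fermat.Agent.S55.Bridge

attribute [local instance] numberField_of_finiteDimensional isAlgebraic_Qbar

variable (F : IntermediateField ℚ (AlgebraicClosure ℚ)) [FiniteDimensional ℚ F]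

/-- the primes of `F` above the primes in `S` -/
def primesAbove (S : Finset ℕ) : Set (HeightOneSpectrum (𝓞 F)) :=
  {v | ∃ q ∈ S, q.Prime ∧ (q : 𝓞 F) ∈ v.asIdeal}

theorem primesAbove_finite (S : Finset ℕ) : (primesAbove F S).Finite := by
  classical
  have hsub : primesAbove F S ⊆
      ⋃ q ∈ (S.filter Nat.Prime : Finset ℕ),
        {v : HeightOneSpectrum (𝓞 F) | v.asIdeal ∣ Ideal.span {(q : 𝓞 F)}} := by
    rintro v ⟨q, hqS, hq, hqv⟩
    simp only [Set.mem_iUnion]
    refine ⟨q, Finset.mem_filter.2 ⟨hqS, hq⟩, ?_⟩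
    show v.asIdeal ∣ Ideal.span {(q : 𝓞 F)}
    rw [Ideal.dvd_span_singleton]
    exact hqv
  refine (Set.Finite.biUnion (Finset.finite_toSet _) fun q hq => ?_).subset hsub
  apply Ideal.finite_factors
  have hq' : q.Prime := (Finset.mem_filter.1 hq).2
  intro h
  rw [Ideal.zero_eq_bot, Ideal.span_singleton_eq_bot] at h
  exact hq'.ne_zero (by exact_mod_cast h)

/-- finitely many `p`-th roots -/
theorem finite_pow_eq {p : ℕ} (hp : 0 < p) (c : AlgebraicClosure ℚ) :
    {x : AlgebraicClosure ℚ | x ^ p = c}.Finite := by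
  have hne : (Polynomial.X ^ p - Polynomial.C c : Polynomial (AlgebraicClosure ℚ)) ≠ 0 :=
    Polynomial.X_pow_sub_C_ne_zero hp c
  refine (Polynomial.finite_setOfPred_isRoot hne).subset fun x hx => ?_
  show Polynomial.IsRoot _ x
  rw [Polynomial.IsRoot, Polynomial.eval_sub, Polynomial.eval_pow, Polynomial.eval_X,
    Polynomial.eval_C]
  exact sub_eq_zero.2 hx

/-- **Finiteness of `ℤ/p`-characters unramified outside `S`.** -/
theorem exists_bound_field {p : ℕ} (hp : p.Prime) {ζ : AlgebraicClosure ℚ}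
    (hζ : IsPrimitiveRoot ζ p) (hζF : ζ ∈ F) (S : Finset ℕ) :
    ∃ M : IntermediateField ℚ (AlgebraicClosure ℚ), FiniteDimensional ℚ M ∧ F ≤ M ∧
      ∀ χ : (AlgebraicClosure ℚ ≃ₐ[ℚ] AlgebraicClosure ℚ) → ZMod p,
        (∀ σ τ, σ ∈ F.fixingSubgroup → τ ∈ F.fixingSubgroup → χ (σ * τ) = χ σ + χ τ) →
        (∃ N : IntermediateField ℚ (AlgebraicClosure ℚ), FiniteDimensional ℚ N ∧
          ∀ σ ∈ F.fixingSubgroup, (∀ x ∈ N, σ x = x) → χ σ = 0) →
        (∀ q : ℕ, q.Prime → q ∉ S → ∀ A : ValuationSubring (AlgebraicClosure ℚ),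
          A.LiesOverPrime q → ∀ σ ∈ A.inertiaSubgroupIn ℚ, σ ∈ F.fixingSubgroup → χ σ = 0) →
        ∀ σ ∈ M.fixingSubgroup, χ σ = 0 := by
  classical
  haveI : Fact p.Prime := ⟨hp⟩
  have hSF := primesAbove_finite F S
  haveI hSel : Finite (selmerGroup (R := 𝓞 F) (K := F) (S := primesAbove F S) (n := p)) :=
    Fermat.Agent.S55.H901.selmerGroup_finite hSF hp.pos
  let rep : selmerGroup (R := 𝓞 F) (K := F) (S := primesAbove F S) (n := p) → Fˣ :=
    fun g => Quotient.out g.1
  have hrep : ∀ g : selmerGroup (R := 𝓞 F) (K := F) (S := primesAbove F S) (n := p),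
      (QuotientGroup.mk (rep g) : Fˣ ⧸ (powMonoidHom p : Fˣ →* Fˣ).range) = g.1 :=
    fun g => Quotient.out_eq g.1
  let T : Set (AlgebraicClosure ℚ) :=
    ⋃ g : selmerGroup (R := 𝓞 F) (K := F) (S := primesAbove F S) (n := p),
      {x | x ^ p = (((rep g : Fˣ) : F) : AlgebraicClosure ℚ)}
  have hT : T.Finite := Set.finite_iUnion fun g => finite_pow_eq hp.pos _
  haveI : Finite T := hT.to_subtype
  have hTint : ∀ x ∈ T, IsIntegral F x := fun x _ =>
    (Algebra.IsAlgebraic.isAlgebraic (R := ℚ) x).isIntegral.tower_top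
  haveI hfd1 : FiniteDimensional F (IntermediateField.adjoin F T) :=
    IntermediateField.finiteDimensional_adjoin hTint
  set M : IntermediateField ℚ (AlgebraicClosure ℚ) :=
    (IntermediateField.adjoin F T).restrictScalars ℚ with hM
  have hfd : FiniteDimensional ℚ M := by
    have : FiniteDimensional ℚ (IntermediateField.adjoin F T) := Module.Finite.trans F _
    exact this
  have hFM : F ≤ M := fun x hx => (IntermediateField.adjoin F T).algebraMap_mem ⟨x, hx⟩
  refine ⟨M, hfd, hFM, ?_⟩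
  intro χ hadd hcont hunr σ₀ hσ₀
  by_contra hχσ₀
  have hσ₀M : ∀ x ∈ M, σ₀ x = x := (IntermediateField.mem_fixingSubgroup_iff M σ₀).1 hσ₀
  have hσ₀F : σ₀ ∈ F.fixingSubgroup := by
    rw [IntermediateField.mem_fixingSubgroup_iff]
    exact fun x hx => hσ₀M x (hFM hx)
  obtain ⟨α, j, hα0, hj0, hα⟩ := exists_kummer_generator F hp hζ hζF χ hadd hcont σ₀ hσ₀F hχσ₀
  have hζp : ζ ^ p = 1 := hζ.pow_eq_one
  -- `a = α ^ p ∈ F`
  have haF : α ^ p ∈ F := by
    apply mem_of_fixed_by_fixingSubgroup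
    intro g hg
    rw [map_pow, hα g hg, mul_pow, ← pow_mul, mul_comm _ p, pow_mul, hζp, one_pow, one_mul]
  have ha0 : (⟨α ^ p, haF⟩ : F) ≠ 0 := by
    intro h
    have := congrArg Subtype.val h
    exact pow_ne_zero p hα0 this
  set a : Fˣ := Units.mk0 ⟨α ^ p, haF⟩ ha0 with ha
  have hαa : α ^ p = (((a : F)) : AlgebraicClosure ℚ) := rfl
  -- the root of unity by which `σ₀` moves `α`
  set ζ' : AlgebraicClosure ℚ := ζ ^ (χ σ₀ * j).val with hζ'
  have hζ'p : ζ' ^ p = 1 := by
    rw [hζ', ← pow_mul, mul_comm _ p, pow_mul, hζp, one_pow]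
  have hζ'1 : ζ' ≠ 1 := by
    rw [hζ', Ne, hζ.pow_eq_one_iff_dvd, ← ZMod.natCast_eq_zero_iff, ZMod.natCast_zmod_val]
    exact mul_ne_zero hχσ₀ hj0
  have hζ'F : ζ' ∈ F := pow_mem hζF _
  -- divisibility of the valuations outside `S`
  have hdvd : ∀ v : HeightOneSpectrum (𝓞 F), v ∉ primesAbove F S →
      (p : ℤ) ∣ Multiplicative.toAdd (v.valuationOfNeZero a) := by
    intro v hv
    refine dvd_valuationOfNeZero_of_inertia_fixes hp v a hαa hζ'p hζ'1 hζ'F σ₀
      ((IntermediateField.mem_fixingSubgroup_iff F σ₀).1 hσ₀F) (hα σ₀ hσ₀F) ?_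
    intro A hA σ hσI hσF
    obtain ⟨q, hq, hAq, hqv⟩ := hA.exists_prime
    have hqS : q ∉ S := fun h => hv ⟨q, h, hq, hqv⟩
    have hσF' : σ ∈ F.fixingSubgroup := (IntermediateField.mem_fixingSubgroup_iff F σ).2 hσF
    have hχσ : χ σ = 0 := hunr q hq hqS A hAq σ hσI hσF'
    rw [hα σ hσF', hχσ, zero_mul, ZMod.val_zero, pow_zero, one_mul]
  -- the class of `a` lies in the Selmer group
  have hmem : (QuotientGroup.mk a : Fˣ ⧸ (powMonoidHom p : Fˣ →* Fˣ).range) ∈
      selmerGroup (R := 𝓞 F) (K := F) (S := primesAbove F S) (n := p) := by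
    intro v hv
    exact (Fermat.Agent.S55.H901.valuationOfNeZeroMod_mk_eq_one_iff v p a).2 (hdvd v hv)
  have h1 := hrep ⟨_, hmem⟩
  rw [QuotientGroup.eq] at h1
  obtain ⟨b, hb⟩ := h1
  have hb' : b ^ p = (rep ⟨_, hmem⟩)⁻¹ * a := hb
  -- `α / b` is a `p`-th root of a representative
  have hb0 : (((b : F)) : AlgebraicClosure ℚ) ≠ 0 := by
    have := b.ne_zero
    exact_mod_cast this
  have hβ : (α / (((b : F)) : AlgebraicClosure ℚ)) ∈ T := by
    simp only [T, Set.mem_iUnion]
    refine ⟨⟨_, hmem⟩, ?_⟩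
    show (α / (((b : F)) : AlgebraicClosure ℚ)) ^ p = _
    have h2 : (a : Fˣ) = rep ⟨_, hmem⟩ * b ^ p := by
      rw [hb', mul_inv_cancel_left]
    have h3 : (((a : F)) : AlgebraicClosure ℚ)
        = ((((rep ⟨_, hmem⟩ : Fˣ) : F)) : AlgebraicClosure ℚ)
          * (((b : F)) : AlgebraicClosure ℚ) ^ p := by
      have := congrArg (fun u : Fˣ => (((u : F)) : AlgebraicClosure ℚ)) h2
      simpa using this
    rw [div_pow, hαa, h3, mul_div_assoc, div_self (pow_ne_zero p hb0), mul_one]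
  have hβM : (α / (((b : F)) : AlgebraicClosure ℚ)) ∈ M :=
    IntermediateField.subset_adjoin F T hβ
  have hbM : (((b : F)) : AlgebraicClosure ℚ) ∈ M := hFM (b : F).2
  have hαM : α ∈ M := by
    have := M.mul_mem hβM hbM
    rwa [div_mul_cancel₀ _ hb0] at this
  have h4 := hσ₀M α hαM
  rw [hα σ₀ hσ₀F] at h4
  exact hζ'1 (mul_right_cancel₀ hα0 (h4.trans (one_mul α).symm))

end Fermat.Agent.S59.H247

end
-- ===== PACK-END S59/H247/TFSelmer.lean

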