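import Fermat.Agent.Pack.S43GC.G0E1L0
import Fermat.Agent.Pack.S43GC.G0E14L0
import Fermat.Agent.Pack.S43GC.G0E10L3
import Fermat.Agent.Pack.S43GC.G0E12L3
import Fermat.Agent.Pack.S43GC.G0E14L1
import Fermat.Agent.Pack.S43GC.G0E14L2
import Fermat.Agent.Pack.S43GC.G0E5L2
import Fermat.Agent.Pack.S43GC.G0E14L3
import Fermat.Agent.Pack.S43GC.G0E13L3
import Fermat.Agent.Pack.S43GC.G0E1L1
import Fermat.Agent.Pack.S43GC.G0E15L2
import Fermat.Agent.Pack.S44C.G0E5L3
import Fermat.Agent.Pack.S43GC.G0E15L1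
import Fermat.Agent.Pack.S43GC.G0E11L3
import Fermat.Agent.Pack.S43GC.G0E7L0
import Fermat.Agent.Pack.S43GC.G0E4L1
import Fermat.Agent.Pack.S43GC.G0E15L0
import Fermat.Agent.Pack.S43GC.G0E15L3
import Fermat.Agent.Pack.S43GC.G0E13L2
import Fermat.Agent.Pack.Fast891

-- ===== PACK-BEGIN S55/KG/Defs.lean
section





/-!
# S55, layer KG (global Kummer hypotheses): the concrete towers          (architect: helper183)

* `towerQ S`   : the tower of all levels, `G L = Gal(F/ℚ)`;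
* `towerU U S` : the tower of a subgroup `U ≤ G_ℚ`, `G L = HU U L` = image of `U` in `Gal(F/ℚ)`
  (`= Gal(F/F ∩ K)`, `K` the fixed field of `U`);
* `resU U X`   : restriction of a system of modules over `towerQ S` to `towerU U S`;
* the systems `sysE` (`S`-units), `sysJ` (`∏_{q ∈ S} J_q`), `sysC D` (class modules of a tower
  datum), `sysC1 D` (`C' = im(J → C)`) and the morphisms `E → J → C' → C`.

No `sorry`.  Objects at finite level are those of `E1/Lim/Obj.lean` (helper474).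
-/

set_option autoImplicit false

open CategoryTheory groupCohomology

namespace Fermat.Agent.S55.KG

open Fermat.Agent.S55.Tow Fermat.Agent.S55.E1.Lim

noncomputable section

variable {S : Finset Nat.Primes}

/-! ## Towers -/

lemma proj_proj {L L' L'' : Level S} (h : L ≤ L') (h' : L' ≤ L'') (g : L''.Gal) :
    Level.proj h (Level.proj h' g) = Level.proj (h.trans h') g := by
  induction g using QuotientGroup.induction_on with
  | H g => rfl

/-- The tower of all levels: `G L = Gal(F/ℚ)`. -/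
@[reducible] def towerQ (S : Finset Nat.Primes) : GTower where
  ι := Level S
  pre := inferInstance
  G L := L.Gal
  grp _ := inferInstance
  π h := Level.proj h
  π_trans h h' g := proj_proj h h' g

/-- The image of `U ≤ G_ℚ` in `Gal(F/ℚ)`. -/
def HU (U : Subgroup GQ) (L : Level S) : Subgroup L.Gal := U.map (QuotientGroup.mk' L.U)

lemma proj_mem_HU (U : Subgroup GQ) {L L' : Level S} (h : L ≤ L') {x : L'.Gal}
    (hx : x ∈ HU U L') : Level.proj h x ∈ HU U L := by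
  obtain ⟨u, hu, rfl⟩ := hx
  exact ⟨u, hu, rfl⟩

/-- The projection `HU U L' → HU U L` for `L ≤ L'`. -/
def projU (U : Subgroup GQ) {L L' : Level S} (h : L ≤ L') : ↥(HU U L') →* ↥(HU U L) :=
  ((Level.proj h).comp (HU U L').subtype).codRestrict (HU U L) (fun x => proj_mem_HU U h x.2)

@[simp] lemma projU_coe (U : Subgroup GQ) {L L' : Level S} (h : L ≤ L') (x : ↥(HU U L')) :
    ((projU U h x : ↥(HU U L)) : L.Gal) = Level.proj h (x : L'.Gal) := rfl

/-- The tower of a subgroup `U ≤ G_ℚ`: `G L = HU U L`. -/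
@[reducible] def towerU (U : Subgroup GQ) (S : Finset Nat.Primes) : GTower where
  ι := Level S
  pre := inferInstance
  G L := ↥(HU U L)
  grp _ := inferInstance
  π h := projU U h
  π_trans h h' g := Subtype.ext (proj_proj h h' (g : _))

lemma towerQ_directed (S : Finset Nat.Primes) : (towerQ S).Directed := fun L L' =>
  ⟨Fermat.Agent.S55.E1.H603.levelSup L L', Fermat.Agent.S55.E1.H603.le_levelSup_left L L',
    Fermat.Agent.S55.E1.H603.le_levelSup_right L L'⟩

lemma towerU_directed (U : Subgroup GQ) (S : Finset Nat.Primes) : (towerU U S).Directed :=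
  fun L L' =>
  ⟨Fermat.Agent.S55.E1.H603.levelSup L L', Fermat.Agent.S55.E1.H603.le_levelSup_left L L',
    Fermat.Agent.S55.E1.H603.le_levelSup_right L L'⟩

instance towerU_finite (U : Subgroup GQ) (L : Level S) : Finite ((towerU U S).G L) :=
  inferInstanceAs (Finite ↥(HU U L))

/-! ## Restriction of systems to the tower of `U` -/

/-- Restriction of a system of modules over `towerQ S` to `towerU U S`. -/
def resU (U : Subgroup GQ) (X : (towerQ S).Mod) : (towerU U S).Mod where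
  M L := Rep.res (HU U L).subtype (X.M L)
  t {L L'} h := semiOfAdd (projU U h) (A := Rep.res (HU U L).subtype (X.M L))
    (B := Rep.res (HU U L').subtype (X.M L'))
    (AddMonoidHomClass.toAddMonoidHom (X.t h).hom)
    (fun g a => Rep.hom_comm_apply (X.t h) (g : L'.Gal) a)
  t_trans h h' x := X.t_trans h h' x

/-- Restriction of a morphism of systems. -/
def resUHom (U : Subgroup GQ) {X Y : (towerQ S).Mod} (φ : GTower.Mod.Hom X Y) :
    GTower.Mod.Hom (resU U X) (resU U Y) where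
  f L := (Rep.resFunctor (HU U L).subtype).map (φ.f L)
  comm h x := φ.comm h x

/-! ## The systems `E`, `J`, `C'`, `C` -/

/-- The `S`-units `E(F)`. -/
def sysE (S : Finset Nat.Primes) : (towerQ S).Mod where
  M L := sUnits L
  t h := trS h
  t_trans _ _ _ := rfl

/-- The semi-local units `J(F) = ∏_{q ∈ S} J_q(F)`. -/
def sysJ (S : Finset Nat.Primes) : (towerQ S).Mod where
  M L := Jtot L
  t h := trJtot h
  t_trans h h' x := by
    apply piRep_ext
    intro q
    apply Level.J_ext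
    intro g
    show Level.inclLoc h' q.1 (Level.inclLoc h q.1
        ((piTo x q).1 (Level.proj h (Level.proj h' g)))) =
      Level.inclLoc (h.trans h') q.1 ((piTo x q).1 (Level.proj (h.trans h') g))
    rw [proj_proj]
    rfl

/-- The diagonal `E → J`. -/
def homDiag (S : Finset Nat.Primes) : GTower.Mod.Hom (sysE S) (sysJ S) where
  f L := diagTot L
  comm {L L'} h x := by
    apply piRep_ext
    intro q
    apply Level.J_ext
    intro g
    induction g using QuotientGroup.induction_on with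
    | H g => rfl

/-- Transitivity of the transition maps of a tower datum (GD7b). -/
def TrTrans (D : TowerDatum S) : Prop :=
  ∀ {L L' L'' : Level S} (h : L ≤ L') (h' : L' ≤ L'') (c : (D.C L).V),
    (D.tr h').hom ((D.tr h).hom c) = (D.tr (h.trans h')).hom c

/-- The class modules `C(F)` of a tower datum. -/
def sysC (D : TowerDatum S) (h7b : TrTrans D) : (towerQ S).Mod where
  M L := D.C L
  t h := D.tr h
  t_trans h h' c := h7b h h' c

/-- `C'(F) = im(J(F) → C(F))`. -/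
def sysC1 (D : TowerDatum S) (h7 : TrCompat D) (h7b : TrTrans D) : (towerQ S).Mod where
  M L := C1 D L
  t h := trC1 h7 h
  t_trans h h' c := inclC1_injective D _ (h7b h h' ((inclC1 D _).hom c))

/-- `J → C'`. -/
def homJC1 (D : TowerDatum S) (h7 : TrCompat D) (h7b : TrTrans D) :
    GTower.Mod.Hom (sysJ S) (sysC1 D h7 h7b) where
  f L := jC1 D L
  comm h x := trC1_jC1 h7 h x

/-- `C' → C`. -/
def homIncl (D : TowerDatum S) (h7 : TrCompat D) (h7b : TrTrans D) :
    GTower.Mod.Hom (sysC1 D h7 h7b) (sysC D h7b) where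
  f L := inclC1 D L
  comm h c := (inclC1_trC1 h7 h c).symm

/-- `J → C`. -/
def homJC (D : TowerDatum S) (h7 : TrCompat D) (h7b : TrTrans D) :
    GTower.Mod.Hom (sysJ S) (sysC D h7b) :=
  (homJC1 D h7 h7b).comp (homIncl D h7 h7b)

lemma homJC_f (D : TowerDatum S) (h7 : TrCompat D) (h7b : TrTrans D) (L : Level S) :
    (homJC D h7 h7b).f L = jTot D L := rfl

lemma IsGoodMu.trCompat {D : TowerDatum S} {p : ℕ} (hD : D.IsGoodMu p) : TrCompat D :=
  fun h q hq x => hD.gd7a h q hq x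

lemma IsGoodMu.trTrans {D : TowerDatum S} {p : ℕ} (hD : D.IsGoodMu p) : TrTrans D :=
  fun h h' c => hD.gd7b h h' c

lemma IsGoodMu.kerDiag {D : TowerDatum S} {p : ℕ} (hD : D.IsGoodMu p) : KerDiag D :=
  fun L x => hD.gd4 L x

/-- `U` is open for the `S`-topology: it contains `Gal(ℚ̄/F)` for some level `F`. -/
def IsOpenS (S : Finset Nat.Primes) (U : Subgroup GQ) : Prop := ∃ L : Level S, L.U ≤ U

end

end Fermat.Agent.S55.KG

end
-- ===== PACK-END S55/KG/Defs.lean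

-- ===== PACK-BEGIN S55/G/PL1H597/Main.lean
section
/-
S55 (Poitou–Tate), layer G, leaf G-PL1 — helper597.

`placePrimeSpec : PlacePrimeSpec` (interface `Fermat/Agent/S55/G/Spec.lean`), UNCONDITIONAL:
the places of `L` above `S` in the tensor model (maximal ideals of `L ⊗[ℚ] ℚ_S`) are in
`G`-equivariant bijection with the primes of `𝓞 L` above `S`, compatibly with integrality.

* `primeOf 𝔪`            : the prime below `𝔪` (`Prime.lean`);
* `primeOf_sPlaceSMul`   : Galois equivariance (`Prime.lean`);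
* `primeOf_injective`    : injectivity, by approximation (`Inj.lean`);
* `exists_primeOf_eq`    : surjectivity, by integrality over `ℤ_S` (`Surj.lean`).

By-products (`Base.lean`, `Surj.lean`): `finite_SPlace : Finite (SPlace S L)`,
`instIsLocalFldLocField : L.IsLocalFld (LocField S 𝔪)` (i.e. `LocFieldSpec`, leaf G-PL0),
`intA 𝔪` (the ring of integers of `L_𝔪`), `qAt 𝔪` (the rational prime below `𝔪`),
`ofQq`, `finiteDimensional_locField`, `toLoc_mem_intA_iff`.
-/



set_option autoImplicit false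

open scoped NumberField TensorProduct
open IsDedekindDomain

noncomputable section

namespace Fermat.Agent.S55.G.PL1H597

open Fermat.Agent.S55.G

/-- The bijection between places above `S` and primes above `S`. -/
def placePrimeEquiv (S : Finset Nat.Primes) (L : Type) [Field L] [NumberField L] :
    SPlace S L ≃ PrimeIn S L :=
  Equiv.ofBijective (fun 𝔪 => (⟨primeOf 𝔪, isAbove_primeOf 𝔪⟩ : PrimeIn S L))
    ⟨fun _ _ h => primeOf_injective (congrArg Subtype.val h),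
      fun w => by
        obtain ⟨𝔪, h𝔪⟩ := exists_primeOf_eq w.1 w.2
        exact ⟨𝔪, Subtype.ext h𝔪⟩⟩

@[simp] lemma placePrimeEquiv_apply (S : Finset Nat.Primes) (L : Type) [Field L] [NumberField L]
    (𝔪 : SPlace S L) : (placePrimeEquiv S L 𝔪).1 = primeOf 𝔪 := rfl

/-- **G-PL1.** -/
theorem placePrimeSpec : PlacePrimeSpec := by
  intro S L _ _
  refine ⟨placePrimeEquiv S L, ?_, ?_⟩
  · intro G _ _ g 𝔪
    exact primeOf_sPlaceSMul G g 𝔪
  · intro 𝔪 A hA x
    exact mem_primeOf_iff_of_isLocalRingOfIntegers 𝔪 A hA x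

/-- **G-PL0** (by-product). -/
theorem locFieldSpec : LocFieldSpec := by
  intro S L _ _
  exact ⟨finite_SPlace, fun 𝔪 => instIsLocalFldLocField 𝔪⟩

end Fermat.Agent.S55.G.PL1H597

end
end
-- ===== PACK-END S55/G/PL1H597/Main.lean

-- ===== PACK-BEGIN S55/G/SesSpecH604.lean
section
/-
S55, layer G (helper604): proofs of the interface statements `ClassShortExactSpec` (G-SES) and
`ClassGroupFiniteSpec` (G-CL) of helper421's `G/Spec.lean`.
-/



set_option autoImplicit false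
set_option linter.unusedSectionVars false

open scoped NumberField nonZeroDivisors
open IsDedekindDomain FractionalIdeal

noncomputable section

namespace Fermat.Agent.S55.G.SesSpecH604

open Fermat.Agent.S55.G Fermat.Agent.S55.G.SesH604 Fermat.Agent.S55.G.ClsH604
  Fermat.Agent.S55.G.SeqH604

/-- **G-SES.** -/
theorem classShortExactSpec : ClassShortExactSpec :=
  fun S G L _ _ _ _ hS => classShortComplex_shortExact S G L hS

section

variable (L : Type) [Field L] [NumberField L]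

/-- an integral representative of an ideal class. -/
def classRep (C : ClassGroup (𝓞 L)) : (Ideal (𝓞 L))⁰ := (ClassGroup.mk0_surjective C).choose

lemma mk0_classRep (C : ClassGroup (𝓞 L)) : ClassGroup.mk0 (classRep L C) = C :=
  (ClassGroup.mk0_surjective C).choose_spec

lemma classRep_ne_bot (C : ClassGroup (𝓞 L)) : (classRep L C : Ideal (𝓞 L)) ≠ ⊥ :=
  nonZeroDivisors.coe_ne_zero _

/-- the rational primes dividing the norm of one of the chosen representatives. -/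
def badPrimes : Finset Nat.Primes := by
  classical
  exact Finset.subtype Nat.Prime (Finset.univ.biUnion fun C : ClassGroup (𝓞 L) =>
    (Ideal.absNorm (classRep L C : Ideal (𝓞 L))).primeFactors)

lemma mem_badPrimes_of_dvd (C : ClassGroup (𝓞 L)) (q : ℕ) (hq : q.Prime)
    (hdvd : q ∣ Ideal.absNorm (classRep L C : Ideal (𝓞 L))) :
    (⟨q, hq⟩ : Nat.Primes) ∈ badPrimes L := by
  classical
  have hN : Ideal.absNorm (classRep L C : Ideal (𝓞 L)) ≠ 0 := by
    rw [Ne, Ideal.absNorm_eq_zero_iff]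
    exact classRep_ne_bot L C
  have h : q ∈ Finset.univ.biUnion fun C : ClassGroup (𝓞 L) =>
      (Ideal.absNorm (classRep L C : Ideal (𝓞 L))).primeFactors :=
    Finset.mem_biUnion.2 ⟨C, Finset.mem_univ _, Nat.mem_primeFactors.2 ⟨hq, hdvd, hN⟩⟩
  exact Finset.mem_subtype.2 h

variable {L} in
/-- a prime ideal containing a nonzero natural number contains one of its prime factors. -/
lemma exists_prime_dvd_of_natCast_mem (w : HeightOneSpectrum (𝓞 L)) (n : ℕ) (hn : n ≠ 0)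
    (hmem : (n : 𝓞 L) ∈ w.asIdeal) : ∃ q : ℕ, q.Prime ∧ q ∣ n ∧ (q : 𝓞 L) ∈ w.asIdeal := by
  induction n using Nat.recOnMul with
  | zero => exact absurd rfl hn
  | one =>
    exfalso
    apply w.isPrime.ne_top
    rw [Ideal.eq_top_iff_one]
    simpa using hmem
  | prime p hp => exact ⟨p, hp, dvd_rfl, hmem⟩
  | mul a b iha ihb =>
    have ha : a ≠ 0 := fun h => hn (by rw [h, zero_mul])
    have hb : b ≠ 0 := fun h => hn (by rw [h, mul_zero])
    rw [Nat.cast_mul] at hmem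
    rcases w.isPrime.mem_or_mem hmem with h | h
    · obtain ⟨q, hq, hqa, hqw⟩ := iha ha h
      exact ⟨q, hq, hqa.mul_right b, hqw⟩
    · obtain ⟨q, hq, hqb, hqw⟩ := ihb hb h
      exact ⟨q, hq, hqb.mul_left a, hqw⟩

/-- a prime of `L` dividing a chosen representative lies above `badPrimes`. -/
lemma isAbove_of_classRep_le (C : ClassGroup (𝓞 L)) (w : HeightOneSpectrum (𝓞 L))
    (hle : (classRep L C : Ideal (𝓞 L)) ≤ w.asIdeal) : IsAbove (badPrimes L) L w := by
  have hN : Ideal.absNorm (classRep L C : Ideal (𝓞 L)) ≠ 0 := by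
    rw [Ne, Ideal.absNorm_eq_zero_iff]
    exact classRep_ne_bot L C
  obtain ⟨q, hq, hdvd, hqw⟩ := exists_prime_dvd_of_natCast_mem w _ hN
    (hle (Ideal.absNorm_mem _))
  exact ⟨⟨q, hq⟩, mem_badPrimes_of_dvd L C q hq hdvd, hqw⟩

variable {L} in
lemma isAbove_mono {S T : Finset Nat.Primes} (h : S ⊆ T) {w : HeightOneSpectrum (𝓞 L)}
    (hw : IsAbove S L w) : IsAbove T L w := by
  obtain ⟨q, hq, hqw⟩ := hw
  exact ⟨q, h hq, hqw⟩

variable {L} in
/-- the multiplicity of `w` in an integral ideal not contained in `w` is zero. -/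
lemma count_coeIdeal_eq_zero (w : HeightOneSpectrum (𝓞 L)) {I : Ideal (𝓞 L)} (hI : I ≠ ⊥)
    (hle : ¬ I ≤ w.asIdeal) : count L w (I : FractionalIdeal (𝓞 L)⁰ L) = 0 := by
  rw [count_coe L w hI]
  by_contra h
  have h' : (Associates.mk w.asIdeal).count (Associates.mk I).factors ≠ 0 := by
    intro h0
    exact h (by rw [h0]; rfl)
  rw [Associates.count_ne_zero_iff_dvd hI w.irreducible] at h'
  exact hle (Ideal.dvd_iff_le.1 h')

/-- For `T ⊇ badPrimes`, the divisor map `Lˣ → Div^T(L)` is surjective (`Cl_T(L) = 1`). -/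
theorem ordHom_surjective_of_badPrimes_subset (T : Finset Nat.Primes) (hT : badPrimes L ⊆ T) :
    Function.Surjective (ordHom T L) := by
  intro d
  set 𝔞 : (FractionalIdeal (𝓞 L)⁰ L)ˣ := (divIdeal T L d).toMul with h𝔞
  set C : ClassGroup (𝓞 L) := ClassGroup.mk L 𝔞 with hC
  set I : (Ideal (𝓞 L))⁰ := classRep L C⁻¹ with hI
  have hI0 : (I : Ideal (𝓞 L)) ≠ ⊥ := classRep_ne_bot L _
  have hmk : ClassGroup.mk L (𝔞 * FractionalIdeal.mk0 L I) = 1 := by
    rw [map_mul, ClassGroup.mk_mk0, hI, mk0_classRep, ← hC, mul_inv_cancel]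
  rw [ClassGroup.mk_eq_one_iff] at hmk
  obtain ⟨x, hx⟩ := hmk.principal
  have hx' : ((𝔞 * FractionalIdeal.mk0 L I : (FractionalIdeal (𝓞 L)⁰ L)ˣ) :
      FractionalIdeal (𝓞 L)⁰ L) = spanSingleton (𝓞 L)⁰ x := by
    apply Subtype.coe_injective
    simp only [val_eq_coe, hx, coe_spanSingleton]
  have hx0 : x ≠ 0 := by
    rintro rfl
    have : ((𝔞 * FractionalIdeal.mk0 L I : (FractionalIdeal (𝓞 L)⁰ L)ˣ) :
      FractionalIdeal (𝓞 L)⁰ L) = 0 := by rw [hx']; simp
    exact Units.ne_zero _ this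
  refine ⟨Additive.ofMul (Units.mk0 x hx0), ?_⟩
  ext w
  have hw : ¬ (I : Ideal (𝓞 L)) ≤ w.1.asIdeal := fun hle =>
    w.2 (isAbove_mono hT (isAbove_of_classRep_le L _ w.1 hle))
  rw [ordHom_apply, ordAt_eq_count, toMul_ofMul, Units.val_mk0, ← hx', Units.val_mul,
    count_mul L w.1 (Units.ne_zero _) (Units.ne_zero _), FractionalIdeal.coe_mk0,
    count_coeIdeal_eq_zero w.1 hI0 hw, add_zero, h𝔞, ← cnt_apply, cnt_divIdeal]

/-- If the divisor map is surjective then `J_T(L)` maps onto `C_T(L)`. -/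
theorem jImage_eq_top_of_surjective (T : Finset Nat.Primes)
    (h : Function.Surjective (ordHom T L)) : jImage T L = ⊤ := by
  rw [eq_top_iff]
  intro c _
  induction c using Submodule.Quotient.induction_on with
  | H jd =>
    obtain ⟨x, hx⟩ := h jd.2
    refine ⟨jd.1 - unitsDiag T L x, ?_⟩
    change Submodule.Quotient.mk ((jd.1 - unitsDiag T L x, 0) : JD T L) = _
    rw [eq_comm, ← sub_eq_zero, ← Submodule.Quotient.mk_sub, Submodule.Quotient.mk_eq_zero]
    refine ⟨x, ?_⟩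
    refine Prod.ext ?_ ?_
    · simp
    · simp [hx]

end

/-- **G-CL.** -/
theorem classGroupFiniteSpec : ClassGroupFiniteSpec := by
  intro S L _ _
  classical
  refine ⟨?_, S ∪ badPrimes L, Finset.subset_union_left, fun T' hT' => ?_⟩
  · have : Finite (CS S L ⧸ (jImage S L).toAddSubgroup) := finite_cl S L
    exact AddSubgroup.index_ne_zero_of_finite
  · exact jImage_eq_top_of_surjective L T'
      (ordHom_surjective_of_badPrimes_subset L T' (Finset.union_subset_right hT'))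

end Fermat.Agent.S55.G.SesSpecH604

end
end
-- ===== PACK-END S55/G/SesSpecH604.lean

-- ===== PACK-BEGIN S14/H74/Main.lean
section


/-!
# S14/N1 (helper74): partial zeta functions of ideal classes differ by `O(1)` near `s = 1`

Main results (for an arbitrary number field `K`):
* `classZeta_sub_bounded` : `|ζ(s,C) - ζ(s,C')| ≤ B` for `1 < s ≤ 2`;
* `classL_bounded` : the `L`-series of a nontrivial character of the class group is bounded
  on `(1, 2]`.
-/

namespace Fermat.Agent.S14.H74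

open NumberField NumberField.Units

open scoped nonZeroDivisors

variable (K : Type*) [Field K] [NumberField K]

theorem tsum_top_eq (s : ℝ) :
    ∑' y : (⊤ : Ideal (𝓞 K)), FS K s (y : 𝓞 K) = ∑' x : 𝓞 K, FS K s x :=
  (Equiv.subtypeUnivEquiv (fun x : 𝓞 K ↦ (Submodule.mem_top : x ∈ (⊤ : Ideal (𝓞 K))))).tsum_eq
    (FS K s)

/-- `w ζ(s, 1)` is the smoothed sum over `𝓞 K`. -/
theorem torsionOrder_mul_classZeta_one {s : ℝ} (hs : 1 < s) :
    (torsionOrder K : ℝ) * classZeta K 1 s = ∑' x : 𝓞 K, FS K s x := by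
  have hJ : ClassGroup.mk0 (1 : (Ideal (𝓞 K))⁰) = (1 : ClassGroup (𝓞 K))⁻¹ := by
    rw [map_one, inv_one]
  have h1 := classZeta_eq hJ s
  have h2 := tsum_FS_eq (K := K) ((1 : (Ideal (𝓞 K))⁰) : Ideal (𝓞 K)) hs
  have h3 : (((1 : (Ideal (𝓞 K))⁰) : Ideal (𝓞 K))) = ⊤ := by
    rw [Submonoid.coe_one, Ideal.one_eq_top]
  have h4 : (Ideal.absNorm (((1 : (Ideal (𝓞 K))⁰) : Ideal (𝓞 K))) : ℝ) = 1 := by
    rw [h3, Ideal.absNorm_top, Nat.cast_one]
  rw [h4, Real.one_rpow, one_mul] at h1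
  have key : ∀ J' : Ideal (𝓞 K), J' = ⊤ →
      ∑' y : J', FS K s (y : 𝓞 K) = ∑' x : 𝓞 K, FS K s x := by
    rintro _ rfl
    exact tsum_top_eq K s
  rw [h1, ← h2, key _ h3]

/-- `w ζ(s, C) = N(J)^s ∑_{y ∈ J} FS s y` for `J` in the class `C⁻¹`. -/
theorem torsionOrder_mul_classZeta {C : ClassGroup (𝓞 K)} {J : (Ideal (𝓞 K))⁰}
    (hJ : ClassGroup.mk0 J = C⁻¹) {s : ℝ} (hs : 1 < s) :
    (torsionOrder K : ℝ) * classZeta K C s =
      (Ideal.absNorm (J : Ideal (𝓞 K)) : ℝ) ^ s * ∑' y : (J : Ideal (𝓞 K)), FS K s (y : 𝓞 K) := by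
  rw [classZeta_eq hJ s, tsum_FS_eq (K := K) (J : Ideal (𝓞 K)) hs]
  ring

/-- Comparison of the class `C` with the trivial class. -/
theorem exists_classZeta_sub_one_bound (C : ClassGroup (𝓞 K)) :
    ∃ B : ℝ, ∀ s : ℝ, 1 < s → s ≤ 2 → |classZeta K C s - classZeta K 1 s| ≤ B := by
  obtain ⟨J, hJ⟩ := ClassGroup.mk0_surjective C⁻¹
  obtain ⟨BJ, hBJ⟩ := exists_compare_bound (K := K) (J : Ideal (𝓞 K))
    (nonZeroDivisors.coe_ne_zero J)
  obtain ⟨Z, hZ0, hZ⟩ := classZeta_le K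
  have hw : (0 : ℝ) < torsionOrder K := Nat.cast_pos.mpr (torsionOrder_pos K)
  have hN1 : (1 : ℝ) ≤ Ideal.absNorm (J : Ideal (𝓞 K)) := one_le_absNorm K J
  set N : ℝ := ((Ideal.absNorm (J : Ideal (𝓞 K)) : ℕ) : ℝ) with hN
  set w : ℝ := ((torsionOrder K : ℕ) : ℝ) with hwdef
  refine ⟨((N - 1) * (w * Z + BJ) + BJ) / w, fun s hs1 hs2 ↦ ?_⟩
  have hs0 : 0 < s - 1 := by linarith
  have h1 := torsionOrder_mul_classZeta_one K hs1
  have h2 := torsionOrder_mul_classZeta K hJ hs1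
  have hcmp := hBJ s hs1 hs2
  have hBJ0 : 0 ≤ BJ := (abs_nonneg _).trans hcmp
  set S0 : ℝ := ∑' x : 𝓞 K, FS K s x with hS0
  set SJ : ℝ := ∑' y : (J : Ideal (𝓞 K)), FS K s (y : 𝓞 K) with hSJ
  have hSJ0 : 0 ≤ SJ := tsum_nonneg fun y ↦ FS_nonneg s _
  have hζ1 := hZ s hs1 hs2 1
  -- `N ^ s = N ^ (s - 1) * N`
  have hpow : N ^ s = N ^ (s - 1) * N := by
    rw [← Real.rpow_add_one (by linarith : N ≠ 0)]
    congr 1
    ring
  -- Bernoulli
  have hbern : N ^ (s - 1) ≤ 1 + (s - 1) * (N - 1) := by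
    have := _root_.rpow_one_add_le_one_add_mul_self (s := N - 1) (by linarith) hs0.le
      (by linarith : s - 1 ≤ 1)
    rwa [add_sub_cancel] at this
  have hpow1 : 1 ≤ N ^ (s - 1) := Real.one_le_rpow hN1 hs0.le
  -- `N * SJ ≤ w Z / (s - 1) + BJ`
  have hNSJ : N * SJ ≤ w * (Z / (s - 1)) + BJ := by
    have a1 := (abs_le.mp hcmp).1
    have a2 : w * classZeta K 1 s ≤ w * (Z / (s - 1)) := mul_le_mul_of_nonneg_left hζ1 hw.le
    linarith
  have hNSJ0 : 0 ≤ N * SJ := mul_nonneg (by linarith) hSJ0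
  have key : w * (classZeta K C s - classZeta K 1 s) =
      (N ^ (s - 1) - 1) * (N * SJ) + (N * SJ - S0) := by
    rw [mul_sub, h1, h2, hpow]
    ring
  have hb1 : (N ^ (s - 1) - 1) * (N * SJ) ≤ (N - 1) * (w * Z + BJ) := by
    calc (N ^ (s - 1) - 1) * (N * SJ) ≤ ((s - 1) * (N - 1)) * (w * (Z / (s - 1)) + BJ) :=
          mul_le_mul (by linarith) hNSJ hNSJ0 (mul_nonneg hs0.le (by linarith))
      _ = (N - 1) * (w * Z + (s - 1) * BJ) := by
          field_simp
      _ ≤ (N - 1) * (w * Z + BJ) := by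
          have : (s - 1) * BJ ≤ BJ := by nlinarith
          exact mul_le_mul_of_nonneg_left (by linarith) (by linarith)
  have hb2 : 0 ≤ (N ^ (s - 1) - 1) * (N * SJ) := mul_nonneg (by linarith) hNSJ0
  have hb3 : |N * SJ - S0| ≤ BJ := by rwa [abs_sub_comm]
  have hfin : |w * (classZeta K C s - classZeta K 1 s)| ≤ (N - 1) * (w * Z + BJ) + BJ := by
    rw [key]
    refine (abs_add_le _ _).trans ?_
    rw [abs_of_nonneg hb2]
    linarith
  rw [abs_mul, abs_of_pos hw] at hfin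
  rw [le_div_iff₀ hw, mul_comm]
  exact hfin

/-- **N1**: partial zeta functions of two ideal classes differ by a bounded function
near `s = 1`. -/
theorem classZeta_sub_bounded :
    ∃ B : ℝ, ∀ s : ℝ, 1 < s → s ≤ 2 → ∀ C C' : ClassGroup (𝓞 K),
      |classZeta K C s - classZeta K C' s| ≤ B := by
  choose B hB using exists_classZeta_sub_one_bound K
  refine ⟨2 * ∑ C : ClassGroup (𝓞 K), |B C|, fun s hs1 hs2 C C' ↦ ?_⟩
  have h1 : ∀ D : ClassGroup (𝓞 K), |classZeta K D s - classZeta K 1 s| ≤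
      ∑ C : ClassGroup (𝓞 K), |B C| := fun D ↦
    ((hB D s hs1 hs2).trans (le_abs_self _)).trans
      (Finset.single_le_sum (f := fun C ↦ |B C|) (fun _ _ ↦ abs_nonneg _) (Finset.mem_univ D))
  have h2 : classZeta K C s - classZeta K C' s =
      (classZeta K C s - classZeta K 1 s) - (classZeta K C' s - classZeta K 1 s) := by ring
  rw [h2]
  refine (abs_sub _ _).trans ?_
  linarith [h1 C, h1 C']

theorem norm_classChar (χ : ClassGroup (𝓞 K) →* ℂˣ) (C : ClassGroup (𝓞 K)) :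
    ‖((χ C : ℂˣ) : ℂ)‖ = 1 := by
  have h1 : ((χ C : ℂˣ) : ℂ) ^ (Fintype.card (ClassGroup (𝓞 K))) = 1 := by
    rw [← Units.val_pow_eq_pow_val, ← map_pow, pow_card_eq_one, map_one, Units.val_one]
  exact Complex.norm_eq_one_of_pow_eq_one h1 Fintype.card_ne_zero

theorem sum_classChar_eq_zero (χ : ClassGroup (𝓞 K) →* ℂˣ) (hχ : χ ≠ 1) :
    ∑ C : ClassGroup (𝓞 K), ((χ C : ℂˣ) : ℂ) = 0 := by
  have h := sum_hom_units_eq_zero ((Units.coeHom ℂ).comp χ) (by
    intro h
    apply hχ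
    ext C
    have := DFunLike.congr_fun h C
    simpa using this)
  simpa using h

/-- The `L`-series of a class group character, as a sum over the classes. -/
theorem classL_eq_sum (χ : ClassGroup (𝓞 K) →* ℂˣ) {s : ℝ} (hs : 1 < s) :
    ∑' I : (Ideal (𝓞 K))⁰, ((χ (ClassGroup.mk0 I) : ℂˣ) : ℂ) *
      (((Ideal.absNorm (I : Ideal (𝓞 K)) : ℝ) ^ (-s) : ℝ) : ℂ) =
    ∑ C : ClassGroup (𝓞 K), ((χ C : ℂˣ) : ℂ) * ((classZeta K C s : ℝ) : ℂ) := by
  have hsum : Summable fun I : (Ideal (𝓞 K))⁰ ↦ ((χ (ClassGroup.mk0 I) : ℂˣ) : ℂ) *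
      (((Ideal.absNorm (I : Ideal (𝓞 K)) : ℝ) ^ (-s) : ℝ) : ℂ) := by
    refine Summable.of_norm_bounded (idealZeta_summable K hs) fun I ↦ ?_
    rw [norm_mul, norm_classChar, one_mul, Complex.norm_real, Real.norm_eq_abs,
      abs_of_nonneg (absNorm_rpow_nonneg K s I)]
  have h1 := hsum.hasSum.tsum_fiberwise (fun I : (Ideal (𝓞 K))⁰ ↦ ClassGroup.mk0 I)
  have h2 : ∀ C : ClassGroup (𝓞 K),
      ∑' I : ((fun I : (Ideal (𝓞 K))⁰ ↦ ClassGroup.mk0 I) ⁻¹' {C} : Set (Ideal (𝓞 K))⁰),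
        ((χ (ClassGroup.mk0 (I : (Ideal (𝓞 K))⁰)) : ℂˣ) : ℂ) *
          (((Ideal.absNorm ((I : (Ideal (𝓞 K))⁰) : Ideal (𝓞 K)) : ℝ) ^ (-s) : ℝ) : ℂ) =
      ((χ C : ℂˣ) : ℂ) * ((classZeta K C s : ℝ) : ℂ) := by
    intro C
    have e : ((classZeta K C s : ℝ) : ℂ) =
        ∑' I : ((fun I : (Ideal (𝓞 K))⁰ ↦ ClassGroup.mk0 I) ⁻¹' {C} : Set (Ideal (𝓞 K))⁰),
          (((Ideal.absNorm ((I : (Ideal (𝓞 K))⁰) : Ideal (𝓞 K)) : ℝ) ^ (-s) : ℝ) : ℂ) := by
      rw [← Complex.ofReal_tsum]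
      rfl
    rw [e, ← tsum_mul_left]
    refine tsum_congr fun I ↦ ?_
    have hI : ClassGroup.mk0 (I : (Ideal (𝓞 K))⁰) = C := I.2
    rw [hI]
  simp_rw [h2] at h1
  exact h1.unique (hasSum_fintype _)

/-- The `L`-series of a nontrivial character of the class group is bounded on `(1, 2]`. -/
theorem classL_bounded (χ : ClassGroup (𝓞 K) →* ℂˣ) (hχ : χ ≠ 1) :
    ∃ B : ℝ, ∀ s : ℝ, 1 < s → s ≤ 2 →
      ‖∑' I : (Ideal (𝓞 K))⁰, ((χ (ClassGroup.mk0 I) : ℂˣ) : ℂ) *
        (((Ideal.absNorm (I : Ideal (𝓞 K)) : ℝ) ^ (-s) : ℝ) : ℂ)‖ ≤ B := by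
  obtain ⟨B, hB⟩ := classZeta_sub_bounded K
  refine ⟨Fintype.card (ClassGroup (𝓞 K)) * B, fun s hs1 hs2 ↦ ?_⟩
  rw [classL_eq_sum K χ hs1]
  have h0 : ∑ C : ClassGroup (𝓞 K), ((χ C : ℂˣ) : ℂ) * ((classZeta K 1 s : ℝ) : ℂ) = 0 := by
    rw [← Finset.sum_mul, sum_classChar_eq_zero K χ hχ, zero_mul]
  have h1 : ∑ C : ClassGroup (𝓞 K), ((χ C : ℂˣ) : ℂ) * ((classZeta K C s : ℝ) : ℂ) =
      ∑ C : ClassGroup (𝓞 K), ((χ C : ℂˣ) : ℂ) *
        (((classZeta K C s - classZeta K 1 s : ℝ)) : ℂ) := by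
    simp_rw [Complex.ofReal_sub, mul_sub]
    rw [Finset.sum_sub_distrib, h0, sub_zero]
  rw [h1]
  refine (norm_sum_le _ _).trans ?_
  calc ∑ C : ClassGroup (𝓞 K), ‖((χ C : ℂˣ) : ℂ) *
        (((classZeta K C s - classZeta K 1 s : ℝ)) : ℂ)‖
      ≤ ∑ _C : ClassGroup (𝓞 K), B := by
        refine Finset.sum_le_sum fun C _ ↦ ?_
        rw [norm_mul, norm_classChar, one_mul, Complex.norm_real, Real.norm_eq_abs]
        exact hB s hs1 hs2 C 1
    _ = Fintype.card (ClassGroup (𝓞 K)) * B := by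
        rw [Finset.sum_const, Finset.card_univ, nsmul_eq_mul]

end Fermat.Agent.S14.H74

end
-- ===== PACK-END S14/H74/Main.lean

-- ===== PACK-BEGIN S56/H419/EulerAdd.lean
section




/-!
# S56 / W-BASE / leaf ADD (helper419): additivity of the Euler characteristic

Vocabulary of S55 route C′ (`Fermat/Agent/S55/PT`): level-constant cohomology `LevelSys.H0/H1/H2`,
short exact sequences `SES A B C`, the framework leaves `Les0Spec`, `Les1Spec`, `LesMidSpec`.

* `eulerChar L N = h⁰ − h¹ + h²` (as an integer, `finrank`).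
* `eulerChar_add` : for a short exact sequence `0 → A → B → C → 0` of uniformly smooth modules with
  finite-dimensional cohomology and `H²(B) → H²(C)` onto, `χ(B) = χ(A) + χ(C)`.
* `EulerAddSpec p S`, `eulerAdd_of` : the global form for `G_ℚ`, `globalLevels S`, from
  `FinGlobSpec` (A1), `H2FinGlobSpec`, `Surj2GlobSpec` (A3) and the framework leaves.
-/

set_option autoImplicit false

noncomputable section

namespace Fermat.Agent.S56.H419

open Fermat.Agent.S55.PT groupCohomology Module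

section General

variable {k : Type} [Field k] {G : Type} [Group G]

/-- The Euler characteristic `h⁰ − h¹ + h²` of level-constant cohomology. -/
def eulerChar (L : LevelSys G) (N : Rep.{0, 0, 0} k G) : ℤ :=
  (finrank k ↥(LevelSys.H0 N) : ℤ) - finrank k (L.H1 N) + finrank k (L.H2 N)

/-- A sub-representation of a uniformly smooth representation is uniformly smooth. -/
theorem SES.isUSmooth_left {A B C : Rep.{0, 0, 0} k G} (E : SES A B C) (L : LevelSys G)
    (hB : L.IsUSmooth B) : L.IsUSmooth A := by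
  obtain ⟨U, hU, h⟩ := hB
  refine ⟨U, hU, fun s hs a => E.inj ?_⟩
  rw [E.hi s a, h s hs]

/-- A quotient of a uniformly smooth representation is uniformly smooth. -/
theorem SES.isUSmooth_right {A B C : Rep.{0, 0, 0} k G} (E : SES A B C) (L : LevelSys G)
    (hB : L.IsUSmooth B) : L.IsUSmooth C := by
  obtain ⟨U, hU, h⟩ := hB
  refine ⟨U, hU, fun s hs c => ?_⟩
  obtain ⟨b, rfl⟩ := E.surj c
  rw [← E.hπ s b, h s hs]

/-- **ADD, general form.**  Additivity of the Euler characteristic along a short exact sequence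
of uniformly smooth representations, assuming finite-dimensionality of all cohomology groups
and surjectivity of `H²(B) → H²(C)`. -/
theorem eulerChar_add (hLes0 : Les0Spec) (hLes1 : Les1Spec) (hMid : LesMidSpec)
    (L : LevelSys G) (hN : L.NormalCofinal) {A B C : Rep.{0, 0, 0} k G} (E : SES A B C)
    (hB : L.IsUSmooth B) [FiniteDimensional k B]
    [FiniteDimensional k (L.H1 A)] [FiniteDimensional k (L.H1 B)] [FiniteDimensional k (L.H1 C)]
    [FiniteDimensional k (L.H2 A)] [FiniteDimensional k (L.H2 B)] [FiniteDimensional k (L.H2 C)]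
    (hsurj : Function.Surjective (pushH2 E.π E.hπ L)) :
    eulerChar L B = eulerChar L A + eulerChar L C := by
  have hA : L.IsUSmooth A := SES.isUSmooth_left E L hB
  have hC : L.IsUSmooth C := SES.isUSmooth_right E L hB
  have : FiniteDimensional k A := FiniteDimensional.of_injective E.i E.inj
  have : FiniteDimensional k C := FiniteDimensional.of_surjective E.π E.surj
  obtain ⟨h0a, h0b⟩ := hLes0 k G L A B C E hB
  obtain ⟨h1a, h1b⟩ := hLes1 k G L A B C E hN hB hC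
  obtain ⟨hm0, hm1, hm2, hm3⟩ := hMid k G L A B C E hN hA hB
  have key := nineTerm_alternating (k := k)
    (pushH0 E.i E.hi) (pushH0 E.π E.hπ) (E.del0 L hB) (pushH1 E.i E.hi L)
    (pushH1 E.π E.hπ L) (E.del1 L hN hB hC) (pushH2 E.i E.hi L) (pushH2 E.π E.hπ L)
    hm0 hm1 h0a.symm h0b hm2 h1a.symm h1b hm3 hsurj
  unfold eulerChar
  linarith [key]

end General

section Global

variable (p : ℕ) [Fact p.Prime] (S : Finset Nat.Primes)

/-- `H²_S(N)` is finite-dimensional for finite-dimensional uniformly smooth `N`. -/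
def H2FinGlobSpec : Prop :=
  ∀ N : Rep.{0, 0, 0} (ZMod p) _root_.Fermat.Agent.S55.PT.GQ, FiniteDimensional (ZMod p) N → (globalLevels S).IsUSmooth N →
    FiniteDimensional (ZMod p) ((globalLevels S).H2 N)

/-- **ADD** (W-BASE, Tate's global Euler characteristic, step 1): the Euler characteristic
`h⁰ − h¹ + h²` of `G_{ℚ,S}` is additive on short exact sequences of finite-dimensional
uniformly smooth `F_p`-representations. -/
def EulerAddSpec : Prop :=
  ∀ (A B C : Rep.{0, 0, 0} (ZMod p) _root_.Fermat.Agent.S55.PT.GQ) (_E : SES A B C),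
    FiniteDimensional (ZMod p) B → (globalLevels S).IsUSmooth B →
    eulerChar (globalLevels S) B = eulerChar (globalLevels S) A + eulerChar (globalLevels S) C

/-- **ADD from the inputs A1, A3 of route C′** (plus finiteness of `H²` and the framework
leaves D-F1, D-F2, D-F3, D-F7a). -/
theorem eulerAdd_of (hLes0 : Les0Spec) (hLes1 : Les1Spec) (hMid : LesMidSpec)
    (hGN : GlobalNormalCofinalSpec) (hA1 : FinGlobSpec p S) (hH2 : H2FinGlobSpec p S)
    (hA3 : Surj2GlobSpec p S) : EulerAddSpec p S := by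
  intro A B C E hfB hB
  have hA : (globalLevels S).IsUSmooth A := SES.isUSmooth_left E _ hB
  have hC : (globalLevels S).IsUSmooth C := SES.isUSmooth_right E _ hB
  have : FiniteDimensional (ZMod p) B := hfB
  have hfA : FiniteDimensional (ZMod p) A := FiniteDimensional.of_injective E.i E.inj
  have hfC : FiniteDimensional (ZMod p) C := FiniteDimensional.of_surjective E.π E.surj
  have := hA1 A hfA hA
  have := hA1 B hfB hB
  have := hA1 C hfC hC
  have := hH2 A hfA hA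
  have := hH2 B hfB hB
  have := hH2 C hfC hC
  exact eulerChar_add hLes0 hLes1 hMid (globalLevels S) (hGN S) E hB
    (hA3 B C E.π E.hπ hfB hB hC E.surj)

end Global

end Fermat.Agent.S56.H419

end

end
-- ===== PACK-END S56/H419/EulerAdd.lean

-- ===== PACK-BEGIN S56/H334/RLTheta.lean
section


/-!
# S56 / W-FLAT-SS, piece FL-RAM (helper334): the frozen statement `RLTheta`

Proof of `FL.RLThetaStatement` (verbatim from `FL/RamLemSpec.lean`): the maps
`θ_n : Γ_n / Γ_{n+1} ↪ κ` (`n ≥ 1`) with their equivariance.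
-/

set_option autoImplicit false
set_option linter.unusedSectionVars false
set_option linter.style.haveILetI false

open IsLocalRing

namespace Fermat.Agent.S56.H334

open Fermat.Agent.S56

section ThetaFun

variable {B : Type*} [CommRing B] [IsDomain B] [IsDiscreteValuationRing B]
variable {Γ : Type*} [Group Γ] [MulSemiringAction Γ B]
variable {π : B} (hπ : Irreducible π)

/-- `θ_{m+1}` as a function on all of `Γ` (zero outside `Γ_{m+1}`). -/
noncomputable def thetaFun (m : ℕ) (σ : Γ) : ResidueField B :=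
  open Classical in
  if σ ∈ ramGroup Γ B (m + 1) then residue B (aOf hπ m σ) else 0

theorem thetaFun_of_mem {m : ℕ} {σ : Γ} (hσ : σ ∈ ramGroup Γ B (m + 1)) :
    thetaFun hπ m σ = residue B (aOf hπ m σ) := by
  rw [thetaFun, if_pos hσ]

theorem smul_sub_eq_aOf_mul {m : ℕ} {σ : Γ} (hσ : σ ∈ ramGroup Γ B (m + 1)) :
    σ • π - π = aOf hπ m σ * π ^ (m + 1 + 1) := by
  rw [smul_eq_mul_cOf hπ σ, cOf_eq_of_mem hπ hσ]
  ring

theorem thetaFun_eq_residue {m : ℕ} {σ : Γ} (hσ : σ ∈ ramGroup Γ B (m + 1)) {a : B}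
    (ha : σ • π - π = a * π ^ (m + 1 + 1)) : thetaFun hπ m σ = residue B a := by
  rw [thetaFun_of_mem hπ hσ]
  rw [smul_sub_eq_aOf_mul hπ hσ] at ha
  rw [mul_right_cancel₀ (pow_ne_zero _ hπ.ne_zero) ha]

theorem thetaFun_mul {m : ℕ} {σ τ : Γ} (hσ : σ ∈ ramGroup Γ B (m + 1))
    (hτ : τ ∈ ramGroup Γ B (m + 1)) :
    thetaFun hπ m (σ * τ) = thetaFun hπ m σ + thetaFun hπ m τ := by
  rw [thetaFun_of_mem hπ hσ, thetaFun_of_mem hπ hτ,
    thetaFun_of_mem hπ (Subgroup.mul_mem _ hσ hτ)]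
  exact residue_aOf_mul hπ ⟨σ, hσ⟩ ⟨τ, hτ⟩

theorem mem_of_thetaFun_eq_zero (hH : InertiaResidue Γ B) {m : ℕ} {σ : Γ}
    (hσ : σ ∈ ramGroup Γ B (m + 1)) (h : thetaFun hπ m σ = 0) :
    σ ∈ ramGroup Γ B (m + 1 + 1) := by
  rw [thetaFun_of_mem hπ hσ] at h
  refine (theta_eq_one_iff hπ hH m ⟨σ, hσ⟩).1 ?_
  apply Multiplicative.toAdd.injective
  rw [theta_apply]
  exact h

theorem thetaFun_conj {m : ℕ} {σ : Γ} (hσ : σ ∈ ramGroup Γ B (m + 1)) (g : Γ) {u a : B}
    (hu : g • π = u * π) (ha : residue B a = thetaFun hπ m σ) :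
    thetaFun hπ m (g * σ * g⁻¹) = residue B u ^ (m + 1) * residue B (g • a) := by
  have hconj : g * σ * g⁻¹ ∈ ramGroup Γ B (m + 1) := (ramGroup_normal (m + 1)).conj_mem _ hσ g
  rw [thetaFun_of_mem hπ hconj]
  rw [thetaFun_of_mem hπ hσ] at ha
  have hu' : u = cOf hπ g := by
    have h1 := smul_eq_mul_cOf hπ g
    rw [hu, mul_comm] at h1
    exact mul_left_cancel₀ hπ.ne_zero h1
  rw [hu', IsLocalRing.ResidueField.residue_smul, ha]
  exact theta_conj hπ m g ⟨σ, hσ⟩

end ThetaFun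

/-- **RL-θ** (frozen `FL.RLThetaStatement`). -/
theorem rlTheta : FL.RLThetaStatement := by
  intro d ϖ hϖ n hn
  obtain ⟨m, rfl⟩ : ∃ m, n = m + 1 := ⟨n - 1, by omega⟩
  have hH := rc_inertiaResidue d
  refine ⟨thetaFun hϖ m, ?_, ?_, ?_, ?_⟩
  · intro σ hσ a ha
    exact thetaFun_eq_residue hϖ hσ ha
  · intro σ hσ τ hτ
    exact thetaFun_mul hϖ hσ hτ
  · intro σ hσ h
    exact mem_of_thetaFun_eq_zero hϖ hH hσ h
  · intro σ hσ g u a hu ha
    exact thetaFun_conj hϖ hσ g hu ha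

end Fermat.Agent.S56.H334

end
-- ===== PACK-END S56/H334/RLTheta.lean

-- ===== PACK-BEGIN S56/H334/RLQuot.lean
section


/-!
# S56 / W-FLAT-SS, piece FL-RAM (helper334): the frozen statement `RLQuot`

Proof of `FL.RLQuotStatement` (verbatim from `FL/RamLemSpec.lean`): the ramification groups
`qRam d N n` of the quotients `Γ / N`, `N ≤ Γ₁` normal.

* `qRam_eq_quotRamGroup` : `d.qRam N n` is the subgroup `quotRamGroup d.A d.B d.Γ N n`
  (ramification groups of `Γ ⧸ N` acting on the DVR `B^N`, pulled back to `Γ`).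
-/

set_option autoImplicit false
set_option linter.unusedSectionVars false
set_option linter.style.haveILetI false

open IsLocalRing

namespace Fermat.Agent.S56.H334

open Fermat.Agent.S56

section QRam

variable (A B Γ : Type*) [CommRing A] [IsDomain A] [IsDiscreteValuationRing A]
  [CommRing B] [IsDomain B] [IsDiscreteValuationRing B] [Algebra A B] [Module.Finite A B]
  [FaithfulSMul A B] [Group Γ] [Finite Γ] [MulSemiringAction Γ B] [SMulCommClass Γ A B]
  [Algebra.IsInvariant A B Γ] [FaithfulSMul Γ B]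
  (N : Subgroup Γ) [N.Normal] [Finite (ResidueField A)]

/-- Membership in `quotRamGroup` in terms of `B` only (for `N ≤ Γ₀`). -/
theorem mem_quotRamGroup_iff_forall (hN : N ≤ ramGroup Γ B 0) (n : ℕ) (σ : Γ) :
    σ ∈ quotRamGroup A B Γ N n ↔
      ∀ x : B, (∀ ν ∈ N, ν • x = x) → σ • x - x ∈ maximalIdeal B ^ (Nat.card N * (n + 1)) := by
  haveI := isDiscreteValuationRing_fixedPoints A B N
  haveI := isLocalHom_fixedPoints A B Γ N
  have he := map_maximalIdeal_fixedPoints A B Γ N hN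
  rw [mem_quotRamGroup_iff]
  constructor
  · intro h x hx
    have hx' : ∀ ν : N, ν • x = x := fun ν => hx ν ν.2
    have h1 := h ⟨x, hx'⟩
    have h2 : (σ : Γ ⧸ N) • (⟨x, hx'⟩ : FixedPoints.subalgebra A B N) - ⟨x, hx'⟩ ∈
        maximalIdeal (FixedPoints.subalgebra A B N) ^ (n + 1) := h1
    rw [mem_maximalIdeal_pow_iff_of_map_eq he] at h2
    exact h2
  · intro h x
    show (σ : Γ ⧸ N) • x - x ∈ maximalIdeal (FixedPoints.subalgebra A B N) ^ (n + 1)
    rw [mem_maximalIdeal_pow_iff_of_map_eq he]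
    exact h x (fun ν hν => x.2 ⟨ν, hν⟩)

/-- Separatedness: `σ ∉ N` lies outside some `F N n`. -/
theorem exists_not_mem_quotRamGroup {σ : Γ} (hσ : σ ∉ N) :
    ∃ n, σ ∉ quotRamGroup A B Γ N n := by
  haveI := isDiscreteValuationRing_fixedPoints A B N
  haveI := faithfulSMul_quotient A B Γ N
  have hne : (σ : Γ ⧸ N) ≠ 1 := fun h => hσ ((QuotientGroup.eq_one_iff σ).1 h)
  obtain ⟨n, hn⟩ := exists_not_mem_ramGroup (Γ := Γ ⧸ N) (B := FixedPoints.subalgebra A B N) hne
  exact ⟨n, hn⟩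

end QRam

/-- `d.qRam N n` is (the underlying set of) `quotRamGroup`. -/
theorem qRam_eq_quotRamGroup (d : FL.RCDatum) (N : Subgroup d.Γ) [N.Normal]
    (hN : N ≤ ramGroup d.Γ d.B 0) (n : ℕ) :
    d.qRam N n = (quotRamGroup d.A d.B d.Γ N n : Set d.Γ) := by
  haveI := rc_finite_residue d
  ext σ
  rw [SetLike.mem_coe, mem_quotRamGroup_iff_forall d.A d.B d.Γ N hN n σ]
  rfl

/-- **RL-Q** (frozen `FL.RLQuotStatement`). -/
theorem rlQuot : FL.RLQuotStatement := by
  intro d N hN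
  haveI := hN.1
  haveI := rc_fact_prime d
  haveI := rc_finite_residue d
  haveI := rc_charP_residue d
  have hN1 : N ≤ ramGroup d.Γ d.B 1 := hN.2
  have hN0 : N ≤ ramGroup d.Γ d.B 0 := hN1.trans (ramGroup_antitone (Nat.zero_le 1))
  have key : ∀ n σ, σ ∈ d.qRam N n ↔ σ ∈ quotRamGroup d.A d.B d.Γ N n := by
    intro n σ
    rw [qRam_eq_quotRamGroup d N hN0 n]
    rfl
  refine ⟨?_, ?_, ?_, ?_, ?_, ?_⟩
  · intro n
    exact ⟨quotRamGroup d.A d.B d.Γ N n, quotRamGroup_normal d.A d.B d.Γ N n,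
      (qRam_eq_quotRamGroup d N hN0 n).symm⟩
  · intro σ hσ
    exact (key 0 σ).2 (ramGroup_zero_le_quotRamGroup d.A d.B d.Γ N hσ)
  · intro σ hσ
    exact (key 1 σ).2 (ramGroup_one_le_quotRamGroup d.A d.B d.Γ N d.p hσ)
  · intro σ hσ0 hσ1
    exact quotRamGroup_one_inf_le d.A d.B d.Γ N d.p hN1 ⟨(key 1 σ).1 hσ1, hσ0⟩
  · intro σ hσ
    obtain ⟨n, hn⟩ := exists_not_mem_quotRamGroup d.A d.B d.Γ N hσ
    exact ⟨n, fun h => hn ((key n σ).1 h)⟩
  · intro n hn σ hσ hσ' τ hτ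
    rw [key, key]
    exact quot_conj_mul_inv_mem_iff d.A d.B d.Γ N hn ((key n σ).1 hσ)
      (fun h => hσ' ((key (n + 1) σ).2 h)) hτ

end Fermat.Agent.S56.H334

end
-- ===== PACK-END S56/H334/RLQuot.lean

-- ===== PACK-BEGIN S56/H66/VG1.lean
section




/-!
# S56 / FLAT-O, leaf FO-VG (helper66): valuation inputs, part 1

`A` a valuation subring of `ℚ̄` over the prime `p`, `I` its inertia group, `ζ` a primitive
`p`-th root of unity, `π = ζ - 1`, `I₁ = {σ ∈ I : σ ζ = ζ}`.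

* `vg1` : an element of `ℚ̄` fixed by `I₁` has `A`-valuation in `v(π)^ℤ`;
* `vg1_le` : a non-unit of `A` fixed by `I₁` has valuation `≤ v(π)`.
-/

set_option autoImplicit false
set_option linter.style.haveILetI false

open scoped Pointwise

namespace Fermat.Agent.S56.H66

open Polynomial Fermat.Agent.S14.H894

local notation "Qb" => AlgebraicClosure ℚ
local notation "GQ" => (AlgebraicClosure ℚ ≃ₐ[ℚ] AlgebraicClosure ℚ)

/-- The inertia field `ℚ̄^{I_A}`. -/
noncomputable def inertiaField (A : ValuationSubring Qb) : IntermediateField ℚ Qb :=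
  IntermediateField.fixedField (A.inertiaSubgroupIn ℚ)

theorem mem_inertiaField_iff (A : ValuationSubring Qb) (x : Qb) :
    x ∈ inertiaField A ↔ ∀ σ ∈ A.inertiaSubgroupIn ℚ, σ x = x :=
  IntermediateField.mem_fixedField_iff _ x

section

variable (A : ValuationSubring Qb) (p : ℕ) (hp : p.Prime) (hA : A.LiesOverPrime p)
  (ζ : Qb) (hζ : IsPrimitiveRoot ζ p)

include hp hA in
/-- (VG0) for the inertia field. -/
theorem exists_zpow_valuation_inertiaField (c : Qb) (hc : c ∈ inertiaField A) (hc0 : c ≠ 0) :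
    ∃ m : ℤ, A.valuation c = A.valuation (p : Qb) ^ m :=
  vg0 p hp A hA c hc0 ((mem_inertiaField_iff A c).mp hc)

/-- The monic polynomial of degree `p - 1` over the inertia field killing `ζ - 1`. -/
noncomputable def cycloShiftI : (inertiaField A)[X] :=
  (cyclotomic p (inertiaField A)).comp (X + C 1)

theorem cycloShiftI_monic : (cycloShiftI A p).Monic :=
  (cyclotomic.monic p _).comp_X_add_C 1

include hp in
theorem cycloShiftI_natDegree : (cycloShiftI A p).natDegree = p - 1 := by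
  unfold cycloShiftI
  rw [natDegree_comp, natDegree_X_add_C, mul_one, natDegree_cyclotomic, Nat.totient_prime hp]

include hp hζ in
theorem cycloShiftI_aeval : aeval (ζ - 1) (cycloShiftI A p) = 0 := by
  unfold cycloShiftI
  rw [aeval_comp]
  simp only [map_add, aeval_X, map_one, sub_add_cancel]
  rw [aeval_def, ← eval_map, map_cyclotomic]
  exact hζ.isRoot_cyclotomic hp.pos

/-- An element fixed by `I₁` lies in `ℚ̄^I(ζ - 1)`. -/
theorem mem_adjoinField_inertiaField (a : Qb)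
    (hfix : ∀ σ ∈ A.inertiaSubgroupIn ℚ, σ ζ = ζ → σ a = a) :
    a ∈ adjoinField (inertiaField A) (ζ - 1) := by
  haveI : Algebra.IsAlgebraic ℚ Qb := AlgebraicClosure.isAlgebraic ℚ
  haveI : IsAlgClosure ℚ Qb := ⟨inferInstance, inferInstance⟩
  haveI : Normal ℚ Qb := IsAlgClosure.normal ℚ Qb
  haveI : IsGalois ℚ Qb := isGalois_iff.mpr ⟨inferInstance, inferInstance⟩
  rw [← InfiniteGalois.fixedField_fixingSubgroup (adjoinField (inertiaField A) (ζ - 1)),
    IntermediateField.mem_fixedField_iff]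
  intro σ hσ
  rw [mem_fixingSubgroup_adjoinField_iff] at hσ
  obtain ⟨hK, hπ⟩ := hσ
  have hI : σ ∈ A.inertiaSubgroupIn ℚ :=
    Fermat.Agent.A2.IF.H9.mem_inertiaSubgroupIn_of_fixes_fixedField A σ hK
  refine hfix σ hI ?_
  have := congrArg (· + 1) hπ
  simpa using this

include hp hA hζ in
theorem cycloI_indep : ∀ k : ℕ, 0 < k → k < (cycloShiftI A p).natDegree →
    ∀ c ∈ inertiaField A, A.valuation (ζ - 1) ^ k ≠ A.valuation c := by
  intro k hk0 hk c hc heq
  rw [cycloShiftI_natDegree A p hp] at hk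
  have hπ0 := valuation_zeta_sub_one_ne_zero A p hp ζ hζ
  have hπ1 := valuation_zeta_sub_one_lt_one A p hp hA ζ hζ
  by_cases hq : c = 0
  · subst hq
    rw [map_zero] at heq
    exact pow_ne_zero k hπ0 heq
  · obtain ⟨m, hm⟩ := exists_zpow_valuation_inertiaField A p hp hA c hc hq
    rw [hm, valuation_natCast_eq_pow A p hp ζ hζ, ← zpow_natCast, ← zpow_natCast,
      ← zpow_mul] at heq
    have h1 := (zpow_right_strictAnti₀ (zero_lt_iff.mpr hπ0) hπ1).injective heq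
    have h2 : ((p - 1 : ℕ) : ℤ) ∣ (k : ℤ) := ⟨m, h1⟩
    have h3 : (p - 1) ∣ k := by exact_mod_cast h2
    exact absurd (Nat.le_of_dvd hk0 h3) (not_le.mpr hk)

include hp hA hζ in
/-- **(VG1)** An element of `ℚ̄` fixed by `I₁ = {σ ∈ I : σ ζ = ζ}` has valuation in
`v(ζ - 1)^ℤ`. -/
theorem vg1 (a : Qb) (ha : a ≠ 0)
    (hfix : ∀ σ ∈ A.inertiaSubgroupIn ℚ, σ ζ = ζ → σ a = a) :
    ∃ n : ℤ, A.valuation a = A.valuation (ζ - 1) ^ n := by
  obtain ⟨c, hc, rfl⟩ := exists_coeffs_of_mem_adjoinField (inertiaField A) (ζ - 1)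
    (cycloShiftI A p) (cycloShiftI_monic A p) (cycloShiftI_aeval A p hp ζ hζ) a
    (mem_adjoinField_inertiaField A ζ a hfix)
  have hindep := cycloI_indep A p hp hA ζ hζ
  have hdist := distinct_terms A (inertiaField A) (ζ - 1) _ hindep c hc (ζ - 1) rfl
  have hv := valuation_sum_eq_sup A.valuation _ _ hdist
  have hne : (Finset.range (cycloShiftI A p).natDegree).Nonempty := by
    rw [cycloShiftI_natDegree A p hp, Finset.nonempty_range_iff]
    have := hp.two_le
    omega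
  obtain ⟨i, hi, his⟩ := Finset.exists_mem_eq_sup _ hne
    (fun i => A.valuation (c i * (ζ - 1) ^ i))
  rw [his] at hv
  rw [hv]
  have hci : c i ≠ 0 := by
    intro h0
    rw [h0, zero_mul, map_zero] at hv
    exact ha ((map_eq_zero _).mp hv)
  obtain ⟨m, hm⟩ := exists_zpow_valuation_inertiaField A p hp hA (c i) (hc i) hci
  refine ⟨((p - 1 : ℕ) : ℤ) * m + i, ?_⟩
  have hπ0 := valuation_zeta_sub_one_ne_zero A p hp ζ hζ
  rw [map_mul, map_pow, hm, valuation_natCast_eq_pow A p hp ζ hζ,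
    zpow_add₀ hπ0, zpow_mul, zpow_natCast, zpow_natCast]

end

end Fermat.Agent.S56.H66

end
-- ===== PACK-END S56/H66/VG1.lean

-- ===== PACK-BEGIN S56/H486/FlatOLoc.lean
section
/-
S56 / FLAT-O leaves UNRHOM and TAMEFROB (helper486), verbatim targets of
`S56/H906/FlatOSpec.lean`:

* `unramHom : UnramHomStatement` — `D_P / I_P` is procyclic, generated by a Frobenius element:
  an unramified additive map `D_P → k` of finite level vanishing at a Frobenius vanishes.
* `tameFrob : TameFrobStatement` — a character `D_P → k^×` of finite level (`k` of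
  characteristic `p`, `P ∣ p`) satisfies `a τ ^ p = a τ` on inertia.

Inputs (on main): `Lib/Cheb/H643/FrobAt.exists_isFrobeniusAt` (Frobenius at a given valuation
subring of `ℚ̄`), `S56/H606/Gen.exists_frobenius_pow_mul_inertia` (generation modulo any finite
level), the tame character `A2/H708/Tame`, its Frobenius relation `S56/H794/TameFrob` and the
wild kernel `S56/H186/TameWild`.
-/






set_option autoImplicit false
set_option linter.style.haveILetI false

namespace Fermat.Agent.S56.H486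

open Fermat.Agent.S56 Fermat.Agent.S56.H906

/-- The inertia group (Prelude form) is contained in the decomposition group. -/
theorem flatO_inertia_le_decomposition (P : ValuationSubring Qb) {σ : GQ}
    (hσ : σ ∈ P.inertiaSubgroupIn ℚ) : σ ∈ P.decompositionSubgroup ℚ := by
  obtain ⟨τ, -, rfl⟩ := hσ
  exact τ.2

/-- An additive map on `D_P` vanishes at `1`. -/
theorem flatO_additive_one (P : ValuationSubring Qb) {k : Type} [Field k] (h : GQ → k)
    (hadd : ∀ σ ∈ P.decompositionSubgroup ℚ, ∀ τ ∈ P.decompositionSubgroup ℚ,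
      h (σ * τ) = h σ + h τ) : h 1 = 0 := by
  have h1 := hadd 1 (Subgroup.one_mem _) 1 (Subgroup.one_mem _)
  rw [mul_one] at h1
  exact left_eq_add.mp h1

/-- An additive map on `D_P` sends powers to multiples. -/
theorem flatO_additive_pow (P : ValuationSubring Qb) {k : Type} [Field k] (h : GQ → k)
    (hadd : ∀ σ ∈ P.decompositionSubgroup ℚ, ∀ τ ∈ P.decompositionSubgroup ℚ,
      h (σ * τ) = h σ + h τ) {φ : GQ} (hφ : φ ∈ P.decompositionSubgroup ℚ) (n : ℕ) :
    h (φ ^ n) = n • h φ := by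
  induction n with
  | zero => rw [pow_zero, zero_smul]; exact flatO_additive_one P h hadd
  | succ n ih =>
    rw [pow_succ, hadd _ (pow_mem hφ n) _ hφ, ih, succ_nsmul]

/-- **FLAT-O / UNRHOM.** -/
theorem unramHom : UnramHomStatement := by
  intro p hp P hP
  obtain ⟨φ, hφ⟩ := Fermat.Agent.Lib.Cheb.H643.exists_isFrobeniusAt p hp P hP
  have hφD : φ ∈ P.decompositionSubgroup ℚ := hφ.mem_decompositionSubgroup
  refine ⟨φ, hφD, ?_⟩
  intro k _ h hadd hlev hI hφ0 σ hσ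
  obtain ⟨L, hL, hlevL⟩ := hlev
  haveI : FiniteDimensional ℚ L := hL
  obtain ⟨n, ι, hι, hσL⟩ :=
    Fermat.Agent.S56.H606.exists_frobenius_pow_mul_inertia hp hP L hφ hσ
  have hιD : ι ∈ P.decompositionSubgroup ℚ := flatO_inertia_le_decomposition P hι
  have hgD : φ ^ n * ι ∈ P.decompositionSubgroup ℚ := Subgroup.mul_mem _ (pow_mem hφD n) hιD
  -- `τ := (φ ^ n * ι)⁻¹ * σ` lies in `D_P` and fixes `L`
  have hτD : (φ ^ n * ι)⁻¹ * σ ∈ P.decompositionSubgroup ℚ :=
    Subgroup.mul_mem _ (Subgroup.inv_mem _ hgD) hσ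
  have hτL : ∀ x ∈ L, ((φ ^ n * ι)⁻¹ * σ) x = x := by
    intro x hx
    show (φ ^ n * ι)⁻¹ (σ x) = x
    rw [hσL x hx]
    show ((φ ^ n * ι)⁻¹ * (φ ^ n * ι)) x = x
    rw [inv_mul_cancel]
    rfl
  have h1 : h σ = h (φ ^ n * ι) := by
    have := hlevL (φ ^ n * ι) hgD ((φ ^ n * ι)⁻¹ * σ) hτD hτL
    rwa [mul_inv_cancel_left] at this
  rw [h1, hadd _ (pow_mem hφD n) _ hιD, flatO_additive_pow P h hadd hφD, hφ0, hI ι hι,
    smul_zero, add_zero]

/-! ## TAMEFROB -/

/-- A character of `D_P` sends inverses to inverses. -/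
theorem flatO_char_inv (P : ValuationSubring Qb) {k : Type} [Field k] (a : GQ → k)
    (ha : IsLocChar P a) {σ : GQ} (hσ : σ ∈ P.decompositionSubgroup ℚ) :
    a σ⁻¹ = (a σ)⁻¹ := by
  have h1 := ha.map_mul σ hσ σ⁻¹ (Subgroup.inv_mem _ hσ)
  rw [mul_inv_cancel, ha.map_one] at h1
  exact eq_inv_of_mul_eq_one_right h1.symm

/-- A character of `D_P` sends powers to powers. -/
theorem flatO_char_pow (P : ValuationSubring Qb) {k : Type} [Field k] (a : GQ → k)
    (ha : IsLocChar P a) {σ : GQ} (hσ : σ ∈ P.decompositionSubgroup ℚ) (n : ℕ) :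
    a (σ ^ n) = a σ ^ n := by
  induction n with
  | zero => rw [pow_zero, pow_zero, ha.map_one]
  | succ n ih => rw [pow_succ, ha.map_mul _ (pow_mem hσ n) _ hσ, ih, pow_succ]

/-- Wild inertia is killed by characters with values in characteristic `p`: an element of the
inertia group at `P ∣ p` with trivial tame character is sent to `1`. -/
theorem flatO_char_eq_one_of_tame_trivial (p : ℕ) [Fact p.Prime] (k : Type) [Field k]
    [CharP k p] (P : ValuationSubring Qb) (hP : P.LiesOverPrime p) (a : GQ → k)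
    (ha : IsLocChar P a) {γ : GQ} (hγ : γ ∈ P.inertiaSubgroupIn ℚ)
    (htame : ∀ x : Qb, x ≠ 0 → P.valuation (γ x - x) < P.valuation x) : a γ = 1 := by
  have hp : p.Prime := Fact.out
  haveI : Algebra.IsAlgebraic ℚ Qb := AlgebraicClosure.isAlgebraic ℚ
  have hγD : γ ∈ P.decompositionSubgroup ℚ := flatO_inertia_le_decomposition P hγ
  obtain ⟨L, hL, hlev⟩ := ha.level
  haveI : FiniteDimensional ℚ L := hL
  -- the normal closure of the level
  haveI : IsGalois ℚ Qb := Fermat.Agent.S56.H794.isGalois_Qbar_h794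
  let E : IntermediateField ℚ Qb := IntermediateField.normalClosure ℚ L Qb
  have hLE : L ≤ E := IntermediateField.le_normalClosure L
  haveI : Normal ℚ E := normalClosure.normal ℚ L Qb
  haveI : FiniteDimensional ℚ E := normalClosure.is_finiteDimensional ℚ L Qb
  have hres : ∀ (σ : GQ) (y : E), σ (y : Qb) = ((AlgEquiv.restrictNormalHom E σ) y : Qb) :=
    fun σ y => (AlgEquiv.restrictNormal_commutes σ E y).symm
  have hE : ∀ y ∈ E, γ y ∈ E := fun y hy => by
    rw [hres γ ⟨y, hy⟩]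
    exact Subtype.mem _
  -- a positive power of `γ` is trivial on `E`
  let g : E ≃ₐ[ℚ] E := AlgEquiv.restrictNormalHom E γ
  have hn : orderOf g ≠ 0 := (orderOf_pos g).ne'
  have hfix : ∀ y ∈ E, (γ ^ orderOf g) y = y := fun y hy => by
    rw [hres (γ ^ orderOf g) ⟨y, hy⟩, map_pow, pow_orderOf_eq_one]
    rfl
  obtain ⟨e, he⟩ := Fermat.Agent.S56.H186.exists_pow_fixes_of_tame_trivial P hγD E hE
    (fun x _ hx => htame x hx) hp
    (fun ℓ hℓ hℓp => Fermat.Agent.S56.H794.valuation_prime_eq_one hp hP hℓ hℓp) hn hfix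
  -- hence `a γ ^ (p ^ e) = 1`
  have h1 : a (γ ^ p ^ e) = 1 := by
    have := hlev 1 (Subgroup.one_mem _) (γ ^ p ^ e) (pow_mem hγD _) (fun x hx => he x (hLE hx))
    rwa [one_mul, ha.map_one] at this
  rw [flatO_char_pow P a ha hγD] at h1
  -- and `x ^ (p ^ e) = 1` forces `x = 1` in characteristic `p`
  have h2 : (a γ - 1) ^ p ^ e = 0 := by
    rw [sub_pow_char_pow, h1, one_pow, sub_self]
  exact sub_eq_zero.mp (pow_eq_zero_iff (pow_ne_zero e hp.ne_zero) |>.mp h2)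

/-- **FLAT-O / TAMEFROB.** -/
theorem tameFrob : TameFrobStatement := by
  intro p _ k _ _ _ P hP a ha τ hτ
  have hp : p.Prime := Fact.out
  haveI : Algebra.IsAlgebraic ℚ Qb := AlgebraicClosure.isAlgebraic ℚ
  obtain ⟨φ, hφ⟩ := Fermat.Agent.Lib.Cheb.H643.exists_isFrobeniusAt p hp P hP
  have hφD : φ ∈ P.decompositionSubgroup ℚ := hφ.mem_decompositionSubgroup
  have hτD : τ ∈ P.decompositionSubgroup ℚ := flatO_inertia_le_decomposition P hτ
  have hc : φ * τ * φ⁻¹ ∈ P.inertiaSubgroupIn ℚ :=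
    Fermat.Agent.S56.H794.conj_mem_inertiaIn P hφD hτ
  have hγ : φ * τ * φ⁻¹ * (τ ^ p)⁻¹ ∈ P.inertiaSubgroupIn ℚ :=
    mul_mem hc (inv_mem (pow_mem hτ p))
  -- the tame character of `γ = φ τ φ⁻¹ τ⁻ᵖ` is trivial
  have htriv : ∀ c : Qbˣ, Fermat.Agent.A2.H708.tameHom P hγ c = 1 := by
    intro c
    rw [Fermat.Agent.A2.H708.tameHom_mul P hc (inv_mem (pow_mem hτ p)),
      Fermat.Agent.A2.H708.tameHom_inv P (pow_mem hτ p),
      Fermat.Agent.S56.H794.tameHom_pow P hτ,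
      Fermat.Agent.S56.H794.tameHom_conj_frobenius P hφ hτ, mul_inv_cancel]
  have h1 : a (φ * τ * φ⁻¹ * (τ ^ p)⁻¹) = 1 :=
    flatO_char_eq_one_of_tame_trivial p k P hP a ha hγ (fun x hx =>
      (Fermat.Agent.A2.H708.tameHom_eq_one_iff P hγ (Units.mk0 x hx)).mp (htriv _))
  -- expand with multiplicativity
  have hcD : φ * τ * φ⁻¹ ∈ P.decompositionSubgroup ℚ :=
    Subgroup.mul_mem _ (Subgroup.mul_mem _ hφD hτD) (Subgroup.inv_mem _ hφD)
  rw [ha.map_mul _ hcD _ (Subgroup.inv_mem _ (pow_mem hτD p)),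
    ha.map_mul _ (Subgroup.mul_mem _ hφD hτD) _ (Subgroup.inv_mem _ hφD),
    ha.map_mul _ hφD _ hτD, flatO_char_inv P a ha hφD, flatO_char_inv P a ha (pow_mem hτD p),
    flatO_char_pow P a ha hτD] at h1
  have hφ0 : a φ ≠ 0 := by
    intro h0
    have h2 := ha.map_mul φ hφD φ⁻¹ (Subgroup.inv_mem _ hφD)
    rw [mul_inv_cancel, ha.map_one, h0, zero_mul] at h2
    exact one_ne_zero h2
  have hτ0 : a τ ^ p ≠ 0 := by
    intro h0
    rw [h0, inv_zero, mul_zero] at h1
    exact zero_ne_one h1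
  have h3 : a φ * a τ * (a φ)⁻¹ = a τ := by
    rw [mul_comm (a φ) (a τ), mul_assoc, mul_inv_cancel₀ hφ0, mul_one]
  rw [h3] at h1
  exact (eq_of_mul_inv_eq_one h1).symm

end Fermat.Agent.S56.H486

end
-- ===== PACK-END S56/H486/FlatOLoc.lean

-- ===== PACK-BEGIN S56/H656/FlatOCount.lean
section




/-!
# Row S56 — FLAT-O, assembly part S3 + (e) + (f) = COUNT (helper656)

`flatO_of : FlatOrdLineStatement → FlatUnitStatement → KumStatement → UnramHomStatement →
  FL.FlatOStatement`.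

* `FlatOrdLineStatement` (what STRUCT S1 + S2 owes): a flat lift `ρ'` over `k[ε]` with cyclotomic
  determinant of a `ρ̄` which is reducible on `D_P` is ordinary at `P` in the Prelude's sense
  (`GaloisRepAdic.IsOrdinaryAt`, at the place `P`): a `D_P`-stable line `L = k[ε] b₀` (`b` a basis)
  with trivial inertia action on `V/L`.
* (S3) `locFO_struct`: in the coordinates `ℓ₀ + ε ℓ₁` of a generator of `L`, the cocycle `c` is, after
  the coboundary of `corr`, upper triangular on `D_P` with unramified diagonal part.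
* (e) `exists_unit_of_flat_line`: FU on the Hopf lattice of `ρ'` with `L` the line: every additive
  function of `σ w - w` is peu ramifié on `H = {σ ∈ I_P : σ ζ = ζ}`.
* (f) COUNT: UNRHOM kills the diagonal part up to one class, KUM bounds the off-diagonal part,
  and the coboundary of the projector on the line removes one dimension when `H⁰(D_P, ad⁰) = 0`.

Nothing unproved in this file.
-/

set_option autoImplicit false

open IsLocalRing
open scoped TensorProduct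

noncomputable section

namespace Fermat.Agent.S56.H656

open Fermat.Agent.S56 Fermat.Agent.S56.H716 Fermat.Agent.S19.H435

/-- (STRUCT, steps S1 + S2 of the FLAT-O plan) a flat lift with cyclotomic determinant of a
residual representation which is reducible on `D_P` is ordinary at `P`. -/
def FlatOrdLineStatement : Prop :=
  ∀ (𝒪 : Type) [CommRing 𝒪] [IsDomain 𝒪] [IsDiscreteValuationRing 𝒪]
    [IsAdicComplete (maximalIdeal 𝒪) 𝒪] [Finite (ResidueField 𝒪)]
    (p : ℕ) (ρbar : ResidualGaloisRep (ResidueField 𝒪)) (S Smin : Finset ℕ),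
    Hyp 𝒪 p ρbar S Smin → ∀ P : ValuationSubring _root_.Fermat.Agent.S56.Qb, P.LiesOverPrime p →
      (∃ U : Submodule (ResidueField 𝒪) ρbar.V, U ≠ ⊥ ∧ U ≠ ⊤ ∧
        ∀ σ ∈ P.decompositionSubgroup ℚ, ∀ x ∈ U, ρbar.ρ σ x ∈ U) →
      ∀ (c : GQ → Module.End (ResidueField 𝒪) ρbar.V)
        (ρ' : GaloisRepAdic (DualNumber (ResidueField 𝒪))),
        IsAdCocycle ρbar c → IsLiftOf ρbar c ρ' → ρ'.DetIsCyclotomic p → ρ'.IsFlatAt p →
        ∃ L : Submodule (DualNumber (ResidueField 𝒪)) ρ'.V,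
          (∃ b : Module.Basis (Fin 2) (DualNumber (ResidueField 𝒪)) ρ'.V,
            L = (DualNumber (ResidueField 𝒪)) ∙ b 0) ∧
          (∀ σ ∈ P.decompositionSubgroup ℚ, ∀ v ∈ L, ρ'.ρ σ v ∈ L) ∧
          (∀ σ ∈ P.inertiaSubgroupIn ℚ, ∀ v : ρ'.V, ρ'.ρ σ v - v ∈ L)

/-! ## (e) peu ramifié from FU -/

section peu

variable {k : Type} [Field k]

theorem isCycExp_one_of_fix {p : ℕ} (hp : p.Prime) {ζ : _root_.Fermat.Agent.S56.Qb} (hζ : IsPrimitiveRoot ζ p) {σ : GQ}
    (hσ : σ ζ = ζ) : IsCycExp p σ 1 := by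
  intro μ hμ
  haveI : NeZero p := ⟨hp.ne_zero⟩
  obtain ⟨i, -, rfl⟩ := hζ.eq_pow_of_pow_eq_one hμ
  rw [map_pow, hσ, pow_one]

/-- In a lift with cyclotomic determinant over `k[ε]` (`p = 0`), `det ρ'(σ) = a`. -/
theorem det_eq_natCast_of_detIsCyclotomic {p : ℕ} {ρ' : GaloisRepAdic (DualNumber k)}
    (hdet : ρ'.DetIsCyclotomic p) {σ : GQ} {a : ℕ} (ha : IsCycExp p σ a) :
    LinearMap.det (ρ'.ρ σ) = (a : DualNumber k) := by
  have hbot := span_pow_one_eq_bot (k := k) hdet.1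
  have := hdet.2 1 σ a (fun μ hμ => ha μ (by rwa [pow_one] at hμ))
  rw [hbot, Ideal.mem_bot, sub_eq_zero] at this
  exact this

/-- The character of `D_P` on an ordinary line, on inertia. -/
theorem line_char_inertia {p : ℕ} {ρ' : GaloisRepAdic (DualNumber k)}
    (hdet : ρ'.DetIsCyclotomic p) {P : ValuationSubring _root_.Fermat.Agent.S56.Qb}
    {L : Submodule (DualNumber k) ρ'.V} {b : Module.Basis (Fin 2) (DualNumber k) ρ'.V}
    (hLb : L = (DualNumber k) ∙ b 0)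
    (hD : ∀ σ ∈ P.decompositionSubgroup ℚ, ∀ v ∈ L, ρ'.ρ σ v ∈ L)
    (hI : ∀ σ ∈ P.inertiaSubgroupIn ℚ, ∀ v : ρ'.V, ρ'.ρ σ v - v ∈ L)
    {σ : GQ} (hσ : σ ∈ P.inertiaSubgroupIn ℚ) {a : ℕ} (ha : IsCycExp p σ a) :
    ρ'.ρ σ (b 0) = (a : DualNumber k) • b 0 := by
  have hb0L : b 0 ∈ L := by rw [hLb]; exact Submodule.mem_span_singleton_self _
  obtain ⟨x, hx⟩ : ∃ x : DualNumber k, ρ'.ρ σ (b 0) = x • b 0 := by
    have := hD σ (mem_decomposition_of_mem_inertia hσ) (b 0) hb0L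
    rw [hLb, Submodule.mem_span_singleton] at this
    obtain ⟨x, hx⟩ := this
    exact ⟨x, hx.symm⟩
  obtain ⟨t₁, ht₁⟩ : ∃ t₁ : DualNumber k, ρ'.ρ σ (b 1) - b 1 = t₁ • b 0 := by
    have := hI σ hσ (b 1)
    rw [hLb, Submodule.mem_span_singleton] at this
    obtain ⟨t, ht⟩ := this
    exact ⟨t, ht.symm⟩
  have hb1 : ρ'.ρ σ (b 1) = b 1 + t₁ • b 0 := by
    rw [← ht₁]; abel
  have hdetx : LinearMap.det (ρ'.ρ σ) = x := by
    rw [← LinearMap.det_toMatrix b, Matrix.det_fin_two]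
    simp only [LinearMap.toMatrix_apply, hx, hb1, map_smul, map_add,
      Module.Basis.repr_self, Finsupp.smul_apply, Finsupp.add_apply, smul_eq_mul]
    simp
  rw [hx, ← hdetx, det_eq_natCast_of_detIsCyclotomic hdet ha]

theorem finite_dualNumber [Finite k] : Finite (DualNumber k) :=
  Finite.of_equiv (k × k) (Equiv.refl _)

/-- The submodule `⊥ • ⊤ = ⊥` of the Prelude's `IsFlatAt` at the zero ideal. -/
abbrev fuLevelZero (ρ' : GaloisRepAdic (DualNumber k)) : Submodule (DualNumber k) ρ'.V :=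
  (⊥ : Ideal (DualNumber k)) • (⊤ : Submodule (DualNumber k) ρ'.V)

/-- **(e)** For a flat lift `ρ'` with an ordinary line at `P`, every additive function of
`ρ'(σ) w - w` is, on `H = {σ ∈ I_P : σ ζ = ζ}`, the Kummer character of a `P`-unit. -/
theorem exists_unit_of_flat_line [Finite k] {p : ℕ} [Fact p.Prime]
    (hFU : Fermat.Agent.S56.H906.FlatUnitStatement)
    (ρ' : GaloisRepAdic (DualNumber k)) (hdet : ρ'.DetIsCyclotomic p) (hflat : ρ'.IsFlatAt p)
    (P : ValuationSubring _root_.Fermat.Agent.S56.Qb) (hP : P.LiesOverPrime p)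
    {L : Submodule (DualNumber k) ρ'.V} {b : Module.Basis (Fin 2) (DualNumber k) ρ'.V}
    (hLb : L = (DualNumber k) ∙ b 0)
    (hD : ∀ σ ∈ P.decompositionSubgroup ℚ, ∀ v ∈ L, ρ'.ρ σ v ∈ L)
    (hI : ∀ σ ∈ P.inertiaSubgroupIn ℚ, ∀ v : ρ'.V, ρ'.ρ σ v - v ∈ L)
    {ζ : _root_.Fermat.Agent.S56.Qb} (hζ : IsPrimitiveRoot ζ p) (Ξ : ρ'.V →+ ZMod p) (w : ρ'.V) :
    ∃ B : _root_.Fermat.Agent.S56.Qb, P.valuation B = 1 ∧ ∀ σ ∈ P.inertiaSubgroupIn ℚ, σ ζ = ζ →
      σ B = ζ ^ (Ξ (ρ'.ρ σ w - w)).val * B := by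
  classical
  have hp : p.Prime := Fact.out
  haveI : Finite (DualNumber k) := finite_dualNumber
  haveI : Finite ρ'.V := Module.finite_of_finite (DualNumber k)
  haveI : Finite (ρ'.V ⧸ fuLevelZero ρ') :=
    Finite.of_surjective _ (Submodule.Quotient.mk_surjective (fuLevelZero ρ'))
  -- the Hopf lattice on `M = ρ'.V / (⊥ • ⊤)`
  have hfinq : Finite (DualNumber k ⧸ (⊥ : Ideal (DualNumber k))) :=
    Finite.of_surjective _ Ideal.Quotient.mk_surjective
  have hbot : fuLevelZero ρ' = ⊥ := Submodule.bot_smul _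
  have hmodel : Fermat.Agent.S19.HopfModel p (ρ'.V ⧸ fuLevelZero ρ')
      (fun σ => ρ'.levelAction ⊥ σ) := hflat.2 ⊥ hfinq
  obtain ⟨Λ, hΛ⟩ := exists_isHopfLattice_of_hopfModel hmodel
  let q' : (ρ'.V ⧸ fuLevelZero ρ') ≃ₗ[DualNumber k] ρ'.V :=
    Submodule.quotEquivOfEqBot (fuLevelZero ρ') hbot
  have hq' : ∀ v : ρ'.V, q' (Submodule.Quotient.mk v) = v := fun v =>
    Submodule.quotEquivOfEqBot_apply_mk (fuLevelZero ρ') hbot v
  have hact : ∀ (σ : GQ) (v : ρ'.V),
      ρ'.levelAction ⊥ σ (Submodule.Quotient.mk v) = Submodule.Quotient.mk (ρ'.ρ σ v) :=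
    fun σ v => rfl
  have hpk : (p : DualNumber k) = 0 := natCast_dual_eq_zero hdet.1
  have hkill : ∀ x : ρ'.V ⧸ fuLevelZero ρ', p • x = 0 := by
    intro x
    rw [← Nat.cast_smul_eq_nsmul (DualNumber k), hpk, zero_smul]
  have hb0L : b 0 ∈ L := by rw [hLb]; exact Submodule.mem_span_singleton_self _
  -- the line in `M`
  let LM : AddSubgroup (ρ'.V ⧸ fuLevelZero ρ') := (L.map (fuLevelZero ρ').mkQ).toAddSubgroup
  have hfix : ∀ σ ∈ P.inertiaSubgroupIn ℚ, σ ζ = ζ → ∀ t ∈ LM,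
      (fun σ => ρ'.levelAction ⊥ σ) σ t = t := by
    rintro σ hσ hσζ t ⟨v, hv, rfl⟩
    have hv' : v ∈ (DualNumber k) ∙ b 0 := by rw [← hLb]; exact hv
    obtain ⟨r, rfl⟩ := Submodule.mem_span_singleton.mp hv'
    show ρ'.levelAction ⊥ σ (Submodule.Quotient.mk (r • b 0)) = Submodule.Quotient.mk (r • b 0)
    rw [hact, map_smul, line_char_inertia hdet hLb hD hI hσ (isCycExp_one_of_fix hp hζ hσζ),
      Nat.cast_one, one_smul]
  have hdiff : ∀ σ ∈ P.inertiaSubgroupIn ℚ, σ ζ = ζ → ∀ y : ρ'.V ⧸ fuLevelZero ρ',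
      (fun σ => ρ'.levelAction ⊥ σ) σ y - y ∈ LM := by
    intro σ hσ _ y
    obtain ⟨v, rfl⟩ := Submodule.Quotient.mk_surjective (fuLevelZero ρ') y
    refine ⟨ρ'.ρ σ v - v, hI σ hσ v, ?_⟩
    show (fuLevelZero ρ').mkQ (ρ'.ρ σ v - v) =
      ρ'.levelAction ⊥ σ (Submodule.Quotient.mk v) - Submodule.Quotient.mk v
    rw [hact]
    rfl
  obtain ⟨B, hB1, hB⟩ := hFU p (ρ'.V ⧸ fuLevelZero ρ') (fun σ => ρ'.levelAction ⊥ σ) Λ hΛ hkill
    P hP ζ hζ LM hfix hdiff (Ξ.comp (q' : (ρ'.V ⧸ fuLevelZero ρ') →+ ρ'.V))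
    (Submodule.Quotient.mk w)
  refine ⟨B, hB1, fun σ hσ hσζ => ?_⟩
  have := hB σ hσ hσζ
  rw [this]
  congr 3

end peu

/-! ## (S3) the structure of a flat-ordinary lift -/

section struct

variable {k : Type} [Field k] (ρbar : ResidualGaloisRep k) (p : ℕ) (P : ValuationSubring _root_.Fermat.Agent.S56.Qb)

/-- The `c`-independent part of the flat-ordinary data: `ℓ₀` spans a `D_P`-stable line on which
inertia acts by the cyclotomic character, with trivial inertia action on the quotient. -/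
def IsFOLine (ℓ₀ : ρbar.V) : Prop :=
  ℓ₀ ≠ 0 ∧ ∀ σ ∈ P.decompositionSubgroup ℚ, ∃ x₀ : k, ρbar.ρ σ ℓ₀ = x₀ • ℓ₀ ∧
    (σ ∈ P.inertiaSubgroupIn ℚ →
      (∀ a : ℕ, IsCycExp p σ a → x₀ = (a : k)) ∧ ∀ v : ρbar.V, ∃ s : k, ρbar.ρ σ v - v = s • ℓ₀)

/-- The flat-ordinary data of a cocycle `c`: `ℓ₀ + ε ℓ₁` generates a `D_P`-stable `k[ε]`-line in
the lift, with character `x₀ + ε x₁`, `x₁ = 0` on inertia. -/
def IsFOData (c : GQ → Module.End k ρbar.V) (ℓ₀ ℓ₁ : ρbar.V) : Prop :=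
  ℓ₀ ≠ 0 ∧ ∀ σ ∈ P.decompositionSubgroup ℚ, ∃ x₀ x₁ : k, ρbar.ρ σ ℓ₀ = x₀ • ℓ₀ ∧
    ρbar.ρ σ ℓ₁ + c σ (ρbar.ρ σ ℓ₀) = x₀ • ℓ₁ + x₁ • ℓ₀ ∧
    (σ ∈ P.inertiaSubgroupIn ℚ → x₁ = 0 ∧
      (∀ a : ℕ, IsCycExp p σ a → x₀ = (a : k)) ∧ ∀ v : ρbar.V, ∃ s : k, ρbar.ρ σ v - v = s • ℓ₀)

/-- Every additive function of `σ w - w` (in the lift of `c`) is peu ramifié on
`{σ ∈ I_P : σ ζ = ζ}`. -/
def IsPeuLift (c : GQ → Module.End k ρbar.V) : Prop :=
  ∀ ζ : _root_.Fermat.Agent.S56.Qb, IsPrimitiveRoot ζ p → ∀ (Ξ : (DualNumber k ⊗[k] ρbar.V) →+ ZMod p)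
    (w : DualNumber k ⊗[k] ρbar.V),
    ∃ B : _root_.Fermat.Agent.S56.Qb, P.valuation B = 1 ∧ ∀ σ ∈ P.inertiaSubgroupIn ℚ, σ ζ = ζ →
      σ B = ζ ^ (Ξ (liftEnd ρbar c σ w - w)).val * B

variable {ρbar p P}

theorem IsFOData.isFOLine {c : GQ → Module.End k ρbar.V} {ℓ₀ ℓ₁ : ρbar.V}
    (h : IsFOData ρbar p P c ℓ₀ ℓ₁) : IsFOLine ρbar p P ℓ₀ := by
  refine ⟨h.1, fun σ hσ => ?_⟩
  obtain ⟨x₀, x₁, h1, -, h3⟩ := h.2 σ hσ
  exact ⟨x₀, h1, fun hI => (h3 hI).2⟩

theorem IsFOData.smul {c : GQ → Module.End k ρbar.V} {ℓ₀ ℓ₁ : ρbar.V}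
    (h : IsFOData ρbar p P c ℓ₀ ℓ₁) {r : k} (hr : r ≠ 0) :
    IsFOData ρbar p P c (r • ℓ₀) (r • ℓ₁) := by
  refine ⟨smul_ne_zero hr h.1, fun σ hσ => ?_⟩
  obtain ⟨x₀, x₁, h1, h2, h3⟩ := h.2 σ hσ
  refine ⟨x₀, x₁, ?_, ?_, fun hI => ?_⟩
  · rw [map_smul, h1, smul_comm]
  · rw [map_smul, map_smul, map_smul, ← smul_add, h2, smul_add, smul_comm r x₀, smul_comm r x₁]
  · obtain ⟨hx1, hcyc, hv⟩ := h3 hI
    refine ⟨hx1, hcyc, fun v => ?_⟩
    obtain ⟨s, hs⟩ := hv v
    exact ⟨s * r⁻¹, by rw [hs, smul_smul, mul_assoc, inv_mul_cancel₀ hr, mul_one]⟩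

/-- The flat-ordinary line is unique (`p` odd). -/
theorem IsFOLine.unique [CharP k p] (hp : p.Prime) (hp2 : p ≠ 2) (hP : P.LiesOverPrime p)
    {ℓ₀ ℓ₀' : ρbar.V} (h : IsFOLine ρbar p P ℓ₀) (h' : IsFOLine ρbar p P ℓ₀') :
    ∃ r : k, r ≠ 0 ∧ ℓ₀' = r • ℓ₀ := by
  obtain ⟨σ, hσI, a, ha, ha1⟩ := exists_inertia_isCycExp_ne_one hp hp2 k P hP
  have hσD := mem_decomposition_of_mem_inertia hσI
  obtain ⟨x₀, -, hI⟩ := h.2 σ hσD
  obtain ⟨x₀', hx', hI'⟩ := h'.2 σ hσD
  obtain ⟨s, hs⟩ := (hI hσI).2 ℓ₀'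
  rw [hx', (hI' hσI).1 a ha] at hs
  have ha1' : (a : k) - 1 ≠ 0 := sub_ne_zero.mpr ha1
  have hs' : ((a : k) - 1) • ℓ₀' = s • ℓ₀ := by rw [sub_smul, one_smul]; exact hs
  have hℓ : ℓ₀' = (((a : k) - 1)⁻¹ * s) • ℓ₀ := by
    rw [mul_smul, ← hs', smul_smul, inv_mul_cancel₀ ha1', one_smul]
  refine ⟨((a : k) - 1)⁻¹ * s, ?_, hℓ⟩
  intro h0
  rw [h0, zero_smul] at hℓ
  exact h'.1 hℓ

/-- **(S3)** the flat-ordinary data from an ordinary line of a lift. -/
theorem locFO_struct (hp : p.Prime) (c : GQ → Module.End k ρbar.V)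
    (ρ' : GaloisRepAdic (DualNumber k))
    (hlift : IsLiftOf ρbar c ρ') (hdet : ρ'.DetIsCyclotomic p)
    {L : Submodule (DualNumber k) ρ'.V} {b : Module.Basis (Fin 2) (DualNumber k) ρ'.V}
    (hLb : L = (DualNumber k) ∙ b 0)
    (hD : ∀ σ ∈ P.decompositionSubgroup ℚ, ∀ v ∈ L, ρ'.ρ σ v ∈ L)
    (hI : ∀ σ ∈ P.inertiaSubgroupIn ℚ, ∀ v : ρ'.V, ρ'.ρ σ v - v ∈ L) :
    ∃ ℓ₀ ℓ₁ : ρbar.V, IsFOData ρbar p P c ℓ₀ ℓ₁ := by
  classical
  obtain ⟨e, he⟩ := hlift
  have hb0L : b 0 ∈ L := by rw [hLb]; exact Submodule.mem_span_singleton_self _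
  refine ⟨dPi0 (e (b 0)), dPi1 (e (b 0)), ?_, ?_⟩
  · -- `ℓ₀ ≠ 0`
    intro h0
    have hε : (DualNumber.eps : DualNumber k) • e (b 0) = 0 := by
      apply coord_ext
      · rw [dPi0_smul, h0, smul_zero, map_zero]
      · rw [dPi1_smul, h0, DualNumber.fst_eps, zero_smul, smul_zero, add_zero, map_zero]
    rw [← map_smul, LinearEquiv.map_eq_zero_iff] at hε
    have h1 := congrArg (fun f => b.repr f 0) hε
    simp only [map_smul, Module.Basis.repr_self, Finsupp.smul_apply, Finsupp.single_eq_same,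
      smul_eq_mul, mul_one, map_zero, Finsupp.zero_apply] at h1
    have h2 := congrArg TrivSqZeroExt.snd h1
    simp at h2
  · intro σ hσ
    obtain ⟨x, hx⟩ : ∃ x : DualNumber k, ρ'.ρ σ (b 0) = x • b 0 := by
      have := hD σ hσ (b 0) hb0L
      rw [hLb, Submodule.mem_span_singleton] at this
      obtain ⟨x, hx⟩ := this
      exact ⟨x, hx.symm⟩
    have hA : liftEnd ρbar c σ (e (b 0)) = x • e (b 0) := by
      rw [← he, hx, map_smul]
    refine ⟨TrivSqZeroExt.fst x, TrivSqZeroExt.snd x, ?_, ?_, fun hσI => ?_⟩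
    · have := congrArg dPi0 hA
      rw [dPi0_liftEnd, dPi0_smul] at this
      exact this
    · have := congrArg dPi1 hA
      rw [dPi1_liftEnd, dPi1_smul] at this
      exact this
    · have hxa : ∀ a : ℕ, IsCycExp p σ a → x = (a : DualNumber k) := by
        intro a ha
        have h1 := line_char_inertia hdet hLb hD hI hσI ha
        rw [hx] at h1
        have h2 := congrArg (fun f => b.repr f 0) h1
        simpa using h2
      obtain ⟨a₀, ha₀⟩ := Fermat.Agent.S56.H966.exists_isCycExp p hp.ne_zero σ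
      refine ⟨?_, fun a ha => ?_, fun v => ?_⟩
      · rw [hxa a₀ ha₀, TrivSqZeroExt.snd_natCast]
      · rw [hxa a ha, TrivSqZeroExt.fst_natCast]
      · have hv := hI σ hσI (e.symm (dIota v))
        rw [hLb, Submodule.mem_span_singleton] at hv
        obtain ⟨t, ht⟩ := hv
        have hB : liftEnd ρbar c σ (dIota v) - dIota v = t • e (b 0) := by
          have := congrArg e ht
          rw [map_smul, map_sub, he, LinearEquiv.apply_symm_apply] at this
          exact this.symm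
        refine ⟨TrivSqZeroExt.fst t, ?_⟩
        have := congrArg dPi0 hB
        rw [map_sub, dPi0_liftEnd, dPi0_smul, dPi0_dIota] at this
        exact this

/-- **(e)** in cocycle language: the lift of a flat-ordinary cocycle is peu ramifié. -/
theorem isPeuLift_of_flat [Finite k] [Fact p.Prime]
    (hFU : Fermat.Agent.S56.H906.FlatUnitStatement)
    (c : GQ → Module.End k ρbar.V) (ρ' : GaloisRepAdic (DualNumber k))
    (hlift : IsLiftOf ρbar c ρ') (hdet : ρ'.DetIsCyclotomic p) (hflat : ρ'.IsFlatAt p)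
    (hP : P.LiesOverPrime p)
    {L : Submodule (DualNumber k) ρ'.V} {b : Module.Basis (Fin 2) (DualNumber k) ρ'.V}
    (hLb : L = (DualNumber k) ∙ b 0)
    (hD : ∀ σ ∈ P.decompositionSubgroup ℚ, ∀ v ∈ L, ρ'.ρ σ v ∈ L)
    (hI : ∀ σ ∈ P.inertiaSubgroupIn ℚ, ∀ v : ρ'.V, ρ'.ρ σ v - v ∈ L) :
    IsPeuLift ρbar p P c := by
  obtain ⟨e, he⟩ := hlift
  intro ζ hζ Ξ w
  obtain ⟨B, hB1, hB⟩ := exists_unit_of_flat_line hFU ρ' hdet hflat P hP hLb hD hI hζ
    (Ξ.comp (e : ρ'.V →+ (DualNumber k ⊗[k] ρbar.V))) (e.symm w)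
  refine ⟨B, hB1, fun σ hσ hσζ => ?_⟩
  rw [hB σ hσ hσζ]
  congr 3
  show Ξ (e (ρ'.ρ σ (e.symm w) - e.symm w)) = _
  rw [map_sub, he, LinearEquiv.apply_symm_apply]

end struct

/-! ## Linear algebra: conjugation by a triangular matrix -/

section tri

variable {k : Type} [Field k] {V : Type} [AddCommGroup V] [Module k V]
  (B : Module.Basis (Fin 2) k V) (R Rinv C : Module.End k V)

theorem tri_coord1 {x₀ : k} (h1 : R (B 0) = x₀ • B 0) (v : V) :
    B.coord 1 (R v) = B.coord 1 (R (B 1)) * B.coord 1 v := by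
  conv_lhs => rw [expand B v]
  rw [map_add, map_smul, map_smul, h1, map_add, map_smul, map_smul, map_smul, coord1_self0,
    smul_eq_mul, smul_eq_mul, smul_eq_mul, mul_zero, mul_zero, zero_add, mul_comm]

theorem tri_coord1_ne_zero (hR : R * Rinv = 1) {x₀ : k} (h1 : R (B 0) = x₀ • B 0) :
    B.coord 1 (R (B 1)) ≠ 0 := by
  intro h0
  have h := tri_coord1 B R h1 (Rinv (B 1))
  rw [apply_inv_apply' R Rinv hR, coord1_self, h0, zero_mul] at h
  exact one_ne_zero h

theorem tri_coord1_inv (hR : R * Rinv = 1) {x₀ : k} (h1 : R (B 0) = x₀ • B 0) (v : V) :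
    B.coord 1 (Rinv v) = (B.coord 1 (R (B 1)))⁻¹ * B.coord 1 v := by
  have h := tri_coord1 B R h1 (Rinv v)
  rw [apply_inv_apply' R Rinv hR] at h
  rw [h, ← mul_assoc, inv_mul_cancel₀ (tri_coord1_ne_zero B R Rinv hR h1), one_mul]

theorem tri_x0_ne_zero (hR' : Rinv * R = 1) {x₀ : k} (h1 : R (B 0) = x₀ • B 0) : x₀ ≠ 0 := by
  intro h0
  have h := inv_apply_apply' R Rinv hR' (B 0)
  rw [h1, h0, zero_smul, map_zero] at h
  exact basis0_ne_zero B h.symm

theorem tri_conj_nil0 (hR : R * Rinv = 1) {x₀ : k} (h1 : R (B 0) = x₀ • B 0) :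
    R * nil0 B * Rinv = (x₀ * (B.coord 1 (R (B 1)))⁻¹) • nil0 B := by
  apply LinearMap.ext
  intro u
  rw [Module.End.mul_apply, Module.End.mul_apply, nil0_apply, map_smul, h1,
    tri_coord1_inv B R Rinv hR h1, LinearMap.smul_apply, nil0_apply, smul_smul, smul_smul]
  congr 1
  ring

theorem trace_eq_coords [Module.Finite k V] :
    LinearMap.trace k V C = B.coord 0 (C (B 0)) + B.coord 1 (C (B 1)) := by
  rw [LinearMap.trace_eq_matrix_trace k B C, Matrix.trace_fin_two]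
  simp only [LinearMap.toMatrix_apply, Module.Basis.coord_apply]

/-- A trace-zero endomorphism killing `B 0` is a multiple of `n₀`. -/
theorem eq_smul_nil0_of_trace [Module.Finite k V] (h0 : C (B 0) = 0)
    (htr : LinearMap.trace k V C = 0) : C = B.coord 0 (C (B 1)) • nil0 B := by
  have h11 : B.coord 1 (C (B 1)) = 0 := by
    rw [trace_eq_coords B C, h0, map_zero, zero_add] at htr
    exact htr
  have hB1 : C (B 1) = B.coord 0 (C (B 1)) • B 0 := by
    conv_lhs => rw [expand B (C (B 1))]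
    rw [h11, zero_smul, add_zero]
  refine eq_smul_nil0 B C h0 fun u => ⟨B.coord 1 u * B.coord 0 (C (B 1)), ?_⟩
  have hu : C u = B.coord 1 u • C (B 1) := by
    conv_lhs => rw [expand B u]
    rw [map_add, map_smul, map_smul, h0, smul_zero, zero_add]
  rw [hu]
  conv_lhs => rw [hB1]
  rw [smul_smul]

/-- The value at `B 0` of a conjugate. -/
theorem tri_conj_basis0 (hR' : Rinv * R = 1) {x₀ α : k} (h1 : R (B 0) = x₀ • B 0)
    (hC : C (B 0) = α • B 0) : (R * C * Rinv) (B 0) = α • B 0 := by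
  have hx₀ := tri_x0_ne_zero B R Rinv hR' h1
  rw [Module.End.mul_apply, Module.End.mul_apply, inv_basis0 B R Rinv hR' x₀ h1 hx₀, map_smul,
    hC, map_smul, map_smul, h1, smul_smul, smul_smul]
  congr 1
  field_simp

/-- The corrected cocycle `c + ∂(corr)` at `B 0`. -/
theorem fo_cprime_basis0 (hR' : Rinv * R = 1) {ℓ₁ : V} {x₀ x₁ : k} (h1 : R (B 0) = x₀ • B 0)
    (h2 : R ℓ₁ + C (R (B 0)) = x₀ • ℓ₁ + x₁ • B 0) :
    (C + (R * corr B ℓ₁ * Rinv - corr B ℓ₁)) (B 0) = (x₁ * x₀⁻¹) • B 0 := by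
  have hx₀ := tri_x0_ne_zero B R Rinv hR' h1
  have hCB : C (B 0) = ℓ₁ + (x₁ * x₀⁻¹) • B 0 - x₀⁻¹ • R ℓ₁ := by
    rw [h1, map_smul] at h2
    have h3 : x₀ • C (B 0) = x₀ • ℓ₁ + x₁ • B 0 - R ℓ₁ := by rw [← h2]; abel
    calc C (B 0) = x₀⁻¹ • (x₀ • C (B 0)) := by rw [smul_smul, inv_mul_cancel₀ hx₀, one_smul]
      _ = ℓ₁ + (x₁ * x₀⁻¹) • B 0 - x₀⁻¹ • R ℓ₁ := by
        rw [h3, smul_sub, smul_add, smul_smul, smul_smul, inv_mul_cancel₀ hx₀, one_smul,
          mul_comm]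
  rw [LinearMap.add_apply, LinearMap.sub_apply, Module.End.mul_apply, Module.End.mul_apply,
    inv_basis0 B R Rinv hR' x₀ h1 hx₀, corr_apply, corr_apply, coord0_self, one_smul,
    (B.coord 0).map_smul, coord0_self, smul_eq_mul, mul_one, map_smul, hCB]
  abel

theorem tri_inv_basis1 (hR' : Rinv * R = 1) {x₀ u : k} (h1 : R (B 0) = x₀ • B 0)
    (h3 : R (B 1) - B 1 = u • B 0) : Rinv (B 1) = B 1 - (u * x₀⁻¹) • B 0 := by
  have hx₀ := tri_x0_ne_zero B R Rinv hR' h1
  have hRB1 : R (B 1) = B 1 + u • B 0 := by rw [← h3]; abel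
  have h := inv_apply_apply' R Rinv hR' (B 1)
  rw [hRB1, map_add, map_smul, inv_basis0 B R Rinv hR' x₀ h1 hx₀, smul_smul] at h
  exact eq_sub_of_add_eq h

/-- The corrected cocycle at `B 1`, on inertia. -/
theorem fo_cprime_basis1 (hR' : Rinv * R = 1) {ℓ₁ : V} {x₀ u : k} (h1 : R (B 0) = x₀ • B 0)
    (h2 : R ℓ₁ + C (R (B 0)) = x₀ • ℓ₁) (h3 : R (B 1) - B 1 = u • B 0) :
    (C + (R * corr B ℓ₁ * Rinv - corr B ℓ₁)) (B 1) = C (R (B 1)) - u • ℓ₁ := by
  have hx₀ := tri_x0_ne_zero B R Rinv hR' h1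
  have hRB1 : R (B 1) = B 1 + u • B 0 := by rw [← h3]; abel
  have hCB : C (B 0) = ℓ₁ - x₀⁻¹ • R ℓ₁ := by
    rw [h1, map_smul] at h2
    have h4 : x₀ • C (B 0) = x₀ • ℓ₁ - R ℓ₁ := by rw [← h2]; abel
    calc C (B 0) = x₀⁻¹ • (x₀ • C (B 0)) := by rw [smul_smul, inv_mul_cancel₀ hx₀, one_smul]
      _ = ℓ₁ - x₀⁻¹ • R ℓ₁ := by
        rw [h4, smul_sub, smul_smul, inv_mul_cancel₀ hx₀, one_smul]
  rw [LinearMap.add_apply, LinearMap.sub_apply, Module.End.mul_apply, Module.End.mul_apply,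
    tri_inv_basis1 B R Rinv hR' h1 h3, corr_apply, corr_apply, map_sub, (B.coord 0).map_smul,
    coord0_self1, coord0_self, zero_smul, sub_zero, smul_eq_mul, mul_one, zero_sub, neg_smul,
    map_neg, map_smul, hRB1, map_add, map_smul, hCB, smul_sub, smul_smul]
  abel

/-- The coboundary of the projector at `B 1`. -/
theorem fo_conj_proj0_basis1 (hR' : Rinv * R = 1) {x₀ u : k} (h1 : R (B 0) = x₀ • B 0)
    (h3 : R (B 1) - B 1 = u • B 0) :
    (R * proj0 B * Rinv - proj0 B) (B 1) = (-u) • B 0 := by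
  have hx₀ := tri_x0_ne_zero B R Rinv hR' h1
  rw [LinearMap.sub_apply, Module.End.mul_apply, Module.End.mul_apply,
    tri_inv_basis1 B R Rinv hR' h1 h3, proj0_apply, proj0_apply, map_sub, (B.coord 0).map_smul,
    coord0_self1, coord0_self, zero_smul, sub_zero, smul_eq_mul, mul_one, zero_sub, map_smul,
    h1, smul_smul, neg_mul, mul_assoc, inv_mul_cancel₀ hx₀, mul_one]

end tri

/-! ## Peu ramifié functions -/

section peuclosure

variable {k : Type} [Field k] {p : ℕ} [Fact p.Prime] {P : ValuationSubring _root_.Fermat.Agent.S56.Qb}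

theorem pow_val_add {ζ : _root_.Fermat.Agent.S56.Qb} (hζ : ζ ^ p = 1) (a b : ZMod p) :
    ζ ^ (a + b).val = ζ ^ a.val * ζ ^ b.val := by
  rw [ZMod.val_add, ← pow_add, ← pow_eq_pow_mod _ hζ]

theorem isPeu_zero : Fermat.Agent.S56.H906.IsPeu p P (fun _ : GQ => (0 : k)) := by
  intro ζ _ ℓ
  refine ⟨1, Valuation.map_one _, fun σ _ _ => ?_⟩
  simp

theorem isPeu_add {c₁ c₂ : GQ → k} (h₁ : Fermat.Agent.S56.H906.IsPeu p P c₁)
    (h₂ : Fermat.Agent.S56.H906.IsPeu p P c₂) :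
    Fermat.Agent.S56.H906.IsPeu p P (fun σ => c₁ σ + c₂ σ) := by
  intro ζ hζ ℓ
  obtain ⟨B₁, hB₁, h1⟩ := h₁ ζ hζ ℓ
  obtain ⟨B₂, hB₂, h2⟩ := h₂ ζ hζ ℓ
  refine ⟨B₁ * B₂, by rw [Valuation.map_mul, hB₁, hB₂, one_mul], fun σ hσ hσζ => ?_⟩
  rw [map_mul, h1 σ hσ hσζ, h2 σ hσ hσζ, map_add, pow_val_add hζ.pow_eq_one]
  ring

theorem isPeu_smul {c : GQ → k} (h : Fermat.Agent.S56.H906.IsPeu p P c) (r : k) :
    Fermat.Agent.S56.H906.IsPeu p P (fun σ => r * c σ) := by
  intro ζ hζ ℓ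
  obtain ⟨B, hB, h1⟩ := h ζ hζ (ℓ.comp (AddMonoidHom.mulLeft r))
  exact ⟨B, hB, fun σ hσ hσζ => h1 σ hσ hσζ⟩

theorem isPeu_congr {c₁ c₂ : GQ → k} (h : Fermat.Agent.S56.H906.IsPeu p P c₁)
    (heq : ∀ σ ∈ P.inertiaSubgroupIn ℚ, c₂ σ = c₁ σ) :
    Fermat.Agent.S56.H906.IsPeu p P c₂ := by
  intro ζ hζ ℓ
  obtain ⟨B, hB, h1⟩ := h ζ hζ ℓ
  exact ⟨B, hB, fun σ hσ hσζ => by rw [heq σ hσ]; exact h1 σ hσ hσζ⟩

end peuclosure

/-! ## More cocycles -/

section morecoc

variable {k : Type} [Field k] {ρbar : ResidualGaloisRep k}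

theorem isAdCocycle_zero' : IsAdCocycle ρbar (fun _ => (0 : Module.End k ρbar.V)) where
  trace_eq_zero _ := map_zero _
  map_mul σ τ := by simp
  level := ⟨⊥, inferInstance, fun _ _ _ => rfl⟩

theorem isAdCocycle_smul' {c : GQ → Module.End k ρbar.V} (h : IsAdCocycle ρbar c) (r : k) :
    IsAdCocycle ρbar (fun σ => r • c σ) where
  trace_eq_zero σ := by rw [map_smul, h.trace_eq_zero, smul_zero]
  map_mul σ τ := by
    rw [h.map_mul, smul_add, mul_smul_comm, smul_mul_assoc]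
  level := by
    obtain ⟨L, hL, h1⟩ := h.level
    exact ⟨L, hL, fun σ τ hτ => by rw [h1 σ τ hτ]⟩

end morecoc

/-! ## (f) the count -/

section count

variable {k : Type} [Field k] {ρbar : ResidualGaloisRep k} {p : ℕ} {P : ValuationSubring _root_.Fermat.Agent.S56.Qb}
  (B : Module.Basis (Fin 2) k ρbar.V)

/-- The character `χ₁ χ₂⁻¹` of `D_P` on `Hom(V/L, L)`. -/
def foChar (σ : GQ) : k := B.coord 0 (ρbar.ρ σ (B 0)) * (B.coord 1 (ρbar.ρ σ (B 1)))⁻¹

variable {B}

theorem fo_rho_basis0 (hline : IsFOLine ρbar p P (B 0)) {σ : GQ}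
    (hσ : σ ∈ P.decompositionSubgroup ℚ) :
    ρbar.ρ σ (B 0) = B.coord 0 (ρbar.ρ σ (B 0)) • B 0 := by
  obtain ⟨x₀, hx, -⟩ := hline.2 σ hσ
  rw [hx, map_smul, coord0_self, smul_eq_mul, mul_one]

theorem fo_conj_nil0 (hline : IsFOLine ρbar p P (B 0)) {σ : GQ}
    (hσ : σ ∈ P.decompositionSubgroup ℚ) :
    ρbar.ρ σ * nil0 B * ρbar.ρ σ⁻¹ = foChar B σ • nil0 B :=
  tri_conj_nil0 B (ρbar.ρ σ) (ρbar.ρ σ⁻¹) (rho_mul_inv' ρbar σ) (fo_rho_basis0 hline hσ)

theorem fo_cob_smul_nil0 (hline : IsFOLine ρbar p P (B 0)) {σ : GQ}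
    (hσ : σ ∈ P.decompositionSubgroup ℚ) (m : k) :
    ρbar.ρ σ * (m • nil0 B) * ρbar.ρ σ⁻¹ - m • nil0 B = ((foChar B σ - 1) * m) • nil0 B := by
  rw [mul_smul_comm, smul_mul_assoc, fo_conj_nil0 hline hσ, smul_smul, ← sub_smul]
  congr 1
  ring

theorem foChar_isOrdChar (hline : IsFOLine ρbar p P (B 0)) :
    Fermat.Agent.S56.H906.IsOrdChar p P (foChar B) where
  map_one := by
    unfold foChar
    rw [map_one, Module.End.one_apply, Module.End.one_apply, coord0_self, coord1_self, inv_one,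
      mul_one]
  map_mul σ hσ τ hτ := by
    unfold foChar
    have h1 : B.coord 0 (ρbar.ρ (σ * τ) (B 0)) =
        B.coord 0 (ρbar.ρ σ (B 0)) * B.coord 0 (ρbar.ρ τ (B 0)) := by
      rw [map_mul, Module.End.mul_apply]
      conv_lhs => rw [fo_rho_basis0 hline hτ, map_smul, map_smul, smul_eq_mul]
      ring
    have h2 : B.coord 1 (ρbar.ρ (σ * τ) (B 1)) =
        B.coord 1 (ρbar.ρ σ (B 1)) * B.coord 1 (ρbar.ρ τ (B 1)) := by
      rw [map_mul, Module.End.mul_apply, tri_coord1 B (ρbar.ρ σ) (fo_rho_basis0 hline hσ)]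
    rw [h1, h2, mul_inv]
    ring
  level := by
    obtain ⟨L, hL, h1⟩ := ρbar.factorsThroughFiniteLevel
    refine ⟨L, hL, fun σ _ τ _ hτ => ?_⟩
    unfold foChar
    rw [map_mul, h1 τ hτ, mul_one]
  cyc σ hσ n hn := by
    obtain ⟨x₀, hx, hI⟩ := hline.2 σ (mem_decomposition_of_mem_inertia hσ)
    obtain ⟨hcyc, hv⟩ := hI hσ
    obtain ⟨s, hs⟩ := hv (B 1)
    have h1 : B.coord 0 (ρbar.ρ σ (B 0)) = (n : k) := by
      rw [hx, map_smul, coord0_self, smul_eq_mul, mul_one, hcyc n hn]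
    have h2 : B.coord 1 (ρbar.ρ σ (B 1)) = 1 := by
      have : ρbar.ρ σ (B 1) = B 1 + s • B 0 := by rw [← hs]; abel
      rw [this, map_add, map_smul, coord1_self, coord1_self0, smul_eq_mul, mul_zero, add_zero]
    unfold foChar
    rw [h1, h2, inv_one, mul_one]

variable (p P B)

/-- Normalised flat-ordinary cocycles: upper triangular on `D_P` w.r.t. the line `k B₀`, with
unramified diagonal part and peu ramifié off-diagonal part. -/
def IsNormFO (c' : GQ → Module.End k ρbar.V) : Prop :=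
  IsAdCocycle ρbar c' ∧
    (∀ σ ∈ P.decompositionSubgroup ℚ, ∃ α : k, c' σ (B 0) = α • B 0) ∧
    (∀ σ ∈ P.inertiaSubgroupIn ℚ, c' σ (B 0) = 0) ∧
    Fermat.Agent.S56.H906.IsPeu p P (fun σ => B.coord 0 (c' σ (B 1)))

variable {p P B}

theorem isNormFO_zero [Fact p.Prime] :
    IsNormFO p P B (fun _ => (0 : Module.End k ρbar.V)) :=
  ⟨isAdCocycle_zero', fun _ _ => ⟨0, by simp⟩, fun _ _ => by simp, by
    simpa using isPeu_zero (k := k) (p := p) (P := P)⟩

theorem IsNormFO.add [Fact p.Prime] {c₁ c₂ : GQ → Module.End k ρbar.V}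
    (h₁ : IsNormFO p P B c₁) (h₂ : IsNormFO p P B c₂) :
    IsNormFO p P B (fun σ => c₁ σ + c₂ σ) := by
  refine ⟨IsAdCocycle.add' h₁.1 h₂.1, fun σ hσ => ?_, fun σ hσ => ?_, ?_⟩
  · obtain ⟨α₁, hα₁⟩ := h₁.2.1 σ hσ
    obtain ⟨α₂, hα₂⟩ := h₂.2.1 σ hσ
    exact ⟨α₁ + α₂, by rw [LinearMap.add_apply, hα₁, hα₂, add_smul]⟩
  · rw [LinearMap.add_apply, h₁.2.2.1 σ hσ, h₂.2.2.1 σ hσ, add_zero]
  · have := isPeu_add h₁.2.2.2 h₂.2.2.2
    refine isPeu_congr this fun σ _ => ?_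
    rw [LinearMap.add_apply, map_add]

theorem IsNormFO.smul [Fact p.Prime] {c₁ : GQ → Module.End k ρbar.V}
    (h₁ : IsNormFO p P B c₁) (r : k) : IsNormFO p P B (fun σ => r • c₁ σ) := by
  refine ⟨isAdCocycle_smul' h₁.1 r, fun σ hσ => ?_, fun σ hσ => ?_, ?_⟩
  · obtain ⟨α₁, hα₁⟩ := h₁.2.1 σ hσ
    exact ⟨r * α₁, by rw [LinearMap.smul_apply, hα₁, smul_smul]⟩
  · rw [LinearMap.smul_apply, h₁.2.2.1 σ hσ, smul_zero]
  · have := isPeu_smul h₁.2.2.2 r
    refine isPeu_congr this fun σ _ => ?_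
    rw [LinearMap.smul_apply, map_smul, smul_eq_mul]

/-- (N1) a normalised cocycle whose diagonal part vanishes at `φ` has no diagonal part. -/
theorem IsNormFO.diag_eq_zero (hline : IsFOLine ρbar p P (B 0)) {φ : GQ}
    (hφ : ∀ h : GQ → k,
      (∀ σ ∈ P.decompositionSubgroup ℚ, ∀ τ ∈ P.decompositionSubgroup ℚ,
        h (σ * τ) = h σ + h τ) →
      Fermat.Agent.S56.H906.HasLevelOn P h → (∀ σ ∈ P.inertiaSubgroupIn ℚ, h σ = 0) →
      h φ = 0 → ∀ σ ∈ P.decompositionSubgroup ℚ, h σ = 0)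
    {c' : GQ → Module.End k ρbar.V} (hc' : IsNormFO p P B c')
    (h0 : B.coord 0 (c' φ (B 0)) = 0) :
    ∀ σ ∈ P.decompositionSubgroup ℚ, c' σ (B 0) = 0 := by
  have hval : ∀ σ ∈ P.decompositionSubgroup ℚ, c' σ (B 0) = B.coord 0 (c' σ (B 0)) • B 0 := by
    intro σ hσ
    obtain ⟨α, hα⟩ := hc'.2.1 σ hσ
    rw [hα, map_smul, coord0_self, smul_eq_mul, mul_one]
  have key := hφ (fun σ => B.coord 0 (c' σ (B 0))) ?_ ?_ ?_ h0
  · intro σ hσ
    rw [hval σ hσ, key σ hσ, zero_smul]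
  · intro σ hσ τ hτ
    show B.coord 0 (c' (σ * τ) (B 0)) = _
    rw [hc'.1.map_mul, LinearMap.add_apply,
      tri_conj_basis0 B (ρbar.ρ σ) (ρbar.ρ σ⁻¹) (c' τ) (rho_inv_mul' ρbar σ)
        (fo_rho_basis0 hline hσ) (hval τ hτ),
      map_add, map_smul, coord0_self, smul_eq_mul, mul_one]
  · obtain ⟨L, hL, h1⟩ := hc'.1.level
    exact ⟨L, hL, fun σ _ τ _ hτ => by show B.coord 0 (c' (σ * τ) (B 0)) = _; rw [h1 σ τ hτ]⟩
  · intro σ hσ
    show B.coord 0 (c' σ (B 0)) = 0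
    rw [hc'.2.2.1 σ hσ, map_zero]

/-- (N2) a normalised cocycle without diagonal part is, on `D_P`, a multiple of `κ₀ n₀` up to
the coboundary of a multiple of `n₀` (KUM). -/
theorem IsNormFO.kum (hline : IsFOLine ρbar p P (B 0)) {κ₀ : GQ → k}
    (hκ₀ : ∀ c : GQ → k, Fermat.Agent.S56.H906.IsLocCocycle P (foChar B) c →
      Fermat.Agent.S56.H906.IsPeu p P c →
      ∃ lam m : k, ∀ σ ∈ P.decompositionSubgroup ℚ, c σ = lam * κ₀ σ + (foChar B σ - 1) * m)
    {c' : GQ → Module.End k ρbar.V} (hc' : IsNormFO p P B c')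
    (hz : ∀ σ ∈ P.decompositionSubgroup ℚ, c' σ (B 0) = 0) :
    ∃ lam m : k, ∀ σ ∈ P.decompositionSubgroup ℚ,
      c' σ = (lam * κ₀ σ) • nil0 B +
        (ρbar.ρ σ * (m • nil0 B) * ρbar.ρ σ⁻¹ - m • nil0 B) := by
  have hform : ∀ σ ∈ P.decompositionSubgroup ℚ, c' σ = B.coord 0 (c' σ (B 1)) • nil0 B :=
    fun σ hσ => eq_smul_nil0_of_trace B (c' σ) (hz σ hσ) (hc'.1.trace_eq_zero σ)
  have hcoc : Fermat.Agent.S56.H906.IsLocCocycle P (foChar B)
      (fun σ => B.coord 0 (c' σ (B 1))) := by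
    refine ⟨fun σ hσ τ hτ => ?_, ?_⟩
    · show B.coord 0 (c' (σ * τ) (B 1)) = _
      have e1 : c' (σ * τ) = c' σ + ρbar.ρ σ * c' τ * ρbar.ρ σ⁻¹ := hc'.1.map_mul σ τ
      have e2 : ρbar.ρ σ * c' τ * ρbar.ρ σ⁻¹ =
          (B.coord 0 (c' τ (B 1)) * foChar B σ) • nil0 B := by
        conv_lhs => rw [hform τ hτ]
        rw [mul_smul_comm, smul_mul_assoc, fo_conj_nil0 hline hσ, smul_smul]
      have e3 : c' (σ * τ) =
          (B.coord 0 (c' σ (B 1)) + foChar B σ * B.coord 0 (c' τ (B 1))) • nil0 B := by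
        rw [e1, e2, add_smul, mul_comm]
        congr 1
        exact hform σ hσ
      rw [e3, coord0_smul_nil0_basis1]
    · obtain ⟨L, hL, h1⟩ := hc'.1.level
      exact ⟨L, hL, fun σ _ τ _ hτ => by
        show B.coord 0 (c' (σ * τ) (B 1)) = _; rw [h1 σ τ hτ]⟩
  obtain ⟨lam, m, h⟩ := hκ₀ _ hcoc hc'.2.2.2
  refine ⟨lam, m, fun σ hσ => ?_⟩
  have e := h σ hσ
  beta_reduce at e
  rw [fo_cob_smul_nil0 hline hσ, ← add_smul, ← e]
  exact hform σ hσ

end count

/-! ## Normalisations -/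

section norm

variable {k : Type} [Field k] {ρbar : ResidualGaloisRep k} {p : ℕ} [Fact p.Prime]
  {P : ValuationSubring _root_.Fermat.Agent.S56.Qb} {B : Module.Basis (Fin 2) k ρbar.V}

/-- (N0) the normalisation `c + ∂(corr)` of a flat-ordinary cocycle. -/
theorem isNormFO_of_data {c : GQ → Module.End k ρbar.V} (hc : IsAdCocycle ρbar c) {ℓ₁ : ρbar.V}
    (hdata : IsFOData ρbar p P c (B 0) ℓ₁) (hpeu : IsPeuLift ρbar p P c) :
    IsNormFO p P B (fun σ => c σ + (ρbar.ρ σ * corr B ℓ₁ * ρbar.ρ σ⁻¹ - corr B ℓ₁)) := by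
  refine ⟨IsAdCocycle.add' hc (isAdCocycle_cob ρbar (corr B ℓ₁)), fun σ hσ => ?_,
    fun σ hσ => ?_, ?_⟩
  · obtain ⟨x₀, x₁, h1, h2, -⟩ := hdata.2 σ hσ
    exact ⟨x₁ * x₀⁻¹, fo_cprime_basis0 B (ρbar.ρ σ) (ρbar.ρ σ⁻¹) (c σ) (rho_inv_mul' ρbar σ) h1 h2⟩
  · obtain ⟨x₀, x₁, h1, h2, h3⟩ := hdata.2 σ (mem_decomposition_of_mem_inertia hσ)
    have hx1 := (h3 hσ).1
    rw [fo_cprime_basis0 B (ρbar.ρ σ) (ρbar.ρ σ⁻¹) (c σ) (rho_inv_mul' ρbar σ) h1 h2, hx1,
      zero_mul, zero_smul]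
  · intro ζ hζ ℓ
    let ΞV : (DualNumber k ⊗[k] ρbar.V) →ₗ[k] k :=
      (B.coord 0).comp dPi1 - (B.coord 0 ℓ₁) • (B.coord 0).comp dPi0
    obtain ⟨Bu, hBu, hB⟩ := hpeu ζ hζ (ℓ.comp (ΞV : (DualNumber k ⊗[k] ρbar.V) →+ k))
      (dIota (B 1))
    refine ⟨Bu, hBu, fun σ hσ hσζ => ?_⟩
    rw [hB σ hσ hσζ]
    congr 3
    obtain ⟨x₀, x₁, h1, h2, h3⟩ := hdata.2 σ (mem_decomposition_of_mem_inertia hσ)
    obtain ⟨hx1, -, hv⟩ := h3 hσ
    obtain ⟨u, hu⟩ := hv (B 1)
    rw [hx1, zero_smul, add_zero] at h2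
    have e1 := fo_cprime_basis1 B (ρbar.ρ σ) (ρbar.ρ σ⁻¹) (c σ) (rho_inv_mul' ρbar σ) h1 h2 hu
    show ℓ (ΞV (liftEnd ρbar c σ (dIota (B 1)) - dIota (B 1))) =
      ℓ (B.coord 0 ((c σ + (ρbar.ρ σ * corr B ℓ₁ * ρbar.ρ σ⁻¹ - corr B ℓ₁)) (B 1)))
    congr 1
    rw [e1]
    show (B.coord 0) (dPi1 (liftEnd ρbar c σ (dIota (B 1)) - dIota (B 1))) -
      (B.coord 0 ℓ₁) * (B.coord 0) (dPi0 (liftEnd ρbar c σ (dIota (B 1)) - dIota (B 1))) = _
    have hd1 : dPi1 (liftEnd ρbar c σ (dIota (B 1)) - dIota (B 1)) = c σ (ρbar.ρ σ (B 1)) := by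
      rw [map_sub, dPi1_liftEnd, dPi0_dIota, dPi1_dIota, map_zero, zero_add, sub_zero]
    have hd0 : dPi0 (liftEnd ρbar c σ (dIota (B 1)) - dIota (B 1)) = u • B 0 := by
      rw [map_sub, dPi0_liftEnd, dPi0_dIota, hu]
    rw [hd1, hd0, map_sub, map_smul, map_smul, coord0_self, smul_eq_mul, smul_eq_mul, mul_one,
      mul_comm]

/-- (N0') the coboundary of the projector on the line is normalised. -/
theorem isNormFO_proj (hline : IsFOLine ρbar p P (B 0)) {c₀ : GQ → Module.End k ρbar.V}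
    (hpeu : IsPeuLift ρbar p P c₀) :
    IsNormFO p P B (fun σ => ρbar.ρ σ * proj0 B * ρbar.ρ σ⁻¹ - proj0 B) := by
  have hz : ∀ σ ∈ P.decompositionSubgroup ℚ,
      (ρbar.ρ σ * proj0 B * ρbar.ρ σ⁻¹ - proj0 B) (B 0) = 0 := by
    intro σ hσ
    have h1 := fo_rho_basis0 hline hσ
    exact conj_proj0_basis0 B (ρbar.ρ σ) (ρbar.ρ σ⁻¹) (rho_inv_mul' ρbar σ) _ h1
      (tri_x0_ne_zero B (ρbar.ρ σ) (ρbar.ρ σ⁻¹) (rho_inv_mul' ρbar σ) h1)
  refine ⟨isAdCocycle_cob ρbar (proj0 B), fun σ hσ => ⟨0, by rw [hz σ hσ, zero_smul]⟩,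
    fun σ hσ => hz σ (mem_decomposition_of_mem_inertia hσ), ?_⟩
  intro ζ hζ ℓ
  let ΞV : (DualNumber k ⊗[k] ρbar.V) →ₗ[k] k := -((B.coord 0).comp dPi0)
  obtain ⟨Bu, hBu, hB⟩ := hpeu ζ hζ (ℓ.comp (ΞV : (DualNumber k ⊗[k] ρbar.V) →+ k))
    (dIota (B 1))
  refine ⟨Bu, hBu, fun σ hσ hσζ => ?_⟩
  rw [hB σ hσ hσζ]
  congr 3
  have hσD := mem_decomposition_of_mem_inertia hσ
  obtain ⟨x₀, hx, hI⟩ := hline.2 σ hσD
  obtain ⟨u, hu⟩ := (hI hσ).2 (B 1)
  have e1 := fo_conj_proj0_basis1 B (ρbar.ρ σ) (ρbar.ρ σ⁻¹) (rho_inv_mul' ρbar σ) hx hu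
  show ℓ (ΞV (liftEnd ρbar c₀ σ (dIota (B 1)) - dIota (B 1))) =
    ℓ (B.coord 0 ((ρbar.ρ σ * proj0 B * ρbar.ρ σ⁻¹ - proj0 B) (B 1)))
  congr 1
  rw [e1]
  show -((B.coord 0) (dPi0 (liftEnd ρbar c₀ σ (dIota (B 1)) - dIota (B 1)))) = _
  have hd0 : dPi0 (liftEnd ρbar c₀ σ (dIota (B 1)) - dIota (B 1)) = u • B 0 := by
    rw [map_sub, dPi0_liftEnd, dPi0_dIota, hu]
  rw [hd0, map_smul, map_smul, coord0_self, smul_eq_mul, smul_eq_mul, mul_one, neg_mul,
    mul_one]

end norm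

/-! ## The local bound -/

section final

variable {k : Type} [Field k]

/-- **FLAT-O over a field**, from the structure of flat-ordinary lifts, KUM and UNRHOM. -/
theorem localBoundAt_flatO [Finite k] {p : ℕ} [Fact p.Prime] [CharP k p] (hp2 : p ≠ 2)
    (hkum : Fermat.Agent.S56.H906.KumStatement)
    (hunr : Fermat.Agent.S56.H906.UnramHomStatement)
    (ρbar : ResidualGaloisRep k) (P : ValuationSubring _root_.Fermat.Agent.S56.Qb) (hP : P.LiesOverPrime p)
    (hadm : ∀ c : GQ → Module.End k ρbar.V, IsAdCocycle ρbar c →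
      (∃ ρ' : GaloisRepAdic (DualNumber k), IsLiftOf ρbar c ρ' ∧
        ρ'.DetIsCyclotomic p ∧ ρ'.IsFlatAt p) →
      (∃ ℓ₀ ℓ₁ : ρbar.V, IsFOData ρbar p P c ℓ₀ ℓ₁) ∧ IsPeuLift ρbar p P c) :
    LocalBoundAt ρbar P (fun ρ' => ρ'.DetIsCyclotomic p ∧ ρ'.IsFlatAt p) 1 := by
  classical
  have hp : p.Prime := Fact.out
  by_cases hex : ∃ (c : GQ → Module.End k ρbar.V) (ρ' : GaloisRepAdic (DualNumber k)),
      IsAdCocycle ρbar c ∧ IsLiftOf ρbar c ρ' ∧ ρ'.DetIsCyclotomic p ∧ ρ'.IsFlatAt p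
  swap
  · refine ⟨⊥, inferInstance, ?_, fun c hc h => ?_⟩
    · rw [finrank_bot]; exact Nat.zero_le _
    · obtain ⟨ρ', hl, hd, hs⟩ := h
      exact (hex ⟨c, ρ', hc, hl, hd, hs⟩).elim
  obtain ⟨c₀, ρ₀, hc₀, hl₀, hd₀, hf₀⟩ := hex
  obtain ⟨⟨ℓ₀, ℓ₁z, hdata₀⟩, hpeu₀⟩ := hadm c₀ hc₀ ⟨ρ₀, hl₀, hd₀, hf₀⟩
  obtain ⟨B, hB0⟩ := exists_basis_zero_eq ρbar.finrank_eq hdata₀.1
  have hline : IsFOLine ρbar p P (B 0) := by rw [hB0]; exact hdata₀.isFOLine
  obtain ⟨κ₀, hκ₀⟩ := hkum p hp2 k P hP (foChar B) (foChar_isOrdChar hline)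
  obtain ⟨φ, -, hφ⟩ := hunr p hp P hP
  have hφ' := hφ k
  -- every admissible cocycle has a normalisation
  have hnorm : ∀ c : GQ → Module.End k ρbar.V, IsAdCocycle ρbar c →
      (∃ ρ' : GaloisRepAdic (DualNumber k), IsLiftOf ρbar c ρ' ∧
        ρ'.DetIsCyclotomic p ∧ ρ'.IsFlatAt p) →
      ∃ M : Module.End k ρbar.V,
        IsNormFO p P B (fun σ => c σ + (ρbar.ρ σ * M * ρbar.ρ σ⁻¹ - M)) := by
    intro c hc hl
    obtain ⟨⟨ℓ₀', ℓ₁', hdata⟩, hpeu⟩ := hadm c hc hl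
    obtain ⟨r, hr, hrl⟩ := IsFOLine.unique hp hp2 hP hline hdata.isFOLine
    have h2 := hdata.smul (inv_ne_zero hr)
    have e : r⁻¹ • ℓ₀' = B 0 := by rw [hrl, smul_smul, inv_mul_cancel₀ hr, one_smul]
    rw [e] at h2
    exact ⟨corr B (r⁻¹ • ℓ₁'), isNormFO_of_data hc h2 hpeu⟩
  -- the diagonal generator
  obtain ⟨η, hη, hηspec⟩ : ∃ η : GQ → Module.End k ρbar.V, IsNormFO p P B η ∧
      ∀ c' : GQ → Module.End k ρbar.V, IsNormFO p P B c' →
        ∃ μ : k, B.coord 0 ((c' φ + (-μ) • η φ) (B 0)) = 0 := by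
    by_cases h : ∃ c₁ : GQ → Module.End k ρbar.V, IsNormFO p P B c₁ ∧
        B.coord 0 (c₁ φ (B 0)) ≠ 0
    · obtain ⟨c₁, hc₁, hne⟩ := h
      refine ⟨c₁, hc₁, fun c' _ => ⟨B.coord 0 (c' φ (B 0)) / B.coord 0 (c₁ φ (B 0)), ?_⟩⟩
      rw [LinearMap.add_apply, LinearMap.smul_apply, map_add, map_smul, smul_eq_mul, neg_mul,
        div_mul_cancel₀ _ hne, add_neg_cancel]
    · push Not at h
      refine ⟨fun _ => 0, isNormFO_zero, fun c' hc' => ⟨0, ?_⟩⟩
      rw [neg_zero, zero_smul, add_zero]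
      exact h c' hc'
  -- decomposition of the normalised cocycles
  have hdec : ∀ c' : GQ → Module.End k ρbar.V, IsNormFO p P B c' →
      ∃ μ lam m : k, ∀ σ ∈ P.decompositionSubgroup ℚ,
        c' σ = μ • η σ + (lam * κ₀ σ) • nil0 B +
          (ρbar.ρ σ * (m • nil0 B) * ρbar.ρ σ⁻¹ - m • nil0 B) := by
    intro c' hc'
    obtain ⟨μ, hμ⟩ := hηspec c' hc'
    have hc'' : IsNormFO p P B (fun σ => c' σ + (-μ) • η σ) := hc'.add (hη.smul (-μ))
    have hz := hc''.diag_eq_zero hline hφ' hμ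
    obtain ⟨lam, m, h⟩ := hc''.kum hline hκ₀ hz
    refine ⟨μ, lam, m, fun σ hσ => ?_⟩
    have e := h σ hσ
    beta_reduce at e
    have e' : c' σ = (lam * κ₀ σ) • nil0 B +
        (ρbar.ρ σ * (m • nil0 B) * ρbar.ρ σ⁻¹ - m • nil0 B) - (-μ) • η σ :=
      eq_sub_of_add_eq e
    rw [e']
    module
  by_cases hinv : adInv ρbar (P.decompositionSubgroup ℚ) = ⊥
  · -- `H⁰ = 0`: the coboundary of the projector is a relation
    have hδ : IsNormFO p P B (fun σ => ρbar.ρ σ * proj0 B * ρbar.ρ σ⁻¹ - proj0 B) :=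
      isNormFO_proj hline hpeu₀
    have hzδ : ∀ σ ∈ P.decompositionSubgroup ℚ,
        (ρbar.ρ σ * proj0 B * ρbar.ρ σ⁻¹ - proj0 B) (B 0) = 0 := by
      intro σ hσ
      obtain ⟨α, hα⟩ := hδ.2.1 σ hσ
      have h1 := fo_rho_basis0 hline hσ
      exact conj_proj0_basis0 B (ρbar.ρ σ) (ρbar.ρ σ⁻¹) (rho_inv_mul' ρbar σ) _ h1
        (tri_x0_ne_zero B (ρbar.ρ σ) (ρbar.ρ σ⁻¹) (rho_inv_mul' ρbar σ) h1)
    obtain ⟨lam_d, m_d, hd⟩ := hδ.kum hline hκ₀ hzδ
    have h2k : (2 : k) ≠ 0 := by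
      intro h
      have h' : ((2 : ℕ) : k) = 0 := by exact_mod_cast h
      have hdvd : p ∣ 2 := (CharP.cast_eq_zero_iff k p 2).mp h'
      exact hp2 ((Nat.prime_dvd_prime_iff_eq hp Nat.prime_two).mp hdvd)
    have hne : lam_d ≠ 0 := by
      intro h0
      have hmem : proj0 B - m_d • nil0 B - (2 : k)⁻¹ • (1 : Module.End k ρbar.V) ∈
          adInv ρbar (P.decompositionSubgroup ℚ) := by
        refine ⟨?_, fun σ hσ => ?_⟩
        · rw [map_sub, map_sub, map_smul, map_smul, trace_proj0, trace_nil0,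
            LinearMap.trace_one, ρbar.finrank_eq]
          simp only [smul_eq_mul, mul_zero, sub_zero, Nat.cast_ofNat]
          rw [inv_mul_cancel₀ h2k, sub_self]
        · have h := hd σ hσ
          beta_reduce at h
          rw [h0, zero_mul, zero_smul, zero_add] at h
          have h' : ρbar.ρ σ * (proj0 B - m_d • nil0 B) * ρbar.ρ σ⁻¹ =
              proj0 B - m_d • nil0 B := by
            have e1 : ρbar.ρ σ * (proj0 B - m_d • nil0 B) * ρbar.ρ σ⁻¹ -
                (proj0 B - m_d • nil0 B) =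
                (ρbar.ρ σ * proj0 B * ρbar.ρ σ⁻¹ - proj0 B) -
                  (ρbar.ρ σ * (m_d • nil0 B) * ρbar.ρ σ⁻¹ - m_d • nil0 B) := by
              rw [mul_sub, sub_mul]; abel
            rw [h, sub_self] at e1
            exact sub_eq_zero.mp e1
          rw [mul_sub, sub_mul, h', mul_smul_comm, smul_mul_assoc, mul_one,
            rho_mul_inv' ρbar σ]
      rw [hinv, Submodule.mem_bot] at hmem
      have h0' := congrArg (fun F : Module.End k ρbar.V => B.coord 0 (F (B 0))) hmem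
      simp only [LinearMap.sub_apply, LinearMap.smul_apply, proj0_apply, nil0_apply,
        Module.End.one_apply, map_sub, map_smul, coord0_self, coord1_self0, smul_eq_mul,
        mul_one, zero_smul, smul_zero, sub_zero, one_smul, LinearMap.zero_apply,
        map_zero] at h0'
      have : (2 : k)⁻¹ = 1 := (sub_eq_zero.mp h0').symm
      have h21 : (2 : k) = 1 := by
        have := congrArg (fun t => (2 : k) * t) this
        simp only [mul_inv_cancel₀ h2k, mul_one] at this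
        exact this.symm
      have h10 : (1 : k) = 0 := by
        have : (2 : k) - 1 = 0 := by rw [h21, sub_self]
        norm_num at this
      exact one_ne_zero h10
    refine ⟨Submodule.span k {η}, Module.Finite.span_of_finite k (Set.toFinite _), ?_,
      fun c hc hex' => ?_⟩
    · rw [hinv, finrank_bot, zero_add]
      exact finrank_span_single_le _
    · obtain ⟨M, hM⟩ := hnorm c hc hex'
      obtain ⟨μ, lam, m, hdec'⟩ := hdec _ hM
      obtain ⟨r, hr⟩ : ∃ r : k, r * lam_d = lam := ⟨lam * lam_d⁻¹, by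
        rw [mul_assoc, inv_mul_cancel₀ hne, mul_one]⟩
      refine ⟨μ • η, Submodule.smul_mem _ _ (Submodule.subset_span (Set.mem_singleton _)),
        r • (proj0 B - m_d • nil0 B) + m • nil0 B - M, fun σ hσ => ?_⟩
      have e1 := hdec' σ hσ
      beta_reduce at e1
      have e2 := hd σ hσ
      beta_reduce at e2
      have e1' : c σ = μ • η σ + (lam * κ₀ σ) • nil0 B +
          (ρbar.ρ σ * (m • nil0 B) * ρbar.ρ σ⁻¹ - m • nil0 B) -
            (ρbar.ρ σ * M * ρbar.ρ σ⁻¹ - M) := eq_sub_of_add_eq e1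
      have e2' : ρbar.ρ σ * proj0 B * ρbar.ρ σ⁻¹ = (lam_d * κ₀ σ) • nil0 B +
          (ρbar.ρ σ * (m_d • nil0 B) * ρbar.ρ σ⁻¹ - m_d • nil0 B) + proj0 B :=
        eq_add_of_sub_eq e2
      show c σ - (μ • η) σ = _
      rw [Pi.smul_apply, e1', ← hr]
      simp only [mul_add, add_mul, mul_sub, sub_mul, mul_smul_comm, smul_mul_assoc] at e2' ⊢
      rw [e2']
      module
  · -- `H⁰ ≠ 0`
    refine ⟨Submodule.span k {η, fun σ => κ₀ σ • nil0 B},
      Module.Finite.span_of_finite k (Set.toFinite _), ?_, fun c hc hex' => ?_⟩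
    · have h1 : 1 ≤ Module.finrank k (adInv ρbar (P.decompositionSubgroup ℚ)) :=
        Submodule.one_le_finrank_iff.mpr hinv
      have h2 := finrank_span_pair_le (k := k) η (fun σ => κ₀ σ • nil0 B)
      omega
    · obtain ⟨M, hM⟩ := hnorm c hc hex'
      obtain ⟨μ, lam, m, hdec'⟩ := hdec _ hM
      refine ⟨μ • η + lam • (fun σ => κ₀ σ • nil0 B), ?_, m • nil0 B - M, fun σ hσ => ?_⟩
      · exact Submodule.add_mem _
          (Submodule.smul_mem _ _ (Submodule.subset_span (Set.mem_insert _ _)))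
          (Submodule.smul_mem _ _ (Submodule.subset_span
            (Set.mem_insert_of_mem _ (Set.mem_singleton _))))
      · have e1 := hdec' σ hσ
        beta_reduce at e1
        have e1' : c σ = μ • η σ + (lam * κ₀ σ) • nil0 B +
            (ρbar.ρ σ * (m • nil0 B) * ρbar.ρ σ⁻¹ - m • nil0 B) -
              (ρbar.ρ σ * M * ρbar.ρ σ⁻¹ - M) := eq_sub_of_add_eq e1
        show c σ - (μ • η σ + lam • (κ₀ σ • nil0 B)) = _
        rw [e1']
        simp only [mul_sub, sub_mul, mul_smul_comm, smul_mul_assoc]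
        module

end final

/-- **FLAT-O** (`FL.FlatOStatement`, the shape consumed by the proved glue `FL.locFlatP_of`) from
the ordinary line of flat lifts (STRUCT), FU, KUM and UNRHOM. -/
theorem flatO_of (hline : FlatOrdLineStatement)
    (hFU : Fermat.Agent.S56.H906.FlatUnitStatement)
    (hkum : Fermat.Agent.S56.H906.KumStatement)
    (hunr : Fermat.Agent.S56.H906.UnramHomStatement) :
    Fermat.Agent.S56.FL.FlatOStatement := by
  intro 𝒪 _ _ _ _ _ p ρbar S Smin hyp P hP hred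
  haveI : Fact p.Prime := ⟨hyp.hp⟩
  have hpk : ((p : ℕ) : ResidueField 𝒪) = 0 := by
    have h := (IsLocalRing.residue_eq_zero_iff (p : 𝒪)).mpr hyp.hp𝒪
    rwa [map_natCast] at h
  haveI : CharP (ResidueField 𝒪) p := (CharP.charP_iff_prime_eq_zero hyp.hp).mpr hpk
  refine localBoundAt_flatO hyp.hp2 hkum hunr ρbar P hP fun c hc hl => ?_
  obtain ⟨ρ', hl', hd, hf⟩ := hl
  obtain ⟨L, ⟨b, hLb⟩, hD, hI⟩ := hline 𝒪 p ρbar S Smin hyp P hP hred c ρ' hc hl' hd hf
  exact ⟨locFO_struct hyp.hp c ρ' hl' hd hLb hD hI,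
    isPeuLift_of_flat hFU c ρ' hl' hd hf hP hLb hD hI⟩

end Fermat.Agent.S56.H656

end

end
-- ===== PACK-END S56/H656/FlatOCount.lean

-- ===== PACK-BEGIN S56/H606/LocMin.lean
section



/-!
# S56 / LOC-MIN (helper606): the frozen leaf `H716.LocMinStatement`

Assembly of
* LOC-MIN-A (helper794, `H794/LocMinA.lean`): a tangent cocycle whose lift is unipotent on
  inertia at `v ≠ p` is a coboundary on the inertia group of every place `P ∣ v` at which `ρ̄` is
  ramified;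
* LOC-MIN-B (`H606/UnrBound.lean`): cocycles which are coboundaries on `I_P` span, modulo
  coboundaries on `D_P`, a space of dimension at most `h⁰(D_P, ad⁰ρ̄)`;
* existence of Frobenius elements at `P` and conjugacy of the places over `v`
  (`Lib/Cheb/H476`).
-/

set_option autoImplicit false

open Polynomial IsLocalRing

noncomputable section

namespace Fermat.Agent.S56.H606

open Fermat.Agent.S56 Fermat.Agent.S56.H716

/-- **LOC-MIN** for one place, over any field `k` of odd characteristic `p`: if `ρ̄` is ramified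
at the place `P ∣ v`, `v ≠ p`, the unipotent-on-inertia lifts satisfy the local bound with defect
`0`. -/
theorem localBoundAt_unipotent {k : Type} [Field k] (ρbar : ResidualGaloisRep k) {p : ℕ}
    (hp : p.Prime) (hp2 : p ≠ 2) (hpk : (p : k) = 0) {v : ℕ} (hv : v.Prime) (hvp : v ≠ p)
    {P : ValuationSubring Qb} (hP : P.LiesOverPrime v)
    (hram : ∃ τ ∈ P.inertiaSubgroupIn ℚ, ρbar.ρ τ ≠ 1)
    (Ty : GaloisRepAdic (DualNumber k) → Prop)
    (hTy : ∀ ρ', Ty ρ' → ρ'.IsUnipotentOnInertiaAt v) :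
    LocalBoundAt ρbar P Ty 0 := by
  obtain ⟨φ, hφ, -⟩ := Fermat.Agent.Lib.Cheb.H476.exists_frobenius_at v hv P hP
  apply localBoundAt_zero_of_frobenius hv hP hφ
  rintro c hc ⟨ρ', hlift, hρ'⟩
  obtain ⟨m, -, hm⟩ := Fermat.Agent.S56.H794.exists_coboundary_on_inertia_of_unipotent
    hp hp2 hpk hc hlift hv hvp (hTy ρ' hρ') hP hram
  exact ⟨m, hm⟩

/-- A residual representation ramified at `v` is ramified at every place over `v`. -/
theorem exists_ramified_of_not_isUnramifiedAt {k : Type} [Field k] (ρbar : ResidualGaloisRep k)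
    {v : ℕ} (hv : v.Prime) (hnr : ¬ ρbar.IsUnramifiedAt v) {P : ValuationSubring Qb}
    (hP : P.LiesOverPrime v) : ∃ τ ∈ P.inertiaSubgroupIn ℚ, ρbar.ρ τ ≠ 1 := by
  by_contra hcon
  have hcon' : ∀ τ ∈ P.inertiaSubgroupIn ℚ, ρbar.ρ τ = 1 := fun τ hτ => by
    by_contra h
    exact hcon ⟨τ, hτ, h⟩
  exact hnr (fun A hA σ hσ =>
    Fermat.Agent.Lib.Cheb.H476.map_inertia_eq_one_of_liesOver ρbar.ρ hv hP hA hcon' σ hσ)

/-- **LOC-MIN-B**: the leaf `H794.LocMinBStatement` of helper794's interface. -/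
theorem locMinB : Fermat.Agent.S56.H794.LocMinBStatement := by
  intro k _ ρbar q hq P hP
  obtain ⟨φ, hφ, -⟩ := Fermat.Agent.Lib.Cheb.H476.exists_frobenius_at q hq P hP
  exact exists_unramified_space hq hP hφ

/-- **LOC-MIN**: the frozen leaf `H716.LocMinStatement`. -/
theorem locMin : LocMinStatement := by
  intro 𝒪 _ _ _ _ _ p ρbar S Smin hyp v hv hvp P hP
  have hvprime : v.Prime := hyp.hS v (hyp.hSmin hv)
  have hpk : (p : ResidueField 𝒪) = 0 := by
    have h1 : residue 𝒪 (p : 𝒪) = 0 := (residue_eq_zero_iff _).mpr hyp.hp𝒪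
    rwa [map_natCast] at h1
  exact localBoundAt_unipotent ρbar hyp.hp hyp.hp2 hpk hvprime hvp hP
    (exists_ramified_of_not_isUnramifiedAt ρbar hvprime
      ((hyp.hmin v hvprime hvp).mp hv) hP) _ (fun _ h => h.2)

end Fermat.Agent.S56.H606

end

end
-- ===== PACK-END S56/H606/LocMin.lean

-- ===== PACK-BEGIN S56/H14/InvRecCore.lean
section


/-!
# Row S56 — INVREC, generic core: `H²` with coefficients in `W(χ) = W ⊗ k(χ)` (helper14)

`G` a group with a level system `L`, `k` a field, `χ : G → kˣ` a character, `W` a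
finite-dimensional `k`-vector space, `twTriv χ W` the module `W` with `G` acting through `χ`.
A linear map `inv : H²(G, k(χ)) → k` extends to `H²(G, W(χ)) → W`:

* `eq_zero_of_forall_pushH2_dual` : a class `x ∈ H²(G, W(χ))` all of whose coordinates
  `f_* x ∈ H²(G, k(χ))` (`f ∈ W^*`) vanish is zero;
* `extInv inv : H²(G, W(χ)) →ₗ[k] W`, characterised by `f (extInv inv x) = inv (f_* x)`;
* `extInv_pushH2_endo` : `extInv` commutes with every `k`-linear endomorphism `T` of `W`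
  (so it is linear over any field `K ⊇ k` acting on `W`);
* `extInv_eq_zero_iff` : if `inv` is injective then `extInv inv x = 0 ↔ x = 0`.

Nothing unproved in this file; Mathlib + `S55/PT` only.
-/

set_option autoImplicit false

noncomputable section

namespace Fermat.Agent.S56.H14

open groupCohomology Fermat.Agent.S55.PT

variable {k : Type} [Field k] {G : Type} [Group G] (L : LevelSys G) (χ : G →* kˣ)
  (W : Type) [AddCommGroup W] [Module k W]

/-- every `k`-linear map `W → W'` is equivariant for the twisted trivial actions -/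
lemma twTriv_isEquivariant {W' : Type} [AddCommGroup W'] [Module k W'] (f : W →ₗ[k] W') :
    IsEquivariant (A := twTriv χ W) (B := twTriv χ W') f := by
  intro g w
  rw [twTriv_ρ_apply, twTriv_ρ_apply, map_smul]

/-- every functional on `W` is an equivariant map `W(χ) → k(χ)` -/
lemma dual_isEquivariant (f : Module.Dual k W) :
    IsEquivariant (A := twTriv χ W) (B := ofChar χ) f :=
  twTriv_isEquivariant χ W f

variable {W}

/-- the coordinate `f_* : H²(G, W(χ)) → H²(G, k(χ))` of a functional `f` -/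
def pushDual (f : Module.Dual k W) : L.H2 (twTriv χ W) →ₗ[k] L.H2 (ofChar χ) :=
  pushH2 (A := twTriv χ W) (B := ofChar χ) f (dual_isEquivariant χ W f) L

lemma pushDual_add (f f' : Module.Dual k W) (x : L.H2 (twTriv χ W)) :
    pushDual L χ (f + f') x = pushDual L χ f x + pushDual L χ f' x :=
  pushH2_add (A := twTriv χ W) (B := ofChar χ) L (dual_isEquivariant χ W f)
    (dual_isEquivariant χ W f') x

lemma pushDual_smul (a : k) (f : Module.Dual k W) (x : L.H2 (twTriv χ W)) :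
    pushDual L χ (a • f) x = a • pushDual L χ f x :=
  pushH2_smul (A := twTriv χ W) (B := ofChar χ) L a (dual_isEquivariant χ W f) x

/-- `x ↦ (f ↦ inv (f_* x))`, with values in the double dual of `W` -/
def extInvDual (inv : L.H2 (ofChar χ) →ₗ[k] k) :
    L.H2 (twTriv χ W) →ₗ[k] Module.Dual k (Module.Dual k W) where
  toFun x :=
    { toFun := fun f => inv (pushDual L χ f x)
      map_add' := fun f f' => by rw [pushDual_add, map_add]
      map_smul' := fun a f => by rw [pushDual_smul, map_smul, RingHom.id_apply] }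
  map_add' x y := by
    apply LinearMap.ext
    intro f
    simp only [LinearMap.coe_mk, AddHom.coe_mk, map_add, LinearMap.add_apply]
  map_smul' a x := by
    apply LinearMap.ext
    intro f
    simp only [LinearMap.coe_mk, AddHom.coe_mk, map_smul, RingHom.id_apply,
      LinearMap.smul_apply]

@[simp] lemma extInvDual_apply (inv : L.H2 (ofChar χ) →ₗ[k] k) (x : L.H2 (twTriv χ W))
    (f : Module.Dual k W) : extInvDual L χ inv x f = inv (pushDual L χ f x) := rfl

variable [FiniteDimensional k W]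

/-- **The extension of `inv` to coefficients in `W(χ)`.** -/
def extInv (inv : L.H2 (ofChar χ) →ₗ[k] k) : L.H2 (twTriv χ W) →ₗ[k] W :=
  (Module.evalEquiv k W).symm.toLinearMap ∘ₗ extInvDual L χ inv

/-- characterisation: `f (extInv inv x) = inv (f_* x)` -/
lemma dual_extInv (inv : L.H2 (ofChar χ) →ₗ[k] k) (x : L.H2 (twTriv χ W))
    (f : Module.Dual k W) : f (extInv L χ inv x) = inv (pushDual L χ f x) := by
  have h : Module.evalEquiv k W (extInv L χ inv x) = extInvDual L χ inv x := by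
    simp only [extInv, LinearMap.comp_apply, LinearEquiv.coe_coe, LinearEquiv.apply_symm_apply]
  have h2 := LinearMap.congr_fun h f
  rwa [Module.evalEquiv_apply, Module.Dual.eval_apply] at h2

lemma extInv_eq_of_forall_dual (inv : L.H2 (ofChar χ) →ₗ[k] k) (x : L.H2 (twTriv χ W)) (w : W)
    (h : ∀ f : Module.Dual k W, f w = inv (pushDual L χ f x)) : extInv L χ inv x = w := by
  apply sub_eq_zero.1
  apply (Module.forall_dual_apply_eq_zero_iff k _).1
  intro f
  rw [map_sub, dual_extInv, h, sub_self]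

/-- `extInv` commutes with linear endomorphisms of `W`. -/
theorem extInv_pushH2_endo (inv : L.H2 (ofChar χ) →ₗ[k] k) (T : W →ₗ[k] W)
    (x : L.H2 (twTriv χ W)) :
    extInv L χ inv (pushH2 (A := twTriv χ W) (B := twTriv χ W) T
      (twTriv_isEquivariant χ W T) L x) = T (extInv L χ inv x) := by
  apply extInv_eq_of_forall_dual
  intro f
  have h1 : f (T (extInv L χ inv x)) = (f ∘ₗ T) (extInv L χ inv x) := rfl
  rw [h1, dual_extInv]
  congr 1
  obtain ⟨c, rfl⟩ := L.H2π_surjective _ x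
  rfl

/-- A class all of whose coordinates vanish is zero. -/
theorem eq_zero_of_forall_pushDual (x : L.H2 (twTriv χ W))
    (h : ∀ f : Module.Dual k W, pushDual L χ f x = 0) : x = 0 := by
  obtain ⟨c, rfl⟩ := L.H2π_surjective _ x
  rw [LevelSys.H2π_eq_zero_iff]
  let b := Module.finBasis k W
  have hy : ∀ i, ∃ y : G → k, L.IsLC₁ y ∧
      (d₁₂ (ofChar χ)).hom y = (b.coord i) ∘ (c : G × G → W) := by
    intro i
    have hi := h (b.coord i)
    have hi' : L.H2π (ofChar χ) (pushZ2 (A := twTriv χ W) (B := ofChar χ) (b.coord i)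
        (dual_isEquivariant χ W (b.coord i)) L c) = 0 := hi
    rw [LevelSys.H2π_eq_zero_iff] at hi'
    obtain ⟨y, hy, hd⟩ := hi'
    exact ⟨y, hy, hd⟩
  choose y hyLC hyd using hy
  refine ⟨fun g => ∑ i, y i g • b i, ?_, ?_⟩
  · -- level-constant
    have : ∀ s : Finset (Fin (Module.finrank k W)),
        L.IsLC₁ (fun g => ∑ i ∈ s, y i g • b i) := by
      intro s
      induction s using Finset.induction_on with
      | empty => simpa using L.isLC₁_const (0 : W)
      | insert a s ha ih =>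
        have h1 : (fun g => ∑ i ∈ insert a s, y i g • b i)
            = (fun g => y a g • b a) + (fun g => ∑ i ∈ s, y i g • b i) := by
          funext g
          simp only [Pi.add_apply, Finset.sum_insert ha]
        rw [h1]
        exact LevelSys.IsLC₁.add (LevelSys.IsLC₁.comp (hyLC a) (fun t => t • b a)) ih
    exact this Finset.univ
  · funext ⟨g, h'⟩
    have hcoord : ∀ i, (b.coord i) (c.1 (g, h'))
        = (χ g : k) * y i h' - y i (g * h') + y i g := by
      intro i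
      have := congrFun (hyd i) (g, h')
      simp only [d₁₂_hom_apply, Function.comp_apply] at this
      rw [← this, ofChar_ρ_apply]
    have hsum : c.1 (g, h') = ∑ i, (b.coord i) (c.1 (g, h')) • b i :=
      (b.sum_repr (c.1 (g, h'))).symm
    show (d₁₂ (twTriv χ W)).hom (fun g => ∑ i, y i g • b i) (g, h') = c.1 (g, h')
    rw [hsum]
    have hρ : ∀ w : W, (twTriv χ W).ρ g w = (χ g : k) • w := twTriv_ρ_apply χ W g
    have hd : (d₁₂ (twTriv χ W)).hom (fun g => ∑ i, y i g • b i) (g, h')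
        = (twTriv χ W).ρ g (∑ i, y i h' • b i) - ∑ i, y i (g * h') • b i
          + ∑ i, y i g • b i := rfl
    rw [hd, hρ]
    simp only [hcoord, Finset.smul_sum, smul_smul, add_smul, sub_smul, Finset.sum_add_distrib,
      Finset.sum_sub_distrib]

/-- If `inv` is injective, so is its extension `extInv`. -/
theorem extInv_eq_zero_iff {inv : L.H2 (ofChar χ) →ₗ[k] k} (hinv : Function.Injective inv)
    (x : L.H2 (twTriv χ W)) : extInv L χ inv x = 0 ↔ x = 0 := by
  constructor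
  · intro h0
    apply eq_zero_of_forall_pushDual
    intro f
    apply hinv
    rw [map_zero, ← dual_extInv, h0, map_zero]
  · rintro rfl
    exact map_zero _

end Fermat.Agent.S56.H14

end

end
-- ===== PACK-END S56/H14/InvRecCore.lean

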