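import Mathlib.RepresentationTheory.Homological.GroupCohomology.Shapiro
import Mathlib.RepresentationTheory.Homological.GroupCohomology.LongExactSequence
import Mathlib.RepresentationTheory.Homological.GroupCohomology.Functoriality
import Mathlib.RepresentationTheory.Homological.GroupCohomology.LowDegree
import Mathlib.RepresentationTheory.Homological.GroupCohomology.FiniteCyclic
import Mathlib.GroupTheory.Sylow
import Fermat.Agent.Pack.S43GC.G2E0L0

-- ===== PACK-BEGIN S55/Mackey/Main.lean
section


/-!
# S55 (helper61): Mackey–Shapiro decomposition for group cohomology — main theorem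

`mackeyPi_bijective` : for an injective `α : H →* G`, a subgroup `D ≤ G`, `A : Rep k D` and a
Mackey system `(Hs i, j i, κ i, x i)` (see `Defs.lean`), the map
`Hⁿ(H, Res_α Coind_D^G A) → ∏ᵢ Hⁿ(Hs i, Res(κ i) A)`, whose `i`-th component is induced by
`j i : Hs i →* H` and evaluation at `x i`, is bijective for every `n`.

Proof: dimension shifting along `0 → A → (D → A) → A' → 0`.
-/

set_option autoImplicit false

open CategoryTheory CategoryTheory.Limits groupCohomology

namespace Fermat.Agent.S55.Mackey

open Fermat.Agent.S55.H783

universe u v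

variable {k H G : Type u} [CommRing k] [Group H] [Group G]

section Step

variable (α : H →* G) {D : Subgroup G} (A : Rep k D)
variable {Hs : Type u} [Group Hs] (j : Hs →* H) (κ : Hs →* D) (x : G)
  (hcomm : ∀ h' : Hs, x * α (j h') = (κ h' : G) * x)

/-- The dimension shifting sequence restricted along `κ`. -/
noncomputable abbrev twSC : ShortComplex (Rep k Hs) :=
  (shiftSC A).map (Rep.resFunctor κ)

lemma twSC_shortExact : (twSC A κ).ShortExact :=
  (Rep.shortExact_res κ).2 (shiftSC_shortExact A)

/-- Evaluation at `x` as a morphism of short complexes. -/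
noncomputable def evSCHom :
    (indResSC α A).map (Rep.resFunctor j) ⟶ twSC A κ where
  τ₁ := evAt α A j κ x hcomm
  τ₂ := evAt α (funRep k D A.V) j κ x hcomm
  τ₃ := evAt α (shiftRep A) j κ x hcomm
  comm₁₂ := evAt_naturality α j κ x hcomm (shiftIncl A)
  comm₂₃ := evAt_naturality α j κ x hcomm (shiftProj A)

/-- Dimension shifting commutes with the Mackey components. -/
lemma δ_comp_mackeyComp (n : ℕ) :
    δ (indResSC_shortExact α A) n (n + 1) rfl ≫ mackeyComp α A j κ x hcomm (n + 1) =
      mackeyComp α (shiftRep A) j κ x hcomm n ≫ δ (twSC_shortExact A κ) n (n + 1) rfl :=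
  δ_naturality_map j (indResSC_shortExact α A) (twSC_shortExact A κ)
    (evSCHom α A j κ x hcomm) n (n + 1) rfl

end Step

section Main

variable {ι : Type v} {α : H →* G} {D : Subgroup G} {Hs : ι → Type u} [∀ i, Group (Hs i)]
  {j : ∀ i, Hs i →* H} {κ : ∀ i, Hs i →* D} {x : ι → G}

lemma IsMackeySystem.κ_injective (hsys : IsMackeySystem α D Hs j κ x)
    (hα : Function.Injective α) (i : ι) : Function.Injective (κ i) := by
  intro a b hab
  apply hsys.inj i
  apply hα
  have h1 := hsys.comm i a
  have h2 := hsys.comm i b
  rw [hab] at h1
  exact mul_left_cancel (h1.trans h2.symm)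

/-- **Mackey–Shapiro decomposition.** -/
theorem mackeyPi_bijective (hα : Function.Injective α) (hsys : IsMackeySystem α D Hs j κ x)
    (n : ℕ) (A : Rep k D) : Function.Bijective (mackeyPi hsys A n) := by
  induction n generalizing A with
  | zero => exact mackeyPi_zero_bijective hsys A
  | succ n ih =>
    -- the connecting homomorphisms
    have hδH : Function.Surjective (δ (indResSC_shortExact α A) n (n + 1) rfl).hom :=
      (ModuleCat.epi_iff_surjective _).1
        (epi_δ_of_isZero (indResSC_shortExact α A) n (isZero_indRes_funRep α D A.V hα n))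
    have hδi : ∀ i, Function.Surjective (δ (twSC_shortExact A (κ i)) n (n + 1) rfl).hom :=
      fun i => (ModuleCat.epi_iff_surjective _).1
        (epi_δ_of_isZero (twSC_shortExact A (κ i)) n
          (isZero_res_funRep_of_injective (κ i) (hsys.κ_injective hα i) A.V n))
    have hnat : ∀ i (z : groupCohomology (indRes α (shiftRep A)) n),
        (mackeyComp α A (j i) (κ i) (x i) (hsys.comm i) (n + 1)).hom
          ((δ (indResSC_shortExact α A) n (n + 1) rfl).hom z) =
        (δ (twSC_shortExact A (κ i)) n (n + 1) rfl).hom
          ((mackeyComp α (shiftRep A) (j i) (κ i) (x i) (hsys.comm i) n).hom z) := fun i z =>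
      congrArg (fun f => f.hom z) (δ_comp_mackeyComp α A (j i) (κ i) (x i) (hsys.comm i) n)
    constructor
    · -- injectivity
      rw [injective_iff_map_eq_zero]
      intro c hc
      obtain ⟨z, rfl⟩ := hδH c
      have hz : ∀ i, (δ (twSC_shortExact A (κ i)) n (n + 1) rfl).hom
          ((mackeyComp α (shiftRep A) (j i) (κ i) (x i) (hsys.comm i) n).hom z) = 0 := by
        intro i
        rw [← hnat i z]
        exact congrFun hc i
      -- each component comes from `Hⁿ(Hs i, (D → A))`
      have hex : ∀ i, ∃ u : groupCohomology (Rep.res (κ i) (funRep k D A.V)) n,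
          (map (MonoidHom.id (Hs i)) ((Rep.resFunctor (κ i)).map (shiftProj A)) n).hom u =
            (mackeyComp α (shiftRep A) (j i) (κ i) (x i) (hsys.comm i) n).hom z := fun i =>
        (ShortComplex.moduleCat_exact_iff _).1
          (mapShortComplex₃_exact (twSC_shortExact A (κ i)) (rfl : n + 1 = n + 1)) _ (hz i)
      choose u hu using hex
      obtain ⟨w, hw⟩ := (ih (funRep k D A.V)).2 u
      -- `z` is the image of `w`
      have hzw : z = (map (MonoidHom.id H) (indResMap α (shiftProj A)) n).hom w := by
        apply (ih (shiftRep A)).1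
        funext i
        rw [mackeyPi_apply, mackeyPi_apply]
        have h1 := congrArg (fun f => f.hom w)
          (mackeyComp_naturality α (j i) (κ i) (x i) (hsys.comm i) (shiftProj A) n)
        have h2 : (mackeyComp α (funRep k D A.V) (j i) (κ i) (x i) (hsys.comm i) n).hom w = u i :=
          congrFun hw i
        refine (hu i).symm.trans ?_
        rw [← h2]
        exact h1.symm
      rw [hzw]
      exact congrArg (fun f => f.hom w)
        (mapShortComplex₃ (indResSC_shortExact α A) (rfl : n + 1 = n + 1)).zero
    · -- surjectivity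
      intro y
      choose z hz using fun i => hδi i (y i)
      obtain ⟨w, hw⟩ := (ih (shiftRep A)).2 z
      refine ⟨(δ (indResSC_shortExact α A) n (n + 1) rfl).hom w, ?_⟩
      funext i
      rw [mackeyPi_apply, hnat i w]
      have h2 : (mackeyComp α (shiftRep A) (j i) (κ i) (x i) (hsys.comm i) n).hom w = z i :=
        congrFun hw i
      rw [h2, hz i]

end Main

end Fermat.Agent.S55.Mackey

end
-- ===== PACK-END S55/Mackey/Main.lean

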