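import Mathlib
import Fermat.Prelude.Def_Algebra_PatchingDatum
import Fermat.Prelude.Thm_IsLocalRing_isAdicComplete_of_module_finite
import Fermat.Agent.Pack.S43GC.G0E5L0
import Fermat.Agent.Pack.S43GC.G0E14L1
import Fermat.Agent.Pack.S43GC.G3E0L0
import Fermat.Agent.Pack.S43GC.G0E10L0
import Fermat.Agent.Pack.S43GC.G0E5L1
import Fermat.Agent.Pack.S43GC.G0E14L3
import Fermat.Agent.Pack.S43GC.G0E3L2
import Fermat.Agent.Pack.S43GC.G0E10L1
import Fermat.Agent.Pack.S43GC.G0E8L3
import Fermat.Agent.Pack.S43GC.G0E8L1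
import Fermat.Agent.Pack.S43GC.G0E14L0
import Fermat.Agent.Pack.S43GC.G0E3L3
import Fermat.Agent.Pack.S43GC.G0E8L0
import Fermat.Agent.Pack.S43GC.G0E7L3
import Fermat.Agent.Pack.S43GC.G0E7L2
import Fermat.Agent.Pack.S43GC.G0E15L3
import Fermat.Agent.Pack.S43GC.G0E15L1
import Fermat.Agent.Pack.S43GC.G0E1L3
import Fermat.Agent.Pack.S43GC.G0E15L2
import Fermat.Agent.Pack.S43GC.G0E2L2
import Fermat.Agent.Pack.S43GC.G0E10L3
import Fermat.Agent.Pack.S43GC.G0E15L0
import Fermat.Agent.Pack.Fast891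

-- ===== PACK-BEGIN S55/E1/H354/Alg10Bdry.lean
section
/-
S55 engine E1, block ALG: the transition maps commute with the boundary map `∂` of ALG3
("ALG10-∂", blueprint coord/S55-E1.md §3 ALG10, used by LIM1).  helper354.

Generic form: `π : G' →* G`, `a : R' ⟶ res_π R`, a morphism `(ι₁, ι₂, ι₃)` from `res_π` of a
short exact sequence `S` of `G`-modules to a short exact sequence `S'` of `G'`-modules.  Then
`tr (∂ f'') = ∂' (ι₃ ∘ f'' ∘ a)`, where `tr = (trIhom π a ι₁)_*` on `H¹`.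
Special cases: transitions of the tower, restriction to a subgroup (`π = D.subtype`, `a = 𝟙`),
naturality in the short exact sequence (`π = id`).
-/



set_option autoImplicit false

open CategoryTheory CategoryTheory.Limits groupCohomology

namespace Fermat.Agent.S55.E1.H354

noncomputable section

section generic

variable {k G G' : Type} [CommRing k] [Group G] [Group G'] (π : G' →* G)
variable {R : Rep.{0} k G} {R' : Rep.{0} k G'} (a : R' ⟶ Rep.res π R)
variable {S : ShortComplex (Rep.{0} k G)} {S' : ShortComplex (Rep.{0} k G')}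
variable (ι₁ : Rep.res π S.X₁ ⟶ S'.X₁) (ι₂ : Rep.res π S.X₂ ⟶ S'.X₂)
  (ι₃ : Rep.res π S.X₃ ⟶ S'.X₃)

/-- The transported morphism `ι₃ ∘ f'' ∘ a : R' ⟶ X₃'`. -/
def trHom (f'' : R ⟶ S.X₃) : R' ⟶ S'.X₃ := a ≫ (Rep.resFunctor π).map f'' ≫ ι₃

theorem trHom_hom_apply (f'' : R ⟶ S.X₃) (r : R'.V) :
    (trHom π a ι₃ f'').hom r = ι₃.hom (f''.hom (a.hom r)) := rfl

theorem mapCocycles₁_trIhom_apply (c : cocycles₁ ((Rep.ihom R).obj S.X₁)) (g' : G') (r : R'.V) :
    ihomLin (mapCocycles₁ π (trIhom π a ι₁) c g') r = ι₁.hom (ihomLin (c (π g')) (a.hom r)) :=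
  rfl

/-- The transported cocycle is a boundary cocycle of the transported morphism. -/
theorem IsBdryCocycle.tr (hf : ∀ x : S.X₁.V, S'.f.hom (ι₁.hom x) = ι₂.hom (S.f.hom x))
    (hg : ∀ x : S.X₂.V, S'.g.hom (ι₂.hom x) = ι₃.hom (S.g.hom x))
    {f'' : R ⟶ S.X₃} {c : cocycles₁ ((Rep.ihom R).obj S.X₁)} (hc : IsBdryCocycle R S f'' c) :
    IsBdryCocycle R' S' (trHom π a ι₃ f'') (mapCocycles₁ π (trIhom π a ι₁) c) := by
  obtain ⟨φ, hφ, hcφ⟩ := hc
  refine ⟨ι₂.hom.toLinearMap ∘ₗ φ ∘ₗ a.hom.toLinearMap, fun r => ?_, fun g' r => ?_⟩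
  · show S'.g.hom (ι₂.hom (φ (a.hom r))) = ι₃.hom (f''.hom (a.hom r))
    rw [hg, hφ]
  · rw [mapCocycles₁_trIhom_apply, hf, hcφ, map_sub]
    show _ = S'.X₂.ρ g' (ι₂.hom (φ (a.hom (R'.ρ g'⁻¹ r)))) - ι₂.hom (φ (a.hom r))
    have h1 : a.hom (R'.ρ g'⁻¹ r) = R.ρ (π g')⁻¹ (a.hom r) := by
      rw [Rep.hom_comm_apply a g'⁻¹ r]
      show R.ρ (π g'⁻¹) _ = _
      rw [map_inv]
    have h2 : ∀ y : S.X₂.V, ι₂.hom (S.X₂.ρ (π g') y) = S'.X₂.ρ g' (ι₂.hom y) :=
      fun y => Rep.hom_comm_apply ι₂ g' y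
    rw [h1, h2]

/-- **`tr` commutes with `∂`** (generic form). -/
theorem map_bdry (hS : S.ShortExact) (hS' : S'.ShortExact) [Module.Projective k R.V]
    [Module.Projective k R'.V]
    (hf : ∀ x : S.X₁.V, S'.f.hom (ι₁.hom x) = ι₂.hom (S.f.hom x))
    (hg : ∀ x : S.X₂.V, S'.g.hom (ι₂.hom x) = ι₃.hom (S.g.hom x)) (f'' : R ⟶ S.X₃) :
    (groupCohomology.map π (trIhom π a ι₁) 1).hom (bdry hS R f'') =
      bdry hS' R' (trHom π a ι₃ f'') := by
  obtain ⟨c, hc⟩ := exists_isBdryCocycle hS f''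
  rw [bdry_eq hS hc, bdry_eq hS' (hc.tr π a ι₁ ι₂ ι₃ hf hg)]
  have h := H1π_comp_map_apply π (trIhom π a ι₁) c
  exact h

end generic

section std

variable {G G' : Type} [Group G] [Group G'] (π : G' →* G)
variable {N : Rep.{0} ℤ G} {N' : Rep.{0} ℤ G'} (ν : N' ⟶ Rep.res π N)
variable {S : ShortComplex (Rep.{0} ℤ G)} {S' : ShortComplex (Rep.{0} ℤ G')}
variable (ι₁ : Rep.res π S.X₁ ⟶ S'.X₁) (ι₂ : Rep.res π S.X₂ ⟶ S'.X₂)
  (ι₃ : Rep.res π S.X₃ ⟶ S'.X₃)

/-- **ALG10-∂**: `tr (∂ f'') = ∂' (tr f'')` for the standard presentations. -/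
theorem trE2_stdBdry (hR : @Module.Projective ℤ _ (stdR N).V _ (stdR N).hV2)
    (hR' : @Module.Projective ℤ _ (stdR N').V _ (stdR N').hV2)
    (hS : S.ShortExact) (hS' : S'.ShortExact)
    (hf : ∀ x : S.X₁.V, S'.f.hom (ι₁.hom x) = ι₂.hom (S.f.hom x))
    (hg : ∀ x : S.X₂.V, S'.g.hom (ι₂.hom x) = ι₃.hom (S.g.hom x)) (f'' : homA N S.X₃) :
    trE2 π ν ι₁ (stdBdry N hR hS f'') = stdBdry N' hR' hS' (trA π ν ι₃ f'') :=
  haveI := hR
  haveI := hR'
  map_bdry π (trR π ν) ι₁ ι₂ ι₃ hS hS' hf hg f''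

end std

/-- **ALG10-∂**, Spec form. -/
def ALG10BdrySpec : Prop :=
  ∀ (G G' : Type) [Group G] [Group G'] (π : G' →* G)
    (N : Rep.{0} ℤ G) (N' : Rep.{0} ℤ G') (ν : N' ⟶ Rep.res π N)
    (hR : @Module.Projective ℤ _ (stdR N).V _ (stdR N).hV2)
    (hR' : @Module.Projective ℤ _ (stdR N').V _ (stdR N').hV2)
    (S : ShortComplex (Rep.{0} ℤ G)) (S' : ShortComplex (Rep.{0} ℤ G'))
    (hS : S.ShortExact) (hS' : S'.ShortExact)
    (ι₁ : Rep.res π S.X₁ ⟶ S'.X₁) (ι₂ : Rep.res π S.X₂ ⟶ S'.X₂) (ι₃ : Rep.res π S.X₃ ⟶ S'.X₃),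
    (∀ x : S.X₁.V, S'.f.hom (ι₁.hom x) = ι₂.hom (S.f.hom x)) →
    (∀ x : S.X₂.V, S'.g.hom (ι₂.hom x) = ι₃.hom (S.g.hom x)) →
    ∀ f'' : homA N S.X₃,
      trE2 π ν ι₁ (stdBdry N hR hS f'') = stdBdry N' hR' hS' (trA π ν ι₃ f'')

theorem alg10Bdry : ALG10BdrySpec :=
  fun _ _ _ _ π _ _ ν hR hR' _ _ hS hS' ι₁ ι₂ ι₃ hf hg f'' =>
    trE2_stdBdry π ν ι₁ ι₂ ι₃ hR hR' hS hS' hf hg f''

end

end Fermat.Agent.S55.E1.H354

end
-- ===== PACK-END S55/E1/H354/Alg10Bdry.lean

-- ===== PACK-BEGIN S55/Mackey/Shapiro.lean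
section


/-!
# S55 (helper61): Mackey–Shapiro — user-facing forms

* `shapiro_bijective` : explicit Shapiro lemma, `Hⁿ(G, Coind_S^G A) → Hⁿ(S, A)` induced by
  `S ↪ G` and evaluation at `1` is bijective;
* `twEv`, `mackey_bijective_of_bijective` : for a `G`-representation `M` and a `D`-equivariant map
  `π : M → A` such that `m ↦ (g ↦ π (g • m))` is a bijection of `M` onto `Coind_D^G A`, the map
  `Hⁿ(H, Res_α M) → ∏ᵢ Hⁿ(Hs i, Res(κ i) A)` induced by `j i` and `m ↦ π (x i • m)` is bijective;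
* `shapiro_bijective_of_bijective` : the same for `H = G`: `Hⁿ(G, M) → Hⁿ(D, A)` induced by
  `D ↪ G` and `π` is bijective.
-/

set_option autoImplicit false

open CategoryTheory CategoryTheory.Limits groupCohomology

namespace Fermat.Agent.S55.Mackey

universe u v

variable {k G : Type u} [CommRing k] [Group G]

section Shapiro

variable (S : Subgroup G)

/-- The trivial Mackey system computing `Hⁿ(G, Coind_S^G A)`. -/
lemma isMackeySystem_shapiro :
    IsMackeySystem (ι := Unit) (MonoidHom.id G) S (fun _ => S) (fun _ => S.subtype)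
      (fun _ => MonoidHom.id S) (fun _ => 1) where
  comm := fun _ h' => by simp
  inj := fun _ => Subtype.val_injective
  full := fun _ h hh => ⟨⟨h, by simpa using hh⟩, rfl⟩
  cover := fun g => ⟨(), 1, g, by simp⟩
  disj := fun _ _ _ _ _ => rfl

/-- Evaluation at `1`, an `S`-equivariant map `Coind_S^G A → A`. -/
noncomputable def shapiroEv (A : Rep.{u} k S) : Rep.res S.subtype (Rep.coind S.subtype A) ⟶ A :=
  evAt (MonoidHom.id G) A S.subtype (MonoidHom.id S) 1 (fun h' => by simp)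

@[simp]
lemma shapiroEv_hom_apply (A : Rep.{u} k S) (f : (Rep.coind S.subtype A).V) :
    (shapiroEv S A).hom f = f.1 1 := rfl

/-- **Explicit Shapiro lemma**: the map `Hⁿ(G, Coind_S^G A) → Hⁿ(S, A)` induced by the inclusion
`S ↪ G` and evaluation at `1` is bijective. -/
theorem shapiro_bijective (A : Rep.{u} k S) (n : ℕ) :
    Function.Bijective (map S.subtype (shapiroEv S A) n).hom := by
  have h := mackeyPi_bijective (k := k) (Function.injective_id) (isMackeySystem_shapiro S) n A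
  have h2 : Function.Bijective
      (fun f : (∀ _ : Unit, groupCohomology (Rep.res (MonoidHom.id S) A) n) => f ()) :=
    ⟨fun f g hfg => funext fun _ => hfg, fun y => ⟨fun _ => y, rfl⟩⟩
  exact h2.comp h

end Shapiro

section User

variable {H : Type u} [Group H]
variable {ι : Type v} {α : H →* G} {D : Subgroup G} {Hs : ι → Type u} [∀ i, Group (Hs i)]
  {j : ∀ i, Hs i →* H} {κ : ∀ i, Hs i →* D} {x : ι → G}

/-- The lift `M → Coind_D^G A`, `m ↦ (g ↦ π (g • m))`, of a `D`-equivariant map `π : M → A`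
(this is Mathlib's `Rep.resCoindToHom` with all universes equal). -/
noncomputable abbrev coindLift {D : Subgroup G} {M : Rep.{u} k G} {A : Rep.{u} k D}
    (π : Rep.res D.subtype M ⟶ A) : M ⟶ Rep.coind D.subtype A :=
  Rep.resCoindToHom.{u, u, u, u} D.subtype M A π

lemma coindLift_hom_apply {D : Subgroup G} {M : Rep.{u} k G} {A : Rep.{u} k D}
    (π : Rep.res D.subtype M ⟶ A) (m : M.V) (g : G) :
    ((coindLift π).hom m).1 g = π.hom (M.ρ g m) := rfl

/-- For `M : Rep k G` and a `D`-equivariant map `π : M → A`, the `Hs i`-equivariant map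
`m ↦ π (x i • m)` from `M` to `A`. -/
noncomputable def twEv (hsys : IsMackeySystem α D Hs j κ x) {M : Rep.{u} k G} {A : Rep.{u} k D}
    (π : Rep.res D.subtype M ⟶ A) (i : ι) :
    Rep.res (j i) (Rep.res α M) ⟶ Rep.res (κ i) A :=
  (Rep.resFunctor (j i)).map ((Rep.resFunctor α).map (coindLift π)) ≫
    evAt α A (j i) (κ i) (x i) (hsys.comm i)

lemma twEv_hom_apply (hsys : IsMackeySystem α D Hs j κ x) {M : Rep.{u} k G} {A : Rep.{u} k D}
    (π : Rep.res D.subtype M ⟶ A) (i : ι) (m : M.V) :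
    (twEv hsys π i).hom m = π.hom (M.ρ (x i) m) := rfl

/-- **Mackey decomposition, user-facing form.** If `π : M → A` is `D`-equivariant and
`m ↦ (g ↦ π (g • m))` is a bijection of `M` onto `Coind_D^G A`, then
`Hⁿ(H, Res_α M) → ∏ᵢ Hⁿ(Hs i, Res(κ i) A)`, induced by `j i` and `m ↦ π (x i • m)`, is
bijective. -/
theorem mackey_bijective_of_bijective (hα : Function.Injective α)
    (hsys : IsMackeySystem α D Hs j κ x) {M : Rep.{u} k G} {A : Rep.{u} k D}
    (π : Rep.res D.subtype M ⟶ A)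
    (hπ : Function.Bijective (coindLift π).hom) (n : ℕ) :
    Function.Bijective (fun (c : groupCohomology (Rep.res α M) n) (i : ι) =>
      (map (j i) (twEv hsys π i) n).hom c) := by
  -- the lift is an isomorphism
  have hiso : IsIso (coindLift π) := by
    have h1 : Mono (coindLift π) := (Rep.mono_iff_injective _).2 hπ.1
    have h2 : Epi (coindLift π) := (Rep.epi_iff_surjective _).2 hπ.2
    exact isIso_of_mono_of_epi _
  have hiso1 : IsIso ((Rep.resFunctor α).map (coindLift π)) := Functor.map_isIso _ _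
  have hiso2 : IsIso ((groupCohomology.functor k H n).map
      ((Rep.resFunctor α).map (coindLift π))) := Functor.map_isIso _ _
  have hbij : Function.Bijective ((groupCohomology.functor k H n).map
      ((Rep.resFunctor α).map (coindLift π))).hom :=
    ConcreteCategory.bijective_of_isIso _
  have hcomp : (fun (c : groupCohomology (Rep.res α M) n) (i : ι) =>
      (map (j i) (twEv hsys π i) n).hom c) =
      (mackeyPi hsys A n) ∘ ((groupCohomology.functor k H n).map
      ((Rep.resFunctor α).map (coindLift π))).hom := by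
    funext c i
    have h := map_comp (A := Rep.res α M) (B := indRes α A) (MonoidHom.id H) (j i)
      ((Rep.resFunctor α).map (coindLift π))
      (evAt α A (j i) (κ i) (x i) (hsys.comm i)) n
    exact congrArg (fun f => f.hom c) h
  rw [hcomp]
  exact (mackeyPi_bijective hα hsys n A).comp hbij

/-- **Shapiro, user-facing form.** If `π : M → A` is `D`-equivariant and `m ↦ (g ↦ π (g • m))` is
a bijection of `M` onto `Coind_D^G A`, then `Hⁿ(G, M) → Hⁿ(D, A)`, induced by `D ↪ G` and `π`,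
is bijective. -/
theorem shapiro_bijective_of_bijective {D : Subgroup G} {M : Rep.{u} k G} {A : Rep.{u} k D}
    (π : Rep.res D.subtype M ⟶ A)
    (hπ : Function.Bijective (coindLift π).hom) (n : ℕ) :
    Function.Bijective (map D.subtype π n).hom := by
  have h := mackey_bijective_of_bijective (k := k) Function.injective_id
    (isMackeySystem_shapiro D) π hπ n
  have h2 : Function.Bijective
      (fun f : (∀ _ : Unit, groupCohomology (Rep.res (MonoidHom.id D) A) n) => f ()) :=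
    ⟨fun f g hfg => funext fun _ => hfg, fun y => ⟨fun _ => y, rfl⟩⟩
  have h3 := h2.comp h
  have h4 : twEv (isMackeySystem_shapiro D) π () = π := by
    ext m
    change π.hom (M.ρ 1 m) = π.hom m
    rw [map_one]
    rfl
  have h5 : (map D.subtype π n).hom =
      (fun f : (∀ _ : Unit, groupCohomology (Rep.res (MonoidHom.id D) A) n) => f ()) ∘
      (fun (c : groupCohomology (Rep.res (MonoidHom.id G) M) n) (i : Unit) =>
      (map D.subtype (twEv (isMackeySystem_shapiro D) π i) n).hom c) := by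
    funext c
    change _ = (map D.subtype (twEv (isMackeySystem_shapiro D) π ()) n).hom c
    rw [h4]
  rw [h5]
  exact h3

end User

end Fermat.Agent.S55.Mackey

end
-- ===== PACK-END S55/Mackey/Shapiro.lean

-- ===== PACK-BEGIN S55/GAD/Defs.lean
section
/-
S55 / G-ADAPTER (sub-architect helper955): the CONCRETE tower datum.
Target: `Tow.GlobalSpecMu S p` (`Spec/Datum2.lean`).  No `sorry`.

`C(L) := (∏_{q ∈ S} J_q(L) × Div^S(L)) / Lˣ`, with
* `J_q(L) = L.J q` the tower's coinduced module (`Spec/Tower.lean`),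
* `Div^S(L) = ℤ[primes of L.F not above S]` (layer G, `G/Defs.lean`), Galois action through
  helper594's `levelAction`,
* `Lˣ = L.units` embedded by `x ↦ ((diag_q x)_q, div x)`.
`j_q` = inclusion of the `q`-th factor, `tr` = `trJ × divExt`, `γ` chosen by `Classical.choice`.
-/





set_option autoImplicit false
set_option linter.unusedSectionVars false

open CategoryTheory

namespace Fermat.Agent.S55.GAD

open Fermat.Agent.S55 Fermat.Agent.S55.Tow Fermat.Agent.S55.E1.H594 Fermat.Agent.S55.G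

noncomputable section

variable {S : Finset Nat.Primes} (L : Level S)

/-- The underlying group of `∏_{q ∈ S} J_q(L)`. -/
abbrev JSV : Type := ∀ q : S, (L.J q.1).V

/-- The representation of `Gal(L/ℚ)` on `∏_{q ∈ S} J_q(L)`. -/
def jsRepr : Representation ℤ L.Gal (JSV L) where
  toFun g := LinearMap.pi fun q => ((L.J q.1).ρ g) ∘ₗ LinearMap.proj q
  map_one' := by
    refine LinearMap.ext fun x => funext fun q => ?_
    show (L.J q.1).ρ 1 (x q) = x q
    rw [map_one]
    rfl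
  map_mul' g h := by
    refine LinearMap.ext fun x => funext fun q => ?_
    show (L.J q.1).ρ (g * h) (x q) = (L.J q.1).ρ g ((L.J q.1).ρ h (x q))
    rw [map_mul]
    rfl

@[simp] lemma jsRepr_apply (g : L.Gal) (x : JSV L) (q : S) :
    jsRepr L g x q = (L.J q.1).ρ g (x q) := rfl

/-- The underlying group of `∏_{q ∈ S} J_q(L) × Div^S(L)`. -/
abbrev JDV : Type := JSV L × (PrimeOut S L.F →₀ ℤ)

/-- The representation of `Gal(L/ℚ)` on `∏_{q ∈ S} J_q(L) × Div^S(L)`. -/
def jdRepr : Representation ℤ L.Gal (JDV L) := (jsRepr L).prod (divRepr S L.Gal L.F)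

/-- `L.units → Additive (L.F)ˣ`: the tower's `Fˣ` as the layer-G `Fˣ` (helper594's LVL). -/
def toField : L.units.V →ₗ[ℤ] Additive (L.F)ˣ := (levelUnitsIso L).inv.hom.toLinearMap

lemma toField_equivariant (g : L.Gal) (x : L.units.V) :
    toField L (L.units.ρ g x) = lRepr L.Gal L.F g (toField L x) :=
  Rep.hom_comm_apply (levelUnitsIso L).inv g x

/-- The element of `ℚ̄` underlying `toField L y` is the element underlying `y`. -/
lemma coe_toField (y : L.units.V) :
    ((((toField L y).toMul : (L.F)ˣ) : L.F) : Qbar) = levelInvVal L y := by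
  have h1 := coe_levelUnitsIso_hom_apply L (toField L y)
  have h2 : (levelUnitsIso L).hom.hom (toField L y) = y :=
    Rep.hom_inv_apply _ _ (levelUnitsIso L) y
  rw [h2] at h1
  exact h1.symm

lemma toField_injective : Function.Injective (toField L) := by
  intro x y h
  have hx := Rep.hom_inv_apply _ _ (levelUnitsIso L) x
  have hy := Rep.hom_inv_apply _ _ (levelUnitsIso L) y
  have h' : (levelUnitsIso L).inv.hom x = (levelUnitsIso L).inv.hom y := h
  rw [← hx, ← hy, h']

/-- The divisor of `x ∈ Fˣ` (outside `S`). -/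
def divT : L.units.V →ₗ[ℤ] (PrimeOut S L.F →₀ ℤ) :=
  (ordHom S L.F).toIntLinearMap ∘ₗ toField L

/-- The diagonal embedding `Fˣ → ∏_{q ∈ S} J_q(L) × Div^S(L)`. -/
def diagT : L.units.V →ₗ[ℤ] JDV L :=
  LinearMap.prod (LinearMap.pi fun q : S => (L.diag q.1).hom.toLinearMap) (divT L)

lemma diagT_fst (x : L.units.V) (q : S) : (diagT L x).1 q = (L.diag q.1).hom x := rfl

lemma diagT_snd (x : L.units.V) : (diagT L x).2 = ordHom S L.F (toField L x) := rfl

lemma diagT_equivariant (g : L.Gal) (x : L.units.V) :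
    diagT L (L.units.ρ g x) = _root_.Fermat.Agent.S55.GAD.jdRepr L g (diagT L x) := by
  refine Prod.ext (funext fun q => ?_) ?_
  · exact Rep.hom_comm_apply (L.diag q.1) g x
  · show ordHom S L.F (toField L (L.units.ρ g x)) = divRepr S L.Gal L.F g (ordHom S L.F (toField L x))
    rw [toField_equivariant, ordHom_equivariant]

/-- The principal elements: the image of `Fˣ`. -/
def princ : Submodule ℤ (JDV L) := LinearMap.range (diagT L)

lemma princ_stable (g : L.Gal) : princ L ≤ (princ L).comap (_root_.Fermat.Agent.S55.GAD.jdRepr L g) := by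
  rintro _ ⟨x, rfl⟩
  exact ⟨L.units.ρ g x, diagT_equivariant L g x⟩

/-- **The class module** `C(L) = (∏_{q ∈ S} J_q(L) × Div^S(L)) / Lˣ`. -/
def CT : Rep.{0} ℤ L.Gal := Rep.of ((_root_.Fermat.Agent.S55.GAD.jdRepr L).quotient (princ L) (princ_stable L))

/-- The class of an element of `∏_{q ∈ S} J_q(L) × Div^S(L)` (an additive map). -/
def mkC : JDV L →+ (CT L).V := (princ L).mkQ.toAddMonoidHom

lemma mkC_surjective : Function.Surjective (mkC L) := Submodule.mkQ_surjective _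

lemma mkC_eq_zero_iff (y : JDV L) : mkC L y = 0 ↔ ∃ x : L.units.V, diagT L x = y :=
  Submodule.Quotient.mk_eq_zero (princ L)

lemma mkC_diagT (x : L.units.V) : mkC L (diagT L x) = 0 :=
  (mkC_eq_zero_iff L _).2 ⟨x, rfl⟩

lemma CT_ρ_mkC (g : L.Gal) (y : JDV L) : (CT L).ρ g (mkC L y) = mkC L (_root_.Fermat.Agent.S55.GAD.jdRepr L g y) := rfl

/-- The quotient morphism `∏_{q ∈ S} J_q(L) × Div^S(L) → C(L)` in `Rep ℤ Gal(L/ℚ)`. -/
def mkCHom : Rep.of (_root_.Fermat.Agent.S55.GAD.jdRepr L) ⟶ CT L :=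
  Rep.ofHom ⟨(princ L).mkQ, fun _ => rfl⟩

/-- The inclusion of the `q`-th factor `J_q(L) → ∏_{q ∈ S} J_q(L) × Div^S(L)` (`q ∈ S`). -/
def inclJ (q : S) : L.J q.1 ⟶ Rep.of (_root_.Fermat.Agent.S55.GAD.jdRepr L) :=
  Rep.ofHom
    { toLinearMap := LinearMap.inl ℤ (JSV L) (PrimeOut S L.F →₀ ℤ) ∘ₗ
        LinearMap.single ℤ (fun q : S => (L.J q.1).V) q
      isIntertwining' := fun g => by
        refine LinearMap.ext fun (x : (L.J q.1).V) => Prod.ext (funext fun q' => ?_) ?_
        · show (Pi.single q ((L.J q.1).ρ g x) : JSV L) q' =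
            (L.J q'.1).ρ g ((Pi.single q x : JSV L) q')
          by_cases h : q' = q
          · subst h
            have h1 : (Pi.single q' ((L.J q'.1).ρ g x) : JSV L) q' = (L.J q'.1).ρ g x :=
              Pi.single_eq_same _ _
            have h2 : (Pi.single q' x : JSV L) q' = x := Pi.single_eq_same _ _
            rw [h1, h2]
          · have h1 : (Pi.single q ((L.J q.1).ρ g x) : JSV L) q' = 0 :=
              Pi.single_eq_of_ne h _
            have h2 : (Pi.single q x : JSV L) q' = 0 := Pi.single_eq_of_ne h _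
            rw [h1, h2, map_zero]
        · show (0 : PrimeOut S L.F →₀ ℤ) = divRepr S L.Gal L.F g 0
          rw [map_zero] }

/-- `j_q : J_q(L) → C(L)`: inclusion of the `q`-th factor for `q ∈ S` (and `0` otherwise). -/
def jT (q : Nat.Primes) : L.J q ⟶ CT L :=
  if hq : q ∈ S then inclJ L ⟨q, hq⟩ ≫ mkCHom L else 0

lemma jT_apply_of_mem (q : S) (x : (L.J q.1).V) :
    (jT L q.1).hom x = mkC L (Pi.single q x, 0) := by
  have h : jT L q.1 = inclJ L q ≫ mkCHom L := dif_pos q.2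
  rw [h]
  rfl

lemma sum_jT (x : JSV L) : ∑ q : S, (jT L q.1).hom (x q) = mkC L (x, 0) := by
  classical
  simp only [jT_apply_of_mem]
  rw [← map_sum]
  congr 1
  refine Prod.ext ?_ ?_
  · rw [Prod.fst_sum]
    funext q
    rw [Finset.sum_apply]
    simp
  · rw [Prod.snd_sum]
    simp

/-! ### Transition maps -/

variable {L} {L' : Level S}

/-- The algebra structure `L.F → L'.F` for `L ≤ L'`. -/
@[reducible] def levelAlgebra (h : L ≤ L') : Algebra L.F L'.F :=
  (IntermediateField.inclusion h).toRingHom.toAlgebra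

lemma levelAlgebra_apply (h : L ≤ L') (x : L.F) :
    ((@algebraMap L.F L'.F _ _ (_root_.Fermat.Agent.S55.GAD.levelAlgebra h) x : L'.F) : Qbar) = (x : Qbar) := rfl

lemma levelAlgebra_smul (h : L ≤ L') (g : L'.Gal) (x : L.F) :
    @algebraMap L.F L'.F _ _ (_root_.Fermat.Agent.S55.GAD.levelAlgebra h) (Level.proj h g • x) =
      g • @algebraMap L.F L'.F _ _ (_root_.Fermat.Agent.S55.GAD.levelAlgebra h) x := by
  induction g using QuotientGroup.induction_on with
  | H σ =>
    apply Subtype.ext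
    have h1 : (((QuotientGroup.mk σ : L.Gal) • x : L.F) : Qbar) = σ (x : Qbar) :=
      level_mk_smul L σ x
    have h2 := level_mk_smul L' σ (@algebraMap L.F L'.F _ _ (_root_.Fermat.Agent.S55.GAD.levelAlgebra h) x)
    rw [levelAlgebra_apply] at h2
    rw [h2, levelAlgebra_apply]
    exact h1

/-- Extension of divisors along `L ≤ L'`. -/
def divTr (h : L ≤ L') : (PrimeOut S L.F →₀ ℤ) →+ (PrimeOut S L'.F →₀ ℤ) :=
  @divExt S L.F L'.F _ _ _ _ (_root_.Fermat.Agent.S55.GAD.levelAlgebra h)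

lemma divTr_equivariant (h : L ≤ L') (g : L'.Gal) (d : PrimeOut S L.F →₀ ℤ) :
    divTr h (divRepr S L.Gal L.F (Level.proj h g) d) = divRepr S L'.Gal L'.F g (divTr h d) :=
  @divExt_equivariant S L.F L'.F _ _ _ _ (_root_.Fermat.Agent.S55.GAD.levelAlgebra h) L.Gal L'.Gal _ _ _ _
    (Level.proj h) (levelAlgebra_smul h) g d

lemma toField_trUnits (h : L ≤ L') (x : L.units.V) :
    toField L' ((Level.trUnits h).hom x) = @lMap L.F L'.F _ _ (_root_.Fermat.Agent.S55.GAD.levelAlgebra h) (toField L x) := by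
  apply Additive.toMul.injective
  apply Units.ext
  apply Subtype.ext
  rw [coe_toField]
  have h1 : ((((@lMap L.F L'.F _ _ (_root_.Fermat.Agent.S55.GAD.levelAlgebra h) (toField L x)).toMul : (L'.F)ˣ) : L'.F) : Qbar)
      = ((((toField L x).toMul : (L.F)ˣ) : L.F) : Qbar) := rfl
  rw [h1, coe_toField]
  rfl

/-- The divisor maps are compatible with the transition maps. -/
lemma divTr_divT (h : L ≤ L') (x : L.units.V) :
    divTr h (divT L x) = divT L' ((Level.trUnits h).hom x) := by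
  show divTr h (ordHom S L.F (toField L x)) = ordHom S L'.F (toField L' ((Level.trUnits h).hom x))
  rw [toField_trUnits]
  exact @divExt_ordHom S L.F L'.F _ _ _ _ (_root_.Fermat.Agent.S55.GAD.levelAlgebra h) (toField L x)

/-- The diagonal maps are compatible with the transition maps. -/
lemma trJ_diag (h : L ≤ L') (q : Nat.Primes) (x : L.units.V) :
    (Level.trJ h q).hom ((L.diag q).hom x) = (L'.diag q).hom ((Level.trUnits h).hom x) := by
  apply L'.J_ext q
  intro g
  induction g using QuotientGroup.induction_on with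
  | H g => rfl

/-- The transition map on `∏_{q ∈ S} J_q × Div^S`. -/
def trJD (h : L ≤ L') : JDV L →+ JDV L' where
  toFun y := (fun q => (Level.trJ h q.1).hom (y.1 q), divTr h y.2)
  map_zero' := by
    refine Prod.ext (funext fun q => ?_) ?_
    · exact map_zero (Level.trJ h q.1).hom
    · exact map_zero (divTr h)
  map_add' y y' := by
    refine Prod.ext (funext fun q => ?_) ?_
    · exact map_add (Level.trJ h q.1).hom (y.1 q) (y'.1 q)
    · exact map_add (divTr h) y.2 y'.2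

lemma trJD_diagT (h : L ≤ L') (x : L.units.V) :
    trJD h (diagT L x) = diagT L' ((Level.trUnits h).hom x) :=
  Prod.ext (funext fun q => trJ_diag h q.1 x) (divTr_divT h x)

lemma trJD_equivariant (h : L ≤ L') (g : L'.Gal) (y : JDV L) :
    trJD h (_root_.Fermat.Agent.S55.GAD.jdRepr L (Level.proj h g) y) = _root_.Fermat.Agent.S55.GAD.jdRepr L' g (trJD h y) :=
  Prod.ext (funext fun q => Rep.hom_comm_apply (Level.trJ h q.1) g (y.1 q))
    (divTr_equivariant h g y.2)

/-- **The transition map** `C(L) → C(L')` for `L ≤ L'`. -/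
def trT (h : L ≤ L') : Rep.res (Level.proj h) (CT L) ⟶ CT L' :=
  Rep.ofHom
    { toLinearMap := (princ L).mapQ (princ L') (trJD h).toIntLinearMap (by
        rintro _ ⟨x, rfl⟩
        exact ⟨(Level.trUnits h).hom x, (trJD_diagT h x).symm⟩)
      isIntertwining' := fun g => by
        refine LinearMap.ext fun c => ?_
        obtain ⟨y, rfl⟩ := mkC_surjective L c
        exact congrArg (mkC L') (trJD_equivariant h g y) }

lemma trT_mkC (h : L ≤ L') (y : JDV L) : (trT h).hom (mkC L y) = mkC L' (trJD h y) := rfl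

/-! ### The datum -/

variable (S)

/-- The fundamental class at `p`: any `γ` making `(C(L), γ)` a class module at `p`, if one
exists (and `0` otherwise). -/
def gammaT (p : ℕ) (L : Level S) : groupCohomology (CT L) 2 :=
  open Classical in
  if h : ∃ γ : groupCohomology (CT L) 2, E1.IsClassModuleAt p (CT L) γ then h.choose else 0

lemma gammaT_spec (p : ℕ) (L : Level S)
    (h : ∃ γ : groupCohomology (CT L) 2, E1.IsClassModuleAt p (CT L) γ) :
    E1.IsClassModuleAt p (CT L) (gammaT S p L) := by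
  unfold gammaT
  rw [dif_pos h]
  exact h.choose_spec

/-- **THE CONCRETE TOWER DATUM.** -/
def datum (p : ℕ) : TowerDatum S where
  C := fun L => CT L
  γ := fun L => gammaT S p L
  j := fun L q => jT L q
  tr := fun h => trT h

@[simp] lemma datum_C (p : ℕ) (L : Level S) : (datum S p).C L = CT L := rfl
@[simp] lemma datum_j (p : ℕ) (L : Level S) (q : Nat.Primes) : (datum S p).j L q = jT L q := rfl
@[simp] lemma datum_tr (p : ℕ) {L L' : Level S} (h : L ≤ L') : (datum S p).tr h = trT h := rfl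
@[simp] lemma datum_γ (p : ℕ) (L : Level S) : (datum S p).γ L = gammaT S p L := rfl

end

end Fermat.Agent.S55.GAD

end
-- ===== PACK-END S55/GAD/Defs.lean

-- ===== PACK-BEGIN S55/G/Exist121/Sat.lean
section




/-!
# S55, layer G, block EXIST: the Kummer level is Kummer-saturated

Author: helper121.  Bridge between the intrinsic `p`-Selmer group `selmer S F p`
(`p ∣ ord_w(x)` for all primes `w` of `𝓞 F` not above `S`; `G/Defs.lean`) and the Prelude-style
condition `IsSelmerElt S p F x` (valuation subrings of `ℚ̄`) defining `kummerLevel S p F`: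

* `isSelmerElt_of_mem_selmer` : `x ∈ selmer S F p → IsSelmerElt S p F x`;
* `exists_root_mem_kummerLevel` : every `x ∈ selmer S F p` has a `p`-th root in
  `kummerLevel S p F`.
-/

set_option autoImplicit false
set_option linter.unusedSectionVars false
set_option linter.style.haveILetI false

open scoped NumberField
open IsDedekindDomain

noncomputable section

namespace Fermat.Agent.S55.G.Exist121

open Fermat.Agent.S55 Fermat.Agent.S55.G Fermat.Agent.S55.Bridge

variable (S : Finset Nat.Primes) (p : ℕ) (F : IntermediateField ℚ (AlgebraicClosure ℚ))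
  [FiniteDimensional ℚ F]

attribute [local instance] H594.numberField_of_finite

/-- A place of `ℚ̄` over a prime `q ∉ S` induces a prime of `𝓞 F` not above `S`. -/
lemma not_isAbove_placePrime {q : Nat.Primes} (hq : q ∉ S)
    (A : ValuationSubring (AlgebraicClosure ℚ)) (hA : A.LiesOverPrime (q : ℕ)) :
    ¬ IsAbove S F (placePrime F A q.2 hA) := by
  rintro ⟨q', hq'S, hq'w⟩
  have hne : q ≠ q' := fun h => hq (h ▸ hq'S)
  have hcop : Nat.Coprime (q : ℕ) (q' : ℕ) :=
    (Nat.coprime_primes q.2 q'.2).2 (fun h => hne (Subtype.ext h))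
  have h1 : A.valuation ((q' : ℕ) : AlgebraicClosure ℚ) = 1 :=
    Fermat.Agent.S55.H893.val_natCast_eq_one_of_coprime hA hcop
  have h2 : algebraMap (𝓞 F) (AlgebraicClosure ℚ) ((q' : ℕ) : 𝓞 F) ∈ A.nonunits :=
    (H594.mem_primeBelowF F A _).1 hq'w
  rw [map_natCast, ValuationSubring.mem_nonunits_iff, h1] at h2
  exact lt_irrefl _ h2

/-- **Intrinsic Selmer ⇒ Prelude Selmer.** -/
theorem isSelmerElt_of_mem_selmer (x : Additive (↥F)ˣ) (hx : x ∈ selmer S ↥F p) :
    IsSelmerElt S p F (((x.toMul : (↥F)ˣ) : ↥F) : AlgebraicClosure ℚ) := by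
  refine ⟨(x.toMul : ↥F).2, ?_, fun q hq A hA => ?_⟩
  · intro h
    have : ((x.toMul : (↥F)ˣ) : ↥F) = 0 := Subtype.ext h
    exact (Units.ne_zero _) this
  obtain ⟨d, hd⟩ := (mem_selmer_iff S ↥F p x).1 hx
  set w : HeightOneSpectrum (𝓞 F) := placePrime F A q.2 hA with hw
  have hwS : ¬ IsAbove S F w := not_isAbove_placePrime S F hq A hA
  let w' : PrimeOut S ↥F := ⟨w, hwS⟩
  set m : ℤ := d w' with hm
  have hord : ordAt w x = p * m := by
    have h1 : (p • d) w' = ordHom S ↥F x w' := DFunLike.congr_fun hd w'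
    rw [ordHom_apply, Finsupp.smul_apply, nsmul_eq_mul] at h1
    exact h1.symm
  obtain ⟨π, hπ⟩ := w.valuation_exists_uniformizer F
  have hπ0 : π ≠ 0 := by
    rintro rfl
    rw [map_zero] at hπ
    exact WithZero.exp_ne_zero hπ.symm
  -- the unit `u = x / π^(m p)`
  let πu : (↥F)ˣ := Units.mk0 π hπ0
  let u : (↥F)ˣ := x.toMul * (πu ^ m)⁻¹ ^ p
  have hval : w.valuation F (u : ↥F) = 1 := by
    have h1 : w.valuation F ((x.toMul : (↥F)ˣ) : ↥F) = WithZero.exp (-(p * m : ℤ)) := by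
      rw [valuation_eq_exp_neg_ordAt, hord]
    have h2 : w.valuation F (((πu ^ m : (↥F)ˣ) : ↥F)) = WithZero.exp (-m) := by
      rw [Units.val_zpow_eq_zpow_val, map_zpow₀]
      show (w.valuation F π) ^ m = _
      rw [hπ, ← WithZero.exp_zsmul]
      simp
    show w.valuation F (((x.toMul * (πu ^ m)⁻¹ ^ p : (↥F)ˣ) : ↥F)) = 1
    rw [Units.val_mul, Units.val_pow_eq_pow_val, Units.val_inv_eq_inv_val, map_mul, map_pow,
      map_inv₀, h1, h2, ← WithZero.exp_neg, ← WithZero.exp_nsmul, ← WithZero.exp_add]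
    rw [← WithZero.exp_zero]
    congr 1
    simp only [nsmul_eq_mul, neg_neg]
    ring
  obtain ⟨h3, h4⟩ := (unit_iff_valuation_eq_one F A q.2 hA u).2 hval
  refine ⟨((πu ^ m : (↥F)ˣ) : ↥F), ((πu ^ m : (↥F)ˣ) : ↥F).2, ?_, ?_, ?_⟩
  · intro h
    have : ((πu ^ m : (↥F)ˣ) : ↥F) = 0 := Subtype.ext h
    exact (Units.ne_zero _) this
  · have e1 : (((x.toMul : (↥F)ˣ) : ↥F) : AlgebraicClosure ℚ) /
        (((πu ^ m : (↥F)ˣ) : ↥F) : AlgebraicClosure ℚ) ^ p = ((u : ↥F) : AlgebraicClosure ℚ) := by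
      show _ = (((x.toMul * (πu ^ m)⁻¹ ^ p : (↥F)ˣ) : ↥F) : AlgebraicClosure ℚ)
      rw [Units.val_mul, Units.val_pow_eq_pow_val, Units.val_inv_eq_inv_val]
      push_cast
      rw [div_eq_mul_inv, inv_pow]
    rw [e1]
    exact h3
  · have e2 : (((πu ^ m : (↥F)ˣ) : ↥F) : AlgebraicClosure ℚ) ^ p /
        (((x.toMul : (↥F)ˣ) : ↥F) : AlgebraicClosure ℚ) =
        (((u⁻¹ : (↥F)ˣ) : ↥F) : AlgebraicClosure ℚ) := by
      show _ = ((((x.toMul * (πu ^ m)⁻¹ ^ p)⁻¹ : (↥F)ˣ) : ↥F) : AlgebraicClosure ℚ)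
      rw [mul_inv, Units.val_mul, ← inv_pow, inv_inv, Units.val_pow_eq_pow_val,
        Units.val_inv_eq_inv_val]
      push_cast
      rw [div_eq_mul_inv, mul_comm]
    rw [e2]
    exact h4

/-- **Saturation.**  Every element of the intrinsic Selmer group `selmer S F p` has a `p`-th
root in the Kummer level. -/
theorem exists_root_mem_kummerLevel (hp : p ≠ 0) (x : Additive (↥F)ˣ) (hx : x ∈ selmer S ↥F p) :
    ∃ β ∈ kummerLevel S p F,
      β ^ p = (((x.toMul : (↥F)ˣ) : ↥F) : AlgebraicClosure ℚ) := by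
  obtain ⟨β, hβ⟩ := IsAlgClosed.exists_pow_nat_eq
    ((((x.toMul : (↥F)ˣ) : ↥F) : AlgebraicClosure ℚ)) (Nat.pos_of_ne_zero hp)
  refine ⟨β, mem_kummerLevel_of_pow ?_, hβ⟩
  rw [hβ]
  exact isSelmerElt_of_mem_selmer S p F x hx

end Fermat.Agent.S55.G.Exist121

end
end
-- ===== PACK-END S55/G/Exist121/Sat.lean

-- ===== PACK-BEGIN S55/G/FI/TransportH895.lean
section
/-
S55, layer G, leaf **G-FI** (helper895), part 2: from the Herbrand form `FirstIneqSpec`
(`K`, `L`, generator `σ` of `Gal(L/K)`) to helper421's frozen interface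
`FirstInequalityCycSpec` / `FirstInequalitySpec` (`G/Spec1b.lean`, `G/Spec.lean`):
a cyclic group `G` of odd order `n` acting faithfully on the number field `L`.

* `cRepr_congr`, `jRepr_congr`, `divRepr_congr` : the representations of `Defs.lean` only depend
  on the automorphism of `L` induced by `g`;
* `firstInequalityCycSpec_of : FirstIneqSpec → FirstInequalityCycSpec`;
* `firstInequalityCycSpec_of_J`, `firstInequalitySpec_of_J` : the same from the ONLY open input
  `JHerbrandSpec` (Herbrand indices of `J_S`: `h₀ = ∏_{v ∈ S_K} e_v f_v`, `h₁ = 1`);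
  `SUnitsHerbrandSpec` (helper595) and `ClSFiniteSpec` (helper604) are taken from main.

No `sorry`.
-/






set_option autoImplicit false
set_option linter.unusedSectionVars false
set_option linter.style.haveILetI false

open Fermat.Agent.S55.G Fermat.Agent.S55.Herbrand
open scoped NumberField TensorProduct
open IsDedekindDomain

namespace Fermat.Agent.S55.G.FIH895

/-! ## 1. The representations only depend on the induced automorphisms of `L` -/

section Congr

variable (S : Finset Nat.Primes) {G G' L : Type} [Group G] [Group G'] [Field L] [NumberField L]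
  [MulSemiringAction G L] [MulSemiringAction G' L]

lemma fieldAut_congr {g : G} {g' : G'} (h : ∀ x : L, g • x = g' • x) :
    fieldAut G L g = fieldAut G' L g' :=
  AlgEquiv.ext fun x => h x

lemma lRepr_congr {g : G} {g' : G'} (h : ∀ x : L, g • x = g' • x) :
    lRepr G L g = lRepr G' L g' := by
  refine LinearMap.ext fun x => ?_
  apply Additive.toMul.injective
  apply Units.ext
  rw [coe_lRepr_apply, coe_lRepr_apply]
  exact h _

lemma jRepr_congr {g : G} {g' : G'} (h : ∀ x : L, g • x = g' • x) :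
    jRepr G S L g = jRepr G' S L g' := by
  refine LinearMap.ext fun x => ?_
  apply Additive.toMul.injective
  apply Units.ext
  rw [coe_jRepr_apply, coe_jRepr_apply]
  unfold asAut
  simp only [MonoidHom.coe_mk, OneHom.coe_mk]
  rw [fieldAut_congr h]

lemma smul_int_congr {g : G} {g' : G'} (h : ∀ x : L, g • x = g' • x) (x : 𝓞 L) :
    g • x = g' • x := by
  apply Subtype.ext
  exact h x

lemma inv_smul_congr {g : G} {g' : G'} (h : ∀ x : L, g • x = g' • x) (x : L) :
    g⁻¹ • x = g'⁻¹ • x := by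
  rw [inv_smul_eq_iff, h, smul_inv_smul]

lemma primeSMul_congr {g : G} {g' : G'} (h : ∀ x : L, g • x = g' • x)
    (w : HeightOneSpectrum (𝓞 L)) : primeSMul G g w = primeSMul G' g' w := by
  refine HeightOneSpectrum.ext (Ideal.ext fun x => ?_)
  rw [mem_primeSMul_iff, mem_primeSMul_iff, smul_int_congr (inv_smul_congr h)]

lemma divRepr_congr {g : G} {g' : G'} (h : ∀ x : L, g • x = g' • x) :
    divRepr S G L g = divRepr S G' L g' := by
  have : primeOutMap S G L g = primeOutMap S G' L g' := by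
    funext w
    exact Subtype.ext (primeSMul_congr h w.1)
  unfold divRepr
  simp only [MonoidHom.coe_mk, OneHom.coe_mk]
  rw [this]

lemma cRepr_congr {g : G} {g' : G'} (h : ∀ x : L, g • x = g' • x) :
    cRepr S G L g = cRepr S G' L g' := by
  refine LinearMap.ext fun c => ?_
  obtain ⟨⟨j, d⟩, rfl⟩ := (principal S L).mkQ_surjective c
  change (principal S L).mkQ (jdRepr S G L g (j, d)) =
    (principal S L).mkQ (jdRepr S G' L g' (j, d))
  have : jdRepr S G L g (j, d) = jdRepr S G' L g' (j, d) := by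
    change ((jRepr G S L g j, divRepr S G L g d) : JD S L) =
      (jRepr G' S L g' j, divRepr S G' L g' d)
    rw [jRepr_congr S h, divRepr_congr S h]
  rw [this]

lemma gAct_CRep_congr {g : G} {g' : G'} (h : ∀ x : L, g • x = g' • x) :
    (gAct (CRep S G L) g : AddMonoid.End (CS S L)) = gAct (CRep S G' L) g' := by
  refine AddMonoidHom.ext fun c => ?_
  change cRepr S G L g c = cRepr S G' L g' c
  rw [cRepr_congr S h]

lemma gAct_JRep_congr {g : G} {g' : G'} (h : ∀ x : L, g • x = g' • x) :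
    (gAct (JRep G S L) g : AddMonoid.End (Additive (AS S L)ˣ)) = gAct (JRep G' S L) g' := by
  refine AddMonoidHom.ext fun c => ?_
  change jRepr G S L g c = jRepr G' S L g' c
  rw [jRepr_congr S h]

end Congr

/-! ## 2. Transport to a cyclic group acting faithfully -/

open groupCohomology in
/-- **G-FI, interface form**: the Herbrand form of the first inequality gives helper421's
`FirstInequalityCycSpec`. -/
theorem firstInequalityCycSpec_of (hFI : FirstIneqSpec) : FirstInequalityCycSpec := by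
  intro n hn S G L _ _ _ _ _ _ _ hS hcard
  classical
  letI : Fintype G := Fintype.ofFinite G
  obtain ⟨g, hg⟩ := IsCyclic.exists_generator (α := G)
  have hσ : ∀ τ : L ≃ₐ[FixedPoints.subfield G L] L,
      τ ∈ Subgroup.zpowers (FixedPoints.toAlgAutMulEquiv G L g) := by
    intro τ
    obtain ⟨t, rfl⟩ := (FixedPoints.toAlgAutMulEquiv G L).surjective τ
    obtain ⟨k, rfl⟩ := Subgroup.mem_zpowers_iff.1 (hg t)
    exact Subgroup.mem_zpowers_iff.2 ⟨k, (map_zpow (FixedPoints.toAlgAutMulEquiv G L) g k).symm⟩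
  have hcardeq : Nat.card (L ≃ₐ[FixedPoints.subfield G L] L) = Nat.card G :=
    (Nat.card_congr (FixedPoints.toAlgAutMulEquiv G L).toEquiv).symm
  have hfr : Module.finrank (FixedPoints.subfield G L) L = n := by
    rw [← IsGalois.card_aut_eq_finrank, hcardeq, hcard]
  obtain ⟨c0, c1, hc⟩ := hFI (FixedPoints.subfield G L) L (FixedPoints.toAlgAutMulEquiv G L g)
    hσ S hS
  have hact : (gAct (CRep S G L) g : AddMonoid.End (CS S L)) =
      gAct (CRep S (L ≃ₐ[FixedPoints.subfield G L] L) L) (FixedPoints.toAlgAutMulEquiv G L g) :=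
    gAct_CRep_congr S fun _ => rfl
  rw [infDegProd_eq_one_of_odd _ _ (by rw [hfr]; exact hn), mul_one, hfr] at hc
  have e0 : Nat.card (groupCohomology (CRep S G L) 2) =
      h0 (gAct (CRep S (L ≃ₐ[FixedPoints.subfield G L] L) L)
        (FixedPoints.toAlgAutMulEquiv G L g)) (Nat.card (L ≃ₐ[FixedPoints.subfield G L] L)) := by
    rw [card_H2_eq_h0 (CRep S G L) g hg, hcardeq]
    exact congrArg (fun s : AddMonoid.End (CS S L) => h0 s (Nat.card G)) hact
  have e1 : Nat.card (groupCohomology (CRep S G L) 1) =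
      h1 (gAct (CRep S (L ≃ₐ[FixedPoints.subfield G L] L) L)
        (FixedPoints.toAlgAutMulEquiv G L g)) (Nat.card (L ≃ₐ[FixedPoints.subfield G L] L)) := by
    rw [card_H1_eq_h1 (CRep S G L) g hg, hcardeq]
    exact congrArg (fun s : AddMonoid.End (CS S L) => h1 s (Nat.card G)) hact
  rw [← e0] at c0 hc
  rw [← e1] at c1 hc
  exact ⟨(Nat.card_ne_zero.1 c1).2, (Nat.card_ne_zero.1 c0).2, by rw [hc, mul_comm]⟩

/-- Finiteness of the `S`-class group (helper604, `ClsH604.ordHom_range_index_ne_zero`). -/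
theorem clSFiniteSpec : ClSFiniteSpec := fun L _ _ S =>
  ClsH604.ordHom_range_index_ne_zero S L

/-- **G-FI from its last open input** `JHerbrandSpec` (cyclic groups of odd order). -/
theorem firstInequalityCycSpec_of_J (hJ : JHerbrandSpec) : FirstInequalityCycSpec :=
  firstInequalityCycSpec_of (firstIneqSpec_of sUnitsHerbrandSpec hJ clSFiniteSpec)

/-- **G-FI from its last open input** `JHerbrandSpec` (groups of odd prime order). -/
theorem firstInequalitySpec_of_J (hJ : JHerbrandSpec) : FirstInequalitySpec :=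
  firstInequality_of_cyc (firstInequalityCycSpec_of_J hJ)

/-- **G-FI from its inputs** (cyclic groups of odd order). -/
theorem firstInequalityCycSpec_of_inputs (hJ : JHerbrandSpec) (hCl : ClSFiniteSpec) :
    FirstInequalityCycSpec :=
  firstInequalityCycSpec_of (firstIneqSpec_of sUnitsHerbrandSpec hJ hCl)

/-- **G-FI from its inputs** (groups of odd prime order). -/
theorem firstInequalitySpec_of_inputs (hJ : JHerbrandSpec) (hCl : ClSFiniteSpec) :
    FirstInequalitySpec :=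
  firstInequality_of_cyc (firstInequalityCycSpec_of_inputs hJ hCl)

end Fermat.Agent.S55.G.FIH895

end
-- ===== PACK-END S55/G/FI/TransportH895.lean

-- ===== PACK-BEGIN S55/L/Inv481/Amalgam.lean
section


/-!
# S55 / layer L / leaf L-C2 (helper481): amalgamation of finite Galois extensions

Two finite Galois extensions `M₁`, `M₂` of `K` (characteristic zero) receiving a common field
`L` embed over `L` into a third finite Galois extension `M₃` of `K`.
-/

set_option autoImplicit false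
set_option linter.style.haveILetI false

namespace Fermat.Agent.S55.L.Inv481

section CodRestrict

variable {K A M : Type} [Field K] [Field A] [Field M] [Algebra K A] [Algebra K M]

/-- restriction of the codomain of an algebra homomorphism to an intermediate field -/
noncomputable def algHomCodRestrict (j : A →ₐ[K] M) (F : IntermediateField K M)
    (h : ∀ x, j x ∈ F) : A →ₐ[K] F where
  toFun x := ⟨j x, h x⟩
  map_one' := Subtype.ext (map_one j)
  map_mul' x y := Subtype.ext (map_mul j x y)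
  map_zero' := Subtype.ext (map_zero j)
  map_add' x y := Subtype.ext (map_add j x y)
  commutes' r := Subtype.ext (j.commutes r)

@[simp] theorem algHomCodRestrict_coe (j : A →ₐ[K] M) (F : IntermediateField K M)
    (h : ∀ x, j x ∈ F) (x : A) : ((algHomCodRestrict j F h x : F) : M) = j x := rfl

theorem val_comp_algHomCodRestrict (j : A →ₐ[K] M) (F : IntermediateField K M)
    (h : ∀ x, j x ∈ F) : F.val.comp (algHomCodRestrict j F h) = j := by
  ext x; rfl

/-- if the range of `g` is contained in the range of `k`, then `g` factors through `k` -/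
theorem exists_factor {E₁ E₃ : Type} [Field E₁] [Field E₃] [Algebra K E₁] [Algebra K E₃]
    (k : E₃ →ₐ[K] M) (g : E₁ →ₐ[K] M) (h : g.fieldRange ≤ k.fieldRange) :
    ∃ c : E₁ →ₐ[K] E₃, k.comp c = g := by
  have hmem : ∀ x, g x ∈ k.range := fun x => AlgHom.mem_fieldRange.mp (h ⟨x, rfl⟩)
  refine ⟨((AlgEquiv.ofInjectiveField k).symm : k.range →ₐ[K] E₃).comp
    (g.codRestrict k.range hmem), ?_⟩
  ext x
  have h1 : ∀ z : k.range, k ((AlgEquiv.ofInjectiveField k).symm z) = (z : M) := by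
    intro z
    obtain ⟨w, hw⟩ := (AlgEquiv.ofInjectiveField k).surjective z
    rw [← hw, AlgEquiv.symm_apply_apply]
    rfl
  exact h1 _

end CodRestrict

section Amalgam

/-- **Amalgamation** of two finite Galois extensions over a common subfield. -/
theorem exists_amalgam (K L M₁ M₂ : Type) [Field K] [Field L] [Field M₁] [Field M₂]
    [Algebra K L] [Algebra K M₁] [Algebra K M₂] [CharZero K]
    [FiniteDimensional K M₁] [IsGalois K M₁] [FiniteDimensional K M₂] [IsGalois K M₂]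
    (i₁ : L →ₐ[K] M₁) (i₂ : L →ₐ[K] M₂) :
    ∃ (M₃ : Type) (_ : Field M₃) (_ : Algebra K M₃) (_ : FiniteDimensional K M₃)
      (_ : IsGalois K M₃) (j₁ : M₁ →ₐ[K] M₃) (j₂ : M₂ →ₐ[K] M₃), j₁.comp i₁ = j₂.comp i₂ := by
  let j₁ : M₁ →ₐ[K] AlgebraicClosure M₁ := IsScalarTower.toAlgHom K M₁ (AlgebraicClosure M₁)
  letI aLM₂ : Algebra L M₂ := i₂.toRingHom.toAlgebra
  letI aLΩ : Algebra L (AlgebraicClosure M₁) := (j₁.comp i₁).toRingHom.toAlgebra
  haveI : IsScalarTower K L M₂ := IsScalarTower.of_algebraMap_eq (fun x => (i₂.commutes x).symm)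
  haveI : IsScalarTower K L (AlgebraicClosure M₁) :=
    IsScalarTower.of_algebraMap_eq (fun x => ((j₁.comp i₁).commutes x).symm)
  haveI : FiniteDimensional L M₂ := FiniteDimensional.right K L M₂
  haveI : Algebra.IsAlgebraic L M₂ := Algebra.IsAlgebraic.of_finite L M₂
  let j₂L : M₂ →ₐ[L] AlgebraicClosure M₁ := IsAlgClosed.lift
  let j₂ : M₂ →ₐ[K] AlgebraicClosure M₁ := j₂L.restrictScalars K
  have hcomm : j₁.comp i₁ = j₂.comp i₂ := by
    ext x
    exact (j₂L.commutes x).symm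
  haveI : FiniteDimensional K j₁.fieldRange :=
    (AlgEquiv.ofInjectiveField j₁).toLinearEquiv.finiteDimensional
  haveI : FiniteDimensional K j₂.fieldRange :=
    (AlgEquiv.ofInjectiveField j₂).toLinearEquiv.finiteDimensional
  haveI : Normal K j₁.fieldRange := Normal.of_algEquiv (AlgEquiv.ofInjectiveField j₁)
  haveI : Normal K j₂.fieldRange := Normal.of_algEquiv (AlgEquiv.ofInjectiveField j₂)
  let M₃ : IntermediateField K (AlgebraicClosure M₁) := j₁.fieldRange ⊔ j₂.fieldRange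
  haveI : FiniteDimensional K M₃ := IntermediateField.finiteDimensional_sup _ _
  haveI : Normal K M₃ :=
    show Normal K ↥(j₁.fieldRange ⊔ j₂.fieldRange) from inferInstance
  haveI : IsGalois K M₃ := ⟨⟩
  have h₁ : ∀ x, j₁ x ∈ M₃ := fun x =>
    (le_sup_left : j₁.fieldRange ≤ M₃) ⟨x, rfl⟩
  have h₂ : ∀ x, j₂ x ∈ M₃ := fun x =>
    (le_sup_right : j₂.fieldRange ≤ M₃) ⟨x, rfl⟩
  refine ⟨M₃, inferInstance, inferInstance, inferInstance, inferInstance,
    algHomCodRestrict j₁ M₃ h₁, algHomCodRestrict j₂ M₃ h₂, ?_⟩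
  ext x
  exact congrArg (fun f => f x) hcomm

end Amalgam

end Fermat.Agent.S55.L.Inv481

end
-- ===== PACK-END S55/L/Inv481/Amalgam.lean

-- ===== PACK-BEGIN S55/H654/GD10.lean
section



set_option autoImplicit false
set_option linter.style.haveILetI false
set_option linter.unusedSectionVars false
set_option linter.unusedVariables false

/-!
# S55, engine input GD10 (helper654): `H1FiniteSpec`

`Tow.H1FiniteSpec S p` (finiteness of `H¹_S`) for `p ∈ S`, from `finiteDimensional_continuousH1S`;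
and the second half of GD9 (`μ_p` lives at some level).
-/

namespace Fermat.Agent.S55.H654

open groupCohomology IntermediateField ExtCitation

attribute [local instance] Fermat.Agent.S55.Bridge.isAlgebraic_Qbar
  Fermat.Agent.S55.Bridge.isGalois_Qbar

variable {p : ℕ} [Fact p.Prime] (S : Finset Nat.Primes)

/-- **GD10.** -/
theorem h1FiniteSpec (hpS : pPrime p ∈ S) : Tow.H1FiniteSpec S p := by
  intro N _ hN
  obtain ⟨L, hL⟩ := hN
  have hsm : ∀ m : N, ∃ F : IntermediateField ℚ (AlgebraicClosure ℚ),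
      FiniteDimensional ℚ F ∧ ∀ s ∈ F.fixingSubgroup, N.ρ s m = m :=
    fun m => ⟨L.F, L.unram.1, fun s hs => by rw [hL s hs]; rfl⟩
  have hur : ∀ q : Nat.Primes, q ∉ S → ∀ V : ValuationSubring (AlgebraicClosure ℚ),
      V.LiesOverPrime (q : ℕ) → ∀ g ∈ V.inertiaSubgroupIn ℚ, N.ρ g = 1 :=
    fun q hq V hV g hg => hL g (L.unram.2 q hq V hV hg)
  exact finiteDimensional_continuousH1S S hpS N hsm hur

/-- Second half of **GD9**: `μ_p` lives at some level (for `p ∈ S`). -/
theorem exists_level_rootsOfUnity (hpS : pPrime p ∈ S) :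
    ∃ L₀ : Tow.Level S, ∀ ζ : Tow.Qbar, ζ ^ p = 1 → ζ ∈ L₀.F := by
  let M : Rep.{0, 0, 0} (ZMod p) (AlgebraicClosure ℚ ≃ₐ[ℚ] AlgebraicClosure ℚ) :=
    Rep.trivial (ZMod p) (AlgebraicClosure ℚ ≃ₐ[ℚ] AlgebraicClosure ℚ) (ZMod p)
  haveI : FiniteDimensional (ZMod p) M :=
    inferInstanceAs (FiniteDimensional (ZMod p) (ZMod p))
  have hsm : ∀ m : M, ∃ F : IntermediateField ℚ (AlgebraicClosure ℚ),
      FiniteDimensional ℚ F ∧ ∀ s ∈ F.fixingSubgroup, M.ρ s m = m :=
    fun m => ⟨⊥, inferInstance, fun s _ => rfl⟩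
  have hur : ∀ q : Nat.Primes, q ∉ S → ∀ V : ValuationSubring (AlgebraicClosure ℚ),
      V.LiesOverPrime (q : ℕ) → ∀ g ∈ V.inertiaSubgroupIn ℚ, M.ρ g = 1 :=
    fun q hq V hV g hg => rfl
  obtain ⟨L, hL, hGal, -, hcyc, -⟩ := Bridge.exists_common_galois_level M S hpS hsm hur
  refine ⟨⟨L, hL, (InfiniteGalois.normal_iff_isGalois L).mpr hGal⟩, fun ζ hζ => ?_⟩
  exact primitiveRoot_mem_of_cycloChar L hcyc hζ

end Fermat.Agent.S55.H654

end
-- ===== PACK-END S55/H654/GD10.lean

-- ===== PACK-BEGIN S55/Cap/C1H239/Reduce.lean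
section



/-!
# S55 / A8 (helper239): finite-level reduction for level-constant cochains in `Ind_U 𝕁`

* `exists_level_of_isLC₁` : a level-constant cochain is right-invariant under `L.U` for some
  (normal) level `L : Tow.Level S`;
* `exists_lift_one` : every element of `Ind_U 𝕁` has all its coefficients in `J(L')` for all
  sufficiently high levels `L'`;
* `exists_level_lift` : a level-constant `b : G_ℚ → Ind_U 𝕁` is right-`L.U`-invariant with all
  values in `Ind_U J(L)` for some level `L` above any two given levels.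
-/

set_option autoImplicit false
set_option linter.unusedVariables false
set_option linter.unusedSectionVars false
set_option linter.style.haveILetI false

noncomputable section

namespace Fermat.Agent.S55.Cap.H239

open Fermat.Agent.S55.PT Fermat.Agent.S55.Tow Fermat.Agent.S55.Cap

variable {S : Finset Nat.Primes}

/-- a level-constant cochain is right-invariant under a normal level -/
lemma exists_level_of_isLC₁ {X : Type} (f : Tow.GQ → X) (hf : (globalLevels S).IsLC₁ f) :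
    ∃ L : Level S, ∀ g s : Tow.GQ, s ∈ L.U → f (g * s) = f g := by
  obtain ⟨W, hW, hfW⟩ := hf
  obtain ⟨V, ⟨F, hF, hVF⟩, hVW, hVn⟩ := globalLevels_normal_cofinal724 S W hW
  refine ⟨⟨F, hF, ?_⟩, fun g s hs => hfW g s (hVW ?_)⟩
  · rw [← hVF]
    exact hVn
  · rw [hVF]
    exact hs

/-- every element of `Ind_U 𝕁` lives at all sufficiently high levels -/
lemma exists_lift_one (U : Subgroup Tow.GQ) (F : IndM U (JJS S)) :
    ∃ L : Level S, ∀ L' : Level S, L ≤ L' →
      ∃ β : IndM U (JL L'), IndM.map U (ofJ L') β = F := by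
  induction F using IndM.induction_on with
  | h0 => exact ⟨capBot S, fun L' _ => ⟨0, map_zero _⟩⟩
  | hadd F F' hF hF' =>
    obtain ⟨L, hL⟩ := hF
    obtain ⟨L', hL'⟩ := hF'
    refine ⟨capSup S L L', fun L'' h => ?_⟩
    obtain ⟨β, hβ⟩ := hL L'' ((le_capSup_left S L L').trans h)
    obtain ⟨β', hβ'⟩ := hL' L'' ((le_capSup_right S L L').trans h)
    exact ⟨β + β', by rw [map_add, hβ, hβ']⟩
  | hsingle x a =>
    obtain ⟨L, hL⟩ := JJS.smooth S a
    refine ⟨L, fun L' h => ?_⟩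
    obtain ⟨y, hy⟩ := exists_ofJ L' a (fun u hu => hL u (Level.U_anti h hu))
    exact ⟨IndM.single U x y, by rw [IndM.map_single, hy]⟩

/-- **finite-level reduction** -/
theorem exists_level_lift (U : Subgroup Tow.GQ) (b : Tow.GQ → IndM U (JJS S))
    (hb : (globalLevels S).IsLC₁ b) (L₀ L₁ : Level S) :
    ∃ L : Level S, L₀ ≤ L ∧ L₁ ≤ L ∧ (∀ g s : Tow.GQ, s ∈ L.U → b (g * s) = b g) ∧
      ∀ g, ∃ β : IndM U (JL L), IndM.map U (ofJ L) β = b g := by
  classical
  obtain ⟨Lb, hLb⟩ := exists_level_of_isLC₁ b hb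
  have hout : ∀ g : Tow.GQ, b ((QuotientGroup.mk g : Lb.Gal).out) = b g := by
    intro g
    obtain ⟨u, hu⟩ := QuotientGroup.mk_out_eq_mul Lb.U g
    rw [hu]
    exact hLb g u u.2
  choose Lc hLc using fun c : Lb.Gal => exists_lift_one U (b c.out)
  haveI : Nonempty (Level S) := ⟨capBot S⟩
  haveI : IsDirectedOrder (Level S) :=
    ⟨fun a a' => ⟨capSup S a a', le_capSup_left S a a', le_capSup_right S a a'⟩⟩
  obtain ⟨M, hM⟩ := Finite.exists_le Lc
  refine ⟨capSup S (capSup S L₀ L₁) (capSup S Lb M),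
    (le_capSup_left S L₀ L₁).trans (le_capSup_left S _ _),
    (le_capSup_right S L₀ L₁).trans (le_capSup_left S _ _), fun g s hs => ?_, fun g => ?_⟩
  · exact hLb g s (Level.U_anti ((le_capSup_left S Lb M).trans (le_capSup_right S _ _)) hs)
  · obtain ⟨β, hβ⟩ := hLc (QuotientGroup.mk g) _
      (((hM (QuotientGroup.mk g)).trans (le_capSup_right S Lb M)).trans (le_capSup_right S _ _))
    exact ⟨β, by rw [hβ, hout]⟩

end Fermat.Agent.S55.Cap.H239

end
end
-- ===== PACK-END S55/Cap/C1H239/Reduce.lean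

-- ===== PACK-BEGIN S55/Inv/GO4/Defs.lean
section



/-!
# S55 / `InvSpec` / GO4 (cokernel of the localisation map): DICTIONARY, definitions
(sub-architect helper3; blueprint `coord/S55-INV-GO4.md`)

The arithmetic core of `Inv.GlobCokerSpec` is `Inv.CokerESpec p S` (`Inv/SpecK.lean`; adapter
`Inv.H99.globCoker_of_cokerE`), a statement about level-constant cochains of `G_ℚ` with values in
`Ind_U 𝔼` and of the local groups `G_q` with values in `Ind_U ℚ̄_qˣ`.  Its tower form is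
`K.AR.CokerTower S p` (helper4, `K/AR/Spec.lean`).  The DICTIONARY between the two is organised
here.  Finite-level vocabulary, on the canonical tower `Tow.Level S` with the level objects of
`E1/Lim/Obj.lean`  (`K₀ ≤ L` levels, `Q = Gal(K₀/ℚ)`):

* `dInd φ A`          : `(Q →₀ A)` with the diagonal action of `Γ` (through `φ : Γ →* Q` on `Q`);
* `indF h X`          : `(Q →₀ X)`, `X` a `Gal(L/ℚ)`-module `= Ind_{Gal(L/K₀)}^{Gal(L/ℚ)} X`;
* `semiLoc h q`       : `(Q →₀ L_qˣ)` as a module over the decomposition group `Dec_q(L)`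
                        (`= ⊕_{w | q} Ind_{Gal(L_q/K₀,q)}^{Dec_q(L)} L_qˣ`);
* `locF h q`          : `Res_{Dec_q(L)} indF h E_S(L) ⟶ semiLoc h q`   (coefficientwise `E(L) → L_qˣ`);
* `semiLocTr h h' q`  : transition `semiLoc h q → semiLoc (h.trans h') q` along `Dec_q(L') → Dec_q(L)`;
* `locH2`, `inflLoc`  : the maps induced on `H²` (Mathlib `groupCohomology` of FINITE groups);
* `locM h q τ`        : the level-constant 2-cochain of `G_q` with values in
                        `K.ind (rl q) K₀.U ℚ̄_qˣ` defined by a 2-cochain `τ` of `Dec_q(L)` with values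
                        in `semiLoc h q` (inflation along `G_q → Dec_q(L)` + `L_qˣ ⊂ ℚ̄_qˣ`).
-/

set_option autoImplicit false
set_option linter.unusedSectionVars false

noncomputable section

namespace Fermat.Agent.S55.Inv.GO4

open Fermat.Agent.S55 Fermat.Agent.S55.Tow Fermat.Agent.S55.E1.Lim groupCohomology CategoryTheory

variable {S : Finset Nat.Primes}

/-! ## 1. Finite-level induced modules -/

section Gen

variable {k : Type} [CommRing k] {Γ Q : Type} [Group Γ] [Group Q]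

/-- the diagonal action of `g ∈ Γ` on `(Q →₀ A)`, `Γ` acting on `Q` through `φ : Γ →* Q` by left
translation -/
def dAct (φ : Γ →* Q) (A : Rep.{0, 0, 0} k Γ) (g : Γ) : (Q →₀ A) →ₗ[k] (Q →₀ A) :=
  (Finsupp.lmapDomain A k (fun x : Q => φ g * x)).comp (Finsupp.mapRange.linearMap (A.ρ g))

@[simp] lemma dAct_single (φ : Γ →* Q) (A : Rep.{0, 0, 0} k Γ) (g : Γ) (x : Q) (a : A) :
    dAct φ A g (Finsupp.single x a) = Finsupp.single (φ g * x) (A.ρ g a) := by
  simp [dAct]

/-- the diagonal representation of `Γ` on `(Q →₀ A)` -/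
def dRho (φ : Γ →* Q) (A : Rep.{0, 0, 0} k Γ) : Representation k Γ (Q →₀ A) where
  toFun := dAct φ A
  map_one' := by
    ext x a : 2
    simp
  map_mul' g g' := by
    ext x a : 2
    simp [mul_assoc]

/-- `(Q →₀ A)` with the diagonal action of `Γ` (`Γ` acts on `Q` through `φ`). -/
def dInd (φ : Γ →* Q) (A : Rep.{0, 0, 0} k Γ) : Rep.{0, 0, 0} k Γ := Rep.of (dRho φ A)

lemma dInd_ρ_single (φ : Γ →* Q) (A : Rep.{0, 0, 0} k Γ) (g : Γ) (x : Q) (a : A) :
    (dInd φ A).ρ g (Finsupp.single x a : Q →₀ A) = (Finsupp.single (φ g * x) (A.ρ g a) : Q →₀ A) :=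
  dAct_single φ A g x a

/-- functoriality of `dInd` in the coefficients -/
def dIndMap (φ : Γ →* Q) {A B : Rep.{0, 0, 0} k Γ} (f : A ⟶ B) : dInd φ A ⟶ dInd φ B :=
  Rep.ofHom ⟨(Finsupp.mapRange.linearMap f.hom.toLinearMap : (Q →₀ A) →ₗ[k] (Q →₀ B)),
    fun g => by
      apply Finsupp.lhom_ext
      intro x a
      show Finsupp.mapRange.linearMap f.hom.toLinearMap (dAct φ A g (Finsupp.single x a)) =
        dAct φ B g (Finsupp.mapRange.linearMap f.hom.toLinearMap (Finsupp.single x a))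
      rw [dAct_single, Finsupp.mapRange.linearMap_apply, Finsupp.mapRange_single,
        Finsupp.mapRange.linearMap_apply, Finsupp.mapRange_single, dAct_single]
      congr 1
      exact Rep.hom_comm_apply f g a⟩

/-- transition maps of `dInd`: `π : Γ' →* Γ`, `t : Res_π A ⟶ A'`, coefficientwise `t`;
`φ'` is any homomorphism equal to `φ ∘ π`. -/
def dIndTr {Γ' : Type} [Group Γ'] (φ : Γ →* Q) (π : Γ' →* Γ) (φ' : Γ' →* Q)
    (hφ : ∀ g, φ (π g) = φ' g) {A : Rep.{0, 0, 0} k Γ}
    {A' : Rep.{0, 0, 0} k Γ'} (t : Rep.res π A ⟶ A') :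
    Rep.res π (dInd φ A) ⟶ dInd φ' A' :=
  Rep.ofHom ⟨(Finsupp.mapRange.linearMap t.hom.toLinearMap : (Q →₀ A) →ₗ[k] (Q →₀ A')),
    fun g => by
      apply Finsupp.lhom_ext
      intro x a
      show Finsupp.mapRange.linearMap t.hom.toLinearMap (dAct φ A (π g) (Finsupp.single x a)) =
        dAct φ' A' g (Finsupp.mapRange.linearMap t.hom.toLinearMap (Finsupp.single x a))
      rw [dAct_single, Finsupp.mapRange.linearMap_apply, Finsupp.mapRange_single,
        Finsupp.mapRange.linearMap_apply, Finsupp.mapRange_single, dAct_single, hφ]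
      congr 1
      exact Rep.hom_comm_apply t g a⟩

lemma dIndTr_single {Γ' : Type} [Group Γ'] (φ : Γ →* Q) (π : Γ' →* Γ) (φ' : Γ' →* Q)
    (hφ : ∀ g, φ (π g) = φ' g) {A : Rep.{0, 0, 0} k Γ}
    {A' : Rep.{0, 0, 0} k Γ'} (t : Rep.res π A ⟶ A') (x : Q) (a : A) :
    (dIndTr φ π φ' hφ t).hom (Finsupp.single x a : Q →₀ A) =
      (Finsupp.single x (t.hom a) : Q →₀ A') :=
  Finsupp.mapRange_single (hf := map_zero _)

lemma dIndTr_apply {Γ' : Type} [Group Γ'] (φ : Γ →* Q) (π : Γ' →* Γ) (φ' : Γ' →* Q)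
    (hφ : ∀ g, φ (π g) = φ' g) {A : Rep.{0, 0, 0} k Γ}
    {A' : Rep.{0, 0, 0} k Γ'} (t : Rep.res π A ⟶ A') (f : Q →₀ A) (x : Q) :
    (show Q →₀ A' from (dIndTr φ π φ' hφ t).hom f) x = t.hom (f x) := rfl

end Gen

section IndF

variable {K₀ L : Level S} (h : K₀ ≤ L)

/-- `Ind_{Gal(L/K₀)}^{Gal(L/ℚ)} X = (Gal(K₀/ℚ) →₀ X)` with the diagonal action. -/
abbrev indF (X : Rep.{0} ℤ L.Gal) : Rep.{0} ℤ L.Gal := dInd (Level.proj h) X

/-- functoriality of `indF` in the coefficients -/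
abbrev indFMap {X Y : Rep.{0} ℤ L.Gal} (f : X ⟶ Y) : indF h X ⟶ indF h Y :=
  dIndMap (Level.proj h) f

lemma proj_comp {L' : Level S} (h' : L ≤ L') :
    (Level.proj h).comp (Level.proj h') = Level.proj (h.trans h') := by
  ext g
  rfl

end IndF

/-! ## 2. The semi-local modules at finite level -/

section SemiLoc

variable {K₀ L : Level S} (h : K₀ ≤ L) (q : Nat.Primes)

/-- `Dec_q(L) → Gal(L/ℚ) → Gal(K₀/ℚ)`. -/
abbrev decTo : L.Dec q →* K₀.Gal := (Level.proj h).comp (L.decHom q)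

/-- The semi-local module `(Gal(K₀/ℚ) →₀ L_qˣ)` over the decomposition group `Dec_q(L)`. -/
abbrev semiLoc : Rep.{0} ℤ (L.Dec q) := dInd (decTo h q) (L.locUnits q)

/-- `E_S(L) → L_qˣ`, semilinear along `Dec_q(L) → Gal(L/ℚ)`. -/
def sEmb (L : Level S) (q : Nat.Primes) : Rep.res (L.decHom q) (sUnits L) ⟶ L.locUnits q :=
  semiOfAdd (L.decHom q) (A := sUnits L) (B := L.locUnits q)
    { toFun := fun e => L.embFun q ((sIncl L).hom e)
      map_zero' := by rw [map_zero, map_zero]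
      map_add' := fun x y => by rw [map_add, map_add] }
    (fun d e => by
      show L.embFun q ((sIncl L).hom ((sUnits L).ρ (L.decHom q d) e)) =
        (L.locUnits q).ρ d (L.embFun q ((sIncl L).hom e))
      rw [Rep.hom_comm_apply (sIncl L)]
      exact Rep.hom_comm_apply (L.emb q) d ((sIncl L).hom e))

@[simp] lemma sEmb_apply (L : Level S) (q : Nat.Primes) (e : (sUnits L).V) :
    (sEmb L q).hom e = L.embFun q ((sIncl L).hom e) := rfl

/-- localisation at `q`, finite level, coefficients: `Res_{Dec_q} Ind E_S(L) ⟶ (Q →₀ L_qˣ)`. -/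
def locF : Rep.res (L.decHom q) (indF h (sUnits L)) ⟶ semiLoc h q :=
  dIndTr (Level.proj h) (L.decHom q) (decTo h q) (fun _ => rfl) (sEmb L q)

lemma locF_single (x : K₀.Gal) (e : (sUnits L).V) :
    (locF h q).hom (Finsupp.single x e : K₀.Gal →₀ (sUnits L).V) =
      (Finsupp.single x (L.embFun q ((sIncl L).hom e)) : K₀.Gal →₀ (L.locUnits q).V) :=
  dIndTr_single _ _ _ _ _ x e

lemma proj_proj {L' : Level S} (h' : L ≤ L') (g : L'.Gal) :
    Level.proj h (Level.proj h' g) = Level.proj (h.trans h') g := by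
  induction g using QuotientGroup.induction_on with
  | H g => rfl

lemma decTo_projDec {L' : Level S} (h' : L ≤ L') (d : L'.Dec q) :
    decTo h q (Level.projDec h' q d) = decTo (h.trans h') q d := by
  show Level.proj h (L.decHom q (Level.projDec h' q d)) =
    Level.proj (h.trans h') (L'.decHom q d)
  rw [← Level.proj_decHom h' q d, proj_proj]

/-- transition of the semi-local modules, `L ≤ L'`. -/
def semiLocTr {L' : Level S} (h' : L ≤ L') :
    Rep.res (Level.projDec h' q) (semiLoc h q) ⟶ semiLoc (h.trans h') q :=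
  dIndTr (decTo h q) (Level.projDec h' q) (decTo (h.trans h') q) (decTo_projDec h q h')
    (Level.trLoc h' q)

/-- transition of the global induced modules, `L ≤ L'` (coefficientwise `t`). -/
def indFTr {L' : Level S} (h' : L ≤ L') {X : Rep.{0} ℤ L.Gal} {X' : Rep.{0} ℤ L'.Gal}
    (t : Rep.res (Level.proj h') X ⟶ X') :
    Rep.res (Level.proj h') (indF h X) ⟶ indF (h.trans h') X' :=
  dIndTr (Level.proj h) (Level.proj h') (Level.proj (h.trans h')) (proj_proj h h') t

/-- **localisation at `q` on `H²`, finite level**: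
`H²(Gal(L/ℚ), Ind E_S(L)) → H²(Dec_q(L), (Q →₀ L_qˣ))`. -/
def locH2 : groupCohomology (indF h (sUnits L)) 2 →ₗ[ℤ] groupCohomology (semiLoc h q) 2 :=
  (groupCohomology.map (L.decHom q) (locF h q) 2).hom

/-- **inflation on the local side**, `L ≤ L'`:
`H²(Dec_q(L), (Q →₀ L_qˣ)) → H²(Dec_q(L'), (Q →₀ L'_qˣ))`. -/
def inflLoc {L' : Level S} (h' : L ≤ L') :
    groupCohomology (semiLoc h q) 2 →ₗ[ℤ] groupCohomology (semiLoc (h.trans h') q) 2 :=
  (groupCohomology.map (Level.projDec h' q) (semiLocTr h q h') 2).hom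

/-- **inflation on the global side**, `L ≤ L'`:
`H²(Gal(L/ℚ), Ind E_S(L)) → H²(Gal(L'/ℚ), Ind E_S(L'))`. -/
def inflE {L' : Level S} (h' : L ≤ L') :
    groupCohomology (indF h (sUnits L)) 2 →ₗ[ℤ]
      groupCohomology (indF (h.trans h') (sUnits L')) 2 :=
  (groupCohomology.map (Level.proj h') (indFTr h h' (trS h')) 2).hom

/-- The level-constant local 2-cochain (values in `K.ind (rl q) K₀.U ℚ̄_qˣ`) defined by a 2-cochain
`τ` of the finite group `Dec_q(L)` with values in `semiLoc h q`. -/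
def locM (τ : L.Dec q × L.Dec q → (semiLoc h q).V) :
    PT.Gl q × PT.Gl q → K.ind (PT.rl q) K₀.U (Tow.unitsQpbar q) :=
  fun x => (Finsupp.mapRange (L.locCoe q) (map_zero _)
    (τ ((QuotientGroup.mk x.1 : L.Dec q), (QuotientGroup.mk x.2 : L.Dec q))) :
      (GQ ⧸ K₀.U) →₀ (Tow.unitsQpbar q).V)

/-- The level-constant local 1-cochain defined by a 1-cochain of `Dec_q(L)`. -/
def locM₁ (c : L.Dec q → (semiLoc h q).V) :
    PT.Gl q → K.ind (PT.rl q) K₀.U (Tow.unitsQpbar q) :=
  fun x => (Finsupp.mapRange (L.locCoe q) (map_zero _) (c (QuotientGroup.mk x : L.Dec q)) :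
      (GQ ⧸ K₀.U) →₀ (Tow.unitsQpbar q).V)

end SemiLoc

end Fermat.Agent.S55.Inv.GO4

end

end
-- ===== PACK-END S55/Inv/GO4/Defs.lean

-- ===== PACK-BEGIN S56/FL/CntBridgeDefs.lean
section




/-!
# Row S56 — W-FLAT-SS, piece RAMCOUNT: the bridge to the abstract count, definitions
(helper426).  Sorry-free, Mathlib only.

From an `RCDatum` `d` we build the data `H846.FLCnt.Data d.Γ d.k d.Z0` of the abstract count:
`Z0` = trace-zero endomorphisms, `adZ` = adjoint action, `qRamSub N n` = the subgroup with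
carrier `d.qRam N n`, `iQ N σ = #{n | σ ∈ qRam N n}`.
-/

set_option autoImplicit false

open IsLocalRing

noncomputable section

namespace Fermat.Agent.S56.FL

namespace RCDatum

variable (d : RCDatum)

/-! ### The action on `B` preserves the powers of the maximal ideal -/

lemma bridge_smul_mem_maxPow (σ : d.Γ) (n : ℕ) {x : d.B} (hx : x ∈ maximalIdeal d.B ^ n) :
    σ • x ∈ maximalIdeal d.B ^ n := by
  have h1 : Ideal.map (MulSemiringAction.toRingHom d.Γ d.B σ) (maximalIdeal d.B)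
      ≤ maximalIdeal d.B := by
    rw [Ideal.map_le_iff_le_comap]
    intro y hy
    rw [Ideal.mem_comap, mem_maximalIdeal, mem_nonunits_iff]
    rw [mem_maximalIdeal, mem_nonunits_iff] at hy
    intro hu
    apply hy
    have h2 : IsUnit (σ⁻¹ • (σ • y)) :=
      hu.map (MulSemiringAction.toRingHom d.Γ d.B σ⁻¹)
    rwa [inv_smul_smul] at h2
  have h3 : (MulSemiringAction.toRingHom d.Γ d.B σ) x ∈
      Ideal.map (MulSemiringAction.toRingHom d.Γ d.B σ) (maximalIdeal d.B ^ n) :=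
    Ideal.mem_map_of_mem _ hx
  rw [Ideal.map_pow] at h3
  exact Ideal.pow_right_mono h1 n h3

/-! ### The groups `qRam` -/

/-- The subgroup with carrier `d.qRam N n`. -/
def qRamSub (N : Subgroup d.Γ) (n : ℕ) : Subgroup d.Γ where
  carrier := d.qRam N n
  mul_mem' := by
    intro σ τ hσ hτ x hx
    have h1 : (σ * τ) • x - x = σ • (τ • x - x) + (σ • x - x) := by
      rw [mul_smul, smul_sub]; ring
    rw [h1]
    exact Ideal.add_mem _ (d.bridge_smul_mem_maxPow σ _ (hτ x hx)) (hσ x hx)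
  one_mem' := by
    intro x _
    simp
  inv_mem' := by
    intro σ hσ x hx
    have h1 : σ⁻¹ • x - x = -(σ⁻¹ • (σ • x - x)) := by
      rw [smul_sub, inv_smul_smul]; ring
    rw [h1]
    exact Ideal.neg_mem_iff _ |>.mpr (d.bridge_smul_mem_maxPow σ⁻¹ _ (hσ x hx))

@[simp] lemma mem_qRamSub {N : Subgroup d.Γ} {n : ℕ} {σ : d.Γ} :
    σ ∈ d.qRamSub N n ↔ σ ∈ d.qRam N n := Iff.rfl

lemma coe_qRamSub (N : Subgroup d.Γ) (n : ℕ) : (d.qRamSub N n : Set d.Γ) = d.qRam N n := rfl

lemma qRam_bot (n : ℕ) : d.qRam ⊥ n = (ramGroup d.B d.Γ n : Set d.Γ) := by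
  ext σ
  have hc : Nat.card (⊥ : Subgroup d.Γ) = 1 := Subgroup.card_bot
  constructor
  · intro h
    rw [SetLike.mem_coe, mem_ramGroup]
    intro x
    have := h x (fun ν hν => by rw [Subgroup.mem_bot.mp hν, one_smul])
    rwa [hc, one_mul] at this
  · intro h x _
    rw [SetLike.mem_coe, mem_ramGroup] at h
    rw [hc, one_mul]
    exact h x

lemma qRamSub_bot (n : ℕ) : d.qRamSub ⊥ n = ramGroup d.B d.Γ n :=
  SetLike.coe_injective (d.qRam_bot n)

lemma qRam_anti (N : Subgroup d.Γ) {n n' : ℕ} (h : n ≤ n') : d.qRam N n' ⊆ d.qRam N n := by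
  intro σ hσ x hx
  exact Ideal.pow_le_pow_right (Nat.mul_le_mul_left _ (Nat.succ_le_succ h)) (hσ x hx)

lemma mem_qRam_of_mem (N : Subgroup d.Γ) (n : ℕ) {σ : d.Γ} (hσ : σ ∈ N) : σ ∈ d.qRam N n := by
  intro x hx
  rw [hx σ hσ, sub_self]
  exact Ideal.zero_mem _

lemma ramGroup_anti {n n' : ℕ} (h : n ≤ n') : ramGroup d.B d.Γ n' ≤ ramGroup d.B d.Γ n := by
  intro σ hσ
  rw [mem_ramGroup] at hσ ⊢
  intro x
  exact Ideal.pow_le_pow_right (Nat.succ_le_succ h) (hσ x)

/-- `i_{Γ/N}(σ N)` as the number of `n` with `σ ∈ qRam N n`. -/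
def iQ (N : Subgroup d.Γ) (σ : d.Γ) : ℕ := Nat.card {n : ℕ | σ ∈ d.qRam N n}

/-! ### Trace-zero endomorphisms and the adjoint action -/

/-- The trace-zero endomorphisms of `V`. -/
abbrev Z0 : Type := ↥(LinearMap.ker (LinearMap.trace d.k d.V))

lemma rho_mul_inv (g : d.Γ) : d.ρ g * d.ρ g⁻¹ = 1 := by
  rw [← map_mul, mul_inv_cancel, map_one]

lemma rho_inv_mul (g : d.Γ) : d.ρ g⁻¹ * d.ρ g = 1 := by
  rw [← map_mul, inv_mul_cancel, map_one]

lemma trace_conj (g : d.Γ) (z : Module.End d.k d.V) :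
    LinearMap.trace d.k d.V (d.ρ g * z * d.ρ g⁻¹) = LinearMap.trace d.k d.V z := by
  rw [LinearMap.trace_mul_comm, ← mul_assoc, d.rho_inv_mul, one_mul]

/-- Conjugation by `ρ g` on trace-zero endomorphisms. -/
def adZfun (g : d.Γ) : Module.End d.k d.Z0 where
  toFun z := ⟨d.ρ g * z.1 * d.ρ g⁻¹, by
    rw [LinearMap.mem_ker, d.trace_conj]; exact z.2⟩
  map_add' z w := by
    apply Subtype.ext
    simp [mul_add, add_mul]
  map_smul' c z := by
    apply Subtype.ext
    simp

@[simp] lemma adZfun_coe (g : d.Γ) (z : d.Z0) :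
    ((d.adZfun g z : d.Z0) : Module.End d.k d.V) = d.ρ g * z.1 * d.ρ g⁻¹ := rfl

/-- The adjoint action on trace-zero endomorphisms. -/
def adZ : d.Γ →* Module.End d.k d.Z0 where
  toFun := d.adZfun
  map_one' := by
    apply LinearMap.ext
    intro z
    apply Subtype.ext
    simp
  map_mul' g h := by
    apply LinearMap.ext
    intro z
    apply Subtype.ext
    simp [mul_assoc]

@[simp] lemma adZ_coe (g : d.Γ) (z : d.Z0) :
    ((d.adZ g z : d.Z0) : Module.End d.k d.V) = d.ρ g * z.1 * d.ρ g⁻¹ := rfl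

/-- The first cocycle with values in `Z0`. -/
def cz₁ (σ : d.Γ) : d.Z0 := ⟨d.c₁ σ, d.htr₁ σ⟩

/-- The second cocycle with values in `Z0`. -/
def cz₂ (σ : d.Γ) : d.Z0 := ⟨d.c₂ σ, d.htr₂ σ⟩

/-- The data of the abstract count attached to an `RCDatum` and a choice of tame generator,
Frobenius lift and coordinates. -/
def cntData (τ₀ φ : d.Γ) (m : ℕ) (ψ₀ a b : d.k) (ℓ₁ ℓp ℓm : Module.End d.k d.V →ₗ[d.k] d.k) :
    H846.FLCnt.Data d.Γ d.k d.Z0 where
  ρ := d.adZ
  W := d.ρ.ker
  c₁ := d.cz₁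
  c₂ := d.cz₂
  F := d.qRamSub
  i := d.iQ
  τ₀ := τ₀
  φ := φ
  m := m
  ψ₀ := ψ₀
  ℓ₁ := ℓ₁ ∘ₗ (LinearMap.ker (LinearMap.trace d.k d.V)).subtype
  ℓp := ℓp ∘ₗ (LinearMap.ker (LinearMap.trace d.k d.V)).subtype
  ℓm := ℓm ∘ₗ (LinearMap.ker (LinearMap.trace d.k d.V)).subtype
  a := a
  b := b

end RCDatum

end Fermat.Agent.S56.FL

end

end
-- ===== PACK-END S56/FL/CntBridgeDefs.lean

-- ===== PACK-BEGIN S56/H334/RLTame.lean
section


/-!
# S56 / W-FLAT-SS, piece FL-RAM (helper334): the frozen statement `RLTame`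

Proof of `FL.RLTameStatement` (verbatim from `FL/RamLemSpec.lean`): tame inertia is cyclic,
generated by `τ₀`, with faithful tame character `μ = θ₀(τ₀)`; `Γ / Γ₀` is generated by a Frobenius
lift `φ`, and `φ τ₀ φ⁻¹ ≡ τ₀ ^ p` modulo `Γ₁`.
-/

set_option autoImplicit false
set_option linter.unusedSectionVars false
set_option linter.style.haveILetI false

open IsLocalRing

namespace Fermat.Agent.S56.H334

open Fermat.Agent.S56

section TameAbstract

variable {B : Type*} [CommRing B] [IsDomain B] [IsDiscreteValuationRing B]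
variable {Γ : Type*} [Group Γ] [MulSemiringAction Γ B]
variable {π : B} (hπ : Irreducible π)

include hπ in
/-- `θ₀` does not depend on the uniformizer. -/
theorem residue_eq_residue_cOf {σ : Γ} (hσ : σ ∈ ramGroup Γ B 0) {ϖ u : B} (hϖ : Irreducible ϖ)
    (hu : σ • ϖ = u * ϖ) : residue B u = residue B (cOf hπ σ) := by
  obtain ⟨w, hw⟩ := (IsDiscreteValuationRing.associated_of_irreducible B hπ hϖ)
  -- `ϖ = π * w`
  have h1 : σ • ϖ = (σ • (w : B)) * cOf hπ σ * π := by
    rw [← hw, smul_mul', smul_eq_mul_cOf hπ σ]; ring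
  rw [hu, ← hw] at h1
  have h2 : u * (w : B) = σ • (w : B) * cOf hπ σ := by
    have : (u * (w : B)) * π = (σ • (w : B) * cOf hπ σ) * π := by
      rw [← h1]; ring
    exact mul_right_cancel₀ hπ.ne_zero this
  have h3 := congrArg (residue B) h2
  rw [map_mul, map_mul, residue_smul_eq_of_mem hσ] at h3
  have hw0 : residue B (w : B) ≠ 0 := by
    rw [Ne, residue_eq_zero_iff, mem_maximalIdeal, mem_nonunits_iff, not_not]
    exact w.isUnit
  rw [mul_comm (residue B u)] at h3
  exact mul_left_cancel₀ hw0 h3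

/-- A generator of the tame inertia group. -/
theorem exists_tame_generator (hH : InertiaResidue Γ B) [Finite Γ] :
    ∃ τ₀ ∈ ramGroup Γ B 0, ∀ σ ∈ ramGroup Γ B 0, ∃ j : ℕ, σ * (τ₀ ^ j)⁻¹ ∈ ramGroup Γ B 1 := by
  haveI := isCyclic_inertia_quotient (Γ := Γ) (B := B) hH
  obtain ⟨g, hg⟩ := IsCyclic.exists_generator
    (α := ramGroup Γ B 0 ⧸ (ramGroup Γ B 1).subgroupOf (ramGroup Γ B 0))
  obtain ⟨t, rfl⟩ := QuotientGroup.mk_surjective g
  refine ⟨t, t.2, fun σ hσ => ?_⟩
  have h1 := hg (QuotientGroup.mk ⟨σ, hσ⟩)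
  rw [← mem_powers_iff_mem_zpowers] at h1
  obtain ⟨j, hj⟩ := h1
  refine ⟨j, ?_⟩
  have h2 : ((t ^ j : ramGroup Γ B 0) : ramGroup Γ B 0 ⧸ (ramGroup Γ B 1).subgroupOf
      (ramGroup Γ B 0)) = QuotientGroup.mk ⟨σ, hσ⟩ := hj
  rw [QuotientGroup.eq] at h2
  have h3 : ((t ^ j)⁻¹ * ⟨σ, hσ⟩ : ramGroup Γ B 0).1 ∈ ramGroup Γ B 1 := h2
  have h4 : ((t : Γ) ^ j)⁻¹ * σ ∈ ramGroup Γ B 1 := h3
  exact (ramGroup_normal 1).mem_comm h4

include hπ in
/-- `τ ^ j ∈ Γ₁ ↔ θ₀(τ) ^ j = 1`. -/
theorem pow_mem_ramGroup_one_iff (hH : InertiaResidue Γ B) {τ : Γ} (hτ : τ ∈ ramGroup Γ B 0)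
    (j : ℕ) : τ ^ j ∈ ramGroup Γ B 1 ↔ residue B (cOf hπ τ) ^ j = 1 := by
  set t : ramGroup Γ B 0 := ⟨τ, hτ⟩ with ht
  have h1 : τ ^ j = ((t ^ j : ramGroup Γ B 0) : Γ) := rfl
  rw [h1, ← theta0_eq_one_iff hπ hH, map_pow]
  constructor
  · intro h
    have h2 := congrArg Units.val h
    rwa [Units.val_pow_eq_pow_val, theta0_apply, Units.val_one] at h2
  · intro h
    apply Units.ext
    rw [Units.val_pow_eq_pow_val, theta0_apply, Units.val_one]
    exact h

include hπ in
/-- A Frobenius lift `φ` satisfies `φ τ φ⁻¹ ≡ τ ^ q` modulo `Γ₁` for `τ ∈ Γ₀`. -/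
theorem frob_conj_mul_inv_mem (hH : InertiaResidue Γ B) {q : ℕ} {φ : Γ}
    (hφ : ∀ x : B, residue B (φ • x) = residue B x ^ q) {τ : Γ} (hτ : τ ∈ ramGroup Γ B 0) :
    φ * τ * φ⁻¹ * (τ ^ q)⁻¹ ∈ ramGroup Γ B 1 := by
  have hconj : φ * τ * φ⁻¹ ∈ ramGroup Γ B 0 := (ramGroup_normal 0).conj_mem _ hτ φ
  set t : ramGroup Γ B 0 := ⟨τ, hτ⟩ with ht
  set c : ramGroup Γ B 0 := ⟨φ * τ * φ⁻¹, hconj⟩ with hc
  have h1 : φ * τ * φ⁻¹ * (τ ^ q)⁻¹ = ((c * (t ^ q)⁻¹ : ramGroup Γ B 0) : Γ) := rfl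
  rw [h1, ← theta0_eq_one_iff hπ hH, map_mul, map_inv, mul_inv_eq_one, map_pow]
  apply Units.ext
  rw [Units.val_pow_eq_pow_val, theta0_apply, theta0_apply]
  show residue B (cOf hπ (φ * τ * φ⁻¹)) = residue B (cOf hπ τ) ^ q
  rw [theta0_conj hπ φ t, ← IsLocalRing.ResidueField.residue_smul, hφ]

end TameAbstract

section Frobenius

variable (A B Γ : Type*) [CommRing A] [IsDomain A] [IsDiscreteValuationRing A]
  [CommRing B] [IsDomain B] [IsDiscreteValuationRing B] [Algebra A B] [Module.Finite A B]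
  [FaithfulSMul A B] [Group Γ] [Finite Γ] [MulSemiringAction Γ B] [SMulCommClass Γ A B]
  [Algebra.IsInvariant A B Γ] [FaithfulSMul Γ B] [Finite (ResidueField A)]

/-- Existence of a Frobenius lift. -/
theorem exists_frobenius_lift :
    ∃ φ : Γ, ∀ x : B, residue B (φ • x) = residue B x ^ Nat.card (ResidueField A) := by
  haveI := finite_residueField_of_finite A B
  haveI : Finite (B ⧸ maximalIdeal B) := ‹Finite (ResidueField B)›
  obtain ⟨φ, hφ⟩ := IsArithFrobAt.exists_of_isInvariant A Γ (maximalIdeal B)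
  refine ⟨φ, fun x => ?_⟩
  have h := hφ x
  rw [← Ideal.over_def (maximalIdeal B) (maximalIdeal A)] at h
  rw [← sub_eq_zero, ← map_pow, ← map_sub, residue_eq_zero_iff]
  exact h

/-- The automorphism of the residue field extension induced by `σ`. -/
noncomputable def residueAlgEquiv (σ : Γ) : ResidueField B ≃ₐ[ResidueField A] ResidueField B :=
  AlgEquiv.ofRingEquiv (f := MulSemiringAction.toRingEquiv Γ (ResidueField B) σ) (by
    intro a
    obtain ⟨a₀, rfl⟩ := residue_surjective a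
    rw [IsLocalRing.ResidueField.algebraMap_residue]
    show σ • residue B (algebraMap A B a₀) = _
    rw [← IsLocalRing.ResidueField.residue_smul, smul_algebraMap])

theorem residueAlgEquiv_apply (σ : Γ) (y : ResidueField B) :
    residueAlgEquiv A B Γ σ y = σ • y := rfl

/-- Every `σ` acts on the residue field as a power of the Frobenius. -/
theorem exists_smul_eq_pow (σ : Γ) :
    ∃ n : ℕ, ∀ y : ResidueField B, σ • y = y ^ (Nat.card (ResidueField A) ^ n) := by
  haveI := finite_residueField_of_finite A B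
  cases nonempty_fintype (ResidueField A)
  obtain ⟨n, hn⟩ := (FiniteField.bijective_frobeniusAlgEquivOfAlgebraic_pow (ResidueField A)
    (ResidueField B)).2 (residueAlgEquiv A B Γ σ)
  refine ⟨n.1, fun y => ?_⟩
  have h1 := DFunLike.congr_fun hn y
  rw [residueAlgEquiv_apply] at h1
  rw [← h1, AlgEquiv.coe_pow, FiniteField.coe_frobeniusAlgEquivOfAlgebraic_iterate,
    Nat.card_eq_fintype_card]

include A in
/-- `Γ / Γ₀` is generated by a Frobenius lift. -/
theorem exists_mul_inv_pow_mem_ramGroup_zero {φ : Γ}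
    (hφ : ∀ x : B, residue B (φ • x) = residue B x ^ Nat.card (ResidueField A)) (σ : Γ) :
    ∃ j : ℕ, σ * (φ ^ j)⁻¹ ∈ ramGroup Γ B 0 := by
  obtain ⟨n, hn⟩ := exists_smul_eq_pow A B Γ σ
  refine ⟨n, ?_⟩
  have hφ' : ∀ y : ResidueField B, φ • y = y ^ Nat.card (ResidueField A) := by
    intro y
    obtain ⟨x, rfl⟩ := residue_surjective y
    rw [← IsLocalRing.ResidueField.residue_smul, hφ]
  have hpow : ∀ (k : ℕ) (y : ResidueField B),
      (φ ^ k) • y = y ^ (Nat.card (ResidueField A) ^ k) := by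
    intro k
    induction k with
    | zero => intro y; simp
    | succ k ih =>
      intro y
      rw [pow_succ, mul_smul, hφ', ih, ← pow_mul, pow_succ, mul_comm]
  intro x
  show (σ * (φ ^ n)⁻¹) • x - x ∈ ((maximalIdeal B) ^ (0 + 1)).toAddSubgroup
  rw [zero_add, pow_one]
  show (σ * (φ ^ n)⁻¹) • x - x ∈ maximalIdeal B
  rw [← residue_eq_zero_iff, map_sub, sub_eq_zero, IsLocalRing.ResidueField.residue_smul,
    mul_smul, hn, ← hpow, smul_inv_smul]

end Frobenius

/-- **RL-C** (frozen `FL.RLTameStatement`). -/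
theorem rlTame : FL.RLTameStatement := by
  intro d
  haveI := rc_fact_prime d
  haveI := rc_finite_residue d
  have hH := rc_inertiaResidue d
  obtain ⟨π, hπ⟩ := IsDiscreteValuationRing.exists_irreducible d.B
  obtain ⟨τ₀, hτ₀, hgen⟩ := exists_tame_generator (Γ := d.Γ) (B := d.B) hH
  obtain ⟨φ, hφ⟩ := exists_frobenius_lift d.A d.B d.Γ
  have hφ' : ∀ x : d.B, residue d.B (φ • x) = residue d.B x ^ d.p := by
    intro x; rw [hφ x, d.hκ]
  refine ⟨τ₀, hτ₀, φ, residue d.B (cOf hπ τ₀), hgen, ?_, ?_, hφ', ?_, ?_⟩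
  · intro j
    exact pow_mem_ramGroup_one_iff hπ hH hτ₀ j
  · intro ϖ hϖ u hu
    exact residue_eq_residue_cOf hπ hτ₀ hϖ hu
  · intro σ
    exact exists_mul_inv_pow_mem_ramGroup_zero d.A d.B d.Γ hφ σ
  · exact frob_conj_mul_inv_mem hπ hH hφ' hτ₀

end Fermat.Agent.S56.H334

end
-- ===== PACK-END S56/H334/RLTame.lean

-- ===== PACK-BEGIN S56/H384/RCShape.lean
section



/-!
# S56 / W-FLAT-SS, leaf RCShape (helper384)

`rcShape : FL.RCShapeStatement` (VERBATIM): the supersingular structure theorem for `ρ` and `Ad ρ`.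

Proof.  `ρ` kills the wild inertia group `Γ₁` (a `p`-group, while the image of `ρ` has order prime
to `p`), so `ρ(Γ)` is generated by `t = ρ τ₀` and `f = ρ φ`, with `f t = t ^ p f`.  `t` has order
prime to `p` and split characteristic polynomial; by irreducibility it is not scalar, so it is
`diag(χ, χ')` in a basis `v₁, v₂`, and `f` swaps the two eigenlines (`ShapeLA.exists_eigenbasis`):
`χ' = χ ^ p`, `χ = χ' ^ p`.  `det t = χ ^ (p + 1)` has exact order `p - 1` (`hdet` + `hcyc`), whence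
the arithmetic of the orders (`ShapeLA.order_shape`).  The count is `|Γ₀| = |ρ(Γ₀)| · |ker ρ ∩ Γ₀|`
with `ρ(Γ₀) = ⟨t⟩`.
-/

set_option autoImplicit false
set_option linter.style.haveILetI false

namespace Fermat.Agent.S56.H384

open Fermat.Agent.S56.FL Polynomial IsLocalRing

theorem rcShape : RCShapeStatement := by
  intro d htame hpg τ₀ φ μ hT hcyc
  classical
  obtain ⟨hτ₀, hgen0, -, -, -, hgenφ, hfrob⟩ := hT
  haveI : Fact d.p.Prime := ⟨d.hp⟩
  haveI := d.hchar
  have hp0 : d.p ≠ 0 := d.hp.ne_zero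
  have hinv' : ∀ g : d.Γ, d.ρ g⁻¹ * d.ρ g = 1 := fun g => by
    rw [← map_mul, inv_mul_cancel, map_one]
  -- the index of `ker ρ`
  have hpow_idx : ∀ g : d.Γ, d.ρ g ^ d.ρ.ker.index = 1 := fun g => by
    rw [← map_pow]
    exact MonoidHom.mem_ker.mp (Subgroup.pow_index_mem _ g)
  have hidxk : ((d.ρ.ker.index : ℕ) : d.k) ≠ 0 := fun h =>
    htame ((CharP.cast_eq_zero_iff d.k d.p _).mp h)
  -- wild inertia acts trivially
  have hwild : ∀ γ ∈ ramGroup d.B d.Γ 1, d.ρ γ = 1 := by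
    intro γ hγ
    obtain ⟨a, ha⟩ := hpg ⟨γ, hγ⟩
    have ha' : γ ^ d.p ^ a = 1 := by
      have := congrArg (fun x : ramGroup d.B d.Γ 1 => (x : d.Γ)) ha
      simpa using this
    have h1 : d.ρ γ ^ (d.p ^ a) = 1 := by rw [← map_pow, ha', map_one]
    have hcop : Nat.gcd (d.p ^ a) d.ρ.ker.index = 1 :=
      Nat.Coprime.pow_left a ((Nat.Prime.coprime_iff_not_dvd d.hp).mpr htame)
    have h2 := pow_gcd_eq_one.mpr ⟨h1, hpow_idx γ⟩
    rwa [hcop, pow_one] at h2
  -- the relation `f t = t ^ p f`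
  have hrel : d.ρ φ * d.ρ τ₀ = d.ρ τ₀ ^ d.p * d.ρ φ := by
    have hw := hwild _ hfrob
    have e : φ * τ₀ = (φ * τ₀ * φ⁻¹ * (τ₀ ^ d.p)⁻¹) * τ₀ ^ d.p * φ := by group
    rw [← map_mul, e, map_mul, map_mul, hw, one_mul, map_pow]
  -- every `ρ σ` is `t ^ i * f ^ j`
  have hgen : ∀ σ : d.Γ, ∃ i j : ℕ, d.ρ σ = d.ρ τ₀ ^ i * d.ρ φ ^ j := by
    intro σ
    obtain ⟨j, hj⟩ := hgenφ σ
    obtain ⟨i, hi⟩ := hgen0 _ hj
    refine ⟨i, j, ?_⟩
    have hw := hwild _ hi
    have e : σ = (σ * (φ ^ j)⁻¹ * (τ₀ ^ i)⁻¹) * τ₀ ^ i * φ ^ j := by group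
    conv_lhs => rw [e]
    rw [map_mul, map_mul, hw, one_mul, map_pow, map_pow]
  have hgenI : ∀ σ ∈ ramGroup d.B d.Γ 0, ∃ i : ℕ, d.ρ σ = d.ρ τ₀ ^ i := by
    intro σ hσ
    obtain ⟨i, hi⟩ := hgen0 σ hσ
    refine ⟨i, ?_⟩
    have hw := hwild _ hi
    have e : σ = (σ * (τ₀ ^ i)⁻¹) * τ₀ ^ i := by group
    conv_lhs => rw [e]
    rw [map_mul, hw, one_mul, map_pow]
  -- irreducibility for the pair `(t, f)`
  have hirr : ∀ U : Submodule d.k d.V, (∀ x ∈ U, d.ρ τ₀ x ∈ U) → (∀ x ∈ U, d.ρ φ x ∈ U) →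
      U = ⊥ ∨ U = ⊤ := by
    intro U hUt hUf
    refine d.hirr U fun σ x hx => ?_
    obtain ⟨i, j, hij⟩ := hgen σ
    rw [hij, Module.End.mul_apply]
    have hpowt : ∀ (n : ℕ) (y : d.V), y ∈ U → (d.ρ τ₀ ^ n) y ∈ U := by
      intro n
      induction n with
      | zero => intro y hy; simpa using hy
      | succ n ih =>
        intro y hy
        rw [pow_succ, Module.End.mul_apply]
        exact ih _ (hUt y hy)
    have hpowf : ∀ (n : ℕ) (y : d.V), y ∈ U → (d.ρ φ ^ n) y ∈ U := by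
      intro n
      induction n with
      | zero => intro y hy; simpa using hy
      | succ n ih =>
        intro y hy
        rw [pow_succ, Module.End.mul_apply]
        exact ih _ (hUf y hy)
    exact hpowt i _ (hpowf j x hx)
  -- eigenbasis
  obtain ⟨b, χ, χ', β, γ, hne, hβ, hγ, ht0, ht1, hf0, hf1, hχ', hχ, hdett⟩ :=
    exists_eigenbasis d.hV (d.ρ τ₀) (d.ρ φ) hrel (d.hsplit τ₀) (d.hsplit φ) hidxk
      (hpow_idx τ₀) hirr
  obtain ⟨ℓ₁, ℓp, ℓm, c1, c2, c3, c4, c5, c6, c7⟩ :=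
    ad_coords b hβ hγ (hinv' τ₀) (hinv' φ) ht0 ht1 hf0 hf1
  have hχ0 : χ ≠ 0 := by
    rintro rfl
    apply hne
    rw [hχ', zero_pow hp0]
  -- orders
  set x : d.kˣ := Units.mk0 χ hχ0 with hx
  have hxval : ∀ j : ℕ, ((x ^ j : d.kˣ) : d.k) = χ ^ j := fun j => by
    rw [Units.val_pow_eq_pow_val, hx, Units.val_mk0]
  have hxpow : ∀ j : ℕ, x ^ j = 1 ↔ χ ^ j = 1 := fun j => by
    rw [← Units.val_inj, hxval, Units.val_one]
  have hdet : ∀ j : ℕ, (x ^ (d.p + 1)) ^ j = 1 ↔ d.p - 1 ∣ j := by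
    intro j
    haveI : NeZero d.p := ⟨hp0⟩
    obtain ⟨a, -, ha⟩ := d.hζ.eq_pow_of_pow_eq_one (ξ := τ₀ ^ j • d.ζ)
      (by rw [← smul_pow', d.hζ.pow_eq_one, smul_one])
    have hda := d.hdet (τ₀ ^ j) a ha.symm
    rw [map_pow, map_pow, hdett] at hda
    rw [← hcyc j a ha.symm, ← pow_mul, hxpow, pow_mul, pow_succ, ← hχ', mul_comm χ' χ, hda]
    rw [← Nat.cast_one (R := d.k), CharP.natCast_eq_natCast d.k d.p]
  obtain ⟨hord, hmdvd, hodd⟩ := order_shape d.hp d.hp2 x hdet
  have hψval : ((x * (x ^ d.p)⁻¹ : d.kˣ) : d.k) = χ * χ'⁻¹ := by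
    rw [Units.val_mul, Units.val_inv_eq_inv_val, hxval, ← hχ', hx, Units.val_mk0]
  have hC9 : ∀ j : ℕ, d.ρ (τ₀ ^ j) = 1 ↔
      (d.p - 1) * orderOf (x * (x ^ d.p)⁻¹) ∣ j := by
    intro j
    rw [map_pow, pow_eq_one_iff_of_eigenbasis b ht0 ht1 hχ' j, ← hord,
      orderOf_dvd_iff_pow_eq_one, hxpow]
  refine ⟨ℓ₁, ℓp, ℓm, χ * χ'⁻¹, γ * β⁻¹, β * γ⁻¹, orderOf (x * (x ^ d.p)⁻¹),
    c1, c2, c3, c4, c5, c6, c7, hmdvd, hodd, hC9, ?_, ?_⟩
  · intro j
    rw [orderOf_dvd_iff_pow_eq_one, ← Units.val_inj, Units.val_pow_eq_pow_val, hψval,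
      Units.val_one]
  · -- the count
    set I : Subgroup d.Γ := ramGroup d.B d.Γ 0 with hI
    let ρu : d.Γ →* (Module.End d.k d.V)ˣ := d.ρ.toHomUnits
    let ρI : I →* (Module.End d.k d.V)ˣ := ρu.comp I.subtype
    have hρu : ∀ g : d.Γ, ((ρu g : (Module.End d.k d.V)ˣ) : Module.End d.k d.V) = d.ρ g :=
      fun g => rfl
    have hρu1 : ∀ g : d.Γ, ρu g = 1 ↔ d.ρ g = 1 := fun g => by
      rw [← Units.val_inj, hρu, Units.val_one]
    have h1 := Subgroup.card_mul_index ρI.ker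
    rw [Subgroup.index_ker] at h1
    have hrange : ρI.range = Subgroup.zpowers (ρu τ₀) := by
      ext y
      constructor
      · rintro ⟨⟨σ, hσ⟩, rfl⟩
        obtain ⟨i, hi⟩ := hgenI σ hσ
        refine ⟨(i : ℤ), ?_⟩
        apply Units.ext
        simp only [zpow_natCast, Units.val_pow_eq_pow_val]
        rw [hρu]
        exact hi.symm
      · rintro ⟨z, rfl⟩
        exact ⟨(⟨τ₀, hτ₀⟩ : I) ^ z, by simp [ρI, map_zpow]⟩
    have hordu : orderOf (ρu τ₀) = (d.p - 1) * orderOf (x * (x ^ d.p)⁻¹) := by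
      rw [← hord]
      rw [orderOf_eq_orderOf_iff]
      intro j
      rw [← map_pow, hρu1, hxpow, map_pow, pow_eq_one_iff_of_eigenbasis b ht0 ht1 hχ' j]
    have hcardrange : Nat.card ρI.range = (d.p - 1) * orderOf (x * (x ^ d.p)⁻¹) := by
      rw [hrange, Nat.card_zpowers, hordu]
    have hker : ρI.ker = (d.ρ.ker ⊓ I).subgroupOf I := by
      ext ⟨σ, hσ⟩
      rw [MonoidHom.mem_ker, Subgroup.mem_subgroupOf, Subgroup.mem_inf, MonoidHom.mem_ker]
      simp only [ρI, MonoidHom.comp_apply, Subgroup.coe_subtype]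
      rw [hρu1]
      exact ⟨fun h => ⟨h, hσ⟩, fun h => h.1⟩
    have hcardker : Nat.card ρI.ker = Nat.card (d.ρ.ker ⊓ I : Subgroup d.Γ) := by
      rw [hker]
      exact Nat.card_congr (Subgroup.subgroupOfEquivOfLe inf_le_right).toEquiv
    rw [hcardrange, hcardker] at h1
    rw [← h1, mul_comm]

end Fermat.Agent.S56.H384

end
-- ===== PACK-END S56/H384/RCShape.lean

-- ===== PACK-BEGIN S56/H656/FlatUnit.lean
section



/-!
# Row S56 — FLAT-O leaf FU (helper656): `flatUnit : H906.FlatUnitStatement`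

"Unit resolvent = peu ramifié".  `M` a finite Galois module killed by `p` with a Hopf lattice `Λ`
(landed A3 vocabulary `S19/H435`), `P | p`, `H = {σ ∈ I_P : σ ζ = ζ}`, `L ≤ M` a subgroup fixed
pointwise by `H` and containing all `σ y - y` (`σ ∈ H`).  For every additive `ξ : M → 𝔽_p` and
every `x : M` there is a `P`-unit `B` with `σ B = ζ^{ξ(σ x - x)} B` for all `σ ∈ H`.

Proof (no descent, no dual basis).  `ψ = ζ^ξ`, `T f (y) = ∑_{t ∈ L} ψ(-t) f (y + t)`.
* `T f (y + t₀) = ψ(t₀) T f (y)` for `t₀ ∈ L`; `σ (T f y) = T f (σ y)` for `f ∈ Λ`, `σ ∈ H`;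
  `T f (w + y) = ∑ a_k(w) T b_k (y)` if `f(u + v) = ∑ a_k(u) b_k(v)`.
* `s := T e 0` of maximal valuation among `e ∈ Λ`; `s ≠ 0` by Dedekind independence of the
  evaluation characters of `Λ`; `s` is fixed by `H`; `v(T f y) ≤ v(s)` for all `f ∈ Λ`, `y`.
* `s = T e (-x + x) = ∑ a_k(-x) T b_k (x)`, so some `T b_k (x)` has the valuation of `s`;
  `B := T b_k (x) / s`.

Nothing unproved in this file.
-/

set_option autoImplicit false

open Polynomial

noncomputable section

namespace Fermat.Agent.S56.H656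

open Fermat.Agent.S56 Fermat.Agent.S19.H435

/-! ## Integrality -/

section val

variable (P : ValuationSubring _root_.Fermat.Agent.S56.Qb) (p : ℕ)

/-- Elements of `ℤ_(p)` are integral at a place over `p`. -/
theorem valuation_Zl_le_one (hp : p.Prime) (hP : P.LiesOverPrime p) (r : Zl p) :
    P.valuation (algebraMap (Zl p) _root_.Fermat.Agent.S56.Qb r) ≤ 1 := by
  obtain ⟨q, hq⟩ := r
  have hq' : q.den.Coprime p := hq
  have e1 : algebraMap (Zl p) _root_.Fermat.Agent.S56.Qb ⟨q, hq⟩ = ((q.num : ℤ) : _root_.Fermat.Agent.S56.Qb) / ((q.den : ℤ) : _root_.Fermat.Agent.S56.Qb) := by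
    show algebraMap ℚ _root_.Fermat.Agent.S56.Qb q = _
    rw [eq_ratCast]
    have := Rat.cast_def (K := _root_.Fermat.Agent.S56.Qb) q
    rw [this]
    push_cast
    rfl
  have hden : P.valuation (((q.den : ℤ)) : _root_.Fermat.Agent.S56.Qb) = 1 := by
    apply Fermat.Agent.S14.H894.valuation_intCast_eq_one P p hp hP
    intro hdvd
    have h1 : p ∣ q.den := by exact_mod_cast hdvd
    have h2 : p ∣ Nat.gcd q.den p := Nat.dvd_gcd h1 dvd_rfl
    rw [Nat.Coprime] at hq'
    rw [hq'] at h2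
    exact hp.one_lt.ne' (Nat.dvd_one.mp h2)
  rw [e1, map_div₀, hden, div_one]
  exact Fermat.Agent.S14.H894.valuation_intCast_le_one P _

/-- Elements of `ℚ̄` integral over `ℤ_(p)` are integral at every place over `p`. -/
theorem valuation_le_one_of_isIntegral (hp : p.Prime) (hP : P.LiesOverPrime p) {x : _root_.Fermat.Agent.S56.Qb}
    (hx : IsIntegral (Zl p) x) : P.valuation x ≤ 1 := by
  obtain ⟨q, hqm, hqx⟩ := hx
  by_contra hvx
  rw [not_le] at hvx
  rw [hqm.as_sum, eval₂_add, eval₂_pow, eval₂_X, eval₂_finset_sum, add_eq_zero_iff_eq_neg] at hqx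
  replace hqx := congr_arg P.valuation hqx
  refine ne_of_gt ?_ hqx
  rw [Valuation.map_neg, Valuation.map_pow]
  refine Valuation.map_sum_lt' _ (zero_lt_one.trans_le (one_le_pow₀ hvx.le)) fun i hi => ?_
  rw [eval₂_mul, eval₂_pow, eval₂_C, eval₂_X, Valuation.map_mul, Valuation.map_pow,
    ← one_mul (P.valuation x ^ q.natDegree)]
  have hc : P.valuation ((algebraMap (Zl p) _root_.Fermat.Agent.S56.Qb) (q.coeff i)) ≤ 1 :=
    valuation_Zl_le_one P p hp hP _
  have hpow : P.valuation x ^ i < P.valuation x ^ q.natDegree :=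
    pow_lt_pow_right₀ hvx (Finset.mem_range.1 hi)
  have hpos : 0 < P.valuation x ^ i := pow_pos (zero_lt_one.trans hvx) i
  calc P.valuation ((algebraMap (Zl p) _root_.Fermat.Agent.S56.Qb) (q.coeff i)) * P.valuation x ^ i
      ≤ 1 * P.valuation x ^ i := by gcongr
    _ < 1 * P.valuation x ^ q.natDegree := by
        rw [one_mul, one_mul]; exact hpow

end val

/-! ## The character `ψ = ζ^ξ` -/

section psi

variable {p : ℕ} [Fact p.Prime] {M : Type} [AddCommGroup M]

/-- The `μ_p`-valued character attached to `ξ : M → 𝔽_p`. -/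
def fuPsi (ζ : _root_.Fermat.Agent.S56.Qb) (ξ : M →+ ZMod p) (m : M) : _root_.Fermat.Agent.S56.Qb := ζ ^ (ξ m).val

variable {ζ : _root_.Fermat.Agent.S56.Qb} (hζ : ζ ^ p = 1) (ξ : M →+ ZMod p)

theorem fuPsi_zero (ζ : _root_.Fermat.Agent.S56.Qb) : fuPsi ζ ξ 0 = 1 := by
  simp [fuPsi]

include hζ in
theorem fuPsi_add (m n : M) : fuPsi ζ ξ (m + n) = fuPsi ζ ξ m * fuPsi ζ ξ n := by
  unfold fuPsi
  rw [map_add, ZMod.val_add, ← pow_add, ← pow_eq_pow_mod _ hζ]

include hζ in
theorem fuPsi_neg_mul (m : M) : fuPsi ζ ξ (-m) * fuPsi ζ ξ m = 1 := by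
  rw [← fuPsi_add hζ, neg_add_cancel, fuPsi_zero]

theorem fuPsi_map (ζ : _root_.Fermat.Agent.S56.Qb) (σ : GQ) (hσ : σ ζ = ζ) (m : M) : σ (fuPsi ζ ξ m) = fuPsi ζ ξ m := by
  unfold fuPsi
  rw [map_pow, hσ]

include hζ in
theorem valuation_fuPsi (P : ValuationSubring _root_.Fermat.Agent.S56.Qb) (m : M) : P.valuation (fuPsi ζ ξ m) = 1 := by
  have hp0 : p ≠ 0 := (Fact.out : p.Prime).ne_zero
  have h1 : P.valuation ζ ^ p = 1 := by rw [← Valuation.map_pow, hζ, Valuation.map_one]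
  have h2 : P.valuation ζ = 1 := by
    rcases lt_trichotomy (P.valuation ζ) 1 with h | h | h
    · exact absurd h1 (pow_lt_one₀ zero_le' h hp0).ne
    · exact h
    · exact absurd h1 (one_lt_pow₀ h hp0).ne'
  unfold fuPsi
  rw [Valuation.map_pow, h2, one_pow]

end psi

/-! ## The twisted average -/

section tw

variable {p : ℕ} [Fact p.Prime] {M : Type} [AddCommGroup M] [Fintype M]

open Classical in
/-- The weight `ψ(-t)` on `L`, `0` outside. -/
def fuWt (ζ : _root_.Fermat.Agent.S56.Qb) (ξ : M →+ ZMod p) (L : AddSubgroup M) (t : M) : _root_.Fermat.Agent.S56.Qb :=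
  if t ∈ L then fuPsi ζ ξ (-t) else 0

/-- `T f (y) = ∑_{t ∈ L} ψ(-t) f (y + t)`. -/
def fuTw (ζ : _root_.Fermat.Agent.S56.Qb) (ξ : M →+ ZMod p) (L : AddSubgroup M) (f : M → _root_.Fermat.Agent.S56.Qb) (y : M) : _root_.Fermat.Agent.S56.Qb :=
  ∑ t : M, fuWt ζ ξ L t * f (y + t)

variable {ζ : _root_.Fermat.Agent.S56.Qb} (hζ : ζ ^ p = 1) (ξ : M →+ ZMod p) (L : AddSubgroup M)

theorem fuWt_zero (ζ : _root_.Fermat.Agent.S56.Qb) : fuWt ζ ξ L 0 = 1 := by
  unfold fuWt
  rw [if_pos L.zero_mem, neg_zero, fuPsi_zero]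

include hζ in
theorem fuWt_shift {t₀ : M} (ht₀ : t₀ ∈ L) (t : M) :
    fuWt ζ ξ L (-t₀ + t) = fuPsi ζ ξ t₀ * fuWt ζ ξ L t := by
  unfold fuWt
  by_cases ht : t ∈ L
  · rw [if_pos ht, if_pos (L.add_mem (L.neg_mem ht₀) ht), ← fuPsi_add hζ]
    congr 1
    abel
  · have : -t₀ + t ∉ L := by
      intro h
      apply ht
      have := L.add_mem ht₀ h
      rwa [add_neg_cancel_left] at this
    rw [if_neg ht, if_neg this, mul_zero]

theorem valuation_fuWt_le_one (hζ : ζ ^ p = 1) (P : ValuationSubring _root_.Fermat.Agent.S56.Qb) (t : M) :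
    P.valuation (fuWt ζ ξ L t) ≤ 1 := by
  unfold fuWt
  split_ifs
  · exact (valuation_fuPsi hζ ξ P _).le
  · rw [Valuation.map_zero]; exact zero_le'

theorem fuWt_map (ζ : _root_.Fermat.Agent.S56.Qb) (σ : GQ) (hσ : σ ζ = ζ) (t : M) :
    σ (fuWt ζ ξ L t) = fuWt ζ ξ L t := by
  unfold fuWt
  split_ifs
  · exact fuPsi_map ξ ζ σ hσ _
  · exact map_zero σ

include hζ in
/-- (T1) `T f (y + t₀) = ψ(t₀) T f (y)` for `t₀ ∈ L`. -/
theorem fuTw_add_mem (f : M → _root_.Fermat.Agent.S56.Qb) (y : M) {t₀ : M} (ht₀ : t₀ ∈ L) :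
    fuTw ζ ξ L f (y + t₀) = fuPsi ζ ξ t₀ * fuTw ζ ξ L f y := by
  unfold fuTw
  rw [Finset.mul_sum]
  rw [← Equiv.sum_comp (Equiv.addLeft t₀)
    (fun t' => fuPsi ζ ξ t₀ * (fuWt ζ ξ L t' * f (y + t')))]
  refine Finset.sum_congr rfl fun t _ => ?_
  simp only [Equiv.coe_addLeft]
  have h := fuWt_shift hζ ξ L ht₀ (t₀ + t)
  rw [neg_add_cancel_left] at h
  rw [← mul_assoc, ← h, add_assoc]

/-- (T3) `T f (w + y) = ∑ a_k(w) T b_k (y)` when `f (u + v) = ∑ a_k(u) b_k(v)`. -/
theorem fuTw_comul (ζ : _root_.Fermat.Agent.S56.Qb) {f : M → _root_.Fermat.Agent.S56.Qb} {n : ℕ} {a b : Fin n → M → _root_.Fermat.Agent.S56.Qb}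
    (hab : ∀ u v : M, f (u + v) = ∑ k, a k u * b k v) (w y : M) :
    fuTw ζ ξ L f (w + y) = ∑ k, a k w * fuTw ζ ξ L (b k) y := by
  unfold fuTw
  simp only [Finset.mul_sum]
  rw [Finset.sum_comm]
  refine Finset.sum_congr rfl fun t _ => ?_
  rw [add_assoc, hab, Finset.mul_sum]
  refine Finset.sum_congr rfl fun k _ => ?_
  ring

/-- `T` is additive and `ℤ_(p)`-homogeneous in `f`. -/
theorem fuTw_sum_smul (ζ : _root_.Fermat.Agent.S56.Qb) {n : ℕ} (c : Fin n → Zl p) (e : Fin n → M → _root_.Fermat.Agent.S56.Qb) (y : M) :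
    fuTw ζ ξ L (∑ i, c i • e i) y = ∑ i, algebraMap (Zl p) _root_.Fermat.Agent.S56.Qb (c i) * fuTw ζ ξ L (e i) y := by
  unfold fuTw
  simp only [sum_smul_apply', Finset.mul_sum]
  rw [Finset.sum_comm]
  refine Finset.sum_congr rfl fun i _ => Finset.sum_congr rfl fun t _ => ?_
  ring

end tw

/-! ## Hopf lattices -/

section lattice

variable {p : ℕ} [Fact p.Prime] {M : Type} [AddCommGroup M] [Fintype M]
  {act : GQ → M → M} {Λ : Subalgebra (Zl p) (M → _root_.Fermat.Agent.S56.Qb)}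

/-- Evaluation at a point, as a character of the multiplicative monoid of `Λ`. -/
def fuEv (Λ : Subalgebra (Zl p) (M → _root_.Fermat.Agent.S56.Qb)) (t : M) : ↥Λ →* _root_.Fermat.Agent.S56.Qb where
  toFun f := (f : M → _root_.Fermat.Agent.S56.Qb) t
  map_one' := rfl
  map_mul' _ _ := rfl

theorem fuEv_injective (hΛ : IsHopfLattice p act Λ) : Function.Injective (fuEv Λ) := by
  intro t₁ t₂ h
  by_contra hne
  obtain ⟨f, hf, hfne⟩ := hΛ.separates _ _ hne
  exact hfne (congrArg (fun φ : ↥Λ →* _root_.Fermat.Agent.S56.Qb => φ ⟨f, hf⟩) h)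

/-- **Nondegeneracy**: some `f ∈ Λ` has `T f 0 ≠ 0`. -/
theorem exists_fuTw_ne_zero (hΛ : IsHopfLattice p act Λ) (ζ : _root_.Fermat.Agent.S56.Qb) (ξ : M →+ ZMod p)
    (L : AddSubgroup M) : ∃ f ∈ Λ, fuTw ζ ξ L f 0 ≠ 0 := by
  by_contra hcon
  push_neg at hcon
  have hli : LinearIndependent _root_.Fermat.Agent.S56.Qb (fun t : M => (fuEv Λ t : ↥Λ → _root_.Fermat.Agent.S56.Qb)) :=
    (linearIndependent_monoidHom ↥Λ _root_.Fermat.Agent.S56.Qb).comp (fuEv Λ) (fuEv_injective hΛ)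
  have hsum : ∑ t : M, fuWt ζ ξ L t • (fuEv Λ t : ↥Λ → _root_.Fermat.Agent.S56.Qb) = 0 := by
    funext f
    have := hcon f.1 f.2
    unfold fuTw at this
    simp only [zero_add] at this
    simpa [Finset.sum_apply, fuEv] using this
  have h0 := (Fintype.linearIndependent_iff.mp hli) _ hsum 0
  rw [fuWt_zero] at h0
  exact one_ne_zero h0

variable (P : ValuationSubring _root_.Fermat.Agent.S56.Qb)

theorem valuation_apply_le_one (hΛ : IsHopfLattice p act Λ) (hP : P.LiesOverPrime p)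
    {f : M → _root_.Fermat.Agent.S56.Qb} (hf : f ∈ Λ) (m : M) : P.valuation (f m) ≤ 1 :=
  valuation_le_one_of_isIntegral P p (Fact.out : p.Prime) hP (hΛ.isIntegral_apply hf m)

/-- There is `e ∈ Λ` with `T e 0 ≠ 0` of maximal valuation. -/
theorem exists_fuTw_max (hΛ : IsHopfLattice p act Λ) (hP : P.LiesOverPrime p) (ζ : _root_.Fermat.Agent.S56.Qb)
    (ξ : M →+ ZMod p) (L : AddSubgroup M) :
    ∃ e ∈ Λ, fuTw ζ ξ L e 0 ≠ 0 ∧
      ∀ f ∈ Λ, P.valuation (fuTw ζ ξ L f 0) ≤ P.valuation (fuTw ζ ξ L e 0) := by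
  classical
  obtain ⟨n, e, he, -, -, hexp⟩ := hΛ.exists_basis
  obtain ⟨f₀, hf₀, hne₀⟩ := exists_fuTw_ne_zero hΛ ζ ξ L
  have hbound : ∀ (g : _root_.Fermat.Agent.S56.Qb), (∀ i, P.valuation (fuTw ζ ξ L (e i) 0) ≤ P.valuation g) →
      ∀ f ∈ Λ, P.valuation (fuTw ζ ξ L f 0) ≤ P.valuation g := by
    intro g hg f hf
    obtain ⟨c, rfl⟩ := hexp f hf
    rw [fuTw_sum_smul]
    refine Valuation.map_sum_le _ fun i _ => ?_
    rw [Valuation.map_mul]
    calc P.valuation (algebraMap (Zl p) _root_.Fermat.Agent.S56.Qb (c i)) * P.valuation (fuTw ζ ξ L (e i) 0)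
        ≤ 1 * P.valuation g :=
          mul_le_mul' (valuation_Zl_le_one P p (Fact.out : p.Prime) hP _) (hg i)
      _ = P.valuation g := one_mul _
  have hn : Nonempty (Fin n) := by
    by_contra hemp
    rw [not_nonempty_iff] at hemp
    have := hbound 0 (fun i => (hemp.false i).elim) f₀ hf₀
    rw [Valuation.map_zero, le_zero_iff, Valuation.zero_iff] at this
    exact hne₀ this
  obtain ⟨i₀, -, hi₀⟩ := Finset.exists_max_image (Finset.univ : Finset (Fin n))
    (fun i => P.valuation (fuTw ζ ξ L (e i) 0)) ⟨hn.some, Finset.mem_univ _⟩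
  have hmax := hbound (fuTw ζ ξ L (e i₀) 0) (fun i => hi₀ i (Finset.mem_univ _))
  refine ⟨e i₀, he i₀, ?_, hmax⟩
  intro h0
  have := hmax f₀ hf₀
  rw [h0, Valuation.map_zero, le_zero_iff, Valuation.zero_iff] at this
  exact hne₀ this

end lattice

/-! ## The theorem -/

/-- **FU** (unit resolvent): the frozen FLAT-O leaf `FlatUnitStatement` of
`S56/H906/FlatOSpec.lean`. -/
theorem flatUnit : Fermat.Agent.S56.H906.FlatUnitStatement := by
  intro p _ M _ _ act Λ hΛ _ P hP ζ hζ L hfix hdiff ξ x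
  classical
  haveI : Fintype M := Fintype.ofFinite M
  have hΛ' : IsHopfLattice p act Λ := hΛ
  have hζp : ζ ^ p = 1 := hζ.pow_eq_one
  -- the normaliser `s`
  obtain ⟨e, he, hs0, hmax⟩ := exists_fuTw_max P hΛ' hP ζ ξ L
  set s : _root_.Fermat.Agent.S56.Qb := fuTw ζ ξ L e 0 with hs
  have hvs0 : P.valuation s ≠ 0 := (Valuation.ne_zero_iff _).mpr hs0
  -- `v(T f y) ≤ v(s)`
  have hbound : ∀ f ∈ Λ, ∀ y : M, P.valuation (fuTw ζ ξ L f y) ≤ P.valuation s := by
    intro f hf y
    obtain ⟨n, a, b, ha, hb, hab⟩ := hΛ'.comul_mem f hf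
    have h := fuTw_comul ξ L ζ hab y 0
    rw [add_zero] at h
    rw [h]
    refine Valuation.map_sum_le _ fun k _ => ?_
    rw [Valuation.map_mul]
    calc P.valuation (a k y) * P.valuation (fuTw ζ ξ L (b k) 0)
        ≤ 1 * P.valuation s :=
          mul_le_mul' (valuation_apply_le_one P hΛ' hP (ha k) y) (hmax _ (hb k))
      _ = P.valuation s := one_mul _
  -- equivariance of `T f` under `H`
  have hequiv : ∀ f ∈ Λ, ∀ σ ∈ P.inertiaSubgroupIn ℚ, σ ζ = ζ → ∀ y : M,
      σ (fuTw ζ ξ L f y) = fuTw ζ ξ L f (act σ y) := by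
    intro f hf σ hσ hσζ y
    unfold fuTw
    rw [map_sum]
    refine Finset.sum_congr rfl fun t _ => ?_
    rw [map_mul, fuWt_map ξ L ζ σ hσζ]
    by_cases ht : t ∈ L
    · rw [← hΛ'.equivariant f hf σ, hΛ'.act_add, hfix σ hσ hσζ t ht]
    · unfold fuWt
      rw [if_neg ht, zero_mul, zero_mul]
  -- some `T b (x)` has the valuation of `s`
  obtain ⟨n, a, b, ha, hb, hab⟩ := hΛ'.comul_mem e he
  have hsx : s = ∑ k, a k (-x) * fuTw ζ ξ L (b k) x := by
    have h := fuTw_comul ξ L ζ hab (-x) x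
    rw [neg_add_cancel] at h
    exact h
  obtain ⟨k, hk⟩ : ∃ k, P.valuation (fuTw ζ ξ L (b k) x) = P.valuation s := by
    by_contra hcon
    push_neg at hcon
    have hlt : P.valuation s < P.valuation s := by
      conv_lhs => rw [hsx]
      refine Valuation.map_sum_lt _ hvs0 fun k _ => ?_
      rw [Valuation.map_mul]
      calc P.valuation (a k (-x)) * P.valuation (fuTw ζ ξ L (b k) x)
          ≤ 1 * P.valuation (fuTw ζ ξ L (b k) x) :=
            mul_le_mul' (valuation_apply_le_one P hΛ' hP (ha k) (-x)) le_rfl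
        _ = P.valuation (fuTw ζ ξ L (b k) x) := one_mul _
        _ < P.valuation s := lt_of_le_of_ne (hbound _ (hb k) x) (hcon k)
    exact lt_irrefl _ hlt
  refine ⟨fuTw ζ ξ L (b k) x / s, ?_, fun σ hσ hσζ => ?_⟩
  · rw [map_div₀, hk, div_self hvs0]
  · have hact0 : act σ 0 = 0 := hΛ'.act_zero σ
    have hσs : σ s = s := by
      rw [hs, hequiv e he σ hσ hσζ 0, hact0]
    have hmem : act σ x - x ∈ L := hdiff σ hσ hσζ x
    have hx : act σ x = x + (act σ x - x) := by abel
    rw [map_div₀, hσs, hequiv _ (hb k) σ hσ hσζ x, hx, fuTw_add_mem hζp ξ L _ x hmem]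
    have : x + (act σ x - x) = act σ x := by abel
    rw [this]
    unfold fuPsi
    rw [mul_div_assoc]

end Fermat.Agent.S56.H656

end

end
-- ===== PACK-END S56/H656/FlatUnit.lean

-- ===== PACK-BEGIN S59/Patch/H967/Main.lean
section






/-!
# The patching lemma (helper967, row S59, piece PATCH)

`exists_patchingLevel_bot`: a patching datum over a complete discrete valuation ring with finite
residue field, whose prime `ℓ` is a non-unit, yields a patching level with trivial relation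
ideal.  (Feed the result to the landed `S57` to obtain freeness of `M` over `R`.)
-/

set_option autoImplicit false
set_option linter.unusedSectionVars false
set_option linter.style.haveILetI false

namespace Fermat.Agent.S59.Patch.H967

open MvPowerSeries IsLocalRing Filter

section Binomial

variable {A : Type*} [CommRing A]

theorem one_add_pow_sub_one_eq (y : A) (m : ℕ) :
    (1 + y) ^ m - 1 = y * ∑ i ∈ Finset.range m, (1 + y) ^ i := by
  have h := mul_geom_sum (1 + y) m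
  rw [add_sub_cancel_left] at h
  exact h.symm

theorem one_add_pow_sub_one_mem {I : Ideal A} {y : A} (hy : y ∈ I) (m : ℕ) :
    (1 + y) ^ m - 1 ∈ I := by
  rw [one_add_pow_sub_one_eq]
  exact Ideal.mul_mem_right _ _ hy

theorem one_add_pow_sub_one_mem_pow {I : Ideal A} {ℓ : ℕ} (hℓ : (ℓ : A) ∈ I) {y : A} {m : ℕ}
    (hy : y ∈ I ^ (m + 1)) : (1 + y) ^ ℓ - 1 ∈ I ^ (m + 2) := by
  rw [one_add_pow_sub_one_eq]
  have hyI : y ∈ I := Ideal.pow_le_self (Nat.succ_ne_zero m) hy
  have h1 : ∑ i ∈ Finset.range ℓ, (1 + y) ^ i ∈ I := by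
    have h2 : ∑ i ∈ Finset.range ℓ, (1 + y) ^ i =
        (ℓ : A) + ∑ i ∈ Finset.range ℓ, ((1 + y) ^ i - 1) := by
      rw [Finset.sum_sub_distrib]
      simp
    rw [h2]
    exact Ideal.add_mem _ hℓ (Ideal.sum_mem _ fun i _ => one_add_pow_sub_one_mem hyI i)
  have h3 : I ^ (m + 2) = I ^ (m + 1) * I := by rw [← pow_succ]
  rw [h3]
  exact Ideal.mul_mem_mul hy h1

theorem one_add_pow_pow_sub_one_mem_pow {I : Ideal A} {ℓ : ℕ} (hℓ : (ℓ : A) ∈ I) {x : A}
    (hx : x ∈ I) (n : ℕ) : (1 + x) ^ (ℓ ^ n) - 1 ∈ I ^ (n + 1) := by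
  induction n with
  | zero => simpa using hx
  | succ n ih =>
    have h := one_add_pow_sub_one_mem_pow hℓ ih
    rw [add_sub_cancel, ← pow_mul, ← pow_succ] at h
    exact h

end Binomial

section Datum

variable {𝒪 : Type} [CommRing 𝒪] [IsDomain 𝒪] [IsDiscreteValuationRing 𝒪]
  [IsAdicComplete (maximalIdeal 𝒪) 𝒪] [Finite (ResidueField 𝒪)]
  {ℓ r : ℕ}

/-- The relation ideal of the `n`-th level of a patching datum. -/
noncomputable def relIdeal (𝒪 : Type) [CommRing 𝒪] (ℓ r n : ℕ) :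
    Ideal (MvPowerSeries (Fin r) 𝒪) :=
  Ideal.span (Set.range fun j : Fin r =>
    ((1 + MvPowerSeries.X j) ^ (ℓ ^ n) - 1 : MvPowerSeries (Fin r) 𝒪))

omit [IsDomain 𝒪] [IsDiscreteValuationRing 𝒪] [IsAdicComplete (maximalIdeal 𝒪) 𝒪]
  [Finite (ResidueField 𝒪)] in
theorem relIdeal_le_varIdeal (n : ℕ) : relIdeal 𝒪 ℓ r n ≤ varIdeal 𝒪 r := by
  rw [relIdeal, Ideal.span_le]
  rintro _ ⟨j, rfl⟩
  exact one_add_pow_sub_one_mem (X_mem_varIdeal j) _

theorem relIdeal_le_pow (hℓ : (ℓ : 𝒪) ∈ maximalIdeal 𝒪) (n : ℕ) :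
    relIdeal 𝒪 ℓ r n ≤ maximalIdeal (MvPowerSeries (Fin r) 𝒪) ^ n := by
  rw [relIdeal, Ideal.span_le]
  rintro _ ⟨j, rfl⟩
  have hℓ' : ((ℓ : ℕ) : MvPowerSeries (Fin r) 𝒪) ∈ maximalIdeal (MvPowerSeries (Fin r) 𝒪) := by
    rw [Fermat.Agent.S53.H173.mem_maximalIdeal_iff_constantCoeff, map_natCast]
    exact hℓ
  have h := one_add_pow_pow_sub_one_mem_pow hℓ'
    (Fermat.Agent.S53.H173.X_mem_maximalIdeal (R := 𝒪) j) n
  exact Ideal.pow_le_pow_right (Nat.le_succ n) h

end Datum

section Mono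

variable {𝒪 : Type} [CommRing 𝒪] [IsLocalRing 𝒪] {r : ℕ} {R : Type} [CommRing R] [Algebra 𝒪 R]
  {M : Type} [AddCommGroup M] [Module R M] {d : ℕ} {μ : Fin d → M} {E : ℕ}
  {J J' : Ideal (MvPowerSeries (Fin r) 𝒪)}

/-- Coordinate data modulo `J` are coordinate data modulo any larger ideal. -/
def CoordData.mono (Y : CoordData 𝒪 r R μ J E) (h : J ≤ J') : CoordData 𝒪 r R μ J' E where
  φ := Y.φ
  ψ := Y.ψ
  A := Y.A
  ψ_surjective := Y.ψ_surjective
  ψ_φ_X := Y.ψ_φ_X
  A_add f g i j := h (Y.A_add f g i j)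
  A_mul f g i j := h (Y.A_mul f g i j)
  A_one i j := h (Y.A_one i j)
  A_φ c i j := h (Y.A_φ c i j)
  A_π := Y.A_π
  A_small k g hg i j := (sup_le_sup_left h _) (Y.A_small k g hg i j)

end Mono

section Trivial

variable {𝒪 : Type} [CommRing 𝒪] {r : ℕ} {R : Type} [CommRing R] [Algebra 𝒪 R]
  {M : Type} [AddCommGroup M] [Module R M]

/-- The trivial patching level over the zero ring. -/
noncomputable def trivialLevel [Subsingleton R]
    (ψ : MvPowerSeries (Fin r) 𝒪 →ₐ[𝒪] R) (hψ : Function.Surjective ψ) :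
    Algebra.PatchingLevel 𝒪 r R M ⊥ :=
  haveI : Subsingleton M := Module.subsingleton R M
  { N := PUnit
    φ := AlgHom.id 𝒪 _
    ψ := ψ
    ψ_surjective := hψ
    ψ_φ_X := fun _ => Subsingleton.elim _ _
    π := 0
    π_smul := fun _ _ => Subsingleton.elim _ _
    π_surjective := fun m => ⟨0, Subsingleton.elim _ _⟩
    ker_π := fun x => by
      constructor
      · intro _
        have hx : x = 0 := Subsingleton.elim _ _
        rw [hx]
        exact Submodule.zero_mem _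
      · intro _
        exact Subsingleton.elim _ _
    d := 0
    b := fun i => i.elim0
    b_span := fun x => ⟨fun i => i.elim0, Subsingleton.elim _ _⟩
    b_rel := fun c => by
      constructor
      · intro _ i
        exact i.elim0
      · intro _
        exact Subsingleton.elim _ _ }

end Trivial

section Main

variable {𝒪 : Type} [CommRing 𝒪] [IsDomain 𝒪] [IsDiscreteValuationRing 𝒪]
  [IsAdicComplete (maximalIdeal 𝒪) 𝒪] [Finite (ResidueField 𝒪)]
  {r : ℕ} {R : Type} [CommRing R] [Algebra 𝒪 R]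

theorem isProfiniteAdic_of_surjective [IsLocalRing R]
    (ψ : MvPowerSeries (Fin r) 𝒪 →ₐ[𝒪] R) (hψ : Function.Surjective ψ) :
    IsProfiniteAdic (maximalIdeal R) := by
  have hcomplete : IsAdicComplete (maximalIdeal R) R := by
    letI : Algebra (MvPowerSeries (Fin r) 𝒪) R :=
      (ψ : MvPowerSeries (Fin r) 𝒪 →+* R).toAlgebra
    haveI : Module.Finite (MvPowerSeries (Fin r) 𝒪) R :=
      Module.Finite.of_surjective (Algebra.linearMap (MvPowerSeries (Fin r) 𝒪) R) hψ
    haveI : IsLocalHom (algebraMap (MvPowerSeries (Fin r) 𝒪) R) :=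
      IsLocalHom.of_surjective _ hψ
    haveI : IsAdicComplete (maximalIdeal (MvPowerSeries (Fin r) 𝒪))
        (MvPowerSeries (Fin r) 𝒪) := Fermat.Agent.S53.CA.ps_isAdicComplete 𝒪 r
    exact IsLocalRing.isAdicComplete_of_module_finite (𝒪 := MvPowerSeries (Fin r) 𝒪) (T := R)
  refine ⟨hcomplete.toIsHausdorff, hcomplete.toIsPrecomplete, fun k => ?_⟩
  haveI : Finite (MvPowerSeries (Fin r) 𝒪 ⧸ maximalIdeal (MvPowerSeries (Fin r) 𝒪) ^ k) :=
    Fermat.Agent.S53.CA.ps_finite_quotient 𝒪 r k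
  let F : MvPowerSeries (Fin r) 𝒪 ⧸ maximalIdeal (MvPowerSeries (Fin r) 𝒪) ^ k →+*
      R ⧸ maximalIdeal R ^ k :=
    Ideal.Quotient.lift _ ((Ideal.Quotient.mk (maximalIdeal R ^ k)).comp
      (ψ : MvPowerSeries (Fin r) 𝒪 →+* R)) (fun a ha => by
        rw [RingHom.comp_apply, Ideal.Quotient.eq_zero_iff_mem]
        exact algHom_mem_pow ψ hψ ha)
  refine Finite.of_surjective F ?_
  intro y
  obtain ⟨y, rfl⟩ := Ideal.Quotient.mk_surjective y
  obtain ⟨x, rfl⟩ := hψ y
  exact ⟨Ideal.Quotient.mk _ x, rfl⟩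

/-- **The patching lemma.** A patching datum yields a patching level with trivial relation
ideal. -/
theorem exists_patchingLevel_bot {ℓ : ℕ} (hℓ : (ℓ : 𝒪) ∈ maximalIdeal 𝒪)
    {M : Type} [AddCommGroup M] [Module R M]
    (P : Algebra.PatchingDatum 𝒪 ℓ r R M) :
    Nonempty (Algebra.PatchingLevel 𝒪 r R M ⊥) := by
  classical
  rcases subsingleton_or_nontrivial R with hR | hR
  · exact ⟨trivialLevel (P.level 0).ψ (P.level 0).ψ_surjective⟩
  · have hsurj := (P.level 0).ψ_surjective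
    haveI : IsLocalRing R :=
      IsLocalRing.of_surjective' ((P.level 0).ψ : MvPowerSeries (Fin r) 𝒪 →+* R) hsurj
    haveI : IsNoetherianRing R :=
      isNoetherianRing_of_surjective (MvPowerSeries (Fin r) 𝒪) R
        ((P.level 0).ψ : MvPowerSeries (Fin r) 𝒪 →+* R) hsurj
    have hRp : IsProfiniteAdic (maximalIdeal R) :=
      isProfiniteAdic_of_surjective (P.level 0).ψ hsurj
    have hΛ := isProfiniteAdic_ps 𝒪 r
    have hμ := level_isOBasis (P.level 0) (relIdeal_le_varIdeal (𝒪 := 𝒪) (ℓ := ℓ) (r := r) 0)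
    haveI : Module.Finite R M := by
      refine ⟨⟨Finset.univ.image fun i => (P.level 0).π ((P.level 0).b i), ?_⟩⟩
      rw [eq_top_iff]
      intro m _
      obtain ⟨a, rfl⟩ := hμ.span m
      refine Submodule.sum_mem _ fun i _ => Submodule.smul_mem _ _ (Submodule.subset_span ?_)
      simp
    have hY : ∀ n : ℕ, Nonempty (CoordData 𝒪 r R (fun i => (P.level 0).π ((P.level 0).b i))
        (maximalIdeal (MvPowerSeries (Fin r) 𝒪) ^ n)
        (Nat.card (Fin (P.level 0).d → ResidueField 𝒪))) := by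
      intro n
      obtain ⟨Y⟩ := exists_coordData (P.level n)
        (relIdeal_le_varIdeal (𝒪 := 𝒪) (ℓ := ℓ) (r := r) n) hμ
      exact ⟨Y.mono (relIdeal_le_pow hℓ n)⟩
    exact ⟨(limData hΛ hRp fun n => Classical.choice (hY n)).toLevel hμ⟩

end Main

end Fermat.Agent.S59.Patch.H967

end
-- ===== PACK-END S59/Patch/H967/Main.lean

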