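import Mathlib.GroupTheory.DoubleCoset
import Fermat.Agent.Pack.S43GC.G0E15L2
import Fermat.Agent.Pack.S43GC.G0E15L3
import Fermat.Agent.Pack.S43GC.G0E15L1
import Fermat.Agent.Pack.S43GC.G0E16L1
import Fermat.Agent.Pack.S43GC.G0E3L2
import Fermat.Agent.Pack.S43GC.G0E8L1
import Fermat.Agent.Pack.S43GC.G0E16L3
import Fermat.Agent.Pack.S43GC.G0E3L1
import Fermat.Agent.Pack.S43GC.G0E10L0
import Fermat.Agent.Pack.S43GC.G0E16L2
import Fermat.Agent.Pack.S43GC.G0E10L3
import Fermat.Agent.Pack.S44C.G0E6L0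
import Fermat.Agent.Pack.S44C.G0E12L3
import Fermat.Agent.Pack.S43GC.G0E1L1
import Fermat.Agent.Pack.S43GC.G0E14L2
import Fermat.Agent.Pack.S44C.G0E18L0
import Fermat.Agent.Pack.S44C.G0E14L2
import Fermat.Agent.Pack.S43GC.G0E5L2
import Fermat.Agent.Pack.S44C.G0E1L1
import Fermat.Agent.Pack.S43GC.G0E7L2
import Fermat.Agent.Pack.S43GC.G0E16L0
import Fermat.Agent.Pack.Fast891

-- ===== PACK-BEGIN S55/PT/EffaceH773.lean
section
/-
S55 (Poitou–Tate), layer D (route C′, architect helper835), leaf D-I2 (helper773):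

  `theorem efface : Fermat.Agent.S55.PT.EffaceSpec`

If `H¹(M′)` is finite-dimensional (`M′ = M.dualTwist χ`), then for every level `V` acting
trivially on `M` and `χ` there is a normal level `U ≤ V` with
`H¹(M′) → H¹((Ind_U (twTriv χ M))′)` zero.  Proof: all classes have a right-`U`-invariant
representative `c` for `U` small (finite-dimensionality), and then
`augTw^∨ ∘ c = d F` for the functional `F (single γU w) = - χ(γ)⁻¹ c(γ)(γ w)`.
-/


set_option autoImplicit false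
set_option linter.style.haveILetI false

noncomputable section

namespace Fermat.Agent.S55.PT.EffaceH773

open groupCohomology ExtCitation Fermat.Agent.S55.PT

variable {k : Type} [Field k] {G : Type} [Group G]

/-! ## 1. A common level for all classes of a finite-dimensional `H¹` -/

section Level

variable (L : LevelSys G) (A : Rep.{0, 0, 0} k G)

/-- the level-constant cocycles which are right-invariant under `U` -/
def z1U (U : Subgroup G) : Submodule k ↥(L.Z1 A) where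
  carrier := {c | ∀ g s : G, s ∈ U → (c : G → A) (g * s) = (c : G → A) g}
  add_mem' := by
    intro a b ha hb g s hs
    change (a : G → A) (g * s) + (b : G → A) (g * s) = (a : G → A) g + (b : G → A) g
    rw [ha g s hs, hb g s hs]
  zero_mem' := by
    intro g s _
    rfl
  smul_mem' := by
    intro r a ha g s hs
    change r • (a : G → A) (g * s) = r • (a : G → A) g
    rw [ha g s hs]

lemma z1U_mono {U W : Subgroup G} (h : W ≤ U) : z1U L A U ≤ z1U L A W :=
  fun _ hc g s hs => hc g s (h hs)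

lemma exists_level_le_finset {ι : Type} (s : Finset ι) (U : ι → Subgroup G)
    (hU : ∀ i ∈ s, U i ∈ L.levels) : ∃ W ∈ L.levels, ∀ i ∈ s, W ≤ U i := by
  classical
  induction s using Finset.induction_on with
  | empty =>
    obtain ⟨W, hW⟩ := L.nonempty
    exact ⟨W, hW, fun i hi => absurd hi (Finset.notMem_empty i)⟩
  | insert a s ha ih =>
    obtain ⟨W, hW, hWs⟩ := ih (fun i hi => hU i (Finset.mem_insert_of_mem hi))
    obtain ⟨W', hW', hle⟩ := L.directed W hW (U a) (hU a (Finset.mem_insert_self a s))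
    refine ⟨W', hW', fun i hi => ?_⟩
    rcases Finset.mem_insert.1 hi with rfl | hi
    · exact hle.trans inf_le_right
    · exact (hle.trans inf_le_left).trans (hWs i hi)

/-- If `H¹(A)` is finite-dimensional, there is a level `W` such that every class is represented
by a right-`W`-invariant cocycle. -/
lemma exists_level_H1 (hfin : FiniteDimensional k (L.H1 A)) :
    ∃ W ∈ L.levels, ∀ x : L.H1 A, ∃ c : ↥(L.Z1 A), L.H1π A c = x ∧
      ∀ g s : G, s ∈ W → (c : G → A) (g * s) = (c : G → A) g := by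
  classical
  obtain ⟨s, hs⟩ := (Module.finite_def.1 hfin : (⊤ : Submodule k (L.H1 A)).FG)
  have hrep : ∀ x : L.H1 A, ∃ c : ↥(L.Z1 A), L.H1π A c = x := L.H1π_surjective A
  choose rep hrep using hrep
  have hlev : ∀ x : L.H1 A, ∃ U ∈ L.levels,
      ∀ g t : G, t ∈ U → (rep x : G → A) (g * t) = (rep x : G → A) g := fun x => (rep x).2.2
  choose lev hlev hinv using hlev
  obtain ⟨W, hW, hWle⟩ := exists_level_le_finset L s lev (fun i _ => hlev i)
  refine ⟨W, hW, ?_⟩
  have htop : (z1U L A W).map (L.H1π A) = ⊤ := by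
    rw [eq_top_iff, ← hs, Submodule.span_le]
    intro x hx
    exact ⟨rep x, fun g t ht => hinv x g t (hWle x hx ht), hrep x⟩
  intro x
  have hx : x ∈ (z1U L A W).map (L.H1π A) := htop ▸ Submodule.mem_top
  obtain ⟨c, hc, rfl⟩ := hx
  exact ⟨c, rfl, hc⟩

end Level

/-! ## 2. The effacing cochain -/

section Cochain

variable (χ : G →* kˣ) (U : Subgroup G) (M : Rep.{0, 0, 0} k G)
  (c : G → Module.Dual k M)

/-- the `x`-component of the effacing functional: for `x = γU`,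
`w ↦ - χ(γ)⁻¹ c(γ)(γ w)` (junk unless `c`, `χ`, `M` are right-`U`-invariant). -/
def effX (x : G ⧸ U) : M →ₗ[k] k :=
  -((((χ (Quotient.out x))⁻¹ : kˣ) : k) • (c (Quotient.out x)) ∘ₗ M.ρ (Quotient.out x))

/-- the effacing functional `F (single γU w) = - χ(γ)⁻¹ c(γ)(γ w)` on `Ind_U M` -/
def effF : Module.Dual k ((G ⧸ U) →₀ M) :=
  Finsupp.lsum k (fun x : G ⧸ U => effX χ U M c x)

@[simp] lemma effF_single (x : G ⧸ U) (w : M) :
    effF χ U M c (Finsupp.single x w : (G ⧸ U) →₀ M) = effX χ U M c x w := by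
  rw [effF, Finsupp.lsum_single]

variable {χ U M c}

lemma effX_mk (hχ : ∀ u ∈ U, χ u = 1) (hM : ∀ u ∈ U, M.ρ u = 1)
    (hc : ∀ g s : G, s ∈ U → c (g * s) = c g) (g : G) (w : M) :
    effX χ U M c (g : G ⧸ U) w = -((((χ g)⁻¹ : kˣ) : k) * c g (M.ρ g w)) := by
  obtain ⟨u, hu⟩ := QuotientGroup.mk_out_eq_mul U g
  unfold effX
  rw [hu, hc g u u.2, map_mul, map_mul, hχ u u.2, hM u u.2, mul_one, mul_one]
  rfl

/-- **Key computation**: `d F = augTw^∨ ∘ c`. -/
lemma d_effF (hχ : ∀ u ∈ U, χ u = 1) (hM : ∀ u ∈ U, M.ρ u = 1)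
    (hc : ∀ g s : G, s ∈ U → c (g * s) = c g)
    (hcoc : (c : G → M.dualTwist χ) ∈ cocycles₁ (M.dualTwist χ)) :
    (d₀₁ ((indRep U (twTriv χ M)).dualTwist χ)).hom (effF χ U M c) =
      (augTw χ U M).dualMap ∘ c := by
  rw [mem_cocycles₁_iff] at hcoc
  funext g
  rw [d₀₁_hom_apply, Function.comp_apply]
  apply Finsupp.lhom_ext
  intro x w
  induction x using QuotientGroup.induction_on with
  | H γ =>
    have hcoc' := hcoc g (g⁻¹ * γ)
    rw [mul_inv_cancel_left] at hcoc'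
    have hcoc'' : c γ (M.ρ γ w) =
        (χ g : k) * c (g⁻¹ * γ) (M.ρ (g⁻¹ * γ) w) + c g (M.ρ γ w) := by
      have := congrArg (fun f : Module.Dual k M => f (M.ρ γ w)) hcoc'
      simp only [LinearMap.add_apply] at this
      rw [this, map_mul]
      rfl
    have h1 : ((indRep U (twTriv χ M)).ρ g⁻¹)
        (Finsupp.single (γ : G ⧸ U) w : (G ⧸ U) →₀ M) =
        (Finsupp.single (((g⁻¹ * γ : G)) : G ⧸ U) ((χ g⁻¹ : k) • w) : (G ⧸ U) →₀ M) := by
      rw [indRep_ρ_single, twTriv_ρ_apply]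
      rfl
    rw [LinearMap.sub_apply, Rep.dualTwist_ρ_apply, LinearMap.smul_apply, LinearMap.comp_apply,
      h1, effF_single, effF_single, effX_mk hχ hM hc, effX_mk hχ hM hc, LinearMap.dualMap_apply,
      augTw_single, twAct_mk χ U M hχ hM, LinearMap.smul_apply, map_smul, map_smul, map_smul,
      hcoc'']
    simp only [smul_eq_mul, map_mul, map_inv, Units.val_mul, Units.val_inv_eq_inv_val]
    have ha : (χ g : k) ≠ 0 := (χ g).ne_zero
    have hb : (χ γ : k) ≠ 0 := (χ γ).ne_zero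
    field_simp
    ring

end Cochain

/-! ## 3. The leaf -/

/-- **D-I2 (E2)**: effaceability of `H¹` of the dual, from finiteness. -/
theorem efface : EffaceSpec := by
  intro k _ G _ L hN χ M _hM hfin V hV hχ hMV
  obtain ⟨W, hW, hrep⟩ := exists_level_H1 L (M.dualTwist χ) hfin
  obtain ⟨W', hW', hle⟩ := L.directed V hV W hW
  obtain ⟨U, hU, hUW', hUn⟩ := hN W' hW'
  have hUV : U ≤ V := hUW'.trans (hle.trans inf_le_left)
  have hUW : U ≤ W := hUW'.trans (hle.trans inf_le_right)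
  refine ⟨U, hUV, hU, hUn, fun x => ?_⟩
  obtain ⟨c, rfl, hc⟩ := hrep x
  rw [pushH1_mk, LevelSys.H1π_eq_zero_iff]
  refine ⟨effF χ U M c.1, ?_⟩
  rw [coe_pushZ1]
  exact d_effF (fun u hu => hχ u (hUV hu)) (fun u hu => hMV u (hUV hu))
    (fun g s hs => hc g s (hUW hs)) c.2.1

end Fermat.Agent.S55.PT.EffaceH773

end
end
-- ===== PACK-END S55/PT/EffaceH773.lean

-- ===== PACK-BEGIN S55/Inv/Spec2.lean
section


/-!
# S55 / `InvSpec` : FROZEN SUB-INTERFACE, part 2 (sub-architect helper3)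

`LocalInvRecipSpec` (INV-1 of `Inv/Spec.lean`) is reduced in `Inv/Top2.lean` (complete) to
invariant-free statements:

* `WeakRecipSpec p S` : a global class of `H²_S(μ_p)` (over `ℚ`) with at most one non-zero local
                        component (`v ∈ S`) has no non-zero local component;
* `LocH2NeSpec p S`   : `H²(G_v, μ_p) ≠ 0` for `v ∈ S`;
* `MuLevelSpec p S`   : some normal `S`-level acts trivially on `μ_p` (`ℚ(μ_p)`, `p ∈ S`);
* `GlobCokerSpec`, `Surj2LocSpec`.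

Final form:  `PT.InvSpec ⇐ Surj2LocSpec ∧ LocDimSpec ∧ GlobCokerSpec ∧ WeakRecipSpec ∧ LocH2NeSpec
∧ MuLevelSpec`  (`Inv/Top2.lean: invSpec_of'`).  No invariant map, no corestriction, no cup
product appears in any input.
-/

set_option autoImplicit false

noncomputable section

namespace Fermat.Agent.S55.Inv

open Fermat.Agent.S55.PT groupCohomology ExtCitation

variable (p : ℕ) [Fact p.Prime] (S : Finset Nat.Primes)

/-- **INV-4 (weak reciprocity over `ℚ`).**  If a global class `y ∈ H²_S(μ_p)` is locally trivial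
at all `v' ∈ S` different from `v`, then it is locally trivial at `v` as well. -/
def WeakRecipSpec : Prop :=
  ∀ (y : (globalLevels S).H2 (mu p)) (v : ↥S),
    (∀ v' : ↥S, v' ≠ v → resH2 (hrl S v') (mu p) y = 0) → resH2 (hrl S v) (mu p) y = 0

/-- **INV-5 (local non-vanishing).**  `H²(G_v, μ_p) ≠ 0` for `v ∈ S`  (`Br(ℚ_v)[p] ≠ 0`). -/
def LocH2NeSpec : Prop :=
  ∀ v : ↥S, ∃ x : (localLevels v.1).H2 (muLoc p v.1), x ≠ 0

/-- **INV-6 (`μ_p` lives at a level).**  Some normal global level acts trivially on `μ_p`. -/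
def MuLevelSpec : Prop :=
  ∃ U : Subgroup GQ, U ∈ (globalLevels S).levels ∧ U.Normal ∧ ∀ s ∈ U, (mu p).ρ s = 1

end Fermat.Agent.S55.Inv

end

end
-- ===== PACK-END S55/Inv/Spec2.lean

-- ===== PACK-BEGIN S55/KC/Spec.lean
section


/-!
# S55 / layer KC (cochain-level Kummer machine; local A6/A4 and library for layer K): INTERFACE          (architect: helper53)

Blueprint with proofs: `coord/S55-KC.md` (branch `origin/helper53`).  Spec pattern: every statement
is a `def … : Prop`; producers prove `theorem foo : FooSpec`, consumers take hypotheses.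
The assembly `leaves ⇒ outputs` is `KC/Assembly.lean`.

## Outputs (consumed by layer D, `PT/Spec.lean`, and by layer K)
`PT.FinLocSpec p S` (A2), `PT.Surj2LocSpec p S` (A4), `H2IndCardSpec`, `H2MuCardSpec`,
`TopLocIndOfSpec` (A6 for every family of bijective `inv_v`).

## Leaves
* block P (level-constant cochains, elementary):
  `FinLocOfFrattiniSpec`, `Surj2OfH3Spec`, `H3DevissageSpec`, `TopLocIndOfSpec`;
* block K (Kummer theory for a `p`-divisible module, level-constant cochains):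
  `KummerH2Spec`, `KummerH3Spec`;
* block D (dictionary level-constant ↔ finite level, cochain form):
  `H1VanishOfAtSpec`, `H3VanishOfAtSpec`, `H2OfAtSpec`;
* block Q (dictionary cochain form ↔ Mathlib's `groupCohomology` of `G ⧸ V`):
  `Q1Spec`, `Q2Spec`, `Q3Spec`, `QInfSpec`;
* block I (induced modules): `IndKummerSpec`, `IndWCFSpec`, `SelfWCFSpec`, `PUnboundedRelSpec`;
* block A (arithmetic of `ℚ̄_q`): `LocalLevelsSpec`, `LocalClassFormationSpec`,
  `LocalKummerEmbSpec`, `LocalPUnboundedSpec`, `LocalFrattiniSpec`, `LocalMuSpec`.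
-/

set_option autoImplicit false

noncomputable section

namespace Fermat.Agent.S55.KC

open groupCohomology ExtCitation Fermat.Agent.S55.PT

/-! ## Block P: level-constant cochains, elementary -/

/-- **KC-P1.**  Finiteness of the `p`-Frattini quotients ⇒ `H¹_lc(G, N)` is finite-dimensional.
(A level-constant 1-cocycle `c` restricted to a level `U` acting trivially on `N` is additive, so
it kills the level `V ≤ U` of `PFrattiniFinite`; hence `c` is `V`-constant.) -/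
def FinLocOfFrattiniSpec : Prop :=
  ∀ (G : Type) [Group G] (L : LevelSys G) (p : ℕ) [Fact p.Prime],
    L.FiniteIndex → PFrattiniFinite L p →
    ∀ N : Rep.{0, 0, 0} (ZMod p) G, FiniteDimensional (ZMod p) N → L.IsUSmooth N →
      FiniteDimensional (ZMod p) (L.H1 N)

/-- **KC-P2.**  `H³_lc(G, R) = 0` for all finite `R` ⇒ `H²_lc(G, −)` is right exact.
(Lift a cocycle `n` to the cochain `ñ = sec ∘ n`; `d ñ` is a 3-cocycle with values in
`R = ker φ`; write `d ñ = d r`; then `ñ − r` is a cocycle lifting `n`.) -/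
def Surj2OfH3Spec : Prop :=
  ∀ (G : Type) [Group G] (L : LevelSys G) (p : ℕ) [Fact p.Prime],
    L.NormalCofinal →
    (∀ R : Rep.{0, 0, 0} (ZMod p) G, FiniteDimensional (ZMod p) R → L.IsUSmooth R →
      H3Vanish L R) →
    ∀ (P N : Rep.{0, 0, 0} (ZMod p) G) (φ : P →ₗ[ZMod p] N) (hφ : IsEquivariant φ),
      FiniteDimensional (ZMod p) P → L.IsUSmooth P → L.IsUSmooth N →
      Function.Surjective φ → Function.Surjective (pushH2 φ hφ L)

/-- **KC-P3.**  Dévissage: `H³_lc(G, Ind_H μ) = 0` for all open `H` acting trivially on the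
one-dimensional `μ` ⇒ `H³_lc(G, R) = 0` for all finite `R`.
(`H` := preimage of a Sylow `p`-subgroup of `G ⧸ U₁`; `R → Ind_H R → R` is multiplication by
`[G : H]`; `Ind_H R` is filtered with graded pieces `≅ k[G ⧸ H] ≅ Ind_H μ`.) -/
def H3DevissageSpec : Prop :=
  ∀ (G : Type) [Group G] (L : LevelSys G) (p : ℕ) [Fact p.Prime] (μ : Rep.{0, 0, 0} (ZMod p) G),
    L.NormalCofinal → L.FiniteIndex → Module.finrank (ZMod p) μ = 1 → L.IsUSmooth μ →
    (∀ H : Subgroup G, IsOpenSub L H → (∀ s ∈ H, μ.ρ s = 1) → H3Vanish L (indRep H μ)) →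
    ∀ R : Rep.{0, 0, 0} (ZMod p) G, FiniteDimensional (ZMod p) R → L.IsUSmooth R →
      H3Vanish L R

/-- **KC-P4.**  A6 from right exactness and the cardinality of `H²(G_v, Ind_W μ)`, for ANY
family of bijective maps `inv_v`. -/
def TopLocIndOfSpec : Prop :=
  ∀ (p : ℕ) [Fact p.Prime] (S : Finset Nat.Primes) (inv : InvFamily p S),
    (∀ v : ↥S, Function.Bijective (inv v)) →
    (∀ v : ↥S, (localLevels v.1).FiniteIndex) →
    Surj2LocSpec p S →
    (∀ (v : ↥S) (W : Subgroup (Gl v.1)), W ∈ (localLevels v.1).levels → W.Normal →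
      (∀ s ∈ W, (muLoc p v.1).ρ s = 1) →
      Nat.card ((localLevels v.1).H2 (indRep W (muLoc p v.1))) = p) →
    TopLocIndSpec inv

/-! ## Block K: Kummer theory at the level of level-constant cochains -/

/-- **KC-K2.**  `H²_lc(G, M) ≅ H²_lc(G, B)[p]` (only the cardinality is recorded), if `B` is
smooth and `p`-divisible, `M ≅ B[p]` and `H¹_lc(G, B) = 0`. -/
def KummerH2Spec : Prop :=
  ∀ (G : Type) [Group G] (L : LevelSys G) (p : ℕ) [Fact p.Prime]
    (M : Rep.{0, 0, 0} (ZMod p) G) (B : Rep.{0, 0, 0} ℤ G) (ι : M →+ B),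
    L.NormalCofinal → L.FiniteIndex → L.IsSmooth B → IsPDivisible p B → IsKummerEmb p M B ι →
    H1Vanish L B →
    Nat.card (L.H2 M) = Nat.card {x : L.H2 B // p • x = 0}

/-- **KC-K3.**  `H³_lc(G, M) = 0` if `B` is smooth and `p`-divisible, `M ≅ B[p]`,
`H³_lc(G, B) = 0` and `H²_lc(G, B)` is `p`-divisible. -/
def KummerH3Spec : Prop :=
  ∀ (G : Type) [Group G] (L : LevelSys G) (p : ℕ) [Fact p.Prime]
    (M : Rep.{0, 0, 0} (ZMod p) G) (B : Rep.{0, 0, 0} ℤ G) (ι : M →+ B),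
    L.NormalCofinal → L.FiniteIndex → L.IsSmooth B → IsPDivisible p B → IsKummerEmb p M B ι →
    H3Vanish L B → H2Divisible L p B →
    H3Vanish L M

/-! ## Block D: dictionary level-constant ↔ finite level (cochain form) -/

/-- **KC-D1.**  `H¹(G ⧸ V, B^V) = 0` for all normal levels `V ≤ V₀` ⇒ `H¹_lc(G, B) = 0`. -/
def H1VanishOfAtSpec : Prop :=
  ∀ (G : Type) [Group G] (L : LevelSys G) (B : Rep.{0, 0, 0} ℤ G) (V₀ : Subgroup G),
    L.NormalCofinal → V₀ ∈ L.levels →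
    (∀ V : Subgroup G, V ∈ L.levels → V.Normal → V ≤ V₀ → H1VanishAt V B) →
    H1Vanish L B

/-- **KC-D3.**  `H³(G ⧸ V, B^V) = 0` for all normal levels `V ≤ V₀` ⇒ `H³_lc(G, B) = 0`
(`B` smooth, levels of finite index). -/
def H3VanishOfAtSpec : Prop :=
  ∀ (G : Type) [Group G] (L : LevelSys G) (B : Rep.{0, 0, 0} ℤ G) (V₀ : Subgroup G),
    L.NormalCofinal → L.FiniteIndex → L.IsSmooth B → V₀ ∈ L.levels →
    (∀ V : Subgroup G, V ∈ L.levels → V.Normal → V ≤ V₀ → H3VanishAt V B) →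
    H3Vanish L B

/-- **KC-D2.**  If at every normal level `V ≤ V₀` the group `H²(G ⧸ V, B^V)` is cyclic of order
`n(V)`, inflation is injective, and the `p`-parts of the `n(V)` are unbounded, then `H²_lc(G, B)`
is `p`-divisible and its `p`-torsion has exactly `p` elements. -/
def H2OfAtSpec : Prop :=
  ∀ (G : Type) [Group G] (L : LevelSys G) (p : ℕ) [Fact p.Prime] (B : Rep.{0, 0, 0} ℤ G)
    (V₀ : Subgroup G) (n : Subgroup G → ℕ),
    L.NormalCofinal → L.FiniteIndex → L.IsSmooth B → V₀ ∈ L.levels →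
    (∀ V : Subgroup G, V ∈ L.levels → V.Normal → V ≤ V₀ →
      0 < n V ∧ Nonempty (H2At V B ≃+ ZMod (n V))) →
    (∀ V' V : Subgroup G, V' ∈ L.levels → V'.Normal → V ∈ L.levels → V.Normal → V' ≤ V →
      V ≤ V₀ → ∀ f ∈ Z2At V B, IsCobAt₂ V' B f → IsCobAt₂ V B f) →
    PUnbounded L p V₀ n →
    H2Divisible L p B ∧ Nat.card {x : L.H2 B // p • x = 0} = p

/-! ## Block Q: dictionary cochain form ↔ Mathlib's `groupCohomology` of `G ⧸ V` -/

/-- **KC-Q1.** -/
def Q1Spec : Prop :=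
  ∀ (G : Type) [Group G] (B : Rep.{0, 0, 0} ℤ G) (V : Subgroup G) [V.Normal],
    Subsingleton (H1 (B.quotientToInvariants V)) → H1VanishAt V B

/-- **KC-Q2.** -/
def Q2Spec : Prop :=
  ∀ (G : Type) [Group G] (B : Rep.{0, 0, 0} ℤ G) (V : Subgroup G) [V.Normal],
    Nonempty (H2At V B ≃+ H2 (B.quotientToInvariants V))

/-- **KC-Q3.** -/
def Q3Spec : Prop :=
  ∀ (G : Type) [Group G] (B : Rep.{0, 0, 0} ℤ G) (V : Subgroup G) [V.Normal],
    Subsingleton (groupCohomology (B.quotientToInvariants V) 3) → H3VanishAt V B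

/-- **KC-QInf.**  Injectivity of inflation `H²(G ⧸ V, B^V) → H²(G ⧸ V', B^{V'})` (cochain form)
from `H¹(V ⧸ V', B^{V'}) = 0`  (inflation–restriction in degree 2; cf. `T.InfRes2Spec`). -/
def QInfSpec : Prop :=
  ∀ (G : Type) [Group G] (B : Rep.{0, 0, 0} ℤ G) (V' : Subgroup G) [V'.Normal]
    (V : Subgroup G) [V.Normal], V' ≤ V →
    Subsingleton (H1 (Rep.res (V.map (QuotientGroup.mk' V')).subtype
      (B.quotientToInvariants V'))) →
    ∀ f ∈ Z2At V B, IsCobAt₂ V' B f → IsCobAt₂ V B f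

/-! ## Block I: induced modules -/

/-- **KC-I0.**  `Ind_H` preserves smoothness, `p`-divisibility and Kummer embeddings. -/
def IndKummerSpec : Prop :=
  ∀ (G : Type) [Group G] (L : LevelSys G) (p : ℕ) [Fact p.Prime]
    (M : Rep.{0, 0, 0} (ZMod p) G) (B : Rep.{0, 0, 0} ℤ G) (ι : M →+ B) (H : Subgroup G),
    L.NormalCofinal → IsOpenSub L H → L.IsSmooth B → IsPDivisible p B → IsKummerEmb p M B ι →
    L.IsSmooth (indR H B) ∧ IsPDivisible p (indR H B) ∧
      IsKummerEmb p (indRep H M) (indR H B) (indEmb p H M B ι)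

/-- **KC-I2.**  A class formation induces a weak class formation on `Ind_H A` with orders
`n(V) = [H : V]`  (finite Shapiro `T.ShapiroRecognitionSpec`, `T.ClassModuleOfCyclicSpec`,
`T.TateH3Spec`; `V ≤ H` normal in `G` acts trivially on `G ⧸ H`). -/
def IndWCFSpec : Prop :=
  ∀ (G : Type) [Group G] (L : LevelSys G) (A : Rep.{0, 0, 0} ℤ G) (H V₀ : Subgroup G),
    L.FiniteIndex → IsClassFormation L A → V₀ ∈ L.levels → V₀ ≤ H →
    IsWCF L (indR H A) V₀ (fun V => V.relIndex H)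

/-- **KC-I2'.**  A class formation is a weak class formation with orders `n(V) = [G : V]`. -/
def SelfWCFSpec : Prop :=
  ∀ (G : Type) [Group G] (L : LevelSys G) (A : Rep.{0, 0, 0} ℤ G) (V₀ : Subgroup G),
    L.FiniteIndex → IsClassFormation L A → V₀ ∈ L.levels →
    IsWCF L A V₀ (fun V => V.index)

/-- **KC-I4'.**  Unboundedness of the `p`-part of `[G : V]` implies that of `[H : V]`,
`H` of finite index. -/
def PUnboundedRelSpec : Prop :=
  ∀ (G : Type) [Group G] (L : LevelSys G) (p : ℕ) [Fact p.Prime] (H V₀ : Subgroup G),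
    L.FiniteIndex → V₀ ∈ L.levels → V₀ ≤ H →
    PUnbounded L p V₀ (fun V => V.index) → PUnbounded L p V₀ (fun V => V.relIndex H)

/-! ## Block A: arithmetic of `ℚ̄_q` -/

/-- **KC-A0.**  The local level systems: normal levels are cofinal, levels have finite index. -/
def LocalLevelsSpec : Prop :=
  ∀ q : Nat.Primes, (localLevels q).NormalCofinal ∧ (localLevels q).FiniteIndex

/-- **KC-A1.**  `(G_{ℚ_q}, ℚ̄_qˣ)` is a class formation
(from `L.ClassModuleSpec`, `L.PadicExtInstSpec`, Krasner/B-layer: for a normal level `V` with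
fixed field `E`, `(G ⧸ V, (ℚ̄_qˣ)^V) ≅ (Gal(E/ℚ_q), Eˣ)`). -/
def LocalClassFormationSpec : Prop :=
  ∀ q : Nat.Primes, IsClassFormation (localLevels q) (unitsA q)

/-- **KC-A2.**  `ℚ̄_qˣ` is smooth and `p`-divisible, and `μ_p` (with the action through the
cyclotomic character, `PT.muLoc`) embeds onto its `p`-torsion. -/
def LocalKummerEmbSpec : Prop :=
  ∀ (p : ℕ) [Fact p.Prime] (q : Nat.Primes),
    (localLevels q).IsSmooth (unitsA q) ∧ IsPDivisible p (unitsA q) ∧
      ∃ ι : muLoc p q →+ unitsA q, IsKummerEmb p (muLoc p q) (unitsA q) ι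

/-- **KC-A3.**  The `p`-part of `[G_{ℚ_q} : V]` is unbounded (e.g. `V = r⁻¹ G_{ℚ(ζ_{p^m})}`). -/
def LocalPUnboundedSpec : Prop :=
  ∀ (p : ℕ) [Fact p.Prime] (q : Nat.Primes) (V₀ : Subgroup (Gl q)),
    V₀ ∈ (localLevels q).levels → PUnbounded (localLevels q) p V₀ (fun V => V.index)

/-- **KC-A4.**  Every open subgroup of `G_{ℚ_q}` has only finitely many open subgroups of
index `p`  (Kummer theory over `E(μ_p)` + finiteness of `Eˣ/(Eˣ)^p`). -/
def LocalFrattiniSpec : Prop :=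
  ∀ (p : ℕ) [Fact p.Prime] (q : Nat.Primes), PFrattiniFinite (localLevels q) p

/-- **KC-A5.**  `μ = muLoc p q` is one-dimensional and uniformly smooth. -/
def LocalMuSpec : Prop :=
  ∀ (p : ℕ) [Fact p.Prime] (q : Nat.Primes),
    Module.finrank (ZMod p) (muLoc p q) = 1 ∧ (localLevels q).IsUSmooth (muLoc p q)

/-! ## Outputs -/

/-- `|H²(G_q, Ind_W μ_p)| = p` for every open subgroup `W` acting trivially on `μ_p`. -/
def H2IndCardSpec : Prop :=
  ∀ (p : ℕ) [Fact p.Prime] (q : Nat.Primes) (W : Subgroup (Gl q)),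
    IsOpenSub (localLevels q) W → (∀ s ∈ W, (muLoc p q).ρ s = 1) →
    Nat.card ((localLevels q).H2 (indRep W (muLoc p q))) = p

/-- `|H²(G_q, μ_p)| = p`. -/
def H2MuCardSpec : Prop :=
  ∀ (p : ℕ) [Fact p.Prime] (q : Nat.Primes), Nat.card ((localLevels q).H2 (muLoc p q)) = p

/-- `H³_lc(G_q, R) = 0` for all finite `R` (`cd_p(G_{ℚ_q}) ≤ 2`). -/
def LocalH3VanishSpec : Prop :=
  ∀ (p : ℕ) [Fact p.Prime] (q : Nat.Primes) (R : Rep.{0, 0, 0} (ZMod p) (Gl q)),
    FiniteDimensional (ZMod p) R → (localLevels q).IsUSmooth R → H3Vanish (localLevels q) R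

end Fermat.Agent.S55.KC

end

end
-- ===== PACK-END S55/KC/Spec.lean

-- ===== PACK-BEGIN S55/K/KummerH724.lean
section


/-!
# S55 / layer K, leaf K-KUM : `KummerSpec`   (helper724)

An `S`-unit of `ℚ̄` fixed by an `S`-level has a `p`-th root which is an `S`-unit fixed by an
`S`-level (`p ∈ S`): if `y ^ p = x` and `σ` is in the inertia group of a place `A` over `q ∉ S`,
then `σ y / y` is a `p`-th root of unity congruent to `1` mod `𝔪_A`, hence `= 1` (`q ≠ p`).
-/

set_option autoImplicit false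

noncomputable section

namespace Fermat.Agent.S55.K.H724

open groupCohomology Fermat.Agent.S55.PT Fermat.Agent.S55.K Fermat.Agent.S55.Bridge

variable (p : ℕ) [Fact p.Prime] (S : Finset Nat.Primes)

/-- a valuation subring lying over a prime `q ∉ S` is outside `S` -/
lemma outsideS_of_liesOver {q : Nat.Primes} (hq : q ∉ S) {A : ValuationSubring Qbar}
    (hA : A.LiesOverPrime (q : ℕ)) : OutsideS S A := by
  intro q' hq' hA'
  have hne : (q : ℕ) ≠ (q' : ℕ) := by
    intro h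
    apply hq
    have : q = q' := Subtype.ext h
    rw [this]
    exact hq'
  have h1 := val_prime_eq_one (A := A) hA q.2 q'.2 hne
  have h2 : A.valuation ((q' : ℕ) : Qbar) < 1 := (A.mem_nonunits_iff).mp hA'
  rw [h1] at h2
  exact lt_irrefl _ h2

/-- the valuation of an `S`-unit at a place outside `S` is `1` -/
lemma val_eq_one_of_isSUnit {x : Qbarˣ} (hx : IsSUnit S x) {A : ValuationSubring Qbar}
    (hA : OutsideS S A) : A.valuation (x : Qbar) = 1 := by
  obtain ⟨h1, h2⟩ := hx A hA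
  have h3 : A.valuation (x : Qbar) ≤ 1 := (A.valuation_le_one_iff _).2 h1
  have h4 : A.valuation ((x⁻¹ : Qbarˣ) : Qbar) ≤ 1 := (A.valuation_le_one_iff _).2 h2
  rw [Units.val_inv_eq_inv_val, map_inv₀] at h4
  have hx0 : A.valuation (x : Qbar) ≠ 0 := (A.valuation).ne_zero_iff.2 x.ne_zero
  refine le_antisymm h3 ?_
  have := (inv_le_one₀ (zero_lt_iff.2 hx0)).1 h4
  exact this

/-- an element with valuation `1` at all places outside `S` is an `S`-unit -/
lemma isSUnit_of_val_eq_one {x : Qbarˣ}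
    (hx : ∀ A : ValuationSubring Qbar, OutsideS S A → A.valuation (x : Qbar) = 1) :
    IsSUnit S x := by
  intro A hA
  have h := hx A hA
  refine ⟨(A.valuation_le_one_iff _).1 h.le, (A.valuation_le_one_iff _).1 ?_⟩
  rw [Units.val_inv_eq_inv_val, map_inv₀, h, inv_one]

/-- **KUM, key step.** Inertia at `q ∉ S` fixes `p`-th roots of elements fixed by inertia which
are units at the place (`p ∈ S`, so `q ≠ p`). -/
lemma inertia_fixes_root {q : ℕ} (hq : q.Prime) (hqp : q ≠ p)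
    (A : ValuationSubring Qbar) (hA : A.LiesOverPrime q) (σ : _root_.Fermat.Agent.S55.PT.GQ)
    (hσ : σ ∈ A.inertiaSubgroupIn ℚ) (y : Qbar) (hy : A.valuation y = 1)
    (hσx : σ (y ^ p) = y ^ p) : σ y = y := by
  have hp : p.Prime := Fact.out
  by_contra hne
  have hy0 : y ≠ 0 := by
    rintro rfl
    rw [map_zero] at hy
    exact zero_ne_one hy
  have hpv := val_prime_eq_one (A := A) hA hq hp hqp
  have ha : (σ y / y) ^ p = 1 := by
    rw [div_pow, ← map_pow, hσx, div_self (pow_ne_zero _ hy0)]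
  have ha1 : σ y / y ≠ 1 := fun h => hne ((div_eq_one_iff_eq hy0).1 h)
  have h1 := val_sub_roots_eq_one (A := A) hp.ne_zero hpv ha (one_pow p) ha1
  have h2 := inertia_val_sub_lt_one A hσ y hy.le
  have h3 : σ y - y = y * (σ y / y - 1) := by
    field_simp
  rw [h3, map_mul, hy, one_mul, h1] at h2
  exact lt_irrefl _ h2

/-- **K-KUM.** -/
theorem kummer : KummerSpec p S := by
  intro hpS x hx
  have hp : p.Prime := Fact.out
  obtain ⟨U, ⟨F, hF, rfl⟩, hfix⟩ := hx
  -- the underlying unit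
  let x₀ : Qbarˣ := Additive.toMul (sUnitsIncl S x)
  have hx₀ : IsSUnit S x₀ := x.2
  -- a `p`-th root
  obtain ⟨y₀, hy₀⟩ := IsAlgClosed.exists_pow_nat_eq (x₀ : Qbar) hp.pos
  have hy₀0 : y₀ ≠ 0 := by
    rintro rfl
    rw [zero_pow hp.ne_zero] at hy₀
    exact x₀.ne_zero hy₀.symm
  let yu : Qbarˣ := Units.mk0 y₀ hy₀0
  have hyu : yu ^ p = x₀ := by
    apply Units.ext
    rw [Units.val_pow_eq_pow_val]
    exact hy₀
  have hval : ∀ A : ValuationSubring Qbar, OutsideS S A → A.valuation (yu : Qbar) = 1 := by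
    intro A hA
    have h1 := val_eq_one_of_isSUnit S hx₀ hA
    rw [← hyu, Units.val_pow_eq_pow_val, map_pow] at h1
    exact (pow_eq_one_iff.1 h1).resolve_right hp.ne_zero
  have hyS : IsSUnit S yu := isSUnit_of_val_eq_one S hval
  refine ⟨⟨Additive.ofMul yu, hyS⟩, ?_, ?_⟩
  · apply sUnitsIncl_injective
    show Additive.ofMul (yu ^ p) = Additive.ofMul x₀
    rw [hyu]
  · -- the level
    have hfix' : ∀ s ∈ F.fixingSubgroup, s (x₀ : Qbar) = x₀ := by
      intro s hs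
      have h1 := hfix s hs
      have h2 := sUnits_ρ_coe S s x
      rw [h1] at h2
      exact h2.symm
    have hYfin : FiniteDimensional ℚ (IntermediateField.adjoin ℚ {y₀}) :=
      IntermediateField.adjoin.finiteDimensional
        ((isAlgebraic_Qbar.isAlgebraic y₀).isIntegral)
    have hFfin : FiniteDimensional ℚ F := hF.1
    have hsupfin : FiniteDimensional ℚ ↥(F ⊔ IntermediateField.adjoin ℚ {y₀}) :=
      IntermediateField.finiteDimensional_sup F _
    obtain ⟨L, hL, hLfix, -⟩ := exists_level_of_subgroup S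
      (F.fixingSubgroup ⊓ MulAction.stabilizer _root_.Fermat.Agent.S55.PT.GQ y₀) (F ⊔ IntermediateField.adjoin ℚ {y₀})
      hsupfin
      (fun s hs => by
        rw [IntermediateField.fixingSubgroup_sup] at hs
        refine ⟨hs.1, ?_⟩
        show s ∈ MulAction.stabilizer _root_.Fermat.Agent.S55.PT.GQ y₀
        rw [MulAction.mem_stabilizer_iff]
        exact (IntermediateField.mem_fixingSubgroup_iff _ s).1 hs.2 y₀
          (IntermediateField.mem_adjoin_simple_self ℚ y₀))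
      (fun q hq A hA s hs => by
        have hsF : s ∈ F.fixingSubgroup := hF.2 q hq A hA hs
        refine ⟨hsF, ?_⟩
        show s ∈ MulAction.stabilizer _root_.Fermat.Agent.S55.PT.GQ y₀
        rw [MulAction.mem_stabilizer_iff]
        have hqp : (q : ℕ) ≠ p := by
          intro h
          apply hq
          have : q = ExtCitation.pPrime p := Subtype.ext h
          rw [this]
          exact hpS
        refine inertia_fixes_root p q.2 hqp A hA s hs y₀
          (hval A (outsideS_of_liesOver S hq hA)) ?_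
        rw [hy₀]
        exact hfix' s hsF)
    refine ⟨L.fixingSubgroup, ⟨L, hL, rfl⟩, fun s hs => ?_⟩
    rw [hLfix] at hs
    have hs2 : s y₀ = y₀ := MulAction.mem_stabilizer_iff.1 hs.2
    apply sUnitsIncl_injective
    apply Additive.toMul.injective
    apply Units.ext
    exact hs2

end Fermat.Agent.S55.K.H724

end

end
-- ===== PACK-END S55/K/KummerH724.lean

-- ===== PACK-BEGIN S55/Mackey/Classical.lean
section



/-!
# S55 (helper61): Mackey–Shapiro — the classical Mackey system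

For `α : H →* G`, `D ≤ G` and `x : G` put `twSub α D x = {h : H | x α(h) x⁻¹ ∈ D}` (the "twisted
intersection" `H ∩ x⁻¹ D x`) and `twHom α D x : twSub α D x →* D`, `h ↦ x α(h) x⁻¹`.

* `isMackeySystem_tw` : for any system `x : ι → G` of representatives of the double cosets
  `D \ G / α(H)`, the groups `twSub α D (x i)` form a Mackey system;
* `isMackeySystem_doset` : the same for the canonical representatives `q.out`,
  `q : DoubleCoset.Quotient D α.range`;
* `mackeyTw_bijective` : `Hⁿ(H, Res_α Coind_D^G A) ≃ ∏ᵢ Hⁿ(H ∩ xᵢ⁻¹ D xᵢ, Res A)`.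
-/

set_option autoImplicit false

open CategoryTheory CategoryTheory.Limits groupCohomology

namespace Fermat.Agent.S55.Mackey

universe u v

variable {k H G : Type u} [CommRing k] [Group H] [Group G]

section Tw

variable (α : H →* G) (D : Subgroup G)

/-- The twisted intersection `{h : H | x α(h) x⁻¹ ∈ D}`. -/
def twSub (x : G) : Subgroup H := D.comap ((MulAut.conj x).toMonoidHom.comp α)

lemma mem_twSub {x : G} {h : H} : h ∈ twSub α D x ↔ x * α h * x⁻¹ ∈ D := Iff.rfl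

/-- The homomorphism `twSub α D x →* D`, `h ↦ x α(h) x⁻¹`. -/
def twHom (x : G) : twSub α D x →* D where
  toFun h := ⟨x * α h * x⁻¹, h.2⟩
  map_one' := by
    apply Subtype.ext
    simp
  map_mul' a b := by
    apply Subtype.ext
    simp [mul_assoc]

@[simp]
lemma coe_twHom (x : G) (h : twSub α D x) : ((twHom α D x h : D) : G) = x * α h * x⁻¹ := rfl

/-- Any system of representatives of `D \ G / α(H)` gives a Mackey system. -/
theorem isMackeySystem_tw {ι : Type v} (x : ι → G)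
    (hcover : ∀ g : G, ∃ i, ∃ d : D, ∃ h : H, g = (d : G) * x i * α h)
    (hdisj : ∀ i i' (d : D) (h : H), x i = (d : G) * x i' * α h → i = i') :
    IsMackeySystem α D (fun i => twSub α D (x i)) (fun i => (twSub α D (x i)).subtype)
      (fun i => twHom α D (x i)) x where
  comm := fun i h' => by
    simp [coe_twHom]
  inj := fun i => Subtype.val_injective
  full := fun i h hh => ⟨⟨h, hh⟩, rfl⟩
  cover := hcover
  disj := hdisj

/-- The canonical representatives of the double cosets `D \ G / α(H)` give a Mackey system. -/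
theorem isMackeySystem_doset :
    IsMackeySystem α D
      (fun q : DoubleCoset.Quotient (D : Set G) (α.range : Set G) => twSub α D q.out)
      (fun q => (twSub α D q.out).subtype)
      (fun q => twHom α D q.out) (fun q => q.out) := by
  refine isMackeySystem_tw α D _ ?_ ?_
  · intro g
    obtain ⟨d, r, hd, hr, hq⟩ := DoubleCoset.mk_out_eq_mul D α.range g
    obtain ⟨h, rfl⟩ := hr
    refine ⟨DoubleCoset.mk D α.range g, ⟨d⁻¹, D.inv_mem hd⟩, h⁻¹, ?_⟩
    rw [hq]
    simp [mul_assoc]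
  · intro q q' d h hq
    have h1 : DoubleCoset.mk D α.range q'.out = DoubleCoset.mk D α.range q.out :=
      (DoubleCoset.eq D α.range _ _).2 ⟨d, d.2, α h, ⟨h, rfl⟩, hq⟩
    rw [DoubleCoset.out_eq', DoubleCoset.out_eq'] at h1
    exact h1.symm

end Tw

section Main

variable {α : H →* G} {D : Subgroup G}

/-- **Classical Mackey decomposition** for a system of double coset representatives. -/
theorem mackeyTw_bijective (hα : Function.Injective α) {ι : Type v} (x : ι → G)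
    (hcover : ∀ g : G, ∃ i, ∃ d : D, ∃ h : H, g = (d : G) * x i * α h)
    (hdisj : ∀ i i' (d : D) (h : H), x i = (d : G) * x i' * α h → i = i')
    (A : Rep.{u} k D) (n : ℕ) :
    Function.Bijective (mackeyPi (isMackeySystem_tw α D x hcover hdisj) A n) :=
  mackeyPi_bijective hα _ n A

/-- **Classical Mackey decomposition** for the canonical double coset representatives. -/
theorem mackeyDoset_bijective (hα : Function.Injective α) (A : Rep.{u} k D) (n : ℕ) :
    Function.Bijective (mackeyPi (isMackeySystem_doset α D) A n) :=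
  mackeyPi_bijective hα _ n A

end Main

end Fermat.Agent.S55.Mackey

end
-- ===== PACK-END S55/Mackey/Classical.lean

-- ===== PACK-BEGIN S55/G/Rec/Tow/Defs.lean
section
/-
S55 / layer G / block REC / adapter TOW (subtask 379) — DEFINITIONS.
Sub-architect: helper417.   Plan: `coord/S55-REC-TOW.md` (origin/helper417).

TOW = "reciprocity ⇒ class module at `p`": from `ReciprocitySpec` (block REC), the upper bound
G-UP, descent G-DESC, independence of `S` (G-SIND) and the local class modules, derive for the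
`S`-idèle class module `C_S(F) = G.CRep S F.Gal F.F` of a Tower level `F`:
  GD1 (existence of a fundamental class at `p`), GD3 (local–global injectivity), GD8 (inflation
  is injective on `p`-torsion).
Route: memo `origin/helper293:coord/S55-REC-TOW-helper293.md` (T4–T7) = `origin/helper1:
coord/S55-G-REC.md` §3b with the auxiliary prime `r ∉ S`.

This file: vocabulary only (Mathlib + G/Defs + Spec/Tower + helper594's level instances).
NO sorry.  Namespace `Fermat.Agent.S55.G.Rec.TOW`.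
-/






set_option autoImplicit false

open CategoryTheory groupCohomology
open scoped NumberField

noncomputable section

namespace Fermat.Agent.S55.G.Rec.TOW

open Fermat.Agent.S55 Fermat.Agent.S55.Tow Fermat.Agent.S55.E1.H594
open IsDedekindDomain

/-! ## 0. Maps on `H²(H, -)` for subgroups -/

section General

variable {Γ : Type} [Group Γ]

/-- The map induced by `f : A ⟶ B` on `H²(H, -)`, `H ≤ Γ` a subgroup. -/
abbrev h2Sub {A B : Rep.{0} ℤ Γ} (f : A ⟶ B) (H : Subgroup Γ) :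
    groupCohomology (T.resSub A H) 2 →ₗ[ℤ] groupCohomology (T.resSub B H) 2 :=
  (T.coeffMap ((Rep.resFunctor H.subtype).map f) 2).hom

/-- The map induced by `f : A ⟶ B` on `H²(Γ, -)`. -/
abbrev h2Top {A B : Rep.{0} ℤ Γ} (f : A ⟶ B) :
    groupCohomology A 2 →ₗ[ℤ] groupCohomology B 2 :=
  (T.coeffMap f 2).hom

/-- Restriction `H²(Γ, A) → H²(H, A)`. -/
abbrev res2 (A : Rep.{0} ℤ Γ) (H : Subgroup Γ) :
    groupCohomology A 2 →ₗ[ℤ] groupCohomology (T.resSub A H) 2 :=
  (T.resMap A H 2).hom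

end General

/-! ## 1. The intrinsic modules and maps missing in `G/Defs.lean` -/

section Intrinsic

variable (S : Finset Nat.Primes) (Γ L : Type) [Group Γ] [Field L] [NumberField L]
  [MulSemiringAction Γ L]

/-- The diagonal embedding `Lˣ ⟶ J_S(L)` in `Rep ℤ Γ`. -/
def diagJRepHom : G.LRep Γ L ⟶ G.JRep Γ S L :=
  Rep.ofHom ⟨(G.unitsDiag S L).toIntLinearMap,
    fun g => LinearMap.ext fun x => G.unitsDiag_equivariant Γ S L g x⟩

/-- The projection `J_S(L) × Div^S(L) ⟶ J_S(L)` in `Rep ℤ Γ`. -/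
def jdFstRepHom : G.JDRep S Γ L ⟶ G.JRep Γ S L :=
  Rep.ofHom ⟨(AddMonoidHom.fst (Additive (G.AS S L)ˣ) (G.PrimeOut S L →₀ ℤ)).toIntLinearMap,
    fun _ => LinearMap.ext fun _ => rfl⟩

variable {S} in
/-- The projection `J_{S'}(L) ⟶ J_S(L)` for `S ⊆ S'` in `Rep ℤ Γ`. -/
def jResRepHom {S' : Finset Nat.Primes} (h : S ⊆ S') : G.JRep Γ S' L ⟶ G.JRep Γ S L :=
  Rep.ofHom ⟨(G.jRes h L).toIntLinearMap,
    fun g => LinearMap.ext fun x => G.jRes_equivariant h L Γ g x⟩

lemma diagRepHom_comp_jdFst :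
    G.diagRepHom S Γ L ≫ jdFstRepHom S Γ L = diagJRepHom S Γ L := rfl

lemma diagRepHom_comp_divSnd :
    G.diagRepHom S Γ L ≫ G.divSndRepHom S Γ L = G.ordRepHom S Γ L := rfl

lemma jInl_comp_jdFst : G.jInlRepHom S Γ L ≫ jdFstRepHom S Γ L = 𝟙 _ := rfl

lemma jInl_comp_divSnd : G.jInlRepHom S Γ L ≫ G.divSndRepHom S Γ L = 0 := rfl

/-- `y ∈ H²(Γ, J_S(L))` is concentrated at the prime `r`: its image in `H²(Γ, J_{S∖{r}}(L))`
vanishes. -/
def IsAt (r : Nat.Primes) (y : groupCohomology (G.JRep Γ S L) 2) : Prop :=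
  h2Top (jResRepHom Γ L (Finset.erase_subset r S)) y = 0

end Intrinsic

/-! ## 2. The modules of a Tower level (helper421's model, helper594's action) -/

section Level

variable {S : Finset Nat.Primes}

/-- `Fˣ` as a `Gal(F/ℚ)`-module. -/
abbrev lvlL (M : Level S) : Rep.{0} ℤ M.Gal := G.LRep M.Gal M.F

/-- `J_S(F) = (F ⊗ ℚ_S)ˣ`. -/
abbrev lvlJ (M : Level S) : Rep.{0} ℤ M.Gal := G.JRep M.Gal S M.F

/-- `J_S(F) × Div^S(F)`. -/
abbrev lvlJD (M : Level S) : Rep.{0} ℤ M.Gal := G.JDRep S M.Gal M.F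

/-- The `S`-idèle class module `C_S(F)`. -/
abbrev lvlC (M : Level S) : Rep.{0} ℤ M.Gal := G.CRep S M.Gal M.F

/-- The same field as a level of a larger set `S'`, with class module `C_{S'}(F)`. -/
abbrev lvlC' (S' : Finset Nat.Primes) (M : Level S) : Rep.{0} ℤ M.Gal := G.CRep S' M.Gal M.F

/-- `j : J_S(F) ⟶ C_S(F)`. -/
abbrev lvlj (M : Level S) : lvlJ M ⟶ lvlC M := G.jToCRepHom S M.Gal M.F

/-- The subgroup `Z ≤ Gal(F/ℚ)` fixes a prime of `F` above `r`. -/
def FixesPrimeAbove (M : Level S) (r : Nat.Primes) (Z : Subgroup M.Gal) : Prop :=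
  ∃ w : HeightOneSpectrum (𝓞 M.F), (((r : ℕ) : 𝓞 M.F) ∈ w.asIdeal) ∧
    ∀ z ∈ Z, G.primeSMul M.Gal z w = w

end Level

end Fermat.Agent.S55.G.Rec.TOW

end
end
-- ===== PACK-END S55/G/Rec/Tow/Defs.lean

-- ===== PACK-BEGIN S55/K/GO3H535/H371/Smooth.lean
section



/-!
# S55 / layer K / GO3-CAPDIV (helper371), part 3: `S`-smooth elements and Kummer theory

* `isSm_iff`, `isSm_iff_galois` : `IsSm S a ↔ a ∈ F` for some (Galois) level `F`;
* `isSm_mul`, `isSm_inv`, `isSm_div`, `isSm_pow`, `isSm_zpow`, `isSm_smul`;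
* `isSm_exists_hasOrd` : an `S`-smooth element has an (integral) order at every place over
  `q ∉ S`;
* `isSm_of_pow` (generalised Kummer): if `y ^ n` is `S`-smooth, `n` a power of `p ∈ S`, and `y`
  has an integral order at every place outside `S`, then `y` is `S`-smooth.
-/

set_option autoImplicit false
set_option linter.unusedSectionVars false
set_option linter.style.haveILetI false

noncomputable section

namespace Fermat.Agent.S55.K.GO3H535.H371

open Fermat.Agent.S55.PT Fermat.Agent.S55.Bridge Fermat.Agent.S55.K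
open NumberField IsDedekindDomain IntermediateField
open scoped Pointwise

attribute [local instance] isAlgebraic_Qbar isGalois_Qbar

variable {S : Finset Nat.Primes}

theorem coe_smul_units (σ : _root_.Fermat.Agent.S55.PT.GQ) (a : Qbarˣ) : ((σ • a : Qbarˣ) : Qbar) = σ (a : Qbar) := rfl

theorem isSm_iff (a : Qbarˣ) :
    IsSm S a ↔ ∃ F : IntermediateField ℚ (AlgebraicClosure ℚ),
      F.IsUnramifiedOutside S ∧ (a : Qbar) ∈ F := by
  constructor
  · rintro ⟨U, ⟨F, hF, rfl⟩, h⟩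
    refine ⟨F, hF, ?_⟩
    rw [← InfiniteGalois.fixedField_fixingSubgroup F, IntermediateField.mem_fixedField_iff]
    intro σ hσ
    have := congrArg (fun u : Qbarˣ => (u : Qbar)) (h σ hσ)
    exact this
  · rintro ⟨F, hF, ha⟩
    refine ⟨F.fixingSubgroup, ⟨F, hF, rfl⟩, fun s hs => ?_⟩
    apply Units.ext
    rw [coe_smul_units]
    exact (IntermediateField.mem_fixingSubgroup_iff F s).1 hs _ ha

theorem isSm_iff_galois (a : Qbarˣ) :
    IsSm S a ↔ ∃ F : IntermediateField ℚ (AlgebraicClosure ℚ),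
      F.IsUnramifiedOutside S ∧ IsGalois ℚ F ∧ (a : Qbar) ∈ F := by
  rw [isSm_iff]
  constructor
  · rintro ⟨F, hF, ha⟩
    obtain ⟨L, hL, hgal, hle⟩ := exists_galois_level_ge S F hF
    exact ⟨L, hL, hgal, hle ha⟩
  · rintro ⟨F, hF, -, ha⟩
    exact ⟨F, hF, ha⟩

theorem isSm_one : IsSm S (1 : Qbarˣ) :=
  (isSm_iff 1).2 ⟨⊥, IntermediateField.isUnramifiedOutside_bot S, by simp⟩

theorem isSm_mul {a b : Qbarˣ} (ha : IsSm S a) (hb : IsSm S b) : IsSm S (a * b) := by
  obtain ⟨F, hF, haF⟩ := (isSm_iff a).1 ha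
  obtain ⟨F', hF', hbF⟩ := (isSm_iff b).1 hb
  refine (isSm_iff _).2 ⟨F ⊔ F', hF.sup hF', ?_⟩
  rw [Units.val_mul]
  exact mul_mem ((le_sup_left : F ≤ F ⊔ F') haF) ((le_sup_right : F' ≤ F ⊔ F') hbF)

theorem isSm_inv {a : Qbarˣ} (ha : IsSm S a) : IsSm S a⁻¹ := by
  obtain ⟨F, hF, haF⟩ := (isSm_iff a).1 ha
  refine (isSm_iff _).2 ⟨F, hF, ?_⟩
  rw [Units.val_inv_eq_inv_val]
  exact inv_mem haF

theorem isSm_div {a b : Qbarˣ} (ha : IsSm S a) (hb : IsSm S b) : IsSm S (a / b) := by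
  rw [div_eq_mul_inv]
  exact isSm_mul ha (isSm_inv hb)

theorem isSm_pow {a : Qbarˣ} (ha : IsSm S a) (n : ℕ) : IsSm S (a ^ n) := by
  obtain ⟨F, hF, haF⟩ := (isSm_iff a).1 ha
  refine (isSm_iff _).2 ⟨F, hF, ?_⟩
  rw [Units.val_pow_eq_pow_val]
  exact pow_mem haF n

theorem isSm_zpow {a : Qbarˣ} (ha : IsSm S a) (n : ℤ) : IsSm S (a ^ n) := by
  obtain ⟨m, rfl | rfl⟩ := Int.eq_nat_or_neg n
  · rw [zpow_natCast]
    exact isSm_pow ha m
  · rw [zpow_neg, zpow_natCast]
    exact isSm_inv (isSm_pow ha m)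

theorem isSm_smul {a : Qbarˣ} (ha : IsSm S a) (σ : _root_.Fermat.Agent.S55.PT.GQ) : IsSm S (σ • a) := by
  obtain ⟨F, hF, hgal, haF⟩ := (isSm_iff_galois a).1 ha
  refine (isSm_iff _).2 ⟨F, hF, ?_⟩
  rw [coe_smul_units]
  haveI := hF.1
  haveI := hgal
  have h := H594.restrictNormalHom_apply F σ ⟨(a : Qbar), haF⟩
  rw [← h]
  exact (AlgEquiv.restrictNormalHom F σ ⟨(a : Qbar), haF⟩).2

/-- An `S`-smooth element has an integral order at every place over a prime outside `S`. -/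
theorem isSm_exists_hasOrd {a : Qbarˣ} (ha : IsSm S a) {q : Nat.Primes} (hq : q ∉ S)
    (A : ValuationSubring (AlgebraicClosure ℚ)) (hA : A.LiesOverPrime (q : ℕ)) :
    ∃ n : ℤ, HasOrd A (q : ℕ) (a : Qbar) n := by
  obtain ⟨F, hF, hgal, haF⟩ := (isSm_iff_galois a).1 ha
  haveI := hF.1
  haveI := hgal
  have h0 : (⟨(a : Qbar), haF⟩ : F) ≠ 0 := by
    intro h
    exact a.ne_zero (congrArg (fun x : F => (x : Qbar)) h)
  exact exists_hasOrd_of_mem F hF hq A hA ⟨(a : Qbar), haF⟩ h0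

/-- **Generalised Kummer lemma.**  Let `p ∈ S`, `n` a power of `p`.  If `y ^ n` is `S`-smooth and
`y` has an integral order at every place over a prime outside `S`, then `y` is `S`-smooth. -/
theorem isSm_of_pow {p : ℕ} (hp : p.Prime) (hpS : (⟨p, hp⟩ : Nat.Primes) ∈ S) (a : ℕ)
    (y : Qbarˣ) (hy : IsSm S (y ^ (p ^ a)))
    (hord : ∀ q : Nat.Primes, q ∉ S → ∀ A : ValuationSubring (AlgebraicClosure ℚ),
      A.LiesOverPrime (q : ℕ) → ∃ m : ℤ, HasOrd A (q : ℕ) (y : Qbar) m) :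
    IsSm S y := by
  obtain ⟨F, hF, hyF⟩ := (isSm_iff _).1 hy
  rw [Units.val_pow_eq_pow_val] at hyF
  haveI := hF.1
  haveI : FiniteDimensional ℚ ℚ⟮(y : Qbar)⟯ :=
    IntermediateField.adjoin.finiteDimensional (Algebra.IsIntegral.isIntegral (y : Qbar))
  refine (isSm_iff y).2 ⟨F ⊔ ℚ⟮(y : Qbar)⟯, ⟨IntermediateField.finiteDimensional_sup F _,
    fun q hq A hA σ hσ => ?_⟩,
    (le_sup_right : ℚ⟮(y : Qbar)⟯ ≤ F ⊔ ℚ⟮(y : Qbar)⟯) (IntermediateField.mem_adjoin_simple_self ℚ _)⟩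
  have hσF : σ ∈ F.fixingSubgroup := hF.2 q hq A hA hσ
  rw [IntermediateField.fixingSubgroup_sup]
  refine ⟨hσF, ?_⟩
  show σ ∈ ℚ⟮(y : Qbar)⟯.fixingSubgroup
  have hqp : (q : ℕ) ≠ p := by
    intro h
    apply hq
    have : q = ⟨p, hp⟩ := Subtype.ext h
    rw [this]
    exact hpS
  have hpv : A.valuation (p : AlgebraicClosure ℚ) = 1 := val_prime_eq_one (A := A) hA q.2 hp hqp
  have hnv : A.valuation (((p ^ a : ℕ) : ℕ) : AlgebraicClosure ℚ) = 1 := by
    rw [Nat.cast_pow, map_pow, hpv, one_pow]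
  obtain ⟨m, hm⟩ := hord q hq A hA
  have hz : UnitAt A ((y : Qbar) / ((q : ℕ) : Qbar) ^ m) := (hasOrd_iff_unitAt q.2.ne_zero _ _).1 hm
  have hσq : σ (((q : ℕ) : Qbar) ^ m) = ((q : ℕ) : Qbar) ^ m := by
    rw [map_zpow₀, map_natCast]
  have hfix : σ (((y : Qbar) / ((q : ℕ) : Qbar) ^ m) ^ (p ^ a)) =
      ((y : Qbar) / ((q : ℕ) : Qbar) ^ m) ^ (p ^ a) := by
    rw [div_pow, map_div₀, map_pow σ (((q : ℕ) : Qbar) ^ m), hσq]
    congr 1
    exact (IntermediateField.mem_fixingSubgroup_iff F σ).1 hσF _ hyF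
  have hσz : σ ((y : Qbar) / ((q : ℕ) : Qbar) ^ m) = (y : Qbar) / ((q : ℕ) : Qbar) ^ m :=
    kummer_unit_fixed_of_mem_inertia (pow_ne_zero a hp.ne_zero) hnv hσ hfix hz
  have hq0 : ((q : ℕ) : Qbar) ^ m ≠ 0 := zpow_ne_zero m (by exact_mod_cast q.2.ne_zero)
  have hσy : σ (y : Qbar) = (y : Qbar) := by
    rw [map_div₀, hσq] at hσz
    exact (div_left_inj' hq0).1 hσz
  rw [IntermediateField.mem_fixingSubgroup_iff]
  intro x hx
  have hle : ℚ⟮(y : Qbar)⟯ ≤ IntermediateField.fixedField (Subgroup.zpowers σ) := by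
    rw [IntermediateField.adjoin_simple_le_iff]
    rintro ⟨τ, hτ⟩
    obtain ⟨k, rfl⟩ := Subgroup.mem_zpowers_iff.1 hτ
    show (σ ^ k) • (y : Qbar) = (y : Qbar)
    have hstab : σ ∈ MulAction.stabilizer (AlgebraicClosure ℚ ≃ₐ[ℚ] AlgebraicClosure ℚ)
        (y : Qbar) := MulAction.mem_stabilizer_iff.2 hσy
    exact MulAction.mem_stabilizer_iff.1 (Subgroup.zpow_mem _ hstab k)
  exact hle hx ⟨σ, Subgroup.mem_zpowers σ⟩

end Fermat.Agent.S55.K.GO3H535.H371

end
end
-- ===== PACK-END S55/K/GO3H535/H371/Smooth.lean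

-- ===== PACK-BEGIN S55/Cap/HasMuH181.lean
section



/-!
# S55 / layer K, input A8 (CAP), leaf HASMU (helper181)

`hasMu : HasMuSpec p S` — if `U_L = Gal(ℚ̄/F)` acts trivially on `μ = ofChar (cycloChar p)` then
`μ_p ⊂ F`: the cyclotomic character is trivial on `U_L`, so `U_L` fixes a primitive `p`-th root of
unity `ζ`, and `ζ ∈ F` by the Galois correspondence.
-/

set_option autoImplicit false

noncomputable section

namespace Fermat.Agent.S55.Cap.H181

open Fermat.Agent.S55.PT Fermat.Agent.S55.Tow groupCohomology ExtCitation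

/-- If `σ` acts trivially on `ofChar (cycloChar p)` then `cycloChar p σ = 1`. -/
lemma cycloChar_eq_one_of_mu_ρ (p : ℕ) [Fact p.Prime] (s : Tow.GQ) (h : (mu p).ρ s = 1) :
    cycloChar p s = 1 := by
  have h2 : (mu p).ρ s (1 : ZMod p) = (1 : ZMod p) := by
    rw [h]
    rfl
  have h3 : ((cycloChar p s : (ZMod p)ˣ) : ZMod p) * 1 = 1 := h2
  rw [mul_one] at h3
  exact Units.ext h3

/-- **A8-HASMU.** -/
theorem hasMu (p : ℕ) [Fact p.Prime] (S : Finset Nat.Primes) : HasMuSpec p S := by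
  intro L hL
  have hp : p.Prime := Fact.out
  haveI : NeZero p := ⟨hp.ne_zero⟩
  obtain ⟨ζ, hζ⟩ : ∃ ζ : AlgebraicClosure ℚ, IsPrimitiveRoot ζ p :=
    HasEnoughRootsOfUnity.exists_primitiveRoot (AlgebraicClosure ℚ) p
  refine ⟨ζ, ?_, hζ⟩
  haveI := Fermat.Agent.S55.Bridge.isAlgebraic_Qbar
  haveI := Fermat.Agent.S55.Bridge.isGalois_Qbar
  have hmem : ζ ∈ IntermediateField.fixedField L.F.fixingSubgroup := by
    rintro ⟨s, hs⟩
    show s ζ = ζ
    have hχ : cycloChar p s = 1 := cycloChar_eq_one_of_mu_ρ p s (hL s hs)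
    obtain ⟨t, rfl⟩ := hζ.isUnit hp.ne_zero
    refine (Fermat.Agent.S55.Bridge.cycloChar_eq_one_iff p s).1 hχ t ?_
    rw [mem_rootsOfUnity]
    apply Units.ext
    rw [Units.val_pow_eq_pow_val, Units.val_one]
    exact hζ.pow_eq_one
  rwa [InfiniteGalois.fixedField_fixingSubgroup L.F] at hmem

end Fermat.Agent.S55.Cap.H181

end
end
-- ===== PACK-END S55/Cap/HasMuH181.lean

-- ===== PACK-BEGIN S55/Cap/EDivH595.lean
section


/-!
# S55 / layer K, input A8 (CAP): leaf EDIV   (helper595, subtask 564)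

`eDivAdapter p S : Cap.EDivAdapterSpec p S`, i.e. `Tow.SUnitsDivSpec S p → Cap.EDivSpec p S`:
the smooth `S`-units `𝔼 = SU S` are `p`-divisible as soon as the `S`-units are `p`-divisible in the
tower (GD9, proved in `Bridge/SUnitsDiv.lean` and `H654/GD9.lean`).
-/

set_option autoImplicit false

noncomputable section

namespace Fermat.Agent.S55.Cap.H595

open Fermat.Agent.S55.PT Fermat.Agent.S55.Tow

/-- leaf **EDIV**, exact Spec type. -/
theorem eDivAdapter (p : ℕ) [Fact p.Prime] (S : Finset Nat.Primes) : EDivAdapterSpec p S := by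
  intro h x
  obtain ⟨L, hL⟩ := SU.exists_level S x
  obtain ⟨L', hLL', e', he', hpe⟩ := h.1 L (L.unitsMk (SU.val S x) hL)
    ((isSUq_iff S L _).2 (SU.isSUq S x))
  refine ⟨SU.mk S (L'.unitsCoe e') ((isSUq_iff S L' e').1 he')
    ⟨L', fun g hg => L'.unitsCoe_fixed e' g hg⟩, ?_⟩
  apply SU.ext
  have h1 := congrArg L'.unitsCoe hpe
  rw [map_nsmul] at h1
  rw [map_nsmul]
  exact h1

/-- `𝔼` is `p`-divisible for `p ∈ S` (unconditional form, via `Bridge.sUnitsDivSpec`-type input). -/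
theorem eDiv_of (p : ℕ) [Fact p.Prime] (S : Finset Nat.Primes) (h : SUnitsDivSpec S p) :
    EDivSpec p S := eDivAdapter p S h

end Fermat.Agent.S55.Cap.H595

end

end
-- ===== PACK-END S55/Cap/EDivH595.lean

-- ===== PACK-BEGIN S55/Cap/J2H164/Main.lean
section





/-!
# S55 / A8 (CAP), leaf J2: `J2AdapterSpec`   (helper164)

`j2Adapter : Cap.J2AdapterSpec p S`, i.e. `LocalSpec p → J2Spec p S`.

Proof (all at cochain level):
* the level-constant cocycle `c` is right-invariant under `U_L` for a level `L ≥ L₁` of `S`;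
* for `q ∈ S` the local trivialisation `β_q` of `c` (from `Ш²`) is pushed to `ℚ̄_qˣ`-coefficients
  and replaced by one which is right-invariant under `V_L(q)` (`LocalInf`: Hilbert 90);
* explicit Shapiro (`Shapiro`): `b_q(g)(x)(γ) = φ_g(γ)(γ x)`,
  `φ_g(γ) = e c(γ, g) - t(γ g) + t(γ)`.
-/

set_option autoImplicit false
set_option linter.unusedVariables false
set_option linter.unusedSectionVars false

noncomputable section

namespace Fermat.Agent.S55.Cap.J2H164

open Fermat.Agent.S55.PT Fermat.Agent.S55.Tow groupCohomology ExtCitation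

/-! ### pointwise formulas for the diagonal actions -/

lemma indRep_ρ_apply {k G : Type} [Field k] [Group G] (U : Subgroup G) (M : Rep.{0, 0, 0} k G)
    (g : G) (F : (G ⧸ U) →₀ M) (y : G ⧸ U) :
    ((indRep U M).ρ g F : (G ⧸ U) →₀ M) y = M.ρ g (F (g⁻¹ • y)) := by
  classical
  induction F using Finsupp.induction_linear with
  | zero =>
    rw [map_zero]
    show (0 : M) = M.ρ g 0
    rw [map_zero]
  | add F F' hF hF' =>
    rw [map_add]
    show ((indRep U M).ρ g F : (G ⧸ U) →₀ M) y + ((indRep U M).ρ g F' : (G ⧸ U) →₀ M) y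
      = M.ρ g (F (g⁻¹ • y) + F' (g⁻¹ • y))
    rw [hF, hF', map_add]
  | single x m =>
    rw [indRep_ρ_single, Finsupp.single_apply, Finsupp.single_apply]
    by_cases h : g • x = y
    · have h' : x = g⁻¹ • y := by rw [← h, inv_smul_smul]
      rw [if_pos h, if_pos h']
    · have h' : ¬ x = g⁻¹ • y := fun hx => h (by rw [hx, smul_inv_smul])
      rw [if_neg h, if_neg h', map_zero]

lemma indM_smul_apply {G X : Type} [Group G] [AddCommGroup X] [DistribMulAction G X]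
    (U : Subgroup G) (g : G) (F : IndM U X) (y : G ⧸ U) :
    IndM.toF U (g • F) y = g • IndM.toF U F (g⁻¹ • y) := by
  classical
  induction F using IndM.induction_on with
  | h0 =>
    rw [smul_zero, map_zero]
    show (0 : X) = g • (0 : X)
    rw [smul_zero]
  | hadd F F' hF hF' =>
    rw [smul_add, map_add, map_add]
    show IndM.toF U (g • F) y + IndM.toF U (g • F') y
      = g • (IndM.toF U F (g⁻¹ • y) + IndM.toF U F' (g⁻¹ • y))
    rw [hF, hF', smul_add]
  | hsingle x a =>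
    rw [IndM.smul_single]
    show (Finsupp.single (g • x) (g • a) : (G ⧸ U) →₀ X) y
      = g • (Finsupp.single x a : (G ⧸ U) →₀ X) (g⁻¹ • y)
    rw [Finsupp.single_apply, Finsupp.single_apply]
    by_cases h : g • x = y
    · have h' : x = g⁻¹ • y := by rw [← h, inv_smul_smul]
      rw [if_pos h, if_pos h']
    · have h' : ¬ x = g⁻¹ • y := fun hx => h (by rw [hx, smul_inv_smul])
      rw [if_neg h, if_neg h', smul_zero]

/-! ### a level carrying a level-constant cochain -/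

lemma exists_level_of_isLC₂ (S : Finset Nat.Primes) (L₁ : Level S) {X : Type*}
    (c : Tow.GQ × Tow.GQ → X) (hc : (globalLevels S).IsLC₂ c) :
    ∃ L : Level S, L₁ ≤ L ∧
      ∀ g g' s s' : Tow.GQ, s ∈ L.U → s' ∈ L.U → c (g * s, g' * s') = c (g, g') := by
  obtain ⟨U, ⟨F, hF, rfl⟩, h⟩ := hc
  obtain ⟨E, hE, hgal, hle⟩ := Fermat.Agent.S55.Bridge.exists_galois_level_ge S F hF
  have hQ : IsGalois ℚ Qbar := Fermat.Agent.S55.Bridge.isGalois_Qbar
  let L₀ : Level S := ⟨E, hE, (InfiniteGalois.normal_iff_isGalois E).2 hgal⟩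
  refine ⟨capSup S L₁ L₀, le_capSup_left S L₁ L₀, fun g g' s s' hs hs' => ?_⟩
  have hU : (capSup S L₁ L₀).U ≤ F.fixingSubgroup := by
    refine le_trans (Level.U_anti (le_capSup_right S L₁ L₀)) ?_
    exact IntermediateField.fixingSubgroup_antitone hle
  exact h g g' s s' (hU hs) (hU hs')

/-! ### the coefficient map `μ_p → ℚ̄_qˣ` -/

section Coeff

variable (p : ℕ) [Fact p.Prime] (S : Finset Nat.Primes) (ι₀ : ↥(mu p) →+ SU S)
  (hι₀ : ∀ (g : Tow.GQ) (a : ↥(mu p)), ι₀ ((mu p).ρ g a) = g • ι₀ a)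

/-- `e_q = emb_q ∘ val ∘ ι₀ : μ_p → ℚ̄_qˣ` -/
def coeffE (q : Nat.Primes) : ↥(mu p) →+ (unitsQpbar q).V :=
  (embQbar q).toAddMonoidHom.comp ((SU.val S).comp ι₀)

lemma coeffE_apply (q : Nat.Primes) (a : ↥(mu p)) :
    coeffE p S ι₀ q a = embQbar q (SU.val S (ι₀ a)) := rfl

include hι₀ in
lemma coeffE_ρ (q : Nat.Primes) (γ : Tow.GQ) (a : ↥(mu p)) :
    coeffE p S ι₀ q ((mu p).ρ γ a) = embQbar q (unitsQbar.ρ γ (SU.val S (ι₀ a))) := by
  rw [coeffE_apply, hι₀, SU.val_smul]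

include hι₀ in
lemma coeffE_ρ_loc (q : Nat.Primes) (d : GQp q) (a : ↥(mu p)) :
    coeffE p S ι₀ q ((mu p).ρ (locQ q d) a) = (unitsQpbar q).ρ d (coeffE p S ι₀ q a) := by
  rw [coeffE_ρ p S ι₀ hι₀, embQbar_equivariant, coeffE_apply]

end Coeff

/-! ### the local trivialisations -/

section Local

variable (p : ℕ) [Fact p.Prime] (S : Finset Nat.Primes) (ι₀ : ↥(mu p) →+ SU S)
  (hι₀ : ∀ (g : Tow.GQ) (a : ↥(mu p)), ι₀ ((mu p).ρ g a) = g • ι₀ a)

include hι₀ in
lemma exists_local (hLoc : LocalSpec p) (L₁ L : Level S) (hL₁L : L₁ ≤ L)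
    (c : ↥((globalLevels S).Z2 (indRep L₁.U (mu p))))
    (hcL : ∀ g g' s s' : Tow.GQ, s ∈ L.U → s' ∈ L.U →
      (c : Tow.GQ × Tow.GQ → (Tow.GQ ⧸ L₁.U) →₀ ↥(mu p)) (g * s, g' * s')
        = (c : Tow.GQ × Tow.GQ → (Tow.GQ ⧸ L₁.U) →₀ ↥(mu p)) (g, g'))
    (hSha : (globalLevels S).H2π (indRep L₁.U (mu p)) c ∈ Sha2 (hrl S) (indRep L₁.U (mu p)))
    (q : ↥S) :
    ∃ β' : GQp q.1 → (Tow.GQ ⧸ L₁.U) → (unitsQpbar q.1).V,
      (∀ d e, e ∈ L.V q.1 → β' (d * e) = β' d) ∧
      ∀ d d' y, (unitsQpbar q.1).ρ d (β' d' ((locQ q.1 d)⁻¹ • y)) - β' (d * d') y + β' d y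
        = coeffE p S ι₀ q.1
            ((c : Tow.GQ × Tow.GQ → (Tow.GQ ⧸ L₁.U) →₀ ↥(mu p)) (locQ q.1 d, locQ q.1 d') y) := by
  have h1 : resH2 (hrl S q) (indRep L₁.U (mu p))
      ((globalLevels S).H2π (indRep L₁.U (mu p)) c) = 0 :=
    congrFun (LinearMap.mem_ker.1 hSha) q
  rw [resH2_mk, LevelSys.H2π_eq_zero_iff] at h1
  obtain ⟨x, hx, hdx⟩ := h1
  obtain ⟨V, ⟨F, hF, rfl⟩, hxV⟩ := hx
  have hdx' : ∀ d d' : GQp q.1,
      (indRep L₁.U (mu p)).ρ (locQ q.1 d) (x d') - x (d * d') + x d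
        = (c : Tow.GQ × Tow.GQ → (Tow.GQ ⧸ L₁.U) →₀ ↥(mu p)) (locQ q.1 d, locQ q.1 d') := by
    intro d d'
    have := congrFun hdx (d, d')
    rw [d₁₂_hom_apply] at this
    exact this
  refine localInf S hLoc q.1 L₁ L hL₁L
    (fun dd y => coeffE p S ι₀ q.1
      ((c : Tow.GQ × Tow.GQ → (Tow.GQ ⧸ L₁.U) →₀ ↥(mu p)) (locQ q.1 dd.1, locQ q.1 dd.2) y))
    (fun d y => coeffE p S ι₀ q.1 ((x d : (Tow.GQ ⧸ L₁.U) →₀ ↥(mu p)) y)) ?_ ⟨F, hF, ?_⟩ ?_
  · intro d d' e e' he he'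
    funext y
    show coeffE p S ι₀ q.1 ((c : Tow.GQ × Tow.GQ → (Tow.GQ ⧸ L₁.U) →₀ ↥(mu p))
        (locQ q.1 (d * e), locQ q.1 (d' * e')) y) = _
    rw [map_mul, map_mul, hcL _ _ _ _ he he']
  · intro d e he
    funext y
    show coeffE p S ι₀ q.1 ((x (d * e) : (Tow.GQ ⧸ L₁.U) →₀ ↥(mu p)) y) = _
    rw [hxV d e he]
  · intro d d' y
    show (unitsQpbar q.1).ρ d (coeffE p S ι₀ q.1
          ((x d' : (Tow.GQ ⧸ L₁.U) →₀ ↥(mu p)) ((locQ q.1 d)⁻¹ • y)))
        - coeffE p S ι₀ q.1 ((x (d * d') : (Tow.GQ ⧸ L₁.U) →₀ ↥(mu p)) y)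
        + coeffE p S ι₀ q.1 ((x d : (Tow.GQ ⧸ L₁.U) →₀ ↥(mu p)) y)
      = coeffE p S ι₀ q.1
          ((c : Tow.GQ × Tow.GQ → (Tow.GQ ⧸ L₁.U) →₀ ↥(mu p)) (locQ q.1 d, locQ q.1 d') y)
    rw [← hdx' d d', ← coeffE_ρ_loc p S ι₀ hι₀, ← indRep_ρ_apply, ← map_sub, ← map_add]
    rfl

end Local

/-! ### the main theorem -/

/-- **Leaf J2.** -/
theorem j2Adapter (p : ℕ) [Fact p.Prime] (S : Finset Nat.Primes) : J2AdapterSpec p S := by
  classical
  intro hLoc ι₀ hι₀ L₁ hμ c hSha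
  -- the cocycle relation and the level of `c`
  have hcoc : ∀ g h j : Tow.GQ,
      (c : Tow.GQ × Tow.GQ → (Tow.GQ ⧸ L₁.U) →₀ ↥(mu p)) (g * h, j)
        + (c : Tow.GQ × Tow.GQ → (Tow.GQ ⧸ L₁.U) →₀ ↥(mu p)) (g, h)
      = (indRep L₁.U (mu p)).ρ g ((c : Tow.GQ × Tow.GQ → (Tow.GQ ⧸ L₁.U) →₀ ↥(mu p)) (h, j))
        + (c : Tow.GQ × Tow.GQ → (Tow.GQ ⧸ L₁.U) →₀ ↥(mu p)) (g, h * j) :=
    (mem_cocycles₂_iff (A := indRep L₁.U (mu p)) _).1 c.2.1
  obtain ⟨L, hL₁L, hcL⟩ := exists_level_of_isLC₂ S L₁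
    (c : Tow.GQ × Tow.GQ → (Tow.GQ ⧸ L₁.U) →₀ ↥(mu p)) c.2.2
  -- the local trivialisations
  have hloc := exists_local p S ι₀ hι₀ hLoc L₁ L hL₁L c hcL hSha
  choose β' hβ'W hβ' using hloc
  -- the cocycle with `ℚ̄_qˣ`-coefficients
  let ζ : (q : ↥S) → Tow.GQ × Tow.GQ → (Tow.GQ ⧸ L₁.U) → (unitsQpbar q.1).V :=
    fun q gg y => coeffE p S ι₀ q.1
      ((c : Tow.GQ × Tow.GQ → (Tow.GQ ⧸ L₁.U) →₀ ↥(mu p)) gg y)
  have hζW : ∀ (q : ↥S) (g g' w w' : Tow.GQ), w ∈ L.U → w' ∈ L.U →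
      ζ q (g * w, g' * w') = ζ q (g, g') := by
    intro q g g' w w' hw hw'
    funext y
    show coeffE p S ι₀ q.1 _ = coeffE p S ι₀ q.1 _
    rw [hcL g g' w w' hw hw']
  have hζfull : ∀ (q : ↥S) (γ g h : Tow.GQ) (y : Tow.GQ ⧸ L₁.U),
      ζ q (γ * g, h) y + ζ q (γ, g) y
        = coeffE p S ι₀ q.1 ((mu p).ρ γ
            ((c : Tow.GQ × Tow.GQ → (Tow.GQ ⧸ L₁.U) →₀ ↥(mu p)) (g, h) (γ⁻¹ • y)))
          + ζ q (γ, g * h) y := by
    intro q γ g h y
    have h1 := congrArg (fun F : (Tow.GQ ⧸ L₁.U) →₀ ↥(mu p) => coeffE p S ι₀ q.1 (F y))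
      (hcoc γ g h)
    simp only [Finsupp.add_apply, map_add] at h1
    rw [indRep_ρ_apply] at h1
    exact h1
  have hζ : ∀ (q : ↥S) (d : GQp q.1) (γ g : Tow.GQ) (y : Tow.GQ ⧸ L₁.U),
      ζ q (locQ q.1 d * γ, g) y + ζ q (locQ q.1 d, γ) y
        = (unitsQpbar q.1).ρ d (ζ q (γ, g) ((locQ q.1 d)⁻¹ • y)) + ζ q (locQ q.1 d, γ * g) y := by
    intro q d γ g y
    rw [hζfull q (locQ q.1 d) γ g y, coeffE_ρ_loc p S ι₀ hι₀]
  -- the modified cochains
  let φ : (q : ↥S) → Tow.GQ → Tow.GQ → (Tow.GQ ⧸ L₁.U) → (unitsQpbar q.1).V :=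
    fun q => shPhi (locQ q.1) L.U (ζ q) (β' q)
  have hφ1 : ∀ (q : ↥S) (g : Tow.GQ) (d : GQp q.1) (γ : Tow.GQ) (y : Tow.GQ ⧸ L₁.U),
      φ q g (locQ q.1 d * γ) y = (unitsQpbar q.1).ρ d (φ q g γ ((locQ q.1 d)⁻¹ • y)) :=
    fun q g d γ y => shPhi_mul_left (locQ q.1) L.U (unitsQpbar q.1).ρ (ζ q) (β' q)
      (hζW q) (hζ q) (hβ'W q) (hβ' q) g d γ y
  have hφ2 : ∀ (q : ↥S) (g γ w : Tow.GQ), w ∈ L.U → φ q g (γ * w) = φ q g γ :=
    fun q g γ w hw => shPhi_mul_right (locQ q.1) L.U (ζ q) (β' q) (hζW q) (hβ'W q) g γ w hw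
  have hφ3 : ∀ (q : ↥S) (g γ w : Tow.GQ), w ∈ L.U → φ q (g * w) γ = φ q g γ :=
    fun q g γ w hw => shPhi_mul_right' (locQ q.1) L.U (ζ q) (β' q) (hζW q) (hβ'W q) g γ w hw
  have hφ4 : ∀ (q : ↥S) (g h γ : Tow.GQ) (y : Tow.GQ ⧸ L₁.U),
      φ q h (γ * g) y - φ q (g * h) γ y + φ q g γ y
        = ζ q (γ * g, h) y - ζ q (γ, g * h) y + ζ q (γ, g) y :=
    fun q g h γ y => shPhi_cobdry (locQ q.1) L.U (ζ q) (β' q) g h γ y
  -- the components of `b`
  let bJ : (q : ↥S) → Tow.GQ → (Tow.GQ ⧸ L₁.U) → JJ S q.1 := fun q g x =>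
    JJ.mk S q.1 (fun γ => φ q g γ (γ • x))
      (fun d γ => by
        show φ q g (locQ q.1 d * γ) ((locQ q.1 d * γ) • x) = _
        rw [hφ1, mul_smul, inv_smul_smul])
      ⟨L, fun u hu γ => by
        show φ q g (γ * u) ((γ * u) • x) = φ q g γ (γ • x)
        rw [hφ2 q g γ u hu, mul_smul, smul_eq_of_mem_U hL₁L hu]⟩
  have hbJ : ∀ (q : ↥S) (g : Tow.GQ) (x : Tow.GQ ⧸ L₁.U) (γ : Tow.GQ),
      JJ.ev S q.1 γ (bJ q g x) = φ q g γ (γ • x) := fun q g x γ => rfl
  let b : Tow.GQ → IndM L₁.U (JJS S) := fun g =>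
    IndM.ofF L₁.U (Finsupp.equivFunOnFinite.symm (fun x => (fun q => bJ q g x : JJS S)))
  have hb : ∀ (g : Tow.GQ) (x : Tow.GQ ⧸ L₁.U) (q : ↥S),
      JJS.proj S q (IndM.toF L₁.U (b g) x) = bJ q g x := fun g x q => rfl
  refine ⟨b, ⟨L.U, Level.U_mem_globalLevels S L, fun g s hs => ?_⟩, fun g h => ?_⟩
  · -- level-constancy
    apply Finsupp.ext
    intro x
    apply JJS.ext
    intro q
    show bJ q (g * s) x = bJ q g x
    apply JJ.ext
    intro γ
    rw [hbJ, hbJ, hφ3 q g γ s hs]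
  · -- the coboundary identity
    apply Finsupp.ext
    intro x
    apply JJS.ext
    intro q
    apply JJ.ext
    intro γ
    have hLHS : JJ.ev S q.1 γ (JJS.proj S q (IndM.toF L₁.U
        (IndM.map L₁.U (iEJ S) (IndM.map L₁.U ι₀ (IndM.ofF L₁.U
          ((c : Tow.GQ × Tow.GQ → (Tow.GQ ⧸ L₁.U) →₀ ↥(mu p)) (g, h))))) x))
        = embQbar q.1 (unitsQbar.ρ γ (SU.val S (ι₀
            ((c : Tow.GQ × Tow.GQ → (Tow.GQ ⧸ L₁.U) →₀ ↥(mu p)) (g, h) x)))) := rfl
    have hRHS : JJ.ev S q.1 γ (JJS.proj S q (IndM.toF L₁.U (g • b h - b (g * h) + b g) x))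
        = φ q h (γ * g) (γ • x) - φ q (g * h) γ (γ • x) + φ q g γ (γ • x) := by
      rw [map_add, map_sub]
      show JJ.ev S q.1 γ (JJS.proj S q (IndM.toF L₁.U (g • b h) x
          - IndM.toF L₁.U (b (g * h)) x + IndM.toF L₁.U (b g) x)) = _
      rw [indM_smul_apply, map_add, map_sub, map_add, map_sub, JJS.proj_smul, JJ.ev_smul,
        hb, hb, hb, hbJ, hbJ, hbJ, mul_smul, smul_inv_smul]
    show JJ.ev S q.1 γ (JJS.proj S q (IndM.toF L₁.U
        (IndM.map L₁.U (iEJ S) (IndM.map L₁.U ι₀ (IndM.ofF L₁.U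
          ((c : Tow.GQ × Tow.GQ → (Tow.GQ ⧸ L₁.U) →₀ ↥(mu p)) (g, h))))) x))
      = JJ.ev S q.1 γ (JJS.proj S q (IndM.toF L₁.U (g • b h - b (g * h) + b g) x))
    rw [hLHS, hRHS, hφ4]
    have h1 := hζfull q γ g h (γ • x)
    rw [inv_smul_smul, coeffE_ρ p S ι₀ hι₀] at h1
    linear_combination (norm := abel) -h1

end Fermat.Agent.S55.Cap.J2H164

end
end
-- ===== PACK-END S55/Cap/J2H164/Main.lean

-- ===== PACK-BEGIN S55/Inv/GO4/SUnit.lean
section


/-!
# S55 / GO4 dictionary: the `S`-unit dictionary `Tow.Level.IsSUnit ⇒ K.IsSUnit` (helper3)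

`Tow.Level.IsSUnit` (`Spec/Tower2.lean`): unit at every valuation subring of `ℚ̄` over a prime
`ℓ ∉ S`.  `K.IsSUnit` (`K/Defs.lean`): unit at every valuation subring lying over no prime of `S`
(including those over no prime at all — but the only such valuation subring is `ℚ̄` itself).

* `isSUnit_of_forall_prime` : the dictionary;
* `inclE L : E_S(L) →+ 𝔼 = K.sUnits S`, `inclE_ρ` (equivariance), `locE_inclE`.
-/

set_option autoImplicit false

noncomputable section

namespace Fermat.Agent.S55.Inv.GO4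

open Fermat.Agent.S55 Fermat.Agent.S55.Tow Fermat.Agent.S55.E1.Lim Polynomial

/-- a valuation subring of `ℚ̄` over no prime number contains every natural number as a unit -/
lemma val_natCast_eq_one_of_no_prime (A : ValuationSubring K.Qbar)
    (hA : ∀ ℓ : ℕ, ℓ.Prime → ¬ A.LiesOverPrime ℓ) (n : ℕ) (hn : n ≠ 0) :
    A.valuation ((n : ℕ) : K.Qbar) = 1 := by
  induction n using Nat.recOnMul with
  | zero => exact absurd rfl hn
  | one => simp
  | prime ℓ hℓ =>
    have h1 : A.valuation ((ℓ : ℕ) : K.Qbar) ≤ 1 :=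
      (A.valuation_le_one_iff _).2 (natCast_mem A ℓ)
    have h2 : ¬ A.valuation ((ℓ : ℕ) : K.Qbar) < 1 := fun h =>
      hA ℓ hℓ ((A.mem_nonunits_iff).2 h)
    exact le_antisymm h1 (not_lt.1 h2)
  | mul a b ha hb =>
    have ha0 : a ≠ 0 := fun h => hn (by rw [h, zero_mul])
    have hb0 : b ≠ 0 := fun h => hn (by rw [h, mul_zero])
    rw [Nat.cast_mul, map_mul, ha ha0, hb hb0, one_mul]

lemma rat_mem_of_no_prime (A : ValuationSubring K.Qbar)
    (hA : ∀ ℓ : ℕ, ℓ.Prime → ¬ A.LiesOverPrime ℓ) (r : ℚ) :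
    algebraMap ℚ K.Qbar r ∈ A := by
  rw [← A.valuation_le_one_iff]
  have h1 : algebraMap ℚ K.Qbar r = ((r.num : ℤ) : K.Qbar) / ((r.den : ℕ) : K.Qbar) := by
    conv_lhs => rw [← Rat.num_div_den r]
    simp
  rw [h1, map_div₀, val_natCast_eq_one_of_no_prime A hA r.den r.den_ne_zero, div_one]
  exact (A.valuation_le_one_iff _).2 (intCast_mem A r.num)

/-- a valuation subring of `ℚ̄` lying over no prime number is everything -/
lemma mem_of_no_prime (A : ValuationSubring K.Qbar)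
    (hA : ∀ ℓ : ℕ, ℓ.Prime → ¬ A.LiesOverPrime ℓ) (x : K.Qbar) : x ∈ A := by
  haveI : Algebra.IsAlgebraic ℚ K.Qbar := AlgebraicClosure.isAlgebraic ℚ
  have hx : IsIntegral ℚ x := Algebra.IsIntegral.isIntegral x
  -- `A` is integrally closed in `ℚ̄` and contains `ℚ`
  obtain ⟨f, hfm, hfx⟩ := hx
  have hA' : IsIntegrallyClosed A := inferInstance
  have hint : IsIntegral A x := by
    refine ⟨f.map ((algebraMap ℚ K.Qbar).codRestrict A.toSubring (rat_mem_of_no_prime A hA)),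
      hfm.map _, ?_⟩
    rw [eval₂_map]
    have : (algebraMap (↥A) K.Qbar).comp
        ((algebraMap ℚ K.Qbar).codRestrict A.toSubring (rat_mem_of_no_prime A hA)) =
        algebraMap ℚ K.Qbar := by
      ext r
      rfl
    rw [this]
    exact hfx
  obtain ⟨y, hy⟩ := (IsIntegrallyClosed.isIntegral_iff (R := A) (K := K.Qbar)).1 hint
  rw [← hy]
  exact y.2

/-- **S-unit dictionary.**  An element of `ℚ̄ˣ` which is a unit at all valuation subrings over
primes `ℓ ∉ S` (the notion of `Spec/Tower2.lean`) is an `S`-unit in the sense of `K/Defs.lean`. -/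
lemma isSUnit_of_forall_prime (S : Finset Nat.Primes) (x : K.Qbarˣ)
    (hx : ∀ ℓ : Nat.Primes, ℓ ∉ S → ∀ A : ValuationSubring K.Qbar, A.LiesOverPrime (ℓ : ℕ) →
      (x : K.Qbar) ∈ A ∧ ((x⁻¹ : K.Qbarˣ) : K.Qbar) ∈ A) : K.IsSUnit S x := by
  intro A hA
  by_cases h : ∃ ℓ : ℕ, ℓ.Prime ∧ A.LiesOverPrime ℓ
  · obtain ⟨ℓ, hℓ, hAℓ⟩ := h
    exact hx ⟨ℓ, hℓ⟩ (fun hmem => hA ⟨ℓ, hℓ⟩ hmem hAℓ) A hAℓ
  · have h' : ∀ ℓ : ℕ, ℓ.Prime → ¬ A.LiesOverPrime ℓ := fun ℓ hℓ hAℓ => h ⟨ℓ, hℓ, hAℓ⟩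
    exact ⟨mem_of_no_prime A h' _, mem_of_no_prime A h' _⟩

variable {S : Finset Nat.Primes}

/-- `E_S(L) → 𝔼`: the underlying `S`-unit of `ℚ̄`. -/
def inclE (L : Level S) : (sUnits L).V →+ (K.sUnits S).V where
  toFun e := ⟨L.unitsCoe ((sIncl L).hom e),
    isSUnit_of_forall_prime S _ (isSUnit_of_mem L (sIncl_mem L e))⟩
  map_zero' := by
    apply Subtype.ext
    show L.unitsCoe ((sIncl L).hom 0) = 0
    rw [map_zero, map_zero]
  map_add' x y := by
    apply Subtype.ext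
    show L.unitsCoe ((sIncl L).hom (x + y)) =
      L.unitsCoe ((sIncl L).hom x) + L.unitsCoe ((sIncl L).hom y)
    rw [map_add, map_add]

lemma sUnitsIncl_inclE (L : Level S) (e : (sUnits L).V) :
    K.sUnitsIncl S (inclE L e) = L.unitsCoe ((sIncl L).hom e) := rfl

/-- `inclE` is equivariant along `G_ℚ → Gal(L/ℚ)`. -/
lemma inclE_ρ (L : Level S) (σ : GQ) (e : (sUnits L).V) :
    inclE L ((sUnits L).ρ (QuotientGroup.mk σ : L.Gal) e) = (K.sUnits S).ρ σ (inclE L e) := by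
  apply Subtype.ext
  show L.unitsCoe ((sIncl L).hom ((sUnits L).ρ (QuotientGroup.mk σ : L.Gal) e)) =
    unitsQbar.ρ σ (L.unitsCoe ((sIncl L).hom e))
  rw [Rep.hom_comm_apply (sIncl L)]
  rfl

/-- `inclE` is compatible with the transition maps. -/
lemma inclE_trS {L L' : Level S} (h : L ≤ L') (e : (sUnits L).V) :
    inclE L' ((trS h).hom e) = inclE L e := by
  apply Subtype.ext
  show L'.unitsCoe ((sIncl L').hom ((trS h).hom e)) = L.unitsCoe ((sIncl L).hom e)
  rw [sIncl_trS]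
  rfl

/-- localisation: `locE ∘ inclE = locCoe ∘ embFun ∘ sIncl`. -/
lemma locE_inclE (L : Level S) (q : Nat.Primes) (e : (sUnits L).V) :
    K.locE q S (inclE L e) = L.locCoe q (L.embFun q ((sIncl L).hom e)) := rfl

end Fermat.Agent.S55.Inv.GO4

end

end
-- ===== PACK-END S55/Inv/GO4/SUnit.lean

-- ===== PACK-BEGIN S56/Euler/H726/Sha1Loc.lean
section







/-!
# S56 / W-BASE / Euler characteristic, leaf EUL-SHA2 (helper726): local triviality

`N : Rep (ZMod p) G_ℚ`, `c` a cocycle.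

* `IsLocTriv N c v`      : `c ∘ rl v` is a coboundary of the local group at `v` (the condition
                           defining `Ш¹`);
* `exists_cob_on_decomposition` : then `c` is a coboundary on the decomposition group of EVERY
                           valuation subring `A` of `ℚ̄` over `v`;
* `eq_zero_of_mem_decomposition` : if moreover `σ ∈ D_A` acts trivially on `N` then `c σ = 0`.
-/

set_option autoImplicit false

noncomputable section

namespace Fermat.Agent.S56.Euler.H726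

open Fermat.Agent.S55.PT groupCohomology ExtCitation
open scoped Pointwise

variable {p : ℕ} [Fact p.Prime] (N : Rep.{0, 0, 0} (ZMod p) _root_.Fermat.Agent.S55.PT.GQ)

/-- `c` is locally trivial at `v`: its restriction to the local Galois group at `v` is a
coboundary. -/
def IsLocTriv (c : _root_.Fermat.Agent.S55.PT.GQ → N) (v : Nat.Primes) : Prop :=
  ∃ n : N, ∀ g : Gl v, c (rl v g) = N.ρ (rl v g) n - n

/-- A locally trivial cocycle is a coboundary on the decomposition group of the Prelude place. -/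
lemma exists_cob_on_primeLocalPlace {c : _root_.Fermat.Agent.S55.PT.GQ → N} {v : Nat.Primes} (h : IsLocTriv N c v) :
    ∃ n : N, ∀ σ ∈ (primeLocalPlace v).decompositionSubgroup ℚ, c σ = N.ρ σ n - n := by
  obtain ⟨n, hn⟩ := h
  refine ⟨n, fun σ hσ => ?_⟩
  obtain ⟨g, rfl⟩ := Fermat.Agent.S55.BLocal.exists_primeLocalToGlobal_eq v σ hσ
  exact hn g

/-- A locally trivial cocycle is a coboundary on the decomposition group of every valuation
subring over `v`. -/
theorem exists_cob_on_decomposition {c : _root_.Fermat.Agent.S55.PT.GQ → N} (hc : c ∈ cocycles₁ N) {v : Nat.Primes}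
    (h : IsLocTriv N c v) (A : ValuationSubring (AlgebraicClosure ℚ))
    (hA : A.LiesOverPrime (v : ℕ)) :
    ∃ n : N, ∀ σ ∈ A.decompositionSubgroup ℚ, c σ = N.ρ σ n - n := by
  obtain ⟨n, hn⟩ := exists_cob_on_primeLocalPlace N h
  obtain ⟨g, hg⟩ := Fermat.Agent.Lib.Cheb.H476.exists_smul_eq v.2
    (Fermat.Agent.S55.BLocal.primeLocalPlace_liesOver v) hA
  refine ⟨N.ρ g n - c g, fun σ hσ => ?_⟩
  -- `g⁻¹ σ g ∈ D₀`
  have h1 : g⁻¹ * σ * g⁻¹⁻¹ ∈ (g⁻¹ • A).decompositionSubgroup ℚ :=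
    Fermat.Agent.Lib.Cheb.H476.conj_mem_decomposition g⁻¹ hσ
  have h2 : g⁻¹ • A = primeLocalPlace v := by
    rw [← hg, inv_smul_smul]
  rw [h2, inv_inv] at h1
  have h3 := cob_conj N hc g (g⁻¹ * σ * g) n (hn _ h1)
  have h4 : g * (g⁻¹ * σ * g) * g⁻¹ = σ := by group
  rw [h4] at h3
  exact h3

/-- A locally trivial cocycle vanishes on the elements of the decomposition groups over `v`
which act trivially on `N`. -/
theorem eq_zero_of_mem_decomposition {c : _root_.Fermat.Agent.S55.PT.GQ → N} (hc : c ∈ cocycles₁ N) {v : Nat.Primes}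
    (h : IsLocTriv N c v) (A : ValuationSubring (AlgebraicClosure ℚ))
    (hA : A.LiesOverPrime (v : ℕ)) {σ : _root_.Fermat.Agent.S55.PT.GQ} (hσ : σ ∈ A.decompositionSubgroup ℚ)
    (htriv : ∀ n : N, N.ρ σ n = n) : c σ = 0 := by
  obtain ⟨n, hn⟩ := exists_cob_on_decomposition N hc h A hA
  rw [hn σ hσ, htriv, sub_self]

/-- The inertia group is contained in the decomposition group. -/
lemma inertia_le_decomposition (A : ValuationSubring (AlgebraicClosure ℚ)) :
    A.inertiaSubgroupIn ℚ ≤ A.decompositionSubgroup ℚ := by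
  rintro σ ⟨g, -, rfl⟩
  exact g.2

/-- Local triviality of a class in `Ш¹`, in plain form. -/
theorem isLocTriv_of_mem_Sha1 (T : Finset Nat.Primes) (c : ↥((globalLevels T).Z1 N))
    (hx : (globalLevels T).H1π N c ∈ Sha1 (hrl T) N) (v : Nat.Primes) (hv : v ∈ T) :
    IsLocTriv N (c : _root_.Fermat.Agent.S55.PT.GQ → N) v := by
  have h1 : loc1 (hrl T) N ((globalLevels T).H1π N c) = 0 := hx
  have h2 : resH1 (hrl T ⟨v, hv⟩) N ((globalLevels T).H1π N c) = 0 := by
    have := congrFun h1 ⟨v, hv⟩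
    simpa using this
  rw [resH1_mk, LevelSys.H1π_eq_zero_iff] at h2
  obtain ⟨n, hn⟩ := h2
  refine ⟨n, fun g => ?_⟩
  have h3 := congrFun hn g
  rw [res_d₀₁] at h3
  simp only [coe_resZ1, Function.comp_apply, d₀₁_hom_apply] at h3
  exact h3.symm

end Fermat.Agent.S56.Euler.H726

end

end
-- ===== PACK-END S56/Euler/H726/Sha1Loc.lean

-- ===== PACK-BEGIN S56/Euler/H74/ValDescent.lean
section




/-!
# S56 / W-BASE, leaf EUL-CL (helper74), part B: descent of divisors along unramified extensions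

`F ⊆ L ⊆ ℚ̄` finite over `ℚ`, both unramified outside `T`; every prime of `F` not above `T` has a
generator `π` outside `T` (class group killed).  If `a ∈ Lˣ` is such that `h a / a` is a `T`-unit
for all `h ∈ G_F`, then `a = b · (T-unit)` with `b ∈ Fˣ`.
-/

set_option autoImplicit false
set_option linter.style.haveILetI false
set_option linter.unusedSectionVars false

open NumberField IsDedekindDomain
open scoped Pointwise

namespace Fermat.Agent.S56.Euler.H74

open Fermat.Agent.S55.Bridge Fermat.Agent.S54 Fermat.Agent.S55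

local notation "Qb" => AlgebraicClosure ℚ
local notation "GQ" => (AlgebraicClosure ℚ ≃ₐ[ℚ] AlgebraicClosure ℚ)

/-! ### Units at a place -/

section unitGroup

variable (A : ValuationSubring Qb)

lemma mem_unitGroup_iff_mem (x : Qbˣ) :
    x ∈ A.unitGroup ↔ (x : Qb) ∈ A ∧ ((x⁻¹ : Qbˣ) : Qb) ∈ A := by
  rw [ValuationSubring.mem_unitGroup_iff, ← A.valuation_le_one_iff, ← A.valuation_le_one_iff,
    Units.val_inv_eq_inv_val, map_inv₀]
  have hne : A.valuation (x : Qb) ≠ 0 := (Valuation.ne_zero_iff _).2 x.ne_zero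
  constructor
  · intro h
    rw [h, inv_one]
    exact ⟨le_rfl, le_rfl⟩
  · rintro ⟨h1, h2⟩
    exact le_antisymm h1 ((inv_le_one₀ (zero_lt_iff.2 hne)).1 h2)

/-- `S`-units are the elements which are units at all places outside `S`. -/
lemma isSUnit_iff (S : Finset Nat.Primes) (x : Qbˣ) :
    K.IsSUnit S x ↔ ∀ B : ValuationSubring Qb, K.OutsideS S B → x ∈ B.unitGroup := by
  unfold K.IsSUnit
  refine forall_congr' fun B => forall_congr' fun _ => ?_
  rw [mem_unitGroup_iff_mem]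

/-- Galois conjugation of units at a place. -/
lemma smul_mem_unitGroup_smul (τ : GQ) {x : Qbˣ} (hx : x ∈ A.unitGroup) :
    τ • x ∈ (τ • A).unitGroup := by
  rw [mem_unitGroup_iff_mem] at hx ⊢
  rw [mem_smul_valuationSubring_iff, mem_smul_valuationSubring_iff]
  have h1 : τ⁻¹ (((τ • x : Qbˣ)) : Qb) = (x : Qb) := by
    show τ⁻¹ (τ (x : Qb)) = (x : Qb)
    exact τ.symm_apply_apply _
  have h2 : τ⁻¹ ((((τ • x)⁻¹ : Qbˣ)) : Qb) = ((x⁻¹ : Qbˣ) : Qb) := by
    rw [← smul_inv']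
    show τ⁻¹ (τ ((x⁻¹ : Qbˣ) : Qb)) = ((x⁻¹ : Qbˣ) : Qb)
    exact τ.symm_apply_apply _
  rw [h1, h2]
  exact hx

end unitGroup

/-! ### Uniformisers of unramified primes -/

section Unif

variable (F : IntermediateField ℚ Qb) [FiniteDimensional ℚ F]

attribute [local instance] H594.numberField_of_finite

lemma algebraMap_ringOfIntegers_eq (x : 𝓞 F) :
    algebraMap (𝓞 F) Qb x = ((x : F) : Qb) := rfl

lemma lt_exp_neg_one {x : WithZero (Multiplicative ℤ)} (h : x < WithZero.exp (-1 : ℤ)) :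
    x ≤ WithZero.exp (-2 : ℤ) := by
  rcases eq_or_ne x 0 with rfl | hx
  · exact zero_le
  · obtain ⟨k, rfl⟩ : ∃ k : ℤ, x = WithZero.exp k := ⟨WithZero.log x, (WithZero.exp_log hx).symm⟩
    rw [WithZero.exp_lt_exp] at h
    rw [WithZero.exp_le_exp]
    omega

/-- For `x ∈ F`: `x` is a non-unit of `A` iff its valuation at the prime below `A` is `< 1`. -/
lemma valuation_lt_one_of_mem_nonunits (A : ValuationSubring Qb) {q : ℕ} (hq : q.Prime)
    (hA : A.LiesOverPrime q) (x : F) (hx : (x : Qb) ∈ A.nonunits) :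
    (placePrime F A hq hA).valuation F x < 1 := by
  rcases eq_or_ne x 0 with rfl | hx0
  · simp
  have h1 : (placePrime F A hq hA).valuation F x ≤ 1 :=
    (mem_iff_valuation_le_one F A hq hA x).1 (A.nonunits_le hx)
  refine lt_of_le_of_ne h1 (fun h => ?_)
  have h2 : (placePrime F A hq hA).valuation F x⁻¹ ≤ 1 := by
    rw [map_inv₀, h, inv_one]
  have h3 : ((x⁻¹ : F) : Qb) ∈ A := (mem_iff_valuation_le_one F A hq hA x⁻¹).2 h2
  rw [mem_nonunits_iff_inv_not_mem] at hx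
  rcases hx with hx | hx
  · exact hx0 (by exact_mod_cast hx)
  · apply hx
    simpa using h3

/-- **Uniformisers.**  If the inertia group of `A | q` fixes `F` and `π ∈ 𝔭 ∖ 𝔭²`
(`𝔭 = A ∩ 𝒪_F`), then `v_A(π) = v_A(q)`. -/
theorem valuation_unif (A : ValuationSubring Qb) {q : ℕ} (hq : q.Prime)
    (hA : A.LiesOverPrime q) (hI : A.inertiaSubgroupIn ℚ ≤ F.fixingSubgroup)
    (π : 𝓞 F) (hπ : π ∈ H594.primeBelowF F A) (hπ2 : π ∉ (H594.primeBelowF F A) ^ 2) :
    A.valuation (((π : F) : Qb)) = A.valuation (q : Qb) := by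
  have hπA : ((π : F) : Qb) ∈ A.nonunits := (H594.mem_primeBelowF F A π).1 hπ
  have hfix : ∀ σ ∈ A.inertiaSubgroupIn ℚ, σ ((π : F) : Qb) = ((π : F) : Qb) := by
    intro σ hσ
    have := (IntermediateField.mem_fixingSubgroup_iff F σ).1 (hI hσ)
    exact this _ (π : F).2
  have hle : A.valuation (((π : F) : Qb)) ≤ A.valuation (q : Qb) :=
    Fermat.Agent.S56.H66.vg0_le q hq A hA _ hπA hfix
  refine le_antisymm hle (not_lt.1 fun hlt => hπ2 ?_)
  -- `π / q` is a non-unit of `A`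
  have hq0 : (q : Qb) ≠ 0 := by exact_mod_cast hq.ne_zero
  have hqF0 : (q : F) ≠ 0 := by exact_mod_cast hq.ne_zero
  have hqv0 : A.valuation (q : Qb) ≠ 0 := (Valuation.ne_zero_iff _).2 hq0
  have hy : ((((π : F) / (q : F) : F)) : Qb) ∈ A.nonunits := by
    rw [ValuationSubring.mem_nonunits_iff]
    have : ((((π : F) / (q : F) : F)) : Qb) = ((π : F) : Qb) / (q : Qb) := by
      push_cast
      rfl
    rw [this, map_div₀]
    exact (div_lt_one₀ (zero_lt_iff.2 hqv0)).2 hlt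
  have hw := valuation_lt_one_of_mem_nonunits F A hq hA _ hy
  set w := placePrime F A hq hA with hw_def
  rw [map_div₀] at hw
  have hwq0 : w.valuation F (q : F) ≠ 0 := (Valuation.ne_zero_iff _).2 hqF0
  have hw2 : w.valuation F (π : F) < w.valuation F (q : F) :=
    (div_lt_one₀ (zero_lt_iff.2 hwq0)).1 hw
  -- pass to `intValuation`
  have e1 : w.valuation F (π : F) = w.intValuation π := w.valuation_of_algebraMap π
  have e2 : w.valuation F (q : F) = w.intValuation (q : 𝓞 F) := by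
    have := w.valuation_of_algebraMap (K := F) (q : 𝓞 F)
    rw [← this]
    congr 1
  have hqmem : (q : 𝓞 F) ∈ w.asIdeal ^ 1 := by
    rw [pow_one]
    exact H594.natCast_mem_primeBelowF F A hA
  have hq1 : w.intValuation (q : 𝓞 F) ≤ WithZero.exp (-(1 : ℤ)) := by
    have := (w.intValuation_le_pow_iff_mem (q : 𝓞 F) 1).2 hqmem
    simpa using this
  rw [e1, e2] at hw2
  have hπ1 : w.intValuation π ≤ WithZero.exp (-(2 : ℤ)) :=
    lt_exp_neg_one (lt_of_lt_of_le hw2 hq1)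
  have := (w.intValuation_le_pow_iff_mem π 2).1 (by simpa using hπ1)
  exact this

end Unif

/-! ### The descent -/

section Descent

variable (F : IntermediateField ℚ Qb) [FiniteDimensional ℚ F]

attribute [local instance] H594.numberField_of_finite

/-- The unit of `ℚ̄` attached to a unit of `F`. -/
noncomputable def toQb : Fˣ →* Qbˣ := Units.map ((algebraMap F Qb : F →+* Qb) : F →* Qb)

@[simp] lemma coe_toQb (c : Fˣ) : ((toQb F c : Qbˣ) : Qb) = ((c : F) : Qb) := rfl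

lemma smul_toQb (τ : GQ) (hτ : τ ∈ F.fixingSubgroup) (c : Fˣ) : τ • toQb F c = toQb F c := by
  apply Units.ext
  show τ ((c : F) : Qb) = ((c : F) : Qb)
  exact (IntermediateField.mem_fixingSubgroup_iff F τ).1 hτ _ (c : F).2

variable {F}

/-- A place over a prime outside `T` is outside `T`. -/
lemma outsideS_of_liesOver (T : Finset Nat.Primes) (A : ValuationSubring Qb) {q : ℕ}
    (hq : q.Prime) (hA : A.LiesOverPrime q) (hqT : (⟨q, hq⟩ : Nat.Primes) ∉ T) :
    K.OutsideS T A := by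
  intro q' hq' hA'
  apply hqT
  have := prime_unique A hq q'.2 hA hA'
  have h2 : (⟨q, hq⟩ : Nat.Primes) = q' := Subtype.ext this
  rw [h2]
  exact hq'

/-- `N ∉ A ∩ 𝒪_F` when all prime factors of `N` are in `T` and `A` is over a prime outside `T`. -/
lemma natCast_notMem_primeBelowF (T : Finset Nat.Primes) (N : ℕ)
    (hNT : ∀ q : Nat.Primes, (q : ℕ) ∣ N → q ∈ T) (A : ValuationSubring Qb) {q : ℕ}
    (hq : q.Prime) (hA : A.LiesOverPrime q) (hqT : (⟨q, hq⟩ : Nat.Primes) ∉ T) :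
    (N : 𝓞 F) ∉ H594.primeBelowF F A := by
  intro h
  rw [H594.mem_primeBelowF, map_natCast, ValuationSubring.mem_nonunits_iff] at h
  have h1 : A.valuation (N : Qb) = 1 :=
    val_natCast_eq_one_of_not_dvd A hq hA N (fun hd => hqT (hNT ⟨q, hq⟩ hd))
  rw [h1] at h
  exact lt_irrefl _ h

variable (F)

/-- The local generator at a prime `𝔭` of `F`. -/
theorem exists_local_generator (T : Finset Nat.Primes) (L : IntermediateField ℚ Qb)
    (hF : F.IsUnramifiedOutside T) (hL : L.IsUnramifiedOutside T)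
    (N : ℕ) (hNT : ∀ q : Nat.Primes, (q : ℕ) ∣ N → q ∈ T)
    (hgen : ∀ 𝔭 : HeightOneSpectrum (𝓞 F), (N : 𝓞 F) ∉ 𝔭.asIdeal →
      ∃ π : 𝓞 F, π ∈ 𝔭.asIdeal ∧ π ∉ 𝔭.asIdeal ^ 2 ∧
        ∀ 𝔮 : HeightOneSpectrum (𝓞 F), 𝔮 ≠ 𝔭 → (N : 𝓞 F) ∉ 𝔮.asIdeal → π ∉ 𝔮.asIdeal)
    (a : Qbˣ) (haL : (a : Qb) ∈ L)
    (hinv : ∀ h ∈ F.fixingSubgroup, K.IsSUnit T (h • a / a))
    (𝔭 : HeightOneSpectrum (𝓞 F)) :
    ∃ c : Fˣ, ∀ (A : ValuationSubring Qb) (q : ℕ) (hq : q.Prime), A.LiesOverPrime q →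
      (⟨q, hq⟩ : Nat.Primes) ∉ T →
        (H594.primeBelowF F A = 𝔭.asIdeal → a / toQb F c ∈ A.unitGroup) ∧
        (H594.primeBelowF F A ≠ 𝔭.asIdeal → toQb F c ∈ A.unitGroup) := by
  classical
  by_cases hex : ∃ (A : ValuationSubring Qb) (q : ℕ) (hq : q.Prime), A.LiesOverPrime q ∧
      (⟨q, hq⟩ : Nat.Primes) ∉ T ∧ H594.primeBelowF F A = 𝔭.asIdeal
  swap
  · refine ⟨1, fun A q hq hA hqT => ⟨fun h => ?_, fun _ => ?_⟩⟩
    · exact absurd ⟨A, q, hq, hA, hqT, h⟩ hex
    · rw [map_one]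
      exact one_mem _
  obtain ⟨A₀, q, hq, hA₀, hqT, hPA₀⟩ := hex
  have hN𝔭 : (N : 𝓞 F) ∉ 𝔭.asIdeal := by
    rw [← hPA₀]
    exact natCast_notMem_primeBelowF T N hNT A₀ hq hA₀ hqT
  obtain ⟨π, hπ1, hπ2, hπ3⟩ := hgen 𝔭 hN𝔭
  have hIF : A₀.inertiaSubgroupIn ℚ ≤ F.fixingSubgroup := hF.2 ⟨q, hq⟩ hqT A₀ hA₀
  have hIL : A₀.inertiaSubgroupIn ℚ ≤ L.fixingSubgroup := hL.2 ⟨q, hq⟩ hqT A₀ hA₀
  -- the exponent
  have hafix : ∀ σ ∈ A₀.inertiaSubgroupIn ℚ, σ (a : Qb) = (a : Qb) := fun σ hσ =>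
    (IntermediateField.mem_fixingSubgroup_iff L σ).1 (hIL hσ) _ haL
  obtain ⟨n, hn⟩ := Fermat.Agent.S56.H66.vg0 q hq A₀ hA₀ (a : Qb) a.ne_zero hafix
  have hunif : A₀.valuation (((π : F) : Qb)) = A₀.valuation (q : Qb) :=
    valuation_unif F A₀ hq hA₀ hIF π (by rw [hPA₀]; exact hπ1) (by rw [hPA₀]; exact hπ2)
  have hπ0 : (π : F) ≠ 0 := by
    intro h0
    apply hπ2
    have : π = 0 := by exact_mod_cast h0
    rw [this]
    exact Ideal.zero_mem _
  set πF : Fˣ := Units.mk0 (π : F) hπ0 with hπF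
  refine ⟨πF ^ n, fun A q' hq' hA hq'T => ⟨fun hPA => ?_, fun hPA => ?_⟩⟩
  · -- `A` is over `𝔭`
    have hAq : A.LiesOverPrime q := by
      have h1 : (q : 𝓞 F) ∈ H594.primeBelowF F A := by
        rw [hPA, ← hPA₀]
        exact H594.natCast_mem_primeBelowF F A₀ hA₀
      have := (H594.mem_primeBelowF F A _).1 h1
      rwa [map_natCast] at this
    -- units at `A₀`
    have h0 : a / toQb F (πF ^ n) ∈ A₀.unitGroup := by
      rw [ValuationSubring.mem_unitGroup_iff, Units.val_div_eq_div_val, map_div₀, map_zpow,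
        Units.val_zpow_eq_zpow_val, map_zpow₀, coe_toQb]
      have : ((πF : F) : Qb) = ((π : F) : Qb) := rfl
      rw [this, hunif, hn]
      have hqv0 : A₀.valuation (q : Qb) ≠ 0 :=
        (Valuation.ne_zero_iff _).2 (by exact_mod_cast hq.ne_zero)
      exact div_self (zpow_ne_zero _ hqv0)
    -- conjugacy
    have hrestr : ∀ x ∈ F, x ∈ A₀ ↔ x ∈ A := by
      intro x hx
      have e1 := mem_iff_valuation_le_one F A₀ hq hA₀ ⟨x, hx⟩
      have e2 := mem_iff_valuation_le_one F A hq hAq ⟨x, hx⟩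
      have e3 : placePrime F A₀ hq hA₀ = placePrime F A hq hAq :=
        HeightOneSpectrum.ext (by rw [placePrime_asIdeal, placePrime_asIdeal, hPA₀, hPA])
      rw [e3] at e1
      exact e1.trans e2.symm
    obtain ⟨τ, hτ, hτA⟩ := exists_smul_eq_of_restrict_eq F hq hA₀ hAq hrestr
    have h1 : τ • (a / toQb F (πF ^ n)) ∈ A.unitGroup := by
      rw [← hτA]
      exact smul_mem_unitGroup_smul A₀ τ h0
    rw [smul_div', smul_toQb F τ hτ] at h1
    have hout : K.OutsideS T A := outsideS_of_liesOver T A hq' hA hq'T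
    have h2 : τ • a / a ∈ A.unitGroup := (isSUnit_iff T _).1 (hinv τ hτ) A hout
    have h3 : a / toQb F (πF ^ n) = (τ • a / toQb F (πF ^ n)) / (τ • a / a) := by
      rw [div_div_div_cancel_left]
    rw [h3]
    exact div_mem h1 h2
  · -- `A` is over another prime
    have h𝔮 : placePrime F A hq' hA ≠ 𝔭 := by
      intro h
      apply hPA
      rw [← h, placePrime_asIdeal]
    have hN𝔮 : (N : 𝓞 F) ∉ (placePrime F A hq' hA).asIdeal :=
      natCast_notMem_primeBelowF T N hNT A hq' hA hq'T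
    have hπ𝔮 : π ∉ H594.primeBelowF F A := hπ3 _ h𝔮 hN𝔮
    have hv : A.valuation (algebraMap (𝓞 F) Qb π) = 1 :=
      valuation_eq_one_of_notMem_primeBelowF F A π hπ𝔮
    have hmem : toQb F πF ∈ A.unitGroup := by
      rw [ValuationSubring.mem_unitGroup_iff]
      exact hv
    rw [map_zpow]
    exact zpow_mem hmem n

/-- **Descent.**  If `a ∈ Lˣ` has `G_F`-invariant divisor outside `T`, then `a = b · (T-unit)`
with `b ∈ Fˣ`. -/
theorem exists_descent (T : Finset Nat.Primes) (L : IntermediateField ℚ Qb)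
    (hF : F.IsUnramifiedOutside T) (hL : L.IsUnramifiedOutside T)
    (N : ℕ) (hNT : ∀ q : Nat.Primes, (q : ℕ) ∣ N → q ∈ T)
    (hgen : ∀ 𝔭 : HeightOneSpectrum (𝓞 F), (N : 𝓞 F) ∉ 𝔭.asIdeal →
      ∃ π : 𝓞 F, π ∈ 𝔭.asIdeal ∧ π ∉ 𝔭.asIdeal ^ 2 ∧
        ∀ 𝔮 : HeightOneSpectrum (𝓞 F), 𝔮 ≠ 𝔭 → (N : 𝓞 F) ∉ 𝔮.asIdeal → π ∉ 𝔮.asIdeal)
    (a : Qbˣ) (haL : (a : Qb) ∈ L)
    (hinv : ∀ h ∈ F.fixingSubgroup, K.IsSUnit T (h • a / a)) :
    ∃ b : Fˣ, K.IsSUnit T (a / toQb F b) := by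
  classical
  obtain ⟨M, hM, hMunit⟩ := exists_unit_away a
  choose c hc using exists_local_generator F T L hF hL N hNT hgen a haL hinv
  have hM0 : Ideal.span {(M : 𝓞 F)} ≠ 0 := by
    rw [Ideal.zero_eq_bot, Ne, Ideal.span_singleton_eq_bot]
    exact_mod_cast hM
  have hfin : {v : HeightOneSpectrum (𝓞 F) | v.asIdeal ∣ Ideal.span {(M : 𝓞 F)}}.Finite :=
    Ideal.finite_factors hM0
  refine ⟨∏ 𝔭 ∈ hfin.toFinset, c 𝔭, ?_⟩
  rw [isSUnit_iff]
  intro A hA
  by_cases hprime : ∃ q : ℕ, q.Prime ∧ A.LiesOverPrime q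
  · obtain ⟨q, hq, hAq⟩ := hprime
    have hqT : (⟨q, hq⟩ : Nat.Primes) ∉ T := fun h => hA ⟨q, hq⟩ h hAq
    have hother : ∀ 𝔭 : HeightOneSpectrum (𝓞 F), 𝔭 ≠ placePrime F A hq hAq →
        toQb F (c 𝔭) ∈ A.unitGroup := by
      intro 𝔭 hne
      refine ((hc 𝔭) A q hq hAq hqT).2 (fun h => hne ?_)
      exact HeightOneSpectrum.ext (by rw [placePrime_asIdeal, h])
    by_cases hB : placePrime F A hq hAq ∈ hfin.toFinset
    · rw [map_prod, ← Finset.mul_prod_erase _ _ hB, ← div_div]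
      apply div_mem
      · exact ((hc (placePrime F A hq hAq)) A q hq hAq hqT).1 rfl
      · apply prod_mem
        intro 𝔭 h𝔭
        exact hother 𝔭 (Finset.ne_of_mem_erase h𝔭)
    · have hMA : ¬ q ∣ M := by
        intro hd
        apply hB
        rw [Set.Finite.mem_toFinset]
        show (placePrime F A hq hAq).asIdeal ∣ Ideal.span {(M : 𝓞 F)}
        rw [Ideal.dvd_span_singleton]
        obtain ⟨k, rfl⟩ := hd
        rw [Nat.cast_mul]
        exact Ideal.mul_mem_right _ _ (H594.natCast_mem_primeBelowF F A hAq)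
      have ha : a ∈ A.unitGroup := (mem_unitGroup_iff_mem A a).2 (hMunit A q hq hAq hMA)
      apply div_mem ha
      rw [map_prod]
      apply prod_mem
      intro 𝔭 h𝔭
      exact hother 𝔭 (fun h => hB (h ▸ h𝔭))
  · push Not at hprime
    rw [mem_unitGroup_iff_mem]
    exact ⟨mem_of_no_prime A (fun q hq => hprime q hq) _,
      mem_of_no_prime A (fun q hq => hprime q hq) _⟩

end Descent

end Fermat.Agent.S56.Euler.H74

end
-- ===== PACK-END S56/Euler/H74/ValDescent.lean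

-- ===== PACK-BEGIN S56/FL/CntBridgeRam.lean
section


/-!
# Row S56 — W-FLAT-SS, piece RAMCOUNT: the bridge to the abstract count, ramification fields
(helper426).  Sorry-free, Mathlib only.

The fields `F_normal, mem_F, F_zero, F_one, F_one', comm_rule, quot_formula, wild_pgroup,
frob_comm, tame_no_p, D_bound` of `H846.FLCnt.Hyp` for the data `RCDatum.cntData`, from the frozen
ramification statements `RL*`.
-/

set_option autoImplicit false

open IsLocalRing

noncomputable section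

namespace Fermat.Agent.S56.FL

namespace RCDatum

variable (d : RCDatum)

/-! ### `iQ` and membership -/

lemma iQ_bot (σ : d.Γ) : d.iQ ⊥ σ = Nat.card {n : ℕ | σ ∈ ramGroup d.B d.Γ n} := by
  unfold iQ
  have : {n : ℕ | σ ∈ d.qRam ⊥ n} = {n : ℕ | σ ∈ ramGroup d.B d.Γ n} := by
    ext n
    show σ ∈ d.qRam ⊥ n ↔ σ ∈ ramGroup d.B d.Γ n
    rw [d.qRam_bot n, SetLike.mem_coe]
  rw [this]

/-- A downward closed set of natural numbers omitting some number is an initial segment. -/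
lemma bridge_card_downset (S : Set ℕ) (hdown : ∀ n n', n ≤ n' → n' ∈ S → n ∈ S)
    (hex : ∃ n, n ∉ S) : ∀ n, n ∈ S ↔ n + 1 ≤ Nat.card S := by
  classical
  have hS : S = Set.Iio (Nat.find hex) := by
    ext n
    constructor
    · intro hn
      by_contra hlt
      exact Nat.find_spec hex (hdown _ _ (not_lt.mp hlt) hn)
    · intro hn
      by_contra hnS
      exact Nat.find_min hex hn hnS
  intro n
  have hcard : Nat.card S = Nat.find hex := by
    conv_lhs => rw [hS]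
    rw [Nat.card_eq_fintype_card]
    simp
  rw [hcard]
  conv_lhs => rw [hS]
  exact Iff.rfl

lemma mem_qRam_iff (hQ : RLQuotStatement) {N : Subgroup d.Γ} (hN : d.IsWildNormal N) (n : ℕ)
    (σ : d.Γ) : σ ∈ d.qRam N n ↔ σ ∈ N ∨ n + 1 ≤ d.iQ N σ := by
  by_cases hσ : σ ∈ N
  · simp only [hσ, true_or, iff_true]
    exact d.mem_qRam_of_mem N n hσ
  · simp only [hσ, false_or]
    obtain ⟨-, -, -, -, hsep, -⟩ := hQ d N hN
    exact bridge_card_downset {n : ℕ | σ ∈ d.qRam N n}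
      (fun n n' h hn' => d.qRam_anti N h hn') (hsep σ hσ) n

lemma qRamSub_normal (hQ : RLQuotStatement) {N : Subgroup d.Γ} (hN : d.IsWildNormal N) (n : ℕ) :
    (d.qRamSub N n).Normal := by
  obtain ⟨h1, -⟩ := hQ d N hN
  obtain ⟨F, hF, hFc⟩ := h1 n
  have : d.qRamSub N n = F := SetLike.coe_injective (by rw [hFc, coe_qRamSub])
  rw [this]
  exact hF

lemma isWildNormal_bot : d.IsWildNormal ⊥ := ⟨inferInstance, bot_le⟩

lemma ramGroup_normal (hQ : RLQuotStatement) (n : ℕ) : (ramGroup d.B d.Γ n).Normal := by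
  rw [← d.qRamSub_bot n]
  exact d.qRamSub_normal hQ d.isWildNormal_bot n

/-- The ramification filtration is eventually trivial. -/
lemma exists_ramGroup_eq_bot (hQ : RLQuotStatement) :
    ∃ n₀, ∀ n, n₀ ≤ n → ramGroup d.B d.Γ n = ⊥ := by
  classical
  obtain ⟨-, -, -, -, hsep, -⟩ := hQ d ⊥ d.isWildNormal_bot
  have hsep' : ∀ σ : d.Γ, σ ≠ 1 → ∃ n, σ ∉ ramGroup d.B d.Γ n := by
    intro σ hσ
    obtain ⟨n, hn⟩ := hsep σ (by simpa using hσ)
    exact ⟨n, fun h => hn (by rw [d.qRam_bot n]; exact h)⟩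
  choose! f hf using hsep'
  letI := Fintype.ofFinite d.Γ
  refine ⟨Finset.univ.sup f, fun n hn => ?_⟩
  rw [eq_bot_iff]
  intro σ hσ
  rw [Subgroup.mem_bot]
  by_contra h1
  exact hf σ h1 (d.ramGroup_anti ((Finset.le_sup (Finset.mem_univ σ)).trans hn) hσ)

/-! ### Double counting for Hilbert's formula -/

open Classical in
lemma card_ramGroup_sub_one [Fintype d.Γ] (n : ℕ) :
    Nat.card (ramGroup d.B d.Γ n) - 1 =
      ∑ σ : d.Γ, if σ ≠ 1 ∧ σ ∈ ramGroup d.B d.Γ n then 1 else 0 := by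
  rw [Finset.sum_boole]
  have h1 : (Finset.univ.filter fun σ : d.Γ => σ ≠ 1 ∧ σ ∈ ramGroup d.B d.Γ n) =
      (Finset.univ.filter fun σ : d.Γ => σ ∈ ramGroup d.B d.Γ n).erase 1 := by
    ext σ
    simp
  rw [h1, Finset.card_erase_of_mem (by simp [one_mem])]
  congr 1
  rw [Nat.card_eq_fintype_card, Fintype.card_subtype]

open Classical in
lemma iQ_bot_eq_sum (n₀ : ℕ)
    (hn₀ : ∀ n, n₀ ≤ n → ramGroup d.B d.Γ n = ⊥) {σ : d.Γ} (hσ : σ ≠ 1) :
    d.iQ ⊥ σ = ∑ n ∈ Finset.range n₀, if σ ∈ ramGroup d.B d.Γ n then 1 else 0 := by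
  rw [d.iQ_bot, Finset.sum_boole]
  have h1 : {n : ℕ | σ ∈ ramGroup d.B d.Γ n} =
      ((Finset.range n₀).filter fun n => σ ∈ ramGroup d.B d.Γ n : Finset ℕ) := by
    ext n
    simp only [Finset.coe_filter, Finset.mem_range, Set.mem_setOf_eq]
    constructor
    · intro h
      refine ⟨?_, h⟩
      by_contra hlt
      rw [hn₀ n (not_lt.mp hlt), Subgroup.mem_bot] at h
      exact hσ h
    · exact fun h => h.2
  rw [h1, Nat.card_eq_fintype_card]
  simp

open Classical in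
lemma sum_card_ramGroup (hQ : RLQuotStatement) :
    ∑ᶠ n : ℕ, (Nat.card (ramGroup d.B d.Γ n) - 1) =
      ∑ᶠ (σ : d.Γ) (_ : σ ∈ ramGroup d.B d.Γ 0) (_ : σ ≠ 1), d.iQ ⊥ σ := by
  letI := Fintype.ofFinite d.Γ
  obtain ⟨n₀, hn₀⟩ := d.exists_ramGroup_eq_bot hQ
  have hL : ∑ᶠ n : ℕ, (Nat.card (ramGroup d.B d.Γ n) - 1) =
      ∑ n ∈ Finset.range n₀, (Nat.card (ramGroup d.B d.Γ n) - 1) := by
    apply finsum_eq_sum_of_support_subset
    intro n hn
    rw [Function.mem_support] at hn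
    rw [Finset.coe_range, Set.mem_Iio]
    by_contra hlt
    apply hn
    rw [hn₀ n (not_lt.mp hlt), Subgroup.card_bot, Nat.sub_self]
  have hR : ∑ᶠ (σ : d.Γ) (_ : σ ∈ ramGroup d.B d.Γ 0) (_ : σ ≠ 1), d.iQ ⊥ σ =
      ∑ σ : d.Γ, ∑ n ∈ Finset.range n₀, if σ ≠ 1 ∧ σ ∈ ramGroup d.B d.Γ n then 1 else 0 := by
    rw [finsum_eq_sum_of_fintype]
    apply Finset.sum_congr rfl
    intro σ _
    rw [finsum_eq_if, finsum_eq_if]
    by_cases h1 : σ = 1
    · simp [h1]
    · simp only [ne_eq, h1, not_false_eq_true, if_true, true_and]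
      by_cases h0 : σ ∈ ramGroup d.B d.Γ 0
      · rw [if_pos h0]
        exact d.iQ_bot_eq_sum n₀ hn₀ h1
      · rw [if_neg h0]
        symm
        apply Finset.sum_eq_zero
        intro n _
        rw [if_neg]
        exact fun h => h0 (d.ramGroup_anti (Nat.zero_le n) h)
  rw [hL, hR, Finset.sum_comm]
  apply Finset.sum_congr rfl
  intro n _
  exact d.card_ramGroup_sub_one n

/-! ### The different bound -/

lemma maximalIdeal_pow_le_iff (a b : ℕ) :
    maximalIdeal d.B ^ a ≤ maximalIdeal d.B ^ b ↔ b ≤ a := by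
  have hanti := Ideal.pow_right_strictAnti (maximalIdeal d.B)
    (IsDiscreteValuationRing.not_a_field d.B) (Ideal.IsPrime.ne_top inferInstance)
  exact hanti.le_iff_ge

lemma three_le_p : 3 ≤ d.p := by
  have h2 := d.hp.two_le
  have := d.hp2
  omega

lemma bridge_D_bound (hQ : RLQuotStatement) (hH : RLHilbertStatement) (M : ℕ)
    (hcard : Nat.card (ramGroup d.B d.Γ 0) = (d.p - 1) * M) (hpM : d.p ∣ M) :
    (d.p - 1) * ∑ᶠ (σ : d.Γ) (_ : σ ∈ ramGroup d.B d.Γ 0) (_ : σ ≠ 1), d.iQ ⊥ σ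
      ≤ d.p * Nat.card (ramGroup d.B d.Γ 0) := by
  obtain ⟨he', hdiff⟩ := hH d
  have hp3 := d.three_le_p
  have hpos : 0 < Nat.card (ramGroup d.B d.Γ 0) := Nat.card_pos
  have hM : 0 < M := by
    rcases Nat.eq_zero_or_pos M with h | h
    · rw [h, mul_zero] at hcard; omega
    · exact h
  have hMp : d.p ≤ M := Nat.le_of_dvd hM hpM
  have he : d.e = (d.p - 1) * M := he'.trans hcard
  have hj1 : ¬ d.p ∣ M + 1 := by
    intro h
    have : d.p ∣ 1 := (Nat.dvd_add_right hpM).mp h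
    have := Nat.le_of_dvd one_pos this
    omega
  have h2M : 2 * M ≤ (d.p - 1) * M := Nat.mul_le_mul_right M (by omega)
  have hj2 : M + 1 < d.e := by rw [he]; omega
  have hj3 : d.e < (M + 1) * (d.p - 1) := by
    rw [he, add_mul, one_mul, mul_comm]; omega
  have hdvd := d.hD (M + 1) hj1 hj2 hj3
  rw [d.he, Nat.add_sub_cancel, ← pow_add, hdiff, Ideal.dvd_iff_le,
    d.maximalIdeal_pow_le_iff] at hdvd
  rw [← d.sum_card_ramGroup hQ, hcard]
  calc (d.p - 1) * ∑ᶠ n : ℕ, (Nat.card (ramGroup d.B d.Γ n) - 1)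
      ≤ (d.p - 1) * (d.e + M) := Nat.mul_le_mul_left _ hdvd
    _ = d.p * ((d.p - 1) * M) := by
        rw [he]
        obtain ⟨q, hq⟩ : ∃ q, d.p = q + 1 := ⟨d.p - 1, by omega⟩
        rw [hq, Nat.add_sub_cancel]
        ring

/-! ### The residue characteristic and tame inertia -/

lemma natCast_p_mem (hH : RLHilbertStatement) : (d.p : d.B) ∈ maximalIdeal d.B := by
  obtain ⟨he', -⟩ := hH d
  have hpos : 0 < Nat.card (ramGroup d.B d.Γ 0) := Nat.card_pos
  have h1 : (d.p : d.B) ∈ Ideal.span {(d.p : d.B)} := Ideal.mem_span_singleton_self _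
  rw [d.he] at h1
  exact Ideal.pow_le_self (by omega) h1

lemma charP_residue (hH : RLHilbertStatement) : CharP (ResidueField d.B) d.p := by
  rw [CharP.charP_iff_prime_eq_zero d.hp]
  have h1 : residue d.B (d.p : d.B) = 0 := (residue_eq_zero_iff _).mpr (d.natCast_p_mem hH)
  rwa [map_natCast] at h1

lemma pow_p_eq_one (hH : RLHilbertStatement) {x : ResidueField d.B} (hx : x ^ d.p = 1) :
    x = 1 := by
  haveI := d.charP_residue hH
  haveI : Fact d.p.Prime := ⟨d.hp⟩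
  have h1 : (x - 1) ^ d.p = 0 := by
    rw [sub_pow_char, hx, one_pow, sub_self]
  exact sub_eq_zero.mp (pow_eq_zero_iff (d.hp.ne_zero) |>.mp h1)

lemma bridge_tame_no_p (hQ : RLQuotStatement) (hH : RLHilbertStatement) {τ₀ φ : d.Γ}
    {μ : ResidueField d.B} (hT : d.TameData τ₀ φ μ) :
    ∀ σ ∈ ramGroup d.B d.Γ 0, σ ^ d.p ∈ ramGroup d.B d.Γ 1 → σ ∈ ramGroup d.B d.Γ 1 := by
  intro σ hσ hσp
  obtain ⟨-, hgen, hμ, -⟩ := hT
  obtain ⟨j, hj⟩ := hgen σ hσ
  haveI := d.ramGroup_normal hQ 1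
  have hq : (QuotientGroup.mk σ : d.Γ ⧸ ramGroup d.B d.Γ 1) = QuotientGroup.mk (τ₀ ^ j) := by
    rw [QuotientGroup.eq]
    have h2 : σ⁻¹ * (σ * (τ₀ ^ j)⁻¹)⁻¹ * σ⁻¹⁻¹ ∈ ramGroup d.B d.Γ 1 :=
      Subgroup.Normal.conj_mem inferInstance _ (inv_mem hj) σ⁻¹
    have h3 : σ⁻¹ * (σ * (τ₀ ^ j)⁻¹)⁻¹ * σ⁻¹⁻¹ = σ⁻¹ * τ₀ ^ j := by group
    rwa [h3] at h2
  have h4 : (QuotientGroup.mk (τ₀ ^ (j * d.p)) : d.Γ ⧸ ramGroup d.B d.Γ 1) = 1 := by
    rw [pow_mul, QuotientGroup.mk_pow, ← hq, ← QuotientGroup.mk_pow]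
    exact (QuotientGroup.eq_one_iff _).mpr hσp
  have h5 : τ₀ ^ (j * d.p) ∈ ramGroup d.B d.Γ 1 := (QuotientGroup.eq_one_iff _).mp h4
  have h6 : μ ^ j = 1 := by
    apply d.pow_p_eq_one hH
    rw [← pow_mul]
    exact (hμ _).mp h5
  have h7 : τ₀ ^ j ∈ ramGroup d.B d.Γ 1 := (hμ j).mpr h6
  have : σ = (σ * (τ₀ ^ j)⁻¹) * τ₀ ^ j := by group
  rw [this]
  exact mul_mem hj h7

end RCDatum

end Fermat.Agent.S56.FL

end

end
-- ===== PACK-END S56/FL/CntBridgeRam.lean

-- ===== PACK-BEGIN S56/RQ/Spec.lean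
section


/-!
# Row S56 — REC-Q (reciprocity over the Taylor–Wiles primes): FROZEN leaf statements
(sub-architect helper554)

`REC-Q  ⇐  RECIP + FRAME + LINE + NONDEG + URCUP + LOCTRIV + COBCUP + CONJ + GLOBZ`
(glue: `RQ/Glue.lean`), and `GLOBZ ⇐ INFL`, `URCUP, LOCTRIV ⇐ GEN` (inside the leaves).

`M = ad⁰ρ̄`, `M' = M(1)`; `q` a Taylor–Wiles prime, `P | q`, `D_P ⊇ I_P`, `φ` a Frobenius at `P`.
Everything is plain-function language; ONLY the leaf `RECIP` touches the S55/PT vocabulary.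

## Arithmetic input

* `PlainRecipStatement` (RECIP): the reciprocity package `PlainRecip k p Sg` for every finite
  field `k` of characteristic `p ≠ 2` and every finite set of primes `Sg ∋ p`.
  (From `S55.PT.InvSpec p Sg`: `inv v z := Σ_i e_i · inv_v [ℓ_i ∘ z ∘ (rl v × rl v)]` for an
  `F_p`-basis `e_i` of `k` with dual basis `ℓ_i`, extended linearly to all 2-cochains;
  `range (rl v) = D_{padicPlace v}` (`S55/Bridge/DecompLift`); injectivity at `v ≡ 1 mod p` is
  `TopLocIndSpec` for `W = ⊤`.)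

## Elementary leaves (Mathlib + Prelude + landed bridge lemmas)

* `GenStatement` (GEN): modulo any finite level, `D_P` is generated by `φ` and `I_P`.
* `InflStatement` (INFL): a subgroup of `G_ℚ` containing some `G_L` (`L` finite) and all inertia
  groups outside `Sg` contains `G_F` for a finite `F` unramified outside `Sg`.
* `FrameStatement` (FRAME): a uniform generator of tame inertia: `τ ∈ I_P` such that every
  ad-cocycle vanishing at `τ` vanishes on `I_P`.
* `LineStatement` (LINE): linear algebra of the regular semisimple `ρ̄(φ)`: the line `k·h`.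
* `NondegStatement` (NONDEG): `c ∪ y` a coboundary on `D_P`, `y` unramified ⇒ `tr (c τ · y φ) = 0`.
* `UrCupStatement` (URCUP): unramified ∪ unramified is a coboundary on `D_P`.
* `LocTrivTwStatement` (LOCTRIV): an unramified twisted cocycle with `y φ = φ m φ⁻¹ − m` is the
  coboundary of `m` on `D_P`.
* `CobCupStatement` (COBCUP): (coboundary) ∪ y and c ∪ (coboundary) are coboundaries.
* `ConjStatement` (CONJ): independence of the place: unramified at one `P | q` ⇒ `UnramAt`;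
  coboundary on `D_P` ⇒ coboundary on `D_{P'}`.
* `GlobZStatement` (GLOBZ): `c ∪ y` is a global 2-cocycle, level-constant for a level unramified
  outside `Smin ∪ Q`.

Nothing unproved in this file.  Plan: `coord/S56-RECQ.md` on `origin/main`.
-/

set_option autoImplicit false

open Polynomial IsLocalRing

noncomputable section

namespace Fermat.Agent.S56.RQ

open Fermat.Agent.S56 Fermat.Agent.S56.H716

/-- (RECIP): the plain reciprocity package, for every finite field of characteristic `p ≠ 2` and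
every finite set of primes containing `p`. -/
def PlainRecipStatement : Prop :=
  ∀ (k : Type) [Field k] [Finite k] (p : ℕ) [CharP k p], p.Prime → p ≠ 2 →
    ∀ Sg : Finset ℕ, p ∈ Sg → (∀ v ∈ Sg, v.Prime) → PlainRecip k p Sg

/-- (GEN): modulo any finite level, the decomposition group is generated by a Frobenius element
and the inertia group. -/
def GenStatement : Prop :=
  ∀ (q : ℕ) (P : ValuationSubring Qb) (φ : GQ), q.Prime → P.LiesOverPrime q →
    P.IsFrobeniusAt φ q →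
    ∀ L : IntermediateField ℚ Qb, FiniteDimensional ℚ L →
      ∀ σ ∈ P.decompositionSubgroup ℚ, ∃ n : ℕ, ∃ τ ∈ P.inertiaSubgroupIn ℚ,
        ∀ x ∈ L, σ x = (φ ^ n * τ) x

/-- (INFL): a subgroup containing an open subgroup and all inertia groups outside `Sg` contains
`G_F` for a finite extension `F` unramified outside `Sg`. -/
def InflStatement : Prop :=
  ∀ (Sg : Finset ℕ) (N : Subgroup GQ),
    (∃ L : IntermediateField ℚ Qb, FiniteDimensional ℚ L ∧
      ∀ s : GQ, (∀ x ∈ L, s x = x) → s ∈ N) →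
    (∀ q : ℕ, q.Prime → q ∉ Sg → ∀ P : ValuationSubring Qb, P.LiesOverPrime q →
      P.inertiaSubgroupIn ℚ ≤ N) →
    ∃ F : IntermediateField ℚ Qb, FiniteDimensional ℚ F ∧
      (∀ q : ℕ, q.Prime → q ∉ Sg → ∀ P : ValuationSubring Qb, P.LiesOverPrime q →
        ∀ s ∈ P.inertiaSubgroupIn ℚ, ∀ x ∈ F, s x = x) ∧
      ∀ s : GQ, (∀ x ∈ F, s x = x) → s ∈ N

/-- (FRAME): at a Taylor–Wiles prime there is `τ ∈ I_P` such that every ad-cocycle vanishing at
`τ` vanishes on `I_P`. -/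
def FrameStatement : Prop :=
  ∀ (𝒪 : Type) [CommRing 𝒪] [IsDomain 𝒪] [IsDiscreteValuationRing 𝒪]
    [IsAdicComplete (maximalIdeal 𝒪) 𝒪] [Finite (ResidueField 𝒪)]
    (p : ℕ) (ρbar : ResidualGaloisRep (ResidueField 𝒪)) (S Smin : Finset ℕ),
    Hyp 𝒪 p ρbar S Smin → ∀ q : ℕ, IsTWPrime ρbar p S q →
    ∀ P : ValuationSubring Qb, P.LiesOverPrime q →
      ∃ τ ∈ P.inertiaSubgroupIn ℚ, ∀ c : GQ → Module.End (ResidueField 𝒪) ρbar.V,
        IsAdCocycle ρbar c → c τ = 0 → ∀ σ ∈ P.inertiaSubgroupIn ℚ, c σ = 0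

/-- (LINE): at a Taylor–Wiles prime, with `φ` a Frobenius element: there is a trace-zero `h`
commuting with `ρ̄ φ`, `tr h² ≠ 0`, such that the values of ad-cocycles on `I_P` lie on `k·h` and
the trace-zero `x` with `tr (h x) = 0` are of the form `φ m φ⁻¹ − m`, `tr m = 0`. -/
def LineStatement : Prop :=
  ∀ (𝒪 : Type) [CommRing 𝒪] [IsDomain 𝒪] [IsDiscreteValuationRing 𝒪]
    [IsAdicComplete (maximalIdeal 𝒪) 𝒪] [Finite (ResidueField 𝒪)]
    (p : ℕ) (ρbar : ResidualGaloisRep (ResidueField 𝒪)) (S Smin : Finset ℕ),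
    Hyp 𝒪 p ρbar S Smin → ∀ q : ℕ, IsTWPrime ρbar p S q →
    ∀ P : ValuationSubring Qb, P.LiesOverPrime q → ∀ φ : GQ, P.IsFrobeniusAt φ q →
      ∃ h : Module.End (ResidueField 𝒪) ρbar.V,
        LinearMap.trace (ResidueField 𝒪) ρbar.V h = 0 ∧
        LinearMap.trace (ResidueField 𝒪) ρbar.V (h * h) ≠ 0 ∧
        ρbar.ρ φ * h = h * ρbar.ρ φ ∧
        (∀ c : GQ → Module.End (ResidueField 𝒪) ρbar.V, IsAdCocycle ρbar c →
          ∀ τ ∈ P.inertiaSubgroupIn ℚ, ∃ a : ResidueField 𝒪, c τ = a • h) ∧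
        (∀ x : Module.End (ResidueField 𝒪) ρbar.V,
          LinearMap.trace (ResidueField 𝒪) ρbar.V x = 0 →
          LinearMap.trace (ResidueField 𝒪) ρbar.V (h * x) = 0 →
          ∃ m : Module.End (ResidueField 𝒪) ρbar.V,
            LinearMap.trace (ResidueField 𝒪) ρbar.V m = 0 ∧
              x = ρbar.ρ φ * m * ρbar.ρ φ⁻¹ - m)

/-- (NONDEG): if the cup product of an ad-cocycle `c` and a twisted cocycle `y` unramified at `P`
is a coboundary on `D_P`, then `tr (c τ · y φ) = 0` for `τ ∈ I_P`, `φ` a Frobenius at `P`. -/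
def NondegStatement : Prop :=
  ∀ (𝒪 : Type) [CommRing 𝒪] [IsDomain 𝒪] [IsDiscreteValuationRing 𝒪]
    [IsAdicComplete (maximalIdeal 𝒪) 𝒪] [Finite (ResidueField 𝒪)]
    (p : ℕ) (ρbar : ResidualGaloisRep (ResidueField 𝒪)) (S Smin : Finset ℕ),
    Hyp 𝒪 p ρbar S Smin → ∀ q : ℕ, IsTWPrime ρbar p S q →
    ∀ P : ValuationSubring Qb, P.LiesOverPrime q → ∀ φ : GQ, P.IsFrobeniusAt φ q →
    ∀ τ ∈ P.inertiaSubgroupIn ℚ,
    ∀ c y : GQ → Module.End (ResidueField 𝒪) ρbar.V, IsAdCocycle ρbar c →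
      IsTwCocycle ρbar p y → (∀ σ ∈ P.inertiaSubgroupIn ℚ, y σ = 0) →
      IsCob₂On p (P.decompositionSubgroup ℚ) (cup ρbar c y) →
      LinearMap.trace (ResidueField 𝒪) ρbar.V (c τ * y φ) = 0

/-- (URCUP): at a Taylor–Wiles prime, the cup product of two cocycles unramified at `P` is a
coboundary on `D_P`. -/
def UrCupStatement : Prop :=
  ∀ (𝒪 : Type) [CommRing 𝒪] [IsDomain 𝒪] [IsDiscreteValuationRing 𝒪]
    [IsAdicComplete (maximalIdeal 𝒪) 𝒪] [Finite (ResidueField 𝒪)]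
    (p : ℕ) (ρbar : ResidualGaloisRep (ResidueField 𝒪)) (S Smin : Finset ℕ),
    Hyp 𝒪 p ρbar S Smin → ∀ q : ℕ, IsTWPrime ρbar p S q →
    ∀ P : ValuationSubring Qb, P.LiesOverPrime q →
    ∀ c y : GQ → Module.End (ResidueField 𝒪) ρbar.V, IsAdCocycle ρbar c →
      IsTwCocycle ρbar p y → (∀ σ ∈ P.inertiaSubgroupIn ℚ, c σ = 0) →
      (∀ σ ∈ P.inertiaSubgroupIn ℚ, y σ = 0) →
      IsCob₂On p (P.decompositionSubgroup ℚ) (cup ρbar c y)

/-- (LOCTRIV): at a Taylor–Wiles prime, a twisted cocycle unramified at `P` whose value at a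
Frobenius element `φ` is `φ m φ⁻¹ − m` is the coboundary of `m` on `D_P`. -/
def LocTrivTwStatement : Prop :=
  ∀ (𝒪 : Type) [CommRing 𝒪] [IsDomain 𝒪] [IsDiscreteValuationRing 𝒪]
    [IsAdicComplete (maximalIdeal 𝒪) 𝒪] [Finite (ResidueField 𝒪)]
    (p : ℕ) (ρbar : ResidualGaloisRep (ResidueField 𝒪)) (S Smin : Finset ℕ),
    Hyp 𝒪 p ρbar S Smin → ∀ q : ℕ, IsTWPrime ρbar p S q →
    ∀ P : ValuationSubring Qb, P.LiesOverPrime q → ∀ φ : GQ, P.IsFrobeniusAt φ q →
    ∀ y : GQ → Module.End (ResidueField 𝒪) ρbar.V, IsTwCocycle ρbar p y →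
      (∀ σ ∈ P.inertiaSubgroupIn ℚ, y σ = 0) →
      ∀ m : Module.End (ResidueField 𝒪) ρbar.V,
        LinearMap.trace (ResidueField 𝒪) ρbar.V m = 0 →
        y φ = ρbar.ρ φ * m * ρbar.ρ φ⁻¹ - m →
        IsTwCoboundaryOn ρbar p (P.decompositionSubgroup ℚ) y m

/-- (COBCUP): the cup product with a coboundary (on a subgroup `H`) is a coboundary on `H`. -/
def CobCupStatement : Prop :=
  ∀ (k : Type) [Field k] (p : ℕ) [CharP k p], p.Prime →
    ∀ (ρbar : ResidualGaloisRep k) (H : Subgroup GQ)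
      (c y : GQ → Module.End k ρbar.V), IsAdCocycle ρbar c → IsTwCocycle ρbar p y →
      (IsAdCoboundaryOn ρbar H c → IsCob₂On p H (cup ρbar c y)) ∧
      ((∃ m, IsTwCoboundaryOn ρbar p H y m) → IsCob₂On p H (cup ρbar c y))

/-- (CONJ): independence of the place.  (a) if `ρ̄` is unramified at `q`, an ad-cocycle vanishing
on one inertia group over `q` is unramified at `q`; (b) an ad-cocycle which is a coboundary on one
decomposition group over `v` is a coboundary on every decomposition group over `v`. -/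
def ConjStatement : Prop :=
  ∀ (k : Type) [Field k] (ρbar : ResidualGaloisRep k) (v : ℕ), v.Prime →
    ∀ P P' : ValuationSubring Qb, P.LiesOverPrime v → P'.LiesOverPrime v →
    ∀ c : GQ → Module.End k ρbar.V, IsAdCocycle ρbar c →
      (ρbar.IsUnramifiedAt v → (∀ σ ∈ P.inertiaSubgroupIn ℚ, c σ = 0) →
        ∀ σ ∈ P'.inertiaSubgroupIn ℚ, c σ = 0) ∧
      (IsAdCoboundaryOn ρbar (P.decompositionSubgroup ℚ) c →
        IsAdCoboundaryOn ρbar (P'.decompositionSubgroup ℚ) c)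

/-- (GLOBZ): the cup product of a strict Selmer cocycle of `Q` and a twisted cocycle unramified
outside `Smin` is a global 2-cocycle of `k(1)`, level-constant for a finite level unramified
outside `Smin ∪ Q`. -/
def GlobZStatement : Prop :=
  ∀ (𝒪 : Type) [CommRing 𝒪] [IsDomain 𝒪] [IsDiscreteValuationRing 𝒪]
    [IsAdicComplete (maximalIdeal 𝒪) 𝒪] [Finite (ResidueField 𝒪)]
    (p : ℕ) (ρbar : ResidualGaloisRep (ResidueField 𝒪)) (S Smin : Finset ℕ),
    Hyp 𝒪 p ρbar S Smin → ∀ Q : Finset ℕ, (∀ q ∈ Q, IsTWPrime ρbar p S q) →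
    ∀ c y : GQ → Module.End (ResidueField 𝒪) ρbar.V, IsAdCocycle ρbar c →
      (∀ q : ℕ, q.Prime → q ∉ Smin ∪ Q → UnramAt ρbar c q) →
      IsTwCocycle ρbar p y → (∀ q : ℕ, q.Prime → q ∉ Smin → UnramAt ρbar y q) →
      IsGlobZ p (Smin ∪ Q) (cup ρbar c y)

end Fermat.Agent.S56.RQ

end

end
-- ===== PACK-END S56/RQ/Spec.lean

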