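import Fermat.Agent.Pack.S43GC.G0E15L2
import Fermat.Agent.Pack.S43GC.G0E14L0
import Fermat.Agent.Pack.S43GC.G0E16L1
import Fermat.Agent.Pack.S43GC.G0E8L0
import Fermat.Agent.Pack.S43GC.G0E16L3
import Fermat.Agent.Pack.S43GC.G0E6L0
import Fermat.Agent.Pack.S43GC.G0E5L2
import Fermat.Agent.Pack.S43GC.G0E8L1
import Fermat.Agent.Pack.S43GC.G0E1L3
import Fermat.Agent.Pack.S43GC.G0E11L3
import Fermat.Agent.Pack.S43GC.G0E7L3
import Fermat.Agent.Pack.S43GC.G0E8L3
import Fermat.Agent.Pack.S43GC.G0E14L3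
import Fermat.Agent.Pack.S43GC.G0E15L3
import Fermat.Agent.Pack.S43GC.G0E16L0
import Fermat.Agent.Pack.S43GC.G0E16L2
import Fermat.Agent.Pack.S43GC.G0E14L2
import Fermat.Agent.Pack.S43GC.G0E7L0
import Fermat.Agent.Pack.S44C.G0E18L0
import Fermat.Agent.Pack.S43GC.G0E9L3
import Fermat.Agent.Pack.S43GC.G0E9L0
import Fermat.Agent.Pack.Fast891

-- ===== PACK-BEGIN S55/H295/TwinVanishing.lean
section


/-!
# `T4a`: the twin-vanishing criterion for cohomological triviality

`twinVanishing : T.TwinVanishingSpec`.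
-/

set_option autoImplicit false

open CategoryTheory groupCohomology Rep Limits

universe u

namespace Fermat.Agent.S55.H295

noncomputable section

/-- Universe-polymorphic form of the twin-vanishing criterion: if `H¹(H, A) = H²(H, A) = 0` for
all subgroups `H ≤ G` of the finite group `G`, then `Ĥⁿ(H, A) = 0` for all `n : ℤ` and all
`H ≤ G`. -/
theorem isZero_tate_of_twin {k G : Type u} [CommRing k] [Group G] [Finite G] (A : Rep.{u} k G)
    (h : ∀ H : Subgroup G, IsZero (groupCohomology (Rep.res H.subtype A) 1) ∧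
      IsZero (groupCohomology (Rep.res H.subtype A) 2))
    (H : Subgroup G) [Fintype H] (n : ℤ) :
    IsZero (tateCohomology (Rep.res H.subtype A) n) := by
  classical
  let _ : Fintype G := Fintype.ofFinite G
  apply isZero_tate_of_tateTwin_one A _ H n
  intro K _
  exact ⟨(isZero_tate_iff_group _ 1).2 (h K).1, (isZero_tate_iff_group _ 2).2 (h K).2⟩

/-- Group cohomology form: under twin vanishing, `Hⁿ(H, A) = 0` for all `n ≥ 1`, `H ≤ G`. -/
theorem isZero_groupCohomology_of_twin {k G : Type u} [CommRing k] [Group G] [Finite G]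
    (A : Rep.{u} k G)
    (h : ∀ H : Subgroup G, IsZero (groupCohomology (Rep.res H.subtype A) 1) ∧
      IsZero (groupCohomology (Rep.res H.subtype A) 2))
    (H : Subgroup G) (n : ℕ) :
    IsZero (groupCohomology (Rep.res H.subtype A) (n + 1)) := by
  classical
  let _ : Fintype H := Fintype.ofFinite H
  exact (isZero_tate_iff_group _ (n + 1)).1 (isZero_tate_of_twin A h H _)

/-- **T4a.** Twin vanishing implies cohomological triviality. -/
theorem twinVanishing : T.TwinVanishingSpec := by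
  intro k G _ _ _ A h H _ n
  exact isZero_tate_of_twin A h H n

end

end Fermat.Agent.S55.H295

end
-- ===== PACK-END S55/H295/TwinVanishing.lean

-- ===== PACK-BEGIN S55/E1/H354/Lim1.lean
section
/-
S55 engine E1 — block LIM, leaves LIM-SES and LIM1 (helper354).  NO sorry.

On the tower objects of `E1/Lim/Obj.lean` (helper474):

* `diag_injective`, `diagTot_injective` : `E(F) → J(F)` is injective (`S ≠ ∅`);
* `exists_diagTot_eq` : exactness at `J(F)` from GD4 (`KerDiag`), WITHOUT the leaf `LIM-E0`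
  (Galois stability of `IsSUnit`): the conjugates of the unit produced by GD4 are again produced by
  GD4, by injectivity of the diagonal;
* `ses_shortExact` : `0 → E(F) → J(F) → C'(F) → 0` is short exact  (**LIM-SES**);
* `lim1Bdry`, `lim1Equiv` : `∂ : A_F(C')/im A_F(J) ≃+ ker (𝔈²_F(E) → 𝔈²_F(J))`  (**LIM1**),
  with the explicit cocycle formula `lim1Bdry_eq`, `lim1Bdry_eq_zero_iff`, `mem_range_lim1Bdry`;
* `stdR_projective` : the hypothesis `hR` below holds for finite `N` (from ALG1);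
* `ses_tr_f`, `ses_tr_g` : the transition maps `trS`, `trJtot`, `trC1` form a morphism of short
  exact sequences along `Level.proj`;
* `trE2_lim1Bdry` : `tr (∂ f'') = ∂' (tr f'')`  (**LIM1, compatibility with the transition maps**).
-/




set_option autoImplicit false

open CategoryTheory CategoryTheory.Limits groupCohomology

namespace Fermat.Agent.S55.E1.H354

open Fermat.Agent.S55.Tow Fermat.Agent.S55.E1.Lim

noncomputable section

attribute [local instance 10000] Rep.hV2

variable {S : Finset Nat.Primes}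

/-! ## Injectivity of the diagonal -/

theorem embQbar_injective (q : Nat.Primes) : Function.Injective (embQbar q) := by
  intro x y h
  have h1 : (Units.map (padicEmbedding (q : ℕ)).toRingHom.toMonoidHom) (Additive.toMul x) =
      (Units.map (padicEmbedding (q : ℕ)).toRingHom.toMonoidHom) (Additive.toMul y) :=
    congrArg Additive.toMul h
  have h2 : Function.Injective (Units.map (padicEmbedding (q : ℕ)).toRingHom.toMonoidHom) :=
    Units.map_injective (padicEmbedding (q : ℕ)).toRingHom.injective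
  exact Additive.toMul.injective (h2 h1)

theorem embFun_injective (L : Level S) (q : Nat.Primes) : Function.Injective (L.embFun q) := by
  intro x y h
  apply L.unitsCoe_injective
  apply embQbar_injective q
  have := congrArg (L.locCoe q) h
  simpa using this

theorem diag_injective (L : Level S) (q : Nat.Primes) : Function.Injective (L.diag q).hom := by
  intro x y h
  apply embFun_injective L q
  have h1 := congrArg (fun z => L.Jeval q z 1) h
  simp only [Level.Jeval_diag, map_one] at h1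
  exact h1

theorem diagTot_injective (L : Level S) (hS : S.Nonempty) :
    Function.Injective (diagTot L).hom := by
  obtain ⟨q, hq⟩ := hS
  intro x y h
  apply sIncl_injective L
  apply diag_injective L q
  have h1 := congrArg (fun z => piTo z (⟨q, hq⟩ : S)) h
  simpa only [piTo_diagTot] using h1

/-! ## Exactness at `J(F)` -/

variable {D : TowerDatum S}

/-- GD4 ⇒ every element of `ker (J(F) → C(F))` comes from `E(F)`. -/
theorem exists_diagTot_eq (h4 : KerDiag D) (hS : S.Nonempty) (L : Level S) (x : (Jtot L).V)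
    (hx : (jTot D L).hom x = 0) : ∃ e : (sUnits L).V, (diagTot L).hom e = x := by
  obtain ⟨q₀, hq₀⟩ := hS
  have key : ∀ y : (Jtot L).V, (jTot D L).hom y = 0 →
      ∃ e : L.units.V, L.IsSUnit e ∧ ∀ q : S, piTo y q = (L.diag q.1).hom e := by
    intro y hy
    rw [jTot_apply] at hy
    exact (h4 L (fun q => piTo y q)).1 hy
  obtain ⟨e, -, he⟩ := key x hx
  have hmem : e ∈ sUnitsAdd L := by
    intro g
    have hgx : (jTot D L).hom ((Jtot L).ρ g x) = 0 := by
      rw [Rep.hom_comm_apply, hx, map_zero]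
    obtain ⟨e', he'S, he'⟩ := key _ hgx
    have h2 : piTo ((Jtot L).ρ g x) (⟨q₀, hq₀⟩ : S) =
        (L.J q₀).ρ g (piTo x (⟨q₀, hq₀⟩ : S)) := piTo_ρ g x _
    have h1 : (L.diag q₀).hom (L.units.ρ g e) = (L.diag q₀).hom e' := by
      rw [← he' ⟨q₀, hq₀⟩, h2, he ⟨q₀, hq₀⟩, Rep.hom_comm_apply]
    rw [diag_injective L q₀ h1]
    exact he'S
  refine ⟨subMk (A := L.units) (W := sUnitsAdd L) (hW := sUnitsAdd_stable L) e hmem, ?_⟩
  apply piRep_ext
  intro q
  rw [piTo_diagTot, he q]
  rfl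

/-- Concrete criterion for short exactness in `Rep k G`. -/
theorem shortExact_of_elementwise {k G : Type} [CommRing k] [Group G]
    (X : ShortComplex (Rep.{0} k G)) (h1 : Function.Injective X.f.hom)
    (h2 : ∀ x : X.X₂.V, X.g.hom x = 0 → ∃ y : X.X₁.V, X.f.hom y = x)
    (h3 : Function.Surjective X.g.hom) : X.ShortExact where
  exact := by
    rw [← ShortComplex.exact_map_iff_of_faithful X (forget₂ (Rep.{0} k G) (ModuleCat.{0} k)),
      ShortComplex.moduleCat_exact_iff]
    exact h2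
  mono_f := (Rep.mono_iff_injective _).2 h1
  epi_g := (Rep.epi_iff_surjective _).2 h3

/-- **LIM-SES**: `0 → E(F) → J(F) → C'(F) → 0` is short exact. -/
theorem ses_shortExact (h4 : KerDiag D) (hS : S.Nonempty) (L : Level S) :
    (ses h4 L).ShortExact := by
  refine shortExact_of_elementwise (ses h4 L) (diagTot_injective L hS) (fun x hx => ?_)
    (jC1_surjective D L)
  have hx' : (jC1 D L).hom x = 0 := hx
  have hx'' : (jTot D L).hom x = 0 := by
    have := congrArg (inclC1 D L).hom hx'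
    rw [map_zero] at this
    exact this
  exact exists_diagTot_eq h4 hS L x hx''

/-! ## Projectivity of `R` (from ALG1) -/

/-- For finite `G` and finite `N` the relation module `R` is `ℤ`-projective (ALG1). -/
theorem stdR_projective {G : Type} [Group G] [Finite G] (N : Rep.{0} ℤ G) (hN : Finite N.V) :
    @Module.Projective ℤ _ (stdR N).V _ (stdR N).hV2 :=
  haveI := (H304.alg1 G N hN).1
  Module.Projective.of_free

/-! ## LIM1: the boundary isomorphism `T'_F ≅ K_F` -/

section Lim1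

variable (h4 : KerDiag D) (hS : S.Nonempty) (L : Level S) (N : Rep.{0} ℤ L.Gal)
  (hR : @Module.Projective ℤ _ (stdR N).V _ (stdR N).hV2)

/-- **LIM1**: the boundary map `∂ : A_F(C') → 𝔈²_F(E)` of the sequence `E(F) → J(F) → C'(F)`. -/
def lim1Bdry : homA N (C1 D L) →+ E2 N (sUnits L) :=
  stdBdry N hR (ses_shortExact h4 hS L)

/-- Explicit formula: `∂ f''` is the class of `g ↦ diag⁻¹ ∘ (g • φ - φ)` for any additive lift
`φ : R → J(F)` of `f'' : R → C'(F)`. -/
theorem lim1Bdry_eq {f'' : homA N (C1 D L)} {c : cocycles₁ ((Rep.ihom (stdR N)).obj (sUnits L))}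
    (φ : (stdR N).V →ₗ[ℤ] (Jtot L).V) (hφ : ∀ r, (jC1 D L).hom (φ r) = f''.hom r)
    (hc : ∀ (g : L.Gal) (r : (stdR N).V),
      (diagTot L).hom (ihomLin (c g) r) = (Jtot L).ρ g (φ ((stdR N).ρ g⁻¹ r)) - φ r) :
    lim1Bdry h4 hS L N hR f'' = H1π _ c :=
  stdBdry_eq N hR (ses_shortExact h4 hS L) (S := ses h4 L) (f'' := f'') (c := c) ⟨φ, hφ, hc⟩

/-- `∂ f'' = 0` iff `f''` lifts to `A_F(J)`. -/
theorem lim1Bdry_eq_zero_iff (f'' : homA N (C1 D L)) :
    lim1Bdry h4 hS L N hR f'' = 0 ↔ ∃ f : homA N (Jtot L), f ≫ jC1 D L = f'' :=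
  stdBdry_eq_zero_iff N hR (ses_shortExact h4 hS L) f''

/-- `ker ∂ = im (A_F(J) → A_F(C'))`. -/
theorem ker_lim1Bdry :
    (lim1Bdry h4 hS L N hR).ker = (Preadditive.rightComp (stdR N) (jC1 D L)).range :=
  haveI := hR
  ker_bdry (ses_shortExact h4 hS L)

/-- `y ∈ 𝔈²_F(E)` dies in `𝔈²_F(J)` iff it is a boundary. -/
theorem E2_diagTot_eq_zero_iff (y : E2 N (sUnits L)) :
    (ihomH1Map (stdR N) (diagTot L)).hom y = 0 ↔ ∃ f'' : homA N (C1 D L),
      lim1Bdry h4 hS L N hR f'' = y :=
  E2map_eq_zero_iff N hR (ses_shortExact h4 hS L) y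

/-- `im ∂ = K_F = ker (𝔈²_F(E) → 𝔈²_F(J))`. -/
theorem range_lim1Bdry :
    (lim1Bdry h4 hS L N hR).range = (ihomH1Map (stdR N) (diagTot L)).hom.toAddMonoidHom.ker :=
  haveI := hR
  range_bdry (ses_shortExact h4 hS L)

/-- `∂` kills the maps which extend to `P`. -/
theorem lim1Bdry_resBA (h'' : homB N (C1 D L)) :
    lim1Bdry h4 hS L N hR (resBA N (C1 D L) h'') = 0 :=
  stdBdry_resBA N hR (ses_shortExact h4 hS L) h''

/-- **LIM1**: `T'_F = A_F(C') / im A_F(J) ≃+ K_F = ker (𝔈²_F(E) → 𝔈²_F(J))`. -/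
def lim1Equiv : (homA N (C1 D L) ⧸ (Preadditive.rightComp (stdR N) (jC1 D L)).range) ≃+
    (ihomH1Map (stdR N) (diagTot L)).hom.toAddMonoidHom.ker :=
  stdBdryEquiv N hR (ses_shortExact h4 hS L)

theorem lim1Equiv_mk (f'' : homA N (C1 D L)) :
    ((lim1Equiv h4 hS L N hR (QuotientAddGroup.mk f'') :
      (ihomH1Map (stdR N) (diagTot L)).hom.toAddMonoidHom.ker) : E2 N (sUnits L)) =
      lim1Bdry h4 hS L N hR f'' := rfl

end Lim1

/-! ## LIM1: compatibility with the transition maps -/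

section Tr

variable {L L' : Level S} (h : L ≤ L')

/-- The diagonal maps are compatible with the transition maps. -/
theorem trJ_diag_apply (q : Nat.Primes) (x : L.units.V) :
    (Level.trJ h q).hom ((L.diag q).hom x) = (L'.diag q).hom ((Level.trUnits h).hom x) := by
  apply L'.J_ext q
  intro g
  induction g using QuotientGroup.induction_on with
  | H g => rfl

/-- `trS`, `trJtot` commute with the diagonals. -/
theorem diagTot_trS (e : (sUnits L).V) :
    (diagTot L').hom ((trS h).hom e) = (trJtot h).hom ((diagTot L).hom e) := by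
  apply piRep_ext
  intro q
  rw [piTo_diagTot, piTo_trJtot, piTo_diagTot, sIncl_trS, trJ_diag_apply]

/-- The left square of the morphism of short exact sequences `ses L → ses L'`. -/
theorem ses_tr_f (h4 : KerDiag D) (e : (ses h4 L).X₁.V) :
    (ses h4 L').f.hom ((trS h).hom e) = (trJtot h).hom ((ses h4 L).f.hom e) :=
  diagTot_trS h e

/-- The right square of the morphism of short exact sequences `ses L → ses L'`. -/
theorem ses_tr_g (h4 : KerDiag D) (h7 : TrCompat D) (x : (ses h4 L).X₂.V) :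
    (ses h4 L').g.hom ((trJtot h).hom x) = (trC1 h7 h).hom ((ses h4 L).g.hom x) :=
  (trC1_jC1 h7 h x).symm

/-- **LIM1, compatibility with the transition maps**: `tr (∂ f'') = ∂' (tr f'')`. -/
theorem trE2_lim1Bdry (h4 : KerDiag D) (h7 : TrCompat D) (hS : S.Nonempty)
    {N : Rep.{0} ℤ L.Gal} {N' : Rep.{0} ℤ L'.Gal} (ν : N' ⟶ Rep.res (Level.proj h) N)
    (hR : @Module.Projective ℤ _ (stdR N).V _ (stdR N).hV2)
    (hR' : @Module.Projective ℤ _ (stdR N').V _ (stdR N').hV2) (f'' : homA N (C1 D L)) :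
    trE2 (Level.proj h) ν (trS h) (lim1Bdry h4 hS L N hR f'') =
      lim1Bdry h4 hS L' N' hR' (trA (Level.proj h) ν (trC1 h7 h) f'') :=
  trE2_stdBdry (Level.proj h) ν (S := ses h4 L) (S' := ses h4 L') (trS h) (trJtot h) (trC1 h7 h)
    hR hR' (ses_shortExact h4 hS L) (ses_shortExact h4 hS L') (ses_tr_f h h4) (ses_tr_g h h4 h7) f''

/-- The transition map `tr : A_F(C') → A_{F'}(C')` preserves `im A(J)`. -/
theorem trA_mem_range (h7 : TrCompat D) {N : Rep.{0} ℤ L.Gal} {N' : Rep.{0} ℤ L'.Gal}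
    (ν : N' ⟶ Rep.res (Level.proj h) N) (f'' : homA N (C1 D L))
    (hf : f'' ∈ (Preadditive.rightComp (stdR N) (jC1 D L)).range) :
    trA (Level.proj h) ν (trC1 h7 h) f'' ∈ (Preadditive.rightComp (stdR N') (jC1 D L')).range := by
  obtain ⟨f, rfl⟩ := hf
  refine ⟨trA (Level.proj h) ν (trJtot h) f, ?_⟩
  apply Rep.hom_ext
  apply DFunLike.ext
  intro r
  exact (trC1_jC1 h7 h _).symm

/-- The transition map `tr : 𝔈²_F(E) → 𝔈²_{F'}(E)` preserves `K = ker (𝔈²(E) → 𝔈²(J))`. -/
theorem trE2_mem_ker (h4 : KerDiag D) (h7 : TrCompat D) (hS : S.Nonempty)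
    {N : Rep.{0} ℤ L.Gal} {N' : Rep.{0} ℤ L'.Gal} (ν : N' ⟶ Rep.res (Level.proj h) N)
    (hR : @Module.Projective ℤ _ (stdR N).V _ (stdR N).hV2)
    (hR' : @Module.Projective ℤ _ (stdR N').V _ (stdR N').hV2) (y : E2 N (sUnits L))
    (hy : (ihomH1Map (stdR N) (diagTot L)).hom y = 0) :
    (ihomH1Map (stdR N') (diagTot L')).hom (trE2 (Level.proj h) ν (trS h) y) = 0 := by
  obtain ⟨f'', rfl⟩ := (E2_diagTot_eq_zero_iff h4 hS L N hR y).1 hy
  rw [trE2_lim1Bdry h h4 h7 hS ν hR hR']
  exact (E2_diagTot_eq_zero_iff h4 hS L' N' hR' _).2 ⟨_, rfl⟩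

end Tr

end

end Fermat.Agent.S55.E1.H354

end
-- ===== PACK-END S55/E1/H354/Lim1.lean

-- ===== PACK-BEGIN S55/GAD/Spec.lean
section
/-
S55 / G-ADAPTER (sub-architect helper955): LEAF SPECS for the concrete tower datum
`GAD.datum S p` (`GAD/Defs.lean`).  Only `def XxxSpec : Prop`; no `sorry`.
Producers prove `theorem xxx : XxxSpec S p`; the assembly `GAD/Assembly.lean` proves
`globalSpecMu_of : (all leaf specs) → Tow.GlobalSpecMu S p`.
Blueprint + owners: coord/S55-E1-GAD.md (origin/helper955 and main).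
-/


set_option autoImplicit false

open CategoryTheory

namespace Fermat.Agent.S55.GAD

open Fermat.Agent.S55 Fermat.Agent.S55.Tow Fermat.Agent.S55.E1.H594 Fermat.Agent.S55.G

noncomputable section

variable (S : Finset Nat.Primes) (p : ℕ)

/-- **GAD-SU (dictionary of `S`-units).**  `x ∈ Fˣ` has trivial divisor outside `S`
(`ord_w x = 0` for all primes `w` of `𝓞_F` not above `S`, layer-G language) iff it is an `S`-unit
in the tower's sense (unit at every valuation subring of `ℚ̄` over a prime `ℓ ∉ S`). -/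
def SUnitDictSpec : Prop :=
  ∀ (L : Level S) (e : L.units.V), divT L e = 0 ↔ L.IsSUnit e

/-- **GAD-7b (transitivity of the extension of divisors)**, i.e. multiplicativity of the
ramification index in towers `L ≤ L' ≤ L''`. -/
def DivTrTransSpec : Prop :=
  ∀ {L L' L'' : Level S} (h : L ≤ L') (h' : L' ≤ L'') (d : PrimeOut S L.F →₀ ℤ),
    divTr h' (divTr h d) = divTr (h.trans h') d

/-- **GAD-CAP (capitulation).**  If `p^a • d` is the divisor (outside `S`) of some `x ∈ Fˣ`, then
`d` becomes principal in some level `F' ≥ F`.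
(helper893: `F' ∋ x^{1/p^a}` and its conjugates, `μ_{p^a}`; `p ∈ S`.) -/
def CapitulationSpec : Prop :=
  ∀ (L : Level S) (d : PrimeOut S L.F →₀ ℤ) (a : ℕ) (x : L.units.V), divT L x = p ^ a • d →
    ∃ (L' : Level S) (h : L ≤ L') (z : L'.units.V), divT L' z = divTr h d

/-- **GAD-EX (existence theorem mod `p`) = gd6** for the concrete datum. -/
def ExistenceSpec : Prop :=
  ∀ L₀ : Level S, L₀.HasMu p → ∃ L₁ : Level S, L₀ ≤ L₁ ∧
    ∀ (L : Level S) (h : L₀ ≤ L), L₁ ≤ L →
      @E1.NormInP p L.Gal _ (Level.relGal h) (Fintype.ofFinite _) (CT L)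

/-- **GAD-CM (class module at `p`) = gd1** for the concrete datum (existence of `γ`). -/
def ClassModuleSpec : Prop :=
  ∀ L : Level S, L.HasMu p →
    ∃ γ : groupCohomology (CT L) 2, E1.IsClassModuleAt p (CT L) γ

/-- **GAD-J = gd3** for the concrete datum: `(j_q)_*` is injective on the `p`-torsion of
`H²(Gal(L/ℚ), J_q(L))`, `q ∈ S`, `L ⊇ μ_p`. -/
def JInjSpec : Prop :=
  ∀ L : Level S, L.HasMu p → ∀ q : Nat.Primes, q ∈ S → ∀ y : groupCohomology (L.J q) 2,
    p • y = 0 → (T.coeffMap (jT L q) 2).hom y = 0 → y = 0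

/-- **GAD-INF = gd8** for the concrete datum: inflation
`H²(Gal(L/ℚ), C(L)) → H²(Gal(L'/ℚ), C(L'))` is injective on `p`-torsion, `L ⊇ μ_p`. -/
def InfInjSpec : Prop :=
  ∀ {L L' : Level S} (h : L ≤ L'), L.HasMu p → ∀ z : groupCohomology (CT L) 2,
    p • z = 0 → (groupCohomology.map (Level.proj h) (trT h) 2).hom z = 0 → z = 0

end

end Fermat.Agent.S55.GAD

end
-- ===== PACK-END S55/GAD/Spec.lean

-- ===== PACK-BEGIN S55/H713/UnitsHerbrand.lean
section



/-!
# The Herbrand quotient of the unit group of a Galois-stable complete DVR is `1`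
-/

set_option autoImplicit false
set_option linter.unusedSectionVars false
set_option linter.style.haveILetI false

open IsLocalRing

namespace Fermat.Agent.S55.H713

open Fermat.Agent.S55.Herbrand

section General

variable {R : Type*} [CommRing R] {G : Type*} [Group G] [MulSemiringAction G R]

/-- `σ - 1` on units, additively. -/
def sigmaAdd (σ : G) : Additive Rˣ →+ Additive Rˣ := MonoidHom.toAdditive (sigmaSubOne σ)

/-- the norm on units, additively. -/
noncomputable def normAdd (R G : Type*) [CommRing R] [Group G] [MulSemiringAction G R]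
    [Fintype G] : Additive Rˣ →+ Additive Rˣ := MonoidHom.toAdditive (normU G)

lemma sigmaAdd_apply (σ : G) (u : Rˣ) :
    sigmaAdd σ (Additive.ofMul u) = Additive.ofMul (sigmaSubOne σ u) := rfl

lemma normAdd_apply [Fintype G] (u : Rˣ) :
    normAdd R G (Additive.ofMul u) = Additive.ofMul (normU G u) := rfl

lemma sigmaAdd_normAdd [Fintype G] (σ : G) (b : Additive Rˣ) :
    sigmaAdd σ (normAdd R G b) = 0 := by
  change Additive.ofMul (sigmaSubOne σ (normU G b.toMul)) = 0
  rw [sigmaSubOne_normU]; rfl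

lemma normAdd_sigmaAdd [Fintype G] (σ : G) (b : Additive Rˣ) :
    normAdd R G (sigmaAdd σ b) = 0 := by
  change Additive.ofMul (normU G (sigmaSubOne σ b.toMul)) = 0
  rw [normU_sigmaSubOne]; rfl

end General

section Index

variable {O : Type*} [CommRing O] [IsDomain O] [IsLocalRing O] [IsNoetherianRing O]
  [Finite (ResidueField O)]
variable {G : Type*} [Group G] [Fintype G] [MulSemiringAction G O]
variable {σ : G} {π : O} {M : AddSubgroup O}

lemma IsGoodLattice.finiteIndex_W (h : IsGoodLattice σ π M) : (h.W 0).FiniteIndex := by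
  obtain ⟨j, hj⟩ := h.isOpen 0
  haveI : Finite (O ⧸ maximalIdeal O) := ‹Finite (ResidueField O)›
  haveI : Finite (O ⧸ maximalIdeal O ^ j) :=
    Ideal.finite_quotient_pow (IsNoetherian.noetherian _) j
  let φ : Oˣ →* (O ⧸ maximalIdeal O ^ j)ˣ :=
    Units.map ((Ideal.Quotient.mk (maximalIdeal O ^ j) : O →+* _) : O →* _)
  haveI : φ.ker.FiniteIndex := inferInstance
  apply Subgroup.finiteIndex_of_le (H := φ.ker)
  intro u hu
  rw [MonoidHom.mem_ker] at hu
  have h1 : (Ideal.Quotient.mk (maximalIdeal O ^ j)) (u : O) = 1 := by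
    have := congrArg Units.val hu
    simpa [φ] using this
  rw [h.mem_W]
  apply hj
  rw [← Ideal.Quotient.eq_zero_iff_mem, map_sub, h1, map_one, sub_self]

end Index

variable {F E : Type*} [Field F] [Field E] [Algebra F E] [FiniteDimensional F E] [IsGalois F E]
variable {O : ValuationSubring E} [IsDiscreteValuationRing O]
  [IsAdicComplete (maximalIdeal O) O] [Finite (ResidueField O)]

/-- **The Herbrand quotient of the units** of a Galois-stable complete discrete valuation ring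
with finite residue field, for a cyclic Galois group, is defined and equal to `1`. -/
theorem q_units (hstab : GalStable F O) (σ : Gal(E/F)) (hσ : ∀ g, g ∈ Subgroup.zpowers σ) :
    letI := galAction hstab
    IsDefined (sigmaAdd σ : Additive Oˣ →+ Additive Oˣ) (normAdd O Gal(E/F)) ∧
      q (sigmaAdd σ : Additive Oˣ →+ Additive Oˣ) (normAdd O Gal(E/F)) = 1 := by
  let _ := galAction hstab
  obtain ⟨π, M, h⟩ := exists_goodLattice hstab σ hσ
  haveI := h.finiteIndex_W
  haveI : (Subgroup.toAddSubgroup (h.W 0)).FiniteIndex := by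
    rw [AddSubgroup.finiteIndex_iff, Subgroup.index_toAddSubgroup]
    exact Subgroup.FiniteIndex.index_ne_zero
  haveI : Finite (Additive Oˣ ⧸ Subgroup.toAddSubgroup (h.W 0)) :=
    AddSubgroup.finite_quotient_of_finiteIndex
  refine q_eq_one_of_exact_of_finite _ _ (sigmaAdd_normAdd σ) (normAdd_sigmaAdd σ)
    (Subgroup.toAddSubgroup (h.W 0)) ?_ ?_ ?_ ?_
  · intro a ha
    exact h.sigmaSubOne_mem_W ha
  · intro a ha
    exact h.normU_mem_W ha
  · intro a ha hfa
    obtain ⟨y, hy, hya⟩ := h.exists_normU_eq a.toMul ha (by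
      have : Additive.ofMul (sigmaSubOne σ a.toMul) = 0 := hfa
      exact this)
    exact ⟨Additive.ofMul y, hy, congrArg Additive.ofMul hya⟩
  · intro a ha hga
    obtain ⟨y, hy, hya⟩ := h.exists_sigmaSubOne_eq a.toMul ha (by
      have : Additive.ofMul (normU Gal(E/F) a.toMul) = 0 := hga
      exact this)
    exact ⟨Additive.ofMul y, hy, congrArg Additive.ofMul hya⟩

end Fermat.Agent.S55.H713

end
-- ===== PACK-END S55/H713/UnitsHerbrand.lean

-- ===== PACK-BEGIN S55/GAD/DescH901J.lean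
section
/-
S55 / G-ADAPTER, leaf GAD-DESC (helper901), part 1: tower-side descent.
For levels `L ≤ L'` with `H = Level.relGal h = Gal(L'/L)`:
* `exists_inclUnits_eq` : `(L'ˣ)^H = Lˣ`;
* `exists_inclJ_eq`     : `J_q(L')^H = J_q(L)` (every `q`);
* injectivity of `inclUnits`, `inclLoc`, `inclJ`.
Sorry-free.
-/



set_option autoImplicit false
set_option linter.unusedSectionVars false

namespace Fermat.Agent.S55.GAD.H901

open Fermat.Agent.S55 Fermat.Agent.S55.Tow Fermat.Agent.S55.E1.H594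

variable {S : Finset Nat.Primes} {L L' : Level S} (h : L ≤ L')

/-! ## Units -/

theorem inclUnits_injective : Function.Injective (Level.inclUnits h) := by
  intro x y hxy
  apply L.unitsCoe_injective
  have := congrArg L'.unitsCoe hxy
  simpa only [Level.unitsCoe_inclUnits] using this

/-- `(L'ˣ)^H = Lˣ`. -/
theorem exists_inclUnits_eq (x' : L'.units.V)
    (hx : ∀ σ ∈ Level.relGal h, L'.units.ρ σ x' = x') :
    ∃ x : L.units.V, Level.inclUnits h x = x' := by
  refine ⟨L.unitsMk (L'.unitsCoe x') (fun g hg => ?_), ?_⟩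
  · have h1 := hx (QuotientGroup.mk g) ((mk_mem_relGal_iff h g).2 hg)
    have h2 := congrArg L'.unitsCoe h1
    rwa [L'.units_ρ_coe] at h2
  · apply L'.unitsCoe_injective
    rfl

/-! ## Local units and `J_q` -/

theorem inclLoc_injective (q : Nat.Primes) : Function.Injective (Level.inclLoc h q) := by
  intro x y hxy
  apply L.locCoe_injective q
  have := congrArg (L'.locCoe q) hxy
  simpa only [Level.locCoe_inclLoc] using this

theorem inclJ_injective (q : Nat.Primes) : Function.Injective (Level.inclJ h q) := by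
  intro f f' hff
  apply L.J_ext q
  intro g
  obtain ⟨g', rfl⟩ := level_proj_surjective h g
  have h1 := congrArg (fun F => L'.Jeval q F g') hff
  simp only [Level.Jeval_inclJ] at h1
  exact inclLoc_injective h q h1

variable (q : Nat.Primes) (f' : (L'.J q).V)

lemma Jeval_mul_right_of_invariant (hf : ∀ σ ∈ Level.relGal h, (L'.J q).ρ σ f' = f')
    (g' σ : L'.Gal) (hσ : σ ∈ Level.relGal h) :
    L'.Jeval q f' (g' * σ) = L'.Jeval q f' g' := by
  rw [← L'.Jeval_ρ, hf σ hσ]

lemma Jeval_eq_of_proj_eq (hf : ∀ σ ∈ Level.relGal h, (L'.J q).ρ σ f' = f')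
    (g₁ g₂ : L'.Gal) (hg : Level.proj h g₁ = Level.proj h g₂) :
    L'.Jeval q f' g₁ = L'.Jeval q f' g₂ := by
  have h1 : g₂⁻¹ * g₁ ∈ Level.relGal h := by
    unfold Level.relGal
    rw [MonoidHom.mem_ker, map_mul, map_inv, hg, inv_mul_cancel]
  have h2 := Jeval_mul_right_of_invariant h q f' hf g₂ _ h1
  rwa [mul_inv_cancel_left] at h2

lemma proj_decHom_mk_of_mem (τ : GQp q) (hτ : τ ∈ L.V q) :
    Level.proj h (L'.decHom q (QuotientGroup.mk τ)) = 1 := by
  rw [Level.decHom_mk, Level.proj_mk]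
  exact (QuotientGroup.eq_one_iff _).2 hτ

lemma locCoe_Jeval_fixed (hf : ∀ σ ∈ Level.relGal h, (L'.J q).ρ σ f' = f')
    (g' : L'.Gal) (τ : GQp q) (hτ : τ ∈ L.V q) :
    (unitsQpbar q).ρ τ (L'.locCoe q (L'.Jeval q f' g')) = L'.locCoe q (L'.Jeval q f' g') := by
  have h1 := L'.Jeval_mul q f' (QuotientGroup.mk τ) g'
  have h2 : Level.proj h (L'.decHom q (QuotientGroup.mk τ) * g') = Level.proj h g' := by
    rw [map_mul, proj_decHom_mk_of_mem h q τ hτ, one_mul]
  rw [Jeval_eq_of_proj_eq h q f' hf _ _ h2] at h1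
  have h3 := congrArg (L'.locCoe q) h1
  rw [L'.locUnits_ρ_coe] at h3
  exact h3.symm

/-- `J_q(L')^H = J_q(L)`. -/
theorem exists_inclJ_eq (hf : ∀ σ ∈ Level.relGal h, (L'.J q).ρ σ f' = f') :
    ∃ f : (L.J q).V, Level.inclJ h q f = f' := by
  classical
  let lift : L.Gal → L'.Gal := fun g => (level_proj_surjective h g).choose
  have hlift : ∀ g, Level.proj h (lift g) = g := fun g => (level_proj_surjective h g).choose_spec
  let w : L'.Gal → (L.locUnits q).V := fun g' =>
    L.locMk q (L'.locCoe q (L'.Jeval q f' g'))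
      (fun τ hτ => locCoe_Jeval_fixed h q f' hf g' τ hτ)
  have hw : ∀ g', Level.inclLoc h q (w g') = L'.Jeval q f' g' :=
    fun g' => L'.locCoe_injective q rfl
  have hw2 : ∀ g₁ g₂, Level.proj h g₁ = Level.proj h g₂ → w g₁ = w g₂ := by
    intro g₁ g₂ hg
    apply inclLoc_injective h q
    rw [hw, hw]
    exact Jeval_eq_of_proj_eq h q f' hf _ _ hg
  refine ⟨⟨fun g => w (lift g), fun d g => ?_⟩, ?_⟩
  · induction d using QuotientGroup.induction_on with
    | H τ =>
      have e1 : w (lift (L.decHom q (QuotientGroup.mk τ) * g)) =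
          w (L'.decHom q (QuotientGroup.mk τ) * lift g) := by
        refine hw2 _ _ ?_
        rw [hlift, map_mul, Level.proj_decHom, hlift]
        rfl
      show w (lift (L.decHom q (QuotientGroup.mk τ) * g)) =
        (L.locUnits q).ρ (QuotientGroup.mk τ) (w (lift g))
      rw [e1]
      apply L.locCoe_injective q
      rw [L.locUnits_ρ_coe]
      show L'.locCoe q (L'.Jeval q f' (L'.decHom q (QuotientGroup.mk τ) * lift g)) =
        (unitsQpbar q).ρ τ (L'.locCoe q (L'.Jeval q f' (lift g)))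
      rw [L'.Jeval_mul, L'.locUnits_ρ_coe]
  · apply L'.J_ext q
    intro g'
    show Level.inclLoc h q (w (lift (Level.proj h g'))) = L'.Jeval q f' g'
    rw [hw]
    exact Jeval_eq_of_proj_eq h q f' hf _ _ (hlift _)

end Fermat.Agent.S55.GAD.H901

end
-- ===== PACK-END S55/GAD/DescH901J.lean

-- ===== PACK-BEGIN S55/Cap/Main.lean
section


/-!
# S55 / layer K, input A8 (CAP): `CapSpec` from the leaves   (helper303)

`capSpec_of_leaves : MuSpec → HasMuSpec → EDivSpec → J1Spec → J2Spec → C1Spec → C2Spec → CapSpec`.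
Proof: the abstract chase `Cap.chase` applied to the rows
`Ind_U μ → Ind_U 𝔼 → Ind_U 𝕁` and `Ind_V μ → Ind_V 𝔼 → Ind_V 𝕁`.
-/

set_option autoImplicit false
set_option linter.unusedVariables false
set_option linter.unusedSectionVars false
set_option linter.style.haveILetI false

noncomputable section

namespace Fermat.Agent.S55.Cap

open Fermat.Agent.S55.PT Fermat.Agent.S55.Tow groupCohomology ExtCitation

/-- the `G`-action on the carrier of a representation -/
@[reducible] def repDMA {k G : Type} [CommRing k] [Group G] (A : Rep.{0, 0, 0} k G) :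
    DistribMulAction G ↥A where
  smul g a := A.ρ g a
  one_smul a := by
    show A.ρ 1 a = a
    rw [map_one, Module.End.one_apply]
  mul_smul g h a := by
    show A.ρ (g * h) a = A.ρ g (A.ρ h a)
    rw [map_mul, Module.End.mul_apply]
  smul_zero g := map_zero (A.ρ g)
  smul_add g a b := map_add (A.ρ g) a b

section

variable {k G : Type} [Field k] [Group G] (A : Rep.{0, 0, 0} k G) (U : Subgroup G)

attribute [local instance] repDMA

lemma repDMA_smul (g : G) (a : ↥A) : g • a = A.ρ g a := rfl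

/-- the action of `indRep U A` is the diagonal action of `IndM U A` -/
lemma indRep_ρ_eq_smul (g : G) (F : (G ⧸ U) →₀ ↥A) :
    (indRep U A).ρ g F = IndM.toF U (g • IndM.ofF U F) := by
  induction F using Finsupp.induction_linear with
  | zero =>
    rw [map_zero, map_zero, smul_zero, map_zero]
  | add F F' hF hF' =>
    rw [map_add, map_add, smul_add, map_add, hF, hF']
  | single x a =>
    rw [indRep_ρ_single]
    show _ = IndM.toF U (g • IndM.single U x a)
    rw [IndM.smul_single]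
    rfl

lemma indLE_eq_le {V : Subgroup G} (h : U ≤ V) (F : (G ⧸ U) →₀ ↥A) :
    indLE A h F = IndM.toF V (IndM.le h (IndM.ofF U F)) := rfl

lemma nsmul_eq_zero_of_zmod (p : ℕ) [Fact p.Prime] (B : Rep.{0, 0, 0} (ZMod p) G)
    (F : IndM U ↥B) : p • F = 0 := by
  apply Finsupp.ext
  intro x
  show p • (IndM.toF U F x) = 0
  have h := Nat.cast_smul_eq_nsmul (ZMod p) p (IndM.toF U F x)
  rw [← h, ZMod.natCast_self, zero_smul]

end

variable (p : ℕ) [Fact p.Prime] (S : Finset Nat.Primes)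

/-- the Galois action on `μ = ofChar (cycloChar p)` -/
@[reducible] def muDMA : DistribMulAction Tow.GQ ↥(mu p) := repDMA (mu p)

attribute [local instance] muDMA

/-- smoothness in the `LevelSys` form -/
lemma smooth_of_level {X : Type} [AddCommGroup X] [DistribMulAction Tow.GQ X]
    (h : ∀ a : X, ∃ L : Level S, ∀ u ∈ L.U, u • a = a) (a : X) :
    ∃ W ∈ (globalLevels S).levels, ∀ s ∈ W, s • a = a := by
  obtain ⟨L, hL⟩ := h a
  exact ⟨L.U, Level.U_mem_globalLevels S L, hL⟩

/-- **A8 from the leaves.** -/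
theorem capSpec_of_leaves (hpS : pPrime p ∈ S) (hMu : MuSpec p S) (hHas : HasMuSpec p S)
    (hE : EDivSpec p S) (hJ1 : J1Spec S) (hJ2 : J2Spec p S) (hC1 : C1Spec p S)
    (hC2 : C2Spec p S) : CapSpec p S := by
  intro V hV hVn hVμ
  obtain ⟨F₀, hF₀, rfl⟩ := hV
  let L₀ : Level S := ⟨F₀, hF₀, hVn⟩
  obtain ⟨L₁, h01, hC2'⟩ := hC2 L₀ (hHas L₀ hVμ)
  haveI : (L₁.U).Normal := L₁.normalU
  haveI : (L₀.U).Normal := L₀.normalU
  refine ⟨L₁.U, Level.U_anti h01, Level.U_mem_globalLevels S L₁, L₁.normalU, ?_⟩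
  intro x hx
  obtain ⟨c, rfl⟩ := (globalLevels S).H2π_surjective _ x
  rw [pushH2_mk, LevelSys.H2π_eq_zero_iff]
  obtain ⟨ι₀, hι₀inj, hι₀eq, hι₀tors⟩ := hMu
  obtain ⟨b, hb, hcb⟩ := hJ2 ι₀ hι₀eq L₁ (fun s hs => hVμ s (Level.U_anti h01 hs)) c hx
  have hSne : S.Nonempty := ⟨_, hpS⟩
  have hp : p.Prime := Fact.out
  obtain ⟨β, hβ, hcβ⟩ := chase (globalLevels S)
    (M := IndM L₁.U ↥(mu p)) (E := IndM L₁.U (SU S)) (J := IndM L₁.U (JJS S))
    (M' := IndM L₀.U ↥(mu p)) (E' := IndM L₀.U (SU S)) (J' := IndM L₀.U (JJS S)) p hp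
    (IndM.map L₁.U ι₀) (IndM.map L₁.U (iEJ S)) (IndM.map L₀.U ι₀) (IndM.map L₀.U (iEJ S))
    (IndM.le (Level.U_anti h01)) (IndM.le (Level.U_anti h01)) (IndM.le (Level.U_anti h01))
    (IndM.map_smul' L₁.U (iEJ S) (iEJ_smul S))
    (IndM.map_smul' L₀.U ι₀ hι₀eq)
    (IndM.map_smul' L₀.U (iEJ S) (iEJ_smul S))
    (IndM.le_smul (Level.U_anti h01))
    (IndM.le_smul (Level.U_anti h01))
    (fun m => IndM.le_map (Level.U_anti h01) ι₀ m)
    (fun e => IndM.le_map (Level.U_anti h01) (iEJ S) e)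
    (IndM.map_injective L₁.U (iEJ S) (iEJ_injective S hSne))
    (IndM.map_injective L₀.U (iEJ S) (iEJ_injective S hSne))
    (IndM.map_injective L₀.U ι₀ hι₀inj)
    (nsmul_eq_zero_of_zmod L₁.U p (mu p))
    (nsmul_eq_zero_of_zmod L₀.U p (mu p))
    (fun e he => IndM.exists_map_eq_of_nsmul_eq_zero L₀.U p ι₀ hι₀tors e he)
    (IndM.exists_nsmul_eq L₀.U p hE)
    (IndM.smooth L₁.U (globalLevels S) (Level.U_mem_globalLevels S L₁)
      (smooth_of_level S (JJS.smooth S)))
    (IndM.smooth L₀.U (globalLevels S) (Level.U_mem_globalLevels S L₀)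
      (smooth_of_level S (JJS.smooth S)))
    (IndM.smooth L₀.U (globalLevels S) (Level.U_mem_globalLevels S L₀)
      (smooth_of_level S (SU.smooth S)))
    (fun u hu hcoc => by
      refine hJ1 L₁ (fun g => IndM.map L₁.U (iEJ S) (u g))
        (isLC₁_map (globalLevels S) (IndM.map L₁.U (iEJ S)) hu) (fun g h => ?_)
      show IndM.map L₁.U (iEJ S) (u (g * h)) = _
      rw [hcoc, map_add, IndM.map_smul' L₁.U (iEJ S) (iEJ_smul S)])
    (hC1 L₁) hC2'
    (fun gh => IndM.ofF L₁.U ((c : Tow.GQ × Tow.GQ → (Tow.GQ ⧸ L₁.U) →₀ ↥(mu p)) gh))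
    b hb hcb
  refine ⟨fun g => IndM.toF L₀.U (β g), ?_, ?_⟩
  · exact isLC₁_map (globalLevels S) (IndM.toF L₀.U) hβ
  · funext ⟨g, h⟩
    show (indRep L₀.U (mu p)).ρ g (IndM.toF L₀.U (β h)) - IndM.toF L₀.U (β (g * h))
      + IndM.toF L₀.U (β g) = indLE (mu p) (Level.U_anti h01)
        ((c : Tow.GQ × Tow.GQ → (Tow.GQ ⧸ L₁.U) →₀ ↥(mu p)) (g, h))
    rw [indRep_ρ_eq_smul, indLE_eq_le, hcβ g h, map_add, map_sub]
    rfl

end Fermat.Agent.S55.Cap

end
end
-- ===== PACK-END S55/Cap/Main.lean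

-- ===== PACK-BEGIN S55/Cap/J1H123.lean
section






/-!
# S55 / A8 (CAP), leaf J1: `j1Adapter : J1AdapterSpec p S`   (helper123)

`H¹(G_S, Ind_U 𝕁) = 0` in cochain form, from Hilbert 90 (`LocalSpec`, clause 2):

* `ind_shapiro₁` (`Cap/H123/IndShapiro.lean`): a cocycle `f : G → Ind_U X` is a coboundary as soon
  as the `U`-cocycle `u ↦ (f u)(1̄)` is;
* `coind_shapiro₁` (`Cap/H123/CoindShapiro.lean`): a smooth `U`-cocycle with values in the smooth
  coinduction `𝕁_q` is a coboundary, by Hilbert 90 on each double coset `D_q \ G_ℚ / U`;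
* `h90_of_localSpec` (`Cap/H123/H90.lean`): Hilbert 90 in cochain form.
-/

set_option autoImplicit false
set_option linter.unusedSectionVars false
set_option linter.unusedVariables false
set_option linter.style.haveILetI false

noncomputable section

namespace Fermat.Agent.S55.Cap.H123

open Fermat.Agent.S55.PT Fermat.Agent.S55.Tow Fermat.Agent.S55.Cap

/-- the action of the local Galois group on `ℚ̄_qˣ` -/
@[reducible] def locDMA (q : Nat.Primes) : DistribMulAction (GQp q) (unitsQpbar q).V where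
  smul d a := (unitsQpbar q).ρ d a
  one_smul a := by
    show (unitsQpbar q).ρ 1 a = a
    rw [map_one, Module.End.one_apply]
  mul_smul g h a := by
    show (unitsQpbar q).ρ (g * h) a = (unitsQpbar q).ρ g ((unitsQpbar q).ρ h a)
    rw [map_mul, Module.End.mul_apply]
  smul_zero g := map_zero ((unitsQpbar q).ρ g)
  smul_add g a b := map_add ((unitsQpbar q).ρ g) a b

variable (p : ℕ) [Fact p.Prime] (S : Finset Nat.Primes)

/-- normal levels are cofinal, in `Level` form -/
lemma exists_level_U_le (U : Subgroup Tow.GQ) (hU : U ∈ (globalLevels S).levels) :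
    ∃ L : Level S, L.U ≤ U := by
  obtain ⟨V, ⟨F, hF, rfl⟩, hle, hn⟩ := globalLevels_normal_cofinal724 S U hU
  exact ⟨⟨F, hF, hn⟩, hle⟩

/-- the component at `q` of the `U`-cocycle `u ↦ (f u)(1̄)` is a coboundary -/
lemma j1_component (hL : LocalSpec p) (L₁ L'' : Level S) (h1 : L₁ ≤ L'')
    (f : Tow.GQ → IndM L₁.U (JJS S))
    (hinv : ∀ g s : Tow.GQ, s ∈ L''.U → f (g * s) = f g)
    (hcoc : ∀ g h, f (g * h) = f g + g • f h) (q : ↥S) :
    ∃ xq : JJ S q.1, ∀ u ∈ L₁.U,
      JJS.proj S q (IndM.toF L₁.U (f u) (QuotientGroup.mk 1)) = u • xq - xq := by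
  letI : DistribMulAction (GQp q.1) (unitsQpbar q.1).V := locDMA q.1
  have he : ∀ u ∈ L₁.U, u⁻¹ • (QuotientGroup.mk 1 : Tow.GQ ⧸ L₁.U) = QuotientGroup.mk 1 := by
    intro u hu
    show (QuotientGroup.mk (u⁻¹ * 1) : Tow.GQ ⧸ L₁.U) = QuotientGroup.mk 1
    rw [QuotientGroup.eq]
    have : (u⁻¹ * 1)⁻¹ * 1 = u := by group
    rw [this]
    exact hu
  obtain ⟨x, hx1, hx2, hx3⟩ := coind_shapiro₁ (locQ q.1) L₁.U L''.U (Level.U_anti h1)
    (fun u γ => JJ.ev S q.1 γ (JJS.proj S q (IndM.toF L₁.U (f u) (QuotientGroup.mk 1))))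
    (fun u hu d γ => JJ.ev_mul_left S q.1 _ d γ)
    (fun u hu u' hu' γ => by
      show JJ.ev S q.1 γ (JJS.proj S q (IndM.toF L₁.U (f (u * u')) (QuotientGroup.mk 1)))
        = JJ.ev S q.1 γ (JJS.proj S q (IndM.toF L₁.U (f u) (QuotientGroup.mk 1)))
          + JJ.ev S q.1 (γ * u) (JJS.proj S q (IndM.toF L₁.U (f u') (QuotientGroup.mk 1)))
      rw [hcoc u u', toF_add_apply, toF_smul_apply, he u hu, map_add, map_add, JJS.proj_smul,
        JJ.ev_smul])
    (fun u hu w hw γ => by
      show JJ.ev S q.1 γ (JJS.proj S q (IndM.toF L₁.U (f (u * w)) (QuotientGroup.mk 1)))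
        = JJ.ev S q.1 γ (JJS.proj S q (IndM.toF L₁.U (f u) (QuotientGroup.mk 1)))
      rw [hinv u w hw])
    (fun θ hθ1 hθ2 => h90_of_localSpec p hL L₁ L'' h1 q.1 θ hθ1 hθ2)
  refine ⟨JJ.mk S q.1 x hx1 ⟨L'', fun u hu g => hx2 u hu g⟩, fun u hu => ?_⟩
  apply JJ.ext
  intro γ
  rw [map_sub, JJ.ev_smul, JJ.ev_mk, JJ.ev_mk]
  exact hx3 u hu γ

/-- **leaf J1.** -/
theorem j1Adapter : J1AdapterSpec p S := by
  intro hL L₁ f hLC hcoc
  obtain ⟨Ua, hUa, hinv⟩ := hLC
  obtain ⟨La, hLa⟩ := exists_level_U_le S Ua hUa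
  have h1 : L₁ ≤ capSup S L₁ La := le_capSup_left S L₁ La
  have ha : (capSup S L₁ La).U ≤ Ua := (Level.U_anti (le_capSup_right S L₁ La)).trans hLa
  choose x₀ hx₀ using j1_component p S hL L₁ (capSup S L₁ La) h1 f
    (fun g s hs => hinv g s (ha hs)) hcoc
  refine ind_shapiro₁ L₁.U f hcoc (x₀ : JJS S) ?_
  intro u hu
  apply JJS.ext
  intro q
  rw [hx₀ q u hu]
  rfl

end Fermat.Agent.S55.Cap.H123

end
end
-- ===== PACK-END S55/Cap/J1H123.lean

-- ===== PACK-BEGIN S55/Cap/C1H239/ClassMod.lean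
section




/-!
# S55 / A8-C1 (helper239): the class modules `C(L)` of a tower datum as `G_ℚ`-modules

* `CL D L` : `C(L)` with the `G_ℚ`-action through `Gal(L/ℚ)` (type synonym);
* `jL D L : J(L) →+ C(L)`, `trCL D h : C(L) →+ C(L')`, equivariance, GD7a, GD7b, GD4;
* `exists_cap` (GD11 + GD5, coefficientwise): for `c ∈ Ind_U C(L)` there are `n` prime to `p`,
  `L' ≥ L` and `Q ∈ Ind_U J(L')` with `j(Q) = tr (n • c)`.
-/

set_option autoImplicit false
set_option linter.unusedVariables false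
set_option linter.unusedSectionVars false
set_option linter.style.haveILetI false

noncomputable section

namespace Fermat.Agent.S55.Cap.H239

open Fermat.Agent.S55.PT Fermat.Agent.S55.Tow Fermat.Agent.S55.Cap

variable {S : Finset Nat.Primes}

/-! ### generalities on `IndM` -/

section IndMGen

variable {G : Type} [Group G] (U : Subgroup G) {X Y : Type} [AddCommGroup X] [AddCommGroup Y]

lemma indM_map_eq_zero (φ : X →+ Y) (F : IndM U X) (h : ∀ x, φ (IndM.toF U F x) = 0) :
    IndM.map U φ F = 0 := by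
  apply Finsupp.ext
  intro x
  exact h x

lemma indM_exists_map_eq (φ : X →+ Y) (F : IndM U Y) (h : ∀ x, ∃ a : X, φ a = IndM.toF U F x) :
    ∃ F' : IndM U X, IndM.map U φ F' = F := by
  classical
  choose s hs using h
  refine ⟨IndM.ofF U (Finsupp.onFinset (IndM.toF U F).support
    (fun x => if IndM.toF U F x = 0 then 0 else s x) (fun x hx => ?_)), ?_⟩
  · rw [Finsupp.mem_support_iff]
    intro h0
    exact hx (by rw [if_pos h0])
  · apply Finsupp.ext
    intro x
    show φ (if IndM.toF U F x = 0 then 0 else s x) = IndM.toF U F x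
    split_ifs with h0
    · rw [map_zero, h0]
    · exact hs x

lemma indM_map_nsmul (φ : X →+ Y) (n : ℕ) (F : IndM U X) :
    IndM.map U φ (n • F) = n • IndM.map U φ F := map_nsmul _ _ _

end IndMGen

/-! ### `C(L)` as a `G_ℚ`-module -/

/-- `C(L)` with the `G_ℚ`-action through `Gal(L/ℚ)` -/
def CL (D : TowerDatum S) (L : Level S) : Type := (D.C L).V

instance CL.instAddCommGroup (D : TowerDatum S) (L : Level S) : AddCommGroup (CL D L) :=
  inferInstanceAs (AddCommGroup (D.C L).V)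

/-- the underlying element of `C(L)` -/
def CL.val (D : TowerDatum S) (L : Level S) : CL D L →+ (D.C L).V := AddMonoidHom.id _

/-- the element of `CL D L` given by an element of `C(L)` -/
def CL.of (D : TowerDatum S) (L : Level S) : (D.C L).V →+ CL D L := AddMonoidHom.id _

/-- the action of `H` on the carrier of a representation -/
@[reducible] def repAct {k H : Type} [CommRing k] [Group H] (A : Rep.{0, 0, 0} k H) :
    DistribMulAction H A.V where
  smul g a := A.ρ g a
  one_smul a := by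
    show A.ρ 1 a = a
    rw [map_one, Module.End.one_apply]
  mul_smul g h a := by
    show A.ρ (g * h) a = A.ρ g (A.ρ h a)
    rw [map_mul, Module.End.mul_apply]
  smul_zero g := map_zero (A.ρ g)
  smul_add g a b := map_add (A.ρ g) a b

/-- the additive map underlying a morphism of representations -/
def homAdd {k H : Type} [CommRing k] [Group H] {A B : Rep.{0, 0, 0} k H} (f : A ⟶ B) :
    A.V →+ B.V := f.hom.toLinearMap.toAddMonoidHom

@[simp] lemma homAdd_apply {k H : Type} [CommRing k] [Group H] {A B : Rep.{0, 0, 0} k H}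
    (f : A ⟶ B) (a : A.V) : homAdd f a = f.hom a := rfl

instance CL.instDistribMulAction (D : TowerDatum S) (L : Level S) :
    DistribMulAction Tow.GQ (CL D L) :=
  letI : DistribMulAction L.Gal (D.C L).V := repAct (D.C L)
  DistribMulAction.compHom (D.C L).V (QuotientGroup.mk' L.U)

lemma CL.val_smul (D : TowerDatum S) (L : Level S) (g : Tow.GQ) (c : CL D L) :
    CL.val D L (g • c) = (D.C L).ρ (QuotientGroup.mk g) (CL.val D L c) := rfl

lemma CL.val_injective (D : TowerDatum S) (L : Level S) : Function.Injective (CL.val D L) :=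
  fun _ _ h => h

@[simp] lemma CL.val_of (D : TowerDatum S) (L : Level S) (c : (D.C L).V) :
    CL.val D L (CL.of D L c) = c := rfl

/-- `j = ∑_q j_q : J(L) → C(L)` -/
def jL (D : TowerDatum S) (L : Level S) : JL L →+ CL D L :=
  (CL.of D L).comp
    (∑ q : ↥S, (homAdd (D.j L q.1)).comp (JL.proj L q))

lemma val_jL (D : TowerDatum S) (L : Level S) (y : JL L) :
    CL.val D L (jL D L y) = ∑ q : ↥S, (D.j L q.1).hom (JL.proj L q y) := by
  show (∑ q : ↥S, (homAdd (D.j L q.1)).comp (JL.proj L q)) y = _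
  rw [AddMonoidHom.finsetSum_apply]
  rfl

lemma jL_smul (D : TowerDatum S) (L : Level S) (g : Tow.GQ) (y : JL L) :
    jL D L (g • y) = g • jL D L y := by
  apply CL.val_injective
  rw [CL.val_smul, val_jL, val_jL, map_sum]
  apply Finset.sum_congr rfl
  intro q _
  rw [JL.proj_smul]
  exact Rep.hom_comm_apply (D.j L q.1) (QuotientGroup.mk g) (JL.proj L q y)

/-- the transition map `C(L) → C(L')` -/
def trCL (D : TowerDatum S) {L L' : Level S} (h : L ≤ L') : CL D L →+ CL D L' :=
  (CL.of D L').comp ((homAdd (D.tr h)).comp (CL.val D L))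

lemma val_trCL (D : TowerDatum S) {L L' : Level S} (h : L ≤ L') (c : CL D L) :
    CL.val D L' (trCL D h c) = (D.tr h).hom (CL.val D L c) := rfl

lemma trCL_smul (D : TowerDatum S) {L L' : Level S} (h : L ≤ L') (g : Tow.GQ) (c : CL D L) :
    trCL D h (g • c) = g • trCL D h c := by
  apply CL.val_injective
  rw [CL.val_smul, val_trCL, val_trCL, CL.val_smul]
  exact Rep.hom_comm_apply (D.tr h) (QuotientGroup.mk g : L'.Gal) (CL.val D L c)

section Good

variable {p : ℕ} {D : TowerDatum S} (hD : D.IsGoodMu p)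
include hD

/-- GD7a -/
lemma trCL_jL {L L' : Level S} (h : L ≤ L') (y : JL L) :
    trCL D h (jL D L y) = jL D L' (trJL h y) := by
  apply CL.val_injective
  rw [val_trCL, val_jL, val_jL, map_sum]
  apply Finset.sum_congr rfl
  intro q _
  rw [proj_trJL]
  exact hD.gd7a h q.1 q.2 (JL.proj L q y)

/-- GD7b -/
lemma trCL_trCL {L L' L'' : Level S} (h : L ≤ L') (h' : L' ≤ L'') (c : CL D L) :
    trCL D h' (trCL D h c) = trCL D (h.trans h') c := by
  apply CL.val_injective
  rw [val_trCL, val_trCL, val_trCL]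
  exact hD.gd7b h h' (CL.val D L c)

/-- GD4 -/
lemma jL_eq_zero_iff (L : Level S) (y : JL L) :
    jL D L y = 0 ↔ ∃ e : L.units.V, L.IsSUnit e ∧ y = diagL L e := by
  have h0 : jL D L y = 0 ↔ ∑ q : ↥S, (D.j L q.1).hom (JL.proj L q y) = 0 := by
    rw [← val_jL]
    exact ⟨fun h => by rw [h, map_zero], fun h => CL.val_injective D L (by rw [h, map_zero])⟩
  rw [h0]
  constructor
  · intro h
    obtain ⟨e, he, hy⟩ := (hD.gd4 L (fun q => JL.proj L q y)).1 h
    exact ⟨e, he, JL.ext hy⟩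
  · rintro ⟨e, he, rfl⟩
    exact (hD.gd4 L _).2 ⟨e, he, fun q => rfl⟩

/-- an element of `J(L)` which lies in `𝔼` (inside `𝕁`) is killed by `j` -/
lemma jL_eq_zero_of_ofJ_eq (L : Level S) (y : JL L) (a : SU S) (h : ofJ L y = iEJ S a) :
    jL D L y = 0 := by
  by_cases hS : S.Nonempty
  · have hinv : ∀ u ∈ L.U, u • a = a := by
      intro u hu
      apply iEJ_injective S hS
      rw [iEJ_smul, ← h, ← ofJ_smul]
      congr 1
      apply JL.ext
      intro q
      rw [JL.proj_smul]
      have h1 : (QuotientGroup.mk u : L.Gal) = 1 := (QuotientGroup.eq_one_iff u).2 hu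
      rw [h1, map_one, Module.End.one_apply]
    obtain ⟨e, he, rfl⟩ := exists_ofE L a hinv
    rw [jL_eq_zero_iff hD]
    refine ⟨e, he, ofJ_injective L ?_⟩
    rw [h, ofJ_diagL L e he]
  · rw [Finset.not_nonempty_iff_eq_empty] at hS
    subst hS
    apply CL.val_injective
    rw [val_jL, map_zero]
    exact Finset.sum_of_isEmpty _

end Good

/-! ### capitulation, coefficientwise -/

section Cap

variable {p : ℕ} [Fact p.Prime] {D : TowerDatum S} (hD : D.IsGoodMu p) (hT : ClTorsion D)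
include hD hT

/-- GD11 + GD5 for one element of `C(L)` -/
lemma exists_cap_one (L : Level S) (a : CL D L) :
    ∃ (n : ℕ) (L' : Level S) (h : L ≤ L') (y : JL L'), n.Coprime p ∧
      jL D L' y = trCL D h (n • a) := by
  obtain ⟨N, hN0, hN⟩ := hT L a
  obtain ⟨k, n, hn, hNn⟩ := Nat.exists_eq_pow_mul_and_not_dvd hN0.ne' p
    (Fact.out : p.Prime).one_lt.ne'
  have h1 : D.IsLocalSum L (p ^ k • (n • CL.val D L a)) := by
    rw [← mul_nsmul', ← hNn]
    exact hN
  obtain ⟨L', h, x, hx⟩ := hD.gd5 L (n • CL.val D L a) k h1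
  refine ⟨n, L', h, JL.mk L' x, ?_, ?_⟩
  · exact ((Nat.Prime.coprime_iff_not_dvd (Fact.out : p.Prime)).2 hn).symm
  · apply CL.val_injective
    rw [val_jL, val_trCL, map_nsmul]
    exact hx.symm

/-- change of level and of multiplier -/
lemma cap_mono (U : Subgroup Tow.GQ) {L L' L'' : Level S} (h : L ≤ L') (h' : L' ≤ L'')
    (c : IndM U (CL D L)) (n k : ℕ) (Q : IndM U (JL L'))
    (hQ : IndM.map U (jL D L') Q = IndM.map U (trCL D h) (n • c)) :
    IndM.map U (jL D L'') (k • IndM.map U (trJL h') Q) =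
      IndM.map U (trCL D (h.trans h')) ((k * n) • c) := by
  have e1 : IndM.map U (jL D L'') (IndM.map U (trJL h') Q) =
      IndM.map U (trCL D h') (IndM.map U (jL D L') Q) := by
    have e0 : (jL D L'').comp (trJL h') = (trCL D h').comp (jL D L') :=
      AddMonoidHom.ext (fun y => (trCL_jL hD h' y).symm)
    rw [← IndM.map_comp, ← IndM.map_comp, e0]
  have e2 : IndM.map U (trCL D h') (IndM.map U (trCL D h) (n • c)) =
      IndM.map U (trCL D (h.trans h')) (n • c) := by
    have e0 : (trCL D h').comp (trCL D h) = trCL D (h.trans h') :=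
      AddMonoidHom.ext (fun y => trCL_trCL hD h h' y)
    rw [← IndM.map_comp, e0]
  rw [indM_map_nsmul, e1, hQ, e2, mul_nsmul', indM_map_nsmul, indM_map_nsmul, indM_map_nsmul]

/-- **capitulation**, coefficientwise: GD11 + GD5 + GD7 -/
theorem exists_cap (U : Subgroup Tow.GQ) (L : Level S) (c : IndM U (CL D L)) :
    ∃ (n : ℕ) (L' : Level S) (h : L ≤ L') (Q : IndM U (JL L')), n.Coprime p ∧
      IndM.map U (jL D L') Q = IndM.map U (trCL D h) (n • c) := by
  induction c using IndM.induction_on with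
  | h0 =>
    refine ⟨1, L, le_rfl, 0, Nat.coprime_one_left p, ?_⟩
    rw [smul_zero, map_zero, map_zero]
  | hadd c c' hc hc' =>
    obtain ⟨n, L', h, Q, hn, hQ⟩ := hc
    obtain ⟨n', L'', h', Q', hn', hQ'⟩ := hc'
    have k1 := cap_mono hD hT U h (le_capSup_left S L' L'') c n n' Q hQ
    have k2 := cap_mono hD hT U h' (le_capSup_right S L' L'') c' n' n Q' hQ'
    refine ⟨n * n', capSup S L' L'', h.trans (le_capSup_left S L' L''),
      n' • IndM.map U (trJL (le_capSup_left S L' L'')) Q +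
        n • IndM.map U (trJL (le_capSup_right S L' L'')) Q',
      Nat.Coprime.mul_left hn hn', ?_⟩
    rw [map_add, k1, k2, smul_add, map_add, mul_comm n' n]
  | hsingle x a =>
    obtain ⟨n, L', h, y, hn, hy⟩ := exists_cap_one hD hT L a
    refine ⟨n, L', h, IndM.single U x y, hn, ?_⟩
    have : n • IndM.single U x a = IndM.single U x (n • a) := by
      show IndM.ofF U (n • Finsupp.single x a) = IndM.ofF U (Finsupp.single x (n • a))
      rw [Finsupp.smul_single]
    rw [this, IndM.map_single, IndM.map_single, hy]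

end Cap

end Fermat.Agent.S55.Cap.H239

end
end
-- ===== PACK-END S55/Cap/C1H239/ClassMod.lean

-- ===== PACK-BEGIN S55/GAD/DescH177/Tower.lean
section



/-!
# S55 / G-ADAPTER, leaf GAD-DESC (helper177), part 1: tower-side descent

For levels `L ≤ L'` (`H = Level.relGal h = Gal(L'/L)`):

* `diag_injective`, `diagT_injective` : `Fˣ → J_q(F)` and `Fˣ → ∏_{q ∈ S} J_q(F) × Div^S(F)` are
  injective (`S ≠ ∅`);
* `inclUnits_injective`, `exists_inclUnits_eq_of_fixed` : `(F'ˣ)^H = Fˣ`;
* `inclJ_injective`, `exists_inclJ_eq_of_fixed` : `J_q(F')^H = J_q(F)`.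

Everything is elementary (no arithmetic).
-/

set_option autoImplicit false
set_option linter.unusedSectionVars false
set_option linter.style.haveILetI false

open CategoryTheory

namespace Fermat.Agent.S55.GAD.H177

open Fermat.Agent.S55 Fermat.Agent.S55.Tow Fermat.Agent.S55.E1.H594 Fermat.Agent.S55.G
open Fermat.Agent.S55.GAD

noncomputable section

variable {S : Finset Nat.Primes}

/-! ## Injectivity of the diagonal -/

theorem embQbar_injective (q : Nat.Primes) : Function.Injective (embQbar q) := by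
  intro x y hxy
  apply Additive.toMul.injective
  have h := congrArg Additive.toMul hxy
  exact Units.map_injective (f := (padicEmbedding (q : ℕ)).toRingHom.toMonoidHom)
    (padicEmbedding (q : ℕ)).toRingHom.injective h

theorem embFun_injective (L : Level S) (q : Nat.Primes) : Function.Injective (L.embFun q) := by
  intro x y hxy
  apply L.unitsCoe_injective
  apply embQbar_injective q
  rw [← L.locCoe_embFun, ← L.locCoe_embFun, hxy]

theorem diag_injective (L : Level S) (q : Nat.Primes) : Function.Injective (L.diag q).hom := by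
  intro x y hxy
  apply embFun_injective L q
  have h := congrArg (fun f => L.Jeval q f 1) hxy
  simp only [Level.Jeval_diag, map_one] at h
  exact h

theorem diagT_injective (L : Level S) (hS : S.Nonempty) : Function.Injective (diagT L) := by
  obtain ⟨q, hq⟩ := hS
  intro x y hxy
  apply diag_injective L q
  have h := congrArg (fun z : JDV L => z.1 ⟨q, hq⟩) hxy
  exact h


/-! ## Descent for the units -/

variable {L L' : Level S} (h : L ≤ L')

theorem inclUnits_injective : Function.Injective (Level.inclUnits h) := by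
  intro x y hxy
  apply L.unitsCoe_injective
  rw [← Level.unitsCoe_inclUnits h, ← Level.unitsCoe_inclUnits h, hxy]

theorem trUnits_apply (x : L.units.V) : (Level.trUnits h).hom x = Level.inclUnits h x := rfl

/-- `(F'ˣ)^{Gal(F'/F)} = Fˣ`. -/
theorem exists_inclUnits_eq_of_fixed (z : L'.units.V)
    (hz : ∀ n : L'.Gal, n ∈ Level.relGal h → L'.units.ρ n z = z) :
    ∃ z₀ : L.units.V, Level.inclUnits h z₀ = z := by
  refine ⟨L.unitsMk (L'.unitsCoe z) (fun g hg => ?_), ?_⟩
  · have h1 := hz (QuotientGroup.mk g) ((mk_mem_relGal_iff h g).2 hg)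
    rw [← L'.units_ρ_coe, h1]
  · apply L'.unitsCoe_injective
    rfl

/-! ## Descent for the coinduced modules `J_q` -/

theorem inclLoc_injective (q : Nat.Primes) : Function.Injective (Level.inclLoc h q) := by
  intro x y hxy
  apply L.locCoe_injective q
  rw [← Level.locCoe_inclLoc h, ← Level.locCoe_inclLoc h, hxy]

theorem inclJ_injective (q : Nat.Primes) : Function.Injective (Level.inclJ h q) := by
  intro f f' hff
  apply L.J_ext q
  intro g
  obtain ⟨g', rfl⟩ := level_proj_surjective h g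
  apply inclLoc_injective h q
  rw [← Level.Jeval_inclJ, ← Level.Jeval_inclJ, hff]

theorem trJ_apply (q : Nat.Primes) (f : (L.J q).V) :
    (Level.trJ h q).hom f = Level.inclJ h q f := rfl

theorem projDec_surjective (q : Nat.Primes) : Function.Surjective (Level.projDec h q) := by
  intro d
  induction d using QuotientGroup.induction_on with
  | H τ => exact ⟨QuotientGroup.mk τ, rfl⟩

section JFixed

variable (q : Nat.Primes) (f : (L'.J q).V)
  (hf : ∀ n : L'.Gal, n ∈ Level.relGal h → (L'.J q).ρ n f = f)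

include hf

theorem Jeval_mul_of_fixed (g n : L'.Gal) (hn : n ∈ Level.relGal h) :
    L'.Jeval q f (g * n) = L'.Jeval q f g := by
  rw [← L'.Jeval_ρ, hf n hn]

theorem Jeval_eq_of_proj_eq (g₁ g₂ : L'.Gal) (hg : Level.proj h g₁ = Level.proj h g₂) :
    L'.Jeval q f g₁ = L'.Jeval q f g₂ := by
  have hn : g₂⁻¹ * g₁ ∈ Level.relGal h := by
    unfold Level.relGal
    rw [MonoidHom.mem_ker, map_mul, map_inv, hg, inv_mul_cancel]
  have := Jeval_mul_of_fixed h q f hf g₂ (g₂⁻¹ * g₁) hn
  rw [mul_inv_cancel_left] at this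
  exact this

theorem locCoe_Jeval_fixed (g : L'.Gal) (τ : GQp q) (hτ : τ ∈ L.V q) :
    (unitsQpbar q).ρ τ (L'.locCoe q (L'.Jeval q f g)) = L'.locCoe q (L'.Jeval q f g) := by
  rw [← L'.locUnits_ρ_coe, ← L'.Jeval_mul]
  congr 1
  apply Jeval_eq_of_proj_eq h q f hf
  rw [map_mul]
  have h1 : Level.proj h (L'.decHom q (QuotientGroup.mk τ)) = 1 := by
    rw [Level.decHom_mk, Level.proj_mk]
    exact (QuotientGroup.eq_one_iff _).2 hτ
  rw [h1, one_mul]

/-- The descended element of `J_q(F)`. -/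
def descJ : (L.J q).V :=
  ⟨fun g => L.locMk q (L'.locCoe q (L'.Jeval q f (Function.surjInv (level_proj_surjective h) g)))
      (fun τ hτ => locCoe_Jeval_fixed h q f hf _ τ hτ),
    fun d g => by
      obtain ⟨d', rfl⟩ := projDec_surjective h q d
      apply L.locCoe_injective q
      induction d' using QuotientGroup.induction_on with
      | H τ =>
        rw [Level.projDec_mk, L.locUnits_ρ_coe, Level.locCoe_mk, Level.locCoe_mk,
          ← L'.locUnits_ρ_coe, ← L'.Jeval_mul]
        congr 1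
        apply Jeval_eq_of_proj_eq h q f hf
        rw [Function.surjInv_eq (level_proj_surjective h), map_mul,
          Function.surjInv_eq (level_proj_surjective h), Level.decHom_mk, Level.decHom_mk,
          Level.proj_mk]⟩

theorem locCoe_Jeval_descJ (g : L.Gal) :
    L.locCoe q (L.Jeval q (descJ h q f hf) g) =
      L'.locCoe q (L'.Jeval q f (Function.surjInv (level_proj_surjective h) g)) := rfl

theorem inclJ_descJ : Level.inclJ h q (descJ h q f hf) = f := by
  apply L'.J_ext q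
  intro g
  apply L'.locCoe_injective q
  rw [Level.Jeval_inclJ, Level.locCoe_inclLoc, locCoe_Jeval_descJ]
  congr 1
  apply Jeval_eq_of_proj_eq h q f hf
  rw [Function.surjInv_eq (level_proj_surjective h)]

/-- `J_q(F')^{Gal(F'/F)} = J_q(F)`. -/
theorem exists_inclJ_eq_of_fixed : ∃ f₀ : (L.J q).V, Level.inclJ h q f₀ = f :=
  ⟨descJ h q f hf, inclJ_descJ h q f hf⟩

end JFixed

end

end Fermat.Agent.S55.GAD.H177

end
-- ===== PACK-END S55/GAD/DescH177/Tower.lean

-- ===== PACK-BEGIN S55/K/AR/LibH998.lean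
section
/-
S55 / layer K / block AR : leaf AR-LIB — functoriality of `infSub` / `infUp`.      (helper998)

* `map_comp_apply`, `map_id_apply` : pointwise functoriality of `groupCohomology.map`, for
  group homomorphisms and coefficient maps which compose only PROPOSITIONALLY.
* `resLE hle A n : Hⁿ(H₂, A) → Hⁿ(H₁, A)` for `H₁ ≤ H₂` (restriction); for `H₁ = H₂` it is the
  canonical isomorphism between the cohomology of equal (not defeq) subgroups.
* (i)   `coe_infSub`    : `coe ∘ infSub = infSub ∘ coe` for commuting squares of coefficients;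
* (ii)  `infSub_infSub` : transitivity of inflation, through `resLE`.
-/


set_option autoImplicit false

open CategoryTheory

namespace Fermat.Agent.S55.K.AR.H998

open Fermat.Agent.S55 Fermat.Agent.S55.Tow Fermat.Agent.S55.K.AR

noncomputable section

attribute [local instance 10000] Rep.hV2

section General

variable {Γ Γ' Γ'' : Type} [Group Γ] [Group Γ'] [Group Γ'']

/-- Pointwise extensionality for morphisms of representations. -/
lemma repHom_ext {A B : Rep.{0} ℤ Γ} {f g : A ⟶ B} (h : ∀ x : A.V, f.hom x = g.hom x) :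
    f = g := by
  apply Rep.hom_ext
  apply DFunLike.ext
  exact h

/-! ### Pointwise functoriality of `groupCohomology.map` -/

/-- `map π' ι' ∘ map π ι = map π'' ι''` if `π'' = π ∘ π'` and `ι'' = ι' ∘ ι` pointwise. -/
theorem map_comp_apply (π : Γ' →* Γ) (π' : Γ'' →* Γ') (π'' : Γ'' →* Γ)
    {X : Rep.{0} ℤ Γ} {X' : Rep.{0} ℤ Γ'} {X'' : Rep.{0} ℤ Γ''}
    (ι : Rep.res π X ⟶ X') (ι' : Rep.res π' X' ⟶ X'') (ι'' : Rep.res π'' X ⟶ X'')
    (hπ : ∀ g, π'' g = π (π' g)) (hι : ∀ x : X.V, ι''.hom x = ι'.hom (ι.hom x)) (n : ℕ)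
    (z : groupCohomology X n) :
    (groupCohomology.map π' ι' n).hom ((groupCohomology.map π ι n).hom z) =
      (groupCohomology.map π'' ι'' n).hom z := by
  obtain rfl : π'' = π.comp π' := MonoidHom.ext hπ
  have h := groupCohomology.map_comp (k := ℤ) π π' ι ι' n
  have h2 : ι'' = (Rep.resFunctor π').map ι ≫ ι' := repHom_ext hι
  subst h2
  rw [h]
  rfl

/-- `map π ι = map π₁ ι₁` if `π = π₁` and `ι = ι₁` pointwise. -/
theorem map_congr_apply (π π₁ : Γ' →* Γ) {X : Rep.{0} ℤ Γ} {X' : Rep.{0} ℤ Γ'}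
    (ι : Rep.res π X ⟶ X') (ι₁ : Rep.res π₁ X ⟶ X')
    (hπ : ∀ g, π g = π₁ g) (hι : ∀ x : X.V, ι.hom x = ι₁.hom x) (n : ℕ)
    (z : groupCohomology X n) :
    (groupCohomology.map π ι n).hom z = (groupCohomology.map π₁ ι₁ n).hom z := by
  obtain rfl : π = π₁ := MonoidHom.ext hπ
  have h2 : ι = ι₁ := repHom_ext hι
  subst h2
  rfl

/-- `map id ι = id` if `ι` is the identity pointwise. -/
theorem map_id_apply {X : Rep.{0} ℤ Γ} (π : Γ →* Γ) (ι : Rep.res π X ⟶ X)
    (hπ : ∀ g, π g = g) (hι : ∀ x : X.V, ι.hom x = x) (n : ℕ) (z : groupCohomology X n) :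
    (groupCohomology.map π ι n).hom z = z := by
  obtain rfl : π = MonoidHom.id Γ := MonoidHom.ext hπ
  have h2 : ι = 𝟙 X := repHom_ext hι
  subst h2
  rw [groupCohomology.map_id]
  rfl

/-- Two composites of `groupCohomology.map` agree if the underlying group homomorphisms and
coefficient maps agree pointwise. -/
theorem map_map_eq {G₁ G₂ G₂' G₃ : Type} [Group G₁] [Group G₂] [Group G₂'] [Group G₃]
    {A : Rep.{0} ℤ G₁} {B : Rep.{0} ℤ G₂} {B' : Rep.{0} ℤ G₂'} {C : Rep.{0} ℤ G₃}
    (f : G₂ →* G₁) (g : G₃ →* G₂) (f' : G₂' →* G₁) (g' : G₃ →* G₂')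
    (φ : Rep.res f A ⟶ B) (ψ : Rep.res g B ⟶ C)
    (φ' : Rep.res f' A ⟶ B') (ψ' : Rep.res g' B' ⟶ C)
    (hfg : ∀ x, f (g x) = f' (g' x))
    (hφψ : ∀ a : A.V, ψ.hom (φ.hom a) = ψ'.hom (φ'.hom a)) (n : ℕ)
    (x : groupCohomology A n) :
    (groupCohomology.map g ψ n).hom ((groupCohomology.map f φ n).hom x) =
      (groupCohomology.map g' ψ' n).hom ((groupCohomology.map f' φ' n).hom x) := by
  rw [map_comp_apply f g (f.comp g) φ ψ ((Rep.resFunctor g).map φ ≫ ψ) (fun _ => rfl)
    (fun _ => rfl) n x]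
  rw [map_comp_apply f' g' (f.comp g) φ' ψ' ((Rep.resFunctor g).map φ ≫ ψ) hfg hφψ n x]

/-! ### Restriction between comparable subgroups; equal subgroups -/

/-- The identity of `A` as a semilinear map along the inclusion `H₁ ≤ H₂`. -/
def idSemi {H₁ H₂ : Subgroup Γ} (hle : H₁ ≤ H₂) (A : Rep.{0} ℤ Γ) :
    Rep.res (Subgroup.inclusion hle) (T.resSub A H₂) ⟶ T.resSub A H₁ :=
  E1.Lim.semiOfAdd (Subgroup.inclusion hle) (A := T.resSub A H₂) (B := T.resSub A H₁)
    (AddMonoidHom.id A.V) (fun _ _ => rfl)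

@[simp] lemma idSemi_apply {H₁ H₂ : Subgroup Γ} (hle : H₁ ≤ H₂) (A : Rep.{0} ℤ Γ) (x : A.V) :
    (idSemi hle A).hom x = x := rfl

/-- Restriction `Hⁿ(H₂, A) → Hⁿ(H₁, A)` for `H₁ ≤ H₂`. -/
def resLE {H₁ H₂ : Subgroup Γ} (hle : H₁ ≤ H₂) (A : Rep.{0} ℤ Γ) (n : ℕ) :
    Hn H₂ A n →ₗ[ℤ] Hn H₁ A n :=
  (groupCohomology.map (Subgroup.inclusion hle) (idSemi hle A) n).hom

lemma resLE_self_apply (H : Subgroup Γ) (hle : H ≤ H) (A : Rep.{0} ℤ Γ) (n : ℕ) (x : Hn H A n) :
    resLE hle A n x = x :=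
  map_id_apply (X := T.resSub A H) (Subgroup.inclusion hle) (idSemi hle A)
    (fun _ => rfl) (fun _ => rfl) n x

lemma resLE_resLE_apply {H₁ H₂ H₃ : Subgroup Γ} (h₁₂ : H₁ ≤ H₂) (h₂₃ : H₂ ≤ H₃)
    (A : Rep.{0} ℤ Γ) (n : ℕ) (x : Hn H₃ A n) :
    resLE h₁₂ A n (resLE h₂₃ A n x) = resLE (h₁₂.trans h₂₃) A n x :=
  map_comp_apply (Subgroup.inclusion h₂₃) (Subgroup.inclusion h₁₂)
    (Subgroup.inclusion (h₁₂.trans h₂₃)) (idSemi h₂₃ A) (idSemi h₁₂ A)
    (idSemi (h₁₂.trans h₂₃) A) (fun _ => rfl) (fun _ => rfl) n x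

/-- The canonical isomorphism `Hⁿ(H₁, A) ≃ Hⁿ(H₂, A)` for EQUAL subgroups. -/
def castH {H₁ H₂ : Subgroup Γ} (e : H₁ = H₂) (A : Rep.{0} ℤ Γ) (n : ℕ) :
    Hn H₁ A n ≃ₗ[ℤ] Hn H₂ A n :=
  LinearEquiv.ofLinearMap (resLE e.ge A n) (resLE e.le A n)
    (LinearMap.ext fun x => by
      rw [LinearMap.comp_apply, resLE_resLE_apply, resLE_self_apply, LinearMap.id_apply])
    (LinearMap.ext fun x => by
      rw [LinearMap.comp_apply, resLE_resLE_apply, resLE_self_apply, LinearMap.id_apply])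

@[simp] lemma castH_apply {H₁ H₂ : Subgroup Γ} (e : H₁ = H₂) (A : Rep.{0} ℤ Γ) (n : ℕ)
    (x : Hn H₁ A n) : castH e A n x = resLE e.ge A n x := rfl

@[simp] lemma castH_symm_apply {H₁ H₂ : Subgroup Γ} (e : H₁ = H₂) (A : Rep.{0} ℤ Γ) (n : ℕ)
    (x : Hn H₂ A n) : (castH e A n).symm x = resLE e.le A n x := rfl

lemma resLE_injective_of_eq {H₁ H₂ : Subgroup Γ} (e : H₁ = H₂) (hle : H₁ ≤ H₂)
    (A : Rep.{0} ℤ Γ) (n : ℕ) : Function.Injective (resLE hle A n) :=
  (castH e A n).symm.injective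

lemma resLE_bijective_of_eq {H₁ H₂ : Subgroup Γ} (e : H₁ = H₂) (hle : H₁ ≤ H₂)
    (A : Rep.{0} ℤ Γ) (n : ℕ) : Function.Bijective (resLE hle A n) :=
  (castH e A n).symm.bijective

lemma resLE_eq_zero_iff_of_eq {H₁ H₂ : Subgroup Γ} (e : H₁ = H₂) (hle : H₁ ≤ H₂)
    (A : Rep.{0} ℤ Γ) (n : ℕ) (x : Hn H₂ A n) : resLE hle A n x = 0 ↔ x = 0 :=
  ⟨fun h => resLE_injective_of_eq e hle A n (h.trans (map_zero _).symm),
    fun h => by rw [h, map_zero]⟩

/-- `coe` commutes with restriction. -/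
lemma coe_resLE {H₁ H₂ : Subgroup Γ} (hle : H₁ ≤ H₂) {A B : Rep.{0} ℤ Γ} (f : A ⟶ B) (n : ℕ)
    (x : Hn H₂ A n) : coe H₁ f n (resLE hle A n x) = resLE hle B n (coe H₂ f n x) :=
  map_map_eq (A := T.resSub A H₂) (B := T.resSub A H₁) (B' := T.resSub B H₂)
    (C := T.resSub B H₁) (Subgroup.inclusion hle) (MonoidHom.id ↥H₁) (MonoidHom.id ↥H₂)
    (Subgroup.inclusion hle) (idSemi hle A) ((Rep.resFunctor H₁.subtype).map f)
    ((Rep.resFunctor H₂.subtype).map f) (idSemi hle B) (fun _ => rfl) (fun _ => rfl) n x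

/-! ### (i) naturality of `infSub` in the coefficients -/

/-- **AR-LIB (i)**: `coe ∘ infSub = infSub ∘ coe` for a commuting square of coefficients. -/
theorem coe_infSub (π : Γ' →* Γ) (H : Subgroup Γ) {A B : Rep.{0} ℤ Γ} {A' B' : Rep.{0} ℤ Γ'}
    (f : A ⟶ B) (f' : A' ⟶ B') (t : Rep.res π A ⟶ A') (u : Rep.res π B ⟶ B')
    (hsq : ∀ a : A.V, f'.hom (t.hom a) = u.hom (f.hom a)) (n : ℕ) (x : Hn H A n) :
    coe (H.comap π) f' n (infSub π H t n x) = infSub π H u n (coe H f n x) :=
  map_map_eq (A := T.resSub A H) (B := T.resSub A' (H.comap π)) (B' := T.resSub B H)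
    (C := T.resSub B' (H.comap π)) (projSub π H) (MonoidHom.id ↥(H.comap π))
    (MonoidHom.id ↥H) (projSub π H) (semiSub π H t) ((Rep.resFunctor (H.comap π).subtype).map f')
    ((Rep.resFunctor H.subtype).map f) (semiSub π H u) (fun _ => rfl) hsq n x

/-! ### (ii) transitivity of `infSub` -/

lemma comap_comap_le (π : Γ' →* Γ) (π' : Γ'' →* Γ') (π'' : Γ'' →* Γ)
    (hπ : ∀ g, π'' g = π (π' g)) (H : Subgroup Γ) : (H.comap π).comap π' ≤ H.comap π'' := by
  intro g hg
  show π'' g ∈ H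
  rw [hπ]
  exact hg

lemma comap_comap_eq (π : Γ' →* Γ) (π' : Γ'' →* Γ') (π'' : Γ'' →* Γ)
    (hπ : ∀ g, π'' g = π (π' g)) (H : Subgroup Γ) : (H.comap π).comap π' = H.comap π'' := by
  ext g
  show π (π' g) ∈ H ↔ π'' g ∈ H
  rw [hπ]

/-- **AR-LIB (ii)**: transitivity of inflation.  The two sides live in the cohomology of the
equal subgroups `(H.comap π).comap π'` and `H.comap π''`; they are compared by `resLE`. -/
theorem infSub_infSub (π : Γ' →* Γ) (π' : Γ'' →* Γ') (π'' : Γ'' →* Γ)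
    (hπ : ∀ g, π'' g = π (π' g)) (H : Subgroup Γ)
    {A : Rep.{0} ℤ Γ} {A' : Rep.{0} ℤ Γ'} {A'' : Rep.{0} ℤ Γ''}
    (t : Rep.res π A ⟶ A') (t' : Rep.res π' A' ⟶ A'') (t'' : Rep.res π'' A ⟶ A'')
    (ht : ∀ a : A.V, t''.hom a = t'.hom (t.hom a)) (n : ℕ) (x : Hn H A n) :
    infSub π' (H.comap π) t' n (infSub π H t n x) =
      resLE (comap_comap_le π π' π'' hπ H) A'' n (infSub π'' H t'' n x) :=
  map_map_eq (A := T.resSub A H) (B := T.resSub A' (H.comap π))
    (B' := T.resSub A'' (H.comap π'')) (C := T.resSub A'' ((H.comap π).comap π'))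
    (projSub π H) (projSub π' (H.comap π)) (projSub π'' H)
    (Subgroup.inclusion (comap_comap_le π π' π'' hπ H))
    (semiSub π H t) (semiSub π' (H.comap π) t') (semiSub π'' H t'')
    (idSemi (comap_comap_le π π' π'' hπ H) A'')
    (fun g => Subtype.ext (hπ g.1).symm) (fun a => (ht a).symm) n x

/-- Transitivity, solved for the one-step inflation. -/
theorem infSub_eq_castH (π : Γ' →* Γ) (π' : Γ'' →* Γ') (π'' : Γ'' →* Γ)
    (hπ : ∀ g, π'' g = π (π' g)) (H : Subgroup Γ)
    {A : Rep.{0} ℤ Γ} {A' : Rep.{0} ℤ Γ'} {A'' : Rep.{0} ℤ Γ''}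
    (t : Rep.res π A ⟶ A') (t' : Rep.res π' A' ⟶ A'') (t'' : Rep.res π'' A ⟶ A'')
    (ht : ∀ a : A.V, t''.hom a = t'.hom (t.hom a)) (n : ℕ) (x : Hn H A n) :
    infSub π'' H t'' n x =
      castH (comap_comap_eq π π' π'' hπ H) A'' n
        (infSub π' (H.comap π) t' n (infSub π H t n x)) := by
  rw [infSub_infSub π π' π'' hπ H t t' t'' ht n x, castH_apply, resLE_resLE_apply,
    resLE_self_apply]

/-- If the two-step inflation of `x` vanishes, so does the one-step inflation. -/
theorem infSub_eq_zero_of_infSub_infSub (π : Γ' →* Γ) (π' : Γ'' →* Γ') (π'' : Γ'' →* Γ)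
    (hπ : ∀ g, π'' g = π (π' g)) (H : Subgroup Γ)
    {A : Rep.{0} ℤ Γ} {A' : Rep.{0} ℤ Γ'} {A'' : Rep.{0} ℤ Γ''}
    (t : Rep.res π A ⟶ A') (t' : Rep.res π' A' ⟶ A'') (t'' : Rep.res π'' A ⟶ A'')
    (ht : ∀ a : A.V, t''.hom a = t'.hom (t.hom a)) (n : ℕ) (x : Hn H A n)
    (h0 : infSub π' (H.comap π) t' n (infSub π H t n x) = 0) :
    infSub π'' H t'' n x = 0 := by
  rw [infSub_eq_castH π π' π'' hπ H t t' t'' ht n x, h0, map_zero]

end General

/-! ## The tower -/

section Tower

variable {S : Finset Nat.Primes}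

lemma proj_trans (L L' L'' : Level S) (h : L ≤ L') (h' : L' ≤ L'') (g : L''.Gal) :
    Level.proj (h.trans h') g = Level.proj h (Level.proj h' g) := by
  induction g using QuotientGroup.induction_on with
  | H g => rfl

lemma proj_self (L : Level S) (h : L ≤ L) (g : L.Gal) : Level.proj h g = g := by
  induction g using QuotientGroup.induction_on with
  | H g => rfl

lemma up_up_le {L L' L'' : Level S} (h : L ≤ L') (h' : L' ≤ L'') (H : Subgroup L.Gal) :
    up h' (up h H) ≤ up (h.trans h') H :=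
  comap_comap_le (Level.proj h) (Level.proj h') (Level.proj (h.trans h'))
    (proj_trans L L' L'' h h') H

lemma up_up_eq {L L' L'' : Level S} (h : L ≤ L') (h' : L' ≤ L'') (H : Subgroup L.Gal) :
    up h' (up h H) = up (h.trans h') H :=
  comap_comap_eq (Level.proj h) (Level.proj h') (Level.proj (h.trans h'))
    (proj_trans L L' L'' h h') H

lemma up_self (L : Level S) (h : L ≤ L) (H : Subgroup L.Gal) : up h H = H := by
  ext g
  show Level.proj h g ∈ H ↔ g ∈ H
  rw [proj_self]

/-- The index of `up h H = Gal(F'/K)` in `Gal(F'/ℚ)` is the index of `H = Gal(F/K)`. -/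
lemma index_up {L L' : Level S} (h : L ≤ L') (H : Subgroup L.Gal) :
    (up h H).index = H.index := by
  refine Subgroup.index_comap_of_surjective H ?_
  intro g
  induction g using QuotientGroup.induction_on with
  | H g => exact ⟨QuotientGroup.mk g, rfl⟩

/-- **AR-LIB (i)**, tower form. -/
theorem coe_infUp {L L' : Level S} (h : L ≤ L') (H : Subgroup L.Gal)
    {A B : Rep.{0} ℤ L.Gal} {A' B' : Rep.{0} ℤ L'.Gal}
    (f : A ⟶ B) (f' : A' ⟶ B') (t : Rep.res (Level.proj h) A ⟶ A')
    (u : Rep.res (Level.proj h) B ⟶ B')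
    (hsq : ∀ a : A.V, f'.hom (t.hom a) = u.hom (f.hom a)) (n : ℕ) (x : Hn H A n) :
    coe (up h H) f' n (infUp h H t n x) = infUp h H u n (coe H f n x) :=
  coe_infSub (Level.proj h) H f f' t u hsq n x

/-- **AR-LIB (ii)**, tower form: `inf_{F'→F''} ∘ inf_{F→F'} = inf_{F→F''}` through `resLE`. -/
theorem infUp_infUp {L L' L'' : Level S} (h : L ≤ L') (h' : L' ≤ L'') (H : Subgroup L.Gal)
    {A : Rep.{0} ℤ L.Gal} {A' : Rep.{0} ℤ L'.Gal} {A'' : Rep.{0} ℤ L''.Gal}
    (t : Rep.res (Level.proj h) A ⟶ A') (t' : Rep.res (Level.proj h') A' ⟶ A'')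
    (t'' : Rep.res (Level.proj (h.trans h')) A ⟶ A'')
    (ht : ∀ a : A.V, t''.hom a = t'.hom (t.hom a)) (n : ℕ) (x : Hn H A n) :
    infUp h' (up h H) t' n (infUp h H t n x) =
      resLE (up_up_le h h' H) A'' n (infUp (h.trans h') H t'' n x) :=
  infSub_infSub (Level.proj h) (Level.proj h') (Level.proj (h.trans h'))
    (proj_trans L L' L'' h h') H t t' t'' ht n x

/-- Transitivity solved for the one-step inflation. -/
theorem infUp_trans_eq {L L' L'' : Level S} (h : L ≤ L') (h' : L' ≤ L'') (H : Subgroup L.Gal)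
    {A : Rep.{0} ℤ L.Gal} {A' : Rep.{0} ℤ L'.Gal} {A'' : Rep.{0} ℤ L''.Gal}
    (t : Rep.res (Level.proj h) A ⟶ A') (t' : Rep.res (Level.proj h') A' ⟶ A'')
    (t'' : Rep.res (Level.proj (h.trans h')) A ⟶ A'')
    (ht : ∀ a : A.V, t''.hom a = t'.hom (t.hom a)) (n : ℕ) (x : Hn H A n) :
    infUp (h.trans h') H t'' n x =
      castH (up_up_eq h h' H) A'' n (infUp h' (up h H) t' n (infUp h H t n x)) :=
  infSub_eq_castH (Level.proj h) (Level.proj h') (Level.proj (h.trans h'))
    (proj_trans L L' L'' h h') H t t' t'' ht n x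

/-- If `x` dies after two steps, it dies after the composite step. -/
theorem infUp_trans_eq_zero {L L' L'' : Level S} (h : L ≤ L') (h' : L' ≤ L'')
    (H : Subgroup L.Gal)
    {A : Rep.{0} ℤ L.Gal} {A' : Rep.{0} ℤ L'.Gal} {A'' : Rep.{0} ℤ L''.Gal}
    (t : Rep.res (Level.proj h) A ⟶ A') (t' : Rep.res (Level.proj h') A' ⟶ A'')
    (t'' : Rep.res (Level.proj (h.trans h')) A ⟶ A'')
    (ht : ∀ a : A.V, t''.hom a = t'.hom (t.hom a)) (n : ℕ) (x : Hn H A n)
    (h0 : infUp h' (up h H) t' n (infUp h H t n x) = 0) :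
    infUp (h.trans h') H t'' n x = 0 :=
  infSub_eq_zero_of_infSub_infSub (Level.proj h) (Level.proj h') (Level.proj (h.trans h'))
    (proj_trans L L' L'' h h') H t t' t'' ht n x h0

/-- If `x` dies at `F'`, it dies at every `F'' ≥ F'`. -/
theorem infUp_eq_zero_of_le {L L' L'' : Level S} (h : L ≤ L') (h' : L' ≤ L'')
    (H : Subgroup L.Gal)
    {A : Rep.{0} ℤ L.Gal} {A' : Rep.{0} ℤ L'.Gal} {A'' : Rep.{0} ℤ L''.Gal}
    (t : Rep.res (Level.proj h) A ⟶ A') (t' : Rep.res (Level.proj h') A' ⟶ A'')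
    (t'' : Rep.res (Level.proj (h.trans h')) A ⟶ A'')
    (ht : ∀ a : A.V, t''.hom a = t'.hom (t.hom a)) (n : ℕ) (x : Hn H A n)
    (h0 : infUp h H t n x = 0) :
    infUp (h.trans h') H t'' n x = 0 :=
  infUp_trans_eq_zero h h' H t t' t'' ht n x (by rw [h0, map_zero])

/-- Inflation to the same level is the identity (through `resLE`). -/
theorem infUp_self (L : Level S) (h : L ≤ L) (H : Subgroup L.Gal) {A : Rep.{0} ℤ L.Gal}
    (t : Rep.res (Level.proj h) A ⟶ A) (ht : ∀ a : A.V, t.hom a = a) (n : ℕ) (x : Hn H A n) :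
    infUp h H t n x = resLE (up_self L h H).le A n x :=
  map_congr_apply (X := T.resSub A H) (X' := T.resSub A (up h H)) (projSub (Level.proj h) H)
    (Subgroup.inclusion (up_self L h H).le) (semiSub (Level.proj h) H t)
    (idSemi (up_self L h H).le A) (fun g => Subtype.ext (proj_self L h g.1)) ht n x

/-! ### The transition maps of the tower objects compose -/

lemma trS_trans {L L' L'' : Level S} (h : L ≤ L') (h' : L' ≤ L'') (x : (E1.Lim.sUnits L).V) :
    (E1.Lim.trS (h.trans h')).hom x = (E1.Lim.trS h').hom ((E1.Lim.trS h).hom x) := rfl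

lemma trJtot_trans {L L' L'' : Level S} (h : L ≤ L') (h' : L' ≤ L'') (x : (E1.Lim.Jtot L).V) :
    (E1.Lim.trJtot (h.trans h')).hom x =
      (E1.Lim.trJtot h').hom ((E1.Lim.trJtot h).hom x) := by
  refine E1.Lim.piRep_ext fun q => ?_
  rw [E1.Lim.piTo_trJtot, E1.Lim.piTo_trJtot, E1.Lim.piTo_trJtot]
  apply L''.J_ext q.1
  intro g
  show Level.inclLoc (h.trans h') q.1
      (L.Jeval q.1 (E1.Lim.piTo x q) (Level.proj (h.trans h') g)) =
    Level.inclLoc h' q.1 (Level.inclLoc h q.1
      (L.Jeval q.1 (E1.Lim.piTo x q) (Level.proj h (Level.proj h' g))))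
  rw [proj_trans]
  rfl

variable (D : TowerDatum S)

/-- GD7b: `tr` is transitive. -/
def TrTrans : Prop :=
  ∀ {L L' L'' : Level S} (h : L ≤ L') (h' : L' ≤ L'') (c : (D.C L).V),
    (D.tr h').hom ((D.tr h).hom c) = (D.tr (h.trans h')).hom c

variable {D}

lemma tr_trans (h7b : TrTrans D) {L L' L'' : Level S} (h : L ≤ L') (h' : L' ≤ L'')
    (c : (D.C L).V) : (D.tr (h.trans h')).hom c = (D.tr h').hom ((D.tr h).hom c) :=
  (h7b h h' c).symm

lemma trC1_trans (h7 : E1.Lim.TrCompat D) (h7b : TrTrans D) {L L' L'' : Level S} (h : L ≤ L')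
    (h' : L' ≤ L'') (x : (E1.Lim.C1 D L).V) :
    (E1.Lim.trC1 h7 (h.trans h')).hom x =
      (E1.Lim.trC1 h7 h').hom ((E1.Lim.trC1 h7 h).hom x) := by
  apply E1.Lim.inclC1_injective D L''
  rw [E1.Lim.inclC1_trC1, E1.Lim.inclC1_trC1, E1.Lim.inclC1_trC1]
  exact (h7b h h' _).symm

/-! ### The squares of the tower objects commute -/

lemma diagTot_trS {L L' : Level S} (h : L ≤ L') (e : (E1.Lim.sUnits L).V) :
    (E1.Lim.diagTot L').hom ((E1.Lim.trS h).hom e) =
      (E1.Lim.trJtot h).hom ((E1.Lim.diagTot L).hom e) := by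
  refine E1.Lim.piRep_ext fun q => ?_
  rw [E1.Lim.piTo_trJtot, E1.Lim.piTo_diagTot, E1.Lim.piTo_diagTot, E1.Lim.sIncl_trS]
  apply L'.J_ext q.1
  intro g'
  have h1 : L'.units.ρ g' ((Level.trUnits h).hom ((E1.Lim.sIncl L).hom e)) =
      (Level.trUnits h).hom (L.units.ρ (Level.proj h g') ((E1.Lim.sIncl L).hom e)) :=
    (Rep.hom_comm_apply (Level.trUnits h) g' ((E1.Lim.sIncl L).hom e)).symm
  show L'.embFun q.1 (L'.units.ρ g' ((Level.trUnits h).hom ((E1.Lim.sIncl L).hom e))) =
    Level.inclLoc h q.1 (L.embFun q.1 (L.units.ρ (Level.proj h g') ((E1.Lim.sIncl L).hom e)))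
  rw [h1]
  apply L'.locCoe_injective q.1
  rfl

lemma jTot_trJtot (h7 : E1.Lim.TrCompat D) {L L' : Level S} (h : L ≤ L')
    (x : (E1.Lim.Jtot L).V) :
    (E1.Lim.jTot D L').hom ((E1.Lim.trJtot h).hom x) =
      (D.tr h).hom ((E1.Lim.jTot D L).hom x) :=
  (E1.Lim.tr_jTot h7 h x).symm

lemma jC1_trJtot (h7 : E1.Lim.TrCompat D) {L L' : Level S} (h : L ≤ L')
    (x : (E1.Lim.Jtot L).V) :
    (E1.Lim.jC1 D L').hom ((E1.Lim.trJtot h).hom x) =
      (E1.Lim.trC1 h7 h).hom ((E1.Lim.jC1 D L).hom x) :=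
  (E1.Lim.trC1_jC1 h7 h x).symm

lemma inclC1_trC1 (h7 : E1.Lim.TrCompat D) {L L' : Level S} (h : L ≤ L')
    (c : (E1.Lim.C1 D L).V) :
    (E1.Lim.inclC1 D L').hom ((E1.Lim.trC1 h7 h).hom c) =
      (D.tr h).hom ((E1.Lim.inclC1 D L).hom c) :=
  E1.Lim.inclC1_trC1 h7 h c


lemma inclJ_trJ {L L' : Level S} (h : L ≤ L') (q : S) (x : (L.J q.1).V) :
    (inclJ L' q).hom ((Level.trJ h q.1).hom x) =
      (E1.Lim.trJtot h).hom ((inclJ L q).hom x) := by
  refine E1.Lim.piRep_ext fun q' => ?_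
  rw [E1.Lim.piTo_trJtot]
  by_cases hq : q' = q
  · subst hq
    rw [piTo_inclJ_same, piTo_inclJ_same]
  · rw [piTo_inclJ_of_ne L' hq, piTo_inclJ_of_ne L hq, map_zero]

/-! ### Ready-made instances of (i) -/

section Squares

variable {L L' : Level S} (h : L ≤ L') (H : Subgroup L.Gal) (n : ℕ)

theorem coe_diagTot_infUp (x : Hn H (E1.Lim.sUnits L) n) :
    coe (up h H) (E1.Lim.diagTot L') n (infUp h H (E1.Lim.trS h) n x) =
      infUp h H (E1.Lim.trJtot h) n (coe H (E1.Lim.diagTot L) n x) :=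
  coe_infUp h H (E1.Lim.diagTot L) (E1.Lim.diagTot L') (E1.Lim.trS h) (E1.Lim.trJtot h)
    (diagTot_trS h) n x

theorem coe_jTot_infUp (h7 : E1.Lim.TrCompat D) (x : Hn H (E1.Lim.Jtot L) n) :
    coe (up h H) (E1.Lim.jTot D L') n (infUp h H (E1.Lim.trJtot h) n x) =
      infUp h H (D.tr h) n (coe H (E1.Lim.jTot D L) n x) :=
  coe_infUp h H (E1.Lim.jTot D L) (E1.Lim.jTot D L') (E1.Lim.trJtot h) (D.tr h)
    (jTot_trJtot h7 h) n x

theorem coe_jC1_infUp (h7 : E1.Lim.TrCompat D) (x : Hn H (E1.Lim.Jtot L) n) :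
    coe (up h H) (E1.Lim.jC1 D L') n (infUp h H (E1.Lim.trJtot h) n x) =
      infUp h H (E1.Lim.trC1 h7 h) n (coe H (E1.Lim.jC1 D L) n x) :=
  coe_infUp h H (E1.Lim.jC1 D L) (E1.Lim.jC1 D L') (E1.Lim.trJtot h) (E1.Lim.trC1 h7 h)
    (jC1_trJtot h7 h) n x

theorem coe_inclC1_infUp (h7 : E1.Lim.TrCompat D) (x : Hn H (E1.Lim.C1 D L) n) :
    coe (up h H) (E1.Lim.inclC1 D L') n (infUp h H (E1.Lim.trC1 h7 h) n x) =
      infUp h H (D.tr h) n (coe H (E1.Lim.inclC1 D L) n x) :=
  coe_infUp h H (E1.Lim.inclC1 D L) (E1.Lim.inclC1 D L') (E1.Lim.trC1 h7 h) (D.tr h)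
    (inclC1_trC1 h7 h) n x

theorem coe_inclJ_infUp (q : S) (x : Hn H (L.J q.1) n) :
    coe (up h H) (inclJ L' q) n (infUp h H (Level.trJ h q.1) n x) =
      infUp h H (E1.Lim.trJtot h) n (coe H (inclJ L q) n x) :=
  coe_infUp h H (inclJ L q) (inclJ L' q) (Level.trJ h q.1) (E1.Lim.trJtot h)
    (inclJ_trJ h q) n x

end Squares

/-! ### Ready-made instances of (ii) -/

section Trans

variable {L L' L'' : Level S} (h : L ≤ L') (h' : L' ≤ L'') (H : Subgroup L.Gal) (n : ℕ)

theorem infUp_trS_trans (x : Hn H (E1.Lim.sUnits L) n) :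
    infUp (h.trans h') H (E1.Lim.trS (h.trans h')) n x =
      castH (up_up_eq h h' H) (E1.Lim.sUnits L'') n
        (infUp h' (up h H) (E1.Lim.trS h') n (infUp h H (E1.Lim.trS h) n x)) :=
  infUp_trans_eq h h' H (E1.Lim.trS h) (E1.Lim.trS h') (E1.Lim.trS (h.trans h'))
    (trS_trans h h') n x

theorem infUp_trJtot_trans (x : Hn H (E1.Lim.Jtot L) n) :
    infUp (h.trans h') H (E1.Lim.trJtot (h.trans h')) n x =
      castH (up_up_eq h h' H) (E1.Lim.Jtot L'') n
        (infUp h' (up h H) (E1.Lim.trJtot h') n (infUp h H (E1.Lim.trJtot h) n x)) :=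
  infUp_trans_eq h h' H (E1.Lim.trJtot h) (E1.Lim.trJtot h') (E1.Lim.trJtot (h.trans h'))
    (trJtot_trans h h') n x

theorem infUp_tr_trans (h7b : TrTrans D) (x : Hn H (D.C L) n) :
    infUp (h.trans h') H (D.tr (h.trans h')) n x =
      castH (up_up_eq h h' H) (D.C L'') n
        (infUp h' (up h H) (D.tr h') n (infUp h H (D.tr h) n x)) :=
  infUp_trans_eq h h' H (D.tr h) (D.tr h') (D.tr (h.trans h')) (tr_trans h7b h h') n x

theorem infUp_trC1_trans (h7 : E1.Lim.TrCompat D) (h7b : TrTrans D)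
    (x : Hn H (E1.Lim.C1 D L) n) :
    infUp (h.trans h') H (E1.Lim.trC1 h7 (h.trans h')) n x =
      castH (up_up_eq h h' H) (E1.Lim.C1 D L'') n
        (infUp h' (up h H) (E1.Lim.trC1 h7 h') n (infUp h H (E1.Lim.trC1 h7 h) n x)) :=
  infUp_trans_eq h h' H (E1.Lim.trC1 h7 h) (E1.Lim.trC1 h7 h') (E1.Lim.trC1 h7 (h.trans h'))
    (trC1_trans h7 h7b h h') n x

end Trans

/-! ### `castH` and the usual operations -/

section Cast

variable {Γ : Type} [Group Γ]

lemma castH_eq_zero_iff {H₁ H₂ : Subgroup Γ} (e : H₁ = H₂) (A : Rep.{0} ℤ Γ) (n : ℕ)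
    (x : Hn H₁ A n) : castH e A n x = 0 ↔ x = 0 :=
  (castH e A n).map_eq_zero_iff

lemma castH_nsmul {H₁ H₂ : Subgroup Γ} (e : H₁ = H₂) (A : Rep.{0} ℤ Γ) (n : ℕ) (m : ℕ)
    (x : Hn H₁ A n) : castH e A n (m • x) = m • castH e A n x :=
  map_nsmul (castH e A n) m x

/-- `coe` commutes with `castH`. -/
lemma coe_castH {H₁ H₂ : Subgroup Γ} (e : H₁ = H₂) {A B : Rep.{0} ℤ Γ} (f : A ⟶ B) (n : ℕ)
    (x : Hn H₁ A n) : coe H₂ f n (castH e A n x) = castH e B n (coe H₁ f n x) := by
  rw [castH_apply, castH_apply]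
  exact coe_resLE e.ge f n x

lemma isPPrim_castH {H₁ H₂ : Subgroup Γ} (e : H₁ = H₂) (A : Rep.{0} ℤ Γ) (n : ℕ) (p : ℕ)
    (x : Hn H₁ A n) : IsPPrim p (castH e A n x) ↔ IsPPrim p x := by
  constructor
  · rintro ⟨k, hk⟩
    refine ⟨k, ?_⟩
    rw [← castH_nsmul, castH_eq_zero_iff] at hk
    exact hk
  · rintro ⟨k, hk⟩
    exact ⟨k, by rw [← castH_nsmul, hk, map_zero]⟩

/-- Linear maps preserve `p`-primary torsion. -/
lemma IsPPrim.map {p : ℕ} {A B : Type} [AddCommGroup A] [AddCommGroup B] (f : A →+ B) {x : A}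
    (hx : IsPPrim p x) : IsPPrim p (f x) := by
  obtain ⟨k, hk⟩ := hx
  exact ⟨k, by rw [← map_nsmul, hk, map_zero]⟩

end Cast

end Tower

end

end Fermat.Agent.S55.K.AR.H998

end
-- ===== PACK-END S55/K/AR/LibH998.lean

-- ===== PACK-BEGIN S56/H419/EulerSign.lean
section


/-!
# S56 / W-BASE / leaf ADD, part 3 (helper419): the archimedean term

For an involution `c` (complex conjugation) and `2 ≠ 0` in `k`, the functor `N ↦ N^{c = -1}` is
exact; hence `φ(N) := h⁰ − h¹ + h² + dim N^{c=-1}` is additive on short exact sequences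
(`phi_add`, `PhiAddSpec`, `phiAdd_of`).  Tate's global Euler characteristic formula for `G_{ℚ,S}`
(`p` odd) is the statement `φ ≡ 0`.
-/

set_option autoImplicit false

noncomputable section

namespace Fermat.Agent.S56.H419

open Fermat.Agent.S55.PT groupCohomology Module

section General

variable {k : Type} [Field k] {G : Type} [Group G]

/-- The `(-1)`-eigenspace of `c` on `N`. -/
def minusPart (c : G) (N : Rep.{0, 0, 0} k G) : Submodule k N :=
  LinearMap.ker (N.ρ c + LinearMap.id)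

theorem mem_minusPart {c : G} {N : Rep.{0, 0, 0} k G} {x : N} :
    x ∈ minusPart c N ↔ N.ρ c x = -x := by
  unfold minusPart
  rw [LinearMap.mem_ker, LinearMap.add_apply, LinearMap.id_apply, add_eq_zero_iff_eq_neg]

variable {A B C : Rep.{0, 0, 0} k G} (E : SES A B C) (c : G)

include E in
/-- auxiliary: membership transported along `i`. -/
theorem SES.i_mem_minusPart (a : ↥(minusPart c A)) : E.i a.1 ∈ minusPart c B := by
  rw [mem_minusPart, ← E.hi c a.1, mem_minusPart.1 a.2, map_neg]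

/-- `A^{c=-1} → B^{c=-1}`. -/
def SES.iMinus : ↥(minusPart c A) →ₗ[k] ↥(minusPart c B) :=
  (E.i ∘ₗ (minusPart c A).subtype).codRestrict (minusPart c B) (fun a => by
    rw [mem_minusPart, LinearMap.comp_apply, Submodule.subtype_apply, ← E.hi c a.1,
      mem_minusPart.1 a.2, map_neg])

/-- `B^{c=-1} → C^{c=-1}`. -/
def SES.πMinus : ↥(minusPart c B) →ₗ[k] ↥(minusPart c C) :=
  (E.π ∘ₗ (minusPart c B).subtype).codRestrict (minusPart c C) (fun b => by
    rw [mem_minusPart, LinearMap.comp_apply, Submodule.subtype_apply, ← E.hπ c b.1,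
      mem_minusPart.1 b.2, map_neg])

theorem SES.iMinus_injective : Function.Injective (SES.iMinus E c) := by
  intro x y h
  apply Subtype.ext
  apply E.inj
  exact congrArg Subtype.val h

theorem SES.range_iMinus : LinearMap.range (SES.iMinus E c) = LinearMap.ker (SES.πMinus E c) := by
  ext b
  constructor
  · rintro ⟨a, rfl⟩
    rw [LinearMap.mem_ker]
    apply Subtype.ext
    exact E.π_i a.1
  · intro hb
    rw [LinearMap.mem_ker] at hb
    have hb' : E.π b.1 = 0 := congrArg Subtype.val hb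
    have hmem : b.1 ∈ LinearMap.range E.i := by rw [E.exact]; exact hb'
    obtain ⟨a, ha⟩ := hmem
    have ha' : a ∈ minusPart c A := by
      rw [mem_minusPart]
      apply E.inj
      rw [E.hi c a, ha, mem_minusPart.1 b.2, map_neg, ha]
    exact ⟨⟨a, ha'⟩, Subtype.ext ha⟩

theorem SES.πMinus_surjective (hc : ∀ b : B, B.ρ c (B.ρ c b) = b) (h2 : (2 : k) ≠ 0) :
    Function.Surjective (SES.πMinus E c) := by
  intro x
  obtain ⟨b, hb⟩ := E.surj x.1
  have hx : C.ρ c x.1 = -x.1 := mem_minusPart.1 x.2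
  refine ⟨⟨(2 : k)⁻¹ • (b - B.ρ c b), ?_⟩, ?_⟩
  · rw [mem_minusPart, map_smul, map_sub, hc b, ← smul_neg, neg_sub]
  · apply Subtype.ext
    show E.π ((2 : k)⁻¹ • (b - B.ρ c b)) = x.1
    rw [map_smul, map_sub, E.hπ c b, hb, hx, sub_neg_eq_add, ← two_smul k x.1, smul_smul,
      inv_mul_cancel₀ h2, one_smul]

include E in
/-- Exactness of `N ↦ N^{c=-1}` in terms of dimensions. -/
theorem finrank_minusPart_add (hc : ∀ b : B, B.ρ c (B.ρ c b) = b) (h2 : (2 : k) ≠ 0)
    [FiniteDimensional k B] :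
    finrank k ↥(minusPart c B) = finrank k ↥(minusPart c A) + finrank k ↥(minusPart c C) := by
  have h1 := finrank_eq_of_exact (SES.iMinus E c) (SES.πMinus E c) (SES.range_iMinus E c)
  rw [LinearMap.finrank_range_of_inj (SES.iMinus_injective E c),
    LinearMap.range_eq_top.2 (SES.πMinus_surjective E c hc h2), finrank_top] at h1
  exact h1

/-- `φ(N) = h⁰ − h¹ + h² + dim N^{c=-1}`. -/
def phi (L : LevelSys G) (c : G) (N : Rep.{0, 0, 0} k G) : ℤ :=
  eulerChar L N + finrank k ↥(minusPart c N)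

/-- **ADD, general form, with the archimedean term.** -/
theorem phi_add (hLes0 : Les0Spec) (hLes1 : Les1Spec) (hMid : LesMidSpec)
    (L : LevelSys G) (hN : L.NormalCofinal) (E : SES A B C)
    (hB : L.IsUSmooth B) [FiniteDimensional k B]
    [FiniteDimensional k (L.H1 A)] [FiniteDimensional k (L.H1 B)] [FiniteDimensional k (L.H1 C)]
    [FiniteDimensional k (L.H2 A)] [FiniteDimensional k (L.H2 B)] [FiniteDimensional k (L.H2 C)]
    (hsurj : Function.Surjective (pushH2 E.π E.hπ L))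
    (hc : ∀ b : B, B.ρ c (B.ρ c b) = b) (h2 : (2 : k) ≠ 0) :
    phi L c B = phi L c A + phi L c C := by
  have h1 := eulerChar_add hLes0 hLes1 hMid L hN E hB hsurj
  have h3 := finrank_minusPart_add E c hc h2
  unfold phi
  rw [h1, h3]
  push_cast
  ring

end General

section Global

variable (p : ℕ) [Fact p.Prime] (S : Finset Nat.Primes)

/-- **ADD with archimedean term** (W-BASE, step 1): for an involution `c ∈ G_ℚ` (complex
conjugation) and `p` odd, `φ = h⁰ − h¹ + h² + dim (·)^{c=-1}` is additive on short exact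
sequences of finite-dimensional uniformly smooth `F_p`-representations of `G_{ℚ,S}`. -/
def PhiAddSpec : Prop :=
  p ≠ 2 → ∀ c : _root_.Fermat.Agent.S55.PT.GQ, c * c = 1 →
  ∀ (A B C : Rep.{0, 0, 0} (ZMod p) _root_.Fermat.Agent.S55.PT.GQ) (_E : SES A B C),
    FiniteDimensional (ZMod p) B → (globalLevels S).IsUSmooth B →
    phi (globalLevels S) c B = phi (globalLevels S) c A + phi (globalLevels S) c C

theorem phiAdd_of (hLes0 : Les0Spec) (hLes1 : Les1Spec) (hMid : LesMidSpec)
    (hGN : GlobalNormalCofinalSpec) (hA1 : FinGlobSpec p S) (hH2 : H2FinGlobSpec p S)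
    (hA3 : Surj2GlobSpec p S) : PhiAddSpec p S := by
  intro hp2 c hcc A B C E hfB hB
  have h1 := eulerAdd_of p S hLes0 hLes1 hMid hGN hA1 hH2 hA3 A B C E hfB hB
  have : FiniteDimensional (ZMod p) B := hfB
  have hc : ∀ b : B, B.ρ c (B.ρ c b) = b := fun b => by
    have h := congrArg (fun f => f b) (map_mul B.ρ c c)
    simp only [Module.End.mul_apply] at h
    rw [← h, hcc, map_one, Module.End.one_apply]
  have h2 : (2 : ZMod p) ≠ 0 := by
    intro h
    have h' : ((2 : ℕ) : ZMod p) = 0 := by exact_mod_cast h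
    rw [ZMod.natCast_eq_zero_iff] at h'
    have hp := (Fact.out : p.Prime)
    exact hp2 ((Nat.prime_dvd_prime_iff_eq hp Nat.prime_two).1 h')
  have h3 := finrank_minusPart_add E c hc h2
  unfold phi
  rw [h1, h3]
  push_cast
  ring

end Global

end Fermat.Agent.S56.H419

end

end
-- ===== PACK-END S56/H419/EulerSign.lean

-- ===== PACK-BEGIN S56/Br/H374/TrForm.lean
section



/-!
# Row S56 — BRIDGE (B2): the trace form, `ad⁰ρ̄ ≅ (ad⁰ρ̄(1))′` over `F_p`          (helper374)

`N = resFp p (adTw ρbar p)` is `ad⁰ρ̄(1)` as an `F_p`-representation and `tdual p N = N′` its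
Tate dual.  For an additive `lam : k → F_p` with `lam 1 ≠ 0` the map

    `θ : ad⁰ρ̄ → N′`,  `θ x = (m ↦ lam (tr (m x)))`

is an additive equivariant bijection (`2 ≠ 0`, `k` finite):  `tdualAEq : AEq p (tdual p N) (adRep)`;
local version `tdualLocAEq`.
-/

set_option autoImplicit false
set_option linter.style.haveILetI false
set_option linter.unusedSectionVars false

noncomputable section

namespace Fermat.Agent.S56.Br

open Fermat.Agent.S56 Fermat.Agent.S56.H716 Fermat.Agent.S55.PT groupCohomology ExtCitation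

variable {k : Type} [Field k] (ρbar : ResidualGaloisRep k)

/-! ### Nondegeneracy of the trace pairing on `End⁰ V` -/

/-- The trace pairing on the trace-zero endomorphisms of a plane is nondegenerate (`2 ≠ 0`). -/
theorem eq_zero_of_trace_mul_eq_zero (h2 : (2 : k) ≠ 0) (x : Module.End k ρbar.V)
    (hx : LinearMap.trace k ρbar.V x = 0)
    (h : ∀ m : Module.End k ρbar.V, LinearMap.trace k ρbar.V m = 0 →
      LinearMap.trace k ρbar.V (m * x) = 0) : x = 0 := by
  -- the pairing with every endomorphism vanishes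
  have hall : ∀ m : Module.End k ρbar.V, LinearMap.trace k ρbar.V (m * x) = 0 := by
    intro m
    have h1 := h (val ρbar (tracelessPart ρbar m h2)) (trace_val ρbar _)
    rw [val_tracelessPart, sub_mul, map_sub, smul_mul_assoc, one_mul, map_smul, hx, smul_zero,
      sub_zero] at h1
    exact h1
  let b : Module.Basis (Fin 2) k ρbar.V := Module.finBasisOfFinrankEq k ρbar.V ρbar.finrank_eq
  apply (LinearMap.toMatrix b b).injective
  rw [map_zero]
  apply Matrix.ext_iff_trace_mul_left.2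
  intro M
  rw [Matrix.mul_zero, Matrix.trace_zero]
  have h1 := hall (Matrix.toLin b b M)
  rw [LinearMap.trace_eq_matrix_trace k b, LinearMap.toMatrix_mul, LinearMap.toMatrix_toLin] at h1
  exact h1

variable (p : ℕ) [Fact p.Prime] [CharP k p]

/-- An additive map `k → F_p` which does not kill `1`. -/
theorem exists_lam : ∃ lam : k →+ ZMod p, lam 1 ≠ 0 := by
  letI := fpMod k p k
  by_contra hcon
  push Not at hcon
  have h1 : ∀ φ : Module.Dual (ZMod p) k, φ 1 = 0 := fun φ => hcon φ.toAddMonoidHom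
  exact one_ne_zero ((Module.forall_dual_apply_eq_zero_iff (ZMod p) (1 : k)).1 h1)

/-- `ad⁰ρ̄(1)` as an `F_p`-representation. -/
abbrev adTwFp : Rep.{0, 0, 0} (ZMod p) _root_.Fermat.Agent.S56.GQ := resFp p (adTw ρbar p)

/-- The underlying endomorphism of an element of `adTwFp`. -/
def valFp : (adTwFp ρbar p).V →+ Module.End k ρbar.V :=
  (valTw ρbar p).toAddMonoidHom.comp (resFpAEq p (adTw ρbar p)).e.toAddMonoidHom

/-- A trace-zero endomorphism as an element of `adTwFp`. -/
def mkFp (m : Module.End k ρbar.V) (hm : LinearMap.trace k ρbar.V m = 0) : (adTwFp ρbar p).V :=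
  (resFpAEq p (adTw ρbar p)).e.symm (mkTw ρbar p m hm)

@[simp] theorem valFp_mkFp (m : Module.End k ρbar.V) (hm : LinearMap.trace k ρbar.V m = 0) :
    valFp ρbar p (mkFp ρbar p m hm) = m := rfl

theorem valFp_injective : Function.Injective (valFp ρbar p) := fun a b h =>
  (resFpAEq p (adTw ρbar p)).e.injective (valTw_injective ρbar p h)

theorem trace_valFp (m : (adTwFp ρbar p).V) : LinearMap.trace k ρbar.V (valFp ρbar p m) = 0 :=
  trace_valTw ρbar p _

theorem valFp_ρ (g : _root_.Fermat.Agent.S56.GQ) (m : (adTwFp ρbar p).V) :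
    valFp ρbar p ((adTwFp ρbar p).ρ g m)
      = ((cycK k p g : kˣ) : k) • (ρbar.ρ g * valFp ρbar p m * ρbar.ρ g⁻¹) := rfl

variable {p} in
/-- The functional `m ↦ lam (tr (m x))` on `ad⁰ρ̄(1)`. -/
def trFun (lam : k →+ ZMod p) (x : Module.End k ρbar.V) :
    Module.Dual (ZMod p) (adTwFp ρbar p).V :=
  (lam.comp ((LinearMap.trace k ρbar.V).toAddMonoidHom.comp
    ((AddMonoidHom.mulRight x).comp (valFp ρbar p)))).toZModLinearMap p

variable {p} in
theorem trFun_apply (lam : k →+ ZMod p) (x : Module.End k ρbar.V) (m : (adTwFp ρbar p).V) :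
    trFun ρbar lam x m = lam (LinearMap.trace k ρbar.V (valFp ρbar p m * x)) := rfl

variable {p} in
/-- The trace form `θ : ad⁰ρ̄ → (ad⁰ρ̄(1))′`. -/
def theta (lam : k →+ ZMod p) : (adRep ρbar).V →+ (tdual p (adTwFp ρbar p)).V where
  toFun x := trFun ρbar lam (val ρbar x)
  map_zero' := by
    apply LinearMap.ext
    intro m
    rw [trFun_apply, map_zero, mul_zero, map_zero, map_zero]
    rfl
  map_add' x y := by
    apply LinearMap.ext
    intro m
    rw [LinearMap.add_apply, trFun_apply, trFun_apply, trFun_apply, map_add, mul_add, map_add,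
      map_add]

variable {p} in
theorem theta_apply (lam : k →+ ZMod p) (x : (adRep ρbar).V) (m : (adTwFp ρbar p).V) :
    (theta ρbar lam x : Module.Dual (ZMod p) (adTwFp ρbar p).V) m
      = lam (LinearMap.trace k ρbar.V (valFp ρbar p m * val ρbar x)) := rfl

variable {p} in
theorem theta_injective (h2 : (2 : k) ≠ 0) (lam : k →+ ZMod p) (hlam : lam 1 ≠ 0) :
    Function.Injective (theta ρbar lam) := by
  rw [injective_iff_map_eq_zero]
  intro x hx
  apply val_injective
  rw [map_zero]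
  apply eq_zero_of_trace_mul_eq_zero ρbar h2 _ (trace_val ρbar x)
  intro m hm
  by_contra hne
  -- scale `m` so that the pairing becomes `1`
  set t := LinearMap.trace k ρbar.V (m * val ρbar x) with ht
  have h0 := congrArg (fun φ : Module.Dual (ZMod p) (adTwFp ρbar p).V =>
    φ (mkFp ρbar p (t⁻¹ • m) (by rw [map_smul, hm, smul_zero]))) hx
  have h1 : lam (LinearMap.trace k ρbar.V ((t⁻¹ • m) * val ρbar x)) = 0 := h0
  rw [smul_mul_assoc, map_smul, smul_eq_mul, ← ht, inv_mul_cancel₀ hne] at h1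
  exact hlam h1

variable {p} in
theorem theta_bijective [Finite k] (h2 : (2 : k) ≠ 0) (lam : k →+ ZMod p) (hlam : lam 1 ≠ 0) :
    Function.Bijective (theta ρbar lam) := by
  haveI : Module.Finite k (adTw ρbar p).V := inferInstanceAs (Module.Finite k ↥(End0 ρbar))
  haveI : FiniteDimensional (ZMod p) (adTwFp ρbar p).V := finiteDimensional_resFp p _
  -- `θ` as an `F_p`-linear map `N → N′` (same underlying additive group)
  let e0 : (adTwFp ρbar p).V ≃+ (adRep ρbar).V := (resFpAEq p (adTw ρbar p)).e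
  let f : (adTwFp ρbar p).V →ₗ[ZMod p] Module.Dual (ZMod p) (adTwFp ρbar p).V :=
    ((theta ρbar lam).comp e0.toAddMonoidHom).toZModLinearMap p
  have hf : Function.Injective f := fun a b hab =>
    e0.injective (theta_injective ρbar h2 lam hlam hab)
  have hs : Function.Surjective f :=
    (LinearMap.injective_iff_surjective_of_finrank_eq_finrank
      (Subspace.dual_finrank_eq (K := ZMod p) (V := (adTwFp ρbar p).V)).symm).1 hf
  refine ⟨theta_injective ρbar h2 lam hlam, fun y => ?_⟩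
  obtain ⟨a, ha⟩ := hs y
  exact ⟨e0 a, ha⟩

variable {p} in
/-- Equivariance of the trace form. -/
theorem theta_equivariant (lam : k →+ ZMod p) (g : _root_.Fermat.Agent.S56.GQ) (x : (adRep ρbar).V) :
    theta ρbar lam ((adRep ρbar).ρ g x) = (tdual p (adTwFp ρbar p)).ρ g (theta ρbar lam x) := by
  apply LinearMap.ext
  intro m
  rw [Rep.dualTwist_ρ_apply, LinearMap.smul_apply, LinearMap.comp_apply, theta_apply,
    theta_apply, val_ρ, valFp_ρ, inv_inv, smul_mul_assoc, map_smul]
  -- the trace identity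
  have h3 : LinearMap.trace k ρbar.V (ρbar.ρ g⁻¹ * valFp ρbar p m * ρbar.ρ g * val ρbar x)
      = LinearMap.trace k ρbar.V (valFp ρbar p m * (ρbar.ρ g * val ρbar x * ρbar.ρ g⁻¹)) := by
    rw [mul_assoc, mul_assoc, LinearMap.trace_mul_comm]
    simp only [mul_assoc]
  rw [h3]
  -- the scalars cancel
  set t := LinearMap.trace k ρbar.V (valFp ρbar p m * (ρbar.ρ g * val ρbar x * ρbar.ρ g⁻¹))
  have h4 : ((cycK k p g⁻¹ : kˣ) : k) • t
      = ((((cycloChar p g)⁻¹ : (ZMod p)ˣ) : ZMod p).val : ℕ) • t := by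
    rw [cycK_coe, map_inv, nsmul_eq_mul, ZMod.natCast_val, smul_eq_mul, ZMod.castHom_apply]
  rw [h4, map_nsmul, smul_eq_mul, nsmul_eq_mul, ZMod.natCast_val, ZMod.cast_id, ← mul_assoc,
    ← Units.val_mul, mul_inv_cancel, Units.val_one, one_mul]

/-- **B2.**  The trace form as an additive equivariant bijection `(ad⁰ρ̄(1))′ ≃+ ad⁰ρ̄`. -/
def tdualAEq [Finite k] (h2 : (2 : k) ≠ 0) : AEq p (tdual p (adTwFp ρbar p)) (adRep ρbar) :=
  let lam := (exists_lam (k := k) p).choose
  have hlam : lam 1 ≠ 0 := (exists_lam (k := k) p).choose_spec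
  let e := AddEquiv.ofBijective (theta ρbar lam) (theta_bijective ρbar h2 lam hlam)
  { e := e.symm
    he := fun g φ => by
      apply e.injective
      rw [AddEquiv.apply_symm_apply]
      show _ = theta ρbar lam _
      rw [theta_equivariant]
      congr 1
      exact (e.apply_symm_apply φ).symm }

/-- **B2, local.**  The same bijection for the local Tate dual at `v`. -/
def tdualLocAEq [Finite k] (h2 : (2 : k) ≠ 0) (v : Nat.Primes) :
    AEq p ((Rep.res (rl v) (adTwFp ρbar p)).dualTwist (cycloLoc p v))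
      (Rep.res (rl v) (adRep ρbar)) where
  e := (tdualAEq ρbar p h2).e
  he g φ := by
    have h1 : ((Rep.res (rl v) (adTwFp ρbar p)).dualTwist (cycloLoc p v)).ρ g φ
        = (tdual p (adTwFp ρbar p)).ρ (rl v g) φ := by
      have h0 : (Rep.res (rl v) (adTwFp ρbar p)).ρ g⁻¹ = (adTwFp ρbar p).ρ (rl v g)⁻¹ := by
        rw [← map_inv]
        rfl
      rw [Rep.dualTwist_ρ_apply, Rep.dualTwist_ρ_apply, h0]
      rfl
    rw [h1]
    exact (tdualAEq ρbar p h2).he (rl v g) φ

end Fermat.Agent.S56.Br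

end

end
-- ===== PACK-END S56/Br/H374/TrForm.lean

-- ===== PACK-BEGIN S56/Br/H374/Frames.lean
section



/-!
# Row S56 — BRIDGE: frames.  `BaseStatement` from a numerical inequality in `PT` vocabulary
(helper374)

* `exists_isDualFrame` : a dual frame `D` (plain twisted cocycles) representing ALL of
  `H¹_T(G_ℚ, ad⁰ρ̄(1))` (`PT` level-constant cohomology), `dim D = dim H¹`;
* `exists_selmer_space` : a space `X` of plain cocycles representing `Ш¹_{Smin}(ad⁰ρ̄)`
  (`PT.Sha1`), capturing all strict Selmer cocycles of `Q = ∅`;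
* `base_of_numeric` : `H716.Base` from
  `dim Ш¹_{Smin}(ad⁰) + ∑_{v ∈ Smin} dim H⁰(Gl v, ad⁰) + 1 ≤ dim H¹_{Smin}(ad⁰(1))`.
-/

set_option autoImplicit false
set_option linter.style.haveILetI false
set_option linter.unusedSectionVars false

noncomputable section

namespace Fermat.Agent.S56.Br

open Fermat.Agent.S56 Fermat.Agent.S56.H716 Fermat.Agent.S55.PT groupCohomology ExtCitation

variable {k : Type} [Field k] (ρbar : ResidualGaloisRep k)

section Tw

variable (p : ℕ) [Fact p.Prime] [CharP k p]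

/-- A dual frame representing all of `H¹_T(ad⁰ρ̄(1))`. -/
theorem exists_isDualFrame (T : Finset Nat.Primes)
    [Module.Finite k ((globalLevels T).H1 (adTw ρbar p))] :
    ∃ D : Submodule k (_root_.Fermat.Agent.S56.GQ → Module.End k ρbar.V), IsDualFrame ρbar p D ∧
      (∀ y ∈ D, ∀ q : Nat.Primes, q ∉ T → UnramAt ρbar y (q : ℕ)) ∧
      Module.finrank k D = Module.finrank k ((globalLevels T).H1 (adTw ρbar p)) := by
  obtain ⟨s, hs⟩ := ((globalLevels T).H1π (adTw ρbar p)).exists_rightInverse_of_surjective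
    (LinearMap.range_eq_top.2 ((globalLevels T).H1π_surjective (adTw ρbar p)))
  have hs' : ∀ x, (globalLevels T).H1π (adTw ρbar p) (s x) = x := fun x =>
    DFunLike.congr_fun hs x
  let φ : (globalLevels T).H1 (adTw ρbar p) →ₗ[k] (_root_.Fermat.Agent.S56.GQ → Module.End k ρbar.V) :=
    (toEndTw ρbar p).comp (((globalLevels T).Z1 (adTw ρbar p)).subtype.comp s)
  have hφ : Function.Injective φ := by
    intro x y hxy
    have h1 : (s x : _root_.Fermat.Agent.S56.GQ → adTw ρbar p) = s y := toEndTw_injective ρbar p hxy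
    have h2 : s x = s y := Subtype.ext h1
    rw [← hs' x, ← hs' y, h2]
  refine ⟨LinearMap.range φ, ⟨?_, inferInstance, ?_⟩, ?_, LinearMap.finrank_range_of_inj hφ⟩
  · rintro _ ⟨x, rfl⟩
    exact ((mem_Z1_global_tw_iff ρbar p T _).1 (s x).2).1
  · rintro _ ⟨x, rfl⟩ hcob
    have h1 : ((s x : (globalLevels T).Z1 (adTw ρbar p)) : _root_.Fermat.Agent.S56.GQ → adTw ρbar p)
        ∈ LevelSys.B1 (adTw ρbar p) := (isTwCoboundary_toEndTw_iff ρbar p _).1 hcob
    have h2 : x = 0 := by
      rw [← hs' x]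
      exact ((globalLevels T).H1π_eq_zero_iff (adTw ρbar p) (s x)).2 h1
    rw [h2, map_zero]
  · rintro _ ⟨x, rfl⟩
    exact ((mem_Z1_global_tw_iff ρbar p T _).1 (s x).2).2

end Tw

/-! ### Strict Selmer classes of `Q = ∅` -/

/-- Representatives: the class of `f` lies in `Ш¹` iff all local restrictions are coboundaries. -/
theorem H1π_mem_Sha1_iff' (T : Finset Nat.Primes) (c : ↥((globalLevels T).Z1 (adRep ρbar))) :
    (globalLevels T).H1π (adRep ρbar) c ∈ Sha1 (hrl T) (adRep ρbar) ↔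
      ∀ v : Nat.Primes, v ∈ T →
        ((c : _root_.Fermat.Agent.S56.GQ → adRep ρbar) ∘ rl v : Gl v → adRep ρbar)
          ∈ LevelSys.B1 (Rep.res (rl v) (adRep ρbar)) := by
  rw [LinearMap.mem_ker]
  constructor
  · intro h v hv
    have h1 := congrFun h ⟨v, hv⟩
    rw [loc1_apply, resH1_mk] at h1
    exact ((localLevels v).H1π_eq_zero_iff _ _).1 h1
  · intro h
    funext v
    rw [loc1_apply, resH1_mk]
    exact ((localLevels v.1).H1π_eq_zero_iff _ _).2 (h v.1 v.2)

/-- A space `X` of plain cocycles representing `Ш¹_{Smin}(ad⁰ρ̄)`: it captures every strict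
Selmer cocycle of `Q = ∅`, and `dim X = dim Ш¹`. -/
theorem exists_selmer_space (h2 : (2 : k) ≠ 0) (Smin : Finset ℕ)
    (Pl : ℕ → ValuationSubring Qb) (hPl : ∀ v ∈ Smin, (Pl v).LiesOverPrime v)
    (hS : ∀ v ∈ Smin, v.Prime)
    [Module.Finite k ↥(Sha1 (hrl (primesOf Smin)) (adRep ρbar))] :
    ∃ X : Submodule k (_root_.Fermat.Agent.S56.GQ → Module.End k ρbar.V), Module.Finite k X ∧
      (∀ c, IsSelCocycle ρbar Pl (fun _ => ⊥) Smin ∅ c →
        ∃ t ∈ X, IsAdCoboundary ρbar (c - t)) ∧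
      Module.finrank k X = Module.finrank k ↥(Sha1 (hrl (primesOf Smin)) (adRep ρbar)) := by
  set T := primesOf Smin with hT
  obtain ⟨s, hs⟩ := ((globalLevels T).H1π (adRep ρbar)).exists_rightInverse_of_surjective
    (LinearMap.range_eq_top.2 ((globalLevels T).H1π_surjective (adRep ρbar)))
  have hs' : ∀ x, (globalLevels T).H1π (adRep ρbar) (s x) = x := fun x =>
    DFunLike.congr_fun hs x
  let φ : ↥(Sha1 (hrl T) (adRep ρbar)) →ₗ[k] (_root_.Fermat.Agent.S56.GQ → Module.End k ρbar.V) :=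
    (toEnd ρbar).comp ((((globalLevels T).Z1 (adRep ρbar)).subtype.comp s).comp
      (Sha1 (hrl T) (adRep ρbar)).subtype)
  have hφ : Function.Injective φ := by
    intro x y hxy
    have h1 : (s x.1 : _root_.Fermat.Agent.S56.GQ → adRep ρbar) = s y.1 := toEnd_injective ρbar hxy
    have h3 : s x.1 = s y.1 := Subtype.ext h1
    apply Subtype.ext
    rw [← hs' x.1, ← hs' y.1, h3]
  refine ⟨LinearMap.range φ, inferInstance, ?_, LinearMap.finrank_range_of_inj hφ⟩
  intro c hc
  -- `c = toEnd f`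
  let f : _root_.Fermat.Agent.S56.GQ → adRep ρbar := ofEnd ρbar c hc.cocycle.trace_eq_zero
  have hcf : toEnd ρbar f = c := rfl
  have hsel := (isSelCocycle_bot_iff ρbar h2 Smin ∅ Pl hPl hS f).1 (hcf ▸ hc)
  rw [Finset.union_empty] at hsel
  let z : ↥((globalLevels T).Z1 (adRep ρbar)) := ⟨f, hsel.1⟩
  have hx : (globalLevels T).H1π (adRep ρbar) z ∈ Sha1 (hrl T) (adRep ρbar) :=
    (H1π_mem_Sha1_iff' ρbar T z).2 (fun v hv => hsel.2 v (mem_primesOf.1 hv))
  refine ⟨φ ⟨_, hx⟩, ⟨_, rfl⟩, ?_⟩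
  have h1 : (globalLevels T).H1π (adRep ρbar) (z - s ((globalLevels T).H1π (adRep ρbar) z)) = 0 := by
    rw [((globalLevels T).H1π (adRep ρbar)).map_sub z (s _), hs', sub_self]
  have h3 := ((globalLevels T).H1π_eq_zero_iff (adRep ρbar) _).1 h1
  have h4 := (isAdCoboundary_toEnd_iff ρbar h2 _).2 h3
  have h5 : toEnd ρbar ((z - s ((globalLevels T).H1π (adRep ρbar) z) :
      ↥((globalLevels T).Z1 (adRep ρbar))) : _root_.Fermat.Agent.S56.GQ → adRep ρbar) = c - φ ⟨_, hx⟩ := by
    rw [Submodule.coe_sub, map_sub]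
    rfl
  rw [h5] at h4
  exact h4

/-! ### `Base` from a numerical inequality -/

/-- The standard places: the Prelude's place over `v` when `v` is prime. -/
def stdPl (v : ℕ) : ValuationSubring Qb :=
  if h : v.Prime then primeLocalPlace ⟨v, h⟩ else ⊤

theorem stdPl_coe (v : Nat.Primes) : stdPl (v : ℕ) = primeLocalPlace v := by
  unfold stdPl
  rw [dif_pos v.2]
  rfl

theorem stdPl_liesOver {v : ℕ} (hv : v.Prime) : (stdPl v).LiesOverPrime v := by
  have h1 := primeLocalPlace_liesOver ⟨v, hv⟩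
  have h2 := stdPl_coe ⟨v, hv⟩
  rw [← h2] at h1
  exact h1

theorem finrank_adInv_stdPl (v : Nat.Primes) :
    Module.finrank k (adInv ρbar ((stdPl (v : ℕ)).decompositionSubgroup ℚ))
      = Module.finrank k ↥(LevelSys.H0 (Rep.res (rl v) (adRep ρbar))) := by
  rw [stdPl_coe]
  exact (adInvLocalEquiv ρbar v).finrank_eq

theorem sum_finrank_adInv_stdPl (Smin : Finset ℕ) (hS : ∀ v ∈ Smin, v.Prime) :
    ∑ v ∈ Smin, Module.finrank k (adInv ρbar ((stdPl v).decompositionSubgroup ℚ))
      = ∑ v ∈ primesOf Smin, Module.finrank k ↥(LevelSys.H0 (Rep.res (rl v) (adRep ρbar))) := by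
  rw [← Finset.sum_subtype_of_mem
    (fun v => Module.finrank k (adInv ρbar ((stdPl v).decompositionSubgroup ℚ))) hS]
  exact Finset.sum_congr rfl (fun v _ => finrank_adInv_stdPl ρbar v)

/-- **BASE from `PT` numerics.**  `H716.Base` follows from the inequality
`dim Ш¹_{Smin}(ad⁰ρ̄) + ∑_{v ∈ Smin} dim H⁰(Gl v, ad⁰ρ̄) + 1 ≤ dim H¹_{Smin}(ad⁰ρ̄(1))`
between dimensions of `PT` level-constant cohomology groups over `k`. -/
theorem base_of_numeric (𝒪 : Type) [CommRing 𝒪] [IsDomain 𝒪] [IsDiscreteValuationRing 𝒪]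
    (p : ℕ) [Fact p.Prime] [CharP (IsLocalRing.ResidueField 𝒪) p]
    (ρbar : ResidualGaloisRep (IsLocalRing.ResidueField 𝒪)) (Smin : Finset ℕ)
    (h2 : (2 : IsLocalRing.ResidueField 𝒪) ≠ 0) (hS : ∀ v ∈ Smin, v.Prime)
    [Module.Finite (IsLocalRing.ResidueField 𝒪)
      ((globalLevels (primesOf Smin)).H1 (adTw ρbar p))]
    [Module.Finite (IsLocalRing.ResidueField 𝒪) ↥(Sha1 (hrl (primesOf Smin)) (adRep ρbar))]
    (hnum : Module.finrank (IsLocalRing.ResidueField 𝒪)
          ↥(Sha1 (hrl (primesOf Smin)) (adRep ρbar))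
        + ∑ v ∈ primesOf Smin, Module.finrank (IsLocalRing.ResidueField 𝒪)
            ↥(LevelSys.H0 (Rep.res (rl v) (adRep ρbar))) + 1
        ≤ Module.finrank (IsLocalRing.ResidueField 𝒪)
            ((globalLevels (primesOf Smin)).H1 (adTw ρbar p))) :
    Base 𝒪 p ρbar Smin := by
  obtain ⟨D, hD, hDur, hDrank⟩ := exists_isDualFrame ρbar p (primesOf Smin)
  obtain ⟨X, hXfin, hX, hXrank⟩ := exists_selmer_space ρbar h2 Smin stdPl
    (fun v hv => stdPl_liesOver (hS v hv)) hS
  refine ⟨stdPl, fun v hv => stdPl_liesOver (hS v hv), D, X, hD, ?_, hXfin, hX, ?_⟩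
  · intro y hy q hq hqS
    exact hDur y hy ⟨q, hq⟩ (fun h => hqS (mem_primesOf.1 h))
  · rw [hXrank, hDrank, sum_finrank_adInv_stdPl ρbar Smin hS]
    exact hnum

end Fermat.Agent.S56.Br

end

end
-- ===== PACK-END S56/Br/H374/Frames.lean

-- ===== PACK-BEGIN S56/Assembly.lean
section








/-!
# Row S56 — ASSEMBLY of the finished pieces (row-lead helper956)

Everything of S56 except the Selmer bound is proved:

* `twPrimes : TWPrimesStatement`                      (TWP ⇐ P3 + Lib/Cheb Tier 1)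
* `tangentBoundOrd_of_selBound`, `tangentBoundFlat_of_selBound` : SELBOUND ⇒ TB (DICT proved)
* P1 = `H134.powerSeriesSurj`.

So  `S56 ⇐ H716.SelBoundOrdStatement + H716.SelBoundFlatStatement`  via `Glue.result_of_inputs`.
-/

set_option autoImplicit false

namespace Fermat.Agent.S56

/-- **(TWP)** Taylor–Wiles primes killing a dual Selmer frame exist. -/
theorem twPrimes : TWPrimesStatement :=
  H956.twPrimesOfElement P3.H306.twElement Fermat.Agent.Lib.Cheb.frobeniusDivision

/-- **(P1)** few tangent vectors ⇒ quotient of a power series ring. -/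
theorem powerSeriesSurj : PowerSeriesSurjStatement :=
  H134.powerSeriesSurj

/-- (TB-ord) from the Selmer bound. -/
theorem tangentBoundOrd_of_selBound (h : H716.SelBoundOrdStatement) :
    TangentBoundOrdStatement :=
  H716.tangentBoundOrd_of H596.dictOrd h

/-- (TB-flat) from the Selmer bound. -/
theorem tangentBoundFlat_of_selBound (h : H716.SelBoundFlatStatement) :
    TangentBoundFlatStatement :=
  H716.tangentBoundFlat_of H596.dictFlat h

end Fermat.Agent.S56

end
-- ===== PACK-END S56/Assembly.lean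

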