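import Fermat.Agent.Pack.S43GC.G0E15L2
import Fermat.Agent.Pack.S43GC.G0E15L1
import Fermat.Agent.Pack.S43GC.G0E7L1
import Fermat.Agent.Pack.S43GC.G0E5L0
import Fermat.Agent.Pack.S43GC.G0E13L2
import Fermat.Agent.Pack.S43GC.G0E5L1
import Fermat.Agent.Pack.S43GC.G0E9L3
import Fermat.Agent.Pack.S43GC.G0E9L1
import Fermat.Agent.Pack.S43GC.G0E12L2
import Fermat.Agent.Pack.S43GC.G0E12L0
import Fermat.Agent.Pack.S43GC.G0E16L2
import Fermat.Agent.Pack.S43GC.G0E1L1
import Fermat.Agent.Pack.S43GC.G0E16L3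
import Fermat.Agent.Pack.S43GC.G0E5L2
import Fermat.Agent.Pack.S43GC.G0E16L1
import Fermat.Agent.Pack.S43GC.G0E10L3
import Fermat.Agent.Pack.S43GC.G0E16L0
import Fermat.Agent.Pack.S44C.G0E12L3
import Fermat.Agent.Pack.Fast891

-- ===== PACK-BEGIN S55/PT/H123/TopGlobA.lean
section


/-!
# S55 / layer D, leaf D-T2b (global dévissage), part A: generic lemmas   (helper123)

Generic setting: global group `G` with levels `L`, local groups `Gv v` with levels `Lv v`,
level-compatible maps `r v`, a character `χ` and a family `inv` satisfying reciprocity.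

* `topGlobFun_push`, `topT3_push` : naturality of the global top map in the module;
* `topT3_surjective_of` : `Θ(N)` is surjective as soon as ONE local top pairing is;
* `charHomPull` and left exactness of `charHom χ −`.
-/

set_option autoImplicit false
set_option linter.unusedSectionVars false

noncomputable section

namespace Fermat.Agent.S55.PT.H123

open groupCohomology Fermat.Agent.S55.PT

variable {k : Type} [Field k] {G : Type} [Group G]

/-! ### linear algebra -/

/-- Over a field, a linear map `φ` killing `ker u` factors through `u`. -/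
lemma exists_factor {V W X : Type} [AddCommGroup V] [Module k V] [AddCommGroup W] [Module k W]
    [AddCommGroup X] [Module k X] (u : V →ₗ[k] W) (φ : V →ₗ[k] X)
    (h : ∀ v, u v = 0 → φ v = 0) : ∃ δ : W →ₗ[k] X, ∀ v, δ (u v) = φ v := by
  have hle : LinearMap.ker u ≤ LinearMap.ker φ := fun v hv => h v hv
  obtain ⟨g, hg⟩ := ((LinearMap.ker u).liftQ u le_rfl).exists_leftInverse_of_injective
    (Submodule.ker_liftQ_eq_bot _ _ _ le_rfl)
  refine ⟨((LinearMap.ker u).liftQ φ hle) ∘ₗ g, fun v => ?_⟩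
  have h1 : g (u v) = Submodule.Quotient.mk v := by
    have := LinearMap.congr_fun hg (Submodule.Quotient.mk v)
    simpa using this
  rw [LinearMap.comp_apply, h1]
  rfl

/-- `exists_factor` for maps between subspaces of dual spaces (stated separately because of the
`AddCommMonoid`/`AddCommGroup` instance paths on such subspaces). -/
lemma exists_factor_sub {V V' : Type} [AddCommGroup V] [Module k V] [AddCommGroup V']
    [Module k V'] (W : Submodule k (Module.Dual k V)) (W' : Submodule k (Module.Dual k V'))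
    (u : ↥W →ₗ[k] ↥W') (φ : Module.Dual k ↥W) (h : ∀ v, u v = 0 → φ v = 0) :
    ∃ δ : Module.Dual k ↥W', ∀ v, δ (u v) = φ v :=
  @exists_factor k _ ↥W ↥W' k _ _ _ _ _ _ u φ h

/-! ### pull-back of `χ`-equivariant functionals -/

section Pull

variable (χ : G →* kˣ) {N N' : Rep.{0, 0, 0} k G} (φ : N →ₗ[k] N') (hφ : IsEquivariant φ)

/-- `f ↦ f ∘ φ` on `χ`-equivariant functionals -/
def charHomPull : ↥(charHom χ N') →ₗ[k] ↥(charHom χ N) where
  toFun f := ⟨(f : Module.Dual k N') ∘ₗ φ, fun g n => by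
    have hφ' : ∀ (g : G) (a : N), φ (N.ρ g a) = N'.ρ g (φ a) := hφ
    rw [LinearMap.comp_apply, LinearMap.comp_apply, hφ' g n]
    exact f.2 g (φ n)⟩
  map_add' _ _ := rfl
  map_smul' _ _ := rfl

@[simp] lemma coe_charHomPull (f : ↥(charHom χ N')) :
    ((charHomPull χ φ hφ f : ↥(charHom χ N)) : Module.Dual k N) =
      (f : Module.Dual k N') ∘ₗ φ := rfl

end Pull

/-- left exactness of `charHom χ −`: a `χ`-equivariant functional on `B` killing `i(A)` comes
from a `χ`-equivariant functional on `C`. -/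
lemma ker_charHomPull_le {A B C : Rep.{0, 0, 0} k G} (χ : G →* kˣ) (E : SES A B C) :
    LinearMap.ker (charHomPull χ E.i E.hi) ≤ LinearMap.range (charHomPull χ E.π E.hπ) := by
  intro f hf
  have hf0 : ∀ a : A, (f : Module.Dual k B) (E.i a) = 0 := by
    intro a
    have := congrArg (fun x : ↥(charHom χ A) => (x : Module.Dual k A) a) (LinearMap.mem_ker.1 hf)
    exact this
  have hker : LinearMap.ker E.π ≤ LinearMap.ker (f : Module.Dual k B) := by
    intro b hb
    rw [← E.exact] at hb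
    obtain ⟨a, rfl⟩ := hb
    exact hf0 a
  -- `f' = f ∘ sec`
  have hfac : ∀ b : B, (f : Module.Dual k B) (E.sec (E.π b)) = (f : Module.Dual k B) b := by
    intro b
    have h1 : E.sec (E.π b) - b ∈ LinearMap.ker E.π := by
      rw [LinearMap.mem_ker, map_sub, E.π_sec, sub_self]
    have h2 := hker h1
    rw [LinearMap.mem_ker, map_sub, sub_eq_zero] at h2
    exact h2
  have hπ' : ∀ (g : G) (b : B), E.π (B.ρ g b) = C.ρ g (E.π b) := E.hπ
  refine ⟨⟨(f : Module.Dual k B) ∘ₗ E.sec, fun g c => ?_⟩, ?_⟩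
  · obtain ⟨b, rfl⟩ := E.surj c
    rw [LinearMap.comp_apply, LinearMap.comp_apply, ← hπ' g b, hfac, hfac]
    exact f.2 g b
  · apply Subtype.ext
    apply LinearMap.ext
    intro b
    exact hfac b

section Glob

variable {ι : Type} [Fintype ι] [DecidableEq ι] {Gv : ι → Type} [∀ v, Group (Gv v)]
variable {L : LevelSys G} {Lv : ∀ v, LevelSys (Gv v)} {r : ∀ v, Gv v →* G}
variable (hr : ∀ v, IsLevelCompatible (r v) L (Lv v))
variable {χ : G →* kˣ} {inv : ∀ v, (Lv v).H2 (ofChar (χ.comp (r v))) →ₗ[k] k}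

/-- naturality of `topGlobFun` in the module -/
lemma topGlobFun_push {N N' : Rep.{0, 0, 0} k G} (φ : N →ₗ[k] N') (hφ : IsEquivariant φ)
    (x : (v : ι) → (Lv v).H2 (Rep.res (r v) N)) (f : ↥(charHom χ N')) :
    topGlobFun χ inv N' (pushLoc2 φ hφ x) f = topGlobFun χ inv N x (charHomPull χ φ hφ f) := by
  rw [topGlobFun_apply, topGlobFun_apply]
  refine Finset.sum_congr rfl fun v _ => ?_
  congr 1
  rw [pushLoc2_apply]
  obtain ⟨c, hc⟩ := (Lv v).H2π_surjective _ (x v)
  rw [← hc]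
  rfl

/-- `Θ(N)` is surjective as soon as one local top pairing is surjective. -/
theorem topT3_surjective_of (hrec : IsRecip hr χ inv) (N : Rep.{0, 0, 0} k G) (v₀ : ι)
    (hloc : Function.Surjective
      (topPair (Lv v₀) (χ.comp (r v₀)) (inv v₀) (Rep.res (r v₀) N))) :
    Function.Surjective (topT3 hr N hrec) := by
  intro φ
  have hinj : Function.Injective (charHomRes χ N (r v₀)) := by
    intro f f' h
    apply Subtype.ext
    have := congrArg (fun x : ↥(charHom (χ.comp (r v₀)) (Rep.res (r v₀) N)) =>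
      (x : Module.Dual k N)) h
    exact this
  obtain ⟨ψ, hψ⟩ := exists_factor_sub (charHom χ N) (charHom (χ.comp (r v₀)) (Rep.res (r v₀) N))
    (charHomRes χ N (r v₀)) φ (fun f hf => by
      have : f = 0 := hinj (hf.trans (map_zero _).symm)
      rw [this, map_zero])
  obtain ⟨y, hy⟩ := hloc ψ
  refine ⟨T3π hr N (Pi.single v₀ y), ?_⟩
  rw [topT3_mk]
  apply LinearMap.ext
  intro f
  rw [topGlobFun_apply, Finset.sum_eq_single v₀]
  · rw [Pi.single_eq_same, ← topPair_apply, hy, hψ]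
  · intro v _ hv
    rw [Pi.single_eq_of_ne hv, map_zero, map_zero]
  · intro h
    exact absurd (Finset.mem_univ v₀) h

end Glob

end Fermat.Agent.S55.PT.H123

end

end
-- ===== PACK-END S55/PT/H123/TopGlobA.lean

-- ===== PACK-BEGIN S55/KL/Closed.lean
section










/-!
# S55, layer KL: assembly of input A4 (`PT.Surj2LocSpec`) of the duality engine

`surj2Loc_of_leaves` : the four outstanding leaves (`KummerH3Spec`, `CdScalarsSpec`,
`LocalH2Spec`, `LocalH3Spec`) imply `PT.Surj2LocSpec p S`.  Everything else is closed.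

Architect/owner: helper183.
-/

set_option autoImplicit false

namespace Fermat.Agent.S55.KL

/-- The abstract machine, closed up to the Kummer chase: `KummerH3Spec ⇒ CdSpec`. -/
theorem cd_of_kummer (hK : KummerH3Spec) : CdSpec :=
  H593.cd_of_leaves hK H543.devSylow H783.devPGroup

/-- The local hypotheses, closed up to `H²`, `H³` of local fields. -/
theorem localKummerHyp_of_h23 (hH2 : LocalH2Spec) (hH3 : LocalH3Spec) : LocalKummerHypSpec :=
  H593.localKummerHyp_of H587.unitsSmooth H587.unitsDiv H587.unitsTors hH2 hH3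
    H215.localDegree Fermat.Agent.S55.T.H572.cardTorsion

/-- `cd_p(Gal(ℚ̄_q/ℚ_q)) ≤ 2` from the four outstanding leaves. -/
theorem localCd_of_leaves (hK : KummerH3Spec) (hSc : CdScalarsSpec) (hH2 : LocalH2Spec)
    (hH3 : LocalH3Spec) : LocalCdSpec :=
  H593.localCd_of (cd_of_kummer hK) (localKummerHyp_of_h23 hH2 hH3) hSc

/-- **Input A4 of layer D** from the four outstanding leaves. -/
theorem surj2Loc_of_leaves (hK : KummerH3Spec) (hSc : CdScalarsSpec) (hH2 : LocalH2Spec)
    (hH3 : LocalH3Spec) (p : ℕ) [Fact p.Prime] (S : Finset Nat.Primes) :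
    PT.Surj2LocSpec p S :=
  surj2Loc_of_cd p S H898.surjH2 (localCd_of_leaves hK hSc hH2 hH3)

end Fermat.Agent.S55.KL

end
-- ===== PACK-END S55/KL/Closed.lean

-- ===== PACK-BEGIN S55/Local/H953/T3p.lean
section



/-!
# S55, layer L: (T3') `CyclicH2CardStatement`, unconditional

`|H²(Gal(L/K), Lˣ)| = [L : K]` for `L / K` cyclic: helper717's glue `cyclicH2Card_of` applied to
`cyclicNormIndex` (T3).
-/

set_option autoImplicit false

namespace Fermat.Agent.S55.Local.H953

/-- **(T3')** `|H²(Gal(L/K), Lˣ)| = [L : K]` for `L / K` cyclic. -/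
theorem cyclicH2Card : CyclicH2CardStatement :=
  Fermat.Agent.S55.Local.H717.cyclicH2Card_of cyclicNormIndex

end Fermat.Agent.S55.Local.H953

end
-- ===== PACK-END S55/Local/H953/T3p.lean

-- ===== PACK-BEGIN S55/T/NakayamaH719.lean
section



/-!
# S55, layer T, leaf T6a: Nakayama's theorem `Hom(lattice, coh. trivial)` is coh. trivial
(helper719)

Main result: `nakayama : NakayamaSpec` (Spec2.lean of helper53), i.e. for a finite group `G`,
`X R : Rep ℤ G` with `X` cohomologically trivial and `R` free over `ℤ`, the `G`-module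
`Hom_ℤ(R, X)` is cohomologically trivial.  (Finite generation of `R` is not used.)

The proof is Serre, *Local Fields*, IX §5–7, organised so that no projective dimension and no cup
product is needed:

1. `X` is a quotient of a torsion-free coinduced module with torsion-free cohomologically trivial
   kernel `K` (`coverSC`), and `Hom(R, coinduced)` is coinduced; so it suffices to treat `K`.
2. By Sylow reduction (`isCohTriv_of_pSubgroups`) it suffices to show `Ĥⁿ(Q, Hom(R, K)) = 0` for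
   `p`-subgroups `Q`.
3. `K/p` is killed by `p` and has `H¹(Q, K/p) = 0`, hence is coinduced over `Q`
   (`exists_iso_coind₁_of_pGroup`); so `Hom(R, K/p) = Hom(R, K)/p` has vanishing Tate cohomology
   over `Q`, multiplication by `p` is injective on `Ĥⁿ(Q, Hom(R, K))`, which is killed by `|Q|`.
-/

set_option autoImplicit false
set_option linter.style.haveILetI false

open CategoryTheory Limits groupCohomology Rep

namespace Fermat.Agent.S55.T.H719

open Fermat.Agent.S55.H572

noncomputable section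

variable {k G : Type} [CommRing k] [Group G]

/-- Hypothesis on the coefficient ring used in the `p`-group step: submodules of modules killed by
a prime `p` are direct summands.  (True for `k = ℤ`.) -/
def HasRetractions (k : Type) [CommRing k] : Prop :=
  ∀ p : ℕ, p.Prime → ∀ (V : Type) [AddCommGroup V] [Module k V] (W : Submodule k V),
    (∀ v : V, p • v = 0) → ∃ π : V →ₗ[k] W, ∀ w : W, π w = w

/-! ## Restriction commutes with `Hom_k(R, -)` -/

/-- `res (Hom_k(R, X)) ≅ Hom_k(res R, res X)` (the identity on underlying modules). -/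
def resIhomIso (Q : Subgroup G) (R X : Rep.{0} k G) :
    res Q.subtype ((Rep.ihom R).obj X) ≅
      (Rep.ihom (res Q.subtype R)).obj (res Q.subtype X) :=
  Rep.mkIso (Representation.Equiv.mk (LinearEquiv.refl k (R.V →ₗ[k] X.V)) (fun g => by
    apply LinearMap.ext
    intro φ
    apply LinearMap.ext
    intro r
    rfl))

/-! ## Multiplication by `p` -/

theorem ihom_map_nsmul_id (R K : Rep.{0} k G) (p : ℕ) :
    (Rep.ihom R).map (p • 𝟙 K) = p • 𝟙 ((Rep.ihom R).obj K) := by
  apply Rep.hom_ext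
  apply Representation.IntertwiningMap.ext
  apply LinearMap.ext
  intro φ
  apply LinearMap.ext
  intro r
  have h1 : ihomLin (((Rep.ihom R).map (p • 𝟙 K)).hom φ) r = (p • 𝟙 K : K ⟶ K).hom (ihomLin φ r) :=
    rfl
  have h2 : (p • 𝟙 ((Rep.ihom R).obj K) : (Rep.ihom R).obj K ⟶ (Rep.ihom R).obj K).hom φ =
      p • φ := nsmul_id_hom_apply _ p φ
  change ihomLin (((Rep.ihom R).map (p • 𝟙 K)).hom φ) r =
    ihomLin ((p • 𝟙 ((Rep.ihom R).obj K) : (Rep.ihom R).obj K ⟶ (Rep.ihom R).obj K).hom φ) r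
  rw [h1, h2, nsmul_id_hom_apply]
  rfl

instance tateCohomologyFunctor_additive {K : Type} [Group K] [Fintype K] (n : ℤ) :
    (tateCohomologyFunctor (R := k) (G := K) n).Additive := by
  unfold tateCohomologyFunctor
  infer_instance

theorem tate_map_nsmul_id_apply {K : Type} [Group K] [Fintype K] (A : Rep.{0} k K) (p : ℕ)
    (n : ℤ) (x : tateCohomology A n) :
    ((tateCohomologyFunctor n).map (p • 𝟙 A)).hom x = p • x := by
  rw [Functor.map_nsmul, CategoryTheory.Functor.map_id]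
  rfl

/-! ## Step A: `p`-subgroups -/

theorem res_ihomSC_pSC_f (Q : Subgroup G) (R K : Rep.{0} k G) (p : ℕ) :
    ((ihomSC R (pSC K p)).map (resFunctor Q.subtype)).f =
      p • 𝟙 (res Q.subtype ((Rep.ihom R).obj K)) := by
  change (resFunctor Q.subtype).map ((Rep.ihom R).map (p • 𝟙 K)) = _
  rw [ihom_map_nsmul_id, Functor.map_nsmul, CategoryTheory.Functor.map_id]

theorem isZero_tate_ihom_of_pGroup [Finite G] (hret : HasRetractions k) {p : ℕ} (hp : p.Prime)
    (Q : Subgroup G) (hQ : IsPGroup p Q) [Fintype Q] (R K : Rep.{0} k G)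
    (hR : Module.Projective k R.V) (hK : PTorsionFree p K.V) (hKct : IsCohTriv K) (n : ℤ) :
    IsZero (tateCohomology (res Q.subtype ((Rep.ihom R).obj K)) n) := by
  haveI : Fact p.Prime := ⟨hp⟩
  have hS := pSC_shortExact K p hK
  have hKp : IsCohTriv (pSC K p).X₃ := isCohTriv_X₃ hS hKct hKct
  have hpV : ∀ v : (res Q.subtype (pSC K p).X₃).V, p • v = 0 := pSC_X₃_nsmul K p
  have hH1 : H1Triv (res Q.subtype (pSC K p).X₃) := (isZero_tate_one_iff _).1 (hKp Q 1)
  obtain ⟨e⟩ := exists_iso_coind₁_of_pGroup hQ (res Q.subtype (pSC K p).X₃) hpV hH1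
    (hret p hp _ _ hpV)
  have hX₃ : ∀ m : ℤ,
      IsZero (tateCohomology (res Q.subtype ((Rep.ihom R).obj (pSC K p).X₃)) m) := by
    intro m
    have iso := resIhomIso Q R (pSC K p).X₃ ≪≫ (Rep.ihom (res Q.subtype R)).mapIso e ≪≫
      ihomCoind₁Iso _ _
    exact isZero_tate_of_iso iso.symm m (isZero_tateCohomology_coind_bot _ m)
  have hT := ihomSC_shortExact R hR hS
  have hTres := (Rep.shortExact_res Q.subtype).2 hT
  have hinj : ∀ (m : ℤ) (x : tateCohomology (res Q.subtype ((Rep.ihom R).obj K)) (m + 1)),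
      p • x = 0 → x = 0 := by
    intro m x hx
    have hex := TateCohomology.exact₁ hTres m
    have hmono := hex.mono_g ((hX₃ m).eq_of_src _ _)
    have hinj' : Function.Injective ((tateCohomologyFunctor (m + 1)).map
        ((ihomSC R (pSC K p)).map (resFunctor Q.subtype)).f).hom :=
      (ModuleCat.mono_iff_injective _).1 hmono
    have hmap : ∀ y : tateCohomology (res Q.subtype ((Rep.ihom R).obj K)) (m + 1),
        ((tateCohomologyFunctor (m + 1)).map
          ((ihomSC R (pSC K p)).map (resFunctor Q.subtype)).f).hom y = p • y := by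
      intro y
      rw [res_ihomSC_pSC_f]
      exact tate_map_nsmul_id_apply _ p (m + 1) y
    apply hinj'
    rw [hmap, hmap, hx, smul_zero]
  obtain ⟨m, rfl⟩ : ∃ m : ℤ, n = m + 1 := ⟨n - 1, by ring⟩
  obtain ⟨a, ha⟩ := (IsPGroup.iff_card).1 hQ
  rw [ModuleCat.isZero_iff_subsingleton]
  refine ⟨fun x y => ?_⟩
  suffices ∀ z : tateCohomology (res Q.subtype ((Rep.ihom R).obj K)) (m + 1), z = 0 by
    rw [this x, this y]
  intro z
  have hz : p ^ a • z = 0 := by
    rw [← ha]
    exact card_nsmul_tate_eq_zero _ Q (m + 1) z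
  clear ha
  induction a with
  | zero => simpa using hz
  | succ a ih =>
    apply ih
    apply hinj
    rw [← mul_nsmul', ← pow_succ']
    exact hz

/-! ## Step B: torsion-free modules -/

theorem isCohTriv_ihom_of_torsionFree [Finite G] (hret : HasRetractions k)
    (R K : Rep.{0} k G) (hR : Module.Projective k R.V)
    (hK : ∀ p : ℕ, p.Prime → PTorsionFree p K.V) (hKct : IsCohTriv K) :
    IsCohTriv ((Rep.ihom R).obj K) :=
  isCohTriv_of_pSubgroups _ fun p hp Q hQ _ n =>
    isZero_tate_ihom_of_pGroup hret hp Q hQ R K hR (hK p hp) hKct n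

/-! ## Step C: the general case -/

/-- **Nakayama's theorem** for a coefficient ring `k` which is torsion-free and over which
submodules of modules killed by a prime are direct summands. -/
theorem isCohTriv_ihom [Finite G] (hk : ∀ p : ℕ, p.Prime → PTorsionFree p k)
    (hret : HasRetractions k) (R X : Rep.{0} k G) (hR : Module.Projective k R.V)
    (hX : IsCohTriv X) : IsCohTriv ((Rep.ihom R).obj X) := by
  letI : Fintype G := Fintype.ofFinite G
  have hS := coverSC_shortExact X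
  have hF : IsCohTriv (coverSC X).X₂ := isCohTriv_coind₁ _
  have hKct : IsCohTriv (coverSC X).X₁ := isCohTriv_X₁ hS hF hX
  have hKtf : ∀ p : ℕ, p.Prime → PTorsionFree p (coverSC X).X₁.V := fun p hp =>
    pTorsionFree_coverSC_X₁ (hk p hp) X
  have hT := ihomSC_shortExact R hR hS
  have h1 : IsCohTriv (ihomSC R (coverSC X)).X₁ :=
    isCohTriv_ihom_of_torsionFree hret R _ hR hKtf hKct
  have h2 : IsCohTriv (ihomSC R (coverSC X)).X₂ := isCohTriv_ihom_coind₁ R _
  have h3 : IsCohTriv (ihomSC R (coverSC X)).X₃ := isCohTriv_X₃ hT h1 h2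
  exact h3

/-! ## Step D: `k = ℤ` -/

theorem pTorsionFree_int (p : ℕ) (hp : p.Prime) : PTorsionFree p ℤ := by
  intro x hx
  rw [nsmul_eq_mul] at hx
  rcases mul_eq_zero.1 hx with h | h
  · exact absurd (by exact_mod_cast h) hp.ne_zero
  · exact h

theorem exists_retraction_zmod (p : ℕ) [Fact p.Prime] (V : Type) [AddCommGroup V]
    [Module (ZMod p) V] (W : AddSubgroup V) : ∃ π : V →+ W, ∀ w : W, π w = w := by
  obtain ⟨C, hC⟩ := Submodule.exists_isCompl (AddSubgroup.toZModSubmodule p W)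
  refine ⟨(Submodule.projectionOnto (AddSubgroup.toZModSubmodule p W) C hC).toAddMonoidHom,
    fun w => ?_⟩
  exact Submodule.projectionOnto_apply_left hC w

theorem hasRetractions_int : HasRetractions ℤ := by
  intro p hp V _ inst W hpV
  obtain rfl : inst = AddCommGroup.toIntModule V := Subsingleton.elim _ _
  haveI : Fact p.Prime := ⟨hp⟩
  obtain ⟨π₀, hπ₀⟩ := @exists_retraction_zmod p _ V _ (AddCommGroup.zmodModule hpV)
    W.toAddSubgroup
  refine ⟨{ toFun := π₀, map_add' := map_add π₀, map_smul' := fun c v => ?_ }, fun w => ?_⟩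
  · exact map_zsmul π₀ c v
  · exact hπ₀ w

/-- **T6a, Nakayama's theorem**: `Hom_ℤ(R, X)` is cohomologically trivial if `X` is and `R` is
`ℤ`-free. -/
theorem nakayama : NakayamaSpec := by
  intro G _ _ X R hfree _ hX
  exact isCohTriv_ihom pTorsionFree_int hasRetractions_int R X
    (@Module.Projective.of_free ℤ _ R.V _ R.hV2 hfree) hX

end

end Fermat.Agent.S55.T.H719

end
-- ===== PACK-END S55/T/NakayamaH719.lean

-- ===== PACK-BEGIN S55/T/T6pH353/T6p.lean
section



/-!
# S55, layer T, leaf T6p (helper353): Tate–Nakayama AT `p`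

`tateNakayamaAt_of : T.TateNakayamaSpec → E1.TateNakayamaAtSpec`.

Proof (coord/S55-E1.md §2): let `P` be a Sylow `p`-subgroup of `G`.  `(C|_P, res γ)` is a class
module over `P` (`isClassModule_of_isPGroup`), so the frozen `T.TateNakayamaSpec` applies to `P`.

* (ker) `cor : H²(P, C) → H²(G, C)` is injective, so `f_* = 0` on `H²(P, R)`; T6 gives
  `f = N_P ψ`, hence `[G : P] • f = N_G ψ`.
* (surj) `χ_P := u • (res ∘ χ ∘ cor)`, T6 gives `f₀ ∈ Hom_P(R, C)` with `(f₀)_* = χ_P`;
  `f := N_{G/P} f₀`; by the transfer formula `f_* = cor ∘ (f₀)_* ∘ res = u [G:P]² χ`, and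
  `u [G:P]² ≡ 1 mod |P|`.
-/

set_option autoImplicit false
set_option linter.style.haveILetI false

open CategoryTheory groupCohomology

namespace Fermat.Agent.S55.T.H353

open Fermat.Agent.S55.H572 Fermat.Agent.S55.E1

noncomputable section

variable {G : Type} [Group G]

/-! ### Sums over cosets -/

/-- A sum over `G` decomposed along the left cosets of `P`. -/
lemma sum_eq_sum_out_mul [Fintype G] (P : Subgroup G) [Fintype P] [Fintype (G ⧸ P)]
    {M : Type} [AddCommMonoid M] (F : G → M) :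
    ∑ g : G, F g = ∑ q : G ⧸ P, ∑ h : P, F (q.out * (h : G)) := by
  rw [← Fintype.sum_prod_type' (f := fun (q : G ⧸ P) (h : P) => F (q.out * (h : G)))]
  symm
  refine Fintype.sum_equiv
    ⟨fun x => x.1.out * (x.2 : G), fun g => (QuotientGroup.mk g, hPart P g), ?_, ?_⟩ _ _
    (fun _ => rfl)
  · rintro ⟨q, h⟩
    simp only [mk_out_mul, hPart_out_mul]
  · intro g
    exact out_mul_hPart P g

/-- The `G`-norm of an additive map in terms of its `P`-norm. -/
lemma normAdd_eq_sum_out [Fintype G] (P : Subgroup G) [Fintype P] [Fintype (G ⧸ P)]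
    {R C : Rep.{0} ℤ G} (ψ : R.V →+ C.V) (r : R.V) :
    T.normAdd ψ r = ∑ q : G ⧸ P, C.ρ q.out
      (T.normAdd (A := T.resSub R P) (B := T.resSub C P) ψ (R.ρ q.out⁻¹ r)) := by
  unfold T.normAdd
  rw [sum_eq_sum_out_mul P]
  refine Finset.sum_congr rfl fun q _ => ?_
  rw [map_sum]
  refine Finset.sum_congr rfl fun h _ => ?_
  change C.ρ (q.out * (h : G)) (ψ (R.ρ (q.out * (h : G))⁻¹ r)) =
    C.ρ q.out (C.ρ (h : G) (ψ (R.ρ ((h⁻¹ : P) : G) (R.ρ q.out⁻¹ r))))
  rw [mul_inv_rev, map_mul, map_mul]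
  rfl

/-! ### Torsion -/

/-- A `p`-primary element of `H²(G, R)` is killed by the order of a Sylow `p`-subgroup. -/
lemma card_sylow_nsmul_eq_zero [Finite G] {p : ℕ} [Fact p.Prime] (P : Sylow p G)
    {R : Rep.{0} ℤ G} (x : groupCohomology R 2) (hx : IsPPrimary p x) :
    Nat.card (P : Subgroup G) • x = 0 := by
  obtain ⟨a, ha⟩ := hx
  have h1 : addOrderOf x ∣ p ^ a := addOrderOf_dvd_iff_nsmul_eq_zero.2 ha
  have h2 : addOrderOf x ∣ Nat.card (P : Subgroup G) * (P : Subgroup G).index := by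
    rw [Subgroup.card_mul_index]
    exact addOrderOf_dvd_iff_nsmul_eq_zero.2 (T.H572.cardTorsion ℤ G R 2 (by norm_num) x)
  have hp : Nat.Coprime p (P : Subgroup G).index :=
    (Nat.Prime.coprime_iff_not_dvd (Fact.out : p.Prime)).2 P.not_dvd_index
  have h3 : Nat.Coprime (addOrderOf x) (P : Subgroup G).index :=
    Nat.Coprime.coprime_dvd_left h1 (Nat.Coprime.pow_left a hp)
  exact addOrderOf_dvd_iff_nsmul_eq_zero.1 (h3.dvd_of_dvd_mul_right h2)

/-! ### The kernel part -/

theorem t6p_ker (hT6 : T.TateNakayamaSpec) {p : ℕ} [Fact p.Prime] [Fintype G]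
    {C : Rep.{0} ℤ G} {γ : groupCohomology C 2} (hC : IsClassModuleAt p C γ)
    (R : Rep.{0} ℤ G) (hfree : @Module.Free ℤ R.V _ _ R.hV2)
    (hfin : @Module.Finite ℤ R.V _ _ R.hV2) (f : R ⟶ C)
    (hf : ∀ x : groupCohomology R 2, IsPPrimary p x → (T.coeffMap f 2).hom x = 0) :
    ∃ (m : ℕ) (ψ : R.V →+ C.V), Nat.Coprime m p ∧ ∀ r : R.V, m • f.hom r = T.normAdd ψ r := by
  obtain ⟨P⟩ : Nonempty (Sylow p G) := inferInstance
  letI : Fintype (P : Subgroup G) := Fintype.ofFinite _
  letI : Fintype (G ⧸ (P : Subgroup G)) := Fintype.ofFinite _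
  have hPp : IsPGroup p (P : Subgroup G) := P.isPGroup'
  have hcop : (Nat.card (P : Subgroup G)).Coprime (P : Subgroup G).index := P.card_coprime_index
  have hclass := isClassModule_of_isPGroup hC P hPp
  obtain ⟨-, hker⟩ := hT6 (P : Subgroup G) (T.resSub C P) ((T.resMap C P 2).hom γ) hclass
    (T.resSub R P) hfree hfin
  obtain ⟨a, ha⟩ : ∃ a, Nat.card (P : Subgroup G) = p ^ a := IsPGroup.iff_card.1 hPp
  have hzero : ∀ y : groupCohomology (T.resSub R P) 2,
      (T.coeffMap ((Rep.resFunctor (P : Subgroup G).subtype).map f) 2).hom y = 0 := by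
    intro y
    apply cor_injective_of_classModuleAt hC P hPp hcop
    have hnat := congrArg (fun g => g.hom y) (cor_natural (P : Subgroup G) 2 f)
    refine Eq.trans hnat ?_
    apply hf
    refine ⟨a, ?_⟩
    rw [← ha]
    have hy : Nat.card (P : Subgroup G) • y = 0 :=
      T.H572.cardTorsion ℤ (P : Subgroup G) (T.resSub R P) 2 (by norm_num) y
    have := congrArg (cor (P : Subgroup G) 2 R).hom hy
    rw [map_nsmul, map_zero] at this
    exact this
  obtain ⟨ψ, hψ⟩ := (hker ((Rep.resFunctor (P : Subgroup G).subtype).map f)).1 hzero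
  refine ⟨(P : Subgroup G).index, ψ, ?_, ?_⟩
  · exact ((Nat.Prime.coprime_iff_not_dvd (Fact.out : p.Prime)).2 P.not_dvd_index).symm
  · intro r
    rw [normAdd_eq_sum_out (P : Subgroup G) ψ r]
    have h1 : ∀ q : G ⧸ (P : Subgroup G), C.ρ q.out
        (T.normAdd (A := T.resSub R P) (B := T.resSub C P) ψ (R.ρ q.out⁻¹ r)) = f.hom r := by
      intro q
      rw [← hψ]
      change C.ρ q.out (f.hom (R.ρ q.out⁻¹ r)) = f.hom r
      rw [Rep.hom_comm_apply f]
      exact @Representation.self_inv_apply ℤ G C.V _ _ _ C.hV2 C.ρ q.out (f.hom r)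
    rw [Finset.sum_congr rfl (fun q _ => h1 q), Finset.sum_const, Finset.card_univ,
      Subgroup.index_eq_card, Nat.card_eq_fintype_card]

/-! ### The surjectivity part -/

theorem t6p_surj (hT6 : T.TateNakayamaSpec) {p : ℕ} [Fact p.Prime] [Fintype G]
    {C : Rep.{0} ℤ G} {γ : groupCohomology C 2} (hC : IsClassModuleAt p C γ)
    (R : Rep.{0} ℤ G) (hfree : @Module.Free ℤ R.V _ _ R.hV2)
    (hfin : @Module.Finite ℤ R.V _ _ R.hV2)
    (χ : groupCohomology R 2 →+ groupCohomology C 2) :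
    ∃ f : R ⟶ C, ∀ x : groupCohomology R 2, IsPPrimary p x → (T.coeffMap f 2).hom x = χ x := by
  obtain ⟨P⟩ : Nonempty (Sylow p G) := inferInstance
  letI : Fintype (P : Subgroup G) := Fintype.ofFinite _
  letI : Fintype (G ⧸ (P : Subgroup G)) := Fintype.ofFinite _
  have hPp : IsPGroup p (P : Subgroup G) := P.isPGroup'
  have hcop : (Nat.card (P : Subgroup G)).Coprime (P : Subgroup G).index := P.card_coprime_index
  have hclass := isClassModule_of_isPGroup hC P hPp
  obtain ⟨hsurj, -⟩ := hT6 (P : Subgroup G) (T.resSub C P) ((T.resMap C P 2).hom γ) hclass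
    (T.resSub R P) hfree hfin
  -- Bezout
  have hcop2 : Nat.Coprime ((P : Subgroup G).index * (P : Subgroup G).index)
      (Nat.card (P : Subgroup G)) :=
    Nat.Coprime.mul_left hcop.symm hcop.symm
  obtain ⟨u, v, huv⟩ := Nat.isCoprime_iff_coprime.2 hcop2
  -- the local homomorphism
  let χP : groupCohomology (T.resSub R P) 2 →+ groupCohomology (T.resSub C P) 2 :=
    u • ((T.resMap C P 2).hom.toAddMonoidHom.comp
      (χ.comp (cor (P : Subgroup G) 2 R).hom.toAddMonoidHom))
  obtain ⟨f₀, hf₀⟩ := hsurj χP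
  refine ⟨normRel (P : Subgroup G) f₀, ?_⟩
  intro x hx
  have hPx : Nat.card (P : Subgroup G) • x = 0 := card_sylow_nsmul_eq_zero P x hx
  have ht := transfer_apply (P : Subgroup G) 2 f₀ x
  refine ht.trans ?_
  have h1 : (groupCohomology.map (MonoidHom.id (P : Subgroup G)) f₀ 2).hom
      ((resH (P : Subgroup G) R 2).hom x) = χP ((resH (P : Subgroup G) R 2).hom x) :=
    hf₀ _
  rw [h1]
  have h2 : (cor (P : Subgroup G) 2 R).hom ((resH (P : Subgroup G) R 2).hom x) =
      (P : Subgroup G).index • x := by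
    have h := congrArg (fun f => f.hom x) (resH_cor (P : Subgroup G) 2 R)
    exact h
  have h3 : (cor (P : Subgroup G) 2 C).hom ((T.resMap C P 2).hom (χ x)) =
      (P : Subgroup G).index • χ x := by
    have h := congrArg (fun f => f.hom (χ x)) (resH_cor (P : Subgroup G) 2 C)
    exact h
  have h4 : χP ((resH (P : Subgroup G) R 2).hom x) =
      u • (P : Subgroup G).index • (T.resMap C P 2).hom (χ x) := by
    change u • (T.resMap C P 2).hom (χ ((cor (P : Subgroup G) 2 R).hom
      ((resH (P : Subgroup G) R 2).hom x))) = _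
    rw [h2, map_nsmul, map_nsmul]
  rw [h4, map_zsmul, map_nsmul, h3]
  -- arithmetic
  have h5 : Nat.card (P : Subgroup G) • χ x = 0 := by
    rw [← map_nsmul, hPx, map_zero]
  have h7 : ((Nat.card (P : Subgroup G) : ℕ) : ℤ) • χ x = 0 := by
    rw [natCast_zsmul]
    exact h5
  have key : χ x = (u * (((P : Subgroup G).index * (P : Subgroup G).index : ℕ) : ℤ) +
      v * ((Nat.card (P : Subgroup G) : ℕ) : ℤ)) • χ x := by
    rw [huv, one_zsmul]
  conv_rhs => rw [key]
  rw [add_zsmul, mul_zsmul, mul_zsmul, h7, zsmul_zero, add_zero, natCast_zsmul, mul_nsmul]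

/-! ### T6p -/

/-- **T6p.**  Tate–Nakayama at `p`, from the frozen `T.TateNakayamaSpec`. -/
theorem tateNakayamaAt_of (hT6 : T.TateNakayamaSpec) : TateNakayamaAtSpec := by
  intro p hp G _ _ C γ hC R hfree hfin
  haveI : Fact p.Prime := ⟨hp⟩
  exact ⟨fun χ => t6p_surj hT6 hC R hfree hfin χ, fun f hf => t6p_ker hT6 hC R hfree hfin f hf⟩

end

end Fermat.Agent.S55.T.H353

end
-- ===== PACK-END S55/T/T6pH353/T6p.lean

-- ===== PACK-BEGIN S55/ColH543/Shapiro.lean
section



/-!
# S55 / colimit dictionary (helper543), part 4: finite Shapiro for `Ind_V A` in `HL` form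

`A : Rep k G`, `V ≤ G` of finite index, `ρ` the diagonal action on `Ind_V A = (G ⧸ V →₀ A)`
(`KC.H475.IsDiag`; e.g. `K.indG V A`).  For a normal subgroup `U ≤ V` of `G`:

* `shapHL : Hⁿ(G ⧸ U, (Ind_V A)^U) ⟶ Hⁿ(V ⧸ (U ∩ V), (A|_V)^{U ∩ V})` (restriction to `V` followed
  by evaluation at the trivial coset) is bijective (`shapHL_bijective`, from `KC.H475.shapiro_ind`)
  and commutes with inflation (`shapHL_infl`);
* hence the finite-level systems of `(G, Ind_V A)` and of `(V, A|_V)` have the same colimit: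
  `effAll_ind_iff`, `effTors_ind_iff`, `effDiv_ind_iff`.
-/

set_option autoImplicit false
set_option linter.style.haveILetI false

noncomputable section

open groupCohomology CategoryTheory

namespace Fermat.Agent.S55.ColH543

open Fermat.Agent.S55.PT Fermat.Agent.S55.KL Fermat.Agent.S55.KC.H475

variable {k : Type} [CommRing k] {G : Type} [Group G]

section Transport

variable (A : Rep.{0, 0, 0} k G) (V U : Subgroup G) [U.Normal]

/-- The isomorphism `V ⧸ (U ∩ V) → image of V in G ⧸ U`, as a homomorphism. -/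
def toImage : ↥V ⧸ U.subgroupOf V →* ↥(V.map (QuotientGroup.mk' U)) :=
  (H543.quotIncl V U).codRestrict (V.map (QuotientGroup.mk' U)) fun x => by
    induction x using QuotientGroup.induction_on with
    | H v => exact ⟨(v : G), v.2, rfl⟩

@[simp] lemma toImage_coe (x : ↥V ⧸ U.subgroupOf V) :
    ((toImage V U x : ↥(V.map (QuotientGroup.mk' U))) : G ⧸ U) = H543.quotIncl V U x := rfl

lemma toImage_bijective : Function.Bijective (toImage V U) := by
  constructor
  · intro x y h
    exact H543.quotIncl_injective V U (congrArg Subtype.val h)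
  · rintro ⟨_, g, hg, rfl⟩
    exact ⟨((⟨g, hg⟩ : V) : ↥V ⧸ U.subgroupOf V), rfl⟩

/-- The isomorphism `image of V in G ⧸ U ≃ V ⧸ (U ∩ V)`. -/
def imageEquiv : ↥(V.map (QuotientGroup.mk' U)) ≃* ↥V ⧸ U.subgroupOf V :=
  (MulEquiv.ofBijective (toImage V U) (toImage_bijective V U)).symm

lemma imageEquiv_toImage (x : ↥V ⧸ U.subgroupOf V) : imageEquiv V U (toImage V U x) = x :=
  (MulEquiv.ofBijective (toImage V U) (toImage_bijective V U)).symm_apply_apply x

lemma imageEquiv_symm_apply (x : ↥V ⧸ U.subgroupOf V) :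
    (imageEquiv V U).symm x = toImage V U x := rfl

/-- `A^U ≃ (A|_V)^{U ∩ V}` for `U ≤ V`. -/
def invEquiv (hUV : U ≤ V) :
    ↥(Representation.invariants (A.ρ.comp U.subtype)) ≃ₗ[k]
      ↥(Representation.invariants ((Rep.res V.subtype A).ρ.comp (U.subgroupOf V).subtype)) where
  toFun a := ⟨a.1, fun w => a.2 ⟨(w.1 : G), Subgroup.mem_subgroupOf.1 w.2⟩⟩
  invFun b := ⟨b.1, fun w => b.2 ⟨⟨w.1, hUV w.2⟩, Subgroup.mem_subgroupOf.2 w.2⟩⟩
  left_inv _ := rfl
  right_inv _ := rfl
  map_add' _ _ := rfl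
  map_smul' _ _ := rfl

/-- The transport isomorphism `Hⁿ(image of V, A^U) ≅ Hⁿ(V ⧸ (U ∩ V), (A|_V)^{U ∩ V})`. -/
def transportIso (hUV : U ≤ V) (n : ℕ) :
    groupCohomology (Rep.res (V.map (QuotientGroup.mk' U)).subtype (A.quotientToInvariants U)) n ≅
      HL (Rep.res V.subtype A) (U.subgroupOf V) n :=
  groupCohomology.mapIso (imageEquiv V U) (invEquiv A V U hUV) (fun g => by
    obtain ⟨x, rfl⟩ := (toImage_bijective V U).2 g
    rw [imageEquiv_toImage]
    induction x using QuotientGroup.induction_on with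
    | H v =>
      ext a
      rfl) n

lemma transportIso_hom_bijective (hUV : U ≤ V) (n : ℕ) :
    Function.Bijective (transportIso A V U hUV n).hom.hom :=
  ConcreteCategory.bijective_of_isIso (transportIso A V U hUV n).hom

end Transport

/-! ## The Shapiro map in `HL` form -/

section Shapiro

variable (A : Rep.{0, 0, 0} k G) (V : Subgroup G) (ρ : IndRepr A V)

/-- Evaluation at the trivial coset, `Ind_V A → A`, a morphism of representations of `V`. -/
def evOne (hρ : IsDiag A V ρ) : Rep.res V.subtype (Rep.of ρ) ⟶ Rep.res V.subtype A :=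
  Rep.ofHom ⟨Finsupp.lapply ((1 : G) : G ⧸ V), fun v => by
    refine LinearMap.ext fun b => ?_
    show (ρ (v : G) b) ((1 : G) : G ⧸ V) = A.ρ (v : G) (b ((1 : G) : G ⧸ V))
    rw [hρ.apply]
    have h : (v : G)⁻¹ • ((1 : G) : G ⧸ V) = ((1 : G) : G ⧸ V) :=
      smul_one_coset_eq_of_mem (V.inv_mem v.2)
    rw [h]⟩

@[simp] lemma evOne_hom_apply (hρ : IsDiag A V ρ) (b : (G ⧸ V) →₀ A.V) :
    (evOne A V ρ hρ).hom b = b ((1 : G) : G ⧸ V) := rfl

/-- **The Shapiro map** `Hⁿ(G ⧸ U, (Ind_V A)^U) → Hⁿ(V ⧸ (U ∩ V), (A|_V)^{U ∩ V})`. -/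
def shapHL (hρ : IsDiag A V ρ) (U : Subgroup G) [U.Normal] (n : ℕ) :
    HL (Rep.of ρ) U n ⟶ HL (Rep.res V.subtype A) (U.subgroupOf V) n :=
  HLmap V.subtype (W := U) (W' := U.subgroupOf V) le_rfl (evOne A V ρ hρ) n

/-- The Shapiro map factors through helper475's Shapiro isomorphism. -/
lemma shapHL_eq (hρ : IsDiag A V ρ) (U : Subgroup G) [U.Normal] (hUV : U ≤ V) (n : ℕ) :
    shapHL A V ρ hρ U n =
      groupCohomology.map (V.map (QuotientGroup.mk' U)).subtype (shapPi hρ U hUV) n ≫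
        (transportIso A V U hUV n).hom := by
  unfold shapHL HLmap transportIso
  rw [groupCohomology.mapIso_hom, ← groupCohomology.map_comp]
  refine groupCohomology.map_congr ?_ ?_ n
  · ext x
    rfl
  · ext b
    rfl

/-- **Finite Shapiro in `HL` form.** -/
theorem shapHL_bijective [Finite (G ⧸ V)] (hρ : IsDiag A V ρ) (U : Subgroup G) [U.Normal]
    (hUV : U ≤ V) (n : ℕ) :
    Function.Bijective (shapHL A V ρ hρ U n).hom := by
  rw [shapHL_eq A V ρ hρ U hUV n]
  exact (transportIso_hom_bijective A V U hUV n).comp (shapiro_ind hρ U hUV n)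

/-- The Shapiro map commutes with inflation. -/
lemma shapHL_infl (hρ : IsDiag A V ρ) {U' U : Subgroup G} [U'.Normal] [U.Normal] (h : U' ≤ U)
    (n : ℕ)
    (y : HL (Rep.of ρ) U n) :
    (shapHL A V ρ hρ U' n).hom ((infl (Rep.of ρ) h n).hom y) =
      (infl (Rep.res V.subtype A) (W' := U'.subgroupOf V) (W := U.subgroupOf V)
        (fun _ hx => h hx) n).hom ((shapHL A V ρ hρ U n).hom y) := by
  have e : infl (Rep.of ρ) h n ≫ shapHL A V ρ hρ U' n =
      shapHL A V ρ hρ U n ≫ infl (Rep.res V.subtype A) (W' := U'.subgroupOf V)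
        (W := U.subgroupOf V) (fun _ hx => h hx) n := by
    have e1 := H543.HLmap_comp (B := Rep.of ρ) (B' := Rep.of ρ) (B'' := Rep.res V.subtype A)
      (MonoidHom.id G) V.subtype (W := U) (W' := U') (W'' := U'.subgroupOf V)
      (by simpa using h) le_rfl (𝟙 (Rep.of ρ)) (evOne A V ρ hρ) n
    have e2 := H543.HLmap_comp (B := Rep.of ρ) (B' := Rep.res V.subtype A)
      (B'' := Rep.res V.subtype A)
      V.subtype (MonoidHom.id ↥V) (W := U) (W' := U.subgroupOf V) (W'' := U'.subgroupOf V)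
      le_rfl (fun _ hx => h hx) (evOne A V ρ hρ) (𝟙 (Rep.res V.subtype A)) n
    exact e1.trans ((H543.HLmap_congr _ _ _ _ rfl (fun b => rfl) n).trans e2.symm)
  exact congrArg (fun f => f.hom y) e

end Shapiro

/-! ## The colimits over the levels of `G` and of `V` agree -/

section Eff

variable (N : NLevels G) (A : Rep.{0, 0, 0} k G) (V : Subgroup G) (ρ : IndRepr A V)

/-- A level of `N` below a level of `N` and below a level `W.subgroupOf V` of `N.restrict V`. -/
lemma exists_lvl_le (V₀ U₁ : N.Lvl) (X : (N.restrict V).Lvl) :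
    ∃ U : N.Lvl, U.W ≤ V₀.W ∧ U.W ≤ U₁.W ∧ U.W.subgroupOf V ≤ X.W := by
  obtain ⟨W, hW, hXW⟩ := X.mem
  obtain ⟨U₂, h1, h2⟩ := N.exists_le V₀ U₁
  obtain ⟨U, h3, h4⟩ := N.exists_le U₂ ⟨W, hW⟩
  refine ⟨U, h3.trans h1, h3.trans h2, ?_⟩
  rw [hXW]
  exact fun _ hx => h4 hx

variable [Finite (G ⧸ V)] (hρ : IsDiag A V ρ) (V₀ : N.Lvl) (hV₀ : V₀.W ≤ V)
include hρ hV₀

/-- **`colim_U Hⁿ(G ⧸ U, (Ind_V A)^U) = 0` iff `colim_U Hⁿ(V ⧸ U, A^U) = 0`.** -/
theorem effAll_ind_iff (n : ℕ) :
    EffAll N (Rep.of ρ) n ↔ EffAll (N.restrict V) (Rep.res V.subtype A) n := by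
  constructor
  · intro H X y
    obtain ⟨U, hUV₀, -, hUX⟩ := exists_lvl_le N V V₀ V₀ X
    have hUV : U.W ≤ V := hUV₀.trans hV₀
    obtain ⟨x, hx⟩ := (shapHL_bijective A V ρ hρ U.W hUV n).2
      ((infl (Rep.res V.subtype A) hUX n).hom y)
    obtain ⟨U', h', hx'⟩ := H U x
    have hsub : U'.W.subgroupOf V ≤ U.W.subgroupOf V := fun _ hz => h' hz
    refine ⟨U'.restrict V, hsub.trans hUX, ?_⟩
    have e1 := shapHL_infl A V ρ hρ h' n x
    rw [hx', map_zero, hx] at e1
    exact (H543.infl_infl (Rep.res V.subtype A) hsub hUX n y).symm.trans e1.symm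
  · intro H U₁ x
    obtain ⟨U, hUV₀, hUU₁⟩ := N.exists_le V₀ U₁
    have hUV : U.W ≤ V := hUV₀.trans hV₀
    obtain ⟨X', hX', hy⟩ := H (U.restrict V)
      ((shapHL A V ρ hρ U.W n).hom ((infl (Rep.of ρ) hUU₁ n).hom x))
    obtain ⟨U', -, hU'U, hU'X⟩ := exists_lvl_le N V V₀ U X'
    refine ⟨U', hU'U.trans hUU₁, ?_⟩
    rw [← H543.infl_infl (Rep.of ρ) hU'U hUU₁ n x]
    apply (shapHL_bijective A V ρ hρ U'.W (hU'U.trans hUV) n).1
    rw [map_zero, shapHL_infl A V ρ hρ hU'U n]
    have e1 := H543.infl_infl (Rep.res V.subtype A) hU'X hX' n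
      ((shapHL A V ρ hρ U.W n).hom ((infl (Rep.of ρ) hUU₁ n).hom x))
    rw [hy, map_zero] at e1
    exact e1.symm

/-- **`colim_U Hⁿ(G ⧸ U, (Ind_V A)^U)[p] = 0` iff `colim_U Hⁿ(V ⧸ U, A^U)[p] = 0`.** -/
theorem effTors_ind_iff (p n : ℕ) :
    EffTors N (Rep.of ρ) p n ↔ EffTors (N.restrict V) (Rep.res V.subtype A) p n := by
  constructor
  · intro H X y hpy
    obtain ⟨U, hUV₀, -, hUX⟩ := exists_lvl_le N V V₀ V₀ X
    have hUV : U.W ≤ V := hUV₀.trans hV₀
    obtain ⟨x, hx⟩ := (shapHL_bijective A V ρ hρ U.W hUV n).2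
      ((infl (Rep.res V.subtype A) hUX n).hom y)
    have hpx : p • x = 0 := by
      apply (shapHL_bijective A V ρ hρ U.W hUV n).1
      rw [map_nsmul, hx, ← map_nsmul, hpy, map_zero, map_zero]
    obtain ⟨U', h', hx'⟩ := H U x hpx
    have hsub : U'.W.subgroupOf V ≤ U.W.subgroupOf V := fun _ hz => h' hz
    refine ⟨U'.restrict V, hsub.trans hUX, ?_⟩
    have e1 := shapHL_infl A V ρ hρ h' n x
    rw [hx', map_zero, hx] at e1
    exact (H543.infl_infl (Rep.res V.subtype A) hsub hUX n y).symm.trans e1.symm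
  · intro H U₁ x hpx
    obtain ⟨U, hUV₀, hUU₁⟩ := N.exists_le V₀ U₁
    have hUV : U.W ≤ V := hUV₀.trans hV₀
    have hpy : p • (shapHL A V ρ hρ U.W n).hom ((infl (Rep.of ρ) hUU₁ n).hom x) = 0 := by
      rw [← map_nsmul, ← map_nsmul, hpx, map_zero, map_zero]
    obtain ⟨X', hX', hy⟩ := H (U.restrict V)
      ((shapHL A V ρ hρ U.W n).hom ((infl (Rep.of ρ) hUU₁ n).hom x)) hpy
    obtain ⟨U', -, hU'U, hU'X⟩ := exists_lvl_le N V V₀ U X'
    refine ⟨U', hU'U.trans hUU₁, ?_⟩
    rw [← H543.infl_infl (Rep.of ρ) hU'U hUU₁ n x]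
    apply (shapHL_bijective A V ρ hρ U'.W (hU'U.trans hUV) n).1
    rw [map_zero, shapHL_infl A V ρ hρ hU'U n]
    have e1 := H543.infl_infl (Rep.res V.subtype A) hU'X hX' n
      ((shapHL A V ρ hρ U.W n).hom ((infl (Rep.of ρ) hUU₁ n).hom x))
    rw [hy, map_zero] at e1
    exact e1.symm

/-- **`colim_U Hⁿ(G ⧸ U, (Ind_V A)^U) ⊗ ℤ/p = 0` iff `colim_U Hⁿ(V ⧸ U, A^U) ⊗ ℤ/p = 0`.** -/
theorem effDiv_ind_iff (p n : ℕ) :
    EffDiv N (Rep.of ρ) p n ↔ EffDiv (N.restrict V) (Rep.res V.subtype A) p n := by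
  constructor
  · intro H X y
    obtain ⟨U, hUV₀, -, hUX⟩ := exists_lvl_le N V V₀ V₀ X
    have hUV : U.W ≤ V := hUV₀.trans hV₀
    obtain ⟨x, hx⟩ := (shapHL_bijective A V ρ hρ U.W hUV n).2
      ((infl (Rep.res V.subtype A) hUX n).hom y)
    obtain ⟨U', h', w, hw⟩ := H U x
    have hsub : U'.W.subgroupOf V ≤ U.W.subgroupOf V := fun _ hz => h' hz
    refine ⟨U'.restrict V, hsub.trans hUX, (shapHL A V ρ hρ U'.W n).hom w, ?_⟩
    have e1 := shapHL_infl A V ρ hρ h' n x
    rw [hw, map_nsmul, hx] at e1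
    exact (H543.infl_infl (Rep.res V.subtype A) hsub hUX n y).symm.trans e1.symm
  · intro H U₁ x
    obtain ⟨U, hUV₀, hUU₁⟩ := N.exists_le V₀ U₁
    have hUV : U.W ≤ V := hUV₀.trans hV₀
    obtain ⟨X', hX', w', hw'⟩ := H (U.restrict V)
      ((shapHL A V ρ hρ U.W n).hom ((infl (Rep.of ρ) hUU₁ n).hom x))
    obtain ⟨U', -, hU'U, hU'X⟩ := exists_lvl_le N V V₀ U X'
    obtain ⟨w, hw⟩ := (shapHL_bijective A V ρ hρ U'.W (hU'U.trans hUV) n).2
      ((infl (Rep.res V.subtype A) hU'X n).hom w')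
    refine ⟨U', hU'U.trans hUU₁, w, ?_⟩
    rw [← H543.infl_infl (Rep.of ρ) hU'U hUU₁ n x]
    apply (shapHL_bijective A V ρ hρ U'.W (hU'U.trans hUV) n).1
    rw [map_nsmul, hw, shapHL_infl A V ρ hρ hU'U n]
    have e1 := H543.infl_infl (Rep.res V.subtype A) hU'X hX' n
      ((shapHL A V ρ hρ U.W n).hom ((infl (Rep.of ρ) hUU₁ n).hom x))
    rw [hw', map_nsmul] at e1
    exact e1.symm

end Eff

end Fermat.Agent.S55.ColH543

end

end
-- ===== PACK-END S55/ColH543/Shapiro.lean

-- ===== PACK-BEGIN S55/K/GO3H535/H371/Kappa.lean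
section



/-!
# S55 / layer K / GO3-CAPDIV (helper371), part 5: the element `κ`

`F/ℚ` a finite Galois level of `S`, `b ∈ Fˣ`, `p > 0`.  There are `h > 0` and `κ ∈ Fˣ` such that
at every place `A` of `ℚ̄` over a prime `q ∉ S`:  `ord_A(κ) = h · (ord_A(b) mod p)`.
(The divisor `∑_w (ord_w(b) mod p) w` is effective, hence of finite order `h` in the class group
of `F`.)
-/

set_option autoImplicit false
set_option linter.unusedSectionVars false
set_option linter.style.haveILetI false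

noncomputable section

namespace Fermat.Agent.S55.K.GO3H535.H371

open Fermat.Agent.S55.PT Fermat.Agent.S55.Bridge Fermat.Agent.S55.K
open NumberField IsDedekindDomain
open scoped Pointwise

attribute [local instance] isAlgebraic_Qbar isGalois_Qbar

section

variable (F : IntermediateField ℚ (AlgebraicClosure ℚ)) [FiniteDimensional ℚ F] [IsGalois ℚ F]

attribute [local instance] H594.numberField_of_finite

/-- The order of `b ∈ F` at the prime `w`. -/
def ordW (b : F) (w : HeightOneSpectrum (𝓞 F)) : ℤ := -WithZero.log (w.valuation F b)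

theorem valuation_eq_exp_neg_ordW {b : F} (hb : b ≠ 0) (w : HeightOneSpectrum (𝓞 F)) :
    w.valuation F b = WithZero.exp (-ordW F b w) := by
  have hv : w.valuation F b ≠ 0 := (Valuation.ne_zero_iff _).2 hb
  rw [ordW, neg_neg, WithZero.exp_log hv]

theorem ordW_support_finite {b : F} (hb : b ≠ 0) :
    {w : HeightOneSpectrum (𝓞 F) | ordW F b w ≠ 0}.Finite := by
  have h1 := HeightOneSpectrum.Support.finite (𝓞 F) b
  have h2 := HeightOneSpectrum.Support.finite (𝓞 F) b⁻¹
  refine (h1.union h2).subset fun w hw => ?_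
  have hv : w.valuation F b ≠ 0 := (Valuation.ne_zero_iff _).2 hb
  have hne : w.valuation F b ≠ 1 := by
    intro h1
    apply hw
    rw [ordW, h1, WithZero.log_one, neg_zero]
  rcases lt_or_gt_of_ne hne with h | h
  · right
    show 1 < w.valuation F b⁻¹
    rw [map_inv₀]
    exact (one_lt_inv₀ (zero_lt_iff.2 hv)).2 h
  · left
    exact h

variable {S : Finset Nat.Primes}

/-- **The element `κ`.** -/
theorem exists_kappa (hF : F.IsUnramifiedOutside S) (b : F) (hb : b ≠ 0) (p : ℕ) (hp : 0 < p) :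
    ∃ h : ℕ, 0 < h ∧ ∃ κ : F, κ ≠ 0 ∧
      ∀ (q : Nat.Primes), q ∉ S → ∀ (A : ValuationSubring (AlgebraicClosure ℚ)),
        A.LiesOverPrime (q : ℕ) → ∀ n : ℤ, HasOrd A (q : ℕ) (b : AlgebraicClosure ℚ) n →
          HasOrd A (q : ℕ) (κ : AlgebraicClosure ℚ) (h * (n % p)) := by
  classical
  set c : HeightOneSpectrum (𝓞 F) → ℕ := fun w => (ordW F b w % (p : ℤ)).toNat with hc
  have hp0 : (p : ℤ) ≠ 0 := by exact_mod_cast hp.ne'
  have hcs : ∀ w, w ∉ (ordW_support_finite F hb).toFinset → c w = 0 := by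
    intro w hw
    rw [Set.Finite.mem_toFinset, Set.mem_ofPred_eq, not_not] at hw
    simp only [hc, hw, Int.zero_emod, Int.toNat_zero]
  obtain ⟨h, hpos, κ, hκ0, hκ⟩ :=
    exists_elt_intValuation_eq (R := 𝓞 F) (ordW_support_finite F hb).toFinset c hcs
  have hκF : algebraMap (𝓞 F) F κ ≠ 0 := by
    intro h0
    exact hκ0 ((FaithfulSMul.algebraMap_injective (𝓞 F) F) (by rw [h0, map_zero]))
  refine ⟨h, hpos, algebraMap (𝓞 F) F κ, hκF, fun q hq A hA n hn => ?_⟩
  have h1 : HasOrd A (q : ℕ) (b : AlgebraicClosure ℚ) (ordW F b (placePrime F A q.2 hA)) :=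
    hasOrd_of_valuation_eq F hF hq A hA b _ (valuation_eq_exp_neg_ordW F hb _)
  have hn' : n = ordW F b (placePrime F A q.2 hA) := hn.unique q.2.ne_zero hA h1
  have h2 : (placePrime F A q.2 hA).valuation F (algebraMap (𝓞 F) F κ) =
      WithZero.exp (-((h : ℤ) * (n % p))) := by
    rw [HeightOneSpectrum.valuation_of_algebraMap, hκ]
    congr 2
    rw [hn']
    simp only [hc]
    rw [Nat.cast_mul, Int.toNat_of_nonneg (Int.emod_nonneg _ hp0)]
  exact hasOrd_of_valuation_eq F hF hq A hA _ _ h2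

end

end Fermat.Agent.S55.K.GO3H535.H371

end
end
-- ===== PACK-END S55/K/GO3H535/H371/Kappa.lean

-- ===== PACK-BEGIN S55/G/Rec/Loc/H483/UnramLevel.lean
section


/-!
# S55 / G / REC / LOC : the unramified level inside a finite Galois level   (helper483)

`unramLevel_of (hO : OpenSpec) : UnramLevelSpec` — for `V` open and `E / K_V` a finite Galois
level, the fixed field `E₀` of the inertia subgroup of `Gal(E/K_V)` is a finite Galois level,
unramified over `K_V` (`Local.IsUnram ℤ_[q] ℚ_[q] E₀ K_V`), and `w ∈ V` is trivial on `E₀` iff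
`w = i * n` with `i` inertial and `n` trivial on `E`.
-/

set_option autoImplicit false
set_option linter.unusedSectionVars false
set_option linter.style.haveILetI false

noncomputable section

namespace Fermat.Agent.S55.G.Rec.Loc.H483

open Fermat.Agent.S55.G.Rec Fermat.Agent.S55.G.Rec.Loc Fermat.Agent.S55.Local

section

variable (q : ℕ) [Fact q.Prime] (V : Subgroup (PadicAlgCl q ≃ₐ[ℚ_[q]] PadicAlgCl q))

/-- the restriction of an inertial element to a level is inertial on the level -/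
lemma isInertialOn_resHom (E : IntermediateField (fixedFld q V) (PadicAlgCl q))
    [Normal (fixedFld q V) E] (i : ↥V)
    (hi : IsInertial q (i : PadicAlgCl q ≃ₐ[ℚ_[q]] PadicAlgCl q)) :
    IsInertialOn q V E (resHom q V E i) := by
  intro x hx
  rw [resHom_apply_coe]
  exact hi x hx

/-- `resHom q V E w = 1` iff `w` fixes `E` pointwise -/
lemma resHom_eq_one_iff (E : IntermediateField (fixedFld q V) (PadicAlgCl q))
    [Normal (fixedFld q V) E] (w : ↥V) :
    resHom q V E w = 1 ↔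
      ∀ x ∈ E, (w : PadicAlgCl q ≃ₐ[ℚ_[q]] PadicAlgCl q) x = x := by
  constructor
  · intro h x hx
    have := resHom_apply_coe q V E w ⟨x, hx⟩
    rw [h] at this
    exact this.symm
  · intro h
    ext x
    rw [resHom_apply_coe]
    exact h x x.2

end

/-- **LOC-INERT3** the unramified level. -/
theorem unramLevel_of (hO : OpenSpec) : UnramLevelSpec := by
  intro q _ V hV E _ _
  obtain ⟨hfin, hfix⟩ := hO q V hV
  haveI := hfin
  obtain ⟨I, hInormal, hmem, hcard⟩ :=
    Local.H483.exists_inertia ℤ_[q] ℚ_[q] (fixedFld q V) E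
  haveI := hInormal
  have hmem' : ∀ σ : E ≃ₐ[fixedFld q V] E, σ ∈ I ↔ IsInertialOn q V E σ := by
    intro σ
    rw [hmem]
    constructor
    · intro h x hx
      have := h x ((isInt_level_iff q (fixedFld q V) E x).2 hx)
      rwa [inMax_level_iff] at this
    · intro h x hx
      rw [inMax_level_iff]
      exact h x ((isInt_level_iff q (fixedFld q V) E x).1 hx)
  let E₀' : IntermediateField (fixedFld q V) E := IntermediateField.fixedField I
  let E₀ : IntermediateField (fixedFld q V) (PadicAlgCl q) := IntermediateField.lift E₀'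
  have hle : E₀ ≤ E := IntermediateField.lift_le E₀'
  haveI : IsGalois (fixedFld q V) E₀' := IsGalois.of_fixedField_normal_subgroup I
  haveI : IsGalois (fixedFld q V) E₀ := IsGalois.of_algEquiv (IntermediateField.liftAlgEquiv E₀')
  haveI : FiniteDimensional (fixedFld q V) E₀ :=
    Module.Finite.equiv (IntermediateField.liftAlgEquiv E₀').toLinearEquiv
  -- membership in `E₀`
  have hE₀ : ∀ x : E, (x : PadicAlgCl q) ∈ E₀ ↔ ∀ σ ∈ I, σ x = x := by
    intro x
    rw [IntermediateField.mem_lift]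
    exact IntermediateField.mem_fixedField_iff I x
  -- `σ ∈ I` iff `σ` fixes `E₀`
  have hfixI : ∀ σ : E ≃ₐ[fixedFld q V] E,
      σ ∈ I ↔ ∀ x : E, (x : PadicAlgCl q) ∈ E₀ → σ x = x := by
    intro σ
    constructor
    · intro hσ x hx
      exact (hE₀ x).1 hx σ hσ
    · intro h
      rw [← IntermediateField.fixingSubgroup_fixedField I,
        IntermediateField.mem_fixingSubgroup_iff]
      intro x hx
      exact h x ((IntermediateField.mem_lift x).2 hx)
  refine ⟨E₀, inferInstance, inferInstance, hle, ?_, ?_⟩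
  · -- unramified
    letI : Algebra E₀ E := (IntermediateField.inclusion hle).toAlgebra
    haveI : IsScalarTower (fixedFld q V) E₀ E := IsScalarTower.of_algebraMap_eq (fun _ => rfl)
    haveI : IsScalarTower ℚ_[q] E₀ E := IsScalarTower.of_algebraMap_eq (fun _ => rfl)
    have hH : ∀ σ : E ≃ₐ[fixedFld q V] E,
        σ ∈ I ↔ ∀ x : E₀, σ (algebraMap E₀ E x) = algebraMap E₀ E x := by
      intro σ
      rw [hfixI]
      constructor
      · intro h x
        exact h (algebraMap E₀ E x) x.2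
      · intro h x hx
        exact h ⟨(x : PadicAlgCl q), hx⟩
    exact ((Local.H483.tower_inertia ℤ_[q] ℚ_[q] (fixedFld q V) E E₀ I hmem hcard I hH).2).2
      le_rfl
  · -- the kernel of `V → Gal(E₀ / K_V)`
    intro w
    constructor
    · intro hw
      have hw' := (resHom_eq_one_iff q V E₀ w).1 hw
      have hιI : resHom q V E w ∈ I := by
        rw [hfixI]
        intro x hx
        apply Subtype.ext
        rw [resHom_apply_coe]
        exact hw' x hx
      obtain ⟨i, hi, hiι⟩ := inertiaLift_of hO q V hV E (resHom q V E w) ((hmem' _).1 hιI)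
      refine ⟨i, i⁻¹ * w, hi, ?_, ?_⟩
      · rw [map_mul, map_inv, hiι, inv_mul_cancel]
      · rw [mul_inv_cancel_left]
    · rintro ⟨i, n, hi, hn, rfl⟩
      rw [map_mul]
      have h1 : resHom q V E₀ n = 1 := by
        rw [resHom_eq_one_iff]
        intro x hx
        exact (resHom_eq_one_iff q V E n).1 hn x (hle hx)
      have h2 : resHom q V E₀ i = 1 := by
        rw [resHom_eq_one_iff]
        intro x hx
        have hiI : resHom q V E i ∈ I := (hmem' _).2 (isInertialOn_resHom q V E i hi)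
        have := (hfixI _).1 hiI ⟨x, hle hx⟩ hx
        have h3 := congrArg (fun z : E => (z : PadicAlgCl q)) this
        simp only [resHom_apply_coe] at h3
        exact h3
      rw [h1, h2, mul_one]

end Fermat.Agent.S55.G.Rec.Loc.H483

end
end
-- ===== PACK-END S55/G/Rec/Loc/H483/UnramLevel.lean

-- ===== PACK-BEGIN S55/Cap/MuH415.lean
section




/-!
# S55 / A8 (CAP), leaf A8-MU (helper415): `MuSpec p S`

`ι₀ : μ_p = F_p(χ_p) → 𝔼`, `a ↦ root of unity of muPLinearEquiv a`: an injective equivariant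
additive map onto the `p`-torsion of the smooth `S`-units `𝔼 = SU S`  (for `p ∈ S`).
-/

set_option autoImplicit false

noncomputable section

namespace Fermat.Agent.S55.Cap.H415

open Fermat.Agent.S55.PT Fermat.Agent.S55.Tow Fermat.Agent.S55.Bridge ExtCitation groupCohomology
open Fermat.Agent.S55.Cap

variable (p : ℕ) [Fact p.Prime] (S : Finset Nat.Primes)

/-- Extensionality for `ℚ̄ˣ` written additively. -/
lemma unitsQbar_ext {x y : unitsQbar.V}
    (h : ((Additive.toMul x : Qbarˣ) : Qbar) = ((Additive.toMul y : Qbarˣ) : Qbar)) : x = y :=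
  Additive.toMul.injective (Units.ext h)

/-- The inclusion `μ_p(ℚ̄) → ℚ̄ˣ`, additively. -/
def muPToUnits : MuP p →+ unitsQbar.V :=
  AddMonoidHom.mk' (fun y => (Additive.ofMul ((y.root : (AlgebraicClosure ℚ)ˣ) : Qbarˣ)))
    (fun _ _ => rfl)

lemma toMul_muPToUnits (y : MuP p) :
    (Additive.toMul (muPToUnits p y) : Qbarˣ) = (y.root : (AlgebraicClosure ℚ)ˣ) := rfl

lemma muPToUnits_injective : Function.Injective (muPToUnits p) := by
  intro y y' h
  apply MuP.root_injective
  apply Subtype.ext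
  have h2 := congrArg (fun z : unitsQbar.V => (Additive.toMul z : Qbarˣ)) h
  exact h2

omit [Fact p.Prime] in
lemma root_pow_eq_one (y : MuP p) :
    (((y.root : (AlgebraicClosure ℚ)ˣ) : AlgebraicClosure ℚ)) ^ p = 1 := by
  have h := (mem_rootsOfUnity p (y.root : (AlgebraicClosure ℚ)ˣ)).1 y.root.2
  have h2 := congrArg (fun u : (AlgebraicClosure ℚ)ˣ => (u : AlgebraicClosure ℚ)) h
  simpa using h2

/-- Elements of finite order are units of every valuation subring. -/
lemma mem_valuationSubring_of_pow_eq_one (A : ValuationSubring Qbar) {N : ℕ} (hN : N ≠ 0)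
    {a : Qbar} (ha : a ^ N = 1) : a ∈ A := by
  rw [← ValuationSubring.valuation_le_one_iff]
  have h : (A.valuation a) ^ N = 1 := by rw [← map_pow, ha, map_one]
  exact ((pow_eq_one_iff).1 h |>.resolve_right hN).le

lemma isSUq_muPToUnits (y : MuP p) : IsSUq S (muPToUnits p y) := by
  have hp : p ≠ 0 := (Fact.out : p.Prime).ne_zero
  intro ℓ _ A _
  have h1 := root_pow_eq_one p y
  refine ⟨mem_valuationSubring_of_pow_eq_one A hp ?_, mem_valuationSubring_of_pow_eq_one A hp ?_⟩
  · rw [toMul_muPToUnits]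
    exact h1
  · rw [toMul_muPToUnits, Units.val_inv_eq_inv_val, inv_pow, h1, inv_one]

lemma smooth_muPToUnits (hpS : pPrime p ∈ S) (y : MuP p) :
    ∃ L : Level S, ∀ g ∈ L.U, unitsQbar.ρ g (muPToUnits p y) = muPToUnits p y := by
  obtain ⟨L₀, hL₀⟩ := Fermat.Agent.S55.H654.exists_level_rootsOfUnity (p := p) S hpS
  refine ⟨L₀, fun g hg => ?_⟩
  apply unitsQbar_ext
  rw [toMul_ρ]
  exact (IntermediateField.mem_fixingSubgroup_iff _ _).1 hg _ (hL₀ _ (root_pow_eq_one p y))

/-- The embedding `μ_p → 𝔼`. -/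
def iota0 (hpS : pPrime p ∈ S) : ↥(mu p) →+ SU S :=
  AddMonoidHom.mk'
    (fun a => SU.mk S (muPToUnits p (muPLinearEquiv p a)) (isSUq_muPToUnits p S _)
      (smooth_muPToUnits p S hpS _))
    (fun a b => by
      apply SU.ext
      rw [map_add, SU.val_mk, map_add (SU.val S), SU.val_mk, SU.val_mk, map_add])

lemma val_iota0 (hpS : pPrime p ∈ S) (a : ↥(mu p)) :
    SU.val S (iota0 p S hpS a) = muPToUnits p (muPLinearEquiv p a) := rfl

/-- **A8-MU.** -/
theorem muSpec (hpS : pPrime p ∈ S) : MuSpec p S := by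
  refine ⟨iota0 p S hpS, ?_, ?_, ?_⟩
  · intro a b h
    have h1 := congrArg (SU.val S) h
    rw [val_iota0, val_iota0] at h1
    exact (muPLinearEquiv p).injective (muPToUnits_injective p h1)
  · intro g a
    apply SU.ext
    rw [val_iota0]
    show muPToUnits p (muPLinearEquiv p ((mu p).ρ g a)) =
      unitsQbar.ρ g (SU.val S (iota0 p S hpS a))
    rw [val_iota0]
    apply unitsQbar_ext
    rw [toMul_ρ, toMul_muPToUnits, toMul_muPToUnits, ← muPRep_apply]
    congr 3
    show muPLinearEquiv p ((((cycloChar p g : (ZMod p)ˣ) : ZMod p)) • a) = _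
    rw [muPRep_apply_smul]
    exact map_smul _ _ _
  · intro e he
    have h1 : p • SU.val S e = 0 := by rw [← map_nsmul, he, map_zero]
    have h2 : (Additive.toMul (SU.val S e) : Qbarˣ) ^ p = 1 := h1
    let y : MuP p := MuP.of p ⟨(Additive.toMul (SU.val S e) : Qbarˣ),
      (mem_rootsOfUnity p _).2 h2⟩
    refine ⟨(muPLinearEquiv p).symm y, ?_⟩
    apply SU.ext
    rw [val_iota0, LinearEquiv.apply_symm_apply]
    rfl

end Fermat.Agent.S55.Cap.H415

end
end
-- ===== PACK-END S55/Cap/MuH415.lean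

-- ===== PACK-BEGIN S55/Cap/C2H713/Dict.lean
section


/-!
# S55 / A8 (CAP), leaves C1/C2 : the finite-level DICTIONARY   (helper713)

Reusable bridge between the big modules `𝔼 = SU S`, `𝕁 = JJS S` of `Cap/Mod.lean` and the finite
levels of the tower (`Tow.Level S`, `L.units`, `L.J q`), plus coefficient calculus in `IndM`.

* `coeff U x : IndM U X →+ X`, `coeff_smul`, `coeff_le`, `ofFun`, `exists_map_eq`;
* `JS L = ∀ q : S, (L.J q).V`, `toJJ L : JS L →+ JJS S` (inflation), injective, equivariant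
  (`toJJ_ρ`), compatible with the transition maps (`toJJ_tr`), with the diagonal (`toJJ_diag`),
  and onto the `L.U`-invariants (`exists_toJJ_eq`);
* `suOf L e : SU S` for an `S`-unit `e` of level `L`; `exists_suOf_eq` (an element of `𝔼` fixed
  by `L.U` comes from level `L`);
* `jSum D L : JS L →+ (D.C L).V`, equivariant (`jSum_ρ`), compatible with `tr` (`jSum_tr`),
  kernel = diagonal `S`-units (`jSum_eq_zero_iff`), `isLocalSum_iff`.
-/

set_option autoImplicit false
set_option linter.unusedVariables false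
set_option linter.unusedSectionVars false
set_option linter.style.haveILetI false

noncomputable section

namespace Fermat.Agent.S55.Cap.H713

open Fermat.Agent.S55.PT Fermat.Agent.S55.Tow Fermat.Agent.S55.Cap

/-! ### coefficients in `IndM` -/

section Coeff

variable {G : Type} [Group G] (U : Subgroup G) {X Y : Type} [AddCommGroup X] [AddCommGroup Y]

/-- the coefficient of `F ∈ Ind_U X` at the coset `x` -/
def coeff (x : G ⧸ U) : IndM U X →+ X := (Finsupp.applyAddHom x).comp (IndM.toF U)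

lemma coeff_single [DecidableEq (G ⧸ U)] (x y : G ⧸ U) (a : X) :
    coeff U x (IndM.single U y a) = if y = x then a else 0 := by
  show (Finsupp.single y a) x = _
  rw [Finsupp.single_apply]

lemma coeff_single_same (x : G ⧸ U) (a : X) : coeff U x (IndM.single U x a) = a := by
  classical
  rw [coeff_single, if_pos rfl]

lemma coeff_single_ne {x y : G ⧸ U} (h : y ≠ x) (a : X) : coeff U x (IndM.single U y a) = 0 := by
  classical
  rw [coeff_single, if_neg h]

variable {U} in
lemma ext_coeff {F F' : IndM U X} (h : ∀ x, coeff U x F = coeff U x F') : F = F' :=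
  Finsupp.ext h

lemma coeff_map (φ : X →+ Y) (F : IndM U X) (x : G ⧸ U) :
    coeff U x (IndM.map U φ F) = φ (coeff U x F) := rfl

lemma coeff_smul [DistribMulAction G X] (g : G) (F : IndM U X) (x : G ⧸ U) :
    coeff U x (g • F) = g • coeff U (g⁻¹ • x) F := by
  classical
  induction F using IndM.induction_on with
  | h0 => rw [smul_zero, map_zero, map_zero, smul_zero]
  | hadd F F' hF hF' => rw [smul_add, map_add, map_add, hF, hF', smul_add]
  | hsingle y a =>
    rw [IndM.smul_single, coeff_single, coeff_single]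
    by_cases h : g • y = x
    · have h' : y = g⁻¹ • x := by rw [← h, inv_smul_smul]
      rw [if_pos h, if_pos h']
    · have h' : ¬ y = g⁻¹ • x := fun h' => h (by rw [h', smul_inv_smul])
      rw [if_neg h, if_neg h', smul_zero]

/-- an element of `Ind_U Y` all of whose coefficients are in the image of `φ` is in the image
of `Ind_U φ` -/
lemma exists_map_eq (φ : X →+ Y) (F : IndM U Y) (hF : ∀ x, ∃ a : X, φ a = coeff U x F) :
    ∃ F' : IndM U X, IndM.map U φ F' = F := by
  classical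
  choose s hs using hF
  refine ⟨IndM.ofF U (Finsupp.onFinset (IndM.toF U F).support
    (fun x => if IndM.toF U F x = 0 then 0 else s x) (fun x hx => ?_)), ?_⟩
  · rw [Finsupp.mem_support_iff]
    intro h0
    exact hx (by rw [if_pos h0])
  · apply Finsupp.ext
    intro x
    show φ (if IndM.toF U F x = 0 then 0 else s x) = IndM.toF U F x
    split_ifs with h0
    · rw [map_zero, h0]
    · exact hs x

/-- the element of `Ind_U X` with prescribed coefficients (finite index) -/
def ofFun [Finite (G ⧸ U)] (f : G ⧸ U → X) : IndM U X :=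
  IndM.ofF U (Finsupp.equivFunOnFinite.symm f)

lemma coeff_ofFun [Finite (G ⧸ U)] (f : G ⧸ U → X) (x : G ⧸ U) : coeff U x (ofFun U f) = f x :=
  rfl

variable {U} in
lemma coeff_le [Fintype (G ⧸ U)] {V : Subgroup G} [DecidableEq (G ⧸ V)] (h : U ≤ V)
    (F : IndM U X) (y : G ⧸ V) :
    coeff V y (IndM.le h F) =
      ∑ σ ∈ Finset.univ.filter (fun σ : G ⧸ U => Subgroup.quotientMapOfLE h σ = y),
        coeff U σ F := by
  classical
  induction F using IndM.induction_on with
  | h0 =>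
    rw [map_zero, map_zero]
    exact (Finset.sum_eq_zero fun σ _ => map_zero _).symm
  | hadd F F' hF hF' =>
    rw [map_add, map_add, hF, hF', ← Finset.sum_add_distrib]
    exact Finset.sum_congr rfl fun σ _ => (map_add _ _ _).symm
  | hsingle x a =>
    rw [IndM.le_single, coeff_single]
    simp_rw [coeff_single]
    rw [Finset.sum_ite_eq]
    simp only [Finset.mem_filter, Finset.mem_univ, true_and]

end Coeff

/-! ### the dictionary `𝕁^{U_L} = ∏_{q ∈ S} J_q(L)` -/

variable {S : Finset Nat.Primes}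

/-- `J(L) = ∏_{q ∈ S} J_q(L)` -/
abbrev JS (L : Level S) : Type := ∀ q : S, (L.J q.1).V

lemma mk_mul_mem (L : Level S) (g u : Tow.GQ) (hu : u ∈ L.U) :
    (QuotientGroup.mk (g * u) : L.Gal) = QuotientGroup.mk g := by
  rw [QuotientGroup.eq]
  have : (g * u)⁻¹ * g = u⁻¹ := by group
  rw [this]
  exact L.U.inv_mem hu

lemma mk_mem_mul (L : Level S) (g u : Tow.GQ) (hu : u ∈ L.U) :
    (QuotientGroup.mk (u * g) : L.Gal) = QuotientGroup.mk g := by
  have h1 : u * g = g * (g⁻¹ * u * g) := by group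
  rw [h1]
  exact mk_mul_mem L g _ (Level.conj_mem_U' S L hu g)

/-- inflation `J_q(L) → 𝕁_q` -/
def toJJq (L : Level S) (q : Nat.Primes) : (L.J q).V →+ JJ S q where
  toFun f := JJ.mk S q (fun g => L.locCoe q (L.Jeval q f (QuotientGroup.mk g)))
    (fun d g => by
      show L.locCoe q (L.Jeval q f (L.decHom q (QuotientGroup.mk d) * QuotientGroup.mk g)) = _
      rw [L.Jeval_mul]
      rfl)
    ⟨L, fun u hu g => by rw [mk_mul_mem L g u hu]⟩
  map_zero' := by
    apply JJ.ext
    intro g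
    rfl
  map_add' f f' := by
    apply JJ.ext
    intro g
    rfl

@[simp] lemma ev_toJJq (L : Level S) (q : Nat.Primes) (f : (L.J q).V) (g : Tow.GQ) :
    JJ.ev S q g (toJJq L q f) = L.locCoe q (L.Jeval q f (QuotientGroup.mk g)) := rfl

lemma toJJq_injective (L : Level S) (q : Nat.Primes) : Function.Injective (toJJq L q) := by
  intro f f' h
  apply L.J_ext q
  intro g
  induction g using QuotientGroup.induction_on with
  | H g =>
    apply L.locCoe_injective q
    exact congrArg (JJ.ev S q g) h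

lemma toJJq_ρ (L : Level S) (q : Nat.Primes) (γ : Tow.GQ) (f : (L.J q).V) :
    toJJq L q ((L.J q).ρ (QuotientGroup.mk γ) f) = γ • toJJq L q f := by
  apply JJ.ext
  intro g
  rw [JJ.ev_smul, ev_toJJq, ev_toJJq, L.Jeval_ρ]
  rfl

lemma toJJq_tr {L L' : Level S} (h : L ≤ L') (q : Nat.Primes) (f : (L.J q).V) :
    toJJq L' q ((Level.trJ h q).hom f) = toJJq L q f := by
  apply JJ.ext
  intro g
  rfl

/-- an element of `𝕁_q` fixed by `U_L` comes from `J_q(L)` -/
lemma exists_toJJq_eq (L : Level S) (q : Nat.Primes) (x : JJ S q)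
    (hx : ∀ u ∈ L.U, u • x = x) : ∃ f : (L.J q).V, toJJq L q f = x := by
  have hinv : ∀ (g u : Tow.GQ), u ∈ L.U → JJ.ev S q (g * u) x = JJ.ev S q g x := by
    intro g u hu
    have := congrArg (JJ.ev S q g) (hx u hu)
    rwa [JJ.ev_smul] at this
  have hfix : ∀ (g : Tow.GQ) (d : GQp q), d ∈ L.V q →
      (unitsQpbar q).ρ d (JJ.ev S q g x) = JJ.ev S q g x := by
    intro g d hd
    rw [← JJ.ev_mul_left]
    have h1 : locQ q d * g = g * (g⁻¹ * locQ q d * g) := by group
    rw [h1]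
    exact hinv g _ (Level.conj_mem_U' S L hd g)
  let F : L.Gal → (L.locUnits q).V := fun σ =>
    Quotient.liftOn' σ (fun g => L.locMk q (JJ.ev S q g x) (hfix g)) (fun a b hab => by
      apply L.locCoe_injective q
      show JJ.ev S q a x = JJ.ev S q b x
      have hab' : a⁻¹ * b ∈ L.U := QuotientGroup.leftRel_apply.mp hab
      have := hinv a _ hab'
      rw [mul_inv_cancel_left] at this
      exact this.symm)
  have hF : ∀ g : Tow.GQ, L.locCoe q (F (QuotientGroup.mk g)) = JJ.ev S q g x := fun g => rfl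
  refine ⟨⟨F, fun d σ => ?_⟩, ?_⟩
  · induction d using QuotientGroup.induction_on with
    | H d =>
      induction σ using QuotientGroup.induction_on with
      | H g =>
        apply L.locCoe_injective q
        show L.locCoe q (F (QuotientGroup.mk (locQ q d * g))) = _
        rw [hF, JJ.ev_mul_left]
        rfl
  · apply JJ.ext
    intro g
    rfl

/-- inflation `J(L) → 𝕁` -/
def toJJ (L : Level S) : JS L →+ JJS S :=
  AddMonoidHom.mk' (fun f q => toJJq L q.1 (f q)) (fun f f' => by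
    funext q
    exact map_add (toJJq L q.1) (f q) (f' q))

@[simp] lemma proj_toJJ (L : Level S) (q : ↥S) (f : JS L) :
    JJS.proj S q (toJJ L f) = toJJq L q.1 (f q) := rfl

lemma toJJ_injective (L : Level S) : Function.Injective (toJJ L) := by
  intro f f' h
  funext q
  exact toJJq_injective L q.1 (congrArg (JJS.proj S q) h)

/-- the action of `σ ∈ Gal(L/ℚ)` on `J(L)` -/
def actJS (L : Level S) (σ : L.Gal) : JS L →+ JS L :=
  AddMonoidHom.mk' (fun f q => (L.J q.1).ρ σ (f q)) (fun f f' => by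
    funext q
    exact map_add ((L.J q.1).ρ σ) (f q) (f' q))

@[simp] lemma actJS_apply (L : Level S) (σ : L.Gal) (f : JS L) (q : ↥S) :
    actJS L σ f q = (L.J q.1).ρ σ (f q) := rfl

lemma toJJ_act (L : Level S) (γ : Tow.GQ) (f : JS L) :
    toJJ L (actJS L (QuotientGroup.mk γ) f) = γ • toJJ L f :=
  JJS.ext S fun q => toJJq_ρ L q.1 γ (f q)

/-- the transition map `J(L) → J(L')` -/
def trJS {L L' : Level S} (h : L ≤ L') : JS L →+ JS L' :=
  AddMonoidHom.mk' (fun f q => (Level.trJ h q.1).hom (f q)) (fun f f' => by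
    funext q
    exact map_add (Level.trJ h q.1).hom (f q) (f' q))

@[simp] lemma trJS_apply {L L' : Level S} (h : L ≤ L') (f : JS L) (q : ↥S) :
    trJS h f q = (Level.trJ h q.1).hom (f q) := rfl

lemma toJJ_tr {L L' : Level S} (h : L ≤ L') (f : JS L) : toJJ L' (trJS h f) = toJJ L f :=
  JJS.ext S fun q => toJJq_tr h q.1 (f q)

lemma trJS_act {L L' : Level S} (h : L ≤ L') (γ : Tow.GQ) (f : JS L) :
    trJS h (actJS L (QuotientGroup.mk γ) f) = actJS L' (QuotientGroup.mk γ) (trJS h f) := by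
  apply toJJ_injective L'
  rw [toJJ_tr, toJJ_act, toJJ_act, toJJ_tr]

/-- an element of `𝕁` fixed by `U_L` comes from `J(L)` -/
lemma exists_toJJ_eq (L : Level S) (x : JJS S) (hx : ∀ u ∈ L.U, u • x = x) :
    ∃ f : JS L, toJJ L f = x := by
  have h : ∀ q : ↥S, ∃ f : (L.J q.1).V, toJJq L q.1 f = JJS.proj S q x := fun q =>
    exists_toJJq_eq L q.1 _ (fun u hu => by rw [← JJS.proj_smul, hx u hu])
  choose f hf using h
  exact ⟨f, JJS.ext S hf⟩

/-! ### the dictionary for `S`-units -/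

/-- the element of `𝔼` given by an `S`-unit of level `L` -/
def suOf (L : Level S) (e : L.units.V) (he : L.IsSUnit e) : SU S :=
  SU.mk S (L.unitsCoe e) he ⟨L, fun g hg => L.unitsCoe_fixed e g hg⟩

@[simp] lemma val_suOf (L : Level S) (e : L.units.V) (he : L.IsSUnit e) :
    SU.val S (suOf L e he) = L.unitsCoe e := rfl

/-- the diagonal of `J(L)` -/
def diagJS (L : Level S) (e : L.units.V) : JS L := fun q => (L.diag q.1).hom e

lemma toJJ_diag (L : Level S) (e : L.units.V) (he : L.IsSUnit e) :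
    toJJ L (diagJS L e) = iEJ S (suOf L e he) := by
  apply JJS.ext
  intro q
  apply JJ.ext
  intro g
  rfl

/-- an element of `𝔼` fixed by `U_L` is an `S`-unit of level `L` -/
lemma exists_suOf_eq (L : Level S) (x : SU S) (hx : ∀ u ∈ L.U, u • x = x) :
    ∃ (e : L.units.V) (he : L.IsSUnit e), suOf L e he = x := by
  refine ⟨L.unitsMk (SU.val S x) (fun g hg => ?_), SU.isSUq S x, ?_⟩
  · have := congrArg (SU.val S) (hx g hg)
    rwa [SU.val_smul] at this
  · apply SU.ext
    rfl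

/-! ### the map `J(L) → C(L)` of a tower datum -/

section Datum

variable (D : TowerDatum S)

/-- `j = ∑_q j_q : J(L) → C(L)` -/
def jSum (L : Level S) : JS L →+ (D.C L).V where
  toFun f := ∑ q : S, (D.j L q.1).hom (f q)
  map_zero' := by
    refine Finset.sum_eq_zero fun q _ => ?_
    exact map_zero (D.j L q.1).hom
  map_add' f f' := by
    rw [← Finset.sum_add_distrib]
    refine Finset.sum_congr rfl fun q _ => ?_
    exact map_add (D.j L q.1).hom (f q) (f' q)

lemma jSum_apply (L : Level S) (f : JS L) : jSum D L f = ∑ q : S, (D.j L q.1).hom (f q) := rfl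

lemma isLocalSum_iff (L : Level S) (c : (D.C L).V) :
    D.IsLocalSum L c ↔ ∃ f : JS L, c = jSum D L f := Iff.rfl

lemma jSum_act (L : Level S) (σ : L.Gal) (f : JS L) :
    jSum D L (actJS L σ f) = (D.C L).ρ σ (jSum D L f) := by
  rw [jSum_apply, jSum_apply, map_sum]
  refine Finset.sum_congr rfl fun q _ => ?_
  exact Rep.hom_comm_apply (D.j L q.1) σ (f q)

lemma tr_ρ {L L' : Level S} (h : L ≤ L') (σ : L'.Gal) (c : (D.C L).V) :
    (D.tr h).hom ((D.C L).ρ (Level.proj h σ) c) = (D.C L').ρ σ ((D.tr h).hom c) :=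
  Rep.hom_comm_apply (D.tr h) σ c

lemma tr_add {L L' : Level S} (h : L ≤ L') (c c' : (D.C L).V) :
    (D.tr h).hom (c + c') = (D.tr h).hom c + (D.tr h).hom c' :=
  map_add (D.tr h).hom c c'

lemma tr_nsmul {L L' : Level S} (h : L ≤ L') (n : ℕ) (c : (D.C L).V) :
    (D.tr h).hom (n • c) = n • (D.tr h).hom c :=
  map_nsmul (D.tr h).hom n c

lemma tr_sub {L L' : Level S} (h : L ≤ L') (c c' : (D.C L).V) :
    (D.tr h).hom (c - c') = (D.tr h).hom c - (D.tr h).hom c' :=
  map_sub (D.tr h).hom c c'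

lemma tr_zero {L L' : Level S} (h : L ≤ L') : (D.tr h).hom (0 : (D.C L).V) = 0 :=
  map_zero (D.tr h).hom

lemma tr_sum {L L' : Level S} (h : L ≤ L') {ι : Type} (s : Finset ι) (c : ι → (D.C L).V) :
    (D.tr h).hom (∑ i ∈ s, c i) = ∑ i ∈ s, (D.tr h).hom (c i) :=
  map_sum (D.tr h).hom c s

variable {D} {p : ℕ}

lemma jSum_tr (hD : D.IsGoodMu p) {L L' : Level S} (h : L ≤ L') (f : JS L) :
    jSum D L' (trJS h f) = (D.tr h).hom (jSum D L f) := by
  rw [jSum_apply, jSum_apply, tr_sum]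
  refine Finset.sum_congr rfl fun q _ => ?_
  exact (hD.gd7a h q.1 q.2 (f q)).symm

lemma jSum_eq_zero_iff (hD : D.IsGoodMu p) (L : Level S) (f : JS L) :
    jSum D L f = 0 ↔ ∃ e : L.units.V, L.IsSUnit e ∧ f = diagJS L e := by
  rw [jSum_apply, hD.gd4 L f]
  constructor
  · rintro ⟨e, he, h⟩
    exact ⟨e, he, funext h⟩
  · rintro ⟨e, he, h⟩
    exact ⟨e, he, fun q => congrFun h q⟩

/-- if `j(f) = 0` then the inflation of `f` to `𝕁` is a diagonal `S`-unit -/
lemma exists_iEJ_eq_of_jSum_eq_zero (hD : D.IsGoodMu p) (L : Level S) (f : JS L)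
    (hf : jSum D L f = 0) : ∃ e : SU S, iEJ S e = toJJ L f := by
  obtain ⟨e, he, rfl⟩ := (jSum_eq_zero_iff hD L f).1 hf
  exact ⟨suOf L e he, (toJJ_diag L e he).symm⟩

/-- if the inflation of `f` to `𝕁` is a diagonal `S`-unit then `j(f) = 0` (`S ≠ ∅`) -/
lemma jSum_eq_zero_of_toJJ_eq (hD : D.IsGoodMu p) (hS : S.Nonempty) (L : Level S) (f : JS L)
    (e : SU S) (he : iEJ S e = toJJ L f) : jSum D L f = 0 := by
  have hfix : ∀ u ∈ L.U, u • e = e := by
    intro u hu
    apply iEJ_injective S hS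
    rw [iEJ_smul, he, ← toJJ_act]
    have h1 : (QuotientGroup.mk u : L.Gal) = 1 := (QuotientGroup.eq_one_iff u).2 hu
    rw [h1]
    congr 1
    funext q
    show (L.J q.1).ρ 1 (f q) = f q
    rw [map_one]
    rfl
  obtain ⟨e', he', rfl⟩ := exists_suOf_eq L e hfix
  rw [jSum_eq_zero_iff hD]
  refine ⟨e', he', ?_⟩
  apply toJJ_injective L
  rw [toJJ_diag L e' he', he]

end Datum

end Fermat.Agent.S55.Cap.H713

end
end
-- ===== PACK-END S55/Cap/C2H713/Dict.lean

-- ===== PACK-BEGIN S55/H654/GD9.lean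
section


set_option autoImplicit false
set_option linter.style.haveILetI false
set_option linter.unusedSectionVars false
set_option linter.unusedVariables false

/-!
# S55, engine input GD9 (helper654): `SUnitsDivSpec`

The `S`-units are `p`-divisible in the tower of `S`-levels (`p ∈ S`): if `e ∈ Fˣ` is an `S`-unit
and `β ^ p = e`, then inertia at `ℓ ∉ S` fixes `β`, so `β` lives at an `S`-level.
-/

namespace Fermat.Agent.S55.H654

open groupCohomology IntermediateField ExtCitation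

attribute [local instance] Fermat.Agent.S55.Bridge.isAlgebraic_Qbar
  Fermat.Agent.S55.Bridge.isGalois_Qbar

variable {p : ℕ} [Fact p.Prime]

/-- A valuation-unit `β` whose `p`-th power is fixed by an inertia element `σ` at `ℓ ≠ p` is
itself fixed by `σ`. -/
theorem inertia_fixes_root {ℓ : ℕ} (hℓ : ℓ.Prime) (hℓp : ℓ ≠ p)
    (A : ValuationSubring (AlgebraicClosure ℚ)) (hA : A.LiesOverPrime ℓ)
    {σ : AlgebraicClosure ℚ ≃ₐ[ℚ] AlgebraicClosure ℚ} (hσ : σ ∈ A.inertiaSubgroupIn ℚ)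
    {β : AlgebraicClosure ℚ} (hβA : β ∈ A) (hβA' : β⁻¹ ∈ A) (hσe : σ (β ^ p) = β ^ p) :
    σ β = β := by
  have hp0 : p ≠ 0 := (Fact.out : p.Prime).ne_zero
  by_cases hβ0 : β = 0
  · rw [hβ0, map_zero]
  have hvβ : A.valuation β = 1 := by
    apply le_antisymm ((A.valuation_le_one_iff β).2 hβA)
    have h1 : A.valuation β⁻¹ ≤ 1 := (A.valuation_le_one_iff β⁻¹).2 hβA'
    rw [map_inv₀] at h1
    have hv0 : A.valuation β ≠ 0 := (Valuation.ne_zero_iff _).2 hβ0
    exact (inv_le_one₀ (zero_lt_iff.2 hv0)).1 h1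
  by_contra hne
  set η : AlgebraicClosure ℚ := σ β / β with hη
  have hηp : η ^ p = 1 := by
    rw [hη, div_pow, ← map_pow, hσe]
    exact div_self (pow_ne_zero _ hβ0)
  have hη1 : η ≠ 1 := by
    intro h
    apply hne
    rw [hη, div_eq_one_iff_eq hβ0] at h
    exact h
  have hηA : η ∈ A := by
    rw [← A.valuation_le_one_iff]
    have h1 : (A.valuation η) ^ p = 1 := by rw [← map_pow, hηp, map_one]
    exact le_of_eq ((pow_eq_one_iff.1 h1).resolve_right hp0)
  have hpv : A.valuation (p : AlgebraicClosure ℚ) = 1 :=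
    Bridge.val_prime_eq_one hA hℓ (Fact.out : p.Prime) hℓp
  have h1 : A.valuation (1 - η) = 1 := Bridge.val_one_sub_root_eq_one hpv hηp hη1 hηA
  have h2 : σ β - β ∈ A.nonunits := ((Bridge.mem_inertiaSubgroupIn_iff A σ).1 hσ).2 β hβA
  rw [ValuationSubring.mem_nonunits_iff] at h2
  have h3 : σ β - β = -((1 - η) * β) := by
    rw [hη]
    field_simp
    ring
  rw [h3, Valuation.map_neg, map_mul, h1, hvβ, mul_one] at h2
  exact lt_irrefl _ h2

/-- If inertia at `ℓ ∉ S` fixes `β` (for all `ℓ ∉ S`), then `ℚ(β)` is an `S`-level. -/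
theorem isUnramifiedOutside_adjoin_simple (S : Finset Nat.Primes) (β : AlgebraicClosure ℚ)
    (h : ∀ q : Nat.Primes, q ∉ S → ∀ A : ValuationSubring (AlgebraicClosure ℚ),
      A.LiesOverPrime (q : ℕ) → ∀ σ ∈ A.inertiaSubgroupIn ℚ, σ β = β) :
    (ℚ⟮β⟯).IsUnramifiedOutside S := by
  refine ⟨IntermediateField.adjoin.finiteDimensional (Algebra.IsIntegral.isIntegral β),
    fun q hq A hA σ hσ => ?_⟩
  have hσβ := h q hq A hA σ hσ
  have hle : ℚ⟮β⟯ ≤ IntermediateField.fixedField (Subgroup.zpowers σ) := by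
    rw [IntermediateField.adjoin_simple_le_iff, IntermediateField.mem_fixedField_iff]
    intro g hg
    have hst : Subgroup.zpowers σ ≤ MulAction.stabilizer
        (AlgebraicClosure ℚ ≃ₐ[ℚ] AlgebraicClosure ℚ) β := by
      rw [Subgroup.zpowers_le]
      exact hσβ
    exact hst hg
  rw [IntermediateField.mem_fixingSubgroup_iff]
  intro x hx
  have := hle hx
  rw [IntermediateField.mem_fixedField_iff] at this
  exact this σ (Subgroup.mem_zpowers σ)

/-- The action of `G_ℚ` on `ℚ̄ˣ` (additively written), elementwise. -/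
theorem unitsQbar_ρ_apply (g : Tow.GQ) (a : Tow.unitsQbar.V) :
    ((Additive.toMul (Tow.unitsQbar.ρ g a) : Tow.Qbarˣ) : Tow.Qbar) =
      g ((Additive.toMul a : Tow.Qbarˣ) : Tow.Qbar) := rfl

/-- **GD9, first half**: `S`-units are `p`-divisible in the tower. -/
theorem sUnits_div (S : Finset Nat.Primes) (hpS : pPrime p ∈ S) (L : Tow.Level S)
    (e : L.units.V) (he : L.IsSUnit e) :
    ∃ (L' : Tow.Level S) (h : L ≤ L') (e' : L'.units.V), L'.IsSUnit e' ∧
      p • e' = (Tow.Level.trUnits h).hom e := by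
  have hp0 : p ≠ 0 := (Fact.out : p.Prime).ne_zero
  -- the underlying element and a `p`-th root
  set ev : Tow.Qbarˣ := L.val e with hev
  obtain ⟨β, hβ⟩ := IsAlgClosed.exists_pow_nat_eq ((ev : Tow.Qbarˣ) : Tow.Qbar)
    (Nat.pos_of_ne_zero hp0)
  have hβ0 : β ≠ 0 := by
    intro h
    rw [h, zero_pow hp0] at hβ
    exact ev.ne_zero hβ.symm
  -- `e` is fixed by `U_F`
  have hefix : ∀ g ∈ L.U, g ((ev : Tow.Qbarˣ) : Tow.Qbar) = ((ev : Tow.Qbarˣ) : Tow.Qbar) := by
    intro g hg
    have h1 := L.unitsCoe_fixed e g hg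
    have h2 := congrArg (fun a : Tow.unitsQbar.V => ((Additive.toMul a : Tow.Qbarˣ) : Tow.Qbar)) h1
    exact h2
  -- `β` is a unit at every place outside `S`
  have hβunit : ∀ ℓ : Nat.Primes, ℓ ∉ S → ∀ A : ValuationSubring Tow.Qbar,
      A.LiesOverPrime (ℓ : ℕ) → β ∈ A ∧ β⁻¹ ∈ A := by
    intro ℓ hℓ A hA
    obtain ⟨h1, h2⟩ := he ℓ hℓ A hA
    rw [← A.valuation_le_one_iff] at h1 h2
    rw [Units.val_inv_eq_inv_val, map_inv₀] at h2
    have hv0 : A.valuation ((ev : Tow.Qbarˣ) : Tow.Qbar) ≠ 0 :=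
      (Valuation.ne_zero_iff _).2 ev.ne_zero
    have hv1 : A.valuation ((ev : Tow.Qbarˣ) : Tow.Qbar) = 1 :=
      le_antisymm h1 ((inv_le_one₀ (zero_lt_iff.2 hv0)).1 h2)
    have hvβ : A.valuation β = 1 := by
      have : (A.valuation β) ^ p = 1 := by rw [← map_pow, hβ, hv1]
      exact (pow_eq_one_iff.1 this).resolve_right hp0
    constructor
    · rw [← A.valuation_le_one_iff, hvβ]
    · rw [← A.valuation_le_one_iff, map_inv₀, hvβ, inv_one]
  -- inertia outside `S` fixes `β`
  have hβfix : ∀ q : Nat.Primes, q ∉ S → ∀ A : ValuationSubring (AlgebraicClosure ℚ),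
      A.LiesOverPrime (q : ℕ) → ∀ σ ∈ A.inertiaSubgroupIn ℚ, σ β = β := by
    intro q hq A hA σ hσ
    have hqp : (q : ℕ) ≠ p := by
      intro h
      apply hq
      have : q = pPrime p := Subtype.ext h
      rw [this]
      exact hpS
    obtain ⟨h1, h2⟩ := hβunit q hq A hA
    apply inertia_fixes_root q.2 hqp A hA hσ h1 h2
    rw [hβ]
    exact hefix σ (L.unram.2 q hq A hA hσ)
  have hF₁ : (L.F ⊔ ℚ⟮β⟯).IsUnramifiedOutside S :=
    L.unram.sup (isUnramifiedOutside_adjoin_simple S β hβfix)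
  obtain ⟨F', hF', hGal, hle⟩ := Bridge.exists_galois_level_ge S _ hF₁
  let L' : Tow.Level S := ⟨F', hF', (InfiniteGalois.normal_iff_isGalois F').mpr hGal⟩
  have h : L ≤ L' := (le_sup_left : L.F ≤ L.F ⊔ ℚ⟮β⟯).trans hle
  have hβF' : β ∈ F' := hle ((le_sup_right : ℚ⟮β⟯ ≤ L.F ⊔ ℚ⟮β⟯)
    (IntermediateField.mem_adjoin_simple_self ℚ β))
  let e' : L'.units.V := L'.unitsMk (Additive.ofMul (Units.mk0 β hβ0)) (fun g hg => by
    apply Additive.toMul.injective
    apply Units.ext
    exact (IntermediateField.mem_fixingSubgroup_iff F' g).1 hg β hβF')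
  refine ⟨L', h, e', ?_, ?_⟩
  · intro ℓ hℓ A hA
    exact hβunit ℓ hℓ A hA
  · apply L'.unitsCoe_injective
    apply Additive.toMul.injective
    apply Units.ext
    rw [map_nsmul]
    exact hβ

/-- **GD9.** -/
theorem sUnitsDivSpec (S : Finset Nat.Primes) (hpS : pPrime p ∈ S) : Tow.SUnitsDivSpec S p :=
  ⟨fun L e he => sUnits_div S hpS L e he, exists_level_rootsOfUnity S hpS⟩

end Fermat.Agent.S55.H654

end
-- ===== PACK-END S55/H654/GD9.lean

-- ===== PACK-BEGIN S55/Inv/GO4/ShapGenH593.lean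
section



/-!
# S55 / `InvSpec` / GO4-SHAP, generic part (helper593)

Finite Shapiro for the diagonal modules `dInd φ A = (Q →₀ A)` of `Inv/GO4/Defs.lean`:

* `recogInj` : Shapiro's lemma in recognition form along an INJECTIVE homomorphism `ψ : D →* G`
  (from `H173.shapiroHom_bijective`);
* `dAct_apply` : `(g • b) x = g • b (φ(g)⁻¹ x)`;
* `ev1Q φ H hH A : Res_H (dInd φ A) ⟶ Res_H A` (coefficient at `1 ∈ Q`, `φ` trivial on `H`) and
  `ev1Q_bijective` : `Hⁿ(Γ, dInd φ A) → Hⁿ(H, A)` is bijective if `H = ker φ`, `φ` surjective,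
  `Q` finite;
* `evC φ ψ B : Res_ψ (dInd φ (Coind_ψ B)) ⟶ dInd (φ ∘ ψ) B` (coefficientwise evaluation at `1 ∈ Γ`)
  and `evC_bijective` : `Hⁿ(Γ, dInd φ (Coind_ψ B)) → Hⁿ(D, dInd (φ ∘ ψ) B)` is bijective if `ψ` is
  injective and `Q` finite.
-/

set_option autoImplicit false
set_option linter.unusedSectionVars false
set_option linter.style.haveILetI false

open CategoryTheory groupCohomology

noncomputable section

namespace Fermat.Agent.S55.Inv.GO4.H593

open Fermat.Agent.S55 Fermat.Agent.S55.Inv.GO4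

section Recog

variable {k G D : Type} [CommRing k] [Group G] [Group D]

/-- **Shapiro, recognition form, along an injective homomorphism.** -/
theorem recogInj (ψ : D →* G) (hψ : Function.Injective ψ) (A : Rep.{0} k D) (B : Rep.{0} k G)
    (π : Rep.res ψ B ⟶ A)
    (hπ : ∀ f : G → A.V, (∀ (d : D) (g : G), f (ψ d * g) = A.ρ d (f g)) →
      ∃! b : B.V, ∀ g : G, π.hom (B.ρ g b) = f g) (n : ℕ) :
    Function.Bijective (groupCohomology.map ψ π n).hom := by
  let Φ : B ⟶ Rep.coind ψ A := Rep.resCoindToHom ψ B A π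
  have hΦ_apply : ∀ (b : B.V) (g : G), (Φ.hom b).1 g = π.hom (B.ρ g b) := fun b g => rfl
  have hinj : Function.Injective Φ.hom := by
    intro b b' hbb'
    obtain ⟨b₀, -, huniq⟩ := hπ (Φ.hom b).1 (fun s g => (Φ.hom b).2 s g)
    have h1 : b = b₀ := huniq b (fun g => rfl)
    have h2 : b' = b₀ := huniq b' (fun g => by rw [hbb']; rfl)
    rw [h1, h2]
  have hsurj : Function.Surjective Φ.hom := by
    intro f
    obtain ⟨b₀, hb₀, -⟩ := hπ f.1 (fun s g => f.2 s g)
    refine ⟨b₀, ?_⟩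
    apply Subtype.ext
    funext g
    exact hb₀ g
  haveI : Mono Φ := (Rep.mono_iff_injective Φ).mpr hinj
  haveI : Epi Φ := (Rep.epi_iff_surjective Φ).mpr hsurj
  haveI : IsIso Φ := isIso_of_mono_of_epi Φ
  haveI : IsIso (groupCohomology.map (MonoidHom.id G) Φ n) :=
    (inferInstance : IsIso ((groupCohomology.functor k G n).map Φ))
  have hcomp : groupCohomology.map ψ π n =
      groupCohomology.map (MonoidHom.id G) Φ n ≫ H173.shapiroHom ψ A n := by
    have h1 := groupCohomology.map_comp (MonoidHom.id G) ψ Φ (H173.ev1Hom ψ A) n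
    rw [← h1]
    apply groupCohomology.map_congr rfl
    ext b
    change π.hom b = π.hom (B.ρ 1 b)
    rw [map_one]
    rfl
  rw [hcomp]
  have hb1 : Function.Bijective (groupCohomology.map (MonoidHom.id G) Φ n).hom :=
    ConcreteCategory.bijective_of_isIso _
  have hb2 := H173.shapiroHom_bijective hψ n A
  have : ((groupCohomology.map (MonoidHom.id G) Φ n ≫ H173.shapiroHom ψ A n).hom : _ → _) =
      (H173.shapiroHom ψ A n).hom ∘ (groupCohomology.map (MonoidHom.id G) Φ n).hom := by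
    funext x; rfl
  rw [this]
  exact hb2.comp hb1

end Recog


section DInd

variable {k : Type} [CommRing k] {Γ Q : Type} [Group Γ] [Group Q]

/-- `(g • b) x = g • b (φ(g)⁻¹ x)`. -/
lemma dAct_apply (φ : Γ →* Q) (A : Rep.{0, 0, 0} k Γ) (g : Γ) (b : Q →₀ A) (x : Q) :
    dAct φ A g b x = A.ρ g (b ((φ g)⁻¹ * x)) := by
  have hinj : Function.Injective (fun y : Q => φ g * y) := mul_right_injective _
  have hx : (fun y : Q => φ g * y) ((φ g)⁻¹ * x) = x := by
    show φ g * ((φ g)⁻¹ * x) = x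
    rw [mul_inv_cancel_left]
  have h1 : dAct φ A g b =
      Finsupp.mapDomain (fun y : Q => φ g * y) (Finsupp.mapRange (A.ρ g) (map_zero _) b) := rfl
  rw [h1]
  conv_lhs => rw [← hx]
  rw [Finsupp.mapDomain_apply hinj]
  rfl

/-- the finitely supported function underlying an element of `dInd φ A` -/
def toFs (φ : Γ →* Q) (A : Rep.{0, 0, 0} k Γ) (b : (dInd φ A).V) : Q →₀ A.V := b

/-- an element of `dInd φ A` from a finitely supported function -/
def ofFs (φ : Γ →* Q) (A : Rep.{0, 0, 0} k Γ) (b : Q →₀ A.V) : (dInd φ A).V := b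

@[simp] lemma toFs_ofFs (φ : Γ →* Q) (A : Rep.{0, 0, 0} k Γ) (b : Q →₀ A.V) :
    toFs φ A (ofFs φ A b) = b := rfl

lemma toFs_injective (φ : Γ →* Q) (A : Rep.{0, 0, 0} k Γ) :
    Function.Injective (toFs φ A) := fun _ _ h => h

lemma dInd_ext {φ : Γ →* Q} {A : Rep.{0, 0, 0} k Γ} {b b' : (dInd φ A).V}
    (h : ∀ x, toFs φ A b x = toFs φ A b' x) : b = b' :=
  Finsupp.ext h

lemma toFs_ρ (φ : Γ →* Q) (A : Rep.{0, 0, 0} k Γ) (g : Γ) (b : (dInd φ A).V) (x : Q) :
    toFs φ A ((dInd φ A).ρ g b) x = A.ρ g (toFs φ A b ((φ g)⁻¹ * x)) :=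
  dAct_apply φ A g b x

lemma toFs_dIndMap (φ : Γ →* Q) {A B : Rep.{0, 0, 0} k Γ} (f : A ⟶ B) (b : (dInd φ A).V)
    (x : Q) : toFs φ B ((dIndMap φ f).hom b) x = f.hom (toFs φ A b x) := rfl

lemma toFs_dIndTr {Γ' : Type} [Group Γ'] (φ : Γ →* Q) (π : Γ' →* Γ) (φ' : Γ' →* Q)
    (hφ : ∀ g, φ (π g) = φ' g) {A : Rep.{0, 0, 0} k Γ}
    {A' : Rep.{0, 0, 0} k Γ'} (t : Rep.res π A ⟶ A') (b : (dInd φ A).V) (x : Q) :
    toFs φ' A' ((dIndTr φ π φ' hφ t).hom b) x = t.hom (toFs φ A b x) := rfl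

lemma rho_inv_self (A : Rep.{0, 0, 0} k Γ) (g : Γ) (a : A.V) : A.ρ g⁻¹ (A.ρ g a) = a := by
  rw [← Module.End.mul_apply, ← map_mul, inv_mul_cancel, map_one]
  rfl

lemma rho_self_inv (A : Rep.{0, 0, 0} k Γ) (g : Γ) (a : A.V) : A.ρ g (A.ρ g⁻¹ a) = a := by
  rw [← Module.End.mul_apply, ← map_mul, mul_inv_cancel, map_one]
  rfl

/-! ### `α` : coefficient at `1 ∈ Q` -/

/-- coefficient at `1 ∈ Q`: `Res_H (dInd φ A) ⟶ Res_H A`, for `φ` trivial on `H`. -/
def ev1Q (φ : Γ →* Q) (H : Subgroup Γ) (hH : ∀ g ∈ H, φ g = 1) (A : Rep.{0, 0, 0} k Γ) :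
    Rep.res H.subtype (dInd φ A) ⟶ Rep.res H.subtype A :=
  Rep.ofHom ⟨(Finsupp.lapply (1 : Q) : (Q →₀ A) →ₗ[k] A), fun s => by
    refine LinearMap.ext fun b => ?_
    show (dAct φ A (s : Γ) (toFs φ A b)) 1 = A.ρ (s : Γ) (toFs φ A b 1)
    rw [dAct_apply, hH s s.2, inv_one, one_mul]⟩

lemma ev1Q_apply (φ : Γ →* Q) (H : Subgroup Γ) (hH : ∀ g ∈ H, φ g = 1) (A : Rep.{0, 0, 0} k Γ)
    (b : (dInd φ A).V) : (ev1Q φ H hH A).hom b = toFs φ A b 1 := rfl

lemma ev1Q_ρ (φ : Γ →* Q) (H : Subgroup Γ) (hH : ∀ g ∈ H, φ g = 1) (A : Rep.{0, 0, 0} k Γ)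
    (b : (dInd φ A).V) (g : Γ) :
    (ev1Q φ H hH A).hom ((dInd φ A).ρ g b) = A.ρ g (toFs φ A b (φ g)⁻¹) := by
  rw [ev1Q_apply, toFs_ρ, mul_one]

lemma ev1Q_recog [Finite Q] (φ : Γ →* Q) (hφ : Function.Surjective φ) (H : Subgroup Γ)
    (hH : ∀ g, g ∈ H ↔ φ g = 1) (A : Rep.{0, 0, 0} k Γ)
    (f : Γ → A.V) (hf : ∀ (s : H) (g : Γ), f ((s : Γ) * g) = A.ρ (s : Γ) (f g)) :
    ∃! b : (dInd φ A).V, ∀ g : Γ,
      (ev1Q φ H (fun g hg => (hH g).1 hg) A).hom ((dInd φ A).ρ g b) = f g := by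
  classical
  have hσ : ∀ x : Q, φ (Function.surjInv hφ x) = x := Function.surjInv_eq hφ
  set σ : Q → Γ := Function.surjInv hφ with hσdef
  -- the key computation
  have key : ∀ (g τ : Γ), φ τ = φ g → A.ρ τ⁻¹ (f τ) = A.ρ g⁻¹ (f g) := by
    intro g τ hτ
    have hs : τ * g⁻¹ ∈ H := by
      rw [hH, map_mul, map_inv, hτ, mul_inv_cancel]
    have h1 := hf ⟨τ * g⁻¹, hs⟩ g
    have h2 : (τ * g⁻¹) * g = τ := by rw [inv_mul_cancel_right]
    change f ((τ * g⁻¹) * g) = A.ρ (τ * g⁻¹) (f g) at h1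
    rw [h2] at h1
    rw [h1, ← Module.End.mul_apply, ← map_mul, inv_mul_cancel_left]
  let b₀ : (dInd φ A).V := ofFs φ A
    (Finsupp.equivFunOnFinite.symm (fun x => A.ρ (σ x⁻¹)⁻¹ (f (σ x⁻¹))))
  have hb₀ : ∀ x, toFs φ A b₀ x = A.ρ (σ x⁻¹)⁻¹ (f (σ x⁻¹)) := fun x => rfl
  refine ⟨b₀, ?_, ?_⟩
  · intro g
    show (ev1Q φ H (fun g hg => (hH g).1 hg) A).hom ((dInd φ A).ρ g b₀) = f g
    rw [ev1Q_ρ, hb₀, inv_inv, key g (σ (φ g)) (hσ _), rho_self_inv]
  · intro b hb
    have hb' : ∀ g, A.ρ g (toFs φ A b (φ g)⁻¹) = f g := fun g =>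
      (ev1Q_ρ φ H _ A b g).symm.trans (hb g)
    apply dInd_ext
    intro x
    rw [hb₀]
    have h1 := hb' (σ x⁻¹)
    rw [hσ, inv_inv] at h1
    rw [← h1, rho_inv_self]

/-- **Shapiro for `dInd`, kernel form**: `Hⁿ(Γ, (Q →₀ A)) → Hⁿ(ker φ, A)` is bijective. -/
theorem ev1Q_bijective [Finite Q] (φ : Γ →* Q) (hφ : Function.Surjective φ) (H : Subgroup Γ)
    (hH : ∀ g, g ∈ H ↔ φ g = 1) (A : Rep.{0, 0, 0} k Γ) (n : ℕ) :
    Function.Bijective
      (groupCohomology.map H.subtype (ev1Q φ H (fun g hg => (hH g).1 hg) A) n).hom :=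
  recogInj H.subtype H.subtype_injective (Rep.res H.subtype A) (dInd φ A)
    (ev1Q φ H (fun g hg => (hH g).1 hg) A)
    (fun f hf => ev1Q_recog φ hφ H hH A f hf) n

/-! ### `β` : coefficientwise evaluation at `1 ∈ Γ` on `(Q →₀ Coind_ψ B)` -/

variable {D : Type} [Group D]

/-- coefficientwise evaluation at `1 ∈ Γ`: `Res_ψ (dInd φ (Coind_ψ B)) ⟶ dInd (φ ∘ ψ) B`. -/
def evC (φ : Γ →* Q) (ψ : D →* Γ) (B : Rep.{0, 0, 0} k D) :
    Rep.res ψ (dInd φ (Rep.coind ψ B)) ⟶ dInd (φ.comp ψ) B :=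
  dIndTr φ ψ (φ.comp ψ) (fun _ => rfl) (H173.ev1Hom ψ B)

lemma evC_apply (φ : Γ →* Q) (ψ : D →* Γ) (B : Rep.{0, 0, 0} k D)
    (b : (dInd φ (Rep.coind ψ B)).V) (x : Q) :
    toFs (φ.comp ψ) B ((evC φ ψ B).hom b) x = (toFs φ (Rep.coind ψ B) b x).1 1 := rfl

lemma evC_ρ (φ : Γ →* Q) (ψ : D →* Γ) (B : Rep.{0, 0, 0} k D)
    (b : (dInd φ (Rep.coind ψ B)).V) (g : Γ) (x : Q) :
    toFs (φ.comp ψ) B ((evC φ ψ B).hom ((dInd φ (Rep.coind ψ B)).ρ g b)) x =
      (toFs φ (Rep.coind ψ B) b ((φ g)⁻¹ * x)).1 g := by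
  rw [evC_apply, toFs_ρ]
  show (toFs φ (Rep.coind ψ B) b ((φ g)⁻¹ * x)).1 (1 * g) = _
  rw [one_mul]

lemma evC_recog [Finite Q] (φ : Γ →* Q) (ψ : D →* Γ) (B : Rep.{0, 0, 0} k D)
    (f : Γ → (dInd (φ.comp ψ) B).V)
    (hf : ∀ (d : D) (g : Γ), f (ψ d * g) = (dInd (φ.comp ψ) B).ρ d (f g)) :
    ∃! b : (dInd φ (Rep.coind ψ B)).V, ∀ g : Γ,
      (evC φ ψ B).hom ((dInd φ (Rep.coind ψ B)).ρ g b) = f g := by
  classical
  let F : Q → (Rep.coind ψ B).V := fun y =>
    ⟨fun g => toFs (φ.comp ψ) B (f g) (φ g * y), fun d g => by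
      show toFs (φ.comp ψ) B (f (ψ d * g)) (φ (ψ d * g) * y) =
        B.ρ d (toFs (φ.comp ψ) B (f g) (φ g * y))
      rw [hf d g, toFs_ρ]
      congr 2
      show (φ (ψ d))⁻¹ * (φ (ψ d * g) * y) = φ g * y
      rw [map_mul, mul_assoc, inv_mul_cancel_left]⟩
  let b₀ : (dInd φ (Rep.coind ψ B)).V :=
    ofFs φ (Rep.coind ψ B) (Finsupp.equivFunOnFinite.symm F)
  have hb₀ : ∀ y g, (toFs φ (Rep.coind ψ B) b₀ y).1 g = toFs (φ.comp ψ) B (f g) (φ g * y) :=
    fun y g => rfl
  refine ⟨b₀, ?_, ?_⟩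
  · intro g
    apply dInd_ext
    intro x
    rw [evC_ρ, hb₀, mul_inv_cancel_left]
  · intro b hb
    apply dInd_ext
    intro y
    apply Subtype.ext
    funext g
    show (toFs φ (Rep.coind ψ B) b y).1 g = (toFs φ (Rep.coind ψ B) b₀ y).1 g
    rw [hb₀, ← hb g, evC_ρ, inv_mul_cancel_left]

/-- **Shapiro for `dInd`, coinduced form**:
`Hⁿ(Γ, (Q →₀ Coind_ψ B)) → Hⁿ(D, (Q →₀ B))` is bijective. -/
theorem evC_bijective [Finite Q] (φ : Γ →* Q) (ψ : D →* Γ) (hψ : Function.Injective ψ)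
    (B : Rep.{0, 0, 0} k D) (n : ℕ) :
    Function.Bijective (groupCohomology.map ψ (evC φ ψ B) n).hom :=
  recogInj ψ hψ (dInd (φ.comp ψ) B) (dInd φ (Rep.coind ψ B)) (evC φ ψ B)
    (fun f hf => evC_recog φ ψ B f hf) n

end DInd

end Fermat.Agent.S55.Inv.GO4.H593

end

end
-- ===== PACK-END S55/Inv/GO4/ShapGenH593.lean

-- ===== PACK-BEGIN S56/H716/GWSpec2.lean
section


/-!
# Row S56 — the wall GW-WALL, layer 3b: BASE over a bigger set (deputy helper716)

`BASE  ⇐  BASE-BIG + COMP`       (optional route to `BaseStatement`)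

Tate's Euler characteristic is easier to prove for a LARGE set `S'` of primes (class groups and
`Ш²(Ind μ)` can be killed).  `BaseBigStatement` is `BaseStatement` with `Smin` replaced by some
finite set `S' ⊇ Smin` of primes, chosen by the prover:

* `BaseBigStatement` (BASE-BIG): there are `S' ⊇ Smin`, places `Pl` over `S'`, a dual frame `D'`
  unramified outside `S'` and a finite-dimensional space `X'` representing the strict Selmer classes
  of `(S', ∅)` (`= Ш¹_{S'}(M)`), with `dim X' + ∑_{v ∈ S'} h⁰(D_{Pl v}, M) + 1 ≤ dim D'`.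
* `CompStatement` (COMP): BASE-BIG ⇒ BASE.  Proof: `D := {y ∈ D' : y unramified at S' ∖ Smin}`,
  `X :=` representatives of `Ш¹_Smin(M)`;  `r : D' → R' := ⊕_{v ∈ S'∖Smin} H¹(G_v,M')/H¹_ur`,
  `s : Ш¹_Smin(M) → R := ⊕_{v ∈ S'∖Smin} H¹_ur(G_v,M)`, `ker r = D`, `ker s = Ш¹_{S'}(M)`;
  reciprocity (`x` is trivial at `Smin`, both unramified outside `S'`) gives `r(D') ⊥ s(Ш¹_Smin)`;
  tame duality at the unramified primes `v ∈ S'∖Smin` (`R → R'^∨` injective, `dim R' ≤ ∑ h⁰`)
  gives `dim r(D') + dim s(Ш¹_Smin) ≤ ∑_{v ∈ S'∖Smin} h⁰(G_v, M)`, whence the inequality.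

Nothing unproved in this file.
-/

set_option autoImplicit false

open Polynomial IsLocalRing

noncomputable section

namespace Fermat.Agent.S56.H716

open Fermat.Agent.S56

/-- (BASE-BIG) for one residual representation: (BASE) for some finite set of primes
`S' ⊇ Smin`. -/
def BaseBig (𝒪 : Type) [CommRing 𝒪] [IsDomain 𝒪] [IsDiscreteValuationRing 𝒪]
    (p : ℕ) (ρbar : ResidualGaloisRep (ResidueField 𝒪)) (Smin : Finset ℕ) : Prop :=
  ∃ S' : Finset ℕ, Smin ⊆ S' ∧ (∀ q ∈ S', q.Prime) ∧ Base 𝒪 p ρbar S'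

/-- (BASE-BIG). -/
def BaseBigStatement : Prop :=
  ∀ (𝒪 : Type) [CommRing 𝒪] [IsDomain 𝒪] [IsDiscreteValuationRing 𝒪]
    [IsAdicComplete (maximalIdeal 𝒪) 𝒪] [Finite (ResidueField 𝒪)]
    (p : ℕ) (ρbar : ResidualGaloisRep (ResidueField 𝒪)) (S Smin : Finset ℕ),
    Hyp 𝒪 p ρbar S Smin → BaseBig 𝒪 p ρbar Smin

/-- (COMP): from a big set `S'` down to `Smin`. -/
def CompStatement : Prop :=
  ∀ (𝒪 : Type) [CommRing 𝒪] [IsDomain 𝒪] [IsDiscreteValuationRing 𝒪]
    [IsAdicComplete (maximalIdeal 𝒪) 𝒪] [Finite (ResidueField 𝒪)]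
    (p : ℕ) (ρbar : ResidualGaloisRep (ResidueField 𝒪)) (S Smin : Finset ℕ),
    Hyp 𝒪 p ρbar S Smin → BaseBig 𝒪 p ρbar Smin → Base 𝒪 p ρbar Smin

/-- (BASE) from (BASE-BIG) and (COMP). -/
theorem base_of_baseBig (hc : CompStatement) (hb : BaseBigStatement) : BaseStatement :=
  fun 𝒪 _ _ _ _ _ p ρbar S Smin hyp => hc 𝒪 p ρbar S Smin hyp (hb 𝒪 p ρbar S Smin hyp)

end Fermat.Agent.S56.H716

end

end
-- ===== PACK-END S56/H716/GWSpec2.lean

-- ===== PACK-BEGIN S56/H66/VGArch.lean
section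


/-!
# S56 / FLAT-O, leaf FO-VG (helper66): valuation inputs, part 2

* `arch` (ARCH): for `c ≠ 0` in `ℚ̄` there is `N` with `v(p)^N ≤ v(c)`;
* `vg1_le`: a non-unit of `A` fixed by `I₁` has valuation `≤ v(ζ - 1)`;
* `vg1_mem`: such an element is `(ζ - 1) · b` with `b ∈ A`;
* `vg0_mem`: a non-unit of `A` fixed by `I` is `p · b` with `b ∈ A`.
-/

set_option autoImplicit false
set_option linter.style.haveILetI false

open scoped Pointwise

namespace Fermat.Agent.S56.H66

open Polynomial Fermat.Agent.S14.H894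

local notation "Qb" => AlgebraicClosure ℚ
local notation "GQ" => (AlgebraicClosure ℚ ≃ₐ[ℚ] AlgebraicClosure ℚ)

section

variable (A : ValuationSubring Qb) (p : ℕ) (hp : p.Prime) (hA : A.LiesOverPrime p)
  (ζ : Qb) (hζ : IsPrimitiveRoot ζ p)

include hp hA in
/-- **(ARCH)** The valuation of a nonzero algebraic number is bounded below by a power of
`v(p)`. -/
theorem arch (c : Qb) (hc : c ≠ 0) : ∃ N : ℕ, A.valuation (p : Qb) ^ N ≤ A.valuation c := by
  have halg : IsAlgebraic ℤ c⁻¹ :=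
    (IsFractionRing.isAlgebraic_iff ℤ ℚ Qb).mpr
      ((AlgebraicClosure.isAlgebraic ℚ).isAlgebraic c⁻¹)
  obtain ⟨d, hd0, hd⟩ := halg.exists_integral_multiple
  have hmem : d • c⁻¹ ∈ A := Fermat.Agent.S54.isIntegral_mem_valuationSubring A hd
  have hle : A.valuation (d • c⁻¹) ≤ 1 := (A.valuation_le_one_iff _).mpr hmem
  have hdn : d.natAbs ≠ 0 := Int.natAbs_ne_zero.mpr hd0
  obtain ⟨N, hN⟩ := exists_pow_valuation_nat A p hp hA d.natAbs hdn
  have hvd : A.valuation ((d : ℤ) : Qb) = A.valuation (p : Qb) ^ N := by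
    rw [← hN]
    rcases Int.natAbs_eq d with h | h
    · conv_lhs => rw [h]
      simp
    · conv_lhs => rw [h]
      simp
  refine ⟨N, ?_⟩
  have hcv : A.valuation c ≠ 0 := (Valuation.ne_zero_iff _).mpr hc
  rw [zsmul_eq_mul, map_mul, map_inv₀, hvd] at hle
  have := (mul_inv_le_iff₀ (zero_lt_iff.mpr hcv)).mp hle
  simpa using this

include hp hA hζ in
/-- (VG1), integral form: a non-unit of `A` fixed by `I₁` has valuation `≤ v(ζ - 1)`. -/
theorem vg1_le (a : Qb) (ha : a ∈ A.nonunits)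
    (hfix : ∀ σ ∈ A.inertiaSubgroupIn ℚ, σ ζ = ζ → σ a = a) :
    A.valuation a ≤ A.valuation (ζ - 1) := by
  rcases eq_or_ne a 0 with rfl | ha0
  · simp
  obtain ⟨n, hn⟩ := vg1 A p hp hA ζ hζ a ha0 hfix
  have hπ0 := valuation_zeta_sub_one_ne_zero A p hp ζ hζ
  have hπ1 := valuation_zeta_sub_one_lt_one A p hp hA ζ hζ
  have hav : A.valuation a < 1 := (A.mem_nonunits_iff).mp ha
  rw [hn] at hav ⊢
  have hn1 : 1 ≤ n := by
    by_contra hcon
    push Not at hcon
    have hn0 : n ≤ 0 := by omega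
    have : 1 ≤ A.valuation (ζ - 1) ^ n := by
      obtain ⟨k, rfl⟩ : ∃ k : ℕ, n = -(k : ℤ) := ⟨(-n).toNat, by omega⟩
      rw [zpow_neg, zpow_natCast]
      exact (one_le_inv₀ (pow_pos (zero_lt_iff.mpr hπ0) k)).mpr (pow_le_one₀ zero_le hπ1.le)
    exact absurd hav (not_lt.mpr this)
  obtain ⟨k, rfl⟩ : ∃ k : ℕ, n = (k : ℤ) + 1 := ⟨(n - 1).toNat, by omega⟩
  rw [zpow_add_one₀ hπ0, zpow_natCast]
  calc A.valuation (ζ - 1) ^ k * A.valuation (ζ - 1)
      ≤ 1 * A.valuation (ζ - 1) := by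
        gcongr
        exact pow_le_one₀ zero_le hπ1.le
    _ = A.valuation (ζ - 1) := one_mul _

/-- `v(a) ≤ v(b)`, `b ≠ 0` ⇒ `a = b * c` with `c ∈ A`. -/
theorem exists_mul_of_valuation_le {a b : Qb} (hb : b ≠ 0)
    (h : A.valuation a ≤ A.valuation b) : ∃ c ∈ A, a = b * c := by
  refine ⟨a / b, ?_, by field_simp⟩
  rw [← A.valuation_le_one_iff, map_div₀]
  exact div_le_one_of_le₀ h zero_le

include hp hA hζ in
/-- (VG1), divisibility form. -/
theorem vg1_mem (a : Qb) (ha : a ∈ A.nonunits)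
    (hfix : ∀ σ ∈ A.inertiaSubgroupIn ℚ, σ ζ = ζ → σ a = a) :
    ∃ c ∈ A, a = (ζ - 1) * c :=
  exists_mul_of_valuation_le A (sub_ne_zero.mpr (hζ.ne_one hp.one_lt))
    (vg1_le A p hp hA ζ hζ a ha hfix)

include hp hA in
/-- (VG0), divisibility form. -/
theorem vg0_mem (a : Qb) (ha : a ∈ A.nonunits)
    (hfix : ∀ σ ∈ A.inertiaSubgroupIn ℚ, σ a = a) :
    ∃ c ∈ A, a = (p : Qb) * c :=
  exists_mul_of_valuation_le A (by exact_mod_cast hp.ne_zero) (vg0_le p hp A hA a ha hfix)

end

end Fermat.Agent.S56.H66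

end
-- ===== PACK-END S56/H66/VGArch.lean

-- ===== PACK-BEGIN S56/H14/MuTriv.lean
section




/-!
# Row S56 — REC-Q input: at a prime `q ≡ 1 mod p` the decomposition group fixes `μ_p` (helper14)

* `exists_int_sub_mem_nonunits` : `A | q`, `t ∈ ℚ̄` with `t ^ q = t` ⟹ `t ≡ n mod 𝔪_A` for some
  integer `n` (the residue class of `t` lies in the prime field);
* `cycloChar_eq_one_of_mem_decomposition` : `q ≠ p`, `p ∣ q - 1`, `σ ∈ D_A` ⟹ `cycloChar p σ = 1`;
* `muLoc_ρ_eq_one` : `μ_p` is a trivial module for the local Galois group `Gl q`;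
* `inv_bijective_of_dvd_sub_one` : S55's `inv_q` is bijective on `H²(G_q, μ_p)` for `q ≡ 1 mod p`.

Nothing unproved in this file.
-/

set_option autoImplicit false

noncomputable section

namespace Fermat.Agent.S56.H14

open groupCohomology Fermat.Agent.S55.PT ExtCitation Polynomial

section Residue

variable (A : ValuationSubring (AlgebraicClosure ℚ))

/-- The residue field at a place over `q` has characteristic `q`. -/
lemma charP_residueField {q : ℕ} (hq : q.Prime) (hA : A.LiesOverPrime q) :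
    CharP (IsLocalRing.ResidueField A) q := by
  obtain ⟨c, hc⟩ := CharP.exists (IsLocalRing.ResidueField A)
  have hq0 : ((q : ℕ) : IsLocalRing.ResidueField A) = 0 := by
    have hmem : ((q : ℕ) : AlgebraicClosure ℚ) ∈ A := by
      have := natCast_mem A q
      exact this
    have h1 : (⟨(q : AlgebraicClosure ℚ), hmem⟩ : A) ∈ IsLocalRing.maximalIdeal A := by
      rw [ValuationSubring.valuation_lt_one_iff]
      exact (A.mem_nonunits_iff).mp hA
    have h2 : IsLocalRing.residue A ⟨(q : AlgebraicClosure ℚ), hmem⟩ = 0 :=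
      (IsLocalRing.residue_eq_zero_iff _).2 h1
    have h3 : (⟨(q : AlgebraicClosure ℚ), hmem⟩ : A) = ((q : ℕ) : A) := by
      apply Subtype.ext
      simp
    rw [h3, map_natCast] at h2
    exact h2
  have hdvd : c ∣ q := (CharP.cast_eq_zero_iff (IsLocalRing.ResidueField A) c q).1 hq0
  rcases (Nat.dvd_prime hq).1 hdvd with h | h
  · subst h
    exact absurd rfl (CharP.char_ne_one (IsLocalRing.ResidueField A) 1)
  · subst h
    exact hc

/-- If `t ^ q = t` then `t` is congruent to an integer modulo the maximal ideal of a place over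
`q`. -/
theorem exists_int_sub_mem_nonunits {q : ℕ} (hq : q.Prime) (hA : A.LiesOverPrime q)
    {t : AlgebraicClosure ℚ} (htA : t ∈ A) (ht : t ^ q = t) :
    ∃ n : ℕ, t - (n : AlgebraicClosure ℚ) ∈ A.nonunits := by
  have : Fact q.Prime := ⟨hq⟩
  have := charP_residueField A hq hA
  let κ := IsLocalRing.ResidueField A
  let f : ZMod q →+* κ := ZMod.castHom (dvd_refl q) κ
  let tb : κ := IsLocalRing.residue A ⟨t, htA⟩
  have htb : tb ^ q = tb := by
    show (IsLocalRing.residue A ⟨t, htA⟩) ^ q = IsLocalRing.residue A ⟨t, htA⟩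
    rw [← map_pow]
    congr 1
    apply Subtype.ext
    simpa using ht
  -- `∏_a (X - a) = X ^ q - X` over `ZMod q`
  have hprod : (∏ a : ZMod q, (X - C a)) = (X ^ q - X : (ZMod q)[X]) := by
    have hroots := FiniteField.roots_X_pow_card_sub_X (ZMod q)
    rw [ZMod.card] at hroots
    have hmonic : (X ^ q - X : (ZMod q)[X]).Monic :=
      monic_X_pow_sub (by rw [degree_X]; exact_mod_cast hq.one_lt)
    have hdeg : (X ^ q - X : (ZMod q)[X]).natDegree = q :=
      FiniteField.X_pow_card_sub_X_natDegree_eq (ZMod q) hq.one_lt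
    have hcard : Multiset.card (X ^ q - X : (ZMod q)[X]).roots
        = (X ^ q - X : (ZMod q)[X]).natDegree := by
      rw [hroots, hdeg, Finset.card_val, Finset.card_univ, ZMod.card]
    have := prod_multiset_X_sub_C_of_monic_of_roots_card_eq hmonic hcard
    rw [hroots] at this
    rw [← this]
    rfl
  have heval : ∏ a : ZMod q, (tb - f a) = 0 := by
    have h1 := congrArg (fun P => eval₂ f tb P) hprod
    simp only [eval₂_finsetProd, eval₂_sub, eval₂_X, eval₂_C, eval₂_X_pow] at h1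
    rw [h1, htb, sub_self]
  obtain ⟨a, -, ha⟩ := Finset.prod_eq_zero_iff.1 heval
  obtain ⟨n, hn'⟩ : ∃ n : ℕ, f a = (n : κ) := by
    refine ⟨a.val, ?_⟩
    have h6 : f ((a.val : ℕ) : ZMod q) = ((a.val : ℕ) : κ) := map_natCast f a.val
    rwa [ZMod.natCast_zmod_val a] at h6
  refine ⟨n, ?_⟩
  have hn : ((n : ℕ) : AlgebraicClosure ℚ) ∈ A := natCast_mem A n
  have h2 : IsLocalRing.residue A (⟨t, htA⟩ - ⟨((n : ℕ) : AlgebraicClosure ℚ), hn⟩) = 0 := by
    rw [map_sub]
    have h3 : (⟨((n : ℕ) : AlgebraicClosure ℚ), hn⟩ : A) = ((n : ℕ) : A) := by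
      apply Subtype.ext
      simp
    rw [h3, map_natCast, ← hn']
    exact ha
  have h5 := (IsLocalRing.residue_eq_zero_iff _).1 h2
  rw [ValuationSubring.valuation_lt_one_iff] at h5
  rw [A.mem_nonunits_iff]
  exact h5

/-- The decomposition group at a place over `q ≡ 1 mod p` (`q ≠ p`) fixes the `p`-th roots of
unity. -/
theorem cycloChar_eq_one_of_mem_decomposition (p : ℕ) [Fact p.Prime] {q : ℕ} (hq : q.Prime)
    (hqp : q ≠ p) (hdvd : p ∣ q - 1) (hA : A.LiesOverPrime q)
    (σ : AlgebraicClosure ℚ ≃ₐ[ℚ] AlgebraicClosure ℚ) (hσ : σ ∈ A.decompositionSubgroup ℚ) :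
    cycloChar p σ = 1 := by
  have hp : p.Prime := Fact.out
  apply Fermat.Agent.S55.Bridge.cycloChar_eq_one_of_fixes
  intro t ht
  have htp : (t : AlgebraicClosure ℚ) ^ p = 1 := by
    have := (mem_rootsOfUnity p t).1 ht
    rw [← Units.val_pow_eq_pow_val, this, Units.val_one]
  by_contra hne
  have hpv := Fermat.Agent.S55.Bridge.val_prime_eq_one (A := A) hA hq hp hqp
  have hσt : (σ (t : AlgebraicClosure ℚ)) ^ p = 1 := by rw [← map_pow, htp, map_one]
  have h1 := Fermat.Agent.S55.Bridge.val_sub_roots_eq_one (A := A) hp.ne_zero hpv hσt htp hne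
  have hvt : A.valuation (t : AlgebraicClosure ℚ) ≤ 1 := by
    have h : (A.valuation (t : AlgebraicClosure ℚ)) ^ p = 1 := by rw [← map_pow, htp, map_one]
    exact ((pow_eq_one_iff.1 h).resolve_right hp.ne_zero).le
  have htA : (t : AlgebraicClosure ℚ) ∈ A := (A.valuation_le_one_iff _).1 hvt
  have htq : (t : AlgebraicClosure ℚ) ^ q = t := by
    obtain ⟨m, hm⟩ := hdvd
    have h2 : q = p * m + 1 := by
      have := Nat.sub_add_cancel hq.one_le
      omega
    rw [h2, pow_succ, pow_mul, htp, one_pow, one_mul]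
  obtain ⟨n, hn⟩ := exists_int_sub_mem_nonunits A hq hA htA htq
  -- `σ` preserves the maximal ideal
  have hσn : σ ((t : AlgebraicClosure ℚ) - (n : AlgebraicClosure ℚ)) ∈ A.nonunits := by
    have hD := (Fermat.Agent.S55.Bridge.mem_decompositionSubgroup_iff A σ).1 hσ
    rw [A.mem_nonunits_iff_or] at hn ⊢
    rcases hn with h0 | hinv
    · left
      rw [h0, map_zero]
    · right
      rw [← map_inv₀, hD]
      exact hinv
  rw [map_sub, map_natCast] at hσn
  have h3 : A.valuation (σ (t : AlgebraicClosure ℚ) - (t : AlgebraicClosure ℚ)) < 1 := by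
    have e : σ (t : AlgebraicClosure ℚ) - (t : AlgebraicClosure ℚ)
        = (σ (t : AlgebraicClosure ℚ) - (n : AlgebraicClosure ℚ))
          - ((t : AlgebraicClosure ℚ) - (n : AlgebraicClosure ℚ)) := by ring
    rw [e]
    exact lt_of_le_of_lt (Valuation.map_sub _ _ _)
      (max_lt ((A.mem_nonunits_iff).1 hσn) ((A.mem_nonunits_iff).1 hn))
  rw [h1] at h3
  exact lt_irrefl _ h3

end Residue

section Arith

variable {p : ℕ} [Fact p.Prime]

/-- `μ_p` is a trivial module for the local Galois group at a prime `q ≡ 1 mod p`, `q ≠ p`. -/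
theorem muLoc_ρ_eq_one (q : Nat.Primes) (hqp : (q : ℕ) ≠ p) (hdvd : p ∣ (q : ℕ) - 1)
    (s : Gl q) : (muLoc p q).ρ s = 1 := by
  have h1 : cycloChar p (rl q s) = 1 :=
    cycloChar_eq_one_of_mem_decomposition (primeLocalPlace q) p q.2 hqp hdvd
      (Fermat.Agent.S55.BLocal.primeLocalPlace_liesOver q) _
      (Fermat.Agent.S55.BLocal.primeLocalToGlobal_mem q s)
  apply LinearMap.ext
  intro c
  show (mu p).ρ (rl q s) c = c
  show ((cycloChar p (rl q s) : (ZMod p)ˣ) : ZMod p) • c = c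
  rw [h1, Units.val_one, one_smul]

/-- **S55's `inv_q` is bijective on `H²(G_q, μ_p)`** for `q ≡ 1 mod p`, `q ≠ p` (from A6). -/
theorem inv_bijective_of_dvd_sub_one {S : Finset Nat.Primes} {inv : InvFamily p S}
    (h : TopLocIndSpec inv) (v : ↥S) (hqp : ((v : Nat.Primes) : ℕ) ≠ p)
    (hdvd : p ∣ ((v : Nat.Primes) : ℕ) - 1) : Function.Bijective (inv v) :=
  inv_bijective_of_topLocInd h v (muLoc_ρ_eq_one v.1 hqp hdvd)

end Arith

end Fermat.Agent.S56.H14

end

end
-- ===== PACK-END S56/H14/MuTriv.lean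

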