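import Fermat.Agent.Pack.S43GC.G0E15L2
import Fermat.Agent.Pack.S43GC.G0E15L0
import Fermat.Agent.Pack.S43GC.G0E12L1
import Fermat.Agent.Pack.S43GC.G0E3L0
import Fermat.Agent.Pack.S43GC.G0E5L2
import Fermat.Agent.Pack.S43GC.G0E15L3
import Fermat.Agent.Pack.S43GC.G0E9L1
import Fermat.Agent.Pack.S43GC.G0E7L3
import Fermat.Agent.Pack.S43GC.G0E13L1
import Fermat.Agent.Pack.S44C.G0E10L0
import Fermat.Agent.Pack.S43GC.G0E8L0
import Fermat.Agent.Pack.S43GC.G0E16L2
import Fermat.Agent.Pack.S43GC.G0E5L1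
import Fermat.Agent.Pack.S43GC.G0E3L1
import Fermat.Agent.Pack.S43GC.G0E5L3
import Fermat.Agent.Pack.S43GC.G0E16L0
import Fermat.Agent.Pack.S43GC.G0E16L1
import Fermat.Agent.Pack.S43GC.G0E14L0
import Fermat.Agent.Pack.S43GC.G0E16L3
import Fermat.Agent.Pack.S43GC.G0E10L0
import Fermat.Agent.Pack.S43GC.G0E14L3
import Fermat.Agent.Pack.S43GC.G0E14L1
import Fermat.Agent.Pack.S43GC.G0E11L0
import Fermat.Agent.Pack.S43GC.G0E13L0
import Fermat.Agent.Pack.S43GC.G0E1L2
import Fermat.Agent.Pack.Fast891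

-- ===== PACK-BEGIN S55/PT/H837/CapDev.lean
section


/-!
# S55 / layer D, leaf D-T3: CAP for all modules (helper837)

`capDev : CapDevSpec p S`, i.e. `GlobalNormalCofinalSpec → CapSpec p S → CapAllSpec p S`.

Proof.  `twTriv χ M ≅ μ^d`: with a basis `b` of `M`, coordinates `λ_i = b.coord i` and
`ι_i = (· • b i)`, one has
`augTw_U = Σ_i (augTw_V ∘ Ind_V ι_i) ∘ (indLE ∘ Ind_U λ_i)`
for `U ≤ V`, `V` acting trivially on `M` and on `χ`.  Each `(Ind_U λ_i)_*` maps `Ш²` to `Ш²`, and
`indLE_*` kills `Ш²(Ind_U μ)` by CAP.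
-/

set_option autoImplicit false

noncomputable section

namespace Fermat.Agent.S55.PT.H837

open groupCohomology ExtCitation Fermat.Agent.S55.PT

variable {k : Type} [Field k] {G : Type} [Group G]

/-- every linear map is equivariant between twisted trivial modules -/
lemma twTriv_isEquivariant (χ : G →* kˣ) {W W' : Type} [AddCommGroup W] [Module k W]
    [AddCommGroup W'] [Module k W'] (φ : W →ₗ[k] W') :
    IsEquivariant (A := twTriv χ W) (B := twTriv χ W') φ := by
  intro g w
  rw [twTriv_ρ_apply, twTriv_ρ_apply]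
  exact map_smul φ _ w

/-- if `φ = Σ_i ψ_i ∘ θ_i` and all `(θ_i)_* x = 0` then `φ_* x = 0` -/
lemma pushH2_eq_zero_of_eq_sum_comp (L : LevelSys G) {A B C : Rep.{0, 0, 0} k G} {I : Type}
    (s : Finset I) (θ : I → (A →ₗ[k] B)) (ψ : I → (B →ₗ[k] C))
    (hθ : ∀ i, IsEquivariant (θ i)) (hψ : ∀ i, IsEquivariant (ψ i))
    (φ : A →ₗ[k] C) (hφ : IsEquivariant φ) (h : φ = ∑ i ∈ s, ψ i ∘ₗ θ i)
    (x : L.H2 A) (hx : ∀ i ∈ s, pushH2 (θ i) (hθ i) L x = 0) :
    pushH2 φ hφ L x = 0 := by
  obtain ⟨c, rfl⟩ := L.H2π_surjective A x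
  have key : pushZ2 φ hφ L c = ∑ i ∈ s, pushZ2 (ψ i) (hψ i) L (pushZ2 (θ i) (hθ i) L c) := by
    apply Subtype.ext
    rw [coe_pushZ2, Submodule.coe_sum]
    funext y
    rw [Finset.sum_apply, Function.comp_apply, h, LinearMap.sum_apply]
    rfl
  rw [pushH2_mk, key, map_sum]
  refine Finset.sum_eq_zero fun i hi => ?_
  have h0 := hx i hi
  rw [pushH2_mk] at h0
  rw [← pushH2_mk, h0, map_zero]

section Generic

variable {ι : Type} [Fintype ι] [DecidableEq ι] {Gv : ι → Type} [∀ v, Group (Gv v)]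
variable {L : LevelSys G} {Lv : ∀ v, LevelSys (Gv v)} {r : ∀ v, Gv v →* G}
variable (hr : ∀ v, IsLevelCompatible (r v) L (Lv v))

/-- the coordinate decomposition of the twisted augmentation -/
lemma augTw_eq_sum (χ : G →* kˣ) (M : Rep.{0, 0, 0} k G) {U V : Subgroup G} (hUV : U ≤ V)
    (hχ : ∀ u ∈ V, χ u = 1) (hM : ∀ u ∈ V, M.ρ u = 1)
    {d : Type} [Fintype d] (b : Module.Basis d k M) :
    augTw χ U M = ∑ i : d,
      ((augTw χ V M) ∘ₗ (indMap V (M := ofChar χ) (N := twTriv χ M)
          (LinearMap.toSpanSingleton k M (b i)))) ∘ₗ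
        ((indLE (ofChar χ) hUV) ∘ₗ (indMap U (M := twTriv χ M) (N := ofChar χ) (b.coord i))) := by
  apply Finsupp.lhom_ext
  intro x m
  induction x using QuotientGroup.induction_on with
  | H g =>
    rw [LinearMap.sum_apply, augTw_single,
      twAct_mk χ U M (fun u hu => hχ u (hUV hu)) (fun u hu => hM u (hUV hu))]
    have hterm : ∀ i : d,
        (((augTw χ V M) ∘ₗ (indMap V (M := ofChar χ) (N := twTriv χ M)
          (LinearMap.toSpanSingleton k M (b i)))) ∘ₗ
        ((indLE (ofChar χ) hUV) ∘ₗ (indMap U (M := twTriv χ M) (N := ofChar χ) (b.coord i))))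
          (Finsupp.single (g : G ⧸ U) m) =
        ((((χ g)⁻¹ : kˣ) : k) • M.ρ g) ((b.coord i m) • b i) := by
      intro i
      rw [LinearMap.comp_apply, LinearMap.comp_apply, LinearMap.comp_apply, indMap_single,
        indLE_single, indMap_single, augTw_single]
      have h1 : Subgroup.quotientMapOfLE hUV (g : G ⧸ U) = (g : G ⧸ V) := rfl
      rw [h1, twAct_mk χ V M hχ hM]
      rfl
    rw [Finset.sum_congr rfl (fun i _ => hterm i), ← map_sum]
    congr 1
    exact (b.sum_repr m).symm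

include hr in
/-- **CAP dévissage, generic form.** -/
theorem pushH2_augTw_eq_zero (χ : G →* kˣ) (M : Rep.{0, 0, 0} k G) [FiniteDimensional k M]
    {U V : Subgroup G} (hUV : U ≤ V)
    (hχ : ∀ u ∈ V, χ u = 1) (hM : ∀ u ∈ V, M.ρ u = 1)
    (hcap : ∀ x ∈ Sha2 hr (indRep U (ofChar χ)),
      pushH2 (A := indRep U (ofChar χ)) (B := indRep V (ofChar χ)) (indLE (ofChar χ) hUV)
        (indLE_equivariant U (ofChar χ) hUV) L x = 0)
    (x : L.H2 (indRep U (twTriv χ M))) (hx : x ∈ Sha2 hr (indRep U (twTriv χ M))) :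
    pushH2 (A := indRep U (twTriv χ M)) (B := M) (augTw χ U M)
      (augTw_equivariant χ U M (fun u hu => hχ u (hUV hu)) (fun u hu => hM u (hUV hu)))
      L x = 0 := by
  classical
  let b := Module.finBasis k M
  -- equivariance of the pieces
  have hlam : ∀ i, IsEquivariant (A := indRep U (twTriv χ M)) (B := indRep U (ofChar χ))
      (indMap U (M := twTriv χ M) (N := ofChar χ) (b.coord i)) := fun i =>
    indMap_equivariant U (M := twTriv χ M) (N := ofChar χ) (b.coord i)
      (twTriv_isEquivariant χ (b.coord i))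
  have hle : IsEquivariant (A := indRep U (ofChar χ)) (B := indRep V (ofChar χ))
      (indLE (ofChar χ) hUV) := indLE_equivariant U (ofChar χ) hUV
  have hθ : ∀ i, IsEquivariant (A := indRep U (twTriv χ M)) (B := indRep V (ofChar χ))
      ((indLE (ofChar χ) hUV) ∘ₗ (indMap U (M := twTriv χ M) (N := ofChar χ) (b.coord i))) :=
    fun i => isEquivariant_comp (hlam i) hle
  have hiota : ∀ i, IsEquivariant (A := indRep V (ofChar χ)) (B := indRep V (twTriv χ M))
      (indMap V (M := ofChar χ) (N := twTriv χ M) (LinearMap.toSpanSingleton k M (b i))) :=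
    fun i => indMap_equivariant V (M := ofChar χ) (N := twTriv χ M)
      (LinearMap.toSpanSingleton k M (b i))
      (twTriv_isEquivariant χ (W := k) (W' := M) (LinearMap.toSpanSingleton k M (b i)))
  have haugV : IsEquivariant (A := indRep V (twTriv χ M)) (B := M) (augTw χ V M) :=
    augTw_equivariant χ V M hχ hM
  have hψ : ∀ i, IsEquivariant (A := indRep V (ofChar χ)) (B := M)
      ((augTw χ V M) ∘ₗ (indMap V (M := ofChar χ) (N := twTriv χ M)
          (LinearMap.toSpanSingleton k M (b i)))) :=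
    fun i => isEquivariant_comp (hiota i) haugV
  refine pushH2_eq_zero_of_eq_sum_comp L (A := indRep U (twTriv χ M))
    (B := indRep V (ofChar χ)) (C := M) Finset.univ _ _ hθ hψ (augTw χ U M) _
    (augTw_eq_sum χ M hUV hχ hM b) x (fun i _ => ?_)
  rw [pushH2_comp L (hlam i) hle (hθ i) x]
  refine hcap _ ?_
  exact (pushSha2 hr (A := indRep U (twTriv χ M)) (B := indRep U (ofChar χ))
    (indMap U (M := twTriv χ M) (N := ofChar χ) (b.coord i)) (hlam i) ⟨x, hx⟩).2

end Generic

/-- **Leaf D-T3.**  CAP for `Ind_U μ` implies CAP for all modules. -/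
theorem capDev (p : ℕ) [Fact p.Prime] (S : Finset Nat.Primes) : CapDevSpec p S := by
  intro hNC hCap M hMfin V hV hχ hMV
  obtain ⟨V', hV', hV'V, hV'n⟩ := hNC S V hV
  have hmu : ∀ s ∈ V', (mu p).ρ s = 1 := by
    intro s hs
    apply LinearMap.ext
    intro c
    rw [ofChar_ρ_apply, hχ s (hV'V hs)]
    simp
  obtain ⟨U, hUV', hU, hUn, hcap⟩ := hCap V' hV' hV'n hmu
  refine ⟨U, hUV'.trans hV'V, hU, hUn, fun x hx => ?_⟩
  have : FiniteDimensional (ZMod p) M := hMfin
  exact pushH2_augTw_eq_zero (hrl S) (cycloChar p) M hUV'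
    (fun u hu => hχ u (hV'V hu)) (fun u hu => hMV u (hV'V hu)) hcap x hx

end Fermat.Agent.S55.PT.H837

end

end
-- ===== PACK-END S55/PT/H837/CapDev.lean

-- ===== PACK-BEGIN S55/PT/T2aH299/Dev.lean
section


/-!
# S55 / layer D, leaf D-T2a: dévissage of the top pairing (abstract form)

For `φ : Q → N` equivariant, `charPre χ φ : charHom χ N → charHom χ Q`, `f ↦ f ∘ φ`, and
`topPair N (φ_* y) = (topPair Q y) ∘ charPre`.
* `topPair_surjective_of_surjective`: `φ` onto, `topPair Q` onto ⇒ `topPair N` onto.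
* `topPair_injective_of_ses`: four lemma for `0 → R → Q → N → 0`.
-/

set_option autoImplicit false

noncomputable section

namespace Fermat.Agent.S55.PT.H299

open Fermat.Agent.S55.PT groupCohomology

variable {k : Type} [Field k] {G : Type} [Group G]

section CharPre

variable (χ : G →* kˣ) {Q N : Rep.{0, 0, 0} k G} (φ : Q →ₗ[k] N) (hφ : IsEquivariant φ)

/-- precomposition with an equivariant map: `charHom χ N → charHom χ Q` -/
def charPre : ↥(charHom χ N) →ₗ[k] ↥(charHom χ Q) where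
  toFun f := ⟨(f : Module.Dual k N) ∘ₗ φ, fun g q => by
    have h1 : φ (Q.ρ g q) = N.ρ g (φ q) := hφ g q
    rw [LinearMap.comp_apply, h1, f.2 g (φ q)]
    rfl⟩
  map_add' _ _ := rfl
  map_smul' _ _ := rfl

@[simp] lemma coe_charPre (f : ↥(charHom χ N)) :
    ((charPre χ φ hφ f : ↥(charHom χ Q)) : Module.Dual k Q) = (f : Module.Dual k N) ∘ₗ φ := rfl

lemma charPre_injective (hsurj : Function.Surjective φ) :
    Function.Injective (charPre χ φ hφ) := by
  intro f f' h
  apply Subtype.ext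
  apply LinearMap.ext
  intro n
  obtain ⟨q, rfl⟩ := hsurj n
  have h2 := congrArg (fun F : ↥(charHom χ Q) => (F : Module.Dual k Q) q) h
  exact h2

variable (L : LevelSys G)

lemma pushChar_charPre (f : ↥(charHom χ N)) (y : L.H2 Q) :
    pushChar L χ Q (charPre χ φ hφ f) y = pushChar L χ N f (pushH2 φ hφ L y) := by
  obtain ⟨c, rfl⟩ := L.H2π_surjective Q y
  rfl

variable (inv : L.H2 (ofChar χ) →ₗ[k] k)

lemma topPair_push (y : L.H2 Q) (f : ↥(charHom χ N)) :
    topPair L χ inv N (pushH2 φ hφ L y) f = topPair L χ inv Q y (charPre χ φ hφ f) := by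
  rw [topPair_apply, topPair_apply, pushChar_charPre]

include hφ in
/-- surjectivity of the top pairing passes to quotients -/
theorem topPair_surjective_of_surjective (hsurj : Function.Surjective φ)
    (hQ : Function.Surjective (topPair L χ inv Q)) :
    Function.Surjective (topPair L χ inv N) := by
  intro ψ
  obtain ⟨r, hr⟩ := LinearMap.exists_leftInverse_of_injective (K := k)
    (V := ↥(charHom χ N)) (V' := ↥(charHom χ Q)) (charPre χ φ hφ)
    (LinearMap.ker_eq_bot.2 (charPre_injective χ φ hφ hsurj))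
  obtain ⟨y, hy⟩ := hQ (ψ ∘ₗ r)
  refine ⟨pushH2 φ hφ L y, ?_⟩
  apply LinearMap.ext
  intro f
  rw [topPair_push, hy, LinearMap.comp_apply]
  have h2 := LinearMap.congr_fun hr f
  rw [LinearMap.comp_apply] at h2
  rw [h2]
  rfl

end CharPre

section Four

variable (χ : G →* kˣ) {R Q N : Rep.{0, 0, 0} k G} (E : SES R Q N)

/-- left exactness of `charHom χ -` at the middle term -/
lemma charPre_exact (g : ↥(charHom χ Q)) (hg : charPre χ E.i E.hi g = 0) :
    ∃ f : ↥(charHom χ N), charPre χ E.π E.hπ f = g := by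
  have hgi : ∀ r : R, (g : Module.Dual k Q) (E.i r) = 0 := fun r => by
    have h2 := congrArg (fun F : ↥(charHom χ R) => (F : Module.Dual k R) r) hg
    exact h2
  have hker : ∀ q : Q, E.π q = 0 → (g : Module.Dual k Q) q = 0 := by
    intro q hq
    have hq' : q ∈ LinearMap.range E.i := by
      rw [E.exact]
      exact LinearMap.mem_ker.2 hq
    obtain ⟨r, rfl⟩ := hq'
    exact hgi r
  have hfac : ∀ q : Q, (g : Module.Dual k Q) (E.sec (E.π q)) = (g : Module.Dual k Q) q := by
    intro q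
    have h1 : E.π (E.sec (E.π q) - q) = 0 := by rw [map_sub, E.π_sec, sub_self]
    have h2 := hker _ h1
    rw [map_sub, sub_eq_zero] at h2
    exact h2
  refine ⟨⟨(g : Module.Dual k Q) ∘ₗ E.sec, fun γ n => ?_⟩, ?_⟩
  · obtain ⟨q, rfl⟩ := E.surj n
    have h1 : N.ρ γ (E.π q) = E.π (Q.ρ γ q) := (E.hπ γ q).symm
    rw [h1, LinearMap.comp_apply, LinearMap.comp_apply, hfac, hfac]
    exact g.2 γ q
  · apply Subtype.ext
    apply LinearMap.ext
    intro q
    exact hfac q

variable (L : LevelSys G) (inv : L.H2 (ofChar χ) →ₗ[k] k)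

lemma pushH2_π_i (z : L.H2 R) : pushH2 E.π E.hπ L (pushH2 E.i E.hi L z) = 0 := by
  have hcomp : E.π ∘ₗ E.i = 0 := by
    apply LinearMap.ext
    intro r
    have : E.i r ∈ LinearMap.ker E.π := by
      rw [← E.exact]
      exact LinearMap.mem_range_self _ r
    exact LinearMap.mem_ker.1 this
  rw [← pushH2_comp L E.hi E.hπ (isEquivariant_comp E.hi E.hπ) z]
  rw [pushH2_congr L (isEquivariant_comp E.hi E.hπ) isEquivariant_zero hcomp z]
  obtain ⟨c, rfl⟩ := L.H2π_surjective R z
  rw [pushH2_mk]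
  have : pushZ2 (0 : R →ₗ[k] N) isEquivariant_zero L c = 0 := by
    apply Subtype.ext
    funext x
    rfl
  rw [this, map_zero]

/-- four lemma: injectivity of the top pairing for the quotient of a short exact sequence -/
theorem topPair_injective_of_ses
    (hsurjπ : Function.Surjective (pushH2 E.π E.hπ L))
    (hR : Function.Surjective (topPair L χ inv R))
    (hQ : Function.Injective (topPair L χ inv Q)) :
    Function.Injective (topPair L χ inv N) := by
  rw [injective_iff_map_eq_zero]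
  intro x hx
  obtain ⟨y, rfl⟩ := hsurjπ x
  -- `Θ = topPair Q y` vanishes on `ker (charPre i)`
  have hΘ : topPair L χ inv Q y ∈
      (LinearMap.ker (charPre χ E.i E.hi)).dualAnnihilator := by
    rw [Submodule.mem_dualAnnihilator]
    intro g hg
    obtain ⟨f, rfl⟩ := charPre_exact χ E g (LinearMap.mem_ker.1 hg)
    rw [← topPair_push, hx]
    rfl
  have hrange := LinearMap.range_dualMap_eq_dualAnnihilator_ker (K := k)
    (V₁ := ↥(charHom χ Q)) (V₂ := ↥(charHom χ R)) (charPre χ E.i E.hi)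
  rw [← hrange] at hΘ
  obtain ⟨φ, hφ⟩ := hΘ
  obtain ⟨z, rfl⟩ := hR φ
  have h1 : topPair L χ inv Q (pushH2 E.i E.hi L z) = topPair L χ inv Q y := by
    rw [← hφ]
    apply LinearMap.ext
    intro g
    rw [topPair_push]
    rfl
  rw [← hQ h1, pushH2_π_i]

end Four

end Fermat.Agent.S55.PT.H299

end

end
-- ===== PACK-END S55/PT/T2aH299/Dev.lean

-- ===== PACK-BEGIN S55/T/NakH837/CohTriv.lean
section





/-!
# S55, layer T, leaf T6 (helper837): consequences of cohomological triviality at the level of `G`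

* `isZero_groupCohomology_of_isCohTriv` : `Hⁿ⁺¹(G, X) = 0`;
* `exists_norm_of_isCohTriv` : invariants of `X` are norms;
* `exists_normHom_of_nakayama` : (from `NakayamaSpec`) every morphism from a lattice to a
  cohomologically trivial module is the norm of a linear map.
-/

set_option autoImplicit false
set_option linter.unusedSectionVars false

open CategoryTheory groupCohomology

namespace Fermat.Agent.S55.T.H837

open Fermat.Agent.S55.H572

noncomputable section

variable {k G : Type} [CommRing k] [Group G] [Fintype G]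

/-- `Hⁿ⁺¹(G, X) = 0` for cohomologically trivial `X`. -/
theorem isZero_groupCohomology_of_isCohTriv {X : Rep.{0} k G} (hX : IsCohTriv X) (n : ℕ) :
    Limits.IsZero (groupCohomology X (n + 1)) := by
  classical
  have h1 := hX (⊤ : Subgroup G) ((n + 1 : ℕ) : ℤ)
  rw [Fermat.Agent.S55.H295.isZero_tate_iff_group] at h1
  exact Limits.IsZero.of_iso h1 (Fermat.Agent.S55.T.H53.topIso X (n + 1)).symm

/-- Invariants of a cohomologically trivial representation are norms. -/
theorem exists_norm_of_isCohTriv {X : Rep.{0} k G} (hX : IsCohTriv X) (x : X.V)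
    (hx : ∀ g : G, X.ρ g x = x) : ∃ y : X.V, ∑ g : G, X.ρ g y = x := by
  classical
  have h1 := hX (⊤ : Subgroup G) 0
  rw [isZero_tateCohomology_zero_iff] at h1
  obtain ⟨y, hy⟩ := h1 x (fun g => hx g.1)
  refine ⟨y, ?_⟩
  rw [← hy]
  change _ = (∑ g : (⊤ : Subgroup G), (resSub X ⊤).ρ g) y
  rw [LinearMap.sum_apply]
  exact (Fintype.sum_equiv (Subgroup.topEquiv (G := G)).toEquiv _ _ fun g => rfl).symm

/-- If `Hom(R, X)` is cohomologically trivial, every morphism `R ⟶ X` is the norm of a linear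
map. -/
theorem exists_normHom_of_isCohTriv_ihom {R X : Rep.{0} k G}
    (hY : IsCohTriv ((Rep.ihom R).obj X)) (f : R ⟶ X) :
    ∃ ψ : R.V →ₗ[k] X.V, f = normHom ψ := by
  have key : ∃ ψ : R.V →ₗ[k] X.V,
      ∑ g : G, (Representation.linHom R.ρ X.ρ g) ψ = f.hom.toLinearMap :=
    exists_norm_of_isCohTriv (X := Rep.of (Representation.linHom R.ρ X.ρ)) hY
      f.hom.toLinearMap (fun g => by
        change X.ρ g ∘ₗ f.hom.toLinearMap ∘ₗ R.ρ g⁻¹ = f.hom.toLinearMap
        apply LinearMap.ext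
        intro a
        change X.ρ g (f.hom (R.ρ g⁻¹ a)) = f.hom a
        rw [Rep.hom_comm_apply, ← Module.End.mul_apply, ← map_mul, mul_inv_cancel, map_one]
        rfl)
  obtain ⟨ψ, hψ⟩ := key
  refine ⟨ψ, ?_⟩
  apply Rep.hom_ext
  apply Representation.IntertwiningMap.ext
  apply LinearMap.ext
  intro a
  change f.hom.toLinearMap a = (normHom ψ).hom a
  rw [← hψ, normHom_hom_apply, LinearMap.sum_apply]
  rfl

end

end Fermat.Agent.S55.T.H837

end
-- ===== PACK-END S55/T/NakH837/CohTriv.lean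

-- ===== PACK-BEGIN S55/Inv/Top.lean
section


/-!
# S55 / `InvSpec` : the top reduction (complete)

`invSpec_of : Surj2LocSpec → LocalInvRecipSpec → LocDimSpec → GlobCokerSpec → PT.InvSpec`.
-/

set_option autoImplicit false
set_option linter.style.haveILetI false

noncomputable section

namespace Fermat.Agent.S55.Inv

open Fermat.Agent.S55.PT groupCohomology ExtCitation

/-! ### Generalities -/

/-- A functional whose kernel is contained in the kernel of a non-zero functional `T`, has the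
same kernel as `T`. -/
lemma ker_eq_of_ker_le {k V : Type*} [Field k] [AddCommGroup V] [Module k V]
    (f T : V →ₗ[k] k) (hT : T ≠ 0) (h : LinearMap.ker f ≤ LinearMap.ker T) :
    LinearMap.ker T ≤ LinearMap.ker f := by
  -- `f ≠ 0`
  have hf : f ≠ 0 := by
    rintro rfl
    apply hT
    ext x
    have : x ∈ LinearMap.ker (0 : V →ₗ[k] k) := by simp
    simpa using h this
  obtain ⟨e, he⟩ : ∃ e, f e ≠ 0 := by
    by_contra hcon
    apply hf
    ext x
    by_contra hx
    exact hcon ⟨x, hx⟩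
  -- `T = c • f`
  have key : ∀ z, T z = (T e / f e) * f z := by
    intro z
    have hz : z - (f z / f e) • e ∈ LinearMap.ker f := by
      rw [LinearMap.mem_ker, map_sub, map_smul, smul_eq_mul, div_mul_cancel₀ _ he, sub_self]
    have := h hz
    rw [LinearMap.mem_ker, map_sub, map_smul, smul_eq_mul, sub_eq_zero] at this
    rw [this]
    field_simp
  have hTe : T e ≠ 0 := by
    intro h0
    apply hT
    ext z
    rw [key z, h0]
    simp
  intro x hx
  rw [LinearMap.mem_ker] at hx ⊢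
  have := key x
  rw [hx] at this
  have h2 : T e / f e ≠ 0 := div_ne_zero hTe he
  rcases mul_eq_zero.1 this.symm with h3 | h3
  · exact absurd h3 h2
  · exact h3

/-- A non-zero functional to the ground field is surjective. -/
lemma surjective_of_ne_zero {k V : Type*} [Field k] [AddCommGroup V] [Module k V]
    (f : V →ₗ[k] k) (hf : f ≠ 0) : Function.Surjective f := by
  obtain ⟨e, he⟩ : ∃ e, f e ≠ 0 := by
    by_contra hcon
    apply hf
    ext x
    by_contra hx
    exact hcon ⟨x, hx⟩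
  intro c
  refine ⟨(c / f e) • e, ?_⟩
  rw [map_smul, smul_eq_mul, div_mul_cancel₀ _ he]

/-! ### Finiteness of the induced modules -/

lemma finite_quotient_of_finiteDimensional (F : IntermediateField ℚ (AlgebraicClosure ℚ))
    [FiniteDimensional ℚ F] : Finite (GQ ⧸ F.fixingSubgroup) := by
  haveI : Algebra.IsAlgebraic ℚ (AlgebraicClosure ℚ) := AlgebraicClosure.isAlgebraic ℚ
  haveI : IsAlgClosure ℚ (AlgebraicClosure ℚ) := ⟨inferInstance, inferInstance⟩
  haveI : Normal ℚ (AlgebraicClosure ℚ) := IsAlgClosure.normal ℚ (AlgebraicClosure ℚ)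
  haveI : IsGalois ℚ (AlgebraicClosure ℚ) := isGalois_iff.mpr ⟨inferInstance, inferInstance⟩
  have h := IntermediateField.finrank_eq_fixingSubgroup_index (F := ℚ)
    (E' := AlgebraicClosure ℚ) F
  have hpos : 0 < Module.finrank ℚ F := Module.finrank_pos
  have hidx : F.fixingSubgroup.index ≠ 0 := by rw [← h]; exact hpos.ne'
  haveI : F.fixingSubgroup.FiniteIndex := ⟨hidx⟩
  exact Subgroup.finite_quotient_of_finiteIndex

lemma finite_quotient_global (S : Finset Nat.Primes) {U : Subgroup GQ}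
    (hU : U ∈ (globalLevels S).levels) : Finite (GQ ⧸ U) := by
  obtain ⟨F, hF, rfl⟩ := hU
  haveI := hF.1
  exact finite_quotient_of_finiteDimensional F

lemma finite_quotient_local (q : Nat.Primes) {W : Subgroup (Gl q)}
    (hW : W ∈ (localLevels q).levels) : Finite (Gl q ⧸ W) := by
  obtain ⟨F, hF, rfl⟩ := hW
  have := hF
  have hfin := finite_quotient_of_finiteDimensional F
  have h1 : (F.fixingSubgroup).FiniteIndex := Subgroup.finiteIndex_of_finite_quotient
  have h2 : (F.fixingSubgroup.comap (rl q)).index ≠ 0 := by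
    rw [Subgroup.index_comap]
    intro h0
    exact h1.index_ne_zero (Subgroup.index_eq_zero_of_relIndex_eq_zero h0)
  haveI : (F.fixingSubgroup.comap (rl q)).FiniteIndex := ⟨h2⟩
  exact Subgroup.finite_quotient_of_finiteIndex

/-! ### Smoothness of the induced modules -/

section Smooth

variable {k : Type} [Field k] {G : Type} [Group G]

/-- A normal subgroup `U` acting trivially on `M` acts trivially on `Ind_U M`. -/
lemma indRep_ρ_eq_one_of_mem (U : Subgroup G) [U.Normal] (M : Rep.{0, 0, 0} k G)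
    (hM : ∀ s ∈ U, M.ρ s = 1) (s : G) (hs : s ∈ U) : (indRep U M).ρ s = 1 := by
  have : indAct U M s = LinearMap.id := by
    apply Finsupp.lhom_ext
    intro x m
    rw [indAct_single, hM s hs]
    have hx : s • x = x := by
      induction x using QuotientGroup.induction_on with
      | H g =>
        show ((s * g : G) : G ⧸ U) = (g : G ⧸ U)
        rw [QuotientGroup.eq]
        have h1 : (s * g)⁻¹ * g = g⁻¹ * s⁻¹ * g⁻¹⁻¹ := by group
        rw [h1]
        exact Subgroup.Normal.conj_mem inferInstance _ (U.inv_mem hs) _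
    rw [hx]
    rfl
  exact this

end Smooth

/-! ### The reduction -/

section Main

variable (p : ℕ) [Fact p.Prime] (S : Finset Nat.Primes)

instance finiteDimensional_mu : FiniteDimensional (ZMod p) (mu p) :=
  inferInstanceAs (FiniteDimensional (ZMod p) (ZMod p))

instance finiteDimensional_muLoc (q : Nat.Primes) : FiniteDimensional (ZMod p) (muLoc p q) :=
  inferInstanceAs (FiniteDimensional (ZMod p) (ZMod p))

lemma finiteDimensional_ind {G : Type} [Group G] (U : Subgroup G) [Finite (G ⧸ U)]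
    (M : Rep.{0, 0, 0} (ZMod p) G) [FiniteDimensional (ZMod p) M] :
    FiniteDimensional (ZMod p) (indRep U M) :=
  inferInstanceAs (FiniteDimensional (ZMod p) ((G ⧸ U) →₀ M))

/-- local surjectivity of `inv_v ∘ aug_*` on `H²(G_v, Ind_W μ)` -/
lemma surjective_inv_aug_loc (h4 : Surj2LocSpec p S) (inv : InvFamily p S)
    (hne : ∀ v : ↥S, inv v ≠ 0) (v : ↥S) (W : Subgroup (Gl v.1))
    (hW : W ∈ (localLevels v.1).levels) (hWn : W.Normal)
    (hWμ : ∀ s ∈ W, (muLoc p v.1).ρ s = 1) :
    Function.Surjective ((inv v) ∘ₗ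
      pushH2 (A := indRep W (muLoc p v.1)) (B := muLoc p v.1) (indAug W (muLoc p v.1))
        (indAug_equivariant W (muLoc p v.1)) (localLevels v.1)) := by
  haveI := finite_quotient_local v.1 hW
  haveI := hWn
  have hfd : FiniteDimensional (ZMod p) (indRep W (muLoc p v.1)) :=
    finiteDimensional_ind p W (muLoc p v.1)
  have hsm1 : (localLevels v.1).IsUSmooth (indRep W (muLoc p v.1)) :=
    ⟨W, hW, fun s hs a => by
      rw [indRep_ρ_eq_one_of_mem W (muLoc p v.1) hWμ s hs]; rfl⟩
  have hsm2 : (localLevels v.1).IsUSmooth (muLoc p v.1) :=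
    ⟨W, hW, fun s hs a => by rw [hWμ s hs]; rfl⟩
  have hs := h4 v.1 v.2 (indRep W (muLoc p v.1)) (muLoc p v.1) (indAug W (muLoc p v.1))
    (indAug_equivariant W (muLoc p v.1)) hfd hsm1 hsm2 (indAug_surjective W (muLoc p v.1))
  rw [LinearMap.coe_comp]
  exact (surjective_of_ne_zero (inv v) (hne v)).comp hs

/-- **Top reduction of `InvSpec`.** -/
theorem invSpec_of (h4 : Surj2LocSpec p S) (h1 : LocalInvRecipSpec p S)
    (h2 : LocDimSpec p S) (h3 : GlobCokerSpec p S) : InvSpec p S := by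
  obtain ⟨inv, hne, hrec⟩ := h1
  refine ⟨inv, hrec, ?_, ?_⟩
  · -- A6
    intro v W hW hWn hWμ
    have hsurj := surjective_inv_aug_loc p S h4 inv hne v W hW hWn hWμ
    refine ⟨?_, hsurj⟩
    rw [← LinearMap.ker_eq_bot, LinearMap.ker_eq_bot']
    intro x hx
    obtain ⟨y, hy⟩ := hsurj 1
    obtain ⟨a, b, hab, h⟩ := h2 v W hW hWn hWμ x y
    have h' := congrArg ((inv v) ∘ₗ
      pushH2 (A := indRep W (muLoc p v.1)) (B := muLoc p v.1) (indAug W (muLoc p v.1))
        (indAug_equivariant W (muLoc p v.1)) (localLevels v.1)) h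
    rw [map_add, map_smul, map_smul, hx, hy, map_zero, smul_zero, zero_add, smul_eq_mul,
      mul_one] at h'
    subst h'
    rw [zero_smul, add_zero] at h
    have ha : a ≠ 0 := by
      rcases hab with ha | hb
      · exact ha
      · exact absurd rfl hb
    exact (smul_eq_zero.1 h).resolve_left ha
  · -- A7
    intro U hU hUn hUμ x hx
    obtain ⟨f, hf⟩ := h3 U hU hUn hUμ
    -- range ≤ ker topIndFun
    have hrange : LinearMap.range (loc2 (hrl S) (indRep U (mu p))) ≤
        LinearMap.ker (topIndFun inv U) := by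
      rintro _ ⟨y, rfl⟩
      rw [LinearMap.mem_ker]
      have := hrec (pushH2 (A := indRep U (mu p)) (B := mu p) (indAug U (mu p))
        (indAug_equivariant U (mu p)) (globalLevels S) y)
      rw [← this]
      simp only [topIndFun, LinearMap.coe_sum, Finset.sum_apply, LinearMap.coe_comp,
        Function.comp_apply, LinearMap.proj_apply, loc2_apply]
      refine Finset.sum_congr rfl fun v _ => ?_
      rw [resH2_pushH2]
    by_cases hT : topIndFun inv U = 0
    · -- then `S` is empty or ... : show `ker f = ⊤`-type contradiction is impossible; use surjectivity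
      by_cases hS : Nonempty ↥S
      · exfalso
        obtain ⟨v⟩ := hS
        -- a class at `v` with non-zero invariant
        haveI := finite_quotient_global S hU
        haveI := hUn
        have hfd : FiniteDimensional (ZMod p) (Rep.res (rl v.1) (indRep U (mu p))) :=
          finiteDimensional_ind p U (mu p)
        obtain ⟨F, hF, rfl⟩ := hU
        have hlev : (F.fixingSubgroup.comap (rl v.1)) ∈ (localLevels v.1).levels :=
          ⟨F, hF.1, rfl⟩
        have hsm1 : (localLevels v.1).IsUSmooth (Rep.res (rl v.1) (indRep F.fixingSubgroup (mu p))) :=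
          ⟨_, hlev, fun s hs a => by
            show (indRep F.fixingSubgroup (mu p)).ρ (rl v.1 s) a = a
            rw [indRep_ρ_eq_one_of_mem F.fixingSubgroup (mu p) hUμ (rl v.1 s) hs]; rfl⟩
        have hsm2 : (localLevels v.1).IsUSmooth (muLoc p v.1) :=
          ⟨_, hlev, fun s hs a => by
            show (mu p).ρ (rl v.1 s) a = a
            rw [hUμ (rl v.1 s) hs]; rfl⟩
        have hs := h4 v.1 v.2 (Rep.res (rl v.1) (indRep F.fixingSubgroup (mu p))) (muLoc p v.1)
          (indAug F.fixingSubgroup (mu p))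
          ((indAug_equivariant F.fixingSubgroup (mu p)).res (rl v.1)) hfd hsm1 hsm2
          (indAug_surjective F.fixingSubgroup (mu p))
        obtain ⟨z, hz⟩ := surjective_of_ne_zero (inv v) (hne v) 1
        obtain ⟨w, hw⟩ := hs z
        have := LinearMap.congr_fun hT (Pi.single v w)
        simp only [topIndFun, LinearMap.coe_sum, Finset.sum_apply, LinearMap.coe_comp,
          Function.comp_apply, LinearMap.proj_apply, LinearMap.zero_apply] at this
        rw [Finset.sum_eq_single v] at this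
        · rw [Pi.single_eq_same, hw, hz] at this
          exact one_ne_zero this
        · intro v' _ hv'
          rw [Pi.single_eq_of_ne hv', map_zero, map_zero]
        · intro hv
          exact absurd (Finset.mem_univ v) hv
      · -- `S` empty: `x = 0`
        have hx0 : x = 0 := by
          funext v
          exact absurd ⟨v⟩ hS
        rw [hx0]
        exact Submodule.zero_mem _
    · have hle : LinearMap.ker f ≤ LinearMap.ker (topIndFun inv U) := hf.trans hrange
      exact hf (ker_eq_of_ker_le f (topIndFun inv U) hT hle (LinearMap.mem_ker.2 hx))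

end Main

end Fermat.Agent.S55.Inv

end

end
-- ===== PACK-END S55/Inv/Top.lean

-- ===== PACK-BEGIN S55/K/T2H696.lean
section






/-!
# S55 / layer K, leaf K-T2 (dévissage): `h3Fin_of : H3IndMuSpec p S → H3FinSpec p S`   (helper696)

Exact Spec types of `K/Spec.lean` (helper4).  The abstract theorem is
`Fermat.Agent.S55.H696.devissage` (on main); here only the dictionary:

* `h3Vanish_iff`         : `K.H3Vanish L A ↔ H696.H3Van L A`;
* `mem_levels_of_le`     : a subgroup of `G_ℚ` containing a level of `globalLevels S` is a level;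
* `isUSmooth_muP`        : `G_{ℚ(ζ_p)}` is a level (`p ∈ S`) acting trivially on `μ_p`.

No twist step is needed: the Sylow preimage `H` used by `devissage` acts trivially on `μ_p`
automatically (a `p`-group acts trivially on a line over `𝔽_p`).
-/

set_option autoImplicit false
set_option linter.style.haveILetI false

noncomputable section

namespace Fermat.Agent.S55.K.H696

open groupCohomology Fermat.Agent.S55.PT Fermat.Agent.S55.Bridge Fermat.Agent.S55.K
open ExtCitation

attribute [local instance] isAlgebraic_Qbar isGalois_Qbar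

/-- Dictionary between the two cochain-level formulations of `H³ = 0`. -/
theorem h3Vanish_iff {G : Type} [Group G] {k : Type} [CommRing k] (L : LevelSys G)
    (A : Rep.{0, 0, 0} k G) : K.H3Vanish L A ↔ Fermat.Agent.S55.H696.H3Van L A := by
  have hcoc : ∀ f : G × G × G → A, d34 A f = 0 ↔ Fermat.Agent.S55.H696.IsCoc3 A f := by
    intro f
    constructor
    · intro h g₁ g₂ g₃ g₄
      exact congrFun h (g₁, g₂, g₃, g₄)
    · intro h
      funext ⟨g₁, g₂, g₃, g₄⟩
      exact h g₁ g₂ g₃ g₄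
  constructor
  · intro h z hz hzc
    obtain ⟨b, hb, hdb⟩ := h z hz ((hcoc z).2 hzc)
    exact ⟨b, hb, hdb⟩
  · intro h z hz hzc
    obtain ⟨b, hb, hdb⟩ := h z hz ((hcoc z).1 hzc)
    exact ⟨b, hb, hdb⟩

/-- A subgroup of `G_ℚ` containing a level is a level. -/
theorem mem_levels_of_le (S : Finset Nat.Primes) {U H : Subgroup _root_.Fermat.Agent.S55.PT.GQ}
    (hU : U ∈ (globalLevels S).levels) (hUH : U ≤ H) : H ∈ (globalLevels S).levels := by
  obtain ⟨F, hF, rfl⟩ := hU
  haveI : FiniteDimensional ℚ F := hF.1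
  have hopen : IsOpen (H : Set _root_.Fermat.Agent.S55.PT.GQ) :=
    Subgroup.isOpen_mono hUH (IntermediateField.fixingSubgroup_isOpen F)
  have hclosed : IsClosed (H : Set _root_.Fermat.Agent.S55.PT.GQ) := Subgroup.isClosed_of_isOpen H hopen
  have hfix : (IntermediateField.fixedField H).fixingSubgroup = H :=
    InfiniteGalois.fixingSubgroup_fixedField ⟨H, hclosed⟩
  refine ⟨IntermediateField.fixedField H, ⟨?_, ?_⟩, hfix.symm⟩
  · rw [← InfiniteGalois.isOpen_iff_finite, hfix]
    exact hopen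
  · intro q hq A hA
    rw [hfix]
    exact (hF.2 q hq A hA).trans hUH

/-- `μ_p` is uniformly smooth for `globalLevels S` if `p ∈ S`. -/
theorem isUSmooth_muP (p : ℕ) [Fact p.Prime] (S : Finset Nat.Primes)
    (hpS : ExtCitation.pPrime p ∈ S) : (globalLevels S).IsUSmooth (muP p) := by
  haveI : NeZero (p ^ 1) := ⟨pow_ne_zero 1 (Fact.out : p.Prime).ne_zero⟩
  refine ⟨(Fermat.Agent.S55.H414.cycloLevel (p ^ 1)).fixingSubgroup,
    ⟨_, Fermat.Agent.S55.H414.isUnramifiedOutside_cycloLevel p 1 S hpS, rfl⟩, ?_⟩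
  intro s hs x
  have hζ : s (Fermat.Agent.S55.H414.zetaBar (p ^ 1)) = Fermat.Agent.S55.H414.zetaBar (p ^ 1) :=
    (Fermat.Agent.S55.H414.mem_fixingSubgroup_cycloLevel_iff (p ^ 1) s).1 hs
  have hprim := Fermat.Agent.S55.H414.zetaBar_spec (p ^ 1)
  have h1 : cycloChar p s = 1 := by
    apply cycloChar_eq_one_of_fixes
    intro t ht
    have ht' : (t : AlgebraicClosure ℚ) ^ (p ^ 1) = 1 := by
      have := (mem_rootsOfUnity p t).1 ht
      rw [pow_one, ← Units.val_pow_eq_pow_val, this, Units.val_one]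
    obtain ⟨i, -, hi⟩ := hprim.eq_pow_of_pow_eq_one ht'
    rw [← hi, map_pow, hζ]
  have h2 : ∀ y : MuP p, muPRep p s y = y := by
    intro y
    rw [muPRep_apply_smul, h1, Units.val_one, one_smul]
  exact h2 x

/-- **K-T2** (dévissage), exact Spec types. -/
theorem h3Fin_of (p : ℕ) [Fact p.Prime] (S : Finset Nat.Primes) (h : H3IndMuSpec p S) :
    H3FinSpec p S := by
  intro hp2 hpS R hfd hRs
  rw [h3Vanish_iff]
  refine Fermat.Agent.S55.H696.devissage _root_.Fermat.Agent.S55.PT.GQ (globalLevels S) p (muP p)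
    (fun U hU => globalLevels_normal_cofinal724 S U hU)
    (Fermat.Agent.S55.PT.H424.globalFiniteIndex S) (MuP.finrank_eq_one p)
    (isUSmooth_muP p S hpS) ?_ R hfd hRs
  intro H hH _
  obtain ⟨U, hU, hUH⟩ := hH
  exact (h3Vanish_iff (globalLevels S) (indG H (muP p))).1
    (h hp2 hpS H (mem_levels_of_le S hU hUH))

end Fermat.Agent.S55.K.H696

end

end
-- ===== PACK-END S55/K/T2H696.lean

-- ===== PACK-BEGIN S55/LocalSpec/H964/Clause12.lean
section







/-!
# S55, `Tow.LocalSpec` (helper964): clauses 1 (GD2) and 2 (LH90)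

For a level `F` (finite Galois over `ℚ`) and a prime `q`, the module `F_qˣ = L.locUnits q` of the
decomposition group `L.Dec q = Gal(F_q/ℚ_q)` of the tower:

* `locUnits_classData` : for every subgroup `H`, `H¹(H, F_qˣ) = 0` and `H²(H, F_qˣ) ≃+ ZMod |H|`
  (from `L.ClassModuleSpec` for `ℚ_q`, by helper175's dictionary `decEquiv`, `locUnitsEquiv`);
* `exists_isClassModuleAt` : clause 1 of `Tow.LocalSpec`;
* `isZero_H1_ker_projDec` : clause 2 of `Tow.LocalSpec`.
-/

set_option autoImplicit false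
set_option linter.style.haveILetI false

open CategoryTheory groupCohomology

namespace Fermat.Agent.S55.LocalSpec.H964

open Fermat.Agent.S55 Fermat.Agent.S55.Bridge.H175

variable {S : Finset Nat.Primes}

/-- The numerical class-module data for `F_qˣ` over the decomposition group of the tower. -/
theorem locUnits_classData (hCM : L.ClassModuleSpec) (hInst : L.PadicInstSpec)
    (Lv : Tow.Level S) (q : Nat.Primes) (H : Subgroup (Lv.Dec q)) :
    Limits.IsZero (groupCohomology (T.resSub (Lv.locUnits q) H) 1) ∧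
      Nonempty (groupCohomology (T.resSub (Lv.locUnits q) H) 2 ≃+ ZMod (Nat.card H)) := by
  letI : Fact (q : ℕ).Prime := ⟨q.2⟩
  haveI : Fermat.Agent.S55.L.IsLocalFld ℚ_[(q : ℕ)] := hInst (q : ℕ)
  haveI := level_finiteDimensional Lv
  haveI := level_normal Lv
  haveI : FiniteDimensional ℚ_[(q : ℕ)] (primeLocalLevel q Lv.F) :=
    finiteDimensional_primeLocalLevel q Lv.F
  haveI : IsGalois ℚ_[(q : ℕ)] (primeLocalLevel q Lv.F) := isGalois_primeLocalLevel q Lv.F
  exact classData_transport (decEquiv Lv q) (Lv.locUnits q)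
    (Rep.ofAlgebraAutOnUnits ℚ_[(q : ℕ)] (primeLocalLevel q Lv.F)) (locUnitsEquiv Lv q)
    (locUnitsEquiv_ρ Lv q) (fun H' => hCM ℚ_[(q : ℕ)] (primeLocalLevel q Lv.F) H') H

/-- Clause 1 of `Tow.LocalSpec` (GD2): `F_qˣ` is a class module at `p` (for every `p`). -/
theorem exists_isClassModuleAt (hCM : L.ClassModuleSpec) (hInst : L.PadicInstSpec)
    (hT : T.ClassModuleOfCyclicSpec) (p : ℕ) (Lv : Tow.Level S) (q : Nat.Primes) :
    ∃ γ : groupCohomology (Lv.locUnits q) 2, E1.IsClassModuleAt p (Lv.locUnits q) γ := by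
  obtain ⟨⟨γ, hγ⟩, -⟩ := hT (Lv.Dec q) (Lv.locUnits q)
    (fun H => (locUnits_classData hCM hInst Lv q H).1)
    (fun H => (locUnits_classData hCM hInst Lv q H).2)
  exact ⟨γ, isClassModuleAt_of_isClassModule p _ γ hγ⟩

/-- Clause 2 of `Tow.LocalSpec` (LH90): Hilbert 90 for `F'_q / F_q`. -/
theorem isZero_H1_ker_projDec (hCM : L.ClassModuleSpec) (hInst : L.PadicInstSpec)
    {Lv Lv' : Tow.Level S} (h : Lv ≤ Lv') (q : Nat.Primes) :
    Limits.IsZero
      (groupCohomology (T.resSub (Lv'.locUnits q) (Tow.Level.projDec h q).ker) 1) :=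
  (locUnits_classData hCM hInst Lv' q _).1

end Fermat.Agent.S55.LocalSpec.H964

end
-- ===== PACK-END S55/LocalSpec/H964/Clause12.lean

-- ===== PACK-BEGIN S55/KG/Spec.lean
section



/-!
# S55, layer KG (global Kummer hypotheses): frozen interface, concrete part
                                                                      (architect: helper183)

GOAL of the layer (file `KG/Closed.lean`): input A3 of the duality engine,
`PT.Surj2GlobSpec p S` (`cd_p(G_S) ≤ 2`), via the closed abstract machine of layer KL: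

    KL.KummerHyp (globNLevels S) (sUnitsSm S) p   ⇒   KL.CdLeTwo …   ⇒   PT.Surj2GlobSpec p S.

`KummerHyp` for the smooth `S`-units is obtained from the tower:
* dictionary (`DictEffSpec`, `DictDivSpec`, `DictMuSpec`): finite-level cohomology of
  `(U, sUnitsSm S)` = cohomology of `HU U L = Gal(F/K)` with values in `E(F)`;
* abstract chase (`KG/Abs.lean`, `AbsKummerSpec`) applied to `E → J → C' ⊂ C` over `towerU U S`;
* semi-local leaves `JH3Spec`, `JDivSpec`;
* class-formation leaves `CH1Spec`, `CCycSpec` (from GD1), `SesSpec` (from GD4),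
  capitulation (GD5, GD5b: proved in `KG/Closed.lean`);
* ONE new arithmetic input on the tower datum: `TowerDatum.HasLocalClasses`
  (local classes of order `p` survive in `H²(Gal(F/K), C(F))`), packaged in `GlobalInputSpec`.

Spec pattern: statements only, no `sorry`.  Producers: file `KG/<Leaf>H<seat>.lean`, namespace
`Fermat.Agent.S55.KG.H<seat>`.  Blueprint: `coord/S55-KG.md` on `origin/helper183`.
-/

set_option autoImplicit false

open CategoryTheory groupCohomology

namespace Fermat.Agent.S55.KG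

open Fermat.Agent.S55.Tow Fermat.Agent.S55.E1.Lim Fermat.Agent.S55.KL

noncomputable section

variable {S : Finset Nat.Primes}

/-! ## The global level system and the smooth `S`-units -/

/-- The normal `S`-levels of `G_ℚ`: the subgroups `Gal(ℚ̄/F)`, `F` a level of the tower. -/
def globNLevels (S : Finset Nat.Primes) : NLevels GQ where
  carrier := {W | ∃ L : Level S, W = L.U}
  normal := by
    rintro W ⟨L, rfl⟩
    exact L.normalU
  finiteIndex := by
    rintro W ⟨L, rfl⟩
    have : Finite (GQ ⧸ L.U) := Level.finiteGal L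
    exact Subgroup.finiteIndex_of_finite_quotient
  nonempty := ⟨_, Fermat.Agent.S55.E1.H603.levelBot, rfl⟩
  directed := by
    rintro W ⟨L, rfl⟩ W' ⟨L', rfl⟩
    refine ⟨_, ⟨Fermat.Agent.S55.E1.H603.levelSup L L', rfl⟩, le_inf ?_ ?_⟩
    · exact Level.U_anti (Fermat.Agent.S55.E1.H603.le_levelSup_left L L')
    · exact Level.U_anti (Fermat.Agent.S55.E1.H603.le_levelSup_right L L')

/-- The level of `globNLevels S` attached to a level of the tower. -/
def globLvl (L : Level S) : (globNLevels S).Lvl := ⟨L.U, L, rfl⟩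

/-- `x ∈ ℚ̄ˣ` is an `S`-unit (the condition of `Tow.Level.IsSUnit`). -/
def IsSU (S : Finset Nat.Primes) (x : unitsQbar.V) : Prop :=
  ∀ ℓ : Nat.Primes, ℓ ∉ S → ∀ A : ValuationSubring Qbar, A.LiesOverPrime (ℓ : ℕ) →
    ((Additive.toMul x : Qbarˣ) : Qbar) ∈ A ∧ (((Additive.toMul x)⁻¹ : Qbarˣ) : Qbar) ∈ A

/-- The smooth `S`-units: the elements of `ℚ̄ˣ` fixed by some level, all of whose conjugates are
`S`-units (`= 𝒪_S(ℚ_S)ˣ`, `ℚ_S` the maximal extension unramified outside `S`). -/
def sUnitsSmAdd (S : Finset Nat.Primes) : AddSubgroup unitsQbar.V where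
  carrier := {x | (∃ L : Level S, ∀ g ∈ L.U, unitsQbar.ρ g x = x) ∧
    ∀ g : GQ, IsSU S (unitsQbar.ρ g x)}
  zero_mem' := by
    refine ⟨⟨Fermat.Agent.S55.E1.H603.levelBot, fun g _ => map_zero _⟩, fun g ℓ _ A _ => ?_⟩
    rw [map_zero]
    have h1 : ((Additive.toMul (0 : unitsQbar.V) : Qbarˣ) : Qbar) = 1 := rfl
    have h2 : (((Additive.toMul (0 : unitsQbar.V))⁻¹ : Qbarˣ) : Qbar) = 1 := by
      have : (Additive.toMul (0 : unitsQbar.V) : Qbarˣ) = 1 := rfl
      rw [this, inv_one]
      rfl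
    rw [h1, h2]
    exact ⟨A.one_mem, A.one_mem⟩
  add_mem' := by
    rintro a b ⟨⟨L, hL⟩, ha⟩ ⟨⟨L', hL'⟩, hb⟩
    refine ⟨⟨Fermat.Agent.S55.E1.H603.levelSup L L', fun g hg => ?_⟩, fun g ℓ hℓ A hA => ?_⟩
    · rw [map_add,
        hL g (Level.U_anti (Fermat.Agent.S55.E1.H603.le_levelSup_left L L') hg),
        hL' g (Level.U_anti (Fermat.Agent.S55.E1.H603.le_levelSup_right L L') hg)]
    · rw [map_add]
      obtain ⟨h1, h2⟩ := ha g ℓ hℓ A hA
      obtain ⟨h3, h4⟩ := hb g ℓ hℓ A hA
      have e1 : (Additive.toMul (unitsQbar.ρ g a + unitsQbar.ρ g b) : Qbarˣ) =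
          (Additive.toMul (unitsQbar.ρ g a) : Qbarˣ) *
            (Additive.toMul (unitsQbar.ρ g b) : Qbarˣ) := rfl
      rw [e1, mul_inv, Units.val_mul, Units.val_mul]
      exact ⟨A.mul_mem _ _ h1 h3, A.mul_mem _ _ h2 h4⟩
  neg_mem' := by
    rintro a ⟨⟨L, hL⟩, ha⟩
    refine ⟨⟨L, fun g hg => ?_⟩, fun g ℓ hℓ A hA => ?_⟩
    · rw [map_neg, hL g hg]
    · rw [map_neg]
      obtain ⟨h1, h2⟩ := ha g ℓ hℓ A hA
      have e1 : (Additive.toMul (-(unitsQbar.ρ g a)) : Qbarˣ) =
          (Additive.toMul (unitsQbar.ρ g a) : Qbarˣ)⁻¹ := rfl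
      rw [e1, inv_inv]
      exact ⟨h2, h1⟩

lemma sUnitsSmAdd_stable (S : Finset Nat.Primes) (g : GQ) (x : unitsQbar.V)
    (hx : x ∈ sUnitsSmAdd S) : unitsQbar.ρ g x ∈ sUnitsSmAdd S := by
  obtain ⟨⟨L, hL⟩, hx2⟩ := hx
  refine ⟨⟨L, fun s hs => ?_⟩, fun g' => ?_⟩
  · have h1 : g⁻¹ * s * g ∈ L.U := by
      have := L.normalU.conj_mem s hs g⁻¹
      rwa [inv_inv] at this
    have h2 := hL _ h1
    have h3 : unitsQbar.ρ s (unitsQbar.ρ g x) = unitsQbar.ρ g (unitsQbar.ρ (g⁻¹ * s * g) x) := by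
      rw [← Module.End.mul_apply, ← Module.End.mul_apply, ← map_mul, ← map_mul]
      congr 2
      group
    rw [h3, h2]
  · have := hx2 (g' * g)
    rwa [map_mul] at this

/-- The smooth `S`-units as a `G_ℚ`-module. -/
def sUnitsSm (S : Finset Nat.Primes) : Rep.{0} ℤ GQ :=
  subRep unitsQbar (sUnitsSmAdd S) (sUnitsSmAdd_stable S)

/-! ## Semi-local leaves -/

/-- **KG-J3** (semi-local Tate).  `H³(H, J(F)) = 0` for every subgroup `H ≤ Gal(F/ℚ)`.
(Mackey/Shapiro: `H³(H, J_q(F)) = ∏_{w} H³(H_w, F_wˣ)`, and `H³` of a finite Galois extension of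
local fields vanishes: layer L, `L.Closed.h3`.) -/
def JH3Spec : Prop :=
  ∀ (S : Finset Nat.Primes) (L : Level S) (H : Subgroup L.Gal),
    Subsingleton (groupCohomology (Rep.res H.subtype (Jtot L)) 3)

/-- **KG-J2** (semi-local divisibility).  For `p ∈ S` and `U` open, every class of
`H²(HU U L, J(F))` becomes divisible by `p` at a higher level.
(`H²(H, J(F)) = ∏_w H²(H_w, F_wˣ)`, each factor cyclic of order the local degree; the local
degrees at all places above `S` are `p`-unbounded in the tower: cyclotomic `ℤ_p`-extension,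
`p ∈ S`; inflation multiplies invariants by the relative local degree.) -/
def JDivSpec : Prop :=
  ∀ (S : Finset Nat.Primes) (p : ℕ) (hp : p.Prime), (⟨p, hp⟩ : Nat.Primes) ∈ S →
    ∀ U : Subgroup GQ, IsOpenS S U → (resU U (sysJ S)).EvDiv p 2

/-! ## Class-formation leaves -/

/-- **KG-C1.**  For a tower datum good above `μ_p`: the `p`-primary part of `H¹(H, C(F))` vanishes
for every subgroup `H ≤ Gal(F/ℚ)`, `F ⊇ μ_p`.
(GD1 for a Sylow `p`-subgroup `P` of `H`; restriction to `P` is injective on `p`-primary classes: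
layer T `ResIndexSpec` / `CoresSpec`.) -/
def CH1Spec : Prop :=
  ∀ (S : Finset Nat.Primes) (p : ℕ) (D : TowerDatum S), p.Prime → D.IsGoodMu p →
    ∀ (L : Level S), L.HasMu p → ∀ (H : Subgroup L.Gal)
      (c : groupCohomology (Rep.res H.subtype (D.C L)) 1) (a : ℕ), p ^ a • c = 0 → c = 0

/-- **KG-C2.**  For a tower datum good above `μ_p`: the `p`-torsion of `H²(H, C(F))` is cyclic,
for every subgroup `H ≤ Gal(F/ℚ)`, `F ⊇ μ_p`.
(GD1 for a Sylow `p`-subgroup `P` of `H`: `H²(P, C)` is cyclic; restriction is injective on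
`p`-primary classes.) -/
def CCycSpec : Prop :=
  ∀ (S : Finset Nat.Primes) (p : ℕ) (D : TowerDatum S), p.Prime → D.IsGoodMu p →
    ∀ (L : Level S), L.HasMu p → ∀ (H : Subgroup L.Gal),
      PTorsCyclic (groupCohomology (Rep.res H.subtype (D.C L)) 2) p

/-- **KG-SES.**  `0 → E(F) → J(F) → C'(F) → 0` is exact (`S ≠ ∅`, GD4). -/
def SesSpec : Prop :=
  ∀ (S : Finset Nat.Primes) (D : TowerDatum S) (h7 : TrCompat D) (h7b : TrTrans D),
    S.Nonempty → KerDiag D → GTower.Mod.IsSES (homDiag S) (homJC1 D h7 h7b)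

/-- **KG-LOC** (the new arithmetic property of the tower datum).  For every open `U` and every
level there is a higher level `F'` and a class `y ∈ H²(HU U F', J(F'))` with `p y = 0` whose image
in `H²(HU U F', C(F'))` is non-zero.
(`K` = fixed field of `U`.  For `F' ⊇ K(μ_{p^N})`, `N` large, the decomposition group in
`Gal(F'/K)` of a prime above `p` contains a subgroup `Z` of order `p`; local class of order `p` at
that place; its image in `H²(C)` is non-zero by reciprocity over `K`: REC2-TOW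
`SemiLocalInv.locClass` + `KerJSpec`.) -/
def _root_.Fermat.Agent.S55.Tow.TowerDatum.HasLocalClasses (D : TowerDatum S) (p : ℕ) : Prop :=
  ∀ U : Subgroup GQ, IsOpenS S U → ∀ L : Level S,
    ∃ (L' : Level S) (_ : L ≤ L')
      (y : groupCohomology (Rep.res (HU U L').subtype (Jtot L')) 2),
      p • y = 0 ∧
        (groupCohomology.map (MonoidHom.id ↥(HU U L'))
          ((Rep.resFunctor (HU U L').subtype).map (jTot D L')) 2).hom y ≠ 0

/-- **INPUT of layer KG from layer G**: a tower datum, good in the sense of the engine E1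
(`IsGoodFin`), with local classes. -/
def GlobalInputSpec (S : Finset Nat.Primes) (p : ℕ) : Prop :=
  ∃ D : TowerDatum S, D.IsGoodFin p ∧ D.HasLocalClasses p

/-! ## The arithmetic of the `S`-units in the tower (goal of the chase) -/

/-- **KG-TF** (goal of the tower part).  For every open `U`: `colim H³(HU U F, E(F))[p] = 0` and
`colim H²(HU U F, E(F)) ⊗ ℤ/p = 0`. -/
def TowerKummerSpec (S : Finset Nat.Primes) (p : ℕ) : Prop :=
  ∀ U : Subgroup GQ, IsOpenS S U →
    (resU U (sysE S)).EvTors p 3 ∧ (resU U (sysE S)).EvDiv p 2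

/-! ## Dictionary: the tower versus the finite-level cohomology of layer KL -/

/-- **KG-DICT** (formal).  For `U` open: eventual vanishing / divisibility in the tower of `U`
gives effaceability in the sense of layer KL for `(U, sUnitsSm S)`, in every degree.
(For a level `L` with `L.U ≤ U`: `U/(L.U ∩ U) ≅ HU U L` and `(sUnitsSm S)^{L.U} ≅ E(F)`;
such levels are cofinal; `HL ≅` cohomology of the tower, compatibly with inflation.
Model: `KL/TransportH496.lean`, `KL/LocalH123H775.lean`.) -/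
def DictEffSpec : Prop :=
  ∀ (S : Finset Nat.Primes) (p n : ℕ) (U : Subgroup GQ), IsOpenS S U →
    ((resU U (sysE S)).EvTors p n →
      EffTors ((globNLevels S).restrict U) (Rep.res U.subtype (sUnitsSm S)) p n) ∧
    ((resU U (sysE S)).EvDiv p n →
      EffDiv ((globNLevels S).restrict U) (Rep.res U.subtype (sUnitsSm S)) p n)

/-- **KG-DIV.**  The smooth `S`-units are `p`-divisible (`p ∈ S`): GD9, `Tow.SUnitsDivSpec`
(proved on main: `Bridge.sUnitsDivSpec`). -/
def DictDivSpec : Prop :=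
  ∀ (S : Finset Nat.Primes) (p : ℕ), SUnitsDivSpec S p → IsDivisibleBy (sUnitsSm S) p

/-- **KG-MU.**  `μ_p ⊂` smooth `S`-units has order `p` (`μ_p` lives at some level: GD9). -/
def DictMuSpec : Prop :=
  ∀ (S : Finset Nat.Primes) (p : ℕ), p.Prime → SUnitsDivSpec S p →
    Nat.card (tors (sUnitsSm S) p).V = p

/-- **KG-HYP** (goal of the layer): the hypotheses of the abstract Kummer machine for the smooth
`S`-units. -/
def GlobalKummerHypSpec (S : Finset Nat.Primes) (p : ℕ) : Prop :=
  KummerHyp (globNLevels S) (sUnitsSm S) p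

end

end Fermat.Agent.S55.KG

end
-- ===== PACK-END S55/KG/Spec.lean

-- ===== PACK-BEGIN S55/G/Exist121/Tow.lean
section






/-!
# S55, layer G, block EXIST: the existence theorem mod `p` over the tower (gd6)

Author: helper121.  For a tower level `L₀ ⊇ μ_p` (`p` odd, `p ∈ S`) let `L₁ = kummerTow p L₀` be
the Kummer level `L₀(V_S(L₀)^{1/p})`; it is a tower level, `Gal(L₁/L₀)` is a `p`-group and `L₁`
contains a `p`-th root of every element of the `p`-Selmer group of `L₀`.  Hence the finite-level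
existence theorem (`ExistCoreSpec`) applies to `L₁/L₀`, and transitivity of norms
(`norm_in_p_trans`) gives, for every level `L ≥ L₁`,
`N_{Gal(L/L₀)} C_S(L) ⊆ p · C_S(L)^{Gal(L/L₀)}`:

* `existenceG_of_core : ExistCoreSpec → (gd6 for G.CRep S L.Gal L.F)`
  (= `GAD.ExistenceSpecG S p` of helper955, stated unfolded here).
-/

set_option autoImplicit false
set_option linter.unusedSectionVars false
set_option linter.style.haveILetI false

open scoped NumberField
open IsDedekindDomain

noncomputable section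

namespace Fermat.Agent.S55.G.Exist121

open Fermat.Agent.S55 Fermat.Agent.S55.Tow Fermat.Agent.S55.E1.H594 Fermat.Agent.S55.G

section Kummer

variable {S : Finset Nat.Primes} (p : ℕ)

/-- A level is stable under `G_ℚ`. -/
lemma level_map_mem (L : Level S) (σ : GQ) (x : Qbar) (hx : x ∈ L.F) : σ x ∈ L.F := by
  have h := levelRestrict_apply L σ ⟨x, hx⟩
  rw [← h]
  exact (levelRestrict L σ ⟨x, hx⟩).2

/-- If `σ` fixes `F ⊇ μ_p` and `β ^ p ∈ F`, then `σ ^ p` fixes `β`. -/
lemma pow_apply_root (hp0 : p ≠ 0) {F : IntermediateField ℚ Qbar}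
    (hμ : ∃ ζ : Qbar, ζ ∈ F ∧ IsPrimitiveRoot ζ p) (σ : GQ) (hσ : ∀ x ∈ F, σ x = x) {β : Qbar}
    (hβ : β ^ p ∈ F) : (σ ^ p) β = β := by
  by_cases hβ0 : β = 0
  · rw [hβ0, map_zero]
  haveI : NeZero p := ⟨hp0⟩
  obtain ⟨ζ, hζF, hζ⟩ := hμ
  set ξ : Qbar := σ β / β with hξ
  have hσβ : σ β = ξ * β := by rw [hξ, div_mul_cancel₀ _ hβ0]
  have hξp : ξ ^ p = 1 := by
    rw [hξ, div_pow, ← map_pow, hσ _ hβ, div_self (pow_ne_zero p hβ0)]
  obtain ⟨i, -, hi⟩ := hζ.eq_pow_of_pow_eq_one hξp
  have hξF : ξ ∈ F := by rw [← hi]; exact pow_mem hζF i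
  have hσξ : σ ξ = ξ := hσ ξ hξF
  have key : ∀ n : ℕ, (σ ^ n) β = ξ ^ n * β := by
    intro n
    induction n with
    | zero => simp
    | succ n ih =>
      rw [pow_succ', AlgEquiv.mul_apply, ih, map_mul, map_pow, hσξ, hσβ, pow_succ]
      ring
  rw [key p, hξp, one_mul]

/-- If `σ` fixes `F ⊇ μ_p`, then `σ ^ p` fixes the Kummer level of `F`. -/
lemma pow_mem_fixingSubgroup_kummerLevel (hp0 : p ≠ 0) {F : IntermediateField ℚ Qbar}
    (hμ : ∃ ζ : Qbar, ζ ∈ F ∧ IsPrimitiveRoot ζ p) (σ : GQ) (hσ : σ ∈ F.fixingSubgroup) :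
    σ ^ p ∈ (kummerLevel S p F).fixingSubgroup := by
  have hfixF : ∀ x ∈ F, σ x = x := fun x hx =>
    (IntermediateField.mem_fixingSubgroup_iff F σ).1 hσ x hx
  rw [kummerLevel, IntermediateField.fixingSubgroup_sup]
  refine ⟨Subgroup.pow_mem _ hσ p, ?_⟩
  show σ ^ p ∈ (IntermediateField.adjoin ℚ {β | IsSelmerElt S p F (β ^ p)}).fixingSubgroup
  rw [IntermediateField.mem_fixingSubgroup_iff]
  have hle : IntermediateField.adjoin ℚ {β | IsSelmerElt S p F (β ^ p)} ≤
      IntermediateField.fixedField (Subgroup.zpowers (σ ^ p)) := by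
    rw [IntermediateField.adjoin_le_iff]
    intro β hβ
    have hβ' : IsSelmerElt S p F (β ^ p) := hβ
    have hσβ : (σ ^ p) β = β := pow_apply_root p hp0 hμ σ hfixF hβ'.1
    rintro ⟨τ, hτ⟩
    obtain ⟨k, rfl⟩ := Subgroup.mem_zpowers_iff.1 hτ
    show ((σ ^ p) ^ k) • β = β
    have hstab : σ ^ p ∈ MulAction.stabilizer GQ β := MulAction.mem_stabilizer_iff.2 hσβ
    exact MulAction.mem_stabilizer_iff.1 (Subgroup.zpow_mem _ hstab k)
  intro x hx
  exact (hle hx) ⟨σ ^ p, Subgroup.mem_zpowers _⟩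

variable [hp : Fact p.Prime]

/-- **The Kummer level as a tower level.** -/
def kummerTow (hpS : (⟨p, hp.out⟩ : Nat.Primes) ∈ S) (L₀ : Level S) : Level S where
  F := kummerLevel S p L₀.F
  unram := isUnramifiedOutside_kummerLevel S p L₀.F hp.out.pos
    (fun ℓ hℓ => by
      have h1 : (ℓ : ℕ) = p := (Nat.prime_dvd_prime_iff_eq ℓ.2 hp.out).1 hℓ
      have h2 : ℓ = ⟨p, hp.out⟩ := Subtype.ext h1
      rw [h2]
      exact hpS) L₀.unram
  normalU := normal_fixingSubgroup_kummerLevel (level_map_mem L₀)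

lemma kummerTow_F (hpS : (⟨p, hp.out⟩ : Nat.Primes) ∈ S) (L₀ : Level S) :
    (kummerTow p hpS L₀).F = kummerLevel S p L₀.F := rfl

lemma le_kummerTow (hpS : (⟨p, hp.out⟩ : Nat.Primes) ∈ S) (L₀ : Level S) :
    L₀ ≤ kummerTow p hpS L₀ :=
  (le_kummerLevel : L₀.F ≤ kummerLevel S p L₀.F)

/-- `Gal(L₁/L₀)` is a `p`-group (of exponent `p`) for the Kummer level `L₁` of `L₀ ⊇ μ_p`. -/
theorem isPGroup_relGal_kummerTow (hpS : (⟨p, hp.out⟩ : Nat.Primes) ∈ S) (L₀ : Level S)
    (hμ : L₀.HasMu p) : IsPGroup p (Level.relGal (le_kummerTow p hpS L₀)) := by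
  rintro ⟨g, hg⟩
  refine ⟨1, ?_⟩
  induction g using QuotientGroup.induction_on with
  | H σ =>
    have hσ : σ ∈ L₀.U := (mk_mem_relGal_iff (le_kummerTow p hpS L₀) σ).1 hg
    have h1 : σ ^ p ∈ (kummerTow p hpS L₀).U :=
      pow_mem_fixingSubgroup_kummerLevel p hp.out.ne_zero hμ σ hσ
    apply Subtype.ext
    rw [pow_one]
    show (QuotientGroup.mk σ : (kummerTow p hpS L₀).Gal) ^ p = 1
    rw [← QuotientGroup.mk_pow]
    exact (QuotientGroup.eq_one_iff _).2 h1

end Kummer

section Levels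

variable {S : Finset Nat.Primes}

lemma level_proj_comp {L₀ L₁ L : Level S} (h₀₁ : L₀ ≤ L₁) (h₁ : L₁ ≤ L) (g : L.Gal) :
    Level.proj h₀₁ (Level.proj h₁ g) = Level.proj (h₀₁.trans h₁) g := by
  induction g using QuotientGroup.induction_on with
  | H g => rfl

/-- `Gal(F'/F)` is a Galois group for `F'/F` (for helper594's `levelAlgebra`). -/
theorem isGaloisGroup_relGal {L L' : Level S} (h : L ≤ L') :
    @IsGaloisGroup (Level.relGal h) L.F L'.F _ _ _ (levelAlgebra h) _ := by
  letI := levelAlgebra h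
  have hfix : ∀ x : L'.F, (∀ n : Level.relGal h, (n : L'.Gal) • x = x) ↔
      x ∈ (algebraMap L.F L'.F).range := level_relGal_fixed_iff h
  have hfixN : ∀ (n : Level.relGal h) (k : L.F),
      (n : L'.Gal) • algebraMap L.F L'.F k = algebraMap L.F L'.F k := fun n k =>
    ((hfix (algebraMap L.F L'.F k)).2 ⟨k, rfl⟩) n
  exact
    { faithful := ⟨fun {a b} hab =>
        Subtype.ext (eq_of_smul_eq_smul (α := L'.F) fun x => hab x)⟩
      commutes := ⟨fun n k x => by
        change (n : L'.Gal) • (k • x) = k • ((n : L'.Gal) • x)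
        rw [Algebra.smul_def, Algebra.smul_def, smul_mul', hfixN]⟩
      isInvariant := ⟨fun x hx => by
        obtain ⟨k, hk⟩ := (hfix x).1 hx
        exact ⟨k, hk⟩⟩ }

/-- The restriction `Gal(L/L₀) → Gal(L₁/L₀)` for `L₀ ≤ L₁ ≤ L`. -/
def relProj {L₀ L₁ L : Level S} (h₀₁ : L₀ ≤ L₁) (h₁ : L₁ ≤ L) :
    Level.relGal (h₀₁.trans h₁) →* Level.relGal h₀₁ :=
  ((Level.proj h₁).comp (Level.relGal (h₀₁.trans h₁)).subtype).codRestrict (Level.relGal h₀₁)
    (fun g => by
      show Level.proj h₀₁ (Level.proj h₁ (g : L.Gal)) = 1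
      rw [level_proj_comp]
      exact g.2)

lemma coe_relProj {L₀ L₁ L : Level S} (h₀₁ : L₀ ≤ L₁) (h₁ : L₁ ≤ L)
    (g : Level.relGal (h₀₁.trans h₁)) :
    ((relProj h₀₁ h₁ g : Level.relGal h₀₁) : L₁.Gal) = Level.proj h₁ (g : L.Gal) := rfl

lemma relProj_surjective {L₀ L₁ L : Level S} (h₀₁ : L₀ ≤ L₁) (h₁ : L₁ ≤ L) :
    Function.Surjective (relProj h₀₁ h₁) := by
  rintro ⟨q, hq⟩
  obtain ⟨g, rfl⟩ := level_proj_surjective h₁ q
  refine ⟨⟨g, ?_⟩, Subtype.ext rfl⟩
  show Level.proj (h₀₁.trans h₁) g = 1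
  rw [← level_proj_comp h₀₁ h₁]
  exact hq

lemma mem_relGal_of_mem_ker_relProj {L₀ L₁ L : Level S} (h₀₁ : L₀ ≤ L₁) (h₁ : L₁ ≤ L)
    (n : (relProj h₀₁ h₁).ker) : ((n : Level.relGal (h₀₁.trans h₁)) : L.Gal) ∈ Level.relGal h₁ := by
  have h := (MonoidHom.mem_ker).1 n.2
  have h2 := congrArg (fun x : Level.relGal h₀₁ => (x : L₁.Gal)) h
  exact h2

/-- `ker (Gal(L/L₀) → Gal(L₁/L₀))` is a Galois group for `L/L₁`. -/
theorem isGaloisGroup_ker_relProj {L₀ L₁ L : Level S} (h₀₁ : L₀ ≤ L₁) (h₁ : L₁ ≤ L) :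
    @IsGaloisGroup (relProj h₀₁ h₁).ker L₁.F L.F _ _ _ (levelAlgebra h₁) _ := by
  letI := levelAlgebra h₁
  have hfix : ∀ x : L.F, (∀ n : Level.relGal h₁, (n : L.Gal) • x = x) ↔
      x ∈ (algebraMap L₁.F L.F).range := level_relGal_fixed_iff h₁
  have hfixN : ∀ (n : (relProj h₀₁ h₁).ker) (k : L₁.F),
      ((n : Level.relGal (h₀₁.trans h₁)) : L.Gal) • algebraMap L₁.F L.F k =
        algebraMap L₁.F L.F k := fun n k =>
    ((hfix (algebraMap L₁.F L.F k)).2 ⟨k, rfl⟩) ⟨_, mem_relGal_of_mem_ker_relProj h₀₁ h₁ n⟩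
  exact
    { faithful := ⟨fun {a b} hab =>
        Subtype.ext (Subtype.ext (eq_of_smul_eq_smul (α := L.F) fun x => hab x))⟩
      commutes := ⟨fun n k x => by
        change ((n : Level.relGal (h₀₁.trans h₁)) : L.Gal) • (k • x) =
          k • (((n : Level.relGal (h₀₁.trans h₁)) : L.Gal) • x)
        rw [Algebra.smul_def, Algebra.smul_def, smul_mul', hfixN]⟩
      isInvariant := ⟨fun x hx => by
        have hx' : ∀ n : Level.relGal h₁, (n : L.Gal) • x = x := by
          rintro ⟨n, hn⟩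
          have hn' : n ∈ Level.relGal (h₀₁.trans h₁) := by
            show Level.proj (h₀₁.trans h₁) n = 1
            rw [← level_proj_comp h₀₁ h₁]
            have : Level.proj h₁ n = 1 := hn
            rw [this, map_one]
          have hker : (⟨n, hn'⟩ : Level.relGal (h₀₁.trans h₁)) ∈ (relProj h₀₁ h₁).ker := by
            rw [MonoidHom.mem_ker]
            exact Subtype.ext hn
          exact hx ⟨⟨n, hn'⟩, hker⟩
        obtain ⟨k, hk⟩ := (hfix x).1 hx'
        exact ⟨k, hk⟩⟩ }

end Levels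

section Main

variable {S : Finset Nat.Primes} (p : ℕ) [hp : Fact p.Prime]

/-- **One Kummer step**: `N_{Gal(L₁/L₀)} C_S(L₁) ⊆ p · C_S(L₁)^{Gal(L₁/L₀)}` for the Kummer level
`L₁` of `L₀ ⊇ μ_p`, in the language of the subgroup `Gal(L₁/L₀)` acting on `L₁`. -/
theorem kummerStep_of_core (hp2 : p ≠ 2) (hpS : (⟨p, hp.out⟩ : Nat.Primes) ∈ S)
    (hCore : ExistCoreSpec) (L₀ : Level S) (hμ : L₀.HasMu p)
    [Fintype (Level.relGal (le_kummerTow p hpS L₀))] :
    ∀ c : CS S (kummerTow p hpS L₀).F, ∃ c₀ : CS S (kummerTow p hpS L₀).F,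
      (∀ g : Level.relGal (le_kummerTow p hpS L₀),
        cRepr S (Level.relGal (le_kummerTow p hpS L₀)) (kummerTow p hpS L₀).F g c₀ = c₀) ∧
      ∑ g : Level.relGal (le_kummerTow p hpS L₀),
        cRepr S (Level.relGal (le_kummerTow p hpS L₀)) (kummerTow p hpS L₀).F g c = p • c₀ := by
  set L₁ := kummerTow p hpS L₀ with hL₁
  have h₀₁ : L₀ ≤ L₁ := le_kummerTow p hpS L₀
  letI := levelAlgebra h₀₁
  haveI := isGaloisGroup_relGal h₀₁
  obtain ⟨ζ, hζF, hζ⟩ := hμ
  refine hCore p hp2 S (Level.relGal h₀₁) L₀.F L₁.F hpS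
    (isPGroup_relGal_kummerTow p hpS L₀ ⟨ζ, hζF, hζ⟩)
    (level_isUnramOut_subgroup L₁ _) ⟨⟨ζ, hζF⟩, ?_⟩ ?_
  · exact IsPrimitiveRoot.of_map_of_injective (f := L₀.F.val) hζ Subtype.val_injective
  · intro x hx
    obtain ⟨β, hβ, hβx⟩ := exists_root_mem_kummerLevel S p L₀.F hp.out.ne_zero x hx
    exact ⟨⟨β, hβ⟩, Subtype.ext hβx⟩

/-- **The existence theorem mod `p` over the tower** (gd6 for `G.CRep S L.Gal L.F`, i.e.
helper955's `GAD.ExistenceSpecG S p`), from the finite-level core. -/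
theorem existenceG_of_core (hp2 : p ≠ 2) (hpS : (⟨p, hp.out⟩ : Nat.Primes) ∈ S)
    (hCore : ExistCoreSpec) :
    ∀ L₀ : Level S, L₀.HasMu p → ∃ L₁ : Level S, L₀ ≤ L₁ ∧
      ∀ (L : Level S) (h : L₀ ≤ L), L₁ ≤ L →
        @E1.NormInP p L.Gal _ (Level.relGal h) (Fintype.ofFinite _) (G.CRep S L.Gal L.F) := by
  intro L₀ hμ
  refine ⟨kummerTow p hpS L₀, le_kummerTow p hpS L₀, fun L h h₁ => ?_⟩
  set L₁ := kummerTow p hpS L₀ with hL₁
  have h₀₁ : L₀ ≤ L₁ := le_kummerTow p hpS L₀
  letI : Fintype (Level.relGal h₀₁) := Fintype.ofFinite _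
  letI : Fintype (Level.relGal (h₀₁.trans h₁)) := Fintype.ofFinite _
  letI := levelAlgebra h₁
  haveI := isGaloisGroup_ker_relProj h₀₁ h₁
  have hstep := kummerStep_of_core p hp2 hpS hCore L₀ hμ
  have hS : S.Nonempty := ⟨_, hpS⟩
  have hcompat : ∀ (g : Level.relGal (h₀₁.trans h₁)) (x : L₁.F),
      algebraMap L₁.F L.F (relProj h₀₁ h₁ g • x) = g • algebraMap L₁.F L.F x :=
    fun g x => levelIncl_proj_smul h₁ (g : L.Gal) x
  have key := norm_in_p_trans S p (Level.relGal (h₀₁.trans h₁)) (Level.relGal h₀₁) L₁.F L.F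
    (relProj h₀₁ h₁) (relProj_surjective h₀₁ h₁) hcompat hS (level_isUnramOut_subgroup L _) hstep
  intro c
  obtain ⟨c₀, hinv, hsum⟩ := key c
  refine ⟨c₀, fun g hg => ?_, ?_⟩
  · have h1 := hinv ⟨g, hg⟩
    rw [DescH773.cRepr_subgroup] at h1
    exact h1
  · refine Eq.trans ?_ hsum
    exact Finset.sum_congr rfl (fun g _ => (DescH773.cRepr_subgroup S L.Gal L.F _ g c).symm)

end Main

end Fermat.Agent.S55.G.Exist121

end
end
-- ===== PACK-END S55/G/Exist121/Tow.lean

-- ===== PACK-BEGIN S55/G/JCount903/Statement.lean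
section
/-
S55, layer G, J-GLUE, COUNT half (helper903): subtype form and `Prop` form of
`JCount903.prod_card_decomp_eq` (hypothesis shape `hCount` of helper604's `jHerbrand_of`).
-/


set_option autoImplicit false
set_option linter.unusedSectionVars false

open scoped NumberField TensorProduct
open IsDedekindDomain

noncomputable section

namespace Fermat.Agent.S55.G.JCount903

open Fermat.Agent.S55.G Fermat.Agent.S55.G.OrdH707 Fermat.Agent.S55.G.FIH895

/-- **COUNT**, subtype form: `∏_{r : R} |D_r| = ∏_{v ∈ S_K} e_v f_v`. -/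
theorem prod_card_decomp_eq' (K L : Type) [Field K] [Field L] [NumberField K] [NumberField L]
    [Algebra K L] [IsGalois K L] (S : Finset Nat.Primes) (hPP : PlacePrimeSpec)
    (R : Finset (SPlace S L))
    (hR : ∀ 𝔪 : SPlace S L, ∃! r : SPlace S L,
      r ∈ R ∧ ∃ g : L ≃ₐ[K] L, sPlaceSMul S (L ≃ₐ[K] L) g r = 𝔪) :
    ∏ r : R, Nat.card (decomp S (L ≃ₐ[K] L) r.1) = finDegProd K L (primesOver S K) := by
  rw [← prod_card_decomp_eq K L S hPP R hR]
  exact Finset.prod_coe_sort R (fun r => Nat.card (decomp S (L ≃ₐ[K] L) r))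

/-- The COUNT statement as a `Prop` (hypothesis shape for the J-glue). -/
def JCountStatement : Prop :=
  ∀ (K L : Type) [Field K] [Field L] [NumberField K] [NumberField L] [Algebra K L]
    [IsGalois K L] (S : Finset Nat.Primes) (R : Finset (SPlace S L)),
    (∀ 𝔪 : SPlace S L, ∃! r : SPlace S L,
      r ∈ R ∧ ∃ g : L ≃ₐ[K] L, sPlaceSMul S (L ≃ₐ[K] L) g r = 𝔪) →
    ∏ r : R, Nat.card (decomp S (L ≃ₐ[K] L) r.1) = finDegProd K L (primesOver S K)

/-- COUNT from the places ↔ primes dictionary. -/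
theorem jCount_of (hPP : PlacePrimeSpec) : JCountStatement :=
  fun K L _ _ _ _ _ _ S R hR => prod_card_decomp_eq' K L S hPP R hR

end Fermat.Agent.S55.G.JCount903

end
end
-- ===== PACK-END S55/G/JCount903/Statement.lean

-- ===== PACK-BEGIN S55/H963/Instance.lean
section



/-!
# S55 / leaf RAY-N1 (helper963): the concrete smoothing kernel

The abstract `UnitKernel` is instantiated by the tent-smoothed summand `FS` of the landed
S14 block N1 (helper74), giving the unconditional statement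
`RayDatum.exists_zeta_sub_bound'`.
-/

set_option autoImplicit false

namespace Fermat.Agent.S55.H963

open NumberField NumberField.Units NumberField.mixedEmbedding

variable (K : Type*) [Field K] [NumberField K]

theorem norm_mixedEmbedding_eq_absNorm (x : 𝓞 K) :
    mixedEmbedding.norm (mixedEmbedding K (x : K)) = (Ideal.absNorm (Ideal.span {x}) : ℝ) := by
  rw [S14.H74.mixedEmbedding_norm_coe, Ideal.absNorm_span_singleton, Nat.cast_natAbs,
    Int.cast_abs]

theorem hasSum_FS_unit_mul (s : ℝ) {x : 𝓞 K} (hx : x ≠ 0) :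
    HasSum (fun u : (𝓞 K)ˣ => S14.H74.FS K s ((u : 𝓞 K) * x))
      ((torsionOrder K : ℝ) * (Ideal.absNorm (Ideal.span {x}) : ℝ) ^ (-s)) := by
  have hN : mixedEmbedding.norm (mixedEmbedding K (x : K)) ≠ 0 := by
    rw [norm_mixedEmbedding_eq_absNorm]
    have : Ideal.absNorm (Ideal.span {x}) ≠ 0 := by
      rw [Ne, Ideal.absNorm_eq_zero_iff, Ideal.span_singleton_eq_bot]
      exact hx
    exact_mod_cast this
  have h := (S14.H74.hasSum_rho_unit_smul (K := K) hN).mul_right
    ((Ideal.absNorm (Ideal.span {x}) : ℝ) ^ (-s))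
  have e : (fun u : (𝓞 K)ˣ => S14.H74.FS K s ((u : 𝓞 K) * x)) =
      fun u : (𝓞 K)ˣ => S14.H74.rho K (u • mixedEmbedding K (x : K)) *
        (Ideal.absNorm (Ideal.span {x}) : ℝ) ^ (-s) := by
    funext u
    unfold S14.H74.FS S14.H74.fS
    rw [S14.H74.mixedEmbedding_unit_mul, norm_unit_smul, norm_mixedEmbedding_eq_absNorm]
  rw [e]
  exact h

/-- The concrete smoothing kernel (tent partition of unity of S14/N1). -/
noncomputable def kernel74 : UnitKernel K where
  F := S14.H74.FS K
  w := (torsionOrder K : ℝ)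
  w_pos := Nat.cast_pos.mpr (torsionOrder_pos K)
  nonneg := S14.H74.FS_nonneg
  map_zero := S14.H74.FS_zero
  summable := fun _ hs => S14.H74.summable_FS hs
  orbit := fun s _ _ hx => hasSum_FS_unit_mul K s hx
  shift := fun t => by
    obtain ⟨g, hg, -, hgb⟩ := S14.H74.exists_dominating (K := K) t
    exact ⟨g, hg, fun s hs1 hs2 y => hgb s hs1.le hs2 y⟩

theorem kernel74_total (s : ℝ) : (kernel74 K).total s = ∑' x : 𝓞 K, S14.H74.FS K s x := rfl

/-- Growth of the total smoothed sum. -/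
theorem kernel74_growth :
    ∃ G : ℝ, ∀ s : ℝ, 1 < s → s ≤ 2 → (s - 1) * (kernel74 K).total s ≤ G := by
  obtain ⟨Z, hZ0, hZ⟩ := S14.H74.classZeta_le K
  refine ⟨(torsionOrder K : ℝ) * Z, fun s hs1 hs2 => ?_⟩
  rw [kernel74_total, ← S14.H74.torsionOrder_mul_classZeta_one K hs1]
  have h1 := hZ s hs1 hs2 1
  have hs0 : 0 < s - 1 := by linarith
  have hw : (0 : ℝ) ≤ torsionOrder K := Nat.cast_nonneg _
  have h2 : (s - 1) * S14.H74.classZeta K 1 s ≤ Z := by
    have := mul_le_mul_of_nonneg_left h1 hs0.le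
    rwa [mul_div_cancel₀ _ hs0.ne'] at this
  calc (s - 1) * ((torsionOrder K : ℝ) * S14.H74.classZeta K 1 s)
      = (torsionOrder K : ℝ) * ((s - 1) * S14.H74.classZeta K 1 s) := by ring
    _ ≤ (torsionOrder K : ℝ) * Z := mul_le_mul_of_nonneg_left h2 hw

variable {K} {A : Type*} [CommGroup A]

namespace RayDatum

variable (D : RayDatum K A)

/-- **RAY-N1** (unconditional): the partial zeta functions of the classes `a` and `a ψ(𝔠)`
differ by a bounded function on `(1, 2]`. -/
theorem exists_zeta_sub_bound' (𝔠 : Ideal (𝓞 K)) (h𝔠 : 𝔠 ≠ ⊥) (h𝔠m : IsCoprime 𝔠 D.m) (a : A) :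
    ∃ B : ℝ, ∀ s : ℝ, 1 < s → s ≤ 2 → |D.zeta a s - D.zeta (a * D.ψ 𝔠) s| ≤ B :=
  D.exists_zeta_sub_bound (kernel74 K) (kernel74_growth K) 𝔠 h𝔠 h𝔠m a

/-- Summability of the partial zeta functions. -/
theorem summable_cls (a : A) {s : ℝ} (hs : 1 < s) :
    Summable fun I : D.cls a => (Ideal.absNorm (I : Ideal (𝓞 K)) : ℝ) ^ (-s) := by
  have h := D.summable_clsDvd (kernel74 K) ⊤ a hs
  rw [D.clsDvd_top a] at h
  exact h

/-- Upper bound `ζ(s, a) ≤ Z / (s - 1)`. -/
theorem exists_zeta_le (a : A) : ∃ Z : ℝ, 0 ≤ Z ∧ ∀ s : ℝ, 1 < s → s ≤ 2 →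
    D.zeta a s ≤ Z / (s - 1) := by
  obtain ⟨c, hc0, hc⟩ := D.exists_zeta_le_total (kernel74 K) a
  obtain ⟨G, hG⟩ := kernel74_growth K
  have hG0 : 0 ≤ G := by
    have h := hG 2 (by norm_num) le_rfl
    have h2 := (kernel74 K).total_nonneg 2
    nlinarith
  refine ⟨c * G, mul_nonneg hc0 hG0, fun s hs1 hs2 => ?_⟩
  have hs0 : 0 < s - 1 := by linarith
  rw [le_div_iff₀ hs0]
  calc D.zeta a s * (s - 1) ≤ (c * (kernel74 K).total s) * (s - 1) :=
        mul_le_mul_of_nonneg_right (hc s hs1 hs2) hs0.le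
    _ = c * ((s - 1) * (kernel74 K).total s) := by ring
    _ ≤ c * G := mul_le_mul_of_nonneg_left (hG s hs1 hs2) hc0

end RayDatum

end Fermat.Agent.S55.H963

end
-- ===== PACK-END S55/H963/Instance.lean

-- ===== PACK-BEGIN S55/G/Rec/Loc/UnifH544/Local.lean
section






/-!
# S55 / G / REC / LOC, leaf LOC-UNIF (helper544), part 4: dictionary with layer L

`K = K_V` the fixed field of an open `V ≤ Gal(ℚ̄_q/ℚ_q)`, `A` its ring of integers (the unit ball),
`E / K` a finite extension inside `ℚ̄_q`.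

* `isInt_iff_norm544`: integrality over `A` is `‖x‖ ≤ 1`;
* `isUniformizer_of_norm544`, `card_residue544`, `isFrobeniusElt544`: the norm vocabulary of
  `G/Rec/Spec.lean` (`IsUniformizer`, `IsResidueDegree`, `IsFrobenius`) implies the vocabulary of
  layer L (`L.IsUniformizer`, `Nat.card (ResidueField A)`, `L.IsFrobeniusElt`);
* `isUnramifiedExt_cycLevel544`: `K(μ_r) / K` is unramified for `q ∤ r` (trivial inertia,
  `Local.H959.exists_inertia`);
* `frobenius_generates544`: in an unramified extension the restriction of a Frobenius of `V`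
  generates the Galois group.
-/

set_option autoImplicit false
set_option linter.unusedSectionVars false
set_option linter.style.haveILetI false

noncomputable section

namespace Fermat.Agent.S55.G.Rec.Loc.H544

open groupCohomology Fermat.Agent.S55 Fermat.Agent.S55.G.Rec Fermat.Agent.S55.G.Rec.Loc

variable {q : ℕ} [Fact q.Prime]

local notation "Gq" => (PadicAlgCl q ≃ₐ[ℚ_[q]] PadicAlgCl q)

section Dict

variable {V : Subgroup (PadicAlgCl q ≃ₐ[ℚ_[q]] PadicAlgCl q)} (A : ValuationSubring (fixedFld q V))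
  (hAmem : ∀ x : fixedFld q V, x ∈ A ↔ ‖(x : PadicAlgCl q)‖ ≤ 1)
  (E : IntermediateField (fixedFld q V) (PadicAlgCl q))

theorem isScalarTower_mid544 : IsScalarTower ℚ_[q] E (PadicAlgCl q) :=
  IsScalarTower.of_algebraMap_eq fun _ => rfl

include hAmem in
/-- Integrality over `A` is `‖x‖ ≤ 1`. -/
theorem isInt_iff_norm544 (x : E) :
    Local.IsInt (↥A) (fixedFld q V) E x ↔ ‖(x : PadicAlgCl q)‖ ≤ 1 := by
  constructor
  · rintro ⟨p, hp, hpx⟩
    refine norm_le_one_of_eval₂_eq_zero544
      ((algebraMap E (PadicAlgCl q)).comp (Local.toL (↥A) (fixedFld q V) E)) ?_ p hp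
      (x : PadicAlgCl q) ?_
    · intro a
      exact (hAmem (a : fixedFld q V)).1 a.2
    · have := congrArg (algebraMap E (PadicAlgCl q)) hpx
      rw [Polynomial.hom_eval₂, map_zero] at this
      exact this
  · intro hx
    haveI := isScalarTower_mid544 E
    have hinj : Function.Injective (algebraMap E (PadicAlgCl q)) :=
      (algebraMap E (PadicAlgCl q)).injective
    have hmin : minpoly ℚ_[q] (x : PadicAlgCl q) = minpoly ℚ_[q] x :=
      minpoly.algebraMap_eq hinj x
    have hint : IsIntegral ℚ_[q] x := by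
      rw [← isIntegral_algebraMap_iff hinj]
      exact Algebra.IsIntegral.isIntegral _
    have hlift : (minpoly ℚ_[q] x).map (algebraMap ℚ_[q] E) ∈
        Polynomial.lifts (Local.toL (↥A) (fixedFld q V) E) := by
      rw [Polynomial.lifts_iff_coeff_lifts]
      intro n
      rw [Polynomial.coeff_map]
      have hc : ‖(minpoly ℚ_[q] x).coeff n‖ ≤ 1 := by
        rw [← hmin]
        exact norm_coeff_minpoly_le_one544 q hx n
      have hcA : algebraMap ℚ_[q] (fixedFld q V) ((minpoly ℚ_[q] x).coeff n) ∈ A := by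
        rw [hAmem]
        have : ((algebraMap ℚ_[q] (fixedFld q V) ((minpoly ℚ_[q] x).coeff n) : fixedFld q V) :
            PadicAlgCl q) = algebraMap ℚ_[q] (PadicAlgCl q) ((minpoly ℚ_[q] x).coeff n) := rfl
        rw [this, PadicAlgCl.norm_extends]
        exact hc
      exact ⟨⟨_, hcA⟩, rfl⟩
    obtain ⟨p, hpmap, -, hpm⟩ := Polynomial.lifts_and_natDegree_eq_and_monic hlift
      ((minpoly.monic hint).map _)
    refine ⟨p, hpm, ?_⟩
    rw [← Polynomial.eval_map, hpmap, Polynomial.eval_map_algebraMap, minpoly.aeval]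

/-! ### The ring of integers of `K` -/

include hAmem in
theorem norm_coe_le_one544 (a : A) : ‖((a : fixedFld q V) : PadicAlgCl q)‖ ≤ 1 :=
  (hAmem _).1 a.2

include hAmem in
theorem mem_maximalIdeal_iff544 (a : A) :
    a ∈ IsLocalRing.maximalIdeal A ↔ ‖((a : fixedFld q V) : PadicAlgCl q)‖ < 1 :=
  mem_maximalIdeal_iff_norm544 (algebraMap (fixedFld q V) (PadicAlgCl q)) A hAmem a

include hAmem in
theorem norm_unit_eq_one544 (u : Aˣ) : ‖(((u : A) : fixedFld q V) : PadicAlgCl q)‖ = 1 := by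
  refine le_antisymm (norm_coe_le_one544 A hAmem _) ?_
  by_contra hlt
  rw [not_le] at hlt
  have h1 := (mem_maximalIdeal_iff544 A hAmem (u : A)).2 hlt
  exact (IsLocalRing.mem_maximalIdeal _).1 h1 u.isUnit

variable [IsDiscreteValuationRing A]

include hAmem in
/-- A norm-uniformizer is a uniformizer of `A`. -/
theorem isUniformizer_of_norm544 (π : fixedFld q V) (hπ0 : π ≠ 0)
    (hπ1 : ‖(π : PadicAlgCl q)‖ < 1)
    (hmax : ∀ x : fixedFld q V, ‖(x : PadicAlgCl q)‖ < 1 →
      ‖(x : PadicAlgCl q)‖ ≤ ‖(π : PadicAlgCl q)‖) : L.IsUniformizer A π := by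
  have hπA : π ∈ A := (hAmem π).2 hπ1.le
  refine ⟨hπA, ?_⟩
  obtain ⟨ϖ, hϖ⟩ := IsDiscreteValuationRing.exists_irreducible A
  have hπA0 : (⟨π, hπA⟩ : A) ≠ 0 := fun h => hπ0 (congrArg Subtype.val h)
  obtain ⟨k, u, hku⟩ := IsDiscreteValuationRing.eq_unit_mul_pow_irreducible hπA0 hϖ
  have hnϖ : ‖((ϖ : fixedFld q V) : PadicAlgCl q)‖ < 1 :=
    (mem_maximalIdeal_iff544 A hAmem ϖ).1
      ((IsLocalRing.mem_maximalIdeal _).2 hϖ.not_isUnit)
  have hϖ0 : 0 < ‖((ϖ : fixedFld q V) : PadicAlgCl q)‖ := by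
    rw [norm_pos_iff]
    intro h0
    apply hϖ.ne_zero
    apply Subtype.ext
    exact_mod_cast h0
  have hle : ‖((ϖ : fixedFld q V) : PadicAlgCl q)‖ ≤ ‖(π : PadicAlgCl q)‖ := hmax _ hnϖ
  have hnorm : ‖(π : PadicAlgCl q)‖ = ‖((ϖ : fixedFld q V) : PadicAlgCl q)‖ ^ k := by
    have h1 : (π : PadicAlgCl q) =
        (((u : A) : fixedFld q V) : PadicAlgCl q) * ((ϖ : fixedFld q V) : PadicAlgCl q) ^ k := by
      have := congrArg (fun a : A => ((a : fixedFld q V) : PadicAlgCl q)) hku
      simpa using this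
    rw [h1, norm_mul, norm_pow, norm_unit_eq_one544 A hAmem u, one_mul]
  have hk1 : k = 1 := by
    rcases Nat.lt_trichotomy k 1 with h | h | h
    · have hk0 : k = 0 := by omega
      rw [hk0, pow_zero] at hnorm
      rw [hnorm] at hπ1
      exact absurd hπ1 (lt_irrefl _)
    · exact h
    · exfalso
      have h2 : ‖((ϖ : fixedFld q V) : PadicAlgCl q)‖ ^ k <
          ‖((ϖ : fixedFld q V) : PadicAlgCl q)‖ ^ 1 :=
        pow_lt_pow_right_of_lt_one₀ hϖ0 hnϖ h
      rw [pow_one, ← hnorm] at h2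
      exact absurd hle (not_le.2 h2)
  rw [hku, hk1, pow_one]
  exact (irreducible_units_mul u).2 hϖ

variable [Finite (IsLocalRing.ResidueField A)]

include hAmem in
/-- The residue field of `A` has `q ^ f` elements, `f` the residue degree of `V`. -/
theorem card_residue544 (f : ℕ) (hf : IsResidueDegree q V f) :
    Nat.card (IsLocalRing.ResidueField A) = q ^ f := by
  classical
  letI : Fintype (IsLocalRing.ResidueField A) := Fintype.ofFinite _
  have hq0 : ((q : ℕ) : IsLocalRing.ResidueField A) = 0 := by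
    have h1 : ((q : ℕ) : A) ∈ IsLocalRing.maximalIdeal A := by
      rw [mem_maximalIdeal_iff544 A hAmem]
      have : ((((q : ℕ) : A) : fixedFld q V) : PadicAlgCl q) = (q : PadicAlgCl q) := by
        simp
      rw [this]
      exact norm_prime_lt_one544 q
    have h2 := (IsLocalRing.residue_eq_zero_iff ((q : ℕ) : A)).2 h1
    rwa [map_natCast] at h2
  haveI : CharP (IsLocalRing.ResidueField A) q :=
    (CharP.charP_iff_prime_eq_zero (Fact.out : q.Prime)).2 hq0
  obtain ⟨n, -, hn⟩ := FiniteField.card (IsLocalRing.ResidueField A) q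
  have hq1 : 1 < q := (Fact.out : q.Prime).one_lt
  obtain ⟨hf0, hf1, hf2⟩ := hf
  -- `f ≤ n`
  have h1 : f ≤ n := by
    refine hf2 n n.pos fun x hxfix hx1 => ?_
    have hxK : x ∈ fixedFld q V := (IntermediateField.mem_fixedField_iff _ _).2 hxfix
    have hxA : (⟨x, hxK⟩ : fixedFld q V) ∈ A := (hAmem _).2 hx1
    have h3 : IsLocalRing.residue A ((⟨⟨x, hxK⟩, hxA⟩ : A) ^ q ^ (n : ℕ) - ⟨⟨x, hxK⟩, hxA⟩) = 0 := by
      rw [map_sub, map_pow, ← hn, FiniteField.pow_card, sub_self]
    have h4 := (IsLocalRing.residue_eq_zero_iff _).1 h3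
    rw [mem_maximalIdeal_iff544 A hAmem] at h4
    exact h4
  -- `n ≤ f`
  have h2 : (n : ℕ) ≤ f := by
    have hroot : ∀ a : IsLocalRing.ResidueField A, a ^ q ^ f = a := by
      intro a
      obtain ⟨x, rfl⟩ := IsLocalRing.residue_surjective a
      have hxfix : IsFixedBy q V ((x : fixedFld q V) : PadicAlgCl q) :=
        (IntermediateField.mem_fixedField_iff _ _).1 (x : fixedFld q V).2
      have h3 := hf1 _ hxfix (norm_coe_le_one544 A hAmem x)
      have h4 : x ^ q ^ f - x ∈ IsLocalRing.maximalIdeal A := by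
        rw [mem_maximalIdeal_iff544 A hAmem]
        exact h3
      have h5 := (IsLocalRing.residue_eq_zero_iff _).2 h4
      rw [map_sub, map_pow, sub_eq_zero] at h5
      exact h5
    have hP0 : (Polynomial.X ^ q ^ f - Polynomial.X :
        Polynomial (IsLocalRing.ResidueField A)) ≠ 0 :=
      FiniteField.X_pow_card_pow_sub_X_ne_zero _ hf0.ne' hq1
    have hdeg : (Polynomial.X ^ q ^ f - Polynomial.X :
        Polynomial (IsLocalRing.ResidueField A)).natDegree = q ^ f :=
      FiniteField.X_pow_card_pow_sub_X_natDegree_eq _ hf0.ne' hq1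
    have hsub : (Finset.univ : Finset (IsLocalRing.ResidueField A)) ⊆
        (Polynomial.X ^ q ^ f - Polynomial.X :
          Polynomial (IsLocalRing.ResidueField A)).roots.toFinset := by
      intro a _
      rw [Multiset.mem_toFinset, Polynomial.mem_roots hP0, Polynomial.IsRoot.def]
      simp [hroot a]
    have hcard : Fintype.card (IsLocalRing.ResidueField A) ≤ q ^ f := by
      calc Fintype.card (IsLocalRing.ResidueField A)
          = (Finset.univ : Finset (IsLocalRing.ResidueField A)).card := rfl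
        _ ≤ _ := Finset.card_le_card hsub
        _ ≤ Multiset.card (Polynomial.X ^ q ^ f - Polynomial.X :
            Polynomial (IsLocalRing.ResidueField A)).roots := Multiset.toFinset_card_le _
        _ ≤ _ := Polynomial.card_roots' _
        _ = q ^ f := hdeg
    rw [hn] at hcard
    exact (Nat.pow_le_pow_iff_right hq1).1 hcard
  rw [Nat.card_eq_fintype_card, hn, le_antisymm h2 h1]

/-! ### The ring of integers of `E` -/

variable [IsAdicComplete (IsLocalRing.maximalIdeal A) A] [FiniteDimensional (fixedFld q V) E]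

/-- The ring of integers of `E`. -/
def intE544 : ValuationSubring E := L.H715.intVS (↥A) (fixedFld q V) E

theorem isLocalRingOfIntegers_intE544 : L.IsLocalRingOfIntegers (intE544 A E) :=
  L.H715.isLocalRingOfIntegers_intVS _ _ _

include hAmem in
theorem mem_intE544 (x : E) : x ∈ intE544 A E ↔ ‖(x : PadicAlgCl q)‖ ≤ 1 :=
  (L.H715.mem_intVS_iff _ _ _ x).trans (isInt_iff_norm544 A hAmem E x)

include hAmem in
theorem mem_nonunits_intE544 (x : E) :
    x ∈ (intE544 A E).nonunits ↔ ‖(x : PadicAlgCl q)‖ < 1 :=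
  mem_nonunits_iff_norm544 (algebraMap E (PadicAlgCl q)) _ (mem_intE544 A hAmem E) x

include hAmem in
/-- The restriction of a Frobenius of `V` is a Frobenius element in the sense of layer L. -/
theorem isFrobeniusElt544 [Normal (fixedFld q V) E]
    (φ : PadicAlgCl q ≃ₐ[ℚ_[q]] PadicAlgCl q) (hφ : IsFrobenius q V φ) :
    L.IsFrobeniusElt (fixedFld q V) E (resHom q V E ⟨φ, hφ.1⟩) := by
  obtain ⟨hφV, f, hf, hfrob⟩ := id hφ
  refine ⟨A, intE544 A E, ⟨inferInstance, inferInstance, inferInstance⟩,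
    isLocalRingOfIntegers_intE544 A E, fun x hx => ?_⟩
  rw [card_residue544 A hAmem f hf, mem_nonunits_intE544 A hAmem E]
  have hx1 := (mem_intE544 A hAmem E x).1 hx
  have h := hfrob (x : PadicAlgCl q) hx1
  have e : ((resHom q V E ⟨φ, hφ.1⟩ x - x ^ q ^ f : E) : PadicAlgCl q) =
      φ (x : PadicAlgCl q) - (x : PadicAlgCl q) ^ q ^ f := by
    rw [AddSubgroupClass.coe_sub, SubmonoidClass.coe_pow, resHom_apply_coe]
  rw [e]
  exact h

include hAmem in
/-- Elements of the maximal ideal (in the sense of `Local.H959.InMax`) have norm `< 1`. -/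
theorem norm_lt_one_of_inMax544 (y : E) (hy : Local.H959.InMax (↥A) (fixedFld q V) E y) :
    ‖(y : PadicAlgCl q)‖ < 1 := by
  by_contra hge
  rw [not_lt] at hge
  have hy0 : y ≠ 0 := by
    rintro rfl
    simp at hge
    linarith
  have hinv : ‖((y⁻¹ : E) : PadicAlgCl q)‖ ≤ 1 := by
    have : ((y⁻¹ : E) : PadicAlgCl q) = (y : PadicAlgCl q)⁻¹ := rfl
    rw [this, norm_inv]
    exact inv_le_one_of_one_le₀ hge
  exact hy.2 y⁻¹ ((isInt_iff_norm544 A hAmem E _).2 hinv) (mul_inv_cancel₀ hy0)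

/-! ### `K(μ_r) / K` is unramified -/

omit [FiniteDimensional (fixedFld q V) E] in
include hAmem in
/-- **`K(μ_r) / K` is unramified** for `q ∤ r`. -/
theorem isUnramifiedExt_cycLevel544 {r : ℕ} (hr : 0 < r) (hqr : ¬ q ∣ r) :
    L.IsUnramifiedExt (fixedFld q V) (cycLevel544 q V r) := by
  haveI := finiteDimensional_cycLevel544 q V r
  haveI := isGalois_cycLevel544 q V r
  obtain ⟨J, hJ, hJcard⟩ :=
    Local.H959.exists_inertia (↥A) (fixedFld q V) (fixedFld q V) (cycLevel544 q V r)
  have hnr : ‖(r : PadicAlgCl q)‖ = 1 := H533.norm_natCast_padicAlgCl533 q hqr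
  have hJbot : J = ⊥ := by
    rw [eq_bot_iff]
    intro σ hσ
    rw [Subgroup.mem_bot]
    rw [hJ] at hσ
    apply eq_one_of_fixes_roots544 q V hr σ
    intro x hx
    have hx1 : ‖(x : PadicAlgCl q)‖ ≤ 1 := by
      have h1 : ‖(x : PadicAlgCl q)‖ ^ r = 1 := by rw [← norm_pow, hx, norm_one]
      exact ((pow_eq_one_iff_of_nonneg (norm_nonneg _) hr.ne').1 h1).le
    have hint : Local.IsInt (↥A) (fixedFld q V) (cycLevel544 q V r) x :=
      (isInt_iff_norm544 A hAmem _ x).2 hx1
    have hlt := norm_lt_one_of_inMax544 A hAmem _ _ (hσ x hint)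
    have hσx : ((σ x : cycLevel544 q V r) : PadicAlgCl q) ^ r = 1 := by
      have h2 : (σ x) ^ r = 1 := by
        rw [← map_pow]
        have : x ^ r = 1 := Subtype.ext (by simpa using hx)
        rw [this, map_one]
      have := congrArg (fun y : cycLevel544 q V r => (y : PadicAlgCl q)) h2
      simpa using this
    have e : ((σ x - x : cycLevel544 q V r) : PadicAlgCl q) =
        ((σ x : cycLevel544 q V r) : PadicAlgCl q) - (x : PadicAlgCl q) := rfl
    rw [e] at hlt
    exact Subtype.ext (H533.rootsOfUnity_eq_of_norm_sub_lt_one533 hnr hx hσx hlt)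
  obtain ⟨ϖK, hK⟩ := Local.H608.existsUnif (↥A) (fixedFld q V) (fixedFld q V)
  obtain ⟨ϖE, hE⟩ := Local.H608.existsUnif (↥A) (fixedFld q V) (cycLevel544 q V r)
  have h1 := hJcard ϖK ϖE hK hE
  have hunr : Local.IsUnram (↥A) (fixedFld q V) (cycLevel544 q V r) (fixedFld q V) :=
    (Local.H959.isUnram_iff_ramExp_eq_one hK hE h1).2 (by rw [hJbot, Subgroup.card_bot])
  exact L.H715.isUnramifiedExt_of_isUnram A _ hunr

/-! ### The Frobenius generates -/

include hAmem in
/-- In an unramified extension `E / K_V` the restriction of a Frobenius of `V` generates the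
Galois group. -/
theorem frobenius_generates544 [L.IsLocalFld (fixedFld q V)]
    (hfix : (fixedFld q V).fixingSubgroup = V) [IsGalois (fixedFld q V) E]
    (hunr : L.IsUnramifiedExt (fixedFld q V) E)
    (φ : PadicAlgCl q ≃ₐ[ℚ_[q]] PadicAlgCl q) (hφ : IsFrobenius q V φ)
    (g : E ≃ₐ[fixedFld q V] E) : g ∈ Subgroup.zpowers (resHom q V E ⟨φ, hφ.1⟩) := by
  obtain ⟨-, φ', hφ', hgen⟩ := L.u784_unramifiedCyclic (fixedFld q V) E hunr
  suffices h : φ' = resHom q V E ⟨φ, hφ.1⟩ by
    rw [← h]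
    exact hgen g
  obtain ⟨A', B', hA', hB', hfr⟩ := hφ'
  have hAA' : A' = A := L.u784_ringOfIntegersUnique (fixedFld q V) A' A hA'
    ⟨inferInstance, inferInstance, inferInstance⟩
  haveI : L.IsLocalFld E := L.H715.isLocalFld_ext A E
  have hBB' : B' = intE544 A E :=
    L.u784_ringOfIntegersUnique E B' _ hB' (isLocalRingOfIntegers_intE544 A E)
  subst hAA'
  subst hBB'
  obtain ⟨hφV, f, hf, hfrob⟩ := id hφ
  have hcard := card_residue544 A' hAmem f hf
  have hg : ∀ x ∈ intE544 A' E,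
      (φ'⁻¹ * resHom q V E ⟨φ, hφ.1⟩) x - x ∈ (intE544 A' E).nonunits := by
    intro x hx
    rw [mem_nonunits_intE544 A' hAmem E]
    have hx1 := (mem_intE544 A' hAmem E x).1 hx
    have h1 : ‖((resHom q V E ⟨φ, hφ.1⟩ x - x ^ q ^ f : E) : PadicAlgCl q)‖ < 1 := by
      have e : ((resHom q V E ⟨φ, hφ.1⟩ x - x ^ q ^ f : E) : PadicAlgCl q) =
          φ (x : PadicAlgCl q) - (x : PadicAlgCl q) ^ q ^ f := by
        rw [AddSubgroupClass.coe_sub, SubmonoidClass.coe_pow, resHom_apply_coe]
      rw [e]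
      exact hfrob _ hx1
    have h2 : ‖((φ' x - x ^ q ^ f : E) : PadicAlgCl q)‖ < 1 := by
      have := hfr x hx
      rw [hcard, mem_nonunits_intE544 A' hAmem E] at this
      exact this
    have h3 : ‖((resHom q V E ⟨φ, hφ.1⟩ x - φ' x : E) : PadicAlgCl q)‖ < 1 := by
      have e : ((resHom q V E ⟨φ, hφ.1⟩ x - φ' x : E) : PadicAlgCl q) =
          ((resHom q V E ⟨φ, hφ.1⟩ x - x ^ q ^ f : E) : PadicAlgCl q) -
            ((φ' x - x ^ q ^ f : E) : PadicAlgCl q) := by
        simp only [AddSubgroupClass.coe_sub]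
        ring
      rw [e]
      exact norm_sub_lt_one544 q h1 h2
    have h4 : (φ'⁻¹ * resHom q V E ⟨φ, hφ.1⟩) x - x =
        φ'⁻¹ (resHom q V E ⟨φ, hφ.1⟩ x - φ' x) := by
      rw [map_sub, AlgEquiv.mul_apply]
      congr 1
      exact (φ'.symm_apply_apply x).symm
    rw [h4, norm_algEquiv544 q V hfix E φ'⁻¹]
    exact h3
  have h5 := L.UnrInv.unramifiedInertia775 (fixedFld q V) E hunr (intE544 A' E)
    (isLocalRingOfIntegers_intE544 A' E) _ hg
  exact inv_mul_eq_one.1 h5

end Dict

end Fermat.Agent.S55.G.Rec.Loc.H544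

end
end
-- ===== PACK-END S55/G/Rec/Loc/UnifH544/Local.lean

-- ===== PACK-BEGIN S55/L/UnrInv/BaseChange.lean
section


/-!
# S55, layer L, unramified invariants: base change

`K ⊆ K'`, `E ⊆ E'`, `K' ⊆ E'`, with `E/K` and `E'/K'` unramified Galois.  If the cocycle `c'` on
`Gal(E'/K')` is the base change of the cocycle `c` on `Gal(E/K)` then
`inv' [c'] = [K' : K] • inv [c]`.
-/

set_option autoImplicit false
set_option linter.style.haveILetI false

namespace Fermat.Agent.S55.L.UnrInv

open groupCohomology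

section BaseChange

variable {K K' E E' : Type} [Field K] [Field K'] [Field E] [Field E']
  [Algebra K K'] [Algebra K E] [Algebra K' E'] [Algebra E E'] [Algebra K E']
  [IsScalarTower K K' E'] [IsScalarTower K E E']

variable (K E) in
/-- The restriction homomorphism `Gal(E'/K') → Gal(E/K)`. -/
noncomputable def bcHom [Normal K E] : (E' ≃ₐ[K'] E') →* (E ≃ₐ[K] E) :=
  (AlgEquiv.restrictNormalHom E).comp
    (MonoidHom.mk' (fun τ : E' ≃ₐ[K'] E' => τ.restrictScalars K) (fun _ _ => rfl))

theorem bcHom_apply [Normal K E] (g : E' ≃ₐ[K'] E') :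
    bcHom K E g = AlgEquiv.restrictNormalHom E (g.restrictScalars K) := rfl

theorem algebraMap_bcHom [Normal K E] (g : E' ≃ₐ[K'] E') (x : E) :
    algebraMap E E' (bcHom K E g x) = g (algebraMap E E' x) :=
  AlgEquiv.restrictNormal_commutes (g.restrictScalars K) E x

variable [FiniteDimensional K K'] [FiniteDimensional K E] [FiniteDimensional K' E']
  [IsGalois K E] [IsGalois K' E'] [IsLocalFld K] [IsLocalFld K']

/-- The Frobenius of `E'/K'` restricts to the `f`-th power of the Frobenius of `E/K`, and the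
valuation of `E'` restricts to `e` times the valuation of `E`, with `e f = [K' : K]`. -/
theorem exists_ef (h1 : FiniteExtSpec) (hint : IntegersComapSpec) (hres : ResidueDegreeSpec)
    (P : UnrPack K E) (P' : UnrPack K' E') :
    ∃ e f : ℕ, e * f = Module.finrank K K' ∧ bcHom K E P'.φ = P.φ ^ f ∧
      ∀ y : E, y ≠ 0 → ordZ P'.B P'.hB.1 (algebraMap E E' y) = e * ordZ P.B P.hB.1 y := by
  haveI : IsLocalFld E := h1 K E
  haveI : FiniteDimensional K E' := FiniteDimensional.trans K K' E'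
  haveI : FiniteDimensional E E' := FiniteDimensional.right K E E'
  obtain ⟨π, hπ⟩ := exists_isUniformizer P.A P.hA.1
  obtain ⟨π', hπ'⟩ := exists_isUniformizer P'.A P'.hA.1
  obtain ⟨e, f, hef, ⟨u, hu, hu', hπu⟩, hq⟩ := hres K K' P.A P'.A π π' P.hA P'.hA hπ hπ'
  have hιB : ∀ x : E, algebraMap E E' x ∈ P'.B ↔ x ∈ P.B := hint E E' P.B P'.B P.hB P'.hB
  refine ⟨e, f, hef, ?_, ?_⟩
  · -- Frobenius
    apply P.eq_frob_pow
    intro x hx
    rw [← algebraMap_mem_nonunits_iff hint P.B P'.B P.hB P'.hB, map_sub, map_pow,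
      algebraMap_bcHom, ← hq]
    exact P'.frob _ ((hιB x).mpr hx)
  · -- valuations
    intro y hy
    have hπ0 : π ≠ 0 := uniformizer_ne_zero P.A hπ
    have hπ'0 : π' ≠ 0 := uniformizer_ne_zero P'.A hπ'
    have hu0 : u ≠ 0 := by
      rintro rfl
      rw [zero_mul] at hπu
      exact hπ0 ((map_eq_zero _).mp hπu)
    have h2 := ordZ_map' P.B P.hB.1 P'.B P'.hB.1 (algebraMap E E') (fun x hx => (hιB x).mpr hx)
      (P.ordπ π hπ) ((map_ne_zero _).mpr hπ0) hy
    rw [h2]
    congr 1
    have h3 : algebraMap E E' (algebraMap K E π) =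
        algebraMap K' E' u * (algebraMap K' E' π') ^ e := by
      rw [← IsScalarTower.algebraMap_apply K E E', IsScalarTower.algebraMap_apply K K' E', hπu,
        map_mul, map_pow]
    have h4 : ordZ P'.B P'.hB.1 (algebraMap K' E' u) = 0 := by
      rw [ordZ_eq_zero_iff P'.B P'.hB.1 ((map_ne_zero _).mpr hu0), ← map_inv₀]
      exact ⟨(P'.intAB u).mpr hu, (P'.intAB u⁻¹).mpr hu'⟩
    rw [h3, ordZ_mul P'.B P'.hB.1 ((map_ne_zero _).mpr hu0)
      (pow_ne_zero _ ((map_ne_zero _).mpr hπ'0)), h4, ordZ_pow, P'.ordπ π' hπ']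
    ring

theorem coe_eq_coe_of_sub_eq_intCast {x y : ℚ} (k : ℤ) (h : x - y = k) :
    (x : AddCircle (1 : ℚ)) = (y : AddCircle (1 : ℚ)) := by
  have hx : x = y + (k : ℚ) := by rw [← h]; ring
  rw [hx, AddCircle.coe_add]
  have : ((k : ℚ) : AddCircle (1 : ℚ)) = 0 := by
    rw [AddCircle.coe_eq_zero_iff]
    exact ⟨k, by simp⟩
  rw [this, add_zero]

/-- **Base change** for the invariant maps of unramified extensions. -/
theorem inv_baseChange (h1 : FiniteExtSpec) (hint : IntegersComapSpec) (hres : ResidueDegreeSpec)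
    (P : UnrPack K E) (P' : UnrPack K' E')
    (c : cocycles₂ (unitsRep K E)) (c' : cocycles₂ (unitsRep K' E'))
    (hbc : ∀ g h : E' ≃ₐ[K'] E', (c' : _ × _ → unitsRep K' E') (g, h) =
      Additive.ofMul (Units.map (algebraMap E E' : E →* E')
        (Additive.toMul (α := Eˣ)
          ((c : _ × _ → unitsRep K E) (bcHom K E g, bcHom K E h))))) :
    P'.inv (cls c') = Module.finrank K K' • P.inv (cls c) := by
  obtain ⟨e, f, hef, hφ, hord⟩ := exists_ef h1 hint hres P P'
  have hn : 0 < Module.finrank K E := Module.finrank_pos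
  have hn' : 0 < Module.finrank K' E' := Module.finrank_pos
  -- order
  have hpow : (P.φ ^ f) ^ Module.finrank K' E' = 1 := by
    rw [← hφ, ← map_pow, P'.frob_pow_finrank, map_one]
  obtain ⟨m, hm⟩ : ∃ m, f * Module.finrank K' E' = m * Module.finrank K E := by
    have : orderOf P.φ ∣ f * Module.finrank K' E' :=
      orderOf_dvd_of_pow_eq_one (by rw [pow_mul]; exact hpow)
    rw [P.orderOf_frob] at this
    obtain ⟨m, hm⟩ := this
    exact ⟨m, by rw [hm, mul_comm]⟩
  -- the sum
  have hw : P'.w (cycSum P'.φ (Module.finrank K' E') (c' : _ × _ → unitsRep K' E')) =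
      e * P.w (∑ i ∈ Finset.range (Module.finrank K' E'),
        (c : _ × _ → unitsRep K E) (P.φ ^ (f * i), P.φ ^ f)) := by
    unfold cycSum
    rw [map_sum, map_sum, Finset.mul_sum]
    apply Finset.sum_congr rfl
    intro i _
    rw [hbc, map_pow, hφ, ← pow_mul, P'.w_apply, P.w_apply]
    exact hord _ (Units.ne_zero _)
  rw [P'.inv_cls, P.inv_cls, hw,
    w_sum_pow_mul c P.φ (Module.finrank K E) f (Module.finrank K' E') m P.frob_pow_finrank hm
      P.w P.w_invariant, ← AddCircle.coe_nsmul, ← hef]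
  set W := P.w (cycSum P.φ (Module.finrank K E) (c : _ × _ → unitsRep K E)) with hW
  set Z := P.w ((c : _ × _ → unitsRep K E) (1, 1) -
    ∑ j ∈ Finset.range f, (c : _ × _ → unitsRep K E) (P.φ ^ j, P.φ)) with hZ
  apply coe_eq_coe_of_sub_eq_intCast ((e : ℤ) * Z)
  have hm' : (f : ℚ) * (Module.finrank K' E' : ℚ) = (m : ℚ) * (Module.finrank K E : ℚ) := by
    exact_mod_cast hm
  have hnq : (Module.finrank K E : ℚ) ≠ 0 := by exact_mod_cast hn.ne'
  have hnq' : (Module.finrank K' E' : ℚ) ≠ 0 := by exact_mod_cast hn'.ne'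
  push_cast
  rw [nsmul_eq_mul]
  push_cast
  field_simp
  linear_combination (-(e : ℚ) * (W : ℚ)) * hm'

end BaseChange

end Fermat.Agent.S55.L.UnrInv

end
-- ===== PACK-END S55/L/UnrInv/BaseChange.lean

-- ===== PACK-BEGIN S55/L/Inv481/Datum.lean
section



/-!
# S55 / layer L / leaf L-C2 (helper481): data computing the invariant

A *datum* for `(K, L)` is a finite Galois extension `M/K` receiving `L` and an unramified
extension `E/K`.  If `infl_L x = infl_E y` in `H²(M/K)` we want `inv x := inv_E y`.  This file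
proves existence of data computing every class (`exists_good`) and independence of the datum
(`unr_inv_eq`).
-/

set_option autoImplicit false
set_option linter.style.haveILetI false

namespace Fermat.Agent.S55.L.Inv481

open groupCohomology

section FieldRange

variable {K E M : Type} [Field K] [Field E] [Field M] [Algebra K E] [Algebra K M]

/-- the isomorphism of a field onto the range of an embedding, as an intermediate field -/
noncomputable def equivFieldRange (g : E →ₐ[K] M) : E ≃ₐ[K] g.fieldRange :=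
  AlgEquiv.ofBijective (algHomCodRestrict g g.fieldRange (fun x => ⟨x, rfl⟩))
    ⟨fun _ _ h => g.injective (congrArg Subtype.val h), fun ⟨_, x, hx⟩ => ⟨x, Subtype.ext hx⟩⟩

theorem isUnramifiedExt_fieldRange (g : E →ₐ[K] M) (hu : IsUnramifiedExt K E) :
    IsUnramifiedExt K g.fieldRange :=
  isUnramifiedExt_of_algEquiv (equivFieldRange g) hu

theorem finrank_fieldRange (g : E →ₐ[K] M) :
    Module.finrank K g.fieldRange = Module.finrank K E :=
  (equivFieldRange g).toLinearEquiv.finrank_eq.symm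

end FieldRange

section UnrEmb

variable (U : UnrInvFamily)

/-- the unramified invariants are compatible with embeddings of unramified extensions -/
theorem unr_inv_emb {K E₁ E₃ : Type} [Field K] [Field E₁] [Field E₃] [Algebra K E₁]
    [Algebra K E₃] [FiniteDimensional K E₁] [FiniteDimensional K E₃] [IsGalois K E₁]
    [IsGalois K E₃] [IsLocalFld K] (hu₁ : IsUnramifiedExt K E₁) (hu₃ : IsUnramifiedExt K E₃)
    (c : E₁ →ₐ[K] E₃) (y : H2 (unitsRep K E₁)) :
    U.inv K E₃ ((embPair c).pull y) = U.inv K E₁ y := by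
  letI : Algebra E₁ E₃ := c.toRingHom.toAlgebra
  haveI : IsScalarTower K E₁ E₃ :=
    IsScalarTower.of_algebraMap_eq (fun x => (c.commutes x).symm)
  obtain ⟨f, rfl⟩ := exists_cls_eq y
  have h := U.inv_baseChange K K E₁ E₃ hu₁ hu₃ f ((bcPair K K E₁ E₃).pullCocycle f)
    ((isBaseChange_iff_isPull _ _).mpr (GalPair.isPull_pullCocycle _ _))
  rw [Module.finrank_self, one_smul, ← GalPair.pull_cls] at h
  rw [← h]
  exact congrArg _ (GalPair.pull_eq_of_ι_eq rfl _)

end UnrEmb

section LemmaW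

variable (U : UnrInvFamily) (hEx : UnramifiedExistsSpec) (hCyc : UnramifiedCyclicSpec)
  (hNest : UnrNestSpec)

include hEx hCyc hNest in
/-- **Independence of the datum.** -/
theorem unr_inv_eq {K L : Type} [Field K] [Field L] [Algebra K L] [Normal K L] [IsLocalFld K]
    {M₁ E₁ M₂ E₂ : Type} [Field M₁] [Field E₁] [Field M₂] [Field E₂]
    [Algebra K M₁] [Algebra K E₁] [Algebra K M₂] [Algebra K E₂]
    [FiniteDimensional K M₁] [IsGalois K M₁] [FiniteDimensional K E₁] [IsGalois K E₁]
    [FiniteDimensional K M₂] [IsGalois K M₂] [FiniteDimensional K E₂] [IsGalois K E₂]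
    (hu₁ : IsUnramifiedExt K E₁) (hu₂ : IsUnramifiedExt K E₂)
    (a₁ : L →ₐ[K] M₁) (b₁ : E₁ →ₐ[K] M₁) (a₂ : L →ₐ[K] M₂) (b₂ : E₂ →ₐ[K] M₂)
    (x : H2 (unitsRep K L)) (y₁ : H2 (unitsRep K E₁)) (y₂ : H2 (unitsRep K E₂))
    (h₁ : (embPair b₁).pull y₁ = (embPair a₁).pull x)
    (h₂ : (embPair b₂).pull y₂ = (embPair a₂).pull x) :
    U.inv K E₁ y₁ = U.inv K E₂ y₂ := by
  haveI : CharZero K := IsLocalFld.charZero
  -- amalgamate `M₁`, `M₂` over `L`
  obtain ⟨M₃, fM₃, aM₃, fdM₃, gM₃, j₁, j₂, hj⟩ := exists_amalgam K L M₁ M₂ a₁ a₂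
  -- a big unramified extension
  have hm : 0 < Module.finrank K E₁ * Module.finrank K E₂ :=
    Nat.mul_pos Module.finrank_pos Module.finrank_pos
  obtain ⟨E₃, fE₃, aE₃, fdE₃, hu₃, hdeg₃⟩ := hEx K _ hm
  haveI gE₃ : IsGalois K E₃ := (hCyc K E₃ hu₃).1
  -- amalgamate `M₃`, `E₃` over `K`
  obtain ⟨M₄, fM₄, aM₄, fdM₄, gM₄, k₃, k, -⟩ :=
    exists_amalgam K K M₃ E₃ (Algebra.ofId K M₃) (Algebra.ofId K E₃)
  -- the images of `E₁`, `E₂` lie in the image of `E₃`
  have hle₁ : (k₃.comp (j₁.comp b₁)).fieldRange ≤ k.fieldRange := by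
    apply hNest K M₄ _ _ (isUnramifiedExt_fieldRange _ hu₁) (isUnramifiedExt_fieldRange _ hu₃)
    rw [finrank_fieldRange, finrank_fieldRange, hdeg₃]
    exact dvd_mul_right _ _
  have hle₂ : (k₃.comp (j₂.comp b₂)).fieldRange ≤ k.fieldRange := by
    apply hNest K M₄ _ _ (isUnramifiedExt_fieldRange _ hu₂) (isUnramifiedExt_fieldRange _ hu₃)
    rw [finrank_fieldRange, finrank_fieldRange, hdeg₃]
    exact dvd_mul_left _ _
  obtain ⟨c₁, hc₁⟩ := exists_factor k _ hle₁
  obtain ⟨c₂, hc₂⟩ := exists_factor k _ hle₂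
  rw [← unr_inv_emb U hu₁ hu₃ c₁ y₁, ← unr_inv_emb U hu₂ hu₃ c₂ y₂]
  congr 1
  apply embPair_pull_injective k
  have e₁ : (embPair k).pull ((embPair c₁).pull y₁) =
      (embPair (k₃.comp j₁)).pull ((embPair a₁).pull x) := by
    rw [← embPair_pull_comp, hc₁, ← AlgHom.comp_assoc, embPair_pull_comp b₁, h₁]
  have e₂ : (embPair k).pull ((embPair c₂).pull y₂) =
      (embPair (k₃.comp j₂)).pull ((embPair a₂).pull x) := by
    rw [← embPair_pull_comp, hc₂, ← AlgHom.comp_assoc, embPair_pull_comp b₂, h₂]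
  rw [e₁, e₂, ← embPair_pull_comp, ← embPair_pull_comp, AlgHom.comp_assoc, AlgHom.comp_assoc,
    hj]

end LemmaW

section DatumDef

/-- A datum for `(K, L)`: a finite Galois extension `M/K` receiving `L` and an unramified
extension `E/K` (finite, Galois). -/
structure Datum (K L : Type) [Field K] [Field L] [Algebra K L] where
  /-- the big Galois extension -/
  M : Type
  /-- the unramified extension -/
  E : Type
  [fieldM : Field M]
  [fieldE : Field E]
  [algM : Algebra K M]
  [algE : Algebra K E]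
  [fdM : FiniteDimensional K M]
  [galM : IsGalois K M]
  [fdE : FiniteDimensional K E]
  [galE : IsGalois K E]
  /-- `E/K` is unramified -/
  unr : IsUnramifiedExt K E
  /-- the embedding of `L` -/
  jL : L →ₐ[K] M
  /-- the embedding of `E` -/
  jE : E →ₐ[K] M

attribute [instance] Datum.fieldM Datum.fieldE Datum.algM Datum.algE Datum.fdM Datum.galM
  Datum.fdE Datum.galE

variable {K L : Type} [Field K] [Field L] [Algebra K L] [Normal K L]

/-- A datum is good if every class of `H²(L/K)` becomes unramified (comes from `E`) in `M`. -/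
def Datum.Good (D : Datum K L) : Prop :=
  (embPair D.jL).pull.range ≤ (embPair D.jE).pull.range

/-- the comparison map `H²(L/K) → H²(E/K)` of a good datum -/
noncomputable def Datum.phi (D : Datum K L) (hD : D.Good) :
    H2 (unitsRep K L) →+ H2 (unitsRep K D.E) :=
  (AddMonoidHom.ofInjective (embPair_pull_injective D.jE)).symm.toAddMonoidHom.comp
    ((embPair D.jL).pull.codRestrict (embPair D.jE).pull.range (fun x => hD ⟨x, rfl⟩))

theorem Datum.phi_spec (D : Datum K L) (hD : D.Good) (x : H2 (unitsRep K L)) :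
    (embPair D.jE).pull (D.phi hD x) = (embPair D.jL).pull x :=
  AddMonoidHom.apply_ofInjective_symm (embPair_pull_injective D.jE) _

theorem Datum.phi_injective (D : Datum K L) (hD : D.Good) : Function.Injective (D.phi hD) := by
  intro x x' h
  apply embPair_pull_injective D.jL
  rw [← D.phi_spec hD x, ← D.phi_spec hD x', h]

end DatumDef

section Exists

variable (hEx : UnramifiedExistsSpec) (hCyc : UnramifiedCyclicSpec) (hH2 : H2CyclicSpec)

include hEx hCyc hH2 in
/-- **Every class becomes unramified**: good data exist. -/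
theorem exists_good (K L : Type) [Field K] [Field L] [Algebra K L] [FiniteDimensional K L]
    [IsGalois K L] [IsLocalFld K] : ∃ D : Datum K L, D.Good := by
  haveI : CharZero K := IsLocalFld.charZero
  have hn : 0 < Module.finrank K L := Module.finrank_pos
  obtain ⟨E, fE, aE, fdE, hu, hdeg⟩ := hEx K _ hn
  haveI gE : IsGalois K E := (hCyc K E hu).1
  obtain ⟨M, fM, aM, fdM, gM, jL, jE, -⟩ :=
    exists_amalgam K K L E (Algebra.ofId K L) (Algebra.ofId K E)
  refine ⟨{ M := M, E := E, unr := hu, jL := jL, jE := jE }, ?_⟩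
  obtain ⟨eM⟩ := hH2 K M
  obtain ⟨eL⟩ := hH2 K L
  obtain ⟨eE⟩ := hH2 K E
  rw [hdeg] at eE
  haveI : NeZero (Module.finrank K M) := ⟨(Module.finrank_pos (R := K) (M := M)).ne'⟩
  exact (range_eq_range_of_cyclic (Module.finrank K L) (Module.finrank K M) hn eM eL eE
    (embPair jL).pull (embPair_pull_injective jL) (embPair jE).pull
    (embPair_pull_injective jE)).le

end Exists

end Fermat.Agent.S55.L.Inv481

end
-- ===== PACK-END S55/L/Inv481/Datum.lean

-- ===== PACK-BEGIN S56/H914/BRFlat.lean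
section


/-!
# Row S56 — W-FLAT-SS, piece FL-BR (helper914), part 2: unpacking `IsFlatAt` at level `I = ⊥`

For a Galois representation `ρ'` over a FINITE local ring `A` (e.g. the dual numbers `k[ε]`, `k`
finite), the Prelude's `IsFlatAt p` gives at level `I = ⊥` a finite flat cocommutative Hopf algebra
`H` over `ℤ_(p)` whose group of `ℚ̄`-points is `ρ'.V` itself:

* `galAct p σ f` : the Galois action `f ↦ σ ∘ f` on points `H →ₐ[ℤ_(p)] ℚ̄`.
* `exists_pointModel_of_isFlatAt` : `∃ H, … ∃ e : WithConv (H →ₐ ℚ̄) ≃ ρ'.V`, additive, equivariant.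
* `PointModel` API: `e 1 = 0`, `e (f ^ n) = n • e f`, points killed by `p` when `p • V = 0`,
  `σ` fixes all points `↔ ρ'(σ) = 1`.
* `fixes_points_iff_of_isLiftOf` : for a lift `ρ'` of an ad⁰-cocycle `c` (layer-1 `IsLiftOf`):
  `σ` fixes all points of `H`  `↔  ρ̄(σ) = 1 ∧ c(σ) = 0`.
-/

set_option autoImplicit false

open Polynomial IsLocalRing
open scoped TensorProduct

noncomputable section

namespace Fermat.Agent.S56.H914

open Fermat.Agent.S56 Fermat.Agent.S56.H716

/-- `ℤ_(p)` as in the Prelude. -/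
abbrev Zp (p : ℕ) : Type := GaloisRep.ratLocalizedAt p

section Points

variable (p : ℕ) {H : Type} [CommRing H] [HopfAlgebra (Zp p) H]

/-- `σ ∈ G_ℚ` as a `ℤ_(p)`-algebra endomorphism of `ℚ̄`. -/
def galHom (σ : GQ) : Qb →ₐ[Zp p] Qb :=
  (σ : Qb →ₐ[ℚ] Qb).restrictScalars (Zp p)

@[simp] lemma galHom_apply (σ : GQ) (x : Qb) : galHom p σ x = σ x := rfl

/-- The Galois action on the points of `H`. -/
def galAct (σ : GQ) (f : WithConv (H →ₐ[Zp p] Qb)) : WithConv (H →ₐ[Zp p] Qb) :=
  WithConv.toConv ((galHom p σ).comp f.ofConv)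

@[simp] lemma galAct_apply (σ : GQ) (f : WithConv (H →ₐ[Zp p] Qb)) (h : H) :
    (galAct p σ f).ofConv h = σ (f.ofConv h) := rfl

lemma galAct_mul (σ : GQ) (f g : WithConv (H →ₐ[Zp p] Qb)) :
    galAct p σ (f * g) = galAct p σ f * galAct p σ g := by
  apply WithConv.ofConv_injective
  exact AlgHom.comp_convMul_distrib (galHom p σ) f g

lemma galAct_one_left (f : WithConv (H →ₐ[Zp p] Qb)) : galAct p 1 f = f := by
  apply WithConv.ofConv_injective
  ext h
  rfl

lemma galAct_galAct (σ τ : GQ) (f : WithConv (H →ₐ[Zp p] Qb)) :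
    galAct p σ (galAct p τ f) = galAct p (σ * τ) f := by
  apply WithConv.ofConv_injective
  ext h
  rfl

end Points

/-- The points of `H` form a model of the Galois module `V` (`= ρ'.V`): an additive, equivariant
bijection from the convolution monoid of `ℚ̄`-points of `H` onto `V`. -/
structure PointModel (p : ℕ) (H : Type) [CommRing H] [HopfAlgebra (Zp p) H]
    {A : Type} [CommRing A] {V : Type} [AddCommGroup V] [Module A V]
    (ρ : GQ →* Module.End A V) where
  e : WithConv (H →ₐ[Zp p] Qb) ≃ V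
  map_mul : ∀ f g, e (f * g) = e f + e g
  map_gal : ∀ σ f, e (galAct p σ f) = ρ σ (e f)

namespace PointModel

variable {p : ℕ} {H : Type} [CommRing H] [HopfAlgebra (Zp p) H]
  {A : Type} [CommRing A] {V : Type} [AddCommGroup V] [Module A V]
  {ρ : GQ →* Module.End A V}

lemma map_one (M : PointModel p H ρ) : M.e 1 = 0 := by
  have h := M.map_mul 1 1
  rw [mul_one] at h
  exact left_eq_add.mp h

lemma map_pow (M : PointModel p H ρ) (f : WithConv (H →ₐ[Zp p] Qb)) (n : ℕ) :
    M.e (f ^ n) = n • M.e f := by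
  induction n with
  | zero => rw [pow_zero, zero_smul, M.map_one]
  | succ n ih => rw [pow_succ, M.map_mul, ih, succ_nsmul]

/-- If `V` is killed by `n`, so is the group of points. -/
lemma pow_eq_one (M : PointModel p H ρ) {n : ℕ} (hn : ∀ v : V, n • v = 0)
    (f : WithConv (H →ₐ[Zp p] Qb)) : f ^ n = 1 := by
  apply M.e.injective
  rw [M.map_pow, hn, M.map_one]

/-- `σ` fixes all the points of `H` iff it acts trivially on `V`. -/
theorem fixes_iff (M : PointModel p H ρ) (σ : GQ) :
    (∀ (f : H →ₐ[Zp p] Qb) (h : H), σ (f h) = f h) ↔ ρ σ = 1 := by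
  constructor
  · intro hfix
    refine LinearMap.ext fun v => ?_
    obtain ⟨f, rfl⟩ := M.e.surjective v
    rw [← M.map_gal, Module.End.one_apply]
    congr 1
    apply WithConv.ofConv_injective
    ext h
    exact hfix f.ofConv h
  · intro hσ f h
    have h1 := M.map_gal σ (WithConv.toConv f)
    rw [hσ, Module.End.one_apply] at h1
    have h2 := M.e.injective h1
    have h3 := congrArg (fun g => g.ofConv h) h2
    exact h3

theorem finite_points (M : PointModel p H ρ) [Finite V] : Finite (H →ₐ[Zp p] Qb) := by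
  have : Finite (WithConv (H →ₐ[Zp p] Qb)) := Finite.of_equiv V M.e.symm
  exact Finite.of_equiv _ (WithConv.equiv _)

end PointModel

section Flat

variable {A : Type} [CommRing A] [IsLocalRing A]

/-- **Unpacking `IsFlatAt` at level `I = ⊥`** (finite coefficient ring). -/
theorem exists_pointModel_of_isFlatAt [Finite A] (ρ' : GaloisRepAdic A) (p : ℕ)
    (hflat : ρ'.IsFlatAt p) :
    ∃ (H : Type) (_ : CommRing H) (_ : HopfAlgebra (Zp p) H),
      Module.Finite (Zp p) H ∧ Module.Flat (Zp p) H ∧ Coalgebra.IsCocomm (Zp p) H ∧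
        Nonempty (PointModel p H ρ'.ρ) := by
  have hfin : Finite (A ⧸ (⊥ : Ideal A)) :=
    Finite.of_surjective (Ideal.Quotient.mk (⊥ : Ideal A)) Ideal.Quotient.mk_surjective
  obtain ⟨H, i1, i2, hfinH, hflatH, hco, e, he1, he2⟩ := hflat.2 ⊥ hfin
  refine ⟨H, i1, i2, hfinH, hflatH, hco, ⟨?_⟩⟩
  have hbot : (⊥ : Ideal A) • (⊤ : Submodule A ρ'.V) = ⊥ := Submodule.bot_smul _
  let q : (ρ'.V ⧸ ((⊥ : Ideal A) • (⊤ : Submodule A ρ'.V))) ≃ₗ[A] ρ'.V :=
    Submodule.quotEquivOfEqBot _ hbot
  have hq : ∀ (σ : GQ) (x : ρ'.V ⧸ ((⊥ : Ideal A) • (⊤ : Submodule A ρ'.V))),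
      q (ρ'.levelAction ⊥ σ x) = ρ'.ρ σ (q x) := by
    intro σ x
    obtain ⟨v, rfl⟩ := Submodule.mkQ_surjective _ x
    rfl
  refine
    { e := e.trans q.toEquiv
      map_mul := fun f g => ?_
      map_gal := fun σ f => ?_ }
  · show q (e (f * g)) = q (e f) + q (e g)
    rw [he1, map_add]
  · show q (e (galAct p σ f)) = ρ'.ρ σ (q (e f))
    rw [he2 σ f (galAct p σ f) (fun h => rfl), hq]

end Flat

section LiftFlat

variable {k : Type} [Field k] (ρbar : ResidualGaloisRep k)

/-- For a lift `ρ'` of the ad⁰-cocycle `c` with a point model `H`: `σ` fixes all points of `H`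
iff `ρ̄(σ) = 1` and `c(σ) = 0`. -/
theorem fixes_points_iff_of_isLiftOf {c : GQ → Module.End k ρbar.V}
    {ρ' : GaloisRepAdic (DualNumber k)} (hl : IsLiftOf ρbar c ρ')
    {p : ℕ} {H : Type} [CommRing H] [HopfAlgebra (Zp p) H] (M : PointModel p H ρ'.ρ) (σ : GQ) :
    (∀ (f : H →ₐ[Zp p] Qb) (h : H), σ (f h) = f h) ↔ ρbar.ρ σ = 1 ∧ c σ = 0 := by
  rw [M.fixes_iff, rho_eq_one_iff_of_isLiftOf ρbar hl]

/-- The points of a flat lift to the dual numbers over a field of characteristic `p` are killed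
by `p`. -/
theorem points_pow_eq_one {ρ' : GaloisRepAdic (DualNumber k)}
    {p : ℕ} [CharP k p] {H : Type} [CommRing H] [HopfAlgebra (Zp p) H]
    (M : PointModel p H ρ'.ρ) (f : WithConv (H →ₐ[Zp p] Qb)) : f ^ p = 1 := by
  refine M.pow_eq_one (fun v => ?_) f
  have h1 : ((p : ℕ) : DualNumber k) = 0 := by
    have : ((p : ℕ) : DualNumber k) = algebraMap k (DualNumber k) ((p : ℕ) : k) := by
      rw [map_natCast]
    rw [this, CharP.cast_eq_zero, map_zero]
  rw [← Nat.cast_smul_eq_nsmul (DualNumber k), h1, zero_smul]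

end LiftFlat

end Fermat.Agent.S56.H914

end

end
-- ===== PACK-END S56/H914/BRFlat.lean

-- ===== PACK-BEGIN S59/H659/StrictOrd.lean
section


/-!
# S59, piece G3 (helper659): the strictly ordinary condition

`isCoreCond_isStrictOrdinaryAt p` : for an odd prime `p`, being strictly ordinary at `p`
(Prelude: `GaloisRepAdic.IsStrictOrdinaryAt`) is a deformation condition.
-/

set_option autoImplicit false
set_option linter.unusedSectionVars false
set_option linter.style.haveILetI false

namespace Fermat.Agent.S59.H659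

open Fermat.Agent.S53 Fermat.Agent.S56.H966 IsLocalRing Polynomial

/-- Being strictly ordinary at an odd prime `p` is a deformation condition. -/
theorem isCoreCond_isStrictOrdinaryAt (p : ℕ) (hp : p.Prime) (hp2 : p ≠ 2) :
    IsCoreCond (fun _A _ _ ρ => ρ.IsStrictOrdinaryAt p) where
  of_isEquiv := fun _ _ _ _ _ he h => isStrictOrdinaryAt_of_isEquiv he h
  baseChangeAlong := fun _ _ _ _ _ _ φ hφ _ h => isStrictOrdinaryAt_baseChangeAlong φ hφ h
  of_fibre := by
    intro P A B _ _ _ _ _ _ _ _ _ pA pB hpA hpB hinj r hr hA hB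
    rw [isStrictOrdinaryAt_toAdic_iff] at hA hB ⊢
    refine ⟨natCast_mem_maximalIdeal_of_map pA hA.1, fun 𝔓 h𝔓 => ?_⟩
    exact exists_isSOStd_of_fibre hp hp2 h𝔓 pA pB hpA hinj hA.1 hB.1 r (hA.2 𝔓 h𝔓) (hB.2 𝔓 h𝔓)
  of_quotients := by
    intro A _ _ _ _ r hr h
    rw [isStrictOrdinaryAt_toAdic_iff]
    have hloc : ∀ n : ℕ, n ≠ 0 → IsLocalRing (A ⧸ maximalIdeal A ^ n) := fun n hn =>
      isLocalRing_quotient _ (maximalIdeal_pow_ne_top n hn)
    have hq : ∀ n : ℕ, n ≠ 0 → IsLocalHom (Ideal.Quotient.mk (maximalIdeal A ^ n)) :=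
      fun n hn =>
        haveI := hloc n hn
        IsLocalHom.of_surjective _ Ideal.Quotient.mk_surjective
    have key : ∀ n : ℕ, ∀ hn : n ≠ 0,
        ((p : A ⧸ maximalIdeal A ^ n) ∈ @maximalIdeal (A ⧸ maximalIdeal A ^ n) _ (hloc n hn)) ∧
        ∀ 𝔓 : ValuationSubring (AlgebraicClosure ℚ), 𝔓.LiesOverPrime p →
          ∃ U : (M2 (A ⧸ maximalIdeal A ^ n))ˣ,
            IsSOStd 𝔓 p (cj U (mapRep (Ideal.Quotient.mk (maximalIdeal A ^ n)) r)) := by
      intro n hn
      have h1 := h n hn (hloc n hn) (hq n hn)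
      rwa [@isStrictOrdinaryAt_toAdic_iff _ _ (hloc n hn)] at h1
    refine ⟨?_, fun 𝔓 h𝔓 => ?_⟩
    · exact @natCast_mem_maximalIdeal_of_map _ _ _ _ _ (hloc 1 one_ne_zero)
        (Ideal.Quotient.mk (maximalIdeal A ^ 1)) p (key 1 one_ne_zero).1
    · exact exists_isSOStd_of_quotients hp hp2 h𝔓 r (hloc 1 one_ne_zero) (key 1 one_ne_zero).1
        fun n hn => (key n hn).2 𝔓 h𝔓

end Fermat.Agent.S59.H659

end
-- ===== PACK-END S59/H659/StrictOrd.lean

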