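import Fermat.Agent.Pack.S43GC.G0E16L3
import Fermat.Agent.Pack.S43GC.G0E17L3
import Fermat.Agent.Pack.S43GC.G0E3L0
import Fermat.Agent.Pack.S43GC.G0E5L0
import Fermat.Agent.Pack.S43GC.G0E17L1
import Fermat.Agent.Pack.S43GC.G0E7L2
import Fermat.Agent.Pack.S43GC.G0E17L0
import Fermat.Agent.Pack.S43GC.G0E1L2
import Fermat.Agent.Pack.S43GC.G0E8L3
import Fermat.Agent.Pack.S44C.G0E0L2
import Fermat.Agent.Pack.S43GC.G0E8L0
import Fermat.Agent.Pack.S43GC.G0E17L2
import Fermat.Agent.Pack.S43GC.G0E11L3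
import Fermat.Agent.Pack.S43GC.G0E6L2
import Fermat.Agent.Pack.S43GC.G0E10L0
import Fermat.Agent.Pack.S43GC.G0E12L3
import Fermat.Agent.Pack.S43GC.G0E1L3
import Fermat.Agent.Pack.S43GC.G0E11L1
import Fermat.Agent.Pack.S43GC.G0E1L0
import Fermat.Agent.Pack.S43GC.G0E16L2
import Fermat.Agent.Pack.Fast891

-- ===== PACK-BEGIN S55/PT/Assembly.lean
section


/-!
# S55 / layer D: the generic assembly (helper835)

`sha2_equiv_dual_sha1_generic`: for a short exact sequence `0 → R → P → M → 0` of uniformly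
smooth modules over a group with levels and finitely many local groups, such that

* `H²(P) → H²(M)` is surjective,
* `H¹(M′) → H¹(P′)` is zero (E2),
* `Ш²(P) → Ш²(M)` is zero (CAP),
* `Θ(R)` is bijective, `Θ(P)` injective (global top maps),
* `θ_v(R|_v)` is surjective, `θ_v(P|_v)` injective (local top maps),
* `H¹(M′)` is finite-dimensional,

we have `Ш²(M) ≃ Dual (Ш¹(M′))`.  The framework leaves are hypotheses (Spec pattern).
-/

set_option autoImplicit false

noncomputable section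

namespace Fermat.Agent.S55.PT

open groupCohomology Module Fermat.Agent.S55.H244

variable {k : Type} [Field k] {G : Type} [Group G]
variable {ι : Type} [Fintype ι] [DecidableEq ι] {Gv : ι → Type} [∀ v, Group (Gv v)]
variable {L : LevelSys G} {Lv : ∀ v, LevelSys (Gv v)} {r : ∀ v, Gv v →* G}

section Transport

variable (χ : G →* kˣ) (N : Rep.{0, 0, 0} k G)

/-- `charHom χ N ≃ H⁰(N.dualTwist χ)` (identity on functionals) -/
def eH0 : ↥(charHom χ N) ≃ₗ[k] ↥(LevelSys.H0 (N.dualTwist χ)) :=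
  LinearEquiv.ofEq (charHom χ N)
    (LevelSys.H0 (N.dualTwist χ) : Submodule k (Module.Dual k N)) (H0_dualTwist_eq χ N).symm

@[simp] lemma coe_eH0 (f : ↥(charHom χ N)) :
    ((eH0 χ N f : ↥(LevelSys.H0 (N.dualTwist χ))) : Module.Dual k N) = f := rfl

@[simp] lemma coe_eH0_symm (f : ↥(LevelSys.H0 (N.dualTwist χ))) :
    (((eH0 χ N).symm f : ↥(charHom χ N)) : Module.Dual k N) = f := rfl

variable {G' : Type} [Group G'] (s : G' →* G)

/-- `charHom (χ ∘ s) (N|_{G'}) ≃ H⁰(G', (N.dualTwist χ)|_{G'})` (identity on functionals) -/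
def eH0res : ↥(charHom (χ.comp s) (Rep.res s N)) ≃ₗ[k]
    ↥(LevelSys.H0 (Rep.res s (N.dualTwist χ))) :=
  LinearEquiv.ofEq (charHom (χ.comp s) (Rep.res s N))
    (LevelSys.H0 (Rep.res s (N.dualTwist χ)) : Submodule k (Module.Dual k N))
    (H0_res_dualTwist_eq χ N s).symm

@[simp] lemma coe_eH0res (f : ↥(charHom (χ.comp s) (Rep.res s N))) :
    ((eH0res χ N s f : ↥(LevelSys.H0 (Rep.res s (N.dualTwist χ)))) : Module.Dual k N) = f := rfl

@[simp] lemma coe_eH0res_symm (f : ↥(LevelSys.H0 (Rep.res s (N.dualTwist χ)))) :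
    (((eH0res χ N s).symm f : ↥(charHom (χ.comp s) (Rep.res s N))) : Module.Dual k N) = f := rfl

end Transport

section DualLes

variable (χ : G →* kˣ) {R P M : Rep.{0, 0, 0} k G} (E : SES R P M)

/-- the connecting map of the dual sequence, on `charHom χ R` -/
def delC (L : LevelSys G) (hP' : L.IsUSmooth (P.dualTwist χ)) :
    ↥(charHom χ R) →ₗ[k] L.H1 (M.dualTwist χ) :=
  (E.dual χ).del0 L hP' ∘ₗ (eH0 χ R).toLinearMap

lemma delC_surjective (hLes0 : Les0Spec) (L : LevelSys G) (hP' : L.IsUSmooth (P.dualTwist χ))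
    (heff : ∀ x : L.H1 (M.dualTwist χ), pushH1 (E.dual χ).i (E.dual χ).hi L x = 0) :
    Function.Surjective (delC χ E L hP') := by
  have h := (hLes0 k G L _ _ _ (E.dual χ) hP').2
  intro x
  have hx : x ∈ LinearMap.range ((E.dual χ).del0 L hP') := by
    rw [h, LinearMap.mem_ker]
    exact heff x
  obtain ⟨f, rfl⟩ := hx
  exact ⟨(eH0 χ R).symm f, by simp [delC]⟩

lemma ker_delC (hLes0 : Les0Spec) (L : LevelSys G) (hP' : L.IsUSmooth (P.dualTwist χ)) :
    LinearMap.ker (delC χ E L hP') = LinearMap.range (charHomComap χ E.i E.hi) := by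
  have h := (hLes0 k G L _ _ _ (E.dual χ) hP').1
  ext f
  constructor
  · intro hf
    have hf' : eH0 χ R f ∈ LinearMap.ker ((E.dual χ).del0 L hP') := hf
    rw [h] at hf'
    obtain ⟨g, hg⟩ := hf'
    refine ⟨(eH0 χ P).symm g, ?_⟩
    apply Subtype.ext
    have := congrArg (fun y : ↥(LevelSys.H0 (R.dualTwist χ)) => (y : Module.Dual k R)) hg
    exact this
  · rintro ⟨g, rfl⟩
    show eH0 χ R (charHomComap χ E.i E.hi g) ∈ LinearMap.ker ((E.dual χ).del0 L hP')
    rw [h]
    exact ⟨eH0 χ P g, rfl⟩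

end DualLes

section LocalData

variable (χ : G →* kˣ) {R P M : Rep.{0, 0, 0} k G} (E : SES R P M)
variable {G' : Type} [Group G'] (s : G' →* G) (L' : LevelSys G')
variable (inv' : L'.H2 (ofChar (χ.comp s)) →ₗ[k] k)

/-- the local connecting map of the restricted dual sequence, on `charHom (χ ∘ s) (R|_{G'})` -/
def delCres (hP's : L'.IsUSmooth (Rep.res s (P.dualTwist χ))) :
    ↥(charHom (χ.comp s) (Rep.res s R)) →ₗ[k] L'.H1 (Rep.res s (M.dualTwist χ)) :=
  ((E.dual χ).res s).del0 L' hP's ∘ₗ (eH0res χ R s).toLinearMap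

lemma ker_delCres (hLes0 : Les0Spec) (hP's : L'.IsUSmooth (Rep.res s (P.dualTwist χ))) :
    LinearMap.ker (delCres χ E s L' hP's) =
      LinearMap.range (charHomComap (χ.comp s) (A := Rep.res s R) (B := Rep.res s P) E.i
        (E.hi.res s)) := by
  have h := (hLes0 k G' L' _ _ _ ((E.dual χ).res s) hP's).1
  ext f
  constructor
  · intro hf
    have hf' : eH0res χ R s f ∈ LinearMap.ker (((E.dual χ).res s).del0 L' hP's) := hf
    rw [h] at hf'
    obtain ⟨g, hg⟩ := hf'
    refine ⟨(eH0res χ P s).symm g, ?_⟩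
    apply Subtype.ext
    have := congrArg
      (fun y : ↥(LevelSys.H0 (Rep.res s (R.dualTwist χ))) => (y : Module.Dual k R)) hg
    exact this
  · rintro ⟨g, rfl⟩
    show eH0res χ R s (charHomComap (χ.comp s) (A := Rep.res s R) (B := Rep.res s P) E.i
      (E.hi.res s) g) ∈ LinearMap.ker (((E.dual χ).res s).del0 L' hP's)
    rw [h]
    exact ⟨eH0res χ P s g, rfl⟩

/-- the top-degree local data of helper244's engine -/
def localTop (hLes0 : Les0Spec) (hLes1 : Les1Spec) (hN' : L'.NormalCofinal)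
    (hPs : L'.IsUSmooth (Rep.res s P)) (hMs : L'.IsUSmooth (Rep.res s M))
    (hP's : L'.IsUSmooth (Rep.res s (P.dualTwist χ)))
    (hsurjR : Function.Surjective (topPair L' (χ.comp s) inv' (Rep.res s R)))
    (hinjP : Function.Injective (topPair L' (χ.comp s) inv' (Rep.res s P))) :
    LocalTop k (L'.H1 (Rep.res s M)) (L'.H2 (Rep.res s R)) (L'.H2 (Rep.res s P))
      ↥(charHom (χ.comp s) (Rep.res s R)) ↥(charHom (χ.comp s) (Rep.res s P))
      (L'.H1 (Rep.res s (M.dualTwist χ))) where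
  dv := (E.res s).del1 L' hN' hPs hMs
  tv := pushH2 (A := Rep.res s R) (B := Rep.res s P) E.i (E.hi.res s) L'
  r0 := charHomComap (χ.comp s) (A := Rep.res s R) (B := Rep.res s P) E.i (E.hi.res s)
  del := delCres χ E s L' hP's
  ThR := topPair L' (χ.comp s) inv' (Rep.res s R)
  ThP := topPair L' (χ.comp s) inv' (Rep.res s P)
  dv_range := (hLes1 k G' L' _ _ _ (E.res s) hN' hPs hMs).2
  del_ker := ker_delCres χ E s L' hLes0 hP's
  ThR_surj := hsurjR
  ThP_inj := hinjP
  nat := fun z g => topPair_pushH2 (χ.comp s) (A := Rep.res s R) (B := Rep.res s P) E.i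
    (E.hi.res s) L' inv' g z

end LocalData

section Main

variable (hr : ∀ v, IsLevelCompatible (r v) L (Lv v))
variable (χ : G →* kˣ) (inv : ∀ v, (Lv v).H2 (ofChar (χ.comp (r v))) →ₗ[k] k)

/-- **Generic assembly of the duality engine.** -/
theorem sha2_equiv_dual_sha1_generic
    (hLes0 : Les0Spec) (hLes1 : Les1Spec) (hCone : ConeSpec) (hConeLes : ConeLesSpec)
    (hDel0Res : Del0ResSpec) (hEngine : EngineSpec)
    (hN : L.NormalCofinal) (hNv : ∀ v, (Lv v).NormalCofinal)
    (hrec : IsRecip hr χ inv)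
    {R P M : Rep.{0, 0, 0} k G} (E : SES R P M)
    (hR : L.IsUSmooth R) (hP : L.IsUSmooth P) (hM : L.IsUSmooth M)
    (hP' : L.IsUSmooth (P.dualTwist χ))
    (hfin : FiniteDimensional k (L.H1 (M.dualTwist χ)))
    (hsurj : Function.Surjective (pushH2 E.π E.hπ L))
    (heff : ∀ x : L.H1 (M.dualTwist χ), pushH1 (E.dual χ).i (E.dual χ).hi L x = 0)
    (hcap : ∀ x ∈ Sha2 hr P, pushH2 E.π E.hπ L x = 0)
    (hTopR : Function.Bijective (topT3 hr R hrec))
    (hTopP : Function.Injective (topT3 hr P hrec))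
    (hTopRv : ∀ v, Function.Surjective
      (topPair (Lv v) (χ.comp (r v)) (inv v) (Rep.res (r v) R)))
    (hTopPv : ∀ v, Function.Injective
      (topPair (Lv v) (χ.comp (r v)) (inv v) (Rep.res (r v) P))) :
    Nonempty (↥(Sha2 hr M) ≃ₗ[k] Module.Dual k ↥(Sha1 hr (M.dualTwist χ))) := by
  classical
  haveI := hfin
  -- cone sequences
  obtain ⟨hju, hu2⟩ := hCone k G ι Gv L Lv r hr hN M hM
  obtain ⟨-, hu2P⟩ := hCone k G ι Gv L Lv r hr hN P hP
  -- cone connecting map
  obtain ⟨dT, hdTker, hdTrange, hdTj⟩ :=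
    hConeLes k G ι Gv L Lv r hr hN hNv R P M E hR hP hM hsurj
  -- local data
  let D : ∀ v, LocalTop k ((Lv v).H1 (Rep.res (r v) M)) ((Lv v).H2 (Rep.res (r v) R))
      ((Lv v).H2 (Rep.res (r v) P)) ↥(charHom (χ.comp (r v)) (Rep.res (r v) R))
      ↥(charHom (χ.comp (r v)) (Rep.res (r v) P)) ((Lv v).H1 (Rep.res (r v) (M.dualTwist χ))) :=
    fun v => localTop χ E (r v) (Lv v) (inv v) hLes0 hLes1 (hNv v) (hP.res (hr v))
      (hM.res (hr v)) (hP'.res (hr v)) (hTopRv v) (hTopPv v)
  refine hEngine k ι (Hc2 L Lv r M) (L.H2 M) ((v : ι) → (Lv v).H2 (Rep.res (r v) M))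
    (L.H1 (M.dualTwist χ)) (T3 hr R) (T3 hr P) ↥(charHom χ R) ↥(charHom χ P)
    (fun v => (Lv v).H1 (Rep.res (r v) M)) (fun v => (Lv v).H2 (Rep.res (r v) R))
    (fun v => (Lv v).H2 (Rep.res (r v) P))
    (fun v => ↥(charHom (χ.comp (r v)) (Rep.res (r v) R)))
    (fun v => ↥(charHom (χ.comp (r v)) (Rep.res (r v) P)))
    (fun v => (Lv v).H1 (Rep.res (r v) (M.dualTwist χ)))
    (jH (L := L) (Lv := Lv) (r := r) M) (uH (L := L) (Lv := Lv) (r := r) M) (loc2 hr M)
    (loc1 hr (M.dualTwist χ)) hju hu2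
    dT (pushT3 hr E.i E.hi) hdTrange
    (charHomComap χ E.i E.hi) (delC χ E L hP')
    (delC_surjective χ E hLes0 L hP' heff) (ker_delC χ E hLes0 L hP')
    (topT3 hr R hrec) (topT3 hr P hrec) hTopR hTopP
    (fun t g => topT3_pushT3 hr E.i E.hi χ inv hrec g t)
    ?_ D (fun v => charHomRes χ R (r v)) ?_ (-1) (by simp) ?_
  · -- CAP
    intro x hx
    have hx' : x ∈ LinearMap.range (pushHc2 (L := L) (Lv := Lv) (r := r) E.π E.hπ) := by
      rw [← hdTker]; exact hx
    obtain ⟨y, rfl⟩ := hx'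
    rw [uH_pushHc2]
    apply hcap
    show uH P y ∈ LinearMap.ker (loc2 hr P)
    rw [← hu2P]
    exact ⟨y, rfl⟩
  · -- local/global compatibility of δ⁰
    intro v f
    show ((E.dual χ).res (r v)).del0 (Lv v) (hP'.res (hr v)) (eH0res χ R (r v)
        (charHomRes χ R (r v) f)) =
      resH1 (hr v) (M.dualTwist χ) ((E.dual χ).del0 L hP' (eH0 χ R f))
    rw [hDel0Res k G (Gv v) L (Lv v) (r v) (hr v) _ _ _ (E.dual χ) hP' (eH0 χ R f)]
    rfl
  · -- the formula
    intro b f
    rw [hdTj b, map_neg, LinearMap.neg_apply, topT3_mk, topGlobFun_apply, neg_one_mul]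
    rfl

end Main

end Fermat.Agent.S55.PT

end

end
-- ===== PACK-END S55/PT/Assembly.lean

-- ===== PACK-BEGIN S55/KC/FinLocH539.lean
section



/-!
# S55 / layer KC, leaf KC-P1: `FinLocOfFrattiniSpec`

Wrapper around `KL/FinLocCoreH539.lean` (which imports only `PT/Levels.lean`).
-/

set_option autoImplicit false
set_option linter.style.haveILetI false

namespace Fermat.Agent.S55.KC.H539

open groupCohomology Fermat.Agent.S55.PT

/-- **KC-P1.** -/
theorem finLocOfFrattini : FinLocOfFrattiniSpec := by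
  intro G _ L p _ hFI hFr N hfd hN
  haveI := hfd
  exact KL.H539.finiteDimensional_H1_of_frattini L hFI hFr N hN

end Fermat.Agent.S55.KC.H539

end
-- ===== PACK-END S55/KC/FinLocH539.lean

-- ===== PACK-BEGIN S55/Inv/MuH635.lean
section



/-!
# S55 / `InvSpec`, leaf INV-MU (helper635): `ℚ(μ_p)` is a normal `S`-level (`p ∈ S`)

`muLevel : pPrime p ∈ S → MuLevelSpec p S`, with `U = ker (cycloChar p)`.
-/

set_option autoImplicit false

namespace Fermat.Agent.S55.Inv.H635

open Fermat.Agent.S55.PT Fermat.Agent.S55.Bridge groupCohomology ExtCitation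

/-- `ker (cycloChar p)` is an `S`-level when `p ∈ S`. -/
theorem ker_cycloChar_mem_levels (p : ℕ) [Fact p.Prime] (S : Finset Nat.Primes)
    (hpS : pPrime p ∈ S) : MonoidHom.ker (cycloChar p) ∈ (globalLevels S).levels := by
  obtain ⟨L, hL, hfix, -⟩ := exists_level_of_subgroup S
    (MonoidHom.ker (cycloChar p)) (cycloLevel p) (cycloLevel_finiteDimensional p)
    (fun s hs => MonoidHom.mem_ker.2 (cycloChar_eq_one_of_mem_fixingSubgroup p s hs))
    (fun q hq A hA g hg => by
      have hqp : (q : ℕ) ≠ p := by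
        intro h
        apply hq
        have : q = pPrime p := Subtype.ext h
        rw [this]
        exact hpS
      exact MonoidHom.mem_ker.2 (cycloChar_eq_one_of_mem_inertia p q.2 hqp A hA g hg))
  exact ⟨L, hL, hfix.symm⟩

/-- **INV-MU.** -/
theorem muLevel (p : ℕ) [Fact p.Prime] (S : Finset Nat.Primes) (hpS : pPrime p ∈ S) :
    MuLevelSpec p S := by
  refine ⟨MonoidHom.ker (cycloChar p), ker_cycloChar_mem_levels p S hpS,
    MonoidHom.normal_ker _, fun s hs => ?_⟩
  have h1 : cycloChar p s = 1 := MonoidHom.mem_ker.1 hs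
  apply LinearMap.ext
  intro c
  show ((Representation.trivial (ZMod p) _root_.Fermat.Agent.S55.PT.GQ (ZMod p)).twist (cycloChar p)) s c = c
  simp [Representation.twist_apply_apply, h1]

end Fermat.Agent.S55.Inv.H635

end
-- ===== PACK-END S55/Inv/MuH635.lean

-- ===== PACK-BEGIN S55/ColH543/IndK.lean
section



/-!
# S55 / colimit dictionary (helper543), part 5: the cochain-level predicates of layer K for
# `Ind_V A = K.indG V A` in terms of the finite levels of the open subgroup `V`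

`L : PT.LevelSys G` with cofinal normal levels of finite index, `V ≤ G` a subgroup containing a
normal level, `A : Rep k G` arbitrary.  Then

* `h3Vanish_indG_iff`     : `K.H3Vanish L (Ind_V A) ↔ colim_U H³(V ⧸ U, A^U) = 0`,
* `h3TorsVanish_indG_iff` : `K.H3TorsVanish L (Ind_V A) n ↔ colim_U H³(V ⧸ U, A^U)[n] = 0`,
* `h2Divisible_indG_iff`  : `K.H2Divisible L (Ind_V A) n ↔ colim_U H²(V ⧸ U, A^U) ⊗ ℤ/n = 0`,

the colimits over the normal levels `U` of `G` (intersected with `V`), in the finite-level form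
`KL.EffAll / EffTors / EffDiv ((nLevels L hN hF).restrict V) (Rep.res V.subtype A)`:
all groups are Mathlib `groupCohomology` of the finite groups `V ⧸ (U ∩ V)` acting on `A^{U ∩ V}`.
-/

set_option autoImplicit false
set_option linter.style.haveILetI false

noncomputable section

open groupCohomology CategoryTheory

namespace Fermat.Agent.S55.ColH543

open Fermat.Agent.S55.PT Fermat.Agent.S55.KL Fermat.Agent.S55.KC.H475

variable {k : Type} [CommRing k] {G : Type} [Group G]

/-- `K.indG V A` carries the diagonal action. -/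
lemma isDiag_indρ (V : Subgroup G) (A : Rep.{0, 0, 0} k G) :
    IsDiag A V (K.indρ (MonoidHom.id G) V A) := fun g x a => by
  rw [K.indρ_single]
  rfl

/-- The cochain-level predicates of layer K are those of `Colimit.lean`. -/
lemma k_h3Vanish_iff (L : LevelSys G) (A : Rep.{0, 0, 0} k G) :
    K.H3Vanish L A ↔ H3Vanish L A := Iff.rfl

lemma k_h3TorsVanish_iff (L : LevelSys G) (A : Rep.{0, 0, 0} k G) (n : ℕ) :
    K.H3TorsVanish L A n ↔ H3TorsVanish L A n := Iff.rfl

lemma k_h2Divisible_iff (L : LevelSys G) (A : Rep.{0, 0, 0} k G) (n : ℕ) :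
    K.H2Divisible L A n ↔ H2Divisible L A n := Iff.rfl

lemma finite_quotient_of_level_le {L : LevelSys G} (hF : L.FiniteIndex) (V : Subgroup G)
    {V₀ : Subgroup G} (hV₀ : V₀ ∈ L.levels) (hV₀V : V₀ ≤ V) : Finite (G ⧸ V) := by
  haveI := hF V₀ hV₀
  haveI : V.FiniteIndex := Subgroup.finiteIndex_of_le hV₀V
  exact Subgroup.finite_quotient_of_finiteIndex

variable {L : LevelSys G} (hN : L.NormalCofinal) (hF : L.FiniteIndex) (A : Rep.{0, 0, 0} k G)
  (V : Subgroup G) {V₀ : Subgroup G} (hV₀ : V₀ ∈ L.levels) (hV₀n : V₀.Normal) (hV₀V : V₀ ≤ V)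

include hV₀ hV₀n hV₀V

/-- `H³_L(Ind_V A) = 0` iff `colim_U H³(V ⧸ U, A^U) = 0`. -/
theorem h3Vanish_indG_iff :
    K.H3Vanish L (K.indG V A) ↔
      EffAll ((nLevels L hN hF).restrict V) (Rep.res V.subtype A) 3 := by
  haveI := finite_quotient_of_level_le hF V hV₀ hV₀V
  exact (h3Vanish_iff hN hF (K.indG V A)).trans
    (effAll_ind_iff (nLevels L hN hF) A V (K.indρ (MonoidHom.id G) V A) (isDiag_indρ V A)
      (toLvl hN hF hV₀ hV₀n) hV₀V 3)

/-- `H³_L(Ind_V A)[n] = 0` iff `colim_U H³(V ⧸ U, A^U)[n] = 0`. -/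
theorem h3TorsVanish_indG_iff (n : ℕ) :
    K.H3TorsVanish L (K.indG V A) n ↔
      EffTors ((nLevels L hN hF).restrict V) (Rep.res V.subtype A) n 3 := by
  haveI := finite_quotient_of_level_le hF V hV₀ hV₀V
  exact (h3TorsVanish_iff hN hF (K.indG V A) n).trans
    (effTors_ind_iff (nLevels L hN hF) A V (K.indρ (MonoidHom.id G) V A) (isDiag_indρ V A)
      (toLvl hN hF hV₀ hV₀n) hV₀V n 3)

/-- `H²_L(Ind_V A)` is `n`-divisible iff `colim_U H²(V ⧸ U, A^U) ⊗ ℤ/n = 0`. -/
theorem h2Divisible_indG_iff (n : ℕ) :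
    K.H2Divisible L (K.indG V A) n ↔
      EffDiv ((nLevels L hN hF).restrict V) (Rep.res V.subtype A) n 2 := by
  haveI := finite_quotient_of_level_le hF V hV₀ hV₀V
  exact (h2Divisible_iff hN hF (K.indG V A) n).trans
    (effDiv_ind_iff (nLevels L hN hF) A V (K.indρ (MonoidHom.id G) V A) (isDiag_indρ V A)
      (toLvl hN hF hV₀ hV₀n) hV₀V n 2)

end Fermat.Agent.S55.ColH543

end

end
-- ===== PACK-END S55/ColH543/IndK.lean

-- ===== PACK-BEGIN S55/H713/LocalIndex.lean
section




/-!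
# The local norm index theorem for cyclic extensions

`E/F` a finite cyclic Galois extension, `O ⊆ E` a Galois-stable valuation subring which is a
complete discrete valuation ring with finite residue field.  Then
`[Fˣ : N_{E/F} Eˣ] = [E : F]`.
-/

set_option autoImplicit false
set_option linter.unusedSectionVars false
set_option linter.style.haveILetI false

open IsLocalRing

namespace Fermat.Agent.S55.H713

open Fermat.Agent.S55.Herbrand

variable {F E : Type*} [Field F] [Field E] [Algebra F E] [FiniteDimensional F E] [IsGalois F E]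
variable {O : ValuationSubring E} [IsDiscreteValuationRing O]

section Ord

variable (hstab : GalStable F O) {ϖ : O} (hϖ : Irreducible ϖ)

include hstab in
lemma unitsIncl_actU (g : Gal(E/F)) (u : Oˣ) :
    letI := galAction hstab
    unitsIncl O (actU g u) = actU g (unitsIncl O u) := by
  ext
  rfl

include hstab in
lemma unitsIncl_sigmaSubOne (σ : Gal(E/F)) (u : Oˣ) :
    letI := galAction hstab
    unitsIncl O (sigmaSubOne σ u) = sigmaSubOne σ (unitsIncl O u) := by
  letI := galAction hstab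
  rw [sigmaSubOne_apply, sigmaSubOne_apply, map_div, unitsIncl_actU hstab]

include hstab in
lemma unitsIncl_normU (u : Oˣ) :
    letI := galAction hstab
    unitsIncl O (normU Gal(E/F) u) = normU Gal(E/F) (unitsIncl O u) := by
  letI := galAction hstab
  rw [normU_apply, normU_apply, map_prod]
  exact Finset.prod_congr rfl (fun g _ => unitsIncl_actU hstab g u)

include hstab in
/-- The order is Galois invariant. -/
lemma ord_actU (g : Gal(E/F)) (x : Eˣ) : ord hϖ (actU g x) = ord hϖ x := by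
  letI := galAction hstab
  obtain ⟨u, hu⟩ := ord_spec hϖ x
  have hirr : Irreducible (g • ϖ) :=
    (MulEquiv.irreducible_iff (MulSemiringAction.toRingEquiv Gal(E/F) O g)).2 hϖ
  obtain ⟨w, hw⟩ := IsDiscreteValuationRing.associated_of_irreducible O hϖ hirr
  have hw' : g (ϖ : E) = (ϖ : E) * ((w : O) : E) := by
    have := congrArg Subtype.val hw
    have h2 : ((g • ϖ : O) : E) = g (ϖ : E) := rfl
    rw [← h2, ← this]
    rfl
  have hwk : ((unitsIncl O (w ^ ord hϖ x) : Eˣ) : E) = ((w : O) : E) ^ ord hϖ x := by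
    rw [map_zpow, Units.val_zpow_eq_zpow_val, coe_unitsIncl]
  apply ord_eq hϖ (u := actU g u * w ^ ord hϖ x)
  have e1 : ((actU g x : Eˣ) : E) = g (x : E) := rfl
  have e2 : (((actU g u * w ^ ord hϖ x : Oˣ) : O) : E) =
      g ((u : O) : E) * ((w : O) : E) ^ ord hϖ x := by
    rw [← coe_unitsIncl, map_mul, Units.val_mul, hwk]
    rfl
  rw [e1, e2, hu, map_mul, map_zpow₀, hw', mul_zpow]
  ring

lemma ord_prod {ι : Type*} (s : Finset ι) (f : ι → Eˣ) :
    ord hϖ (∏ i ∈ s, f i) = ∑ i ∈ s, ord hϖ (f i) := by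
  classical
  induction s using Finset.induction_on with
  | empty => simp [ord_one]
  | insert a s ha ih => rw [Finset.prod_insert ha, Finset.sum_insert ha, ord_mul, ih]

lemma ord_div (x y : Eˣ) : ord hϖ (x / y) = ord hϖ x - ord hϖ y := by
  have := ord_mul hϖ (x / y) y
  rw [div_mul_cancel] at this
  omega

include hstab in
lemma ord_sigmaSubOne (σ : Gal(E/F)) (x : Eˣ) : ord hϖ (sigmaSubOne σ x) = 0 := by
  rw [sigmaSubOne_apply, ord_div, ord_actU hstab hϖ, sub_self]

include hstab in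
lemma ord_normU (x : Eˣ) :
    ord hϖ (normU Gal(E/F) x) = (Fintype.card Gal(E/F)) • ord hϖ x := by
  rw [normU_apply, ord_prod]
  simp [ord_actU hstab hϖ, Finset.card_univ]

lemma ordHom_ker : (ordHom hϖ).ker = (MonoidHom.toAdditive (unitsIncl O)).range := by
  ext x
  rw [AddMonoidHom.mem_ker, AddMonoidHom.mem_range]
  change ord hϖ x.toMul = 0 ↔ _
  rw [ord_eq_zero_iff]
  constructor
  · rintro ⟨u, hu⟩
    exact ⟨Additive.ofMul u, congrArg Additive.ofMul hu⟩
  · rintro ⟨u, hu⟩
    exact ⟨u.toMul, congrArg Additive.toMul hu⟩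

end Ord

variable [IsAdicComplete (maximalIdeal O) O] [Finite (ResidueField O)]

/-- **The Herbrand quotient of `Eˣ`** is `[E : F]`. -/
theorem q_field_units (hstab : GalStable F O) (σ : Gal(E/F))
    (hσ : ∀ g, g ∈ Subgroup.zpowers σ) :
    IsDefined (sigmaAdd σ : Additive Eˣ →+ Additive Eˣ) (normAdd E Gal(E/F)) ∧
      q (sigmaAdd σ : Additive Eˣ →+ Additive Eˣ) (normAdd E Gal(E/F)) =
        Fintype.card Gal(E/F) := by
  letI := galAction hstab
  obtain ⟨ϖ, hϖ⟩ := IsDiscreteValuationRing.exists_irreducible O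
  obtain ⟨hdef, hq⟩ := q_units hstab σ hσ
  have hn : Fintype.card Gal(E/F) ≠ 0 := Fintype.card_ne_zero
  obtain ⟨hdefZ, hqZ⟩ := q_int (Fintype.card Gal(E/F)) hn
  have hfg : ∀ b, (sigmaAdd σ : Additive Eˣ →+ Additive Eˣ) (normAdd E Gal(E/F) b) = 0 :=
    sigmaAdd_normAdd σ
  have hgf : ∀ b, normAdd E Gal(E/F) ((sigmaAdd σ : Additive Eˣ →+ Additive Eˣ) b) = 0 :=
    normAdd_sigmaAdd σ
  have hi : Function.Injective (MonoidHom.toAdditive (unitsIncl O)) :=
    fun a b h => unitsIncl_injective (O := O) h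
  have hp : Function.Surjective (ordHom hϖ) := ordHom_surjective hϖ
  have hex := ordHom_ker hϖ
  have hif : ∀ a : Additive Oˣ, MonoidHom.toAdditive (unitsIncl O) (sigmaAdd σ a) =
      (sigmaAdd σ : Additive Eˣ →+ Additive Eˣ) (MonoidHom.toAdditive (unitsIncl O) a) :=
    fun a => congrArg Additive.ofMul (unitsIncl_sigmaSubOne hstab σ a.toMul)
  have hig : ∀ a : Additive Oˣ, MonoidHom.toAdditive (unitsIncl O) (normAdd O Gal(E/F) a) =
      normAdd E Gal(E/F) (MonoidHom.toAdditive (unitsIncl O) a) :=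
    fun a => congrArg Additive.ofMul (unitsIncl_normU hstab a.toMul)
  have hpf : ∀ b : Additive Eˣ, ordHom hϖ ((sigmaAdd σ : Additive Eˣ →+ Additive Eˣ) b) =
      (0 : ℤ →+ ℤ) (ordHom hϖ b) := fun b => ord_sigmaSubOne hstab hϖ σ b.toMul
  have hpg : ∀ b : Additive Eˣ, ordHom hϖ (normAdd E Gal(E/F) b) =
      (Fintype.card Gal(E/F) • AddMonoidHom.id ℤ) (ordHom hϖ b) :=
    fun b => ord_normU hstab hϖ b.toMul
  refine ⟨isDefined_mid hfg hgf hi hp hex hif hig hpf hpg hdef hdefZ, ?_⟩
  rw [q_mul_of_exact hfg hgf hi hp hex hif hig hpf hpg hdef hdefZ, hq, hqZ, one_mul]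


/-! ### From the Herbrand quotient to the norm index -/

omit [IsAdicComplete (maximalIdeal O) O] [Finite (ResidueField O)] [IsDiscreteValuationRing O] in
lemma fixed_of_generator {σ : Gal(E/F)} (hσ : ∀ g, g ∈ Subgroup.zpowers σ) {x : E}
    (hx : σ x = x) (g : Gal(E/F)) : g x = x := by
  obtain ⟨j, rfl⟩ := exists_pow_eq_of_generator hσ g
  induction j with
  | zero => simp
  | succ j ih => rw [pow_succ, AlgEquiv.mul_apply, hx, ih]

/-- The inclusion `Fˣ → Eˣ`. -/
def baseIncl (F E : Type*) [Field F] [Field E] [Algebra F E] : Fˣ →* Eˣ :=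
  Units.map (algebraMap F E : F →* E)

omit [FiniteDimensional F E] [IsGalois F E] in
lemma baseIncl_injective : Function.Injective (baseIncl F E) := by
  intro a b h
  have : algebraMap F E (a : F) = algebraMap F E (b : F) := congrArg Units.val h
  exact Units.ext ((algebraMap F E).injective this)

/-- The norm on units. -/
noncomputable def normUnits (F E : Type*) [Field F] [Field E] [Algebra F E] : Eˣ →* Fˣ :=
  Units.map (Algebra.norm F : E →* F)

lemma baseIncl_normUnits (y : Eˣ) : baseIncl F E (normUnits F E y) = normU Gal(E/F) y := by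
  ext
  rw [coe_normU]
  change algebraMap F E (Algebra.norm F (y : E)) = _
  rw [Algebra.norm_eq_prod_automorphisms]
  rfl

lemma ker_sigmaSubOne {σ : Gal(E/F)} (hσ : ∀ g, g ∈ Subgroup.zpowers σ) :
    (sigmaSubOne σ : Eˣ →* Eˣ).ker = (baseIncl F E).range := by
  ext x
  rw [MonoidHom.mem_ker, MonoidHom.mem_range, sigmaSubOne_apply, div_eq_one]
  constructor
  · intro h
    have hx : σ (x : E) = x := congrArg Units.val h
    have hfix := fixed_of_generator hσ hx
    have hbot : (x : E) ∈ (⊥ : IntermediateField F E) := (IsGalois.mem_bot_iff_fixed _).2 hfix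
    obtain ⟨y, hy⟩ := IntermediateField.mem_bot.1 hbot
    have hy0 : y ≠ 0 := by
      rintro rfl
      rw [map_zero] at hy
      exact x.ne_zero hy.symm
    exact ⟨Units.mk0 y hy0, Units.ext hy⟩
  · rintro ⟨y, rfl⟩
    ext
    change σ (algebraMap F E (y : F)) = algebraMap F E (y : F)
    exact σ.commutes _

lemma range_normU : (normU Gal(E/F) : Eˣ →* Eˣ).range =
    (normUnits F E).range.map (baseIncl F E) := by
  ext x
  rw [MonoidHom.mem_range, Subgroup.mem_map]
  constructor
  · rintro ⟨y, rfl⟩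
    exact ⟨normUnits F E y, ⟨y, rfl⟩, baseIncl_normUnits y⟩
  · rintro ⟨_, ⟨y, rfl⟩, rfl⟩
    exact ⟨y, (baseIncl_normUnits y).symm⟩

/-- **Local norm index theorem** (cyclic case): for a finite cyclic Galois extension `E/F` and a
Galois-stable valuation subring `O ⊆ E` which is a complete discrete valuation ring with finite
residue field, the norm group `N_{E/F}(Eˣ)` has index `[E : F]` in `Fˣ`. -/
theorem norm_index_eq_finrank (hstab : GalStable F O) [IsCyclic Gal(E/F)] :
    (normUnits F E).range.index = Module.finrank F E := by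
  obtain ⟨σ, hσ⟩ := IsCyclic.exists_generator (α := Gal(E/F))
  obtain ⟨hdef, hq⟩ := q_field_units hstab σ hσ
  -- Hilbert 90
  have h90 : hIndex (normAdd E Gal(E/F)) (sigmaAdd σ : Additive Eˣ →+ Additive Eˣ) = 1 := by
    unfold hIndex
    rw [AddSubgroup.relIndex_eq_one]
    intro x hx
    have hx' : normU Gal(E/F) x.toMul = 1 := by
      have := AddMonoidHom.mem_ker.1 hx
      exact congrArg Additive.toMul this
    obtain ⟨y, hy⟩ := hilbert90_cyclic σ hσ x.toMul hx'
    exact ⟨Additive.ofMul y, congrArg Additive.ofMul hy⟩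
  have hidx : hIndex (sigmaAdd σ : Additive Eˣ →+ Additive Eˣ) (normAdd E Gal(E/F)) =
      Fintype.card Gal(E/F) := by
    unfold q at hq
    rw [h90] at hq
    have : ((hIndex (sigmaAdd σ : Additive Eˣ →+ Additive Eˣ) (normAdd E Gal(E/F)) : ℕ) : ℚ) =
        (Fintype.card Gal(E/F) : ℚ) := by simpa using hq
    exact_mod_cast this
  -- translate to subgroups of `Eˣ`
  have hker : (sigmaAdd σ : Additive Eˣ →+ Additive Eˣ).ker =
      Subgroup.toAddSubgroup (sigmaSubOne σ : Eˣ →* Eˣ).ker := by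
    ext x
    rw [AddMonoidHom.mem_ker]
    change _ ↔ x.toMul ∈ (sigmaSubOne σ : Eˣ →* Eˣ).ker
    rw [MonoidHom.mem_ker]
    exact ⟨fun h => congrArg Additive.toMul h, fun h => congrArg Additive.ofMul h⟩
  have hrange : (normAdd E Gal(E/F)).range =
      Subgroup.toAddSubgroup (normU Gal(E/F) : Eˣ →* Eˣ).range := by
    ext x
    rw [AddMonoidHom.mem_range]
    change _ ↔ x.toMul ∈ (normU Gal(E/F) : Eˣ →* Eˣ).range
    rw [MonoidHom.mem_range]
    constructor
    · rintro ⟨y, hy⟩; exact ⟨y.toMul, congrArg Additive.toMul hy⟩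
    · rintro ⟨y, hy⟩; exact ⟨Additive.ofMul y, congrArg Additive.ofMul hy⟩
  unfold hIndex at hidx
  rw [hker, hrange, Subgroup.relIndex_toAddSubgroup, ker_sigmaSubOne hσ, range_normU,
    MonoidHom.range_eq_map (baseIncl F E),
    Subgroup.relIndex_map_map_of_injective _ _ baseIncl_injective,
    Subgroup.relIndex_top_right] at hidx
  rw [hidx, ← Nat.card_eq_fintype_card, IsGalois.card_aut_eq_finrank]

end Fermat.Agent.S55.H713

end
-- ===== PACK-END S55/H713/LocalIndex.lean

-- ===== PACK-BEGIN S55/GAD/SUnitH175.lean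
section



/-!
# S55 / G-ADAPTER leaf GAD-SU : the dictionary of `S`-units (helper175)

`sUnitDict : GAD.SUnitDictSpec S` — for `x ∈ Fˣ` (`F` a level of the tower):
the divisor of `x` outside `S` vanishes (layer-G language: `ord_w x = 0` for all primes `w` of
`𝓞_F` not above `S`) iff `x` is an `S`-unit in the tower's sense (a unit of every valuation
subring of `ℚ̄` over a prime `ℓ ∉ S`).

General lemmas (any number field `K` inside any field `Ω`):
* `valuation_eq_one_iff_mem_and_inv_mem` : if the prime `w` of `𝓞_K` is the contraction of the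
  maximal ideal of the valuation subring `A` of `Ω`, then `w(x) = 1 ↔ x, x⁻¹ ∈ A`;
* `exists_valuationSubring_over` : every prime `w` of `𝓞_K` is such a contraction.
-/

set_option autoImplicit false
set_option linter.unusedSectionVars false

open scoped NumberField
open IsDedekindDomain

namespace Fermat.Agent.S55.GAD.H175

section General

variable {K : Type*} [Field K] [NumberField K] {Ω : Type*} [Field Ω] [Algebra K Ω]

/-- The integers of `K` lie in every valuation subring of `Ω`. -/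
theorem algebraMap_int_mem (A : ValuationSubring Ω) (b : 𝓞 K) :
    algebraMap K Ω (b : K) ∈ A := by
  have hb : IsIntegral ℤ (b : K) := NumberField.RingOfIntegers.isIntegral_coe b
  exact Fermat.Agent.S54.isIntegral_mem_valuationSubring A (hb.map (algebraMap K Ω).toIntAlgHom)

/-- Non-units of a valuation subring absorb multiplication by elements of the subring. -/
theorem nonunits_mul_mem (A : ValuationSubring Ω) {a b : Ω} (ha : a ∈ A.nonunits)
    (hb : b ∈ A) : a * b ∈ A.nonunits := by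
  rw [ValuationSubring.mem_nonunits_iff] at ha ⊢
  have hb' : A.valuation b ≤ 1 := (A.valuation_le_one_iff b).2 hb
  rw [map_mul]
  calc A.valuation a * A.valuation b ≤ A.valuation a * 1 := mul_le_mul_right hb' _
    _ = A.valuation a := mul_one _
    _ < 1 := ha

variable (A : ValuationSubring Ω) (w : HeightOneSpectrum (𝓞 K))

/-- Elements of `K` which are `w`-integral lie in `A`, if `w` is the prime below `A`. -/
theorem mem_of_valuation_le_one
    (hw : ∀ b : 𝓞 K, b ∈ w.asIdeal ↔ algebraMap K Ω (b : K) ∈ A.nonunits) (y : K)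
    (hy : w.valuation K y ≤ 1) : algebraMap K Ω y ∈ A := by
  obtain ⟨n, d, hnd⟩ := w.exists_primeCompl_mul_eq_of_integer y hy
  have hd : algebraMap K Ω ((d : 𝓞 K) : K) ∉ A.nonunits := fun h => d.2 ((hw d).2 h)
  have hdinv : (algebraMap K Ω ((d : 𝓞 K) : K))⁻¹ ∈ A := by
    by_contra h
    exact hd (A.mem_nonunits_iff_or.mpr (Or.inr h))
  have hd0 : algebraMap K Ω ((d : 𝓞 K) : K) ≠ 0 := fun h => hd (h ▸ A.nonunits.zero_mem)
  have hnd' : algebraMap K Ω y * algebraMap K Ω ((d : 𝓞 K) : K) = algebraMap K Ω (n : K) := by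
    rw [← map_mul]
    exact congrArg (algebraMap K Ω) hnd
  have : algebraMap K Ω y = algebraMap K Ω (n : K) * (algebraMap K Ω ((d : 𝓞 K) : K))⁻¹ := by
    rw [← hnd']
    field_simp
  rw [this]
  exact A.mul_mem _ _ (algebraMap_int_mem A n) hdinv

/-- Elements of `K` of positive `w`-valuation are non-units of `A`. -/
theorem mem_nonunits_of_valuation_lt_one
    (hw : ∀ b : 𝓞 K, b ∈ w.asIdeal ↔ algebraMap K Ω (b : K) ∈ A.nonunits) (y : K)
    (hy : w.valuation K y < 1) : algebraMap K Ω y ∈ A.nonunits := by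
  obtain ⟨n, d, hnd⟩ := w.exists_primeCompl_mul_eq_of_integer y hy.le
  have hd : algebraMap K Ω ((d : 𝓞 K) : K) ∉ A.nonunits := fun h => d.2 ((hw d).2 h)
  have hdinv : (algebraMap K Ω ((d : 𝓞 K) : K))⁻¹ ∈ A := by
    by_contra h
    exact hd (A.mem_nonunits_iff_or.mpr (Or.inr h))
  have hd0 : algebraMap K Ω ((d : 𝓞 K) : K) ≠ 0 := fun h => hd (h ▸ A.nonunits.zero_mem)
  have hvd : w.valuation K (algebraMap (𝓞 K) K (d : 𝓞 K)) = 1 :=
    (HeightOneSpectrum.valuation_eq_one_iff_notMem w).2 d.2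
  have hvn : w.valuation K (algebraMap (𝓞 K) K n) < 1 := by
    rw [← hnd, map_mul, hvd, mul_one]
    exact hy
  have hn : n ∈ w.asIdeal := (w.valuation_lt_one_iff_mem n).1 hvn
  have hnA : algebraMap K Ω (n : K) ∈ A.nonunits := (hw n).1 hn
  have hnd' : algebraMap K Ω y * algebraMap K Ω ((d : 𝓞 K) : K) = algebraMap K Ω (n : K) := by
    rw [← map_mul]
    exact congrArg (algebraMap K Ω) hnd
  have : algebraMap K Ω y = algebraMap K Ω (n : K) * (algebraMap K Ω ((d : 𝓞 K) : K))⁻¹ := by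
    rw [← hnd']
    field_simp
  rw [this]
  exact nonunits_mul_mem A hnA hdinv

/-- **Unit criterion.**  If `w` is the prime of `𝓞_K` below the valuation subring `A` of `Ω`, then
`x ∈ Kˣ` is a `w`-unit iff it is a unit of `A`. -/
theorem valuation_eq_one_iff_mem_and_inv_mem
    (hw : ∀ b : 𝓞 K, b ∈ w.asIdeal ↔ algebraMap K Ω (b : K) ∈ A.nonunits) {x : K}
    (hx : x ≠ 0) :
    w.valuation K x = 1 ↔ algebraMap K Ω x ∈ A ∧ (algebraMap K Ω x)⁻¹ ∈ A := by
  constructor
  · intro h
    refine ⟨mem_of_valuation_le_one A w hw x h.le, ?_⟩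
    rw [← map_inv₀]
    refine mem_of_valuation_le_one A w hw x⁻¹ ?_
    rw [map_inv₀, h, inv_one]
  · rintro ⟨h1, h2⟩
    have hx' : algebraMap K Ω x ≠ 0 := by
      rwa [Ne, map_eq_zero]
    have hv0 : w.valuation K x ≠ 0 := by
      rwa [Ne, map_eq_zero]
    rcases lt_trichotomy (w.valuation K x) 1 with hlt | heq | hgt
    · exfalso
      have := mem_nonunits_of_valuation_lt_one A w hw x hlt
      rw [A.mem_nonunits_iff_or] at this
      rcases this with h | h
      · exact hx' h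
      · exact h h2
    · exact heq
    · exfalso
      have hlt : w.valuation K x⁻¹ < 1 := by
        rw [map_inv₀]
        exact inv_lt_one_of_one_lt₀ hgt
      have := mem_nonunits_of_valuation_lt_one A w hw x⁻¹ hlt
      rw [map_inv₀, A.mem_nonunits_iff_or, inv_inv] at this
      rcases this with h | h
      · exact hx' (inv_eq_zero.1 h)
      · exact h h1

/-- Every prime of `𝓞_K` is the contraction of the maximal ideal of a valuation subring of
`Ω`. -/
theorem exists_valuationSubring_over (Ω : Type*) [Field Ω] [Algebra K Ω]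
    (w : HeightOneSpectrum (𝓞 K)) :
    ∃ A : ValuationSubring Ω,
      ∀ b : 𝓞 K, b ∈ w.asIdeal ↔ algebraMap K Ω (b : K) ∈ A.nonunits := by
  let f : 𝓞 K →+* Ω := (algebraMap K Ω).comp (algebraMap (𝓞 K) K)
  have hf : Function.Injective f :=
    (algebraMap K Ω).injective.comp NumberField.RingOfIntegers.coe_injective
  let A₀ : Subring Ω := f.range
  let I : Ideal A₀ := w.asIdeal.map f.rangeRestrict
  have hsurj : Function.Surjective f.rangeRestrict := f.rangeRestrict_surjective
  have hmem : ∀ b : 𝓞 K, f.rangeRestrict b ∈ I → b ∈ w.asIdeal := by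
    intro b hb
    obtain ⟨c, hc, hcb⟩ := (Ideal.mem_map_iff_of_surjective _ hsurj).1 hb
    have : c = b := hf (congrArg Subtype.val hcb)
    exact this ▸ hc
  have hI : I ≠ ⊤ := by
    intro h
    have h1 : f.rangeRestrict 1 ∈ I := by rw [h]; trivial
    exact w.isPrime.ne_top ((Ideal.eq_top_iff_one _).2 (hmem 1 h1))
  obtain ⟨A, hA₀, hA⟩ := Ideal.image_subset_nonunits_valuationSubring I hI
  refine ⟨A, fun b => ⟨fun hb => ?_, fun hb => ?_⟩⟩
  · exact hA ⟨f.rangeRestrict b, Ideal.mem_map_of_mem _ hb, rfl⟩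
  · -- the contraction of the maximal ideal is a proper ideal containing the maximal ideal `w`
    by_contra hbw
    have hmax : w.asIdeal.IsMaximal := w.isMaximal
    obtain ⟨r, a, ha, hac⟩ := hmax.exists_inv hbw
    have hfb : f b ∈ A.nonunits := hb
    have hfa : f a ∈ A.nonunits := hA ⟨f.rangeRestrict a, Ideal.mem_map_of_mem _ ha, rfl⟩
    have hfr : f r ∈ A := algebraMap_int_mem A r
    have h2 : f (r * b + a) ∈ A.nonunits := by
      rw [map_add, map_mul, mul_comm]
      exact A.nonunits.add_mem (nonunits_mul_mem A hfb hfr) hfa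
    rw [hac, map_one, ValuationSubring.mem_nonunits_iff, map_one] at h2
    exact lt_irrefl _ h2

/-- The ring homomorphism `𝓞_K → A`. -/
noncomputable def toValSubring (A : ValuationSubring Ω) : 𝓞 K →+* A :=
  ((algebraMap K Ω).comp (algebraMap (𝓞 K) K)).codRestrict A.toSubring
    (fun b => algebraMap_int_mem A b)

/-- The prime of `𝓞_K` below a valuation subring of `Ω`. -/
noncomputable def primeUnder (A : ValuationSubring Ω) : Ideal (𝓞 K) :=
  (IsLocalRing.maximalIdeal A).comap (toValSubring (K := K) A)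

instance primeUnder_isPrime (A : ValuationSubring Ω) : (primeUnder (K := K) A).IsPrime := by
  unfold primeUnder
  infer_instance

theorem mem_primeUnder {A : ValuationSubring Ω} {b : 𝓞 K} :
    b ∈ primeUnder (K := K) A ↔ algebraMap K Ω (b : K) ∈ A.nonunits := by
  rw [ValuationSubring.mem_nonunits_iff_exists_mem_maximalIdeal]
  constructor
  · intro h
    exact ⟨algebraMap_int_mem A b, h⟩
  · rintro ⟨_, h⟩
    exact h

/-- The place of `K` below a valuation subring of `Ω` over a prime number. -/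
noncomputable def placeUnder (A : ValuationSubring Ω) (ℓ : ℕ) (hℓ : ℓ.Prime)
    (hA : A.LiesOverPrime ℓ) : HeightOneSpectrum (𝓞 K) where
  asIdeal := primeUnder A
  isPrime := inferInstance
  ne_bot := by
    intro h
    have h1 : ((ℓ : ℕ) : 𝓞 K) ∈ primeUnder (K := K) A := by
      rw [mem_primeUnder]
      have : algebraMap K Ω (((ℓ : ℕ) : 𝓞 K) : K) = (ℓ : Ω) := by
        rw [show (((ℓ : ℕ) : 𝓞 K) : K) = (ℓ : K) from map_natCast (algebraMap (𝓞 K) K) ℓ,
          map_natCast]
      rw [this]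
      exact hA
    rw [h, Ideal.mem_bot] at h1
    exact hℓ.ne_zero (Nat.cast_eq_zero.1 h1)

theorem mem_placeUnder {A : ValuationSubring Ω} {ℓ : ℕ} {hℓ : ℓ.Prime}
    {hA : A.LiesOverPrime ℓ} {b : 𝓞 K} :
    b ∈ (placeUnder (K := K) A ℓ hℓ hA).asIdeal ↔ algebraMap K Ω (b : K) ∈ A.nonunits :=
  mem_primeUnder

/-- A rational prime in the prime below `A` is the residue characteristic of `A`. -/
theorem eq_of_natCast_mem (A : ValuationSubring Ω) (w : HeightOneSpectrum (𝓞 K))
    (hw : ∀ b : 𝓞 K, b ∈ w.asIdeal ↔ algebraMap K Ω (b : K) ∈ A.nonunits)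
    {ℓ q : ℕ} (hℓ : ℓ.Prime) (hq : q.Prime) (hA : A.LiesOverPrime ℓ)
    (hqw : (q : 𝓞 K) ∈ w.asIdeal) : q = ℓ := by
  have h1 : algebraMap K Ω (((q : ℕ) : 𝓞 K) : K) ∈ A.nonunits := (hw _).1 hqw
  have h2 : algebraMap K Ω (((q : ℕ) : 𝓞 K) : K) = ((q : ℤ) : Ω) := by
    rw [show (((q : ℕ) : 𝓞 K) : K) = (q : K) from map_natCast (algebraMap (𝓞 K) K) q,
      map_natCast, Int.cast_natCast]
  rw [h2] at h1
  have h3 := Fermat.Agent.S54.dvd_of_intCast_mem_nonunits A ℓ hℓ hA (q : ℤ) h1
  have h4 : ℓ ∣ q := by exact_mod_cast h3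
  exact ((Nat.prime_dvd_prime_iff_eq hℓ hq).1 h4).symm

end General

section Tower

open Fermat.Agent.S55 Fermat.Agent.S55.Tow Fermat.Agent.S55.E1.H594 Fermat.Agent.S55.G

variable {S : Finset Nat.Primes} (L : Level S)

/-- The element of `ℚ̄` underlying `toField L e`. -/
theorem algebraMap_toField (e : L.units.V) :
    algebraMap L.F Qbar ((((toField L e).toMul : (L.F)ˣ) : L.F)) = ((L.val e : Qbarˣ) : Qbar) :=
  coe_toField L e

/-- `divT L e = 0` iff `e` is a unit at all primes of `𝓞_F` not above `S`. -/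
theorem divT_eq_zero_iff (e : L.units.V) :
    divT L e = 0 ↔ ∀ w : PrimeOut S L.F,
      w.1.valuation L.F ((((toField L e).toMul : (L.F)ˣ) : L.F)) = 1 := by
  constructor
  · intro h w
    rw [← ordAt_eq_zero_iff]
    have := DFunLike.congr_fun h w
    exact this
  · intro h
    refine Finsupp.ext fun w => ?_
    show ordAt w.1 (toField L e) = 0
    rw [ordAt_eq_zero_iff]
    exact h w

/-- **GAD-SU.**  The dictionary of `S`-units. -/
theorem sUnitDict (S : Finset Nat.Primes) : GAD.SUnitDictSpec S := by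
  intro L e
  have hx0 : ((((toField L e).toMul : (L.F)ˣ) : L.F)) ≠ 0 := Units.ne_zero _
  rw [divT_eq_zero_iff]
  constructor
  · intro h ℓ hℓ A hA
    let w : HeightOneSpectrum (𝓞 L.F) := placeUnder (K := L.F) A ℓ ℓ.2 hA
    have hw : ∀ b : 𝓞 L.F, b ∈ w.asIdeal ↔ algebraMap L.F Qbar (b : L.F) ∈ A.nonunits :=
      fun b => mem_placeUnder
    have hout : ¬ IsAbove S L.F w := by
      rintro ⟨q, hqS, hq⟩
      have := eq_of_natCast_mem A w hw ℓ.2 q.2 hA hq
      exact hℓ ((Subtype.ext this : q = ℓ) ▸ hqS)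
    have h1 := (valuation_eq_one_iff_mem_and_inv_mem A w hw hx0).1 (h ⟨w, hout⟩)
    rw [algebraMap_toField] at h1
    refine ⟨h1.1, ?_⟩
    have : (((L.val e)⁻¹ : Qbarˣ) : Qbar) = ((L.val e : Qbarˣ) : Qbar)⁻¹ := Units.val_inv_eq_inv_val _
    rw [this]
    exact h1.2
  · intro h w
    obtain ⟨A, hw⟩ := exists_valuationSubring_over (K := L.F) Qbar w.1
    obtain ⟨ℓ, hℓ⟩ := exists_prime_natCast_mem w.1
    have hA : A.LiesOverPrime (ℓ : ℕ) := by
      have h1 := (hw _).1 hℓ
      have h2 : algebraMap L.F Qbar ((((ℓ : ℕ) : 𝓞 L.F)) : L.F) = ((ℓ : ℕ) : Qbar) := by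
        rw [show ((((ℓ : ℕ) : 𝓞 L.F)) : L.F) = ((ℓ : ℕ) : L.F) from
          map_natCast (algebraMap (𝓞 L.F) L.F) ℓ, map_natCast]
      rw [h2] at h1
      exact h1
    have hℓS : ℓ ∉ S := fun hS => w.2 ⟨ℓ, hS, hℓ⟩
    obtain ⟨h1, h2⟩ := h ℓ hℓS A hA
    rw [valuation_eq_one_iff_mem_and_inv_mem A w.1 hw hx0, algebraMap_toField]
    refine ⟨h1, ?_⟩
    have : (((L.val e)⁻¹ : Qbarˣ) : Qbar) = ((L.val e : Qbarˣ) : Qbar)⁻¹ := Units.val_inv_eq_inv_val _
    rw [← this]
    exact h2

end Tower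

end Fermat.Agent.S55.GAD.H175

end
-- ===== PACK-END S55/GAD/SUnitH175.lean

-- ===== PACK-BEGIN S55/G/Rec/Loc/UnifH544.lean
section




/-!
# S55 / G / REC / LOC, leaf LOC-UNIF (helper544): `UnifSpec`

`theorem unif_of (hO : OpenSpec) : UnifSpec`, and, with `H478.openSpec`, the unconditional
`theorem unif : UnifSpec`.

Proof.  Let `χ : V → ℤ/n` be unramified, `c = π ∪ δχ` level-constant.
1. `χ` is continuous (`exists_level_of_cupChar544`: level-constancy of `c`, `π` is not a root of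
   unity).
2. `χ` is trivial on `V ∩ Gal(ℚ̄_q / K(μ_r))` for some `r` prime to `q`
   (`exists_cyclotomic_level544`: infinite Galois theory + Teichmüller representatives).
   Level `E := K(μ_r)`, finite Galois over `K = K_V`; `χ` descends to `χ_E` on `Gal(E/K)`.
3. `E / K` is unramified (`isUnramifiedExt_cycLevel544`: trivial inertia), the restriction
   `φ_E` of the Frobenius is a Frobenius element and generates `Gal(E/K)`.
4. `f := cupChar π χ_E` inflates to `c`; with the generating character `ψ` (`ψ φ_E = 1`),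
   `cupChar π ψ` is the cyclic cocycle of `(φ_E, π)`, of invariant `1 / d` (`J.inv_unramified`),
   and `[f] = (χ̃(φ) d / n) • [cupChar π ψ]` (`cc_eq_nsmul_cc544`).
-/

set_option autoImplicit false
set_option linter.unusedSectionVars false
set_option linter.style.haveILetI false

noncomputable section

namespace Fermat.Agent.S55.G.Rec.Loc.H544

open groupCohomology Fermat.Agent.S55 Fermat.Agent.S55.G.Rec Fermat.Agent.S55.G.Rec.Loc

/-- Arithmetic in `ℚ/ℤ`. -/
theorem nsmul_inv_eq544 {s d a n : ℕ} (hd : d ≠ 0) (hn : n ≠ 0) (h : s * n = a * d) :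
    s • (((d : ℚ)⁻¹ : ℚ) : AddCircle (1 : ℚ)) = (((a : ℚ) / (n : ℚ) : ℚ) : AddCircle (1 : ℚ)) := by
  rw [← AddCircle.coe_nsmul]
  congr 1
  have hd' : (d : ℚ) ≠ 0 := Nat.cast_ne_zero.2 hd
  have hn' : (n : ℚ) ≠ 0 := Nat.cast_ne_zero.2 hn
  have h' : (s : ℚ) * n = a * d := by exact_mod_cast h
  rw [nsmul_eq_mul]
  field_simp
  linarith

/-- A fixed unit as an invariant of `L.unitsRep`. -/
def unitsInvariant544 {K M : Type} [Field K] [Field M] [Algebra K M] (u : Mˣ)
    (hu : ∀ g : M ≃ₐ[K] M, g • u = u) : (L.unitsRep K M).ρ.invariants :=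
  invariantOfFixed u hu

theorem cupChar_unitsInvariant544 {K M : Type} [Field K] [Field M] [Algebra K M] {n : ℕ}
    [NeZero n] (χ : (M ≃ₐ[K] M) →* Multiplicative (ZMod n)) (u : Mˣ)
    (hu : ∀ g : M ≃ₐ[K] M, g • u = u) (g h : M ≃ₐ[K] M) :
    (cupChar (L.unitsRep K M) χ (unitsInvariant544 u hu) :
      (M ≃ₐ[K] M) × (M ≃ₐ[K] M) → L.unitsRep K M) (g, h) =
      Additive.ofMul (u ^ carry χ g h) := rfl

/-- **LOC-UNIF.** -/
theorem unif_of (hO : OpenSpec) : UnifSpec := by
  intro q _ V _ hV n _ χ hχ φ hφ π hπ c hc J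
  -- the structure of `V` and of `K = K_V`
  obtain ⟨hKfin, hKfix⟩ := hO q V hV
  haveI := hKfin
  obtain ⟨A, hA, hAmem⟩ := L.exists_ringOfIntegers_eq_unitBall63 q (fixedFld q V)
  obtain ⟨hdvr, hcomp, hfinres⟩ := id hA
  haveI := hdvr
  haveI := hcomp
  haveI := hfinres
  obtain ⟨hπfix, hπ0, hπ1, hπmax⟩ := hπ
  -- continuity and the level
  have hcont := exists_level_of_cupChar544 q V n χ π hπ1 c hc
  obtain ⟨r, hr, hqr, hrχ⟩ := exists_cyclotomic_level544 q hO V hV n χ hχ hcont
  haveI := normal_cycLevel544 q V r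
  haveI := finiteDimensional_cycLevel544 q V r
  haveI := isGalois_cycLevel544 q V r
  have hsurj := resHom_surjective544 q V hKfix (cycLevel544 q V r)
  have hker : (resHom q V (cycLevel544 q V r)).ker ≤ χ.ker := by
    intro g hg
    rw [MonoidHom.mem_ker] at hg ⊢
    exact hrχ g fun ζ hζ => fixes_of_resHom_eq_one544 q V hr g hg ζ hζ
  have hχE_res : ∀ g, descChar544 q V (cycLevel544 q V r) χ hsurj hker
      (resHom q V (cycLevel544 q V r) g) = χ g :=
    descChar_resHom544 q V (cycLevel544 q V r) χ hsurj hker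
  have hcomp' : (descChar544 q V (cycLevel544 q V r) χ hsurj hker).comp
      (resHom q V (cycLevel544 q V r)) = χ := MonoidHom.ext hχE_res
  -- the uniformizer as an element of `K` and of `E`
  have hπK : (π : PadicAlgCl q) ∈ fixedFld q V :=
    (IntermediateField.mem_fixedField_iff _ _).2 hπfix
  have hπK0 : (⟨π, hπK⟩ : fixedFld q V) ≠ 0 := fun h => hπ0 (congrArg Subtype.val h)
  obtain ⟨πK, hπKdef⟩ : ∃ πK : (fixedFld q V)ˣ, (πK : fixedFld q V) = ⟨π, hπK⟩ :=
    ⟨Units.mk0 _ hπK0, rfl⟩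
  obtain ⟨πE, hπEdef⟩ : ∃ πE : (↥(cycLevel544 q V r))ˣ, πE =
      Units.map (algebraMap (fixedFld q V) (cycLevel544 q V r) :
        fixedFld q V →* cycLevel544 q V r) πK := ⟨_, rfl⟩
  have hπEincl : unitsIncl q V (cycLevel544 q V r) πE = π := by
    apply Units.ext
    rw [hπEdef]
    show ((algebraMap (fixedFld q V) (cycLevel544 q V r) (πK : fixedFld q V) :
      cycLevel544 q V r) : PadicAlgCl q) = π
    rw [hπKdef]
    rfl
  have hinv : ∀ g : cycLevel544 q V r ≃ₐ[fixedFld q V] cycLevel544 q V r, g • πE = πE := by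
    intro g
    apply Units.ext
    rw [hπEdef]
    exact g.commutes _
  -- the cocycles
  obtain ⟨a, ha⟩ : ∃ a : (L.unitsRep (fixedFld q V) (cycLevel544 q V r)).ρ.invariants,
      a = unitsInvariant544 πE hinv := ⟨_, rfl⟩
  refine ⟨cycLevel544 q V r, inferInstance, inferInstance,
    cupChar (L.unitsRep (fixedFld q V) (cycLevel544 q V r))
      (descChar544 q V (cycLevel544 q V r) χ hsurj hker) a, ?_, ?_⟩
  · -- inflation
    funext ⟨g, h⟩
    rw [isCupChar_apply544 hc, toLMod_nsmul544]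
    show toLMod q V (π ^ carry χ g h) = Additive.ofMul (unitsIncl q V (cycLevel544 q V r)
      (Additive.toMul (cupChar (L.unitsRep (fixedFld q V) (cycLevel544 q V r))
        (descChar544 q V (cycLevel544 q V r) χ hsurj hker) a
        (resHom q V (cycLevel544 q V r) g, resHom q V (cycLevel544 q V r) h))))
    rw [ha, cupChar_unitsInvariant544 (K := ↥(fixedFld q V)) (M := ↥(cycLevel544 q V r)),
      toMul_ofMul, map_pow, hπEincl, ← carry_comp, hcomp']
    rfl
  · -- the invariant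
    have hunr : L.IsUnramifiedExt (fixedFld q V) (cycLevel544 q V r) :=
      isUnramifiedExt_cycLevel544 A hAmem hr hqr
    have hfrobE := isFrobeniusElt544 A hAmem (cycLevel544 q V r) φ hφ
    have hgen := frobenius_generates544 A hAmem (cycLevel544 q V r) hKfix hunr φ hφ
    have hπunif : L.IsUniformizer A (πK : fixedFld q V) := by
      rw [hπKdef]
      exact isUniformizer_of_norm544 A hAmem ⟨π, hπK⟩ hπK0 hπ1 fun x hx =>
        hπmax _ ((IntermediateField.mem_fixedField_iff _ _).1 x.2) hx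
    haveI : NeZero (Module.finrank (fixedFld q V) (cycLevel544 q V r)) :=
      ⟨Module.finrank_pos.ne'⟩
    obtain ⟨ψ, hψ⟩ := exists_isGenChar (resHom q V (cycLevel544 q V r) ⟨φ, hφ.1⟩) hgen
      (IsGalois.card_aut_eq_finrank (fixedFld q V) (cycLevel544 q V r))
    -- the cyclic cocycle
    have hcyc : L.IsCyclicCocycle (resHom q V (cycLevel544 q V r) ⟨φ, hφ.1⟩) πK
        (cupChar (L.unitsRep (fixedFld q V) (cycLevel544 q V r)) ψ a) := by
      intro i j hi hj
      rw [ha, cupChar_unitsInvariant544 (K := ↥(fixedFld q V)) (M := ↥(cycLevel544 q V r)),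
        carry, hψ.lift_pow_of_lt hi, hψ.lift_pow_of_lt hj]
      split_ifs with hij
      · rw [Nat.div_eq_of_lt hij, pow_zero]
        rfl
      · have h1 : (i + j) / Module.finrank (fixedFld q V) (cycLevel544 q V r) = 1 := by
          rw [Nat.div_eq_iff (Nat.pos_of_ne_zero (NeZero.ne _))]
          omega
        rw [h1, pow_one, hπEdef]
    have h1 := J.inv_unramified (fixedFld q V) (cycLevel544 q V r) hunr A hA _ hfrobE πK hπunif
      _ hcyc
    have h2 := cc_eq_nsmul_cc544 (L.unitsRep (fixedFld q V) (cycLevel544 q V r))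
      (descChar544 q V (cycLevel544 q V r) χ hsurj hker) hψ a
    have h3 : lift (descChar544 q V (cycLevel544 q V r) χ hsurj hker)
        (resHom q V (cycLevel544 q V r) ⟨φ, hφ.1⟩) =
        (Multiplicative.toAdd (χ ⟨φ, hφ.1⟩)).val := by
      rw [lift, hχE_res]
    show J.inv (fixedFld q V) (cycLevel544 q V r)
      ((H2π (L.unitsRep (fixedFld q V) (cycLevel544 q V r))).hom _) = _
    rw [h2, map_nsmul]
    have h1' : J.inv (fixedFld q V) (cycLevel544 q V r)
        ((H2π (L.unitsRep (fixedFld q V) (cycLevel544 q V r))).hom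
          (cupChar (L.unitsRep (fixedFld q V) (cycLevel544 q V r)) ψ a)) =
        (((Module.finrank (fixedFld q V) (cycLevel544 q V r) : ℚ)⁻¹ : ℚ) :
          AddCircle (1 : ℚ)) := h1
    rw [h1']
    obtain ⟨s, hs⟩ := dvd_lift_mul544
      (descChar544 q V (cycLevel544 q V r) χ hsurj hker) hψ
    have hn0 : 0 < n := Nat.pos_of_ne_zero (NeZero.ne n)
    have hs' : lift (descChar544 q V (cycLevel544 q V r) χ hsurj hker)
        (resHom q V (cycLevel544 q V r) ⟨φ, hφ.1⟩) *
        Module.finrank (fixedFld q V) (cycLevel544 q V r) / n = s := by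
      rw [hs]
      exact Nat.mul_div_cancel_left s hn0
    rw [hs']
    refine nsmul_inv_eq544 (NeZero.ne _) (NeZero.ne n) ?_
    rw [← h3, hs, mul_comm]

/-- **LOC-UNIF**, unconditional (`OpenSpec` is `H478.openSpec`). -/
theorem unif : UnifSpec := unif_of H478.openSpec

end Fermat.Agent.S55.G.Rec.Loc.H544

end
end
-- ===== PACK-END S55/G/Rec/Loc/UnifH544.lean

-- ===== PACK-BEGIN S55/L/UnrInv/Inj.lean
section



/-!
# S55, layer L, unramified invariants: injectivity
-/

set_option autoImplicit false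
set_option linter.style.haveILetI false

namespace Fermat.Agent.S55.L.UnrInv

open groupCohomology

theorem natCast_div_coe_eq_zero {n k : ℕ} (hk : k < n)
    (h : ((((k : ℚ) / (n : ℚ) : ℚ)) : AddCircle (1 : ℚ)) = 0) : k = 0 := by
  rw [AddCircle.coe_eq_zero_iff] at h
  obtain ⟨z, hz⟩ := h
  have hn : (0 : ℚ) < n := by
    have : 0 < n := by omega
    exact_mod_cast this
  have h1 : (z : ℚ) * n = k := by
    have : (z : ℚ) = (k : ℚ) / n := by simpa using hz
    rw [this]
    field_simp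
  have h2 : z * (n : ℤ) = (k : ℤ) := by exact_mod_cast h1
  have h3 : z = 0 := by
    by_contra hz0
    rcases lt_or_gt_of_ne hz0 with hneg | hpos
    · have : z * (n : ℤ) < 0 := by
        have hnz : (0 : ℤ) < n := by exact_mod_cast (by omega : 0 < n)
        exact Int.mul_neg_of_neg_of_pos hneg hnz
      omega
    · have : (n : ℤ) ≤ z * (n : ℤ) := by
        have hnz : (0 : ℤ) ≤ n := by positivity
        nlinarith
      omega
  rw [h3, zero_mul] at h2
  exact_mod_cast h2.symm

/-- An additive map from a group of order `≤ n` to `ℚ/ℤ` taking the value `1/n` is injective. -/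
theorem injective_of_card_le {G : Type*} [AddCommGroup G] [Finite G] {n : ℕ} (hn : 0 < n)
    (hcard : Nat.card G ≤ n) (ψ : G →+ AddCircle (1 : ℚ)) (g : G)
    (hg : ψ g = (((n : ℚ)⁻¹ : ℚ) : AddCircle (1 : ℚ))) : Function.Injective ψ := by
  have hψ : ∀ k : ℕ, ψ (k • g) = ((((k : ℚ) / (n : ℚ) : ℚ)) : AddCircle (1 : ℚ)) := by
    intro k
    rw [map_nsmul, hg, ← AddCircle.coe_nsmul, nsmul_eq_mul, div_eq_mul_inv]
  have hinj : Function.Injective (fun k : Fin n => (k : ℕ) • g) := by
    have key : ∀ a b : ℕ, a ≤ b → b < n → a • g = b • g → a = b := by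
      intro a b hab hb h
      have h1 : ψ ((b - a) • g) = 0 := by
        have : (b - a) • g + a • g = b • g := by
          rw [← add_nsmul, Nat.sub_add_cancel hab]
        have h2 : ψ ((b - a) • g) + ψ (a • g) = ψ (b • g) := by rw [← map_add, this]
        rw [h] at h2
        exact add_eq_right.mp h2
      rw [hψ] at h1
      have := natCast_div_coe_eq_zero (by omega : b - a < n) h1
      omega
    intro a b h
    apply Fin.ext
    rcases le_total (a : ℕ) (b : ℕ) with hab | hab
    · exact key a b hab b.2 h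
    · exact (key b a hab a.2 h.symm).symm
  have hbij : Function.Bijective (fun k : Fin n => (k : ℕ) • g) := by
    apply Function.Injective.bijective_of_nat_card_le hinj
    simpa using hcard
  rw [injective_iff_map_eq_zero]
  intro x hx
  obtain ⟨k, rfl⟩ := hbij.2 x
  simp only at hx ⊢
  rw [hψ] at hx
  rw [natCast_div_coe_eq_zero k.2 hx, zero_smul]

variable {K E : Type} [Field K] [Field E] [Algebra K E]

namespace UnrPack

variable (P : UnrPack K E)

theorem isFrobeniusElt : IsFrobeniusElt K E P.φ := ⟨P.A, P.B, P.hA, P.hB, P.frob⟩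

/-- **Injectivity** of the invariant map of an unramified extension. -/
theorem inv_injective [FiniteDimensional K E] [IsGalois K E] [IsLocalFld K]
    (h0 : RingOfIntegersUniqueSpec) (h1 : FiniteExtSpec) (h2 : H2CyclicSpec) :
    Function.Injective P.inv := by
  obtain ⟨eqv⟩ := h2 K E
  have hn : 0 < Module.finrank K E := Module.finrank_pos
  haveI : NeZero (Module.finrank K E) := ⟨hn.ne'⟩
  haveI : Finite (H2 (unitsRep K E)) := Finite.of_equiv _ eqv.symm.toEquiv
  have hcard : Nat.card (H2 (unitsRep K E)) ≤ Module.finrank K E := by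
    rw [Nat.card_congr eqv.toEquiv, Nat.card_zmod]
  obtain ⟨π, hπ⟩ := exists_isUniformizer P.A P.hA.1
  have hπ0 : π ≠ 0 := uniformizer_ne_zero P.A hπ
  exact injective_of_card_le hn hcard P.inv
    (cls (G.Rec.H541.cyclicCocycle P.φ P.gen (Units.mk0 π hπ0)))
    (P.inv_cyclic h0 h1 P.A P.hA P.φ P.isFrobeniusElt (Units.mk0 π hπ0) hπ _
      (G.Rec.H541.isCyclicCocycle_cyclicCocycle P.φ P.gen (Units.mk0 π hπ0)))

end UnrPack

end Fermat.Agent.S55.L.UnrInv

end
-- ===== PACK-END S55/L/UnrInv/Inj.lean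

-- ===== PACK-BEGIN S55/GAD/DescH177/Arith.lean
section



/-!
# S55 / G-ADAPTER, leaf GAD-DESC (helper177), part 2: arithmetic descent

For levels `L ≤ L'` (`H = Level.relGal h = Gal(L'/L)` acting on `L'.F`, base field `L.F`):

* `relGal_isGaloisGroup : IsGaloisGroup H L.F L'.F`;
* `exists_divTr_eq_of_fixed : Div^S(F')^H = divTr (Div^S(F))` (unramifiedness outside `S`);
* `hilbert90_units : H¹(H, F'ˣ) = 0` in cocycle form, for the tower module `L'.units`.

Uses helper773's descent toolkit (`G/DescH773`).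
-/

set_option autoImplicit false
set_option linter.unusedSectionVars false
set_option linter.style.haveILetI false

open scoped NumberField
open CategoryTheory IsDedekindDomain

namespace Fermat.Agent.S55.GAD.H177

open Fermat.Agent.S55 Fermat.Agent.S55.Tow Fermat.Agent.S55.E1.H594 Fermat.Agent.S55.G
open Fermat.Agent.S55.GAD

noncomputable section

variable {S : Finset Nat.Primes} {L L' : Level S} (h : L ≤ L')

/-- `Gal(F'/F)` is a Galois group for `F'/F`. -/
theorem relGal_isGaloisGroup :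
    letI := GAD.levelAlgebra h
    IsGaloisGroup (Level.relGal h) L.F L'.F := by
  letI := GAD.levelAlgebra h
  have hfix : ∀ x : L'.F, (∀ n : Level.relGal h, (n : L'.Gal) • x = x) ↔
      x ∈ (algebraMap L.F L'.F).range := level_relGal_fixed_iff h
  have hfixN : ∀ (n : Level.relGal h) (k : L.F),
      (n : L'.Gal) • algebraMap L.F L'.F k = algebraMap L.F L'.F k := fun n k =>
    ((hfix (algebraMap L.F L'.F k)).2 ⟨k, rfl⟩) n
  exact
    { faithful := ⟨fun {a b} hab =>
        Subtype.ext (eq_of_smul_eq_smul (α := L'.F) fun x => hab x)⟩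
      commutes := ⟨fun n k x => by
        change (n : L'.Gal) • (k • x) = k • ((n : L'.Gal) • x)
        rw [Algebra.smul_def, Algebra.smul_def, smul_mul', hfixN]⟩
      isInvariant := ⟨fun x hx => by
        obtain ⟨k, hk⟩ := (hfix x).1 hx
        exact ⟨k, hk⟩⟩ }


/-- A level `F'` is unramified over any sublevel `F` at the primes outside `S`. -/
theorem eAt_eq_one (w : PrimeOut S L'.F) :
    letI := GAD.levelAlgebra h
    DescH773.eAt L.F w.1 = 1 := by
  letI := GAD.levelAlgebra h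
  haveI := relGal_isGaloisGroup h
  refine DescH773.eAt_eq_one_of_inertia (Level.relGal h) L.F w.1 fun n hn => ?_
  have h1 : ∀ x : L'.F, (n : L'.Gal) • x = x := level_isUnramOut L' w.1 w.2 (n : L'.Gal) hn
  have h2 : (n : L'.Gal) = 1 := eq_of_smul_eq_smul (α := L'.F) fun x => by rw [h1 x, one_smul]
  exact Subtype.ext h2

theorem underPrime_eq_primeUnder (w : HeightOneSpectrum (𝓞 L'.F)) :
    letI := GAD.levelAlgebra h
    GAD.underPrime L.F L'.F w = DescH773.primeUnder L.F w := by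
  letI := GAD.levelAlgebra h
  exact HeightOneSpectrum.ext rfl

theorem ramIdx_eq_eAt (w : HeightOneSpectrum (𝓞 L'.F)) :
    letI := GAD.levelAlgebra h
    GAD.ramIdx L.F L'.F w = DescH773.eAt L.F w := by
  letI := GAD.levelAlgebra h
  unfold GAD.ramIdx DescH773.eAt
  rw [underPrime_eq_primeUnder]

theorem underOut_eq_primeOutUnder (w : PrimeOut S L'.F) :
    letI := GAD.levelAlgebra h
    GAD.underOut S L.F L'.F w = DescH773.primeOutUnder S L.F L'.F w := by
  letI := GAD.levelAlgebra h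
  exact Subtype.ext (underPrime_eq_primeUnder h w.1)

theorem divTr_eq_divBase (d : PrimeOut S L.F →₀ ℤ) :
    letI := GAD.levelAlgebra h
    divTr h d = DescH773.divBase S L.F L'.F d := by
  letI := GAD.levelAlgebra h
  ext w
  change GAD.divExt S L.F L'.F d w = _
  rw [GAD.divExt_apply, DescH773.divBase_apply, ramIdx_eq_eAt, underOut_eq_primeOutUnder]

theorem divTr_injective : Function.Injective (divTr h) :=
  @GAD.divExt_injective S L.F L'.F _ _ _ _ (GAD.levelAlgebra h)

/-- `Div^S(F')^{Gal(F'/F)} = divTr (Div^S(F))`. -/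
theorem exists_divTr_eq_of_fixed (d : PrimeOut S L'.F →₀ ℤ)
    (hd : ∀ n : L'.Gal, n ∈ Level.relGal h → divRepr S L'.Gal L'.F n d = d) :
    ∃ d₀ : PrimeOut S L.F →₀ ℤ, divTr h d₀ = d := by
  letI := GAD.levelAlgebra h
  haveI := relGal_isGaloisGroup h
  have hd' : ∀ n : Level.relGal h, divRepr S (Level.relGal h) L'.F n d = d := fun n => by
    rw [DescH773.divRepr_subgroup]
    exact hd n.1 n.2
  obtain ⟨d₀, hd₀⟩ := DescH773.exists_divBase_eq_of_fixed S (Level.relGal h) L.F L'.F
    (eAt_eq_one h) d hd'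
  exact ⟨d₀, by rw [_root_.Fermat.Agent.S55.GAD.H177.divTr_eq_divBase, hd₀]⟩

/-! ## Hilbert 90 -/

theorem toField_surjective (L : Level S) : Function.Surjective (toField L) := by
  intro u
  refine ⟨(levelUnitsIso L).hom.hom u, ?_⟩
  exact Rep.inv_hom_apply _ _ (levelUnitsIso L) u

/-- Hilbert 90 for `F'/F` in the tower language: a `1`-cocycle `Gal(F'/F) → F'ˣ` is a
coboundary. -/
theorem hilbert90_units (z : Level.relGal h → L'.units.V)
    (hz : ∀ n m : Level.relGal h, z (n * m) = z n + L'.units.ρ (n : L'.Gal) (z m)) :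
    ∃ w : L'.units.V, ∀ n : Level.relGal h, z n = L'.units.ρ (n : L'.Gal) w - w := by
  letI := GAD.levelAlgebra h
  haveI := relGal_isGaloisGroup h
  obtain ⟨β, hβ⟩ := DescH773.hilbert90 (Level.relGal h) L.F L'.F (fun n => toField L' (z n))
    (fun n m => by
      change toField L' (z (n * m)) = toField L' (z n) + lRepr L'.Gal L'.F (n : L'.Gal) _
      rw [hz, map_add, toField_equivariant])
  obtain ⟨w, rfl⟩ := toField_surjective L' β
  refine ⟨w, fun n => ?_⟩
  apply toField_injective L'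
  rw [map_sub, toField_equivariant]
  exact hβ n

end

end Fermat.Agent.S55.GAD.H177

end
-- ===== PACK-END S55/GAD/DescH177/Arith.lean

-- ===== PACK-BEGIN S56/H419/H0Ind.lean
section




/-!
# S56 / W-BASE / leaf EUL-H0, part 2 (helper419): `H⁰` of induced modules, with the
right-translation action

PT vocabulary (`Fermat.Agent.S55.PT`): `indRep U M = (G ⧸ U →₀ M)` with the diagonal action.
For `U` normal and `σ : G`, right translation by `σ⁻¹`,

  `indR U M σ : single (gU) m ↦ single (g σ⁻¹ U) m`,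

is an equivariant automorphism of `indRep U M` (`indR_equivariant`), and `σ ↦ indR U M σ` is
multiplicative (`indR_one`, `indR_mul`): this is the `G ⧸ U`-module structure on `Ind_U M`
"by functoriality in the coefficients".

Results (all equivalences are explicit and intertwine the right translations):

* `indH0Equiv : H⁰(G, Ind_U M) ≃ M^U`, `a ↦ a(U)`; `indR σ` becomes `M.ρ σ`
  (`indH0Equiv_indR`);
* `subInv D U M` := the `a` with `a (d • x) = a x` for `d ∈ D`; `subInvEquiv : subInv D U M ≃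
  (D\G/U →₀ M)`, `indR σ` becomes `mapDomain (dcPerm D U σ)` (`subInvEquiv_indR`);
* if `M` is trivial on the image of `r : G' → G` then `H⁰(G', (Ind_U M)|_{G'}) = subInv r.range`
  (`resH0_eq_subInv`), whence `resIndH0Equiv`;
* if `c` acts by `-1` on `M` then `(Ind_U M)^{c=-1} = subInv ⟨c⟩` (`minusPart_eq_subInv`),
  whence `minusIndEquiv`.
-/

set_option autoImplicit false
set_option linter.style.haveILetI false

noncomputable section

namespace Fermat.Agent.S56.H419

open Fermat.Agent.S55.PT groupCohomology MulAction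

variable {k : Type} [Field k] {G : Type} [Group G]

/-! ### right translations on `G ⧸ U` -/

section RightTr

variable (U : Subgroup G) [U.Normal]

/-- Right translation by `σ⁻¹` on `G ⧸ U`: `gU ↦ g σ⁻¹ U`. -/
def rightTr (σ : G) : Equiv.Perm (G ⧸ U) := Equiv.mulRight ((σ : G ⧸ U)⁻¹)

@[simp] theorem rightTr_apply (σ : G) (x : G ⧸ U) : rightTr U σ x = x * (σ : G ⧸ U)⁻¹ := rfl

@[simp] theorem rightTr_symm_apply (σ : G) (x : G ⧸ U) :
    (rightTr U σ).symm x = x * (σ : G ⧸ U) := by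
  simp [rightTr]

theorem rightTr_mk (σ g : G) : rightTr U σ (g : G ⧸ U) = ((g * σ⁻¹ : G) : G ⧸ U) := rfl

theorem smul_eq_mk_mul (g : G) (x : G ⧸ U) : g • x = (g : G ⧸ U) * x := by
  induction x using QuotientGroup.induction_on with
  | H a => rfl

theorem rightTr_smul (σ g : G) (x : G ⧸ U) : rightTr U σ (g • x) = g • rightTr U σ x := by
  simp only [rightTr_apply, smul_eq_mk_mul, mul_assoc]

theorem rightTr_one : rightTr U (1 : G) = 1 := by
  ext x
  simp

theorem rightTr_mul (σ τ : G) : rightTr U (σ * τ) = rightTr U σ * rightTr U τ := by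
  ext x
  simp [mul_assoc]

end RightTr

/-! ### the right-translation action on `Ind_U M` -/

section IndR

variable (U : Subgroup G) [U.Normal] (M : Rep.{0, 0, 0} k G)

/-- Right translation by `σ⁻¹` on `Ind_U M`. -/
def indR (σ : G) : ((G ⧸ U) →₀ M) →ₗ[k] ((G ⧸ U) →₀ M) :=
  Finsupp.lmapDomain M k (rightTr U σ)

@[simp] theorem indR_single (σ : G) (x : G ⧸ U) (m : M) :
    indR U M σ (Finsupp.single x m) = Finsupp.single (rightTr U σ x) m := by
  rw [indR, Finsupp.lmapDomain_apply, Finsupp.mapDomain_single]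

theorem indR_eq_mapDomain (σ : G) (a : (G ⧸ U) →₀ M) :
    indR U M σ a = Finsupp.mapDomain (rightTr U σ) a := rfl

theorem indR_apply (σ : G) (a : (G ⧸ U) →₀ M) (x : G ⧸ U) :
    indR U M σ a x = a (x * (σ : G ⧸ U)) := by
  rw [indR_eq_mapDomain, mapDomain_perm_apply, rightTr_symm_apply]

theorem indR_equivariant (σ : G) :
    IsEquivariant (A := indRep U M) (B := indRep U M) (indR U M σ) := by
  intro g
  have : (indR U M σ) ∘ₗ (indAct U M g) = (indAct U M g) ∘ₗ (indR U M σ) := by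
    apply Finsupp.lhom_ext
    intro x m
    rw [LinearMap.comp_apply, LinearMap.comp_apply, indAct_single, indR_single, indR_single,
      indAct_single, rightTr_smul]
  exact fun a => LinearMap.congr_fun this a

theorem indR_one : indR U M (1 : G) = LinearMap.id := by
  apply Finsupp.lhom_ext
  intro x m
  simp [rightTr_one]

theorem indR_mul (σ τ : G) : indR U M (σ * τ) = indR U M σ ∘ₗ indR U M τ := by
  apply Finsupp.lhom_ext
  intro x m
  simp [rightTr_mul]

/-- `indR` only depends on the class of `σ` modulo `U`. -/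
theorem indR_congr {σ τ : G} (h : (σ : G ⧸ U) = (τ : G ⧸ U)) : indR U M σ = indR U M τ := by
  apply Finsupp.lhom_ext
  intro x m
  simp [h]

end IndR

/-! ### evaluation of the diagonal action -/

section Eval

variable (U : Subgroup G) (M : Rep.{0, 0, 0} k G)

theorem indAct_apply (g : G) (a : (G ⧸ U) →₀ M) (x : G ⧸ U) :
    indAct U M g a (g • x) = M.ρ g (a x) := by
  rw [indAct, LinearMap.comp_apply, Finsupp.lmapDomain_apply,
    Finsupp.mapDomain_apply (MulAction.injective g), Finsupp.mapRange.linearMap_apply,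
    Finsupp.mapRange_apply]

theorem indRep_ρ_apply (g : G) (a : (G ⧸ U) →₀ M) (x : G ⧸ U) :
    ((indRep U M).ρ g a : (G ⧸ U) →₀ M) (g • x) = M.ρ g (a x) :=
  indAct_apply U M g a x

/-- `g` fixes `a` iff `a (g • x) = g (a x)` for all `x`. -/
theorem indAct_eq_self_iff (g : G) (a : (G ⧸ U) →₀ M) :
    indAct U M g a = a ↔ ∀ x : G ⧸ U, a (g • x) = M.ρ g (a x) := by
  constructor
  · intro h x
    rw [← indAct_apply U M g a x, h]
  · intro h
    ext x
    have hx : x = g • (g⁻¹ • x) := by rw [smul_inv_smul]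
    rw [hx, indAct_apply, h]

/-- `g a = -a` iff `a (g • x) = -g (a x)` for all `x`. -/
theorem indAct_eq_neg_iff (g : G) (a : (G ⧸ U) →₀ M) :
    indAct U M g a = -a ↔ ∀ x : G ⧸ U, a (g • x) = -M.ρ g (a x) := by
  constructor
  · intro h x
    have := indAct_apply U M g a x
    rw [h, Finsupp.neg_apply] at this
    rw [← this, neg_neg]
  · intro h
    ext x
    have hx : x = g • (g⁻¹ • x) := by rw [smul_inv_smul]
    rw [hx, indAct_apply, Finsupp.neg_apply, h, neg_neg]

end Eval

/-! ### global invariants: `H⁰(G, Ind_U M) = M^U` -/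

section Global

variable (U : Subgroup G) (M : Rep.{0, 0, 0} k G)

/-- The `U`-invariants of `M`. -/
def invU : Submodule k M where
  carrier := {m | ∀ u ∈ U, M.ρ u m = m}
  add_mem' := by
    intro a b ha hb u hu
    rw [map_add, ha u hu, hb u hu]
  zero_mem' := by
    intro u _
    rw [map_zero]
  smul_mem' := by
    intro c a ha u hu
    rw [map_smul, ha u hu]

variable {U M} in
theorem mem_invU {m : M} : m ∈ invU U M ↔ ∀ u ∈ U, M.ρ u m = m := Iff.rfl

/-- `M^U` is stable under `G` when `U` is normal. -/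
theorem ρ_mem_invU [U.Normal] (σ : G) {m : M} (hm : m ∈ invU U M) : M.ρ σ m ∈ invU U M := by
  intro u hu
  have h1 : σ⁻¹ * u * σ ∈ U := by
    have := (inferInstance : U.Normal).conj_mem u hu σ⁻¹
    simpa using this
  have h2 : u * σ = σ * (σ⁻¹ * u * σ) := by group
  calc M.ρ u (M.ρ σ m) = M.ρ (u * σ) m := by rw [map_mul]; rfl
    _ = M.ρ (σ * (σ⁻¹ * u * σ)) m := by rw [h2]
    _ = M.ρ σ (M.ρ (σ⁻¹ * u * σ) m) := by rw [map_mul]; rfl
    _ = M.ρ σ m := by rw [hm _ h1]

/-- The action of `σ` on `M^U` (`U` normal). -/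
def invUAct [U.Normal] (σ : G) : ↥(invU U M) →ₗ[k] ↥(invU U M) :=
  (M.ρ σ).restrict fun _ hm => ρ_mem_invU U M σ hm

@[simp] theorem coe_invUAct [U.Normal] (σ : G) (m : ↥(invU U M)) :
    (invUAct U M σ m : M) = M.ρ σ m.1 := rfl

theorem mem_H0_indRep_iff (a : (G ⧸ U) →₀ M) :
    (a : indRep U M) ∈ LevelSys.H0 (indRep U M) ↔
      ∀ (g : G) (x : G ⧸ U), a (g • x) = M.ρ g (a x) := by
  constructor
  · intro h g
    exact (indAct_eq_self_iff U M g a).1 (h g)
  · intro h g
    exact (indAct_eq_self_iff U M g a).2 (h g)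

/-- the function `gU ↦ g m` attached to a `U`-invariant `m` -/
def orbitFun (m : ↥(invU U M)) : G ⧸ U → M :=
  Quotient.lift (s := QuotientGroup.leftRel U) (fun g : G => M.ρ g m.1) (by
    intro a b hab'
    have hab : a⁻¹ * b ∈ U := QuotientGroup.leftRel_apply.mp hab'
    have hb : b = a * (a⁻¹ * b) := by group
    show M.ρ a m.1 = M.ρ b m.1
    conv_rhs => rw [hb, map_mul]
    show M.ρ a m.1 = M.ρ a (M.ρ (a⁻¹ * b) m.1)
    rw [m.2 _ hab])

@[simp] theorem orbitFun_mk (m : ↥(invU U M)) (g : G) :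
    orbitFun U M m (g : G ⧸ U) = M.ρ g m.1 := rfl

theorem orbitFun_smul (m : ↥(invU U M)) (g : G) (x : G ⧸ U) :
    orbitFun U M m (g • x) = M.ρ g (orbitFun U M m x) := by
  induction x using QuotientGroup.induction_on with
  | H a =>
    show M.ρ (g * a) m.1 = M.ρ g (M.ρ a m.1)
    rw [map_mul]; rfl

/-- **Global invariants.** `H⁰(G, Ind_U M) ≃ M^U`, `a ↦ a(U)`. -/
def indH0Equiv [U.FiniteIndex] : ↥(LevelSys.H0 (indRep U M)) ≃ₗ[k] ↥(invU U M) where
  toFun a := ⟨(a.1 : (G ⧸ U) →₀ M) ((1 : G) : G ⧸ U), by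
    intro u hu
    have h := (mem_H0_indRep_iff U M a.1).1 a.2 u ((1 : G) : G ⧸ U)
    rw [← h]
    congr 1
    show ((u * 1 : G) : G ⧸ U) = ((1 : G) : G ⧸ U)
    rw [mul_one, QuotientGroup.eq]
    simpa using hu⟩
  map_add' _ _ := rfl
  map_smul' _ _ := rfl
  invFun m := ⟨(Finsupp.equivFunOnFinite.symm (orbitFun U M m) : (G ⧸ U) →₀ M), by
    rw [mem_H0_indRep_iff]
    intro g x
    simp only [Finsupp.equivFunOnFinite_symm_apply_apply]
    exact orbitFun_smul U M m g x⟩
  left_inv a := by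
    apply Subtype.ext
    apply Finsupp.ext
    intro x
    induction x using QuotientGroup.induction_on with
    | H g =>
      have h := (mem_H0_indRep_iff U M a.1).1 a.2 g ((1 : G) : G ⧸ U)
      show (Finsupp.equivFunOnFinite.symm (orbitFun U M _) : (G ⧸ U) →₀ M) (g : G ⧸ U) = _
      rw [Finsupp.equivFunOnFinite_symm_apply_apply, orbitFun_mk]
      show M.ρ g ((a.1 : (G ⧸ U) →₀ M) ((1 : G) : G ⧸ U)) = _
      rw [← h]
      congr 1
      show ((g * 1 : G) : G ⧸ U) = (g : G ⧸ U)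
      rw [mul_one]
  right_inv m := by
    apply Subtype.ext
    show (Finsupp.equivFunOnFinite.symm (orbitFun U M m) : (G ⧸ U) →₀ M) ((1 : G) : G ⧸ U) = m.1
    rw [Finsupp.equivFunOnFinite_symm_apply_apply, orbitFun_mk, map_one]
    rfl

@[simp] theorem coe_indH0Equiv [U.FiniteIndex] (a : ↥(LevelSys.H0 (indRep U M))) :
    (indH0Equiv U M a : M) = (a.1 : (G ⧸ U) →₀ M) ((1 : G) : G ⧸ U) := rfl

/-- **Intertwining (global).** Under `H⁰(G, Ind_U M) ≃ M^U` the right translation `indR σ`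
is the action of `σ` on `M^U`. -/
theorem indH0Equiv_indR [U.Normal] [U.FiniteIndex] (σ : G)
    (a : ↥(LevelSys.H0 (indRep U M))) :
    indH0Equiv U M (pushH0 (A := indRep U M) (B := indRep U M) (indR U M σ)
      (indR_equivariant U M σ) a) = invUAct U M σ (indH0Equiv U M a) := by
  apply Subtype.ext
  rw [coe_indH0Equiv, coe_invUAct, coe_indH0Equiv]
  show indR U M σ (a.1 : (G ⧸ U) →₀ M) ((1 : G) : G ⧸ U) = _
  rw [indR_apply]
  have h := (mem_H0_indRep_iff U M a.1).1 a.2 σ ((1 : G) : G ⧸ U)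
  rw [← h, smul_eq_mk_mul, QuotientGroup.mk_one, one_mul, mul_one]

end Global

/-! ### invariants under a subgroup acting trivially on the coefficients -/

section Sub

variable (D : Subgroup G) (U : Subgroup G) (M : Rep.{0, 0, 0} k G)

/-- The double cosets `D \ G / U`, as the orbits of `D` on `G ⧸ U`. -/
abbrev DC : Type := orbitRel.Quotient D (G ⧸ U)

/-- The elements of `Ind_U M` which are constant on the `D`-orbits of `G ⧸ U`. -/
abbrev subInv : Submodule k ((G ⧸ U) →₀ M) := orbitInv k D (G ⧸ U) M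

theorem mem_subInv_iff (a : (G ⧸ U) →₀ M) :
    a ∈ subInv D U M ↔ ∀ d ∈ D, ∀ x : G ⧸ U, a (d • x) = a x := by
  constructor
  · intro h d hd x
    exact h ⟨d, hd⟩ x
  · intro h d x
    exact h d.1 d.2 x

/-- `subInv D U M ≃ (D\G/U →₀ M)`. -/
def subInvEquiv [U.FiniteIndex] : ↥(subInv D U M) ≃ₗ[k] (DC D U →₀ M) :=
  orbitInvEquiv k D (G ⧸ U) M

@[simp] theorem subInvEquiv_apply_mk [U.FiniteIndex] (a : ↥(subInv D U M)) (x : G ⧸ U) :
    subInvEquiv D U M a (Quotient.mk (orbitRel D (G ⧸ U)) x) = a.1 x :=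
  orbitInvEquiv_apply_mk k D (G ⧸ U) M a x

theorem rightTr_subgroup_smul [U.Normal] (σ : G) (d : D) (x : G ⧸ U) :
    rightTr U σ (d • x) = d • rightTr U σ x :=
  rightTr_smul U σ d.1 x

/-- The permutation of `D\G/U` induced by right translation by `σ⁻¹`. -/
def dcPerm [U.Normal] (σ : G) : Equiv.Perm (DC D U) :=
  orbitPerm (rightTr U σ) (rightTr_subgroup_smul D U σ)

@[simp] theorem dcPerm_mk [U.Normal] (σ : G) (x : G ⧸ U) :
    dcPerm D U σ (Quotient.mk (orbitRel D (G ⧸ U)) x) =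
      Quotient.mk (orbitRel D (G ⧸ U)) (x * (σ : G ⧸ U)⁻¹) := rfl

@[simp] theorem dcPerm_symm_mk [U.Normal] (σ : G) (x : G ⧸ U) :
    (dcPerm D U σ).symm (Quotient.mk (orbitRel D (G ⧸ U)) x) =
      Quotient.mk (orbitRel D (G ⧸ U)) (x * (σ : G ⧸ U)) := by
  show Quotient.mk (orbitRel D (G ⧸ U)) ((rightTr U σ).symm x) = _
  rw [rightTr_symm_apply]

theorem dcPerm_one [U.Normal] : dcPerm D U (1 : G) = 1 := by
  ext ω
  induction ω using Quotient.inductionOn with
  | h x => simp

theorem dcPerm_mul [U.Normal] (σ τ : G) : dcPerm D U (σ * τ) = dcPerm D U σ * dcPerm D U τ := by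
  ext ω
  induction ω using Quotient.inductionOn with
  | h x => simp [mul_assoc]

theorem indR_mem_subInv [U.Normal] (σ : G) {a : (G ⧸ U) →₀ M} (ha : a ∈ subInv D U M) :
    indR U M σ a ∈ subInv D U M :=
  mapDomain_mem_orbitInv (rightTr U σ) (rightTr_subgroup_smul D U σ) ha

/-- Right translation on `subInv D U M`. -/
def subInvR [U.Normal] (σ : G) : ↥(subInv D U M) →ₗ[k] ↥(subInv D U M) :=
  (indR U M σ).restrict fun _ ha => indR_mem_subInv D U M σ ha

@[simp] theorem coe_subInvR [U.Normal] (σ : G) (a : ↥(subInv D U M)) :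
    (subInvR D U M σ a : (G ⧸ U) →₀ M) = indR U M σ a.1 := rfl

/-- **Intertwining (double cosets).** Under `subInv D U M ≃ (D\G/U →₀ M)` the right translation
`indR σ` is the permutation map of `dcPerm D U σ`. -/
theorem subInvEquiv_indR [U.Normal] [U.FiniteIndex] (σ : G) (a : ↥(subInv D U M)) :
    subInvEquiv D U M (subInvR D U M σ a) =
      Finsupp.mapDomain (dcPerm D U σ) (subInvEquiv D U M a) :=
  orbitInvEquiv_mapDomain (rightTr U σ) (rightTr_subgroup_smul D U σ) a

theorem finrank_subInv [U.FiniteIndex] [Module.Finite k M] :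
    Module.finrank k ↥(subInv D U M) = Nat.card (DC D U) * Module.finrank k M :=
  finrank_orbitInv

end Sub

/-! ### local invariants, trivial coefficients -/

section Local

variable {G' : Type} [Group G'] (r : G' →* G) (U : Subgroup G) (M : Rep.{0, 0, 0} k G)

/-- If the image of `r` acts trivially on `M`, then `H⁰(G', (Ind_U M)|_{G'})` consists of the
functions constant on the orbits of `r.range`. -/
theorem resH0_eq_subInv (hM : ∀ (g : G') (m : M), M.ρ (r g) m = m) :
    (LevelSys.H0 (Rep.res r (indRep U M)) : Submodule k ((G ⧸ U) →₀ M)) =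
      subInv r.range U M := by
  ext a
  rw [mem_subInv_iff]
  constructor
  · intro h d hd x
    obtain ⟨g, rfl⟩ := hd
    have h1 : indAct U M (r g) a = a := h g
    rw [(indAct_eq_self_iff U M (r g) a).1 h1 x, hM]
  · intro h g
    show indAct U M (r g) a = a
    rw [indAct_eq_self_iff]
    intro x
    rw [h (r g) ⟨g, rfl⟩ x, hM]

/-- **Local invariants.** If the image of `r` acts trivially on `M`:
`H⁰(G', (Ind_U M)|_{G'}) ≃ (r(G')\G/U →₀ M)`. -/
def resIndH0Equiv [U.FiniteIndex] (hM : ∀ (g : G') (m : M), M.ρ (r g) m = m) :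
    ↥(LevelSys.H0 (Rep.res r (indRep U M))) ≃ₗ[k] (DC r.range U →₀ M) :=
  (LinearEquiv.ofEq _ _ (resH0_eq_subInv r U M hM)).trans (subInvEquiv r.range U M)

@[simp] theorem resIndH0Equiv_apply_mk [U.FiniteIndex]
    (hM : ∀ (g : G') (m : M), M.ρ (r g) m = m)
    (a : ↥(LevelSys.H0 (Rep.res r (indRep U M)))) (x : G ⧸ U) :
    resIndH0Equiv r U M hM a (Quotient.mk (orbitRel r.range (G ⧸ U)) x) =
      (a.1 : (G ⧸ U) →₀ M) x := by
  simp [resIndH0Equiv]

theorem indR_res_equivariant [U.Normal] (σ : G) :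
    IsEquivariant (A := Rep.res r (indRep U M)) (B := Rep.res r (indRep U M)) (indR U M σ) :=
  fun g a => indR_equivariant U M σ (r g) a

/-- **Intertwining (local).** -/
theorem resIndH0Equiv_indR [U.Normal] [U.FiniteIndex]
    (hM : ∀ (g : G') (m : M), M.ρ (r g) m = m) (σ : G)
    (a : ↥(LevelSys.H0 (Rep.res r (indRep U M)))) :
    resIndH0Equiv r U M hM
        (pushH0 (A := Rep.res r (indRep U M)) (B := Rep.res r (indRep U M)) (indR U M σ)
          (indR_res_equivariant r U M σ) a) =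
      Finsupp.mapDomain (dcPerm r.range U σ) (resIndH0Equiv r U M hM a) := by
  ext ω
  induction ω using Quotient.inductionOn with
  | h x =>
    rw [resIndH0Equiv_apply_mk, mapDomain_perm_apply, dcPerm_symm_mk, resIndH0Equiv_apply_mk]
    exact indR_apply U M σ a.1 x

end Local

/-! ### the `(-1)`-eigenspace of an element acting by `-1` on the coefficients -/

section Minus

variable (c : G) (U : Subgroup G) (M : Rep.{0, 0, 0} k G)

/-- If `c` acts by `-1` on `M`, the `(-1)`-eigenspace of `c` on `Ind_U M` consists of the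
functions constant on the orbits of `⟨c⟩`. -/
theorem minusPart_eq_subInv (hc : ∀ m : M, M.ρ c m = -m) :
    (minusPart c (indRep U M) : Submodule k ((G ⧸ U) →₀ M)) =
      subInv (Subgroup.zpowers c) U M := by
  ext a
  rw [mem_minusPart, mem_subInv_iff]
  have key : (indRep U M).ρ c a = -a ↔ ∀ x : G ⧸ U, a (c • x) = a x := by
    show indAct U M c a = -a ↔ _
    rw [indAct_eq_neg_iff]
    simp only [hc, neg_neg]
  rw [key]
  constructor
  · intro h d hd x
    obtain ⟨n, rfl⟩ := Subgroup.mem_zpowers_iff.1 hd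
    have hpos : ∀ (j : ℕ) (y : G ⧸ U), a (c ^ j • y) = a y := by
      intro j
      induction j with
      | zero => intro y; simp
      | succ j ih =>
        intro y
        rw [pow_succ, mul_smul, ih, h]
    obtain ⟨j, rfl | rfl⟩ := Int.eq_nat_or_neg n
    · rw [zpow_natCast]
      exact hpos j x
    · rw [zpow_neg, zpow_natCast]
      have := hpos j ((c ^ j)⁻¹ • x)
      rw [smul_inv_smul] at this
      exact this.symm
  · intro h x
    exact h c (Subgroup.mem_zpowers c) x

/-- **Archimedean term.** If `c` acts by `-1` on `M`: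
`(Ind_U M)^{c=-1} ≃ (⟨c⟩\G/U →₀ M)`. -/
def minusIndEquiv [U.FiniteIndex] (hc : ∀ m : M, M.ρ c m = -m) :
    ↥(minusPart c (indRep U M)) ≃ₗ[k] (DC (Subgroup.zpowers c) U →₀ M) :=
  (LinearEquiv.ofEq _ _ (minusPart_eq_subInv c U M hc)).trans
    (subInvEquiv (Subgroup.zpowers c) U M)

@[simp] theorem minusIndEquiv_apply_mk [U.FiniteIndex] (hc : ∀ m : M, M.ρ c m = -m)
    (a : ↥(minusPart c (indRep U M))) (x : G ⧸ U) :
    minusIndEquiv c U M hc a (Quotient.mk (orbitRel (Subgroup.zpowers c) (G ⧸ U)) x) =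
      (a.1 : (G ⧸ U) →₀ M) x := by
  simp [minusIndEquiv]

theorem indR_mem_minusPart [U.Normal] (σ : G) {a : (G ⧸ U) →₀ M}
    (ha : (a : indRep U M) ∈ minusPart c (indRep U M)) :
    (indR U M σ a : indRep U M) ∈ minusPart c (indRep U M) := by
  rw [mem_minusPart] at ha ⊢
  rw [← indR_equivariant U M σ c a, ha, map_neg]

/-- Right translation on the `(-1)`-eigenspace. -/
def minusR [U.Normal] (σ : G) :
    ↥(minusPart c (indRep U M)) →ₗ[k] ↥(minusPart c (indRep U M)) :=
  (indR U M σ).restrict fun _ ha => indR_mem_minusPart c U M σ ha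

@[simp] theorem coe_minusR [U.Normal] (σ : G) (a : ↥(minusPart c (indRep U M))) :
    ((minusR c U M σ a).1 : (G ⧸ U) →₀ M) = indR U M σ a.1 := rfl

/-- **Intertwining (archimedean).** -/
theorem minusIndEquiv_indR [U.Normal] [U.FiniteIndex] (hc : ∀ m : M, M.ρ c m = -m) (σ : G)
    (a : ↥(minusPart c (indRep U M))) :
    minusIndEquiv c U M hc (minusR c U M σ a) =
      Finsupp.mapDomain (dcPerm (Subgroup.zpowers c) U σ) (minusIndEquiv c U M hc a) := by
  ext ω
  induction ω using Quotient.inductionOn with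
  | h x =>
    rw [minusIndEquiv_apply_mk, mapDomain_perm_apply, dcPerm_symm_mk, minusIndEquiv_apply_mk]
    exact indR_apply U M σ a.1 x

end Minus

end Fermat.Agent.S56.H419

end

end
-- ===== PACK-END S56/H419/H0Ind.lean

-- ===== PACK-BEGIN S56/Euler/H726/Sha1Main.lean
section


/-!
# S56 / W-BASE / Euler characteristic, leaf EUL-SHA2 (helper726): `Ш¹` vanishes for large `S′`

`N` a finite-dimensional `F_p`-representation of `G_ℚ`, trivial on `U = G_F`, `F/ℚ` finite
unramified outside `S`, and `U`-ACYCLIC: every cocycle `G_ℚ → N` vanishing on `U` is a coboundary.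

**Theorem** (`exists_sha1_eq_bot`).  There is a finite `S′ ⊇ S` such that `Ш¹_T(N) = 0` for every
finite `T ⊇ S′`.

Proof.  A class of `Ш¹_T(N)` is represented by a cocycle `c` which is a coboundary on every
decomposition group over `T`, hence (as `U` acts trivially on `N`) vanishes on `D_A ∩ U` for all
`A` over `T`; in particular it vanishes on all inertia groups outside `S`, so that `c` is an
`S`-level cocycle (`mem_Z1_of_locTriv`).  By the uniform level bound (helper901/helper593) all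
`S`-level cocycles vanish on `G_E` for one finite `E ⊇ F`.  Choose for every coset `x` of `G_E` a
prime `ℓ_x ∉ S` and a Frobenius `τ_x` over `ℓ_x` with `τ_x ^ j = x` on `E` (Frobenius division,
`Lib.Cheb` Tier 1) and put `S′ = S ∪ {ℓ_x}`.  Then for `σ ∈ U`, `x = σ G_E`:
`c σ = c (τ_x ^ j) = 0` because `τ_x ^ j ∈ D ∩ U`.  So `c` vanishes on `U` and is a coboundary.
-/

set_option autoImplicit false
set_option linter.style.haveILetI false

noncomputable section

namespace Fermat.Agent.S56.Euler.H726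

open Fermat.Agent.S55.PT groupCohomology ExtCitation
open scoped Pointwise

variable (p : ℕ) [Fact p.Prime] (S : Finset Nat.Primes) (N : Rep.{0, 0, 0} (ZMod p) _root_.Fermat.Agent.S55.PT.GQ)

/-- A `T`-level cocycle which is locally trivial at all `v ∈ T`, with values in a module which
is trivial on an `S`-level `G_F`, is an `S`-level cocycle. -/
theorem mem_Z1_of_locTriv {T : Finset Nat.Primes}
    (F : IntermediateField ℚ (AlgebraicClosure ℚ)) (hF : F.IsUnramifiedOutside S)
    (htriv : ∀ s ∈ F.fixingSubgroup, ∀ n : N, N.ρ s n = n)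
    (c : _root_.Fermat.Agent.S55.PT.GQ → N) (hc : c ∈ (globalLevels T).Z1 N) (hloc : ∀ v ∈ T, IsLocTriv N c v) :
    c ∈ (globalLevels S).Z1 N := by
  obtain ⟨hc1, W, ⟨FT, hFT, rfl⟩, hW⟩ := hc
  have hWz : FT.fixingSubgroup ≤ zeroSub N c hc1 := fun s hs => by
    show c s = 0
    have := hW 1 s hs
    rw [one_mul, coc_one N hc1] at this
    exact this
  have hin : ∀ q : Nat.Primes, q ∉ S → ∀ A : ValuationSubring (AlgebraicClosure ℚ),
      A.LiesOverPrime (q : ℕ) → A.inertiaSubgroupIn ℚ ≤ zeroSub N c hc1 := by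
    intro q hq A hA s hs
    by_cases hqT : q ∈ T
    · exact eq_zero_of_mem_decomposition N hc1 (hloc q hqT) A hA
        (inertia_le_decomposition A hs) (htriv s (hF.2 q hq A hA hs))
    · exact hWz (hFT.2 q hqT A hA hs)
  obtain ⟨L, hL, hLfix, -⟩ := Fermat.Agent.S55.Bridge.exists_level_of_subgroup S
    (zeroSub N c hc1) FT hFT.1 hWz hin
  refine ⟨hc1, L.fixingSubgroup, ⟨L, hL, rfl⟩, fun g s hs => ?_⟩
  rw [hLfix] at hs
  exact coc_mul_right_of_zero N hc1 g s hs

/-- **EUL-SHA2, general form.**  `Ш¹_T(N) = 0` for all `T ⊇ S′`, for `U`-acyclic `N`. -/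
theorem exists_sha1_eq_bot [FiniteDimensional (ZMod p) N]
    (F : IntermediateField ℚ (AlgebraicClosure ℚ)) (hF : F.IsUnramifiedOutside S)
    (htriv : ∀ s ∈ F.fixingSubgroup, ∀ n : N, N.ρ s n = n)
    (hacyc : ∀ c : _root_.Fermat.Agent.S55.PT.GQ → N, c ∈ cocycles₁ N → (∀ u ∈ F.fixingSubgroup, c u = 0) →
      c ∈ LevelSys.B1 N) :
    ∃ S' : Finset Nat.Primes, S ⊆ S' ∧
      ∀ T : Finset Nat.Primes, S' ⊆ T → Sha1 (hrl T) N = ⊥ := by
  classical
  have hUS : (globalLevels S).IsUSmooth N := ⟨F.fixingSubgroup, ⟨F, hF, rfl⟩, htriv⟩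
  obtain ⟨Lmax, hLfin, hL⟩ := Fermat.Agent.S55.PT.H593.exists_level_bound_Z1 p S N hUS
  haveI := hLfin
  haveI := hF.1
  haveI hEfin : FiniteDimensional ℚ ↥(Lmax ⊔ F) := IntermediateField.finiteDimensional_sup Lmax F
  haveI : Finite (_root_.Fermat.Agent.S55.PT.GQ ⧸ (Lmax ⊔ F).fixingSubgroup) :=
    Fermat.Agent.S55.H901.finite_quotient_fixingSubgroup (Lmax ⊔ F)
  have hfrob := fun x : _root_.Fermat.Agent.S55.PT.GQ ⧸ (Lmax ⊔ F).fixingSubgroup =>
    Fermat.Agent.Lib.Cheb.frobeniusDivision (Lmax ⊔ F) hEfin (Quotient.out x)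
      (S.image (fun q : Nat.Primes => (q : ℕ)))
  choose ℓ A τ k j hℓ hℓS hA hτ hI hk hj using hfrob
  letI := Fintype.ofFinite (_root_.Fermat.Agent.S55.PT.GQ ⧸ (Lmax ⊔ F).fixingSubgroup)
  refine ⟨S ∪ Finset.univ.image (fun x => (⟨ℓ x, hℓ x⟩ : Nat.Primes)),
    Finset.subset_union_left, fun T hT => ?_⟩
  rw [eq_bot_iff]
  intro x hx
  obtain ⟨c, rfl⟩ := (globalLevels T).H1π_surjective N x
  rw [Submodule.mem_bot, LevelSys.H1π_eq_zero_iff]
  have hloc : ∀ v ∈ T, IsLocTriv N (c : _root_.Fermat.Agent.S55.PT.GQ → N) v :=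
    fun v hv => isLocTriv_of_mem_Sha1 N T c hx v hv
  have hcS : (c : _root_.Fermat.Agent.S55.PT.GQ → N) ∈ (globalLevels S).Z1 N :=
    mem_Z1_of_locTriv p S N F hF htriv c c.2 hloc
  have hc1 : (c : _root_.Fermat.Agent.S55.PT.GQ → N) ∈ cocycles₁ N := c.2.1
  have hE : ∀ s ∈ (Lmax ⊔ F).fixingSubgroup, (c : _root_.Fermat.Agent.S55.PT.GQ → N) s = 0 := fun s hs =>
    hL ⟨c, hcS⟩ s (IntermediateField.fixingSubgroup_antitone le_sup_left hs)
  apply hacyc _ hc1
  intro σ hσ
  obtain ⟨x, hx⟩ : ∃ x : _root_.Fermat.Agent.S55.PT.GQ ⧸ (Lmax ⊔ F).fixingSubgroup, x = (σ : _root_.Fermat.Agent.S55.PT.GQ ⧸ (Lmax ⊔ F).fixingSubgroup) :=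
    ⟨_, rfl⟩
  have h1 : (Quotient.out x)⁻¹ * σ ∈ (Lmax ⊔ F).fixingSubgroup :=
    QuotientGroup.eq.1 ((QuotientGroup.out_eq' x).trans hx)
  have h2 : ((τ x) ^ (j x))⁻¹ * Quotient.out x ∈ (Lmax ⊔ F).fixingSubgroup := by
    rw [IntermediateField.mem_fixingSubgroup_iff]
    intro y hy
    have := hj x y hy
    show ((τ x) ^ (j x))⁻¹ (Quotient.out x y) = y
    rw [← this]
    exact Fermat.Agent.Lib.Cheb.H476.inv_apply_apply _ y
  have h3 : ((τ x) ^ (j x))⁻¹ * σ ∈ (Lmax ⊔ F).fixingSubgroup := by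
    have := (Lmax ⊔ F).fixingSubgroup.mul_mem h2 h1
    have e : ((τ x) ^ (j x))⁻¹ * Quotient.out x * ((Quotient.out x)⁻¹ * σ) =
        ((τ x) ^ (j x))⁻¹ * σ := by group
    rwa [e] at this
  have h4 : σ = (τ x) ^ (j x) * (((τ x) ^ (j x))⁻¹ * σ) := by group
  rw [h4, coc_mul_right_of_zero N hc1 _ _ (hE _ h3)]
  have hτD : (τ x) ^ (j x) ∈ (A x).decompositionSubgroup ℚ :=
    Subgroup.pow_mem _ (hτ x).mem_decompositionSubgroup _
  have hτU : (τ x) ^ (j x) ∈ F.fixingSubgroup := by
    have e : (τ x) ^ (j x) = σ * (((τ x) ^ (j x))⁻¹ * σ)⁻¹ := by group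
    rw [e]
    exact F.fixingSubgroup.mul_mem hσ (F.fixingSubgroup.inv_mem
      (IntermediateField.fixingSubgroup_antitone le_sup_right h3))
  have hℓT : (⟨ℓ x, hℓ x⟩ : Nat.Primes) ∈ T :=
    hT (Finset.mem_union_right _ (Finset.mem_image_of_mem _ (Finset.mem_univ x)))
  exact eq_zero_of_mem_decomposition N hc1 (hloc _ hℓT) (A x) (hA x) hτD (htriv _ hτU)

end Fermat.Agent.S56.Euler.H726

end

end
-- ===== PACK-END S56/Euler/H726/Sha1Main.lean

-- ===== PACK-BEGIN S56/Euler/H74/Cl.lean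
section





/-!
# S56 / W-BASE, leaf EUL-CL (helper74): killing `H¹_T(Ind_U 𝔼_T) = Cl_T(F)`

For every `S`-level `U = G_F` there is a finite `S' ⊇ S` such that for ALL finite `T ⊇ S'`

    `H¹_T(G_ℚ, Ind_U 𝔼_T) = 0`     (`𝔼_T = K.sUnits T`, the `T`-units of `ℚ̄`),

in cochain form: every `T`-level-constant 1-cocycle `G_ℚ → Ind_U 𝔼_T` is a coboundary
(`cl`).  In particular `H¹_T(Ind_U 𝔼_T)[p] = 0` for every `p` (`cl_tors`).

Proof: Shapiro (`ShapiroH1`), Hilbert 90 at finite level (`G.Rec.HP.exists_hilbert90_level`),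
descent of the divisor of the Hilbert-90 element to `F` (`ValDescent`: the extension is
unramified outside `T`, the class group of `F` is generated by primes above `S'`: `ClassKill`).

Nothing unproved in this file.
-/

set_option autoImplicit false
set_option linter.style.haveILetI false
set_option linter.unusedSectionVars false

open NumberField IsDedekindDomain
open scoped Pointwise

noncomputable section

namespace Fermat.Agent.S56.Euler.H74

open groupCohomology Fermat.Agent.S55 Fermat.Agent.S55.PT Fermat.Agent.S55.Bridge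

local notation "Qb" => AlgebraicClosure ℚ

attribute [local instance] isAlgebraic_Qbar isGalois_Qbar

/-! ### The unit underlying an element of `𝔼_T` -/

section unitOf

variable (T : Finset Nat.Primes)

/-- The unit of `ℚ̄` underlying an element of `𝔼_T`. -/
def unitOf (x : K.sUnits T) : Qbˣ := Additive.toMul (K.sUnitsIncl T x)

lemma unitOf_isSUnit (x : K.sUnits T) : K.IsSUnit T (unitOf T x) := x.2

lemma unitOf_injective : Function.Injective (unitOf T) := fun _ _ h =>
  Subtype.val_injective (Additive.toMul.injective h)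

lemma unitOf_ρ (g : _root_.Fermat.Agent.S55.PT.GQ) (x : K.sUnits T) : unitOf T ((K.sUnits T).ρ g x) = g • unitOf T x := rfl

lemma unitOf_add (x y : K.sUnits T) : unitOf T (x + y) = unitOf T x * unitOf T y := rfl

lemma unitOf_sub (x y : K.sUnits T) : unitOf T (x - y) = unitOf T x / unitOf T y := rfl

/-- An element of `𝔼_T` from a `T`-unit. -/
def ofUnit (u : Qbˣ) (hu : K.IsSUnit T u) : K.sUnits T := ⟨Additive.ofMul u, hu⟩

lemma unitOf_ofUnit (u : Qbˣ) (hu : K.IsSUnit T u) : unitOf T (ofUnit T u hu) = u := rfl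

end unitOf

/-- `G_F` has finite index. -/
lemma finiteIndex_fixingSubgroup (F : IntermediateField ℚ Qb) [FiniteDimensional ℚ F] :
    F.fixingSubgroup.FiniteIndex := by
  haveI : Finite (_root_.Fermat.Agent.S55.PT.GQ ⧸ F.fixingSubgroup) :=
    Subgroup.quotient_finite_of_isOpen F.fixingSubgroup F.fixingSubgroup_isOpen
  exact Subgroup.finiteIndex_of_finite_quotient

section

variable (F : IntermediateField ℚ Qb) [FiniteDimensional ℚ F]

attribute [local instance] H594.numberField_of_finite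

/-- **Part C.**  A `T`-level-constant 1-cocycle `G_F → 𝔼_T` is a coboundary, if the class group
of `F` is killed by `T`. -/
theorem exists_coboundary_on (T : Finset Nat.Primes) (hF : F.IsUnramifiedOutside T)
    (N : ℕ) (hNT : ∀ q : Nat.Primes, (q : ℕ) ∣ N → q ∈ T)
    (hgen : ∀ 𝔭 : HeightOneSpectrum (𝓞 F), (N : 𝓞 F) ∉ 𝔭.asIdeal →
      ∃ π : 𝓞 F, π ∈ 𝔭.asIdeal ∧ π ∉ 𝔭.asIdeal ^ 2 ∧
        ∀ 𝔮 : HeightOneSpectrum (𝓞 F), 𝔮 ≠ 𝔭 → (N : 𝓞 F) ∉ 𝔮.asIdeal → π ∉ 𝔮.asIdeal)
    (c : _root_.Fermat.Agent.S55.PT.GQ → K.sUnits T)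
    (hcoc : ∀ h ∈ F.fixingSubgroup, ∀ h' ∈ F.fixingSubgroup,
      c (h * h') = (K.sUnits T).ρ h (c h') + c h)
    (hlc : ∃ W ∈ (globalLevels T).levels, ∀ h : _root_.Fermat.Agent.S55.PT.GQ, ∀ s ∈ W, c (h * s) = c h) :
    ∃ e : K.sUnits T, ∀ h ∈ F.fixingSubgroup, c h = (K.sUnits T).ρ h e - e := by
  classical
  obtain ⟨W, ⟨L₀, hL₀, rfl⟩, hW⟩ := hlc
  -- a Galois level below `F` and `L₀`
  obtain ⟨L, hL, hLgal, hle⟩ := exists_galois_level_ge T (F ⊔ L₀) (hF.sup hL₀)
  haveI : FiniteDimensional ℚ L := hL.1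
  haveI : IsGalois ℚ L := hLgal
  have hLnorm : @Normal ℚ L _ _ (IntermediateField.algebra' L) := by
    have e : (IntermediateField.algebra' L : Algebra ℚ L) = DivisionRing.toRatAlgebra :=
      Subsingleton.elim _ _
    rw [e]
    exact IsGalois.to_normal
  have hLF : L.fixingSubgroup ≤ F.fixingSubgroup :=
    IntermediateField.fixingSubgroup_antitone (le_sup_left.trans hle)
  have hLL₀ : L.fixingSubgroup ≤ L₀.fixingSubgroup :=
    IntermediateField.fixingSubgroup_antitone (le_sup_right.trans hle)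
  -- Hilbert 90
  let β : ↥F.fixingSubgroup → Qbˣ := fun h => unitOf T (c h)
  have hβcoc : ∀ n n' : ↥F.fixingSubgroup, β (n * n') = (n : _root_.Fermat.Agent.S55.PT.GQ) • β n' * β n := by
    intro n n'
    show unitOf T (c ((n : _root_.Fermat.Agent.S55.PT.GQ) * (n' : _root_.Fermat.Agent.S55.PT.GQ))) = _
    rw [hcoc n n.2 n' n'.2, unitOf_add, unitOf_ρ]
  have hβconst : ∀ n s : ↥F.fixingSubgroup, (s : _root_.Fermat.Agent.S55.PT.GQ) ∈ L.fixingSubgroup → β (n * s) = β n := by
    intro n s hs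
    show unitOf T (c ((n : _root_.Fermat.Agent.S55.PT.GQ) * (s : _root_.Fermat.Agent.S55.PT.GQ))) = unitOf T (c n)
    rw [hW n s (hLL₀ hs)]
  obtain ⟨a, ha⟩ := @G.Rec.HP.exists_hilbert90_level ℚ Qb _ _ _ _ F.fixingSubgroup L _ hLnorm
    hLF β hβcoc hβconst
  -- `a ∈ L`
  have hβ1 : β 1 = 1 := by
    rw [ha 1]
    simp
  have haL : (a : Qb) ∈ L := by
    apply mem_of_fixed_by_fixingSubgroup
    intro s hs
    have h1 := hβconst 1 ⟨s, hLF hs⟩ hs
    rw [one_mul, hβ1, ha ⟨s, hLF hs⟩] at h1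
    have h2 : s • a = a := div_eq_one.1 h1
    exact congrArg Units.val h2
  -- invariance of the divisor
  have hinv : ∀ h ∈ F.fixingSubgroup, K.IsSUnit T (h • a / a) := by
    intro h hh
    rw [← ha ⟨h, hh⟩]
    exact unitOf_isSUnit T _
  obtain ⟨b, hb⟩ := exists_descent F T L hF hL N hNT hgen a haL hinv
  refine ⟨ofUnit T (a / toQb F b) hb, fun h hh => ?_⟩
  apply unitOf_injective
  rw [unitOf_sub, unitOf_ρ, unitOf_ofUnit, smul_div', smul_toQb F h hh, div_div_div_cancel_right]
  exact ha ⟨h, hh⟩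

end

/-- The primes dividing `N`, as a finite set of `Nat.Primes`. -/
def primesOf (N : ℕ) : Finset Nat.Primes :=
  N.primeFactors.subtype Nat.Prime

lemma mem_primesOf {N : ℕ} (hN : N ≠ 0) (q : Nat.Primes) (hq : (q : ℕ) ∣ N) :
    q ∈ primesOf N := by
  have hmem : (q : ℕ) ∈ N.primeFactors := Nat.mem_primeFactors.2 ⟨q.2, hq, hN⟩
  exact Finset.mem_subtype.2 hmem

/-- **EUL-CL.**  For every `S`-level `U` there is a finite `S' ⊇ S` such that for all `T ⊇ S'`
every `T`-level-constant 1-cocycle with values in `Ind_U 𝔼_T` is a coboundary: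
`H¹_T(Ind_U 𝔼_T) = Cl_T(K_U) = 0`. -/
theorem cl (S : Finset Nat.Primes) (U : Subgroup _root_.Fermat.Agent.S55.PT.GQ) (hU : U ∈ (globalLevels S).levels) :
    ∃ S' : Finset Nat.Primes, S ⊆ S' ∧ ∀ T : Finset Nat.Primes, S' ⊆ T →
      ∀ z ∈ (globalLevels T).Z1 (K.indG U (K.sUnits T)),
        z ∈ LevelSys.B1 (K.indG U (K.sUnits T)) := by
  classical
  obtain ⟨F, hF, rfl⟩ := hU
  haveI : FiniteDimensional ℚ F := hF.1
  haveI : NumberField F := H594.numberField_of_finite F
  obtain ⟨N, hN, hgen⟩ := exists_prime_generators F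
  refine ⟨S ∪ primesOf N, Finset.subset_union_left, fun T hT z hz => ?_⟩
  have hFT : F.IsUnramifiedOutside T := hF.mono (Finset.subset_union_left.trans hT)
  have hNT : ∀ q : Nat.Primes, (q : ℕ) ∣ N → q ∈ T := fun q hq =>
    hT (Finset.mem_union_right _ (mem_primesOf hN q hq))
  haveI : F.fixingSubgroup.FiniteIndex := finiteIndex_fixingSubgroup F
  obtain ⟨hzc, hzl⟩ := (Submodule.mem_inf.1 hz)
  have hzc' := (mem_cocycles₁_iff z).1 hzc
  -- the component at the trivial coset
  let c : _root_.Fermat.Agent.S55.PT.GQ → K.sUnits T := fun h =>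
    coef F.fixingSubgroup (K.sUnits T) (z h) ((1 : _root_.Fermat.Agent.S55.PT.GQ) : _root_.Fermat.Agent.S55.PT.GQ ⧸ F.fixingSubgroup)
  have hcoc : ∀ h ∈ F.fixingSubgroup, ∀ h' ∈ F.fixingSubgroup,
      c (h * h') = (K.sUnits T).ρ h (c h') + c h := by
    intro h hh h' _
    show coef _ _ (z (h * h')) _ = _
    rw [hzc' h h', coef_add, coef_ρ]
    have : h⁻¹ • ((1 : _root_.Fermat.Agent.S55.PT.GQ) : _root_.Fermat.Agent.S55.PT.GQ ⧸ F.fixingSubgroup) = ((1 : _root_.Fermat.Agent.S55.PT.GQ) : _root_.Fermat.Agent.S55.PT.GQ ⧸ F.fixingSubgroup) := by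
      rw [MulAction.Quotient.smul_mk, smul_eq_mul, mul_one, ← one_mul h⁻¹]
      exact QuotientGroup.mk_mul_of_mem 1 (inv_mem hh)
    rw [this]
  have hlc : ∃ W ∈ (globalLevels T).levels, ∀ h : _root_.Fermat.Agent.S55.PT.GQ, ∀ s ∈ W, c (h * s) = c h := by
    obtain ⟨W, hW, hconst⟩ := hzl
    exact ⟨W, hW, fun h s hs => by show coef _ _ (z (h * s)) _ = coef _ _ (z h) _; rw [hconst h s hs]⟩
  obtain ⟨e, he⟩ := exists_coboundary_on F T hFT N hNT hgen c hcoc hlc
  exact mem_B1_indG_of_component F.fixingSubgroup (K.sUnits T) z hzc e he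

/-- **EUL-CL, `p`-torsion form**: `H¹_T(Ind_U 𝔼_T)[p] = 0` for `T ⊇ S'`. -/
theorem cl_tors (S : Finset Nat.Primes) (U : Subgroup _root_.Fermat.Agent.S55.PT.GQ) (hU : U ∈ (globalLevels S).levels) :
    ∃ S' : Finset Nat.Primes, S ⊆ S' ∧ ∀ T : Finset Nat.Primes, S' ⊆ T → ∀ p : ℕ,
      ∀ z ∈ (globalLevels T).Z1 (K.indG U (K.sUnits T)),
        p • z ∈ LevelSys.B1 (K.indG U (K.sUnits T)) →
          z ∈ LevelSys.B1 (K.indG U (K.sUnits T)) := by
  obtain ⟨S', hS, h⟩ := cl S U hU
  exact ⟨S', hS, fun T hT _ z hz _ => h T hT z hz⟩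

end Fermat.Agent.S56.Euler.H74

end

end
-- ===== PACK-END S56/Euler/H74/Cl.lean

-- ===== PACK-BEGIN S56/Final.lean
section



/-!
# Row S56 — FINAL reduction (row-lead helper956)

`S56 ⇐ LocMin + LocOrdP + LocFlatP + Base + RecQ`  (the five open Props of `H716/{SBSpec,GWSpec}.lean`).
Everything else (P1, P3, TWP, DICT and all glue) is proved.

`Fermat/Agent/S56.lean` will be

    exact Fermat.Agent.S56.result_of_inputs
      (Fermat.Agent.S56.tangentBoundOrd_of_five  locMin locOrdP  base recQ)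
      (Fermat.Agent.S56.tangentBoundFlat_of_five locMin locFlatP base recQ)
      Fermat.Agent.S56.powerSeriesSurj Fermat.Agent.S56.twPrimes
      p hp2 hp𝒪 ρbar habs hdet hsplit hTW S Smin hpSmin hSmin hS hmin
-/

set_option autoImplicit false

namespace Fermat.Agent.S56

/-- (TB-ord) from the open Props. -/
theorem tangentBoundOrd_of_five (hmin : H716.LocMinStatement) (hord : H716.LocOrdPStatement)
    (hb : H716.BaseStatement) (hr : H716.RecQStatement) : TangentBoundOrdStatement :=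
  H716.tangentBoundOrd_of_walls H596.dictOrd hmin hord hb hr

/-- (TB-flat) from the open Props. -/
theorem tangentBoundFlat_of_five (hmin : H716.LocMinStatement) (hflat : H716.LocFlatPStatement)
    (hb : H716.BaseStatement) (hr : H716.RecQStatement) : TangentBoundFlatStatement :=
  H716.tangentBoundFlat_of_walls H596.dictFlat hmin hflat hb hr

end Fermat.Agent.S56

end
-- ===== PACK-END S56/Final.lean

-- ===== PACK-BEGIN S53/Abstract6.lean
section


set_option autoImplicit false
set_option linter.unusedSectionVars false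
set_option linter.unusedVariables false
set_option linter.style.haveILetI false

namespace Fermat.Agent.S53

open IsLocalRing GaloisRep CA

theorem isLocalHom_of_surjective_algHom {R A B : Type} [CommRing R] [CommRing A] [IsLocalRing A]
    [CommRing B] [Nontrivial B] [Algebra R A] [Algebra R B] (f : A →ₐ[R] B)
    (hf : Function.Surjective f) : IsLocalHom (f : A →+* B) :=
  IsLocalHom.of_surjective (f : A →+* B) hf

section

variable {𝒪 : Type} [CommRing 𝒪] [IsDomain 𝒪] [IsDiscreteValuationRing 𝒪]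
  [IsAdicComplete (IsLocalRing.maximalIdeal 𝒪) 𝒪] [Finite (IsLocalRing.ResidueField 𝒪)]
variable {ι : Type} {c : ι → 𝒪} {L : PointFamily 𝒪 ι} (hL : IsRigidFamily 𝒪 ι c L)
variable {d : ℕ} {idx : Fin d → ι} (hsep : Sep c L idx)

include hL hsep

/-- the universal point is a point -/
theorem xu_mem :
    haveI := isLocalRing_Iinf hL hsep
    L (xu hL hsep) := by
  haveI := isLocalRing_Iinf hL hsep
  haveI : IsAdicComplete (maximalIdeal (PS 𝒪 d ⧸ Iinf c L idx)) (PS 𝒪 d ⧸ Iinf c L idx) :=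
    ps_quot_isAdicComplete _
  rw [hL.limit (ps_quot_isLocalHom _) (ps_quot_residue_surjective _)]
  intro B _ _ _ hB q hq hqsurj
  obtain ⟨n, hn⟩ := test_pow_eq_bot hB
  have hkill : ∀ u ∈ maximalIdeal (PS 𝒪 d ⧸ Iinf c L idx) ^ (n + 1), q u = 0 := by
    intro u hu
    have h1 : q u ∈ (maximalIdeal (PS 𝒪 d ⧸ Iinf c L idx) ^ (n + 1)).map
        (q : (PS 𝒪 d ⧸ Iinf c L idx) →+* B) := Ideal.mem_map_of_mem _ hu
    rw [Ideal.map_pow] at h1
    haveI := hq
    have h2 := Ideal.pow_right_mono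
      (map_maximalIdeal_le (q : (PS 𝒪 d ⧸ Iinf c L idx) →+* B)) (n + 1) h1
    have h3 : maximalIdeal B ^ (n + 1) ≤ ⊥ := hn ▸ Ideal.pow_le_pow_right (Nat.le_succ n)
    simpa using h3 h2
  let ψ : PS 𝒪 d →ₐ[𝒪] B := q.comp (Ideal.Quotient.mkₐ 𝒪 (Iinf c L idx))
  have hψ : ∀ s ∈ Imin c L idx (n + 1), ψ s = 0 := by
    intro s hs
    apply hkill
    show Ideal.Quotient.mk _ s ∈ _
    rw [mk_mem_maximalIdeal_pow, ← Imin_eq_Iinf_sup hL hsep]
    exact hs
  let q' : (PS 𝒪 d ⧸ Imin c L idx (n + 1)) →ₐ[𝒪] B :=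
    Ideal.Quotient.liftₐ (Imin c L idx (n + 1)) ψ hψ
  haveI := isLocalRing_Imin hL hsep n
  have hx := xn_spec hL hsep n
  have : (fun i => q (xu hL hsep i)) = fun i => q' (xn hL hsep n i) := by
    funext i
    rw [← xu_spec hL hsep n i]
    obtain ⟨t, ht⟩ := Ideal.Quotient.mk_surjective (xu hL hsep i)
    rw [← ht, Ideal.Quotient.factorₐ_apply_mk]
    rfl
  rw [this]
  exact hL.map hx.test hB q' (test_isLocalHom hx.test _) hx.mem

omit hsep in
/-- points over complete local algebras reduce to the base point -/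
theorem res_cnl {A : Type} [CommRing A] [IsLocalRing A] [IsNoetherianRing A]
    [IsAdicComplete (maximalIdeal A) A] [Algebra 𝒪 A]
    (hloc : IsLocalHom (algebraMap 𝒪 A))
    (hres : Function.Surjective (IsLocalRing.residue A ∘ algebraMap 𝒪 A))
    {y : ι → A} (hy : L y) (i : ι) : y i - algebraMap 𝒪 A (c i) ∈ maximalIdeal A := by
  have hne : maximalIdeal A ^ 1 ≠ ⊤ := by
    rw [pow_one]; exact Ideal.IsMaximal.ne_top inferInstance
  haveI := isLocalRing_quot hne
  have hT : IsArtinianTestAlgebra 𝒪 (A ⧸ maximalIdeal A ^ 1) := test_quotient_pow hloc hres 1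
  have hq : IsLocalHom ((Ideal.Quotient.mkₐ 𝒪 (maximalIdeal A ^ 1) :
      A →ₐ[𝒪] A ⧸ maximalIdeal A ^ 1) : A →+* A ⧸ maximalIdeal A ^ 1) :=
    isLocalHom_of_surjective_algHom _ (Ideal.Quotient.mkₐ_surjective 𝒪 _)
  have h1 := (hL.limit hloc hres y).mp hy hT (Ideal.Quotient.mkₐ 𝒪 (maximalIdeal A ^ 1)) hq
    (Ideal.Quotient.mkₐ_surjective 𝒪 _)
  have h2 := hL.res hT h1 i
  have h3 : Ideal.Quotient.mk (maximalIdeal A ^ 1) (y i - algebraMap 𝒪 A (c i)) ∈
      maximalIdeal (A ⧸ maximalIdeal A ^ 1) ^ 1 := by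
    rw [pow_one (maximalIdeal (A ⧸ maximalIdeal A ^ 1)), map_sub]
    exact h2
  rw [mk_mem_maximalIdeal_pow, sup_idem, pow_one] at h3
  exact h3

/-- **Universality.** -/
theorem xu_universal {A : Type} [CommRing A] [IsLocalRing A] [IsNoetherianRing A]
    [IsAdicComplete (maximalIdeal A) A] [Algebra 𝒪 A]
    (hloc : IsLocalHom (algebraMap 𝒪 A))
    (hres : Function.Surjective (IsLocalRing.residue A ∘ algebraMap 𝒪 A))
    (y : ι → A) (hy : L y) :
    ∃! φ : (PS 𝒪 d ⧸ Iinf c L idx) →ₐ[𝒪] A,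
      IsLocalHom (φ : (PS 𝒪 d ⧸ Iinf c L idx) →+* A) ∧ ∀ i, φ (xu hL hsep i) = y i := by
  classical
  haveI := isLocalRing_Iinf hL hsep
  have hb : ∀ l, coord c idx y l ∈ maximalIdeal A := fun l => res_cnl hL hloc hres hy (idx l)
  obtain ⟨ψ, hψloc, hψX⟩ := exists_evalS hloc (coord c idx y) hb
  -- the Artinian quotients of A
  have hne : ∀ n : ℕ, maximalIdeal A ^ (n + 1) ≠ ⊤ := fun n =>
    ne_top_of_le_ne_top (Ideal.IsMaximal.ne_top inferInstance)
      (Ideal.pow_le_self (Nat.succ_ne_zero n))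
  -- key: for every n, I_{n+1} ≤ ker (S → A/m^{n+1}) and the point is compatible
  have key : ∀ n : ℕ, ∀ t : PS 𝒪 d,
      (t ∈ Imin c L idx (n + 1) → ψ t ∈ maximalIdeal A ^ (n + 1)) ∧
      ∀ i, Ideal.Quotient.mk (Imin c L idx (n + 1)) t = xn hL hsep n i →
        ψ t - y i ∈ maximalIdeal A ^ (n + 1) := by
    intro n
    haveI := isLocalRing_quot (hne n)
    have hAn : IsArtinianTestAlgebra 𝒪 (A ⧸ maximalIdeal A ^ (n + 1)) :=
      test_quotient_pow hloc hres (n + 1)
    let qn : A →ₐ[𝒪] (A ⧸ maximalIdeal A ^ (n + 1)) := Ideal.Quotient.mkₐ 𝒪 _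
    have hqn : IsLocalHom (qn : A →+* A ⧸ maximalIdeal A ^ (n + 1)) :=
      isLocalHom_of_surjective_algHom _ (Ideal.Quotient.mkₐ_surjective 𝒪 _)
    have hyn : L (fun i => qn (y i)) :=
      (hL.limit hloc hres y).mp hy hAn qn hqn (Ideal.Quotient.mkₐ_surjective 𝒪 _)
    let ψn : PS 𝒪 d →ₐ[𝒪] (A ⧸ maximalIdeal A ^ (n + 1)) := qn.comp ψ
    have hψnX : ∀ l, ψn (MvPowerSeries.X l) = coord c idx (fun i => qn (y i)) l := by
      intro l
      rw [coord_map]
      show qn (ψ (MvPowerSeries.X l)) = _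
      rw [hψX]
    have hKne : RingHom.ker ψn ≠ ⊤ := RingHom.ker_ne_top _
    have hpow : maximalIdeal (PS 𝒪 d) ^ (n + 1) ≤ RingHom.ker ψn := by
      intro s hs
      rw [RingHom.mem_ker]
      show Ideal.Quotient.mk _ (ψ s) = 0
      rw [Ideal.Quotient.eq_zero_iff_mem]
      have h1 : ψ s ∈ (maximalIdeal (PS 𝒪 d) ^ (n + 1)).map (ψ : PS 𝒪 d →+* A) :=
        Ideal.mem_map_of_mem _ hs
      rw [Ideal.map_pow] at h1
      haveI := hψloc
      exact Ideal.pow_right_mono (map_maximalIdeal_le (ψ : PS 𝒪 d →+* A)) (n + 1) h1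
    haveI : IsLocalRing (PS 𝒪 d ⧸ RingHom.ker ψn) := isLocalRing_quot hKne
    have hTK : IsArtinianTestAlgebra 𝒪 (PS 𝒪 d ⧸ RingHom.ker ψn) :=
      ps_quot_test _ (n + 1) hpow
    let κ : (PS 𝒪 d ⧸ RingHom.ker ψn) →ₐ[𝒪] (A ⧸ maximalIdeal A ^ (n + 1)) :=
      Ideal.kerLiftAlg ψn
    have hκinj : Function.Injective κ := Ideal.kerLiftAlg_injective ψn
    have hex := exists_eq_of_coord hL hsep hAn hyn ψn hψnX
    choose s hs using hex
    let w : ι → (PS 𝒪 d ⧸ RingHom.ker ψn) := fun i => Ideal.Quotient.mk _ (s i)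
    have hκw : ∀ i, κ (w i) = qn (y i) := fun i => by
      show Ideal.kerLiftAlg ψn (Ideal.Quotient.mk _ (s i)) = _
      rw [Ideal.kerLiftAlg_mk, hs]
    have hw : L w := by
      refine hL.inj hTK hAn κ (test_isLocalHom hTK _) hκinj ?_
      have : (fun i => κ (w i)) = fun i => qn (y i) := funext hκw
      rw [this]; exact hyn
    have hwcoord : ∀ l, coord c idx w l = Ideal.Quotient.mk _ (MvPowerSeries.X l) := by
      intro l
      apply hκinj
      rw [← coord_map]
      have : (fun i => κ (w i)) = fun i => qn (y i) := funext hκw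
      rw [this, ← hψnX]
      show _ = Ideal.kerLiftAlg ψn (Ideal.Quotient.mk _ _)
      rw [Ideal.kerLiftAlg_mk]
    have hGP : GoodPt c L idx (RingHom.ker ψn) w :=
      ⟨⟨n + 1, hpow⟩, hw, hwcoord⟩
    have hGood : Good c L idx (RingHom.ker ψn) := ⟨hKne, w, hGP⟩
    have hle : Imin c L idx (n + 1) ≤ RingHom.ker ψn := Imin_le hGood hpow
    intro t
    refine ⟨fun ht => ?_, fun i hti => ?_⟩
    · have := hle ht
      rw [RingHom.mem_ker] at this
      exact Ideal.Quotient.eq_zero_iff_mem.mp this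
    · haveI := isLocalRing_Imin hL hsep n
      have h1 := (xn_spec hL hsep n).factor_eq hL hsep hGP hle i
      rw [← hti, Ideal.Quotient.factorₐ_apply_mk] at h1
      have h2 : κ (Ideal.Quotient.mk _ t) = qn (y i) := by rw [h1, hκw]
      have h3 : qn (ψ t) = qn (y i) := by
        rw [← h2]
        show _ = Ideal.kerLiftAlg ψn (Ideal.Quotient.mk _ _)
        rw [Ideal.kerLiftAlg_mk]
        rfl
      exact Ideal.Quotient.eq.mp h3
  have hpowmono : ∀ n : ℕ, maximalIdeal A ^ (n + 1) ≤ maximalIdeal A ^ n := fun n =>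
    Ideal.pow_le_pow_right (Nat.le_succ n)
  have hψI : ∀ t ∈ Iinf c L idx, ψ t = 0 := by
    intro t ht
    have : ψ t - 0 = ψ t := sub_zero _
    apply eq_of_forall_sub_mem_pow (A := A)
    intro n
    rw [sub_zero]
    exact hpowmono n ((key n t).1 (Iinf_le_Imin c L idx (n + 1) ht))
  let φ : (PS 𝒪 d ⧸ Iinf c L idx) →ₐ[𝒪] A := Ideal.Quotient.liftₐ (Iinf c L idx) ψ hψI
  have hφmk : ∀ t, φ (Ideal.Quotient.mk _ t) = ψ t := fun t => rfl
  have hφloc : IsLocalHom (φ : (PS 𝒪 d ⧸ Iinf c L idx) →+* A) := by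
    constructor
    intro a ha
    obtain ⟨t, rfl⟩ := Ideal.Quotient.mk_surjective a
    have h1 : IsUnit (ψ t) := ha
    haveI := hψloc
    have h2 : IsUnit t := isUnit_of_map_unit (ψ : PS 𝒪 d →+* A) t h1
    exact h2.map _
  have hφxu : ∀ i, φ (xu hL hsep i) = y i := by
    intro i
    obtain ⟨t, ht⟩ := Ideal.Quotient.mk_surjective (xu hL hsep i)
    rw [← ht, hφmk]
    apply eq_of_forall_sub_mem_pow (A := A)
    intro n
    refine hpowmono n ((key n t).2 i ?_)
    rw [← xu_spec hL hsep n i, ← ht, Ideal.Quotient.factorₐ_apply_mk]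
  refine ⟨φ, ⟨hφloc, hφxu⟩, ?_⟩
  rintro φ' ⟨hφ'loc, hφ'xu⟩
  apply Ideal.Quotient.algHom_ext
  have hφ'X : ∀ l, (φ'.comp (Ideal.Quotient.mkₐ 𝒪 (Iinf c L idx))) (MvPowerSeries.X l) =
      coord c idx y l := by
    intro l
    show φ' (Ideal.Quotient.mk _ (MvPowerSeries.X l)) = _
    rw [← coord_xu hL hsep l, ← coord_map]
    have : (fun i => φ' (xu hL hsep i)) = y := funext hφ'xu
    rw [this]
  have hφX : ∀ l, (φ.comp (Ideal.Quotient.mkₐ 𝒪 (Iinf c L idx))) (MvPowerSeries.X l) =
      coord c idx y l := fun l => hψX l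
  refine evalS_ext _ _ (fun l => ?_) (fun l => ?_)
  · rw [hφ'X]; exact hb l
  · rw [hφ'X, hφX]

end

end Fermat.Agent.S53

end
-- ===== PACK-END S53/Abstract6.lean

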