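import Fermat.Agent.Pack.S43GC.G0E17L2
import Fermat.Agent.Pack.S43GC.G0E7L3
import Fermat.Agent.Pack.S43GC.G0E17L0
import Fermat.Agent.Pack.S43GC.G0E13L1
import Fermat.Agent.Pack.S43GC.G0E17L3
import Fermat.Agent.Pack.S43GC.G0E0L0
import Fermat.Agent.Pack.S43GC.G0E14L0
import Fermat.Agent.Pack.S43GC.G0E17L1
import Fermat.Agent.Pack.S43GC.G0E16L3
import Fermat.Agent.Pack.S43GC.G0E11L0
import Fermat.Agent.Pack.Fast891

-- ===== PACK-BEGIN S55/PT/T2aH299/Base.lean
section


/-!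
# S55 / layer D, leaf D-T2a: the base case `Q = Ind_W (twTriv χ N₀)`

If `inv ∘ aug_* : H²(Ind_W μ) → k` is bijective (`μ = ofChar χ`), then the top pairing of
`Ind_W (twTriv χ N₀)` is bijective for every finite-dimensional vector space `N₀`
(coordinates with respect to a basis of `N₀`).
-/

set_option autoImplicit false
set_option linter.unusedSectionVars false
set_option linter.unusedSimpArgs false

noncomputable section

namespace Fermat.Agent.S55.PT.H299

open Fermat.Agent.S55.PT groupCohomology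

variable {k : Type} [Field k] {G : Type} [Group G]

section Coord

variable (χ : G →* kˣ) (W : Subgroup G)

/-- every linear map is equivariant between twisted trivial modules -/
lemma twTriv_equivariant {N₀ N₁ : Type} [AddCommGroup N₀] [Module k N₀] [AddCommGroup N₁]
    [Module k N₁] (φ : N₀ →ₗ[k] N₁) :
    IsEquivariant (A := twTriv χ N₀) (B := twTriv χ N₁) φ := by
  intro g a
  rw [twTriv_ρ_apply, twTriv_ρ_apply, map_smul]

/-- `Ind_W` of a linear map between twisted trivial modules -/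
def indTw {N₀ N₁ : Type} [AddCommGroup N₀] [Module k N₀] [AddCommGroup N₁] [Module k N₁]
    (φ : N₀ →ₗ[k] N₁) : ((G ⧸ W) →₀ N₀) →ₗ[k] ((G ⧸ W) →₀ N₁) :=
  indMap W (M := twTriv χ N₀) (N := twTriv χ N₁) φ

lemma indTw_single {N₀ N₁ : Type} [AddCommGroup N₀] [Module k N₀] [AddCommGroup N₁]
    [Module k N₁] (φ : N₀ →ₗ[k] N₁) (x : G ⧸ W) (n : N₀) :
    indTw χ W φ (Finsupp.single x n) = Finsupp.single x (φ n) :=
  indMap_single W (M := twTriv χ N₀) (N := twTriv χ N₁) φ x n

lemma indTw_equivariant {N₀ N₁ : Type} [AddCommGroup N₀] [Module k N₀] [AddCommGroup N₁]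
    [Module k N₁] (φ : N₀ →ₗ[k] N₁) :
    IsEquivariant (A := indRep W (twTriv χ N₀)) (B := indRep W (twTriv χ N₁)) (indTw χ W φ) :=
  indMap_equivariant W (M := twTriv χ N₀) (N := twTriv χ N₁) φ (twTriv_equivariant χ φ)

end Coord

section Basis

variable (χ : G →* kˣ) (W : Subgroup G) {N₀ : Type} [AddCommGroup N₀] [Module k N₀]
  {ι : Type} [Fintype ι] [DecidableEq ι] (b : Module.Basis ι k N₀)

/-- the `i`-th coordinate `Ind_W (twTriv χ N₀) → Ind_W μ` -/
def coordP (i : ι) : ((G ⧸ W) →₀ N₀) →ₗ[k] ((G ⧸ W) →₀ k) :=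
  indTw χ W (b.coord i)

/-- the `i`-th inclusion `Ind_W μ → Ind_W (twTriv χ N₀)` -/
def coordQ (i : ι) : ((G ⧸ W) →₀ k) →ₗ[k] ((G ⧸ W) →₀ N₀) :=
  indTw χ W (LinearMap.toSpanSingleton k N₀ (b i))

lemma coordP_equivariant (i : ι) :
    IsEquivariant (A := indRep W (twTriv χ N₀)) (B := indRep W (ofChar χ)) (coordP χ W b i) :=
  indTw_equivariant χ W (b.coord i)

lemma coordQ_equivariant (i : ι) :
    IsEquivariant (A := indRep W (ofChar χ)) (B := indRep W (twTriv χ N₀)) (coordQ χ W b i) :=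
  indTw_equivariant χ W (LinearMap.toSpanSingleton k N₀ (b i))

lemma sum_coordQ_coordP :
    ∑ i : ι, (coordQ χ W b i) ∘ₗ (coordP χ W b i) = LinearMap.id := by
  apply Finsupp.lhom_ext
  intro x n
  rw [LinearMap.sum_apply]
  simp only [LinearMap.comp_apply, coordP, coordQ, indTw_single, LinearMap.id_apply,
    LinearMap.toSpanSingleton_apply, Module.Basis.coord_apply]
  rw [← Finsupp.single_finsetSum, b.sum_repr]

lemma coordP_coordQ (i j : ι) :
    (coordP χ W b j) ∘ₗ (coordQ χ W b i) = if i = j then LinearMap.id else 0 := by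
  apply Finsupp.lhom_ext
  intro x c
  simp only [LinearMap.comp_apply, coordP, coordQ, indTw_single,
    LinearMap.toSpanSingleton_apply, Module.Basis.coord_apply, map_smul, Module.Basis.repr_self,
    Finsupp.smul_apply, Finsupp.single_apply, smul_eq_mul]
  by_cases h : i = j
  · simp [h]
  · simp [h]

/-- `charHom χ (Ind_W μ)` is spanned by the augmentation -/
lemma charHom_ind_eq (h : ↥(charHom χ (indRep W (ofChar χ)))) (m : (G ⧸ W) →₀ k) :
    (h : Module.Dual k ((G ⧸ W) →₀ k)) m =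
      (h : Module.Dual k ((G ⧸ W) →₀ k)) (Finsupp.single ((1 : G) : G ⧸ W) (1 : k)) *
        indAug W (ofChar χ) m := by
  have key : (h : Module.Dual k ((G ⧸ W) →₀ k)) =
      ((h : Module.Dual k ((G ⧸ W) →₀ k)) (Finsupp.single ((1 : G) : G ⧸ W) (1 : k))) •
        (indAug W (ofChar χ) : ((G ⧸ W) →₀ k) →ₗ[k] k) := by
    apply Finsupp.lhom_ext
    intro x c
    induction x using QuotientGroup.induction_on with
    | H g =>
      have h1 := h.2 g (Finsupp.single ((1 : G) : G ⧸ W) (((χ g)⁻¹ : kˣ) : k))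
      have h2 : (indRep W (ofChar χ)).ρ g
          (Finsupp.single ((1 : G) : G ⧸ W) (((χ g)⁻¹ : kˣ) : k) : (G ⧸ W) →₀ k) =
          (Finsupp.single ((g : G) : G ⧸ W) (1 : k) : (G ⧸ W) →₀ k) := by
        rw [indRep_ρ_single, ofChar_ρ_apply]
        congr 1
        · show ((g * 1 : G) : G ⧸ W) = _
          rw [mul_one]
        · rw [← Units.val_mul, mul_inv_cancel, Units.val_one]
      rw [h2] at h1
      have e1 : (Finsupp.single ((g : G) : G ⧸ W) c : (G ⧸ W) →₀ k) =
          c • (Finsupp.single ((g : G) : G ⧸ W) (1 : k) : (G ⧸ W) →₀ k) := by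
        rw [Finsupp.smul_single, smul_eq_mul, mul_one]
      have e2 : (Finsupp.single ((1 : G) : G ⧸ W) (((χ g)⁻¹ : kˣ) : k) : (G ⧸ W) →₀ k) =
          (((χ g)⁻¹ : kˣ) : k) • (Finsupp.single ((1 : G) : G ⧸ W) (1 : k) : (G ⧸ W) →₀ k) := by
        rw [Finsupp.smul_single, smul_eq_mul, mul_one]
      rw [e2, map_smul, smul_eq_mul, ← mul_assoc, ← Units.val_mul, mul_inv_cancel,
        Units.val_one, one_mul] at h1
      rw [LinearMap.smul_apply, indAug_single, e1, map_smul, h1, smul_eq_mul, smul_eq_mul,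
        mul_comm]
  conv_lhs => rw [key]
  rw [LinearMap.smul_apply, smul_eq_mul]

/-- the functional `aug ∘ coordP j ∈ charHom χ (Ind_W (twTriv χ N₀))` -/
def coordF (j : ι) : ↥(charHom χ (indRep W (twTriv χ N₀))) :=
  ⟨(indAug W (ofChar χ)) ∘ₗ (coordP χ W b j), fun g q => by
    have h1 : coordP χ W b j ((indRep W (twTriv χ N₀)).ρ g q) =
        (indRep W (ofChar χ)).ρ g (coordP χ W b j q) := coordP_equivariant χ W b j g q
    have h2 : indAug W (ofChar χ) ((indRep W (ofChar χ)).ρ g (coordP χ W b j q)) =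
        (ofChar χ).ρ g (indAug W (ofChar χ) (coordP χ W b j q)) :=
      indAug_equivariant W (ofChar χ) g (coordP χ W b j q)
    rw [LinearMap.comp_apply, h1, h2, ofChar_ρ_apply]
    rfl⟩

lemma coe_coordF (j : ι) :
    ((coordF χ W b j : ↥(charHom χ (indRep W (twTriv χ N₀)))) :
      Module.Dual k ((G ⧸ W) →₀ N₀)) = (indAug W (ofChar χ)) ∘ₗ (coordP χ W b j) := rfl

/-- every `f ∈ charHom χ (Ind_W (twTriv χ N₀))` is a combination of the `coordF j` -/
lemma charHom_eq_sum_coordF (f : ↥(charHom χ (indRep W (twTriv χ N₀)))) :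
    f = ∑ j : ι, ((f : Module.Dual k ((G ⧸ W) →₀ N₀))
      (coordQ χ W b j (Finsupp.single ((1 : G) : G ⧸ W) (1 : k)))) • coordF χ W b j := by
  apply Subtype.ext
  apply LinearMap.ext
  intro q
  rw [Submodule.coe_sum, LinearMap.sum_apply]
  have h1 : q = ∑ j : ι, coordQ χ W b j (coordP χ W b j q) := by
    have := LinearMap.congr_fun (sum_coordQ_coordP χ W b) q
    rw [LinearMap.sum_apply] at this
    simpa using this.symm
  conv_lhs => rw [h1]
  rw [map_sum]
  refine Finset.sum_congr rfl fun j _ => ?_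
  have h2 := charHom_ind_eq χ W
    (charPre χ (coordQ χ W b j) (coordQ_equivariant χ W b j) f) (coordP χ W b j q)
  rw [Submodule.coe_smul, LinearMap.smul_apply, coe_coordF, LinearMap.comp_apply, smul_eq_mul]
  exact h2

end Basis

section BaseCase

variable (L : LevelSys G) (χ : G →* kˣ) (inv : L.H2 (ofChar χ) →ₗ[k] k) (W : Subgroup G)
  {N₀ : Type} [AddCommGroup N₀] [Module k N₀]
  {ι : Type} [Fintype ι] [DecidableEq ι] (b : Module.Basis ι k N₀)

/-- `(coordP j)_*` -/
def pushP (j : ι) : L.H2 (indRep W (twTriv χ N₀)) →ₗ[k] L.H2 (indRep W (ofChar χ)) :=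
  pushH2 (A := indRep W (twTriv χ N₀)) (B := indRep W (ofChar χ)) (coordP χ W b j)
    (coordP_equivariant χ W b j) L

/-- `(coordQ i)_*` -/
def pushQ (i : ι) : L.H2 (indRep W (ofChar χ)) →ₗ[k] L.H2 (indRep W (twTriv χ N₀)) :=
  pushH2 (A := indRep W (ofChar χ)) (B := indRep W (twTriv χ N₀)) (coordQ χ W b i)
    (coordQ_equivariant χ W b i) L

/-- `aug_*` -/
def pushAug : L.H2 (indRep W (ofChar χ)) →ₗ[k] L.H2 (ofChar χ) :=
  pushH2 (A := indRep W (ofChar χ)) (B := ofChar χ) (indAug W (ofChar χ))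
    (indAug_equivariant W (ofChar χ)) L

lemma pushChar_coordF (j : ι) (x : L.H2 (indRep W (twTriv χ N₀))) :
    pushChar L χ (indRep W (twTriv χ N₀)) (coordF χ W b j) x =
      pushAug L χ W (pushP L χ W b j x) :=
  pushH2_comp (A := indRep W (twTriv χ N₀)) (B := indRep W (ofChar χ)) (C := ofChar χ) L
    (coordP_equivariant χ W b j) (indAug_equivariant W (ofChar χ))
    (charHom_equivariant χ (indRep W (twTriv χ N₀)) (coordF χ W b j).2) x

lemma eq_sum_coord (x : L.H2 (indRep W (twTriv χ N₀))) :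
    x = ∑ i : ι, pushQ L χ W b i (pushP L χ W b i x) := by
  have hid : IsEquivariant (A := indRep W (twTriv χ N₀)) (B := indRep W (twTriv χ N₀))
      (LinearMap.id : ((G ⧸ W) →₀ N₀) →ₗ[k] ((G ⧸ W) →₀ N₀)) := fun _ _ => rfl
  have hsum : IsEquivariant (A := indRep W (twTriv χ N₀)) (B := indRep W (twTriv χ N₀))
      (∑ i : ι, (coordQ χ W b i) ∘ₗ (coordP χ W b i)) := by
    rw [sum_coordQ_coordP]
    exact hid
  have h1 : pushH2 (A := indRep W (twTriv χ N₀)) (B := indRep W (twTriv χ N₀))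
      (∑ i : ι, (coordQ χ W b i) ∘ₗ (coordP χ W b i)) hsum L x = x := by
    rw [pushH2_congr (A := indRep W (twTriv χ N₀)) (B := indRep W (twTriv χ N₀)) L hsum hid
      (sum_coordQ_coordP χ W b) x]
    exact pushH2_id L hid x
  conv_lhs => rw [← h1]
  rw [pushH2_sum (A := indRep W (twTriv χ N₀)) (B := indRep W (twTriv χ N₀)) L Finset.univ
    (fun i => (coordQ χ W b i) ∘ₗ (coordP χ W b i))
    (fun i => isEquivariant_comp (A := indRep W (twTriv χ N₀)) (B := indRep W (ofChar χ))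
      (C := indRep W (twTriv χ N₀)) (coordP_equivariant χ W b i) (coordQ_equivariant χ W b i))]
  refine Finset.sum_congr rfl fun i _ => ?_
  exact pushH2_comp (A := indRep W (twTriv χ N₀)) (B := indRep W (ofChar χ))
    (C := indRep W (twTriv χ N₀)) L (coordP_equivariant χ W b i) (coordQ_equivariant χ W b i) _ x

lemma pushP_pushQ (i j : ι) (y : L.H2 (indRep W (ofChar χ))) :
    pushP L χ W b j (pushQ L χ W b i y) = if i = j then y else 0 := by
  have hcomp := isEquivariant_comp (A := indRep W (ofChar χ)) (B := indRep W (twTriv χ N₀))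
    (C := indRep W (ofChar χ)) (coordQ_equivariant χ W b i) (coordP_equivariant χ W b j)
  have h0 : pushP L χ W b j (pushQ L χ W b i y) =
      pushH2 (A := indRep W (ofChar χ)) (B := indRep W (ofChar χ))
        ((coordP χ W b j) ∘ₗ (coordQ χ W b i)) hcomp L y :=
    (pushH2_comp (A := indRep W (ofChar χ)) (B := indRep W (twTriv χ N₀))
      (C := indRep W (ofChar χ)) L (coordQ_equivariant χ W b i) (coordP_equivariant χ W b j)
      hcomp y).symm
  rw [h0]
  by_cases h : i = j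
  · have hid : IsEquivariant (A := indRep W (ofChar χ)) (B := indRep W (ofChar χ))
        (LinearMap.id : ((G ⧸ W) →₀ k) →ₗ[k] ((G ⧸ W) →₀ k)) := fun _ _ => rfl
    have e : (coordP χ W b j) ∘ₗ (coordQ χ W b i) = LinearMap.id := by
      rw [coordP_coordQ, if_pos h]
    rw [if_pos h, pushH2_congr (A := indRep W (ofChar χ)) (B := indRep W (ofChar χ)) L hcomp hid
      e y]
    exact pushH2_id L hid y
  · have e : (coordP χ W b j) ∘ₗ (coordQ χ W b i) = 0 := by
      rw [coordP_coordQ, if_neg h]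
    rw [if_neg h, pushH2_congr (A := indRep W (ofChar χ)) (B := indRep W (ofChar χ)) L hcomp
      isEquivariant_zero e y]
    obtain ⟨c, rfl⟩ := L.H2π_surjective _ y
    rw [pushH2_mk]
    have : pushZ2 (A := indRep W (ofChar χ)) (B := indRep W (ofChar χ))
        (0 : ((G ⧸ W) →₀ k) →ₗ[k] ((G ⧸ W) →₀ k)) isEquivariant_zero L c = 0 := by
      apply Subtype.ext
      funext x
      rfl
    rw [this, map_zero]

variable (hA6 : Function.Bijective (inv ∘ₗ pushAug L χ W))

include hA6 b in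
/-- base case, injectivity (with a chosen basis) -/
theorem topPair_ind_injective_aux :
    Function.Injective (topPair L χ inv (indRep W (twTriv χ N₀))) := by
  rw [injective_iff_map_eq_zero]
  intro x hx
  have hz : ∀ j : ι, pushP L χ W b j x = 0 := by
    intro j
    apply hA6.1
    rw [map_zero, LinearMap.comp_apply, ← pushChar_coordF, ← topPair_apply, hx]
    rfl
  rw [eq_sum_coord L χ W b x]
  refine Finset.sum_eq_zero fun i _ => ?_
  rw [hz i, map_zero]

include hA6 b in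
/-- base case, surjectivity (with a chosen basis) -/
theorem topPair_ind_surjective_aux :
    Function.Surjective (topPair L χ inv (indRep W (twTriv χ N₀))) := by
  intro ψ
  choose y hy using fun j : ι => hA6.2 (ψ (coordF χ W b j))
  refine ⟨∑ i : ι, pushQ L χ W b i (y i), ?_⟩
  have hj : ∀ j : ι, topPair L χ inv (indRep W (twTriv χ N₀))
      (∑ i : ι, pushQ L χ W b i (y i)) (coordF χ W b j) = ψ (coordF χ W b j) := by
    intro j
    rw [topPair_apply, pushChar_coordF, map_sum]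
    simp only [pushP_pushQ]
    rw [Finset.sum_ite_eq' Finset.univ j y, if_pos (Finset.mem_univ j)]
    exact hy j
  apply LinearMap.ext
  intro f
  obtain ⟨c, hc⟩ : ∃ c : ι → k, f = ∑ j : ι, c j • coordF χ W b j :=
    ⟨_, charHom_eq_sum_coordF χ W b f⟩
  subst hc
  generalize topPair L χ inv (indRep W (twTriv χ N₀))
    (∑ i : ι, pushQ L χ W b i (y i)) = Θ at hj ⊢
  rw [map_sum Θ, map_sum ψ]
  refine Finset.sum_congr rfl fun j _ => ?_
  rw [map_smul Θ, map_smul ψ, hj j]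

omit [Fintype ι] [DecidableEq ι] in
include hA6 in
/-- **Base case.**  If `inv ∘ aug_* : H²(Ind_W μ) → k` is bijective then the top pairing of
`Ind_W (twTriv χ N₀)` is bijective for every finite-dimensional `N₀`. -/
theorem topPair_ind_bijective [FiniteDimensional k N₀] :
    Function.Bijective (topPair L χ inv (indRep W (twTriv χ N₀))) := by
  classical
  exact ⟨topPair_ind_injective_aux L χ inv W (Module.finBasis k N₀) hA6,
    topPair_ind_surjective_aux L χ inv W (Module.finBasis k N₀) hA6⟩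

end BaseCase

end Fermat.Agent.S55.PT.H299

end

end
-- ===== PACK-END S55/PT/T2aH299/Base.lean

-- ===== PACK-BEGIN S55/H295/SplitTwin.lean
section



/-!
# The splitting module of a class module is cohomologically trivial

Let `c ∈ Z²(G, C)`.  If for a subgroup `H ≤ G`

* `H¹(H, C) = 0`, `H¹(H, k) = 0`,
* `H²(H, C)` is generated by `ρ = res_H [c]`, and `r • ρ = 0` implies `|H| ∣ r`,

then `H¹(H, C(c)) = H²(H, C(c)) = 0` (`isZero_H1_splitRep`, `isZero_H2_splitRep`).
-/

set_option autoImplicit false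
set_option linter.unusedSectionVars false

open CategoryTheory groupCohomology Rep Limits

universe u

namespace Fermat.Agent.S55.H295

open Fermat.Agent.S55.H783

noncomputable section

variable {k G : Type u} [CommRing k] [Group G] [Fintype G]
variable {C : Rep.{u} k G} (c : cocycles₂ C) (H : Subgroup G)

/-- The restricted fundamental class `res_H [c]`. -/
abbrev resClass : groupCohomology (res H.subtype C) 2 :=
  (groupCohomology.map H.subtype (𝟙 (res H.subtype C)) 2).hom (H2π C c)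

/-- The connecting homomorphism `H¹(H, I) ⟶ H²(H, C)`. -/
abbrev splitδ : groupCohomology (res H.subtype (augI k G)) 1 ⟶
    groupCohomology (res H.subtype C) 2 :=
  δ (splitSESres_shortExact c H) 1 2 rfl

lemma splitδ_surjective
    (hgen : ∀ x : groupCohomology (res H.subtype C) 2, ∃ r : k, x = r • resClass c H) :
    Function.Surjective (splitδ c H).hom := by
  intro x
  obtain ⟨r, rfl⟩ := hgen x
  refine ⟨r • H1π _ (auguH H), ?_⟩
  rw [map_smul]
  congr 1
  exact δ_split_auguH c H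

lemma splitδ_injective
    (hann : ∀ r : k, r • resClass c H = 0 → ∃ d : k, r = (Nat.card H : k) * d) :
    Function.Injective (splitδ c H).hom := by
  rw [injective_iff_map_eq_zero]
  intro y hy
  induction y using H1_induction_on with
  | h z =>
    obtain ⟨r, hr⟩ := exists_cohomologous_augu H z
    rw [hr] at hy ⊢
    rw [map_smul] at hy
    have h2 : (splitδ c H).hom (H1π _ (auguH H)) = resClass c H := δ_split_auguH c H
    rw [h2] at hy
    obtain ⟨d, rfl⟩ := hann r hy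
    rw [mul_comm, mul_smul, Nat.cast_smul_eq_nsmul,
      card_nsmul_eq_zero (res H.subtype (augI k G)) 0, smul_zero]

/-- `H¹(H, C(c)) = 0`. -/
theorem isZero_H1_splitRep
    (h1 : IsZero (groupCohomology (res H.subtype C) 1))
    (hann : ∀ r : k, r • resClass c H = 0 → ∃ d : k, r = (Nat.card H : k) * d) :
    IsZero (groupCohomology (res H.subtype (splitRep c)) 1) := by
  have hX := splitSESres_shortExact c H
  have hcomp : (mapShortComplex₃ hX (i := 1) rfl).f ≫ splitδ c H = 0 :=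
    (mapShortComplex₃ hX (i := 1) rfl).zero
  have hmono : Mono (splitδ c H) :=
    (ModuleCat.mono_iff_injective _).2 (splitδ_injective c H hann)
  have hg : (mapShortComplex₃ hX (i := 1) rfl).f = 0 :=
    @zero_of_comp_mono _ _ _ _ _ _ _ (splitδ c H) hmono hcomp
  refine (mapShortComplex₂_exact hX 1).isZero_of_both_zeros (h1.eq_zero_of_src _) ?_
  exact hg

/-- `H²(H, C(c)) = 0`. -/
theorem isZero_H2_splitRep
    (hk : IsZero (groupCohomology (res H.subtype (Rep.trivial k G k)) 1))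
    (hgen : ∀ x : groupCohomology (res H.subtype C) 2, ∃ r : k, x = r • resClass c H) :
    IsZero (groupCohomology (res H.subtype (splitRep c)) 2) := by
  have hX := splitSESres_shortExact c H
  have hcomp : splitδ c H ≫ (mapShortComplex₁ hX (i := 1) rfl).g = 0 :=
    (mapShortComplex₁ hX (i := 1) rfl).zero
  have hepi : Epi (splitδ c H) :=
    (ModuleCat.epi_iff_surjective _).2 (splitδ_surjective c H hgen)
  have hf : (mapShortComplex₁ hX (i := 1) rfl).g = 0 :=
    @zero_of_epi_comp _ _ _ _ _ _ (splitδ c H) _ hepi hcomp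
  refine (mapShortComplex₂_exact hX 2).isZero_of_both_zeros ?_
    ((isZero_H2_augI H hk).eq_zero_of_tgt _)
  exact hf

end

end Fermat.Agent.S55.H295

end
-- ===== PACK-END S55/H295/SplitTwin.lean

-- ===== PACK-BEGIN S55/T/NakH837/Chase.lean
section



/-!
# S55, layer T, leaf T6 (helper837): two-step connecting maps and their naturality

* `ddUp R : H⁰(G, up (up R)) ⟶ H²(G, R)` (surjective);
* `ddRow : H⁰(G, T) ⟶ H²(G, C)` for exact rows `C → X → I`, `I → P → T`;
* `ddUp_comp_map` : compatibility for a morphism of two-step extensions.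
-/

set_option autoImplicit false
set_option linter.unusedSectionVars false
set_option linter.style.haveILetI false

open CategoryTheory groupCohomology

namespace Fermat.Agent.S55.T.H837

open Fermat.Agent.S55.H572

noncomputable section

variable {k G : Type} [CommRing k] [Group G]

/-- `Hⁿ⁺¹(G, coind₁ A) = 0`. -/
lemma isZero_groupCohomology_coind₁ (A : Rep.{0} k G) (n : ℕ) :
    Limits.IsZero (groupCohomology (coind₁ A) (n + 1)) :=
  Limits.IsZero.of_iso (isZero_groupCohomology_succ_of_subsingleton _ n)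
    (groupCohomology.coindIso _ (n + 1))

/-- The connecting map `H⁰(G, up A) ⟶ H¹(G, A)`. -/
def δUp₀ (A : Rep.{0} k G) : groupCohomology (up A) 0 ⟶ groupCohomology A 1 :=
  δ (upSC_shortExact A) 0 1 rfl

/-- The connecting map `H¹(G, up A) ⟶ H²(G, A)`. -/
def δUp₁ (A : Rep.{0} k G) : groupCohomology (up A) 1 ⟶ groupCohomology A 2 :=
  δ (upSC_shortExact A) 1 2 rfl

instance δUp₀_epi (A : Rep.{0} k G) : Epi (δUp₀ A) :=
  epi_δ_of_isZero (upSC_shortExact A) 0 (_root_.Fermat.Agent.S55.T.H837.isZero_groupCohomology_coind₁ A 0)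

instance δUp₁_isIso (A : Rep.{0} k G) : IsIso (δUp₁ A) :=
  isIso_δ_of_isZero (upSC_shortExact A) 1 (_root_.Fermat.Agent.S55.T.H837.isZero_groupCohomology_coind₁ A 0)
    (_root_.Fermat.Agent.S55.T.H837.isZero_groupCohomology_coind₁ A 1)

/-- `H⁰(G, coind₁ A) → H⁰(G, up A) → H¹(G, A)` is a complex. -/
lemma map_upπ_comp_δUp₀ (A : Rep.{0} k G) :
    coeffMap (upπ A) 0 ≫ δUp₀ A = 0 :=
  (mapShortComplex₃ (upSC_shortExact A) (i := 0) (j := 1) rfl).zero

/-- The two-step connecting map `H⁰(G, up (up R)) ⟶ H²(G, R)`. -/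
def ddUp (R : Rep.{0} k G) : groupCohomology (up (up R)) 0 ⟶ groupCohomology R 2 :=
  δUp₀ (up R) ≫ δUp₁ R

instance ddUp_epi (R : Rep.{0} k G) : Epi (ddUp R) := by
  unfold ddUp
  infer_instance

lemma ddUp_surjective (R : Rep.{0} k G) : Function.Surjective (ddUp R).hom :=
  (ModuleCat.epi_iff_surjective _).1 inferInstance

section rows

variable {C X I P T : Rep.{0} k G} {i : C ⟶ X} {π : X ⟶ I} {j : I ⟶ P} {ε : P ⟶ T}
  {w₁ : i ≫ π = 0} {w₂ : j ≫ ε = 0}
  (hA : (ShortComplex.mk i π w₁).ShortExact) (hB : (ShortComplex.mk j ε w₂).ShortExact)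

/-- The connecting map `H¹(G, I) ⟶ H²(G, C)` of the row `C → X → I`. -/
def δRow₁ : groupCohomology I 1 ⟶ groupCohomology C 2 := δ hA 1 2 rfl

/-- The connecting map `H⁰(G, T) ⟶ H¹(G, I)` of the row `I → P → T`. -/
def δRow₀ : groupCohomology T 0 ⟶ groupCohomology I 1 := δ hB 0 1 rfl

/-- The two-step connecting map `H⁰(G, T) ⟶ H²(G, C)` of two exact rows. -/
def ddRow : groupCohomology T 0 ⟶ groupCohomology C 2 :=
  δRow₀ hB ≫ δRow₁ hA

include hA hB in
lemma ddRow_surjective (h1 : Limits.IsZero (groupCohomology P 1))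
    (h2 : Limits.IsZero (groupCohomology X 2)) : Function.Surjective (ddRow hA hB).hom := by
  haveI : Epi (δRow₀ hB) := epi_δ_of_isZero hB 0 h1
  haveI : Epi (δRow₁ hA) := epi_δ_of_isZero hA 1 h2
  haveI : Epi (ddRow hA hB) := by unfold ddRow; infer_instance
  exact (ModuleCat.epi_iff_surjective _).1 inferInstance

/-- Kernel of `ddRow`: invariants of `T` coming from invariants of `P`. -/
lemma exists_of_ddRow_eq_zero (h1 : Limits.IsZero (groupCohomology X 1))
    (t : T.ρ.invariants) (ht : (ddRow hA hB).hom ((H0Iso T).inv t) = 0) :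
    ∃ p : P.V, (∀ g : G, P.ρ g p = p) ∧ ε.hom p = t.1 := by
  haveI : Mono (δRow₁ hA) := mono_δ_of_isZero hA 1 h1
  have h3 : (δRow₀ hB).hom ((H0Iso T).inv t) = 0 := by
    apply (ModuleCat.mono_iff_injective (δRow₁ hA)).1 inferInstance
    rw [map_zero]
    exact ht
  have hex := mapShortComplex₃_exact hB (i := 0) (j := 1) rfl
  rw [ShortComplex.moduleCat_exact_iff] at hex
  obtain ⟨w, hw⟩ := hex _ h3
  refine ⟨((H0Iso P).hom w).1, fun g => ((H0Iso P).hom w).2 g, ?_⟩
  have h4 := congrArg (fun m => (m.hom w).1) (map_id_comp_H0Iso_hom ε)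
  have h5 : (H0Iso T).hom ((coeffMap ε 0).hom w) = t := by
    have : (coeffMap ε 0).hom w = (H0Iso T).inv t := hw
    rw [this]
    exact congrArg (fun m => m.hom t) (H0Iso T).inv_hom_id
  have h6 : ((H0Iso T).hom ((coeffMap ε 0).hom w)).1 = ε.hom ((H0Iso P).hom w).1 :=
    h4
  rw [← h6, h5]

/-- Naturality of the two-step connecting maps for a morphism of two-step extensions. -/
theorem ddUp_comp_map {R : Rep.{0} k G} (f : R ⟶ C) (t₂ : coind₁ R ⟶ X) (h : up R ⟶ I)
    (t₂' : coind₁ (up R) ⟶ P) (e : up (up R) ⟶ T)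
    (c1 : f ≫ i = coind₁ι R ≫ t₂) (c2 : t₂ ≫ π = upπ R ≫ h)
    (c3 : h ≫ j = coind₁ι (up R) ≫ t₂') (c4 : t₂' ≫ ε = upπ (up R) ≫ e) :
    ddUp R ≫ coeffMap f 2 = coeffMap e 0 ≫ ddRow hA hB := by
  let Φ₁ : upSC R ⟶ ShortComplex.mk i π w₁ :=
    { τ₁ := f, τ₂ := t₂, τ₃ := h, comm₁₂ := c1, comm₂₃ := c2 }
  let Φ₂ : upSC (up R) ⟶ ShortComplex.mk j ε w₂ :=
    { τ₁ := h, τ₂ := t₂', τ₃ := e, comm₁₂ := c3, comm₂₃ := c4 }
  have n1 : δUp₁ R ≫ coeffMap f 2 = coeffMap h 1 ≫ δRow₁ hA :=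
    δ_naturality (upSC_shortExact R) hA Φ₁ 1 2 rfl
  have n2 : δUp₀ (up R) ≫ coeffMap h 1 = coeffMap e 0 ≫ δRow₀ hB :=
    δ_naturality (upSC_shortExact (up R)) hB Φ₂ 0 1 rfl
  unfold ddUp ddRow
  rw [Category.assoc, n1, ← Category.assoc, n2, Category.assoc]

end rows

end

end Fermat.Agent.S55.T.H837

end
-- ===== PACK-END S55/T/NakH837/Chase.lean

-- ===== PACK-BEGIN S55/Inv/Top2.lean
section



/-!
# S55 / `InvSpec` : second reduction (complete)

`localInvRecip_of : Surj2LocSpec → GlobCokerSpec → WeakRecipSpec → LocH2NeSpec → MuLevelSpec →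
LocalInvRecipSpec`  and the final form
`invSpec_of' : Surj2LocSpec → LocDimSpec → GlobCokerSpec → WeakRecipSpec → LocH2NeSpec →
MuLevelSpec → PT.InvSpec`.

The invariant maps are DEFINED as the restrictions to the factors of an equation `f₀` of the
hyperplane `im(H²_S(μ) → ∏_v H²(G_v, μ))`.
-/

set_option autoImplicit false
set_option linter.style.haveILetI false

noncomputable section

namespace Fermat.Agent.S55.Inv

open Fermat.Agent.S55.PT groupCohomology ExtCitation

/-! ### Linear algebra -/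

/-- Image of the kernel of a functional under a surjection contains the kernel of a functional. -/
lemma exists_functional_ker_le_map {k V W : Type*} [Field k] [AddCommGroup V] [Module k V]
    [AddCommGroup W] [Module k W] (π : V →ₗ[k] W) (hπ : Function.Surjective π)
    (f : V →ₗ[k] k) :
    ∃ f₀ : W →ₗ[k] k, LinearMap.ker f₀ ≤ (LinearMap.ker f).map π := by
  by_cases h : LinearMap.ker π ≤ LinearMap.ker f
  · refine ⟨((LinearMap.ker π).liftQ f h) ∘ₗ
      (π.quotKerEquivOfSurjective hπ).symm.toLinearMap, ?_⟩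
    intro w hw
    obtain ⟨v, rfl⟩ := hπ w
    refine ⟨v, ?_, rfl⟩
    rw [LinearMap.mem_ker] at hw
    rw [SetLike.mem_coe, LinearMap.mem_ker]
    have h1 : (π.quotKerEquivOfSurjective hπ).symm (π v) = Submodule.Quotient.mk v := by
      apply (π.quotKerEquivOfSurjective hπ).injective
      rw [LinearEquiv.apply_symm_apply]
      rfl
    rw [LinearMap.comp_apply, LinearEquiv.coe_coe, h1] at hw
    exact hw
  · obtain ⟨e, he, hfe⟩ := Set.not_subset.1 h
    have hfe' : f e ≠ 0 := fun h0 => hfe (LinearMap.mem_ker.2 h0)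
    refine ⟨0, fun w _ => ?_⟩
    obtain ⟨v, rfl⟩ := hπ w
    refine ⟨v - (f v / f e) • e, ?_, ?_⟩
    · rw [SetLike.mem_coe, LinearMap.mem_ker, map_sub, map_smul, smul_eq_mul,
        div_mul_cancel₀ _ hfe', sub_self]
    · rw [map_sub, map_smul, LinearMap.mem_ker.1 he, smul_zero, sub_zero]

/-- If the kernel of a non-zero functional is contained in a proper subspace `I`, then
`I` is contained in the kernel. -/
lemma le_ker_of_ker_le_of_ne_top {k V : Type*} [Field k] [AddCommGroup V] [Module k V]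
    (f : V →ₗ[k] k) (I : Submodule k V) (h : LinearMap.ker f ≤ I) (hI : I ≠ ⊤) :
    I ≤ LinearMap.ker f := by
  intro i hi
  by_contra hfi
  rw [LinearMap.mem_ker] at hfi
  apply hI
  rw [eq_top_iff]
  intro b _
  have hb : b - (f b / f i) • i ∈ LinearMap.ker f := by
    rw [LinearMap.mem_ker, map_sub, map_smul, smul_eq_mul, div_mul_cancel₀ _ hfi, sub_self]
  have := I.add_mem (h hb) (I.smul_mem (f b / f i) hi)
  simpa using this

/-! ### The reduction -/

section Main

variable (p : ℕ) [Fact p.Prime] (S : Finset Nat.Primes)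

/-- the product of the local `H²(G_v, μ_p)` -/
abbrev LocProd : Type := (v : ↥S) → (localLevels v.1).H2 (muLoc p v.1)

/-- Step A: the global classes over `ℚ` fill a hyperplane of `∏_v H²(G_v, μ)`. -/
lemma exists_functional_mu (h4 : Surj2LocSpec p S) (hcok : GlobCokerSpec p S)
    (hmu : MuLevelSpec p S) :
    ∃ f₀ : LocProd p S →ₗ[ZMod p] ZMod p,
      LinearMap.ker f₀ ≤ LinearMap.range (loc2 (hrl S) (mu p)) := by
  obtain ⟨U, hU, hUn, hUμ⟩ := hmu
  obtain ⟨f, hf⟩ := hcok U hU hUn hUμ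
  haveI := finite_quotient_global S hU
  haveI := hUn
  -- the push-forward along the augmentation is surjective on the local products
  have hπ : Function.Surjective (pushLoc2
      (Lv := fun v : ↥S => localLevels v.1) (r := fun v : ↥S => rl v.1)
      (A := indRep U (mu p)) (B := mu p) (indAug U (mu p)) (indAug_equivariant U (mu p))) := by
    intro b
    have hv : ∀ v : ↥S, ∃ w, pushH2 (A := Rep.res (rl v.1) (indRep U (mu p)))
        (B := muLoc p v.1) (indAug U (mu p)) ((indAug_equivariant U (mu p)).res (rl v.1))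
        (localLevels v.1) w = b v := by
      intro v
      have hfd : FiniteDimensional (ZMod p) (Rep.res (rl v.1) (indRep U (mu p))) :=
        finiteDimensional_ind p U (mu p)
      obtain ⟨F, hF, rfl⟩ := hU
      have hlev : (F.fixingSubgroup.comap (rl v.1)) ∈ (localLevels v.1).levels :=
        ⟨F, hF.1, rfl⟩
      have hsm1 : (localLevels v.1).IsUSmooth
          (Rep.res (rl v.1) (indRep F.fixingSubgroup (mu p))) :=
        ⟨_, hlev, fun s hs a => by
          show (indRep F.fixingSubgroup (mu p)).ρ (rl v.1 s) a = a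
          rw [indRep_ρ_eq_one_of_mem F.fixingSubgroup (mu p) hUμ (rl v.1 s) hs]; rfl⟩
      have hsm2 : (localLevels v.1).IsUSmooth (muLoc p v.1) :=
        ⟨_, hlev, fun s hs a => by
          show (mu p).ρ (rl v.1 s) a = a
          rw [hUμ (rl v.1 s) hs]; rfl⟩
      exact h4 v.1 v.2 (Rep.res (rl v.1) (indRep F.fixingSubgroup (mu p))) (muLoc p v.1)
        (indAug F.fixingSubgroup (mu p))
        ((indAug_equivariant F.fixingSubgroup (mu p)).res (rl v.1)) hfd hsm1 hsm2
        (indAug_surjective F.fixingSubgroup (mu p)) (b v)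
    choose w hw using hv
    exact ⟨w, funext fun v => hw v⟩
  obtain ⟨f₀, hf₀⟩ := exists_functional_ker_le_map _ hπ f
  refine ⟨f₀, hf₀.trans ?_⟩
  rintro _ ⟨x, hx, rfl⟩
  obtain ⟨y, rfl⟩ := hf hx
  exact ⟨pushH2 (A := indRep U (mu p)) (B := mu p) (indAug U (mu p))
    (indAug_equivariant U (mu p)) (globalLevels S) y, loc2_pushH2 _ _ _ _⟩

/-- Step B: a class supported at one place is not global (weak reciprocity). -/
lemma eq_zero_of_single_mem_range (hwr : WeakRecipSpec p S) (v : ↥S)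
    (x : (localLevels v.1).H2 (muLoc p v.1))
    (hx : (Pi.single v x : LocProd p S) ∈ LinearMap.range (loc2 (hrl S) (mu p))) : x = 0 := by
  obtain ⟨y, hy⟩ := hx
  have h1 : ∀ v' : ↥S, resH2 (hrl S v') (mu p) y = (Pi.single v x : LocProd p S) v' := by
    intro v'
    rw [← hy]
    rfl
  have h2 := hwr y v (fun v' hv' => by rw [h1 v', Pi.single_eq_of_ne hv'])
  rw [h1 v, Pi.single_eq_same] at h2
  exact h2

/-- **Second reduction.** -/
theorem localInvRecip_of (h4 : Surj2LocSpec p S) (hcok : GlobCokerSpec p S)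
    (hwr : WeakRecipSpec p S) (hne : LocH2NeSpec p S) (hmu : MuLevelSpec p S) :
    LocalInvRecipSpec p S := by
  by_cases hS : Nonempty ↥S
  · obtain ⟨v₀⟩ := hS
    obtain ⟨f₀, hf₀⟩ := exists_functional_mu p S h4 hcok hmu
    -- the range is a proper subspace
    have hproper : LinearMap.range (loc2 (hrl S) (mu p)) ≠ ⊤ := by
      intro htop
      obtain ⟨x, hx⟩ := hne v₀
      apply hx
      apply eq_zero_of_single_mem_range p S hwr v₀ x
      rw [htop]
      exact Submodule.mem_top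
    have hle := le_ker_of_ker_le_of_ne_top f₀ _ hf₀ hproper
    refine ⟨fun v => f₀ ∘ₗ LinearMap.single (ZMod p)
      (fun v : ↥S => (localLevels v.1).H2 (muLoc p v.1)) v, ?_, ?_⟩
    · intro v h0
      obtain ⟨x, hx⟩ := hne v
      apply hx
      apply eq_zero_of_single_mem_range p S hwr v x
      apply hf₀
      rw [LinearMap.mem_ker]
      have := LinearMap.congr_fun h0 x
      simpa using this
    · intro y
      have hy : loc2 (hrl S) (mu p) y ∈ LinearMap.ker f₀ := hle ⟨y, rfl⟩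
      rw [LinearMap.mem_ker] at hy
      have hsum : (∑ v : ↥S, (Pi.single v (resH2 (hrl S v) (mu p) y) : LocProd p S)) =
          loc2 (hrl S) (mu p) y := by
        rw [Finset.univ_sum_single]
        rfl
      rw [← hy, ← hsum, map_sum]
      rfl
  · refine ⟨fun v => 0, fun v => absurd ⟨v⟩ hS, fun y => ?_⟩
    haveI : IsEmpty ↥S := not_nonempty_iff.1 hS
    exact Finset.sum_of_isEmpty _

/-- **`InvSpec` from invariant-free inputs.** -/
theorem invSpec_of' (h4 : Surj2LocSpec p S) (hdim : LocDimSpec p S) (hcok : GlobCokerSpec p S)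
    (hwr : WeakRecipSpec p S) (hne : LocH2NeSpec p S) (hmu : MuLevelSpec p S) : InvSpec p S :=
  invSpec_of p S h4 (localInvRecip_of p S h4 hcok hwr hne hmu) hdim hcok

end Main

end Fermat.Agent.S55.Inv

end

end
-- ===== PACK-END S55/Inv/Top2.lean

-- ===== PACK-BEGIN S55/KC/Assembly.lean
section


/-!
# S55 / layer KC: ASSEMBLY  leaves ⇒ outputs          (architect: helper53)

Sorry-free proof that the leaves of `KC/Spec.lean` imply the outputs of layer KC:
`PT.FinLocSpec` (A2), `PT.Surj2LocSpec` (A4), `H2IndCardSpec`, `H2MuCardSpec`, `LocalH3VanishSpec`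
and `PT.TopLocIndSpec inv` (A6) for every family of bijective maps `inv`.
-/

set_option autoImplicit false
set_option linter.style.haveILetI false

noncomputable section

namespace Fermat.Agent.S55.KC

open groupCohomology ExtCitation Fermat.Agent.S55.PT

/-- The dictionary leaves (blocks Q and D). -/
structure DictLeaves : Prop where
  q1 : Q1Spec
  q2 : Q2Spec
  q3 : Q3Spec
  qInf : QInfSpec
  d1 : H1VanishOfAtSpec
  d2 : H2OfAtSpec
  d3 : H3VanishOfAtSpec

/-- The Kummer leaves (block K). -/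
structure KummerLeaves : Prop where
  k2 : KummerH2Spec
  k3 : KummerH3Spec

/-- The arithmetic leaves (block A). -/
structure ArithLeaves : Prop where
  levels : LocalLevelsSpec
  classFormation : LocalClassFormationSpec
  kummerEmb : LocalKummerEmbSpec
  pUnbounded : LocalPUnboundedSpec
  frattini : LocalFrattiniSpec
  mu : LocalMuSpec

/-- The leaves on induced modules (block I). -/
structure IndLeaves : Prop where
  indKummer : IndKummerSpec
  indWCF : IndWCFSpec
  selfWCF : SelfWCFSpec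
  pUnboundedRel : PUnboundedRelSpec

section Abstract

variable {G : Type} [Group G] (L : LevelSys G) (p : ℕ) [Fact p.Prime]

/-- Level-constant cohomology of a weak class formation. -/
theorem lc_of_wcf (hD : DictLeaves) (B : Rep.{0, 0, 0} ℤ G) (V₀ : Subgroup G)
    (n : Subgroup G → ℕ) (hN : L.NormalCofinal) (hF : L.FiniteIndex) (hsm : L.IsSmooth B)
    (hV₀ : V₀ ∈ L.levels) (hW : IsWCF L B V₀ n) (hU : PUnbounded L p V₀ n) :
    H1Vanish L B ∧ H3Vanish L B ∧ H2Divisible L p B ∧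
      Nat.card {x : L.H2 B // p • x = 0} = p := by
  have h1 : H1Vanish L B := hD.d1 G L B V₀ hN hV₀ (fun V hV hVn hle => by
    haveI := hVn
    exact hD.q1 G B V (hW.h1 V hV hle))
  have h3 : H3Vanish L B := hD.d3 G L B V₀ hN hF hsm hV₀ (fun V hV hVn hle => by
    haveI := hVn
    exact hD.q3 G B V (hW.h3 V hV hle))
  have h2 := hD.d2 G L p B V₀ n hN hF hsm hV₀
    (fun V hV hVn hle => by
      haveI := hVn
      exact ⟨hW.npos V hV hle, ⟨(hD.q2 G B V).some.trans (hW.h2 V hV hle).some⟩⟩)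
    (fun V' V hV' hV'n hV hVn hle hle0 f hf hc => by
      haveI := hV'n
      haveI := hVn
      exact hD.qInf G B V' V hle (hW.h1rel V' V hV' hV hle hle0) f hf hc)
    hU
  exact ⟨h1, h3, h2.1, h2.2⟩

/-- The Kummer theorem: `|H²_lc(G, M)| = p` and `H³_lc(G, M) = 0` for `M = B[p]`, `B` a
`p`-divisible weak class formation with unbounded `p`-part. -/
theorem kummer_of_wcf (hD : DictLeaves) (hK : KummerLeaves) (M : Rep.{0, 0, 0} (ZMod p) G)
    (B : Rep.{0, 0, 0} ℤ G) (ι : M →+ B) (V₀ : Subgroup G) (n : Subgroup G → ℕ)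
    (hN : L.NormalCofinal) (hF : L.FiniteIndex) (hsm : L.IsSmooth B) (hdiv : IsPDivisible p B)
    (hι : IsKummerEmb p M B ι) (hV₀ : V₀ ∈ L.levels) (hW : IsWCF L B V₀ n)
    (hU : PUnbounded L p V₀ n) :
    Nat.card (L.H2 M) = p ∧ H3Vanish L M := by
  obtain ⟨h1, h3, h2d, h2c⟩ := lc_of_wcf L p hD B V₀ n hN hF hsm hV₀ hW hU
  exact ⟨(hK.k2 G L p M B ι hN hF hsm hdiv hι h1).trans h2c,
    hK.k3 G L p M B ι hN hF hsm hdiv hι h3 h2d⟩

end Abstract

section Local

variable (p : ℕ) [Fact p.Prime]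

/-- `|H²(G_q, Ind_H μ)| = p` and `H³_lc(G_q, Ind_H μ) = 0` for every open subgroup `H`. -/
theorem local_ind (hD : DictLeaves) (hK : KummerLeaves) (hI : IndLeaves) (hA : ArithLeaves)
    (q : Nat.Primes) (H : Subgroup (Gl q)) (hH : IsOpenSub (localLevels q) H) :
    Nat.card ((localLevels q).H2 (indRep H (muLoc p q))) = p ∧
      H3Vanish (localLevels q) (indRep H (muLoc p q)) := by
  obtain ⟨hN, hF⟩ := hA.levels q
  obtain ⟨U, hU, hUH⟩ := hH
  obtain ⟨V₀, hV₀, hV₀U, -⟩ := hN U hU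
  have hV₀H : V₀ ≤ H := hV₀U.trans hUH
  obtain ⟨hsm, hdiv, ι, hι⟩ := hA.kummerEmb p q
  obtain ⟨hsm', hdiv', hι'⟩ := hI.indKummer (Gl q) (localLevels q) p (muLoc p q) (unitsA q) ι H
    hN ⟨U, hU, hUH⟩ hsm hdiv hι
  have hW := hI.indWCF (Gl q) (localLevels q) (unitsA q) H V₀ hF (hA.classFormation q) hV₀ hV₀H
  have hUn := hI.pUnboundedRel (Gl q) (localLevels q) p H V₀ hF hV₀ hV₀H (hA.pUnbounded p q V₀ hV₀)
  exact kummer_of_wcf (localLevels q) p hD hK (indRep H (muLoc p q)) (indR H (unitsA q))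
    (indEmb p H (muLoc p q) (unitsA q) ι) V₀ _ hN hF hsm' hdiv' hι' hV₀ hW hUn

/-- Output: `|H²(G_q, Ind_W μ_p)| = p`. -/
theorem h2IndCard (hD : DictLeaves) (hK : KummerLeaves) (hI : IndLeaves) (hA : ArithLeaves) :
    H2IndCardSpec := fun p _ q W hW _ => (local_ind p hD hK hI hA q W hW).1

/-- Output: `|H²(G_q, μ_p)| = p`. -/
theorem h2MuCard (hD : DictLeaves) (hK : KummerLeaves) (hI : IndLeaves) (hA : ArithLeaves) :
    H2MuCardSpec := by
  intro p _ q
  obtain ⟨hN, hF⟩ := hA.levels q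
  obtain ⟨V₀, hV₀⟩ := (localLevels q).nonempty
  obtain ⟨hsm, hdiv, ι, hι⟩ := hA.kummerEmb p q
  have hW := hI.selfWCF (Gl q) (localLevels q) (unitsA q) V₀ hF (hA.classFormation q) hV₀
  exact (kummer_of_wcf (localLevels q) p hD hK (muLoc p q) (unitsA q) ι V₀ _ hN hF hsm hdiv hι
    hV₀ hW (hA.pUnbounded p q V₀ hV₀)).1

/-- Output: `cd_p(G_{ℚ_q}) ≤ 2` in the form `H³_lc(G_q, R) = 0`. -/
theorem localH3Vanish (hP3 : H3DevissageSpec) (hD : DictLeaves) (hK : KummerLeaves)
    (hI : IndLeaves) (hA : ArithLeaves) : LocalH3VanishSpec := by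
  intro p _ q R hR hRsm
  obtain ⟨hN, hF⟩ := hA.levels q
  obtain ⟨hμ1, hμsm⟩ := hA.mu p q
  exact hP3 (Gl q) (localLevels q) p (muLoc p q) hN hF hμ1 hμsm
    (fun H hH _ => (local_ind p hD hK hI hA q H hH).2) R hR hRsm

/-- Output A4: `PT.Surj2LocSpec`. -/
theorem surj2Loc (hP2 : Surj2OfH3Spec) (hP3 : H3DevissageSpec) (hD : DictLeaves)
    (hK : KummerLeaves) (hI : IndLeaves) (hA : ArithLeaves) (S : Finset Nat.Primes) :
    Surj2LocSpec p S := by
  intro q _ P N φ hφ hP hPsm hNsm hsurj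
  exact hP2 (Gl q) (localLevels q) p (hA.levels q).1
    (fun R hR hRsm => localH3Vanish hP3 hD hK hI hA p q R hR hRsm) P N φ hφ hP hPsm hNsm hsurj

/-- Output A2: `PT.FinLocSpec`. -/
theorem finLoc (hP1 : FinLocOfFrattiniSpec) (hA : ArithLeaves) (S : Finset Nat.Primes) :
    FinLocSpec p S := by
  intro q _ N hN hNsm
  exact hP1 (Gl q) (localLevels q) p (hA.levels q).2 (hA.frattini p q) N hN hNsm

/-- Output A6: `PT.TopLocIndSpec inv` for every family of bijective maps `inv`. -/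
theorem topLocInd (hP2 : Surj2OfH3Spec) (hP3 : H3DevissageSpec) (hP4 : TopLocIndOfSpec)
    (hD : DictLeaves) (hK : KummerLeaves) (hI : IndLeaves) (hA : ArithLeaves)
    (S : Finset Nat.Primes) (inv : InvFamily p S) (hinv : ∀ v : ↥S, Function.Bijective (inv v)) :
    TopLocIndSpec inv :=
  hP4 p S inv hinv (fun v => (hA.levels v.1).2) (surj2Loc p hP2 hP3 hD hK hI hA S)
    (fun v W hW _ _ => (local_ind p hD hK hI hA v.1 W ⟨W, hW, le_rfl⟩).1)

end Local

end Fermat.Agent.S55.KC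

end

end
-- ===== PACK-END S55/KC/Assembly.lean

-- ===== PACK-BEGIN S55/KC/H2OfAtH287.lean
section



/-!
# S55 / layer KC (helper53), leaf KC-D2: `h2OfAt : H2OfAtSpec`                   (helper287)

If at every normal level `V ≤ V₀` the group `H²(G ⧸ V, B^V)` (cochain form `H2At V B`) is cyclic
of order `n V`, inflation is injective and the `p`-parts of the `n V` are unbounded, then
`H²_lc(G, B)` is `p`-divisible and its `p`-torsion has exactly `p` elements.

Dictionary lemmas (reusable, all for a `PT.LevelSys`):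
* `finite_range_of_rightInv`, `exists_level_fixing_finset`;
* `exists_isAt₁`   : a level-constant 1-cochain with values in a smooth module is inflated from
  `(G ⧸ V, B^V)` for a normal level `V` below any given level;
* `isAt₂_of_cocycle` : a 2-cocycle right-invariant under a NORMAL subgroup `V` has values in `B^V`;
* `exists_mem_Z2At` : a level-constant 2-cocycle lies in `Z2At V B`, `V` normal level, arbitrarily
  small (no smoothness needed);
* `isCobAt₂_of_mem_B2` : a coboundary of a level-constant cochain which is inflated from level `V`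
  is a coboundary at level `V` (uses injectivity of inflation);
* `psi V : H2At V B →+ L.H2 B`, `psi_injective`, `range_psi_mono`, `exists_psi_eq`.
-/

set_option autoImplicit false

noncomputable section

namespace Fermat.Agent.S55.KC.H287

open groupCohomology Fermat.Agent.S55.PT

variable {G : Type} [Group G]

/-! ## 1. Finiteness of values, common levels -/

/-- A function on `G` which is right-invariant under a subgroup of finite index has finitely many
values. -/
lemma finite_range_of_rightInv {X : Type*} (U : Subgroup G) [U.FiniteIndex] (f : G → X)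
    (hf : ∀ g s : G, s ∈ U → f (g * s) = f g) : (Set.range f).Finite := by
  have : Finite (G ⧸ U) := Subgroup.finite_quotient_of_finiteIndex
  refine (Set.finite_range (fun x : G ⧸ U => f x.out)).subset ?_
  rintro _ ⟨g, rfl⟩
  refine ⟨(g : G ⧸ U), ?_⟩
  obtain ⟨s, hs⟩ := QuotientGroup.mk_out_eq_mul U g
  show f ((g : G ⧸ U).out) = f g
  rw [hs, hf g s s.2]

/-- Finitely many elements of a smooth module are fixed by a common level, which may be chosen
below any given level. -/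
lemma exists_level_fixing_finset (L : LevelSys G) {k : Type} [CommRing k]
    (B : Rep.{0, 0, 0} k G) (hB : L.IsSmooth B) (s : Finset B) (W₀ : Subgroup G)
    (hW₀ : W₀ ∈ L.levels) :
    ∃ V ∈ L.levels, V ≤ W₀ ∧ ∀ b ∈ s, ∀ w ∈ V, B.ρ w b = b := by
  classical
  induction s using Finset.induction_on with
  | empty => exact ⟨W₀, hW₀, le_rfl, by simp⟩
  | insert a s _ ih =>
    obtain ⟨V, hV, hVW, hfix⟩ := ih
    obtain ⟨W, hW, hWa⟩ := hB a
    obtain ⟨X, hX, hXle⟩ := L.directed V hV W hW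
    refine ⟨X, hX, fun w hw => hVW (hXle hw).1, ?_⟩
    intro b hb w hw
    rcases Finset.mem_insert.1 hb with rfl | hb
    · exact hWa w (hXle hw).2
    · exact hfix b hb w (hXle hw).1

variable {k : Type} [CommRing k]

/-- **Dictionary, degree 1.**  A level-constant 1-cochain with values in a smooth module is
inflated from `(G ⧸ V, B^V)` for some normal level `V` below any given level. -/
lemma exists_isAt₁ (L : LevelSys G) (hNC : L.NormalCofinal) (hFI : L.FiniteIndex)
    (B : Rep.{0, 0, 0} k G) (hB : L.IsSmooth B) (x : G → B) (hx : L.IsLC₁ x)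
    (W₀ : Subgroup G) (hW₀ : W₀ ∈ L.levels) :
    ∃ V ∈ L.levels, V.Normal ∧ V ≤ W₀ ∧ IsAt₁ V B x := by
  classical
  obtain ⟨U, hU, hxU⟩ := hx
  have := hFI U hU
  have hfin := finite_range_of_rightInv U x hxU
  obtain ⟨W₁, hW₁, hW₁le⟩ := L.directed U hU W₀ hW₀
  obtain ⟨V₁, hV₁, hV₁le, hfix⟩ := exists_level_fixing_finset L B hB hfin.toFinset W₁ hW₁
  obtain ⟨V, hV, hVle, hVn⟩ := hNC V₁ hV₁
  refine ⟨V, hV, hVn, fun w hw => (hW₁le (hV₁le (hVle hw))).2, fun g s hs => ⟨?_, ?_⟩⟩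
  · exact hxU g s (hW₁le (hV₁le (hVle hs))).1
  · exact hfix (x g) (hfin.mem_toFinset.2 ⟨g, rfl⟩) s (hVle hs)

lemma isAt₁_mono {V V' : Subgroup G} (h : V' ≤ V) {B : Rep.{0, 0, 0} k G} {x : G → B}
    (hx : IsAt₁ V B x) : IsAt₁ V' B x :=
  fun g s hs => hx g s (h hs)

lemma isAt₂_mono {V V' : Subgroup G} (h : V' ≤ V) {B : Rep.{0, 0, 0} k G} {f : G × G → B}
    (hf : IsAt₂ V B f) : IsAt₂ V' B f :=
  fun g g' s t hs ht => hf g g' s t (h hs) (h ht)

lemma isLC₁_of_isAt₁ {L : LevelSys G} {V : Subgroup G} (hV : V ∈ L.levels)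
    {B : Rep.{0, 0, 0} k G} {x : G → B} (hx : IsAt₁ V B x) : L.IsLC₁ x :=
  ⟨V, hV, fun g s hs => (hx g s hs).1⟩

lemma isLC₂_of_isAt₂ {L : LevelSys G} {V : Subgroup G} (hV : V ∈ L.levels)
    {B : Rep.{0, 0, 0} k G} {f : G × G → B} (hf : IsAt₂ V B f) : L.IsLC₂ f :=
  ⟨V, hV, fun g g' s t hs ht => (hf g g' s t hs ht).1⟩

/-- A 2-cocycle which is right-invariant under a NORMAL subgroup `V` has values in `B^V`. -/
lemma isAt₂_of_cocycle (B : Rep.{0, 0, 0} k G) (V : Subgroup G) (hVn : V.Normal)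
    (a : G × G → B) (ha : a ∈ cocycles₂ B)
    (hinv : ∀ g h s t : G, s ∈ V → t ∈ V → a (g * s, h * t) = a (g, h)) : IsAt₂ V B a := by
  rw [mem_cocycles₂_iff] at ha
  have h1 : ∀ j : G, a (1, j) = a (1, 1) := by
    intro j
    have := ha 1 1 j
    simp only [one_mul, map_one, Module.End.one_apply] at this
    exact (add_left_cancel this).symm
  intro g h s t hs ht
  refine ⟨hinv g h s t hs ht, ?_⟩
  have h2 := ha s g h
  have h3 : a (s * g, h) = a (g, h) := by
    have hc : g⁻¹ * s * g ∈ V := by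
      have := hVn.conj_mem s hs g⁻¹
      simpa using this
    have := hinv g h (g⁻¹ * s * g) 1 hc V.one_mem
    rw [mul_one] at this
    rw [← this]
    congr 2
    group
  have h4 : ∀ j : G, a (s, j) = a (1, 1) := by
    intro j
    have := hinv 1 j s 1 hs V.one_mem
    rw [one_mul, mul_one] at this
    rw [this, h1]
  rw [h3, h4, h4] at h2
  exact (add_right_cancel h2).symm

/-- **Dictionary, degree 2 (cocycles).**  A level-constant 2-cocycle is inflated from
`(G ⧸ V, B^V)` for some normal level `V` below any given level. -/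
lemma exists_mem_Z2At (L : LevelSys G) (hNC : L.NormalCofinal) (B : Rep.{0, 0, 0} k G)
    (a : G × G → B) (ha : a ∈ L.Z2 B) (W₀ : Subgroup G) (hW₀ : W₀ ∈ L.levels) :
    ∃ V ∈ L.levels, V.Normal ∧ V ≤ W₀ ∧ a ∈ Z2At V B := by
  obtain ⟨hcoc, U, hU, haU⟩ := ha
  obtain ⟨W₁, hW₁, hW₁le⟩ := L.directed U hU W₀ hW₀
  obtain ⟨V, hV, hVle, hVn⟩ := hNC W₁ hW₁
  refine ⟨V, hV, hVn, fun w hw => (hW₁le (hVle hw)).2, hcoc, ?_⟩
  exact isAt₂_of_cocycle B V hVn a hcoc
    (fun g h s t hs ht => haU g h s t (hW₁le (hVle hs)).1 (hW₁le (hVle ht)).1)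

lemma Z2At_mono {V V' : Subgroup G} (h : V' ≤ V) (B : Rep.{0, 0, 0} k G) :
    Z2At V B ≤ Z2At V' B :=
  fun _ hf => ⟨hf.1, isAt₂_mono h hf.2⟩

lemma mem_Z2_of_mem_Z2At {L : LevelSys G} {V : Subgroup G} (hV : V ∈ L.levels)
    {B : Rep.{0, 0, 0} k G} {f : G × G → B} (hf : f ∈ Z2At V B) : f ∈ L.Z2 B :=
  ⟨hf.1, isLC₂_of_isAt₂ hV hf.2⟩

lemma mem_B2_of_isCobAt₂ {L : LevelSys G} {V : Subgroup G} (hV : V ∈ L.levels)
    {B : Rep.{0, 0, 0} k G} {f : G × G → B} (hf : IsCobAt₂ V B f) : f ∈ L.B2 B := by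
  obtain ⟨x, hx, rfl⟩ := hf
  exact ⟨x, isLC₁_of_isAt₁ hV hx, rfl⟩

/-- **Dictionary, degree 2 (coboundaries).**  If inflation is injective below `V₀`, a cocycle
inflated from the normal level `V ≤ V₀` which is `d` of a level-constant cochain is a coboundary
at level `V`. -/
lemma isCobAt₂_of_mem_B2 (L : LevelSys G) (hNC : L.NormalCofinal) (hFI : L.FiniteIndex)
    (B : Rep.{0, 0, 0} k G) (hB : L.IsSmooth B) (V₀ : Subgroup G)
    (hinf : ∀ V' V : Subgroup G, V' ∈ L.levels → V'.Normal → V ∈ L.levels → V.Normal → V' ≤ V →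
      V ≤ V₀ → ∀ f ∈ Z2At V B, IsCobAt₂ V' B f → IsCobAt₂ V B f)
    (V : Subgroup G) (hV : V ∈ L.levels) (hVn : V.Normal) (hVle : V ≤ V₀)
    (f : G × G → B) (hf : f ∈ Z2At V B) (hfB : f ∈ L.B2 B) : IsCobAt₂ V B f := by
  obtain ⟨x, hx, rfl⟩ := hfB
  obtain ⟨V', hV', hV'n, hV'le, hxV'⟩ := exists_isAt₁ L hNC hFI B hB x hx V hV
  exact hinf V' V hV' hV'n hV hVn hV'le hVle _ hf ⟨x, hxV', rfl⟩

/-! ## 2. The maps `H2At V B → H²_lc(G, B)` -/

section psi

variable (L : LevelSys G) (B : Rep.{0, 0, 0} k G)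

/-- the inclusion of the cocycles at level `V` into the level-constant cocycles -/
def toZ2 (V : Subgroup G) (hV : V ∈ L.levels) : ↥(Z2At V B) →+ ↥(L.Z2 B) where
  toFun f := ⟨f.1, mem_Z2_of_mem_Z2At hV f.2⟩
  map_zero' := rfl
  map_add' _ _ := rfl

@[simp] lemma toZ2_coe (V : Subgroup G) (hV : V ∈ L.levels) (f : ↥(Z2At V B)) :
    ((toZ2 L B V hV f : ↥(L.Z2 B)) : G × G → B) = f.1 := rfl

/-- the class in `H²_lc(G, B)` of a cocycle at level `V` -/
def psi₀ (V : Subgroup G) (hV : V ∈ L.levels) : ↥(Z2At V B) →+ L.H2 B :=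
  (L.H2π B).toAddMonoidHom.comp (toZ2 L B V hV)

lemma psi₀_apply (V : Subgroup G) (hV : V ∈ L.levels) (f : ↥(Z2At V B)) :
    psi₀ L B V hV f = L.H2π B (toZ2 L B V hV f) := rfl

lemma psi₀_eq_zero_iff (V : Subgroup G) (hV : V ∈ L.levels) (f : ↥(Z2At V B)) :
    psi₀ L B V hV f = 0 ↔ (f : G × G → B) ∈ L.B2 B := by
  rw [psi₀_apply, L.H2π_eq_zero_iff]
  rfl

/-- inflation `H²(G ⧸ V, B^V) → H²_lc(G, B)`, cochain form -/
def psi (V : Subgroup G) (hV : V ∈ L.levels) : H2At V B →+ L.H2 B :=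
  QuotientAddGroup.lift _ (psi₀ L B V hV) (by
    intro f hf
    rw [AddMonoidHom.mem_ker, psi₀_eq_zero_iff]
    exact mem_B2_of_isCobAt₂ hV (AddSubgroup.mem_addSubgroupOf.1 hf))

@[simp] lemma psi_mk (V : Subgroup G) (hV : V ∈ L.levels) (f : ↥(Z2At V B)) :
    psi L B V hV (QuotientAddGroup.mk f) = psi₀ L B V hV f := rfl

variable {L B}

lemma psi_injective (hNC : L.NormalCofinal) (hFI : L.FiniteIndex) (hB : L.IsSmooth B)
    (V₀ : Subgroup G)
    (hinf : ∀ V' V : Subgroup G, V' ∈ L.levels → V'.Normal → V ∈ L.levels → V.Normal → V' ≤ V →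
      V ≤ V₀ → ∀ f ∈ Z2At V B, IsCobAt₂ V' B f → IsCobAt₂ V B f)
    (V : Subgroup G) (hV : V ∈ L.levels) (hVn : V.Normal) (hVle : V ≤ V₀) :
    Function.Injective (psi L B V hV) := by
  rw [injective_iff_map_eq_zero]
  intro x hx
  obtain ⟨f, rfl⟩ := QuotientAddGroup.mk_surjective x
  rw [psi_mk, psi₀_eq_zero_iff] at hx
  rw [QuotientAddGroup.eq_zero_iff, AddSubgroup.mem_addSubgroupOf]
  exact isCobAt₂_of_mem_B2 L hNC hFI B hB V₀ hinf V hV hVn hVle _ f.2 hx

lemma range_psi_mono {V V' : Subgroup G} (hV : V ∈ L.levels) (hV' : V' ∈ L.levels)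
    (h : V' ≤ V) : (psi L B V hV).range ≤ (psi L B V' hV').range := by
  rintro _ ⟨x, rfl⟩
  obtain ⟨f, rfl⟩ := QuotientAddGroup.mk_surjective x
  exact ⟨QuotientAddGroup.mk ⟨f.1, Z2At_mono h B f.2⟩, rfl⟩

lemma exists_psi_eq (hNC : L.NormalCofinal) (x : L.H2 B) (W₀ : Subgroup G)
    (hW₀ : W₀ ∈ L.levels) :
    ∃ (V : Subgroup G) (hV : V ∈ L.levels), V.Normal ∧ V ≤ W₀ ∧ x ∈ (psi L B V hV).range := by
  obtain ⟨a, rfl⟩ := L.H2π_surjective B x
  obtain ⟨V, hV, hVn, hVle, haV⟩ := exists_mem_Z2At L hNC B a.1 a.2 W₀ hW₀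
  exact ⟨V, hV, hVn, hVle, QuotientAddGroup.mk ⟨a.1, haV⟩, rfl⟩

end psi

/-! ## 3. The theorem -/

/-- **KC-D2.** -/
theorem h2OfAt : H2OfAtSpec := by
  intro G _ L p _ B V₀ n hNC hFI hB hV₀ hcyc hinf hunb
  -- index type: normal levels below `V₀`
  let I : Type := {V : Subgroup G // V ∈ L.levels ∧ V.Normal ∧ V ≤ V₀}
  let S : I → AddSubgroup (L.H2 B) := fun V => (psi L B V.1 V.2.1).range
  let N : I → ℕ := fun V => n V.1
  have hn : ∀ i : I, 0 < N i := fun V => (hcyc V.1 V.2.1 V.2.2.1 V.2.2.2).1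
  have hS : ∀ i : I, Nonempty (S i ≃+ ZMod (N i)) := by
    intro V
    obtain ⟨e⟩ := (hcyc V.1 V.2.1 V.2.2.1 V.2.2.2).2
    have hinj := psi_injective hNC hFI hB V₀ hinf V.1 V.2.1 V.2.2.1 V.2.2.2
    exact ⟨(AddMonoidHom.ofInjective hinj).symm.trans e⟩
  have hdir : ∀ i j : I, ∃ k : I, S i ≤ S k ∧ S j ≤ S k := by
    intro V V'
    obtain ⟨W₁, hW₁, hW₁le⟩ := L.directed V.1 V.2.1 V'.1 V'.2.1
    obtain ⟨W, hW, hWle, hWn⟩ := hNC W₁ hW₁
    have h1 : W ≤ V.1 := fun w hw => (hW₁le (hWle hw)).1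
    have h2 : W ≤ V'.1 := fun w hw => (hW₁le (hWle hw)).2
    exact ⟨⟨W, hW, hWn, h1.trans V.2.2.2⟩, range_psi_mono V.2.1 hW h1,
      range_psi_mono V'.2.1 hW h2⟩
  have hcov : ∀ x : L.H2 B, ∃ i : I, x ∈ S i := by
    intro x
    obtain ⟨V, hV, hVn, hVle, hx⟩ := exists_psi_eq hNC x V₀ hV₀
    exact ⟨⟨V, hV, hVn, hVle⟩, hx⟩
  have hunb' : ∀ m : ℕ, ∃ i : I, p ^ m ∣ N i := by
    intro m
    obtain ⟨V, hV, hVn, hVle, hdvd⟩ := hunb m
    exact ⟨⟨V, hV, hVn, hVle⟩, hdvd⟩
  refine ⟨?_, card_torsion_of_directed_cyclic p hn hS hdir hcov hunb'⟩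
  intro a ha
  obtain ⟨y, hy⟩ := exists_nsmul_eq_of_directed_cyclic p hn hS hdir hcov hunb'
    (L.H2π B ⟨a, ha⟩)
  obtain ⟨a', rfl⟩ := L.H2π_surjective B y
  refine ⟨a'.1, a'.2, ?_⟩
  have h0 : L.H2π B (⟨a, ha⟩ - p • a') = 0 := by
    rw [map_sub, map_nsmul, hy, sub_self]
  have h1 := (L.H2π_eq_zero_iff B _).1 h0
  simpa using h1

end Fermat.Agent.S55.KC.H287

end

end
-- ===== PACK-END S55/KC/H2OfAtH287.lean

-- ===== PACK-BEGIN S55/KC/Q12H321.lean
section



/-!
# S55 / layer KC, block Q: `Q1Spec`, `Q2Spec`                               (helper321)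

Thin wrappers around the Mathlib-only core `Fermat/Agent/S55/H321/QDict.lean`
(`q1_core`, `q2_core`).
-/

set_option autoImplicit false

namespace Fermat.Agent.S55.KC.H321

open groupCohomology Fermat.Agent.S55.KC

/-- **KC-Q1.**  `H¹(G ⧸ V, B^V) = 0` (Mathlib's `groupCohomology`) ⇒ `H1VanishAt V B`. -/
theorem q1 : Q1Spec := fun _ _ B V _ h1 f hf hat =>
  Fermat.Agent.S55.H321.q1_core B V h1 f hf hat

/-- **KC-Q2.**  `H2At V B ≃+ H²(G ⧸ V, B^V)` (Mathlib's `groupCohomology`). -/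
theorem q2 : Q2Spec := fun _ _ B V _ =>
  Fermat.Agent.S55.H321.q2_core B V (Z2At V B) (B2At V B) (fun _ => Iff.rfl) (fun _ => Iff.rfl)

end Fermat.Agent.S55.KC.H321

end
-- ===== PACK-END S55/KC/Q12H321.lean

-- ===== PACK-BEGIN S55/Inv/WrH413.lean
section



/-!
# S55 / INV-WR (subtask 489, helper413): weak reciprocity over `ℚ` from the reciprocity law

`weakRecip_of : ReciprocitySpec I p → WeakRecipSpec p S`  (any local invariant system `I`).

A class `y ∈ H²_S(μ_p)` gives the Brauer class `x = [ζ ^ c] ∈ Br(ℚ)[p]` (`gClass`).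
* At a prime `q ∉ S`, `x_q = 0` (unramified cocycle with unit values: `H181.locBr_eq_zero_of_good`).
* At `v' ∈ S`, `res_{v'} y = 0` implies `x_{v'} = 0`.
* The reciprocity law for `U = ⊤` then gives `inv_v (x_v) = 0`, hence `x_v = 0` (`inv_injective`),
  hence `res_v y = 0` by local Kummer injectivity (`exists_cob_of_locBr_eq_zero`: Hilbert 90 and
  `p`-th roots in `ℚ̄_v`).
-/

set_option autoImplicit false
set_option linter.style.haveILetI false
set_option linter.unusedSectionVars false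

namespace Fermat.Agent.S55.Inv.H413

open Fermat.Agent.S55.PT Fermat.Agent.S55.G.Rec groupCohomology ExtCitation

local notation "Qb" => AlgebraicClosure ℚ
local notation "T" => (⊤ : Subgroup GQ)

variable (p : ℕ) [Fact p.Prime] (S : Finset Nat.Primes)

/-- The Brauer class of a cocycle of `H²_S(μ_p)` is trivial at every prime outside `S`. -/
theorem locBr_eq_zero_of_not_mem (I : LocalInvSystem) (c : ↥((globalLevels S).Z2 (mu p)))
    (q : ℕ) [Fact q.Prime] (hq : (⟨q, Fact.out⟩ : Nat.Primes) ∉ S) :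
    locBr q 1 T (gClass p S c) = 0 := by
  obtain ⟨U, ⟨F, hF, rfl⟩, h⟩ := c.2.2
  obtain ⟨L, hL, hgal, hle⟩ := Bridge.exists_galois_level_ge S F hF
  haveI : Normal ℚ L := hgal.to_normal
  refine H181.locBr_eq_zero_of_good I isOpenQ_top
    ⟨gCoch p (c : GQ × GQ → ↥(mu p)), gCoch_mem p S c⟩ L ?_ q ?_ ?_ 1
  · intro g g' s s' hs hs'
    show gCoch p (c : GQ × GQ → ↥(mu p)) (g * s, g' * s') = gCoch p (c : GQ × GQ → ↥(mu p)) (g, g')
    rw [gCoch_apply, gCoch_apply]
    exact congrArg (kapT p) (h (g : GQ) (g' : GQ) (s : GQ) (s' : GQ)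
      (IntermediateField.fixingSubgroup_antitone hle hs)
      (IntermediateField.fixingSubgroup_antitone hle hs'))
  · intro g₁ h₁ g'
    exact norm_lamq p q _ g'
  · intro τ hτ
    exact localGaloisToGlobal_mem_fixingSubgroup_of_inertial q hL hq τ hτ

/-- **INV-4 (weak reciprocity over `ℚ`)** from the reciprocity law of block REC. -/
theorem weakRecip_of (I : LocalInvSystem) (hRec : ReciprocitySpec I p) : WeakRecipSpec p S := by
  intro y v hv
  obtain ⟨c, rfl⟩ := (globalLevels S).H2π_surjective (mu p) y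
  haveI hvF : Fact ((v.1 : ℕ)).Prime := ⟨v.1.2⟩
  -- vanishing away from `v`
  have hother : ∀ q : Nat.Primes, q ≠ v.1 → I.invAt q 1 T (gClass p S c) = 0 := by
    intro q hq
    apply LocalInvSystem.invAt_eq_zero
    haveI : Fact ((q : ℕ)).Prime := ⟨q.2⟩
    show locBr (q : ℕ) 1 T (gClass p S c) = 0
    by_cases hqS : q ∈ S
    · have h1 := hv ⟨q, hqS⟩ (fun h => hq (congrArg Subtype.val h))
      rw [resH2_mk, LevelSys.H2π_eq_zero_iff] at h1
      obtain ⟨x, hx, hdx⟩ := h1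
      refine locBr_eq_zero_of_cob p S (q : ℕ) c x ?_ ?_
      · exact (isLC₁_pullbackLevels_iff (rl q) x).1 hx
      · intro g h
        have := congrFun hdx (g, h)
        rw [d₁₂_hom_apply] at this
        exact this
    · exact locBr_eq_zero_of_not_mem p S I c (q : ℕ) hqS
  have key := (hRec T isOpenQ_top (gClass p S c) ⟨1, gClass_torsion p S c⟩ (fun _ => {1})
    (fun q => isDoubleCosetReps_top _)).2
  simp only [Finset.sum_singleton] at key
  rw [finsum_eq_single _ v.1 hother] at key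
  have hloc : locBr (v.1 : ℕ) 1 T (gClass p S c) = 0 := by
    apply I.inv_injective (v.1 : ℕ) _ (H181.isOpenL_locSub (v.1 : ℕ) 1 isOpenQ_top)
    rw [map_zero]
    exact key
  obtain ⟨x, hx, hdx⟩ := exists_cob_of_locBr_eq_zero p S (v.1 : ℕ) c hloc
  rw [resH2_mk, LevelSys.H2π_eq_zero_iff]
  refine ⟨x, (isLC₁_pullbackLevels_iff (rl v.1) x).2 hx, ?_⟩
  funext ⟨g, h⟩
  have e := d₁₂_hom_apply (muLoc p v.1) (x : Gl v.1 → ↥(muLoc p v.1)) (g, h)
  exact e.trans (hdx g h)

end Fermat.Agent.S55.Inv.H413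

end
-- ===== PACK-END S55/Inv/WrH413.lean

-- ===== PACK-BEGIN S55/K/GO3H535/H371/CapDiv.lean
section



/-!
# S55 / layer K / GO3-CAPDIV (helper371): `capDiv : CapDivSpec p S`

Capitulation of `p`-classes by Kummer theory.  `β` is `S`-smooth and for every `σ ∈ V` the
quotient `σβ/β` is a `p`-th power of an `S`-smooth element up to an `S`-unit.  Let `F ∋ β` be a
Galois level, `c(A) := ord_A(β) mod p ∈ [0, p)` for the places `A` outside `S`; by hypothesis
`c(σ⁻¹A) = c(A)` for `σ ∈ V`.  The effective divisor `∑ c(w) w` of `F` has finite order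
`h = p^a h'` (`p ∤ h'`) in the class group: there is `κ ∈ Fˣ` with `ord_A(κ) = h c(A)`.  Put
`δ := κ^(1/p^a)`, `α₂ := (β^h'/δ)^(1/p)` (both `S`-smooth by the generalised Kummer lemma,
`p ∈ S`) and `α := α₂^r β^s` with `r h' + s p = 1`.  Then `(σα/α)^p / (σβ/β) = (δ/σδ)^r`, and
`δ/σδ` is an `S`-unit since `ord_A(σδ) = h' c(σ⁻¹A) = h' c(A) = ord_A(δ)`.
(No need for `κ ∈ K`, for ideals of `K`, or for the transitivity of Galois on primes.)
-/

set_option autoImplicit false
set_option linter.unusedSectionVars false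
set_option linter.style.haveILetI false

noncomputable section

namespace Fermat.Agent.S55.K.GO3H535.H371

open Fermat.Agent.S55.PT Fermat.Agent.S55.Bridge Fermat.Agent.S55.K
open NumberField IsDedekindDomain IntermediateField
open scoped Pointwise

attribute [local instance] isAlgebraic_Qbar isGalois_Qbar

/-- The identity behind the construction, in any commutative group. -/
theorem capDiv_identity {G : Type*} [CommGroup G] (X D Y : G) (p h' : ℕ) (r s : ℤ)
    (hY : Y ^ p = X ^ h' * D) (hrs : r * h' + s * p = 1) :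
    (Y ^ r * X ^ s) ^ p / X = D ^ r := by
  have e1 : (Y ^ r * X ^ s) ^ p = (Y ^ p) ^ r * X ^ (s * p) := by
    rw [mul_pow, ← zpow_natCast (Y ^ r) p, ← zpow_mul, mul_comm r (p : ℤ), zpow_mul,
      zpow_natCast, ← zpow_natCast (X ^ s) p, ← zpow_mul]
  have e2 : (Y ^ p) ^ r = X ^ ((h' : ℤ) * r) * D ^ r := by
    rw [hY, mul_zpow, ← zpow_natCast X h', ← zpow_mul]
  have e3 : X ^ ((h' : ℤ) * r) * D ^ r * X ^ (s * p) / X =
      D ^ r * X ^ ((h' : ℤ) * r + s * p - 1) := by
    rw [zpow_sub, zpow_add, zpow_one, div_eq_mul_inv]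
    simp only [mul_assoc, mul_left_comm (D ^ r)]
  rw [e1, e2, e3, show (h' : ℤ) * r + s * p - 1 = 0 by linarith, zpow_zero, mul_one]

/-- A valuation subring of `ℚ̄` is trivial or lies over a prime number. -/
theorem unitAt_or_liesOverPrime (A : ValuationSubring Qbar) :
    (∀ x : Qbar, x ≠ 0 → UnitAt A x) ∨ ∃ q : Nat.Primes, A.LiesOverPrime (q : ℕ) := by
  by_cases h : ∃ q : Nat.Primes, A.LiesOverPrime (q : ℕ)
  · exact Or.inr h
  left
  have h' : ∀ ℓ : ℕ, ℓ.Prime → ((ℓ : Qbar))⁻¹ ∈ A := by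
    intro ℓ hℓ
    have hn : (ℓ : Qbar) ∉ A.nonunits := fun hmem => h ⟨⟨ℓ, hℓ⟩, hmem⟩
    rw [ValuationSubring.mem_nonunits_iff_or] at hn
    push Not at hn
    exact hn.2
  have hnat : ∀ n : ℕ, n ≠ 0 → ((n : Qbar))⁻¹ ∈ A := by
    intro n
    induction n using Nat.recOnMul with
    | zero => intro h0; exact absurd rfl h0
    | one => intro _; simp
    | prime ℓ hℓ => intro _; exact h' ℓ hℓ
    | mul a b iha ihb =>
      intro hab
      rw [Nat.cast_mul, mul_inv]
      exact A.mul_mem _ _ (iha (left_ne_zero_of_mul hab)) (ihb (right_ne_zero_of_mul hab))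
  have hrat : ∀ t : ℚ, (algebraMap ℚ Qbar t) ∈ A := by
    intro t
    have ht : algebraMap ℚ Qbar t = (t.num : Qbar) * ((t.den : Qbar))⁻¹ := by
      conv_lhs => rw [← Rat.num_div_den t]
      rw [map_div₀, div_eq_mul_inv]
      simp
    rw [ht]
    exact A.mul_mem _ _ (intCast_mem A _) (hnat t.den t.den_nz)
  have hall : ∀ x : Qbar, x ∈ A := by
    intro x
    have hint : IsIntegral ℚ x := Algebra.IsIntegral.isIntegral x
    obtain ⟨P, hP, hroot⟩ := hint
    have hi : IsIntegral A x := by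
      refine ⟨P.map (RingHom.codRestrict (algebraMap ℚ Qbar) A.toSubring hrat), hP.map _, ?_⟩
      rw [Polynomial.eval₂_map]
      exact hroot
    obtain ⟨y, hy⟩ := (IsIntegrallyClosed.isIntegral_iff (R := A) (K := Qbar)).mp hi
    rw [← hy]
    exact y.2
  intro x hx
  exact (unitAt_iff_mem hx).2 ⟨hall x, hall x⁻¹⟩

variable {S : Finset Nat.Primes}

/-- To be an `S`-unit it suffices to be a unit at the places over the primes outside `S`. -/
theorem isSUnit_of_forall_liesOver (x : Qbarˣ)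
    (h : ∀ q : Nat.Primes, q ∉ S → ∀ A : ValuationSubring Qbar, A.LiesOverPrime (q : ℕ) →
      UnitAt A (x : Qbar)) : IsSUnit S x := by
  rw [isSUnit_iff]
  intro A hA
  rcases unitAt_or_liesOverPrime A with htriv | ⟨q, hq⟩
  · exact htriv _ x.ne_zero
  · exact h q (fun hqS => hA q hqS hq) A hq

/-- Extraction of a `p^a`-th root of an `S`-smooth element whose orders outside `S` are divisible
by `p^a`: the root is `S`-smooth, with the expected orders. -/
theorem exists_root {p : ℕ} (hp : p.Prime) (hpS : (⟨p, hp⟩ : Nat.Primes) ∈ S) (a : ℕ)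
    (x : Qbarˣ) (hx : IsSm S x)
    (hord : ∀ q : Nat.Primes, q ∉ S → ∀ A : ValuationSubring Qbar, A.LiesOverPrime (q : ℕ) →
      ∃ m : ℤ, HasOrd A (q : ℕ) (x : Qbar) (((p ^ a : ℕ) : ℤ) * m)) :
    ∃ y : Qbarˣ, y ^ (p ^ a) = x ∧ IsSm S y ∧
      ∀ q : Nat.Primes, q ∉ S → ∀ A : ValuationSubring Qbar, A.LiesOverPrime (q : ℕ) →
        ∀ m : ℤ, HasOrd A (q : ℕ) (x : Qbar) (((p ^ a : ℕ) : ℤ) * m) →
          HasOrd A (q : ℕ) (y : Qbar) m := by
  have hn0 : p ^ a ≠ 0 := pow_ne_zero a hp.ne_zero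
  obtain ⟨z, hz⟩ := IsAlgClosed.exists_pow_nat_eq (x : Qbar) (Nat.pos_of_ne_zero hn0)
  have hz0 : z ≠ 0 := by
    rintro rfl
    rw [zero_pow hn0] at hz
    exact x.ne_zero hz.symm
  have hy : (Units.mk0 z hz0) ^ (p ^ a) = x := by
    apply Units.ext
    rw [Units.val_pow_eq_pow_val, Units.val_mk0, hz]
  have key : ∀ q : Nat.Primes, q ∉ S → ∀ A : ValuationSubring Qbar, A.LiesOverPrime (q : ℕ) →
      ∀ m : ℤ, HasOrd A (q : ℕ) (x : Qbar) (((p ^ a : ℕ) : ℤ) * m) →
        HasOrd A (q : ℕ) z m := by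
    intro q _ A _ m hm
    rw [hasOrd_iff_unitAt q.2.ne_zero] at hm ⊢
    apply unitAt_of_pow hn0
    rw [div_pow, hz, ← zpow_natCast (((q : ℕ) : Qbar) ^ m) (p ^ a), ← zpow_mul, mul_comm m]
    exact hm
  refine ⟨Units.mk0 z hz0, hy, ?_, key⟩
  refine isSm_of_pow hp hpS a (Units.mk0 z hz0) (by rw [hy]; exact hx) ?_
  intro q hq A hA
  obtain ⟨m, hm⟩ := hord q hq A hA
  exact ⟨m, key q hq A hA m hm⟩

/-- A place over a prime outside `S` is outside `S`. -/
theorem outsideS_of_liesOver {q : Nat.Primes} (hq : q ∉ S) {A : ValuationSubring Qbar}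
    (hA : A.LiesOverPrime (q : ℕ)) : OutsideS S A := by
  intro q' hq' hA'
  have hne : (q : ℕ) ≠ (q' : ℕ) := by
    intro h
    apply hq
    rw [Subtype.ext h]
    exact hq'
  have h1 : A.valuation ((q' : ℕ) : AlgebraicClosure ℚ) = 1 :=
    val_prime_eq_one (A := A) hA q.2 q'.2 hne
  have h2 : A.valuation ((q' : ℕ) : AlgebraicClosure ℚ) < 1 := (A.mem_nonunits_iff).mp hA'
  rw [h1] at h2
  exact lt_irrefl _ h2

/-- **GO3-CAPDIV.** -/
theorem capDiv (p : ℕ) [Fact p.Prime] (S : Finset Nat.Primes) : CapDivSpec p S := by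
  intro hpS V _ β hβ hw
  have hp : p.Prime := Fact.out
  have hpS' : (⟨p, hp⟩ : Nat.Primes) ∈ S := hpS
  have hp0 : (p : ℤ) ≠ 0 := by exact_mod_cast hp.ne_zero
  -- a Galois level containing `β`
  obtain ⟨F, hF, hgal, hβF⟩ := (isSm_iff_galois β).1 hβ
  haveI := hF.1
  haveI := hgal
  have hb0 : (⟨(β : Qbar), hβF⟩ : F) ≠ 0 := by
    intro h
    exact β.ne_zero (congrArg (fun x : F => (x : Qbar)) h)
  obtain ⟨h, hpos, κ, hκ0, hκ⟩ := exists_kappa F hF ⟨(β : Qbar), hβF⟩ hb0 p hp.pos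
  obtain ⟨a, h', hh', hh⟩ := Nat.exists_eq_pow_mul_and_not_dvd hpos.ne' p hp.ne_one
  have hordβ : ∀ q : Nat.Primes, q ∉ S → ∀ A : ValuationSubring Qbar, A.LiesOverPrime (q : ℕ) →
      ∃ n : ℤ, HasOrd A (q : ℕ) (β : Qbar) n := fun q hq A hA => isSm_exists_hasOrd hβ hq A hA
  -- `κ` as a unit of `ℚ̄`
  have hκQ0 : ((κ : F) : Qbar) ≠ 0 := by
    intro h0
    exact hκ0 (Subtype.ext h0)
  have hκsm : IsSm S (Units.mk0 ((κ : F) : Qbar) hκQ0) := (isSm_iff _).2 ⟨F, hF, κ.2⟩
  have hκord : ∀ q : Nat.Primes, q ∉ S → ∀ A : ValuationSubring Qbar, A.LiesOverPrime (q : ℕ) →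
      ∀ n : ℤ, HasOrd A (q : ℕ) (β : Qbar) n →
        HasOrd A (q : ℕ) ((Units.mk0 ((κ : F) : Qbar) hκQ0 : Qbarˣ) : Qbar)
          (((p ^ a : ℕ) : ℤ) * ((h' : ℤ) * (n % p))) := by
    intro q hq A hA n hn
    have := hκ q hq A hA n hn
    rw [hh, Nat.cast_mul, mul_assoc] at this
    exact this
  -- `δ = κ^(1/p^a)`
  obtain ⟨δ, hδ, hδsm, hδord⟩ := exists_root hp hpS' a _ hκsm (fun q hq A hA => by
    obtain ⟨n, hn⟩ := hordβ q hq A hA
    exact ⟨(h' : ℤ) * (n % p), hκord q hq A hA n hn⟩)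
  have hδord' : ∀ q : Nat.Primes, q ∉ S → ∀ A : ValuationSubring Qbar,
      A.LiesOverPrime (q : ℕ) → ∀ n : ℤ, HasOrd A (q : ℕ) (β : Qbar) n →
        HasOrd A (q : ℕ) (δ : Qbar) ((h' : ℤ) * (n % p)) := fun q hq A hA n hn =>
    hδord q hq A hA _ (hκord q hq A hA n hn)
  -- `γ = β^h' / δ`, `α₂ = γ^(1/p)`
  have hγsm : IsSm S (β ^ h' / δ) := isSm_div (isSm_pow hβ h') hδsm
  have hγord : ∀ q : Nat.Primes, q ∉ S → ∀ A : ValuationSubring Qbar,
      A.LiesOverPrime (q : ℕ) → ∀ n : ℤ, HasOrd A (q : ℕ) (β : Qbar) n →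
        HasOrd A (q : ℕ) ((β ^ h' / δ : Qbarˣ) : Qbar)
          (((p ^ 1 : ℕ) : ℤ) * ((h' : ℤ) * (n / p))) := by
    intro q hq A hA n hn
    have h1 := (hn.pow h').div q.2.ne_zero (hδord' q hq A hA n hn)
    rw [Units.val_div_eq_div_val, Units.val_pow_eq_pow_val]
    have e : n * (h' : ℤ) - (h' : ℤ) * (n % p) = ((p ^ 1 : ℕ) : ℤ) * ((h' : ℤ) * (n / p)) := by
      have := Int.emod_add_mul_ediv n p
      rw [pow_one]
      linear_combination (-(h' : ℤ)) * this
    rw [← e]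
    exact h1
  obtain ⟨α₂, hα₂, hα₂sm, -⟩ := exists_root hp hpS' 1 _ hγsm (fun q hq A hA => by
    obtain ⟨n, hn⟩ := hordβ q hq A hA
    exact ⟨(h' : ℤ) * (n / p), hγord q hq A hA n hn⟩)
  rw [pow_one] at hα₂
  -- Bezout
  have hcop : IsCoprime (h' : ℤ) (p : ℤ) := by
    rw [Int.isCoprime_iff_gcd_eq_one, Int.gcd_natCast_natCast, Nat.gcd_comm]
    exact (Nat.Prime.coprime_iff_not_dvd hp).2 hh'
  obtain ⟨r, s, hrs⟩ := hcop
  refine ⟨α₂ ^ r * β ^ s, isSm_mul (isSm_zpow hα₂sm r) (isSm_zpow hβ s), fun σ hσ => ?_⟩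
  -- the identity
  have hY : (σ • α₂ / α₂) ^ p = (σ • β / β) ^ h' * (δ / σ • δ) := by
    rw [div_pow, ← smul_pow', hα₂, smul_div', smul_pow', div_pow]
    rw [div_mul_div_comm, div_div_div_eq, mul_comm (σ • δ)]
  have hid : (σ • (α₂ ^ r * β ^ s) / (α₂ ^ r * β ^ s)) ^ p / (σ • β / β) = (δ / σ • δ) ^ r := by
    rw [← capDiv_identity (σ • β / β) (δ / σ • δ) (σ • α₂ / α₂) p h' r s hY hrs]
    congr 2
    rw [smul_mul', smul_zpow', smul_zpow', div_zpow, div_zpow, mul_div_mul_comm]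
  rw [hid]
  -- `δ / σδ` is an `S`-unit
  apply isSUnit_of_forall_liesOver
  intro q hq A hA
  rw [Units.val_zpow_eq_zpow_val, Units.val_div_eq_div_val, coe_smul_units]
  apply UnitAt.zpow
  obtain ⟨n, hn⟩ := hordβ q hq A hA
  have hA' : (σ⁻¹ • A).LiesOverPrime (q : ℕ) := liesOverPrime_smul A σ⁻¹ q hA
  obtain ⟨n', hn'⟩ := hordβ q hq (σ⁻¹ • A) hA'
  have h1 : HasOrd A (q : ℕ) (δ : Qbar) ((h' : ℤ) * (n % p)) := hδord' q hq A hA n hn
  have h2 : HasOrd A (q : ℕ) (σ (δ : Qbar)) ((h' : ℤ) * (n' % p)) :=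
    (hasOrd_inv_smul_iff q.2.ne_zero σ _ _).1 (hδord' q hq _ hA' n' hn')
  have hnn : n' % (p : ℤ) = n % p := by
    obtain ⟨w, hwsm, hwu⟩ := hw σ hσ
    obtain ⟨m, hm⟩ := isSm_exists_hasOrd hwsm hq A hA
    have hu : UnitAt A ((w ^ p / (σ • β / β) : Qbarˣ) : Qbar) :=
      (isSUnit_iff S _).1 hwu A (outsideS_of_liesOver hq hA)
    have hσβ : HasOrd A (q : ℕ) (σ (β : Qbar)) n' := (hasOrd_inv_smul_iff q.2.ne_zero σ _ _).1 hn'
    rw [Units.val_div_eq_div_val, Units.val_div_eq_div_val, Units.val_pow_eq_pow_val,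
      coe_smul_units] at hu
    have h3 := (hm.pow p).div q.2.ne_zero (hσβ.div q.2.ne_zero hn)
    have h4 := h3.eq_zero_of_unitAt q.2.ne_zero hA hu
    have h5 : n' = n + m * p := by linarith
    rw [h5, Int.add_mul_emod_self_right]
  rw [hnn] at h2
  have h6 := h1.div q.2.ne_zero h2
  rw [sub_self] at h6
  exact (hasOrd_zero_iff _).1 h6

end Fermat.Agent.S55.K.GO3H535.H371

end
end
-- ===== PACK-END S55/K/GO3H535/H371/CapDiv.lean

-- ===== PACK-BEGIN S55/GAD/SUnitDictH655.lean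
section



/-!
# S55 / G-ADAPTER leaf GAD-SU (helper655): the `S`-unit dictionary

`divT L e = 0 ↔ L.IsSUnit e` for the concrete tower datum of `GAD/Defs.lean`: a unit of the level
field has trivial divisor outside `S` (layer-G language: `ord_w = 0` at every prime `w` of `𝓞_F`
not above `S`) iff it is an `S`-unit in the tower's sense (unit at every valuation subring of `ℚ̄`
over a prime `ℓ ∉ S`).  This is `Bridge.isSUnit_levelUnitsIso_iff` (part B17 of the bridge)
transported along `toField = levelUnitsIso.inv`.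
-/

set_option autoImplicit false

namespace Fermat.Agent.S55.GAD.H655

open Fermat.Agent.S55 Fermat.Agent.S55.Tow Fermat.Agent.S55.E1.H594 Fermat.Agent.S55.G

variable {S : Finset Nat.Primes}

/-- `divT L e = 0` iff `toField L e` is an `S`-unit of layer G. -/
theorem divT_eq_zero_iff_mem_sUnit (L : Level S) (e : L.units.V) :
    GAD.divT L e = 0 ↔ GAD.toField L e ∈ G.sUnit S L.F := by
  rfl

/-- **GAD-SU**, pointwise form. -/
theorem divT_eq_zero_iff (L : Level S) (e : L.units.V) :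
    GAD.divT L e = 0 ↔ L.IsSUnit e := by
  rw [divT_eq_zero_iff_mem_sUnit, ← Bridge.isSUnit_levelUnitsIso_iff L (GAD.toField L e)]
  have h : (levelUnitsIso L).hom.hom (GAD.toField L e) = e :=
    Rep.hom_inv_apply _ _ (levelUnitsIso L) e
  rw [h]

/-- **GAD-SU** (`GAD/Spec.lean`): exact shape of `SUnitDictSpec S`. -/
theorem sUnitDict (S : Finset Nat.Primes) : GAD.SUnitDictSpec S :=
  fun L e => divT_eq_zero_iff L e

end Fermat.Agent.S55.GAD.H655

end
-- ===== PACK-END S55/GAD/SUnitDictH655.lean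

-- ===== PACK-BEGIN S55/G/Rec/Loc/H483/Unram.lean
section


/-!
# S55 / G / REC / LOC, leaf LOC-UNR : `UnramSpec`   (helper483)

`unram_of (hO : OpenSpec) (hD : DescentSpec) (hUp : UpSpec)
    (hH2 : Local.UnramUnitsH2Statement) : UnramSpec`

A level cocycle `c` on `V` with unit values, invariant under right translation by inertial
elements and with values fixed by the inertial elements, is a level coboundary:
`c` descends to a finite Galois level `E` (DescentSpec), then to the unramified level `E₀ ≤ E`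
(`unramLevel_of`), where `H²(Gal(E₀/K), U_{E₀}) = 0` (`Local.UnramUnitsH2Statement`); the
finite-level coboundary inflates to a level coboundary (UpSpec).
-/

set_option autoImplicit false
set_option linter.unusedSectionVars false
set_option linter.style.haveILetI false

noncomputable section

namespace Fermat.Agent.S55.G.Rec.Loc.H483

open groupCohomology Fermat.Agent.S55.G.Rec Fermat.Agent.S55.G.Rec.Loc Fermat.Agent.S55.Local

section Generic

/-- descent of the multiplicative 2-cocycle condition along a surjection of groups and an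
injection of modules -/
lemma isMulCocycle₂_of_surjective {G Q M M₀ : Type*} [Group G] [Group Q] [CommGroup M]
    [CommGroup M₀] [MulDistribMulAction Q M₀] (act : G → M → M) (r : G →* Q)
    (hr : Function.Surjective r) (incl : M₀ →* M) (hincl : Function.Injective incl)
    (heq : ∀ g u, incl (r g • u) = act g (incl u)) (C : G × G → M)
    (hC : ∀ g h j, C (g * h, j) * C (g, h) = act g (C (h, j)) * C (g, h * j))
    (c₀ : Q × Q → M₀) (h : ∀ g h, incl (c₀ (r g, r h)) = C (g, h)) : IsMulCocycle₂ c₀ := by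
  intro a b d
  obtain ⟨g, rfl⟩ := hr a
  obtain ⟨h', rfl⟩ := hr b
  obtain ⟨j, rfl⟩ := hr d
  apply hincl
  rw [map_mul, map_mul, heq, ← map_mul r, ← map_mul r, h, h, h, h]
  exact hC g h' j

end Generic

section Aux

variable (q : ℕ) [Fact q.Prime] (V : Subgroup (PadicAlgCl q ≃ₐ[ℚ_[q]] PadicAlgCl q))

/-- restriction to a normal level is surjective when `V` is the fixing subgroup of `K_V` -/
lemma resHom_surjective (hfix : (fixedFld q V).fixingSubgroup = V)
    (E : IntermediateField (fixedFld q V) (PadicAlgCl q)) [Normal (fixedFld q V) E] :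
    Function.Surjective (resHom q V E) := by
  intro a
  haveI : Normal (fixedFld q V) (PadicAlgCl q) := inferInstance
  let τ : PadicAlgCl q ≃ₐ[fixedFld q V] PadicAlgCl q := a.liftNormal (PadicAlgCl q)
  have hmem0 : τ.restrictScalars ℚ_[q] ∈ (fixedFld q V).fixingSubgroup :=
    (IntermediateField.mem_fixingSubgroup_iff _ _).2 (fun x hx => τ.commutes ⟨x, hx⟩)
  refine ⟨⟨τ.restrictScalars ℚ_[q], hfix.le hmem0⟩, ?_⟩
  ext x
  rw [resHom_apply_coe]
  exact a.liftNormal_commutes (PadicAlgCl q) x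

/-- an element of `ℚ̄_q` fixed by all elements of `V` which fix `E₀` pointwise lies in `E₀` -/
lemma mem_level_of_fixed (hfix : (fixedFld q V).fixingSubgroup = V)
    (E₀ : IntermediateField (fixedFld q V) (PadicAlgCl q)) (x : PadicAlgCl q)
    (hx : ∀ w : ↥V, (∀ y ∈ E₀, (w : PadicAlgCl q ≃ₐ[ℚ_[q]] PadicAlgCl q) y = y) →
      (w : PadicAlgCl q ≃ₐ[ℚ_[q]] PadicAlgCl q) x = x) : x ∈ E₀ := by
  haveI : IsGalois (fixedFld q V) (PadicAlgCl q) := inferInstance
  rw [← InfiniteGalois.fixedField_fixingSubgroup E₀, IntermediateField.mem_fixedField_iff]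
  intro τ hτ
  have hmem0 : τ.restrictScalars ℚ_[q] ∈ (fixedFld q V).fixingSubgroup :=
    (IntermediateField.mem_fixingSubgroup_iff _ _).2 (fun x hx => τ.commutes ⟨x, hx⟩)
  exact hx ⟨τ.restrictScalars ℚ_[q], hfix.le hmem0⟩
    (fun y hy => (IntermediateField.mem_fixingSubgroup_iff _ _).1 hτ y hy)

/-- a unit of `ℚ̄_q` lying in a level, as a unit of the level -/
def unitOfMem (E₀ : IntermediateField (fixedFld q V) (PadicAlgCl q)) (u : (PadicAlgCl q)ˣ)
    (hu : (u : PadicAlgCl q) ∈ E₀) : (↥E₀)ˣ :=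
  Units.mk0 ⟨(u : PadicAlgCl q), hu⟩ (fun h => u.ne_zero (congrArg Subtype.val h))

@[simp] lemma unitsIncl_unitOfMem (E₀ : IntermediateField (fixedFld q V) (PadicAlgCl q))
    (u : (PadicAlgCl q)ˣ) (hu : (u : PadicAlgCl q) ∈ E₀) :
    _root_.Fermat.Agent.S55.G.Rec.Loc.unitsIncl q V E₀ (unitOfMem q V E₀ u hu) = u :=
  Units.ext rfl

lemma unitsIncl_injective (E₀ : IntermediateField (fixedFld q V) (PadicAlgCl q)) :
    Function.Injective (_root_.Fermat.Agent.S55.G.Rec.Loc.unitsIncl q V E₀) := by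
  intro a b h
  apply Units.ext
  apply Subtype.ext
  exact congrArg (fun u : (PadicAlgCl q)ˣ => (u : PadicAlgCl q)) h

end Aux

set_option maxHeartbeats 1600000 in
set_option synthInstance.maxHeartbeats 400000 in
/-- **LOC-UNR.** -/
theorem unram_of (hO : OpenSpec) (hD : _root_.Fermat.Agent.S55.G.Rec.Loc.DescentSpec) (hUp : UpSpec)
    (hH2 : Local.UnramUnitsH2Statement) : UnramSpec := by
  intro q _ V hV c h1 h2 h3
  obtain ⟨hfin, hfix⟩ := hO q V hV
  haveI := hfin
  obtain ⟨E, hEfin, hEgal, f, -, hinf⟩ := hD q V hV c ⊥ inferInstance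
  haveI := hEfin
  haveI := hEgal
  obtain ⟨E₀, hE₀fin, hE₀gal, hle, hunr, hker⟩ := unramLevel_of hO q V hV E
  haveI := hE₀fin
  haveI := hE₀gal
  -- the multiplicative cocycle on `V`
  let C : ↥V × ↥V → (PadicAlgCl q)ˣ := fun p => Additive.toMul ((c : ↥V × ↥V → lModOn q V) p)
  have hCE : ∀ g h : ↥V, C (g, h) =
      _root_.Fermat.Agent.S55.G.Rec.Loc.unitsIncl q V E (Additive.toMul ((f : (E ≃ₐ[fixedFld q V] E) × (E ≃ₐ[fixedFld q V] E) →
        L.unitsRep (fixedFld q V) E) (resHom q V E g, resHom q V E h))) := by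
    intro g h
    show Additive.toMul ((c : ↥V × ↥V → lModOn q V) (g, h)) = _
    rw [hinf]
    rfl
  -- the cocycle identity
  have hCcoc : ∀ g h j : ↥V, C (g * h, j) * C (g, h) =
      (g : PadicAlgCl q ≃ₐ[ℚ_[q]] PadicAlgCl q) • C (h, j) * C (g, h * j) := by
    intro g h j
    have hc := (mem_cocycles₂_iff (A := lModOn q V) (c : ↥V × ↥V → lModOn q V)).1
      ((mem_levelCocycles₂_iff _ _ _).1 c.2).1 g h j
    exact congrArg Additive.toMul hc
  -- invariance modulo the kernel of `V → Gal(E / K)`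
  have hCE' : ∀ g g' h h' : ↥V, resHom q V E g = resHom q V E g' →
      resHom q V E h = resHom q V E h' → C (g, h) = C (g', h') := by
    intro g g' h h' hg hh
    rw [hCE, hCE, hg, hh]
  -- invariance modulo the kernel of `V → Gal(E₀ / K)`
  have hC0 : ∀ g g' h h' : ↥V, resHom q V E₀ g = resHom q V E₀ g' →
      resHom q V E₀ h = resHom q V E₀ h' → C (g, h) = C (g', h') := by
    intro g g' h h' hg hh
    have hw : resHom q V E₀ (g⁻¹ * g') = 1 := by rw [map_mul, map_inv, hg, inv_mul_cancel]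
    have hw' : resHom q V E₀ (h⁻¹ * h') = 1 := by rw [map_mul, map_inv, hh, inv_mul_cancel]
    obtain ⟨i, n, hi, hn, hin⟩ := (hker _).1 hw
    obtain ⟨i', n', hi', hn', hin'⟩ := (hker _).1 hw'
    have hg' : g' = g * i * n := by rw [mul_assoc, ← hin, mul_inv_cancel_left]
    have hh' : h' = h * i' * n' := by rw [mul_assoc, ← hin', mul_inv_cancel_left]
    have e1 : C (g', h') = C (g * i, h * i') := by
      apply hCE'
      · rw [hg', map_mul, hn, mul_one]
      · rw [hh', map_mul, hn', mul_one]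
    have e2 : C (g * i, h * i') = C (g, h) := congrArg Additive.toMul (h2 g h i i' hi hi')
    rw [e1, e2]
  -- values in `E₀`
  have hval : ∀ g h : ↥V, ((C (g, h) : (PadicAlgCl q)ˣ) : PadicAlgCl q) ∈ E₀ := by
    intro g h
    apply mem_level_of_fixed q V hfix E₀
    intro w hw
    have hw1 : resHom q V E₀ w = 1 := (resHom_eq_one_iff q V E₀ w).2 hw
    obtain ⟨i, n, hi, hn, rfl⟩ := (hker _).1 hw1
    have hn' := (resHom_eq_one_iff q V E n).1 hn
    have hmemE : ((C (g, h) : (PadicAlgCl q)ˣ) : PadicAlgCl q) ∈ E := by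
      rw [hCE]
      exact Subtype.property _
    have e1 : (n : PadicAlgCl q ≃ₐ[ℚ_[q]] PadicAlgCl q) (C (g, h) : PadicAlgCl q) =
        (C (g, h) : PadicAlgCl q) := hn' _ hmemE
    have e2 : (i : PadicAlgCl q ≃ₐ[ℚ_[q]] PadicAlgCl q) (C (g, h) : PadicAlgCl q) =
        (C (g, h) : PadicAlgCl q) := by
      have := congrArg (fun z : lModOn q V => ((Additive.toMul z : (PadicAlgCl q)ˣ) :
        PadicAlgCl q)) (h3 g h i hi)
      exact this
    show (i : PadicAlgCl q ≃ₐ[ℚ_[q]] PadicAlgCl q)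
      ((n : PadicAlgCl q ≃ₐ[ℚ_[q]] PadicAlgCl q) (C (g, h) : PadicAlgCl q)) = _
    rw [e1, e2]
  -- sections
  have hsurj := resHom_surjective q V hfix E₀
  let s : (E₀ ≃ₐ[fixedFld q V] E₀) → ↥V := Function.surjInv hsurj
  have hs : ∀ a, resHom q V E₀ (s a) = a := Function.surjInv_eq hsurj
  -- the finite-level cocycle
  let c₀ : (E₀ ≃ₐ[fixedFld q V] E₀) × (E₀ ≃ₐ[fixedFld q V] E₀) → (↥E₀)ˣ :=
    fun p => unitOfMem q V E₀ (C (s p.1, s p.2)) (hval _ _)
  have hc₀ : ∀ g h : ↥V, _root_.Fermat.Agent.S55.G.Rec.Loc.unitsIncl q V E₀ (c₀ (resHom q V E₀ g, resHom q V E₀ h)) = C (g, h) := by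
    intro g h
    show _root_.Fermat.Agent.S55.G.Rec.Loc.unitsIncl q V E₀ (unitOfMem q V E₀ _ _) = _
    rw [unitsIncl_unitOfMem]
    exact hC0 _ _ _ _ (hs _) (hs _)
  have hc₀' : ∀ a b, _root_.Fermat.Agent.S55.G.Rec.Loc.unitsIncl q V E₀ (c₀ (a, b)) = C (s a, s b) := fun a b =>
    unitsIncl_unitOfMem q V E₀ _ _
  have hcoc₀ : IsMulCocycle₂ c₀ :=
    isMulCocycle₂_of_surjective
      (fun (g : ↥V) (u : (PadicAlgCl q)ˣ) => (g : PadicAlgCl q ≃ₐ[ℚ_[q]] PadicAlgCl q) • u)
      (resHom q V E₀) hsurj (_root_.Fermat.Agent.S55.G.Rec.Loc.unitsIncl q V E₀) (unitsIncl_injective q V E₀)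
      (fun g u => Units.ext (resHom_apply_coe q V E₀ g _)) C hCcoc c₀ hc₀
  -- unit values
  have hunit : ∀ p, c₀ p ∈ _root_.Fermat.Agent.S55.Local.intUnits ℤ_[q] ℚ_[q] E₀ := by
    intro p
    have hnorm : ‖((C (s p.1, s p.2) : (PadicAlgCl q)ˣ) : PadicAlgCl q)‖ = 1 := h1 _ _
    rw [mem_intUnits, isInt_level_iff, isInt_level_iff]
    constructor
    · show ‖((C (s p.1, s p.2) : (PadicAlgCl q)ˣ) : PadicAlgCl q)‖ ≤ 1
      rw [hnorm]
    · have : (((c₀ p)⁻¹ : (↥E₀)ˣ) : PadicAlgCl q) =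
          ((C (s p.1, s p.2) : (PadicAlgCl q)ˣ) : PadicAlgCl q)⁻¹ := by
        rw [Units.val_inv_eq_inv_val]
        rfl
      rw [this, norm_inv, hnorm, inv_one]
  obtain ⟨x, -, hx⟩ := hH2 ℤ_[q] ℚ_[q] (fixedFld q V) E₀ hunr c₀ hcoc₀ hunit
  have hcob : IsMulCoboundary₂ c₀ := ⟨x, hx⟩
  -- conclusion
  let f₀ : cocycles₂ (L.unitsRep (fixedFld q V) E₀) := cocyclesOfIsMulCocycle₂ hcoc₀
  have hcls : L.cls f₀ = 0 :=
    (H2π_eq_zero_iff f₀).mpr (coboundariesOfIsMulCoboundary₂ hcob).2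
  have hinf₀ : IsAbsInflation q V E₀ f₀ c := by
    funext p
    apply Additive.toMul.injective
    show C (p.1, p.2) = _root_.Fermat.Agent.S55.G.Rec.Loc.unitsIncl q V E₀ (c₀ (resHom q V E₀ p.1, resHom q V E₀ p.2))
    rw [hc₀]
  exact hUp q V hV E₀ f₀ c hinf₀ hcls

end Fermat.Agent.S55.G.Rec.Loc.H483

end
end
-- ===== PACK-END S55/G/Rec/Loc/H483/Unram.lean

-- ===== PACK-BEGIN S55/Cap/C2H713/Main.lean
section


/-!
# S55 / A8 (CAP), leaf A8-C2 (helper713) : `c2Adapter : C2AdapterSpec p S`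

Existence theorem mod `p` in cochain form, from a good tower datum with GD11 (`ClTorsion`) and
GD12 (`Descent`): blueprint `coord/S55-K-A8.md` §4.4.
-/

set_option autoImplicit false
set_option linter.unusedVariables false
set_option linter.unusedSectionVars false
set_option linter.style.haveILetI false

noncomputable section

namespace Fermat.Agent.S55.Cap.H713

open Fermat.Agent.S55.PT Fermat.Agent.S55.Tow Fermat.Agent.S55.Cap

variable {S : Finset Nat.Primes} {p : ℕ}

/-! ### group theory in the tower -/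

lemma proj_eq_quotientMapOfLE {L L' : Level S} (h : L ≤ L') (σ : L'.Gal) :
    Level.proj h σ = Subgroup.quotientMapOfLE (Level.U_anti h) σ := by
  induction σ using QuotientGroup.induction_on with
  | H g => rfl

lemma mk_mem_relGal {L L' : Level S} (h : L ≤ L') {u : Tow.GQ} (hu : u ∈ L.U) :
    (QuotientGroup.mk u : L'.Gal) ∈ Level.relGal h := by
  show Level.proj h (QuotientGroup.mk u) = 1
  rw [Level.proj_mk]
  exact (QuotientGroup.eq_one_iff u).2 hu

lemma exists_mk_of_mem_relGal {L L' : Level S} (h : L ≤ L') {σ : L'.Gal}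
    (hσ : σ ∈ Level.relGal h) : ∃ u ∈ L.U, (QuotientGroup.mk u : L'.Gal) = σ := by
  induction σ using QuotientGroup.induction_on with
  | H g =>
    refine ⟨g, ?_, rfl⟩
    have h1 : Level.proj h (QuotientGroup.mk g) = 1 := hσ
    rw [Level.proj_mk] at h1
    exact (QuotientGroup.eq_one_iff g).1 h1

/-- the sum over a fibre of `Gal(L₁/ℚ) → Gal(L₀/ℚ)` is a translate of the relative norm -/
lemma sum_fiber (D : TowerDatum S) {L₀ L₁ : Level S} (h : L₀ ≤ L₁) [Fintype L₁.Gal]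
    [DecidableEq L₀.Gal] [Fintype (Level.relGal h)] (τ : L₁.Gal) (c : (D.C L₁).V) :
    ∑ σ ∈ Finset.univ.filter (fun σ : L₁.Gal => Level.proj h σ = Level.proj h τ),
        (D.C L₁).ρ σ c =
      (D.C L₁).ρ τ (∑ h' : Level.relGal h, (D.C L₁).ρ (h' : L₁.Gal) c) := by
  classical
  rw [map_sum]
  rw [Finset.sum_subtype (p := fun σ : L₁.Gal => Level.proj h σ = Level.proj h τ)
    (Finset.univ.filter (fun σ : L₁.Gal => Level.proj h σ = Level.proj h τ))
    (fun σ => by simp) (fun σ => (D.C L₁).ρ σ c)]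
  symm
  let e : Level.relGal h ≃ {σ : L₁.Gal // Level.proj h σ = Level.proj h τ} :=
    { toFun := fun h' => ⟨τ * h', by rw [map_mul, show Level.proj h (h' : L₁.Gal) = 1 from h'.2,
        mul_one]⟩
      invFun := fun σ => ⟨τ⁻¹ * σ, by
        show Level.proj h (τ⁻¹ * σ) = 1
        rw [map_mul, map_inv, σ.2, inv_mul_cancel]⟩
      left_inv := fun h' => Subtype.ext (by simp)
      right_inv := fun σ => Subtype.ext (by simp) }
  refine Fintype.sum_equiv e _ _ (fun h' => ?_)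
  show (D.C L₁).ρ τ ((D.C L₁).ρ (h' : L₁.Gal) c) = (D.C L₁).ρ (τ * h') c
  rw [map_mul]
  rfl

/-! ### Shapiro in degree `0` -/

section Shapiro

variable (L₁ : Level S) (q : IndM L₁.U (JJS S))
  (hq : ∀ g : Tow.GQ, ∃ e : IndM L₁.U (SU S), IndM.map L₁.U (iEJ S) e = g • q - q)

include hq in
/-- the coefficients of an invariant class are the translates of the coefficient at `1` -/
lemma exists_coeff_eq (g : Tow.GQ) :
    ∃ e : SU S, iEJ S e =
      g • coeff L₁.U (QuotientGroup.mk 1) q - coeff L₁.U (QuotientGroup.mk g) q := by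
  obtain ⟨e, he⟩ := hq g
  refine ⟨coeff L₁.U (QuotientGroup.mk g) e, ?_⟩
  rw [← coeff_map, he, map_sub, coeff_smul]
  have h1 : g⁻¹ • (QuotientGroup.mk g : Tow.GQ ⧸ L₁.U) = QuotientGroup.mk 1 := by
    show (QuotientGroup.mk (g⁻¹ * g) : Tow.GQ ⧸ L₁.U) = QuotientGroup.mk 1
    rw [inv_mul_cancel]
  rw [h1]

include hq in
lemma exists_fixed_eq (u : Tow.GQ) (hu : u ∈ L₁.U) :
    ∃ e : SU S, iEJ S e =
      u • coeff L₁.U (QuotientGroup.mk 1) q - coeff L₁.U (QuotientGroup.mk 1) q := by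
  obtain ⟨e, he⟩ := exists_coeff_eq L₁ q hq u
  have h1 : (QuotientGroup.mk u : Tow.GQ ⧸ L₁.U) = QuotientGroup.mk 1 := by
    rw [QuotientGroup.eq]
    simpa using L₁.U.inv_mem hu
  rw [h1] at he
  exact ⟨e, he⟩

end Shapiro

/-! ### invariance -/

section Invariance

variable {D : TowerDatum S} (hD : D.IsGoodMu p) (hS : S.Nonempty)

include hD hS in
/-- if `u x − x` is a diagonal `S`-unit for `u ∈ U₁` then `j(x)` is `Gal(L/L₁)`-invariant -/
lemma jSum_invariant {L₁ L : Level S} (h : L₁ ≤ L) (f : JS L)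
    (hf : ∀ u ∈ L₁.U, ∃ e : SU S, iEJ S e = u • toJJ L f - toJJ L f)
    (σ : L.Gal) (hσ : σ ∈ Level.relGal h) : (D.C L).ρ σ (jSum D L f) = jSum D L f := by
  obtain ⟨u, hu, rfl⟩ := exists_mk_of_mem_relGal h hσ
  obtain ⟨e, he⟩ := hf u hu
  have h0 : jSum D L (actJS L (QuotientGroup.mk u) f - f) = 0 := by
    apply jSum_eq_zero_of_toJJ_eq hD hS L _ e
    rw [he, map_sub, toJJ_act]
  rw [map_sub, jSum_act, sub_eq_zero] at h0
  exact h0

include hD in
/-- if `j(y)` is the transfer of a `Gal(L₁/L₀)`-invariant class then `u y − y` is a diagonal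
`S`-unit for `u ∈ U₀` -/
lemma exists_iEJ_eq_of_invariant {L₀ L₁ L₃ : Level S} (h₀₁ : L₀ ≤ L₁) (h₁₃ : L₁ ≤ L₃)
    (c : (D.C L₁).V) (hc : ∀ σ ∈ Level.relGal h₀₁, (D.C L₁).ρ σ c = c)
    (y : JS L₃) (hy : (D.tr h₁₃).hom c = jSum D L₃ y) (u : Tow.GQ) (hu : u ∈ L₀.U) :
    ∃ e : SU S, iEJ S e = u • toJJ L₃ y - toJJ L₃ y := by
  have h0 : jSum D L₃ (actJS L₃ (QuotientGroup.mk u) y - y) = 0 := by
    rw [map_sub, jSum_act, ← hy, sub_eq_zero]
    have h1 := tr_ρ D h₁₃ (QuotientGroup.mk u) c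
    rw [Level.proj_mk] at h1
    rw [← h1, hc _ (mk_mem_relGal h₀₁ hu)]
  obtain ⟨e, he⟩ := exists_iEJ_eq_of_jSum_eq_zero hD L₃ _ h0
  refine ⟨e, ?_⟩
  rw [he, map_sub, toJJ_act]

end Invariance

/-! ### the element `q₂` -/

section Q2

variable (L₀ : Level S) (x : JJS S)

/-- `q₂ = ∑_{y ∈ Γ/U₀} single y (s(y) x)` for the section `s = Quotient.out` -/
def spread : IndM L₀.U (JJS S) := ofFun L₀.U (fun y => (Quotient.out y : Tow.GQ) • x)

lemma coeff_spread (y : Tow.GQ ⧸ L₀.U) :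
    coeff L₀.U y (spread L₀ x) = (Quotient.out y : Tow.GQ) • x := rfl

lemma exists_spread_eq (hx : ∀ u ∈ L₀.U, ∃ e : SU S, iEJ S e = u • x - x) (g : Tow.GQ) :
    ∃ e : IndM L₀.U (SU S), IndM.map L₀.U (iEJ S) e = g • spread L₀ x - spread L₀ x := by
  apply exists_map_eq
  intro y
  rw [map_sub, coeff_smul, coeff_spread, coeff_spread]
  set a : Tow.GQ := g * (Quotient.out (g⁻¹ • y) : Tow.GQ) with ha
  set b : Tow.GQ := (Quotient.out y : Tow.GQ) with hb
  have hab : (QuotientGroup.mk a : Tow.GQ ⧸ L₀.U) = QuotientGroup.mk b := by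
    have h1 : (QuotientGroup.mk a : Tow.GQ ⧸ L₀.U) =
        g • (QuotientGroup.mk (Quotient.out (g⁻¹ • y) : Tow.GQ) : Tow.GQ ⧸ L₀.U) := rfl
    rw [h1, QuotientGroup.out_eq', smul_inv_smul, hb, QuotientGroup.out_eq']
  have hu : b⁻¹ * a ∈ L₀.U := QuotientGroup.eq.1 hab.symm
  obtain ⟨e, he⟩ := hx _ hu
  refine ⟨b • e, ?_⟩
  rw [iEJ_smul, he, smul_sub, ← mul_smul, ← mul_smul, mul_inv_cancel_left]

end Q2

/-! ### the core computation -/

section Core

variable {D : TowerDatum S} (hD : D.IsGoodMu p)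

include hD in
/-- **Core.**  `n ∑_{σ ↦ y} s(σ) x₁ − p s(y) y₂` is a diagonal `S`-unit. -/
lemma exists_iEJ_eq_core {L₀ L₁ L L₂ L₃ : Level S} (h₀₁ : L₀ ≤ L₁) (h₁ : L₁ ≤ L)
    (h₂ : L ≤ L₂) (h₁₃ : L₁ ≤ L₃)
    [Fintype L₁.Gal] [DecidableEq L₀.Gal] [Fintype (Level.relGal h₀₁)]
    (x₁ : JS L) (c₁ c₀ : (D.C L₁).V)
    (hdesc : (D.tr h₂).hom (jSum D L x₁) = (D.tr (h₁.trans h₂)).hom c₁)
    (hnorm : ∑ h' : Level.relGal h₀₁, (D.C L₁).ρ (h' : L₁.Gal) c₁ = p • c₀)
    (n : ℕ) (y₂ : JS L₃) (hy₂ : (D.tr h₁₃).hom (n • c₀) = jSum D L₃ y₂)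
    (y : L₀.Gal) :
    ∃ e : SU S, iEJ S e =
      n • ∑ σ ∈ Finset.univ.filter
          (fun σ : L₁.Gal => Subgroup.quotientMapOfLE (Level.U_anti h₀₁) σ = y),
          (Quotient.out σ : Tow.GQ) • toJJ L x₁
        - p • ((Quotient.out y : Tow.GQ) • toJJ L₃ y₂) := by
  classical
  -- a common level
  set L₄ : Level S := capSup S L₂ L₃ with hL₄
  have h₂₄ : L₂ ≤ L₄ := le_capSup_left S L₂ L₃
  have h₃₄ : L₃ ≤ L₄ := le_capSup_right S L₂ L₃
  have h₄ : L ≤ L₄ := h₂.trans h₂₄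
  have h₁₄ : L₁ ≤ L₄ := h₁.trans h₄
  set X₁ : JS L₄ := trJS h₄ x₁ with hX₁
  set Y₂ : JS L₄ := trJS h₃₄ y₂ with hY₂
  set τ : L₁.Gal := QuotientGroup.mk (Quotient.out y : Tow.GQ) with hτ
  have hτy : Level.proj h₀₁ τ = y := by
    rw [hτ, Level.proj_mk]
    exact QuotientGroup.out_eq' y
  set W : JS L₄ :=
    n • ∑ σ ∈ Finset.univ.filter
        (fun σ : L₁.Gal => Subgroup.quotientMapOfLE (Level.U_anti h₀₁) σ = y),
        actJS L₄ (QuotientGroup.mk (Quotient.out σ : Tow.GQ)) X₁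
      - p • actJS L₄ (QuotientGroup.mk (Quotient.out y : Tow.GQ)) Y₂ with hW
  have htoJJ : toJJ L₄ W =
      n • ∑ σ ∈ Finset.univ.filter
          (fun σ : L₁.Gal => Subgroup.quotientMapOfLE (Level.U_anti h₀₁) σ = y),
          (Quotient.out σ : Tow.GQ) • toJJ L x₁
        - p • ((Quotient.out y : Tow.GQ) • toJJ L₃ y₂) := by
    rw [hW, map_sub, map_nsmul, map_nsmul, map_sum, toJJ_act, hY₂, toJJ_tr]
    congr 2
  -- `j(X₁)` and `j(Y₂)`
  have hjX : jSum D L₄ X₁ = (D.tr h₁₄).hom c₁ := by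
    rw [hX₁, jSum_tr hD, ← hD.gd7b h₂ h₂₄, hdesc, hD.gd7b]
  have hjY : jSum D L₄ Y₂ = (D.tr h₁₄).hom (n • c₀) := by
    rw [hY₂, jSum_tr hD, ← hy₂, hD.gd7b]
  have hact : ∀ (g : Tow.GQ) (c : (D.C L₁).V),
      (D.C L₄).ρ (QuotientGroup.mk g) ((D.tr h₁₄).hom c) =
        (D.tr h₁₄).hom ((D.C L₁).ρ (QuotientGroup.mk g) c) := by
    intro g c
    have := tr_ρ D h₁₄ (QuotientGroup.mk g) c
    rw [Level.proj_mk] at this
    exact this.symm
  have hjW : jSum D L₄ W = 0 := by
    rw [hW, map_sub, map_nsmul, map_nsmul, map_sum, jSum_act, hjY, hact]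
    have h1 : ∀ σ ∈ Finset.univ.filter
        (fun σ : L₁.Gal => Subgroup.quotientMapOfLE (Level.U_anti h₀₁) σ = y),
        jSum D L₄ (actJS L₄ (QuotientGroup.mk (Quotient.out σ : Tow.GQ)) X₁) =
          (D.tr h₁₄).hom ((D.C L₁).ρ σ c₁) := by
      intro σ _
      rw [jSum_act, hjX, hact, QuotientGroup.out_eq']
    rw [Finset.sum_congr rfl h1, ← tr_sum, ← tr_nsmul, ← tr_nsmul, ← tr_sub]
    have h2 : (Finset.univ.filter
        (fun σ : L₁.Gal => Subgroup.quotientMapOfLE (Level.U_anti h₀₁) σ = y)) =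
        Finset.univ.filter (fun σ : L₁.Gal => Level.proj h₀₁ σ = Level.proj h₀₁ τ) := by
      ext σ
      simp only [Finset.mem_filter, Finset.mem_univ, true_and]
      rw [hτy, proj_eq_quotientMapOfLE]
    rw [h2, sum_fiber D h₀₁ τ c₁, hnorm, ← hτ]
    have h3 : n • (D.C L₁).ρ τ (p • c₀) - p • (D.C L₁).ρ τ (n • c₀) = 0 := by
      rw [map_nsmul, map_nsmul, smul_comm, sub_self]
    rw [h3, tr_zero]
  obtain ⟨e, he⟩ := exists_iEJ_eq_of_jSum_eq_zero hD L₄ W hjW
  exact ⟨e, he.trans htoJJ⟩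

end Core

/-! ### the theorem -/

/-- for `S = ∅` the module `𝕁` is trivial -/
lemma subsingleton_indM_of_isEmpty (hS : ¬ S.Nonempty) (L : Level S) :
    Subsingleton (IndM L.U (JJS S)) := by
  haveI : IsEmpty ↥S := by
    refine ⟨fun q => hS ⟨q.1, q.2⟩⟩
  haveI : Subsingleton (JJS S) := ⟨fun x y => funext fun q => isEmptyElim q⟩
  exact ⟨fun F F' => Finsupp.ext fun x => Subsingleton.elim _ _⟩

/-- **A8-C2.**  The existence theorem mod `p` in cochain form, from a good tower datum with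
GD11 and GD12. -/
theorem c2Adapter (p : ℕ) [hp : Fact p.Prime] (S : Finset Nat.Primes) : C2AdapterSpec p S := by
  classical
  rintro ⟨D, hD, hTors, hDesc⟩ L₀ hμ
  by_cases hS : S.Nonempty
  swap
  · refine ⟨L₀, le_rfl, fun q _ => ⟨1, 0, Nat.coprime_one_left p, fun g => ⟨0, ?_⟩, 0, ?_⟩⟩
    · haveI := subsingleton_indM_of_isEmpty hS L₀
      exact Subsingleton.elim _ _
    · haveI := subsingleton_indM_of_isEmpty hS L₀
      exact Subsingleton.elim _ _
  obtain ⟨L₁, h₀₁, hnormIn⟩ := hD.gd6 L₀ hμ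
  refine ⟨L₁, h₀₁, fun q hq => ?_⟩
  letI : Fintype L₁.Gal := Fintype.ofFinite _
  letI : Fintype (Level.relGal h₀₁) := Fintype.ofFinite _
  -- the coefficient at `1` lives at a finite level `L ≥ L₁`
  obtain ⟨Lx, hLx⟩ := JJS.smooth S (coeff L₁.U (QuotientGroup.mk 1) q)
  have h₁ : L₁ ≤ capSup S L₁ Lx := le_capSup_left S L₁ Lx
  obtain ⟨f₁, hf₁⟩ := exists_toJJ_eq (capSup S L₁ Lx) (coeff L₁.U (QuotientGroup.mk 1) q)
    (fun u hu => hLx u (Level.U_anti (le_capSup_right S L₁ Lx) hu))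
  -- its class is invariant, hence descends to `L₁`
  have hinv : ∀ σ ∈ Level.relGal h₁,
      (D.C (capSup S L₁ Lx)).ρ σ (jSum D _ f₁) = jSum D _ f₁ :=
    jSum_invariant hD hS h₁ f₁ (by
      rw [hf₁]
      exact exists_fixed_eq L₁ q hq)
  obtain ⟨L₂, h₂, c₁, hc₁⟩ := hDesc h₁ (jSum D _ f₁) hinv
  -- the norm of `c₁` is `p c₀`
  obtain ⟨c₀, hc₀inv, hc₀⟩ := hnormIn L₁ h₀₁ le_rfl c₁
  -- a prime-to-`p` multiple of `c₀` becomes a local sum at a higher level
  obtain ⟨n₀, hn₀, hloc⟩ := hTors L₁ c₀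
  obtain ⟨a, n, hpn, rfl⟩ := Nat.exists_eq_pow_mul_and_not_dvd hn₀.ne' p hp.out.ne_one
  have hloc' : D.IsLocalSum L₁ (p ^ a • (n • c₀)) := by
    rw [← mul_smul]
    exact hloc
  obtain ⟨L₃, h₁₃, y₂, hy₂⟩ := hD.gd5 L₁ (n • c₀) a hloc'
  have hy₂' : (D.tr h₁₃).hom (n • c₀) = jSum D L₃ y₂ := hy₂
  have hnc₀inv : ∀ σ ∈ Level.relGal h₀₁, (D.C L₁).ρ σ (n • c₀) = n • c₀ := by
    intro σ hσ
    rw [map_nsmul, hc₀inv σ hσ]
  refine ⟨n, spread L₀ (toJJ L₃ y₂), ((Nat.Prime.coprime_iff_not_dvd hp.out).2 hpn).symm,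
    exists_spread_eq L₀ _ (exists_iEJ_eq_of_invariant hD h₀₁ h₁₃ (n • c₀) hnc₀inv y₂ hy₂'), ?_⟩
  -- the element `ε`
  apply exists_map_eq
  intro y
  rw [map_sub, map_nsmul, map_nsmul, coeff_le, coeff_spread]
  obtain ⟨e, he⟩ := exists_iEJ_eq_core hD h₀₁ h₁ h₂ h₁₃ f₁ c₁ c₀ hc₁ hc₀ n y₂ hy₂' y
  choose eσ heσ using fun σ : L₁.Gal => exists_coeff_eq L₁ q hq (Quotient.out σ : Tow.GQ)
  refine ⟨e - n • ∑ σ ∈ Finset.univ.filter
      (fun σ : L₁.Gal => Subgroup.quotientMapOfLE (Level.U_anti h₀₁) σ = y), eσ σ, ?_⟩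
  rw [map_sub, map_nsmul, map_sum, he, hf₁]
  have h3 : ∀ σ : L₁.Gal, iEJ S (eσ σ) =
      (Quotient.out σ : Tow.GQ) • coeff L₁.U (QuotientGroup.mk 1) q - coeff L₁.U σ q := by
    intro σ
    rw [heσ σ, QuotientGroup.out_eq']
  simp_rw [h3]
  rw [Finset.sum_sub_distrib, nsmul_sub]
  abel

end Fermat.Agent.S55.Cap.H713

end
end
-- ===== PACK-END S55/Cap/C2H713/Main.lean

-- ===== PACK-BEGIN S56/FL/CntBridgeCyc.lean
section


/-!
# Row S56 — W-FLAT-SS, piece RAMCOUNT: the bridge to the abstract count, the field `cyc`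
(helper426).  Sorry-free, Mathlib only.

`bridge_cyc`: the cyclicity statement for `W = Γ_{p-1}` (with `Γ_p = 1`) from
`H846.FLCycStatement` applied to `θ_{p-1}` of `RLThetaStatement`.
-/

set_option autoImplicit false

open IsLocalRing

noncomputable section

namespace Fermat.Agent.S56.FL

namespace RCDatum

variable (d : RCDatum)

lemma finite_residue : Finite (ResidueField d.B) := by
  have h1 : Finite (ResidueField d.A) := by
    apply Nat.finite_of_card_ne_zero
    rw [d.hκ]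
    exact d.hp.ne_zero
  exact IsLocalRing.ResidueField.finite_of_finite (R := d.A) (S := d.B) h1

/-- Every `g` multiplies a uniformizer by some element. -/
lemma exists_smul_eq_mul (g : d.Γ) {ϖ : d.B} (hϖ : Irreducible ϖ) :
    ∃ u : d.B, g • ϖ = u * ϖ := by
  have h1 : ϖ ∈ maximalIdeal d.B ^ 1 := by
    rw [pow_one, hϖ.maximalIdeal_eq]
    exact Ideal.mem_span_singleton_self _
  have h2 := d.bridge_smul_mem_maxPow g 1 h1
  rw [pow_one, hϖ.maximalIdeal_eq, Ideal.mem_span_singleton'] at h2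
  obtain ⟨u, hu⟩ := h2
  exact ⟨u, hu.symm⟩

lemma residue_smul_of_mem_inertia {τ : d.Γ} (hτ : τ ∈ ramGroup d.B d.Γ 0) (a : d.B) :
    residue d.B (τ • a) = residue d.B a := by
  rw [mem_ramGroup] at hτ
  have h1 := hτ a
  rw [zero_add, pow_one] at h1
  rw [← sub_eq_zero, ← map_sub]
  exact (residue_eq_zero_iff _).mpr h1

lemma bridge_cyc (hCyc : H846.FLCycStatement) (hΘ : RLThetaStatement)
    (hH : RLHilbertStatement) (hQ : RLQuotStatement)
    {τ₀ φ : d.Γ} {μ : ResidueField d.B} (hT : d.TameData τ₀ φ μ) (m : ℕ)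
    (hm : ∀ j : ℕ, (μ ^ (d.p - 1)) ^ j = 1 ↔ m ∣ j) (hmdvd : m ∣ d.p + 1) (hm2 : 2 < m)
    (hp1 : ramGroup d.B d.Γ d.p = ⊥) :
    ∃ w₀ ∈ ramGroup d.B d.Γ (d.p - 1), ∀ H : Subgroup d.Γ, w₀ ∈ H →
      (∀ h ∈ H, τ₀ * h * τ₀⁻¹ ∈ H) → (∀ h ∈ H, φ ^ 2 * h * (φ ^ 2)⁻¹ ∈ H) →
      ramGroup d.B d.Γ (d.p - 1) ≤ H := by
  haveI : Fact d.p.Prime := ⟨d.hp⟩
  haveI := d.charP_residue hH
  haveI := d.finite_residue
  haveI := d.ramGroup_normal hQ (d.p - 1)
  have hp3 := d.three_le_p
  obtain ⟨ϖ, hϖ⟩ := IsDiscreteValuationRing.exists_irreducible d.B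
  obtain ⟨θ, -, hadd, hker, hconj⟩ := hΘ d ϖ hϖ (d.p - 1) (by omega)
  obtain ⟨hτ₀, -, -, hμ, hφ, -, -⟩ := hT
  obtain ⟨uτ, huτ⟩ := d.exists_smul_eq_mul τ₀ hϖ
  obtain ⟨uφ, huφ⟩ := d.exists_smul_eq_mul φ hϖ
  refine hCyc d.p d.Γ (ResidueField d.B) (ramGroup d.B d.Γ (d.p - 1)) τ₀ φ θ (μ ^ (d.p - 1))
    (residue d.B uφ ^ (d.p - 1)) m inferInstance hadd ?_ ?_ ?_ hm hmdvd hm2
  · intro w hw h0
    have h1 := hker w hw h0
    rw [show d.p - 1 + 1 = d.p by omega, hp1, Subgroup.mem_bot] at h1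
    exact h1
  · intro w hw
    obtain ⟨a, ha⟩ := residue_surjective (θ w)
    rw [hconj w hw τ₀ uτ a huτ ha, hμ ϖ hϖ uτ huτ, d.residue_smul_of_mem_inertia hτ₀, ha]
  · intro w hw
    obtain ⟨a, ha⟩ := residue_surjective (θ w)
    rw [hconj w hw φ uφ a huφ ha, hφ a, ha]

/-- The wild inertia group lies in the kernel of `ρ` when the image has order prime to `p`. -/
lemma wild_le_ker (hW : IsPGroup d.p (ramGroup d.B d.Γ 1)) (hd : ¬ d.p ∣ d.ρ.ker.index) :
    ramGroup d.B d.Γ 1 ≤ d.ρ.ker := by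
  intro g hg
  obtain ⟨k, hk⟩ := hW ⟨g, hg⟩
  have hk' : g ^ d.p ^ k = 1 := by
    have := congrArg Subtype.val hk
    simpa using this
  have h1 : orderOf (QuotientGroup.mk g : d.Γ ⧸ d.ρ.ker) ∣ d.p ^ k := by
    apply orderOf_dvd_of_pow_eq_one
    rw [← QuotientGroup.mk_pow, hk', QuotientGroup.mk_one]
  have h2 : orderOf (QuotientGroup.mk g : d.Γ ⧸ d.ρ.ker) ∣ d.ρ.ker.index := by
    rw [Subgroup.index_eq_card]
    exact orderOf_dvd_natCard _
  have h3 : Nat.Coprime (d.p ^ k) d.ρ.ker.index :=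
    Nat.Coprime.pow_left k ((Nat.Prime.coprime_iff_not_dvd d.hp).mpr hd)
  have h4 : orderOf (QuotientGroup.mk g : d.Γ ⧸ d.ρ.ker) = 1 :=
    Nat.eq_one_of_dvd_coprimes h3 h1 h2
  rw [orderOf_eq_one_iff, QuotientGroup.eq_one_iff] at h4
  exact h4

end RCDatum

end Fermat.Agent.S56.FL

end

end
-- ===== PACK-END S56/FL/CntBridgeCyc.lean

-- ===== PACK-BEGIN S56/H914/BRPoints.lean
section



/-!
# Row S56 — W-FLAT-SS, piece FL-BR (helper914), part 4: points on the local side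

`H` a commutative Hopf algebra over `ℤ_(p)`, finite as a module.

* `norm_algebraMap_Zp_le_one`, `norm_le_one_of_isIntegral_Zp` : elements of `ℚ̄_p` integral over
  `ℤ_(p)` have norm `≤ 1`.
* `norm_point_le_one` : every `ℚ̄_p`-point of `H` has integral coordinates.
* `locGalAct p τ f` : the action `f ↦ τ ∘ f` of `Gal(ℚ̄_p/ℚ_p)` on the `ℚ̄_p`-points.
* `pointsToLocal M` : `(H →ₐ ℚ̄) ≃ (H →ₐ ℚ̄_p)`, `f ↦ ι ∘ f`, for a local model `M`; it is
  multiplicative for convolution and intertwines `galAct (Ψ τ)` with `locGalAct τ`.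
* `LocalPointModel`, `PointModel.toLocal` : the local version of the point model of `BRFlat`:
  `e : WithConv (H →ₐ ℚ̄_p) ≃ V`, additive, `e (τ ∘ f) = ρ (Ψ τ) (e f)`.
-/

set_option autoImplicit false
set_option linter.style.haveILetI false

open scoped Pointwise NNReal

noncomputable section

namespace Fermat.Agent.S56.H914

open Fermat.Agent.S56

section Integral

variable (p : ℕ) [Fact p.Prime]

lemma algebraMap_Zp_eq (a : Zp p) :
    algebraMap (Zp p) (PadicAlgCl p) a = algebraMap ℚ_[p] (PadicAlgCl p) (((a : ℚ) : ℚ_[p])) := by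
  rw [IsScalarTower.algebraMap_apply (Zp p) ℚ_[p] (PadicAlgCl p)]
  have h : algebraMap (Zp p) ℚ_[p] a = ((a : ℚ) : ℚ_[p]) := by
    show algebraMap ℚ ℚ_[p] (a : ℚ) = _
    exact eq_ratCast _ _
  rw [h]

lemma norm_algebraMap_Zp_le_one (a : Zp p) : ‖algebraMap (Zp p) (PadicAlgCl p) a‖ ≤ 1 := by
  rw [algebraMap_Zp_eq, PadicAlgCl.norm_extends]
  apply Padic.norm_rat_le_one
  intro hdvd
  have hcop : (a : ℚ).den.Coprime p := a.2
  have hp : p.Prime := Fact.out
  have h1 : p ∣ Nat.gcd (a : ℚ).den p := Nat.dvd_gcd hdvd dvd_rfl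
  rw [hcop] at h1
  exact hp.one_lt.ne' (Nat.dvd_one.mp h1)

/-- The structure map `ℤ_(p) → 𝒪_{ℚ̄_p}`. -/
def zpToIntegers : Zp p →+* padicIntegers p :=
  (algebraMap (Zp p) (PadicAlgCl p)).codRestrict (padicIntegers p).toSubring (fun a => by
    show algebraMap (Zp p) (PadicAlgCl p) a ∈ padicIntegers p
    rw [mem_padicIntegers_iff, ← NNReal.coe_le_coe]
    exact norm_algebraMap_Zp_le_one p a)

/-- An element of `ℚ̄_p` integral over `ℤ_(p)` has norm `≤ 1`. -/
theorem norm_le_one_of_isIntegral_Zp {y : PadicAlgCl p} (hy : IsIntegral (Zp p) y) : ‖y‖ ≤ 1 := by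
  letI : Algebra (Zp p) (padicIntegers p) := (zpToIntegers p).toAlgebra
  haveI : IsScalarTower (Zp p) (padicIntegers p) (PadicAlgCl p) :=
    IsScalarTower.of_algebraMap_eq (fun _ => rfl)
  have h1 : IsIntegral (padicIntegers p) y := hy.tower_top
  obtain ⟨z, hz⟩ := (IsIntegrallyClosed.isIntegral_iff (R := padicIntegers p)
    (K := PadicAlgCl p)).mp h1
  have h2 : y ∈ padicIntegers p := by
    rw [← hz]
    exact z.2
  rw [mem_padicIntegers_iff, ← NNReal.coe_le_coe] at h2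
  exact h2

variable {H : Type} [CommRing H] [Algebra (Zp p) H] [Module.Finite (Zp p) H]

/-- Points of a finite `ℤ_(p)`-algebra have integral coordinates. -/
theorem norm_point_le_one (f : H →ₐ[Zp p] PadicAlgCl p) (h : H) : ‖f h‖ ≤ 1 :=
  norm_le_one_of_isIntegral_Zp p ((IsIntegral.of_finite (Zp p) h).map f)

/-- Coordinates of points are algebraic over `ℚ`: roots of a nonzero rational polynomial. -/
theorem exists_ratPoly_of_isIntegral_Zp {y : PadicAlgCl p} (hy : IsIntegral (Zp p) y) :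
    ∃ g : Polynomial ℚ, g ≠ 0 ∧ Polynomial.aeval y g = 0 := by
  obtain ⟨q, hq, hq0⟩ := hy
  refine ⟨q.map (algebraMap (Zp p) ℚ), ?_, ?_⟩
  · exact (hq.map _).ne_zero
  · rw [Polynomial.aeval_def, Polynomial.eval₂_map, ← IsScalarTower.algebraMap_eq]
    exact hq0

end Integral

section LocalAction

variable (p : ℕ) [Fact p.Prime] {H : Type} [CommRing H] [HopfAlgebra (Zp p) H]

/-- `τ ∈ Gal(ℚ̄_p/ℚ_p)` as a `ℤ_(p)`-algebra endomorphism of `ℚ̄_p`. -/
def locGalHom (τ : GQp p) : PadicAlgCl p →ₐ[Zp p] PadicAlgCl p :=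
  (τ : PadicAlgCl p →ₐ[ℚ_[p]] PadicAlgCl p).restrictScalars (Zp p)

@[simp] lemma locGalHom_apply (τ : GQp p) (x : PadicAlgCl p) : locGalHom p τ x = τ x := rfl

/-- The action of the local Galois group on the `ℚ̄_p`-points of `H`. -/
def locGalAct (τ : GQp p) (f : WithConv (H →ₐ[Zp p] PadicAlgCl p)) :
    WithConv (H →ₐ[Zp p] PadicAlgCl p) :=
  WithConv.toConv ((locGalHom p τ).comp f.ofConv)

@[simp] lemma locGalAct_apply (τ : GQp p) (f : WithConv (H →ₐ[Zp p] PadicAlgCl p)) (h : H) :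
    (locGalAct p τ f).ofConv h = τ (f.ofConv h) := rfl

lemma locGalAct_mul (τ : GQp p) (f g : WithConv (H →ₐ[Zp p] PadicAlgCl p)) :
    locGalAct p τ (f * g) = locGalAct p τ f * locGalAct p τ g := by
  apply WithConv.ofConv_injective
  exact AlgHom.comp_convMul_distrib (locGalHom p τ) f g

lemma locGalAct_one_left (f : WithConv (H →ₐ[Zp p] PadicAlgCl p)) : locGalAct p 1 f = f := by
  apply WithConv.ofConv_injective
  ext h
  rfl

lemma locGalAct_locGalAct (σ τ : GQp p) (f : WithConv (H →ₐ[Zp p] PadicAlgCl p)) :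
    locGalAct p σ (locGalAct p τ f) = locGalAct p (σ * τ) f := by
  apply WithConv.ofConv_injective
  ext h
  rfl

end LocalAction

section Transfer

variable {p : ℕ} [Fact p.Prime] {P : ValuationSubring QbL} (M : LocalModel p P)
  {H : Type} [CommRing H] [HopfAlgebra (Zp p) H]

/-- `ι` as a `ℤ_(p)`-algebra homomorphism. -/
def LocalModel.ιZ : Qb →ₐ[Zp p] PadicAlgCl p := M.ι.restrictScalars (Zp p)

@[simp] lemma LocalModel.ιZ_apply (x : Qb) : M.ιZ x = M.ι x := rfl

/-- `f ↦ ι ∘ f` on points. -/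
def pointsToLocalFun (f : WithConv (H →ₐ[Zp p] Qb)) : WithConv (H →ₐ[Zp p] PadicAlgCl p) :=
  WithConv.toConv (M.ιZ.comp f.ofConv)

@[simp] lemma pointsToLocalFun_apply (f : WithConv (H →ₐ[Zp p] Qb)) (h : H) :
    (pointsToLocalFun M f).ofConv h = M.ι (f.ofConv h) := rfl

lemma pointsToLocalFun_mul (f g : WithConv (H →ₐ[Zp p] Qb)) :
    pointsToLocalFun M (f * g) = pointsToLocalFun M f * pointsToLocalFun M g := by
  apply WithConv.ofConv_injective
  exact AlgHom.comp_convMul_distrib M.ιZ f g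

lemma pointsToLocalFun_injective :
    Function.Injective (pointsToLocalFun M (H := H)) := by
  intro f g hfg
  apply WithConv.ofConv_injective
  ext h
  have h1 := congrArg (fun u => u.ofConv h) hfg
  exact M.ι_injective h1

lemma pointsToLocalFun_gal (τ : GQp p) (f : WithConv (H →ₐ[Zp p] Qb)) :
    pointsToLocalFun M (galAct p (M.Ψ τ) f) = locGalAct p τ (pointsToLocalFun M f) := by
  apply WithConv.ofConv_injective
  ext h
  exact M.ι_Ψ τ (f.ofConv h)

variable [Module.Finite (Zp p) H]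

lemma pointsToLocalFun_surjective :
    Function.Surjective (pointsToLocalFun M (H := H)) := by
  intro fh
  -- every coordinate lies in the range of `ι`
  have hr : ∀ h : H, fh.ofConv h ∈ M.ιZ.range := by
    intro h
    obtain ⟨g, hg, hg0⟩ := exists_ratPoly_of_isIntegral_Zp p
      ((IsIntegral.of_finite (Zp p) h).map fh.ofConv)
    obtain ⟨b, hb⟩ := M.root_mem g hg _ hg0
    exact ⟨b, hb⟩
  let e : Qb ≃ₐ[Zp p] M.ιZ.range := AlgEquiv.ofInjective M.ιZ M.ι_injective
  let f : H →ₐ[Zp p] Qb := (e.symm : M.ιZ.range →ₐ[Zp p] Qb).comp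
    (fh.ofConv.codRestrict M.ιZ.range hr)
  refine ⟨WithConv.toConv f, ?_⟩
  apply WithConv.ofConv_injective
  ext h
  show M.ιZ (e.symm (fh.ofConv.codRestrict M.ιZ.range hr h)) = fh.ofConv h
  have h1 : M.ιZ (e.symm (fh.ofConv.codRestrict M.ιZ.range hr h)) =
      ((e (e.symm (fh.ofConv.codRestrict M.ιZ.range hr h)) : M.ιZ.range) : PadicAlgCl p) := rfl
  rw [h1, AlgEquiv.apply_symm_apply]
  rfl

/-- The bijection between `ℚ̄`-points and `ℚ̄_p`-points. -/
def pointsToLocal : WithConv (H →ₐ[Zp p] Qb) ≃ WithConv (H →ₐ[Zp p] PadicAlgCl p) :=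
  Equiv.ofBijective (pointsToLocalFun M)
    ⟨pointsToLocalFun_injective M, pointsToLocalFun_surjective M⟩

@[simp] lemma pointsToLocal_apply (f : WithConv (H →ₐ[Zp p] Qb)) :
    pointsToLocal M f = pointsToLocalFun M f := rfl

end Transfer

/-- The local version of `PointModel`: the `ℚ̄_p`-points of `H` as a model of the
`Gal(ℚ̄_p/ℚ_p)`-module `V`. -/
structure LocalPointModel (p : ℕ) [Fact p.Prime] (H : Type) [CommRing H] [HopfAlgebra (Zp p) H]
    {A : Type} [CommRing A] {V : Type} [AddCommGroup V] [Module A V]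
    (ρ : GQp p →* Module.End A V) where
  e : WithConv (H →ₐ[Zp p] PadicAlgCl p) ≃ V
  map_mul : ∀ f g, e (f * g) = e f + e g
  map_gal : ∀ τ f, e (locGalAct p τ f) = ρ τ (e f)

/-- Transfer of a point model along a local model. -/
def PointModel.toLocal {p : ℕ} [Fact p.Prime] {P : ValuationSubring QbL} (M : LocalModel p P)
    {H : Type} [CommRing H] [HopfAlgebra (Zp p) H] [Module.Finite (Zp p) H]
    {A : Type} [CommRing A] {V : Type} [AddCommGroup V] [Module A V]
    {ρ : GQ →* Module.End A V} (X : PointModel p H ρ) :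
    LocalPointModel p H (ρ.comp M.Ψ) where
  e := (pointsToLocal M).symm.trans X.e
  map_mul := by
    intro f g
    obtain ⟨f', rfl⟩ := (pointsToLocal M).surjective f
    obtain ⟨g', rfl⟩ := (pointsToLocal M).surjective g
    show X.e ((pointsToLocal M).symm (pointsToLocal M f' * pointsToLocal M g')) =
      X.e ((pointsToLocal M).symm (pointsToLocal M f')) +
        X.e ((pointsToLocal M).symm (pointsToLocal M g'))
    rw [pointsToLocal_apply, pointsToLocal_apply, ← pointsToLocalFun_mul,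
      ← pointsToLocal_apply, ← pointsToLocal_apply M f', ← pointsToLocal_apply M g',
      Equiv.symm_apply_apply, Equiv.symm_apply_apply, Equiv.symm_apply_apply, X.map_mul]
  map_gal := by
    intro τ f
    obtain ⟨f', rfl⟩ := (pointsToLocal M).surjective f
    show X.e ((pointsToLocal M).symm (locGalAct p τ (pointsToLocal M f'))) =
      ρ (M.Ψ τ) (X.e ((pointsToLocal M).symm (pointsToLocal M f')))
    rw [pointsToLocal_apply, ← pointsToLocalFun_gal, ← pointsToLocal_apply,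
      ← pointsToLocal_apply M f', Equiv.symm_apply_apply, Equiv.symm_apply_apply, X.map_gal]

end Fermat.Agent.S56.H914

end

end
-- ===== PACK-END S56/H914/BRPoints.lean

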