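import Fermat.Prelude.Def_GaloisRep_ComplexConjugation
import Fermat.Prelude.Def_GaloisRep_DeformationCondition
import Fermat.Agent.Pack.S43GC.G0E17L1
import Fermat.Agent.Pack.S43GC.G0E5L2
import Fermat.Agent.Pack.S43GC.G0E7L1
import Fermat.Agent.Pack.S43GC.G0E5L3
import Fermat.Agent.Pack.S43GC.G0E7L2
import Fermat.Agent.Pack.S43GC.G0E12L3
import Fermat.Agent.Pack.S43GC.G0E7L3
import Fermat.Agent.Pack.S43GC.G0E5L0
import Fermat.Agent.Pack.S43GC.G0E7L0
import Fermat.Agent.Pack.S43GC.G0E17L3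
import Fermat.Agent.Pack.S43GC.G0E0L3
import Fermat.Agent.Pack.S43GC.G0E17L0
import Fermat.Agent.Pack.S43GC.G0E16L1
import Fermat.Agent.Pack.S43GC.G0E0L1
import Fermat.Agent.Pack.S43GC.G0E15L2
import Fermat.Agent.Pack.S43GC.G0E15L1
import Fermat.Agent.Pack.S43GC.G0E4L0
import Fermat.Agent.Pack.S43GC.G0E11L3
import Fermat.Agent.Pack.S44C.G0E0L3
import Fermat.Agent.Pack.S43GC.G0E16L3
import Fermat.Agent.Pack.Fast891

-- ===== PACK-BEGIN S55/PT/H123/TopGlobC.lean
section


/-!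
# S55 / layer D, leaf D-T2b (global dévissage), part C: induced modules   (helper123)

`Θ(Ind_U (twTriv χ W))` is injective for every finite-dimensional vector space `W`, given the
statement for `W = k` (input A7): coordinates `indMap U λ_i`, `indMap U ι_i` for a basis of `W`.
-/

set_option autoImplicit false
set_option linter.unusedSectionVars false

noncomputable section

namespace Fermat.Agent.S55.PT.H123

open groupCohomology Fermat.Agent.S55.PT

variable {k : Type} [Field k] {G : Type} [Group G]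

/-- every linear map is equivariant for the twisted trivial actions -/
lemma twTriv_equivariant (χ : G →* kˣ) {W W' : Type} [AddCommGroup W] [Module k W]
    [AddCommGroup W'] [Module k W'] (φ : W →ₗ[k] W') :
    IsEquivariant (A := twTriv χ W) (B := twTriv χ W') φ := by
  intro g a
  rw [twTriv_ρ_apply, twTriv_ρ_apply, map_smul]

/-- `Σ_i ψ_i ∘ φ_i = id` on coefficients gives `Σ_i (ψ_i)_* ∘ (φ_i)_* = id` on `H²`. -/
lemma pushH2_sum_comp {G' : Type} [Group G'] (L' : LevelSys G') {A B : Rep.{0, 0, 0} k G'}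
    {κ : Type} [Fintype κ] (φ : κ → (A →ₗ[k] B)) (ψ : κ → (B →ₗ[k] A))
    (hφ : ∀ i, IsEquivariant (φ i)) (hψ : ∀ i, IsEquivariant (ψ i))
    (hsum : ∀ a, ∑ i, ψ i (φ i a) = a) (x : L'.H2 A) :
    ∑ i, pushH2 (ψ i) (hψ i) L' (pushH2 (φ i) (hφ i) L' x) = x := by
  obtain ⟨c, rfl⟩ := L'.H2π_surjective A x
  simp only [pushH2_mk]
  rw [← map_sum]
  congr 1
  apply Subtype.ext
  funext g
  rw [Submodule.coe_sum, Finset.sum_apply]
  simp only [coe_pushZ2, Function.comp_apply]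
  exact hsum _

section Coord

variable (U : Subgroup G) (χ : G →* kˣ) (W : Type) [AddCommGroup W] [Module k W]
  [FiniteDimensional k W]

/-- the `i`-th coordinate `Ind_U (twTriv χ W) → Ind_U (ofChar χ)` -/
def coordMap (i : Fin (Module.finrank k W)) :
    ((G ⧸ U) →₀ (twTriv (G := G) χ W)) →ₗ[k] ((G ⧸ U) →₀ (ofChar χ : Rep.{0, 0, 0} k G)) :=
  indMap (M := twTriv χ W) (N := ofChar χ) U ((Module.finBasis k W).coord i)

/-- the `i`-th inclusion `Ind_U (ofChar χ) → Ind_U (twTriv χ W)` -/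
def inclMap (i : Fin (Module.finrank k W)) :
    ((G ⧸ U) →₀ (ofChar χ : Rep.{0, 0, 0} k G)) →ₗ[k] ((G ⧸ U) →₀ (twTriv (G := G) χ W)) :=
  indMap (M := ofChar χ) (N := twTriv χ W) U
    (LinearMap.toSpanSingleton k W (Module.finBasis k W i))

lemma coordMap_equivariant (i : Fin (Module.finrank k W)) :
    IsEquivariant (A := indRep U (twTriv χ W)) (B := indRep U (ofChar χ)) (coordMap U χ W i) :=
  indMap_equivariant (M := twTriv χ W) (N := ofChar χ) U _
    (twTriv_equivariant χ ((Module.finBasis k W).coord i))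

lemma inclMap_equivariant (i : Fin (Module.finrank k W)) :
    IsEquivariant (A := indRep U (ofChar χ)) (B := indRep U (twTriv χ W)) (inclMap U χ W i) :=
  indMap_equivariant (M := ofChar χ) (N := twTriv χ W) U _
    (twTriv_equivariant χ (LinearMap.toSpanSingleton k W (Module.finBasis k W i)))

lemma inclMap_coordMap_single (i : Fin (Module.finrank k W)) (x : G ⧸ U) (w : W) :
    inclMap U χ W i (coordMap U χ W i (Finsupp.single x w : (G ⧸ U) →₀ (twTriv (G := G) χ W))) =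
      (Finsupp.single x (((Module.finBasis k W).coord i w) • (Module.finBasis k W i)) :
        (G ⧸ U) →₀ (twTriv (G := G) χ W)) := by
  unfold inclMap coordMap
  rw [indMap_single, indMap_single]
  rfl

lemma sum_inclMap_coordMap (a : (G ⧸ U) →₀ (twTriv (G := G) χ W)) :
    ∑ i, inclMap U χ W i (coordMap U χ W i a) = a := by
  induction a using Finsupp.induction_linear with
  | zero =>
    refine Finset.sum_eq_zero fun i _ => ?_
    rw [(coordMap U χ W i).map_zero, (inclMap U χ W i).map_zero]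
  | add f g hf hg =>
    have : ∀ i, inclMap U χ W i (coordMap U χ W i (f + g)) =
        inclMap U χ W i (coordMap U χ W i f) + inclMap U χ W i (coordMap U χ W i g) := by
      intro i
      rw [(coordMap U χ W i).map_add, (inclMap U χ W i).map_add]
    rw [Finset.sum_congr rfl fun i _ => this i, Finset.sum_add_distrib, hf, hg]
  | single x w =>
    rw [Finset.sum_congr rfl fun i _ => inclMap_coordMap_single U χ W i x w]
    have h := (Module.finBasis k W).sum_repr w
    have h2 : (Finsupp.single x (∑ i, ((Module.finBasis k W).coord i w) • (Module.finBasis k W i)) :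
        (G ⧸ U) →₀ W) = Finsupp.single x w := by
      congr 1
    rw [← h2, Finsupp.single_finset_sum]

end Coord

end Fermat.Agent.S55.PT.H123

end

end
-- ===== PACK-END S55/PT/H123/TopGlobC.lean

-- ===== PACK-BEGIN S55/Local/H715/Closed.lean
section

















/-!
# S55, layer L core: the statements of `Local/Spec.lean` that are CLOSED on main

One import for consumers: every theorem below has EXACTLY the type of the frozen statement and
is proved by a landed, sorry-free leaf.  (Integration file of the architect, helper715.)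

Still open (see `coord/S55-L.md`): UR5 `ExistsUnramExtStatement`, UR6' `InertiaCardStatement`,
T4 `H2CardDvdStatement`, T5 `H2CyclicStatement`.
Obsolete (no consumer any more): UR2, UR3, CY1.
-/

set_option autoImplicit false

namespace Fermat.Agent.S55.Local.Closed

open Fermat.Agent.S55.Local

theorem filtH1 : FiltH1Statement := H478.filtH1
theorem filtH2 : FiltH2Statement := H478.filtH2
theorem filtKerIm : FiltKerImStatement := H478.filtKerIm
theorem cycCocycleIsCocycle : CycCocycleIsCocycleStatement := H593.cycCocycle_isMulCocycle₂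
theorem cycCocycleCoboundaryIff : CycCocycleCoboundaryIffStatement :=
  H535.cycCocycleCoboundaryIff
theorem cycCocycleSurj : CycCocycleSurjStatement := H535.cycCocycleSurj
theorem cycCocyclePullback : CycCocyclePullbackStatement := H593.cycCocycle_pullback
theorem addH1 : AddH1Statement := H169.addH1
theorem addH2 : AddH2Statement := H169.addH2
theorem mulH2FiniteField : MulH2FiniteFieldStatement := H542.mulH2FiniteField
theorem intOrInv : IntOrInvStatement := H608.intOrInv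
theorem existsUnif : ExistsUnifStatement := H608.existsUnif
theorem intUnitsComap : IntUnitsComapStatement := H608.intUnitsComap
theorem galoisInv : GaloisInvStatement := H608.galoisInv
theorem unitsComplete : UnitsCompleteStatement := H585.unitsComplete
theorem higherUnitsFiniteIndex : HigherUnitsFiniteIndexStatement := H585.higherUnitsFiniteIndex
theorem ramification : RamificationStatement := H724.ramification724
theorem normUnitsInt : NormUnitsIntStatement := H608.normUnitsInt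
theorem unramCyclic : UnramCyclicStatement := H312.unramCyclic
theorem unramUnitsH1 : UnramUnitsH1Statement := H415.unramUnitsH1
theorem unramNormUnits : UnramNormUnitsStatement := Fermat.Agent.S55.L.H661.unramNormUnits
theorem unramUnitsH2 : UnramUnitsH2Statement :=
  H415.unramUnitsH2_of unramCyclic cycCocycleCoboundaryIff cycCocycleSurj unramNormUnits
theorem unramNormRange : UnramNormRangeStatement :=
  H530.unramNormRange_of unramNormUnits normUnitsInt
theorem cyclicNormIndex : CyclicNormIndexStatement := H953.cyclicNormIndex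
theorem cyclicH2Card : CyclicH2CardStatement := H953.cyclicH2Card

end Fermat.Agent.S55.Local.Closed

end
-- ===== PACK-END S55/Local/H715/Closed.lean

-- ===== PACK-BEGIN S55/KC/KummerH2H53.lean
section


/-!
# S55 / layer KC, leaf KC-K2: `KummerH2Spec`          (helper53)

`|H²_lc(G, M)| = |H²_lc(G, B)[p]|` for a smooth `p`-divisible `B` with `H¹_lc(G, B) = 0` and a
Kummer embedding `ι : M → B` (`M ≅ B[p]`).  Cochain-level Kummer argument.

Reusable lemmas (any commutative ring `k`): `exists_level_fixing_finset`, `finite_range_of_isLC₁`,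
`exists_level_fixing_values`, `d₁₂_isLC₂_of_smooth`, `d₀₁_isLC₁_of_smooth`.
-/

set_option autoImplicit false
set_option linter.style.haveILetI false

noncomputable section

namespace Fermat.Agent.S55.KC.H53

open groupCohomology ExtCitation Fermat.Agent.S55.PT

variable {G : Type} [Group G] (L : LevelSys G)

section Smooth

variable {k : Type} [CommRing k] {B : Rep.{0, 0, 0} k G}

/-- A finite set of vectors of a smooth representation is fixed by a common level. -/
lemma exists_level_fixing_finset (hsm : L.IsSmooth B) (T : Finset B) :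
    ∃ W ∈ L.levels, ∀ t ∈ T, ∀ s ∈ W, B.ρ s t = t := by
  classical
  induction T using Finset.induction_on with
  | empty =>
    obtain ⟨U, hU⟩ := L.nonempty
    exact ⟨U, hU, by simp⟩
  | insert a T _ ih =>
    obtain ⟨W, hW, h⟩ := ih
    obtain ⟨U, hU, hUa⟩ := hsm a
    obtain ⟨V, hV, hle⟩ := L.directed U hU W hW
    refine ⟨V, hV, fun t ht s hs => ?_⟩
    rcases Finset.mem_insert.1 ht with rfl | ht
    · exact hUa s (hle hs).1
    · exact h t ht s (hle hs).2

/-- A level-constant function has finite range (levels have finite index). -/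
lemma finite_range_of_isLC₁ (hF : L.FiniteIndex) {X : Type*} {x : G → X} (hx : L.IsLC₁ x) :
    (Set.range x).Finite := by
  obtain ⟨U, hU, h⟩ := hx
  haveI := hF U hU
  have hsub : Set.range x ⊆ Set.range (fun q : G ⧸ U => x q.out) := by
    rintro _ ⟨g, rfl⟩
    refine ⟨(g : G ⧸ U), ?_⟩
    obtain ⟨s, hs⟩ := QuotientGroup.mk_out_eq_mul U g
    show x (Quotient.out (g : G ⧸ U)) = x g
    rw [hs]
    exact h g s s.2
  exact (Set.finite_range _).subset hsub

/-- The values of a level-constant cochain with values in a smooth representation are fixed by a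
common level. -/
lemma exists_level_fixing_values (hF : L.FiniteIndex) (hsm : L.IsSmooth B) {x : G → B}
    (hx : L.IsLC₁ x) : ∃ W ∈ L.levels, ∀ g : G, ∀ s ∈ W, B.ρ s (x g) = x g := by
  obtain ⟨W, hW, h⟩ := exists_level_fixing_finset L hsm (finite_range_of_isLC₁ L hF hx).toFinset
  exact ⟨W, hW, fun g s hs => h (x g) (by simp) s hs⟩

/-- `d` of a level-constant 1-cochain with values in a smooth representation is level-constant. -/
lemma d₁₂_isLC₂_of_smooth (hN : L.NormalCofinal) (hF : L.FiniteIndex) (hsm : L.IsSmooth B)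
    {x : G → B} (hx : L.IsLC₁ x) : L.IsLC₂ ((d₁₂ B).hom x) := by
  obtain ⟨W, hW, hfix⟩ := exists_level_fixing_values L hF hsm hx
  obtain ⟨V, hV, hxV⟩ := hx
  obtain ⟨W', hW', hle⟩ := L.directed W hW V hV
  obtain ⟨N, hNl, hNW, hNn⟩ := hN W' hW'
  refine ⟨N, hNl, fun g g' s s' hs hs' => ?_⟩
  have hconj : g'⁻¹ * s * g' ∈ N := by
    have := hNn.conj_mem s hs g'⁻¹
    simpa using this
  have hmem : g'⁻¹ * s * g' * s' ∈ V := (hle (hNW (N.mul_mem hconj hs'))).2
  have e1 : g * s * (g' * s') = g * g' * (g'⁻¹ * s * g' * s') := by group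
  simp only [d₁₂_hom_apply]
  rw [e1, hxV (g * g') _ hmem, hxV g' s' (hle (hNW hs')).2, hxV g s (hle (hNW hs)).2, map_mul,
    Module.End.mul_apply, hfix g' s (hle (hNW hs)).1]

/-- `d₀₁ a` is level-constant if `B` is smooth. -/
lemma d₀₁_isLC₁_of_smooth (hsm : L.IsSmooth B) (a : B) : L.IsLC₁ ((d₀₁ B).hom a) := by
  obtain ⟨U, hU, h⟩ := hsm a
  refine ⟨U, hU, fun g s hs => ?_⟩
  simp only [d₀₁_hom_apply, map_mul, Module.End.mul_apply, h s hs]

lemma IsLC₁.sub' {X : Type*} [Sub X] {f f' : G → X} (hf : L.IsLC₁ f) (hf' : L.IsLC₁ f') :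
    L.IsLC₁ (f - f') := by
  obtain ⟨U, hU, h⟩ := hf
  obtain ⟨V, hV, h'⟩ := hf'
  obtain ⟨W, hW, hle⟩ := L.directed U hU V hV
  refine ⟨W, hW, fun g s hs => ?_⟩
  simp only [Pi.sub_apply]
  rw [h g s (hle hs).1, h' g s (hle hs).2]

lemma IsLC₂.sub' {X : Type*} [Sub X] {f f' : G × G → X} (hf : L.IsLC₂ f) (hf' : L.IsLC₂ f') :
    L.IsLC₂ (f - f') := by
  obtain ⟨U, hU, h⟩ := hf
  obtain ⟨V, hV, h'⟩ := hf'
  obtain ⟨W, hW, hle⟩ := L.directed U hU V hV
  refine ⟨W, hW, fun g g' s s' hs hs' => ?_⟩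
  simp only [Pi.sub_apply]
  rw [h g g' s s' (hle hs).1 (hle hs').1, h' g g' s s' (hle hs).2 (hle hs').2]

end Smooth

section Kummer

variable {p : ℕ} [Fact p.Prime] {M : Rep.{0, 0, 0} (ZMod p) G} {B : Rep.{0, 0, 0} ℤ G}
  {ι : M →+ B}

lemma ι_d₀₁ (hι : IsKummerEmb p M B ι) (m : M) :
    (d₀₁ B).hom (ι m) = ι ∘ (d₀₁ M).hom m := by
  funext g
  simp only [d₀₁_hom_apply, Function.comp_apply, map_sub, hι.equivariant]

lemma ι_d₁₂ (hι : IsKummerEmb p M B ι) (x : G → M) :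
    (d₁₂ B).hom (ι ∘ x) = ι ∘ (d₁₂ M).hom x := by
  funext ⟨g, h⟩
  simp only [d₁₂_hom_apply, Function.comp_apply, map_add, map_sub, hι.equivariant]

lemma ι_mem_cocycles₂_iff (hι : IsKummerEmb p M B ι) (c : G × G → M) :
    ι ∘ c ∈ cocycles₂ B ↔ c ∈ cocycles₂ M := by
  rw [mem_cocycles₂_def, mem_cocycles₂_def]
  refine forall_congr' fun g => forall_congr' fun h => forall_congr' fun j => ?_
  simp only [Function.comp_apply, ← hι.equivariant, ← map_sub, ← map_add]
  exact ⟨fun h0 => hι.injective (by rw [h0, map_zero]), fun h0 => by rw [h0, map_zero]⟩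

lemma isLC₁_of_ι (hι : IsKummerEmb p M B ι) {x : G → M} (hx : L.IsLC₁ (ι ∘ x)) : L.IsLC₁ x := by
  obtain ⟨U, hU, h⟩ := hx
  exact ⟨U, hU, fun g s hs => hι.injective (h g s hs)⟩

lemma isLC₂_of_ι (hι : IsKummerEmb p M B ι) {x : G × G → M} (hx : L.IsLC₂ (ι ∘ x)) :
    L.IsLC₂ x := by
  obtain ⟨U, hU, h⟩ := hx
  exact ⟨U, hU, fun g g' s s' hs hs' => hι.injective (h g g' s s' hs hs')⟩

lemma p_nsmul_ι (m : M) : p • ι m = 0 := by
  rw [← map_nsmul, ZModModule.char_nsmul_eq_zero p m, map_zero]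

/-- a function killed by `p` factors through `ι` -/
lemma exists_lift_of_p_nsmul_eq_zero (hι : IsKummerEmb p M B ι) {X : Type*} (f : X → B)
    (hf : ∀ x, p • f x = 0) : ∃ f' : X → M, ι ∘ f' = f := by
  choose f' hf' using fun x => (hι.range_eq (f x)).1 (hf x)
  exact ⟨f', funext hf'⟩

/-- `ι ∘ c ∈ Z²_lc(B)` for `c ∈ Z²_lc(M)`. -/
lemma ι_mem_Z2 (hι : IsKummerEmb p M B ι) {c : G × G → M} (hc : c ∈ L.Z2 M) :
    ι ∘ c ∈ L.Z2 B :=
  ⟨(ι_mem_cocycles₂_iff hι c).2 hc.1, LevelSys.IsLC₂.comp hc.2 ι⟩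

/-- `ι ∘ c ∈ B²_lc(B)` for `c ∈ B²_lc(M)`. -/
lemma ι_mem_B2 (hι : IsKummerEmb p M B ι) {c : G × G → M} (hc : c ∈ L.B2 M) :
    ι ∘ c ∈ L.B2 B := by
  obtain ⟨x, hx, rfl⟩ := hc
  exact ⟨ι ∘ x, LevelSys.IsLC₁.comp hx ι, ι_d₁₂ hι x⟩

/-- (K-b) injectivity. -/
lemma mem_B2_of_ι_mem_B2 (hsm : L.IsSmooth B) (hdiv : IsPDivisible p B)
    (hι : IsKummerEmb p M B ι) (h1 : H1Vanish L B) {c : G × G → M} (hc : ι ∘ c ∈ L.B2 B) :
    c ∈ L.B2 M := by
  obtain ⟨b, hb, hbc⟩ := hc
  -- `p • b` is a level-constant 1-cocycle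
  have hpb_coc : p • b ∈ cocycles₁ B := by
    show (d₁₂ B).hom (p • b) = 0
    rw [map_nsmul, hbc]
    funext x
    simp only [Pi.smul_apply, Function.comp_apply]
    exact p_nsmul_ι (c x)
  have hpb_lc : L.IsLC₁ (p • b) := LevelSys.IsLC₁.comp hb (p • ·)
  obtain ⟨a₀, ha₀⟩ := h1 (p • b) hpb_coc hpb_lc
  obtain ⟨a₁, ha₁⟩ := hdiv a₀
  -- `b' = b - d a₁` is killed by `p`
  have hb' : ∀ g, p • (b - (d₀₁ B).hom a₁) g = 0 := by
    intro g
    have h2 : (d₀₁ B).hom a₀ g = (p • b) g := congrFun ha₀ g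
    rw [← ha₁, map_nsmul] at h2
    simp only [Pi.sub_apply, smul_sub]
    rw [sub_eq_zero]
    simpa using h2.symm
  obtain ⟨b'', hb''⟩ := exists_lift_of_p_nsmul_eq_zero hι _ hb'
  have hb''lc : L.IsLC₁ b'' := by
    apply isLC₁_of_ι L hι
    rw [hb'']
    exact IsLC₁.sub' L hb (d₀₁_isLC₁_of_smooth L hsm a₁)
  refine ⟨b'', hb''lc, ?_⟩
  show (d₁₂ M).hom b'' = c
  have : ι ∘ (d₁₂ M).hom b'' = ι ∘ c := by
    rw [← ι_d₁₂ hι, hb'', map_sub, hbc]
    have hdd : (d₁₂ B).hom ((d₀₁ B).hom a₁) = 0 := d₀₁_comp_d₁₂_apply B a₁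
    rw [hdd, sub_zero]
  funext x
  exact hι.injective (congrFun this x)

/-- (K-a) surjectivity onto the `p`-torsion. -/
lemma exists_of_p_nsmul_mem_B2 (hN : L.NormalCofinal) (hF : L.FiniteIndex) (hsm : L.IsSmooth B)
    (hdiv : IsPDivisible p B) (hι : IsKummerEmb p M B ι) {a : G × G → B} (ha : a ∈ L.Z2 B)
    (hpa : p • a ∈ L.B2 B) : ∃ m : G × G → M, m ∈ L.Z2 M ∧ ι ∘ m - a ∈ L.B2 B := by
  obtain ⟨b, hb, hba⟩ := hpa
  choose root hroot using hdiv
  set b₁ : G → B := root ∘ b with hb₁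
  have hb₁lc : L.IsLC₁ b₁ := LevelSys.IsLC₁.comp hb root
  have hpb₁ : p • b₁ = b := by
    funext g
    simp only [Pi.smul_apply, hb₁, Function.comp_apply, hroot]
  have hdlc : L.IsLC₂ ((d₁₂ B).hom b₁) := d₁₂_isLC₂_of_smooth L hN hF hsm hb₁lc
  have hkill : ∀ x, p • (a - (d₁₂ B).hom b₁) x = 0 := by
    intro x
    have h1 : (p • (a - (d₁₂ B).hom b₁)) = 0 := by
      rw [smul_sub, ← map_nsmul, hpb₁]
      exact sub_eq_zero.2 hba.symm
    have := congrFun h1 x
    simpa using this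
  obtain ⟨m, hm⟩ := exists_lift_of_p_nsmul_eq_zero hι _ hkill
  refine ⟨m, ⟨?_, ?_⟩, ?_⟩
  · refine (ι_mem_cocycles₂_iff hι m).1 ?_
    rw [hm]
    exact (cocycles₂ B).sub_mem ha.1 (d₁₂_apply_mem_cocycles₂ b₁)
  · apply isLC₂_of_ι L hι
    rw [hm]
    exact IsLC₂.sub' L ha.2 hdlc
  · rw [hm]
    have : a - (d₁₂ B).hom b₁ - a = (d₁₂ B).hom (-b₁) := by
      rw [map_neg]; abel
    rw [this]
    exact ⟨-b₁, (L.C1 B).neg_mem hb₁lc, rfl⟩

/-- **KC-K2.** -/
theorem kummerH2 : KummerH2Spec := by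
  intro G _ L p _ M B ι hN hF hsm hdiv hι h1
  classical
  -- representatives
  have hsurjM := L.H2π_surjective M
  choose rep hrep using hsurjM
  -- the map on classes
  have hker : ∀ c : ↥(L.Z2 M), p • L.H2π B ⟨ι ∘ c.1, ι_mem_Z2 L hι c.2⟩ = 0 := by
    intro c
    rw [← map_nsmul, LevelSys.H2π_eq_zero_iff]
    have : ((p • (⟨ι ∘ c.1, ι_mem_Z2 L hι c.2⟩ : ↥(L.Z2 B)) : ↥(L.Z2 B)) : G × G → B) = 0 := by
      funext x
      show p • ι (c.1 x) = 0
      exact p_nsmul_ι (c.1 x)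
    rw [this]
    exact (L.B2 B).zero_mem
  let Φ : L.H2 M → {x : L.H2 B // p • x = 0} := fun x =>
    ⟨L.H2π B ⟨ι ∘ (rep x).1, ι_mem_Z2 L hι (rep x).2⟩, hker (rep x)⟩
  have key : ∀ c c' : ↥(L.Z2 M),
      L.H2π B ⟨ι ∘ c.1, ι_mem_Z2 L hι c.2⟩ = L.H2π B ⟨ι ∘ c'.1, ι_mem_Z2 L hι c'.2⟩ ↔
        L.H2π M c = L.H2π M c' := by
    intro c c'
    rw [← sub_eq_zero, ← map_sub, LevelSys.H2π_eq_zero_iff, ← sub_eq_zero (a := L.H2π M c),
      ← map_sub, LevelSys.H2π_eq_zero_iff]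
    have e : ((⟨ι ∘ c.1, ι_mem_Z2 L hι c.2⟩ - ⟨ι ∘ c'.1, ι_mem_Z2 L hι c'.2⟩ : ↥(L.Z2 B)) :
        G × G → B) = ι ∘ ((c - c' : ↥(L.Z2 M)) : G × G → M) := by
      funext x
      show ι (c.1 x) - ι (c'.1 x) = ι (c.1 x - c'.1 x)
      rw [map_sub]
    rw [e]
    exact ⟨mem_B2_of_ι_mem_B2 L hsm hdiv hι h1, ι_mem_B2 L hι⟩
  have hΦ : Function.Bijective Φ := by
    constructor
    · intro x y hxy
      have h2 := (key (rep x) (rep y)).1 (congrArg Subtype.val hxy)
      rw [hrep, hrep] at h2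
      exact h2
    · rintro ⟨y, hy⟩
      obtain ⟨a, rfl⟩ := L.H2π_surjective B y
      have hpa : p • (a : G × G → B) ∈ L.B2 B := by
        rw [← map_nsmul, LevelSys.H2π_eq_zero_iff] at hy
        exact hy
      obtain ⟨m, hm, hma⟩ := exists_of_p_nsmul_mem_B2 L hN hF hsm hdiv hι a.2 hpa
      refine ⟨L.H2π M ⟨m, hm⟩, Subtype.ext ?_⟩
      show L.H2π B ⟨ι ∘ (rep (L.H2π M ⟨m, hm⟩)).1, _⟩ = L.H2π B a
      rw [(key (rep (L.H2π M ⟨m, hm⟩)) ⟨m, hm⟩).2 (hrep _), ← sub_eq_zero, ← map_sub,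
        LevelSys.H2π_eq_zero_iff]
      exact hma
  exact Nat.card_congr (Equiv.ofBijective Φ hΦ)

end Kummer

end Fermat.Agent.S55.KC.H53

end

end
-- ===== PACK-END S55/KC/KummerH2H53.lean

-- ===== PACK-BEGIN S55/KC/H13OfAtH287.lean
section


/-!
# S55 / layer KC (helper53), leaves KC-D1 and KC-D3                              (helper287)

* `h1VanishOfAt : H1VanishOfAtSpec` — `H¹(G ⧸ V, B^V) = 0` at the normal levels `V ≤ V₀`
  ⇒ `H¹_lc(G, B) = 0`;
* `h3VanishOfAt : H3VanishOfAtSpec` — `H³(G ⧸ V, B^V) = 0` at the normal levels `V ≤ V₀`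
  ⇒ `H³_lc(G, B) = 0`.

Key point: a COCYCLE which is right-invariant under a NORMAL subgroup `V` automatically has
values in `B^V` (`isAt₁_of_cocycle`, `isAt₃_of_cocycle`), so neither smoothness nor finiteness of
the index is used.
-/

set_option autoImplicit false

noncomputable section

namespace Fermat.Agent.S55.KC.H287

open groupCohomology Fermat.Agent.S55.PT

variable {G : Type} [Group G] {k : Type} [CommRing k]

/-- A 1-cocycle which is right-invariant under a NORMAL subgroup `V` has values in `B^V`. -/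
lemma isAt₁_of_cocycle (B : Rep.{0, 0, 0} k G) (V : Subgroup G) (hVn : V.Normal)
    (f : G → B) (hf : f ∈ cocycles₁ B) (hinv : ∀ g s : G, s ∈ V → f (g * s) = f g) :
    IsAt₁ V B f := by
  rw [mem_cocycles₁_iff] at hf
  have h1 : f 1 = 0 := by
    have := hf 1 1
    simp only [one_mul, map_one, Module.End.one_apply] at this
    have h : f 1 + 0 = f 1 + f 1 := by rw [add_zero]; exact this
    exact (add_left_cancel h).symm
  intro g s hs
  refine ⟨hinv g s hs, ?_⟩
  have h2 := hf s g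
  have h3 : f (s * g) = f g := by
    have hc : g⁻¹ * s * g ∈ V := by
      have := hVn.conj_mem s hs g⁻¹
      simpa using this
    have := hinv g (g⁻¹ * s * g) hc
    rw [← this]
    congr 1
    group
  have h4 : f s = 0 := by
    have := hinv 1 s hs
    rw [one_mul] at this
    rw [this, h1]
  rw [h3, h4] at h2
  rw [add_zero] at h2
  exact h2.symm

/-- A 3-cocycle which is right-invariant under a NORMAL subgroup `V` has values in `B^V`. -/
lemma isAt₃_of_cocycle (B : Rep.{0, 0, 0} k G) (V : Subgroup G) (hVn : V.Normal)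
    (z : G × G × G → B) (hz : IsCocycle₃ B z)
    (hinv : ∀ g h i s t u : G, s ∈ V → t ∈ V → u ∈ V →
      z (g * s, h * t, i * u) = z (g, h, i)) : IsAt₃ V B z := by
  intro g h i s t u hs ht hu
  refine ⟨hinv g h i s t u hs ht hu, ?_⟩
  have h1 := hz 1 g h i
  simp only [one_mul, map_one, Module.End.one_apply] at h1
  have h2 := hz s g h i
  have h3 : z (s * g, h, i) = z (g, h, i) := by
    have hc : g⁻¹ * s * g ∈ V := by
      have := hVn.conj_mem s hs g⁻¹
      simpa using this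
    have := hinv g h i (g⁻¹ * s * g) 1 1 hc V.one_mem V.one_mem
    rw [mul_one, mul_one] at this
    rw [← this]
    congr 2
    group
  have h4 : ∀ x y : G, z (s, x, y) = z (1, x, y) := by
    intro x y
    have := hinv 1 x y s 1 1 hs V.one_mem V.one_mem
    rw [one_mul, mul_one, mul_one] at this
    exact this
  rw [h3, h4, h4, h4] at h2
  have h5 : B.ρ s (z (g, h, i)) - z (g, h, i) = 0 := by
    have h6 : B.ρ s (z (g, h, i)) - z (g, h, i) =
        (B.ρ s (z (g, h, i)) - z (g, h, i) + z (1, g * h, i) - z (1, g, h * i) + z (1, g, h)) -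
        (z (g, h, i) - z (g, h, i) + z (1, g * h, i) - z (1, g, h * i) + z (1, g, h)) := by
      abel
    rw [h6, h2, h1, sub_zero]
  exact sub_eq_zero.1 h5

/-- **KC-D1.** -/
theorem h1VanishOfAt : H1VanishOfAtSpec := by
  intro G _ L B V₀ hNC hV₀ hAt f hf hfL
  obtain ⟨U, hU, hfU⟩ := hfL
  obtain ⟨W₁, hW₁, hW₁le⟩ := L.directed U hU V₀ hV₀
  obtain ⟨V, hV, hVle, hVn⟩ := hNC W₁ hW₁
  have hVV₀ : V ≤ V₀ := fun w hw => (hW₁le (hVle hw)).2
  have hVU : V ≤ U := fun w hw => (hW₁le (hVle hw)).1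
  obtain ⟨a, -, ha⟩ := hAt V hV hVn hVV₀ f hf
    (isAt₁_of_cocycle B V hVn f hf (fun g s hs => hfU g s (hVU hs)))
  exact ⟨a, ha⟩

/-- **KC-D3.** -/
theorem h3VanishOfAt : H3VanishOfAtSpec := by
  intro G _ L B V₀ hNC _ _ hV₀ hAt z hzL hz
  obtain ⟨U, hU, hzU⟩ := hzL
  obtain ⟨W₁, hW₁, hW₁le⟩ := L.directed U hU V₀ hV₀
  obtain ⟨V, hV, hVle, hVn⟩ := hNC W₁ hW₁
  have hVV₀ : V ≤ V₀ := fun w hw => (hW₁le (hVle hw)).2
  have hVU : V ≤ U := fun w hw => (hW₁le (hVle hw)).1
  obtain ⟨b, hb, hbz⟩ := hAt V hV hVn hVV₀ z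
    (isAt₃_of_cocycle B V hVn z hz
      (fun g h i s t u hs ht hu => hzU g h i s t u (hVU hs) (hVU ht) (hVU hu))) hz
  exact ⟨b, ⟨V, hV, fun g g' s s' hs hs' => (hb g g' s s' hs hs').1⟩, hbz⟩

end Fermat.Agent.S55.KC.H287

end

end
-- ===== PACK-END S55/KC/H13OfAtH287.lean

-- ===== PACK-BEGIN S55/KC/IndH323.lean
section


/-!
# S55 / layer KC, block I: leaves KC-I0 (`IndKummerSpec`) and KC-I4' (`PUnboundedRelSpec`)

Owner: helper323 (subtask 448).

* `indKummer : IndKummerSpec` — `Ind_H = (G ⧸ H →₀ -)` preserves smoothness (for open `H`, normal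
  levels cofinal), `p`-divisibility and Kummer embeddings.
* `pUnboundedRel : PUnboundedRelSpec` — if the `p`-parts of `[G : V]` are unbounded, so are those
  of `[H : V]`, for `H ≥ V₀` (automatically of finite index).

Reusable lemmas: `smul_coset_eq_h323`, `isSmooth_indR_h323` (any commutative ring `k`),
`isPDivisible_finsupp_h323`, `isKummerEmb_ind_h323`.
-/

set_option autoImplicit false

noncomputable section

namespace Fermat.Agent.S55.KC.H323

open groupCohomology ExtCitation Fermat.Agent.S55.PT Fermat.Agent.S55.KC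

variable {G : Type} [Group G]

/-! ## Smoothness -/

/-- A normal subgroup `V ≤ H` acts trivially on `G ⧸ H`. -/
lemma smul_coset_eq_h323 {H V : Subgroup G} [hV : V.Normal] (hVH : V ≤ H) {s : G} (hs : s ∈ V)
    (x : G ⧸ H) : s • x = x := by
  induction x using QuotientGroup.induction_on with
  | H g =>
    rw [MulAction.Quotient.smul_mk, QuotientGroup.eq]
    apply hVH
    have h1 : (s • g)⁻¹ * g = g⁻¹ * s⁻¹ * g⁻¹⁻¹ := by
      rw [smul_eq_mul, mul_inv_rev, inv_inv]
    rw [h1]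
    exact hV.conj_mem _ (V.inv_mem hs) _

/-- `Ind_H B` is smooth if `B` is, `H` is open and normal levels are cofinal
(cochain form, on `indActR`; any commutative ring `k`). -/
lemma exists_level_indActR_eq_h323 (L : LevelSys G) (hNC : L.NormalCofinal) {H : Subgroup G}
    (hH : IsOpenSub L H) {k : Type} [CommRing k] (B : Rep.{0, 0, 0} k G) (hB : L.IsSmooth B)
    (a : (G ⧸ H) →₀ B) : ∃ U ∈ L.levels, ∀ s ∈ U, indActR H B s a = a := by
  obtain ⟨U₀, hU₀, hU₀H⟩ := hH
  obtain ⟨V, hV, hVU₀, hVn⟩ := hNC U₀ hU₀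
  induction a using Finsupp.induction_linear with
  | zero => exact ⟨V, hV, fun s _ => map_zero _⟩
  | add a b ha hb =>
    obtain ⟨U₁, hU₁, h₁⟩ := ha
    obtain ⟨U₂, hU₂, h₂⟩ := hb
    obtain ⟨W, hW, hWle⟩ := L.directed U₁ hU₁ U₂ hU₂
    exact ⟨W, hW, fun s hs => by rw [map_add, h₁ s (hWle hs).1, h₂ s (hWle hs).2]⟩
  | single x b =>
    obtain ⟨U₁, hU₁, h₁⟩ := hB b
    obtain ⟨W, hW, hWle⟩ := L.directed V hV U₁ hU₁
    refine ⟨W, hW, fun s hs => ?_⟩
    rw [indActR_single, h₁ s (hWle hs).2,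
      smul_coset_eq_h323 (hVU₀.trans hU₀H) (hWle hs).1]

/-- `Ind_H B` is smooth if `B` is, `H` is open and normal levels are cofinal. -/
theorem isSmooth_indR_h323 (L : LevelSys G) (hNC : L.NormalCofinal) {H : Subgroup G}
    (hH : IsOpenSub L H) {k : Type} [CommRing k] (B : Rep.{0, 0, 0} k G) (hB : L.IsSmooth B) :
    L.IsSmooth (indR H B) :=
  fun a => exists_level_indActR_eq_h323 L hNC hH B hB a

/-! ## `p`-divisibility -/

/-- Finitely supported functions with values in a `p`-divisible group form a `p`-divisible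
group. -/
lemma isPDivisible_finsupp_h323 (p : ℕ) {X B : Type} [AddCommGroup B] (hB : IsPDivisible p B) :
    IsPDivisible p (X →₀ B) := by
  intro b
  induction b using Finsupp.induction_linear with
  | zero => exact ⟨0, smul_zero _⟩
  | add a b ha hb =>
    obtain ⟨c₁, h₁⟩ := ha
    obtain ⟨c₂, h₂⟩ := hb
    exact ⟨c₁ + c₂, by rw [smul_add, h₁, h₂]⟩
  | single x b =>
    obtain ⟨c, hc⟩ := hB b
    exact ⟨Finsupp.single x c, by rw [Finsupp.smul_single, hc]⟩

/-! ## Kummer embeddings -/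

/-- `Ind_H` of a Kummer embedding is a Kummer embedding. -/
theorem isKummerEmb_ind_h323 (p : ℕ) [Fact p.Prime] (M : Rep.{0, 0, 0} (ZMod p) G)
    (B : Rep.{0, 0, 0} ℤ G) (ι : M →+ B) (H : Subgroup G) (hK : IsKummerEmb p M B ι) :
    IsKummerEmb p (indRep H M) (indR H B) (indEmb p H M B ι) where
  injective := Finsupp.mapRange_injective ι (map_zero ι) hK.injective
  equivariant := by
    intro g m
    change Finsupp.mapRange.addMonoidHom ι (indAct H M g m) =
      indActR H B g (Finsupp.mapRange.addMonoidHom ι m)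
    induction m using Finsupp.induction_linear with
    | zero => simp
    | add a b ha hb => rw [map_add, map_add, map_add, map_add, ha, hb]
    | single x m =>
      rw [indAct_single, Finsupp.mapRange.addMonoidHom_apply, Finsupp.mapRange_single,
        Finsupp.mapRange.addMonoidHom_apply, Finsupp.mapRange_single, indActR_single,
        hK.equivariant]
  range_eq := by
    intro b
    change p • (b : (G ⧸ H) →₀ B) = 0 ↔ b ∈ Set.range (Finsupp.mapRange.addMonoidHom ι)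
    constructor
    · intro hb
      classical
      have hmem : ∀ y : B, p • y = 0 → ∃ m : M, ι m = y := fun y hy =>
        (hK.range_eq y).1 hy
      let f : B → M := fun y => if h : ∃ m : M, ι m = y then h.choose else 0
      have hf0 : f 0 = 0 := by
        have h : ∃ m : M, ι m = 0 := ⟨0, map_zero ι⟩
        have h2 : ι (f 0) = ι 0 := by
          simp only [f, dif_pos h, map_zero]
          exact h.choose_spec
        exact hK.injective h2
      have hfy : ∀ y : B, p • y = 0 → ι (f y) = y := by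
        intro y hy
        have h := hmem y hy
        simp only [f, dif_pos h]
        exact h.choose_spec
      refine ⟨Finsupp.mapRange f hf0 b, ?_⟩
      ext x
      rw [Finsupp.mapRange.addMonoidHom_apply, Finsupp.mapRange_apply, Finsupp.mapRange_apply]
      apply hfy
      have := DFunLike.congr_fun hb x
      simpa using this
    · rintro ⟨m, rfl⟩
      ext x
      rw [Finsupp.smul_apply, Finsupp.mapRange.addMonoidHom_apply, Finsupp.mapRange_apply,
        Finsupp.zero_apply]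
      exact (hK.range_eq _).2 ⟨m x, rfl⟩

/-! ## KC-I0 -/

/-- **KC-I0.**  `Ind_H` preserves smoothness, `p`-divisibility and Kummer embeddings. -/
theorem indKummer : IndKummerSpec := by
  intro G _ L p _ M B ι H hNC hH hsm hdiv hK
  exact ⟨isSmooth_indR_h323 L hNC hH B hsm, isPDivisible_finsupp_h323 p hdiv,
    isKummerEmb_ind_h323 p M B ι H hK⟩

/-! ## KC-I4' -/

/-- **KC-I4'.**  Unboundedness of the `p`-part of `[G : V]` implies that of `[H : V]`. -/
theorem pUnboundedRel : PUnboundedRelSpec := by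
  intro G _ L p hp H V₀ hFI hV₀ hV₀H hunb m
  have hV₀fi : V₀.FiniteIndex := hFI V₀ hV₀
  have hHne : H.index ≠ 0 := (Subgroup.finiteIndex_of_le hV₀H).index_ne_zero
  obtain ⟨V, hV, hVn, hVV₀, hdvd⟩ := hunb (m + padicValNat p H.index)
  refine ⟨V, hV, hVn, hVV₀, ?_⟩
  have hVfi : V.FiniteIndex := hFI V hV
  have hmul : V.relIndex H * H.index = V.index := Subgroup.relIndex_mul_index (hVV₀.trans hV₀H)
  have hrel : V.relIndex H ≠ 0 := by
    intro h
    apply hVfi.index_ne_zero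
    rw [← hmul, h, zero_mul]
  rw [padicValNat_dvd_iff_le hrel]
  have h1 : m + padicValNat p H.index ≤ padicValNat p V.index :=
    (padicValNat_dvd_iff_le hVfi.index_ne_zero).1 hdvd
  rw [← hmul, padicValNat.mul hrel hHne] at h1
  omega

end Fermat.Agent.S55.KC.H323

end

end
-- ===== PACK-END S55/KC/IndH323.lean

-- ===== PACK-BEGIN S55/KC/QInfH73.lean
section



/-!
# S55, layer KC (architect helper53), leaf KC-QInf (subtask 447)              (helper73)

`qInf : QInfSpec` — injectivity of inflation `H²(G ⧸ V, B^V) → H²(G ⧸ V', B^{V'})` in cochain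
form from `H¹(V ⧸ V', B^{V'}) = 0`.  The proof is the Mathlib-only core
`Fermat.Agent.S55.KL.H73.qInf_core` (direct cochain computation).
-/

set_option autoImplicit false

open CategoryTheory groupCohomology

namespace Fermat.Agent.S55.KC.H73

/-- **KC-QInf.** -/
theorem qInf : QInfSpec := by
  intro G _ B V' _ V _ hle h1 f hf hcob
  obtain ⟨x, hx, hdx⟩ := hcob
  obtain ⟨y, hy, hdy⟩ := Fermat.Agent.S55.KL.H73.qInf_core B V' V hle h1 f hf.2 x hx hdx
  exact ⟨y, hy, hdy⟩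

end Fermat.Agent.S55.KC.H73

end
-- ===== PACK-END S55/KC/QInfH73.lean

-- ===== PACK-BEGIN S55/G/Rec/Tow/Spec.lean
section
/-
S55 / layer G / block REC / adapter TOW (subtask 379) — FROZEN INTERFACE.
Sub-architect: helper417.   Plan + proofs sketches: `coord/S55-REC-TOW.md` (origin/helper417).

Everything here is a definition or a `def XxxSpec : Prop`; NO sorry.
Producers prove `theorem xxx : XxxSpec` (or `xxx_of : Hyp₁ → … → XxxSpec`) in
`Fermat/Agent/S55/G/Rec/Tow/H<seat>/*.lean`, namespace `Fermat.Agent.S55.G.Rec.TOW.H<seat>`.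

TARGETS (what the G-ADAPTER, helper955, transports to his tower datum):
  `Gd1Spec p`, `Gd3Spec p`, `Gd8Spec p`   on `lvlC F = G.CRep S F.Gal F.F`.
INPUTS:
  * `SemiLocalInv p`  : finite-level semilocal invariants `σ` with reciprocity (from block REC);
  * `UpSpec p`, `DescSpec`, `RamSpec p` : Tower forms of G-UP, G-DESC, and the auxiliary level
    `M = F·L(r,k)`;  `G.SIndepSpec`, `G.ClassShortExactSpec` (as they are);
  * pure algebra: `ExactCountSpec`, `ResTopSpec`, `ClassModuleOfSylowSpec`, `InfInjSpec`,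
    `InfResLiftSpec`, `ResMapNatSpec`, `PPrimaryLiftSpec`, `H2ExactSpec`, `ResCoeffNatSpec`.
-/



set_option autoImplicit false

open CategoryTheory groupCohomology
open scoped NumberField

noncomputable section

namespace Fermat.Agent.S55.G.Rec.TOW

open Fermat.Agent.S55 Fermat.Agent.S55.Tow Fermat.Agent.S55.E1.H594
open IsDedekindDomain

/-! ## A. Reciprocity at finite level -/

/-- **FinRec**: a system of semilocal invariants `σ_H = ∑_{v | S} inv_v : H²(H, J_S(M)) → ℚ/ℤ`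
for all Tower levels `M` (of all `S`) and all subgroups `H ≤ Gal(M/ℚ)` (base field `K = M^H`, the
sum runs over the places `v` of `K` above `S`), with the four properties used by TOW. -/
structure SemiLocalInv (p : ℕ) where
  /-- the semilocal invariant -/
  σ : ∀ {S : Finset Nat.Primes} (M : Level S) (H : Subgroup M.Gal),
    groupCohomology (T.resSub (lvlJ M) H) 2 →+ AddCircle (1 : ℚ)
  /-- RECIPROCITY: a `p`-primary class `x ∈ H²(H, Mˣ)` with trivial divisor class
  (`ord_* x = 0` in `H²(H, Div^S(M))`, i.e. `x` is locally trivial outside `S`) has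
  `∑_{v | S} inv_v(x_v) = 0`. -/
  recip : ∀ {S : Finset Nat.Primes} (M : Level S) (H : Subgroup M.Gal)
    (x : groupCohomology (T.resSub (lvlL M) H) 2), E1.IsPPrimary p x →
    h2Sub (G.ordRepHom S M.Gal M.F) H x = 0 →
    σ M H (h2Sub (diagJRepHom S M.Gal M.F) H x) = 0
  /-- RESTRICTION multiplies the semilocal invariant by the index
  (`inv ∘ res = degree · inv` and `∑_{w | v} [K'_w : K_v] = [K' : K]`). -/
  resIndex : ∀ {S : Finset Nat.Primes} (M : Level S) (H : Subgroup M.Gal)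
    (y : groupCohomology (lvlJ M) 2),
    σ M H (res2 (lvlJ M) H y) = H.index • σ M ⊤ (res2 (lvlJ M) ⊤ y)
  /-- INJECTIVITY over `ℚ` at one prime: a `p`-primary class of `H²(Gal(M/ℚ), J_S(M))`
  concentrated at `r` with invariant `0` is `0`  (Shapiro + injectivity of `inv_r`). -/
  injAt : ∀ {S : Finset Nat.Primes} (M : Level S) (r : Nat.Primes)
    (y : groupCohomology (lvlJ M) 2), E1.IsPPrimary p y → IsAt S M.Gal M.F r y →
    σ M ⊤ (res2 (lvlJ M) ⊤ y) = 0 → y = 0
  /-- LOCAL CLASSES: if the `p`-group `Z ≤ H` fixes a prime of `M` above `r ∈ S`, there is a class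
  in `H²(H, J_S(M))` killed by `|Z|` whose invariant has order exactly `|Z|`
  (local class field theory at the place below that prime: `|Z|` divides the local degree). -/
  locClass : ∀ {S : Finset Nat.Primes} (M : Level S) (r : Nat.Primes), r ∈ S →
    ∀ H Z : Subgroup M.Gal, Z ≤ H → IsPGroup p Z → FixesPrimeAbove M r Z →
    ∃ y : groupCohomology (T.resSub (lvlJ M) H) 2,
      Nat.card Z • y = 0 ∧ ∀ n : ℕ, n • σ M H y = 0 → Nat.card Z ∣ n

/-- **FinRec** as a proposition. -/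
def FinRecSpec (p : ℕ) : Prop := Nonempty (SemiLocalInv p)

/-! ## B. Tower forms of the inputs from layer G -/

/-- **UP-TOW** (Tower form of `G.PClassUpperSpec`): for a level `M ⊇ μ_p` of `S ∋ p` and every
`p`-subgroup `H ≤ Gal(M/ℚ)`: `H¹(H, C_S(M)) = 0` and `|H²(H, C_S(M))|` divides `|H|`. -/
def UpSpec (p : ℕ) : Prop :=
  ∀ (S : Finset Nat.Primes) (hp : p.Prime), p ≠ 2 → (⟨p, hp⟩ : Nat.Primes) ∈ S →
    ∀ M : Level S, M.HasMu p → ∀ H : Subgroup M.Gal, IsPGroup p H →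
      Limits.IsZero (groupCohomology (T.resSub (lvlC M) H) 1) ∧
      T.CardDvd (groupCohomology (T.resSub (lvlC M) H) 2) (Nat.card H)

/-- `ι : Res_π C ⟶ C'` identifies `C` with the invariants of `ker π` in `C'`. -/
def IsInvIncl {Γ' Γ : Type} [Group Γ'] [Group Γ] (π : Γ' →* Γ) {C : Rep.{0} ℤ Γ}
    {C' : Rep.{0} ℤ Γ'} (ι : Rep.res π C ⟶ C') : Prop :=
  Function.Injective ι.hom ∧
    ∀ c : C'.V, (∀ n ∈ π.ker, C'.ρ n c = c) → c ∈ Set.range ι.hom

/-- **DESC-TOW** (Tower form of `G.DescentSpec`): for levels `L ≤ M` of `S ≠ ∅` there is a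
transition map `C_S(L) → C_S(M)`, equivariant along `Gal(M/ℚ) → Gal(L/ℚ)`, injective, whose image
contains (hence is) the invariants of `Gal(M/L)`. -/
def DescSpec : Prop :=
  ∀ (S : Finset Nat.Primes), S.Nonempty → ∀ (L M : Level S) (h : L ≤ M),
    ∃ ι : Rep.res (Level.proj h) (lvlC L) ⟶ lvlC M, IsInvIncl (Level.proj h) ι

/-- **RAM** (auxiliary level): for a level `L` of `S`, a prime `p` and `k`, there are a prime
`r ∉ S` and a level `M ≥ L` of `S ∪ {r}` such that `Gal(M/L)` has order `p^k` and fixes a prime of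
`M` above `r`.  (`r ≡ 1 mod p^k`, `M = L·L(r,k)`, `L(r,k) ⊂ ℚ(ζ_r)` of degree `p^k`: `M/L` is
totally ramified above `r`, so `Gal(M/L)` is the inertia group of any prime above `r`.) -/
def RamSpec (p : ℕ) : Prop :=
  p.Prime → ∀ (S : Finset Nat.Primes) (L : Level S) (k : ℕ),
    ∃ (r : Nat.Primes) (_ : r ∉ S) (M : Level (insert r S))
      (h : Level.ofLE (Finset.subset_insert r S) L ≤ M),
      Nat.card (Level.relGal h) = p ^ k ∧ FixesPrimeAbove M r (Level.relGal h)

/-! ## C. Pure algebra -/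

/-- **ALG-EX** (exactness by counting).  `j : X → Y`, `σ : X → T` additive, `ker j ⊆ ker σ`,
`|Y|` divides `m` and some `σ y₀` has order exactly `m`.  Then `ker σ ⊆ ker j` and `|Y| = m`. -/
def ExactCountSpec : Prop :=
  ∀ (X Y T : Type) [AddCommGroup X] [AddCommGroup Y] [AddCommGroup T] (j : X →+ Y) (σ : X →+ T)
    (m : ℕ), 0 < m → (∀ x, j x = 0 → σ x = 0) → Finite Y → Nat.card Y ∣ m →
    (∃ y₀ : X, ∀ n : ℕ, n • σ y₀ = 0 → m ∣ n) →
    (∀ x, σ x = 0 → j x = 0) ∧ Nat.card Y = m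

/-- **ALG-TOP**: restriction to the subgroup `⊤` is bijective. -/
def ResTopSpec : Prop :=
  ∀ (Γ : Type) [Group Γ] (A : Rep.{0} ℤ Γ) (n : ℕ),
    Function.Bijective (T.resMap A (⊤ : Subgroup Γ) n).hom

/-- **ALG-CM** (class module at `p` from a Sylow subgroup).  If `H¹(H, C) = 0` and
`|H²(H, C)| ∣ |H|` for all `p`-subgroups `H`, and `res_P γ` has order (at least) `|P|` for ONE
Sylow `p`-subgroup `P`, then `(C, γ)` is a class module at `p`.  (Only `T.ResIndexSpec`.) -/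
def ClassModuleOfSylowSpec : Prop :=
  ∀ (p : ℕ), p.Prime → ∀ (Γ : Type) [Group Γ] [Finite Γ] (C : Rep.{0} ℤ Γ)
    (γ : groupCohomology C 2) (P : Subgroup Γ), IsPGroup p P → ¬ p ∣ P.index →
    (∀ H : Subgroup Γ, IsPGroup p H →
      Limits.IsZero (groupCohomology (T.resSub C H) 1) ∧
      T.CardDvd (groupCohomology (T.resSub C H) 2) (Nat.card H)) →
    (∀ n : ℕ, n • res2 C P γ = 0 → Nat.card P ∣ n) →
    E1.IsClassModuleAt p C γ

/-- **ALG-INF** (memo T7): if `C = C'^{ker π}` and `H¹(Q, C') = 0` for all `p`-subgroups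
`Q ≤ ker π`, then inflation `H²(Γ, C) → H²(Γ', C')` is injective on `p`-primary classes. -/
def InfInjSpec : Prop :=
  ∀ (p : ℕ), p.Prime → ∀ (Γ' Γ : Type) [Group Γ'] [Group Γ] [Finite Γ'] (π : Γ' →* Γ),
    Function.Surjective π →
    ∀ (C : Rep.{0} ℤ Γ) (C' : Rep.{0} ℤ Γ') (ι : Rep.res π C ⟶ C'), IsInvIncl π ι →
    (∀ Q : Subgroup Γ', Q ≤ π.ker → IsPGroup p Q →
      Limits.IsZero (groupCohomology (T.resSub C' Q) 1)) →
    ∀ z : groupCohomology C 2, E1.IsPPrimary p z →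
      (groupCohomology.map π ι 2).hom z = 0 → z = 0

/-- **ALG-LIFT** (inflation–restriction + descent): if `C = C'^{ker π}` and
`H¹(ker π, C') = 0`, every class of `H²(Γ', C')` which dies on `ker π` is inflated from
`H²(Γ, C)`. -/
def InfResLiftSpec : Prop :=
  ∀ (Γ' Γ : Type) [Group Γ'] [Group Γ] [Finite Γ'] (π : Γ' →* Γ), Function.Surjective π →
    ∀ (C : Rep.{0} ℤ Γ) (C' : Rep.{0} ℤ Γ') (ι : Rep.res π C ⟶ C'), IsInvIncl π ι →
    Limits.IsZero (groupCohomology (T.resSub C' π.ker) 1) →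
    ∀ Y : groupCohomology C' 2, res2 C' π.ker Y = 0 →
      ∃ γ : groupCohomology C 2, (groupCohomology.map π ι 2).hom γ = Y

/-- **ALG-NAT**: restriction commutes with inflation: if `res_P z = 0` then
`res_{π⁻¹ P} (inf z) = 0`. -/
def ResMapNatSpec : Prop :=
  ∀ (Γ' Γ : Type) [Group Γ'] [Group Γ] (π : Γ' →* Γ)
    (C : Rep.{0} ℤ Γ) (C' : Rep.{0} ℤ Γ') (ι : Rep.res π C ⟶ C') (P : Subgroup Γ)
    (z : groupCohomology C 2), res2 C P z = 0 →
      res2 C' (P.comap π) ((groupCohomology.map π ι 2).hom z) = 0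

/-- **ALG-PP** (`p`-primary lift): in a group killed by `N > 0`, a preimage of a `p`-primary
element can be chosen `p`-primary. -/
def PPrimaryLiftSpec : Prop :=
  ∀ (p : ℕ), p.Prime → ∀ (X Y : Type) [AddCommGroup X] [AddCommGroup Y] (f : X →+ Y) (N : ℕ),
    0 < N → (∀ x : X, N • x = 0) → ∀ x : X, E1.IsPPrimary p (f x) →
      ∃ x' : X, E1.IsPPrimary p x' ∧ f x' = f x

/-- **ALG-SES**: exactness of `H²(H, X₁) → H²(H, X₂) → H²(H, X₃)` for a short exact sequence of
`Γ`-modules, for `Γ` and for all its subgroups. -/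
def H2ExactSpec : Prop :=
  ∀ (Γ : Type) [Group Γ] (X : ShortComplex (Rep.{0} ℤ Γ)), X.ShortExact →
    (∀ z : groupCohomology X.X₂ 2, h2Top X.g z = 0 → ∃ x, h2Top X.f x = z) ∧
    (∀ (H : Subgroup Γ) (z : groupCohomology (T.resSub X.X₂ H) 2),
      h2Sub X.g H z = 0 → ∃ x, h2Sub X.f H x = z)

/-- **ALG-RCN**: restriction commutes with change of coefficients. -/
def ResCoeffNatSpec : Prop :=
  ∀ (Γ : Type) [Group Γ] (A B : Rep.{0} ℤ Γ) (f : A ⟶ B) (H : Subgroup Γ)
    (x : groupCohomology A 2), h2Sub f H (res2 A H x) = res2 B H (h2Top f x)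

/-! ## D. Intermediate statements -/

/-- **KERJ** (reciprocity in the form used below): a `p`-primary class `a ∈ H²(H, J_S(M))` which
dies in `H²(H, C_S(M))` has `σ_H(a) = 0`.
(`a = diag_* x` with `ord_* x = 0` by `G.ClassShortExactSpec` + `H2ExactSpec`; `x` can be taken
`p`-primary by `PPrimaryLiftSpec` + `T.CardTorsionSpec`; then `recip`.) -/
def KerJSpec (p : ℕ) (I : SemiLocalInv p) : Prop :=
  ∀ (S : Finset Nat.Primes), S.Nonempty → ∀ (M : Level S) (H : Subgroup M.Gal)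
    (a : groupCohomology (T.resSub (lvlJ M) H) 2), E1.IsPPrimary p a →
    h2Sub (lvlj M) H a = 0 → I.σ M H a = 0


/-- **T4'** (exactness at a totally ramified place).  `M ⊇ μ_p` a level of `S ∋ p`, `Z ≤ Gal(M/ℚ)`
a `p`-group fixing a prime of `M` above `r ∈ S`.  Then a class `a ∈ H²(Z, J_S(M))` with
`σ_Z(a) = 0` dies in `H²(Z, C_S(M))`, and `|H²(Z, C_S(M))| = |Z|`.
(From `KerJSpec`, `locClass`, `UpSpec`, `ExactCountSpec`, `T.CardTorsionSpec`.) -/
def TotExactSpec (p : ℕ) (I : SemiLocalInv p) : Prop :=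
  ∀ (S : Finset Nat.Primes) (hp : p.Prime), p ≠ 2 → (⟨p, hp⟩ : Nat.Primes) ∈ S →
    ∀ M : Level S, M.HasMu p → ∀ r : Nat.Primes, r ∈ S → ∀ Z : Subgroup M.Gal, IsPGroup p Z →
      FixesPrimeAbove M r Z →
      (∀ a : groupCohomology (T.resSub (lvlJ M) Z) 2, I.σ M Z a = 0 → h2Sub (lvlj M) Z a = 0) ∧
      Nat.card (groupCohomology (T.resSub (lvlC M) Z) 2) = Nat.card Z

/-! ## E. Targets -/

/-- **GD1-TOW**: every level `F ⊇ μ_p` of `S ∋ p` has a fundamental class at `p`. -/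
def Gd1Spec (p : ℕ) : Prop :=
  ∀ (S : Finset Nat.Primes) (hp : p.Prime), p ≠ 2 → (⟨p, hp⟩ : Nat.Primes) ∈ S →
    ∀ L : Level S, L.HasMu p →
      ∃ γ : groupCohomology (lvlC L) 2, E1.IsClassModuleAt p (lvlC L) γ

/-- **GD3-TOW**: `j_* : H²(Gal(F/ℚ), J_S(F)) → H²(Gal(F/ℚ), C_S(F))` is injective on `p`-primary
classes concentrated at one prime `q ∈ S`. -/
def Gd3Spec (p : ℕ) : Prop :=
  ∀ (S : Finset Nat.Primes) (L : Level S) (q : Nat.Primes), q ∈ S →
    ∀ y : groupCohomology (lvlJ L) 2, E1.IsPPrimary p y → IsAt S L.Gal L.F q y →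
      h2Top (lvlj L) y = 0 → y = 0

/-- **GD8-TOW**: for levels `L ≤ M` of `S ∋ p`, `M ⊇ μ_p`, and ANY transition map `ι` identifying
`C_S(L)` with `C_S(M)^{Gal(M/L)}`, the inflation `H²(Gal(L/ℚ), C_S(L)) → H²(Gal(M/ℚ), C_S(M))`
is injective on `p`-primary classes. -/
def Gd8Spec (p : ℕ) : Prop :=
  ∀ (S : Finset Nat.Primes) (hp : p.Prime), p ≠ 2 → (⟨p, hp⟩ : Nat.Primes) ∈ S →
    ∀ (L M : Level S) (h : L ≤ M), M.HasMu p →
    ∀ ι : Rep.res (Level.proj h) (lvlC L) ⟶ lvlC M, IsInvIncl (Level.proj h) ι →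
    ∀ z : groupCohomology (lvlC L) 2, E1.IsPPrimary p z →
      (groupCohomology.map (Level.proj h) ι 2).hom z = 0 → z = 0

/-! ## F. Assembly statements (deliverables of the TOW block) -/

/-- `kerJ_of` : KERJ from `recip`. -/
def KerJAssemblySpec (p : ℕ) : Prop :=
  p.Prime → ∀ I : SemiLocalInv p, G.ClassShortExactSpec → H2ExactSpec → PPrimaryLiftSpec →
    T.CardTorsionSpec → KerJSpec p I

/-- `gd3_of` : GD3 from reciprocity (memo T5). -/
def Gd3AssemblySpec (p : ℕ) : Prop :=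
  ∀ I : SemiLocalInv p, KerJSpec p I → ResCoeffNatSpec → Gd3Spec p

/-- `gd8_of` : GD8 is formal (memo T7). -/
def Gd8AssemblySpec (p : ℕ) : Prop := UpSpec p → InfInjSpec → Gd8Spec p

/-- `totExact_of` : T4'. -/
def TotExactAssemblySpec (p : ℕ) : Prop :=
  ∀ I : SemiLocalInv p, KerJSpec p I → UpSpec p → ExactCountSpec → T.CardTorsionSpec →
    TotExactSpec p I

/-- `gd1_of` : GD1 (memo T6). -/
def Gd1AssemblySpec (p : ℕ) : Prop :=
  ∀ I : SemiLocalInv p, KerJSpec p I → TotExactSpec p I → UpSpec p → DescSpec →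
    G.SIndepSpec → RamSpec p → ResTopSpec → ResCoeffNatSpec → ClassModuleOfSylowSpec →
    InfResLiftSpec → ResMapNatSpec → T.ResIndexSpec → Gd1Spec p

end Fermat.Agent.S55.G.Rec.TOW

end
end
-- ===== PACK-END S55/G/Rec/Tow/Spec.lean

-- ===== PACK-BEGIN S55/Cap/C1H239/Main.lean
section



/-!
# S55 / A8-C1 (helper239): `C1AdapterSpec`

`c1Adapter : Cap.C1AdapterSpec p S`, i.e.
`(∃ D : TowerDatum S, D.IsGoodMu p ∧ ClTorsion D) → SUnitsDivSpec S p → C1Spec p S`:
`H¹(G_S(K_U), 𝕁/𝔼)` has no `p`-part, in cochain form.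

Proof (blueprint `coord/S55-K-A8.md` §4.3, helper303):
1. finite-level reduction (`exists_level_lift`): `b = ofJ ∘ β`, `β : G_ℚ → Ind_U J(L)`, `L ⊇ μ_p`;
2. `f = j ∘ β : G_ℚ → Ind_U C(L)` is a 1-cocycle (GD4 ⇐);
3. the Shapiro restriction of `f` is a coboundary on (the preimage of) a Sylow `p`-subgroup of
   `Gal(L/L₁)` (GD1), hence `m₀ • f = d⁰ c₁`, `m₀` prime to `p` (`shapiro_transfer`);
4. capitulation (`exists_cap`, GD11 + GD5 + GD7): `tr (n • c₁) = j(Q)`, `Q ∈ Ind_U J(L')`;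
5. `(n m₀) • β(g) - (g Q - Q)` is killed by `j`, hence lies in `Ind_U 𝔼` (GD4 ⇒).
-/

set_option autoImplicit false
set_option linter.unusedVariables false
set_option linter.unusedSectionVars false
set_option linter.style.haveILetI false

noncomputable section

namespace Fermat.Agent.S55.Cap.H239

open Fermat.Agent.S55.PT Fermat.Agent.S55.Tow Fermat.Agent.S55.Cap CategoryTheory groupCohomology

variable {S : Finset Nat.Primes} {p : ℕ} [Fact p.Prime]

/-- `μ_p` lives at some level (from `SUnitsDivSpec`, part 2) -/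
lemma exists_hasMu (h : ∃ L₀ : Level S, ∀ ζ : Qbar, ζ ^ p = 1 → ζ ∈ L₀.F) :
    ∃ L₀ : Level S, L₀.HasMu p := by
  obtain ⟨L₀, hL₀⟩ := h
  haveI : NeZero ((p : ℕ) : Qbar) := ⟨by exact_mod_cast (Fact.out : p.Prime).ne_zero⟩
  obtain ⟨ζ, hζ⟩ := HasEnoughRootsOfUnity.exists_primitiveRoot Qbar p
  exact ⟨L₀, ζ, hL₀ ζ hζ.pow_eq_one, hζ⟩

/-- `H¹ = 0` in cochain form -/
lemma exists_coboundary_of_isZero {k H : Type} [CommRing k] [Group H] (A : Rep.{0, 0, 0} k H)
    (h : Limits.IsZero (groupCohomology A 1)) (z : H → A.V)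
    (hz : ∀ s t, z (s * t) = A.ρ s (z t) + z s) : ∃ y : A.V, ∀ s, z s = A.ρ s y - y := by
  have hmem : z ∈ cocycles₁ A := (mem_cocycles₁_iff z).2 hz
  haveI : Subsingleton (groupCohomology A 1) := ModuleCat.isZero_iff_subsingleton.1 h
  have h0 : H1π A ⟨z, hmem⟩ = 0 := Subsingleton.elim _ _
  rw [H1π_eq_zero_iff] at h0
  obtain ⟨y, hy⟩ := h0
  exact ⟨y, fun s => (congrFun hy s).symm⟩

/-- the Shapiro restriction is a coboundary on the preimage of a Sylow `p`-subgroup of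
`Gal(L/L₁)` (GD1) -/
theorem exists_coboundary_sylow {D : TowerDatum S} (hD : D.IsGoodMu p) {L₁ L : Level S}
    (h₁ : L₁ ≤ L) (hμ : L.HasMu p) (z : Tow.GQ → CL D L)
    (hzinv : ∀ g s : Tow.GQ, s ∈ L.U → z (g * s) = z g)
    (hzc : ∀ u ∈ L₁.U, ∀ g : Tow.GQ, z (u * g) = z u + u • z g) :
    ∃ (P : Subgroup Tow.GQ) (y : CL D L), P.relIndex L₁.U ≠ 0 ∧ (P.relIndex L₁.U).Coprime p ∧
      ∀ t ∈ P, t ∈ L₁.U → z t = t • y - y := by
  classical
  set π : Tow.GQ →* L.Gal := QuotientGroup.mk' L.U with hπ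
  set Ubar : Subgroup L.Gal := L₁.U.map π with hUbar
  have hker : π.ker ≤ L₁.U := by
    rw [hπ, QuotientGroup.ker_mk']
    exact Level.U_anti h₁
  have hcomap : Ubar.comap π = L₁.U := Subgroup.comap_map_eq_self hker
  obtain ⟨P⟩ := (Sylow.nonempty : Nonempty (Sylow p Ubar))
  set Pbar : Subgroup L.Gal := (P : Subgroup Ubar).map Ubar.subtype with hPbar
  have hPle : Pbar ≤ Ubar := by
    rw [hPbar]
    exact Subgroup.map_subtype_le _
  have hPp : IsPGroup p Pbar := P.isPGroup'.map Ubar.subtype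
  obtain ⟨hH1, -, -⟩ := hD.gd1 L hμ Pbar hPp
  -- lifts
  have hout_mem : ∀ t : L.Gal, t ∈ Ubar → (t.out : Tow.GQ) ∈ L₁.U := by
    intro t ht
    rw [← hcomap, Subgroup.mem_comap]
    have : π t.out = t := QuotientGroup.out_eq' t
    rw [this]
    exact ht
  have hzout : ∀ g : Tow.GQ, z ((QuotientGroup.mk g : L.Gal).out) = z g := by
    intro g
    obtain ⟨u, hu⟩ := QuotientGroup.mk_out_eq_mul L.U g
    rw [hu]
    exact hzinv g u u.2
  -- the cocycle on `Pbar`
  obtain ⟨y, hy⟩ := exists_coboundary_of_isZero (T.resSub (D.C L) Pbar) hH1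
    (fun t => CL.val D L (z ((t : L.Gal).out)))
    (fun s t => by
      have hs : ((s : L.Gal).out : Tow.GQ) ∈ L₁.U := hout_mem _ (hPle s.2)
      have h1 : (QuotientGroup.mk ((s : L.Gal).out * (t : L.Gal).out) : L.Gal) =
          ((s * t : Pbar) : L.Gal) := by
        rw [QuotientGroup.mk_mul, QuotientGroup.out_eq', QuotientGroup.out_eq']
        rfl
      have h2 : z (((s * t : Pbar) : L.Gal).out) = z ((s : L.Gal).out * (t : L.Gal).out) := by
        rw [← h1, hzout]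
      rw [h2, hzc _ hs, map_add, CL.val_smul, QuotientGroup.out_eq', add_comm]
      rfl)
  refine ⟨Pbar.comap π, CL.of D L y, ?_, ?_, fun t ht htU => ?_⟩
  · rw [Subgroup.relIndex_comap, ← hUbar]
    have h3 : Pbar.subgroupOf Ubar = (P : Subgroup Ubar) :=
      Subgroup.comap_map_eq_self_of_injective Ubar.subtype_injective _
    rw [Subgroup.relIndex, h3]
    exact Subgroup.FiniteIndex.index_ne_zero
  · rw [Subgroup.relIndex_comap, ← hUbar]
    have h3 : Pbar.subgroupOf Ubar = (P : Subgroup Ubar) :=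
      Subgroup.comap_map_eq_self_of_injective Ubar.subtype_injective _
    rw [Subgroup.relIndex, h3]
    exact ((Nat.Prime.coprime_iff_not_dvd (Fact.out : p.Prime)).2 P.not_dvd_index).symm
  · have h4 := hy ⟨π t, ht⟩
    apply CL.val_injective
    rw [map_sub, CL.val_smul, CL.val_of]
    rw [← hzout t]
    exact h4

/-- **A8-C1** -/
theorem c1Adapter : C1AdapterSpec p S := by
  classical
  rintro ⟨D, hD, hT⟩ hdiv L₁ b hb hdb
  obtain ⟨L₀, hμ₀⟩ := exists_hasMu hdiv.2
  obtain ⟨L, h₀, h₁, hbinv, hβ'⟩ := exists_level_lift L₁.U b hb L₀ L₁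
  have hμ : L.HasMu p := hμ₀.mono h₀
  choose β hβ using hβ'
  have hinj := IndM.map_injective L₁.U (ofJ L) (ofJ_injective L)
  have hβinv : ∀ g s : Tow.GQ, s ∈ L.U → β (g * s) = β g := by
    intro g s hs
    apply hinj
    rw [hβ, hβ, hbinv g s hs]
  haveI : Finite (Tow.GQ ⧸ L₁.U) := Level.finiteGal L₁
  -- the cocycle `f = j ∘ β`
  set f : Tow.GQ → IndM L₁.U (CL D L) := fun g => IndM.map L₁.U (jL D L) (β g) with hf_def
  have hf : ∀ g h, f (g * h) = f g + g • f h := by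
    intro g h
    obtain ⟨e, he⟩ := hdb g h
    have h1 : IndM.map L₁.U (ofJ L) (g • β h - β (g * h) + β g) = IndM.map L₁.U (iEJ S) e := by
      rw [map_add, map_sub, IndM.map_smul' L₁.U (ofJ L) (ofJ_smul L), hβ, hβ, hβ, he]
    have h2 : IndM.map L₁.U (jL D L) (g • β h - β (g * h) + β g) = 0 := by
      apply indM_map_eq_zero
      intro x
      apply jL_eq_zero_of_ofJ_eq hD L _ (IndM.toF L₁.U e x)
      have := congrArg (fun F => IndM.toF L₁.U F x) h1
      simpa only [IndM.map_apply] using this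
    rw [map_add, map_sub, IndM.map_smul' L₁.U (jL D L) (jL_smul D L)] at h2
    show IndM.map L₁.U (jL D L) (β (g * h)) =
      IndM.map L₁.U (jL D L) (β g) + g • IndM.map L₁.U (jL D L) (β h)
    have h3 := sub_eq_zero.1 (by rw [← h2]; abel :
      IndM.map L₁.U (jL D L) (β g) + g • IndM.map L₁.U (jL D L) (β h) -
        IndM.map L₁.U (jL D L) (β (g * h)) = 0)
    exact h3.symm
  -- the Shapiro restriction
  have hone : ∀ u ∈ L₁.U, (u : Tow.GQ)⁻¹ • (((1 : Tow.GQ) : Tow.GQ ⧸ L₁.U)) =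
      ((1 : Tow.GQ) : Tow.GQ ⧸ L₁.U) := by
    intro u hu
    show (((u : Tow.GQ)⁻¹ * 1 : Tow.GQ) : Tow.GQ ⧸ L₁.U) = _
    rw [mul_one, QuotientGroup.eq, inv_inv, mul_one]
    exact hu
  obtain ⟨P, y, hm0, hmp, hy⟩ := exists_coboundary_sylow hD h₁ hμ
    (fun g => IndM.toF L₁.U (f g) ((1 : Tow.GQ) : Tow.GQ ⧸ L₁.U))
    (fun g s hs => by
      show IndM.toF L₁.U (IndM.map L₁.U (jL D L) (β (g * s))) _ = _
      rw [hβinv g s hs])
    (fun u hu g => by
      show IndM.toF L₁.U (f (u * g)) _ = _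
      rw [hf, toF_add, toF_smul, hone u hu])
  obtain ⟨c₁, hc₁⟩ := shapiro_transfer L₁.U P hm0 f hf y hy
  -- capitulation
  obtain ⟨n, L', h', Q, hn, hQ⟩ := exists_cap hD hT L₁.U L c₁
  refine ⟨n * P.relIndex L₁.U, IndM.map L₁.U (ofJ L') Q, Nat.Coprime.mul_left hn hmp,
    fun g => ?_⟩
  set R : IndM L₁.U (JL L') :=
    (n * P.relIndex L₁.U) • IndM.map L₁.U (trJL h') (β g) - (g • Q - Q) with hR
  have e1 : IndM.map L₁.U (ofJ L') (IndM.map L₁.U (trJL h') (β g)) = b g := by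
    have e0 : (ofJ L').comp (trJL h') = ofJ L := AddMonoidHom.ext (fun y => ofJ_trJL h' y)
    rw [← IndM.map_comp, e0, hβ]
  have hR1 : IndM.map L₁.U (ofJ L') R =
      (n * P.relIndex L₁.U) • b g - (g • IndM.map L₁.U (ofJ L') Q - IndM.map L₁.U (ofJ L') Q) := by
    rw [hR, map_sub, map_sub, indM_map_nsmul, e1, IndM.map_smul' L₁.U (ofJ L') (ofJ_smul L')]
  have e2 : IndM.map L₁.U (jL D L') (IndM.map L₁.U (trJL h') (β g)) =
      IndM.map L₁.U (trCL D h') (f g) := by
    have e0 : (jL D L').comp (trJL h') = (trCL D h').comp (jL D L) :=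
      AddMonoidHom.ext (fun y => (trCL_jL hD h' y).symm)
    rw [← IndM.map_comp, e0, IndM.map_comp]
  have hR2 : IndM.map L₁.U (jL D L') R = 0 := by
    rw [hR, map_sub, map_sub, indM_map_nsmul, e2, IndM.map_smul' L₁.U (jL D L') (jL_smul D L'),
      hQ, ← IndM.map_smul' L₁.U (trCL D h') (trCL_smul D h'), ← indM_map_nsmul, ← map_sub,
      ← map_sub, mul_nsmul', hc₁ g, smul_sub, smul_comm g n c₁, sub_self, map_zero]
  have hR3 : ∀ x, ∃ a : SU S, iEJ S a = IndM.toF L₁.U (IndM.map L₁.U (ofJ L') R) x := by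
    intro x
    have h5 : jL D L' (IndM.toF L₁.U R x) = 0 := by
      have := congrArg (fun F => IndM.toF L₁.U F x) hR2
      simpa only [IndM.map_apply, toF_zero] using this
    obtain ⟨ε, hε, hx⟩ := (jL_eq_zero_iff hD L' _).1 h5
    exact ⟨ofE L' ε hε, by rw [IndM.map_apply, hx, ofJ_diagL L' ε hε]⟩
  obtain ⟨e, he⟩ := indM_exists_map_eq L₁.U (iEJ S) _ hR3
  exact ⟨e, he.trans hR1⟩

end Fermat.Agent.S55.Cap.H239

end
end
-- ===== PACK-END S55/Cap/C1H239/Main.lean

-- ===== PACK-BEGIN S55/Inv/GO4/LocM.lean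
section



/-!
# S55 / GO4 dictionary: the maps finite level → level-constant cochains (helper3)

* local: `coeM h q : (Q →₀ L_qˣ) →+ (Q →₀ ℚ̄_qˣ)`, `locM`, `locM₁`; equivariance, `locM ∘ d = d ∘ locM₁`,
  level-constancy, invariance under inflation;
* global: `coeE h : (Q →₀ E_S(L)) →+ (Q →₀ 𝔼)`, `infE`, `infE₁`; the same properties; cocycles;
* comparison: `indLocE ∘ infE ε ∘ rl² = locM (locF ∘ ε ∘ decHom²)`.
-/

set_option autoImplicit false
set_option linter.unusedSectionVars false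

noncomputable section

namespace Fermat.Agent.S55.Inv.GO4

open Fermat.Agent.S55 Fermat.Agent.S55.Tow Fermat.Agent.S55.E1.Lim groupCohomology
open Fermat.Agent.S55.PT

variable {S : Finset Nat.Primes} {K₀ L : Level S} (h : K₀ ≤ L) (q : Nat.Primes)

/-! ## 1. Local side -/

/-- the modules of the local side -/
abbrev BLoc (K₀ : Level S) (q : Nat.Primes) : Rep.{0} ℤ (Gl q) :=
  K.ind (rl q) K₀.U (Tow.unitsQpbar q)

/-- coefficient map `(Q →₀ L_qˣ) → (Q →₀ ℚ̄_qˣ)` -/
def coeM : (semiLoc h q).V →+ (BLoc K₀ q).V :=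
  (Finsupp.mapRange.addMonoidHom (L.locCoe q).toAddMonoidHom :
    (K₀.Gal →₀ (L.locUnits q).V) →+ ((Tow.GQ ⧸ K₀.U) →₀ (Tow.unitsQpbar q).V))

lemma coeM_single (x : K₀.Gal) (a : (L.locUnits q).V) :
    coeM h q (Finsupp.single x a : K₀.Gal →₀ (L.locUnits q).V) =
      (Finsupp.single x (L.locCoe q a) : (Tow.GQ ⧸ K₀.U) →₀ (Tow.unitsQpbar q).V) :=
  Finsupp.mapRange_single (hf := map_zero _)

lemma locM_apply (τ : L.Dec q × L.Dec q → (semiLoc h q).V) (x : Gl q × Gl q) :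
    locM h q τ x = coeM h q (τ ((QuotientGroup.mk x.1 : L.Dec q), (QuotientGroup.mk x.2 : L.Dec q))) :=
  rfl

lemma locM₁_apply (c : L.Dec q → (semiLoc h q).V) (x : Gl q) :
    locM₁ h q c x = coeM h q (c (QuotientGroup.mk x : L.Dec q)) := rfl

/-- `coeM` is equivariant along `G_q → Dec_q(L)`. -/
lemma coeM_ρ (σ : Gl q) (v : (semiLoc h q).V) :
    coeM h q ((semiLoc h q).ρ (QuotientGroup.mk σ : L.Dec q) v) =
      (BLoc K₀ q).ρ σ (coeM h q v) := by
  have key : (coeM h q).comp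
      ((semiLoc h q).ρ (QuotientGroup.mk σ : L.Dec q)).toAddMonoidHom =
      (((BLoc K₀ q).ρ σ).toAddMonoidHom).comp (coeM h q) := by
    refine Finsupp.addHom_ext fun x a => ?_
    show coeM h q ((semiLoc h q).ρ (QuotientGroup.mk σ : L.Dec q)
        (Finsupp.single x a : K₀.Gal →₀ (L.locUnits q).V)) =
      (BLoc K₀ q).ρ σ (coeM h q (Finsupp.single x a : K₀.Gal →₀ (L.locUnits q).V))
    rw [dInd_ρ_single, coeM_single, coeM_single]
    show _ = K.indρ (rl q) K₀.U (Tow.unitsQpbar q) σ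
      (Finsupp.single x (L.locCoe q a) : (Tow.GQ ⧸ K₀.U) →₀ (Tow.unitsQpbar q).V)
    rw [K.indρ_single]
    congr 1
  exact DFunLike.congr_fun key v

lemma locM_add (τ τ' : L.Dec q × L.Dec q → (semiLoc h q).V) :
    locM h q (τ + τ') = locM h q τ + locM h q τ' := by
  funext x
  show coeM h q (τ _ + τ' _) = _
  rw [map_add]
  rfl

lemma locM_sub (τ τ' : L.Dec q × L.Dec q → (semiLoc h q).V) :
    locM h q (τ - τ') = locM h q τ - locM h q τ' := by
  funext x
  show coeM h q (τ _ - τ' _) = _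
  rw [map_sub]
  rfl

lemma locM_nsmul (n : ℕ) (τ : L.Dec q × L.Dec q → (semiLoc h q).V) :
    locM h q (n • τ) = n • locM h q τ := by
  funext x
  show coeM h q (n • τ _) = _
  rw [map_nsmul]
  rfl

/-- `locM ∘ d = d ∘ locM₁`. -/
lemma locM_d (c : L.Dec q → (semiLoc h q).V) :
    locM h q ((d₁₂ (semiLoc h q)).hom c) = (d₁₂ (BLoc K₀ q)).hom (locM₁ h q c) := by
  funext x
  rw [locM_apply, d₁₂_hom_apply, d₁₂_hom_apply, map_add, map_sub, coeM_ρ]
  rfl

lemma levelV_mem (L : Level S) (q : Nat.Primes) : L.V q ∈ (localLevels q).levels :=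
  ⟨L.F, L.unram.1, rfl⟩

lemma levelU_mem (L : Level S) : L.U ∈ (globalLevels S).levels :=
  ⟨L.F, L.unram, rfl⟩

lemma mk_mul_of_mem_V (L : Level S) (q : Nat.Primes) (g s : Gl q) (hs : s ∈ L.V q) :
    (QuotientGroup.mk (g * s) : L.Dec q) = QuotientGroup.mk g := by
  rw [QuotientGroup.eq]
  simpa using (L.V q).inv_mem hs

lemma mk_mul_of_mem_U (L : Level S) (g s : Tow.GQ) (hs : s ∈ L.U) :
    (QuotientGroup.mk (g * s) : L.Gal) = QuotientGroup.mk g := by
  rw [QuotientGroup.eq]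
  simpa using (L.U).inv_mem hs

lemma locM₁_isLC (c : L.Dec q → (semiLoc h q).V) :
    locM₁ h q c ∈ (localLevels q).C1 (BLoc K₀ q) :=
  ⟨L.V q, levelV_mem L q, fun g s hs => by
    rw [locM₁_apply, locM₁_apply, mk_mul_of_mem_V L q g s hs]⟩

/-- `locM` maps coboundaries to level-constant coboundaries. -/
lemma locM_mem_B2 {τ : L.Dec q × L.Dec q → (semiLoc h q).V}
    (hτ : τ ∈ coboundaries₂ (semiLoc h q)) :
    locM h q τ ∈ (localLevels q).B2 (BLoc K₀ q) := by
  obtain ⟨c, rfl⟩ := hτ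
  exact ⟨locM₁ h q c, locM₁_isLC h q c, (locM_d h q c).symm⟩

/-- `locM` is invariant under inflation. -/
lemma locM_infl {L' : Level S} (h' : L ≤ L') (τ : L.Dec q × L.Dec q → (semiLoc h q).V) :
    locM (h.trans h') q (fun d : L'.Dec q × L'.Dec q =>
      (semiLocTr h q h').hom (τ (Level.projDec h' q d.1, Level.projDec h' q d.2))) =
    locM h q τ := by
  funext x
  rw [locM_apply, locM_apply]
  refine Finsupp.ext fun y => ?_
  rfl

/-! ## 2. Global side -/

/-- the module of the global side -/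
abbrev EGlob (K₀ : Level S) : Rep.{0} ℤ Tow.GQ := K.indG K₀.U (K.sUnits S)

/-- coefficient map `(Q →₀ E_S(L)) → (Q →₀ 𝔼)` -/
def coeE : (indF h (sUnits L)).V →+ (EGlob K₀).V :=
  (Finsupp.mapRange.addMonoidHom (inclE L) :
    (K₀.Gal →₀ (sUnits L).V) →+ ((Tow.GQ ⧸ K₀.U) →₀ (K.sUnits S).V))

lemma coeE_single (x : K₀.Gal) (e : (sUnits L).V) :
    coeE h (Finsupp.single x e : K₀.Gal →₀ (sUnits L).V) =
      (Finsupp.single x (inclE L e) : (Tow.GQ ⧸ K₀.U) →₀ (K.sUnits S).V) :=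
  Finsupp.mapRange_single (hf := map_zero _)

/-- inflation of a finite-level 2-cochain to `G_ℚ` -/
def infE (ε : L.Gal × L.Gal → (indF h (sUnits L)).V) : Tow.GQ × Tow.GQ → EGlob K₀ :=
  fun x => coeE h (ε ((QuotientGroup.mk x.1 : L.Gal), (QuotientGroup.mk x.2 : L.Gal)))

/-- inflation of a finite-level 1-cochain to `G_ℚ` -/
def infE₁ (γ : L.Gal → (indF h (sUnits L)).V) : Tow.GQ → EGlob K₀ :=
  fun x => coeE h (γ (QuotientGroup.mk x : L.Gal))

lemma infE_apply (ε : L.Gal × L.Gal → (indF h (sUnits L)).V) (x : Tow.GQ × Tow.GQ) :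
    infE h ε x = coeE h (ε ((QuotientGroup.mk x.1 : L.Gal), (QuotientGroup.mk x.2 : L.Gal))) := rfl

lemma infE₁_apply (γ : L.Gal → (indF h (sUnits L)).V) (x : Tow.GQ) :
    infE₁ h γ x = coeE h (γ (QuotientGroup.mk x : L.Gal)) := rfl

/-- `coeE` is equivariant along `G_ℚ → Gal(L/ℚ)`. -/
lemma coeE_ρ (σ : Tow.GQ) (v : (indF h (sUnits L)).V) :
    coeE h ((indF h (sUnits L)).ρ (QuotientGroup.mk σ : L.Gal) v) =
      (EGlob K₀).ρ σ (coeE h v) := by
  have key : (coeE h).comp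
      ((indF h (sUnits L)).ρ (QuotientGroup.mk σ : L.Gal)).toAddMonoidHom =
      (((EGlob K₀).ρ σ).toAddMonoidHom).comp (coeE h) := by
    refine Finsupp.addHom_ext fun x a => ?_
    show coeE h ((indF h (sUnits L)).ρ (QuotientGroup.mk σ : L.Gal)
        (Finsupp.single x a : K₀.Gal →₀ (sUnits L).V)) =
      (EGlob K₀).ρ σ (coeE h (Finsupp.single x a : K₀.Gal →₀ (sUnits L).V))
    rw [dInd_ρ_single, coeE_single, coeE_single]
    show _ = K.indρ (MonoidHom.id Tow.GQ) K₀.U (K.sUnits S) σ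
      (Finsupp.single x (inclE L a) : (Tow.GQ ⧸ K₀.U) →₀ (K.sUnits S).V)
    rw [K.indρ_single, inclE_ρ]
    congr 1
  exact DFunLike.congr_fun key v

lemma infE_nsmul (n : ℕ) (ε : L.Gal × L.Gal → (indF h (sUnits L)).V) :
    infE h (n • ε) = n • infE h ε := by
  funext x
  show coeE h (n • ε _) = _
  rw [map_nsmul]
  rfl

lemma infE_d (γ : L.Gal → (indF h (sUnits L)).V) :
    infE h ((d₁₂ (indF h (sUnits L))).hom γ) = (d₁₂ (EGlob K₀)).hom (infE₁ h γ) := by
  funext x
  rw [infE_apply, d₁₂_hom_apply, d₁₂_hom_apply, map_add, map_sub, coeE_ρ]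
  rfl

lemma infE₁_isLC (γ : L.Gal → (indF h (sUnits L)).V) :
    infE₁ h γ ∈ (globalLevels S).C1 (EGlob K₀) :=
  ⟨L.U, levelU_mem L, fun g s hs => by
    rw [infE₁_apply, infE₁_apply, mk_mul_of_mem_U L g s hs]⟩

lemma infE_isLC (ε : L.Gal × L.Gal → (indF h (sUnits L)).V) :
    infE h ε ∈ (globalLevels S).C2 (EGlob K₀) :=
  ⟨L.U, levelU_mem L, fun g g' s s' hs hs' => by
    rw [infE_apply, infE_apply]
    show coeE h (ε (QuotientGroup.mk (g * s), QuotientGroup.mk (g' * s'))) = _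
    rw [mk_mul_of_mem_U L g s hs, mk_mul_of_mem_U L g' s' hs']⟩

/-- `infE` maps cocycles to level-constant cocycles. -/
lemma infE_mem_Z2 {ε : L.Gal × L.Gal → (indF h (sUnits L)).V}
    (hε : ε ∈ cocycles₂ (indF h (sUnits L))) :
    infE h ε ∈ (globalLevels S).Z2 (EGlob K₀) := by
  refine ⟨?_, infE_isLC h ε⟩
  rw [mem_cocycles₂_iff] at hε
  show infE h ε ∈ cocycles₂ (EGlob K₀)
  rw [mem_cocycles₂_iff]
  intro g g' g''
  have := hε (QuotientGroup.mk g) (QuotientGroup.mk g') (QuotientGroup.mk g'')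
  rw [infE_apply, infE_apply, infE_apply, infE_apply, ← coeE_ρ, ← map_add, ← map_add]
  exact congrArg (coeE h) this

/-- `infE` maps coboundaries to level-constant coboundaries. -/
lemma infE_mem_B2 {ε : L.Gal × L.Gal → (indF h (sUnits L)).V}
    (hε : ε ∈ coboundaries₂ (indF h (sUnits L))) :
    infE h ε ∈ (globalLevels S).B2 (EGlob K₀) := by
  obtain ⟨γ, rfl⟩ := hε
  exact ⟨infE₁ h γ, infE₁_isLC h γ, (infE_d h γ).symm⟩

/-! ## 3. Comparison -/

/-- localisation of `infE ε` = `locM` of the finite-level localisation of `ε`. -/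
lemma indLocE_infE (ε : L.Gal × L.Gal → (indF h (sUnits L)).V) :
    (fun x : Gl q × Gl q => K.indLocE q S K₀.U (infE h ε (rl q x.1, rl q x.2))) =
      locM h q (fun d : L.Dec q × L.Dec q =>
        (locF h q).hom (ε (L.decHom q d.1, L.decHom q d.2))) := by
  funext x
  rw [locM_apply]
  refine Finsupp.ext fun y => ?_
  rfl

end Fermat.Agent.S55.Inv.GO4

end

end
-- ===== PACK-END S55/Inv/GO4/LocM.lean

-- ===== PACK-BEGIN S56/Euler/Big/Spec.lean
section





/-!
# Row S56 / wall BASE — BASE-BIG: FROZEN statements (sub-architect helper366)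

Target (frozen by helper716, `H716/GWSpec2.lean`): `H716.BaseBigStatement`.

    BASE-BIG  ⇐  E-BIG + H2F + BRIDGE-BASE          (glue: `Euler/Big/Glue.lean`, PROVED)
    E-BIG     ⇐  AVL (done, helper314) + ADD (done, helper419) + BASE-C

Vocabulary: S55 route C′ (`Fermat/Agent/S55/PT`): `L = globalLevels S` on `G_ℚ`, level-constant
cohomology `L.H1`, `L.H2`, `H0`; `tdual p N = N′`; `charHom χ N = Hom_G(N, μ_p) = H⁰(N′)`;
`Sha1`; `H419.phi L c N = h⁰ − h¹ + h² + dim N^{c=−1}`.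

* `EulerBigSpec p` (E-BIG, Tate's global Euler characteristic for one big set): for every level
  `U` of `S₀ ∋ p` there is a finite `S ⊇ S₀` such that `φ_S(N) = 0` for EVERY finite-dimensional
  `N` on which `U` acts trivially.
* `BaseCSpec p` (BASE-C, the cyclic case): the same for the modules `Ind_V N`, `V ⊇ U`, `V/U`
  cyclic of order prime to `p` (`V = C.comap (mk' U)`), `U` normal and trivial on `μ_p`.
* `H2FormulaSpec p S` (H2F): `h²(N) + h⁰(N′) = dim Ш¹(N′) + ∑_{v ∈ S} h⁰(G_v, N′)`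
  (tail of Poitou–Tate = S55 by-products `TheoremDSpec`, `TopGlobSpec`, `TopLocSpec`).
* `BridgeBaseSpec` (BRIDGE-BASE): the dictionary between the plain-function language of
  `H716.Base` and the PT vocabulary for `N = ad⁰ρ̄(1)` as an `F_p`-representation
  (`d = [k : F_p]`): INV0, ODD, B1–B4 of `coord/S56-TB.md`.

Nothing unproved in this file.  Plan: `coord/S56-EULER-helper366.md` (v2) on `origin/main`.
-/

set_option autoImplicit false

open Polynomial IsLocalRing

noncomputable section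

namespace Fermat.Agent.S56.Euler

open Fermat.Agent.S56 Fermat.Agent.S55.PT ExtCitation Module

/-! ## PT vocabulary -/

section PTSide

variable (p : ℕ) [Fact p.Prime]

/-- (E-BIG) **Tate's global Euler characteristic formula, for one big set of primes.**
For every level `U` of `S₀ ∋ p` there is a finite set `S ⊇ S₀` such that
`h⁰(N) − h¹_S(N) + h²_S(N) + dim N^{c=−1} = 0` for every finite-dimensional `F_p[G_ℚ]`-module `N`
on which `U` acts trivially (`c` = complex conjugation, `p` odd). -/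
def EulerBigSpec : Prop :=
  p ≠ 2 → ∀ S₀ : Finset Nat.Primes, pPrime p ∈ S₀ → ∀ U ∈ (globalLevels S₀).levels,
    ∃ S : Finset Nat.Primes, S₀ ⊆ S ∧
      ∀ N : Rep.{0, 0, 0} (ZMod p) _root_.Fermat.Agent.S56.GQ, FiniteDimensional (ZMod p) N → (∀ u ∈ U, N.ρ u = 1) →
        H419.phi (globalLevels S) complexConjugation N = 0

/-- (BASE-C) **The cyclic case of Tate's formula, for one big set of primes.**
`U` a normal level of `S₀ ∋ p` acting trivially on `μ_p`.  There is a finite set `S ⊇ S₀`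
such that for every cyclic subgroup `C` of `G_ℚ/U` of order prime to `p`, with preimage `V` in
`G_ℚ`, and every finite-dimensional `N` on which `U` acts trivially:
`φ_S(Ind_V N) = 0`, where `Ind_V N = (G_ℚ ⧸ V →₀ N)` with the diagonal action. -/
def BaseCSpec : Prop :=
  p ≠ 2 → ∀ S₀ : Finset Nat.Primes, pPrime p ∈ S₀ →
    ∀ (U : Subgroup _root_.Fermat.Agent.S56.GQ) [U.Normal], U ∈ (globalLevels S₀).levels →
      (∀ u ∈ U, cycloChar p u = 1) →
      ∃ S : Finset Nat.Primes, S₀ ⊆ S ∧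
        ∀ C : Subgroup (_root_.Fermat.Agent.S56.GQ ⧸ U), IsCyclic C → ¬ p ∣ Nat.card C →
          ∀ N : Rep.{0, 0, 0} (ZMod p) _root_.Fermat.Agent.S56.GQ, FiniteDimensional (ZMod p) N →
            (∀ u ∈ U, N.ρ u = 1) →
            H419.phi (globalLevels S) complexConjugation
              (indRep (C.comap (QuotientGroup.mk' U)) N) = 0

variable (S : Finset Nat.Primes)

/-- (H2F) **The `H²` formula** (tail of the Poitou–Tate sequence):
`h²_S(N) + h⁰(G_ℚ, N′) = dim Ш¹_S(N′) + ∑_{v ∈ S} h⁰(G_v, N′)`, with `H⁰(N′)` in the form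
`charHom χ N = Hom_G(N, μ_p)`. -/
def H2FormulaSpec : Prop :=
  p ≠ 2 → pPrime p ∈ S →
    ∀ N : Rep.{0, 0, 0} (ZMod p) _root_.Fermat.Agent.S56.GQ, FiniteDimensional (ZMod p) N →
      (globalLevels S).IsUSmooth N →
      FiniteDimensional (ZMod p) ((globalLevels S).H2 N) ∧
      finrank (ZMod p) ((globalLevels S).H2 N) + finrank (ZMod p) ↥(charHom (cycloChar p) N) =
        finrank (ZMod p) ↥(Sha1 (hrl S) (tdual p N)) +
          ∑ v : ↥S, finrank (ZMod p) ↥(charHom (cycloLoc p v.1) (Rep.res (rl v.1) N))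

end PTSide

/-! ## The bridge to the plain-function language of `H716.Base` -/

/-- (BRIDGE-BASE) for one residual representation.  `N` is `ad⁰ρ̄(1)` as an `F_p`-representation
of `G_ℚ`, `d = [k : F_p]`, `S₀` is `Smin` as a set of primes, `U` a level of `S₀` acting trivially
on `N`, `Pl v` the place of `ℚ̄` over `v` given by the Prelude's local Galois group at `v`.
For every finite `S' ⊇ S₀`:
* `h⁰(N) = 0 = h⁰(N′)` (INV0), `dim N^{c=−1} = d` (ODD);
* `h⁰(G_v, N′) = d · dim_k adInv ρ̄ D_{Pl v}` for `v ∈ S'` (B2, B3);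
* there is a dual frame `D`, unramified outside `S'`, with `h¹_{S'}(N) ≤ d · dim_k D`
  (`D` = plain representatives of all classes: B1, B4);
* there is a finite-dimensional `X` representing all strict Selmer cocycles of `(S', ∅)` with
  `d · dim_k X ≤ dim Ш¹_{S'}(N′)` (B1–B4). -/
def BridgeBase (𝒪 : Type) [CommRing 𝒪] [IsDomain 𝒪] [IsDiscreteValuationRing 𝒪]
    (p : ℕ) [Fact p.Prime] (ρbar : ResidualGaloisRep (ResidueField 𝒪)) (Smin : Finset ℕ) :
    Prop :=
  ∃ (S₀ : Finset Nat.Primes) (U : Subgroup _root_.Fermat.Agent.S56.GQ) (N : Rep.{0, 0, 0} (ZMod p) _root_.Fermat.Agent.S56.GQ)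
    (Pl : ℕ → ValuationSubring Qb) (d : ℕ),
    pPrime p ∈ S₀ ∧ (∀ q ∈ Smin, ∃ h : q.Prime, (⟨q, h⟩ : Nat.Primes) ∈ S₀) ∧
    U ∈ (globalLevels S₀).levels ∧ FiniteDimensional (ZMod p) N ∧ (∀ u ∈ U, N.ρ u = 1) ∧
    (∀ v : ℕ, v.Prime → (Pl v).LiesOverPrime v) ∧ 0 < d ∧
    finrank (ZMod p) ↥(LevelSys.H0 N) = 0 ∧
    finrank (ZMod p) ↥(charHom (cycloChar p) N) = 0 ∧
    finrank (ZMod p) ↥(H419.minusPart complexConjugation N) = d ∧
    ∀ S' : Finset Nat.Primes, S₀ ⊆ S' →
      (∀ v : ↥S', finrank (ZMod p) ↥(charHom (cycloLoc p v.1) (Rep.res (rl v.1) N)) =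
        d * finrank (ResidueField 𝒪)
          ↥(H716.adInv ρbar ((Pl (v.1 : ℕ)).decompositionSubgroup ℚ))) ∧
      (∃ D : Submodule (ResidueField 𝒪) (_root_.Fermat.Agent.S56.GQ → Module.End (ResidueField 𝒪) ρbar.V),
        IsDualFrame ρbar p D ∧
        (∀ y ∈ D, ∀ q : ℕ, q.Prime → q ∉ S'.image (fun v : Nat.Primes => (v : ℕ)) →
          H716.UnramAt ρbar y q) ∧
        finrank (ZMod p) ((globalLevels S').H1 N) ≤ d * finrank (ResidueField 𝒪) ↥D) ∧
      (∃ X : Submodule (ResidueField 𝒪) (_root_.Fermat.Agent.S56.GQ → Module.End (ResidueField 𝒪) ρbar.V),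
        Module.Finite (ResidueField 𝒪) X ∧
        (∀ c, H716.IsSelCocycle ρbar Pl (fun _ => ⊥)
            (S'.image (fun v : Nat.Primes => (v : ℕ))) ∅ c →
          ∃ t ∈ X, H716.IsAdCoboundary ρbar (c - t)) ∧
        d * finrank (ResidueField 𝒪) ↥X ≤ finrank (ZMod p) ↥(Sha1 (hrl S') (tdual p N)))

/-- (BRIDGE-BASE). -/
def BridgeBaseSpec : Prop :=
  ∀ (𝒪 : Type) [CommRing 𝒪] [IsDomain 𝒪] [IsDiscreteValuationRing 𝒪]
    [IsAdicComplete (maximalIdeal 𝒪) 𝒪] [Finite (ResidueField 𝒪)]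
    (p : ℕ) [Fact p.Prime] (ρbar : ResidualGaloisRep (ResidueField 𝒪)) (S Smin : Finset ℕ),
    Hyp 𝒪 p ρbar S Smin → BridgeBase 𝒪 p ρbar Smin

end Fermat.Agent.S56.Euler

end

end
-- ===== PACK-END S56/Euler/Big/Spec.lean

-- ===== PACK-BEGIN S56/H66/Unr.lean
section



/-!
# S56 / FLAT-O, leaf UNR (helper66)

`unrVal : Fermat.Agent.S56.H906.UnrValStatement` — the inertia field is unramified
(verbatim statement of `H906/FlatOSpec.lean`), from `vg0`.
-/

set_option autoImplicit false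

namespace Fermat.Agent.S56.H66

/-- **(UNR)** of `H906/FlatOSpec.lean`. -/
theorem unrVal : Fermat.Agent.S56.H906.UnrValStatement :=
  fun p hp P hP y hy hfix => vg0 p hp P hP y hy hfix

end Fermat.Agent.S56.H66

end
-- ===== PACK-END S56/H66/Unr.lean

-- ===== PACK-BEGIN S56/H734/KumLocal.lean
section







/-!
# S56 / FLAT-O, leaf KUM (helper734), part 2: the residue invariant of a unit Kummer class

`P | p` a valuation subring of `ℚ̄`, `I = I_P`, `ζ` a primitive `p`-th root of unity,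
`H = {σ ∈ I : σ ζ = ζ}`.  For `χ : G_ℚ → ZMod p` we say `KRel P ζ χ y` (`y` in the residue field
of `P`) if there are `a ∈ P` fixed by `I` and `r` with `r ^ p = 1 + p a`,
`σ r = ζ ^ χ(σ) r` for `σ ∈ H`, and `y = a mod 𝔪_P`.

* `KRel.zero`, `KRel.add`, `KRel.nsmul`, `KRel.sum`, `KRel.congr` : additivity;
* `KRel.unique` : `y` is determined by `χ|_H`                       (valuations in `ℚ̄^H`, `vg1`);
* `KRel.ker` : `KRel χ 0 → χ|_H = 0`, `p` odd                       (Krasner-type root lemma, `vg0`);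
* `KRel.frob` : `KRel χ y → KRel (ω(φ) χ(φ⁻¹ · φ)) (y ^ p)` for a Frobenius `φ`;
* `KRel.exists_of_unit` : existence for an `ω`-twisted cocycle on `I` of finite level with a unit
  Kummer generator on `H`                     (Hilbert 90 on `I`, `vg0`, `vg1`, Teichmüller).
-/

set_option autoImplicit false
set_option linter.style.haveILetI false

noncomputable section

namespace Fermat.Agent.S56.H734

open Fermat.Agent.S56 Fermat.Agent.S56.H786 IsLocalRing

/-! ## Residues of elements of `ℚ̄` -/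

section res

variable (P : ValuationSubring Qb)

/-- The residue class of `x ∈ P` (and `0` outside `P`). -/
def resQ (x : Qb) : ResidueField P :=
  haveI := Classical.propDecidable (x ∈ P)
  if h : x ∈ P then residue P ⟨x, h⟩ else 0

variable {P}

theorem resQ_of_mem {x : Qb} (h : x ∈ P) : resQ P x = residue P ⟨x, h⟩ := by
  unfold resQ
  exact dif_pos h

theorem resQ_add {x y : Qb} (hx : x ∈ P) (hy : y ∈ P) :
    resQ P (x + y) = resQ P x + resQ P y := by
  rw [resQ_of_mem hx, resQ_of_mem hy, resQ_of_mem (P.add_mem _ _ hx hy), ← map_add]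
  rfl

theorem resQ_mul {x y : Qb} (hx : x ∈ P) (hy : y ∈ P) :
    resQ P (x * y) = resQ P x * resQ P y := by
  rw [resQ_of_mem hx, resQ_of_mem hy, resQ_of_mem (P.mul_mem _ _ hx hy), ← map_mul]
  rfl

theorem resQ_one : resQ P 1 = 1 := by
  rw [resQ_of_mem P.one_mem]
  exact map_one (residue P)

theorem resQ_zero : resQ P 0 = 0 := by
  rw [resQ_of_mem P.zero_mem]
  exact map_zero (residue P)

theorem resQ_pow {x : Qb} (hx : x ∈ P) (n : ℕ) : resQ P (x ^ n) = resQ P x ^ n := by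
  induction n with
  | zero => rw [pow_zero, pow_zero, resQ_one]
  | succ n ih => rw [pow_succ, pow_succ, resQ_mul (pow_mem hx n) hx, ih]

theorem resQ_eq_zero_iff {x : Qb} (hx : x ∈ P) : resQ P x = 0 ↔ P.valuation x < 1 := by
  rw [resQ_of_mem hx, IsLocalRing.residue_eq_zero_iff, ValuationSubring.valuation_lt_one_iff]

theorem resQ_eq_iff {x y : Qb} (hx : x ∈ P) (hy : y ∈ P) :
    resQ P x = resQ P y ↔ P.valuation (x - y) < 1 := by
  rw [resQ_of_mem hx, resQ_of_mem hy, ← sub_eq_zero, ← map_sub,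
    IsLocalRing.residue_eq_zero_iff, ValuationSubring.valuation_lt_one_iff]
  rfl

theorem resQ_natCast_self {p : ℕ} (hP : P.LiesOverPrime p) : resQ P (p : Qb) = 0 := by
  have hp : (p : Qb) ∈ P := natCast_mem P p
  rw [resQ_eq_zero_iff hp]
  exact (P.mem_nonunits_iff).mp hP

theorem resQ_surjective (y : ResidueField P) : ∃ x ∈ P, resQ P x = y := by
  obtain ⟨x, rfl⟩ := residue_surjective y
  exact ⟨x, x.2, resQ_of_mem x.2⟩

end res

/-! ## The residue invariant -/

section kum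

variable {p : ℕ} (P : ValuationSubring Qb) (ζ : Qb)

/-- `r` is a Kummer generator of `χ` on `H = {σ ∈ I_P : σ ζ = ζ}`. -/
def IsKumGen (χ : GQ → ZMod p) (r : Qb) : Prop :=
  ∀ σ ∈ P.inertiaSubgroupIn ℚ, σ ζ = ζ → σ r = zp ζ (χ σ) * r

/-- The residue invariant: `1 + p a` (`a` an integer of the inertia field, `y = a mod 𝔪_P`)
has a `p`-th root which is a Kummer generator of `χ` on `H`. -/
def KRel (χ : GQ → ZMod p) (y : ResidueField P) : Prop :=
  ∃ a r : Qb, a ∈ P ∧ (∀ σ ∈ P.inertiaSubgroupIn ℚ, σ a = a) ∧ r ^ p = 1 + (p : Qb) * a ∧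
    IsKumGen P ζ χ r ∧ resQ P a = y

variable {P ζ}

theorem val_p_lt_one (hP : P.LiesOverPrime p) : P.valuation (p : Qb) < 1 :=
  (P.mem_nonunits_iff).mp hP

theorem val_le_one {a : Qb} (ha : a ∈ P) : P.valuation a ≤ 1 :=
  (P.valuation_le_one_iff a).mpr ha

theorem val_p_mul_lt_one (hP : P.LiesOverPrime p) {a : Qb} (ha : a ∈ P) :
    P.valuation ((p : Qb) * a) < 1 := by
  rw [map_mul]
  calc P.valuation (p : Qb) * P.valuation a ≤ P.valuation (p : Qb) * 1 :=
        mul_le_mul_right (val_le_one ha) _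
    _ < 1 := by rw [mul_one]; exact val_p_lt_one hP

theorem val_one_add (hP : P.LiesOverPrime p) {a : Qb} (ha : a ∈ P) :
    P.valuation (1 + (p : Qb) * a) = 1 :=
  Valuation.map_one_add_of_lt _ (val_p_mul_lt_one hP ha)

theorem val_eq_one_of_pow (hp0 : p ≠ 0) (hP : P.LiesOverPrime p) {a r : Qb} (ha : a ∈ P)
    (hr : r ^ p = 1 + (p : Qb) * a) : P.valuation r = 1 := by
  have h := val_one_add hP ha
  rw [← hr, map_pow] at h
  exact (pow_eq_one_iff_left hp0).mp h

theorem mem_of_val_eq_one {r : Qb} (h : P.valuation r = 1) : r ∈ P :=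
  (P.valuation_le_one_iff r).mp h.le

theorem ne_zero_of_val_eq_one {r : Qb} (h : P.valuation r = 1) : r ≠ 0 := by
  rintro rfl
  rw [map_zero] at h
  exact zero_ne_one h

theorem KRel.congr {χ χ' : GQ → ZMod p} {y : ResidueField P}
    (h : ∀ σ ∈ P.inertiaSubgroupIn ℚ, σ ζ = ζ → χ σ = χ' σ) (hk : KRel P ζ χ y) :
    KRel P ζ χ' y := by
  obtain ⟨a, r, ha, hfa, hr, hgen, hy⟩ := hk
  exact ⟨a, r, ha, hfa, hr, fun σ hσ hσζ => by rw [← h σ hσ hσζ]; exact hgen σ hσ hσζ, hy⟩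

theorem KRel.zero [NeZero p] : KRel P ζ (0 : GQ → ZMod p) 0 := by
  refine ⟨0, 1, P.zero_mem, fun σ _ => map_zero σ, by rw [one_pow, mul_zero, add_zero], ?_,
    resQ_zero⟩
  intro σ _ _
  rw [map_one, Pi.zero_apply, zp_zero, one_mul]

theorem KRel.add [NeZero p] (hζ1 : ζ ^ p = 1) (hP : P.LiesOverPrime p) {χ χ' : GQ → ZMod p}
    {y y' : ResidueField P} (h : KRel P ζ χ y) (h' : KRel P ζ χ' y') :
    KRel P ζ (χ + χ') (y + y') := by
  obtain ⟨a, r, ha, hfa, hr, hgen, hy⟩ := h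
  obtain ⟨a', r', ha', hfa', hr', hgen', hy'⟩ := h'
  have hpP : (p : Qb) ∈ P := natCast_mem P p
  refine ⟨a + a' + (p : Qb) * a * a', r * r',
    P.add_mem _ _ (P.add_mem _ _ ha ha') (P.mul_mem _ _ (P.mul_mem _ _ hpP ha) ha'), ?_, ?_, ?_, ?_⟩
  · intro σ hσ
    rw [map_add, map_add, map_mul, map_mul, map_natCast, hfa σ hσ, hfa' σ hσ]
  · rw [mul_pow, hr, hr']
    ring
  · intro σ hσ hσζ
    rw [map_mul, hgen σ hσ hσζ, hgen' σ hσ hσζ, Pi.add_apply, zp_add hζ1]
    ring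
  · rw [resQ_add (P.add_mem _ _ ha ha') (P.mul_mem _ _ (P.mul_mem _ _ hpP ha) ha'),
      resQ_add ha ha', resQ_mul (P.mul_mem _ _ hpP ha) ha', resQ_mul hpP ha,
      resQ_natCast_self hP, hy, hy', zero_mul, zero_mul, add_zero]

theorem KRel.nsmul [NeZero p] (hζ1 : ζ ^ p = 1) (hP : P.LiesOverPrime p) {χ : GQ → ZMod p}
    {y : ResidueField P} (h : KRel P ζ χ y) (n : ℕ) : KRel P ζ (n • χ) (n • y) := by
  induction n with
  | zero =>
    rw [zero_smul, zero_smul]
    exact KRel.zero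
  | succ n ih =>
    rw [succ_nsmul, succ_nsmul]
    exact KRel.add hζ1 hP ih h

theorem KRel.sum [NeZero p] (hζ1 : ζ ^ p = 1) (hP : P.LiesOverPrime p) {ι : Type*}
    (s : Finset ι) (χ : ι → GQ → ZMod p) (y : ι → ResidueField P)
    (h : ∀ i ∈ s, KRel P ζ (χ i) (y i)) : KRel P ζ (∑ i ∈ s, χ i) (∑ i ∈ s, y i) := by
  classical
  induction s using Finset.induction_on with
  | empty =>
    rw [Finset.sum_empty, Finset.sum_empty]
    exact KRel.zero
  | insert i s hi ih =>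
    rw [Finset.sum_insert hi, Finset.sum_insert hi]
    exact KRel.add hζ1 hP (h i (Finset.mem_insert_self i s))
      (ih fun j hj => h j (Finset.mem_insert_of_mem hj))

/-- Binomial expansion in `P`: `(1 + u) ^ p = 1 + u ^ p + p u R` with `R ∈ P`. -/
theorem exists_binom (hp : p.Prime) {u : Qb} (hu : u ∈ P) :
    ∃ R ∈ P, (u + 1) ^ p = u ^ p + 1 + (p : Qb) * u * R := by
  obtain ⟨R, hR⟩ := exists_add_pow_prime_eq hp (⟨u, hu⟩ : P) 1
  refine ⟨(R : Qb), R.2, ?_⟩
  have := congrArg (Subtype.val : P → Qb) hR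
  simpa using this

/-- `v(π) ^ p < v(p)`, `π = ζ - 1`. -/
theorem val_pi_pow_lt (hp : p.Prime) (hP : P.LiesOverPrime p) (hζ : IsPrimitiveRoot ζ p) :
    P.valuation (ζ - 1) ^ p < P.valuation (p : Qb) := by
  have hπ0 := Fermat.Agent.S14.H894.valuation_zeta_sub_one_ne_zero P p hp ζ hζ
  have hπ1 := Fermat.Agent.S14.H894.valuation_zeta_sub_one_lt_one P p hp hP ζ hζ
  rw [Fermat.Agent.S14.H894.valuation_natCast_eq_pow P p hp ζ hζ]
  conv_lhs => rw [← Nat.sub_add_cancel hp.one_le, pow_succ]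
  calc P.valuation (ζ - 1) ^ (p - 1) * P.valuation (ζ - 1)
      < P.valuation (ζ - 1) ^ (p - 1) * 1 :=
        mul_lt_mul_of_pos_left hπ1 (pow_pos (zero_lt_iff.mpr hπ0) _)
    _ = P.valuation (ζ - 1) ^ (p - 1) := mul_one _

/-- If `w` is fixed by `H`, `w ∈ P` and `v(w ^ p - 1) < 1`, then `v(w ^ p - 1) ≤ v(π) ^ p`. -/
theorem val_pow_sub_one_le (hp : p.Prime) (hP : P.LiesOverPrime p) (hζ : IsPrimitiveRoot ζ p)
    {w : Qb} (hwP : w ∈ P)
    (hwfix : ∀ σ ∈ P.inertiaSubgroupIn ℚ, σ ζ = ζ → σ w = w)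
    (hlt : P.valuation (w ^ p - 1) < 1) :
    P.valuation (w ^ p - 1) ≤ P.valuation (ζ - 1) ^ p := by
  have hπ0 := Fermat.Agent.S14.H894.valuation_zeta_sub_one_ne_zero P p hp ζ hζ
  have hπ1 := Fermat.Agent.S14.H894.valuation_zeta_sub_one_lt_one P p hp hP ζ hζ
  have hpπ := Fermat.Agent.S14.H894.valuation_natCast_eq_pow P p hp ζ hζ
  have huP : w - 1 ∈ P := sub_mem hwP P.one_mem
  obtain ⟨R, hRP, hR⟩ := exists_binom hp huP
  rw [sub_add_cancel] at hR
  have hpu : P.valuation ((p : Qb) * (w - 1) * R) ≤ P.valuation (p : Qb) := by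
    rw [map_mul, map_mul]
    calc P.valuation (p : Qb) * P.valuation (w - 1) * P.valuation R
        ≤ P.valuation (p : Qb) * 1 * 1 :=
          mul_le_mul' (mul_le_mul_right (val_le_one huP) _) (val_le_one hRP)
      _ = P.valuation (p : Qb) := by rw [mul_one, mul_one]
  -- `v(w - 1) < 1`
  have hu_lt : P.valuation (w - 1) < 1 := by
    by_contra hcon
    rw [not_lt] at hcon
    have h1 : (1 : P.ValueGroup) ≤ P.valuation (w - 1) ^ p := one_le_pow₀ hcon
    have h2 : (w - 1) ^ p = (w ^ p - 1) - (p : Qb) * (w - 1) * R := by rw [hR]; ring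
    have h3 : P.valuation ((w - 1) ^ p) < 1 := by
      rw [h2]
      exact lt_of_le_of_lt (Valuation.map_sub _ _ _)
        (max_lt hlt (lt_of_le_of_lt hpu (val_p_lt_one hP)))
    rw [map_pow] at h3
    exact absurd h3 (not_lt.mpr h1)
  have hufix : ∀ σ ∈ P.inertiaSubgroupIn ℚ, σ ζ = ζ → σ (w - 1) = w - 1 := by
    intro σ hσ hσζ
    rw [map_sub, map_one, hwfix σ hσ hσζ]
  have hule : P.valuation (w - 1) ≤ P.valuation (ζ - 1) :=
    Fermat.Agent.S56.H66.vg1_le P p hp hP ζ hζ (w - 1) ((P.mem_nonunits_iff).mpr hu_lt) hufix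
  have h4 : w ^ p - 1 = (w - 1) ^ p + (p : Qb) * (w - 1) * R := by rw [hR]; ring
  rw [h4]
  refine le_trans (Valuation.map_add _ _ _) (max_le ?_ ?_)
  · rw [map_pow]
    exact pow_le_pow_left₀ zero_le hule p
  · rw [map_mul, map_mul, hpπ]
    conv_rhs => rw [← Nat.sub_add_cancel hp.one_le, pow_succ]
    calc P.valuation (ζ - 1) ^ (p - 1) * P.valuation (w - 1) * P.valuation R
        ≤ P.valuation (ζ - 1) ^ (p - 1) * P.valuation (ζ - 1) * 1 :=
          mul_le_mul' (mul_le_mul_right hule _) (val_le_one hRP)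
      _ = P.valuation (ζ - 1) ^ (p - 1) * P.valuation (ζ - 1) := mul_one _

/-- **Uniqueness** of the residue invariant. -/
theorem KRel.unique (hp : p.Prime) (hP : P.LiesOverPrime p) (hζ : IsPrimitiveRoot ζ p)
    {χ : GQ → ZMod p} {y y' : ResidueField P} (h : KRel P ζ χ y) (h' : KRel P ζ χ y') :
    y = y' := by
  obtain ⟨a, r, ha, -, hr, hgen, hy⟩ := h
  obtain ⟨a', r', ha', -, hr', hgen', hy'⟩ := h'
  rw [← hy, ← hy', resQ_eq_iff ha ha']
  by_contra hcon
  rw [not_lt] at hcon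
  have hv1 : P.valuation (a - a') = 1 := le_antisymm (val_le_one (sub_mem ha ha')) hcon
  have hvr := val_eq_one_of_pow hp.ne_zero hP ha hr
  have hvr' := val_eq_one_of_pow hp.ne_zero hP ha' hr'
  have hr'0 := ne_zero_of_val_eq_one hvr'
  have hvw : P.valuation (r / r') = 1 := by rw [map_div₀, hvr, hvr', div_one]
  have hwP : r / r' ∈ P := mem_of_val_eq_one hvw
  have hζ0 : ζ ≠ 0 := hζ.ne_zero hp.ne_zero
  have hwfix : ∀ σ ∈ P.inertiaSubgroupIn ℚ, σ ζ = ζ → σ (r / r') = r / r' := by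
    intro σ hσ hσζ
    rw [map_div₀, hgen σ hσ hσζ, hgen' σ hσ hσζ, mul_div_mul_left _ _ (zp_ne_zero hζ0 _)]
  have h1 : (1 + (p : Qb) * a') ≠ 0 := by rw [← hr']; exact pow_ne_zero _ hr'0
  have hwp : (r / r') ^ p - 1 = (p : Qb) * (a - a') / (1 + (p : Qb) * a') := by
    rw [div_pow, hr, hr']
    field_simp
    ring
  have hvwp : P.valuation ((r / r') ^ p - 1) = P.valuation (p : Qb) := by
    rw [hwp, map_div₀, map_mul, hv1, mul_one, val_one_add hP ha', div_one]
  have hle := val_pow_sub_one_le hp hP hζ hwP hwfix (by rw [hvwp]; exact val_p_lt_one hP)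
  rw [hvwp] at hle
  exact absurd (val_pi_pow_lt hp hP hζ) (not_lt.mpr hle)

/-- **Kernel** of the residue invariant (a Krasner-type root lemma): if `1 + p a`, `a ∈ 𝔪_P`
fixed by inertia, has a `p`-th root which is a Kummer generator of `χ` on `H`, then `χ|_H = 0`. -/
theorem KRel.ker (hp : p.Prime) (hp2 : p ≠ 2) (hP : P.LiesOverPrime p)
    (hζ : IsPrimitiveRoot ζ p) {χ : GQ → ZMod p} (h : KRel P ζ χ 0) :
    ∀ σ ∈ P.inertiaSubgroupIn ℚ, σ ζ = ζ → χ σ = 0 := by
  haveI : NeZero p := ⟨hp.ne_zero⟩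
  haveI : Algebra.IsAlgebraic ℚ Qb := AlgebraicClosure.isAlgebraic ℚ
  obtain ⟨a, r, ha, hfa, hr, hgen, hy⟩ := h
  intro σ hσ hσζ
  by_contra hχ
  have hπ0 := Fermat.Agent.S14.H894.valuation_zeta_sub_one_ne_zero P p hp ζ hζ
  have hπ1 := Fermat.Agent.S14.H894.valuation_zeta_sub_one_lt_one P p hp hP ζ hζ
  have hpπ := Fermat.Agent.S14.H894.valuation_natCast_eq_pow P p hp ζ hζ
  have hvr := val_eq_one_of_pow hp.ne_zero hP ha hr
  have hva : P.valuation a ≤ P.valuation (p : Qb) :=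
    Fermat.Agent.S56.H66.vg0_le p hp P hP a
      ((P.mem_nonunits_iff).mpr ((resQ_eq_zero_iff ha).mp hy)) hfa
  have hζ'prim : IsPrimitiveRoot (zp ζ (χ σ)) p := by
    unfold zp
    refine hζ.pow_of_coprime _ ?_
    have hne : (χ σ).val ≠ 0 := fun h0 => hχ ((ZMod.val_eq_zero _).mp h0)
    exact (Nat.coprime_of_lt_prime hne (ZMod.val_lt _) hp).symm
  have hσD : σ ∈ P.decompositionSubgroup ℚ :=
    Fermat.Agent.A2.H708.mem_decomposition_of_mem_inertiaIn P hσ
  have hσr : σ r = zp ζ (χ σ) * r := hgen σ hσ hσζ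
  have hσζ' : σ (zp ζ (χ σ)) = zp ζ (χ σ) := by
    unfold zp
    rw [map_pow, hσζ]
  have hpow : ∀ i : ℕ, (σ ^ i) r = zp ζ (χ σ) ^ i * r := by
    intro i
    induction i with
    | zero => simp
    | succ i ih =>
      rw [pow_succ', AlgEquiv.mul_apply, ih, map_mul, map_pow, hσζ', hσr]
      ring
  have hval : ∀ μ ∈ Polynomial.nthRootsFinset p (1 : Qb),
      P.valuation (1 - μ * r) = P.valuation (1 - r) := by
    intro μ hμ
    have hμ1 : μ ^ p = 1 := (Polynomial.mem_nthRootsFinset hp.pos 1).mp hμ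
    obtain ⟨i, -, rfl⟩ := hζ'prim.eq_pow_of_pow_eq_one hμ1
    rw [← hpow i]
    have h1 : (1 : Qb) - (σ ^ i) r = (σ ^ i) (1 - r) := by rw [map_sub, map_one]
    rw [h1]
    exact Fermat.Agent.A2.H708.valuation_apply_of_mem_decomposition P (pow_mem hσD i) _
  have hprod : P.valuation (1 - r ^ p) = P.valuation (1 - r) ^ p := by
    have h1 := hζ'prim.pow_sub_pow_eq_prod_sub_mul (1 : Qb) r hp.pos
    rw [one_pow] at h1
    rw [h1, map_prod, Finset.prod_congr rfl hval, Finset.prod_const,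
      hζ'prim.card_nthRootsFinset]
  have h1 : P.valuation (1 - r ^ p) ≤ P.valuation (p : Qb) * P.valuation (p : Qb) := by
    have e : (1 : Qb) - (1 + (p : Qb) * a) = -((p : Qb) * a) := by ring
    rw [hr, e, Valuation.map_neg, map_mul]
    exact mul_le_mul_right hva _
  have h2 : P.valuation (ζ - 1) ≤ P.valuation (1 - r) := by
    have e1 : σ r - r = (zp ζ (χ σ) - 1) * r := by rw [hσr]; ring
    have e2 : σ r - r = (1 - r) - σ (1 - r) := by rw [map_sub, map_one]; ring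
    have v1 : P.valuation (σ r - r) = P.valuation (ζ - 1) := by
      rw [e1, map_mul, hvr, mul_one]
      exact Fermat.Agent.S14.H894.valuation_sub_one_eq_of_mem_primitiveRoots P p hp ζ hζ
        ((mem_primitiveRoots hp.pos).mpr hζ'prim)
    rw [← v1, e2]
    refine le_trans (Valuation.map_sub _ _ _) (max_le le_rfl ?_)
    rw [Fermat.Agent.A2.H708.valuation_apply_of_mem_decomposition P hσD]
  have h3 : P.valuation (ζ - 1) ^ p ≤
      P.valuation (ζ - 1) ^ (p - 1) * P.valuation (ζ - 1) ^ (p - 1) := by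
    calc P.valuation (ζ - 1) ^ p ≤ P.valuation (1 - r) ^ p := pow_le_pow_left₀ zero_le h2 p
      _ = P.valuation (1 - r ^ p) := hprod.symm
      _ ≤ _ := by rw [← hpπ]; exact h1
  have h4 : P.valuation (ζ - 1) ^ (p - 1) * P.valuation (ζ - 1) ^ (p - 1) <
      P.valuation (ζ - 1) ^ p := by
    have h3p : 3 ≤ p := by
      have := hp.two_le
      omega
    have e : (p - 1) + (p - 1) = p + (p - 2) := by omega
    rw [← pow_add, e, pow_add]
    calc P.valuation (ζ - 1) ^ p * P.valuation (ζ - 1) ^ (p - 2)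
        < P.valuation (ζ - 1) ^ p * 1 :=
          mul_lt_mul_of_pos_left (pow_lt_one₀ zero_le hπ1 (by omega))
            (pow_pos (zero_lt_iff.mpr hπ0) _)
      _ = P.valuation (ζ - 1) ^ p := mul_one _
  exact absurd h3 (not_le.mpr h4)

theorem kum_apply_inv (φ : GQ) (z : Qb) : φ (φ⁻¹ z) = z := by
  show (φ * φ⁻¹) z = z
  rw [mul_inv_cancel]
  rfl

theorem kum_inv_apply (φ : GQ) (z : Qb) : φ⁻¹ (φ z) = z := by
  show (φ⁻¹ * φ) z = z
  rw [inv_mul_cancel]
  rfl

/-- Conjugation by an element of the decomposition group preserves `H`. -/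
theorem conj_mem_H {φ σ : GQ} (hφ : φ ∈ P.decompositionSubgroup ℚ) {n : ℕ}
    (hn : IsCycExp p φ n) (hζ1 : ζ ^ p = 1) (hσ : σ ∈ P.inertiaSubgroupIn ℚ) (hσζ : σ ζ = ζ) :
    φ⁻¹ * σ * φ ∈ P.inertiaSubgroupIn ℚ ∧ (φ⁻¹ * σ * φ) ζ = ζ := by
  constructor
  · have h := Fermat.Agent.S56.H794.conj_mem_inertiaIn P (inv_mem hφ) hσ
    rwa [inv_inv] at h
  · show φ⁻¹ (σ (φ ζ)) = ζ
    rw [hn ζ hζ1, map_pow, hσζ, ← hn ζ hζ1, kum_inv_apply]

/-- **Frobenius twist** of the residue invariant. -/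
theorem KRel.frob (hζ1 : ζ ^ p = 1) [NeZero p] {φ : GQ}
    (hφ : P.IsFrobeniusAt φ p) {n : ℕ} (hn : IsCycExp p φ n) {χ : GQ → ZMod p}
    {y : ResidueField P} (h : KRel P ζ χ y) :
    KRel P ζ (fun σ => (n : ZMod p) * χ (φ⁻¹ * σ * φ)) (y ^ p) := by
  obtain ⟨a, r, ha, hfa, hr, hgen, hy⟩ := h
  have hφD : φ ∈ P.decompositionSubgroup ℚ := hφ.mem_decompositionSubgroup
  have happ : ∀ (σ : GQ) (x : Qb), σ (φ x) = φ ((φ⁻¹ * σ * φ) x) := by
    intro σ x
    show σ (φ x) = φ (φ⁻¹ (σ (φ x)))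
    rw [kum_apply_inv]
  have hφa : φ a ∈ P := Fermat.Agent.A2.H708.apply_mem_of_mem_decomposition P hφD ha
  refine ⟨φ a, φ r, hφa, ?_, ?_, ?_, ?_⟩
  · intro σ hσ
    have h1 : φ⁻¹ * σ * φ ∈ P.inertiaSubgroupIn ℚ := by
      have h := Fermat.Agent.S56.H794.conj_mem_inertiaIn P (inv_mem hφD) hσ
      rwa [inv_inv] at h
    rw [happ, hfa _ h1]
  · rw [← map_pow, hr, map_add, map_one, map_mul, map_natCast]
  · intro σ hσ hσζ
    obtain ⟨h1, h2⟩ := conj_mem_H hφD hn hζ1 hσ hσζ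
    rw [happ, hgen _ h1 h2, map_mul, apply_zp hζ1 hn]
  · rw [← hy, ← resQ_pow ha, resQ_eq_iff hφa (pow_mem ha p)]
    exact (P.mem_nonunits_iff).mp (Fermat.Agent.Lib.Cheb.H643.IsFrobeniusAt_sub_pow_mem hφ ha)

/-- **Existence** of the residue invariant for an `ω`-twisted cocycle on `I_P` of finite level
having a unit Kummer generator on `H`. -/
theorem KRel.exists_of_unit (hp : p.Prime) (hP : P.LiesOverPrime p) (hζ : IsPrimitiveRoot ζ p)
    {χ : GQ → ZMod p}
    (hcoc : ∀ σ ∈ P.inertiaSubgroupIn ℚ, ∀ τ ∈ P.inertiaSubgroupIn ℚ, ∀ a : ℕ,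
      IsCycExp p σ a → χ (σ * τ) = χ σ + (a : ZMod p) * χ τ)
    (hlev : ∃ L : IntermediateField ℚ Qb, FiniteDimensional ℚ L ∧
      ∀ σ ∈ P.inertiaSubgroupIn ℚ, ∀ τ ∈ P.inertiaSubgroupIn ℚ,
        (∀ x ∈ L, τ x = x) → χ (σ * τ) = χ σ)
    (hB : ∃ B : Qb, P.valuation B = 1 ∧ IsKumGen P ζ χ B) :
    ∃ y, KRel P ζ χ y := by
  haveI : NeZero p := ⟨hp.ne_zero⟩
  haveI : Algebra.IsAlgebraic ℚ Qb := AlgebraicClosure.isAlgebraic ℚ
  obtain ⟨B, hvB, hBgen⟩ := hB
  obtain ⟨β, hβ0, hβ⟩ := hilbert90 hζ (P.inertiaSubgroupIn ℚ) χ hcoc hlev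
  have hπ0 := Fermat.Agent.S14.H894.valuation_zeta_sub_one_ne_zero P p hp ζ hζ
  have hπ1 := Fermat.Agent.S14.H894.valuation_zeta_sub_one_lt_one P p hp hP ζ hζ
  have hpπ := Fermat.Agent.S14.H894.valuation_natCast_eq_pow P p hp ζ hζ
  have hζ0 : ζ ≠ 0 := hζ.ne_zero hp.ne_zero
  have hζ1 : ζ ^ p = 1 := hζ.pow_eq_one
  have hp0 : (p : Qb) ≠ 0 := by exact_mod_cast hp.ne_zero
  have hvp0 : P.valuation (p : Qb) ≠ 0 := (Valuation.ne_zero_iff _).mpr hp0
  -- Step 1: the valuation of `β` is an integral power of `v(p)`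
  have hB0 : B ≠ 0 := ne_zero_of_val_eq_one hvB
  have hwfix : ∀ σ ∈ P.inertiaSubgroupIn ℚ, σ ζ = ζ → σ (β / B) = β / B := by
    intro σ hσ hσζ
    rw [map_div₀, hβ σ hσ, hBgen σ hσ hσζ, mul_div_mul_left _ _ (zp_ne_zero hζ0 _)]
  obtain ⟨n, hn⟩ := Fermat.Agent.S56.H66.vg1 P p hp hP ζ hζ (β / B) (div_ne_zero hβ0 hB0) hwfix
  rw [map_div₀, hvB, div_one] at hn
  have hβpfix : ∀ σ ∈ P.inertiaSubgroupIn ℚ, σ (β ^ p) = β ^ p := by
    intro σ hσ
    rw [map_pow, hβ σ hσ, mul_pow, zp_pow_self hζ1, one_mul]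
  obtain ⟨m, hm⟩ := Fermat.Agent.S56.H66.vg0 p hp P hP (β ^ p) (pow_ne_zero _ hβ0) hβpfix
  have hnm : n * (p : ℤ) = ((p - 1 : ℕ) : ℤ) * m := by
    apply zpow_right_injective₀ (zero_lt_iff.mpr hπ0) hπ1.ne
    show P.valuation (ζ - 1) ^ (n * (p : ℤ)) = P.valuation (ζ - 1) ^ (((p - 1 : ℕ) : ℤ) * m)
    rw [zpow_mul, ← hn, zpow_natCast, ← map_pow, hm, hpπ, zpow_mul, zpow_natCast]
  have hpm : (p : ℤ) ∣ m := by
    have h1 : (p : ℤ) ∣ ((p - 1 : ℕ) : ℤ) * m := ⟨n, by rw [← hnm]; ring⟩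
    have hcop : IsCoprime (p : ℤ) ((p - 1 : ℕ) : ℤ) := by
      rw [Nat.isCoprime_iff_coprime]
      have h2 : (p - 1).Coprime p := by
        have := hp.two_le
        exact (Nat.coprime_of_lt_prime (by omega) (by omega) hp).symm
      exact h2.symm
    exact hcop.dvd_of_dvd_mul_left h1
  obtain ⟨m', rfl⟩ := hpm
  have hvβ : P.valuation β = P.valuation (p : Qb) ^ m' := by
    have h1 : P.valuation β ^ p = (P.valuation (p : Qb) ^ m') ^ p := by
      rw [← map_pow, hm, ← zpow_natCast (P.valuation (p : Qb) ^ m') p, ← zpow_mul, mul_comm]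
    exact (pow_left_inj₀ zero_le zero_le hp.ne_zero).mp h1
  -- Step 2: a unit generator on `I` with inertia-fixed `p`-th power
  obtain ⟨r₀, hr₀⟩ : ∃ r₀ : Qb, r₀ = β / (p : Qb) ^ m' := ⟨_, rfl⟩
  have hr₀v : P.valuation r₀ = 1 := by
    rw [hr₀, map_div₀, map_zpow₀, hvβ, div_self (zpow_ne_zero _ hvp0)]
  have hr₀gen : ∀ σ ∈ P.inertiaSubgroupIn ℚ, σ r₀ = zp ζ (χ σ) * r₀ := by
    intro σ hσ
    rw [hr₀, map_div₀, hβ σ hσ, map_zpow₀, map_natCast, mul_div_assoc]
  have hr₀P : r₀ ∈ P := mem_of_val_eq_one hr₀v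
  obtain ⟨u, hu⟩ : ∃ u : Qb, u = r₀ ^ p := ⟨_, rfl⟩
  have huP : u ∈ P := by rw [hu]; exact pow_mem hr₀P p
  have hufix : ∀ σ ∈ P.inertiaSubgroupIn ℚ, σ u = u := by
    intro σ hσ
    rw [hu, map_pow, hr₀gen σ hσ, mul_pow, zp_pow_self hζ1, one_mul]
  have huv : P.valuation u = 1 := by rw [hu, map_pow, hr₀v, one_pow]
  -- Step 3: Teichmüller
  obtain ⟨φ, hφ⟩ := Fermat.Agent.Lib.Cheb.H643.exists_isFrobeniusAt p hp P hP
  obtain ⟨N, hN0, hN⟩ := Fermat.Agent.A2.H708.exists_pow_apply_eq φ u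
  obtain ⟨N', rfl⟩ : ∃ N', N = N' + 1 := ⟨N - 1, by omega⟩
  have hq2 : 2 ≤ p ^ (N' + 1) := by
    calc 2 ≤ p := hp.two_le
      _ = p ^ 1 := (pow_one p).symm
      _ ≤ p ^ (N' + 1) := Nat.pow_le_pow_right hp.pos (by omega)
  obtain ⟨s, hs⟩ : ∃ s, p ^ (N' + 1) = s + 2 := ⟨p ^ (N' + 1) - 2, by omega⟩
  have hfrob := Fermat.Agent.S56.H606.frobenius_pow_sub_pow_mem_nonunits P hφ (N' + 1) huP
  rw [hN, hs] at hfrob
  have hres : resQ P u = resQ P u ^ (s + 2) := by
    rw [← resQ_pow huP, resQ_eq_iff huP (pow_mem huP _)]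
    exact (P.mem_nonunits_iff).mp hfrob
  have hres0 : resQ P u ≠ 0 := by
    rw [Ne, resQ_eq_zero_iff huP, huv]
    exact lt_irrefl _
  have hres1 : resQ P u ^ (s + 1) = 1 := by
    have h1 : resQ P u * resQ P u ^ (s + 1) = resQ P u * 1 := by
      rw [mul_one, ← pow_succ']
      exact hres.symm
    exact mul_left_cancel₀ hres0 h1
  -- the generator
  have hrP : r₀ * u ^ (p ^ N' * s) ∈ P := P.mul_mem _ _ hr₀P (pow_mem huP _)
  have hrpow : (r₀ * u ^ (p ^ N' * s)) ^ p = (u ^ (s + 1)) ^ (s + 1) := by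
    have h1 : p ^ N' * s * p = (s + 2) * s := by
      rw [← hs, pow_succ]
      ring
    rw [mul_pow, ← hu, ← pow_mul, ← pow_mul, h1, ← pow_succ']
    congr 1
    ring
  have hrnon : (r₀ * u ^ (p ^ N' * s)) ^ p - 1 ∈ P.nonunits := by
    rw [P.mem_nonunits_iff, ← resQ_eq_iff (pow_mem hrP p) P.one_mem, hrpow,
      resQ_pow (pow_mem huP _), resQ_pow huP, hres1, one_pow, resQ_one]
  have hrfix : ∀ σ ∈ P.inertiaSubgroupIn ℚ,
      σ ((r₀ * u ^ (p ^ N' * s)) ^ p - 1) = (r₀ * u ^ (p ^ N' * s)) ^ p - 1 := by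
    intro σ hσ
    rw [hrpow, map_sub, map_one, map_pow, map_pow, hufix σ hσ]
  obtain ⟨a, haP, ha⟩ := Fermat.Agent.S56.H66.vg0_mem P p hp hP _ hrnon hrfix
  refine ⟨resQ P a, a, r₀ * u ^ (p ^ N' * s), haP, ?_, ?_, ?_, rfl⟩
  · intro σ hσ
    have h1 := hrfix σ hσ
    rw [ha, map_mul, map_natCast] at h1
    exact mul_left_cancel₀ hp0 h1
  · rw [← ha]
    ring
  · intro σ hσ _
    rw [map_mul, hr₀gen σ hσ, map_pow, hufix σ hσ, mul_assoc]

end kum

end Fermat.Agent.S56.H734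

end

end
-- ===== PACK-END S56/H734/KumLocal.lean

-- ===== PACK-BEGIN S56/H716/GWSpec3.lean
section


/-!
# Row S56 — the wall GW-WALL, layer 3c: the route through a bigger set `S'` (deputy helper716)

`GW-WALL  ⇐  BASE-BIG + REC-Q-BIG + UR-COUNT + TW-INV`      (glue: `H716/GWGlue3.lean`)

This route needs NO comparison step (COMP) and NO tame duality at general unramified primes:
the Euler characteristic may be proved for a set `S' ⊇ Smin` chosen by the prover, and reciprocity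
is used only over the Taylor–Wiles primes.

* `UrCountStatement` (UR-COUNT): `v ∉ Smin` prime (so `ρ̄` is unramified at `v`), `P ∣ v`: the
  classes on `D_P` of ad⁰-cocycles vanishing on inertia at `v` span a space of dimension
  `≤ h⁰(D_P, M)`  (`H¹_ur = M/(φ − 1)M`).
* `TWInvStatement` (TW-INV): `h⁰(D_P, M) ≥ 1` at a Taylor–Wiles prime (`ρ̄(φ) − tr/2`).
* `RecQBigStatement` (REC-Q-BIG): like `RecQStatement`, for every finite set of primes
  `S' ⊇ Smin`; the Taylor–Wiles set `Q` may meet `S' ∖ Smin`.  Strict Selmer cocycles of `Q`: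
  coboundaries on `D_{Pl v}` for `v ∈ S' ∖ Q`, unramified outside `S' ∪ Q`.  Bound:
  `dim U + dim D ≤ #Q + #(Q ∩ S')`
  (`X_q = H¹/H¹_ur` is a line for `q ∈ Q ∖ S'`, `X_q = H¹(D_q, M)` a plane for `q ∈ Q ∩ S'`).
  For `S' = Smin` this is `RecQStatement`.

Nothing unproved in this file.
-/

set_option autoImplicit false

open Polynomial IsLocalRing

noncomputable section

namespace Fermat.Agent.S56.H716

open Fermat.Agent.S56

section

variable (𝒪 : Type) [CommRing 𝒪] [IsDomain 𝒪] [IsDiscreteValuationRing 𝒪]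
  (p : ℕ) (ρbar : ResidualGaloisRep (ResidueField 𝒪)) (S Smin : Finset ℕ)

/-- (REC-Q-BIG) for one residual representation. -/
def RecQBig : Prop :=
  ∀ S' : Finset ℕ, Smin ⊆ S' → (∀ q ∈ S', q.Prime) →
    ∀ Pl : ℕ → ValuationSubring Qb, (∀ v ∈ S', (Pl v).LiesOverPrime v) →
    ∀ D : Submodule (ResidueField 𝒪) (GQ → Module.End (ResidueField 𝒪) ρbar.V),
      IsDualFrame ρbar p D →
      (∀ y ∈ D, ∀ q : ℕ, q.Prime → q ∉ S' → UnramAt ρbar y q) →
      ∀ Q : Finset ℕ, (∀ q ∈ Q, IsTWPrime ρbar p S q) → Kills ρbar p D Q →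
        ∃ U : Submodule (ResidueField 𝒪) (GQ → Module.End (ResidueField 𝒪) ρbar.V),
          Module.Finite (ResidueField 𝒪) U ∧
          Module.finrank (ResidueField 𝒪) U + Module.finrank (ResidueField 𝒪) D
            ≤ Q.card + (Q ∩ S').card ∧
          ∀ c, IsSelCocycle ρbar Pl (fun _ => ⊥) (S' \ Q) Q c →
            ∃ u ∈ U, ∃ c', IsSelCocycle ρbar Pl (fun _ => ⊥) S' ∅ c' ∧
              IsAdCoboundary ρbar (c - u - c')

end

/-- (REC-Q-BIG): reciprocity over the Taylor–Wiles primes, relative to a big set `S'`. -/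
def RecQBigStatement : Prop :=
  ∀ (𝒪 : Type) [CommRing 𝒪] [IsDomain 𝒪] [IsDiscreteValuationRing 𝒪]
    [IsAdicComplete (maximalIdeal 𝒪) 𝒪] [Finite (ResidueField 𝒪)]
    (p : ℕ) (ρbar : ResidualGaloisRep (ResidueField 𝒪)) (S Smin : Finset ℕ),
    Hyp 𝒪 p ρbar S Smin → RecQBig 𝒪 p ρbar S Smin

/-- (UR-COUNT): `dim H¹_ur(D_P, ad⁰ρ̄) ≤ h⁰(D_P, ad⁰ρ̄)` at the primes outside `Smin`. -/
def UrCountStatement : Prop :=
  ∀ (𝒪 : Type) [CommRing 𝒪] [IsDomain 𝒪] [IsDiscreteValuationRing 𝒪]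
    [IsAdicComplete (maximalIdeal 𝒪) 𝒪] [Finite (ResidueField 𝒪)]
    (p : ℕ) (ρbar : ResidualGaloisRep (ResidueField 𝒪)) (S Smin : Finset ℕ),
    Hyp 𝒪 p ρbar S Smin → ∀ v : ℕ, v.Prime → v ∉ Smin →
      ∀ P : ValuationSubring Qb, P.LiesOverPrime v →
        ∃ Λ : Submodule (ResidueField 𝒪) (GQ → Module.End (ResidueField 𝒪) ρbar.V),
          Module.Finite (ResidueField 𝒪) Λ ∧
          Module.finrank (ResidueField 𝒪) Λ ≤
            Module.finrank (ResidueField 𝒪) (adInv ρbar (P.decompositionSubgroup ℚ)) ∧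
          ∀ c, IsAdCocycle ρbar c → UnramAt ρbar c v →
            ∃ t ∈ Λ, IsAdCoboundaryOn ρbar (P.decompositionSubgroup ℚ) (c - t)

/-- (TW-INV): `h⁰(D_P, ad⁰ρ̄) ≥ 1` at a Taylor–Wiles prime. -/
def TWInvStatement : Prop :=
  ∀ (𝒪 : Type) [CommRing 𝒪] [IsDomain 𝒪] [IsDiscreteValuationRing 𝒪]
    [IsAdicComplete (maximalIdeal 𝒪) 𝒪] [Finite (ResidueField 𝒪)]
    (p : ℕ) (ρbar : ResidualGaloisRep (ResidueField 𝒪)) (S Smin : Finset ℕ),
    Hyp 𝒪 p ρbar S Smin → ∀ q : ℕ, IsTWPrime ρbar p S q →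
      ∀ P : ValuationSubring Qb, P.LiesOverPrime q →
        1 ≤ Module.finrank (ResidueField 𝒪) (adInv ρbar (P.decompositionSubgroup ℚ))

end Fermat.Agent.S56.H716

end

end
-- ===== PACK-END S56/H716/GWSpec3.lean

-- ===== PACK-BEGIN S59/H247/TFMain.lean
section



/-!
# S59 / G3-TF, part 6: representations over the dual numbers unramified outside `S`

For a finite field `k`, a finite level `L₀` and a finite set `S` of primes there is a finite
level `M` such that every `ρ : G_ℚ → GL₂(k[ε])` which is unramified outside `S` and whose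
reduction is trivial on `G_{L₀}` is trivial on `G_M`.
-/

set_option autoImplicit false
set_option linter.style.haveILetI false
set_option linter.unusedSectionVars false

namespace Fermat.Agent.S59.H247

open Fermat.Agent.S54 Fermat.Agent.S55.Bridge
open scoped TensorProduct

attribute [local instance] isAlgebraic_Qbar

/-- over a field, linear functionals separate points (instance-explicit form) -/
theorem eq_zero_of_forall_functional {p : ℕ} [Fact p.Prime] {E : Type} [AddCommGroup E]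
    [Module (ZMod p) E] (x : E) (h : ∀ φ : E →ₗ[ZMod p] ZMod p, φ x = 0) : x = 0 :=
  (Module.forall_dual_apply_eq_zero_iff (ZMod p) x).1 h

/-- `exists_bound_field` for maps to a `ZMod p`-module -/
theorem eq_zero_of_bound_field {p : ℕ} [Fact p.Prime] {E : Type} [AddCommGroup E]
    [Module (ZMod p) E] {G : Type} (P : (G → ZMod p) → Prop) (f : G → E)
    (hM : ∀ χ : G → ZMod p, P χ → ∀ σ : G, χ σ = 0)
    (hf : ∀ φ : E →ₗ[ZMod p] ZMod p, P (fun τ => φ (f τ))) (σ : G) : f σ = 0 :=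
  eq_zero_of_forall_functional _ fun φ => hM _ (hf φ) σ

/-- `exists_bound_field` for maps to an arbitrary abelian group killed by `p`. -/
theorem exists_bound_field_group (F : IntermediateField ℚ (AlgebraicClosure ℚ))
    [FiniteDimensional ℚ F] {p : ℕ} (hp : p.Prime) {ζ : AlgebraicClosure ℚ}
    (hζ : IsPrimitiveRoot ζ p) (hζF : ζ ∈ F) (S : Finset ℕ) :
    ∃ M : IntermediateField ℚ (AlgebraicClosure ℚ), FiniteDimensional ℚ M ∧ F ≤ M ∧
      ∀ (E : Type) [AddCommGroup E], (∀ x : E, p • x = 0) →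
      ∀ f : (AlgebraicClosure ℚ ≃ₐ[ℚ] AlgebraicClosure ℚ) → E,
        (∀ σ τ, σ ∈ F.fixingSubgroup → τ ∈ F.fixingSubgroup → f (σ * τ) = f σ + f τ) →
        (∃ N : IntermediateField ℚ (AlgebraicClosure ℚ), FiniteDimensional ℚ N ∧
          ∀ σ ∈ F.fixingSubgroup, (∀ x ∈ N, σ x = x) → f σ = 0) →
        (∀ q : ℕ, q.Prime → q ∉ S → ∀ A : ValuationSubring (AlgebraicClosure ℚ),
          A.LiesOverPrime q → ∀ σ ∈ A.inertiaSubgroupIn ℚ, σ ∈ F.fixingSubgroup → f σ = 0) →
        ∀ σ ∈ M.fixingSubgroup, f σ = 0 := by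
  obtain ⟨M, hfd, hFM, hM⟩ := exists_bound_field F hp hζ hζF S
  refine ⟨M, hfd, hFM, ?_⟩
  intro E _ hE f hadd hcont hunr σ hσ
  haveI : Fact p.Prime := ⟨hp⟩
  refine @eq_zero_of_bound_field p _ E _ (AddCommGroup.zmodModule hE)
    {σ : AlgebraicClosure ℚ ≃ₐ[ℚ] AlgebraicClosure ℚ // σ ∈ M.fixingSubgroup}
    (fun χ => ∃ χ' : (AlgebraicClosure ℚ ≃ₐ[ℚ] AlgebraicClosure ℚ) → ZMod p,
      (∀ σ, χ σ = χ' σ.1) ∧
      (∀ σ τ, σ ∈ F.fixingSubgroup → τ ∈ F.fixingSubgroup → χ' (σ * τ) = χ' σ + χ' τ) ∧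
      (∃ N : IntermediateField ℚ (AlgebraicClosure ℚ), FiniteDimensional ℚ N ∧
          ∀ σ ∈ F.fixingSubgroup, (∀ x ∈ N, σ x = x) → χ' σ = 0) ∧
      (∀ q : ℕ, q.Prime → q ∉ S → ∀ A : ValuationSubring (AlgebraicClosure ℚ),
          A.LiesOverPrime q → ∀ σ ∈ A.inertiaSubgroupIn ℚ, σ ∈ F.fixingSubgroup → χ' σ = 0))
    (fun σ => f σ.1) ?_ ?_ ⟨σ, hσ⟩
  · rintro χ ⟨χ', h0, h1, h2, h3⟩ σ
    rw [h0]
    exact hM χ' h1 h2 h3 σ.1 σ.2
  · intro φ
    refine ⟨fun τ => φ (f τ), fun _ => rfl, ?_, ?_, ?_⟩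
    · intro σ τ hσ hτ
      show φ (f (σ * τ)) = φ (f σ) + φ (f τ)
      rw [hadd σ τ hσ hτ, map_add]
    · obtain ⟨N, hN, h⟩ := hcont
      refine ⟨N, hN, fun σ hσ hσN => ?_⟩
      show φ (f σ) = 0
      rw [h σ hσ hσN, map_zero]
    · intro q hq hqS A hA σ hσI hσF
      show φ (f σ) = 0
      rw [hunr q hq hqS A hA σ hσI hσF, map_zero]

section DualNumber

variable {k : Type} [Field k]

theorem dualNumber_mul_eq_zero {a b : DualNumber k}
    (ha : a ∈ IsLocalRing.maximalIdeal (DualNumber k))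
    (hb : b ∈ IsLocalRing.maximalIdeal (DualNumber k)) : a * b = 0 := by
  rw [DualNumber.maximalIdeal_eq_span_singleton_eps, Ideal.mem_span_singleton'] at ha hb
  obtain ⟨a', rfl⟩ := ha
  obtain ⟨b', rfl⟩ := hb
  have : (DualNumber.eps : DualNumber k) * DualNumber.eps = 0 := DualNumber.eps_mul_eps
  calc a' * DualNumber.eps * (b' * DualNumber.eps)
      = a' * b' * (DualNumber.eps * DualNumber.eps) := by ring
    _ = 0 := by rw [this, mul_zero]

theorem dualNumber_natCast_eq_zero (p : ℕ) [CharP k p] : (p : DualNumber k) = 0 := by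
  have h : ((p : k) : k) = 0 := CharP.cast_eq_zero k p
  have : (p : DualNumber k) = algebraMap k (DualNumber k) (p : k) := by
    rw [map_natCast]
  rw [this, h, map_zero]

variable (ρ : GaloisRepAdic (DualNumber k))

/-- the square of the maximal ideal kills `V` -/
theorem smul_smul_top_eq_zero {a : DualNumber k}
    (ha : a ∈ IsLocalRing.maximalIdeal (DualNumber k)) {w : ρ.V}
    (hw : w ∈ IsLocalRing.maximalIdeal (DualNumber k) • (⊤ : Submodule (DualNumber k) ρ.V)) :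
    a • w = 0 := by
  refine Submodule.smul_induction_on hw ?_ ?_
  · intro b hb x _
    rw [smul_smul, dualNumber_mul_eq_zero ha hb, zero_smul]
  · intro x y hx hy
    rw [smul_add, hx, hy, add_zero]

/-- an endomorphism kills `𝔪 V` if it maps `V` into `𝔪 V` -/
theorem end_apply_eq_zero {T : Module.End (DualNumber k) ρ.V}
    (hT : ∀ v, T v ∈ IsLocalRing.maximalIdeal (DualNumber k) • (⊤ : Submodule (DualNumber k) ρ.V))
    {w : ρ.V}
    (hw : w ∈ IsLocalRing.maximalIdeal (DualNumber k) • (⊤ : Submodule (DualNumber k) ρ.V)) :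
    T w = 0 := by
  refine Submodule.smul_induction_on hw ?_ ?_
  · intro b hb x _
    rw [map_smul]
    exact smul_smul_top_eq_zero ρ hb (hT x)
  · intro x y hx hy
    rw [map_add, hx, hy, add_zero]

/-- if the residual representation is trivial at `σ`, then `ρ σ - 1` maps `V` into `𝔪 V` -/
theorem sub_mem_of_residual_eq_one {σ : AlgebraicClosure ℚ ≃ₐ[ℚ] AlgebraicClosure ℚ}
    (h : ρ.residual.ρ σ = 1) (v : ρ.V) :
    ρ.ρ σ v - v ∈ IsLocalRing.maximalIdeal (DualNumber k) • (⊤ : Submodule (DualNumber k) ρ.V) := by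
  have h1 : (ρ.ρ σ).baseChange (IsLocalRing.ResidueField (DualNumber k))
      ((1 : IsLocalRing.ResidueField (DualNumber k)) ⊗ₜ[DualNumber k] v)
      = (1 : IsLocalRing.ResidueField (DualNumber k)) ⊗ₜ[DualNumber k] v := by
    have := congrArg (fun T => T ((1 : IsLocalRing.ResidueField (DualNumber k)) ⊗ₜ[DualNumber k] v)) h
    exact this
  rw [LinearMap.baseChange_tmul] at h1
  have h2 : (1 : IsLocalRing.ResidueField (DualNumber k)) ⊗ₜ[DualNumber k] (ρ.ρ σ v - v) = 0 := by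
    rw [TensorProduct.tmul_sub, h1, sub_self]
  have h3 := LinearMap.ker_tensorProductMk (R := DualNumber k) (Q := ρ.V)
    (I := IsLocalRing.maximalIdeal (DualNumber k))
  rw [← h3]
  exact h2

theorem maximalIdeal_sq_smul_top_eq_bot :
    (IsLocalRing.maximalIdeal (DualNumber k) ^ 2) • (⊤ : Submodule (DualNumber k) ρ.V) = ⊥ := by
  have h : IsLocalRing.maximalIdeal (DualNumber k) ^ 2 = ⊥ := by
    rw [eq_bot_iff, pow_two, Ideal.mul_le]
    intro a ha b hb
    rw [Ideal.mem_bot]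
    exact dualNumber_mul_eq_zero ha hb
  rw [h, Submodule.bot_smul]

end DualNumber

section Main

variable (k : Type) [Field k] [Finite k]

/-- **Uniform level for representations over the dual numbers unramified outside `S`.** -/
theorem exists_level_dualNumber (L₀ : IntermediateField ℚ (AlgebraicClosure ℚ))
    [FiniteDimensional ℚ L₀] (S : Finset ℕ) :
    ∃ M : IntermediateField ℚ (AlgebraicClosure ℚ), FiniteDimensional ℚ M ∧
      ∀ ρ : GaloisRepAdic (DualNumber k),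
        (∀ q : ℕ, q.Prime → q ∉ S → ρ.IsUnramifiedAt q) →
        (∀ σ : AlgebraicClosure ℚ ≃ₐ[ℚ] AlgebraicClosure ℚ, (∀ x ∈ L₀, σ x = x) →
          ρ.residual.ρ σ = 1) →
        ∀ σ : AlgebraicClosure ℚ ≃ₐ[ℚ] AlgebraicClosure ℚ, (∀ x ∈ M, σ x = x) → ρ.ρ σ = 1 := by
  classical
  set p := ringChar k with hpdef
  haveI : CharP k p := ringChar.charP k
  have hp : p.Prime := CharP.char_is_prime k p
  haveI : NeZero p := ⟨hp.ne_zero⟩
  obtain ⟨ζ, hζ⟩ := HasEnoughRootsOfUnity.exists_primitiveRoot (AlgebraicClosure ℚ) p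
  have hζint : IsIntegral ℚ ζ := (Algebra.IsAlgebraic.isAlgebraic (R := ℚ) ζ).isIntegral
  haveI : FiniteDimensional ℚ ↥(IntermediateField.adjoin ℚ {ζ}) :=
    IntermediateField.adjoin.finiteDimensional hζint
  set F : IntermediateField ℚ (AlgebraicClosure ℚ) := L₀ ⊔ IntermediateField.adjoin ℚ {ζ}
    with hF
  haveI : FiniteDimensional ℚ F := IntermediateField.finiteDimensional_sup _ _
  have hζF : ζ ∈ F :=
    (le_sup_right : IntermediateField.adjoin ℚ {ζ} ≤ F)
      (IntermediateField.mem_adjoin_simple_self ℚ ζ)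
  have hL₀F : L₀ ≤ F := le_sup_left
  obtain ⟨M, hfd, hFM, hM⟩ := exists_bound_field_group F hp hζ hζF S
  refine ⟨M, hfd, fun ρ hunr hres σ₀ hσ₀ => ?_⟩
  have hE : ∀ T : Module.End (DualNumber k) ρ.V, p • T = 0 := by
    intro T
    rw [← Nat.cast_smul_eq_nsmul (DualNumber k), dualNumber_natCast_eq_zero, zero_smul]
  have hmem : ∀ σ ∈ F.fixingSubgroup, ∀ v : ρ.V, ρ.ρ σ v - v ∈
      IsLocalRing.maximalIdeal (DualNumber k) • (⊤ : Submodule (DualNumber k) ρ.V) := by
    intro σ hσ v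
    apply sub_mem_of_residual_eq_one
    apply hres
    intro x hx
    exact (IntermediateField.mem_fixingSubgroup_iff F σ).1 hσ x (hL₀F hx)
  have key := hM (Module.End (DualNumber k) ρ.V) hE (fun σ => ρ.ρ σ - 1) ?_ ?_ ?_ σ₀
    ((IntermediateField.mem_fixingSubgroup_iff M σ₀).2 hσ₀)
  · exact sub_eq_zero.1 key
  · intro σ τ hσ hτ
    apply LinearMap.ext
    intro v
    have h1 : (ρ.ρ σ - 1) (ρ.ρ τ v - v) = 0 :=
      end_apply_eq_zero ρ (T := ρ.ρ σ - 1) (fun w => hmem σ hσ w) (hmem τ hτ v)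
    simp only [map_mul, LinearMap.sub_apply, Module.End.mul_apply, Module.End.one_apply,
      LinearMap.add_apply, map_sub] at h1 ⊢
    have h2 : ρ.ρ σ (ρ.ρ τ v) = ρ.ρ σ v + (ρ.ρ τ v - v) := by
      have := sub_eq_zero.1 h1
      rw [sub_eq_iff_eq_add] at this
      rw [this]
      abel
    rw [h2]
    abel
  · obtain ⟨N, hN, h⟩ := ρ.isAdicContinuous 2
    refine ⟨N, hN, fun σ _ hσN => ?_⟩
    apply LinearMap.ext
    intro v
    have h1 := h σ hσN v
    rw [maximalIdeal_sq_smul_top_eq_bot, Submodule.mem_bot] at h1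
    simpa using h1
  · intro q hq hqS A hA σ hσI _
    show ρ.ρ σ - 1 = 0
    rw [hunr q hq hqS A hA σ hσI, sub_self]

end Main

end Fermat.Agent.S59.H247

end
-- ===== PACK-END S59/H247/TFMain.lean

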