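import Fermat.Agent.Pack.S43GC.G0E17L3
import Fermat.Agent.Pack.S43GC.G0E12L1
import Fermat.Agent.Pack.S43GC.G0E15L0
import Fermat.Agent.Pack.S43GC.G0E5L0
import Fermat.Agent.Pack.S43GC.G0E13L2
import Fermat.Agent.Pack.S43GC.G0E9L1
import Fermat.Agent.Pack.S43GC.G0E16L0
import Fermat.Agent.Pack.S43GC.G0E12L2
import Fermat.Agent.Pack.S43GC.G0E7L3
import Fermat.Agent.Pack.S43GC.G0E17L0
import Fermat.Agent.Pack.S43GC.G0E10L3
import Fermat.Agent.Pack.S43GC.G0E16L3
import Fermat.Agent.Pack.S43GC.G0E16L1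
import Fermat.Agent.Pack.S43GC.G0E10L0
import Fermat.Agent.Pack.S43GC.G0E14L1
import Fermat.Agent.Pack.S43GC.G0E10L2
import Fermat.Agent.Pack.S43GC.G0E17L2
import Fermat.Agent.Pack.S43GC.G0E1L1
import Fermat.Agent.Pack.S43GC.G0E2L1
import Fermat.Agent.Pack.S43GC.G0E11L2
import Fermat.Agent.Pack.S44C.G0E14L2
import Fermat.Agent.Pack.S44C.G0E6L2
import Fermat.Agent.Pack.S43GC.G0E17L1
import Fermat.Agent.Pack.Fast891

-- ===== PACK-BEGIN S55/KC/H510/Leaves.lean
section





/-!
# S55 / layer KC (helper53): leaves P2, P4, K3 in the exact shape of `KC/Spec.lean` (helper510)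

Adapters to the cores `KL/H510/{Surj2Core,TopLocIndCore,KummerH3Core}.lean`.
-/

set_option autoImplicit false

namespace Fermat.Agent.S55.KC.H510

open Fermat.Agent.S55.PT Fermat.Agent.S55.KC

/-- **KC-P2.** -/
theorem surj2OfH3 : Surj2OfH3Spec := fun G _ L p _ hNC hH3 =>
  Fermat.Agent.S55.KL.H510.surj2OfH3_core_h510 G L p hNC hH3

/-- **KC-P4.** -/
theorem topLocIndOf : TopLocIndOfSpec :=
  Fermat.Agent.S55.KL.H510.topLocIndOf_core_h510

/-- **KC-K3.** -/
theorem kummerH3 : KummerH3Spec := fun G _ L p _ M B ι hNC hFI hsm hdiv hK hH3 hH2 =>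
  Fermat.Agent.S55.KL.H510.kummerH3_core_h510 G L p M B ι hNC hFI hsm hdiv
    hK.injective hK.equivariant hK.range_eq hH3 hH2

end Fermat.Agent.S55.KC.H510

end
-- ===== PACK-END S55/KC/H510/Leaves.lean

-- ===== PACK-BEGIN S55/KC/PUnboundedH707.lean
section



/-!
# S55 / layer KC, leaf KC-A3 (was KL:A3): `LocalPUnboundedSpec`   (helper707)

Exact Spec type, from `KL/PUnboundedH707.lean` (helper414's CYC-INF + normal cofinality).
-/

set_option autoImplicit false

namespace Fermat.Agent.S55.KC.PUnboundedH707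

/-- **KC-A3.**  The `p`-part of `[G_{ℚ_q} : V]` is unbounded along the normal local levels. -/
theorem localPUnboundedSpec : Fermat.Agent.S55.KC.LocalPUnboundedSpec :=
  fun p _ q V₀ h => Fermat.Agent.S55.KL.PUnboundedH707.localPUnbounded p q V₀ h

end Fermat.Agent.S55.KC.PUnboundedH707

end
-- ===== PACK-END S55/KC/PUnboundedH707.lean

-- ===== PACK-BEGIN S55/Inv/LocalOfCard.lean
section



/-!
# S55 / `InvSpec` : the local leaves INV-DIM and INV-NE from the cardinalities of layer KC

`KC.H2IndCardSpec` (`|H²(G_q, Ind_W μ_p)| = p`) gives `LocDimSpec`;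
`KC.H2MuCardSpec` (`|H²(G_q, μ_p)| = p`) gives `LocH2NeSpec`.
-/

set_option autoImplicit false

noncomputable section

namespace Fermat.Agent.S55.Inv

open Fermat.Agent.S55.PT groupCohomology ExtCitation

/-- In an `F_p`-vector space with exactly `p` elements any two vectors are linearly dependent. -/
theorem dependent_of_card_eq {p : ℕ} [Fact p.Prime] {V : Type*} [AddCommGroup V]
    [Module (ZMod p) V] (hV : Nat.card V = p) (x y : V) :
    ∃ a b : ZMod p, (a ≠ 0 ∨ b ≠ 0) ∧ a • x + b • y = 0 := by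
  by_cases hx : x = 0
  · exact ⟨1, 0, Or.inl one_ne_zero, by simp [hx]⟩
  · have hp : 0 < p := (Fact.out : p.Prime).pos
    have : Finite V := Nat.finite_of_card_ne_zero (by omega)
    have hinj : Function.Injective (fun a : ZMod p => a • x) := by
      intro a b hab
      have h0 : (a - b) • x = 0 := by
        rw [sub_smul]
        exact sub_eq_zero.2 hab
      rcases smul_eq_zero.1 h0 with h | h
      · exact sub_eq_zero.1 h
      · exact absurd h hx
    have hcard : Nat.card (ZMod p) = Nat.card V := by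
      rw [hV, Nat.card_zmod]
    have hbij : Function.Bijective (fun a : ZMod p => a • x) :=
      (Nat.bijective_iff_injective_and_card _).2 ⟨hinj, hcard⟩
    obtain ⟨c, hc⟩ := hbij.2 y
    refine ⟨-c, 1, Or.inr one_ne_zero, ?_⟩
    have hc' : c • x = y := hc
    rw [neg_smul, one_smul, hc']
    exact neg_add_cancel y

/-- A module with exactly `p ≥ 2` elements has a non-zero element. -/
theorem exists_ne_zero_of_card_eq {p : ℕ} [Fact p.Prime] {V : Type*} [AddCommGroup V]
    (hV : Nat.card V = p) : ∃ x : V, x ≠ 0 := by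
  have hp : 1 < p := (Fact.out : p.Prime).one_lt
  have : Finite V := Nat.finite_of_card_ne_zero (by omega)
  have : Nontrivial V := by
    rw [← Finite.one_lt_card_iff_nontrivial, hV]
    exact hp
  exact exists_ne 0

variable (p : ℕ) [Fact p.Prime] (S : Finset Nat.Primes)

/-- **INV-DIM** from `KC.H2IndCardSpec`. -/
theorem locDim_of_card (h : KC.H2IndCardSpec) : LocDimSpec p S := by
  intro v W hW _ hμ x y
  exact dependent_of_card_eq (h p v.1 W ⟨W, hW, le_rfl⟩ hμ) x y

/-- **INV-NE** from `KC.H2MuCardSpec`. -/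
theorem locH2Ne_of_card (h : KC.H2MuCardSpec) : LocH2NeSpec p S := by
  intro v
  exact exists_ne_zero_of_card_eq (h p v.1)

end Fermat.Agent.S55.Inv

end

end
-- ===== PACK-END S55/Inv/LocalOfCard.lean

-- ===== PACK-BEGIN S55/Inv/SpecK.lean
section



/-!
# S55 / `InvSpec` : FROZEN SUB-INTERFACE, part 3 — the arithmetic cores (sub-architect helper3)

The two global leaves `GlobCokerSpec` (INV-COK) and `WeakRecipSpec` (INV-WR) are reduced to
statements in the cochain vocabulary of layer K (`K/Defs.lean`, `K/Spec.lean`):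
coefficients `μ = Bridge.muP p`, `𝔼 = K.sUnits S`, `𝕃_q = Tow.unitsQpbar q`, induced modules
`K.indG U A`, `K.ind (rl q) U A`.

* `CokerESpec p S`          (GO4): any two families of local classes of `Ind_U μ` (`q ∈ S`) have a
                            non-trivial `F_p`-combination which is the localisation of a global
                            `p`-torsion class of `Ind_U 𝔼`, the comparison taking place in
                            `H²(G_q, Ind_U 𝕃_q)`;
* `WeakRecipESpec p S`      (GO5): a global `p`-torsion class of `𝔼` over `ℚ` which is locally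
                            trivial (in `𝕃_{v'}`) at all `v' ≠ v` is locally trivial at `v`;
* `LocKummerInjSpec p S`    (LKI): `H²(G_q, μ) → H²(G_q, 𝕃_q)` is injective (Hilbert 90);
* `LocKummerInjIndSpec p S` (LKI-Ind): the same for `Ind_U μ → Ind_U 𝕃_q`.

Adapters (leaves INV-COK, INV-WR):
  `GlobCokerSpec ⇐ CokerESpec + K.KummerSpec + LocKummerInjIndSpec`,
  `WeakRecipSpec ⇐ WeakRecipESpec + LocKummerInjSpec`.
-/

set_option autoImplicit false

noncomputable section

namespace Fermat.Agent.S55.Inv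

open Fermat.Agent.S55.PT Fermat.Agent.S55.K Fermat.Agent.S55.Bridge groupCohomology ExtCitation

variable (p : ℕ) [Fact p.Prime] (S : Finset Nat.Primes)

/-- `μ_p → ℚ̄_qˣ` (through the `S`-units). -/
def muToL (q : Nat.Primes) : muP p →+ Tow.unitsQpbar q :=
  (locE q S).toAddMonoidHom.comp (muToE p S)

/-- `Ind_U μ_p → Ind_U ℚ̄_qˣ` (through `Ind_U 𝔼`). -/
def indMuToL (q : Nat.Primes) (U : Subgroup _root_.Fermat.Agent.S55.PT.GQ) :
    indG U (muP p) →+ ind (rl q) U (Tow.unitsQpbar q) :=
  (indLocE q S U).toAddMonoidHom.comp (indMuToE p S U)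

/-- **LKI.**  A level-constant local 2-cocycle with values in `μ_p` which is the coboundary of a
level-constant 1-cochain with values in `ℚ̄_qˣ` is the coboundary of a level-constant 1-cochain
with values in `μ_p`.  (Hilbert 90 + divisibility of `ℚ̄_qˣ`.) -/
def LocKummerInjSpec : Prop :=
  ∀ q ∈ S, ∀ x ∈ (localLevels q).Z2 (Rep.res (rl q) (muP p)),
    (muToL p S q ∘ x : Gl q × Gl q → Tow.unitsQpbar q) ∈
        (localLevels q).B2 (Tow.unitsQpbar q) →
      x ∈ (localLevels q).B2 (Rep.res (rl q) (muP p))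

/-- **LKI-Ind.**  The same for the induced modules `Ind_U μ_p → Ind_U ℚ̄_qˣ`, `U` a normal global
level. -/
def LocKummerInjIndSpec : Prop :=
  ∀ q ∈ S, ∀ U ∈ (globalLevels S).levels, U.Normal →
    ∀ x ∈ (localLevels q).Z2 (Rep.res (rl q) (indG U (muP p))),
      (indMuToL p S q U ∘ x : Gl q × Gl q → ind (rl q) U (Tow.unitsQpbar q)) ∈
          (localLevels q).B2 (ind (rl q) U (Tow.unitsQpbar q)) →
        x ∈ (localLevels q).B2 (Rep.res (rl q) (indG U (muP p)))

/-- **GO5 (weak reciprocity over `ℚ`, `S`-units).**  Let `e` be a level-constant 2-cocycle of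
`G_ℚ` with values in the `S`-units, of `p`-torsion class.  If `e` is locally a coboundary (with
values in `ℚ̄_{v'}ˣ`) at all `v' ∈ S` different from `v`, then it is locally a coboundary at `v`.
(Sum formula for `Br(ℚ)[p]`: the invariants outside `S` vanish since `e` is `S`-unramified with
unit values; `p` odd: no contribution at infinity.) -/
def WeakRecipESpec : Prop :=
  p ≠ 2 → pPrime p ∈ S →
  ∀ e ∈ (globalLevels S).Z2 (sUnits S), p • e ∈ (globalLevels S).B2 (sUnits S) →
    ∀ v : ↥S,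
      (∀ v' : ↥S, v' ≠ v →
        (locE v'.1 S ∘ e ∘ Prod.map (rl v'.1) (rl v'.1) :
            Gl v'.1 × Gl v'.1 → Tow.unitsQpbar v'.1) ∈
          (localLevels v'.1).B2 (Tow.unitsQpbar v'.1)) →
      (locE v.1 S ∘ e ∘ Prod.map (rl v.1) (rl v.1) :
          Gl v.1 × Gl v.1 → Tow.unitsQpbar v.1) ∈
        (localLevels v.1).B2 (Tow.unitsQpbar v.1)

/-- **GO4 (cokernel of the localisation map has order `≤ p`).**  Let `U` be a normal level
acting trivially on `μ_p` and let `x, x'` be two families of level-constant local 2-cocycles with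
values in `Ind_U μ_p`.  Then there are `(a, b) ≠ (0, 0)` in `F_p` and a level-constant 2-cocycle
`e` of `G_ℚ` with values in `Ind_U 𝔼`, of `p`-torsion class, whose localisation at every `q ∈ S`
is cohomologous in `Ind_U ℚ̄_qˣ` to `a • x_q + b • x'_q`.
(`H²(G_S(K), 𝒪_Sˣ)[p] → ⊕_{w ∣ S} Br(K_w)[p] → H²(C_S(K))[p]`, the last group of order `≤ p`.) -/
def CokerESpec : Prop :=
  p ≠ 2 → pPrime p ∈ S →
  ∀ U ∈ (globalLevels S).levels, U.Normal → (∀ s ∈ U, cycloChar p s = 1) →
    ∀ x x' : (q : ↥S) → (Gl q.1 × Gl q.1 → indG U (muP p)),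
      (∀ q : ↥S, x q ∈ (localLevels q.1).Z2 (Rep.res (rl q.1) (indG U (muP p)))) →
      (∀ q : ↥S, x' q ∈ (localLevels q.1).Z2 (Rep.res (rl q.1) (indG U (muP p)))) →
      ∃ a b : ZMod p, (a ≠ 0 ∨ b ≠ 0) ∧
        ∃ e ∈ (globalLevels S).Z2 (indG U (sUnits S)),
          p • e ∈ (globalLevels S).B2 (indG U (sUnits S)) ∧
          ∀ q : ↥S,
            ((indLocE q.1 S U ∘ e ∘ Prod.map (rl q.1) (rl q.1) :
                Gl q.1 × Gl q.1 → ind (rl q.1) U (Tow.unitsQpbar q.1)) -
              indMuToL p S q.1 U ∘ (a • x q + b • x' q)) ∈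
              (localLevels q.1).B2 (ind (rl q.1) U (Tow.unitsQpbar q.1))

end Fermat.Agent.S55.Inv

end

end
-- ===== PACK-END S55/Inv/SpecK.lean

-- ===== PACK-BEGIN S55/KG/JCoreH604.lean
section





/-!
# S55, layer KG: the semi-local core (helper604)

Shared core of the leaves KG-J3 (`JH3Spec`) and KG-J2 (`JDivSpec`).

* `locSub φ H x = {t : D₀ | x⁻¹ φ(t) x ∈ H}` for `φ : D₀ →* G`, `H ≤ G`;
* `mackeyInj_bijective` : for `φ` injective, `Hⁿ(H, Res Coind_φ B) ≃ ∏ₓ Hⁿ(locSub φ H x, Res B)`,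
  `x` running through the canonical representatives of `φ(D₀) \ G / H`
  (from helper61's Mackey–Shapiro theorem);
* `jCore` : `Hⁿ(H, J(F)) ≃ ∏_{q ∈ S} ∏ₓ Hⁿ(T_{q,x}, F_qˣ)`, `T_{q,x} ≤ Gal(F_q/ℚ_q)`;
* `jCore_subsingleton`, `jCore_forall` : transfer of properties of the local factors.
-/

set_option autoImplicit false
set_option linter.unusedSectionVars false

open CategoryTheory groupCohomology

namespace Fermat.Agent.S55.KG.H604

open Fermat.Agent.S55 Fermat.Agent.S55.Tow Fermat.Agent.S55.E1.Lim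

noncomputable section

/-! ## Abstract Mackey decomposition along an injective homomorphism -/

section Abstract

variable {k G D₀ : Type} [CommRing k] [Group G] [Group D₀]

/-- `{t : D₀ | x⁻¹ φ(t) x ∈ H}`. -/
def locSub (φ : D₀ →* G) (H : Subgroup G) (x : G) : Subgroup D₀ :=
  H.comap ((MulAut.conj x⁻¹).toMonoidHom.comp φ)

lemma mem_locSub {φ : D₀ →* G} {H : Subgroup G} {x : G} {t : D₀} :
    t ∈ locSub φ H x ↔ x⁻¹ * φ t * x ∈ H := by
  show x⁻¹ * φ t * x⁻¹⁻¹ ∈ H ↔ _
  rw [inv_inv]

/-- `locSub φ H x → H`, `t ↦ x⁻¹ φ(t) x`. -/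
def locJ (φ : D₀ →* G) (H : Subgroup G) (x : G) : ↥(locSub φ H x) →* ↥H where
  toFun t := ⟨x⁻¹ * φ t * x, mem_locSub.1 t.2⟩
  map_one' := by
    apply Subtype.ext
    simp
  map_mul' a b := by
    apply Subtype.ext
    simp [mul_assoc]

/-- `locSub φ H x → φ(D₀)`, `t ↦ φ(t)`. -/
def locK (φ : D₀ →* G) (H : Subgroup G) (x : G) : ↥(locSub φ H x) →* ↥φ.range where
  toFun t := ⟨φ t, ⟨t, rfl⟩⟩
  map_one' := by
    apply Subtype.ext
    simp
  map_mul' a b := by
    apply Subtype.ext
    simp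

/-- The index set: the double cosets `φ(D₀) \ G / H`. -/
abbrev Dc (φ : D₀ →* G) (H : Subgroup G) : Type :=
  DoubleCoset.Quotient (φ.range : Set G) ((H.subtype).range : Set G)

instance [Finite G] (φ : D₀ →* G) (H : Subgroup G) : Finite (Dc φ H) :=
  Quotient.finite _

/-- The Mackey system of the subgroups `locSub φ H x`. -/
theorem isMackeySystem_loc (φ : D₀ →* G) (hφ : Function.Injective φ) (H : Subgroup G) :
    Mackey.IsMackeySystem H.subtype φ.range
      (fun i : Dc φ H => ↥(locSub φ H i.out))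
      (fun i => locJ φ H i.out) (fun i => locK φ H i.out) (fun i => i.out) where
  comm := fun i t => by
    show i.out * (i.out⁻¹ * φ t * i.out) = φ t * i.out
    group
  inj := fun i a b hab => by
    have h1 : i.out⁻¹ * φ a * i.out = i.out⁻¹ * φ b * i.out := congrArg Subtype.val hab
    have h2 : φ a = φ b := mul_left_cancel (mul_right_cancel h1)
    exact Subtype.ext (hφ h2)
  full := fun i h hh => by
    obtain ⟨d, hd⟩ := hh
    have hd' : i.out⁻¹ * φ d * i.out = (h : G) := by
      rw [hd]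
      show i.out⁻¹ * (i.out * (h : G) * i.out⁻¹) * i.out = h
      group
    refine ⟨⟨d, mem_locSub.2 (by rw [hd']; exact h.2)⟩, Subtype.ext hd'⟩
  cover := (Mackey.isMackeySystem_doset H.subtype φ.range).cover
  disj := (Mackey.isMackeySystem_doset H.subtype φ.range).disj

variable {φ : D₀ →* G} (hφ : Function.Injective φ)

/-- Evaluation at `1`: `Res_{φ(D₀)} Coind_φ B ⟶ B` (as a `φ(D₀)`-module). -/
def evOne (B : Rep.{0} k D₀) :
    Rep.res φ.range.subtype (Rep.coind φ B) ⟶ H173.rangeRep hφ B :=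
  (Rep.resFunctor φ.range.subtype).map (H173.coindRangeIso hφ B).hom ≫
    Mackey.shapiroEv φ.range (H173.rangeRep hφ B)

lemma evOne_hom_apply (B : Rep.{0} k D₀) (f : (Rep.coind φ B).V) :
    (evOne hφ B).hom f = f.1 1 := rfl

lemma coindLift_evOne (B : Rep.{0} k D₀) :
    Mackey.coindLift (evOne hφ B) = (H173.coindRangeIso hφ B).hom := by
  ext f g
  show (evOne hφ B).hom ((Rep.coind φ B).ρ g f) = f.1 g
  rw [evOne_hom_apply]
  show f.1 (1 * g) = f.1 g
  rw [one_mul]

lemma coindLift_evOne_bijective (B : Rep.{0} k D₀) :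
    Function.Bijective (Mackey.coindLift (evOne hφ B)).hom := by
  rw [coindLift_evOne]
  exact ConcreteCategory.bijective_of_isIso _

/-- The factor of the Mackey system is `Res B`. -/
def locFactorIso (B : Rep.{0} k D₀) (H : Subgroup G) (x : G) (n : ℕ) :
    groupCohomology (Rep.res (locK φ H x) (H173.rangeRep hφ B)) n ≅
      groupCohomology (T.resSub B (locSub φ H x)) n :=
  groupCohomology.mapIso (A := T.resSub B (locSub φ H x))
    (B := Rep.res (locK φ H x) (H173.rangeRep hφ B)) (MulEquiv.refl _)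
    (LinearEquiv.refl k B.V) (fun t => by
      ext b
      show B.ρ ((MonoidHom.ofInjective hφ).symm (locK φ H x t)) b = B.ρ (t : D₀) b
      have h : (MonoidHom.ofInjective hφ).symm (locK φ H x t) = (t : D₀) := by
        rw [MulEquiv.symm_apply_eq]
        exact Subtype.ext rfl
      rw [h]) n

/-- **Mackey decomposition along an injective homomorphism.** -/
theorem mackeyInj_bijective {φ : D₀ →* G} (hφ : Function.Injective φ) (B : Rep.{0} k D₀)
    (H : Subgroup G) (n : ℕ) :
    ∃ f : groupCohomology (Rep.res H.subtype (Rep.coind φ B)) n →+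
        ∀ i : Dc φ H, groupCohomology (T.resSub B (locSub φ H i.out)) n,
      Function.Bijective f := by
  have h := Mackey.mackey_bijective_of_bijective (k := k) (α := H.subtype)
    Subtype.val_injective (isMackeySystem_loc φ hφ H) (evOne hφ B)
    (coindLift_evOne_bijective hφ B) n
  let g : groupCohomology (Rep.res H.subtype (Rep.coind φ B)) n →+
      ∀ i : Dc φ H, groupCohomology (Rep.res (locK φ H i.out) (H173.rangeRep hφ B)) n :=
    { toFun := fun c i => (map (locJ φ H i.out)
        (Mackey.twEv (isMackeySystem_loc φ hφ H) (evOne hφ B) i) n).hom c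
      map_zero' := by
        funext i
        exact map_zero _
      map_add' := fun a b => by
        funext i
        exact map_add _ a b }
  let e : (∀ i : Dc φ H, groupCohomology (Rep.res (locK φ H i.out) (H173.rangeRep hφ B)) n) ≃+
      ∀ i : Dc φ H, groupCohomology (T.resSub B (locSub φ H i.out)) n :=
    AddEquiv.piCongrRight fun i =>
      (locFactorIso hφ B H i.out n).toLinearEquiv.toAddEquiv
  refine ⟨e.toAddMonoidHom.comp g, ?_⟩
  exact e.bijective.comp h

end Abstract

/-! ## The semi-local modules of the tower -/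

variable {S : Finset Nat.Primes}

/-- The local subgroups `T_{q,x} = {t ∈ Gal(F_q/ℚ_q) | x⁻¹ t x ∈ H}`. -/
abbrev jSub (L : Level S) (H : Subgroup L.Gal) (q : Nat.Primes) (x : L.Gal) :
    Subgroup (L.Dec q) :=
  locSub (L.decHom q) H x

/-- **KG-JCORE.**  `Hⁿ(H, J(F)) ≃ ∏_{q ∈ S} ∏ₓ Hⁿ(T_{q,x}, F_qˣ)`. -/
theorem jCore (L : Level S) (H : Subgroup L.Gal) (n : ℕ) :
    ∃ f : groupCohomology (Rep.res H.subtype (Jtot L)) n →+
        ∀ (q : S) (i : Dc (L.decHom q.1) H),
          groupCohomology (T.resSub (L.locUnits q.1) (jSub L H q.1 i.out)) n,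
      Function.Bijective f := by
  have h1 := T.H635.finiteProd ℤ ↥H S (fun q : S => Rep.res H.subtype (L.J q.1))
    (Rep.res H.subtype (Jtot L))
    (fun q => (Rep.resFunctor H.subtype).map (piProj (fun q : S => L.J q.1) q))
    ⟨fun a b hab => hab, fun y => ⟨y, rfl⟩⟩ n
  choose f hf using fun q : S =>
    mackeyInj_bijective (k := ℤ) (H173.decHom_injective_H173 L q.1) (L.locUnits q.1) H n
  let g : groupCohomology (Rep.res H.subtype (Jtot L)) n →+
      ∀ q : S, groupCohomology (Rep.res H.subtype (L.J q.1)) n :=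
    { toFun := fun c q => (T.coeffMap
        ((Rep.resFunctor H.subtype).map (piProj (fun q : S => L.J q.1) q)) n).hom c
      map_zero' := by
        funext q
        exact map_zero _
      map_add' := fun a b => by
        funext q
        exact map_add _ a b }
  let F : (∀ q : S, groupCohomology (Rep.res H.subtype (L.J q.1)) n) →+
      ∀ (q : S) (i : Dc (L.decHom q.1) H),
        groupCohomology (T.resSub (L.locUnits q.1) (jSub L H q.1 i.out)) n :=
    { toFun := fun c q => f q (c q)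
      map_zero' := by
        funext q
        exact map_zero (f q)
      map_add' := fun a b => by
        funext q
        exact map_add (f q) (a q) (b q) }
  refine ⟨F.comp g, ?_⟩
  have hF : Function.Bijective F := by
    constructor
    · intro a b hab
      funext q
      exact (hf q).1 (congrFun hab q)
    · intro y
      choose z hz using fun q => (hf q).2 (y q)
      exact ⟨z, funext hz⟩
  exact hF.comp h1

/-- Transfer of vanishing. -/
theorem jCore_subsingleton (L : Level S) (H : Subgroup L.Gal) (n : ℕ)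
    (hloc : ∀ (q : S) (x : L.Gal),
      Subsingleton (groupCohomology (T.resSub (L.locUnits q.1) (jSub L H q.1 x)) n)) :
    Subsingleton (groupCohomology (Rep.res H.subtype (Jtot L)) n) := by
  obtain ⟨f, hf⟩ := jCore L H n
  have : ∀ (q : S) (i : Dc (L.decHom q.1) H),
      Subsingleton (groupCohomology (T.resSub (L.locUnits q.1) (jSub L H q.1 i.out)) n) :=
    fun q i => hloc q i.out
  exact hf.1.subsingleton

/-- Transfer of divisibility of torsion: if in every local factor every class killed by `m` is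
divisible by `p`, the same holds in `Hⁿ(H, J(F))`. -/
theorem jCore_div (L : Level S) (H : Subgroup L.Gal) (n m p : ℕ)
    (hloc : ∀ (q : S) (x : L.Gal)
      (c : groupCohomology (T.resSub (L.locUnits q.1) (jSub L H q.1 x)) n),
      m • c = 0 → ∃ w, c = p • w)
    (y : groupCohomology (Rep.res H.subtype (Jtot L)) n) (hy : m • y = 0) :
    ∃ w : groupCohomology (Rep.res H.subtype (Jtot L)) n, y = p • w := by
  obtain ⟨f, hf⟩ := jCore L H n
  have h1 : ∀ (q : S) (i : Dc (L.decHom q.1) H), ∃ w, f y q i = p • w := by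
    intro q i
    refine hloc q i.out (f y q i) ?_
    have h2 : f (m • y) q i = m • f y q i := by
      rw [map_nsmul]
      rfl
    rw [← h2, hy, map_zero]
    rfl
  choose w hw using h1
  obtain ⟨z, hz⟩ := hf.2 w
  refine ⟨z, hf.1 ?_⟩
  rw [map_nsmul, hz]
  funext q i
  exact hw q i

end

end Fermat.Agent.S55.KG.H604

end
-- ===== PACK-END S55/KG/JCoreH604.lean

-- ===== PACK-BEGIN S55/GAD/Assembly.lean
section
/-
S55 / G-ADAPTER (sub-architect helper955): ASSEMBLY.
`globalSpecMu_of` : the leaf specs of `GAD/Spec.lean` imply `Tow.GlobalSpecMu S p`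
(the final target of layer G, `Spec/Datum2.lean`).  No `sorry`.
-/


set_option autoImplicit false

open CategoryTheory

namespace Fermat.Agent.S55.GAD

open Fermat.Agent.S55 Fermat.Agent.S55.Tow Fermat.Agent.S55.E1.H594 Fermat.Agent.S55.G

noncomputable section

variable {S : Finset Nat.Primes} {p : ℕ}

lemma isLocalSum_iff (L : Level S) (c : (CT L).V) :
    (datum S p).IsLocalSum L c ↔ ∃ x : JSV L, c = mkC L (x, 0) := by
  constructor
  · rintro ⟨x, hx⟩
    exact ⟨x, hx.trans (sum_jT L x)⟩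
  · rintro ⟨x, hx⟩
    exact ⟨x, hx.trans (sum_jT L x).symm⟩

/-- gd4 from the dictionary of `S`-units. -/
theorem gd4_of (hSU : SUnitDictSpec S) (L : Level S) (x : ∀ q : S, (L.J q.1).V) :
    ∑ q : S, ((datum S p).j L q.1).hom (x q) = 0 ↔
      ∃ e : L.units.V, L.IsSUnit e ∧ ∀ q : S, x q = (L.diag q.1).hom e := by
  show ∑ q : S, (jT L q.1).hom (x q) = 0 ↔ _
  rw [sum_jT, mkC_eq_zero_iff]
  constructor
  · rintro ⟨e, he⟩
    refine ⟨e, (hSU L e).1 (congrArg Prod.snd he), fun q => ?_⟩
    exact (congrFun (congrArg Prod.fst he) q).symm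
  · rintro ⟨e, he, hx⟩
    refine ⟨e, Prod.ext (funext fun q => (hx q).symm) ((hSU L e).2 he)⟩

/-- gd5 from capitulation. -/
theorem gd5_of (hCap : CapitulationSpec S p) (L : Level S) (c : ((datum S p).C L).V) (a : ℕ)
    (hc : (datum S p).IsLocalSum L (p ^ a • c)) :
    ∃ (L' : Level S) (h : L ≤ L'), (datum S p).IsLocalSum L' (((datum S p).tr h).hom c) := by
  obtain ⟨⟨x, d⟩, rfl⟩ := mkC_surjective L c
  obtain ⟨x', hx'⟩ := (isLocalSum_iff L _).1 hc
  have h0 : mkC L (p ^ a • (x, d) - (x', 0)) = 0 := by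
    rw [map_sub, map_nsmul]
    exact sub_eq_zero.2 hx'
  obtain ⟨e, he⟩ := (mkC_eq_zero_iff L _).1 h0
  have hd : divT L e = p ^ a • d := by
    have h2 : (diagT L e).2 = (p ^ a • ((x, d) : JDV L) - ((x', 0) : JDV L)).2 :=
      congrArg Prod.snd he
    have h3 : (p ^ a • ((x, d) : JDV L) - ((x', 0) : JDV L)).2 = p ^ a • d := by
      simp
    exact h2.trans h3
  obtain ⟨L', h, z, hz⟩ := hCap L d a e hd
  refine ⟨L', h, (isLocalSum_iff L' _).2
    ⟨fun q => (Level.trJ h q.1).hom (x q) - (L'.diag q.1).hom z, ?_⟩⟩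
  show (trT h).hom (mkC L (x, d)) = _
  rw [trT_mkC]
  have h1 : (trJD h (x, d) : JDV L') =
      ((fun q => (Level.trJ h q.1).hom (x q) - (L'.diag q.1).hom z, 0) : JDV L') + diagT L' z := by
    refine Prod.ext (funext fun q => ?_) ?_
    · show (Level.trJ h q.1).hom (x q) =
        ((Level.trJ h q.1).hom (x q) - (L'.diag q.1).hom z) + (L'.diag q.1).hom z
      abel
    · show divTr h d = 0 + divT L' z
      rw [zero_add, hz]
  rw [h1, map_add, mkC_diagT, add_zero]

/-- gd7a: `tr` is compatible with `j` and `trJ`. -/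
theorem gd7a (p : ℕ) {L L' : Level S} (h : L ≤ L') (q : Nat.Primes) (hq : q ∈ S)
    (x : (L.J q).V) :
    ((datum S p).tr h).hom (((datum S p).j L q).hom x) =
      ((datum S p).j L' q).hom ((Level.trJ h q).hom x) := by
  show (trT h).hom ((jT L q).hom x) = (jT L' q).hom ((Level.trJ h q).hom x)
  rw [jT_apply_of_mem L ⟨q, hq⟩, jT_apply_of_mem L' ⟨q, hq⟩, trT_mkC]
  congr 1
  refine Prod.ext (funext fun q' => ?_) (map_zero _)
  show (Level.trJ h q'.1).hom ((Pi.single (⟨q, hq⟩ : S) x : JSV L) q') =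
    (Pi.single (⟨q, hq⟩ : S) ((Level.trJ h q).hom x) : JSV L') q'
  by_cases hqq : q' = ⟨q, hq⟩
  · subst hqq
    have h1 : (Pi.single (⟨q, hq⟩ : S) x : JSV L) ⟨q, hq⟩ = x := Pi.single_eq_same _ _
    have h2 : (Pi.single (⟨q, hq⟩ : S) ((Level.trJ h q).hom x) : JSV L') ⟨q, hq⟩ =
        (Level.trJ h q).hom x := Pi.single_eq_same _ _
    rw [h1, h2]
  · have h1 : (Pi.single (⟨q, hq⟩ : S) x : JSV L) q' = 0 := Pi.single_eq_of_ne hqq _
    have h2 : (Pi.single (⟨q, hq⟩ : S) ((Level.trJ h q).hom x) : JSV L') q' = 0 :=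
      Pi.single_eq_of_ne hqq _
    rw [h1, h2, map_zero]

lemma trJ_trans {L L' L'' : Level S} (h : L ≤ L') (h' : L' ≤ L'') (q : Nat.Primes)
    (x : (L.J q).V) :
    (Level.trJ h' q).hom ((Level.trJ h q).hom x) = (Level.trJ (h.trans h') q).hom x := by
  apply L''.J_ext q
  intro g
  induction g using QuotientGroup.induction_on with
  | H g => rfl

/-- gd7b from the transitivity of the extension of divisors. -/
theorem gd7b_of (hTr : DivTrTransSpec S) (p : ℕ) {L L' L'' : Level S} (h : L ≤ L')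
    (h' : L' ≤ L'') (c : ((datum S p).C L).V) :
    ((datum S p).tr h').hom (((datum S p).tr h).hom c) = ((datum S p).tr (h.trans h')).hom c := by
  obtain ⟨⟨x, d⟩, rfl⟩ := mkC_surjective L c
  show (trT h').hom ((trT h).hom (mkC L (x, d))) = (trT (h.trans h')).hom (mkC L (x, d))
  rw [trT_mkC, trT_mkC, trT_mkC]
  congr 1
  exact Prod.ext (funext fun q => trJ_trans h h' q.1 (x q)) (hTr h h' d)

/-- **ASSEMBLY.**  The leaf specs imply the final target of layer G. -/
theorem globalSpecMu_of (hSU : SUnitDictSpec S) (hTr : DivTrTransSpec S)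
    (hCap : CapitulationSpec S p) (hEx : ExistenceSpec S p) (hCM : ClassModuleSpec S p)
    (hJ : JInjSpec S p) (hInf : InfInjSpec S p) : GlobalSpecMu S p :=
  ⟨datum S p,
    { gd1 := fun L hL => gammaT_spec S p L (hCM L hL)
      gd3 := fun L hL q hq y hy h0 => hJ L hL q hq y hy h0
      gd4 := fun L x => gd4_of hSU L x
      gd5 := fun L c a hc => gd5_of hCap L c a hc
      gd6 := fun L₀ hL₀ => hEx L₀ hL₀
      gd7a := fun h q hq x => gd7a p h q hq x
      gd7b := fun h h' c => gd7b_of hTr p h h' c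
      gd8 := fun h hL z hz h0 => hInf h hL z hz h0 }⟩

end

end Fermat.Agent.S55.GAD

end
-- ===== PACK-END S55/GAD/Assembly.lean

-- ===== PACK-BEGIN S55/GAD/CapH57.lean
section




/-!
# S55 / G-ADAPTER, leaf GAD-CAP (helper57): capitulation (`gd5`)

`capitulation (hp : p.Prime) (hpS : ⟨p, hp⟩ ∈ S) : GAD.CapitulationSpec S p`.

If `p ^ a • d = div x` (divisor outside `S`) for some `x ∈ Fˣ`, pick `β ∈ ℚ̄` with
`β ^ (p ^ a) = x`.  At a place `A` of `ℚ̄` over `ℓ ∉ S` with prime `w = A ∩ 𝓞_F`, the element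
`t = ϖ ^ (d w)` (`ϖ ∈ F` a uniformiser at `w`) satisfies `v_A(β) = v_A(t)`, so `β / t` is a unit at
`A` whose `p ^ a`-th power lies in `F`; inertia at `A` fixes `F` and hence `β / t` (Kummer), so
`F(β)` is unramified outside `S`.  Its Galois closure is a level `F' ∋ β`, and
`p ^ a • div β = div x = p ^ a • divTr d` in the torsion-free group `Div^S(F')`.
-/

set_option autoImplicit false
set_option linter.unusedSectionVars false
set_option linter.style.haveILetI false

namespace Fermat.Agent.S55.GAD.H57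

open Fermat.Agent.S55 Fermat.Agent.S55.Tow Fermat.Agent.S55.E1.H594 Fermat.Agent.S55.G
open Fermat.Agent.S55.Bridge ExtCitation IntermediateField NumberField IsDedekindDomain

attribute [local instance] isAlgebraic_Qbar isGalois_Qbar

/-- **Kummer, non-unit form.**  `F(β)` is unramified outside `S ∋ p` if `β ^ n ∈ F`, `n` is a unit
at all places outside `S`, and at every place outside `S` the valuation of `β` is attained by a
nonzero element of `F`. -/
theorem isUnramifiedOutside_sup_adjoin_root_of_val (S : Finset Nat.Primes) {n : ℕ} (hn0 : n ≠ 0)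
    (hn : ∀ q : Nat.Primes, q ∉ S → ∀ A : ValuationSubring (AlgebraicClosure ℚ),
      A.LiesOverPrime (q : ℕ) → A.valuation (n : AlgebraicClosure ℚ) = 1)
    {F : IntermediateField ℚ (AlgebraicClosure ℚ)} (hF : F.IsUnramifiedOutside S)
    {β : AlgebraicClosure ℚ} (hβ : β ^ n ∈ F)
    (hval : ∀ q : Nat.Primes, q ∉ S → ∀ A : ValuationSubring (AlgebraicClosure ℚ),
      A.LiesOverPrime (q : ℕ) →
        ∃ t : AlgebraicClosure ℚ, t ∈ F ∧ t ≠ 0 ∧ A.valuation β = A.valuation t) :
    (F ⊔ ℚ⟮β⟯).IsUnramifiedOutside S := by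
  haveI := hF.1
  haveI : FiniteDimensional ℚ ℚ⟮β⟯ :=
    IntermediateField.adjoin.finiteDimensional (Algebra.IsIntegral.isIntegral β)
  refine ⟨IntermediateField.finiteDimensional_sup F ℚ⟮β⟯, fun q hq A hA σ hσ => ?_⟩
  have hσF : σ ∈ F.fixingSubgroup := hF.2 q hq A hA hσ
  rw [IntermediateField.fixingSubgroup_sup]
  refine ⟨hσF, ?_⟩
  show σ ∈ ℚ⟮β⟯.fixingSubgroup
  obtain ⟨t, htF, ht0, hvt⟩ := hval q hq A hA
  have hσt : σ t = t := (IntermediateField.mem_fixingSubgroup_iff F σ).1 hσF t htF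
  have hvt0 : A.valuation t ≠ 0 := (Valuation.ne_zero_iff _).2 ht0
  have hγv : A.valuation (β / t) = 1 := by
    rw [map_div₀, hvt, div_self hvt0]
  have hγF : (β / t) ^ n ∈ F := by
    rw [div_pow]
    exact F.div_mem hβ (pow_mem htF n)
  have hσγ : σ (β / t) = β / t :=
    kummer_unit_fixed_of_mem_inertia hn0 (hn q hq A hA) hσ
      ((IntermediateField.mem_fixingSubgroup_iff F σ).1 hσF _ hγF) hγv
  have hσβ : σ β = β := by
    have h1 : β = β / t * t := by field_simp
    rw [h1, map_mul, hσγ, hσt]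
  rw [IntermediateField.mem_fixingSubgroup_iff]
  intro x hx
  have hle : ℚ⟮β⟯ ≤ IntermediateField.fixedField (Subgroup.zpowers σ) := by
    rw [IntermediateField.adjoin_simple_le_iff]
    rintro ⟨τ, hτ⟩
    obtain ⟨k, rfl⟩ := Subgroup.mem_zpowers_iff.1 hτ
    show (σ ^ k) • β = β
    have hstab : σ ∈ MulAction.stabilizer (AlgebraicClosure ℚ ≃ₐ[ℚ] AlgebraicClosure ℚ) β :=
      MulAction.mem_stabilizer_iff.2 hσβ
    exact MulAction.mem_stabilizer_iff.1 (Subgroup.zpow_mem _ hstab k)
  exact hle hx ⟨σ, Subgroup.mem_zpowers σ⟩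


variable {S : Finset Nat.Primes}

/-- A place of `ℚ̄` over `ℓ ∉ S` induces a prime of `F` not above `S`. -/
theorem not_isAbove_placePrime (L : Level S) (q : Nat.Primes) (hq : q ∉ S)
    (A : ValuationSubring (AlgebraicClosure ℚ)) (hA : A.LiesOverPrime (q : ℕ)) :
    ¬ G.IsAbove S L.F (placePrime L.F A q.2 hA) := by
  rintro ⟨q', hq'S, hq'⟩
  have hq'' : ((q' : ℕ) : AlgebraicClosure ℚ) ∈ A.nonunits := by
    have := (Bridge.H594.mem_primeBelowF L.F A _).1 hq'
    rwa [map_natCast] at this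
  have hne : (q : ℕ) ≠ q' := by
    intro heq
    apply hq
    have : q = q' := Subtype.ext heq
    rw [this]
    exact hq'S
  have hv := val_prime_eq_one (A := A) hA q.2 q'.2 hne
  rw [ValuationSubring.mem_nonunits_iff, hv] at hq''
  exact lt_irrefl _ hq''

/-- If `div u = n • d` outside `S` and `β ^ n = u`, then at every place `A` of `ℚ̄` outside `S` the
valuation of `β` is attained by a nonzero element of `F`. -/
theorem exists_valuation_eq (L : Level S) (u : Additive (L.F)ˣ) (d : PrimeOut S L.F →₀ ℤ)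
    (n : ℕ) (hn : n ≠ 0) (hord : ∀ w : PrimeOut S L.F, ordAt w.1 u = (n : ℤ) * d w)
    (β : AlgebraicClosure ℚ) (hβ : β ^ n = (((u.toMul : (L.F)ˣ) : L.F) : AlgebraicClosure ℚ))
    (q : Nat.Primes) (hq : q ∉ S) (A : ValuationSubring (AlgebraicClosure ℚ))
    (hA : A.LiesOverPrime (q : ℕ)) :
    ∃ t : AlgebraicClosure ℚ, t ∈ L.F ∧ t ≠ 0 ∧ A.valuation β = A.valuation t := by
  set w : HeightOneSpectrum (𝓞 L.F) := placePrime L.F A q.2 hA with hw
  have hout : ¬ G.IsAbove S L.F w := not_isAbove_placePrime L q hq A hA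
  obtain ⟨ϖ, hϖ⟩ := w.valuation_exists_uniformizer L.F
  have hϖ0 : ϖ ≠ 0 := by
    rintro rfl
    rw [map_zero] at hϖ
    exact WithZero.exp_ne_zero hϖ.symm
  -- the element `t = ϖ ^ d(w)` of `F`
  let m : ℤ := d ⟨w, hout⟩
  let tu : (L.F)ˣ := (Units.mk0 ϖ hϖ0) ^ m
  have htu : w.valuation L.F (tu : L.F) = WithZero.exp (-m) := by
    show w.valuation L.F (((Units.mk0 ϖ hϖ0) ^ m : (L.F)ˣ) : L.F) = _
    rw [Units.val_zpow_eq_zpow_val, Units.val_mk0, map_zpow₀, hϖ, ← WithZero.exp_zsmul]
    congr 1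
    simp
  -- the unit `u / t ^ n` of `F` has valuation one at `w`
  let e : (L.F)ˣ := u.toMul / tu ^ n
  have he : w.valuation L.F (e : L.F) = 1 := by
    show w.valuation L.F ((u.toMul / tu ^ n : (L.F)ˣ) : L.F) = 1
    rw [Units.val_div_eq_div_val, Units.val_pow_eq_pow_val, map_div₀, map_pow, htu,
      G.valuation_eq_exp_neg_ordAt w u, hord ⟨w, hout⟩, ← WithZero.exp_nsmul, div_eq_one_iff_eq]
    · congr 1
      simp only [nsmul_eq_mul, m]
      ring
    · exact WithZero.exp_ne_zero
  have heA := (unit_iff_valuation_eq_one L.F A q.2 hA e).2 he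
  -- hence `β / t` is a unit at `A`
  have hEq : (((e : (L.F)ˣ) : L.F) : AlgebraicClosure ℚ) = (β / ((tu : L.F) : AlgebraicClosure ℚ)) ^ n := by
    rw [div_pow, hβ]
    show (((u.toMul / tu ^ n : (L.F)ˣ) : L.F) : AlgebraicClosure ℚ) = _
    rw [Units.val_div_eq_div_val, Units.val_pow_eq_pow_val]
    push_cast
    rfl
  have hvE : A.valuation (((e : (L.F)ˣ) : L.F) : AlgebraicClosure ℚ) = 1 := by
    have h1 : A.valuation (((e : (L.F)ˣ) : L.F) : AlgebraicClosure ℚ) ≤ 1 :=
      (A.valuation_le_one_iff _).2 heA.1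
    have h2 : A.valuation ((((e⁻¹ : (L.F)ˣ) : L.F) : AlgebraicClosure ℚ)) ≤ 1 :=
      (A.valuation_le_one_iff _).2 heA.2
    have h3 : A.valuation (((e : (L.F)ˣ) : L.F) : AlgebraicClosure ℚ)
        * A.valuation ((((e⁻¹ : (L.F)ˣ) : L.F) : AlgebraicClosure ℚ)) = 1 := by
      rw [← map_mul, ← IntermediateField.coe_mul, ← Units.val_mul, mul_inv_cancel, Units.val_one,
        IntermediateField.coe_one, map_one]
    refine le_antisymm h1 ?_
    calc (1 : A.ValueGroup)
        = A.valuation (((e : (L.F)ˣ) : L.F) : AlgebraicClosure ℚ)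
          * A.valuation ((((e⁻¹ : (L.F)ˣ) : L.F) : AlgebraicClosure ℚ)) := h3.symm
      _ ≤ A.valuation (((e : (L.F)ˣ) : L.F) : AlgebraicClosure ℚ) * 1 := by gcongr
      _ = A.valuation (((e : (L.F)ˣ) : L.F) : AlgebraicClosure ℚ) := mul_one _
  have hγ : A.valuation (β / ((tu : L.F) : AlgebraicClosure ℚ)) = 1 := by
    rw [hEq, map_pow] at hvE
    exact (pow_eq_one_iff.1 hvE).resolve_right hn
  have ht0 : ((tu : L.F) : AlgebraicClosure ℚ) ≠ 0 := by
    intro h
    exact tu.ne_zero (Subtype.ext h)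
  refine ⟨((tu : L.F) : AlgebraicClosure ℚ), (tu : L.F).2, ht0, ?_⟩
  have hvt0 : A.valuation ((tu : L.F) : AlgebraicClosure ℚ) ≠ 0 := (Valuation.ne_zero_iff _).2 ht0
  rw [map_div₀, div_eq_one_iff_eq hvt0] at hγ
  exact hγ


/-- **GAD-CAP (capitulation) = gd5 for the concrete datum.** -/
theorem capitulation (S : Finset Nat.Primes) (p : ℕ) (hp : p.Prime)
    (hpS : (⟨p, hp⟩ : Nat.Primes) ∈ S) : CapitulationSpec S p := by
  intro L d a x hx
  have hn0 : p ^ a ≠ 0 := pow_ne_zero a hp.ne_zero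
  -- the divisor of `x`
  have hord : ∀ w : PrimeOut S L.F, ordAt w.1 (toField L x) = ((p ^ a : ℕ) : ℤ) * d w := by
    intro w
    have h1 := DFunLike.congr_fun hx w
    have h2 : divT L x w = ordAt w.1 (toField L x) := rfl
    rw [h2] at h1
    rw [h1, Finsupp.smul_apply]
    simp
  -- a `p ^ a`-th root of `x`
  obtain ⟨β, hβ⟩ := IsAlgClosed.exists_pow_nat_eq
    ((((toField L x).toMul : (L.F)ˣ) : L.F) : AlgebraicClosure ℚ) (Nat.pos_of_ne_zero hn0)
  have hβ0 : β ≠ 0 := by
    rintro rfl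
    rw [zero_pow hn0] at hβ
    have h0 : (((toField L x).toMul : (L.F)ˣ) : L.F) = 0 := Subtype.ext hβ.symm
    exact ((toField L x).toMul : (L.F)ˣ).ne_zero h0
  -- the Kummer level
  have hnv : ∀ q : Nat.Primes, q ∉ S → ∀ A : ValuationSubring (AlgebraicClosure ℚ),
      A.LiesOverPrime (q : ℕ) → A.valuation ((p ^ a : ℕ) : AlgebraicClosure ℚ) = 1 := by
    intro q hq A hA
    have hqp : (q : ℕ) ≠ p := by
      intro h
      apply hq
      have : q = ⟨p, hp⟩ := Subtype.ext h
      rw [this]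
      exact hpS
    rw [Nat.cast_pow, map_pow, val_prime_eq_one (A := A) hA q.2 hp hqp, one_pow]
  have hK : (L.F ⊔ ℚ⟮β⟯).IsUnramifiedOutside S :=
    isUnramifiedOutside_sup_adjoin_root_of_val S hn0 hnv L.unram
      (by rw [hβ]; exact (((toField L x).toMul : (L.F)ˣ) : L.F).2)
      (fun q hq A hA => exists_valuation_eq L (toField L x) d (p ^ a) hn0 hord β hβ q hq A hA)
  obtain ⟨F', hF', hgal, hle⟩ := exists_galois_level_ge S _ hK
  let L' : Tow.Level S := ⟨F', hF', (InfiniteGalois.normal_iff_isGalois _).2 hgal⟩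
  have h : L ≤ L' := le_sup_left.trans hle
  have hβF' : β ∈ F' :=
    hle (le_sup_right (a := L.F) (IntermediateField.mem_adjoin_simple_self ℚ β))
  have hfix : ∀ g ∈ L'.U, Tow.unitsQbar.ρ g (Additive.ofMul (Units.mk0 β hβ0))
      = Additive.ofMul (Units.mk0 β hβ0) := by
    intro g hg
    apply Additive.toMul.injective
    apply Units.ext
    exact (IntermediateField.mem_fixingSubgroup_iff _ _).1 hg β hβF'
  let z : L'.units.V := L'.unitsMk (Additive.ofMul (Units.mk0 β hβ0)) hfix
  -- `p ^ a • z = x` in `F'ˣ`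
  have hz : (p ^ a) • z = (Level.trUnits h).hom x := by
    apply L'.unitsCoe_injective
    show (p ^ a) • (Additive.ofMul (Units.mk0 β hβ0) : Additive (AlgebraicClosure ℚ)ˣ)
      = L.unitsCoe x
    apply Additive.toMul.injective
    apply Units.ext
    show ((Units.mk0 β hβ0) ^ (p ^ a) : (AlgebraicClosure ℚ)ˣ).1 = levelInvVal L x
    rw [Units.val_pow_eq_pow_val, Units.val_mk0, hβ, coe_toField]
  refine ⟨L', h, z, ?_⟩
  have h1 : (p ^ a) • divT L' z = (p ^ a) • divTr h d := by
    rw [← map_nsmul, hz, ← divTr_divT, hx, map_nsmul]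
  ext w
  have h2 := DFunLike.congr_fun h1 w
  rw [Finsupp.smul_apply, Finsupp.smul_apply, nsmul_eq_mul, nsmul_eq_mul] at h2
  exact mul_left_cancel₀ (Nat.cast_ne_zero.2 hn0) h2

end Fermat.Agent.S55.GAD.H57

end
-- ===== PACK-END S55/GAD/CapH57.lean

-- ===== PACK-BEGIN S55/GAD/DivTransH655.lean
section


/-!
# S55 / G-ADAPTER leaf GAD-7b (helper655): transitivity of the extension of divisors

For a tower of number fields `K → L → M` the extension of divisors `divExt` (with ramification
indices, `GAD/DivExt.lean`) is transitive: `e(w|v) = e(w|u) e(u|v)`, proved with a uniformiser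
at `v` and `ordAt_lMap` (no Mathlib tower lemma for `ramificationIdx'` is needed).
Consequence: `divTrTrans : GAD.DivTrTransSpec S`.
-/

set_option autoImplicit false
set_option linter.unusedSectionVars false

open scoped NumberField
open IsDedekindDomain

namespace Fermat.Agent.S55.GAD.H655

open Fermat.Agent.S55 Fermat.Agent.S55.Tow Fermat.Agent.S55.E1.H594 Fermat.Agent.S55.G

noncomputable section

section Tower

variable (S : Finset Nat.Primes) (K L M : Type) [Field K] [NumberField K] [Field L]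
  [NumberField L] [Field M] [NumberField M] [Algebra K L] [Algebra L M] [Algebra K M]
  [IsScalarTower K L M]

lemma underPrime_underPrime (w : HeightOneSpectrum (𝓞 M)) :
    GAD.underPrime K L (GAD.underPrime L M w) = GAD.underPrime K M w := by
  refine HeightOneSpectrum.ext (Ideal.ext fun x => ?_)
  rw [GAD.mem_underPrime_iff, GAD.mem_underPrime_iff, GAD.mem_underPrime_iff]
  have h : algebraMap (𝓞 L) (𝓞 M) (algebraMap (𝓞 K) (𝓞 L) x) = algebraMap (𝓞 K) (𝓞 M) x := by
    apply Subtype.ext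
    exact (IsScalarTower.algebraMap_apply K L M (x : K)).symm
  rw [h]

lemma underOut_underOut (w : PrimeOut S M) :
    GAD.underOut S K L (GAD.underOut S L M w) = GAD.underOut S K M w :=
  Subtype.ext (underPrime_underPrime K L M w.1)

lemma lMap_lMap (x : Additive Kˣ) : lMap L M (lMap K L x) = lMap K M x := by
  apply Additive.toMul.injective
  apply Units.ext
  exact (IsScalarTower.algebraMap_apply K L M ((x.toMul : Kˣ) : K)).symm

/-- **Multiplicativity of the ramification index in towers.** -/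
theorem ramIdx_tower (w : HeightOneSpectrum (𝓞 M)) :
    GAD.ramIdx K M w = GAD.ramIdx L M w * GAD.ramIdx K L (GAD.underPrime L M w) := by
  obtain ⟨ϖ, hϖ⟩ := (GAD.underPrime K M w).valuation_exists_uniformizer K
  have hϖ0 : ϖ ≠ 0 := by
    rintro rfl
    rw [map_zero] at hϖ
    exact WithZero.exp_ne_zero hϖ.symm
  let x : Additive Kˣ := Additive.ofMul (Units.mk0 ϖ hϖ0)
  have hx : ordAt (GAD.underPrime K M w) x = 1 := by
    rw [ordAt_apply]
    change -WithZero.log ((GAD.underPrime K M w).valuation K ϖ) = 1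
    rw [hϖ]
    simp
  have h1 := GAD.ordAt_lMap K M w x
  have h2 := GAD.ordAt_lMap L M w (lMap K L x)
  have h3 := GAD.ordAt_lMap K L (GAD.underPrime L M w) x
  rw [lMap_lMap, h3, underPrime_underPrime, hx, mul_one] at h2
  rw [hx, mul_one] at h1
  have h4 : (GAD.ramIdx K M w : ℤ) =
      (GAD.ramIdx L M w : ℤ) * (GAD.ramIdx K L (GAD.underPrime L M w) : ℤ) := h1.symm.trans h2
  exact_mod_cast h4

/-- **Transitivity of the extension of divisors.** -/
theorem divExt_divExt (d : PrimeOut S K →₀ ℤ) :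
    GAD.divExt S L M (GAD.divExt S K L d) = GAD.divExt S K M d := by
  ext w
  rw [GAD.divExt_apply, GAD.divExt_apply, GAD.divExt_apply, underOut_underOut, ramIdx_tower K L M]
  have : GAD.ramIdx K L (GAD.underOut S L M w).1 = GAD.ramIdx K L (GAD.underPrime L M w.1) := rfl
  rw [this]
  push_cast
  ring

end Tower

variable {S : Finset Nat.Primes}

/-- **GAD-7b** (`GAD/Spec.lean`): exact shape of `DivTrTransSpec S`. -/
theorem divTrTrans (S : Finset Nat.Primes) : GAD.DivTrTransSpec S := by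
  intro L L' L'' h h' d
  letI : Algebra L.F L'.F := GAD.levelAlgebra h
  letI : Algebra L'.F L''.F := GAD.levelAlgebra h'
  letI : Algebra L.F L''.F := GAD.levelAlgebra (h.trans h')
  haveI : IsScalarTower L.F L'.F L''.F := IsScalarTower.of_algebraMap_eq fun _ => rfl
  exact divExt_divExt S L.F L'.F L''.F d

end

end Fermat.Agent.S55.GAD.H655

end
-- ===== PACK-END S55/GAD/DivTransH655.lean

-- ===== PACK-BEGIN S55/GAD/DescH901.lean
section
/-
S55 / G-ADAPTER, leaf GAD-DESC (helper901): Galois descent for the concrete tower datum.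

For levels `L ≤ L'` of `S ≠ ∅`, with `H = Level.relGal h = Gal(L'/L)`:
* `trT_injective`    : the canonical transition map `trT h : C(L) → C(L')` is injective;
* `mem_range_trT_iff`: its image is exactly the `H`-invariants of `C(L')`.
(`C(L) = GAD.CT L = (∏_{q∈S} J_q(L) × Div^S(L)) / Lˣ`.)

Ingredients: Hilbert 90 for `L'/L`, `(L'ˣ)^H = Lˣ`, `J_q(L')^H = J_q(L)` (tower side,
`DescH901J.lean`), `Div^S(L')^H = divTr (Div^S(L))` (`e = 1` outside `S`; helper537's
`exists_divBC_eq_of_invariant`).  Sorry-free.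
-/




set_option autoImplicit false
set_option linter.unusedSectionVars false
set_option linter.style.haveILetI false

open scoped NumberField
open IsDedekindDomain

namespace Fermat.Agent.S55.GAD.H901

open Fermat.Agent.S55 Fermat.Agent.S55.Tow Fermat.Agent.S55.E1.H594 Fermat.Agent.S55.G

noncomputable section

variable {S : Finset Nat.Primes} {L L' : Level S} (h : L ≤ L')

/-! ## 1. `Gal(L'/L)` as a Galois group in the sense of Mathlib -/

/-- The fixed field of `Level.relGal h` is the image of `L.F` (for `GAD.levelAlgebra`). -/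
theorem relGal_fixed_iff (x : L'.F) :
    (∀ n : Level.relGal h, (n : L'.Gal) • x = x) ↔
      x ∈ (@algebraMap L.F L'.F _ _ (GAD.levelAlgebra h)).range := by
  rw [level_relGal_fixed_iff h x]
  constructor
  · rintro ⟨y, hy⟩
    exact ⟨y, hy⟩
  · rintro ⟨y, hy⟩
    exact ⟨y, hy⟩

/-- `Level.relGal h` is a Galois group of `L'.F / L.F`. -/
theorem isGaloisGroup_relGal :
    @IsGaloisGroup (Level.relGal h) L.F L'.F _ _ _ (GAD.levelAlgebra h) _ :=
  letI := GAD.levelAlgebra h
  DescH537.isGaloisGroup_of_fixed L'.Gal L'.F L.F (Level.relGal h) (relGal_fixed_iff h)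

/-- `L'/L` is unramified outside `S`: all ramification indices outside `S` are `1`. -/
theorem ramIdx_eq_one (w : PrimeOut S L'.F) :
    @GAD.ramIdx L.F L'.F _ _ (GAD.levelAlgebra h) w.1 = 1 :=
  letI := GAD.levelAlgebra h
  haveI := isGaloisGroup_relGal h
  DescH537.eIdx_eq_one_of_isUnramOut S L'.Gal L'.F L.F (Level.relGal h) (level_isUnramOut L') w

/-! ## 2. Invariant divisors -/

/-- `Div^S(L')^H = divTr (Div^S(L))`. -/
theorem exists_divTr_eq (d' : PrimeOut S L'.F →₀ ℤ)
    (hd : ∀ σ ∈ Level.relGal h, divRepr S L'.Gal L'.F σ d' = d') :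
    ∃ d : PrimeOut S L.F →₀ ℤ, divTr h d = d' := by
  letI := GAD.levelAlgebra h
  haveI := isGaloisGroup_relGal h
  have hunr : ∀ w : PrimeOut S L'.F, DescH537.eIdx L.F L'.F w.1 = 1 := fun w => ramIdx_eq_one h w
  obtain ⟨d, hd'⟩ := DescH537.exists_divBC_eq_of_invariant S (Level.relGal h) L.F L'.F hunr d'
    (fun g => hd g.1 g.2)
  exact ⟨d, hd'⟩

theorem divTr_injective : Function.Injective (divTr h) :=
  @divExt_injective S L.F L'.F _ _ _ _ (GAD.levelAlgebra h)

/-! ## 3. Hilbert 90 for `L'.units` -/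

/-- **Hilbert 90** for `L'/L` in the tower's language: every 1-cocycle `H → L'ˣ` is a
coboundary. -/
theorem hilbert90_units (c : Level.relGal h → L'.units.V)
    (hc : ∀ σ τ : Level.relGal h, c (σ * τ) = c σ + L'.units.ρ (σ : L'.Gal) (c τ)) :
    ∃ b : L'.units.V, ∀ σ : Level.relGal h, c σ = L'.units.ρ (σ : L'.Gal) b - b := by
  letI := GAD.levelAlgebra h
  haveI := isGaloisGroup_relGal h
  haveI : Finite (Level.relGal h) := inferInstance
  obtain ⟨y, hy⟩ := DescH537.hilbert90 (Level.relGal h) L.F L'.F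
    (fun σ => toField L' (c σ)) (fun σ τ => by
      show toField L' (c (σ * τ)) = toField L' (c σ) + lRepr L'.Gal L'.F (σ : L'.Gal) (toField L' (c τ))
      rw [hc, map_add, toField_equivariant])
  refine ⟨(levelUnitsIso L').hom.hom y, fun σ => ?_⟩
  apply toField_injective L'
  have hb : toField L' ((levelUnitsIso L').hom.hom y) = y :=
    Rep.inv_hom_apply _ _ (levelUnitsIso L') y
  rw [map_sub, toField_equivariant, hb]
  exact hy σ

/-! ## 4. Injectivity of the diagonal and of the transition map -/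

theorem embFun_injective (q : Nat.Primes) : Function.Injective (L.embFun q) := by
  intro x y hxy
  apply L.unitsCoe_injective
  have h1 := congrArg (L.locCoe q) hxy
  rw [Level.locCoe_embFun, Level.locCoe_embFun] at h1
  have h2 : Function.Injective (embQbar q) := by
    intro a b hab
    apply Additive.toMul.injective
    apply Units.ext
    have h3 := congrArg (fun u : (unitsQpbar q).V =>
      ((Additive.toMul u : (PadicAlgCl (q : ℕ))ˣ) : PadicAlgCl (q : ℕ))) hab
    exact (padicEmbedding (q : ℕ)).toRingHom.injective h3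
  exact h2 h1

theorem diagT_injective (hS : S.Nonempty) : Function.Injective (diagT L) := by
  obtain ⟨q, hq⟩ := hS
  intro x y hxy
  have h1 : (diagT L x).1 ⟨q, hq⟩ = (diagT L y).1 ⟨q, hq⟩ := by rw [hxy]
  rw [diagT_fst, diagT_fst] at h1
  have h2 := congrArg (fun f => L.Jeval q f 1) h1
  simp only [Level.Jeval_diag, map_one] at h2
  exact embFun_injective q h2

theorem trJD_injective : Function.Injective (trJD h) := by
  intro y y' hyy
  refine Prod.ext (funext fun q => ?_) ?_
  · have h1 := congrFun (congrArg Prod.fst hyy) q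
    exact inclJ_injective h q.1 h1
  · exact divTr_injective h (congrArg Prod.snd hyy)

/-! ## 5. The descent theorem -/

/-- Invariant elements of `∏ J_q(L') × Div^S(L')` come from `L`. -/
theorem exists_trJD_eq (y' : JDV L')
    (hy : ∀ σ ∈ Level.relGal h, _root_.Fermat.Agent.S55.GAD.jdRepr L' σ y' = y') : ∃ y : JDV L, trJD h y = y' := by
  have hJ : ∀ q : S, ∃ f : (L.J q.1).V, Level.inclJ h q.1 f = y'.1 q := by
    intro q
    refine exists_inclJ_eq h q.1 (y'.1 q) (fun σ hσ => ?_)
    have h1 := congrArg Prod.fst (hy σ hσ)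
    exact congrFun h1 q
  choose f hf using hJ
  obtain ⟨d, hd⟩ := exists_divTr_eq h y'.2 (fun σ hσ => congrArg Prod.snd (hy σ hσ))
  exact ⟨(f, d), Prod.ext (funext hf) hd⟩

/-- **GAD-DESC (a)**: the transition map `C(L) → C(L')` is injective. -/
theorem trT_injective (hS : S.Nonempty) : Function.Injective (trT h).hom := by
  rw [injective_iff_map_eq_zero]
  intro c hc
  obtain ⟨y, rfl⟩ := mkC_surjective L c
  rw [trT_mkC, mkC_eq_zero_iff] at hc
  obtain ⟨x', hx'⟩ := hc
  have hinv : ∀ σ ∈ Level.relGal h, L'.units.ρ σ x' = x' := by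
    intro σ hσ
    apply diagT_injective hS
    rw [diagT_equivariant, hx', ← trJD_equivariant]
    have h1 : Level.proj h σ = 1 := hσ
    rw [h1, map_one]
    rfl
  obtain ⟨x, rfl⟩ := exists_inclUnits_eq h x' hinv
  have h2 : trJD h y = trJD h (diagT L x) := by
    rw [trJD_diagT]
    exact hx'.symm
  rw [trJD_injective h h2]
  exact mkC_diagT L x

/-- **GAD-DESC (b)**: the image of `C(L) → C(L')` is the group of `Gal(L'/L)`-invariants. -/
theorem mem_range_trT_iff (hS : S.Nonempty) (c' : (CT L').V) :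
    c' ∈ Set.range (trT h).hom ↔ ∀ σ ∈ Level.relGal h, (CT L').ρ σ c' = c' := by
  constructor
  · rintro ⟨c, rfl⟩ σ hσ
    have h1 := Rep.hom_comm_apply (trT h) σ c
    have h2 : Level.proj h σ = 1 := hσ
    rw [← h1]
    show (trT h).hom ((CT L).ρ (Level.proj h σ) c) = _
    rw [h2, map_one]
    rfl
  · intro hc
    obtain ⟨y', rfl⟩ := mkC_surjective L' c'
    have hex : ∀ σ : Level.relGal h, ∃ x : L'.units.V,
        diagT L' x = _root_.Fermat.Agent.S55.GAD.jdRepr L' (σ : L'.Gal) y' - y' := by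
      intro σ
      have h1 := hc σ.1 σ.2
      rw [CT_ρ_mkC] at h1
      have h2 : mkC L' (_root_.Fermat.Agent.S55.GAD.jdRepr L' (σ : L'.Gal) y' - y') = 0 := by
        rw [map_sub, h1, sub_self]
      exact (mkC_eq_zero_iff L' _).1 h2
    choose c hcdef using hex
    have hcoc : ∀ σ τ : Level.relGal h, c (σ * τ) = c σ + L'.units.ρ (σ : L'.Gal) (c τ) := by
      intro σ τ
      apply diagT_injective hS
      rw [map_add, diagT_equivariant, hcdef, hcdef, hcdef, Subgroup.coe_mul, map_mul, map_sub]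
      show _root_.Fermat.Agent.S55.GAD.jdRepr L' (σ : L'.Gal) (_root_.Fermat.Agent.S55.GAD.jdRepr L' (τ : L'.Gal) y') - y' = _
      abel
    obtain ⟨b, hb⟩ := hilbert90_units h c hcoc
    have hinv : ∀ σ ∈ Level.relGal h, _root_.Fermat.Agent.S55.GAD.jdRepr L' σ (y' - diagT L' b) = y' - diagT L' b := by
      intro σ hσ
      have h1 := hcdef ⟨σ, hσ⟩
      have h2 := hb ⟨σ, hσ⟩
      rw [h2, map_sub, diagT_equivariant] at h1
      rw [map_sub]
      have h3 : _root_.Fermat.Agent.S55.GAD.jdRepr L' σ y' - y' = _root_.Fermat.Agent.S55.GAD.jdRepr L' σ (diagT L' b) - diagT L' b := h1.symm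
      have h4 : _root_.Fermat.Agent.S55.GAD.jdRepr L' σ y' - _root_.Fermat.Agent.S55.GAD.jdRepr L' σ (diagT L' b) = y' - diagT L' b := by
        rw [sub_eq_sub_iff_add_eq_add] at h3 ⊢
        rw [h3, add_comm]
      exact h4
    obtain ⟨y, hy⟩ := exists_trJD_eq h _ hinv
    refine ⟨mkC L y, ?_⟩
    rw [trT_mkC, hy, map_sub, mkC_diagT, sub_zero]

end

end Fermat.Agent.S55.GAD.H901

end
-- ===== PACK-END S55/GAD/DescH901.lean

-- ===== PACK-BEGIN S55/GAD/H953/InfInj.lean
section
/-
S55 / G-ADAPTER, leaf GAD-INF (gd8), helper953.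

ABSTRACT PART (`T7` of helper293's memo, in the exact shape of `Tow` gd8):
`π : G' →* G` surjective, `A : Rep k G'`, `B : Rep k G`, `f : Rep.res π B ⟶ A` injective with
image the `ker π`-invariants of `A`, `P ≤ ker π` with `H¹(P, A) = 0`, `a` coprime to
`[ker π : P]`.  Then `groupCohomology.map π f 2 : H²(G, B) → H²(G', A)` is injective on the
elements killed by `a`.

Proof: `map π f 2` factors as the isomorphism `H²(G, B) ≅ H²(G' ⧸ ker π, A^{ker π})` followed by
the inflation map, and the latter is injective on `a`-torsion by helper244's `p`-local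
inflation–restriction (`T.H244.infRes2_of_subgroup`).

TOWER PART: `infInj_of : ClassModuleSpec S p → DescSpec S → InfInjSpec S p`.
-/




set_option autoImplicit false
set_option linter.unusedSectionVars false
set_option linter.style.haveILetI false

open CategoryTheory groupCohomology

namespace Fermat.Agent.S55.GAD.H953

open Fermat.Agent.S55 Fermat.Agent.S55.T

noncomputable section

section Abstract

variable {k G' G : Type} [CommRing k] [Group G'] [Group G]
variable (π : G' →* G)
variable (A : Rep.{0} k G') (B : Rep.{0} k G) (f : Rep.res π B ⟶ A)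

/-- The image of `f` consists of `ker π`-invariants. -/
lemma f_mem_invariants (b : B.V) :
    f.hom b ∈ Representation.invariants (A.ρ.comp π.ker.subtype) := by
  intro n
  have h1 := Rep.hom_comm_apply f (n : G') b
  have h2 : (Rep.res π B).ρ (n : G') b = b := by
    show B.ρ (π (n : G')) b = b
    rw [(MonoidHom.mem_ker).1 n.2, map_one]
    rfl
  rw [h2] at h1
  exact h1.symm

/-- `f`, corestricted to the invariants, as a linear equivalence `B ≃ A^{ker π}`. -/
def invEquiv (hf : Function.Injective f.hom)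
    (hrange : ∀ a : A.V, (∀ n ∈ π.ker, A.ρ n a = a) → a ∈ Set.range f.hom) :
    B.V ≃ₗ[k] (A.quotientToInvariants π.ker).V :=
  LinearEquiv.ofBijective
    (f.hom.toLinearMap.codRestrict (Representation.invariants (A.ρ.comp π.ker.subtype))
      (f_mem_invariants π A B f))
    ⟨fun x y h => hf (congrArg Subtype.val h), fun y => by
      obtain ⟨b, hb⟩ := hrange y.1 (fun n hn => y.2 ⟨n, hn⟩)
      exact ⟨b, Subtype.ext hb⟩⟩

lemma invEquiv_coe (hf : Function.Injective f.hom)
    (hrange : ∀ a : A.V, (∀ n ∈ π.ker, A.ρ n a = a) → a ∈ Set.range f.hom) (b : B.V) :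
    ((invEquiv π A B f hf hrange b : (A.quotientToInvariants π.ker).V) : A.V) = f.hom b := rfl

/-- The comparison isomorphism `Hⁿ(G, B) ≅ Hⁿ(G' ⧸ ker π, A^{ker π})`. -/
def compIso (hπ : Function.Surjective π) (hf : Function.Injective f.hom)
    (hrange : ∀ a : A.V, (∀ n ∈ π.ker, A.ρ n a = a) → a ∈ Set.range f.hom) (n : ℕ) :
    groupCohomology B n ≅ groupCohomology (A.quotientToInvariants π.ker) n :=
  groupCohomology.mapIso (QuotientGroup.quotientKerEquivOfSurjective π hπ).symm
    (invEquiv π A B f hf hrange) (fun g => by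
      obtain ⟨g', rfl⟩ := hπ g
      refine LinearMap.ext fun b => Subtype.ext ?_
      have he : (QuotientGroup.quotientKerEquivOfSurjective π hπ).symm (π g') =
          (QuotientGroup.mk g' : G' ⧸ π.ker) := by
        rw [MulEquiv.symm_apply_eq]
        rfl
      show f.hom (B.ρ (π g') b) = _
      rw [he]
      exact Rep.hom_comm_apply f g' b) n

/-- `map π f n` is the comparison isomorphism followed by inflation. -/
lemma map_eq_compIso_infMap (hπ : Function.Surjective π) (hf : Function.Injective f.hom)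
    (hrange : ∀ a : A.V, (∀ n ∈ π.ker, A.ρ n a = a) → a ∈ Set.range f.hom) (n : ℕ) :
    groupCohomology.map π f n = (compIso π A B f hπ hf hrange n).hom ≫ infMap A π.ker n := by
  unfold compIso
  rw [groupCohomology.mapIso_hom]
  rw [← groupCohomology.map_comp]
  refine groupCohomology.map_congr ?_ ?_ n
  · ext g'
    rfl
  · rfl

/-- **Abstract gd8.**  `map π f 2` is injective on the elements killed by `a`, if `a` is coprime
to the index of a subgroup `P ≤ ker π` with `H¹(P, A) = 0`. -/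
theorem map_eq_zero_imp (hπ : Function.Surjective π) (hf : Function.Injective f.hom)
    (hrange : ∀ a : A.V, (∀ n ∈ π.ker, A.ρ n a = a) → a ∈ Set.range f.hom)
    [Finite π.ker] (P : Subgroup π.ker)
    (hP : ∀ z : groupCohomology (resSub (resSub A π.ker) P) 1, z = 0)
    {a : ℕ} (ha : a.Coprime P.index)
    (z : groupCohomology B 2) (haz : a • z = 0)
    (hz : (groupCohomology.map π f 2).hom z = 0) : z = 0 := by
  have hfac := map_eq_compIso_infMap π A B f hπ hf hrange 2
  set e := compIso π A B f hπ hf hrange 2 with he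
  have hy : (infMap A π.ker 2).hom (e.hom.hom z) = 0 := by
    have : (groupCohomology.map π f 2).hom z = (infMap A π.ker 2).hom (e.hom.hom z) := by
      rw [hfac]
      rfl
    rw [← this]
    exact hz
  have hay : a • e.hom.hom z = 0 := by
    rw [← map_nsmul, haz, map_zero]
  have h0 : e.hom.hom z = 0 :=
    (H244.infRes2_of_subgroup A π.ker P hP ha).1 _ hay hy
  have hinj : Function.Injective e.hom.hom := by
    intro x y hxy
    have := congrArg e.inv.hom hxy
    simpa using this
  exact hinj (h0.trans (map_zero _).symm)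

end Abstract

section Tower

open Fermat.Agent.S55.Tow

variable (S : Finset Nat.Primes) (p : ℕ)

/-- **GAD-DESC** (refined Galois descent for the CANONICAL transition map of the concrete
datum): `trT h : C(L) → C(L')` is injective, and every `Gal(L'/L)`-invariant element of `C(L')`
is in its image. -/
def DescSpec : Prop :=
  ∀ {L L' : Level S} (h : L ≤ L'), Function.Injective (trT h).hom ∧
    ∀ c : (CT L').V, (∀ n ∈ Level.relGal h, (CT L').ρ n c = c) → c ∈ Set.range (trT h).hom

/-- The `H¹`-vanishing half of GAD-CM (`gd1`): `H¹(H, C(L)) = 0` for every `p`-subgroup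
`H ≤ Gal(L/ℚ)`, `L ⊇ μ_p`.  (Consequence of `ClassModuleSpec`; equivalently of `G.PClassUpperSpec`
transported along GAD-ISO.) -/
def H1VanishSpec : Prop :=
  ∀ L : Level S, L.HasMu p → ∀ H : Subgroup L.Gal, IsPGroup p H →
    Limits.IsZero (groupCohomology (T.resSub (CT L) H) 1)

variable {S p}

theorem h1Vanish_of_classModule (hCM : ClassModuleSpec S p) : H1VanishSpec S p := by
  intro L hL H hH
  obtain ⟨γ, hγ⟩ := hCM L hL
  exact (hγ H hH).1

/-- **GAD-INF (gd8) from `H¹`-vanishing and descent.** -/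
theorem infInj_of_h1Vanish (hp : p.Prime) (h1 : H1VanishSpec S p) (hD : DescSpec S) :
    InfInjSpec S p := by
  intro L L' h hL z hz hinf
  haveI : Fact p.Prime := ⟨hp⟩
  have hL' : L'.HasMu p := hL.mono h
  obtain ⟨hinj, hrange⟩ := hD h
  have hsurj : Function.Surjective (Level.proj h) := by
    intro g
    induction g using QuotientGroup.induction_on with
    | H σ => exact ⟨QuotientGroup.mk σ, rfl⟩
  obtain ⟨P⟩ : Nonempty (Sylow p (Level.proj h).ker) := inferInstance
  have hPp : IsPGroup p ((P : Subgroup (Level.proj h).ker).map (Level.proj h).ker.subtype) :=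
    P.isPGroup'.map _
  have hP : ∀ z : groupCohomology
      (resSub (resSub (CT L') (Level.proj h).ker) (P : Subgroup (Level.proj h).ker)) 1, z = 0 :=
    H954.eq_zero_of_iso_of_isZero
      (H954.resResIso (CT L') (Level.proj h).ker (P : Subgroup (Level.proj h).ker) 1)
      (h1 L' hL' _ hPp)
  have hcop : p.Coprime (P : Subgroup (Level.proj h).ker).index :=
    (Nat.Prime.coprime_iff_not_dvd hp).2 P.not_dvd_index
  exact map_eq_zero_imp (Level.proj h) (CT L') (CT L) (trT h) hsurj hinj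
    (fun c hc => hrange c hc) (P : Subgroup (Level.proj h).ker) hP hcop z hz hinf

/-- **GAD-INF (gd8) from GAD-CM and GAD-DESC.** -/
theorem infInj_of (hp : p.Prime) (hCM : ClassModuleSpec S p) (hD : DescSpec S) :
    InfInjSpec S p :=
  infInj_of_h1Vanish hp (h1Vanish_of_classModule hCM) hD

end Tower

end

end Fermat.Agent.S55.GAD.H953

end
-- ===== PACK-END S55/GAD/H953/InfInj.lean

-- ===== PACK-BEGIN S55/H963/RayL.lean
section


/-!
# S55 / leaf RAY-N1 (helper963): ray class `L`-series are bounded on `(1, 2]`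

For a ray datum `D` with finite class group `A` on which `ψ` is surjective:
* `exists_zeta_sub_bound_of_surj` : all partial zeta functions differ by `O(1)`;
* `exists_LSum_bound` : for a nontrivial character `χ` of `A`, the series
  `L(s, χ) = ∑_{I coprime to m} χ(ψ I) N(I)^(-s)` is bounded on `(1, 2]`.
-/

set_option autoImplicit false

namespace Fermat.Agent.S55.H963

open NumberField

variable {K : Type*} [Field K] [NumberField K] {A : Type*} [CommGroup A]

namespace RayDatum

variable (D : RayDatum K A)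

/-- `ψ` is surjective on the nonzero ideals coprime to the modulus. -/
def IsSurj : Prop :=
  ∀ a : A, ∃ 𝔠 : Ideal (𝓞 K), 𝔠 ≠ ⊥ ∧ IsCoprime 𝔠 D.m ∧ D.ψ 𝔠 = a

/-- **RAY-N1, uniform version.** -/
theorem exists_zeta_sub_bound_of_surj [Finite A] (hsurj : D.IsSurj) :
    ∃ B : ℝ, ∀ s : ℝ, 1 < s → s ≤ 2 → ∀ a a' : A, |D.zeta a s - D.zeta a' s| ≤ B := by
  classical
  have _ : Fintype A := Fintype.ofFinite A
  have key : ∀ p : A × A, ∃ B : ℝ, ∀ s : ℝ, 1 < s → s ≤ 2 →
      |D.zeta p.1 s - D.zeta p.2 s| ≤ B := by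
    rintro ⟨a, a'⟩
    obtain ⟨𝔠, h𝔠, h𝔠m, h𝔠ψ⟩ := hsurj (a⁻¹ * a')
    obtain ⟨B, hB⟩ := D.exists_zeta_sub_bound' 𝔠 h𝔠 h𝔠m a
    refine ⟨B, fun s hs1 hs2 => ?_⟩
    have := hB s hs1 hs2
    rwa [h𝔠ψ, mul_inv_cancel_left] at this
  choose B hB using key
  refine ⟨∑ p : A × A, |B p|, fun s hs1 hs2 a a' => ?_⟩
  refine ((hB (a, a') s hs1 hs2).trans (le_abs_self _)).trans ?_
  exact Finset.single_le_sum (f := fun p => |B p|) (fun p _ => abs_nonneg _)
    (Finset.mem_univ (a, a'))

/-- The nonzero ideals coprime to the modulus. -/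
def all : Set (Ideal (𝓞 K)) := {I | I ≠ ⊥ ∧ IsCoprime I D.m}

/-- The `L`-series of the character `χ ∘ ψ`, for a real argument. -/
noncomputable def LSum (χ : A →* ℂˣ) (s : ℝ) : ℂ :=
  ∑' I : D.all, ((χ (D.ψ I) : ℂˣ) : ℂ) *
    (((Ideal.absNorm (I : Ideal (𝓞 K)) : ℝ) ^ (-s) : ℝ) : ℂ)

theorem norm_char [Finite A] (χ : A →* ℂˣ) (a : A) : ‖((χ a : ℂˣ) : ℂ)‖ = 1 := by
  have _ : Fintype A := Fintype.ofFinite A
  have h1 : ((χ a : ℂˣ) : ℂ) ^ (Fintype.card A) = 1 := by
    rw [← Units.val_pow_eq_pow_val, ← map_pow, pow_card_eq_one, map_one, Units.val_one]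
  exact Complex.norm_eq_one_of_pow_eq_one h1 Fintype.card_ne_zero

theorem sum_char_eq_zero [Fintype A] (χ : A →* ℂˣ) (hχ : χ ≠ 1) :
    ∑ a : A, ((χ a : ℂˣ) : ℂ) = 0 := by
  have h := sum_hom_units_eq_zero ((Units.coeHom ℂ).comp χ) (by
    intro h
    apply hχ
    ext a
    have := DFunLike.congr_fun h a
    simpa using this)
  simpa using h

/-- The `L`-series as a combination of partial zeta functions. -/
theorem LSum_eq_sum [Fintype A] (χ : A →* ℂˣ) {s : ℝ} (hs : 1 < s) :
    D.LSum χ s = ∑ a : A, ((χ a : ℂˣ) : ℂ) * ((D.zeta a s : ℝ) : ℂ) := by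
  classical
  unfold LSum
  set f : Ideal (𝓞 K) → ℂ := fun I =>
    ((χ (D.ψ I) : ℂˣ) : ℂ) * (((Ideal.absNorm I : ℝ) ^ (-s) : ℝ) : ℂ) with hf
  have hsub : ∀ a : A, Summable fun I : D.cls a => f I := by
    intro a
    have h1 : Summable fun I : D.cls a =>
        (((Ideal.absNorm (I : Ideal (𝓞 K)) : ℝ) ^ (-s) : ℝ) : ℂ) :=
      Complex.summable_ofReal.mpr (D.summable_cls a hs)
    refine (h1.mul_left ((χ a : ℂˣ) : ℂ)).congr fun I => ?_
    show _ = ((χ (D.ψ (I : Ideal (𝓞 K))) : ℂˣ) : ℂ) * _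
    rw [I.2.2.2]
  have hval : ∀ a : A, ∑' I : D.cls a, f I = ((χ a : ℂˣ) : ℂ) * ((D.zeta a s : ℝ) : ℂ) := by
    intro a
    unfold zeta
    rw [Complex.ofReal_tsum, ← tsum_mul_left]
    congr 1
    funext I
    show ((χ (D.ψ (I : Ideal (𝓞 K))) : ℂˣ) : ℂ) * _ = _
    rw [I.2.2.2]
  have h1 : ∀ a : A, Summable ((D.cls a).indicator f) := fun a =>
    summable_subtype_iff_indicator.mp (hsub a)
  have h2 : (D.all).indicator f = fun I => ∑ a : A, (D.cls a).indicator f I := by
    funext I
    by_cases hI : I ∈ D.all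
    · rw [Set.indicator_of_mem hI, Finset.sum_eq_single (D.ψ I)]
      · rw [Set.indicator_of_mem]
        exact ⟨hI.1, hI.2, rfl⟩
      · intro a _ ha
        rw [Set.indicator_of_notMem]
        rintro ⟨-, -, h⟩
        exact ha h.symm
      · intro h
        exact absurd (Finset.mem_univ _) h
    · rw [Set.indicator_of_notMem hI]
      symm
      apply Finset.sum_eq_zero
      intro a _
      rw [Set.indicator_of_notMem]
      rintro ⟨h1, h2, -⟩
      exact hI ⟨h1, h2⟩
  rw [tsum_subtype (D.all) f, h2, Summable.tsum_finsetSum (fun a _ => h1 a)]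
  refine Finset.sum_congr rfl fun a _ => ?_
  rw [← tsum_subtype (D.cls a) f]
  exact hval a

/-- **Ray class `L`-series are bounded near `s = 1`.** -/
theorem exists_LSum_bound [Finite A] (hsurj : D.IsSurj) (χ : A →* ℂˣ) (hχ : χ ≠ 1) :
    ∃ B : ℝ, ∀ s : ℝ, 1 < s → s ≤ 2 → ‖D.LSum χ s‖ ≤ B := by
  classical
  have _ : Fintype A := Fintype.ofFinite A
  obtain ⟨B, hB⟩ := D.exists_zeta_sub_bound_of_surj hsurj
  refine ⟨Fintype.card A * B, fun s hs1 hs2 => ?_⟩
  rw [D.LSum_eq_sum χ hs1]
  have h0 : ∑ a : A, ((χ a : ℂˣ) : ℂ) * ((D.zeta 1 s : ℝ) : ℂ) = 0 := by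
    rw [← Finset.sum_mul, sum_char_eq_zero χ hχ, zero_mul]
  have h1 : ∑ a : A, ((χ a : ℂˣ) : ℂ) * ((D.zeta a s : ℝ) : ℂ) =
      ∑ a : A, ((χ a : ℂˣ) : ℂ) * (((D.zeta a s - D.zeta 1 s : ℝ)) : ℂ) := by
    rw [← sub_zero (∑ a : A, ((χ a : ℂˣ) : ℂ) * ((D.zeta a s : ℝ) : ℂ)), ← h0,
      ← Finset.sum_sub_distrib]
    refine Finset.sum_congr rfl fun a _ => ?_
    push_cast
    ring
  rw [h1]
  refine (norm_sum_le _ _).trans ?_
  have h2 : ∀ a ∈ (Finset.univ : Finset A),
      ‖((χ a : ℂˣ) : ℂ) * (((D.zeta a s - D.zeta 1 s : ℝ)) : ℂ)‖ ≤ B := by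
    intro a _
    rw [norm_mul, norm_char χ a, one_mul, Complex.norm_real, Real.norm_eq_abs]
    exact hB s hs1 hs2 a 1
  refine (Finset.sum_le_sum h2).trans ?_
  rw [Finset.sum_const, Finset.card_univ, nsmul_eq_mul]

end RayDatum

end Fermat.Agent.S55.H963

end
-- ===== PACK-END S55/H963/RayL.lean

-- ===== PACK-BEGIN S55/L/Inv481/Main.lean
section


/-!
# S55 / layer L / leaf L-C2 (helper481): the invariant maps (`InvSpec`)

From the unramified invariant maps (`UnrInvSpec`), `H²(L/K)` cyclic of order `[L : K]`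
(`H2CyclicSpec`), existence and cyclicity of unramified extensions and two facts on unramified
subextensions (`UnrNestSpec`, `UnrBCSpec`) we construct the invariant maps of all finite Galois
extensions of local fields with all their compatibilities.
-/

set_option autoImplicit false
set_option linter.style.haveILetI false

namespace Fermat.Agent.S55.L.Inv481

open groupCohomology

section Main

variable (U : UnrInvFamily) (hEx : UnramifiedExistsSpec) (hCyc : UnramifiedCyclicSpec)
  (hH2 : H2CyclicSpec) (hNest : UnrNestSpec) (hBC : UnrBCSpec)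

/-- the chosen good datum of `(K, L)` -/
noncomputable def chosenDatum (K L : Type) [Field K] [Field L] [Algebra K L]
    [FiniteDimensional K L] [IsGalois K L] [IsLocalFld K] : {D : Datum K L // D.Good} :=
  Classical.choice (let ⟨D, hD⟩ := exists_good hEx hCyc hH2 K L; ⟨⟨D, hD⟩⟩)

/-- **The invariant map** of a finite Galois extension of local fields. -/
noncomputable def invMap (K L : Type) [Field K] [Field L] [Algebra K L]
    [FiniteDimensional K L] [IsGalois K L] [IsLocalFld K] :
    H2 (unitsRep K L) →+ AddCircle (1 : ℚ) :=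
  (U.inv K (chosenDatum hEx hCyc hH2 K L).1.E).comp
    ((chosenDatum hEx hCyc hH2 K L).1.phi (chosenDatum hEx hCyc hH2 K L).2)

include hNest in
/-- the invariant can be computed from any datum -/
theorem invMap_eq (K L : Type) [Field K] [Field L] [Algebra K L]
    [FiniteDimensional K L] [IsGalois K L] [IsLocalFld K]
    {M E : Type} [Field M] [Field E] [Algebra K M] [Algebra K E]
    [FiniteDimensional K M] [IsGalois K M] [FiniteDimensional K E] [IsGalois K E]
    (hu : IsUnramifiedExt K E) (a : L →ₐ[K] M) (b : E →ₐ[K] M)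
    (x : H2 (unitsRep K L)) (y : H2 (unitsRep K E))
    (h : (embPair b).pull y = (embPair a).pull x) :
    invMap U hEx hCyc hH2 K L x = U.inv K E y :=
  unr_inv_eq U hEx hCyc hNest (chosenDatum hEx hCyc hH2 K L).1.unr hu
    (chosenDatum hEx hCyc hH2 K L).1.jL (chosenDatum hEx hCyc hH2 K L).1.jE a b x _ y
    (Datum.phi_spec _ _ x) h

theorem invMap_injective (K L : Type) [Field K] [Field L] [Algebra K L]
    [FiniteDimensional K L] [IsGalois K L] [IsLocalFld K] :
    Function.Injective (invMap U hEx hCyc hH2 K L) := by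
  intro x x' h
  exact Datum.phi_injective _ _ (U.inv_injective K _ (chosenDatum hEx hCyc hH2 K L).1.unr h)

include hNest in
theorem invMap_inflation (K L L' : Type) [Field K] [Field L] [Field L'] [Algebra K L]
    [Algebra K L'] [Algebra L L'] [IsScalarTower K L L'] [FiniteDimensional K L]
    [FiniteDimensional K L'] [IsGalois K L] [IsGalois K L'] [IsLocalFld K]
    (f : cocycles₂ (unitsRep K L)) (f' : cocycles₂ (unitsRep K L')) (h : IsInflation f f') :
    invMap U hEx hCyc hH2 K L' (cls f') = invMap U hEx hCyc hH2 K L (cls f) := by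
  have hx' : (inflPair K L L').pull (cls f) = cls f' :=
    ((isInflation_iff_isPull f f').mp h).pull_cls
  symm
  rw [invMap_eq U hEx hCyc hH2 hNest K L (chosenDatum hEx hCyc hH2 K L').1.unr
    ((chosenDatum hEx hCyc hH2 K L').1.jL.comp (IsScalarTower.toAlgHom K L L'))
    (chosenDatum hEx hCyc hH2 K L').1.jE (cls f)
    ((chosenDatum hEx hCyc hH2 K L').1.phi (chosenDatum hEx hCyc hH2 K L').2 (cls f')) ?_]
  · rfl
  · rw [Datum.phi_spec, embPair_pull_comp, ← inflPair_eq_embPair, hx']

include hNest in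
theorem invMap_unramified (K L : Type) [Field K] [Field L] [Algebra K L]
    [FiniteDimensional K L] [IsGalois K L] [IsLocalFld K] (hu : IsUnramifiedExt K L)
    (A : ValuationSubring K) (hA : IsLocalRingOfIntegers A)
    (φ : L ≃ₐ[K] L) (hφ : IsFrobeniusElt K L φ)
    (π : Kˣ) (hπ : IsUniformizer A (π : K))
    (f : cocycles₂ (unitsRep K L)) (hf : IsCyclicCocycle φ π f) :
    invMap U hEx hCyc hH2 K L (cls f) = (((Module.finrank K L : ℚ)⁻¹ : ℚ) : AddCircle (1 : ℚ)) := by
  rw [invMap_eq U hEx hCyc hH2 hNest K L hu (AlgHom.id K L) (AlgHom.id K L) (cls f) (cls f) rfl]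
  exact U.inv_unramified K L hu A hA φ hφ π hπ f hf

include hNest hBC in
/-- restriction, computed on an arbitrary datum -/
theorem invMap_restriction_aux (K K' L : Type) [Field K] [Field K'] [Field L] [Algebra K K']
    [Algebra K L] [Algebra K' L] [IsScalarTower K K' L] [FiniteDimensional K L]
    [FiniteDimensional K' L] [IsGalois K L] [IsGalois K' L] [IsLocalFld K] [IsLocalFld K']
    {M E : Type} [Field M] [Field E] [Algebra K M] [Algebra K E]
    [FiniteDimensional K M] [IsGalois K M] [FiniteDimensional K E] [IsGalois K E]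
    (hu : IsUnramifiedExt K E) (a : L →ₐ[K] M) (b : E →ₐ[K] M)
    (x : H2 (unitsRep K L)) (y : H2 (unitsRep K E))
    (h : (embPair b).pull y = (embPair a).pull x) :
    invMap U hEx hCyc hH2 K' L ((resPair K K' L).pull x) =
      Module.finrank K K' • U.inv K E y := by
  letI aK'M : Algebra K' M := ((a : L →+* M).comp (algebraMap K' L)).toAlgebra
  haveI tKK'M : IsScalarTower K K' M := IsScalarTower.of_algebraMap_eq (fun r => by
    change algebraMap K M r = a (algebraMap K' L (algebraMap K K' r))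
    rw [← IsScalarTower.algebraMap_apply K K' L, a.commutes])
  haveI : FiniteDimensional K K' := FiniteDimensional.left K K' L
  haveI : FiniteDimensional K' M := FiniteDimensional.right K K' M
  haveI : IsGalois K' M := IsGalois.tower_top_of_isGalois K K' M
  -- the unramified extension `E'` of `K'` inside `M`
  obtain ⟨E', hu', hsub⟩ := hBC K K' M b.fieldRange (isUnramifiedExt_fieldRange b hu)
  haveI : IsGalois K' E' := (hCyc K' E' hu').1
  -- `E'` is an `E`-algebra
  let ιE : E →+* E' :=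
    { toFun := fun z => ⟨b z, hsub _ ⟨z, rfl⟩⟩
      map_one' := Subtype.ext (map_one b)
      map_mul' := fun _ _ => Subtype.ext (map_mul b _ _)
      map_zero' := Subtype.ext (map_zero b)
      map_add' := fun _ _ => Subtype.ext (map_add b _ _) }
  letI : Algebra E E' := ιE.toAlgebra
  haveI : IsScalarTower K E E' := IsScalarTower.of_algebraMap_eq (fun r => Subtype.ext (by
    change algebraMap K M r = b (algebraMap K E r)
    rw [b.commutes]))
  let a' : L →ₐ[K'] M := { (a : L →+* M) with commutes' := fun r => rfl }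
  obtain ⟨c, rfl⟩ := exists_cls_eq y
  have hbc := U.inv_baseChange K K' E E' hu hu' c ((bcPair K K' E E').pullCocycle c)
    ((isBaseChange_iff_isPull _ _).mpr (GalPair.isPull_pullCocycle _ _))
  rw [← GalPair.pull_cls] at hbc
  rw [← hbc]
  apply invMap_eq U hEx hCyc hH2 hNest K' L hu' a' E'.val
  rw [GalPair.pull_pull (bcPair K K' E E') (embPair E'.val)
      ((embPair b).comp (resPair K K' M)) (RingHom.ext fun _ => rfl),
    GalPair.pull_pull (resPair K K' L) (embPair a')
      ((embPair a).comp (resPair K K' M)) (RingHom.ext fun _ => rfl),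
    GalPair.pull_comp, GalPair.pull_comp, h]

include hNest hBC in
theorem invMap_restriction (K K' L : Type) [Field K] [Field K'] [Field L] [Algebra K K']
    [Algebra K L] [Algebra K' L] [IsScalarTower K K' L] [FiniteDimensional K L]
    [FiniteDimensional K' L] [IsGalois K L] [IsGalois K' L] [IsLocalFld K] [IsLocalFld K']
    (f : cocycles₂ (unitsRep K L)) (f' : cocycles₂ (unitsRep K' L)) (h : IsRestriction f f') :
    invMap U hEx hCyc hH2 K' L (cls f') =
      Module.finrank K K' • invMap U hEx hCyc hH2 K L (cls f) := by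
  have hx' : (resPair K K' L).pull (cls f) = cls f' :=
    ((isRestriction_iff_isPull f f').mp h).pull_cls
  rw [← hx']
  exact invMap_restriction_aux U hEx hCyc hH2 hNest hBC K K' L
    (chosenDatum hEx hCyc hH2 K L).1.unr (chosenDatum hEx hCyc hH2 K L).1.jL
    (chosenDatum hEx hCyc hH2 K L).1.jE (cls f) _ (Datum.phi_spec _ _ (cls f))

end Main

section BaseEquiv

variable {K L K' L' : Type} [Field K] [Field L] [Algebra K L] [Field K'] [Field L']
  [Algebra K' L'] [FiniteDimensional K L] [IsGalois K L] [FiniteDimensional K' L']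
  [IsGalois K' L']

/-- compatible isomorphisms `L ≃ L'`, `Gal(L/K) ≃ Gal(L'/K')` induce an isomorphism `K ≃ K'` -/
theorem exists_baseEquiv (e : L ≃+* L') (c : (L ≃ₐ[K] L) ≃* (L' ≃ₐ[K'] L'))
    (hc : ∀ (g : L ≃ₐ[K] L) (x : L), c g (e x) = e (g x)) :
    ∃ e₀ : K ≃+* K', ∀ a, algebraMap K' L' (e₀ a) = e (algebraMap K L a) := by
  have h1 : ∀ a : K, ∃ a' : K', algebraMap K' L' a' = e (algebraMap K L a) := by
    intro a
    have hmem : e (algebraMap K L a) ∈ (⊥ : IntermediateField K' L') := by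
      rw [IsGalois.mem_bot_iff_fixed]
      intro σ
      have := hc (c.symm σ) (algebraMap K L a)
      rw [MulEquiv.apply_symm_apply, AlgEquiv.commutes] at this
      exact this
    exact IntermediateField.mem_bot.mp hmem
  have h2 : ∀ a' : K', ∃ a : K, algebraMap K L a = e.symm (algebraMap K' L' a') := by
    intro a'
    have hmem : e.symm (algebraMap K' L' a') ∈ (⊥ : IntermediateField K L) := by
      rw [IsGalois.mem_bot_iff_fixed]
      intro σ
      apply e.injective
      rw [← hc σ, e.apply_symm_apply, AlgEquiv.commutes]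
    exact IntermediateField.mem_bot.mp hmem
  choose φ hφ using h1
  choose ψ hψ using h2
  refine ⟨{ toFun := φ, invFun := ψ, left_inv := ?_, right_inv := ?_, map_mul' := ?_,
            map_add' := ?_ }, hφ⟩
  · intro a
    apply (algebraMap K L).injective
    rw [hψ, hφ, e.symm_apply_apply]
  · intro a'
    apply (algebraMap K' L').injective
    rw [hφ, hψ, e.apply_symm_apply]
  · intro a b
    apply (algebraMap K' L').injective
    rw [hφ, map_mul, map_mul, map_mul, hφ, hφ]
  · intro a b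
    apply (algebraMap K' L').injective
    rw [hφ, map_add, map_add, map_add, hφ, hφ]

end BaseEquiv

section MainTransport

variable (U : UnrInvFamily) (hEx : UnramifiedExistsSpec) (hCyc : UnramifiedCyclicSpec)
  (hH2 : H2CyclicSpec) (hNest : UnrNestSpec)

include hNest in
/-- transport, computed on an arbitrary datum -/
theorem invMap_transport_aux (K L K' L' : Type) [Field K] [Field L] [Algebra K L] [Field K']
    [Field L'] [Algebra K' L'] [FiniteDimensional K L] [FiniteDimensional K' L'] [IsGalois K L]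
    [IsGalois K' L'] [IsLocalFld K] [IsLocalFld K']
    (e : L ≃+* L') (c : (L ≃ₐ[K] L) ≃* (L' ≃ₐ[K'] L'))
    (hc : ∀ (g : L ≃ₐ[K] L) (x : L), c g (e x) = e (g x))
    {M E : Type} [Field M] [Field E] [Algebra K M] [Algebra K E]
    [FiniteDimensional K M] [IsGalois K M] [FiniteDimensional K E] [IsGalois K E]
    (hu : IsUnramifiedExt K E) (a : L →ₐ[K] M) (b : E →ₐ[K] M)
    (x : H2 (unitsRep K L)) (y : H2 (unitsRep K E))
    (h : (embPair b).pull y = (embPair a).pull x) :
    invMap U hEx hCyc hH2 K' L' ((transPair e c hc).pull x) = U.inv K E y := by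
  obtain ⟨e₀, he₀⟩ := exists_baseEquiv e c hc
  letI aM : Algebra K' M := ((algebraMap K M).comp (e₀.symm : K' →+* K)).toAlgebra
  letI aE : Algebra K' E := ((algebraMap K E).comp (e₀.symm : K' →+* K)).toAlgebra
  have hM : ∀ r, algebraMap K' M (e₀ r) = algebraMap K M r := fun r => by
    change algebraMap K M (e₀.symm (e₀ r)) = _
    rw [e₀.symm_apply_apply]
  have hE : ∀ r, algebraMap K' E (e₀ r) = algebraMap K E r := fun r => by
    change algebraMap K E (e₀.symm (e₀ r)) = _
    rw [e₀.symm_apply_apply]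
  haveI : IsGalois K' M := IsGalois.of_equiv_equiv (F := K) (E := M) (f := e₀)
    (g := RingEquiv.refl M) (by ext r; exact hM r)
  haveI : IsGalois K' E := IsGalois.of_equiv_equiv (F := K) (E := E) (f := e₀)
    (g := RingEquiv.refl E) (by ext r; exact hE r)
  haveI : FiniteDimensional K' M := Module.Finite.of_equiv_equiv e₀ (RingEquiv.refl M)
    (by ext r; exact hM r)
  haveI : FiniteDimensional K' E := Module.Finite.of_equiv_equiv e₀ (RingEquiv.refl E)
    (by ext r; exact hE r)
  have hu' : IsUnramifiedExt K' E :=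
    isUnramifiedExt_of_equiv e₀ (RingEquiv.refl E) (fun r => (hE r).symm) hu
  let a' : L' →ₐ[K'] M :=
    { (a : L →+* M).comp (e.symm : L' →+* L) with
      commutes' := fun r' => by
        obtain ⟨r, rfl⟩ := e₀.surjective r'
        change a (e.symm (algebraMap K' L' (e₀ r))) = algebraMap K' M (e₀ r)
        rw [he₀, e.symm_apply_apply, hM, a.commutes] }
  let b' : E →ₐ[K'] M :=
    { (b : E →+* M) with
      commutes' := fun r' => by
        obtain ⟨r, rfl⟩ := e₀.surjective r'
        change b (algebraMap K' E (e₀ r)) = algebraMap K' M (e₀ r)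
        rw [hE, hM, b.commutes] }
  obtain ⟨cy, rfl⟩ := exists_cls_eq y
  have ht := U.inv_transport K E K' E hu hu' (RingEquiv.refl E) (autCongrBase e₀ hE)
    (fun _ _ => rfl) cy ((basePair e₀ hE).pullCocycle cy)
    ((isTransport_iff_isPull _ _ _ _ _).mpr (GalPair.isPull_pullCocycle _ _))
  rw [← GalPair.pull_cls] at ht
  rw [← ht]
  apply invMap_eq U hEx hCyc hH2 hNest K' L' hu' a' b'
  rw [GalPair.pull_pull (basePair e₀ hE) (embPair b')
      ((embPair b).comp (basePair e₀ hM)) (RingHom.ext fun _ => rfl),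
    GalPair.pull_pull (transPair e c hc) (embPair a')
      ((embPair a).comp (basePair e₀ hM))
      (RingHom.ext fun z => congrArg a (e.symm_apply_apply z).symm),
    GalPair.pull_comp, GalPair.pull_comp, h]

include hNest in
theorem invMap_transport (K L K' L' : Type) [Field K] [Field L] [Algebra K L] [Field K']
    [Field L'] [Algebra K' L'] [FiniteDimensional K L] [FiniteDimensional K' L'] [IsGalois K L]
    [IsGalois K' L'] [IsLocalFld K] [IsLocalFld K']
    (e : L ≃+* L') (c : (L ≃ₐ[K] L) ≃* (L' ≃ₐ[K'] L'))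
    (hc : ∀ (g : L ≃ₐ[K] L) (x : L), c g (e x) = e (g x))
    (f : cocycles₂ (unitsRep K L)) (f' : cocycles₂ (unitsRep K' L'))
    (h : IsTransport e c f f') :
    invMap U hEx hCyc hH2 K' L' (cls f') = invMap U hEx hCyc hH2 K L (cls f) := by
  have hx' : (transPair e c hc).pull (cls f) = cls f' :=
    ((isTransport_iff_isPull e c hc f f').mp h).pull_cls
  rw [← hx']
  exact invMap_transport_aux U hEx hCyc hH2 hNest K L K' L' e c hc
    (chosenDatum hEx hCyc hH2 K L).1.unr (chosenDatum hEx hCyc hH2 K L).1.jL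
    (chosenDatum hEx hCyc hH2 K L).1.jE (cls f) _ (Datum.phi_spec _ _ (cls f))

end MainTransport

section Final

/-- **L-C2** (`InvSpec`): the invariant maps exist. -/
theorem inv_of' (hEx : UnramifiedExistsSpec) (hCyc : UnramifiedCyclicSpec)
    (hH2 : H2CyclicSpec) (hU : UnrInvSpec) (hNest : UnrNestSpec) (hBC : UnrBCSpec) :
    InvSpec := by
  obtain ⟨U⟩ := hU
  exact ⟨{
    inv := fun K L _ _ _ _ _ _ => invMap U hEx hCyc hH2 K L
    inv_injective := fun K L _ _ _ _ _ _ => invMap_injective U hEx hCyc hH2 K L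
    inv_inflation := fun K L L' _ _ _ _ _ _ _ _ _ _ _ _ f f' h =>
      invMap_inflation U hEx hCyc hH2 hNest K L L' f f' h
    inv_restriction := fun K K' L _ _ _ _ _ _ _ _ _ _ _ _ _ f f' h =>
      invMap_restriction U hEx hCyc hH2 hNest hBC K K' L f f' h
    inv_transport := fun K L K' L' _ _ _ _ _ _ _ _ _ _ _ _ e c hc f f' h =>
      invMap_transport U hEx hCyc hH2 hNest K L K' L' e c hc f f' h
    inv_unramified := fun K L _ _ _ _ _ _ hu A hA φ hφ π hπ f hf =>
      invMap_unramified U hEx hCyc hH2 hNest K L hu A hA φ hφ π hπ f hf }⟩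

/-- **L-C2** (`InvSpec`), with the signature announced in the interface (`FiniteExtSpec` is not
needed). -/
theorem inv_of (_hFE : FiniteExtSpec) (hEx : UnramifiedExistsSpec) (hCyc : UnramifiedCyclicSpec)
    (hH2 : H2CyclicSpec) (hU : UnrInvSpec) (hNest : UnrNestSpec) (hBC : UnrBCSpec) :
    InvSpec :=
  inv_of' hEx hCyc hH2 hU hNest hBC

end Final

end Fermat.Agent.S55.L.Inv481

end
-- ===== PACK-END S55/L/Inv481/Main.lean

-- ===== PACK-BEGIN S56/H614/LinFun.lean
section




/-!
# S56 / W-BASE / EUL-RED, part 2 (helper614): `k`-linear functors on representations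

PT vocabulary.  A `LinFun k G` is a `k`-linear functor from `Rep k G` (objects + equivariant
linear maps) to `k`-modules.  Instances: `H0F`, `H1F L`, `H2F L` (level-constant cohomology of
S55/PT) and `minusF c` (`N ↦ N^{c = -1}`).

For every such functor `F`:

* `LinFun.kerEquiv` (EQUIV): if `T` is an equivariant endomorphism of `Z` with `T ^ n = 1`,
  `n ≠ 0` in `k`, then `F (ker (T - 1)) ≃ ker (F T - 1)`;
* `LinFun.piEquiv` : `F (X^J) ≃ (F X)^J`, intertwining `F (M ⊗ T)` with `M ⊗ F T`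
  (`LinFun.piEquiv_matOp`);
* `LinFun.finrank_kerRep_matOp` : `dim F (ker (M ⊗ T - 1)) = dim ker (M ⊗ F T - 1)`.
-/

set_option autoImplicit false

noncomputable section

namespace Fermat.Agent.S56.H614

open Fermat.Agent.S55.PT groupCohomology Module

variable {k : Type} [Field k] {G : Type} [Group G]

/-- A `k`-linear functor from representations to `k`-modules. -/
structure LinFun (k : Type) [Field k] (G : Type) [Group G] where
  /-- on objects -/
  obj : Rep.{0, 0, 0} k G → Type
  [acg : ∀ A, AddCommGroup (obj A)]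
  [mod : ∀ A, Module k (obj A)]
  /-- on equivariant maps -/
  map : ∀ {A B : Rep.{0, 0, 0} k G} (φ : A →ₗ[k] B), IsEquivariant φ → (obj A →ₗ[k] obj B)
  map_id : ∀ (A : Rep.{0, 0, 0} k G) (h : IsEquivariant (LinearMap.id : A →ₗ[k] A)),
    map LinearMap.id h = LinearMap.id
  map_comp : ∀ {A B C : Rep.{0, 0, 0} k G} (φ : A →ₗ[k] B) (ψ : B →ₗ[k] C)
    (hφ : IsEquivariant φ) (hψ : IsEquivariant ψ) (hψφ : IsEquivariant (ψ ∘ₗ φ)),
    map (ψ ∘ₗ φ) hψφ = map ψ hψ ∘ₗ map φ hφ
  map_add : ∀ {A B : Rep.{0, 0, 0} k G} (φ ψ : A →ₗ[k] B)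
    (hφ : IsEquivariant φ) (hψ : IsEquivariant ψ) (h : IsEquivariant (φ + ψ)),
    map (φ + ψ) h = map φ hφ + map ψ hψ
  map_smul : ∀ {A B : Rep.{0, 0, 0} k G} (a : k) (φ : A →ₗ[k] B)
    (hφ : IsEquivariant φ) (h : IsEquivariant (a • φ)),
    map (a • φ) h = a • map φ hφ

attribute [instance] LinFun.acg LinFun.mod

/-! ### equivariance bookkeeping -/

section Equivariance

variable {A B : Rep.{0, 0, 0} k G}

lemma isEquivariant_id (A : Rep.{0, 0, 0} k G) : IsEquivariant (LinearMap.id : A →ₗ[k] A) :=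
  fun _ _ => rfl

lemma isEquivariant_one (A : Rep.{0, 0, 0} k G) : IsEquivariant (1 : A →ₗ[k] A) :=
  fun _ _ => rfl

lemma isEquivariant_sub {φ ψ : A →ₗ[k] B} (hφ : IsEquivariant φ) (hψ : IsEquivariant ψ) :
    IsEquivariant (φ - ψ) := by
  intro g a
  have hφ' : ∀ (g : G) (a : A), φ (A.ρ g a) = B.ρ g (φ a) := hφ
  have hψ' : ∀ (g : G) (a : A), ψ (A.ρ g a) = B.ρ g (ψ a) := hψ
  simp only [LinearMap.sub_apply, hφ', hψ', map_sub]

lemma isEquivariant_sum {ι : Type} (s : Finset ι) (φ : ι → A →ₗ[k] B)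
    (hφ : ∀ i, IsEquivariant (φ i)) : IsEquivariant (∑ i ∈ s, φ i) := by
  classical
  induction s using Finset.induction_on with
  | empty =>
    rw [Finset.sum_empty]
    exact isEquivariant_zero
  | insert a s ha ih =>
    rw [Finset.sum_insert ha]
    exact isEquivariant_add (hφ a) ih

lemma isEquivariant_pow {T : A →ₗ[k] A} (hT : IsEquivariant T) (j : ℕ) :
    IsEquivariant (T ^ j) := by
  induction j with
  | zero =>
    rw [pow_zero]
    exact isEquivariant_one A
  | succ j ih =>
    rw [pow_succ]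
    exact isEquivariant_comp hT ih

lemma isEquivariant_avgOp {T : A →ₗ[k] A} (hT : IsEquivariant T) (n : ℕ) :
    IsEquivariant (avgOp T n) :=
  isEquivariant_smul _ (isEquivariant_sum _ _ fun j => isEquivariant_pow hT j)

end Equivariance

namespace LinFun

variable (F : LinFun k G) {A B : Rep.{0, 0, 0} k G}

lemma map_congr {φ ψ : A →ₗ[k] B} (h : φ = ψ) (hφ : IsEquivariant φ) (hψ : IsEquivariant ψ) :
    F.map φ hφ = F.map ψ hψ := by
  subst h
  rfl

lemma map_zero (h : IsEquivariant (0 : A →ₗ[k] B)) : F.map (0 : A →ₗ[k] B) h = 0 := by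
  have h1 : IsEquivariant ((0 : k) • (0 : A →ₗ[k] B)) := isEquivariant_smul _ h
  have h2 := F.map_smul (0 : k) (0 : A →ₗ[k] B) h h1
  have h3 : F.map (0 : A →ₗ[k] B) h = F.map ((0 : k) • (0 : A →ₗ[k] B)) h1 :=
    F.map_congr (zero_smul k _).symm _ _
  rw [h3, h2, zero_smul]

lemma map_one (h : IsEquivariant (1 : A →ₗ[k] A)) : F.map (1 : A →ₗ[k] A) h = 1 :=
  F.map_id A h

lemma map_mul (T T' : A →ₗ[k] A) (hT : IsEquivariant T) (hT' : IsEquivariant T')
    (h : IsEquivariant (T * T')) : F.map (T * T') h = F.map T hT * F.map T' hT' :=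
  F.map_comp T' T hT' hT h

lemma map_sub (φ ψ : A →ₗ[k] B) (hφ : IsEquivariant φ) (hψ : IsEquivariant ψ)
    (h : IsEquivariant (φ - ψ)) : F.map (φ - ψ) h = F.map φ hφ - F.map ψ hψ := by
  have h1 : IsEquivariant ((φ - ψ) + ψ) := isEquivariant_add h hψ
  have h2 := F.map_add (φ - ψ) ψ h hψ h1
  have h3 : F.map ((φ - ψ) + ψ) h1 = F.map φ hφ := F.map_congr (sub_add_cancel φ ψ) _ _
  rw [h3] at h2
  rw [h2, add_sub_cancel_right]

lemma map_sum {ι : Type} (s : Finset ι) (φ : ι → A →ₗ[k] B)
    (hφ : ∀ i, IsEquivariant (φ i)) (h : IsEquivariant (∑ i ∈ s, φ i)) :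
    F.map (∑ i ∈ s, φ i) h = ∑ i ∈ s, F.map (φ i) (hφ i) := by
  classical
  induction s using Finset.induction_on with
  | empty =>
    have : F.map (∑ i ∈ (∅ : Finset ι), φ i) h = F.map 0 isEquivariant_zero :=
      F.map_congr Finset.sum_empty _ _
    rw [this, F.map_zero, Finset.sum_empty]
  | insert a s ha ih =>
    have h1 : IsEquivariant (φ a + ∑ i ∈ s, φ i) :=
      isEquivariant_add (hφ a) (isEquivariant_sum s φ hφ)
    have : F.map (∑ i ∈ insert a s, φ i) h = F.map (φ a + ∑ i ∈ s, φ i) h1 :=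
      F.map_congr (Finset.sum_insert ha) _ _
    rw [this, F.map_add _ _ (hφ a) (isEquivariant_sum s φ hφ), ih, Finset.sum_insert ha]

lemma map_pow (T : A →ₗ[k] A) (hT : IsEquivariant T) (j : ℕ) (h : IsEquivariant (T ^ j)) :
    F.map (T ^ j) h = (F.map T hT) ^ j := by
  induction j with
  | zero =>
    have : F.map (T ^ 0) h = F.map 1 (isEquivariant_one A) := F.map_congr (pow_zero T) _ _
    rw [this, F.map_one, pow_zero]
  | succ j ih =>
    have h1 : IsEquivariant (T ^ j * T) := isEquivariant_comp hT (isEquivariant_pow hT j)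
    have : F.map (T ^ (j + 1)) h = F.map (T ^ j * T) h1 := F.map_congr (pow_succ T j) _ _
    rw [this, F.map_mul _ _ (isEquivariant_pow hT j) hT, ih, pow_succ]

lemma map_avgOp (T : A →ₗ[k] A) (hT : IsEquivariant T) (n : ℕ)
    (h : IsEquivariant (avgOp T n)) : F.map (avgOp T n) h = avgOp (F.map T hT) n := by
  unfold avgOp at h ⊢
  rw [F.map_smul _ _ (isEquivariant_sum _ _ fun j => isEquivariant_pow hT j),
    F.map_sum _ _ (fun j => isEquivariant_pow hT j)]
  congr 1
  exact Finset.sum_congr rfl fun j _ => F.map_pow T hT j _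

/-! ### EQUIV -/

section KerEquiv

variable {Z : Rep.{0, 0, 0} k G} (T : Z →ₗ[k] Z) (hT : IsEquivariant T)

/-- the retraction `Z → ker (T - 1)` given by averaging -/
def avgRetr (n : ℕ) (hTn : T ^ n = 1) : Z →ₗ[k] ↥(LinearMap.ker (T - 1)) :=
  (avgOp T n).codRestrict _ (avgOp_mem_ker T n hTn)

include hT in
lemma avgRetr_equivariant (n : ℕ) (hTn : T ^ n = 1) :
    IsEquivariant (A := Z)
      (B := kerRep (T - 1) (isEquivariant_sub hT (isEquivariant_one Z))) (avgRetr T n hTn) := by
  intro g z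
  apply Subtype.ext
  exact isEquivariant_avgOp hT n g z

lemma avgRetr_comp_kerIncl (n : ℕ) (hn : (n : k) ≠ 0) (hTn : T ^ n = 1) :
    avgRetr T n hTn ∘ₗ kerIncl (T - 1) = LinearMap.id := by
  apply LinearMap.ext
  intro x
  apply Subtype.ext
  have hx := x.2
  rw [LinearMap.mem_ker, LinearMap.sub_apply, Module.End.one_apply, sub_eq_zero] at hx
  exact avgOp_apply_of_fixed T n hn hx

lemma kerIncl_comp_avgRetr (n : ℕ) (hTn : T ^ n = 1) :
    kerIncl (T - 1) ∘ₗ avgRetr T n hTn = avgOp T n := rfl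

lemma comp_kerIncl_sub_one : T ∘ₗ kerIncl (T - 1) = kerIncl (T - 1) := by
  apply LinearMap.ext
  intro x
  have hx := x.2
  rw [LinearMap.mem_ker, LinearMap.sub_apply, Module.End.one_apply, sub_eq_zero] at hx
  exact hx

/-- `F (ker (T - 1)) → F Z` -/
def kerMap : F.obj (kerRep (T - 1) (isEquivariant_sub hT (isEquivariant_one Z))) →ₗ[k] F.obj Z :=
  F.map (A := kerRep (T - 1) (isEquivariant_sub hT (isEquivariant_one Z))) (B := Z)
    (kerIncl (T - 1)) (kerIncl_equivariant (T - 1) _)

lemma kerMap_injective (n : ℕ) (hn : (n : k) ≠ 0) (hTn : T ^ n = 1) :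
    Function.Injective (F.kerMap T hT) := by
  have hK := isEquivariant_sub hT (isEquivariant_one Z)
  have h1 : F.map (A := Z) (B := kerRep (T - 1) hK) (avgRetr T n hTn)
      (avgRetr_equivariant T hT n hTn) ∘ₗ F.kerMap T hT = LinearMap.id := by
    unfold kerMap
    rw [← F.map_comp (A := kerRep (T - 1) hK) (B := Z) (C := kerRep (T - 1) hK) _ _ _ _
      (isEquivariant_comp (A := kerRep (T - 1) hK) (B := Z) (C := kerRep (T - 1) hK)
        (kerIncl_equivariant (T - 1) hK) (avgRetr_equivariant T hT n hTn))]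
    rw [F.map_congr (A := kerRep (T - 1) hK) (B := kerRep (T - 1) hK)
      (avgRetr_comp_kerIncl T n hn hTn) _ (isEquivariant_id _), F.map_id]
  intro x y hxy
  have := congrArg (F.map (A := Z) (B := kerRep (T - 1) hK) (avgRetr T n hTn)
      (avgRetr_equivariant T hT n hTn)) hxy
  rw [← LinearMap.comp_apply, ← LinearMap.comp_apply, h1] at this
  exact this

lemma range_kerMap (n : ℕ) (hn : (n : k) ≠ 0) (hTn : T ^ n = 1) :
    LinearMap.range (F.kerMap T hT) = LinearMap.ker (F.map T hT - 1) := by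
  have hK := isEquivariant_sub hT (isEquivariant_one Z)
  apply le_antisymm
  · rintro _ ⟨x, rfl⟩
    rw [LinearMap.mem_ker, LinearMap.sub_apply, Module.End.one_apply, sub_eq_zero]
    unfold kerMap
    rw [← LinearMap.comp_apply, ← F.map_comp (A := kerRep (T - 1) hK) (B := Z) (C := Z) _ _ _ _
      (isEquivariant_comp (A := kerRep (T - 1) hK) (B := Z) (C := Z)
        (kerIncl_equivariant (T - 1) hK) hT)]
    rw [F.map_congr (A := kerRep (T - 1) hK) (B := Z) (comp_kerIncl_sub_one T) _
      (kerIncl_equivariant (T - 1) hK)]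
  · intro y hy
    rw [LinearMap.mem_ker, LinearMap.sub_apply, Module.End.one_apply, sub_eq_zero] at hy
    have hFn : (F.map T hT) ^ n = 1 := by
      rw [← F.map_pow T hT n (isEquivariant_pow hT n),
        F.map_congr hTn _ (isEquivariant_one Z), F.map_one]
    have h1 : avgOp (F.map T hT) n y = y := avgOp_apply_of_fixed _ n hn hy
    rw [← F.map_avgOp T hT n (isEquivariant_avgOp hT n)] at h1
    have h2 : F.map (avgOp T n) (isEquivariant_avgOp hT n) =
        F.kerMap T hT ∘ₗ F.map (A := Z) (B := kerRep (T - 1) hK) (avgRetr T n hTn)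
          (avgRetr_equivariant T hT n hTn) := by
      unfold kerMap
      rw [← F.map_comp (A := Z) (B := kerRep (T - 1) hK) (C := Z) _ _ _ _
        (isEquivariant_comp (A := Z) (B := kerRep (T - 1) hK) (C := Z)
          (avgRetr_equivariant T hT n hTn) (kerIncl_equivariant (T - 1) hK))]
      exact F.map_congr (kerIncl_comp_avgRetr T n hTn).symm _ _
    rw [h2] at h1
    exact ⟨_, h1⟩

/-- **EQUIV.**  `F (ker (T - 1)) ≃ ker (F T - 1)` for `T ^ n = 1`, `n ≠ 0` in `k`. -/
def kerEquiv (n : ℕ) (hn : (n : k) ≠ 0) (hTn : T ^ n = 1) :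
    F.obj (kerRep (T - 1) (isEquivariant_sub hT (isEquivariant_one Z))) ≃ₗ[k]
      ↥(LinearMap.ker (F.map T hT - 1)) :=
  (LinearEquiv.ofInjective (F.kerMap T hT) (F.kerMap_injective T hT n hn hTn)).trans
    (LinearEquiv.ofEq _ _ (F.range_kerMap T hT n hn hTn))

end KerEquiv

end LinFun

end Fermat.Agent.S56.H614

end

end
-- ===== PACK-END S56/H614/LinFun.lean

-- ===== PACK-BEGIN S56/RQ/Glue.lean
section







/-!
# Row S56 — REC-Q: glue `REC-Q ⇐ leaves` (sub-architect helper554)

`recQ_of : RECIP → FRAME → LINE → NONDEG → URCUP → LOCTRIV → COBCUP → CONJ → GLOBZ → RecQStatement`.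

Proof.  `X` = strict Selmer cocycles of `Q`, `D` the dual frame.  For `q ∈ Q` put `P = Pv q` (the
place of the reciprocity package), `φ` a Frobenius at `P`, `τ` the generator of FRAME, `h` the
element of LINE, `a_q c := tr (h · c τ) / tr h²`, `b_q y := tr (h · y φ)`,
`J_q (c, y) := inv q (c ∪ y)`.

* `J_q (c, y) = w_q · a_q c · b_q y` with `w_q ≠ 0` (`pairing_rank_one`: `a_q c = 0 ⇒ c`
  unramified `⇒ J_q = 0` (URCUP), `b_q y = 0 ⇒ y` locally trivial `⇒ J_q = 0` (LINE, LOCTRIV,
  COBCUP), `J_q = 0 ⇒ a_q c · b_q y = 0` (injectivity of `inv q`, NONDEG)).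
* reciprocity: `∑_{v ∈ Smin ∪ Q} inv v (c ∪ y) = 0`, the terms at `v ∈ Smin` vanish (CONJ, COBCUP).
* `y ↦ (w_q b_q y)_q` is injective on `D` (`Q` kills `D`), so the image of `c ↦ (a_q c)_q` has
  dimension `≤ #Q − dim D`; `U` := lifts of a basis of the image; `a (c − u) = 0 ⇒ c − u` is
  unramified at `Q` (FRAME, CONJ).
-/

set_option autoImplicit false

open Polynomial IsLocalRing

noncomputable section

namespace Fermat.Agent.S56.RQ

open Fermat.Agent.S56 Fermat.Agent.S56.H716

/-- A bilinear form which factors through two linear forms and is non-zero wherever their product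
is non-zero is a non-zero multiple of the product. -/
theorem pairing_rank_one {k V W : Type*} [Field k] [AddCommGroup V] [Module k V]
    [AddCommGroup W] [Module k W] (J : V →ₗ[k] W →ₗ[k] k) (a : V →ₗ[k] k) (b : W →ₗ[k] k)
    (h1 : ∀ v w, a v = 0 → J v w = 0) (h2 : ∀ v w, b w = 0 → J v w = 0)
    (h3 : ∀ v w, J v w = 0 → a v * b w = 0) :
    ∃ w₀ : k, w₀ ≠ 0 ∧ ∀ v w, J v w = w₀ * (a v * b w) := by
  by_cases ha : ∃ v₀, a v₀ ≠ 0
  · by_cases hb : ∃ w₁, b w₁ ≠ 0
    · obtain ⟨v₀, hv₀⟩ := ha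
      obtain ⟨w₁, hw₁⟩ := hb
      refine ⟨J v₀ w₁ * (a v₀)⁻¹ * (b w₁)⁻¹, ?_, fun v w => ?_⟩
      · have hJ : J v₀ w₁ ≠ 0 := fun h => by
          rcases mul_eq_zero.1 (h3 v₀ w₁ h) with h' | h'
          · exact hv₀ h'
          · exact hw₁ h'
        exact mul_ne_zero (mul_ne_zero hJ (inv_ne_zero hv₀)) (inv_ne_zero hw₁)
      · have e1 : J (v - (a v * (a v₀)⁻¹) • v₀) w = 0 := h1 _ _ (by
          rw [map_sub, map_smul, smul_eq_mul, mul_assoc, inv_mul_cancel₀ hv₀, mul_one, sub_self])
        have e2 : J v₀ (w - (b w * (b w₁)⁻¹) • w₁) = 0 := h2 _ _ (by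
          rw [map_sub, map_smul, smul_eq_mul, mul_assoc, inv_mul_cancel₀ hw₁, mul_one, sub_self])
        rw [map_sub, LinearMap.sub_apply, map_smul, LinearMap.smul_apply, sub_eq_zero,
          smul_eq_mul] at e1
        rw [map_sub, map_smul, sub_eq_zero, smul_eq_mul] at e2
        rw [e1, e2]
        ring
    · refine ⟨1, one_ne_zero, fun v w => ?_⟩
      have hbw : b w = 0 := by
        by_contra h
        exact hb ⟨w, h⟩
      rw [h2 v w hbw, hbw, mul_zero, mul_zero]
  · refine ⟨1, one_ne_zero, fun v w => ?_⟩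
    have hav : a v = 0 := by
      by_contra h
      exact ha ⟨v, h⟩
    rw [h1 v w hav, hav, zero_mul, mul_zero]

section Cup

variable {k : Type} [Field k] (ρbar : ResidualGaloisRep k)

lemma cup_add_left (c c' y : GQ → Module.End k ρbar.V) :
    cup ρbar (c + c') y = cup ρbar c y + cup ρbar c' y := by
  funext x
  simp only [cup, Pi.add_apply, add_mul, map_add]

lemma cup_smul_left (r : k) (c y : GQ → Module.End k ρbar.V) :
    cup ρbar (r • c) y = r • cup ρbar c y := by
  funext x
  simp only [cup, Pi.smul_apply, smul_mul_assoc, map_smul]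

lemma cup_add_right (c y y' : GQ → Module.End k ρbar.V) :
    cup ρbar c (y + y') = cup ρbar c y + cup ρbar c y' := by
  funext x
  simp only [cup, Pi.add_apply]
  rw [← map_add, ← mul_add]
  congr 2
  abel

lemma cup_smul_right (r : k) (c y : GQ → Module.End k ρbar.V) :
    cup ρbar c (r • y) = r • cup ρbar c y := by
  funext x
  simp only [cup, Pi.smul_apply, ← smul_sub, mul_smul_comm, map_smul]

/-- The strict Selmer cocycles of `Q`, as a submodule. -/
def selSub (Pl : ℕ → ValuationSubring Qb) (Smin Q : Finset ℕ) :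
    Submodule k (GQ → Module.End k ρbar.V) where
  carrier := {c | IsSelCocycle ρbar Pl (fun _ => ⊥) Smin Q c}
  add_mem' := fun h h' => IsSelCocycle.add ρbar h h'
  zero_mem' := IsSelCocycle.zero ρbar Pl _ Smin Q
  smul_mem' := fun a _ h => IsSelCocycle.smul ρbar a h

lemma mem_selSub {Pl : ℕ → ValuationSubring Qb} {Smin Q : Finset ℕ}
    {c : GQ → Module.End k ρbar.V} :
    c ∈ selSub ρbar Pl Smin Q ↔ IsSelCocycle ρbar Pl (fun _ => ⊥) Smin Q c := Iff.rfl

/-- The pairing `(c, y) ↦ inv (c ∪ y)` as a bilinear map on submodules. -/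
def cupPairing (X D : Submodule k (GQ → Module.End k ρbar.V))
    (inv : (GQ × GQ → k) →ₗ[k] k) : ↥X →ₗ[k] ↥D →ₗ[k] k :=
  LinearMap.mk₂ k (fun c y => inv (cup ρbar (c : GQ → Module.End k ρbar.V) y))
    (fun c c' y => by
      simp only [Submodule.coe_add, cup_add_left, map_add])
    (fun r c y => by
      simp only [Submodule.coe_smul, cup_smul_left, map_smul])
    (fun c y y' => by
      simp only [Submodule.coe_add, cup_add_right, map_add])
    (fun r c y => by
      simp only [Submodule.coe_smul, cup_smul_right, map_smul])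

@[simp] lemma cupPairing_apply (X D : Submodule k (GQ → Module.End k ρbar.V))
    (inv : (GQ × GQ → k) →ₗ[k] k) (c : ↥X) (y : ↥D) :
    cupPairing ρbar X D inv c y = inv (cup ρbar (c : GQ → Module.End k ρbar.V) y) := rfl

/-- evaluation at `σ` followed by `tr (h · _)`, as a linear form on a submodule of functions -/
def trEval (X : Submodule k (GQ → Module.End k ρbar.V)) (h : Module.End k ρbar.V) (σ : GQ) :
    ↥X →ₗ[k] k where
  toFun c := LinearMap.trace k ρbar.V (h * (c : GQ → Module.End k ρbar.V) σ)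
  map_add' c c' := by
    simp only [Submodule.coe_add, Pi.add_apply, mul_add, map_add]
  map_smul' r c := by
    simp only [Submodule.coe_smul, Pi.smul_apply, mul_smul_comm, map_smul, RingHom.id_apply]

@[simp] lemma trEval_apply (X : Submodule k (GQ → Module.End k ρbar.V))
    (h : Module.End k ρbar.V) (σ : GQ) (c : ↥X) :
    trEval ρbar X h σ c = LinearMap.trace k ρbar.V (h * (c : GQ → Module.End k ρbar.V) σ) := rfl

end Cup


section Local

variable (𝒪 : Type) [CommRing 𝒪] [IsDomain 𝒪] [IsDiscreteValuationRing 𝒪]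
  [IsAdicComplete (maximalIdeal 𝒪) 𝒪] [Finite (ResidueField 𝒪)]
  (p : ℕ) (ρbar : ResidualGaloisRep (ResidueField 𝒪)) (S Smin : Finset ℕ)

/-- **Local structure of the pairing at a Taylor–Wiles prime.**  For an "invariant" `inv` at the
place `P | q` (killing coboundaries, injective on classes), the pairing `(c, y) ↦ inv (c ∪ y)` on
(strict Selmer cocycles of `Q`) × `D` is a product `a c · b y` of two linear forms such that
`a c = 0 ⇒ c` unramified at `q` and `b y = 0 ⇒ y` locally trivial at `q`. -/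
theorem exists_local_forms (hF : FrameStatement) (hL : LineStatement) (hN : NondegStatement)
    (hU : UrCupStatement) (hT : LocTrivTwStatement) (hC : CobCupStatement) (hJ : ConjStatement)
    (hG : GlobZStatement) (hyp : Hyp 𝒪 p ρbar S Smin)
    (Pl : ℕ → ValuationSubring Qb)
    (D : Submodule (ResidueField 𝒪) (GQ → Module.End (ResidueField 𝒪) ρbar.V))
    (hD : IsDualFrame ρbar p D)
    (hDur : ∀ y ∈ D, ∀ q : ℕ, q.Prime → q ∉ Smin → UnramAt ρbar y q)
    (Q : Finset ℕ) (hQ : ∀ q ∈ Q, IsTWPrime ρbar p S q) (q : ℕ) (hq : q ∈ Q)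
    (P : ValuationSubring Qb) (hP : P.LiesOverPrime q)
    (inv : (GQ × GQ → ResidueField 𝒪) →ₗ[ResidueField 𝒪] ResidueField 𝒪)
    (hcob : ∀ z : GQ × GQ → ResidueField 𝒪,
      IsCob₂On p (P.decompositionSubgroup ℚ) z → inv z = 0)
    (hinj : ∀ z : GQ × GQ → ResidueField 𝒪, IsCoc₂On p (P.decompositionSubgroup ℚ) z →
      IsLC₂On (P.decompositionSubgroup ℚ) z → inv z = 0 →
      IsCob₂On p (P.decompositionSubgroup ℚ) z) :
    ∃ (a : ↥(selSub ρbar Pl Smin Q) →ₗ[ResidueField 𝒪] ResidueField 𝒪)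
      (b : ↥D →ₗ[ResidueField 𝒪] ResidueField 𝒪),
      (∀ c : ↥(selSub ρbar Pl Smin Q), a c = 0 →
        UnramAt ρbar (c : GQ → Module.End (ResidueField 𝒪) ρbar.V) q) ∧
      (∀ y : ↥D, b y = 0 →
        LocTrivAt ρbar p q (y : GQ → Module.End (ResidueField 𝒪) ρbar.V)) ∧
      ∀ (c : ↥(selSub ρbar Pl Smin Q)) (y : ↥D),
        inv (cup ρbar (c : GQ → Module.End (ResidueField 𝒪) ρbar.V) y) = a c * b y := by
  classical
  have hp := hyp.hp
  have : CharP (ResidueField 𝒪) p := H536.charP_residueField 𝒪 p hyp.hp hyp.hp𝒪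
  have hTW := hQ q hq
  obtain ⟨hqP, hqS, -, -⟩ := hQ q hq
  have hqSmin : q ∉ Smin := fun h => hqS (hyp.hSmin h)
  have hqp : q ≠ p := fun h => hqSmin (h ▸ hyp.hpSmin)
  have hur : ρbar.IsUnramifiedAt q := by
    by_contra h
    exact hqSmin ((hyp.hmin q hqP hqp).mpr h)
  -- a Frobenius element at `P`
  obtain ⟨A, φ₀, hA, hφ₀⟩ := Fermat.Agent.S54.exists_frobenius q hqP
  obtain ⟨g, hg⟩ := Fermat.Agent.Lib.Cheb.H476.exists_smul_eq hqP hA hP
  have hφ : P.IsFrobeniusAt (g * φ₀ * g⁻¹) q := by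
    have := Fermat.Agent.Lib.Cheb.H476.isFrobeniusAt_conj g hφ₀
    rwa [hg] at this
  generalize g * φ₀ * g⁻¹ = φ at hφ
  obtain ⟨τ, hτ, hgen⟩ := hF 𝒪 p ρbar S Smin hyp q hTW P hP
  obtain ⟨h, -, hh2, -, hline, hdec⟩ := hL 𝒪 p ρbar S Smin hyp q hTW P hP φ hφ
  set X := selSub ρbar Pl Smin Q with hX
  set t : ResidueField 𝒪 := LinearMap.trace (ResidueField 𝒪) ρbar.V (h * h) with ht
  let a₀ : ↥X →ₗ[ResidueField 𝒪] ResidueField 𝒪 := t⁻¹ • trEval ρbar X h τ
  let b₀ : ↥D →ₗ[ResidueField 𝒪] ResidueField 𝒪 := trEval ρbar D h φ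
  have ha₀ : ∀ c : ↥X, a₀ c = t⁻¹ * LinearMap.trace (ResidueField 𝒪) ρbar.V
      (h * (c : GQ → Module.End (ResidueField 𝒪) ρbar.V) τ) := fun c => rfl
  have hb₀ : ∀ y : ↥D, b₀ y = LinearMap.trace (ResidueField 𝒪) ρbar.V
      (h * (y : GQ → Module.End (ResidueField 𝒪) ρbar.V) φ) := fun y => rfl
  have hcX : ∀ c : ↥X, IsSelCocycle ρbar Pl (fun _ => ⊥) Smin Q
      (c : GQ → Module.End (ResidueField 𝒪) ρbar.V) := fun c => c.2
  -- `c τ = a₀ c • h`
  have hcτ : ∀ c : ↥X, (c : GQ → Module.End (ResidueField 𝒪) ρbar.V) τ = a₀ c • h := by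
    intro c
    obtain ⟨r, hr⟩ := hline c (hcX c).cocycle τ hτ
    rw [ha₀, hr, mul_smul_comm, map_smul, smul_eq_mul, ← ht, mul_comm r t, ← mul_assoc,
      inv_mul_cancel₀ hh2, one_mul]
  have htr : ∀ (c : ↥X) (y : ↥D), LinearMap.trace (ResidueField 𝒪) ρbar.V
      ((c : GQ → Module.End (ResidueField 𝒪) ρbar.V) τ *
        (y : GQ → Module.End (ResidueField 𝒪) ρbar.V) φ) = a₀ c * b₀ y := by
    intro c y
    rw [hcτ c, smul_mul_assoc, map_smul, smul_eq_mul, hb₀]
  have hyI : ∀ y : ↥D, ∀ σ ∈ P.inertiaSubgroupIn ℚ,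
      (y : GQ → Module.End (ResidueField 𝒪) ρbar.V) σ = 0 :=
    fun y σ hσ => hDur y y.2 q hqP hqSmin P hP σ hσ
  have hyc : ∀ y : ↥D, IsTwCocycle ρbar p (y : GQ → Module.End (ResidueField 𝒪) ρbar.V) :=
    fun y => hD.isTwCocycle y y.2
  -- `a₀ c = 0 ⇒ c` vanishes on `I_P`
  have hunr : ∀ c : ↥X, a₀ c = 0 → ∀ σ ∈ P.inertiaSubgroupIn ℚ,
      (c : GQ → Module.End (ResidueField 𝒪) ρbar.V) σ = 0 := by
    intro c hc
    refine hgen c (hcX c).cocycle ?_
    rw [hcτ c, hc, zero_smul]
  -- `b₀ y = 0 ⇒ y` is a coboundary on `D_P`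
  have hloc : ∀ y : ↥D, b₀ y = 0 → ∃ m, IsTwCoboundaryOn ρbar p (P.decompositionSubgroup ℚ)
      (y : GQ → Module.End (ResidueField 𝒪) ρbar.V) m := by
    intro y hy
    obtain ⟨m, hm0, hm⟩ := hdec ((y : GQ → Module.End (ResidueField 𝒪) ρbar.V) φ)
      ((hyc y).trace_eq_zero φ) (by rw [← hb₀]; exact hy)
    exact ⟨m, hT 𝒪 p ρbar S Smin hyp q hTW P hP φ hφ y (hyc y) (hyI y) m hm0 hm⟩
  let J := cupPairing ρbar X D inv
  have h1 : ∀ (c : ↥X) (y : ↥D), a₀ c = 0 → J c y = 0 := by
    intro c y hc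
    rw [cupPairing_apply]
    exact hcob _ (hU 𝒪 p ρbar S Smin hyp q hTW P hP c y (hcX c).cocycle (hyc y)
      (hunr c hc) (hyI y))
  have h2 : ∀ (c : ↥X) (y : ↥D), b₀ y = 0 → J c y = 0 := by
    intro c y hy
    rw [cupPairing_apply]
    exact hcob _ ((hC (ResidueField 𝒪) p hp ρbar (P.decompositionSubgroup ℚ) c y
      (hcX c).cocycle (hyc y)).2 (hloc y hy))
  have h3 : ∀ (c : ↥X) (y : ↥D), J c y = 0 → a₀ c * b₀ y = 0 := by
    intro c y hJ0
    rw [cupPairing_apply] at hJ0
    obtain ⟨hz, L, hLfin, -, hlev⟩ := hG 𝒪 p ρbar S Smin hyp Q hQ c y (hcX c).cocycle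
      (hcX c).unram (hyc y) (hDur y y.2)
    have hcob' := hinj _ (fun σ _ τ' _ υ _ a' ha' => hz σ trivial τ' trivial υ trivial a' ha')
      ⟨L, hLfin, fun σ _ τ' _ s _ s' _ hs hs' => hlev σ τ' s s' hs hs'⟩ hJ0
    rw [← htr]
    exact hN 𝒪 p ρbar S Smin hyp q hTW P hP φ hφ τ hτ c y (hcX c).cocycle (hyc y) (hyI y) hcob'
  obtain ⟨w, hw, hJw⟩ := pairing_rank_one J a₀ b₀ h1 h2 h3
  refine ⟨a₀, w • b₀, fun c hc P' hP' σ hσ => ?_, fun y hy => ?_, fun c y => ?_⟩
  · exact (hJ (ResidueField 𝒪) ρbar q hqP P P' hP hP' c (hcX c).cocycle).1 hur (hunr c hc) σ hσ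
  · rw [LinearMap.smul_apply, smul_eq_mul] at hy
    have hy' : b₀ y = 0 := (mul_eq_zero.1 hy).resolve_left hw
    obtain ⟨m, hm⟩ := hloc y hy'
    exact ⟨P, hP, m, hm⟩
  · have := hJw c y
    rw [cupPairing_apply] at this
    rw [this]
    show w * (a₀ c * b₀ y) = a₀ c * (w * b₀ y)
    ring

end Local


section Global

variable (𝒪 : Type) [CommRing 𝒪] [IsDomain 𝒪] [IsDiscreteValuationRing 𝒪]
  [IsAdicComplete (maximalIdeal 𝒪) 𝒪] [Finite (ResidueField 𝒪)]
  (p : ℕ) (ρbar : ResidualGaloisRep (ResidueField 𝒪)) (S Smin : Finset ℕ)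

/-- **Glue** `REC-Q ⇐ leaves`, for one residual representation. -/
theorem recQ_of_leaves (hR : PlainRecipStatement) (hF : FrameStatement) (hL : LineStatement)
    (hN : NondegStatement) (hU : UrCupStatement) (hT : LocTrivTwStatement)
    (hC : CobCupStatement) (hJ : ConjStatement) (hG : GlobZStatement)
    (hyp : Hyp 𝒪 p ρbar S Smin) : RecQ 𝒪 p ρbar S Smin := by
  classical
  intro Pl hPl D hD hDur Q hQ hK
  have hp := hyp.hp
  have hchar : CharP (ResidueField 𝒪) p := H536.charP_residueField 𝒪 p hyp.hp hyp.hp𝒪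
  have hpSg : p ∈ Smin ∪ Q := Finset.mem_union_left _ hyp.hpSmin
  have hSgprime : ∀ v ∈ Smin ∪ Q, v.Prime := by
    intro v hv
    rcases Finset.mem_union.1 hv with h | h
    · exact hyp.hS v (hyp.hSmin h)
    · exact (hQ v h).1
  have hdisj : Disjoint Smin Q := by
    rw [Finset.disjoint_left]
    intro v hv hvQ
    exact (hQ v hvQ).2.1 (hyp.hSmin hv)
  obtain ⟨Pv, inv, hPv, hcob, hinj, hrec⟩ :=
    hR (ResidueField 𝒪) p hp hyp.hp2 (Smin ∪ Q) hpSg hSgprime
  set X := selSub ρbar Pl Smin Q with hX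
  have hcX : ∀ c : ↥X, IsSelCocycle ρbar Pl (fun _ => ⊥) Smin Q
      (c : GQ → Module.End (ResidueField 𝒪) ρbar.V) := fun c => c.2
  have hyc : ∀ y : ↥D, IsTwCocycle ρbar p (y : GQ → Module.End (ResidueField 𝒪) ρbar.V) :=
    fun y => hD.isTwCocycle y y.2
  -- the local forms
  have hloc : ∀ q ∈ Q, ∃ (a : ↥X →ₗ[ResidueField 𝒪] ResidueField 𝒪)
      (b : ↥D →ₗ[ResidueField 𝒪] ResidueField 𝒪),
      (∀ c : ↥X, a c = 0 →
        UnramAt ρbar (c : GQ → Module.End (ResidueField 𝒪) ρbar.V) q) ∧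
      (∀ y : ↥D, b y = 0 →
        LocTrivAt ρbar p q (y : GQ → Module.End (ResidueField 𝒪) ρbar.V)) ∧
      ∀ (c : ↥X) (y : ↥D),
        inv q (cup ρbar (c : GQ → Module.End (ResidueField 𝒪) ρbar.V) y) = a c * b y :=
    fun q hq => exists_local_forms 𝒪 p ρbar S Smin hF hL hN hU hT hC hJ hG hyp Pl D hD hDur Q hQ
      q hq (Pv q) (hPv q (Finset.mem_union_right _ hq)) (inv q)
      (hcob q (Finset.mem_union_right _ hq))
      (hinj q (Finset.mem_union_right _ hq) (hQ q hq).2.2.1)
  choose! a b ha hb hab using hloc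
  -- reciprocity
  have hsum : ∀ (c : ↥X) (y : ↥D), ∑ q ∈ Q, a q c * b q y = 0 := by
    intro c y
    have h1 := hrec _ (hG 𝒪 p ρbar S Smin hyp Q hQ c y (hcX c).cocycle (hcX c).unram (hyc y)
      (hDur y y.2))
    rw [Finset.sum_union hdisj] at h1
    have h2 : ∑ v ∈ Smin, inv v (cup ρbar (c : GQ → Module.End (ResidueField 𝒪) ρbar.V) y)
        = 0 := by
      refine Finset.sum_eq_zero fun v hv => ?_
      obtain ⟨t, ht, hct⟩ := (hcX c).loc v hv
      rw [(Submodule.mem_bot _).1 ht, sub_zero] at hct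
      have h3 := (hJ (ResidueField 𝒪) ρbar v (hyp.hS v (hyp.hSmin hv)) (Pl v) (Pv v) (hPl v hv)
        (hPv v (Finset.mem_union_left _ hv)) c (hcX c).cocycle).2 hct
      exact hcob v (Finset.mem_union_left _ hv) _
        ((hC (ResidueField 𝒪) p hp ρbar _ c y (hcX c).cocycle (hyc y)).1 h3)
    rw [h2, zero_add] at h1
    rw [← h1]
    exact Finset.sum_congr rfl fun q hq => (hab q hq c y).symm
  -- linear algebra
  let A : ↥X →ₗ[ResidueField 𝒪] (↥Q → ResidueField 𝒪) := LinearMap.pi fun q => a q.1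
  let lam : ↥D →ₗ[ResidueField 𝒪] Module.Dual (ResidueField 𝒪) (↥Q → ResidueField 𝒪) :=
    ∑ q : ↥Q, (b q.1).smulRight
      (LinearMap.proj q : (↥Q → ResidueField 𝒪) →ₗ[ResidueField 𝒪] ResidueField 𝒪)
  have hlam_apply : ∀ (y : ↥D) (t : ↥Q → ResidueField 𝒪), lam y t = ∑ q : ↥Q, b q.1 y * t q := by
    intro y t
    simp only [lam, LinearMap.sum_apply, LinearMap.smulRight_apply, LinearMap.smul_apply,
      LinearMap.proj_apply, smul_eq_mul]
  have hlam : Function.Injective lam := by
    refine (injective_iff_map_eq_zero lam).2 fun y hy => ?_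
    have hb0 : ∀ q ∈ Q, b q y = 0 := by
      intro q hq
      have h1 := hlam_apply y (Pi.single (⟨q, hq⟩ : ↥Q) 1)
      rw [hy, LinearMap.zero_apply, Finset.sum_eq_single (⟨q, hq⟩ : ↥Q)] at h1
      · rw [Pi.single_eq_same, mul_one] at h1
        exact h1.symm
      · intro q' _ hne
        rw [Pi.single_eq_of_ne hne, mul_zero]
      · intro h
        exact absurd (Finset.mem_univ _) h
    have h0 := hK y y.2 fun q hq => hb q hq y (hb0 q hq)
    exact Subtype.ext h0
  have hrecA : ∀ (y : ↥D) (r : ↥(LinearMap.range A)),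
      lam y ((LinearMap.range A).subtype r) = 0 := by
    rintro y ⟨_, c, rfl⟩
    rw [Submodule.subtype_apply, hlam_apply]
    have h1 := hsum c y
    rw [← Finset.sum_coe_sort] at h1
    rw [← h1]
    exact Finset.sum_congr rfl fun q _ => mul_comm _ _
  have : FiniteDimensional (ResidueField 𝒪)
      ↥(LinearMap.ker (LinearMap.range A).subtype) := by
    rw [Submodule.ker_subtype]
    infer_instance
  have hdim := H831.comparison_abstract (LinearMap.range A).subtype lam hlam hrecA
  have hker : Module.finrank (ResidueField 𝒪)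
      ↥(LinearMap.ker (LinearMap.range A).subtype) = 0 := by
    rw [Submodule.ker_subtype]
    exact finrank_bot _ _
  have hcard : Module.finrank (ResidueField 𝒪) (↥Q → ResidueField 𝒪) = Q.card := by
    rw [Module.finrank_fintype_fun_eq_card, Fintype.card_coe]
  rw [hker, hcard, zero_add] at hdim
  -- a linear section of `A`
  obtain ⟨s, hs⟩ := A.rangeRestrict.exists_rightInverse_of_surjective
    (LinearMap.range_rangeRestrict A)
  have hAs : ∀ r : ↥(LinearMap.range A), A (s r) = r := by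
    intro r
    have := congrArg (fun f => (f r : ↥Q → ResidueField 𝒪)) hs
    simpa using this
  refine ⟨LinearMap.range (X.subtype ∘ₗ s), inferInstance, ?_, fun c hc => ?_⟩
  · have h1 : Module.finrank (ResidueField 𝒪) ↥(LinearMap.range (X.subtype ∘ₗ s)) ≤
        Module.finrank (ResidueField 𝒪) ↥(LinearMap.range A) :=
      LinearMap.finrank_range_le _
    omega
  · let c₀ : ↥X := ⟨c, hc⟩
    let u₀ : ↥X := s (A.rangeRestrict c₀)
    have hA0 : A (c₀ - u₀) = 0 := by
      rw [map_sub, hAs]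
      exact sub_self _
    have ha0 : ∀ q ∈ Q, a q (c₀ - u₀) = 0 := fun q hq =>
      congrFun hA0 (⟨q, hq⟩ : ↥Q)
    have hsel := hcX (c₀ - u₀)
    refine ⟨(u₀ : GQ → Module.End (ResidueField 𝒪) ρbar.V), ⟨A.rangeRestrict c₀, rfl⟩,
      ((c₀ - u₀ : ↥X) : GQ → Module.End (ResidueField 𝒪) ρbar.V),
      ⟨hsel.cocycle, fun q hqP hqn => ?_, hsel.loc⟩, ⟨0, fun σ => ?_⟩⟩
    · by_cases hqQ : q ∈ Q
      · exact ha q hqQ _ (ha0 q hqQ)
      · refine hsel.unram q hqP fun h => ?_
        rcases Finset.mem_union.1 h with h' | h'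
        · exact hqn (Finset.mem_union_left _ h')
        · exact hqQ h'
    · simp [c₀]

end Global

/-- **(REC-Q) from the leaves.** -/
theorem recQ_of (hR : PlainRecipStatement) (hF : FrameStatement) (hL : LineStatement)
    (hN : NondegStatement) (hU : UrCupStatement) (hT : LocTrivTwStatement)
    (hC : CobCupStatement) (hJ : ConjStatement) (hG : GlobZStatement) : RecQStatement :=
  fun 𝒪 _ _ _ _ _ p ρbar S Smin hyp =>
    recQ_of_leaves 𝒪 p ρbar S Smin hR hF hL hN hU hT hC hJ hG hyp

end Fermat.Agent.S56.RQ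

end

end
-- ===== PACK-END S56/RQ/Glue.lean

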