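import Fermat.Agent.Pack.S43GC.G0E18L1
import Fermat.Agent.Pack.S43GC.G0E13L1
import Fermat.Agent.Pack.S43GC.G0E18L0
import Fermat.Agent.Pack.S43GC.G0E5L3
import Fermat.Agent.Pack.S43GC.G0E13L3
import Fermat.Agent.Pack.S43GC.G0E12L1
import Fermat.Agent.Pack.S43GC.G0E18L2
import Fermat.Agent.Pack.S43GC.G0E14L0
import Fermat.Agent.Pack.S43GC.G0E18L3
import Fermat.Agent.Pack.S43GC.G0E17L3
import Fermat.Agent.Pack.S43GC.G0E15L0
import Fermat.Agent.Pack.S43GC.G0E11L3
import Fermat.Agent.Pack.S44C.G0E1L1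
import Fermat.Agent.Pack.S43GC.G0E11L2
import Fermat.Agent.Pack.S43GC.G0E13L0
import Fermat.Agent.Pack.S43GC.G0E7L0
import Fermat.Agent.Pack.Fast891

-- ===== PACK-BEGIN S55/PT/Master.lean
section


/-!
# S55 / layer D: Theorem D from the leaves and the inputs (helper835)

`theoremD_of_leaves`: all framework leaves + the arithmetic inputs (in their "for all modules"
form `TopLocSpec`, `TopGlobSpec`, `CapAllSpec`) ⇒ `TheoremDSpec p S`.
`theoremD_of_inputs`: the same from the inputs A1, A3, A4, A5–A7, A8 of `PT/Spec.lean` and the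
dévissage leaves.
-/

set_option autoImplicit false

noncomputable section

namespace Fermat.Agent.S55.PT

open groupCohomology ExtCitation Module

variable (p : ℕ) [Fact p.Prime] (S : Finset Nat.Primes)

/-- **D-F8.** There is an `S`-level on which the cyclotomic character is trivial
(`ℚ(μ_p)` is unramified outside `S ∋ p`). -/
def CycloLevelSpec : Prop :=
  pPrime p ∈ S → ∃ V ∈ (globalLevels S).levels, ∀ u ∈ V, cycloChar p u = 1

variable {p S}

/-- Theorem D from the leaves and the inputs in "for all modules" form. -/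
theorem theoremD_of_leaves
    (hLes0 : Les0Spec) (hLes1 : Les1Spec) (hCone : ConeSpec) (hConeLes : ConeLesSpec)
    (hDel0Res : Del0ResSpec) (hEngine : EngineSpec)
    (hGN : GlobalNormalCofinalSpec) (hLN : LocalNormalCofinalSpec)
    (hGF : GlobalFiniteIndexSpec) (hEff : EffaceSpec)
    (hCyc : ∃ V ∈ (globalLevels S).levels, ∀ u ∈ V, cycloChar p u = 1)
    (hFin : FinGlobSpec p S) (hSurjG : Surj2GlobSpec p S)
    (inv : InvFamily p S) (hrec : IsRecip (hrl S) (cycloChar p) inv)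
    (hTopL : TopLocSpec inv) (hTopG : TopGlobSpec inv hrec)
    (hCap : CapAllSpec p S) : TheoremDSpec p S := by
  classical
  intro M hMfd hMsm
  haveI := hMfd
  -- a level `V` acting trivially on `M` and on `μ`
  obtain ⟨V₁, hV₁, hV₁M⟩ := hMsm
  obtain ⟨V₂, hV₂, hV₂χ⟩ := hCyc
  obtain ⟨V, hV, hVle⟩ := (globalLevels S).directed V₁ hV₁ V₂ hV₂
  have hχV : ∀ u ∈ V, cycloChar p u = 1 := fun u hu => hV₂χ u (hVle hu).2
  have hMV : ∀ u ∈ V, M.ρ u = 1 := fun u hu =>
    LinearMap.ext fun a => hV₁M u (hVle hu).1 a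
  -- the dual module
  have hM'triv : ∀ u ∈ V, (tdual p M).ρ u = 1 := fun u hu =>
    dualTwist_ρ_eq_one' (cycloChar p) M u (hχV u hu) (hMV u hu)
  have hM'sm : (globalLevels S).IsUSmooth (tdual p M) := isUSmooth_of_trivial _ hV hM'triv
  have hfin : FiniteDimensional (ZMod p) ((globalLevels S).H1 (tdual p M)) :=
    hFin (tdual p M) inferInstance hM'sm
  -- CAP level, then effaceability level
  obtain ⟨U₂, hU₂V, hU₂, hU₂n, hcap₂⟩ := hCap M hMfd V hV hχV hMV
  have hχU₂ : ∀ u ∈ U₂, cycloChar p u = 1 := fun u hu => hχV u (hU₂V hu)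
  have hMU₂ : ∀ u ∈ U₂, M.ρ u = 1 := fun u hu => hMV u (hU₂V hu)
  obtain ⟨U, hUU₂, hU, hUn, heff⟩ :=
    hEff (ZMod p) GQ (globalLevels S) (hGN S) (cycloChar p) M ⟨V₁, hV₁, hV₁M⟩ hfin U₂ hU₂
      hχU₂ hMU₂
  have hχU : ∀ u ∈ U, cycloChar p u = 1 := fun u hu => hχU₂ u (hUU₂ hu)
  have hMU : ∀ u ∈ U, M.ρ u = 1 := fun u hu => hMU₂ u (hUU₂ hu)
  haveI : U.Normal := hUn
  haveI : U.FiniteIndex := hGF S U hU
  -- the presentation
  let E := twSES (cycloChar p) U M hχU hMU
  have hPtriv : ∀ u ∈ U, (indRep U (twTriv (cycloChar p) M)).ρ u = 1 := fun u hu =>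
    indRep_ρ_eq_one U (twTriv (cycloChar p) M)
      (fun u hu => twTriv_ρ_eq_one (cycloChar p) M u (hχU u hu)) u hu
  have hPsm : (globalLevels S).IsUSmooth (indRep U (twTriv (cycloChar p) M)) :=
    isUSmooth_of_trivial _ hU hPtriv
  have hRsm : (globalLevels S).IsUSmooth
      (kerRep (A := indRep U (twTriv (cycloChar p) M)) (B := M) (augTw (cycloChar p) U M)
        (augTw_equivariant (cycloChar p) U M hχU hMU)) :=
    isUSmooth_of_trivial _ hU fun u hu => kerRep_ρ_eq_one _ _ u (hPtriv u hu)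
  have hMsm' : (globalLevels S).IsUSmooth M := ⟨V₁, hV₁, hV₁M⟩
  have hP'sm : (globalLevels S).IsUSmooth
      ((indRep U (twTriv (cycloChar p) M)).dualTwist (cycloChar p)) :=
    isUSmooth_of_trivial _ hU fun u hu =>
      dualTwist_ρ_eq_one' (cycloChar p) _ u (hχU u hu) (hPtriv u hu)
  -- CAP for `U`
  have hcap : ∀ x ∈ Sha2 (hrl S) (indRep U (twTriv (cycloChar p) M)),
      pushH2 E.π E.hπ (globalLevels S) x = 0 := by
    intro x hx
    have hcomp : (augTw (cycloChar p) U₂ M) ∘ₗ (indLE (twTriv (cycloChar p) M) hUU₂) =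
        augTw (cycloChar p) U M :=
      LinearMap.ext fun a => augTw_indLE (cycloChar p) U M hUU₂ hχU₂ hMU₂ a
    have hle := indLE_equivariant U (twTriv (cycloChar p) M) hUU₂
    have haug₂ := augTw_equivariant (cycloChar p) U₂ M hχU₂ hMU₂
    have h1 : pushH2 E.π E.hπ (globalLevels S) x =
        pushH2 (A := indRep U (twTriv (cycloChar p) M)) (B := M)
          ((augTw (cycloChar p) U₂ M) ∘ₗ (indLE (twTriv (cycloChar p) M) hUU₂))
          (isEquivariant_comp (A := indRep U (twTriv (cycloChar p) M))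
            (B := indRep U₂ (twTriv (cycloChar p) M)) (C := M) hle haug₂)
          (globalLevels S) x :=
      pushH2_congr (A := indRep U (twTriv (cycloChar p) M)) (B := M) (globalLevels S) _ _
        hcomp.symm x
    rw [h1, pushH2_comp (A := indRep U (twTriv (cycloChar p) M))
      (B := indRep U₂ (twTriv (cycloChar p) M)) (C := M) (globalLevels S) hle haug₂]
    exact hcap₂ _ (pushSha2 (hrl S) (A := indRep U (twTriv (cycloChar p) M))
      (B := indRep U₂ (twTriv (cycloChar p) M)) _ hle ⟨x, hx⟩).2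
  -- apply the generic assembly
  exact sha2_equiv_dual_sha1_generic (hrl S) (cycloChar p) inv hLes0 hLes1 hCone hConeLes
    hDel0Res hEngine (hGN S) (fun v => hLN v.1) hrec E hRsm hPsm hMsm' hP'sm hfin
    (hSurjG _ _ E.π E.hπ inferInstance hPsm hMsm' E.surj)
    heff hcap
    (hTopG _ inferInstance hRsm) (hTopG _ inferInstance hPsm).1
    (fun v => (hTopL v _ inferInstance (hRsm.res (hrl S v))).2)
    (fun v => (hTopL v _ inferInstance (hPsm.res (hrl S v))).1)

/-- **Theorem D from the inputs** A1, A3, A4, A5–A7, A8 of `PT/Spec.lean` and all leaves of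
layer D.  (A2 `FinLocSpec` is not needed.) -/
theorem theoremD_of_inputs
    (hLes0 : Les0Spec) (hLes1 : Les1Spec) (hMid : LesMidSpec) (hCone : ConeSpec)
    (hConeLes : ConeLesSpec) (hDel0Res : Del0ResSpec) (hEngine : EngineSpec)
    (hGN : GlobalNormalCofinalSpec) (hLN : LocalNormalCofinalSpec)
    (hGF : GlobalFiniteIndexSpec) (hLF : LocalFiniteIndexSpec) (hEff : EffaceSpec)
    (hCyc : CycloLevelSpec p S)
    (hTL : TopLocDevSpec p S) (hTG : TopGlobDevSpec p S) (hCD : CapDevSpec p S)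
    (hpS : pPrime p ∈ S)
    (hFin : FinGlobSpec p S) (hSurjG : Surj2GlobSpec p S) (hSurjL : Surj2LocSpec p S)
    (hInv : InvSpec p S) (hCap : CapSpec p S) : TheoremDSpec p S := by
  obtain ⟨inv, hrec, hTLI, hTGI⟩ := hInv
  have hrec' : IsRecip (hrl S) (cycloChar p) inv := hrec
  have hTopL : TopLocSpec inv := hTL hMid hLN hLF inv hTLI hSurjL
  have hTopG : TopGlobSpec inv hrec' := hTG hMid hGN hLN hGF hpS inv hrec' hTopL hTGI hSurjG hSurjL
  exact theoremD_of_leaves hLes0 hLes1 hCone hConeLes hDel0Res hEngine hGN hLN hGF hEff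
    (hCyc hpS) hFin hSurjG inv hrec' hTopL hTopG (hCD hGN hCap)

end Fermat.Agent.S55.PT

end

end
-- ===== PACK-END S55/PT/Master.lean

-- ===== PACK-BEGIN S55/Local/H964/T5Closed.lean
section






/-!
# S55, layer L : T4 and T5 CLOSED (helper964)

`h2Cyclic : H2CyclicStatement` — for every finite Galois extension `L / K` of local fields
(finite extensions of the fraction field of a complete DVR with finite residue field, char. 0),
`H²(Gal(L/K), Lˣ)` is cyclic of order `[L : K]`.  UNCONDITIONAL: assembled from landed leaves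

* T5 glue `H964.h2Cyclic_of`,
* UR5 `H543.existsUnramExt`, UR6' `H775.inertiaCard775`,
* T4 glue `H954.h2CardDvd_of_cyclicH2Card` on T3' `Closed.cyclicH2Card`,
* `Closed.*` (helper715's integration file) for UR1, T2, LF2, LF3, A4a, A4b, A4d.
-/

set_option autoImplicit false

namespace Fermat.Agent.S55.Local.H964

open Fermat.Agent.S55.Local

/-- (T4) `|H²(Gal(L/K), Lˣ)|` divides `[L : K]`, unconditionally. -/
theorem h2CardDvd : H2CardDvdStatement :=
  H954.h2CardDvd_of_cyclicH2Card Closed.cyclicH2Card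

/-- (UR6') inertia with cardinality, unconditionally (re-export). -/
theorem inertiaCard : InertiaCardStatement := H775.inertiaCard775

/-- (UR5) existence of unramified extensions, unconditionally (re-export). -/
theorem existsUnramExt : ExistsUnramExtStatement := H543.existsUnramExt

/-- **(T5)** `H²(Gal(L/K), Lˣ)` is cyclic of order `[L : K]`, unconditionally. -/
theorem h2Cyclic : H2CyclicStatement :=
  h2Cyclic_of existsUnramExt inertiaCard Closed.unramCyclic Closed.unramNormRange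
    Closed.existsUnif Closed.intUnitsComap Closed.cycCocycleIsCocycle
    Closed.cycCocycleCoboundaryIff Closed.cycCocyclePullback h2CardDvd

end Fermat.Agent.S55.Local.H964

end
-- ===== PACK-END S55/Local/H964/T5Closed.lean

-- ===== PACK-BEGIN S55/G/Rec/Tow/H323/AlgB.lean
section


/-!
# S55 / G / REC / TOW, leaf ALG-B (helper323, subtask 551)

Pure algebra on Mathlib's `groupCohomology`:

* `resTop : ResTopSpec` — restriction to the subgroup `⊤` is bijective;
* `resCoeffNat : ResCoeffNatSpec` — restriction commutes with change of coefficients;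
* `resMapNat : ResMapNatSpec` — restriction commutes with inflation;
* `h2Exact : H2ExactSpec` — exactness of `H²(H, X₁) → H²(H, X₂) → H²(H, X₃)`.
-/

set_option autoImplicit false

open CategoryTheory groupCohomology

noncomputable section

namespace Fermat.Agent.S55.G.Rec.TOW.H323

open Fermat.Agent.S55 Fermat.Agent.S55.G.Rec.TOW

/-! ## ALG-TOP -/

/-- Restriction to `⊤` is an isomorphism (general coefficient ring, all degrees). -/
theorem resMap_top_bijective_h323 {k Γ : Type} [CommRing k] [Group Γ] (A : Rep.{0} k Γ) (n : ℕ) :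
    Function.Bijective (T.resMap A (⊤ : Subgroup Γ) n).hom := by
  let e : (⊤ : Subgroup Γ) ≃* Γ := Subgroup.topEquiv
  have he : ∀ g : (⊤ : Subgroup Γ),
      (LinearEquiv.refl k A.V).toLinearMap ∘ₗ (T.resSub A ⊤).ρ g =
        A.ρ (e g) ∘ₗ (LinearEquiv.refl k A.V).toLinearMap := fun g => rfl
  let I := groupCohomology.mapIso (A := A) (B := T.resSub A ⊤) e (LinearEquiv.refl k A.V) he n
  have hI : T.resMap A (⊤ : Subgroup Γ) n = I.inv := rfl
  rw [hI]
  exact ConcreteCategory.bijective_of_isIso I.inv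

/-- **ALG-TOP.** -/
theorem resTop : ResTopSpec := fun _ _ A n => resMap_top_bijective_h323 A n

/-! ## ALG-RCN -/

/-- Restriction commutes with change of coefficients (all degrees, morphism form). -/
theorem resMap_coeffMap_h323 {k Γ : Type} [CommRing k] [Group Γ] {A B : Rep.{0} k Γ} (f : A ⟶ B)
    (H : Subgroup Γ) (n : ℕ) :
    T.resMap A H n ≫ T.coeffMap ((Rep.resFunctor H.subtype).map f) n =
      T.coeffMap f n ≫ T.resMap B H n := by
  rw [← groupCohomology.map_comp, ← groupCohomology.map_comp]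
  exact groupCohomology.map_congr rfl (by simp) n

/-- **ALG-RCN.** -/
theorem resCoeffNat : ResCoeffNatSpec := by
  intro Γ _ A B f H x
  have h := resMap_coeffMap_h323 f H 2
  exact congrArg (fun φ => φ.hom x) h

/-! ## ALG-NAT -/

section Nat

variable {k Γ' Γ : Type} [CommRing k] [Group Γ'] [Group Γ] (π : Γ' →* Γ)

/-- The restriction of `π` to `π⁻¹ P → P`. -/
def comapHom_h323 (P : Subgroup Γ) : ↥(P.comap π) →* ↥P where
  toFun g := ⟨π g.1, g.2⟩
  map_one' := Subtype.ext (map_one π)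
  map_mul' a b := Subtype.ext (map_mul π a.1 b.1)

variable {π} in
/-- `ι : Res_π C ⟶ C'` restricted to `π⁻¹ P`. -/
def comapCoeff_h323 {C : Rep.{0} k Γ} {C' : Rep.{0} k Γ'} (ι : Rep.res π C ⟶ C')
    (P : Subgroup Γ) :
    Rep.res (comapHom_h323 π P) (T.resSub C P) ⟶ T.resSub C' (P.comap π) :=
  Rep.ofHom ⟨ι.hom.toLinearMap, fun g => LinearMap.ext fun x => Rep.hom_comm_apply ι g.1 x⟩

/-- Restriction commutes with inflation (all degrees, morphism form). -/
theorem map_resMap_h323 {C : Rep.{0} k Γ} {C' : Rep.{0} k Γ'} (ι : Rep.res π C ⟶ C')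
    (P : Subgroup Γ) (n : ℕ) :
    groupCohomology.map π ι n ≫ T.resMap C' (P.comap π) n =
      T.resMap C P n ≫ groupCohomology.map (comapHom_h323 π P) (comapCoeff_h323 ι P) n := by
  rw [← groupCohomology.map_comp, ← groupCohomology.map_comp]
  exact groupCohomology.map_congr rfl (by ext; rfl) n

end Nat

/-- **ALG-NAT.** -/
theorem resMapNat : ResMapNatSpec := by
  intro Γ' Γ _ _ π C C' ι P z hz
  have h := map_resMap_h323 π ι P 2
  have h2 : res2 C' (P.comap π) ((groupCohomology.map π ι 2).hom z) =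
      (groupCohomology.map (comapHom_h323 π P) (comapCoeff_h323 ι P) 2).hom (res2 C P z) :=
    congrArg (fun φ => φ.hom z) h
  rw [h2, hz, map_zero]

/-! ## ALG-SES -/

/-- Exactness of `Hⁿ(Γ, X₁) → Hⁿ(Γ, X₂) → Hⁿ(Γ, X₃)`, elementwise. -/
theorem coeffMap_exact_h323 {k Γ : Type} [CommRing k] [Group Γ] (X : ShortComplex (Rep.{0} k Γ))
    (hX : X.ShortExact) (n : ℕ) (z : groupCohomology X.X₂ n)
    (hz : (T.coeffMap X.g n).hom z = 0) : ∃ x, (T.coeffMap X.f n).hom x = z := by
  have h := groupCohomology.mapShortComplex₂_exact hX n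
  rw [ShortComplex.moduleCat_exact_iff] at h
  exact h z hz

/-- **ALG-SES.** -/
theorem h2Exact : H2ExactSpec := by
  intro Γ _ X hX
  refine ⟨fun z hz => coeffMap_exact_h323 X hX 2 z hz, fun H z hz => ?_⟩
  have hX' : (X.map (Rep.resFunctor H.subtype)).ShortExact := (Rep.shortExact_res H.subtype).2 hX
  exact coeffMap_exact_h323 (X.map (Rep.resFunctor H.subtype)) hX' 2 z hz

end Fermat.Agent.S55.G.Rec.TOW.H323

end

end
-- ===== PACK-END S55/G/Rec/Tow/H323/AlgB.lean

-- ===== PACK-BEGIN S55/G/Rec/Tow/H139/UpTow.lean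
section
/-
S55 / layer G / block REC / adapter TOW, leaf UP-TOW (subtask 554)              (helper139)

`up_of : G.PClassUpperSpec → UpSpec p` — the Tower form of G-UP: for a level `M ⊇ μ_p` of `S ∋ p`
and a `p`-subgroup `H ≤ Gal(M/ℚ)` apply `G.PClassUpperSpec` to the group `↥H` acting on `M.F`
(at the subgroup `⊤`), and transport along the dictionary
`T.resSub (G.CRep S M.Gal M.F) H  =  G.CRep S ↥H M.F`  (same module, same action).
Complete proofs, standard axioms only.
-/


set_option autoImplicit false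
set_option linter.style.haveILetI false

open CategoryTheory groupCohomology
open scoped NumberField

noncomputable section

namespace Fermat.Agent.S55.G.Rec.TOW.H139

open Fermat.Agent.S55 Fermat.Agent.S55.Tow Fermat.Agent.S55.E1.H594

/-- `Hⁿ(⊤, A|⊤) ≅ Hⁿ(Γ, A)`. -/
def topIso139 {k Γ : Type} [CommRing k] [Group Γ] (A : Rep.{0} k Γ) (n : ℕ) :
    groupCohomology (T.resSub A (⊤ : Subgroup Γ)) n ≅ groupCohomology A n :=
  groupCohomology.mapIso (A := A) (B := T.resSub A (⊤ : Subgroup Γ))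
    (Subgroup.topEquiv : (⊤ : Subgroup Γ) ≃* Γ) (LinearEquiv.refl k A.V) (fun _ => rfl) n

section Dict

variable (S : Finset Nat.Primes) (Γ L : Type) [Group Γ] [Field L] [NumberField L]
  [MulSemiringAction Γ L] (H : Subgroup Γ)

/-- The dictionary on representations: the class module of the subgroup `H` (acting on `L` by
restriction) is the restriction of the class module of `Γ`. -/
theorem cRepr_subgroup (h : H) : G.cRepr S H L h = G.cRepr S Γ L (h : Γ) := rfl

/-- `Hⁿ(H, C_S(L)) ≅ Hⁿ(H, Res_H C_S(L))`. -/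
def crepSubIso (n : ℕ) :
    groupCohomology (G.CRep S H L) n ≅ groupCohomology (T.resSub (G.CRep S Γ L) H) n :=
  groupCohomology.mapIso (A := T.resSub (G.CRep S Γ L) H) (B := G.CRep S H L)
    (MulEquiv.refl H) (LinearEquiv.refl ℤ (G.CS S L)) (fun _ => rfl) n

end Dict

/-- Transport of `T.CardDvd` along an isomorphism. -/
theorem cardDvd_of_iso {X Y : ModuleCat.{0} ℤ} (e : X ≅ Y) {m : ℕ} (h : T.CardDvd X m) :
    T.CardDvd Y m := by
  obtain ⟨hfin, hdvd⟩ := h
  have e' : X ≃ Y := e.toLinearEquiv.toEquiv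
  haveI := hfin
  exact ⟨Finite.of_equiv X e', by rwa [← Nat.card_congr e']⟩

/-- **UP-TOW.** -/
theorem up_of (p : ℕ) (hUP : G.PClassUpperSpec) : UpSpec p := by
  intro S hp hp2 hpS M hMu H hH
  haveI : Fact p.Prime := ⟨hp⟩
  haveI : Finite M.Gal := level_finite_gal M
  haveI : FaithfulSMul H M.F := level_faithfulSMul_subgroup M H
  obtain ⟨ζ, hζF, hζ⟩ := hMu
  have h := hUP p hp2 S H M.F hpS hH (level_isUnramOut_subgroup M H)
    (level_hasFixedRootOfUnity M hζF hζ H hH) ⊤
  refine ⟨Limits.IsZero.of_iso h.1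
      ((crepSubIso S M.Gal M.F H 1).symm ≪≫ (topIso139 (G.CRep S H M.F) 1).symm), ?_⟩
  have h2 := cardDvd_of_iso
    ((topIso139 (G.CRep S H M.F) 2) ≪≫ (crepSubIso S M.Gal M.F H 2)) h.2
  rwa [Subgroup.card_top] at h2

end Fermat.Agent.S55.G.Rec.TOW.H139

end

end
-- ===== PACK-END S55/G/Rec/Tow/H139/UpTow.lean

-- ===== PACK-BEGIN S55/H963/SecondIneqRay.lean
section



/-!
# S55 (helper963): the second inequality for ray data, unconditional

Combines the analytic second inequality of helper357 (`card_le_finrank_of_bounded`, which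
assumes the boundedness of the ray class `L`-series) with RAY-N1 (`exists_LSum_bound`).

`RayDatum.card_le_finrank` : let `L / K` be an extension of number fields, `D` a ray datum of
`K` with finite class group `A` such that `ψ` is surjective and `ψ 𝔭 = 1` for every prime `𝔭`
of `K` coprime to the modulus lying under a prime of `L` of prime absolute norm.
Then `#A ≤ [L : K]`.
-/

set_option autoImplicit false

namespace Fermat.Agent.S55.H963

open NumberField IsDedekindDomain

open scoped nonZeroDivisors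

variable {K : Type*} [Field K] [NumberField K] {A : Type*} [CommGroup A]

namespace RayDatum

variable (D : RayDatum K A)

theorem psi_top : D.ψ ⊤ = 1 := by
  have h := D.map_principal 1 (by simp)
  rwa [Ideal.span_singleton_one] at h

open Classical in
/-- The completely multiplicative function `I ↦ χ(ψ I)` (zero on ideals not coprime to the
modulus). -/
noncomputable def charHom (χ : A →* ℂˣ) : (Ideal (𝓞 K))⁰ →* ℂ where
  toFun I := if IsCoprime (I : Ideal (𝓞 K)) D.m then ((χ (D.ψ I) : ℂˣ) : ℂ) else 0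
  map_one' := by
    have h1 : IsCoprime (((1 : (Ideal (𝓞 K))⁰) : Ideal (𝓞 K))) D.m := by
      rw [Submonoid.coe_one]
      exact isCoprime_one_left
    rw [if_pos h1, Submonoid.coe_one, Ideal.one_eq_top, D.psi_top, map_one, Units.val_one]
  map_mul' I J := by
    by_cases hI : IsCoprime (I : Ideal (𝓞 K)) D.m
    · by_cases hJ : IsCoprime (J : Ideal (𝓞 K)) D.m
      · have hIJ : IsCoprime (((I * J : (Ideal (𝓞 K))⁰)) : Ideal (𝓞 K)) D.m := by
          rw [Submonoid.coe_mul]
          exact hI.mul_left hJ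
        rw [if_pos hIJ, if_pos hI, if_pos hJ, Submonoid.coe_mul, D.map_mul _ _ hI hJ,
          _root_.map_mul, Units.val_mul]
      · have hIJ : ¬ IsCoprime (((I * J : (Ideal (𝓞 K))⁰)) : Ideal (𝓞 K)) D.m := by
          rw [Submonoid.coe_mul]
          exact fun h => hJ h.of_mul_left_right
        rw [if_neg hIJ, if_neg hJ, mul_zero]
    · have hIJ : ¬ IsCoprime (((I * J : (Ideal (𝓞 K))⁰)) : Ideal (𝓞 K)) D.m := by
        rw [Submonoid.coe_mul]
        exact fun h => hI h.of_mul_left_left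
      rw [if_neg hIJ, if_neg hI, zero_mul]

theorem charHom_of_coprime (χ : A →* ℂˣ) {I : (Ideal (𝓞 K))⁰}
    (hI : IsCoprime (I : Ideal (𝓞 K)) D.m) :
    D.charHom χ I = ((χ (D.ψ I) : ℂˣ) : ℂ) := by
  classical
  show (if IsCoprime (I : Ideal (𝓞 K)) D.m then ((χ (D.ψ I) : ℂˣ) : ℂ) else 0) = _
  rw [if_pos hI]

theorem charHom_of_not_coprime (χ : A →* ℂˣ) {I : (Ideal (𝓞 K))⁰}
    (hI : ¬ IsCoprime (I : Ideal (𝓞 K)) D.m) : D.charHom χ I = 0 := by
  classical
  show (if IsCoprime (I : Ideal (𝓞 K)) D.m then ((χ (D.ψ I) : ℂˣ) : ℂ) else 0) = _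
  rw [if_neg hI]

theorem norm_charHom_le [Finite A] (χ : A →* ℂˣ) (I : (Ideal (𝓞 K))⁰) :
    ‖D.charHom χ I‖ ≤ 1 := by
  by_cases hI : IsCoprime (I : Ideal (𝓞 K)) D.m
  · rw [D.charHom_of_coprime χ hI, norm_char χ]
  · rw [D.charHom_of_not_coprime χ hI, norm_zero]
    exact zero_le_one

/-- The primes dividing the modulus. -/
def badSet : Set (HeightOneSpectrum (𝓞 K)) := {v | ¬ IsCoprime v.asIdeal D.m}

theorem badSet_finite : D.badSet.Finite := by
  refine (Ideal.finite_factors D.m_ne_bot).subset fun v hv => ?_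
  rw [Set.mem_setOf_eq, Ideal.dvd_iff_le]
  by_contra hle
  apply hv
  rw [Ideal.isCoprime_iff_sup_eq]
  have hmax : v.asIdeal.IsMaximal := v.isMaximal
  by_contra htop
  have h1 : v.asIdeal ⊔ D.m = v.asIdeal := by
    by_contra hne
    exact htop (hmax.1.2 _ (lt_of_le_of_ne le_sup_left (Ne.symm hne)))
  exact hle (by rw [← h1]; exact le_sup_right)

/-- The `L`-series of helper357 coincides with `LSum`. -/
theorem Lray_charHom (χ : A →* ℂˣ) (s : ℝ) :
    G.H357.Lray (D.charHom χ) s = D.LSum χ s := by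
  unfold G.H357.Lray LSum
  let g : D.all → (Ideal (𝓞 K))⁰ := fun I => ⟨I.1, mem_nonZeroDivisors_of_ne_zero I.2.1⟩
  have hg : Function.Injective g := by
    intro I J h
    have h' : (I : Ideal (𝓞 K)) = (J : Ideal (𝓞 K)) :=
      congrArg (fun z : (Ideal (𝓞 K))⁰ => (z : Ideal (𝓞 K))) h
    exact Subtype.ext h'
  have hsupp : Function.support (fun I : (Ideal (𝓞 K))⁰ => G.H357.tw (D.charHom χ) s I) ⊆
      Set.range g := by
    intro I hI
    rw [Function.mem_support, G.H357.tw_apply] at hI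
    have hc : IsCoprime (I : Ideal (𝓞 K)) D.m := by
      by_contra hc
      rw [D.charHom_of_not_coprime χ hc, zero_mul] at hI
      exact hI rfl
    exact ⟨⟨I.1, nonZeroDivisors.coe_ne_zero I, hc⟩, Subtype.ext rfl⟩
  rw [← hg.tsum_eq hsupp]
  congr 1
  funext I
  rw [G.H357.tw_apply, D.charHom_of_coprime χ (I := g I) I.2.2]
  rfl

variable {L : Type*} [Field L] [NumberField L] [Algebra K L]

/-- **The second inequality for ray data** (universal norm index inequality, analytic proof). -/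
theorem card_le_finrank [Finite A] (hsurj : D.IsSurj)
    (hsplit : ∀ w : HeightOneSpectrum (𝓞 L), (Ideal.absNorm w.asIdeal).Prime →
      IsCoprime (w.asIdeal.under (𝓞 K)) D.m → D.ψ (w.asIdeal.under (𝓞 K)) = 1) :
    Nat.card A ≤ Module.finrank K L := by
  refine G.H357.card_le_finrank_of_bounded (K := K) (L := L) (fun χ => D.charHom χ)
    (fun χ I => D.norm_charHom_le χ I) (fun v => D.ψ v.asIdeal) D.badSet D.badSet_finite
    ?_ ?_ ?_ ?_
  · intro χ v hv
    have hc : IsCoprime v.asIdeal D.m := not_not.mp hv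
    exact D.charHom_of_coprime χ (I := Fermat.Agent.S14.H163.toI0 v) hc
  · intro χ v hv
    exact D.charHom_of_not_coprime χ (I := Fermat.Agent.S14.H163.toI0 v) hv
  · intro χ hχ
    obtain ⟨B, hB⟩ := D.exists_LSum_bound hsurj χ hχ
    exact ⟨B, fun s hs1 hs2 => by rw [D.Lray_charHom χ s]; exact hB s hs1 hs2⟩
  · intro w hw hwB
    exact hsplit w hw (not_not.mp hwB)

end RayDatum

end Fermat.Agent.S55.H963

end
-- ===== PACK-END S55/H963/SecondIneqRay.lean

-- ===== PACK-BEGIN S55/L/UnrInv/Transport.lean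
section


/-!
# S55, layer L, unramified invariants: transport along isomorphisms
-/

set_option autoImplicit false
set_option linter.style.haveILetI false

namespace Fermat.Agent.S55.L.UnrInv

open groupCohomology

section Residue

variable {K E : Type} [Field K] [Field E] [Algebra K E]

/-- The residue field of an unramified extension of degree `n` has `q ^ n` elements. -/
theorem UnrPack.card_residue [FiniteDimensional K E] [IsLocalFld K] (hres : ResidueDegreeSpec)
    (P : UnrPack K E) :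
    Nat.card (IsLocalRing.ResidueField P.B) =
      Nat.card (IsLocalRing.ResidueField P.A) ^ Module.finrank K E := by
  obtain ⟨π, hπ⟩ := exists_isUniformizer P.A P.hA.1
  obtain ⟨π', hπ'⟩ := exists_isUniformizer P.B P.hB.1
  obtain ⟨e, f, hef, ⟨u, hu, hu', hπu⟩, hq⟩ := hres K E P.A P.B π π' P.hA P.hB hπ hπ'
  have hπ0 : π ≠ 0 := uniformizer_ne_zero P.A hπ
  have hπ'0 : π' ≠ 0 := uniformizer_ne_zero P.B hπ'
  have hu0 : u ≠ 0 := by
    rintro rfl
    rw [zero_mul] at hπu
    exact hπ0 ((map_eq_zero _).mp hπu)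
  have h1 := P.ordπ π hπ
  rw [hπu, ordZ_mul P.B P.hB.1 hu0 (pow_ne_zero _ hπ'0), ordZ_pow,
    ordZ_uniformizer P.B P.hB.1 hπ', (ordZ_eq_zero_iff P.B P.hB.1 hu0).mpr ⟨hu, hu'⟩] at h1
  have he : e = 1 := by
    have : (e : ℤ) = 1 := by linarith
    exact_mod_cast this
  rw [he, one_mul] at hef
  rw [hq, hef]

variable {E' : Type} [Field E']

/-- Isomorphic local fields have residue fields of the same cardinality. -/
theorem card_residue_of_ringEquiv (hres : ResidueDegreeSpec) [IsLocalFld E] (e : E ≃+* E')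
    (B : ValuationSubring E) (B' : ValuationSubring E')
    (hB : IsLocalRingOfIntegers B) (hB' : IsLocalRingOfIntegers B') :
    Nat.card (IsLocalRing.ResidueField B') = Nat.card (IsLocalRing.ResidueField B) := by
  letI : Algebra E E' := e.toRingHom.toAlgebra
  haveI : FiniteDimensional E E' :=
    Module.Finite.of_surjective (Algebra.linearMap E E') e.surjective
  have hrank : Module.finrank E E' = 1 := by
    have hbij : Function.Bijective (Algebra.linearMap E E') := e.bijective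
    have := (LinearEquiv.ofBijective (Algebra.linearMap E E') hbij).finrank_eq
    rw [← this, Module.finrank_self]
  obtain ⟨π, hπ⟩ := exists_isUniformizer B hB.1
  obtain ⟨π', hπ'⟩ := exists_isUniformizer B' hB'.1
  obtain ⟨e₁, f₁, hef, -, hq⟩ := hres E E' B B' π π' hB hB' hπ hπ'
  rw [hrank] at hef
  have hf : f₁ = 1 := Nat.eq_one_of_mul_eq_one_left hef
  rw [hq, hf, pow_one]

end Residue

section Transport

variable {K E K' E' : Type} [Field K] [Field E] [Algebra K E] [Field K'] [Field E']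
  [Algebra K' E'] [FiniteDimensional K E] [FiniteDimensional K' E'] [IsGalois K E]
  [IsGalois K' E'] [IsLocalFld K] [IsLocalFld K']

/-- **Transport** of the invariant maps of unramified extensions along isomorphisms. -/
theorem inv_transport (h1 : FiniteExtSpec) (hint : IntegersComapSpec) (hres : ResidueDegreeSpec)
    (P : UnrPack K E) (P' : UnrPack K' E')
    (e : E ≃+* E') (c : (E ≃ₐ[K] E) ≃* (E' ≃ₐ[K'] E'))
    (hc : ∀ (g : E ≃ₐ[K] E) (x : E), c g (e x) = e (g x))
    (f : cocycles₂ (unitsRep K E)) (f' : cocycles₂ (unitsRep K' E'))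
    (hf : ∀ g h : E ≃ₐ[K] E, (f' : _ × _ → unitsRep K' E') (c g, c h) =
      Additive.ofMul (Units.map (e : E →* E')
        (Additive.toMul (α := Eˣ) ((f : _ × _ → unitsRep K E) (g, h))))) :
    P'.inv (cls f') = P.inv (cls f) := by
  haveI : IsLocalFld E := h1 K E
  have hn : 0 < Module.finrank K E := Module.finrank_pos
  -- degrees
  have hnn : Module.finrank K' E' = Module.finrank K E := by
    rw [← IsGalois.card_aut_eq_finrank K E, ← IsGalois.card_aut_eq_finrank K' E']
    exact (Nat.card_congr c.toEquiv).symm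
  -- residue fields
  have hq : Nat.card (IsLocalRing.ResidueField P'.A) = Nat.card (IsLocalRing.ResidueField P.A) := by
    have h2 := P.card_residue hres
    have h3 := P'.card_residue hres
    rw [card_residue_of_ringEquiv hres e P.B P'.B P.hB P'.hB, h2, hnn] at h3
    exact (Nat.pow_left_injective hn.ne' h3).symm
  have hB : ∀ x : E, e x ∈ P'.B ↔ x ∈ P.B := fun x => mem_of_ringEquiv hint e P.B P'.B P.hB P'.hB
  -- Frobenius
  have hφ : c P.φ = P'.φ := by
    have := P'.eq_frob_pow (c P.φ) 1 ?_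
    · rw [this, pow_one]
    · intro y hy
      obtain ⟨x, rfl⟩ := e.surjective y
      have hx : x ∈ P.B := (hB x).mp hy
      rw [hc, pow_one, hq, ← map_pow, ← map_sub]
      exact (mem_nonunits_of_ringEquiv hint e P.B P'.B P.hB P'.hB).mpr (P.frob x hx)
  -- the sum
  have hw : P'.w (cycSum P'.φ (Module.finrank K' E') (f' : _ × _ → unitsRep K' E')) =
      P.w (cycSum P.φ (Module.finrank K E) (f : _ × _ → unitsRep K E)) := by
    unfold cycSum
    rw [hnn, map_sum, map_sum]
    apply Finset.sum_congr rfl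
    intro i _
    rw [← hφ, ← map_pow, hf, P'.w_apply, P.w_apply]
    exact ordZ_equiv P.B P.hB.1 P'.B P'.hB.1 e (fun x hx => (hB x).mpr hx)
      (fun y hy => by
        have := hB (e.symm y)
        rw [RingEquiv.apply_symm_apply] at this
        exact this.mp hy) _
  rw [P'.inv_cls, P.inv_cls, hw, hnn]

end Transport

end Fermat.Agent.S55.L.UnrInv

end
-- ===== PACK-END S55/L/UnrInv/Transport.lean

-- ===== PACK-BEGIN S55/Inv/GO4/H978/Abs.lean
section


/-!
# S55 / `InvSpec` / GO4-LD (helper978): abstract part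

* `mem_of_nsmul_eq_zero_of_cyclic` : in a finite cyclic group, a subgroup whose order is
  divisible by `p` contains every element killed by `p`;
* transport of cochain properties (`IsAt₁`, `IsAt₂`, `Z2At`, `IsCobAt₂`, `L.Z2`, `L.B2`) along
  equivariant additive maps (any coefficient ring);
* `exists_mem_Z2At_of_torsion` : in a weak class formation, a level-constant 2-cocycle whose class
  is killed by `p` is cohomologous to a cocycle inflated from any normal level `V₁` whose order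
  `n V₁` is divisible by `p`, and `p` times the latter is a coboundary at level `V₁`.
-/

set_option autoImplicit false

noncomputable section

namespace Fermat.Agent.S55.Inv.GO4.H978

open groupCohomology Fermat.Agent.S55.PT Fermat.Agent.S55.KC Fermat.Agent.S55.KC.H287

/-! ## 1. Cyclic groups -/

/-- In a finite cyclic group `S₂`, a subgroup `S₁` whose order is divisible by `p` contains every
element killed by `p`. -/
theorem mem_of_nsmul_eq_zero_of_cyclic {X : Type*} [AddCommGroup X] (p : ℕ) [Fact p.Prime]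
    {S₁ S₂ : AddSubgroup X} {n₁ n₂ : ℕ} (hn₁ : 0 < n₁) (hn₂ : 0 < n₂)
    (e₁ : S₁ ≃+ ZMod n₁) (e₂ : S₂ ≃+ ZMod n₂) (hle : S₁ ≤ S₂) (hpn : p ∣ n₁)
    {x : X} (hx : x ∈ S₂) (hpx : p • x = 0) : x ∈ S₁ := by
  have hp : p.Prime := Fact.out
  obtain ⟨N', hN'⟩ := hpn
  have hN'pos : 0 < N' := by
    rcases Nat.eq_zero_or_pos N' with h | h
    · rw [h, mul_zero] at hN'; omega
    · exact h
  have : NeZero n₁ := ⟨hn₁.ne'⟩
  set c₁ : ZMod n₁ := ((N' : ℕ) : ZMod n₁) with hc₁
  have hc₁0 : c₁ ≠ 0 := by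
    intro h
    have h1 : n₁ ∣ N' := (ZMod.natCast_eq_zero_iff _ _).1 h
    have h2 := Nat.le_of_dvd hN'pos h1
    have h3 : N' < n₁ := by
      rw [hN']
      have := hp.one_lt
      nlinarith
    omega
  have hc₁p : p • c₁ = 0 := by
    rw [hc₁, nsmul_eq_mul, ← Nat.cast_mul, ← hN', ZMod.natCast_self]
  set g : X := (e₁.symm c₁ : X) with hg
  have hgp : p • g = 0 := by
    have h1 : p • e₁.symm c₁ = 0 := by
      rw [← map_nsmul, hc₁p, map_zero]
    simpa using congrArg (fun z : S₁ => (z : X)) h1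
  have hg0 : g ≠ 0 := by
    intro h
    have h1 : e₁.symm c₁ = 0 := Subtype.ext (by rw [AddSubgroup.coe_zero]; exact h)
    have h2 : c₁ = 0 := by
      have := congrArg e₁ h1
      simpa using this
    exact hc₁0 h2
  have hgord : addOrderOf g = p := addOrderOf_eq_prime hgp hg0
  have hgmem : g ∈ S₁ := (e₁.symm c₁).2
  have hord : addOrderOf (e₂ ⟨g, hle hgmem⟩) = p := by
    have h1 : addOrderOf (⟨g, hle hgmem⟩ : S₂) = p := by
      rw [← hgord]
      exact (addOrderOf_injective S₂.subtype Subtype.coe_injective ⟨g, hle hgmem⟩).symm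
    rw [← h1]
    exact addOrderOf_injective (e₂ : S₂ →+ ZMod n₂) e₂.injective _
  have hcx : p • e₂ ⟨x, hx⟩ = 0 := by
    rw [← map_nsmul]
    have : p • (⟨x, hx⟩ : S₂) = 0 := Subtype.ext (by simpa using hpx)
    rw [this, map_zero]
  obtain ⟨t, ht⟩ := AddSubgroup.mem_zmultiples_iff.1
    (zmod_mem_zmultiples_of_nsmul_eq_zero hn₂ p _ _ hord hcx)
  have h2 : t • (⟨g, hle hgmem⟩ : S₂) = ⟨x, hx⟩ := by
    apply e₂.injective
    rw [map_zsmul, ht]
  have h3 : t • g = x := by
    simpa using congrArg (fun z : S₂ => (z : X)) h2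
  rw [← h3]
  exact S₁.zsmul_mem hgmem t

/-! ## 2. Transport along equivariant additive maps -/

section Transport

variable {G : Type} [Group G] {k : Type} [CommRing k] {M N : Rep.{0, 0, 0} k G}

/-- equivariance of an additive map between representations -/
def IsEquiv (φ : M →+ N) : Prop := ∀ (g : G) (m : M), φ (M.ρ g m) = N.ρ g (φ m)

variable {φ : M →+ N}

lemma isAt₁_comp (hφ : IsEquiv φ) {V : Subgroup G} {x : G → M} (hx : IsAt₁ V M x) :
    IsAt₁ V N (φ ∘ x) := fun g s hs =>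
  ⟨by simp only [Function.comp_apply, (hx g s hs).1],
    by simp only [Function.comp_apply]; rw [← hφ, (hx g s hs).2]⟩

lemma isAt₂_comp (hφ : IsEquiv φ) {V : Subgroup G} {f : G × G → M} (hf : IsAt₂ V M f) :
    IsAt₂ V N (φ ∘ f) := fun g h s t hs ht =>
  ⟨by simp only [Function.comp_apply, (hf g h s t hs ht).1],
    by simp only [Function.comp_apply]; rw [← hφ, (hf g h s t hs ht).2]⟩

lemma d₁₂_comp (hφ : IsEquiv φ) (x : G → M) :
    (d₁₂ N).hom (φ ∘ x) = φ ∘ (d₁₂ M).hom x := by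
  funext ⟨g, h⟩
  simp only [d₁₂_hom_apply, Function.comp_apply, map_add, map_sub]
  rw [hφ g (x h)]

lemma mem_cocycles₂_comp (hφ : IsEquiv φ) {f : G × G → M} (hf : f ∈ cocycles₂ M) :
    φ ∘ f ∈ cocycles₂ N := by
  rw [mem_cocycles₂_iff] at hf ⊢
  intro g h j
  simp only [Function.comp_apply]
  rw [← map_add, hf g h j, map_add, hφ]

lemma mem_Z2At_comp (hφ : IsEquiv φ) {V : Subgroup G} {f : G × G → M} (hf : f ∈ Z2At V M) :
    φ ∘ f ∈ Z2At V N :=
  ⟨mem_cocycles₂_comp hφ hf.1, isAt₂_comp hφ hf.2⟩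

lemma isCobAt₂_comp (hφ : IsEquiv φ) {V : Subgroup G} {f : G × G → M}
    (hf : IsCobAt₂ V M f) : IsCobAt₂ V N (φ ∘ f) := by
  obtain ⟨x, hx, rfl⟩ := hf
  exact ⟨φ ∘ x, isAt₁_comp hφ hx, d₁₂_comp hφ x⟩

lemma mem_B2_comp (hφ : IsEquiv φ) (L : LevelSys G) {f : G × G → M} (hf : f ∈ L.B2 M) :
    φ ∘ f ∈ L.B2 N := by
  obtain ⟨x, hx, rfl⟩ := hf
  exact ⟨φ ∘ x, LevelSys.IsLC₁.comp hx φ, d₁₂_comp hφ x⟩

lemma mem_Z2_comp (hφ : IsEquiv φ) (L : LevelSys G) {f : G × G → M} (hf : f ∈ L.Z2 M) :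
    φ ∘ f ∈ L.Z2 N :=
  ⟨mem_cocycles₂_comp hφ hf.1, LevelSys.IsLC₂.comp hf.2 φ⟩

end Transport

/-! ## 3. Torsion classes in a weak class formation -/

section WCF

variable {G : Type} [Group G]

/-- In a weak class formation below `V₀` (cochain form: `H2At V B ≃ ZMod (n V)` and injectivity of
inflation), a level-constant 2-cocycle `Y` whose class is killed by `p` is cohomologous to a
cocycle `Y'` inflated from any given normal level `V₁ ≤ V₀` with `p ∣ n V₁`; moreover `p • Y'` is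
a coboundary at level `V₁`. -/
theorem exists_mem_Z2At_of_torsion (L : LevelSys G) (p : ℕ) [Fact p.Prime]
    (B : Rep.{0, 0, 0} ℤ G) (V₀ : Subgroup G) (n : Subgroup G → ℕ)
    (hNC : L.NormalCofinal) (hFI : L.FiniteIndex) (hB : L.IsSmooth B)
    (hcyc : ∀ V : Subgroup G, V ∈ L.levels → V.Normal → V ≤ V₀ →
      0 < n V ∧ Nonempty (H2At V B ≃+ ZMod (n V)))
    (hinf : ∀ V' V : Subgroup G, V' ∈ L.levels → V'.Normal → V ∈ L.levels → V.Normal → V' ≤ V →
      V ≤ V₀ → ∀ f ∈ Z2At V B, IsCobAt₂ V' B f → IsCobAt₂ V B f)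
    (V₁ : Subgroup G) (hV₁ : V₁ ∈ L.levels) (hV₁n : V₁.Normal) (hV₁le : V₁ ≤ V₀)
    (hpn : p ∣ n V₁)
    (Y : G × G → B) (hY : Y ∈ L.Z2 B) (hpY : p • Y ∈ L.B2 B) :
    ∃ Y' : G × G → B, Y' ∈ Z2At V₁ B ∧ Y - Y' ∈ L.B2 B ∧ IsCobAt₂ V₁ B (p • Y') := by
  set x : L.H2 B := L.H2π B ⟨Y, hY⟩ with hx
  have hpx : p • x = 0 := by
    rw [hx, ← map_nsmul, L.H2π_eq_zero_iff]
    exact hpY
  obtain ⟨VF, hVF, hVFn, hVFle, hxF⟩ := exists_psi_eq (L := L) (B := B) hNC x V₁ hV₁
  have hVF0 : VF ≤ V₀ := hVFle.trans hV₁le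
  obtain ⟨hn₂, ⟨e₂'⟩⟩ := hcyc VF hVF hVFn hVF0
  obtain ⟨hn₁, ⟨e₁'⟩⟩ := hcyc V₁ hV₁ hV₁n hV₁le
  have hinj₂ := psi_injective hNC hFI hB V₀ hinf VF hVF hVFn hVF0
  have hinj₁ := psi_injective hNC hFI hB V₀ hinf V₁ hV₁ hV₁n hV₁le
  have e₂ : (psi L B VF hVF).range ≃+ ZMod (n VF) :=
    (AddMonoidHom.ofInjective hinj₂).symm.trans e₂'
  have e₁ : (psi L B V₁ hV₁).range ≃+ ZMod (n V₁) :=
    (AddMonoidHom.ofInjective hinj₁).symm.trans e₁'
  have hmem : x ∈ (psi L B V₁ hV₁).range :=
    mem_of_nsmul_eq_zero_of_cyclic p hn₁ hn₂ e₁ e₂ (range_psi_mono hV₁ hVF hVFle) hpn hxF hpx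
  obtain ⟨y, hy⟩ := hmem
  obtain ⟨Y', rfl⟩ := QuotientAddGroup.mk_surjective y
  rw [psi_mk, psi₀_apply] at hy
  have hYY' : Y - Y'.1 ∈ L.B2 B := by
    have h0 : L.H2π B (⟨Y, hY⟩ - toZ2 L B V₁ hV₁ Y') = 0 := by
      rw [map_sub, hy, ← hx, sub_self]
    exact (L.H2π_eq_zero_iff B _).1 h0
  refine ⟨Y'.1, Y'.2, hYY', ?_⟩
  have hpY'Z : p • Y'.1 ∈ Z2At V₁ B := (Z2At V₁ B).nsmul_mem Y'.2 p
  have hpY'B : p • Y'.1 ∈ L.B2 B := by
    have h1 : p • (Y - Y'.1) ∈ L.B2 B := (L.B2 B).smul_of_tower_mem p hYY'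
    have h2 : p • Y'.1 = p • Y - p • (Y - Y'.1) := by
      rw [smul_sub]; abel
    rw [h2]
    exact (L.B2 B).sub_mem hpY h1
  exact isCobAt₂_of_mem_B2 L hNC hFI B hB V₀ hinf V₁ hV₁ hV₁n hV₁le _ hpY'Z hpY'B

end WCF

end Fermat.Agent.S55.Inv.GO4.H978

end

end
-- ===== PACK-END S55/Inv/GO4/H978/Abs.lean

-- ===== PACK-BEGIN S56/H419/H0Dual.lean
section


/-!
# S56 / W-BASE / leaf EUL-H0, part 5 (helper419): the Tate dual of an induced module

For `U` of finite index, `dualIndEquiv : (G ⧸ U →₀ M^*) ≃ₗ (G ⧸ U →₀ M)^*`,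
`b ↦ (a ↦ ∑ₓ b x (a x))`, is an isomorphism of representations

  `Ind_U (M′) ≅ (Ind_U M)′`        (`′ = dualTwist χ`, any character `χ`)

(`dualIndEquiv_equivariant`) which intertwines the right translation `indR σ` on the left with
the contragredient `(indR σ⁻¹)^*` of the right translation on the right (`dualIndEquiv_indR`).

Consequently, if `M = k(χ)` (e.g. `M = μ_p`, `χ` the cyclotomic character), `M′` is a trivial
representation and `H⁰(G', (Ind_U M)′|_{G'}) ≃ (r(G')\G/U →₀ M^*)` for every `r : G' → G`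
(`resTdualIndH0Equiv`), the contragredient right translation becoming the permutation action of
`dcPerm σ` (`resTdualIndH0Equiv_indR`).
-/

set_option autoImplicit false
set_option linter.style.haveILetI false

noncomputable section

namespace Fermat.Agent.S56.H419

open Fermat.Agent.S55.PT groupCohomology MulAction

variable {k : Type} [Field k] {G : Type} [Group G]

section Dual

variable (U : Subgroup G) (M : Rep.{0, 0, 0} k G)

/-- `(G ⧸ U →₀ M^*) ≃ (G ⧸ U →₀ M)^*`. -/
def dualIndEquiv [U.FiniteIndex] :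
    ((G ⧸ U) →₀ Module.Dual k M) ≃ₗ[k] Module.Dual k ((G ⧸ U) →₀ M) :=
  (Finsupp.linearEquivFunOnFinite k (Module.Dual k M) (G ⧸ U)).trans (Finsupp.lsum k)

theorem dualIndEquiv_apply_single [U.FiniteIndex] (b : (G ⧸ U) →₀ Module.Dual k M)
    (x : G ⧸ U) (m : M) :
    dualIndEquiv U M b (Finsupp.single x m) = b x m := by
  simp [dualIndEquiv]

theorem dualIndEquiv_single_single [U.FiniteIndex] [DecidableEq (G ⧸ U)] (x y : G ⧸ U)
    (f : Module.Dual k M) (m : M) :
    dualIndEquiv U M (Finsupp.single x f) (Finsupp.single y m) = if x = y then f m else 0 := by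
  rw [dualIndEquiv_apply_single, Finsupp.single_apply]
  split_ifs <;> simp

variable (χ : G →* kˣ)

/-- `dualIndEquiv` is an isomorphism of representations `Ind_U (M′) ≅ (Ind_U M)′`. -/
theorem dualIndEquiv_equivariant [U.FiniteIndex] :
    IsEquivariant (A := indRep U (M.dualTwist χ)) (B := (indRep U M).dualTwist χ)
      (dualIndEquiv U M : ((G ⧸ U) →₀ Module.Dual k M) →ₗ[k] Module.Dual k ((G ⧸ U) →₀ M)) := by
  classical
  intro g b
  have key : ((dualIndEquiv U M : ((G ⧸ U) →₀ Module.Dual k M) →ₗ[k] _) ∘ₗ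
      (indAct U (M.dualTwist χ) g)) =
      ((((indRep U M).dualTwist χ).ρ g : Module.Dual k ((G ⧸ U) →₀ M) →ₗ[k] _) ∘ₗ
        (dualIndEquiv U M : ((G ⧸ U) →₀ Module.Dual k M) →ₗ[k] _)) := by
    apply Finsupp.lhom_ext
    intro x f
    apply Finsupp.lhom_ext
    intro y m
    rw [LinearMap.comp_apply, LinearMap.comp_apply, indAct_single]
    show dualIndEquiv U M (Finsupp.single (g • x) ((M.dualTwist χ).ρ g f)) (Finsupp.single y m) =
      (((indRep U M).dualTwist χ).ρ g (dualIndEquiv U M (Finsupp.single x f)))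
        (Finsupp.single y m)
    rw [Rep.dualTwist_ρ_apply, Rep.dualTwist_ρ_apply, LinearMap.smul_apply,
      LinearMap.comp_apply]
    have h1 : (indRep U M).ρ g⁻¹ (Finsupp.single y m : (G ⧸ U) →₀ M) =
        (Finsupp.single (g⁻¹ • y) (M.ρ g⁻¹ m) : (G ⧸ U) →₀ M) := indRep_ρ_single U M g⁻¹ y m
    rw [h1, dualIndEquiv_single_single, dualIndEquiv_single_single, LinearMap.smul_apply,
      LinearMap.comp_apply]
    by_cases h : g • x = y
    · have h' : x = g⁻¹ • y := by rw [← h, inv_smul_smul]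
      rw [if_pos h, if_pos h']
    · have h' : ¬ x = g⁻¹ • y := by
        intro hx
        apply h
        rw [hx, smul_inv_smul]
      rw [if_neg h, if_neg h', smul_zero]
  exact LinearMap.congr_fun key b

/-- **Intertwining (dual).** `dualIndEquiv` carries the right translation `indR σ` to the
contragredient `(indR σ⁻¹)^*`. -/
theorem dualIndEquiv_indR [U.Normal] [U.FiniteIndex] (σ : G)
    (b : (G ⧸ U) →₀ Module.Dual k M) :
    dualIndEquiv U M (indR U (M.dualTwist χ) σ b) =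
      (indR U M σ⁻¹).dualMap (dualIndEquiv U M b) := by
  classical
  have key : ((dualIndEquiv U M : ((G ⧸ U) →₀ Module.Dual k M) →ₗ[k] _) ∘ₗ
      (indR U (M.dualTwist χ) σ)) =
      ((indR U M σ⁻¹).dualMap ∘ₗ
        (dualIndEquiv U M : ((G ⧸ U) →₀ Module.Dual k M) →ₗ[k] _)) := by
    apply Finsupp.lhom_ext
    intro x f
    apply Finsupp.lhom_ext
    intro y m
    rw [LinearMap.comp_apply, LinearMap.comp_apply, indR_single, LinearMap.dualMap_apply,
      indR_single]
    show dualIndEquiv U M (Finsupp.single (rightTr U σ x) f) (Finsupp.single y m) =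
      dualIndEquiv U M (Finsupp.single x f) (Finsupp.single (rightTr U σ⁻¹ y) m)
    rw [dualIndEquiv_single_single, dualIndEquiv_single_single]
    have hiff : rightTr U σ x = y ↔ x = rightTr U σ⁻¹ y := by
      simp only [rightTr_apply, QuotientGroup.mk_inv, inv_inv]
      constructor
      · rintro rfl
        rw [inv_mul_cancel_right]
      · rintro rfl
        rw [mul_inv_cancel_right]
    by_cases h : rightTr U σ x = y
    · rw [if_pos h, if_pos (hiff.1 h)]
    · rw [if_neg h, if_neg (fun h' => h (hiff.2 h'))]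
  exact LinearMap.congr_fun key b

/-- The contragredient of the right translation on `(Ind_U M)′`. -/
def indRDual [U.Normal] (σ : G) :
    Module.Dual k ((G ⧸ U) →₀ M) →ₗ[k] Module.Dual k ((G ⧸ U) →₀ M) :=
  (indR U M σ⁻¹).dualMap

theorem indRDual_equivariant [U.Normal] (σ : G) :
    IsEquivariant (A := (indRep U M).dualTwist χ) (B := (indRep U M).dualTwist χ)
      (indRDual U M σ) :=
  dualMap_equivariant χ (A := indRep U M) (B := indRep U M) (indR U M σ⁻¹)
    (indR_equivariant U M σ⁻¹)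

theorem indRDual_one [U.Normal] : indRDual U M (1 : G) = LinearMap.id := by
  rw [indRDual, inv_one, indR_one]
  exact LinearMap.dualMap_id

theorem indRDual_mul [U.Normal] (σ τ : G) :
    indRDual U M (σ * τ) = indRDual U M σ ∘ₗ indRDual U M τ := by
  rw [indRDual, indRDual, indRDual, mul_inv_rev, indR_mul, LinearMap.dualMap_comp_dualMap]

end Dual

/-! ### `H⁰` of the Tate dual of `Ind_U k(χ)` -/

section TdualH0

variable {G' : Type} [Group G'] (r : G' →* G) (U : Subgroup G) (M : Rep.{0, 0, 0} k G)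
  (χ : G →* kˣ)

/-- If `G` acts on `M` through `χ`, it acts trivially on `M′ = M^* ⊗ χ`. -/
theorem dualTwist_trivial_of_char (hM : ∀ (g : G) (m : M), M.ρ g m = (χ g : k) • m) (g : G)
    (f : Module.Dual k M) : (M.dualTwist χ).ρ g f = f := by
  apply LinearMap.ext
  intro m
  rw [Rep.dualTwist_ρ_apply, LinearMap.smul_apply, LinearMap.comp_apply, hM, map_smul,
    smul_smul, map_inv, ← Units.val_mul, mul_inv_cancel, Units.val_one, one_smul]

/-- `H⁰(G', (Ind_U M)′|_{G'}) → H⁰(G', Ind_U(M′)|_{G'})`, the inverse of `dualIndEquiv`. -/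
def tdualToInd [U.FiniteIndex] :
    ↥(LevelSys.H0 (Rep.res r ((indRep U M).dualTwist χ))) ≃ₗ[k]
      ↥(LevelSys.H0 (Rep.res r (indRep U (M.dualTwist χ)))) where
  toFun a := ⟨(dualIndEquiv U M).symm a.1, by
    intro g
    apply (dualIndEquiv U M).injective
    have h1 := dualIndEquiv_equivariant U M χ (r g) ((dualIndEquiv U M).symm a.1)
    have h2 : ((indRep U M).dualTwist χ).ρ (r g) a.1 = a.1 := a.2 g
    show dualIndEquiv U M ((indRep U (M.dualTwist χ)).ρ (r g) ((dualIndEquiv U M).symm a.1)) = _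
    rw [LinearEquiv.coe_coe] at h1
    rw [h1, LinearEquiv.apply_symm_apply, h2]⟩
  map_add' a b := by
    apply Subtype.ext
    exact map_add (dualIndEquiv U M).symm a.1 b.1
  map_smul' c a := by
    apply Subtype.ext
    exact map_smul (dualIndEquiv U M).symm c a.1
  invFun b := ⟨dualIndEquiv U M b.1, by
    intro g
    have h1 := dualIndEquiv_equivariant U M χ (r g) b.1
    have h2 : (indRep U (M.dualTwist χ)).ρ (r g) b.1 = b.1 := b.2 g
    show ((indRep U M).dualTwist χ).ρ (r g) (dualIndEquiv U M b.1) = _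
    rw [LinearEquiv.coe_coe] at h1
    rw [← h1, h2]⟩
  left_inv a := by
    apply Subtype.ext
    exact (dualIndEquiv U M).apply_symm_apply a.1
  right_inv b := by
    apply Subtype.ext
    exact (dualIndEquiv U M).symm_apply_apply b.1

@[simp] theorem coe_tdualToInd [U.FiniteIndex]
    (a : ↥(LevelSys.H0 (Rep.res r ((indRep U M).dualTwist χ)))) :
    ((tdualToInd r U M χ a).1 : (G ⧸ U) →₀ Module.Dual k M) = (dualIndEquiv U M).symm a.1 := rfl

/-- **Local invariants of the Tate dual.** If `G` acts on `M` through `χ`: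
`H⁰(G', (Ind_U M)′|_{G'}) ≃ (r(G')\G/U →₀ M^*)`. -/
def resTdualIndH0Equiv [U.FiniteIndex]
    (hM : ∀ (g : G) (m : M), M.ρ g m = (χ g : k) • m) :
    ↥(LevelSys.H0 (Rep.res r ((indRep U M).dualTwist χ))) ≃ₗ[k]
      (DC r.range U →₀ Module.Dual k M) :=
  (tdualToInd r U M χ).trans
    (resIndH0Equiv r U (M.dualTwist χ) (fun g f => dualTwist_trivial_of_char M χ hM (r g) f))

theorem indRDual_res_equivariant [U.Normal] (σ : G) :
    IsEquivariant (A := Rep.res r ((indRep U M).dualTwist χ))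
      (B := Rep.res r ((indRep U M).dualTwist χ)) (indRDual U M σ) :=
  fun g a => indRDual_equivariant U M χ σ (r g) a

/-- **Intertwining (local, Tate dual).** The contragredient right translation on
`H⁰(G', (Ind_U M)′)` is the permutation action of `dcPerm σ` on `r(G')\G/U`. -/
theorem resTdualIndH0Equiv_indR [U.Normal] [U.FiniteIndex]
    (hM : ∀ (g : G) (m : M), M.ρ g m = (χ g : k) • m) (σ : G)
    (a : ↥(LevelSys.H0 (Rep.res r ((indRep U M).dualTwist χ)))) :
    resTdualIndH0Equiv r U M χ hM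
        (pushH0 (A := Rep.res r ((indRep U M).dualTwist χ))
          (B := Rep.res r ((indRep U M).dualTwist χ)) (indRDual U M σ)
          (indRDual_res_equivariant r U M χ σ) a) =
      Finsupp.mapDomain (dcPerm r.range U σ) (resTdualIndH0Equiv r U M χ hM a) := by
  have hcomm : tdualToInd r U M χ
      (pushH0 (A := Rep.res r ((indRep U M).dualTwist χ))
        (B := Rep.res r ((indRep U M).dualTwist χ)) (indRDual U M σ)
        (indRDual_res_equivariant r U M χ σ) a) =
      pushH0 (A := Rep.res r (indRep U (M.dualTwist χ)))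
        (B := Rep.res r (indRep U (M.dualTwist χ))) (indR U (M.dualTwist χ) σ)
        (indR_res_equivariant r U (M.dualTwist χ) σ) (tdualToInd r U M χ a) := by
    apply Subtype.ext
    apply (dualIndEquiv U M).injective
    rw [coe_tdualToInd, LinearEquiv.apply_symm_apply, coe_pushH0, coe_pushH0, dualIndEquiv_indR,
      coe_tdualToInd, LinearEquiv.apply_symm_apply]
    rfl
  have hM' : ∀ (g : G') (f : (M.dualTwist χ)), (M.dualTwist χ).ρ (r g) f = f :=
    fun g f => dualTwist_trivial_of_char M χ hM (r g) f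
  show resIndH0Equiv r U (M.dualTwist χ) hM' (tdualToInd r U M χ _) =
    Finsupp.mapDomain (dcPerm r.range U σ)
      (resIndH0Equiv r U (M.dualTwist χ) hM' (tdualToInd r U M χ a))
  rw [hcomm, resIndH0Equiv_indR]

end TdualH0

end Fermat.Agent.S56.H419

end

end
-- ===== PACK-END S56/H419/H0Dual.lean

-- ===== PACK-BEGIN S56/H614/LinFunPi.lean
section


/-!
# S56 / W-BASE / EUL-RED, part 3 (helper614): finite powers `X^J` and the operators `M ⊗ T`

* `piRep J X`: the representation on `J → X` (pointwise action);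
* `matOp_equivariant`: `M ⊗ T` is equivariant on `X^J` if `T` is on `X`;
* `LinFun.piEquiv : F (X^J) ≃ (F X)^J`, `LinFun.piEquiv_matOp`;
* `LinFun.finrank_kerRep_matOp`:
  `dim F (ker (M ⊗ T - 1)) = dim ker (M ⊗ F T - 1)` if `M ^ n = 1`, `T ^ n = 1`, `n ≠ 0` in `k`.
-/

set_option autoImplicit false
set_option linter.unusedSectionVars false

noncomputable section

namespace Fermat.Agent.S56.H614

open Fermat.Agent.S55.PT groupCohomology Module

variable {k : Type} [Field k] {G : Type} [Group G]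

/-! ### conjugation invariance of `dim ker (S - 1)` -/

theorem finrank_ker_sub_one_conj {V W : Type} [AddCommGroup V] [Module k V] [AddCommGroup W]
    [Module k W] (e : V ≃ₗ[k] W) (S : V →ₗ[k] V) (S' : W →ₗ[k] W)
    (h : ∀ x, e (S x) = S' (e x)) :
    finrank k ↥(LinearMap.ker (S - 1)) = finrank k ↥(LinearMap.ker (S' - 1)) := by
  have hmap : (LinearMap.ker (S - 1)).map (e : V →ₗ[k] W) = LinearMap.ker (S' - 1) := by
    ext w
    constructor
    · rintro ⟨x, hx, rfl⟩
      rw [SetLike.mem_coe, LinearMap.mem_ker, LinearMap.sub_apply, Module.End.one_apply,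
        sub_eq_zero] at hx
      rw [LinearMap.mem_ker, LinearMap.sub_apply, Module.End.one_apply, sub_eq_zero]
      show S' (e x) = e x
      rw [← h, hx]
    · intro hw
      rw [LinearMap.mem_ker, LinearMap.sub_apply, Module.End.one_apply, sub_eq_zero] at hw
      refine ⟨e.symm w, ?_, e.apply_symm_apply w⟩
      rw [SetLike.mem_coe, LinearMap.mem_ker, LinearMap.sub_apply, Module.End.one_apply,
        sub_eq_zero]
      apply e.injective
      rw [h, e.apply_symm_apply, hw]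
  rw [← hmap]
  exact (LinearEquiv.finrank_eq (e.submoduleMap (LinearMap.ker (S - 1))))

/-! ### the representation on `J → X` -/

section Pi

variable (J : Type) (X : Rep.{0, 0, 0} k G)

/-- pointwise action on `J → X` -/
def piRho : Representation k G (J → X) where
  toFun g := (X.ρ g).compLeft J
  map_one' := by
    apply LinearMap.ext
    intro z
    funext j
    simp
  map_mul' g h := by
    apply LinearMap.ext
    intro z
    funext j
    simp

/-- `X^J` -/
abbrev piRep : Rep.{0, 0, 0} k G := Rep.of (piRho J X)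

lemma piRep_ρ_apply (g : G) (z : J → X) (j : J) :
    ((piRep J X).ρ g z : J → X) j = X.ρ g (z j) := rfl

lemma proj_equivariant (j : J) :
    IsEquivariant (A := piRep J X) (B := X) (LinearMap.proj j : (J → X) →ₗ[k] X) :=
  fun _ _ => rfl

variable [DecidableEq J]

lemma single_equivariant (j : J) :
    IsEquivariant (A := X) (B := piRep J X) (LinearMap.single k (fun _ : J => (X : Type)) j) := by
  intro g x
  funext i
  show (Pi.single j (X.ρ g x) : J → X) i = X.ρ g ((Pi.single j x : J → X) i)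
  by_cases hij : i = j
  · subst hij
    simp
  · simp [Pi.single_eq_of_ne hij]

variable [Fintype J]

variable {X} in
lemma matOp_equivariant (M : Matrix J J k) {T : X →ₗ[k] X} (hT : IsEquivariant T) :
    IsEquivariant (A := piRep J X) (B := piRep J X) (matOp M T) := by
  intro g z
  have hT' : ∀ (g : G) (a : X), T (X.ρ g a) = X.ρ g (T a) := hT
  funext i
  rw [matOp_apply]
  show _ = X.ρ g (matOp M T z i)
  rw [matOp_apply, map_sum]
  refine Finset.sum_congr rfl fun j _ => ?_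
  rw [map_smul, ← hT']
  rfl

end Pi

namespace LinFun

variable (F : LinFun k G) (J : Type) [Fintype J] [DecidableEq J] (X : Rep.{0, 0, 0} k G)

/-- `F (X^J) → (F X)^J` -/
def piTo : F.obj (piRep J X) →ₗ[k] (J → F.obj X) :=
  LinearMap.pi fun j => F.map (A := piRep J X) (B := X) (LinearMap.proj j) (proj_equivariant J X j)

/-- `(F X)^J → F (X^J)` -/
def piFrom : (J → F.obj X) →ₗ[k] F.obj (piRep J X) :=
  ∑ j, (F.map (A := X) (B := piRep J X) (LinearMap.single k (fun _ : J => (X : Type)) j)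
    (single_equivariant J X j)) ∘ₗ (LinearMap.proj j)

lemma piTo_apply (z : F.obj (piRep J X)) (j : J) :
    F.piTo J X z j =
      F.map (A := piRep J X) (B := X) (LinearMap.proj j) (proj_equivariant J X j) z := rfl

lemma piFrom_apply (h : J → F.obj X) :
    F.piFrom J X h = ∑ j, F.map (A := X) (B := piRep J X)
      (LinearMap.single k (fun _ : J => (X : Type)) j) (single_equivariant J X j) (h j) := by
  simp [piFrom, LinearMap.sum_apply]

lemma proj_comp_single (i j : J) :
    (LinearMap.proj i : (J → X) →ₗ[k] X) ∘ₗ (LinearMap.single k (fun _ : J => (X : Type)) j) =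
      if i = j then LinearMap.id else 0 := by
  apply LinearMap.ext
  intro x
  by_cases hij : i = j
  · subst hij
    simp
  · rw [if_neg hij]
    simp [Pi.single_eq_of_ne hij]

lemma sum_single_comp_proj :
    ∑ j, (LinearMap.single k (fun _ : J => (X : Type)) j) ∘ₗ
      (LinearMap.proj j : (J → X) →ₗ[k] X) = LinearMap.id := by
  apply LinearMap.ext
  intro z
  funext i
  simp only [LinearMap.sum_apply, LinearMap.comp_apply, LinearMap.proj_apply,
    LinearMap.single_apply, LinearMap.id_apply, Finset.sum_apply]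
  rw [Finset.sum_eq_single i]
  · simp
  · intro j _ hji
    exact Pi.single_eq_of_ne (Ne.symm hji) _
  · intro h
    exact absurd (Finset.mem_univ i) h

lemma piTo_piFrom (h : J → F.obj X) : F.piTo J X (F.piFrom J X h) = h := by
  funext i
  rw [piTo_apply, piFrom_apply, _root_.map_sum]
  rw [Finset.sum_eq_single i]
  · rw [← LinearMap.comp_apply, ← F.map_comp (A := X) (B := piRep J X) (C := X) _ _ _ _
      (isEquivariant_comp (A := X) (B := piRep J X) (C := X) (single_equivariant J X i)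
        (proj_equivariant J X i))]
    have : (LinearMap.proj i : (J → X) →ₗ[k] X) ∘ₗ
        (LinearMap.single k (fun _ : J => (X : Type)) i) = LinearMap.id := by
      rw [proj_comp_single, if_pos rfl]
    rw [F.map_congr (A := X) (B := X) this _ (isEquivariant_id X), F.map_id]
    rfl
  · intro j _ hji
    rw [← LinearMap.comp_apply, ← F.map_comp (A := X) (B := piRep J X) (C := X) _ _ _ _
      (isEquivariant_comp (A := X) (B := piRep J X) (C := X) (single_equivariant J X j)
        (proj_equivariant J X i))]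
    have : (LinearMap.proj i : (J → X) →ₗ[k] X) ∘ₗ
        (LinearMap.single k (fun _ : J => (X : Type)) j) = 0 := by
      rw [proj_comp_single, if_neg (Ne.symm hji)]
    rw [F.map_congr (A := X) (B := X) this _ isEquivariant_zero, F.map_zero]
    rfl
  · intro h
    exact absurd (Finset.mem_univ i) h

lemma piFrom_piTo (z : F.obj (piRep J X)) : F.piFrom J X (F.piTo J X z) = z := by
  rw [piFrom_apply]
  have h1 : ∀ j : J, F.map (A := X) (B := piRep J X)
      (LinearMap.single k (fun _ : J => (X : Type)) j) (single_equivariant J X j)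
        (F.piTo J X z j) =
      F.map (A := piRep J X) (B := piRep J X)
        ((LinearMap.single k (fun _ : J => (X : Type)) j) ∘ₗ
          (LinearMap.proj j : (J → X) →ₗ[k] X))
        (isEquivariant_comp (A := piRep J X) (B := X) (C := piRep J X) (proj_equivariant J X j)
          (single_equivariant J X j)) z := by
    intro j
    rw [F.map_comp (A := piRep J X) (B := X) (C := piRep J X) _ _ (proj_equivariant J X j)
      (single_equivariant J X j)]
    rfl
  rw [Finset.sum_congr rfl fun j _ => h1 j, ← LinearMap.sum_apply,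
    ← F.map_sum (A := piRep J X) (B := piRep J X) Finset.univ
      (fun j => (LinearMap.single k (fun _ : J => (X : Type)) j) ∘ₗ
          (LinearMap.proj j : (J → X) →ₗ[k] X))
      (fun j => isEquivariant_comp (A := piRep J X) (B := X) (C := piRep J X)
        (proj_equivariant J X j) (single_equivariant J X j))
      (isEquivariant_sum (A := piRep J X) (B := piRep J X) _ _ fun j =>
        isEquivariant_comp (A := piRep J X) (B := X) (C := piRep J X)
          (proj_equivariant J X j) (single_equivariant J X j))]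
  rw [F.map_congr (A := piRep J X) (B := piRep J X) (sum_single_comp_proj J X) _
    (isEquivariant_id _), F.map_id]
  rfl

/-- `F (X^J) ≃ (F X)^J` -/
def piEquiv : F.obj (piRep J X) ≃ₗ[k] (J → F.obj X) :=
  { F.piTo J X with
    invFun := F.piFrom J X
    left_inv := F.piFrom_piTo J X
    right_inv := F.piTo_piFrom J X }

lemma piEquiv_apply (z : F.obj (piRep J X)) (j : J) :
    F.piEquiv J X z j =
      F.map (A := piRep J X) (B := X) (LinearMap.proj j) (proj_equivariant J X j) z := rfl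

variable {X}

lemma proj_comp_matOp (M : Matrix J J k) (T : X →ₗ[k] X) (i : J) :
    (LinearMap.proj i : (J → X) →ₗ[k] X) ∘ₗ matOp M T =
      ∑ j, (M i j) • (T ∘ₗ (LinearMap.proj j : (J → X) →ₗ[k] X)) := by
  apply LinearMap.ext
  intro z
  simp [matOp_apply, LinearMap.sum_apply]

/-- `F (M ⊗ T)` corresponds to `M ⊗ F T`. -/
lemma piEquiv_matOp (M : Matrix J J k) (T : X →ₗ[k] X) (hT : IsEquivariant T)
    (z : F.obj (piRep J X)) :
    F.piEquiv J X (F.map (A := piRep J X) (B := piRep J X) (matOp M T)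
      (matOp_equivariant J M hT) z) = matOp M (F.map T hT) (F.piEquiv J X z) := by
  funext i
  rw [piEquiv_apply, matOp_apply, ← LinearMap.comp_apply,
    ← F.map_comp (A := piRep J X) (B := piRep J X) (C := X) _ _ _ _
      (isEquivariant_comp (A := piRep J X) (B := piRep J X) (C := X)
        (matOp_equivariant J M hT) (proj_equivariant J X i))]
  have hj : ∀ j : J, IsEquivariant (A := piRep J X) (B := X)
      ((M i j) • (T ∘ₗ (LinearMap.proj j : (J → X) →ₗ[k] X))) := fun j =>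
    isEquivariant_smul _ (isEquivariant_comp (A := piRep J X) (B := X) (C := X)
      (proj_equivariant J X j) hT)
  rw [F.map_congr (A := piRep J X) (B := X) (proj_comp_matOp J M T i) _
    (isEquivariant_sum (A := piRep J X) (B := X) _ _ hj),
    F.map_sum (A := piRep J X) (B := X) _ _ hj, LinearMap.sum_apply]
  refine Finset.sum_congr rfl fun j _ => ?_
  rw [F.map_smul (A := piRep J X) (B := X) _ _
    (isEquivariant_comp (A := piRep J X) (B := X) (C := X) (proj_equivariant J X j) hT),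
    F.map_comp (A := piRep J X) (B := X) (C := X) _ _ (proj_equivariant J X j) hT]
  rfl

/-- **EQUIV for `M ⊗ T`.** -/
theorem finrank_kerRep_matOp (M : Matrix J J k) (T : X →ₗ[k] X) (hT : IsEquivariant T)
    (n : ℕ) (hn : (n : k) ≠ 0) (hM : M ^ n = 1) (hTn : T ^ n = 1) :
    finrank k (F.obj (kerRep (A := piRep J X) (B := piRep J X) (matOp M T - 1)
      (isEquivariant_sub (matOp_equivariant J M hT) (isEquivariant_one _)))) =
      finrank k ↥(LinearMap.ker (matOp M (F.map T hT) - 1)) := by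
  have h1 := (F.kerEquiv (Z := piRep J X) (matOp M T) (matOp_equivariant J M hT) n hn
    (matOp_pow_eq_one M T n hM hTn)).finrank_eq
  rw [h1]
  exact finrank_ker_sub_one_conj (F.piEquiv J X) _ _ (F.piEquiv_matOp J M T hT)

end LinFun

end Fermat.Agent.S56.H614

end

end
-- ===== PACK-END S56/H614/LinFunPi.lean

-- ===== PACK-BEGIN S56/Euler/Big/H2CPSpec.lean
section


/-!
# Row S56 / wall BASE — BASE-BIG: the `H²` term of CHAR-EULER, FROZEN statement (helper366)

* `H2CPSpec p S` (H2-CP, **equivariant tail of Poitou–Tate**): for a finite-dimensional smooth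
  `N` with an equivariant endomorphism `T` and `Ш²_S(N) = 0`:

    `charpoly (T | H²_S(N)) · charpoly (Tᵛ | H⁰(G_ℚ, N′)) = ∏_{q ∈ S} charpoly (Tᵛ | H⁰(G_q, N′))`,

  `N′ = tdual p N`, `Tᵛ = T.dualMap` (`f ↦ f ∘ T`).
  Proof: `0 → H²(N) → ∏_q H²(G_q, N) → T³(N) → 0` is exact (`Ш² = 0`, definition of `T³`) and
  commutes with `T_*`; `topPair` (local) and `topT3` (global) are bijective (S55 by-products
  `TopLocSpec`, `TopGlobSpec`) and NATURAL: `topPair (T_* x) f = topPair x (f ∘ T)`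
  (`pushH2_comp`); `charHom χ N = H⁰(N′)` as submodules of `Dual N` (`PT.H0_dualTwist_eq`);
  a map and its transpose have the same characteristic polynomial; the characteristic polynomial
  is multiplicative in short exact sequences (`H614.charpoly_of_exact`).

For `N = Ind_U μ_p`, `T = R_σ` (`H419.indR`): `T.dualMap = H419.indRDual U μ σ⁻¹`, and the
right-hand side / the second factor are computed by `H419.charpoly_H0_loc_tdual`,
`H419.charpoly_H0_glob_tdual` (a permutation and its inverse have the same `permCharpoly`).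

Nothing unproved in this file.
-/

set_option autoImplicit false

open Polynomial

noncomputable section

namespace Fermat.Agent.S56.Euler

open Fermat.Agent.S56 Fermat.Agent.S55.PT ExtCitation Module groupCohomology

variable (p : ℕ) [Fact p.Prime] (S : Finset Nat.Primes)

/-- (H2-CP) **the equivariant `H²` formula.** -/
def H2CPSpec : Prop :=
  p ≠ 2 → pPrime p ∈ S →
    ∀ (N : Rep.{0, 0, 0} (ZMod p) _root_.Fermat.Agent.S56.GQ) (T : N →ₗ[ZMod p] N) (hT : IsEquivariant T),
      (globalLevels S).IsUSmooth N → Sha2 (hrl S) N = ⊥ →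
      ∀ (_ : Module.Finite (ZMod p) N) (_ : Module.Finite (ZMod p) ((globalLevels S).H2 N)),
        LinearMap.charpoly (pushH2 T hT (globalLevels S)) *
            LinearMap.charpoly (pushH0 (A := tdual p N) (B := tdual p N) T.dualMap
              (dualMap_equivariant (cycloChar p) T hT)) =
          ∏ q ∈ S, LinearMap.charpoly
            (pushH0 (A := Rep.res (rl q) (tdual p N)) (B := Rep.res (rl q) (tdual p N))
              T.dualMap ((dualMap_equivariant (cycloChar p) T hT).res (rl q)))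

end Fermat.Agent.S56.Euler

end

end
-- ===== PACK-END S56/Euler/Big/H2CPSpec.lean

-- ===== PACK-BEGIN S56/Euler/Big/Glue.lean
section


/-!
# Row S56 / wall BASE — BASE-BIG: the PROVED glue (sub-architect helper366)

    theorem baseBig_of : (∀ p, EulerBigSpec p) → (∀ p S, H2FormulaSpec p S) → BridgeBaseSpec
                          → H716.BaseBigStatement

Pure arithmetic: with `N = ad⁰ρ̄(1)` over `F_p`, `d = [k : F_p]`, and `S'` the big set of (E-BIG),

  `d·dim X + ∑_v d·h⁰(D_v, M) + d ≤ dimШ¹(N′) + ∑_v h⁰(G_v, N′) + d = h²(N) + d = h¹(N) ≤ d·dim D`.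
-/

set_option autoImplicit false

open Polynomial IsLocalRing

noncomputable section

namespace Fermat.Agent.S56.Euler

open Fermat.Agent.S56 Fermat.Agent.S55.PT ExtCitation Module

/-- A level of `S₀` is a level of every bigger set. -/
lemma mem_levels_of_subset {S₀ S : Finset Nat.Primes} (h : S₀ ⊆ S) {U : Subgroup _root_.Fermat.Agent.S56.GQ}
    (hU : U ∈ (globalLevels S₀).levels) : U ∈ (globalLevels S).levels := by
  obtain ⟨F, hF, rfl⟩ := hU
  exact ⟨F, hF.mono h, rfl⟩

/-- **BASE-BIG from E-BIG, H2F and BRIDGE-BASE.** -/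
theorem baseBig_of (hE : ∀ (p : ℕ) [Fact p.Prime], EulerBigSpec p)
    (hH2 : ∀ (p : ℕ) [Fact p.Prime] (S : Finset Nat.Primes), H2FormulaSpec p S)
    (hB : BridgeBaseSpec) : H716.BaseBigStatement := by
  intro 𝒪 _ _ _ _ _ p ρbar S Smin hyp
  have : Fact p.Prime := ⟨hyp.hp⟩
  obtain ⟨S₀, U, N, Pl, d, hpS₀, hSmin, hU, hfd, hUN, hPl, hd, h0, hch, hminus, hS'⟩ :=
    hB 𝒪 p ρbar S Smin hyp
  obtain ⟨S', hS₀S', hphi⟩ := hE p hyp.hp2 S₀ hpS₀ U hU
  have hphiN := hphi N hfd hUN
  obtain ⟨hchv, ⟨D, hD, hDunr, hDle⟩, ⟨X, hXfin, hXrep, hXle⟩⟩ := hS' S' hS₀S'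
  have hUS' : U ∈ (globalLevels S').levels := mem_levels_of_subset hS₀S' hU
  have hsm : (globalLevels S').IsUSmooth N :=
    ⟨U, hUS', fun s hs a => by rw [hUN s hs]; rfl⟩
  obtain ⟨-, hh2⟩ := hH2 p S' hyp.hp2 (hS₀S' hpS₀) N hfd hsm
  -- the set of primes as a `Finset ℕ`
  refine ⟨S'.image (fun v : Nat.Primes => (v : ℕ)), ?_, ?_, Pl, ?_, D, X, hD, hDunr, hXfin,
    hXrep, ?_⟩
  · intro q hq
    obtain ⟨h, hq'⟩ := hSmin q hq
    exact Finset.mem_image.2 ⟨⟨q, h⟩, hS₀S' hq', rfl⟩
  · intro q hq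
    obtain ⟨v, -, rfl⟩ := Finset.mem_image.1 hq
    exact v.2
  · intro v hv
    obtain ⟨w, -, rfl⟩ := Finset.mem_image.1 hv
    exact hPl _ w.2
  · -- the numerical inequality
    have hsum : ∑ v ∈ S'.image (fun v : Nat.Primes => (v : ℕ)),
        finrank (ResidueField 𝒪) ↥(H716.adInv ρbar ((Pl v).decompositionSubgroup ℚ)) =
        ∑ v : ↥S', finrank (ResidueField 𝒪)
          ↥(H716.adInv ρbar ((Pl (v.1 : ℕ)).decompositionSubgroup ℚ)) := by
      have hinj : ∀ a ∈ S', ∀ b ∈ S', (fun v : Nat.Primes => (v : ℕ)) a =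
          (fun v : Nat.Primes => (v : ℕ)) b → a = b := fun a _ b _ h => Subtype.ext h
      rw [Finset.sum_image hinj]
      exact (Finset.sum_coe_sort S' (fun v : Nat.Primes => finrank (ResidueField 𝒪)
        ↥(H716.adInv ρbar ((Pl (v : ℕ)).decompositionSubgroup ℚ)))).symm
    rw [hsum]
    have hsumd : ∑ v : ↥S', finrank (ZMod p)
        ↥(charHom (cycloLoc p v.1) (Rep.res (rl v.1) N)) =
        d * ∑ v : ↥S', finrank (ResidueField 𝒪)
          ↥(H716.adInv ρbar ((Pl (v.1 : ℕ)).decompositionSubgroup ℚ)) := by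
      rw [Finset.mul_sum]
      exact Finset.sum_congr rfl fun v _ => hchv v
    rw [hsumd, hch, add_zero] at hh2
    unfold H419.phi H419.eulerChar at hphiN
    rw [h0, hminus] at hphiN
    have h1 : (finrank (ZMod p) ((globalLevels S').H1 N) : ℤ) =
        finrank (ZMod p) ((globalLevels S').H2 N) + d := by
      push_cast at hphiN ⊢
      linarith
    have h1' : finrank (ZMod p) ((globalLevels S').H1 N) =
        finrank (ZMod p) ((globalLevels S').H2 N) + d := by exact_mod_cast h1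
    have key : d * (finrank (ResidueField 𝒪) ↥X +
        ∑ v : ↥S', finrank (ResidueField 𝒪)
          ↥(H716.adInv ρbar ((Pl (v.1 : ℕ)).decompositionSubgroup ℚ)) + 1) ≤
        d * finrank (ResidueField 𝒪) ↥D := by
      calc d * (finrank (ResidueField 𝒪) ↥X +
            ∑ v : ↥S', finrank (ResidueField 𝒪)
              ↥(H716.adInv ρbar ((Pl (v.1 : ℕ)).decompositionSubgroup ℚ)) + 1)
          = d * finrank (ResidueField 𝒪) ↥X +
            d * ∑ v : ↥S', finrank (ResidueField 𝒪)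
              ↥(H716.adInv ρbar ((Pl (v.1 : ℕ)).decompositionSubgroup ℚ)) + d := by ring
        _ ≤ finrank (ZMod p) ↥(Sha1 (hrl S') (tdual p N)) +
            d * ∑ v : ↥S', finrank (ResidueField 𝒪)
              ↥(H716.adInv ρbar ((Pl (v.1 : ℕ)).decompositionSubgroup ℚ)) + d := by
            gcongr
        _ = finrank (ZMod p) ((globalLevels S').H1 N) := by rw [h1', hh2]
        _ ≤ d * finrank (ResidueField 𝒪) ↥D := hDle
    exact Nat.le_of_mul_le_mul_left key hd

end Fermat.Agent.S56.Euler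

end

end
-- ===== PACK-END S56/Euler/Big/Glue.lean

-- ===== PACK-BEGIN S56/RQ/LeavesH554.lean
section






/-!
# Row S56 — REC-Q: the leaves GEN, INFL, FRAME, NONDEG (helper554)

* `gen : GenStatement`     — adapter of helper606's `H606.exists_frobenius_pow_mul_inertia`;
* `infl : InflStatement`   — adapter of `S55.Bridge.exists_level_of_subgroup`;
* `frame : FrameStatement` — uniform generator of tame inertia (from `H554.exists_tame_generator`);
* `nondeg : NondegStatement` — adapter of `H554.trace_mul_eq_zero_of_cup_coboundary`.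
-/

set_option autoImplicit false
set_option linter.style.haveILetI false

open Polynomial IsLocalRing

noncomputable section

namespace Fermat.Agent.S56.RQ.H554

open Fermat.Agent.S56 Fermat.Agent.S56.H716 Fermat.Agent.S56.RQ

attribute [local instance] Fermat.Agent.S55.Bridge.isAlgebraic_Qbar
  Fermat.Agent.S55.Bridge.isGalois_Qbar

/-- **(GEN)**. -/
theorem gen : GenStatement := fun q P φ hq hP hφ L hL σ hσ => by
  haveI := hL
  obtain ⟨n, ι, hι, h⟩ := Fermat.Agent.S56.H606.exists_frobenius_pow_mul_inertia hq hP L hφ hσ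
  exact ⟨n, ι, hι, h⟩

/-- **(INFL)**. -/
theorem infl : InflStatement := by
  rintro Sg N ⟨L, hLfin, hL⟩ hur
  obtain ⟨F, hF, hfix, -⟩ := Fermat.Agent.S55.Bridge.exists_level_of_subgroup
    (Sg.subtype Nat.Prime) N L hLfin
    (fun s hs => hL s fun x hx => (IntermediateField.mem_fixingSubgroup_iff _ _).1 hs x hx)
    (fun q hq A hA => hur q.1 q.2 (fun h => hq (Finset.mem_subtype.2 h)) A hA)
  refine ⟨F, hF.1, fun q hqP hqn P hP s hs x hx => ?_, fun s hs => ?_⟩
  · have h1 := hF.2 ⟨q, hqP⟩ (fun h => hqn (Finset.mem_subtype.1 h)) P hP hs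
    exact (IntermediateField.mem_fixingSubgroup_iff _ _).1 h1 x hx
  · rw [← hfix]
    exact (IntermediateField.mem_fixingSubgroup_iff _ _).2 hs

/-- Every finite level is contained in a finite level stable under `G_ℚ`. -/
theorem exists_normal_level (L₀ : IntermediateField ℚ Qb) (hfin : FiniteDimensional ℚ L₀) :
    ∃ L : IntermediateField ℚ Qb, FiniteDimensional ℚ L ∧ L₀ ≤ L ∧
      ∀ σ : GQ, ∀ x ∈ L, σ x ∈ L := by
  haveI := hfin
  haveI : Normal ℚ (IntermediateField.normalClosure ℚ L₀ Qb) := normalClosure.normal ℚ L₀ Qb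
  refine ⟨IntermediateField.normalClosure ℚ L₀ Qb, normalClosure.is_finiteDimensional ℚ L₀ Qb,
    IntermediateField.le_normalClosure L₀, fun σ x hx => ?_⟩
  have h := AlgEquiv.restrictNormal_commutes σ (IntermediateField.normalClosure ℚ L₀ Qb) ⟨x, hx⟩
  rw [← show algebraMap (IntermediateField.normalClosure ℚ L₀ Qb) Qb ⟨x, hx⟩ = x from rfl, ← h]
  exact SetLike.coe_mem _

section

variable (𝒪 : Type) [CommRing 𝒪] [IsDomain 𝒪] [IsDiscreteValuationRing 𝒪]
  (p : ℕ) (ρbar : ResidualGaloisRep (ResidueField 𝒪)) (S Smin : Finset ℕ)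

/-- The local facts at a Taylor–Wiles prime contained in `Hyp` and `IsTWPrime`. -/
theorem tw_basic (hyp : Hyp 𝒪 p ρbar S Smin) {q : ℕ} (hTW : IsTWPrime ρbar p S q) :
    q.Prime ∧ p ≠ q ∧ p ∣ q - 1 ∧ ρbar.IsUnramifiedAt q := by
  obtain ⟨hqP, hqS, hq1, -⟩ := hTW
  have hqSmin : q ∉ Smin := fun h => hqS (hyp.hSmin h)
  have hqp : q ≠ p := fun h => hqSmin (h ▸ hyp.hpSmin)
  refine ⟨hqP, fun h => hqp h.symm, hq1, ?_⟩
  by_contra h
  exact hqSmin ((hyp.hmin q hqP hqp).mpr h)

end

/-- **(FRAME)**: a uniform generator of tame inertia for all ad-cocycles. -/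
theorem frame : FrameStatement := by
  intro 𝒪 _ _ _ _ _ p ρbar S Smin hyp q hTW P hP
  classical
  have hp := hyp.hp
  haveI : CharP (ResidueField 𝒪) p := H536.charP_residueField 𝒪 p hyp.hp hyp.hp𝒪
  obtain ⟨hq, hpq, -, hurq⟩ := tw_basic 𝒪 p ρbar S Smin hyp hTW
  have hur : ∀ σ ∈ P.inertiaSubgroupIn ℚ, ρbar.ρ σ = 1 := hurq P hP
  by_cases hex : ∃ c₀ : GQ → Module.End (ResidueField 𝒪) ρbar.V, IsAdCocycle ρbar c₀ ∧
      ∃ τ ∈ P.inertiaSubgroupIn ℚ, c₀ τ ≠ 0
  · obtain ⟨c₀, hc₀, τ, hτ, hne⟩ := hex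
    refine ⟨τ, hτ, fun c hc hcτ σ hσ => ?_⟩
    obtain ⟨L₀, hL₀fin, hc₀L⟩ := hc₀.level
    obtain ⟨L₁, hL₁fin, hcL⟩ := hc.level
    haveI := hL₀fin
    haveI := hL₁fin
    obtain ⟨L, hLfin, hle, hL⟩ := exists_normal_level (L₀ ⊔ L₁) inferInstance
    haveI := hLfin
    have hc₀' : Fermat.Agent.S56.H554.IsCoc ρbar L c₀ :=
      ⟨hc₀.map_mul, fun σ τ hτ => hc₀L σ τ fun x hx => hτ x (hle (le_sup_left (a := L₀) hx))⟩
    have hc' : Fermat.Agent.S56.H554.IsCoc ρbar L c :=
      ⟨hc.map_mul, fun σ τ hτ => hcL σ τ fun x hx => hτ x (hle (le_sup_right (b := L₁) hx))⟩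
    obtain ⟨τ₀, hτ₀, hgen⟩ := Fermat.Agent.S56.H554.exists_tame_generator hq hP L
    -- the values of a cocycle of level `L` on inertia
    have key : ∀ (c' : GQ → Module.End (ResidueField 𝒪) ρbar.V),
        Fermat.Agent.S56.H554.IsCoc ρbar L c' → ∀ (n : ℤ) (ω : GQ),
        ω ∈ P.inertiaSubgroupIn ℚ → Fermat.Agent.S56.H554.IsWildOn P ω (L : Set Qb) →
        c' (τ₀ ^ n * ω) = n • c' τ₀ := by
      intro c' hc'' n ω hω hwild
      have h1 : ρbar.ρ (τ₀ ^ n) = 1 := hur _ (zpow_mem hτ₀ n)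
      rw [hc''.add_of_rho_eq_one h1, hc''.eq_zero_of_wild hq hP hp hpq hL hur hω hwild, add_zero,
        hc''.map_zpow_of_mem_inertia hur hτ₀]
    obtain ⟨n, ω, hω, hwild, hτeq⟩ := hgen τ hτ
    obtain ⟨n', ω', hω', hwild', hσeq⟩ := hgen σ hσ
    have h0 : c₀ τ = n • c₀ τ₀ := by rw [hτeq]; exact key c₀ hc₀' n ω hω hwild
    have h1 : c τ = n • c τ₀ := by rw [hτeq]; exact key c hc' n ω hω hwild
    have h2 : c σ = n' • c τ₀ := by rw [hσeq]; exact key c hc' n' ω' hω' hwild'
    have hn : ((n : ℤ) : ResidueField 𝒪) ≠ 0 := by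
      intro h
      apply hne
      rw [h0, ← Int.cast_smul_eq_zsmul (ResidueField 𝒪), h, zero_smul]
    have h3 : c τ₀ = 0 := by
      rw [hcτ, ← Int.cast_smul_eq_zsmul (ResidueField 𝒪)] at h1
      exact (smul_eq_zero.1 h1.symm).resolve_left hn
    rw [h2, h3, smul_zero]
  · refine ⟨1, one_mem _, fun c hc _ σ hσ => ?_⟩
    by_contra hne
    exact hex ⟨c, hc, σ, hσ, hne⟩

/-- **(NONDEG)**: the Heisenberg argument. -/
theorem nondeg : NondegStatement := by
  intro 𝒪 _ _ _ _ _ p ρbar S Smin hyp q hTW P hP φ hφ τ hτ c y hc hy hyI hcob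
  have hp := hyp.hp
  haveI : CharP (ResidueField 𝒪) p := H536.charP_residueField 𝒪 p hyp.hp hyp.hp𝒪
  obtain ⟨hq, hpq, hq1, hurq⟩ := tw_basic 𝒪 p ρbar S Smin hyp hTW
  have hur : ∀ σ ∈ P.inertiaSubgroupIn ℚ, ρbar.ρ σ = 1 := hurq P hP
  obtain ⟨lam, ⟨L₁, hL₁fin, hlamL⟩, hlam⟩ := hcob
  obtain ⟨L₀, hL₀fin, hcL⟩ := hc.level
  haveI := hL₀fin
  haveI := hL₁fin
  obtain ⟨L, hLfin, hle, hL⟩ := exists_normal_level (L₀ ⊔ L₁) inferInstance
  haveI := hLfin
  have hc' : Fermat.Agent.S56.H554.IsCoc ρbar L c :=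
    ⟨hc.map_mul, fun σ τ hτ => hcL σ τ fun x hx => hτ x (hle (le_sup_left (a := L₀) hx))⟩
  refine Fermat.Agent.S56.H554.trace_mul_eq_zero_of_cup_coboundary hq hP hp hpq hq1 hL hur hc'
    hy.map_mul hyI (lam := lam) ?_ ?_ hφ hτ
  · intro τ' hτ' hfix
    have := hlamL 1 (one_mem _) τ'
      (Fermat.Agent.A2.H708.mem_decomposition_of_mem_inertiaIn P hτ')
      fun x hx => hfix x (hle (le_sup_right (b := L₁) hx))
    rwa [one_mul] at this
  · intro σ hσ σ' hσ' a ha
    rw [← hlam σ hσ σ' hσ' a ha]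
    show _ = LinearMap.trace (ResidueField 𝒪) ρbar.V (c σ * (y (σ * σ') - y σ))
    rw [hy.map_mul σ σ' a ha, add_sub_cancel_left]

end Fermat.Agent.S56.RQ.H554

end

end
-- ===== PACK-END S56/RQ/LeavesH554.lean

-- ===== PACK-BEGIN S56/RQ/LineH454.lean
section



/-!
# Row S56 — REC-Q, leaf LINE (helper454)

Linear algebra of the regular semisimple `F = ρ̄(φ)` at a Taylor–Wiles prime:
`h := 2F − (α + β)` is trace-zero, commutes with `F`, `h² = (α − β)²`, the trace-zero centraliser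
of `F` is the line `k·h`, and the trace-zero `x` with `tr (h x) = 0` are of the form
`F m F⁻¹ − m`, `m = −(α−β)⁻² · x F h`.

* `line : LineStatement`.
-/

set_option autoImplicit false
set_option linter.style.haveILetI false

open Polynomial IsLocalRing

noncomputable section

namespace Fermat.Agent.S56.RQ.H454

open Fermat.Agent.S56 Fermat.Agent.S56.H716

section LinAlg

variable {k : Type} [Field k] {V : Type} [AddCommGroup V] [Module k V]

/-- For trace-zero endomorphisms of a plane: `AB + BA = tr(AB)`. -/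
theorem anticomm (hV : Module.finrank k V = 2) (A B : Module.End k V)
    (hA : LinearMap.trace k V A = 0) (hB : LinearMap.trace k V B = 0) :
    A * B + B * A = (LinearMap.trace k V (A * B)) • (1 : Module.End k V) := by
  haveI : Module.Finite k V := Module.finite_of_finrank_eq_succ hV
  set b : Module.Basis (Fin 2) k V := Module.finBasisOfFinrankEq k V hV
  have hA' : (LinearMap.toMatrix b b A).trace = 0 := by
    rw [← LinearMap.trace_eq_matrix_trace k b A]; exact hA
  have hB' : (LinearMap.toMatrix b b B).trace = 0 := by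
    rw [← LinearMap.trace_eq_matrix_trace k b B]; exact hB
  apply (LinearMap.toMatrix b b).injective
  rw [map_add, LinearMap.toMatrix_mul, LinearMap.toMatrix_mul, map_smul, LinearMap.toMatrix_one,
    LinearMap.trace_eq_matrix_trace k b (A * B), LinearMap.toMatrix_mul]
  generalize LinearMap.toMatrix b b A = M at hA' ⊢
  generalize LinearMap.toMatrix b b B = N at hB' ⊢
  rw [Matrix.trace_fin_two] at hA' hB'
  ext i j
  fin_cases i <;> fin_cases j <;>
    simp [Matrix.mul_apply, Fin.sum_univ_two, Matrix.trace_fin_two]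
  · linear_combination N 0 0 * hA' - M 1 1 * hB'
  · linear_combination N 0 1 * hA' + M 0 1 * hB'
  · linear_combination N 1 0 * hA' + M 1 0 * hB'
  · linear_combination N 1 1 * hA' - M 0 0 * hB'

/-- the trace from a factorisation of the characteristic polynomial -/
theorem trace_of_charpoly [Module.Finite k V] (hV : Module.finrank k V = 2)
    (F : Module.End k V) (α β : k)
    (h : LinearMap.charpoly F = (X - C α) * (X - C β)) : LinearMap.trace k V F = α + β := by
  set b : Module.Basis (Fin 2) k V := Module.finBasisOfFinrankEq k V hV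
  rw [LinearMap.trace_eq_matrix_trace k b F]
  have h1 : (LinearMap.toMatrix b b F).charpoly = (X - C α) * (X - C β) := by
    rw [LinearMap.charpoly_toMatrix]; exact h
  rw [Matrix.charpoly_fin_two] at h1
  have e : (X - C α) * (X - C β) = X ^ 2 - C (α + β) * X + C (α * β) := by
    simp only [map_add, map_mul]; ring
  rw [e] at h1
  have c1 := congrArg (fun q : k[X] => q.coeff 1) h1
  simp only [coeff_add, coeff_sub, coeff_X_pow, coeff_C_mul, coeff_X_one,
    mul_one, coeff_C] at c1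
  norm_num at c1
  linear_combination -c1

/-- Cayley–Hamilton -/
theorem sq_of_charpoly [Module.Finite k V] (F : Module.End k V) (α β : k)
    (h : LinearMap.charpoly F = (X - C α) * (X - C β)) :
    F * F = (α + β) • F - (α * β) • (1 : Module.End k V) := by
  have h1 := LinearMap.aeval_self_charpoly F
  rw [h] at h1
  simp only [map_mul, map_sub, aeval_X, aeval_C, Algebra.algebraMap_eq_smul_one] at h1
  have h2 : (F - α • (1 : Module.End k V)) * (F - β • (1 : Module.End k V)) =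
      F * F - ((α + β) • F - (α * β) • (1 : Module.End k V)) := by
    simp only [sub_mul, mul_sub, smul_mul_assoc, mul_smul_comm, mul_one, one_mul, smul_sub,
      smul_smul]
    module
  rw [h2] at h1
  exact sub_eq_zero.mp h1


/-- **The line `k·h`** of a regular semisimple endomorphism `F` of a plane (`2 ≠ 0` in `k`). -/
theorem line_core [Module.Finite k V] (hV : Module.finrank k V = 2) (h2 : (2 : k) ≠ 0)
    (F G : Module.End k V) (hFG : F * G = 1) (α β : k) (hαβ : α ≠ β)
    (hchar : LinearMap.charpoly F = (X - C α) * (X - C β)) :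
    ∃ h : Module.End k V, LinearMap.trace k V h = 0 ∧ LinearMap.trace k V (h * h) ≠ 0 ∧
      F * h = h * F ∧
      (∀ Y : Module.End k V, LinearMap.trace k V Y = 0 → F * Y = Y * F → ∃ a : k, Y = a • h) ∧
      (∀ x : Module.End k V, LinearMap.trace k V x = 0 → LinearMap.trace k V (h * x) = 0 →
        ∃ m : Module.End k V, LinearMap.trace k V m = 0 ∧ x = F * m * G - m) := by
  have hCH := sq_of_charpoly F α β hchar
  have htrF := trace_of_charpoly hV F α β hchar
  have htr1 : LinearMap.trace k V (1 : Module.End k V) = 2 := by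
    rw [LinearMap.trace_one, hV]; norm_num
  obtain ⟨h, hdef⟩ : ∃ h : Module.End k V, h = (2 : k) • F - (α + β) • (1 : Module.End k V) :=
    ⟨_, rfl⟩
  obtain ⟨D, hDdef⟩ : ∃ D : k, D = (α - β) ^ 2 := ⟨_, rfl⟩
  have hD : D ≠ 0 := by
    rw [hDdef]; exact pow_ne_zero 2 (sub_ne_zero.mpr hαβ)
  have hhh : h * h = D • (1 : Module.End k V) := by
    rw [hdef, hDdef]
    simp only [sub_mul, mul_sub, smul_mul_assoc, mul_smul_comm, mul_one, one_mul, smul_sub,
      smul_smul, hCH]
    module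
  have hFh : F * h = h * F := by
    rw [hdef]
    simp only [sub_mul, mul_sub, smul_mul_assoc, mul_smul_comm, mul_one, one_mul]
  have htrh : LinearMap.trace k V h = 0 := by
    rw [hdef, map_sub, map_smul, map_smul, htrF, htr1, smul_eq_mul, smul_eq_mul]
    ring
  -- commutators with `h`
  have hcomm : ∀ Y : Module.End k V, h * Y - Y * h = (2 : k) • (F * Y - Y * F) := by
    intro Y
    rw [hdef]
    simp only [sub_mul, mul_sub, smul_mul_assoc, mul_smul_comm, mul_one, one_mul, smul_sub]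
    module
  refine ⟨h, htrh, ?_, hFh, ?_, ?_⟩
  · rw [hhh, map_smul, htr1, smul_eq_mul]
    exact mul_ne_zero hD h2
  · intro Y hY hFY
    have h1 := anticomm hV h Y htrh hY
    have h3 : h * Y = Y * h := by
      have := hcomm Y
      rw [hFY, sub_self, smul_zero] at this
      exact sub_eq_zero.mp this
    rw [← h3] at h1
    -- `2 h Y = tr(hY)`, multiply by `h`
    have h4 : h * (h * Y + h * Y) = h * (LinearMap.trace k V (h * Y) • (1 : Module.End k V)) := by
      rw [h1]
    rw [mul_add, ← mul_assoc, hhh, smul_mul_assoc, one_mul, mul_smul_comm, mul_one] at h4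
    refine ⟨(2 * D)⁻¹ * LinearMap.trace k V (h * Y), ?_⟩
    have h5 : (2 * D) • Y = LinearMap.trace k V (h * Y) • h := by
      rw [← h4]; module
    rw [mul_smul, ← h5, smul_smul, inv_mul_cancel₀ (mul_ne_zero h2 hD), one_smul]
  · intro x hx hhx
    have h1 := anticomm hV h x htrh hx
    rw [hhx, zero_smul] at h1
    have h3 : h * x = -(x * h) := eq_neg_of_add_eq_zero_left h1
    -- `F x − x F = − x h`
    have h4 : F * x - x * F = -(x * h) := by
      have := hcomm x
      rw [h3] at this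
      have h5 : (2 : k) • (F * x - x * F) = (2 : k) • (-(x * h)) := by
        rw [← this]; module
      exact smul_right_injective _ h2 h5
    -- `tr (x F) = 0`
    have htrxF : LinearMap.trace k V (x * F) = 0 := by
      have h5 : (2 : k) • (x * F) = x * h + (α + β) • x := by
        rw [hdef]
        simp only [mul_sub, mul_smul_comm, mul_one]
        module
      have h6 := congrArg (LinearMap.trace k V) h5
      rw [map_smul, map_add, map_smul, hx, smul_zero, add_zero, LinearMap.trace_mul_comm k x h,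
        hhx, smul_eq_mul] at h6
      rcases mul_eq_zero.mp h6 with h7 | h7
      · exact absurd h7 h2
      · exact h7
    have hFhG : F * h * G = h := by
      rw [hFh, mul_assoc, hFG, mul_one]
    have hFh' : F * h = (α + β) • F - (2 * (α * β)) • (1 : Module.End k V) := by
      rw [hdef]
      simp only [mul_sub, mul_smul_comm, mul_one, hCH, smul_sub, smul_smul]
      module
    refine ⟨(-D⁻¹) • (x * F * h), ?_, ?_⟩
    · rw [map_smul, mul_assoc, hFh', mul_sub, mul_smul_comm, mul_smul_comm, mul_one, map_sub,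
        map_smul, map_smul, htrxF, hx]
      simp
    · have h5 : F * ((-D⁻¹) • (x * F * h)) * G - (-D⁻¹) • (x * F * h) =
          (-D⁻¹) • ((F * x - x * F) * h) := by
        have h6 : F * (x * F * h) * G = F * x * h := by
          calc F * (x * F * h) * G = F * x * (F * h * G) := by
                simp only [mul_assoc]
            _ = F * x * h := by rw [hFhG]
        rw [mul_smul_comm, smul_mul_assoc, h6, sub_mul, smul_sub]
      rw [h5, h4, neg_mul, mul_assoc, hhh, mul_smul_comm, mul_one, smul_neg, smul_smul, neg_mul,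
        inv_mul_cancel₀ hD]
      simp

end LinAlg

/-- a finite Galois-stable level containing a given finite level -/
theorem exists_stable_level (L : IntermediateField ℚ Qb) [FiniteDimensional ℚ L] :
    ∃ M : IntermediateField ℚ Qb, FiniteDimensional ℚ M ∧ L ≤ M ∧
      ∀ σ : GQ, ∀ x ∈ M, σ x ∈ M := by
  haveI : Algebra.IsAlgebraic ℚ Qb := AlgebraicClosure.isAlgebraic ℚ
  haveI : IsAlgClosure ℚ Qb := ⟨inferInstance, inferInstance⟩
  haveI : Normal ℚ Qb := IsAlgClosure.normal ℚ Qb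
  haveI : Normal ℚ (IntermediateField.normalClosure ℚ L Qb) := normalClosure.normal ℚ L Qb
  refine ⟨IntermediateField.normalClosure ℚ L Qb, normalClosure.is_finiteDimensional ℚ L Qb,
    IntermediateField.le_normalClosure L, fun σ x hx => ?_⟩
  have h := IntermediateField.normal_iff_forall_map_le'.mp
    (inferInstance : Normal ℚ (IntermediateField.normalClosure ℚ L Qb)) σ
  exact h ⟨x, hx, rfl⟩

/-- **LINE.** -/
theorem line : LineStatement := by
  intro 𝒪 _ _ _ _ _ p ρbar S Smin hyp q hTW P hP φ hφ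
  obtain ⟨hq, hqS, hq1, hfrob⟩ := hTW
  obtain ⟨α, β, hαβ, hchar⟩ := hfrob P hP φ hφ
  have hp := hyp.hp
  have hp0 : ((p : ℕ) : ResidueField 𝒪) = 0 := by
    have := (IsLocalRing.residue_eq_zero_iff ((p : ℕ) : 𝒪)).mpr hyp.hp𝒪
    rwa [map_natCast] at this
  haveI : CharP (ResidueField 𝒪) p := (CharP.charP_iff_prime_eq_zero hp).mpr hp0
  have h2 : (2 : ResidueField 𝒪) ≠ 0 := by
    intro h0
    have h1 : ((2 : ℕ) : ResidueField 𝒪) = 0 := by exact_mod_cast h0
    have h3 := (CharP.cast_eq_zero_iff (ResidueField 𝒪) p 2).mp h1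
    exact hyp.hp2 ((Nat.prime_dvd_prime_iff_eq hp Nat.prime_two).mp h3)
  have hpS : p ∈ S := hyp.hSmin hyp.hpSmin
  have hqp : p ≠ q := fun h => hqS (h ▸ hpS)
  have hur : ∀ σ ∈ P.inertiaSubgroupIn ℚ, ρbar.ρ σ = 1 := by
    have hqSmin : q ∉ Smin := fun h => hqS (hyp.hSmin h)
    have hunr : ρbar.IsUnramifiedAt q := by
      by_contra hne
      exact hqSmin ((hyp.hmin q hq (Ne.symm hqp)).mpr hne)
    exact hunr P hP
  obtain ⟨h, htr, htr2, hFh, hcent, himg⟩ := line_core ρbar.finrank_eq h2 (ρbar.ρ φ)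
    (ρbar.ρ φ⁻¹) (H554.rho_mul_inv φ) α β hαβ hchar
  refine ⟨h, htr, htr2, hFh, ?_, himg⟩
  intro c hc τ hτ
  obtain ⟨L, hLfin, hcoc⟩ := H554.isCoc_of_isAdCocycle hc
  haveI := hLfin
  obtain ⟨M, hMfin, hLM, hM⟩ := exists_stable_level L
  haveI := hMfin
  have hcomm := (hcoc.mono hLM).commute_frobenius hq hP hp hqp hq1 hM hur hφ hτ
  exact hcent (c τ) (hc.trace_eq_zero τ) hcomm

end Fermat.Agent.S56.RQ.H454

end

end
-- ===== PACK-END S56/RQ/LineH454.lean

-- ===== PACK-BEGIN S56/RQ/CobCupH475.lean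
section


/-!
# Row S56 — REC-Q, leaf COBCUP (helper475)

`cobCup : RQ.CobCupStatement` (verbatim): the cup product `(σ, τ) ↦ tr (c σ · σ(y τ))` of an
ad-cocycle `c` and a twisted cocycle `y` is a coboundary of `k(1)` on a subgroup `H` as soon as
`c` is an ad-coboundary on `H`, or `y` is a twisted coboundary on `H`.

* (a) `c = dm` on `H`:  `cup c y = dλ`,  `λ τ = tr (m · y τ)`;
* (b) `y = d_tw m` on `H`:  `cup c y = dλ'`,  `λ' σ = − tr (c σ · (y σ + m))`.

Pure algebra: no hypothesis on `p`, no multiplicativity of cyclotomic exponents is needed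
(`y (σ τ) + m = a · σ (y τ + m)` follows from the cocycle relation and `y σ + m = a · σ m`).
-/

set_option autoImplicit false

open Polynomial IsLocalRing

noncomputable section

namespace Fermat.Agent.S56.RQ.H475

open Fermat.Agent.S56 Fermat.Agent.S56.H716 Fermat.Agent.S56.RQ

variable {k : Type} [Field k] (ρbar : ResidualGaloisRep k)

lemma rho_mul_inv (σ : GQ) : ρbar.ρ σ * ρbar.ρ σ⁻¹ = 1 := by
  rw [← map_mul, mul_inv_cancel, map_one]

lemma rho_inv_mul (σ : GQ) : ρbar.ρ σ⁻¹ * ρbar.ρ σ = 1 := by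
  rw [← map_mul, inv_mul_cancel, map_one]

/-- The trace is invariant under conjugation by `ρ̄ σ`. -/
lemma trace_conj (σ : GQ) (x : Module.End k ρbar.V) :
    LinearMap.trace k ρbar.V (ρbar.ρ σ * x * ρbar.ρ σ⁻¹) = LinearMap.trace k ρbar.V x := by
  rw [LinearMap.trace_mul_comm, ← mul_assoc, rho_inv_mul, one_mul]

/-- `tr (σ x σ⁻¹ · σ z σ⁻¹) = tr (x z)`. -/
lemma trace_conj_mul_conj (σ : GQ) (x z : Module.End k ρbar.V) :
    LinearMap.trace k ρbar.V ((ρbar.ρ σ * x * ρbar.ρ σ⁻¹) * (ρbar.ρ σ * z * ρbar.ρ σ⁻¹)) =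
      LinearMap.trace k ρbar.V (x * z) := by
  have h : (ρbar.ρ σ * x * ρbar.ρ σ⁻¹) * (ρbar.ρ σ * z * ρbar.ρ σ⁻¹) =
      ρbar.ρ σ * (x * z) * ρbar.ρ σ⁻¹ := by
    calc (ρbar.ρ σ * x * ρbar.ρ σ⁻¹) * (ρbar.ρ σ * z * ρbar.ρ σ⁻¹)
        = ρbar.ρ σ * x * (ρbar.ρ σ⁻¹ * ρbar.ρ σ) * z * ρbar.ρ σ⁻¹ := by
          simp only [mul_assoc]
      _ = ρbar.ρ σ * (x * z) * ρbar.ρ σ⁻¹ := by
          rw [rho_inv_mul, mul_one]; simp only [mul_assoc]
  rw [h, trace_conj]

/-- The value of the cup product, in terms of a cyclotomic exponent of `σ`. -/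
lemma cup_apply_of_exp {p : ℕ} {y : GQ → Module.End k ρbar.V} (hy : IsTwCocycle ρbar p y)
    (c : GQ → Module.End k ρbar.V) (σ τ : GQ) (a : ℕ) (ha : IsCycExp p σ a) :
    cup ρbar c y (σ, τ) =
      (a : k) * LinearMap.trace k ρbar.V (c σ * (ρbar.ρ σ * y τ * ρbar.ρ σ⁻¹)) := by
  unfold cup
  simp only
  rw [hy.map_mul σ τ a ha, add_sub_cancel_left, twAd, mul_smul_comm, map_smul, smul_eq_mul]

/-- (a) cup with an ad-coboundary. -/
theorem cup_cob_left {p : ℕ} (H : Subgroup GQ) {c y : GQ → Module.End k ρbar.V}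
    (hy : IsTwCocycle ρbar p y) (hc : IsAdCoboundaryOn ρbar H c) :
    IsCob₂On p H (cup ρbar c y) := by
  obtain ⟨m, hm⟩ := hc
  obtain ⟨L, hL, hlev⟩ := hy.level
  refine ⟨fun τ => LinearMap.trace k ρbar.V (m * y τ), ⟨L, hL, ?_⟩, ?_⟩
  · intro σ _ s _ hs
    simp only
    rw [hlev σ s hs]
  · intro σ hσ τ _ a ha
    simp only
    rw [cup_apply_of_exp ρbar hy c σ τ a ha, hm σ hσ, hy.map_mul σ τ a ha, sub_mul, map_sub,
      trace_conj_mul_conj, mul_add, map_add, twAd, mul_smul_comm, map_smul, smul_eq_mul]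
    ring

/-- (b) cup with a twisted coboundary. -/
theorem cup_cob_right {p : ℕ} (H : Subgroup GQ) {c y : GQ → Module.End k ρbar.V}
    (hc : IsAdCocycle ρbar c) (hy : IsTwCocycle ρbar p y)
    (hm : ∃ m, IsTwCoboundaryOn ρbar p H y m) :
    IsCob₂On p H (cup ρbar c y) := by
  obtain ⟨m, -, hm⟩ := hm
  obtain ⟨L, hL, hlev⟩ := hy.level
  obtain ⟨L', hL', hlev'⟩ := hc.level
  have hfin : FiniteDimensional ℚ (L ⊔ L' : IntermediateField ℚ Qb) :=
    IntermediateField.finiteDimensional_sup L L'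
  refine ⟨fun σ => - LinearMap.trace k ρbar.V (c σ * (y σ + m)), ⟨L ⊔ L', hfin, ?_⟩, ?_⟩
  · intro σ _ s _ hs
    simp only
    rw [hlev σ s (fun x hx => hs x ((le_sup_left : L ≤ L ⊔ L') hx)),
      hlev' σ s (fun x hx => hs x ((le_sup_right : L' ≤ L ⊔ L') hx))]
  · intro σ hσ τ _ a ha
    simp only
    -- `y σ + m = a · σ m σ⁻¹`
    have h1 : y σ + m = (a : k) • (ρbar.ρ σ * m * ρbar.ρ σ⁻¹) := by
      rw [hm σ hσ a ha, twAd, sub_add_cancel]
    -- `y (σ τ) + m = a · σ (y τ + m) σ⁻¹`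
    have h2 : y (σ * τ) + m = (a : k) • (ρbar.ρ σ * (y τ + m) * ρbar.ρ σ⁻¹) := by
      rw [hy.map_mul σ τ a ha, twAd, add_right_comm, h1, mul_add, add_mul, smul_add, add_comm]
    rw [cup_apply_of_exp ρbar hy c σ τ a ha, h2, hc.map_mul σ τ, h1]
    simp only [mul_smul_comm, map_smul, smul_eq_mul, add_mul, map_add, trace_conj_mul_conj,
      mul_add]
    ring

/-- **COBCUP** (verbatim `RQ.CobCupStatement`). -/
theorem cobCup : CobCupStatement := by
  intro k _ p _ _ ρbar H c y hc hy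
  exact ⟨fun h => cup_cob_left ρbar H hy h, fun h => cup_cob_right ρbar H hc hy h⟩

end Fermat.Agent.S56.RQ.H475

end

end
-- ===== PACK-END S56/RQ/CobCupH475.lean

-- ===== PACK-BEGIN S56/RQ/H514/LocTriv.lean
section




/-!
# Row S56 / REC-Q, leaf LOCTRIV (helper514; subtask 653)

`locTrivTw_of : GenStatement → LocTrivTwStatement`: at a Taylor–Wiles prime `q`, a twisted
cocycle `y` unramified at `P | q` whose value at a Frobenius element `φ` is `φ m φ⁻¹ − m`
(`tr m = 0`) is the coboundary of `m` on the decomposition group `D_P`.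

Proof.  `φ` and `I_P` fix `μ_p` (`H554.fixes_mu_of_isFrobeniusAt`, `fixes_mu_of_mem_inertia`);
`ρ̄` is unramified at `q`.  Let `L` be a finite level containing the levels of `y` and of `ρ̄` and
`ℚ(μ_p)`.  By GEN every `σ ∈ D_P` agrees on `L` with some `φ ^ n * τ`, `τ ∈ I_P`.  Hence
`y σ = y (φ ^ n * τ) = y (φ ^ n) = Ad(φ ^ n) m − m = Ad(σ) m − m`, and every cyclotomic exponent
of `σ` is `1` in `k`.
-/

set_option autoImplicit false
set_option linter.style.haveILetI false

open Polynomial IsLocalRing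

noncomputable section

namespace Fermat.Agent.S56.RQ.H514

open Fermat.Agent.S56 Fermat.Agent.S56.H716

section Core

variable {k : Type} [Field k] {ρbar : ResidualGaloisRep k} {p : ℕ}

/-- uniqueness of the inverse: `ρ̄ σ = ρ̄ σ'` implies `ρ̄ σ⁻¹ = ρ̄ σ'⁻¹` -/
theorem rho_inv_eq_of_rho_eq {σ σ' : GQ} (h : ρbar.ρ σ = ρbar.ρ σ') :
    ρbar.ρ σ⁻¹ = ρbar.ρ σ'⁻¹ := by
  calc ρbar.ρ σ⁻¹ = ρbar.ρ σ⁻¹ * (ρbar.ρ σ' * ρbar.ρ σ'⁻¹) := by
        rw [H536.rho_mul_rho_inv, mul_one]
    _ = ρbar.ρ σ⁻¹ * ρbar.ρ σ * ρbar.ρ σ'⁻¹ := by rw [← h, mul_assoc]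
    _ = ρbar.ρ σ'⁻¹ := by rw [H536.rho_inv_mul_rho, one_mul]

/-- Two exponents of the same element agree in a field of characteristic `p`. -/
theorem natCast_eq_one_of_isCycExp [CharP k p] (hp : p.Prime) {σ : GQ} {a : ℕ}
    (ha : IsCycExp p σ a) (h1 : IsCycExp p σ 1) : (a : k) = 1 := by
  haveI : NeZero p := ⟨hp.ne_zero⟩
  have hζ := Fermat.Agent.S55.H414.zetaBar_spec p
  have h2 : Fermat.Agent.S55.H414.zetaBar p ^ a = Fermat.Agent.S55.H414.zetaBar p ^ 1 := by
    rw [← ha _ hζ.pow_eq_one, ← h1 _ hζ.pow_eq_one]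
  rw [pow_one] at h2
  have h3 : a ≡ 1 [MOD p] := by
    rcases Nat.eq_zero_or_pos a with rfl | hapos
    · rw [pow_zero] at h2
      have h5 : p ∣ 1 := (hζ.pow_eq_one_iff_dvd 1).1 (by rw [pow_one]; exact h2.symm)
      exact absurd (Nat.dvd_one.1 h5) hp.one_lt.ne'
    · have hζ0 : Fermat.Agent.S55.H414.zetaBar p ≠ 0 := hζ.ne_zero hp.ne_zero
      have h5 : Fermat.Agent.S55.H414.zetaBar p ^ (a - 1) = 1 := by
        have h6 : Fermat.Agent.S55.H414.zetaBar p ^ (a - 1) * Fermat.Agent.S55.H414.zetaBar p =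
            1 * Fermat.Agent.S55.H414.zetaBar p := by
          rw [← pow_succ, Nat.sub_add_cancel hapos, one_mul]
          exact h2
        exact mul_right_cancel₀ hζ0 h6
      have h7 : p ∣ a - 1 := (hζ.pow_eq_one_iff_dvd _).1 h5
      exact ((Nat.modEq_iff_dvd' hapos).2 h7).symm
  have h4 := (CharP.natCast_eq_natCast k p).2 h3
  rwa [Nat.cast_one] at h4

/-- **LOCTRIV, core.**  `D_P` is generated modulo `L` by `φ` and `I_P`, which fix `μ_p`; `ρ̄` is
trivial on `I_P`; `y` vanishes on `I_P` and `y φ = φ m φ⁻¹ − m`. -/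
theorem locTriv_core [CharP k p] (hp : p.Prime) {D I : Subgroup GQ} {φ : GQ}
    (hφ1 : IsCycExp p φ 1) (hI1 : ∀ τ ∈ I, IsCycExp p τ 1)
    (hur : ∀ τ ∈ I, ρbar.ρ τ = 1)
    (hgen : ∀ L : IntermediateField ℚ Qb, FiniteDimensional ℚ L →
      ∀ σ ∈ D, ∃ n : ℕ, ∃ τ ∈ I, ∀ x ∈ L, σ x = (φ ^ n * τ) x)
    {y : GQ → Module.End k ρbar.V} (hy : IsTwCocycle ρbar p y)
    (hyI : ∀ τ ∈ I, y τ = 0) {m : Module.End k ρbar.V}
    (hm : LinearMap.trace k ρbar.V m = 0)
    (hyφ : y φ = ρbar.ρ φ * m * ρbar.ρ φ⁻¹ - m) :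
    IsTwCoboundaryOn ρbar p D y m := by
  haveI : NeZero p := ⟨hp.ne_zero⟩
  refine ⟨hm, fun σ hσ a ha => ?_⟩
  obtain ⟨Ly, hLy, hyL⟩ := H536.cocycle_eq_of_agree hy
  obtain ⟨Lρ, hLρ, hρL⟩ := ρbar.factorsThroughFiniteLevel
  haveI := hLy
  haveI := hLρ
  haveI : FiniteDimensional ℚ ↥(Ly ⊔ Lρ) := IntermediateField.finiteDimensional_sup Ly Lρ
  haveI hLfin : FiniteDimensional ℚ ↥(Ly ⊔ Lρ ⊔ Fermat.Agent.S55.H414.cycloLevel p) :=
    IntermediateField.finiteDimensional_sup (Ly ⊔ Lρ) (Fermat.Agent.S55.H414.cycloLevel p)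
  obtain ⟨n, τ, hτ, hστ⟩ := hgen _ hLfin σ hσ
  have hLy_le : Ly ≤ Ly ⊔ Lρ ⊔ Fermat.Agent.S55.H414.cycloLevel p :=
    le_sup_left.trans le_sup_left
  have hLρ_le : Lρ ≤ Ly ⊔ Lρ ⊔ Fermat.Agent.S55.H414.cycloLevel p :=
    le_sup_right.trans le_sup_left
  have hLc_le : Fermat.Agent.S55.H414.cycloLevel p ≤
      Ly ⊔ Lρ ⊔ Fermat.Agent.S55.H414.cycloLevel p := le_sup_right
  -- `φ ^ n` fixes `μ_p`
  have hφn1 : IsCycExp p (φ ^ n) 1 := by
    intro μ hμ
    rw [pow_one]
    have := hφ1 μ hμ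
    rw [pow_one] at this
    exact H536.pow_apply_eq_of_apply_eq φ this n
  -- `σ` fixes `μ_p`
  have hσ1 : IsCycExp p σ 1 := by
    intro μ hμ
    rw [pow_one, hστ μ (hLc_le (H536.mem_cycloLevel_of_pow_eq_one p hμ))]
    show (φ ^ n) (τ μ) = μ
    have h1 := hI1 τ hτ μ hμ
    rw [pow_one] at h1
    rw [h1]
    have h2 := hφn1 μ hμ
    rwa [pow_one] at h2
  -- `y σ = y (φ ^ n)`
  have hy1 : y σ = y (φ ^ n) := by
    rw [hyL σ (φ ^ n * τ) (fun x hx => hστ x (hLy_le hx)), hy.map_mul (φ ^ n) τ 1 hφn1,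
      hyI τ hτ]
    simp [twAd]
  -- `ρ̄ σ = ρ̄ (φ ^ n)`
  have hρ1 : ρbar.ρ σ = ρbar.ρ (φ ^ n) := by
    have hg : ρbar.ρ ((φ ^ n * τ)⁻¹ * σ) = 1 := by
      apply hρL
      intro x hx
      rw [AlgEquiv.mul_apply, hστ x (hLρ_le hx)]
      exact (φ ^ n * τ).symm_apply_apply x
    have h2 : ρbar.ρ σ = ρbar.ρ (φ ^ n * τ) * ρbar.ρ ((φ ^ n * τ)⁻¹ * σ) := by
      rw [← map_mul, mul_inv_cancel_left]
    rw [h2, hg, mul_one, map_mul, hur τ hτ, mul_one]
  have hρ2 : ρbar.ρ σ⁻¹ = ρbar.ρ (φ ^ n)⁻¹ := rho_inv_eq_of_rho_eq hρ1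
  rw [hy1, H536.coboundary_pow hy φ hφ1 m hyφ n]
  unfold twAd
  rw [natCast_eq_one_of_isCycExp hp ha hσ1, one_smul, hρ1, hρ2]

end Core

/-- **LOCTRIV** from GEN. -/
theorem locTrivTw_of (hGen : GenStatement) : LocTrivTwStatement := by
  intro 𝒪 _ _ _ _ _ p ρbar S Smin hyp q hq P hP φ hφ y hy hyI m hm hyφ
  have hp := hyp.hp
  have hqP : q.Prime := hq.1
  have hpq : p ≠ q := by
    rintro rfl
    exact hq.2.1 (hyp.hSmin hyp.hpSmin)
  have hq1 : p ∣ q - 1 := hq.2.2.1
  haveI : CharP (ResidueField 𝒪) p := H536.charP_residueField 𝒪 p hp hyp.hp𝒪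
  have hur : ∀ σ ∈ P.inertiaSubgroupIn ℚ, ρbar.ρ σ = 1 := by
    have hqSmin : q ∉ Smin := fun h => hq.2.1 (hyp.hSmin h)
    have hunr : ρbar.IsUnramifiedAt q := by
      by_contra hnot
      exact hqSmin ((hyp.hmin q hqP hpq.symm).2 hnot)
    exact hunr P hP
  exact locTriv_core hp (H554.fixes_mu_of_isFrobeniusAt hqP hP hp hpq hq1 hφ)
    (fun τ hτ => H554.fixes_mu_of_mem_inertia hqP hP hp hpq hτ) hur
    (fun L hL σ hσ => hGen q P φ hqP hP hφ L hL σ hσ) hy hyI hm hyφ

end Fermat.Agent.S56.RQ.H514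

end
end
-- ===== PACK-END S56/RQ/H514/LocTriv.lean

-- ===== PACK-BEGIN S56/RQ/UrCupH475.lean
section






/-!
# Row S56 — REC-Q, leaf URCUP (helper475)

`urCup : UrCupStatement` (unconditional) and
`urCup_of : GenStatement → LineStatement → CobCupStatement → UrCupStatement`: at a Taylor–Wiles
prime `q`, `P | q`, the cup product of an ad-cocycle `c` and a twisted cocycle `y`, both
vanishing on the inertia group `I_P`, is a coboundary of `k(1)` on the decomposition group `D_P`.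

Proof.  `φ` a Frobenius element at `P`; LINE gives `h` (trace zero, `tr h² ≠ 0`, commuting with
`ρ̄ φ`) and `c φ = α h + (φ m φ⁻¹ − m)`.  Put `d = ∂m` and `c₁ = c − d`: `cup d y` is a coboundary
by COBCUP, and `c₁` is an ad-cocycle vanishing on `I_P` with `c₁ φ = α h`.  By GEN every
`σ ∈ D_P` agrees with some `φ ^ n * τ`, `τ ∈ I_P`, on any given finite level; hence
`c₁ σ = n α h`, `tr (h · y σ) = n tr (h · y φ)`, `ρ̄ σ` commutes with `h`, and `σ` fixes `μ_p`.
So on `D_P`: `cup c₁ y (σ, τ) = χ σ · ψ τ` with `χ = tr (h c₁) / tr h²`, `ψ = tr (h y)` both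
additive and proportional, and `χ σ ψ τ = dλ`, `λ = − χ ψ / 2` (`p` odd).
-/

set_option autoImplicit false
set_option linter.style.haveILetI false

open Polynomial IsLocalRing

noncomputable section

namespace Fermat.Agent.S56.RQ.H475

open Fermat.Agent.S56 Fermat.Agent.S56.H716 Fermat.Agent.S56.RQ

section Core

variable {k : Type} [Field k] {ρbar : ResidualGaloisRep k} {p : ℕ}

theorem adCocycle_one {c : GQ → Module.End k ρbar.V} (hc : IsAdCocycle ρbar c) : c 1 = 0 := by
  have h := hc.map_mul 1 1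
  simp only [mul_one, map_one, inv_one, one_mul] at h
  exact left_eq_add.mp h

/-- An ad-cocycle takes the same value on elements agreeing on its level. -/
theorem adCocycle_eq_of_agree {c : GQ → Module.End k ρbar.V} (hc : IsAdCocycle ρbar c) :
    ∃ L : IntermediateField ℚ Qb, FiniteDimensional ℚ L ∧
      ∀ σ τ : GQ, (∀ x ∈ L, σ x = τ x) → c σ = c τ := by
  obtain ⟨L, hL, h⟩ := hc.level
  refine ⟨L, hL, fun σ τ hστ => ?_⟩
  have h1 := h τ (τ⁻¹ * σ) (fun x hx => by
    rw [AlgEquiv.mul_apply, hστ x hx]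
    exact τ.symm_apply_apply x)
  rwa [mul_inv_cancel_left] at h1

/-- `ρ̄` takes the same value on elements agreeing on its level. -/
theorem rho_eq_of_agree (ρbar : ResidualGaloisRep k) :
    ∃ L : IntermediateField ℚ Qb, FiniteDimensional ℚ L ∧
      ∀ σ τ : GQ, (∀ x ∈ L, σ x = τ x) → ρbar.ρ σ = ρbar.ρ τ := by
  obtain ⟨L, hL, h⟩ := ρbar.factorsThroughFiniteLevel
  refine ⟨L, hL, fun σ τ hστ => ?_⟩
  have h1 : ρbar.ρ (τ⁻¹ * σ) = 1 := h (τ⁻¹ * σ) (fun x hx => by
    rw [AlgEquiv.mul_apply, hστ x hx]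
    exact τ.symm_apply_apply x)
  calc ρbar.ρ σ = ρbar.ρ (τ * (τ⁻¹ * σ)) := by rw [mul_inv_cancel_left]
    _ = ρbar.ρ τ := by rw [map_mul, h1, mul_one]

/-- If `ρ̄ σ` commutes with `h` then `σ h σ⁻¹ = h`. -/
theorem conj_eq_of_commute {σ : GQ} {h : Module.End k ρbar.V}
    (hσ : ρbar.ρ σ * h = h * ρbar.ρ σ) : ρbar.ρ σ * h * ρbar.ρ σ⁻¹ = h := by
  rw [hσ, mul_assoc, rho_mul_inv, mul_one]

/-- If `ρ̄ σ` commutes with `h` then `tr (h · σ x σ⁻¹) = tr (h · x)`. -/
theorem trace_mul_conj_of_commute {σ : GQ} {h : Module.End k ρbar.V}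
    (hσ : ρbar.ρ σ * h = h * ρbar.ρ σ) (x : Module.End k ρbar.V) :
    LinearMap.trace k ρbar.V (h * (ρbar.ρ σ * x * ρbar.ρ σ⁻¹)) =
      LinearMap.trace k ρbar.V (h * x) := by
  have h1 : h * (ρbar.ρ σ * x * ρbar.ρ σ⁻¹) = ρbar.ρ σ * (h * x) * ρbar.ρ σ⁻¹ := by
    calc h * (ρbar.ρ σ * x * ρbar.ρ σ⁻¹) = (h * ρbar.ρ σ) * x * ρbar.ρ σ⁻¹ := by
          simp only [mul_assoc]
      _ = ρbar.ρ σ * (h * x) * ρbar.ρ σ⁻¹ := by rw [← hσ]; simp only [mul_assoc]
  rw [h1, trace_conj]

theorem rho_pow_commute {φ : GQ} {h : Module.End k ρbar.V}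
    (hφ : ρbar.ρ φ * h = h * ρbar.ρ φ) (n : ℕ) :
    ρbar.ρ (φ ^ n) * h = h * ρbar.ρ (φ ^ n) := by
  rw [map_pow]
  exact ((show Commute (ρbar.ρ φ) h from hφ).pow_left n).eq

theorem isCycExp_one_pow {φ : GQ} (hφ1 : IsCycExp p φ 1) (n : ℕ) : IsCycExp p (φ ^ n) 1 := by
  intro μ hμ
  rw [pow_one]
  have := hφ1 μ hμ
  rw [pow_one] at this
  exact H536.pow_apply_eq_of_apply_eq φ this n

/-- Values of an ad-cocycle on the powers of `φ`, when `c φ` is a multiple of `h` commuting with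
`ρ̄ φ`. -/
theorem adCocycle_pow {c : GQ → Module.End k ρbar.V} (hc : IsAdCocycle ρbar c) {φ : GQ}
    {h : Module.End k ρbar.V} (hφ : ρbar.ρ φ * h = h * ρbar.ρ φ) {α : k} (hcφ : c φ = α • h)
    (n : ℕ) : c (φ ^ n) = ((n : k) * α) • h := by
  induction n with
  | zero => rw [pow_zero, adCocycle_one hc, Nat.cast_zero, zero_mul, zero_smul]
  | succ n ih =>
    rw [pow_succ, hc.map_mul, ih, hcφ, mul_smul_comm, smul_mul_assoc,
      conj_eq_of_commute (rho_pow_commute hφ n), ← add_smul, Nat.cast_succ, add_mul, one_mul]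

/-- Values of `tr (h · y)` on the powers of `φ`. -/
theorem twCocycle_trace_pow {y : GQ → Module.End k ρbar.V} (hy : IsTwCocycle ρbar p y) {φ : GQ}
    (hφ1 : IsCycExp p φ 1) {h : Module.End k ρbar.V} (hφ : ρbar.ρ φ * h = h * ρbar.ρ φ)
    (n : ℕ) : LinearMap.trace k ρbar.V (h * y (φ ^ n)) =
      (n : k) * LinearMap.trace k ρbar.V (h * y φ) := by
  induction n with
  | zero => rw [pow_zero, H536.cocycle_one hy, mul_zero, map_zero, Nat.cast_zero, zero_mul]
  | succ n ih =>
    rw [pow_succ, hy.map_mul (φ ^ n) φ 1 (isCycExp_one_pow hφ1 n), H554.twAd_one, mul_add,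
      map_add, ih, trace_mul_conj_of_commute (rho_pow_commute hφ n), Nat.cast_succ, add_mul,
      one_mul]

/-- **URCUP, core.**  `D` is generated modulo every finite level by `φ` and `I`, which fix `μ_p`;
`ρ̄` is trivial on `I`; `h` commutes with `ρ̄ φ` and `tr h² ≠ 0`; `c`, `y` vanish on `I` and
`c φ = α h`.  Then `cup c y` is a coboundary on `D`. -/
theorem urCup_core [CharP k p] (hp : p.Prime) (hp2 : p ≠ 2) {D I : Subgroup GQ} {φ : GQ}
    (hφ1 : IsCycExp p φ 1) (hI1 : ∀ τ ∈ I, IsCycExp p τ 1)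
    (hur : ∀ τ ∈ I, ρbar.ρ τ = 1)
    (hgen : ∀ L : IntermediateField ℚ Qb, FiniteDimensional ℚ L →
      ∀ σ ∈ D, ∃ n : ℕ, ∃ τ ∈ I, ∀ x ∈ L, σ x = (φ ^ n * τ) x)
    {h : Module.End k ρbar.V} (hcomm : ρbar.ρ φ * h = h * ρbar.ρ φ)
    (ht : LinearMap.trace k ρbar.V (h * h) ≠ 0)
    {c y : GQ → Module.End k ρbar.V} (hc : IsAdCocycle ρbar c) (hy : IsTwCocycle ρbar p y)
    (hcI : ∀ τ ∈ I, c τ = 0) (hyI : ∀ τ ∈ I, y τ = 0) {α : k} (hcφ : c φ = α • h) :
    IsCob₂On p D (cup ρbar c y) := by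
  haveI : NeZero p := ⟨hp.ne_zero⟩
  set t : k := LinearMap.trace k ρbar.V (h * h) with ht_def
  set ψφ : k := LinearMap.trace k ρbar.V (h * y φ) with hψφ_def
  obtain ⟨Lc, hLc, hcL⟩ := adCocycle_eq_of_agree hc
  obtain ⟨Ly, hLy, hyL⟩ := H536.cocycle_eq_of_agree hy
  obtain ⟨Lρ, hLρ, hρL⟩ := rho_eq_of_agree ρbar
  obtain ⟨Lc', hLc', hcL'⟩ := hc.level
  obtain ⟨Ly', hLy', hyL'⟩ := hy.level
  haveI := hLc
  haveI := hLy
  haveI := hLρ
  haveI := hLc'
  haveI := hLy'
  haveI : FiniteDimensional ℚ ↥(Lc ⊔ Ly) := IntermediateField.finiteDimensional_sup Lc Ly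
  haveI : FiniteDimensional ℚ ↥(Lc ⊔ Ly ⊔ Lρ) :=
    IntermediateField.finiteDimensional_sup (Lc ⊔ Ly) Lρ
  have hLfin : FiniteDimensional ℚ ↥(Lc ⊔ Ly ⊔ Lρ ⊔ Fermat.Agent.S55.H414.cycloLevel p) :=
    IntermediateField.finiteDimensional_sup (Lc ⊔ Ly ⊔ Lρ) (Fermat.Agent.S55.H414.cycloLevel p)
  have hLc_le : Lc ≤ Lc ⊔ Ly ⊔ Lρ ⊔ Fermat.Agent.S55.H414.cycloLevel p :=
    le_sup_left.trans (le_sup_left.trans le_sup_left)
  have hLy_le : Ly ≤ Lc ⊔ Ly ⊔ Lρ ⊔ Fermat.Agent.S55.H414.cycloLevel p :=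
    le_sup_right.trans (le_sup_left.trans le_sup_left)
  have hLρ_le : Lρ ≤ Lc ⊔ Ly ⊔ Lρ ⊔ Fermat.Agent.S55.H414.cycloLevel p :=
    le_sup_right.trans le_sup_left
  have hLμ_le : Fermat.Agent.S55.H414.cycloLevel p ≤
      Lc ⊔ Ly ⊔ Lρ ⊔ Fermat.Agent.S55.H414.cycloLevel p := le_sup_right
  -- the key facts on `D`
  have key : ∀ σ ∈ D, ∃ n : ℕ, c σ = ((n : k) * α) • h ∧
      LinearMap.trace k ρbar.V (h * y σ) = (n : k) * ψφ ∧
      ρbar.ρ σ * h = h * ρbar.ρ σ ∧ IsCycExp p σ 1 := by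
    intro σ hσ
    obtain ⟨n, τ, hτ, hστ⟩ := hgen _ hLfin σ hσ
    have hφn1 : IsCycExp p (φ ^ n) 1 := isCycExp_one_pow hφ1 n
    refine ⟨n, ?_, ?_, ?_, ?_⟩
    · rw [hcL σ (φ ^ n * τ) (fun x hx => hστ x (hLc_le hx)), hc.map_mul, hcI τ hτ, mul_zero,
        zero_mul, add_zero, adCocycle_pow hc hcomm hcφ n]
    · rw [hyL σ (φ ^ n * τ) (fun x hx => hστ x (hLy_le hx)), hy.map_mul (φ ^ n) τ 1 hφn1,
        hyI τ hτ]
      simp only [twAd, mul_zero, zero_mul, smul_zero, add_zero]
      exact twCocycle_trace_pow hy hφ1 hcomm n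
    · rw [hρL σ (φ ^ n * τ) (fun x hx => hστ x (hLρ_le hx)), map_mul, hur τ hτ, mul_one]
      exact rho_pow_commute hcomm n
    · intro μ hμ
      rw [pow_one, hστ μ (hLμ_le (H536.mem_cycloLevel_of_pow_eq_one p hμ))]
      show (φ ^ n) (τ μ) = μ
      have h1 := hI1 τ hτ μ hμ
      rw [pow_one] at h1
      rw [h1]
      have h2 := hφn1 μ hμ
      rwa [pow_one] at h2
  have h2ne : (2 : k) ≠ 0 := by
    intro h2
    have h3 : ((2 : ℕ) : k) = 0 := by exact_mod_cast h2
    rw [CharP.cast_eq_zero_iff k p] at h3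
    exact hp2 ((Nat.prime_dvd_prime_iff_eq hp Nat.prime_two).1 h3)
  haveI : FiniteDimensional ℚ ↥(Lc' ⊔ Ly') := IntermediateField.finiteDimensional_sup Lc' Ly'
  refine ⟨fun σ => -((2 : k)⁻¹ * (LinearMap.trace k ρbar.V (h * c σ) / t *
      LinearMap.trace k ρbar.V (h * y σ))), ⟨Lc' ⊔ Ly', inferInstance, ?_⟩, ?_⟩
  · intro σ _ s _ hs
    simp only
    rw [hcL' σ s (fun x hx => hs x ((le_sup_left : Lc' ≤ Lc' ⊔ Ly') hx)),
      hyL' σ s (fun x hx => hs x ((le_sup_right : Ly' ≤ Lc' ⊔ Ly') hx))]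
  · intro σ hσ τ hτ a ha
    obtain ⟨n, hcσ, hyσ, hσh, hσ1⟩ := key σ hσ
    obtain ⟨n', hcτ, hyτ, -, -⟩ := key τ hτ
    have ha1 : (a : k) = 1 := H514.natCast_eq_one_of_isCycExp hp ha hσ1
    -- the values at `σ * τ`
    have hcστ : c (σ * τ) = (((n : k) + n') * α) • h := by
      rw [hc.map_mul, hcσ, hcτ, mul_smul_comm, smul_mul_assoc, conj_eq_of_commute hσh,
        ← add_smul, add_mul]
    have hyστ : LinearMap.trace k ρbar.V (h * y (σ * τ)) = ((n : k) + n') * ψφ := by
      rw [hy.map_mul σ τ 1 hσ1, H554.twAd_one, mul_add, map_add, hyσ,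
        trace_mul_conj_of_commute hσh, hyτ, add_mul]
    have hcup : cup ρbar c y (σ, τ) = (n : k) * α * ((n' : k) * ψφ) := by
      rw [cup_apply_of_exp ρbar hy c σ τ 1 hσ1, Nat.cast_one, one_mul, hcσ, smul_mul_assoc,
        map_smul, smul_eq_mul, trace_mul_conj_of_commute hσh, hyτ]
    simp only
    rw [hcup, ha1, hcσ, hcτ, hcστ, hyσ, hyτ, hyστ]
    simp only [mul_smul_comm, map_smul, smul_eq_mul]
    rw [← ht_def]
    field_simp
    ring


/-- The ad-coboundary `∂m : σ ↦ σ m σ⁻¹ − m` is an ad-cocycle. -/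
theorem isAdCocycle_cob (ρbar : ResidualGaloisRep k) (m : Module.End k ρbar.V) :
    IsAdCocycle ρbar (fun σ => ρbar.ρ σ * m * ρbar.ρ σ⁻¹ - m) := by
  refine ⟨fun σ => ?_, fun σ τ => ?_, ?_⟩
  · rw [map_sub, trace_conj, sub_self]
  · rw [mul_inv_rev, map_mul, map_mul]
    simp only [mul_sub, sub_mul, mul_assoc]
    abel
  · obtain ⟨L, hL, hρL⟩ := rho_eq_of_agree ρbar
    refine ⟨L, hL, fun σ τ hτ => ?_⟩
    have h1 : ρbar.ρ (σ * τ) = ρbar.ρ σ := hρL (σ * τ) σ (fun x hx => by
      rw [AlgEquiv.mul_apply, hτ x hx])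
    rw [H514.rho_inv_eq_of_rho_eq h1, h1]

/-- The difference of two ad-cocycles is an ad-cocycle. -/
theorem isAdCocycle_sub {c d : GQ → Module.End k ρbar.V} (hc : IsAdCocycle ρbar c)
    (hd : IsAdCocycle ρbar d) : IsAdCocycle ρbar (c - d) := by
  refine ⟨fun σ => ?_, fun σ τ => ?_, ?_⟩
  · rw [Pi.sub_apply, map_sub, hc.trace_eq_zero, hd.trace_eq_zero, sub_zero]
  · simp only [Pi.sub_apply]
    rw [hc.map_mul, hd.map_mul, mul_sub, sub_mul]
    abel
  · obtain ⟨L, hL, hcL⟩ := hc.level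
    obtain ⟨L', hL', hdL⟩ := hd.level
    haveI := hL
    haveI := hL'
    refine ⟨L ⊔ L', IntermediateField.finiteDimensional_sup L L', fun σ τ hτ => ?_⟩
    simp only [Pi.sub_apply]
    rw [hcL σ τ (fun x hx => hτ x ((le_sup_left : L ≤ L ⊔ L') hx)),
      hdL σ τ (fun x hx => hτ x ((le_sup_right : L' ≤ L ⊔ L') hx))]

/-- A sum of two coboundaries of `k(1)` on `H` is a coboundary on `H`. -/
theorem isCob₂On_add {H : Subgroup GQ} {z₁ z₂ z : GQ × GQ → k} (h₁ : IsCob₂On p H z₁)
    (h₂ : IsCob₂On p H z₂) (hz : ∀ σ ∈ H, ∀ τ ∈ H, z (σ, τ) = z₁ (σ, τ) + z₂ (σ, τ)) :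
    IsCob₂On p H z := by
  obtain ⟨l₁, ⟨L₁, hL₁, hl₁⟩, hd₁⟩ := h₁
  obtain ⟨l₂, ⟨L₂, hL₂, hl₂⟩, hd₂⟩ := h₂
  haveI := hL₁
  haveI := hL₂
  refine ⟨fun σ => l₁ σ + l₂ σ,
    ⟨L₁ ⊔ L₂, IntermediateField.finiteDimensional_sup L₁ L₂, fun σ hσ s hs hfix => ?_⟩,
    fun σ hσ τ hτ a ha => ?_⟩
  · simp only
    rw [hl₁ σ hσ s hs (fun x hx => hfix x ((le_sup_left : L₁ ≤ L₁ ⊔ L₂) hx)),
      hl₂ σ hσ s hs (fun x hx => hfix x ((le_sup_right : L₂ ≤ L₁ ⊔ L₂) hx))]
  · simp only
    rw [hz σ hσ τ hτ, hd₁ σ hσ τ hτ a ha, hd₂ σ hσ τ hτ a ha]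
    ring

/-- The cup product is additive in the first variable. -/
theorem cup_sub_add (ρbar : ResidualGaloisRep k) (c d y : GQ → Module.End k ρbar.V)
    (x : GQ × GQ) : cup ρbar c y x = cup ρbar (c - d) y x + cup ρbar d y x := by
  unfold cup
  simp only [Pi.sub_apply]
  rw [sub_mul, map_sub, sub_add_cancel]

end Core

/-- **URCUP** from GEN, LINE and COBCUP. -/
theorem urCup_of (hGen : GenStatement) (hLine : LineStatement) (hCob : CobCupStatement) :
    UrCupStatement := by
  intro 𝒪 _ _ _ _ _ p ρbar S Smin hyp q hTW P hP c y hc hy hcI hyI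
  have hp := hyp.hp
  haveI : CharP (ResidueField 𝒪) p := H536.charP_residueField 𝒪 p hp hyp.hp𝒪
  have hq : q.Prime := hTW.1
  have hqSmin : q ∉ Smin := fun h => hTW.2.1 (hyp.hSmin h)
  have hqp : q ≠ p := fun h => hqSmin (h ▸ hyp.hpSmin)
  have hpq : p ≠ q := fun h => hqp h.symm
  have hq1 : p ∣ q - 1 := hTW.2.2.1
  have hurq : ρbar.IsUnramifiedAt q := by
    by_contra h
    exact hqSmin ((hyp.hmin q hq hqp).mpr h)
  have hur : ∀ σ ∈ P.inertiaSubgroupIn ℚ, ρbar.ρ σ = 1 := hurq P hP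
  obtain ⟨φ, hφ⟩ := Fermat.Agent.Lib.Cheb.H643.exists_isFrobeniusAt q hq P hP
  obtain ⟨h, hh0, hht, hcomm, -, hdec⟩ := hLine 𝒪 p ρbar S Smin hyp q hTW P hP φ hφ
  -- the decomposition `c φ = α h + (φ m φ⁻¹ − m)`
  have hx0 : LinearMap.trace (ResidueField 𝒪) ρbar.V
      (c φ - (LinearMap.trace (ResidueField 𝒪) ρbar.V (h * c φ) /
        LinearMap.trace (ResidueField 𝒪) ρbar.V (h * h)) • h) = 0 := by
    rw [map_sub, hc.trace_eq_zero, map_smul, hh0, smul_zero, sub_zero]
  have hx1 : LinearMap.trace (ResidueField 𝒪) ρbar.V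
      (h * (c φ - (LinearMap.trace (ResidueField 𝒪) ρbar.V (h * c φ) /
        LinearMap.trace (ResidueField 𝒪) ρbar.V (h * h)) • h)) = 0 := by
    rw [mul_sub, map_sub, mul_smul_comm, map_smul, smul_eq_mul, div_mul_cancel₀ _ hht, sub_self]
  obtain ⟨m, -, hm⟩ := hdec _ hx0 hx1
  have hd : IsAdCocycle ρbar (fun σ => ρbar.ρ σ * m * ρbar.ρ σ⁻¹ - m) := isAdCocycle_cob ρbar m
  have hc1 := isAdCocycle_sub hc hd
  have hc1I : ∀ τ ∈ P.inertiaSubgroupIn ℚ,
      (c - fun σ => ρbar.ρ σ * m * ρbar.ρ σ⁻¹ - m) τ = 0 := by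
    intro τ hτ
    rw [Pi.sub_apply, hcI τ hτ, hur τ hτ, hur τ⁻¹ (inv_mem hτ), one_mul, mul_one, sub_self,
      sub_zero]
  have hc1φ : (c - fun σ => ρbar.ρ σ * m * ρbar.ρ σ⁻¹ - m) φ =
      (LinearMap.trace (ResidueField 𝒪) ρbar.V (h * c φ) /
        LinearMap.trace (ResidueField 𝒪) ρbar.V (h * h)) • h := by
    rw [Pi.sub_apply, ← hm, sub_sub_cancel]
  have h1 : IsCob₂On p (P.decompositionSubgroup ℚ)
      (cup ρbar (c - fun σ => ρbar.ρ σ * m * ρbar.ρ σ⁻¹ - m) y) :=
    urCup_core hp hyp.hp2 (H554.fixes_mu_of_isFrobeniusAt hq hP hp hpq hq1 hφ)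
      (fun τ hτ => H554.fixes_mu_of_mem_inertia hq hP hp hpq hτ) hur
      (fun L hL σ hσ => hGen q P φ hq hP hφ L hL σ hσ) hcomm hht hc1 hy hc1I hyI hc1φ
  have h2 : IsCob₂On p (P.decompositionSubgroup ℚ)
      (cup ρbar (fun σ => ρbar.ρ σ * m * ρbar.ρ σ⁻¹ - m) y) :=
    (hCob (ResidueField 𝒪) p hp ρbar (P.decompositionSubgroup ℚ) _ y hd hy).1
      ⟨m, fun σ _ => rfl⟩
  exact isCob₂On_add h1 h2 (fun σ _ τ _ => cup_sub_add ρbar c _ y (σ, τ))

/-- **URCUP** from GEN and LINE (COBCUP is `cobCup`). -/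
theorem urCup_of_gen_line (hGen : GenStatement) (hLine : LineStatement) : UrCupStatement :=
  urCup_of hGen hLine cobCup

/-- **URCUP**, unconditional (GEN = `H554.gen`, LINE = `H454.line`, COBCUP = `cobCup`). -/
theorem urCup : UrCupStatement :=
  urCup_of Fermat.Agent.S56.RQ.H554.gen Fermat.Agent.S56.RQ.H454.line cobCup

end Fermat.Agent.S56.RQ.H475

end

end
-- ===== PACK-END S56/RQ/UrCupH475.lean

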