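import Fermat.Prelude.Def_GaloisRep_Flat
import Fermat.Prelude.Def_GaloisRep_StrictOrdinary
import Fermat.Agent.Pack.S43GC.G0E18L0
import Fermat.Agent.Pack.S43GC.G0E18L3
import Fermat.Agent.Pack.S43GC.G0E15L2
import Fermat.Agent.Pack.S43GC.G0E5L0
import Fermat.Agent.Pack.S43GC.G0E18L1
import Fermat.Agent.Pack.S43GC.G0E9L1
import Fermat.Agent.Pack.S43GC.G0E7L3
import Fermat.Agent.Pack.S43GC.G0E13L1
import Fermat.Agent.Pack.S43GC.G0E18L2
import Fermat.Agent.Pack.S43GC.G0E12L3
import Fermat.Agent.Pack.S43GC.G0E3L3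
import Fermat.Agent.Pack.S43GC.G0E12L2
import Fermat.Agent.Pack.S43GC.G0E13L2
import Fermat.Agent.Pack.S43GC.G0E17L0
import Fermat.Agent.Pack.S43GC.G0E6L0
import Fermat.Agent.Pack.S43GC.G0E15L3
import Fermat.Agent.Pack.S43GC.G0E16L0
import Fermat.Agent.Pack.S43GC.G0E15L0
import Fermat.Agent.Pack.S43GC.G0E17L1
import Fermat.Agent.Pack.S43GC.G0E0L3
import Fermat.Agent.Pack.S43GC.G0E17L3
import Fermat.Agent.Pack.S43GC.G0E14L0
import Fermat.Agent.Pack.Fast891

-- ===== PACK-BEGIN S55/PT/H123/TopGlobD.lean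
section


/-!
# S55 / layer D, leaf D-T2b (global dévissage), part D: the generic theorem   (helper123)
-/

set_option autoImplicit false
set_option linter.unusedSectionVars false

noncomputable section

namespace Fermat.Agent.S55.PT.H123

open groupCohomology Fermat.Agent.S55.PT

variable {k : Type} [Field k] {G : Type} [Group G]
variable {ι : Type} [Fintype ι] [DecidableEq ι] {Gv : ι → Type} [∀ v, Group (Gv v)]
variable {L : LevelSys G} {Lv : ∀ v, LevelSys (Gv v)} {r : ∀ v, Gv v →* G}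
variable (hr : ∀ v, IsLevelCompatible (r v) L (Lv v))
variable (χ : G →* kˣ) (inv : ∀ v, (Lv v).H2 (ofChar (χ.comp (r v))) →ₗ[k] k)

/-- the augmentation of `Ind_U (ofChar χ)` as a `χ`-equivariant functional -/
def augChar (U : Subgroup G) : ↥(charHom χ (indRep U (ofChar χ))) :=
  ⟨indAug U (ofChar χ), fun g n => by
    have h := indAug_equivariant U (ofChar χ) g n
    rw [ofChar_ρ_apply] at h
    exact h⟩

/-- generic form of input A7 for the level `U` -/
def IndInj (U : Subgroup G) : Prop :=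
  ∀ x : (v : ι) → (Lv v).H2 (Rep.res (r v) (indRep U (ofChar χ))),
    (∑ v : ι, inv v (pushH2 (A := Rep.res (r v) (indRep U (ofChar χ)))
      (B := Rep.res (r v) (ofChar χ)) (indAug U (ofChar χ))
      ((indAug_equivariant U (ofChar χ)).res (r v)) (Lv v) (x v))) = 0 →
    x ∈ LinearMap.range (loc2 hr (indRep U (ofChar χ)))

variable {χ inv}

/-- `Θ(Ind_U (twTriv χ W))` is injective (in the form: kernel of `topGlobFun` is the range of
`loc2`). -/
theorem mem_range_loc2_ind (U : Subgroup G) (hInd : IndInj hr χ inv U)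
    (W : Type) [AddCommGroup W] [Module k W] [FiniteDimensional k W]
    (x : (v : ι) → (Lv v).H2 (Rep.res (r v) (indRep U (twTriv χ W))))
    (hx : topGlobFun χ inv (indRep U (twTriv χ W)) x = 0) :
    x ∈ LinearMap.range (loc2 hr (indRep U (twTriv χ W))) := by
  -- the coordinates of `x`
  have hcoord : ∀ i, pushLoc2 (r := r) (Lv := Lv) (A := indRep U (twTriv χ W))
      (B := indRep U (ofChar χ)) (coordMap U χ W i) (coordMap_equivariant U χ W i) x ∈
      LinearMap.range (loc2 hr (indRep U (ofChar χ))) := by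
    intro i
    apply hInd
    have h1 := topGlobFun_push (inv := inv) (N := indRep U (twTriv χ W))
      (N' := indRep U (ofChar χ)) (coordMap U χ W i) (coordMap_equivariant U χ W i) x
      (augChar χ U)
    rw [hx, LinearMap.zero_apply, topGlobFun_apply] at h1
    exact h1
  choose y hy using hcoord
  refine ⟨∑ i, pushH2 (A := indRep U (ofChar χ)) (B := indRep U (twTriv χ W))
    (inclMap U χ W i) (inclMap_equivariant U χ W i) L (y i), ?_⟩
  rw [map_sum]
  funext v
  rw [Finset.sum_apply]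
  have h2 : ∀ i, loc2 hr (indRep U (twTriv χ W))
      (pushH2 (A := indRep U (ofChar χ)) (B := indRep U (twTriv χ W))
        (inclMap U χ W i) (inclMap_equivariant U χ W i) L (y i)) v =
      pushH2 (A := Rep.res (r v) (indRep U (ofChar χ)))
        (B := Rep.res (r v) (indRep U (twTriv χ W)))
        (inclMap U χ W i) ((inclMap_equivariant U χ W i).res (r v)) (Lv v)
        (pushH2 (A := Rep.res (r v) (indRep U (twTriv χ W)))
          (B := Rep.res (r v) (indRep U (ofChar χ)))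
          (coordMap U χ W i) ((coordMap_equivariant U χ W i).res (r v)) (Lv v) (x v)) := by
    intro i
    rw [loc2_pushH2, hy i]
    rfl
  rw [Finset.sum_congr rfl fun i _ => h2 i]
  exact pushH2_sum_comp (Lv v) (A := Rep.res (r v) (indRep U (twTriv χ W)))
    (B := Rep.res (r v) (indRep U (ofChar χ)))
    (fun i => coordMap U χ W i) (fun i => inclMap U χ W i)
    (fun i => (coordMap_equivariant U χ W i).res (r v))
    (fun i => (inclMap_equivariant U χ W i).res (r v))
    (sum_inclMap_coordMap U χ W) (x v)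

/-- `π_* ∘ i_* = 0` on `H²` -/
lemma pushH2_π_i {G' : Type} [Group G'] (L' : LevelSys G') {A B C : Rep.{0, 0, 0} k G'}
    (E : SES A B C) (z : L'.H2 A) :
    pushH2 E.π E.hπ L' (pushH2 E.i E.hi L' z) = 0 := by
  obtain ⟨c, rfl⟩ := L'.H2π_surjective A z
  rw [pushH2_mk, pushH2_mk]
  have : pushZ2 E.π E.hπ L' (pushZ2 E.i E.hi L' c) = 0 := by
    apply Subtype.ext
    funext g
    simp only [coe_pushZ2, Function.comp_apply]
    exact E.π_i _
  rw [this, map_zero]

/-- The four lemma: injectivity of `Θ(N)` from surjectivity of `Θ(R)`, injectivity of `Θ(Q)` and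
surjectivity of `∏_v H²(G_v, Q) → ∏_v H²(G_v, N)`, for a short exact sequence
`0 → R → Q → N → 0`. -/
theorem mem_range_loc2_of_ses {R Q N : Rep.{0, 0, 0} k G} (E : SES R Q N)
    (hrec : IsRecip hr χ inv)
    (hsurjR : Function.Surjective (topT3 hr R hrec))
    (hinjQ : ∀ x : (v : ι) → (Lv v).H2 (Rep.res (r v) Q),
      topGlobFun χ inv Q x = 0 → x ∈ LinearMap.range (loc2 hr Q))
    (hπ : ∀ v, Function.Surjective (pushH2 (A := Rep.res (r v) Q) (B := Rep.res (r v) N)
      E.π (E.hπ.res (r v)) (Lv v)))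
    (x : (v : ι) → (Lv v).H2 (Rep.res (r v) N)) (hx : topGlobFun χ inv N x = 0) :
    x ∈ LinearMap.range (loc2 hr N) := by
  -- 1. lift `x` to `Q`
  choose x' hx' using fun v => hπ v (x v)
  have hxx' : pushLoc2 (r := r) (Lv := Lv) E.π E.hπ x' = x := by
    funext v
    rw [pushLoc2_apply]
    exact hx' v
  -- 2. `Θ(Q)(x')` kills the functionals vanishing on `R`
  have hkill : ∀ f : ↥(charHom χ Q), charHomPull χ E.i E.hi f = 0 →
      topGlobFun χ inv Q x' f = 0 := by
    intro f hf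
    obtain ⟨f', rfl⟩ := ker_charHomPull_le χ E (LinearMap.mem_ker.2 hf)
    rw [← topGlobFun_push, hxx', hx, LinearMap.zero_apply]
  -- 3. factor through `charHom χ R`
  obtain ⟨δ, hδ⟩ := exists_factor_sub (charHom χ Q) (charHom χ R) (charHomPull χ E.i E.hi)
    (topGlobFun χ inv Q x') hkill
  -- 4. `Θ(R)` is surjective
  obtain ⟨d', hd'⟩ := hsurjR δ
  obtain ⟨d, rfl⟩ := T3π_surjective hr R d'
  rw [topT3_mk] at hd'
  -- 5. correct `x'`
  have h5 : topGlobFun χ inv Q (x' - pushLoc2 (r := r) (Lv := Lv) E.i E.hi d) = 0 := by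
    apply LinearMap.ext
    intro f
    rw [map_sub, LinearMap.sub_apply, topGlobFun_push, hd', hδ, sub_self, LinearMap.zero_apply]
  -- 6. injectivity for `Q`
  obtain ⟨y, hy⟩ := hinjQ _ h5
  -- 7. conclusion
  refine ⟨pushH2 E.π E.hπ L y, ?_⟩
  rw [loc2_pushH2, hy, map_sub, hxx']
  have h7 : pushLoc2 (r := r) (Lv := Lv) E.π E.hπ (pushLoc2 (r := r) (Lv := Lv) E.i E.hi d) = 0 := by
    funext v
    rw [pushLoc2_apply, pushLoc2_apply]
    exact pushH2_π_i (Lv v) (E.res (r v)) (d v)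
  rw [h7, sub_zero]

end Fermat.Agent.S55.PT.H123

end

end
-- ===== PACK-END S55/PT/H123/TopGlobD.lean

-- ===== PACK-BEGIN S55/PT/T2aH299/Main.lean
section




/-!
# S55 / layer D, leaf D-T2a: `TopLocDevSpec`

`theorem topLocDev : TopLocDevSpec p S` — local top-degree duality for all finite-dimensional
smooth modules from A4 (right exactness of `H²`) and A6 (the induced case `Ind_W μ`).

Abstract form (`topPair_bijective`): any level system `L` on a group `G` with normal cofinal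
levels of finite index, a character `χ` trivial on some level, `inv : H²(ofChar χ) → k`.
Proof: present `N` by `Q = Ind_W (twTriv χ N) ↠ N` (twisted augmentation); `topPair Q` is
bijective by coordinates (`Base.lean`); `topPair N` is onto because `charHom N ↪ charHom Q`
(`topPair_surjective_of_surjective`); it is injective by the four lemma
(`topPair_injective_of_ses`), using A4 and the surjectivity for `ker (Q → N)`.
(Exactness at `H²(Q)`, i.e. `LesMidSpec`, is not needed because `topPair Q` is injective.)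
-/

set_option autoImplicit false
set_option linter.unusedSectionVars false
set_option linter.style.haveILetI false

noncomputable section

namespace Fermat.Agent.S55.PT.H299

open Fermat.Agent.S55.PT groupCohomology ExtCitation

section Abstract

variable {k : Type} [Field k] {G : Type} [Group G] (L : LevelSys G) (χ : G →* kˣ)

/-- a normal level acts trivially on `Ind_W (twTriv χ N₀)` if `χ` is trivial on it -/
lemma indTw_ρ_eq_of_mem (W : Subgroup G) [W.Normal] (hχ : ∀ u ∈ W, χ u = 1)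
    {N₀ : Type} [AddCommGroup N₀] [Module k N₀] (s : G) (hs : s ∈ W)
    (a : (G ⧸ W) →₀ N₀) : (indRep W (twTriv χ N₀)).ρ s a = a := by
  have key : (indRep W (twTriv χ N₀)).ρ s = LinearMap.id := by
    apply Finsupp.lhom_ext
    intro x n
    induction x using QuotientGroup.induction_on with
    | H g =>
      rw [indRep_ρ_single, twTriv_ρ_apply, hχ s hs, Units.val_one, one_smul, LinearMap.id_apply]
      congr 1
      show ((s * g : G) : G ⧸ W) = (g : G ⧸ W)
      rw [QuotientGroup.eq]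
      have h1 : g⁻¹ * s⁻¹ * g ∈ W := by
        have := (inferInstance : W.Normal).conj_mem s⁻¹ (W.inv_mem hs) g⁻¹
        simpa using this
      simpa [mul_assoc] using h1
  rw [key]
  rfl

lemma exists_good_level (hNC : L.NormalCofinal) (hχ : ∃ V ∈ L.levels, ∀ u ∈ V, χ u = 1)
    (N : Rep.{0, 0, 0} k G) (hN : L.IsUSmooth N) :
    ∃ W ∈ L.levels, W.Normal ∧ (∀ u ∈ W, χ u = 1) ∧ (∀ u ∈ W, N.ρ u = 1) := by
  obtain ⟨V₁, hV₁, h1⟩ := hχ
  obtain ⟨V₂, hV₂, h2⟩ := hN
  obtain ⟨V₃, hV₃, hle⟩ := L.directed V₁ hV₁ V₂ hV₂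
  obtain ⟨W, hW, hWle, hWn⟩ := hNC V₃ hV₃
  refine ⟨W, hW, hWn, fun u hu => h1 u (hle (hWle hu)).1, fun u hu => ?_⟩
  apply LinearMap.ext
  intro a
  exact h2 u (hle (hWle hu)).2 a

variable (inv : L.H2 (ofChar χ) →ₗ[k] k)

/-- the hypotheses A6 (induced case) in abstract form -/
def IndCase : Prop :=
  ∀ W ∈ L.levels, W.Normal → (∀ s ∈ W, χ s = 1) →
    Function.Bijective (inv ∘ₗ pushAug L χ W)

/-- the hypothesis A4 (right exactness of `H²`) in abstract form -/
def RightExact : Prop :=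
  ∀ (P N : Rep.{0, 0, 0} k G) (φ : P →ₗ[k] N) (hφ : IsEquivariant φ),
    FiniteDimensional k P → L.IsUSmooth P → L.IsUSmooth N →
    Function.Surjective φ → Function.Surjective (pushH2 φ hφ L)

variable {L χ inv}

/-- the top pairing is surjective for every finite-dimensional smooth module -/
theorem topPair_surjective (hNC : L.NormalCofinal)
    (hχ : ∃ V ∈ L.levels, ∀ u ∈ V, χ u = 1) (hA6 : IndCase L χ inv)
    (N : Rep.{0, 0, 0} k G) [FiniteDimensional k N] (hN : L.IsUSmooth N) :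
    Function.Surjective (topPair L χ inv N) := by
  obtain ⟨W, hW, hWn, hWχ, hWN⟩ := exists_good_level L χ hNC hχ N hN
  haveI := hWn
  exact topPair_surjective_of_surjective χ (Q := indRep W (twTriv χ N)) (N := N)
    (augTw χ W N) (augTw_equivariant χ W N hWχ hWN) L inv (augTw_surjective χ W N hWχ hWN)
    (topPair_ind_bijective L χ inv W (hA6 W hW hWn hWχ)).2

/-- **D-T2a, abstract form.**  The top pairing is bijective for every finite-dimensional
smooth module. -/
theorem topPair_bijective (hNC : L.NormalCofinal) (hFI : L.FiniteIndex)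
    (hχ : ∃ V ∈ L.levels, ∀ u ∈ V, χ u = 1) (hA6 : IndCase L χ inv) (hA4 : RightExact (k := k) L)
    (N : Rep.{0, 0, 0} k G) [FiniteDimensional k N] (hN : L.IsUSmooth N) :
    Function.Bijective (topPair L χ inv N) := by
  refine ⟨?_, topPair_surjective hNC hχ hA6 N hN⟩
  obtain ⟨W, hW, hWn, hWχ, hWN⟩ := exists_good_level L χ hNC hχ N hN
  haveI := hWn
  haveI : W.FiniteIndex := hFI W hW
  haveI : Finite (G ⧸ W) := Subgroup.finite_quotient_of_finiteIndex
  have hQfd : FiniteDimensional k (indRep W (twTriv χ N)) :=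
    (inferInstance : Module.Finite k ((G ⧸ W) →₀ N))
  have hQsm : L.IsUSmooth (indRep W (twTriv χ N)) :=
    ⟨W, hW, fun s hs a => indTw_ρ_eq_of_mem χ W hWχ s hs a⟩
  let E := twSES χ W N hWχ hWN
  have hRfd : FiniteDimensional k
      (kerRep (A := indRep W (twTriv χ N)) (B := N) (augTw χ W N)
        (augTw_equivariant χ W N hWχ hWN)) :=
    (inferInstance : Module.Finite k ↥(LinearMap.ker (augTw χ W N)))
  have hRsm : L.IsUSmooth (kerRep (A := indRep W (twTriv χ N)) (B := N) (augTw χ W N)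
      (augTw_equivariant χ W N hWχ hWN)) :=
    ⟨W, hW, fun s hs a => Subtype.ext (indTw_ρ_eq_of_mem χ W hWχ s hs (a : (G ⧸ W) →₀ N))⟩
  exact topPair_injective_of_ses χ E L inv
    (hA4 _ _ E.π E.hπ hQfd hQsm hN E.surj)
    (topPair_surjective hNC hχ hA6 _ hRsm)
    (topPair_ind_bijective L χ inv W (hA6 W hW hWn hWχ)).1

end Abstract

section Concrete

variable (p : ℕ) [Fact p.Prime] (S : Finset Nat.Primes)

/-- the local cyclotomic character is trivial on a local level -/
lemma exists_level_cycloLoc (q : Nat.Primes) :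
    ∃ V ∈ (localLevels q).levels, ∀ u ∈ V, cycloLoc p q u = 1 := by
  refine ⟨(Bridge.cycloLevel p).fixingSubgroup.comap (rl q),
    ⟨Bridge.cycloLevel p, Bridge.cycloLevel_finiteDimensional p, rfl⟩, fun u hu => ?_⟩
  exact Bridge.cycloChar_eq_one_of_mem_fixingSubgroup p (rl q u) hu

/-- **D-T2a.**  Local dévissage: A4 + A6 ⇒ local top duality for all finite-dimensional smooth
modules. -/
theorem topLocDev : TopLocDevSpec p S := by
  intro _ hNC hFI inv hA6 hA4 v N hNfd hNsm
  haveI := hNfd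
  refine topPair_bijective (L := localLevels v.1) (χ := cycloLoc p v.1) (inv := inv v)
    (hNC v.1) (hFI v.1) (exists_level_cycloLoc p v.1) ?_ ?_ N hNsm
  · intro W hW hWn hWχ
    refine hA6 v W hW hWn (fun s hs => ?_)
    apply LinearMap.ext
    intro c
    have h1 : (muLoc p v.1).ρ s c = ((cycloLoc p v.1 s : (ZMod p)ˣ) : ZMod p) * c :=
      ofChar_ρ_apply (cycloLoc p v.1) s c
    rw [h1, hWχ s hs, Units.val_one, one_mul]
    rfl
  · intro P N φ hφ hP hPsm hNsm hsurj
    exact hA4 v.1 v.2 P N φ hφ hP hPsm hNsm hsurj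

end Concrete

end Fermat.Agent.S55.PT.H299

end

end
-- ===== PACK-END S55/PT/T2aH299/Main.lean

-- ===== PACK-BEGIN S55/T/NakH837/Elements.lean
section


/-!
# S55, layer T, leaf T6 (helper837): element-level statements for the two-step connecting maps
-/

set_option autoImplicit false
set_option linter.unusedSectionVars false
set_option linter.style.haveILetI false

open CategoryTheory groupCohomology

namespace Fermat.Agent.S55.T.H837

open Fermat.Agent.S55.H572

noncomputable section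

variable {k G : Type} [CommRing k] [Group G] [Fintype G]

/-- Norms induce zero on cohomology in positive degrees. -/
theorem coeffMap_normHom_eq_zero {A B : Rep.{0} k G} (ψ : A.V →ₗ[k] B.V) (n : ℕ) :
    coeffMap (normHom ψ) (n + 1) = 0 := by
  rw [← coind₁ι_comp_normHom_ev ψ]
  have h := map_id_comp (coind₁ι A) (normHom (ψ ∘ₗ ev₁ A)) (n + 1)
  have h0 : coeffMap (coind₁ι A) (n + 1) = 0 :=
    (_root_.Fermat.Agent.S55.T.H837.isZero_groupCohomology_coind₁ A n).eq_of_tgt _ _
  change coeffMap (coind₁ι A ≫ normHom (ψ ∘ₗ ev₁ A)) (n + 1) = 0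
  have h' : coeffMap (coind₁ι A ≫ normHom (ψ ∘ₗ ev₁ A)) (n + 1) =
      coeffMap (coind₁ι A) (n + 1) ≫ coeffMap (normHom (ψ ∘ₗ ev₁ A)) (n + 1) := h
  rw [h', h0, Limits.zero_comp]

/-- The norm of an element is invariant. -/
lemma norm_mem_invariants (A : Rep.{0} k G) (y : A.V) :
    (∑ g : G, A.ρ g y) ∈ A.ρ.invariants := by
  intro h
  rw [map_sum]
  refine Fintype.sum_equiv (Equiv.mulLeft h) _ _ fun g => ?_
  change A.ρ h (A.ρ g y) = A.ρ (h * g) y
  rw [map_mul]
  rfl

/-- The image of an invariant under a morphism, as an invariant. -/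
def mapInv {A B : Rep.{0} k G} (f : A ⟶ B) (a : A.ρ.invariants) : B.ρ.invariants :=
  ⟨f.hom a.1, fun g => by rw [← Rep.hom_comm_apply, a.2 g]⟩

lemma coeffMap_zero_H0Iso_inv {A B : Rep.{0} k G} (f : A ⟶ B) (a : A.ρ.invariants) :
    (coeffMap f 0).hom ((H0Iso A).inv a) = (H0Iso B).inv (mapInv f a) := by
  have h := congrArg (fun m => m.hom ((H0Iso A).inv a)) (map_id_comp_H0Iso_hom f)
  have h1 : (H0Iso B).hom ((coeffMap f 0).hom ((H0Iso A).inv a)) =
      ((Rep.invariantsFunctor k G).map f).hom ((H0Iso A).hom ((H0Iso A).inv a)) := h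
  have h2 : (H0Iso A).hom ((H0Iso A).inv a) = a :=
    congrArg (fun m => m.hom a) (H0Iso A).inv_hom_id
  rw [h2] at h1
  have h3 : ((Rep.invariantsFunctor k G).map f).hom a = mapInv f a := rfl
  rw [h3] at h1
  rw [← h1]
  exact (congrArg (fun m => m.hom ((coeffMap f 0).hom ((H0Iso A).inv a)))
    (H0Iso B).hom_inv_id).symm

/-- The connecting map `H⁰(G, up A) → H¹(G, A)` kills norms. -/
lemma δUp₀_norm (A : Rep.{0} k G) (y : (up A).V) :
    (δUp₀ A).hom ((H0Iso (up A)).inv ⟨∑ g : G, (up A).ρ g y, norm_mem_invariants _ y⟩) = 0 := by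
  obtain ⟨z, hz⟩ := (Rep.epi_iff_surjective (upπ A)).1 inferInstance y
  have h1 : (⟨∑ g : G, (up A).ρ g y, norm_mem_invariants _ y⟩ : (up A).ρ.invariants) =
      mapInv (upπ A) ⟨∑ g : G, (coind₁ A).ρ g z, norm_mem_invariants _ z⟩ := by
    apply Subtype.ext
    change ∑ g : G, (up A).ρ g y = (upπ A).hom (∑ g : G, (coind₁ A).ρ g z)
    rw [map_sum, ← hz]
    refine Finset.sum_congr rfl fun g _ => ?_
    exact (Rep.hom_comm_apply (upπ A) g z).symm
  rw [h1, ← coeffMap_zero_H0Iso_inv]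
  exact congrArg (fun m => m.hom ((H0Iso (coind₁ A)).inv
    ⟨∑ g : G, (coind₁ A).ρ g z, norm_mem_invariants _ z⟩)) (map_upπ_comp_δUp₀ A)

/-- The two-step connecting map kills norms. -/
lemma ddUp_norm (R : Rep.{0} k G) (y : (up (up R)).V) :
    (ddUp R).hom ((H0Iso (up (up R))).inv
      ⟨∑ g : G, (up (up R)).ρ g y, norm_mem_invariants _ y⟩) = 0 := by
  change (δUp₁ R).hom ((δUp₀ (up R)).hom _) = 0
  rw [δUp₀_norm, map_zero]

section rows

variable {C X I P T : Rep.{0} k G} {i : C ⟶ X} {π : X ⟶ I} {j : I ⟶ P} {ε : P ⟶ T}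
  {w₁ : i ≫ π = 0} {w₂ : j ≫ ε = 0}
  (hA : (ShortComplex.mk i π w₁).ShortExact) (hB : (ShortComplex.mk j ε w₂).ShortExact)

/-- Element form of `ddUp_comp_map`. -/
theorem coeffMap_ddUp {R : Rep.{0} k G} (f : R ⟶ C) (t₂ : coind₁ R ⟶ X) (h : up R ⟶ I)
    (t₂' : coind₁ (up R) ⟶ P) (e : up (up R) ⟶ T)
    (c1 : f ≫ i = coind₁ι R ≫ t₂) (c2 : t₂ ≫ π = upπ R ≫ h)
    (c3 : h ≫ j = coind₁ι (up R) ≫ t₂') (c4 : t₂' ≫ ε = upπ (up R) ≫ e)
    (r : (up (up R)).ρ.invariants) :
    (coeffMap f 2).hom ((ddUp R).hom ((H0Iso _).inv r)) =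
      (ddRow hA hB).hom ((H0Iso T).inv (mapInv e r)) := by
  have h1 := congrArg (fun m => m.hom ((H0Iso (up (up R))).inv r))
    (ddUp_comp_map hA hB f t₂ h t₂' e c1 c2 c3 c4)
  have h2 : (coeffMap f 2).hom ((ddUp R).hom ((H0Iso _).inv r)) =
      (ddRow hA hB).hom ((coeffMap e 0).hom ((H0Iso _).inv r)) := h1
  rw [h2, coeffMap_zero_H0Iso_inv]

/-- If `ddRow` kills the class of an invariant `t` and invariants of `P` are norms, then
`t` is `|G|` times an element in the image of `ε`. -/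
lemma exists_card_smul_of_ddRow_eq_zero (hX1 : Limits.IsZero (groupCohomology X 1))
    (hP : IsCohTriv P) (hT : ∀ (g : G) (t : T.V), T.ρ g t = t)
    (t : T.ρ.invariants) (ht : (ddRow hA hB).hom ((H0Iso T).inv t) = 0) :
    ∃ s : T.V, t.1 = Fintype.card G • s := by
  obtain ⟨p, hp, hpt⟩ := exists_of_ddRow_eq_zero hA hB hX1 t ht
  obtain ⟨q, hq⟩ := exists_norm_of_isCohTriv hP p hp
  refine ⟨ε.hom q, ?_⟩
  rw [← hpt, ← hq, map_sum]
  have : ∀ g : G, ε.hom (P.ρ g q) = ε.hom q := fun g => by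
    rw [Rep.hom_comm_apply, hT]
  rw [Finset.sum_congr rfl fun g _ => this g]
  simp

end rows

end

end Fermat.Agent.S55.T.H837

end
-- ===== PACK-END S55/T/NakH837/Elements.lean

-- ===== PACK-BEGIN S55/ColH543/GlobalK.lean
section





/-!
# S55 / colimit dictionary (helper543), part 6: the inputs GO1, GO2 and the reduction
# `H3IndMuSpec` of layer K in FINITE-LEVEL form

`gN S` = the normal levels `G_F` (`F/ℚ` finite Galois, unramified outside `S`) of `G_ℚ`.
For a level `V = G_K`:  `(gN S).restrict V` = the levels `G_F ∩ V` of `V`, and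
`KL.HL (Rep.res V.subtype A) (U.subgroupOf V) n = Hⁿ(V ⧸ (U ∩ V), A^{U ∩ V})` is Mathlib group
cohomology of the finite group `Gal(F/K)` (for `F ⊇ K`) with coefficients in `A^{G_F}`.

* `h2DivE_iff`  : `K.H2DivESpec p S`  ↔ `colim_F H²(Gal(F/K), 𝔼^{G_F}) ⊗ ℤ/p = 0` for all `K`;
* `h3TorsE_iff` : `K.H3TorsESpec p S` ↔ `colim_F H³(Gal(F/K), 𝔼^{G_F})[p] = 0` for all `K`;
* `h3IndMu_iff` : `K.H3IndMuSpec p S` ↔ `colim_F H³(Gal(F/K), μ_p^{G_F}) = 0` for all `K`.
-/

set_option autoImplicit false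
set_option linter.style.haveILetI false

noncomputable section

open groupCohomology CategoryTheory

namespace Fermat.Agent.S55.ColH543

open Fermat.Agent.S55.PT Fermat.Agent.S55.KL Fermat.Agent.S55.Bridge

lemma globalLevels_normalCofinal (S : Finset Nat.Primes) : (globalLevels S).NormalCofinal :=
  globalLevels_normal_cofinal724 S

lemma globalLevels_finiteIndex (S : Finset Nat.Primes) : (globalLevels S).FiniteIndex :=
  Fermat.Agent.S55.PT.H424.globalFiniteIndex S

lemma localLevels_normalCofinal (q : Nat.Primes) : (localLevels q).NormalCofinal :=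
  pullbackLevels_normal_cofinal724 (rl q)

lemma localLevels_finiteIndex (q : Nat.Primes) : (localLevels q).FiniteIndex :=
  Fermat.Agent.S55.PT.H424.pullbackLevels_finiteIndex (rl q)

/-- The normal levels of `G_ℚ` (for `S`). -/
def gN (S : Finset Nat.Primes) : NLevels _root_.Fermat.Agent.S55.PT.GQ :=
  nLevels (globalLevels S) (globalLevels_normalCofinal S) (globalLevels_finiteIndex S)

/-- The normal levels of the local group at `q`. -/
def lN (q : Nat.Primes) : NLevels (Gl q) :=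
  nLevels (localLevels q) (localLevels_normalCofinal q) (localLevels_finiteIndex q)

variable (p : ℕ) [Fact p.Prime] (S : Finset Nat.Primes)

/-- **GO1 in finite-level form.** -/
theorem h2DivE_iff :
    K.H2DivESpec p S ↔
      (p ≠ 2 → ExtCitation.pPrime p ∈ S → ∀ V ∈ (globalLevels S).levels,
        EffDiv ((gN S).restrict V) (Rep.res V.subtype (K.sUnits S)) p 2) := by
  constructor
  · intro H hp hpS V hV
    obtain ⟨V₀, hV₀, hV₀V, hV₀n⟩ := globalLevels_normalCofinal S V hV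
    exact (h2Divisible_indG_iff (globalLevels_normalCofinal S) (globalLevels_finiteIndex S)
      (K.sUnits S) V hV₀ hV₀n hV₀V p).1 (H hp hpS V hV)
  · intro H hp hpS V hV
    obtain ⟨V₀, hV₀, hV₀V, hV₀n⟩ := globalLevels_normalCofinal S V hV
    exact (h2Divisible_indG_iff (globalLevels_normalCofinal S) (globalLevels_finiteIndex S)
      (K.sUnits S) V hV₀ hV₀n hV₀V p).2 (H hp hpS V hV)

/-- **GO2 in finite-level form.** -/
theorem h3TorsE_iff :
    K.H3TorsESpec p S ↔
      (p ≠ 2 → ExtCitation.pPrime p ∈ S → ∀ V ∈ (globalLevels S).levels,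
        EffTors ((gN S).restrict V) (Rep.res V.subtype (K.sUnits S)) p 3) := by
  constructor
  · intro H hp hpS V hV
    obtain ⟨V₀, hV₀, hV₀V, hV₀n⟩ := globalLevels_normalCofinal S V hV
    exact (h3TorsVanish_indG_iff (globalLevels_normalCofinal S) (globalLevels_finiteIndex S)
      (K.sUnits S) V hV₀ hV₀n hV₀V p).1 (H hp hpS V hV)
  · intro H hp hpS V hV
    obtain ⟨V₀, hV₀, hV₀V, hV₀n⟩ := globalLevels_normalCofinal S V hV
    exact (h3TorsVanish_indG_iff (globalLevels_normalCofinal S) (globalLevels_finiteIndex S)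
      (K.sUnits S) V hV₀ hV₀n hV₀V p).2 (H hp hpS V hV)

/-- **`H³_S(Ind_V μ_p) = 0` in finite-level form.** -/
theorem h3IndMu_iff :
    K.H3IndMuSpec p S ↔
      (p ≠ 2 → ExtCitation.pPrime p ∈ S → ∀ V ∈ (globalLevels S).levels,
        EffAll ((gN S).restrict V) (Rep.res V.subtype (muP p)) 3) := by
  constructor
  · intro H hp hpS V hV
    obtain ⟨V₀, hV₀, hV₀V, hV₀n⟩ := globalLevels_normalCofinal S V hV
    exact (h3Vanish_indG_iff (globalLevels_normalCofinal S) (globalLevels_finiteIndex S)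
      (muP p) V hV₀ hV₀n hV₀V).1 (H hp hpS V hV)
  · intro H hp hpS V hV
    obtain ⟨V₀, hV₀, hV₀V, hV₀n⟩ := globalLevels_normalCofinal S V hV
    exact (h3Vanish_indG_iff (globalLevels_normalCofinal S) (globalLevels_finiteIndex S)
      (muP p) V hV₀ hV₀n hV₀V).2 (H hp hpS V hV)

/-- **`H³_S(R) = 0` for finite `R` in finite-level form** (`cd_p(G_S) ≤ 2`). -/
theorem h3Fin_iff :
    K.H3FinSpec p S ↔
      (p ≠ 2 → ExtCitation.pPrime p ∈ S → ∀ R : Rep.{0, 0, 0} (ZMod p) _root_.Fermat.Agent.S55.PT.GQ,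
        FiniteDimensional (ZMod p) R → (globalLevels S).IsUSmooth R → EffAll (gN S) R 3) := by
  constructor
  · intro H hp hpS R hR hs
    exact (h3Vanish_iff (globalLevels_normalCofinal S) (globalLevels_finiteIndex S) R).1
      (H hp hpS R hR hs)
  · intro H hp hpS R hR hs
    exact (h3Vanish_iff (globalLevels_normalCofinal S) (globalLevels_finiteIndex S) R).2
      (H hp hpS R hR hs)

end Fermat.Agent.S55.ColH543

end

end
-- ===== PACK-END S55/ColH543/GlobalK.lean

-- ===== PACK-BEGIN S55/GAD/Gd5bH604.lean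
section
/-
S55 / G-ADAPTER, leaf **GD5b** (helper604): for the concrete tower datum `GAD.datum S p`,
`C(F) / im J(F)` is torsion (it is the `S`-class group of `F`, a finite group).

* `isTorsModLocal : (datum S p).IsTorsModLocal`     (unconditional);
* `isGoodMu_of`   : the 7 leaf specs of `GAD/Spec.lean` ⇒ `(datum S p).IsGoodMu p`;
* `isGoodFin_of`, `globalSpecFin_of` : the 7 leaf specs ⇒ `Tow.GlobalSpecFin S p`
  (the FINAL target of layer G, `Spec/Datum3.lean`).

Input: finiteness of the `S`-class group in the form `G.ClsH604.ordHom_range_index_ne_zero`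
(`div(Fˣ)` has finite index in `Div^S(F)`).  No `sorry`.
-/




set_option autoImplicit false

open CategoryTheory

namespace Fermat.Agent.S55.GAD.H604

open Fermat.Agent.S55 Fermat.Agent.S55.Tow Fermat.Agent.S55.E1.H594 Fermat.Agent.S55.G
  Fermat.Agent.S55.GAD

noncomputable section

variable (S : Finset Nat.Primes) (p : ℕ)

lemma toField_surjective (L : Level S) : Function.Surjective (toField L) := by
  intro u
  refine ⟨(levelUnitsIso L).hom.hom u, ?_⟩
  exact Rep.inv_hom_apply _ _ (levelUnitsIso L) u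

/-- Every divisor outside `S` has a nonzero multiple which is principal. -/
lemma exists_nsmul_eq_divT (L : Level S) (d : PrimeOut S L.F →₀ ℤ) :
    ∃ m : ℕ, 0 < m ∧ ∃ e : L.units.V, divT L e = m • d := by
  have hm : (ordHom S L.F).range.index ≠ 0 := ClsH604.ordHom_range_index_ne_zero S L.F
  refine ⟨(ordHom S L.F).range.index, Nat.pos_of_ne_zero hm, ?_⟩
  have hmem : (ordHom S L.F).range.index • d ∈ (ordHom S L.F).range :=
    AddSubgroup.nsmul_index_mem _ d
  obtain ⟨u, hu⟩ := hmem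
  obtain ⟨e, rfl⟩ := toField_surjective S L u
  exact ⟨e, hu⟩

/-- **GD5b** for the concrete datum: every class has a nonzero multiple in the image of
`J(F) = ∏_{q ∈ S} J_q(F)`. -/
theorem isTorsModLocal : (datum S p).IsTorsModLocal := by
  intro L c
  obtain ⟨⟨x, d⟩, rfl⟩ := mkC_surjective L c
  obtain ⟨m, hm, e, he⟩ := exists_nsmul_eq_divT S L d
  refine ⟨m, hm, (isLocalSum_iff (p := p) L _).2
    ⟨fun q => m • x q - (L.diag q.1).hom e, ?_⟩⟩
  show m • mkC L (x, d) = _
  rw [← map_nsmul]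
  have h1 : (m • ((x, d) : JDV L) : JDV L) =
      ((fun q => m • x q - (L.diag q.1).hom e, 0) : JDV L) + diagT L e := by
    refine Prod.ext (funext fun q => ?_) ?_
    · show m • x q = (m • x q - (L.diag q.1).hom e) + (L.diag q.1).hom e
      abel
    · show m • d = 0 + divT L e
      rw [zero_add, he]
  rw [h1, map_add, mkC_diagT, add_zero]

variable {S p}

/-- The leaf specs of `GAD/Spec.lean` make the concrete datum good above `μ_p`. -/
theorem isGoodMu_of (hSU : SUnitDictSpec S) (hTr : DivTrTransSpec S)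
    (hCap : CapitulationSpec S p) (hEx : ExistenceSpec S p) (hCM : ClassModuleSpec S p)
    (hJ : JInjSpec S p) (hInf : InfInjSpec S p) : (datum S p).IsGoodMu p :=
  { gd1 := fun L hL => gammaT_spec S p L (hCM L hL)
    gd3 := fun L hL q hq y hy h0 => hJ L hL q hq y hy h0
    gd4 := fun L x => gd4_of hSU L x
    gd5 := fun L c a hc => gd5_of hCap L c a hc
    gd6 := fun L₀ hL₀ => hEx L₀ hL₀
    gd7a := fun h q hq x => gd7a p h q hq x
    gd7b := fun h h' c => gd7b_of hTr p h h' c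
    gd8 := fun h hL z hz h0 => hInf h hL z hz h0 }

/-- The leaf specs of `GAD/Spec.lean` make the concrete datum good in the final sense. -/
theorem isGoodFin_of (hSU : SUnitDictSpec S) (hTr : DivTrTransSpec S)
    (hCap : CapitulationSpec S p) (hEx : ExistenceSpec S p) (hCM : ClassModuleSpec S p)
    (hJ : JInjSpec S p) (hInf : InfInjSpec S p) : (datum S p).IsGoodFin p :=
  ⟨isGoodMu_of hSU hTr hCap hEx hCM hJ hInf, isTorsModLocal S p⟩

/-- **ASSEMBLY, final form.**  The leaf specs imply `Tow.GlobalSpecFin S p`. -/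
theorem globalSpecFin_of (hSU : SUnitDictSpec S) (hTr : DivTrTransSpec S)
    (hCap : CapitulationSpec S p) (hEx : ExistenceSpec S p) (hCM : ClassModuleSpec S p)
    (hJ : JInjSpec S p) (hInf : InfInjSpec S p) : GlobalSpecFin S p :=
  ⟨datum S p, isGoodFin_of hSU hTr hCap hEx hCM hJ hInf⟩

end

end Fermat.Agent.S55.GAD.H604

end
-- ===== PACK-END S55/GAD/Gd5bH604.lean

-- ===== PACK-BEGIN S55/G/Rec/Tow/H417/Basic.lean
section
/-
S55 / REC2-TOW (helper417): functoriality lemmas for `h2Top`, `h2Sub` and `p`-primary elements.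
-/


set_option autoImplicit false

open CategoryTheory groupCohomology

namespace Fermat.Agent.S55.G.Rec.TOW.H417

open Fermat.Agent.S55

variable {Γ : Type} [Group Γ]

lemma h2Top_comp {A B C : Rep.{0} ℤ Γ} (f : A ⟶ B) (g : B ⟶ C) (x : groupCohomology A 2) :
    h2Top (f ≫ g) x = h2Top g (h2Top f x) := by
  change (T.coeffMap (f ≫ g) 2).hom x = (T.coeffMap g 2).hom ((T.coeffMap f 2).hom x)
  have h : T.coeffMap (f ≫ g) 2 = T.coeffMap f 2 ≫ T.coeffMap g 2 :=
    groupCohomology.map_id_comp f g 2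
  rw [h]
  rfl

lemma h2Top_id (A : Rep.{0} ℤ Γ) (x : groupCohomology A 2) : h2Top (𝟙 A) x = x := by
  change (T.coeffMap (𝟙 A) 2).hom x = x
  have h : T.coeffMap (𝟙 A) 2 = 𝟙 _ := groupCohomology.map_id (B := A) (n := 2)
  rw [h]
  rfl

lemma h2Top_zero (A B : Rep.{0} ℤ Γ) (x : groupCohomology A 2) :
    h2Top (0 : A ⟶ B) x = 0 := by
  change ((groupCohomology.functor ℤ Γ 2).map (0 : A ⟶ B)).hom x = 0
  rw [CategoryTheory.Functor.map_zero]
  rfl

lemma h2Sub_comp {A B C : Rep.{0} ℤ Γ} (f : A ⟶ B) (g : B ⟶ C) (H : Subgroup Γ)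
    (x : groupCohomology (T.resSub A H) 2) :
    h2Sub (f ≫ g) H x = h2Sub g H (h2Sub f H x) := by
  change h2Top ((Rep.resFunctor H.subtype).map (f ≫ g)) x = _
  rw [CategoryTheory.Functor.map_comp, h2Top_comp]

lemma h2Sub_id (A : Rep.{0} ℤ Γ) (H : Subgroup Γ) (x : groupCohomology (T.resSub A H) 2) :
    h2Sub (𝟙 A) H x = x := by
  change h2Top ((Rep.resFunctor H.subtype).map (𝟙 A)) x = _
  rw [CategoryTheory.Functor.map_id]
  exact h2Top_id _ x

lemma h2Sub_zero (A B : Rep.{0} ℤ Γ) (H : Subgroup Γ) (x : groupCohomology (T.resSub A H) 2) :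
    h2Sub (0 : A ⟶ B) H x = 0 := by
  change h2Top ((Rep.resFunctor H.subtype).map (0 : A ⟶ B)) x = _
  have : (Rep.resFunctor H.subtype).map (0 : A ⟶ B) = 0 := rfl
  rw [this]
  exact h2Top_zero _ _ x

lemma isPPrimary_map {p : ℕ} {X Y : Type} [AddCommGroup X] [AddCommGroup Y] (f : X →+ Y) {x : X}
    (hx : E1.IsPPrimary p x) : E1.IsPPrimary p (f x) := by
  obtain ⟨k, hk⟩ := hx
  exact ⟨k, by rw [← map_nsmul, hk, map_zero]⟩

lemma isPPrimary_nsmul {p : ℕ} {X : Type} [AddCommGroup X] {x : X} (n : ℕ)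
    (hx : E1.IsPPrimary p x) : E1.IsPPrimary p (n • x) := by
  obtain ⟨k, hk⟩ := hx
  exact ⟨k, by rw [smul_comm, hk, smul_zero]⟩

lemma isPPrimary_of_card_pow {p : ℕ} {X : Type} [AddCommGroup X] {x : X} (k : ℕ)
    (hx : p ^ k • x = 0) : E1.IsPPrimary p x := ⟨k, hx⟩

end Fermat.Agent.S55.G.Rec.TOW.H417

end
-- ===== PACK-END S55/G/Rec/Tow/H417/Basic.lean

-- ===== PACK-BEGIN S55/G/Rec/Tow/H371/ClassModuleOfSylow.lean
section



/-!
# S55 / layer G / block REC / adapter TOW, leaf ALG-CM (helper371): `ClassModuleOfSylowSpec`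

If `H¹(H, C) = 0` and `|H²(H, C)| ∣ |H|` for all `p`-subgroups `H ≤ Γ`, and `res_P γ` has order
at least `|P|` for ONE `p`-subgroup `P` of index prime to `p`, then `(C, γ)` is a class module
at `p`.

Proof.  Let `H` be a `p`-subgroup and `n • res_H γ = 0`.  Then `[Γ : H] n γ = 0`
(`T.ResIndexSpec`), hence `[Γ : H] n • res_P γ = 0` and `|P| ∣ [Γ : H] n`.  Multiplying by `|H|`
and using `|H| [Γ : H] = |Γ| = |P| [Γ : P]` gives `|H| ∣ [Γ : P] n`, so `|H| ∣ n` (`|H|` is a
power of `p`, `p ∤ [Γ : P]`).  So `res_H γ` has order `≥ |H| ≥ |H²(H, C)|`: it generates.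
-/

set_option autoImplicit false

open CategoryTheory groupCohomology

noncomputable section

namespace Fermat.Agent.S55.G.Rec.TOW.H371

open Fermat.Agent.S55

/-- In a finite abelian group whose order divides `m`, an element whose order is a multiple of
`m` generates, and the group has order `m`. -/
theorem card_eq_and_generates {M : Type} [AddCommGroup M] [Finite M] (m : ℕ) (g : M)
    (hcard : Nat.card M ∣ m) (hg : ∀ n : ℕ, n • g = 0 → m ∣ n) :
    Nat.card M = m ∧ ∀ x : M, ∃ n : ℕ, x = n • g := by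
  have h1 : addOrderOf g ∣ Nat.card M := addOrderOf_dvd_natCard g
  have h2 : m ∣ addOrderOf g := hg _ (addOrderOf_nsmul_eq_zero g)
  have h3 : Nat.card M = m := Nat.dvd_antisymm hcard (h2.trans h1)
  have h4 : addOrderOf g = Nat.card M := Nat.dvd_antisymm h1 (h3 ▸ h2)
  refine ⟨h3, fun x => ?_⟩
  have htop : AddSubgroup.zmultiples g = ⊤ := by
    apply AddSubgroup.eq_top_of_card_eq
    rw [Nat.card_zmultiples, h4]
  have hx : x ∈ AddSubgroup.zmultiples g := htop ▸ AddSubgroup.mem_top x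
  rw [← mem_multiples_iff_mem_zmultiples] at hx
  obtain ⟨n, hn⟩ := hx
  exact ⟨n, hn.symm⟩

/-- **ALG-CM.** -/
theorem classModuleOfSylow : ClassModuleOfSylowSpec := by
  intro p hp Γ _ _ C γ P hP hidx hup hord H hH
  haveI : Fact p.Prime := ⟨hp⟩
  obtain ⟨h1, hfin, hcard⟩ := hup H hH
  refine ⟨h1, ?_⟩
  haveI : Finite (groupCohomology (T.resSub C H) 2) := hfin
  -- the order of `res_H γ` is a multiple of `|H|`
  have key : ∀ n : ℕ, n • res2 C H γ = 0 → Nat.card H ∣ n := by
    intro n hn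
    have e1 : (T.resMap C H 2).hom (n • γ) = 0 := by
      rw [map_nsmul]
      exact hn
    have e2 : H.index • (n • γ) = 0 := T.H572.resIndex ℤ Γ C H 2 (by norm_num) (n • γ) e1
    have e3 : (H.index * n) • res2 C P γ = 0 := by
      rw [← map_nsmul, mul_smul, e2, map_zero]
    have e4 : Nat.card P ∣ H.index * n := hord _ e3
    have e5 : Nat.card H * Nat.card P ∣ Nat.card P * (P.index * n) := by
      have : Nat.card P * (P.index * n) = Nat.card H * (H.index * n) := by
        rw [← mul_assoc, ← mul_assoc, Subgroup.card_mul_index, Subgroup.card_mul_index]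
      rw [this]
      exact Nat.mul_dvd_mul_left _ e4
    have hPpos : 0 < Nat.card P := Nat.card_pos
    have e6 : Nat.card H ∣ P.index * n := by
      rw [mul_comm (Nat.card H)] at e5
      exact (Nat.mul_dvd_mul_iff_left hPpos).1 e5
    obtain ⟨a, ha⟩ := hH.exists_card_eq
    have hcop : Nat.Coprime (Nat.card H) P.index := by
      rw [ha]
      exact Nat.Coprime.pow_left _ ((Nat.Prime.coprime_iff_not_dvd hp).2 hidx)
    exact hcop.dvd_of_dvd_mul_left e6
  exact card_eq_and_generates (Nat.card H) (res2 C H γ) hcard key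

end Fermat.Agent.S55.G.Rec.TOW.H371

end
end
-- ===== PACK-END S55/G/Rec/Tow/H371/ClassModuleOfSylow.lean

-- ===== PACK-BEGIN S56/Euler/H726/Sha2.lean
section



/-!
# S56 / W-BASE / Euler characteristic, leaf EUL-SHA2 (helper726): final forms

`U` a normal `S`-level of `G_ℚ` acting trivially on `μ_p`, `M` a finite-dimensional
`F_p`-representation of `G_ℚ` on which `U` acts trivially (e.g. `M = μ_p`).

* `exists_sha1_tdual_ind_eq_bot` (UNCONDITIONAL): there is a finite `S′ ⊇ S` with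
  `Ш¹_T((Ind_U M)′) = 0` for every finite `T ⊇ S′`;
* `exists_sha2_ind_eq_bot`: hence `Ш²_T(Ind_U M) = 0` for every `T ⊇ S′`, given Theorem D
  (= frozen S55 in PT vocabulary, `PT.TheoremDSpec p T`) for the sets `T ⊇ S`;
* `exists_sha2_indMu_eq_bot`: the case `M = μ_p` (EUL-SHA2 of `coord/S56-EULER-helper366.md`).
-/

set_option autoImplicit false
set_option linter.style.haveILetI false

noncomputable section

namespace Fermat.Agent.S56.Euler.H726

open Fermat.Agent.S55.PT groupCohomology ExtCitation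
open scoped Pointwise

variable (p : ℕ) [Fact p.Prime] (S : Finset Nat.Primes)

/-- the cyclotomic character is trivial on a subgroup acting trivially on `μ_p` -/
lemma cycloChar_eq_one_of_mu {s : _root_.Fermat.Agent.S55.PT.GQ} (h : (mu p).ρ s = 1) : ((cycloChar p s : (ZMod p)ˣ) : ZMod p) = 1 := by
  have h1 : (mu p).ρ s (1 : ZMod p) = (1 : ZMod p) := by rw [h]; rfl
  rw [ofChar_ρ_apply, mul_one] at h1
  exact h1

/-- a normal subgroup acting trivially on `M` and on `μ_p` acts trivially on `(Ind_U M)′` -/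
lemma tdual_ind_trivial (U : Subgroup _root_.Fermat.Agent.S55.PT.GQ) (hUn : U.Normal) (M : Rep.{0, 0, 0} (ZMod p) _root_.Fermat.Agent.S55.PT.GQ)
    (hM : ∀ s ∈ U, M.ρ s = 1) (hχ : ∀ s ∈ U, (mu p).ρ s = 1) (s : _root_.Fermat.Agent.S55.PT.GQ) (hs : s ∈ U)
    (n : tdual p (indRep U M)) : (tdual p (indRep U M)).ρ s n = n := by
  rw [Rep.dualTwist_ρ_apply, cycloChar_eq_one_of_mu p (hχ s hs), one_smul]
  have hact : (indRep U M).ρ s⁻¹ = LinearMap.id := by
    apply Finsupp.lhom_ext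
    intro x m
    have h1 : (indRep U M).ρ s⁻¹ (Finsupp.single x m : (_root_.Fermat.Agent.S55.PT.GQ ⧸ U) →₀ M) =
        (Finsupp.single (s⁻¹ • x) (M.ρ s⁻¹ m) : (_root_.Fermat.Agent.S55.PT.GQ ⧸ U) →₀ M) := indRep_ρ_single U M s⁻¹ x m
    have h2 : s⁻¹ • x = x := by
      obtain ⟨g, rfl⟩ := QuotientGroup.mk_surjective x
      show ((s⁻¹ * g : _root_.Fermat.Agent.S55.PT.GQ) : _root_.Fermat.Agent.S55.PT.GQ ⧸ U) = (g : _root_.Fermat.Agent.S55.PT.GQ ⧸ U)
      rw [QuotientGroup.eq]
      have : (s⁻¹ * g)⁻¹ * g = g⁻¹ * s * g := by group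
      rw [this]
      have := hUn.conj_mem s hs g⁻¹
      rwa [inv_inv] at this
    have h3 : M.ρ s⁻¹ m = m := by rw [hM s⁻¹ (U.inv_mem hs)]; rfl
    rw [h1, h2, h3]
    rfl
  rw [hact]
  rfl

/-- **EUL-SHA2, `Ш¹` form** (unconditional). -/
theorem exists_sha1_tdual_ind_eq_bot (U : Subgroup _root_.Fermat.Agent.S55.PT.GQ) (hU : U ∈ (globalLevels S).levels)
    (hUn : U.Normal) (M : Rep.{0, 0, 0} (ZMod p) _root_.Fermat.Agent.S55.PT.GQ) [FiniteDimensional (ZMod p) M]
    (hM : ∀ s ∈ U, M.ρ s = 1) (hχ : ∀ s ∈ U, (mu p).ρ s = 1) :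
    ∃ S' : Finset Nat.Primes, S ⊆ S' ∧
      ∀ T : Finset Nat.Primes, S' ⊆ T → Sha1 (hrl T) (tdual p (indRep U M)) = ⊥ := by
  obtain ⟨F, hF, rfl⟩ := hU
  haveI := hF.1
  haveI : Finite (_root_.Fermat.Agent.S55.PT.GQ ⧸ F.fixingSubgroup) :=
    Fermat.Agent.S55.H901.finite_quotient_fixingSubgroup F
  haveI : FiniteDimensional (ZMod p) ((_root_.Fermat.Agent.S55.PT.GQ ⧸ F.fixingSubgroup) →₀ M) := inferInstance
  haveI : FiniteDimensional (ZMod p) (tdual p (indRep F.fixingSubgroup M)) :=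
    inferInstanceAs (FiniteDimensional (ZMod p)
      (Module.Dual (ZMod p) ((_root_.Fermat.Agent.S55.PT.GQ ⧸ F.fixingSubgroup) →₀ M)))
  exact exists_sha1_eq_bot p S (tdual p (indRep F.fixingSubgroup M)) F hF
    (tdual_ind_trivial p F.fixingSubgroup hUn M hM hχ)
    (fun c hc hcU => mem_B1_dualTwist_ind F.fixingSubgroup M (cycloChar p) c hc hcU)

/-- **EUL-SHA2, `Ш²` form**: from Theorem D for the sets `T ⊇ S`. -/
theorem exists_sha2_ind_eq_bot (hD : ∀ T : Finset Nat.Primes, S ⊆ T → TheoremDSpec p T)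
    (U : Subgroup _root_.Fermat.Agent.S55.PT.GQ) (hU : U ∈ (globalLevels S).levels)
    (hUn : U.Normal) (M : Rep.{0, 0, 0} (ZMod p) _root_.Fermat.Agent.S55.PT.GQ) [FiniteDimensional (ZMod p) M]
    (hM : ∀ s ∈ U, M.ρ s = 1) (hχ : ∀ s ∈ U, (mu p).ρ s = 1) :
    ∃ S' : Finset Nat.Primes, S ⊆ S' ∧
      ∀ T : Finset Nat.Primes, S' ⊆ T → Sha2 (hrl T) (indRep U M) = ⊥ := by
  obtain ⟨S', hSS', h⟩ := exists_sha1_tdual_ind_eq_bot p S U hU hUn M hM hχ
  refine ⟨S', hSS', fun T hT => ?_⟩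
  obtain ⟨F, hF, rfl⟩ := hU
  haveI := hF.1
  haveI : Finite (_root_.Fermat.Agent.S55.PT.GQ ⧸ F.fixingSubgroup) :=
    Fermat.Agent.S55.H901.finite_quotient_fixingSubgroup F
  have hfd : FiniteDimensional (ZMod p) (indRep F.fixingSubgroup M) :=
    inferInstanceAs (FiniteDimensional (ZMod p) ((_root_.Fermat.Agent.S55.PT.GQ ⧸ F.fixingSubgroup) →₀ M))
  have hsm : (globalLevels T).IsUSmooth (indRep F.fixingSubgroup M) := by
    refine ⟨F.fixingSubgroup, ⟨F, hF.mono (hSS'.trans hT), rfl⟩, fun s hs a => ?_⟩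
    have hact : (indRep F.fixingSubgroup M).ρ s = LinearMap.id := by
      apply Finsupp.lhom_ext
      intro x m
      have h1 : (indRep F.fixingSubgroup M).ρ s
          (Finsupp.single x m : (_root_.Fermat.Agent.S55.PT.GQ ⧸ F.fixingSubgroup) →₀ M) =
          (Finsupp.single (s • x) (M.ρ s m) : (_root_.Fermat.Agent.S55.PT.GQ ⧸ F.fixingSubgroup) →₀ M) :=
        indRep_ρ_single F.fixingSubgroup M s x m
      have h2 : s • x = x := by
        obtain ⟨g, rfl⟩ := QuotientGroup.mk_surjective x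
        show ((s * g : _root_.Fermat.Agent.S55.PT.GQ) : _root_.Fermat.Agent.S55.PT.GQ ⧸ F.fixingSubgroup) = (g : _root_.Fermat.Agent.S55.PT.GQ ⧸ F.fixingSubgroup)
        rw [QuotientGroup.eq]
        have : (s * g)⁻¹ * g = g⁻¹ * s⁻¹ * g := by group
        rw [this]
        have := hUn.conj_mem s⁻¹ (F.fixingSubgroup.inv_mem hs) g⁻¹
        rwa [inv_inv] at this
      have h3 : M.ρ s m = m := by rw [hM s hs]; rfl
      rw [h1, h2, h3]
      rfl
    rw [hact]
    rfl
  obtain ⟨e⟩ := hD T (hSS'.trans hT) (indRep F.fixingSubgroup M) hfd hsm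
  rw [eq_bot_iff]
  intro x hx
  have h0 : e ⟨x, hx⟩ = 0 := by
    apply LinearMap.ext
    intro y
    have hy : y = 0 := by
      have : (y : (globalLevels T).H1 (tdual p (indRep F.fixingSubgroup M))) ∈
          (⊥ : Submodule (ZMod p) _) := by
        rw [← h T hT]
        exact y.2
      exact Subtype.ext ((Submodule.mem_bot _).1 this)
    rw [hy, map_zero, map_zero]
  have h1 : (⟨x, hx⟩ : ↥(Sha2 (hrl T) (indRep F.fixingSubgroup M))) = 0 :=
    e.injective (by rw [h0, map_zero])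
  exact (Submodule.mem_bot _).2 (congrArg Subtype.val h1)

/-- **EUL-SHA2** for `Ind_U μ_p`. -/
theorem exists_sha2_indMu_eq_bot (hD : ∀ T : Finset Nat.Primes, S ⊆ T → TheoremDSpec p T)
    (U : Subgroup _root_.Fermat.Agent.S55.PT.GQ) (hU : U ∈ (globalLevels S).levels)
    (hUn : U.Normal) (hχ : ∀ s ∈ U, (mu p).ρ s = 1) :
    ∃ S' : Finset Nat.Primes, S ⊆ S' ∧
      ∀ T : Finset Nat.Primes, S' ⊆ T → Sha2 (hrl T) (indRep U (mu p)) = ⊥ :=
  exists_sha2_ind_eq_bot p S hD U hU hUn (mu p) hχ hχ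

end Fermat.Agent.S56.Euler.H726

end

end
-- ===== PACK-END S56/Euler/H726/Sha2.lean

-- ===== PACK-BEGIN S56/Br/H374/BridgeBase.lean
section








/-!
# Row S56 / wall BASE — BRIDGE-BASE: `Euler.BridgeBaseSpec`                     (helper374)

    theorem bridgeBase : Euler.BridgeBaseSpec

The dictionary between the plain-function language of `H716.Base` and the S55 `PT` vocabulary
for `N = ad⁰ρ̄(1)` as an `F_p`-representation (`adTwFp ρbar p`), `d = [k : F_p]`
(`fpDeg k p`), `S₀ = Smin`, `Pl = stdPl`: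

* INV0 (`H666.Inv0`), ODD (`H596.Odd`);
* B1, B3, B4 (`Br/H374/{Ad,Tw,Frames}`), B2 (`Br/H374/TrForm`), B5 (`Br/H374/Fp`);
* finiteness of `H¹_S` (`S55.PT.H593.finGlob`).
-/

set_option autoImplicit false
set_option linter.style.haveILetI false
set_option linter.unusedSectionVars false

noncomputable section

namespace Fermat.Agent.S56.Br

open Fermat.Agent.S56 Fermat.Agent.S56.H716 Fermat.Agent.S55.PT groupCohomology ExtCitation

section General

variable {k : Type} [Field k] (ρbar : ResidualGaloisRep k) (p : ℕ) [Fact p.Prime] [CharP k p]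

instance instFiniteAdTw : Module.Finite k (adTw ρbar p).V :=
  inferInstanceAs (Module.Finite k ↥(End0 ρbar))

instance instFiniteAdRep : Module.Finite k (adRep ρbar).V :=
  inferInstanceAs (Module.Finite k ↥(End0 ρbar))

/-! ### The level -/

/-- Elements acting trivially on `V` and on `μ_p` act trivially on `ad⁰ρ̄(1)`. -/
theorem adTwFp_ρ_eq_one {u : _root_.Fermat.Agent.S56.GQ} (h1 : ρbar.ρ u = 1) (h2 : cycloChar p u = 1) :
    (adTwFp ρbar p).ρ u = 1 := by
  apply LinearMap.ext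
  intro m
  apply valFp_injective
  have h3 : ρbar.ρ u⁻¹ = 1 := by
    have h := rho_inv_mul ρbar u
    rwa [h1, mul_one] at h
  rw [valFp_ρ, cycK_coe, h1, h2, h3, Units.val_one, map_one, one_smul, one_mul, mul_one]
  rfl

/-- A level of `T ∋ p` acting trivially on `V` and on `μ_p`, if `ρ̄` is unramified outside
`T`. -/
theorem exists_level_rho (T : Finset Nat.Primes) (hpT : pPrime p ∈ T)
    (hur : ∀ q : Nat.Primes, q ∉ T → ρbar.IsUnramifiedAt (q : ℕ)) :
    ∃ U ∈ (globalLevels T).levels, (∀ u ∈ U, ρbar.ρ u = 1) ∧ ∀ u ∈ U, cycloChar p u = 1 := by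
  obtain ⟨L, hLfin, hL⟩ := ρbar.factorsThroughFiniteLevel
  haveI := hLfin
  haveI := Fermat.Agent.S55.Bridge.cycloLevel_finiteDimensional p
  have hsupfin : FiniteDimensional ℚ ↥(L ⊔ Fermat.Agent.S55.Bridge.cycloLevel p) :=
    IntermediateField.finiteDimensional_sup L (Fermat.Agent.S55.Bridge.cycloLevel p)
  obtain ⟨F, hF, hfix, -⟩ := Fermat.Agent.S55.Bridge.exists_level_of_subgroup T
    (MonoidHom.ker ρbar.ρ ⊓ MonoidHom.ker (cycloChar p))
    (L ⊔ Fermat.Agent.S55.Bridge.cycloLevel p) hsupfin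
    (fun s hs => by
      rw [IntermediateField.fixingSubgroup_sup] at hs
      exact ⟨MonoidHom.mem_ker.2 (hL s (fun x hx =>
          (IntermediateField.mem_fixingSubgroup_iff L s).1 hs.1 x hx)),
        MonoidHom.mem_ker.2
          (Fermat.Agent.S55.Bridge.cycloChar_eq_one_of_mem_fixingSubgroup p s hs.2)⟩)
    (fun q hq A hA g hg => by
      have hqp : (q : ℕ) ≠ p := by
        intro h
        apply hq
        have : q = pPrime p := Subtype.ext h
        rw [this]
        exact hpT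
      exact ⟨MonoidHom.mem_ker.2 (hur q hq A hA g hg),
        MonoidHom.mem_ker.2
          (Fermat.Agent.S55.Bridge.cycloChar_eq_one_of_mem_inertia p q.2 hqp A hA g hg)⟩)
  refine ⟨F.fixingSubgroup, ⟨F, hF, rfl⟩, fun u hu => ?_, fun u hu => ?_⟩
  · rw [hfix] at hu
    exact MonoidHom.mem_ker.1 hu.1
  · rw [hfix] at hu
    exact MonoidHom.mem_ker.1 hu.2

variable {ρbar p} in
theorem isUSmooth_adTwFp {T : Finset Nat.Primes} {U : Subgroup _root_.Fermat.Agent.S56.GQ}
    (hU : U ∈ (globalLevels T).levels) (hρ : ∀ u ∈ U, ρbar.ρ u = 1)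
    (hχ : ∀ u ∈ U, cycloChar p u = 1) : (globalLevels T).IsUSmooth (adTwFp ρbar p) :=
  ⟨U, hU, fun s hs a => by rw [adTwFp_ρ_eq_one ρbar p (hρ s hs) (hχ s hs)]; rfl⟩

variable {ρbar p} in
theorem isUSmooth_tdual_adTwFp {T : Finset Nat.Primes} {U : Subgroup _root_.Fermat.Agent.S56.GQ}
    (hU : U ∈ (globalLevels T).levels) (hρ : ∀ u ∈ U, ρbar.ρ u = 1)
    (hχ : ∀ u ∈ U, cycloChar p u = 1) :
    (globalLevels T).IsUSmooth (tdual p (adTwFp ρbar p)) :=
  ⟨U, hU, fun s hs a => by
    rw [Fermat.Agent.S55.Bridge.dualTwist_ρ_eq_one (adTwFp ρbar p) (cycloChar p) s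
      (adTwFp_ρ_eq_one ρbar p (hρ s hs) (hχ s hs)) (hχ s hs)]
    rfl⟩

/-! ### INV0 -/

/-- `H⁰(G_ℚ, ad⁰ρ̄(1)) = 0` in `PT` vocabulary. -/
theorem finrank_H0_adTwFp
    (hinv : ∀ m : Module.End k ρbar.V, LinearMap.trace k ρbar.V m = 0 →
      (∀ (σ : _root_.Fermat.Agent.S56.GQ) (a : ℕ), IsCycExp p σ a → (a : k) • (ρbar.ρ σ * m * ρbar.ρ σ⁻¹) = m) →
      m = 0) :
    Module.finrank (ZMod p) ↥(LevelSys.H0 (adTwFp ρbar p)) = 0 := by
  rw [(resFpAEq p (adTw ρbar p)).finrank_H0]
  have hsub : Subsingleton ↥(LevelSys.H0 (adTw ρbar p)) := by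
    refine ⟨fun x y => ?_⟩
    have key : ∀ z : ↥(LevelSys.H0 (adTw ρbar p)), z = 0 := by
      intro z
      apply Subtype.ext
      apply valTw_injective
      rw [Submodule.coe_zero, map_zero]
      apply hinv _ (trace_valTw ρbar p z.1)
      intro σ a ha
      have h1 := congrArg (valTw ρbar p) (z.2 σ)
      rw [valTw_ρ] at h1
      rw [natCast_eq_cycK k ha]
      exact h1
    rw [key x, key y]
  rw [Module.finrank_zero_of_subsingleton, mul_zero]

/-- `H⁰(G_ℚ, ad⁰ρ̄) = 0`, i.e. `Hom_G(ad⁰ρ̄(1), μ_p) = 0`, in `PT` vocabulary. -/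
theorem finrank_charHom_adTwFp [Finite k] (h2 : (2 : k) ≠ 0) (hinv : adInv ρbar ⊤ = ⊥) :
    Module.finrank (ZMod p) ↥(charHom (cycloChar p) (adTwFp ρbar p)) = 0 := by
  have h1 : Module.finrank (ZMod p) ↥(charHom (cycloChar p) (adTwFp ρbar p))
      = Module.finrank (ZMod p) ↥(LevelSys.H0 (tdual p (adTwFp ρbar p))) :=
    congrArg (fun X : Submodule (ZMod p) (Module.Dual (ZMod p) (adTwFp ρbar p).V) =>
      Module.finrank (ZMod p) ↥X) (H0_dualTwist_eq (cycloChar p) (adTwFp ρbar p)).symm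
  rw [h1, (tdualAEq ρbar p h2).finrank_H0]
  have hsub : Subsingleton ↥(LevelSys.H0 (adRep ρbar)) := by
    refine ⟨fun x y => ?_⟩
    have key : ∀ z : ↥(LevelSys.H0 (adRep ρbar)), z = 0 := by
      intro z
      apply Subtype.ext
      apply val_injective
      rw [Submodule.coe_zero, map_zero]
      have hz : val ρbar z.1 ∈ adInv ρbar ⊤ :=
        (mem_adInv_iff ρbar ⊤ _).2 ⟨z.1, rfl, fun σ _ => z.2 σ⟩
      rw [hinv] at hz
      exact (Submodule.mem_bot k).1 hz
    rw [key x, key y]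
  rw [Module.finrank_zero_of_subsingleton, mul_zero]

/-! ### ODD -/

/-- The `(-1)`-eigenspace of an odd involution `c` on `ad⁰ρ̄(1)` has `F_p`-dimension
`[k : F_p]`. -/
theorem finrank_minusPart_adTwFp (c : _root_.Fermat.Agent.S56.GQ) (hc : ((cycK k p c : kˣ) : k) = -1)
    (hcc : ρbar.ρ c * ρbar.ρ c = 1) (htr : LinearMap.trace k ρbar.V (ρbar.ρ c) = 0)
    (hcomm : ∀ m : Module.End k ρbar.V, LinearMap.trace k ρbar.V m = 0 →
      ρbar.ρ c * m = m * ρbar.ρ c → ∃ r : k, m = r • ρbar.ρ c) :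
    Module.finrank (ZMod p) ↥(Fermat.Agent.S56.H419.minusPart c (adTwFp ρbar p))
      = fpDeg k p := by
  have hne : ρbar.ρ c ≠ 0 := by
    intro h0
    rw [h0, mul_zero] at hcc
    haveI : Nontrivial ρbar.V := Module.nontrivial_of_finrank_pos (R := k) (by
      rw [ρbar.finrank_eq]; norm_num)
    exact zero_ne_one hcc
  have hinv : ρbar.ρ c⁻¹ = ρbar.ρ c := by
    have h := rho_inv_mul ρbar c
    calc ρbar.ρ c⁻¹ = ρbar.ρ c⁻¹ * (ρbar.ρ c * ρbar.ρ c) := by rw [hcc, mul_one]
      _ = ρbar.ρ c := by rw [← mul_assoc, h, one_mul]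
  -- membership in the minus part
  have hmem : ∀ x : (adTwFp ρbar p).V,
      x ∈ Fermat.Agent.S56.H419.minusPart c (adTwFp ρbar p) ↔
        ρbar.ρ c * valFp ρbar p x = valFp ρbar p x * ρbar.ρ c := by
    intro x
    rw [Fermat.Agent.S56.H419.mem_minusPart]
    constructor
    · intro h
      have h1 := congrArg (valFp ρbar p) h
      rw [valFp_ρ, hc, map_neg, neg_smul, one_smul, neg_inj, hinv] at h1
      calc ρbar.ρ c * valFp ρbar p x
          = ρbar.ρ c * valFp ρbar p x * (ρbar.ρ c * ρbar.ρ c) := by rw [hcc, mul_one]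
        _ = (ρbar.ρ c * valFp ρbar p x * ρbar.ρ c) * ρbar.ρ c := by rw [mul_assoc _ _ (ρbar.ρ c)]
        _ = valFp ρbar p x * ρbar.ρ c := by rw [h1]
    · intro h
      apply valFp_injective
      rw [valFp_ρ, hc, map_neg, neg_smul, one_smul, neg_inj, hinv, h, mul_assoc, hcc, mul_one]
  -- the additive bijection onto the line `k · ρ̄(c)`
  let f : ↥(Fermat.Agent.S56.H419.minusPart c (adTwFp ρbar p)) →+
      ↥(Submodule.span k {ρbar.ρ c}) :=
    { toFun := fun x => ⟨valFp ρbar p x.1, by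
        obtain ⟨r, hr⟩ := hcomm _ (trace_valFp ρbar p x.1) ((hmem x.1).1 x.2)
        rw [hr]
        exact Submodule.smul_mem _ _ (Submodule.mem_span_singleton_self _)⟩
      map_zero' := Subtype.ext (map_zero (valFp ρbar p))
      map_add' := fun x y => Subtype.ext (map_add (valFp ρbar p) x.1 y.1) }
  have hf : Function.Bijective f := by
    constructor
    · intro x y hxy
      have h1 : valFp ρbar p x.1 = valFp ρbar p y.1 :=
        congrArg (fun z : ↥(Submodule.span k {ρbar.ρ c}) => (z : Module.End k ρbar.V)) hxy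
      exact Subtype.ext (valFp_injective ρbar p h1)
    · rintro ⟨y, hy⟩
      obtain ⟨r, rfl⟩ := Submodule.mem_span_singleton.1 hy
      have hytr : LinearMap.trace k ρbar.V (r • ρbar.ρ c) = 0 := by
        rw [map_smul, htr, smul_zero]
      refine ⟨⟨mkFp ρbar p (r • ρbar.ρ c) hytr, (hmem _).2 ?_⟩, Subtype.ext rfl⟩
      rw [valFp_mkFp, mul_smul_comm, smul_mul_assoc]
  rw [finrank_eq_of_addEquiv (k := k) p (AddEquiv.ofBijective f hf),
    finrank_span_singleton hne, mul_one]

/-! ### Local invariants -/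

/-- `Hom_{G_v}(ad⁰ρ̄(1), μ_p) = H⁰(G_v, ad⁰ρ̄)`. -/
theorem finrank_charHom_loc [Finite k] (h2 : (2 : k) ≠ 0) (v : Nat.Primes) :
    Module.finrank (ZMod p) ↥(charHom (cycloLoc p v) (Rep.res (rl v) (adTwFp ρbar p)))
      = fpDeg k p *
        Module.finrank k ↥(adInv ρbar ((stdPl (v : ℕ)).decompositionSubgroup ℚ)) := by
  have h1 : Module.finrank (ZMod p) ↥(charHom (cycloLoc p v) (Rep.res (rl v) (adTwFp ρbar p)))
      = Module.finrank (ZMod p)
          ↥(LevelSys.H0 ((Rep.res (rl v) (adTwFp ρbar p)).dualTwist (cycloLoc p v))) :=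
    congrArg (fun X : Submodule (ZMod p) (Module.Dual (ZMod p) (adTwFp ρbar p).V) =>
      Module.finrank (ZMod p) ↥X)
      (H0_dualTwist_eq (cycloLoc p v) (Rep.res (rl v) (adTwFp ρbar p))).symm
  rw [h1, (tdualLocAEq ρbar p h2 v).finrank_H0, finrank_adInv_stdPl]

/-! ### Frames -/

theorem image_coe_primesOf (T : Finset Nat.Primes) :
    primesOf (T.image (fun v : Nat.Primes => (v : ℕ))) = T := by
  ext q
  rw [mem_primesOf, Finset.mem_image]
  constructor
  · rintro ⟨w, hw, hwq⟩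
    have : w = q := Subtype.ext hwq
    rwa [← this]
  · intro hq
    exact ⟨q, hq, rfl⟩

/-- The dual frame of all classes, with its `F_p`-dimension. -/
theorem exists_frame_Fp [Finite k] (T : Finset Nat.Primes)
    (hsm : (globalLevels T).IsUSmooth (adTwFp ρbar p)) :
    ∃ D : Submodule k (_root_.Fermat.Agent.S56.GQ → Module.End k ρbar.V), IsDualFrame ρbar p D ∧
      (∀ y ∈ D, ∀ q : ℕ, q.Prime → q ∉ T.image (fun v : Nat.Primes => (v : ℕ)) →
        UnramAt ρbar y q) ∧
      Module.finrank (ZMod p) ((globalLevels T).H1 (adTwFp ρbar p))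
        ≤ fpDeg k p * Module.finrank k ↥D := by
  haveI : FiniteDimensional (ZMod p) (adTwFp ρbar p) := finiteDimensional_resFp p _
  haveI : Module.Finite (ZMod p) ((globalLevels T).H1 (adTwFp ρbar p)) :=
    Fermat.Agent.S55.PT.H593.finGlob p T (adTwFp ρbar p) inferInstance hsm
  haveI : Module.Finite k ((globalLevels T).H1 (adTw ρbar p)) :=
    (resFpAEq p (adTw ρbar p)).finite_H1 (globalLevels T)
  obtain ⟨D, hD, hDur, hDrank⟩ := exists_isDualFrame ρbar p T
  refine ⟨D, hD, fun y hy q hq hqT => ?_, ?_⟩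
  · exact hDur y hy ⟨q, hq⟩ (fun h => hqT (Finset.mem_image.2 ⟨⟨q, hq⟩, h, rfl⟩))
  · rw [hDrank, (resFpAEq p (adTw ρbar p)).finrank_H1 (globalLevels T)]

/-- `exists_selmer_space`, for a set of primes given as a `Finset Nat.Primes`. -/
theorem exists_selmer_space_primes (h2 : (2 : k) ≠ 0) (Smin : Finset ℕ)
    (hS : ∀ v ∈ Smin, v.Prime) (T : Finset Nat.Primes) (hT : primesOf Smin = T)
    [Module.Finite k ↥(Sha1 (hrl T) (adRep ρbar))] :
    ∃ X : Submodule k (_root_.Fermat.Agent.S56.GQ → Module.End k ρbar.V), Module.Finite k X ∧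
      (∀ c, IsSelCocycle ρbar stdPl (fun _ => ⊥) Smin ∅ c →
        ∃ t ∈ X, IsAdCoboundary ρbar (c - t)) ∧
      Module.finrank k X = Module.finrank k ↥(Sha1 (hrl T) (adRep ρbar)) := by
  subst hT
  exact exists_selmer_space ρbar h2 Smin stdPl (fun v hv => stdPl_liesOver (hS v hv)) hS

/-- Representatives of `Ш¹_T(ad⁰ρ̄)`, with the `F_p`-dimension of `Ш¹_T((ad⁰ρ̄(1))′)`. -/
theorem exists_selmer_Fp [Finite k] (h2 : (2 : k) ≠ 0) (T : Finset Nat.Primes)
    (hsm' : (globalLevels T).IsUSmooth (tdual p (adTwFp ρbar p))) :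
    ∃ X : Submodule k (_root_.Fermat.Agent.S56.GQ → Module.End k ρbar.V), Module.Finite k X ∧
      (∀ c, IsSelCocycle ρbar stdPl (fun _ => ⊥)
          (T.image (fun v : Nat.Primes => (v : ℕ))) ∅ c →
        ∃ t ∈ X, IsAdCoboundary ρbar (c - t)) ∧
      fpDeg k p * Module.finrank k ↥X
        ≤ Module.finrank (ZMod p) ↥(Sha1 (hrl T) (tdual p (adTwFp ρbar p))) := by
  haveI : FiniteDimensional (ZMod p) (adTwFp ρbar p) := finiteDimensional_resFp p _
  haveI : FiniteDimensional (ZMod p) (tdual p (adTwFp ρbar p)) :=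
    inferInstanceAs (FiniteDimensional (ZMod p) (Module.Dual (ZMod p) (adTwFp ρbar p).V))
  haveI : Module.Finite (ZMod p) ((globalLevels T).H1 (tdual p (adTwFp ρbar p))) :=
    Fermat.Agent.S55.PT.H593.finGlob p T (tdual p (adTwFp ρbar p)) inferInstance hsm'
  haveI : Module.Finite k ((globalLevels T).H1 (adRep ρbar)) :=
    (tdualAEq ρbar p h2).finite_H1 (globalLevels T)
  obtain ⟨X, hXfin, hX, hXrank⟩ := exists_selmer_space_primes ρbar h2
    (T.image (fun v : Nat.Primes => (v : ℕ)))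
    (fun v hv => by
      obtain ⟨w, -, rfl⟩ := Finset.mem_image.1 hv
      exact w.2) T (image_coe_primesOf T)
  refine ⟨X, hXfin, hX, ?_⟩
  rw [hXrank, (tdualAEq ρbar p h2).finrank_Sha1 (hrl T)]

end General

/-! ### BRIDGE-BASE -/

/-- **BRIDGE-BASE** (`Euler/Big/Spec.lean`, frozen by helper366): the dictionary between the
plain-function language of `H716.Base` and the `PT` vocabulary for `N = ad⁰ρ̄(1)` over `F_p`. -/
theorem bridgeBase : Fermat.Agent.S56.Euler.BridgeBaseSpec := by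
  intro 𝒪 _ _ _ _ _ p _ ρbar S Smin hyp
  haveI : CharP (IsLocalRing.ResidueField 𝒪) p :=
    (CharP.charP_iff_prime_eq_zero hyp.hp).2 (Fermat.Agent.S56.H596.natCast_p_eq_zero hyp)
  have h2 : (2 : IsLocalRing.ResidueField 𝒪) ≠ 0 := Fermat.Agent.S56.H596.two_ne_zero_of_hyp hyp
  have hpS₀ : pPrime p ∈ primesOf Smin := mem_primesOf.2 hyp.hpSmin
  have hur : ∀ q : Nat.Primes, q ∉ primesOf Smin → ρbar.IsUnramifiedAt (q : ℕ) := by
    intro q hq
    have hqS : (q : ℕ) ∉ Smin := fun h => hq (mem_primesOf.2 h)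
    have hqp : (q : ℕ) ≠ p := fun h => hqS (h ▸ hyp.hpSmin)
    by_contra hcon
    exact hqS ((hyp.hmin q q.2 hqp).2 hcon)
  obtain ⟨U, hU, hρ, hχ⟩ := exists_level_rho ρbar p (primesOf Smin) hpS₀ hur
  refine ⟨primesOf Smin, U, adTwFp ρbar p, stdPl, fpDeg (IsLocalRing.ResidueField 𝒪) p, hpS₀,
    ?_, hU, finiteDimensional_resFp p _, ?_, fun v hv => stdPl_liesOver hv,
    fpDeg_pos (IsLocalRing.ResidueField 𝒪) p, ?_, ?_, ?_, ?_⟩
  · intro q hq
    exact ⟨hyp.hS q (hyp.hSmin hq), mem_primesOf.2 hq⟩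
  · intro u hu
    exact adTwFp_ρ_eq_one ρbar p (hρ u hu) (hχ u hu)
  · exact finrank_H0_adTwFp ρbar p
      (fun m htr hinv => Fermat.Agent.S56.H666.inv0_twisted hyp m htr hinv)
  · exact finrank_charHom_adTwFp ρbar p h2 (Fermat.Agent.S56.H666.adInv_top_eq_bot hyp)
  · apply finrank_minusPart_adTwFp ρbar p complexConjugation
    · rw [← natCast_eq_cycK (IsLocalRing.ResidueField 𝒪)
        (Fermat.Agent.S56.H596.isCycExp_complexConjugation p hyp.hp.ne_zero),
        Nat.cast_sub hyp.hp.one_le, CharP.cast_eq_zero, Nat.cast_one, zero_sub]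
    · exact Fermat.Agent.S56.H596.rho_complexConjugation_sq ρbar
    · exact Fermat.Agent.S56.H596.trace_rho_complexConjugation hyp
    · intro m htr hcomm
      exact ⟨_, Fermat.Agent.S56.H596.eq_smul_of_commute_complexConjugation hyp m htr hcomm⟩
  · intro S' hS'
    have hU' : U ∈ (globalLevels S').levels := by
      obtain ⟨F, hF, rfl⟩ := hU
      exact ⟨F, hF.mono hS', rfl⟩
    exact ⟨fun v => finrank_charHom_loc ρbar p h2 v.1,
      exists_frame_Fp ρbar p S' (isUSmooth_adTwFp hU' hρ hχ),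
      exists_selmer_Fp ρbar p h2 S' (isUSmooth_tdual_adTwFp hU' hρ hχ)⟩

end Fermat.Agent.S56.Br

end

end
-- ===== PACK-END S56/Br/H374/BridgeBase.lean

-- ===== PACK-BEGIN S56/FL/CntBridge.lean
section


/-!
# Row S56 — W-FLAT-SS, piece RAMCOUNT: the bridge to the abstract count (helper426)

Sorry-free, Mathlib only.

    rcDep_of_cnt : H846.FLCntStatement → H846.FLCycStatement → RLWildStatement → RLCommStatement →
      RLTameStatement → RLThetaStatement → RLQuotStatement → RLQuotFormulaStatement →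
      RLHilbertStatement → RLCycStatement → RCShapeStatement → RCDepStatement

and hence (with `RCTameStatement`, `ramCount_of_dep`) `RamCountStatement`.
-/

set_option autoImplicit false

open IsLocalRing

noncomputable section

namespace Fermat.Agent.S56.FL

namespace RCDatum

variable (d : RCDatum)

lemma rho_inv_eq_one {w : d.Γ} (hw : d.ρ w = 1) : d.ρ w⁻¹ = 1 := by
  have h := d.rho_inv_mul w
  rwa [hw, mul_one] at h

lemma c₁_one : d.c₁ 1 = 0 := by
  have h := d.hc₁ 1 1
  simp only [mul_one, map_one, inv_one, one_mul] at h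
  exact left_eq_add.mp h

lemma c₂_one : d.c₂ 1 = 0 := by
  have h := d.hc₂ 1 1
  simp only [mul_one, map_one, inv_one, one_mul] at h
  exact left_eq_add.mp h

/-- A cocycle is conjugation-equivariant on the kernel of `ρ`. -/
lemma bridge_coc_conj (c : d.Γ → Module.End d.k d.V)
    (hc : ∀ σ τ, c (σ * τ) = c σ + d.ρ σ * c τ * d.ρ σ⁻¹) (hc1 : c 1 = 0)
    (g w : d.Γ) (hw : d.ρ w = 1) :
    c (g * w * g⁻¹) = d.ρ g * c w * d.ρ g⁻¹ := by
  have hw' : d.ρ w⁻¹ = 1 := d.rho_inv_eq_one hw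
  have h1 : c (g * w * g⁻¹) = c g + d.ρ g * (c w + c g⁻¹) * d.ρ g⁻¹ := by
    rw [mul_assoc, hc g (w * g⁻¹), hc w g⁻¹, hw, hw', one_mul, mul_one]
  have h2 : c g + d.ρ g * c g⁻¹ * d.ρ g⁻¹ = 0 := by
    rw [← hc g g⁻¹, mul_inv_cancel, hc1]
  rw [h1, mul_add, add_mul, ← add_assoc, add_comm (c g), add_assoc, h2, add_zero]

lemma bridge_coc_mul (c : d.Γ → Module.End d.k d.V)
    (hc : ∀ σ τ, c (σ * τ) = c σ + d.ρ σ * c τ * d.ρ σ⁻¹)
    (w w' : d.Γ) (hw : d.ρ w = 1) : c (w * w') = c w + c w' := by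
  have hw' : d.ρ w⁻¹ = 1 := d.rho_inv_eq_one hw
  rw [hc, hw, hw', one_mul, mul_one]

end RCDatum

open RCDatum in
/-- **The bridge**: the abstract count, the ramification lemmas and the shape of `ρ` give the
linear dependence of the two cocycles on `ker ρ`. -/
theorem rcDep_of_cnt (hCnt : H846.FLCntStatement) (hCyc : H846.FLCycStatement)
    (hW : RLWildStatement) (hC : RLCommStatement) (hT : RLTameStatement)
    (hΘ : RLThetaStatement) (hQ : RLQuotStatement) (hQF : RLQuotFormulaStatement)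
    (hH : RLHilbertStatement) (hCy : RLCycStatement) (hS : RCShapeStatement) :
    RCDepStatement := by
  intro d hd
  obtain ⟨τ₀, φ, μ, hT'⟩ := exists_tameData hT d
  have hWd := hW d
  obtain ⟨ℓ₁, ℓp, ℓm, ψ₀, a, b, m, hinj, ht1, htp, htm, hf1, hfp, hfm, hmdvd, hmodd, hτpow,
    hψpow, hcard⟩ := hS d hd hWd τ₀ φ μ hT' (hCy d hWd (hH d).1 τ₀ φ μ hT')
  haveI : Fact d.p.Prime := ⟨d.hp⟩
  have hp3 := d.three_le_p
  have hwild_le := d.wild_le_ker hWd hd
  have hN : ∀ N : Subgroup d.Γ, N.Normal → N ≤ d.qRamSub ⊥ 1 → d.IsWildNormal N := by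
    intro N h1 h2
    rw [d.qRamSub_bot] at h2
    exact ⟨h1, h2⟩
  have hyp : H846.FLCnt.Hyp d.p (d.cntData τ₀ φ m ψ₀ a b ℓ₁ ℓp ℓm) :=
    { p_odd := d.hp2
      charP := d.hchar
      W_normal := MonoidHom.normal_ker d.ρ
      W_index := hd
      ρ_W := by
        intro w hw
        have hw1 : d.ρ w = 1 := MonoidHom.mem_ker.mp hw
        have hw2 : d.ρ w⁻¹ = 1 := d.rho_inv_eq_one hw1
        apply LinearMap.ext
        intro z
        apply Subtype.ext
        show d.ρ w * z.1 * d.ρ w⁻¹ = z.1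
        rw [hw1, hw2, one_mul, mul_one]
      c₁_mul := by
        intro w hw w' _
        apply Subtype.ext
        exact d.bridge_coc_mul d.c₁ d.hc₁ w w' (MonoidHom.mem_ker.mp hw)
      c₂_mul := by
        intro w hw w' _
        apply Subtype.ext
        exact d.bridge_coc_mul d.c₂ d.hc₂ w w' (MonoidHom.mem_ker.mp hw)
      c₁_conj := by
        intro g w hw
        apply Subtype.ext
        exact d.bridge_coc_conj d.c₁ d.hc₁ d.c₁_one g w (MonoidHom.mem_ker.mp hw)
      c₂_conj := by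
        intro g w hw
        apply Subtype.ext
        exact d.bridge_coc_conj d.c₂ d.hc₂ d.c₂_one g w (MonoidHom.mem_ker.mp hw)
      c_inj := by
        intro w hw h1 h2
        exact d.hfaith w (MonoidHom.mem_ker.mp hw) (congrArg Subtype.val h1)
          (congrArg Subtype.val h2)
      coord_inj := by
        intro z h1 h2 h3
        apply Subtype.ext
        exact hinj z.1 (LinearMap.mem_ker.mp z.2) h1 h2 h3
      tame_ℓ₁ := fun z => ht1 z.1
      tame_ℓp := fun z => htp z.1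
      tame_ℓm := fun z => htm z.1
      frob_ℓ₁ := fun z => hf1 z.1 (LinearMap.mem_ker.mp z.2)
      frob_ℓp := fun z => hfp z.1
      frob_ℓm := fun z => hfm z.1
      m_dvd := hmdvd
      m_odd := hmodd
      τ₀_mem := by
        show τ₀ ∈ d.qRamSub ⊥ 0
        rw [d.qRamSub_bot]
        exact hT'.1
      τ₀_pow := fun j => by
        show τ₀ ^ j ∈ d.ρ.ker ↔ _
        rw [MonoidHom.mem_ker]
        exact hτpow j
      ψ₀_pow := hψpow
      card_inertia := by
        show Nat.card (d.qRamSub ⊥ 0) = (d.p - 1) * m *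
          Nat.card (d.ρ.ker ⊓ d.qRamSub ⊥ 0 : Subgroup d.Γ)
        rw [d.qRamSub_bot]
        exact hcard
      wild_pgroup := by
        show IsPGroup d.p (d.qRamSub ⊥ 1)
        rw [d.qRamSub_bot]
        exact hWd
      tame_no_p := by
        show ∀ σ ∈ d.qRamSub ⊥ 0, σ ^ d.p ∈ d.qRamSub ⊥ 1 → σ ∈ d.qRamSub ⊥ 1
        rw [d.qRamSub_bot, d.qRamSub_bot]
        exact d.bridge_tame_no_p hQ hH hT'
      frob_comm := by
        intro w _
        show φ * w * φ⁻¹ * w⁻¹ ∈ d.qRamSub ⊥ 0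
        rw [d.qRamSub_bot]
        exact hC d φ w
      F_normal := fun N h1 _ h3 n => d.qRamSub_normal hQ (hN N h1 h3) n
      mem_F := fun N h1 _ h3 n σ => d.mem_qRam_iff hQ (hN N h1 h3) n σ
      F_zero := by
        intro N h1 _ h3 σ hσ
        obtain ⟨-, h, -⟩ := hQ d N (hN N h1 h3)
        change σ ∈ d.qRamSub ⊥ 0 at hσ
        rw [d.qRamSub_bot] at hσ
        exact h σ hσ
      F_one := by
        intro N h1 _ h3 σ hσ
        obtain ⟨-, -, h, -⟩ := hQ d N (hN N h1 h3)
        change σ ∈ d.qRamSub ⊥ 1 at hσ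
        rw [d.qRamSub_bot] at hσ
        exact h σ hσ
      F_one' := by
        intro N h1 _ h3 σ hσ
        obtain ⟨-, -, -, h, -⟩ := hQ d N (hN N h1 h3)
        obtain ⟨hσ1, hσ0⟩ := Subgroup.mem_inf.mp hσ
        change σ ∈ d.qRamSub ⊥ 0 at hσ0
        show σ ∈ d.qRamSub ⊥ 1
        rw [d.qRamSub_bot] at hσ0 ⊢
        exact h σ hσ0 hσ1
      comm_rule := by
        intro N h1 _ h3 n hn σ hσ hσ' τ hτ
        obtain ⟨-, -, -, -, -, h⟩ := hQ d N (hN N h1 h3)
        change τ ∈ d.qRamSub ⊥ 0 at hτ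
        rw [d.qRamSub_bot] at hτ
        exact h n hn σ hσ hσ' τ hτ
      quot_formula := by
        intro N h1 _ h3 σ hσ
        have h := hQF d N (hN N h1 h3) σ hσ
        show ∑ᶠ (w : d.Γ) (_ : w ∈ N), d.iQ ⊥ (σ * w) = Nat.card N * d.iQ N σ
        simp only [d.iQ_bot]
        exact h
      D_bound := by
        intro hne
        show (d.p - 1) * ∑ᶠ (σ : d.Γ) (_ : σ ∈ d.qRamSub ⊥ 0) (_ : σ ≠ 1), d.iQ ⊥ σ
          ≤ d.p * Nat.card (d.qRamSub ⊥ 0)
        have hne' : ramGroup d.B d.Γ 1 ≠ ⊥ := by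
          rw [← d.qRamSub_bot]; exact hne
        rw [d.qRamSub_bot]
        refine d.bridge_D_bound hQ hH (m * Nat.card (d.ρ.ker ⊓ ramGroup d.B d.Γ 0 : Subgroup d.Γ))
          (by rw [hcard, mul_assoc]) ?_
        apply Dvd.dvd.mul_left
        have h1 : ramGroup d.B d.Γ 1 ≤ d.ρ.ker ⊓ ramGroup d.B d.Γ 0 :=
          le_inf hwild_le (d.ramGroup_anti (Nat.zero_le 1))
        have h2 : Nat.card (ramGroup d.B d.Γ 1) ∣
            Nat.card (d.ρ.ker ⊓ ramGroup d.B d.Γ 0 : Subgroup d.Γ) :=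
          Subgroup.card_dvd_of_le h1
        refine Dvd.dvd.trans ?_ h2
        obtain ⟨k, hk⟩ := IsPGroup.iff_card.mp hWd
        rcases Nat.eq_zero_or_pos k with h0 | h0
        · exfalso
          rw [h0, pow_zero] at hk
          exact hne' ((Subgroup.card_eq_one).mp hk)
        · rw [hk]
          exact dvd_pow_self _ (by omega)
      cyc := by
        intro hm2 hWeq hFp
        change m ≠ 2 at hm2
        change d.ρ.ker = d.qRamSub ⊥ (d.p - 1) at hWeq
        change d.qRamSub ⊥ d.p = ⊥ at hFp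
        rw [d.qRamSub_bot] at hWeq hFp
        show ∃ w₀ ∈ d.ρ.ker, ∀ H : Subgroup d.Γ, w₀ ∈ H → (∀ h ∈ H, τ₀ * h * τ₀⁻¹ ∈ H) →
          (∀ h ∈ H, φ ^ 2 * h * (φ ^ 2)⁻¹ ∈ H) → d.ρ.ker ≤ H
        rw [hWeq]
        -- `W = Γ₁`
        have hW1 : d.ρ.ker = ramGroup d.B d.Γ 1 :=
          le_antisymm (hWeq.le.trans (d.ramGroup_anti (by omega))) hwild_le
        -- `m > 2`
        have hm0 : m ≠ 0 := by
          rintro rfl
          rw [zero_dvd_iff] at hmdvd
          omega
        have hm1 : m ≠ 1 := by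
          rintro rfl
          rw [Nat.div_one] at hmodd
          have hpodd : Odd d.p := d.hp.odd_of_ne_two d.hp2
          have : Even (d.p + 1) := hpodd.add_one
          exact (Nat.not_odd_iff_even.mpr this) hmodd
        have hm3 : 2 < m := by omega
        refine d.bridge_cyc hCyc hΘ hH hQ hT' m ?_ hmdvd hm3 hFp
        intro j
        rw [← pow_mul, ← hT'.2.2.1, ← hW1, MonoidHom.mem_ker, hτpow]
        exact Nat.mul_dvd_mul_iff_left (by omega) }
  obtain ⟨a₁, a₂, ha, hdep⟩ := hCnt d.p d.Γ d.k d.Z0 (d.cntData τ₀ φ m ψ₀ a b ℓ₁ ℓp ℓm) hyp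
  refine ⟨a₁, a₂, ha, fun σ hσ => ?_⟩
  have h := hdep σ (MonoidHom.mem_ker.mpr hσ)
  exact congrArg Subtype.val h

/-- The ramification count from the abstract count, the ramification lemmas and the supersingular
structure. -/
theorem ramCount_of_cnt (hTame : RCTameStatement)
    (hCnt : H846.FLCntStatement) (hCyc : H846.FLCycStatement)
    (hW : RLWildStatement) (hC : RLCommStatement) (hT : RLTameStatement)
    (hΘ : RLThetaStatement) (hQ : RLQuotStatement) (hQF : RLQuotFormulaStatement)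
    (hH : RLHilbertStatement) (hCy : RLCycStatement) (hS : RCShapeStatement) :
    RamCountStatement :=
  ramCount_of_dep hTame (rcDep_of_cnt hCnt hCyc hW hC hT hΘ hQ hQF hH hCy hS)

end Fermat.Agent.S56.FL

end

end
-- ===== PACK-END S56/FL/CntBridge.lean

-- ===== PACK-BEGIN S56/Final3.lean
section




/-!
# Row S56 — FINAL reduction, v3 (row-lead helper956): three Props left

LOC-MIN (`H606.locMin`) and LOC-SO (`H656.locOrdP`) are proved.  Hence

    `S56 ⇐ H716.LocFlatPStatement + H716.BaseStatement + H716.RecQStatement`.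

`Fermat/Agent/S56.lean` will be

    exact Fermat.Agent.S56.result_of_inputs
      (Fermat.Agent.S56.tangentBoundOrd_of_three base recQ)
      (Fermat.Agent.S56.tangentBoundFlat_of_three locFlatP base recQ)
      Fermat.Agent.S56.powerSeriesSurj Fermat.Agent.S56.twPrimes
      p hp2 hp𝒪 ρbar habs hdet hsplit hTW S Smin hpSmin hSmin hS hmin
-/

set_option autoImplicit false

namespace Fermat.Agent.S56

/-- (TB-ord) from BASE and REC-Q. -/
theorem tangentBoundOrd_of_three (hb : H716.BaseStatement) (hr : H716.RecQStatement) :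
    TangentBoundOrdStatement :=
  tangentBoundOrd_of_five H606.locMin H656.locOrdP hb hr

/-- (TB-flat) from LOC-FLAT, BASE and REC-Q. -/
theorem tangentBoundFlat_of_three (hflat : H716.LocFlatPStatement) (hb : H716.BaseStatement)
    (hr : H716.RecQStatement) : TangentBoundFlatStatement :=
  tangentBoundFlat_of_five H606.locMin hflat hb hr

end Fermat.Agent.S56

end
-- ===== PACK-END S56/Final3.lean

-- ===== PACK-BEGIN S56/H14/InvRec.lean
section




/-!
# Row S56 — leaf INVREC of REC-Q: local invariants of plain twisted 2-cocycles (helper14)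

S55-facing.  Plain-function language of the row: `K` a finite field of characteristic `p`,
`z : G_ℚ × G_ℚ → K` a *twisted 2-cocycle* (values in `K(1)`, the cyclotomic character encoded
by `IsCycExp`), level-constant for a finite extension unramified outside `Σ`
(the Prelude's `IsLevelConstantS₂ Σ`).

From S55's interface `PT.InvSpec p Σ` (invariant maps on `H²(G_v, μ_p)` with reciprocity and
`Br(E)[p] ≅ ℤ/p`) we construct `invK v z ∈ K` (`v ∈ Σ`) such that, on such `z`:

* `invK v` is additive and `K`-homogeneous;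
* `invK v z = 0` if `z` is a twisted coboundary on the decomposition group `D_v` of the
  Prelude's place `primeLocalPlace v`;
* conversely, for `v ≡ 1 mod p`, `v ≠ p`: `invK v z = 0` implies that `z` is a twisted
  coboundary on `D_v`;
* reciprocity: `∑_{v ∈ Σ} invK v z = 0`.

Main statement: `invRec : InvRecStatement`.  Nothing unproved in this file.
-/

set_option autoImplicit false

noncomputable section

namespace Fermat.Agent.S56.H14

open groupCohomology Fermat.Agent.S55.PT ExtCitation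

/-! ### Plain-function definitions -/

section Defs

variable (p : ℕ) {K : Type} [Field K]

/-- `z` is a twisted 2-cocycle: a 2-cocycle with values in `K(1)`. -/
def IsTw2Cocycle (z : Fermat.Agent.S56.GQ × Fermat.Agent.S56.GQ → K) : Prop :=
  ∀ σ τ υ : Fermat.Agent.S56.GQ, ∀ a : ℕ, Fermat.Agent.S56.IsCycExp p σ a →
    (a : K) * z (τ, υ) - z (σ * τ, υ) + z (σ, τ * υ) - z (σ, τ) = 0

/-- On the subgroup `D`, `z` is the twisted coboundary of a cochain `lam` which is level-constant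
on `D`. -/
def IsTw2CoboundaryOn (D : Subgroup Fermat.Agent.S56.GQ)
    (z : Fermat.Agent.S56.GQ × Fermat.Agent.S56.GQ → K) : Prop :=
  ∃ lam : Fermat.Agent.S56.GQ → K,
    (∃ F : IntermediateField ℚ Fermat.Agent.S56.Qb, FiniteDimensional ℚ F ∧
      ∀ σ ∈ D, ∀ τ ∈ D, τ ∈ F.fixingSubgroup → lam (σ * τ) = lam σ) ∧
    ∀ σ ∈ D, ∀ τ ∈ D, ∀ a : ℕ, Fermat.Agent.S56.IsCycExp p σ a →
      z (σ, τ) = (a : K) * lam τ - lam (σ * τ) + lam σ

/-- The 2-cocycles on which the invariants are defined. -/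
def IsGood2 (S : Finset Nat.Primes) (z : Fermat.Agent.S56.GQ × Fermat.Agent.S56.GQ → K) : Prop :=
  IsTw2Cocycle p z ∧ IsLevelConstantS₂ S z

end Defs

/-- **(INVREC)** — the S55-facing leaf of REC-Q. -/
def InvRecStatement : Prop :=
  ∀ (p : ℕ) [Fact p.Prime] (S : Finset Nat.Primes) (K : Type) [Field K] [CharP K p] [Finite K],
    InvSpec p S →
    ∃ invK : ↥S → (Fermat.Agent.S56.GQ × Fermat.Agent.S56.GQ → K) → K,
      (∀ (v : ↥S) z z', IsGood2 p S z → IsGood2 p S z' →
        invK v (z + z') = invK v z + invK v z') ∧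
      (∀ (v : ↥S) (c : K) z, IsGood2 p S z → invK v (c • z) = c * invK v z) ∧
      (∀ (v : ↥S) z, IsGood2 p S z →
        IsTw2CoboundaryOn p ((primeLocalPlace v.1).decompositionSubgroup ℚ) z → invK v z = 0) ∧
      (∀ (v : ↥S) z, IsGood2 p S z → ((v.1 : Nat.Primes) : ℕ) ≠ p →
        p ∣ ((v.1 : Nat.Primes) : ℕ) - 1 → invK v z = 0 →
        IsTw2CoboundaryOn p ((primeLocalPlace v.1).decompositionSubgroup ℚ) z) ∧
      (∀ z, IsGood2 p S z → ∑ v : ↥S, invK v z = 0)

/-! ### Cyclotomic exponents and the cyclotomic character -/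

section Cyc

variable {p : ℕ} [Fact p.Prime]

/-- Every automorphism has a cyclotomic exponent on the `p`-th roots of unity
(copy of `exists_isCycExp` of `H14/CycExp.lean`, to keep the import closure small). -/
theorem exists_cycExp_invRec (σ : Fermat.Agent.S56.GQ) :
    ∃ a : ℕ, Fermat.Agent.S56.IsCycExp p σ a := by
  have hp : p.Prime := Fact.out
  have : NeZero p := ⟨hp.ne_zero⟩
  obtain ⟨ζ, hζ⟩ := HasEnoughRootsOfUnity.exists_primitiveRoot (AlgebraicClosure ℚ) p
  have h1 : (σ ζ) ^ p = 1 := by rw [← map_pow, hζ.pow_eq_one, map_one]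
  obtain ⟨a, -, ha⟩ := hζ.eq_pow_of_pow_eq_one h1
  refine ⟨a, fun μ hμ => ?_⟩
  obtain ⟨i, -, rfl⟩ := hζ.eq_pow_of_pow_eq_one hμ
  rw [map_pow, ← ha, ← pow_mul, ← pow_mul, mul_comm]

/-- A cyclotomic exponent of `σ` is a lift of `cycloChar p σ`. -/
theorem natCast_eq_cycloChar {σ : Fermat.Agent.S56.GQ} {a : ℕ}
    (h : Fermat.Agent.S56.IsCycExp p σ a) :
    ((a : ℕ) : ZMod p) = ((cycloChar p σ : (ZMod p)ˣ) : ZMod p) := by
  have hp : p.Prime := Fact.out
  have : NeZero p := ⟨hp.ne_zero⟩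
  have : NeZero ((p : ℕ) : AlgebraicClosure ℚ) := ⟨Nat.cast_ne_zero.mpr hp.ne_zero⟩
  obtain ⟨ζ, hζ⟩ := HasEnoughRootsOfUnity.exists_primitiveRoot (AlgebraicClosure ℚ) p
  have hζ0 : ζ ≠ 0 := hζ.ne_zero hp.ne_zero
  let t : (AlgebraicClosure ℚ)ˣ := Units.mk0 ζ hζ0
  have ht : t ∈ rootsOfUnity p (AlgebraicClosure ℚ) := by
    rw [mem_rootsOfUnity]
    apply Units.ext
    simp only [t, Units.val_pow_eq_pow_val, Units.val_mk0, Units.val_one]
    exact hζ.pow_eq_one
  have h1 : σ ζ = ζ ^ ((cycloChar p σ : (ZMod p)ˣ) : ZMod p).val :=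
    Fermat.Agent.S55.Bridge.cycloChar_spec p σ ht
  have h2 : σ ζ = ζ ^ a := h ζ hζ.pow_eq_one
  have h3 : ζ ^ (a % p) = ζ ^ ((cycloChar p σ : (ZMod p)ˣ) : ZMod p).val := by
    rw [← h1, h2]
    conv_rhs => rw [← Nat.div_add_mod a p, pow_add, pow_mul, hζ.pow_eq_one, one_pow, one_mul]
  have h4 : a % p = ((cycloChar p σ : (ZMod p)ˣ) : ZMod p).val :=
    hζ.pow_inj (Nat.mod_lt _ hp.pos) (ZMod.val_lt _) h3
  have h5 : ((a : ℕ) : ZMod p) = ((a % p : ℕ) : ZMod p) := by
    rw [ZMod.natCast_eq_natCast_iff]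
    exact (Nat.mod_modEq a p).symm
  rw [h5, h4, ZMod.natCast_val, ZMod.cast_id]

end Cyc

/-! ### From plain 2-cocycles to classes -/

section Arith

variable {p : ℕ} [Fact p.Prime] {S : Finset Nat.Primes}
variable {K : Type} [Field K] [Algebra (ZMod p) K]

/-- `K(1)` as a representation of `G_ℚ` over `F_p`. -/
abbrev K1 (p : ℕ) [Fact p.Prime] (K : Type) [Field K] [Algebra (ZMod p) K] :
    Rep.{0, 0, 0} (ZMod p) _root_.Fermat.Agent.S56.GQ := twTriv (cycloChar p) K

lemma natCast_smul_eq (a : ℕ) (w : K) : ((a : ℕ) : ZMod p) • w = (a : K) * w := by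
  rw [Algebra.smul_def, map_natCast]

lemma K1_ρ_apply {σ : _root_.Fermat.Agent.S56.GQ} {a : ℕ} (h : Fermat.Agent.S56.IsCycExp p σ a) (w : K) :
    (K1 p K).ρ σ w = (a : K) * w := by
  rw [twTriv_ρ_apply, ← natCast_eq_cycloChar h, natCast_smul_eq]

lemma K1_ρ_rl_apply {v : Nat.Primes} {s : Gl v} {a : ℕ}
    (h : Fermat.Agent.S56.IsCycExp p (rl v s) a) (w : K) :
    (Rep.res (rl v) (K1 p K)).ρ s w = (a : K) * w :=
  K1_ρ_apply h w

/-- A good plain 2-cocycle is a level-constant 2-cocycle of `K(1)`. -/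
lemma mem_Z2_of_isGood2 {z : _root_.Fermat.Agent.S56.GQ × _root_.Fermat.Agent.S56.GQ → K} (hz : IsGood2 p S z) :
    z ∈ (globalLevels S).Z2 (K1 p K) := by
  refine ⟨?_, (isLC₂_globalLevels_iff S z).2 hz.2⟩
  show z ∈ cocycles₂ (K1 p K)
  rw [mem_cocycles₂_def]
  intro g h j
  obtain ⟨a, ha⟩ := exists_cycExp_invRec (p := p) g
  rw [K1_ρ_apply ha]
  exact hz.1 g h j a ha

/-- the class of a good plain 2-cocycle in `H²(G_{ℚ,S}, K(1))` -/
def cls2 {z : _root_.Fermat.Agent.S56.GQ × _root_.Fermat.Agent.S56.GQ → K} (hz : IsGood2 p S z) : (globalLevels S).H2 (K1 p K) :=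
  (globalLevels S).H2π (K1 p K) ⟨z, mem_Z2_of_isGood2 hz⟩

omit [Fact p.Prime] [Algebra (ZMod p) K] in
lemma isGood2_add {z z' : _root_.Fermat.Agent.S56.GQ × _root_.Fermat.Agent.S56.GQ → K} (hz : IsGood2 p S z) (hz' : IsGood2 p S z') :
    IsGood2 p S (z + z') := by
  refine ⟨fun σ τ υ a ha => ?_, hz.2.add hz'.2⟩
  have h1 := hz.1 σ τ υ a ha
  have h2 := hz'.1 σ τ υ a ha
  simp only [Pi.add_apply]
  linear_combination h1 + h2

omit [Fact p.Prime] [Algebra (ZMod p) K] in
lemma isGood2_smul (c : K) {z : _root_.Fermat.Agent.S56.GQ × _root_.Fermat.Agent.S56.GQ → K} (hz : IsGood2 p S z) : IsGood2 p S (c • z) := by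
  refine ⟨fun σ τ υ a ha => ?_, hz.2.comp (c • ·)⟩
  have h1 := hz.1 σ τ υ a ha
  simp only [Pi.smul_apply, smul_eq_mul]
  linear_combination c * h1

lemma cls2_add {z z' : _root_.Fermat.Agent.S56.GQ × _root_.Fermat.Agent.S56.GQ → K} (hz : IsGood2 p S z) (hz' : IsGood2 p S z') :
    cls2 (isGood2_add hz hz') = cls2 hz + cls2 hz' := by
  unfold cls2
  rw [← map_add]
  rfl

lemma cls2_smul (c : K) {z : _root_.Fermat.Agent.S56.GQ × _root_.Fermat.Agent.S56.GQ → K} (hz : IsGood2 p S z) :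
    cls2 (isGood2_smul c hz) =
      pushH2 (A := K1 p K) (B := K1 p K) (LinearMap.mulLeft (ZMod p) c)
        (twTriv_isEquivariant (cycloChar p) K (LinearMap.mulLeft (ZMod p) c))
        (globalLevels S) (cls2 hz) := by
  unfold cls2
  rw [pushH2_mk]
  congr 1

variable [FiniteDimensional (ZMod p) K]

/-- the extension of S55's `inv_v` to `H²(G_v, K(1))` -/
def extInvLoc (inv : InvFamily p S) (v : ↥S) :
    (localLevels v.1).H2 (Rep.res (rl v.1) (K1 p K)) →ₗ[ZMod p] K :=
  extInv (W := K) (localLevels v.1) ((cycloChar p).comp (rl v.1)) (inv v)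

/-- the invariant at `v` of a class in `H²(G_{ℚ,S}, K(1))` -/
def invH (inv : InvFamily p S) (v : ↥S) : (globalLevels S).H2 (K1 p K) →ₗ[ZMod p] K :=
  extInvLoc inv v ∘ₗ resH2 (hrl S v) (K1 p K)

/-- **Reciprocity** for classes with coefficients in `K(1)`. -/
theorem sum_invH_eq_zero {inv : InvFamily p S} (hrec : RecipSpec inv)
    (x : (globalLevels S).H2 (K1 p K)) : ∑ v : ↥S, invH inv v x = 0 := by
  apply (Module.forall_dual_apply_eq_zero_iff (ZMod p) _).1
  intro f
  rw [map_sum]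
  have h := hrec (pushDual (W := K) (globalLevels S) (cycloChar p) f x)
  rw [← h]
  refine Finset.sum_congr rfl fun v _ => ?_
  have h1 : f (invH inv v x) =
      inv v (pushDual (W := K) (localLevels v.1) ((cycloChar p).comp (rl v.1)) f
        (resH2 (hrl S v) (K1 p K) x)) :=
    dual_extInv (W := K) (localLevels v.1) ((cycloChar p).comp (rl v.1)) (inv v) _ f
  rw [h1]
  congr 1
  obtain ⟨c, rfl⟩ := (globalLevels S).H2π_surjective _ x
  rfl

/-- `invH` commutes with multiplication by elements of `K`. -/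
theorem invH_mulLeft (inv : InvFamily p S) (v : ↥S) (c : K)
    (x : (globalLevels S).H2 (K1 p K)) :
    invH inv v (pushH2 (A := K1 p K) (B := K1 p K) (LinearMap.mulLeft (ZMod p) c)
        (twTriv_isEquivariant (cycloChar p) K (LinearMap.mulLeft (ZMod p) c))
        (globalLevels S) x) = c * invH inv v x := by
  have h := extInv_pushH2_endo (W := K) (localLevels v.1) ((cycloChar p).comp (rl v.1)) (inv v)
    (LinearMap.mulLeft (ZMod p) c) (resH2 (hrl S v) (K1 p K) x)
  rw [LinearMap.mulLeft_apply] at h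
  show extInvLoc inv v (resH2 (hrl S v) (K1 p K) _) = c * extInvLoc inv v _
  refine Eq.trans ?_ h
  show extInvLoc inv v _ = extInvLoc inv v _
  congr 1
  obtain ⟨z, rfl⟩ := (globalLevels S).H2π_surjective _ x
  rfl

/-! ### Local coboundaries -/

omit [FiniteDimensional (ZMod p) K] in
/-- A good 2-cocycle which is a twisted coboundary on `D_v` has trivial class in
`H²(G_v, K(1))`. -/
theorem resH2_cls2_eq_zero_of_coboundaryOn (v : ↥S) {z : _root_.Fermat.Agent.S56.GQ × _root_.Fermat.Agent.S56.GQ → K} (hz : IsGood2 p S z)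
    (h : IsTw2CoboundaryOn p ((primeLocalPlace v.1).decompositionSubgroup ℚ) z) :
    resH2 (hrl S v) (K1 p K) (cls2 hz) = 0 := by
  obtain ⟨lam, ⟨F, hF, hlev⟩, hcob⟩ := h
  unfold cls2
  rw [resH2_mk, LevelSys.H2π_eq_zero_iff]
  have hmem : ∀ s : Gl v.1, rl v.1 s ∈ (primeLocalPlace v.1).decompositionSubgroup ℚ :=
    fun s => Fermat.Agent.S55.BLocal.primeLocalToGlobal_mem v.1 s
  refine ⟨fun s => lam (rl v.1 s), ?_, ?_⟩
  · refine ⟨_, ⟨F, hF, rfl⟩, fun g s hs => ?_⟩
    show lam (rl v.1 (g * s)) = lam (rl v.1 g)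
    rw [map_mul]
    exact hlev _ (hmem g) _ (hmem s) hs
  · funext ⟨g, h⟩
    obtain ⟨a, ha⟩ := exists_cycExp_invRec (p := p) (rl v.1 g)
    have h1 := hcob _ (hmem g) _ (hmem h) a ha
    have hd : (d₁₂ (Rep.res (rl v.1) (K1 p K))).hom (fun s => lam (rl v.1 s)) (g, h)
        = (Rep.res (rl v.1) (K1 p K)).ρ g (lam (rl v.1 h)) - lam (rl v.1 (g * h))
          + lam (rl v.1 g) := rfl
    rw [hd, K1_ρ_rl_apply ha, map_mul]
    exact h1.symm

omit [FiniteDimensional (ZMod p) K] in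
/-- A good 2-cocycle with trivial class in `H²(G_v, K(1))` is a twisted coboundary on `D_v`. -/
theorem coboundaryOn_of_resH2_cls2_eq_zero (v : ↥S) {z : _root_.Fermat.Agent.S56.GQ × _root_.Fermat.Agent.S56.GQ → K} (hz : IsGood2 p S z)
    (h : resH2 (hrl S v) (K1 p K) (cls2 hz) = 0) :
    IsTw2CoboundaryOn p ((primeLocalPlace v.1).decompositionSubgroup ℚ) z := by
  unfold cls2 at h
  rw [resH2_mk, LevelSys.H2π_eq_zero_iff] at h
  obtain ⟨x, ⟨U, ⟨F, hF, rfl⟩, hxU⟩, hdx⟩ := h
  classical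
  -- `x` factors through the image of `rl v`
  have hker : ∀ s s' : Gl v.1, rl v.1 s = rl v.1 s' → x s = x s' := by
    intro s s' hss
    have hmem : s⁻¹ * s' ∈ (F.fixingSubgroup).comap (rl v.1) := by
      rw [Subgroup.mem_comap, map_mul, map_inv, hss, inv_mul_cancel]
      exact Subgroup.one_mem _
    have := hxU s (s⁻¹ * s') hmem
    rw [mul_inv_cancel_left] at this
    exact this.symm
  let lam : _root_.Fermat.Agent.S56.GQ → K := fun σ => if hσ : ∃ s : Gl v.1, rl v.1 s = σ then x hσ.choose else 0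
  have hlam : ∀ s : Gl v.1, lam (rl v.1 s) = x s := by
    intro s
    have hσ : ∃ s' : Gl v.1, rl v.1 s' = rl v.1 s := ⟨s, rfl⟩
    show (if hσ : ∃ s' : Gl v.1, rl v.1 s' = rl v.1 s then x hσ.choose else 0) = x s
    rw [dif_pos hσ]
    exact hker _ _ hσ.choose_spec
  have hsurj : ∀ σ ∈ (primeLocalPlace v.1).decompositionSubgroup ℚ,
      ∃ s : Gl v.1, rl v.1 s = σ :=
    fun σ hσ => Fermat.Agent.S55.BLocal.exists_primeLocalToGlobal_eq v.1 σ hσ
  refine ⟨lam, ⟨F, hF, ?_⟩, ?_⟩
  · intro σ hσ τ hτ hτF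
    obtain ⟨s, rfl⟩ := hsurj σ hσ
    obtain ⟨t, rfl⟩ := hsurj τ hτ
    rw [← map_mul, hlam, hlam]
    exact hxU s t hτF
  · intro σ hσ τ hτ a ha
    obtain ⟨s, rfl⟩ := hsurj σ hσ
    obtain ⟨t, rfl⟩ := hsurj τ hτ
    have h1 := congrFun hdx (s, t)
    have hd : (d₁₂ (Rep.res (rl v.1) (K1 p K))).hom x (s, t)
        = (Rep.res (rl v.1) (K1 p K)).ρ s (x t) - x (s * t) + x s := rfl
    rw [hd, K1_ρ_rl_apply ha] at h1
    rw [← map_mul, hlam, hlam, hlam]
    exact h1.symm

end Arith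

/-! ### The statement -/

/-- **INVREC.** -/
theorem invRec : InvRecStatement := by
  intro p _ S K _ _ _ hInv
  let _ : Algebra (ZMod p) K := ZMod.algebra K p
  have : FiniteDimensional (ZMod p) K := Module.Finite.of_finite
  obtain ⟨inv, hrec, htop, -⟩ := hInv
  classical
  refine ⟨fun v z => if h : IsGood2 p S z then invH inv v (cls2 h) else 0, ?_, ?_, ?_, ?_, ?_⟩
  · intro v z z' hz hz'
    simp only [dif_pos hz, dif_pos hz', dif_pos (isGood2_add hz hz')]
    rw [cls2_add hz hz', map_add]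
  · intro v c z hz
    simp only [dif_pos hz, dif_pos (isGood2_smul c hz)]
    rw [cls2_smul c hz, invH_mulLeft]
  · intro v z hz hcob
    simp only [dif_pos hz]
    show extInvLoc inv v (resH2 (hrl S v) (K1 p K) (cls2 hz)) = 0
    rw [resH2_cls2_eq_zero_of_coboundaryOn v hz hcob, map_zero]
  · intro v z hz hvp hdvd h0
    simp only [dif_pos hz] at h0
    have hinj : Function.Injective (inv v) :=
      (inv_bijective_of_dvd_sub_one htop v hvp hdvd).1
    have h1 : extInv (W := K) (localLevels v.1) ((cycloChar p).comp (rl v.1)) (inv v)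
        (resH2 (hrl S v) (K1 p K) (cls2 hz)) = 0 := h0
    have h2 := (extInv_eq_zero_iff (W := K) (localLevels v.1) ((cycloChar p).comp (rl v.1))
      (inv := inv v) hinj (resH2 (hrl S v) (K1 p K) (cls2 hz))).1 h1
    exact coboundaryOn_of_resH2_cls2_eq_zero v hz h2
  · intro z hz
    simp only [dif_pos hz]
    exact sum_invH_eq_zero hrec (cls2 hz)

end Fermat.Agent.S56.H14

end

end
-- ===== PACK-END S56/H14/InvRec.lean

-- ===== PACK-BEGIN S56/RQ/RecipH14.lean
section





/-!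
# Row S56 — REC-Q leaf RECIP: the plain reciprocity package from S55's `InvSpec` (helper14)

`plainRecip_of : (∀ p S, p ≠ 2 → pPrime p ∈ S → PT.InvSpec p S) → RQ.PlainRecipStatement`.

Construction (`k` a finite field of characteristic `p`, `Sg` a finite set of primes, `p ∈ Sg`,
`S = primesOf Sg`, `inv₀ : PT.InvFamily p S` from `InvSpec`):

* places: `natPlace v = primeLocalPlace v` (the Prelude's place; `range (rl v) = D_v`);
* `Zloc v` = the `k`-space of plain 2-cochains `z` whose restriction `z ∘ (rl v × rl v)` is a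
  level-constant 2-cocycle of `k(1)` on `G_v`;
* `Jloc v : Zloc v → k`, `z ↦ extInv (inv₀ v) [z ∘ (rl v × rl v)]` (`k`-linear);
* `inv v` := any `k`-linear extension of `Jloc v` to all 2-cochains (`LinearMap.exists_extend`).

Nothing unproved in this file.
-/

set_option autoImplicit false

noncomputable section

namespace Fermat.Agent.S56.RQ.H14

open groupCohomology Fermat.Agent.S55.PT ExtCitation Fermat.Agent.S56.H14

/-! ### Sets of primes and places -/

/-- a finite set of natural numbers, as a finite set of primes -/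
def primesOf (Sg : Finset ℕ) : Finset Nat.Primes := Sg.subtype Nat.Prime

lemma mem_primesOf {Sg : Finset ℕ} {q : Nat.Primes} : q ∈ primesOf Sg ↔ (q : ℕ) ∈ Sg :=
  Finset.mem_subtype

/-- the Prelude's place over a prime number (junk otherwise) -/
def natPlace (v : ℕ) : ValuationSubring (AlgebraicClosure ℚ) :=
  if h : v.Prime then primeLocalPlace ⟨v, h⟩ else ⊤

lemma natPlace_coe (q : Nat.Primes) : natPlace (q : ℕ) = primeLocalPlace q := by
  unfold natPlace
  rw [dif_pos q.2]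
  rfl

lemma natPlace_mk {v : ℕ} (hv : v.Prime) : natPlace v = primeLocalPlace ⟨v, hv⟩ :=
  natPlace_coe ⟨v, hv⟩

lemma natPlace_liesOver {v : ℕ} (hv : v.Prime) : (natPlace v).LiesOverPrime v := by
  rw [natPlace_mk hv]
  exact Fermat.Agent.S55.BLocal.primeLocalPlace_liesOver ⟨v, hv⟩

/-! ### Restriction of plain 2-cochains to the local Galois group -/

section Loc

variable {p : ℕ} [Fact p.Prime] {K : Type} [Field K] [Algebra (ZMod p) K]

/-- restriction of a plain 2-cochain to `G_q` -/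
def resLoc (q : Nat.Primes) (z : _root_.Fermat.Agent.S56.GQ × _root_.Fermat.Agent.S56.GQ → K) : Gl q × Gl q → K :=
  z ∘ Prod.map (rl q) (rl q)

lemma rl_mem (q : Nat.Primes) (s : Gl q) :
    rl q s ∈ (natPlace (q : ℕ)).decompositionSubgroup ℚ := by
  rw [natPlace_coe]
  exact Fermat.Agent.S55.BLocal.primeLocalToGlobal_mem q s

lemma exists_rl_eq (q : Nat.Primes) (σ : _root_.Fermat.Agent.S56.GQ)
    (hσ : σ ∈ (natPlace (q : ℕ)).decompositionSubgroup ℚ) : ∃ s : Gl q, rl q s = σ := by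
  rw [natPlace_coe] at hσ
  exact Fermat.Agent.S55.BLocal.exists_primeLocalToGlobal_eq q σ hσ

/-- `K(1)` restricted to `G_q` is uniformly smooth. -/
lemma isUSmooth_K1_loc (q : Nat.Primes) :
    (localLevels q).IsUSmooth (Rep.res (rl q) (K1 p K)) := by
  refine ⟨_, ⟨Fermat.Agent.S55.Bridge.cycloLevel p,
    Fermat.Agent.S55.Bridge.cycloLevel_finiteDimensional p, rfl⟩, fun s hs a => ?_⟩
  have h1 : cycloChar p (rl q s) = 1 :=
    Fermat.Agent.S55.Bridge.cycloChar_eq_one_of_mem_fixingSubgroup p _ hs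
  show (K1 p K).ρ (rl q s) a = a
  rw [twTriv_ρ_apply, h1, Units.val_one, one_smul]

/-- multiplication by `c ∈ K` is an equivariant endomorphism of `K(1)|_{G_q}` -/
lemma mulLeft_equivariant (q : Nat.Primes) (c : K) :
    IsEquivariant (A := Rep.res (rl q) (K1 p K)) (B := Rep.res (rl q) (K1 p K))
      (LinearMap.mulLeft (ZMod p) c) :=
  (twTriv_isEquivariant (cycloChar p) K (LinearMap.mulLeft (ZMod p) c)).res (rl q)

variable (p K) in
/-- The plain 2-cochains whose restriction to `G_q` is a level-constant 2-cocycle of `K(1)`. -/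
def Zloc (q : Nat.Primes) : Submodule K (_root_.Fermat.Agent.S56.GQ × _root_.Fermat.Agent.S56.GQ → K) where
  carrier := {z | resLoc q z ∈ (localLevels q).Z2 (Rep.res (rl q) (K1 p K))}
  add_mem' := by
    intro a b ha hb
    exact Submodule.add_mem ((localLevels q).Z2 (Rep.res (rl q) (K1 p K))) ha hb
  zero_mem' := Submodule.zero_mem ((localLevels q).Z2 (Rep.res (rl q) (K1 p K)))
  smul_mem' := by
    intro c z hz
    exact push_mem_Z2 (A := Rep.res (rl q) (K1 p K)) (B := Rep.res (rl q) (K1 p K))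
      (LinearMap.mulLeft (ZMod p) c) (mulLeft_equivariant q c) (localLevels q) hz

lemma mem_Zloc {q : Nat.Primes} {z : _root_.Fermat.Agent.S56.GQ × _root_.Fermat.Agent.S56.GQ → K} :
    z ∈ Zloc p K q ↔ resLoc q z ∈ (localLevels q).Z2 (Rep.res (rl q) (K1 p K)) := Iff.rfl

/-- the class in `H²(G_q, K(1))` of an element of `Zloc q` -/
def clsLoc (q : Nat.Primes) (z : ↥(Zloc p K q)) :
    (localLevels q).H2 (Rep.res (rl q) (K1 p K)) :=
  (localLevels q).H2π _ ⟨resLoc q z.1, z.2⟩

lemma clsLoc_add (q : Nat.Primes) (z z' : ↥(Zloc p K q)) :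
    clsLoc q (z + z') = clsLoc q z + clsLoc q z' := by
  unfold clsLoc
  rw [← map_add]
  rfl

lemma clsLoc_smul (q : Nat.Primes) (c : K) (z : ↥(Zloc p K q)) :
    clsLoc q (c • z) =
      pushH2 (A := Rep.res (rl q) (K1 p K)) (B := Rep.res (rl q) (K1 p K))
        (LinearMap.mulLeft (ZMod p) c) (mulLeft_equivariant q c) (localLevels q)
        (clsLoc q z) := by
  unfold clsLoc
  rw [pushH2_mk]
  congr 1

/-- A cochain which is a cocycle and level-constant on `D_q` lies in `Zloc q`. -/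
lemma mem_Zloc_of_isCoc (q : Nat.Primes) {z : _root_.Fermat.Agent.S56.GQ × _root_.Fermat.Agent.S56.GQ → K}
    (hc : IsCoc₂On p ((natPlace (q : ℕ)).decompositionSubgroup ℚ) z)
    (hl : IsLC₂On ((natPlace (q : ℕ)).decompositionSubgroup ℚ) z) : z ∈ Zloc p K q := by
  rw [mem_Zloc]
  refine ⟨?_, ?_⟩
  · show resLoc q z ∈ cocycles₂ (Rep.res (rl q) (K1 p K))
    rw [mem_cocycles₂_def]
    intro g h j
    obtain ⟨a, ha⟩ := exists_cycExp_invRec (p := p) (rl q g)
    rw [K1_ρ_rl_apply ha]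
    have h1 := hc _ (rl_mem q g) _ (rl_mem q h) _ (rl_mem q j) a ha
    show (a : K) * z (rl q h, rl q j) - z (rl q (g * h), rl q j) + z (rl q g, rl q (h * j))
      - z (rl q g, rl q h) = 0
    rw [map_mul, map_mul]
    linear_combination h1
  · obtain ⟨L, hL, hlev⟩ := hl
    refine ⟨_, ⟨L, hL, rfl⟩, fun g g' s s' hs hs' => ?_⟩
    show z (rl q (g * s), rl q (g' * s')) = z (rl q g, rl q g')
    rw [map_mul, map_mul]
    exact hlev _ (rl_mem q g) _ (rl_mem q g') _ (rl_mem q s) _ (rl_mem q s')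
      ((IntermediateField.mem_fixingSubgroup_iff _ _).1 hs)
      ((IntermediateField.mem_fixingSubgroup_iff _ _).1 hs')

/-- The restriction to `G_q` of a local coboundary is a coboundary of a level-constant cochain. -/
lemma resLoc_mem_B2_of_isCob (q : Nat.Primes) {z : _root_.Fermat.Agent.S56.GQ × _root_.Fermat.Agent.S56.GQ → K}
    (h : IsCob₂On p ((natPlace (q : ℕ)).decompositionSubgroup ℚ) z) :
    resLoc q z ∈ (localLevels q).B2 (Rep.res (rl q) (K1 p K)) := by
  obtain ⟨lam, ⟨L, hL, hlev⟩, hcob⟩ := h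
  refine ⟨fun s => lam (rl q s), ?_, ?_⟩
  · refine ⟨_, ⟨L, hL, rfl⟩, fun g s hs => ?_⟩
    show lam (rl q (g * s)) = lam (rl q g)
    rw [map_mul]
    exact hlev _ (rl_mem q g) _ (rl_mem q s) ((IntermediateField.mem_fixingSubgroup_iff _ _).1 hs)
  · funext ⟨g, h⟩
    obtain ⟨a, ha⟩ := exists_cycExp_invRec (p := p) (rl q g)
    have h1 := hcob _ (rl_mem q g) _ (rl_mem q h) a ha
    have hd : (d₁₂ (Rep.res (rl q) (K1 p K))).hom (fun s => lam (rl q s)) (g, h)
        = (Rep.res (rl q) (K1 p K)).ρ g (lam (rl q h)) - lam (rl q (g * h))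
          + lam (rl q g) := rfl
    rw [hd, K1_ρ_rl_apply ha, map_mul]
    exact h1.symm

lemma mem_Zloc_of_isCob (q : Nat.Primes) {z : _root_.Fermat.Agent.S56.GQ × _root_.Fermat.Agent.S56.GQ → K}
    (h : IsCob₂On p ((natPlace (q : ℕ)).decompositionSubgroup ℚ) z) : z ∈ Zloc p K q :=
  LevelSys.B2_le_Z2 (localLevels q) (H723.pullbackLevels_normalCofinal (rl q))
    (isUSmooth_K1_loc q) (resLoc_mem_B2_of_isCob q h)

lemma clsLoc_eq_zero_of_isCob (q : Nat.Primes) {z : _root_.Fermat.Agent.S56.GQ × _root_.Fermat.Agent.S56.GQ → K}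
    (h : IsCob₂On p ((natPlace (q : ℕ)).decompositionSubgroup ℚ) z) :
    clsLoc q ⟨z, mem_Zloc_of_isCob q h⟩ = 0 := by
  unfold clsLoc
  rw [LevelSys.H2π_eq_zero_iff]
  exact resLoc_mem_B2_of_isCob q h

/-- A cochain of `Zloc q` with trivial class is a coboundary on `D_q`. -/
lemma isCob_of_clsLoc_eq_zero (q : Nat.Primes) (z : ↥(Zloc p K q)) (h : clsLoc q z = 0) :
    IsCob₂On p ((natPlace (q : ℕ)).decompositionSubgroup ℚ) z.1 := by
  unfold clsLoc at h
  rw [LevelSys.H2π_eq_zero_iff] at h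
  obtain ⟨x, ⟨U, ⟨F, hF, rfl⟩, hxU⟩, hdx⟩ := h
  classical
  have hker : ∀ s s' : Gl q, rl q s = rl q s' → x s = x s' := by
    intro s s' hss
    have hmem : s⁻¹ * s' ∈ (F.fixingSubgroup).comap (rl q) := by
      rw [Subgroup.mem_comap, map_mul, map_inv, hss, inv_mul_cancel]
      exact Subgroup.one_mem _
    have := hxU s (s⁻¹ * s') hmem
    rw [mul_inv_cancel_left] at this
    exact this.symm
  let lam : _root_.Fermat.Agent.S56.GQ → K := fun σ => if hσ : ∃ s : Gl q, rl q s = σ then x hσ.choose else 0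
  have hlam : ∀ s : Gl q, lam (rl q s) = x s := by
    intro s
    have hσ : ∃ s' : Gl q, rl q s' = rl q s := ⟨s, rfl⟩
    show (if hσ : ∃ s' : Gl q, rl q s' = rl q s then x hσ.choose else 0) = x s
    rw [dif_pos hσ]
    exact hker _ _ hσ.choose_spec
  refine ⟨lam, ⟨F, hF, ?_⟩, ?_⟩
  · intro σ hσ τ hτ hτF
    obtain ⟨s, rfl⟩ := exists_rl_eq q σ hσ
    obtain ⟨t, rfl⟩ := exists_rl_eq q τ hτ
    rw [← map_mul, hlam, hlam]
    exact hxU s t ((IntermediateField.mem_fixingSubgroup_iff _ _).2 hτF)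
  · intro σ hσ τ hτ a ha
    obtain ⟨s, rfl⟩ := exists_rl_eq q σ hσ
    obtain ⟨t, rfl⟩ := exists_rl_eq q τ hτ
    have h1 := congrFun hdx (s, t)
    have hd : (d₁₂ (Rep.res (rl q) (K1 p K))).hom x (s, t)
        = (Rep.res (rl q) (K1 p K)).ρ s (x t) - x (s * t) + x s := rfl
    rw [hd, K1_ρ_rl_apply ha] at h1
    rw [← map_mul, hlam, hlam, hlam]
    exact h1.symm

/-! ### The local invariant on `Zloc` -/

variable {S : Finset Nat.Primes} [FiniteDimensional (ZMod p) K]

/-- the `K`-linear invariant on `Zloc v` -/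
def Jloc (inv : InvFamily p S) (v : ↥S) : ↥(Zloc p K v.1) →ₗ[K] K where
  toFun z := extInvLoc inv v (clsLoc v.1 z)
  map_add' z z' := by rw [clsLoc_add, map_add]
  map_smul' c z := by
    rw [clsLoc_smul, RingHom.id_apply, smul_eq_mul]
    have h := extInv_pushH2_endo (W := K) (localLevels v.1) ((cycloChar p).comp (rl v.1))
      (inv v) (LinearMap.mulLeft (ZMod p) c) (clsLoc v.1 z)
    rw [LinearMap.mulLeft_apply] at h
    exact h

lemma Jloc_apply (inv : InvFamily p S) (v : ↥S) (z : ↥(Zloc p K v.1)) :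
    Jloc inv v z = extInvLoc inv v (clsLoc v.1 z) := rfl

/-- a `K`-linear extension of `Jloc` to all plain 2-cochains -/
def invExt (inv : InvFamily p S) (v : ↥S) : (_root_.Fermat.Agent.S56.GQ × _root_.Fermat.Agent.S56.GQ → K) →ₗ[K] K :=
  Classical.choose (LinearMap.exists_extend (Jloc (K := K) inv v))

lemma invExt_apply (inv : InvFamily p S) (v : ↥S) {z : _root_.Fermat.Agent.S56.GQ × _root_.Fermat.Agent.S56.GQ → K}
    (hz : z ∈ Zloc p K v.1) : invExt inv v z = extInvLoc inv v (clsLoc v.1 ⟨z, hz⟩) := by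
  have h := Classical.choose_spec (LinearMap.exists_extend (Jloc (K := K) inv v))
  have h2 := LinearMap.congr_fun h ⟨z, hz⟩
  exact h2

/-- (cob) -/
theorem invExt_eq_zero_of_isCob (inv : InvFamily p S) (v : ↥S) {z : _root_.Fermat.Agent.S56.GQ × _root_.Fermat.Agent.S56.GQ → K}
    (h : IsCob₂On p ((natPlace ((v.1 : Nat.Primes) : ℕ)).decompositionSubgroup ℚ) z) :
    invExt inv v z = 0 := by
  rw [invExt_apply inv v (mem_Zloc_of_isCob v.1 h), clsLoc_eq_zero_of_isCob v.1 h, map_zero]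

/-- (inj) -/
theorem isCob_of_invExt_eq_zero {inv : InvFamily p S} (htop : TopLocIndSpec inv) (v : ↥S)
    (hvp : ((v.1 : Nat.Primes) : ℕ) ≠ p) (hdvd : p ∣ ((v.1 : Nat.Primes) : ℕ) - 1)
    {z : _root_.Fermat.Agent.S56.GQ × _root_.Fermat.Agent.S56.GQ → K}
    (hc : IsCoc₂On p ((natPlace ((v.1 : Nat.Primes) : ℕ)).decompositionSubgroup ℚ) z)
    (hl : IsLC₂On ((natPlace ((v.1 : Nat.Primes) : ℕ)).decompositionSubgroup ℚ) z)
    (h0 : invExt inv v z = 0) :
    IsCob₂On p ((natPlace ((v.1 : Nat.Primes) : ℕ)).decompositionSubgroup ℚ) z := by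
  have hz : z ∈ Zloc p K v.1 := mem_Zloc_of_isCoc v.1 hc hl
  rw [invExt_apply inv v hz] at h0
  have hinj : Function.Injective (inv v) := (inv_bijective_of_dvd_sub_one htop v hvp hdvd).1
  have h1 : extInv (W := K) (localLevels v.1) ((cycloChar p).comp (rl v.1)) (inv v)
      (clsLoc v.1 ⟨z, hz⟩) = 0 := h0
  have h2 := (extInv_eq_zero_iff (W := K) (localLevels v.1) ((cycloChar p).comp (rl v.1))
    (inv := inv v) hinj (clsLoc v.1 ⟨z, hz⟩)).1 h1
  exact isCob_of_clsLoc_eq_zero v.1 ⟨z, hz⟩ h2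

end Loc

/-! ### Global cocycles and reciprocity -/

section Glob

variable {p : ℕ} [Fact p.Prime] {K : Type} [Field K] [Algebra (ZMod p) K]

omit [Fact p.Prime] [Algebra (ZMod p) K] in
/-- A global plain 2-cocycle (`IsGlobZ`) is good in the sense of `H14/InvRec.lean`. -/
lemma isGood2_of_isGlobZ {Sg : Finset ℕ} {z : _root_.Fermat.Agent.S56.GQ × _root_.Fermat.Agent.S56.GQ → K} (hz : IsGlobZ p Sg z) :
    IsGood2 p (primesOf Sg) z := by
  obtain ⟨hc, L, hL, hur, hlev⟩ := hz
  refine ⟨fun σ τ υ a ha => ?_, ⟨L, ⟨hL, fun q hq A hA s hs => ?_⟩, fun g g' s s' hs hs' => ?_⟩⟩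
  · have h1 := hc σ (Subgroup.mem_top _) τ (Subgroup.mem_top _) υ (Subgroup.mem_top _) a ha
    linear_combination h1
  · rw [IntermediateField.mem_fixingSubgroup_iff]
    exact hur q q.2 (fun h => hq (mem_primesOf.2 h)) A hA s hs
  · exact hlev g g' s s' ((IntermediateField.mem_fixingSubgroup_iff _ _).1 hs)
      ((IntermediateField.mem_fixingSubgroup_iff _ _).1 hs')

variable [FiniteDimensional (ZMod p) K]

/-- (recip) in terms of `invExt`. -/
theorem sum_invExt_eq_zero {Sg : Finset ℕ} {inv : InvFamily p (primesOf Sg)}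
    (hrec : RecipSpec inv) {z : _root_.Fermat.Agent.S56.GQ × _root_.Fermat.Agent.S56.GQ → K} (hz : IsGlobZ p Sg z) :
    ∑ v : ↥(primesOf Sg), invExt inv v z = 0 := by
  have hg := isGood2_of_isGlobZ hz
  rw [← sum_invH_eq_zero hrec (cls2 hg)]
  refine Finset.sum_congr rfl fun v _ => ?_
  have hmem : z ∈ Zloc p K v.1 :=
    res_mem_Z2 (hrl (primesOf Sg) v) (K1 p K) (mem_Z2_of_isGood2 hg)
  rw [invExt_apply inv v hmem]
  rfl

end Glob

/-! ### The statement -/

/-- **RECIP**: the plain reciprocity package, from S55's `InvSpec`. -/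
theorem plainRecip_of
    (hS55 : ∀ (p : ℕ) [Fact p.Prime] (S : Finset Nat.Primes), p ≠ 2 → pPrime p ∈ S →
      InvSpec p S) : PlainRecipStatement := by
  intro K _ _ p _ hp hp2 Sg hpSg hSg
  have : Fact p.Prime := ⟨hp⟩
  let _ : Algebra (ZMod p) K := ZMod.algebra K p
  have : FiniteDimensional (ZMod p) K := Module.Finite.of_finite
  have hpS : pPrime p ∈ primesOf Sg := mem_primesOf.2 hpSg
  obtain ⟨inv, hrec, htop, -⟩ := hS55 p (primesOf Sg) hp2 hpS
  classical
  -- the index of a prime of `Sg` in `primesOf Sg`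
  let idx : ∀ v : ℕ, v ∈ Sg → ↥(primesOf Sg) :=
    fun v hv => ⟨⟨v, hSg v hv⟩, mem_primesOf.2 hv⟩
  let invN : ℕ → (_root_.Fermat.Agent.S56.GQ × _root_.Fermat.Agent.S56.GQ → K) →ₗ[K] K :=
    fun v => if hv : v ∈ Sg then invExt inv (idx v hv) else 0
  have hinvN : ∀ (v : ℕ) (hv : v ∈ Sg), invN v = invExt inv (idx v hv) := by
    intro v hv
    show (if hv : v ∈ Sg then invExt inv (idx v hv) else 0) = _
    rw [dif_pos hv]
  refine ⟨natPlace, invN, fun v hv => natPlace_liesOver (hSg v hv), ?_, ?_, ?_⟩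
  · intro v hv z hz
    rw [hinvN v hv]
    exact invExt_eq_zero_of_isCob inv (idx v hv) hz
  · intro v hv hdvd z hc hl h0
    rw [hinvN v hv] at h0
    have hvp : v ≠ p := by
      rintro rfl
      have h1 : v ≤ v - 1 := Nat.le_of_dvd (Nat.sub_pos_of_lt hp.one_lt) hdvd
      have h2 := hp.pos
      omega
    exact isCob_of_invExt_eq_zero htop (idx v hv) hvp hdvd hc hl h0
  · intro z hz
    have h1 := sum_invExt_eq_zero hrec hz
    have h2 : ∑ v ∈ Sg, invN v z = ∑ q ∈ primesOf Sg, invN (q : ℕ) z :=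
      (Finset.sum_subtype_of_mem (fun v => invN v z) hSg).symm
    rw [h2, ← Finset.sum_coe_sort (primesOf Sg) (fun q => invN (q : ℕ) z), ← h1]
    refine Finset.sum_congr rfl fun w _ => ?_
    have hw : ((w.1 : Nat.Primes) : ℕ) ∈ Sg := mem_primesOf.1 w.2
    have hidx : idx _ hw = w := Subtype.ext (Subtype.ext rfl)
    rw [hinvN _ hw, hidx]

end Fermat.Agent.S56.RQ.H14

end

end
-- ===== PACK-END S56/RQ/RecipH14.lean

-- ===== PACK-BEGIN S59/H247/TangentFinite.lean
section




/-!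
# S59 / G3-TF: `GaloisRep.TangentFinite` for every deformation condition which forces
"unramified outside a finite set `S`"

Main results:

* `tangentFinite_of_unramified_outside`
* `tangentFinite_flatCondition`, `tangentFinite_strictOrdinaryCondition`,
  `tangentFinite_ordinaryCondition`, and the `minimal…` variants.
-/

set_option autoImplicit false
set_option linter.style.haveILetI false
set_option linter.unusedSectionVars false

namespace Fermat.Agent.S59.H247

open scoped TensorProduct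

section Finite

variable (k : Type) [Field k] [Finite k]

theorem finite_dualNumber : Finite (DualNumber k) :=
  Finite.of_equiv (k × k) (Equiv.refl _)

/-- the restriction of an automorphism of `ℚ̄` to a subfield -/
noncomputable def restrictTo (M : IntermediateField ℚ (AlgebraicClosure ℚ))
    (σ : AlgebraicClosure ℚ ≃ₐ[ℚ] AlgebraicClosure ℚ) : M →ₐ[ℚ] AlgebraicClosure ℚ :=
  (σ : AlgebraicClosure ℚ →ₐ[ℚ] AlgebraicClosure ℚ).comp M.val

/-- a chosen automorphism with given restriction (junk value `1` if there is none) -/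
noncomputable def liftOf (M : IntermediateField ℚ (AlgebraicClosure ℚ))
    (e : M →ₐ[ℚ] AlgebraicClosure ℚ) : AlgebraicClosure ℚ ≃ₐ[ℚ] AlgebraicClosure ℚ :=
  open Classical in if h : ∃ σ, restrictTo M σ = e then h.choose else 1

theorem restrictTo_liftOf (M : IntermediateField ℚ (AlgebraicClosure ℚ))
    (σ : AlgebraicClosure ℚ ≃ₐ[ℚ] AlgebraicClosure ℚ) :
    restrictTo M (liftOf M (restrictTo M σ)) = restrictTo M σ := by
  have h : ∃ τ, restrictTo M τ = restrictTo M σ := ⟨σ, rfl⟩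
  unfold liftOf
  rw [dif_pos h]
  exact h.choose_spec

variable {k}

/-- a representation which is trivial on `G_M` is determined by its values on the chosen lifts -/
theorem rho_liftOf {M : IntermediateField ℚ (AlgebraicClosure ℚ)}
    {ρ : GaloisRepAdic (DualNumber k)}
    (hρ : ∀ σ : AlgebraicClosure ℚ ≃ₐ[ℚ] AlgebraicClosure ℚ, (∀ x ∈ M, σ x = x) → ρ.ρ σ = 1)
    (σ : AlgebraicClosure ℚ ≃ₐ[ℚ] AlgebraicClosure ℚ) :
    ρ.ρ (liftOf M (restrictTo M σ)) = ρ.ρ σ := by
  set σ' := liftOf M (restrictTo M σ) with hσ'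
  have h1 : ∀ x ∈ M, σ' x = σ x := by
    intro x hx
    have := congrArg (fun e : M →ₐ[ℚ] AlgebraicClosure ℚ => e ⟨x, hx⟩) (restrictTo_liftOf M σ)
    exact this
  have h2 : ρ.ρ (σ⁻¹ * σ') = 1 := by
    apply hρ
    intro x hx
    show σ⁻¹ (σ' x) = x
    rw [h1 x hx]
    show (σ⁻¹ * σ) x = x
    rw [inv_mul_cancel]; rfl
  have h3 : σ' = σ * (σ⁻¹ * σ') := by rw [mul_inv_cancel_left]
  rw [h3, map_mul, h2, mul_one]

/-- the chosen basis of the underlying module -/
noncomputable def chosenBasis (ρ : GaloisRepAdic (DualNumber k)) :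
    Module.Basis (Fin 2) (DualNumber k) ρ.V :=
  Module.finBasisOfFinrankEq (DualNumber k) ρ.V ρ.finrank_eq

/-- the matrix invariant of a representation -/
noncomputable def matInv (M : IntermediateField ℚ (AlgebraicClosure ℚ))
    (ρ : GaloisRepAdic (DualNumber k)) (e : M →ₐ[ℚ] AlgebraicClosure ℚ) :
    Matrix (Fin 2) (Fin 2) (DualNumber k) :=
  LinearMap.toMatrix (chosenBasis ρ) (chosenBasis ρ) (ρ.ρ (liftOf M e))

/-- representations with the same matrix invariant are equivalent -/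
theorem isEquiv_of_matInv_eq {M : IntermediateField ℚ (AlgebraicClosure ℚ)}
    {ρ₁ ρ₂ : GaloisRepAdic (DualNumber k)}
    (h₁ : ∀ σ : AlgebraicClosure ℚ ≃ₐ[ℚ] AlgebraicClosure ℚ, (∀ x ∈ M, σ x = x) → ρ₁.ρ σ = 1)
    (h₂ : ∀ σ : AlgebraicClosure ℚ ≃ₐ[ℚ] AlgebraicClosure ℚ, (∀ x ∈ M, σ x = x) → ρ₂.ρ σ = 1)
    (h : matInv M ρ₁ = matInv M ρ₂) : ρ₁.IsEquiv ρ₂ := by
  set ℓ : ρ₁.V ≃ₗ[DualNumber k] ρ₂.V := (chosenBasis ρ₁).equiv (chosenBasis ρ₂) (Equiv.refl _)
    with hℓ
  have hℓb : ∀ i, ℓ (chosenBasis ρ₁ i) = chosenBasis ρ₂ i := fun i => by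
    rw [hℓ, Module.Basis.equiv_apply]
    rfl
  refine ⟨⟨ℓ, fun σ x => ?_⟩⟩
  have hmat : LinearMap.toMatrix (chosenBasis ρ₁) (chosenBasis ρ₁) (ρ₁.ρ σ)
      = LinearMap.toMatrix (chosenBasis ρ₂) (chosenBasis ρ₂) (ρ₂.ρ σ) := by
    have := congrFun h (restrictTo M σ)
    unfold matInv at this
    rwa [rho_liftOf h₁, rho_liftOf h₂] at this
  have hcomp : (ℓ : ρ₁.V →ₗ[DualNumber k] ρ₂.V) ∘ₗ (ρ₁.ρ σ)
      = (ρ₂.ρ σ) ∘ₗ (ℓ : ρ₁.V →ₗ[DualNumber k] ρ₂.V) := by
    apply (chosenBasis ρ₁).ext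
    intro j
    simp only [LinearMap.comp_apply, LinearEquiv.coe_coe, hℓb]
    rw [← (chosenBasis ρ₁).sum_repr (ρ₁.ρ σ (chosenBasis ρ₁ j)),
      ← (chosenBasis ρ₂).sum_repr (ρ₂.ρ σ (chosenBasis ρ₂ j)), map_sum]
    refine Finset.sum_congr rfl fun i _ => ?_
    rw [map_smul, hℓb]
    congr 1
    have := congrFun (congrFun hmat i) j
    rwa [LinearMap.toMatrix_apply, LinearMap.toMatrix_apply] at this
  exact congrArg (fun f : ρ₁.V →ₗ[DualNumber k] ρ₂.V => f x) hcomp

variable (k)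

/-- **Finiteness of the set of equivalence classes of representations of bounded level.** -/
theorem finite_quotient_of_level (M : IntermediateField ℚ (AlgebraicClosure ℚ))
    [FiniteDimensional ℚ M] (P : GaloisRepAdic (DualNumber k) → Prop)
    (hP : ∀ ρ, P ρ → ∀ σ : AlgebraicClosure ℚ ≃ₐ[ℚ] AlgebraicClosure ℚ,
      (∀ x ∈ M, σ x = x) → ρ.ρ σ = 1)
    (r : Setoid {ρ : GaloisRepAdic (DualNumber k) // P ρ})
    (hr : ∀ ρ ρ' : {ρ : GaloisRepAdic (DualNumber k) // P ρ}, ρ.1.IsEquiv ρ'.1 → r ρ ρ') :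
    Finite (Quotient r) := by
  haveI := finite_dualNumber k
  haveI : Finite (Matrix (Fin 2) (Fin 2) (DualNumber k)) :=
    inferInstanceAs (Finite (Fin 2 → Fin 2 → DualNumber k))
  let g : Quotient r → ((M →ₐ[ℚ] AlgebraicClosure ℚ) → Matrix (Fin 2) (Fin 2) (DualNumber k)) :=
    fun q => matInv M q.out.1
  refine Finite.of_injective g fun q q' hqq' => ?_
  have h1 : q.out.1.IsEquiv q'.out.1 :=
    isEquiv_of_matInv_eq (hP _ q.out.2) (hP _ q'.out.2) hqq'
  have h2 : r q.out q'.out := hr _ _ h1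
  rw [← Quotient.out_eq q, ← Quotient.out_eq q']
  exact Quotient.sound h2

end Finite

section Tangent

open IsLocalRing

variable (𝒪 : Type) [CommRing 𝒪] [IsLocalRing 𝒪] [Finite (ResidueField 𝒪)]

omit [IsLocalRing 𝒪] [Finite (ResidueField 𝒪)] in
/-- base change of a trivial value is trivial (for an arbitrary algebra structure) -/
theorem baseChange_rho_eq_one {k k' : Type} [Field k] [Field k'] {inst : Algebra k k'}
    (ρbar : ResidualGaloisRep k) {τ : AlgebraicClosure ℚ ≃ₐ[ℚ] AlgebraicClosure ℚ}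
    (h : ρbar.ρ τ = 1) : (@ResidualGaloisRep.baseChange k _ k' _ inst ρbar).ρ τ = 1 := by
  show (ρbar.ρ τ).baseChange k' = 1
  rw [h, LinearMap.baseChange_one]

/-- **Tangent finiteness.** Every deformation condition which forces the deformations to the dual
numbers to be unramified outside a fixed finite set `S` of primes has a finite tangent space. -/
theorem tangentFinite_of_unramified_outside
    (ρbar : ResidualGaloisRep (ResidueField 𝒪))
    (𝒟 : ∀ ⦃A : Type⦄ [CommRing A] [IsLocalRing A] [Algebra 𝒪 A], GaloisRepAdic A → Prop)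
    (S : Finset ℕ)
    (h𝒟 : ∀ (inst : Algebra 𝒪 (DualNumber (ResidueField 𝒪)))
      (ρ : GaloisRepAdic (DualNumber (ResidueField 𝒪))),
      @𝒟 (DualNumber (ResidueField 𝒪)) _ _ inst ρ →
        ∀ q : ℕ, q.Prime → q ∉ S → ρ.IsUnramifiedAt q) :
    GaloisRep.TangentFinite 𝒪 ρbar 𝒟 := by
  obtain ⟨L₀, hL₀, hρbar⟩ := ρbar.factorsThroughFiniteLevel
  obtain ⟨M, hM, hlevel⟩ := exists_level_dualNumber (ResidueField 𝒪) L₀ S
  unfold GaloisRep.TangentFinite
  refine finite_quotient_of_level (ResidueField 𝒪) M _ ?_ _ (fun _ _ h => h)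
  rintro ρ ⟨hD, hres⟩ σ hσ
  refine hlevel ρ (h𝒟 _ ρ hD) ?_ σ hσ
  intro τ hτ
  obtain ⟨e⟩ := hres
  apply LinearMap.ext
  intro x
  apply e.toLinearEquiv.injective
  rw [e.map_apply]
  rw [baseChange_rho_eq_one ρbar (hρbar τ hτ)]
  rfl

variable (ρbar : ResidualGaloisRep (ResidueField 𝒪)) (p : ℕ) (S Smin : Finset ℕ)

/-- tangent finiteness for a conjunction whose first component forces "unramified outside `S`" -/
theorem tangentFinite_and
    (𝒟 𝒟' : ∀ ⦃A : Type⦄ [CommRing A] [IsLocalRing A] [Algebra 𝒪 A], GaloisRepAdic A → Prop)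
    (h𝒟 : ∀ (inst : Algebra 𝒪 (DualNumber (ResidueField 𝒪)))
      (ρ : GaloisRepAdic (DualNumber (ResidueField 𝒪))),
      @𝒟 (DualNumber (ResidueField 𝒪)) _ _ inst ρ →
        ∀ q : ℕ, q.Prime → q ∉ S → ρ.IsUnramifiedAt q) :
    GaloisRep.TangentFinite 𝒪 ρbar (fun _A _ _ _ ρ => 𝒟 ρ ∧ 𝒟' ρ) :=
  tangentFinite_of_unramified_outside 𝒪 ρbar _ S fun inst ρ h => h𝒟 inst ρ h.1

theorem tangentFinite_ordinaryCondition :
    GaloisRep.TangentFinite 𝒪 ρbar (GaloisRep.ordinaryCondition 𝒪 p S) :=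
  tangentFinite_of_unramified_outside 𝒪 ρbar _ S fun _ _ h => h.2.2

theorem tangentFinite_minimalOrdinaryCondition :
    GaloisRep.TangentFinite 𝒪 ρbar (GaloisRep.minimalOrdinaryCondition 𝒪 p S) :=
  tangentFinite_of_unramified_outside 𝒪 ρbar _ S fun _ _ h => h.1.2.2

theorem tangentFinite_strictOrdinaryCondition :
    GaloisRep.TangentFinite 𝒪 ρbar (GaloisRep.strictOrdinaryCondition 𝒪 p S) :=
  tangentFinite_of_unramified_outside 𝒪 ρbar _ S fun _ _ h => h.2.2

theorem tangentFinite_minimalStrictOrdinaryCondition :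
    GaloisRep.TangentFinite 𝒪 ρbar (GaloisRep.minimalStrictOrdinaryCondition 𝒪 p S) :=
  tangentFinite_of_unramified_outside 𝒪 ρbar _ S fun _ _ h => h.1.2.2

theorem tangentFinite_flatCondition :
    GaloisRep.TangentFinite 𝒪 ρbar (GaloisRep.flatCondition 𝒪 p S) :=
  tangentFinite_of_unramified_outside 𝒪 ρbar _ S fun _ _ h => h.2.2

theorem tangentFinite_minimalFlatCondition :
    GaloisRep.TangentFinite 𝒪 ρbar (GaloisRep.minimalFlatCondition 𝒪 p S) :=
  tangentFinite_of_unramified_outside 𝒪 ρbar _ S fun _ _ h => h.1.2.2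

/-- the strict-ordinary Taylor–Wiles condition of the frozen statement S56 -/
theorem tangentFinite_strictOrdinary_unipotent :
    GaloisRep.TangentFinite 𝒪 ρbar (fun _A _ _ _ ρ =>
      GaloisRep.strictOrdinaryCondition 𝒪 p S ρ ∧
        ∀ q ∈ Smin, q.Prime → q ≠ p → ρ.IsUnipotentOnInertiaAt q) :=
  tangentFinite_of_unramified_outside 𝒪 ρbar _ S fun _ _ h => h.1.2.2

/-- the flat Taylor–Wiles condition of the frozen statement S56 -/
theorem tangentFinite_flat_unipotent :
    GaloisRep.TangentFinite 𝒪 ρbar (fun _A _ _ _ ρ =>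
      GaloisRep.flatCondition 𝒪 p S ρ ∧
        ∀ q ∈ Smin, q.Prime → q ≠ p → ρ.IsUnipotentOnInertiaAt q) :=
  tangentFinite_of_unramified_outside 𝒪 ρbar _ S fun _ _ h => h.1.2.2

end Tangent

end Fermat.Agent.S59.H247

end
-- ===== PACK-END S59/H247/TangentFinite.lean

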