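import Fermat.Prelude.Def_GaloisRep_Flat
import Fermat.Agent.Pack.S43GC.G0E18L0
import Fermat.Agent.Pack.S43GC.G0E3L2
import Fermat.Agent.Pack.S43GC.G0E8L3
import Fermat.Agent.Pack.S43GC.G0E18L1
import Fermat.Agent.Pack.S43GC.G0E18L2
import Fermat.Agent.Pack.S43GC.G0E14L3
import Fermat.Agent.Pack.S43GC.G0E10L0
import Fermat.Agent.Pack.S43GC.G0E12L3
import Fermat.Agent.Pack.S43GC.G0E14L1
import Fermat.Agent.Pack.S43GC.G0E10L2
import Fermat.Agent.Pack.S43GC.G0E11L1
import Fermat.Agent.Pack.S43GC.G0E18L3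
import Fermat.Agent.Pack.S43GC.G0E2L2
import Fermat.Agent.Pack.S43GC.G0E16L3
import Fermat.Agent.Pack.S44C.G0E0L3
import Fermat.Agent.Pack.S43GC.G0E15L1
import Fermat.Agent.Pack.S43GC.G0E2L3
import Fermat.Agent.Pack.S43GC.G0E17L2
import Fermat.Agent.Pack.S43GC.G0E15L2
import Fermat.Agent.Pack.S43GC.G0E16L2
import Fermat.Agent.Pack.S43GC.G0E9L3
import Fermat.Agent.Pack.Fast891

-- ===== PACK-BEGIN S55/G/Rec/Tow/H417/AlgA.lean
section
/-
S55 / REC2-TOW, leaf ALG-A (helper417): `exactCount : ExactCountSpec`,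
`pPrimaryLift : PPrimaryLiftSpec`.  Elementary, Mathlib only.
-/


set_option autoImplicit false

namespace Fermat.Agent.S55.G.Rec.TOW.H417

open Fermat.Agent.S55

/-- **ALG-EX**: exactness by counting. -/
theorem exactCount : ExactCountSpec := by
  intro X Y T _ _ _ j σ m hm hker hfin hdvd ⟨y₀, hy₀⟩
  classical
  have := hfin
  let _ : Fintype Y := Fintype.ofFinite Y
  -- the map `t ↦ j (t • y₀)` on `Fin m` is injective
  let f : Fin m → Y := fun t => j ((t : ℕ) • y₀)
  have key : ∀ a b : ℕ, a ≤ b → b < m → j (a • y₀) = j (b • y₀) → a = b := by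
    intro a b hab hb h
    have h1 : j ((b - a) • y₀) = 0 := by
      have : (b - a) • y₀ = b • y₀ - a • y₀ := by
        rw [eq_sub_iff_add_eq, ← add_smul, Nat.sub_add_cancel hab]
      rw [this, map_sub, h, sub_self]
    have h2 : (b - a) • σ y₀ = 0 := by
      rw [← map_nsmul]
      exact hker _ h1
    have h3 : m ∣ b - a := hy₀ _ h2
    have h4 : b - a = 0 := Nat.eq_zero_of_dvd_of_lt h3 (lt_of_le_of_lt (Nat.sub_le b a) hb)
    omega
  have hf : Function.Injective f := by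
    intro s t hst
    apply Fin.ext
    rcases le_total (s : ℕ) (t : ℕ) with h | h
    · exact key _ _ h t.2 hst
    · exact (key _ _ h s.2 hst.symm).symm
  have hcard_le : m ≤ Nat.card Y := by
    have := Fintype.card_le_of_injective f hf
    rwa [Fintype.card_fin, ← Nat.card_eq_fintype_card] at this
  have hcard : Nat.card Y = m := le_antisymm (Nat.le_of_dvd hm hdvd) hcard_le
  have hbij : Function.Bijective f := by
    rw [Fintype.bijective_iff_injective_and_card]
    refine ⟨hf, ?_⟩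
    rw [Fintype.card_fin, ← Nat.card_eq_fintype_card, hcard]
  refine ⟨?_, hcard⟩
  intro x hx
  obtain ⟨t, ht⟩ := hbij.2 (j x)
  have h1 : j (x - (t : ℕ) • y₀) = 0 := by
    rw [map_sub]
    change j x - f t = 0
    rw [ht, sub_self]
  have h2 : σ (x - (t : ℕ) • y₀) = 0 := hker _ h1
  have h3 : (t : ℕ) • σ y₀ = 0 := by
    rw [map_sub, hx, zero_sub, neg_eq_zero, map_nsmul] at h2
    exact h2
  have h4 : (t : ℕ) = 0 := Nat.eq_zero_of_dvd_of_lt (hy₀ _ h3) t.2
  rw [← ht]
  change j ((t : ℕ) • y₀) = 0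
  rw [h4, zero_smul, map_zero]

/-- **ALG-PP**: `p`-primary lifts. -/
theorem pPrimaryLift : PPrimaryLiftSpec := by
  intro p hp X Y _ _ f N hN hkill x ⟨b, hb⟩
  -- `N = p ^ a * N'` with `p ∤ N'`
  obtain ⟨a, N', hN', hNeq⟩ := Nat.exists_eq_pow_mul_and_not_dvd hN.ne' p hp.ne_one
  have hcop : Nat.Coprime (p ^ (a + b)) N' :=
    Nat.Coprime.pow_left _ ((Nat.Prime.coprime_iff_not_dvd hp).2 hN')
  obtain ⟨e, he1, he0⟩ := Nat.chineseRemainder hcop 1 0
  refine ⟨e • x, ⟨a + b, ?_⟩, ?_⟩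
  · -- `p ^ (a+b) • e • x = 0`
    have h0 : N' ∣ e := (Nat.modEq_zero_iff_dvd).1 he0
    obtain ⟨u, hu⟩ := h0
    have : p ^ (a + b) * e = N * (p ^ b * u) := by
      rw [hu, hNeq, pow_add]; ring
    rw [smul_smul, this, mul_comm, mul_smul, hkill, smul_zero]
  · -- `f (e • x) = f x`
    rw [map_nsmul]
    have h1 : (p ^ (a + b) : ℤ) ∣ (e : ℤ) - 1 := by
      have := (Nat.modEq_iff_dvd.1 he1.symm)
      simpa using this
    obtain ⟨u, hu⟩ := h1
    have h2 : ((p ^ (a + b) : ℕ) : ℤ) • f x = 0 := by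
      rw [natCast_zsmul, pow_add, mul_smul, hb, smul_zero]
    have h3 : (e : ℤ) = 1 + (p ^ (a + b) : ℤ) * u := by linarith
    have h4 : ((e : ℤ)) • f x = f x := by
      rw [h3, add_smul, one_smul, mul_comm, mul_smul]
      have : ((p : ℤ) ^ (a + b)) • f x = 0 := by
        have := h2
        push_cast at this
        exact this
      rw [this, smul_zero, add_zero]
    rw [← natCast_zsmul]
    exact h4

end Fermat.Agent.S55.G.Rec.TOW.H417

end
-- ===== PACK-END S55/G/Rec/Tow/H417/AlgA.lean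

-- ===== PACK-BEGIN S55/Local/H713/T3.lean
section




/-!
# S55 layer L, piece T3 : the local norm index for cyclic extensions (helper713)

`cyclicNormIndex : CyclicNormIndexStatement`, i.e. `[Kˣ : N(Lˣ)] = [L : K]` for a cyclic
extension `L / K` of local fields, in the exact shape of `Local/Spec.lean`.

Proof: the integral closure of `A` in `L` is a Galois-stable valuation subring of `L` which is a
complete discrete valuation ring with finite residue field (LF0, LF1 on main), so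
`Fermat.Agent.S55.H713.norm_index_eq_finrank` applies.

Reusable: `intVS A F L : ValuationSubring L` (the ring of integers), `mem_intVS`,
`isDVR_intVS`, `isAdicComplete_intVS`, `finite_residueField_intVS`, `galStable_intVS`.
-/

set_option autoImplicit false
set_option linter.unusedSectionVars false
set_option linter.style.haveILetI false

namespace Fermat.Agent.S55.Local.H713

open Fermat.Agent.S55.Local IsLocalRing

section

variable (A F : Type) [CommRing A] [IsDomain A] [IsDiscreteValuationRing A]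
  [IsAdicComplete (IsLocalRing.maximalIdeal A) A] [Finite (IsLocalRing.ResidueField A)]
  [Field F] [CharZero F] [Algebra A F] [IsFractionRing A F]
  (L : Type) [Field L] [Algebra F L] [FiniteDimensional F L]

/-- The ring of integers of the local field `L`, as a valuation subring. -/
noncomputable def intVS : ValuationSubring L :=
  letI : Algebra A L := (toL A F L).toAlgebra
  { (integralClosure A L).toSubring with
    mem_or_inv_mem' := fun x => H904.intOrInv A F L x }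

lemma mem_intVS (x : L) : x ∈ intVS A F L ↔ IsInt A F L x := Iff.rfl

/-- The integral closure and the valuation subring are the same ring. -/
noncomputable def intVSEquiv :
    letI : Algebra A L := (toL A F L).toAlgebra
    integralClosure A L ≃+* intVS A F L :=
  letI : Algebra A L := (toL A F L).toAlgebra
  { toFun := fun x => ⟨x.1, x.2⟩
    invFun := fun x => ⟨x.1, x.2⟩
    left_inv := fun _ => rfl
    right_inv := fun _ => rfl
    map_mul' := fun _ _ => rfl
    map_add' := fun _ _ => rfl }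

lemma isDVR_intVS : IsDiscreteValuationRing (intVS A F L) := by
  letI : Algebra A L := (toL A F L).toAlgebra
  haveI : IsScalarTower A F L := IsScalarTower.of_algebraMap_eq (fun _ => rfl)
  haveI := H904.lf0_isDVR A F L
  exact IsDiscreteValuationRing.RingEquivClass.isDiscreteValuationRing (intVSEquiv A F L)

lemma isAdicComplete_intVS :
    IsAdicComplete (maximalIdeal (intVS A F L)) (intVS A F L) := by
  letI : Algebra A L := (toL A F L).toAlgebra
  haveI : IsScalarTower A F L := IsScalarTower.of_algebraMap_eq (fun _ => rfl)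
  haveI := H904.lf0_isDVR A F L
  haveI := H904.lf0_isLocalRing A F L
  haveI := H904.lf0_isAdicComplete A F L
  letI : Algebra (integralClosure A L) (intVS A F L) := (intVSEquiv A F L).toRingHom.toAlgebra
  haveI : Module.Finite (integralClosure A L) (intVS A F L) :=
    Module.Finite.of_surjective (Algebra.linearMap (integralClosure A L) (intVS A F L))
      (intVSEquiv A F L).surjective
  haveI : IsLocalHom (algebraMap (integralClosure A L) (intVS A F L)) :=
    ⟨fun a ha => by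
      have : IsUnit ((intVSEquiv A F L).symm (intVSEquiv A F L a)) :=
        IsUnit.map (intVSEquiv A F L).symm ha
      simpa using this⟩
  exact IsLocalRing.isAdicComplete_of_module_finite (𝒪 := integralClosure A L)

lemma finite_residueField_intVS : Finite (ResidueField (intVS A F L)) := by
  letI : Algebra A L := (toL A F L).toAlgebra
  haveI : IsScalarTower A F L := IsScalarTower.of_algebraMap_eq (fun _ => rfl)
  haveI := H904.lf0_isLocalRing A F L
  haveI := H904.lf0_finite_residueField A F L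
  exact Finite.of_equiv _ (IsLocalRing.ResidueField.mapEquiv (intVSEquiv A F L)).toEquiv

variable (K : Type) [Field K] [Algebra F K] [Algebra K L] [IsScalarTower F K L]

lemma galStable_intVS : Fermat.Agent.S55.H713.GalStable K (intVS A F L) := by
  intro g x hx
  rw [mem_intVS] at hx ⊢
  refine H904.IsInt.map (g : L →+* L) (fun a => ?_) hx
  rw [toL_apply, IsScalarTower.algebraMap_apply F K L]
  exact g.commutes _

end

/-- (T3) the local norm index theorem for cyclic extensions, in the shape of `Local/Spec.lean`. -/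
theorem cyclicNormIndex : CyclicNormIndexStatement := by
  intro A F _ _ _ _ _ _ _ _ _ K _ _ _ L _ _ _ _ _ _ hcyc
  haveI : FiniteDimensional F L := FiniteDimensional.trans F K L
  haveI := isDVR_intVS A F L
  haveI := isAdicComplete_intVS A F L
  haveI := finite_residueField_intVS A F L
  haveI := hcyc
  exact Fermat.Agent.S55.H713.norm_index_eq_finrank (F := K) (E := L) (O := intVS A F L)
    (galStable_intVS A F L K)

end Fermat.Agent.S55.Local.H713

end
-- ===== PACK-END S55/Local/H713/T3.lean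

-- ===== PACK-BEGIN S55/GAD/ExTransH233.lean
section
/-
S55 / G-ADAPTER, leaf GAD-EX (gd6), TRANSITIVITY STEP (helper233).

ABSTRACT PART.  `π : G' →* G` surjective with finite kernel, `A : Rep ℤ G'`, `B : Rep ℤ G`,
`f : Rep.res π B ⟶ A` whose image contains the `ker π`-invariants of `A`, `H₁ ≤ G`,
`H = π⁻¹(H₁)`.  If `N_{H₁}(B) ⊆ p • B^{H₁}` then `N_H(A) ⊆ p • A^H`
(`N_H = f ∘ N_{H₁} ∘ f⁻¹ ∘ N_{ker π}`).  No hypothesis on the groups (not necessarily `p`-groups),
`f` need not be injective.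

TOWER PART.  `existence_of_step`: the existence theorem mod `p` for the concrete tower datum
(`GAD.ExistenceSpec S p`, i.e. gd6) follows from Galois descent for the canonical transition maps
(`GAD.H953.DescSpec S`) and ONE good step `L₀ ≤ L₁` above every level `L₀ ⊇ μ_p`.
-/


set_option autoImplicit false
set_option linter.unusedSectionVars false
set_option linter.style.haveILetI false

open CategoryTheory

namespace Fermat.Agent.S55.GAD.H233

open Fermat.Agent.S55 Fermat.Agent.S55.Tow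

noncomputable section

section Abstract

variable {G' G : Type} [Group G'] [Group G]

/-- A section of a surjective homomorphism, and the induced bijection
`π⁻¹(H₁) ≃ H₁ × ker π`. -/
def fiberEquiv (π : G' →* G) (hπ : Function.Surjective π) (H₁ : Subgroup G) :
    (H₁.comap π : Subgroup G') ≃ H₁ × π.ker where
  toFun g := (⟨π g.1, g.2⟩,
    ⟨(Function.surjInv hπ (π g.1))⁻¹ * g.1, by
      rw [MonoidHom.mem_ker, map_mul, map_inv, Function.surjInv_eq hπ, inv_mul_cancel]⟩)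
  invFun x := ⟨Function.surjInv hπ x.1.1 * x.2.1, by
    rw [Subgroup.mem_comap, map_mul, Function.surjInv_eq hπ, (MonoidHom.mem_ker).1 x.2.2, mul_one]
    exact x.1.2⟩
  left_inv g := by
    apply Subtype.ext
    simp
  right_inv x := by
    obtain ⟨⟨h, hh⟩, ⟨n, hn⟩⟩ := x
    have hn' : π n = 1 := (MonoidHom.mem_ker).1 hn
    apply Prod.ext
    · apply Subtype.ext
      simp [Function.surjInv_eq hπ, hn']
    · apply Subtype.ext
      simp [Function.surjInv_eq hπ, hn']

lemma fiberEquiv_symm_coe (π : G' →* G) (hπ : Function.Surjective π) (H₁ : Subgroup G)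
    (x : H₁ × π.ker) :
    (((fiberEquiv π hπ H₁).symm x : (H₁.comap π : Subgroup G')) : G') =
      Function.surjInv hπ x.1.1 * x.2.1 := rfl

/-- **Abstract transitivity of the norm condition.** -/
theorem normInP_of_step (π : G' →* G) (hπ : Function.Surjective π)
    (A : Rep.{0} ℤ G') (B : Rep.{0} ℤ G) (f : Rep.res π B ⟶ A)
    (hrange : ∀ a : A.V, (∀ n ∈ π.ker, A.ρ n a = a) → a ∈ Set.range f.hom)
    [Finite π.ker] (p : ℕ) (H₁ : Subgroup G) [Fintype H₁] (H : Subgroup G') [Fintype H]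
    (hH : H = H₁.comap π) (h₁ : E1.NormInP p H₁ B) : E1.NormInP p H A := by
  classical
  subst hH
  letI : Fintype π.ker := Fintype.ofFinite _
  intro c
  -- the partial norm over `ker π`
  set c' : A.V := ∑ n : π.ker, A.ρ (n : G') c with hc'
  have hc'inv : ∀ n ∈ π.ker, A.ρ n c' = c' := by
    intro n hn
    rw [hc', map_sum]
    refine Fintype.sum_equiv (Equiv.mulLeft (⟨n, hn⟩ : π.ker)) _ _ (fun m => ?_)
    show A.ρ n (A.ρ (m : G') c) = A.ρ ((⟨n, hn⟩ * m : π.ker) : G') c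
    rw [Subgroup.coe_mul, map_mul]
    rfl
  obtain ⟨b, hb⟩ := hrange c' hc'inv
  obtain ⟨b₀, hb₀inv, hb₀⟩ := h₁ b
  have hcomm : ∀ (g : G') (x : B.V), f.hom (B.ρ (π g) x) = A.ρ g (f.hom x) :=
    fun g x => Rep.hom_comm_apply f g x
  refine ⟨f.hom b₀, ?_, ?_⟩
  · intro g hg
    rw [← hcomm g b₀, hb₀inv (π g) hg]
  · have hsum : ∑ g : (H₁.comap π : Subgroup G'), A.ρ (g : G') c =
        ∑ x : H₁ × π.ker, A.ρ (Function.surjInv hπ x.1.1 * x.2.1) c := by
      refine Fintype.sum_equiv (fiberEquiv π hπ H₁) _ _ (fun g => ?_)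
      have := fiberEquiv_symm_coe π hπ H₁ (fiberEquiv π hπ H₁ g)
      rw [Equiv.symm_apply_apply] at this
      rw [← this]
    rw [hsum, Fintype.sum_prod_type]
    have hinner : ∀ h : H₁, ∑ n : π.ker, A.ρ (Function.surjInv hπ h.1 * n.1) c =
        f.hom (B.ρ (h : G) b) := by
      intro h
      have e1 : ∀ n : π.ker, A.ρ (Function.surjInv hπ h.1 * n.1) c =
          A.ρ (Function.surjInv hπ h.1) (A.ρ (n : G') c) := by
        intro n
        rw [map_mul]
        rfl
      rw [Finset.sum_congr rfl (fun n _ => e1 n), ← map_sum, ← hc', ← hb,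
        ← hcomm (Function.surjInv hπ h.1) b, Function.surjInv_eq hπ]
    rw [Finset.sum_congr rfl (fun h _ => hinner h), ← map_sum, hb₀, map_nsmul]

end Abstract

section Tower

variable {S : Finset Nat.Primes} {p : ℕ}

lemma proj_comp {L₀ L₁ L : Level S} (h₁ : L₀ ≤ L₁) (h' : L₁ ≤ L) (g : L.Gal) :
    Level.proj h₁ (Level.proj h' g) = Level.proj (h₁.trans h') g := by
  induction g using QuotientGroup.induction_on with
  | H g => rfl

lemma relGal_eq_comap {L₀ L₁ L : Level S} (h₁ : L₀ ≤ L₁) (h' : L₁ ≤ L) :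
    Level.relGal (h₁.trans h') = (Level.relGal h₁).comap (Level.proj h') := by
  ext g
  show Level.proj (h₁.trans h') g = 1 ↔ Level.proj h₁ (Level.proj h' g) = 1
  rw [proj_comp]

lemma proj_surjective {L₁ L : Level S} (h' : L₁ ≤ L) : Function.Surjective (Level.proj h') := by
  intro g
  induction g using QuotientGroup.induction_on with
  | H g => exact ⟨QuotientGroup.mk g, rfl⟩

/-- One-step form of the existence theorem mod `p` for the concrete tower datum: above every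
level `L₀ ⊇ μ_p` there is ONE level `L₁` with `N_{L₁/L₀} C(L₁) ⊆ p • C(L₁)^{Gal(L₁/L₀)}`. -/
def ExistStepSpec (S : Finset Nat.Primes) (p : ℕ) : Prop :=
  ∀ L₀ : Level S, L₀.HasMu p → ∃ (L₁ : Level S) (h₁ : L₀ ≤ L₁),
    @E1.NormInP p L₁.Gal _ (Level.relGal h₁) (Fintype.ofFinite _) (CT L₁)

/-- **GAD-EX from descent and one step.** -/
theorem existence_of_step (hD : H953.DescSpec S) (hStep : ExistStepSpec S p) :
    ExistenceSpec S p := by
  intro L₀ hL₀
  obtain ⟨L₁, h₁, hN⟩ := hStep L₀ hL₀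
  refine ⟨L₁, h₁, fun L h h' => ?_⟩
  haveI : Finite (Level.proj h').ker := inferInstance
  exact @normInP_of_step L.Gal L₁.Gal _ _ (Level.proj h') (proj_surjective h') (CT L) (CT L₁)
    (trT h') (hD h').2 _ p (Level.relGal h₁) (Fintype.ofFinite _) (Level.relGal h)
    (Fintype.ofFinite _) (relGal_eq_comap h₁ h') hN

end Tower

end

end Fermat.Agent.S55.GAD.H233

end
-- ===== PACK-END S55/GAD/ExTransH233.lean

-- ===== PACK-BEGIN S55/G/Rec/Tow/H953/AlgInf.lean
section
/-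
S55 / REC2-TOW (helper417's interface), leaves ALG-INF and GD8 — helper953.

* `infInj : InfInjSpec`           (memo T7: inflation is injective on `p`-primary classes)
* `infResLift : InfResLiftSpec`   (inflation–restriction + descent: classes dying on `ker π` are
                                   inflated)
* `gd8_of : Gd8AssemblySpec p`    (GD8 is formal)

All three are consequences of the comparison isomorphism `GAD.H953.compIso`
(`H²(Γ, C) ≅ H²(Γ' ⧸ ker π, C'^{ker π})`, `map π ι 2 = compIso ≫ infMap`) and helper244's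
inflation–restriction up to torsion (`T.H244`).
-/



set_option autoImplicit false
set_option linter.unusedSectionVars false
set_option linter.style.haveILetI false

open CategoryTheory groupCohomology

namespace Fermat.Agent.S55.G.Rec.TOW.H953

open Fermat.Agent.S55 Fermat.Agent.S55.T Fermat.Agent.S55.Tow

noncomputable section

/-- **ALG-INF**, injectivity. -/
theorem infInj : InfInjSpec := by
  intro p hp Γ' Γ _ _ _ π hπ C C' ι hι h1 z hz hinf
  haveI : Fact p.Prime := ⟨hp⟩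
  obtain ⟨k, hk⟩ := hz
  obtain ⟨P⟩ : Nonempty (Sylow p π.ker) := inferInstance
  have hPp : IsPGroup p ((P : Subgroup π.ker).map π.ker.subtype) := P.isPGroup'.map _
  have hPle : (P : Subgroup π.ker).map π.ker.subtype ≤ π.ker := by
    rintro _ ⟨x, _, rfl⟩
    exact x.2
  have hP : ∀ z : groupCohomology (resSub (resSub C' π.ker) (P : Subgroup π.ker)) 1, z = 0 :=
    H954.eq_zero_of_iso_of_isZero (H954.resResIso C' π.ker (P : Subgroup π.ker) 1)
      (h1 _ hPle hPp)
  have hcop : (p ^ k).Coprime (P : Subgroup π.ker).index :=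
    Nat.Coprime.pow_left k ((Nat.Prime.coprime_iff_not_dvd hp).2 P.not_dvd_index)
  exact GAD.H953.map_eq_zero_imp π C' C ι hπ hι.1 hι.2 (P : Subgroup π.ker) hP hcop z hk hinf

/-- **ALG-LIFT**. -/
theorem infResLift : InfResLiftSpec := by
  intro Γ' Γ _ _ _ π hπ C C' ι hι h1 Y hY
  have h1' : ∀ x : groupCohomology (resSub C' π.ker) 1, 1 • x = 0 := fun x => by
    rw [one_smul]
    exact (ModuleCat.isZero_iff_subsingleton.1 h1).elim _ _
  obtain ⟨y, hy⟩ := H244.exists_infMap_eq_nsmul_of_resMap_eq_zero C' π.ker h1' Y hY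
  rw [one_smul] at hy
  have hfac := GAD.H953.map_eq_compIso_infMap π C' C ι hπ hι.1 hι.2 2
  refine ⟨(GAD.H953.compIso π C' C ι hπ hι.1 hι.2 2).inv.hom y, ?_⟩
  rw [hfac]
  show (infMap C' π.ker 2).hom ((GAD.H953.compIso π C' C ι hπ hι.1 hι.2 2).hom.hom
    ((GAD.H953.compIso π C' C ι hπ hι.1 hι.2 2).inv.hom y)) = Y
  have hid : (GAD.H953.compIso π C' C ι hπ hι.1 hι.2 2).hom.hom
      ((GAD.H953.compIso π C' C ι hπ hι.1 hι.2 2).inv.hom y) = y := by
    simp
  rw [hid, hy]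

/-- **GD8** assembly: GD8 is formal. -/
theorem gd8_of (p : ℕ) : Gd8AssemblySpec p := by
  intro hUp hInf S hp hp2 hpS L M h hM ι hι z hz hinf
  have hsurj : Function.Surjective (Level.proj h) := by
    intro g
    induction g using QuotientGroup.induction_on with
    | H σ => exact ⟨QuotientGroup.mk σ, rfl⟩
  exact hInf p hp M.Gal L.Gal (Level.proj h) hsurj (lvlC L) (lvlC M) ι hι
    (fun Q _ hQ => (hUp S hp hp2 hpS M hM Q hQ).1) z hz hinf

/-- GD8, from `UpSpec` alone. -/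
theorem gd8 (p : ℕ) (hUp : UpSpec p) : Gd8Spec p := gd8_of p hUp infInj

end

end Fermat.Agent.S55.G.Rec.TOW.H953

end
-- ===== PACK-END S55/G/Rec/Tow/H953/AlgInf.lean

-- ===== PACK-BEGIN S55/G/Rec/Tow/H781/Gd1.lean
section



/-!
# S55 / REC2-TOW, leaf GD1 (subtask 557, helper781): the assembly `gd1_of : Gd1AssemblySpec p`

Memo T6 of helper293 / `coord/S55-REC-TOW.md` §2 (GD1), steps 1–7:
an auxiliary prime `r ∉ S`, the level `M = F·L(r,k)` totally ramified above `r` with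
`Gal(M/F)` of order `p^k = |P|` (`P` a Sylow `p`-subgroup of `Gal(F/ℚ)`), a local class `b` at `r`
of order `p^k`, `Y = j_* b`; `res_{Gal(M/F)} Y = 0` by reciprocity (T4'), so `Y = inf γ₀`;
`γ = π_* γ₀` (independence of `S`) has `res_P γ` of order `p^k`.
-/

set_option autoImplicit false
set_option linter.style.haveILetI false

open CategoryTheory groupCohomology
open scoped NumberField

noncomputable section

namespace Fermat.Agent.S55.G.Rec.TOW.H781

open Fermat.Agent.S55 Fermat.Agent.S55.Tow Fermat.Agent.S55.E1.H594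
open Fermat.Agent.S55.G.Rec.TOW
open IsDedekindDomain

variable {S : Finset Nat.Primes}

/-- The projection `Gal(F'/ℚ) → Gal(F/ℚ)` is surjective. -/
theorem proj_surjective {L L' : Level S} (h : L ≤ L') : Function.Surjective (Level.proj h) := by
  intro g
  induction g using QuotientGroup.induction_on with
  | H g => exact ⟨QuotientGroup.mk g, rfl⟩

/-- `[Gal(F'/ℚ) : Gal(F'/F)] = |Gal(F/ℚ)|`. -/
theorem index_relGal {L L' : Level S} (h : L ≤ L') :
    (Level.relGal h).index = Nat.card L.Gal := by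
  unfold Level.relGal
  rw [Subgroup.index_ker, MonoidHom.range_eq_top.2 (proj_surjective h)]
  exact Nat.card_congr (Subgroup.topEquiv).toEquiv

theorem gd1_of (p : ℕ) : Gd1AssemblySpec p := by
  intro I hKer hTot hUp hDesc hSInd hRam hResTop hRCN hCM hLift hRMN hResIdx S hp hp2 hpS L hMu
  haveI : Fact p.Prime := ⟨hp⟩
  -- a Sylow `p`-subgroup of `Gal(F/ℚ)`
  obtain ⟨P⟩ : Nonempty (Sylow p L.Gal) := inferInstance
  have hPp : IsPGroup p (P : Subgroup L.Gal) := P.isPGroup'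
  obtain ⟨k, hk⟩ := hPp.exists_card_eq
  have hPidx : ¬ p ∣ (P : Subgroup L.Gal).index := P.not_dvd_index
  -- Step 1: the auxiliary level
  obtain ⟨r, hrS, M, h, hZcard, hZfix⟩ := hRam hp S L k
  have hSS' : S ⊆ insert r S := Finset.subset_insert r S
  have hpS' : (⟨p, hp⟩ : Nat.Primes) ∈ insert r S := hSS' hpS
  have hrS' : r ∈ insert r S := Finset.mem_insert_self r S
  have hS'ne : (insert r S).Nonempty := ⟨r, hrS'⟩
  have hMuM : M.HasMu p := by
    obtain ⟨ζ, hζ, hprim⟩ := hMu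
    exact ⟨ζ, h hζ, hprim⟩
  have hZp : IsPGroup p (Level.relGal h) := IsPGroup.of_card hZcard
  -- Step 2: the local class at `r`
  obtain ⟨y, hy0, hyord⟩ := I.locClass M r hrS' ⊤ (Level.relGal h) le_top hZp hZfix
  obtain ⟨b, rfl⟩ := (hResTop M.Gal (lvlJ M) 2).2 y
  rw [hZcard] at hy0 hyord
  have hb0 : (p ^ k) • b = 0 := by
    apply (hResTop M.Gal (lvlJ M) 2).1
    rw [map_nsmul, map_zero]
    exact hy0
  -- Step 3: `res_{Z'} Y = 0`
  have hdvd : p ^ k ∣ Nat.card L.Gal := hk ▸ Subgroup.card_subgroup_dvd_card (P : Subgroup L.Gal)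
  have hσZ : I.σ M (Level.relGal h) (res2 (lvlJ M) (Level.relGal h) b) = 0 := by
    rw [I.resIndex, index_relGal h]
    obtain ⟨c, hc⟩ := hdvd
    have hL : Nat.card (Level.ofLE hSS' L).Gal = Nat.card L.Gal := rfl
    have h0 : (p ^ k) • I.σ M ⊤ (res2 (lvlJ M) ⊤ b) = 0 := by
      rw [← map_nsmul]
      exact (congrArg (I.σ M ⊤) hy0).trans (map_zero _)
    rw [hL, hc, mul_comm, mul_smul, h0, smul_zero]
  have hresY : res2 (lvlC M) (Level.relGal h) (h2Top (lvlj M) b) = 0 := by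
    rw [← hRCN]
    exact (hTot (insert r S) hp hp2 hpS' M hMuM r hrS' (Level.relGal h) hZp hZfix).1 _ hσZ
  -- Step 4: `Y = inf γ₀`
  have hH1 : Limits.IsZero (groupCohomology (T.resSub (lvlC M) (Level.proj h).ker) 1) :=
    (hUp (insert r S) hp hp2 hpS' M hMuM (Level.relGal h) hZp).1
  obtain ⟨ι, hι⟩ := hDesc (insert r S) hS'ne (Level.ofLE hSS' L) M h
  obtain ⟨γ₀, hγ₀⟩ := hLift M.Gal (Level.ofLE hSS' L).Gal (Level.proj h) (proj_surjective h)
    (lvlC (Level.ofLE hSS' L)) (lvlC M) ι hι hH1 (h2Top (lvlj M) b) hresY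
  -- Step 5: independence of `S`
  obtain ⟨Φ, π, -, -, -, -, -, -, hπ⟩ := hSInd S (insert r S) hSS' L.Gal L.F ⟨_, hpS⟩
    (level_isUnramOut L)
  refine ⟨h2Top π γ₀, ?_⟩
  -- Step 7: class module from the Sylow subgroup
  apply hCM p hp L.Gal (lvlC L) (h2Top π γ₀) P hPp hPidx
    (fun H hH => hUp S hp hp2 hpS L hMu H hH)
  -- Step 6: `res_P γ` has order `p^k`
  intro n hn
  have h1 : h2Sub π (P : Subgroup L.Gal) (res2 (lvlC' (insert r S) L) (P : Subgroup L.Gal) γ₀) =
      res2 (lvlC L) (P : Subgroup L.Gal) (h2Top π γ₀) := hRCN L.Gal _ _ π (P : Subgroup L.Gal) γ₀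
  have h2 : n • res2 (lvlC' (insert r S) L) (P : Subgroup L.Gal) γ₀ = 0 := by
    apply (hπ (P : Subgroup L.Gal) 2 (by norm_num)).1
    rw [map_nsmul, map_zero]
    exact (congrArg (fun z => n • z) h1).trans hn
  have h3 : res2 (lvlC (Level.ofLE hSS' L)) (P : Subgroup L.Gal) (n • γ₀) = 0 := by
    rw [map_nsmul]
    exact h2
  have h4 := hRMN M.Gal (Level.ofLE hSS' L).Gal (Level.proj h) (lvlC (Level.ofLE hSS' L))
    (lvlC M) ι (P : Subgroup L.Gal) (n • γ₀) h3
  rw [map_nsmul, hγ₀] at h4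
  have h5 := hResIdx ℤ M.Gal (lvlC M) (Subgroup.comap (Level.proj h) (P : Subgroup L.Gal)) 2
    (by norm_num) _ h4
  have hidxP : (Subgroup.comap (Level.proj h) (P : Subgroup L.Gal)).index =
      (P : Subgroup L.Gal).index :=
    Subgroup.index_comap_of_surjective (G := (Level.ofLE hSS' L).Gal) (P : Subgroup L.Gal)
      (proj_surjective h)
  rw [hidxP] at h5
  have h6 : h2Top (lvlj M) (((P : Subgroup L.Gal).index * n) • b) = 0 := by
    rw [map_nsmul, mul_smul]
    exact h5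
  have h7 : I.σ M ⊤ (res2 (lvlJ M) ⊤ (((P : Subgroup L.Gal).index * n) • b)) = 0 := by
    apply hKer (insert r S) hS'ne M ⊤ _ ⟨k, ?_⟩
    · rw [hRCN, h6, map_zero]
    · rw [← map_nsmul, smul_comm, hb0, smul_zero, map_zero]
  have h8 : p ^ k ∣ (P : Subgroup L.Gal).index * n := by
    apply hyord
    rw [← map_nsmul, ← map_nsmul]
    exact h7
  rw [hk]
  exact (Nat.Coprime.pow_left k
    ((Nat.Prime.coprime_iff_not_dvd hp).2 hPidx)).dvd_of_dvd_mul_left h8

end Fermat.Agent.S55.G.Rec.TOW.H781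

end
end
-- ===== PACK-END S55/G/Rec/Tow/H781/Gd1.lean

-- ===== PACK-BEGIN S55/G/Rec/Tow/H934/DescTow.lean
section
/-
S55 / layer G / block REC / adapter TOW, leaf DESC-TOW (subtask 555)            (helper934)

`desc_of : G.DescentSpec → DescSpec` and `desc : DescSpec` — the Tower form of G-DESC: for levels
`L ≤ M` of `S ≠ ∅` apply `G.DescentSpec` to `Gal(M/ℚ)` acting on `M.F`, the normal subgroup
`Gal(M/L) = Level.relGal h` and the quotient acting on `L.F` through
`Gal(M/ℚ) ⧸ Gal(M/L) → Gal(L/ℚ)` (helper594's `LevelProj`).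
Complete proofs, standard axioms only.
-/



set_option autoImplicit false
set_option linter.style.haveILetI false

open CategoryTheory groupCohomology
open scoped NumberField

noncomputable section

namespace Fermat.Agent.S55.G.Rec.TOW.H934

open Fermat.Agent.S55 Fermat.Agent.S55.Tow Fermat.Agent.S55.E1.H594

/-- **DESC-TOW** from `G.DescentSpec`. -/
theorem desc_of (hD : G.DescentSpec) : DescSpec := by
  intro S hS L M h
  haveI : Finite M.Gal := level_finite_gal M
  letI : Algebra L.F M.F := levelAlgebra h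
  letI : MulSemiringAction (M.Gal ⧸ Level.relGal h) L.F := levelQuotAction h
  obtain ⟨ι, hinj, hequiv, hinv, -⟩ := hD S M.Gal M.F L.F (Level.relGal h) hS
    (level_isUnramOut M) (level_descent_fixed h) (level_descent_equivariant h)
  refine ⟨Rep.ofHom ⟨ι.toIntLinearMap, fun g => LinearMap.ext fun c => ?_⟩, hinj, ?_⟩
  · exact hequiv g c
  · intro c hc
    exact (hinv c).1 (fun n => hc n n.2)

/-- **DESC-TOW**, unconditionally. -/
theorem desc : DescSpec := desc_of G.DescH773.descentSpec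

end Fermat.Agent.S55.G.Rec.TOW.H934

end
end
-- ===== PACK-END S55/G/Rec/Tow/H934/DescTow.lean

-- ===== PACK-BEGIN S55/G/Rec/Tow/H978/Ram.lean
section





/-!
# S55 / G / REC / TOW — leaf RAM (subtask 556): the auxiliary level `M = F · L(r, p^k)`  (helper978)

`ram : RamSpec p`.

Given a level `F` of `S`, a prime `p` and `k`, choose a prime `r ∉ S` with `p ^ k ∣ r - 1`
(Dirichlet for the progression `1 mod p^k`, Mathlib `Nat.exists_prime_gt_modEq_one`) and let
`L' = L(r, p^k) ⊂ ℚ(ζ_r)` (helper63 `auxField63`), `M = F ⊔ L'`.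

* `M` is a level of `S ∪ {r}`;
* `Gal(M/F) → Gal(L'/ℚ) = (ℤ/r)ˣ / p^k` is bijective: injective because
  `Gal(ℚ̄/M) = Gal(ℚ̄/F) ∩ Gal(ℚ̄/L')`, surjective because the inertia group `I` of a place `A` of
  `ℚ̄` above `r` is contained in `Gal(ℚ̄/F)` (`F` is unramified at `r ∉ S`) and maps onto
  `Gal(L'/ℚ)` (`L'` is totally ramified at `r`);
* every element of `Gal(M/F)` is the image of an element of `I`, hence fixes the prime of `M`
  below `A`.
-/

set_option autoImplicit false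
set_option linter.style.haveILetI false
set_option linter.unusedSectionVars false

open scoped NumberField Pointwise

noncomputable section

namespace Fermat.Agent.S55.G.Rec.TOW.H978

open Fermat.Agent.S55 Fermat.Agent.S55.Tow Fermat.Agent.S55.E1.H594
open IsDedekindDomain ExtCitation

local notation "Qb" => AlgebraicClosure ℚ

/-! ## 1. The auxiliary prime -/

/-- There is a prime `r ∉ S` with `n ∣ r - 1`. -/
theorem exists_prime_notMem_dvd_pred (S : Finset Nat.Primes) {n : ℕ} (hn : n ≠ 0) :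
    ∃ r : Nat.Primes, r ∉ S ∧ n ∣ (r : ℕ) - 1 := by
  obtain ⟨r, hr, hBr, hmod⟩ :=
    Nat.exists_prime_gt_modEq_one (S.sup fun q : Nat.Primes => (q : ℕ)) hn
  refine ⟨⟨r, hr⟩, fun hrS => ?_, (Nat.modEq_iff_dvd' hr.one_lt.le).1 hmod.symm⟩
  have h1 : r ≤ S.sup fun q : Nat.Primes => (q : ℕ) :=
    Finset.le_sup (f := fun q : Nat.Primes => (q : ℕ)) hrS
  exact absurd h1 (not_le.2 hBr)

/-! ## 2. Inertia -/

/-- The inertia group is contained in the decomposition group. -/
theorem mem_decomposition_of_mem_inertia (A : ValuationSubring Qb) {τ : Tow.GQ}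
    (hτ : τ ∈ A.inertiaSubgroupIn ℚ) : τ ∈ A.decompositionSubgroup ℚ := by
  obtain ⟨d, -, rfl⟩ := Subgroup.mem_map.1 hτ
  exact d.2

/-- Elements of the inertia group preserve the maximal ideal of `A`. -/
theorem apply_mem_nonunits_iff_of_mem_inertia (A : ValuationSubring Qb) {τ : Tow.GQ}
    (hτ : τ ∈ A.inertiaSubgroupIn ℚ) (y : Qb) : τ y ∈ A.nonunits ↔ y ∈ A.nonunits := by
  have h : τ • A = A := mem_decomposition_of_mem_inertia A hτ
  refine Bridge.H175.apply_mem_nonunits_iff A τ (fun x => ?_) y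
  have h1 : τ • x ∈ τ • A ↔ x ∈ A := ValuationSubring.smul_mem_pointwise_smul_iff
  rw [h] at h1
  exact h1

/-! ## 3. The auxiliary level -/

section level

/-- `r` as an element of `Nat.Primes`. -/
abbrev toPrimes (r : ℕ) [hr : Fact r.Prime] : Nat.Primes := ⟨r, hr.out⟩

variable {S : Finset Nat.Primes} (L : Level S) (r : ℕ) [Fact r.Prime] (n : ℕ)

/-- The auxiliary level `M = F ⊔ L(r, n)` of `S ∪ {r}`. -/
def auxLevel : Level (insert (toPrimes r) S) where
  F := L.F ⊔ auxField63 r n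
  unram := (L.unram.mono (Finset.subset_insert _ S)).sup
    (auxField63_isUnramifiedOutside r n _ (Finset.mem_insert_self _ S))
  normalU := by
    rw [IntermediateField.fixingSubgroup_sup, fixingSubgroup_auxField63]
    haveI := L.normalU
    infer_instance

theorem ofLE_le_auxLevel :
    Level.ofLE (Finset.subset_insert (toPrimes r) S) L ≤ auxLevel L r n :=
  show L.F ≤ L.F ⊔ auxField63 r n from le_sup_left

theorem mem_auxLevel_U (σ : Tow.GQ) :
    σ ∈ (auxLevel L r n).U ↔ σ ∈ L.U ∧ auxChar63 r n σ = 1 := by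
  show σ ∈ (L.F ⊔ auxField63 r n).fixingSubgroup ↔ _
  rw [IntermediateField.fixingSubgroup_sup, fixingSubgroup_auxField63, Subgroup.mem_inf,
    MonoidHom.mem_ker]
  rfl

/-- `mk σ ∈ Gal(M/F)` iff `σ ∈ Gal(ℚ̄/F)`. -/
theorem mk_mem_relGal_iff (σ : Tow.GQ) :
    (QuotientGroup.mk σ : (auxLevel L r n).Gal) ∈ Level.relGal (ofLE_le_auxLevel L r n) ↔
      σ ∈ L.U := by
  show Level.proj (ofLE_le_auxLevel L r n) (QuotientGroup.mk σ) = 1 ↔ _
  have h1 : Level.proj (ofLE_le_auxLevel L r n) (QuotientGroup.mk σ : (auxLevel L r n).Gal) =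
      (QuotientGroup.mk σ : (Level.ofLE (Finset.subset_insert (toPrimes r) S)
        L).Gal) := rfl
  rw [h1, QuotientGroup.eq_one_iff]
  rfl

/-- The character `Gal(M/ℚ) → (ℤ/r)ˣ / n` cutting out `L(r, n)`. -/
def auxQuot : (auxLevel L r n).Gal →* (ZMod r)ˣ ⧸ powSubgroup63 r n :=
  QuotientGroup.lift (auxLevel L r n).U (auxChar63 r n)
    (fun σ hσ => ((mem_auxLevel_U L r n σ).1 hσ).2)

@[simp] theorem auxQuot_mk (σ : Tow.GQ) :
    auxQuot L r n (QuotientGroup.mk σ : (auxLevel L r n).Gal) = auxChar63 r n σ := rfl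

variable (hrS : (toPrimes r) ∉ S)
include hrS

/-- `F` is unramified at `r`: the inertia group of a place above `r` fixes `F`. -/
theorem inertia_le_U (A : ValuationSubring Qb) (hA : A.LiesOverPrime r) :
    A.inertiaSubgroupIn ℚ ≤ L.U :=
  L.unram.2 (toPrimes r) hrS A hA

/-- Every element of `Gal(M/F)` is the image of an inertia element at `A`. -/
theorem exists_inertia_eq (A : ValuationSubring Qb) (hA : A.LiesOverPrime r)
    (z : (auxLevel L r n).Gal) (hz : z ∈ Level.relGal (ofLE_le_auxLevel L r n)) :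
    ∃ τ ∈ A.inertiaSubgroupIn ℚ, (QuotientGroup.mk τ : (auxLevel L r n).Gal) = z := by
  obtain ⟨σ, rfl⟩ := QuotientGroup.mk_surjective z
  have hσ : σ ∈ L.U := (_root_.Fermat.Agent.S55.G.Rec.TOW.H978.mk_mem_relGal_iff L r n σ).1 hz
  obtain ⟨τ, hτ, hτσ⟩ := exists_inertia_auxChar_eq63 r n A hA σ
  refine ⟨τ, hτ, ?_⟩
  rw [QuotientGroup.eq, mem_auxLevel_U]
  refine ⟨L.U.mul_mem (L.U.inv_mem (inertia_le_U L r hrS A hA hτ)) hσ, ?_⟩
  rw [map_mul, map_inv, hτσ, inv_mul_cancel]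

/-- `|Gal(M/F)| = n`. -/
theorem card_relGal (hn : n ∣ r - 1) :
    Nat.card (Level.relGal (ofLE_le_auxLevel L r n)) = n := by
  have hA := Bridge.H175.padicPlace_liesOverPrime r
  set ψ : ↥(Level.relGal (ofLE_le_auxLevel L r n)) →* (ZMod r)ˣ ⧸ powSubgroup63 r n :=
    (auxQuot L r n).comp (Level.relGal (ofLE_le_auxLevel L r n)).subtype with hψ
  have hinj : Function.Injective ψ := by
    rw [injective_iff_map_eq_one]
    rintro ⟨z, hz⟩ h1
    obtain ⟨σ, rfl⟩ := QuotientGroup.mk_surjective z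
    have hσ : σ ∈ L.U := (_root_.Fermat.Agent.S55.G.Rec.TOW.H978.mk_mem_relGal_iff L r n σ).1 hz
    have h2 : auxChar63 r n σ = 1 := h1
    apply Subtype.ext
    show (QuotientGroup.mk σ : (auxLevel L r n).Gal) = 1
    rw [QuotientGroup.eq_one_iff]
    exact (mem_auxLevel_U L r n σ).2 ⟨hσ, h2⟩
  have hsurj : Function.Surjective ψ := by
    intro c
    obtain ⟨g, rfl⟩ := auxChar63_surjective r n c
    obtain ⟨τ, hτ, hτg⟩ := exists_inertia_auxChar_eq63 r n (padicPlace r) hA g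
    exact ⟨⟨QuotientGroup.mk τ,
      (_root_.Fermat.Agent.S55.G.Rec.TOW.H978.mk_mem_relGal_iff L r n τ).2 (inertia_le_U L r hrS _ hA hτ)⟩, hτg⟩
  rw [Nat.card_eq_of_bijective ψ ⟨hinj, hsurj⟩, card_quotient_powSubgroup63 r n hn]

/-- `Gal(M/F)` fixes the prime of `M` below the place `padicPlace r` of `ℚ̄`. -/
theorem fixesPrimeAbove :
    FixesPrimeAbove (auxLevel L r n) (toPrimes r) (Level.relGal (ofLE_le_auxLevel L r n)) := by
  have hr : r.Prime := Fact.out
  have hA := Bridge.H175.padicPlace_liesOverPrime r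
  refine ⟨Bridge.placePrime (auxLevel L r n).F (padicPlace r) hr hA,
    Bridge.H594.natCast_mem_primeBelowF (auxLevel L r n).F (padicPlace r) hA, fun z hz => ?_⟩
  obtain ⟨τ, hτ, rfl⟩ := exists_inertia_eq L r n hrS (padicPlace r) hA z hz
  apply HeightOneSpectrum.ext
  apply Ideal.ext
  intro x
  rw [G.mem_primeSMul_iff]
  show algebraMap (𝓞 (auxLevel L r n).F) Qb
      ((QuotientGroup.mk τ : (auxLevel L r n).Gal)⁻¹ • x) ∈ (padicPlace r).nonunits ↔
    algebraMap (𝓞 (auxLevel L r n).F) Qb x ∈ (padicPlace r).nonunits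
  have h1 : algebraMap (𝓞 (auxLevel L r n).F) Qb
      ((QuotientGroup.mk τ : (auxLevel L r n).Gal)⁻¹ • x) =
      τ⁻¹ (algebraMap (𝓞 (auxLevel L r n).F) Qb x) :=
    level_mk_smul (auxLevel L r n) τ⁻¹ (x : (auxLevel L r n).F)
  rw [h1]
  exact apply_mem_nonunits_iff_of_mem_inertia (padicPlace r)
    ((padicPlace r).inertiaSubgroupIn ℚ |>.inv_mem hτ) _

end level

/-! ## 4. `RamSpec` -/

/-- **RAM.** -/
theorem ram (p : ℕ) : RamSpec p := by
  intro hp S L k
  obtain ⟨r, hrS, hdvd⟩ := exists_prime_notMem_dvd_pred S (pow_ne_zero k hp.ne_zero)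
  haveI : Fact (r : ℕ).Prime := ⟨r.2⟩
  exact ⟨r, hrS, auxLevel L (r : ℕ) (p ^ k), ofLE_le_auxLevel L (r : ℕ) (p ^ k),
    card_relGal L (r : ℕ) (p ^ k) hrS hdvd, fixesPrimeAbove L (r : ℕ) (p ^ k) hrS⟩

end Fermat.Agent.S55.G.Rec.TOW.H978

end

end
-- ===== PACK-END S55/G/Rec/Tow/H978/Ram.lean

-- ===== PACK-BEGIN S56/H914/IntDefs.lean
section




/-!
# Row S56 — W-FLAT-SS, leaf INT (helper914), part 1: the objects `N`, `A`, `B`, `Γ`

* `intKer hc₁ hc₂ P : Subgroup D_P` — `N = {σ ∈ D_P | ρ̄ σ = 1, c₁ σ = 0, c₂ σ = 0}`, normal.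
* `intA P : Subring ℚ̄` — `A = P ∩ ℚ̄^{D_P}`;  `intB ρbar c₁ c₂ P : Subring ℚ̄` — `B = levelSet`.
* `intAct` — the action of `D_P` on `B` by ring automorphisms, `intActQ` its descent to `Γ = D_P ⧸ N`.
* `finite_intΓ` — `Γ` is finite (`k` finite).
-/

set_option autoImplicit false
set_option linter.style.haveILetI false

open Polynomial IsLocalRing

noncomputable section

namespace Fermat.Agent.S56.H914

open Fermat.Agent.S56 Fermat.Agent.S56.H716 Fermat.Agent.S56.FL

section Defs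

variable {k : Type} [Field k] {ρbar : ResidualGaloisRep k}
  {c₁ c₂ : GQ → Module.End k ρbar.V} (P : ValuationSubring Qb)

/-- `N = {σ ∈ D_P | ρ̄ σ = 1, c₁ σ = 0, c₂ σ = 0}` as a subgroup of `D_P`. -/
def intKer (hc₁ : IsAdCocycle ρbar c₁) (hc₂ : IsAdCocycle ρbar c₂) :
    Subgroup (P.decompositionSubgroup ℚ) where
  carrier := {σ | ρbar.ρ (σ : GQ) = 1 ∧ c₁ (σ : GQ) = 0 ∧ c₂ (σ : GQ) = 0}
  mul_mem' := by
    rintro σ τ ⟨h1, h2, h3⟩ ⟨h1', h2', h3'⟩
    refine ⟨?_, ?_, ?_⟩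
    · show ρbar.ρ ((σ : GQ) * (τ : GQ)) = 1
      rw [map_mul, h1, h1', one_mul]
    · show c₁ ((σ : GQ) * (τ : GQ)) = 0
      rw [adCocycle_mul_of_ker hc₁ h1, h2, h2', add_zero]
    · show c₂ ((σ : GQ) * (τ : GQ)) = 0
      rw [adCocycle_mul_of_ker hc₂ h1, h3, h3', add_zero]
  one_mem' := ⟨map_one _, adCocycle_one hc₁, adCocycle_one hc₂⟩
  inv_mem' := by
    rintro σ ⟨h1, h2, h3⟩
    refine ⟨?_, ?_, ?_⟩
    · show ρbar.ρ ((σ : GQ)⁻¹) = 1
      exact rho_inv_eq_one ρbar h1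
    · show c₁ ((σ : GQ)⁻¹) = 0
      rw [adCocycle_inv_of_ker hc₁ h1, h2, neg_zero]
    · show c₂ ((σ : GQ)⁻¹) = 0
      rw [adCocycle_inv_of_ker hc₂ h1, h3, neg_zero]

lemma mem_intKer {hc₁ : IsAdCocycle ρbar c₁} {hc₂ : IsAdCocycle ρbar c₂}
    {σ : P.decompositionSubgroup ℚ} :
    σ ∈ intKer P hc₁ hc₂ ↔ ρbar.ρ (σ : GQ) = 1 ∧ c₁ (σ : GQ) = 0 ∧ c₂ (σ : GQ) = 0 := Iff.rfl

instance intKer_normal (hc₁ : IsAdCocycle ρbar c₁) (hc₂ : IsAdCocycle ρbar c₂) :
    (intKer P hc₁ hc₂).Normal := by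
  refine ⟨fun σ hσ g => ?_⟩
  obtain ⟨h1, h2, h3⟩ := hσ
  refine ⟨?_, ?_, ?_⟩
  · show ρbar.ρ ((g : GQ) * (σ : GQ) * (g : GQ)⁻¹) = 1
    rw [map_mul, map_mul, h1, mul_one, rho_mul_inv]
  · show c₁ ((g : GQ) * (σ : GQ) * (g : GQ)⁻¹) = 0
    rw [adCocycle_conj_of_ker hc₁ h1, h2, mul_zero, zero_mul]
  · show c₂ ((g : GQ) * (σ : GQ) * (g : GQ)⁻¹) = 0
    rw [adCocycle_conj_of_ker hc₂ h1, h3, mul_zero, zero_mul]

/-- `A = P ∩ ℚ̄^{D_P}`. -/
def intA : Subring Qb where
  carrier := {x | x ∈ P ∧ ∀ σ ∈ P.decompositionSubgroup ℚ, σ x = x}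
  mul_mem' := by
    rintro x y ⟨hx, hx'⟩ ⟨hy, hy'⟩
    exact ⟨P.mul_mem _ _ hx hy, fun σ hσ => by rw [map_mul, hx' σ hσ, hy' σ hσ]⟩
  one_mem' := ⟨P.one_mem, fun σ _ => map_one σ⟩
  add_mem' := by
    rintro x y ⟨hx, hx'⟩ ⟨hy, hy'⟩
    exact ⟨P.add_mem _ _ hx hy, fun σ hσ => by rw [map_add, hx' σ hσ, hy' σ hσ]⟩
  zero_mem' := ⟨P.zero_mem, fun σ _ => map_zero σ⟩
  neg_mem' := by
    rintro x ⟨hx, hx'⟩
    exact ⟨P.neg_mem _ hx, fun σ hσ => by rw [map_neg, hx' σ hσ]⟩

lemma mem_intA {x : Qb} :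
    x ∈ intA P ↔ x ∈ P ∧ ∀ σ ∈ P.decompositionSubgroup ℚ, σ x = x := Iff.rfl

variable (ρbar c₁ c₂)

/-- `B = P ∩ ℚ̄^N` (carrier `= levelSet ρbar c₁ c₂ P`). -/
def intB : Subring Qb where
  carrier := levelSet ρbar c₁ c₂ P
  mul_mem' := by
    rintro x y ⟨hx, hx'⟩ ⟨hy, hy'⟩
    exact ⟨P.mul_mem _ _ hx hy, fun σ hσ h1 h2 h3 => by
      rw [map_mul, hx' σ hσ h1 h2 h3, hy' σ hσ h1 h2 h3]⟩
  one_mem' := ⟨P.one_mem, fun σ _ _ _ _ => map_one σ⟩
  add_mem' := by
    rintro x y ⟨hx, hx'⟩ ⟨hy, hy'⟩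
    exact ⟨P.add_mem _ _ hx hy, fun σ hσ h1 h2 h3 => by
      rw [map_add, hx' σ hσ h1 h2 h3, hy' σ hσ h1 h2 h3]⟩
  zero_mem' := ⟨P.zero_mem, fun σ _ _ _ _ => map_zero σ⟩
  neg_mem' := by
    rintro x ⟨hx, hx'⟩
    exact ⟨P.neg_mem _ hx, fun σ hσ h1 h2 h3 => by rw [map_neg, hx' σ hσ h1 h2 h3]⟩

variable {ρbar c₁ c₂}

lemma mem_intB {x : Qb} :
    x ∈ intB ρbar c₁ c₂ P ↔ x ∈ P ∧ ∀ σ ∈ P.decompositionSubgroup ℚ,
      ρbar.ρ σ = 1 → c₁ σ = 0 → c₂ σ = 0 → σ x = x := Iff.rfl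

lemma coe_intB : ((intB ρbar c₁ c₂ P : Subring Qb) : Set Qb) = levelSet ρbar c₁ c₂ P := rfl

lemma intA_le_intB : intA P ≤ intB ρbar c₁ c₂ P := by
  rintro x ⟨hx, hx'⟩
  exact ⟨hx, fun σ hσ _ _ _ => hx' σ hσ⟩

/-- `D_P` preserves `P`. -/
lemma apply_mem_P {σ : GQ} (hσ : σ ∈ P.decompositionSubgroup ℚ) {x : Qb} (hx : x ∈ P) :
    σ x ∈ P :=
  ((Fermat.Agent.S55.Bridge.mem_decompositionSubgroup_iff P σ).mp hσ x).mpr hx

lemma inv_apply_self (σ : GQ) (x : Qb) : σ⁻¹ (σ x) = x := by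
  show (σ⁻¹ * σ) x = x
  rw [inv_mul_cancel]
  rfl

lemma apply_inv_self (σ : GQ) (x : Qb) : σ (σ⁻¹ x) = x := by
  show (σ * σ⁻¹) x = x
  rw [mul_inv_cancel]
  rfl

/-- `D_P` preserves `B`. -/
lemma apply_mem_intB (hc₁ : IsAdCocycle ρbar c₁) (hc₂ : IsAdCocycle ρbar c₂)
    {σ : GQ} (hσ : σ ∈ P.decompositionSubgroup ℚ) {x : Qb} (hx : x ∈ intB ρbar c₁ c₂ P) :
    σ x ∈ intB ρbar c₁ c₂ P := by
  obtain ⟨hxP, hx'⟩ := hx
  refine ⟨apply_mem_P P hσ hxP, fun τ hτ h1 h2 h3 => ?_⟩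
  -- `σ⁻¹ τ σ` satisfies the conditions
  have hmem : σ⁻¹ * τ * σ ∈ P.decompositionSubgroup ℚ :=
    Subgroup.mul_mem _ (Subgroup.mul_mem _ (Subgroup.inv_mem _ hσ) hτ) hσ
  have e1 : ρbar.ρ (σ⁻¹ * τ * σ) = 1 := by
    rw [map_mul, map_mul, h1, mul_one, rho_inv_mul]
  have hconj : ∀ {c : GQ → Module.End k ρbar.V}, IsAdCocycle ρbar c → c τ = 0 →
      c (σ⁻¹ * τ * σ) = 0 := by
    intro c hc h0
    have := adCocycle_conj_of_ker hc h1 σ⁻¹
    rw [inv_inv] at this
    rw [this, h0, mul_zero, zero_mul]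
  have h4 := hx' _ hmem e1 (hconj hc₁ h2) (hconj hc₂ h3)
  have h5 : (σ⁻¹ * τ * σ) x = σ⁻¹ (τ (σ x)) := rfl
  rw [h5] at h4
  have h6 := congrArg σ h4
  rw [apply_inv_self] at h6
  exact h6

variable (hc₁ : IsAdCocycle ρbar c₁) (hc₂ : IsAdCocycle ρbar c₂)

/-- The ring automorphism of `B` induced by `σ ∈ D_P`. -/
def intAut (σ : P.decompositionSubgroup ℚ) : RingAut (intB ρbar c₁ c₂ P) where
  toFun b := ⟨(σ : GQ) b, apply_mem_intB P hc₁ hc₂ σ.2 b.2⟩
  invFun b := ⟨(σ : GQ)⁻¹ b, apply_mem_intB P hc₁ hc₂ (Subgroup.inv_mem _ σ.2) b.2⟩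
  left_inv b := Subtype.ext (inv_apply_self _ _)
  right_inv b := Subtype.ext (apply_inv_self _ _)
  map_mul' a b := Subtype.ext (map_mul (σ : GQ) _ _)
  map_add' a b := Subtype.ext (map_add (σ : GQ) _ _)

/-- The action of `D_P` on `B`, as a homomorphism to `RingAut B`. -/
def intAct : (P.decompositionSubgroup ℚ) →* RingAut (intB ρbar c₁ c₂ P) where
  toFun := intAut P hc₁ hc₂
  map_one' := by
    ext b
    rfl
  map_mul' σ τ := by
    ext b
    rfl

@[simp] lemma intAct_apply (σ : P.decompositionSubgroup ℚ) (b : intB ρbar c₁ c₂ P) :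
    ((intAct P hc₁ hc₂ σ b : intB ρbar c₁ c₂ P) : Qb) = (σ : GQ) (b : Qb) := rfl

lemma intKer_le_ker : intKer P hc₁ hc₂ ≤ (intAct P hc₁ hc₂).ker := by
  rintro σ ⟨h1, h2, h3⟩
  rw [MonoidHom.mem_ker]
  ext b
  exact b.2.2 _ σ.2 h1 h2 h3

/-- `Γ = D_P ⧸ N`. -/
abbrev intΓ : Type := (P.decompositionSubgroup ℚ) ⧸ intKer P hc₁ hc₂

/-- The action of `Γ` on `B`, as a homomorphism. -/
def intActQ : intΓ P hc₁ hc₂ →* RingAut (intB ρbar c₁ c₂ P) :=
  QuotientGroup.lift (intKer P hc₁ hc₂) (intAct P hc₁ hc₂) (intKer_le_ker P hc₁ hc₂)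

@[simp] lemma intActQ_mk (σ : P.decompositionSubgroup ℚ) :
    intActQ P hc₁ hc₂ (QuotientGroup.mk' _ σ) = intAct P hc₁ hc₂ σ := rfl

/-- `Γ` is finite when `k` is. -/
theorem finite_intΓ [Finite k] : Finite (intΓ P hc₁ hc₂) := by
  classical
  haveI : Finite ρbar.V := Module.finite_of_finite k
  haveI : Finite (Module.End k ρbar.V) := Finite.of_injective (fun f => (f : ρbar.V → ρbar.V))
    DFunLike.coe_injective
  let f : (P.decompositionSubgroup ℚ) →
      Module.End k ρbar.V × Module.End k ρbar.V × Module.End k ρbar.V :=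
    fun σ => (ρbar.ρ (σ : GQ), c₁ (σ : GQ), c₂ (σ : GQ))
  have hf : ∀ σ τ, f σ = f τ →
      (QuotientGroup.mk' (intKer P hc₁ hc₂) σ) = QuotientGroup.mk' (intKer P hc₁ hc₂) τ := by
    intro σ τ h
    have h1 : ρbar.ρ (σ : GQ) = ρbar.ρ (τ : GQ) := congrArg Prod.fst h
    have h2 : c₁ (σ : GQ) = c₁ (τ : GQ) := congrArg (fun x => x.2.1) h
    have h3 : c₂ (σ : GQ) = c₂ (τ : GQ) := congrArg (fun x => x.2.2) h
    rw [QuotientGroup.mk'_eq_mk']
    refine ⟨σ⁻¹ * τ, ?_, by group⟩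
    have e1 : ρbar.ρ ((σ : GQ)⁻¹ * (τ : GQ)) = 1 := by
      rw [map_mul, ← h1, rho_inv_mul]
    have hc : ∀ {c : GQ → Module.End k ρbar.V}, IsAdCocycle ρbar c →
        c (σ : GQ) = c (τ : GQ) → c ((σ : GQ)⁻¹ * (τ : GQ)) = 0 := by
      intro c hc h0
      have h4 := hc.map_mul (σ : GQ) ((σ : GQ)⁻¹ * (τ : GQ))
      rw [mul_inv_cancel_left, h0] at h4
      have h5 : ρbar.ρ (σ : GQ) * c ((σ : GQ)⁻¹ * (τ : GQ)) * ρbar.ρ (σ : GQ)⁻¹ = 0 :=
        (left_eq_add.mp h4)
      have h6 := congrArg (fun m => ρbar.ρ (σ : GQ)⁻¹ * m * ρbar.ρ (σ : GQ)) h5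
      simp only [mul_zero, zero_mul] at h6
      rw [← mul_assoc, ← mul_assoc, rho_inv_mul, one_mul, mul_assoc, rho_inv_mul, mul_one] at h6
      exact h6
    exact ⟨e1, hc hc₁ h2, hc hc₂ h3⟩
  let g : Set.range f → intΓ P hc₁ hc₂ := fun y =>
    QuotientGroup.mk' (intKer P hc₁ hc₂) y.2.choose
  refine Finite.of_surjective g ?_
  intro γ
  obtain ⟨σ, rfl⟩ := QuotientGroup.mk'_surjective (intKer P hc₁ hc₂) γ
  refine ⟨⟨f σ, σ, rfl⟩, ?_⟩
  exact hf _ _ (Set.mem_range_self σ : f σ ∈ Set.range f).choose_spec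

end Defs

end Fermat.Agent.S56.H914

end

end
-- ===== PACK-END S56/H914/IntDefs.lean

-- ===== PACK-BEGIN S56/H906/FI.lean
section




/-!
# S56 / FLAT-O, piece (FI): `(I_aug M) ∩ M^I = 0` for a flat `M` killed by `p`, `p` odd (helper906)

* `redKer P Λ` — the kernel of reduction `M⁰ = {x : f x ≡ f 0 mod 𝔪_P for all f ∈ Λ}`, an
  additive subgroup of `M`.
* `act_sub_mem_redKer` (CE', the easy half of "connected = augmentation"):
  `act σ y - y ∈ M⁰` for `σ ∈ I_P`;  `closure_le_redKer`: `I_aug M ≤ M⁰`.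
* `eq_zero_of_mem_redKer_of_fixed` (INV): an inertia-fixed point of `M⁰` of order `p` is `0`
  (`p` odd).
* `flatInertia : FlatInertiaStatement`.
-/

set_option autoImplicit false
set_option linter.unusedSectionVars false

noncomputable section

namespace Fermat.Agent.S56.H906

open Fermat.Agent.S56

section RedKer

variable {p : ℕ} [Fact p.Prime] {M : Type} [AddCommGroup M] {act : GQ → M → M}
  {Λ : Subalgebra (Zp p) (M → Qb)} (P : ValuationSubring Qb)

/-- Membership in the kernel of reduction. -/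
def InRedKer (Λ : Subalgebra (Zp p) (M → Qb)) (x : M) : Prop :=
  ∀ f ∈ Λ, P.valuation (f x - f 0) < 1

theorem inRedKer_zero : InRedKer P Λ (0 : M) := by
  intro f _
  rw [sub_self, map_zero]
  exact zero_lt_one

/-- The key congruence: if `b k y ≡ b k y'` for all `b ∈ Λ`, then `f (x + y) ≡ f (x + y')`. -/
theorem valuation_comul_sub_lt (hΛ : IsHL p act Λ) (hP : P.LiesOverPrime p) {f : M → Qb}
    (hf : f ∈ Λ) (x y y' : M) (h : ∀ g ∈ Λ, P.valuation (g y - g y') < 1) :
    P.valuation (f (x + y) - f (x + y')) < 1 := by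
  obtain ⟨n, a, b, ha, hb, hab⟩ := hΛ.comul_mem f hf
  rw [hab, hab, ← Finset.sum_sub_distrib]
  refine Valuation.map_sum_lt _ one_ne_zero fun k _ => ?_
  rw [← mul_sub, map_mul]
  have h1 : P.valuation (a k x) ≤ 1 :=
    (ValuationSubring.valuation_le_one_iff P _).mpr (apply_mem P hΛ hP (ha k) x)
  calc P.valuation (a k x) * P.valuation (b k y - b k y')
      ≤ 1 * P.valuation (b k y - b k y') := by gcongr
    _ = P.valuation (b k y - b k y') := one_mul _
    _ < 1 := h _ (hb k)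

theorem inRedKer_add (hΛ : IsHL p act Λ) (hP : P.LiesOverPrime p) {x y : M}
    (hx : InRedKer P Λ x) (hy : InRedKer P Λ y) : InRedKer P Λ (x + y) := by
  intro f hf
  have h1 := valuation_comul_sub_lt P hΛ hP hf x y 0 hy
  rw [add_zero] at h1
  have h2 := hx f hf
  have : f (x + y) - f 0 = (f (x + y) - f x) + (f x - f 0) := by ring
  rw [this]
  exact Valuation.map_add_lt _ h1 h2

theorem inRedKer_neg (hΛ : IsHL p act Λ) (hP : P.LiesOverPrime p) {x : M}
    (hx : InRedKer P Λ x) : InRedKer P Λ (-x) := by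
  intro f hf
  have h1 := valuation_comul_sub_lt P hΛ hP hf (-x) 0 x (fun g hg => by
    rw [← Valuation.map_neg, neg_sub]
    exact hx g hg)
  rw [add_zero, neg_add_cancel] at h1
  exact h1

/-- The kernel of reduction `M⁰`. -/
def redKer (hΛ : IsHL p act Λ) (hP : P.LiesOverPrime p) : AddSubgroup M where
  carrier := {x | InRedKer P Λ x}
  zero_mem' := inRedKer_zero P
  add_mem' := fun hx hy => inRedKer_add P hΛ hP hx hy
  neg_mem' := fun hx => inRedKer_neg P hΛ hP hx

theorem mem_redKer (hΛ : IsHL p act Λ) (hP : P.LiesOverPrime p) (x : M) :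
    x ∈ redKer P hΛ hP ↔ ∀ f ∈ Λ, P.valuation (f x - f 0) < 1 := Iff.rfl

/-- (CE') `σ y - y` lies in the kernel of reduction for `σ` in the inertia group. -/
theorem act_sub_mem_redKer (hΛ : IsHL p act Λ) (hP : P.LiesOverPrime p) {σ : GQ}
    (hσ : σ ∈ P.inertiaSubgroupIn ℚ) (y : M) : act σ y - y ∈ redKer P hΛ hP := by
  intro f hf
  have h1 := valuation_comul_sub_lt P hΛ hP hf (-y) (act σ y) y (fun g hg => by
    rw [hΛ.equivariant g hg σ y]
    exact (ValuationSubring.mem_nonunits_iff P).mp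
      (Fermat.Agent.A2.H708.sub_mem_nonunits_of_mem_inertiaIn P hσ (apply_mem P hΛ hP hg y)))
  rw [neg_add_cancel, neg_add_eq_sub] at h1
  exact h1

/-- `I_aug M ≤ M⁰`. -/
theorem closure_le_redKer (hΛ : IsHL p act Λ) (hP : P.LiesOverPrime p) :
    AddSubgroup.closure {z : M | ∃ σ ∈ P.inertiaSubgroupIn ℚ, ∃ y : M, z = act σ y - y} ≤
      redKer P hΛ hP := by
  rw [AddSubgroup.closure_le]
  rintro z ⟨σ, hσ, y, rfl⟩
  exact act_sub_mem_redKer P hΛ hP hσ y

/-- (INV) an inertia-fixed point of order `p` of the kernel of reduction is `0`, `p` odd. -/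
theorem eq_zero_of_mem_redKer_of_fixed [Finite M] (hp2 : p ≠ 2) (hΛ : IsHL p act Λ)
    (hP : P.LiesOverPrime p) {x : M} (hpx : p • x = 0) (hx : x ∈ redKer P hΛ hP)
    (hfix : ∀ σ ∈ P.inertiaSubgroupIn ℚ, act σ x = x) : x = 0 := by
  have hp : p.Prime := Fact.out
  have hvp : P.valuation (p : Qb) < 1 := (ValuationSubring.mem_nonunits_iff P).mp hP
  have hvp0 : P.valuation (p : Qb) ≠ 0 :=
    (Valuation.ne_zero_iff _).mpr (by exact_mod_cast hp.ne_zero)
  refine lemmaA p M act Λ hΛ P hP x (p : Qb) hpx ?_ ?_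
  · -- `v(p)^(p-1) < v(p)`
    obtain ⟨q, hq⟩ : ∃ q, p - 1 = q + 1 + 1 := ⟨p - 3, by have := hp.two_le; omega⟩
    rw [hq, pow_succ]
    calc P.valuation (p : Qb) ^ (q + 1) * P.valuation (p : Qb)
        < 1 * P.valuation (p : Qb) := by
          refine mul_lt_mul_of_pos_right ?_ (zero_lt_iff.mpr hvp0)
          exact pow_lt_one₀ zero_le hvp (by omega)
      _ = P.valuation (p : Qb) := one_mul _
  · intro f hf
    refine Fermat.Agent.S56.H66.vg0_le p hp P hP _ ((ValuationSubring.mem_nonunits_iff P).mpr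
      (hx f hf)) fun σ hσ => ?_
    rw [map_sub, ← hΛ.equivariant f hf σ x, ← hΛ.equivariant f hf σ 0, hfix σ hσ,
      Fermat.Agent.S19.H435.IsHopfLattice.act_zero hΛ σ]

end RedKer

/-- **(FI)**. -/
theorem flatInertia : FlatInertiaStatement := by
  intro p _ hp2 M _ _ act Λ hΛ hkill P hP x hfix hx
  exact eq_zero_of_mem_redKer_of_fixed P hp2 hΛ hP (hkill x)
    (closure_le_redKer P hΛ hP hx) hfix

end Fermat.Agent.S56.H906

end

end
-- ===== PACK-END S56/H906/FI.lean

-- ===== PACK-BEGIN S56/H734/KumMain.lean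
section




/-!
# S56 / FLAT-O, leaf KUM (helper734): `kum : H906.KumStatement`

`P | p`, `p` odd, `a : D_P → kˣ` a character of finite level which is the mod-`p` cyclotomic
character on inertia.  The peu ramifié classes in `H¹(D_P, k(a))` span at most one dimension.

Proof.  `H = {σ ∈ I_P : σ ζ = ζ}`.
* restriction to `H` is injective on classes (`coboundary_of_vanish`);
* for a peu ramifié cocycle `c` and an `𝔽_p`-basis `ℓ_i` of `k^∨`, the Kummer class of `ℓ_i ∘ c|_H`
  is the class of a unit `1 + p a_i` of the inertia field; `Y(c) = (a_i mod 𝔪_P)_i` is well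
  defined, additive, and `Y(c) = 0` iff `c` is a coboundary (`KumLocal.lean`);
* `Y(c)` is a fixed point of a `p`-semilinear endomorphism of `κ_P ^ f`, `f = [k : 𝔽_p]`
  (Frobenius twist), and there are at most `p ^ f = |k|` such fixed points (`KumCount.lean`).
-/

set_option autoImplicit false
set_option linter.style.haveILetI false

noncomputable section

namespace Fermat.Agent.S56.H734

open Fermat.Agent.S56 Fermat.Agent.S56.H786 Fermat.Agent.S56.H906 IsLocalRing

/-! ## A basis of `k` over `𝔽_p`, in additive vocabulary -/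

theorem exists_zmod_basis (p : ℕ) [Fact p.Prime] (k : Type) [Field k] [Finite k] [CharP k p] :
    ∃ (f : ℕ) (b : Fin f → k) (ℓ : Fin f → (k →+ ZMod p)),
      (∀ y : k, ∑ i, (ℓ i y).val • b i = y) ∧ Nat.card k = p ^ f := by
  letI : Algebra (ZMod p) k := ZMod.algebra k p
  haveI : Module.Finite (ZMod p) k := Module.Finite.of_finite
  let B := Module.finBasis (ZMod p) k
  refine ⟨Module.finrank (ZMod p) k, B, fun i => (B.coord i).toAddMonoidHom, ?_, ?_⟩
  · intro y
    conv_rhs => rw [← B.sum_repr y]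
    refine Finset.sum_congr rfl fun i _ => ?_
    show ((B.coord i) y).val • B i = (B.repr y) i • B i
    rw [B.coord_apply, ← Nat.cast_smul_eq_nsmul (ZMod p), ZMod.natCast_zmod_val]
  · rw [Module.natCard_eq_pow_finrank (K := ZMod p) (V := k), Nat.card_zmod]

/-- Additive maps to `ZMod p` commute with multiplication by natural numbers. -/
theorem map_natCast_mul {p : ℕ} {k : Type} [Field k] (ℓ : k →+ ZMod p) (n : ℕ) (y : k) :
    ℓ ((n : k) * y) = (n : ZMod p) * ℓ y := by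
  rw [← nsmul_eq_mul, map_nsmul, nsmul_eq_mul]

/-! ## Cocycles -/

section cocycle

variable {p : ℕ} {P : ValuationSubring Qb} {k : Type} [Field k] {a c : GQ → k}

theorem locChar_inv (ha : IsLocChar P a) {g : GQ} (hg : g ∈ P.decompositionSubgroup ℚ) :
    a g ≠ 0 ∧ a g⁻¹ = (a g)⁻¹ := by
  have h1 : a g * a g⁻¹ = 1 := by
    rw [← ha.map_mul g hg g⁻¹ (inv_mem hg), mul_inv_cancel, ha.map_one]
  have h0 : a g ≠ 0 := left_ne_zero_of_mul_eq_one h1
  exact ⟨h0, eq_inv_of_mul_eq_one_right h1⟩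

theorem locCocycle_one (hc : IsLocCocycle P a c) (ha : IsLocChar P a) : c 1 = 0 := by
  have h := hc.map_mul 1 (one_mem _) 1 (one_mem _)
  rw [mul_one, ha.map_one, one_mul] at h
  exact left_eq_add.mp h

theorem locCocycle_inv (hc : IsLocCocycle P a c) (ha : IsLocChar P a) {g : GQ}
    (hg : g ∈ P.decompositionSubgroup ℚ) : c g⁻¹ = -((a g)⁻¹ * c g) := by
  have h := hc.map_mul g⁻¹ (inv_mem hg) g hg
  rw [inv_mul_cancel, locCocycle_one hc ha, (locChar_inv ha hg).2] at h
  exact eq_neg_of_add_eq_zero_left h.symm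

/-- `c (g⁻¹ σ g) = a(g)⁻¹ c(σ)` when `a σ = 1`. -/
theorem locCocycle_conj (hc : IsLocCocycle P a c) (ha : IsLocChar P a) {g σ : GQ}
    (hg : g ∈ P.decompositionSubgroup ℚ) (hσ : σ ∈ P.decompositionSubgroup ℚ) (h1 : a σ = 1) :
    c (g⁻¹ * σ * g) = (a g)⁻¹ * c σ := by
  rw [mul_assoc, hc.map_mul g⁻¹ (inv_mem hg) (σ * g) (mul_mem hσ hg), hc.map_mul σ hσ g hg,
    locCocycle_inv hc ha hg, (locChar_inv ha hg).2, h1]
  ring

theorem locCocycle_smul (hc : IsLocCocycle P a c) (x : k) :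
    IsLocCocycle P a (fun σ => x * c σ) := by
  refine ⟨fun σ hσ τ hτ => ?_, ?_⟩
  · show x * c (σ * τ) = x * c σ + a σ * (x * c τ)
    rw [hc.map_mul σ hσ τ hτ]
    ring
  · obtain ⟨L, hL, h⟩ := hc.level
    exact ⟨L, hL, fun σ hσ τ hτ hfix => by
      show x * c (σ * τ) = x * c σ
      rw [h σ hσ τ hτ hfix]⟩

theorem locCocycle_sub {c' : GQ → k} (hc : IsLocCocycle P a c) (hc' : IsLocCocycle P a c') :
    IsLocCocycle P a (fun σ => c σ - c' σ) := by
  refine ⟨fun σ hσ τ hτ => ?_, ?_⟩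
  · show c (σ * τ) - c' (σ * τ) = c σ - c' σ + a σ * (c τ - c' τ)
    rw [hc.map_mul σ hσ τ hτ, hc'.map_mul σ hσ τ hτ]
    ring
  · obtain ⟨L, hL, h⟩ := hc.level
    obtain ⟨L', hL', h'⟩ := hc'.level
    haveI := hL
    haveI := hL'
    refine ⟨L ⊔ L', inferInstance, fun σ hσ τ hτ hfix => ?_⟩
    show c (σ * τ) - c' (σ * τ) = c σ - c' σ
    rw [h σ hσ τ hτ fun x hx => hfix x ((le_sup_left : L ≤ L ⊔ L') hx),
      h' σ hσ τ hτ fun x hx => hfix x ((le_sup_right : L' ≤ L ⊔ L') hx)]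

theorem isPeu_smul (hc : IsPeu p P c) (x : k) : IsPeu p P (fun σ => x * c σ) := by
  intro ζ hζ ℓ
  exact hc ζ hζ (ℓ.comp (AddMonoidHom.mulLeft x))

end cocycle

/-! ## Restriction to `H` is injective on classes -/

section restrict

variable {p : ℕ} {P : ValuationSubring Qb} {k : Type} [Field k] {a c : GQ → k}

/-- Elements fixing `ζ` have cyclotomic exponent `1`. -/
theorem isCycExp_one_of_fix [NeZero p] {ζ : Qb} (hζ : IsPrimitiveRoot ζ p) {σ : GQ}
    (h : σ ζ = ζ) : IsCycExp p σ 1 := by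
  intro μ hμ
  obtain ⟨i, -, rfl⟩ := hζ.eq_pow_of_pow_eq_one hμ
  rw [map_pow, h, pow_one]

theorem ordChar_eq_one [NeZero p] (ha : IsOrdChar p P a) {ζ : Qb} (hζ : IsPrimitiveRoot ζ p)
    {σ : GQ} (hσ : σ ∈ P.inertiaSubgroupIn ℚ) (h : σ ζ = ζ) : a σ = 1 := by
  rw [ha.cyc σ hσ 1 (isCycExp_one_of_fix hζ h), Nat.cast_one]

/-- Inertia at `p` moves `ζ_p`, `p` odd. -/
theorem exists_inertia_move (hp : p.Prime) (hp2 : p ≠ 2) (hP : P.LiesOverPrime p) {ζ : Qb}
    (hζ : IsPrimitiveRoot ζ p) : ∃ t ∈ P.inertiaSubgroupIn ℚ, t ζ ≠ ζ := by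
  by_contra hcon
  push Not at hcon
  have hfix : ∀ σ ∈ P.inertiaSubgroupIn ℚ, σ (ζ - 1) = ζ - 1 := fun σ hσ => by
    rw [map_sub, map_one, hcon σ hσ]
  have hπ0 := Fermat.Agent.S14.H894.valuation_zeta_sub_one_ne_zero P p hp ζ hζ
  have hπ1 := Fermat.Agent.S14.H894.valuation_zeta_sub_one_lt_one P p hp hP ζ hζ
  have hpπ := Fermat.Agent.S14.H894.valuation_natCast_eq_pow P p hp ζ hζ
  have hle := Fermat.Agent.S56.H66.vg0_le p hp P hP (ζ - 1) ((P.mem_nonunits_iff).mpr hπ1) hfix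
  rw [hpπ] at hle
  have h3p : 3 ≤ p := by
    have := hp.two_le
    omega
  have hlt : P.valuation (ζ - 1) ^ (p - 1) < P.valuation (ζ - 1) := by
    have e : p - 1 = 1 + (p - 2) := by omega
    rw [e, pow_add, pow_one]
    calc P.valuation (ζ - 1) * P.valuation (ζ - 1) ^ (p - 2)
        < P.valuation (ζ - 1) * 1 :=
          mul_lt_mul_of_pos_left (pow_lt_one₀ zero_le hπ1 (by omega)) (zero_lt_iff.mpr hπ0)
      _ = P.valuation (ζ - 1) := mul_one _
  exact absurd hle (not_le.mpr hlt)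

/-- A cocycle on `D_P` vanishing on `H` is a coboundary. -/
theorem coboundary_of_vanish [CharP k p] (hp : p.Prime) (hp2 : p ≠ 2) (hP : P.LiesOverPrime p)
    {ζ : Qb} (hζ : IsPrimitiveRoot ζ p) (ha : IsOrdChar p P a) (hc : IsLocCocycle P a c)
    (hvan : ∀ σ ∈ P.inertiaSubgroupIn ℚ, σ ζ = ζ → c σ = 0) :
    ∃ m : k, ∀ σ ∈ P.decompositionSubgroup ℚ, c σ = (a σ - 1) * m := by
  haveI : NeZero p := ⟨hp.ne_zero⟩
  obtain ⟨t, ht, htζ⟩ := exists_inertia_move hp hp2 hP hζ
  obtain ⟨n, hn⟩ := Fermat.Agent.S56.H786.exists_isCycExp hζ t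
  have hat : a t = (n : k) := ha.cyc t ht n hn
  have hat1 : a t ≠ 1 := by
    intro h1
    apply htζ
    rw [hat] at h1
    have h2 : ((n : ℕ) : k) = ((1 : ℕ) : k) := by rw [h1, Nat.cast_one]
    have h3 : n ≡ 1 [MOD p] := (CharP.natCast_eq_natCast k p).mp h2
    have hfin : IsOfFinOrder ζ :=
      isOfFinOrder_iff_pow_eq_one.mpr ⟨p, hp.pos, hζ.pow_eq_one⟩
    have h4 : ζ ^ n = ζ ^ 1 := by
      rw [hfin.pow_eq_pow_iff_modEq, ← hζ.eq_orderOf]
      exact h3
    rw [hn ζ hζ.pow_eq_one, h4, pow_one]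
  have htD : t ∈ P.decompositionSubgroup ℚ :=
    Fermat.Agent.A2.H708.mem_decomposition_of_mem_inertiaIn P ht
  have hne : a t - 1 ≠ 0 := sub_ne_zero.mpr hat1
  refine ⟨c t / (a t - 1), fun σ hσ => ?_⟩
  have hd : ∀ σ ∈ P.decompositionSubgroup ℚ, ∀ τ ∈ P.decompositionSubgroup ℚ,
      c (σ * τ) - (a (σ * τ) - 1) * (c t / (a t - 1)) =
        (c σ - (a σ - 1) * (c t / (a t - 1))) +
          a σ * (c τ - (a τ - 1) * (c t / (a t - 1))) := by
    intro σ hσ τ hτ
    rw [hc.map_mul σ hσ τ hτ, ha.map_mul σ hσ τ hτ]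
    ring
  have hdt : c t - (a t - 1) * (c t / (a t - 1)) = 0 := by
    rw [mul_div_cancel₀ _ hne, sub_self]
  have hhI : t⁻¹ * (σ * t * σ⁻¹) ∈ P.inertiaSubgroupIn ℚ :=
    mul_mem (inv_mem ht) (Fermat.Agent.S56.H794.conj_mem_inertiaIn P hσ ht)
  have hhζ : (t⁻¹ * (σ * t * σ⁻¹)) ζ = ζ := by
    show t⁻¹ (σ (t (σ⁻¹ ζ))) = ζ
    have hμ : (σ⁻¹ ζ) ^ p = 1 := by rw [← map_pow, hζ.pow_eq_one, map_one]
    rw [hn _ hμ, map_pow, kum_apply_inv, ← hn ζ hζ.pow_eq_one, kum_inv_apply]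
  have hhD := Fermat.Agent.A2.H708.mem_decomposition_of_mem_inertiaIn P hhI
  have hah : a (t⁻¹ * (σ * t * σ⁻¹)) = 1 := ordChar_eq_one ha hζ hhI hhζ
  have hch : c (t⁻¹ * (σ * t * σ⁻¹)) = 0 := hvan _ hhI hhζ
  have hgrp : σ * t = t * ((t⁻¹ * (σ * t * σ⁻¹)) * σ) := by group
  have e1 := hd σ hσ t htD
  have e2 := hd t htD ((t⁻¹ * (σ * t * σ⁻¹)) * σ) (mul_mem hhD hσ)
  have e3 := hd (t⁻¹ * (σ * t * σ⁻¹)) hhD σ hσ
  rw [← hgrp] at e2
  rw [hdt] at e1 e2
  rw [hch, hah] at e3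
  have key : (c σ - (a σ - 1) * (c t / (a t - 1))) * (a t - 1) = 0 := by
    linear_combination e1 - e2 - a t * e3
  rcases mul_eq_zero.mp key with h | h
  · exact sub_eq_zero.mp h
  · exact absurd h hne

end restrict

/-! ## The semilinear map -/

section frobT

variable (κ : Type*) [Field κ] (p : ℕ) [Fact p.Prime] [CharP κ p] {f : ℕ}

/-- `x ↦ ((∑ j, M i j • x j) ^ p)_i`. -/
def frobT (M : Fin f → Fin f → ℕ) : (Fin f → κ) →+ (Fin f → κ) :=
  AddMonoidHom.mk' (fun x i => (∑ j, M i j • x j) ^ p) (by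
    intro x y
    funext i
    simp only [Pi.add_apply, smul_add, Finset.sum_add_distrib]
    exact add_pow_char _ _ p)

variable {κ p}

theorem frobT_apply (M : Fin f → Fin f → ℕ) (x : Fin f → κ) (i : Fin f) :
    frobT κ p M x i = (∑ j, M i j • x j) ^ p := rfl

theorem frobT_smul (M : Fin f → Fin f → ℕ) (c : κ) (x : Fin f → κ) :
    frobT κ p M (c • x) = c ^ p • frobT κ p M x := by
  funext i
  simp only [frobT_apply, Pi.smul_apply, smul_eq_mul]
  rw [← mul_pow]
  congr 1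
  rw [Finset.mul_sum]
  refine Finset.sum_congr rfl fun j _ => ?_
  rw [nsmul_eq_mul, nsmul_eq_mul]
  ring

end frobT

/-! ## The invariant of a peu ramifié cocycle -/

section main

variable {p : ℕ} {P : ValuationSubring Qb} {k : Type} [Field k] {a c : GQ → k}

theorem charP_residue (hp : p.Prime) (hP : P.LiesOverPrime p) : CharP (ResidueField P) p := by
  rw [CharP.charP_iff_prime_eq_zero hp]
  have h := resQ_natCast_self hP
  rw [resQ_of_mem (natCast_mem P p)] at h
  have e : (⟨(p : Qb), natCast_mem P p⟩ : P) = ((p : ℕ) : P) := rfl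
  rw [e, map_natCast] at h
  exact h

theorem isCycExp_natCast_ne_zero [CharP k p] (hp : p.Prime) {ζ : Qb} (hζ : IsPrimitiveRoot ζ p)
    {σ : GQ} {n : ℕ} (hn : IsCycExp p σ n) : (n : k) ≠ 0 := by
  intro h0
  have hdvd : p ∣ n := (CharP.cast_eq_zero_iff k p n).mp h0
  have h1 : σ ζ = 1 := by
    rw [hn ζ hζ.pow_eq_one]
    obtain ⟨m, rfl⟩ := hdvd
    rw [pow_mul, hζ.pow_eq_one, one_pow]
  have h2 : ζ = 1 := σ.injective (by rw [h1, map_one])
  exact hζ.ne_one hp.one_lt h2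

/-- The components of a cocycle are `ω`-twisted cocycles of finite level on inertia. -/
theorem comp_cocycle (ha : IsOrdChar p P a) (hc : IsLocCocycle P a c) (ℓ : k →+ ZMod p) :
    (∀ σ ∈ P.inertiaSubgroupIn ℚ, ∀ τ ∈ P.inertiaSubgroupIn ℚ, ∀ n : ℕ, IsCycExp p σ n →
      ℓ (c (σ * τ)) = ℓ (c σ) + (n : ZMod p) * ℓ (c τ)) ∧
    (∃ L : IntermediateField ℚ Qb, FiniteDimensional ℚ L ∧
      ∀ σ ∈ P.inertiaSubgroupIn ℚ, ∀ τ ∈ P.inertiaSubgroupIn ℚ,
        (∀ x ∈ L, τ x = x) → ℓ (c (σ * τ)) = ℓ (c σ)) := by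
  have hID : ∀ σ ∈ P.inertiaSubgroupIn ℚ, σ ∈ P.decompositionSubgroup ℚ := fun σ hσ =>
    Fermat.Agent.A2.H708.mem_decomposition_of_mem_inertiaIn P hσ
  constructor
  · intro σ hσ τ hτ n hn
    rw [hc.map_mul σ (hID σ hσ) τ (hID τ hτ), ha.cyc σ hσ n hn, map_add, map_natCast_mul]
  · obtain ⟨L, hL, h⟩ := hc.level
    exact ⟨L, hL, fun σ hσ τ hτ hfix => by rw [h σ (hID σ hσ) τ (hID τ hτ) hfix]⟩

theorem exists_KRel (hp : p.Prime) (hP : P.LiesOverPrime p) {ζ : Qb} (hζ : IsPrimitiveRoot ζ p)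
    (ha : IsOrdChar p P a) (hc : IsLocCocycle P a c) (hpeu : IsPeu p P c) (ℓ : k →+ ZMod p) :
    ∃ y, KRel P ζ (fun σ => ℓ (c σ)) y := by
  obtain ⟨h1, h2⟩ := comp_cocycle ha hc ℓ
  exact KRel.exists_of_unit hp hP hζ h1 h2 (hpeu ζ hζ ℓ)

/-- The invariant (a choice). -/
def Yv (P : ValuationSubring Qb) (ζ : Qb) {f : ℕ} (ℓ : Fin f → (k →+ ZMod p)) (c : GQ → k)
    (i : Fin f) : ResidueField P :=
  Classical.epsilon fun y => KRel P ζ (fun σ => ℓ i (c σ)) y

theorem Yv_spec {ζ : Qb} {f : ℕ} {ℓ : Fin f → (k →+ ZMod p)} {i : Fin f}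
    (h : ∃ y, KRel P ζ (fun σ => ℓ i (c σ)) y) :
    KRel P ζ (fun σ => ℓ i (c σ)) (Yv P ζ ℓ c i) :=
  Classical.epsilon_spec h

/-- Two cocycles with the same invariant differ by a coboundary. -/
theorem coboundary_of_KRel_eq [CharP k p] (hp : p.Prime) (hp2 : p ≠ 2) (hP : P.LiesOverPrime p)
    {ζ : Qb} (hζ : IsPrimitiveRoot ζ p) (ha : IsOrdChar p P a) {c' : GQ → k}
    (hc : IsLocCocycle P a c) (hc' : IsLocCocycle P a c') {f : ℕ} {b : Fin f → k}
    {ℓ : Fin f → (k →+ ZMod p)} (hb : ∀ y : k, ∑ i, (ℓ i y).val • b i = y)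
    {Y : Fin f → ResidueField P} (h : ∀ i, KRel P ζ (fun σ => ℓ i (c σ)) (Y i))
    (h' : ∀ i, KRel P ζ (fun σ => ℓ i (c' σ)) (Y i)) :
    ∃ m : k, ∀ σ ∈ P.decompositionSubgroup ℚ, c σ - c' σ = (a σ - 1) * m := by
  haveI : NeZero p := ⟨hp.ne_zero⟩
  haveI : CharP (ResidueField P) p := charP_residue hp hP
  have hζ1 : ζ ^ p = 1 := hζ.pow_eq_one
  apply coboundary_of_vanish hp hp2 hP hζ ha (locCocycle_sub hc hc')
  intro σ hσ hσζ
  have hi : ∀ i, ℓ i (c σ - c' σ) = 0 := by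
    intro i
    have h1 := KRel.add hζ1 hP (h i) (KRel.nsmul hζ1 hP (h' i) (p - 1))
    have h2 : Y i + (p - 1) • Y i = 0 := by
      rw [← succ_nsmul', Nat.sub_add_cancel hp.one_le, nsmul_eq_mul, CharP.cast_eq_zero,
        zero_mul]
    rw [h2] at h1
    have h3 := KRel.ker hp hp2 hP hζ h1 σ hσ hσζ
    simp only [Pi.add_apply, Pi.smul_apply] at h3
    have h4 : (p - 1) • ℓ i (c' σ) = -ℓ i (c' σ) := by
      have h5 : (p - 1) • ℓ i (c' σ) + ℓ i (c' σ) = 0 := by
        rw [← succ_nsmul, Nat.sub_add_cancel hp.one_le, nsmul_eq_mul, CharP.cast_eq_zero,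
          zero_mul]
      exact eq_neg_of_add_eq_zero_left h5
    rw [h4] at h3
    rw [map_sub, sub_eq_add_neg]
    exact h3
  show c σ - c' σ = 0
  rw [← hb (c σ - c' σ)]
  exact Finset.sum_eq_zero fun i _ => by rw [hi i, ZMod.val_zero, zero_smul]

/-- The invariant is a fixed point of the Frobenius twist. -/
theorem fixed_of_KRel [Fact p.Prime] [CharP k p] [CharP (ResidueField P) p]
    (hP : P.LiesOverPrime p) {ζ : Qb}
    (hζ : IsPrimitiveRoot ζ p) (ha : IsOrdChar p P a) (hc : IsLocCocycle P a c) {φ : GQ}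
    (hφ : P.IsFrobeniusAt φ p) {n : ℕ} (hn : IsCycExp p φ n) {f : ℕ} {b : Fin f → k}
    {ℓ : Fin f → (k →+ ZMod p)} (hb : ∀ y : k, ∑ i, (ℓ i y).val • b i = y)
    {Y : Fin f → ResidueField P} (h : ∀ i, KRel P ζ (fun σ => ℓ i (c σ)) (Y i)) :
    frobT (ResidueField P) p (fun i j => (ℓ i (a φ * (n : k)⁻¹ * b j)).val) Y = Y := by
  have hp : p.Prime := Fact.out
  haveI : NeZero p := ⟨hp.ne_zero⟩
  have hζ1 : ζ ^ p = 1 := hζ.pow_eq_one
  have hφD : φ ∈ P.decompositionSubgroup ℚ := hφ.mem_decompositionSubgroup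
  funext i
  rw [frobT_apply]
  have hsum := KRel.sum hζ1 hP Finset.univ
    (fun j => (ℓ i (a φ * (n : k)⁻¹ * b j)).val • (fun σ => ℓ j (c σ)))
    (fun j => (ℓ i (a φ * (n : k)⁻¹ * b j)).val • Y j)
    (fun j _ => KRel.nsmul hζ1 hP (h j) _)
  have hcongr1 : KRel P ζ (fun σ => ℓ i (a φ * (n : k)⁻¹ * c σ))
      (∑ j, (ℓ i (a φ * (n : k)⁻¹ * b j)).val • Y j) := by
    refine KRel.congr (fun σ _ _ => ?_) hsum
    rw [Finset.sum_apply]
    simp only [Pi.smul_apply]
    conv_rhs => rw [← hb (c σ), Finset.mul_sum, map_sum]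
    refine Finset.sum_congr rfl fun j _ => ?_
    rw [mul_smul_comm, map_nsmul, nsmul_eq_mul, nsmul_eq_mul, ZMod.natCast_zmod_val,
      ZMod.natCast_zmod_val, mul_comm]
  have hfrob := KRel.frob hζ1 hφ hn hcongr1
  have hcongr2 : KRel P ζ (fun σ => ℓ i (c σ))
      ((∑ j, (ℓ i (a φ * (n : k)⁻¹ * b j)).val • Y j) ^ p) := by
    refine KRel.congr (fun σ hσ hσζ => ?_) hfrob
    show (n : ZMod p) * ℓ i (a φ * (n : k)⁻¹ * c (φ⁻¹ * σ * φ)) = ℓ i (c σ)
    rw [locCocycle_conj hc ha.toIsLocChar hφD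
      (Fermat.Agent.A2.H708.mem_decomposition_of_mem_inertiaIn P hσ)
      (ordChar_eq_one ha hζ hσ hσζ), ← map_natCast_mul]
    congr 1
    have hn0 : (n : k) ≠ 0 := isCycExp_natCast_ne_zero hp hζ hn
    have ha0 : a φ ≠ 0 := (locChar_inv ha.toIsLocChar hφD).1
    field_simp
  exact KRel.unique hp hP hζ hcongr2 (h i)

end main

/-! ## The theorem -/

/-- **(KUM)** of `H906/FlatOSpec.lean`: the peu ramifié classes in `H¹(D_P, k(a))`, `a|_{I_P}`
cyclotomic, span at most one dimension. -/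
theorem kum : Fermat.Agent.S56.H906.KumStatement := by
  intro p hpF hp2 k _ _ _ P hP a ha
  have hp : p.Prime := hpF.out
  haveI : NeZero p := ⟨hp.ne_zero⟩
  haveI : NeZero (p : ℚ) := ⟨by exact_mod_cast hp.ne_zero⟩
  obtain ⟨ζ, hζ⟩ := HasEnoughRootsOfUnity.exists_primitiveRoot Qb p
  obtain ⟨φ, hφ⟩ := Fermat.Agent.Lib.Cheb.H643.exists_isFrobeniusAt p hp P hP
  obtain ⟨n, hn⟩ := Fermat.Agent.S56.H786.exists_isCycExp hζ φ
  obtain ⟨f, b, ℓ, hb, hcard⟩ := exists_zmod_basis p k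
  haveI : CharP (ResidueField P) p := charP_residue hp hP
  obtain ⟨hfin, hcardS⟩ := card_fixed_le hp.one_lt
    (frobT (ResidueField P) p (fun i j => (ℓ i (a φ * (n : k)⁻¹ * b j)).val))
    (frobT_smul _)
  haveI := hfin
  rw [Module.finrank_fin_fun] at hcardS
  have hY : ∀ c, IsLocCocycle P a c → IsPeu p P c →
      ∀ i, KRel P ζ (fun σ => ℓ i (c σ)) (Yv P ζ ℓ c i) :=
    fun c hc hpeu i => Yv_spec (exists_KRel hp hP hζ ha hc hpeu (ℓ i))
  have hfix : ∀ c, IsLocCocycle P a c → IsPeu p P c →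
      frobT (ResidueField P) p (fun i j => (ℓ i (a φ * (n : k)⁻¹ * b j)).val) (Yv P ζ ℓ c) =
        Yv P ζ ℓ c :=
    fun c hc hpeu => fixed_of_KRel hP hζ ha hc hφ hn hb (hY c hc hpeu)
  have hK : ∀ c c', IsLocCocycle P a c → IsPeu p P c → IsLocCocycle P a c' → IsPeu p P c' →
      Yv P ζ ℓ c = Yv P ζ ℓ c' →
      ∃ m : k, ∀ σ ∈ P.decompositionSubgroup ℚ, c σ - c' σ = (a σ - 1) * m := by
    intro c c' hc hpeu hc' hpeu' heq
    refine coboundary_of_KRel_eq hp hp2 hP hζ ha hc hc' hb (hY c hc hpeu) (fun i => ?_)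
    rw [heq]
    exact hY c' hc' hpeu' i
  by_cases hex : ∃ c₁, IsLocCocycle P a c₁ ∧ IsPeu p P c₁ ∧
      ¬ ∃ m : k, ∀ σ ∈ P.decompositionSubgroup ℚ, c₁ σ = (a σ - 1) * m
  · obtain ⟨c₁, hc₁, hpeu₁, hnc⟩ := hex
    refine ⟨c₁, fun c hc hpeu => ?_⟩
    let g : k → {x : Fin f → ResidueField P //
        frobT (ResidueField P) p (fun i j => (ℓ i (a φ * (n : k)⁻¹ * b j)).val) x = x} :=
      fun x => ⟨Yv P ζ ℓ (fun σ => x * c₁ σ),
        hfix _ (locCocycle_smul hc₁ x) (isPeu_smul hpeu₁ x)⟩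
    have hginj : Function.Injective g := by
      intro x x' hxx
      by_contra hne
      have heq : Yv P ζ ℓ (fun σ => x * c₁ σ) = Yv P ζ ℓ (fun σ => x' * c₁ σ) :=
        congrArg Subtype.val hxx
      obtain ⟨m, hm⟩ := hK _ _ (locCocycle_smul hc₁ x) (isPeu_smul hpeu₁ x)
        (locCocycle_smul hc₁ x') (isPeu_smul hpeu₁ x') heq
      apply hnc
      have hxx' : x - x' ≠ 0 := sub_ne_zero.mpr hne
      refine ⟨m / (x - x'), fun σ hσ => ?_⟩
      have h1 : x * c₁ σ - x' * c₁ σ = (a σ - 1) * m := hm σ hσ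
      field_simp
      linear_combination h1
    have hbij := hginj.bijective_of_nat_card_le (by rw [hcard]; exact hcardS)
    obtain ⟨x, hx⟩ := hbij.2 ⟨Yv P ζ ℓ c, hfix c hc hpeu⟩
    have heq : Yv P ζ ℓ (fun σ => x * c₁ σ) = Yv P ζ ℓ c := congrArg Subtype.val hx
    obtain ⟨m, hm⟩ := hK c _ hc hpeu (locCocycle_smul hc₁ x) (isPeu_smul hpeu₁ x) heq.symm
    refine ⟨x, m, fun σ hσ => ?_⟩
    have h1 : c σ - x * c₁ σ = (a σ - 1) * m := hm σ hσ
    linear_combination h1
  · refine ⟨fun _ => 0, fun c hc hpeu => ?_⟩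
    by_contra hcon
    apply hex
    refine ⟨c, hc, hpeu, fun ⟨m, hm⟩ => hcon ⟨0, m, fun σ hσ => ?_⟩⟩
    rw [hm σ hσ]
    ring

end Fermat.Agent.S56.H734

end

end
-- ===== PACK-END S56/H734/KumMain.lean

-- ===== PACK-BEGIN S56/H716/GWSpec4.lean
section


/-!
# Row S56 — the wall GW-WALL, layer 3d: ROUTE C (deputy helper716)

`S56  ⇐  DICT + LOC-MIN + LOC-SO + LOC-FLAT + BASE-BIG + REC-Q-SUB + UR-COUNT (+ P1 + TWP)`
(glue: `H716/GWGlue4.lean`)

The frozen statement S56 for `S` follows from its body for any finite set of primes `S'' ⊇ S`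
(the Taylor–Wiles primes found outside `S''` are outside `S`).  So the whole machine is run for
`S'' := S ∪ S₀`, where `S₀ ⊇ Smin` is the big set of (BASE-BIG).  The Taylor–Wiles primes then
AVOID `S₀`, and reciprocity is needed only in the form (REC-Q) with `Smin` replaced by `S₀`:

* `RecQSubStatement` (REC-Q-SUB): under `Hyp 𝒪 p ρbar S Smin`, for every `S'` with
  `Smin ⊆ S' ⊆ S`:  `RecQ 𝒪 p ρbar S S'`  — i.e. (REC-Q) where the strict conditions are imposed
  at the places of `S'` and "unramified" means outside `S' ∪ Q`.  SAME MATHEMATICS AND SAME PROOF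
  as (REC-Q): the proof of (REC-Q) only uses that `ρ̄` is unramified outside `Smin ⊆ S'`, that
  `p ∈ S'` and that `Q ∩ S' = ∅`; the local spaces at `q ∈ Q` are lines.
  For `S' = Smin` it is `RecQStatement`.

No comparison step (COMP), no local duality for planes, no (TW-INV).

Nothing unproved in this file.
-/

set_option autoImplicit false

open Polynomial IsLocalRing

noncomputable section

namespace Fermat.Agent.S56.H716

open Fermat.Agent.S56

/-- (REC-Q-SUB): reciprocity over the Taylor–Wiles primes, relative to any set `S'` of primes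
with `Smin ⊆ S' ⊆ S`. -/
def RecQSubStatement : Prop :=
  ∀ (𝒪 : Type) [CommRing 𝒪] [IsDomain 𝒪] [IsDiscreteValuationRing 𝒪]
    [IsAdicComplete (maximalIdeal 𝒪) 𝒪] [Finite (ResidueField 𝒪)]
    (p : ℕ) (ρbar : ResidualGaloisRep (ResidueField 𝒪)) (S Smin : Finset ℕ),
    Hyp 𝒪 p ρbar S Smin → ∀ S' : Finset ℕ, Smin ⊆ S' → S' ⊆ S → RecQ 𝒪 p ρbar S S'

/-- (TB) for some finite set of primes `S'' ⊇ S`. -/
def TangentBoundSup (𝒪 : Type) [CommRing 𝒪] [IsDomain 𝒪] [IsDiscreteValuationRing 𝒪]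
    [IsAdicComplete (maximalIdeal 𝒪) 𝒪]
    (p : ℕ) (ρbar : ResidualGaloisRep (ResidueField 𝒪)) (S : Finset ℕ)
    (cond : Finset ℕ → DefCond 𝒪) : Prop :=
  ∃ S'' : Finset ℕ, S ⊆ S'' ∧ (∀ q ∈ S'', q.Prime) ∧ TangentBound 𝒪 p ρbar S'' cond

end Fermat.Agent.S56.H716

end

end
-- ===== PACK-END S56/H716/GWSpec4.lean

-- ===== PACK-BEGIN S56/H716/GWGlue3.lean
section


/-!
# Row S56 — the wall GW-WALL, layer 3c: glue for the route through a bigger set (deputy helper716)

* `gwWall_of_big : BaseBigStatement → RecQBigStatement → UrCountStatement → TWInvStatement →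
    GWWallStatement`
* `recQ_of_recQBig : RecQBigStatement → RecQStatement`
* `tangentBoundOrd_of_big`, `tangentBoundFlat_of_big`.
-/

set_option autoImplicit false

open Polynomial IsLocalRing

noncomputable section

namespace Fermat.Agent.S56.H716

open Fermat.Agent.S56

section

variable (𝒪 : Type) [CommRing 𝒪] [IsDomain 𝒪] [IsDiscreteValuationRing 𝒪]
  (p : ℕ) (ρbar : ResidualGaloisRep (ResidueField 𝒪)) (S Smin : Finset ℕ)

/-- **Glue** `GW-WALL ⇐ BASE-BIG + REC-Q-BIG + UR-COUNT + TW-INV` for one representation. -/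
theorem gwWall_of_baseBig_recQBig (hSmin : Smin ⊆ S)
    (hb : BaseBig 𝒪 p ρbar Smin) (hr : RecQBig 𝒪 p ρbar S Smin)
    (hur : ∀ v : ℕ, v.Prime → v ∉ Smin → ∀ P : ValuationSubring Qb, P.LiesOverPrime v →
      ∃ Λ : Submodule (ResidueField 𝒪) (GQ → Module.End (ResidueField 𝒪) ρbar.V),
        Module.Finite (ResidueField 𝒪) Λ ∧
        Module.finrank (ResidueField 𝒪) Λ ≤
          Module.finrank (ResidueField 𝒪) (adInv ρbar (P.decompositionSubgroup ℚ)) ∧
        ∀ c, IsAdCocycle ρbar c → UnramAt ρbar c v →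
          ∃ t ∈ Λ, IsAdCoboundaryOn ρbar (P.decompositionSubgroup ℚ) (c - t))
    (htw : ∀ q : ℕ, IsTWPrime ρbar p S q → ∀ P : ValuationSubring Qb, P.LiesOverPrime q →
      1 ≤ Module.finrank (ResidueField 𝒪) (adInv ρbar (P.decompositionSubgroup ℚ))) :
    GWWall 𝒪 p ρbar S Smin := by
  classical
  obtain ⟨S', hSS', hS'prime, Pl, hPl, D, X, hD, hDur, hXfin, hX, hdim⟩ := hb
  refine ⟨Pl, fun v hv => hPl v (hSS' hv), fun Λ δ hΛ => ⟨D, hD, fun Q hQ hK => ?_⟩⟩
  obtain ⟨U, hUfin, hUdim, hU⟩ := hr S' hSS' hS'prime Pl hPl D hD hDur Q hQ hK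
  have hQS : ∀ q ∈ Q, q ∉ Smin := fun q hq h => (hQ q hq).2.1 (hSmin h)
  -- the local spaces on `S' \ Q`
  let Λ' : ℕ → Submodule (ResidueField 𝒪) (GQ → Module.End (ResidueField 𝒪) ρbar.V) :=
    fun v => if h : v ∈ Smin then Λ v else
      if h' : v ∈ S' then (hur v (hS'prime v h') h (Pl v) (hPl v h')).choose else ⊥
  have hΛ'1 : ∀ v, v ∈ Smin → Λ' v = Λ v := fun v h => dif_pos h
  have hΛ'2 : ∀ v (h : v ∉ Smin) (h' : v ∈ S'),
      Λ' v = (hur v (hS'prime v h') h (Pl v) (hPl v h')).choose := fun v h h' => by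
    simp only [Λ', dif_neg h, dif_pos h']
  let h0 : ℕ → ℕ := fun v =>
    Module.finrank (ResidueField 𝒪) (adInv ρbar ((Pl v).decompositionSubgroup ℚ))
  let dd : ℕ → ℕ := fun v => if v ∈ Smin then δ v else 0
  have hfin' : ∀ v ∈ S' \ Q, Module.Finite (ResidueField 𝒪) (Λ' v) := by
    intro v hv
    by_cases h : v ∈ Smin
    · rw [hΛ'1 v h]
      exact (hΛ.1 v h).1
    · have hvS' : v ∈ S' := (Finset.mem_sdiff.1 hv).1
      rw [hΛ'2 v h hvS']
      exact (hur v (hS'prime v hvS') h (Pl v) (hPl v hvS')).choose_spec.1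
  have hbound' : ∀ v ∈ S' \ Q, Module.finrank (ResidueField 𝒪) (Λ' v) ≤ h0 v + dd v := by
    intro v hv
    by_cases h : v ∈ Smin
    · rw [hΛ'1 v h]
      simpa [dd, h0, h] using (hΛ.1 v h).2
    · have hvS' : v ∈ S' := (Finset.mem_sdiff.1 hv).1
      rw [hΛ'2 v h hvS']
      simpa [dd, h0, h] using
        (hur v (hS'prime v hvS') h (Pl v) (hPl v hvS')).choose_spec.2.1
  have hsel' : ∀ c, IsSelCocycle ρbar Pl Λ Smin Q c → IsSelCocycle ρbar Pl Λ' (S' \ Q) Q c := by
    intro c hc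
    refine ⟨hc.cocycle, fun q hq hqn => hc.unram q hq fun hq' => hqn ?_, fun v hv => ?_⟩
    · rcases Finset.mem_union.1 hq' with h | h
      · exact Finset.mem_union_left _ (Finset.mem_sdiff.2 ⟨hSS' h, fun hQ' => hQS q hQ' h⟩)
      · exact Finset.mem_union_right _ h
    · obtain ⟨hvS', hvQ⟩ := Finset.mem_sdiff.1 hv
      by_cases h : v ∈ Smin
      · rw [hΛ'1 v h]
        exact hc.loc v h
      · rw [hΛ'2 v h hvS']
        refine (hur v (hS'prime v hvS') h (Pl v) (hPl v hvS')).choose_spec.2.2 c hc.cocycle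
          (hc.unram v (hS'prime v hvS') fun hv' => ?_)
        rcases Finset.mem_union.1 hv' with h1 | h1
        · exact h h1
        · exact hvQ h1
  obtain ⟨W, hWfin, hWdim, hW⟩ := exists_local_lift ρbar Pl Λ' (S' \ Q) Q hfin'
  have := hXfin
  have := hUfin
  have := hWfin
  refine ⟨W ⊔ U ⊔ X, inferInstance, ?_, fun c hc => ?_⟩
  · have h1 : Module.finrank (ResidueField 𝒪) ↥(W ⊔ U ⊔ X) ≤
        Module.finrank (ResidueField 𝒪) W + Module.finrank (ResidueField 𝒪) U +
          Module.finrank (ResidueField 𝒪) X :=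
      (Submodule.finrank_add_le_finrank_add_finrank (W ⊔ U) X).trans
        (Nat.add_le_add_right (Submodule.finrank_add_le_finrank_add_finrank W U) _)
    have h2 : ∑ v ∈ S' \ Q, Module.finrank (ResidueField 𝒪) (Λ' v) ≤
        ∑ v ∈ S' \ Q, h0 v + ∑ v ∈ S' \ Q, dd v := by
      rw [← Finset.sum_add_distrib]
      exact Finset.sum_le_sum hbound'
    have hsub : Smin ⊆ S' \ Q := fun v hv =>
      Finset.mem_sdiff.2 ⟨hSS' hv, fun hQ' => hQS v hQ' hv⟩
    have h3 : ∑ v ∈ S' \ Q, dd v = ∑ v ∈ Smin, δ v := by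
      rw [← Finset.sum_subset hsub (f := dd) fun v _ hv => by simp [dd, hv]]
      exact Finset.sum_congr rfl fun v hv => by simp [dd, hv]
    have h4 : ∑ v ∈ S' \ Q, h0 v + ∑ v ∈ S' ∩ Q, h0 v = ∑ v ∈ S', h0 v := by
      rw [← Finset.sum_sdiff (Finset.inter_subset_left : S' ∩ Q ⊆ S'),
        Finset.sdiff_inter_self_left]
    have h5 : (S' ∩ Q).card ≤ ∑ v ∈ S' ∩ Q, h0 v := by
      rw [Finset.card_eq_sum_ones]
      exact Finset.sum_le_sum fun v hv =>
        htw v (hQ v (Finset.mem_inter.1 hv).2) (Pl v) (hPl v (Finset.mem_inter.1 hv).1)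
    have h6 : (Q ∩ S').card = (S' ∩ Q).card := by rw [Finset.inter_comm]
    have h7 := hΛ.2
    have hdim' : Module.finrank (ResidueField 𝒪) X + ∑ v ∈ S', h0 v + 1 ≤
        Module.finrank (ResidueField 𝒪) D := hdim
    omega
  · obtain ⟨w, hw, hcw⟩ := hW c (hsel' c hc)
    obtain ⟨u, hu, c', hc', hcob⟩ := hU (c - w) hcw
    obtain ⟨x, hx, hcob'⟩ := hX c' hc'
    refine ⟨w + u + x, Submodule.add_mem _ (Submodule.add_mem _
      (Submodule.mem_sup_left (Submodule.mem_sup_left hw))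
      (Submodule.mem_sup_left (Submodule.mem_sup_right hu)))
      (Submodule.mem_sup_right hx), ?_⟩
    have := hcob.add ρbar hcob'
    rwa [show c - w - u - c' + (c' - x) = c - (w + u + x) by abel] at this

/-- `REC-Q-BIG ⇒ REC-Q` (take `S' = Smin`). -/
theorem recQ_of_recQBig_aux (hSmin : Smin ⊆ S) (hS : ∀ q ∈ S, q.Prime)
    (hr : RecQBig 𝒪 p ρbar S Smin) : RecQ 𝒪 p ρbar S Smin := by
  classical
  intro Pl hPl D hD hDur Q hQ hK
  have hQS : ∀ q ∈ Q, q ∉ Smin := fun q hq h => (hQ q hq).2.1 (hSmin h)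
  obtain ⟨U, hUfin, hUdim, hU⟩ :=
    hr Smin (Finset.Subset.refl _) (fun q hq => hS q (hSmin hq)) Pl hPl D hD hDur Q hQ hK
  have h1 : Q ∩ Smin = ∅ := by
    rw [Finset.eq_empty_iff_forall_notMem]
    intro q hq
    exact hQS q (Finset.mem_inter.1 hq).1 (Finset.mem_inter.1 hq).2
  have h2 : Smin \ Q = Smin := by
    rw [Finset.sdiff_eq_self_iff_disjoint, Finset.disjoint_left]
    exact fun q hq hQ' => hQS q hQ' hq
  rw [h1, Finset.card_empty, add_zero] at hUdim
  rw [h2] at hU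
  exact ⟨U, hUfin, hUdim, hU⟩

end

/-- (GW-WALL) through a bigger set `S'`. -/
theorem gwWall_of_big (hb : BaseBigStatement) (hr : RecQBigStatement) (hur : UrCountStatement)
    (htw : TWInvStatement) : GWWallStatement :=
  fun 𝒪 _ _ _ _ _ p ρbar S Smin hyp =>
    gwWall_of_baseBig_recQBig 𝒪 p ρbar S Smin hyp.hSmin (hb 𝒪 p ρbar S Smin hyp)
      (hr 𝒪 p ρbar S Smin hyp) (hur 𝒪 p ρbar S Smin hyp) (htw 𝒪 p ρbar S Smin hyp)

/-- `REC-Q-BIG ⇒ REC-Q`. -/
theorem recQ_of_recQBig (hr : RecQBigStatement) : RecQStatement :=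
  fun 𝒪 _ _ _ _ _ p ρbar S Smin hyp =>
    recQ_of_recQBig_aux 𝒪 p ρbar S Smin hyp.hSmin hyp.hS (hr 𝒪 p ρbar S Smin hyp)

/-- (TB-ord) of layer 0 through a bigger set `S'`. -/
theorem tangentBoundOrd_of_big (hdict : DictOrdStatement) (hmin : LocMinStatement)
    (hord : LocOrdPStatement) (hb : BaseBigStatement) (hr : RecQBigStatement)
    (hur : UrCountStatement) (htw : TWInvStatement) : TangentBoundOrdStatement :=
  tangentBoundOrd_of_leaves hdict hmin hord (gwWall_of_big hb hr hur htw)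

/-- (TB-flat) of layer 0 through a bigger set `S'`. -/
theorem tangentBoundFlat_of_big (hdict : DictFlatStatement) (hmin : LocMinStatement)
    (hflat : LocFlatPStatement) (hb : BaseBigStatement) (hr : RecQBigStatement)
    (hur : UrCountStatement) (htw : TWInvStatement) : TangentBoundFlatStatement :=
  tangentBoundFlat_of_leaves hdict hmin hflat (gwWall_of_big hb hr hur htw)

end Fermat.Agent.S56.H716

end

end
-- ===== PACK-END S56/H716/GWGlue3.lean

-- ===== PACK-BEGIN S59/H659/Conditions.lean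
section





/-!
# S59, piece G3 (helper659): the Prelude's conditions are deformation conditions

For an odd prime `p`, a local ring `𝒪` with finite residue field and finite sets `S`, `Smin`:

* `isDeformationCondition_strictOrdinaryCondition`,
  `isDeformationCondition_minimalStrictOrdinaryCondition`,
  `isDeformationCondition_strictOrdinary_unipotent` (the condition of S56);
* `isDeformationCondition_flatCondition`, `isDeformationCondition_minimalFlatCondition`,
  `isDeformationCondition_flat_unipotent`, assuming that flatness at `p` alone is a deformation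
  condition.
-/

set_option autoImplicit false
set_option linter.unusedSectionVars false
set_option linter.style.haveILetI false

namespace Fermat.Agent.S59.H659

open Fermat.Agent.S53 IsLocalRing

/-- Being unramified outside `S` is a deformation condition. -/
theorem isCoreCond_unramifiedOutside (S : Finset ℕ) :
    IsCoreCond (fun _A _ _ ρ => ∀ q : ℕ, q.Prime → q ∉ S → ρ.IsUnramifiedAt q) :=
  IsCoreCond.forall fun q => IsCoreCond.forall fun _ => IsCoreCond.forall fun _ =>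
    isCoreCond_isUnramifiedAt q

/-- Having unipotent inertia at the primes of `Smin` different from `p` is a deformation
condition. -/
theorem isCoreCond_unipotentOn (p : ℕ) (Smin : Finset ℕ) :
    IsCoreCond (fun _A _ _ ρ => ∀ q ∈ Smin, q.Prime → q ≠ p → ρ.IsUnipotentOnInertiaAt q) :=
  IsCoreCond.forall fun q => IsCoreCond.forall fun _ => IsCoreCond.forall fun _ =>
    IsCoreCond.forall fun _ => isCoreCond_isUnipotentOnInertiaAt q

/-- The determinant condition together with "unramified outside `S`". -/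
theorem isCoreCond_det_unramified (p : ℕ) (hp : p ≠ 0) (S : Finset ℕ) :
    IsCoreCond (fun _A _ _ ρ => ρ.DetIsCyclotomic p ∧
      ∀ q : ℕ, q.Prime → q ∉ S → ρ.IsUnramifiedAt q) :=
  (isCoreCond_detIsCyclotomic p hp).and (isCoreCond_unramifiedOutside S)

theorem isCoreCond_strictOrdinaryCondition (p : ℕ) (hp : p.Prime) (hp2 : p ≠ 2)
    (S : Finset ℕ) :
    IsCoreCond (fun _A _ _ ρ => ρ.DetIsCyclotomic p ∧ ρ.IsStrictOrdinaryAt p ∧
      ∀ q : ℕ, q.Prime → q ∉ S → ρ.IsUnramifiedAt q) :=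
  (isCoreCond_detIsCyclotomic p hp.ne_zero).and
    ((isCoreCond_isStrictOrdinaryAt p hp hp2).and (isCoreCond_unramifiedOutside S))

section Main

variable (𝒪 : Type) [CommRing 𝒪] [IsLocalRing 𝒪] [Finite (ResidueField 𝒪)]
  (p : ℕ) (hp : p.Prime) (hp2 : p ≠ 2) (S Smin : Finset ℕ)

include hp hp2

/-- The strictly ordinary condition of the Prelude is a deformation condition. -/
theorem isDeformationCondition_strictOrdinaryCondition :
    GaloisRep.IsDeformationCondition 𝒪 (GaloisRep.strictOrdinaryCondition 𝒪 p S) :=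
  (isCoreCond_strictOrdinaryCondition p hp hp2 S).isDeformationCondition 𝒪

/-- The condition of S56 (strictly ordinary case): strictly ordinary with respect to `S` and
unipotent inertia at the primes of `Smin` different from `p`. -/
theorem isDeformationCondition_strictOrdinary_unipotent :
    GaloisRep.IsDeformationCondition 𝒪 (fun _A _ _ _ ρ =>
      GaloisRep.strictOrdinaryCondition 𝒪 p S ρ ∧
        ∀ q ∈ Smin, q.Prime → q ≠ p → ρ.IsUnipotentOnInertiaAt q) :=
  ((isCoreCond_strictOrdinaryCondition p hp hp2 S).and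
    (isCoreCond_unipotentOn p Smin)).isDeformationCondition 𝒪

/-- The minimal strictly ordinary condition of the Prelude is a deformation condition. -/
theorem isDeformationCondition_minimalStrictOrdinaryCondition :
    GaloisRep.IsDeformationCondition 𝒪 (GaloisRep.minimalStrictOrdinaryCondition 𝒪 p S) :=
  isDeformationCondition_strictOrdinary_unipotent 𝒪 p hp hp2 S S

omit hp2

variable (hflat : GaloisRep.IsDeformationCondition 𝒪 (fun _A _ _ _ ρ => ρ.IsFlatAt p))

include hflat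

/-- The flat condition of the Prelude is a deformation condition, if flatness at `p` is. -/
theorem isDeformationCondition_flatCondition :
    GaloisRep.IsDeformationCondition 𝒪 (GaloisRep.flatCondition 𝒪 p S) := by
  have h1 := isDeformationCondition_and 𝒪
    ((isCoreCond_detIsCyclotomic p hp.ne_zero).isDeformationCondition 𝒪)
    (isDeformationCondition_and 𝒪 hflat
      ((isCoreCond_unramifiedOutside S).isDeformationCondition 𝒪))
  exact h1

/-- The condition of S56 (flat case). -/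
theorem isDeformationCondition_flat_unipotent :
    GaloisRep.IsDeformationCondition 𝒪 (fun _A _ _ _ ρ =>
      GaloisRep.flatCondition 𝒪 p S ρ ∧
        ∀ q ∈ Smin, q.Prime → q ≠ p → ρ.IsUnipotentOnInertiaAt q) :=
  isDeformationCondition_and 𝒪 (isDeformationCondition_flatCondition 𝒪 p hp S hflat)
    ((isCoreCond_unipotentOn p Smin).isDeformationCondition 𝒪)

/-- The minimal flat condition of the Prelude is a deformation condition, if flatness at `p`
is. -/
theorem isDeformationCondition_minimalFlatCondition :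
    GaloisRep.IsDeformationCondition 𝒪 (GaloisRep.minimalFlatCondition 𝒪 p S) :=
  isDeformationCondition_flat_unipotent 𝒪 p hp S S hflat

end Main

end Fermat.Agent.S59.H659

end
-- ===== PACK-END S59/H659/Conditions.lean

-- ===== PACK-BEGIN S59/H659/Ord.lean
section




/-!
# S59, piece G3 / cell COND (helper659): the ORDINARY condition (type `.ord`)

The Prelude's `GaloisRepAdic.IsOrdinaryAt p` (a line stable under the decomposition group with
trivial inertia action on the quotient) is not a deformation condition by itself, but it is one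
together with "the determinant is the `p`-adic cyclotomic character" (`p` odd): the determinant
forces the inertia group to act on the line by the cyclotomic character, so the line is unique
(it is spanned by a column of `r σ₀ - 1` for an inertial `σ₀` with `ε(σ₀) ≢ 1 mod p`).

* `IsOStd 𝔓 r` : ordinary standard form of a matrix representation at the place `𝔓`;
* `isOrdinaryAt_toAdic_iff`;
* `isCoreCond_det_isOrdinaryAt p` : `ρ ↦ ρ.DetIsCyclotomic p ∧ ρ.IsOrdinaryAt p` is a core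
  condition (`p` an odd prime);
* `isDeformationCondition_ordinaryCondition`, `isDeformationCondition_ordinary_unipotent`,
  `isDeformationCondition_minimalOrdinaryCondition`.
-/

set_option autoImplicit false
set_option linter.unusedSectionVars false
set_option linter.style.haveILetI false

namespace Fermat.Agent.S59.H659

open Fermat.Agent.S53 Fermat.Agent.S56.H966 IsLocalRing Polynomial
open scoped TensorProduct

/-! ### Base change and invariance under equivalence -/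

section BC

variable {A : Type} [CommRing A] [IsLocalRing A] {B : Type} [CommRing B] [IsLocalRing B]

theorem isOrdinaryAt_baseChangeAlong (φ : A →+* B) (hφ : IsLocalHom φ)
    {ρ : GaloisRepAdic A} {p : ℕ} (h : ρ.IsOrdinaryAt p) :
    (ρ.baseChangeAlong φ hφ).IsOrdinaryAt p := by
  letI : Algebra A B := φ.toAlgebra
  intro P hP
  obtain ⟨L, ⟨b, rfl⟩, hD, hI⟩ := h P hP
  refine ⟨(Submodule.span B {(1 : B) ⊗ₜ[A] b 0} : Submodule B (B ⊗[A] ρ.V)),
    ⟨b.baseChange B, span_eq_span_baseChange φ b⟩, ?_, ?_⟩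
  · intro σ hσ v hv
    exact baseChange_mem_span_of_mem φ (b 0) (ρ.ρ σ) (hD σ hσ) v hv
  · intro σ hσ (w : B ⊗[A] ρ.V)
    have := baseChange_sub_smul_mem φ (b 0) (ρ.ρ σ) 1
      (fun v => by rw [one_smul]; exact hI σ hσ v) w
    rw [map_one, one_smul] at this
    exact this

theorem isOrdinaryAt_of_isEquiv {ρ₁ ρ₂ : GaloisRepAdic A} (he : ρ₁.IsEquiv ρ₂) {p : ℕ}
    (h : ρ₁.IsOrdinaryAt p) : ρ₂.IsOrdinaryAt p := by
  obtain ⟨e⟩ := he
  intro P hP
  obtain ⟨L, ⟨b, rfl⟩, hD, hI⟩ := h P hP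
  have hmem : ∀ {u : ρ₁.V}, u ∈ Submodule.span A {b 0} →
      e.toLinearEquiv u ∈ Submodule.span A {e.toLinearEquiv (b 0)} := by
    intro u hu
    obtain ⟨a, rfl⟩ := Submodule.mem_span_singleton.mp hu
    rw [map_smul]
    exact Submodule.smul_mem _ _ (Submodule.mem_span_singleton_self _)
  refine ⟨Submodule.span A {e.toLinearEquiv (b 0)}, ⟨b.map e.toLinearEquiv, ?_⟩, ?_, ?_⟩
  · rw [Module.Basis.map_apply]
  · intro σ hσ v hv
    obtain ⟨a, rfl⟩ := Submodule.mem_span_singleton.mp hv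
    rw [map_smul, ← e.map_apply]
    exact Submodule.smul_mem _ _ (hmem (hD σ hσ _ (Submodule.mem_span_singleton_self _)))
  · intro σ hσ w
    have := hmem (hI σ hσ (e.toLinearEquiv.symm w))
    rwa [map_sub, e.map_apply, LinearEquiv.apply_symm_apply] at this

end BC

/-! ### Ordinary standard form -/

/-- Ordinary standard form at the place `𝔓`: the decomposition group acts by upper triangular
matrices `[[x, *], [0, z]]`, with `z = 1` on inertia. -/
structure IsOStd (𝔓 : ValuationSubring (AlgebraicClosure ℚ)) {A : Type} [CommRing A]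
    (r : GQ →* M2 A) : Prop where
  dec : ∀ σ ∈ 𝔓.decompositionSubgroup ℚ, r σ 1 0 = 0
  inert : ∀ σ ∈ 𝔓.inertiaSubgroupIn ℚ, r σ 1 1 = 1

section Descent

variable {𝔓 : ValuationSubring (AlgebraicClosure ℚ)}

theorem IsOStd.of_fibre {P A B : Type} [CommRing P] [CommRing A] [CommRing B]
    (pA : P →+* A) (pB : P →+* B) (hinj : Function.Injective (fun x => (pA x, pB x)))
    {r : GQ →* M2 P} (hA : IsOStd 𝔓 (mapRep pA r)) (hB : IsOStd 𝔓 (mapRep pB r)) :
    IsOStd 𝔓 r where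
  dec := by
    intro σ hσ
    have hA1 := hA.dec σ hσ
    have hB1 := hB.dec σ hσ
    rw [mapRep_apply_apply] at hA1 hB1
    exact eq_zero_of_fibre pA pB hinj hA1 hB1
  inert := by
    intro σ hσ
    have hA1 := hA.inert σ hσ
    have hB1 := hB.inert σ hσ
    rw [mapRep_apply_apply] at hA1 hB1
    exact eq_of_fibre pA pB hinj (by rw [hA1, map_one]) (by rw [hB1, map_one])

theorem IsOStd.of_quotients {A : Type} [CommRing A] [IsLocalRing A] [IsNoetherianRing A]
    {r : GQ →* M2 A}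
    (h : ∀ n : ℕ, n ≠ 0 → IsOStd 𝔓 (mapRep (Ideal.Quotient.mk (maximalIdeal A ^ n)) r)) :
    IsOStd 𝔓 r where
  dec := by
    intro σ hσ
    refine eq_zero_of_quotients fun n hn => ?_
    have := (h n hn).dec σ hσ
    rwa [mapRep_apply_apply] at this
  inert := by
    intro σ hσ
    refine eq_of_quotients fun n hn => ?_
    have := (h n hn).inert σ hσ
    rw [mapRep_apply_apply] at this
    rw [this, map_one]

/-- Standard form is preserved by conjugation with invertible upper triangular matrices. -/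
theorem IsOStd.conj_triangular {A : Type} [CommRing A] {r : GQ →* M2 A} (h : IsOStd 𝔓 r)
    (T : (M2 A)ˣ) (hT : (T : M2 A) 1 0 = 0) : IsOStd 𝔓 (cj T⁻¹ r) := by
  have key : ∀ σ : GQ, r σ 1 0 = 0 → cj T⁻¹ r σ 1 0 = 0 ∧
      cj T⁻¹ r σ 0 0 = r σ 0 0 ∧ cj T⁻¹ r σ 1 1 = r σ 1 1 := by
    intro σ hσ
    refine Fermat.Agent.S59.H659.conj_triangular T hT (r σ) (cj T⁻¹ r σ) ?_ hσ
    rw [cj_apply, inv_inv, ← mul_assoc, ← mul_assoc, Units.mul_inv, one_mul]
  constructor
  · intro σ hσ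
    exact (key σ (h.dec σ hσ)).1
  · intro σ hσ
    obtain ⟨-, -, k3⟩ := key σ (h.dec σ (mem_decomposition_of_mem_inertia hσ))
    rw [k3]
    exact h.inert σ hσ

end Descent

section Main

variable {𝔓 : ValuationSubring (AlgebraicClosure ℚ)} {p : ℕ}

/-- The trace of `r σ₀ - 1` is a unit when `r` is conjugate to a representation in ordinary
standard form, has cyclotomic determinant, and the cyclotomic character of `σ₀ ∈ I` is not `1`
modulo `p`. -/
theorem isUnit_trace_sub_one_ord {A : Type} [CommRing A] [IsLocalRing A] (hp : p.Prime)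
    (hpA : (p : A) ∈ maximalIdeal A) {r : GQ →* M2 A} (P : (M2 A)ˣ)
    (h : IsOStd 𝔓 (cj P r)) (hdet : ∀ σ : GQ, CycCong p σ (r σ).det 1)
    {σ₀ : GQ} (hσ₀ : σ₀ ∈ 𝔓.inertiaSubgroupIn ℚ)
    (hσ₀' : ∀ a : ℕ, IsCycExp p σ₀ a → ¬ a ≡ 1 [MOD p]) : IsUnit (r σ₀ - 1).trace := by
  obtain ⟨a, ha⟩ := _root_.Fermat.Agent.S59.H659.exists_isCycExp p hp.ne_zero σ₀
  have h0 := h.dec σ₀ (mem_decomposition_of_mem_inertia hσ₀)
  have h2 := h.inert σ₀ hσ₀
  have h1 := hdet σ₀ 1 a (by rwa [pow_one])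
  have hd : (r σ₀).det = cj P r σ₀ 0 0 := by
    have h3 : (cj P r σ₀).det = (r σ₀).det := by
      rw [cj_apply]
      exact Matrix.det_units_conj P (r σ₀)
    rw [← h3, Matrix.det_fin_two, h0, h2]
    ring
  have htr : (r σ₀ - 1).trace = cj P r σ₀ 0 0 - 1 := by
    have h3 : (cj P r σ₀).trace = (r σ₀).trace := by
      rw [cj_apply]
      exact Matrix.trace_units_conj P (r σ₀)
    rw [Matrix.trace_sub, ← h3, Matrix.trace_fin_two, Matrix.trace_fin_two, h2]
    simp only [Matrix.one_apply_eq]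
    ring
  rw [htr]
  rw [hd, mul_one, pow_one] at h1
  have h4 : cj P r σ₀ 0 0 - (a : A) ∈ maximalIdeal A := by
    obtain ⟨c, hc⟩ := Ideal.mem_span_singleton'.mp h1
    rw [← hc]
    exact Ideal.mul_mem_left _ _ hpA
  have h5 : IsUnit ((a : A) - 1) := isUnit_natCast_sub_one hp hpA (hσ₀' a ha)
  have h6 : cj P r σ₀ 0 0 - 1 = ((a : A) - 1) + (cj P r σ₀ 0 0 - (a : A)) := by ring
  rw [h6]
  by_contra hcon
  have h7 : ((a : A) - 1) + (cj P r σ₀ 0 0 - (a : A)) ∈ maximalIdeal A := hcon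
  have h8 : (a : A) - 1 ∈ maximalIdeal A := by
    have := Ideal.sub_mem _ h7 h4
    rwa [add_sub_cancel_right] at this
  exact h8 h5

/-- **The stable line is canonical.** -/
theorem isOStd_mapRep_conj {R A : Type} [CommRing R] [CommRing A] (φ : R →+* A)
    {r : GQ →* M2 R} {σ₀ : GQ} (hσ₀ : σ₀ ∈ 𝔓.inertiaSubgroupIn ℚ) (Q : (M2 R)ˣ) (j : Fin 2)
    (hQ : ∀ i, (Q : M2 R) i 0 = (r σ₀ - 1) i j) (P : (M2 A)ˣ)
    (h : IsOStd 𝔓 (cj P (mapRep φ r))) :
    IsOStd 𝔓 (mapRep φ (cj Q⁻¹ r)) := by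
  set Qφ : (M2 A)ˣ := Units.map φ.mapMatrix.toMonoidHom Q with hQφ
  set T : (M2 A)ˣ := P * Qφ with hT
  have h10 := h.dec σ₀ (mem_decomposition_of_mem_inertia hσ₀)
  have h11 := h.inert σ₀ hσ₀
  have hconj : (P : M2 A) * (mapRep φ r σ₀ - 1) = (cj P (mapRep φ r) σ₀ - 1) * P := by
    rw [mul_sub, sub_mul, mul_one, one_mul, cj_mul_eq]
  have hrow : ∀ k, ((P : M2 A) * (mapRep φ r σ₀ - 1)) 1 k = 0 := by
    intro k
    rw [hconj, Matrix.mul_apply, Fin.sum_univ_two, Matrix.sub_apply, Matrix.sub_apply, h10, h11]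
    simp
  have hT10 : (T : M2 A) 1 0 = 0 := by
    have h1 : ∀ i, (Qφ : M2 A) i 0 = (mapRep φ r σ₀ - 1) i j := by
      intro i
      show φ ((Q : M2 R) i 0) = _
      rw [hQ i, Matrix.sub_apply, Matrix.sub_apply, map_sub, mapRep_apply_apply]
      congr 1
      by_cases hij : i = j
      · subst hij; simp
      · simp [hij]
    have h2 := hrow j
    rw [Matrix.mul_apply, Fin.sum_univ_two] at h2
    rw [hT, Units.val_mul, Matrix.mul_apply, Fin.sum_univ_two, h1 0, h1 1]
    exact h2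
  have h3 := h.conj_triangular T hT10
  rw [cj_cj] at h3
  have h4 : T⁻¹ * P = Qφ⁻¹ := by
    rw [hT, mul_inv_rev, inv_mul_cancel_right]
  rw [h4] at h3
  rw [mapRep_cj, map_inv]
  exact h3

/-- **Ordinary descent along jointly injective pairs** (with cyclotomic determinant). -/
theorem exists_isOStd_of_fibre (hp : p.Prime) (hp2 : p ≠ 2) (h𝔓 : 𝔓.LiesOverPrime p)
    {P A B : Type} [CommRing P] [IsLocalRing P] [CommRing A] [IsLocalRing A] [CommRing B]
    [IsLocalRing B]
    (pA : P →+* A) (pB : P →+* B) (hpA : IsLocalHom pA)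
    (hinj : Function.Injective (fun x => (pA x, pB x)))
    (hA : (p : A) ∈ maximalIdeal A) (r : GQ →* M2 P)
    (hdet : ∀ σ : GQ, CycCong p σ (mapRep pA r σ).det 1)
    (h1 : ∃ U : (M2 A)ˣ, IsOStd 𝔓 (cj U (mapRep pA r)))
    (h2 : ∃ U : (M2 B)ˣ, IsOStd 𝔓 (cj U (mapRep pB r))) :
    ∃ U : (M2 P)ˣ, IsOStd 𝔓 (cj U r) := by
  obtain ⟨σ₀, hσ₀, hσ₀'⟩ := exists_inertia_cycExp_ne_one p hp hp2 𝔓 h𝔓
  obtain ⟨UA, hUA⟩ := h1
  obtain ⟨UB, hUB⟩ := h2
  have htr : IsUnit (r σ₀ - 1).trace := by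
    have h3 := isUnit_trace_sub_one_ord hp hA UA hUA hdet hσ₀ hσ₀'
    have h4 : (mapRep pA r σ₀ - 1).trace = pA (r σ₀ - 1).trace := by
      rw [Matrix.trace_fin_two, Matrix.trace_fin_two]
      simp
    rw [h4] at h3
    exact isUnit_of_map_unit pA _ h3
  obtain ⟨Q, j, hQ⟩ := exists_unit_col (r σ₀ - 1) htr
  exact ⟨Q⁻¹, IsOStd.of_fibre pA pB hinj (isOStd_mapRep_conj pA hσ₀ Q j hQ UA hUA)
    (isOStd_mapRep_conj pB hσ₀ Q j hQ UB hUB)⟩

/-- **Ordinary descent from the quotients `A ⧸ 𝔪ⁿ`** (with cyclotomic determinant). -/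
theorem exists_isOStd_of_quotients (hp : p.Prime) (hp2 : p ≠ 2) (h𝔓 : 𝔓.LiesOverPrime p)
    {A : Type} [CommRing A] [IsLocalRing A] [IsNoetherianRing A] (r : GQ →* M2 A)
    (hloc : IsLocalRing (A ⧸ maximalIdeal A ^ 1))
    (hA : (p : A ⧸ maximalIdeal A ^ 1) ∈ maximalIdeal (A ⧸ maximalIdeal A ^ 1))
    (hdet : ∀ σ : GQ,
      CycCong p σ (mapRep (Ideal.Quotient.mk (maximalIdeal A ^ 1)) r σ).det 1)
    (h : ∀ n : ℕ, n ≠ 0 → ∃ U : (M2 (A ⧸ maximalIdeal A ^ n))ˣ,
      IsOStd 𝔓 (cj U (mapRep (Ideal.Quotient.mk (maximalIdeal A ^ n)) r))) :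
    ∃ U : (M2 A)ˣ, IsOStd 𝔓 (cj U r) := by
  obtain ⟨σ₀, hσ₀, hσ₀'⟩ := exists_inertia_cycExp_ne_one p hp hp2 𝔓 h𝔓
  have htr : IsUnit (r σ₀ - 1).trace := by
    obtain ⟨U1, hU1⟩ := h 1 one_ne_zero
    have h3 := isUnit_trace_sub_one_ord hp hA U1 hU1 hdet hσ₀ hσ₀'
    have h4 : (mapRep (Ideal.Quotient.mk (maximalIdeal A ^ 1)) r σ₀ - 1).trace =
        Ideal.Quotient.mk (maximalIdeal A ^ 1) (r σ₀ - 1).trace := by
      rw [Matrix.trace_fin_two, Matrix.trace_fin_two]
      simp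
    rw [h4] at h3
    haveI : IsLocalHom (Ideal.Quotient.mk (maximalIdeal A ^ 1)) :=
      IsLocalHom.of_surjective _ Ideal.Quotient.mk_surjective
    exact isUnit_of_map_unit (Ideal.Quotient.mk (maximalIdeal A ^ 1)) _ h3
  obtain ⟨Q, j, hQ⟩ := exists_unit_col (r σ₀ - 1) htr
  refine ⟨Q⁻¹, IsOStd.of_quotients fun n hn => ?_⟩
  obtain ⟨Un, hUn⟩ := h n hn
  exact isOStd_mapRep_conj _ hσ₀ Q j hQ Un hUn

end Main

/-! ### From lines to matrices -/

section Bridge

variable {A : Type} [CommRing A] [IsLocalRing A]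

/-- The local part of the Prelude's `IsOrdinaryAt`, in terms of a basis. -/
theorem oLoc_iff_basis (ρ : GaloisRepAdic A) (𝔓 : ValuationSubring (AlgebraicClosure ℚ)) :
    (∃ L : Submodule A ρ.V,
      (∃ b : Module.Basis (Fin 2) A ρ.V, L = Submodule.span A {b 0}) ∧
      (∀ σ ∈ 𝔓.decompositionSubgroup ℚ, ∀ v ∈ L, ρ.ρ σ v ∈ L) ∧
      (∀ σ ∈ 𝔓.inertiaSubgroupIn ℚ, ∀ v : ρ.V, ρ.ρ σ v - v ∈ L)) ↔
    ∃ b : Module.Basis (Fin 2) A ρ.V,
      (∀ σ ∈ 𝔓.decompositionSubgroup ℚ, LinearMap.toMatrix b b (ρ.ρ σ) 1 0 = 0) ∧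
      (∀ σ ∈ 𝔓.inertiaSubgroupIn ℚ, LinearMap.toMatrix b b (ρ.ρ σ) 1 1 = 1) := by
  constructor
  · rintro ⟨L, ⟨b, rfl⟩, hD, hI⟩
    refine ⟨b, fun σ hσ => ?_, fun σ hσ => ?_⟩
    · exact (map_mem_span_iff b (ρ.ρ σ)).mp (hD σ hσ)
    · have h1 : ∀ v, ρ.ρ σ v - (1 : A) • v ∈ Submodule.span A {b 0} := fun v => by
        rw [one_smul]; exact hI σ hσ v
      exact ((sub_smul_mem_span_iff b (ρ.ρ σ) 1).mp h1).2
  · rintro ⟨b, hD, hI⟩
    refine ⟨Submodule.span A {b 0}, ⟨b, rfl⟩, fun σ hσ => ?_, fun σ hσ v => ?_⟩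
    · exact (map_mem_span_iff b (ρ.ρ σ)).mpr (hD σ hσ)
    · have h1 := (sub_smul_mem_span_iff b (ρ.ρ σ) 1).mpr
        ⟨hD σ (mem_decomposition_of_mem_inertia hσ), hI σ hσ⟩ v
      rwa [one_smul] at h1

/-- **Ordinary representations in terms of matrices.** -/
theorem isOrdinaryAt_toAdic_iff (r : GQ →* M2 A) (hr : MatCont r) (p : ℕ) :
    (toAdic r hr).IsOrdinaryAt p ↔
      ∀ 𝔓 : ValuationSubring (AlgebraicClosure ℚ),
        𝔓.LiesOverPrime p → ∃ U : (M2 A)ˣ, IsOStd 𝔓 (cj U r) := by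
  have key : ∀ (b : Module.Basis (Fin 2) A (Fin 2 → A)) (U : (M2 A)ˣ),
      (∀ v : Fin 2 → A, (U : M2 A).mulVec v = b.equivFun v) →
      ∀ σ, LinearMap.toMatrix b b ((toAdic r hr).ρ σ) = cj U r σ := fun b U hU σ =>
    toMatrix_matEnd b U hU (r σ)
  unfold GaloisRepAdic.IsOrdinaryAt
  refine forall_congr' fun 𝔓 => forall_congr' fun h𝔓 => ?_
  rw [oLoc_iff_basis]
  constructor
  · rintro ⟨b, hD, hI⟩
    have hU : ∀ v : Fin 2 → A, ((equivUnit b.equivFun : (M2 A)ˣ) : M2 A).mulVec v =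
        b.equivFun v := fun v => equivUnit_mulVec b.equivFun v
    refine ⟨equivUnit b.equivFun, ⟨fun σ hσ => ?_, fun σ hσ => ?_⟩⟩
    · rw [← key b _ hU σ]
      exact hD σ hσ
    · rw [← key b _ hU σ]
      exact hI σ hσ
  · rintro ⟨U, hU⟩
    let b : Module.Basis (Fin 2) A (Fin 2 → A) := Module.Basis.ofEquivFun (unitEquiv U)
    have hb : ∀ v : Fin 2 → A, (U : M2 A).mulVec v = b.equivFun v := fun v => by
      rw [Module.Basis.equivFun_ofEquivFun]
      rfl
    refine ⟨b, fun σ hσ => ?_, fun σ hσ => ?_⟩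
    · have h1 := hU.dec σ hσ
      rw [← key b U hb σ] at h1
      exact h1
    · have h1 := hU.inert σ hσ
      rw [← key b U hb σ] at h1
      exact h1

end Bridge

/-! ### The core condition -/

/-- "Determinant cyclotomic and ordinary at `p`" is a deformation condition (`p` an odd
prime). -/
theorem isCoreCond_det_isOrdinaryAt (p : ℕ) (hp : p.Prime) (hp2 : p ≠ 2) :
    IsCoreCond (fun _A _ _ ρ => ρ.DetIsCyclotomic p ∧ ρ.IsOrdinaryAt p) where
  of_isEquiv := fun _ _ _ _ _ he h =>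
    ⟨detIsCyclotomic_of_isEquiv he h.1, isOrdinaryAt_of_isEquiv he h.2⟩
  baseChangeAlong := fun _ _ _ _ _ _ φ hφ _ h =>
    ⟨detIsCyclotomic_baseChangeAlong φ hφ h.1, isOrdinaryAt_baseChangeAlong φ hφ h.2⟩
  of_fibre := by
    intro P A B _ _ _ _ _ _ _ _ _ pA pB hpA hpB hinj r hr hA hB
    have hdetP := (isCoreCond_detIsCyclotomic p hp.ne_zero).of_fibre pA pB hpA hpB hinj r hr
      hA.1 hB.1
    refine ⟨hdetP, ?_⟩
    have hA1 := hA.1
    have hA2 := hA.2
    have hB2 := hB.2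
    rw [detIsCyclotomic_toAdic_iff] at hA1
    rw [isOrdinaryAt_toAdic_iff] at hA2 hB2 ⊢
    intro 𝔓 h𝔓
    exact exists_isOStd_of_fibre hp hp2 h𝔓 pA pB hpA hinj hA1.1 r hA1.2 (hA2 𝔓 h𝔓) (hB2 𝔓 h𝔓)
  of_quotients := by
    intro A _ _ _ _ r hr h
    have hdetA := (isCoreCond_detIsCyclotomic p hp.ne_zero).of_quotients r hr
      fun n hn hloc hq => (h n hn hloc hq).1
    refine ⟨hdetA, ?_⟩
    rw [isOrdinaryAt_toAdic_iff]
    have hloc : ∀ n : ℕ, n ≠ 0 → IsLocalRing (A ⧸ maximalIdeal A ^ n) := fun n hn =>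
      isLocalRing_quotient _ (maximalIdeal_pow_ne_top n hn)
    have hq : ∀ n : ℕ, n ≠ 0 → IsLocalHom (Ideal.Quotient.mk (maximalIdeal A ^ n)) :=
      fun n hn =>
        haveI := hloc n hn
        IsLocalHom.of_surjective _ Ideal.Quotient.mk_surjective
    have key : ∀ n : ℕ, ∀ hn : n ≠ 0,
        ∀ 𝔓 : ValuationSubring (AlgebraicClosure ℚ), 𝔓.LiesOverPrime p →
          ∃ U : (M2 (A ⧸ maximalIdeal A ^ n))ˣ,
            IsOStd 𝔓 (cj U (mapRep (Ideal.Quotient.mk (maximalIdeal A ^ n)) r)) := by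
      intro n hn
      have h1 := (h n hn (hloc n hn) (hq n hn)).2
      rwa [@isOrdinaryAt_toAdic_iff _ _ (hloc n hn)] at h1
    have hdet1 := (h 1 one_ne_zero (hloc 1 one_ne_zero) (hq 1 one_ne_zero)).1
    rw [@detIsCyclotomic_toAdic_iff _ _ (hloc 1 one_ne_zero)] at hdet1
    intro 𝔓 h𝔓
    exact exists_isOStd_of_quotients hp hp2 h𝔓 r (hloc 1 one_ne_zero) hdet1.1 hdet1.2
      fun n hn => key n hn 𝔓 h𝔓

/-! ### The conditions of the Prelude -/

theorem IsCoreCond.of_iff {Q Q' : AdicPred} (h : IsCoreCond Q)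
    (hQ : ∀ ⦃A : Type⦄ [CommRing A] [IsLocalRing A] (ρ : GaloisRepAdic A), Q' ρ ↔ Q ρ) :
    IsCoreCond Q' where
  of_isEquiv := fun _ _ _ _ _ he hρ => (hQ _).2 (h.of_isEquiv he ((hQ _).1 hρ))
  baseChangeAlong := fun _ _ _ _ _ _ φ hφ _ hρ => (hQ _).2 (h.baseChangeAlong φ hφ ((hQ _).1 hρ))
  of_fibre := fun _ _ _ _ _ _ _ _ _ _ _ _ pA pB hpA hpB hinj r hr hA hB =>
    (hQ _).2 (h.of_fibre pA pB hpA hpB hinj r hr ((hQ _).1 hA) ((hQ _).1 hB))
  of_quotients := fun _ _ _ _ _ r hr hρ =>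
    (hQ _).2 (h.of_quotients r hr fun n hn hloc hq => (hQ _).1 (hρ n hn hloc hq))

theorem isCoreCond_ordinaryCondition (p : ℕ) (hp : p.Prime) (hp2 : p ≠ 2) (S : Finset ℕ) :
    IsCoreCond (fun _A _ _ ρ => ρ.DetIsCyclotomic p ∧ ρ.IsOrdinaryAt p ∧
      ∀ q : ℕ, q.Prime → q ∉ S → ρ.IsUnramifiedAt q) :=
  ((isCoreCond_det_isOrdinaryAt p hp hp2).and (isCoreCond_unramifiedOutside S)).of_iff
    fun _ _ _ _ => ⟨fun h => ⟨⟨h.1, h.2.1⟩, h.2.2⟩, fun h => ⟨h.1.1, h.1.2, h.2⟩⟩

section Conditions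

variable (𝒪 : Type) [CommRing 𝒪] [IsLocalRing 𝒪] [Finite (ResidueField 𝒪)]
  (p : ℕ) (hp : p.Prime) (hp2 : p ≠ 2) (S Smin : Finset ℕ)

include hp hp2

/-- The ordinary condition of the Prelude is a deformation condition. -/
theorem isDeformationCondition_ordinaryCondition :
    GaloisRep.IsDeformationCondition 𝒪 (GaloisRep.ordinaryCondition 𝒪 p S) :=
  (isCoreCond_ordinaryCondition p hp hp2 S).isDeformationCondition 𝒪

/-- Ordinary with respect to `S` and unipotent inertia at the primes of `Smin` different from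
`p` (type `.ord` of `Arch.sigmaCond`). -/
theorem isDeformationCondition_ordinary_unipotent :
    GaloisRep.IsDeformationCondition 𝒪 (fun _A _ _ _ ρ =>
      GaloisRep.ordinaryCondition 𝒪 p S ρ ∧
        ∀ q ∈ Smin, q.Prime → q ≠ p → ρ.IsUnipotentOnInertiaAt q) :=
  ((isCoreCond_ordinaryCondition p hp hp2 S).and
    (isCoreCond_unipotentOn p Smin)).isDeformationCondition 𝒪

/-- The minimal ordinary condition of the Prelude is a deformation condition. -/
theorem isDeformationCondition_minimalOrdinaryCondition :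
    GaloisRep.IsDeformationCondition 𝒪 (GaloisRep.minimalOrdinaryCondition 𝒪 p S) :=
  isDeformationCondition_ordinary_unipotent 𝒪 p hp hp2 S S

end Conditions

end Fermat.Agent.S59.H659

end
-- ===== PACK-END S59/H659/Ord.lean

-- ===== PACK-BEGIN S59/H659/FlatClosed.lean
section





/-!
# S59, piece G3 (helper659): the FLAT conditions are deformation conditions — unconditional

`H779.isDeformationCondition_isFlatAt` reduces "flatness at `p` is a deformation condition" to the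
closure of Hopf models under subquotients and binary products.  Both closure statements are
theorems of cell A3 (`S19.H135.hopfModel_of_subquotient`, `S19.H135.hopfModel_prod`, with the ORD
block `S19.H15.ordStatement`).  Hence, for every prime `p` (and every local ring `𝒪` with finite
residue field):

* `hopfSubquot_closed`, `hopfProd_closed` : `H779.HopfSubquotSpec p`, `H779.HopfProdSpec p`;
* `isDeformationCondition_isFlatAt_closed`;
* `isDeformationCondition_flatCondition_closed`,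
  `isDeformationCondition_minimalFlatCondition_closed`,
  `isDeformationCondition_flat_unipotent_closed` (the flat condition of S56).
-/

set_option autoImplicit false
set_option linter.unusedSectionVars false

namespace Fermat.Agent.S59.H659

open Fermat.Agent.S19 IsLocalRing

/-- Hopf models over `ℤ_(p)` are closed under equivariant subquotients. -/
theorem hopfSubquot_closed (p : ℕ) [Fact p.Prime] : H779.HopfSubquotSpec p := by
  intro M M' N _ _ _ actM actM' actN i q hi hq hie hqe h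
  exact H135.hopfModel_of_subquotient H15.ordStatement h i hi hie q hq hqe

/-- Hopf models over `ℤ_(p)` are closed under binary products. -/
theorem hopfProd_closed (p : ℕ) [Fact p.Prime] : H779.HopfProdSpec p := by
  intro M M' _ _ actM actM' h h'
  exact H135.hopfModel_prod H15.ordStatement h h'

section Main

variable (𝒪 : Type) [CommRing 𝒪] [IsLocalRing 𝒪] [Finite (ResidueField 𝒪)]
  (p : ℕ) (hp : p.Prime) (S Smin : Finset ℕ)

include hp

/-- **Flatness at `p` is a deformation condition.** -/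
theorem isDeformationCondition_isFlatAt_closed :
    GaloisRep.IsDeformationCondition 𝒪
      (fun ⦃A : Type⦄ [CommRing A] [IsLocalRing A] [Algebra 𝒪 A] (ρ : GaloisRepAdic A) =>
        ρ.IsFlatAt p) :=
  haveI : Fact p.Prime := ⟨hp⟩
  H779.isDeformationCondition_isFlatAt 𝒪 (hopfSubquot_closed p) (hopfProd_closed p)

/-- The flat condition of the Prelude is a deformation condition. -/
theorem isDeformationCondition_flatCondition_closed :
    GaloisRep.IsDeformationCondition 𝒪 (GaloisRep.flatCondition 𝒪 p S) :=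
  isDeformationCondition_flatCondition 𝒪 p hp S (isDeformationCondition_isFlatAt_closed 𝒪 p hp)

/-- The condition of S56 (flat case): flat with respect to `S` and unipotent inertia at the
primes of `Smin` different from `p`. -/
theorem isDeformationCondition_flat_unipotent_closed :
    GaloisRep.IsDeformationCondition 𝒪 (fun _A _ _ _ ρ =>
      GaloisRep.flatCondition 𝒪 p S ρ ∧
        ∀ q ∈ Smin, q.Prime → q ≠ p → ρ.IsUnipotentOnInertiaAt q) :=
  isDeformationCondition_flat_unipotent 𝒪 p hp S Smin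
    (isDeformationCondition_isFlatAt_closed 𝒪 p hp)

/-- The minimal flat condition of the Prelude is a deformation condition. -/
theorem isDeformationCondition_minimalFlatCondition_closed :
    GaloisRep.IsDeformationCondition 𝒪 (GaloisRep.minimalFlatCondition 𝒪 p S) :=
  isDeformationCondition_minimalFlatCondition 𝒪 p hp S
    (isDeformationCondition_isFlatAt_closed 𝒪 p hp)

end Main

end Fermat.Agent.S59.H659

end
-- ===== PACK-END S59/H659/FlatClosed.lean

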