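import Fermat.Statements.S53
import Fermat.Agent.Pack.S43GC.G0E18L3
import Fermat.Agent.Pack.S43GC.G0E3L0
import Fermat.Agent.Pack.S43GC.G0E10L3
import Fermat.Agent.Pack.S43GC.G0E5L0
import Fermat.Agent.Pack.S43GC.G0E18L0
import Fermat.Agent.Pack.S43GC.G0E14L3
import Fermat.Agent.Pack.S43GC.G0E10L0
import Fermat.Agent.Pack.S43GC.G0E10L1
import Fermat.Agent.Pack.S43GC.G0E18L1
import Fermat.Agent.Pack.S43GC.G0E10L2
import Fermat.Agent.Pack.S43GC.G0E11L3
import Fermat.Agent.Pack.S43GC.G0E11L0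
import Fermat.Agent.Pack.S43GC.G0E16L3
import Fermat.Agent.Pack.S44C.G0E0L3
import Fermat.Agent.Pack.S43GC.G0E16L0
import Fermat.Agent.Pack.S43GC.G0E17L3
import Fermat.Agent.Pack.S43GC.G0E11L2
import Fermat.Agent.Pack.S43GC.G0E15L0
import Fermat.Agent.Pack.S44C.G0E1L1
import Fermat.Agent.Pack.S44C.G0E14L2
import Fermat.Agent.Pack.S43GC.G0E15L1
import Fermat.Agent.Pack.Fast891

-- ===== PACK-BEGIN S55/H295/SplitSpecs.lean
section





/-!
# `T5e`, `T5a`, `T5b`: splitting module, Tate's theorem, `H³` of a class module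

* `splitModule : T.SplitModuleSpec`
* `tate : T.TateSpec`
* `tateH3 : T.TateH3Spec`
-/

set_option autoImplicit false
set_option linter.unusedSectionVars false

open CategoryTheory groupCohomology Rep Limits

namespace Fermat.Agent.S55.H295

open Fermat.Agent.S55.H783 Fermat.Agent.S55.T

noncomputable section

variable {k G : Type} [CommRing k] [Group G]

/-- Cohomological triviality is invariant under isomorphism. -/
lemma IsCohTriv.of_iso [Finite G] {A B : Rep.{0} k G} (e : A ≅ B) (h : IsCohTriv A) :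
    IsCohTriv B := fun H _ n =>
  IsZero.of_iso (h H n)
    ((tateCohomologyFunctor n).mapIso ((resFunctor H.subtype).mapIso e.symm))

/-- `P = Fun(G, k)` is cohomologically trivial. -/
lemma isCohTriv_augP [Fintype G] : IsCohTriv (augP k G) :=
  IsCohTriv.of_iso (funRepIsoCoind (k := k) (G := G) k).symm (T.H572.coindCohTriv k G _)

/-- The trivial module restricted to a subgroup is the trivial module. -/
def resTrivialIso (H : Subgroup G) :
    res H.subtype (Rep.trivial k G k) ≅ Rep.trivial k H k :=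
  Rep.mkIso (ρ := (Rep.trivial k G k).ρ.comp H.subtype) (σ := (Rep.trivial k H k).ρ)
    { toLinearEquiv := LinearEquiv.refl k k
      isIntertwining' := fun _ => rfl }

section ClassModule

variable [Fintype G] {C : Rep.{0} k G} (c : cocycles₂ C)

/-- Twin vanishing of the splitting module of a class module. -/
theorem twin_splitRep (hC : IsClassModule C (H2π C c))
    (hk : ∀ H : Subgroup G, IsZero (groupCohomology (Rep.trivial k H k) 1)) (H : Subgroup G) :
    IsZero (groupCohomology (res H.subtype (splitRep c)) 1) ∧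
      IsZero (groupCohomology (res H.subtype (splitRep c)) 2) := by
  obtain ⟨h1, hgen, hann, -⟩ := hC H
  have hk' : IsZero (groupCohomology (res H.subtype (Rep.trivial k G k)) 1) :=
    IsZero.of_iso (hk H) ((groupCohomology.functor k H 1).mapIso (resTrivialIso H))
  exact ⟨isZero_H1_splitRep c H h1 hann, isZero_H2_splitRep c H hk' hgen⟩

/-- The splitting module of a class module is cohomologically trivial. -/
theorem isCohTriv_splitRep (hC : IsClassModule C (H2π C c))
    (hk : ∀ H : Subgroup G, IsZero (groupCohomology (Rep.trivial k H k) 1)) :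
    IsCohTriv (splitRep c) :=
  twinVanishing k G (splitRep c) (twin_splitRep c hC hk)

end ClassModule

/-- Every class in `H²` is represented by a 2-cocycle. -/
lemma exists_cocycle_of_H2 (C : Rep.{0} k G) (γ : groupCohomology C 2) :
    ∃ c : cocycles₂ C, H2π C c = γ := by
  induction γ using H2_induction_on with
  | h c => exact ⟨c, rfl⟩

/-- **T5e.**  The splitting module of a class module over `ℤ`. -/
theorem splitModule : SplitModuleSpec := by
  intro G _ _ C γ hC
  classical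
  let _ : Fintype G := Fintype.ofFinite G
  obtain ⟨c, rfl⟩ := exists_cocycle_of_H2 C γ
  refine ⟨splitRep c, augI ℤ G, augP ℤ G, spliti c, splitπ c, augj ℤ G, augε ℤ G,
    spliti_comp_splitπ c, augj_comp_augε ℤ G, splitSES_shortExact c, augSES_shortExact ℤ G,
    isCohTriv_splitRep c hC (fun H => T.H539.h1TrivInt H), isCohTriv_augP⟩

end

end Fermat.Agent.S55.H295

end
-- ===== PACK-END S55/H295/SplitSpecs.lean

-- ===== PACK-BEGIN S55/KC/KummerH3H53.lean
section


/-!
# S55 / layer KC, leaf KC-K3: `KummerH3Spec`          (helper53)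

`H³_lc(G, M) = 0` for `M ≅ B[p]`, `B` smooth and `p`-divisible with `H³_lc(G, B) = 0` and
`H²_lc(G, B)` `p`-divisible.  Cochain-level Kummer argument.
-/

set_option autoImplicit false
set_option linter.style.haveILetI false

noncomputable section

namespace Fermat.Agent.S55.KC.H53

open groupCohomology ExtCitation Fermat.Agent.S55.PT

variable {G : Type} [Group G] (L : LevelSys G)

lemma IsLC₃.comp' {X Y : Type*} {f : G × G × G → X} (hf : IsLC₃ L f) (φ : X → Y) :
    IsLC₃ L (φ ∘ f) := by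
  obtain ⟨U, hU, h⟩ := hf
  exact ⟨U, hU, fun g₁ g₂ g₃ s₁ s₂ s₃ h₁ h₂ h₃ => by
    simp only [Function.comp_apply, h g₁ g₂ g₃ s₁ s₂ s₃ h₁ h₂ h₃]⟩

section Kummer

variable {p : ℕ} [Fact p.Prime] {M : Rep.{0, 0, 0} (ZMod p) G} {B : Rep.{0, 0, 0} ℤ G}
  {ι : M →+ B}

lemma ι_d₂₃ (hι : IsKummerEmb p M B ι) (x : G × G → M) :
    (d₂₃ B).hom (ι ∘ x) = ι ∘ (d₂₃ M).hom x := by
  funext ⟨g, h, j⟩
  simp only [d₂₃_hom_apply, Function.comp_apply, map_add, map_sub, hι.equivariant]

lemma ι_isCocycle₃ (hι : IsKummerEmb p M B ι) {z : G × G × G → M} (hz : IsCocycle₃ M z) :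
    IsCocycle₃ B (ι ∘ z) := by
  intro g h i j
  have := congrArg ι (hz g h i j)
  simpa only [Function.comp_apply, map_add, map_sub, hι.equivariant, map_zero] using this

/-- **KC-K3.** -/
theorem kummerH3 : KummerH3Spec := by
  intro G _ L p _ M B ι hN hF hsm hdiv hι h3 h2 z hzlc hzc
  obtain ⟨b, hblc, hbz⟩ := h3 (ι ∘ z) (IsLC₃.comp' L hzlc ι) (ι_isCocycle₃ hι hzc)
  -- `p • b` is a level-constant 2-cocycle
  have hpb : p • b ∈ L.Z2 B := by
    refine ⟨?_, LevelSys.IsLC₂.comp hblc (p • ·)⟩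
    show (d₂₃ B).hom (p • b) = 0
    rw [map_nsmul, hbz]
    funext x
    simp only [Pi.smul_apply, Function.comp_apply]
    exact p_nsmul_ι (z x)
  obtain ⟨a', ha', hcob⟩ := h2 (p • b) hpb
  obtain ⟨c, hc, hcd⟩ := hcob
  choose root hroot using hdiv
  set c₁ : G → B := root ∘ c with hc₁
  have hc₁lc : L.IsLC₁ c₁ := LevelSys.IsLC₁.comp hc root
  have hpc₁ : p • c₁ = c := by
    funext g
    simp only [Pi.smul_apply, hc₁, Function.comp_apply, hroot]
  have hdlc : L.IsLC₂ ((d₁₂ B).hom c₁) := d₁₂_isLC₂_of_smooth L hN hF hsm hc₁lc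
  have hkill : ∀ x, p • (b - a' - (d₁₂ B).hom c₁) x = 0 := by
    intro x
    have h1 : (p • (b - a' - (d₁₂ B).hom c₁)) = 0 := by
      rw [smul_sub, smul_sub, ← map_nsmul, hpc₁, hcd]
      exact sub_self _
    have := congrFun h1 x
    simpa using this
  obtain ⟨r, hr⟩ := exists_lift_of_p_nsmul_eq_zero hι _ hkill
  refine ⟨r, ?_, ?_⟩
  · apply isLC₂_of_ι L hι
    rw [hr]
    exact IsLC₂.sub' L (IsLC₂.sub' L hblc ha'.2) hdlc
  · have : ι ∘ (d₂₃ M).hom r = ι ∘ z := by
      rw [← ι_d₂₃ hι, hr, map_sub, map_sub, hbz]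
      have h1 : (d₂₃ B).hom a' = 0 := ha'.1
      have h2 : (d₂₃ B).hom ((d₁₂ B).hom c₁) = 0 := d₁₂_comp_d₂₃_apply B c₁
      rw [h1, h2, sub_zero, sub_zero]
    funext x
    exact hι.injective (congrFun this x)

end Kummer

end Fermat.Agent.S55.KC.H53

end

end
-- ===== PACK-END S55/KC/KummerH3H53.lean

-- ===== PACK-BEGIN S55/Inv/CokAbsH99.lean
section
/-
S55 (Poitou–Tate), route C′, input `InvSpec`, leaf INV-COK (helper99), part 1: the ABSTRACT adapter.

Setting: a global group `G` with level system `L`, finitely many local groups `Gv v` with level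
systems `Lv v` and level-compatible maps `r v : Gv v → G`; an `F_p`-representation `M` of `G`
with a Kummer embedding `κ : M → E` into a smooth `p`-divisible `ℤ`-representation `E` of `G`
(think `M = Ind_U μ_p`, `E = Ind_U` (`S`-units of `ℚ̄`); only `LCDivisible` is needed, which
follows from `K.KummerSpec`: `lcDivisible_of_kummer`); for every `v` a smooth `p`-divisible
`ℤ`-representation `B v` of `Gv v` with `H¹_lc(Gv v, B v) = 0` (think `B v = Ind_U ℚ̄_vˣ`) and an
equivariant map `lam v : E → B v` such that `lam v ∘ κ` is a Kummer embedding of `M|_{Gv v}`.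

`exists_functional_of_twoFamily`:  if the cokernel of
`H²_lc(G, E)[p] → ∏_v H²_lc(Gv v, B v)[p]` has at most `p` elements — in the cochain form
`TwoFamily` ("any two families of `p`-torsion local classes are linearly dependent modulo the
global `p`-torsion classes") — then the image of
`loc2 : H²_lc(G, M) → ∏_v H²_lc(Gv v, M)` contains the kernel of a linear functional.

This is exactly the conclusion of `Inv.GlobCokerSpec` for `M = Ind_U μ_p`.
No arithmetic; only `KC.H53` (Kummer theory at the level of level-constant cochains).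
-/


set_option autoImplicit false
set_option linter.style.haveILetI false
set_option linter.unusedSectionVars false

noncomputable section

namespace Fermat.Agent.S55.Inv.H99

open groupCohomology ExtCitation Fermat.Agent.S55.PT Fermat.Agent.S55.KC

/-! ## 1. Linear algebra: pairwise dependence modulo `W` ⇒ `W` contains a hyperplane -/

/-- If any two vectors of `V` are linearly dependent modulo the subspace `W`, then `W` contains
the kernel of a linear functional. -/
theorem exists_functional_of_pairwise {k V : Type*} [Field k] [AddCommGroup V] [Module k V]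
    (W : Submodule k V)
    (h : ∀ x x' : V, ∃ a b : k, (a ≠ 0 ∨ b ≠ 0) ∧ a • x + b • x' ∈ W) :
    ∃ f : V →ₗ[k] k, LinearMap.ker f ≤ W := by
  by_cases hW : ∀ x : V, x ∈ W
  · exact ⟨0, fun x _ => hW x⟩
  · obtain ⟨x₀, hx₀⟩ := not_forall.1 hW
    have hq₀ : W.mkQ x₀ ≠ 0 := by
      intro h0
      exact hx₀ ((Submodule.Quotient.mk_eq_zero W).1 h0)
    obtain ⟨φ, hφ⟩ : ∃ φ : Module.Dual k (V ⧸ W), φ (W.mkQ x₀) ≠ 0 := by
      by_contra hcon
      refine hq₀ ((Module.forall_dual_apply_eq_zero_iff k _).1 fun φ => ?_)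
      by_contra hφ
      exact hcon ⟨φ, hφ⟩
    refine ⟨φ ∘ₗ W.mkQ, fun x hx => ?_⟩
    have hfx : φ (W.mkQ x) = 0 := hx
    obtain ⟨a, b, hab, hmem⟩ := h x₀ x
    have h1 : a • W.mkQ x₀ + b • W.mkQ x = 0 := by
      rw [← map_smul, ← map_smul, ← map_add]
      exact (Submodule.Quotient.mk_eq_zero W).2 hmem
    have h2 : a * φ (W.mkQ x₀) = 0 := by
      have := congrArg φ h1
      rw [map_add, map_smul, map_smul, hfx, smul_zero, add_zero, map_zero, smul_eq_mul] at this
      exact this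
    have ha : a = 0 := (mul_eq_zero.1 h2).resolve_right hφ
    have hb : b ≠ 0 := hab.resolve_left (fun h => h ha)
    rw [ha, zero_smul, zero_add] at hmem
    have := W.smul_mem b⁻¹ hmem
    rwa [smul_smul, inv_mul_cancel₀ hb, one_smul] at this

/-! ## 2. Divisibility of level-constant cochains -/

section LCDiv

variable {G : Type} [Group G] (L : LevelSys G)

/-- `x` is fixed by some level. -/
def IsSmoothElt {k : Type} [CommRing k] (E : Rep.{0, 0, 0} k G) (x : E) : Prop :=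
  ∃ U ∈ L.levels, ∀ s ∈ U, E.ρ s x = x

/-- The level-constant 1-cochains of `E` with level-constant coboundary are `p`-divisible
(as such). -/
def LCDivisible (p : ℕ) (E : Rep.{0, 0, 0} ℤ G) : Prop :=
  ∀ b : G → E, L.IsLC₁ b → L.IsLC₂ ((d₁₂ E).hom b) →
    ∃ b₁ : G → E, L.IsLC₁ b₁ ∧ L.IsLC₂ ((d₁₂ E).hom b₁) ∧ p • b₁ = b

variable {L}

/-- Finitely many smooth elements are fixed by a common level. -/
lemma exists_level_fixing_of_finite {k : Type} [CommRing k] {E : Rep.{0, 0, 0} k G}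
    {T : Set E} (hT : T.Finite) (hsm : ∀ t ∈ T, IsSmoothElt L E t) :
    ∃ W ∈ L.levels, ∀ t ∈ T, ∀ s ∈ W, E.ρ s t = t := by
  classical
  induction T, hT using Set.Finite.induction_on with
  | empty =>
    obtain ⟨U, hU⟩ := L.nonempty
    exact ⟨U, hU, by simp⟩
  | @insert a T _ _ ih =>
    obtain ⟨W, hW, h⟩ := ih (fun t ht => hsm t (Set.mem_insert_of_mem a ht))
    obtain ⟨U, hU, hUa⟩ := hsm a (Set.mem_insert a T)
    obtain ⟨V, hV, hle⟩ := L.directed U hU W hW
    refine ⟨V, hV, fun t ht s hs => ?_⟩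
    rcases ht with rfl | ht
    · exact hUa s (hle hs).1
    · exact h t ht s (hle hs).2

/-- **Key remark.**  If `b` is constant modulo the normal subgroup `N` and `d b` is constant
modulo `N`, then all values of `b` are `N`-invariant. -/
lemma values_fixed_of_const {k : Type} [CommRing k] {E : Rep.{0, 0, 0} k G} {N : Subgroup G}
    (hN : N.Normal) {b : G → E} (hb : ∀ g s : G, s ∈ N → b (g * s) = b g)
    (hdb : ∀ g g' s s' : G, s ∈ N → s' ∈ N →
      (d₁₂ E).hom b (g * s, g' * s') = (d₁₂ E).hom b (g, g'))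
    (h : G) (s : G) (hs : s ∈ N) : E.ρ s (b h) = b h := by
  have h1 := hdb 1 h s 1 hs N.one_mem
  simp only [d₁₂_hom_apply, one_mul, mul_one, map_one, Module.End.one_apply] at h1
  have h2 : b (s * h) = b h := by
    have : s * h = h * (h⁻¹ * s * h) := by group
    rw [this]
    refine hb h _ ?_
    have := hN.conj_mem s hs h⁻¹
    simpa using this
  have h3 : b s = b 1 := by
    have := hb 1 s hs
    rwa [one_mul] at this
  rw [h2, h3] at h1
  -- h1 : ρ s (b h) - b h + b 1 = b h - b h + b 1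
  have h4 : E.ρ s (b h) - b h = 0 := by
    have := congrArg (fun t => t - b 1) h1
    simpa using this
  exact sub_eq_zero.1 h4

/-- `d` of a level-constant 1-cochain with smooth values is level-constant. -/
lemma d₁₂_isLC₂_of_values_smooth (hN : L.NormalCofinal) (hF : L.FiniteIndex)
    {k : Type} [CommRing k] {E : Rep.{0, 0, 0} k G} {x : G → E} (hx : L.IsLC₁ x)
    (hsm : ∀ g, IsSmoothElt L E (x g)) : L.IsLC₂ ((d₁₂ E).hom x) := by
  obtain ⟨W, hW, hfix⟩ := exists_level_fixing_of_finite (H53.finite_range_of_isLC₁ L hF hx)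
    (by rintro _ ⟨g, rfl⟩; exact hsm g)
  obtain ⟨V, hV, hxV⟩ := hx
  obtain ⟨W', hW', hle⟩ := L.directed W hW V hV
  obtain ⟨N, hNl, hNW, hNn⟩ := hN W' hW'
  refine ⟨N, hNl, fun g g' s s' hs hs' => ?_⟩
  have hconj : g'⁻¹ * s * g' ∈ N := by
    have := hNn.conj_mem s hs g'⁻¹
    simpa using this
  have hmem : g'⁻¹ * s * g' * s' ∈ V := (hle (hNW (N.mul_mem hconj hs'))).2
  have e1 : g * s * (g' * s') = g * g' * (g'⁻¹ * s * g' * s') := by group
  simp only [d₁₂_hom_apply]
  rw [e1, hxV (g * g') _ hmem, hxV g' s' (hle (hNW hs')).2, hxV g s (hle (hNW hs)).2, map_mul,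
    Module.End.mul_apply, hfix (x g') ⟨g', rfl⟩ s (hle (hNW hs)).1]

/-- Kummer-type divisibility (smooth elements have smooth `p`-th roots) implies `LCDivisible`. -/
theorem lcDivisible_of_kummer (hN : L.NormalCofinal) (hF : L.FiniteIndex) (p : ℕ)
    (E : Rep.{0, 0, 0} ℤ G)
    (hK : ∀ x : E, IsSmoothElt L E x → ∃ y : E, p • y = x ∧ IsSmoothElt L E y) :
    LCDivisible L p E := by
  classical
  intro b hb hdb
  -- a common normal level
  obtain ⟨U₁, hU₁, h₁⟩ := hb
  obtain ⟨U₂, hU₂, h₂⟩ := hdb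
  obtain ⟨W, hW, hle⟩ := L.directed U₁ hU₁ U₂ hU₂
  obtain ⟨N, hNl, hNW, hNn⟩ := hN W hW
  have hval : ∀ g, IsSmoothElt L E (b g) := fun g =>
    ⟨N, hNl, fun s hs => values_fixed_of_const hNn
      (fun g s hs => h₁ g s (hle (hNW hs)).1)
      (fun g g' s s' hs hs' => h₂ g g' s s' (hle (hNW hs)).2 (hle (hNW hs')).2) g s hs⟩
  let root : E → E := fun x => if hx : IsSmoothElt L E x then (hK x hx).choose else 0
  have hroot : ∀ x, IsSmoothElt L E x → p • root x = x ∧ IsSmoothElt L E (root x) := by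
    intro x hx
    simp only [root, dif_pos hx]
    exact (hK x hx).choose_spec
  have hb₁ : L.IsLC₁ (root ∘ b) := LevelSys.IsLC₁.comp ⟨U₁, hU₁, h₁⟩ root
  refine ⟨root ∘ b, hb₁, ?_, ?_⟩
  · exact d₁₂_isLC₂_of_values_smooth hN hF hb₁ (fun g => (hroot _ (hval g)).2)
  · funext g
    exact (hroot _ (hval g)).1

/-- A smooth `p`-divisible representation is `LCDivisible`. -/
theorem lcDivisible_of_smooth (hN : L.NormalCofinal) (hF : L.FiniteIndex) (p : ℕ)
    (E : Rep.{0, 0, 0} ℤ G) (hsm : L.IsSmooth E) (hdiv : IsPDivisible p E) :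
    LCDivisible L p E :=
  lcDivisible_of_kummer hN hF p E fun x _ => by
    obtain ⟨y, hy⟩ := hdiv x
    exact ⟨y, hy, hsm y⟩

variable {p : ℕ} [Fact p.Prime] {M : Rep.{0, 0, 0} (ZMod p) G} {E : Rep.{0, 0, 0} ℤ G}
  {κ : M →+ E}

/-- Surjectivity of `H²_lc(M) → H²_lc(E)[p]` for an `LCDivisible` module `E`. -/
lemma exists_Z2_of_lcDivisible (hE : LCDivisible L p E) (hκ : IsKummerEmb p M E κ)
    {a : G × G → E} (ha : a ∈ L.Z2 E) (hpa : p • a ∈ L.B2 E) :
    ∃ m : G × G → M, m ∈ L.Z2 M ∧ κ ∘ m - a ∈ L.B2 E := by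
  obtain ⟨b, hb, hba⟩ := hpa
  have hdb : L.IsLC₂ ((d₁₂ E).hom b) := by
    rw [hba]
    exact LevelSys.IsLC₂.comp ha.2 (p • ·)
  obtain ⟨b₁, hb₁lc, hdlc, hpb₁⟩ := hE b hb hdb
  have hkill : ∀ x, p • (a - (d₁₂ E).hom b₁) x = 0 := by
    intro x
    have h1 : (p • (a - (d₁₂ E).hom b₁)) = 0 := by
      rw [smul_sub, ← map_nsmul, hpb₁]
      exact sub_eq_zero.2 hba.symm
    have := congrFun h1 x
    simpa using this
  obtain ⟨m, hm⟩ := H53.exists_lift_of_p_nsmul_eq_zero hκ _ hkill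
  refine ⟨m, ⟨?_, ?_⟩, ?_⟩
  · refine (H53.ι_mem_cocycles₂_iff hκ m).1 ?_
    rw [hm]
    exact (cocycles₂ E).sub_mem ha.1 (d₁₂_apply_mem_cocycles₂ b₁)
  · apply H53.isLC₂_of_ι L hκ
    rw [hm]
    exact H53.IsLC₂.sub' L ha.2 hdlc
  · rw [hm]
    have : a - (d₁₂ E).hom b₁ - a = (d₁₂ E).hom (-b₁) := by
      rw [map_neg]; abel
    rw [this]
    exact ⟨-b₁, (L.C1 E).neg_mem hb₁lc, rfl⟩

end LCDiv

/-! ## 3. The abstract adapter -/

section Abstract

variable {G : Type} [Group G] {ι : Type} [Fintype ι] [DecidableEq ι]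
  {Gv : ι → Type} [∀ v, Group (Gv v)]
  {L : LevelSys G} {Lv : ∀ v, LevelSys (Gv v)} {r : ∀ v, Gv v →* G}
  (hr : ∀ v, IsLevelCompatible (r v) L (Lv v))
  (p : ℕ) [Fact p.Prime]
  (M : Rep.{0, 0, 0} (ZMod p) G) (E : Rep.{0, 0, 0} ℤ G) (κ : M →+ E)
  (B : ∀ v, Rep.{0, 0, 0} ℤ (Gv v)) (lam : ∀ v, E →+ B v)

/-- **GO4, abstract two-family cochain form.**  The cokernel of
`H²_lc(G, E)[p] → ∏_v H²_lc(Gv v, B v)[p]` has at most `p` elements: for any two families
`X, X'` of level-constant local 2-cocycles whose classes are killed by `p` there are integers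
`(a, b) ≢ (0, 0)` mod `p` and a level-constant global 2-cocycle `y` whose class is killed by `p`
such that `a X_v + b X'_v` is cohomologous to the localisation of `y` for all `v`. -/
def TwoFamily (L : LevelSys G) (Lv : ∀ v, LevelSys (Gv v)) (r : ∀ v, Gv v →* G) (p : ℕ)
    (E : Rep.{0, 0, 0} ℤ G) (B : ∀ v, Rep.{0, 0, 0} ℤ (Gv v)) (lam : ∀ v, E →+ B v) : Prop :=
  ∀ X X' : ∀ v, Gv v × Gv v → B v,
    (∀ v, X v ∈ (Lv v).Z2 (B v) ∧ p • X v ∈ (Lv v).B2 (B v)) →
    (∀ v, X' v ∈ (Lv v).Z2 (B v) ∧ p • X' v ∈ (Lv v).B2 (B v)) →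
    ∃ a b : ℤ, ¬ ((p : ℤ) ∣ a ∧ (p : ℤ) ∣ b) ∧
      ∃ y : G × G → E, y ∈ L.Z2 E ∧ p • y ∈ L.B2 E ∧
        ∀ v, a • X v + b • X' v - (fun x : Gv v × Gv v => lam v (y (r v x.1, r v x.2))) ∈
          (Lv v).B2 (B v)

variable {p M E κ B lam}

include hr in
/-- Localisation of a global level-constant coboundary is a local level-constant coboundary. -/
lemma loc_mem_B2 (hlam : ∀ v (g : Gv v) (e : E), lam v (E.ρ (r v g) e) = (B v).ρ g (lam v e))
    (v : ι) {z : G × G → E} (hz : z ∈ L.B2 E) :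
    (fun x : Gv v × Gv v => lam v (z (r v x.1, r v x.2))) ∈ (Lv v).B2 (B v) := by
  obtain ⟨e, he, rfl⟩ := hz
  refine ⟨fun g => lam v (e (r v g)), ?_, ?_⟩
  · have h1 : (Lv v).IsLC₁ (e ∘ r v) := IsLC₁.res (hr v) he
    exact LevelSys.IsLC₁.comp h1 (lam v)
  · funext ⟨g, h⟩
    simp only [d₁₂_hom_apply, map_add, map_sub, hlam, map_mul]

/-- **INV-COK, abstract form.** -/
theorem exists_functional_of_twoFamily
    (hEdiv : LCDivisible L p E) (hκ : IsKummerEmb p M E κ)
    (hlam : ∀ v (g : Gv v) (e : E), lam v (E.ρ (r v g) e) = (B v).ρ g (lam v e))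
    (hBsm : ∀ v, (Lv v).IsSmooth (B v)) (hBdiv : ∀ v, IsPDivisible p (B v))
    (hBκ : ∀ v, IsKummerEmb p (Rep.res (r v) M) (B v) ((lam v).comp κ))
    (hB1 : ∀ v, H1Vanish (Lv v) (B v))
    (hGO4 : TwoFamily L Lv r p E B lam) :
    ∃ f : ((v : ι) → (Lv v).H2 (Rep.res (r v) M)) →ₗ[ZMod p] ZMod p,
      LinearMap.ker f ≤ LinearMap.range (loc2 hr M) := by
  refine exists_functional_of_pairwise _ fun x x' => ?_
  -- cocycle representatives
  choose c hc using fun v => (Lv v).H2π_surjective (Rep.res (r v) M) (x v)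
  choose c' hc' using fun v => (Lv v).H2π_surjective (Rep.res (r v) M) (x' v)
  -- push to `B v`
  have hX : ∀ v, (((lam v).comp κ) ∘ (c v : Gv v × Gv v → Rep.res (r v) M)) ∈ (Lv v).Z2 (B v) ∧
      p • (((lam v).comp κ) ∘ (c v : Gv v × Gv v → Rep.res (r v) M)) ∈ (Lv v).B2 (B v) := by
    intro v
    refine ⟨H53.ι_mem_Z2 (Lv v) (hBκ v) (c v).2, ?_⟩
    have : p • (((lam v).comp κ) ∘ (c v : Gv v × Gv v → Rep.res (r v) M)) = 0 := by
      funext y
      exact H53.p_nsmul_ι (ι := (lam v).comp κ) ((c v : Gv v × Gv v → Rep.res (r v) M) y)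
    rw [this]
    exact ((Lv v).B2 (B v)).zero_mem
  have hX' : ∀ v, (((lam v).comp κ) ∘ (c' v : Gv v × Gv v → Rep.res (r v) M)) ∈ (Lv v).Z2 (B v) ∧
      p • (((lam v).comp κ) ∘ (c' v : Gv v × Gv v → Rep.res (r v) M)) ∈ (Lv v).B2 (B v) := by
    intro v
    refine ⟨H53.ι_mem_Z2 (Lv v) (hBκ v) (c' v).2, ?_⟩
    have : p • (((lam v).comp κ) ∘ (c' v : Gv v × Gv v → Rep.res (r v) M)) = 0 := by
      funext y
      exact H53.p_nsmul_ι (ι := (lam v).comp κ) ((c' v : Gv v × Gv v → Rep.res (r v) M) y)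
    rw [this]
    exact ((Lv v).B2 (B v)).zero_mem
  obtain ⟨a, b, hab, y, hy, hpy, hloc⟩ := hGO4 _ _ hX hX'
  -- global Kummer surjectivity
  obtain ⟨m, hm, hmy⟩ := exists_Z2_of_lcDivisible hEdiv hκ hy hpy
  refine ⟨(a : ZMod p), (b : ZMod p), ?_, ?_⟩
  · by_contra hcon
    rw [not_or, not_not, not_not] at hcon
    exact hab ⟨(ZMod.intCast_zmod_eq_zero_iff_dvd a p).1 hcon.1,
      (ZMod.intCast_zmod_eq_zero_iff_dvd b p).1 hcon.2⟩
  · refine ⟨L.H2π M ⟨m, hm⟩, ?_⟩
    funext v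
    rw [loc2_apply, resH2_mk, Pi.add_apply, Pi.smul_apply, Pi.smul_apply, ← hc v, ← hc' v,
      ← map_smul, ← map_smul, ← map_add, ← sub_eq_zero, ← map_sub, LevelSys.H2π_eq_zero_iff]
    -- local Kummer injectivity
    refine H53.mem_B2_of_ι_mem_B2 (Lv v) (hBsm v) (hBdiv v) (hBκ v) (hB1 v) ?_
    have key : ((lam v).comp κ) ∘ ((resZ2 (hr v) M ⟨m, hm⟩ -
        ((a : ZMod p) • c v + (b : ZMod p) • c' v) : ↥((Lv v).Z2 (Rep.res (r v) M))) :
          Gv v × Gv v → Rep.res (r v) M) =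
        (fun x : Gv v × Gv v => lam v ((κ ∘ m - y) (r v x.1, r v x.2))) -
          (a • (((lam v).comp κ) ∘ (c v : Gv v × Gv v → Rep.res (r v) M)) +
            b • (((lam v).comp κ) ∘ (c' v : Gv v × Gv v → Rep.res (r v) M)) -
            (fun x : Gv v × Gv v => lam v (y (r v x.1, r v x.2)))) := by
      funext z
      have e1 : ∀ (n : ℤ) (t : Rep.res (r v) M),
          ((lam v).comp κ) ((n : ZMod p) • t) = n • ((lam v).comp κ) t := by
        intro n t
        rw [Int.cast_smul_eq_zsmul, map_zsmul]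
      show ((lam v).comp κ) (m (r v z.1, r v z.2) -
          ((a : ZMod p) • (c v : Gv v × Gv v → Rep.res (r v) M) z +
            (b : ZMod p) • (c' v : Gv v × Gv v → Rep.res (r v) M) z)) = _
      rw [map_sub, map_add, e1, e1]
      simp only [Pi.sub_apply, Pi.add_apply, Pi.smul_apply, Function.comp_apply, map_sub,
        AddMonoidHom.comp_apply]
      abel
    rw [key]
    exact ((Lv v).B2 (B v)).sub_mem (loc_mem_B2 hr hlam v hmy) (hloc v)

end Abstract

end Fermat.Agent.S55.Inv.H99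

end

end
-- ===== PACK-END S55/Inv/CokAbsH99.lean

-- ===== PACK-BEGIN S55/G/SIndH601/LocVanish.lean
section
/-
S55 (Poitou–Tate), layer G, leaf G-SIND-U (helper601), part 1: the LOCAL vanishing.

A finite group `D` acting faithfully on a finite extension `E` of `ℚ_q` by field automorphisms
fixing `ℚ_q`, with trivial inertia (every `d ≠ 1` moves some integral element modulo the maximal
ideal).  Then `E / E^D` is unramified and `H¹(D, U_E) = H²(D, U_E) = 0`
(`Local.UnramUnitsH1Statement`, `Local.UnramUnitsH2Statement`, closed in `Local/H715/Closed.lean`).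

* `local_unram_cocycles` : cocycle form;
* `isZero_H2_of_forall_coboundary` : criterion for `H² = 0` in terms of cocycles;
* `isZero_local_units` : `H¹ = H² = 0` for any sub-representation of `Eˣ` with underlying set the
  integral units.
-/




set_option autoImplicit false
set_option linter.unusedSectionVars false
set_option linter.style.haveILetI false

open CategoryTheory groupCohomology

noncomputable section

namespace Fermat.Agent.S55.G.SIndH601

open Fermat.Agent.S55 Fermat.Agent.S55.Local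

section Abstract

variable {D E : Type} [Group D] [Finite D] [Field E]

/-- **Local vanishing, cocycle form.** -/
theorem local_unram_cocycles (φ : D →* (E ≃+* E)) (hφ : Function.Injective φ)
    (q : ℕ) [Fact q.Prime] (ι : ℚ_[q] →+* E)
    (hfin : letI := ι.toAlgebra; Module.Finite ℚ_[q] E)
    (hι : ∀ (d : D) (x : ℚ_[q]), φ d (ι x) = ι x)
    (hin : letI := ι.toAlgebra
      ∀ d : D, (∀ x : E, IsInt ℤ_[q] ℚ_[q] E x →
        H608.IsNonUnitInt ℤ_[q] ℚ_[q] E (φ d x - x)) → d = 1) :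
    letI := ι.toAlgebra
    (∀ c : D → Eˣ, (∀ g h, c (g * h) = Units.map ((φ g : E ≃+* E) : E →* E) (c h) * c g) →
      (∀ g, c g ∈ _root_.Fermat.Agent.S55.Local.intUnits ℤ_[q] ℚ_[q] E) →
      ∃ m ∈ _root_.Fermat.Agent.S55.Local.intUnits ℤ_[q] ℚ_[q] E, ∀ g, Units.map ((φ g : E ≃+* E) : E →* E) m / m = c g) ∧
    (∀ c : D × D → Eˣ,
      (∀ g h j, c (g * h, j) * c (g, h) =
        Units.map ((φ g : E ≃+* E) : E →* E) (c (h, j)) * c (g, h * j)) →
      (∀ p, c p ∈ _root_.Fermat.Agent.S55.Local.intUnits ℤ_[q] ℚ_[q] E) →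
      ∃ x : D → Eˣ, (∀ g, x g ∈ _root_.Fermat.Agent.S55.Local.intUnits ℤ_[q] ℚ_[q] E) ∧
        ∀ g h, Units.map ((φ g : E ≃+* E) : E →* E) (x h) / x (g * h) * x g = c (g, h)) := by
  classical
  letI : Algebra ℚ_[q] E := ι.toAlgebra
  letI : MulSemiringAction D E := MulSemiringAction.compHom E φ
  have hsmul : ∀ (d : D) (x : E), d • x = φ d x := fun _ _ => rfl
  haveI : FaithfulSMul D E := ⟨fun {d₁ d₂} h => hφ (RingEquiv.ext fun x => by
    rw [← hsmul, ← hsmul]; exact h x)⟩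
  let F : Subfield E := FixedPoints.subfield D E
  let ιF : ℚ_[q] →+* F := ι.codRestrict F (fun x d => by rw [hsmul]; exact hι d x)
  letI : Algebra ℚ_[q] F := ιF.toAlgebra
  haveI : IsScalarTower ℚ_[q] F E := IsScalarTower.of_algebraMap_eq (fun _ => rfl)
  haveI : Module.Finite ℚ_[q] E := hfin
  haveI : FiniteDimensional ℚ_[q] F := FiniteDimensional.left ℚ_[q] F E
  let ψ : D ≃* (E ≃ₐ[F] E) := FixedPoints.toAlgAutMulEquiv D E
  have hψ : ∀ (d : D) (x : E), ψ d x = φ d x := fun _ _ => rfl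
  have hψu : ∀ (σ : E ≃ₐ[F] E) (u : Eˣ),
      σ • u = Units.map ((φ (ψ.symm σ) : E ≃+* E) : E →* E) u := by
    intro σ u
    apply Units.ext
    change σ (u : E) = φ (ψ.symm σ) (u : E)
    rw [← hψ, MulEquiv.apply_symm_apply]
  have hunram : IsUnram ℤ_[q] ℚ_[q] E F := by
    rw [H608.isUnram_iff_relRamIdx, ← H608.card_inertiaSub, Subgroup.card_eq_one, eq_bot_iff]
    intro σ hσ
    rw [H608.mem_inertiaSub_iff] at hσ
    obtain ⟨d, rfl⟩ := ψ.surjective σ
    have hd : d = 1 := hin d (fun x hx => hσ x hx)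
    rw [hd, map_one]
    exact Subgroup.mem_bot.2 rfl
  refine ⟨fun c hc hv => ?_, fun c hc hv => ?_⟩
  · obtain ⟨m, hm, hmc⟩ := Closed.unramUnitsH1 ℤ_[q] ℚ_[q] F E hunram
      (fun σ => c (ψ.symm σ)) (fun σ τ => by
        change c (ψ.symm (σ * τ)) = σ • c (ψ.symm τ) * c (ψ.symm σ)
        rw [map_mul, hc, hψu]) (fun σ => hv _)
    refine ⟨m, hm, fun g => ?_⟩
    have h1 := hmc (ψ g)
    rw [hψu] at h1
    simp only [MulEquiv.symm_apply_apply] at h1
    exact h1
  · obtain ⟨x, hx, hxc⟩ := Closed.unramUnitsH2 ℤ_[q] ℚ_[q] F E hunram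
      (fun p => c (ψ.symm p.1, ψ.symm p.2)) (fun σ τ υ => by
        change c (ψ.symm (σ * τ), ψ.symm υ) * c (ψ.symm σ, ψ.symm τ) =
          σ • c (ψ.symm τ, ψ.symm υ) * c (ψ.symm σ, ψ.symm (τ * υ))
        rw [map_mul, map_mul, hc, hψu]) (fun p => hv _)
    refine ⟨fun g => x (ψ g), fun g => hx _, fun g h => ?_⟩
    have h1 := hxc (ψ g) (ψ h)
    rw [hψu] at h1
    simp only [MulEquiv.symm_apply_apply, ← map_mul] at h1
    exact h1

end Abstract

/-- `H²(G, A) = 0` as soon as every 2-cocycle is a 2-coboundary. -/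
lemma isZero_H2_of_forall_coboundary {G : Type} [Group G] (A : Rep ℤ G)
    (h : ∀ f : G × G → A,
      (∀ g h j : G, f (g * h, j) + f (g, h) = A.ρ g (f (h, j)) + f (g, h * j)) →
      ∃ y : G → A, ∀ g h : G, A.ρ g (y h) - y (g * h) + y g = f (g, h)) :
    Limits.IsZero (groupCohomology A 2) := by
  have hsub : Subsingleton (groupCohomology A 2) := by
    refine ⟨fun a b => ?_⟩
    have key : ∀ c : H2 A, c = 0 := by
      intro c
      refine H2_induction_on c fun x => (H2π_eq_zero_iff x).2 ?_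
      obtain ⟨y, hy⟩ := h x ((mem_cocycles₂_iff _).1 x.2)
      refine ⟨y, ?_⟩
      funext p
      rw [d₁₂_hom_apply]
      exact hy p.1 p.2
    rw [key a, key b]
  exact ModuleCat.isZero_of_subsingleton _

section Units

variable {D E : Type} [Group D] [Finite D] [Field E]

/-- **Local vanishing.**  `H¹(D, U) = H²(D, U) = 0` for the sub-representation `U` of `Eˣ` on the
integral units, when `D` acts faithfully on the finite extension `E` of `ℚ_q` with trivial
inertia. -/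
theorem isZero_local_units (φ : D →* (E ≃+* E)) (hφ : Function.Injective φ)
    (q : ℕ) [Fact q.Prime] (ι : ℚ_[q] →+* E)
    (hfin : letI := ι.toAlgebra; Module.Finite ℚ_[q] E)
    (hι : ∀ (d : D) (x : ℚ_[q]), φ d (ι x) = ι x)
    (hin : letI := ι.toAlgebra
      ∀ d : D, (∀ x : E, IsInt ℤ_[q] ℚ_[q] E x →
        H608.IsNonUnitInt ℤ_[q] ℚ_[q] E (φ d x - x)) → d = 1)
    (U : Submodule ℤ (Additive Eˣ))
    (hU : letI := ι.toAlgebra
      ∀ u : Additive Eˣ, u ∈ U ↔ u.toMul ∈ _root_.Fermat.Agent.S55.Local.intUnits ℤ_[q] ℚ_[q] E)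
    (hst : ∀ d : D, U ≤ U.comap (unitsRepr D φ d)) :
    Limits.IsZero (groupCohomology (Rep.of ((unitsRepr D φ).subrepresentation U hst)) 1) ∧
    Limits.IsZero (groupCohomology (Rep.of ((unitsRepr D φ).subrepresentation U hst)) 2) := by
  letI : Algebra ℚ_[q] E := ι.toAlgebra
  obtain ⟨h1, h2⟩ := local_unram_cocycles φ hφ q ι hfin hι hin
  constructor
  · refine H1JH537.isZero_H1_of_forall_coboundary _ fun f hf => ?_
    obtain ⟨m, hm, hmc⟩ := h1 (fun g => (f g : U).1.toMul) (fun g h => by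
      have := congrArg (fun u : U => (u.1.toMul : Eˣ)) (hf g h)
      exact this) (fun g => (hU _).1 (f g : U).2)
    refine ⟨(⟨Additive.ofMul m, (hU _).2 hm⟩ : U), fun g => ?_⟩
    apply Subtype.ext
    apply Additive.toMul.injective
    exact hmc g
  · refine isZero_H2_of_forall_coboundary _ fun f hf => ?_
    obtain ⟨x, hx, hxc⟩ := h2 (fun p => (f p : U).1.toMul) (fun g h j => by
      have := congrArg (fun u : U => (u.1.toMul : Eˣ)) (hf g h j)
      exact this) (fun p => (hU _).1 (f p : U).2)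
    refine ⟨fun g => (⟨Additive.ofMul (x g), (hU _).2 (hx g)⟩ : U), fun g h => ?_⟩
    apply Subtype.ext
    apply Additive.toMul.injective
    exact hxc g h

end Units

end Fermat.Agent.S55.G.SIndH601

end
end
-- ===== PACK-END S55/G/SIndH601/LocVanish.lean

-- ===== PACK-BEGIN S55/G/CM/Spec.lean
section
/-
S55 / layer G / block CM (sub-architect helper893) — FROZEN INTERFACE.

**G-CM = `G.PClassModuleSpec`** (the UNIVERSAL class-module property for `p`-groups, consumed by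
G-EXIST through `Exist121.recip_of : PClassModuleSpec → RecipSpec`), derived from

  * `TOW.Gd1Spec p`        (fundamental class at `p` on every Tower level, block REC2-TOW),
  * `G.PClassUpperSpec`    (upper bound, ON MAIN: `G.AllH604.pClassUpper`),
  * `G.DescentSpec`        (ON MAIN: `G.AllH604.descent`),
  * `G.SIndepSpec`         (independence of `S`).

Route.  Let the `p`-group `G` act faithfully on the number field `L` (any number field, NOT
necessarily Galois over `ℚ`).  Embed `L` in `ℚ̄`, let `M` be the Galois closure, a Tower level of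
`S' = S ∪ {ramified primes of M}`; `Γ' = Gal(M / L^G) ≤ Gal(M/ℚ)`, `π : Γ' ↠ G` (restriction),
`ker π = Gal(M/L)`.  `Gd1` gives a class module at `p` on `(Gal(M/ℚ), C_{S'}(M))`, hence on
`(Γ', C_{S'}(M))` (SUBCM).  Descent: `C_{S'}(L) = C_{S'}(M)^{ker π}` (DESCI).  The `p`-local
inflation–restriction sequence (main `T/InfResTorsH244`) then produces a class of order `|G|` in
`H²(G, C_{S'}(L))` (ORD), and independence of `S` moves it to `H²(G, C_S(L))` (SINDT).
With the upper bound, `H²(H, C_S(L)) ≅ ℤ/|H|` for every subgroup `H ≤ G`.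

Everything here is a `def XxxSpec : Prop`; NO sorry.  Producers prove `theorem xxx : XxxSpec`
(or `xxx_of : Hyp → XxxSpec`) in `Fermat/Agent/S55/G/CM/H<seat>/*.lean`, namespace
`Fermat.Agent.S55.G.CM.H<seat>`.  Assembly: `G/CM/Assembly.lean` (helper893).
-/


set_option autoImplicit false

open CategoryTheory groupCohomology
open scoped NumberField

noncomputable section

namespace Fermat.Agent.S55.G.CM

open Fermat.Agent.S55 Fermat.Agent.S55.Tow Fermat.Agent.S55.E1.H594 Fermat.Agent.S55.G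
open Fermat.Agent.S55.G.Rec

/-- **G-CM:TOP** (the core): for a `p`-group `G` acting faithfully on `L`, unramified outside
`S ∋ p`, `μ_p ⊂ L^G`, `H²(G, C_S(L))` contains a class of order (at least) `|G|`. -/
def TopOrderSpec : Prop :=
  ∀ (p : ℕ) [hp : Fact p.Prime], p ≠ 2 →
  ∀ (S : Finset Nat.Primes) (G L : Type) [Group G] [Finite G] [Field L] [NumberField L]
    [MulSemiringAction G L] [FaithfulSMul G L],
    (⟨p, hp.out⟩ : Nat.Primes) ∈ S → IsPGroup p G → IsUnramOut S G L →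
    HasFixedRootOfUnity p G L →
    ∃ y : groupCohomology (CRep S G L) 2, ∀ n : ℕ, n • y = 0 → Nat.card G ∣ n

/-- **G-CM:GCL** (Galois-closure level).  For a finite group `G` acting faithfully on a number
field `L` there are a finite set `S' ⊇ S`, a Tower level `M` of `S'`, a subgroup
`Γ' ≤ Gal(M/ℚ)`, a surjection `π : Γ' ↠ G` and an embedding `φ : L → M`, equivariant along `π`,
whose image is the fixed field of `ker π`.
(`M` = normal closure of an embedding of `L` in `ℚ̄`; `S'` = `S` + the primes ramified in `M`;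
`Γ'` = image of `Gal(ℚ̄ / L^G)`; `π` = restriction to `L`, through `G ≃ Aut(L / L^G)`.) -/
def ClosureLevelSpec : Prop :=
  ∀ (S : Finset Nat.Primes) (G L : Type) [Group G] [Finite G] [Field L] [NumberField L]
    [MulSemiringAction G L] [FaithfulSMul G L],
    ∃ (S' : Finset Nat.Primes) (_ : S ⊆ S') (M : Level S') (Γ' : Subgroup M.Gal)
      (π : ↥Γ' →* G) (φ : L →+* M.F),
      Function.Surjective π ∧
      (∀ (g : ↥Γ') (x : L), φ (π g • x) = g • φ x) ∧
      (∀ y : M.F, (∀ n : ↥Γ', π n = 1 → n • y = y) → y ∈ Set.range φ)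

/-- **G-CM:SUBCM** (pure algebra): a class module at `p` restricts to a class module at `p` on
every subgroup. -/
def SubClassModuleSpec : Prop :=
  ∀ (p : ℕ) (Γ : Type) [Group Γ] [Finite Γ] (C : Rep.{0} ℤ Γ) (γ : groupCohomology C 2),
    E1.IsClassModuleAt p C γ → ∀ Γ' : Subgroup Γ,
      E1.IsClassModuleAt p (T.resSub C Γ') (TOW.res2 C Γ' γ)

/-- **G-CM:ORD** (pure algebra, `p`-local inflation–restriction): let `π : Γ' ↠ Γ` with `Γ` a
`p`-group, `C = C'^{ker π}` (`TOW.IsInvIncl π ι`) and `(C', γ)` a class module at `p`.  Then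
`H²(Γ, C)` contains a class of order (at least) `|Γ|`.
(`t = [Γ' : P']`, `P'` Sylow; `Y = |ker π|_p • t • γ` is `p`-primary of order `|Γ|` and dies on
`ker π`; `H¹(ker π, C')` is killed by `[ker π : Sylow]`, prime to `p`; main
`T.H244.exists_infMap_eq_of_resMap_eq_zero_of_coprime` ⇒ `Y = inf y`.) -/
def QuotOrderSpec : Prop :=
  ∀ (p : ℕ), p.Prime → ∀ (Γ' Γ : Type) [Group Γ'] [Group Γ] [Finite Γ'] (π : Γ' →* Γ),
    Function.Surjective π → IsPGroup p Γ →
    ∀ (C : Rep.{0} ℤ Γ) (C' : Rep.{0} ℤ Γ') (ι : Rep.res π C ⟶ C'), TOW.IsInvIncl π ι →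
    ∀ γ : groupCohomology C' 2, E1.IsClassModuleAt p C' γ →
      ∃ y : groupCohomology C 2, ∀ n : ℕ, n • y = 0 → Nat.card Γ ∣ n

/-- **G-CM:DESCI** (descent as an inclusion of invariants; from `G.DescentSpec`): for
`π : Γ' ↠ G`, `Γ'` acting faithfully on `M`, unramified outside `S ≠ ∅`, and an embedding
`φ : L → M`, equivariant along `π`, with image the fixed field of `ker π`: there is
`ι : Res_π C_S(L) ⟶ C_S(M)` identifying `C_S(L)` with the `ker π`-invariants of `C_S(M)`. -/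
def DescInclSpec : Prop :=
  ∀ (S : Finset Nat.Primes) (Γ' G M L : Type) [Group Γ'] [Finite Γ'] [Group G]
    [Field M] [NumberField M] [Field L] [NumberField L]
    [MulSemiringAction Γ' M] [FaithfulSMul Γ' M] [MulSemiringAction G L]
    (π : Γ' →* G) (φ : L →+* M),
    Function.Surjective π → S.Nonempty → IsUnramOut S Γ' M →
    (∀ (g : Γ') (x : L), φ (π g • x) = g • φ x) →
    (∀ y : M, (∀ n : Γ', π n = 1 → n • y = y) → y ∈ Set.range φ) →
    ∃ ι : Rep.res π (CRep S G L) ⟶ CRep S Γ' M, TOW.IsInvIncl π ι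

/-- **G-CM:SINDT** (independence of `S` on `H²(G, -)`; from `G.SIndepSpec` at `H = ⊤`): every
class of `H²(G, C_{S'}(L))` has an image in `H²(G, C_S(L))` of the same order. -/
def SIndTopSpec : Prop :=
  ∀ (S S' : Finset Nat.Primes), S ⊆ S' → ∀ (G L : Type) [Group G] [Finite G] [Field L]
    [NumberField L] [MulSemiringAction G L] [FaithfulSMul G L],
    S.Nonempty → IsUnramOut S G L →
    ∀ y' : groupCohomology (CRep S' G L) 2,
      ∃ y : groupCohomology (CRep S G L) 2, ∀ n : ℕ, n • y = 0 → n • y' = 0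

/-- The five leaf statements, with the shapes of their producers. -/
def DescInclAssemblySpec : Prop := G.DescentSpec → DescInclSpec

/-- `sindTop_of`. -/
def SIndTopAssemblySpec : Prop := G.SIndepSpec → SIndTopSpec

end Fermat.Agent.S55.G.CM

end
end
-- ===== PACK-END S55/G/CM/Spec.lean

-- ===== PACK-BEGIN S55/G/Rec/Tow/H724/Unram.lean
section
/-
S55 / layer G / block REC / adapter TOW, leaf FR-REC, unramified half (helper724).

`invAt_eq_zero_of_ord` : for a Tower level `M` of `S`, a subgroup `H ≤ Gal(M/ℚ)`, a prime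
`q ∉ S` and ANY place of `K = M^H` above `q` (given by `g ∈ G_ℚ`), the local invariant of the
inflation of a finite-level class `x ∈ H²(H, Mˣ)` with trivial divisor class
(`ord_* x = 0` in `H²(H, Div^S M)`) vanishes.

Proof: `ord ∘ x = dβ`; let `w` be the prime of `M` induced by `ι_q ∘ g⁻¹`, `ϖ ∈ Mˣ` a uniformizer
at `w` and `b(h) = ϖ ^ β(h)(w)`.  The cocycle `x' = x - db` is cohomologous to `x` and has
`w`-unit values on `D_w × H`.  Its inflation, localised at `(q, g)`, is a unit-valued cocycle which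
is constant modulo inertia (inertia at `q ∉ S` acts trivially on `M`): `I.inv_unram`.

This file is independent of the definition of `σ` (FR-DEF): it only uses `Rec/Defs`, `Rec/Spec`
and the Tower vocabulary.
-/





set_option autoImplicit false
set_option linter.unusedSectionVars false
set_option linter.style.haveILetI false

open CategoryTheory groupCohomology
open scoped NumberField

noncomputable section

namespace Fermat.Agent.S55.G.Rec.TOW.H724

open Fermat.Agent.S55 Fermat.Agent.S55.Tow Fermat.Agent.S55.E1.H594 Fermat.Agent.S55.G.Rec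
open IsDedekindDomain

/-! ## A. Inertia -/

section Inertia

variable (q : ℕ) [Fact q.Prime]

lemma mem_nonunits_padicIntegers_iff {y : PadicAlgCl q} :
    y ∈ (padicIntegers q).nonunits ↔ ‖y‖ < 1 := by
  rw [ValuationSubring.mem_nonunits_iff_or]
  by_cases hy : y = 0
  · subst hy
    simp
  · have hpos : 0 < ‖y‖ := norm_pos_iff.2 hy
    have hmem : y⁻¹ ∈ padicIntegers q ↔ ‖y⁻¹‖ ≤ 1 := by
      rw [mem_padicIntegers_iff]
      exact Iff.rfl
    rw [hmem, norm_inv]
    constructor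
    · rintro (h | h)
      · exact absurd h hy
      · by_contra hlt
        exact h (inv_le_one_of_one_le₀ (not_lt.1 hlt))
    · intro h
      right
      intro h'
      have := (inv_le_one₀ hpos).1 h'
      exact absurd h (not_lt.2 this)

lemma norm_natCast_self_lt_one : ‖((q : ℕ) : PadicAlgCl q)‖ < 1 := by
  have h2 : ‖padicEmbedding q ((q : ℕ) : Qbar)‖ = (q : ℝ)⁻¹ :=
    Fermat.Agent.S55.H175.norm_padicEmbedding_natCast_self q
  rw [map_natCast] at h2
  rw [h2]
  exact inv_lt_one_of_one_lt₀ (by exact_mod_cast (Fact.out : q.Prime).one_lt)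

lemma liesOver_padicIntegers : (padicIntegers q).LiesOverPrime q := by
  show ((q : ℕ) : PadicAlgCl q) ∈ (padicIntegers q).nonunits
  rw [mem_nonunits_padicIntegers_iff]
  exact norm_natCast_self_lt_one q

lemma mem_nonunits_padicPlace_iff {x : Qbar} :
    x ∈ (padicPlace q).nonunits ↔ ‖padicEmbedding q x‖ < 1 := by
  rw [← mem_nonunits_padicIntegers_iff]
  rw [ValuationSubring.mem_nonunits_iff_or, ValuationSubring.mem_nonunits_iff_or]
  have h1 : padicEmbedding q x = 0 ↔ x = 0 := map_eq_zero_iff _ (padicEmbedding q).injective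
  have h2 : x⁻¹ ∈ padicPlace q ↔ (padicEmbedding q x)⁻¹ ∈ padicIntegers q := by
    rw [← map_inv₀]
    exact Iff.rfl
  rw [h1, h2]

lemma liesOver_padicPlace : (padicPlace q).LiesOverPrime q := by
  show ((q : ℕ) : Qbar) ∈ (padicPlace q).nonunits
  rw [mem_nonunits_padicPlace_iff, map_natCast]
  exact norm_natCast_self_lt_one q

/-- An inertial element of `G_{ℚ_q}` (norm form) maps into the inertia group of `padicPlace q`. -/
lemma loc_mem_inertia {τ : PadicAlgCl q ≃ₐ[ℚ_[q]] PadicAlgCl q} (hτ : IsInertial q τ) :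
    localGaloisToGlobal q τ ∈ (padicPlace q).inertiaSubgroupIn ℚ := by
  refine Bridge.mem_inertia_of_forall_integral (padicPlace q) (Fact.out : q.Prime)
    (liesOver_padicPlace q)
    (localGaloisToGlobal_mem_decompositionSubgroup q τ) (fun b hb => ?_)
  rw [mem_nonunits_padicPlace_iff, map_sub, padicEmbedding_localGaloisToGlobal]
  exact hτ _ (H181.norm_padicEmbedding_le_one q hb)

variable {S : Finset Nat.Primes} (M : Level S)

/-- Inertia at `q ∉ S` acts trivially on a level of `S`. -/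
lemma conj_loc_mem_U (hq : (⟨q, Fact.out⟩ : Nat.Primes) ∉ S) (g : GQ)
    {τ : PadicAlgCl q ≃ₐ[ℚ_[q]] PadicAlgCl q} (hτ : IsInertial q τ) :
    g * localGaloisToGlobal q τ * g⁻¹ ∈ M.U := by
  have h1 : localGaloisToGlobal q τ ∈ M.U :=
    M.unram.2 ⟨q, Fact.out⟩ hq (padicPlace q) (liesOver_padicPlace q)
      (loc_mem_inertia q hτ)
  exact M.normalU.conj_mem _ h1 g

end Inertia

/-! ## B. The prime of `M` induced by `ι_q ∘ g⁻¹` -/

section Place

variable (q : ℕ) [Fact q.Prime] (g : GQ) {S : Finset Nat.Primes} (M : Level S)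

/-- The embedding `M → ℚ̄_q`, `y ↦ ι_q (g⁻¹ y)`. -/
def embG : M.F →+* PadicAlgCl q :=
  ((padicEmbedding q : Qbar →ₐ[ℚ] PadicAlgCl q) : Qbar →+* PadicAlgCl q).comp
    ((((g⁻¹ : GQ) : Qbar ≃ₐ[ℚ] Qbar) : Qbar →+* Qbar).comp (algebraMap M.F Qbar))

lemma embG_apply (y : M.F) : embG q g M y = padicEmbedding q ((g⁻¹ : GQ) (y : Qbar)) := rfl

lemma embG_smul (τ : PadicAlgCl q ≃ₐ[ℚ_[q]] PadicAlgCl q) (y : M.F) :
    embG q g M ((QuotientGroup.mk (g * localGaloisToGlobal q τ * g⁻¹) : M.Gal) • y) =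
      τ (embG q g M y) := by
  rw [embG_apply, level_mk_smul, embG_apply, ← padicEmbedding_localGaloisToGlobal]
  congr 1
  simp [AlgEquiv.mul_apply]

lemma norm_algEquiv (τ : PadicAlgCl q ≃ₐ[ℚ_[q]] PadicAlgCl q) (y : PadicAlgCl q) :
    ‖τ y‖ = ‖y‖ := by
  have h := nnnorm_padicAlgCl_algEquiv q τ y
  exact congrArg NNReal.toReal h

/-- The prime of `𝓞_M` induced by `ι_q ∘ g⁻¹`. -/
def placeW : HeightOneSpectrum (𝓞 M.F) :=
  letI : Algebra M.F (PadicAlgCl q) := (embG q g M).toAlgebra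
  GAD.H175.placeUnder (K := M.F) (padicIntegers q) q Fact.out (liesOver_padicIntegers q)

lemma mem_placeW_iff (b : 𝓞 M.F) :
    b ∈ (placeW q g M).asIdeal ↔ ‖embG q g M (b : M.F)‖ < 1 := by
  letI : Algebra M.F (PadicAlgCl q) := (embG q g M).toAlgebra
  rw [← mem_nonunits_padicIntegers_iff]
  exact GAD.H175.mem_placeUnder

lemma valuation_placeW_eq_one {y : M.F} (hy : y ≠ 0)
    (h : (placeW q g M).valuation M.F y = 1) : ‖embG q g M y‖ = 1 := by
  letI : Algebra M.F (PadicAlgCl q) := (embG q g M).toAlgebra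
  have hw : ∀ b : 𝓞 M.F, b ∈ (placeW q g M).asIdeal ↔
      algebraMap M.F (PadicAlgCl q) (b : M.F) ∈ (padicIntegers q).nonunits :=
    fun b => GAD.H175.mem_placeUnder
  obtain ⟨h1, h2⟩ :=
    (GAD.H175.valuation_eq_one_iff_mem_and_inv_mem (padicIntegers q) (placeW q g M) hw hy).1 h
  have h1' : ‖embG q g M y‖ ≤ 1 := h1
  have h2' : ‖(embG q g M y)⁻¹‖ ≤ 1 := h2
  rw [norm_inv] at h2'
  have hpos : 0 < ‖embG q g M y‖ :=
    norm_pos_iff.2 ((map_ne_zero_iff _ (embG q g M).injective).2 hy)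
  exact le_antisymm h1' ((inv_le_one₀ hpos).1 h2')

lemma not_isAbove_placeW (hq : (⟨q, Fact.out⟩ : Nat.Primes) ∉ S) :
    ¬ G.IsAbove S M.F (placeW q g M) := by
  letI : Algebra M.F (PadicAlgCl q) := (embG q g M).toAlgebra
  rintro ⟨ℓ, hℓS, hℓ⟩
  have hw : ∀ b : 𝓞 M.F, b ∈ (placeW q g M).asIdeal ↔
      algebraMap M.F (PadicAlgCl q) (b : M.F) ∈ (padicIntegers q).nonunits :=
    fun b => GAD.H175.mem_placeUnder
  have := GAD.H175.eq_of_natCast_mem (padicIntegers q) (placeW q g M) hw (Fact.out : q.Prime) ℓ.2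
    (liesOver_padicIntegers q) hℓ
  apply hq
  have h3 : ℓ = ⟨q, Fact.out⟩ := Subtype.ext this
  rw [← h3]
  exact hℓS

/-- The prime `placeW`, as a prime outside `S`. -/
def placeOut (hq : (⟨q, Fact.out⟩ : Nat.Primes) ∉ S) : G.PrimeOut S M.F :=
  ⟨placeW q g M, not_isAbove_placeW q g M hq⟩

/-- The elements `g · loc(τ) · g⁻¹` fix the prime `placeW`. -/
lemma primeSMul_placeW (τ : PadicAlgCl q ≃ₐ[ℚ_[q]] PadicAlgCl q) :
    G.primeSMul M.Gal (QuotientGroup.mk (g * localGaloisToGlobal q τ * g⁻¹) : M.Gal)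
      (placeW q g M) = placeW q g M := by
  apply HeightOneSpectrum.ext
  ext b
  rw [G.mem_primeSMul_iff, mem_placeW_iff, mem_placeW_iff]
  have hinv : ((QuotientGroup.mk (g * localGaloisToGlobal q τ * g⁻¹) : M.Gal))⁻¹ =
      QuotientGroup.mk (g * localGaloisToGlobal q τ⁻¹ * g⁻¹) := by
    rw [← QuotientGroup.mk_inv, map_inv, mul_inv_rev, mul_inv_rev, inv_inv, mul_assoc]
  have hcoe : (((QuotientGroup.mk (g * localGaloisToGlobal q τ * g⁻¹) : M.Gal)⁻¹ • b : 𝓞 M.F) :
      M.F) = (QuotientGroup.mk (g * localGaloisToGlobal q τ * g⁻¹) : M.Gal)⁻¹ • (b : M.F) := rfl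
  rw [hcoe, hinv, embG_smul, norm_algEquiv]

end Place

/-! ## C. Inflation of finite-level cochains -/

section Infl

variable {S : Finset Nat.Primes} (M : Level S) (H : Subgroup M.Gal)

/-- The preimage of `H ≤ Gal(M/ℚ)` in `G_ℚ`: the absolute Galois group of `K = M^H`. -/
abbrev UH : Subgroup GQ := H.comap (QuotientGroup.mk' M.U)

/-- The projection `U_H → H`. -/
def toH : ↥(UH M H) →* ↥H := (QuotientGroup.mk' M.U).subgroupComap H

@[simp] lemma toH_coe (s : ↥(UH M H)) :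
    ((toH M H s : ↥H) : M.Gal) = QuotientGroup.mk (s : GQ) := rfl

lemma toH_eq_one {s : ↥(UH M H)} (hs : (s : GQ) ∈ M.U) : toH M H s = 1 := by
  apply Subtype.ext
  rw [toH_coe]
  exact (QuotientGroup.eq_one_iff _).2 hs

lemma toH_surjective : Function.Surjective (toH M H) := by
  rintro ⟨h, hh⟩
  obtain ⟨s, rfl⟩ := QuotientGroup.mk_surjective h
  exact ⟨⟨s, hh⟩, rfl⟩

lemma isOpenQ_UH : IsOpenQ (UH M H) :=
  ⟨M.F, level_finiteDimensional M, fun σ hσ => by
    have h1 : (QuotientGroup.mk σ : M.Gal) = 1 :=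
      (QuotientGroup.eq_one_iff σ).2 (show σ ∈ M.U from hσ)
    show (QuotientGroup.mk σ : M.Gal) ∈ H
    rw [h1]
    exact H.one_mem⟩

/-- The inclusion `Mˣ → ℚ̄ˣ` (additively), as a `ℤ`-linear map of the underlying modules. -/
def incl : (T.resSub (lvlL M) H) →ₗ[ℤ] gModOn (UH M H) :=
  (MonoidHom.toAdditive
    (Units.map ((algebraMap M.F Qbar : M.F →+* Qbar) : M.F →* Qbar))).toIntLinearMap

lemma incl_coe (a : T.resSub (lvlL M) H) :
    ((Additive.toMul (incl M H a) : Qbarˣ) : Qbar) =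
      (((Additive.toMul (show Additive (M.F)ˣ from a) : (M.F)ˣ) : M.F) : Qbar) := rfl

lemma incl_equivariant (s : ↥(UH M H)) (a : T.resSub (lvlL M) H) :
    incl M H ((T.resSub (lvlL M) H).ρ (toH M H s) a) = (gModOn (UH M H)).ρ s (incl M H a) := by
  apply Additive.toMul.injective
  apply Units.ext
  exact level_mk_smul M (s : GQ) _

/-- Inflation of `1`-cochains. -/
abbrev inflC₁ : (↥H → T.resSub (lvlL M) H) →ₗ[ℤ] (↥(UH M H) → gModOn (UH M H)) :=
  cochainsPullPush₁ (toH M H) (incl M H)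

/-- Inflation of `2`-cochains. -/
abbrev inflC₂ : (↥H × ↥H → T.resSub (lvlL M) H) →ₗ[ℤ]
    (↥(UH M H) × ↥(UH M H) → gModOn (UH M H)) :=
  cochainsPullPush₂ (toH M H) (incl M H)

lemma inflC₂_mul_right (x : ↥H × ↥H → T.resSub (lvlL M) H) (a a' s s' : ↥(UH M H))
    (hs : (s : GQ) ∈ M.U) (hs' : (s' : GQ) ∈ M.U) :
    inflC₂ M H x (a * s, a' * s') = inflC₂ M H x (a, a') := by
  show incl M H (x (toH M H (a * s), toH M H (a' * s'))) = incl M H (x (toH M H a, toH M H a'))
  rw [map_mul, map_mul, toH_eq_one M H hs, toH_eq_one M H hs', mul_one, mul_one]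

lemma isLevelConstant₂_inflC₂ (x : ↥H × ↥H → T.resSub (lvlL M) H) :
    IsLevelConstant₂ (UH M H).subtype (inflC₂ M H x) :=
  ⟨M.F, level_finiteDimensional M, fun a a' s s' hs hs' => inflC₂_mul_right M H x a a' s s' hs hs'⟩

lemma isLevelConstant₁_inflC₁ (b : ↥H → T.resSub (lvlL M) H) :
    IsLevelConstant₁ (UH M H).subtype (inflC₁ M H b) :=
  ⟨M.F, level_finiteDimensional M, fun a s hs => by
    show incl M H (b (toH M H (a * s))) = incl M H (b (toH M H a))
    rw [map_mul, toH_eq_one M H hs, mul_one]⟩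

lemma inflC₂_mem_levelCocycles₂ {x : ↥H × ↥H → T.resSub (lvlL M) H}
    (hx : x ∈ cocycles₂ (T.resSub (lvlL M) H)) :
    inflC₂ M H x ∈ levelCocycles₂ (UH M H).subtype (gModOn (UH M H)) :=
  ⟨cochainsPullPush₂_mem_cocycles₂ (toH M H) (incl M H) (incl_equivariant M H) hx,
    isLevelConstant₂_inflC₂ M H x⟩

lemma inflC₂_d₁₂ (b : ↥H → T.resSub (lvlL M) H) :
    inflC₂ M H ((d₁₂ (T.resSub (lvlL M) H)).hom b) =
      (d₁₂ (gModOn (UH M H))).hom (inflC₁ M H b) :=
  cochainsPullPush₂_d₁₂ (toH M H) (incl M H) (incl_equivariant M H) b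

/-- The canonical inflation on cocycles. -/
def inflZ₂ : ↥(cocycles₂ (T.resSub (lvlL M) H)) →ₗ[ℤ]
    ↥(levelCocycles₂ (UH M H).subtype (gModOn (UH M H))) :=
  (inflC₂ M H).restrict fun _ hx => inflC₂_mem_levelCocycles₂ M H hx

@[simp] lemma inflZ₂_coe (x : ↥(cocycles₂ (T.resSub (lvlL M) H))) :
    (inflZ₂ M H x : ↥(UH M H) × ↥(UH M H) → gModOn (UH M H)) = inflC₂ M H x := rfl

end Infl

/-! ## D. The unramified vanishing -/

section Main

variable {S : Finset Nat.Primes} (M : Level S) (H : Subgroup M.Gal)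

lemma exists_cochain_of_ord_eq_zero (x : ↥(cocycles₂ (T.resSub (lvlL M) H)))
    (hx : h2Sub (G.ordRepHom S M.Gal M.F) H (H2π _ x) = 0) :
    ∃ β : ↥H → (G.PrimeOut S M.F →₀ ℤ), ∀ h₁ h₂ : ↥H,
      G.ordHom S M.F ((x : ↥H × ↥H → T.resSub (lvlL M) H) (h₁, h₂)) =
        G.divRepr S M.Gal M.F (h₁ : M.Gal) (β h₂) - β (h₁ * h₂) + β h₁ := by
  have h1 := ConcreteCategory.congr_hom (H2π_comp_map (MonoidHom.id ↥H)
    ((Rep.resFunctor H.subtype).map (G.ordRepHom S M.Gal M.F))) x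
  have h2 : H2π _ (mapCocycles₂ (MonoidHom.id ↥H)
    ((Rep.resFunctor H.subtype).map (G.ordRepHom S M.Gal M.F)) x) = 0 := by
    rw [← hx]
    exact h1.symm
  rw [H2π_eq_zero_iff] at h2
  obtain ⟨β, hβ⟩ := h2
  refine ⟨β, fun h₁ h₂ => ?_⟩
  have h3 := congrFun hβ (h₁, h₂)
  rw [d₁₂_hom_apply] at h3
  exact h3.symm


lemma exists_ordAt_eq_one (w : HeightOneSpectrum (𝓞 M.F)) :
    ∃ ϖ : Additive (M.F)ˣ, G.ordAt w ϖ = 1 := by
  obtain ⟨π, hπ⟩ := w.valuation_exists_uniformizer M.F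
  have hπ0 : π ≠ 0 := by
    rintro rfl
    rw [map_zero] at hπ
    exact WithZero.exp_ne_zero hπ.symm
  refine ⟨Additive.ofMul (Units.mk0 π hπ0), ?_⟩
  rw [G.ordAt_apply]
  show - WithZero.log (w.valuation M.F π) = 1
  rw [hπ, WithZero.log_exp, neg_neg]

lemma ordAt_sub_d₁₂ (x : ↥H × ↥H → T.resSub (lvlL M) H) (β : ↥H → (G.PrimeOut S M.F →₀ ℤ))
    (hβ : ∀ h₁ h₂ : ↥H, G.ordHom S M.F (x (h₁, h₂)) =
        G.divRepr S M.Gal M.F (h₁ : M.Gal) (β h₂) - β (h₁ * h₂) + β h₁)
    (w : G.PrimeOut S M.F) (b₀ : ↥H → T.resSub (lvlL M) H)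
    (hb : ∀ h : ↥H, G.ordAt w.1 (b₀ h) = β h w)
    (h₁ h₂ : ↥H) (hfix : G.primeSMul M.Gal (h₁ : M.Gal) w.1 = w.1) :
    G.ordAt w.1 ((x - (d₁₂ (T.resSub (lvlL M) H)).hom b₀) (h₁, h₂)) = 0 := by
  have hfix' : G.primeOutMap S M.Gal M.F (h₁ : M.Gal) w = w := Subtype.ext hfix
  have e0 : G.divRepr S M.Gal M.F (h₁ : M.Gal) (β h₂) w = β h₂ w := by
    have h := G.divRepr_apply_apply S M.Gal M.F (h₁ : M.Gal) (β h₂) w
    rw [hfix'] at h
    exact h
  have e1 : G.ordAt w.1 (x (h₁, h₂)) = β h₂ w - β (h₁ * h₂) w + β h₁ w := by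
    have h := DFunLike.congr_fun (hβ h₁ h₂) w
    refine h.trans ?_
    rw [Finsupp.add_apply, Finsupp.sub_apply, e0]
  have e2 : G.ordAt w.1 ((T.resSub (lvlL M) H).ρ h₁ (b₀ h₂)) = β h₂ w := by
    have h := G.ordAt_primeSMul M.Gal (h₁ : M.Gal) w.1 (b₀ h₂)
    rw [hfix] at h
    exact h.trans (hb h₂)
  have e3 : (x - (d₁₂ (T.resSub (lvlL M) H)).hom b₀) (h₁, h₂) =
      x (h₁, h₂) - ((T.resSub (lvlL M) H).ρ h₁ (b₀ h₂) - b₀ (h₁ * h₂) + b₀ h₁) := by
    rw [Pi.sub_apply, d₁₂_hom_apply]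
  rw [e3]
  have e4 := map_sub (G.ordAt w.1) (x (h₁, h₂))
    ((T.resSub (lvlL M) H).ρ h₁ (b₀ h₂) - b₀ (h₁ * h₂) + b₀ h₁)
  have e5 := map_add (G.ordAt w.1) ((T.resSub (lvlL M) H).ρ h₁ (b₀ h₂) - b₀ (h₁ * h₂)) (b₀ h₁)
  have e6 := map_sub (G.ordAt w.1) ((T.resSub (lvlL M) H).ρ h₁ (b₀ h₂)) (b₀ (h₁ * h₂))
  have e7 := hb (h₁ * h₂)
  have e8 := hb h₁
  refine e4.trans ?_
  rw [e5, e6]
  exact (congrArg₂ (fun a b : ℤ => a - b) e1 (congrArg₂ (fun a b : ℤ => a + b)
    (congrArg₂ (fun a b : ℤ => a - b) e2 e7) e8)).trans (sub_self _)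

/-- Modifying a finite-level cocycle by a coboundary does not change the class of its
inflation. -/
lemma exists_inflC₂_sub_d₁₂ (x : ↥(cocycles₂ (T.resSub (lvlL M) H)))
    (b₀ : ↥H → T.resSub (lvlL M) H)
    (c : ↥(levelCocycles₂ (UH M H).subtype (gModOn (UH M H))))
    (hc : (c : ↥(UH M H) × ↥(UH M H) → gModOn (UH M H)) = inflC₂ M H x) :
    ∃ c' : ↥(levelCocycles₂ (UH M H).subtype (gModOn (UH M H))),
      (c' : ↥(UH M H) × ↥(UH M H) → gModOn (UH M H)) =
        inflC₂ M H ((x : ↥H × ↥H → T.resSub (lvlL M) H) - (d₁₂ (T.resSub (lvlL M) H)).hom b₀) ∧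
      continuousH2π (UH M H).subtype (gModOn (UH M H)) c =
        continuousH2π (UH M H).subtype (gModOn (UH M H)) c' := by
  have hx' : (x : ↥H × ↥H → T.resSub (lvlL M) H) - (d₁₂ (T.resSub (lvlL M) H)).hom b₀ ∈
      cocycles₂ (T.resSub (lvlL M) H) :=
    Submodule.sub_mem _ x.2 (coboundaries₂_le_cocycles₂ _ ⟨b₀, rfl⟩)
  refine ⟨⟨_, inflC₂_mem_levelCocycles₂ M H hx'⟩, rfl, ?_⟩
  rw [← sub_eq_zero, ← map_sub, continuousH2π_eq_zero_iff]
  refine (mem_levelCoboundaries₂_iff _ _ _).2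
    ⟨inflC₁ M H b₀, isLevelConstant₁_inflC₁ M H b₀, ?_⟩
  have key : inflC₂ M H ((x : ↥H × ↥H → T.resSub (lvlL M) H) -
      (d₁₂ (T.resSub (lvlL M) H)).hom b₀) =
      (c : ↥(UH M H) × ↥(UH M H) → gModOn (UH M H)) -
        (d₁₂ (gModOn (UH M H))).hom (inflC₁ M H b₀) := by
    rw [hc, ← inflC₂_d₁₂]
    exact map_sub (inflC₂ M H) _ _
  show _ = (c : ↥(UH M H) × ↥(UH M H) → gModOn (UH M H)) -
    inflC₂ M H ((x : ↥H × ↥H → T.resSub (lvlL M) H) - (d₁₂ (T.resSub (lvlL M) H)).hom b₀)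
  rw [key, sub_sub_cancel]

variable (q : ℕ) [Fact q.Prime] (g : GQ)

set_option maxHeartbeats 400000 in
theorem inv_locBr_eq_zero_of_ord (I : LocalInvSystem) (hq : (⟨q, Fact.out⟩ : Nat.Primes) ∉ S)
    (x : ↥(cocycles₂ (T.resSub (lvlL M) H)))
    (hx : h2Sub (G.ordRepHom S M.Gal M.F) H (H2π _ x) = 0)
    (c : ↥(levelCocycles₂ (UH M H).subtype (gModOn (UH M H))))
    (hc : (c : ↥(UH M H) × ↥(UH M H) → gModOn (UH M H)) = inflC₂ M H x) :
    I.inv q (locSub q g (UH M H)) (locBr q g (UH M H) (continuousH2π _ _ c)) = 0 := by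
  obtain ⟨β, hβ⟩ := exists_cochain_of_ord_eq_zero M H x hx
  obtain ⟨ϖ, hϖ⟩ := exists_ordAt_eq_one M (placeW q g M)
  obtain ⟨b₀, hb₀⟩ : ∃ b₀ : ↥H → T.resSub (lvlL M) H,
      ∀ h : ↥H, G.ordAt (placeOut q g M hq).1 (b₀ h) = β h (placeOut q g M hq) :=
    ⟨fun h => ((β h (placeOut q g M hq) : ℤ) • (ϖ : T.resSub (lvlL M) H)), fun h => by
      have := map_zsmul (G.ordAt (placeW q g M)) (β h (placeOut q g M hq)) ϖ
      refine this.trans ?_
      rw [hϖ, smul_eq_mul, mul_one]⟩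
  obtain ⟨c', hc', hcc'⟩ := exists_inflC₂_sub_d₁₂ M H x b₀ c hc
  rw [hcc', locBr_mk]
  have hV := H181.isOpenL_locSub q g (isOpenQ_UH M H)
  have hord := fun h₁ h₂ hfix => ordAt_sub_d₁₂ M H x β hβ (placeOut q g M hq) b₀ hb₀ h₁ h₂ hfix
  obtain ⟨x', hx'⟩ : ∃ x' : ↥H × ↥H → T.resSub (lvlL M) H,
      x' = (x : ↥H × ↥H → T.resSub (lvlL M) H) - (d₁₂ (T.resSub (lvlL M) H)).hom b₀ := ⟨_, rfl⟩
  rw [← hx'] at hc' hord
  have hval : ∀ τ₁ τ₂ : ↥(locSub q g (UH M H)),
      (locCocycles₂ q g (UH M H) c' : ↥(locSub q g (UH M H)) × ↥(locSub q g (UH M H)) →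
        lModOn q (locSub q g (UH M H))) (τ₁, τ₂) =
      locPush q g (UH M H) (incl M H
        (x' (toH M H (locHom q g (UH M H) τ₁), toH M H (locHom q g (UH M H) τ₂)))) := by
    intro τ₁ τ₂
    show locPush q g (UH M H) ((c' : ↥(UH M H) × ↥(UH M H) → gModOn (UH M H))
      (locHom q g (UH M H) τ₁, locHom q g (UH M H) τ₂)) = _
    rw [hc']
    rfl
  apply I.inv_unram q _ hV
  · intro τ₁ τ₂
    rw [hval]
    apply valuation_placeW_eq_one q g M (Units.ne_zero _)
    exact (G.ordAt_eq_zero_iff _ _).1 (hord _ _ (primeSMul_placeW q g M τ₁))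
  · intro τ₁ τ₂ i j hi hj
    rw [hval, hval]
    have e1 : locHom q g (UH M H) (τ₁ * i) =
        locHom q g (UH M H) τ₁ * locHom q g (UH M H) i := map_mul _ _ _
    have e2 : locHom q g (UH M H) (τ₂ * j) =
        locHom q g (UH M H) τ₂ * locHom q g (UH M H) j := map_mul _ _ _
    rw [e1, e2]
    exact congrArg _ (inflC₂_mul_right M H x' _ _ _ _ (conj_loc_mem_U q M hq g hi)
      (conj_loc_mem_U q M hq g hj))
  · intro τ₁ τ₂ i hi
    rw [hval]
    refine (locPush_equivariant q g (UH M H) i _).symm.trans (congrArg _ ?_)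
    refine (incl_equivariant M H _ _).symm.trans (congrArg _ ?_)
    rw [toH_eq_one M H (conj_loc_mem_U q M hq g hi)]
    exact congrFun (congrArg DFunLike.coe (map_one (T.resSub (lvlL M) H).ρ)) _


/-- **FR-REC-UNR** (cocycle form).  For `q ∉ S`, the local invariant at any place above `q` of the
inflation of a finite-level cocycle `x` with `ord_* [x] = 0` vanishes. -/
theorem invAt_eq_zero_of_ord (I : LocalInvSystem) (q : Nat.Primes) (hq : q ∉ S) (g : GQ)
    (x : ↥(cocycles₂ (T.resSub (lvlL M) H)))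
    (hx : h2Sub (G.ordRepHom S M.Gal M.F) H (H2π _ x) = 0)
    (c : ↥(levelCocycles₂ (UH M H).subtype (gModOn (UH M H))))
    (hc : (c : ↥(UH M H) × ↥(UH M H) → gModOn (UH M H)) = inflC₂ M H x) :
    I.invAt q g (UH M H) (continuousH2π _ _ c) = 0 :=
  haveI : Fact (q : ℕ).Prime := ⟨q.2⟩
  inv_locBr_eq_zero_of_ord M H (q : ℕ) g I hq x hx c hc

/-- **FR-REC-UNR** for the canonical inflation `inflZ₂`. -/
theorem invAt_inflZ₂_eq_zero (I : LocalInvSystem) (q : Nat.Primes) (hq : q ∉ S) (g : GQ)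
    (x : ↥(cocycles₂ (T.resSub (lvlL M) H)))
    (hx : h2Sub (G.ordRepHom S M.Gal M.F) H (H2π _ x) = 0) :
    I.invAt q g (UH M H) (continuousH2π _ _ (inflZ₂ M H x)) = 0 :=
  invAt_eq_zero_of_ord M H I q hq g x hx (inflZ₂ M H x) rfl

end Main

end Fermat.Agent.S55.G.Rec.TOW.H724

end
end
-- ===== PACK-END S55/G/Rec/Tow/H724/Unram.lean

-- ===== PACK-BEGIN S55/G/Rec/Loc/H483/UnramClosed.lean
section






/-!
# S55 / G / REC / LOC : LOC-UNR and the inertia toolkit with the closed inputs plugged in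
(helper483)

* `inertiaLift : InertiaLiftSpec`, `unramLevel : UnramLevelSpec` (unconditional);
* `unram_of_descent : DescentSpec → UnramSpec`;
* `unram : UnramSpec` (LOC-UNR, unconditional, with `H894.descent`).
-/

set_option autoImplicit false

namespace Fermat.Agent.S55.G.Rec.Loc.H483

open Fermat.Agent.S55.G.Rec Fermat.Agent.S55.G.Rec.Loc

/-- **LOC-INERT2**, unconditional. -/
theorem inertiaLift : InertiaLiftSpec := inertiaLift_of H478.openSpec

/-- **LOC-INERT3**, unconditional. -/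
theorem unramLevel : UnramLevelSpec := unramLevel_of H478.openSpec

/-- **LOC-UNR** from LOC-DESC. -/
theorem unram_of_descent (hD : _root_.Fermat.Agent.S55.G.Rec.Loc.DescentSpec) : UnramSpec :=
  unram_of H478.openSpec hD H839.up Fermat.Agent.S55.Local.Closed.unramUnitsH2

/-- **LOC-UNR**, unconditional. -/
theorem unram : UnramSpec := unram_of_descent H894.descent

end Fermat.Agent.S55.G.Rec.Loc.H483

end
-- ===== PACK-END S55/G/Rec/Loc/H483/UnramClosed.lean

-- ===== PACK-BEGIN S55/GAD/DescH177/Main.lean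
section


/-!
# S55 / G-ADAPTER, leaf GAD-DESC (helper177): Galois descent for the tower class module

For levels `L ≤ L'` and `S ≠ ∅`, the CANONICAL transition map
`trT h : C(L) → C(L')` (`GAD/Defs.lean`) is injective and its image is exactly the
`Gal(L'/L)`-invariants of `C(L')`:

* `trJD_injective`, `exists_trJD_eq_of_fixed` : the same for `∏_{q ∈ S} J_q × Div^S`;
* `trT_injective`;
* `trT_fixed` : the image is fixed by `Level.relGal h`;
* `exists_trT_eq_of_fixed` : every invariant class is in the image;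
* `mem_range_trT_iff`.


-/

set_option autoImplicit false
set_option linter.unusedSectionVars false
set_option linter.style.haveILetI false

open CategoryTheory

namespace Fermat.Agent.S55.GAD.H177

open Fermat.Agent.S55 Fermat.Agent.S55.Tow Fermat.Agent.S55.E1.H594 Fermat.Agent.S55.G
open Fermat.Agent.S55.GAD

noncomputable section

variable {S : Finset Nat.Primes} {L L' : Level S} (h : L ≤ L')

theorem jdRepr_fst (L : Level S) (g : L.Gal) (y : JDV L) (q : S) :
    (_root_.Fermat.Agent.S55.GAD.jdRepr L g y).1 q = (L.J q.1).ρ g (y.1 q) := rfl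

theorem jdRepr_snd (L : Level S) (g : L.Gal) (y : JDV L) :
    (_root_.Fermat.Agent.S55.GAD.jdRepr L g y).2 = divRepr S L.Gal L.F g y.2 := rfl

theorem trJD_fst (y : JDV L) (q : S) : (trJD h y).1 q = Level.inclJ h q.1 (y.1 q) := rfl

theorem trJD_snd (y : JDV L) : (trJD h y).2 = divTr h y.2 := rfl

theorem trJD_injective : Function.Injective (trJD h) := by
  intro y y' hyy
  refine Prod.ext (funext fun q => ?_) ?_
  · apply inclJ_injective h q.1
    rw [← trJD_fst, ← trJD_fst, hyy]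
  · apply divTr_injective h
    rw [← trJD_snd, ← trJD_snd, hyy]

/-- `(∏ J_q(F') × Div^S(F'))^{Gal(F'/F)} = ∏ J_q(F) × Div^S(F)`. -/
theorem exists_trJD_eq_of_fixed (y : JDV L')
    (hy : ∀ n : L'.Gal, n ∈ Level.relGal h → _root_.Fermat.Agent.S55.GAD.jdRepr L' n y = y) :
    ∃ y₀ : JDV L, trJD h y₀ = y := by
  have h1 : ∀ q : S, ∃ f₀ : (L.J q.1).V, Level.inclJ h q.1 f₀ = y.1 q := fun q =>
    exists_inclJ_eq_of_fixed h q.1 (y.1 q) (fun n hn => by
      rw [← jdRepr_fst, hy n hn])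
  choose f₀ hf₀ using h1
  obtain ⟨d₀, hd₀⟩ := exists_divTr_eq_of_fixed h y.2 (fun n hn => by
    rw [← jdRepr_snd, hy n hn])
  exact ⟨(f₀, d₀), Prod.ext (funext fun q => hf₀ q) hd₀⟩

/-- **GAD-DESC (1).**  The transition map `C(L) → C(L')` is injective. -/
theorem trT_injective (hS : S.Nonempty) : Function.Injective (trT h).hom := by
  rw [injective_iff_map_eq_zero]
  intro c hc
  obtain ⟨y, rfl⟩ := mkC_surjective L c
  rw [trT_mkC, mkC_eq_zero_iff] at hc
  obtain ⟨z, hz⟩ := hc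
  have hzfix : ∀ n : L'.Gal, n ∈ Level.relGal h → L'.units.ρ n z = z := by
    intro n hn
    apply diagT_injective L' hS
    rw [diagT_equivariant, hz, ← trJD_equivariant]
    have : Level.proj h n = 1 := hn
    rw [this, map_one]
    rfl
  obtain ⟨z₀, rfl⟩ := exists_inclUnits_eq_of_fixed h z hzfix
  rw [mkC_eq_zero_iff]
  refine ⟨z₀, ?_⟩
  apply trJD_injective h
  rw [trJD_diagT]
  exact hz

/-- **GAD-DESC (2a).**  The image of `C(L) → C(L')` is fixed by `Gal(L'/L)`. -/
theorem trT_fixed (c : (CT L).V) (n : L'.Gal) (hn : n ∈ Level.relGal h) :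
    (CT L').ρ n ((trT h).hom c) = (trT h).hom c := by
  obtain ⟨y, rfl⟩ := mkC_surjective L c
  rw [trT_mkC, CT_ρ_mkC, ← trJD_equivariant]
  have : Level.proj h n = 1 := hn
  rw [this, map_one]
  rfl

/-- **GAD-DESC (2b).**  Every `Gal(L'/L)`-invariant class of `C(L')` comes from `C(L)`. -/
theorem exists_trT_eq_of_fixed (hS : S.Nonempty) (c : (CT L').V)
    (hc : ∀ n : L'.Gal, n ∈ Level.relGal h → (CT L').ρ n c = c) :
    ∃ c₀ : (CT L).V, (trT h).hom c₀ = c := by
  obtain ⟨y', rfl⟩ := mkC_surjective L' c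
  have key : ∀ n : Level.relGal h, ∃ z : L'.units.V,
      diagT L' z = _root_.Fermat.Agent.S55.GAD.jdRepr L' (n : L'.Gal) y' - y' := by
    intro n
    have h1 := hc n.1 n.2
    rw [CT_ρ_mkC, ← sub_eq_zero, ← map_sub] at h1
    exact (mkC_eq_zero_iff L' _).1 h1
  choose z hz using key
  have hcoc : ∀ n m : Level.relGal h, z (n * m) = z n + L'.units.ρ (n : L'.Gal) (z m) := by
    intro n m
    apply diagT_injective L' hS
    rw [map_add, diagT_equivariant, hz, hz, hz, Subgroup.coe_mul, map_mul, map_sub]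
    change _root_.Fermat.Agent.S55.GAD.jdRepr L' (n : L'.Gal) (_root_.Fermat.Agent.S55.GAD.jdRepr L' (m : L'.Gal) y') - y' = _
    abel
  obtain ⟨w, hw⟩ := hilbert90_units h z hcoc
  have hfix : ∀ n : L'.Gal, n ∈ Level.relGal h →
      _root_.Fermat.Agent.S55.GAD.jdRepr L' n (y' - diagT L' w) = y' - diagT L' w := by
    intro n hn
    have h1 := hz ⟨n, hn⟩
    have h2 := hw ⟨n, hn⟩
    rw [h2, map_sub, diagT_equivariant] at h1
    change _root_.Fermat.Agent.S55.GAD.jdRepr L' n (diagT L' w) - diagT L' w = _root_.Fermat.Agent.S55.GAD.jdRepr L' n y' - y' at h1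
    rw [map_sub, sub_eq_sub_iff_add_eq_add]
    rw [sub_eq_sub_iff_add_eq_add] at h1
    rw [← h1, add_comm]
  obtain ⟨y₀, hy₀⟩ := exists_trJD_eq_of_fixed h _ hfix
  refine ⟨mkC L y₀, ?_⟩
  rw [trT_mkC, hy₀, map_sub, mkC_diagT, sub_zero]

/-- **GAD-DESC.**  The image of the transition map `C(L) → C(L')` is exactly the
`Gal(L'/L)`-invariants. -/
theorem mem_range_trT_iff (hS : S.Nonempty) (c : (CT L').V) :
    (∀ n : L'.Gal, n ∈ Level.relGal h → (CT L').ρ n c = c) ↔ ∃ c₀ : (CT L).V, (trT h).hom c₀ = c :=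
  ⟨exists_trT_eq_of_fixed h hS c, by
    rintro ⟨c₀, rfl⟩ n hn
    exact trT_fixed h c₀ n hn⟩

end

end Fermat.Agent.S55.GAD.H177

end
-- ===== PACK-END S55/GAD/DescH177/Main.lean

-- ===== PACK-BEGIN S56/H419/H0Orbit.lean
section


/-!
# S56 / W-BASE / leaf EUL-H0, part 3 (helper419): double cosets as an orbit

Abstract dictionary.  `U ◁ G`, `π : G → Ḡ` a surjection with kernel `U`, `Ḡ` acting on `Z`,
`y₀ : Z` with `Stab(y₀) = π(D)` for a subgroup `D ≤ G`.  Then

  `dcToOrbit : D\G/U → Z`,  `D g U ↦ (π g)⁻¹ • y₀`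

is injective (`dcToOrbit_injective`), its range is the orbit of `y₀` (`range_dcToOrbit`), and
right translation by `σ⁻¹` on double cosets becomes the action of `π σ`
(`dcToOrbit_dcPerm`).  `dcOrbitEquiv` packages this as an equivalence `D\G/U ≃ orbit Ḡ y₀`.
-/

set_option autoImplicit false
set_option linter.style.haveILetI false

noncomputable section

namespace Fermat.Agent.S56.H419

open MulAction

section Orbit

variable {G : Type} [Group G] (D U : Subgroup G) [U.Normal]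
  {Gb : Type*} [Group Gb] (π : G →* Gb) (hker : π.ker = U)
  {Z : Type*} [MulAction Gb Z] (y₀ : Z)

/-- `π` on `G ⧸ U`. -/
def quotHom : G ⧸ U →* Gb := QuotientGroup.lift U π (le_of_eq hker.symm)

@[simp] theorem quotHom_mk (g : G) : quotHom U π hker (g : G ⧸ U) = π g := rfl

theorem quotHom_smul (g : G) (x : G ⧸ U) :
    quotHom U π hker (g • x) = π g * quotHom U π hker x := by
  rw [smul_eq_mk_mul, map_mul, quotHom_mk]

theorem quotHom_injective : Function.Injective (quotHom U π hker) := by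
  rw [injective_iff_map_eq_one]
  intro x hx
  induction x using QuotientGroup.induction_on with
  | H g =>
    rw [quotHom_mk] at hx
    have hg : g ∈ U := by rw [← hker]; exact hx
    exact (QuotientGroup.eq_one_iff g).2 hg

theorem quotHom_surjective (hsurj : Function.Surjective π) :
    Function.Surjective (quotHom U π hker) := by
  intro τ
  obtain ⟨g, rfl⟩ := hsurj τ
  exact ⟨(g : G ⧸ U), rfl⟩

variable (hstab : D.map π = stabilizer Gb y₀)

include hstab in
theorem dcToOrbit_aux (x y : G ⧸ U) (h : (orbitRel D (G ⧸ U)).r x y) :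
    (quotHom U π hker x)⁻¹ • y₀ = (quotHom U π hker y)⁻¹ • y₀ := by
  obtain ⟨d, rfl⟩ := h
  have hd : π d.1 ∈ stabilizer Gb y₀ := by
    rw [← hstab]
    exact Subgroup.mem_map_of_mem π d.2
  have hd' : (π d.1)⁻¹ • y₀ = y₀ := by
    rw [inv_smul_eq_iff]
    exact (mem_stabilizer_iff.1 hd).symm
  show (quotHom U π hker (d.1 • y))⁻¹ • y₀ = _
  rw [quotHom_smul, mul_inv_rev, mul_smul, hd']

/-- `D g U ↦ (π g)⁻¹ • y₀`. -/
def dcToOrbit : DC D U → Z :=
  Quotient.lift (s := orbitRel D (G ⧸ U)) (fun x : G ⧸ U => (quotHom U π hker x)⁻¹ • y₀)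
    (dcToOrbit_aux D U π hker y₀ hstab)

@[simp] theorem dcToOrbit_mk (x : G ⧸ U) :
    dcToOrbit D U π hker y₀ hstab (Quotient.mk (orbitRel D (G ⧸ U)) x) =
      (quotHom U π hker x)⁻¹ • y₀ := rfl

theorem dcToOrbit_mk_mk (g : G) :
    dcToOrbit D U π hker y₀ hstab (Quotient.mk (orbitRel D (G ⧸ U)) (g : G ⧸ U)) =
      (π g)⁻¹ • y₀ := rfl

/-- **Equivariance.** Right translation by `σ⁻¹` on `D\G/U` is the action of `π σ`. -/
theorem dcToOrbit_dcPerm (σ : G) (ω : DC D U) :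
    dcToOrbit D U π hker y₀ hstab (dcPerm D U σ ω) =
      π σ • dcToOrbit D U π hker y₀ hstab ω := by
  induction ω using Quotient.inductionOn with
  | h x =>
    rw [dcPerm_mk, dcToOrbit_mk, dcToOrbit_mk, map_mul, map_inv, quotHom_mk, mul_inv_rev, inv_inv,
      mul_smul]

theorem dcToOrbit_injective : Function.Injective (dcToOrbit D U π hker y₀ hstab) := by
  intro ω ω' h
  induction ω using Quotient.inductionOn with
  | h x =>
    induction ω' using Quotient.inductionOn with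
    | h y =>
      rw [dcToOrbit_mk, dcToOrbit_mk] at h
      have h1 : (quotHom U π hker x * (quotHom U π hker y)⁻¹) • y₀ = y₀ := by
        rw [mul_smul, ← h, smul_inv_smul]
      have h2 : quotHom U π hker x * (quotHom U π hker y)⁻¹ ∈ D.map π := by
        rw [hstab]
        exact mem_stabilizer_iff.2 h1
      obtain ⟨d, hd, hdπ⟩ := h2
      apply Quotient.sound
      refine ⟨⟨d, hd⟩, ?_⟩
      show d • y = x
      apply quotHom_injective U π hker
      rw [quotHom_smul, hdπ, inv_mul_cancel_right]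

theorem dcToOrbit_mem_orbit (ω : DC D U) :
    dcToOrbit D U π hker y₀ hstab ω ∈ orbit Gb y₀ := by
  induction ω using Quotient.inductionOn with
  | h x => exact ⟨(quotHom U π hker x)⁻¹, rfl⟩

theorem range_dcToOrbit (hsurj : Function.Surjective π) :
    Set.range (dcToOrbit D U π hker y₀ hstab) = orbit Gb y₀ := by
  ext z
  constructor
  · rintro ⟨ω, rfl⟩
    exact dcToOrbit_mem_orbit D U π hker y₀ hstab ω
  · rintro ⟨τ, rfl⟩
    obtain ⟨g, hg⟩ := hsurj τ⁻¹
    refine ⟨Quotient.mk (orbitRel D (G ⧸ U)) (g : G ⧸ U), ?_⟩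
    rw [dcToOrbit_mk_mk, hg, inv_inv]

/-- **Double cosets = orbit.** -/
def dcOrbitEquiv (hsurj : Function.Surjective π) : DC D U ≃ ↥(orbit Gb y₀) :=
  Equiv.ofBijective
    (fun ω => ⟨dcToOrbit D U π hker y₀ hstab ω, dcToOrbit_mem_orbit D U π hker y₀ hstab ω⟩)
    ⟨fun ω ω' h => dcToOrbit_injective D U π hker y₀ hstab (congrArg Subtype.val h),
      fun z => by
        have hz : z.1 ∈ Set.range (dcToOrbit D U π hker y₀ hstab) := by
          rw [range_dcToOrbit D U π hker y₀ hstab hsurj]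
          exact z.2
        obtain ⟨ω, hω⟩ := hz
        exact ⟨ω, Subtype.ext hω⟩⟩

@[simp] theorem coe_dcOrbitEquiv (hsurj : Function.Surjective π) (ω : DC D U) :
    (dcOrbitEquiv D U π hker y₀ hstab hsurj ω : Z) = dcToOrbit D U π hker y₀ hstab ω := rfl

include hker hstab in
/-- The number of double cosets is the cardinality of the orbit. -/
theorem card_DC_eq (hsurj : Function.Surjective π) :
    Nat.card (DC D U) = Nat.card ↥(orbit Gb y₀) :=
  Nat.card_congr (dcOrbitEquiv D U π hker y₀ hstab hsurj)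

end Orbit

end Fermat.Agent.S56.H419

end

end
-- ===== PACK-END S56/H419/H0Orbit.lean

-- ===== PACK-BEGIN S56/H486/FlatTame.lean
section
/-
S56 / FLAT-O leaf FT (helper486): `flatTame : FlatTameStatement` (verbatim target of
`S56/H906/FlatOSpec.lean`).

If inertia at `P ∣ p` acts on a nonzero point `x` of a flat module `M` killed by `p` (`p` odd)
through scalars, then it acts trivially or through the cyclotomic character.

Proof (blueprint `coord/S56-FLATO-helper906.md`, (FT)).  Let `M⁰` be the kernel of reduction.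
* `x ∉ M⁰`: `τ x - x ∈ M⁰` for `τ` in inertia, and `M⁰` is stable under multiples, so the scalar
  is `1`.
* `x ∈ M⁰`: the product over the inertia orbit of `x` of `f - f 0` is inertia-fixed, hence has
  valuation in `v(p)^ℤ` (UNR), so `v(f x - f 0)^(p-1) ≤ v(p)`; by Lemma (A) equality holds for
  a coordinate `f` of maximal valuation, i.e. `v(f x - f 0) = v(ζ - 1)`; Newton's expansion gives
  `f(n x) - f 0 ≡ n (f x - f 0)` modulo `(ζ - 1)²`, and comparing with
  `τ(w (ζ - 1)) ≡ a w (ζ - 1)` modulo `(ζ - 1) 𝔪_P` gives `n ≡ a` modulo `p`.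

Inputs (on main): `H906.lemmaA` (+ its difference calculus), `H66.unrVal`,
`S14/H894/Cyclo` (`v(p) = v(ζ - 1)^(p-1)`), `A2/H708/Tame` (inertia and valuations),
`S19/H435` (Hopf lattices).
-/





set_option autoImplicit false
set_option linter.style.haveILetI false
set_option linter.unusedSectionVars false

noncomputable section

namespace Fermat.Agent.S56.H486

open Fermat.Agent.S56 Fermat.Agent.S56.H906

section FT

variable {p : ℕ} [Fact p.Prime] {M : Type} [AddCommGroup M] {act : GQ → M → M}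
  {Λ : Subalgebra (Zp p) (M → Qb)} (P : ValuationSubring Qb)

/-- The Galois action of a Hopf lattice is compatible with multiples. -/
theorem ft_act_nsmul (hΛ : IsHL p act Λ) (σ : GQ) (n : ℕ) (x : M) :
    act σ (n • x) = n • act σ x := by
  induction n with
  | zero => rw [zero_smul, zero_smul]; exact Fermat.Agent.S19.H435.IsHopfLattice.act_zero hΛ σ
  | succ n ih =>
    rw [succ_nsmul, succ_nsmul, Fermat.Agent.S19.H435.IsHopfLattice.act_add hΛ, ih]

/-- The Galois action of a Hopf lattice is an action. -/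
theorem ft_act_mul (hΛ : IsHL p act Λ) (σ τ : GQ) (x : M) :
    act (σ * τ) x = act σ (act τ x) := by
  by_contra hne
  obtain ⟨f, hf, hfne⟩ := hΛ.separates _ _ hne
  apply hfne
  rw [hΛ.equivariant f hf (σ * τ), hΛ.equivariant f hf σ, hΛ.equivariant f hf τ]
  rfl

/-- The kernel of reduction, as a predicate. -/
def ftRed (Λ : Subalgebra (Zp p) (M → Qb)) (z : M) : Prop :=
  ∀ f ∈ Λ, P.valuation (f z - f 0) < 1

/-- The kernel of reduction is stable under addition. -/
theorem ftRed_add (hΛ : IsHL p act Λ) (hP : P.LiesOverPrime p) {z w : M}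
    (hz : ftRed P Λ z) (hw : ftRed P Λ w) : ftRed P Λ (z + w) := by
  intro f hf
  obtain ⟨n, a, b, ha, hb, hab⟩ := hΛ.comul_mem f hf
  have h0 := hab 0 0
  rw [add_zero] at h0
  have h1 : f (z + w) - f 0 =
      ∑ k, ((a k z - a k 0) * b k w + a k 0 * (b k w - b k 0)) := by
    rw [hab z w, h0, ← Finset.sum_sub_distrib]
    exact Finset.sum_congr rfl fun k _ => by ring
  rw [h1]
  refine Valuation.map_sum_lt _ one_ne_zero fun k _ => ?_
  refine lt_of_le_of_lt (Valuation.map_add _ _ _) (max_lt ?_ ?_)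
  · rw [map_mul]
    have hb1 : P.valuation (b k w) ≤ 1 :=
      (P.valuation_le_one_iff _).mpr (apply_mem P hΛ hP (hb k) w)
    calc P.valuation (a k z - a k 0) * P.valuation (b k w)
        ≤ P.valuation (a k z - a k 0) * 1 := by gcongr
      _ = P.valuation (a k z - a k 0) := mul_one _
      _ < 1 := hz _ (ha k)
  · rw [map_mul]
    have ha1 : P.valuation (a k 0) ≤ 1 :=
      (P.valuation_le_one_iff _).mpr (apply_mem P hΛ hP (ha k) 0)
    calc P.valuation (a k 0) * P.valuation (b k w - b k 0)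
        ≤ 1 * P.valuation (b k w - b k 0) := by gcongr
      _ = P.valuation (b k w - b k 0) := one_mul _
      _ < 1 := hw _ (hb k)

/-- The kernel of reduction is stable under multiples. -/
theorem ftRed_nsmul (hΛ : IsHL p act Λ) (hP : P.LiesOverPrime p) {z : M}
    (hz : ftRed P Λ z) (n : ℕ) : ftRed P Λ (n • z) := by
  induction n with
  | zero =>
    intro f _
    rw [zero_smul, sub_self, map_zero]
    exact zero_lt_one
  | succ n ih =>
    rw [succ_nsmul]
    exact ftRed_add P hΛ hP ih hz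

/-- Inertia acts trivially modulo the kernel of reduction. -/
theorem ftRed_act_sub (hΛ : IsHL p act Λ) (hP : P.LiesOverPrime p) {τ : GQ}
    (hτ : τ ∈ P.inertiaSubgroupIn ℚ) (x : M) : ftRed P Λ (act τ x - x) := by
  intro f hf
  obtain ⟨n, a, b, ha, hb, hab⟩ := hΛ.comul_mem f hf
  have h0 := hab x (-x)
  rw [add_neg_cancel] at h0
  have h1 : f (act τ x - x) - f 0 = ∑ k, (τ (a k x) - a k x) * b k (-x) := by
    rw [sub_eq_add_neg (act τ x) x, hab (act τ x) (-x), h0, ← Finset.sum_sub_distrib]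
    refine Finset.sum_congr rfl fun k _ => ?_
    rw [hΛ.equivariant _ (ha k) τ x]
    ring
  rw [h1]
  refine Valuation.map_sum_lt _ one_ne_zero fun k _ => ?_
  rw [map_mul]
  have hb1 : P.valuation (b k (-x)) ≤ 1 :=
    (P.valuation_le_one_iff _).mpr (apply_mem P hΛ hP (hb k) (-x))
  have ha1 : P.valuation (τ (a k x) - a k x) < 1 :=
    (ValuationSubring.mem_nonunits_iff (A := P)).mp
      (Fermat.Agent.A2.H708.sub_mem_nonunits_of_mem_inertiaIn P hτ (apply_mem P hΛ hP (ha k) x))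
  calc P.valuation (τ (a k x) - a k x) * P.valuation (b k (-x))
      ≤ P.valuation (τ (a k x) - a k x) * 1 := by gcongr
    _ = P.valuation (τ (a k x) - a k x) := mul_one _
    _ < 1 := ha1


/-- The identity acts trivially. -/
theorem ft_act_one (hΛ : IsHL p act Λ) (x : M) : act 1 x = x := by
  by_contra hne
  obtain ⟨f, hf, hfne⟩ := hΛ.separates _ _ hne
  apply hfne
  rw [hΛ.equivariant f hf 1]
  rfl

/-- Multiples of `x` only depend on the multiplier modulo `p`. -/
theorem ft_mod_nsmul {x : M} (hpx : p • x = 0) (n : ℕ) : (n % p) • x = n • x := by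
  conv_rhs => rw [← Nat.div_add_mod n p]
  rw [add_smul, mul_comm, mul_smul, hpx, smul_zero, zero_add]

/-- **Case `x ∉ M⁰`**: inertia fixes `x`. -/
theorem ft_case_one (hΛ : IsHL p act Λ) (hP : P.LiesOverPrime p) (hM : ∀ x : M, p • x = 0)
    {x : M} (hx : ¬ ftRed P Λ x) {τ : GQ} (hτ : τ ∈ P.inertiaSubgroupIn ℚ) {n : ℕ}
    (hn : act τ x = n • x) : act τ x = x := by
  by_contra hne
  apply hx
  letI : Module (ZMod p) M := AddCommGroup.zmodModule hM
  have hz := ftRed_act_sub P hΛ hP hτ x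
  set c : ZMod p := (n : ZMod p) - 1 with hc
  have hcx : act τ x - x = c • x := by
    rw [hn, hc, sub_smul, one_smul, Nat.cast_smul_eq_nsmul]
  have hc0 : c ≠ 0 := by
    intro h0
    apply hne
    rw [h0, zero_smul, sub_eq_zero] at hcx
    exact hcx
  have hx' : x = (c⁻¹).val • (act τ x - x) := by
    rw [hcx, ← Nat.cast_smul_eq_nsmul (ZMod p), ZMod.natCast_zmod_val, smul_smul,
      inv_mul_cancel₀ hc0, one_smul]
  rw [hx']
  exact ftRed_nsmul P hΛ hP hz _

/-- **Case `x ∈ M⁰`, step 1** (orbit product + UNR): `v(f x - f 0)^(p-1) ≤ v(p)`. -/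
theorem ft_pow_le (hU : UnrValStatement) [Finite M] (hΛ : IsHL p act Λ)
    (hP : P.LiesOverPrime p) (hM : ∀ x : M, p • x = 0) {x : M} (hx0 : x ≠ 0)
    (hx : ftRed P Λ x) (hsc : ∀ τ ∈ P.inertiaSubgroupIn ℚ, ∃ n : ℕ, act τ x = n • x)
    {f : M → Qb} (hf : f ∈ Λ) :
    P.valuation (f x - f 0) ^ (p - 1) ≤ P.valuation (p : Qb) := by
  classical
  have hp : p.Prime := Fact.out
  haveI : Fintype M := Fintype.ofFinite M
  haveI : Algebra.IsAlgebraic ℚ Qb := AlgebraicClosure.isAlgebraic ℚ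
  set y := f x - f 0 with hy
  by_cases hy0 : y = 0
  · rw [hy0, map_zero, zero_pow (by have := hp.two_le; omega)]
    exact zero_le
  -- the inertia orbit of `x`
  let S : Finset M := Finset.univ.filter (fun z => ∃ τ ∈ P.inertiaSubgroupIn ℚ, act τ x = z)
  have hS : ∀ z, z ∈ S ↔ ∃ τ ∈ P.inertiaSubgroupIn ℚ, act τ x = z := by
    intro z
    simp [S]
  have hxS : x ∈ S := (hS x).2 ⟨1, one_mem _, ft_act_one hΛ x⟩
  have hact : ∀ (σ : GQ) (z : M), f (act σ z) - f 0 = σ (f z - f 0) := by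
    intro σ z
    rw [map_sub, ← hΛ.equivariant f hf σ z, ← hΛ.equivariant f hf σ 0,
      Fermat.Agent.S19.H435.IsHopfLattice.act_zero hΛ σ]
  -- valuation of each factor
  have hval : ∀ z ∈ S, P.valuation (f z - f 0) = P.valuation y := by
    intro z hz
    obtain ⟨τ, hτ, rfl⟩ := (hS z).1 hz
    rw [hact τ x]
    exact Fermat.Agent.A2.H708.valuation_apply_of_mem_decomposition P
      (Fermat.Agent.A2.H708.mem_decomposition_of_mem_inertiaIn P hτ) y
  have hNv : P.valuation (∏ z ∈ S, (f z - f 0)) = P.valuation y ^ S.card := by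
    rw [map_prod, Finset.prod_congr rfl hval, Finset.prod_const]
  have hN0 : (∏ z ∈ S, (f z - f 0)) ≠ 0 := by
    rw [← Valuation.ne_zero_iff P.valuation, hNv]
    exact pow_ne_zero _ ((Valuation.ne_zero_iff _).mpr hy0)
  -- the product is fixed by inertia
  have hNfix : ∀ σ ∈ P.inertiaSubgroupIn ℚ, σ (∏ z ∈ S, (f z - f 0)) = ∏ z ∈ S, (f z - f 0) := by
    intro σ hσ
    rw [map_prod]
    refine Finset.prod_bij' (fun z _ => act σ z) (fun z _ => act σ⁻¹ z) ?_ ?_ ?_ ?_ ?_
    · intro z hz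
      obtain ⟨τ, hτ, rfl⟩ := (hS z).1 hz
      exact (hS _).2 ⟨σ * τ, mul_mem hσ hτ, ft_act_mul hΛ σ τ x⟩
    · intro z hz
      obtain ⟨τ, hτ, rfl⟩ := (hS z).1 hz
      exact (hS _).2 ⟨σ⁻¹ * τ, mul_mem (inv_mem hσ) hτ, ft_act_mul hΛ σ⁻¹ τ x⟩
    · intro z _
      exact Fermat.Agent.S19.H435.IsHopfLattice.act_inv_act hΛ σ z
    · intro z _
      exact Fermat.Agent.S19.H435.IsHopfLattice.act_act_inv hΛ σ z
    · intro z _
      exact (hact σ z).symm
  obtain ⟨m, hm⟩ := hU p hp P hP _ hN0 hNfix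
  have hvp : P.valuation (p : Qb) < 1 := (ValuationSubring.mem_nonunits_iff (A := P)).mp hP
  have hvp0 : P.valuation (p : Qb) ≠ 0 :=
    (Valuation.ne_zero_iff _).mpr (by exact_mod_cast hp.ne_zero)
  have hy1 : P.valuation y < 1 := hx f hf
  have hcard : 0 < S.card := Finset.card_pos.mpr ⟨x, hxS⟩
  have hN1 : P.valuation (∏ z ∈ S, (f z - f 0)) < 1 := by
    rw [hNv]
    exact pow_lt_one₀ zero_le hy1 hcard.ne'
  have hm1 : 1 ≤ m := by
    by_contra hcon
    have hm0 : m ≤ 0 := by omega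
    have h1 : 1 ≤ P.valuation (p : Qb) ^ m :=
      one_le_zpow_of_nonpos₀ (zero_lt_iff.mpr hvp0) hvp.le hm0
    rw [← hm] at h1
    exact absurd h1 (not_le.mpr hN1)
  have hNp : P.valuation (∏ z ∈ S, (f z - f 0)) ≤ P.valuation (p : Qb) := by
    rw [hm]
    calc P.valuation (p : Qb) ^ m ≤ P.valuation (p : Qb) ^ (1 : ℤ) :=
          zpow_le_zpow_right_of_le_one₀ (zero_lt_iff.mpr hvp0) hvp.le hm1
      _ = P.valuation (p : Qb) := zpow_one _
  -- the orbit has at most `p - 1` elements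
  have hScard : S.card ≤ p - 1 := by
    have hsub : S ⊆ (Finset.Ico 1 p).image (fun n : ℕ => n • x) := by
      intro z hz
      obtain ⟨τ, hτ, rfl⟩ := (hS z).1 hz
      obtain ⟨n, hn⟩ := hsc τ hτ
      rw [Finset.mem_image]
      refine ⟨n % p, ?_, ?_⟩
      · rw [Finset.mem_Ico]
        refine ⟨?_, Nat.mod_lt _ hp.pos⟩
        by_contra h0
        have h0' : n % p = 0 := by omega
        have h1 : act τ x = 0 := by
          rw [hn, ← ft_mod_nsmul (hM x) n, h0', zero_smul]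
        apply hx0
        have h2 := Fermat.Agent.S19.H435.IsHopfLattice.act_inv_act hΛ τ x
        rw [h1, Fermat.Agent.S19.H435.IsHopfLattice.act_zero hΛ] at h2
        exact h2.symm
      · show (n % p) • x = act τ x
        rw [hn, ft_mod_nsmul (hM x) n]
    calc S.card ≤ ((Finset.Ico 1 p).image (fun n : ℕ => n • x)).card := Finset.card_le_card hsub
      _ ≤ (Finset.Ico 1 p).card := Finset.card_image_le
      _ = p - 1 := Nat.card_Ico 1 p
  calc P.valuation y ^ (p - 1) ≤ P.valuation y ^ S.card :=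
        pow_le_pow_of_le_one zero_le hy1.le hScard
    _ = P.valuation (∏ z ∈ S, (f z - f 0)) := hNv.symm
    _ ≤ P.valuation (p : Qb) := hNp

/-- **Step 2**: a coordinate difference of maximal valuation. -/
theorem ft_exists_max (hΛ : IsHL p act Λ) (hP : P.LiesOverPrime p) {x : M} (hx0 : x ≠ 0) :
    ∃ f ∈ Λ, f x - f 0 ≠ 0 ∧
      ∀ g ∈ Λ, P.valuation (g x - g 0) ≤ P.valuation (f x - f 0) := by
  have hp : p.Prime := Fact.out
  obtain ⟨f₀, hf₀, hne⟩ := hΛ.separates x 0 hx0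
  obtain ⟨n, e, he, -, -, hexp⟩ := Fermat.Agent.S19.H435.IsHopfLattice.exists_basis hΛ
  have hcoord : ∀ g ∈ Λ, ∃ c : Fin n → Zp p,
      g x - g 0 = ∑ i, algebraMap (Zp p) Qb (c i) * (e i x - e i 0) := by
    intro g hg
    obtain ⟨c, hc⟩ := hexp g hg
    refine ⟨c, ?_⟩
    have h1 : ∀ y : M, g y = ∑ i, algebraMap (Zp p) Qb (c i) * e i y := by
      intro y
      rw [hc, Finset.sum_apply]
      refine Finset.sum_congr rfl fun i _ => ?_
      rw [Pi.smul_apply, Algebra.smul_def]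
    rw [h1 x, h1 0, ← Finset.sum_sub_distrib]
    exact Finset.sum_congr rfl fun i _ => by ring
  have hex : ∃ i, e i x - e i 0 ≠ 0 := by
    by_contra hcon
    push Not at hcon
    obtain ⟨c, hc⟩ := hcoord f₀ hf₀
    apply hne
    rw [← sub_eq_zero, hc]
    exact Finset.sum_eq_zero fun i _ => by rw [hcon i, mul_zero]
  obtain ⟨i₁, hi₁⟩ := hex
  obtain ⟨i₀, -, hi₀⟩ := Finset.exists_max_image Finset.univ
    (fun i => P.valuation (e i x - e i 0)) ⟨i₁, Finset.mem_univ _⟩
  refine ⟨e i₀, he i₀, ?_, ?_⟩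
  · intro h0
    have h1 := hi₀ i₁ (Finset.mem_univ _)
    rw [h0, map_zero] at h1
    exact hi₁ ((Valuation.zero_iff P.valuation).mp (le_antisymm h1 zero_le))
  · intro g hg
    obtain ⟨c, hc⟩ := hcoord g hg
    rw [hc]
    refine Valuation.map_sum_le _ fun i _ => ?_
    rw [map_mul]
    calc P.valuation (algebraMap (Zp p) Qb (c i)) * P.valuation (e i x - e i 0)
        ≤ 1 * P.valuation (e i x - e i 0) := by
          gcongr
          exact (ValuationSubring.valuation_le_one_iff P _).mpr (zp_mem P hp hP (c i))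
      _ = P.valuation (e i x - e i 0) := one_mul _
      _ ≤ P.valuation (e i₀ x - e i₀ 0) := hi₀ i (Finset.mem_univ _)

/-- **Step 3** (Newton, leading term): `f (n x) - f 0 ≡ n (f x - f 0)` modulo `μ²`. -/
theorem ft_leading (hΛ : IsHL p act Λ) (hP : P.LiesOverPrime p) {x : M} {f : M → Qb}
    (hf : f ∈ Λ) (μ : Qb) (hμ : μ ≠ 0) (hμ1 : P.valuation μ ≤ 1)
    (hle : ∀ g ∈ Λ, P.valuation (g x - g 0) ≤ P.valuation μ) (n : ℕ) :
    P.valuation (f (n • x) - f 0 - (n : Qb) * (f x - f 0)) ≤ P.valuation μ ^ 2 := by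
  rcases Nat.eq_zero_or_pos n with rfl | hn
  · rw [zero_smul, sub_self, Nat.cast_zero, zero_mul, sub_self, map_zero]
    exact zero_le
  obtain ⟨q, rfl⟩ : ∃ q, n = q + 1 := ⟨n - 1, by omega⟩
  have hN := sum_choose_delta x (q + 1) f
  rw [Finset.sum_range_succ', Finset.sum_range_succ'] at hN
  simp only [Nat.choose_zero_right, Nat.cast_one, pow_zero, Module.End.one_apply, one_mul,
    zero_add, Nat.choose_one_right, pow_one] at hN
  have hd1 : delta x f 0 = f x - f 0 := by rw [delta_apply, zero_add]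
  rw [hd1] at hN
  have hsum : f ((q + 1) • x) - f 0 - ((q + 1 : ℕ) : Qb) * (f x - f 0) =
      ∑ k ∈ Finset.range q,
        (((q + 1).choose (k + 1 + 1) : ℕ) : Qb) * (delta x ^ (k + 1 + 1)) f 0 := by
    rw [hN]
    ring
  rw [hsum]
  refine Valuation.map_sum_le _ fun k _ => ?_
  obtain ⟨G, hG, hG'⟩ := delta_pow_mem P hΛ x μ hμ hle (k + 1 + 1) (subset_pspan P hf)
  have hG0 : P.valuation (G 0) ≤ 1 :=
    (P.valuation_le_one_iff _).mpr (pspan_apply_mem P hΛ hP hG 0)
  have hc1 : P.valuation ((((q + 1).choose (k + 1 + 1) : ℕ) : Qb)) ≤ 1 :=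
    (P.valuation_le_one_iff _).mpr (natCast_mem P _)
  rw [hG', Pi.smul_apply, smul_eq_mul, map_mul, map_mul, map_pow]
  calc P.valuation ((((q + 1).choose (k + 1 + 1) : ℕ) : Qb)) *
        (P.valuation μ ^ (k + 1 + 1) * P.valuation (G 0))
      ≤ 1 * (P.valuation μ ^ (k + 1 + 1) * 1) := by gcongr
    _ = P.valuation μ ^ (k + 1 + 1) := by rw [one_mul, mul_one]
    _ ≤ P.valuation μ ^ 2 := pow_le_pow_of_le_one zero_le hμ1 (by omega)


/-- **Case `x ∈ M⁰`**: inertia acts on `x` through the cyclotomic character. -/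
theorem ft_case_two (hU : UnrValStatement) (hA : LemmaAStatement) [Finite M]
    (hΛ : IsHL p act Λ) (hP : P.LiesOverPrime p) (hM : ∀ x : M, p • x = 0) {x : M}
    (hx0 : x ≠ 0) (hx : ftRed P Λ x)
    (hsc : ∀ τ ∈ P.inertiaSubgroupIn ℚ, ∃ n : ℕ, act τ x = n • x)
    {τ : GQ} (hτ : τ ∈ P.inertiaSubgroupIn ℚ) {a : ℕ} (ha : IsCycExp p τ a) :
    act τ x = a • x := by
  have hp : p.Prime := Fact.out
  haveI : Algebra.IsAlgebraic ℚ Qb := AlgebraicClosure.isAlgebraic ℚ
  obtain ⟨n, hn⟩ := hsc τ hτ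
  obtain ⟨f, hf, hy0, hmax⟩ := ft_exists_max P hΛ hP hx0
  -- `v(y)^(p-1) = v(p)` for `y = f x - f 0`
  have hle : P.valuation (f x - f 0) ^ (p - 1) ≤ P.valuation (p : Qb) :=
    ft_pow_le P hU hΛ hP hM hx0 hx hsc hf
  have hge : P.valuation (p : Qb) ≤ P.valuation (f x - f 0) ^ (p - 1) := by
    by_contra hcon
    rw [not_le] at hcon
    exact hx0 (hA p M act Λ hΛ P hP x (f x - f 0) (hM x) hcon hmax)
  have heq : P.valuation (f x - f 0) ^ (p - 1) = P.valuation (p : Qb) := le_antisymm hle hge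
  -- a primitive `p`-th root of unity
  obtain ⟨ζ, hζ⟩ := HasEnoughRootsOfUnity.exists_primitiveRoot Qb p
  have hπ : P.valuation (p : Qb) = P.valuation (ζ - 1) ^ (p - 1) :=
    Fermat.Agent.S14.H894.valuation_natCast_eq_pow P p hp ζ hζ
  have hyπ : P.valuation (f x - f 0) = P.valuation (ζ - 1) :=
    (pow_left_inj₀ zero_le zero_le (by have := hp.two_le; omega)).mp (heq.trans hπ)
  have hπ1 : P.valuation (ζ - 1) < 1 :=
    Fermat.Agent.S14.H894.valuation_zeta_sub_one_lt_one P p hp hP ζ hζ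
  have hπ0 : P.valuation (ζ - 1) ≠ 0 :=
    Fermat.Agent.S14.H894.valuation_zeta_sub_one_ne_zero P p hp ζ hζ
  have hπne : ζ - 1 ≠ 0 := (Valuation.ne_zero_iff _).mp hπ0
  have hπpos : 0 < P.valuation (ζ - 1) := zero_lt_iff.mpr hπ0
  -- `τ y = f (n x) - f 0`
  have hτy : τ (f x - f 0) = f (n • x) - f 0 := by
    rw [map_sub, ← hΛ.equivariant f hf τ x, ← hΛ.equivariant f hf τ 0,
      Fermat.Agent.S19.H435.IsHopfLattice.act_zero hΛ τ, hn]
  -- (1) `τ y ≡ n y` modulo `π²`
  have h1 : P.valuation (τ (f x - f 0) - (n : Qb) * (f x - f 0)) ≤ P.valuation (ζ - 1) ^ 2 := by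
    rw [hτy, ← hyπ]
    exact ft_leading P hΛ hP hf (f x - f 0) hy0 (hx f hf).le hmax n
  -- (2) `τ y ≡ a y` modulo `π 𝔪`
  have hwv : P.valuation ((f x - f 0) / (ζ - 1)) = 1 := by
    rw [map_div₀, hyπ, div_self hπ0]
  have hwy : f x - f 0 = (f x - f 0) / (ζ - 1) * (ζ - 1) := by
    field_simp
  have hτζ : τ (ζ - 1) = ζ ^ a - 1 := by
    rw [map_sub, map_one, ha ζ hζ.pow_eq_one]
  have h2 : P.valuation (τ (f x - f 0) - (a : Qb) * (f x - f 0)) < P.valuation (ζ - 1) := by
    have hsplit : τ (f x - f 0) - (a : Qb) * (f x - f 0) =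
        (τ ((f x - f 0) / (ζ - 1)) - (f x - f 0) / (ζ - 1)) * (ζ ^ a - 1) +
          (f x - f 0) / (ζ - 1) * ((ζ ^ a - 1) - a * (ζ - 1)) := by
      have h := congrArg τ hwy
      rw [map_mul, hτζ] at h
      rw [h]
      field_simp
      ring
    rw [hsplit]
    refine lt_of_le_of_lt (Valuation.map_add _ _ _) (max_lt ?_ ?_)
    · rw [map_mul]
      have hw1 : P.valuation (τ ((f x - f 0) / (ζ - 1)) - (f x - f 0) / (ζ - 1)) < 1 :=
        Fermat.Agent.A2.H708.valuation_sub_lt_one_of_mem_inertiaIn P hτ hwv.le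
      have hz : P.valuation (ζ ^ a - 1) ≤ P.valuation (ζ - 1) :=
        Fermat.Agent.S14.H894.valuation_pow_sub_one_le P hp.ne_zero hζ.pow_eq_one a
      calc P.valuation (τ ((f x - f 0) / (ζ - 1)) - (f x - f 0) / (ζ - 1)) *
            P.valuation (ζ ^ a - 1)
          ≤ P.valuation (τ ((f x - f 0) / (ζ - 1)) - (f x - f 0) / (ζ - 1)) *
            P.valuation (ζ - 1) := by gcongr
        _ < 1 * P.valuation (ζ - 1) := mul_lt_mul_of_pos_right hw1 hπpos
        _ = P.valuation (ζ - 1) := one_mul _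
    · have hgeom : (ζ ^ a - 1) - a * (ζ - 1) =
          (ζ - 1) * ∑ j ∈ Finset.range a, (ζ ^ j - 1) := by
        have hg := geom_sum_mul ζ a
        rw [Finset.sum_sub_distrib, Finset.sum_const, Finset.card_range, nsmul_eq_mul, mul_one,
          ← hg]
        ring
      rw [hgeom, map_mul, map_mul, hwv, one_mul]
      have hs : P.valuation (∑ j ∈ Finset.range a, (ζ ^ j - 1)) < 1 := by
        refine Valuation.map_sum_lt _ one_ne_zero fun j _ => ?_
        exact lt_of_le_of_lt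
          (Fermat.Agent.S14.H894.valuation_pow_sub_one_le P hp.ne_zero hζ.pow_eq_one j) hπ1
      calc P.valuation (ζ - 1) * P.valuation (∑ j ∈ Finset.range a, (ζ ^ j - 1))
          < P.valuation (ζ - 1) * 1 := mul_lt_mul_of_pos_left hs hπpos
        _ = P.valuation (ζ - 1) := mul_one _
  -- combine: `(n - a) y ∈ π 𝔪`
  have h3 : P.valuation (((n : Qb) - (a : Qb)) * (f x - f 0)) < P.valuation (ζ - 1) := by
    have hsub : ((n : Qb) - (a : Qb)) * (f x - f 0) =
        (τ (f x - f 0) - (a : Qb) * (f x - f 0)) -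
          (τ (f x - f 0) - (n : Qb) * (f x - f 0)) := by ring
    rw [hsub]
    refine lt_of_le_of_lt (Valuation.map_sub _ _ _) (max_lt h2 (lt_of_le_of_lt h1 ?_))
    calc P.valuation (ζ - 1) ^ 2 = P.valuation (ζ - 1) * P.valuation (ζ - 1) := sq _
      _ < 1 * P.valuation (ζ - 1) := mul_lt_mul_of_pos_right hπ1 hπpos
      _ = P.valuation (ζ - 1) := one_mul _
  rw [map_mul, hyπ] at h3
  have h4 : P.valuation ((n : Qb) - (a : Qb)) < 1 := by
    by_contra hcon
    rw [not_lt] at hcon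
    have h5 : P.valuation (ζ - 1) ≤ P.valuation ((n : Qb) - a) * P.valuation (ζ - 1) := by
      calc P.valuation (ζ - 1) = 1 * P.valuation (ζ - 1) := (one_mul _).symm
        _ ≤ P.valuation ((n : Qb) - a) * P.valuation (ζ - 1) := by gcongr
    exact absurd h3 (not_lt.mpr h5)
  -- hence `p ∣ n - a`
  have h5 : (p : ℤ) ∣ (n : ℤ) - (a : ℤ) := by
    by_contra hcon
    have h6 := Fermat.Agent.S14.H894.valuation_intCast_eq_one P p hp hP ((n : ℤ) - a) hcon
    rw [Int.cast_sub, Int.cast_natCast, Int.cast_natCast] at h6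
    rw [h6] at h4
    exact lt_irrefl _ h4
  -- conclude
  rw [hn]
  have h6 : ((n : ℤ) - (a : ℤ)) • x = 0 := by
    obtain ⟨k, hk⟩ := h5
    rw [hk, mul_comm, mul_smul, natCast_zsmul, hM x, smul_zero]
  rw [sub_smul, natCast_zsmul, natCast_zsmul, sub_eq_zero] at h6
  exact h6

end FT

/-- **FLAT-O / FT**, from (UNR) and (A). -/
theorem flatTame_of (hU : UnrValStatement) (hA : LemmaAStatement) : FlatTameStatement := by
  intro p _ _ M _ _ act Λ hΛ hM P hP x hx0 hsc
  by_cases hx : ftRed P Λ x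
  · right
    intro τ hτ a ha
    exact ft_case_two P hU hA hΛ hP hM hx0 hx hsc hτ ha
  · left
    intro τ hτ
    obtain ⟨n, hn⟩ := hsc τ hτ
    exact ft_case_one P hΛ hP hM hx hτ hn

/-- **FLAT-O / FT.** -/
theorem flatTame : FlatTameStatement :=
  flatTame_of Fermat.Agent.S56.H66.unrVal lemmaA

end Fermat.Agent.S56.H486

end

end
-- ===== PACK-END S56/H486/FlatTame.lean

-- ===== PACK-BEGIN S56/H431/UrCount.lean
section
/-
S56 / GW-WALL layer 3c, leaf UR-COUNT (helper431): `dim H¹_ur(D_P, ad⁰ρ̄) ≤ h⁰(D_P, ad⁰ρ̄)`.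

Immediate from helper606's LOC-MIN-B (`H606.locMinB`): a cocycle vanishing on the inertia group
is in particular a coboundary there.
-/



set_option autoImplicit false

open Polynomial IsLocalRing

namespace Fermat.Agent.S56.H431

open Fermat.Agent.S56 Fermat.Agent.S56.H716

/-- **UR-COUNT**: the frozen leaf `H716.UrCountStatement`. -/
theorem urCount : UrCountStatement := by
  intro 𝒪 _ _ _ _ _ p ρbar S Smin _ v hv _ P hP
  obtain ⟨Λ, hfin, hrk, hΛ⟩ := H606.locMinB (ResidueField 𝒪) ρbar v hv P hP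
  refine ⟨Λ, hfin, hrk, fun c hc hur => hΛ c hc ⟨0, fun σ hσ => ?_⟩⟩
  rw [hur P hP σ hσ, mul_zero, zero_mul, sub_zero]

end Fermat.Agent.S56.H431

end
-- ===== PACK-END S56/H431/UrCount.lean

-- ===== PACK-BEGIN S56/RQ/GlobZH934.lean
section





/-!
# Row S56 — REC-Q, leaf GLOBZ (helper934)

`globZ : GlobZStatement`: the cup product `c ∪ y` of an ad-cocycle `c` unramified outside
`Smin ∪ Q` and a twisted cocycle `y` unramified outside `Smin` is a global 2-cocycle of `k(1)`,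
level-constant for a finite level unramified outside `Smin ∪ Q`.

* `cup_isCoc₂` : the 2-cocycle identity (pure algebra).
* `levelSub`   : the subgroup `N = {s : ρ̄ s = 1, s fixes μ_p, c s = 0, y s = 0}`.
* `cup_mul_right` : `c ∪ y` is invariant under right translation by `N × N`.
-/

set_option autoImplicit false
set_option linter.style.haveILetI false

open Polynomial IsLocalRing

noncomputable section

namespace Fermat.Agent.S56.RQ.H934

open Fermat.Agent.S56 Fermat.Agent.S56.H716 Fermat.Agent.S56.RQ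

section

variable {k : Type} [Field k] (ρbar : ResidualGaloisRep k) (p : ℕ)

theorem rho_inv_mul (σ : GQ) : ρbar.ρ σ⁻¹ * ρbar.ρ σ = 1 := by
  rw [← map_mul, inv_mul_cancel, map_one]

theorem trace_conj_mul (σ : GQ) (x y : Module.End k ρbar.V) :
    LinearMap.trace k ρbar.V
        ((ρbar.ρ σ * x * ρbar.ρ σ⁻¹) * (ρbar.ρ σ * y * ρbar.ρ σ⁻¹)) =
      LinearMap.trace k ρbar.V (x * y) := by
  have h : (ρbar.ρ σ * x * ρbar.ρ σ⁻¹) * (ρbar.ρ σ * y * ρbar.ρ σ⁻¹) =
      ρbar.ρ σ * (x * y * ρbar.ρ σ⁻¹) := by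
    calc (ρbar.ρ σ * x * ρbar.ρ σ⁻¹) * (ρbar.ρ σ * y * ρbar.ρ σ⁻¹)
        = ρbar.ρ σ * x * (ρbar.ρ σ⁻¹ * ρbar.ρ σ) * y * ρbar.ρ σ⁻¹ := by
          simp only [mul_assoc]
      _ = ρbar.ρ σ * (x * y * ρbar.ρ σ⁻¹) := by
          rw [rho_inv_mul, mul_one]
          simp only [mul_assoc]
  rw [h, LinearMap.trace_mul_comm]
  have h' : x * y * ρbar.ρ σ⁻¹ * ρbar.ρ σ = x * y := by
    rw [mul_assoc (x * y), rho_inv_mul, mul_one]
  rw [h']

theorem rho_inv_eq_one {s : GQ} (h : ρbar.ρ s = 1) : ρbar.ρ s⁻¹ = 1 := by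
  have h1 := rho_inv_mul ρbar s
  rw [h, mul_one] at h1
  exact h1

variable {ρbar p}

theorem ad_one {c : GQ → Module.End k ρbar.V} (hc : IsAdCocycle ρbar c) : c 1 = 0 := by
  have h := hc.map_mul 1 1
  rw [mul_one, map_one, inv_one, map_one, one_mul, mul_one] at h
  exact left_eq_add.mp h

theorem tw_one {y : GQ → Module.End k ρbar.V} (hy : IsTwCocycle ρbar p y) : y 1 = 0 := by
  have h := hy.map_mul 1 1 1 (Fermat.Agent.S56.H536.isCycExp_one_one p)
  unfold twAd at h
  rw [mul_one, map_one, inv_one, map_one, one_mul, mul_one, Nat.cast_one, one_smul] at h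
  exact left_eq_add.mp h

theorem twAd_zero (σ : GQ) (a : ℕ) : twAd ρbar σ a 0 = 0 := by
  unfold twAd
  rw [mul_zero, zero_mul, smul_zero]

/-- The 2-cocycle identity for the cup product. -/
theorem cup_isCoc₂ {c y : GQ → Module.End k ρbar.V} (hc : IsAdCocycle ρbar c)
    (hy : IsTwCocycle ρbar p y) : IsCoc₂On p ⊤ (cup ρbar c y) := by
  intro σ _ τ _ υ _ a ha
  have h1 : y (σ * τ * υ) - y (σ * τ) = twAd ρbar σ a (y (τ * υ) - y τ) := by
    rw [mul_assoc, hy.map_mul σ (τ * υ) a ha, hy.map_mul σ τ a ha]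
    unfold twAd
    rw [mul_sub, sub_mul, smul_sub]
    abel
  have h2 : LinearMap.trace k ρbar.V
      (ρbar.ρ σ * c τ * ρbar.ρ σ⁻¹ * twAd ρbar σ a (y (τ * υ) - y τ)) =
      (a : k) * LinearMap.trace k ρbar.V (c τ * (y (τ * υ) - y τ)) := by
    unfold twAd
    rw [mul_smul_comm, map_smul, smul_eq_mul, trace_conj_mul]
  have h3 : y (σ * (τ * υ)) - y σ = (y (σ * τ * υ) - y (σ * τ)) + (y (σ * τ) - y σ) := by
    rw [mul_assoc]
    abel
  show (a : k) * LinearMap.trace k ρbar.V (c τ * (y (τ * υ) - y τ)) +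
      LinearMap.trace k ρbar.V (c σ * (y (σ * (τ * υ)) - y σ)) =
    LinearMap.trace k ρbar.V (c (σ * τ) * (y (σ * τ * υ) - y (σ * τ))) +
      LinearMap.trace k ρbar.V (c σ * (y (σ * τ) - y σ))
  rw [hc.map_mul σ τ, h3, add_mul, mul_add, map_add, map_add, ← h2, ← h1]
  abel

/-- The subgroup `N = {s : ρ̄ s = 1, s fixes μ_p, c s = 0, y s = 0}`. -/
def levelSub {c y : GQ → Module.End k ρbar.V} (hc : IsAdCocycle ρbar c)
    (hy : IsTwCocycle ρbar p y) : Subgroup GQ where
  carrier := {s | ρbar.ρ s = 1 ∧ IsCycExp p s 1 ∧ c s = 0 ∧ y s = 0}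
  one_mem' := ⟨map_one _, Fermat.Agent.S56.H536.isCycExp_one_one p, ad_one hc, tw_one hy⟩
  mul_mem' := by
    rintro s t ⟨hs1, hs2, hs3, hs4⟩ ⟨ht1, ht2, ht3, ht4⟩
    refine ⟨by rw [map_mul, hs1, ht1, one_mul], ?_, ?_, ?_⟩
    · intro μ hμ
      have h1 := ht2 μ hμ
      rw [pow_one] at h1 ⊢
      have h2 := hs2 μ hμ
      rw [pow_one] at h2
      show s (t μ) = μ
      rw [h1, h2]
    · rw [hc.map_mul, hs3, ht3, mul_zero, zero_mul, add_zero]
    · rw [hy.map_mul s t 1 hs2, hs4, ht4, twAd_zero, add_zero]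
  inv_mem' := by
    rintro s ⟨hs1, hs2, hs3, hs4⟩
    have hinv : IsCycExp p s⁻¹ 1 := by
      intro μ hμ
      have h2 := hs2 μ hμ
      rw [pow_one] at h2 ⊢
      have h3 : s⁻¹ (s μ) = μ := s.symm_apply_apply μ
      rw [h2] at h3
      exact h3
    refine ⟨rho_inv_eq_one ρbar hs1, hinv, ?_, ?_⟩
    · have h := hc.map_mul s⁻¹ s
      rw [inv_mul_cancel, ad_one hc, hs3, mul_zero, zero_mul, add_zero] at h
      exact h.symm
    · have h := hy.map_mul s⁻¹ s 1 hinv
      rw [inv_mul_cancel, tw_one hy, hs4, twAd_zero, add_zero] at h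
      exact h.symm

theorem mem_levelSub {c y : GQ → Module.End k ρbar.V} (hc : IsAdCocycle ρbar c)
    (hy : IsTwCocycle ρbar p y) (s : GQ) :
    s ∈ levelSub hc hy ↔ ρbar.ρ s = 1 ∧ IsCycExp p s 1 ∧ c s = 0 ∧ y s = 0 :=
  Iff.rfl

/-- Right-invariance of the cup product under `N × N`. -/
theorem cup_mul_right (hp : p.Prime) {c y : GQ → Module.End k ρbar.V}
    (hc : IsAdCocycle ρbar c) (hy : IsTwCocycle ρbar p y) (σ τ s s' : GQ)
    (hs : s ∈ levelSub hc hy) (hs' : s' ∈ levelSub hc hy) :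
    cup ρbar c y (σ * s, τ * s') = cup ρbar c y (σ, τ) := by
  obtain ⟨hs1, hs2, hs3, hs4⟩ := hs
  obtain ⟨hs1', hs2', hs3', hs4'⟩ := hs'
  -- right invariance of `y`
  have hyr : ∀ g t : GQ, y t = 0 → y (g * t) = y g := by
    intro g t ht
    obtain ⟨a, ha⟩ := Fermat.Agent.S56.H536.exists_isCycExp p hp g
    rw [hy.map_mul g t a ha, ht, twAd_zero, add_zero]
  have hcr : c (σ * s) = c σ := by
    rw [hc.map_mul, hs3, mul_zero, zero_mul, add_zero]
  have hyl : y (s * τ) = y τ := by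
    rw [hy.map_mul s τ 1 hs2, hs4, zero_add]
    unfold twAd
    rw [hs1, Nat.cast_one, one_smul, one_mul, rho_inv_eq_one ρbar hs1, mul_one]
  have hy2 : y (σ * s * (τ * s')) = y (σ * τ) := by
    obtain ⟨a, ha⟩ := Fermat.Agent.S56.H536.exists_isCycExp p hp σ
    have e : σ * s * (τ * s') = σ * (s * τ) * s' := by simp only [mul_assoc]
    rw [e, hyr _ _ hs4', hy.map_mul σ (s * τ) a ha, hyl, ← hy.map_mul σ τ a ha]
  show LinearMap.trace k ρbar.V (c (σ * s) * (y (σ * s * (τ * s')) - y (σ * s))) =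
    LinearMap.trace k ρbar.V (c σ * (y (σ * τ) - y σ))
  rw [hcr, hy2, hyr σ s hs4]

end

/-- **GLOBZ.** -/
theorem globZ : GlobZStatement := by
  intro 𝒪 _ _ _ _ _ p ρbar S Smin hyp Q hQ c y hc hcur hy hyur
  classical
  refine ⟨cup_isCoc₂ hc hy, ?_⟩
  haveI : NeZero p := ⟨hyp.hp.ne_zero⟩
  obtain ⟨Lρ, hLρfin, hLρ⟩ := ρbar.factorsThroughFiniteLevel
  obtain ⟨Lc, hLcfin, hLc⟩ := hc.level
  obtain ⟨Ly, hLyfin, hLy⟩ := hy.level
  -- the big level
  let F₀ : IntermediateField ℚ Qb := Lρ ⊔ Lc ⊔ Ly ⊔ Fermat.Agent.S55.H414.cycloLevel p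
  haveI : FiniteDimensional ℚ Lρ := hLρfin
  haveI : FiniteDimensional ℚ Lc := hLcfin
  haveI : FiniteDimensional ℚ Ly := hLyfin
  haveI h1 : FiniteDimensional ℚ (Lρ ⊔ Lc : IntermediateField ℚ Qb) :=
    IntermediateField.finiteDimensional_sup Lρ Lc
  haveI h2 : FiniteDimensional ℚ (Lρ ⊔ Lc ⊔ Ly : IntermediateField ℚ Qb) :=
    IntermediateField.finiteDimensional_sup (Lρ ⊔ Lc) Ly
  have hF₀fin : FiniteDimensional ℚ F₀ :=
    IntermediateField.finiteDimensional_sup (Lρ ⊔ Lc ⊔ Ly) (Fermat.Agent.S55.H414.cycloLevel p)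
  have hF₀ : F₀.fixingSubgroup ≤ levelSub hc hy := by
    intro s hs
    have hs' : ∀ x ∈ F₀, s x = x := (IntermediateField.mem_fixingSubgroup_iff F₀ s).1 hs
    have hρle : Lρ ≤ F₀ := le_sup_left.trans (le_sup_left.trans le_sup_left)
    have hcle : Lc ≤ F₀ := le_sup_right.trans (le_sup_left.trans le_sup_left)
    have hyle : Ly ≤ F₀ := le_sup_right.trans le_sup_left
    have hzle : Fermat.Agent.S55.H414.cycloLevel p ≤ F₀ := le_sup_right
    refine ⟨hLρ s (fun x hx => hs' x (hρle hx)), ?_, ?_, ?_⟩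
    · intro μ hμ
      rw [pow_one]
      exact hs' μ (hzle (Fermat.Agent.S56.H536.mem_cycloLevel_of_pow_eq_one p hμ))
    · have h := hLc 1 s (fun x hx => hs' x (hcle hx))
      rw [one_mul, ad_one hc] at h
      exact h
    · have h := hLy 1 s (fun x hx => hs' x (hyle hx))
      rw [one_mul, tw_one hy] at h
      exact h
  have hur : ∀ q : Nat.Primes, q ∉ ((Smin ∪ Q).subtype Nat.Prime : Finset Nat.Primes) →
      ∀ A : ValuationSubring (AlgebraicClosure ℚ), A.LiesOverPrime (q : ℕ) →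
        A.inertiaSubgroupIn ℚ ≤ levelSub hc hy := by
    intro q hq A hA s hs
    have hq' : (q : ℕ) ∉ Smin ∪ Q := fun h => hq (Finset.mem_subtype.2 h)
    have hqSmin : (q : ℕ) ∉ Smin := fun h => hq' (Finset.mem_union_left _ h)
    have hqp : (q : ℕ) ≠ p := fun h => hqSmin (h ▸ hyp.hpSmin)
    have hρur : ρbar.IsUnramifiedAt (q : ℕ) := by
      by_contra hne
      exact hqSmin ((hyp.hmin q q.2 hqp).2 hne)
    exact ⟨hρur A hA s hs,
      Fermat.Agent.S56.H554.fixes_mu_of_mem_inertia q.2 hA hyp.hp (Ne.symm hqp) hs,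
      hcur q q.2 hq' A hA s hs, hyur q q.2 hqSmin A hA s hs⟩
  obtain ⟨F, ⟨hFfin, hFur⟩, hFfix, -⟩ := Fermat.Agent.S55.Bridge.exists_level_of_subgroup
    ((Smin ∪ Q).subtype Nat.Prime : Finset Nat.Primes) (levelSub hc hy) F₀ hF₀fin hF₀ hur
  refine ⟨F, hFfin, ?_, ?_⟩
  · intro q hq hqS P hP s hs x hx
    have hmem : s ∈ F.fixingSubgroup :=
      hFur ⟨q, hq⟩ (fun h => hqS (Finset.mem_subtype.1 h)) P hP hs
    exact (IntermediateField.mem_fixingSubgroup_iff F s).1 hmem x hx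
  · intro σ τ s s' hs hs'
    have hsN : s ∈ levelSub hc hy := by
      rw [← hFfix]
      exact (IntermediateField.mem_fixingSubgroup_iff F s).2 hs
    have hsN' : s' ∈ levelSub hc hy := by
      rw [← hFfix]
      exact (IntermediateField.mem_fixingSubgroup_iff F s').2 hs'
    exact cup_mul_right hyp.hp hc hy σ τ s s' hsN hsN'

end Fermat.Agent.S56.RQ.H934

end

end
-- ===== PACK-END S56/RQ/GlobZH934.lean

-- ===== PACK-BEGIN S56/RQ/ConjH880.lean
section



/-!
# Row S56 — REC-Q leaf CONJ (helper880): independence of the place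

`conjStatement : RQ.ConjStatement` (exact frozen Prop of `RQ/Spec.lean`).

(a) `ρ̄` unramified at `v`, `c = 0` on `I_P` ⟹ `c = 0` on `I_{P'}`:
    `c (g σ g⁻¹) = c g + g (c σ + σ c(g⁻¹) σ⁻¹) g⁻¹ = c g + g c(g⁻¹) g⁻¹ = c 1 = 0`.
(b) `c = d m` on `D_P` ⟹ `c = d m'` on `D_{P'}`, `P' = g P`, `m' = ρ̄ g m ρ̄ g⁻¹ − c g`.
-/

set_option autoImplicit false

open Polynomial IsLocalRing
open scoped Pointwise

noncomputable section

namespace Fermat.Agent.S56.RQ.H880

open Fermat.Agent.S56 Fermat.Agent.S56.H716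

variable {k : Type} [Field k] {ρbar : ResidualGaloisRep k}

theorem rho_mul_inv (g : GQ) : ρbar.ρ g * ρbar.ρ g⁻¹ = 1 := by
  rw [← map_mul, mul_inv_cancel, map_one]

theorem rho_inv_mul (g : GQ) : ρbar.ρ g⁻¹ * ρbar.ρ g = 1 := by
  rw [← map_mul, inv_mul_cancel, map_one]

theorem adCocycle_one {c : GQ → Module.End k ρbar.V} (hc : IsAdCocycle ρbar c) : c 1 = 0 := by
  have h := hc.map_mul 1 1
  rw [mul_one, inv_one, map_one, one_mul, mul_one] at h
  exact left_eq_add.mp h

/-- `c g + ρ g · c(g⁻¹) · ρ g⁻¹ = 0`. -/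
theorem adCocycle_add_conj_inv {c : GQ → Module.End k ρbar.V} (hc : IsAdCocycle ρbar c)
    (g : GQ) : c g + ρbar.ρ g * c g⁻¹ * ρbar.ρ g⁻¹ = 0 := by
  have h := hc.map_mul g g⁻¹
  rw [mul_inv_cancel, adCocycle_one hc] at h
  exact h.symm

/-- The cocycle at a conjugate. -/
theorem adCocycle_conj {c : GQ → Module.End k ρbar.V} (hc : IsAdCocycle ρbar c) (g σ : GQ) :
    c (g * σ * g⁻¹) =
      c g + ρbar.ρ g * c σ * ρbar.ρ g⁻¹ +
        ρbar.ρ g * ρbar.ρ σ * c g⁻¹ * ρbar.ρ σ⁻¹ * ρbar.ρ g⁻¹ := by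
  rw [mul_assoc, hc.map_mul g (σ * g⁻¹), hc.map_mul σ g⁻¹]
  noncomm_ring

/-- `conjStatement`, part (a). -/
theorem unram_of_unram {c : GQ → Module.End k ρbar.V} (hc : IsAdCocycle ρbar c) {v : ℕ}
    (hv : v.Prime) {P P' : ValuationSubring Qb} (hP : P.LiesOverPrime v)
    (hP' : P'.LiesOverPrime v) (hρ : ρbar.IsUnramifiedAt v)
    (h : ∀ σ ∈ P.inertiaSubgroupIn ℚ, c σ = 0) :
    ∀ σ ∈ P'.inertiaSubgroupIn ℚ, c σ = 0 := by
  intro σ' hσ'
  obtain ⟨g, σ, hσ, rfl⟩ :=
    Fermat.Agent.Lib.Cheb.H476.exists_conj_of_mem_inertia hv hP hP' hσ'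
  have h1 : ρbar.ρ σ = 1 := hρ P hP σ hσ
  have h2 : ρbar.ρ σ⁻¹ = 1 := by rw [map_inv_eq_one_of_one h1]
  rw [adCocycle_conj hc, h σ hσ, h1, h2, mul_zero, zero_mul, add_zero, mul_one, mul_one]
  exact adCocycle_add_conj_inv hc g
where
  map_inv_eq_one_of_one {σ : GQ} (h1 : ρbar.ρ σ = 1) : ρbar.ρ σ⁻¹ = 1 := by
    have := rho_inv_mul (ρbar := ρbar) σ
    rwa [h1, mul_one] at this

/-- `conjStatement`, part (b). -/
theorem coboundary_of_coboundary {c : GQ → Module.End k ρbar.V} (hc : IsAdCocycle ρbar c)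
    {v : ℕ} (hv : v.Prime) {P P' : ValuationSubring Qb} (hP : P.LiesOverPrime v)
    (hP' : P'.LiesOverPrime v)
    (h : IsAdCoboundaryOn ρbar (P.decompositionSubgroup ℚ) c) :
    IsAdCoboundaryOn ρbar (P'.decompositionSubgroup ℚ) c := by
  obtain ⟨m, hm⟩ := h
  obtain ⟨g, rfl⟩ := Fermat.Agent.Lib.Cheb.H476.exists_smul_eq hv hP hP'
  refine ⟨ρbar.ρ g * m * ρbar.ρ g⁻¹ - c g, fun σ' hσ' => ?_⟩
  -- `σ := g⁻¹ σ' g ∈ D_P`
  have hσ : g⁻¹ * σ' * g ∈ P.decompositionSubgroup ℚ := by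
    have h1 := Fermat.Agent.Lib.Cheb.H476.conj_mem_decomposition g⁻¹ hσ'
    have h2 : g⁻¹ • g • P = P := inv_smul_smul g P
    rw [inv_inv] at h1
    rw [h2] at h1
    exact h1
  set σ : GQ := g⁻¹ * σ' * g with hσdef
  have hσ' : σ' = g * σ * g⁻¹ := by rw [hσdef]; group
  have e1 : c g⁻¹ = -(ρbar.ρ g⁻¹ * c g * ρbar.ρ g) := by
    have := adCocycle_add_conj_inv hc g⁻¹
    rw [inv_inv] at this
    rw [eq_neg_iff_add_eq_zero]
    exact this
  have e2 : ρbar.ρ σ' = ρbar.ρ g * ρbar.ρ σ * ρbar.ρ g⁻¹ := by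
    rw [hσ', map_mul, map_mul]
  have e3 : ρbar.ρ σ'⁻¹ = ρbar.ρ g * ρbar.ρ σ⁻¹ * ρbar.ρ g⁻¹ := by
    have hinv : (g * σ * g⁻¹)⁻¹ = g * σ⁻¹ * g⁻¹ := by group
    rw [hσ', hinv, map_mul, map_mul]
  rw [e2, e3]
  rw [hσ', adCocycle_conj hc, hm σ hσ, e1]
  have r1 := rho_mul_inv (ρbar := ρbar) g
  have r2 := rho_inv_mul (ρbar := ρbar) g
  have r3 := rho_mul_inv (ρbar := ρbar) σ
  -- normalise both sides
  have key : ∀ (A A' B B' M C : Module.End k ρbar.V), A * A' = 1 → A' * A = 1 → B * B' = 1 →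
      C + A * (B * M * B' - M) * A' + A * B * (-(A' * C * A)) * B' * A' =
        A * B * A' * (A * M * A' - C) * (A * B' * A') - (A * M * A' - C) := by
    intro A A' B B' M C h1 h2 h3
    have t1 : A * B * A' * (A * M * A' - C) * (A * B' * A') =
        A * B * (A' * A) * M * (A' * A) * B' * A' - A * B * A' * C * A * B' * A' := by
      noncomm_ring
    have t2 : A * (B * M * B' - M) * A' = A * B * M * B' * A' - A * M * A' := by
      noncomm_ring
    have t3 : A * B * (-(A' * C * A)) * B' * A' = -(A * B * A' * C * A * B' * A') := by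
      noncomm_ring
    rw [t1, t2, t3, h2]
    noncomm_ring
  exact key _ _ _ _ _ _ r1 r2 r3

/-- **(CONJ)**, exact frozen statement. -/
theorem conjStatement : ConjStatement := by
  intro k _ ρbar v hv P P' hP hP' c hc
  exact ⟨fun hρ h => unram_of_unram hc hv hP hP' hρ h,
    fun h => coboundary_of_coboundary hc hv hP hP' h⟩

end Fermat.Agent.S56.RQ.H880

end
end
-- ===== PACK-END S56/RQ/ConjH880.lean

-- ===== PACK-BEGIN S53/Abstract.lean
section


set_option autoImplicit false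
set_option linter.unusedSectionVars false
set_option linter.unusedVariables false
set_option linter.style.haveILetI false

namespace Fermat.Agent.S53

open IsLocalRing GaloisRep CA

/-- Abstract pro-representability: a rigid family has a universal point. -/
theorem exists_universalPoint
    (𝒪 : Type) [CommRing 𝒪] [IsDomain 𝒪] [IsDiscreteValuationRing 𝒪]
    [IsAdicComplete (IsLocalRing.maximalIdeal 𝒪) 𝒪] [Finite (IsLocalRing.ResidueField 𝒪)]
    (ι : Type) (c : ι → 𝒪) (L : PointFamily 𝒪 ι) (hL : IsRigidFamily 𝒪 ι c L) :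
    Nonempty (UniversalPoint 𝒪 ι L) := by
  obtain ⟨d, idx, hsep⟩ := exists_sep hL
  haveI := isLocalRing_Iinf hL hsep
  haveI : IsAdicComplete (maximalIdeal (PS 𝒪 d ⧸ Iinf c L idx)) (PS 𝒪 d ⧸ Iinf c L idx) :=
    ps_quot_isAdicComplete _
  haveI : IsLocalHom (algebraMap 𝒪 (PS 𝒪 d ⧸ Iinf c L idx)) := ps_quot_isLocalHom _
  exact ⟨{
    R := PS 𝒪 d ⧸ Iinf c L idx
    residue_surjective := ps_quot_residue_surjective _
    xu := xu hL hsep
    mem := xu_mem hL hsep
    universal := fun A _ _ _ _ _ hloc hres y hy => xu_universal hL hsep hloc hres y hy }⟩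

end Fermat.Agent.S53

end
-- ===== PACK-END S53/Abstract.lean

-- ===== PACK-BEGIN S53.lean
section
-- S53 (row 47): existence of the universal deformation ring (GaloisRep.nonempty_deformationRingData).
-- Proof: rigid normalized matrix liftings (Rigid/*, Dict*), abstract pro-representability of the
-- functor of normalized liftings (Abstract*), glue (Glue*).  Team S53.




set_option autoImplicit false
set_option autoImplicit false
open GaloisRep

namespace Fermat.Agent.S53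

theorem result
    (𝒪 : Type) [CommRing 𝒪] [IsDomain 𝒪] [IsDiscreteValuationRing 𝒪]
    [IsAdicComplete (IsLocalRing.maximalIdeal 𝒪) 𝒪] [Finite (IsLocalRing.ResidueField 𝒪)]
    (ρbar : ResidualGaloisRep (IsLocalRing.ResidueField 𝒪))
    (𝒟 : ∀ ⦃A : Type⦄ [CommRing A] [IsLocalRing A] [Algebra 𝒪 A], GaloisRepAdic A → Prop)
    (habs : ρbar.IsAbsolutelyIrreducible)
    (h𝒟 : GaloisRep.IsDeformationCondition 𝒪 𝒟)
    (hbar : 𝒟 (GaloisRepAdic.ofResidualGaloisRep ρbar))
    (hfin : GaloisRep.TangentFinite 𝒪 ρbar 𝒟) :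
    Nonempty (GaloisRep.DeformationRingData 𝒪 ρbar 𝒟) := by
  exact nonempty_deformationRingData_of_rigidFamilyCore
    (fun 𝒪 _ _ _ _ _ ι c L hL => exists_universalPoint 𝒪 ι c L hL)
    𝒪 ρbar 𝒟 habs h𝒟 hbar hfin

end Fermat.Agent.S53

end
-- ===== PACK-END S53.lean

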