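import Fermat.Agent.Pack.S43GC.G0E19L0
import Fermat.Agent.Pack.S43GC.G0E13L2
import Fermat.Agent.Pack.S43GC.G0E13L3
import Fermat.Agent.Pack.S43GC.G0E15L3
import Fermat.Agent.Pack.S43GC.G0E17L3
import Fermat.Agent.Pack.S43GC.G0E5L2
import Fermat.Agent.Pack.S43GC.G0E17L2
import Fermat.Agent.Pack.S43GC.G0E19L3
import Fermat.Agent.Pack.S44C.G0E10L0
import Fermat.Agent.Pack.S43GC.G0E9L1
import Fermat.Agent.Pack.S44C.G0E1L1
import Fermat.Agent.Pack.S43GC.G0E14L0
import Fermat.Agent.Pack.S43GC.G0E18L0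
import Fermat.Agent.Pack.S43GC.G0E0L3
import Fermat.Agent.Pack.S43GC.G0E0L2
import Fermat.Agent.Pack.S43GC.G0E10L3
import Fermat.Agent.Pack.S43GC.G0E12L2
import Fermat.Agent.Pack.S43GC.G0E7L1
import Fermat.Agent.Pack.S43GC.G0E18L2
import Fermat.Agent.Pack.S43GC.G0E19L2
import Fermat.Agent.Pack.S43GC.G0E12L0
import Fermat.Agent.Pack.S43GC.G0E16L2
import Fermat.Agent.Pack.S43GC.G0E17L1
import Fermat.Agent.Pack.S43GC.G0E15L1
import Fermat.Agent.Pack.Fast891

-- ===== PACK-BEGIN S55/PT/Final.lean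
section









/-!
# S55 / layer D: final wiring (helper835)

All formal leaves of layer D are proved; S55 is reduced to the arithmetic inputs
`Surj2GlobSpec` (A3), `Surj2LocSpec` (A4), `InvSpec` (A5–A7), `CapSpec` (A8)
and the two dévissage leaves `TopLocDevSpec`, `TopGlobDevSpec`.
-/

set_option autoImplicit false

noncomputable section

namespace Fermat.Agent.S55.PT

open groupCohomology ExtCitation Fermat.Agent.S55.Bridge

/-- **D-F8.** `ℚ(μ_p)` gives an `S`-level on which the cyclotomic character is trivial. -/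
theorem cycloLevelSpec (p : ℕ) [Fact p.Prime] (S : Finset Nat.Primes) : CycloLevelSpec p S := by
  intro hpS
  obtain ⟨L, hL, hfix, -⟩ := exists_level_of_subgroup S (MonoidHom.ker (cycloChar p))
    (cycloLevel p) (cycloLevel_finiteDimensional p)
    (fun s hs => MonoidHom.mem_ker.2 (cycloChar_eq_one_of_mem_fixingSubgroup p s hs))
    (fun q hq A hA g hg => by
      have hqp : (q : ℕ) ≠ p := by
        intro h
        apply hq
        have : q = pPrime p := Subtype.ext h
        rw [this]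
        exact hpS
      exact MonoidHom.mem_ker.2 (cycloChar_eq_one_of_mem_inertia p q.2 hqp A hA g hg))
  refine ⟨L.fixingSubgroup, ⟨L, hL, rfl⟩, fun u hu => ?_⟩
  rw [hfix] at hu
  exact MonoidHom.mem_ker.1 hu

/-- **Theorem D, reduced to the arithmetic inputs** A3, A4, A5–A7, A8 (and the two dévissage
leaves D-T2a, D-T2b).  Everything else of layer D is proved. -/
theorem theoremD_of_arith (p : ℕ) [Fact p.Prime] (S : Finset Nat.Primes) (hpS : pPrime p ∈ S)
    (hTL : TopLocDevSpec p S) (hTG : TopGlobDevSpec p S)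
    (hSurjG : Surj2GlobSpec p S) (hSurjL : Surj2LocSpec p S)
    (hInv : InvSpec p S) (hCap : CapSpec p S) : TheoremDSpec p S :=
  theoremD_of_inputs H113.les0Spec H113.les1Spec H113.lesMidSpec H113.coneSpec
    H113.coneLesSpec H113.del0ResSpec H476.engine H724.globalNormalCofinal
    H724.localNormalCofinal H724.globalFiniteIndex H724.localFiniteIndex EffaceH773.efface
    (cycloLevelSpec p S) hTL hTG (H837.capDev p S) hpS (H593.finGlob p S) hSurjG hSurjL hInv hCap

/-- **S55, reduced to the arithmetic inputs** A3, A4, A5–A7, A8 (and D-T2a, D-T2b). -/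
theorem s55_of_arith {p : ℕ} [Fact p.Prime] (hp2 : p ≠ 2) (S : Finset Nat.Primes)
    (hpS : pPrime p ∈ S)
    (hTL : TopLocDevSpec p S) (hTG : TopGlobDevSpec p S)
    (hSurjG : Surj2GlobSpec p S) (hSurjL : Surj2LocSpec p S)
    (hInv : InvSpec p S) (hCap : CapSpec p S)
    (M : Rep (ZMod p) (AlgebraicClosure ℚ ≃ₐ[ℚ] AlgebraicClosure ℚ))
    [FiniteDimensional (ZMod p) M]
    (hsm : ∀ m : M, ∃ F : IntermediateField ℚ (AlgebraicClosure ℚ), FiniteDimensional ℚ F ∧
      ∀ s ∈ F.fixingSubgroup, M.ρ s m = m)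
    (hMur : ∀ q : Nat.Primes, q ∉ S → ∀ A : ValuationSubring (AlgebraicClosure ℚ),
      A.LiesOverPrime (q : ℕ) → ∀ g ∈ A.inertiaSubgroupIn ℚ, M.ρ g = 1) :
    ∃ B : sha₁ S (M.dualTwist (cycloChar p)) →ₗ[ZMod p] sha₂ S M →ₗ[ZMod p] ZMod p,
      (∀ y, (∀ x, B y x = 0) → y = 0) ∧ (∀ x, (∀ y, B y x = 0) → x = 0) :=
  H724.bridge p S hp2 hpS (theoremD_of_arith p S hpS hTL hTG hSurjG hSurjL hInv hCap) M hsm hMur

end Fermat.Agent.S55.PT

end

end
-- ===== PACK-END S55/PT/Final.lean

-- ===== PACK-BEGIN S55/H295/TateSpecs.lean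
section


/-!
# `T5a`, `T5b`: Tate's theorem and `H³` of a class module

* `tate : T.TateSpec` — for a class module `(C, γ)` (and `H¹(H, k) = 0` for all `H ≤ G`):
  `Ĥⁿ(H, k) ≅ Ĥⁿ⁺²(H, C)` for all `n : ℤ`, `H ≤ G`;
* `tateH3 : T.TateH3Spec` — `H³(H, C) = 0` for a class module over `ℤ`;
* `tate_iso_explicit` — the isomorphism is the composite of the two connecting homomorphisms of
  `0 → I → P → k → 0` and `0 → C → C(c) → I → 0`.
-/

set_option autoImplicit false
set_option linter.unusedSectionVars false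

open CategoryTheory groupCohomology Rep Limits

namespace Fermat.Agent.S55.H295

open Fermat.Agent.S55.H783 Fermat.Agent.S55.T

noncomputable section

variable {k G : Type} [CommRing k] [Group G] [Fintype G]

/-- The first shifting isomorphism `Ĥⁿ(H, k) ≅ Ĥⁿ⁺¹(H, I)`. -/
def tateAugIso (H : Subgroup G) [Fintype H] (n : ℤ) :
    tateCohomology (res H.subtype (Rep.trivial k G k)) n ≅
      tateCohomology (res H.subtype (augI k G)) (n + 1) :=
  @asIso _ _ _ _ (TateCohomology.δ (augSESres_shortExact (k := k) H) n)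
    (ShortComplex.SnakeInput.isIso_δ _ (isCohTriv_augP (k := k) (G := G) H n)
      (isCohTriv_augP (k := k) (G := G) H (n + 1)))

/-- The second shifting isomorphism `Ĥⁿ(H, I) ≅ Ĥⁿ⁺¹(H, C)` for a class module `(C, [c])`. -/
def tateSplitIso {C : Rep.{0} k G} (c : cocycles₂ C) (hC : IsClassModule C (H2π C c))
    (hk : ∀ H : Subgroup G, IsZero (groupCohomology (Rep.trivial k H k) 1))
    (H : Subgroup G) [Fintype H] (n : ℤ) :
    tateCohomology (res H.subtype (augI k G)) n ≅
      tateCohomology (res H.subtype C) (n + 1) :=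
  @asIso _ _ _ _ (TateCohomology.δ (splitSESres_shortExact c H) n)
    (ShortComplex.SnakeInput.isIso_δ _ (isCohTriv_splitRep c hC hk H n)
      (isCohTriv_splitRep c hC hk H (n + 1)))

/-- Tate's isomorphism `Ĥⁿ(H, k) ≅ Ĥⁿ⁺²(H, C)` for a class module `(C, [c])`. -/
def tateIso {C : Rep.{0} k G} (c : cocycles₂ C) (hC : IsClassModule C (H2π C c))
    (hk : ∀ H : Subgroup G, IsZero (groupCohomology (Rep.trivial k H k) 1))
    (H : Subgroup G) [Fintype H] (n : ℤ) :
    tateCohomology (Rep.trivial k H k) n ≅ tateCohomology (res H.subtype C) (n + 2) :=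
  (tateCohomologyFunctor n).mapIso (resTrivialIso H).symm ≪≫ tateAugIso H n ≪≫
    tateSplitIso c hC hk H (n + 1) ≪≫
    eqToIso (by rw [show n + 1 + 1 = n + 2 by ring])

omit [Fintype G] in
/-- **T5a.**  Tate's theorem. -/
theorem tate : TateSpec := by
  intro k G _ _ _ C γ hk hC H _ n
  classical
  let _ : Fintype G := Fintype.ofFinite G
  obtain ⟨c, rfl⟩ := exists_cocycle_of_H2 C γ
  exact ⟨tateIso c hC hk H n⟩

omit [Fintype G] in
/-- **T5b.**  `H³` of a class module over `ℤ` vanishes. -/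
theorem tateH3 : TateH3Spec := by
  intro G _ _ C γ hC H
  classical
  let _ : Fintype H := Fintype.ofFinite H
  obtain ⟨e⟩ := tate ℤ G C γ (fun K => T.H539.h1TrivInt K) hC H 1
  have h1 : IsZero (tateCohomology (Rep.trivial ℤ H ℤ) 1) :=
    (isZero_tate_iff_group (Rep.trivial ℤ H ℤ) 1).2 (T.H539.h1TrivInt H)
  have h3 : IsZero (tateCohomology (resSub C H) (1 + 2)) := IsZero.of_iso h1 e.symm
  exact (isZero_tate_iff_group (resSub C H) 3).1 h3

end

end Fermat.Agent.S55.H295

end
-- ===== PACK-END S55/H295/TateSpecs.lean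

-- ===== PACK-BEGIN S55/PT/CycloLevelH723.lean
section



/-!
# S55 / layer D, leaf D-F8 (helper723): `ℚ(μ_p)` is an `S`-level trivialising the cyclotomic
character when `p ∈ S`.
-/

set_option autoImplicit false
set_option linter.style.haveILetI false

noncomputable section

namespace Fermat.Agent.S55.PT.H723

open ExtCitation Fermat.Agent.S55.PT

/-- **D-F8** -/
theorem cycloLevelSpec (p : ℕ) [Fact p.Prime] (S : Finset Nat.Primes) : CycloLevelSpec p S := by
  intro hpS
  haveI : NeZero p := ⟨(Fact.out : p.Prime).ne_zero⟩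
  haveI : NeZero (p ^ 1) := ⟨pow_ne_zero 1 (Fact.out : p.Prime).ne_zero⟩
  refine ⟨(Fermat.Agent.S55.H414.cycloLevel (p ^ 1)).fixingSubgroup,
    ⟨_, Fermat.Agent.S55.H414.isUnramifiedOutside_cycloLevel p 1 S hpS, rfl⟩, ?_⟩
  intro u hu
  apply Fermat.Agent.S55.Bridge.cycloChar_eq_one_of_fixes
  intro t ht
  have hz := Fermat.Agent.S55.H414.zetaBar_spec (p ^ 1)
  have htp : (t : AlgebraicClosure ℚ) ^ (p ^ 1) = 1 := by
    rw [pow_one]
    have h1 : t ^ p = 1 := (mem_rootsOfUnity p t).1 ht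
    have h2 := congrArg (fun x : (AlgebraicClosure ℚ)ˣ => (x : AlgebraicClosure ℚ)) h1
    simpa using h2
  obtain ⟨i, -, hi⟩ := hz.eq_pow_of_pow_eq_one htp
  have hfix : u (Fermat.Agent.S55.H414.zetaBar (p ^ 1)) = Fermat.Agent.S55.H414.zetaBar (p ^ 1) :=
    (Fermat.Agent.S55.H414.mem_fixingSubgroup_cycloLevel_iff _ u).1 hu
  rw [← hi, map_pow, hfix]

end Fermat.Agent.S55.PT.H723

end

end
-- ===== PACK-END S55/PT/CycloLevelH723.lean

-- ===== PACK-BEGIN S55/K/DevH593.lean
section






/-!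
# S55 / layer K, leaf K-T2: dévissage `H3IndMuSpec ⇒ H3FinSpec`   (helper593)

`h3Fin_of : H3IndMuSpec p S → H3FinSpec p S`:
if `H³_S(Ind_V μ_p) = 0` for every level `V` then `H³_S(R) = 0` for every finite-dimensional
`𝔽_p[G_ℚ]`-module `R` fixed by an `S`-level.

This is the instance `G = G_ℚ`, `𝓛 = globalLevels S`, `μ = muP p` of the abstract dévissage
`H593.Dev.H3V_of_ind_triv` (`H593/Dev/Main.lean`, Mathlib only).  The adapter consists of:
`K.H3Vanish ↔ Dev.H3V` (unfolding), `K.indG = Dev.dInd` (definitionally), open subgroups of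
`G_ℚ` containing an `S`-level are `S`-levels (`Bridge.exists_level_of_subgroup`), and `muP p` is
fixed by the level `ℚ(μ_p)` (`p ∈ S`).
-/

set_option autoImplicit false
set_option linter.style.haveILetI false

noncomputable section

namespace Fermat.Agent.S55.K.H593

open groupCohomology Fermat.Agent.S55.PT Fermat.Agent.S55.Bridge Fermat.Agent.S55.K
open Fermat.Agent.S55.H593

variable {G : Type} [Group G]

/-- `K.H3Vanish` is `Dev.H3V` (same cochain-level statement). -/
theorem h3Vanish_iff_H3V {k : Type} [CommRing k] (L : LevelSys G) (A : Rep.{0, 0, 0} k G) :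
    H3Vanish L A ↔ Dev.H3V L.levels A := by
  constructor
  · intro h z hz hcoc
    have hd : d34 A z = 0 := by
      funext x
      obtain ⟨g, h', i, j⟩ := x
      exact hcoc g h' i j
    obtain ⟨b, hb, hdb⟩ := h z hz hd
    exact ⟨b, hb, hdb⟩
  · intro h f hf hd
    have hcoc : Dev.IsCoc3 A f := fun g h' i j => congrFun hd (g, h', i, j)
    obtain ⟨b, hb, hdb⟩ := h f hf hcoc
    exact ⟨b, hb, hdb⟩

/-- `K.indG` is `Dev.dInd`. -/
theorem indG_eq_dInd {k : Type} [CommRing k] (V : Subgroup G) (A : Rep.{0, 0, 0} k G) :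
    indG V A = Dev.dInd V A := rfl

variable (p : ℕ) [Fact p.Prime] (S : Finset Nat.Primes)

/-- A subgroup of `G_ℚ` containing an `S`-level is an `S`-level. -/
theorem mem_levels_of_le {U H : Subgroup _root_.Fermat.Agent.S55.PT.GQ} (hU : U ∈ (globalLevels S).levels) (hUH : U ≤ H) :
    H ∈ (globalLevels S).levels := by
  obtain ⟨F, hF, rfl⟩ := hU
  obtain ⟨L, hL, hfix, -⟩ := exists_level_of_subgroup S H F hF.1 hUH
    (fun q hq A hA => (hF.2 q hq A hA).trans hUH)
  exact ⟨L, hL, hfix.symm⟩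

/-- `μ_p` is fixed by an `S`-level if `p ∈ S`. -/
theorem muP_uSmooth (hpS : ExtCitation.pPrime p ∈ S) :
    Dev.USmooth (globalLevels S).levels (muP p) := by
  obtain ⟨V, hV, hfix⟩ := PT.H723.cycloLevelSpec p S hpS
  have key : ∀ s ∈ V, ∀ a : MuP p, muPRep p s a = a := fun s hs a => by
    rw [muPRep_apply_smul, hfix s hs, Units.val_one, one_smul]
  exact ⟨V, hV, fun s hs a => key s hs a⟩

/-- **K-T2.**  Dévissage: `H³_S(Ind_V μ_p) = 0` for all levels `V` ⇒ `H³_S(R) = 0` for all
finite `R`. -/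
theorem h3Fin_of (h : H3IndMuSpec p S) : H3FinSpec p S := by
  intro hp2 hpS R hRfd hRsm
  haveI := hRfd
  rw [h3Vanish_iff_H3V]
  refine Dev.H3V_of_ind (𝓛 := (globalLevels S).levels) (globalLevels S).directed
    (PT.H724.globalNormalCofinal S) (PT.H724.globalFiniteIndex S) (muP p) (MuP.natCard p)
    (muP_uSmooth p S hpS) ?_ R hRsm
  rintro H ⟨U, hU, hUH⟩
  rw [← indG_eq_dInd, ← h3Vanish_iff_H3V]
  exact h hp2 hpS H (mem_levels_of_le S hU hUH)

end Fermat.Agent.S55.K.H593

end

end
-- ===== PACK-END S55/K/DevH593.lean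

-- ===== PACK-BEGIN S55/Inv/CokH99.lean
section
/-
S55 (Poitou–Tate), route C′, input `InvSpec`, leaf INV-COK (helper99), part 2: the adapter

    globCoker_of : p ≠ 2 → pPrime p ∈ S → K.KummerSpec p S → SemiLocalH90Spec S → GO4Spec p S →
      Inv.GlobCokerSpec p S

* `GO4Spec p S`        : the arithmetic input (layer K / G), in cochain form, with the modules of
                         `K/Defs.lean`: `Ind_U 𝔼 = K.indG U (K.sUnits S)`,
                         `Ind_U ℚ̄_qˣ = K.ind (rl q) U (Tow.unitsQpbar q)`, `K.indLocE`.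
* `SemiLocalH90Spec S` : `H¹_lc(G_q, Ind_U ℚ̄_qˣ) = 0`.
* KUM = `K.KummerSpec p S`.

Proved here, unconditionally:
* `isKummerEmb_kappa0`  : `μ_p = F_p(χ_p) → 𝔼` is a Kummer embedding (`𝔼[p] = μ_p`);
* `lcDivisible_ind_sUnits` (from KUM): level-constant cochains of `Ind_U 𝔼` with level-constant
  coboundary are `p`-divisible;
* `isPDivisible_unitsQpbar`, `isSmooth_unitsQpbar` (Krasner, `Bridge/Krasner`),
  `isKummerEmb_locMu` (`μ_p → ℚ̄_qˣ` is a Kummer embedding), `locE_equivariant`;
* `isKummerEmb_ind_res`, `isSmooth_ind_res`, `indLocE_equivariant`: the same for `Ind_U`.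
-/







set_option autoImplicit false
set_option linter.style.haveILetI false
set_option linter.unusedSectionVars false
noncomputable section
namespace Fermat.Agent.S55.Inv.H99

open groupCohomology ExtCitation Fermat.Agent.S55.PT Fermat.Agent.S55.KC Fermat.Agent.S55.Bridge

variable (p : ℕ) [Fact p.Prime] (S : Finset Nat.Primes)

/-! ## 1. The global Kummer embedding `μ_p → 𝔼` -/

/-- `κ₀ : μ_p = F_p(χ_p) → 𝔼`. -/
def kappa0 : (mu p) →+ (K.sUnits S) :=
  (K.muToE p S).comp (AddMonoidHomClass.toAddMonoidHom (muPLinearEquiv p))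

lemma kappa0_apply (m : mu p) : kappa0 p S m = K.muToE p S (muPLinearEquiv p m) := rfl

lemma coe_muToE (x : muP p) :
    ((Additive.toMul (K.sUnitsIncl S (K.muToE p S x)) : K.Qbarˣ) : K.Qbar) =
      (((MuP.root (p := p) x : rootsOfUnity p (AlgebraicClosure ℚ)) : (AlgebraicClosure ℚ)ˣ) :
        AlgebraicClosure ℚ) := rfl

lemma sUnits_ext {a b : K.sUnits S}
    (h : ((Additive.toMul (K.sUnitsIncl S a) : K.Qbarˣ) : K.Qbar) =
      ((Additive.toMul (K.sUnitsIncl S b) : K.Qbarˣ) : K.Qbar)) : a = b := by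
  apply Subtype.ext
  apply Additive.toMul.injective
  exact Units.ext h

lemma coe_sUnits_ρ (g : _root_.Fermat.Agent.S55.PT.GQ) (a : K.sUnits S) :
    ((Additive.toMul (K.sUnitsIncl S ((K.sUnits S).ρ g a)) : K.Qbarˣ) : K.Qbar) =
      g ((Additive.toMul (K.sUnitsIncl S a) : K.Qbarˣ) : K.Qbar) := rfl

lemma coe_sUnits_nsmul (n : ℕ) (a : K.sUnits S) :
    ((Additive.toMul (K.sUnitsIncl S (n • a)) : K.Qbarˣ) : K.Qbar) =
      ((Additive.toMul (K.sUnitsIncl S a) : K.Qbarˣ) : K.Qbar) ^ n := rfl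

lemma coe_sUnits_zero :
    ((Additive.toMul (K.sUnitsIncl S (0 : K.sUnits S)) : K.Qbarˣ) : K.Qbar) = 1 := rfl

/-- `κ₀` is a Kummer embedding. -/
theorem isKummerEmb_kappa0 : IsKummerEmb p (mu p) (K.sUnits S) (kappa0 p S) where
  injective := (K.muToE_injective p S).comp (muPLinearEquiv p).injective
  equivariant := by
    intro g m
    apply sUnits_ext
    have h1 : muPLinearEquiv p ((mu p).ρ g m) = muPRep p g (muPLinearEquiv p m) :=
      LinearMap.congr_fun ((muPRepEquivOfChar p).isIntertwining' g) m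
    show (((MuP.root (p := p) (muPLinearEquiv p ((mu p).ρ g m)) :
        rootsOfUnity p (AlgebraicClosure ℚ)) : (AlgebraicClosure ℚ)ˣ) : AlgebraicClosure ℚ) =
      g (((MuP.root (p := p) (muPLinearEquiv p m) :
        rootsOfUnity p (AlgebraicClosure ℚ)) : (AlgebraicClosure ℚ)ˣ) : AlgebraicClosure ℚ)
    rw [h1]
    exact muPRep_apply p g _
  range_eq := by
    intro b
    constructor
    · intro hb
      have h1 : ((Additive.toMul (K.sUnitsIncl S b) : K.Qbarˣ)) ^ p = 1 := by
        have := congrArg (fun t : K.sUnits S => (Additive.toMul (K.sUnitsIncl S t) : K.Qbarˣ)) hb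
        exact this
      let t : rootsOfUnity p (AlgebraicClosure ℚ) :=
        ⟨Additive.toMul (K.sUnitsIncl S b), (mem_rootsOfUnity p _).2 h1⟩
      refine ⟨(muPLinearEquiv p).symm (MuP.of p t), ?_⟩
      apply sUnits_ext
      show (((MuP.root (p := p) (muPLinearEquiv p ((muPLinearEquiv p).symm (MuP.of p t))) :
        rootsOfUnity p (AlgebraicClosure ℚ)) : (AlgebraicClosure ℚ)ˣ) : AlgebraicClosure ℚ) = _
      rw [LinearEquiv.apply_symm_apply]
      rfl
    · rintro ⟨m, rfl⟩
      exact H53.p_nsmul_ι (ι := kappa0 p S) m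

/-! ## 2. Smooth elements of induced modules; `LCDivisible` for `Ind_U 𝔼` -/

section IndSmooth

variable {G : Type} [Group G] {L : LevelSys G} {k : Type} [CommRing k]

/-- An element acting trivially on `G ⧸ U` acts on `Ind_U B` through the coefficients. -/
lemma indActR_eq_mapRange {U : Subgroup G} (B : Rep.{0, 0, 0} k G) {s : G}
    (hs : ∀ c : G ⧸ U, s • c = c) (a : (G ⧸ U) →₀ B) :
    indActR U B s a = Finsupp.mapRange.linearMap (B.ρ s) a := by
  have h : (fun c : G ⧸ U => s • c) = id := funext hs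
  rw [indActR, h, LinearMap.comp_apply, Finsupp.lmapDomain_apply, Finsupp.mapDomain_id]

/-- For an open subgroup `U`, an element of `Ind_U B` is smooth iff all its values are. -/
lemma isSmoothElt_indR_iff (hN : L.NormalCofinal) {U : Subgroup G} (hU : IsOpenSub L U)
    (B : Rep.{0, 0, 0} k G) (a : (G ⧸ U) →₀ B) :
    IsSmoothElt L (indR U B) a ↔ ∀ c, IsSmoothElt L B (a c) := by
  obtain ⟨U₀, hU₀, hU₀U⟩ := hU
  constructor
  · rintro ⟨W, hW, hfix⟩ c
    obtain ⟨W', hW', hle⟩ := L.directed W hW U₀ hU₀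
    obtain ⟨N, hNl, hNW, hNn⟩ := hN W' hW'
    refine ⟨N, hNl, fun s hs => ?_⟩
    have h1 : indActR U B s a = a := hfix s (hle (hNW hs)).1
    haveI := hNn
    rw [indActR_eq_mapRange B
      (fun c => H323.smul_coset_eq_h323 (fun t ht => hU₀U (hle (hNW ht)).2) hs c) a] at h1
    have := DFunLike.congr_fun h1 c
    simpa using this
  · intro hval
    classical
    have hfin : (Set.range a).Finite := by
      refine (a.support.finite_toSet.image a |>.union (Set.finite_singleton 0)).subset ?_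
      rintro _ ⟨c, rfl⟩
      by_cases hc : a c = 0
      · exact Or.inr hc
      · exact Or.inl ⟨c, Finsupp.mem_support_iff.2 hc, rfl⟩
    obtain ⟨W, hW, hfix⟩ := exists_level_fixing_of_finite (L := L) hfin
      (by rintro _ ⟨c, rfl⟩; exact hval c)
    obtain ⟨W', hW', hle⟩ := L.directed W hW U₀ hU₀
    obtain ⟨N, hNl, hNW, hNn⟩ := hN W' hW'
    refine ⟨N, hNl, fun s hs => ?_⟩
    haveI := hNn
    show indActR U B s a = a
    rw [indActR_eq_mapRange B
      (fun c => H323.smul_coset_eq_h323 (fun t ht => hU₀U (hle (hNW ht)).2) hs c) a]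
    ext c
    simp only [Finsupp.mapRange.linearMap_apply, Finsupp.mapRange_apply]
    exact hfix (a c) ⟨c, rfl⟩ s (hle (hNW hs)).1

/-- Kummer-type divisibility passes to induced modules. -/
lemma kummer_indR (hN : L.NormalCofinal) {U : Subgroup G} (hU : IsOpenSub L U) (p : ℕ)
    (B : Rep.{0, 0, 0} ℤ G)
    (hK : ∀ x : B, IsSmoothElt L B x → ∃ y : B, p • y = x ∧ IsSmoothElt L B y)
    (a : indR U B) (ha : IsSmoothElt L (indR U B) a) :
    ∃ y : indR U B, p • y = a ∧ IsSmoothElt L (indR U B) y := by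
  classical
  have hval := (isSmoothElt_indR_iff hN hU B a).1 ha
  let root : B → B := fun x =>
    if hx0 : x = 0 then 0 else if hx : IsSmoothElt L B x then (hK x hx).choose else 0
  have hroot0 : root 0 = 0 := by simp [root]
  have hroot : ∀ x, IsSmoothElt L B x → p • root x = x ∧ IsSmoothElt L B (root x) := by
    intro x hx
    by_cases hx0 : x = 0
    · subst hx0
      rw [hroot0]
      exact ⟨smul_zero _, hx⟩
    · simp only [root, dif_neg hx0, dif_pos hx]
      exact (hK x hx).choose_spec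
  refine ⟨Finsupp.mapRange root hroot0 (a : (G ⧸ U) →₀ B), ?_, ?_⟩
  · show p • Finsupp.mapRange root hroot0 (a : (G ⧸ U) →₀ B) = a
    ext c
    simp only [Finsupp.smul_apply, Finsupp.mapRange_apply]
    exact (hroot _ (hval c)).1
  · refine (isSmoothElt_indR_iff hN hU B _).2 fun c => ?_
    show IsSmoothElt L B (Finsupp.mapRange root hroot0 (a : (G ⧸ U) →₀ B) c)
    rw [Finsupp.mapRange_apply]
    exact (hroot _ (hval c)).2

end IndSmooth

/-- `Ind_U 𝔼` is `LCDivisible` (from KUM). -/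
theorem lcDivisible_ind_sUnits (hpS : pPrime p ∈ S) (hKUM : K.KummerSpec p S)
    (U : Subgroup _root_.Fermat.Agent.S55.PT.GQ) (hU : U ∈ (globalLevels S).levels) :
    LCDivisible (globalLevels S) p (K.indG U (K.sUnits S)) :=
  lcDivisible_of_kummer (H723.globalLevels_normalCofinal S) (H723.globalLevels_finiteIndex S) p _
    (kummer_indR (H723.globalLevels_normalCofinal S) ⟨U, hU, le_rfl⟩ p (K.sUnits S) (hKUM hpS))

/-! ## 3. The local modules `Ind_U ℚ̄_qˣ` -/

section Local

variable (q : Nat.Primes)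

/-- `ℚ̄_qˣ` is `p`-divisible. -/
lemma isPDivisible_unitsQpbar : IsPDivisible p (Tow.unitsQpbar q) := by
  letI : Fact (q : ℕ).Prime := ⟨q.2⟩
  intro b
  let u : (PadicAlgCl (q : ℕ))ˣ := Additive.toMul b
  obtain ⟨z, hz⟩ := IsAlgClosed.exists_pow_nat_eq (u : PadicAlgCl (q : ℕ))
    (Fact.out : p.Prime).pos
  have hz0 : z ≠ 0 := by
    rintro rfl
    rw [zero_pow (Fact.out : p.Prime).ne_zero] at hz
    exact u.ne_zero hz.symm
  refine ⟨Additive.ofMul (Units.mk0 z hz0), ?_⟩
  apply Additive.toMul.injective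
  apply Units.ext
  exact hz

/-- `ℚ̄_qˣ` is smooth for the local level system (Krasner). -/
lemma isSmooth_unitsQpbar : (localLevels q).IsSmooth (Tow.unitsQpbar q) := by
  letI : Fact (q : ℕ).Prime := ⟨q.2⟩
  intro b
  let u : (PadicAlgCl (q : ℕ))ˣ := Additive.toMul b
  obtain ⟨c, hc⟩ := exists_global_generator (q : ℕ) (u : PadicAlgCl (q : ℕ))
  haveI : Algebra.IsAlgebraic ℚ (AlgebraicClosure ℚ) := AlgebraicClosure.isAlgebraic ℚ
  haveI : FiniteDimensional ℚ (IntermediateField.adjoin ℚ {c}) :=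
    IntermediateField.adjoin.finiteDimensional (Algebra.IsIntegral.isIntegral c)
  refine ⟨_, ⟨IntermediateField.adjoin ℚ {c}, inferInstance, rfl⟩, fun s hs => ?_⟩
  have hs' : rl q s ∈ (IntermediateField.adjoin ℚ {c}).fixingSubgroup := hs
  have hsc : rl q s c = c := by
    have := (IntermediateField.mem_fixingSubgroup_iff _ _).1 hs' c
      (IntermediateField.mem_adjoin_simple_self ℚ c)
    exact this
  let τ : PadicAlgCl (q : ℕ) ≃ₐ[ℚ_[(q : ℕ)]] PadicAlgCl (q : ℕ) := s
  have h1 : τ (u : PadicAlgCl (q : ℕ)) = u := fixes_adjoin_of_fixes (q : ℕ) τ c hsc _ hc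
  apply Additive.toMul.injective
  apply Units.ext
  exact h1

variable {q}

/-- `𝔼 → ℚ̄_qˣ` is equivariant along `G_{ℚ_q} → G_ℚ`. -/
lemma locE_equivariant (g : Gl q) (e : K.sUnits S) :
    K.locE q S ((K.sUnits S).ρ (rl q g) e) = (Tow.unitsQpbar q).ρ g (K.locE q S e) := by
  letI : Fact (q : ℕ).Prime := ⟨q.2⟩
  apply Additive.toMul.injective
  apply Units.ext
  exact padicEmbedding_localGaloisToGlobal (q : ℕ) g _

lemma locE_injective : Function.Injective (K.locE q S) := by
  letI : Fact (q : ℕ).Prime := ⟨q.2⟩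
  intro a b hab
  apply sUnits_ext
  have h1 := congrArg (fun t : Tow.unitsQpbar q =>
    ((Additive.toMul t : (PadicAlgCl (q : ℕ))ˣ) : PadicAlgCl (q : ℕ))) hab
  exact (padicEmbedding (q : ℕ)).toRingHom.injective h1

variable (q)

/-- `μ_p → ℚ̄_qˣ`. -/
def locMu : (mu p) →+ (Tow.unitsQpbar q) :=
  (K.locE q S).toAddMonoidHom.comp (kappa0 p S)

/-- `μ_p → ℚ̄_qˣ` is a Kummer embedding of `μ_p|_{G_q}`. -/
theorem isKummerEmb_locMu :
    IsKummerEmb p (Rep.res (rl q) (mu p)) (Tow.unitsQpbar q) (locMu p S q) where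
  injective := (locE_injective S).comp (isKummerEmb_kappa0 p S).injective
  equivariant := by
    intro g m
    show K.locE q S (kappa0 p S ((mu p).ρ (rl q g) m)) = _
    rw [(isKummerEmb_kappa0 p S).equivariant, locE_equivariant]
    rfl
  range_eq := by
    letI : Fact (q : ℕ).Prime := ⟨q.2⟩
    haveI : NeZero p := ⟨(Fact.out : p.Prime).ne_zero⟩
    intro b
    constructor
    · intro hb
      obtain ⟨ζ, hζ⟩ := HasEnoughRootsOfUnity.exists_primitiveRoot (AlgebraicClosure ℚ) p
      have hζ' : IsPrimitiveRoot (padicEmbedding (q : ℕ) ζ) p :=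
        hζ.map_of_injective (padicEmbedding (q : ℕ)).toRingHom.injective
      let u : (PadicAlgCl (q : ℕ))ˣ := Additive.toMul b
      have hu : (u : PadicAlgCl (q : ℕ)) ^ p = 1 := by
        have := congrArg (fun t : Tow.unitsQpbar q =>
          ((Additive.toMul t : (PadicAlgCl (q : ℕ))ˣ) : PadicAlgCl (q : ℕ))) hb
        exact this
      obtain ⟨i, -, hi⟩ := hζ'.eq_pow_of_pow_eq_one hu
      have hζ0 : ζ ≠ 0 := hζ.ne_zero (Fact.out : p.Prime).ne_zero
      let w : K.Qbarˣ := (Units.mk0 ζ hζ0) ^ i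
      have hw : w ^ p = 1 := by
        apply Units.ext
        simp only [w, Units.val_pow_eq_pow_val, Units.val_mk0, Units.val_one]
        rw [← pow_mul, mul_comm, pow_mul, hζ.pow_eq_one, one_pow]
      let e : K.sUnits S := ⟨Additive.ofMul w,
        K.isSUnit_of_pow_eq_one S (Fact.out : p.Prime).ne_zero hw⟩
      have he : p • e = 0 := by
        apply sUnits_ext
        show ((w : K.Qbarˣ) : K.Qbar) ^ p = 1
        rw [← Units.val_pow_eq_pow_val, hw, Units.val_one]
      obtain ⟨m, hm⟩ := ((isKummerEmb_kappa0 p S).range_eq e).1 he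
      refine ⟨m, ?_⟩
      show K.locE q S (kappa0 p S m) = b
      rw [hm]
      apply Additive.toMul.injective
      apply Units.ext
      show padicEmbedding (q : ℕ) ((w : K.Qbarˣ) : K.Qbar) = (u : PadicAlgCl (q : ℕ))
      simp only [w, Units.val_pow_eq_pow_val, Units.val_mk0, map_pow]
      exact hi
    · rintro ⟨m, rfl⟩
      exact H53.p_nsmul_ι (ι := locMu p S q) m

end Local

/-! ## 4. Induced modules along `φ : H → G` -/

section IndRes

variable {G H : Type} [Group G] [Group H] (φ : H →* G) (U : Subgroup G)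

/-- Finitely supported functions: the `p`-torsion is the image of `mapRange ι`. -/
lemma mapRange_range_eq {p : ℕ} {X M B : Type} [AddCommGroup M] [AddCommGroup B] (ι : M →+ B)
    (hinj : Function.Injective ι) (hr : ∀ y : B, p • y = 0 ↔ y ∈ Set.range ι) (b : X →₀ B) :
    p • b = 0 ↔ b ∈ Set.range (Finsupp.mapRange.addMonoidHom ι : (X →₀ M) →+ (X →₀ B)) := by
  constructor
  · intro hb
    classical
    have hmem : ∀ y : B, p • y = 0 → ∃ m : M, ι m = y := fun y hy => (hr y).1 hy
    let f : B → M := fun y => if h : ∃ m : M, ι m = y then h.choose else 0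
    have hf0 : f 0 = 0 := by
      have h : ∃ m : M, ι m = 0 := ⟨0, map_zero ι⟩
      have h2 : ι (f 0) = ι 0 := by
        simp only [f, dif_pos h, map_zero]
        exact h.choose_spec
      exact hinj h2
    have hfy : ∀ y : B, p • y = 0 → ι (f y) = y := by
      intro y hy
      have h := hmem y hy
      simp only [f, dif_pos h]
      exact h.choose_spec
    refine ⟨Finsupp.mapRange f hf0 b, ?_⟩
    ext x
    rw [Finsupp.mapRange.addMonoidHom_apply, Finsupp.mapRange_apply, Finsupp.mapRange_apply]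
    apply hfy
    have := DFunLike.congr_fun hb x
    simpa using this
  · rintro ⟨m, rfl⟩
    ext x
    rw [Finsupp.smul_apply, Finsupp.mapRange.addMonoidHom_apply, Finsupp.mapRange_apply,
      Finsupp.zero_apply]
    exact (hr _).2 ⟨m x, rfl⟩

/-- `Ind_U` (along `φ`) of a Kummer embedding is a Kummer embedding. -/
theorem isKummerEmb_ind_res {p : ℕ} [Fact p.Prime] (M : Rep.{0, 0, 0} (ZMod p) G)
    (B : Rep.{0, 0, 0} ℤ H) (ι : M →+ B) (hK : IsKummerEmb p (Rep.res φ M) B ι) :
    IsKummerEmb p (Rep.res φ (indRep U M)) (K.ind φ U B)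
      (Finsupp.mapRange.addMonoidHom ι : ((G ⧸ U) →₀ M) →+ ((G ⧸ U) →₀ B)) where
  injective := Finsupp.mapRange_injective ι (map_zero ι) hK.injective
  equivariant := by
    intro g m
    change Finsupp.mapRange.addMonoidHom ι (indAct U M (φ g) m) =
      K.indρ φ U B g (Finsupp.mapRange.addMonoidHom ι m)
    induction m using Finsupp.induction_linear with
    | zero => simp
    | add a b ha hb => rw [map_add, map_add, map_add, map_add, ha, hb]
    | single x m =>
      rw [indAct_single, Finsupp.mapRange.addMonoidHom_apply, Finsupp.mapRange_single,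
        Finsupp.mapRange.addMonoidHom_apply, Finsupp.mapRange_single, K.indρ_single]
      congr 1
      exact hK.equivariant g m
  range_eq := fun b => mapRange_range_eq (X := G ⧸ U) ι hK.injective hK.range_eq b

/-- `Ind_U B` (along `φ`) is smooth if `B` is, `U` is normal and `φ⁻¹ U` is open. -/
theorem isSmooth_ind_res (L' : LevelSys H) [hUn : U.Normal]
    (hU : ∃ N₀ ∈ L'.levels, N₀ ≤ U.comap φ) {k : Type} [CommRing k]
    (B : Rep.{0, 0, 0} k H) (hB : L'.IsSmooth B) : L'.IsSmooth (K.ind φ U B) := by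
  obtain ⟨N₀, hN₀, hN₀U⟩ := hU
  intro a
  change ∃ W ∈ L'.levels, ∀ s ∈ W, K.indρ φ U B s a = a
  induction a using Finsupp.induction_linear with
  | zero => exact ⟨N₀, hN₀, fun s _ => map_zero _⟩
  | add a b ha hb =>
    obtain ⟨U₁, hU₁, h₁⟩ := ha
    obtain ⟨U₂, hU₂, h₂⟩ := hb
    obtain ⟨W, hW, hWle⟩ := L'.directed U₁ hU₁ U₂ hU₂
    exact ⟨W, hW, fun s hs => by rw [map_add, h₁ s (hWle hs).1, h₂ s (hWle hs).2]⟩
  | single x b =>
    obtain ⟨U₁, hU₁, h₁⟩ := hB b
    obtain ⟨W, hW, hWle⟩ := L'.directed N₀ hN₀ U₁ hU₁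
    refine ⟨W, hW, fun s hs => ?_⟩
    rw [K.indρ_single, h₁ s (hWle hs).2,
      H323.smul_coset_eq_h323 (le_refl U) (hN₀U (hWle hs).1)]

end IndRes

/-! ## 5. GO4 and the main theorem -/

/-- **GO4** (arithmetic input of layer K, cochain form, conventions of `K/Spec.lean`).
For a normal level `U` acting trivially on `μ_p` (`K = ℚ̄^U ⊇ ℚ(μ_p)`), the cokernel of
`H²(G_S(K), 𝒪_Sˣ)[p] → ∏_{q ∈ S} H²(G_q, Ind_U ℚ̄_qˣ)[p] = ⊕_{w ∣ S} Br(K_w)[p]`
has at most `p` elements: any two families of local classes killed by `p` are linearly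
dependent (over `F_p`) modulo the global classes killed by `p`.
(Classically: the image is the kernel of the sum of the local invariants.) -/
def GO4Spec : Prop :=
  p ≠ 2 → pPrime p ∈ S →
  ∀ U : Subgroup _root_.Fermat.Agent.S55.PT.GQ, U ∈ (globalLevels S).levels → U.Normal → (∀ s ∈ U, (mu p).ρ s = 1) →
    TwoFamily (ι := ↥S) (globalLevels S) (fun v => localLevels v.1) (fun v => rl v.1) p
      (K.indG U (K.sUnits S)) (fun v => K.ind (rl v.1) U (Tow.unitsQpbar v.1))
      (fun v => (K.indLocE v.1 S U).toAddMonoidHom)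

/-- **Semi-local Hilbert 90.**  `H¹_lc(G_q, Ind_U ℚ̄_qˣ) = 0` for a normal global level `U`
(`= ⊕_{w ∣ q} H¹(K_w, ℚ̄_qˣ)`, `K = ℚ̄^U`). -/
def SemiLocalH90Spec : Prop :=
  ∀ (v : ↥S) (U : Subgroup _root_.Fermat.Agent.S55.PT.GQ), U ∈ (globalLevels S).levels → U.Normal →
    H1Vanish (localLevels v.1) (K.ind (rl v.1) U (Tow.unitsQpbar v.1))

lemma indLocE_equivariant (q : Nat.Primes) (U : Subgroup _root_.Fermat.Agent.S55.PT.GQ) (g : Gl q)
    (e : K.indG U (K.sUnits S)) :
    K.indLocE q S U ((K.indG U (K.sUnits S)).ρ (rl q g) e) =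
      (K.ind (rl q) U (Tow.unitsQpbar q)).ρ g (K.indLocE q S U e) := by
  change Finsupp.mapRange.linearMap (K.locE q S)
      (K.indρ (MonoidHom.id _root_.Fermat.Agent.S55.PT.GQ) U (K.sUnits S) (rl q g) e) =
    K.indρ (rl q) U (Tow.unitsQpbar q) g (Finsupp.mapRange.linearMap (K.locE q S) e)
  induction e using Finsupp.induction_linear with
  | zero => simp
  | add a b ha hb => rw [map_add, map_add, map_add, map_add, ha, hb]
  | single x m =>
    rw [K.indρ_single, Finsupp.mapRange.linearMap_apply, Finsupp.mapRange_single,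
      Finsupp.mapRange.linearMap_apply, Finsupp.mapRange_single, K.indρ_single,
      locE_equivariant]
    rfl

lemma indLocE_comp_indEmb (q : Nat.Primes) (U : Subgroup _root_.Fermat.Agent.S55.PT.GQ) :
    ((K.indLocE q S U).toAddMonoidHom.comp (indEmb p U (mu p) (K.sUnits S) (kappa0 p S)) :
      ((_root_.Fermat.Agent.S55.PT.GQ ⧸ U) →₀ (mu p)) →+ ((_root_.Fermat.Agent.S55.PT.GQ ⧸ U) →₀ (Tow.unitsQpbar q))) =
      Finsupp.mapRange.addMonoidHom (locMu p S q) := by
  apply AddMonoidHom.ext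
  intro m
  change Finsupp.mapRange (K.locE q S) (map_zero _)
      (Finsupp.mapRange (kappa0 p S) (map_zero _) m) =
    Finsupp.mapRange (locMu p S q) (map_zero _) m
  ext c
  simp only [Finsupp.mapRange_apply]
  rfl

/-- **INV-COK.**  `GlobCokerSpec` from KUM, GO4 and semi-local Hilbert 90. -/
theorem globCoker_of (hp2 : p ≠ 2) (hpS : pPrime p ∈ S) (hKUM : K.KummerSpec p S)
    (hH90 : SemiLocalH90Spec S) (hGO4 : GO4Spec p S) : GlobCokerSpec p S := by
  intro U hU hUn hUμ
  haveI := hUn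
  refine exists_functional_of_twoFamily (hrl S) (p := p) (M := indRep U (mu p))
    (E := K.indG U (K.sUnits S))
    (κ := indEmb p U (mu p) (K.sUnits S) (kappa0 p S))
    (B := fun v => K.ind (rl v.1) U (Tow.unitsQpbar v.1))
    (lam := fun v => (K.indLocE v.1 S U).toAddMonoidHom)
    (lcDivisible_ind_sUnits p S hpS hKUM U hU)
    (H323.isKummerEmb_ind_h323 p _ _ _ U (isKummerEmb_kappa0 p S))
    (fun v g e => indLocE_equivariant S v.1 U g e)
    (fun v => isSmooth_ind_res (rl v.1) U (localLevels v.1) (hrl S v U hU) _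
      (isSmooth_unitsQpbar v.1))
    (fun v => H323.isPDivisible_finsupp_h323 p (isPDivisible_unitsQpbar p v.1))
    (fun v => ?_) (fun v => hH90 v U hU hUn) (hGO4 hp2 hpS U hU hUn hUμ)
  have h := isKummerEmb_ind_res (rl v.1) U (mu p) (Tow.unitsQpbar v.1) (locMu p S v.1)
    (isKummerEmb_locMu p S v.1)
  rw [← indLocE_comp_indEmb] at h
  exact h

end Fermat.Agent.S55.Inv.H99

end
end
-- ===== PACK-END S55/Inv/CokH99.lean

-- ===== PACK-BEGIN S55/Inv/H90H99.lean
section
/-
S55 (Poitou–Tate), route C′, input `InvSpec`, leaf INV-COK (helper99), part 3: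
semi-local Hilbert 90, unconditionally, and

    globCoker_of' : p ≠ 2 → pPrime p ∈ S → K.KummerSpec p S → GO4Spec p S → Inv.GlobCokerSpec p S,
    globCoker_of_GO4 : p ≠ 2 → pPrime p ∈ S → GO4Spec p S → Inv.GlobCokerSpec p S
    (KUM = `K.H724.kummer`, on main).

* `h1Vanish_ind_of_stab` : Shapiro in degree 1, cochain form (any `φ : H → G`, `U ≤ G` of finite
  index, `B : Rep ℤ H`): if the level-constant 1-cocycles of the stabilisers are coboundaries,
  then `H¹_lc(H, Ind_U B) = 0`.
* `hilbert90_open` : Hilbert 90 for the open subgroups of `G_{ℚ_q}` acting on `ℚ̄_qˣ`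
  (Poincaré series, `G/Rec/K5H379`, with the number field cut out by a level as monoid).
* `semiLocalH90 : SemiLocalH90Spec S`.
-/




set_option autoImplicit false
set_option linter.style.haveILetI false
set_option linter.unusedSectionVars false
noncomputable section
namespace Fermat.Agent.S55.Inv.H99

open groupCohomology ExtCitation Fermat.Agent.S55.PT Fermat.Agent.S55.KC Fermat.Agent.S55.Bridge

/-! ## 1. Shapiro in degree 1 (cochain form) -/

section Shapiro1

variable {G H : Type} [Group G] [Group H] (φ : H →* G) (U : Subgroup G)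
  (B : Rep.{0, 0, 0} ℤ H)

/-- The stabiliser in `H` of a coset `x ∈ G ⧸ U` (`H` acts through `φ`). -/
def stab (x : G ⧸ U) : Subgroup H := (MulAction.stabilizer G x).comap φ

lemma mem_stab_iff (x : G ⧸ U) (s : H) : s ∈ stab φ U x ↔ φ s • x = x := Iff.rfl

/-- Evaluation of the action on `Ind_U B`. -/
lemma indρ_apply (g : H) (a : (G ⧸ U) →₀ B) (y : G ⧸ U) :
    (K.indρ φ U B g a) y = B.ρ g (a ((φ g)⁻¹ • y)) := by
  have h1 : K.indρ φ U B g a =
      Finsupp.mapDomain (fun x : G ⧸ U => φ g • x) (Finsupp.mapRange (B.ρ g) (map_zero _) a) :=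
    rfl
  have h2 : y = (fun x : G ⧸ U => φ g • x) ((φ g)⁻¹ • y) := by
    simp
  rw [h1]
  conv_lhs => rw [h2]
  rw [Finsupp.mapDomain_apply (MulAction.injective (φ g)), Finsupp.mapRange_apply]

/-- **Shapiro in degree 1, cochain form.**  If for every coset `x` the level-constant 1-cocycles
of the stabiliser of `x` with values in `B` are coboundaries, then `H¹_lc(H, Ind_U B) = 0`. -/
theorem h1Vanish_ind_of_stab (L' : LevelSys H) [Finite (G ⧸ U)]
    (hstab : ∀ (x : G ⧸ U) (ψ : H → B),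
      (∀ s ∈ stab φ U x, ∀ t ∈ stab φ U x, ψ (s * t) = B.ρ s (ψ t) + ψ s) →
      L'.IsLC₁ ψ →
      ∃ a₀ : B, ∀ s ∈ stab φ U x, B.ρ s a₀ - a₀ = ψ s) :
    H1Vanish L' (K.ind φ U B) := by
  classical
  intro f hf hflc
  let F : H → ((G ⧸ U) →₀ B) := f
  have hcoc : ∀ g h : H, F (g * h) = K.indρ φ U B g (F h) + F g := fun g h =>
    (mem_cocycles₁_iff f).1 hf g h
  have hcocy : ∀ (g h : H) (y : G ⧸ U), F (g * h) y = B.ρ g (F h ((φ g)⁻¹ • y)) + F g y := by
    intro g h y
    rw [hcoc, Finsupp.add_apply, indρ_apply]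
  -- the components are cocycles on the stabilisers
  have hψ : ∀ x : G ⧸ U, ∃ a₀ : B, ∀ s ∈ stab φ U x, B.ρ s a₀ - a₀ = F s x := by
    intro x
    refine hstab x (fun s => F s x) ?_ ?_
    · intro s hs t _
      show F (s * t) x = B.ρ s (F t x) + F s x
      rw [hcocy]
      have h1 : (φ s)⁻¹ • x = x := by
        have h2 : φ s • x = x := hs
        rw [inv_smul_eq_iff, h2]
      rw [h1]
    · obtain ⟨W, hW, h⟩ := hflc
      refine ⟨W, hW, fun g s hs => ?_⟩
      show F (g * s) x = F g x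
      have : F (g * s) = F g := h g s hs
      rw [this]
  choose a₀ ha₀ using hψ
  -- orbit representatives
  let P : G ⧸ U → G ⧸ U → Prop := fun y y' => ∃ h : H, φ h • y' = y
  have hPne : ∀ y, ∃ y', P y y' := fun y => ⟨y, 1, by simp⟩
  haveI : Nonempty (G ⧸ U) := ⟨((1 : G) : G ⧸ U)⟩
  let rep : G ⧸ U → G ⧸ U := fun y => Classical.epsilon (P y)
  have hrep : ∀ y, P y (rep y) := fun y => Classical.epsilon_spec (hPne y)
  have hP_eq : ∀ (h : H) (y : G ⧸ U), P (φ h • y) = P y := by
    intro h y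
    funext y'
    apply propext
    constructor
    · rintro ⟨h', hh'⟩
      refine ⟨h⁻¹ * h', ?_⟩
      rw [map_mul, mul_smul, hh', map_inv, inv_smul_smul]
    · rintro ⟨h', hh'⟩
      refine ⟨h * h', ?_⟩
      rw [map_mul, mul_smul, hh']
  have hrep_eq : ∀ (h : H) (y : G ⧸ U), rep (φ h • y) = rep y := by
    intro h y
    show Classical.epsilon (P (φ h • y)) = Classical.epsilon (P y)
    rw [hP_eq]
  choose gy hgy using hrep
  -- the primitive
  let a : G ⧸ U → B := fun y => B.ρ (gy y) (a₀ (rep y)) - F (gy y) y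
  let a' : (G ⧸ U) →₀ B := Finsupp.equivFunOnFinite.symm a
  have ha' : ∀ y, a' y = a y := fun y => rfl
  refine ⟨a', ?_⟩
  funext h
  change K.indρ φ U B h a' - a' = F h
  ext y
  rw [Finsupp.sub_apply, indρ_apply, ha', ha']
  -- notation
  set y' : G ⧸ U := (φ h)⁻¹ • y with hy'
  have hyy' : y' = φ h⁻¹ • y := by rw [hy', map_inv]
  have hrep' : rep y' = rep y := by rw [hyy', hrep_eq]
  set g' : H := gy y' with hg'
  have hg'y : φ g' • rep y = y' := by
    have := hgy y'
    rwa [hrep'] at this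
  set s : H := (gy y)⁻¹ * h * g' with hs
  have hsmem : s ∈ stab φ U (rep y) := by
    show φ s • rep y = rep y
    rw [hs, map_mul, map_mul, mul_smul, mul_smul, hg'y, hy', smul_inv_smul, map_inv,
      inv_smul_eq_iff, hgy y]
  have hmul : h * g' = gy y * s := by
    rw [hs]; group
  -- (1)
  have e1 : F (h * g') y = B.ρ h (F g' y') + F h y := hcocy h g' y
  -- (2)
  have e2 : F (h * g') y = B.ρ (gy y) (F s (rep y)) + F (gy y) y := by
    rw [hmul, hcocy]
    have : (φ (gy y))⁻¹ • y = rep y := by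
      rw [inv_smul_eq_iff, hgy y]
    rw [this]
  -- (3)
  have e3 : B.ρ s (a₀ (rep y)) - a₀ (rep y) = F s (rep y) := ha₀ (rep y) s hsmem
  -- (4)
  have e4a : ∀ (g₁ g₂ : H) (v : B), B.ρ (g₁ * g₂) v = B.ρ g₁ (B.ρ g₂ v) := fun g₁ g₂ v => by
    rw [map_mul]; rfl
  have e4 : B.ρ h (B.ρ g' (a₀ (rep y))) = B.ρ (gy y) (B.ρ s (a₀ (rep y))) := by
    rw [← e4a, ← e4a, hmul]
  show B.ρ h (a y') - a y = F h y
  simp only [a]
  rw [hrep', map_sub, e4]
  have e5 : B.ρ s (a₀ (rep y)) = a₀ (rep y) + F s (rep y) := by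
    rw [← e3]; abel
  rw [e5, map_add]
  have e6 : B.ρ h (F g' y') = B.ρ (gy y) (F s (rep y)) + F (gy y) y - F h y := by
    rw [← e2, e1]; abel
  rw [e6]
  abel

end Shapiro1

/-! ## 2. Hilbert 90 for the open subgroups of `G_{ℚ_q}` -/

section H90

variable (q : Nat.Primes)

/-- **Hilbert 90 for open subgroups of `G_{ℚ_q}`** (cochain form).  A level-constant function
`ψ : G_q → ℚ̄_qˣ` which is a 1-cocycle on the open subgroup `H'` is a coboundary on `H'`.
(Poincaré series: `G/Rec/K5H379`.) -/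
theorem hilbert90_open (H' : Subgroup (Gl q))
    (hopen : ∃ W ∈ (localLevels q).levels, W ≤ H') (ψ : Gl q → Tow.unitsQpbar q)
    (hψ : ∀ s ∈ H', ∀ t ∈ H', ψ (s * t) = (Tow.unitsQpbar q).ρ s (ψ t) + ψ s)
    (hlc : (localLevels q).IsLC₁ ψ) :
    ∃ a₀ : Tow.unitsQpbar q, ∀ s ∈ H', (Tow.unitsQpbar q).ρ s a₀ - a₀ = ψ s := by
  letI : Fact (q : ℕ).Prime := ⟨q.2⟩
  -- a common level
  obtain ⟨W₁, hW₁, hW₁H⟩ := hopen
  obtain ⟨W₀, hW₀, hψW₀⟩ := hlc
  obtain ⟨W, hW, hWle⟩ := (localLevels q).directed W₀ hW₀ W₁ hW₁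
  obtain ⟨F, hF, rfl⟩ := hW
  haveI : (F.fixingSubgroup.comap (rl q)).FiniteIndex :=
    H723.pullbackLevels_finiteIndex (rl q) _ ⟨F, hF, rfl⟩
  -- the action of `H'` on `ℚ̄_q`
  let toAut : Gl q →* (PadicAlgCl (q : ℕ) ≃ₐ[ℚ_[(q : ℕ)]] PadicAlgCl (q : ℕ)) := MonoidHom.id _
  letI : MulSemiringAction (↥H') (PadicAlgCl (q : ℕ)) :=
    MulSemiringAction.compHom (PadicAlgCl (q : ℕ)) (toAut.comp H'.subtype)
  have hsmul : ∀ (g : ↥H') (z : PadicAlgCl (q : ℕ)), g • z = toAut (g : Gl q) z := fun _ _ => rfl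
  have hemb : ∀ (g : Gl q) (z : AlgebraicClosure ℚ),
      toAut g (padicEmbedding (q : ℕ) z) = padicEmbedding (q : ℕ) (rl q g z) := fun g z =>
    (padicEmbedding_localGaloisToGlobal (q : ℕ) g z).symm
  -- the monoid `F` and its image
  let ι : ↥F →* PadicAlgCl (q : ℕ) :=
    ((padicEmbedding (q : ℕ)).toRingHom.comp (algebraMap ↥F (AlgebraicClosure ℚ)) :
      ↥F →+* PadicAlgCl (q : ℕ)).toMonoidHom
  have hι : ∀ z : ↥F, ι z = padicEmbedding (q : ℕ) (z : AlgebraicClosure ℚ) := fun _ => rfl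
  let N : Subgroup ↥H' := (F.fixingSubgroup.comap (rl q)).subgroupOf H'
  have hfix : ∀ s ∈ N, ∀ z, s • ι z = ι z := by
    intro s hs z
    have hs' : rl q (s : Gl q) ∈ F.fixingSubgroup := hs
    rw [hsmul, hι, hemb]
    congr 1
    exact (IntermediateField.mem_fixingSubgroup_iff _ _).1 hs' z z.2
  have hN : ∀ g : ↥H', (∀ z, g • ι z = ι z) → g ∈ N := by
    intro g hg
    show rl q (g : Gl q) ∈ F.fixingSubgroup
    rw [IntermediateField.mem_fixingSubgroup_iff]
    intro z hz
    have := hg ⟨z, hz⟩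
    rw [hsmul, hι, hemb] at this
    exact (padicEmbedding (q : ℕ)).toRingHom.injective this
  -- the cocycle
  let φ' : ↥H' → PadicAlgCl (q : ℕ) := fun g =>
    ((Additive.toMul (ψ (g : Gl q)) : (PadicAlgCl (q : ℕ))ˣ) : PadicAlgCl (q : ℕ))
  have hφ0 : ∀ g, φ' g ≠ 0 := fun g => Units.ne_zero _
  have hφ : ∀ g h, φ' (g * h) = φ' g * g • φ' h := by
    intro g h
    have h1 := hψ g g.2 h h.2
    have h2 := congrArg (fun t : Tow.unitsQpbar q =>
      ((Additive.toMul t : (PadicAlgCl (q : ℕ))ˣ) : PadicAlgCl (q : ℕ))) h1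
    show ((Additive.toMul (ψ ((g : Gl q) * (h : Gl q))) : (PadicAlgCl (q : ℕ))ˣ) :
      PadicAlgCl (q : ℕ)) = _
    rw [mul_comm]
    exact h2
  have hlev : ∀ g, ∀ s ∈ N, φ' (g * s) = φ' g := by
    intro g s hs
    show ((Additive.toMul (ψ ((g : Gl q) * (s : Gl q))) : (PadicAlgCl (q : ℕ))ˣ) :
      PadicAlgCl (q : ℕ)) = _
    rw [hψW₀ g s (hWle hs).1]
  obtain ⟨c, hc, hcφ⟩ := G.Rec.K5H379.exists_mul_smul_eq ι N hfix hN φ' hφ0 hφ hlev
  refine ⟨Additive.ofMul (Units.mk0 c⁻¹ (inv_ne_zero hc)), fun s hs => ?_⟩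
  apply Additive.toMul.injective
  apply Units.ext
  have h3 := hcφ ⟨s, hs⟩
  -- `φ' s * s c = c`
  show toAut s c⁻¹ / c⁻¹ = φ' ⟨s, hs⟩
  have h4 : φ' ⟨s, hs⟩ * toAut s c = c := h3
  have hsc : toAut s c ≠ 0 := by
    intro h0
    rw [h0, mul_zero] at h4
    exact hc h4.symm
  have h5 : (toAut s c)⁻¹ * c = φ' ⟨s, hs⟩ := by
    rw [inv_mul_eq_iff_eq_mul₀ hsc, mul_comm]
    exact h4.symm
  rw [map_inv₀, div_inv_eq_mul]
  exact h5

end H90

/-! ## 3. Semi-local Hilbert 90 and INV-COK -/

variable (p : ℕ) [Fact p.Prime] (S : Finset Nat.Primes)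

/-- **Semi-local Hilbert 90**: `H¹_lc(G_q, Ind_U ℚ̄_qˣ) = 0`. -/
theorem semiLocalH90 : SemiLocalH90Spec S := by
  intro v U hU hUn
  haveI := hUn
  haveI : U.FiniteIndex := H723.globalLevels_finiteIndex S U hU
  refine h1Vanish_ind_of_stab (rl v.1) U (Tow.unitsQpbar v.1) (localLevels v.1)
    (fun x ψ hψ hlc => ?_)
  refine hilbert90_open v.1 (stab (rl v.1) U x) ?_ ψ hψ hlc
  obtain ⟨W, hW, hWU⟩ := hrl S v U hU
  exact ⟨W, hW, fun s hs => H323.smul_coset_eq_h323 (le_refl U) (hWU hs) x⟩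

/-- **INV-COK.**  `GlobCokerSpec` from KUM and GO4. -/
theorem globCoker_of' (hp2 : p ≠ 2) (hpS : pPrime p ∈ S) (hKUM : K.KummerSpec p S)
    (hGO4 : GO4Spec p S) : GlobCokerSpec p S :=
  globCoker_of p S hp2 hpS hKUM (semiLocalH90 S) hGO4

/-- **INV-COK, final form.**  `GlobCokerSpec` from GO4 alone (KUM: `K.H724.kummer`). -/
theorem globCoker_of_GO4 (hp2 : p ≠ 2) (hpS : pPrime p ∈ S) (hGO4 : GO4Spec p S) :
    GlobCokerSpec p S :=
  globCoker_of' p S hp2 hpS (K.H724.kummer p S) hGO4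

end Fermat.Agent.S55.Inv.H99

end
end
-- ===== PACK-END S55/Inv/H90H99.lean

-- ===== PACK-BEGIN S55/LocalSpec/H964/Main.lean
section







/-!
# S55 : `Tow.LocalSpec p` — the TARGET OF LAYER L for the engine E1 — PROVED (helper964)

* `localSpec_of` : `Tow.LocalSpec p` from `L.ClassModuleSpec`, `L.PadicInstSpec`,
  `T.ClassModuleOfCyclicSpec` (`p ≠ 0`).
* `localSpec` : `Tow.LocalSpec p` for every `p ≠ 0`, UNCONDITIONALLY, from landed leaves:
  the local core `Local.H964.h2Cyclic` (T5) with `L.classModule_of_local'`, `L.padicInst63`,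
  `T.H53.classModuleOfCyclic`, helper175's dictionary and the B-layer (Krasner, finite
  ramification).
* re-exports `h2CyclicSpec : L.H2CyclicSpec`, `classModuleSpec : L.ClassModuleSpec`.
-/

set_option autoImplicit false

namespace Fermat.Agent.S55.LocalSpec.H964

open Fermat.Agent.S55

/-- `Tow.LocalSpec p` from the class-module property of local fields. -/
theorem localSpec_of (hCM : L.ClassModuleSpec) (hInst : L.PadicInstSpec)
    (hT : T.ClassModuleOfCyclicSpec) (p : ℕ) (hp : p ≠ 0) : Tow.LocalSpec p :=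
  ⟨fun _ Lv q => exists_isClassModuleAt hCM hInst hT p Lv q,
    fun _ _ _ h q => isZero_H1_ker_projDec hCM hInst h q,
    fun S' Lv q x => exists_root_in_tower p hp S' Lv q x⟩

/-- **L-C1** `H²(Gal(L/K), Lˣ) ≃+ ZMod [L : K]` for local fields, unconditionally. -/
theorem h2CyclicSpec : L.H2CyclicSpec := L.h2Cyclic_of_local Local.H964.h2Cyclic

/-- **L-CM** the class module property of local fields, unconditionally. -/
theorem classModuleSpec : L.ClassModuleSpec := L.classModule_of_local' Local.H964.h2Cyclic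

/-- **TARGET OF LAYER L**: `Tow.LocalSpec p` holds for every `p ≠ 0`, unconditionally. -/
theorem localSpec (p : ℕ) (hp : p ≠ 0) : Tow.LocalSpec p :=
  localSpec_of classModuleSpec L.padicInst63 T.H53.classModuleOfCyclic p hp

end Fermat.Agent.S55.LocalSpec.H964

end
-- ===== PACK-END S55/LocalSpec/H964/Main.lean

-- ===== PACK-BEGIN S55/KG/JH3H604.lean
section





/-!
# S55, layer KG, leaf KG-J3 (helper604): `H³(H, J(F)) = 0`

`jH3 : JH3Spec`.  Route: the semi-local core `jCore` (Mackey–Shapiro decomposition of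
`Hⁿ(H, J(F))` into the groups `Hⁿ(T, F_qˣ)`, `T ≤ Gal(F_q/ℚ_q)`), the class-module property of
`F_qˣ` (helper964's `locUnits_classData` + `T.H53.classModuleOfCyclic`) and Tate's theorem
`H³ = 0` for class modules (`H295.tateH3`).
-/

set_option autoImplicit false

open CategoryTheory groupCohomology

namespace Fermat.Agent.S55.KG.H604

open Fermat.Agent.S55 Fermat.Agent.S55.Tow Fermat.Agent.S55.E1.Lim

variable {S : Finset Nat.Primes}

/-- The numerical class-module data of `F_qˣ`, for every subgroup of `Gal(F_q/ℚ_q)`. -/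
theorem locUnits_data (Lv : Level S) (q : Nat.Primes) (H : Subgroup (Lv.Dec q)) :
    Limits.IsZero (groupCohomology (T.resSub (Lv.locUnits q) H) 1) ∧
      Nonempty (groupCohomology (T.resSub (Lv.locUnits q) H) 2 ≃+ ZMod (Nat.card H)) :=
  LocalSpec.H964.locUnits_classData LocalSpec.H964.classModuleSpec L.padicInst63 Lv q H

/-- `F_qˣ` is a class module for `Gal(F_q/ℚ_q)`. -/
theorem locUnits_isClassModule (Lv : Level S) (q : Nat.Primes) :
    ∃ γ : groupCohomology (Lv.locUnits q) 2, T.IsClassModule (Lv.locUnits q) γ :=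
  (T.H53.classModuleOfCyclic (Lv.Dec q) (Lv.locUnits q)
    (fun H => (locUnits_data Lv q H).1) (fun H => (locUnits_data Lv q H).2)).1

/-- `H³(T, F_qˣ) = 0` for every subgroup `T ≤ Gal(F_q/ℚ_q)`. -/
theorem locUnits_h3 (Lv : Level S) (q : Nat.Primes) (H : Subgroup (Lv.Dec q)) :
    Subsingleton (groupCohomology (T.resSub (Lv.locUnits q) H) 3) := by
  obtain ⟨γ, hγ⟩ := locUnits_isClassModule Lv q
  exact ModuleCat.subsingleton_of_isZero
    (Fermat.Agent.S55.H295.tateH3 (Lv.Dec q) (Lv.locUnits q) γ hγ H)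

/-- **KG-J3.** -/
theorem jH3 : JH3Spec := fun _ Lv H =>
  jCore_subsingleton Lv H 3 (fun q _ => locUnits_h3 Lv q.1 _)

end Fermat.Agent.S55.KG.H604

end
-- ===== PACK-END S55/KG/JH3H604.lean

-- ===== PACK-BEGIN S55/G/PL0H713.lean
section



/-!
# S55 layer G, leaf G-PL0 : the local fields `L_𝔪` (helper713)

`locField : LocFieldSpec` (unconditional): for a number field `L` and a finite set `S` of rational
primes, `L ⊗[ℚ] ℚ_S` has finitely many maximal ideals and each residue field
`LocField S 𝔪 = (L ⊗ ℚ_S) ⧸ 𝔪` is a local field in the sense of layer `L`.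

Reusable API (all for `𝔪 : SPlace S L`):
* `primeOf S L 𝔪 : S` : the rational prime below `𝔪`;
* `ofQq S L 𝔪 : Qq (primeOf S L 𝔪).1 →+* LocField S 𝔪`, with `ofQS_eq`:
  `LocField.ofQS S 𝔪 y = ofQq S L 𝔪 (QS.toPi S y (primeOf S L 𝔪))`;
* `algQq S L 𝔪 : Algebra (Qq q) (LocField S 𝔪)` (a `def`, NOT an instance), `finite_locField`;
* `intRing S L 𝔪 : ValuationSubring (LocField S 𝔪)` : the ring of integers,
  `isLocalRingOfIntegers_intRing`.
-/

set_option autoImplicit false
set_option linter.unusedSectionVars false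
set_option linter.style.haveILetI false

open scoped NumberField TensorProduct
open IsLocalRing

namespace Fermat.Agent.S55.G.PL0H713

open Fermat.Agent.S55.G

variable (S : Finset Nat.Primes) (L : Type) [Field L] [NumberField L]

/-! ## Finiteness of the set of places -/

lemma isArtinianRing_QS : IsArtinianRing (QS S) :=
  inferInstanceAs (IsArtinianRing (∀ q : S, Qq q.1))

lemma isArtinianRing_AS : IsArtinianRing (AS S L) := by
  haveI := isArtinianRing_QS S
  haveI : Module.Finite (QS S) (QS S ⊗[ℚ] L) := inferInstance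
  haveI : IsArtinianRing (QS S ⊗[ℚ] L) := IsArtinianRing.of_finite (QS S) _
  exact (Algebra.TensorProduct.comm ℚ L (QS S)).symm.toRingEquiv.isArtinianRing

lemma finite_sPlace : Finite (SPlace S L) := by
  haveI := isArtinianRing_AS S L
  infer_instance

/-! ## The rational prime below a place -/

/-- The element of `ℚ_S` with `q`-component `x` and all other components `0`. -/
noncomputable def single (q : S) (x : Qq q.1) : QS S :=
  (QS.toPi S).symm (by classical exact Pi.single (M := fun q : S => Qq q.1) q x)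

lemma single_apply_same (q : S) (x : Qq q.1) : QS.toPi S (single S q x) q = x := by
  classical
  exact Pi.single_eq_same (M := fun q : S => Qq q.1) q x

lemma single_apply_ne (q q' : S) (h : q' ≠ q) (x : Qq q.1) : QS.toPi S (single S q x) q' = 0 := by
  classical
  exact Pi.single_eq_of_ne (M := fun q : S => Qq q.1) h x

lemma QS_ext {y z : QS S} (h : ∀ q : S, QS.toPi S y q = QS.toPi S z q) : y = z :=
  funext h

lemma single_zero (q : S) : single S q 0 = 0 := by
  refine QS_ext S fun q' => ?_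
  by_cases h : q' = q
  · subst h; rw [single_apply_same]; rfl
  · rw [single_apply_ne S q q' h]; rfl

lemma single_add (q : S) (x y : Qq q.1) : single S q (x + y) = single S q x + single S q y := by
  refine QS_ext S fun q' => ?_
  rw [map_add, Pi.add_apply]
  by_cases h : q' = q
  · subst h; rw [single_apply_same, single_apply_same, single_apply_same]
  · rw [single_apply_ne S q q' h, single_apply_ne S q q' h, single_apply_ne S q q' h, add_zero]

lemma single_mul (q : S) (x y : Qq q.1) : single S q (x * y) = single S q x * single S q y := by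
  refine QS_ext S fun q' => ?_
  rw [map_mul, Pi.mul_apply]
  by_cases h : q' = q
  · subst h; rw [single_apply_same, single_apply_same, single_apply_same]
  · rw [single_apply_ne S q q' h, single_apply_ne S q q' h, zero_mul]

lemma mul_single_one (q : S) (y : QS S) :
    y * single S q 1 = single S q (QS.toPi S y q) := by
  refine QS_ext S fun q' => ?_
  rw [map_mul, Pi.mul_apply]
  by_cases h : q' = q
  · subst h; rw [single_apply_same, single_apply_same, mul_one]
  · rw [single_apply_ne S q q' h, single_apply_ne S q q' h, mul_zero]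

lemma sum_single_one : ∑ q : S, single S q 1 = 1 := by
  classical
  refine QS_ext S fun q' => ?_
  rw [map_sum, Finset.sum_apply, Finset.sum_eq_single q']
  · rw [single_apply_same]; rfl
  · intro q _ h
    exact single_apply_ne S q q' h.symm 1
  · intro h
    exact absurd (Finset.mem_univ q') h

variable {L}

lemma ofQS_single_one (𝔪 : SPlace S L) (q : S) :
    LocField.ofQS S 𝔪 (single S q 1) = 0 ∨ LocField.ofQS S 𝔪 (single S q 1) = 1 := by
  have h : LocField.ofQS S 𝔪 (single S q 1) * LocField.ofQS S 𝔪 (single S q 1) =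
      LocField.ofQS S 𝔪 (single S q 1) := by
    rw [← map_mul, ← single_mul, mul_one]
  rcases eq_or_ne (LocField.ofQS S 𝔪 (single S q 1)) 0 with h0 | h0
  · exact Or.inl h0
  · exact Or.inr (mul_left_cancel₀ h0 (by rw [h, mul_one]))

lemma exists_prime (𝔪 : SPlace S L) : ∃ q : S, LocField.ofQS S 𝔪 (single S q 1) = 1 := by
  by_contra hne
  have h0 : ∀ q : S, LocField.ofQS S 𝔪 (single S q 1) = 0 := fun q =>
    (ofQS_single_one S 𝔪 q).resolve_right (fun h => hne ⟨q, h⟩)
  have h1 : LocField.ofQS S 𝔪 1 = 0 := by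
    rw [← sum_single_one S, map_sum]
    exact Finset.sum_eq_zero fun q _ => h0 q
  rw [map_one] at h1
  exact one_ne_zero h1

variable (L)

/-- The rational prime `q ∈ S` below the place `𝔪`. -/
noncomputable def primeOf (𝔪 : SPlace S L) : S := (exists_prime S 𝔪).choose

lemma ofQS_single_primeOf (𝔪 : SPlace S L) :
    LocField.ofQS S 𝔪 (single S (primeOf S L 𝔪) 1) = 1 := (exists_prime S 𝔪).choose_spec

/-- The embedding `ℚ_q → L_𝔪`, `q` the prime below `𝔪`. -/
noncomputable def ofQq (𝔪 : SPlace S L) : Qq (primeOf S L 𝔪).1 →+* LocField S 𝔪 where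
  toFun x := LocField.ofQS S 𝔪 (single S (primeOf S L 𝔪) x)
  map_one' := ofQS_single_primeOf S L 𝔪
  map_mul' x y := by rw [single_mul, map_mul]
  map_zero' := by rw [single_zero, map_zero]
  map_add' x y := by rw [single_add, map_add]

lemma ofQq_apply (𝔪 : SPlace S L) (x : Qq (primeOf S L 𝔪).1) :
    ofQq S L 𝔪 x = LocField.ofQS S 𝔪 (single S (primeOf S L 𝔪) x) := rfl

/-- The `ℚ_S`-algebra structure of `L_𝔪` factors through `ℚ_q`. -/
lemma ofQS_eq (𝔪 : SPlace S L) (y : QS S) :
    LocField.ofQS S 𝔪 y = ofQq S L 𝔪 (QS.toPi S y (primeOf S L 𝔪)) := by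
  rw [ofQq_apply, ← mul_single_one, map_mul, ofQS_single_primeOf, mul_one]

/-- The `ℚ_q`-algebra structure on `L_𝔪` (NOT a global instance). -/
@[reducible] noncomputable def algQq (𝔪 : SPlace S L) :
    Algebra (Qq (primeOf S L 𝔪).1) (LocField S 𝔪) :=
  (ofQq S L 𝔪).toAlgebra

lemma mk_tmul (𝔪 : SPlace S L) (l : L) (y : QS S) :
    LocField.mk S 𝔪 (l ⊗ₜ[ℚ] y) = toLoc S 𝔪 l * LocField.ofQS S 𝔪 y := by
  have : (l ⊗ₜ[ℚ] y : AS S L) = asDiag S L l * asIncl S L y := by
    rw [asDiag_apply]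
    change _ = (l ⊗ₜ[ℚ] (1 : QS S)) * ((1 : L) ⊗ₜ[ℚ] y)
    rw [Algebra.TensorProduct.tmul_mul_tmul, mul_one, one_mul]
  rw [this, map_mul]
  rfl

lemma toLoc_algebraMap (𝔪 : SPlace S L) (c : ℚ) :
    toLoc S 𝔪 (algebraMap ℚ L c) = ofQq S L 𝔪 (algebraMap ℚ _ c) := by
  have h : (toLoc S 𝔪).comp (algebraMap ℚ L) = (ofQq S L 𝔪).comp (algebraMap ℚ _) :=
    Subsingleton.elim _ _
  exact congrArg (fun f => f c) h

lemma finite_locField (𝔪 : SPlace S L) :
    letI := algQq S L 𝔪
    Module.Finite (Qq (primeOf S L 𝔪).1) (LocField S 𝔪) := by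
  letI := algQq S L 𝔪
  classical
  let b := Module.finBasis ℚ L
  refine ⟨⟨Finset.univ.image (fun i => toLoc S 𝔪 (b i)), ?_⟩⟩
  rw [eq_top_iff]
  rintro x -
  have hb : ∀ i, toLoc S 𝔪 (b i) ∈ Submodule.span (Qq (primeOf S L 𝔪).1)
      ((Finset.univ.image (fun i => toLoc S 𝔪 (b i)) : Finset (LocField S 𝔪)) :
        Set (LocField S 𝔪)) := fun i =>
    Submodule.subset_span (Finset.mem_coe.2 (Finset.mem_image_of_mem _ (Finset.mem_univ i)))
  have hL : ∀ l : L, toLoc S 𝔪 l ∈ Submodule.span (Qq (primeOf S L 𝔪).1)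
      ((Finset.univ.image (fun i => toLoc S 𝔪 (b i)) : Finset (LocField S 𝔪)) :
        Set (LocField S 𝔪)) := by
    intro l
    rw [← b.sum_repr l, map_sum]
    refine Submodule.sum_mem _ fun i _ => ?_
    rw [Algebra.smul_def, map_mul, toLoc_algebraMap]
    exact Submodule.smul_mem _ _ (hb i)
  obtain ⟨a, rfl⟩ := LocField.mk_surjective S 𝔪 x
  induction a using TensorProduct.induction_on with
  | zero => rw [map_zero]; exact Submodule.zero_mem _
  | tmul l y =>
    rw [mk_tmul, ofQS_eq, mul_comm]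
    exact Submodule.smul_mem _ _ (hL l)
  | add a b ha hb => rw [map_add]; exact Submodule.add_mem _ ha hb

lemma charZero_locField (𝔪 : SPlace S L) : CharZero (LocField S 𝔪) :=
  charZero_of_injective_ringHom (ofQq S L 𝔪).injective

/-! ## The ring of integers -/

/-- A finite extension of `ℚ_q` is a local field in the sense of layer `L`; its ring of integers
is `Local.H713.intVS ℤ_[q] ℚ_[q] E`. -/
lemma isLocalRingOfIntegers_intVS (q : ℕ) [Fact q.Prime] (E : Type) [Field E] [Algebra ℚ_[q] E]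
    [FiniteDimensional ℚ_[q] E] :
    Fermat.Agent.S55.L.IsLocalRingOfIntegers
      (Fermat.Agent.S55.Local.H713.intVS ℤ_[q] ℚ_[q] E) :=
  ⟨Fermat.Agent.S55.Local.H713.isDVR_intVS ℤ_[q] ℚ_[q] E,
    Fermat.Agent.S55.Local.H713.isAdicComplete_intVS ℤ_[q] ℚ_[q] E,
    Fermat.Agent.S55.Local.H713.finite_residueField_intVS ℤ_[q] ℚ_[q] E⟩

lemma isLocalFld_of_finite_padic (q : ℕ) [Fact q.Prime] (E : Type) [Field E] [Algebra ℚ_[q] E]
    [FiniteDimensional ℚ_[q] E] : Fermat.Agent.S55.L.IsLocalFld E :=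
  ⟨charZero_of_injective_algebraMap (algebraMap ℚ_[q] E).injective,
    ⟨_, isLocalRingOfIntegers_intVS q E⟩⟩

/-- The ring of integers of `L_𝔪`. -/
noncomputable def intRing (𝔪 : SPlace S L) : ValuationSubring (LocField S 𝔪) :=
  haveI : Fact (Nat.Prime ((primeOf S L 𝔪).1 : ℕ)) := ⟨(primeOf S L 𝔪).1.2⟩
  @Fermat.Agent.S55.Local.H713.intVS ℤ_[((primeOf S L 𝔪).1 : ℕ)] ℚ_[((primeOf S L 𝔪).1 : ℕ)]
    _ _ _ _ _ _ _ _ _ (LocField S 𝔪) _ (algQq S L 𝔪) (finite_locField S L 𝔪)

lemma isLocalRingOfIntegers_intRing (𝔪 : SPlace S L) :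
    Fermat.Agent.S55.L.IsLocalRingOfIntegers (intRing S L 𝔪) := by
  unfold intRing
  exact @isLocalRingOfIntegers_intVS ((primeOf S L 𝔪).1 : ℕ) ⟨(primeOf S L 𝔪).1.2⟩
    (LocField S 𝔪) _ (algQq S L 𝔪) (finite_locField S L 𝔪)

lemma isLocalFld_locField (𝔪 : SPlace S L) : Fermat.Agent.S55.L.IsLocalFld (LocField S 𝔪) :=
  ⟨charZero_locField S L 𝔪, ⟨intRing S L 𝔪, isLocalRingOfIntegers_intRing S L 𝔪⟩⟩

/-- **G-PL0.** -/
theorem locField : LocFieldSpec := fun S L _ _ =>
  ⟨finite_sPlace S L, fun 𝔪 => isLocalFld_locField S L 𝔪⟩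

end Fermat.Agent.S55.G.PL0H713

end
-- ===== PACK-END S55/G/PL0H713.lean

-- ===== PACK-BEGIN S55/G/CM/H587/DescIncl.lean
section


/-!
# S55 / layer G / block CM, leaf G-CM:DESCI                                    (helper587)

`descIncl_of : G.DescentSpec → DescInclSpec` (exact shape `DescInclAssemblySpec` of
`G/CM/Spec.lean`): descent for `π : Γ' ↠ G` and an embedding `φ : L → M`, equivariant along `π`,
with image the fixed field of `ker π`, as an inclusion of `ker π`-invariants
`ι : Res_π C_S(L) ⟶ C_S(M)`.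

Proof: apply `G.DescentSpec` to `(Γ', M)`, the normal subgroup `ker π`, the field `L` with
`Algebra L M := φ.toAlgebra` and the action of `Γ' ⧸ ker π` on `L` through
`QuotientGroup.kerLift π`; the representation of `Γ' ⧸ ker π` on `C_S(L)` is then definitionally
the pull-back of the representation of `G` (`cRepr_compHom`).
-/

set_option autoImplicit false
set_option linter.style.haveILetI false

open CategoryTheory groupCohomology
open scoped NumberField

noncomputable section

namespace Fermat.Agent.S55.G.CM.H587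

open Fermat.Agent.S55 Fermat.Agent.S55.G Fermat.Agent.S55.G.Rec

/-- The representation on `C_S(L)` of a group acting on `L` through a homomorphism `f : H → G` is
the pull-back along `f` of the representation of `G`. -/
theorem cRepr_compHom (S : Finset Nat.Primes) (H G L : Type) [Group H] [Group G] [Field L]
    [NumberField L] [MulSemiringAction G L] (f : H →* G) (h : H) :
    letI : MulSemiringAction H L := MulSemiringAction.compHom L f
    cRepr S H L h = cRepr S G L (f h) := rfl

/-- **G-CM:DESCI.** -/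
theorem descIncl_of (hD : G.DescentSpec) : DescInclSpec := by
  intro S Γ' G M L _ _ _ _ _ _ _ _ _ _ π φ hπ hS hunr hequiv hfix
  letI : Algebra L M := φ.toAlgebra
  letI : MulSemiringAction (Γ' ⧸ π.ker) L :=
    MulSemiringAction.compHom L (QuotientGroup.kerLift π)
  have h1 : ∀ x : M, (∀ n : π.ker, (n : Γ') • x = x) ↔ x ∈ (algebraMap L M).range := by
    intro x
    constructor
    · intro h
      obtain ⟨y, hy⟩ := hfix x (fun n hn => h ⟨n, MonoidHom.mem_ker.2 hn⟩)
      exact ⟨y, hy⟩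
    · rintro ⟨y, rfl⟩ n
      have hn : π (n : Γ') = 1 := MonoidHom.mem_ker.1 n.2
      have := hequiv (n : Γ') y
      rw [hn, one_smul] at this
      exact this.symm
  have h2 : ∀ (g : Γ') (x : L),
      algebraMap L M ((g : Γ' ⧸ π.ker) • x) = g • algebraMap L M x := by
    intro g x
    exact hequiv g x
  obtain ⟨ι, hinj, heq, hinv, -⟩ := hD S Γ' M L π.ker hS hunr h1 h2
  have hcomm : ∀ (g : Γ') (c : CS S L), ι (cRepr S G L (π g) c) = cRepr S Γ' M g (ι c) :=
    fun g c => heq g c
  refine ⟨Rep.ofHom ⟨ι.toIntLinearMap, fun g => ?_⟩, ?_, ?_⟩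
  · ext c
    exact hcomm g c
  · exact hinj
  · intro c hc
    exact (hinv c).1 (fun n => hc (n : Γ') n.2)

/-- The same, in the shape `DescInclAssemblySpec`. -/
theorem descInclAssembly : DescInclAssemblySpec := descIncl_of

end Fermat.Agent.S55.G.CM.H587

end
end
-- ===== PACK-END S55/G/CM/H587/DescIncl.lean

-- ===== PACK-BEGIN S55/G/CM/H139/SIndTop.lean
section
/-
S55 / layer G / block CM, leaf G-CM:SINDT (subtask 612)                         (helper139)

`sindTop_of : G.SIndepSpec → SIndTopSpec` — independence of `S` on `H²(G, -)`: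
`y := π_* y'` for the morphism `π : C_{S'}(L) ⟶ C_S(L)` of `G.SIndepSpec`; `π_*` is injective on
`H²(G, -)` because it is bijective on `H²(⊤, -)` and restriction to `⊤` is bijective and natural
(`TOW.H323.resMap_top_bijective_h323`, `TOW.H323.resCoeffNat`).
Complete proofs, standard axioms only.
-/



set_option autoImplicit false

open CategoryTheory groupCohomology
open scoped NumberField

noncomputable section

namespace Fermat.Agent.S55.G.CM.H139

open Fermat.Agent.S55 Fermat.Agent.S55.G Fermat.Agent.S55.G.Rec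

/-- Pure algebra: if `f_*` is bijective on `H²(⊤, -)`, then `f_*` is injective on `H²(Γ, -)`. -/
theorem h2Top_injective_of_top {Γ : Type} [Group Γ] {A B : Rep.{0} ℤ Γ} (f : A ⟶ B)
    (hf : Function.Bijective
      (T.coeffMap ((Rep.resFunctor (⊤ : Subgroup Γ).subtype).map f) 2).hom) :
    Function.Injective (TOW.h2Top f) := by
  rw [injective_iff_map_eq_zero]
  intro x hx
  have hnat := TOW.H323.resCoeffNat Γ A B f ⊤ x
  rw [hx, map_zero] at hnat
  have h1 : TOW.res2 A ⊤ x = 0 := by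
    apply hf.1
    rw [map_zero]
    exact hnat
  have h2 := (TOW.H323.resMap_top_bijective_h323 A 2).1
  apply h2
  rw [map_zero]
  exact h1

/-- **G-CM:SINDT.** -/
theorem sindTop_of (hS : G.SIndepSpec) : SIndTopSpec := by
  intro S S' hSS' Γ L _ _ _ _ _ _ hne hunr y'
  obtain ⟨Φ, π, -, -, -, -, -, -, hbij⟩ := hS S S' hSS' Γ L hne hunr
  have hinj := h2Top_injective_of_top π (hbij ⊤ 2 (by norm_num))
  refine ⟨TOW.h2Top π y', fun n hn => ?_⟩
  apply hinj
  rw [map_nsmul, hn, map_zero]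

/-- The assembly form of the Spec file. -/
theorem sindTopAssembly : SIndTopAssemblySpec := sindTop_of

end Fermat.Agent.S55.G.CM.H139

end

end
-- ===== PACK-END S55/G/CM/H139/SIndTop.lean

-- ===== PACK-BEGIN S55/Local/H713/T3Cor.lean
section




/-!
# S55 layer L : consequences of the cyclic norm index theorem (helper713)

* `cyclicH2Card : CyclicH2CardStatement` (T3'), via helper717's glue `cyclicH2Card_of`;
* `normIndexCyclicSpec : L.NormIndexCyclicSpec` (L-B2') and
  `h2CardCyclicSpec : L.H2CardCyclicSpec` (L-B2), via helper54's adapters.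

All unconditional.
-/

set_option autoImplicit false

namespace Fermat.Agent.S55.Local.H713

/-- (T3') `|H²(Gal(L/K), Lˣ)| = [L : K]` for `L / K` cyclic. -/
theorem cyclicH2Card : Fermat.Agent.S55.Local.CyclicH2CardStatement :=
  Fermat.Agent.S55.Local.H717.cyclicH2Card_of cyclicNormIndex

/-- (L-B2') the cyclic norm index in the outer (`IsLocalFld`) shape. -/
theorem normIndexCyclicSpec : Fermat.Agent.S55.L.NormIndexCyclicSpec :=
  Fermat.Agent.S55.L.normIndexCyclic_of_local cyclicNormIndex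

/-- (L-B2) the cyclic `H²` count in the outer (`IsLocalFld`) shape. -/
theorem h2CardCyclicSpec : Fermat.Agent.S55.L.H2CardCyclicSpec :=
  Fermat.Agent.S55.L.h2CardCyclic_of_local cyclicH2Card

end Fermat.Agent.S55.Local.H713

end
-- ===== PACK-END S55/Local/H713/T3Cor.lean

-- ===== PACK-BEGIN S56/FO/H6/CEMain.lean
section





/-!
# S56 / FLAT-O / leaf CE, unconditional form (helper6)

* `unrVal1 : UnrVal1Statement` (VG1), from the landed `Fermat.Agent.S56.H66.vg1_le` (helper66).
* `connEt : ConnEtStatement` (CE): kernel of reduction `⊆` inertia augmentation.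
* `redKer_eq_closure`: for `p` odd and `p • M = 0`, the kernel of reduction `H906.redKer` of a
  Hopf lattice IS the subgroup generated by the `act σ y - y`, `σ ∈ I_P`
  (`⊇` is `H906.closure_le_redKer` of helper906).
* `inf_closure_le`: for a `G_ℚ`-stable subgroup `E ≤ M`,
  `I_aug M ∩ E ≤ I_aug E` — the step of the FLAT-O assembly which needs CE
  (kills the lower-left class; see `coord/S56-FLAT-O-CE-helper6.md`, §3, S2).
-/

set_option autoImplicit false
set_option linter.style.haveILetI false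
set_option linter.unusedSectionVars false

noncomputable section

namespace Fermat.Agent.S56.FO.H6

open Fermat.Agent.S56

/-- (VG1), from helper66's landed `vg1_le`. -/
theorem unrVal1 : UnrVal1Statement := fun p hp P hP ζ hζ y hfix hy =>
  Fermat.Agent.S56.H66.vg1_le P p hp hP ζ hζ y ((P.mem_nonunits_iff).mpr hy) hfix

/-- **(CE)**, unconditional. -/
theorem connEt : ConnEtStatement := connEt_of unrVal1

/-- The kernel of reduction of a Hopf lattice killed by `p` (`p` odd) is the augmentation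
subgroup of inertia. -/
theorem redKer_eq_closure {p : ℕ} [Fact p.Prime] (hp2 : p ≠ 2) {M : Type} [AddCommGroup M]
    [Finite M] {act : GQ → M → M} {Λ : Subalgebra (H906.Zp p) (M → Qb)}
    (hΛ : H906.IsHL p act Λ) (hpM : ∀ x : M, p • x = 0) (P : ValuationSubring Qb)
    (hP : P.LiesOverPrime p) :
    H906.redKer P hΛ hP =
      AddSubgroup.closure {z : M | ∃ σ ∈ P.inertiaSubgroupIn ℚ, ∃ y : M, z = act σ y - y} := by
  refine le_antisymm ?_ (H906.closure_le_redKer P hΛ hP)
  intro x hx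
  exact connEt p hp2 M act Λ hΛ hpM P hP x ((H906.mem_redKer P hΛ hP x).mp hx)

/-- **Relative CE.**  For a `G_ℚ`-stable subgroup `E ≤ M` of a Hopf lattice killed by `p`
(`p` odd): a point of `E` in the inertia augmentation of `M` lies in the inertia augmentation
of `E`.  (`I_aug M ∩ E = I_aug E`.) -/
theorem mem_closure_of_mem_closure {p : ℕ} [Fact p.Prime] (hp2 : p ≠ 2) {M : Type}
    [AddCommGroup M] [Finite M] {act : GQ → M → M} {Λ : Subalgebra (H906.Zp p) (M → Qb)}
    (hΛ : H906.IsHL p act Λ) (hpM : ∀ x : M, p • x = 0) (P : ValuationSubring Qb)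
    (hP : P.LiesOverPrime p) (E : AddSubgroup M) (hE : ∀ (σ : GQ), ∀ x ∈ E, act σ x ∈ E)
    {x : M} (hxE : x ∈ E)
    (hx : x ∈ AddSubgroup.closure
      {z : M | ∃ σ ∈ P.inertiaSubgroupIn ℚ, ∃ y : M, z = act σ y - y}) :
    x ∈ AddSubgroup.closure
      {z : M | ∃ σ ∈ P.inertiaSubgroupIn ℚ, ∃ y ∈ E, z = act σ y - y} := by
  -- the pullback lattice on `E`
  set actE : GQ → E → E := fun σ y => ⟨act σ y, hE σ y y.2⟩ with hactE
  have hΛE := Fermat.Agent.S19.H435.IsHopfLattice.pullback hΛ E.subtype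
    Subtype.val_injective actE (fun σ y => rfl)
  have hpE : ∀ y : E, p • y = 0 := fun y => Subtype.ext (by
    rw [AddSubgroup.coe_nsmul, hpM]
    rfl)
  have hred : ∀ f ∈ Λ.map (Fermat.Agent.S19.H435.precompAlgHom p E.subtype),
      P.valuation (f ⟨x, hxE⟩ - f 0) < 1 := by
    rintro _ ⟨f, hf, rfl⟩
    exact H906.closure_le_redKer P hΛ hP hx f hf
  have h1 := connEt p hp2 E actE _ hΛE hpE P hP ⟨x, hxE⟩ hred
  -- push forward to `M`
  have h2 : ∀ y : E, y ∈ AddSubgroup.closure
      {z : E | ∃ σ ∈ P.inertiaSubgroupIn ℚ, ∃ y : E, z = actE σ y - y} →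
      (y : M) ∈ AddSubgroup.closure
        {z : M | ∃ σ ∈ P.inertiaSubgroupIn ℚ, ∃ y ∈ E, z = act σ y - y} := by
    intro y hy
    induction hy using AddSubgroup.closure_induction with
    | mem z hz =>
      obtain ⟨σ, hσ, w, rfl⟩ := hz
      exact AddSubgroup.subset_closure ⟨σ, hσ, w, w.2, rfl⟩
    | zero => exact AddSubgroup.zero_mem _
    | add a b _ _ ha hb => exact AddSubgroup.add_mem _ ha hb
    | neg a _ ha => exact AddSubgroup.neg_mem _ ha
  exact h2 ⟨x, hxE⟩ h1

end Fermat.Agent.S56.FO.H6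

end
end
-- ===== PACK-END S56/FO/H6/CEMain.lean

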