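import Fermat.Agent.Pack.S43GC.G0E15L3
import Fermat.Agent.Pack.S43GC.G0E19L1
import Fermat.Agent.Pack.S43GC.G0E3L0
import Fermat.Agent.Pack.S43GC.G0E15L2
import Fermat.Agent.Pack.S43GC.G0E17L2
import Fermat.Agent.Pack.S43GC.G0E13L0
import Fermat.Agent.Pack.S43GC.G0E16L2
import Fermat.Agent.Pack.S43GC.G0E17L0
import Fermat.Agent.Pack.S43GC.G0E10L3
import Fermat.Agent.Pack.S43GC.G0E12L2
import Fermat.Agent.Pack.S43GC.G0E10L2
import Fermat.Agent.Pack.S44C.G0E10L0
import Fermat.Agent.Pack.S43GC.G0E5L1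
import Fermat.Agent.Pack.S43GC.G0E19L2
import Fermat.Agent.Pack.S43GC.G2E0L0
import Fermat.Agent.Pack.S43GC.G0E10L0
import Fermat.Agent.Pack.S43GC.G0E7L3
import Fermat.Agent.Pack.Fast891

-- ===== PACK-BEGIN S55/K/AR/Spec.lean
section
/-
S55 moonshot — LAYER K, block AR (ARITHMETIC CORE): FROZEN INTERFACE.      Architect: helper4.
Namespace `Fermat.Agent.S55.K.AR`.  No `sorry`.  Blueprint with proofs: `coord/S55-K-AR.md`.

PURPOSE.  Derive the arithmetic inputs of route C′ that are still open,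
  A3  `PT.Surj2GlobSpec`            (via GO1/GO2 for levels of index prime to `p`),
  A5′ `Inv.WeakRecipSpec`, A7 `Inv.GlobCokerSpec`   (helper3, `Inv/Spec*.lean`),
from the SAME input as engine E1:  `Tow.GlobalSpecFin S p` + `Tow.LocalSpec p` (+ GD9).
(A8 is organised separately by helper303 in `Cap/`.)

Everything is stated at FINITE LEVEL in the tower: `L : Level S` (`F = L.F`), `H ≤ L.Gal`
(`= Gal(F/K)`, `K = F^H`), modules `E(F) = sUnits L`, `J(F) = Jtot L`, `C'(F) = C1 D L`, `C(F) = D.C L`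
(helper474, `E1/Lim/Obj.lean`), groups `Hn H A n = Hⁿ(H, A)`, maps `coe H f n` (coefficients) and
`infUp h H t n` (inflation to `up h H = Gal(F'/K)`).

Spec pattern: every interface is `def Xxx : Prop`; producers prove `theorem xxx … : Xxx …` in
`Fermat/Agent/S55/K/AR/<Leaf>H<seat>.lean`, namespace `Fermat.Agent.S55.K.AR.H<seat>`.
-/




set_option autoImplicit false

open CategoryTheory

namespace Fermat.Agent.S55.K.AR

open Fermat.Agent.S55 Fermat.Agent.S55.Tow Fermat.Agent.S55.E1.Lim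

noncomputable section

/-! ## 0. Context -/

/-- `p` is an odd prime in `S`. -/
def Adm (S : Finset Nat.Primes) (p : ℕ) : Prop :=
  ∃ hp : p.Prime, p ≠ 2 ∧ (⟨p, hp⟩ : Nat.Primes) ∈ S

/-- A tower datum which is good above `μ_p` with torsion class groups (the target of layer G),
for an odd prime `p ∈ S`. -/
structure Ctx (S : Finset Nat.Primes) (p : ℕ) where
  /-- the datum -/
  D : TowerDatum S
  /-- GD1, GD3–GD8, GD5b -/
  good : D.IsGoodFin p
  /-- `p` is an odd prime in `S` -/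
  adm : Adm S p

namespace Ctx

variable {S : Finset Nat.Primes} {p : ℕ} (c : Ctx S p)

/-- GD4 in the form of `E1/Lim/Obj.lean`. -/
theorem h4 : KerDiag c.D := c.good.good.gd4

/-- GD7a in the form of `E1/Lim/Obj.lean`. -/
theorem h7 : TrCompat c.D := fun h q hq x => c.good.good.gd7a h q hq x

end Ctx

variable (S : Finset Nat.Primes) (p : ℕ)

/-! ## 1. TARGETS (datum-free tower statements) -/

/-- **E3** (`colim H³(Gal(F/K), E(F))[p] = 0`, `[K : ℚ]` prime to `p`). -/
def E3Tower : Prop :=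
  ∀ (L : Level S) (H : Subgroup L.Gal), Nat.Coprime H.index p →
    ∀ y : Hn H (E1.Lim.sUnits L) 3, p • y = 0 →
      ∃ (L' : Level S) (h : L ≤ L'), infUp h H (trS h) 3 y = 0

/-- **E2** (`colim H²(Gal(F/K), E(F)) ⊗ ℤ/p = 0`, `[K : ℚ]` prime to `p`). -/
def E2Tower : Prop :=
  ∀ (L : Level S) (H : Subgroup L.Gal), Nat.Coprime H.index p →
    ∀ x : Hn H (E1.Lim.sUnits L) 2,
      ∃ (L' : Level S) (h : L ≤ L') (w : Hn (up h H) (E1.Lim.sUnits L') 2),
        infUp h H (trS h) 2 x = p • w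

/-- **HASSE** (`colim ker(H²(Gal(F/K), E(F)) → H²(Gal(F/K), J(F)))(p) = 0`, all `K`). -/
def HasseTower : Prop :=
  ∀ (L : Level S) (H : Subgroup L.Gal) (x : Hn H (E1.Lim.sUnits L) 2), IsPPrim p x →
    coe H (diagTot L) 2 x = 0 →
      ∃ (L' : Level S) (h : L ≤ L'), infUp h H (trS h) 2 x = 0

/-- **COKER** (GO4): of two classes in `H²(Gal(F/K), J(F))[p]` a non-trivial combination comes,
at a higher level, from `H²(Gal(F'/K), E(F'))[p]`. -/
def CokerTower : Prop :=
  ∀ (L : Level S) (H : Subgroup L.Gal) (x₁ x₂ : Hn H (Jtot L) 2), p • x₁ = 0 → p • x₂ = 0 →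
    ∃ a b : ℕ, (¬ p ∣ a ∨ ¬ p ∣ b) ∧
      ∃ (L' : Level S) (h : L ≤ L') (y : Hn (up h H) (E1.Lim.sUnits L') 2), p • y = 0 ∧
        coe (up h H) (diagTot L') 2 y = infUp h H (trJtot h) 2 (a • x₁ + b • x₂)

/-- **WEAK RECIPROCITY over `ℚ`** (GO5): a class of `H²(Gal(F/ℚ), E(F))[p]` which is trivial in
`H²(Gal(F/ℚ), J_q(F))` for all `q ∈ S` but one is trivial there as well. -/
def WeakRecipTower : Prop :=
  ∀ (L : Level S), L.HasMu p → ∀ x : groupCohomology (E1.Lim.sUnits L) 2, p • x = 0 →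
    ∀ q₀ ∈ S, (∀ q ∈ S, q ≠ q₀ → (T.coeffMap (sIncl L ≫ L.diag q) 2).hom x = 0) →
      (T.coeffMap (sIncl L ≫ L.diag q₀) 2).hom x = 0

/-! ## 2. DICTIONARY tower → finite levels of `G_ℚ` (`KL` form, helper543 `ColH543`) -/

/-- **DICT-E3.** -/
def DictE3Spec : Prop :=
  E3Tower S p → ∀ V ∈ (PT.globalLevels S).levels, Nat.Coprime V.index p →
    KL.EffTors ((ColH543.gN S).restrict V) (Rep.res V.subtype (K.sUnits S)) p 3

/-- **DICT-E2.** -/
def DictE2Spec : Prop :=
  E2Tower S p → ∀ V ∈ (PT.globalLevels S).levels, Nat.Coprime V.index p →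
    KL.EffDiv ((ColH543.gN S).restrict V) (Rep.res V.subtype (K.sUnits S)) p 2

/-- GO1 + GO2 for the levels of index prime to `p`, finite-level form. -/
def GO12Coprime : Prop :=
  ∀ V ∈ (PT.globalLevels S).levels, Nat.Coprime V.index p →
    KL.EffTors ((ColH543.gN S).restrict V) (Rep.res V.subtype (K.sUnits S)) p 3 ∧
    KL.EffDiv ((ColH543.gN S).restrict V) (Rep.res V.subtype (K.sUnits S)) p 2

/-! ## 3. LEAVES about the tower (arithmetic) -/

section Leaves

variable {S p} (c : Ctx S p)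

/-- **SES.** `0 → E(F) → J(F) → C'(F) → 0` is short exact. -/
def SesExact : Prop := ∀ L : Level S, (ses c.h4 L).ShortExact

/-- **CAP1** (capitulation in `H¹`): a `p`-primary class of `H¹(H, C'(F))` dying in
`H¹(H, C(F))` dies in `H¹(H', C'(F'))` for some `F' ≥ F`. -/
def CapH1 : Prop :=
  ∀ (L : Level S) (H : Subgroup L.Gal) (s : Hn H (C1 c.D L) 1), IsPPrim p s →
    coe H (inclC1 c.D L) 1 s = 0 →
      ∃ (L' : Level S) (h : L ≤ L'), infUp h H (trC1 c.h7 h) 1 s = 0

/-- **CAP2** (capitulation in `H²`). -/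
def CapH2 : Prop :=
  ∀ (L : Level S) (H : Subgroup L.Gal) (s : Hn H (C1 c.D L) 2), IsPPrim p s →
    coe H (inclC1 c.D L) 2 s = 0 →
      ∃ (L' : Level S) (h : L ≤ L'), infUp h H (trC1 c.h7 h) 2 s = 0

/-- **C-H1**: `H¹(H, C(F))(p) = 0` for `F ⊇ μ_p`. -/
def H1CVanish : Prop :=
  ∀ (L : Level S), L.HasMu p → ∀ (H : Subgroup L.Gal) (y : Hn H (c.D.C L) 1),
    IsPPrim p y → y = 0

/-- **C-H2**: `H²(H, C(F))(p)` is cyclic for `F ⊇ μ_p`. -/
def H2CCyclic : Prop :=
  ∀ (L : Level S), L.HasMu p → ∀ (H : Subgroup L.Gal),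
    ∃ g : Hn H (c.D.C L) 2, IsPPrim p g ∧
      ∀ y : Hn H (c.D.C L) 2, IsPPrim p y → ∃ n : ℕ, y = n • g

/-- **KAPPA** (GD3 + Shapiro + local class module): if `p^b` divides the local degree at `q`,
there is `v ∈ H²(Gal(F/ℚ), J_q(F))` with `p^b v = 0` whose image in `H²(Gal(F/ℚ), C(F))` has order
exactly `p^b`. -/
def Kappa : Prop :=
  ∀ (L : Level S), L.HasMu p → ∀ q ∈ S, ∀ b : ℕ, p ^ b ∣ Nat.card (L.Dec q) →
    ∃ v : groupCohomology (L.J q) 2, p ^ b • v = 0 ∧
      ∀ n : ℕ, n • (T.coeffMap (c.D.j L q) 2).hom v = 0 → p ^ b ∣ n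

/-- **(c)**: `H²(J) → H²(C)` is surjective on `p`-primary parts in the limit
(`[K : ℚ]` prime to `p`). -/
def SurjJC : Prop :=
  ∀ (L : Level S), L.HasMu p → ∀ (H : Subgroup L.Gal), Nat.Coprime H.index p →
    ∀ x : Hn H (c.D.C L) 2, IsPPrim p x →
      ∃ (L' : Level S) (h : L ≤ L') (y : Hn (up h H) (Jtot L') 2),
        infUp h H (c.D.tr h) 2 x = coe (up h H) (jTot c.D L') 2 y

/-- **(d)**: the `p`-primary kernel of `H²(J) → H²(C)` is `p`-divisible in the limit
(`[K : ℚ]` prime to `p`). -/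
def KerDiv : Prop :=
  ∀ (L : Level S), L.HasMu p → ∀ (H : Subgroup L.Gal), Nat.Coprime H.index p →
    ∀ x : Hn H (Jtot L) 2, IsPPrim p x → coe H (jTot c.D L) 2 x = 0 →
      ∃ (L' : Level S) (h : L ≤ L') (y : Hn (up h H) (Jtot L') 2),
        p • y = infUp h H (trJtot h) 2 x ∧ coe (up h H) (jTot c.D L') 2 y = 0

end Leaves

/-! ## 4. LEAVES about the tower (local and elementary) -/

/-- **J-H3**: `H³(H, J(F))(p) = 0` (local Tate + Mackey–Shapiro). -/
def H3JVanish : Prop :=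
  ∀ (L : Level S) (H : Subgroup L.Gal) (y : Hn H (Jtot L) 3), IsPPrim p y → y = 0

/-- **J-DIV**: if `[K : ℚ] ≤ p^c` and `p^{b+1+c}` divides all local degrees of `F` (`q ∈ S`),
every class of `H²(Gal(F/K), J(F))` killed by `p^b` is divisible by `p`.
(`H²(H, J_q(F)) = ∏_{w | q} H²(Gal(F_w/K_w), F_wˣ)`, the `p`-part of each factor is cyclic of order
the `p`-part of `[F_w : K_w] = [F_w : ℚ_q] / [K_w : ℚ_q]`, and `[K_w : ℚ_q] ≤ [K : ℚ]`.) -/
def J2Div : Prop :=
  ∀ (L : Level S) (H : Subgroup L.Gal) (b c : ℕ), H.index ≤ p ^ c →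
    (∀ q ∈ S, p ^ (b + 1 + c) ∣ Nat.card (L.Dec q)) →
    ∀ y : Hn H (Jtot L) 2, p ^ b • y = 0 → ∃ z : Hn H (Jtot L) 2, p • z = y

/-- **DEG**: the `p`-parts of the local degrees are unbounded in the tower (`p ∈ S`:
cyclotomic `ℤ_p`-extension). -/
def DecUnbounded : Prop :=
  ∀ (L : Level S) (m : ℕ), ∃ L' : Level S, L ≤ L' ∧ ∀ q ∈ S, p ^ m ∣ Nat.card (L'.Dec q)

/-- **MU**: some level contains `μ_p`, and the levels are directed. -/
def MuDirected : Prop :=
  (∃ L₀ : Level S, L₀.HasMu p) ∧ ∀ L L' : Level S, ∃ L'' : Level S, L ≤ L'' ∧ L' ≤ L''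

/-! ## 5. THE LEAVES, with their hypotheses (= exact types of the deliverables) -/

/-- leaf **AR-SES** -/
def SesLeaf : Prop := ∀ c : Ctx S p, SesExact c
/-- leaf **AR-CAP1** (GD5, GD5b, GD7a, GD7b; explicit 1-cocycles) -/
def CapH1Leaf : Prop := ∀ c : Ctx S p, CapH1 c
/-- leaf **AR-CAP2** (GD5, GD5b, GD7a, GD7b; explicit 2-cocycles) -/
def CapH2Leaf : Prop := ∀ c : Ctx S p, CapH2 c
/-- leaf **AR-C1** (GD1 + `T.ResIndexSpec`) -/
def H1CLeaf : Prop := ∀ c : Ctx S p, H1CVanish c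
/-- leaf **AR-C2** (GD1 + `T.ResIndexSpec`) -/
def H2CLeaf : Prop := ∀ c : Ctx S p, H2CCyclic c
/-- leaf **AR-KAPPA** (GD3 + Shapiro for `Gal(F/ℚ)` + local class module) -/
def KappaLeaf : Prop := ∀ c : Ctx S p, LocalSpec p → Kappa c
/-- leaf **AR-J3** -/
def H3JLeaf : Prop := p.Prime → LocalSpec p → H3JVanish S p
/-- leaf **AR-JDIV** -/
def J2DivLeaf : Prop := p.Prime → LocalSpec p → J2Div S p
/-- leaf **AR-DEG** -/
def DecLeaf : Prop := Adm S p → DecUnbounded S p
/-- leaf **AR-MU** -/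
def MuDirLeaf : Prop := Adm S p → MuDirected S p
/-- leaf **AR-c** -/
def SurjJCLeaf : Prop :=
  ∀ c : Ctx S p, H2CCyclic c → Kappa c → DecUnbounded S p → SurjJC c
/-- leaf **AR-d** -/
def KerDivLeaf : Prop :=
  ∀ c : Ctx S p, H2CCyclic c → Kappa c → DecUnbounded S p → J2Div S p → KerDiv c
/-- leaf **AR-HASSE** -/
def HasseLeaf : Prop :=
  ∀ c : Ctx S p, SesExact c → H1CVanish c → CapH1 c → MuDirected S p → HasseTower S p
/-- leaf **AR-E3** -/
def E3Leaf : Prop :=
  ∀ c : Ctx S p, SesExact c → H3JVanish S p → SurjJC c → CapH2 c → MuDirected S p →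
    E3Tower S p
/-- leaf **AR-E2** -/
def E2Leaf : Prop :=
  ∀ c : Ctx S p, SesExact c → KerDiv c → CapH2 c → HasseTower S p → MuDirected S p →
    E2Tower S p
/-- leaf **AR-COKER** -/
def CokerLeaf : Prop :=
  ∀ c : Ctx S p, SesExact c → H2CCyclic c → CapH2 c → HasseTower S p → MuDirected S p →
    CokerTower S p
/-- leaf **AR-WR** (GD3 + GD4) -/
def WeakRecipLeaf : Prop := Ctx S p → WeakRecipTower S p

end

end Fermat.Agent.S55.K.AR

end
-- ===== PACK-END S55/K/AR/Spec.lean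

-- ===== PACK-BEGIN S55/K/AR/A3Glue.lean
section
/-
S55 moonshot — LAYER K, block AR: GLUE for input A3 of layer D.            helper4.
No `sorry`.

`surj2Glob_of_go12 : K.KummerSpec p S → GO12Coprime S p → p ≠ 2 → pPrime p ∈ S → PT.Surj2GlobSpec p S`.

A3 (`H²(G_S, -)` is right exact on finite modules) needs GO1 + GO2 (`H²(G_S(K), 𝒪_Sˣ)` is
`p`-divisible, `H³(G_S(K), 𝒪_Sˣ)[p] = 0`) ONLY for the fields `K` of degree prime to `p`:
the dévissage of helper696 uses the induced modules `Ind_H μ` only for the preimage `H` of a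
Sylow `p`-subgroup.  This is what makes the arithmetic core (`K/AR/Spec.lean`) work with the
reciprocity law over `ℚ` alone (GD3).

Chain:  GO12Coprime  ⇒ (helper543 `ColH543`, helper397 K-T3)  `H³_S(Ind_H μ) = 0`, `p ∤ [G:H]`
        ⇒ (`devissage_coprime`, after helper696)               `K.H3FinSpec`
        ⇒ (helper635 K-T1)                                     `K.SurjH2Spec`
        ⇒ (helper723 adapter)                                  `PT.Surj2GlobSpec`.
-/






set_option autoImplicit false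
set_option linter.style.haveILetI false

noncomputable section

namespace Fermat.Agent.S55.K.AR

open groupCohomology Fermat.Agent.S55.PT Fermat.Agent.S55.Bridge ExtCitation

/-- **Dévissage, coprime form** (proof of helper696's `H696.devissage`, which only uses the
preimage `H` of a Sylow `p`-subgroup): it suffices to know `H³_lc(G, Ind_H μ) = 0` for the open
subgroups `H` of index prime to `p` acting trivially on `μ`. -/
theorem devissage_coprime (G : Type) [Group G] (L : LevelSys G) (p : ℕ) [Fact p.Prime]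
    (μ : Rep.{0, 0, 0} (ZMod p) G)
    (hNC : L.NormalCofinal) (hFI : L.FiniteIndex) (hμ1 : Module.finrank (ZMod p) μ = 1)
    (hμs : L.IsUSmooth μ)
    (hInd : ∀ H : Subgroup G, Fermat.Agent.S55.H696.IsOpenSubgroup L H → ¬ p ∣ H.index →
      (∀ s ∈ H, μ.ρ s = 1) → Fermat.Agent.S55.H696.H3Van L (indRep H μ))
    (R : Rep.{0, 0, 0} (ZMod p) G) (hR : FiniteDimensional (ZMod p) R) (hRs : L.IsUSmooth R) :
    Fermat.Agent.S55.H696.H3Van L R := by
  classical
  obtain ⟨U₁, hU₁, h1⟩ := hμs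
  obtain ⟨U₂, hU₂, h2⟩ := hRs
  obtain ⟨U, hU, hUU₁, hUU₂, hUn⟩ := Fermat.Agent.S55.H696.exists_normal_level_le hNC hU₁ hU₂
  haveI := hUn
  haveI : U.FiniteIndex := hFI U hU
  haveI : Finite (G ⧸ U) := Subgroup.finite_quotient_of_finiteIndex
  let P : Sylow p (G ⧸ U) := Classical.arbitrary _
  let H : Subgroup G := (P : Subgroup (G ⧸ U)).comap (QuotientGroup.mk' U)
  have hUH : U ≤ H := by
    intro s hs
    show QuotientGroup.mk' U s ∈ (P : Subgroup (G ⧸ U))
    have h1 : QuotientGroup.mk' U s = 1 := (QuotientGroup.eq_one_iff s).2 hs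
    rw [h1]
    exact Subgroup.one_mem _
  have hpow : ∀ h ∈ H, ∃ n : ℕ, h ^ p ^ n ∈ U := by
    intro h hh
    obtain ⟨n, hn⟩ := P.isPGroup' ⟨QuotientGroup.mk' U h, hh⟩
    refine ⟨n, ?_⟩
    have h3 := congrArg Subtype.val hn
    simp only [Subgroup.coe_pow, Subgroup.coe_one] at h3
    rw [← map_pow] at h3
    exact (QuotientGroup.eq_one_iff _).1 h3
  have hidx : ¬ p ∣ H.index := by
    have : H.index = (P : Subgroup (G ⧸ U)).index :=
      Subgroup.index_comap_of_surjective _ (QuotientGroup.mk'_surjective U)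
    rw [this]
    exact P.not_dvd_index
  haveI : H.FiniteIndex := ⟨fun h0 => hidx (by rw [h0]; exact dvd_zero p)⟩
  have hμH : ∀ h ∈ H, μ.ρ h = 1 := by
    intro h hh
    obtain ⟨n, hn⟩ := hpow h hh
    refine Fermat.Agent.S55.H696.rho_eq_one_of_finrank_eq_one μ.ρ hμ1 h n ?_
    apply LinearMap.ext
    intro m
    exact h1 _ (hUU₁ hn) m
  have hIndH : Fermat.Agent.S55.H696.H3Van L (indRep H μ) := hInd H ⟨U, hU, hUH⟩ hidx hμH
  haveI := hR
  have htop : Fermat.Agent.S55.H696.H3Van L (Fermat.Agent.S55.H696.filtRep H R ⊤) :=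
    Fermat.Agent.S55.H696.h3Van_filtRep L hNC H U hU hUH hpow R μ
      (fun s hs r => h2 s (hUU₂ hs) r) hμ1 hμH hIndH _ ⊤
      (fun _ _ _ _ => Submodule.mem_top) rfl
  exact Fermat.Agent.S55.H696.h3Van_of_filtRep_top L H hidx R htop

variable (p : ℕ) [Fact p.Prime] (S : Finset Nat.Primes)

/-- `H³_S(Ind_V μ_p) = 0` for the levels `V` of index prime to `p`, from KUM and GO1 + GO2 for
these levels. -/
theorem h3IndMu_coprime (hK : KummerSpec p S) (h12 : GO12Coprime S p)
    (hpS : pPrime p ∈ S) (V : Subgroup PT.GQ) (hV : V ∈ (globalLevels S).levels)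
    (hidx : ¬ p ∣ V.index) : H3Vanish (globalLevels S) (indG V (muP p)) := by
  have hN : (globalLevels S).NormalCofinal := ColH543.globalLevels_normalCofinal S
  have hF : (globalLevels S).FiniteIndex := ColH543.globalLevels_finiteIndex S
  obtain ⟨V₀, hV₀, hV₀V, hV₀n⟩ := hN V hV
  have hcop : Nat.Coprime V.index p :=
    ((Nat.Prime.coprime_iff_not_dvd (Fact.out : p.Prime)).2 hidx).symm
  obtain ⟨h3, h2⟩ := h12 V hV hcop
  exact Fermat.Agent.S55.K.H397.h3Vanish_of hN hF p (indMuToE p S V)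
    (Fermat.Agent.S55.K.H397.indMuToE_injective p S V)
    (Fermat.Agent.S55.K.H397.indMuToE_equivariant p S V)
    (Fermat.Agent.S55.K.H397.ind_nsmul_p p V)
    (Fermat.Agent.S55.K.H397.indMuToE_tors p S V)
    (Fermat.Agent.S55.K.H397.kummer_ind (sUnits S) hN p (fun x hx => hK hpS x hx) hV)
    ((ColH543.h2Divisible_indG_iff hN hF (K.sUnits S) V hV₀ hV₀n hV₀V p).2 h2)
    ((ColH543.h3TorsVanish_indG_iff hN hF (K.sUnits S) V hV₀ hV₀n hV₀V p).2 h3)

/-- `cd_p(G_S) ≤ 2` in the form `K.H3FinSpec`, from KUM and GO1 + GO2 for the levels of index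
prime to `p`. -/
theorem h3Fin_of_go12 (hK : KummerSpec p S) (h12 : GO12Coprime S p) : H3FinSpec p S := by
  intro _ hpS R hfd hRs
  rw [Fermat.Agent.S55.K.H696.h3Vanish_iff]
  refine devissage_coprime PT.GQ (globalLevels S) p (muP p)
    (ColH543.globalLevels_normalCofinal S) (ColH543.globalLevels_finiteIndex S)
    (MuP.finrank_eq_one p) (Fermat.Agent.S55.K.H696.isUSmooth_muP p S hpS) ?_ R hfd hRs
  intro H hH hidx _
  obtain ⟨U, hU, hUH⟩ := hH
  exact (Fermat.Agent.S55.K.H696.h3Vanish_iff (globalLevels S) (indG H (muP p))).1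
    (h3IndMu_coprime p S hK h12 hpS H (Fermat.Agent.S55.K.H696.mem_levels_of_le S hU hUH) hidx)

/-- **Input A3 of layer D** from KUM and GO1 + GO2 for the levels of index prime to `p`. -/
theorem surj2Glob_of_go12 (hK : KummerSpec p S) (h12 : GO12Coprime S p) (hp2 : p ≠ 2)
    (hpS : pPrime p ∈ S) : Fermat.Agent.S55.PT.Surj2GlobSpec p S :=
  Fermat.Agent.S55.K.H723.surj2Glob_of p S
    (Fermat.Agent.S55.K.H635.surjH2_of p S (h3Fin_of_go12 p S hK h12)) hp2 hpS

omit [Fact p.Prime] in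
/-- GO1 + GO2 (coprime levels) from the tower statements E3, E2 and the dictionary. -/
theorem go12_of_tower (hD3 : DictE3Spec S p) (hD2 : DictE2Spec S p) (h3 : E3Tower S p)
    (h2 : E2Tower S p) : GO12Coprime S p :=
  fun V hV hcop => ⟨hD3 h3 V hV hcop, hD2 h2 V hV hcop⟩

end Fermat.Agent.S55.K.AR

end

end
-- ===== PACK-END S55/K/AR/A3Glue.lean

-- ===== PACK-BEGIN S55/K/AR/SesH635.lean
section



/-!
# S55 / layer K / block AR, leaf AR-SES (helper635)

`sesLeaf : SesLeaf S p` — adapter to the landed `E1.H354.ses_shortExact`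
(`0 → E(F) → J(F) → C'(F) → 0` is short exact; `S ≠ ∅` because `p ∈ S`).
-/

set_option autoImplicit false

namespace Fermat.Agent.S55.K.AR.H635

open Fermat.Agent.S55 Fermat.Agent.S55.Tow Fermat.Agent.S55.E1.Lim

/-- `S` is non-empty in an admissible context. -/
theorem nonempty_of_adm {S : Finset Nat.Primes} {p : ℕ} (h : Adm S p) : S.Nonempty := by
  obtain ⟨hp, -, hmem⟩ := h
  exact ⟨_, hmem⟩

/-- **AR-SES.** -/
theorem sesLeaf (S : Finset Nat.Primes) (p : ℕ) : SesLeaf S p := fun c L =>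
  E1.H354.ses_shortExact c.h4 (nonempty_of_adm c.adm) L

end Fermat.Agent.S55.K.AR.H635

end
-- ===== PACK-END S55/K/AR/SesH635.lean

-- ===== PACK-BEGIN S55/K/AR/CapH837.lean
section



/-!
# S55, layer K, block AR: leaves AR-CAP1 and AR-CAP2 (helper837, subtask 631)

Capitulation on cohomology in the tower: a `p`-primary class of `Hⁿ(H, C'(F))` (`n = 1, 2`) which
dies in `Hⁿ(H, C(F))` dies in `Hⁿ(H', C'(F'))` for some level `F' ≥ F`
(`C' = im (J → C)`, `H' = ` preimage of `H` in `Gal(F'/ℚ)`).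

* `nsmul_map_H1π_eq_zero`, `nsmul_map_H2π_eq_zero` : the abstract one-step lemmas (Mathlib only);
* `exists_clear` : finitely many elements of `C(F)` are moved into `C'(F')` by `m · tr`, `p ∤ m`
  (GD5, GD5b, GD7a, GD7b, directedness of the levels);
* `capH1 : CapH1Leaf S p`, `capH2 : CapH2Leaf S p`.
-/

set_option autoImplicit false
set_option linter.style.haveILetI false

open CategoryTheory groupCohomology

noncomputable section

namespace Fermat.Agent.S55.K.AR.H837

open Fermat.Agent.S55 Fermat.Agent.S55.Tow Fermat.Agent.S55.E1.Lim Fermat.Agent.S55.K.AR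

/-! ## Abstract one-step lemmas -/

section Abstract

variable {Γ Γ' : Type} [Group Γ] [Group Γ'] (π : Γ' →* Γ)
  {C₁ C : Rep.{0} ℤ Γ} {C₁' C' : Rep.{0} ℤ Γ'} (incl : C₁ ⟶ C) (incl' : C₁' ⟶ C')
  (t₁ : Rep.res π C₁ ⟶ C₁') (t : Rep.res π C ⟶ C')

/-- a class killed by `m` prime to `p` and by `p ^ a` vanishes -/
theorem eq_zero_of_nsmul_of_pow {A : Type*} [AddCommGroup A] {p m a : ℕ} (hp : p.Prime)
    (hm : ¬ p ∣ m) {y : A} (h1 : m • y = 0) (h2 : p ^ a • y = 0) : y = 0 := by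
  have hcop : Nat.Coprime m (p ^ a) :=
    Nat.Coprime.pow_right a ((Nat.Prime.coprime_iff_not_dvd hp).mpr hm).symm
  have hd1 : addOrderOf y ∣ m := addOrderOf_dvd_of_nsmul_eq_zero h1
  have hd2 : addOrderOf y ∣ p ^ a := addOrderOf_dvd_of_nsmul_eq_zero h2
  have hd : addOrderOf y ∣ 1 := by
    have := Nat.dvd_gcd hd1 hd2
    rwa [hcop.gcd_eq_one] at this
  exact AddMonoid.addOrderOf_eq_one_iff.mp (Nat.dvd_one.mp hd)

/-- **Degree 1.**  If the `1`-cocycle `ζ` with values in `C₁` becomes the coboundary of `b ∈ C`,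
and `t (m • b)` lies in `C₁'`, then `m • inf [ζ] = 0` in `H¹(Γ', C₁')`. -/
theorem nsmul_map_H1π_eq_zero (hinj : Function.Injective incl'.hom)
    (hcomm : ∀ x : C₁.V, incl'.hom (t₁.hom x) = t.hom (incl.hom x))
    (ζ : cocycles₁ C₁) (b : C.V) (hb : ∀ g : Γ, C.ρ g b - b = incl.hom (ζ g))
    (m : ℕ) (b' : C₁'.V) (hb' : incl'.hom b' = t.hom (m • b)) :
    m • (groupCohomology.map π t₁ 1).hom ((H1π C₁).hom ζ) = 0 := by
  have h2 : (groupCohomology.map π t₁ 1).hom ((H1π C₁).hom ζ) =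
      (H1π C₁').hom (mapCocycles₁ π t₁ ζ) :=
    congr($(H1π_comp_map (A := C₁) (B := C₁') π t₁) ζ)
  rw [h2, ← map_nsmul, H1π_eq_zero_iff]
  refine ⟨b', ?_⟩
  funext g
  apply hinj
  show incl'.hom (C₁'.ρ g b' - b') = incl'.hom (m • t₁.hom (ζ (π g)))
  have hR : incl'.hom (m • t₁.hom (ζ (π g))) = m • (C'.ρ g (t.hom b) - t.hom b) := by
    rw [map_nsmul, hcomm, ← hb, map_sub]
    congr 2
    exact Rep.hom_comm_apply t g b
  have hL : incl'.hom (C₁'.ρ g b' - b') = m • (C'.ρ g (t.hom b) - t.hom b) := by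
    rw [map_sub, Rep.hom_comm_apply incl' g b', hb', map_nsmul, map_nsmul, smul_sub]
  rw [hL, hR]

/-- **Degree 2.**  If the `2`-cocycle `ζ` with values in `C₁` becomes the coboundary of
`b : Γ → C`, and all `t (m • b g)` lie in `C₁'`, then `m • inf [ζ] = 0` in `H²(Γ', C₁')`. -/
theorem nsmul_map_H2π_eq_zero (hinj : Function.Injective incl'.hom)
    (hcomm : ∀ x : C₁.V, incl'.hom (t₁.hom x) = t.hom (incl.hom x))
    (ζ : cocycles₂ C₁) (b : Γ → C.V)
    (hb : ∀ g k : Γ, C.ρ g (b k) - b (g * k) + b g = incl.hom (ζ (g, k)))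
    (m : ℕ) (b' : Γ → C₁'.V) (hb' : ∀ g, incl'.hom (b' g) = t.hom (m • b g)) :
    m • (groupCohomology.map π t₁ 2).hom ((H2π C₁).hom ζ) = 0 := by
  have h2 : (groupCohomology.map π t₁ 2).hom ((H2π C₁).hom ζ) =
      (H2π C₁').hom (mapCocycles₂ π t₁ ζ) :=
    congr($(H2π_comp_map (A := C₁) (B := C₁') π t₁) ζ)
  rw [h2, ← map_nsmul, H2π_eq_zero_iff]
  refine ⟨fun γ => b' (π γ), ?_⟩
  funext ⟨γ, δ⟩
  apply hinj
  show incl'.hom (C₁'.ρ γ (b' (π δ)) - b' (π (γ * δ)) + b' (π γ)) =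
    incl'.hom (m • t₁.hom (ζ (π γ, π δ)))
  have hR : incl'.hom (m • t₁.hom (ζ (π γ, π δ))) =
      m • (C'.ρ γ (t.hom (b (π δ))) - t.hom (b (π γ * π δ)) + t.hom (b (π γ))) := by
    rw [map_nsmul, hcomm, ← hb, map_add, map_sub]
    congr 3
    exact Rep.hom_comm_apply t γ (b (π δ))
  have hL : incl'.hom (C₁'.ρ γ (b' (π δ)) - b' (π (γ * δ)) + b' (π γ)) =
      m • (C'.ρ γ (t.hom (b (π δ))) - t.hom (b (π γ * π δ)) + t.hom (b (π γ))) := by
    rw [map_add, map_sub, Rep.hom_comm_apply incl' γ (b' (π δ)), hb', hb', hb', map_mul,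
      map_nsmul, map_nsmul, map_nsmul, map_nsmul, smul_add, smul_sub]
  rw [hL, hR]

end Abstract

/-! ## Clearing lemma in the tower -/

section Tower

variable {S : Finset Nat.Primes} {p : ℕ}

lemma isLocalSum_nsmul' {D : TowerDatum S} {L : Level S} (n : ℕ) {x : (D.C L).V}
    (hx : D.IsLocalSum L x) : D.IsLocalSum L (n • x) := by
  rw [← mem_C1Add] at hx ⊢
  exact (C1Add D L).nsmul_mem hx n

lemma isLocalSum_tr' {D : TowerDatum S} (h7 : TrCompat D) {L L' : Level S} (h : L ≤ L')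
    {x : (D.C L).V} (hx : D.IsLocalSum L x) : D.IsLocalSum L' ((D.tr h).hom x) := by
  rw [← mem_C1Add] at hx ⊢
  exact tr_mem_C1Add h7 h x hx

/-- **Clearing lemma.**  Finitely many elements of `C(F)` are moved into `C'(F') = im J(F')`,
`F' ≥ F`, by `m · tr`, with `m` prime to `p`. -/
theorem exists_clear (c : Ctx S p) (hp : p.Prime) (L : Level S) {ι : Type} (b : ι → (c.D.C L).V)
    (s : Finset ι) :
    ∃ (m : ℕ) (L' : Level S) (h : L ≤ L'), ¬ p ∣ m ∧
      ∀ x ∈ s, c.D.IsLocalSum L' ((c.D.tr h).hom (m • b x)) := by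
  classical
  induction s using Finset.induction_on with
  | empty =>
    exact ⟨1, L, le_refl L, fun h => hp.one_lt.ne' (Nat.dvd_one.mp h), fun x hx => by simp at hx⟩
  | insert x s hxs ih =>
    obtain ⟨m₁, L₁, h₁, hm₁, hs⟩ := ih
    obtain ⟨m, hm0, hm⟩ := c.good.gd5b L (b x)
    obtain ⟨e, m₂, hm₂, rfl⟩ := Nat.exists_eq_pow_mul_and_not_dvd hm0.ne' p hp.ne_one
    have hx2 : c.D.IsLocalSum L (p ^ e • (m₂ • b x)) := by
      rw [← mul_smul]
      exact hm
    obtain ⟨L₂, h₂, hL₂⟩ := c.good.good.gd5 L (m₂ • b x) e hx2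
    obtain ⟨L₃, hk₁, hk₂⟩ := exists_ge_ge L₁ L₂
    refine ⟨m₁ * m₂, L₃, h₁.trans hk₁, ?_, ?_⟩
    · intro hdvd
      rcases (Nat.Prime.dvd_mul hp).mp hdvd with h | h
      · exact hm₁ h
      · exact hm₂ h
    · intro y hy
      rcases Finset.mem_insert.mp hy with rfl | hy
      · have h3 := isLocalSum_tr' c.h7 hk₂ hL₂
        rw [c.good.good.gd7b h₂ hk₂] at h3
        have h4 := isLocalSum_nsmul' m₁ h3
        rw [← map_nsmul, ← mul_smul] at h4
        exact h4
      · have h3 := isLocalSum_tr' c.h7 hk₁ (hs y hy)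
        rw [c.good.good.gd7b h₁ hk₁] at h3
        have h4 := isLocalSum_nsmul' m₂ h3
        rw [← map_nsmul, ← mul_smul, mul_comm] at h4
        exact h4

/-- Lifting an element of `im J(F')` to `C'(F')`. -/
lemma exists_C1_of_isLocalSum {D : TowerDatum S} {L : Level S} {x : (D.C L).V}
    (hx : D.IsLocalSum L x) : ∃ y : (C1 D L).V, (inclC1 D L).hom y = x :=
  ⟨subMk x ((mem_C1Add D L x).2 hx), rfl⟩

/-- **AR-CAP1.** -/
theorem capH1 (S : Finset Nat.Primes) (p : ℕ) : CapH1Leaf S p := by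
  intro c L H s hs hs0
  obtain ⟨hp, -, -⟩ := c.adm
  obtain ⟨a, hsa⟩ := hs
  induction s using H1_induction_on with
  | h ζ =>
    have h1 : coe H (inclC1 c.D L) 1 ((H1π (T.resSub (C1 c.D L) H)).hom ζ) =
        (H1π (T.resSub (c.D.C L) H)).hom
          (mapCocycles₁ (MonoidHom.id H) ((Rep.resFunctor H.subtype).map (inclC1 c.D L)) ζ) :=
      congr($(H1π_comp_map (A := T.resSub (C1 c.D L) H) (B := T.resSub (c.D.C L) H)
        (MonoidHom.id H) ((Rep.resFunctor H.subtype).map (inclC1 c.D L))) ζ)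
    rw [h1, H1π_eq_zero_iff] at hs0
    obtain ⟨b, hb⟩ := hs0
    have hb' : ∀ g : H, (T.resSub (c.D.C L) H).ρ g b - b =
        ((Rep.resFunctor H.subtype).map (inclC1 c.D L)).hom (ζ g) := fun g => congrFun hb g
    obtain ⟨m, L', h, hm, hmem⟩ := exists_clear c hp L (fun _ : Unit => b) {()}
    obtain ⟨b₁, hb₁⟩ := exists_C1_of_isLocalSum (hmem () (Finset.mem_singleton_self _))
    refine ⟨L', h, ?_⟩
    have hpa : p ^ a • infUp h H (trC1 c.h7 h) 1 ((H1π (T.resSub (C1 c.D L) H)).hom ζ) = 0 := by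
      rw [← map_nsmul, hsa, map_zero]
    refine eq_zero_of_nsmul_of_pow hp hm ?_ hpa
    exact nsmul_map_H1π_eq_zero (projSub (Level.proj h) H)
      ((Rep.resFunctor H.subtype).map (inclC1 c.D L))
      ((Rep.resFunctor (up h H).subtype).map (inclC1 c.D L'))
      (semiSub (Level.proj h) H (trC1 c.h7 h)) (semiSub (Level.proj h) H (c.D.tr h))
      (inclC1_injective c.D L') (fun x => inclC1_trC1 c.h7 h x) ζ b hb' m b₁ hb₁

/-- **AR-CAP2.** -/
theorem capH2 (S : Finset Nat.Primes) (p : ℕ) : CapH2Leaf S p := by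
  intro c L H s hs hs0
  obtain ⟨hp, -, -⟩ := c.adm
  obtain ⟨a, hsa⟩ := hs
  induction s using H2_induction_on with
  | h ζ =>
    have h1 : coe H (inclC1 c.D L) 2 ((H2π (T.resSub (C1 c.D L) H)).hom ζ) =
        (H2π (T.resSub (c.D.C L) H)).hom
          (mapCocycles₂ (MonoidHom.id H) ((Rep.resFunctor H.subtype).map (inclC1 c.D L)) ζ) :=
      congr($(H2π_comp_map (A := T.resSub (C1 c.D L) H) (B := T.resSub (c.D.C L) H)
        (MonoidHom.id H) ((Rep.resFunctor H.subtype).map (inclC1 c.D L))) ζ)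
    rw [h1, H2π_eq_zero_iff] at hs0
    obtain ⟨b, hb⟩ := hs0
    have hb' : ∀ g k : H, (T.resSub (c.D.C L) H).ρ g (b k) - b (g * k) + b g =
        ((Rep.resFunctor H.subtype).map (inclC1 c.D L)).hom (ζ (g, k)) :=
      fun g k => congrFun hb (g, k)
    letI : Fintype H := Fintype.ofFinite H
    obtain ⟨m, L', h, hm, hmem⟩ := exists_clear c hp L b Finset.univ
    choose b₁ hb₁ using fun g => exists_C1_of_isLocalSum (hmem g (Finset.mem_univ g))
    refine ⟨L', h, ?_⟩
    have hpa : p ^ a • infUp h H (trC1 c.h7 h) 2 ((H2π (T.resSub (C1 c.D L) H)).hom ζ) = 0 := by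
      rw [← map_nsmul, hsa, map_zero]
    refine eq_zero_of_nsmul_of_pow hp hm ?_ hpa
    exact nsmul_map_H2π_eq_zero (projSub (Level.proj h) H)
      ((Rep.resFunctor H.subtype).map (inclC1 c.D L))
      ((Rep.resFunctor (up h H).subtype).map (inclC1 c.D L'))
      (semiSub (Level.proj h) H (trC1 c.h7 h)) (semiSub (Level.proj h) H (c.D.tr h))
      (inclC1_injective c.D L') (fun x => inclC1_trC1 c.h7 h x) ζ b hb' m b₁ hb₁

end Tower

end Fermat.Agent.S55.K.AR.H837

end

end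
-- ===== PACK-END S55/K/AR/CapH837.lean

-- ===== PACK-BEGIN S55/K/AR/C12H748.lean
section
/-
S55 moonshot — LAYER K, block AR, leaves **AR-C1** and **AR-C2** (subtask 632).      helper748.

`h1CLeaf : H1CLeaf S p`   — `H¹(H, C(F))(p) = 0` for `F ⊇ μ_p`, every `H ≤ Gal(F/ℚ)`;
`h2CLeaf : H2CLeaf S p`   — `H²(H, C(F))(p)` is cyclic (generated by the `p`-primary component of
                            `res_H γ`).

Proof (blueprint `coord/S55-K-AR.md` §2): Sylow `P ≤ H`, GD1 for the `p`-subgroup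
`P.map H.subtype ≤ Gal(F/ℚ)`, transitivity of restriction (`T.H353.resResIso353`),
`T.H572.resIndex` (`res_P y = 0 ⇒ [H : P] y = 0`) and `T.H572.cardTorsion`.
-/




set_option autoImplicit false

open CategoryTheory

namespace Fermat.Agent.S55.K.AR.H748

open Fermat.Agent.S55 Fermat.Agent.S55.Tow Fermat.Agent.S55.E1.Lim Fermat.Agent.S55.K.AR

noncomputable section

/-! ## Abstract group theory -/

section Abstract

/-- Bezout in `ℕ`: for coprime `m`, `q` with `0 < m`, `0 < q` there are `u`, `v` with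
`u * m = 1 + v * q`. -/
lemma exists_bezout_nat {m q : ℕ} (hm : 0 < m) (hq : 0 < q) (hc : Nat.Coprime m q) :
    ∃ u v : ℕ, u * m = 1 + v * q := by
  by_cases h1 : q = 1
  · refine ⟨1, m - 1, ?_⟩
    rw [h1]; omega
  · have hq1 : 1 < q := by omega
    obtain ⟨u, -, hu⟩ := Nat.exists_mul_mod_eq_one_of_coprime hc hq1
    refine ⟨u, m * u / q, ?_⟩
    have h := Nat.div_add_mod (m * u) q
    rw [hu] at h
    rw [mul_comm u m, mul_comm (m * u / q) q]
    omega

variable {Y Z : Type} [AddCommGroup Y] [AddCommGroup Z]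

/-- If `m • y = 0` and `p ^ k • y = 0` with `m` prime to `p`, then `y = 0`. -/
lemma eq_zero_of_coprime_nsmul {p m k : ℕ} (hm : Nat.Coprime m p) (y : Y)
    (h1 : m • y = 0) (h2 : p ^ k • y = 0) : y = 0 := by
  have d1 : addOrderOf y ∣ m := addOrderOf_dvd_of_nsmul_eq_zero h1
  have d2 : addOrderOf y ∣ p ^ k := addOrderOf_dvd_of_nsmul_eq_zero h2
  have hc : Nat.Coprime m (p ^ k) := Nat.Coprime.pow_right k hm
  have h3 : addOrderOf y = 1 := Nat.eq_one_of_dvd_coprimes hc d1 d2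
  exact AddMonoid.addOrderOf_eq_one_iff.1 h3

/-- **AR-C1, abstract form.** -/
lemma c1_abstract {p m : ℕ} (hm : Nat.Coprime m p) (res : Y → Z)
    (hres : ∀ y : Y, res y = 0 → m • y = 0) (hZ : ∀ z : Z, z = 0)
    (y : Y) (hy : ∃ k : ℕ, p ^ k • y = 0) : y = 0 := by
  obtain ⟨k, hk⟩ := hy
  exact eq_zero_of_coprime_nsmul hm y (hres y (hZ _)) hk

/-- **AR-C2, abstract form.**  `N = p^a * m` kills `Y`, `m > 0` is prime to `p > 0`,
`res y = 0` implies `m • y = 0`, and `Z` is generated by `res r`: then the `p`-primary part of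
`Y` is generated by the `p`-primary component of `r`. -/
lemma c2_abstract {p a m : ℕ} (hp : 0 < p) (hm0 : 0 < m) (hm : Nat.Coprime m p) (res : Y →+ Z)
    (hres : ∀ y : Y, res y = 0 → m • y = 0) (r : Y)
    (hgen : ∀ z : Z, ∃ n : ℕ, z = n • res r)
    (hN : ∀ y : Y, (p ^ a * m) • y = 0) :
    ∃ g : Y, (∃ k : ℕ, p ^ k • g = 0) ∧
      ∀ y : Y, (∃ k : ℕ, p ^ k • y = 0) → ∃ n : ℕ, y = n • g := by
  have hc : Nat.Coprime m (p ^ a) := Nat.Coprime.pow_right a hm
  obtain ⟨u, v, huv⟩ := exists_bezout_nat hm0 (pow_pos hp a) hc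
  refine ⟨(u * m) • r, ⟨a, ?_⟩, ?_⟩
  · rw [← mul_smul]
    have : p ^ a * (u * m) = u * (p ^ a * m) := by ring
    rw [this, mul_smul, hN, smul_zero]
  · rintro y ⟨k, hk⟩
    obtain ⟨n, hn⟩ := hgen (res y)
    have h0 : res (y - n • r) = 0 := by
      rw [map_sub, map_nsmul, hn, sub_self]
    have h1 : m • y = (m * n) • r := by
      have h2 := hres _ h0
      rw [smul_sub, sub_eq_zero] at h2
      rw [h2, mul_smul]
    -- `p ^ a • y = 0`
    have h3 : p ^ a • y = 0 := by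
      have d1 : addOrderOf y ∣ p ^ a * m := addOrderOf_dvd_of_nsmul_eq_zero (hN y)
      have d2 : addOrderOf y ∣ p ^ k := addOrderOf_dvd_of_nsmul_eq_zero hk
      have hck : Nat.Coprime (addOrderOf y) m :=
        Nat.Coprime.coprime_dvd_left d2 (Nat.Coprime.pow_left k hm.symm)
      have d3 : addOrderOf y ∣ p ^ a := hck.dvd_of_dvd_mul_right d1
      exact addOrderOf_dvd_iff_nsmul_eq_zero.1 d3
    refine ⟨n, ?_⟩
    have h4 : (u * m) • y = y := by
      rw [huv, add_smul, one_smul, mul_smul, h3, smul_zero, add_zero]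
    calc y = (u * m) • y := h4.symm
      _ = u • (m • y) := by rw [mul_smul]
      _ = u • ((m * n) • r) := by rw [h1]
      _ = n • ((u * m) • r) := by
          rw [← mul_smul, ← mul_smul]
          congr 1
          ring

end Abstract

/-! ## The leaves -/

section Leaves

variable {S : Finset Nat.Primes} {p : ℕ}

/-- Injectivity of the transport isomorphism. -/
lemma resResIso_hom_injective {k G : Type} [CommRing k] [Group G] (A : Rep.{0} k G)
    (P : Subgroup G) (K : Subgroup P) (n : ℕ) :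
    Function.Injective (T.H353.resResIso353 A P K n).hom.hom := by
  intro a b hab
  have h := congrArg (T.H353.resResIso353 A P K n).inv.hom hab
  have e := fun z => congrArg (fun f => f.hom z) (T.H353.resResIso353 A P K n).hom_inv_id
  exact (e a).symm.trans (h.trans (e b))

/-- **AR-C1.** -/
theorem h1CLeaf : H1CLeaf S p := by
  intro c L hμ H y hy
  obtain ⟨hp, -, -⟩ := c.adm
  have : Fact p.Prime := ⟨hp⟩
  have hC := c.good.good.gd1 L hμ
  obtain ⟨P⟩ : Nonempty (Sylow p H) := inferInstance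
  have hP' : IsPGroup p ((P : Subgroup H).map H.subtype) :=
    IsPGroup.map P.isPGroup' H.subtype
  obtain ⟨h1, -, -⟩ := hC _ hP'
  have hzero : Limits.IsZero (groupCohomology (T.resSub (T.resSub (c.D.C L) H) (P : Subgroup H)) 1) :=
    Limits.IsZero.of_iso h1 (T.H353.resResIso353 (c.D.C L) H (P : Subgroup H) 1)
  have hsub := ModuleCat.isZero_iff_subsingleton.mp hzero
  have hidx : Nat.Coprime (P : Subgroup H).index p := by
    have := P.not_dvd_index
    exact (Nat.Coprime.symm ((Nat.Prime.coprime_iff_not_dvd hp).2 this))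
  refine c1_abstract (p := p) (m := (P : Subgroup H).index) hidx
    (fun y => (T.resMap (T.resSub (c.D.C L) H) (P : Subgroup H) 1).hom y) ?_ ?_ y hy
  · intro y hy0
    exact T.H572.resIndex ℤ H (T.resSub (c.D.C L) H) (P : Subgroup H) 1 Nat.one_pos y hy0
  · intro z
    exact hsub.elim _ _

/-- **AR-C2.** -/
theorem h2CLeaf : H2CLeaf S p := by
  intro c L hμ H
  obtain ⟨hp, -, -⟩ := c.adm
  have : Fact p.Prime := ⟨hp⟩
  have hC := c.good.good.gd1 L hμ
  obtain ⟨P⟩ : Nonempty (Sylow p H) := inferInstance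
  have hP' : IsPGroup p ((P : Subgroup H).map H.subtype) :=
    IsPGroup.map P.isPGroup' H.subtype
  obtain ⟨-, -, hgen⟩ := hC _ hP'
  have hidx : Nat.Coprime (P : Subgroup H).index p := by
    have := P.not_dvd_index
    exact (Nat.Coprime.symm ((Nat.Prime.coprime_iff_not_dvd hp).2 this))
  have hidx0 : 0 < (P : Subgroup H).index := Nat.pos_of_ne_zero (Subgroup.index_ne_zero_of_finite)
  -- `|H| = p ^ a * [H : P]`
  obtain ⟨a, ha⟩ := IsPGroup.iff_card.1 P.isPGroup'
  have hcard : Nat.card H = p ^ a * (P : Subgroup H).index := by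
    rw [← ha]
    exact ((P : Subgroup H).card_mul_index).symm
  set r : Hn H (c.D.C L) 2 := (T.resMap (c.D.C L) H 2).hom (c.D.γ L) with hr
  refine c2_abstract (p := p) (a := a) (m := (P : Subgroup H).index) hp.pos hidx0 hidx
    ((T.resMap (T.resSub (c.D.C L) H) (P : Subgroup H) 2).hom.toAddMonoidHom) ?_ r ?_ ?_
  · intro y hy0
    exact T.H572.resIndex ℤ H (T.resSub (c.D.C L) H) (P : Subgroup H) 2 (by norm_num) y hy0
  · intro z
    obtain ⟨n, hn⟩ := hgen ((T.H353.resResIso353 (c.D.C L) H (P : Subgroup H) 2).hom.hom z)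
    refine ⟨n, resResIso_hom_injective (c.D.C L) H (P : Subgroup H) 2 ?_⟩
    rw [hn, map_nsmul]
    congr 1
    exact (T.H353.resResIso353_hom_resMap (c.D.C L) H (P : Subgroup H) 2 (c.D.γ L)).symm
  · intro y
    rw [← hcard]
    exact T.H572.cardTorsion ℤ H (T.resSub (c.D.C L) H) 2 (by norm_num) y

end Leaves

end

end Fermat.Agent.S55.K.AR.H748

end
-- ===== PACK-END S55/K/AR/C12H748.lean

-- ===== PACK-BEGIN S55/K/AR/KappaH501.lean
section
/-
S55 moonshot — LAYER K, block AR, leaf **AR-KAPPA** (subtask 633).      Owner: helper501.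
Namespace `Fermat.Agent.S55.K.AR.H501`.  No `sorry`.

`kappaLeaf : KappaLeaf S p` (exact type of `K/AR/Spec.lean`):
if `p ^ b` divides the local degree `|Gal(F_q/ℚ_q)|`, there is `v ∈ H²(Gal(F/ℚ), J_q(F))` with
`p ^ b • v = 0` whose image in `H²(Gal(F/ℚ), C(F))` has order exactly `p ^ b`.

Proof.  (1) `exists_exact_order`: in a class module at `p` for a finite group `G`, the class
`(|G| / p ^ b) • γ` has order exactly `p ^ b` (restrict to a Sylow `p`-subgroup `P`: `H²(P, A)` is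
cyclic of order `|P|`, generated by `res γ`; `|G|` kills `H²(G, A)`).
(2) Shapiro (`H173.shapiroJ_bijective`) transports it to `H²(Gal(F/ℚ), J_q(F))`.
(3) GD3 (`j_q` injective on `p`-torsion of `H²`) keeps the order.
-/




set_option autoImplicit false

open CategoryTheory

namespace Fermat.Agent.S55.K.AR.H501

open Fermat.Agent.S55 Fermat.Agent.S55.Tow

noncomputable section

/-! ## 1. Elementary: elements of exact `p`-power order -/

/-- In an additive group: if `p ^ b • v = 0` and `p ^ (b - 1) • v ≠ 0` (for `b ≥ 1`), the order of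
`v` is a multiple of `p ^ b`. -/
theorem pow_dvd_of_nsmul_eq_zero {M : Type} [AddCommGroup M] {p : ℕ} (hp : p.Prime) (b : ℕ)
    (v : M) (hv : p ^ b • v = 0) (hne : 0 < b → p ^ (b - 1) • v ≠ 0) (n : ℕ) (hn : n • v = 0) :
    p ^ b ∣ n := by
  rcases Nat.eq_zero_or_pos b with hb | hb
  · subst hb
    simp
  have h1 : addOrderOf v ∣ p ^ b := addOrderOf_dvd_of_nsmul_eq_zero hv
  obtain ⟨e, he, heq⟩ := (Nat.dvd_prime_pow hp).mp h1
  have h2 : addOrderOf v ∣ n := addOrderOf_dvd_of_nsmul_eq_zero hn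
  rcases Nat.lt_or_ge e b with hlt | hge
  · exfalso
    apply hne hb
    have h3 : addOrderOf v ∣ p ^ (b - 1) := by
      rw [heq]
      exact pow_dvd_pow p (by omega)
    exact addOrderOf_dvd_iff_nsmul_eq_zero.mp h3
  · have : e = b := le_antisymm he hge
    rw [← this, ← heq]
    exact h2

variable {G : Type} [Group G] [Finite G]

/-- **Class modules at `p` contain classes of every admissible exact `p`-power order.** -/
theorem exists_exact_order {p : ℕ} (hp : p.Prime) (A : Rep.{0} ℤ G)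
    (γ : groupCohomology A 2) (hγ : E1.IsClassModuleAt p A γ) (b : ℕ)
    (hb : p ^ b ∣ Nat.card G) :
    ∃ v : groupCohomology A 2, p ^ b • v = 0 ∧ ∀ n : ℕ, n • v = 0 → p ^ b ∣ n := by
  classical
  have : Fact p.Prime := ⟨hp⟩
  have hG : Nat.card G ≠ 0 := Nat.card_pos.ne'
  set a := (Nat.card G).factorization p with ha
  have hba : b ≤ a := (hp.pow_dvd_iff_le_factorization hG).mp hb
  set m := Nat.card G / p ^ a with hm
  have hcard : p ^ a * m = Nat.card G := Nat.ordProj_mul_ordCompl_eq_self (Nat.card G) p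
  have hcop : Nat.Coprime p m := Nat.coprime_ordCompl hp hG
  -- a Sylow subgroup
  let P : Sylow p G := default
  have hPcard : Nat.card (P : Subgroup G) = p ^ a := P.card_eq_multiplicity
  obtain ⟨-, hH2card, hgen⟩ := hγ (P : Subgroup G) P.isPGroup'
  set ρ := (T.resMap A (P : Subgroup G) 2).hom γ with hρ
  -- `ρ` has order exactly `p ^ a`
  have hfin : Finite (groupCohomology (T.resSub A (P : Subgroup G)) 2) := by
    apply Nat.finite_of_card_ne_zero
    rw [hH2card, hPcard]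
    exact pow_ne_zero _ hp.ne_zero
  have htop : AddSubgroup.zmultiples ρ = ⊤ := by
    rw [eq_top_iff]
    intro x _
    obtain ⟨n, hn⟩ := hgen x
    rw [hn]
    exact AddSubgroup.nsmul_mem _ (AddSubgroup.mem_zmultiples ρ) n
  have hord : addOrderOf ρ = p ^ a := by
    rw [← Nat.card_zmultiples, htop, ← hPcard, ← hH2card]
    exact Nat.card_congr (Equiv.Set.univ _)
  -- the class
  have hkill : Nat.card G • γ = 0 := T.H572.cardTorsion ℤ G A 2 (by norm_num) γ
  refine ⟨(m * p ^ (a - b)) • γ, ?_, ?_⟩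
  · rw [← mul_nsmul']
    have : p ^ b * (m * p ^ (a - b)) = Nat.card G := by
      rw [mul_comm, mul_assoc, ← pow_add, Nat.sub_add_cancel hba, mul_comm, hcard]
    rw [this, hkill]
  · intro n hn
    have h1 : (n * (m * p ^ (a - b))) • ρ = 0 := by
      have := congrArg (T.resMap A (P : Subgroup G) 2).hom hn
      rw [map_nsmul, map_nsmul, map_zero, ← mul_nsmul'] at this
      exact this
    have h2 : p ^ a ∣ n * (m * p ^ (a - b)) := by
      rw [← hord]
      exact addOrderOf_dvd_of_nsmul_eq_zero h1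
    have h3 : p ^ b * p ^ (a - b) ∣ (n * m) * p ^ (a - b) := by
      rw [← pow_add, Nat.add_sub_cancel' hba, mul_assoc]
      exact h2
    have h4 : p ^ b ∣ n * m :=
      Nat.dvd_of_mul_dvd_mul_right (pow_pos hp.pos _) h3
    exact (Nat.Coprime.pow_left b hcop).dvd_of_dvd_mul_right h4

/-! ## 2. The leaf -/

variable {S : Finset Nat.Primes} {p : ℕ}

/-- **AR-KAPPA.** -/
theorem kappa (c : Ctx S p) (hloc : LocalSpec p) : Kappa c := by
  intro L hμ q hq b hb
  obtain ⟨hp, -, -⟩ := c.adm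
  obtain ⟨γ, hγ⟩ := hloc.1 S L q
  obtain ⟨v₀, hv₀, hv₀'⟩ := exists_exact_order hp (L.locUnits q) γ hγ b hb
  obtain ⟨v, hv⟩ := (H173.shapiroJ_bijective L q 2).2 v₀
  have hinj := (H173.shapiroJ_bijective L q 2).1
  have hsmul : ∀ k : ℕ, k • v = 0 ↔ k • v₀ = 0 := by
    intro k
    constructor
    · intro h
      rw [← hv, ← map_nsmul, h, map_zero]
    · intro h
      apply hinj
      rw [map_nsmul, hv, h, map_zero]
  have hpv : p ^ b • v = 0 := (hsmul _).mpr hv₀
  refine ⟨v, hpv, ?_⟩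
  set w := (T.coeffMap (c.D.j L q) 2).hom v with hw
  have hpw : p ^ b • w = 0 := by
    rw [hw, ← map_nsmul, hpv, map_zero]
  refine pow_dvd_of_nsmul_eq_zero hp b w hpw ?_
  intro hbpos hzero
  -- `p ^ (b-1) • v` is `p`-torsion and dies in `H²(C)`: it vanishes by GD3
  have h1 : p • (p ^ (b - 1) • v) = 0 := by
    rw [← mul_nsmul', mul_comm, ← pow_succ, Nat.sub_add_cancel hbpos]
    exact hpv
  have h2 : (T.coeffMap (c.D.j L q) 2).hom (p ^ (b - 1) • v) = 0 := by
    rw [map_nsmul]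
    exact hzero
  have h3 : p ^ (b - 1) • v = 0 := c.good.good.gd3 L hμ q hq _ h1 h2
  have h4 : p ^ b ∣ p ^ (b - 1) := hv₀' _ ((hsmul _).mp h3)
  have h5 : b ≤ b - 1 := (Nat.pow_dvd_pow_iff_le_right hp.one_lt).mp h4
  omega

/-- **Leaf AR-KAPPA** in the exact form of `K/AR/Spec.lean`. -/
theorem kappaLeaf (S : Finset Nat.Primes) (p : ℕ) : KappaLeaf S p :=
  fun c hloc => kappa c hloc

end

end Fermat.Agent.S55.K.AR.H501

end
-- ===== PACK-END S55/K/AR/KappaH501.lean

-- ===== PACK-BEGIN S55/K/AR/DegMuH181.lean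
section





/-!
# S55 / layer K, block AR, leaves AR-DEG and AR-MU (helper181)

* `decLeaf : DecLeaf S p` — the `p`-parts of the local degrees `|Gal(F_q/ℚ_q)|`, `q ∈ S`, are
  unbounded in the tower of `S`-levels (`p ∈ S`): adjoin `ζ_{p^J}` for `J` large
  (helper824's `exists_pow_dvd_finrank_adjoin`, helper414's `cycloLevel`).
* `muDirLeaf : MuDirLeaf S p` — `ℚ(ζ_p)` is a level containing `μ_p`, and levels are directed
  (helper603's `levelSup`).
-/

set_option autoImplicit false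
set_option linter.style.haveILetI false

noncomputable section

namespace Fermat.Agent.S55.K.AR.H181

open Fermat.Agent.S55 Fermat.Agent.S55.Tow ExtCitation

variable (S : Finset Nat.Primes) (p : ℕ) [Fact p.Prime]

instance neZero_prime_pow (j : ℕ) : NeZero (p ^ j) := ⟨pow_ne_zero j (Fact.out : p.Prime).ne_zero⟩

/-- The level `ℚ(ζ_{p^j})` of `S ∋ p`. -/
def cycLevel (hpS : pPrime p ∈ S) (j : ℕ) : Level S :=
  E1.H603.levelOfGalois (H414.cycloLevel (p ^ j))
    (H414.isUnramifiedOutside_cycloLevel p j S hpS) inferInstance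

lemma cycLevel_F (hpS : pPrime p ∈ S) (j : ℕ) :
    (cycLevel S p hpS j).F = H414.cycloLevel (p ^ j) := rfl

/-- `ℚ(ζ_{p^i}) ⊆ ℚ(ζ_{p^j})` for `i ≤ j`. -/
lemma cycloLevel_mono {i j : ℕ} (hij : i ≤ j) :
    H414.cycloLevel (p ^ i) ≤ H414.cycloLevel (p ^ j) := by
  haveI : Algebra.IsIntegral ℚ (AlgebraicClosure ℚ) :=
    (AlgebraicClosure.isAlgebraic ℚ).isIntegral
  exact KL.H824.adjoin_primitiveRoot_mono ℚ (Fact.out : p.Prime)
    (ζ := fun j => H414.zetaBar (p ^ j)) (fun j => H414.zetaBar_spec (p ^ j)) hij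

/-- For every prime `q` some `ℚ(ζ_{p^j})` has local degree at `q` divisible by `p^m`. -/
lemma exists_pow_dvd_index (q : Nat.Primes) (m : ℕ) :
    ∃ j : ℕ, p ^ m ∣ ((H414.cycloLevel (p ^ j)).fixingSubgroup.comap (locQ q)).index := by
  letI : Fact (q : ℕ).Prime := ⟨q.2⟩
  have hp : p.Prime := Fact.out
  have hζ : ∀ j, IsPrimitiveRoot (padicEmbedding (q : ℕ) (H414.zetaBar (p ^ j))) (p ^ j) :=
    fun j => (H414.zetaBar_spec (p ^ j)).map_of_injective (padicEmbedding (q : ℕ)).injective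
  have hpK : ((p : ℕ) : PadicAlgCl (q : ℕ)) ≠ 0 := Nat.cast_ne_zero.2 hp.ne_zero
  obtain ⟨j, hj⟩ := KL.H824.exists_pow_dvd_finrank_adjoin ℚ_[(q : ℕ)] hp hpK
    (fun j => padicEmbedding (q : ℕ) (H414.zetaBar (p ^ j))) hζ m
  refine ⟨j, ?_⟩
  have hidx : ((IntermediateField.adjoin ℚ {H414.zetaBar (p ^ j)}).fixingSubgroup.comap
      (locQ q)).index = Module.finrank ℚ_[(q : ℕ)]
        (IntermediateField.adjoin ℚ_[(q : ℕ)] {padicEmbedding (q : ℕ) (H414.zetaBar (p ^ j))}) :=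
    KL.H824.index_comap_fixingSubgroup_adjoin (q : ℕ) (H414.zetaBar (p ^ j))
  show p ^ m ∣ ((IntermediateField.adjoin ℚ {H414.zetaBar (p ^ j)}).fixingSubgroup.comap
      (locQ q)).index
  rw [hidx]
  exact hj

omit [Fact p.Prime] in
/-- **AR-DEG.** -/
theorem decLeaf : DecLeaf S p := by
  rintro ⟨hp, -, hpS⟩ L m
  haveI : Fact p.Prime := ⟨hp⟩
  have hpS' : pPrime p ∈ S := hpS
  choose j hj using fun q : Nat.Primes => exists_pow_dvd_index p q m
  refine ⟨E1.H603.levelSup L (cycLevel S p hpS' (S.sup j)), E1.H603.le_levelSup_left _ _,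
    fun q hq => ?_⟩
  have hle : (E1.H603.levelSup L (cycLevel S p hpS' (S.sup j))).V q ≤
      (H414.cycloLevel (p ^ j q)).fixingSubgroup.comap (locQ q) := by
    apply Subgroup.comap_mono
    apply IntermediateField.fixingSubgroup_antitone
    exact (cycloLevel_mono p (Finset.le_sup hq)).trans
      (le_sup_right : H414.cycloLevel (p ^ S.sup j) ≤ L.F ⊔ H414.cycloLevel (p ^ S.sup j))
  have h1 := Subgroup.index_dvd_of_le hle
  rw [← Subgroup.index_eq_card]
  exact (hj q).trans h1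

omit [Fact p.Prime] in
/-- **AR-MU.** -/
theorem muDirLeaf : MuDirLeaf S p := by
  rintro ⟨hp, -, hpS⟩
  haveI : Fact p.Prime := ⟨hp⟩
  have hpS' : pPrime p ∈ S := hpS
  refine ⟨⟨cycLevel S p hpS' 1, H414.zetaBar (p ^ 1), H414.zetaBar_mem_cycloLevel (p ^ 1), ?_⟩,
    fun L L' => ⟨E1.H603.levelSup L L', E1.H603.le_levelSup_left _ _,
      E1.H603.le_levelSup_right _ _⟩⟩
  have h := H414.zetaBar_spec (p ^ 1)
  exact Eq.mp (congrArg (IsPrimitiveRoot (H414.zetaBar (p ^ 1))) (pow_one p)) h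

end Fermat.Agent.S55.K.AR.H181

end
end
-- ===== PACK-END S55/K/AR/DegMuH181.lean

-- ===== PACK-BEGIN S55/K/AR/SurjKerH939.lean
section
/-
S55 moonshot — LAYER K, block AR, leaves **AR-c** (`SurjJCLeaf`) and **AR-d** (`KerDivLeaf`).
helper939.  Blueprint: `coord/S55-K-AR.md` §2.

`surjJC : SurjJCLeaf S p`, `kerDiv : KerDivLeaf S p`.
-/



set_option autoImplicit false

open CategoryTheory

namespace Fermat.Agent.S55.K.AR.H939

open Fermat.Agent.S55 Fermat.Agent.S55.Tow Fermat.Agent.S55.E1.Lim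

noncomputable section

attribute [local instance 10000] Rep.hV2

/-! ## Cyclic bookkeeping -/

/-- An integer multiple of a torsion element is a natural multiple. -/
lemma exists_nsmul_of_zsmul {A : Type*} [AddCommGroup A] (r : A) (N : ℕ) (hN : 0 < N)
    (h : N • r = 0) (t : ℤ) : ∃ t' : ℕ, t • r = t' • r := by
  refine ⟨(t % N).toNat, ?_⟩
  have hN' : (N : ℤ) ≠ 0 := by exact_mod_cast hN.ne'
  have h1 : ((t % N).toNat : ℤ) = t % N := Int.toNat_of_nonneg (Int.emod_nonneg _ hN')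
  rw [← natCast_zsmul, h1]
  have h2 : t = t % N + (t / N) * N := by
    have := Int.emod_add_mul_ediv t N
    linarith [mul_comm (t / N) (N : ℤ)]
  conv_lhs => rw [h2]
  rw [add_zsmul, mul_smul, natCast_zsmul, h, zsmul_zero, add_zero]

/-- In the cyclic group generated by a torsion element `g`: if `r = m • g` has order divisible by
`P` and `y = n • g` is killed by `P`, then `y` is a multiple of `r`. -/
lemma cyclic_span {A : Type*} [AddCommGroup A] (P : ℕ) (hP : 0 < P) (g : A) (M : ℕ)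
    (hM : 0 < M) (hg : M • g = 0) (m n : ℕ)
    (hr : ∀ N : ℕ, N • (m • g) = 0 → P ∣ N) (hy : P • (n • g) = 0) :
    ∃ t : ℕ, n • g = t • (m • g) := by
  set o := addOrderOf g with ho
  have hoM : o ∣ M := addOrderOf_dvd_of_nsmul_eq_zero hg
  have ho0 : 0 < o := Nat.pos_of_dvd_of_pos hoM hM
  have hog : o • g = 0 := addOrderOf_nsmul_eq_zero g
  set d := Nat.gcd m o with hd
  have hdo : d ∣ o := Nat.gcd_dvd_right m o
  have hdm : d ∣ m := Nat.gcd_dvd_left m o
  obtain ⟨N, hN⟩ := hdo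
  obtain ⟨m', hm'⟩ := hdm
  have h1 : N • (m • g) = 0 := by
    rw [← mul_smul]
    have : N * m = m' * o := by
      rw [hm', hN]; ring
    rw [this, mul_smul, hog, smul_zero]
  obtain ⟨N', hN'⟩ := hr N h1
  have h2 : o ∣ P * n := by
    apply addOrderOf_dvd_of_nsmul_eq_zero
    rw [mul_smul]
    exact hy
  have h3 : d ∣ n := by
    have h4 : P * (N' * d) ∣ P * n := by
      have : P * (N' * d) = o := by rw [hN, hN']; ring
      rw [this]; exact h2
    have h5 : N' * d ∣ n := Nat.dvd_of_mul_dvd_mul_left hP h4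
    exact Dvd.dvd.trans (Dvd.intro_left N' rfl) h5
  obtain ⟨n', hn'⟩ := h3
  have hbez : (d : ℤ) = Nat.gcdA m o * m + Nat.gcdB m o * o := by
    rw [Nat.gcd_eq_gcd_ab m o]; ring
  have h6 : d • g = (Nat.gcdA m o) • (m • g) := by
    rw [← natCast_zsmul, hbez, add_zsmul, mul_smul, mul_smul, natCast_zsmul, natCast_zsmul, hog,
      smul_zero, add_zero]
  have hMr : M • (m • g) = 0 := by
    rw [smul_comm, hg, smul_zero]
  obtain ⟨t, ht⟩ := exists_nsmul_of_zsmul (m • g) M hM hMr ((n' : ℤ) * Nat.gcdA m o)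
  refine ⟨t, ?_⟩
  rw [← ht, hn', mul_comm d n', mul_smul, h6, mul_smul, natCast_zsmul]

/-! ## Restriction, coefficient maps, inflation -/

section General

variable {Γ Γ' : Type} [Group Γ] [Group Γ']

/-- Restriction `Hⁿ(Γ, A) → Hⁿ(H, A)`. -/
abbrev resH (H : Subgroup Γ) (A : Rep.{0} ℤ Γ) (n : ℕ) : groupCohomology A n →ₗ[ℤ] Hn H A n :=
  (T.resMap A H n).hom

/-- Restriction commutes with coefficient maps. -/
lemma coe_resH (H : Subgroup Γ) {A B : Rep.{0} ℤ Γ} (f : A ⟶ B) (n : ℕ)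
    (x : groupCohomology A n) :
    coe H f n (resH H A n x) = resH H B n ((T.coeffMap f n).hom x) := by
  have h := (groupCohomology.resNatTrans (k := ℤ) H.subtype n).naturality f
  have h' := congrArg (fun φ => φ.hom x) h
  exact h'.symm

/-- `coe` is functorial. -/
lemma coe_comp (H : Subgroup Γ) {A B C : Rep.{0} ℤ Γ} (f : A ⟶ B) (g : B ⟶ C) (n : ℕ)
    (x : Hn H A n) : coe H (f ≫ g) n x = coe H g n (coe H f n x) := by
  have h : T.coeffMap ((Rep.resFunctor H.subtype).map (f ≫ g)) n =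
      T.coeffMap ((Rep.resFunctor H.subtype).map f) n ≫
        T.coeffMap ((Rep.resFunctor H.subtype).map g) n := by
    rw [Functor.map_comp]
    exact groupCohomology.map_id_comp _ _ n
  exact congrArg (fun φ => φ.hom x) h

/-- Inflation commutes with coefficient maps (for commuting squares of coefficients). -/
lemma coe_infSub (π : Γ' →* Γ) (H : Subgroup Γ) {A B : Rep.{0} ℤ Γ} {A' B' : Rep.{0} ℤ Γ'}
    (f : A ⟶ B) (f' : A' ⟶ B') (t : Rep.res π A ⟶ A') (s : Rep.res π B ⟶ B')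
    (hsq : ∀ a : A.V, f'.hom (t.hom a) = s.hom (f.hom a)) (n : ℕ) (x : Hn H A n) :
    coe (H.comap π) f' n (infSub π H t n x) = infSub π H s n (coe H f n x) := by
  have h1 : groupCohomology.map (projSub π H) (semiSub π H t) n ≫
      T.coeffMap ((Rep.resFunctor (H.comap π).subtype).map f') n =
      groupCohomology.map ((projSub π H).comp (MonoidHom.id _))
        ((Rep.resFunctor (MonoidHom.id _)).map (semiSub π H t) ≫
          (Rep.resFunctor (H.comap π).subtype).map f') n :=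
    (groupCohomology.map_comp _ _ _ _ n).symm
  have h2 : T.coeffMap ((Rep.resFunctor H.subtype).map f) n ≫
      groupCohomology.map (projSub π H) (semiSub π H s) n =
      groupCohomology.map ((MonoidHom.id _).comp (projSub π H))
        ((Rep.resFunctor (projSub π H)).map ((Rep.resFunctor H.subtype).map f) ≫
          semiSub π H s) n :=
    (groupCohomology.map_comp _ _ _ _ n).symm
  have h3 : groupCohomology.map ((projSub π H).comp (MonoidHom.id _))
        ((Rep.resFunctor (MonoidHom.id _)).map (semiSub π H t) ≫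
          (Rep.resFunctor (H.comap π).subtype).map f') n =
      groupCohomology.map ((MonoidHom.id _).comp (projSub π H))
        ((Rep.resFunctor (projSub π H)).map ((Rep.resFunctor H.subtype).map f) ≫
          semiSub π H s) n := by
    refine groupCohomology.map_congr rfl ?_ n
    refine LinearMap.ext fun a => ?_
    exact hsq a
  have h := congrArg (fun φ => φ.hom x) (h1.trans (h3.trans h2.symm))
  exact h

/-- The order of the restriction of a class to a subgroup of index prime to `P`. -/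
lemma order_resH [Finite Γ] (H : Subgroup Γ) (A : Rep.{0} ℤ Γ) (P : ℕ)
    (hcop : Nat.Coprime H.index P) (κ : groupCohomology A 2)
    (hκ : ∀ n : ℕ, n • κ = 0 → P ∣ n) :
    ∀ n : ℕ, n • resH H A 2 κ = 0 → P ∣ n := by
  intro n hn
  have h1 : (T.resMap A H 2).hom (n • κ) = 0 := by
    have : resH H A 2 (n • κ) = n • resH H A 2 κ := map_nsmul _ _ _
    exact this.trans hn
  have h2 := T.H572.resIndex ℤ Γ A H 2 (by norm_num) (n • κ) h1
  rw [← mul_smul] at h2
  exact Nat.Coprime.dvd_of_dvd_mul_left hcop.symm (hκ _ h2)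

end General

/-! ## The tower -/

section Tower

variable {S : Finset Nat.Primes} {p : ℕ}

lemma proj_surjective {L L' : Level S} (h : L ≤ L') : Function.Surjective (Level.proj h) := by
  intro g
  induction g using QuotientGroup.induction_on with
  | H a => exact ⟨QuotientGroup.mk a, rfl⟩

lemma index_up {L L' : Level S} (h : L ≤ L') (H : Subgroup L.Gal) :
    (up h H).index = H.index :=
  Subgroup.index_comap_of_surjective H (proj_surjective h)

lemma inclJ_jTot (D : TowerDatum S) (L : Level S) (q : S) :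
    inclJ L q ≫ jTot D L = D.j L q.1 := by
  apply Rep.hom_ext
  apply DFunLike.ext
  intro x
  exact jTot_inclJ D L q x

/-- `jTot_* (inclJ_* (res v)) = res (j_* v)`. -/
lemma coe_jTot_inclJ_res (D : TowerDatum S) (L : Level S) (q : S) (H : Subgroup L.Gal)
    (v : groupCohomology (L.J q.1) 2) :
    coe H (jTot D L) 2 (coe H (inclJ L q) 2 (resH H (L.J q.1) 2 v)) =
      resH H (D.C L) 2 ((T.coeffMap (D.j L q.1) 2).hom v) := by
  rw [← coe_comp, inclJ_jTot, coe_resH]

/-- Common core of (c) and (d): a class of `H²(H', C(F'))` killed by `p^b` is `jTot_*` of a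
class of `H²(H', J(F'))` killed by `p^b`, as soon as `p^b` divides the local degree at `p`. -/
lemma exists_lift (c : Ctx S p) (hcyc : H2CCyclic c) (hkap : Kappa c) (L : Level S)
    (hmu : L.HasMu p) (H : Subgroup L.Gal) (hcop : Nat.Coprime H.index p) (b : ℕ)
    (hdeg : ∀ q ∈ S, p ^ b ∣ Nat.card (L.Dec q)) (x : Hn H (c.D.C L) 2) (hx : p ^ b • x = 0) :
    ∃ y : Hn H (Jtot L) 2, p ^ b • y = 0 ∧ coe H (jTot c.D L) 2 y = x := by
  obtain ⟨hp, -, hpS⟩ := c.adm
  obtain ⟨v, hv, hv'⟩ := hkap L hmu ⟨p, hp⟩ hpS b (hdeg _ hpS)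
  have hPpos : 0 < p ^ b := pow_pos hp.pos b
  have hcop' : Nat.Coprime H.index (p ^ b) := Nat.Coprime.pow_right b hcop
  have hr := order_resH H (c.D.C L) (p ^ b) hcop' _ hv'
  obtain ⟨g, ⟨M, hM⟩, hgen⟩ := hcyc L hmu H
  have hrp : p ^ b • resH H (c.D.C L) 2 ((T.coeffMap (c.D.j L ⟨p, hp⟩) 2).hom v) = 0 := by
    rw [← map_nsmul, ← map_nsmul, hv, map_zero, map_zero]
  obtain ⟨m, hm⟩ := hgen _ ⟨b, hrp⟩
  obtain ⟨n, hn⟩ := hgen x ⟨b, hx⟩
  obtain ⟨t, ht⟩ := cyclic_span (p ^ b) hPpos g (p ^ M) (pow_pos hp.pos M) hM m n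
    (by rw [← hm]; exact hr) (by rw [← hn]; exact hx)
  refine ⟨coe H (inclJ L ⟨⟨p, hp⟩, hpS⟩) 2 (t • resH H (L.J ⟨p, hp⟩) 2 v), ?_, ?_⟩
  · rw [← map_nsmul, smul_comm, ← map_nsmul, hv, map_zero, smul_zero, map_zero]
  · rw [map_nsmul, map_nsmul, coe_jTot_inclJ_res c.D L ⟨⟨p, hp⟩, hpS⟩ H v, hn, ht, hm]

/-- Leaf **AR-c**. -/
theorem surjJC : SurjJCLeaf S p := by
  intro c hcyc hkap hdec L hmu H hcop x hx
  obtain ⟨b, hb⟩ := hx
  obtain ⟨L', hLL', hdeg⟩ := hdec L b
  have hmu' : L'.HasMu p := hmu.mono hLL'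
  have hcop' : Nat.Coprime (up hLL' H).index p := by rw [index_up]; exact hcop
  have hxinf : p ^ b • infUp hLL' H (c.D.tr hLL') 2 x = 0 := by
    rw [← map_nsmul, hb, map_zero]
  obtain ⟨y, -, hy⟩ := exists_lift c hcyc hkap L' hmu' (up hLL' H) hcop' b hdeg _ hxinf
  exact ⟨L', hLL', y, hy.symm⟩

/-- Leaf **AR-d**. -/
theorem kerDiv : KerDivLeaf S p := by
  intro c hcyc hkap hdec hdiv L hmu H hcop x hx hxj
  obtain ⟨hp, -, hpS⟩ := c.adm
  obtain ⟨b, hb⟩ := hx
  -- `[G : H] ≤ p ^ c'`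
  obtain ⟨c', hc'⟩ : ∃ c' : ℕ, H.index ≤ p ^ c' :=
    ⟨H.index, (Nat.lt_pow_self hp.one_lt).le⟩
  obtain ⟨L', hLL', hdeg⟩ := hdec L (b + 1 + c')
  have hmu' : L'.HasMu p := hmu.mono hLL'
  have hidx : (up hLL' H).index = H.index := index_up hLL' H
  have hcop' : Nat.Coprime (up hLL' H).index p := by rw [hidx]; exact hcop
  have hxinf : p ^ b • infUp hLL' H (trJtot hLL') 2 x = 0 := by
    rw [← map_nsmul, hb, map_zero]
  obtain ⟨z, hz⟩ := hdiv L' (up hLL' H) b c' (by rw [hidx]; exact hc') hdeg _ hxinf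
  -- `jTot_* z` is killed by `p`
  have hsq : ∀ a : (Jtot L).V,
      (jTot c.D L').hom ((trJtot hLL').hom a) = (c.D.tr hLL').hom ((jTot c.D L).hom a) :=
    fun a => (tr_jTot c.h7 hLL' a).symm
  have hjz : p ^ 1 • coe (up hLL' H) (jTot c.D L') 2 z = 0 := by
    rw [pow_one, ← map_nsmul, hz]
    have := coe_infSub (Level.proj hLL') H (jTot c.D L) (jTot c.D L') (trJtot hLL')
      (c.D.tr hLL') hsq 2 x
    rw [this, hxj, map_zero]
  have hdeg1 : ∀ q ∈ S, p ^ 1 ∣ Nat.card (L'.Dec q) := fun q hq =>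
    Dvd.dvd.trans (pow_dvd_pow p (by omega)) (hdeg q hq)
  obtain ⟨w, hw, hwj⟩ := exists_lift c hcyc hkap L' hmu' (up hLL' H) hcop' 1 hdeg1 _ hjz
  rw [pow_one] at hw
  refine ⟨L', hLL', z - w, ?_, ?_⟩
  · rw [smul_sub, hw, sub_zero, hz]
  · rw [map_sub, hwj, sub_self]

end Tower

end

end Fermat.Agent.S55.K.AR.H939

end
-- ===== PACK-END S55/K/AR/SurjKerH939.lean

-- ===== PACK-BEGIN S55/K/AR/HasseH181.lean
section
/-
S55 moonshot — LAYER K, block AR, leaf **AR-HASSE** (`HasseLeaf`).        helper181.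
Namespace `Fermat.Agent.S55.K.AR.H181`.  Blueprint: `coord/S55-K-AR.md` §2, row AR-HASSE.

`hasseLeaf S p : HasseLeaf S p` — a `p`-primary class of `H²(Gal(F/K), E(F))` which dies in
`H²(Gal(F/K), J(F))` dies in `H²(Gal(F'/K), E(F'))` for some `F' ≥ F`.

Reusable (generic, part of AR-LIB):
* `infSub_comp`, `infSub_eq_zero_of_comp` : transitivity of `infSub` (no casts: the composite is
  stated for an arbitrary `π''` with `π ∘ π' = π''` pointwise);
* `infUp_trans_eq_zero` : the tower form;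
* `exists_delta_eq` : exactness of `H¹(H, X₃) → H²(H, X₁) → H²(H, X₂)` for a short exact sequence
  of `Γ`-modules and a subgroup `H ≤ Γ`, with a `p`-primary preimage (`exists_delta_eq_pprim`);
* `delta_infSub` : `δ ∘ inf = inf ∘ δ` for a morphism of short exact sequences;
* `coe_infSub'` : `coe ∘ inf = inf ∘ coe`;  `isPPrim_map`.
-/





set_option autoImplicit false

open CategoryTheory groupCohomology

namespace Fermat.Agent.S55.K.AR.H181

open Fermat.Agent.S55 Fermat.Agent.S55.Tow Fermat.Agent.S55.E1.Lim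

noncomputable section

/-! ## 1. Generic lemmas -/

section General

variable {Γ Γ' Γ'' : Type} [Group Γ] [Group Γ'] [Group Γ'']

/-- Additive maps preserve `p`-primary elements. -/
lemma isPPrim_map {p : ℕ} {A B : Type} [AddCommGroup A] [AddCommGroup B] (f : A →+ B) {x : A}
    (hx : IsPPrim p x) : IsPPrim p (f x) := by
  obtain ⟨k, hk⟩ := hx
  exact ⟨k, by rw [← map_nsmul, hk, map_zero]⟩

/-- Coefficient change commutes with inflation, for a commuting square of coefficients. -/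
theorem coe_infSub' (π : Γ' →* Γ) (H : Subgroup Γ) {A B : Rep.{0} ℤ Γ} {A' B' : Rep.{0} ℤ Γ'}
    (f : A ⟶ B) (f' : A' ⟶ B') (t : Rep.res π A ⟶ A') (s : Rep.res π B ⟶ B')
    (hsq : ∀ a : A.V, f'.hom (t.hom a) = s.hom (f.hom a)) (n : ℕ) (x : Hn H A n) :
    coe (H.comap π) f' n (infSub π H t n x) = infSub π H s n (coe H f n x) := by
  have h : groupCohomology.map (projSub π H) (semiSub π H t) n ≫
        T.coeffMap ((Rep.resFunctor (H.comap π).subtype).map f') n =
      T.coeffMap ((Rep.resFunctor H.subtype).map f) n ≫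
        groupCohomology.map (projSub π H) (semiSub π H s) n := by
    rw [← groupCohomology.map_comp, ← groupCohomology.map_comp]
    refine groupCohomology.map_congr rfl ?_ n
    apply DFunLike.ext
    intro a
    exact hsq a
  exact congrArg (fun φ => φ.hom x) h

/-- **Transitivity of inflation**, composite form. -/
theorem infSub_comp (π : Γ' →* Γ) (π' : Γ'' →* Γ') (H : Subgroup Γ) {A : Rep.{0} ℤ Γ}
    {A' : Rep.{0} ℤ Γ'} {A'' : Rep.{0} ℤ Γ''} (t : Rep.res π A ⟶ A') (t' : Rep.res π' A' ⟶ A'')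
    (t'' : Rep.res (π.comp π') A ⟶ A'') (ht : ∀ a : A.V, t'.hom (t.hom a) = t''.hom a) (n : ℕ)
    (x : Hn H A n) :
    infSub (π.comp π') H t'' n x = infSub π' (H.comap π) t' n (infSub π H t n x) := by
  have h : groupCohomology.map (projSub (π.comp π') H) (semiSub (π.comp π') H t'') n =
      groupCohomology.map (projSub π H) (semiSub π H t) n ≫
        groupCohomology.map (projSub π' (H.comap π)) (semiSub π' (H.comap π) t') n := by
    rw [← groupCohomology.map_comp]
    refine groupCohomology.map_congr rfl ?_ n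
    apply DFunLike.ext
    intro a
    exact (ht a).symm
  exact congrArg (fun φ => φ.hom x) h

/-- **Transitivity of inflation**: if `inf' (inf x) = 0` then `inf'' x = 0`, where `inf''` is the
inflation along any `π''` which agrees pointwise with `π ∘ π'`. -/
theorem infSub_eq_zero_of_comp (π : Γ' →* Γ) (π' : Γ'' →* Γ') (π'' : Γ'' →* Γ)
    (hπ : ∀ g, π (π' g) = π'' g) (H : Subgroup Γ) {A : Rep.{0} ℤ Γ}
    {A' : Rep.{0} ℤ Γ'} {A'' : Rep.{0} ℤ Γ''} (t : Rep.res π A ⟶ A') (t' : Rep.res π' A' ⟶ A'')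
    (t'' : Rep.res π'' A ⟶ A'') (ht : ∀ a : A.V, t'.hom (t.hom a) = t''.hom a) (n : ℕ)
    (x : Hn H A n) (h0 : infSub π' (H.comap π) t' n (infSub π H t n x) = 0) :
    infSub π'' H t'' n x = 0 := by
  obtain rfl : π'' = π.comp π' := MonoidHom.ext fun g => (hπ g).symm
  rw [infSub_comp π π' H t t' t'' ht n x]
  exact h0

/-- Exactness of `H¹(H, X₃) → H²(H, X₁) → H²(H, X₂)`. -/
theorem exists_delta_eq (H : Subgroup Γ) (X : ShortComplex (Rep.{0} ℤ Γ)) (hX : X.ShortExact)
    (x : Hn H X.X₁ 2) (hx : coe H X.f 2 x = 0) :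
    ∃ s : Hn H X.X₃ 1,
      (δ ((Rep.shortExact_res H.subtype).2 hX) 1 2 rfl).hom s = x := by
  have hex := mapShortComplex₁_exact ((Rep.shortExact_res H.subtype).2 hX) (i := 1) (j := 2) rfl
  exact (ShortComplex.moduleCat_exact_iff _).1 hex x hx

/-- Exactness of `H¹(H, X₃) → H²(H, X₁) → H²(H, X₂)`, with a `p`-primary preimage. -/
theorem exists_delta_eq_pprim [Finite Γ] {p : ℕ} (hp : p.Prime) (H : Subgroup Γ)
    (X : ShortComplex (Rep.{0} ℤ Γ)) (hX : X.ShortExact)
    (x : Hn H X.X₁ 2) (hxp : IsPPrim p x) (hx : coe H X.f 2 x = 0) :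
    ∃ s : Hn H X.X₃ 1, IsPPrim p s ∧
      (δ ((Rep.shortExact_res H.subtype).2 hX) 1 2 rfl).hom s = x := by
  obtain ⟨s₀, hs₀⟩ := exists_delta_eq H X hX x hx
  have hkill : ∀ s : Hn H X.X₃ 1, Nat.card H • s = 0 :=
    fun s => T.H572.cardTorsion ℤ H (T.resSub X.X₃ H) 1 (by norm_num) s
  have hpp : E1.IsPPrimary p
      ((δ ((Rep.shortExact_res H.subtype).2 hX) 1 2 rfl).hom.toAddMonoidHom s₀) := by
    show E1.IsPPrimary p ((δ ((Rep.shortExact_res H.subtype).2 hX) 1 2 rfl).hom s₀)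
    rw [hs₀]
    exact hxp
  obtain ⟨s, hs, hs'⟩ := G.Rec.TOW.H417.pPrimaryLift p hp _ _
    (δ ((Rep.shortExact_res H.subtype).2 hX) 1 2 rfl).hom.toAddMonoidHom (Nat.card H)
    Nat.card_pos hkill s₀ hpp
  exact ⟨s, hs, hs'.trans hs₀⟩

/-- `δ ∘ inf = inf ∘ δ` for a morphism of short exact sequences along `π`. -/
theorem delta_infSub (π : Γ' →* Γ) (H : Subgroup Γ) (X : ShortComplex (Rep.{0} ℤ Γ))
    (hX : X.ShortExact) (Y : ShortComplex (Rep.{0} ℤ Γ')) (hY : Y.ShortExact)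
    (t₁ : Rep.res π X.X₁ ⟶ Y.X₁) (t₂ : Rep.res π X.X₂ ⟶ Y.X₂) (t₃ : Rep.res π X.X₃ ⟶ Y.X₃)
    (h₁₂ : ∀ a : X.X₁.V, t₂.hom (X.f.hom a) = Y.f.hom (t₁.hom a))
    (h₂₃ : ∀ a : X.X₂.V, t₃.hom (X.g.hom a) = Y.g.hom (t₂.hom a))
    (s : Hn H X.X₃ 1) :
    infSub π H t₁ 2 ((δ ((Rep.shortExact_res H.subtype).2 hX) 1 2 rfl).hom s) =
      (δ ((Rep.shortExact_res (H.comap π).subtype).2 hY) 1 2 rfl).hom (infSub π H t₃ 1 s) := by
  have h := KL.H304.deltaNat ℤ ↥(H.comap π) ↥H (projSub π H)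
    (X.map (Rep.resFunctor H.subtype)) ((Rep.shortExact_res H.subtype).2 hX)
    (Y.map (Rep.resFunctor (H.comap π).subtype)) ((Rep.shortExact_res (H.comap π).subtype).2 hY)
    (semiSub π H t₁) (semiSub π H t₂) (semiSub π H t₃)
    (by
      apply Rep.hom_ext
      apply DFunLike.ext
      intro a
      exact h₁₂ a)
    (by
      apply Rep.hom_ext
      apply DFunLike.ext
      intro a
      exact h₂₃ a)
    1 2 rfl
  exact congrArg (fun φ => φ.hom s) h

end General

/-! ## 2. The tower -/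

variable {S : Finset Nat.Primes} {p : ℕ}

lemma proj_proj {L L' L'' : Level S} (h : L ≤ L') (h' : L' ≤ L'') (g : L''.Gal) :
    Level.proj h (Level.proj h' g) = Level.proj (h.trans h') g := by
  induction g using QuotientGroup.induction_on with
  | H g => rfl

/-- Transitivity of `infUp` in the form used in the WLOG reductions: a class dying after two
inflations dies after the composite inflation. -/
theorem infUp_trans_eq_zero {L L' L'' : Level S} (h : L ≤ L') (h' : L' ≤ L'')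
    (H : Subgroup L.Gal) {A : Rep.{0} ℤ L.Gal} {A' : Rep.{0} ℤ L'.Gal} {A'' : Rep.{0} ℤ L''.Gal}
    (t : Rep.res (Level.proj h) A ⟶ A') (t' : Rep.res (Level.proj h') A' ⟶ A'')
    (t'' : Rep.res (Level.proj (h.trans h')) A ⟶ A'')
    (ht : ∀ a : A.V, t'.hom (t.hom a) = t''.hom a) (n : ℕ) (x : Hn H A n)
    (h0 : infUp h' (up h H) t' n (infUp h H t n x) = 0) :
    infUp (h.trans h') H t'' n x = 0 :=
  infSub_eq_zero_of_comp (Level.proj h) (Level.proj h') (Level.proj (h.trans h'))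
    (proj_proj h h') H t t' t'' ht n x h0

lemma trS_trS {L L' L'' : Level S} (h : L ≤ L') (h' : L' ≤ L'') (e : (E1.Lim.sUnits L).V) :
    (trS h').hom ((trS h).hom e) = (trS (h.trans h')).hom e := rfl

lemma trJ_diag' {L L' : Level S} (h : L ≤ L') (q : Nat.Primes) (x : L.units.V) :
    (Level.trJ h q).hom ((L.diag q).hom x) = (L'.diag q).hom ((Level.trUnits h).hom x) := by
  apply L'.J_ext q
  intro g'
  have h1 : L'.units.ρ g' ((Level.trUnits h).hom x) =
      (Level.trUnits h).hom (L.units.ρ (Level.proj h g') x) :=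
    (Rep.hom_comm_apply (Level.trUnits h) g' x).symm
  show Level.inclLoc h q (L.embFun q (L.units.ρ (Level.proj h g') x)) =
    L'.embFun q (L'.units.ρ g' ((Level.trUnits h).hom x))
  rw [h1]
  apply L'.locCoe_injective q
  rfl

lemma trJtot_diagTot' {L L' : Level S} (h : L ≤ L') (e : (E1.Lim.sUnits L).V) :
    (trJtot h).hom ((diagTot L).hom e) = (diagTot L').hom ((trS h).hom e) := by
  apply piRep_ext
  intro q
  exact trJ_diag' h q.1 ((sIncl L).hom e)

/-- **HASSE at a level containing `μ_p`.** -/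
theorem hasse_of_hasMu (c : Ctx S p) (hses : SesExact c) (hC1 : H1CVanish c) (hcap : CapH1 c)
    (L : Level S) (hMu : L.HasMu p) (H : Subgroup L.Gal) (x : Hn H (E1.Lim.sUnits L) 2)
    (hxp : IsPPrim p x) (hx : coe H (diagTot L) 2 x = 0) :
    ∃ (L' : Level S) (h : L ≤ L'), infUp h H (trS h) 2 x = 0 := by
  obtain ⟨hp, -, -⟩ := c.adm
  obtain ⟨s, hsp, hs⟩ := exists_delta_eq_pprim hp H (ses c.h4 L) (hses L) x hxp hx
  have hs0 : coe H (inclC1 c.D L) 1 s = 0 :=
    hC1 L hMu H _ (isPPrim_map (coe H (inclC1 c.D L) 1).toAddMonoidHom hsp)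
  obtain ⟨L', h, hinf⟩ := hcap L H s hsp hs0
  refine ⟨L', h, ?_⟩
  have hnat := delta_infSub (Level.proj h) H (ses c.h4 L) (hses L) (ses c.h4 L') (hses L')
    (trS h) (trJtot h) (trC1 c.h7 h) (fun a => trJtot_diagTot' h a)
    (fun a => trC1_jC1 c.h7 h a) s
  rw [hs] at hnat
  refine hnat.trans ?_
  have h0 : infSub (Level.proj h) H (trC1 c.h7 h) 1 s = 0 := hinf
  exact (congrArg _ h0).trans (map_zero _)

/-- Leaf **AR-HASSE**. -/
theorem hasseLeaf (S : Finset Nat.Primes) (p : ℕ) : HasseLeaf S p := by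
  intro c hses hC1 hcap hmu L H x hxp hx
  obtain ⟨⟨L₀, hL₀⟩, hdir⟩ := hmu
  obtain ⟨L₁, h₁, h₀₁⟩ := hdir L L₀
  have hMu₁ : L₁.HasMu p := Level.HasMu.mono h₀₁ hL₀
  have hxp₁ : IsPPrim p (infUp h₁ H (trS h₁) 2 x) :=
    isPPrim_map (infUp h₁ H (trS h₁) 2).toAddMonoidHom hxp
  have hx₁ : coe (up h₁ H) (diagTot L₁) 2 (infUp h₁ H (trS h₁) 2 x) = 0 := by
    have := coe_infSub' (Level.proj h₁) H (diagTot L) (diagTot L₁) (trS h₁) (trJtot h₁)
      (fun a => (trJtot_diagTot' h₁ a).symm) 2 x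
    rw [hx, map_zero] at this
    exact this
  obtain ⟨L₂, h₂, h0⟩ := hasse_of_hasMu c hses hC1 hcap L₁ hMu₁ (up h₁ H) _ hxp₁ hx₁
  exact ⟨L₂, h₁.trans h₂, infUp_trans_eq_zero h₁ h₂ H (trS h₁) (trS h₂) (trS (h₁.trans h₂))
    (trS_trS h₁ h₂) 2 x h0⟩

end

end Fermat.Agent.S55.K.AR.H181

end
-- ===== PACK-END S55/K/AR/HasseH181.lean

-- ===== PACK-BEGIN S55/K/AR/E3H206.lean
section





/-!
# S55, layer K, block AR, leaf AR-E3 (subtask 638; helper206)

`e3Leaf : E3Leaf S p`:  `colim H³(Gal(F/K), E(F))[p] = 0` from the short exact sequences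
`E → J → C'`, `H³(H, J)(p) = 0`, the surjectivity (c) `SurjJC`, capitulation `CapH2` and
`MuDirected`.

General tools (reusable for AR-E2 / AR-HASSE / AR-COKER), all for arbitrary groups:
* `infSub_coe`      : `infSub ∘ coe = coe ∘ infSub` for a commuting square of coefficients;
* `infSub_trans_zero`: transitivity of `infSub` in the form "dies after two steps ⇒ dies after
  the composite step" (no casts);
* `sesSub`, `dSub`  : the long exact sequence of a short exact sequence restricted to `H`;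
* `infSub_dSub`     : naturality of the connecting homomorphism under `infSub`;
* `exists_pproj`    : the `p`-primary projector of a group killed by `N`.
-/

set_option autoImplicit false

open CategoryTheory groupCohomology

namespace Fermat.Agent.S55.K.AR.H206

open Fermat.Agent.S55 Fermat.Agent.S55.Tow Fermat.Agent.S55.E1.Lim Fermat.Agent.S55.K.AR

noncomputable section

/-! ## `p`-primary bookkeeping -/

section PPrim

variable {p : ℕ}

lemma isPPrim_zero {A : Type} [AddCommGroup A] : IsPPrim p (0 : A) := ⟨0, by simp⟩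

lemma IsPPrim.map {A B : Type} [AddCommGroup A] [AddCommGroup B] (f : A →+ B) {x : A}
    (hx : IsPPrim p x) : IsPPrim p (f x) := by
  obtain ⟨k, hk⟩ := hx
  exact ⟨k, by rw [← map_nsmul, hk, map_zero]⟩

lemma IsPPrim.sub {A : Type} [AddCommGroup A] {x y : A} (hx : IsPPrim p x) (hy : IsPPrim p y) :
    IsPPrim p (x - y) := by
  obtain ⟨k, hk⟩ := hx
  obtain ⟨l, hl⟩ := hy
  refine ⟨k + l, ?_⟩
  have h1 : p ^ (k + l) • x = 0 := by rw [pow_add, mul_comm, mul_smul, hk, smul_zero]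
  have h2 : p ^ (k + l) • y = 0 := by rw [pow_add, mul_smul, hl, smul_zero]
  rw [smul_sub, h1, h2, sub_zero]

lemma isPPrim_of_nsmul {A : Type} [AddCommGroup A] {x : A} (hx : p • x = 0) : IsPPrim p x :=
  ⟨1, by rw [pow_one]; exact hx⟩

/-- The `p`-primary projector of the groups killed by `N`: a natural number `e` such that
`e • x` is `p`-primary for all `x`, and `e • x = x` for `p`-primary `x`. -/
lemma exists_pproj (hp : p.Prime) (N : ℕ) (hN : 0 < N) :
    ∃ e : ℕ, ∀ (X : Type) [AddCommGroup X], (∀ x : X, N • x = 0) →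
      (∀ x : X, IsPPrim p (e • x)) ∧ (∀ x : X, IsPPrim p x → e • x = x) := by
  obtain ⟨a, N', hN', hNeq⟩ := Nat.exists_eq_pow_mul_and_not_dvd hN.ne' p hp.ne_one
  have hcop : Nat.Coprime (p ^ a) N' :=
    Nat.Coprime.pow_left _ ((Nat.Prime.coprime_iff_not_dvd hp).2 hN')
  obtain ⟨e, he1, he0⟩ := Nat.chineseRemainder hcop 1 0
  refine ⟨e, fun X _ hX => ⟨fun x => ⟨a, ?_⟩, fun x hx => ?_⟩⟩
  · obtain ⟨u, hu⟩ := (Nat.modEq_zero_iff_dvd).1 he0
    have : p ^ a * e = N * u := by rw [hu, hNeq]; ring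
    rw [← mul_smul, this, mul_comm, mul_smul, hX, smul_zero]
  · -- `p ^ a • x = 0`
    obtain ⟨k, hk⟩ := hx
    have h1 : (Nat.gcd (p ^ k) N) • x = 0 := by
      have := Nat.gcd_eq_gcd_ab (p ^ k) N
      have h2 : ((Nat.gcd (p ^ k) N : ℕ) : ℤ) • x = 0 := by
        rw [this, add_smul, mul_comm, mul_smul, mul_comm, mul_smul]
        rw [natCast_zsmul, natCast_zsmul, hk, hX, smul_zero, smul_zero, add_zero]
      rwa [natCast_zsmul] at h2
    have h3 : Nat.gcd (p ^ k) N ∣ p ^ a := by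
      rw [hNeq]
      have h4 : Nat.Coprime (p ^ k) N' :=
        Nat.Coprime.pow_left _ ((Nat.Prime.coprime_iff_not_dvd hp).2 hN')
      rw [Nat.Coprime.gcd_mul_right_cancel_right _ h4.symm]
      exact Nat.gcd_dvd_right _ _
    have h5 : p ^ a • x = 0 := by
      obtain ⟨v, hv⟩ := h3
      rw [hv, mul_comm, mul_smul, h1, smul_zero]
    -- `e ≡ 1 mod p ^ a`
    have h6 : (e : ℤ) ≡ 1 [ZMOD (p ^ a : ℕ)] := by
      have := (Int.natCast_modEq_iff).2 he1
      simpa using this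
    obtain ⟨w, hw⟩ := (Int.modEq_iff_dvd.1 h6.symm)
    have h7 : (e : ℤ) • x = x := by
      have : (e : ℤ) = 1 + ((p ^ a : ℕ) : ℤ) * w := by linarith
      rw [this, add_smul, one_smul, mul_comm, mul_smul, natCast_zsmul, h5, smul_zero, add_zero]
    rwa [natCast_zsmul] at h7

end PPrim

/-! ## Functoriality of `groupCohomology.map` -/

section MapLemmas

variable {k : Type} [CommRing k]

/-- Composition of `groupCohomology.map`s, triangle form, elementwise. -/
lemma map_tri_apply {G H K : Type} [Group G] [Group H] [Group K]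
    {A : Rep.{0} k K} {B : Rep.{0} k H} {C : Rep.{0} k G} (f : H →* K) (g : G →* H)
    (e : G →* K) (φ : Rep.res f A ⟶ B) (ψ : Rep.res g B ⟶ C) (χ : Rep.res e A ⟶ C)
    (hfg : f.comp g = e) (h : ∀ a : A.V, ψ.hom (φ.hom a) = χ.hom a) (n : ℕ)
    (x : groupCohomology A n) :
    (groupCohomology.map g ψ n).hom ((groupCohomology.map f φ n).hom x) =
      (groupCohomology.map e χ n).hom x := by
  have h1 : groupCohomology.map f φ n ≫ groupCohomology.map g ψ n =
      groupCohomology.map e χ n := by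
    rw [← groupCohomology.map_comp]
    exact groupCohomology.map_congr hfg (LinearMap.ext h) n
  rw [← h1]
  rfl

/-- Composition of `groupCohomology.map`s, square form, elementwise. -/
lemma map_sq_apply {G H₁ H₂ K : Type} [Group G] [Group H₁] [Group H₂] [Group K]
    {A : Rep.{0} k K} {B₁ : Rep.{0} k H₁} {B₂ : Rep.{0} k H₂} {C : Rep.{0} k G}
    (f₁ : H₁ →* K) (g₁ : G →* H₁) (f₂ : H₂ →* K) (g₂ : G →* H₂)
    (φ₁ : Rep.res f₁ A ⟶ B₁) (ψ₁ : Rep.res g₁ B₁ ⟶ C)
    (φ₂ : Rep.res f₂ A ⟶ B₂) (ψ₂ : Rep.res g₂ B₂ ⟶ C)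
    (hfg : f₁.comp g₁ = f₂.comp g₂)
    (h : ∀ a : A.V, ψ₁.hom (φ₁.hom a) = ψ₂.hom (φ₂.hom a)) (n : ℕ)
    (x : groupCohomology A n) :
    (groupCohomology.map g₁ ψ₁ n).hom ((groupCohomology.map f₁ φ₁ n).hom x) =
      (groupCohomology.map g₂ ψ₂ n).hom ((groupCohomology.map f₂ φ₂ n).hom x) := by
  have h1 : groupCohomology.map f₁ φ₁ n ≫ groupCohomology.map g₁ ψ₁ n =
      groupCohomology.map f₂ φ₂ n ≫ groupCohomology.map g₂ ψ₂ n := by
    rw [← groupCohomology.map_comp, ← groupCohomology.map_comp]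
    exact groupCohomology.map_congr hfg (LinearMap.ext h) n
  exact congrArg (fun F => F.hom x) h1

end MapLemmas

/-! ## Cohomology of subgroups: functoriality of `infSub` -/

section General

variable {Γ Γ' Γ'' : Type} [Group Γ] [Group Γ'] [Group Γ'']

/-- `coe` of a composite. -/
lemma coe_comp (H : Subgroup Γ) {A B C : Rep.{0} ℤ Γ} (f : A ⟶ B) (g : B ⟶ C) (n : ℕ)
    (x : Hn H A n) : coe H (f ≫ g) n x = coe H g n (coe H f n x) := by
  have h1 : T.coeffMap ((Rep.resFunctor H.subtype).map (f ≫ g)) n =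
      T.coeffMap ((Rep.resFunctor H.subtype).map f) n ≫
        T.coeffMap ((Rep.resFunctor H.subtype).map g) n := by
    rw [Functor.map_comp]
    exact groupCohomology.map_id_comp _ _ n
  exact congrArg (fun F => F.hom x) h1

/-- `infSub ∘ coe = coe ∘ infSub` for a commuting square of coefficients. -/
lemma infSub_coe (π : Γ' →* Γ) (H : Subgroup Γ) {A B : Rep.{0} ℤ Γ} {A' B' : Rep.{0} ℤ Γ'}
    (f : A ⟶ B) (f' : A' ⟶ B') (t : Rep.res π A ⟶ A') (s : Rep.res π B ⟶ B')
    (hsq : ∀ a : A.V, s.hom (f.hom a) = f'.hom (t.hom a)) (n : ℕ) (x : Hn H A n) :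
    infSub π H s n (coe H f n x) = coe (H.comap π) f' n (infSub π H t n x) := by
  have h1 : T.coeffMap ((Rep.resFunctor H.subtype).map f) n ≫
      groupCohomology.map (projSub π H) (semiSub π H s) n =
      groupCohomology.map (projSub π H) (semiSub π H t) n ≫
        T.coeffMap ((Rep.resFunctor (H.comap π).subtype).map f') n := by
    rw [← groupCohomology.map_comp, ← groupCohomology.map_comp]
    exact groupCohomology.map_congr rfl (DFunLike.ext _ _ hsq) n
  exact congrArg (fun F => F.hom x) h1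

/-- Transitivity of `infSub`, in the form: a class which dies after two inflation steps dies
after the composite step. -/
lemma infSub_trans_zero (π : Γ' →* Γ) (π' : Γ'' →* Γ') (π'' : Γ'' →* Γ)
    (hπ : ∀ g, π (π' g) = π'' g) (H : Subgroup Γ)
    {A : Rep.{0} ℤ Γ} {A' : Rep.{0} ℤ Γ'} {A'' : Rep.{0} ℤ Γ''}
    (t : Rep.res π A ⟶ A') (t' : Rep.res π' A' ⟶ A'') (t'' : Rep.res π'' A ⟶ A'')
    (ht : ∀ a : A.V, t'.hom (t.hom a) = t''.hom a) (n : ℕ) (y : Hn H A n)
    (h0 : infSub π' (H.comap π) t' n (infSub π H t n y) = 0) : infSub π'' H t'' n y = 0 := by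
  have hK : H.comap π'' ≤ (H.comap π).comap π' := by
    intro g hg
    show π (π' g) ∈ H
    rw [hπ g]; exact hg
  let ι : ↥(H.comap π'') →* ↥((H.comap π).comap π') := Subgroup.inclusion hK
  let idm : Rep.res ι (T.resSub A'' ((H.comap π).comap π')) ⟶ T.resSub A'' (H.comap π'') :=
    E1.Lim.semiOfAdd ι (A := T.resSub A'' ((H.comap π).comap π'))
      (B := T.resSub A'' (H.comap π'')) (AddMonoidHom.id A''.V) (fun _ _ => rfl)
  let ψ' : Rep.res ((projSub π' (H.comap π)).comp ι) (T.resSub A' (H.comap π)) ⟶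
      T.resSub A'' (H.comap π'') :=
    E1.Lim.semiOfAdd ((projSub π' (H.comap π)).comp ι) (A := T.resSub A' (H.comap π))
      (B := T.resSub A'' (H.comap π''))
      { toFun := fun x => t'.hom x
        map_zero' := map_zero t'.hom
        map_add' := map_add t'.hom }
      (fun g x => Rep.hom_comm_apply t' (g : Γ'') x)
  have h1 : (groupCohomology.map ι idm n).hom
      (infSub π' (H.comap π) t' n (infSub π H t n y)) =
      (groupCohomology.map ((projSub π' (H.comap π)).comp ι) ψ' n).hom (infSub π H t n y) :=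
    map_tri_apply (projSub π' (H.comap π)) ι _ (semiSub π' (H.comap π) t') idm ψ' rfl
      (fun _ => rfl) n _
  have h2 : (groupCohomology.map ((projSub π' (H.comap π)).comp ι) ψ' n).hom
      (infSub π H t n y) = infSub π'' H t'' n y :=
    map_tri_apply (projSub π H) ((projSub π' (H.comap π)).comp ι) (projSub π'' H)
      (semiSub π H t) ψ' (semiSub π'' H t'')
      (MonoidHom.ext fun g => Subtype.ext (hπ g)) ht n y
  rw [← h2, ← h1, h0, map_zero]

/-! ### The long exact sequence of a short exact sequence restricted to a subgroup -/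

/-- A short complex of `Γ`-modules restricted to `H`. -/
abbrev sesSub (X : ShortComplex (Rep.{0} ℤ Γ)) (H : Subgroup Γ) : ShortComplex (Rep.{0} ℤ H) :=
  X.map (Rep.resFunctor H.subtype)

lemma sesSub_shortExact {X : ShortComplex (Rep.{0} ℤ Γ)} (hX : X.ShortExact) (H : Subgroup Γ) :
    (sesSub X H).ShortExact :=
  (Rep.shortExact_res H.subtype).2 hX

/-- The connecting homomorphism `Hᵃ(H, X₃) → Hᵇ(H, X₁)`. -/
def dSub {X : ShortComplex (Rep.{0} ℤ Γ)} (hX : X.ShortExact) (H : Subgroup Γ) (a b : ℕ)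
    (hab : a + 1 = b) : Hn H X.X₃ a →ₗ[ℤ] Hn H X.X₁ b :=
  (δ (sesSub_shortExact hX H) a b hab).hom

/-- Exactness at `Hᵇ(H, X₁)`. -/
lemma exists_dSub_eq {X : ShortComplex (Rep.{0} ℤ Γ)} (hX : X.ShortExact) (H : Subgroup Γ)
    (a b : ℕ) (hab : a + 1 = b) (y : Hn H X.X₁ b) (hy : coe H X.f b y = 0) :
    ∃ c : Hn H X.X₃ a, dSub hX H a b hab c = y := by
  have hex := mapShortComplex₁_exact (sesSub_shortExact hX H) hab
  rw [ShortComplex.moduleCat_exact_iff_ker_sub_range] at hex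
  obtain ⟨z, hz⟩ := hex hy
  exact ⟨z, hz⟩

/-- Exactness at `Hᵃ(H, X₃)`. -/
lemma exists_coe_g_eq {X : ShortComplex (Rep.{0} ℤ Γ)} (hX : X.ShortExact) (H : Subgroup Γ)
    (a b : ℕ) (hab : a + 1 = b) (c : Hn H X.X₃ a) (hc : dSub hX H a b hab c = 0) :
    ∃ x : Hn H X.X₂ a, coe H X.g a x = c := by
  have hex := mapShortComplex₃_exact (sesSub_shortExact hX H) hab
  rw [ShortComplex.moduleCat_exact_iff_ker_sub_range] at hex
  obtain ⟨z, hz⟩ := hex hc
  exact ⟨z, hz⟩

/-- Exactness at `Hᵃ(H, X₂)`. -/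
lemma exists_coe_f_eq {X : ShortComplex (Rep.{0} ℤ Γ)} (hX : X.ShortExact) (H : Subgroup Γ)
    (a : ℕ) (x : Hn H X.X₂ a) (hx : coe H X.g a x = 0) :
    ∃ w : Hn H X.X₁ a, coe H X.f a w = x := by
  have hex := mapShortComplex₂_exact (sesSub_shortExact hX H) a
  rw [ShortComplex.moduleCat_exact_iff_ker_sub_range] at hex
  obtain ⟨z, hz⟩ := hex hx
  exact ⟨z, hz⟩

/-- `δ ∘ g_* = 0`. -/
lemma dSub_coe_g {X : ShortComplex (Rep.{0} ℤ Γ)} (hX : X.ShortExact) (H : Subgroup Γ)
    (a b : ℕ) (hab : a + 1 = b) (w : Hn H X.X₂ a) :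
    dSub hX H a b hab (coe H X.g a w) = 0 := by
  have h := (mapShortComplex₃ (sesSub_shortExact hX H) hab).zero
  exact congrArg (fun F => F.hom w) h

/-- `f_* ∘ δ = 0`. -/
lemma coe_f_dSub {X : ShortComplex (Rep.{0} ℤ Γ)} (hX : X.ShortExact) (H : Subgroup Γ)
    (a b : ℕ) (hab : a + 1 = b) (c : Hn H X.X₃ a) :
    coe H X.f b (dSub hX H a b hab c) = 0 := by
  have h := (mapShortComplex₁ (sesSub_shortExact hX H) hab).zero
  exact congrArg (fun F => F.hom c) h

/-- Naturality of the connecting homomorphism under `infSub`. -/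
lemma infSub_dSub (π : Γ' →* Γ) (H : Subgroup Γ) {X : ShortComplex (Rep.{0} ℤ Γ)}
    {Y : ShortComplex (Rep.{0} ℤ Γ')} (hX : X.ShortExact) (hY : Y.ShortExact)
    (t₁ : Rep.res π X.X₁ ⟶ Y.X₁) (t₂ : Rep.res π X.X₂ ⟶ Y.X₂) (t₃ : Rep.res π X.X₃ ⟶ Y.X₃)
    (h₁₂ : ∀ a : X.X₁.V, t₂.hom (X.f.hom a) = Y.f.hom (t₁.hom a))
    (h₂₃ : ∀ a : X.X₂.V, t₃.hom (X.g.hom a) = Y.g.hom (t₂.hom a))
    (a b : ℕ) (hab : a + 1 = b) (c : Hn H X.X₃ a) :
    infSub π H t₁ b (dSub hX H a b hab c) =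
      dSub hY (H.comap π) a b hab (infSub π H t₃ a c) := by
  let Φ : (sesSub X H).map (Rep.resFunctor (projSub π H)) ⟶ sesSub Y (H.comap π) :=
    { τ₁ := semiSub π H t₁
      τ₂ := semiSub π H t₂
      τ₃ := semiSub π H t₃
      comm₁₂ := by
        apply Rep.hom_ext
        apply DFunLike.ext
        intro e
        exact (h₁₂ e).symm
      comm₂₃ := by
        apply Rep.hom_ext
        apply DFunLike.ext
        intro x
        exact (h₂₃ x).symm }
  have key := Fermat.Agent.S55.H783.δ_naturality_map (projSub π H) (sesSub_shortExact hX H)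
    (sesSub_shortExact hY (H.comap π)) Φ a b hab
  exact congrArg (fun F => F.hom c) key

end General

/-! ## The tower -/

section Tower

variable {S : Finset Nat.Primes}

lemma proj_proj {L L' L'' : Level S} (h : L ≤ L') (h' : L' ≤ L'') (g : L''.Gal) :
    Level.proj h (Level.proj h' g) = Level.proj (h.trans h') g := by
  induction g using QuotientGroup.induction_on with
  | H g => rfl

lemma proj_surjective {L L' : Level S} (h : L ≤ L') : Function.Surjective (Level.proj h) := by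
  intro g
  induction g using QuotientGroup.induction_on with
  | H g => exact ⟨QuotientGroup.mk g, rfl⟩

lemma index_up {L L' : Level S} (h : L ≤ L') (H : Subgroup L.Gal) :
    (up h H).index = H.index :=
  Subgroup.index_comap_of_surjective H (proj_surjective h)

/-- Transitivity of `infUp` for the `S`-units, in the form "dies after two steps ⇒ dies". -/
lemma infUp_trS_trans_zero {L L' L'' : Level S} (h : L ≤ L') (h' : L' ≤ L'')
    (H : Subgroup L.Gal) (n : ℕ) (y : Hn H (E1.Lim.sUnits L) n)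
    (h0 : infUp h' (up h H) (trS h') n (infUp h H (trS h) n y) = 0) :
    infUp (h.trans h') H (trS (h.trans h')) n y = 0 :=
  infSub_trans_zero (Level.proj h) (Level.proj h') (Level.proj (h.trans h'))
    (proj_proj h h') H (trS h) (trS h') (trS (h.trans h')) (fun _ => rfl) n y h0

/-- `J(F) → J(F')` is compatible with the diagonal. -/
lemma trJtot_diagTot' {L L' : Level S} (h : L ≤ L') (e : (E1.Lim.sUnits L).V) :
    (trJtot h).hom ((diagTot L).hom e) = (diagTot L').hom ((trS h).hom e) := by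
  apply piRep_ext
  intro q
  show (Level.trJ h q.1).hom ((L.diag q.1).hom ((sIncl L).hom e)) =
    (L'.diag q.1).hom ((Level.trUnits h).hom ((sIncl L).hom e))
  apply L'.J_ext q.1
  intro g'
  have h1 : L'.units.ρ g' ((Level.trUnits h).hom ((sIncl L).hom e)) =
      (Level.trUnits h).hom (L.units.ρ (Level.proj h g') ((sIncl L).hom e)) :=
    (Rep.hom_comm_apply (Level.trUnits h) g' ((sIncl L).hom e)).symm
  show Level.inclLoc h q.1 (L.embFun q.1 (L.units.ρ (Level.proj h g') ((sIncl L).hom e))) =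
    L'.embFun q.1 (L'.units.ρ g' ((Level.trUnits h).hom ((sIncl L).hom e)))
  rw [h1]
  apply L'.locCoe_injective q.1
  rfl

variable {p : ℕ}

/-- The core of AR-E3, at a level containing `μ_p`. -/
theorem e3_core (c : Ctx S p) (hp : p.Prime) (hses : SesExact c) (hJ3 : H3JVanish S p)
    (hsurj : SurjJC c) (hcap : CapH2 c) (L : Level S) (hμ : L.HasMu p) (H : Subgroup L.Gal)
    (hcop : Nat.Coprime H.index p) (y : Hn H (E1.Lim.sUnits L) 3) (hy : p • y = 0) :
    ∃ (L' : Level S) (h : L ≤ L'), infUp h H (trS h) 3 y = 0 := by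
  -- 1. `y` dies in `H³(H, J)`
  have hyJ : coe H (diagTot L) 3 y = 0 :=
    hJ3 L H _ (isPPrim_of_nsmul (by rw [← map_nsmul, hy, map_zero]))
  -- 2. `y = δ c₀`
  obtain ⟨c₀, hc₀⟩ := exists_dSub_eq (hses L) H 2 3 rfl y hyJ
  -- 3. `p`-primary part of `c₀`
  obtain ⟨e, he⟩ := exists_pproj hp (Nat.card H) Nat.card_pos
  have hc₁ : IsPPrim p (e • c₀) :=
    (he (Hn H (C1 c.D L) 2) (fun x => Fermat.Agent.S55.H783.card_nsmul_eq_zero _ 1 x)).1 c₀
  have hδc₁ : dSub (hses L) H 2 3 rfl (e • c₀) = y := by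
    rw [map_nsmul, hc₀]
    exact (he (Hn H (E1.Lim.sUnits L) 3)
      (fun x => Fermat.Agent.S55.H783.card_nsmul_eq_zero _ 2 x)).2 y (isPPrim_of_nsmul hy)
  -- 4. surjectivity (c)
  have hx₀ : IsPPrim p (coe H (inclC1 c.D L) 2 (e • c₀)) :=
    IsPPrim.map (coe H (inclC1 c.D L) 2).toAddMonoidHom hc₁
  obtain ⟨L', h, x, hx⟩ := hsurj L hμ H hcop _ hx₀
  -- 5. `p`-primary part of `x`
  obtain ⟨e', he'⟩ := exists_pproj hp (Nat.card (up h H)) Nat.card_pos
  have hx' : IsPPrim p (e' • x) :=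
    (he' (Hn (up h H) (Jtot L') 2)
      (fun x => Fermat.Agent.S55.H783.card_nsmul_eq_zero _ 1 x)).1 x
  have hjx' : coe (up h H) (jTot c.D L') 2 (e' • x) =
      infUp h H (c.D.tr h) 2 (coe H (inclC1 c.D L) 2 (e • c₀)) := by
    rw [map_nsmul, ← hx]
    exact (he' (Hn (up h H) (c.D.C L') 2)
      (fun x => Fermat.Agent.S55.H783.card_nsmul_eq_zero _ 1 x)).2 _
      (IsPPrim.map (infUp h H (c.D.tr h) 2).toAddMonoidHom hx₀)
  -- 6. the difference `e₁`
  have he₁pp : IsPPrim p (infUp h H (trC1 c.h7 h) 2 (e • c₀) -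
      coe (up h H) (jC1 c.D L') 2 (e' • x)) :=
    IsPPrim.sub (IsPPrim.map (infUp h H (trC1 c.h7 h) 2).toAddMonoidHom hc₁)
      (IsPPrim.map (coe (up h H) (jC1 c.D L') 2).toAddMonoidHom hx')
  have he₁0 : coe (up h H) (inclC1 c.D L') 2 (infUp h H (trC1 c.h7 h) 2 (e • c₀) -
      coe (up h H) (jC1 c.D L') 2 (e' • x)) = 0 := by
    rw [map_sub, ← coe_comp, jC1_inclC1, hjx',
      ← infSub_coe (Level.proj h) H (inclC1 c.D L) (inclC1 c.D L') (trC1 c.h7 h) (c.D.tr h)
        (fun a => (inclC1_trC1 c.h7 h a).symm) 2 (e • c₀), sub_self]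
  -- 7. capitulation
  obtain ⟨L'', h', hcap0⟩ := hcap L' (up h H) _ he₁pp he₁0
  -- 8. conclusion
  refine ⟨L'', h.trans h', infUp_trS_trans_zero h h' H 3 y ?_⟩
  have a1 : infUp h H (trS h) 3 (dSub (hses L) H 2 3 rfl (e • c₀)) =
      dSub (hses L') (up h H) 2 3 rfl (infUp h H (trC1 c.h7 h) 2 (e • c₀)) :=
    infSub_dSub (Level.proj h) H (hses L) (hses L') (trS h) (trJtot h) (trC1 c.h7 h)
      (trJtot_diagTot' h) (trC1_jC1 c.h7 h) 2 3 rfl (e • c₀)
  have a2 : dSub (hses L') (up h H) 2 3 rfl (coe (up h H) (jC1 c.D L') 2 (e' • x)) = 0 :=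
    dSub_coe_g (hses L') (up h H) 2 3 rfl (e' • x)
  have a3 := (dSub (hses L') (up h H) 2 3 rfl).map_sub
    (infUp h H (trC1 c.h7 h) 2 (e • c₀)) (coe (up h H) (jC1 c.D L') 2 (e' • x))
  rw [a2, sub_zero] at a3
  have h8 : infUp h H (trS h) 3 y =
      dSub (hses L') (up h H) 2 3 rfl (infUp h H (trC1 c.h7 h) 2 (e • c₀) -
        coe (up h H) (jC1 c.D L') 2 (e' • x)) :=
    (congrArg (infUp h H (trS h) 3) hδc₁.symm).trans (a1.trans a3.symm)
  have a4 := infSub_dSub (Level.proj h') (up h H) (hses L') (hses L'') (trS h') (trJtot h')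
    (trC1 c.h7 h') (trJtot_diagTot' h') (trC1_jC1 c.h7 h') 2 3 rfl
    (infUp h H (trC1 c.h7 h) 2 (e • c₀) - coe (up h H) (jC1 c.D L') 2 (e' • x))
  exact (congrArg (infUp h' (up h H) (trS h') 3) h8).trans
    (a4.trans ((congrArg (dSub (hses L'') (up h' (up h H)) 2 3 rfl) hcap0).trans (map_zero _)))

/-- **AR-E3.** -/
theorem e3Leaf (S : Finset Nat.Primes) (p : ℕ) : E3Leaf S p := by
  intro c hses hJ3 hsurj hcap hmu L H hcop y hy
  obtain ⟨hp, -, -⟩ := c.adm
  obtain ⟨⟨L₀, hL₀⟩, hdir⟩ := hmu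
  obtain ⟨L₁, h₁, h₀₁⟩ := hdir L L₀
  have hμ : L₁.HasMu p := hL₀.mono h₀₁
  obtain ⟨L₂, h₂, hz⟩ := e3_core c hp hses hJ3 hsurj hcap L₁ hμ (up h₁ H)
    (by rw [index_up]; exact hcop) (infUp h₁ H (trS h₁) 3 y) (by rw [← map_nsmul, hy, map_zero])
  exact ⟨L₂, h₁.trans h₂, infUp_trS_trans_zero h₁ h₂ H 3 y hz⟩

end Tower

end

end Fermat.Agent.S55.K.AR.H206

end
-- ===== PACK-END S55/K/AR/E3H206.lean

-- ===== PACK-BEGIN S55/K/AR/E2H79.lean
section
/-
S55 / layer K / block AR, leaf **AR-E2** (helper79): `e2Leaf : E2Leaf S p`.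
Blueprint: `coord/S55-K-AR.md` §2.  Namespace `Fermat.Agent.S55.K.AR.H79`.
-/


set_option autoImplicit false

open CategoryTheory

namespace Fermat.Agent.S55.K.AR.H79

open Fermat.Agent.S55 Fermat.Agent.S55.Tow Fermat.Agent.S55.E1.Lim Fermat.Agent.S55.K.AR

noncomputable section

attribute [local instance 10000] Rep.hV2

/-! ## Functoriality of `coe` and `infSub` -/

section General

variable {Γ Γ' : Type} [Group Γ] [Group Γ']

lemma coe_comp (H : Subgroup Γ) {A B C : Rep.{0} ℤ Γ} (f : A ⟶ B) (g : B ⟶ C) (n : ℕ)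
    (x : Hn H A n) : coe H (f ≫ g) n x = coe H g n (coe H f n x) := by
  have := groupCohomology.map_id_comp ((Rep.resFunctor H.subtype).map f)
    ((Rep.resFunctor H.subtype).map g) n
  rw [← Functor.map_comp] at this
  exact congrArg (fun m => m.hom x) this

lemma coe_zero (H : Subgroup Γ) {A B : Rep.{0} ℤ Γ} (n : ℕ) (x : Hn H A n) :
    coe H (0 : A ⟶ B) n x = 0 := by
  have h : T.coeffMap ((Rep.resFunctor H.subtype).map (0 : A ⟶ B)) n = 0 := by
    rw [Functor.map_zero]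
    show HomologicalComplex.homologyMap (groupCohomology.cochainsMap _ 0) n = 0
    rw [groupCohomology.cochainsMap_zero, HomologicalComplex.homologyMap_zero]
  exact congrArg (fun m => m.hom x) h

/-- Inflation commutes with maps of coefficients. -/
lemma infSub_coe (π : Γ' →* Γ) (H : Subgroup Γ) {A B : Rep.{0} ℤ Γ} {A' B' : Rep.{0} ℤ Γ'}
    (f : A ⟶ B) (f' : A' ⟶ B') (t : Rep.res π A ⟶ A') (s : Rep.res π B ⟶ B')
    (hc : ∀ a : A.V, s.hom (f.hom a) = f'.hom (t.hom a)) (n : ℕ) (x : Hn H A n) :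
    infSub π H s n (coe H f n x) = coe (H.comap π) f' n (infSub π H t n x) := by
  have h1 := groupCohomology.map_comp (A := T.resSub A H) (B := T.resSub B H)
    (C := T.resSub B' (H.comap π)) (MonoidHom.id H) (projSub π H)
    ((Rep.resFunctor H.subtype).map f) (semiSub π H s) n
  have h2 := groupCohomology.map_comp (A := T.resSub A H) (B := T.resSub A' (H.comap π))
    (C := T.resSub B' (H.comap π)) (projSub π H) (MonoidHom.id (H.comap π))
    (semiSub π H t) ((Rep.resFunctor (H.comap π).subtype).map f') n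
  have h3 : groupCohomology.map (A := T.resSub A H) (B := T.resSub B' (H.comap π))
      ((MonoidHom.id H).comp (projSub π H))
      ((Rep.resFunctor (projSub π H)).map ((Rep.resFunctor H.subtype).map f) ≫ semiSub π H s) n =
      groupCohomology.map (A := T.resSub A H) (B := T.resSub B' (H.comap π))
      ((projSub π H).comp (MonoidHom.id (H.comap π)))
      ((Rep.resFunctor (MonoidHom.id (H.comap π))).map (semiSub π H t) ≫
        (Rep.resFunctor (H.comap π).subtype).map f') n := by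
    refine groupCohomology.map_congr rfl (LinearMap.ext fun a => ?_) n
    exact hc a
  rw [h1, h2] at h3
  exact congrArg (fun m => m.hom x) h3

/-- The identity of `A` as a semilinear map between its restrictions to `K ≤ K'`. -/
def inclSemi {K K' : Subgroup Γ} (hK : K ≤ K') (A : Rep.{0} ℤ Γ) :
    Rep.res (Subgroup.inclusion hK) (T.resSub A K') ⟶ T.resSub A K :=
  E1.Lim.semiOfAdd (Subgroup.inclusion hK) (A := T.resSub A K') (B := T.resSub A K)
    (AddMonoidHom.id A.V) (fun _ _ => rfl)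

/-- Transitivity of inflation, through the comparison map between the two descriptions of the
preimage of `H`. -/
lemma exists_comparison {Γ'' : Type} [Group Γ''] (π : Γ' →* Γ) (π' : Γ'' →* Γ') (π'' : Γ'' →* Γ)
    (hπ : ∀ g, π'' g = π (π' g)) (H : Subgroup Γ) {A : Rep.{0} ℤ Γ} {A' : Rep.{0} ℤ Γ'}
    {A'' : Rep.{0} ℤ Γ''} (t : Rep.res π A ⟶ A') (t' : Rep.res π' A' ⟶ A'')
    (t'' : Rep.res π'' A ⟶ A'') (ht : ∀ a : A.V, t''.hom a = t'.hom (t.hom a)) (n : ℕ) :
    ∃ κ : Hn ((H.comap π).comap π') A'' n →ₗ[ℤ] Hn (H.comap π'') A'' n,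
      ∀ x : Hn H A n, κ (infSub π' (H.comap π) t' n (infSub π H t n x)) = infSub π'' H t'' n x := by
  have hle : H.comap π'' ≤ (H.comap π).comap π' := by
    intro g hg
    show π (π' g) ∈ H
    rw [← hπ]
    exact hg
  refine ⟨(groupCohomology.map (A := T.resSub A'' ((H.comap π).comap π'))
    (B := T.resSub A'' (H.comap π'')) (Subgroup.inclusion hle) (inclSemi hle A'') n).hom,
    fun x => ?_⟩
  have h1 := groupCohomology.map_comp (A := T.resSub A H) (B := T.resSub A' (H.comap π))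
    (C := T.resSub A'' ((H.comap π).comap π')) (projSub π H) (projSub π' (H.comap π))
    (semiSub π H t) (semiSub π' (H.comap π) t') n
  have h2 := groupCohomology.map_comp (A := T.resSub A H)
    (B := T.resSub A'' ((H.comap π).comap π')) (C := T.resSub A'' (H.comap π''))
    ((projSub π H).comp (projSub π' (H.comap π))) (Subgroup.inclusion hle)
    ((Rep.resFunctor (projSub π' (H.comap π))).map (semiSub π H t) ≫ semiSub π' (H.comap π) t')
    (inclSemi hle A'') n
  have h3 : groupCohomology.map (A := T.resSub A H) (B := T.resSub A'' (H.comap π''))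
      (((projSub π H).comp (projSub π' (H.comap π))).comp (Subgroup.inclusion hle))
      ((Rep.resFunctor (Subgroup.inclusion hle)).map
        ((Rep.resFunctor (projSub π' (H.comap π))).map (semiSub π H t) ≫
          semiSub π' (H.comap π) t') ≫ inclSemi hle A'') n =
      groupCohomology.map (A := T.resSub A H) (B := T.resSub A'' (H.comap π''))
        (projSub π'' H) (semiSub π'' H t'') n := by
    have hfg : ((projSub π H).comp (projSub π' (H.comap π))).comp (Subgroup.inclusion hle) =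
        projSub π'' H := by
      refine MonoidHom.ext fun g => Subtype.ext ?_
      exact (hπ g).symm
    refine groupCohomology.map_congr hfg ?_ n
    refine LinearMap.ext fun a => ?_
    exact (ht a).symm
  have h4 := (congrArg (fun m => m ≫ groupCohomology.map (A := T.resSub A'' ((H.comap π).comap π'))
    (B := T.resSub A'' (H.comap π'')) (Subgroup.inclusion hle) (inclSemi hle A'') n) h1).symm.trans
      (h2.symm.trans h3)
  exact congrArg (fun m => m.hom x) h4

/-- Exactness of `Hⁿ(H, X₁) → Hⁿ(H, X₂) → Hⁿ(H, X₃)`. -/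
lemma exists_of_coe_eq_zero {X : ShortComplex (Rep.{0} ℤ Γ)} (hX : X.ShortExact)
    (H : Subgroup Γ) (n : ℕ) (y : Hn H X.X₂ n) (hy : coe H X.g n y = 0) :
    ∃ w : Hn H X.X₁ n, coe H X.f n w = y := by
  have hX' : (X.map (Rep.resFunctor H.subtype)).ShortExact := (Rep.shortExact_res H.subtype).2 hX
  have hex := groupCohomology.mapShortComplex₂_exact hX' n
  rw [ShortComplex.moduleCat_exact_iff] at hex
  exact hex y hy

end General

/-! ## Elementary arithmetic -/

section Arith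

variable {A : Type} [AddCommGroup A]

lemma nsmul_eq_of_modEq {k n m : ℕ} (h : n ≡ m [MOD k]) {y : A} (hy : k • y = 0) :
    n • y = m • y := by
  have key : ∀ n : ℕ, n • y = (n % k) • y := by
    intro n
    conv_lhs => rw [← Nat.div_add_mod n k]
    rw [add_nsmul, mul_nsmul, hy, smul_zero, zero_add]
  rw [key n, key m, h]

lemma nsmul_eq_zero_of_dvd {N n : ℕ} (h : N ∣ n) {y : A} (hy : N • y = 0) : n • y = 0 := by
  obtain ⟨u, rfl⟩ := h
  rw [mul_nsmul, hy, smul_zero]

/-- The idempotent of the `p`-primary part modulo `N`. -/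
lemma exists_pprim_mul (p : ℕ) (hp : p.Prime) (N : ℕ) (hN : 0 < N) (b : ℕ) :
    ∃ e a : ℕ, e ≡ 1 [MOD p ^ b] ∧ N ∣ p ^ a * e := by
  obtain ⟨a, N', hN', hNeq⟩ := Nat.exists_eq_pow_mul_and_not_dvd hN.ne' p hp.ne_one
  have hcop : Nat.Coprime (p ^ b) N' :=
    Nat.Coprime.pow_left _ ((Nat.Prime.coprime_iff_not_dvd hp).2 hN')
  obtain ⟨e, he1, he0⟩ := Nat.chineseRemainder hcop 1 0
  refine ⟨e, a, he1, ?_⟩
  rw [hNeq]
  exact Nat.mul_dvd_mul_left _ ((Nat.modEq_zero_iff_dvd).1 he0)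

end Arith

/-! ## The tower -/

section Tower

variable {S : Finset Nat.Primes}

lemma proj_trans_apply {L L' L'' : Level S} (h : L ≤ L') (h' : L' ≤ L'') (g : L''.Gal) :
    Level.proj (h.trans h') g = Level.proj h (Level.proj h' g) := by
  induction g using QuotientGroup.induction_on with
  | H g => rfl

lemma proj_surjective {L L' : Level S} (h : L ≤ L') : Function.Surjective (Level.proj h) := by
  intro g
  induction g using QuotientGroup.induction_on with
  | H g => exact ⟨QuotientGroup.mk g, rfl⟩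

lemma index_up {L L' : Level S} (h : L ≤ L') (H : Subgroup L.Gal) : (up h H).index = H.index :=
  Subgroup.index_comap_of_surjective H (proj_surjective h)

lemma trS_trans {L L' L'' : Level S} (h : L ≤ L') (h' : L' ≤ L'') (e : (E1.Lim.sUnits L).V) :
    (trS (h.trans h')).hom e = (trS h').hom ((trS h).hom e) := rfl

lemma trJ_diag {L L' : Level S} (h : L ≤ L') (q : Nat.Primes) (x : L.units.V) :
    (Level.trJ h q).hom ((L.diag q).hom x) = (L'.diag q).hom ((Level.trUnits h).hom x) := by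
  apply L'.J_ext q
  intro g'
  have h1 : L'.units.ρ g' ((Level.trUnits h).hom x) =
      (Level.trUnits h).hom (L.units.ρ (Level.proj h g') x) :=
    (Rep.hom_comm_apply (Level.trUnits h) g' x).symm
  show Level.inclLoc h q (L.embFun q (L.units.ρ (Level.proj h g') x)) =
    L'.embFun q (L'.units.ρ g' ((Level.trUnits h).hom x))
  rw [h1]
  apply L'.locCoe_injective q
  rfl

lemma trJtot_diagTot {L L' : Level S} (h : L ≤ L') (e : (E1.Lim.sUnits L).V) :
    (trJtot h).hom ((diagTot L).hom e) = (diagTot L').hom ((trS h).hom e) := by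
  apply piRep_ext
  intro q
  exact trJ_diag h q.1 ((sIncl L).hom e)

/-- The class `x` becomes divisible by `p` at a higher level. -/
def Div (p : ℕ) (L : Level S) (H : Subgroup L.Gal) (x : Hn H (E1.Lim.sUnits L) 2) : Prop :=
  ∃ (L' : Level S) (h : L ≤ L') (w : Hn (up h H) (E1.Lim.sUnits L') 2), infUp h H (trS h) 2 x = p • w

lemma Div.descend {p : ℕ} {L L' : Level S} (h : L ≤ L') (H : Subgroup L.Gal)
    (x : Hn H (E1.Lim.sUnits L) 2) (hx : Div p L' (up h H) (infUp h H (trS h) 2 x)) : Div p L H x := by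
  obtain ⟨L'', h', w, hw⟩ := hx
  obtain ⟨κ, hκ⟩ := exists_comparison (Level.proj h) (Level.proj h') (Level.proj (h.trans h'))
    (proj_trans_apply h h') H (trS h) (trS h') (trS (h.trans h')) (trS_trans h h') 2
  refine ⟨L'', h.trans h', κ w, ?_⟩
  have := hκ x
  rw [← map_nsmul, ← hw]
  exact this.symm

variable {p : ℕ} (c : Ctx S p)

lemma diagTot_jTot_eq_zero (L : Level S) : diagTot L ≫ jTot c.D L = 0 := by
  rw [← jC1_inclC1, ← Category.assoc, diagTot_jC1 c.h4, Limits.zero_comp]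

lemma card_smul_eq_zero {L : Level S} (H : Subgroup L.Gal) (A : Rep.{0} ℤ L.Gal)
    (z : Hn H A 2) : Nat.card H • z = 0 :=
  T.H572.cardTorsion ℤ H (T.resSub A H) 2 (by norm_num) z

/-- The core of the argument: `p`-primary classes at a level containing `μ_p`. -/
lemma div_of_pprim (hp : p.Prime) (hses : SesExact c) (hker : KerDiv c) (hcap : CapH2 c)
    (hhasse : HasseTower S p) (L : Level S) (hμ : L.HasMu p) (H : Subgroup L.Gal)
    (hcop : Nat.Coprime H.index p) (x : Hn H (E1.Lim.sUnits L) 2) (hx : IsPPrim p x) : Div p L H x := by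
  obtain ⟨b, hb⟩ := hx
  -- the image in `J`
  have hxJ : IsPPrim p (coe H (diagTot L) 2 x) := ⟨b, by rw [← map_nsmul, hb, map_zero]⟩
  have hxJ0 : coe H (jTot c.D L) 2 (coe H (diagTot L) 2 x) = 0 := by
    rw [← coe_comp, diagTot_jTot_eq_zero, coe_zero]
  obtain ⟨L₂, h₂, y, hy, hy0⟩ := hker L hμ H hcop _ hxJ hxJ0
  have hyp : p ^ (b + 1) • y = 0 := by
    rw [pow_succ, mul_nsmul', hy, ← map_nsmul, ← map_nsmul, hb, map_zero, map_zero]
  -- capitulation
  have hs0 : coe (up h₂ H) (inclC1 c.D L₂) 2 (coe (up h₂ H) (jC1 c.D L₂) 2 y) = 0 := by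
    rw [← coe_comp, jC1_inclC1]
    exact hy0
  have hsp : IsPPrim p (coe (up h₂ H) (jC1 c.D L₂) 2 y) :=
    ⟨b + 1, by rw [← map_nsmul, hyp, map_zero]⟩
  obtain ⟨L₃, h₃, hcap3⟩ := hcap L₂ (up h₂ H) _ hsp hs0
  have hy3 : coe (up h₃ (up h₂ H)) (jC1 c.D L₃) 2 (infUp h₃ (up h₂ H) (trJtot h₃) 2 y) = 0 := by
    rw [← infSub_coe (Level.proj h₃) (up h₂ H) (jC1 c.D L₂) (jC1 c.D L₃) (trJtot h₃)
      (trC1 c.h7 h₃) (fun a => trC1_jC1 c.h7 h₃ a) 2 y]
    exact hcap3
  obtain ⟨w₀, hw₀⟩ : ∃ w₀ : Hn (up h₃ (up h₂ H)) (E1.Lim.sUnits L₃) 2,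
      coe (up h₃ (up h₂ H)) (diagTot L₃) 2 w₀ = infUp h₃ (up h₂ H) (trJtot h₃) 2 y :=
    exists_of_coe_eq_zero (X := ses c.h4 L₃) (hses L₃) (up h₃ (up h₂ H)) 2 _ hy3
  -- a `p`-primary lift
  have hy3p : p ^ (b + 1) • infUp h₃ (up h₂ H) (trJtot h₃) 2 y = 0 := by
    rw [← map_nsmul, hyp, map_zero]
  obtain ⟨e, a, he1, hdvd⟩ := exists_pprim_mul p hp (Nat.card (up h₃ (up h₂ H))) Nat.card_pos
    (b + 1)
  have hw₁p : p ^ a • e • w₀ = 0 := by
    rw [← mul_nsmul']
    exact nsmul_eq_zero_of_dvd hdvd (card_smul_eq_zero _ _ w₀)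
  have hw₁ : coe (up h₃ (up h₂ H)) (diagTot L₃) 2 (e • w₀) =
      infUp h₃ (up h₂ H) (trJtot h₃) 2 y := by
    rw [map_nsmul, hw₀, nsmul_eq_of_modEq he1 hy3p, one_nsmul]
  -- Hasse
  have hx3 : coe (up h₃ (up h₂ H)) (diagTot L₃) 2
      (infUp h₃ (up h₂ H) (trS h₃) 2 (infUp h₂ H (trS h₂) 2 x)) =
      p • infUp h₃ (up h₂ H) (trJtot h₃) 2 y := by
    rw [← infSub_coe (Level.proj h₃) (up h₂ H) (diagTot L₂) (diagTot L₃) (trS h₃) (trJtot h₃)
      (fun a => trJtot_diagTot h₃ a) 2,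
      ← infSub_coe (Level.proj h₂) H (diagTot L) (diagTot L₂) (trS h₂) (trJtot h₂)
      (fun a => trJtot_diagTot h₂ a) 2, ← map_nsmul, hy]
  have hx3p : p ^ b • infUp h₃ (up h₂ H) (trS h₃) 2 (infUp h₂ H (trS h₂) 2 x) = 0 := by
    rw [← map_nsmul, ← map_nsmul, hb, map_zero, map_zero]
  have he0p : IsPPrim p (p • e • w₀ - infUp h₃ (up h₂ H) (trS h₃) 2 (infUp h₂ H (trS h₂) 2 x)) := by
    refine ⟨a + b, ?_⟩
    rw [smul_sub, pow_add]
    have h1 : (p ^ a * p ^ b) • p • e • w₀ = 0 := by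
      rw [mul_nsmul, smul_comm (p ^ a) p, hw₁p, smul_zero, smul_zero]
    have h2 : (p ^ a * p ^ b) •
        infUp h₃ (up h₂ H) (trS h₃) 2 (infUp h₂ H (trS h₂) 2 x) = 0 := by
      rw [mul_nsmul', hx3p, smul_zero]
    rw [h1, h2, sub_zero]
  have he00 : coe (up h₃ (up h₂ H)) (diagTot L₃) 2
      (p • e • w₀ - infUp h₃ (up h₂ H) (trS h₃) 2 (infUp h₂ H (trS h₂) 2 x)) = 0 := by
    rw [map_sub, map_nsmul, hw₁, hx3, sub_self]
  obtain ⟨L₄, h₄, hh⟩ := hhasse L₃ (up h₃ (up h₂ H)) _ he0p he00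
  rw [map_sub, map_nsmul, sub_eq_zero] at hh
  refine Div.descend h₂ H x (Div.descend h₃ (up h₂ H) _ ⟨L₄, h₄, _, hh.symm⟩)

/-- All classes at a level containing `μ_p`. -/
lemma div_of_hasMu (hp : p.Prime) (hses : SesExact c) (hker : KerDiv c) (hcap : CapH2 c)
    (hhasse : HasseTower S p) (L : Level S) (hμ : L.HasMu p) (H : Subgroup L.Gal)
    (hcop : Nat.Coprime H.index p) (x : Hn H (E1.Lim.sUnits L) 2) : Div p L H x := by
  obtain ⟨e, a, he1, hdvd⟩ := exists_pprim_mul p hp (Nat.card H) Nat.card_pos 1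
  have hex : IsPPrim p (e • x) := ⟨a, by
    rw [← mul_nsmul']
    exact nsmul_eq_zero_of_dvd hdvd (card_smul_eq_zero _ _ x)⟩
  obtain ⟨L', h, w, hw⟩ := div_of_pprim c hp hses hker hcap hhasse L hμ H hcop _ hex
  rw [pow_one] at he1
  obtain ⟨q, he⟩ : ∃ q : ℕ, e = p * q + 1 := by
    have h1 := Nat.div_add_mod e p
    have h2 : e % p = 1 := by
      rw [he1]
      exact Nat.mod_eq_of_lt hp.one_lt
    exact ⟨e / p, by omega⟩
  refine ⟨L', h, w - q • infUp h H (trS h) 2 x, ?_⟩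
  rw [map_nsmul, he] at hw
  rw [smul_sub, ← hw, add_nsmul, one_nsmul, mul_nsmul', add_sub_cancel_left]

/-- **AR-E2**. -/
theorem e2Leaf (S : Finset Nat.Primes) (p : ℕ) : E2Leaf S p := by
  intro c hses hker hcap hhasse hmu L H hcop x
  obtain ⟨hp, -, -⟩ := c.adm
  obtain ⟨⟨L₀, hL₀⟩, hdir⟩ := hmu
  obtain ⟨L₁, h₁, h₀₁⟩ := hdir L L₀
  refine Div.descend h₁ H x (div_of_hasMu c hp hses hker hcap hhasse L₁ (hL₀.mono h₀₁) (up h₁ H)
    ?_ _)
  rw [index_up]
  exact hcop

end Tower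

end

end Fermat.Agent.S55.K.AR.H79

end
-- ===== PACK-END S55/K/AR/E2H79.lean

-- ===== PACK-BEGIN S55/K/AR/WeakRecipH635.lean
section



/-!
# S55 / layer K / block AR, leaf AR-WR (helper635)

`weakRecipLeaf : WeakRecipLeaf S p` — weak reciprocity over `ℚ` in the tower:
`∑_q (j_q)_* (diag_q)_* x = (jTot ∘ diagTot)_* x = 0` (GD4); if all terms but `q₀` vanish then
`(j_{q₀})_* ((diag_{q₀})_* x) = 0`, and GD3 (injectivity of `(j_q)_*` on `p`-torsion) applies.
-/

set_option autoImplicit false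

open CategoryTheory

namespace Fermat.Agent.S55.K.AR.H635

open Fermat.Agent.S55 Fermat.Agent.S55.Tow Fermat.Agent.S55.E1.Lim

/-- `∑_q j_q ∘ diag_q ∘ incl = 0` on the `S`-units (GD4). -/
theorem sum_diag_j_eq_zero {S : Finset Nat.Primes} {p : ℕ} (c : Ctx S p) (L : Level S) :
    (∑ q : S, (sIncl L ≫ L.diag q.1) ≫ c.D.j L q.1) = 0 := by
  apply Rep.hom_ext
  apply DFunLike.ext
  intro e
  have h1 := diagTot_jTot c.h4 L e
  rw [jTot_apply] at h1
  have h2 : ((∑ q : S, (sIncl L ≫ L.diag q.1) ≫ c.D.j L q.1 : E1.Lim.sUnits L ⟶ c.D.C L)).hom e =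
      ∑ q : S, (c.D.j L q.1).hom (piTo ((diagTot L).hom e) q) := by
    have h3 : ∀ (s : Finset S),
        ((∑ q ∈ s, (sIncl L ≫ L.diag q.1) ≫ c.D.j L q.1 : E1.Lim.sUnits L ⟶ c.D.C L)).hom e =
          ∑ q ∈ s, (c.D.j L q.1).hom (piTo ((diagTot L).hom e) q) := by
      intro s
      classical
      induction s using Finset.induction_on with
      | empty => rfl
      | insert a s ha ih =>
        rw [Finset.sum_insert ha, Finset.sum_insert ha, ← ih]
        rfl
    exact h3 Finset.univ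
  rw [h2, h1]
  rfl

/-- **AR-WR.** -/
theorem weakRecipLeaf (S : Finset Nat.Primes) (p : ℕ) : WeakRecipLeaf S p := by
  intro c L hMu x hx q₀ hq₀ hother
  classical
  refine c.good.good.gd3 L hMu q₀ hq₀ _ ?_ ?_
  · rw [← map_nsmul, hx, map_zero]
  · have hsum := T.H635.coeffMap_sum_apply (Finset.univ : Finset S)
      (fun q : S => (sIncl L ≫ L.diag q.1) ≫ c.D.j L q.1) 2 x
    rw [sum_diag_j_eq_zero c L, T.H635.coeffMap_zero_apply] at hsum
    rw [Finset.sum_eq_single (⟨q₀, hq₀⟩ : S)] at hsum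
    · rw [T.H635.coeffMap_comp_apply]
      exact hsum.symm
    · intro q _ hq
      rw [← T.H635.coeffMap_comp_apply, hother q.1 q.2 (fun h => hq (Subtype.ext h)), map_zero]
    · intro h
      exact absurd (Finset.mem_univ _) h

end Fermat.Agent.S55.K.AR.H635

end
-- ===== PACK-END S55/K/AR/WeakRecipH635.lean

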