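import Fermat.Agent.Pack.S43GC.G0E19L1
import Fermat.Agent.Pack.S43GC.G0E12L0
import Fermat.Agent.Pack.S43GC.G0E1L0
import Fermat.Agent.Pack.S43GC.G0E19L0
import Fermat.Agent.Pack.S43GC.G0E19L3
import Fermat.Agent.Pack.S43GC.G0E8L1
import Fermat.Agent.Pack.S43GC.G0E18L2
import Fermat.Agent.Pack.S43GC.G0E14L1
import Fermat.Agent.Pack.S43GC.G0E10L2
import Fermat.Agent.Pack.S43GC.G0E12L2
import Fermat.Agent.Pack.S43GC.G0E11L3
import Fermat.Agent.Pack.S43GC.G0E19L2
import Fermat.Agent.Pack.Fast891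

-- ===== PACK-BEGIN S55/T/NakH837/LatDual.lean
section


/-!
# S55, layer T, leaf T6 (helper837): elementary lattice duality in degree `0`

For a lattice `L` over a PID `k` in which `n = |G|` is nonzero:
* `exists_hom_of_dvd_norm` : a linear functional `μ` on `L^G` with `μ (N y) ∈ n k` for all `y` is
  the restriction of a `G`-invariant functional `e` on `L`;
* `exists_normHom_of_dvd_invariants` : a `G`-invariant functional `e` on `L` with `e (L^G) ⊆ n k`
  is the norm of a linear functional.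
-/

set_option autoImplicit false
set_option linter.unusedSectionVars false
set_option linter.style.haveILetI false

open CategoryTheory groupCohomology

namespace Fermat.Agent.S55.T.H837

open Fermat.Agent.S55.H572

noncomputable section

variable {k G : Type} [CommRing k] [IsDomain k] [Group G] [Fintype G]

/-- The norm as a linear map into the invariants. -/
def normInv (L : Rep.{0} k G) : L.V →ₗ[k] L.ρ.invariants :=
  (L.ρ.norm).codRestrict L.ρ.invariants fun y => by
    have := norm_mem_invariants L y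
    simpa [Representation.norm, LinearMap.sum_apply] using this

lemma normInv_coe (L : Rep.{0} k G) (y : L.V) : ((normInv L y : L.ρ.invariants) : L.V) =
    ∑ g : G, L.ρ g y := by
  simp [normInv, Representation.norm, LinearMap.sum_apply]

lemma normInv_ρ (L : Rep.{0} k G) (g : G) (y : L.V) : normInv L (L.ρ g y) = normInv L y := by
  apply Subtype.ext
  rw [normInv_coe, normInv_coe]
  refine Fintype.sum_equiv (Equiv.mulRight g) _ _ fun h => ?_
  change L.ρ h (L.ρ g y) = L.ρ (h * g) y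
  rw [map_mul]
  rfl

lemma normInv_invariant (L : Rep.{0} k G) (r : L.ρ.invariants) :
    normInv L r.1 = (Fintype.card G : k) • r := by
  apply Subtype.ext
  rw [normInv_coe, Finset.sum_congr rfl fun g _ => r.2 g]
  simp [Nat.cast_smul_eq_nsmul]

/-- **Lattice duality, surjectivity.**  A functional on `L^G` whose values on norms are divisible
by `n = |G|` is the restriction of an invariant functional on `L`. -/
theorem exists_hom_of_dvd_norm (hn : (Fintype.card G : k) ≠ 0) (L : Rep.{0} k G)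
    (μ : L.ρ.invariants →ₗ[k] k)
    (hμ : ∀ y : L.V, ∃ c : k, μ (normInv L y) = (Fintype.card G : k) * c) :
    ∃ e : L ⟶ Rep.trivial k G k, ∀ r : L.ρ.invariants, e.hom r.1 = μ r := by
  choose c hc using hμ
  have hadd : ∀ a b, c (a + b) = c a + c b := fun a b => by
    apply mul_left_cancel₀ hn
    rw [← hc, mul_add, ← hc, ← hc, map_add, map_add]
  have hsmul : ∀ (t : k) (a : L.V), c (t • a) = t * c a := fun t a => by
    apply mul_left_cancel₀ hn
    rw [← hc, map_smul, map_smul, hc, smul_eq_mul]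
    ring
  let e₀ : L.V →ₗ[k] k :=
    { toFun := c
      map_add' := hadd
      map_smul' := fun t a => by rw [hsmul]; rfl }
  have hequiv : ∀ (g : G) (y : L.V), c (L.ρ g y) = c y := fun g y => by
    apply mul_left_cancel₀ hn
    rw [← hc, ← hc, normInv_ρ]
  refine ⟨Rep.ofHom (ρ := L.ρ) (σ := (Rep.trivial k G k).ρ) ⟨e₀, fun g => ?_⟩, fun r => ?_⟩
  · apply LinearMap.ext
    intro y
    exact hequiv g y
  · change c r.1 = μ r
    apply mul_left_cancel₀ hn
    rw [← hc, normInv_invariant, map_smul, smul_eq_mul]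

/-- The invariants of a lattice over a PID form a direct summand. -/
theorem exists_retraction_invariants [IsPrincipalIdealRing k] (L : Rep.{0} k G)
    [Module.Free k L.V] [Module.Finite k L.V] :
    ∃ ρ₀ : L.V →ₗ[k] L.ρ.invariants, ∀ r : L.ρ.invariants, ρ₀ r.1 = r := by
  haveI : Module.IsTorsionFree k (L.V ⧸ L.ρ.invariants) :=
    { isSMulRegular := fun t ht => by
        have ht0 : t ≠ 0 := ht.ne_zero
        intro q₁ q₂ hq
        have hq' : t • (q₁ - q₂) = 0 := by
          rw [smul_sub]; exact sub_eq_zero.2 hq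
        obtain ⟨y, hy⟩ := Submodule.Quotient.mk_surjective L.ρ.invariants (q₁ - q₂)
        rw [← hy, ← Submodule.Quotient.mk_smul, Submodule.Quotient.mk_eq_zero] at hq'
        have hy0 : y ∈ L.ρ.invariants := by
          intro g
          apply smul_right_injective (M := L.V) ht0
          change t • L.ρ g y = t • y
          rw [← map_smul]
          exact hq' g
        have : q₁ - q₂ = 0 := by
          rw [← hy]
          exact (Submodule.Quotient.mk_eq_zero _).2 hy0
        exact sub_eq_zero.1 this }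
  haveI : Module.Free k (L.V ⧸ L.ρ.invariants) := Module.free_of_finite_type_torsion_free'
  obtain ⟨s, hs⟩ := Module.projective_lifting_property (L.ρ.invariants.mkQ) LinearMap.id
    (Submodule.mkQ_surjective _)
  let d : L.V →ₗ[k] L.V := LinearMap.id - s ∘ₗ L.ρ.invariants.mkQ
  have hmem : ∀ y : L.V, d y ∈ L.ρ.invariants := by
    intro y
    rw [← Submodule.Quotient.mk_eq_zero]
    change L.ρ.invariants.mkQ (y - s (L.ρ.invariants.mkQ y)) = 0
    rw [map_sub]
    have := congrArg (fun m => m (L.ρ.invariants.mkQ y)) hs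
    change L.ρ.invariants.mkQ (s (L.ρ.invariants.mkQ y)) = L.ρ.invariants.mkQ y at this
    rw [this, sub_self]
  refine ⟨d.codRestrict L.ρ.invariants hmem, fun r => ?_⟩
  apply Subtype.ext
  change r.1 - s (L.ρ.invariants.mkQ r.1) = r.1
  have : L.ρ.invariants.mkQ r.1 = 0 := (Submodule.Quotient.mk_eq_zero _).2 r.2
  rw [this, map_zero, sub_zero]

/-- **Lattice duality, injectivity.**  An invariant functional on a lattice `L` whose values on
`L^G` are divisible by `n = |G|` is the norm of a linear functional. -/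
theorem exists_normHom_of_dvd_invariants [IsPrincipalIdealRing k]
    (hn : (Fintype.card G : k) ≠ 0) (L : Rep.{0} k G)
    [Module.Free k L.V] [Module.Finite k L.V] (e : L ⟶ Rep.trivial k G k)
    (he : ∀ r : L.ρ.invariants, ∃ c : k, e.hom r.1 = (Fintype.card G : k) * c) :
    ∃ ψ : L.V →ₗ[k] k, e = normHom (B := Rep.trivial k G k) ψ := by
  choose c hc using he
  have hadd : ∀ a b, c (a + b) = c a + c b := fun a b => by
    apply mul_left_cancel₀ hn
    rw [← hc, mul_add, ← hc, ← hc]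
    exact map_add e.hom a.1 b.1
  have hsmul : ∀ (t : k) (a : L.ρ.invariants), c (t • a) = t * c a := fun t a => by
    apply mul_left_cancel₀ hn
    rw [← hc]
    have : e.hom (t • a).1 = t • e.hom a.1 := map_smul e.hom t a.1
    rw [this, hc, smul_eq_mul]
    ring
  let e'' : L.ρ.invariants →ₗ[k] k :=
    { toFun := c
      map_add' := hadd
      map_smul' := fun t a => by rw [hsmul]; rfl }
  obtain ⟨ρ₀, hρ₀⟩ := exists_retraction_invariants L
  refine ⟨e'' ∘ₗ ρ₀, ?_⟩
  apply Rep.hom_ext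
  apply Representation.IntertwiningMap.ext
  apply LinearMap.ext
  intro y
  change e.hom y = (normHom (B := Rep.trivial k G k) (e'' ∘ₗ ρ₀)).hom y
  rw [normHom_hom_apply]
  have h1 : ∀ g : G, (Rep.trivial k G k).ρ g ((e'' ∘ₗ ρ₀) (L.ρ g⁻¹ y)) =
      (e'' ∘ₗ ρ₀) (L.ρ g⁻¹ y) := fun g => rfl
  rw [Finset.sum_congr rfl fun g _ => h1 g, ← map_sum]
  have h2 : ∑ g : G, L.ρ g⁻¹ y = (normInv L y).1 := by
    rw [normInv_coe]
    exact Fintype.sum_equiv (Equiv.inv G) _ _ fun g => rfl
  rw [h2]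
  change e.hom y = c (ρ₀ (normInv L y).1)
  rw [hρ₀]
  apply mul_left_cancel₀ hn
  rw [← hc, normInv_coe, map_sum]
  have h3 : ∀ g : G, e.hom (L.ρ g y) = e.hom y := fun g => by
    rw [Rep.hom_comm_apply]
    rfl
  rw [Finset.sum_congr rfl fun g _ => h3 g]
  simp

end

end Fermat.Agent.S55.T.H837

end
-- ===== PACK-END S55/T/NakH837/LatDual.lean

-- ===== PACK-BEGIN S55/T/NakH837/Main.lean
section


/-!
# S55, layer T, leaf T6 (helper837): Tate–Nakayama for lattices, generic coefficient ring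

Let `k` be a PID in which `n = |G|` is nonzero, and let

  `0 → C → X → I → 0`,   `0 → I → P → k → 0`

be exact rows of `G`-representations with `X`, `P` cohomologically trivial.  For a lattice `R`:

* `exists_hom_coeffMap_eq` : every `k`-linear map `H²(G, R) → H²(G, C)` is induced by a morphism
  `R ⟶ C`;
* `exists_normHom_of_coeffMap_eq_zero` : if `Hom(R, X)` and `Hom(up R, P)` are cohomologically
  trivial (Nakayama), a morphism `R ⟶ C` inducing zero on `H²` is the norm of a linear map.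
-/

set_option autoImplicit false
set_option linter.unusedSectionVars false
set_option linter.style.haveILetI false

open CategoryTheory groupCohomology

namespace Fermat.Agent.S55.T.H837

open Fermat.Agent.S55.H572

noncomputable section

variable {k G : Type} [CommRing k] [IsDomain k] [IsPrincipalIdealRing k] [Group G] [Fintype G]

variable {C X I P : Rep.{0} k G} {i : C ⟶ X} {π : X ⟶ I} {j : I ⟶ P}
  {ε : P ⟶ Rep.trivial k G k} {w₁ : i ≫ π = 0} {w₂ : j ≫ ε = 0}
  (hA : (ShortComplex.mk i π w₁).ShortExact) (hB : (ShortComplex.mk j ε w₂).ShortExact)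

/-- Elements of `k` as invariants of the trivial representation. -/
def trivInv : k →ₗ[k] (Rep.trivial k G k).ρ.invariants :=
  LinearMap.codRestrict _ LinearMap.id fun _ _ => rfl

lemma trivInv_surjective : Function.Surjective (trivInv (k := k) (G := G)) :=
  fun t => ⟨t.1, Subtype.ext rfl⟩

/-- The map `k → H²(G, C)` given by the two rows. -/
def rowMap : k →ₗ[k] groupCohomology C 2 :=
  (ddRow hA hB).hom ∘ₗ (H0Iso (Rep.trivial k G k)).inv.hom ∘ₗ trivInv

include hA hB in
lemma rowMap_surjective (hX : IsCohTriv X) (hP : IsCohTriv P) :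
    Function.Surjective (rowMap hA hB) := by
  have h1 := ddRow_surjective hA hB (isZero_groupCohomology_of_isCohTriv hP 0)
    (isZero_groupCohomology_of_isCohTriv hX 1)
  have h2 : Function.Surjective (H0Iso (Rep.trivial k G k)).inv.hom := fun x =>
    ⟨(H0Iso (Rep.trivial k G k)).hom.hom x,
      congrArg (fun m => m.hom x) (H0Iso (Rep.trivial k G k)).hom_inv_id⟩
  exact h1.comp (h2.comp trivInv_surjective)

include hA hB in
lemma dvd_of_rowMap_eq_zero (hX : IsCohTriv X) (hP : IsCohTriv P) (t : k)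
    (ht : rowMap hA hB t = 0) : ∃ c : k, t = (Fintype.card G : k) * c := by
  obtain ⟨s, hs⟩ := exists_card_smul_of_ddRow_eq_zero hA hB
    (isZero_groupCohomology_of_isCohTriv hX 0) hP (fun _ _ => rfl) (trivInv t) ht
  refine ⟨s, ?_⟩
  have : t = Fintype.card G • s := hs
  rw [this, nsmul_eq_mul]

/-- The class of an invariant of `up (up R)` in `H²(G, R)`. -/
def upMap (R : Rep.{0} k G) : (up (up R)).ρ.invariants →ₗ[k] groupCohomology R 2 :=
  (ddUp R).hom ∘ₗ (H0Iso (up (up R))).inv.hom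

lemma upMap_surjective (R : Rep.{0} k G) : Function.Surjective (_root_.Fermat.Agent.S55.T.H837.upMap R) := by
  have h2 : Function.Surjective (H0Iso (up (up R))).inv.hom := fun x =>
    ⟨(H0Iso (up (up R))).hom.hom x, congrArg (fun m => m.hom x) (H0Iso (up (up R))).hom_inv_id⟩
  exact (ddUp_surjective R).comp h2

lemma upMap_normInv (R : Rep.{0} k G) (y : (up (up R)).V) :
    _root_.Fermat.Agent.S55.T.H837.upMap R (normInv (up (up R)) y) = 0 := by
  have h : normInv (up (up R)) y =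
      ⟨∑ g : G, (up (up R)).ρ g y, norm_mem_invariants _ y⟩ :=
    Subtype.ext (normInv_coe _ y)
  rw [h]
  exact ddUp_norm R y

include hA hB in
/-- **Tate–Nakayama, surjectivity.** -/
theorem exists_hom_coeffMap_eq (hn : (Fintype.card G : k) ≠ 0)
    (hX : IsCohTriv X) (hP : IsCohTriv P)
    (R : Rep.{0} k G) [Module.Free k R.V] [Module.Finite k R.V]
    (φ : groupCohomology R 2 →ₗ[k] groupCohomology C 2) :
    ∃ f : R ⟶ C, ∀ x, (coeffMap f 2).hom x = φ x := by
  haveI : Module.Free k (up R).V := free_up R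
  haveI : Module.Finite k (up R).V := finite_up R
  haveI : Module.Free k (up (up R)).V := free_up (up R)
  haveI : Module.Finite k (up (up R)).V := finite_up (up R)
  haveI : Module.Free k (up (up R)).ρ.invariants := free_invariants (up (up R))
  obtain ⟨μ, hμ⟩ := Module.projective_lifting_property (rowMap hA hB) (φ ∘ₗ _root_.Fermat.Agent.S55.T.H837.upMap R)
    (rowMap_surjective hA hB hX hP)
  have hμ' : ∀ r, rowMap hA hB (μ r) = φ (_root_.Fermat.Agent.S55.T.H837.upMap R r) := fun r =>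
    congrArg (fun m => m r) hμ
  have hdvd : ∀ y : (up (up R)).V,
      ∃ c : k, μ (normInv (up (up R)) y) = (Fintype.card G : k) * c := fun y => by
    apply dvd_of_rowMap_eq_zero hA hB hX hP
    rw [hμ', upMap_normInv, map_zero]
  obtain ⟨e, he⟩ := exists_hom_of_dvd_norm hn (up (up R)) μ hdvd
  haveI : Mono j := hB.mono_f
  haveI : Mono i := hA.mono_f
  have hεs : Function.Surjective ε.hom := (Rep.epi_iff_surjective ε).1 hB.epi_g
  have hπs : Function.Surjective π.hom := (Rep.epi_iff_surjective π).1 hA.epi_g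
  obtain ⟨t₂', c4⟩ := exists_lift_coind₁ ε hεs (upπ (up R) ≫ e)
  have z1 : (coind₁ι (up R) ≫ t₂') ≫ ε = 0 := by
    rw [Category.assoc, c4, ← Category.assoc]
    have : coind₁ι (up R) ≫ upπ (up R) = 0 := (upSC (up R)).zero
    rw [this, Limits.zero_comp]
  let h : up R ⟶ I := hB.exact.lift (coind₁ι (up R) ≫ t₂') z1
  have c3 : h ≫ j = coind₁ι (up R) ≫ t₂' := hB.exact.lift_f _ z1
  obtain ⟨t₂, c2⟩ := exists_lift_coind₁ π hπs (upπ R ≫ h)
  have z2 : (coind₁ι R ≫ t₂) ≫ π = 0 := by
    rw [Category.assoc, c2, ← Category.assoc]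
    have : coind₁ι R ≫ upπ R = 0 := (upSC R).zero
    rw [this, Limits.zero_comp]
  let f : R ⟶ C := hA.exact.lift (coind₁ι R ≫ t₂) z2
  have c1 : f ≫ i = coind₁ι R ≫ t₂ := hA.exact.lift_f _ z2
  refine ⟨f, fun x => ?_⟩
  obtain ⟨r, rfl⟩ := upMap_surjective R x
  have key := coeffMap_ddUp hA hB f t₂ h t₂' e c1 c2 c3 c4 r
  have h5 : mapInv e r = trivInv (μ r) := Subtype.ext (he r)
  rw [h5] at key
  change (coeffMap f 2).hom ((ddUp R).hom ((H0Iso _).inv r)) = φ (_root_.Fermat.Agent.S55.T.H837.upMap R r)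
  rw [key, ← hμ']
  rfl

include hA hB in
/-- **Tate–Nakayama, kernel.** -/
theorem exists_normHom_of_coeffMap_eq_zero (hn : (Fintype.card G : k) ≠ 0)
    (hX : IsCohTriv X) (hP : IsCohTriv P)
    (R : Rep.{0} k G) [Module.Free k R.V] [Module.Finite k R.V]
    (hNX : IsCohTriv ((Rep.ihom R).obj X)) (hNP : IsCohTriv ((Rep.ihom (up R)).obj P))
    (f : R ⟶ C) (hf : ∀ x, (coeffMap f 2).hom x = 0) :
    ∃ ψ : R.V →ₗ[k] C.V, f = normHom ψ := by
  haveI : Module.Free k (up R).V := free_up R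
  haveI : Module.Finite k (up R).V := finite_up R
  haveI : Module.Free k (up (up R)).V := free_up (up R)
  haveI : Module.Finite k (up (up R)).V := finite_up (up R)
  haveI : Mono j := hB.mono_f
  haveI : Mono i := hA.mono_f
  haveI : Epi (upSC R).g := upπ_epi R
  haveI : Epi (upSC (up R)).g := upπ_epi (up R)
  have hεs : Function.Surjective ε.hom := (Rep.epi_iff_surjective ε).1 hB.epi_g
  have hπs : Function.Surjective π.hom := (Rep.epi_iff_surjective π).1 hA.epi_g
  have zR : coind₁ι R ≫ upπ R = 0 := (upSC R).zero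
  have zR' : coind₁ι (up R) ≫ upπ (up R) = 0 := (upSC (up R)).zero
  -- first square
  obtain ⟨ψ₁, h1⟩ := exists_normHom_of_isCohTriv_ihom hNX (f ≫ i)
  let t₂ : coind₁ R ⟶ X := normHom (ψ₁ ∘ₗ ev₁ R)
  have c1 : f ≫ i = coind₁ι R ≫ t₂ := by
    rw [coind₁ι_comp_normHom_ev, h1]
  have z1 : (upSC R).f ≫ (t₂ ≫ π) = 0 := by
    change coind₁ι R ≫ (t₂ ≫ π) = 0
    rw [← Category.assoc, ← c1, Category.assoc, w₁, Limits.comp_zero]
  let h : up R ⟶ I := (upSC_shortExact R).exact.desc (t₂ ≫ π) z1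
  have c2 : t₂ ≫ π = upπ R ≫ h := ((upSC_shortExact R).exact.g_desc _ z1).symm
  -- second square
  obtain ⟨ψ₂, h2⟩ := exists_normHom_of_isCohTriv_ihom hNP (h ≫ j)
  let t₂' : coind₁ (up R) ⟶ P := normHom (ψ₂ ∘ₗ ev₁ (up R))
  have c3 : h ≫ j = coind₁ι (up R) ≫ t₂' := by
    rw [coind₁ι_comp_normHom_ev, h2]
  have z2 : (upSC (up R)).f ≫ (t₂' ≫ ε) = 0 := by
    change coind₁ι (up R) ≫ (t₂' ≫ ε) = 0
    rw [← Category.assoc, ← c3, Category.assoc, w₂, Limits.comp_zero]
  let e : up (up R) ⟶ Rep.trivial k G k := (upSC_shortExact (up R)).exact.desc (t₂' ≫ ε) z2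
  have c4 : t₂' ≫ ε = upπ (up R) ≫ e := ((upSC_shortExact (up R)).exact.g_desc _ z2).symm
  -- `e` takes values divisible by `n` on invariants
  have hdvd : ∀ r : (up (up R)).ρ.invariants,
      ∃ c : k, e.hom r.1 = (Fintype.card G : k) * c := fun r => by
    have key := coeffMap_ddUp hA hB f t₂ h t₂' e c1 c2 c3 c4 r
    rw [hf] at key
    exact dvd_of_rowMap_eq_zero hA hB hX hP (e.hom r.1) key.symm
  obtain ⟨ψ₃, h3⟩ := exists_normHom_of_dvd_invariants hn (up (up R)) e hdvd
  -- lift `e` to `P`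
  obtain ⟨p₀, hp₀⟩ := hεs (1 : k)
  let e' : up (up R) ⟶ P := normHom (ψ₃.smulRight p₀)
  have he' : e' ≫ ε = e := by
    rw [h3, normHom_comp]
    congr 1
    apply LinearMap.ext
    intro y
    change ε.hom (ψ₃ y • p₀) = ψ₃ y
    rw [map_smul, hp₀, smul_eq_mul, mul_one]
  -- `h` extends to `coind₁ (up R)`
  have z3 : (t₂' - upπ (up R) ≫ e') ≫ ε = 0 := by
    rw [Preadditive.sub_comp, Category.assoc, he', c4, sub_self]
  let kk : coind₁ (up R) ⟶ I := hB.exact.lift (t₂' - upπ (up R) ≫ e') z3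
  have hkk : kk ≫ j = t₂' - upπ (up R) ≫ e' := hB.exact.lift_f _ z3
  have hkk' : coind₁ι (up R) ≫ kk = h := by
    rw [← cancel_mono j, Category.assoc, hkk, Preadditive.comp_sub, ← Category.assoc, zR',
      Limits.zero_comp, sub_zero, c3]
  obtain ⟨kt, hkt⟩ := exists_lift_coind₁ π hπs kk
  -- `f` extends to `coind₁ R`
  have z4 : (t₂ - upπ R ≫ coind₁ι (up R) ≫ kt) ≫ π = 0 := by
    rw [Preadditive.sub_comp, Category.assoc, Category.assoc, hkt, hkk', c2, sub_self]
  let m : coind₁ R ⟶ C := hA.exact.lift (t₂ - upπ R ≫ coind₁ι (up R) ≫ kt) z4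
  have hm : m ≫ i = t₂ - upπ R ≫ coind₁ι (up R) ≫ kt := hA.exact.lift_f _ z4
  have hm' : coind₁ι R ≫ m = f := by
    rw [← cancel_mono i, Category.assoc, hm, Preadditive.comp_sub, ← Category.assoc, zR,
      Limits.zero_comp, sub_zero, c1]
  obtain ⟨ψ', hψ'⟩ := hom_coind₁_eq_normHom m
  refine ⟨ψ' ∘ₗ (coind₁ι R).hom.toLinearMap, ?_⟩
  rw [← hm', hψ', comp_normHom]

end

end Fermat.Agent.S55.T.H837

end
-- ===== PACK-END S55/T/NakH837/Main.lean

-- ===== PACK-BEGIN S55/G/Rec/Tow/H417/KerJ.lean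
section
/-
S55 / REC2-TOW (helper417): `kerJ_of : KerJAssemblySpec p`  — reciprocity in the form
"a `p`-primary class of `H²(H, J_S(M))` dying in `H²(H, C_S(M))` has semilocal invariant `0`".
-/


set_option autoImplicit false

open CategoryTheory groupCohomology

namespace Fermat.Agent.S55.G.Rec.TOW.H417

open Fermat.Agent.S55 Fermat.Agent.S55.Tow Fermat.Agent.S55.E1.H594

/-- **KERJ**. -/
theorem kerJ_of (p : ℕ) : KerJAssemblySpec p := by
  intro hp I hSES hEx hPP hCT S hS M H a ha hja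
  have hX : (G.classShortComplex S M.Gal M.F).ShortExact := hSES S M.Gal M.F hS
  obtain ⟨-, hExH⟩ := hEx M.Gal (G.classShortComplex S M.Gal M.F) hX
  -- `z := inl_* a` dies in `H²(H, C)`
  have hz0 : h2Sub (G.quotRepHom S M.Gal M.F) H (h2Sub (G.jInlRepHom S M.Gal M.F) H a) = 0 := by
    rw [← h2Sub_comp]
    exact hja
  obtain ⟨x, hx⟩ := hExH H _ hz0
  -- a `p`-primary lift
  have hkill : ∀ x : groupCohomology (T.resSub (lvlL M) H) 2, Nat.card H • x = 0 :=
    fun x => hCT ℤ H (T.resSub (lvlL M) H) 2 (by norm_num) x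
  have hzp : E1.IsPPrimary p
      ((h2Sub (G.diagRepHom S M.Gal M.F) H).toAddMonoidHom x) := by
    change E1.IsPPrimary p (h2Sub (G.diagRepHom S M.Gal M.F) H x)
    have hx' : h2Sub (G.diagRepHom S M.Gal M.F) H x =
        h2Sub (G.jInlRepHom S M.Gal M.F) H a := hx
    rw [hx']
    exact isPPrimary_map (h2Sub (G.jInlRepHom S M.Gal M.F) H).toAddMonoidHom ha
  obtain ⟨x', hx'p, hx'⟩ := hPP p hp _ _ (h2Sub (G.diagRepHom S M.Gal M.F) H).toAddMonoidHom
    (Nat.card H) Nat.card_pos hkill x hzp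
  have hx'' : h2Sub (G.diagRepHom S M.Gal M.F) H x' =
      h2Sub (G.jInlRepHom S M.Gal M.F) H a := hx'.trans hx
  -- the divisor class of `x'` vanishes
  have hord : h2Sub (G.ordRepHom S M.Gal M.F) H x' = 0 := by
    rw [← diagRepHom_comp_divSnd, h2Sub_comp, hx'', ← h2Sub_comp, jInl_comp_divSnd]
    exact h2Sub_zero _ _ H a
  -- the idèle class of `x'` is `a`
  have hdiag : h2Sub (diagJRepHom S M.Gal M.F) H x' = a := by
    rw [← diagRepHom_comp_jdFst, h2Sub_comp, hx'', ← h2Sub_comp, jInl_comp_jdFst]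
    exact h2Sub_id _ H a
  have := I.recip M H x' hx'p hord
  rwa [hdiag] at this

end Fermat.Agent.S55.G.Rec.TOW.H417

end
-- ===== PACK-END S55/G/Rec/Tow/H417/KerJ.lean

-- ===== PACK-BEGIN S55/G/Rec/Tow/H417/TotExact.lean
section
/-
S55 / REC2-TOW (helper417): `totExact_of : TotExactAssemblySpec p`  (memo T4': exactness at a
totally ramified place, by counting).
-/


set_option autoImplicit false

open CategoryTheory groupCohomology

namespace Fermat.Agent.S55.G.Rec.TOW.H417

open Fermat.Agent.S55 Fermat.Agent.S55.Tow Fermat.Agent.S55.E1.H594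

/-- In a finite `p`-group every class of `H²` is `p`-primary. -/
lemma isPPrimary_of_isPGroup (hCT : T.CardTorsionSpec) {p : ℕ} (hp : p.Prime) {Γ : Type} [Group Γ]
    [Finite Γ] (A : Rep.{0} ℤ Γ) (Z : Subgroup Γ) (hZ : IsPGroup p Z)
    (a : groupCohomology (T.resSub A Z) 2) : E1.IsPPrimary p a := by
  haveI : Fact p.Prime := ⟨hp⟩
  obtain ⟨n, hn⟩ := hZ.exists_card_eq
  refine ⟨n, ?_⟩
  rw [← hn]
  exact hCT ℤ Z (T.resSub A Z) 2 (by norm_num) a

/-- **T4'**. -/
theorem totExact_of (p : ℕ) : TotExactAssemblySpec p := by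
  intro I hK hUP hEC hCT S hp hp2 hpS M hMu r hr Z hZ hfix
  have hSne : S.Nonempty := ⟨_, hpS⟩
  obtain ⟨-, hfin, hdvd⟩ := hUP S hp hp2 hpS M hMu Z hZ
  obtain ⟨y₀, -, hy₀⟩ := I.locClass M r hr Z Z le_rfl hZ hfix
  exact hEC _ _ _ (h2Sub (lvlj M) Z).toAddMonoidHom (I.σ M Z) (Nat.card Z) Nat.card_pos
    (fun a ha => hK S hSne M Z a (isPPrimary_of_isPGroup hCT hp _ Z hZ a) ha)
    hfin hdvd ⟨y₀, hy₀⟩

end Fermat.Agent.S55.G.Rec.TOW.H417

end
-- ===== PACK-END S55/G/Rec/Tow/H417/TotExact.lean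

-- ===== PACK-BEGIN S55/H963/BrDatum.lean
section




/-!
# S55 / G-SI bridge (helper963): the ray datum attached to a subgroup of `C_S(K)`

For a subgroup `H ≤ C_S(K)` (helper421's model) containing the `n`-th powers, the map
`I ↦ class of (1, div^S I)` is a ray datum of modulus `(∏_{q ∈ S} q) ^ (2 n + 2)` with values in
`C_S(K) / H`, and it is surjective.
-/

set_option autoImplicit false
set_option linter.style.haveILetI false
set_option linter.unusedSectionVars false
set_option linter.unusedVariables false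

open scoped NumberField TensorProduct nonZeroDivisors

open IsDedekindDomain

noncomputable section

namespace Fermat.Agent.S55.H963

/-- Push-forward of a ray datum along a group homomorphism. -/
def RayDatum.map {K : Type*} [Field K] [NumberField K] {A A' : Type*} [CommGroup A]
    [CommGroup A'] (D : RayDatum K A) (f : A →* A') : RayDatum K A' where
  m := D.m
  m_ne_bot := D.m_ne_bot
  ψ I := f (D.ψ I)
  map_mul I J hI hJ := by rw [D.map_mul I J hI hJ, _root_.map_mul]
  map_principal x hx := by rw [D.map_principal x hx, map_one]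

theorem RayDatum.map_isSurj {K : Type*} [Field K] [NumberField K] {A A' : Type*} [CommGroup A]
    [CommGroup A'] (D : RayDatum K A) (f : A →* A') (hf : Function.Surjective f)
    (h : D.IsSurj) : (D.map f).IsSurj := by
  intro a'
  obtain ⟨a, rfl⟩ := hf a'
  obtain ⟨𝔠, h0, hc, hψ⟩ := h a
  exact ⟨𝔠, h0, hc, by show f (D.ψ 𝔠) = f a; rw [hψ]⟩

namespace Br

open Fermat.Agent.S55.G

variable (S : Finset Nat.Primes) (K : Type) [Field K] [NumberField K]

/-- The modulus `(∏_{q ∈ S} q) ^ (2 n + 2)`. -/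
def modulus (n : ℕ) : Ideal (𝓞 K) := Ideal.span {((PS S : ℕ) : 𝓞 K) ^ (2 * n + 2)}

theorem modulus_ne_bot (n : ℕ) : modulus S K n ≠ ⊥ := by
  unfold modulus
  rw [Ne, Ideal.span_singleton_eq_bot]
  exact pow_ne_zero _ (by exact_mod_cast (PS_pos S).ne')

theorem PS_mem_of_mem {I : Ideal (𝓞 K)} {q : Nat.Primes} (hq : q ∈ S)
    (h : ((q : ℕ) : 𝓞 K) ∈ I) : ((PS S : ℕ) : 𝓞 K) ∈ I := by
  rw [PS_eq_mul hq, Nat.cast_mul]
  exact I.mul_mem_right _ h

theorem exists_mem_of_PS_mem {I : Ideal (𝓞 K)} (hI : I.IsPrime)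
    (h : ((PS S : ℕ) : 𝓞 K) ∈ I) : ∃ q ∈ S, ((q : ℕ) : 𝓞 K) ∈ I := by
  unfold PS at h
  rw [Nat.cast_prod] at h
  haveI := hI
  exact Ideal.IsPrime.prod_mem_iff.mp h

theorem modulus_le_of_mem {I : Ideal (𝓞 K)} {q : Nat.Primes} (hq : q ∈ S)
    (h : ((q : ℕ) : 𝓞 K) ∈ I) (n : ℕ) : modulus S K n ≤ I := by
  unfold modulus
  rw [Ideal.span_singleton_le_iff_mem]
  exact I.pow_mem_of_mem (PS_mem_of_mem S K hq h) _ (by omega)

/-- A prime coprime to the modulus is not above `S`. -/
theorem not_isAbove_of_isCoprime (v : HeightOneSpectrum (𝓞 K)) (n : ℕ)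
    (h : IsCoprime v.asIdeal (modulus S K n)) : ¬ IsAbove S K v := by
  rintro ⟨q, hq, hqv⟩
  have hle := modulus_le_of_mem S K hq hqv n
  rw [Ideal.isCoprime_iff_sup_eq, sup_eq_left.mpr hle] at h
  exact v.isPrime.ne_top h

/-- A prime not above `S` is coprime to the modulus. -/
theorem isCoprime_of_not_isAbove (v : PrimeOut S K) (n : ℕ) :
    IsCoprime v.1.asIdeal (modulus S K n) := by
  rw [Ideal.isCoprime_iff_sup_eq]
  by_contra htop
  have hmax : v.1.asIdeal.IsMaximal := v.1.isMaximal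
  have h1 : v.1.asIdeal ⊔ modulus S K n = v.1.asIdeal := by
    by_contra hne
    exact htop (hmax.1.2 _ (lt_of_le_of_ne le_sup_left (Ne.symm hne)))
  have hle : modulus S K n ≤ v.1.asIdeal := by rw [← h1]; exact le_sup_right
  have hP : ((PS S : ℕ) : 𝓞 K) ^ (2 * n + 2) ∈ v.1.asIdeal :=
    hle (Ideal.subset_span (Set.mem_singleton _))
  have hP' := v.1.isPrime.mem_of_pow_mem _ hP
  obtain ⟨q, hq, hqv⟩ := exists_mem_of_PS_mem S K v.1.isPrime hP'
  exact v.2 ⟨q, hq, hqv⟩

theorem modulus_ne_top (hS : S.Nonempty) (n : ℕ) : modulus S K n ≠ ⊤ := by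
  intro htop
  obtain ⟨q, hq⟩ := hS
  have hu : IsUnit (((PS S : ℕ) : 𝓞 K) ^ (2 * n + 2)) := by
    unfold modulus at htop
    exact Ideal.span_singleton_eq_top.mp htop
  have hu' : IsUnit ((PS S : ℕ) : 𝓞 K) := (isUnit_pow_iff (by omega)).mp hu
  have hn := hu'.map (Algebra.norm ℤ)
  have hnorm : Algebra.norm ℤ (((PS S : ℕ) : 𝓞 K)) =
      ((PS S : ℕ) : ℤ) ^ Fintype.card (Module.Free.ChooseBasisIndex ℤ (𝓞 K)) := by
    have := Algebra.norm_algebraMap_of_basis (NumberField.RingOfIntegers.basis K)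
      ((PS S : ℕ) : ℤ)
    rwa [algebraMap_int_eq, eq_intCast, Int.cast_natCast] at this
  rw [hnorm] at hn
  have hcard : Fintype.card (Module.Free.ChooseBasisIndex ℤ (𝓞 K)) ≠ 0 := by
    have : Nonempty (Module.Free.ChooseBasisIndex ℤ (𝓞 K)) :=
      (NumberField.RingOfIntegers.basis K).index_nonempty
    exact Fintype.card_ne_zero
  have hP1 := (isUnit_pow_iff hcard).mp hn
  have hP2 : (PS S : ℕ) = 1 := by
    have := Int.isUnit_iff.mp hP1
    rcases this with h | h
    · exact_mod_cast h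
    · have : (0 : ℤ) ≤ ((PS S : ℕ) : ℤ) := Int.natCast_nonneg _
      omega
  have hq1 : (q : ℕ) ∣ 1 := by rw [← hP2]; exact dvd_PS hq
  exact q.2.one_lt.ne' (Nat.dvd_one.mp hq1)

variable {S K}

/-- The class map `J_S(K) × Div^S(K) → C_S(K) / H`. -/
def cl (H : AddSubgroup (CS S K)) : JD S K →+ CS S K ⧸ H :=
  (QuotientAddGroup.mk' H).comp ((principal S K).mkQ.toAddMonoidHom)

theorem cl_surjective (H : AddSubgroup (CS S K)) : Function.Surjective (_root_.Fermat.Agent.S55.H963.Br.cl H) := by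
  intro a
  obtain ⟨c, rfl⟩ := QuotientAddGroup.mk_surjective a
  obtain ⟨y, rfl⟩ := Submodule.Quotient.mk_surjective _ c
  exact ⟨y, rfl⟩

theorem cl_diag (H : AddSubgroup (CS S K)) (x : Additive Kˣ) : _root_.Fermat.Agent.S55.H963.Br.cl H (diagHom S K x) = 0 := by
  have h : (principal S K).mkQ (diagHom S K x) = 0 := by
    rw [Submodule.mkQ_apply, Submodule.Quotient.mk_eq_zero]
    exact ⟨x, rfl⟩
  show QuotientAddGroup.mk' H ((principal S K).mkQ (diagHom S K x)) = 0
  rw [h, map_zero]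

theorem nsmul_cl {n : ℕ} (H : AddSubgroup (CS S K)) (hpow : ∀ c : CS S K, n • c ∈ H)
    (a : CS S K ⧸ H) : n • a = 0 := by
  obtain ⟨c, rfl⟩ := QuotientAddGroup.mk_surjective a
  rw [← QuotientAddGroup.mk_nsmul]
  exact (QuotientAddGroup.eq_zero_iff _).mpr (hpow c)

/-- Units of `K ⊗ ℚ_S` congruent to `1` modulo `P ^ (2n+2)` are trivial in `C_S(K) / H`. -/
theorem cl_unit_eq_zero {n : ℕ} (hn : 0 < n) (H : AddSubgroup (CS S K))
    (hpow : ∀ c : CS S K, n • c ∈ H) (u : (AS S K)ˣ) (r : RS S K)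
    (hu : (u : AS S K) = 1 + ((PS S : ℕ) : AS S K) ^ (2 * n + 2) * phi S K r) :
    _root_.Fermat.Agent.S55.H963.Br.cl H (Additive.ofMul u, 0) = 0 := by
  obtain ⟨y, hy⟩ := exists_pow_eq_AS S K hn r
  rw [← hu] at hy
  have hyu : IsUnit y := (isUnit_pow_iff hn.ne').mp (hy ▸ u.isUnit)
  obtain ⟨yu, rfl⟩ := hyu
  have h1 : yu ^ n = u := Units.ext (by rw [Units.val_pow_eq_pow_val, hy])
  have h2 : ((Additive.ofMul u, 0) : JD S K) = n • ((Additive.ofMul yu, 0) : JD S K) := by
    refine Prod.ext ?_ ?_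
    · show Additive.ofMul u = n • Additive.ofMul yu
      rw [← h1]; rfl
    · show (0 : PrimeOut S K →₀ ℤ) = n • 0
      rw [smul_zero]
  rw [h2, map_nsmul]
  exact nsmul_cl H hpow _

variable (S K)

/-- The class map on ideals. -/
def psi (H : AddSubgroup (CS S K)) (I : Ideal (𝓞 K)) : Multiplicative (CS S K ⧸ H) :=
  open Classical in
  if I = ⊥ then 1 else Multiplicative.ofAdd (_root_.Fermat.Agent.S55.H963.Br.cl H (0, divS S K I))

variable {S K}

theorem psi_of_ne_bot (H : AddSubgroup (CS S K)) {I : Ideal (𝓞 K)} (hI : I ≠ ⊥) :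
    psi S K H I = Multiplicative.ofAdd (_root_.Fermat.Agent.S55.H963.Br.cl H (0, divS S K I)) := by
  unfold psi
  rw [if_neg hI]

theorem psi_bot (H : AddSubgroup (CS S K)) : psi S K H ⊥ = 1 := by
  unfold psi
  rw [if_pos rfl]

theorem ne_bot_of_isCoprime (hS : S.Nonempty) (n : ℕ) {I : Ideal (𝓞 K)}
    (hI : IsCoprime I (modulus S K n)) : I ≠ ⊥ := by
  rintro rfl
  rw [Ideal.isCoprime_iff_sup_eq, bot_sup_eq] at hI
  exact modulus_ne_top S K hS n hI

theorem cl_add_snd (H : AddSubgroup (CS S K)) (d d' : PrimeOut S K →₀ ℤ) :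
    _root_.Fermat.Agent.S55.H963.Br.cl H (0, d + d') = _root_.Fermat.Agent.S55.H963.Br.cl H (0, d) + _root_.Fermat.Agent.S55.H963.Br.cl H (0, d') := by
  rw [← map_add]
  congr 1
  exact Prod.ext (by simp) rfl

/-- The ray datum attached to `H`. -/
def datum (hS : S.Nonempty) {n : ℕ} (hn : 0 < n) (H : AddSubgroup (CS S K))
    (hpow : ∀ c : CS S K, n • c ∈ H) : RayDatum K (Multiplicative (CS S K ⧸ H)) where
  m := modulus S K n
  m_ne_bot := modulus_ne_bot S K n
  ψ := psi S K H
  map_mul I J hI hJ := by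
    have hI0 := ne_bot_of_isCoprime hS n hI
    have hJ0 := ne_bot_of_isCoprime hS n hJ
    have hIJ0 : I * J ≠ ⊥ := by
      rw [Ne, Ideal.mul_eq_bot]
      exact fun h => h.elim hI0 hJ0
    rw [psi_of_ne_bot H hI0, psi_of_ne_bot H hJ0, psi_of_ne_bot H hIJ0, divS_mul S K hI0 hJ0,
      cl_add_snd, ofAdd_add]
  map_principal x hx := by
    by_cases hx0 : x = 0
    · rw [hx0, Ideal.span_singleton_eq_bot.mpr rfl]
      exact psi_bot H
    have hxK : (x : K) ≠ 0 := by
      intro h
      apply hx0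
      exact_mod_cast h
    have hI : (Ideal.span {x} : Ideal (𝓞 K)) ≠ ⊥ := by
      rw [Ne, Ideal.span_singleton_eq_bot]; exact hx0
    rw [psi_of_ne_bot H hI, divS_span S K x hxK]
    -- `x = 1 + P ^ N z`
    obtain ⟨z, hz⟩ := Ideal.mem_span_singleton'.mp hx
    have hxz : x = 1 + ((PS S : ℕ) : 𝓞 K) ^ (2 * n + 2) * z := by
      have : x = 1 + (x - 1) := by ring
      rw [this, ← hz]; ring
    set xu : Kˣ := Units.mk0 (x : K) hxK with hxu
    set u : (AS S K)ˣ := Units.map ((asDiag S K : K →ₐ[ℚ] AS S K) : K →* AS S K) xu with hu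
    have hucoe : (u : AS S K) = 1 + ((PS S : ℕ) : AS S K) ^ (2 * n + 2) *
        phi S K ((1 : ZS S) ⊗ₜ[ℤ] z) := by
      have h1 : (u : AS S K) = asDiag S K (x : K) := rfl
      rw [h1, phi_tmul, AS.natCast_pow_tmul, asDiag_apply]
      have h2 : (x : K) = 1 + ((PS S : ℕ) : K) ^ (2 * n + 2) * (z : K) := by
        have := congrArg (algebraMap (𝓞 K) K) hxz
        simpa using this
      have h3 : zsToQs S 1 = 1 := map_one _
      rw [h3, mul_one]
      have h4 : ((z : K)) ⊗ₜ[ℚ] (((PS S : ℕ) : QS S) ^ (2 * n + 2)) =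
          ((((PS S : ℕ) : K) ^ (2 * n + 2) * (z : K))) ⊗ₜ[ℚ] (1 : QS S) := by
        have e1 : (((PS S : ℕ) : QS S) ^ (2 * n + 2)) =
            (((PS S : ℕ) : ℚ) ^ (2 * n + 2)) • (1 : QS S) := by
          rw [Algebra.smul_def, mul_one]; simp
        have e2 : (((PS S : ℕ) : K) ^ (2 * n + 2) * (z : K)) =
            (((PS S : ℕ) : ℚ) ^ (2 * n + 2)) • (z : K) := by
          rw [Algebra.smul_def]; simp
        rw [e1, e2, TensorProduct.smul_tmul]
      rw [h4, h2, TensorProduct.add_tmul]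
      rfl
    have hcl := cl_unit_eq_zero hn H hpow u _ hucoe
    have hdiag := cl_diag H (Additive.ofMul xu)
    have hsplit : ((0, ordHom S K (Additive.ofMul xu)) : JD S K) =
        diagHom S K (Additive.ofMul xu) - (Additive.ofMul u, 0) := by
      refine Prod.ext ?_ ?_
      · show (0 : Additive (AS S K)ˣ) = unitsDiag S K (Additive.ofMul xu) - Additive.ofMul u
        have : unitsDiag S K (Additive.ofMul xu) = Additive.ofMul u := rfl
        rw [this, sub_self]
      · show ordHom S K (Additive.ofMul xu) = ordHom S K (Additive.ofMul xu) - 0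
        rw [sub_zero]
    rw [hsplit, map_sub, hcl, hdiag, sub_zero]
    rfl

end Br

end Fermat.Agent.S55.H963

end
end
-- ===== PACK-END S55/H963/BrDatum.lean

-- ===== PACK-BEGIN S55/G/CM/Assembly.lean
section
/-
S55 / layer G / block CM (sub-architect helper893) — ASSEMBLY.

* `topOrder_of`     : the leaves of `G/CM/Spec.lean` + `TOW.Gd1Spec` ⇒ `TopOrderSpec`;
* `pClassModule_of` : `G.PClassUpperSpec` + `TopOrderSpec` ⇒ `G.PClassModuleSpec`.
NO sorry.
-/


set_option autoImplicit false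
set_option linter.unusedSectionVars false
set_option linter.style.haveILetI false

open CategoryTheory groupCohomology
open scoped NumberField

noncomputable section

namespace Fermat.Agent.S55.G.CM

open Fermat.Agent.S55 Fermat.Agent.S55.Tow Fermat.Agent.S55.E1.H594 Fermat.Agent.S55.G
open Fermat.Agent.S55.G.Rec

/-- A finite abelian group of order dividing `m` with an element of order at least `m` is cyclic
of order `m`. -/
theorem nonempty_addEquiv_zmod_of_order {A : Type} [AddCommGroup A] [Finite A] {m : ℕ}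
    (hm : Nat.card A ∣ m) (y : A) (hy : ∀ n : ℕ, n • y = 0 → m ∣ n) :
    Nonempty (A ≃+ ZMod m) := by
  have h1 : m ∣ addOrderOf y := hy _ (addOrderOf_nsmul_eq_zero y)
  have h2 : addOrderOf y ∣ Nat.card A := addOrderOf_dvd_natCard y
  have h3 : addOrderOf y = Nat.card A :=
    Nat.dvd_antisymm h2 (hm.trans h1)
  have h4 : Nat.card A = m := Nat.dvd_antisymm hm (h1.trans h2)
  have hc : IsAddCyclic A := isAddCyclic_of_addOrderOf_eq_card y h3
  exact ⟨(h4 ▸ (zmodAddCyclicAddEquiv hc)).symm⟩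

/-- **G-CM:TOP** from the leaves. -/
theorem topOrder_of (hGd1 : ∀ p : ℕ, TOW.Gd1Spec p) (hGCL : ClosureLevelSpec)
    (hSub : SubClassModuleSpec) (hOrd : QuotOrderSpec) (hDesc : DescInclSpec)
    (hSInd : SIndTopSpec) : TopOrderSpec := by
  intro p hp hp2 S G L _ _ _ _ _ _ hpS hG hunr hζ
  obtain ⟨S', hSS', M, Γ', π, φ, hπ, hequiv, hfix⟩ := hGCL S G L
  have hpS' : (⟨p, hp.out⟩ : Nat.Primes) ∈ S' := hSS' hpS
  -- `μ_p ⊂ M`
  have hMu : M.HasMu p := by
    obtain ⟨ζ, hζ, -⟩ := hζ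
    refine ⟨((φ ζ : M.F) : Qbar), (φ ζ).2, ?_⟩
    have h1 : IsPrimitiveRoot (φ ζ) p := hζ.map_of_injective φ.injective
    exact h1.map_of_injective (f := M.F.val) Subtype.val_injective
  -- the class module at `p` on `Gal(M/ℚ)` and on `Γ'`
  obtain ⟨γ, hγ⟩ := hGd1 p S' hp.out hp2 hpS' M hMu
  have hγ' := hSub p M.Gal (TOW.lvlC M) γ hγ Γ'
  -- descent
  haveI : FaithfulSMul ↥Γ' M.F := level_faithfulSMul_subgroup M Γ'
  obtain ⟨ι, hι⟩ := hDesc S' ↥Γ' G M.F L π φ hπ ⟨_, hpS'⟩ (level_isUnramOut_subgroup M Γ')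
    hequiv hfix
  -- the class of order `|G|` in `H²(G, C_{S'}(L))`
  obtain ⟨y', hy'⟩ := hOrd p hp.out ↥Γ' G π hπ hG (CRep S' G L) (CRep S' ↥Γ' M.F) ι hι
    (TOW.res2 (TOW.lvlC M) Γ' γ) hγ'
  -- independence of `S`
  obtain ⟨y, hy⟩ := hSInd S S' hSS' G L ⟨_, hpS⟩ hunr y'
  exact ⟨y, fun n hn => hy' n (hy n hn)⟩

/-- **G-CM** (`G.PClassModuleSpec`) from the upper bound and `TopOrderSpec`. -/
theorem pClassModule_of (hUp : PClassUpperSpec) (hTop : TopOrderSpec) : PClassModuleSpec := by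
  intro p hp hp2 S G L _ _ _ _ _ _ hpS hG hunr hζ H
  obtain ⟨h1, hfin, hdvd⟩ := hUp p hp2 S G L hpS hG hunr hζ H
  refine ⟨h1, ?_⟩
  have hunrH : IsUnramOut S H L := fun w hw g hg x => hunr w hw (g : G) hg x
  have hζH : HasFixedRootOfUnity p H L := by
    obtain ⟨ζ, h1, h2⟩ := hζ
    exact ⟨ζ, h1, fun g => h2 (g : G)⟩
  obtain ⟨y, hy⟩ := hTop p hp2 S H L hpS (hG.to_subgroup H) hunrH hζH
  haveI := hfin
  exact nonempty_addEquiv_zmod_of_order (A := groupCohomology (T.resSub (CRep S G L) H) 2)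
    hdvd y hy

/-- **G-CM**, full assembly. -/
theorem pClassModule_of_leaves (hUp : PClassUpperSpec) (hGd1 : ∀ p : ℕ, TOW.Gd1Spec p)
    (hGCL : ClosureLevelSpec) (hSub : SubClassModuleSpec) (hOrd : QuotOrderSpec)
    (hDesc : DescInclSpec) (hSInd : SIndTopSpec) : PClassModuleSpec :=
  pClassModule_of hUp (topOrder_of hGd1 hGCL hSub hOrd hDesc hSInd)

end Fermat.Agent.S55.G.CM

end
end
-- ===== PACK-END S55/G/CM/Assembly.lean

-- ===== PACK-BEGIN S55/G/CM/H893/Closure.lean
section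
/-
S55 / layer G / block CM, leaf GCL (helper893): the Galois-closure level.

`closureLevel : ClosureLevelSpec`: for a finite group `G` acting faithfully on a number field `L`
there are `S' ⊇ S`, a Tower level `M` of `S'`, a subgroup `Γ' ≤ Gal(M/ℚ)`, a surjection
`π : Γ' ↠ G` and an embedding `φ : L → M`, equivariant along `π`, with image the fixed field of
`ker π`.

Construction: `ψ : L → ℚ̄` any embedding, `M ⊇ ψ(L)` finite Galois over `ℚ`, unramified outside
`S' ⊇ S` (`Bridge.exists_galois_ge_isUnramifiedOutside`);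
`Γ' := {q ∈ Gal(M/ℚ) | ∃ g ∈ G, ∀ x, q • φ x = φ (g • x)}`, `π q :=` this (unique) `g`.
-/



set_option autoImplicit false
set_option linter.unusedSectionVars false
set_option linter.style.haveILetI false

open CategoryTheory
open scoped NumberField

noncomputable section

namespace Fermat.Agent.S55.G.CM.H893

open Fermat.Agent.S55 Fermat.Agent.S55.Tow Fermat.Agent.S55.E1.H594 Fermat.Agent.S55.G
open Fermat.Agent.S55.Bridge

attribute [local instance] isAlgebraic_Qbar isGalois_Qbar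

section Ext

variable (G L : Type) [Group G] [Field L] [NumberField L] [MulSemiringAction G L]

/-- Every element of `G` is induced, through an embedding `ψ : L → ℚ̄`, by an automorphism of
`ℚ̄`. -/
theorem exists_aut_extending (ψ : L →ₐ[ℚ] Qbar) (g : G) :
    ∃ σ : _root_.Fermat.Agent.S55.Tow.GQ, ∀ x : L, σ (ψ x) = ψ (g • x) := by
  let e : L ≃ₐ[ℚ] ψ.fieldRange := AlgEquiv.ofInjectiveField ψ
  let χ : ψ.fieldRange ≃ₐ[ℚ] ψ.fieldRange := (e.symm.trans (fieldAut G L g)).trans e
  refine ⟨χ.liftNormal Qbar, fun x => ?_⟩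
  have h1 := AlgEquiv.liftNormal_commutes χ Qbar (e x)
  have h2 : algebraMap ψ.fieldRange Qbar (e x) = ψ x := rfl
  have h3 : χ (e x) = e (g • x) := by
    show e (fieldAut G L g (e.symm (e x))) = e (g • x)
    rw [AlgEquiv.symm_apply_apply, fieldAut_apply]
  rw [h2, h3] at h1
  exact h1

end Ext

section Main

variable (S : Finset Nat.Primes) (G L : Type) [Group G] [Finite G] [Field L] [NumberField L]
  [MulSemiringAction G L] [FaithfulSMul G L]

variable {S' : Finset Nat.Primes} (M : Level S') (φ : L →+* M.F)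

/-- The subgroup of `Gal(M/ℚ)` of the elements acting on `φ(L)` through `G`. -/
def gammaSub : Subgroup M.Gal where
  carrier := {q | ∃ g : G, ∀ x : L, q • φ x = φ (g • x)}
  one_mem' := ⟨1, fun x => by rw [one_smul, one_smul]⟩
  mul_mem' := by
    rintro a b ⟨g, hg⟩ ⟨h, hh⟩
    exact ⟨g * h, fun x => by rw [mul_smul, hh, hg, mul_smul]⟩
  inv_mem' := by
    rintro a ⟨g, hg⟩
    refine ⟨g⁻¹, fun x => ?_⟩
    have := hg (g⁻¹ • x)
    rw [smul_inv_smul] at this
    rw [← this, inv_smul_smul]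

variable {G L M φ} in
theorem eq_of_forall_smul {g h : G} (hgh : ∀ x : L, φ (g • x) = φ (h • x)) : g = h :=
  FaithfulSMul.eq_of_smul_eq_smul (α := L) fun x => φ.injective (hgh x)

/-- The element of `G` through which `q ∈ Γ'` acts. -/
def piFun (q : gammaSub G L M φ) : G := q.2.choose

theorem piFun_spec (q : gammaSub G L M φ) (x : L) :
    (q : M.Gal) • φ x = φ (piFun G L M φ q • x) := q.2.choose_spec x

theorem piFun_eq (q : gammaSub G L M φ) (g : G) (h : ∀ x : L, (q : M.Gal) • φ x = φ (g • x)) :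
    piFun G L M φ q = g :=
  eq_of_forall_smul fun x => by rw [← piFun_spec, h]

/-- The homomorphism `π : Γ' → G`. -/
def piHom : gammaSub G L M φ →* G where
  toFun := piFun G L M φ
  map_one' := piFun_eq G L M φ 1 1 fun x => by
    rw [one_smul]; exact one_smul M.Gal (φ x)
  map_mul' a b := piFun_eq G L M φ (a * b) _ fun x => by
    rw [mul_smul, ← piFun_spec, ← piFun_spec]
    exact mul_smul (a : M.Gal) (b : M.Gal) (φ x)

theorem piHom_spec (q : gammaSub G L M φ) (x : L) :
    φ (piHom G L M φ q • x) = q • φ x := (piFun_spec G L M φ q x).symm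

end Main

section Core

variable (G L : Type) [Group G] [Finite G] [Field L] [NumberField L]
  [MulSemiringAction G L] [FaithfulSMul G L]
variable {S' : Finset Nat.Primes} (M : Level S') (ψ : L →ₐ[ℚ] Qbar) (hle : ∀ x : L, ψ x ∈ M.F)

/-- The embedding `L → M.F` induced by `ψ`. -/
def phiHom : L →+* M.F where
  toFun := fun x => ⟨ψ x, hle x⟩
  map_one' := Subtype.ext (map_one ψ)
  map_mul' := fun x y => Subtype.ext (map_mul ψ x y)
  map_zero' := Subtype.ext (map_zero ψ)
  map_add' := fun x y => Subtype.ext (map_add ψ x y)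

theorem coe_phiHom (x : L) : ((phiHom L M ψ hle x : M.F) : Qbar) = ψ x := rfl

theorem mk_smul_phiHom (σ : _root_.Fermat.Agent.S55.Tow.GQ) (x : L) :
    (((QuotientGroup.mk σ : M.Gal) • phiHom L M ψ hle x : M.F) : Qbar) = σ (ψ x) :=
  level_mk_smul M σ (phiHom L M ψ hle x)

theorem mk_mem_gammaSub (σ : _root_.Fermat.Agent.S55.Tow.GQ) (g : G) (hσ : ∀ x : L, σ (ψ x) = ψ (g • x)) :
    (QuotientGroup.mk σ : M.Gal) ∈ gammaSub G L M (phiHom L M ψ hle) :=
  ⟨g, fun x => Subtype.ext (by rw [mk_smul_phiHom, coe_phiHom, hσ])⟩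

theorem piHom_mk (σ : _root_.Fermat.Agent.S55.Tow.GQ) (g : G) (hσ : ∀ x : L, σ (ψ x) = ψ (g • x)) :
    piHom G L M (phiHom L M ψ hle) ⟨_, mk_mem_gammaSub G L M ψ hle σ g hσ⟩ = g :=
  piFun_eq G L M _ _ g fun x => Subtype.ext (by
    show (((QuotientGroup.mk σ : M.Gal) • phiHom L M ψ hle x : M.F) : Qbar) = _
    rw [mk_smul_phiHom, coe_phiHom, hσ])

theorem piHom_surjective : Function.Surjective (piHom G L M (phiHom L M ψ hle)) := by
  intro g
  obtain ⟨σ, hσ⟩ := exists_aut_extending G L ψ g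
  exact ⟨⟨_, mk_mem_gammaSub G L M ψ hle σ g hσ⟩, piHom_mk G L M ψ hle σ g hσ⟩

theorem mem_range_phiHom (y : M.F)
    (hy : ∀ n : gammaSub G L M (phiHom L M ψ hle),
      piHom G L M (phiHom L M ψ hle) n = 1 → n • y = y) :
    y ∈ Set.range (phiHom L M ψ hle) := by
  have hyF : (y : Qbar) ∈ ψ.fieldRange := by
    rw [← InfiniteGalois.fixedField_fixingSubgroup ψ.fieldRange,
      IntermediateField.mem_fixedField_iff]
    intro σ hσ
    have hσ' : ∀ x : L, σ (ψ x) = ψ ((1 : G) • x) := fun x => by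
      rw [one_smul]
      exact (IntermediateField.mem_fixingSubgroup_iff ψ.fieldRange σ).1 hσ _ ⟨x, rfl⟩
    have h1 := hy ⟨_, mk_mem_gammaSub G L M ψ hle σ 1 hσ'⟩ (piHom_mk G L M ψ hle σ 1 hσ')
    have h2 := congrArg (fun t : M.F => (t : Qbar)) h1
    have h3 : (((QuotientGroup.mk σ : M.Gal) • y : M.F) : Qbar) = σ (y : Qbar) :=
      level_mk_smul M σ y
    exact h3.symm.trans h2
  obtain ⟨x, hx⟩ := hyF
  exact ⟨x, Subtype.ext hx⟩

end Core

/-- **G-CM:GCL.** -/
theorem closureLevel : ClosureLevelSpec := by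
  intro S G L _ _ _ _ _ _
  -- an embedding of `L` in `ℚ̄`
  haveI : Algebra.IsAlgebraic ℚ L := Algebra.IsAlgebraic.of_finite ℚ L
  let ψ : L →ₐ[ℚ] Qbar := IsAlgClosed.lift
  have hF₀ : FiniteDimensional ℚ ψ.fieldRange :=
    (AlgEquiv.ofInjectiveField ψ).toLinearEquiv.finiteDimensional
  obtain ⟨S', M₀, hSS', hunr, hgal, hle⟩ :=
    exists_galois_ge_isUnramifiedOutside S ψ.fieldRange hF₀
  obtain ⟨M, hM⟩ : ∃ M : Level S', M.F = M₀ :=
    ⟨⟨M₀, hunr, (InfiniteGalois.normal_iff_isGalois M₀).2 hgal⟩, rfl⟩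
  have hle' : ∀ x : L, ψ x ∈ M.F := fun x => hM ▸ hle ⟨x, rfl⟩
  exact ⟨S', hSS', M, gammaSub G L M (phiHom L M ψ hle'), piHom G L M (phiHom L M ψ hle'),
    phiHom L M ψ hle', piHom_surjective G L M ψ hle', piHom_spec G L M _,
    mem_range_phiHom G L M ψ hle'⟩

end Fermat.Agent.S55.G.CM.H893

end
end
-- ===== PACK-END S55/G/CM/H893/Closure.lean

-- ===== PACK-BEGIN S55/G/CM/H954/Ord.lean
section






/-!
# S55 / G-CM:ORD (helper954): `quotOrder : QuotOrderSpec`

`π : Γ' ↠ Γ`, `Γ` a `p`-group, `C = C'^{ker π}`, `(C', γ)` a class module at `p`.  Then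
`Y = |ker π| • γ` is killed by `|Γ|`, dies on `ker π` and has order `|Γ|`; by the `p`-local
inflation–restriction sequence (helper244) it is inflated from `y ∈ H²(Γ, C)` (comparison
isomorphism of helper953), and `y` has order (at least) `|Γ|`.
-/

set_option autoImplicit false
set_option linter.unusedSectionVars false
set_option linter.style.haveILetI false

open CategoryTheory groupCohomology

namespace Fermat.Agent.S55.G.CM.H954

open Fermat.Agent.S55 Fermat.Agent.S55.G.Rec

/-- **G-CM:ORD.** -/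
theorem quotOrder : QuotOrderSpec := by
  intro p hp Γ' Γ _ _ _ π hπ hΓ C C' ι hι γ hγ
  classical
  haveI : Fact p.Prime := ⟨hp⟩
  haveI : Finite Γ := Finite.of_surjective π hπ
  -- a Sylow subgroup `Q` of `N = ker π` and a Sylow subgroup `P'` of `Γ'`
  obtain ⟨Q⟩ : Nonempty (Sylow p π.ker) := inferInstance
  obtain ⟨P'⟩ : Nonempty (Sylow p Γ') := inferInstance
  -- cardinalities
  have hcard : Nat.card Γ' = Nat.card π.ker * Nat.card Γ := by
    rw [← Nat.card_congr (QuotientGroup.quotientKerEquivOfSurjective π hπ).toEquiv, mul_comm]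
    exact Subgroup.card_eq_card_quotient_mul_card_subgroup π.ker
  obtain ⟨c, hc⟩ := hΓ.exists_card_eq
  -- `H¹(Q, C') = 0`
  have hQ : ∀ z : groupCohomology (T.resSub (T.resSub C' π.ker) (Q : Subgroup π.ker)) 1, z = 0 := by
    intro z
    have hz1 := (hγ ((Q : Subgroup π.ker).map π.ker.subtype) (Q.isPGroup'.map _)).1
    exact T.H954.eq_zero_of_iso_of_isZero (T.H954.resResIso C' π.ker (Q : Subgroup π.ker) 1) hz1 z
  have hcop : (Nat.card Γ).Coprime (Q : Subgroup π.ker).index := by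
    rw [hc]
    exact Nat.Coprime.pow_left c ((Nat.Prime.coprime_iff_not_dvd hp).2 Q.not_dvd_index)
  -- the class `Y`
  set Y : groupCohomology C' 2 := Nat.card π.ker • γ with hY
  have hY1 : Nat.card Γ • Y = 0 := by
    rw [hY, ← mul_nsmul', mul_comm, ← hcard] 
    exact T.H572.cardTorsion ℤ Γ' C' 2 (by norm_num) γ
  have hY2 : (T.resMap C' π.ker 2).hom Y = 0 := by
    rw [hY, map_nsmul]
    exact T.H572.cardTorsion ℤ π.ker (T.resSub C' π.ker) 2 (by norm_num) _
  obtain ⟨y₀, hy₀⟩ := (T.H244.infRes2_of_subgroup C' π.ker (Q : Subgroup π.ker) hQ hcop).2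
    Nat.card_pos Y hY1 hY2
  -- transport to `H²(Γ, C)`
  have hfac := GAD.H953.map_eq_compIso_infMap π C' C ι hπ hι.1 hι.2 2
  refine ⟨(GAD.H953.compIso π C' C ι hπ hι.1 hι.2 2).inv.hom y₀, fun n hn => ?_⟩
  have hmap : (groupCohomology.map π ι 2).hom
      ((GAD.H953.compIso π C' C ι hπ hι.1 hι.2 2).inv.hom y₀) = Y := by
    rw [hfac]
    show (T.infMap C' π.ker 2).hom ((GAD.H953.compIso π C' C ι hπ hι.1 hι.2 2).hom.hom
      ((GAD.H953.compIso π C' C ι hπ hι.1 hι.2 2).inv.hom y₀)) = Y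
    have hid : (GAD.H953.compIso π C' C ι hπ hι.1 hι.2 2).hom.hom
        ((GAD.H953.compIso π C' C ι hπ hι.1 hι.2 2).inv.hom y₀) = y₀ := by
      simp
    rw [hid, hy₀]
  have hnY : n • Y = 0 := by
    rw [← hmap, ← map_nsmul, hn, map_zero]
  -- the order of `Y`, via the Sylow subgroup `P'`
  obtain ⟨-, hcardP, hgenP⟩ := hγ (P' : Subgroup Γ') P'.isPGroup'
  set g₀ := (T.resMap C' (P' : Subgroup Γ') 2).hom γ with hg₀
  haveI hfin : Finite (groupCohomology (T.resSub C' (P' : Subgroup Γ')) 2) :=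
    Nat.finite_of_card_ne_zero (by rw [hcardP]; exact Nat.card_pos.ne')
  have hord : addOrderOf g₀ = Nat.card (P' : Subgroup Γ') := by
    rw [← hcardP]
    apply addOrderOf_eq_card_of_forall_mem_zmultiples
    intro x
    obtain ⟨m, hm⟩ := hgenP x
    rw [hm]
    exact AddSubgroup.nsmul_mem _ (AddSubgroup.mem_zmultiples g₀) m
  have h1 : (n * Nat.card π.ker) • g₀ = 0 := by
    have hX : (n * Nat.card π.ker) • γ = n • Y := by
      rw [hY, mul_nsmul]
      exact smul_comm _ _ _
    rw [hg₀, ← map_nsmul, hX, hnY, map_zero]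
  have h2 : Nat.card (P' : Subgroup Γ') ∣ n * Nat.card π.ker := by
    rw [← hord]
    exact addOrderOf_dvd_of_nsmul_eq_zero h1
  -- arithmetic
  have h3 : Nat.card (P' : Subgroup Γ') * (P' : Subgroup Γ').index = Nat.card Γ' :=
    (P' : Subgroup Γ').card_mul_index
  have h4 : Nat.card Γ * Nat.card π.ker ∣ (n * (P' : Subgroup Γ').index) * Nat.card π.ker := by
    have : Nat.card Γ * Nat.card π.ker = Nat.card (P' : Subgroup Γ') * (P' : Subgroup Γ').index := by
      rw [h3, hcard, mul_comm]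
    rw [this]
    have h5 : Nat.card (P' : Subgroup Γ') * (P' : Subgroup Γ').index ∣
        (n * Nat.card π.ker) * (P' : Subgroup Γ').index := Nat.mul_dvd_mul_right h2 _
    have h6 : n * Nat.card π.ker * (P' : Subgroup Γ').index
        = n * (P' : Subgroup Γ').index * Nat.card π.ker := by ring
    rwa [h6] at h5
  have h7 : Nat.card Γ ∣ n * (P' : Subgroup Γ').index :=
    Nat.dvd_of_mul_dvd_mul_right Nat.card_pos h4
  have h8 : (Nat.card Γ).Coprime (P' : Subgroup Γ').index := by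
    rw [hc]
    exact Nat.Coprime.pow_left c ((Nat.Prime.coprime_iff_not_dvd hp).2 P'.not_dvd_index)
  exact h8.dvd_of_dvd_mul_right h7

end Fermat.Agent.S55.G.CM.H954

end
-- ===== PACK-END S55/G/CM/H954/Ord.lean

-- ===== PACK-BEGIN S55/L/UnrInv/Main.lean
section



/-!
# S55, layer L: the invariant maps of unramified extensions (`UnrInvSpec`)

`unrInv_of : RingOfIntegersUniqueSpec → FiniteExtSpec → UnramifiedCyclicSpec → H2CyclicSpec →
  IntegersComapSpec → UnramifiedInertiaSpec → ResidueDegreeSpec → Inv481.UnrInvSpec`.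

Definition: for `E/K` unramified with Frobenius `φ`, `n = [E : K]`, and a 2-cocycle `c`,
`inv [c] = ord_E (∏_{i<n} c (φ^i, φ)) / n  mod ℤ`.
-/

set_option autoImplicit false
set_option linter.style.haveILetI false

namespace Fermat.Agent.S55.L.UnrInv

open groupCohomology

section

variable (h0 : RingOfIntegersUniqueSpec) (h1 : FiniteExtSpec) (hcyc : UnramifiedCyclicSpec)
  (hint : IntegersComapSpec) (hin : UnramifiedInertiaSpec)

/-- the chosen package of an unramified extension -/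
noncomputable def chosenPack (K E : Type) [Field K] [Field E] [Algebra K E]
    [FiniteDimensional K E] [IsLocalFld K] (hu : IsUnramifiedExt K E) : UnrPack K E :=
  Classical.choice (exists_unrPack h0 h1 hcyc hint hin hu)

open Classical in
/-- The invariant map of an unramified extension (zero if the extension is not unramified). -/
noncomputable def unrInvMap (K E : Type) [Field K] [Field E] [Algebra K E]
    [FiniteDimensional K E] [IsGalois K E] [IsLocalFld K] :
    H2 (unitsRep K E) →+ AddCircle (1 : ℚ) :=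
  if hu : IsUnramifiedExt K E then (chosenPack h0 h1 hcyc hint hin K E hu).inv else 0

theorem unrInvMap_eq (K E : Type) [Field K] [Field E] [Algebra K E]
    [FiniteDimensional K E] [IsGalois K E] [IsLocalFld K] (hu : IsUnramifiedExt K E) :
    unrInvMap h0 h1 hcyc hint hin K E = (chosenPack h0 h1 hcyc hint hin K E hu).inv := by
  unfold unrInvMap
  rw [dif_pos hu]

end

/-- **L-NR+BC** the invariant maps of unramified extensions, with base change, transport and
normalisation. -/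
theorem unrInv_of (h0 : RingOfIntegersUniqueSpec) (h1 : FiniteExtSpec)
    (hcyc : UnramifiedCyclicSpec) (h2 : H2CyclicSpec) (hint : IntegersComapSpec)
    (hin : UnramifiedInertiaSpec) (hres : ResidueDegreeSpec) : Inv481.UnrInvSpec :=
  ⟨{ inv := fun K E _ _ _ _ _ _ => unrInvMap h0 h1 hcyc hint hin K E
     inv_injective := by
      intro K E _ _ _ _ _ _ hu
      rw [unrInvMap_eq h0 h1 hcyc hint hin K E hu]
      exact (chosenPack h0 h1 hcyc hint hin K E hu).inv_injective h0 h1 h2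
     inv_baseChange := by
      intro K K' E E' _ _ _ _ _ _ _ _ _ _ _ _ _ _ _ _ _ _ hu hu' c c' hbc
      rw [unrInvMap_eq h0 h1 hcyc hint hin K E hu, unrInvMap_eq h0 h1 hcyc hint hin K' E' hu']
      exact inv_baseChange h1 hint hres _ _ c c' hbc
     inv_transport := by
      intro K E K' E' _ _ _ _ _ _ _ _ _ _ _ _ hu hu' e c hc f f' hf
      rw [unrInvMap_eq h0 h1 hcyc hint hin K E hu, unrInvMap_eq h0 h1 hcyc hint hin K' E' hu']
      exact inv_transport h1 hint hres _ _ e c hc f f' hf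
     inv_unramified := by
      intro K E _ _ _ _ _ _ hu A hA φ hφ π hπ f hf
      rw [unrInvMap_eq h0 h1 hcyc hint hin K E hu]
      exact (chosenPack h0 h1 hcyc hint hin K E hu).inv_cyclic h0 h1 A hA φ hφ π hπ f hf }⟩

end Fermat.Agent.S55.L.UnrInv

end
-- ===== PACK-END S55/L/UnrInv/Main.lean

-- ===== PACK-BEGIN S56/H614/LinFunInst.lean
section


/-!
# S56 / W-BASE / EUL-RED, part 4 (helper614): the four functors and the Euler characteristic
of `ker (M ⊗ T - 1)`

* `H0F`, `H1F L`, `H2F L`, `minusF c : LinFun k G`;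
* `phi_kerRep_matOp`: for an equivariant `T` on `X` with `T ^ n = 1`, a matrix `M` with
  `M ^ n = 1`, `n ≠ 0` in `k`:
  `φ (ker (M ⊗ T - 1) ⊆ X^J) = d(H⁰ T) − d(H¹ T) + d(H² T) + d(T | X^{c=-1})`, where
  `d(S) = dim ker (M ⊗ S - 1)`.
-/

set_option autoImplicit false
set_option linter.unusedSectionVars false

noncomputable section

namespace Fermat.Agent.S56.H614

open Fermat.Agent.S55.PT Fermat.Agent.S56.H419 groupCohomology Module

variable {k : Type} [Field k] {G : Type} [Group G]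

/-- `H⁰` as a linear functor. -/
def H0F : LinFun k G where
  obj A := ↥(LevelSys.H0 A)
  map φ hφ := pushH0 φ hφ
  map_id _ _ := by
    apply LinearMap.ext
    intro x
    rfl
  map_comp _ _ _ _ _ := by
    apply LinearMap.ext
    intro x
    rfl
  map_add _ _ _ _ _ := by
    apply LinearMap.ext
    intro x
    rfl
  map_smul _ _ _ _ := by
    apply LinearMap.ext
    intro x
    rfl

/-- `H¹_L` as a linear functor. -/
def H1F (L : LevelSys G) : LinFun k G where
  obj A := L.H1 A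
  map φ hφ := pushH1 φ hφ L
  map_id A _ := by
    apply LinearMap.ext
    intro x
    obtain ⟨c, rfl⟩ := L.H1π_surjective A x
    rfl
  map_comp {A _ _} _ _ _ _ _ := by
    apply LinearMap.ext
    intro x
    obtain ⟨c, rfl⟩ := L.H1π_surjective A x
    rfl
  map_add {A B} φ ψ hφ hψ h := by
    apply LinearMap.ext
    intro x
    obtain ⟨c, rfl⟩ := L.H1π_surjective A x
    rw [LinearMap.add_apply, pushH1_mk, pushH1_mk, pushH1_mk, ← map_add]
    rfl
  map_smul {A B} a φ hφ h := by
    apply LinearMap.ext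
    intro x
    obtain ⟨c, rfl⟩ := L.H1π_surjective A x
    rw [LinearMap.smul_apply, pushH1_mk, pushH1_mk, ← map_smul]
    rfl

/-- `H²_L` as a linear functor. -/
def H2F (L : LevelSys G) : LinFun k G where
  obj A := L.H2 A
  map φ hφ := pushH2 φ hφ L
  map_id A _ := by
    apply LinearMap.ext
    intro x
    obtain ⟨c, rfl⟩ := L.H2π_surjective A x
    rfl
  map_comp {A _ _} _ _ _ _ _ := by
    apply LinearMap.ext
    intro x
    obtain ⟨c, rfl⟩ := L.H2π_surjective A x
    rfl
  map_add {A B} φ ψ hφ hψ h := by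
    apply LinearMap.ext
    intro x
    obtain ⟨c, rfl⟩ := L.H2π_surjective A x
    rw [LinearMap.add_apply, pushH2_mk, pushH2_mk, pushH2_mk, ← map_add]
    rfl
  map_smul {A B} a φ hφ h := by
    apply LinearMap.ext
    intro x
    obtain ⟨c, rfl⟩ := L.H2π_surjective A x
    rw [LinearMap.smul_apply, pushH2_mk, pushH2_mk, ← map_smul]
    rfl

/-- an equivariant map preserves the `(-1)`-eigenspaces of `c` -/
lemma map_mem_minusPart (c : G) {A B : Rep.{0, 0, 0} k G} (φ : A →ₗ[k] B)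
    (hφ : IsEquivariant φ) (a : A) (ha : a ∈ minusPart c A) : φ a ∈ minusPart c B := by
  rw [mem_minusPart] at ha ⊢
  rw [← hφ c a, ha, map_neg]

/-- the map induced on the `(-1)`-eigenspaces of `c` -/
def minusMap (c : G) {A B : Rep.{0, 0, 0} k G} (φ : A →ₗ[k] B) (hφ : IsEquivariant φ) :
    ↥(minusPart c A) →ₗ[k] ↥(minusPart c B) :=
  φ.restrict (map_mem_minusPart c φ hφ)

@[simp] lemma coe_minusMap (c : G) {A B : Rep.{0, 0, 0} k G} (φ : A →ₗ[k] B)
    (hφ : IsEquivariant φ) (a : ↥(minusPart c A)) : (minusMap c φ hφ a : B) = φ a := rfl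

/-- `N ↦ N^{c = -1}` as a linear functor. -/
def minusF (c : G) : LinFun k G where
  obj A := ↥(minusPart c A)
  map φ hφ := minusMap c φ hφ
  map_id _ _ := by
    apply LinearMap.ext
    intro x
    rfl
  map_comp _ _ _ _ _ := by
    apply LinearMap.ext
    intro x
    rfl
  map_add _ _ _ _ _ := by
    apply LinearMap.ext
    intro x
    rfl
  map_smul _ _ _ _ := by
    apply LinearMap.ext
    intro x
    rfl

/-- `d_M(S) = dim ker (M ⊗ S - 1)` -/
def dimFix {J : Type} [Fintype J] [DecidableEq J] (M : Matrix J J k) {V : Type}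
    [AddCommGroup V] [Module k V] (S : V →ₗ[k] V) : ℕ :=
  finrank k ↥(LinearMap.ker (matOp M S - 1))

/-- **The Euler characteristic (with archimedean term) of `ker (M ⊗ T - 1)`.** -/
theorem phi_kerRep_matOp (L : LevelSys G) (c : G) {J : Type} [Fintype J] [DecidableEq J]
    {X : Rep.{0, 0, 0} k G} (M : Matrix J J k) (T : X →ₗ[k] X) (hT : IsEquivariant T)
    (n : ℕ) (hn : (n : k) ≠ 0) (hM : M ^ n = 1) (hTn : T ^ n = 1) :
    phi L c (kerRep (A := piRep J X) (B := piRep J X) (matOp M T - 1)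
      (isEquivariant_sub (matOp_equivariant J M hT) (isEquivariant_one _))) =
      (dimFix M (pushH0 T hT) : ℤ) - dimFix M (pushH1 T hT L) + dimFix M (pushH2 T hT L)
        + dimFix M (minusMap c T hT) := by
  have h0 := (H0F (k := k) (G := G)).finrank_kerRep_matOp J M T hT n hn hM hTn
  have h1 := (H1F (k := k) L).finrank_kerRep_matOp J M T hT n hn hM hTn
  have h2 := (H2F (k := k) L).finrank_kerRep_matOp J M T hT n hn hM hTn
  have h3 := (minusF (k := k) c).finrank_kerRep_matOp J M T hT n hn hM hTn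
  unfold phi eulerChar dimFix
  have e0 : finrank k ↥(LevelSys.H0 (kerRep (A := piRep J X) (B := piRep J X) (matOp M T - 1)
      (isEquivariant_sub (matOp_equivariant J M hT) (isEquivariant_one _)))) =
      finrank k ↥(LinearMap.ker (matOp M (pushH0 T hT) - 1)) := h0
  have e1 : finrank k (L.H1 (kerRep (A := piRep J X) (B := piRep J X) (matOp M T - 1)
      (isEquivariant_sub (matOp_equivariant J M hT) (isEquivariant_one _)))) =
      finrank k ↥(LinearMap.ker (matOp M (pushH1 T hT L) - 1)) := h1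
  have e2 : finrank k (L.H2 (kerRep (A := piRep J X) (B := piRep J X) (matOp M T - 1)
      (isEquivariant_sub (matOp_equivariant J M hT) (isEquivariant_one _)))) =
      finrank k ↥(LinearMap.ker (matOp M (pushH2 T hT L) - 1)) := h2
  have e3 : finrank k ↥(minusPart c (kerRep (A := piRep J X) (B := piRep J X) (matOp M T - 1)
      (isEquivariant_sub (matOp_equivariant J M hT) (isEquivariant_one _)))) =
      finrank k ↥(LinearMap.ker (matOp M (minusMap c T hT) - 1)) := h3
  rw [e0, e1, e2, e3]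

end Fermat.Agent.S56.H614

end

end
-- ===== PACK-END S56/H614/LinFunInst.lean

-- ===== PACK-BEGIN S56/H914/IntDVR.lean
section


/-!
# Row S56 — W-FLAT-SS, leaf INT (helper914), part 2: `A` and `B` are discrete valuation rings

`M : LocalModel p P`, `ν x = ‖M.ι x‖`.

* `valData_intA` : `ValData ν (intA P) p`  ⇒  `A` is a DVR with `𝔪_A = (p)`.
* `card_residueField_intA` : `#κ_A = p`.
* `exists_valData_intB` : `∃ ϖ, ValData ν (intB …) ϖ`  ⇒  `B` is a DVR, `(p) = 𝔪_B ^ e`.
-/

set_option autoImplicit false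
set_option linter.style.haveILetI false

open Polynomial IsLocalRing

noncomputable section

namespace Fermat.Agent.S56.H914

open Fermat.Agent.S56 Fermat.Agent.S56.H716 Fermat.Agent.S56.FL

section Nu

variable {p : ℕ} [Fact p.Prime] {P : ValuationSubring Qb} (M : LocalModel p P)

/-- The `p`-adic absolute value on `ℚ̄` attached to the local model. -/
def LocalModel.ν (x : Qb) : ℝ := ‖M.ι x‖

lemma LocalModel.ν_zero : M.ν 0 = 0 := by
  rw [LocalModel.ν, map_zero, norm_zero]

lemma LocalModel.ν_one : M.ν 1 = 1 := by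
  rw [LocalModel.ν, map_one, norm_one]

lemma LocalModel.ν_mul (x y : Qb) : M.ν (x * y) = M.ν x * M.ν y := by
  rw [LocalModel.ν, map_mul, norm_mul]
  rfl

lemma LocalModel.ν_pow (x : Qb) (n : ℕ) : M.ν (x ^ n) = M.ν x ^ n := by
  rw [LocalModel.ν, map_pow, norm_pow]
  rfl

lemma LocalModel.ν_inv (x : Qb) : M.ν x⁻¹ = (M.ν x)⁻¹ := by
  rw [LocalModel.ν, map_inv₀, norm_inv]
  rfl

lemma LocalModel.ν_div (x y : Qb) : M.ν (x / y) = M.ν x / M.ν y := by
  rw [LocalModel.ν, map_div₀, norm_div]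
  rfl

lemma LocalModel.ν_nonneg (x : Qb) : 0 ≤ M.ν x := norm_nonneg _

lemma LocalModel.ν_pos {x : Qb} (hx : x ≠ 0) : 0 < M.ν x := by
  rw [LocalModel.ν, norm_pos_iff]
  exact (map_ne_zero_iff _ M.ι_injective).mpr hx

lemma LocalModel.mem_iff_ν (x : Qb) : x ∈ P ↔ M.ν x ≤ 1 := M.mem_iff x

lemma LocalModel.ν_apply {σ : GQ} (hσ : σ ∈ P.decompositionSubgroup ℚ) (x : Qb) :
    M.ν (σ x) = M.ν x := by
  obtain ⟨τ, rfl⟩ := M.exists_Ψ_eq hσ
  rw [LocalModel.ν, M.ι_Ψ, LocalModel.norm_τ]
  rfl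

lemma LocalModel.ν_natCast_self : M.ν (p : Qb) = (p : ℝ)⁻¹ := by
  rw [LocalModel.ν, map_natCast]
  have h : ((p : ℕ) : PadicAlgCl p) = algebraMap ℚ_[p] (PadicAlgCl p) (p : ℚ_[p]) := by
    rw [map_natCast]
  rw [h, PadicAlgCl.norm_extends, Padic.norm_p]

lemma LocalModel.p_inv_pos : (0 : ℝ) < (p : ℝ)⁻¹ := by
  have hp : (p : ℕ).Prime := Fact.out
  have : (0 : ℝ) < p := by exact_mod_cast hp.pos
  positivity

lemma LocalModel.p_inv_lt_one : ((p : ℝ)⁻¹) < 1 := by
  have hp : (p : ℕ).Prime := Fact.out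
  have : (1 : ℝ) < p := by exact_mod_cast hp.one_lt
  exact inv_lt_one_of_one_lt₀ this

/-- An algebraic number fixed by `D_P` is `p`-adically rational. -/
lemma LocalModel.ι_mem_range_of_fixed {x : Qb}
    (hx : ∀ σ ∈ P.decompositionSubgroup ℚ, σ x = x) :
    ∃ a : ℚ_[p], M.ι x = algebraMap ℚ_[p] (PadicAlgCl p) a := by
  haveI := Fermat.Agent.S55.BLocal.isGalois_padicAlgCl p
  have hfix : M.ι x ∈ IntermediateField.fixedField
      (⊤ : Subgroup (PadicAlgCl p ≃ₐ[ℚ_[p]] PadicAlgCl p)) := by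
    rintro ⟨τ, -⟩
    show τ (M.ι x) = M.ι x
    rw [← M.ι_Ψ, hx _ (M.Ψ_mem τ)]
  rw [InfiniteGalois.fixedField_bot, IntermediateField.mem_bot] at hfix
  obtain ⟨a, ha⟩ := hfix
  exact ⟨a, ha.symm⟩

/-- The value of a nonzero `D_P`-fixed integral element is `p⁻ⁿ`. -/
lemma LocalModel.ν_eq_pow_of_fixed {x : Qb} (hx0 : x ≠ 0) (hxP : x ∈ P)
    (hx : ∀ σ ∈ P.decompositionSubgroup ℚ, σ x = x) :
    ∃ n : ℕ, M.ν x = ((p : ℝ)⁻¹) ^ n := by
  obtain ⟨a, ha⟩ := M.ι_mem_range_of_fixed hx
  have ha0 : a ≠ 0 := by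
    rintro rfl
    rw [map_zero] at ha
    exact hx0 (M.ι_injective (by rw [ha, map_zero]))
  have hν : M.ν x = ‖a‖ := by
    rw [LocalModel.ν, ha, PadicAlgCl.norm_extends]
  have hle : ‖a‖ ≤ 1 := by
    rw [← hν]
    exact (M.mem_iff_ν x).mp hxP
  have hval : 0 ≤ a.valuation := (Padic.norm_le_one_iff_val_nonneg a).mp hle
  refine ⟨a.valuation.toNat, ?_⟩
  rw [hν, Padic.norm_eq_zpow_neg_valuation ha0, inv_pow, ← zpow_natCast, Int.toNat_of_nonneg hval,
    zpow_neg]

end Nu

section DVRA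

variable {p : ℕ} [Fact p.Prime] {P : ValuationSubring Qb}

lemma natCast_mem_intA (n : ℕ) : (n : Qb) ∈ intA P := natCast_mem (intA P) n

lemma p_ne_zero_Qb : (p : Qb) ≠ 0 := by
  have hp : (p : ℕ).Prime := Fact.out
  exact_mod_cast hp.ne_zero

/-- The valuation data of `A = P ∩ ℚ̄^{D_P}`, uniformizer `p`. -/
theorem valData_intA (M : LocalModel p P) : ValData M.ν (intA P) (p : Qb) where
  map_zero := M.ν_zero
  map_mul := M.ν_mul
  pos := fun x hx => M.ν_pos hx
  le_one := fun x hx => (M.mem_iff_ν x).mp hx.1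
  inv_mem := by
    rintro x ⟨hxP, hx⟩ h1
    refine ⟨(M.mem_iff_ν _).mpr ?_, fun σ hσ => ?_⟩
    · rw [M.ν_inv, h1, inv_one]
    · rw [map_inv₀, hx σ hσ]
  ϖ_mem := natCast_mem_intA p
  ϖ_ne := p_ne_zero_Qb
  ϖ_lt := by
    rw [M.ν_natCast_self]
    exact LocalModel.p_inv_lt_one
  factor := by
    rintro x ⟨hxP, hx⟩ hx0
    obtain ⟨n, hn⟩ := M.ν_eq_pow_of_fixed hx0 hxP hx
    have hpn : (p : Qb) ^ n ≠ 0 := pow_ne_zero _ p_ne_zero_Qb
    have hu1 : M.ν (x / (p : Qb) ^ n) = 1 := by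
      rw [M.ν_div, M.ν_pow, M.ν_natCast_self, hn]
      exact div_self (pow_pos LocalModel.p_inv_pos n).ne'
    refine ⟨n, x / (p : Qb) ^ n, ⟨(M.mem_iff_ν _).mpr hu1.le, fun σ hσ => ?_⟩, hu1, ?_⟩
    · rw [map_div₀, hx σ hσ, map_pow, map_natCast]
    · field_simp

/-- `A` is a discrete valuation ring. -/
theorem isDiscreteValuationRing_intA (M : LocalModel p P) :
    IsDiscreteValuationRing (intA P) :=
  (valData_intA M).isDiscreteValuationRing

/-- `𝔪_A = (p)`. -/
theorem maximalIdeal_intA (M : LocalModel p P) :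
    haveI := isDiscreteValuationRing_intA M
    maximalIdeal (intA P) = Ideal.span {((p : ℕ) : intA P)} := by
  haveI := isDiscreteValuationRing_intA M
  have h := (valData_intA M).maximalIdeal_eq
  rw [h]
  rfl

/-- `#κ_A = p`. -/
theorem card_residueField_intA (M : LocalModel p P) :
    haveI := isDiscreteValuationRing_intA M
    Nat.card (ResidueField (intA P)) = p := by
  haveI := isDiscreteValuationRing_intA M
  have hp : (p : ℕ).Prime := Fact.out
  let f : Fin p → ResidueField (intA P) := fun i => residue (intA P) ((i : ℕ) : intA P)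
  have hmem : ∀ x : intA P, x ∈ maximalIdeal (intA P) ↔ M.ν (x : Qb) < 1 :=
    (valData_intA M).mem_maximalIdeal_iff
  have hνint : ∀ n : ℤ, M.ν (n : Qb) < 1 ↔ (p : ℤ) ∣ n := by
    intro n
    have h1 : M.ν (n : Qb) = ‖(n : ℚ_[p])‖ := by
      rw [LocalModel.ν, map_intCast]
      have h : ((n : ℤ) : PadicAlgCl p) = algebraMap ℚ_[p] (PadicAlgCl p) (n : ℚ_[p]) := by
        rw [map_intCast]
      rw [h, PadicAlgCl.norm_extends]
    rw [h1]
    have h2 : ‖(n : ℚ_[p])‖ = ‖(n : ℤ_[p])‖ := by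
      rw [PadicInt.norm_def]
      simp
    rw [h2, PadicInt.norm_int_lt_one_iff_dvd]
  have hinj : Function.Injective f := by
    intro i j hij
    have h1 : residue (intA P) (((i : ℕ) : intA P) - ((j : ℕ) : intA P)) = 0 := by
      rw [map_sub]
      exact sub_eq_zero.mpr hij
    rw [residue_eq_zero_iff, hmem] at h1
    have h2 : ((((i : ℕ) : intA P) - ((j : ℕ) : intA P) : intA P) : Qb) =
        (((i : ℕ) : ℤ) - ((j : ℕ) : ℤ) : ℤ) := by
      push_cast
      rfl
    rw [h2, hνint] at h1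
    have h3 : ((i : ℕ) : ℤ) ≡ ((j : ℕ) : ℤ) [ZMOD p] := (Int.modEq_iff_dvd.mpr (by
      have := dvd_neg.mpr h1
      rwa [neg_sub] at this)).symm
    have h4 : (i : ℕ) ≡ (j : ℕ) [MOD p] := Int.natCast_modEq_iff.mp h3
    apply Fin.ext
    rw [Nat.ModEq, Nat.mod_eq_of_lt i.2, Nat.mod_eq_of_lt j.2] at h4
    exact h4
  have hsurj : Function.Surjective f := by
    intro y
    obtain ⟨x, rfl⟩ := residue_surjective y
    obtain ⟨a, ha⟩ := M.ι_mem_range_of_fixed x.2.2
    have hle : ‖a‖ ≤ 1 := by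
      have := (M.mem_iff_ν _).mp x.2.1
      rwa [LocalModel.ν, ha, PadicAlgCl.norm_extends] at this
    set z : ℤ_[p] := ⟨a, hle⟩ with hz
    obtain ⟨n, hn, hxn⟩ := PadicInt.exists_mem_range (p := p) (x := z)
    refine ⟨⟨n, hn⟩, ?_⟩
    show residue (intA P) ((n : ℕ) : intA P) = residue (intA P) x
    rw [← sub_eq_zero, ← map_sub, residue_eq_zero_iff, hmem]
    rw [IsLocalRing.mem_maximalIdeal, PadicInt.mem_nonunits] at hxn
    have h1 : M.ν ((((n : ℕ) : intA P) - x : intA P) : Qb) = ‖z - (n : ℤ_[p])‖ := by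
      have h2 : ((((n : ℕ) : intA P) - x : intA P) : Qb) = (n : Qb) - (x : Qb) := by
        push_cast
        rfl
      rw [h2, LocalModel.ν, map_sub, map_natCast, ha]
      have h3 : ((n : ℕ) : PadicAlgCl p) = algebraMap ℚ_[p] (PadicAlgCl p) (n : ℚ_[p]) := by
        rw [map_natCast]
      rw [h3, ← map_sub, PadicAlgCl.norm_extends, ← norm_neg, neg_sub, PadicInt.norm_def]
      rw [PadicInt.coe_sub, PadicInt.coe_natCast]
    rw [h1]
    exact hxn
  rw [← Nat.card_eq_of_bijective f ⟨hinj, hsurj⟩, Nat.card_eq_fintype_card, Fintype.card_fin]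

end DVRA

end Fermat.Agent.S56.H914

end

end
-- ===== PACK-END S56/H914/IntDVR.lean

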