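import Fermat.Agent.Pack.S43GC.G0E19L1
import Fermat.Agent.Pack.S43GC.G0E5L0
import Fermat.Agent.Pack.S43GC.G0E19L3
import Fermat.Agent.Pack.S43GC.G0E6L0
import Fermat.Agent.Pack.S43GC.G0E18L3
import Fermat.Agent.Pack.S43GC.G0E19L0
import Fermat.Agent.Pack.S43GC.G0E7L2
import Fermat.Agent.Pack.S43GC.G0E14L1
import Fermat.Agent.Pack.S44C.G0E1L1
import Fermat.Agent.Pack.S43GC.G0E4L1
import Fermat.Agent.Pack.S43GC.G0E19L2
import Fermat.Agent.Pack.S43GC.G0E7L0
import Fermat.Agent.Pack.S43GC.G0E17L3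
import Fermat.Agent.Pack.S43GC.G0E9L0
import Fermat.Agent.Pack.Fast891

-- ===== PACK-BEGIN S55/PT/H123/TopGlobE.lean
section


/-!
# S55 / layer D, leaf D-T2b (global dévissage), part E: generic main theorem   (helper123)

`topT3_bijective_of` : in the generic setting, `Θ(N) : T³(N) → Dual (charHom χ N)` is bijective
for every finite-dimensional uniformly smooth `N`, given

* normal levels are cofinal and of finite index, `χ` is trivial on some level,
* ONE local top pairing is surjective on all finite-dimensional smooth modules,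
* A7 (`IndInj`) for all normal levels on which `χ` is trivial,
* local right exactness of `H²`.
-/

set_option autoImplicit false
set_option linter.unusedSectionVars false

noncomputable section

namespace Fermat.Agent.S55.PT.H123

open groupCohomology Fermat.Agent.S55.PT

variable {k : Type} [Field k] {G : Type} [Group G]

/-! ### smoothness and finiteness of induced modules -/

section IndSmooth

variable (U : Subgroup G) (χ : G →* kˣ)

lemma smul_mk_eq_of_mem_normal [U.Normal] {s : G} (hs : s ∈ U) (x : G ⧸ U) : s • x = x := by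
  induction x using QuotientGroup.induction_on with
  | H g =>
    show ((s * g : G) : G ⧸ U) = (g : G ⧸ U)
    rw [QuotientGroup.eq]
    have h1 : (s * g)⁻¹ * g = g⁻¹ * s⁻¹ * g := by group
    rw [h1]
    have := (inferInstance : U.Normal).conj_mem s⁻¹ (U.inv_mem hs) g⁻¹
    simpa using this

lemma indRep_twTriv_ρ_eq [U.Normal] (hχ : ∀ u ∈ U, χ u = 1) (W : Type) [AddCommGroup W]
    [Module k W] {s : G} (hs : s ∈ U) (a : indRep U (twTriv χ W)) :
    (indRep U (twTriv χ W)).ρ s a = a := by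
  have h : indAct U (twTriv χ W) s = LinearMap.id := by
    apply Finsupp.lhom_ext
    intro x w
    rw [indAct_single, smul_mk_eq_of_mem_normal U hs x, twTriv_ρ_apply, hχ s hs, Units.val_one,
      one_smul, LinearMap.id_apply]
  exact LinearMap.congr_fun h a

lemma indRep_twTriv_isUSmooth (L : LevelSys G) [U.Normal] (hU : U ∈ L.levels)
    (hχ : ∀ u ∈ U, χ u = 1) (W : Type) [AddCommGroup W] [Module k W] :
    L.IsUSmooth (indRep U (twTriv χ W)) :=
  ⟨U, hU, fun _ hs a => indRep_twTriv_ρ_eq U χ hχ W hs a⟩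

lemma kerRep_isUSmooth (L : LevelSys G) {A B : Rep.{0, 0, 0} k G} (φ : A →ₗ[k] B)
    (hφ : IsEquivariant φ) (hA : L.IsUSmooth A) : L.IsUSmooth (kerRep φ hφ) := by
  obtain ⟨V, hV, h⟩ := hA
  refine ⟨V, hV, fun s hs a => ?_⟩
  apply Subtype.ext
  exact h s hs a.1

end IndSmooth

section Main

variable {ι : Type} [Fintype ι] [DecidableEq ι] {Gv : ι → Type} [∀ v, Group (Gv v)]
variable {L : LevelSys G} {Lv : ∀ v, LevelSys (Gv v)} {r : ∀ v, Gv v →* G}
variable (hr : ∀ v, IsLevelCompatible (r v) L (Lv v))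
variable {χ : G →* kˣ} {inv : ∀ v, (Lv v).H2 (ofChar (χ.comp (r v))) →ₗ[k] k}

/-- **Global dévissage, generic form.** -/
theorem topT3_bijective_of (hN : L.NormalCofinal) (hFI : L.FiniteIndex)
    (hrec : IsRecip hr χ inv)
    (hχ : ∃ U ∈ L.levels, ∀ u ∈ U, χ u = 1)
    (v₀ : ι)
    (hloc : ∀ N' : Rep.{0, 0, 0} k (Gv v₀), FiniteDimensional k N' → (Lv v₀).IsUSmooth N' →
      Function.Surjective (topPair (Lv v₀) (χ.comp (r v₀)) (inv v₀) N'))
    (hInd : ∀ U ∈ L.levels, U.Normal → (∀ s ∈ U, χ s = 1) → IndInj hr χ inv U)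
    (hS2l : ∀ (v : ι) (P N' : Rep.{0, 0, 0} k (Gv v)) (φ : P →ₗ[k] N') (hφ : IsEquivariant φ),
      FiniteDimensional k P → (Lv v).IsUSmooth P → (Lv v).IsUSmooth N' →
      Function.Surjective φ → Function.Surjective (pushH2 φ hφ (Lv v)))
    (N : Rep.{0, 0, 0} k G) (hfd : FiniteDimensional k N) (hsm : L.IsUSmooth N) :
    Function.Bijective (topT3 hr N hrec) := by
  -- a normal level `U` acting trivially on `N` and `χ`
  obtain ⟨U₁, hU₁, hNU₁⟩ := hsm
  obtain ⟨U₂, hU₂, hχU₂⟩ := hχ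
  obtain ⟨U₃, hU₃, hle₃⟩ := L.directed U₁ hU₁ U₂ hU₂
  obtain ⟨U, hU, hUle, hUn⟩ := hN U₃ hU₃
  haveI : U.Normal := hUn
  have hχU : ∀ u ∈ U, χ u = 1 := fun u hu => hχU₂ u (hle₃ (hUle hu)).2
  have hNU : ∀ u ∈ U, N.ρ u = 1 := fun u hu =>
    LinearMap.ext fun a => hNU₁ u (hle₃ (hUle hu)).1 a
  have hsmN : L.IsUSmooth N := ⟨U₁, hU₁, hNU₁⟩
  haveI : U.FiniteIndex := hFI U hU
  haveI : Finite (G ⧸ U) := Subgroup.finite_quotient_of_finiteIndex
  -- the presentation
  let E := twSES χ U N hχU hNU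
  have hfdQ : FiniteDimensional k (indRep U (twTriv χ N)) :=
    (inferInstance : FiniteDimensional k ((G ⧸ U) →₀ N))
  have hsmQ : L.IsUSmooth (indRep U (twTriv χ N)) := indRep_twTriv_isUSmooth U χ L hU hχU N
  have hfdR : FiniteDimensional k (kerRep (A := indRep U (twTriv χ N)) (B := N) (augTw χ U N)
      (augTw_equivariant χ U N hχU hNU)) :=
    (inferInstance : FiniteDimensional k ↥(LinearMap.ker (augTw χ U N)))
  have hsmR : L.IsUSmooth (kerRep (A := indRep U (twTriv χ N)) (B := N) (augTw χ U N)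
      (augTw_equivariant χ U N hχU hNU)) :=
    kerRep_isUSmooth L _ _ hsmQ
  constructor
  · -- injectivity
    rw [injective_iff_map_eq_zero]
    intro y hy
    obtain ⟨x, rfl⟩ := T3π_surjective hr N y
    rw [topT3_mk] at hy
    rw [T3π_eq_zero_iff]
    refine mem_range_loc2_of_ses hr E hrec ?_ ?_ ?_ x hy
    · exact topT3_surjective_of hr hrec _ v₀ (hloc _ hfdR (hsmR.res (hr v₀)))
    · exact mem_range_loc2_ind hr U (hInd U hU hUn hχU) N
    · intro v
      exact hS2l v _ _ _ _ hfdQ (hsmQ.res (hr v)) (hsmN.res (hr v))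
        (augTw_surjective χ U N hχU hNU)
  · -- surjectivity
    exact topT3_surjective_of hr hrec N v₀ (hloc _ hfd (hsmN.res (hr v₀)))

end Main

end Fermat.Agent.S55.PT.H123

end

end
-- ===== PACK-END S55/PT/H123/TopGlobE.lean

-- ===== PACK-BEGIN S55/PT/TopGlobDevH123.lean
section



/-!
# S55 / layer D, leaf D-T2b: `TopGlobDevSpec`   (helper123)

`topGlobDev : TopGlobDevSpec p S` — global top-degree duality `T³(N) ≃ Dual (Hom_G(N, μ))` for all
finite-dimensional smooth `N`, from local top duality (only its surjectivity at the place `p`),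
A7 (`TopGlobIndSpec`) and local right exactness of `H²` (A4).

The hypotheses `LesMidSpec`, `LocalNormalCofinalSpec`, `Surj2GlobSpec` of the Spec are NOT used:
the four lemma only needs `T³(Q) ↠ T³(N)`, `Θ(R)` onto, `Θ(Q)` into and left exactness of
`Hom_G(−, μ)`.

The generic statement is `H123.topT3_bijective_of` (`PT/H123/TopGlobE.lean`).
-/

set_option autoImplicit false

noncomputable section

namespace Fermat.Agent.S55.PT.H123

open groupCohomology ExtCitation Fermat.Agent.S55.PT Fermat.Agent.S55.Bridge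

attribute [local instance] isAlgebraic_Qbar isGalois_Qbar

/-- `χ_p` is trivial on some level of `globalLevels S` when `p ∈ S`. -/
lemma exists_level_cycloChar_eq_one (p : ℕ) [Fact p.Prime] (S : Finset Nat.Primes)
    (hpS : pPrime p ∈ S) :
    ∃ U ∈ (globalLevels S).levels, ∀ u ∈ U, cycloChar p u = 1 := by
  haveI : (MonoidHom.ker (cycloChar p)).Normal := MonoidHom.normal_ker _
  obtain ⟨F, hF, -, hfix, -⟩ := exists_galois_level_of_subgroup S (MonoidHom.ker (cycloChar p))
    (cycloLevel p) (cycloLevel_finiteDimensional p)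
    (fun s hs => MonoidHom.mem_ker.2 (cycloChar_eq_one_of_mem_fixingSubgroup p s hs))
    (fun q hq A hA g hg => by
      have hqp : (q : ℕ) ≠ p := by
        intro h
        apply hq
        have : q = pPrime p := Subtype.ext h
        rw [this]
        exact hpS
      exact MonoidHom.mem_ker.2 (cycloChar_eq_one_of_mem_inertia p q.2 hqp A hA g hg))
  refine ⟨F.fixingSubgroup, ⟨F, hF, rfl⟩, fun u hu => ?_⟩
  rw [hfix] at hu
  exact MonoidHom.mem_ker.1 hu

variable (p : ℕ) [Fact p.Prime] (S : Finset Nat.Primes)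

/-- **D-T2b.** -/
theorem topGlobDev : TopGlobDevSpec p S := by
  intro _ hGN _ hGF hpS inv hrec hloc hInd _ hS2l N hfd hsm
  refine topT3_bijective_of (hrl S) (hGN S) (hGF S) hrec
    (exists_level_cycloChar_eq_one p S hpS) ⟨pPrime p, hpS⟩
    (fun N' h1 h2 => (hloc ⟨pPrime p, hpS⟩ N' h1 h2).2) ?_
    (fun v P N' φ hφ h1 h2 h3 h4 => hS2l v.1 v.2 P N' φ hφ h1 h2 h3 h4) N hfd hsm
  intro U hU hUn hχU x hx
  refine hInd U hU hUn (fun s hs => ?_) x ?_
  · apply LinearMap.ext
    intro c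
    rw [ofChar_ρ_apply, hχU s hs, Units.val_one, one_mul]
    rfl
  · simp only [topIndFun, LinearMap.sum_apply, LinearMap.comp_apply, LinearMap.proj_apply]
    exact hx

end Fermat.Agent.S55.PT.H123

end

end
-- ===== PACK-END S55/PT/TopGlobDevH123.lean

-- ===== PACK-BEGIN S55/G/Rec/Tow/H417/Gd3.lean
section
/-
S55 / REC2-TOW (helper417): `gd3_of : Gd3AssemblySpec p`  (memo T5: local–global injectivity
from reciprocity over `ℚ`).
-/


set_option autoImplicit false

open CategoryTheory groupCohomology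

namespace Fermat.Agent.S55.G.Rec.TOW.H417

open Fermat.Agent.S55 Fermat.Agent.S55.Tow Fermat.Agent.S55.E1.H594

/-- **GD3**. -/
theorem gd3_of (p : ℕ) : Gd3AssemblySpec p := by
  intro I hK hN S L q hq y hy hat hj
  have hSne : S.Nonempty := ⟨q, hq⟩
  have h1 : h2Sub (lvlj L) ⊤ (res2 (lvlJ L) ⊤ y) = 0 := by
    rw [hN L.Gal (lvlJ L) (lvlC L) (lvlj L) ⊤ y, hj, map_zero]
  have h2 : I.σ L ⊤ (res2 (lvlJ L) ⊤ y) = 0 :=
    hK S hSne L ⊤ _ (isPPrimary_map (res2 (lvlJ L) ⊤).toAddMonoidHom hy) h1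
  exact I.injAt L q y hy hat h2

end Fermat.Agent.S55.G.Rec.TOW.H417

end
-- ===== PACK-END S55/G/Rec/Tow/H417/Gd3.lean

-- ===== PACK-BEGIN S55/G/CM/H514/SubCM.lean
section



/-!
# S55 / layer G / block CM, leaf **SUBCM** (helper514; subtask 610)

`subClassModuleSpec : G.CM.SubClassModuleSpec` — hand-in at the exact frozen type of
`Fermat/Agent/S55/G/CM/Spec.lean`.
-/

set_option autoImplicit false

namespace Fermat.Agent.S55.G.CM.H514

/-- **G-CM:SUBCM**: a class module at `p` restricts to a class module at `p` on every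
subgroup. -/
theorem subClassModuleSpec : Fermat.Agent.S55.G.CM.SubClassModuleSpec :=
  fun p _ _ _ C γ h Γ' => subClassModule C p γ h Γ'

end Fermat.Agent.S55.G.CM.H514

end
-- ===== PACK-END S55/G/CM/H514/SubCM.lean

-- ===== PACK-BEGIN S55/Cap/C2H713/GlobalCap.lean
section




/-!
# S55 / A8 (CAP): `GlobalSpecCap` for the concrete tower datum, and `C2Spec`   (helper713)

* `clTorsion_datum`  : GD11 for `GAD.datum S p` (= GD5b, helper604);
* `descent_datum`    : GD12 for `GAD.datum S p` (= GAD-DESC, helper177), `S ≠ ∅`;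
* `globalSpecCap_of` : the 7 leaf specs of `GAD/Spec.lean` ⇒ `Cap.GlobalSpecCap p S`;
* `c2Spec_of`        : the 7 leaf specs of `GAD/Spec.lean` ⇒ `Cap.C2Spec p S`.
-/

set_option autoImplicit false
set_option linter.unusedVariables false
set_option linter.unusedSectionVars false

noncomputable section

namespace Fermat.Agent.S55.Cap.H713

open Fermat.Agent.S55.PT Fermat.Agent.S55.Tow Fermat.Agent.S55.Cap Fermat.Agent.S55.GAD

variable {S : Finset Nat.Primes} {p : ℕ}

/-- GD11 for the concrete datum. -/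
theorem clTorsion_datum : ClTorsion (datum S p) :=
  Fermat.Agent.S55.GAD.H604.isTorsModLocal S p

/-- GD12 for the concrete datum. -/
theorem descent_datum (hS : S.Nonempty) (hD : (datum S p).IsGoodMu p) : Descent (datum S p) := by
  intro L L' h c hc
  obtain ⟨c₀, hc₀⟩ := Fermat.Agent.S55.GAD.H177.exists_trT_eq_of_fixed h hS c hc
  refine ⟨L', le_rfl, c₀, ?_⟩
  rw [← hD.gd7b h le_rfl c₀]
  exact congrArg _ hc₀.symm

/-- a good concrete datum satisfies `GlobalSpecCap` -/
theorem globalSpecCap_of_isGoodMu (hS : S.Nonempty) (hD : (datum S p).IsGoodMu p) :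
    GlobalSpecCap p S :=
  ⟨datum S p, hD, clTorsion_datum, descent_datum hS hD⟩

/-- The leaf specs of `GAD/Spec.lean` imply `Cap.GlobalSpecCap p S`. -/
theorem globalSpecCap_of (hS : S.Nonempty) (hSU : SUnitDictSpec S) (hTr : DivTrTransSpec S)
    (hCap : CapitulationSpec S p) (hEx : ExistenceSpec S p) (hCM : ClassModuleSpec S p)
    (hJ : JInjSpec S p) (hInf : InfInjSpec S p) : GlobalSpecCap p S :=
  globalSpecCap_of_isGoodMu hS
    (Fermat.Agent.S55.GAD.H604.isGoodMu_of hSU hTr hCap hEx hCM hJ hInf)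

/-- The leaf specs of `GAD/Spec.lean` imply leaf C2 of A8. -/
theorem c2Spec_of [Fact p.Prime] (hS : S.Nonempty) (hSU : SUnitDictSpec S)
    (hTr : DivTrTransSpec S) (hCap : CapitulationSpec S p) (hEx : ExistenceSpec S p)
    (hCM : ClassModuleSpec S p) (hJ : JInjSpec S p) (hInf : InfInjSpec S p) : C2Spec p S :=
  c2Adapter p S (globalSpecCap_of hS hSU hTr hCap hEx hCM hJ hInf)

end Fermat.Agent.S55.Cap.H713

end
end
-- ===== PACK-END S55/Cap/C2H713/GlobalCap.lean

-- ===== PACK-BEGIN S55/Inv/GO4/H978/Orbit.lean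
section



/-!
# S55 / `InvSpec` / GO4-LD (helper978): orbit decomposition of `K.ind φ U A`

`φ : H →* G`, `U ≤ G` normal of finite index, `W = φ⁻¹ U`.  The `H`-set `G ⧸ U` is a finite
disjoint union of orbits, each isomorphic to `H ⧸ W`; hence

  `K.ind φ U A  =  ⊕_{orbits} KC.indR W A`   (equivariantly).

* `orbMap φ U x : H ⧸ W → G ⧸ U`, `h W ↦ φ h • x` (injective, equivariant);
* `orbE φ U A x : indR W A →+ ind φ U A` (push-forward), `orbP φ U A x` (pull-back), equivariant;
* `sum_orbE_orbP` : `∑_{orbits} orbE (orbP b) = b`;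
* `exists_sum_of_single` : a statement of the form "every `p`-torsion level-constant class is
  represented at level `V₁`" passes from `indR W A` to `ind φ U A`.
-/

set_option autoImplicit false
set_option linter.style.haveILetI false
set_option linter.unusedSectionVars false

noncomputable section

namespace Fermat.Agent.S55.Inv.GO4.H978

open groupCohomology Fermat.Agent.S55 Fermat.Agent.S55.PT Fermat.Agent.S55.KC

variable {G H : Type} [Group G] [Group H] (φ : H →* G) (U : Subgroup G) [hU : U.Normal]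

/-- a normal subgroup acts trivially on its quotient -/
lemma smul_quot_eq_of_mem {u : G} (hu : u ∈ U) (x : G ⧸ U) : u • x = x := by
  induction x using QuotientGroup.induction_on with
  | H g =>
    show ((u * g : G) : G ⧸ U) = (g : G ⧸ U)
    rw [QuotientGroup.eq]
    have h1 : g⁻¹ * u⁻¹ * g⁻¹⁻¹ ∈ U := hU.conj_mem _ (U.inv_mem hu) g⁻¹
    have h2 : (u * g)⁻¹ * g = g⁻¹ * u⁻¹ * g⁻¹⁻¹ := by group
    rw [h2]
    exact h1

/-- the stabiliser of every point of `G ⧸ U` is `U` -/
lemma mem_of_smul_quot_eq {u : G} (x : G ⧸ U) (h : u • x = x) : u ∈ U := by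
  induction x using QuotientGroup.induction_on with
  | H g =>
    have h' : ((u * g : G) : G ⧸ U) = (g : G ⧸ U) := h
    rw [QuotientGroup.eq] at h'
    have h1 : g * ((u * g)⁻¹ * g) * g⁻¹ ∈ U := hU.conj_mem _ h' g
    have h2 : g * ((u * g)⁻¹ * g) * g⁻¹ = u⁻¹ := by group
    rw [h2] at h1
    simpa using U.inv_mem h1

/-- the orbit map `H ⧸ φ⁻¹U → G ⧸ U`, `h ↦ φ h • x` -/
def orbMap (x : G ⧸ U) : H ⧸ U.comap φ → G ⧸ U :=
  Quotient.lift (fun h : H => φ h • x) (by
    intro a b hab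
    have hab' : a⁻¹ * b ∈ U.comap φ := QuotientGroup.leftRel_apply.1 hab
    have h1 : φ (a⁻¹ * b) • x = x := smul_quot_eq_of_mem U (Subgroup.mem_comap.1 hab') x
    show φ a • x = φ b • x
    have h2 : φ b = φ a * φ (a⁻¹ * b) := by
      rw [← map_mul]; congr 1; group
    rw [h2, mul_smul, h1])

@[simp] lemma orbMap_mk (x : G ⧸ U) (h : H) :
    orbMap φ U x (h : H ⧸ U.comap φ) = φ h • x := rfl

lemma orbMap_smul (x : G ⧸ U) (h : H) (c : H ⧸ U.comap φ) :
    orbMap φ U x (h • c) = φ h • orbMap φ U x c := by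
  induction c using QuotientGroup.induction_on with
  | H h' =>
    show φ (h * h') • x = φ h • (φ h' • x)
    rw [map_mul, mul_smul]

lemma orbMap_injective (x : G ⧸ U) : Function.Injective (orbMap φ U x) := by
  intro c c' hcc
  induction c using QuotientGroup.induction_on with
  | H a =>
    induction c' using QuotientGroup.induction_on with
    | H b =>
      have h0 : φ a • x = φ b • x := hcc
      have h1 : φ (a⁻¹ * b) • x = x := by
        rw [map_mul, mul_smul, ← h0, ← mul_smul, map_inv, inv_mul_cancel, one_smul]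
      have h2 : φ (a⁻¹ * b) ∈ U := mem_of_smul_quot_eq U x h1
      exact QuotientGroup.eq.2 (Subgroup.mem_comap.2 h2)

/-- the orbit relation on `G ⧸ U` -/
def orbSetoid : Setoid (G ⧸ U) where
  r x y := ∃ h : H, φ h • x = y
  iseqv :=
    { refl := fun x => ⟨1, by rw [map_one, one_smul]⟩
      symm := by
        rintro x y ⟨h, rfl⟩
        exact ⟨h⁻¹, by rw [map_inv, inv_smul_smul]⟩
      trans := by
        rintro x y z ⟨h, rfl⟩ ⟨h', rfl⟩
        exact ⟨h' * h, by rw [map_mul, mul_smul]⟩ }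

/-- the set of orbits -/
abbrev Orb : Type := Quotient (orbSetoid φ U)

/-- the chosen representative of an orbit -/
def orbRep (i : Orb φ U) : G ⧸ U := Quotient.out i

lemma exists_orbMap_eq (y : G ⧸ U) :
    ∃ c : H ⧸ U.comap φ, orbMap φ U (orbRep φ U (Quotient.mk (orbSetoid φ U) y)) c = y := by
  have h : (orbSetoid φ U).r (orbRep φ U (Quotient.mk (orbSetoid φ U) y)) y :=
    Quotient.exact (Quotient.out_eq (Quotient.mk (orbSetoid φ U) y))
  obtain ⟨h, hh⟩ := h
  exact ⟨(h : H ⧸ U.comap φ), hh⟩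

lemma orb_eq_of_orbMap_eq {i : Orb φ U} {c : H ⧸ U.comap φ} {y : G ⧸ U}
    (h : orbMap φ U (orbRep φ U i) c = y) : Quotient.mk (orbSetoid φ U) y = i := by
  induction c using QuotientGroup.induction_on with
  | H a =>
    have h1 : (orbSetoid φ U).r (orbRep φ U i) y := ⟨a, h⟩
    have h2 : Quotient.mk (orbSetoid φ U) (orbRep φ U i) = Quotient.mk (orbSetoid φ U) y :=
      Quotient.sound h1
    rw [← h2]
    exact Quotient.out_eq i

variable (A : Rep.{0, 0, 0} ℤ H)

/-! ### raw `Finsupp` computations -/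

section Raw

variable {φ U}
variable (X₀ : Type) [AddCommGroup X₀] (r : H → X₀ →+ X₀)

/-- the diagonal action on `(G ⧸ U →₀ X₀)`, raw form -/
def actG (h : H) (b : (G ⧸ U) →₀ X₀) : (G ⧸ U) →₀ X₀ :=
  Finsupp.mapDomain (fun x : G ⧸ U => φ h • x) (Finsupp.mapRange (r h) (map_zero _) b)

/-- the diagonal action on `(H ⧸ W →₀ X₀)`, raw form -/
def actH (W : Subgroup H) (h : H) (b : (H ⧸ W) →₀ X₀) : (H ⧸ W) →₀ X₀ :=
  Finsupp.mapDomain (fun x : H ⧸ W => h • x) (Finsupp.mapRange (r h) (map_zero _) b)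

omit hU in
lemma actG_apply (h : H) (b : (G ⧸ U) →₀ X₀) (y : G ⧸ U) :
    actG (φ := φ) (U := U) X₀ r h b (φ h • y) = r h (b y) := by
  unfold actG
  rw [Finsupp.mapDomain_apply (MulAction.injective (φ h)), Finsupp.mapRange_apply]

lemma actH_apply (W : Subgroup H) (h : H) (b : (H ⧸ W) →₀ X₀) (c : H ⧸ W) :
    actH X₀ r W h b (h • c) = r h (b c) := by
  unfold actH
  rw [Finsupp.mapDomain_apply (MulAction.injective h), Finsupp.mapRange_apply]

omit hU in
lemma actG_single (h : H) (x : G ⧸ U) (a : X₀) :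
    actG (φ := φ) (U := U) X₀ r h (Finsupp.single x a) = Finsupp.single (φ h • x) (r h a) := by
  unfold actG
  rw [Finsupp.mapRange_single, Finsupp.mapDomain_single]

lemma actH_single (W : Subgroup H) (h : H) (c : H ⧸ W) (a : X₀) :
    actH X₀ r W h (Finsupp.single c a) = Finsupp.single (h • c) (r h a) := by
  unfold actH
  rw [Finsupp.mapRange_single, Finsupp.mapDomain_single]

variable (φ U)

/-- push-forward along the orbit map of `x`, raw form -/
def eR (x : G ⧸ U) : ((H ⧸ U.comap φ) →₀ X₀) →+ ((G ⧸ U) →₀ X₀) :=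
  Finsupp.mapDomain.addMonoidHom (orbMap φ U x)

/-- pull-back along the orbit map of `x`, raw form -/
def pR (x : G ⧸ U) : ((G ⧸ U) →₀ X₀) →+ ((H ⧸ U.comap φ) →₀ X₀) :=
  Finsupp.comapDomain.addMonoidHom (orbMap_injective φ U x)

lemma eR_single (x : G ⧸ U) (c : H ⧸ U.comap φ) (a : X₀) :
    eR φ U X₀ x (Finsupp.single c a) = Finsupp.single (orbMap φ U x c) a :=
  Finsupp.mapDomain_single

lemma pR_apply (x : G ⧸ U) (b : (G ⧸ U) →₀ X₀) (c : H ⧸ U.comap φ) :
    pR φ U X₀ x b c = b (orbMap φ U x c) := rfl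

lemma eR_act (x : G ⧸ U) (h : H) (m : (H ⧸ U.comap φ) →₀ X₀) :
    eR φ U X₀ x (actH X₀ r (U.comap φ) h m) = actG (φ := φ) (U := U) X₀ r h (eR φ U X₀ x m) := by
  induction m using Finsupp.induction_linear with
  | zero =>
    have h1 : actH X₀ r (U.comap φ) h 0 = 0 := by
      unfold actH; rw [Finsupp.mapRange_zero, Finsupp.mapDomain_zero]
    have h2 : actG (φ := φ) (U := U) X₀ r h 0 = 0 := by
      unfold actG; rw [Finsupp.mapRange_zero, Finsupp.mapDomain_zero]
    rw [h1, map_zero, h2]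
  | add a b ha hb =>
    have h1 : actH X₀ r (U.comap φ) h (a + b) =
        actH X₀ r (U.comap φ) h a + actH X₀ r (U.comap φ) h b := by
      unfold actH; rw [Finsupp.mapRange_add (fun x y => map_add (r h) x y), Finsupp.mapDomain_add]
    have h2 : ∀ a b : (G ⧸ U) →₀ X₀, actG (φ := φ) (U := U) X₀ r h (a + b) =
        actG (φ := φ) (U := U) X₀ r h a + actG (φ := φ) (U := U) X₀ r h b := by
      intro a b
      unfold actG; rw [Finsupp.mapRange_add (fun x y => map_add (r h) x y), Finsupp.mapDomain_add]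
    rw [h1, map_add, map_add, h2, ha, hb]
  | single c a =>
    rw [actH_single, eR_single, eR_single, actG_single, orbMap_smul]

lemma pR_act (x : G ⧸ U) (h : H) (b : (G ⧸ U) →₀ X₀) :
    pR φ U X₀ x (actG (φ := φ) (U := U) X₀ r h b) = actH X₀ r (U.comap φ) h (pR φ U X₀ x b) := by
  refine Finsupp.ext fun c => ?_
  have hc : c = h • (h⁻¹ • c) := (smul_inv_smul h c).symm
  rw [pR_apply]
  conv_lhs => rw [hc, orbMap_smul]
  rw [actG_apply]
  conv_rhs => rw [hc]
  rw [actH_apply, pR_apply]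

lemma pR_single_of_ne (i : Orb φ U) (y : G ⧸ U) (a : X₀)
    (hne : Quotient.mk (orbSetoid φ U) y ≠ i) :
    pR φ U X₀ (orbRep φ U i) (Finsupp.single y a) = 0 := by
  classical
  refine Finsupp.ext fun c => ?_
  rw [pR_apply, Finsupp.single_apply, if_neg]
  · rfl
  · intro h
    exact hne (orb_eq_of_orbMap_eq φ U h.symm)

lemma eR_pR_single (y : G ⧸ U) (a : X₀) :
    eR φ U X₀ (orbRep φ U (Quotient.mk (orbSetoid φ U) y))
      (pR φ U X₀ (orbRep φ U (Quotient.mk (orbSetoid φ U) y)) (Finsupp.single y a)) =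
        Finsupp.single y a := by
  classical
  obtain ⟨c, hc⟩ := exists_orbMap_eq φ U y
  have h1 : pR φ U X₀ (orbRep φ U (Quotient.mk (orbSetoid φ U) y)) (Finsupp.single y a) =
      Finsupp.single c a := by
    refine Finsupp.ext fun c' => ?_
    rw [pR_apply, Finsupp.single_apply, Finsupp.single_apply]
    by_cases hcc : c = c'
    · rw [if_pos hcc, if_pos (by rw [← hcc, hc])]
    · rw [if_neg hcc, if_neg]
      intro h
      exact hcc (orbMap_injective φ U _ (hc.trans h))
  rw [h1, eR_single, hc]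

/-- **orbit decomposition**, raw form -/
theorem sum_eR_pR [Fintype (Orb φ U)] (b : (G ⧸ U) →₀ X₀) :
    ∑ i : Orb φ U, eR φ U X₀ (orbRep φ U i) (pR φ U X₀ (orbRep φ U i) b) = b := by
  classical
  have key : (∑ i : Orb φ U, (eR φ U X₀ (orbRep φ U i)).comp (pR φ U X₀ (orbRep φ U i))) =
      AddMonoidHom.id ((G ⧸ U) →₀ X₀) := by
    refine Finsupp.addHom_ext fun y a => ?_
    rw [AddMonoidHom.finsetSum_apply,
      Finset.sum_eq_single (Quotient.mk (orbSetoid φ U) y)]
    · exact eR_pR_single φ U X₀ y a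
    · intro i _ hi
      show eR φ U X₀ (orbRep φ U i) (pR φ U X₀ (orbRep φ U i) (Finsupp.single y a)) = 0
      rw [pR_single_of_ne φ U X₀ i y a (Ne.symm hi), map_zero]
    · intro h
      exact absurd (Finset.mem_univ _) h
  have := DFunLike.congr_fun key b
  rw [AddMonoidHom.finsetSum_apply] at this
  exact this

end Raw

/-! ### push-forward and pull-back along the orbit maps -/

/-- push-forward along the orbit map of `x` -/
def orbE (x : G ⧸ U) : indR (U.comap φ) A →+ K.ind φ U A :=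
  eR φ U A.V x

/-- pull-back along the orbit map of `x` -/
def orbP (x : G ⧸ U) : K.ind φ U A →+ indR (U.comap φ) A :=
  pR φ U A.V x

lemma ind_ρ_single (h : H) (x : G ⧸ U) (a : A) :
    (K.ind φ U A).ρ h (Finsupp.single x a : (G ⧸ U) →₀ A) =
      (Finsupp.single (φ h • x) (A.ρ h a) : (G ⧸ U) →₀ A) :=
  K.indρ_single φ U A h x a

lemma ind_ρ_eq_actG (h : H) (b : K.ind φ U A) :
    (K.ind φ U A).ρ h b =
      actG (φ := φ) (U := U) A.V (fun h => (A.ρ h).toAddMonoidHom) h b := rfl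

lemma isEquiv_orbE (x : G ⧸ U) : IsEquiv (orbE φ U A x) :=
  fun h m => eR_act φ U A.V (fun h => (A.ρ h).toAddMonoidHom) x h m

lemma isEquiv_orbP (x : G ⧸ U) : IsEquiv (orbP φ U A x) :=
  fun h b => pR_act φ U A.V (fun h => (A.ρ h).toAddMonoidHom) x h b

variable [Finite (G ⧸ U)]

instance : Finite (Orb φ U) := Quotient.finite _

/-- **orbit decomposition**: `b = ∑_{orbits} orbE (orbP b)`. -/
theorem sum_orbE_orbP [Fintype (Orb φ U)] (b : K.ind φ U A) :
    ∑ i : Orb φ U, orbE φ U A (orbRep φ U i) (orbP φ U A (orbRep φ U i) b) = b :=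
  sum_eR_pR φ U A.V b

/-! ### passing from one orbit to the whole induced module -/

/-- If every level-constant 2-cocycle of `indR W A` with class killed by `p` is represented at
level `V₁` (with `p` times the representative a coboundary at level `V₁`), the same holds for
`K.ind φ U A`. -/
theorem exists_sum_of_single (L : LevelSys H) (p : ℕ) (V₁ : Subgroup H)
    (hsingle : ∀ Y : H × H → indR (U.comap φ) A, Y ∈ L.Z2 (indR (U.comap φ) A) →
      p • Y ∈ L.B2 (indR (U.comap φ) A) →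
      ∃ Y' : H × H → indR (U.comap φ) A, Y' ∈ Z2At V₁ (indR (U.comap φ) A) ∧
        Y - Y' ∈ L.B2 (indR (U.comap φ) A) ∧ IsCobAt₂ V₁ (indR (U.comap φ) A) (p • Y'))
    (X : H × H → K.ind φ U A) (hX : X ∈ L.Z2 (K.ind φ U A))
    (hpX : p • X ∈ L.B2 (K.ind φ U A)) :
    ∃ X' : H × H → K.ind φ U A, X' ∈ Z2At V₁ (K.ind φ U A) ∧
      X - X' ∈ L.B2 (K.ind φ U A) ∧ IsCobAt₂ V₁ (K.ind φ U A) (p • X') := by
  classical
  letI : Fintype (Orb φ U) := Fintype.ofFinite _
  have hY : ∀ i : Orb φ U, ∃ Y' : H × H → indR (U.comap φ) A,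
      Y' ∈ Z2At V₁ (indR (U.comap φ) A) ∧
      (orbP φ U A (orbRep φ U i)) ∘ X - Y' ∈ L.B2 (indR (U.comap φ) A) ∧
      IsCobAt₂ V₁ (indR (U.comap φ) A) (p • Y') := by
    intro i
    refine hsingle _ (mem_Z2_comp (isEquiv_orbP φ U A _) L hX) ?_
    have h1 : p • ((orbP φ U A (orbRep φ U i)) ∘ X) = (orbP φ U A (orbRep φ U i)) ∘ (p • X) := by
      funext z
      simp only [Pi.smul_apply, Function.comp_apply, map_nsmul]
    rw [h1]
    exact mem_B2_comp (isEquiv_orbP φ U A _) L hpX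
  choose Y' hY'Z hY'B hY'C using hY
  refine ⟨∑ i : Orb φ U, (orbE φ U A (orbRep φ U i)) ∘ (Y' i), ?_, ?_, ?_⟩
  · exact (Z2At V₁ (K.ind φ U A)).sum_mem
      (fun i _ => mem_Z2At_comp (isEquiv_orbE φ U A _) (hY'Z i))
  · have h1 : X = ∑ i : Orb φ U,
        (orbE φ U A (orbRep φ U i)) ∘ ((orbP φ U A (orbRep φ U i)) ∘ X) := by
      funext z
      rw [Finset.sum_apply]
      exact (sum_orbE_orbP φ U A (X z)).symm
    have h2 : X - ∑ i : Orb φ U, (orbE φ U A (orbRep φ U i)) ∘ (Y' i) =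
        ∑ i : Orb φ U, (orbE φ U A (orbRep φ U i)) ∘
          ((orbP φ U A (orbRep φ U i)) ∘ X - Y' i) := by
      conv_lhs => rw [h1]
      rw [← Finset.sum_sub_distrib]
      refine Finset.sum_congr rfl fun i _ => ?_
      funext z
      simp only [Pi.sub_apply, Function.comp_apply, map_sub]
    rw [h2]
    exact (L.B2 (K.ind φ U A)).sum_mem
      (fun i _ => mem_B2_comp (isEquiv_orbE φ U A _) L (hY'B i))
  · have h3 : p • ∑ i : Orb φ U, (orbE φ U A (orbRep φ U i)) ∘ (Y' i) =
        ∑ i : Orb φ U, (orbE φ U A (orbRep φ U i)) ∘ (p • Y' i) := by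
      rw [Finset.smul_sum]
      refine Finset.sum_congr rfl fun i _ => ?_
      funext z
      simp only [Pi.smul_apply, Function.comp_apply, map_nsmul]
    rw [h3]
    exact (B2At V₁ (K.ind φ U A)).sum_mem
      (fun i _ => isCobAt₂_comp (isEquiv_orbE φ U A _) (hY'C i))

end Fermat.Agent.S55.Inv.GO4.H978

end

end
-- ===== PACK-END S55/Inv/GO4/H978/Orbit.lean

-- ===== PACK-BEGIN S56/H419/H0Places.lean
section




/-!
# S56 / W-BASE / leaf EUL-H0, part 4 (helper419): double cosets = places of the level field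

`F/ℚ` a finite Galois level inside `ℚ̄`, `U = G_F = F.fixingSubgroup`, `resF : G_ℚ → Gal(F/ℚ)`.

* finite primes: `D_q = range (primeLocalToGlobal q)`;
  `primeOfDC q F : D_q\G_ℚ/U → Ideal (𝓞 F)`, `D_q g U ↦ (g|_F)⁻¹ • 𝔓₀`
  (`𝔓₀ = primeLevelPrime q F`, the prime below the Prelude's place `primeLocalPlace q`)
  is injective with range the set of primes of `𝓞 F` containing `q`
  (`primeOfDC_injective`, `range_primeOfDC`), and right translation by `σ⁻¹` becomes the action
  of `σ|_F` on ideals (`primeOfDC_dcPerm`);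
* infinite places: `⟨c⟩ = zpowers complexConjugation`;
  `placeOfDC F : ⟨c⟩\G_ℚ/U → InfinitePlace F` is bijective (`placeOfDC_bijective`) and
  equivariant (`placeOfDC_dcPerm`).
-/

set_option autoImplicit false
set_option linter.style.haveILetI false
set_option linter.unusedSectionVars false

noncomputable section

open scoped Pointwise NumberField

namespace Fermat.Agent.S56.H419

open Fermat.Agent.S55.PT Fermat.Agent.S55.Bridge.H175 ExtCitation MulAction NumberField

attribute [local instance] Fermat.Agent.S55.Bridge.isAlgebraic_Qbar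
  Fermat.Agent.S55.Bridge.isGalois_Qbar

section Res

variable (F : IntermediateField ℚ (AlgebraicClosure ℚ)) [Normal ℚ F]

/-- Restriction `G_ℚ → Gal(F/ℚ)`. -/
def resF : _root_.Fermat.Agent.S55.PT.GQ →* (F ≃ₐ[ℚ] F) :=
  AlgEquiv.restrictNormalHom (F := ℚ) (K₁ := AlgebraicClosure ℚ) F

theorem resF_apply_coe (σ : _root_.Fermat.Agent.S55.PT.GQ) (x : F) :
    ((resF F σ x : F) : AlgebraicClosure ℚ) = σ (x : AlgebraicClosure ℚ) :=
  AlgEquiv.restrictNormal_commutes σ F x

theorem resF_surjective : Function.Surjective (resF F) :=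
  AlgEquiv.restrictNormalHom_surjective (F := ℚ) (K₁ := F) (AlgebraicClosure ℚ)

theorem ker_resF : (resF F).ker = F.fixingSubgroup := by
  ext σ
  rw [MonoidHom.mem_ker, IntermediateField.mem_fixingSubgroup_iff]
  constructor
  · intro h x hx
    have := resF_apply_coe F σ ⟨x, hx⟩
    rw [h] at this
    exact this.symm
  · intro h
    apply AlgEquiv.ext
    intro x
    apply Subtype.ext
    rw [resF_apply_coe]
    exact h x.1 x.2

instance fixingSubgroup_normal_of_normal : F.fixingSubgroup.Normal := by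
  rw [← ker_resF F]
  infer_instance

instance fixingSubgroup_finiteIndex_of_finite [FiniteDimensional ℚ F] :
    F.fixingSubgroup.FiniteIndex := by
  rw [← ker_resF F]
  haveI : Finite (F ≃ₐ[ℚ] F) := inferInstance
  haveI : Finite ↥(resF F).range := inferInstance
  exact Subgroup.finiteIndex_ker (resF F)

end Res

/-! ### finite primes -/

section Finite

variable (q : Nat.Primes) (F : IntermediateField ℚ (AlgebraicClosure ℚ)) [Normal ℚ F]

/-- The decomposition group `D_q ≤ G_ℚ` of the Prelude: the image of `primeLocalToGlobal q`. -/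
abbrev Dq : Subgroup _root_.Fermat.Agent.S55.PT.GQ := (primeLocalToGlobal q).range

theorem map_Dq : (Dq q).map (resF F) = stabilizer (F ≃ₐ[ℚ] F) (primeLevelPrime q F) := by
  rw [Dq, MonoidHom.map_range]
  exact range_primeToLevel_eq_stabilizer q F

/-- `D_q g U ↦ (g|_F)⁻¹ • 𝔓₀`. -/
def primeOfDC : DC (Dq q) F.fixingSubgroup → Ideal (𝓞 F) :=
  dcToOrbit (Dq q) F.fixingSubgroup (resF F) (ker_resF F) (primeLevelPrime q F) (map_Dq q F)

theorem primeOfDC_mk (g : _root_.Fermat.Agent.S55.PT.GQ) :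
    primeOfDC q F (Quotient.mk (orbitRel (Dq q) (_root_.Fermat.Agent.S55.PT.GQ ⧸ F.fixingSubgroup))
      (g : _root_.Fermat.Agent.S55.PT.GQ ⧸ F.fixingSubgroup)) = (resF F g)⁻¹ • primeLevelPrime q F := rfl

/-- **Equivariance (finite primes).** -/
theorem primeOfDC_dcPerm (σ : _root_.Fermat.Agent.S55.PT.GQ) (ω : DC (Dq q) F.fixingSubgroup) :
    primeOfDC q F (dcPerm (Dq q) F.fixingSubgroup σ ω) = resF F σ • primeOfDC q F ω :=
  dcToOrbit_dcPerm (Dq q) F.fixingSubgroup (resF F) (ker_resF F) (primeLevelPrime q F)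
    (map_Dq q F) σ ω

theorem primeOfDC_injective : Function.Injective (primeOfDC q F) :=
  dcToOrbit_injective (Dq q) F.fixingSubgroup (resF F) (ker_resF F) (primeLevelPrime q F)
    (map_Dq q F)

theorem smul_natCast_ringOfIntegers (τ : F ≃ₐ[ℚ] F) (n : ℕ) : τ • (n : 𝓞 F) = (n : 𝓞 F) := by
  apply RingOfIntegers.ext
  change τ ((n : 𝓞 F) : F) = ((n : 𝓞 F) : F)
  simp

theorem under_eq_span_of_natCast_mem {P : Ideal (𝓞 F)} (hP : P.IsPrime)
    (hq : ((q : ℕ) : 𝓞 F) ∈ P) : P.under ℤ = Ideal.span {((q : ℕ) : ℤ)} := by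
  have hqp : Prime ((q : ℕ) : ℤ) := Nat.prime_iff_prime_int.1 q.2
  have hmax : (Ideal.span {((q : ℕ) : ℤ)}).IsMaximal :=
    PrincipalIdealRing.isMaximal_of_irreducible hqp.irreducible
  have hle : Ideal.span {((q : ℕ) : ℤ)} ≤ P.under ℤ := by
    rw [Ideal.span_singleton_le_iff_mem, Ideal.mem_comap]
    simpa using hq
  have hne : P.under ℤ ≠ ⊤ := (Ideal.IsPrime.under ℤ P).ne_top
  exact (hmax.eq_of_le hne hle).symm

variable [FiniteDimensional ℚ F]

/-- The orbit of `𝔓₀` is the set of all primes of `𝓞 F` containing `q`. -/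
theorem orbit_primeLevelPrime :
    orbit (F ≃ₐ[ℚ] F) (primeLevelPrime q F) =
      {P : Ideal (𝓞 F) | P.IsPrime ∧ ((q : ℕ) : 𝓞 F) ∈ P} := by
  haveI : NumberField F := ⟨⟩
  haveI : IsGalois ℚ F := ⟨⟩
  have h0 : (primeLevelPrime q F).IsPrime := primeLevelPrime_isPrime q F
  ext P
  constructor
  · rintro ⟨τ, rfl⟩
    refine ⟨inferInstance, ?_⟩
    show ((q : ℕ) : 𝓞 F) ∈ τ • primeLevelPrime q F
    rw [← smul_natCast_ringOfIntegers F τ q]
    exact Ideal.smul_mem_pointwise_smul τ _ _ (natCast_mem_primeLevelPrime q F)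
  · rintro ⟨hP, hq⟩
    have h1 := under_eq_span_of_natCast_mem q F h0 (natCast_mem_primeLevelPrime q F)
    have h2 := under_eq_span_of_natCast_mem q F hP hq
    obtain ⟨τ, hτ⟩ := Algebra.IsInvariant.exists_smul_of_under_eq ℤ (𝓞 F) (F ≃ₐ[ℚ] F)
      (primeLevelPrime q F) P (h1.trans h2.symm)
    exact ⟨τ, hτ.symm⟩

/-- **Finite primes.** The range of `primeOfDC` is the set of primes of `𝓞 F` above `q`. -/
theorem range_primeOfDC :
    Set.range (primeOfDC q F) = {P : Ideal (𝓞 F) | P.IsPrime ∧ ((q : ℕ) : 𝓞 F) ∈ P} := by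
  rw [← orbit_primeLevelPrime q F]
  exact range_dcToOrbit (Dq q) F.fixingSubgroup (resF F) (ker_resF F) (primeLevelPrime q F)
    (map_Dq q F) (resF_surjective F)

/-- `D_q\G_ℚ/G_F ≃ {primes of 𝓞 F above q}`. -/
def primeDCEquiv :
    DC (Dq q) F.fixingSubgroup ≃ {P : Ideal (𝓞 F) // P.IsPrime ∧ ((q : ℕ) : 𝓞 F) ∈ P} :=
  Equiv.ofBijective
    (fun ω => ⟨primeOfDC q F ω, by
      have : primeOfDC q F ω ∈ Set.range (primeOfDC q F) := ⟨ω, rfl⟩
      rw [range_primeOfDC] at this
      exact this⟩)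
    ⟨fun ω ω' h => primeOfDC_injective q F (congrArg Subtype.val h), fun P => by
      have hP : P.1 ∈ Set.range (primeOfDC q F) := by
        rw [range_primeOfDC]
        exact P.2
      obtain ⟨ω, hω⟩ := hP
      exact ⟨ω, Subtype.ext hω⟩⟩

@[simp] theorem coe_primeDCEquiv (ω : DC (Dq q) F.fixingSubgroup) :
    (primeDCEquiv q F ω : Ideal (𝓞 F)) = primeOfDC q F ω := rfl

end Finite

/-! ### infinite places -/

section Infinite

variable (F : IntermediateField ℚ (AlgebraicClosure ℚ)) [Normal ℚ F]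

/-- The base embedding `F ⊂ ℚ̄ → ℂ`. -/
def baseEmb : F →+* ℂ :=
  (complexEmbedding : AlgebraicClosure ℚ →+* ℂ).comp (algebraMap F (AlgebraicClosure ℚ))

theorem baseEmb_apply (x : F) : baseEmb F x = complexEmbedding (x : AlgebraicClosure ℚ) := rfl

/-- The base infinite place of `F`. -/
def basePlace : InfinitePlace F := InfinitePlace.mk (baseEmb F)

/-- The decomposition group at infinity. -/
abbrev Dinf : Subgroup _root_.Fermat.Agent.S55.PT.GQ := Subgroup.zpowers complexConjugation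

theorem isConj_baseEmb : ComplexEmbedding.IsConj (baseEmb F) (resF F complexConjugation) := by
  apply RingHom.ext
  intro x
  show (starRingEnd ℂ) (baseEmb F x) = baseEmb F (resF F complexConjugation x)
  rw [baseEmb_apply, baseEmb_apply, resF_apply_coe, complexEmbedding_complexConjugation]

theorem resF_cc_mul_self :
    resF F complexConjugation * resF F complexConjugation = 1 := by
  rw [← map_mul, complexConjugation_mul_self, map_one]

theorem map_Dinf : Dinf.map (resF F) = stabilizer (F ≃ₐ[ℚ] F) (basePlace F) := by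
  rw [Dinf, MonoidHom.map_zpowers]
  ext τ
  rw [basePlace, InfinitePlace.mem_stabilizer_mk_iff]
  constructor
  · intro h
    obtain ⟨n, rfl⟩ := Subgroup.mem_zpowers_iff.1 h
    rcases Int.even_or_odd n with ⟨m, rfl⟩ | ⟨m, rfl⟩
    · left
      rw [← two_mul, zpow_mul, zpow_two, resF_cc_mul_self, one_zpow]
    · right
      rw [zpow_add, zpow_mul, zpow_two, resF_cc_mul_self, one_zpow, one_mul, zpow_one]
      exact isConj_baseEmb F
  · rintro (rfl | h)
    · exact one_mem _
    · rw [ComplexEmbedding.IsConj.ext h (isConj_baseEmb F)]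
      exact Subgroup.mem_zpowers _

/-- `⟨c⟩ g U ↦ (g|_F)⁻¹ • w₀`. -/
def placeOfDC : DC Dinf F.fixingSubgroup → InfinitePlace F :=
  dcToOrbit Dinf F.fixingSubgroup (resF F) (ker_resF F) (basePlace F) (map_Dinf F)

theorem placeOfDC_mk (g : _root_.Fermat.Agent.S55.PT.GQ) :
    placeOfDC F (Quotient.mk (orbitRel Dinf (_root_.Fermat.Agent.S55.PT.GQ ⧸ F.fixingSubgroup))
      (g : _root_.Fermat.Agent.S55.PT.GQ ⧸ F.fixingSubgroup)) = (resF F g)⁻¹ • basePlace F := rfl

/-- **Equivariance (infinite places).** -/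
theorem placeOfDC_dcPerm (σ : _root_.Fermat.Agent.S55.PT.GQ) (ω : DC Dinf F.fixingSubgroup) :
    placeOfDC F (dcPerm Dinf F.fixingSubgroup σ ω) = resF F σ • placeOfDC F ω :=
  dcToOrbit_dcPerm Dinf F.fixingSubgroup (resF F) (ker_resF F) (basePlace F) (map_Dinf F) σ ω

theorem placeOfDC_injective : Function.Injective (placeOfDC F) :=
  dcToOrbit_injective Dinf F.fixingSubgroup (resF F) (ker_resF F) (basePlace F) (map_Dinf F)

variable [FiniteDimensional ℚ F]

theorem orbit_basePlace : orbit (F ≃ₐ[ℚ] F) (basePlace F) = Set.univ := by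
  haveI : IsGalois ℚ F := ⟨⟩
  ext w
  simp only [Set.mem_univ, iff_true]
  obtain ⟨τ, hτ⟩ := InfinitePlace.exists_smul_eq_of_comap_eq (k := ℚ) (w := basePlace F) (w' := w)
    (Subsingleton.elim _ _)
  exact ⟨τ, hτ⟩

theorem placeOfDC_surjective : Function.Surjective (placeOfDC F) := by
  intro w
  have h : w ∈ Set.range (placeOfDC F) := by
    rw [placeOfDC, range_dcToOrbit Dinf F.fixingSubgroup (resF F) (ker_resF F) (basePlace F)
      (map_Dinf F) (resF_surjective F), orbit_basePlace]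
    exact Set.mem_univ w
  exact h

/-- **Infinite places.** `⟨c⟩\G_ℚ/G_F ≃ InfinitePlace F`. -/
theorem placeOfDC_bijective : Function.Bijective (placeOfDC F) :=
  ⟨placeOfDC_injective F, placeOfDC_surjective F⟩

/-- `⟨c⟩\G_ℚ/G_F ≃ InfinitePlace F`. -/
def placeDCEquiv : DC Dinf F.fixingSubgroup ≃ InfinitePlace F :=
  Equiv.ofBijective (placeOfDC F) (placeOfDC_bijective F)

@[simp] theorem placeDCEquiv_apply (ω : DC Dinf F.fixingSubgroup) :
    placeDCEquiv F ω = placeOfDC F ω := rfl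

end Infinite

end Fermat.Agent.S56.H419

end

end
-- ===== PACK-END S56/H419/H0Places.lean

-- ===== PACK-BEGIN S56/H419/H0Charpoly.lean
section



/-!
# S56 / W-BASE / leaf EUL-H0, part 6 (helper419): characteristic polynomials

`permCharpoly k σ` (helper614, `S56/H614/Lattice.lean`) is the characteristic polynomial of
`a ↦ a ∘ σ` on `X → k`.  Mathlib-only lemmas:

* `charpoly_eq_of_intertwine` : conjugate endomorphisms have the same characteristic polynomial;
* `permCharpoly_congr_equiv` : invariance under equivariant bijections;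
* `charpoly_lmapDomain` : `charpoly (mapDomain π | X →₀ M) = permCharpoly k π⁻¹` for `dim M = 1`;
* `permCharpoly_sum`, `permCharpoly_of_fibration` : multiplicativity on disjoint unions.

Then the characteristic polynomials of the right translations on the `H⁰`'s of `H0Ind`/`H0Dual`
(`charpoly_resIndH0`, `charpoly_resTdualIndH0`, `charpoly_minusR`, `charpoly_indH0`).
-/

set_option autoImplicit false
set_option linter.style.haveILetI false
set_option linter.unusedSectionVars false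

noncomputable section

namespace Fermat.Agent.S56.H419

open Fermat.Agent.S55.PT Fermat.Agent.S56.H614 groupCohomology MulAction Polynomial Module

/-! ### general lemmas -/

section General

variable {R : Type*} [CommRing R] {M₁ M₂ : Type*} [AddCommGroup M₁] [Module R M₁]
  [AddCommGroup M₂] [Module R M₂]

/-- Conjugate endomorphisms have the same characteristic polynomial. -/
theorem charpoly_eq_of_intertwine [Module.Finite R M₁] [Module.Free R M₁]
    [Module.Finite R M₂] [Module.Free R M₂]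
    (e : M₁ ≃ₗ[R] M₂) (f : M₁ →ₗ[R] M₁) (g : M₂ →ₗ[R] M₂) (h : ∀ x, e (f x) = g (e x)) :
    f.charpoly = g.charpoly := by
  have hg : g = e.conj f := by
    apply LinearMap.ext
    intro y
    rw [LinearEquiv.conj_apply, LinearMap.comp_apply, LinearMap.comp_apply,
      LinearEquiv.coe_coe, LinearEquiv.coe_coe, h, LinearEquiv.apply_symm_apply]
  rw [hg, LinearEquiv.charpoly_conj]

end General

section Perm

variable (k : Type*) [Field k] {X Y : Type*} [Finite X] [Finite Y]

/-- `permCharpoly` is invariant under equivariant bijections. -/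
theorem permCharpoly_congr_equiv (e : X ≃ Y) (σ : X → X) (τ : Y → Y)
    (h : ∀ x, e (σ x) = τ (e x)) : permCharpoly k σ = permCharpoly k τ := by
  unfold permCharpoly
  symm
  refine charpoly_eq_of_intertwine (LinearEquiv.funCongrLeft k k e) _ _ ?_
  intro a
  funext x
  simp only [LinearEquiv.funCongrLeft_apply, LinearMap.funLeft_apply, h]

/-- `permCharpoly` of equal maps. -/
theorem permCharpoly_congr {σ τ : X → X} (h : ∀ x, σ x = τ x) :
    permCharpoly k σ = permCharpoly k τ := by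
  have : σ = τ := funext h
  rw [this]

/-- The characteristic polynomial of `mapDomain π` on `X →₀ k`. -/
theorem charpoly_lmapDomain_self (π : Equiv.Perm X) :
    (Finsupp.lmapDomain k k π).charpoly = permCharpoly k π.symm := by
  unfold permCharpoly
  refine charpoly_eq_of_intertwine (Finsupp.linearEquivFunOnFinite k k X) _ _ ?_
  intro a
  funext x
  simp only [Finsupp.linearEquivFunOnFinite_apply, LinearMap.funLeft_apply,
    Finsupp.lmapDomain_apply]
  exact mapDomain_perm_apply π a x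

/-- The characteristic polynomial of `mapDomain π` on `X →₀ M`, `dim M = 1`. -/
theorem charpoly_lmapDomain {M : Type*} [AddCommGroup M] [Module k M] [Module.Finite k M]
    (hM : Module.finrank k M = 1) (π : Equiv.Perm X) :
    (Finsupp.lmapDomain M k π).charpoly = permCharpoly k π.symm := by
  have e : M ≃ₗ[k] k := LinearEquiv.ofFinrankEq M k (by rw [hM, Module.finrank_self])
  rw [← charpoly_lmapDomain_self]
  refine charpoly_eq_of_intertwine (Finsupp.mapRange.linearEquiv e) _ _ ?_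
  intro a
  ext x
  simp only [Finsupp.mapRange.linearEquiv_apply, Finsupp.lmapDomain_apply,
    Finsupp.mapRange_apply]
  rw [mapDomain_perm_apply, mapDomain_perm_apply, Finsupp.mapRange_apply]

/-- `permCharpoly` on a disjoint union. -/
theorem permCharpoly_sum (σ : X → X) (τ : Y → Y) :
    permCharpoly k (Sum.map σ τ) = permCharpoly k σ * permCharpoly k τ := by
  unfold permCharpoly
  rw [← LinearMap.charpoly_prodMap]
  refine charpoly_eq_of_intertwine (LinearEquiv.sumArrowLequivProdArrow X Y k k) _ _ ?_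
  intro a
  rfl

/-- `permCharpoly` on the empty set. -/
theorem permCharpoly_of_isEmpty [IsEmpty X] (σ : X → X) : permCharpoly k σ = 1 := by
  unfold permCharpoly
  haveI : Subsingleton (X → k) := inferInstance
  have hm : (LinearMap.funLeft k k σ).charpoly.Monic := LinearMap.charpoly_monic _
  rw [← Polynomial.Monic.natDegree_eq_zero hm, LinearMap.charpoly_natDegree]
  exact Module.finrank_zero_of_subsingleton

end Perm

/-! ### characteristic polynomials of right translations on `H⁰` -/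

section H0

variable {k : Type} [Field k] {G : Type} [Group G]

variable (U : Subgroup G) [U.Normal] [U.FiniteIndex] (M : Rep.{0, 0, 0} k G) [Module.Finite k M]

/-- **Global `H⁰`.** The characteristic polynomial of the right translation on
`H⁰(G, Ind_U M)` is that of `σ` on `M^U`. -/
theorem charpoly_indH0 (σ : G) :
    (pushH0 (A := indRep U M) (B := indRep U M) (indR U M σ)
      (indR_equivariant U M σ)).charpoly = (invUAct U M σ).charpoly :=
  charpoly_eq_of_intertwine (indH0Equiv U M) _ _ (indH0Equiv_indR U M σ)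

variable {G' : Type} [Group G'] (r : G' →* G)

/-- **Local `H⁰`, trivial coefficients of dimension 1.** -/
theorem charpoly_resIndH0 (hM : ∀ (g : G') (m : M), M.ρ (r g) m = m)
    (hM1 : Module.finrank k M = 1) (σ : G) :
    (pushH0 (A := Rep.res r (indRep U M)) (B := Rep.res r (indRep U M)) (indR U M σ)
      (indR_res_equivariant r U M σ)).charpoly =
      permCharpoly k (dcPerm r.range U σ).symm := by
  rw [← charpoly_lmapDomain k hM1 (dcPerm r.range U σ)]
  exact charpoly_eq_of_intertwine (resIndH0Equiv r U M hM) _ _ (resIndH0Equiv_indR r U M hM σ)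

/-- **Local `H⁰` of the Tate dual of `Ind_U k(χ)`.** -/
theorem charpoly_resTdualIndH0 (χ : G →* kˣ)
    (hM : ∀ (g : G) (m : M), M.ρ g m = (χ g : k) • m)
    (hM1 : Module.finrank k M = 1) (σ : G) :
    (pushH0 (A := Rep.res r ((indRep U M).dualTwist χ))
      (B := Rep.res r ((indRep U M).dualTwist χ)) (indRDual U M σ)
      (indRDual_res_equivariant r U M χ σ)).charpoly =
      permCharpoly k (dcPerm r.range U σ).symm := by
  have hD : Module.finrank k (Module.Dual k M) = 1 := by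
    rw [Subspace.dual_finrank_eq, hM1]
  rw [← charpoly_lmapDomain k hD (dcPerm r.range U σ)]
  exact charpoly_eq_of_intertwine (resTdualIndH0Equiv r U M χ hM) _ _
    (resTdualIndH0Equiv_indR r U M χ hM σ)

/-- **Archimedean term.** -/
theorem charpoly_minusR (c : G) (hc : ∀ m : M, M.ρ c m = -m)
    (hM1 : Module.finrank k M = 1) (σ : G) :
    (minusR c U M σ).charpoly = permCharpoly k (dcPerm (Subgroup.zpowers c) U σ).symm := by
  rw [← charpoly_lmapDomain k hM1 (dcPerm (Subgroup.zpowers c) U σ)]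
  exact charpoly_eq_of_intertwine (minusIndEquiv c U M hc) _ _ (minusIndEquiv_indR c U M hc σ)

end H0

end Fermat.Agent.S56.H419

end

end
-- ===== PACK-END S56/H419/H0Charpoly.lean

-- ===== PACK-BEGIN S56/H716/GWGlue4.lean
section




/-!
# Row S56 — layer 3d: glue of ROUTE C (deputy helper716)

* `hyp_mono`            : `Hyp 𝒪 p ρbar S Smin → S ⊆ S'' → Hyp 𝒪 p ρbar S'' Smin`
* `gwWall_of_base_sub`  : `Base(S') + RecQ(S, S') + UR-COUNT ⇒ GW-WALL(S, Smin)` for `Smin ⊆ S' ⊆ S`
* `recQ_of_recQSub`     : `RecQSubStatement → RecQStatement`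
* `tangentBoundSup_of`  : (TB) for `S ∪ S₀` from the leaves
* `result_of_leaves`    : the frozen statement S56 from the leaves of route C.
-/

set_option autoImplicit false

open Polynomial IsLocalRing

noncomputable section

namespace Fermat.Agent.S56.H716

open Fermat.Agent.S56

section

variable (𝒪 : Type) [CommRing 𝒪] [IsDomain 𝒪] [IsDiscreteValuationRing 𝒪]
  (p : ℕ) (ρbar : ResidualGaloisRep (ResidueField 𝒪)) (S Smin : Finset ℕ)

/-- The standing hypotheses pass to a bigger set of primes `S''`. -/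
theorem hyp_mono {S'' : Finset ℕ} (h : Hyp 𝒪 p ρbar S Smin) (hS : S ⊆ S'')
    (hprime : ∀ q ∈ S'', q.Prime) : Hyp 𝒪 p ρbar S'' Smin :=
  ⟨h.hp, h.hp2, h.hp𝒪, h.habs, h.hdet, h.hsplit, h.hTW, h.hpSmin, h.hSmin.trans hS, hprime,
    h.hmin⟩

/-- **Glue** `GW-WALL(S, Smin) ⇐ BASE(S') + REC-Q(S, S') + UR-COUNT` for `Smin ⊆ S' ⊆ S`. -/
theorem gwWall_of_base_sub (S' : Finset ℕ) (hSS' : Smin ⊆ S') (hS'S : S' ⊆ S)
    (hS'prime : ∀ q ∈ S', q.Prime)
    (hb : Base 𝒪 p ρbar S') (hr : RecQ 𝒪 p ρbar S S')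
    (hur : ∀ v : ℕ, v.Prime → v ∉ Smin → ∀ P : ValuationSubring Qb, P.LiesOverPrime v →
      ∃ Λ : Submodule (ResidueField 𝒪) (GQ → Module.End (ResidueField 𝒪) ρbar.V),
        Module.Finite (ResidueField 𝒪) Λ ∧
        Module.finrank (ResidueField 𝒪) Λ ≤
          Module.finrank (ResidueField 𝒪) (adInv ρbar (P.decompositionSubgroup ℚ)) ∧
        ∀ c, IsAdCocycle ρbar c → UnramAt ρbar c v →
          ∃ t ∈ Λ, IsAdCoboundaryOn ρbar (P.decompositionSubgroup ℚ) (c - t)) :
    GWWall 𝒪 p ρbar S Smin := by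
  classical
  obtain ⟨Pl, hPl, D, X, hD, hDur, hXfin, hX, hdim⟩ := hb
  refine ⟨Pl, fun v hv => hPl v (hSS' hv), fun Λ δ hΛ => ⟨D, hD, fun Q hQ hK => ?_⟩⟩
  obtain ⟨U, hUfin, hUdim, hU⟩ := hr Pl hPl D hD hDur Q hQ hK
  have hQS : ∀ q ∈ Q, q ∉ S' := fun q hq h => (hQ q hq).2.1 (hS'S h)
  -- the local spaces on `S'`
  let Λ' : ℕ → Submodule (ResidueField 𝒪) (GQ → Module.End (ResidueField 𝒪) ρbar.V) :=
    fun v => if h : v ∈ Smin then Λ v else
      if h' : v ∈ S' then (hur v (hS'prime v h') h (Pl v) (hPl v h')).choose else ⊥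
  have hΛ'1 : ∀ v, v ∈ Smin → Λ' v = Λ v := fun v h => dif_pos h
  have hΛ'2 : ∀ v (h : v ∉ Smin) (h' : v ∈ S'),
      Λ' v = (hur v (hS'prime v h') h (Pl v) (hPl v h')).choose := fun v h h' => by
    simp only [Λ', dif_neg h, dif_pos h']
  let h0 : ℕ → ℕ := fun v =>
    Module.finrank (ResidueField 𝒪) (adInv ρbar ((Pl v).decompositionSubgroup ℚ))
  let dd : ℕ → ℕ := fun v => if v ∈ Smin then δ v else 0
  have hfin' : ∀ v ∈ S', Module.Finite (ResidueField 𝒪) (Λ' v) := by
    intro v hvS'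
    by_cases h : v ∈ Smin
    · rw [hΛ'1 v h]
      exact (hΛ.1 v h).1
    · rw [hΛ'2 v h hvS']
      exact (hur v (hS'prime v hvS') h (Pl v) (hPl v hvS')).choose_spec.1
  have hbound' : ∀ v ∈ S', Module.finrank (ResidueField 𝒪) (Λ' v) ≤ h0 v + dd v := by
    intro v hvS'
    by_cases h : v ∈ Smin
    · rw [hΛ'1 v h]
      simpa [dd, h0, h] using (hΛ.1 v h).2
    · rw [hΛ'2 v h hvS']
      simpa [dd, h0, h] using
        (hur v (hS'prime v hvS') h (Pl v) (hPl v hvS')).choose_spec.2.1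
  have hsel' : ∀ c, IsSelCocycle ρbar Pl Λ Smin Q c → IsSelCocycle ρbar Pl Λ' S' Q c := by
    intro c hc
    refine ⟨hc.cocycle, fun q hq hqn => hc.unram q hq fun hq' => hqn ?_, fun v hvS' => ?_⟩
    · rcases Finset.mem_union.1 hq' with h | h
      · exact Finset.mem_union_left _ (hSS' h)
      · exact Finset.mem_union_right _ h
    · by_cases h : v ∈ Smin
      · rw [hΛ'1 v h]
        exact hc.loc v h
      · rw [hΛ'2 v h hvS']
        refine (hur v (hS'prime v hvS') h (Pl v) (hPl v hvS')).choose_spec.2.2 c hc.cocycle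
          (hc.unram v (hS'prime v hvS') fun hv' => ?_)
        rcases Finset.mem_union.1 hv' with h1 | h1
        · exact h h1
        · exact hQS v h1 hvS'
  obtain ⟨W, hWfin, hWdim, hW⟩ := exists_local_lift ρbar Pl Λ' S' Q hfin'
  have := hXfin
  have := hUfin
  have := hWfin
  refine ⟨W ⊔ U ⊔ X, inferInstance, ?_, fun c hc => ?_⟩
  · have h1 : Module.finrank (ResidueField 𝒪) ↥(W ⊔ U ⊔ X) ≤
        Module.finrank (ResidueField 𝒪) W + Module.finrank (ResidueField 𝒪) U +
          Module.finrank (ResidueField 𝒪) X :=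
      (Submodule.finrank_add_le_finrank_add_finrank (W ⊔ U) X).trans
        (Nat.add_le_add_right (Submodule.finrank_add_le_finrank_add_finrank W U) _)
    have h2 : ∑ v ∈ S', Module.finrank (ResidueField 𝒪) (Λ' v) ≤
        ∑ v ∈ S', h0 v + ∑ v ∈ S', dd v := by
      rw [← Finset.sum_add_distrib]
      exact Finset.sum_le_sum hbound'
    have h3 : ∑ v ∈ S', dd v = ∑ v ∈ Smin, δ v := by
      rw [← Finset.sum_subset hSS' (f := dd) fun v _ hv => by simp [dd, hv]]
      exact Finset.sum_congr rfl fun v hv => by simp [dd, hv]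
    have h7 := hΛ.2
    have hdim' : Module.finrank (ResidueField 𝒪) X + ∑ v ∈ S', h0 v + 1 ≤
        Module.finrank (ResidueField 𝒪) D := hdim
    omega
  · obtain ⟨w, hw, hcw⟩ := hW c (hsel' c hc)
    obtain ⟨u, hu, c', hc', hcob⟩ := hU (c - w) hcw
    obtain ⟨x, hx, hcob'⟩ := hX c' hc'
    refine ⟨w + u + x, Submodule.add_mem _ (Submodule.add_mem _
      (Submodule.mem_sup_left (Submodule.mem_sup_left hw))
      (Submodule.mem_sup_left (Submodule.mem_sup_right hu)))
      (Submodule.mem_sup_right hx), ?_⟩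
    have := hcob.add ρbar hcob'
    rwa [show c - w - u - c' + (c' - x) = c - (w + u + x) by abel] at this

end

/-- `REC-Q-SUB ⇒ REC-Q` (take `S' = Smin`). -/
theorem recQ_of_recQSub (hr : RecQSubStatement) : RecQStatement :=
  fun 𝒪 _ _ _ _ _ p ρbar S Smin hyp =>
    hr 𝒪 p ρbar S Smin hyp Smin (Finset.Subset.refl _) hyp.hSmin

section

variable (𝒪 : Type) [CommRing 𝒪] [IsDomain 𝒪] [IsDiscreteValuationRing 𝒪]
  [IsAdicComplete (maximalIdeal 𝒪) 𝒪] [Finite (ResidueField 𝒪)]
  (p : ℕ) (ρbar : ResidualGaloisRep (ResidueField 𝒪)) (S Smin : Finset ℕ)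

/-- (GW-WALL) for `S ∪ S₀`, `S₀` the big set of (BASE-BIG). -/
theorem exists_gwWall_sup (hb : BaseBigStatement) (hr : RecQSubStatement)
    (hur : UrCountStatement) (hyp : Hyp 𝒪 p ρbar S Smin) :
    ∃ S'' : Finset ℕ, S ⊆ S'' ∧ (∀ q ∈ S'', q.Prime) ∧ GWWall 𝒪 p ρbar S'' Smin := by
  classical
  obtain ⟨S₀, hS₀, hS₀prime, hbase⟩ := hb 𝒪 p ρbar S Smin hyp
  have hprime : ∀ q ∈ S ∪ S₀, q.Prime := fun q hq => by
    rcases Finset.mem_union.1 hq with h | h
    · exact hyp.hS q h
    · exact hS₀prime q h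
  have hyp'' : Hyp 𝒪 p ρbar (S ∪ S₀) Smin :=
    hyp_mono 𝒪 p ρbar S Smin hyp Finset.subset_union_left hprime
  exact ⟨S ∪ S₀, Finset.subset_union_left, hprime,
    gwWall_of_base_sub 𝒪 p ρbar (S ∪ S₀) Smin S₀ hS₀ Finset.subset_union_right hS₀prime hbase
      (hr 𝒪 p ρbar (S ∪ S₀) Smin hyp'' S₀ hS₀ Finset.subset_union_right)
      (hur 𝒪 p ρbar (S ∪ S₀) Smin hyp'')⟩

/-- (TB-ord) for some `S'' ⊇ S` from the leaves of route C. -/
theorem tangentBoundSupOrd_of (hdict : DictOrdStatement) (hmin : LocMinStatement)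
    (hord : LocOrdPStatement) (hb : BaseBigStatement) (hr : RecQSubStatement)
    (hur : UrCountStatement) (hyp : Hyp 𝒪 p ρbar S Smin) :
    TangentBoundSup 𝒪 p ρbar S (ordCond 𝒪 p Smin) := by
  obtain ⟨S'', hSS'', hprime, hw⟩ := exists_gwWall_sup 𝒪 p ρbar S Smin hb hr hur hyp
  have hyp'' : Hyp 𝒪 p ρbar S'' Smin := hyp_mono 𝒪 p ρbar S Smin hyp hSS'' hprime
  exact ⟨S'', hSS'', hprime,
    tangentBound_of_dict_selBound 𝒪 p ρbar S'' (ordCond 𝒪 p Smin) (hdict 𝒪 p ρbar S'' Smin hyp'')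
      (selBound_of_loc_gwWall 𝒪 p ρbar S'' Smin (ordCond 𝒪 p Smin)
        (locOrd_of hmin hord 𝒪 p ρbar S'' Smin hyp'') hw)⟩

/-- (TB-flat) for some `S'' ⊇ S` from the leaves of route C. -/
theorem tangentBoundSupFlat_of (hdict : DictFlatStatement) (hmin : LocMinStatement)
    (hflat : LocFlatPStatement) (hb : BaseBigStatement) (hr : RecQSubStatement)
    (hur : UrCountStatement) (hyp : Hyp 𝒪 p ρbar S Smin) :
    TangentBoundSup 𝒪 p ρbar S (flatCond 𝒪 p Smin) := by
  obtain ⟨S'', hSS'', hprime, hw⟩ := exists_gwWall_sup 𝒪 p ρbar S Smin hb hr hur hyp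
  have hyp'' : Hyp 𝒪 p ρbar S'' Smin := hyp_mono 𝒪 p ρbar S Smin hyp hSS'' hprime
  exact ⟨S'', hSS'', hprime,
    tangentBound_of_dict_selBound 𝒪 p ρbar S'' (flatCond 𝒪 p Smin)
      (hdict 𝒪 p ρbar S'' Smin hyp'')
      (selBound_of_loc_gwWall 𝒪 p ρbar S'' Smin (flatCond 𝒪 p Smin)
        (locFlat_of hmin hflat 𝒪 p ρbar S'' Smin hyp'') hw)⟩

/-- One half of S56 from (TB) for some `S'' ⊇ S`. -/
theorem half_of_sup (hP1 : PowerSeriesSurjStatement) (hTWP : TWPrimesStatement)
    (hyp : Hyp 𝒪 p ρbar S Smin) (cond : Finset ℕ → DefCond 𝒪)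
    (hTB : TangentBoundSup 𝒪 p ρbar S cond) :
    ∃ r : ℕ, ∀ n : ℕ, ∃ qv : Fin r → ℕ, Function.Injective qv ∧
      (∀ i, (qv i).Prime ∧ qv i ∉ S ∧ p ^ (n + 1) ∣ qv i - 1) ∧
      (∀ i, ∀ P : ValuationSubring (AlgebraicClosure ℚ), P.LiesOverPrime (qv i) →
        ∀ φ : AlgebraicClosure ℚ ≃ₐ[ℚ] AlgebraicClosure ℚ, P.IsFrobeniusAt φ (qv i) →
          ∃ α β : ResidueField 𝒪, α ≠ β ∧
            LinearMap.charpoly (ρbar.ρ φ) = (X - C α) * (X - C β)) ∧
      ∀ DQ : GaloisRep.DeformationRingData 𝒪 ρbar (cond (Finset.univ.image qv)),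
        ∃ γ : MvPowerSeries (Fin r) 𝒪 →ₐ[𝒪] DQ.R, Function.Surjective γ := by
  obtain ⟨S'', hSS'', hprime, hTB''⟩ := hTB
  obtain ⟨r, hr⟩ := half_of_inputs hP1 hTWP p ρbar S'' Smin
    (hyp_mono 𝒪 p ρbar S Smin hyp hSS'' hprime) cond hTB''
  refine ⟨r, fun n => ?_⟩
  obtain ⟨qv, hinj, hq, hfrob, hDQ⟩ := hr n
  exact ⟨qv, hinj, fun i => ⟨(hq i).1, fun h => (hq i).2.1 (hSS'' h), (hq i).2.2⟩, hfrob, hDQ⟩

end

/-- **S56 from the leaves of route C.** -/
theorem result_of_leaves (hdo : DictOrdStatement) (hdf : DictFlatStatement)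
    (hmin : LocMinStatement) (hord : LocOrdPStatement) (hflat : LocFlatPStatement)
    (hb : BaseBigStatement) (hr : RecQSubStatement) (hur : UrCountStatement)
    (hP1 : PowerSeriesSurjStatement) (hTWP : TWPrimesStatement)
    {𝒪 : Type} [CommRing 𝒪] [IsDomain 𝒪] [IsDiscreteValuationRing 𝒪]
    [IsAdicComplete (maximalIdeal 𝒪) 𝒪] [Finite (ResidueField 𝒪)]
    (p : ℕ) [Fact p.Prime] (hp2 : p ≠ 2) (hp𝒪 : (p : 𝒪) ∈ maximalIdeal 𝒪)
    (ρbar : ResidualGaloisRep (ResidueField 𝒪))
    (habs : ρbar.IsAbsolutelyIrreducible)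
    (hdet : (GaloisRepAdic.ofResidualGaloisRep ρbar).DetIsCyclotomic p)
    (hsplit : ∀ σ : AlgebraicClosure ℚ ≃ₐ[ℚ] AlgebraicClosure ℚ,
      ∃ α β : ResidueField 𝒪, LinearMap.charpoly (ρbar.ρ σ) = (X - C α) * (X - C β))
    (hTW : ∀ (K : Type) [Field K] [Algebra (ResidueField 𝒪) K]
      (G : Subgroup (AlgebraicClosure ℚ ≃ₐ[ℚ] AlgebraicClosure ℚ)), G.index = 2 →
      ∀ V : Submodule K (ρbar.baseChange K).V,
        (∀ σ ∈ G, ∀ x ∈ V, (ρbar.baseChange K).ρ σ x ∈ V) → V = ⊥ ∨ V = ⊤)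
    (S Smin : Finset ℕ) (hpSmin : p ∈ Smin) (hSmin : Smin ⊆ S) (hS : ∀ q ∈ S, q.Prime)
    (hmin' : ∀ q : ℕ, q.Prime → q ≠ p → (q ∈ Smin ↔ ¬ ρbar.IsUnramifiedAt q)) :
    (∃ r : ℕ, ∀ n : ℕ, ∃ qv : Fin r → ℕ, Function.Injective qv ∧
      (∀ i, (qv i).Prime ∧ qv i ∉ S ∧ p ^ (n + 1) ∣ qv i - 1) ∧
      (∀ i, ∀ P : ValuationSubring (AlgebraicClosure ℚ), P.LiesOverPrime (qv i) →
        ∀ φ : AlgebraicClosure ℚ ≃ₐ[ℚ] AlgebraicClosure ℚ, P.IsFrobeniusAt φ (qv i) →
          ∃ α β : ResidueField 𝒪, α ≠ β ∧ LinearMap.charpoly (ρbar.ρ φ) = (X - C α) * (X - C β)) ∧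
      ∀ DQ : GaloisRep.DeformationRingData 𝒪 ρbar (fun _A _ _ _ ρ =>
          GaloisRep.strictOrdinaryCondition 𝒪 p (Smin ∪ Finset.univ.image qv) ρ ∧
            ∀ q ∈ Smin, q.Prime → q ≠ p → ρ.IsUnipotentOnInertiaAt q),
        ∃ γ : MvPowerSeries (Fin r) 𝒪 →ₐ[𝒪] DQ.R, Function.Surjective γ) ∧
    (∃ r : ℕ, ∀ n : ℕ, ∃ qv : Fin r → ℕ, Function.Injective qv ∧
      (∀ i, (qv i).Prime ∧ qv i ∉ S ∧ p ^ (n + 1) ∣ qv i - 1) ∧
      (∀ i, ∀ P : ValuationSubring (AlgebraicClosure ℚ), P.LiesOverPrime (qv i) →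
        ∀ φ : AlgebraicClosure ℚ ≃ₐ[ℚ] AlgebraicClosure ℚ, P.IsFrobeniusAt φ (qv i) →
          ∃ α β : ResidueField 𝒪, α ≠ β ∧ LinearMap.charpoly (ρbar.ρ φ) = (X - C α) * (X - C β)) ∧
      ∀ DQ : GaloisRep.DeformationRingData 𝒪 ρbar (fun _A _ _ _ ρ =>
          GaloisRep.flatCondition 𝒪 p (Smin ∪ Finset.univ.image qv) ρ ∧
            ∀ q ∈ Smin, q.Prime → q ≠ p → ρ.IsUnipotentOnInertiaAt q),
        ∃ γ : MvPowerSeries (Fin r) 𝒪 →ₐ[𝒪] DQ.R, Function.Surjective γ) := by
  have H : Hyp 𝒪 p ρbar S Smin :=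
    ⟨Fact.out, hp2, hp𝒪, habs, hdet, hsplit, hTW, hpSmin, hSmin, hS, hmin'⟩
  exact ⟨half_of_sup 𝒪 p ρbar S Smin hP1 hTWP H (ordCond 𝒪 p Smin)
      (tangentBoundSupOrd_of 𝒪 p ρbar S Smin hdo hmin hord hb hr hur H),
    half_of_sup 𝒪 p ρbar S Smin hP1 hTWP H (flatCond 𝒪 p Smin)
      (tangentBoundSupFlat_of 𝒪 p ρbar S Smin hdf hmin hflat hb hr hur H)⟩

end Fermat.Agent.S56.H716

end

end
-- ===== PACK-END S56/H716/GWGlue4.lean

-- ===== PACK-BEGIN S56/RQ/SpecSub.lean
section



/-!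
# Row S56 — REC-Q-SUB (route C of helper716): statements (sub-architect helper554)

Target of route C: `H716.RecQSubStatement` (= REC-Q with `Smin` replaced by any `S'`,
`Smin ⊆ S' ⊆ S`).  SAME leaves as `RQ/Spec.lean`, except

* `GlobZSubStatement` (GLOBZ-SUB) replaces `GlobZStatement`: the same statement with `S'` instead
  of `Smin` (`c` unramified outside `S' ∪ Q`, `y` unramified outside `S'`); same proof.
* `PlainRecipGStatement` (RECIP-G) replaces `PlainRecipStatement`: the invariants are only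
  needed on GLOBAL 2-cocycles (`IsGlobZ p Sg z`), because the glue applies them to `c ∪ y` with
  `c`, `y` global.  This is exactly helper14's `H14.invRec` (on main), so
  `RECIP-G ⇐ S55.PT.InvSpec` by a short adapter (`RQ/RecipH554.lean`).

`recQSub_of : RECIP-G → FRAME → LINE → NONDEG → URCUP → LOCTRIV → COBCUP → CONJ → GLOBZ-SUB
    → H716.RecQSubStatement`   (`RQ/GlueSub.lean`).
-/

set_option autoImplicit false

open Polynomial IsLocalRing

noncomputable section

namespace Fermat.Agent.S56.RQ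

open Fermat.Agent.S56 Fermat.Agent.S56.H716

/-- The reciprocity package for `k(1)` and the finite set of primes `Sg`, on GLOBAL 2-cocycles
only. -/
def PlainRecipG (k : Type) [Field k] (p : ℕ) (Sg : Finset ℕ) : Prop :=
  ∃ (Pv : ℕ → ValuationSubring Qb) (inv : ℕ → (GQ × GQ → k) → k),
    (∀ v ∈ Sg, (Pv v).LiesOverPrime v) ∧
    (∀ v ∈ Sg, ∀ z z' : GQ × GQ → k, IsGlobZ p Sg z → IsGlobZ p Sg z' →
      inv v (z + z') = inv v z + inv v z') ∧
    (∀ v ∈ Sg, ∀ (r : k) (z : GQ × GQ → k), IsGlobZ p Sg z → inv v (r • z) = r * inv v z) ∧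
    (∀ v ∈ Sg, ∀ z : GQ × GQ → k, IsGlobZ p Sg z →
      IsCob₂On p ((Pv v).decompositionSubgroup ℚ) z → inv v z = 0) ∧
    (∀ v ∈ Sg, v ≠ p → p ∣ v - 1 → ∀ z : GQ × GQ → k, IsGlobZ p Sg z → inv v z = 0 →
      IsCob₂On p ((Pv v).decompositionSubgroup ℚ) z) ∧
    (∀ z : GQ × GQ → k, IsGlobZ p Sg z → ∑ v ∈ Sg, inv v z = 0)

/-- (RECIP-G): the plain reciprocity package on global 2-cocycles, for every finite field of
characteristic `p ≠ 2` and every finite set of primes containing `p`. -/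
def PlainRecipGStatement : Prop :=
  ∀ (k : Type) [Field k] [Finite k] (p : ℕ) [CharP k p], p.Prime → p ≠ 2 →
    ∀ Sg : Finset ℕ, p ∈ Sg → (∀ v ∈ Sg, v.Prime) → PlainRecipG k p Sg

/-- (GLOBZ-SUB): for `Smin ⊆ S' ⊆ S`, the cup product of an ad-cocycle unramified outside
`S' ∪ Q` and a twisted cocycle unramified outside `S'` is a global 2-cocycle of `k(1)`,
level-constant for a finite level unramified outside `S' ∪ Q`. -/
def GlobZSubStatement : Prop :=
  ∀ (𝒪 : Type) [CommRing 𝒪] [IsDomain 𝒪] [IsDiscreteValuationRing 𝒪]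
    [IsAdicComplete (maximalIdeal 𝒪) 𝒪] [Finite (ResidueField 𝒪)]
    (p : ℕ) (ρbar : ResidualGaloisRep (ResidueField 𝒪)) (S Smin : Finset ℕ),
    Hyp 𝒪 p ρbar S Smin → ∀ S' : Finset ℕ, Smin ⊆ S' → S' ⊆ S →
    ∀ Q : Finset ℕ, (∀ q ∈ Q, IsTWPrime ρbar p S q) →
    ∀ c y : GQ → Module.End (ResidueField 𝒪) ρbar.V, IsAdCocycle ρbar c →
      (∀ q : ℕ, q.Prime → q ∉ S' ∪ Q → UnramAt ρbar c q) →
      IsTwCocycle ρbar p y → (∀ q : ℕ, q.Prime → q ∉ S' → UnramAt ρbar y q) →
      IsGlobZ p (S' ∪ Q) (cup ρbar c y)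

/-- GLOBZ is the case `S' = Smin` of GLOBZ-SUB. -/
theorem globZ_of_sub (h : GlobZSubStatement) : GlobZStatement :=
  fun 𝒪 _ _ _ _ _ p ρbar S Smin hyp Q hQ c y hc hcur hy hyur =>
    h 𝒪 p ρbar S Smin hyp Smin (Finset.Subset.refl _) hyp.hSmin Q hQ c y hc hcur hy hyur

end Fermat.Agent.S56.RQ

end

end
-- ===== PACK-END S56/RQ/SpecSub.lean

-- ===== PACK-BEGIN S56/RQ/RecipWeak.lean
section


/-!
# Row S56 — REC-Q leaf RECIP from the WEAK invariant package (helper554, on helper14's bridge)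

S56 only needs, from the S55 side, a family of invariant maps `inv v : H²(G_v, μ_p) → F_p` with

* (RECIP) `Σ_v inv_v (loc_v y) = 0` for global classes `y` (`PT.RecipSpec`), and
* (INJ) `inv v` injective for the places `v ≡ 1 mod p` (`v ≠ p`).

`WeakInvInput` asks (INJ) at all places (helper904's `weakInv`, note #7879);
`WeakInvInput₁` only at `v ≠ p`, `p ∣ v − 1`.  `PT.InvSpec` implies `WeakInvInput₁`
(`weakInvInput₁_of_invSpec`), and

`plainRecip_of_weak₁ : WeakInvInput₁ → PlainRecipStatement`,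
`plainRecip_of_weak : WeakInvInput → PlainRecipStatement`.

Same construction as `H14.plainRecip_of` (`RQ/RecipH14.lean`).
-/

set_option autoImplicit false

noncomputable section

namespace Fermat.Agent.S56.RQ.H554

open groupCohomology Fermat.Agent.S55.PT ExtCitation Fermat.Agent.S56.H14
  Fermat.Agent.S56 Fermat.Agent.S56.RQ Fermat.Agent.S56.RQ.H14

/-- The weak invariant package, injectivity only at the places `v ≠ p`, `v ≡ 1 mod p`. -/
def WeakInvInput₁ : Prop :=
  ∀ (p : ℕ) [Fact p.Prime] (S : Finset Nat.Primes), p ≠ 2 → pPrime p ∈ S →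
    ∃ inv : InvFamily p S, RecipSpec inv ∧
      ∀ v : ↥S, ((v.1 : Nat.Primes) : ℕ) ≠ p → p ∣ ((v.1 : Nat.Primes) : ℕ) - 1 →
        Function.Injective (inv v)

/-- The weak invariant package, injectivity at all places of `S`. -/
def WeakInvInput : Prop :=
  ∀ (p : ℕ) [Fact p.Prime] (S : Finset Nat.Primes), p ≠ 2 → pPrime p ∈ S →
    ∃ inv : InvFamily p S, RecipSpec inv ∧ ∀ v : ↥S, Function.Injective (inv v)

theorem weakInvInput₁_of_weakInvInput (h : WeakInvInput) : WeakInvInput₁ := by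
  intro p _ S hp2 hpS
  obtain ⟨inv, hrec, hinj⟩ := h p S hp2 hpS
  exact ⟨inv, hrec, fun v _ _ => hinj v⟩

theorem weakInvInput₁_of_invSpec
    (hS55 : ∀ (p : ℕ) [Fact p.Prime] (S : Finset Nat.Primes), p ≠ 2 → pPrime p ∈ S →
      InvSpec p S) : WeakInvInput₁ := by
  intro p _ S hp2 hpS
  obtain ⟨inv, hrec, htop, -⟩ := hS55 p S hp2 hpS
  exact ⟨inv, hrec, fun v hvp hdvd => (inv_bijective_of_dvd_sub_one htop v hvp hdvd).1⟩

section

variable {p : ℕ} [Fact p.Prime] {K : Type} [Field K] [Algebra (ZMod p) K]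
  {S : Finset Nat.Primes} [FiniteDimensional (ZMod p) K]

/-- (inj), from the injectivity of `inv v`. -/
theorem isCob_of_invExt_eq_zero_of_injective {inv : InvFamily p S} (v : ↥S)
    (hinj : Function.Injective (inv v)) {z : _root_.Fermat.Agent.S56.GQ × _root_.Fermat.Agent.S56.GQ → K}
    (hc : IsCoc₂On p ((natPlace ((v.1 : Nat.Primes) : ℕ)).decompositionSubgroup ℚ) z)
    (hl : IsLC₂On ((natPlace ((v.1 : Nat.Primes) : ℕ)).decompositionSubgroup ℚ) z)
    (h0 : invExt inv v z = 0) :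
    IsCob₂On p ((natPlace ((v.1 : Nat.Primes) : ℕ)).decompositionSubgroup ℚ) z := by
  have hz : z ∈ Zloc p K v.1 := mem_Zloc_of_isCoc v.1 hc hl
  rw [invExt_apply inv v hz] at h0
  have h1 : extInv (W := K) (localLevels v.1) ((cycloChar p).comp (rl v.1)) (inv v)
      (clsLoc v.1 ⟨z, hz⟩) = 0 := h0
  have h2 := (extInv_eq_zero_iff (W := K) (localLevels v.1) ((cycloChar p).comp (rl v.1))
    (inv := inv v) hinj (clsLoc v.1 ⟨z, hz⟩)).1 h1
  exact isCob_of_clsLoc_eq_zero v.1 ⟨z, hz⟩ h2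

end

/-- **RECIP** from the weak invariant package (injectivity at `v ≡ 1 mod p`, `v ≠ p`). -/
theorem plainRecip_of_weak₁ (hW : WeakInvInput₁) : PlainRecipStatement := by
  intro K _ _ p _ hp hp2 Sg hpSg hSg
  have : Fact p.Prime := ⟨hp⟩
  let _ : Algebra (ZMod p) K := ZMod.algebra K p
  have : FiniteDimensional (ZMod p) K := Module.Finite.of_finite
  have hpS : pPrime p ∈ primesOf Sg := mem_primesOf.2 hpSg
  obtain ⟨inv, hrec, hinj⟩ := hW p (primesOf Sg) hp2 hpS
  classical
  -- the index of a prime of `Sg` in `primesOf Sg`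
  let idx : ∀ v : ℕ, v ∈ Sg → ↥(primesOf Sg) :=
    fun v hv => ⟨⟨v, hSg v hv⟩, mem_primesOf.2 hv⟩
  let invN : ℕ → (_root_.Fermat.Agent.S56.GQ × _root_.Fermat.Agent.S56.GQ → K) →ₗ[K] K :=
    fun v => if hv : v ∈ Sg then invExt inv (idx v hv) else 0
  have hinvN : ∀ (v : ℕ) (hv : v ∈ Sg), invN v = invExt inv (idx v hv) := by
    intro v hv
    show (if hv : v ∈ Sg then invExt inv (idx v hv) else 0) = _
    rw [dif_pos hv]
  refine ⟨natPlace, invN, fun v hv => natPlace_liesOver (hSg v hv), ?_, ?_, ?_⟩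
  · intro v hv z hz
    rw [hinvN v hv]
    exact invExt_eq_zero_of_isCob inv (idx v hv) hz
  · intro v hv hdvd z hc hl h0
    rw [hinvN v hv] at h0
    have hvp : v ≠ p := by
      rintro rfl
      have h1 : v ≤ v - 1 := Nat.le_of_dvd (Nat.sub_pos_of_lt hp.one_lt) hdvd
      have h2 := hp.pos
      omega
    exact isCob_of_invExt_eq_zero_of_injective (idx v hv) (hinj (idx v hv) hvp hdvd) hc hl h0
  · intro z hz
    have h1 := sum_invExt_eq_zero hrec hz
    have h2 : ∑ v ∈ Sg, invN v z = ∑ q ∈ primesOf Sg, invN (q : ℕ) z :=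
      (Finset.sum_subtype_of_mem (fun v => invN v z) hSg).symm
    rw [h2, ← Finset.sum_coe_sort (primesOf Sg) (fun q => invN (q : ℕ) z), ← h1]
    refine Finset.sum_congr rfl fun w _ => ?_
    have hw : ((w.1 : Nat.Primes) : ℕ) ∈ Sg := mem_primesOf.1 w.2
    have hidx : idx _ hw = w := Subtype.ext (Subtype.ext rfl)
    rw [hinvN _ hw, hidx]

/-- **RECIP** from the weak invariant package (injectivity at all places). -/
theorem plainRecip_of_weak (hW : WeakInvInput) : PlainRecipStatement :=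
  plainRecip_of_weak₁ (weakInvInput₁_of_weakInvInput hW)

end Fermat.Agent.S56.RQ.H554

end

end
-- ===== PACK-END S56/RQ/RecipWeak.lean

-- ===== PACK-BEGIN S59/H659/SigmaCond.lean
section






/-!
# S59, cell COND (helper659): `Arch.SigmaCondStatement`

The conditions `Arch.sigmaCond 𝒪 p t Smin Σ` of type `Σ` (`t = .flat`, `.sord`, `.ord`) are
deformation conditions with finite tangent spaces:

* `.flat` : `isDeformationCondition_flat_unipotent_closed` (`FlatClosed.lean`; helper779 +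
  Raynaud closure from cell A3);
* `.sord` : `isDeformationCondition_strictOrdinary_unipotent` (`Conditions.lean`);
* `.ord`  : `isDeformationCondition_ordinary_unipotent` (`Ord.lean`);
* tangent spaces: helper247 (`H247.tangentFinite_of_unramified_outside`).

Also: `nonempty_deformationRingData_sigmaCond` — the universal deformation ring `R_Σ` exists
(S53) for every absolutely irreducible `ρ̄` of type `Σ`.
-/

set_option autoImplicit false
set_option linter.unusedSectionVars false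

namespace Fermat.Agent.S59.H659

open IsLocalRing Fermat.Agent.S59.Arch

section

variable (𝒪 : Type) [CommRing 𝒪] [IsLocalRing 𝒪] [Finite (ResidueField 𝒪)]
  (p : ℕ) (hp : p.Prime) (hp2 : p ≠ 2) (t : PType) (Smin Sig : Finset ℕ)

include hp hp2 in
/-- The conditions of type `Σ` are deformation conditions. -/
theorem isDeformationCondition_sigmaCond :
    GaloisRep.IsDeformationCondition 𝒪 (sigmaCond 𝒪 p t Smin Sig) := by
  cases t
  · exact isDeformationCondition_flat_unipotent_closed 𝒪 p hp Sig Smin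
  · exact isDeformationCondition_strictOrdinary_unipotent 𝒪 p hp hp2 Sig Smin
  · exact isDeformationCondition_ordinary_unipotent 𝒪 p hp hp2 Sig Smin

/-- The conditions of type `Σ` have finite tangent spaces. -/
theorem tangentFinite_sigmaCond (ρbar : ResidualGaloisRep (ResidueField 𝒪)) :
    GaloisRep.TangentFinite 𝒪 ρbar (sigmaCond 𝒪 p t Smin Sig) := by
  cases t
  · exact H247.tangentFinite_of_unramified_outside 𝒪 ρbar _ Sig fun _ _ h => h.1.2.2
  · exact H247.tangentFinite_of_unramified_outside 𝒪 ρbar _ Sig fun _ _ h => h.1.2.2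
  · exact H247.tangentFinite_of_unramified_outside 𝒪 ρbar _ Sig fun _ _ h => h.1.2.2

end

/-- **Cell COND.** -/
theorem sigmaCondStatement : SigmaCondStatement := by
  intro p hpF hp2 𝒪 _ _ _ _ _ _ t Smin Sig
  exact ⟨isDeformationCondition_sigmaCond 𝒪 p hpF.out hp2 t Smin Sig,
    fun ρbar => tangentFinite_sigmaCond 𝒪 p t Smin Sig ρbar⟩

/-- **The universal deformation ring of type `Σ` exists** (S53 + cell COND). -/
theorem nonempty_deformationRingData_sigmaCond
    (𝒪 : Type) [CommRing 𝒪] [IsDomain 𝒪] [IsDiscreteValuationRing 𝒪]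
    [IsAdicComplete (maximalIdeal 𝒪) 𝒪] [Finite (ResidueField 𝒪)]
    (ρbar : ResidualGaloisRep (ResidueField 𝒪)) (habs : ρbar.IsAbsolutelyIrreducible)
    (p : ℕ) (hp : p.Prime) (hp2 : p ≠ 2) (t : PType) (Smin Sig : Finset ℕ)
    (hbar : sigmaCond 𝒪 p t Smin Sig (GaloisRepAdic.ofResidualGaloisRep ρbar)) :
    Nonempty (GaloisRep.DeformationRingData 𝒪 ρbar (sigmaCond 𝒪 p t Smin Sig)) :=
  Fermat.Agent.S53.result 𝒪 ρbar _ habs (isDeformationCondition_sigmaCond 𝒪 p hp hp2 t Smin Sig)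
    hbar (tangentFinite_sigmaCond 𝒪 p t Smin Sig ρbar)

end Fermat.Agent.S59.H659

end
-- ===== PACK-END S59/H659/SigmaCond.lean

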