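import Fermat.Agent.Pack.S43GC.G0E20L1
import Fermat.Agent.Pack.S43GC.G0E20L3
import Fermat.Agent.Pack.S43GC.G0E19L1
import Fermat.Agent.Pack.S43GC.G0E20L0
import Fermat.Agent.Pack.S43GC.G0E17L3
import Fermat.Agent.Pack.S43GC.G0E18L3
import Fermat.Agent.Pack.S43GC.G0E6L0
import Fermat.Agent.Pack.S43GC.G0E1L1
import Fermat.Agent.Pack.S43GC.G0E3L3
import Fermat.Agent.Pack.S43GC.G0E10L2
import Fermat.Agent.Pack.S43GC.G0E12L2
import Fermat.Agent.Pack.S43GC.G0E18L0
import Fermat.Agent.Pack.S43GC.G0E1L3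
import Fermat.Agent.Pack.S43GC.G0E12L1
import Fermat.Agent.Pack.S43GC.G0E19L3
import Fermat.Agent.Pack.S43GC.G0E10L1
import Fermat.Agent.Pack.S43GC.G0E8L0
import Fermat.Agent.Pack.S43GC.G0E8L3
import Fermat.Agent.Pack.S43GC.G0E7L1
import Fermat.Agent.Pack.S43GC.G0E11L1
import Fermat.Agent.Pack.S43GC.G0E20L2
import Fermat.Agent.Pack.S43GC.G0E2L2
import Fermat.Agent.Pack.Fast891

-- ===== PACK-BEGIN S55/PT/Final2.lean
section




/-!
# S55 / layer D: final wiring, version 2 (helper835)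

ALL formal leaves of layer D are now proved (D-T2a by helper299, D-T2b by helper123).
S55 is reduced to exactly the four arithmetic inputs

* `Surj2GlobSpec p S` (A3: `H²(G_S, -)` right exact),
* `Surj2LocSpec p S`  (A4: `H²(G_q, -)` right exact),
* `InvSpec p S`       (A5–A7: invariant maps, reciprocity, top duality on induced `μ`),
* `CapSpec p S`       (A8: `Ш²(Ind_U μ) → Ш²(Ind_V μ)` eventually zero).
-/

set_option autoImplicit false

noncomputable section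

namespace Fermat.Agent.S55.PT

open groupCohomology ExtCitation Fermat.Agent.S55.Bridge

/-- **Theorem D from the four arithmetic inputs** A3, A4, A5–A7, A8. -/
theorem theoremD_of_four (p : ℕ) [Fact p.Prime] (S : Finset Nat.Primes) (hpS : pPrime p ∈ S)
    (hSurjG : Surj2GlobSpec p S) (hSurjL : Surj2LocSpec p S)
    (hInv : InvSpec p S) (hCap : CapSpec p S) : TheoremDSpec p S :=
  theoremD_of_arith p S hpS (H299.topLocDev p S) (H123.topGlobDev p S) hSurjG hSurjL hInv hCap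

/-- **S55 from the four arithmetic inputs** A3, A4, A5–A7, A8. -/
theorem s55_of_four {p : ℕ} [Fact p.Prime] (hp2 : p ≠ 2) (S : Finset Nat.Primes)
    (hpS : pPrime p ∈ S)
    (hSurjG : Surj2GlobSpec p S) (hSurjL : Surj2LocSpec p S)
    (hInv : InvSpec p S) (hCap : CapSpec p S)
    (M : Rep (ZMod p) (AlgebraicClosure ℚ ≃ₐ[ℚ] AlgebraicClosure ℚ))
    [FiniteDimensional (ZMod p) M]
    (hsm : ∀ m : M, ∃ F : IntermediateField ℚ (AlgebraicClosure ℚ), FiniteDimensional ℚ F ∧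
      ∀ s ∈ F.fixingSubgroup, M.ρ s m = m)
    (hMur : ∀ q : Nat.Primes, q ∉ S → ∀ A : ValuationSubring (AlgebraicClosure ℚ),
      A.LiesOverPrime (q : ℕ) → ∀ g ∈ A.inertiaSubgroupIn ℚ, M.ρ g = 1) :
    ∃ B : sha₁ S (M.dualTwist (cycloChar p)) →ₗ[ZMod p] sha₂ S M →ₗ[ZMod p] ZMod p,
      (∀ y, (∀ x, B y x = 0) → y = 0) ∧ (∀ x, (∀ y, B y x = 0) → x = 0) :=
  s55_of_arith hp2 S hpS (H299.topLocDev p S) (H123.topGlobDev p S) hSurjG hSurjL hInv hCap M hsm hMur

end Fermat.Agent.S55.PT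

end

end
-- ===== PACK-END S55/PT/Final2.lean

-- ===== PACK-BEGIN S55/K/AR/Assembly.lean
section
/-
S55 moonshot — LAYER K, block AR: ASSEMBLY of the arithmetic core.          helper4.
No `sorry`.

`towers_of_leaves`   : the leaves of `K/AR/Spec.lean` ⇒ E3, E2, HASSE, COKER, WEAK RECIPROCITY;
`surj2Glob_of_leaves`: the leaves + `Tow.GlobalSpecFin S p` + `Tow.LocalSpec p` ⇒ input A3 of layer D
                       (`PT.Surj2GlobSpec p S`).
-/



set_option autoImplicit false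

noncomputable section

namespace Fermat.Agent.S55.K.AR

open Fermat.Agent.S55 Fermat.Agent.S55.Tow ExtCitation

/-- All the leaves of the arithmetic core. -/
structure Leaves (S : Finset Nat.Primes) (p : ℕ) : Prop where
  ses : SesLeaf S p
  cap1 : CapH1Leaf S p
  cap2 : CapH2Leaf S p
  h1C : H1CLeaf S p
  h2C : H2CLeaf S p
  kappa : KappaLeaf S p
  h3J : H3JLeaf S p
  j2Div : J2DivLeaf S p
  dec : DecLeaf S p
  muDir : MuDirLeaf S p
  surjJC : SurjJCLeaf S p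
  kerDiv : KerDivLeaf S p
  hasse : HasseLeaf S p
  e3 : E3Leaf S p
  e2 : E2Leaf S p
  coker : CokerLeaf S p
  weakRecip : WeakRecipLeaf S p

variable {S : Finset Nat.Primes} {p : ℕ}

/-- The tower statements from the leaves. -/
theorem towers_of_leaves (ℓ : Leaves S p) (c : Ctx S p) (hL : LocalSpec p) :
    E3Tower S p ∧ E2Tower S p ∧ HasseTower S p ∧ CokerTower S p ∧ WeakRecipTower S p := by
  obtain ⟨hp, -, -⟩ := c.adm
  have hses := ℓ.ses c
  have hmu := ℓ.muDir c.adm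
  have hdec := ℓ.dec c.adm
  have hcyc := ℓ.h2C c
  have hkap := ℓ.kappa c hL
  have hcap2 := ℓ.cap2 c
  have hhasse : HasseTower S p := ℓ.hasse c hses (ℓ.h1C c) (ℓ.cap1 c) hmu
  have hsurj := ℓ.surjJC c hcyc hkap hdec
  have hker := ℓ.kerDiv c hcyc hkap hdec (ℓ.j2Div hp hL)
  exact ⟨ℓ.e3 c hses (ℓ.h3J hp hL) hsurj hcap2 hmu, ℓ.e2 c hses hker hcap2 hhasse hmu,
    hhasse, ℓ.coker c hses hcyc hcap2 hhasse hmu, ℓ.weakRecip c⟩

/-- **Input A3 of layer D from the arithmetic core.** -/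
theorem surj2Glob_of_leaves (p : ℕ) [Fact p.Prime] (S : Finset Nat.Primes) (ℓ : Leaves S p)
    (hD3 : DictE3Spec S p) (hD2 : DictE2Spec S p)
    (hG : GlobalSpecFin S p) (hL : LocalSpec p) (hp2 : p ≠ 2) (hpS : pPrime p ∈ S) :
    Fermat.Agent.S55.PT.Surj2GlobSpec p S := by
  obtain ⟨D, hD⟩ := hG
  have c : Ctx S p := ⟨D, hD, ⟨(Fact.out : p.Prime), hp2, hpS⟩⟩
  obtain ⟨h3, h2, -⟩ := towers_of_leaves ℓ c hL
  exact surj2Glob_of_go12 p S (Fermat.Agent.S55.K.H724.kummer p S)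
    (go12_of_tower p S hD3 hD2 h3 h2) hp2 hpS

end Fermat.Agent.S55.K.AR

end

end
-- ===== PACK-END S55/K/AR/Assembly.lean

-- ===== PACK-BEGIN S55/K/AR/DictH587.lean
section
/-
S55 moonshot — LAYER K, block AR, leaf **AR-DICT** (helper587).
`dictE3 : DictE3Spec S p`, `dictE2 : DictE2Spec S p`  (`K/AR/Spec.lean` §2).

Dictionary tower → finite levels of `G_ℚ`.  For a level `L` of the tower (`F = L.F`, `U_F = L.U`),
a subgroup `H ≤ Gal(F/ℚ)` and its full preimage `V ≤ G_ℚ` (`IsPre L H V`):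
* `quotEquiv : V ⧸ (U_F ∩ V) ≃* H`,  `dictEquiv : 𝔼^{U_F ∩ V} ≃ E(F)` (the two notions of `S`-unit
  agree: `isSUnit_level_iff`, via helper371),
* `dictIso : KL.HL (Res_V 𝔼) (U_F ∩ V) n ≅ Hn H (E(F)) n` (Mathlib `groupCohomology.mapIso`),
* `dict_infl` : `dictIso⁻¹` intertwines `infUp h H (trS h) n` with `KL.infl`.
A level `W ∩ V` of `(gN S).restrict V` contains some `U_F ∩ V` with `U_F ≤ V` (`exists_level_le`).
-/




set_option autoImplicit false

open CategoryTheory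

namespace Fermat.Agent.S55.K.AR.H587

open Fermat.Agent.S55 Fermat.Agent.S55.Tow Fermat.Agent.S55.E1.Lim

noncomputable section

variable {S : Finset Nat.Primes}

/-- The two notions of `S`-unit agree. -/
lemma isSUnit_level_iff (L : Level S) (x : L.units.V) :
    L.IsSUnit x ↔ K.IsSUnit S (L.val x) := by
  constructor
  · intro h
    apply K.GO3H535.H371.isSUnit_of_forall_liesOver
    intro q hq A hA
    exact (K.GO3H535.H371.unitAt_iff_mem (L.val x).ne_zero).2 (by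
      have := h q hq A hA
      rwa [Units.val_inv_eq_inv_val] at this)
  · intro h ℓ hℓ A hA
    exact h A (K.GO3H535.H371.outsideS_of_liesOver hℓ hA)

section Grp

variable (L : Level S) (H : Subgroup L.Gal) (V : Subgroup GQ)

/-- `V` is the full preimage of `H ≤ Gal(F/ℚ)` in `G_ℚ`. -/
def IsPre : Prop := ∀ g : GQ, g ∈ V ↔ (QuotientGroup.mk g : L.Gal) ∈ H

variable {L H V}

lemma IsPre.le (hV : IsPre L H V) : L.U ≤ V := fun g hg =>
  (hV g).2 (by rw [(QuotientGroup.eq_one_iff g).2 hg]; exact H.one_mem)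

/-- `V → H`, `v ↦ v mod U_F`. -/
def toH (hV : IsPre L H V) : ↥V →* ↥H where
  toFun v := ⟨QuotientGroup.mk v.1, (hV v.1).1 v.2⟩
  map_one' := rfl
  map_mul' _ _ := rfl

lemma toH_surjective (hV : IsPre L H V) : Function.Surjective (toH hV) := by
  rintro ⟨h, hh⟩
  obtain ⟨g, rfl⟩ := QuotientGroup.mk_surjective h
  exact ⟨⟨g, (hV g).2 hh⟩, rfl⟩

lemma toH_ker (hV : IsPre L H V) : (toH hV).ker = L.U.subgroupOf V := by
  ext v
  rw [MonoidHom.mem_ker, Subgroup.mem_subgroupOf]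
  constructor
  · intro h
    have := congrArg Subtype.val h
    exact (QuotientGroup.eq_one_iff v.1).1 this
  · intro h
    exact Subtype.ext ((QuotientGroup.eq_one_iff v.1).2 h)

/-- `V ⧸ (U_F ∩ V) ≃ H`. -/
def quotEquiv (hV : IsPre L H V) : (↥V ⧸ L.U.subgroupOf V) ≃* ↥H :=
  (QuotientGroup.quotientMulEquivOfEq (toH_ker hV).symm).trans
    (QuotientGroup.quotientKerEquivOfSurjective (toH hV) (toH_surjective hV))

@[simp] lemma quotEquiv_mk (hV : IsPre L H V) (v : ↥V) :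
    quotEquiv hV (QuotientGroup.mk v) = toH hV v := rfl

lemma isPre_up {L' : Level S} (h : L ≤ L') (hV : IsPre L H V) : IsPre L' (up h H) V :=
  fun g => hV g

lemma isPre_map (hle : L.U ≤ V) : IsPre L (V.map (QuotientGroup.mk' L.U)) V := by
  intro g
  constructor
  · intro hg
    exact ⟨g, hg, rfl⟩
  · rintro ⟨g', hg', he⟩
    have h1 : g'⁻¹ * g ∈ L.U := QuotientGroup.eq.1 he
    have h2 : g = g' * (g'⁻¹ * g) := by group
    rw [h2]
    exact V.mul_mem hg' (hle h1)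

lemma index_eq (hV : IsPre L H V) : H.index = V.index := by
  have h1 : V = H.comap (QuotientGroup.mk' L.U) := by
    ext g
    exact hV g
  rw [h1]
  exact (Subgroup.index_comap_of_surjective H (QuotientGroup.mk'_surjective L.U)).symm

end Grp

section Mod

attribute [local instance 10000] Rep.hV2

/-- The module `𝔼^{U_F ∩ V}` of `V ⧸ (U_F ∩ V)`. -/
abbrev BV (V : Subgroup GQ) (L : Level S) : Rep.{0} ℤ (↥V ⧸ L.U.subgroupOf V) :=
  (Rep.res V.subtype (K.sUnits S)).quotientToInvariants (L.U.subgroupOf V)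

variable {L : Level S} {H : Subgroup L.Gal} {V : Subgroup GQ}

/-- The underlying element of `ℚ̄ˣ`. -/
def bCoe (b : (BV V L).V) : unitsQbar.V := (b.1.1 : Additive _root_.Fermat.Agent.S55.K.Qbarˣ)

lemma bCoe_injective : Function.Injective (bCoe : (BV V L).V → unitsQbar.V) := by
  intro b b' h
  exact Subtype.ext (Subtype.ext h)

lemma bCoe_isSUnit (b : (BV V L).V) : K.IsSUnit S (Additive.toMul (bCoe b)) := b.1.2

lemma bCoe_fixed (b : (BV V L).V) (g : GQ) (hgV : g ∈ V) (hg : g ∈ L.U) :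
    unitsQbar.ρ g (bCoe b) = bCoe b := by
  have := b.2 ⟨⟨g, hgV⟩, Subgroup.mem_subgroupOf.2 hg⟩
  exact congrArg Subtype.val this

lemma bCoe_ρ (b : (BV V L).V) (v : ↥V) :
    bCoe ((BV V L).ρ (QuotientGroup.mk v) b) = unitsQbar.ρ v.1 (bCoe b) := rfl

/-- The underlying element of `ℚ̄ˣ`. -/
def aCoe (a : (E1.Lim.sUnits L).V) : unitsQbar.V := L.unitsCoe (subVal a)

lemma aCoe_injective : Function.Injective (aCoe : (E1.Lim.sUnits L).V → unitsQbar.V) := by
  intro a a' h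
  exact subVal_injective (L.unitsCoe_injective h)

lemma aCoe_ρ (a : (E1.Lim.sUnits L).V) (g : GQ) :
    aCoe ((E1.Lim.sUnits L).ρ (QuotientGroup.mk g) a) = unitsQbar.ρ g (aCoe a) := rfl

lemma aCoe_fixed (a : (E1.Lim.sUnits L).V) (g : GQ) (hg : g ∈ L.U) :
    unitsQbar.ρ g (aCoe a) = aCoe a := L.unitsCoe_fixed (subVal a) g hg

lemma aCoe_isSUnit (a : (E1.Lim.sUnits L).V) : K.IsSUnit S (Additive.toMul (aCoe a)) :=
  (isSUnit_level_iff L (subVal a)).1 (isSUnit_of_mem L (subVal_mem a))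


/-- `𝔼^{U_F ∩ V} → E(F)` on elements. -/
def fwdFun (hle : L.U ≤ V) (b : (BV V L).V) : (E1.Lim.sUnits L).V :=
  subMk (A := L.units) (W := sUnitsAdd L) (hW := sUnitsAdd_stable L)
    (L.unitsMk (bCoe b) (fun g hg => bCoe_fixed b g (hle hg) hg)) (by
    intro g
    induction g using QuotientGroup.induction_on with
    | H σ =>
      rw [isSUnit_level_iff]
      exact K.IsSUnit.smul (bCoe_isSUnit b) σ)

lemma aCoe_fwdFun (hle : L.U ≤ V) (b : (BV V L).V) : aCoe (fwdFun hle b) = bCoe b := rfl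

/-- `E(F) → 𝔼^{U_F ∩ V}` on elements. -/
def bwdFun (V : Subgroup GQ) (a : (E1.Lim.sUnits L).V) : (BV V L).V :=
  ⟨⟨aCoe a, aCoe_isSUnit a⟩, fun w =>
    Subtype.ext (aCoe_fixed a w.1.1 (Subgroup.mem_subgroupOf.1 w.2))⟩

lemma bCoe_bwdFun (a : (E1.Lim.sUnits L).V) : bCoe (bwdFun V a) = aCoe a := rfl

/-- `𝔼^{U_F ∩ V} ≃ E(F)`. -/
def dictEquiv (hV : IsPre L H V) : (BV V L).V ≃ₗ[ℤ] (T.resSub (E1.Lim.sUnits L) H).V where
  toFun b := fwdFun hV.le b
  invFun a := bwdFun V a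
  map_add' _ _ := rfl
  map_smul' _ _ := rfl
  left_inv _ := rfl
  right_inv _ := rfl

lemma bCoe_dictEquiv_symm (hV : IsPre L H V) (a : (T.resSub (E1.Lim.sUnits L) H).V) :
    bCoe ((dictEquiv hV).symm a) = aCoe a := rfl

lemma dictEquiv_equivariant (hV : IsPre L H V) (g : ↥V ⧸ L.U.subgroupOf V) :
    (dictEquiv hV).toLinearMap ∘ₗ (BV V L).ρ g =
      (T.resSub (E1.Lim.sUnits L) H).ρ (quotEquiv hV g) ∘ₗ (dictEquiv hV).toLinearMap := by
  induction g using QuotientGroup.induction_on with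
  | H v =>
    refine LinearMap.ext fun b => ?_
    rfl

/-- **The dictionary**: `Hⁿ(V ⧸ (U_F ∩ V), 𝔼^{U_F ∩ V}) ≅ Hⁿ(H, E(F))`. -/
def dictIso (hV : IsPre L H V) (n : ℕ) :
    KL.HL (Rep.res V.subtype (K.sUnits S)) (L.U.subgroupOf V) n ≅ Hn H (E1.Lim.sUnits L) n :=
  groupCohomology.mapIso (quotEquiv hV) (dictEquiv hV) (dictEquiv_equivariant hV) n


lemma subgroupOf_anti {L L' : Level S} (h : L ≤ L') (V : Subgroup GQ) :
    L'.U.subgroupOf V ≤ L.U.subgroupOf V := fun _ hv =>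
  Subgroup.mem_subgroupOf.2 (Level.U_anti h (Subgroup.mem_subgroupOf.1 hv))

/-- The inverse of the dictionary on coefficients, as a semilinear morphism. -/
def dictInvHom (hV : IsPre L H V) :
    Rep.res (quotEquiv hV).toMonoidHom (T.resSub (E1.Lim.sUnits L) H) ⟶ BV V L :=
  semiOfAdd (quotEquiv hV).toMonoidHom (A := T.resSub (E1.Lim.sUnits L) H) (B := BV V L)
    { toFun := fun a => bwdFun V a
      map_zero' := rfl
      map_add' := fun _ _ => rfl }
    (fun g a => by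
      induction g using QuotientGroup.induction_on with
      | H v => rfl)

lemma dictIso_inv (hV : IsPre L H V) (n : ℕ) :
    (dictIso hV n).inv = groupCohomology.map (quotEquiv hV).toMonoidHom (dictInvHom hV) n := rfl

/-- The dictionary is compatible with inflation. -/
theorem dict_infl {L' : Level S} (h : L ≤ L') (hV : IsPre L H V) (n : ℕ) :
    (dictIso hV n).inv ≫ KL.infl (Rep.res V.subtype (K.sUnits S)) (subgroupOf_anti h V) n =
      groupCohomology.map (projSub (Level.proj h) H) (semiSub (Level.proj h) H (trS h)) n ≫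
        (dictIso (isPre_up h hV) n).inv := by
  rw [dictIso_inv, dictIso_inv]
  unfold KL.infl KL.HLmap
  rw [← groupCohomology.map_comp, ← groupCohomology.map_comp]
  apply groupCohomology.map_congr
  · ext g
    rfl
  · ext a
    rfl


lemma dict_infl_apply {L' : Level S} (h : L ≤ L') (hV : IsPre L H V) (n : ℕ)
    (x : Hn H (E1.Lim.sUnits L) n) :
    (KL.infl (Rep.res V.subtype (K.sUnits S)) (subgroupOf_anti h V) n).hom
        ((dictIso hV n).inv.hom x) =
      (dictIso (isPre_up h hV) n).inv.hom (infUp h H (trS h) n x) :=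
  congrArg (fun f => f.hom x) (dict_infl h hV n)

lemma dictIso_inv_hom (hV : IsPre L H V) (n : ℕ)
    (y : KL.HL (Rep.res V.subtype (K.sUnits S)) (L.U.subgroupOf V) n) :
    (dictIso hV n).inv.hom ((dictIso hV n).hom.hom y) = y :=
  congrArg (fun f => f.hom y) (dictIso hV n).hom_inv_id

lemma dictIso_hom_inv (hV : IsPre L H V) (n : ℕ) (x : Hn H (E1.Lim.sUnits L) n) :
    (dictIso hV n).hom.hom ((dictIso hV n).inv.hom x) = x :=
  congrArg (fun f => f.hom x) (dictIso hV n).inv_hom_id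

end Mod


/-! ## The levels -/

/-- A normal level of `G_ℚ` is `U_F` for a level `F` of the tower. -/
lemma exists_level {W : Subgroup GQ} (hW : W ∈ (ColH543.gN S).carrier) :
    ∃ L : Level S, L.U = W := by
  obtain ⟨⟨F, hF, rfl⟩, hn⟩ := hW
  exact ⟨⟨F, hF, hn⟩, rfl⟩

/-- `U_F` is a normal level of `G_ℚ`. -/
lemma level_mem (L : Level S) : L.U ∈ (ColH543.gN S).carrier :=
  ⟨⟨L.F, L.unram, rfl⟩, L.normalU⟩

/-- The level of `V` cut out by a level of the tower. -/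
def lvlOf (V : Subgroup GQ) (L : Level S) : ((ColH543.gN S).restrict V).Lvl :=
  ⟨L.U.subgroupOf V, L.U, level_mem L, rfl⟩

/-- Below a level of `(gN S).restrict V` there is a level `U_F ∩ V` with `U_F ≤ V`. -/
lemma exists_level_le {V : Subgroup GQ} (hV : V ∈ (PT.globalLevels S).levels)
    (V₁ : ((ColH543.gN S).restrict V).Lvl) :
    ∃ L : Level S, L.U ≤ V ∧ L.U.subgroupOf V ≤ V₁.W := by
  obtain ⟨X, W, hW, rfl⟩ := V₁
  obtain ⟨V₀, hV₀, hV₀V, hV₀n⟩ := ColH543.globalLevels_normalCofinal S V hV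
  obtain ⟨W₁, hW₁, hle⟩ := (ColH543.gN S).directed W hW V₀ ⟨hV₀, hV₀n⟩
  obtain ⟨L, rfl⟩ := exists_level hW₁
  refine ⟨L, (le_inf_iff.1 hle).2.trans hV₀V, fun v hv => ?_⟩
  exact Subgroup.mem_subgroupOf.2 ((le_inf_iff.1 hle).1 (Subgroup.mem_subgroupOf.1 hv))

/-! ## The deliverables -/

/-- **AR-DICT, degree 3.** -/
theorem dictE3 (S : Finset Nat.Primes) (p : ℕ) : DictE3Spec S p := by
  intro hE3 V hV hcop V₁ y hy
  obtain ⟨L, hLV, hle⟩ := exists_level_le hV V₁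
  have hpre : IsPre L (V.map (QuotientGroup.mk' L.U)) V := isPre_map hLV
  obtain ⟨L', h, hinf⟩ := hE3 L (V.map (QuotientGroup.mk' L.U))
    (by rw [index_eq hpre]; exact hcop)
    ((dictIso hpre 3).hom.hom ((KL.infl _ hle 3).hom y))
    (by rw [← map_nsmul, ← map_nsmul, hy, map_zero, map_zero])
  refine ⟨lvlOf V L', (subgroupOf_anti h V).trans hle, ?_⟩
  have h1 := dict_infl_apply h hpre 3 ((dictIso hpre 3).hom.hom ((KL.infl _ hle 3).hom y))
  rw [dictIso_inv_hom, hinf, map_zero] at h1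
  exact (KL.H784.infl_infl_apply _ hle (subgroupOf_anti h V) 3 y).symm.trans h1

/-- **AR-DICT, degree 2.** -/
theorem dictE2 (S : Finset Nat.Primes) (p : ℕ) : DictE2Spec S p := by
  intro hE2 V hV hcop V₁ x
  obtain ⟨L, hLV, hle⟩ := exists_level_le hV V₁
  have hpre : IsPre L (V.map (QuotientGroup.mk' L.U)) V := isPre_map hLV
  obtain ⟨L', h, w, hw⟩ := hE2 L (V.map (QuotientGroup.mk' L.U))
    (by rw [index_eq hpre]; exact hcop)
    ((dictIso hpre 2).hom.hom ((KL.infl _ hle 2).hom x))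
  refine ⟨lvlOf V L', (subgroupOf_anti h V).trans hle,
    (dictIso (isPre_up h hpre) 2).inv.hom w, ?_⟩
  have h1 := dict_infl_apply h hpre 2 ((dictIso hpre 2).hom.hom ((KL.infl _ hle 2).hom x))
  rw [dictIso_inv_hom, hw, map_nsmul] at h1
  exact (KL.H784.infl_infl_apply _ hle (subgroupOf_anti h V) 2 x).symm.trans h1

end

end Fermat.Agent.S55.K.AR.H587

end
-- ===== PACK-END S55/K/AR/DictH587.lean

-- ===== PACK-BEGIN S55/G/Exist/IdxH901Local.lean
section
/-
S55, layer G, block EXIST, leaf EX-IDX (helper901) — part 2: the index `[J_S(K) : p J_S(K)]`.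
Sorry-free.

For a number field `K ∋ μ_p` and a finite set `S` of rational primes:
* `index_J_eq_prod` : `[J_S : n J_S] = ∏_𝔪 [L_𝔪ˣ : (L_𝔪ˣ)ⁿ]` (product over the places above `S`);
* `index_locField` : `[L_𝔪ˣ : (L_𝔪ˣ)ᵖ] = p · (p · c ^ [L_𝔪 : ℚ_q])`, `c = p` if `q = p`, else `1`;
* `sum_locDeg_le` : `∑_{𝔪 | q} [L_𝔪 : ℚ_q] ≤ [K : ℚ]`;
* `index_J_le` : `[J_S : p J_S] ≤ p ^ (2 · #places + [K : ℚ])`, and it is non-zero.
-/





set_option autoImplicit false
set_option linter.unusedSectionVars false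
set_option linter.style.haveILetI false
set_option backward.isDefEq.respectTransparency false

open scoped NumberField TensorProduct
open IsLocalRing

namespace Fermat.Agent.S55.G.Exist.H901

open Fermat.Agent.S55.G Fermat.Agent.S55.G.PL0H713

variable (S : Finset Nat.Primes) (K : Type) [Field K] [NumberField K]

/-! ## 1. The index of `J_S` as a product over the places -/

/-- `[J_S : n J_S] = ∏_𝔪 [L_𝔪ˣ : (L_𝔪ˣ)ⁿ]`. -/
theorem index_J_eq_prod [Fintype (SPlace S K)] (n : ℕ) :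
    (nsmulAddMonoidHom (α := Additive (AS S K)ˣ) n).range.index =
      ∏ 𝔪 : SPlace S K, (powMonoidHom n : (LocField S 𝔪)ˣ →* (LocField S 𝔪)ˣ).range.index := by
  haveI := PL0H713.isArtinianRing_AS S K
  haveI := LocH897.isReduced_AS S K
  rw [index_range_nsmul_additive,
    index_range_pow_units_congr (IsArtinianRing.equivPi (AS S K)).toRingEquiv n]
  exact index_range_pow_units_pi (R := fun 𝔪 : SPlace S K => LocField S 𝔪) n

/-! ## 2. The local index -/

/-- `|ℤ_q / (p)| = p` if `q = p`, and `1` otherwise. -/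
theorem card_padicInt_quot (q p : ℕ) [hq : Fact q.Prime] [hp : Fact p.Prime] :
    Nat.card (ℤ_[q] ⧸ Ideal.span {(p : ℤ_[q])}) = if q = p then p else 1 := by
  split_ifs with h
  · subst h
    rw [← PadicInt.maximalIdeal_eq_span_p]
    exact (Nat.card_congr (PadicInt.residueField (p := q)).toEquiv).trans (Nat.card_zmod q)
  · apply H424.card_quot_span_of_isUnit
    rw [PadicInt.isUnit_iff, PadicInt.norm_natCast_eq_one_iff]
    exact (Nat.coprime_primes hq.out hp.out).2 h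

/-- The local degree `[L_𝔪 : ℚ_q]`, `q` the prime below `𝔪`. -/
noncomputable def locDeg (𝔪 : SPlace S K) : ℕ :=
  @Module.finrank (Qq (primeOf S K 𝔪).1) (LocField S 𝔪) _ _ (algQq S K 𝔪).toModule

/-- **Local power index** at a place `𝔪` above `S`, for `K ∋ μ_p`. -/
theorem index_locField (p : ℕ) [hp : Fact p.Prime] {ζ : K} (hζ : IsPrimitiveRoot ζ p)
    (𝔪 : SPlace S K) :
    (powMonoidHom p : (LocField S 𝔪)ˣ →* (LocField S 𝔪)ˣ).range.index =
      p * (p * (if ((primeOf S K 𝔪).1 : ℕ) = p then p else 1) ^ locDeg S K 𝔪) := by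
  letI := algQq S K 𝔪
  haveI : Module.Finite (Qq (primeOf S K 𝔪).1) (LocField S 𝔪) := finite_locField S K 𝔪
  haveI : Fact (Nat.Prime ((primeOf S K 𝔪).1 : ℕ)) := ⟨(primeOf S K 𝔪).1.2⟩
  haveI : NeZero p := ⟨hp.out.ne_zero⟩
  have h := H424.localField_index_range_pow ℤ_[((primeOf S K 𝔪).1 : ℕ)]
    ℚ_[((primeOf S K 𝔪).1 : ℕ)] (LocField S 𝔪) p hp.out.ne_zero
  have hζ' : IsPrimitiveRoot (toLoc S 𝔪 ζ) p := hζ.map_of_injective (toLoc S 𝔪).injective
  rw [h, card_padicInt_quot, hζ'.card_rootsOfUnity]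
  rfl

/-! ## 3. The sum of the local degrees above a prime -/

/-- The embedding `ℚ_q → L_𝔪` for a place `𝔪` above `q`. -/
noncomputable def ofQqAt (q : S) (𝔪 : SPlace S K) (h : primeOf S K 𝔪 = q) :
    Qq q.1 →+* LocField S 𝔪 where
  toFun x := LocField.ofQS S 𝔪 (single S q x)
  map_one' := by subst h; exact ofQS_single_primeOf S K 𝔪
  map_mul' x y := by rw [single_mul, map_mul]
  map_zero' := by rw [single_zero, map_zero]
  map_add' x y := by rw [single_add, map_add]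

lemma ofQqAt_apply (q : S) (𝔪 : SPlace S K) (h : primeOf S K 𝔪 = q) (x : Qq q.1) :
    ofQqAt S K q 𝔪 h x = LocField.ofQS S 𝔪 (single S q x) := rfl

lemma finrank_ofQqAt (q : S) (𝔪 : SPlace S K) (h : primeOf S K 𝔪 = q) :
    @Module.finrank (Qq q.1) (LocField S 𝔪) _ _ (ofQqAt S K q 𝔪 h).toAlgebra.toModule =
      locDeg S K 𝔪 := by
  subst h
  rfl

lemma finite_ofQqAt (q : S) (𝔪 : SPlace S K) (h : primeOf S K 𝔪 = q) :
    @Module.Finite (Qq q.1) (LocField S 𝔪) _ _ (ofQqAt S K q 𝔪 h).toAlgebra.toModule := by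
  subst h
  exact finite_locField S K 𝔪

lemma ofQS_eq_ofQqAt (q : S) (𝔪 : SPlace S K) (h : primeOf S K 𝔪 = q) (y : QS S) :
    LocField.ofQS S 𝔪 y = ofQqAt S K q 𝔪 h (QS.toPi S y q) := by
  subst h
  exact ofQS_eq S K 𝔪 y

lemma toLoc_algebraMap_ofQqAt (q : S) (𝔪 : SPlace S K) (h : primeOf S K 𝔪 = q) (c : ℚ) :
    toLoc S 𝔪 (algebraMap ℚ K c) = ofQqAt S K q 𝔪 h (algebraMap ℚ (Qq q.1) c) := by
  subst h
  exact toLoc_algebraMap S K 𝔪 c

/-- Every element of `K ⊗ ℚ_S` is, at all places above `q` simultaneously, a `ℚ_q`-linear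
combination of the images of a `ℚ`-basis of `K`. -/
lemma exists_coeff (q : S) {ι : Type*} [Fintype ι] (b : Module.Basis ι ℚ K) (a : AS S K) :
    ∃ c : ι → Qq q.1, ∀ (𝔪 : SPlace S K) (h : primeOf S K 𝔪 = q),
      LocField.mk S 𝔪 a = ∑ i, ofQqAt S K q 𝔪 h (c i) * toLoc S 𝔪 (b i) := by
  induction a using TensorProduct.induction_on with
  | zero =>
    refine ⟨fun _ => 0, fun 𝔪 h => ?_⟩
    simp
  | tmul l y =>
    refine ⟨fun i => algebraMap ℚ (Qq q.1) (b.repr l i) * QS.toPi S y q, fun 𝔪 h => ?_⟩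
    rw [mk_tmul, ofQS_eq_ofQqAt S K q 𝔪 h]
    conv_lhs => rw [← b.sum_repr l]
    rw [map_sum, Finset.sum_mul]
    refine Finset.sum_congr rfl fun i _ => ?_
    rw [Algebra.smul_def, map_mul, toLoc_algebraMap_ofQqAt S K q 𝔪 h, map_mul]
    ring
  | add a₁ a₂ h₁ h₂ =>
    obtain ⟨c₁, hc₁⟩ := h₁
    obtain ⟨c₂, hc₂⟩ := h₂
    refine ⟨fun i => c₁ i + c₂ i, fun 𝔪 h => ?_⟩
    rw [map_add, hc₁ 𝔪 h, hc₂ 𝔪 h, ← Finset.sum_add_distrib]
    refine Finset.sum_congr rfl fun i _ => ?_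
    rw [map_add, add_mul]

/-- Chinese remainder theorem in `K ⊗ ℚ_S`: prescribe the images at the places. -/
lemma exists_mk_eq [Fintype (SPlace S K)] (w : ∀ 𝔪 : SPlace S K, LocField S 𝔪) :
    ∃ a : AS S K, ∀ 𝔪 : SPlace S K, LocField.mk S 𝔪 a = w 𝔪 := by
  haveI := PL0H713.isArtinianRing_AS S K
  haveI := LocH897.isReduced_AS S K
  obtain ⟨a, ha⟩ := (IsArtinianRing.equivPi (AS S K)).surjective w
  exact ⟨a, fun 𝔪 => congrFun ha 𝔪⟩

/-- `∑_{𝔪 | q} [L_𝔪 : ℚ_q] ≤ [K : ℚ]`. -/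
theorem sum_locDeg_le [Fintype (SPlace S K)] (q : S)
    [DecidablePred fun 𝔪 : SPlace S K => primeOf S K 𝔪 = q] :
    ∑ 𝔪 ∈ Finset.univ.filter (fun 𝔪 : SPlace S K => primeOf S K 𝔪 = q), locDeg S K 𝔪 ≤
      Module.finrank ℚ K := by
  classical
  let T := {𝔪 : SPlace S K // primeOf S K 𝔪 = q}
  letI alg : ∀ 𝔪 : T, Algebra (Qq q.1) (LocField S 𝔪.1) :=
    fun 𝔪 => (ofQqAt S K q 𝔪.1 𝔪.2).toAlgebra
  haveI fin : ∀ 𝔪 : T, Module.Finite (Qq q.1) (LocField S 𝔪.1) :=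
    fun 𝔪 => finite_ofQqAt S K q 𝔪.1 𝔪.2
  let b := Module.finBasis ℚ K
  let f : (Fin (Module.finrank ℚ K) → Qq q.1) →ₗ[Qq q.1] (∀ 𝔪 : T, LocField S 𝔪.1) :=
    LinearMap.pi fun 𝔪 => Fintype.linearCombination (Qq q.1) (fun i => toLoc S 𝔪.1 (b i))
  have hf : Function.Surjective f := by
    intro v
    obtain ⟨a, ha⟩ := exists_mk_eq S K
      (fun 𝔪 => if h : primeOf S K 𝔪 = q then v ⟨𝔪, h⟩ else 0)
    obtain ⟨c, hc⟩ := exists_coeff S K q b a
    refine ⟨c, funext fun 𝔪 => ?_⟩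
    have h1 := ha 𝔪.1
    rw [dif_pos 𝔪.2] at h1
    rw [← h1, hc 𝔪.1 𝔪.2]
    change ∑ i, c i • toLoc S 𝔪.1 (b i) = _
    refine Finset.sum_congr rfl fun i _ => ?_
    rw [Algebra.smul_def]
    rfl
  have h1 := LinearMap.finrank_le_finrank_of_surjective hf
  rw [Module.finrank_fintype_fun_eq_card, Fintype.card_fin, Module.finrank_pi_fintype] at h1
  have h2 : ∑ 𝔪 : T, Module.finrank (Qq q.1) (LocField S 𝔪.1) = ∑ 𝔪 : T, locDeg S K 𝔪.1 :=
    Finset.sum_congr rfl fun 𝔪 _ => finrank_ofQqAt S K q 𝔪.1 𝔪.2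
  rw [h2] at h1
  rw [Finset.sum_subtype (Finset.univ.filter (fun 𝔪 : SPlace S K => primeOf S K 𝔪 = q))
    (p := fun 𝔪 : SPlace S K => primeOf S K 𝔪 = q) (fun x => by simp)]
  exact h1

/-! ## 4. The bound for `[J_S : p J_S]` -/

/-- `[J_S : p J_S] = p ^ (2 · #places) · p ^ (∑_{𝔪 | p} [L_𝔪 : ℚ_p])`. -/
theorem index_J_eq [Fintype (SPlace S K)] (p : ℕ) [hp : Fact p.Prime] {ζ : K}
    (hζ : IsPrimitiveRoot ζ p) (hpS : (⟨p, hp.out⟩ : Nat.Primes) ∈ S)
    [DecidablePred fun 𝔪 : SPlace S K => primeOf S K 𝔪 = ⟨⟨p, hp.out⟩, hpS⟩] :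
    (nsmulAddMonoidHom (α := Additive (AS S K)ˣ) p).range.index =
      p ^ (2 * Fintype.card (SPlace S K)) *
        p ^ (∑ 𝔪 ∈ Finset.univ.filter
          (fun 𝔪 : SPlace S K => primeOf S K 𝔪 = ⟨⟨p, hp.out⟩, hpS⟩), locDeg S K 𝔪) := by
  classical
  rw [index_J_eq_prod S K p]
  simp_rw [index_locField S K p hζ]
  rw [Finset.prod_mul_distrib, Finset.prod_mul_distrib, Finset.prod_const,
    Finset.card_univ, ← mul_assoc, ← pow_add, ← two_mul]
  congr 1
  rw [Finset.sum_filter, ← Finset.prod_pow_eq_pow_sum]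
  refine Finset.prod_congr rfl fun 𝔪 _ => ?_
  have hiff : ((primeOf S K 𝔪).1 : ℕ) = p ↔ primeOf S K 𝔪 = ⟨⟨p, hp.out⟩, hpS⟩ := by
    constructor
    · intro h
      exact Subtype.ext (Subtype.ext h)
    · intro h
      rw [h]
  by_cases h : primeOf S K 𝔪 = ⟨⟨p, hp.out⟩, hpS⟩
  · rw [if_pos (hiff.2 h), if_pos h]
  · rw [if_neg (fun h' => h (hiff.1 h')), if_neg h, one_pow, pow_zero]

/-- **Upper bound** `[J_S : p J_S] ≤ p ^ (2 · #places + [K : ℚ])`, and the index is non-zero. -/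
theorem index_J_le [Fintype (SPlace S K)] (p : ℕ) [hp : Fact p.Prime] {ζ : K}
    (hζ : IsPrimitiveRoot ζ p) (hpS : (⟨p, hp.out⟩ : Nat.Primes) ∈ S) :
    (nsmulAddMonoidHom (α := Additive (AS S K)ˣ) p).range.index ≠ 0 ∧
    (nsmulAddMonoidHom (α := Additive (AS S K)ˣ) p).range.index ≤
      p ^ (2 * Fintype.card (SPlace S K) + Module.finrank ℚ K) := by
  classical
  rw [index_J_eq S K p hζ hpS]
  refine ⟨mul_ne_zero (pow_ne_zero _ hp.out.ne_zero) (pow_ne_zero _ hp.out.ne_zero), ?_⟩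
  rw [← pow_add]
  exact Nat.pow_le_pow_right hp.out.pos
    (Nat.add_le_add_left (sum_locDeg_le S K ⟨⟨p, hp.out⟩, hpS⟩) _)

end Fermat.Agent.S55.G.Exist.H901

end
-- ===== PACK-END S55/G/Exist/IdxH901Local.lean

-- ===== PACK-BEGIN S55/G/Exist/IdxH901.lean
section
/-
S55, layer G, block EXIST (= GD6 of engine E1), leaf EX-IDX (helper901) — main statement.
Sorry-free.

`powIndexCompare_of_card_le` : for a number field `K ∋ μ_p` and `p ∈ S`, if the number of places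
of `K` above `S` (maximal ideals of `K ⊗ ℚ_S`) is at most the number of primes of `𝒪_K` above `S`,
then `J_S(K)/p` and `E_S(K)/p` are finite and `[J_S : p J_S] ≤ [E_S : p E_S]²`.
`powIndexCompare_of` : the same from `PlacePrimeSpec` (leaf G-PL1); this is EXACTLY the body of
helper233's `G.Exist.PowIndexCompareSpec` (`pMul p A = (nsmulAddMonoidHom p).range`).

In fact `[J_S : p J_S] = p ^ (2t' + n_p)` (`index_J_eq`; `t'` places, `n_p ≤ [K:ℚ]` the sum of the
local degrees above `p`) and `[E_S : p E_S] = p ^ (#∞ + t)` (helper604), and `[K:ℚ] ≤ 2·#∞`.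
-/



set_option autoImplicit false
set_option linter.unusedSectionVars false
set_option linter.style.haveILetI false

open scoped NumberField TensorProduct

namespace Fermat.Agent.S55.G.Exist.H901

open Fermat.Agent.S55.G NumberField

variable (S : Finset Nat.Primes) (K : Type) [Field K] [NumberField K]

/-- `[K : ℚ] ≤ 2 · #{infinite places}`. -/
theorem finrank_le_two_mul_card_infinitePlace :
    Module.finrank ℚ K ≤ 2 * Fintype.card (InfinitePlace K) := by
  have h1 := InfinitePlace.card_add_two_mul_card_eq_rank K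
  have h2 := InfinitePlace.card_eq_nrRealPlaces_add_nrComplexPlaces K
  omega

/-- **EX-IDX**, from the inequality `#places ≤ #primes` above `S`. -/
theorem powIndexCompare_of_card_le (p : ℕ) [hp : Fact p.Prime]
    (hpS : (⟨p, hp.out⟩ : Nat.Primes) ∈ S) (hζ : ∃ ζ : K, IsPrimitiveRoot ζ p)
    (hcard : Nat.card (SPlace S K) ≤ Nat.card (PrimeIn S K)) :
    (AddMonoidHom.range (nsmulAddMonoidHom (α := Additive (AS S K)ˣ) p)).index ≠ 0 ∧
    (AddMonoidHom.range (nsmulAddMonoidHom (α := sUnit S K) p)).index ≠ 0 ∧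
    (AddMonoidHom.range (nsmulAddMonoidHom (α := Additive (AS S K)ˣ) p)).index ≤
      (AddMonoidHom.range (nsmulAddMonoidHom (α := sUnit S K) p)).index ^ 2 := by
  obtain ⟨ζ, hζ⟩ := hζ
  haveI := PL0H713.finite_sPlace S K
  letI := Fintype.ofFinite (SPlace S K)
  obtain ⟨hJ0, hJ⟩ := index_J_le S K p hζ hpS
  have hE := SesH604.index_range_nsmul_sUnit_of_primitiveRoot S K p hp.out.ne_zero hζ
  refine ⟨hJ0, ?_, ?_⟩
  · rw [hE]
    exact pow_ne_zero _ hp.out.ne_zero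
  · rw [hE, ← pow_mul]
    refine hJ.trans (Nat.pow_le_pow_right hp.out.pos ?_)
    have h1 := finrank_le_two_mul_card_infinitePlace K
    rw [Nat.card_eq_fintype_card] at hcard
    omega

/-- **EX-IDX** (`PowIndexCompareSpec` of block G-EXIST), from G-PL1. -/
theorem powIndexCompare_of (hPP : PlacePrimeSpec) :
    ∀ (p : ℕ) [hp : Fact p.Prime], p ≠ 2 →
    ∀ (S : Finset Nat.Primes) (K : Type) [Field K] [NumberField K],
      (⟨p, hp.out⟩ : Nat.Primes) ∈ S → (∃ ζ : K, IsPrimitiveRoot ζ p) →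
      (AddMonoidHom.range (nsmulAddMonoidHom (α := Additive (AS S K)ˣ) p)).index ≠ 0 ∧
      (AddMonoidHom.range (nsmulAddMonoidHom (α := sUnit S K) p)).index ≠ 0 ∧
      (AddMonoidHom.range (nsmulAddMonoidHom (α := Additive (AS S K)ˣ) p)).index ≤
        (AddMonoidHom.range (nsmulAddMonoidHom (α := sUnit S K) p)).index ^ 2 := by
  intro p hp _ S K _ _ hpS hζ
  obtain ⟨β, -⟩ := hPP S K
  exact powIndexCompare_of_card_le S K p hpS hζ (Nat.card_congr β).le

end Fermat.Agent.S55.G.Exist.H901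

end
-- ===== PACK-END S55/G/Exist/IdxH901.lean

-- ===== PACK-BEGIN S55/G/Exist/IdxH901Eq.lean
section
/-
S55, layer G, block EXIST, leaf EX-IDX / EX-POW (helper901) — part 3: the exact value.
Sorry-free.

* `sum_locDeg_eq` : `∑_{𝔪 | q} [L_𝔪 : ℚ_q] = [K : ℚ]`;
* `index_J_eq_pow` : `[J_S(K) : p J_S(K)] = p ^ (2 · #places + [K : ℚ])` for `K ∋ μ_p`, `p ∈ S`;
* `isTotallyComplex_of_primitiveRoot`, `two_mul_card_infinitePlace` : `K ∋ μ_p`, `p` odd ⇒
  `2 · #∞ = [K : ℚ]`;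
* `powIndex_eq_of_card_eq` : `[J_S : p J_S] = [E_S : p E_S]²` if `#places = #primes` above `S`.
-/


set_option autoImplicit false
set_option linter.unusedSectionVars false
set_option linter.style.haveILetI false
set_option backward.isDefEq.respectTransparency false

open scoped NumberField TensorProduct
open IsLocalRing

namespace Fermat.Agent.S55.G.Exist.H901

open Fermat.Agent.S55.G Fermat.Agent.S55.G.PL0H713 NumberField

variable (S : Finset Nat.Primes) (K : Type) [Field K] [NumberField K]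

/-! ## 1. The sum of the local degrees -/

/-- The `ℚ`-linear functional `k ⊗ y ↦ (j-th coordinate of k) • y_q` on `K ⊗ ℚ_S`. -/
noncomputable def coordQq {ι : Type*} (b : Module.Basis ι ℚ K) (q : S) (j : ι) :
    AS S K →ₗ[ℚ] Qq q.1 :=
  (TensorProduct.lid ℚ (Qq q.1)).toLinearMap ∘ₗ
    TensorProduct.map (b.coord j) (QS.proj S q).toLinearMap

lemma coordQq_tmul {ι : Type*} (b : Module.Basis ι ℚ K) (q : S) (j : ι) (k : K) (y : QS S) :
    coordQq S K b q j (k ⊗ₜ[ℚ] y) = b.coord j k • QS.toPi S y q := rfl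

lemma mk_tmul_single (q : S) (𝔪 : SPlace S K) (k : K) (x : Qq q.1) :
    LocField.mk S 𝔪 (k ⊗ₜ[ℚ] single S q x) =
      if h : primeOf S K 𝔪 = q then ofQqAt S K q 𝔪 h x * toLoc S 𝔪 k else 0 := by
  rw [mk_tmul]
  split_ifs with h
  · rw [mul_comm]; rfl
  · rw [ofQS_eq, single_apply_ne S q _ h, map_zero, mul_zero]

/-- An element of `K ⊗ ℚ_S` vanishing at all places is zero. -/
lemma eq_zero_of_mk_eq_zero (a : AS S K) (h : ∀ 𝔪 : SPlace S K, LocField.mk S 𝔪 a = 0) :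
    a = 0 := by
  haveI := PL0H713.isArtinianRing_AS S K
  haveI := LocH897.isReduced_AS S K
  apply (IsArtinianRing.equivPi (AS S K)).injective
  rw [map_zero]
  exact funext h

/-- `∑_{𝔪 | q} [L_𝔪 : ℚ_q] = [K : ℚ]`. -/
theorem sum_locDeg_eq [Fintype (SPlace S K)] (q : S)
    [DecidablePred fun 𝔪 : SPlace S K => primeOf S K 𝔪 = q] :
    ∑ 𝔪 ∈ Finset.univ.filter (fun 𝔪 : SPlace S K => primeOf S K 𝔪 = q), locDeg S K 𝔪 =
      Module.finrank ℚ K := by
  classical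
  let T := {𝔪 : SPlace S K // primeOf S K 𝔪 = q}
  letI alg : ∀ 𝔪 : T, Algebra (Qq q.1) (LocField S 𝔪.1) :=
    fun 𝔪 => (ofQqAt S K q 𝔪.1 𝔪.2).toAlgebra
  haveI fin : ∀ 𝔪 : T, Module.Finite (Qq q.1) (LocField S 𝔪.1) :=
    fun 𝔪 => finite_ofQqAt S K q 𝔪.1 𝔪.2
  let b := Module.finBasis ℚ K
  let f : (Fin (Module.finrank ℚ K) → Qq q.1) →ₗ[Qq q.1] (∀ 𝔪 : T, LocField S 𝔪.1) :=
    LinearMap.pi fun 𝔪 => Fintype.linearCombination (Qq q.1) (fun i => toLoc S 𝔪.1 (b i))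
  have hfc : ∀ (c : Fin (Module.finrank ℚ K) → Qq q.1) (𝔪 : T),
      f c 𝔪 = ∑ i, ofQqAt S K q 𝔪.1 𝔪.2 (c i) * toLoc S 𝔪.1 (b i) := by
    intro c 𝔪
    change ∑ i, c i • toLoc S 𝔪.1 (b i) = _
    refine Finset.sum_congr rfl fun i _ => ?_
    rw [Algebra.smul_def]
    rfl
  have hsurj : Function.Surjective f := by
    intro v
    obtain ⟨a, ha⟩ := exists_mk_eq S K
      (fun 𝔪 => if h : primeOf S K 𝔪 = q then v ⟨𝔪, h⟩ else 0)
    obtain ⟨c, hc⟩ := exists_coeff S K q b a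
    refine ⟨c, funext fun 𝔪 => ?_⟩
    have h1 := ha 𝔪.1
    rw [dif_pos 𝔪.2] at h1
    rw [← h1, hc 𝔪.1 𝔪.2, hfc]
  have hinj : Function.Injective f := by
    rw [injective_iff_map_eq_zero]
    intro c hc
    have ha : (∑ i, (b i) ⊗ₜ[ℚ] single S q (c i) : AS S K) = 0 := by
      refine eq_zero_of_mk_eq_zero S K _ fun 𝔪 => ?_
      rw [map_sum]
      by_cases h : primeOf S K 𝔪 = q
      · have h2 := congrFun hc ⟨𝔪, h⟩
        rw [hfc] at h2
        rw [← show (0 : ∀ 𝔪 : T, LocField S 𝔪.1) ⟨𝔪, h⟩ = (0 : LocField S 𝔪) from rfl, ← h2]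
        refine Finset.sum_congr rfl fun i _ => ?_
        rw [mk_tmul_single, dif_pos h]
      · refine Finset.sum_eq_zero fun i _ => ?_
        rw [mk_tmul_single, dif_neg h]
    funext j
    have h3 := congrArg (coordQq S K b q j) ha
    rw [map_sum, map_zero, Finset.sum_eq_single j] at h3
    · rw [coordQq_tmul, single_apply_same, Module.Basis.coord_apply, Module.Basis.repr_self,
        Finsupp.single_eq_same, one_smul] at h3
      exact h3
    · intro i _ hij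
      rw [coordQq_tmul, Module.Basis.coord_apply, Module.Basis.repr_self,
        Finsupp.single_eq_of_ne hij.symm, zero_smul]
    · intro h
      exact absurd (Finset.mem_univ j) h
  have h1 := (LinearEquiv.ofBijective f ⟨hinj, hsurj⟩).finrank_eq
  rw [Module.finrank_fintype_fun_eq_card, Fintype.card_fin, Module.finrank_pi_fintype] at h1
  have h2 : ∑ 𝔪 : T, Module.finrank (Qq q.1) (LocField S 𝔪.1) = ∑ 𝔪 : T, locDeg S K 𝔪.1 :=
    Finset.sum_congr rfl fun 𝔪 _ => finrank_ofQqAt S K q 𝔪.1 𝔪.2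
  rw [h2] at h1
  rw [Finset.sum_subtype (Finset.univ.filter (fun 𝔪 : SPlace S K => primeOf S K 𝔪 = q))
    (p := fun 𝔪 : SPlace S K => primeOf S K 𝔪 = q) (fun x => by simp)]
  exact h1.symm

/-- `[J_S : p J_S] = p ^ (2 · #places + [K : ℚ])`. -/
theorem index_J_eq_pow [Fintype (SPlace S K)] (p : ℕ) [hp : Fact p.Prime] {ζ : K}
    (hζ : IsPrimitiveRoot ζ p) (hpS : (⟨p, hp.out⟩ : Nat.Primes) ∈ S) :
    (nsmulAddMonoidHom (α := Additive (AS S K)ˣ) p).range.index =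
      p ^ (2 * Fintype.card (SPlace S K) + Module.finrank ℚ K) := by
  classical
  rw [index_J_eq S K p hζ hpS, sum_locDeg_eq, ← pow_add]

/-! ## 2. `K ∋ μ_p`, `p` odd, is totally complex -/

theorem isTotallyComplex_of_primitiveRoot (p : ℕ) [hp : Fact p.Prime] (hp2 : p ≠ 2) {ζ : K}
    (hζ : IsPrimitiveRoot ζ p) : IsTotallyComplex K := by
  refine ⟨fun w => ?_⟩
  rw [← InfinitePlace.not_isReal_iff_isComplex]
  intro hw
  obtain ⟨φ, hφ, -⟩ := hw
  have h1 : (hφ.embedding ζ) ^ p = 1 := by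
    rw [← map_pow, hζ.pow_eq_one, map_one]
  have hodd : Odd p := hp.out.odd_of_ne_two hp2
  have h2 : hφ.embedding ζ = 1 := by
    rcases pow_eq_one_iff_cases.1 h1 with h | h | ⟨-, h⟩
    · exact absurd h hp.out.ne_zero
    · exact h
    · exact absurd h (Nat.not_even_iff_odd.2 hodd)
  have h3 : ζ = 1 := hφ.embedding.injective (by rw [h2, map_one])
  exact hp.out.one_lt.ne' (hζ.unique (h3 ▸ IsPrimitiveRoot.one))

theorem two_mul_card_infinitePlace (p : ℕ) [hp : Fact p.Prime] (hp2 : p ≠ 2) {ζ : K}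
    (hζ : IsPrimitiveRoot ζ p) :
    2 * Fintype.card (InfinitePlace K) = Module.finrank ℚ K := by
  have h1 := InfinitePlace.card_add_two_mul_card_eq_rank K
  have h2 := InfinitePlace.card_eq_nrRealPlaces_add_nrComplexPlaces K
  have h3 : InfinitePlace.nrRealPlaces K = 0 :=
    nrRealPlaces_eq_zero_iff.2 (isTotallyComplex_of_primitiveRoot K p hp2 hζ)
  omega

/-! ## 3. The exact comparison -/

/-- **EX-POW**: `[J_S : p J_S] = [E_S : p E_S]²`, from `#places = #primes` above `S`. -/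
theorem powIndex_eq_of_card_eq (p : ℕ) [hp : Fact p.Prime] (hp2 : p ≠ 2)
    (hpS : (⟨p, hp.out⟩ : Nat.Primes) ∈ S) (hζ : ∃ ζ : K, IsPrimitiveRoot ζ p)
    (hcard : Nat.card (SPlace S K) = Nat.card (PrimeIn S K)) :
    (AddMonoidHom.range (nsmulAddMonoidHom (α := Additive (AS S K)ˣ) p)).index =
      (AddMonoidHom.range (nsmulAddMonoidHom (α := sUnit S K) p)).index ^ 2 := by
  obtain ⟨ζ, hζ⟩ := hζ
  haveI := PL0H713.finite_sPlace S K
  letI := Fintype.ofFinite (SPlace S K)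
  rw [index_J_eq_pow S K p hζ hpS,
    SesH604.index_range_nsmul_sUnit_of_primitiveRoot S K p hp.out.ne_zero hζ, ← pow_mul]
  congr 1
  have h1 := two_mul_card_infinitePlace K p hp2 hζ
  rw [Nat.card_eq_fintype_card] at hcard
  omega

/-- **EX-POW** from G-PL1. -/
theorem powIndex_eq_of (hPP : PlacePrimeSpec) (p : ℕ) [hp : Fact p.Prime] (hp2 : p ≠ 2)
    (hpS : (⟨p, hp.out⟩ : Nat.Primes) ∈ S) (hζ : ∃ ζ : K, IsPrimitiveRoot ζ p) :
    (AddMonoidHom.range (nsmulAddMonoidHom (α := Additive (AS S K)ˣ) p)).index =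
      (AddMonoidHom.range (nsmulAddMonoidHom (α := sUnit S K) p)).index ^ 2 := by
  obtain ⟨β, -⟩ := hPP S K
  exact powIndex_eq_of_card_eq S K p hp2 hpS hζ (Nat.card_congr β)

end Fermat.Agent.S55.G.Exist.H901

end
-- ===== PACK-END S55/G/Exist/IdxH901Eq.lean

-- ===== PACK-BEGIN S55/G/Rec/Tow/FR/Defs.lean
section
/-
S55 / layer G / block REC / adapter TOW / leaf FR (subtask 558) — DEFINITIONS.
Sub-architect of FR: helper353.   Plan: `coord/S55-REC-TOW-FR.md`.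

FR = construction of the finite-level semilocal invariants `TOW.SemiLocalInv p` from the
reciprocity law `Rec.ReciprocitySpec I p` on Prelude cochains.

This file (NO sorry):
* `LocDatum A q V` / `GlobDatum A U` : abstract "pull–push" data from a finite-level module
  `A : Rep ℤ Γ` to the Prelude Brauer groups `lBr q V` / `gBr U`, with the induced maps
  `LocDatum.map : H²(Γ, A) → lBr q V`, `GlobDatum.map : H²(Γ, A) → gBr U`;
* for a Tower level `M`, `H ≤ M.Gal` and ANY finite set `W` of primes: `UH M H` (preimage of `H`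
  in `G_ℚ`), `piH`, `evAlg M W q hq g : M.F ⊗ ℚ_W → ℚ̄_q` (`x ⊗ y ↦ ι_q(g⁻¹ x) · y_q`),
  `placeOf M W q hq g` (its kernel, a place of `M` above `q`), `cDatum`, `cH2`
  (`c_{q,g} : H²(H, J_W(M)) → lBr q (locSub q g (UH M H))`), `inflDatum`, `inflL`
  (`H²(H, Mˣ) → gBr (UH M H)`);
* `reps U q` : chosen representatives of `U \ G_ℚ / D_q`;
* `sigma I M H = ∑_{q ∈ S} ∑_{g ∈ reps (UH M H) q} I.inv ∘ c_{q,g}`.
-/






set_option autoImplicit false
set_option linter.unusedSectionVars false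
set_option linter.style.haveILetI false

open CategoryTheory groupCohomology
open scoped TensorProduct

noncomputable section

namespace Fermat.Agent.S55.G.Rec.TOW.FR

open Fermat.Agent.S55 Fermat.Agent.S55.Tow Fermat.Agent.S55.E1.H594 Fermat.Agent.S55.G.Rec

local notation "Qb" => AlgebraicClosure ℚ
local notation "GQ" => (AlgebraicClosure ℚ ≃ₐ[ℚ] AlgebraicClosure ℚ)

/-! ## 1. Abstract pull–push into the Prelude Brauer groups -/

section Abstract

/-- Descend an additive map on 2-cocycles that kills coboundaries to `H2` (additive version of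
`Bridge.H2desc`; generic in the coefficient ring, no `Module ℤ` diamond). -/
def H2descAdd {k G : Type} [CommRing k] [Group G] (A : Rep.{0} k G) {X : Type*} [AddCommGroup X]
    (g : cocycles₂ A →+ X)
    (hg : ∀ c : cocycles₂ A, (c : G × G → A) ∈ coboundaries₂ A → g c = 0) : H2 A →+ X :=
  (QuotientAddGroup.lift (H2π A).hom.toAddMonoidHom.ker g (by
      intro c hc
      rw [AddMonoidHom.mem_ker] at hc ⊢
      exact hg c ((H2π_eq_zero_iff c).1 hc))).comp
    (QuotientAddGroup.quotientKerEquivOfSurjective (H2π A).hom.toAddMonoidHom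
      (Bridge.H2π_surjective A)).symm.toAddMonoidHom

@[simp] theorem H2descAdd_H2π {k G : Type} [CommRing k] [Group G] (A : Rep.{0} k G) {X : Type*}
    [AddCommGroup X] (g : cocycles₂ A →+ X)
    (hg : ∀ c : cocycles₂ A, (c : G × G → A) ∈ coboundaries₂ A → g c = 0) (c : cocycles₂ A) :
    H2descAdd A g hg ((H2π A).hom c) = g c := by
  unfold H2descAdd
  rw [AddMonoidHom.comp_apply]
  have h : (QuotientAddGroup.quotientKerEquivOfSurjective (H2π A).hom.toAddMonoidHom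
      (Bridge.H2π_surjective A)).symm ((H2π A).hom c) = QuotientAddGroup.mk c := by
    rw [AddEquiv.symm_apply_eq]
    rfl
  rw [AddEquiv.coe_toAddMonoidHom, h]
  rfl

/-- An additive map between the underlying groups of two representations over `ℤ` is `ℤ`-linear
for the module structures carried by the representations. -/
def linOfAdd {G₁ G₂ : Type} [Group G₁] [Group G₂] {A : Rep.{0} ℤ G₁} {B : Rep.{0} ℤ G₂}
    (ψ : A.V →+ B.V) : @LinearMap ℤ ℤ _ _ (RingHom.id ℤ) A.V B.V _ _ A.hV2 B.hV2 :=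
  letI := A.hV2
  letI := B.hV2
  { toFun := ψ
    map_add' := ψ.map_add
    map_smul' := fun c x => by
      rw [RingHom.id_apply]
      exact ((congrArg ψ (int_smul_eq_zsmul A.hV2 c x)).trans (map_zsmul ψ c x)).trans
        (int_smul_eq_zsmul B.hV2 c (ψ x)).symm }

@[simp] lemma linOfAdd_apply {G₁ G₂ : Type} [Group G₁] [Group G₂] {A : Rep.{0} ℤ G₁}
    {B : Rep.{0} ℤ G₂} (ψ : A.V →+ B.V) (x : A.V) : linOfAdd ψ x = ψ x := rfl

variable {Γ : Type} [Group Γ] (A : Rep.{0} ℤ Γ)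

/-- A **local datum**: a homomorphism `h : V → Γ` from an (open) subgroup `V ≤ G_{ℚ_q}` to the
finite-level group, trivial on a level, and an equivariant additive map `φ : A → ℚ̄_qˣ`. -/
structure LocDatum (q : ℕ) [Fact q.Prime]
    (V : Subgroup (PadicAlgCl q ≃ₐ[ℚ_[q]] PadicAlgCl q)) where
  /-- the group homomorphism -/
  h : ↥V →* Γ
  /-- the coefficient map -/
  φ : A.V →+ (lModOn q V).V
  equivariant : ∀ (τ : ↥V) (a : A.V), φ (A.ρ (h τ) a) = (lModOn q V).ρ τ (φ a)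
  level : ∃ F : IntermediateField ℚ Qb, FiniteDimensional ℚ F ∧
    ∀ τ : ↥V, lHom q V τ ∈ F.fixingSubgroup → h τ = 1

/-- A **global datum**: a homomorphism `h : U → Γ` from an (open) subgroup `U ≤ G_ℚ`, trivial on
a level, and an equivariant additive map `φ : A → ℚ̄ˣ`. -/
structure GlobDatum (U : Subgroup GQ) where
  /-- the group homomorphism -/
  h : ↥U →* Γ
  /-- the coefficient map -/
  φ : A.V →+ (gModOn U).V
  equivariant : ∀ (u : ↥U) (a : A.V), φ (A.ρ (h u) a) = (gModOn U).ρ u (φ a)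
  level : ∃ F : IntermediateField ℚ Qb, FiniteDimensional ℚ F ∧
    ∀ u : ↥U, (u : GQ) ∈ F.fixingSubgroup → h u = 1

variable {A}

namespace LocDatum

variable {q : ℕ} [Fact q.Prime] {V : Subgroup (PadicAlgCl q ≃ₐ[ℚ_[q]] PadicAlgCl q)}
  (d : LocDatum A q V)

/-- The pull–push of a 2-cochain: `(τ, τ') ↦ φ (x (h τ, h τ'))`. -/
def push₂ (x : Γ × Γ → A.V) : ↥V × ↥V → (lModOn q V).V := fun p => d.φ (x (d.h p.1, d.h p.2))

/-- The pull–push of a 1-cochain: `τ ↦ φ (x (h τ))`. -/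
def push₁ (x : Γ → A.V) : ↥V → (lModOn q V).V := fun τ => d.φ (x (d.h τ))

lemma push₂_eq (x : Γ × Γ → A.V) :
    d.push₂ x = cochainsPullPush₂ d.h (linOfAdd d.φ) x := rfl

lemma push₁_eq (x : Γ → A.V) :
    d.push₁ x = cochainsPullPush₁ d.h (linOfAdd d.φ) x := rfl

lemma isLevelConstant₂ (x : Γ × Γ → A.V) : IsLevelConstant₂ (lHom q V) (d.push₂ x) := by
  obtain ⟨F, hF, h⟩ := d.level
  refine ⟨F, hF, fun g g' s s' hs hs' => ?_⟩
  simp only [push₂, map_mul, h s hs, h s' hs', mul_one]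

lemma isLevelConstant₁ (x : Γ → A.V) : IsLevelConstant₁ (lHom q V) (d.push₁ x) := by
  obtain ⟨F, hF, h⟩ := d.level
  refine ⟨F, hF, fun g s hs => ?_⟩
  simp only [push₁, map_mul, h s hs, mul_one]

lemma push₂_mem_levelCocycles₂ (c : cocycles₂ A) :
    d.push₂ c ∈ levelCocycles₂ (lHom q V) (lModOn q V) :=
  ⟨cochainsPullPush₂_mem_cocycles₂ d.h (linOfAdd d.φ) d.equivariant c.2, d.isLevelConstant₂ _⟩

lemma push₂_d₁₂ (y : Γ → A.V) :
    d.push₂ ((d₁₂ A).hom y) = (d₁₂ (lModOn q V)).hom (d.push₁ y) :=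
  cochainsPullPush₂_d₁₂ d.h (linOfAdd d.φ) d.equivariant y

/-- The map on cocycles. -/
def cocycles : cocycles₂ A →+ ↥(levelCocycles₂ (lHom q V) (lModOn q V)) where
  toFun c := ⟨d.push₂ c, d.push₂_mem_levelCocycles₂ c⟩
  map_zero' := Subtype.ext (funext fun _ => map_zero d.φ)
  map_add' _ _ := Subtype.ext (funext fun _ => map_add d.φ _ _)

@[simp] lemma coe_cocycles (c : cocycles₂ A) :
    (d.cocycles c : ↥V × ↥V → lModOn q V) = d.push₂ c := rfl

lemma cocycles_apply (c : cocycles₂ A) (τ τ' : ↥V) :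
    (d.cocycles c : ↥V × ↥V → lModOn q V) (τ, τ') = d.φ (c (d.h τ, d.h τ')) := rfl

/-- **The map `H²(Γ, A) → lBr q V` of a local datum.** -/
def map : H2 A →+ lBr q V :=
  H2descAdd A ((continuousH2π (lHom q V) (lModOn q V)).toAddMonoidHom.comp d.cocycles) (by
    intro c hc
    rw [AddMonoidHom.comp_apply]
    show continuousH2π (lHom q V) (lModOn q V) (d.cocycles c) = 0
    rw [continuousH2π_eq_zero_iff, mem_levelCoboundaries₂_iff]
    obtain ⟨y, hy⟩ := hc
    refine ⟨d.push₁ y, d.isLevelConstant₁ y, ?_⟩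
    rw [coe_cocycles, ← hy]
    exact (d.push₂_d₁₂ y).symm)

@[simp] lemma map_H2π (c : cocycles₂ A) :
    d.map ((H2π A).hom c) = continuousH2π (lHom q V) (lModOn q V) (d.cocycles c) :=
  H2descAdd_H2π _ _ _ c

/-- Two local data with the same `h` and `φ` induce the same map. -/
lemma map_congr {d d' : LocDatum A q V} (hh : d.h = d'.h) (hφ : d.φ = d'.φ) : d.map = d'.map := by
  cases d; cases d'; cases hh; cases hφ; rfl

/-- Composition of a local datum with a morphism of pairs `(f, ψ) : (Γ, A) → (Γ', A')`. -/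
def comp {Γ' : Type} [Group Γ'] {A' : Rep.{0} ℤ Γ'} (d : LocDatum A' q V) (f : Γ' →* Γ)
    (ψ : Rep.res f A ⟶ A') : LocDatum A q V where
  h := f.comp d.h
  φ := d.φ.comp (AddMonoidHom.mk' (fun a : A.V => (ψ.hom a : A'.V)) (fun a b => map_add ψ.hom a b))
  equivariant τ a := by
    have h1 : ψ.hom (A.ρ (f (d.h τ)) a) = A'.ρ (d.h τ) (ψ.hom a) :=
      Rep.hom_comm_apply ψ (d.h τ) a
    show d.φ (ψ.hom (A.ρ (f (d.h τ)) a)) = _
    rw [h1]
    exact d.equivariant τ (ψ.hom a)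
  level := by
    obtain ⟨F, hF, h⟩ := d.level
    exact ⟨F, hF, fun τ hτ => by rw [MonoidHom.comp_apply, h τ hτ, map_one]⟩

theorem map_comp {Γ' : Type} [Group Γ'] {A' : Rep.{0} ℤ Γ'} (d : LocDatum A' q V) (f : Γ' →* Γ)
    (ψ : Rep.res f A ⟶ A') (x : H2 A) :
    (d.comp f ψ).map x = d.map ((groupCohomology.map f ψ 2).hom x) := by
  obtain ⟨c, rfl⟩ := Bridge.H2π_surjective A x
  have h := congrArg (fun φ => φ.hom c) (H2π_comp_map (A := A) (B := A') f ψ)
  simp only [ModuleCat.hom_comp, LinearMap.comp_apply] at h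
  rw [h, map_H2π, map_H2π]
  rfl

/-- Restriction of a local datum to a smaller subgroup. -/
def restrict {V' : Subgroup (PadicAlgCl q ≃ₐ[ℚ_[q]] PadicAlgCl q)} (hV : V' ≤ V) :
    LocDatum A q V' where
  h := d.h.comp (Subgroup.inclusion hV)
  φ := d.φ
  equivariant τ a := d.equivariant (Subgroup.inclusion hV τ) a
  level := by
    obtain ⟨F, hF, h⟩ := d.level
    exact ⟨F, hF, fun τ hτ => h (Subgroup.inclusion hV τ) hτ⟩

theorem map_restrict {V' : Subgroup (PadicAlgCl q ≃ₐ[ℚ_[q]] PadicAlgCl q)} (hV : V' ≤ V)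
    (x : H2 A) : (d.restrict hV).map x = lRes q hV (d.map x) := by
  obtain ⟨c, rfl⟩ := Bridge.H2π_surjective A x
  rw [map_H2π, map_H2π]
  rfl

end LocDatum

namespace GlobDatum

variable {U : Subgroup GQ} (d : GlobDatum A U)

/-- The pull–push of a 2-cochain. -/
def push₂ (x : Γ × Γ → A.V) : ↥U × ↥U → (gModOn U).V := fun p => d.φ (x (d.h p.1, d.h p.2))

/-- The pull–push of a 1-cochain. -/
def push₁ (x : Γ → A.V) : ↥U → (gModOn U).V := fun u => d.φ (x (d.h u))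

lemma isLevelConstant₂ (x : Γ × Γ → A.V) : IsLevelConstant₂ U.subtype (d.push₂ x) := by
  obtain ⟨F, hF, h⟩ := d.level
  refine ⟨F, hF, fun g g' s s' hs hs' => ?_⟩
  simp only [push₂, map_mul, h s hs, h s' hs', mul_one]

lemma isLevelConstant₁ (x : Γ → A.V) : IsLevelConstant₁ U.subtype (d.push₁ x) := by
  obtain ⟨F, hF, h⟩ := d.level
  refine ⟨F, hF, fun g s hs => ?_⟩
  simp only [push₁, map_mul, h s hs, mul_one]

lemma push₂_mem_levelCocycles₂ (c : cocycles₂ A) :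
    d.push₂ c ∈ levelCocycles₂ U.subtype (gModOn U) :=
  ⟨cochainsPullPush₂_mem_cocycles₂ d.h (linOfAdd d.φ) d.equivariant c.2, d.isLevelConstant₂ _⟩

lemma push₂_d₁₂ (y : Γ → A.V) :
    d.push₂ ((d₁₂ A).hom y) = (d₁₂ (gModOn U)).hom (d.push₁ y) :=
  cochainsPullPush₂_d₁₂ d.h (linOfAdd d.φ) d.equivariant y

/-- The map on cocycles. -/
def cocycles : cocycles₂ A →+ ↥(levelCocycles₂ U.subtype (gModOn U)) where
  toFun c := ⟨d.push₂ c, d.push₂_mem_levelCocycles₂ c⟩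
  map_zero' := Subtype.ext (funext fun _ => map_zero d.φ)
  map_add' _ _ := Subtype.ext (funext fun _ => map_add d.φ _ _)

@[simp] lemma coe_cocycles (c : cocycles₂ A) :
    (d.cocycles c : ↥U × ↥U → gModOn U) = d.push₂ c := rfl

lemma cocycles_apply (c : cocycles₂ A) (u u' : ↥U) :
    (d.cocycles c : ↥U × ↥U → gModOn U) (u, u') = d.φ (c (d.h u, d.h u')) := rfl

/-- **The map `H²(Γ, A) → gBr U` of a global datum.** -/
def map : H2 A →+ gBr U :=
  H2descAdd A ((continuousH2π U.subtype (gModOn U)).toAddMonoidHom.comp d.cocycles) (by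
    intro c hc
    rw [AddMonoidHom.comp_apply]
    show continuousH2π U.subtype (gModOn U) (d.cocycles c) = 0
    rw [continuousH2π_eq_zero_iff, mem_levelCoboundaries₂_iff]
    obtain ⟨y, hy⟩ := hc
    refine ⟨d.push₁ y, d.isLevelConstant₁ y, ?_⟩
    rw [coe_cocycles, ← hy]
    exact (d.push₂_d₁₂ y).symm)

@[simp] lemma map_H2π (c : cocycles₂ A) :
    d.map ((H2π A).hom c) = continuousH2π U.subtype (gModOn U) (d.cocycles c) :=
  H2descAdd_H2π _ _ _ c

/-- Localisation of a global datum at the place `(q, g)`. -/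
def loc (q : ℕ) [Fact q.Prime] (g : GQ) : LocDatum A q (locSub q g U) where
  h := d.h.comp (locHom q g U)
  φ := (locPush q g U).toAddMonoidHom.comp d.φ
  equivariant τ a := by
    show locPush q g U (d.φ (A.ρ (d.h (locHom q g U τ)) a)) = _
    rw [d.equivariant, locPush_equivariant]
    rfl
  level := by
    obtain ⟨F, hF, h⟩ := d.level
    refine ⟨F.map (g⁻¹ : GQ).toAlgHom, finiteDimensional_map_inv F g, fun τ hτ => ?_⟩
    rw [MonoidHom.comp_apply]
    exact h _ ((mem_fixingSubgroup_map_inv F g _).1 hτ)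

/-- Localisation commutes with the maps of the data: `locBr ∘ d.map = (d.loc q g).map`. -/
theorem locBr_map (q : ℕ) [Fact q.Prime] (g : GQ) (x : H2 A) :
    locBr q g U (d.map x) = (d.loc q g).map x := by
  obtain ⟨c, rfl⟩ := Bridge.H2π_surjective A x
  rw [map_H2π, LocDatum.map_H2π, locBr_mk]
  rfl

end GlobDatum

end Abstract

/-! ## 2. The data of a Tower level `M` and a subgroup `H ≤ Gal(M/ℚ)` -/

section Level

variable {S : Finset Nat.Primes} (M : Level S) (H : Subgroup M.Gal)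

/-- The preimage of `H ≤ Gal(M/ℚ)` in `G_ℚ`: the absolute Galois group of `K = M^H`. -/
def UH : Subgroup GQ := H.comap (QuotientGroup.mk' M.U)

lemma mem_UH {u : GQ} : u ∈ UH M H ↔ (QuotientGroup.mk u : M.Gal) ∈ H := Iff.rfl

lemma U_le_UH : M.U ≤ UH M H := fun u hu => by
  rw [mem_UH, (QuotientGroup.eq_one_iff u).2 hu]
  exact H.one_mem

lemma isOpenQ_UH : IsOpenQ (UH M H) :=
  ⟨M.F, level_finiteDimensional M, U_le_UH M H⟩

/-- The projection `U_H → H`. -/
def piH : ↥(UH M H) →* ↥H :=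
  ((QuotientGroup.mk' M.U).comp (UH M H).subtype).codRestrict H (fun u => u.2)

@[simp] lemma coe_piH (u : ↥(UH M H)) : ((piH M H u : ↥H) : M.Gal) = QuotientGroup.mk (u : GQ) :=
  rfl

lemma piH_surjective : Function.Surjective (piH M H) := by
  rintro ⟨γ, hγ⟩
  obtain ⟨u, rfl⟩ := QuotientGroup.mk_surjective γ
  exact ⟨⟨u, hγ⟩, rfl⟩

lemma piH_eq_one_of_mem {u : ↥(UH M H)} (hu : (u : GQ) ∈ M.F.fixingSubgroup) :
    piH M H u = 1 :=
  Subtype.ext ((QuotientGroup.eq_one_iff (u : GQ)).2 hu)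

/-! ### The global datum: inflation `H²(H, Mˣ) → gBr (UH M H)` -/

/-- The inclusion `Mˣ → ℚ̄ˣ`, additively. -/
def unitsIncl : Additive (M.F)ˣ →+ Additive Qbˣ :=
  MonoidHom.toAdditive (Units.map (M.F.val : M.F →* Qb))

lemma unitsIncl_coe (x : Additive (M.F)ˣ) :
    ((Additive.toMul (unitsIncl M x) : Qbˣ) : Qb) = ((Additive.toMul x : (M.F)ˣ) : M.F) := rfl

/-- The global datum of `(M, H)` with coefficients `Mˣ`. -/
def inflDatum : GlobDatum (T.resSub (lvlL M) H) (UH M H) where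
  h := piH M H
  φ := unitsIncl M
  equivariant u a := by
    apply Additive.toMul.injective
    apply Units.ext
    exact level_mk_smul M (u : GQ) ((Additive.toMul a : (M.F)ˣ) : M.F)
  level := ⟨M.F, level_finiteDimensional M, fun _ hu => piH_eq_one_of_mem M H hu⟩

/-- **Inflation** `H²(H, Mˣ) → gBr (UH M H) = Br(M^H)`. -/
def inflL : H2 (T.resSub (lvlL M) H) →+ gBr (UH M H) := (inflDatum M H).map

/-! ### The evaluation maps `M ⊗ ℚ_W → ℚ̄_q`

`W` is an ARBITRARY finite set of primes (the idèles `J_W(M) = (M ⊗ ℚ_W)ˣ` make sense for every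
`W`; for the semilocal invariant `W = S`, for `IsAt` also `W = S.erase r`). -/

variable (W : Finset Nat.Primes) (q : ℕ) [hq : Fact q.Prime]
  (hqW : (⟨q, hq.out⟩ : Nat.Primes) ∈ W)

/-- `M → ℚ̄_q`, `x ↦ ι_q (g⁻¹ x)`. -/
def evF (g : GQ) : M.F →ₐ[ℚ] PadicAlgCl q :=
  ((padicEmbedding q).toRingHom.comp
    (((g⁻¹ : GQ) : Qb →+* Qb).comp M.F.val.toRingHom)).toRatAlgHom

lemma evF_apply (g : GQ) (x : M.F) : evF M q g x = padicEmbedding q (g⁻¹ (x : Qb)) := rfl

/-- `ℚ_T → ℚ_q → ℚ̄_q`. -/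
def evQS : G.QS W →ₐ[ℚ] PadicAlgCl q :=
  ((algebraMap ℚ_[q] (PadicAlgCl q)).comp
    (G.QS.proj W ⟨⟨q, hq.out⟩, hqW⟩).toRingHom).toRatAlgHom

lemma evQS_apply (y : G.QS W) :
    evQS W q hqW y = algebraMap ℚ_[q] (PadicAlgCl q) (y ⟨⟨q, hq.out⟩, hqW⟩) := rfl

/-- **The evaluation** `ev_{q,g} : M ⊗ ℚ_T → ℚ̄_q`, `x ⊗ y ↦ ι_q (g⁻¹ x) · y_q`. -/
def evAlg (g : GQ) : G.AS W M.F →ₐ[ℚ] PadicAlgCl q :=
  Algebra.TensorProduct.lift (evF M q g) (evQS W q hqW) (fun _ _ => Commute.all _ _)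

@[simp] lemma evAlg_tmul (g : GQ) (x : M.F) (y : G.QS W) :
    evAlg M W q hqW g (x ⊗ₜ[ℚ] y) =
      padicEmbedding q (g⁻¹ (x : Qb)) * algebraMap ℚ_[q] (PadicAlgCl q) (y ⟨⟨q, hq.out⟩, hqW⟩) :=
  by simp [evAlg, evF_apply, evQS_apply]

lemma evAlg_asDiag (g : GQ) (x : M.F) :
    evAlg M W q hqW g (G.asDiag W M.F x) = padicEmbedding q (g⁻¹ (x : Qb)) := by
  show evAlg M W q hqW g (x ⊗ₜ[ℚ] 1) = _
  have h1 : (1 : G.QS W) ⟨⟨q, hq.out⟩, hqW⟩ = 1 := rfl
  rw [evAlg_tmul, h1, map_one, mul_one]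

lemma evAlg_asIncl (g : GQ) (y : G.QS W) :
    evAlg M W q hqW g (G.asIncl W M.F y) =
      algebraMap ℚ_[q] (PadicAlgCl q) (y ⟨⟨q, hq.out⟩, hqW⟩) := by
  show evAlg M W q hqW g (1 ⊗ₜ[ℚ] y) = _
  simp

/-- Equivariance of the evaluation: for `τ ∈ G_{ℚ_q}`,
`ev_{q,g} ((g · loc τ · g⁻¹) • a) = τ (ev_{q,g} a)`. -/
theorem evAlg_equivariant (g : GQ) (τ : PadicAlgCl q ≃ₐ[ℚ_[q]] PadicAlgCl q) (a : G.AS W M.F) :
    evAlg M W q hqW g (G.asAut W M.Gal M.F
        (QuotientGroup.mk (g * localGaloisToGlobal q τ * g⁻¹) : M.Gal) a) =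
      τ (evAlg M W q hqW g a) := by
  induction a using TensorProduct.induction_on with
  | zero => simp
  | add a b ha hb => simp only [map_add, ha, hb]
  | tmul x y =>
    have h1 : G.asAut W M.Gal M.F
        (QuotientGroup.mk (g * localGaloisToGlobal q τ * g⁻¹) : M.Gal) (x ⊗ₜ[ℚ] y) =
        (((QuotientGroup.mk (g * localGaloisToGlobal q τ * g⁻¹) : M.Gal) • x) ⊗ₜ[ℚ] y) := rfl
    rw [h1, evAlg_tmul, evAlg_tmul, map_mul, level_mk_smul, AlgEquiv.commutes]
    congr 1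
    rw [← padicEmbedding_localGaloisToGlobal]
    congr 1
    simp [AlgEquiv.mul_apply]

/-- Change of representative on the left: `ev_{q, u g} = ev_{q, g} ∘ (ū⁻¹ • ·)`. -/
theorem evAlg_mul_left (u g : GQ) (a : G.AS W M.F) :
    evAlg M W q hqW (u * g) a =
      evAlg M W q hqW g (G.asAut W M.Gal M.F (QuotientGroup.mk u⁻¹ : M.Gal) a) := by
  induction a using TensorProduct.induction_on with
  | zero => simp
  | add a b ha hb => simp only [map_add, ha, hb]
  | tmul x y =>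
    have h1 : G.asAut W M.Gal M.F (QuotientGroup.mk u⁻¹ : M.Gal) (x ⊗ₜ[ℚ] y) =
        (((QuotientGroup.mk u⁻¹ : M.Gal) • x) ⊗ₜ[ℚ] y) := rfl
    rw [h1, evAlg_tmul, evAlg_tmul, level_mk_smul]
    congr 2

/-- Compatibility with the projections `ℚ_{W'} → ℚ_W`, `W ⊆ W'`. -/
theorem evAlg_asRes {W' : Finset Nat.Primes} (hW : W ⊆ W') (g : GQ) (a : G.AS W' M.F) :
    evAlg M W q hqW g (G.asRes hW M.F a) = evAlg M W' q (hW hqW) g a := by
  induction a using TensorProduct.induction_on with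
  | zero => simp
  | add a b ha hb => simp only [map_add, ha, hb]
  | tmul x y => rw [G.asRes_tmul, evAlg_tmul, evAlg_tmul]; rfl

/-- `ev_{q,g}` on units, additively. -/
def evU (g : GQ) : Additive (G.AS W M.F)ˣ →+ Additive (PadicAlgCl q)ˣ :=
  MonoidHom.toAdditive (Units.map (evAlg M W q hqW g : G.AS W M.F →* PadicAlgCl q))

lemma evU_coe (g : GQ) (a : Additive (G.AS W M.F)ˣ) :
    ((Additive.toMul (evU M W q hqW g a) : (PadicAlgCl q)ˣ) : PadicAlgCl q) =
      evAlg M W q hqW g ((Additive.toMul a : (G.AS W M.F)ˣ) : G.AS W M.F) := rfl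

/-- **The place of `M` above `q ∈ W` induced by `ι_q ∘ g⁻¹`**: the kernel of `ev_{q,g}`. -/
def placeOf (g : GQ) : G.SPlace W M.F where
  asIdeal := RingHom.ker (evAlg M W q hqW g)
  isMaximal := by
    haveI := G.PL0H713.isArtinianRing_AS W M.F
    haveI : (RingHom.ker (evAlg M W q hqW g)).IsPrime := RingHom.ker_isPrime _
    exact IsArtinianRing.isMaximal_of_isPrime _

lemma mem_placeOf (g : GQ) (a : G.AS W M.F) :
    a ∈ (placeOf M W q hqW g).asIdeal ↔ evAlg M W q hqW g a = 0 := RingHom.mem_ker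

/-- **The local datum `c_{q,g}`** of `(M, H)` at the place of `M^H` induced by `ι_q ∘ g⁻¹`,
with coefficients `J_T(M)`. -/
def cDatum (g : GQ) : LocDatum (T.resSub (G.JRep M.Gal W M.F) H) q (locSub q g (UH M H)) where
  h := (piH M H).comp (locHom q g (UH M H))
  φ := evU M W q hqW g
  equivariant τ a := by
    apply Additive.toMul.injective
    apply Units.ext
    exact evAlg_equivariant M W q hqW g (τ : PadicAlgCl q ≃ₐ[ℚ_[q]] PadicAlgCl q) _
  level := by
    refine ⟨M.F.map (g⁻¹ : GQ).toAlgHom,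
      haveI := level_finiteDimensional M
      finiteDimensional_map_inv M.F g, fun τ hτ => ?_⟩
    rw [MonoidHom.comp_apply]
    exact piH_eq_one_of_mem M H ((mem_fixingSubgroup_map_inv M.F g _).1 hτ)

/-- **The localisation map** `c_{q,g} : H²(H, J_T(M)) → lBr q (locSub q g (UH M H))`. -/
def cH2 (g : GQ) :
    H2 (T.resSub (G.JRep M.Gal W M.F) H) →+ lBr q (locSub q g (UH M H)) :=
  (cDatum M H W q hqW g).map

end Level

/-! ## 3. Representatives of the places and the semilocal invariant -/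

/-- Chosen representatives of the double cosets `U \ G_ℚ / D_q` (the places of `ℚ̄^U` above `q`);
`∅` if `U` has infinitely many double cosets. -/
def reps (U : Subgroup GQ) (q : ℕ) [Fact q.Prime] : Finset GQ :=
  open Classical in
  if h : ∃ R : Finset GQ, IsDoubleCosetReps U (localGaloisToGlobal q).range R then h.choose else ∅

lemma reps_spec {U : Subgroup GQ} (hU : IsOpenQ U) (q : ℕ) [Fact q.Prime] :
    IsDoubleCosetReps U (localGaloisToGlobal q).range (reps U q) := by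
  have h := H174.exists_placeReps hU q
  unfold reps
  rw [dif_pos h]
  exact h.choose_spec

/-- The contribution of the prime `q ∈ S` to the semilocal invariant. -/
def sigmaAt (I : LocalInvSystem) {S : Finset Nat.Primes} (M : Level S) (H : Subgroup M.Gal)
    (q : S) : H2 (T.resSub (lvlJ M) H) →+ AddCircle (1 : ℚ) :=
  haveI : Fact ((q.1 : ℕ).Prime) := ⟨q.1.2⟩
  ∑ g ∈ reps (UH M H) (q.1 : ℕ),
    (I.inv (q.1 : ℕ) (locSub (q.1 : ℕ) g (UH M H))).comp (cH2 M H S (q.1 : ℕ) q.2 g)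

/-- **The semilocal invariant** `σ_H = ∑_{v | S} inv_v : H²(H, J_S(M)) → ℚ/ℤ`
(sum over the places `v` of `M^H` above `S`). -/
def sigma (I : LocalInvSystem) {S : Finset Nat.Primes} (M : Level S) (H : Subgroup M.Gal) :
    H2 (T.resSub (lvlJ M) H) →+ AddCircle (1 : ℚ) :=
  ∑ q : S, sigmaAt I M H q

lemma sigma_apply (I : LocalInvSystem) {S : Finset Nat.Primes} (M : Level S)
    (H : Subgroup M.Gal) (y : H2 (T.resSub (lvlJ M) H)) :
    sigma I M H y = ∑ q : S, sigmaAt I M H q y := by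
  simp [sigma]

lemma sigmaAt_apply (I : LocalInvSystem) {S : Finset Nat.Primes} (M : Level S)
    (H : Subgroup M.Gal) (q : S) (y : H2 (T.resSub (lvlJ M) H)) :
    sigmaAt I M H q y =
      haveI : Fact ((q.1 : ℕ).Prime) := ⟨q.1.2⟩
      ∑ g ∈ reps (UH M H) (q.1 : ℕ),
        I.inv (q.1 : ℕ) (locSub (q.1 : ℕ) g (UH M H)) (cH2 M H S (q.1 : ℕ) q.2 g y) := by
  simp [sigmaAt]

end Fermat.Agent.S55.G.Rec.TOW.FR

end
end
-- ===== PACK-END S55/G/Rec/Tow/FR/Defs.lean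

-- ===== PACK-BEGIN S55/G/Rec/Tow/FR/Spec.lean
section
/-
S55 / layer G / block REC / adapter TOW / leaf FR (subtask 558) — LEAF INTERFACE.
Sub-architect of FR: helper353.   Plan: `coord/S55-REC-TOW-FR.md`.

Target (file `FR/Assembly.lean`, helper353):
  `finRec_of (I : LocalInvSystem) : ReciprocitySpec I p → OutsideSpec I → ConjSpec I → CountSpec →
      LocInjSpec → OrbitRepsSpec → LocExistSpec → PrimePlaceSpec → G.ShapiroJSpec → FinRecSpec p`
with `σ := FR.sigma I` (file `FR/Defs.lean`).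

Everything here is a `def XxxSpec : Prop`; NO sorry.  Producers prove `theorem xxx : XxxSpec` in
`Fermat/Agent/S55/G/Rec/Tow/FR/<Leaf>H<seat>.lean`, namespace
`Fermat.Agent.S55.G.Rec.TOW.FR.H<seat>`.  Never edit `Defs.lean` / `Spec.lean`.
-/



set_option autoImplicit false
set_option linter.unusedSectionVars false
set_option linter.style.haveILetI false

open CategoryTheory groupCohomology
open scoped NumberField

noncomputable section

namespace Fermat.Agent.S55.G.Rec.TOW.FR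

open Fermat.Agent.S55 Fermat.Agent.S55.Tow Fermat.Agent.S55.E1.H594 Fermat.Agent.S55.G.Rec
open IsDedekindDomain

local notation "Qb" => AlgebraicClosure ℚ
local notation "GQ" => (AlgebraicClosure ℚ ≃ₐ[ℚ] AlgebraicClosure ℚ)

/-- **FR-OUT** (vanishing outside `S`).  `M` a level of `S`, `x ∈ H²(H, Mˣ)` with trivial divisor
class (`ord_* x = 0` in `H²(H, Div^S(M))`).  Then the local invariant of the inflated class
`inflL x ∈ Br(M^H)` vanishes at every place `(q, g)` with `q ∉ S`.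
(Proof: `ord ∘ f = dφ`, `φ : H → Div^S(M)`; at the prime `w` of `M` induced by `ι_q ∘ g⁻¹` and on the
decomposition group, `ψ := φ_w` satisfies `ord_w f(a,b) = ψ a + ψ b − ψ (ab)`; `q` is a uniformizer
of `M_w` (`M` is unramified at `q ∉ S`), fixed by everything; the localised cocycle times the level
coboundary `d (τ ↦ q^{−ψ(h τ)})` has unit values, is inflated from `Gal(M_w/K_v)`, which is a
quotient of `V` by a subgroup containing the inertial elements; `I.inv_unram`.) -/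
def OutsideSpec (I : LocalInvSystem) : Prop :=
  ∀ {S : Finset Nat.Primes} (M : Level S) (H : Subgroup M.Gal)
    (x : H2 (T.resSub (lvlL M) H)),
    h2Sub (G.ordRepHom S M.Gal M.F) H x = 0 →
    ∀ q : Nat.Primes, q ∉ S → ∀ g : GQ, I.invAt q g (UH M H) (inflL M H x) = 0

/-- **FR-CONJ** (independence of the representative over `ℚ`).  For classes of the FULL group
(`H = ⊤`, so `UH M ⊤ = G_ℚ` and every `locSub q g (UH M ⊤)` is the whole local group) the local
invariant of `c_{q,g} z` does not depend on `g`.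
(Proof: `g' = u g`; `ev_{q,ug} = ev_{q,g} ∘ ū⁻¹` (`evAlg_mul_left`) and
`h_{ug} τ = ū (h_g τ) ū⁻¹`, so the cochain of `c_{q,ug} z` is the push of the inner conjugate of
the cocycle, which differs from the cocycle by the coboundary of an explicit homotopy
(`Rec.H124.innerConj_eq124`, generic); the two subgroups are equal as sets: compare through
`lRes` + `I.inv_res` with `relIndex = 1`.) -/
def ConjSpec (I : LocalInvSystem) : Prop :=
  ∀ {S : Finset Nat.Primes} (M : Level S) (W : Finset Nat.Primes) (q : ℕ) [hq : Fact q.Prime]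
    (hqW : (⟨q, hq.out⟩ : Nat.Primes) ∈ W) (g g' : GQ)
    (z : H2 (T.resSub (G.JRep M.Gal W M.F) ⊤)),
    I.inv q (locSub q g (UH M ⊤)) (cH2 M ⊤ W q hqW g z) =
      I.inv q (locSub q g' (UH M ⊤)) (cH2 M ⊤ W q hqW g' z)

/-- **FR-COUNT** (`∑_{v | q} [K_v : ℚ_q] = [K : ℚ]`, `K = M^H`).
(Proof: `Rec.H934.orbSigma_bijective` + `Subgroup.index_comap_of_surjective`;
`locSub q g (UH M ⊤) = ⊤`.) -/
def CountSpec : Prop :=
  ∀ {S : Finset Nat.Primes} (M : Level S) (H : Subgroup M.Gal) (q : ℕ) [Fact q.Prime],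
    ∑ g ∈ reps (UH M H) q, (locSub q g (UH M H)).relIndex (locSub q g (UH M ⊤)) = H.index

/-- **FR-A** (local inflation is injective).  The localisation `c_{q,g}` on `H²(H, J_W(M))`
vanishes on a class iff the intrinsic localisation `locMapJ` at the place `placeOf q g` does:
`c_{q,g} = Λ ∘ locMapJ 𝔪`, `Λ : H²(D_𝔪, M_𝔪ˣ) → lBr q V` the inflation along `V ↠ D_𝔪`, injective by
Hilbert 90.  (Model: `G/Rec/HP/{LocEmb,LocalGlue,LocH90,InflInj}.lean`, helper473, which does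
the same for the groups `lvlGal U F` and coefficients `Mˣ`.) -/
def LocInjSpec : Prop :=
  ∀ {S : Finset Nat.Primes} (M : Level S) (H : Subgroup M.Gal) (W : Finset Nat.Primes)
    (q : ℕ) [hq : Fact q.Prime] (hqW : (⟨q, hq.out⟩ : Nat.Primes) ∈ W) (g : GQ)
    (z : H2 (T.resSub (G.JRep M.Gal W M.F) H)),
    cH2 M H W q hqW g z = 0 ↔ (G.locMapJ W ↥H (placeOf M W q hqW g) 2).hom z = 0

/-- **FR-B** (places = double cosets).  Every place `𝔪` of `M` above `W` is `H`-conjugate to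
`placeOf q g` for a UNIQUE pair `(q, g)`, `q ∈ W`, `g ∈ reps (UH M H) q`.
(Proof: (i) `placeOf q (u g d) = ū • placeOf q g` for `u ∈ UH M H`, `d ∈ D_q`; (ii) every place is
some `placeOf q g` (`HP.exists_placeEmb`, helper473 / `HP.PlaceEmbSpec`); (iii) `placeOf q g =
placeOf q' g'` ⇒ `q = q'` and `g' ∈ M.U · g · D_q`: two embeddings of `M_𝔪` into `ℚ̄_q` over `ℚ_q`
differ by an element of `Gal(ℚ̄_q/ℚ_q)`.) -/
def OrbitRepsSpec : Prop :=
  ∀ {S : Finset Nat.Primes} (M : Level S) (H : Subgroup M.Gal) (W : Finset Nat.Primes)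
    (𝔪 : G.SPlace W M.F),
    ∃! x : (q : W) × {g : GQ //
        haveI : Fact ((q.1 : ℕ).Prime) := ⟨q.1.2⟩
        g ∈ reps (UH M H) (q.1 : ℕ)},
      haveI : Fact ((x.1.1 : ℕ).Prime) := ⟨x.1.1.2⟩
      ∃ h : ↥H, G.sPlaceSMul W ↥H h (placeOf M W (x.1.1 : ℕ) x.1.2 x.2.1) = 𝔪

/-- **FR-C** (local classes; intrinsic model of layer G, no Tower).  For a finite group `Γ` acting
faithfully on a number field `L` and a place `𝔪` above `W`, the group `H²(D_𝔪, L_𝔪ˣ)` contains an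
element of exact order `n` for every divisor `n` of `|D_𝔪|`.
(Proof: `D_𝔪` acts faithfully on `L_𝔪` (`G.H953.locAut_injective`), `L_𝔪 / L_𝔪^{D_𝔪}` is Galois with
group `D_𝔪`, the base is a finite extension of `ℚ_q`, hence a local field
(`PL0H713.isLocalFld_of_finite_padic`); `L.H2CyclicSpec` / `L.ClassModuleSpec` (closed on main:
`L.AllClosed`) give `H² ≅ ℤ/|D_𝔪|`.  Cf. `G/JGlueClosedH604.lean` for the cyclic case.) -/
def LocExistSpec : Prop :=
  ∀ (W : Finset Nat.Primes) (Γ L : Type) [Group Γ] [Finite Γ] [Field L] [NumberField L]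
    [MulSemiringAction Γ L] [FaithfulSMul Γ L] (𝔪 : G.SPlace W L) (n : ℕ),
    n ∣ Nat.card (G.decomp W Γ 𝔪) →
    ∃ u : groupCohomology (G.LocRep W Γ 𝔪) 2, n • u = 0 ∧ ∀ k : ℕ, k • u = 0 → n ∣ k

/-- **FR-D** (primes to places).  A subgroup fixing a prime of `𝒪_M` above `r ∈ S` fixes a place
of `M ⊗ ℚ_S`.  (From `G.PlacePrimeSpec`, closed on main.) -/
def PrimePlaceSpec : Prop :=
  ∀ {S : Finset Nat.Primes} (M : Level S) (r : Nat.Primes), r ∈ S → ∀ Z : Subgroup M.Gal,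
    FixesPrimeAbove M r Z →
    ∃ 𝔪 : G.SPlace S M.F, ∀ z ∈ Z, G.sPlaceSMul S M.Gal z 𝔪 = 𝔪

end Fermat.Agent.S55.G.Rec.TOW.FR

end
end
-- ===== PACK-END S55/G/Rec/Tow/FR/Spec.lean

-- ===== PACK-BEGIN S55/G/Rec/Tow/FR/OutsideH724.lean
section
/-
S55 / layer G / block REC / adapter TOW / leaf FR-OUT (helper724).

`outside I : FR.OutsideSpec I` — vanishing of the local invariants outside `S` of the inflation of
a finite-level class with trivial divisor class; adapter from the cocycle form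
`TOW.H724.invAt_eq_zero_of_ord` (`Tow/H724/Unram.lean`) to the FR vocabulary (`FR/Defs.lean`).
-/



set_option autoImplicit false

open CategoryTheory groupCohomology

noncomputable section

namespace Fermat.Agent.S55.G.Rec.TOW.FR.H724

open Fermat.Agent.S55 Fermat.Agent.S55.Tow Fermat.Agent.S55.E1.H594 Fermat.Agent.S55.G.Rec

/-- **FR-OUT.** -/
theorem outside (I : LocalInvSystem) : OutsideSpec I := by
  intro S M H x hx q hq g
  obtain ⟨c₀, rfl⟩ := Bridge.H2π_surjective _ x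
  have h := TOW.H724.invAt_eq_zero_of_ord M H I q hq g c₀ hx ((inflDatum M H).cocycles c₀) rfl
  have e : inflL M H ((H2π (T.resSub (lvlL M) H)).hom c₀) =
      continuousH2π (UH M H).subtype (gModOn (UH M H)) ((inflDatum M H).cocycles c₀) :=
    GlobDatum.map_H2π (inflDatum M H) c₀
  rw [e]
  exact h

end Fermat.Agent.S55.G.Rec.TOW.FR.H724

end
end
-- ===== PACK-END S55/G/Rec/Tow/FR/OutsideH724.lean

-- ===== PACK-BEGIN S55/G/Rec/Tow/FR/ConjH414.lean
section



/-!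
# S55 / layer G / block REC / adapter TOW / FR : leaf FR-CONJ (`ConjSpec I`)   (helper414)

For classes of the full group (`H = ⊤`) the local invariant of `c_{q,g} z` does not depend on `g`.

Proof.  Write `g' = u g`.  Then `h_{ug} τ = ū (h_g τ) ū⁻¹` and `ev_{q,ug} = ev_{q,g} ∘ ū⁻¹`
(`evAlg_mul_left`), so the cochain of `c_{q,ug} z` is the push along the datum at `g` of the inner
conjugate of the cocycle, which is cohomologous to the cocycle (`Rec.H124.innerConj_eq124`).  The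
two local groups are equal as sets; compare through `lRes` and `I.inv_res` with `relIndex = 1`.
-/

set_option autoImplicit false
set_option linter.unusedSectionVars false
set_option linter.style.haveILetI false

open CategoryTheory groupCohomology
open scoped NumberField

noncomputable section

namespace Fermat.Agent.S55.G.Rec.TOW.FR.H414

open Fermat.Agent.S55 Fermat.Agent.S55.Tow Fermat.Agent.S55.E1.H594 Fermat.Agent.S55.G.Rec
open Fermat.Agent.S55.G.Rec.TOW Fermat.Agent.S55.G.Rec.TOW.FR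
open IsDedekindDomain

local notation "Qb" => AlgebraicClosure ℚ
local notation "GQ" => (AlgebraicClosure ℚ ≃ₐ[ℚ] AlgebraicClosure ℚ)

/-! ## Abstract: a local datum whose cochains are pushes of inner conjugates -/

section Abstract

variable {Γ : Type} [Group Γ] {A : Rep.{0} ℤ Γ} {q : ℕ} [Fact q.Prime]
  {V : Subgroup (PadicAlgCl q ≃ₐ[ℚ_[q]] PadicAlgCl q)}

theorem push₂_add (d : LocDatum A q V) (x y : Γ × Γ → A.V) :
    d.push₂ (x + y) = d.push₂ x + d.push₂ y :=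
  funext fun _ => map_add d.φ _ _

/-- If the cochains of `d'` are the pushes along `d` of the inner conjugates by `u`, then `d'` and
`d` induce the same map on `H²`. -/
theorem map_eq_of_conj (d d' : LocDatum A q V) (u : Γ)
    (h : ∀ c : Γ × Γ → A.V, d'.push₂ c = d.push₂ (H124.innerConj124 A c u)) (z : H2 A) :
    d'.map z = d.map z := by
  obtain ⟨c, rfl⟩ := Bridge.H2π_surjective A z
  rw [LocDatum.map_H2π, LocDatum.map_H2π, ← sub_eq_zero, ← map_sub,
    continuousH2π_eq_zero_iff, mem_levelCoboundaries₂_iff]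
  refine ⟨d.push₁ (H124.innerHomotopy124 A (c : Γ × Γ → A.V) u), d.isLevelConstant₁ _, ?_⟩
  rw [← d.push₂_d₁₂]
  have hconj := H124.innerConj_eq124 A (c : Γ × Γ → A.V) c.2 u
  have h1 : ((d'.cocycles c - d.cocycles c : ↥(levelCocycles₂ (lHom q V) (lModOn q V))) :
      ↥V × ↥V → (lModOn q V).V) = d'.push₂ c - d.push₂ c := rfl
  rw [h1, h, hconj, push₂_add, add_sub_cancel_left]

end Abstract

section

variable {S : Finset Nat.Primes} (M : Level S) (W : Finset Nat.Primes) (q : ℕ)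
  [hq : Fact q.Prime] (hqW : (⟨q, hq.out⟩ : Nat.Primes) ∈ W)

/-- Every element of the local Galois group lies in the local group of the full group. -/
theorem mem_locSub_top (g : GQ) (τ : PadicAlgCl q ≃ₐ[ℚ_[q]] PadicAlgCl q) :
    τ ∈ locSub q g (UH M ⊤) := by
  rw [mem_locSub, mem_UH]
  exact Subgroup.mem_top _

theorem locSub_top_le (g g' : GQ) : locSub q g' (UH M ⊤) ≤ locSub q g (UH M ⊤) :=
  fun τ _ => mem_locSub_top M q g τ

theorem isOpenL_locSub_top (g : GQ) : IsOpenL q (locSub q g (UH M ⊤)) :=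
  ⟨⊥, inferInstance, fun τ _ => mem_locSub_top M q g τ⟩

theorem relIndex_locSub_top (g g' : GQ) :
    (locSub q g' (UH M ⊤)).relIndex (locSub q g (UH M ⊤)) = 1 :=
  Subgroup.relIndex_eq_one.2 (locSub_top_le M q g' g)

/-- the class of `u` in `Gal(M/ℚ)`, as an element of the full subgroup -/
def topMk (u : GQ) : ↥(⊤ : Subgroup M.Gal) := ⟨QuotientGroup.mk u, Subgroup.mem_top _⟩

/-- The key cochain identity: the cochain of `c_{q,ug}` is the push along the datum at `g`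
(restricted) of the inner conjugate. -/
theorem push₂_mul_left (u g : GQ)
    (c : ↥(⊤ : Subgroup M.Gal) × ↥(⊤ : Subgroup M.Gal) → (T.resSub (G.JRep M.Gal W M.F) ⊤).V) :
    (cDatum M ⊤ W q hqW (u * g)).push₂ c =
      ((cDatum M ⊤ W q hqW g).restrict (locSub_top_le M q g (u * g))).push₂
        (H124.innerConj124 (T.resSub (G.JRep M.Gal W M.F) ⊤) c (topMk M u)) := by
  funext ⟨τ₁, τ₂⟩
  have hh : ∀ τ : ↥(locSub q (u * g) (UH M ⊤)),
      (cDatum M ⊤ W q hqW (u * g)).h τ =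
        topMk M u * ((cDatum M ⊤ W q hqW g).restrict (locSub_top_le M q g (u * g))).h τ *
          (topMk M u)⁻¹ := by
    intro τ
    apply Subtype.ext
    show (QuotientGroup.mk (u * g * localGaloisToGlobal q τ * (u * g)⁻¹) : M.Gal) =
      (QuotientGroup.mk u : M.Gal) *
        (QuotientGroup.mk (g * localGaloisToGlobal q τ * g⁻¹) : M.Gal) *
        (QuotientGroup.mk u : M.Gal)⁻¹
    rw [← QuotientGroup.mk_inv, ← QuotientGroup.mk_mul, ← QuotientGroup.mk_mul]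
    have e : u * g * localGaloisToGlobal q τ * (u * g)⁻¹ =
        u * (g * localGaloisToGlobal q τ * g⁻¹) * u⁻¹ := by group
    rw [e]
  have hφ : ∀ a : (T.resSub (G.JRep M.Gal W M.F) ⊤).V,
      (cDatum M ⊤ W q hqW (u * g)).φ a =
        ((cDatum M ⊤ W q hqW g).restrict (locSub_top_le M q g (u * g))).φ
          ((T.resSub (G.JRep M.Gal W M.F) ⊤).ρ (topMk M u)⁻¹ a) := by
    intro a
    apply Additive.toMul.injective
    apply Units.ext
    exact evAlg_mul_left M W q hqW u g _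
  show (cDatum M ⊤ W q hqW (u * g)).φ
      (c ((cDatum M ⊤ W q hqW (u * g)).h τ₁, (cDatum M ⊤ W q hqW (u * g)).h τ₂)) = _
  rw [hφ, hh τ₁, hh τ₂]
  rfl

/-- The class of `c_{q,ug} z` is the restriction of the class of `c_{q,g} z`. -/
theorem cH2_mul_left (u g : GQ) (z : H2 (T.resSub (G.JRep M.Gal W M.F) ⊤)) :
    cH2 M ⊤ W q hqW (u * g) z =
      lRes q (locSub_top_le M q g (u * g)) (cH2 M ⊤ W q hqW g z) := by
  unfold cH2
  rw [← LocDatum.map_restrict]
  exact map_eq_of_conj _ _ (topMk M u) (push₂_mul_left M W q hqW u g) z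

end

/-- **FR-CONJ**: for classes of the full group the local invariant of `c_{q,g} z` does not depend
on `g`. -/
theorem conj (I : LocalInvSystem) : ConjSpec I := by
  intro S M W q hq hqW g g' z
  have key : ∀ u g₀ : GQ,
      I.inv q (locSub q (u * g₀) (UH M ⊤)) (cH2 M ⊤ W q hqW (u * g₀) z) =
        I.inv q (locSub q g₀ (UH M ⊤)) (cH2 M ⊤ W q hqW g₀ z) := by
    intro u g₀
    rw [cH2_mul_left, I.inv_res q _ _ _ (isOpenL_locSub_top M q (u * g₀)),
      relIndex_locSub_top, one_smul]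
  have h1 := key (g * g'⁻¹) g'
  have e : g * g'⁻¹ * g' = g := by group
  rw [e] at h1
  exact h1

end Fermat.Agent.S55.G.Rec.TOW.FR.H414

end
end
-- ===== PACK-END S55/G/Rec/Tow/FR/ConjH414.lean

-- ===== PACK-BEGIN S55/G/Rec/Tow/FR/CountH73.lean
section



/-!
# S55 / REC2-TOW / FR, leaf FR-COUNT (helper73): `count : CountSpec`

`∑_{v | q} [K_v : ℚ_q] = [K : ℚ]` for `K = M^H`: orbit counting
(`Rec.H934.orbSigma_bijective`) + `Subgroup.index_comap_of_surjective`.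
-/

set_option autoImplicit false

open CategoryTheory

noncomputable section

namespace Fermat.Agent.S55.G.Rec.TOW.FR.H73

open Fermat.Agent.S55 Fermat.Agent.S55.Tow Fermat.Agent.S55.G.Rec Fermat.Agent.S55.G.Rec.TOW.FR

local notation "GQ" => (AlgebraicClosure ℚ ≃ₐ[ℚ] AlgebraicClosure ℚ)

/-- Orbit counting: the sum of the local indices over double coset representatives is the
global index. -/
theorem sum_index_locSub (q : ℕ) [Fact q.Prime] {U : Subgroup GQ} (hU : IsOpenQ U)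
    (R : Finset GQ) (hR : IsDoubleCosetReps U (localGaloisToGlobal q).range R) :
    ∑ g ∈ R, (locSub q g U).index = U.index := by
  classical
  haveI : ∀ r : GQ, Finite ((PadicAlgCl q ≃ₐ[ℚ_[q]] PadicAlgCl q) ⧸ locSub q r U) :=
    fun r => H934.finite_quotient_locSub q hU r
  have h1 : Nat.card (Σ r : ↥R, (PadicAlgCl q ≃ₐ[ℚ_[q]] PadicAlgCl q) ⧸ locSub q (r : GQ) U) =
      Nat.card (GQ ⧸ U) :=
    Nat.card_congr (Equiv.ofBijective _ (H934.orbSigma_bijective q U R hR))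
  rw [Subgroup.index, ← h1, Nat.card_sigma]
  rw [← Finset.sum_coe_sort R (fun g => (locSub q g U).index)]
  rfl

/-- **FR-COUNT.** -/
theorem count : CountSpec := by
  intro S M H q _
  have htop : UH M (⊤ : Subgroup M.Gal) = ⊤ := by
    ext u
    simp [mem_UH]
  have h1 : ∀ g : GQ, (locSub q g (UH M H)).relIndex (locSub q g (UH M ⊤)) =
      (locSub q g (UH M H)).index := by
    intro g
    have : locSub q g (UH M (⊤ : Subgroup M.Gal)) = ⊤ := by
      rw [htop]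
      rfl
    rw [this, Subgroup.relIndex_top_right]
  simp only [h1]
  rw [sum_index_locSub q (isOpenQ_UH M H) _ (reps_spec (isOpenQ_UH M H) q)]
  exact Subgroup.index_comap_of_surjective H (QuotientGroup.mk'_surjective M.U)

end Fermat.Agent.S55.G.Rec.TOW.FR.H73

end
end
-- ===== PACK-END S55/G/Rec/Tow/FR/CountH73.lean

-- ===== PACK-BEGIN S55/G/Rec/H413/L5Cyclo.lean
section





/-!
# S55 / G / REC, leaf L5 (helper413), part 2: the local cyclotomic field `ℚ_ℓ(μ_{ℓ^(n+1)})`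

* `normIndex_cyclotomic` : the norm index of `ℚ_ℓ(ζ_{ℓ^(n+1)})/ℚ_ℓ` is the degree (instance of the
  local norm index theorem for cyclic extensions, `Local.H713.normIndexCyclicSpec`).
* `normRange_cyclotomic_eq` : `N(Fˣ) = ker (wildChar)`, UNCONDITIONAL (`ℓ` odd).
-/

set_option autoImplicit false
set_option linter.style.haveILetI false

namespace Fermat.Agent.S55.G.Rec.H413

open Polynomial

variable (ℓ : ℕ) [hℓ : Fact ℓ.Prime]

section Abstract

/-- `Gal(ℚ_ℓ(ζ_{ℓ^(n+1)})/ℚ_ℓ)` is cyclic (`ℓ` odd). -/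
theorem isCyclic_gal_cyclotomic (n : ℕ) (F : Type) [Field F] [Algebra ℚ_[ℓ] F]
    [IsCyclotomicExtension {ℓ ^ (n + 1)} ℚ_[ℓ] F] (hℓ2 : ℓ ≠ 2) : IsCyclic (F ≃ₐ[ℚ_[ℓ]] F) := by
  have : NeZero (ℓ ^ (n + 1)) := ⟨(pow_pos hℓ.out.pos _).ne'⟩
  have e := IsCyclotomicExtension.autEquivPow F
    (Fermat.Agent.S55.H413.irreducible_cyclotomic_padic ℓ n)
  have : IsCyclic (ZMod (ℓ ^ (n + 1)))ˣ := ZMod.isCyclic_units_of_prime_pow ℓ hℓ.out hℓ2 (n + 1)
  exact isCyclic_of_surjective e.symm e.symm.surjective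

/-- The norm index of `ℚ_ℓ(ζ_{ℓ^(n+1)})/ℚ_ℓ` equals the degree. -/
theorem normIndex_cyclotomic (n : ℕ) (F : Type) [Field F] [Algebra ℚ_[ℓ] F]
    [IsCyclotomicExtension {ℓ ^ (n + 1)} ℚ_[ℓ] F] (hℓ2 : ℓ ≠ 2) :
    (Fermat.Agent.S55.H413.normRange ℓ F).index = Module.finrank ℚ_[ℓ] F := by
  have : NeZero (ℓ ^ (n + 1)) := ⟨(pow_pos hℓ.out.pos _).ne'⟩
  haveI : Fermat.Agent.S55.L.IsLocalFld ℚ_[ℓ] := Fermat.Agent.S55.L.padicInst63 ℓ
  haveI : FiniteDimensional ℚ_[ℓ] F :=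
    IsCyclotomicExtension.finiteDimensional {ℓ ^ (n + 1)} ℚ_[ℓ] F
  haveI : IsGalois ℚ_[ℓ] F := IsCyclotomicExtension.isGalois {ℓ ^ (n + 1)} ℚ_[ℓ] F
  haveI : IsCyclic (F ≃ₐ[ℚ_[ℓ]] F) := isCyclic_gal_cyclotomic ℓ n F hℓ2
  exact Fermat.Agent.S55.Local.H713.normIndexCyclicSpec ℚ_[ℓ] F

/-- **Norm group of the local cyclotomic field**, unconditional. -/
theorem normRange_cyclotomic_eq (n : ℕ) (F : Type) [Field F] [Algebra ℚ_[ℓ] F]
    [IsCyclotomicExtension {ℓ ^ (n + 1)} ℚ_[ℓ] F] (hℓ2 : ℓ ≠ 2) :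
    Fermat.Agent.S55.H413.normRange ℓ F = (Fermat.Agent.S55.H413.wildChar ℓ (n + 1)).ker :=
  Fermat.Agent.S55.H413.normRange_eq_ker_wildChar ℓ n F hℓ2 (normIndex_cyclotomic ℓ n F hℓ2)

end Abstract

end Fermat.Agent.S55.G.Rec.H413

end
-- ===== PACK-END S55/G/Rec/H413/L5Cyclo.lean

-- ===== PACK-BEGIN S55/G/Rec/H413/L5Field.lean
section



/-!
# S55 / G / REC, leaf L5 (helper413), part 3: `ℚ_ℓ(ζ)` inside `PadicAlgCl ℓ`

`ζ` a primitive `ℓ^(n+1)`-th root of unity in `Ω = PadicAlgCl ℓ`, `F = ℚ_ℓ(ζ) ⊆ Ω`,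
`N = Gal(Ω/F)`, `c = hζ.autToPow ℚ_ℓ : Gal(Ω/ℚ_ℓ) → (ℤ/ℓ^(n+1))ˣ` the cyclotomic character.

* `ker_autToPow_eq` : `ker c = N`;
* `relNorm_fixing_eq_norm` : `relNorm N b = N_{F/ℚ_ℓ}(b)` for `b ∈ Fˣ`;
* `mem_map_of_pow_card_eq_one` : in a finite cyclic group, `u ^ |B| = 1 → u ∈ B`.
-/

set_option autoImplicit false
set_option linter.style.haveILetI false

namespace Fermat.Agent.S55.G.Rec.H413

open Polynomial

/-- In a finite cyclic group, an element killed by the order of a subgroup lies in it. -/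
theorem mem_of_pow_card_eq_one {A : Type*} [CommGroup A] [Finite A] [IsCyclic A]
    (B : Subgroup A) (u : A) (hu : u ^ Nat.card B = 1) : u ∈ B := by
  classical
  letI : Fintype A := Fintype.ofFinite A
  have hpos : 0 < Nat.card B := Nat.card_pos
  have hle := IsCyclic.card_pow_eq_one_le (α := A) hpos
  set S : Finset A := Finset.univ.filter (fun a : A => a ^ Nat.card B = 1) with hS
  have hBS : (Finset.univ.filter (fun a : A => a ∈ B)) ⊆ S := by
    intro a ha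
    rw [Finset.mem_filter] at ha
    rw [hS, Finset.mem_filter]
    refine ⟨Finset.mem_univ _, ?_⟩
    have := pow_card_eq_one' (G := B) (x := ⟨a, ha.2⟩)
    exact congrArg Subtype.val this
  have hcardB : (Finset.univ.filter (fun a : A => a ∈ B)).card = Nat.card B := by
    rw [Nat.card_eq_fintype_card, Fintype.card_subtype]
  have heq : Finset.univ.filter (fun a : A => a ∈ B) = S :=
    Finset.eq_of_subset_of_card_le hBS (by rw [hcardB]; exact hle)
  have huS : u ∈ S := by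
    rw [hS, Finset.mem_filter]
    exact ⟨Finset.mem_univ _, hu⟩
  rw [← heq, Finset.mem_filter] at huS
  exact huS.2

variable (ℓ : ℕ) [hℓ : Fact ℓ.Prime]

local notation "Ω" => PadicAlgCl ℓ
local notation "Gq" => (PadicAlgCl ℓ ≃ₐ[ℚ_[ℓ]] PadicAlgCl ℓ)

/-- A primitive `ℓ^(n+1)`-th root of unity exists in `PadicAlgCl ℓ`. -/
theorem exists_primitiveRoot_padicAlgCl (n : ℕ) : ∃ ζ : Ω, IsPrimitiveRoot ζ (ℓ ^ (n + 1)) := by
  have : NeZero (ℓ ^ (n + 1)) := ⟨(pow_pos hℓ.out.pos _).ne'⟩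
  exact ⟨_, IsCyclotomicExtension.zeta_spec (ℓ ^ (n + 1)) Ω Ω⟩

/-- The field `ℚ_ℓ(ζ) ⊆ Ω`. -/
noncomputable abbrev cycF (ζ : PadicAlgCl ℓ) : IntermediateField ℚ_[ℓ] (PadicAlgCl ℓ) :=
  IntermediateField.adjoin ℚ_[ℓ] {ζ}

section Fixed

variable {n : ℕ} {ζ : PadicAlgCl ℓ} (hζ : IsPrimitiveRoot ζ (ℓ ^ (n + 1)))

include hζ in
theorem isCyclotomicExtension_cycF :
    IsCyclotomicExtension {ℓ ^ (n + 1)} ℚ_[ℓ] (cycF ℓ ζ) := by
  have : NeZero (ℓ ^ (n + 1)) := ⟨(pow_pos hℓ.out.pos _).ne'⟩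
  exact hζ.intermediateField_adjoin_isCyclotomicExtension ℚ_[ℓ]

theorem mem_fixingSubgroup_cycF_iff (ζ : PadicAlgCl ℓ) (τ : Gq) :
    τ ∈ (cycF ℓ ζ).fixingSubgroup ↔ τ ζ = ζ := by
  constructor
  · intro h
    exact (IntermediateField.mem_fixingSubgroup_iff _ _).1 h ζ
      (IntermediateField.mem_adjoin_simple_self ℚ_[ℓ] ζ)
  · intro h
    rw [IntermediateField.mem_fixingSubgroup_iff]
    have hle : cycF ℓ ζ ≤ IntermediateField.fixedField (MulAction.stabilizer Gq ζ) := by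
      rw [IntermediateField.adjoin_le_iff]
      rintro x rfl
      rw [SetLike.mem_coe, IntermediateField.mem_fixedField_iff]
      intro σ hσ
      exact hσ
    intro x hx
    have := hle hx
    rw [IntermediateField.mem_fixedField_iff] at this
    exact this τ h

include hζ in
/-- The hypothesis of L5 on `W` says `Gal(Ω/ℚ_ℓ(ζ)) ≤ W`. -/
theorem fixingSubgroup_cycF_le {W : Subgroup Gq}
    (hW : ∀ τ : Gq, (∀ ξ : PadicAlgCl ℓ, ξ ^ (ℓ ^ (n + 1)) = 1 → τ ξ = ξ) → τ ∈ W) :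
    (cycF ℓ ζ).fixingSubgroup ≤ W := by
  have : NeZero (ℓ ^ (n + 1)) := ⟨(pow_pos hℓ.out.pos _).ne'⟩
  intro τ hτ
  rw [mem_fixingSubgroup_cycF_iff] at hτ
  refine hW τ (fun ξ hξ => ?_)
  obtain ⟨i, -, rfl⟩ := hζ.eq_pow_of_pow_eq_one hξ
  rw [map_pow, hτ]

include hζ in
/-- `τ ξ = ξ ^ (c τ)` for every `ℓ^(n+1)`-th root of unity `ξ`. -/
theorem autToPow_spec_all (τ : Gq) (ξ : PadicAlgCl ℓ) (hξ : ξ ^ (ℓ ^ (n + 1)) = 1) :
    haveI : NeZero (ℓ ^ (n + 1)) := ⟨(pow_pos hℓ.out.pos _).ne'⟩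
    τ ξ = ξ ^ ((hζ.autToPow ℚ_[ℓ] τ : (ZMod (ℓ ^ (n + 1)))ˣ) : ZMod (ℓ ^ (n + 1))).val := by
  have : NeZero (ℓ ^ (n + 1)) := ⟨(pow_pos hℓ.out.pos _).ne'⟩
  obtain ⟨i, -, rfl⟩ := hζ.eq_pow_of_pow_eq_one hξ
  rw [map_pow, ← hζ.autToPow_spec ℚ_[ℓ] τ, ← pow_mul, ← pow_mul, mul_comm]

include hζ in
/-- The kernel of the cyclotomic character is `Gal(Ω/ℚ_ℓ(ζ))`. -/
theorem ker_autToPow_eq :
    haveI : NeZero (ℓ ^ (n + 1)) := ⟨(pow_pos hℓ.out.pos _).ne'⟩
    (hζ.autToPow ℚ_[ℓ] : Gq →* (ZMod (ℓ ^ (n + 1)))ˣ).ker = (cycF ℓ ζ).fixingSubgroup := by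
  have : NeZero (ℓ ^ (n + 1)) := ⟨(pow_pos hℓ.out.pos _).ne'⟩
  have h1lt : 1 < ℓ ^ (n + 1) := Nat.one_lt_pow (Nat.succ_ne_zero n) hℓ.out.one_lt
  haveI : Fact (1 < ℓ ^ (n + 1)) := ⟨h1lt⟩
  ext τ
  rw [MonoidHom.mem_ker, mem_fixingSubgroup_cycF_iff]
  constructor
  · intro h
    have := hζ.autToPow_spec ℚ_[ℓ] τ
    rw [h, Units.val_one, ZMod.val_one, pow_one] at this
    exact this.symm
  · intro h
    have h2 := hζ.autToPow_spec ℚ_[ℓ] τ
    rw [h] at h2
    have h3 : ((hζ.autToPow ℚ_[ℓ] τ : (ZMod (ℓ ^ (n + 1)))ˣ) : ZMod (ℓ ^ (n + 1))).val = 1 := by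
      apply hζ.pow_inj (ZMod.val_lt _) h1lt
      rw [h2, pow_one]
    apply Units.ext
    rw [Units.val_one]
    apply ZMod.val_injective
    rw [h3, ZMod.val_one]

end Fixed

section Norm

variable {ℓ}

/-- For a finite normal `F ⊆ Ω` and `b ∈ Fˣ`: `relNorm Gal(Ω/F) b = N_{F/ℚ_ℓ}(b)`. -/
theorem relNorm_fixing_eq_norm (F : IntermediateField ℚ_[ℓ] (PadicAlgCl ℓ)) [Normal ℚ_[ℓ] F]
    [FiniteDimensional ℚ_[ℓ] F] (b : (PadicAlgCl ℓ)ˣ) (hb : (b : PadicAlgCl ℓ) ∈ F) :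
    ((relNorm F.fixingSubgroup b : (PadicAlgCl ℓ)ˣ) : PadicAlgCl ℓ) =
      algebraMap ℚ_[ℓ] (PadicAlgCl ℓ) (Algebra.norm ℚ_[ℓ] (⟨b, hb⟩ : F)) := by
  classical
  haveI := RelNormH707.isGalois_local ℓ
  haveI : IsGalois ℚ_[ℓ] F := ⟨⟩
  haveI : F.fixingSubgroup.FiniteIndex := by
    refine ⟨?_⟩
    rw [← IntermediateField.finrank_eq_fixingSubgroup_index]
    exact Module.finrank_pos.ne'
  have hsurj : Function.Surjective
      (AlgEquiv.restrictNormalHom F : Gq → (F ≃ₐ[ℚ_[ℓ]] F)) :=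
    AlgEquiv.restrictNormalHom_surjective (F := ℚ_[ℓ]) (K₁ := F) (PadicAlgCl ℓ)
  have hker : ∀ g : Gq, AlgEquiv.restrictNormalHom F g = 1 ↔ g ∈ F.fixingSubgroup := by
    intro g
    rw [← IntermediateField.restrictNormalHom_ker, MonoidHom.mem_ker]
  set r : (F ≃ₐ[ℚ_[ℓ]] F) → Gq := Function.surjInv hsurj with hr
  have hrσ : ∀ σ, AlgEquiv.restrictNormalHom F (r σ) = σ := Function.surjInv_eq hsurj
  have hfix : RelNormH707.FixedBy F.fixingSubgroup b := by
    intro τ hτ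
    apply Units.ext
    exact (IntermediateField.mem_fixingSubgroup_iff _ _).1 hτ _ hb
  have hbij : Function.Bijective fun σ : F ≃ₐ[ℚ_[ℓ]] F => ((r σ : Gq) : Gq ⧸ F.fixingSubgroup) := by
    constructor
    · intro σ σ' h
      have h1 : (r σ)⁻¹ * r σ' ∈ F.fixingSubgroup := QuotientGroup.eq.mp h
      rw [← hker, map_mul, map_inv, hrσ, hrσ, inv_mul_eq_one] at h1
      exact h1
    · intro x
      induction x using QuotientGroup.induction_on with
      | H g =>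
        refine ⟨AlgEquiv.restrictNormalHom F g, ?_⟩
        apply QuotientGroup.eq.mpr
        rw [← hker, map_mul, map_inv, hrσ, inv_mul_cancel]
  rw [RelNormH707.relNorm_eq_prod_of_bijective hfix r hbij, Units.coe_prod,
    IsScalarTower.algebraMap_apply ℚ_[ℓ] F (PadicAlgCl ℓ), Algebra.norm_eq_prod_automorphisms,
    map_prod]
  refine Finset.prod_congr rfl (fun σ _ => ?_)
  have := AlgEquiv.restrictNormalHom_apply F (r σ) ⟨b, hb⟩
  rw [hrσ] at this
  exact this.symm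

end Norm

end Fermat.Agent.S55.G.Rec.H413

end
-- ===== PACK-END S55/G/Rec/H413/L5Field.lean

-- ===== PACK-BEGIN S56/H914/IntDVRB.lean
section


/-!
# Row S56 — W-FLAT-SS, leaf INT (helper914), part 3: `B = levelSet` is a discrete valuation ring

* `ν_pow_card_eq` : for `x ∈ B`, `x ≠ 0`: `ν(x) ^ #Γ = p⁻ᵐ` (norm to `A`).
* `exists_valData_intB` : `∃ ϖ e, ValData ν B ϖ ∧ ν p = ν ϖ ^ e`.
-/

set_option autoImplicit false
set_option linter.style.haveILetI false

open Polynomial IsLocalRing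

noncomputable section

namespace Fermat.Agent.S56.H914

open Fermat.Agent.S56 Fermat.Agent.S56.H716 Fermat.Agent.S56.FL

section DVRB

variable {k : Type} [Field k] {ρbar : ResidualGaloisRep k}
  {c₁ c₂ : GQ → Module.End k ρbar.V} {p : ℕ} [Fact p.Prime] {P : ValuationSubring Qb}

lemma ν_intAct (M : LocalModel p P) (hc₁ : IsAdCocycle ρbar c₁) (hc₂ : IsAdCocycle ρbar c₂)
    (γ : intΓ P hc₁ hc₂) (x : intB ρbar c₁ c₂ P) :
    M.ν ((intActQ P hc₁ hc₂ γ x : intB ρbar c₁ c₂ P) : Qb) = M.ν (x : Qb) := by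
  obtain ⟨σ, rfl⟩ := QuotientGroup.mk'_surjective (intKer P hc₁ hc₂) γ
  rw [intActQ_mk, intAct_apply]
  exact M.ν_apply σ.2 _

/-- Norm to `A`: the value of a nonzero element of `B`, raised to the power `#Γ`, is a power of
`p⁻¹`. -/
theorem ν_pow_card_eq [Finite k] (M : LocalModel p P) (hc₁ : IsAdCocycle ρbar c₁)
    (hc₂ : IsAdCocycle ρbar c₂) {x : Qb} (hx : x ∈ intB ρbar c₁ c₂ P) (hx0 : x ≠ 0) :
    ∃ m : ℕ, M.ν x ^ Nat.card (intΓ P hc₁ hc₂) = ((p : ℝ)⁻¹) ^ m := by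
  classical
  haveI := finite_intΓ P hc₁ hc₂
  letI : Fintype (intΓ P hc₁ hc₂) := Fintype.ofFinite _
  set xb : intB ρbar c₁ c₂ P := ⟨x, hx⟩ with hxb
  set y : intB ρbar c₁ c₂ P := ∏ γ : intΓ P hc₁ hc₂, intActQ P hc₁ hc₂ γ xb with hy
  -- the value of `y`
  have hνy : M.ν (y : Qb) = M.ν x ^ Nat.card (intΓ P hc₁ hc₂) := by
    have h1 : ((y : intB ρbar c₁ c₂ P) : Qb) =
        ∏ γ : intΓ P hc₁ hc₂, ((intActQ P hc₁ hc₂ γ xb : intB ρbar c₁ c₂ P) : Qb) := by
      rw [hy]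
      exact map_prod (intB ρbar c₁ c₂ P).subtype _ _
    rw [LocalModel.ν, h1, map_prod, norm_prod]
    have h2 : ∀ γ ∈ (Finset.univ : Finset (intΓ P hc₁ hc₂)),
        ‖M.ι ((intActQ P hc₁ hc₂ γ xb : intB ρbar c₁ c₂ P) : Qb)‖ = M.ν x := fun γ _ =>
      ν_intAct M hc₁ hc₂ γ xb
    rw [Finset.prod_congr rfl h2, Finset.prod_const, Finset.card_univ, Nat.card_eq_fintype_card]
  have hy0 : (y : Qb) ≠ 0 := by
    intro h0
    rw [h0, M.ν_zero] at hνy
    exact (pow_pos (M.ν_pos hx0) _).ne hνy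
  -- `y` is fixed by `D_P`
  have hfix : ∀ σ ∈ P.decompositionSubgroup ℚ, σ (y : Qb) = (y : Qb) := by
    intro σ hσ
    have h1 : σ (y : Qb) = ((intAct P hc₁ hc₂ ⟨σ, hσ⟩ y : intB ρbar c₁ c₂ P) : Qb) := rfl
    rw [h1]
    congr 1
    rw [hy, map_prod]
    have h2 : ∀ γ : intΓ P hc₁ hc₂, intAct P hc₁ hc₂ ⟨σ, hσ⟩ (intActQ P hc₁ hc₂ γ xb) =
        intActQ P hc₁ hc₂ (QuotientGroup.mk' _ ⟨σ, hσ⟩ * γ) xb := by
      intro γ
      rw [map_mul, intActQ_mk]
      rfl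
    rw [Finset.prod_congr rfl (fun γ _ => h2 γ)]
    exact Equiv.prod_comp (Equiv.mulLeft (QuotientGroup.mk' (intKer P hc₁ hc₂) ⟨σ, hσ⟩))
      (fun γ => intActQ P hc₁ hc₂ γ xb)
  obtain ⟨n, hn⟩ := M.ν_eq_pow_of_fixed hy0 y.2.1 hfix
  exact ⟨n, by rw [← hνy, hn]⟩

lemma natCast_mem_intB (n : ℕ) : (n : Qb) ∈ intB ρbar c₁ c₂ P := natCast_mem (intB ρbar c₁ c₂ P) n

/-- Division inside `B`: if `x, y ∈ B`, `y ≠ 0` and `ν (x / y) ≤ 1` then `x / y ∈ B`. -/
lemma div_mem_intB (M : LocalModel p P) {x y : Qb} (hx : x ∈ intB ρbar c₁ c₂ P)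
    (hy : y ∈ intB ρbar c₁ c₂ P) (h : M.ν (x / y) ≤ 1) : x / y ∈ intB ρbar c₁ c₂ P := by
  refine ⟨(M.mem_iff_ν _).mpr h, fun σ hσ h1 h2 h3 => ?_⟩
  rw [map_div₀, hx.2 σ hσ h1 h2 h3, hy.2 σ hσ h1 h2 h3]

/-- The valuation data of `B`. -/
theorem exists_valData_intB [Finite k] (M : LocalModel p P) (hc₁ : IsAdCocycle ρbar c₁)
    (hc₂ : IsAdCocycle ρbar c₂) :
    ∃ (ϖ : Qb) (e : ℕ), ValData M.ν (intB ρbar c₁ c₂ P) ϖ ∧ M.ν (p : Qb) = M.ν ϖ ^ e := by
  classical
  haveI := finite_intΓ P hc₁ hc₂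
  set d : ℕ := Nat.card (intΓ P hc₁ hc₂) with hd
  have hd0 : 0 < d := Nat.card_pos
  set r : ℝ := (p : ℝ)⁻¹ with hr
  have hr0 : 0 < r := LocalModel.p_inv_pos
  have hr1 : r < 1 := LocalModel.p_inv_lt_one
  -- the set of positive exponents
  let T : ℕ → Prop := fun m => 0 < m ∧ ∃ x ∈ intB ρbar c₁ c₂ P, x ≠ 0 ∧ M.ν x ^ d = r ^ m
  have hT : ∃ m, T m :=
    ⟨d, hd0, (p : Qb), natCast_mem_intB p, p_ne_zero_Qb, by rw [M.ν_natCast_self]⟩
  set g : ℕ := Nat.find hT with hg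
  obtain ⟨hg0, ϖ, hϖB, hϖ0, hϖg⟩ := Nat.find_spec hT
  have hmin : ∀ m, T m → g ≤ m := fun m hm => Nat.find_min' hT hm
  have hϖlt : M.ν ϖ < 1 := by
    by_contra hcon
    rw [not_lt] at hcon
    have h1 : 1 ≤ M.ν ϖ ^ d := one_le_pow₀ hcon
    rw [hϖg] at h1
    exact absurd h1 (not_le.mpr (pow_lt_one₀ hr0.le hr1 hg0.ne'))
  -- the key factorisation
  have hfac : ∀ x ∈ intB ρbar c₁ c₂ P, x ≠ 0 →
      ∃ n : ℕ, ∃ u ∈ intB ρbar c₁ c₂ P, M.ν u = 1 ∧ x = ϖ ^ n * u := by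
    intro x hx hx0
    obtain ⟨m, hm⟩ := ν_pow_card_eq M hc₁ hc₂ hx hx0
    have hϖn : ∀ n : ℕ, ϖ ^ n ≠ 0 := fun n => pow_ne_zero n hϖ0
    set q := m / g with hq
    set s := m % g with hs
    have hmqs : m = g * q + s := (Nat.div_add_mod m g).symm
    have hm' : M.ν x ^ d = r ^ m := hm
    have hϖg' : M.ν ϖ ^ d = r ^ g := hϖg
    have hu : M.ν (x / ϖ ^ q) ^ d = r ^ s := by
      have hne : (M.ν ϖ ^ q) ^ d ≠ 0 := (pow_pos (pow_pos (M.ν_pos hϖ0) q) d).ne'
      have h1 : M.ν (x / ϖ ^ q) ^ d * r ^ (g * q) = r ^ s * r ^ (g * q) := by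
        have h2 : r ^ (g * q) = (M.ν ϖ ^ q) ^ d := by
          rw [pow_mul, ← hϖg', ← pow_mul, ← pow_mul, mul_comm]
        rw [M.ν_div, div_pow, M.ν_pow, h2, div_mul_cancel₀ _ hne, ← h2, hm', ← pow_add,
          add_comm, ← hmqs]
      exact mul_right_cancel₀ (pow_pos hr0 _).ne' h1
    have hule : M.ν (x / ϖ ^ q) ≤ 1 := by
      by_contra hcon
      rw [not_le] at hcon
      have h1 : 1 < M.ν (x / ϖ ^ q) ^ d := one_lt_pow₀ hcon hd0.ne'
      rw [hu] at h1
      exact absurd h1 (not_lt.mpr (pow_le_one₀ hr0.le hr1.le))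
    have huB : x / ϖ ^ q ∈ intB ρbar c₁ c₂ P :=
      div_mem_intB M hx (pow_mem hϖB q) hule
    have hu0 : x / ϖ ^ q ≠ 0 := div_ne_zero hx0 (hϖn q)
    have hs0 : s = 0 := by
      by_contra hne
      have hsT : T s := ⟨Nat.pos_of_ne_zero hne, x / ϖ ^ q, huB, hu0, hu⟩
      have := hmin s hsT
      have hlt : s < g := Nat.mod_lt m hg0
      omega
    refine ⟨q, x / ϖ ^ q, huB, ?_, ?_⟩
    · rw [hs0, pow_zero] at hu
      have hnn := M.ν_nonneg (x / ϖ ^ q)
      exact (pow_eq_one_iff_of_nonneg hnn hd0.ne').mp hu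
    · field_simp
  have hV : ValData M.ν (intB ρbar c₁ c₂ P) ϖ :=
    { map_zero := M.ν_zero
      map_mul := M.ν_mul
      pos := fun x hx => M.ν_pos hx
      le_one := fun x hx => (M.mem_iff_ν x).mp hx.1
      inv_mem := by
        intro x hx h1
        have h2 : x⁻¹ = 1 / x := by rw [one_div]
        rw [h2]
        refine div_mem_intB M (one_mem _) hx ?_
        rw [M.ν_div, M.ν_one, h1, div_one]
      ϖ_mem := hϖB
      ϖ_ne := hϖ0
      ϖ_lt := hϖlt
      factor := hfac }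
  obtain ⟨e, u, -, hu1, hpu⟩ := hfac (p : Qb) (natCast_mem_intB p) p_ne_zero_Qb
  refine ⟨ϖ, e, hV, ?_⟩
  rw [hpu, M.ν_mul, M.ν_pow, hu1, mul_one]

end DVRB

end Fermat.Agent.S56.H914

end

end
-- ===== PACK-END S56/H914/IntDVRB.lean

-- ===== PACK-BEGIN S56/H914/IntMain.lean
section



/-!
# Row S56 — W-FLAT-SS, leaf INT (helper914): `intStatement : FL.IntStatement`

The concrete model `A = P ∩ ℚ̄^{D_P}`, `B = levelSet = P ∩ ℚ̄^N`, `Γ = D_P ⧸ N`.

* `mem_intKer_of_fixes` : (flatness) an element of `G_ℚ` fixing `levelSet` pointwise lies in `N`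
  (the coordinates of the points of the two finite flat models lie in `levelSet`).
* `apply_primitiveRoot_of_rho_eq_one` : `ρ̄ σ = 1 ⇒ σ ζ_p = ζ_p` (determinant condition).
* `intStatement` : the frozen `FL.IntStatement`.
-/

set_option autoImplicit false
set_option linter.style.haveILetI false

open Polynomial IsLocalRing

noncomputable section

namespace Fermat.Agent.S56.H914

open Fermat.Agent.S56 Fermat.Agent.S56.H716 Fermat.Agent.S56.FL

section Points

variable {k : Type} [Field k] {ρbar : ResidualGaloisRep k} {p : ℕ} [Fact p.Prime]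
  {P : ValuationSubring Qb}

/-- Values of points of a finite `ℤ_(p)`-algebra lie in `P`. -/
lemma point_mem_P (M : LocalModel p P) {H : Type} [CommRing H] [HopfAlgebra (Zp p) H]
    [Module.Finite (Zp p) H] (f : H →ₐ[Zp p] Qb) (h : H) : f h ∈ P :=
  (M.mem_iff _).mpr (norm_point_le_one p (M.ιZ.comp f) h)

/-- (Flatness.)  An element of `G_ℚ` fixing `levelSet` pointwise satisfies `ρ̄ σ = 1`, `c₁ σ = 0`,
`c₂ σ = 0`. -/
theorem mem_intKer_of_fixes [Finite k] (M : LocalModel p P)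
    {c₁ c₂ : GQ → Module.End k ρbar.V}
    {ρ₁ ρ₂ : GaloisRepAdic (DualNumber k)} (hl₁ : IsLiftOf ρbar c₁ ρ₁) (hl₂ : IsLiftOf ρbar c₂ ρ₂)
    (hf₁ : ρ₁.IsFlatAt p) (hf₂ : ρ₂.IsFlatAt p) (σ : GQ)
    (hσ : ∀ b ∈ levelSet ρbar c₁ c₂ P, σ b = b) :
    ρbar.ρ σ = 1 ∧ c₁ σ = 0 ∧ c₂ σ = 0 := by
  haveI : Finite (DualNumber k) := inferInstanceAs (Finite (k × k))
  obtain ⟨H₁, i1, i2, hfin1, -, -, ⟨X₁⟩⟩ := exists_pointModel_of_isFlatAt ρ₁ p hf₁
  obtain ⟨H₂, j1, j2, hfin2, -, -, ⟨X₂⟩⟩ := exists_pointModel_of_isFlatAt ρ₂ p hf₂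
  have h1 := (fixes_points_iff_of_isLiftOf ρbar hl₁ X₁ σ).mp (fun f h =>
    hσ _ ⟨point_mem_P M f h, fun τ _ e1 e2 _ =>
      (fixes_points_iff_of_isLiftOf ρbar hl₁ X₁ τ).mpr ⟨e1, e2⟩ f h⟩)
  have h2 := (fixes_points_iff_of_isLiftOf ρbar hl₂ X₂ σ).mp (fun f h =>
    hσ _ ⟨point_mem_P M f h, fun τ _ e1 _ e3 =>
      (fixes_points_iff_of_isLiftOf ρbar hl₂ X₂ τ).mpr ⟨e1, e3⟩ f h⟩)
  exact ⟨h1.1, h1.2, h2.2⟩

end Points

section Zeta

variable (p : ℕ) [Fact p.Prime]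

lemma exists_primitiveRoot_Qb : ∃ ζ₀ : Qb, IsPrimitiveRoot ζ₀ p := by
  haveI : NeZero ((p : ℕ) : Qb) := ⟨p_ne_zero_Qb⟩
  exact HasEnoughRootsOfUnity.exists_primitiveRoot Qb p

variable {p}

lemma isCycExp_of_apply_eq {ζ₀ : Qb} (hζ : IsPrimitiveRoot ζ₀ p) {σ : GQ} {a : ℕ}
    (h : σ ζ₀ = ζ₀ ^ a) : IsCycExp p σ a := by
  haveI : NeZero p := ⟨(Fact.out : p.Prime).ne_zero⟩
  intro μ hμ
  obtain ⟨j, -, rfl⟩ := hζ.eq_pow_of_pow_eq_one hμ
  rw [map_pow, h, ← pow_mul, ← pow_mul, mul_comm]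

lemma exists_cycExp {ζ₀ : Qb} (hζ : IsPrimitiveRoot ζ₀ p) (σ : GQ) : ∃ a : ℕ, σ ζ₀ = ζ₀ ^ a := by
  haveI : NeZero p := ⟨(Fact.out : p.Prime).ne_zero⟩
  have h : (σ ζ₀) ^ p = 1 := by rw [← map_pow, hζ.pow_eq_one, map_one]
  obtain ⟨a, -, ha⟩ := hζ.eq_pow_of_pow_eq_one h
  exact ⟨a, ha.symm⟩

/-- `ρ̄ σ = 1 ⇒ σ ζ_p = ζ_p`, by the determinant condition. -/
lemma apply_primitiveRoot_of_rho_eq_one {k : Type} [Field k] [CharP k p]
    {ρbar : ResidualGaloisRep k}
    (hdet : ∀ (σ : GQ) (a : ℕ), IsCycExp p σ a → LinearMap.det (ρbar.ρ σ) = (a : k))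
    {ζ₀ : Qb} (hζ : IsPrimitiveRoot ζ₀ p) {σ : GQ} (h1 : ρbar.ρ σ = 1) : σ ζ₀ = ζ₀ := by
  obtain ⟨a, ha⟩ := exists_cycExp hζ σ
  have hc := hdet σ a (isCycExp_of_apply_eq hζ ha)
  rw [h1, map_one] at hc
  have h2 : ((a : ℕ) : k) = ((1 : ℕ) : k) := by
    rw [Nat.cast_one]
    exact hc.symm
  rw [CharP.natCast_eq_natCast k p] at h2
  rw [ha]
  have h3 : ζ₀ ^ a = ζ₀ ^ 1 := pow_eq_pow_of_modEq h2 hζ.pow_eq_one
  rw [h3, pow_one]

lemma primitiveRoot_mem_P {P : ValuationSubring Qb} (M : LocalModel p P) {ζ₀ : Qb}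
    (hζ : IsPrimitiveRoot ζ₀ p) : ζ₀ ∈ P := by
  rw [M.mem_iff_ν]
  have h : M.ν ζ₀ ^ p = 1 := by rw [← M.ν_pow, hζ.pow_eq_one, M.ν_one]
  have hp : p ≠ 0 := (Fact.out : p.Prime).ne_zero
  exact ((pow_eq_one_iff_of_nonneg (M.ν_nonneg ζ₀) hp).mp h).le

end Zeta

section Main

/-- **INT**: the frozen `FL.IntStatement`. -/
theorem intStatement : Fermat.Agent.S56.FL.IntStatement := by
  intro k _ _ p _ hp2 hchar ρbar hdet P hP c₁ c₂ hc₁ hc₂ ρ₁ ρ₂ hl₁ hl₂ hf₁ hf₂
  haveI := hchar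
  obtain ⟨M⟩ := exists_localModel p hP
  obtain ⟨ϖ, e, hV, hpe⟩ := exists_valData_intB M hc₁ hc₂
  obtain ⟨ζ₀, hζ₀⟩ := exists_primitiveRoot_Qb p
  haveI dvrA : IsDiscreteValuationRing (intA P) := isDiscreteValuationRing_intA M
  haveI dvrB : IsDiscreteValuationRing (intB ρbar c₁ c₂ P) := hV.isDiscreteValuationRing
  letI algAB : Algebra (intA P) (intB ρbar c₁ c₂ P) :=
    (Subring.inclusion (intA_le_intB P)).toAlgebra
  haveI finΓ : Finite (intΓ P hc₁ hc₂) := finite_intΓ P hc₁ hc₂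
  letI actΓ : MulSemiringAction (intΓ P hc₁ hc₂) (intB ρbar c₁ c₂ P) :=
    MulSemiringAction.compHom _ (intActQ P hc₁ hc₂)
  -- the action, concretely
  have hact : ∀ (σ : P.decompositionSubgroup ℚ) (b : intB ρbar c₁ c₂ P),
      (((QuotientGroup.mk' (intKer P hc₁ hc₂) σ) • b : intB ρbar c₁ c₂ P) : Qb) =
        (σ : GQ) (b : Qb) := fun σ b => rfl
  haveI faithAB : FaithfulSMul (intA P) (intB ρbar c₁ c₂ P) := by
    rw [faithfulSMul_iff_algebraMap_injective]
    exact Subring.inclusion_injective (intA_le_intB P)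
  haveI commΓ : SMulCommClass (intΓ P hc₁ hc₂) (intA P) (intB ρbar c₁ c₂ P) := by
    refine ⟨fun γ a b => ?_⟩
    obtain ⟨σ, rfl⟩ := QuotientGroup.mk'_surjective (intKer P hc₁ hc₂) γ
    apply Subtype.ext
    rw [hact]
    show (σ : GQ) ((a : Qb) * (b : Qb)) = (a : Qb) * (σ : GQ) (b : Qb)
    rw [map_mul, a.2.2 σ σ.2]
  haveI invΓ : Algebra.IsInvariant (intA P) (intB ρbar c₁ c₂ P) (intΓ P hc₁ hc₂) := by
    refine ⟨fun b hb => ?_⟩
    refine ⟨⟨(b : Qb), b.2.1, fun σ hσ => ?_⟩, Subtype.ext rfl⟩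
    have h := congrArg Subtype.val (hb (QuotientGroup.mk' (intKer P hc₁ hc₂) ⟨σ, hσ⟩))
    exact h
  have hker : ∀ σ : P.decompositionSubgroup ℚ,
      (∀ b : intB ρbar c₁ c₂ P, (σ : GQ) (b : Qb) = (b : Qb)) → σ ∈ intKer P hc₁ hc₂ := by
    intro σ hσ
    exact mem_intKer_of_fixes M hl₁ hl₂ hf₁ hf₂ (σ : GQ) (fun b hb => hσ ⟨b, hb⟩)
  haveI faithΓ : FaithfulSMul (intΓ P hc₁ hc₂) (intB ρbar c₁ c₂ P) := by
    refine ⟨fun {γ₁ γ₂} h => ?_⟩
    obtain ⟨σ₁, rfl⟩ := QuotientGroup.mk'_surjective (intKer P hc₁ hc₂) γ₁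
    obtain ⟨σ₂, rfl⟩ := QuotientGroup.mk'_surjective (intKer P hc₁ hc₂) γ₂
    rw [QuotientGroup.mk'_apply, QuotientGroup.mk'_apply, QuotientGroup.eq]
    apply hker
    intro b
    have h1 := congrArg Subtype.val (h b)
    rw [hact, hact] at h1
    show (σ₁ : GQ)⁻¹ ((σ₂ : GQ) (b : Qb)) = (b : Qb)
    rw [← h1, inv_apply_self]
  haveI galΓ : IsGaloisGroup (intΓ P hc₁ hc₂) (intA P) (intB ρbar c₁ c₂ P) :=
    ⟨faithΓ, commΓ, invΓ⟩
  haveI finAB : Module.Finite (intA P) (intB ρbar c₁ c₂ P) :=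
    moduleFinite_of_isGaloisGroup (intΓ P hc₁ hc₂) (intA P) (intB ρbar c₁ c₂ P)
  -- the root of unity
  have hζB : ζ₀ ∈ intB ρbar c₁ c₂ P :=
    ⟨primitiveRoot_mem_P M hζ₀, fun σ _ h1 _ _ => apply_primitiveRoot_of_rho_eq_one hdet hζ₀ h1⟩
  refine ⟨intA P, intB ρbar c₁ c₂ P, inferInstance, inferInstance, dvrA, inferInstance,
    inferInstance, dvrB, inferInstance, algAB, finAB, faithAB, intΓ P hc₁ hc₂, inferInstance,
    finΓ, actΓ, commΓ, invΓ, faithΓ, QuotientGroup.mk' (intKer P hc₁ hc₂), ⟨ζ₀, hζB⟩, e,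
    (intB ρbar c₁ c₂ P).subtype, ?_, ?_, ?_, ?_, ?_, ?_, ?_, ?_, ?_, ?_⟩
  · exact QuotientGroup.mk'_surjective _
  · intro σ
    rw [QuotientGroup.mk'_apply, QuotientGroup.eq_one_iff]
    exact mem_intKer P
  · exact maximalIdeal_intA M
  · exact card_residueField_intA M
  · exact IsPrimitiveRoot.of_map_of_injective (f := (intB ρbar c₁ c₂ P).subtype)
      hζ₀ (Subring.subtype_injective _)
  · intro σ a h
    have h1 := congrArg Subtype.val h
    rw [hact] at h1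
    exact isCycExp_of_apply_eq hζ₀ h1
  · exact hV.span_eq_maximalIdeal_pow (natCast_mem_intB p) hpe
  · exact Subring.subtype_injective _
  · ext x
    constructor
    · rintro ⟨b, rfl⟩
      exact b.2
    · intro hx
      exact ⟨⟨x, hx⟩, rfl⟩
  · intro σ b
    rfl

end Main

example : Fermat.Agent.S56.FL.IntStatement := intStatement

end Fermat.Agent.S56.H914

end

end
-- ===== PACK-END S56/H914/IntMain.lean

-- ===== PACK-BEGIN S56/RQ/GlobZSub.lean
section



/-!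
# Row S56 — REC-Q-SUB leaf GLOBZ-SUB (helper554, variant of helper934's `H934.globZ`)

`globZSub : GlobZSubStatement`: for `Smin ⊆ S' ⊆ S`, `c` an ad-cocycle unramified outside `S' ∪ Q`
and `y` a twisted cocycle unramified outside `S'`, the cup product `c ∪ y` is a global 2-cocycle of
`k(1)`, level-constant for a finite level unramified outside `S' ∪ Q`.

Same proof as `H934.globZ` (level of `N = {s : ρ̄ s = 1, s fixes μ_p, c s = 0, y s = 0}`).
-/

set_option autoImplicit false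

open Polynomial IsLocalRing

noncomputable section

namespace Fermat.Agent.S56.RQ.H554

open Fermat.Agent.S56 Fermat.Agent.S56.H716 Fermat.Agent.S56.RQ Fermat.Agent.S56.RQ.H934

/-- **GLOBZ-SUB.** -/
theorem globZSub : GlobZSubStatement := by
  intro 𝒪 _ _ _ _ _ p ρbar S Smin hyp S' hSS' _ Q hQ c y hc hcur hy hyur
  classical
  refine ⟨cup_isCoc₂ hc hy, ?_⟩
  haveI : NeZero p := ⟨hyp.hp.ne_zero⟩
  obtain ⟨Lρ, hLρfin, hLρ⟩ := ρbar.factorsThroughFiniteLevel
  obtain ⟨Lc, hLcfin, hLc⟩ := hc.level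
  obtain ⟨Ly, hLyfin, hLy⟩ := hy.level
  -- the big level
  let F₀ : IntermediateField ℚ Qb := Lρ ⊔ Lc ⊔ Ly ⊔ Fermat.Agent.S55.H414.cycloLevel p
  haveI : FiniteDimensional ℚ Lρ := hLρfin
  haveI : FiniteDimensional ℚ Lc := hLcfin
  haveI : FiniteDimensional ℚ Ly := hLyfin
  haveI h1 : FiniteDimensional ℚ (Lρ ⊔ Lc : IntermediateField ℚ Qb) :=
    IntermediateField.finiteDimensional_sup Lρ Lc
  haveI h2 : FiniteDimensional ℚ (Lρ ⊔ Lc ⊔ Ly : IntermediateField ℚ Qb) :=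
    IntermediateField.finiteDimensional_sup (Lρ ⊔ Lc) Ly
  have hF₀fin : FiniteDimensional ℚ F₀ :=
    IntermediateField.finiteDimensional_sup (Lρ ⊔ Lc ⊔ Ly) (Fermat.Agent.S55.H414.cycloLevel p)
  have hF₀ : F₀.fixingSubgroup ≤ levelSub hc hy := by
    intro s hs
    have hs' : ∀ x ∈ F₀, s x = x := (IntermediateField.mem_fixingSubgroup_iff F₀ s).1 hs
    have hρle : Lρ ≤ F₀ := le_sup_left.trans (le_sup_left.trans le_sup_left)
    have hcle : Lc ≤ F₀ := le_sup_right.trans (le_sup_left.trans le_sup_left)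
    have hyle : Ly ≤ F₀ := le_sup_right.trans le_sup_left
    have hzle : Fermat.Agent.S55.H414.cycloLevel p ≤ F₀ := le_sup_right
    refine ⟨hLρ s (fun x hx => hs' x (hρle hx)), ?_, ?_, ?_⟩
    · intro μ hμ
      rw [pow_one]
      exact hs' μ (hzle (Fermat.Agent.S56.H536.mem_cycloLevel_of_pow_eq_one p hμ))
    · have h := hLc 1 s (fun x hx => hs' x (hcle hx))
      rw [one_mul, ad_one hc] at h
      exact h
    · have h := hLy 1 s (fun x hx => hs' x (hyle hx))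
      rw [one_mul, tw_one hy] at h
      exact h
  have hur : ∀ q : Nat.Primes, q ∉ ((S' ∪ Q).subtype Nat.Prime : Finset Nat.Primes) →
      ∀ A : ValuationSubring (AlgebraicClosure ℚ), A.LiesOverPrime (q : ℕ) →
        A.inertiaSubgroupIn ℚ ≤ levelSub hc hy := by
    intro q hq A hA s hs
    have hq' : (q : ℕ) ∉ S' ∪ Q := fun h => hq (Finset.mem_subtype.2 h)
    have hqS' : (q : ℕ) ∉ S' := fun h => hq' (Finset.mem_union_left _ h)
    have hqSmin : (q : ℕ) ∉ Smin := fun h => hqS' (hSS' h)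
    have hqp : (q : ℕ) ≠ p := fun h => hqSmin (h ▸ hyp.hpSmin)
    have hρur : ρbar.IsUnramifiedAt (q : ℕ) := by
      by_contra hne
      exact hqSmin ((hyp.hmin q q.2 hqp).2 hne)
    exact ⟨hρur A hA s hs,
      Fermat.Agent.S56.H554.fixes_mu_of_mem_inertia q.2 hA hyp.hp (Ne.symm hqp) hs,
      hcur q q.2 hq' A hA s hs, hyur q q.2 hqS' A hA s hs⟩
  obtain ⟨F, ⟨hFfin, hFur⟩, hFfix, -⟩ := Fermat.Agent.S55.Bridge.exists_level_of_subgroup
    ((S' ∪ Q).subtype Nat.Prime : Finset Nat.Primes) (levelSub hc hy) F₀ hF₀fin hF₀ hur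
  refine ⟨F, hFfin, ?_, ?_⟩
  · intro q hq hqS P hP s hs x hx
    have hmem : s ∈ F.fixingSubgroup :=
      hFur ⟨q, hq⟩ (fun h => hqS (Finset.mem_subtype.1 h)) P hP hs
    exact (IntermediateField.mem_fixingSubgroup_iff F s).1 hmem x hx
  · intro σ τ s s' hs hs'
    have hsN : s ∈ levelSub hc hy := by
      rw [← hFfix]
      exact (IntermediateField.mem_fixingSubgroup_iff F s).2 hs
    have hsN' : s' ∈ levelSub hc hy := by
      rw [← hFfix]
      exact (IntermediateField.mem_fixingSubgroup_iff F s').2 hs'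
    exact cup_mul_right hyp.hp hc hy σ τ s s' hsN hsN'

end Fermat.Agent.S56.RQ.H554

end

end
-- ===== PACK-END S56/RQ/GlobZSub.lean

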