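import Fermat.Agent.Pack.S43GC.G0E20L2
import Fermat.Agent.Pack.S43GC.G0E17L1
import Fermat.Agent.Pack.S43GC.G0E19L3
import Fermat.Agent.Pack.S43GC.G0E5L2
import Fermat.Agent.Pack.S43GC.G0E20L1
import Fermat.Agent.Pack.S43GC.G0E3L0
import Fermat.Agent.Pack.S43GC.G0E8L1
import Fermat.Agent.Pack.S43GC.G0E14L3
import Fermat.Agent.Pack.S43GC.G0E12L1
import Fermat.Agent.Pack.S43GC.G0E17L3
import Fermat.Agent.Pack.S43GC.G0E7L0
import Fermat.Agent.Pack.S43GC.G0E20L3
import Fermat.Agent.Pack.S43GC.G0E15L2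
import Fermat.Agent.Pack.S43GC.G0E15L3
import Fermat.Agent.Pack.S43GC.G0E16L0
import Fermat.Agent.Pack.S43GC.G0E16L1
import Fermat.Agent.Pack.S43GC.G0E19L2
import Fermat.Agent.Pack.S43GC.G0E19L1
import Fermat.Agent.Pack.Fast891

-- ===== PACK-BEGIN S55/T/NakH837.lean
section


/-!
# S55, layer T, leaf T6 (helper837): `TateNakayamaSpec`

`tateNakayama_of : SplitModuleSpec → NakayamaSpec → TateNakayamaSpec`.

The proof uses no cup products: it is a diagram chase with two-step extensions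
(`R → coind₁ R → up R → coind₁ (up R) → up (up R)` against `C → X → I → P → ℤ`), naturality of
the connecting homomorphisms, the norm trick for weakly projective modules, and the elementary
lattice duality in degree `0` (proved in `NakH837/LatDual.lean`, so `LatticeDualitySpec` is not
needed as an input).
-/

set_option autoImplicit false
set_option linter.unusedSectionVars false
set_option linter.style.haveILetI false

open CategoryTheory groupCohomology

namespace Fermat.Agent.S55.T.H837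

open Fermat.Agent.S55.H572

noncomputable section

/-- A morphism given pointwise by the norm formula is a norm. -/
lemma eq_normHom_of_apply {k G : Type} [CommRing k] [Group G] [Fintype G] {A B : Rep.{0} k G}
    (f : A ⟶ B) (ψ : A.V →ₗ[k] B.V)
    (h : ∀ a : A.V, f.hom a = ∑ g : G, B.ρ g (ψ (A.ρ g⁻¹ a))) : f = normHom ψ := by
  apply Rep.hom_ext
  apply Representation.IntertwiningMap.ext
  apply LinearMap.ext
  intro a
  change f.hom a = (normHom ψ).hom a
  rw [h a, normHom_hom_apply]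

/-- An additive map between `ℤ`-modules (with arbitrary module instances) is linear. -/
def linOfAdd {M N : Type} [AddCommGroup M] [AddCommGroup N] (iM : Module ℤ M) (iN : Module ℤ N)
    (ψ : M →+ N) : @LinearMap ℤ ℤ _ _ (RingHom.id ℤ) M N _ _ iM iN :=
  @LinearMap.mk ℤ ℤ _ _ (RingHom.id ℤ) M N _ _ iM iN ⟨ψ, ψ.map_add⟩ (fun c x => by
    have h1 : @HSMul.hSMul ℤ M M (@instHSMul ℤ M iM.toSMul) c x = c • x :=
      int_smul_eq_zsmul iM c x
    have h2 : @HSMul.hSMul ℤ N N (@instHSMul ℤ N iN.toSMul) c (ψ x) = c • ψ x :=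
      int_smul_eq_zsmul iN c (ψ x)
    change ψ (@HSMul.hSMul ℤ M M (@instHSMul ℤ M iM.toSMul) c x) =
      @HSMul.hSMul ℤ N N (@instHSMul ℤ N iN.toSMul) c (ψ x)
    rw [h1, h2, map_zsmul])

lemma linOfAdd_apply {M N : Type} [AddCommGroup M] [AddCommGroup N] (iM : Module ℤ M)
    (iN : Module ℤ N) (ψ : M →+ N) (x : M) :
    (linOfAdd iM iN ψ : @LinearMap ℤ ℤ _ _ (RingHom.id ℤ) M N _ _ iM iN) x = ψ x := rfl

/-- **T6.**  Tate–Nakayama for lattices, from the splitting module and Nakayama's theorem. -/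
theorem tateNakayama_of (hS : SplitModuleSpec) (hN : NakayamaSpec) : TateNakayamaSpec := by
  intro G _ _ C γ hC R hfree hfin
  obtain ⟨X, I, P, i, π, j, ε, w₁, w₂, hA, hB, hX, hP⟩ := hS G C γ hC
  haveI : @Module.Free ℤ R.V _ _ R.hV2 := hfree
  haveI : @Module.Finite ℤ R.V _ _ R.hV2 := hfin
  have hn : ((Fintype.card G : ℕ) : ℤ) ≠ 0 := by
    exact_mod_cast Fintype.card_ne_zero
  refine ⟨fun φ => ?_, fun f => ⟨fun hf => ?_, fun hψ => ?_⟩⟩
  · obtain ⟨f, hf⟩ := exists_hom_coeffMap_eq hA hB hn hX hP R (linOfAdd _ _ φ)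
    exact ⟨f, fun x => hf x⟩
  · have hNX := hN G X R hfree hfin hX
    have hNP := hN G P (up R) (free_up R) (finite_up R) hP
    obtain ⟨ψ, hψ⟩ := exists_normHom_of_coeffMap_eq_zero hA hB hn hX hP R hNX hNP f hf
    refine ⟨ψ.toAddMonoidHom, fun r => ?_⟩
    rw [hψ, normHom_hom_apply]
    rfl
  · obtain ⟨ψ, hψ⟩ := hψ
    have hf : f = normHom (linOfAdd R.hV2 C.hV2 ψ) :=
      eq_normHom_of_apply f (linOfAdd R.hV2 C.hV2 ψ) (fun r => hψ r)
    intro x
    rw [hf, coeffMap_normHom_eq_zero]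
    rfl

end

end Fermat.Agent.S55.T.H837

end
-- ===== PACK-END S55/T/NakH837.lean

-- ===== PACK-BEGIN S55/T/T6ClosedH719.lean
section





/-!
# S55, layer T: T6 closed unconditionally (helper719)

Assembly of landed pieces:

* `H295.splitModule : SplitModuleSpec` (helper295),
* `H719.nakayama : NakayamaSpec` (helper719),
* `H837.tateNakayama_of : SplitModuleSpec → NakayamaSpec → TateNakayamaSpec` (helper837),
* `H353.tateNakayamaAt_of : TateNakayamaSpec → E1.TateNakayamaAtSpec` (helper353).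

Hence `tateNakayama : TateNakayamaSpec` (T6) and `tateNakayamaAt : E1.TateNakayamaAtSpec` (T6p)
hold unconditionally.
-/

set_option autoImplicit false

namespace Fermat.Agent.S55.T.H719

/-- **T6 (Tate–Nakayama for lattices)**, unconditional. -/
theorem tateNakayama : TateNakayamaSpec :=
  H837.tateNakayama_of Fermat.Agent.S55.H295.splitModule nakayama

/-- **T6p (Tate–Nakayama at `p`)**, unconditional. -/
theorem tateNakayamaAt : Fermat.Agent.S55.E1.TateNakayamaAtSpec :=
  H353.tateNakayamaAt_of tateNakayama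

end Fermat.Agent.S55.T.H719

end
-- ===== PACK-END S55/T/T6ClosedH719.lean

-- ===== PACK-BEGIN S55/G/H953/H1J.lean
section




/-!
# S55, layer G, leaf G-H1J (helper953): `H¹(G, J_S(L)) = 0`

* `locAut_injective` : the decomposition group of a place acts faithfully on the local field.
* `isZero_H1_locRep` : Hilbert 90 for `L_𝔪ˣ` as a module over the decomposition group.
* `exists_orbitReps` : a finite set of representatives of the `G`-orbits of places above `S`.
* `h1J_of : ShapiroJSpec → H1JSpec`.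
-/

set_option autoImplicit false
set_option linter.style.haveILetI false

open scoped NumberField TensorProduct
open IsDedekindDomain CategoryTheory groupCohomology

noncomputable section

namespace Fermat.Agent.S55.G.H953

open Fermat.Agent.S55.G

variable (S : Finset Nat.Primes) (G L : Type) [Group G] [Field L] [NumberField L]
  [MulSemiringAction G L]

variable {L} in
/-- `L → L_𝔪` is injective. -/
lemma toLoc_injective (𝔪 : SPlace S L) : Function.Injective (toLoc S 𝔪) :=
  (toLoc S 𝔪).injective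

variable {L} in
/-- The decomposition group acts faithfully on the local field. -/
lemma locAut_injective [FaithfulSMul G L] (𝔪 : SPlace S L) :
    Function.Injective (locAut S G 𝔪) := by
  intro g h hgh
  apply Subtype.ext
  apply FaithfulSMul.eq_of_smul_eq_smul (α := L)
  intro x
  apply toLoc_injective S 𝔪
  rw [← locAut_toLoc, ← locAut_toLoc, hgh]

variable {L} in
/-- Hilbert 90 at a place: `H¹(D_𝔪, L_𝔪ˣ) = 0`. -/
theorem isZero_H1_locRep [Finite G] [FaithfulSMul G L] (𝔪 : SPlace S L) :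
    Limits.IsZero (groupCohomology (LocRep S G 𝔪) 1) :=
  isZero_H1_unitsRepr (locAut S G 𝔪) (locAut_injective S G 𝔪)

/-- A finite set of representatives of the `G`-orbits of the places above `S`. -/
theorem exists_orbitReps [Finite (SPlace S L)] :
    ∃ R : Finset (SPlace S L),
      ∀ 𝔪 : SPlace S L, ∃! r : SPlace S L, r ∈ R ∧ ∃ g : G, sPlaceSMul S G g r = 𝔪 := by
  classical
  letI : MulAction G (SPlace S L) := sPlaceAction S G L
  have : Fintype (SPlace S L) := Fintype.ofFinite _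
  have : Fintype (MulAction.orbitRel.Quotient G (SPlace S L)) := Fintype.ofFinite _
  refine ⟨Finset.univ.image
    (fun o : MulAction.orbitRel.Quotient G (SPlace S L) => o.out), fun 𝔪 => ?_⟩
  have hout : ∀ 𝔫 : SPlace S L,
      (Quotient.mk'' 𝔫 : MulAction.orbitRel.Quotient G (SPlace S L)).out ∈
        MulAction.orbit G 𝔫 := fun 𝔫 =>
    (MulAction.orbitRel_apply).1 (Quotient.exact' (Quotient.out_eq' (Quotient.mk'' 𝔫)))
  refine ⟨(Quotient.mk'' 𝔪 : MulAction.orbitRel.Quotient G (SPlace S L)).out,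
    ⟨Finset.mem_image.2 ⟨_, Finset.mem_univ _, rfl⟩, ?_⟩, ?_⟩
  · obtain ⟨g, hg⟩ := hout 𝔪
    refine ⟨g⁻¹, ?_⟩
    have h1 : g • 𝔪 = (Quotient.mk'' 𝔪 : MulAction.orbitRel.Quotient G (SPlace S L)).out := hg
    have h2 : g⁻¹ • (g • 𝔪) = 𝔪 := inv_smul_smul g 𝔪
    rw [h1] at h2
    exact h2
  · rintro r ⟨hr, g, hg⟩
    obtain ⟨o, -, rfl⟩ := Finset.mem_image.1 hr
    have h1 : (Quotient.mk'' o.out : MulAction.orbitRel.Quotient G (SPlace S L)) =
        Quotient.mk'' 𝔪 := by
      apply Quotient.sound'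
      refine (MulAction.orbitRel_apply).2 ?_
      refine ⟨g⁻¹, ?_⟩
      have h2 : g • o.out = 𝔪 := hg
      show g⁻¹ • 𝔪 = o.out
      rw [← h2, inv_smul_smul]
    rw [Quotient.out_eq'] at h1
    rw [h1]

/-- **G-H1J** from **G-LOC**: `H¹(G, J_S(L)) = 0`. -/
theorem h1J_of (hLoc : ShapiroJSpec) : H1JSpec := by
  intro S G L _ _ _ _ _ _
  haveI : Finite (SPlace S L) := (PL0H713.locField S L).1
  obtain ⟨R, hR⟩ := exists_orbitReps S G L
  have hbij := hLoc S G L R hR 1
  rw [ModuleCat.isZero_iff_subsingleton]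
  refine ⟨fun a b => hbij.1 ?_⟩
  funext r
  haveI : Subsingleton (groupCohomology (LocRep S G r.1) 1) :=
    ModuleCat.isZero_iff_subsingleton.1 (isZero_H1_locRep S G r.1)
  exact Subsingleton.elim _ _

end Fermat.Agent.S55.G.H953

end
end
-- ===== PACK-END S55/G/H953/H1J.lean

-- ===== PACK-BEGIN S55/G/JGlueH604.lean
section
/-
S55, layer G, leaf **J-GLUE** (helper604): the Herbrand indices of the `S`-idèles,
`JHerbrandSpec` of `G/FI/FirstIneqH895.lean` (the last open input of the first inequality G-FI).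

* `card_H2_unitsRepr` : a finite cyclic group `D` acting faithfully on a finite extension `E` of
  `ℚ_q` by field automorphisms fixing `ℚ_q`: `|H²(D, Eˣ)| = |D|` (from the local cyclic
  theorem `L.H2CardCyclicSpec`, applied to `E` over the fixed field of `D`);
* `card_H2_locRep` : `|H²(D_𝔪, L_𝔪ˣ)| = |D_𝔪|` for the decomposition group of a place above `S`;
* `card_H2_JRep` : `|H²(G, J_S(L))| = ∏_{r ∈ R} |D_r|` for orbit representatives `R` (Shapiro);
* `JCountSpec`, `jHerbrand_of : ShapiroJSpec → H2CardCyclicSpec → JCountSpec → JHerbrandSpec`.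

No `sorry`.
-/







set_option autoImplicit false
set_option linter.unusedSectionVars false
set_option linter.style.haveILetI false

open scoped NumberField TensorProduct
open IsDedekindDomain CategoryTheory groupCohomology
open Fermat.Agent.S55.G Fermat.Agent.S55.Herbrand

noncomputable section

namespace Fermat.Agent.S55.G.JGlueH604

/-! ## 1. The abstract local statement -/

section Abstract

variable {D E : Type} [Group D] [Finite D] [Field E]

/-- A finite cyclic group `D` acting faithfully (via `φ`) on a finite extension `E` of `ℚ_q`,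
fixing `ℚ_q`: `|H²(D, Eˣ)| = |D|`. -/
theorem card_H2_unitsRepr (hL : Fermat.Agent.S55.L.H2CardCyclicSpec) [IsCyclic D]
    (φ : D →* (E ≃+* E)) (hφ : Function.Injective φ)
    (q : ℕ) [Fact q.Prime] (ι : ℚ_[q] →+* E)
    (hfin : letI := ι.toAlgebra; Module.Finite ℚ_[q] E)
    (hι : ∀ (d : D) (x : ℚ_[q]), φ d (ι x) = ι x) :
    Nat.card (groupCohomology (Rep.of (unitsRepr D φ)) 2) = Nat.card D := by
  classical
  letI : Fintype D := Fintype.ofFinite D
  letI : MulSemiringAction D E := MulSemiringAction.compHom E φ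
  have hsmul : ∀ (d : D) (x : E), d • x = φ d x := fun _ _ => rfl
  haveI : FaithfulSMul D E := ⟨fun {d₁ d₂} h => hφ (RingEquiv.ext fun x => by
    rw [← hsmul, ← hsmul]; exact h x)⟩
  let F : Subfield E := FixedPoints.subfield D E
  let ιF : ℚ_[q] →+* F := ι.codRestrict F (fun x d => by rw [hsmul]; exact hι d x)
  letI : Algebra ℚ_[q] E := ι.toAlgebra
  letI : Algebra ℚ_[q] F := ιF.toAlgebra
  haveI : IsScalarTower ℚ_[q] F E := IsScalarTower.of_algebraMap_eq (fun _ => rfl)
  haveI : Module.Finite ℚ_[q] E := hfin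
  haveI : FiniteDimensional ℚ_[q] F := FiniteDimensional.left ℚ_[q] F E
  haveI : Fermat.Agent.S55.L.IsLocalFld F := PL0H713.isLocalFld_of_finite_padic q F
  let ψ : D ≃* (E ≃ₐ[F] E) := FixedPoints.toAlgAutMulEquiv D E
  haveI : IsCyclic (E ≃ₐ[F] E) := isCyclic_of_surjective ψ ψ.surjective
  obtain ⟨-, hcard⟩ := hL F E
  obtain ⟨g, hg⟩ := IsCyclic.exists_generator (α := D)
  have hψg : ∀ τ : E ≃ₐ[F] E, τ ∈ Subgroup.zpowers (ψ g) := by
    intro τ
    obtain ⟨t, rfl⟩ := ψ.surjective τ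
    obtain ⟨k, rfl⟩ := Subgroup.mem_zpowers_iff.1 (hg t)
    exact Subgroup.mem_zpowers_iff.2 ⟨k, (map_zpow ψ g k).symm⟩
  have hcardeq : Nat.card (E ≃ₐ[F] E) = Nat.card D := (Nat.card_congr ψ.toEquiv).symm
  have hact : (gAct (Rep.of (unitsRepr D φ)) g : AddMonoid.End (Additive Eˣ)) =
      gAct (Fermat.Agent.S55.L.unitsRep F E) (ψ g) := by
    refine AddMonoidHom.ext fun x => ?_
    apply Additive.toMul.injective
    apply Units.ext
    rfl
  have e1 := card_H2_eq_h0 (Rep.of (unitsRepr D φ)) g hg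
  have e2 := card_H2_eq_h0 (Fermat.Agent.S55.L.unitsRep F E) (ψ g) hψg
  rw [e1]
  have e3 : h0 (gAct (Rep.of (unitsRepr D φ)) g) (Nat.card D) =
      h0 (gAct (Fermat.Agent.S55.L.unitsRep F E) (ψ g)) (Nat.card (E ≃ₐ[F] E)) := by
    rw [hcardeq]
    exact congrArg (fun s : AddMonoid.End (Additive Eˣ) => h0 s (Nat.card D)) hact
  rw [e3, ← e2]
  have e4 : Nat.card (groupCohomology (Fermat.Agent.S55.L.unitsRep F E) 2) =
      Module.finrank F E := hcard
  rw [e4, ← IsGalois.card_aut_eq_finrank, hcardeq]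

end Abstract

/-! ## 2. The decomposition group of a place above `S` -/

section Loc

variable (S : Finset Nat.Primes) (G L : Type) [Group G] [Finite G] [Field L] [NumberField L]
  [MulSemiringAction G L] [FaithfulSMul G L]

variable {L} in
/-- The decomposition group fixes the image of `ℚ_q` in `L_𝔪`. -/
lemma locAut_ofQq (𝔪 : SPlace S L) (d : decomp S G 𝔪) (x : Qq (PL0H713.primeOf S L 𝔪).1) :
    locAut S G 𝔪 d (PL0H713.ofQq S L 𝔪 x) = PL0H713.ofQq S L 𝔪 x := by
  rw [PL0H713.ofQq_apply]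
  change locAut S G 𝔪 d (LocField.mk S 𝔪 (asIncl S L _)) = LocField.mk S 𝔪 (asIncl S L _)
  rw [locAut_mk, asAut_asIncl]

variable {L} in
/-- `|H²(D_𝔪, L_𝔪ˣ)| = |D_𝔪|` for a cyclic group `G`. -/
theorem card_H2_locRep (hL : Fermat.Agent.S55.L.H2CardCyclicSpec) [IsCyclic G]
    (𝔪 : SPlace S L) :
    Nat.card (groupCohomology (LocRep S G 𝔪) 2) = Nat.card (decomp S G 𝔪) := by
  haveI : Fact (Nat.Prime ((PL0H713.primeOf S L 𝔪).1 : ℕ)) := ⟨(PL0H713.primeOf S L 𝔪).1.2⟩
  exact card_H2_unitsRepr hL (locAut S G 𝔪) (H953.locAut_injective S G 𝔪)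
    ((PL0H713.primeOf S L 𝔪).1 : ℕ) (PL0H713.ofQq S L 𝔪) (PL0H713.finite_locField S L 𝔪)
    (locAut_ofQq S G 𝔪)

/-- `|H²(G, J_S(L))| = ∏_{r ∈ R} |D_r|` for a set `R` of representatives of the `G`-orbits of
places above `S` (`G` cyclic). -/
theorem card_H2_JRep (hSh : ShapiroJSpec) (hL : Fermat.Agent.S55.L.H2CardCyclicSpec) [IsCyclic G]
    (R : Finset (SPlace S L))
    (hR : ∀ 𝔪 : SPlace S L, ∃! r : SPlace S L, r ∈ R ∧ ∃ g : G, sPlaceSMul S G g r = 𝔪) :
    Nat.card (groupCohomology (JRep G S L) 2) = ∏ r : R, Nat.card (decomp S G r.1) := by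
  have hbij := hSh S G L R hR 2
  rw [Nat.card_congr (Equiv.ofBijective _ hbij), Nat.card_pi]
  exact Finset.prod_congr rfl fun r _ => card_H2_locRep S G hL r.1

end Loc

/-! ## 3. The Herbrand indices of `J_S(L)` -/

/-- **(J-COUNT)** for `G = Gal(L/K)` and any set `R` of representatives of the `G`-orbits of
places of `L` above `S`: `∏_{r ∈ R} |D_r| = ∏_{v ∈ S_K} e_v f_v`. -/
def JCountSpec : Prop :=
  ∀ (K L : Type) [Field K] [Field L] [NumberField K] [NumberField L] [Algebra K L]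
    [IsGalois K L] (S : Finset Nat.Primes) (R : Finset (SPlace S L)),
    (∀ 𝔪 : SPlace S L, ∃! r : SPlace S L,
      r ∈ R ∧ ∃ g : L ≃ₐ[K] L, sPlaceSMul S (L ≃ₐ[K] L) g r = 𝔪) →
    ∏ r : R, Nat.card (decomp S (L ≃ₐ[K] L) r.1) = finDegProd K L (FIH895.primesOver S K)

/-- **J-GLUE.**  The Herbrand indices of the `S`-idèles of a cyclic extension:
`h₀(J_S(L)) = ∏_{v ∈ S_K} e_v f_v`, `h₁(J_S(L)) = 1`. -/
theorem jHerbrand_of (hSh : ShapiroJSpec) (hL : Fermat.Agent.S55.L.H2CardCyclicSpec)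
    (hC : JCountSpec) : FIH895.JHerbrandSpec := by
  intro K L _ _ _ _ _ _ σ hσ S
  classical
  letI : Fintype (L ≃ₐ[K] L) := Fintype.ofFinite _
  haveI : IsCyclic (L ≃ₐ[K] L) := ⟨σ, hσ⟩
  haveI : Finite (SPlace S L) := PL0H713.finite_sPlace S L
  obtain ⟨R, hR⟩ := H953.exists_orbitReps S (L ≃ₐ[K] L) L
  constructor
  · rw [← card_H2_eq_h0 (JRep (L ≃ₐ[K] L) S L) σ hσ,
      card_H2_JRep S (L ≃ₐ[K] L) L hSh hL R hR, hC K L S R hR]
  · rw [← card_H1_eq_h1 (JRep (L ≃ₐ[K] L) S L) σ hσ]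
    haveI : Subsingleton (groupCohomology (JRep (L ≃ₐ[K] L) S L) 1) :=
      ModuleCat.isZero_iff_subsingleton.1 (H1JH604.h1JSpec S (L ≃ₐ[K] L) L)
    exact Nat.card_eq_one_iff_unique.2 ⟨inferInstance, ⟨0⟩⟩

end Fermat.Agent.S55.G.JGlueH604

end
end
-- ===== PACK-END S55/G/JGlueH604.lean

-- ===== PACK-BEGIN S55/G/Rec/Tow/H894/AtPrime.lean
section



/-!
# S55 / REC2-TOW / FR-INJ (helper894), part 1: classes concentrated at `r`

For `S' ⊆ S` and a place `𝔪` of `L ⊗ ℚ_S` whose rational prime lies in `S'`, the projection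
`L ⊗ ℚ_S → L_𝔪` factors through `asRes : L ⊗ ℚ_S → L ⊗ ℚ_{S'}`.  Consequently a class
`y ∈ H²(Γ, J_S(L))` whose image in `H²(Γ, J_{S'}(L))` vanishes has trivial localisation at `𝔪`:

* `locMapJ_eq_zero_of_jRes` (general `S' ⊆ S`);
* `locMapJ_eq_zero_of_isAt` (`S' = S.erase r`: `IsAt S Γ L r y`, prime of `𝔪` different from `r`).
-/

set_option autoImplicit false

open CategoryTheory groupCohomology
open scoped TensorProduct

noncomputable section

namespace Fermat.Agent.S55.G.Rec.TOW.H894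

open Fermat.Agent.S55 Fermat.Agent.S55.G

variable {S S' : Finset Nat.Primes} (h : S' ⊆ S) {L : Type} [Field L] [NumberField L]
  (𝔪 : SPlace S L) (hq : (PL0H713.primeOf S L 𝔪).1 ∈ S')

/-- The `ℚ`-algebra structure of `L_𝔪` (local to this file). -/
abbrev locAlg : Algebra ℚ (LocField S 𝔪) :=
  ((LocField.mk S 𝔪).comp (algebraMap ℚ (AS S L))).toAlgebra

/-- The ring homomorphism `ℚ_{S'} → L_𝔪` (projection to the prime below `𝔪`). -/
def ofQSsub : QS S' →+* LocField S 𝔪 :=
  (PL0H713.ofQq S L 𝔪).comp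
    ((QS.proj S' ⟨(PL0H713.primeOf S L 𝔪).1, hq⟩ : QS S' →ₐ[ℚ] _) : QS S' →+* _)

lemma ofQSsub_res (y : QS S) :
    ofQSsub 𝔪 hq (QS.res h y) = LocField.ofQS S 𝔪 y := by
  rw [PL0H713.ofQS_eq]
  rfl

/-- The factorisation `L ⊗ ℚ_{S'} → L_𝔪` of the projection `L ⊗ ℚ_S → L_𝔪`. -/
def locOfSub : AS S' L →+* LocField S 𝔪 :=
  letI := locAlg 𝔪
  ((Algebra.TensorProduct.lift (toLoc S 𝔪).toRatAlgHom (ofQSsub 𝔪 hq).toRatAlgHom
    (fun _ _ => Commute.all _ _) : AS S' L →ₐ[ℚ] LocField S 𝔪) : AS S' L →+* LocField S 𝔪)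

lemma locOfSub_tmul (x : L) (y : QS S') :
    locOfSub 𝔪 hq (x ⊗ₜ[ℚ] y) = toLoc S 𝔪 x * ofQSsub 𝔪 hq y := by
  letI := locAlg 𝔪
  exact Algebra.TensorProduct.lift_tmul (toLoc S 𝔪).toRatAlgHom (ofQSsub 𝔪 hq).toRatAlgHom
    (fun _ _ => Commute.all _ _) x y

lemma locOfSub_asRes (a : AS S L) :
    locOfSub 𝔪 hq (asRes h L a) = LocField.mk S 𝔪 a := by
  induction a using TensorProduct.induction_on with
  | zero => simp
  | tmul x y =>
    rw [asRes_tmul, locOfSub_tmul, ofQSsub_res, PL0H713.mk_tmul]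
  | add a b ha hb => rw [map_add, map_add, map_add, ha, hb]

variable (Γ : Type) [Group Γ] [MulSemiringAction Γ L]

lemma locAut_ofQS (d : decomp S Γ 𝔪) (y : QS S) :
    locAut S Γ 𝔪 d (LocField.ofQS S 𝔪 y) = LocField.ofQS S 𝔪 y := by
  change locAut S Γ 𝔪 d (LocField.mk S 𝔪 (asIncl S L y)) = LocField.mk S 𝔪 (asIncl S L y)
  rw [locAut_mk, asAut_asIncl]

lemma locAut_ofQSsub (d : decomp S Γ 𝔪) (y : QS S') :
    locAut S Γ 𝔪 d (ofQSsub 𝔪 hq y) = ofQSsub 𝔪 hq y := by
  change locAut S Γ 𝔪 d (PL0H713.ofQq S L 𝔪 _) = PL0H713.ofQq S L 𝔪 _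
  rw [PL0H713.ofQq_apply, locAut_ofQS]

lemma locOfSub_asAut (d : decomp S Γ 𝔪) (a : AS S' L) :
    locOfSub 𝔪 hq (asAut S' Γ L (d : Γ) a) = locAut S Γ 𝔪 d (locOfSub 𝔪 hq a) := by
  induction a using TensorProduct.induction_on with
  | zero => simp
  | tmul x y =>
    rw [asAut_tmul, locOfSub_tmul, locOfSub_tmul, map_mul, locAut_toLoc, locAut_ofQSsub]
  | add a b ha hb => rw [map_add, map_add, map_add, map_add, ha, hb]

/-- The factorisation on units, additively: `J_{S'}(L) → L_𝔪ˣ`. -/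
def jOfSub : Additive (AS S' L)ˣ →+ Additive (LocField S 𝔪)ˣ :=
  MonoidHom.toAdditive (Units.map (locOfSub 𝔪 hq : AS S' L →* LocField S 𝔪))

lemma jOfSub_jRes (u : Additive (AS S L)ˣ) :
    jOfSub 𝔪 hq (jRes h L u) = jToLoc S 𝔪 u := by
  apply Additive.toMul.injective
  apply Units.ext
  exact locOfSub_asRes h 𝔪 hq _

lemma jOfSub_equivariant (d : decomp S Γ 𝔪) (u : Additive (AS S' L)ˣ) :
    jOfSub 𝔪 hq (jRepr Γ S' L (d : Γ) u) = locRepr S Γ 𝔪 d (jOfSub 𝔪 hq u) := by
  apply Additive.toMul.injective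
  apply Units.ext
  exact locOfSub_asAut 𝔪 hq Γ d _

/-- **Factorisation.**  If the image of `y ∈ H²(Γ, J_S(L))` in `H²(Γ, J_{S'}(L))` vanishes
(`S' ⊆ S`), then `y` is locally trivial at every place `𝔪` whose rational prime lies in `S'`. -/
theorem locMapJ_eq_zero_of_jRes (hq' : (PL0H713.primeOf S L 𝔪).1 ∈ S')
    (y : groupCohomology (JRep Γ S L) 2)
    (hy : (T.coeffMap (jResRepHom Γ L h) 2).hom y = 0) :
    (locMapJ S Γ 𝔪 2).hom y = 0 := by
  have hq := hq'
  revert hy
  refine H2_induction_on y (fun yc hy => ?_)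
  have h1 : (H2π (JRep Γ S' L)).hom
      ((mapCocycles₂ (MonoidHom.id Γ) (jResRepHom Γ L h)).hom yc) = 0 := by
    rw [← hy]
    exact (congr($(H2π_comp_map (MonoidHom.id Γ) (jResRepHom Γ L h)) yc)).symm
  rw [H2π_eq_zero_iff] at h1
  obtain ⟨b₀, hb₀⟩ := h1
  obtain ⟨b, hb'⟩ : ∃ b : Γ → Additive (AS S' L)ˣ, ∀ g g' : Γ,
      jRepr Γ S' L g (b g') - b (g * g') + b g =
        jRes h L ((yc : Γ × Γ → Additive (AS S L)ˣ) (g, g')) := by
    refine ⟨b₀, fun g g' => ?_⟩
    have h2 := congrFun hb₀ (g, g')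
    rw [d₁₂_hom_apply] at h2
    exact h2
  have hgoal : (locMapJ S Γ 𝔪 2).hom ((H2π (JRep Γ S L)).hom yc) =
      (H2π (LocRep S Γ 𝔪)).hom
        ((mapCocycles₂ (decomp S Γ 𝔪).subtype (jToLocRepHom S Γ 𝔪)).hom yc) :=
    congr($(H2π_comp_map (decomp S Γ 𝔪).subtype (jToLocRepHom S Γ 𝔪)) yc)
  rw [hgoal, H2π_eq_zero_iff]
  refine ⟨fun d => jOfSub 𝔪 hq (b (d : Γ)), funext fun p => ?_⟩
  obtain ⟨d, d'⟩ := p
  change locRepr S Γ 𝔪 d (jOfSub 𝔪 hq (b (d' : Γ))) - jOfSub 𝔪 hq (b ((d : Γ) * (d' : Γ))) +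
    jOfSub 𝔪 hq (b (d : Γ)) = jToLoc S 𝔪 ((yc : Γ × Γ → Additive (AS S L)ˣ) ((d : Γ), (d' : Γ)))
  have h3 : jOfSub 𝔪 hq (jRepr Γ S' L (d : Γ) (b (d' : Γ)) - b ((d : Γ) * (d' : Γ)) + b (d : Γ)) =
      jOfSub 𝔪 hq (jRes h L ((yc : Γ × Γ → Additive (AS S L)ˣ) ((d : Γ), (d' : Γ)))) :=
    congrArg (jOfSub 𝔪 hq) (hb' (d : Γ) (d' : Γ))
  have h5 : locRepr S Γ 𝔪 d (jOfSub 𝔪 hq (b (d' : Γ))) - jOfSub 𝔪 hq (b ((d : Γ) * (d' : Γ))) +
      jOfSub 𝔪 hq (b (d : Γ)) =
      jOfSub 𝔪 hq (jRepr Γ S' L (d : Γ) (b (d' : Γ)) - b ((d : Γ) * (d' : Γ)) + b (d : Γ)) := by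
    rw [map_add, map_sub, jOfSub_equivariant]
  exact h5.trans (h3.trans (jOfSub_jRes h 𝔪 hq _))

/-- **Classes concentrated at `r`** are locally trivial at every place not above `r`. -/
theorem locMapJ_eq_zero_of_isAt (r : Nat.Primes) (y : groupCohomology (JRep Γ S L) 2)
    (hy : IsAt S Γ L r y) (𝔪 : SPlace S L) (h𝔪 : (PL0H713.primeOf S L 𝔪).1 ≠ r) :
    (locMapJ S Γ 𝔪 2).hom y = 0 :=
  locMapJ_eq_zero_of_jRes (Finset.erase_subset r S) 𝔪 Γ
    (Finset.mem_erase.2 ⟨h𝔪, (PL0H713.primeOf S L 𝔪).2⟩) y hy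

end Fermat.Agent.S55.G.Rec.TOW.H894

end
end
-- ===== PACK-END S55/G/Rec/Tow/H894/AtPrime.lean

-- ===== PACK-BEGIN S55/G/Rec/Tow/H894/InjCore.lean
section


/-!
# S55 / REC2-TOW / FR-INJ (helper894), part 2: the `σ`-free core of `injAt`

`eq_zero_of_isAt_of_locMapJ` : let `y ∈ H²(Γ, J_S(L))` be concentrated at `r` and let `𝔪₀` be a
place such that every place above `r` is `Γ`-conjugate to `𝔪₀`.  If the localisation of `y` at
`𝔪₀` vanishes, then `y = 0`.  (Shapiro `G.ShapiroJSpec` + `locMapJ_eq_zero_of_isAt`.)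
-/

set_option autoImplicit false

open CategoryTheory groupCohomology
open scoped TensorProduct

noncomputable section

namespace Fermat.Agent.S55.G.Rec.TOW.H894

open Fermat.Agent.S55 Fermat.Agent.S55.G

/-- Orbit representatives containing a prescribed element, for an action on a finite type. -/
lemma exists_orbit_reps {Γ X : Type} [Group Γ] [MulAction Γ X] [Finite X] (x₀ : X) :
    ∃ R : Finset X, x₀ ∈ R ∧ ∀ x : X, ∃! r : X, r ∈ R ∧ ∃ g : Γ, g • r = x := by
  classical
  haveI := Fintype.ofFinite X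
  let rep : X → X := fun x => if x ∈ MulAction.orbit Γ x₀ then x₀ else
    (Quotient.out (Quotient.mk (MulAction.orbitRel Γ X) x))
  have hrep_mem : ∀ x, rep x ∈ MulAction.orbit Γ x := by
    intro x
    by_cases hx : x ∈ MulAction.orbit Γ x₀
    · simp only [rep, if_pos hx]
      exact (MulAction.orbitRel Γ X).symm hx
    · simp only [rep, if_neg hx]
      have : (MulAction.orbitRel Γ X) (Quotient.out (Quotient.mk (MulAction.orbitRel Γ X) x)) x :=
        Quotient.exact (Quotient.out_eq _)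
      exact this
  have hrep_eq : ∀ x x', x' ∈ MulAction.orbit Γ x → rep x' = rep x := by
    intro x x' hx'
    have horb : MulAction.orbit Γ x' = MulAction.orbit Γ x := MulAction.orbit_eq_iff.2 hx'
    have hq : Quotient.mk (MulAction.orbitRel Γ X) x' = Quotient.mk (MulAction.orbitRel Γ X) x :=
      Quotient.sound hx'
    by_cases hx : x ∈ MulAction.orbit Γ x₀
    · have hx'' : x' ∈ MulAction.orbit Γ x₀ := by
        have h1 : MulAction.orbit Γ x = MulAction.orbit Γ x₀ := MulAction.orbit_eq_iff.2 hx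
        rw [← h1]; exact hx'
      simp only [rep, if_pos hx, if_pos hx'']
    · have hx'' : x' ∉ MulAction.orbit Γ x₀ := by
        intro h2
        apply hx
        have h1 : MulAction.orbit Γ x' = MulAction.orbit Γ x₀ := MulAction.orbit_eq_iff.2 h2
        rw [← h1, horb]
        exact MulAction.mem_orbit_self x
      simp only [rep, if_neg hx, if_neg hx'', hq]
  refine ⟨Finset.univ.image rep, ?_, fun x => ⟨rep x, ⟨?_, ?_⟩, ?_⟩⟩
  · refine Finset.mem_image.2 ⟨x₀, Finset.mem_univ _, ?_⟩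
    simp only [rep, if_pos (MulAction.mem_orbit_self x₀)]
  · exact Finset.mem_image.2 ⟨x, Finset.mem_univ _, rfl⟩
  · obtain ⟨g, hg⟩ := hrep_mem x
    exact ⟨g⁻¹, by rw [← hg, inv_smul_smul]⟩
  · rintro r ⟨hr, g, hg⟩
    obtain ⟨x', -, rfl⟩ := Finset.mem_image.1 hr
    have h1 : x ∈ MulAction.orbit Γ (rep x') := ⟨g, hg⟩
    have h2 : rep x' ∈ MulAction.orbit Γ x' := hrep_mem x'
    have h3 : x ∈ MulAction.orbit Γ x' := by
      have : MulAction.orbit Γ (rep x') = MulAction.orbit Γ x' := MulAction.orbit_eq_iff.2 h2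
      rw [← this]; exact h1
    exact (hrep_eq x' x h3).symm

variable {S : Finset Nat.Primes} {L : Type} [Field L] [NumberField L]
  (Γ : Type) [Group Γ] [Finite Γ] [MulSemiringAction Γ L]

/-- **Core of `injAt`** (no invariant map involved).  A class concentrated at `r` whose
localisation at ONE place `𝔪₀` vanishes is zero, provided all places above `r` are conjugate
to `𝔪₀`. -/
theorem eq_zero_of_isAt_of_locMapJ (hSh : G.ShapiroJSpec) (r : Nat.Primes)
    (y : groupCohomology (JRep Γ S L) 2) (hy : IsAt S Γ L r y) (𝔪₀ : SPlace S L)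
    (htrans : ∀ 𝔪 : SPlace S L, (PL0H713.primeOf S L 𝔪).1 = r →
      ∃ g : Γ, sPlaceSMul S Γ g 𝔪₀ = 𝔪)
    (h0 : (locMapJ S Γ 𝔪₀ 2).hom y = 0) : y = 0 := by
  haveI : Finite (SPlace S L) := PL0H713.finite_sPlace S L
  letI : MulAction Γ (SPlace S L) := sPlaceAction S Γ L
  obtain ⟨R, h𝔪₀, hR⟩ := exists_orbit_reps (Γ := Γ) 𝔪₀
  have hbij := hSh S Γ L R hR 2
  apply hbij.1
  funext ρ
  change (locMapJ S Γ ρ.1 2).hom y = (locMapJ S Γ ρ.1 2).hom 0
  rw [map_zero]
  by_cases hρ : (PL0H713.primeOf S L ρ.1).1 = r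
  · obtain ⟨g, hg⟩ := htrans ρ.1 hρ
    have h1 : ρ.1 = 𝔪₀ := by
      obtain ⟨r₁, -, huniq⟩ := hR ρ.1
      have e1 : ρ.1 = r₁ := huniq ρ.1 ⟨ρ.2, 1, (sPlaceAction S Γ L).one_smul ρ.1⟩
      have e2 : 𝔪₀ = r₁ := huniq 𝔪₀ ⟨h𝔪₀, g, hg⟩
      rw [e1, e2]
    rw [h1]
    exact h0
  · exact locMapJ_eq_zero_of_isAt Γ r y hy ρ.1 hρ

end Fermat.Agent.S55.G.Rec.TOW.H894

end
end
-- ===== PACK-END S55/G/Rec/Tow/H894/InjCore.lean

-- ===== PACK-BEGIN S55/G/Rec/HP/FinPH795.lean
section




/-!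
# S55 / G / REC / HP : leaf HP-FINp (subtask 483)                             (helper795)

    theorem Fermat.Agent.S55.G.Rec.HP.H795.hasseFinP_of (p : ℕ) [Fact p.Prime] (hp2 : p ≠ 2) :
        G.PClassUpperSpec → G.ClassShortExactSpec → G.ShapiroJSpec → HasseFinPSpec p

Route (blueprint `coord/S55-REC-HP.md` §A of helper473):
1. `hasFixedRoot_of_isPGroup` : a `p`-group of automorphisms fixes `ζ_p`;
2. `exists_S_unram`, `exists_S_units` : for `S` large the action is unramified outside `S`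
   (NO faithfulness needed) and finitely many given elements of `Lˣ` are `S`-units
   (primes dividing absolute norms; no discriminants);
3. `H¹(Γ, C_S) = 0` + the long exact sequence: `H²(Γ, Lˣ) → H²(Γ, J_S × Div^S)` is injective;
4. the image of `[c]` is `inl_* [unitsDiag ∘ c]`, which vanishes by Shapiro injectivity since its
   localisations are the localisations of `[c]`.
-/


set_option autoImplicit false
set_option linter.style.haveILetI false
set_option linter.unusedSectionVars false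

open scoped NumberField
open IsDedekindDomain CategoryTheory groupCohomology

noncomputable section

namespace Fermat.Agent.S55.G.Rec.HP.H795

open Fermat.Agent.S55 Fermat.Agent.S55.G


/-- A `p`-group of automorphisms fixes the `p`-th roots of unity. -/
theorem hasFixedRoot_of_isPGroup (p : ℕ) [hp : Fact p.Prime] (Γ L : Type) [Group Γ] [Field L]
    [CharZero L] [MulSemiringAction Γ L] (hΓ : IsPGroup p Γ) {ζ : L}
    (hζ : IsPrimitiveRoot ζ p) : HasFixedRootOfUnity p Γ L := by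
  refine ⟨ζ, hζ, fun g => ?_⟩
  haveI : NeZero p := ⟨hp.out.ne_zero⟩
  set φ : Γ →* (ZMod p)ˣ := (hζ.autToPow ℚ).comp (fieldAut Γ L) with hφ
  have h1 : φ g = 1 := by
    obtain ⟨k, hk⟩ := hΓ g
    have ho1 : orderOf (φ g) ∣ p ^ k :=
      orderOf_dvd_of_pow_eq_one (by rw [← map_pow, hk, map_one])
    have ho2 : orderOf (φ g) ∣ p - 1 := by
      have h := orderOf_dvd_card (x := φ g)
      rwa [ZMod.card_units_eq_totient, Nat.totient_prime hp.out] at h
    have hcop : Nat.Coprime (p ^ k) (p - 1) := by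
      apply Nat.Coprime.pow_left
      rw [hp.out.coprime_iff_not_dvd]
      have h2p : 2 ≤ p := hp.out.two_le
      exact Nat.not_dvd_of_pos_of_lt (by omega) (by omega)
    have : orderOf (φ g) = 1 := Nat.eq_one_of_dvd_coprimes hcop ho1 ho2
    exact orderOf_eq_one_iff.1 this
  have h2 := hζ.autToPow_spec ℚ (fieldAut Γ L g)
  have h3 : hζ.autToPow ℚ (fieldAut Γ L g) = 1 := h1
  rw [h3] at h2
  have h4 : ((1 : (ZMod p)ˣ) : ZMod p).val = 1 := by
    rw [Units.val_one]
    haveI : Fact (1 < p) := ⟨hp.out.one_lt⟩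
    exact ZMod.val_one p
  rw [h4, pow_one] at h2
  rw [← fieldAut_apply]
  exact h2.symm


/-! ## Choice of the finite set `S` -/

section ChooseS

variable (L : Type) [Field L] [NumberField L]

/-- The rational primes dividing the absolute norm of `a`. -/
def primesOf (a : 𝓞 L) : Finset Nat.Primes :=
  ((Ideal.absNorm (Ideal.span {a})).primeFactors.subtype Nat.Prime : Finset {q : ℕ // q.Prime})

variable {L}

lemma mem_primesOf {a : 𝓞 L} {q : Nat.Primes} :
    q ∈ primesOf L a ↔ (q : ℕ) ∈ (Ideal.absNorm (Ideal.span {a})).primeFactors :=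
  Finset.mem_subtype

/-- A natural number `n ≠ 0` lying in a prime ideal has a prime factor lying in it. -/
lemma exists_prime_factor_mem (w : HeightOneSpectrum (𝓞 L)) :
    ∀ n : ℕ, n ≠ 0 → ((n : ℕ) : 𝓞 L) ∈ w.asIdeal →
      ∃ q : ℕ, q.Prime ∧ q ∣ n ∧ ((q : ℕ) : 𝓞 L) ∈ w.asIdeal := by
  intro n
  induction n using Nat.strong_induction_on with
  | _ n ih =>
    intro hn hmem
    have hn1 : n ≠ 1 := by
      rintro rfl
      apply w.isPrime.ne_top
      rw [Ideal.eq_top_iff_one]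
      simpa using hmem
    have hq := Nat.minFac_prime hn1
    obtain ⟨m, hm⟩ := Nat.minFac_dvd n
    have hm0 : m ≠ 0 := by
      rintro rfl
      apply hn
      rw [hm, mul_zero]
    have hmem' : ((n.minFac : ℕ) : 𝓞 L) * ((m : ℕ) : 𝓞 L) ∈ w.asIdeal := by
      have : ((n : ℕ) : 𝓞 L) = ((n.minFac : ℕ) : 𝓞 L) * ((m : ℕ) : 𝓞 L) := by
        conv_lhs => rw [hm]
        push_cast
        rfl
      rwa [this] at hmem
    rcases w.isPrime.mem_or_mem hmem' with h | h
    · exact ⟨n.minFac, hq, Nat.minFac_dvd n, h⟩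
    · have hlt : m < n := by
        have h2 : 2 ≤ n.minFac := hq.two_le
        have hmpos : 0 < m := Nat.pos_of_ne_zero hm0
        calc m = 1 * m := (one_mul m).symm
          _ < n.minFac * m := Nat.mul_lt_mul_of_pos_right (by omega) hmpos
          _ = n := hm.symm
      obtain ⟨q, hq', hqm, hqw⟩ := ih m hlt hm0 h
      exact ⟨q, hq', hqm.trans (Dvd.intro_left _ hm.symm), hqw⟩

/-- If `a ≠ 0` lies in the prime `w`, then `w` lies above a prime of `primesOf a`. -/
lemma isAbove_of_mem {a : 𝓞 L} (ha : a ≠ 0) (w : HeightOneSpectrum (𝓞 L))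
    (haw : a ∈ w.asIdeal) {S : Finset Nat.Primes} (hS : primesOf L a ⊆ S) : IsAbove S L w := by
  have hn0 : Ideal.absNorm (Ideal.span {a}) ≠ 0 := by
    rw [Ne, Ideal.absNorm_eq_zero_iff, Ideal.span_singleton_eq_bot]
    exact ha
  have hmem : ((Ideal.absNorm (Ideal.span {a}) : ℕ) : 𝓞 L) ∈ w.asIdeal := by
    have h1 := Ideal.absNorm_mem (Ideal.span {a})
    have h2 : Ideal.span {a} ≤ w.asIdeal := (Ideal.span_singleton_le_iff_mem _).2 haw
    exact h2 h1
  obtain ⟨q, hq, hqn, hqw⟩ := exists_prime_factor_mem w _ hn0 hmem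
  refine ⟨⟨q, hq⟩, hS (mem_primesOf.2 ?_), hqw⟩
  exact Nat.mem_primeFactors.2 ⟨hq, hqn, hn0⟩

lemma exists_num_den (x : L) (hx : x ≠ 0) :
    ∃ a b : 𝓞 L, a ≠ 0 ∧ b ≠ 0 ∧ x = (a : L) / (b : L) := by
  obtain ⟨a, b, hb, rfl⟩ := IsFractionRing.div_surjective (A := 𝓞 L) x
  have hb0 : b ≠ 0 := nonZeroDivisors.ne_zero hb
  refine ⟨a, b, ?_, hb0, rfl⟩
  rintro rfl
  apply hx
  simp

lemma intValuation_eq_one_of_not_mem (w : HeightOneSpectrum (𝓞 L)) {a : 𝓞 L}
    (ha : a ∉ w.asIdeal) : w.intValuation a = 1 := by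
  apply le_antisymm (w.intValuation_le_one a)
  by_contra h
  rw [not_le] at h
  exact ha ((w.intValuation_lt_one_iff_mem a).1 h)

lemma valuation_div_eq_one (w : HeightOneSpectrum (𝓞 L)) {a b : 𝓞 L}
    (ha : a ∉ w.asIdeal) (hb : b ∉ w.asIdeal) :
    w.valuation L ((a : L) / (b : L)) = 1 := by
  have h1 : w.valuation L (a : L) = 1 := by
    have := w.valuation_of_algebraMap (K := L) a
    rw [intValuation_eq_one_of_not_mem w ha] at this
    exact this
  have h2 : w.valuation L (b : L) = 1 := by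
    have := w.valuation_of_algebraMap (K := L) b
    rw [intValuation_eq_one_of_not_mem w hb] at this
    exact this
  rw [map_div₀, h1, h2, div_one]

/-- Every element of `Lˣ` is an `S`-unit for `S` large. -/
theorem exists_S_units (x : Additive Lˣ) :
    ∃ S₀ : Finset Nat.Primes, ∀ S : Finset Nat.Primes, S₀ ⊆ S → ordHom S L x = 0 := by
  classical
  obtain ⟨a, b, ha, hb, hab⟩ := exists_num_den ((x.toMul : Lˣ) : L) (Units.ne_zero _)
  refine ⟨primesOf L a ∪ primesOf L b, fun S hS => ?_⟩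
  ext w
  rw [ordHom_apply, Finsupp.zero_apply, ordAt_eq_zero_iff, hab]
  apply valuation_div_eq_one
  · intro h
    exact w.2 (isAbove_of_mem ha w.1 h (Finset.union_subset_left hS))
  · intro h
    exact w.2 (isAbove_of_mem hb w.1 h (Finset.union_subset_right hS))

/-- The action is unramified outside `S` for `S` large. -/
theorem exists_S_unram (Γ : Type) [Group Γ] [Finite Γ] [MulSemiringAction Γ L] :
    ∃ S₀ : Finset Nat.Primes, ∀ S : Finset Nat.Primes, S₀ ⊆ S → IsUnramOut S Γ L := by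
  classical
  haveI : Fintype Γ := Fintype.ofFinite Γ
  let el : Γ → 𝓞 L := fun g =>
    if h : ∃ a : 𝓞 L, g • a ≠ a then g • h.choose - h.choose else 1
  have hel : ∀ g, el g ≠ 0 := by
    intro g
    by_cases h : ∃ a : 𝓞 L, g • a ≠ a
    · simp only [el, dif_pos h]
      exact sub_ne_zero.2 h.choose_spec
    · simp only [el, dif_neg h]
      exact one_ne_zero
  refine ⟨Finset.univ.biUnion fun g => primesOf L (el g), fun S hS w hw g hg x => ?_⟩
  by_cases h : ∃ a : 𝓞 L, g • a ≠ a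
  · exfalso
    apply hw
    have h1 : el g ∈ w.asIdeal := by
      simp only [el, dif_pos h]
      exact hg _
    refine isAbove_of_mem (hel g) w h1 ?_
    exact (Finset.subset_biUnion_of_mem (fun g => primesOf L (el g)) (Finset.mem_univ g)).trans hS
  · simp only [ne_eq, not_exists, not_not] at h
    obtain ⟨a, b, hb, rfl⟩ := IsFractionRing.div_surjective (A := 𝓞 L) x
    have h1 : g • (algebraMap (𝓞 L) L a / algebraMap (𝓞 L) L b) =
        algebraMap (𝓞 L) L (g • a) / algebraMap (𝓞 L) L (g • b) := by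
      rw [smul_div₀']
      rfl
    rw [h1, h a, h b]

end ChooseS


/-! ## The cohomological argument -/

section Main

open KL.H795

/-- Vanishing of `H¹` can be tested after restriction to the top subgroup. -/
lemma isZero_H1_of_top {k Γ : Type} [CommRing k] [Group Γ] (A : Rep.{0} k Γ)
    (h : Limits.IsZero (groupCohomology (T.resSub A (⊤ : Subgroup Γ)) 1)) :
    Limits.IsZero (groupCohomology A 1) := by
  refine Limits.IsZero.of_iso h (groupCohomology.mapIso (A := T.resSub A (⊤ : Subgroup Γ)) (B := A)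
    (Subgroup.topEquiv : (⊤ : Subgroup Γ) ≃* Γ).symm (LinearEquiv.refl k A.V)
    (fun g => by
      show (LinearEquiv.refl k A.V : A.V →ₗ[k] A.V) ∘ₗ A.ρ g =
        (T.resSub A ⊤).ρ (Subgroup.topEquiv.symm g) ∘ₗ (LinearEquiv.refl k A.V : A.V →ₗ[k] A.V)
      ext x; rfl) 1)

/-- **HP-FINp.**  The Hasse principle at finite level for `p`-groups, from the class module
upper bound (`H¹(Γ, C_S) = 0`), the exactness of `0 → Lˣ → J_S × Div^S → C_S → 0` and Shapiro's
lemma for `J_S`. -/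
theorem hasseFinP_of (p : ℕ) [hp : Fact p.Prime] (hp2 : p ≠ 2) (hUp : PClassUpperSpec)
    (hSES : ClassShortExactSpec) (hSh : ShapiroJSpec) : HasseFinPSpec p := by
  intro Γ L _ _ _ _ _ _ hΓ hζ' x hloc
  obtain ⟨ζ, hζ⟩ := hζ'
  classical
  haveI : Fintype Γ := Fintype.ofFinite Γ
  induction x using groupCohomology_induction_on with
  | h c =>
    -- the finite set `S`
    obtain ⟨S₁, hS₁⟩ := exists_S_unram (L := L) Γ
    have hex : ∀ v : Fin 2 → Γ, ∃ S₀ : Finset Nat.Primes, ∀ S : Finset Nat.Primes, S₀ ⊆ S →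
        ordHom S L ((iCocycles (LRep Γ L) 2).hom c v) = 0 := fun v => exists_S_units _
    choose S₂ hS₂ using hex
    set S : Finset Nat.Primes := ({⟨p, hp.out⟩} ∪ S₁) ∪ Finset.univ.biUnion S₂ with hSdef
    have hpS : (⟨p, hp.out⟩ : Nat.Primes) ∈ S := by
      rw [hSdef]
      exact Finset.mem_union_left _ (Finset.mem_union_left _ (Finset.mem_singleton_self _))
    have hunr : IsUnramOut S Γ L := hS₁ S (by
      rw [hSdef]
      exact Finset.subset_union_right.trans Finset.subset_union_left)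
    have hord : ∀ v : Fin 2 → Γ, ordHom S L ((iCocycles (LRep Γ L) 2).hom c v) = 0 := fun v =>
      hS₂ v S (by
        rw [hSdef]
        exact (Finset.subset_biUnion_of_mem S₂ (Finset.mem_univ v)).trans
          Finset.subset_union_right)
    have hroot : HasFixedRootOfUnity p Γ L := hasFixedRoot_of_isPGroup p Γ L hΓ hζ
    -- `H¹(Γ, C_S) = 0`
    have hH1 : Limits.IsZero (groupCohomology (CRep S Γ L) 1) :=
      isZero_H1_of_top _ (hUp p hp2 S Γ L hpS hΓ hunr hroot ⊤).1
    -- `H²(Γ, Lˣ) → H²(Γ, J_S × Div^S)` is injective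
    have hX := hSES S Γ L ⟨_, hpS⟩
    have hmono : Mono (groupCohomology.map (A := LRep Γ L) (B := JDRep S Γ L)
        (MonoidHom.id Γ) (diagRepHom S Γ L) 2) := by
      have hex := mapShortComplex₁_exact hX (i := 1) (j := 2) rfl
      have h0 : (mapShortComplex₁ hX (i := 1) (j := 2) rfl).f = 0 := hH1.eq_of_src _ _
      exact hex.mono_g h0
    have hinj := (ModuleCat.mono_iff_injective _).1 hmono
    apply hinj
    rw [map_zero]
    -- the class of `unitsDiag ∘ c` in `H²(Γ, J_S)` vanishes by Shapiro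
    have hdu : (inhomogeneousCochains.d (JRep Γ S L) 2).hom
        (fun v => unitsDiag S L ((iCocycles (LRep Γ L) 2).hom c v)) = 0 := by
      have h0 := d_comp_eq (LRep Γ L) (JRep Γ S L) (unitsDiag S L)
        (unitsDiag_equivariant Γ S L) 2 ((iCocycles (LRep Γ L) 2).hom c)
      rw [d_iCocycles] at h0
      refine h0.trans ?_
      funext v
      exact map_zero _
    have hu0 : (π (JRep Γ S L) 2).hom (cocyclesMk _ hdu) = 0 := by
      haveI : Finite (SPlace S L) := (PL0H713.locField S L).1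
      obtain ⟨R, hR⟩ := H953.exists_orbitReps S Γ L
      apply (hSh S Γ L R hR 2).1
      funext r
      show (locMapJ S Γ r.1 2).hom _ = (locMapJ S Γ r.1 2).hom 0
      rw [map_zero]
      have h1 := hloc S r.1
      unfold locMapL at h1
      unfold locMapJ
      rw [map_π_eq_zero_iff] at h1 ⊢
      refine (congrArg (IsCobdry (LocRep S Γ r.1) 2) ?_).mpr h1
      funext x
      have h3 := congrFun (iCocycles_mk _ hdu) (fun i => (decomp S Γ r.1).subtype (x i))
      exact congrArg (jToLocRepHom S Γ r.1).hom h3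
    have h2 : (groupCohomology.map (A := JRep Γ S L) (B := JDRep S Γ L)
        (MonoidHom.id Γ) (jInlRepHom S Γ L) 2).hom
        ((π (JRep Γ S L) 2).hom (cocyclesMk _ hdu)) = 0 := by
      rw [hu0, map_zero]
    rw [map_π_eq_zero_iff] at h2 ⊢
    refine (congrArg (IsCobdry (JDRep S Γ L) 2) ?_).mpr h2
    funext x
    have h3 := congrFun (iCocycles_mk _ hdu) (fun i => (MonoidHom.id Γ) (x i))
    refine Eq.trans ?_ (congrArg (jInlRepHom S Γ L).hom h3).symm
    exact Prod.ext rfl (hord _)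

end Main

end Fermat.Agent.S55.G.Rec.HP.H795


end
end
-- ===== PACK-END S55/G/Rec/HP/FinPH795.lean

-- ===== PACK-BEGIN S56/H419/H0Fiber.lean
section


/-!
# S56 / W-BASE / leaf EUL-H0, part 7 (helper419): `permCharpoly` of a disjoint union of fibres

Mathlib-only (+ `permCharpoly` of `S56/H614/Lattice.lean`).
`A : I → X → Prop` pairwise disjoint predicates with finite fibres, `σ : X → X` preserving each
`A i`.  For a finite set `s` of indices,

  `permCharpoly k (σ | {x // ∃ i ∈ s, A i x}) = ∏ i ∈ s, permCharpoly k (σ | {x // A i x})`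
(`permCharpoly_union`).
-/

set_option autoImplicit false
set_option linter.style.haveILetI false
set_option linter.unusedSectionVars false

noncomputable section

namespace Fermat.Agent.S56.H419

open Fermat.Agent.S56.H614 Polynomial

section Fiber

variable (k : Type*) [Field k] {X : Type*} {I : Type*} (A : I → X → Prop)
  (σ : X → X) (hσ : ∀ i x, A i x → A i (σ x))

/-- The restriction of `σ` to the fibre `{x // A i x}`. -/
def fiberMap (i : I) : {x // A i x} → {x // A i x} := fun x => ⟨σ x.1, hσ i x.1 x.2⟩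

/-- The restriction of `σ` to the union `{x // ∃ i ∈ s, A i x}`. -/
def unionMap (s : Finset I) : {x // ∃ i ∈ s, A i x} → {x // ∃ i ∈ s, A i x} :=
  fun x => ⟨σ x.1, by obtain ⟨i, hi, h⟩ := x.2; exact ⟨i, hi, hσ i x.1 h⟩⟩

@[simp] theorem coe_fiberMap (i : I) (x : {x // A i x}) : (fiberMap A σ hσ i x).1 = σ x.1 := rfl

@[simp] theorem coe_unionMap (s : Finset I) (x : {x // ∃ i ∈ s, A i x}) :
    (unionMap A σ hσ s x).1 = σ x.1 := rfl

variable (hA : ∀ i j x, A i x → A j x → i = j)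

include hA in
theorem not_fiber_of_mem_union {i : I} {s : Finset I} (hi : i ∉ s)
    (y : {x // ∃ j ∈ s, A j x}) : ¬ A i y.1 := by
  intro hy
  obtain ⟨j, hj, hjy⟩ := y.2
  have := hA i j y.1 hy hjy
  exact hi (this ▸ hj)

theorem mem_union_of_not_fiber [DecidableEq I] {i : I} {s : Finset I}
    (x : {x // ∃ j ∈ insert i s, A j x}) (hx : ¬ A i x.1) : ∃ j ∈ s, A j x.1 := by
  obtain ⟨j, hj, hjx⟩ := x.2
  rcases Finset.mem_insert.1 hj with rfl | hj'
  · exact absurd hjx hx
  · exact ⟨j, hj', hjx⟩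

open Classical in
/-- `X_{insert i s} → X_i ⊕ X_s`. -/
def insertToSum [DecidableEq I] (i : I) (s : Finset I) :
    {x // ∃ j ∈ insert i s, A j x} → ({x // A i x} ⊕ {x // ∃ j ∈ s, A j x}) :=
  fun x => if h : A i x.1 then Sum.inl ⟨x.1, h⟩ else Sum.inr ⟨x.1, mem_union_of_not_fiber A x h⟩

theorem insertToSum_of_pos [DecidableEq I] (i : I) (s : Finset I)
    (x : {x // ∃ j ∈ insert i s, A j x}) (h : A i x.1) :
    insertToSum A i s x = Sum.inl ⟨x.1, h⟩ := by
  unfold insertToSum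
  rw [dif_pos h]

theorem insertToSum_of_neg [DecidableEq I] (i : I) (s : Finset I)
    (x : {x // ∃ j ∈ insert i s, A j x}) (h : ¬ A i x.1) :
    insertToSum A i s x = Sum.inr ⟨x.1, mem_union_of_not_fiber A x h⟩ := by
  unfold insertToSum
  rw [dif_neg h]

/-- `X_i ⊕ X_s → X_{insert i s}`. -/
def sumToInsert [DecidableEq I] (i : I) (s : Finset I) :
    ({x // A i x} ⊕ {x // ∃ j ∈ s, A j x}) → {x // ∃ j ∈ insert i s, A j x}
  | Sum.inl y => ⟨y.1, i, Finset.mem_insert_self i s, y.2⟩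
  | Sum.inr y => ⟨y.1, by
      obtain ⟨j, hj, hjy⟩ := y.2
      exact ⟨j, Finset.mem_insert_of_mem hj, hjy⟩⟩

include hA in
/-- `X_{insert i s} ≃ X_i ⊕ X_s` for `i ∉ s`. -/
theorem exists_insert_equiv [DecidableEq I] (i : I) (s : Finset I) (hi : i ∉ s) :
    ∃ e : {x // ∃ j ∈ insert i s, A j x} ≃ ({x // A i x} ⊕ {x // ∃ j ∈ s, A j x}),
      ∀ x, e (unionMap A σ hσ (insert i s) x) =
        Sum.map (fiberMap A σ hσ i) (unionMap A σ hσ s) (e x) := by
  refine ⟨⟨insertToSum A i s, sumToInsert A i s, ?_, ?_⟩, ?_⟩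
  · intro x
    by_cases h : A i x.1
    · rw [insertToSum_of_pos A i s x h]
      rfl
    · rw [insertToSum_of_neg A i s x h]
      rfl
  · intro y
    rcases y with y | y
    · exact insertToSum_of_pos A i s _ y.2
    · exact insertToSum_of_neg A i s _ (not_fiber_of_mem_union A hA hi y)
  · intro x
    show insertToSum A i s (unionMap A σ hσ (insert i s) x) =
      Sum.map (fiberMap A σ hσ i) (unionMap A σ hσ s) (insertToSum A i s x)
    by_cases h : A i x.1
    · have h' : A i (unionMap A σ hσ (insert i s) x).1 := hσ i x.1 h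
      rw [insertToSum_of_pos A i s _ h', insertToSum_of_pos A i s x h]
      rfl
    · have h' : ¬ A i (unionMap A σ hσ (insert i s) x).1 := by
        intro hc
        obtain ⟨j, hj, hjx⟩ := mem_union_of_not_fiber A x h
        have hjσ : A j (σ x.1) := hσ j x.1 hjx
        have := hA i j (σ x.1) hc hjσ
        exact hi (this ▸ hj)
      rw [insertToSum_of_neg A i s _ h', insertToSum_of_neg A i s x h]
      rfl

include hA in
/-- The union of finitely many finite fibres is finite. -/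
theorem finite_union [∀ i, Finite {x // A i x}] (s : Finset I) :
    Finite {x // ∃ i ∈ s, A i x} := by
  classical
  induction s using Finset.induction_on with
  | empty =>
    haveI : IsEmpty {x // ∃ i ∈ (∅ : Finset I), A i x} := ⟨fun x => by
      obtain ⟨i, hi, _⟩ := x.2
      exact absurd hi (Finset.notMem_empty i)⟩
    infer_instance
  | insert i s hi ih =>
    haveI := ih
    obtain ⟨e, -⟩ := exists_insert_equiv A (id : X → X) (fun _ _ h => h) hA i s hi
    exact Finite.of_equiv _ e.symm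

include hA in
theorem permCharpoly_union_aux [DecidableEq I] [∀ i, Finite {x // A i x}] (s : Finset I) :
    ∀ hfin : Finite {x // ∃ i ∈ s, A i x},
      @permCharpoly k _ _ hfin (unionMap A σ hσ s) =
        ∏ i ∈ s, permCharpoly k (fiberMap A σ hσ i) := by
  classical
  induction s using Finset.induction_on with
  | empty =>
    intro hfin
    haveI : IsEmpty {x // ∃ i ∈ (∅ : Finset I), A i x} := ⟨fun x => by
      obtain ⟨i, hi, _⟩ := x.2
      exact absurd hi (Finset.notMem_empty i)⟩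
    rw [Finset.prod_empty]
    exact permCharpoly_of_isEmpty k _
  | insert i s hi ih =>
    intro hfin
    haveI : Finite {x // ∃ j ∈ s, A j x} := finite_union A hA s
    obtain ⟨e, he⟩ := exists_insert_equiv A σ hσ hA i s hi
    rw [Finset.prod_insert hi, ← ih inferInstance, ← permCharpoly_sum]
    exact permCharpoly_congr_equiv k e _ _ he

include hA in
/-- **`permCharpoly` of a disjoint union of fibres.** -/
theorem permCharpoly_union [DecidableEq I] [∀ i, Finite {x // A i x}] (s : Finset I)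
    [hfin : Finite {x // ∃ i ∈ s, A i x}] :
    permCharpoly k (unionMap A σ hσ s) = ∏ i ∈ s, permCharpoly k (fiberMap A σ hσ i) :=
  permCharpoly_union_aux k A σ hσ hA s hfin

end Fiber

end Fermat.Agent.S56.H419

end

end
-- ===== PACK-END S56/H419/H0Fiber.lean

-- ===== PACK-BEGIN S56/H419/H0CharpolyPlaces.lean
section



/-!
# S56 / W-BASE / leaf EUL-H0, part 8 (helper419): the characteristic polynomials of the
right translations in terms of places of the level field

`F/ℚ` a finite Galois level, `U = G_F`, `σ ∈ G_ℚ`, `τ = σ|_F = resF F σ`.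

* `permCharpoly_dcPerm_Dq` : `permCharpoly k (dcPerm D_q U σ)⁻¹ =
  permCharpoly k (τ⁻¹ | primes of 𝓞 F above q)`;
* `permCharpoly_dcPerm_Dinf` : `permCharpoly k (dcPerm ⟨c⟩ U σ)⁻¹ =
  permCharpoly k (τ⁻¹ | InfinitePlace F)`;
* `prod_permCharpoly_primesOver` : the product over `q ∈ S` is
  `permCharpoly k (τ⁻¹ | primes of 𝓞 F above S)`.
-/

set_option autoImplicit false
set_option linter.style.haveILetI false
set_option linter.unusedSectionVars false

noncomputable section

open scoped Pointwise NumberField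

namespace Fermat.Agent.S56.H419

open Fermat.Agent.S55.PT Fermat.Agent.S56.H614 ExtCitation MulAction NumberField Polynomial

section Primes

variable (F : IntermediateField ℚ (AlgebraicClosure ℚ))

/-- `P` is a prime of `𝓞 F` above the rational prime `q`. -/
def IsPrimeOver (q : Nat.Primes) (P : Ideal (𝓞 F)) : Prop :=
  P.IsPrime ∧ ((q : ℕ) : 𝓞 F) ∈ P

variable {F}

theorem smul_natCast_ringOfIntegers' (τ : F ≃ₐ[ℚ] F) (n : ℕ) : τ • (n : 𝓞 F) = (n : 𝓞 F) := by
  apply RingOfIntegers.ext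
  change τ ((n : 𝓞 F) : F) = ((n : 𝓞 F) : F)
  simp

theorem IsPrimeOver.smul (τ : F ≃ₐ[ℚ] F) {q : Nat.Primes} {P : Ideal (𝓞 F)}
    (h : IsPrimeOver F q P) : IsPrimeOver F q (τ • P) := by
  haveI := h.1
  refine ⟨inferInstance, ?_⟩
  rw [← smul_natCast_ringOfIntegers' τ q]
  exact Ideal.smul_mem_pointwise_smul τ _ _ h.2

/-- A prime of `𝓞 F` lies above at most one rational prime. -/
theorem IsPrimeOver.unique {q q' : Nat.Primes} {P : Ideal (𝓞 F)}
    (h : IsPrimeOver F q P) (h' : IsPrimeOver F q' P) : q = q' := by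
  by_contra hne
  have hcop : Nat.Coprime (q : ℕ) (q' : ℕ) := by
    rw [Nat.coprime_primes q.2 q'.2]
    intro hc
    exact hne (Subtype.ext hc)
  have h1 : ((Nat.gcdA q q' : ℤ) : 𝓞 F) * ((q : ℕ) : 𝓞 F) +
      ((Nat.gcdB q q' : ℤ) : 𝓞 F) * ((q' : ℕ) : 𝓞 F) = 1 := by
    have hb := Nat.gcd_eq_gcd_ab q q'
    rw [hcop] at hb
    have : ((1 : ℕ) : ℤ) = (q : ℕ) * Nat.gcdA q q' + (q' : ℕ) * Nat.gcdB q q' := hb
    have h2 := congrArg (fun z : ℤ => (z : 𝓞 F)) this
    simp only [Nat.cast_one, Int.cast_one, Int.cast_add, Int.cast_mul, Int.cast_natCast] at h2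
    rw [h2]
    ring
  have hmem : (1 : 𝓞 F) ∈ P := by
    rw [← h1]
    exact P.add_mem (P.mul_mem_left _ h.2) (P.mul_mem_left _ h'.2)
  exact h.1.ne_top ((Ideal.eq_top_iff_one P).2 hmem)

variable (F) [Normal ℚ F] [FiniteDimensional ℚ F]

/-- `D_q\G_ℚ/G_F ≃ {primes of 𝓞 F above q}` (restatement of `primeDCEquiv`). -/
def primeOverEquiv (q : Nat.Primes) :
    DC (Dq q) F.fixingSubgroup ≃ {P : Ideal (𝓞 F) // IsPrimeOver F q P} :=
  primeDCEquiv q F

@[simp] theorem coe_primeOverEquiv (q : Nat.Primes) (ω : DC (Dq q) F.fixingSubgroup) :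
    (primeOverEquiv F q ω : Ideal (𝓞 F)) = primeOfDC q F ω := rfl

instance finite_primeOver (q : Nat.Primes) : Finite {P : Ideal (𝓞 F) // IsPrimeOver F q P} :=
  Finite.of_equiv _ (primeOverEquiv F q)

variable (k : Type*) [Field k]

/-- The permutation `P ↦ τ • P` of all ideals, restricted to the primes above `q`. -/
abbrev primeOverMap (τ : F ≃ₐ[ℚ] F) (q : Nat.Primes) :
    {P : Ideal (𝓞 F) // IsPrimeOver F q P} → {P : Ideal (𝓞 F) // IsPrimeOver F q P} :=
  fiberMap (IsPrimeOver F) (fun P => τ • P) (fun _ _ h => h.smul τ) q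

/-- **Finite primes.** -/
theorem permCharpoly_dcPerm_Dq (q : Nat.Primes) (σ : _root_.Fermat.Agent.S55.PT.GQ) :
    permCharpoly k (dcPerm (Dq q) F.fixingSubgroup σ).symm =
      permCharpoly k (primeOverMap F (resF F σ)⁻¹ q) := by
  refine permCharpoly_congr_equiv k (primeOverEquiv F q) _ _ ?_
  intro ω
  apply Subtype.ext
  have h : (dcPerm (Dq q) F.fixingSubgroup σ).symm ω = dcPerm (Dq q) F.fixingSubgroup σ⁻¹ ω := by
    rw [Equiv.symm_apply_eq, ← Equiv.Perm.mul_apply, ← dcPerm_mul, mul_inv_cancel, dcPerm_one]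
    rfl
  rw [h, coe_primeOverEquiv, primeOfDC_dcPerm, map_inv]
  rfl

/-- **Product over `S`.** -/
theorem prod_permCharpoly_primesOver (S : Finset Nat.Primes) (τ : F ≃ₐ[ℚ] F)
    [Finite {P : Ideal (𝓞 F) // ∃ q ∈ S, IsPrimeOver F q P}] :
    ∏ q ∈ S, permCharpoly k (primeOverMap F τ q) =
      permCharpoly k (unionMap (IsPrimeOver F) (fun P => τ • P) (fun _ _ h => h.smul τ) S) := by
  classical
  exact (permCharpoly_union k (IsPrimeOver F) (fun P => τ • P) (fun _ _ h => h.smul τ)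
    (fun _ _ _ h h' => h.unique h') S).symm

instance finite_primesOverS (S : Finset Nat.Primes) :
    Finite {P : Ideal (𝓞 F) // ∃ q ∈ S, IsPrimeOver F q P} :=
  finite_union (IsPrimeOver F) (fun _ _ _ h h' => h.unique h') S

end Primes

section Infinite

variable (F : IntermediateField ℚ (AlgebraicClosure ℚ)) [Normal ℚ F] [FiniteDimensional ℚ F]
  (k : Type*) [Field k]

instance finite_infinitePlace : Finite (InfinitePlace F) :=
  Finite.of_equiv _ (placeDCEquiv F)

/-- **Infinite places.** -/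
theorem permCharpoly_dcPerm_Dinf (σ : _root_.Fermat.Agent.S55.PT.GQ) :
    permCharpoly k (dcPerm Dinf F.fixingSubgroup σ).symm =
      permCharpoly k (fun w : InfinitePlace F => (resF F σ)⁻¹ • w) := by
  refine permCharpoly_congr_equiv k (placeDCEquiv F) _ _ ?_
  intro ω
  have h : (dcPerm Dinf F.fixingSubgroup σ).symm ω = dcPerm Dinf F.fixingSubgroup σ⁻¹ ω := by
    rw [Equiv.symm_apply_eq, ← Equiv.Perm.mul_apply, ← dcPerm_mul, mul_inv_cancel, dcPerm_one]
    rfl
  rw [h, placeDCEquiv_apply, placeOfDC_dcPerm, map_inv]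
  rfl

end Infinite

end Fermat.Agent.S56.H419

end

end
-- ===== PACK-END S56/H419/H0CharpolyPlaces.lean

-- ===== PACK-BEGIN S55/K/FinH541.lean
section
/-
S55 moonshot — LAYER K, leaf K-FIN (helper541).

`finE_of : KummerSpec p S → FinESpec p S`

Route (no Dirichlet unit theorem, no class group): Kummer theory + finiteness of `Z¹_S(Ind_V μ_p)`
(`PT.H593.finite_Z1`, unconditional on main).  `M = Ind_V μ ⊂ E = Ind_V 𝔼`, `ι = indMuToE`.

* Part 2 (`H¹_S(E)[p]` finite): `z ∈ Z¹_LC(E)`, `p z = d e` ⇒ `e` is smooth ⇒ (KUM) `e = p ẽ` ⇒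
  `z - d ẽ` is killed by `p`, hence `= ι ∘ c` with `c ∈ Z¹_LC(M)`;  `T := {ι ∘ c}`.
* Part 1 (`E^Γ / p` finite): `e ∈ E^Γ` ⇒ (KUM) `e = p ỹ` ⇒ `d ỹ = ι ∘ c`, `c ∈ Z¹_LC(M)`; two
  invariants with the same `c` differ by `p ·` (an invariant);  `T := {p ỹ_c}`.
-/




set_option autoImplicit false
set_option linter.style.haveILetI false

noncomputable section

namespace Fermat.Agent.S55.K.H541

open groupCohomology Fermat.Agent.S55.PT Fermat.Agent.S55.Bridge Fermat.Agent.S55.K

/-! ### 1. Abstract part -/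

section Abstract

variable {G : Type} [Group G] {L : LevelSys G}
variable {k k' : Type} [CommRing k] [CommRing k']
variable {M : Rep.{0, 0, 0} k G} {E : Rep.{0, 0, 0} k' G}

/-- `d e` is level-constant if `e` is fixed by a level. -/
lemma d01_isLC (e : E) (he : H397.Sm L E e) : L.IsLC₁ ((d₀₁ E).hom e) := by
  obtain ⟨W, hW, h⟩ := he
  refine ⟨W, hW, fun g s hs => ?_⟩
  simp only [d₀₁_hom_apply]
  rw [map_mul, Module.End.mul_apply, h s hs]

/-- `d e` is a cocycle. -/
lemma d01_mem_cocycles₁ (e : E) : (d₀₁ E).hom e ∈ cocycles₁ E := by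
  rw [mem_cocycles₁_iff]
  intro g h
  simp only [d₀₁_hom_apply, map_mul, Module.End.mul_apply, map_sub]
  abel

/-- A level-constant cocycle of `E` killed by `p` comes from a level-constant cocycle of `M`. -/
lemma exists_lift_Z1 (p : ℕ) (ι : M →+ E) (hinj : Function.Injective ι)
    (heq : ∀ g m, ι (M.ρ g m) = E.ρ g (ι m))
    (htors : ∀ e : E, p • e = 0 → ∃ m, ι m = e)
    (κ : G → E) (hκ : κ ∈ cocycles₁ E) (hlc : L.IsLC₁ κ) (hp : ∀ g, p • κ g = 0) :
    ∃ c : ↥(L.Z1 M), ∀ g, ι ((c : G → M) g) = κ g := by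
  choose m hm using fun g => htors (κ g) (hp g)
  have hcoc : m ∈ cocycles₁ M := by
    rw [mem_cocycles₁_iff]
    intro g h
    apply hinj
    rw [map_add, heq, hm, hm, hm]
    exact (mem_cocycles₁_iff κ).1 hκ g h
  have hmlc : L.IsLC₁ m := by
    obtain ⟨U, hU, h⟩ := hlc
    refine ⟨U, hU, fun g s hs => ?_⟩
    apply hinj
    rw [hm, hm, h g s hs]
  exact ⟨⟨m, hcoc, hmlc⟩, hm⟩

/-- **Abstract K-FIN.** -/
theorem finE_abstract (p : ℕ) (ι : M →+ E) (hinj : Function.Injective ι)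
    (heq : ∀ g m, ι (M.ρ g m) = E.ρ g (ι m))
    (htors : ∀ e : E, p • e = 0 → ∃ m, ι m = e)
    (hkum : ∀ x : E, H397.Sm L E x → ∃ y : E, p • y = x ∧ H397.Sm L E y)
    (hfin : Finite ↥(L.Z1 M)) :
    (∃ T : Finset E, ∀ e : E, (∀ g : G, E.ρ g e = e) →
        ∃ e' : E, (∀ g : G, E.ρ g e' = e') ∧ e - p • e' ∈ T) ∧
    (∃ T : Finset (G → E), ∀ z ∈ L.Z1 E, p • z ∈ LevelSys.B1 E →
        ∃ t ∈ T, z - t ∈ LevelSys.B1 E) := by
  classical
  haveI := hfin
  letI : Fintype ↥(L.Z1 M) := Fintype.ofFinite _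
  constructor
  · -- Part 1
    let P : ↥(L.Z1 M) → Prop := fun c => ∃ y : E, ∀ g, ι ((c : G → M) g) = E.ρ g y - y
    let Y : ↥(L.Z1 M) → E := fun c => if h : P c then Classical.choose h else 0
    have hY : ∀ c, P c → ∀ g, ι ((c : G → M) g) = E.ρ g (Y c) - Y c := by
      intro c hc
      have : Y c = Classical.choose hc := dif_pos hc
      rw [this]
      exact Classical.choose_spec hc
    refine ⟨Finset.univ.image (fun c => p • Y c), fun e he => ?_⟩
    obtain ⟨U, hU⟩ := L.nonempty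
    obtain ⟨y, hy, hysm⟩ := hkum e ⟨U, hU, fun s _ => he s⟩
    obtain ⟨c, hc⟩ := exists_lift_Z1 (L := L) p ι hinj heq htors ((d₀₁ E).hom y)
      (d01_mem_cocycles₁ y) (d01_isLC y hysm) (fun g => by
        simp only [d₀₁_hom_apply]
        rw [smul_sub, ← map_nsmul, hy, he g, sub_self])
    have hPc : P c := ⟨y, fun g => by rw [hc g, d₀₁_hom_apply]⟩
    refine ⟨y - Y c, fun g => ?_, ?_⟩
    · have h1 := hY c hPc g
      have h2 := hc g
      rw [d₀₁_hom_apply] at h2
      have h3 : E.ρ g y - y = E.ρ g (Y c) - Y c := by rw [← h2, h1]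
      rw [map_sub]
      have h4 : E.ρ g y - E.ρ g (Y c) - (y - Y c) = 0 := by
        have : E.ρ g y - E.ρ g (Y c) - (y - Y c) = (E.ρ g y - y) - (E.ρ g (Y c) - Y c) := by abel
        rw [this, h3, sub_self]
      exact sub_eq_zero.1 h4
    · have h5 : e - p • (y - Y c) = p • Y c := by
        rw [smul_sub, hy]
        abel
      rw [h5]
      exact Finset.mem_image_of_mem _ (Finset.mem_univ c)
  · -- Part 2
    refine ⟨Finset.univ.image (fun c : ↥(L.Z1 M) => (fun g => ι ((c : G → M) g))),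
      fun z hz hpz => ?_⟩
    obtain ⟨e, he⟩ := hpz
    have hzc : z ∈ cocycles₁ E := hz.1
    have hzlc : L.IsLC₁ z := hz.2
    have hz1 : z 1 = 0 := by
      have h := (mem_cocycles₁_iff z).1 hzc 1 1
      simpa using h
    have hesm : H397.Sm L E e := by
      obtain ⟨U, hU, h⟩ := hzlc
      refine ⟨U, hU, fun s hs => ?_⟩
      have h1 : z s = 0 := by
        have := h 1 s hs
        rwa [one_mul, hz1] at this
      have h2 := congrFun he s
      rw [d₀₁_hom_apply, Pi.smul_apply, h1, smul_zero] at h2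
      exact sub_eq_zero.1 h2
    obtain ⟨y, hy, hysm⟩ := hkum e hesm
    have hκc : z - (d₀₁ E).hom y ∈ cocycles₁ E :=
      Submodule.sub_mem _ hzc (d01_mem_cocycles₁ y)
    have hκlc : L.IsLC₁ (z - (d₀₁ E).hom y) :=
      (L.C1 E).sub_mem hzlc (d01_isLC y hysm)
    obtain ⟨c, hc⟩ := exists_lift_Z1 (L := L) p ι hinj heq htors (z - (d₀₁ E).hom y) hκc hκlc
      (fun g => by
        have h2 := congrFun he g
        rw [d₀₁_hom_apply, Pi.smul_apply] at h2
        simp only [Pi.sub_apply, d₀₁_hom_apply]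
        rw [smul_sub, ← h2, smul_sub, ← map_nsmul, hy, sub_self])
    refine ⟨fun g => ι ((c : G → M) g), Finset.mem_image_of_mem _ (Finset.mem_univ c), ?_⟩
    refine ⟨y, ?_⟩
    funext g
    rw [Pi.sub_apply, hc g, Pi.sub_apply]
    abel

end Abstract

/-! ### 2. The instance `M = Ind_V μ_p`, `E = Ind_V 𝔼` -/

section Final

variable (p : ℕ) [Fact p.Prime] (S : Finset Nat.Primes)

/-- `Ind_V μ_p` is finite-dimensional for a level `V`. -/
lemma finiteDimensional_indMu {V : Subgroup PT.GQ} (hV : V ∈ (globalLevels S).levels) :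
    FiniteDimensional (ZMod p) (indG V (muP p)) := by
  haveI : V.FiniteIndex := H424.globalFiniteIndex S V hV
  haveI : Finite (PT.GQ ⧸ V) := Subgroup.finite_quotient_of_finiteIndex
  haveI : Module.Finite (ZMod p) (MuP p) := Module.Finite.of_finite
  show Module.Finite (ZMod p) ((PT.GQ ⧸ V) →₀ MuP p)
  infer_instance

/-- `Ind_V μ_p` is fixed by an `S`-level if `p ∈ S`. -/
lemma isUSmooth_indMu (hpS : ExtCitation.pPrime p ∈ S) {V : Subgroup PT.GQ}
    (hV : V ∈ (globalLevels S).levels) : (globalLevels S).IsUSmooth (indG V (muP p)) := by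
  obtain ⟨W, hW, hfix⟩ := PT.H723.cycloLevelSpec p S hpS
  obtain ⟨U₁, hU₁, hle₁⟩ := (globalLevels S).directed W hW V hV
  obtain ⟨U, hU, hle, hn⟩ := globalLevels_normal_cofinal724 S U₁ hU₁
  refine ⟨U, hU, fun s hs a => ?_⟩
  have htriv : ∀ c : PT.GQ ⧸ V, s • c = c :=
    H397.smul_coset_of_normal hn (fun t ht => (hle₁ (hle ht)).2) s hs
  have key : ∀ b : MuP p, muPRep p s b = b := fun b => by
    rw [muPRep_apply_smul, hfix s (hle₁ (hle hs)).1, Units.val_one, one_smul]
  obtain ⟨a', ha'⟩ : ∃ a' : (PT.GQ ⧸ V) →₀ MuP p, a' = a := ⟨a, rfl⟩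
  show indρ (MonoidHom.id PT.GQ) V (muP p) s a = a
  rw [H397.indρ_of_trivial (muP p) V s htriv, ← ha']
  refine Finsupp.ext fun c => ?_
  rw [Finsupp.mapRange_apply]
  exact key (a' c)

/-- **Leaf K-FIN.** `𝒪_{K_V,S}ˣ/p` and `Cl_S(K_V)[p]` are finite (cochain form), from KUM. -/
theorem finE_of (hK : KummerSpec p S) : FinESpec p S := by
  intro hpS V hV
  have hN : (globalLevels S).NormalCofinal := globalLevels_normal_cofinal724 S
  haveI := finiteDimensional_indMu p S hV
  have hfin : Finite ↥((globalLevels S).Z1 (indG V (muP p))) :=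
    PT.H593.finite_Z1 p S (indG V (muP p)) (isUSmooth_indMu p S hpS hV)
  obtain ⟨⟨T₁, h₁⟩, ⟨T₂, h₂⟩⟩ := finE_abstract (L := globalLevels S) p (indMuToE p S V)
    (H397.indMuToE_injective p S V) (H397.indMuToE_equivariant p S V)
    (H397.indMuToE_tors p S V)
    (H397.kummer_ind (sUnits S) hN p (fun x hx => hK hpS x hx) hV) hfin
  refine ⟨⟨T₁, fun e he => ?_⟩, ⟨T₂, fun z hz hpz => ?_⟩⟩
  · obtain ⟨e', he', hmem⟩ := h₁ e he
    exact ⟨e', he', Submodule.subset_span hmem⟩
  · obtain ⟨t, ht, hzt⟩ := h₂ z hz hpz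
    exact ⟨t, Submodule.subset_span ht, hzt⟩

end Final

end Fermat.Agent.S55.K.H541

end
end
-- ===== PACK-END S55/K/FinH541.lean

-- ===== PACK-BEGIN S56/Euler/H184/KumAbs.lean
section
/-
S56 / W-BASE / Euler characteristic, leaf EUL-KUM (helper184), part 1: the ABSTRACT Kummer model.

`L` a level system on a group `G`; `M` a representation over a field `k`, `E` a representation
over a commutative ring `k'` (think `M = Ind_U μ_p`, `E = Ind_U 𝔼`), `ι : M →+ E` an injective
equivariant additive map whose image is the `p`-torsion of `E`, `p • M = 0`, and the smooth part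
of `E` is `p`-divisible (KUM).  Then the connecting map of `0 → M → E → E`

  `kumDelta : E^G →+ H¹_L(M)`,   `e ↦ [c]`,  `ι ∘ c = d y`,  `p • y = e`, `y` smooth,

* is well defined and additive (`kumDelta_eq`),
* has kernel `p • E^G` (`kumDelta_eq_zero_iff`),
* is onto as soon as `H¹_L(E)[p] = 0` in cochain form (`kumDelta_surjective`),
* is natural for every pair of equivariant endomorphisms `(R_M, R_E)` compatible with `ι`
  (`kumDelta_natural`).
-/


set_option autoImplicit false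
set_option linter.unusedSectionVars false
set_option linter.style.haveILetI false

noncomputable section

namespace Fermat.Agent.S56.Euler.H184

open groupCohomology Fermat.Agent.S55.PT Fermat.Agent.S55.K

section Abstract

variable {G : Type} [Group G] (L : LevelSys G)
variable {k k' : Type} [Field k] [CommRing k']
variable {M : Rep.{0, 0, 0} k G} {E : Rep.{0, 0, 0} k' G}
variable (p : ℕ) (ι : M →+ E)

/-- The hypotheses of the abstract Kummer sequence `0 → M → E → E` (multiplication by `p`),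
on the smooth parts. -/
structure IsKummerSeq : Prop where
  inj : Function.Injective ι
  equi : ∀ g m, ι (M.ρ g m) = E.ρ g (ι m)
  tors : ∀ e : E, p • e = 0 → ∃ m, ι m = e
  kum : ∀ x : E, H397.Sm L E x → ∃ y : E, p • y = x ∧ H397.Sm L E y
  killed : ∀ m : M, p • m = 0

variable {L p ι}

/-- An invariant is smooth. -/
lemma sm_of_invariant (e : E) (he : ∀ g : G, E.ρ g e = e) : H397.Sm L E e := by
  obtain ⟨U, hU⟩ := L.nonempty
  exact ⟨U, hU, fun s _ => he s⟩

lemma nsmul_d₀₁ (y : E) (g : G) : p • ((d₀₁ E).hom y g) = (d₀₁ E).hom (p • y) g := by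
  simp only [d₀₁_hom_apply]
  rw [smul_sub, ← map_nsmul]

/-- Existence of a Kummer cocycle of an invariant. -/
lemma IsKummerSeq.exists_cocycle (h : IsKummerSeq L p ι) (e : E) (he : ∀ g : G, E.ρ g e = e) :
    ∃ (y : E) (c : ↥(L.Z1 M)), p • y = e ∧ H397.Sm L E y ∧
      ∀ g, ι ((c : G → M) g) = (d₀₁ E).hom y g := by
  obtain ⟨y, hy, hysm⟩ := h.kum e (sm_of_invariant e he)
  obtain ⟨c, hc⟩ := H541.exists_lift_Z1 (L := L) p ι h.inj h.equi h.tors ((d₀₁ E).hom y)
    (H541.d01_mem_cocycles₁ y) (H541.d01_isLC y hysm) (fun g => by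
      rw [nsmul_d₀₁, hy, d₀₁_hom_apply, he g, sub_self])
  exact ⟨y, c, hy, hysm, hc⟩

/-- Two Kummer cocycles of the same invariant are cohomologous. -/
lemma IsKummerSeq.cocycle_unique (h : IsKummerSeq L p ι) {y y' : E} {c c' : ↥(L.Z1 M)}
    (hy : p • y = p • y') (hc : ∀ g, ι ((c : G → M) g) = (d₀₁ E).hom y g)
    (hc' : ∀ g, ι ((c' : G → M) g) = (d₀₁ E).hom y' g) :
    L.H1π M c = L.H1π M c' := by
  obtain ⟨m, hm⟩ := h.tors (y - y') (by rw [smul_sub, hy, sub_self])
  have hsub : L.H1π M (c - c') = 0 := by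
    rw [LevelSys.H1π_eq_zero_iff]
    refine ⟨m, ?_⟩
    funext g
    apply h.inj
    have h1 : ((c - c' : ↥(L.Z1 M)) : G → M) g = (c : G → M) g - (c' : G → M) g := rfl
    rw [h1, map_sub, hc g, hc' g, d₀₁_hom_apply, map_sub, h.equi, hm]
    simp only [d₀₁_hom_apply, map_sub]
    abel
  rw [map_sub, sub_eq_zero] at hsub
  exact hsub

variable (L p ι)

/-- The Kummer class of an invariant (junk value `0` outside the hypotheses). -/
def kumClass (h : IsKummerSeq L p ι) (e : ↥(LevelSys.H0 E)) : L.H1 M :=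
  L.H1π M (Classical.choose (Classical.choose_spec (h.exists_cocycle e.1 e.2)))

variable {L p ι}

/-- Characterisation of the Kummer class. -/
theorem kumClass_eq (h : IsKummerSeq L p ι) (e : ↥(LevelSys.H0 E)) (y : E) (c : ↥(L.Z1 M))
    (hy : p • y = e.1) (hc : ∀ g, ι ((c : G → M) g) = (d₀₁ E).hom y g) :
    kumClass L p ι h e = L.H1π M c := by
  have hs := Classical.choose_spec (Classical.choose_spec (h.exists_cocycle e.1 e.2))
  exact h.cocycle_unique (hs.1.trans hy.symm) hs.2.2 hc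

variable (L p ι)

/-- **The Kummer map** `E^G →+ H¹_L(M)`. -/
def kumDelta (h : IsKummerSeq L p ι) : ↥(LevelSys.H0 E) →+ L.H1 M where
  toFun := kumClass L p ι h
  map_zero' := by
    have h0 : ∀ g, ι (((0 : ↥(L.Z1 M)) : G → M) g) = (d₀₁ E).hom (0 : E) g := by
      intro g
      simp
    rw [kumClass_eq h 0 0 0 (by simp) h0, map_zero]
  map_add' := by
    intro e e'
    obtain ⟨y, c, hy, -, hc⟩ := h.exists_cocycle e.1 e.2
    obtain ⟨y', c', hy', -, hc'⟩ := h.exists_cocycle e'.1 e'.2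
    rw [kumClass_eq h e y c hy hc, kumClass_eq h e' y' c' hy' hc',
      kumClass_eq h (e + e') (y + y') (c + c') (by rw [smul_add, hy, hy']; rfl) (by
        intro g
        have h1 : ((c + c' : ↥(L.Z1 M)) : G → M) g = (c : G → M) g + (c' : G → M) g := rfl
        rw [h1, map_add, hc g, hc' g]
        simp only [d₀₁_hom_apply, map_add]
        abel), map_add]

variable {L p ι}

theorem kumDelta_eq (h : IsKummerSeq L p ι) (e : ↥(LevelSys.H0 E)) (y : E) (c : ↥(L.Z1 M))
    (hy : p • y = e.1) (hc : ∀ g, ι ((c : G → M) g) = (d₀₁ E).hom y g) :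
    kumDelta L p ι h e = L.H1π M c :=
  kumClass_eq h e y c hy hc

/-- **Kernel of the Kummer map**: `p • E^G`. -/
theorem kumDelta_eq_zero_iff (h : IsKummerSeq L p ι) (e : ↥(LevelSys.H0 E)) :
    kumDelta L p ι h e = 0 ↔ ∃ e' : ↥(LevelSys.H0 E), e = p • e' := by
  constructor
  · intro h0
    obtain ⟨y, c, hy, -, hc⟩ := h.exists_cocycle e.1 e.2
    rw [kumDelta_eq h e y c hy hc, LevelSys.H1π_eq_zero_iff] at h0
    obtain ⟨m, hm⟩ := h0
    have hinv : ∀ g : G, E.ρ g (y - ι m) = y - ι m := by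
      intro g
      have h1 := hc g
      rw [← hm] at h1
      simp only [d₀₁_hom_apply] at h1
      rw [map_sub, h.equi] at h1
      rw [map_sub]
      have h2 : E.ρ g y - E.ρ g (ι m) - (y - ι m) = (E.ρ g y - y) - (E.ρ g (ι m) - ι m) := by
        abel
      exact sub_eq_zero.1 (by rw [h2, h1, sub_self])
    refine ⟨⟨y - ι m, hinv⟩, Subtype.ext ?_⟩
    show e.1 = p • (y - ι m)
    rw [smul_sub, hy, ← map_nsmul, h.killed m, map_zero, sub_zero]
  · rintro ⟨e', rfl⟩
    have h0 : ∀ g, ι (((0 : ↥(L.Z1 M)) : G → M) g) = (d₀₁ E).hom e'.1 g := by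
      intro g
      simp only [d₀₁_hom_apply]
      rw [e'.2 g, sub_self]
      simp
    rw [kumDelta_eq h (p • e') e'.1 0 rfl h0, map_zero]

/-- **Image of the Kummer map**: the classes which die in `H¹_L(E)`. -/
theorem mem_range_kumDelta_iff (h : IsKummerSeq L p ι) (c : ↥(L.Z1 M)) :
    L.H1π M c ∈ Set.range (kumDelta L p ι h) ↔
      (fun g => ι ((c : G → M) g)) ∈ LevelSys.B1 E := by
  constructor
  · rintro ⟨e, he⟩
    obtain ⟨y, c', hy, -, hc'⟩ := h.exists_cocycle e.1 e.2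
    rw [kumDelta_eq h e y c' hy hc'] at he
    have hsub : L.H1π M (c' - c) = 0 := by rw [map_sub, he, sub_self]
    rw [LevelSys.H1π_eq_zero_iff] at hsub
    obtain ⟨m, hm⟩ := hsub
    refine ⟨y - ι m, ?_⟩
    funext g
    have h1 := congrFun hm g
    have h2 : ((c' - c : ↥(L.Z1 M)) : G → M) g = (c' : G → M) g - (c : G → M) g := rfl
    rw [h2] at h1
    have h3 : (c : G → M) g = (c' : G → M) g - (d₀₁ M).hom m g := by rw [h1]; abel
    show (d₀₁ E).hom (y - ι m) g = ι ((c : G → M) g)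
    have h4 : ι ((c : G → M) g) = ι ((c' : G → M) g) - ι ((d₀₁ M).hom m g) := by
      rw [h3, map_sub]
    rw [h4, hc' g]
    simp only [d₀₁_hom_apply, map_sub, h.equi]
    abel
  · rintro ⟨y, hy⟩
    have hyc : ∀ g, ι ((c : G → M) g) = (d₀₁ E).hom y g := fun g => (congrFun hy g).symm
    have hinv : ∀ g : G, E.ρ g (p • y) = p • y := by
      intro g
      have h1 : (d₀₁ E).hom (p • y) g = 0 := by
        rw [← nsmul_d₀₁, ← hyc g, ← map_nsmul, h.killed, map_zero]
      simp only [d₀₁_hom_apply] at h1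
      exact sub_eq_zero.1 h1
    exact ⟨⟨p • y, hinv⟩, kumDelta_eq h ⟨p • y, hinv⟩ y c rfl hyc⟩

/-- **Surjectivity of the Kummer map** when `H¹_L(E)` has no `p`-torsion (cochain form). -/
theorem kumDelta_surjective (h : IsKummerSeq L p ι)
    (hcl : ∀ z ∈ L.Z1 E, p • z ∈ LevelSys.B1 E → z ∈ LevelSys.B1 E) :
    Function.Surjective (kumDelta L p ι h) := by
  intro x
  obtain ⟨c, rfl⟩ := L.H1π_surjective M x
  refine (mem_range_kumDelta_iff h c).2 (hcl _ ?_ ?_)
  · refine ⟨?_, ?_⟩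
    · refine (mem_cocycles₁_iff (fun g => ι ((c : G → M) g))).2 fun g g' => ?_
      have h1 := (mem_cocycles₁_iff (c : G → M)).1 c.2.1 g g'
      show ι ((c : G → M) (g * g')) = E.ρ g (ι ((c : G → M) g')) + ι ((c : G → M) g)
      rw [h1, map_add, h.equi]
    · exact LevelSys.IsLC₁.comp c.2.2 ι
  · refine ⟨0, ?_⟩
    funext g
    show (d₀₁ E).hom 0 g = p • ι ((c : G → M) g)
    rw [← map_nsmul, h.killed, map_zero, map_zero]
    rfl

/-- **Naturality of the Kummer map** for a compatible pair of equivariant endomorphisms. -/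
theorem kumDelta_natural (h : IsKummerSeq L p ι) (RM : M →ₗ[k] M) (hRM : IsEquivariant RM)
    (RE : E →+ E) (hRE : ∀ g e, RE (E.ρ g e) = E.ρ g (RE e)) (hcomp : ∀ m, ι (RM m) = RE (ι m))
    (e e' : ↥(LevelSys.H0 E)) (he : e'.1 = RE e.1) :
    kumDelta L p ι h e' = pushH1 RM hRM L (kumDelta L p ι h e) := by
  obtain ⟨y, c, hy, -, hc⟩ := h.exists_cocycle e.1 e.2
  rw [kumDelta_eq h e y c hy hc, pushH1_mk]
  refine kumDelta_eq h e' (RE y) _ (by rw [← map_nsmul, hy, he]) ?_
  intro g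
  rw [coe_pushZ1, Function.comp_apply, hcomp, hc g]
  simp only [d₀₁_hom_apply, map_sub, hRE]

end Abstract

end Fermat.Agent.S56.Euler.H184

end

end
-- ===== PACK-END S56/Euler/H184/KumAbs.lean

-- ===== PACK-BEGIN S56/FO/H6/Struct.lean
section




/-!
# S56 / FLAT-O / STRUCT (helper6): the ordinary line of a flat lift, reducible case

`k` finite of characteristic `p` odd, `ρ̄` with cyclotomic determinant and a `D_P`-stable line,
`ρ'` a lift of `ρ̄` to `k[ε]` (`H716.IsLiftOf ρbar c ρ'`) which is FLAT at `p`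
(Prelude `IsFlatAt`).  Then (`flatOrdLine`) `ρ'` is ORDINARY at `P` in the Prelude's sense:
there is a basis `b` of `ρ'.V` over `k[ε]` such that the line `L = k[ε] ∙ b 0` is `D_P`-stable and
the inertia group `I_P` acts trivially on `ρ'.V / L`.   (`L` is the inertia augmentation.)

Steps (doc `coord/S56-FLAT-O-CE-helper6.md` §3):
* Part A: Hopf lattices on `X = k[ε] ⊗ V` (action `liftEnd`) and on `V` (pullback along `v ↦ ε ⊗ v`).
* Part B (S1): the inertia augmentation of `V` is a line      [FI + FT + TAMEFROB + det].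
* Part C (S2): the inertia augmentation of `X` is `k[ε] ∙ n₀`, `n₀ ∉ εX`     [relative CE].
* Part D: the basis.
-/

set_option autoImplicit false
set_option linter.style.haveILetI false
set_option linter.unusedSectionVars false

open scoped TensorProduct

noncomputable section

namespace Fermat.Agent.S56.FO.H6

open Fermat.Agent.S56 Fermat.Agent.S56.H716 Fermat.Agent.S56.H656

/-! ## The inertia augmentation -/

/-- The subgroup generated by the `act σ y - y`, `σ ∈ I_P`. -/
def augGroup (P : ValuationSubring Qb) {X : Type*} [AddCommGroup X] (act : GQ → X → X) :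
    AddSubgroup X :=
  AddSubgroup.closure {z : X | ∃ σ ∈ P.inertiaSubgroupIn ℚ, ∃ y : X, z = act σ y - y}

theorem sub_mem_augGroup (P : ValuationSubring Qb) {X : Type*} [AddCommGroup X]
    (act : GQ → X → X) {σ : GQ} (hσ : σ ∈ P.inertiaSubgroupIn ℚ) (y : X) :
    act σ y - y ∈ augGroup P act :=
  AddSubgroup.subset_closure ⟨σ, hσ, y, rfl⟩

section linear

variable {R : Type*} [Ring R] {X : Type*} [AddCommGroup X] [Module R X]
  (P : ValuationSubring Qb) (T : GQ →* Module.End R X)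

/-- The augmentation is stable under the scalars commuting with the action. -/
theorem smul_mem_augGroup (a : R) {x : X} (hx : x ∈ augGroup P (fun σ y => T σ y)) :
    a • x ∈ augGroup P (fun σ y => T σ y) := by
  induction hx using AddSubgroup.closure_induction with
  | mem z hz =>
    obtain ⟨σ, hσ, y, rfl⟩ := hz
    have : a • (T σ y - y) = T σ (a • y) - a • y := by rw [smul_sub, map_smul]
    rw [this]
    exact sub_mem_augGroup P _ hσ _
  | zero => rw [smul_zero]; exact AddSubgroup.zero_mem _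
  | add x y _ _ hx hy => rw [smul_add]; exact AddSubgroup.add_mem _ hx hy
  | neg x _ hx => rw [smul_neg]; exact AddSubgroup.neg_mem _ hx

/-- The augmentation is stable under the decomposition group. -/
theorem map_mem_augGroup {g : GQ} (hg : g ∈ P.decompositionSubgroup ℚ) {x : X}
    (hx : x ∈ augGroup P (fun σ y => T σ y)) : T g x ∈ augGroup P (fun σ y => T σ y) := by
  induction hx using AddSubgroup.closure_induction with
  | mem z hz =>
    obtain ⟨σ, hσ, y, rfl⟩ := hz
    have hconj : g * σ * g⁻¹ ∈ P.inertiaSubgroupIn ℚ := by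
      obtain ⟨σ', hσ', rfl⟩ := hσ
      have hn : (P.inertiaSubgroup ℚ).Normal := MonoidHom.normal_ker _
      have h := hn.conj_mem σ' hσ' ⟨g, hg⟩
      exact Subgroup.mem_map_of_mem (P.decompositionSubgroup ℚ).subtype h
    have : T g (T σ y - y) = T (g * σ * g⁻¹) (T g y) - T g y := by
      rw [map_sub]
      congr 1
      rw [← Module.End.mul_apply, ← Module.End.mul_apply, ← map_mul, ← map_mul]
      congr 2
      group
    rw [this]
    exact sub_mem_augGroup P _ hconj _
  | zero => rw [map_zero]; exact AddSubgroup.zero_mem _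
  | add x y _ _ hx hy => rw [map_add]; exact AddSubgroup.add_mem _ hx hy
  | neg x _ hx => rw [map_neg]; exact AddSubgroup.neg_mem _ hx

/-- The augmentation as a submodule. -/
def augSub : Submodule R X where
  carrier := augGroup P (fun σ y => T σ y)
  add_mem' := fun ha hb => AddSubgroup.add_mem _ ha hb
  zero_mem' := AddSubgroup.zero_mem _
  smul_mem' := fun a _ hx => smul_mem_augGroup P T a hx

theorem mem_augSub {x : X} : x ∈ augSub P T ↔ x ∈ augGroup P (fun σ y => T σ y) := Iff.rfl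

end linear

/-! ## Small lemmas -/

/-- An element of a field of characteristic `p` fixed by Frobenius is a natural number. -/
theorem exists_natCast_of_pow_eq_self {k : Type*} [Field k] (p : ℕ) [Fact p.Prime] [CharP k p]
    {x : k} (h : x ^ p = x) : ∃ n : ℕ, x = (n : k) := by
  rw [← Subfield.mem_bot_iff_pow_eq_self k p] at h
  obtain ⟨z, hz⟩ := (mem_bot_iff_intCast p k).mp h
  refine ⟨((z : ZMod p)).val, ?_⟩
  rw [← hz]
  have h1 : ((ZMod.castHom (dvd_refl p) k) (z : ZMod p)) = (z : k) := map_intCast _ z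
  rw [← h1, ZMod.castHom_apply, ZMod.natCast_val]

/-- In a `2`-dimensional space, a subspace which is neither `⊥` nor `⊤` is a line. -/
theorem exists_eq_smul_of_ne_bot_of_ne_top {k : Type*} [Field k] {V : Type*} [AddCommGroup V]
    [Module k V] (h2 : Module.finrank k V = 2) (U : Submodule k V) (h0 : U ≠ ⊥) (h1 : U ≠ ⊤) :
    ∃ l₀ : V, l₀ ≠ 0 ∧ l₀ ∈ U ∧ ∀ z ∈ U, ∃ t : k, z = t • l₀ := by
  haveI : Module.Finite k V := Module.finite_of_finrank_eq_succ h2
  have hle : Module.finrank k U ≤ 2 := h2 ▸ Submodule.finrank_le U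
  have hne0 : Module.finrank k U ≠ 0 := fun h => h0 (Submodule.finrank_eq_zero.mp h)
  have hne2 : Module.finrank k U ≠ 2 := fun h =>
    h1 (Submodule.eq_top_of_finrank_eq (h.trans h2.symm))
  have hone : Module.finrank k U = 1 := by omega
  obtain ⟨v, hv0, hv⟩ := finrank_eq_one_iff'.mp hone
  refine ⟨v, fun h => hv0 (Subtype.ext h), v.2, fun z hz => ?_⟩
  obtain ⟨t, ht⟩ := hv ⟨z, hz⟩
  exact ⟨t, (congrArg Subtype.val ht).symm⟩

/-! ## Part A: the Hopf lattices -/

section lattices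

variable {k : Type} [Field k] (ρbar : ResidualGaloisRep k) (c : GQ → Module.End k ρbar.V)

/-- `v ↦ ε • (1 ⊗ v)`, the inclusion of `V` as `ε X`. -/
def epsIota : ρbar.V →+ (DualNumber k ⊗[k] ρbar.V) where
  toFun v := (DualNumber.eps : DualNumber k) • dIota (k := k) v
  map_zero' := by rw [map_zero, smul_zero]
  map_add' x y := by rw [map_add, smul_add]

theorem epsIota_apply (v : ρbar.V) :
    epsIota ρbar v = (DualNumber.eps : DualNumber k) • dIota (k := k) v := rfl

theorem dPi0_epsIota (v : ρbar.V) : dPi0 (epsIota ρbar v) = 0 := by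
  rw [epsIota_apply, dPi0_smul, DualNumber.fst_eps, zero_smul]

theorem dPi1_epsIota (v : ρbar.V) : dPi1 (epsIota ρbar v) = v := by
  rw [epsIota_apply, dPi1_smul, DualNumber.fst_eps, DualNumber.snd_eps, zero_smul, zero_add,
    one_smul, dPi0_dIota]

theorem epsIota_injective : Function.Injective (epsIota ρbar) := by
  intro x y h
  have := congrArg (dPi1 (k := k)) h
  rwa [dPi1_epsIota, dPi1_epsIota] at this

/-- `ε • x = ε ⊗ (x mod ε)`. -/
theorem eps_smul_eq (x : DualNumber k ⊗[k] ρbar.V) :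
    (DualNumber.eps : DualNumber k) • x = epsIota ρbar (dPi0 x) := by
  apply coord_ext
  · rw [dPi0_smul, DualNumber.fst_eps, zero_smul, dPi0_epsIota]
  · rw [dPi1_smul, DualNumber.fst_eps, DualNumber.snd_eps, zero_smul, zero_add, one_smul,
      dPi1_epsIota]

/-- An element with trivial reduction is in `ε X`. -/
theorem eq_epsIota_of_dPi0_eq_zero {x : DualNumber k ⊗[k] ρbar.V} (h : dPi0 x = 0) :
    x = epsIota ρbar (dPi1 x) := by
  apply coord_ext
  · rw [h, dPi0_epsIota]
  · rw [dPi1_epsIota]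

theorem liftEnd_epsIota (σ : GQ) (v : ρbar.V) :
    liftEnd ρbar c σ (epsIota ρbar v) = epsIota ρbar (ρbar.ρ σ v) := by
  apply coord_ext
  · rw [dPi0_liftEnd, dPi0_epsIota, dPi0_epsIota, map_zero]
  · rw [dPi1_liftEnd, dPi1_epsIota, dPi0_epsIota, dPi1_epsIota, map_zero, map_zero, add_zero]

/-- `liftEnd` as a monoid homomorphism, when it is conjugate to a representation. -/
theorem liftEnd_mul_of_isLiftOf {ρ' : GaloisRepAdic (DualNumber k)} (hl : IsLiftOf ρbar c ρ')
    (σ τ : GQ) : liftEnd ρbar c (σ * τ) = liftEnd ρbar c σ * liftEnd ρbar c τ := by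
  obtain ⟨e, he⟩ := hl
  apply LinearMap.ext
  intro x
  obtain ⟨v, rfl⟩ := e.surjective x
  rw [Module.End.mul_apply, ← he, ← he, ← he, map_mul, Module.End.mul_apply]

theorem liftEnd_one_of_isLiftOf {ρ' : GaloisRepAdic (DualNumber k)} (hl : IsLiftOf ρbar c ρ') :
    liftEnd ρbar c 1 = 1 := by
  obtain ⟨e, he⟩ := hl
  apply LinearMap.ext
  intro x
  obtain ⟨v, rfl⟩ := e.surjective x
  rw [← he, map_one, Module.End.one_apply, Module.End.one_apply]

/-- `σ ↦ liftEnd ρbar c σ` as a representation. -/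
def liftHom {ρ' : GaloisRepAdic (DualNumber k)} (hl : IsLiftOf ρbar c ρ') :
    GQ →* Module.End (DualNumber k) (DualNumber k ⊗[k] ρbar.V) where
  toFun σ := liftEnd ρbar c σ
  map_one' := liftEnd_one_of_isLiftOf ρbar c hl
  map_mul' := liftEnd_mul_of_isLiftOf ρbar c hl

@[simp] theorem liftHom_apply {ρ' : GaloisRepAdic (DualNumber k)} (hl : IsLiftOf ρbar c ρ')
    (σ : GQ) : liftHom ρbar c hl σ = liftEnd ρbar c σ := rfl

variable [Finite k]

instance finite_dualNumber : Finite (DualNumber k) :=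
  inferInstanceAs (Finite (k × k))

/-- A flat lift gives a Hopf lattice on `k[ε] ⊗ V` for the action `liftEnd`. -/
theorem exists_lattice_lift {p : ℕ} {ρ' : GaloisRepAdic (DualNumber k)}
    (hl : IsLiftOf ρbar c ρ') (hflat : ρ'.IsFlatAt p) :
    ∃ Λ : Subalgebra (H906.Zp p) ((DualNumber k ⊗[k] ρbar.V) → Qb),
      H906.IsHL p (fun σ x => liftEnd ρbar c σ x) Λ := by
  obtain ⟨-, hI⟩ := hflat
  have hmodel : Fermat.Agent.S19.HopfModel p
      (ρ'.V ⧸ ((⊥ : Ideal (DualNumber k)) • (⊤ : Submodule (DualNumber k) ρ'.V)))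
      (fun σ x => ρ'.levelAction ⊥ σ x) :=
    hI ⊥ (Finite.of_surjective (Ideal.Quotient.mk (⊥ : Ideal (DualNumber k)))
      Ideal.Quotient.mk_surjective)
  obtain ⟨Λ₀, hΛ₀⟩ := Fermat.Agent.S19.H435.exists_isHopfLattice_of_hopfModel hmodel
  obtain ⟨e, he⟩ := hl
  set Q := ((⊥ : Ideal (DualNumber k)) • (⊤ : Submodule (DualNumber k) ρ'.V)) with hQ
  have hQbot : Q = ⊥ := by rw [hQ, Submodule.bot_smul]
  let ι : (DualNumber k ⊗[k] ρbar.V) →+ (ρ'.V ⧸ Q) :=
    (Q.mkQ.toAddMonoidHom).comp (e.symm.toLinearMap.toAddMonoidHom)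
  have hι : Function.Injective ι := by
    intro x y h
    have h1 : Q.mkQ (e.symm x) = Q.mkQ (e.symm y) := h
    rw [← sub_eq_zero, ← map_sub, Submodule.mkQ_apply, Submodule.Quotient.mk_eq_zero, hQbot,
      Submodule.mem_bot, sub_eq_zero] at h1
    exact e.symm.injective h1
  have hcompat : ∀ (σ : GQ) (x : DualNumber k ⊗[k] ρbar.V),
      ι (liftEnd ρbar c σ x) = ρ'.levelAction ⊥ σ (ι x) := by
    intro σ x
    show Q.mkQ (e.symm (liftEnd ρbar c σ x)) = ρ'.levelAction ⊥ σ (Q.mkQ (e.symm x))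
    have h1 : e.symm (liftEnd ρbar c σ x) = ρ'.ρ σ (e.symm x) := by
      apply e.injective
      rw [he, e.apply_symm_apply, e.apply_symm_apply]
    rw [h1]
    rfl
  exact ⟨_, Fermat.Agent.S19.H435.IsHopfLattice.pullback hΛ₀ ι hι
    (fun σ x => liftEnd ρbar c σ x) hcompat⟩

/-- A flat lift gives a Hopf lattice on `V` (embedded as `ε X`), compatible with the one on
`k[ε] ⊗ V`. -/
theorem lattice_residual {p : ℕ} {Λ : Subalgebra (H906.Zp p) ((DualNumber k ⊗[k] ρbar.V) → Qb)}
    (hΛ : H906.IsHL p (fun σ x => liftEnd ρbar c σ x) Λ) :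
    H906.IsHL p (fun σ v => ρbar.ρ σ v)
      (Λ.map (Fermat.Agent.S19.H435.precompAlgHom p (epsIota ρbar))) :=
  Fermat.Agent.S19.H435.IsHopfLattice.pullback hΛ (epsIota ρbar) (epsIota_injective ρbar)
    (fun σ v => ρbar.ρ σ v) (fun σ v => (liftEnd_epsIota ρbar c σ v).symm)

end lattices

/-! ## Part B (S1): the inertia augmentation of `V` is a line -/

section S1

/-- An endomorphism of a plane with an eigenvector `w` of eigenvalue `a = det ≠ 0` is trivial
modulo `w`. -/
theorem exists_sub_eq_smul_of_det {k : Type*} [Field k] {V : Type*} [AddCommGroup V]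
    [Module k V] (h2 : Module.finrank k V = 2) (f : Module.End k V) {w : V} (hw : w ≠ 0)
    {a : k} (ha : a ≠ 0) (hfw : f w = a • w) (hdet : LinearMap.det f = a) (v : V) :
    ∃ t : k, f v - v = t • w := by
  classical
  haveI : Module.Finite k V := Module.finite_of_finrank_eq_succ h2
  obtain ⟨v₁, hv₁⟩ : ∃ v₁ : V, v₁ ∉ Submodule.span k {w} := by
    by_contra hcon
    push Not at hcon
    have htop : Submodule.span k {w} = ⊤ := eq_top_iff.mpr fun x _ => hcon x
    have h1 := finrank_span_singleton (K := k) hw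
    rw [htop, finrank_top, h2] at h1
    omega
  have hli : LinearIndependent k ![w, v₁] := by
    rw [LinearIndependent.pair_iff]
    intro s t hst
    have ht : t = 0 := by
      by_contra ht
      apply hv₁
      rw [Submodule.mem_span_singleton]
      refine ⟨-(t⁻¹ * s), ?_⟩
      have h3 : t • v₁ = -(s • w) := eq_neg_of_add_eq_zero_right hst
      calc (-(t⁻¹ * s)) • w = t⁻¹ • (-(s • w)) := by rw [neg_smul, mul_smul, smul_neg]
        _ = t⁻¹ • (t • v₁) := by rw [h3]
        _ = v₁ := by rw [smul_smul, inv_mul_cancel₀ ht, one_smul]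
    rw [ht, zero_smul, add_zero] at hst
    exact ⟨(smul_eq_zero.mp hst).resolve_right hw, ht⟩
  set B : Module.Basis (Fin 2) k V :=
    basisOfLinearIndependentOfCardEqFinrank hli (by rw [h2, Fintype.card_fin]) with hB
  have hB0 : B 0 = w := by
    rw [hB, coe_basisOfLinearIndependentOfCardEqFinrank]
    rfl
  have hB1 : B 1 = v₁ := by
    rw [hB, coe_basisOfLinearIndependentOfCardEqFinrank]
    rfl
  set M := LinearMap.toMatrix B B f with hM
  have hM00 : M 0 0 = a := by
    rw [hM, LinearMap.toMatrix_apply, hB0, hfw, map_smul, ← hB0, B.repr_self]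
    simp
  have hM10 : M 1 0 = 0 := by
    rw [hM, LinearMap.toMatrix_apply, hB0, hfw, map_smul, ← hB0, B.repr_self]
    simp
  have hdetM : M.det = a := by rw [hM, LinearMap.det_toMatrix, hdet]
  rw [Matrix.det_fin_two, hM00, hM10, mul_zero, sub_zero] at hdetM
  have hM11 : M 1 1 = 1 := by
    have := mul_left_cancel₀ ha (hdetM.trans (mul_one a).symm)
    exact this
  have hf1 : f v₁ = M 0 1 • w + v₁ := by
    have h3 := B.sum_repr (f v₁)
    rw [Fin.sum_univ_two] at h3
    have h4 : B.repr (f v₁) 0 = M 0 1 := by rw [hM, LinearMap.toMatrix_apply, hB1]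
    have h5 : B.repr (f v₁) 1 = M 1 1 := by rw [hM, LinearMap.toMatrix_apply, hB1]
    rw [h4, h5, hM11, one_smul, hB0, hB1] at h3
    exact h3.symm
  have hv := B.sum_repr v
  rw [Fin.sum_univ_two, hB0, hB1] at hv
  refine ⟨B.repr v 0 * (a - 1) + B.repr v 1 * M 0 1, ?_⟩
  conv_lhs => rw [← hv]
  rw [map_add, map_smul, map_smul, hfw, hf1]
  simp only [smul_add, smul_smul, add_smul, mul_sub, sub_smul, mul_one]
  abel

variable {k : Type} [Field k] [Finite k] {p : ℕ} [Fact p.Prime] [CharP k p]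
  (ρbar : ResidualGaloisRep k)

theorem nsmul_eq_zero_of_charP (v : ρbar.V) : p • v = 0 := by
  rw [← Nat.cast_smul_eq_nsmul k, CharP.cast_eq_zero, zero_smul]

/-- **(S1)** If `V` is flat, has cyclotomic determinant and a `D_P`-stable line, then the
inertia augmentation of `V` is a line. -/
theorem exists_aug_line (hp2 : p ≠ 2)
    {Λ : Subalgebra (H906.Zp p) (ρbar.V → Qb)} (hΛ : H906.IsHL p (fun σ v => ρbar.ρ σ v) Λ)
    (hdet : ∀ (σ : GQ) (a : ℕ), IsCycExp p σ a → LinearMap.det (ρbar.ρ σ) = (a : k))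
    (P : ValuationSubring Qb) (hP : P.LiesOverPrime p)
    (hred : ∃ U : Submodule k ρbar.V, U ≠ ⊥ ∧ U ≠ ⊤ ∧
      ∀ σ ∈ P.decompositionSubgroup ℚ, ∀ x ∈ U, ρbar.ρ σ x ∈ U) :
    ∃ l₀ : ρbar.V, l₀ ≠ 0 ∧ l₀ ∈ augGroup P (fun σ v => ρbar.ρ σ v) ∧
      ∀ z ∈ augGroup P (fun σ v => ρbar.ρ σ v), ∃ t : k, z = t • l₀ := by
  classical
  have hp : p.Prime := Fact.out
  have hkill : ∀ v : ρbar.V, p • v = 0 := nsmul_eq_zero_of_charP ρbar
  haveI : Finite ρbar.V := Module.finite_of_finite k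
  refine exists_eq_smul_of_ne_bot_of_ne_top ρbar.finrank_eq (augSub P ρbar.ρ) ?_ ?_
  · -- not `⊥`
    intro hbot
    obtain ⟨σ₀, hσ₀, a, ha, hane⟩ := exists_inertia_isCycExp_ne_one hp hp2 k P hP
    have h1 : ρbar.ρ σ₀ = 1 := by
      apply LinearMap.ext
      intro v
      have : ρbar.ρ σ₀ v - v ∈ augSub P ρbar.ρ := sub_mem_augGroup P _ hσ₀ v
      rw [hbot, Submodule.mem_bot, sub_eq_zero] at this
      rw [this, Module.End.one_apply]
    have h2 := hdet σ₀ a ha
    rw [h1, map_one] at h2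
    exact hane h2.symm
  · -- not `⊤`
    intro htop
    obtain ⟨U, hU0, hU1, hUD⟩ := hred
    obtain ⟨w, hw0, hwU, hwgen⟩ := exists_eq_smul_of_ne_bot_of_ne_top ρbar.finrank_eq U hU0 hU1
    have hchar : ∀ σ ∈ P.decompositionSubgroup ℚ, ∃ t : k, ρbar.ρ σ w = t • w :=
      fun σ hσ => hwgen _ (hUD σ hσ w hwU)
    obtain ⟨φ, hφ⟩ : ∃ φ : ρbar.V →ₗ[k] k, φ w = 1 := by
      obtain ⟨f, hf, -⟩ : ∃ f : ρbar.V →ₗ[k] k, f w ≠ 0 ∧
          (⊥ : Submodule k ρbar.V).map f = ⊥ :=
        Submodule.exists_dual_map_eq_bot_of_notMem (p := (⊥ : Submodule k ρbar.V))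
          (by rwa [Submodule.mem_bot]) inferInstance
      exact ⟨(f w)⁻¹ • f, by rw [LinearMap.smul_apply, smul_eq_mul, inv_mul_cancel₀ hf]⟩
    set a : GQ → k := fun σ => φ (ρbar.ρ σ w) with ha
    have haD : ∀ σ ∈ P.decompositionSubgroup ℚ, ρbar.ρ σ w = a σ • w := by
      intro σ hσ
      obtain ⟨t, ht⟩ := hchar σ hσ
      have : a σ = t := by
        show φ (ρbar.ρ σ w) = t
        rw [ht, map_smul, hφ, smul_eq_mul, mul_one]
      rw [this, ht]
    have hloc : H906.IsLocChar P a := by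
      refine ⟨?_, ?_, ?_⟩
      · show φ (ρbar.ρ 1 w) = 1
        rw [map_one, Module.End.one_apply, hφ]
      · intro σ hσ τ hτ
        show φ (ρbar.ρ (σ * τ) w) = a σ * a τ
        rw [map_mul, Module.End.mul_apply, haD τ hτ, map_smul, haD σ hσ, smul_smul, map_smul, hφ,
          smul_eq_mul, mul_one, mul_comm]
      · obtain ⟨L, hL, hLρ⟩ := ρbar.factorsThroughFiniteLevel
        refine ⟨L, hL, fun σ _ τ _ hτL => ?_⟩
        show φ (ρbar.ρ (σ * τ) w) = φ (ρbar.ρ σ w)
        rw [map_mul, hLρ τ hτL, mul_one]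
    have htame := H486.tameFrob p k P hP a hloc
    have hsc : ∀ τ ∈ P.inertiaSubgroupIn ℚ, ∃ n : ℕ, ρbar.ρ τ w = n • w := by
      intro τ hτ
      obtain ⟨n, hn⟩ := exists_natCast_of_pow_eq_self p (htame τ hτ)
      refine ⟨n, ?_⟩
      rw [haD τ (mem_decomposition_of_mem_inertia hτ), hn, Nat.cast_smul_eq_nsmul]
    rcases H486.flatTame p hp2 ρbar.V (fun σ v => ρbar.ρ σ v) Λ hΛ hkill P hP w hw0 hsc with
      hA | hB
    · -- trivial character: contradiction with (FI)
      apply hw0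
      refine H906.flatInertia p hp2 ρbar.V (fun σ v => ρbar.ρ σ v) Λ hΛ hkill P hP w hA ?_
      have : w ∈ augSub P ρbar.ρ := by rw [htop]; exact Submodule.mem_top
      exact this
    · -- cyclotomic character: the augmentation is contained in `U`
      have hsub : augSub P ρbar.ρ ≤ U := by
        intro z hz
        rw [mem_augSub] at hz
        induction hz using AddSubgroup.closure_induction with
        | mem z hz =>
          obtain ⟨τ, hτ, v, rfl⟩ := hz
          obtain ⟨n, hn⟩ := Fermat.Agent.S56.H966.exists_isCycExp p hp.ne_zero τ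
          have hn0 : (n : k) ≠ 0 := isCycExp_cast_ne_zero hp hn
          have hτw : ρbar.ρ τ w = (n : k) • w := by
            have := hB τ hτ n hn
            rw [Nat.cast_smul_eq_nsmul]
            exact this
          obtain ⟨t, ht⟩ := exists_sub_eq_smul_of_det ρbar.finrank_eq (ρbar.ρ τ) hw0 hn0 hτw
            (hdet τ n hn) v
          show ρbar.ρ τ v - v ∈ U
          rw [ht]
          exact U.smul_mem t hwU
        | zero => exact U.zero_mem
        | add x y _ _ hx hy => exact U.add_mem hx hy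
        | neg x _ hx => exact U.neg_mem hx
      exact hU1 (eq_top_iff.mpr (htop ▸ hsub))

end S1

/-! ## Part C (S2): the inertia augmentation of `k[ε] ⊗ V` -/

section S2

variable {k : Type} [Field k] [Finite k] {p : ℕ} [Fact p.Prime] [CharP k p]
  (ρbar : ResidualGaloisRep k) (c : GQ → Module.End k ρbar.V)

theorem nsmul_tensor_eq_zero (x : DualNumber k ⊗[k] ρbar.V) : p • x = 0 := by
  rw [← Nat.cast_smul_eq_nsmul k, CharP.cast_eq_zero, zero_smul]

/-- **(S2)** the inertia augmentation of a flat lift is generated over `k[ε]` by one element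
`n₀` with nonzero reduction; it is stable under `D_P`. -/
theorem exists_aug_generator (hp2 : p ≠ 2) {ρ' : GaloisRepAdic (DualNumber k)}
    (hl : IsLiftOf ρbar c ρ')
    {Λ : Subalgebra (H906.Zp p) ((DualNumber k ⊗[k] ρbar.V) → Qb)}
    (hΛ : H906.IsHL p (fun σ x => liftEnd ρbar c σ x) Λ)
    (hdet : ∀ (σ : GQ) (a : ℕ), IsCycExp p σ a → LinearMap.det (ρbar.ρ σ) = (a : k))
    (P : ValuationSubring Qb) (hP : P.LiesOverPrime p)
    (hred : ∃ U : Submodule k ρbar.V, U ≠ ⊥ ∧ U ≠ ⊤ ∧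
      ∀ σ ∈ P.decompositionSubgroup ℚ, ∀ x ∈ U, ρbar.ρ σ x ∈ U) :
    ∃ n₀ : DualNumber k ⊗[k] ρbar.V, dPi0 n₀ ≠ 0 ∧
      (∀ σ ∈ P.inertiaSubgroupIn ℚ, ∀ y : DualNumber k ⊗[k] ρbar.V,
        ∃ a : DualNumber k, liftEnd ρbar c σ y - y = a • n₀) ∧
      (∀ σ ∈ P.decompositionSubgroup ℚ, ∃ a : DualNumber k, liftEnd ρbar c σ n₀ = a • n₀) := by
  classical
  have hp : p.Prime := Fact.out
  haveI : Finite (DualNumber k ⊗[k] ρbar.V) := Module.finite_of_finite (DualNumber k)
  set T := liftHom ρbar c hl with hT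
  set N := augGroup P (fun σ x => liftEnd ρbar c σ x) with hN
  set ZV := augGroup P (fun σ v => ρbar.ρ σ v) with hZV
  obtain ⟨l₀, hl0, hl₀Z, hZgen⟩ :=
    exists_aug_line ρbar hp2 (lattice_residual ρbar c hΛ) hdet P hP hred
  -- (N2)
  have hN2 : ∀ n ∈ N, dPi0 n ∈ ZV := by
    intro n hn
    induction hn using AddSubgroup.closure_induction with
    | mem z hz =>
      obtain ⟨σ, hσ, y, rfl⟩ := hz
      rw [map_sub, dPi0_liftEnd]
      exact sub_mem_augGroup P _ hσ _
    | zero => rw [map_zero]; exact AddSubgroup.zero_mem _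
    | add x y _ _ hx hy => rw [map_add]; exact AddSubgroup.add_mem _ hx hy
    | neg x _ hx => rw [map_neg]; exact AddSubgroup.neg_mem _ hx
  -- (N3)
  have hN3 : ∀ z ∈ ZV, ∃ n ∈ N, dPi0 n = z := by
    intro z hz
    induction hz using AddSubgroup.closure_induction with
    | mem z hz =>
      obtain ⟨σ, hσ, v, rfl⟩ := hz
      refine ⟨liftEnd ρbar c σ (dIota v) - dIota v, sub_mem_augGroup P _ hσ _, ?_⟩
      rw [map_sub, dPi0_liftEnd, dPi0_dIota]
    | zero => exact ⟨0, AddSubgroup.zero_mem _, map_zero _⟩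
    | add x y _ _ hx hy =>
      obtain ⟨n₁, h₁, rfl⟩ := hx
      obtain ⟨n₂, h₂, rfl⟩ := hy
      exact ⟨n₁ + n₂, AddSubgroup.add_mem _ h₁ h₂, map_add _ _ _⟩
    | neg x _ hx =>
      obtain ⟨n₁, h₁, rfl⟩ := hx
      exact ⟨-n₁, AddSubgroup.neg_mem _ h₁, map_neg _ _⟩
  -- (N4)
  have hN4 : ∀ n ∈ N, dPi0 n = 0 → ∃ z ∈ ZV, n = epsIota ρbar z := by
    intro n hn h0
    have hnE : n ∈ (epsIota ρbar).range := ⟨dPi1 n, (eq_epsIota_of_dPi0_eq_zero ρbar h0).symm⟩
    have hE : ∀ (σ : GQ), ∀ x ∈ (epsIota ρbar).range,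
        (fun σ x => liftEnd ρbar c σ x) σ x ∈ (epsIota ρbar).range := by
      rintro σ _ ⟨v, rfl⟩
      exact ⟨ρbar.ρ σ v, (liftEnd_epsIota ρbar c σ v).symm⟩
    have h1 := mem_closure_of_mem_closure hp2 hΛ (nsmul_tensor_eq_zero ρbar) P hP
      (epsIota ρbar).range hE hnE hn
    have key : ∀ x ∈ AddSubgroup.closure
        {z : DualNumber k ⊗[k] ρbar.V | ∃ σ ∈ P.inertiaSubgroupIn ℚ,
          ∃ y ∈ (epsIota ρbar).range, z = (fun σ x => liftEnd ρbar c σ x) σ y - y},
        ∃ z ∈ ZV, x = epsIota ρbar z := by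
      intro x hx
      induction hx using AddSubgroup.closure_induction with
      | mem z hz =>
        obtain ⟨σ, hσ, y, ⟨v, rfl⟩, rfl⟩ := hz
        refine ⟨ρbar.ρ σ v - v, sub_mem_augGroup P _ hσ _, ?_⟩
        show liftEnd ρbar c σ (epsIota ρbar v) - epsIota ρbar v = _
        rw [liftEnd_epsIota, map_sub]
      | zero => exact ⟨0, AddSubgroup.zero_mem _, (map_zero _).symm⟩
      | add x y _ _ hx hy =>
        obtain ⟨z₁, h₁, rfl⟩ := hx
        obtain ⟨z₂, h₂, rfl⟩ := hy
        exact ⟨z₁ + z₂, AddSubgroup.add_mem _ h₁ h₂, (map_add _ _ _).symm⟩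
      | neg x _ hx =>
        obtain ⟨z₁, h₁, rfl⟩ := hx
        exact ⟨-z₁, AddSubgroup.neg_mem _ h₁, (map_neg _ _).symm⟩
    exact key n h1
  -- the generator
  obtain ⟨n₀, hn₀N, hn₀⟩ := hN3 l₀ hl₀Z
  have hNsmul : ∀ (a : DualNumber k) (n : DualNumber k ⊗[k] ρbar.V), n ∈ N → a • n ∈ N :=
    fun a n hn => smul_mem_augGroup P T a hn
  have hgen : ∀ n ∈ N, ∃ a : DualNumber k, n = a • n₀ := by
    intro n hn
    obtain ⟨t, ht⟩ := hZgen _ (hN2 n hn)
    have hn' : n - (TrivSqZeroExt.inl t : DualNumber k) • n₀ ∈ N :=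
      AddSubgroup.sub_mem _ hn (hNsmul _ _ hn₀N)
    have h0 : dPi0 (n - (TrivSqZeroExt.inl t : DualNumber k) • n₀) = 0 := by
      rw [map_sub, dPi0_smul, TrivSqZeroExt.fst_inl, hn₀, ht, sub_self]
    obtain ⟨z, hz, hzn⟩ := hN4 _ hn' h0
    obtain ⟨s, hs⟩ := hZgen z hz
    refine ⟨TrivSqZeroExt.inl t + TrivSqZeroExt.inl s * DualNumber.eps, ?_⟩
    have h2 : epsIota ρbar z =
        ((TrivSqZeroExt.inl s : DualNumber k) * DualNumber.eps) • n₀ := by
      apply coord_ext
      · rw [dPi0_epsIota, dPi0_smul, TrivSqZeroExt.fst_mul, DualNumber.fst_eps, mul_zero,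
          zero_smul]
      · rw [dPi1_epsIota, dPi1_smul, TrivSqZeroExt.fst_mul, DualNumber.fst_eps, mul_zero,
          zero_smul, zero_add, hn₀, hs]
        congr 1
        simp
    rw [add_smul, ← h2, ← hzn]
    abel
  refine ⟨n₀, by rw [hn₀]; exact hl0, ?_, ?_⟩
  · intro σ hσ y
    exact hgen _ (sub_mem_augGroup P _ hσ y)
  · intro σ hσ
    exact hgen _ (map_mem_augGroup P T hσ hn₀N)

end S2

/-! ## Part D: the basis and the statement -/

section final

variable {k : Type} [Field k]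

/-- An element of `k[ε] ⊗ V` with nonzero reduction is the first vector of a basis. -/
theorem exists_basis_of_dPi0_ne_zero (ρbar : ResidualGaloisRep k)
    (n₀ : DualNumber k ⊗[k] ρbar.V) (h : dPi0 n₀ ≠ 0) :
    ∃ b : Module.Basis (Fin 2) (DualNumber k) (DualNumber k ⊗[k] ρbar.V), b 0 = n₀ := by
  classical
  have h2 := ρbar.finrank_eq
  set l₀ := dPi0 n₀ with hl₀
  set w₀ := dPi1 n₀ with hw₀
  obtain ⟨v₁, hv₁⟩ : ∃ v₁ : ρbar.V, v₁ ∉ Submodule.span k {l₀} := by
    by_contra hcon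
    push Not at hcon
    have htop : Submodule.span k {l₀} = ⊤ := eq_top_iff.mpr fun x _ => hcon x
    have h1 := finrank_span_singleton (K := k) h
    rw [htop, finrank_top, h2] at h1
    omega
  have hli : LinearIndependent k ![l₀, v₁] := by
    rw [LinearIndependent.pair_iff]
    intro s t hst
    have ht : t = 0 := by
      by_contra ht
      apply hv₁
      rw [Submodule.mem_span_singleton]
      refine ⟨-(t⁻¹ * s), ?_⟩
      have h3 : t • v₁ = -(s • l₀) := eq_neg_of_add_eq_zero_right hst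
      calc (-(t⁻¹ * s)) • l₀ = t⁻¹ • (-(s • l₀)) := by rw [neg_smul, mul_smul, smul_neg]
        _ = t⁻¹ • (t • v₁) := by rw [h3]
        _ = v₁ := by rw [smul_smul, inv_mul_cancel₀ ht, one_smul]
    rw [ht, zero_smul, add_zero] at hst
    exact ⟨(smul_eq_zero.mp hst).resolve_right h, ht⟩
  set B : Module.Basis (Fin 2) k ρbar.V :=
    basisOfLinearIndependentOfCardEqFinrank hli (by rw [h2, Fintype.card_fin]) with hB
  have hB0 : B 0 = l₀ := by
    rw [hB, coe_basisOfLinearIndependentOfCardEqFinrank]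
    rfl
  set BX := Algebra.TensorProduct.basis (DualNumber k) B with hBX
  set g : ρbar.V →ₗ[k] ρbar.V := B.constr k ![w₀, 0] with hg
  have hg0 : g (B 0) = w₀ := by
    rw [hg, B.constr_basis]
    rfl
  set G : Module.End (DualNumber k) (DualNumber k ⊗[k] ρbar.V) :=
    (DualNumber.eps : DualNumber k) • g.baseChange (DualNumber k) with hG
  have hGG : ∀ x, G (G x) = 0 := by
    intro x
    rw [hG]
    simp only [LinearMap.smul_apply, map_smul]
    rw [smul_smul, DualNumber.eps_mul_eps, zero_smul]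
  have h12 : (LinearMap.id + G).comp (LinearMap.id - G) = LinearMap.id := by
    apply LinearMap.ext
    intro x
    simp only [LinearMap.comp_apply, LinearMap.add_apply, LinearMap.sub_apply,
      LinearMap.id_apply, map_sub, hGG]
    abel
  have h21 : (LinearMap.id - G).comp (LinearMap.id + G) = LinearMap.id := by
    apply LinearMap.ext
    intro x
    simp only [LinearMap.comp_apply, LinearMap.add_apply, LinearMap.sub_apply,
      LinearMap.id_apply, map_add, hGG]
    abel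
  set E : (DualNumber k ⊗[k] ρbar.V) ≃ₗ[DualNumber k] (DualNumber k ⊗[k] ρbar.V) :=
    LinearEquiv.ofLinear (LinearMap.id + G) (LinearMap.id - G) h12 h21 with hE
  refine ⟨BX.map E, ?_⟩
  rw [Module.Basis.map_apply, hBX, Algebra.TensorProduct.basis_apply, hB0]
  have hEapp : ∀ x, E x = x + G x := fun x => rfl
  rw [hEapp, hG, LinearMap.smul_apply, LinearMap.baseChange_tmul, ← hB0, hg0]
  rw [hB0]
  exact (eq_coord n₀).symm

variable [Finite k] {p : ℕ} [Fact p.Prime] [CharP k p]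

/-- **FLAT-O, STRUCT.**  A flat lift to `k[ε]` of a `ρ̄` with cyclotomic determinant and a
`D_P`-stable line is ordinary at `P` (Prelude shape `IsOrdinaryAt`, at the place `P`):
`L = k[ε] ∙ b 0` is the inertia augmentation. -/
theorem flatOrdLine (hp2 : p ≠ 2) (ρbar : ResidualGaloisRep k)
    (hdet : ∀ (σ : GQ) (a : ℕ), IsCycExp p σ a → LinearMap.det (ρbar.ρ σ) = (a : k))
    (P : ValuationSubring Qb) (hP : P.LiesOverPrime p)
    (hred : ∃ U : Submodule k ρbar.V, U ≠ ⊥ ∧ U ≠ ⊤ ∧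
      ∀ σ ∈ P.decompositionSubgroup ℚ, ∀ x ∈ U, ρbar.ρ σ x ∈ U)
    (c : GQ → Module.End k ρbar.V) (ρ' : GaloisRepAdic (DualNumber k))
    (hl : IsLiftOf ρbar c ρ') (hflat : ρ'.IsFlatAt p) :
    ∃ L : Submodule (DualNumber k) ρ'.V,
      (∃ b : Module.Basis (Fin 2) (DualNumber k) ρ'.V, L = (DualNumber k) ∙ b 0) ∧
      (∀ σ ∈ P.decompositionSubgroup ℚ, ∀ v ∈ L, ρ'.ρ σ v ∈ L) ∧
      (∀ σ ∈ P.inertiaSubgroupIn ℚ, ∀ v : ρ'.V, ρ'.ρ σ v - v ∈ L) := by
  obtain ⟨Λ, hΛ⟩ := exists_lattice_lift ρbar c hl hflat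
  obtain ⟨n₀, hn₀, hI, hD⟩ := exists_aug_generator ρbar c hp2 hl hΛ hdet P hP hred
  obtain ⟨b, hb⟩ := exists_basis_of_dPi0_ne_zero ρbar n₀ hn₀
  obtain ⟨e, he⟩ := hl
  have hsymm : ∀ (σ : GQ) (x : DualNumber k ⊗[k] ρbar.V),
      ρ'.ρ σ (e.symm x) = e.symm (liftEnd ρbar c σ x) := by
    intro σ x
    apply e.injective
    rw [he, e.apply_symm_apply, e.apply_symm_apply]
  refine ⟨(DualNumber k) ∙ (e.symm n₀), ⟨b.map e.symm, ?_⟩, ?_, ?_⟩
  · rw [Module.Basis.map_apply, hb]
  · intro σ hσ v hv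
    obtain ⟨a, rfl⟩ := Submodule.mem_span_singleton.mp hv
    obtain ⟨a', ha'⟩ := hD σ hσ
    rw [map_smul, hsymm, ha', map_smul]
    exact Submodule.smul_mem _ _ (Submodule.smul_mem _ _ (Submodule.mem_span_singleton_self _))
  · intro σ hσ v
    obtain ⟨a, ha⟩ := hI σ hσ (e v)
    have : ρ'.ρ σ v - v = a • e.symm n₀ := by
      apply e.injective
      rw [map_sub, he, ha, map_smul, e.apply_symm_apply]
    rw [this]
    exact Submodule.smul_mem _ _ (Submodule.mem_span_singleton_self _)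

end final

end Fermat.Agent.S56.FO.H6

end
end
-- ===== PACK-END S56/FO/H6/Struct.lean

-- ===== PACK-BEGIN S56/FO/H6/FlatO.lean
section






/-!
# Row S56 — FLAT-O closed (helper6)

* `flatOrdLineStatement : H656.FlatOrdLineStatement` (STRUCT, verbatim, from `flatOrdLine`);
* `flatO : FL.FlatOStatement` from COUNT (`H656.flatO_of`), FU (`H656.flatUnit`),
  KUM (`H734.kum`) and UNRHOM (`H486.unramHom`).

Nothing unproved in this file.
-/

set_option autoImplicit false

open IsLocalRing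

noncomputable section

namespace Fermat.Agent.S56.FO.H6

open Fermat.Agent.S56 Fermat.Agent.S56.H716

/-- **STRUCT**, in the frozen form consumed by COUNT. -/
theorem flatOrdLineStatement : Fermat.Agent.S56.H656.FlatOrdLineStatement := by
  intro 𝒪 _ _ _ _ _ p ρbar S Smin hyp P hP hred c ρ' _ hl _ hf
  haveI : Fact p.Prime := ⟨hyp.hp⟩
  have hpk : ((p : ℕ) : ResidueField 𝒪) = 0 := by
    have h := (IsLocalRing.residue_eq_zero_iff (p : 𝒪)).mpr hyp.hp𝒪
    rwa [map_natCast] at h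
  haveI : CharP (ResidueField 𝒪) p := (CharP.charP_iff_prime_eq_zero hyp.hp).mpr hpk
  exact flatOrdLine hyp.hp2 ρbar
    (fun _ _ h => Fermat.Agent.S56.FL.det_eq_natCast_of_isCycExp hyp.hdet h)
    P hP hred c ρ' hl hf

/-- **FLAT-O**: the reducible (ordinary) case of LOC-FLAT. -/
theorem flatO : Fermat.Agent.S56.FL.FlatOStatement :=
  Fermat.Agent.S56.H656.flatO_of flatOrdLineStatement Fermat.Agent.S56.H656.flatUnit
    Fermat.Agent.S56.H734.kum Fermat.Agent.S56.H486.unramHom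

end Fermat.Agent.S56.FO.H6

end

end
-- ===== PACK-END S56/FO/H6/FlatO.lean

-- ===== PACK-BEGIN S56/FinalC.lean
section




/-!
# Row S56 — FINAL reduction, route C (row-lead helper956): three Props left

Route C of the deputy (`H716/GWGlue4.lean`, `H716.result_of_leaves`) with every landed leaf
plugged in (DICT `H596`, LOC-MIN `H606`, LOC-SO `H656`, UR-COUNT `H431`, P1, TWP):

    `S56 ⇐ H716.LocFlatPStatement + H716.BaseBigStatement + H716.RecQSubStatement`.

`Fermat/Agent/S56.lean` will be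

    exact Fermat.Agent.S56.result_of_wallsC locFlatP baseBig recQSub
      p hp2 hp𝒪 ρbar habs hdet hsplit hTW S Smin hpSmin hSmin hS hmin
-/

set_option autoImplicit false

open Polynomial IsLocalRing

namespace Fermat.Agent.S56

/-- **S56 from the three remaining walls (route C).** -/
theorem result_of_wallsC (hflat : H716.LocFlatPStatement) (hb : H716.BaseBigStatement)
    (hr : H716.RecQSubStatement)
    {𝒪 : Type} [CommRing 𝒪] [IsDomain 𝒪] [IsDiscreteValuationRing 𝒪]
    [IsAdicComplete (maximalIdeal 𝒪) 𝒪] [Finite (ResidueField 𝒪)]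
    (p : ℕ) [Fact p.Prime] (hp2 : p ≠ 2) (hp𝒪 : (p : 𝒪) ∈ maximalIdeal 𝒪)
    (ρbar : ResidualGaloisRep (ResidueField 𝒪))
    (habs : ρbar.IsAbsolutelyIrreducible)
    (hdet : (GaloisRepAdic.ofResidualGaloisRep ρbar).DetIsCyclotomic p)
    (hsplit : ∀ σ : AlgebraicClosure ℚ ≃ₐ[ℚ] AlgebraicClosure ℚ,
      ∃ α β : ResidueField 𝒪, LinearMap.charpoly (ρbar.ρ σ) = (X - C α) * (X - C β))
    (hTW : ∀ (K : Type) [Field K] [Algebra (ResidueField 𝒪) K]
      (G : Subgroup (AlgebraicClosure ℚ ≃ₐ[ℚ] AlgebraicClosure ℚ)), G.index = 2 →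
      ∀ V : Submodule K (ρbar.baseChange K).V,
        (∀ σ ∈ G, ∀ x ∈ V, (ρbar.baseChange K).ρ σ x ∈ V) → V = ⊥ ∨ V = ⊤)
    (S Smin : Finset ℕ) (hpSmin : p ∈ Smin) (hSmin : Smin ⊆ S) (hS : ∀ q ∈ S, q.Prime)
    (hmin' : ∀ q : ℕ, q.Prime → q ≠ p → (q ∈ Smin ↔ ¬ ρbar.IsUnramifiedAt q)) :
    (∃ r : ℕ, ∀ n : ℕ, ∃ qv : Fin r → ℕ, Function.Injective qv ∧
      (∀ i, (qv i).Prime ∧ qv i ∉ S ∧ p ^ (n + 1) ∣ qv i - 1) ∧
      (∀ i, ∀ P : ValuationSubring (AlgebraicClosure ℚ), P.LiesOverPrime (qv i) →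
        ∀ φ : AlgebraicClosure ℚ ≃ₐ[ℚ] AlgebraicClosure ℚ, P.IsFrobeniusAt φ (qv i) →
          ∃ α β : ResidueField 𝒪, α ≠ β ∧ LinearMap.charpoly (ρbar.ρ φ) = (X - C α) * (X - C β)) ∧
      ∀ DQ : GaloisRep.DeformationRingData 𝒪 ρbar (fun _A _ _ _ ρ =>
          GaloisRep.strictOrdinaryCondition 𝒪 p (Smin ∪ Finset.univ.image qv) ρ ∧
            ∀ q ∈ Smin, q.Prime → q ≠ p → ρ.IsUnipotentOnInertiaAt q),
        ∃ γ : MvPowerSeries (Fin r) 𝒪 →ₐ[𝒪] DQ.R, Function.Surjective γ) ∧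
    (∃ r : ℕ, ∀ n : ℕ, ∃ qv : Fin r → ℕ, Function.Injective qv ∧
      (∀ i, (qv i).Prime ∧ qv i ∉ S ∧ p ^ (n + 1) ∣ qv i - 1) ∧
      (∀ i, ∀ P : ValuationSubring (AlgebraicClosure ℚ), P.LiesOverPrime (qv i) →
        ∀ φ : AlgebraicClosure ℚ ≃ₐ[ℚ] AlgebraicClosure ℚ, P.IsFrobeniusAt φ (qv i) →
          ∃ α β : ResidueField 𝒪, α ≠ β ∧ LinearMap.charpoly (ρbar.ρ φ) = (X - C α) * (X - C β)) ∧
      ∀ DQ : GaloisRep.DeformationRingData 𝒪 ρbar (fun _A _ _ _ ρ =>
          GaloisRep.flatCondition 𝒪 p (Smin ∪ Finset.univ.image qv) ρ ∧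
            ∀ q ∈ Smin, q.Prime → q ≠ p → ρ.IsUnipotentOnInertiaAt q),
        ∃ γ : MvPowerSeries (Fin r) 𝒪 →ₐ[𝒪] DQ.R, Function.Surjective γ) :=
  H716.result_of_leaves H596.dictOrd H596.dictFlat H606.locMin H656.locOrdP hflat hb hr
    H431.urCount powerSeriesSurj twPrimes p hp2 hp𝒪 ρbar habs hdet hsplit hTW S Smin hpSmin hSmin
    hS hmin'

end Fermat.Agent.S56

end
-- ===== PACK-END S56/FinalC.lean

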