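import Fermat.Agent.Pack.S43GC.G0E20L1
import Fermat.Agent.Pack.S43GC.G0E18L2
import Fermat.Agent.Pack.S43GC.G0E8L1
import Fermat.Agent.Pack.S43GC.G0E20L2
import Fermat.Agent.Pack.S43GC.G0E14L2
import Fermat.Agent.Pack.S43GC.G0E1L1
import Fermat.Agent.Pack.S43GC.G0E18L1
import Fermat.Agent.Pack.S43GC.G0E4L1
import Fermat.Agent.Pack.S43GC.G0E18L0
import Fermat.Agent.Pack.S43GC.G0E8L3
import Fermat.Agent.Pack.S43GC.G0E20L3
import Fermat.Agent.Pack.Fast891

-- ===== PACK-BEGIN S55/Inv/CokEH99.lean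
section
/-
S55 (Poitou–Tate), route C′, input `InvSpec`, leaf INV-COK (helper99), part 4: the adapters for the
FROZEN interface `Inv/SpecK.lean` (sub-architect helper3).

Proved here, unconditionally:
* `isKummerEmb_muToL`     : `μ_p = muP p → ℚ̄_qˣ` is a Kummer embedding of `muP p |_{G_q}`;
* `h1Vanish_unitsQpbar`   : Hilbert 90, `H¹_lc(G_q, ℚ̄_qˣ) = 0`;
* `locKummerInj`          : `Inv.LocKummerInjSpec p S`      (LKI);
* `isKummerEmb_indMuToL`  : `Ind_U μ_p → Ind_U ℚ̄_qˣ` is a Kummer embedding;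
* `locKummerInjInd`       : `Inv.LocKummerInjIndSpec p S`   (LKI-Ind).

Adapters:
* `go4_of_cokerE`         : `Inv.CokerESpec p S → GO4Spec p S`;
* `globCoker_of_cokerE`   : `p ≠ 2 → pPrime p ∈ S → Inv.CokerESpec p S → Inv.GlobCokerSpec p S`
                            (leaf INV-COK: only the arithmetic core GO4 = `CokerESpec` remains).
-/



set_option autoImplicit false
set_option linter.style.haveILetI false
set_option linter.unusedSectionVars false
noncomputable section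
namespace Fermat.Agent.S55.Inv.H99

open groupCohomology ExtCitation Fermat.Agent.S55.PT Fermat.Agent.S55.KC Fermat.Agent.S55.Bridge

variable (p : ℕ) [Fact p.Prime] (S : Finset Nat.Primes)

/-! ## 1. `μ_p = muP p` versus `μ_p = F_p(χ_p) = mu p` -/

example (U : Subgroup _root_.Fermat.Agent.S55.PT.GQ) : indRep U (muP p) = K.indG U (muP p) := rfl

/-- the identification `F_p(χ_p) ≃ μ_p` is equivariant -/
lemma muPLinearEquiv_equivariant (g : _root_.Fermat.Agent.S55.PT.GQ) (m : mu p) :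
    muPLinearEquiv p ((mu p).ρ g m) = (muP p).ρ g (muPLinearEquiv p m) :=
  LinearMap.congr_fun ((muPRepEquivOfChar p).isIntertwining' g) m

lemma locMu_eq (q : Nat.Primes) (m : mu p) :
    locMu p S q m = muToL p S q (muPLinearEquiv p m) := rfl

lemma muToL_eq (q : Nat.Primes) (a : MuP p) :
    muToL p S q a = locMu p S q ((muPLinearEquiv p).symm a) := by
  rw [locMu_eq, LinearEquiv.apply_symm_apply]

lemma muToL_injective' (q : Nat.Primes) (a b : MuP p)
    (hab : muToL p S q a = muToL p S q b) : a = b := by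
  rw [muToL_eq, muToL_eq] at hab
  exact (muPLinearEquiv p).symm.injective ((isKummerEmb_locMu p S q).injective hab)

lemma muToL_equivariant' (q : Nat.Primes) (g : Gl q) (m : MuP p) :
    muToL p S q (muPRep p (rl q g) m) = (Tow.unitsQpbar q).ρ g (muToL p S q m) := by
  have h := (isKummerEmb_locMu p S q).equivariant g ((muPLinearEquiv p).symm m)
  rw [← muToL_eq] at h
  rw [← h, locMu_eq]
  congr 1
  have h2 := muPLinearEquiv_equivariant p (rl q g) ((muPLinearEquiv p).symm m)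
  rw [LinearEquiv.apply_symm_apply] at h2
  exact h2.symm

lemma muToL_range' (q : Nat.Primes) (b : Tow.unitsQpbar q) :
    p • b = 0 ↔ ∃ m : MuP p, muToL p S q m = b := by
  rw [(isKummerEmb_locMu p S q).range_eq b]
  constructor
  · rintro ⟨m, rfl⟩
    exact ⟨muPLinearEquiv p m, rfl⟩
  · rintro ⟨m, rfl⟩
    exact ⟨(muPLinearEquiv p).symm m, (muToL_eq p S q m).symm⟩

/-- `μ_p → ℚ̄_qˣ` is a Kummer embedding of `muP p |_{G_q}`. -/
theorem isKummerEmb_muToL (q : Nat.Primes) :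
    IsKummerEmb p (Rep.res (rl q) (muP p)) (Tow.unitsQpbar q) (muToL p S q) where
  injective := fun a b hab => muToL_injective' p S q a b hab
  equivariant := fun g m => muToL_equivariant' p S q g m
  range_eq := fun b => muToL_range' p S q b


/-! ## 2. LKI: local Kummer injectivity -/

/-- Hilbert 90: `H¹_lc(G_q, ℚ̄_qˣ) = 0`. -/
theorem h1Vanish_unitsQpbar (q : Nat.Primes) : H1Vanish (localLevels q) (Tow.unitsQpbar q) := by
  intro f hf hlc
  obtain ⟨W, hW, hWf⟩ := hlc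
  obtain ⟨a₀, ha₀⟩ := hilbert90_open q ⊤ ⟨W, hW, le_top⟩ f
    (fun s _ t _ => (mem_cocycles₁_iff f).1 hf s t) ⟨W, hW, hWf⟩
  refine ⟨a₀, ?_⟩
  funext s
  rw [d₀₁_hom_apply]
  exact ha₀ s (Subgroup.mem_top s)

/-- **LKI.** -/
theorem locKummerInj : LocKummerInjSpec p S := by
  intro q _ x _ hx
  exact H53.mem_B2_of_ι_mem_B2 (localLevels q) (isSmooth_unitsQpbar q)
    (isPDivisible_unitsQpbar p q) (isKummerEmb_muToL p S q) (h1Vanish_unitsQpbar q) hx


/-! ## 3. LKI-Ind -/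

lemma indMuToL_eq (q : Nat.Primes) (U : Subgroup _root_.Fermat.Agent.S55.PT.GQ) :
    (indMuToL p S q U : ((_root_.Fermat.Agent.S55.PT.GQ ⧸ U) →₀ MuP p) →+ ((_root_.Fermat.Agent.S55.PT.GQ ⧸ U) →₀ (Tow.unitsQpbar q))) =
      Finsupp.mapRange.addMonoidHom (muToL p S q) := by
  apply AddMonoidHom.ext
  intro m
  change Finsupp.mapRange (K.locE q S) (map_zero _)
      (Finsupp.mapRange (K.muToE p S) (map_zero _) m) =
    Finsupp.mapRange (muToL p S q) (map_zero _) m
  ext c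
  simp only [Finsupp.mapRange_apply]
  rfl

/-- `Ind_U μ_p → Ind_U ℚ̄_qˣ` is a Kummer embedding. -/
theorem isKummerEmb_indMuToL (q : Nat.Primes) (U : Subgroup _root_.Fermat.Agent.S55.PT.GQ) [U.Normal] :
    IsKummerEmb p (Rep.res (rl q) (K.indG U (muP p))) (K.ind (rl q) U (Tow.unitsQpbar q))
      (indMuToL p S q U) := by
  have h := isKummerEmb_ind_res (rl q) U (muP p) (Tow.unitsQpbar q) (muToL p S q)
    (isKummerEmb_muToL p S q)
  rw [← indMuToL_eq] at h
  exact h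

/-- **LKI-Ind.** -/
theorem locKummerInjInd : LocKummerInjIndSpec p S := by
  intro q hq U hU hUn x _ hx
  haveI := hUn
  exact H53.mem_B2_of_ι_mem_B2 (localLevels q)
    (isSmooth_ind_res (rl q) U (localLevels q) (hrl S ⟨q, hq⟩ U hU) _ (isSmooth_unitsQpbar q))
    (H323.isPDivisible_finsupp_h323 p (isPDivisible_unitsQpbar p q))
    (isKummerEmb_indMuToL p S q U) (semiLocalH90 S ⟨q, hq⟩ U hU hUn) hx


/-! ## 4. `GO4Spec ⇐ CokerESpec` and INV-COK -/

lemma cycloChar_eq_one_of_mu (s : _root_.Fermat.Agent.S55.PT.GQ) (h : (mu p).ρ s = 1) : cycloChar p s = 1 := by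
  have h1 : (mu p).ρ s (1 : ZMod p) = (1 : ZMod p) := by
    rw [h]; rfl
  have h2 : (mu p).ρ s (1 : ZMod p) = ((cycloChar p s : (ZMod p)ˣ) : ZMod p) • (1 : ZMod p) := rfl
  rw [h2, smul_eq_mul, mul_one] at h1
  exact Units.ext h1

lemma zmod_smul_eq_val_nsmul {M : Type*} [AddCommGroup M] [Module (ZMod p) M] (a : ZMod p)
    (m : M) : a • m = a.val • m := by
  haveI : NeZero p := ⟨(Fact.out : p.Prime).ne_zero⟩
  conv_lhs => rw [← ZMod.natCast_zmod_val a]
  exact Nat.cast_smul_eq_nsmul (ZMod p) a.val m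

lemma zmod_eq_zero_of_dvd_val (a : ZMod p) (h : (p : ℤ) ∣ (a.val : ℤ)) : a = 0 := by
  haveI : NeZero p := ⟨(Fact.out : p.Prime).ne_zero⟩
  have h1 : p ∣ a.val := Int.natCast_dvd_natCast.1 h
  have h2 : a.val = 0 := Nat.eq_zero_of_dvd_of_lt h1 (ZMod.val_lt a)
  exact (ZMod.val_eq_zero a).1 h2

/-- The frozen arithmetic core `CokerESpec` (helper3, `Inv/SpecK.lean`) implies `GO4Spec`. -/
theorem go4_of_cokerE (h : CokerESpec p S) : GO4Spec p S := by
  intro hp2 hpS U hU hUn hUμ X X' hX hX'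
  haveI := hUn
  have hcyc : ∀ s ∈ U, cycloChar p s = 1 := fun s hs => cycloChar_eq_one_of_mu p s (hUμ s hs)
  have hsm : ∀ v : ↥S, (localLevels v.1).IsSmooth (K.ind (rl v.1) U (Tow.unitsQpbar v.1)) :=
    fun v => isSmooth_ind_res (rl v.1) U (localLevels v.1) (hrl S v U hU) _
      (isSmooth_unitsQpbar v.1)
  have hdiv : ∀ v : ↥S, IsPDivisible p (K.ind (rl v.1) U (Tow.unitsQpbar v.1)) :=
    fun v => H323.isPDivisible_finsupp_h323 p (isPDivisible_unitsQpbar p v.1)
  have hex : ∀ v : ↥S, ∃ m : Gl v.1 × Gl v.1 → K.indG U (muP p),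
      m ∈ (localLevels v.1).Z2 (Rep.res (rl v.1) (K.indG U (muP p))) ∧
      (indMuToL p S v.1 U ∘ m - X v : Gl v.1 × Gl v.1 → K.ind (rl v.1) U (Tow.unitsQpbar v.1)) ∈
        (localLevels v.1).B2 (K.ind (rl v.1) U (Tow.unitsQpbar v.1)) := fun v =>
    H53.exists_of_p_nsmul_mem_B2 (localLevels v.1) (H723.localNormalCofinal v.1)
      (H723.localFiniteIndex v.1) (hsm v) (hdiv v) (isKummerEmb_indMuToL p S v.1 U)
      (hX v).1 (hX v).2
  have hex' : ∀ v : ↥S, ∃ m : Gl v.1 × Gl v.1 → K.indG U (muP p),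
      m ∈ (localLevels v.1).Z2 (Rep.res (rl v.1) (K.indG U (muP p))) ∧
      (indMuToL p S v.1 U ∘ m - X' v : Gl v.1 × Gl v.1 → K.ind (rl v.1) U (Tow.unitsQpbar v.1)) ∈
        (localLevels v.1).B2 (K.ind (rl v.1) U (Tow.unitsQpbar v.1)) := fun v =>
    H53.exists_of_p_nsmul_mem_B2 (localLevels v.1) (H723.localNormalCofinal v.1)
      (H723.localFiniteIndex v.1) (hsm v) (hdiv v) (isKummerEmb_indMuToL p S v.1 U)
      (hX' v).1 (hX' v).2
  choose x hx hxX using hex
  choose x' hx' hxX' using hex'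
  obtain ⟨a, b, hab, e, he, hpe, hloc⟩ := h hp2 hpS U hU hUn hcyc x x' hx hx'
  refine ⟨(a.val : ℤ), (b.val : ℤ), ?_, e, he, hpe, fun v => ?_⟩
  · rintro ⟨ha, hb⟩
    rcases hab with hab | hab
    · exact hab (zmod_eq_zero_of_dvd_val p a ha)
    · exact hab (zmod_eq_zero_of_dvd_val p b hb)
  · have key : ((a.val : ℤ) • X v + (b.val : ℤ) • X' v -
        (fun y : Gl v.1 × Gl v.1 => (K.indLocE v.1 S U).toAddMonoidHom (e (rl v.1 y.1, rl v.1 y.2)))) =
        - ((a.val : ℤ) • (indMuToL p S v.1 U ∘ x v - X v)) -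
          (b.val : ℤ) • (indMuToL p S v.1 U ∘ x' v - X' v) -
          ((K.indLocE v.1 S U ∘ e ∘ Prod.map (rl v.1) (rl v.1) :
                Gl v.1 × Gl v.1 → K.ind (rl v.1) U (Tow.unitsQpbar v.1)) -
              indMuToL p S v.1 U ∘ (a • x v + b • x' v)) := by
      funext y
      simp only [Pi.sub_apply, Pi.add_apply, Pi.smul_apply, Pi.neg_apply, Function.comp_apply,
        map_add, zmod_smul_eq_val_nsmul, map_nsmul, natCast_zsmul, smul_sub]
      have hE : (K.indLocE v.1 S U).toAddMonoidHom (e (rl v.1 y.1, rl v.1 y.2)) =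
          (K.indLocE v.1 S U) (e (Prod.map (rl v.1) (rl v.1) y)) := rfl
      rw [hE]
      abel
    rw [key]
    refine Submodule.sub_mem _ (Submodule.sub_mem _ (Submodule.neg_mem _ ?_) ?_) (hloc v)
    · exact Submodule.smul_mem _ _ (hxX v)
    · exact Submodule.smul_mem _ _ (hxX' v)


/-- **INV-COK, frozen-interface form.**  `GlobCokerSpec` from the arithmetic core `CokerESpec`
alone (KUM, Hilbert 90, semi-local Hilbert 90, Krasner: all discharged). -/
theorem globCoker_of_cokerE (hp2 : p ≠ 2) (hpS : pPrime p ∈ S) (h : CokerESpec p S) :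
    GlobCokerSpec p S :=
  globCoker_of_GO4 p S hp2 hpS (go4_of_cokerE p S h)

end Fermat.Agent.S55.Inv.H99

end
end
-- ===== PACK-END S55/Inv/CokEH99.lean

-- ===== PACK-BEGIN S55/G/SIndH601/Ord.lean
section
/-
S55 (Poitou–Tate), layer G, leaf G-SIND (helper601), part 1: the normalised valuations of the
local fields `L_𝔪` and the order maps `ord_𝔪 : J_S(L) → ℤ`.
-/



set_option autoImplicit false
set_option linter.unusedSectionVars false
set_option linter.style.haveILetI false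

open scoped NumberField TensorProduct
open IsDedekindDomain

noncomputable section

namespace Fermat.Agent.S55.G.SIndH601

open Fermat.Agent.S55.G

variable (S : Finset Nat.Primes) (L : Type) [Field L] [NumberField L]

/-- The ring of integers of `L_𝔪` is a discrete valuation ring. -/
lemma isDVR_intRing (𝔪 : SPlace S L) : IsDiscreteValuationRing (PL0H713.intRing S L 𝔪) :=
  (PL0H713.isLocalRingOfIntegers_intRing S L 𝔪).1

/-- The normalised valuation of the local field `L_𝔪`. -/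
def locVal (𝔪 : SPlace S L) : Valuation (LocField S 𝔪) (WithZero (Multiplicative ℤ)) :=
  haveI := isDVR_intRing S L 𝔪
  (IsDiscreteValuationRing.maximalIdeal (PL0H713.intRing S L 𝔪)).valuation (LocField S 𝔪)

/-- The order of an idèle at the place `𝔪`: `ord_𝔪 (j) = - log |j_𝔪|`. -/
def placeOrd (𝔪 : SPlace S L) : Additive (AS S L)ˣ →+ ℤ where
  toFun j := - WithZero.log (locVal S L 𝔪 (LocField.mk S 𝔪 ((j.toMul : (AS S L)ˣ) : AS S L)))
  map_zero' := by simp
  map_add' x y := by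
    have hx : locVal S L 𝔪 (LocField.mk S 𝔪 ((x.toMul : (AS S L)ˣ) : AS S L)) ≠ 0 :=
      (Valuation.ne_zero_iff _).2 (IsUnit.ne_zero ((x.toMul).isUnit.map (LocField.mk S 𝔪)))
    have hy : locVal S L 𝔪 (LocField.mk S 𝔪 ((y.toMul : (AS S L)ˣ) : AS S L)) ≠ 0 :=
      (Valuation.ne_zero_iff _).2 (IsUnit.ne_zero ((y.toMul).isUnit.map (LocField.mk S 𝔪)))
    simp only [toMul_add, Units.val_mul, map_mul, WithZero.log_mul hx hy, neg_add]

lemma placeOrd_apply (𝔪 : SPlace S L) (j : Additive (AS S L)ˣ) :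
    placeOrd S L 𝔪 j =
      - WithZero.log (locVal S L 𝔪 (LocField.mk S 𝔪 ((j.toMul : (AS S L)ˣ) : AS S L))) := rfl

lemma locVal_mk_ne_zero (𝔪 : SPlace S L) (j : Additive (AS S L)ˣ) :
    locVal S L 𝔪 (LocField.mk S 𝔪 ((j.toMul : (AS S L)ˣ) : AS S L)) ≠ 0 :=
  (Valuation.ne_zero_iff _).2 (IsUnit.ne_zero ((j.toMul).isUnit.map (LocField.mk S 𝔪)))

lemma locVal_eq_exp_neg_placeOrd (𝔪 : SPlace S L) (j : Additive (AS S L)ˣ) :
    locVal S L 𝔪 (LocField.mk S 𝔪 ((j.toMul : (AS S L)ˣ) : AS S L)) =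
      WithZero.exp (- placeOrd S L 𝔪 j) := by
  rw [placeOrd_apply, neg_neg, WithZero.exp_log (locVal_mk_ne_zero S L 𝔪 j)]

lemma placeOrd_eq_zero_iff (𝔪 : SPlace S L) (j : Additive (AS S L)ˣ) :
    placeOrd S L 𝔪 j = 0 ↔
      locVal S L 𝔪 (LocField.mk S 𝔪 ((j.toMul : (AS S L)ˣ) : AS S L)) = 1 := by
  rw [locVal_eq_exp_neg_placeOrd, WithZero.exp_eq_one, neg_eq_zero]

/-- `locVal x ≤ 1` iff `x` is integral. -/
lemma locVal_le_one_iff (𝔪 : SPlace S L) (x : LocField S 𝔪) :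
    locVal S L 𝔪 x ≤ 1 ↔ x ∈ PL0H713.intRing S L 𝔪 := by
  haveI := isDVR_intRing S L 𝔪
  constructor
  · intro h
    obtain ⟨a, rfl⟩ := IsDiscreteValuationRing.exists_lift_of_le_one h
    exact a.2
  · intro h
    exact HeightOneSpectrum.valuation_le_one _ (⟨x, h⟩ : PL0H713.intRing S L 𝔪)

/-- `locVal x < 1` iff `x` is a non-unit of the ring of integers. -/
lemma locVal_lt_one_iff (𝔪 : SPlace S L) (x : LocField S 𝔪) :
    locVal S L 𝔪 x < 1 ↔ x ∈ (PL0H713.intRing S L 𝔪).nonunits := by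
  haveI := isDVR_intRing S L 𝔪
  constructor
  · intro h
    obtain ⟨a, rfl⟩ := IsDiscreteValuationRing.exists_lift_of_le_one h.le
    have h1 : (IsDiscreteValuationRing.maximalIdeal (PL0H713.intRing S L 𝔪)).valuation
        (LocField S 𝔪) (algebraMap _ (LocField S 𝔪) a) < 1 := h
    rw [HeightOneSpectrum.valuation_lt_one_iff_mem] at h1
    have h2 : a ∈ IsLocalRing.maximalIdeal (PL0H713.intRing S L 𝔪) := h1
    rw [IsLocalRing.mem_maximalIdeal, mem_nonunits_iff] at h2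
    rw [ValuationSubring.mem_nonunits_iff_exists_mem_maximalIdeal]
    exact ⟨a.2, by rwa [IsLocalRing.mem_maximalIdeal, mem_nonunits_iff]⟩
  · intro h
    rw [ValuationSubring.mem_nonunits_iff_exists_mem_maximalIdeal] at h
    obtain ⟨hx, hm⟩ := h
    have : (IsDiscreteValuationRing.maximalIdeal (PL0H713.intRing S L 𝔪)).valuation
        (LocField S 𝔪) (algebraMap _ (LocField S 𝔪) (⟨x, hx⟩ : PL0H713.intRing S L 𝔪)) < 1 := by
      rw [HeightOneSpectrum.valuation_lt_one_iff_mem]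
      exact hm
    exact this

end Fermat.Agent.S55.G.SIndH601

end
end
-- ===== PACK-END S55/G/SIndH601/Ord.lean

-- ===== PACK-BEGIN S55/G/SIndH601/Phi.lean
section
/-
S55 (Poitou–Tate), layer G, leaf G-SIND (helper601), part 2: the map
`Φ : J_{S'}(L) × Div^{S'}(L) → J_S(L) × Div^S(L)`, `Φ (j, d) = (jRes j, divIncl d + tOrd j)`,
for `S ⊆ S'`, relative to a dictionary `β : places above S' → primes of 𝓞_L`.
-/


set_option autoImplicit false
set_option linter.unusedSectionVars false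
set_option linter.style.haveILetI false

open scoped NumberField TensorProduct
open IsDedekindDomain

noncomputable section

namespace Fermat.Agent.S55.G.SIndH601

open Fermat.Agent.S55.G

variable {S S' : Finset Nat.Primes} (h : S ⊆ S') (L : Type) [Field L] [NumberField L]
variable (β : SPlace S' L → HeightOneSpectrum (𝓞 L))

/-- The coefficient function of `tOrd`. -/
def tOrdFun (S : Finset Nat.Primes) (j : Additive (AS S' L)ˣ) (w : PrimeOut S L) : ℤ :=
  open Classical in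
  if hw : ∃ 𝔪, β 𝔪 = w.1 then placeOrd S' L hw.choose j else 0

lemma tOrdFun_of_eq (hβ : Function.Injective β) (j : Additive (AS S' L)ˣ) (w : PrimeOut S L)
    (𝔪 : SPlace S' L) (hw : β 𝔪 = w.1) : tOrdFun L β S j w = placeOrd S' L 𝔪 j := by
  classical
  have hex : ∃ 𝔪, β 𝔪 = w.1 := ⟨𝔪, hw⟩
  have h1 : hex.choose = 𝔪 := hβ (hex.choose_spec.trans hw.symm)
  unfold tOrdFun
  rw [dif_pos hex, h1]

lemma tOrdFun_of_not (j : Additive (AS S' L)ˣ) (w : PrimeOut S L)
    (hw : ¬ ∃ 𝔪, β 𝔪 = w.1) : tOrdFun L β S j w = 0 := by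
  classical
  unfold tOrdFun
  rw [dif_neg hw]

lemma tOrdFun_support_finite (j : Additive (AS S' L)ˣ) :
    (Function.support (tOrdFun L β S j)).Finite := by
  haveI := PL0H713.finite_sPlace S' L
  have hfin : (Set.range β).Finite := Set.finite_range β
  refine (hfin.preimage (Subtype.val_injective.injOn (s := _))).subset fun w hw => ?_
  have hw' : tOrdFun L β S j w ≠ 0 := hw
  by_contra hcon
  exact hw' (tOrdFun_of_not L β j w (fun ⟨𝔪, h𝔪⟩ => hcon ⟨𝔪, h𝔪⟩))

/-- The divisor, supported on the primes `β 𝔪` not above `S`, of an `S'`-idèle: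
`tOrd j = ∑_𝔪 ord_𝔪 (j) [β 𝔪]`. -/
def tOrd (S : Finset Nat.Primes) : Additive (AS S' L)ˣ →+ (PrimeOut S L →₀ ℤ) where
  toFun j := Finsupp.ofSupportFinite (tOrdFun L β S j) (tOrdFun_support_finite L β j)
  map_zero' := by
    classical
    ext w
    simp only [Finsupp.ofSupportFinite_coe, Finsupp.coe_zero, Pi.zero_apply]
    unfold tOrdFun
    split_ifs <;> simp
  map_add' x y := by
    classical
    ext w
    simp only [Finsupp.ofSupportFinite_coe, Finsupp.coe_add, Pi.add_apply]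
    unfold tOrdFun
    split_ifs <;> simp

lemma tOrd_apply (j : Additive (AS S' L)ˣ) (w : PrimeOut S L) :
    tOrd L β S j w = tOrdFun L β S j w := rfl

lemma tOrd_of_eq (hβ : Function.Injective β) (j : Additive (AS S' L)ˣ) (w : PrimeOut S L)
    (𝔪 : SPlace S' L) (hw : β 𝔪 = w.1) : tOrd L β S j w = placeOrd S' L 𝔪 j :=
  tOrdFun_of_eq L β hβ j w 𝔪 hw

lemma tOrd_of_not (j : Additive (AS S' L)ˣ) (w : PrimeOut S L)
    (hw : ¬ ∃ 𝔪, β 𝔪 = w.1) : tOrd L β S j w = 0 :=
  tOrdFun_of_not L β j w hw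

/-- The map `Φ : J_{S'}(L) × Div^{S'}(L) → J_S(L) × Div^S(L)`. -/
def Phi : JD S' L →+ JD S L :=
  AddMonoidHom.prod ((jRes h L).comp (AddMonoidHom.fst _ _))
    ((divIncl h L).comp (AddMonoidHom.snd _ _) + (tOrd L β S).comp (AddMonoidHom.fst _ _))

lemma Phi_fst (y : JD S' L) : (Phi h L β y).1 = jRes h L y.1 := rfl

lemma Phi_snd (y : JD S' L) : (Phi h L β y).2 = divIncl h L y.2 + tOrd L β S y.1 := rfl

lemma Phi_zero_left (d : PrimeOut S' L →₀ ℤ) : Phi h L β (0, d) = (0, divIncl h L d) := by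
  refine Prod.ext ?_ ?_
  · rw [Phi_fst]; simp
  · rw [Phi_snd]; simp

end Fermat.Agent.S55.G.SIndH601

end
end
-- ===== PACK-END S55/G/SIndH601/Phi.lean

-- ===== PACK-BEGIN S55/G/SIndH601/Spec.lean
section
/-
S55 (Poitou–Tate), layer G, leaf G-SIND (helper601): INTERFACE of the sub-leaves.

`SIndepSpec` (helper421, `G/Spec1b.lean`) is assembled in `SIndH601/Assembly.lean` from
`PlacePrimeSpec` (G-PL1) and the sub-leaf statements below.  Only definitions and
`def XxxSpec : Prop`; no `sorry`.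

Vocabulary (`SIndH601/Ord.lean`, `SIndH601/Phi.lean`):
* `locVal S L 𝔪`   : the normalised valuation of `L_𝔪 = LocField S 𝔪` (valuation ring
                      `PL0H713.intRing S L 𝔪`);
* `placeOrd S L 𝔪` : `J_S(L) → ℤ`, the order at the place `𝔪`;
* `tOrd L β S`     : `J_{S'}(L) → Div^S(L)`, `j ↦ ∑_𝔪 ord_𝔪(j) [β 𝔪]` (sum over the places `𝔪` above
                      `S'` with `β 𝔪` not above `S`);
* `Phi h L β`      : `Φ (j, d) = (jRes j, divIncl d + tOrd j)`.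
-/


set_option autoImplicit false
set_option linter.unusedSectionVars false
set_option linter.style.haveILetI false

open scoped NumberField TensorProduct
open IsDedekindDomain CategoryTheory groupCohomology

noncomputable section

namespace Fermat.Agent.S55.G.SIndH601

open Fermat.Agent.S55.G

/-- `β` is a dictionary between the places above `S` (maximal ideals of `L ⊗ ℚ_S`) and the primes
of `𝓞 L` above `S`: a Galois-equivariant bijection compatible with integrality.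
(`PlacePrimeSpec` provides one: `isDict_of_placePrime`.) -/
structure IsDict (S : Finset Nat.Primes) (L : Type) [Field L] [NumberField L]
    (β : SPlace S L → HeightOneSpectrum (𝓞 L)) : Prop where
  inj : Function.Injective β
  above : ∀ 𝔪, IsAbove S L (β 𝔪)
  surj : ∀ w, IsAbove S L w → ∃ 𝔪, β 𝔪 = w
  equiv : ∀ (G : Type) [Group G] [MulSemiringAction G L] (g : G) (𝔪 : SPlace S L),
    β (sPlaceSMul S G g 𝔪) = primeSMul G g (β 𝔪)
  integral : ∀ (𝔪 : SPlace S L) (x : 𝓞 L),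
    x ∈ (β 𝔪).asIdeal ↔ toLoc S 𝔪 (x : L) ∈ (PL0H713.intRing S L 𝔪).nonunits

/-- `PlacePrimeSpec` provides a dictionary. -/
theorem isDict_of_placePrime (hPL1 : PlacePrimeSpec) (S : Finset Nat.Primes) (L : Type)
    [Field L] [NumberField L] :
    ∃ β : SPlace S L → HeightOneSpectrum (𝓞 L), IsDict S L β := by
  obtain ⟨β, hβ1, hβ2⟩ := hPL1 S L
  refine ⟨fun 𝔪 => (β 𝔪).1, ⟨?_, fun 𝔪 => (β 𝔪).2, ?_, ?_, ?_⟩⟩
  · intro a b hab
    exact β.injective (Subtype.ext hab)
  · intro w hw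
    exact ⟨β.symm ⟨w, hw⟩, by simp⟩
  · intro G _ _ g 𝔪
    exact hβ1 G g 𝔪
  · intro 𝔪 x
    exact hβ2 𝔪 (PL0H713.intRing S L 𝔪) (PL0H713.isLocalRingOfIntegers_intRing S L 𝔪) x

/-- **G-SIND-V** (valuation comparison).  For a dictionary `β`, the normalised valuation of `L_𝔪`
restricts to the `β 𝔪`-adic valuation of `L`:  `ord_𝔪 (x ⊗ 1) = ord_{β 𝔪} (x)` for `x ∈ Lˣ`.
(The integrality clause gives `ord_𝔪 = e · ord_{β 𝔪}` on `L`; `e = 1` because `L` is dense in
`L_𝔪`, so `L` contains a uniformiser of `L_𝔪`.) -/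
def OrdDiagSpec : Prop :=
  ∀ (S : Finset Nat.Primes) (L : Type) [Field L] [NumberField L]
    (β : SPlace S L → HeightOneSpectrum (𝓞 L)), IsDict S L β →
    ∀ (𝔪 : SPlace S L) (x : Additive Lˣ), placeOrd S L 𝔪 (unitsDiag S L x) = ordAt (β 𝔪) x

/-- **G-SIND-E** (Galois invariance of the order maps).  `ord_{g 𝔪} (g j) = ord_𝔪 (j)`.
(The isomorphism `L_𝔪 ≅ L_{g 𝔪}` induced by `g ⊗ 1` is `ℚ_S`-linear, hence preserves the rings
of integers = integral closures of `ℤ_q`.) -/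
def OrdEquivSpec : Prop :=
  ∀ (S : Finset Nat.Primes) (G L : Type) [Group G] [Field L] [NumberField L]
    [MulSemiringAction G L] (g : G) (𝔪 : SPlace S L) (j : Additive (AS S L)ˣ),
    placeOrd S L (sPlaceSMul S G g 𝔪) (jRepr G S L g j) = placeOrd S L 𝔪 j

/-- **G-SIND-D** (residue characteristic).  For a dictionary `β` of `S'` and `S ⊆ S'`:
the prime `β 𝔪` lies above `S` iff the rational prime below the place `𝔪` is in `S`. -/
def AboveSpec : Prop :=
  ∀ (S S' : Finset Nat.Primes), S ⊆ S' → ∀ (L : Type) [Field L] [NumberField L]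
    (β : SPlace S' L → HeightOneSpectrum (𝓞 L)), IsDict S' L β →
    ∀ 𝔪 : SPlace S' L, IsAbove S L (β 𝔪) ↔ (PL0H713.primeOf S' L 𝔪).1 ∈ S

/-- **G-SIND-X** (elements with prescribed orders; Mathlib only).  For finitely many primes `w` of
a number field `L` and integers `n w` there is `x ∈ Lˣ` with `ord_w (x) = n w`. -/
def ExistsOrdSpec : Prop :=
  ∀ (L : Type) [Field L] [NumberField L] (W : Finset (HeightOneSpectrum (𝓞 L)))
    (n : HeightOneSpectrum (𝓞 L) → ℤ), ∃ x : Additive Lˣ, ∀ w ∈ W, ordAt w x = n w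

section UT

variable {S S' : Finset Nat.Primes} (h : S ⊆ S') (G L : Type) [Group G] [Field L] [NumberField L]
  [MulSemiringAction G L] (β : SPlace S' L → HeightOneSpectrum (𝓞 L))

/-- The kernel of `Φ`, as a subgroup of `J_{S'}(L)`: the idèles with trivial `S`-components and
unit components at the places `𝔪` with `β 𝔪` not above `S`
(`= ∏_{w | S' ∖ S} U_w`). -/
def unitsT : Submodule ℤ (Additive (AS S' L)ˣ) where
  carrier := {j | jRes h L j = 0 ∧ ∀ 𝔪 : SPlace S' L, ¬ IsAbove S L (β 𝔪) → placeOrd S' L 𝔪 j = 0}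
  add_mem' := by
    rintro a b ⟨ha1, ha2⟩ ⟨hb1, hb2⟩
    refine ⟨by rw [map_add, ha1, hb1, add_zero], fun 𝔪 h𝔪 => ?_⟩
    rw [map_add, ha2 𝔪 h𝔪, hb2 𝔪 h𝔪, add_zero]
  zero_mem' := ⟨map_zero _, fun 𝔪 _ => map_zero _⟩
  smul_mem' := by
    rintro c a ⟨ha1, ha2⟩
    refine ⟨by rw [map_zsmul, ha1, smul_zero], fun 𝔪 h𝔪 => ?_⟩
    rw [map_zsmul, ha2 𝔪 h𝔪, smul_zero]

lemma mem_unitsT_iff (j : Additive (AS S' L)ˣ) :
    j ∈ unitsT h L β ↔
      jRes h L j = 0 ∧ ∀ 𝔪 : SPlace S' L, ¬ IsAbove S L (β 𝔪) → placeOrd S' L 𝔪 j = 0 := Iff.rfl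

end UT

/-- **G-SIND-U** (cohomological triviality of the kernel).  Let `S ⊆ S'`, `S ≠ ∅`, `G` finite acting
faithfully on `L`, unramified outside `S`, `β` a dictionary for `S'`, and let `U ≤ J_{S'}(L)` be
`unitsT h L β` (`= ∏_{w | S' ∖ S} U_w`), which is stable under `G` (`hstab`).  Then
`Hⁿ(H, U) = 0` for all `H ≤ G` and `n ≥ 1`.
(Semi-local Shapiro: `U ≅ ∏_{orbits} Coind_{H_𝔪}^H U_𝔪`; `L_𝔪 / L_𝔪^{H_𝔪}` is unramified, so
`H¹(H_𝔪, U_𝔪) = H²(H_𝔪, U_𝔪) = 0` by the local layer, `H_𝔪` is cyclic, periodicity.) -/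
def UnitsVanishSpec : Prop :=
  ∀ (S S' : Finset Nat.Primes) (h : S ⊆ S') (G L : Type) [Group G] [Finite G] [Field L]
    [NumberField L] [MulSemiringAction G L] [FaithfulSMul G L]
    (β : SPlace S' L → HeightOneSpectrum (𝓞 L)), IsDict S' L β →
    S.Nonempty → IsUnramOut S G L →
    ∀ (hstab : ∀ g : G, unitsT h L β ≤ (unitsT h L β).comap (jRepr G S' L g))
      (H : Subgroup G) (n : ℕ), 0 < n →
      Limits.IsZero (groupCohomology
        (T.resSub (Rep.of ((jRepr G S' L).subrepresentation (unitsT h L β) hstab)) H) n)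

end Fermat.Agent.S55.G.SIndH601

end
end
-- ===== PACK-END S55/G/SIndH601/Spec.lean

-- ===== PACK-BEGIN S55/H963/BrMain.lean
section


/-!
# S55 / G-SI bridge (helper963): the second inequality in helper421's `C_S` model

`Br.card_quotient_le` : let `K ⊆ L` be number fields, `S ≠ ∅` a finite set of primes, `n > 0`
and `H ≤ C_S(K)` (helper421's `CS S K = (J_S(K) × Div^S(K)) / Kˣ`) a subgroup such that
* `n • C_S(K) ⊆ H`;
* for every prime `w` of `L` of prime absolute norm whose restriction `v` to `K` is not above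
  `S`, the class of `(1, [v])` lies in `H`.
Then `C_S(K) / H` is finite of order `≤ [L : K]`.

Application (second inequality): `H` = classes whose base change to `L` is a norm.
-/

set_option autoImplicit false
set_option maxHeartbeats 400000
set_option linter.style.haveILetI false
set_option linter.unusedSectionVars false
set_option linter.unusedVariables false

open scoped NumberField TensorProduct nonZeroDivisors

open IsDedekindDomain

noncomputable section

namespace Fermat.Agent.S55.H963.Br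

open Fermat.Agent.S55.G

variable {S : Finset Nat.Primes} {K : Type} [Field K] [NumberField K]

theorem nontrivial_QS (hS : S.Nonempty) : Nontrivial (QS S) := by
  obtain ⟨q, hq⟩ := hS
  refine ⟨⟨0, 1, fun h => ?_⟩⟩
  have := congrFun h ⟨q, hq⟩
  exact zero_ne_one this

theorem asDiag_injective (hS : S.Nonempty) : Function.Injective (asDiag S K) := by
  haveI := nontrivial_QS hS
  exact Algebra.TensorProduct.includeLeft_injective (algebraMap ℚ (QS S)).injective

/-- Every `S`-idèle is a principal idèle times a unit congruent to `1` modulo `P ^ (2n+2)`. -/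
theorem exists_unit_approx (hS : S.Nonempty) (n : ℕ) (j : (AS S K)ˣ) :
    ∃ (x : Kˣ) (u : (AS S K)ˣ) (r : RS S K),
      (u : AS S K) = 1 + ((PS S : ℕ) : AS S K) ^ (2 * n + 2) * phi S K r ∧
      Units.map ((asDiag S K : K →ₐ[ℚ] AS S K) : K →* AS S K) x = j * u := by
  obtain ⟨e, r₁, h₁⟩ := exists_denom_AS S K ((j⁻¹ : (AS S K)ˣ) : AS S K)
  obtain ⟨x, r₂, h₂⟩ := exists_approx_AS S K (j : AS S K) (2 * n + 2 + e)
  set P : AS S K := ((PS S : ℕ) : AS S K) with hP
  have hu0 : ((j⁻¹ : (AS S K)ˣ) : AS S K) * asDiag S K x =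
      1 + P ^ (2 * n + 2) * phi S K (-(r₁ * r₂)) := by
    have hx : asDiag S K x = (j : AS S K) - P ^ (2 * n + 2 + e) * phi S K r₂ := by
      rw [← h₂]; ring
    rw [hx, mul_sub, Units.inv_mul, map_neg, map_mul, ← h₁]
    ring
  have hunit : IsUnit (1 + P ^ (2 * n + 2) * phi S K (-(r₁ * r₂))) := by
    have := isUnit_one_add_AS S K (((PS S : ℕ) : RS S K) ^ (2 * n + 1) * (-(r₁ * r₂)))
    rw [map_mul, map_pow, map_natCast, ← mul_assoc, ← pow_succ'] at this
    exact this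
  obtain ⟨u, hu⟩ := hunit
  have hxunit : IsUnit (asDiag S K x) := by
    have : asDiag S K x = (j : AS S K) * (u : AS S K) := by
      rw [hu, ← hu0, ← mul_assoc, Units.mul_inv, one_mul]
    rw [this]
    exact (j * u).isUnit
  have hx0 : x ≠ 0 := by
    rintro rfl
    rw [map_zero] at hxunit
    have h01 : (0 : AS S K) = 1 := by
      obtain ⟨z, hz⟩ := hxunit
      have := z.mul_inv
      rw [hz, zero_mul] at this
      exact this
    have : asDiag S K (0 : K) = asDiag S K 1 := by rw [map_zero, map_one]; exact h01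
    exact zero_ne_one (asDiag_injective hS this)
  refine ⟨Units.mk0 x hx0, u, -(r₁ * r₂), hu, ?_⟩
  apply Units.ext
  show asDiag S K x = (j : AS S K) * (u : AS S K)
  rw [hu, ← hu0, ← mul_assoc, Units.mul_inv, one_mul]

theorem cl_zero_zero (H : AddSubgroup (CS S K)) : _root_.Fermat.Agent.S55.H963.Br.cl H ((0, 0) : JD S K) = 0 := by
  have : ((0, 0) : JD S K) = 0 := Prod.ext rfl rfl
  rw [this, map_zero]

/-- The classes of the integral ideals prime to the modulus, as a submonoid of `C_S(K) / H`. -/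
def repMonoid (n : ℕ) (H : AddSubgroup (CS S K)) : AddSubmonoid (CS S K ⧸ H) where
  carrier := {a | ∃ 𝔠 : Ideal (𝓞 K), 𝔠 ≠ ⊥ ∧ IsCoprime 𝔠 (modulus S K n) ∧
    _root_.Fermat.Agent.S55.H963.Br.cl H (0, divS S K 𝔠) = a}
  zero_mem' := ⟨⊤, top_ne_bot, Ideal.isCoprime_iff_sup_eq.mpr (top_sup_eq _), by
    rw [divS_top]
    exact cl_zero_zero H⟩
  add_mem' := by
    rintro a b ⟨𝔠, h0, hc, rfl⟩ ⟨𝔠', h0', hc', rfl⟩
    refine ⟨𝔠 * 𝔠', ?_, hc.mul_left hc', ?_⟩
    · rw [Ne, Ideal.mul_eq_bot]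
      exact fun h => h.elim h0 h0'
    · rw [divS_mul S K h0 h0', cl_add_snd]

/-- The classes of the integral ideals prime to the modulus, as a subgroup of `C_S(K) / H`. -/
def repSet {n : ℕ} (hn : 0 < n) (H : AddSubgroup (CS S K))
    (hpow : ∀ c : CS S K, n • c ∈ H) : AddSubgroup (CS S K ⧸ H) :=
  subgroupOfTorsion (repMonoid n H) hn (nsmul_cl H hpow)

theorem mem_repSet {n : ℕ} (hn : 0 < n) (H : AddSubgroup (CS S K))
    (hpow : ∀ c : CS S K, n • c ∈ H) (a : CS S K ⧸ H) :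
    a ∈ repSet hn H hpow ↔ ∃ 𝔠 : Ideal (𝓞 K), 𝔠 ≠ ⊥ ∧ IsCoprime 𝔠 (modulus S K n) ∧
        _root_.Fermat.Agent.S55.H963.Br.cl H (0, divS S K 𝔠) = a := Iff.rfl

theorem cl_div_mem_repSet {n : ℕ} (hn : 0 < n) (H : AddSubgroup (CS S K))
    (hpow : ∀ c : CS S K, n • c ∈ H) (d : PrimeOut S K →₀ ℤ) :
    _root_.Fermat.Agent.S55.H963.Br.cl H (0, d) ∈ repSet hn H hpow := by
  induction d using Finsupp.induction_linear with
  | zero =>
    rw [cl_zero_zero]
    exact (repSet hn H hpow).zero_mem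
  | add d d' hd hd' =>
    rw [cl_add_snd]
    exact (repSet hn H hpow).add_mem hd hd'
  | single v k =>
    have h1 : ((0, Finsupp.single v k) : JD S K) = k • ((0, Finsupp.single v 1) : JD S K) := by
      refine Prod.ext ?_ ?_
      · show (0 : Additive (AS S K)ˣ) = k • 0
        rw [smul_zero]
      · show Finsupp.single v k = k • Finsupp.single v 1
        rw [Finsupp.smul_single, smul_eq_mul, mul_one]
    rw [h1, map_zsmul]
    refine (repSet hn H hpow).zsmul_mem ?_ k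
    exact (mem_repSet hn H hpow _).mpr
      ⟨v.1.asIdeal, v.1.ne_bot, isCoprime_of_not_isAbove S K v n, by rw [divS_prime]⟩

theorem datum_isSurj (hS : S.Nonempty) {n : ℕ} (hn : 0 < n) (H : AddSubgroup (CS S K))
    (hpow : ∀ c : CS S K, n • c ∈ H) : (datum hS hn H hpow).IsSurj := by
  intro a
  obtain ⟨⟨j', d⟩, hjd⟩ := _root_.Fermat.Agent.S55.H963.Br.cl_surjective H (Multiplicative.toAdd a)
  obtain ⟨x, u, r, hu, hxu⟩ := exists_unit_approx hS n (Additive.toMul j')
  have hsplit : ((j', d) : JD S K) =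
      diagHom S K (Additive.ofMul x) - (Additive.ofMul u, 0) +
        (0, d - ordHom S K (Additive.ofMul x)) := by
    refine Prod.ext ?_ ?_
    · show j' = unitsDiag S K (Additive.ofMul x) - Additive.ofMul u + 0
      have h1 : unitsDiag S K (Additive.ofMul x) = Additive.ofMul (Additive.toMul j' * u) := by
        rw [← hxu]; rfl
      rw [h1, add_zero, ofMul_mul, ofMul_toMul, add_sub_cancel_right]
    · show d = ordHom S K (Additive.ofMul x) - 0 + (d - ordHom S K (Additive.ofMul x))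
      abel
  have hcl : _root_.Fermat.Agent.S55.H963.Br.cl H (j', d) = _root_.Fermat.Agent.S55.H963.Br.cl H (0, d - ordHom S K (Additive.ofMul x)) := by
    rw [hsplit, map_add, map_sub, cl_diag, cl_unit_eq_zero hn H hpow u r hu, sub_zero, zero_add]
  have hmem := cl_div_mem_repSet hn H hpow (d - ordHom S K (Additive.ofMul x))
  rw [← hcl, hjd] at hmem
  obtain ⟨𝔠, h0, hc, h𝔠⟩ := (mem_repSet hn H hpow _).mp hmem
  refine ⟨𝔠, h0, hc, ?_⟩
  show psi S K H 𝔠 = a
  rw [psi_of_ne_bot H h0, h𝔠, ofAdd_toAdd]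

variable {L : Type*} [Field L] [NumberField L] [Algebra K L]

/-- **G-SI core: the second inequality in the `C_S` model.** -/
theorem card_quotient_le (hS : S.Nonempty) {n : ℕ} (hn : 0 < n) (H : AddSubgroup (CS S K))
    (hpow : ∀ c : CS S K, n • c ∈ H)
    (hsplit : ∀ w : HeightOneSpectrum (𝓞 L), (Ideal.absNorm w.asIdeal).Prime →
      ∀ hw : ¬ IsAbove S K (HeightOneSpectrum.under (𝓞 K) w),
        (Submodule.Quotient.mk
          ((0, Finsupp.single (α := PrimeOut S K) ⟨HeightOneSpectrum.under (𝓞 K) w, hw⟩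
            (1 : ℤ)) : JD S K) : CS S K) ∈ H) :
    Finite (CS S K ⧸ H) ∧ Nat.card (CS S K ⧸ H) ≤ Module.finrank K L := by
  refine finite_and_card_le_of_quotients hn (nsmul_cl H hpow) _ fun B hB => ?_
  let f : Multiplicative (CS S K ⧸ H) →* Multiplicative ((CS S K ⧸ H) ⧸ B) :=
    AddMonoidHom.toMultiplicative (QuotientAddGroup.mk' B)
  have hf : Function.Surjective f := fun a => by
    obtain ⟨b, hb⟩ := QuotientAddGroup.mk'_surjective B (Multiplicative.toAdd a)
    exact ⟨Multiplicative.ofAdd b, by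
      show Multiplicative.ofAdd (QuotientAddGroup.mk' B b) = a
      rw [hb, ofAdd_toAdd]⟩
  let D := (datum hS hn H hpow).map f
  haveI : Finite (Multiplicative ((CS S K ⧸ H) ⧸ B)) := hB
  have hD := D.card_le_finrank (L := L)
    ((datum hS hn H hpow).map_isSurj f hf (datum_isSurj hS hn H hpow)) (by
      intro w hw hc
      have hw' : ¬ IsAbove S K (HeightOneSpectrum.under (𝓞 K) w) :=
        not_isAbove_of_isCoprime S K _ n hc
      have h1 := hsplit w hw hw'
      have h2 : _root_.Fermat.Agent.S55.H963.Br.cl H ((0, Finsupp.single (α := PrimeOut S K)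
          ⟨HeightOneSpectrum.under (𝓞 K) w, hw'⟩ (1 : ℤ)) : JD S K) = 0 :=
        (QuotientAddGroup.eq_zero_iff _).mpr h1
      show f (psi S K H (w.asIdeal.under (𝓞 K))) = 1
      have h3 : psi S K H (w.asIdeal.under (𝓞 K)) = 1 := by
        have h0 : (w.asIdeal.under (𝓞 K)) ≠ ⊥ := (HeightOneSpectrum.under (𝓞 K) w).ne_bot
        rw [psi_of_ne_bot H h0]
        have h5 : divS S K (w.asIdeal.under (𝓞 K)) = Finsupp.single (α := PrimeOut S K)
            ⟨HeightOneSpectrum.under (𝓞 K) w, hw'⟩ (1 : ℤ) :=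
          divS_prime S K (⟨HeightOneSpectrum.under (𝓞 K) w, hw'⟩ : PrimeOut S K)
        have h6 : _root_.Fermat.Agent.S55.H963.Br.cl H ((0, divS S K (w.asIdeal.under (𝓞 K))) : JD S K) = 0 := by
          rw [h5]; exact h2
        rw [h6]
        rfl
      rw [h3, map_one])
  have hcard : Nat.card (Multiplicative ((CS S K ⧸ H) ⧸ B)) = Nat.card ((CS S K ⧸ H) ⧸ B) :=
    Nat.card_congr Multiplicative.toAdd
  rw [← hcard]
  exact hD

end Fermat.Agent.S55.H963.Br

end
end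
-- ===== PACK-END S55/H963/BrMain.lean

-- ===== PACK-BEGIN S55/H963/BrIndexBound.lean
section



/-!
# S55 / layer G: the SECOND INEQUALITY `G.SecondInequalitySpec`, unconditional

* `Br.indexBound : G.SI777.IndexBoundStatement` — helper777's index bound statement, from
  `Br.card_quotient_le` (analytic second inequality in the `S`-idèle model, helper963);
* `Br.secondInequality : G.SecondInequalitySpec` — via helper777's assembly
  `SI777.secondInequality_of_indexBound` (Galois descent helper773, `CyclicCardSpec` helper895).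
-/

set_option autoImplicit false
set_option maxHeartbeats 400000
set_option linter.unusedSectionVars false
set_option linter.unusedVariables false

open scoped NumberField TensorProduct

open IsDedekindDomain

noncomputable section

namespace Fermat.Agent.S55.H963.Br

open Fermat.Agent.S55.G

/-- **The index bound** (analytic second inequality in the `S`-idèle class group). -/
theorem indexBound : G.SI777.IndexBoundStatement := by
  intro S K L _ _ _ _ _ n hn hS H hpow hsplit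
  have h := card_quotient_le (L := L) hS hn H hpow (fun w hw hwS => by
    have hwL : ¬ IsAbove S L w := fun h =>
      hwS ((DescH773.isAbove_primeUnder_iff S K w).2 h)
    exact hsplit ⟨w, hwL⟩ hw)
  obtain ⟨hfin, hcard⟩ := h
  have hidx : H.index = Nat.card (CS S K ⧸ H) := rfl
  refine ⟨?_, by rw [hidx]; exact hcard⟩
  rw [hidx]
  exact Nat.card_pos.ne'

/-- **G-SI: the second inequality**, unconditional. -/
theorem secondInequality : G.SecondInequalitySpec :=
  G.SI777.secondInequality_of_indexBound indexBound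

end Fermat.Agent.S55.H963.Br

end
end
-- ===== PACK-END S55/H963/BrIndexBound.lean

-- ===== PACK-BEGIN S55/G/PL1H173/PrimeAt.lean
section


/-!
# S55 layer G, leaf G-PL1 (helper173): the prime of `𝓞 L` below a place of `L ⊗ ℚ_S`

`primeAt S L 𝔪` is the contraction to `𝓞 L` of the maximal ideal of the ring of integers
`PL0H713.intRing S L 𝔪` of the local field `L_𝔪`.
-/

set_option autoImplicit false
set_option linter.unusedSectionVars false
set_option linter.style.haveILetI false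

open scoped NumberField TensorProduct
open IsDedekindDomain

namespace Fermat.Agent.S55.G.PL1H173

open Fermat.Agent.S55.G Fermat.Agent.S55.G.PL0H713

variable (S : Finset Nat.Primes) (L : Type) [Field L] [NumberField L]

/-- The structure map `ℤ_q → L_𝔪`. -/
noncomputable def ofZq (𝔪 : SPlace S L) :
    @PadicInt ((primeOf S L 𝔪).1 : ℕ) ⟨(primeOf S L 𝔪).1.2⟩ →+* LocField S 𝔪 :=
  haveI : Fact (Nat.Prime ((primeOf S L 𝔪).1 : ℕ)) := ⟨(primeOf S L 𝔪).1.2⟩
  (ofQq S L 𝔪).comp (algebraMap ℤ_[((primeOf S L 𝔪).1 : ℕ)] ℚ_[((primeOf S L 𝔪).1 : ℕ)])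

/-- Membership in the ring of integers of `L_𝔪`: integrality over `ℤ_q`. -/
lemma mem_intRing_iff (𝔪 : SPlace S L) (y : LocField S 𝔪) :
    y ∈ intRing S L 𝔪 ↔ (ofZq S L 𝔪).IsIntegralElem y := Iff.rfl

lemma ofZq_mem_intRing (𝔪 : SPlace S L)
    (u : @PadicInt ((primeOf S L 𝔪).1 : ℕ) ⟨(primeOf S L 𝔪).1.2⟩) :
    ofZq S L 𝔪 u ∈ intRing S L 𝔪 :=
  RingHom.isIntegralElem_map _

/-- Integers of `L` are integral in `L_𝔪`. -/
lemma toLoc_mem_intRing (𝔪 : SPlace S L) (x : 𝓞 L) : toLoc S 𝔪 (x : L) ∈ intRing S L 𝔪 := by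
  haveI : Fact (Nat.Prime ((primeOf S L 𝔪).1 : ℕ)) := ⟨(primeOf S L 𝔪).1.2⟩
  obtain ⟨P, hP, hx⟩ := x.2
  change (ofZq S L 𝔪).IsIntegralElem _
  refine ⟨P.map (Int.castRingHom ℤ_[((primeOf S L 𝔪).1 : ℕ)]), hP.map _, ?_⟩
  rw [Polynomial.eval₂_map]
  have h1 : (ofZq S L 𝔪).comp (Int.castRingHom ℤ_[((primeOf S L 𝔪).1 : ℕ)]) =
      (toLoc S 𝔪).comp (algebraMap ℤ L) := RingHom.ext_int _ _
  rw [h1, ← Polynomial.hom_eval₂]
  exact (congrArg (toLoc S 𝔪) hx).trans (map_zero _)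

/-- If `ofQq z` is integral then `z` is a `q`-adic integer. -/
lemma norm_le_one_of_ofQq_mem (𝔪 : SPlace S L) (z : Qq (primeOf S L 𝔪).1)
    (hz : ofQq S L 𝔪 z ∈ intRing S L 𝔪) : ‖z‖ ≤ 1 := by
  haveI : Fact (Nat.Prime ((primeOf S L 𝔪).1 : ℕ)) := ⟨(primeOf S L 𝔪).1.2⟩
  obtain ⟨p, hp, hz⟩ := (mem_intRing_iff S L 𝔪 _).1 hz
  have h2 : Polynomial.eval₂ (algebraMap ℤ_[((primeOf S L 𝔪).1 : ℕ)]
      ℚ_[((primeOf S L 𝔪).1 : ℕ)]) z p = 0 := by
    apply (ofQq S L 𝔪).injective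
    rw [Polynomial.hom_eval₂, map_zero]
    exact hz
  have h3 : IsIntegral ℤ_[((primeOf S L 𝔪).1 : ℕ)] z := ⟨p, hp, h2⟩
  obtain ⟨u, rfl⟩ := IsIntegrallyClosed.isIntegral_iff.1 h3
  exact u.2

lemma ofQq_natCast (𝔪 : SPlace S L) (n : ℕ) : ofQq S L 𝔪 (n : Qq (primeOf S L 𝔪).1) = n :=
  map_natCast _ n

/-- The residue characteristic is not a unit of the ring of integers. -/
lemma natCast_primeOf_mem_nonunits (𝔪 : SPlace S L) :
    (((primeOf S L 𝔪).1 : ℕ) : LocField S 𝔪) ∈ (intRing S L 𝔪).nonunits := by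
  haveI : Fact (Nat.Prime ((primeOf S L 𝔪).1 : ℕ)) := ⟨(primeOf S L 𝔪).1.2⟩
  rw [ValuationSubring.mem_nonunits_iff_or]
  right
  intro h
  have h1 : ofQq S L 𝔪 ((((primeOf S L 𝔪).1 : ℕ) : Qq (primeOf S L 𝔪).1)⁻¹) ∈
      intRing S L 𝔪 := by
    rw [map_inv₀, ofQq_natCast]
    exact h
  have h2 := norm_le_one_of_ofQq_mem S L 𝔪 _ h1
  rw [norm_inv, Padic.norm_p] at h2
  have h3 : (1 : ℝ) < (((primeOf S L 𝔪).1 : ℕ) : ℝ) := by
    exact_mod_cast (primeOf S L 𝔪).1.2.one_lt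
  rw [inv_inv] at h2
  linarith

/-- The ring homomorphism `𝓞 L → 𝒪_{L_𝔪}`. -/
noncomputable def toInt (𝔪 : SPlace S L) : 𝓞 L →+* (intRing S L 𝔪) :=
  ((toLoc S 𝔪).comp (algebraMap (𝓞 L) L)).codRestrict (intRing S L 𝔪).toSubring
    (fun x => toLoc_mem_intRing S L 𝔪 x)

@[simp] lemma coe_toInt (𝔪 : SPlace S L) (x : 𝓞 L) :
    ((toInt S L 𝔪 x : intRing S L 𝔪) : LocField S 𝔪) = toLoc S 𝔪 (x : L) := rfl

/-- The prime of `𝓞 L` below the place `𝔪`. -/
noncomputable def primeAt (𝔪 : SPlace S L) : HeightOneSpectrum (𝓞 L) where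
  asIdeal := Ideal.comap (toInt S L 𝔪) (IsLocalRing.maximalIdeal (intRing S L 𝔪))
  isPrime := Ideal.comap_isPrime _ _
  ne_bot := by
    intro h
    have hq : (((primeOf S L 𝔪).1 : ℕ) : 𝓞 L) ∈
        Ideal.comap (toInt S L 𝔪) (IsLocalRing.maximalIdeal (intRing S L 𝔪)) := by
      rw [Ideal.mem_comap, ← ValuationSubring.coe_mem_nonunits_iff, coe_toInt]
      have := natCast_primeOf_mem_nonunits S L 𝔪
      simpa using this
    rw [h, Ideal.mem_bot] at hq
    have : ((primeOf S L 𝔪).1 : ℕ) = 0 := by exact_mod_cast hq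
    exact (primeOf S L 𝔪).1.2.ne_zero this

lemma mem_primeAt_iff (𝔪 : SPlace S L) (x : 𝓞 L) :
    x ∈ (primeAt S L 𝔪).asIdeal ↔ toLoc S 𝔪 (x : L) ∈ (intRing S L 𝔪).nonunits := by
  change toInt S L 𝔪 x ∈ IsLocalRing.maximalIdeal (intRing S L 𝔪) ↔ _
  rw [← ValuationSubring.coe_mem_nonunits_iff, coe_toInt]

lemma natCast_primeOf_mem_primeAt (𝔪 : SPlace S L) :
    (((primeOf S L 𝔪).1 : ℕ) : 𝓞 L) ∈ (primeAt S L 𝔪).asIdeal := by
  rw [mem_primeAt_iff]
  have := natCast_primeOf_mem_nonunits S L 𝔪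
  simpa using this

lemma isAbove_primeAt (𝔪 : SPlace S L) : IsAbove S L (primeAt S L 𝔪) :=
  ⟨(primeOf S L 𝔪).1, (primeOf S L 𝔪).2, natCast_primeOf_mem_primeAt S L 𝔪⟩

/-- A prime ideal of `𝓞 L` contains at most one rational prime. -/
lemma prime_unique_of_mem (w : HeightOneSpectrum (𝓞 L)) {q q' : ℕ} (hq : q.Prime)
    (hq' : q'.Prime) (h : (q : 𝓞 L) ∈ w.asIdeal) (h' : (q' : 𝓞 L) ∈ w.asIdeal) : q = q' := by
  by_contra hne
  have hcop : Nat.Coprime q q' := (Nat.coprime_primes hq hq').2 hne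
  have h1 : ((q : ℤ) * Nat.gcdA q q' + (q' : ℤ) * Nat.gcdB q q' : ℤ) = 1 := by
    have := Nat.gcd_eq_gcd_ab q q'
    rw [hcop] at this
    exact_mod_cast this.symm
  have h2 : ((1 : ℤ) : 𝓞 L) ∈ w.asIdeal := by
    rw [← h1]
    push_cast
    exact w.asIdeal.add_mem (w.asIdeal.mul_mem_right _ h) (w.asIdeal.mul_mem_right _ h')
  rw [Int.cast_one] at h2
  exact w.isPrime.ne_top ((Ideal.eq_top_iff_one _).2 h2)

lemma primeOf_eq_of_mem_primeAt (𝔪 : SPlace S L) (q : S)
    (h : ((q.1 : ℕ) : 𝓞 L) ∈ (primeAt S L 𝔪).asIdeal) : q = primeOf S L 𝔪 := by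
  apply Subtype.ext
  apply Subtype.ext
  exact prime_unique_of_mem L (primeAt S L 𝔪) q.1.2 (primeOf S L 𝔪).1.2 h
    (natCast_primeOf_mem_primeAt S L 𝔪)

end Fermat.Agent.S55.G.PL1H173

end
-- ===== PACK-END S55/G/PL1H173/PrimeAt.lean

-- ===== PACK-BEGIN S55/G/PL1H173/Coord.lean
section


/-!
# S55 layer G, leaf G-PL1 (helper173): coordinates on `L ⊗ ℚ_S` and `S`-integrality

* `co S L i : L ⊗ ℚ_S → ℚ_S`, the coordinates with respect to the integral basis of `L`;
* `IsSInt S y`: `y ∈ ℚ_S` is integral at every `q ∈ S`;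
* `valuation_le_one_of_isSInt_co`: if all coordinates of `x ⊗ 1` (`x ∈ L`) are `S`-integral,
  then `x` is integral at every prime of `L` above `S`.
-/

set_option autoImplicit false
set_option linter.unusedSectionVars false
set_option linter.style.haveILetI false

open scoped NumberField TensorProduct
open IsDedekindDomain

namespace Fermat.Agent.S55.G.PL1H173

open Fermat.Agent.S55.G Fermat.Agent.S55.G.PL0H713

variable (S : Finset Nat.Primes) (L : Type) [Field L] [NumberField L]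

/-! ### Rational numbers -/

/-- A natural number lies in a prime of `𝓞 L` above `q` iff it is divisible by `q`. -/
lemma natCast_mem_iff (w : HeightOneSpectrum (𝓞 L)) {q : ℕ} (hq : q.Prime)
    (h : (q : 𝓞 L) ∈ w.asIdeal) (n : ℕ) : (n : 𝓞 L) ∈ w.asIdeal ↔ q ∣ n := by
  constructor
  · intro hn
    by_contra hdvd
    have hcop : Nat.Coprime q n := (Nat.Prime.coprime_iff_not_dvd hq).2 hdvd
    have h1 : ((q : ℤ) * Nat.gcdA q n + (n : ℤ) * Nat.gcdB q n : ℤ) = 1 := by
      have := Nat.gcd_eq_gcd_ab q n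
      rw [hcop] at this
      exact_mod_cast this.symm
    have h2 : ((1 : ℤ) : 𝓞 L) ∈ w.asIdeal := by
      rw [← h1]
      push_cast
      exact w.asIdeal.add_mem (w.asIdeal.mul_mem_right _ h) (w.asIdeal.mul_mem_right _ hn)
    rw [Int.cast_one] at h2
    exact w.isPrime.ne_top ((Ideal.eq_top_iff_one _).2 h2)
  · rintro ⟨m, rfl⟩
    push_cast
    exact w.asIdeal.mul_mem_right _ h

/-- A rational number which is a `q`-adic integer has denominator prime to `q`. -/
lemma not_dvd_den_of_norm_le_one (q : ℕ) [Fact q.Prime] (r : ℚ) (hr : ‖(r : ℚ_[q])‖ ≤ 1) :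
    ¬ q ∣ r.den := by
  intro hdvd
  have hnum : ¬ (q : ℤ) ∣ r.num := by
    intro h
    have h1 : q ∣ r.num.natAbs := Int.natCast_dvd.1 h
    have h2 := Nat.dvd_gcd h1 hdvd
    rw [r.reduced] at h2
    exact (Fact.out : q.Prime).one_lt.ne' (Nat.dvd_one.1 h2)
  have h3 : ‖(r.num : ℚ_[q])‖ = 1 := by
    have hle := Padic.norm_int_le_one (p := q) r.num
    have hnlt : ¬ ‖(r.num : ℚ_[q])‖ < 1 := fun h => hnum (Padic.norm_intCast_lt_one_iff.1 h)
    exact le_antisymm hle (not_lt.1 hnlt)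
  have h4 : ‖((r.den : ℤ) : ℚ_[q])‖ < 1 :=
    Padic.norm_intCast_lt_one_iff.2 (Int.natCast_dvd_natCast.2 hdvd)
  have hden0 : ((r.den : ℤ) : ℚ_[q]) ≠ 0 := by
    have := r.den_pos
    exact_mod_cast this.ne'
  have h5 : (r : ℚ_[q]) * ((r.den : ℤ) : ℚ_[q]) = (r.num : ℚ_[q]) := by
    have := Rat.mul_den_eq_num r
    exact_mod_cast congrArg (fun t : ℚ => (t : ℚ_[q])) this
  have h6 := congrArg norm h5
  rw [norm_mul, h3] at h6
  have h7 : ‖(r : ℚ_[q])‖ * ‖((r.den : ℤ) : ℚ_[q])‖ < 1 := by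
    calc ‖(r : ℚ_[q])‖ * ‖((r.den : ℤ) : ℚ_[q])‖ ≤ 1 * ‖((r.den : ℤ) : ℚ_[q])‖ :=
          mul_le_mul_of_nonneg_right hr (norm_nonneg _)
      _ < 1 := by rw [one_mul]; exact h4
  rw [h6] at h7
  exact lt_irrefl _ h7

/-- A rational number which is a `q`-adic integer is integral at every prime of `L` above `q`. -/
lemma valuation_rat_le_one (w : HeightOneSpectrum (𝓞 L)) {q : ℕ} (hq : q.Prime)
    (h : (q : 𝓞 L) ∈ w.asIdeal) (r : ℚ)
    (hr : ‖(r : @Padic q ⟨hq⟩)‖ ≤ 1) : w.valuation L (algebraMap ℚ L r) ≤ 1 := by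
  haveI : Fact q.Prime := ⟨hq⟩
  have hden := not_dvd_den_of_norm_le_one q r hr
  have h1 : (r.den : 𝓞 L) ∉ w.asIdeal := fun hmem => hden ((natCast_mem_iff L w hq h _).1 hmem)
  have h2 : w.valuation L (algebraMap (𝓞 L) L (r.den : 𝓞 L)) = 1 :=
    (HeightOneSpectrum.valuation_eq_one_iff_notMem (K := L) w).2 h1
  have h3 : w.valuation L (algebraMap (𝓞 L) L (r.num : 𝓞 L)) ≤ 1 :=
    HeightOneSpectrum.valuation_le_one w _
  have h4 : algebraMap ℚ L r * algebraMap (𝓞 L) L (r.den : 𝓞 L) =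
      algebraMap (𝓞 L) L (r.num : 𝓞 L) := by
    have := Rat.mul_den_eq_num r
    have h5 := congrArg (algebraMap ℚ L) this
    rw [map_mul] at h5
    simpa using h5
  have h6 := congrArg (w.valuation L) h4
  rw [map_mul, h2, mul_one] at h6
  rw [h6]
  exact h3

/-! ### `S`-integers of `ℚ_S` -/

/-- `y ∈ ℚ_S` is integral at every `q ∈ S`. -/
def IsSInt (y : QS S) : Prop := ∀ q : S, ‖QS.toPi S y q‖ ≤ 1

variable {S} in
lemma IsSInt.add {y z : QS S} (hy : IsSInt S y) (hz : IsSInt S z) : IsSInt S (y + z) := by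
  intro q
  haveI : Fact (Nat.Prime (q.1 : ℕ)) := ⟨q.1.2⟩
  have h : QS.toPi S (y + z) q = QS.toPi S y q + QS.toPi S z q := rfl
  rw [h]
  exact (Padic.nonarchimedean _ _).trans (max_le (hy q) (hz q))

variable {S} in
lemma IsSInt.mul {y z : QS S} (hy : IsSInt S y) (hz : IsSInt S z) : IsSInt S (y * z) := by
  intro q
  haveI : Fact (Nat.Prime (q.1 : ℕ)) := ⟨q.1.2⟩
  have h : QS.toPi S (y * z) q = QS.toPi S y q * QS.toPi S z q := rfl
  rw [h, norm_mul]
  exact mul_le_one₀ (hy q) (norm_nonneg _) (hz q)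

lemma isSInt_zero : IsSInt S 0 := by
  intro q
  haveI : Fact (Nat.Prime (q.1 : ℕ)) := ⟨q.1.2⟩
  have h : QS.toPi S (0 : QS S) q = 0 := rfl
  rw [h, norm_zero]
  exact zero_le_one

lemma isSInt_intCast (n : ℤ) : IsSInt S (algebraMap ℚ (QS S) (n : ℚ)) := by
  intro q
  haveI : Fact (Nat.Prime (q.1 : ℕ)) := ⟨q.1.2⟩
  have h : QS.toPi S (algebraMap ℚ (QS S) (n : ℚ)) q = ((n : ℚ) : ℚ_[(q.1 : ℕ)]) := by
    have := (QS.proj S q).commutes (n : ℚ)
    rw [QS.proj_apply] at this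
    rw [this, eq_ratCast]
  rw [h]
  have := Padic.norm_int_le_one (p := (q.1 : ℕ)) n
  simpa using this

lemma isSInt_sum {ι : Type*} (s : Finset ι) (f : ι → QS S) (h : ∀ i ∈ s, IsSInt S (f i)) :
    IsSInt S (∑ i ∈ s, f i) := by
  classical
  induction s using Finset.induction_on with
  | empty => simpa using isSInt_zero S
  | insert a s ha ih =>
    rw [Finset.sum_insert ha]
    exact (h a (Finset.mem_insert_self a s)).add
      (ih (fun i hi => h i (Finset.mem_insert_of_mem hi)))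

/-! ### Coordinates -/

/-- The index set of the integral basis. -/
abbrev Idx : Type := Module.Free.ChooseBasisIndex ℤ (𝓞 L)

/-- The coordinates on `L ⊗ ℚ_S` with respect to the integral basis of `L`. -/
noncomputable def co (i : Idx L) : AS S L →ₗ[ℚ] QS S :=
  (TensorProduct.lid ℚ (QS S)).toLinearMap ∘ₗ
    (LinearMap.rTensor (QS S) ((NumberField.integralBasis L).coord i))

@[simp] lemma co_tmul (i : Idx L) (l : L) (y : QS S) :
    co S L i (l ⊗ₜ[ℚ] y) = ((NumberField.integralBasis L).repr l i) • y := by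
  simp [co]

lemma co_mul_asIncl (i : Idx L) (c : AS S L) (y : QS S) :
    co S L i (c * asIncl S L y) = co S L i c * y := by
  induction c using TensorProduct.induction_on with
  | zero => simp
  | tmul l z =>
    have h : (l ⊗ₜ[ℚ] z : AS S L) * asIncl S L y = l ⊗ₜ[ℚ] (z * y) := by
      change (l ⊗ₜ[ℚ] z : AS S L) * ((1 : L) ⊗ₜ[ℚ] y) = _
      rw [Algebra.TensorProduct.tmul_mul_tmul, mul_one]
    rw [h, co_tmul, co_tmul, smul_mul_assoc]
  | add a b ha hb => rw [add_mul, map_add, map_add, ha, hb, add_mul]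

lemma co_asDiag (i : Idx L) (x : L) :
    co S L i (asDiag S L x) = algebraMap ℚ (QS S) ((NumberField.integralBasis L).repr x i) := by
  rw [asDiag_apply, co_tmul, Algebra.smul_def, mul_one]

/-- If all coordinates of `x ⊗ 1` are `S`-integral, then `x` is integral at every prime of `L`
above `S`. -/
theorem valuation_le_one_of_isSInt_co (w : HeightOneSpectrum (𝓞 L)) (hw : IsAbove S L w) (x : L)
    (hx : ∀ i, IsSInt S (co S L i (asDiag S L x))) : w.valuation L x ≤ 1 := by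
  obtain ⟨q, hqS, hq⟩ := hw
  have hrepr := (NumberField.integralBasis L).sum_repr x
  rw [← hrepr]
  apply Valuation.map_sum_le
  intro i _
  rw [Algebra.smul_def, map_mul]
  have h1 : w.valuation L (algebraMap ℚ L ((NumberField.integralBasis L).repr x i)) ≤ 1 := by
    apply valuation_rat_le_one L w q.2 hq
    have h2 := hx i ⟨q, hqS⟩
    rw [co_asDiag] at h2
    have h3 : QS.toPi S (algebraMap ℚ (QS S) ((NumberField.integralBasis L).repr x i))
        ⟨q, hqS⟩ = (((NumberField.integralBasis L).repr x i : ℚ) : @Padic (q : ℕ) ⟨q.2⟩) := by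
      have := (QS.proj S ⟨q, hqS⟩).commutes ((NumberField.integralBasis L).repr x i)
      rw [QS.proj_apply] at this
      rw [this, eq_ratCast]
    rw [h3] at h2
    exact h2
  have h4 : w.valuation L (NumberField.integralBasis L i) ≤ 1 := by
    rw [NumberField.integralBasis_apply]
    exact HeightOneSpectrum.valuation_le_one w _
  exact mul_le_one' h1 h4

end Fermat.Agent.S55.G.PL1H173

end
-- ===== PACK-END S55/G/PL1H173/Coord.lean

-- ===== PACK-BEGIN S55/G/PL1H173/Dense.lean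
section



/-!
# S55 layer G, leaf G-PL1 (helper173): density of `L` in `L_𝔪` and the valuation dictionary

* `locVal S L 𝔪` : the normalised valuation of the local field `L_𝔪`;
* `exists_approx₂` : simultaneous approximation of an element of `L ⊗ ℚ_S` by an element of `L`
  at two places above the same rational prime;
* `locVal_toLoc` : `locVal 𝔪 (toLoc 𝔪 x) = (primeAt 𝔪).valuation L x` (PL1-VAL).
-/

set_option autoImplicit false
set_option linter.unusedSectionVars false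
set_option linter.style.haveILetI false

open scoped NumberField TensorProduct
open IsDedekindDomain WithZero

namespace Fermat.Agent.S55.G.PL1H173

open Fermat.Agent.S55.G Fermat.Agent.S55.G.PL0H713

variable (S : Finset Nat.Primes) (L : Type) [Field L] [NumberField L]

/-- The normalised valuation of the local field `L_𝔪`. -/
noncomputable def locVal (𝔪 : SPlace S L) : Valuation (LocField S 𝔪) ℤᵐ⁰ :=
  haveI := (isLocalRingOfIntegers_intRing S L 𝔪).1
  dvrVal (intRing S L 𝔪)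

lemma locVal_le_one_iff (𝔪 : SPlace S L) (y : LocField S 𝔪) :
    locVal S L 𝔪 y ≤ 1 ↔ y ∈ intRing S L 𝔪 :=
  haveI := (isLocalRingOfIntegers_intRing S L 𝔪).1
  dvrVal_le_one_iff (intRing S L 𝔪) y

lemma locVal_lt_one_iff (𝔪 : SPlace S L) (y : LocField S 𝔪) :
    locVal S L 𝔪 y < 1 ↔ y ∈ (intRing S L 𝔪).nonunits :=
  haveI := (isLocalRingOfIntegers_intRing S L 𝔪).1
  dvrVal_lt_one_iff (intRing S L 𝔪) y

lemma exists_locVal_eq_exp_neg_one (𝔪 : SPlace S L) :
    ∃ π : LocField S 𝔪, locVal S L 𝔪 π = exp (-1 : ℤ) :=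
  haveI := (isLocalRingOfIntegers_intRing S L 𝔪).1
  exists_dvrVal_eq_exp_neg_one (intRing S L 𝔪)

/-- In `ℤᵐ⁰`, `x < 1` iff `x ≤ exp (-1)`. -/
lemma lt_one_iff_le_exp_neg_one (x : ℤᵐ⁰) : x < 1 ↔ x ≤ exp (-1 : ℤ) := by
  have h := lt_mul_exp_iff_le (x := x) (y := exp (-1 : ℤ)) exp_ne_zero
  rw [← exp_add] at h
  simpa using h

lemma locVal_toLoc_le_one (𝔪 : SPlace S L) (x : 𝓞 L) : locVal S L 𝔪 (toLoc S 𝔪 (x : L)) ≤ 1 :=
  (locVal_le_one_iff S L 𝔪 _).2 (toLoc_mem_intRing S L 𝔪 x)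

lemma locVal_toLoc_lt_one_iff (𝔪 : SPlace S L) (x : 𝓞 L) :
    locVal S L 𝔪 (toLoc S 𝔪 (x : L)) < 1 ↔ x ∈ (primeAt S L 𝔪).asIdeal := by
  rw [locVal_lt_one_iff, mem_primeAt_iff]

lemma locVal_natCast_primeOf (𝔪 : SPlace S L) :
    locVal S L 𝔪 (((primeOf S L 𝔪).1 : ℕ) : LocField S 𝔪) ≤ exp (-1 : ℤ) := by
  rw [← lt_one_iff_le_exp_neg_one, locVal_lt_one_iff]
  exact natCast_primeOf_mem_nonunits S L 𝔪

/-- `ofQq` of a `q`-adically small element is small. -/
lemma locVal_ofQq_le (𝔪 : SPlace S L) (z : Qq (primeOf S L 𝔪).1) (k : ℕ)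
    (hz : ‖z‖ ≤ (((primeOf S L 𝔪).1 : ℕ) : ℝ) ^ (-(k : ℤ))) :
    locVal S L 𝔪 (ofQq S L 𝔪 z) ≤ exp (-(k : ℤ)) := by
  haveI : Fact (Nat.Prime ((primeOf S L 𝔪).1 : ℕ)) := ⟨(primeOf S L 𝔪).1.2⟩
  have hz1 : ‖z‖ ≤ 1 := by
    refine hz.trans ?_
    apply zpow_le_one_of_nonpos₀
    · exact_mod_cast (primeOf S L 𝔪).1.2.one_lt.le
    · simp
  have hmem := (PadicInt.norm_le_pow_iff_mem_span_pow (⟨z, hz1⟩ : ℤ_[((primeOf S L 𝔪).1 : ℕ)]) k).1 hz
  obtain ⟨u, hu⟩ := Ideal.mem_span_singleton'.1 hmem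
  have hz2 : z = (u : ℚ_[((primeOf S L 𝔪).1 : ℕ)]) * (((primeOf S L 𝔪).1 : ℕ) : ℚ_[((primeOf S L 𝔪).1 : ℕ)]) ^ k := by
    have := congrArg (fun t : ℤ_[((primeOf S L 𝔪).1 : ℕ)] => (t : ℚ_[((primeOf S L 𝔪).1 : ℕ)])) hu
    simpa using this.symm
  rw [hz2, map_mul, map_pow, ofQq_natCast, map_mul, map_pow]
  have h1 : locVal S L 𝔪 (ofQq S L 𝔪 (u : ℚ_[((primeOf S L 𝔪).1 : ℕ)])) ≤ 1 :=
    (locVal_le_one_iff S L 𝔪 _).2 (ofZq_mem_intRing S L 𝔪 u)
  have h2 : locVal S L 𝔪 (((primeOf S L 𝔪).1 : ℕ) : LocField S 𝔪) ^ k ≤ exp (-(k : ℤ)) := by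
    have := pow_le_pow_left₀ zero_le (locVal_natCast_primeOf S L 𝔪) k
    refine this.trans (le_of_eq ?_)
    rw [← exp_nsmul]
    simp
  calc _ ≤ 1 * exp (-(k : ℤ)) := mul_le_mul' h1 h2
    _ = _ := one_mul _

/-- Rational approximation in `ℚ_q`. -/
lemma exists_rat_close (q : S) (y : QS S) (k : ℕ) :
    ∃ r : ℚ, ‖QS.toPi S y q - (algebraMap ℚ (Qq q.1) r)‖ ≤ ((q.1 : ℕ) : ℝ) ^ (-(k : ℤ)) := by
  haveI : Fact (Nat.Prime (q.1 : ℕ)) := ⟨q.1.2⟩
  have hpos : (0 : ℝ) < ((q.1 : ℕ) : ℝ) ^ (-(k : ℤ)) :=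
    zpow_pos (by exact_mod_cast q.1.2.pos) _
  obtain ⟨r, hr⟩ := Padic.rat_dense (q.1 : ℕ) (QS.toPi S y q) hpos
  refine ⟨r, ?_⟩
  rw [eq_ratCast]
  exact hr.le

/-- Closeness in `ℚ_q` implies closeness in `L_𝔪`. -/
lemma locVal_ofQS_sub_le (𝔪 : SPlace S L) (q : S) (hq : primeOf S L 𝔪 = q) (y : QS S) (r : ℚ)
    (k : ℕ)
    (hr : ‖QS.toPi S y q - (algebraMap ℚ (Qq q.1) r)‖ ≤ ((q.1 : ℕ) : ℝ) ^ (-(k : ℤ))) :
    locVal S L 𝔪 (LocField.ofQS S 𝔪 y - toLoc S 𝔪 (algebraMap ℚ L r)) ≤ exp (-(k : ℤ)) := by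
  subst hq
  rw [ofQS_eq, toLoc_algebraMap, ← map_sub]
  exact locVal_ofQq_le S L 𝔪 _ k hr

lemma toLoc_injective (𝔪 : SPlace S L) : Function.Injective (toLoc S 𝔪) :=
  (toLoc S 𝔪).injective

/-- **Simultaneous approximation** of an element of `L ⊗ ℚ_S` by elements of `L` at two places
above the same rational prime. -/
theorem exists_approx₂ (𝔪 𝔪' : SPlace S L) (h : primeOf S L 𝔪' = primeOf S L 𝔪) (a : AS S L) :
    ∀ (γ γ' : ℤᵐ⁰), γ ≠ 0 → γ' ≠ 0 →
    ∃ x : L, locVal S L 𝔪 (LocField.mk S 𝔪 a - toLoc S 𝔪 x) < γ ∧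
      locVal S L 𝔪' (LocField.mk S 𝔪' a - toLoc S 𝔪' x) < γ' := by
  induction a using TensorProduct.induction_on with
  | zero =>
    intro γ γ' hγ hγ'
    refine ⟨0, ?_, ?_⟩
    · simpa using zero_lt_iff.2 hγ
    · simpa using zero_lt_iff.2 hγ'
  | tmul l y =>
    intro γ γ' hγ hγ'
    rcases eq_or_ne l 0 with rfl | hl
    · refine ⟨0, ?_, ?_⟩
      · simpa using zero_lt_iff.2 hγ
      · simpa using zero_lt_iff.2 hγ'
    have hc : locVal S L 𝔪 (toLoc S 𝔪 l) ≠ 0 :=
      (Valuation.ne_zero_iff _).2 (fun h0 => hl (toLoc_injective S L 𝔪 (h0.trans (map_zero _).symm)))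
    have hc' : locVal S L 𝔪' (toLoc S 𝔪' l) ≠ 0 :=
      (Valuation.ne_zero_iff _).2 (fun h0 => hl (toLoc_injective S L 𝔪' (h0.trans (map_zero _).symm)))
    obtain ⟨k, hk, hk'⟩ := exists_exp_neg_natCast_lt_and_lt
      (x := γ * (locVal S L 𝔪 (toLoc S 𝔪 l))⁻¹) (y := γ' * (locVal S L 𝔪' (toLoc S 𝔪' l))⁻¹)
      (mul_ne_zero hγ (inv_ne_zero hc)) (mul_ne_zero hγ' (inv_ne_zero hc'))
    obtain ⟨r, hr⟩ := exists_rat_close S (primeOf S L 𝔪) y k
    have h1 := locVal_ofQS_sub_le S L 𝔪 (primeOf S L 𝔪) rfl y r k hr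
    have h2 := locVal_ofQS_sub_le S L 𝔪' (primeOf S L 𝔪) h y r k hr
    refine ⟨l * algebraMap ℚ L r, ?_, ?_⟩
    · rw [mk_tmul, map_mul, ← mul_sub, map_mul]
      calc locVal S L 𝔪 (toLoc S 𝔪 l) *
            locVal S L 𝔪 (LocField.ofQS S 𝔪 y - toLoc S 𝔪 (algebraMap ℚ L r))
          ≤ locVal S L 𝔪 (toLoc S 𝔪 l) * exp (-(k : ℤ)) := mul_le_mul' le_rfl h1
        _ < locVal S L 𝔪 (toLoc S 𝔪 l) * (γ * (locVal S L 𝔪 (toLoc S 𝔪 l))⁻¹) :=
            mul_lt_mul_of_pos_left hk (zero_lt_iff.2 hc)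
        _ = γ := by rw [mul_comm γ, ← mul_assoc, mul_inv_cancel₀ hc, one_mul]
    · rw [mk_tmul, map_mul, ← mul_sub, map_mul]
      calc locVal S L 𝔪' (toLoc S 𝔪' l) *
            locVal S L 𝔪' (LocField.ofQS S 𝔪' y - toLoc S 𝔪' (algebraMap ℚ L r))
          ≤ locVal S L 𝔪' (toLoc S 𝔪' l) * exp (-(k : ℤ)) := mul_le_mul' le_rfl h2
        _ < locVal S L 𝔪' (toLoc S 𝔪' l) * (γ' * (locVal S L 𝔪' (toLoc S 𝔪' l))⁻¹) :=
            mul_lt_mul_of_pos_left hk' (zero_lt_iff.2 hc')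
        _ = γ' := by rw [mul_comm γ', ← mul_assoc, mul_inv_cancel₀ hc', one_mul]
  | add a b ha hb =>
    intro γ γ' hγ hγ'
    obtain ⟨x₁, h1, h1'⟩ := ha γ γ' hγ hγ'
    obtain ⟨x₂, h2, h2'⟩ := hb γ γ' hγ hγ'
    refine ⟨x₁ + x₂, ?_, ?_⟩
    · have : LocField.mk S 𝔪 (a + b) - toLoc S 𝔪 (x₁ + x₂) =
          (LocField.mk S 𝔪 a - toLoc S 𝔪 x₁) + (LocField.mk S 𝔪 b - toLoc S 𝔪 x₂) := by
        rw [map_add, map_add]; ring
      rw [this]
      exact Valuation.map_add_lt _ h1 h2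
    · have : LocField.mk S 𝔪' (a + b) - toLoc S 𝔪' (x₁ + x₂) =
          (LocField.mk S 𝔪' a - toLoc S 𝔪' x₁) + (LocField.mk S 𝔪' b - toLoc S 𝔪' x₂) := by
        rw [map_add, map_add]; ring
      rw [this]
      exact Valuation.map_add_lt _ h1' h2'

/-- Approximation at one place. -/
theorem exists_approx (𝔪 : SPlace S L) (a : AS S L) (γ : ℤᵐ⁰) (hγ : γ ≠ 0) :
    ∃ x : L, locVal S L 𝔪 (LocField.mk S 𝔪 a - toLoc S 𝔪 x) < γ := by
  obtain ⟨x, hx, -⟩ := exists_approx₂ S L 𝔪 𝔪 rfl a γ γ hγ hγ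
  exact ⟨x, hx⟩

/-! ### The valuation dictionary -/

/-- The pull-back of the local valuation to `L`. -/
noncomputable def pullVal (𝔪 : SPlace S L) : Valuation L ℤᵐ⁰ :=
  (locVal S L 𝔪).comap (toLoc S 𝔪)

lemma pullVal_apply (𝔪 : SPlace S L) (x : L) :
    pullVal S L 𝔪 x = locVal S L 𝔪 (toLoc S 𝔪 x) := rfl

lemma pullVal_int_le_one (𝔪 : SPlace S L) (d : 𝓞 L) : pullVal S L 𝔪 (d : L) ≤ 1 :=
  locVal_toLoc_le_one S L 𝔪 d

lemma pullVal_int_lt_one_iff (𝔪 : SPlace S L) (d : 𝓞 L) :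
    pullVal S L 𝔪 (d : L) < 1 ↔ d ∈ (primeAt S L 𝔪).asIdeal :=
  locVal_toLoc_lt_one_iff S L 𝔪 d

lemma pullVal_int_eq_one (𝔪 : SPlace S L) (d : 𝓞 L) (hd : d ∉ (primeAt S L 𝔪).asIdeal) :
    pullVal S L 𝔪 (d : L) = 1 :=
  le_antisymm (pullVal_int_le_one S L 𝔪 d)
    (not_lt.1 (fun h => hd ((pullVal_int_lt_one_iff S L 𝔪 d).1 h)))

/-- The pulled back valuation is equivalent to the adic valuation of `primeAt 𝔪`. -/
theorem pullVal_isEquiv (𝔪 : SPlace S L) :
    (pullVal S L 𝔪).IsEquiv ((primeAt S L 𝔪).valuation L) := by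
  rw [Valuation.isEquiv_iff_val_le_one]
  intro z
  constructor
  · intro hV
    by_contra hv
    rw [not_le] at hv
    have hz0 : z ≠ 0 := by
      rintro rfl
      simp at hv
    have hv' : (primeAt S L 𝔪).valuation L z⁻¹ < 1 := by
      rw [map_inv₀]
      exact inv_lt_one_of_one_lt₀ hv
    obtain ⟨n, d, hnd⟩ :=
      HeightOneSpectrum.exists_primeCompl_mul_eq_of_integer (primeAt S L 𝔪) z⁻¹ hv'.le
    have hd1 : (primeAt S L 𝔪).valuation L (algebraMap (𝓞 L) L d) = 1 :=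
      (HeightOneSpectrum.valuation_eq_one_iff_notMem (K := L) (primeAt S L 𝔪)).2 d.2
    have hn : n ∈ (primeAt S L 𝔪).asIdeal := by
      have hn1 : (primeAt S L 𝔪).valuation L (algebraMap (𝓞 L) L n) < 1 := by
        rw [← hnd, map_mul, hd1, mul_one]
        exact hv'
      exact (HeightOneSpectrum.valuation_lt_one_iff_mem (K := L) (primeAt S L 𝔪) n).1 hn1
    have hVn : pullVal S L 𝔪 (algebraMap (𝓞 L) L n) < 1 :=
      (pullVal_int_lt_one_iff S L 𝔪 n).2 hn
    have hVd : pullVal S L 𝔪 (algebraMap (𝓞 L) L d) = 1 := pullVal_int_eq_one S L 𝔪 d d.2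
    rw [← hnd, map_mul, hVd, mul_one, map_inv₀] at hVn
    have hVz : pullVal S L 𝔪 z ≠ 0 := (Valuation.ne_zero_iff _).2 hz0
    have : 1 < pullVal S L 𝔪 z := by
      by_contra hcon
      rw [not_lt] at hcon
      have := (one_le_inv₀ (zero_lt_iff.2 hVz)).2 hcon
      exact absurd hVn (not_lt.2 this)
    exact absurd hV (not_le.2 this)
  · intro hv
    obtain ⟨n, d, hnd⟩ :=
      HeightOneSpectrum.exists_primeCompl_mul_eq_of_integer (primeAt S L 𝔪) z hv
    have hVd : pullVal S L 𝔪 (algebraMap (𝓞 L) L d) = 1 := pullVal_int_eq_one S L 𝔪 d d.2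
    have hVn : pullVal S L 𝔪 (algebraMap (𝓞 L) L n) ≤ 1 := pullVal_int_le_one S L 𝔪 n
    rw [← hnd, map_mul, hVd, mul_one] at hVn
    exact hVn

/-- `L` contains an element which is a uniformiser of `L_𝔪`. -/
lemma exists_pullVal_eq_exp_neg_one (𝔪 : SPlace S L) :
    ∃ x : L, pullVal S L 𝔪 x = exp (-1 : ℤ) := by
  obtain ⟨π, hπ⟩ := exists_locVal_eq_exp_neg_one S L 𝔪
  obtain ⟨a, rfl⟩ := LocField.mk_surjective S 𝔪 π
  obtain ⟨x, hx⟩ := exists_approx S L 𝔪 a (exp (-1 : ℤ)) exp_ne_zero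
  refine ⟨x, ?_⟩
  rw [pullVal_apply]
  have h1 : toLoc S 𝔪 x = LocField.mk S 𝔪 a - (LocField.mk S 𝔪 a - toLoc S 𝔪 x) := by ring
  rw [h1, Valuation.map_sub_eq_of_lt_left _ (by rw [hπ]; exact hx), hπ]

/-- **PL1-VAL.**  The normalised valuation of `L_𝔪` restricts on `L` to the normalised adic
valuation of the prime `primeAt 𝔪` (no ramification index appears). -/
theorem locVal_toLoc (𝔪 : SPlace S L) (x : L) :
    locVal S L 𝔪 (toLoc S 𝔪 x) = (primeAt S L 𝔪).valuation L x := by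
  have h := valuation_eq_of_isEquiv (pullVal S L 𝔪) ((primeAt S L 𝔪).valuation L)
    (pullVal_isEquiv S L 𝔪) (exists_pullVal_eq_exp_neg_one S L 𝔪)
    ((primeAt S L 𝔪).valuation_exists_uniformizer L)
  exact congrArg (fun V : Valuation L ℤᵐ⁰ => V x) h

end Fermat.Agent.S55.G.PL1H173

end
-- ===== PACK-END S55/G/PL1H173/Dense.lean

-- ===== PACK-BEGIN S56/H614/RedSpec.lean
section




/-!
# S56 / W-BASE / EUL-RED (helper614): FROZEN statements

Tate's global Euler characteristic formula `φ := h⁰ − h¹ + h² + dim (·)^{c=-1} ≡ 0` is reduced,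
by modular Artin induction (`Euler.ind`, `Euler.key`, both on main), to ONE arithmetic input:

* `CharpolyId L c X T` — the **equivariant Euler–Poincaré identity**
  `charpoly (T | H¹ X) = charpoly (T | H⁰ X) * charpoly (T | H² X) * charpoly (T | X^{c=-1})`
  for `X = Ind_U μ` and `T = indR U μ σ` (right translation), `σ` of order prime to `p` mod `U`.

Statements:

* `LemmaAStatement` (pure algebra, projection formula): `k[Γ/B] ⊗ W ≅ ker (M ⊗ R_σ − 1)` inside
  `(Ind_U μ)^J`, `B = ⟨σ⟩ ≤ Γ = G/U`, `M` = matrix of `χ(σ)⁻¹ • σ` on `W`;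
* `RedStatement`: `CharpolyId` for all `σ` + additivity of `φ` ⇒ `φ N = 0` for all `N` trivial
  on `U`.

Proved in `Fermat/Agent/S56/H614/`: EQUIV (`LinFun.kerEquiv`), `phi_kerRep_matOp`.
-/

set_option autoImplicit false

open Polynomial

noncomputable section

namespace Fermat.Agent.S56.H614

open Fermat.Agent.S55.PT Fermat.Agent.S56.H419 Fermat.Agent.S56.Euler groupCohomology Module

variable {k : Type} [Field k] {G : Type} [Group G]

/-- Inflation of a representation of `G ⧸ U` to `G`. -/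
def inflRep (U : Subgroup G) [U.Normal] (W : FDRepData k (G ⧸ U)) : Rep.{0, 0, 0} k G :=
  Rep.of (W.ρ.comp (QuotientGroup.mk' U))

lemma inflRep_ρ_apply (U : Subgroup G) [U.Normal] (W : FDRepData k (G ⧸ U)) (g : G) (w : W.V) :
    (inflRep U W).ρ g w = W.ρ (g : G ⧸ U) w := rfl

/-- **The equivariant Euler–Poincaré identity** for an equivariant endomorphism `T` of `X`:
`charpoly (H¹ T) = charpoly (H⁰ T) * charpoly (H² T) * charpoly (T | X^{c=-1})`. -/
def CharpolyId (L : LevelSys G) (c : G) (X : Rep.{0, 0, 0} k G) (T : X →ₗ[k] X)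
    (hT : IsEquivariant T) : Prop :=
  ∀ (_ : Module.Finite k X) (_ : Module.Finite k (L.H1 X)) (_ : Module.Finite k (L.H2 X)),
    LinearMap.charpoly (pushH1 T hT L) =
      LinearMap.charpoly (pushH0 T hT) * LinearMap.charpoly (pushH2 T hT L) *
        LinearMap.charpoly (minusMap c T hT)

/-- **Lemma A (projection formula).**  `Γ = G ⧸ U`, `σ : G`, `B = ⟨σ̄⟩ ≤ Γ`, `W` a representation
of `Γ`, `χ` a character of `G` trivial on `U`, `b` a basis of `W`, `M` the matrix of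
`χ(σ)⁻¹ • σ̄` on `W`: there is a `G`-equivariant linear equivalence
`(Γ ⧸ B →₀ W) ≃ ker (M ⊗ R_σ − 1) ⊆ (Ind_U χ)^J`
(explicitly `a ↦ (j ↦ x ↦ b.coord j (χ(x) • x⁻¹ • a (x B)))`). -/
def LemmaAStatement : Prop :=
  ∀ (k : Type) [Field k] (G : Type) [Group G] (U : Subgroup G) [U.Normal] [U.FiniteIndex]
    (χ : G →* kˣ), (∀ u ∈ U, χ u = 1) →
    ∀ (σ : G) (W : FDRepData k (G ⧸ U)) (J : Type) [Fintype J] [DecidableEq J]
      (b : Basis J k W.V),
      ∃ e : (((G ⧸ U) ⧸ Subgroup.zpowers (σ : G ⧸ U)) →₀ W.V) ≃ₗ[k]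
          ↥(LinearMap.ker (matOp
            (LinearMap.toMatrix b b ((((χ σ)⁻¹ : kˣ) : k) • W.ρ (σ : G ⧸ U)))
            (indR U (ofChar χ) σ) - 1)),
        ∀ (g : G) (a : ((G ⧸ U) ⧸ Subgroup.zpowers (σ : G ⧸ U)) →₀ W.V),
          ((e ((permData (Subgroup.zpowers (σ : G ⧸ U)) W).ρ (g : G ⧸ U) a) :
              ↥(LinearMap.ker (matOp
                (LinearMap.toMatrix b b ((((χ σ)⁻¹ : kˣ) : k) • W.ρ (σ : G ⧸ U)))
                (indR U (ofChar χ) σ) - 1))) : J → ((G ⧸ U) →₀ k)) =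
            (piRep J (indRep U (ofChar χ))).ρ g
              ((e a : ↥(LinearMap.ker (matOp
                (LinearMap.toMatrix b b ((((χ σ)⁻¹ : kˣ) : k) • W.ρ (σ : G ⧸ U)))
                (indR U (ofChar χ) σ) - 1))) : J → ((G ⧸ U) →₀ k))

/-- **RED.**  Modular Artin induction reduces the vanishing of `φ = χ + dim (·)^{c=-1}` on all
finite-dimensional representations trivial on `U` to the equivariant Euler–Poincaré identity for
`(Ind_U χ, R_σ)`, `σ` of order prime to `p` modulo `U`. -/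
def RedStatement : Prop :=
  ∀ (p : ℕ) [Fact p.Prime] (G : Type) [Group G] (L : LevelSys G) (c : G)
    (U : Subgroup G) [U.Normal] [U.FiniteIndex] (χ : G →* (ZMod p)ˣ), (∀ u ∈ U, χ u = 1) →
    Module.Finite (ZMod p) (L.H1 (indRep U (ofChar χ))) →
    Module.Finite (ZMod p) (L.H2 (indRep U (ofChar χ))) →
    (∀ (A B C : Rep.{0, 0, 0} (ZMod p) G) (_ : SES A B C), FiniteDimensional (ZMod p) B →
      (∀ u ∈ U, ∀ b : B, B.ρ u b = b) → phi L c B = phi L c A + phi L c C) →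
    (∀ σ : G, ¬ p ∣ orderOf (σ : G ⧸ U) →
      CharpolyId L c (indRep U (ofChar χ)) (indR U (ofChar χ) σ)
        (indR_equivariant U (ofChar χ) σ)) →
    ∀ N : Rep.{0, 0, 0} (ZMod p) G, FiniteDimensional (ZMod p) N →
      (∀ u ∈ U, ∀ n : N, N.ρ u n = n) → phi L c N = 0

end Fermat.Agent.S56.H614

end

end
-- ===== PACK-END S56/H614/RedSpec.lean

-- ===== PACK-BEGIN S56/Euler/Big/Red.lean
section




/-!
# Row S56 / wall BASE — BASE-BIG: E-BIG from RED (helper614) and CHAR-EULER-BIG (helper366)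

    theorem eulerBig_of_red : H614.RedStatement → (∀ S ∋ p, PhiAddSpec p S) →
        (∀ S ∋ p, H2FinGlobSpec p S) → CharEulerBigSpec p → EulerBigSpec p          -- PROVED

* `CharEulerBigSpec p` (CHAR-EULER-BIG, THE arithmetic target): for every normal level `U` of
  `S₀ ∋ p` on which the cyclotomic character is trivial there is a finite `S ⊇ S₀` such that the
  equivariant Euler–Poincaré identity `H614.CharpolyId` holds over `globalLevels S` for
  `X = Ind_U μ_p` and every right translation `R_σ = H419.indR U μ σ`, `σ` of order prime to `p`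
  modulo `U`:   `charpoly (R_σ | H¹) = charpoly (R_σ | H⁰) · charpoly (R_σ | H²) · charpoly (R_σ | X^{c=−1})`.
-/

set_option autoImplicit false

open Polynomial

noncomputable section

namespace Fermat.Agent.S56.Euler

open Fermat.Agent.S56 Fermat.Agent.S55.PT ExtCitation Module groupCohomology

variable (p : ℕ) [Fact p.Prime]

/-- (CHAR-EULER-BIG) **the equivariant Euler–Poincaré identity for `Ind_U μ_p`, for one big set
of primes.** -/
def CharEulerBigSpec : Prop :=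
  p ≠ 2 → ∀ S₀ : Finset Nat.Primes, pPrime p ∈ S₀ →
    ∀ (U : Subgroup _root_.Fermat.Agent.S56.GQ) [U.Normal], U ∈ (globalLevels S₀).levels →
      (∀ u ∈ U, cycloChar p u = 1) →
      ∃ S : Finset Nat.Primes, S₀ ⊆ S ∧
        ∀ σ : _root_.Fermat.Agent.S56.GQ, ¬ p ∣ orderOf (σ : _root_.Fermat.Agent.S56.GQ ⧸ U) →
          H614.CharpolyId (globalLevels S) complexConjugation
            (indRep U (ofChar (cycloChar p))) (H419.indR U (ofChar (cycloChar p)) σ)
            (H419.indR_equivariant U (ofChar (cycloChar p)) σ)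

variable {p}

/-- A level of `S₀` is a level of every bigger set. -/
lemma mem_levels_mono {S₀ S : Finset Nat.Primes} (h : S₀ ⊆ S) {U : Subgroup _root_.Fermat.Agent.S56.GQ}
    (hU : U ∈ (globalLevels S₀).levels) : U ∈ (globalLevels S).levels := by
  obtain ⟨F, hF, rfl⟩ := hU
  exact ⟨F, hF.mono h, rfl⟩

/-- Below every level of `S₀ ∋ p` there is a normal level on which the cyclotomic character is
trivial. -/
lemma exists_normal_cyclo_level {S₀ : Finset Nat.Primes} (hpS₀ : pPrime p ∈ S₀)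
    {U : Subgroup _root_.Fermat.Agent.S56.GQ} (hU : U ∈ (globalLevels S₀).levels) :
    ∃ U' : Subgroup _root_.Fermat.Agent.S56.GQ, U' ≤ U ∧ U' ∈ (globalLevels S₀).levels ∧ U'.Normal ∧
      ∀ u ∈ U', cycloChar p u = 1 := by
  obtain ⟨V, hV, hVχ⟩ := cycloLevelSpec p S₀ hpS₀
  obtain ⟨W, hW, hWle⟩ := (globalLevels S₀).directed U hU V hV
  obtain ⟨U', hU', hU'W, hU'n⟩ := H724.globalNormalCofinal S₀ W hW
  exact ⟨U', fun u hu => (hWle (hU'W hu)).1, hU', hU'n,
    fun u hu => hVχ u (hWle (hU'W hu)).2⟩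

/-- **E-BIG from RED and CHAR-EULER-BIG.** -/
theorem eulerBig_of_red (hRed : H614.RedStatement)
    (hAdd : ∀ S : Finset Nat.Primes, pPrime p ∈ S → H419.PhiAddSpec p S)
    (hH2 : ∀ S : Finset Nat.Primes, pPrime p ∈ S → H419.H2FinGlobSpec p S)
    (hCE : CharEulerBigSpec p) : EulerBigSpec p := by
  intro hp2 S₀ hpS₀ U hU
  obtain ⟨U', hU'U, hU', hU'n, hχ⟩ := exists_normal_cyclo_level hpS₀ hU
  have : U'.Normal := hU'n
  obtain ⟨S, hS, hce⟩ := hCE hp2 S₀ hpS₀ U' hU' hχ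
  have hpS : pPrime p ∈ S := hS hpS₀
  have hU'S : U' ∈ (globalLevels S).levels := mem_levels_mono hS hU'
  have : U'.FiniteIndex := H724.globalFiniteIndex S U' hU'S
  refine ⟨S, hS, fun N hfd hUN => ?_⟩
  -- the induced module
  have hμtriv : ∀ u ∈ U', (ofChar (cycloChar p) : Rep.{0, 0, 0} (ZMod p) _root_.Fermat.Agent.S56.GQ).ρ u = 1 := by
    intro u hu
    apply LinearMap.ext
    intro x
    rw [ofChar_ρ_apply, hχ u hu]
    simp
  have hXtriv : ∀ u ∈ U', (indRep U' (ofChar (cycloChar p))).ρ u = 1 :=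
    fun u hu => indRep_ρ_eq_one U' (ofChar (cycloChar p)) hμtriv u hu
  have hXsm : (globalLevels S).IsUSmooth (indRep U' (ofChar (cycloChar p))) :=
    isUSmooth_of_trivial _ hU'S hXtriv
  have : Finite (_root_.Fermat.Agent.S56.GQ ⧸ U') := Subgroup.finite_quotient_of_finiteIndex
  have hXfd : FiniteDimensional (ZMod p) (indRep U' (ofChar (cycloChar p))) := by
    show Module.Finite (ZMod p) ((_root_.Fermat.Agent.S56.GQ ⧸ U') →₀ (ofChar (cycloChar p) : Rep.{0, 0, 0} (ZMod p) _root_.Fermat.Agent.S56.GQ))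
    have : Module.Finite (ZMod p) (ofChar (cycloChar p) : Rep.{0, 0, 0} (ZMod p) _root_.Fermat.Agent.S56.GQ) := by
      show Module.Finite (ZMod p) (ZMod p)
      infer_instance
    infer_instance
  refine hRed p _root_.Fermat.Agent.S56.GQ (globalLevels S) complexConjugation U' (cycloChar p) hχ
    (H593.finGlob p S _ hXfd hXsm) (hH2 S hpS _ hXfd hXsm) ?_ hce N hfd ?_
  · intro A B C E hB hBtriv
    exact hAdd S hpS hp2 complexConjugation complexConjugation_mul_self A B C E hB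
      ⟨U', hU'S, hBtriv⟩
  · intro u hu n
    rw [hUN u (hU'U hu)]
    rfl

end Fermat.Agent.S56.Euler

end

end
-- ===== PACK-END S56/Euler/Big/Red.lean

-- ===== PACK-BEGIN S56/H614/Red1.lean
section



/-!
# S56 / W-BASE / EUL-RED, part 5 (helper614): proof of `RedStatement` from `LemmaAStatement`

Pieces:
* `LinFun.finrank_eq_of_iso`, `phi_eq_of_iso`: isomorphism invariance;
* `LinFun.indRRep`: the representation of `G ⧸ U` on `F (Ind_U M₀)` by right translations;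
* `dimFixInv M σ`: the additive invariant `A ↦ dim ker (M ⊗ σ − 1 | A^J)` (`dimFixInv_additive`);
* `phi_kerRep_eq_zero`: `CharpolyId` for all `p`-regular elements + `Euler.key` ⇒
  `φ (ker (M ⊗ R_σ − 1)) = 0`;
* `red_of : LemmaAStatement → RedStatement` (via `Euler.ind`).
-/

set_option autoImplicit false
set_option linter.unusedSectionVars false

open Polynomial

noncomputable section

namespace Fermat.Agent.S56.H614

open Fermat.Agent.S55.PT Fermat.Agent.S56.H419 Fermat.Agent.S56.Euler groupCohomology Module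

variable {k : Type} [Field k] {G : Type} [Group G]

/-! ### isomorphism invariance -/

namespace LinFun

variable (F : LinFun k G) {A B : Rep.{0, 0, 0} k G}

lemma symm_equivariant (e : A ≃ₗ[k] B) (he : IsEquivariant (e : A →ₗ[k] B)) :
    IsEquivariant (e.symm : B →ₗ[k] A) := by
  intro g b
  have he' : ∀ (g : G) (a : A), e (A.ρ g a) = B.ρ g (e a) := he
  apply e.injective
  show e (e.symm (B.ρ g b)) = e (A.ρ g (e.symm b))
  rw [e.apply_symm_apply, he', e.apply_symm_apply]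

/-- functors preserve isomorphisms -/
def isoEquiv (e : A ≃ₗ[k] B) (he : IsEquivariant (e : A →ₗ[k] B)) : F.obj A ≃ₗ[k] F.obj B :=
  LinearEquiv.ofLinearMap (F.map (e : A →ₗ[k] B) he)
    (F.map (e.symm : B →ₗ[k] A) (symm_equivariant e he))
    (by
      rw [← F.map_comp _ _ _ _ (isEquivariant_comp (symm_equivariant e he) he),
        F.map_congr (e.comp_symm) _ (isEquivariant_id B), F.map_id])
    (by
      rw [← F.map_comp _ _ _ _ (isEquivariant_comp he (symm_equivariant e he)),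
        F.map_congr (e.symm_comp) _ (isEquivariant_id A), F.map_id])

lemma finrank_eq_of_iso (e : A ≃ₗ[k] B) (he : IsEquivariant (e : A →ₗ[k] B)) :
    finrank k (F.obj A) = finrank k (F.obj B) :=
  (F.isoEquiv e he).finrank_eq

end LinFun

/-- `φ` is invariant under isomorphisms. -/
theorem phi_eq_of_iso (L : LevelSys G) (c : G) {A B : Rep.{0, 0, 0} k G} (e : A ≃ₗ[k] B)
    (he : IsEquivariant (e : A →ₗ[k] B)) : phi L c A = phi L c B := by
  have e0 : finrank k ↥(LevelSys.H0 A) = finrank k ↥(LevelSys.H0 B) :=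
    (H0F (k := k) (G := G)).finrank_eq_of_iso e he
  have e1 : finrank k (L.H1 A) = finrank k (L.H1 B) :=
    (H1F (k := k) L).finrank_eq_of_iso e he
  have e2 : finrank k (L.H2 A) = finrank k (L.H2 B) :=
    (H2F (k := k) L).finrank_eq_of_iso e he
  have e3 : finrank k ↥(minusPart c A) = finrank k ↥(minusPart c B) :=
    (minusF (k := k) c).finrank_eq_of_iso e he
  unfold phi eulerChar
  rw [e0, e1, e2, e3]

/-! ### the right-translation representation of `G ⧸ U` on `F (Ind_U M₀)` -/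

namespace LinFun

variable (F : LinFun k G) (U : Subgroup G) [U.Normal] (M₀ : Rep.{0, 0, 0} k G)

/-- `σ ↦ F (R_σ)` -/
def indRHom : G →* (F.obj (indRep U M₀) →ₗ[k] F.obj (indRep U M₀)) where
  toFun σ := F.map (A := indRep U M₀) (B := indRep U M₀) (indR U M₀ σ)
    (indR_equivariant U M₀ σ)
  map_one' := by
    rw [F.map_congr (A := indRep U M₀) (B := indRep U M₀) (indR_one U M₀) _
      (isEquivariant_id _), F.map_id]
    rfl
  map_mul' σ τ := by
    rw [F.map_congr (A := indRep U M₀) (B := indRep U M₀) (indR_mul U M₀ σ τ) _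
      (isEquivariant_comp (A := indRep U M₀) (B := indRep U M₀) (C := indRep U M₀)
        (indR_equivariant U M₀ τ) (indR_equivariant U M₀ σ)),
      F.map_comp (A := indRep U M₀) (B := indRep U M₀) (C := indRep U M₀) _ _
        (indR_equivariant U M₀ τ) (indR_equivariant U M₀ σ)]
    rfl

lemma indRHom_apply (σ : G) :
    F.indRHom U M₀ σ = F.map (A := indRep U M₀) (B := indRep U M₀) (indR U M₀ σ)
      (indR_equivariant U M₀ σ) := rfl

lemma le_ker_indRHom : U ≤ (F.indRHom U M₀).ker := by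
  intro u hu
  rw [MonoidHom.mem_ker, indRHom_apply]
  have h1 : indR U M₀ u = indR U M₀ 1 :=
    indR_congr U M₀ (by rw [(QuotientGroup.eq_one_iff u).2 hu]; rfl)
  rw [F.map_congr (A := indRep U M₀) (B := indRep U M₀) (h1.trans (indR_one U M₀)) _
    (isEquivariant_id _), F.map_id]
  rfl

/-- the representation of `G ⧸ U` on `F (Ind_U M₀)` by right translations -/
def indRRep : Representation k (G ⧸ U) (F.obj (indRep U M₀)) :=
  QuotientGroup.lift U (F.indRHom U M₀) (F.le_ker_indRHom U M₀)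

lemma indRRep_mk (σ : G) :
    F.indRRep U M₀ (σ : G ⧸ U) = F.map (A := indRep U M₀) (B := indRep U M₀) (indR U M₀ σ)
      (indR_equivariant U M₀ σ) := rfl

/-- `F (Ind_U M₀)` as a bundled finite-dimensional representation of `G ⧸ U` -/
def indRData (hfin : Module.Finite k (F.obj (indRep U M₀))) : FDRepData k (G ⧸ U) where
  V := F.obj (indRep U M₀)
  fin := hfin
  ρ := F.indRRep U M₀

end LinFun

/-! ### the additive invariant `A ↦ dim ker (M ⊗ σ − 1 | A^J)` -/

section DimFixInv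

variable {Γ : Type} [Group Γ] {J : Type} [Fintype J] [DecidableEq J]

/-- `A ↦ dim ker (M ⊗ A.ρ σ − 1)` -/
def dimFixInv (M : Matrix J J k) (σ : Γ) : RepInv k Γ := fun A => (dimFix M (A.ρ σ) : ℤ)

lemma compLeft_injective {V W : Type} [AddCommGroup V] [Module k V] [AddCommGroup W]
    [Module k W] (i : V →ₗ[k] W) (hi : Function.Injective i) :
    Function.Injective (i.compLeft J) := by
  intro x y hxy
  funext j
  exact hi (congrFun hxy j)

lemma compLeft_surjective {V W : Type} [AddCommGroup V] [Module k V] [AddCommGroup W]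
    [Module k W] (q : V →ₗ[k] W) (hq : Function.Surjective q) :
    Function.Surjective (q.compLeft J) := by
  intro y
  choose x hx using fun j => hq (y j)
  exact ⟨x, funext hx⟩

lemma compLeft_exact {V₁ V₂ V₃ : Type} [AddCommGroup V₁] [Module k V₁] [AddCommGroup V₂]
    [Module k V₂] [AddCommGroup V₃] [Module k V₃] (i : V₁ →ₗ[k] V₂) (q : V₂ →ₗ[k] V₃)
    (h : LinearMap.range i = LinearMap.ker q) :
    LinearMap.range (i.compLeft J) = LinearMap.ker (q.compLeft J) := by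
  ext y
  constructor
  · rintro ⟨x, rfl⟩
    rw [LinearMap.mem_ker]
    funext j
    have : i (x j) ∈ LinearMap.ker q := by rw [← h]; exact ⟨x j, rfl⟩
    exact this
  · intro hy
    rw [LinearMap.mem_ker] at hy
    have hj : ∀ j, y j ∈ LinearMap.range i := by
      intro j
      rw [h, LinearMap.mem_ker]
      exact congrFun hy j
    choose x hx using hj
    exact ⟨x, funext hx⟩

theorem dimFixInv_additive (M : Matrix J J k) (σ : Γ) (n : ℕ) (hn : (n : k) ≠ 0)
    (hM : M ^ n = 1) (hσ : σ ^ n = 1) : IsAdditiveInv (dimFixInv (k := k) M σ) := by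
  intro A B C i q hE
  have hB : (matOp M (B.ρ σ)) ^ n = 1 := by
    apply matOp_pow_eq_one M _ n hM
    rw [← map_pow, hσ, map_one]
  have key := finrank_ker_sub_one_of_exact (k := k) (i.compLeft J) (q.compLeft J)
    (compLeft_injective i hE.inj) (compLeft_surjective q hE.surj) (compLeft_exact i q hE.exact)
    (matOp M (A.ρ σ)) (matOp M (B.ρ σ)) (matOp M (C.ρ σ))
    (fun x => matOp_natural M (A.ρ σ) (B.ρ σ) i (fun a => hE.equivar_i σ a) x)
    (fun x => matOp_natural M (B.ρ σ) (C.ρ σ) q (fun a => hE.equivar_q σ a) x)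
    n hn hB
  unfold dimFixInv dimFix
  rw [key]
  push_cast
  ring

end DimFixInv

/-! ### `CharpolyId` + `Euler.key` ⇒ `φ (ker (M ⊗ R_σ − 1)) = 0` -/

section Key

variable (U : Subgroup G) [U.Normal] (M₀ : Rep.{0, 0, 0} k G)

lemma indR_pow (σ : G) (n : ℕ) : (indR U M₀ σ) ^ n = indR U M₀ (σ ^ n) := by
  induction n with
  | zero =>
    rw [pow_zero, pow_zero, indR_one]
    rfl
  | succ n ih =>
    rw [pow_succ, pow_succ, indR_mul, ih]
    rfl

lemma indR_pow_eq_one (σ : G) (n : ℕ) (hσ : (σ : G ⧸ U) ^ n = 1) :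
    (indR U M₀ σ) ^ n = 1 := by
  rw [indR_pow]
  have h1 : indR U M₀ (σ ^ n) = indR U M₀ 1 := indR_congr U M₀ (by
    rw [QuotientGroup.mk_pow, hσ]
    rfl)
  rw [h1, indR_one]
  rfl

end Key


end Fermat.Agent.S56.H614

end

end
-- ===== PACK-END S56/H614/Red1.lean

-- ===== PACK-BEGIN S56/H314/LemmaA.lean
section


/-!
# S56 / W-BASE / EUL-RED: Lemma A (projection formula), helper314

`theorem lemmaA : H614.LemmaAStatement` (VERBATIM, frozen in `H614/RedSpec.lean`).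

`Γ = G ⧸ U`, `B = ⟨σ̄⟩`.  The map `a ↦ (j ↦ x ↦ b.coord j (χ(x) • x⁻¹ • a (x B)))` is a
`G`-equivariant linear equivalence `(Γ ⧸ B →₀ W) ≃ ker (M ⊗ R_σ − 1) ⊆ (Ind_U χ)^J`, where `M` is
the matrix of `χ(σ)⁻¹ • σ̄` on `W`.  In terms of `Z(x) = ∑ j, z j x • b j` the kernel condition
reads `χ(σ)⁻¹ • σ̄ • Z(x σ̄) = Z(x)`, i.e. `x ↦ χ(x)⁻¹ • x • Z(x)` is right `B`-invariant.
-/

set_option autoImplicit false
set_option linter.unusedSectionVars false

noncomputable section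

namespace Fermat.Agent.S56.H314

open Fermat.Agent.S55.PT Fermat.Agent.S56.H419 Fermat.Agent.S56.Euler Fermat.Agent.S56.H614 Module
  groupCohomology

section LemmaA

variable {k : Type} [Field k] {G : Type} [Group G] (U : Subgroup G) [U.Normal] [U.FiniteIndex]
  (χ : G →* kˣ) (hχ : ∀ u ∈ U, χ u = 1) (σ : G) (W : FDRepData k (G ⧸ U))
  {J : Type} [Fintype J] [DecidableEq J] (b : Basis J k W.V)

/-- the character of `G ⧸ U` induced by `χ`. -/
def laChar : (G ⧸ U) →* kˣ := QuotientGroup.lift U χ (fun u hu => hχ u hu)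

lemma laChar_mk (g : G) : laChar U χ hχ (g : G ⧸ U) = χ g := rfl

/-- the function `x ↦ χ(x) • x⁻¹ • a (x B)`. -/
def laFun (a : ((G ⧸ U) ⧸ Subgroup.zpowers (σ : G ⧸ U)) →₀ W.V) (x : G ⧸ U) : W.V :=
  ((laChar U χ hχ x : kˣ) : k) • W.ρ x⁻¹ (a (x : (G ⧸ U) ⧸ Subgroup.zpowers (σ : G ⧸ U)))

/-- the forward map of Lemma A. -/
def laFwd : (((G ⧸ U) ⧸ Subgroup.zpowers (σ : G ⧸ U)) →₀ W.V) →ₗ[k] (J → ((G ⧸ U) →₀ k)) where
  toFun a := fun j => Finsupp.equivFunOnFinite.symm (fun x => b.coord j (laFun U χ hχ σ W a x))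
  map_add' a a' := by
    funext j
    ext x
    simp [laFun]
  map_smul' c a := by
    funext j
    ext x
    simp [laFun]
    ring

lemma laFwd_apply (a : ((G ⧸ U) ⧸ Subgroup.zpowers (σ : G ⧸ U)) →₀ W.V) (j : J) (x : G ⧸ U) :
    laFwd U χ hχ σ W b a j x = b.coord j (laFun U χ hχ σ W a x) := rfl

/-- the twisted operator `A = χ(σ)⁻¹ • σ̄` on `W`. -/
def laOp : W.V →ₗ[k] W.V := (((χ σ)⁻¹ : kˣ) : k) • W.ρ (σ : G ⧸ U)

lemma mk_mul_sigma (x : G ⧸ U) :
    ((x * (σ : G ⧸ U) : G ⧸ U) : (G ⧸ U) ⧸ Subgroup.zpowers (σ : G ⧸ U)) =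
      (x : (G ⧸ U) ⧸ Subgroup.zpowers (σ : G ⧸ U)) := by
  rw [QuotientGroup.eq]
  simp

lemma laOp_laFun (a : ((G ⧸ U) ⧸ Subgroup.zpowers (σ : G ⧸ U)) →₀ W.V) (x : G ⧸ U) :
    laOp U χ σ W (laFun U χ hχ σ W a (x * (σ : G ⧸ U))) = laFun U χ hχ σ W a x := by
  unfold laOp laFun
  rw [mk_mul_sigma, map_mul, laChar_mk, LinearMap.smul_apply, map_smul, smul_smul, mul_inv_rev,
    map_mul, ← LinearMap.comp_apply, ← Module.End.mul_eq_comp, ← mul_assoc, ← map_mul,
    mul_inv_cancel, map_one, one_mul]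
  congr 1
  rw [mul_comm, ← Units.val_mul, mul_assoc, mul_inv_cancel, mul_one]

/-- the kernel condition in coordinates. -/
lemma mem_ker_matOp_iff (z : J → ((G ⧸ U) →₀ k)) :
    z ∈ LinearMap.ker (matOp
            (LinearMap.toMatrix b b ((((χ σ)⁻¹ : kˣ) : k) • W.ρ (σ : G ⧸ U)))
            (indR U (ofChar χ) σ) - 1) ↔
      ∀ x : G ⧸ U, laOp U χ σ W (b.equivFun.symm (fun j => z j (x * (σ : G ⧸ U)))) =
        b.equivFun.symm (fun j => z j x) := by
  have key : ∀ (x : G ⧸ U) (i : J),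
      b.equivFun (laOp U χ σ W (b.equivFun.symm (fun j => z j (x * (σ : G ⧸ U))))) i =
        (matOp (LinearMap.toMatrix b b ((((χ σ)⁻¹ : kˣ) : k) • W.ρ (σ : G ⧸ U)))
            (indR U (ofChar χ) σ) z i : (G ⧸ U) →₀ k) x := by
    intro x i
    rw [matOp_apply, Finsupp.finsetSum_apply, Basis.equivFun_apply,
      ← LinearMap.toMatrix_mulVec_repr b b]
    rw [Matrix.mulVec, dotProduct]
    refine Finset.sum_congr rfl fun j _ => ?_
    rw [Finsupp.smul_apply, indR_apply, ← Basis.equivFun_apply, LinearEquiv.apply_symm_apply]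
    rfl
  rw [LinearMap.mem_ker, LinearMap.sub_apply, Module.End.one_apply, sub_eq_zero]
  constructor
  · intro h x
    apply b.equivFun.injective
    funext i
    rw [key, h, LinearEquiv.apply_symm_apply]
  · intro h
    funext i
    ext x
    rw [← key, h, LinearEquiv.apply_symm_apply]

lemma equivFun_symm_laFwd (a : ((G ⧸ U) ⧸ Subgroup.zpowers (σ : G ⧸ U)) →₀ W.V) (x : G ⧸ U) :
    b.equivFun.symm (fun j => laFwd U χ hχ σ W b a j x) = laFun U χ hχ σ W a x := by
  apply b.equivFun.injective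
  rw [LinearEquiv.apply_symm_apply]
  funext j
  rw [laFwd_apply, Basis.equivFun_apply]
  rfl

lemma laFwd_mem_ker (a : ((G ⧸ U) ⧸ Subgroup.zpowers (σ : G ⧸ U)) →₀ W.V) :
    laFwd U χ hχ σ W b a ∈ LinearMap.ker (matOp
            (LinearMap.toMatrix b b ((((χ σ)⁻¹ : kˣ) : k) • W.ρ (σ : G ⧸ U)))
            (indR U (ofChar χ) σ) - 1) := by
  rw [mem_ker_matOp_iff]
  intro x
  rw [equivFun_symm_laFwd, equivFun_symm_laFwd, laOp_laFun]

lemma laFwd_injective : Function.Injective (laFwd U χ hχ σ W b) := by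
  rw [← LinearMap.ker_eq_bot, LinearMap.ker_eq_bot']
  intro a ha
  ext y
  induction y using QuotientGroup.induction_on with
  | H x =>
    have h1 : laFun U χ hχ σ W a x = 0 := by
      rw [← equivFun_symm_laFwd U χ hχ σ W b a x, ha]
      simp
    unfold laFun at h1
    rw [smul_eq_zero] at h1
    rcases h1 with h1 | h1
    · exact absurd h1 (Units.ne_zero _)
    · have h2 := congrArg (W.ρ x) h1
      rw [← LinearMap.comp_apply, ← Module.End.mul_eq_comp, ← map_mul, mul_inv_cancel, map_one,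
        Module.End.one_apply, map_zero] at h2
      rw [h2]
      rfl

/-- the function `x ↦ χ(x)⁻¹ • x • Z(x)` attached to `z`. -/
def laBack (z : J → ((G ⧸ U) →₀ k)) (x : G ⧸ U) : W.V :=
  (((laChar U χ hχ x)⁻¹ : kˣ) : k) • W.ρ x (b.equivFun.symm (fun j => z j x))

lemma laBack_mul_sigma (z : J → ((G ⧸ U) →₀ k))
    (hz : ∀ x : G ⧸ U, laOp U χ σ W (b.equivFun.symm (fun j => z j (x * (σ : G ⧸ U)))) =
        b.equivFun.symm (fun j => z j x)) (x : G ⧸ U) :
    laBack U χ hχ W b z (x * (σ : G ⧸ U)) = laBack U χ hχ W b z x := by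
  unfold laBack
  rw [← hz x]
  unfold laOp
  have h1 : W.ρ (x * (σ : G ⧸ U)) = W.ρ x * W.ρ (σ : G ⧸ U) := map_mul _ _ _
  have h2 : laChar U χ hχ (x * (σ : G ⧸ U)) = laChar U χ hχ x * χ σ := by
    rw [map_mul, laChar_mk]
  rw [h1, h2, Module.End.mul_apply, LinearMap.smul_apply, map_smul, smul_smul, mul_inv_rev,
    Units.val_mul, mul_comm]

lemma laBack_mul_zpow (z : J → ((G ⧸ U) →₀ k))
    (hz : ∀ x : G ⧸ U, laOp U χ σ W (b.equivFun.symm (fun j => z j (x * (σ : G ⧸ U)))) =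
        b.equivFun.symm (fun j => z j x)) (n : ℤ) (x : G ⧸ U) :
    laBack U χ hχ W b z (x * (σ : G ⧸ U) ^ n) = laBack U χ hχ W b z x := by
  induction n using Int.induction_on generalizing x with
  | zero => simp
  | succ n ih =>
    rw [zpow_add_one, ← mul_assoc, laBack_mul_sigma U χ hχ σ W b z hz, ih]
  | pred n ih =>
    rw [← laBack_mul_sigma U χ hχ σ W b z hz (x * (σ : G ⧸ U) ^ (-(n : ℤ) - 1)), mul_assoc,
      ← zpow_add_one, sub_add_cancel, ih]

lemma laBack_out (z : J → ((G ⧸ U) →₀ k))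
    (hz : ∀ x : G ⧸ U, laOp U χ σ W (b.equivFun.symm (fun j => z j (x * (σ : G ⧸ U)))) =
        b.equivFun.symm (fun j => z j x)) (x : G ⧸ U) :
    laBack U χ hχ W b z (x : (G ⧸ U) ⧸ Subgroup.zpowers (σ : G ⧸ U)).out =
      laBack U χ hχ W b z x := by
  obtain ⟨⟨h, hh⟩, hx⟩ := QuotientGroup.mk_out_eq_mul (Subgroup.zpowers (σ : G ⧸ U)) x
  obtain ⟨n, rfl⟩ := Subgroup.mem_zpowers_iff.1 hh
  rw [hx]
  exact laBack_mul_zpow U χ hχ σ W b z hz n x

lemma laFwd_surjective (z : J → ((G ⧸ U) →₀ k))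
    (hz : z ∈ LinearMap.ker (matOp
            (LinearMap.toMatrix b b ((((χ σ)⁻¹ : kˣ) : k) • W.ρ (σ : G ⧸ U)))
            (indR U (ofChar χ) σ) - 1)) :
    ∃ a, laFwd U χ hχ σ W b a = z := by
  rw [mem_ker_matOp_iff] at hz
  refine ⟨Finsupp.equivFunOnFinite.symm (fun y => laBack U χ hχ W b z y.out), ?_⟩
  funext j
  ext x
  rw [laFwd_apply]
  unfold laFun
  have h0 : (Finsupp.equivFunOnFinite.symm
      (fun y : (G ⧸ U) ⧸ Subgroup.zpowers (σ : G ⧸ U) => laBack U χ hχ W b z y.out))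
      (x : (G ⧸ U) ⧸ Subgroup.zpowers (σ : G ⧸ U)) =
      laBack U χ hχ W b z (x : (G ⧸ U) ⧸ Subgroup.zpowers (σ : G ⧸ U)).out := rfl
  rw [h0, laBack_out U χ hχ σ W b z hz x]
  unfold laBack
  have hw : ∀ w : W.V, ((laChar U χ hχ x : kˣ) : k) •
      W.ρ x⁻¹ ((((laChar U χ hχ x)⁻¹ : kˣ) : k) • W.ρ x w) = w := by
    intro w
    rw [map_smul, smul_smul, ← Units.val_mul, mul_inv_cancel, Units.val_one, one_smul,
      ← Module.End.mul_apply, ← map_mul, inv_mul_cancel, map_one, Module.End.one_apply]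
  rw [hw]
  show b.equivFun (b.equivFun.symm fun j => z j x) j = z j x
  rw [LinearEquiv.apply_symm_apply]

/-- the equivalence of Lemma A. -/
def laEquiv : (((G ⧸ U) ⧸ Subgroup.zpowers (σ : G ⧸ U)) →₀ W.V) ≃ₗ[k]
          ↥(LinearMap.ker (matOp
            (LinearMap.toMatrix b b ((((χ σ)⁻¹ : kˣ) : k) • W.ρ (σ : G ⧸ U)))
            (indR U (ofChar χ) σ) - 1)) :=
  LinearEquiv.ofBijective
    (LinearMap.codRestrict _ (laFwd U χ hχ σ W b) (laFwd_mem_ker U χ hχ σ W b))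
    ⟨fun a a' h => laFwd_injective U χ hχ σ W b (congrArg Subtype.val h),
      fun z => by
        obtain ⟨a, ha⟩ := laFwd_surjective U χ hχ σ W b z.1 z.2
        exact ⟨a, Subtype.ext ha⟩⟩

lemma laEquiv_coe (a : ((G ⧸ U) ⧸ Subgroup.zpowers (σ : G ⧸ U)) →₀ W.V) :
    ((laEquiv U χ hχ σ W b a : ↥(LinearMap.ker (matOp
            (LinearMap.toMatrix b b ((((χ σ)⁻¹ : kˣ) : k) • W.ρ (σ : G ⧸ U)))
            (indR U (ofChar χ) σ) - 1))) : J → ((G ⧸ U) →₀ k)) = laFwd U χ hχ σ W b a := rfl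

lemma diagRho_eval {Γ X N : Type} [Group Γ] [MulAction Γ X] [AddCommGroup N] [Module k N]
    (ρ : Representation k Γ N) (g : Γ) (a : X →₀ N) (y : X) :
    diagRho X ρ g a y = ρ g (a (g⁻¹ • y)) := by
  rw [diagRho_apply, permTensor, LinearMap.comp_apply, Finsupp.lmapDomain_apply,
    Finsupp.mapRange.linearMap_apply]
  conv_lhs => rw [← smul_inv_smul g y]
  rw [Finsupp.mapDomain_apply (MulAction.injective g), Finsupp.mapRange_apply]

lemma indRep_eval (M : Rep.{0, 0, 0} k G) (g : G) (a : (G ⧸ U) →₀ M) (x : G ⧸ U) :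
    ((indRep U M).ρ g a : (G ⧸ U) →₀ M) x = M.ρ g (a (g⁻¹ • x)) := by
  conv_lhs => rw [← smul_inv_smul g x]
  exact indRep_ρ_apply U M g a (g⁻¹ • x)

lemma laFwd_equivariant (g : G) (a : ((G ⧸ U) ⧸ Subgroup.zpowers (σ : G ⧸ U)) →₀ W.V) :
    laFwd U χ hχ σ W b
        (diagRho ((G ⧸ U) ⧸ Subgroup.zpowers (σ : G ⧸ U)) W.ρ (g : G ⧸ U) a) =
      (piRep J (indRep U (ofChar χ))).ρ g (laFwd U χ hχ σ W b a) := by
  funext j
  ext x
  rw [piRep_ρ_apply, indRep_eval, ofChar_ρ_apply, laFwd_apply, laFwd_apply]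
  unfold laFun
  rw [diagRho_eval, smul_eq_mk_mul U g⁻¹ x]
  have h1 : ((g : G ⧸ U))⁻¹ • (x : (G ⧸ U) ⧸ Subgroup.zpowers (σ : G ⧸ U)) =
      ((((g⁻¹ : G) : G ⧸ U) * x : G ⧸ U) : (G ⧸ U) ⧸ Subgroup.zpowers (σ : G ⧸ U)) := rfl
  have h2 : ∀ w : W.V, W.ρ x⁻¹ (W.ρ (g : G ⧸ U) w) = W.ρ (((g⁻¹ : G) : G ⧸ U) * x)⁻¹ w := by
    intro w
    rw [← Module.End.mul_apply, ← map_mul]
    congr 2
    rw [mul_inv_rev, QuotientGroup.mk_inv, inv_inv]
  have h3 : ((χ g : kˣ) : k) * ((laChar U χ hχ (((g⁻¹ : G) : G ⧸ U) * x) : kˣ) : k) =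
      ((laChar U χ hχ x : kˣ) : k) := by
    rw [map_mul, laChar_mk, map_inv, Units.val_mul, ← mul_assoc, ← Units.val_mul, mul_inv_cancel,
      Units.val_one, one_mul]
  rw [h1, h2, LinearMap.map_smul, LinearMap.map_smul, smul_eq_mul, smul_eq_mul, ← mul_assoc, h3]

theorem lemmaA : LemmaAStatement := by
  intro k _ G _ U _ _ χ hχ σ W J _ _ b
  exact ⟨laEquiv U χ hχ σ W b, fun g a => laFwd_equivariant U χ hχ σ W b g a⟩

end LemmaA

end Fermat.Agent.S56.H314

end

end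
-- ===== PACK-END S56/H314/LemmaA.lean

-- ===== PACK-BEGIN S56/RQ/GlueSub.lean
section



/-!
# Row S56 — REC-Q-SUB: glue `REC-Q-SUB ⇐ leaves` (sub-architect helper554)

`recQSub_of : RECIP-G → FRAME → LINE → NONDEG → URCUP → LOCTRIV → COBCUP → CONJ → GLOBZ-SUB
    → H716.RecQSubStatement`.

Same proof as `RQ/Glue.lean` (`recQ_of`), with `Smin` replaced by `S'` (`Smin ⊆ S' ⊆ S`) and with
invariants which are only defined (additive, homogeneous, …) on GLOBAL 2-cocycles.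
-/

set_option autoImplicit false

open Polynomial IsLocalRing

noncomputable section

namespace Fermat.Agent.S56.RQ

open Fermat.Agent.S56 Fermat.Agent.S56.H716

section Local

variable (𝒪 : Type) [CommRing 𝒪] [IsDomain 𝒪] [IsDiscreteValuationRing 𝒪]
  [IsAdicComplete (maximalIdeal 𝒪) 𝒪] [Finite (ResidueField 𝒪)]
  (p : ℕ) (ρbar : ResidualGaloisRep (ResidueField 𝒪)) (S Smin : Finset ℕ)

/-- **Local structure of the pairing at a Taylor–Wiles prime** (version for `S'`, invariants on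
global 2-cocycles). -/
theorem exists_local_forms_sub (hF : FrameStatement) (hL : LineStatement)
    (hN : NondegStatement) (hU : UrCupStatement) (hT : LocTrivTwStatement)
    (hC : CobCupStatement) (hJ : ConjStatement) (hG : GlobZSubStatement)
    (hyp : Hyp 𝒪 p ρbar S Smin) (S' : Finset ℕ) (hSS' : Smin ⊆ S') (hS'S : S' ⊆ S)
    (Pl : ℕ → ValuationSubring Qb)
    (D : Submodule (ResidueField 𝒪) (GQ → Module.End (ResidueField 𝒪) ρbar.V))
    (hD : IsDualFrame ρbar p D)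
    (hDur : ∀ y ∈ D, ∀ q : ℕ, q.Prime → q ∉ S' → UnramAt ρbar y q)
    (Q : Finset ℕ) (hQ : ∀ q ∈ Q, IsTWPrime ρbar p S q) (q : ℕ) (hq : q ∈ Q)
    (P : ValuationSubring Qb) (hP : P.LiesOverPrime q)
    (inv : (GQ × GQ → ResidueField 𝒪) → ResidueField 𝒪)
    (hadd : ∀ z z' : GQ × GQ → ResidueField 𝒪, IsGlobZ p (S' ∪ Q) z → IsGlobZ p (S' ∪ Q) z' →
      inv (z + z') = inv z + inv z')
    (hsmul : ∀ (r : ResidueField 𝒪) (z : GQ × GQ → ResidueField 𝒪), IsGlobZ p (S' ∪ Q) z →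
      inv (r • z) = r * inv z)
    (hcob : ∀ z : GQ × GQ → ResidueField 𝒪, IsGlobZ p (S' ∪ Q) z →
      IsCob₂On p (P.decompositionSubgroup ℚ) z → inv z = 0)
    (hinj : ∀ z : GQ × GQ → ResidueField 𝒪, IsGlobZ p (S' ∪ Q) z → inv z = 0 →
      IsCob₂On p (P.decompositionSubgroup ℚ) z) :
    ∃ (a : ↥(selSub ρbar Pl S' Q) →ₗ[ResidueField 𝒪] ResidueField 𝒪)
      (b : ↥D →ₗ[ResidueField 𝒪] ResidueField 𝒪),
      (∀ c : ↥(selSub ρbar Pl S' Q), a c = 0 →
        UnramAt ρbar (c : GQ → Module.End (ResidueField 𝒪) ρbar.V) q) ∧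
      (∀ y : ↥D, b y = 0 →
        LocTrivAt ρbar p q (y : GQ → Module.End (ResidueField 𝒪) ρbar.V)) ∧
      ∀ (c : ↥(selSub ρbar Pl S' Q)) (y : ↥D),
        inv (cup ρbar (c : GQ → Module.End (ResidueField 𝒪) ρbar.V) y) = a c * b y := by
  classical
  have hp := hyp.hp
  have : CharP (ResidueField 𝒪) p := H536.charP_residueField 𝒪 p hyp.hp hyp.hp𝒪
  have hTW := hQ q hq
  obtain ⟨hqP, hqS, -, -⟩ := hQ q hq
  have hqS' : q ∉ S' := fun h => hqS (hS'S h)
  have hqSmin : q ∉ Smin := fun h => hqS' (hSS' h)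
  have hqp : q ≠ p := fun h => hqSmin (h ▸ hyp.hpSmin)
  have hur : ρbar.IsUnramifiedAt q := by
    by_contra h
    exact hqSmin ((hyp.hmin q hqP hqp).mpr h)
  -- a Frobenius element at `P`
  obtain ⟨A, φ₀, hA, hφ₀⟩ := Fermat.Agent.S54.exists_frobenius q hqP
  obtain ⟨g, hg⟩ := Fermat.Agent.Lib.Cheb.H476.exists_smul_eq hqP hA hP
  have hφ : P.IsFrobeniusAt (g * φ₀ * g⁻¹) q := by
    have := Fermat.Agent.Lib.Cheb.H476.isFrobeniusAt_conj g hφ₀
    rwa [hg] at this
  generalize g * φ₀ * g⁻¹ = φ at hφ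
  obtain ⟨τ, hτ, hgen⟩ := hF 𝒪 p ρbar S Smin hyp q hTW P hP
  obtain ⟨h, -, hh2, -, hline, hdec⟩ := hL 𝒪 p ρbar S Smin hyp q hTW P hP φ hφ
  set X := selSub ρbar Pl S' Q with hX
  set t : ResidueField 𝒪 := LinearMap.trace (ResidueField 𝒪) ρbar.V (h * h) with ht
  let a₀ : ↥X →ₗ[ResidueField 𝒪] ResidueField 𝒪 := t⁻¹ • trEval ρbar X h τ
  let b₀ : ↥D →ₗ[ResidueField 𝒪] ResidueField 𝒪 := trEval ρbar D h φ
  have ha₀ : ∀ c : ↥X, a₀ c = t⁻¹ * LinearMap.trace (ResidueField 𝒪) ρbar.V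
      (h * (c : GQ → Module.End (ResidueField 𝒪) ρbar.V) τ) := fun c => rfl
  have hb₀ : ∀ y : ↥D, b₀ y = LinearMap.trace (ResidueField 𝒪) ρbar.V
      (h * (y : GQ → Module.End (ResidueField 𝒪) ρbar.V) φ) := fun y => rfl
  have hcX : ∀ c : ↥X, IsSelCocycle ρbar Pl (fun _ => ⊥) S' Q
      (c : GQ → Module.End (ResidueField 𝒪) ρbar.V) := fun c => c.2
  have hcτ : ∀ c : ↥X, (c : GQ → Module.End (ResidueField 𝒪) ρbar.V) τ = a₀ c • h := by
    intro c
    obtain ⟨r, hr⟩ := hline c (hcX c).cocycle τ hτ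
    rw [ha₀, hr, mul_smul_comm, map_smul, smul_eq_mul, ← ht, mul_comm r t, ← mul_assoc,
      inv_mul_cancel₀ hh2, one_mul]
  have htr : ∀ (c : ↥X) (y : ↥D), LinearMap.trace (ResidueField 𝒪) ρbar.V
      ((c : GQ → Module.End (ResidueField 𝒪) ρbar.V) τ *
        (y : GQ → Module.End (ResidueField 𝒪) ρbar.V) φ) = a₀ c * b₀ y := by
    intro c y
    rw [hcτ c, smul_mul_assoc, map_smul, smul_eq_mul, hb₀]
  have hyI : ∀ y : ↥D, ∀ σ ∈ P.inertiaSubgroupIn ℚ,
      (y : GQ → Module.End (ResidueField 𝒪) ρbar.V) σ = 0 :=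
    fun y σ hσ => hDur y y.2 q hqP hqS' P hP σ hσ
  have hyc : ∀ y : ↥D, IsTwCocycle ρbar p (y : GQ → Module.End (ResidueField 𝒪) ρbar.V) :=
    fun y => hD.isTwCocycle y y.2
  have hZ : ∀ (c : ↥X) (y : ↥D), IsGlobZ p (S' ∪ Q)
      (cup ρbar (c : GQ → Module.End (ResidueField 𝒪) ρbar.V) y) := fun c y =>
    hG 𝒪 p ρbar S Smin hyp S' hSS' hS'S Q hQ c y (hcX c).cocycle (hcX c).unram (hyc y)
      (hDur y y.2)
  have hunr : ∀ c : ↥X, a₀ c = 0 → ∀ σ ∈ P.inertiaSubgroupIn ℚ,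
      (c : GQ → Module.End (ResidueField 𝒪) ρbar.V) σ = 0 := by
    intro c hc
    refine hgen c (hcX c).cocycle ?_
    rw [hcτ c, hc, zero_smul]
  have hloc : ∀ y : ↥D, b₀ y = 0 → ∃ m, IsTwCoboundaryOn ρbar p (P.decompositionSubgroup ℚ)
      (y : GQ → Module.End (ResidueField 𝒪) ρbar.V) m := by
    intro y hy
    obtain ⟨m, hm0, hm⟩ := hdec ((y : GQ → Module.End (ResidueField 𝒪) ρbar.V) φ)
      ((hyc y).trace_eq_zero φ) (by rw [← hb₀]; exact hy)
    exact ⟨m, hT 𝒪 p ρbar S Smin hyp q hTW P hP φ hφ y (hyc y) (hyI y) m hm0 hm⟩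
  let J : ↥X →ₗ[ResidueField 𝒪] ↥D →ₗ[ResidueField 𝒪] ResidueField 𝒪 :=
    LinearMap.mk₂ (ResidueField 𝒪)
      (fun c y => inv (cup ρbar (c : GQ → Module.End (ResidueField 𝒪) ρbar.V) y))
      (fun c c' y => by
        simp only [Submodule.coe_add, cup_add_left]
        exact hadd _ _ (hZ c y) (hZ c' y))
      (fun r c y => by
        simp only [Submodule.coe_smul, cup_smul_left, smul_eq_mul]
        exact hsmul r _ (hZ c y))
      (fun c y y' => by
        simp only [Submodule.coe_add, cup_add_right]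
        exact hadd _ _ (hZ c y) (hZ c y'))
      (fun r c y => by
        simp only [Submodule.coe_smul, cup_smul_right, smul_eq_mul]
        exact hsmul r _ (hZ c y))
  have hJapply : ∀ (c : ↥X) (y : ↥D),
      J c y = inv (cup ρbar (c : GQ → Module.End (ResidueField 𝒪) ρbar.V) y) := fun _ _ => rfl
  have h1 : ∀ (c : ↥X) (y : ↥D), a₀ c = 0 → J c y = 0 := by
    intro c y hc
    rw [hJapply]
    exact hcob _ (hZ c y) (hU 𝒪 p ρbar S Smin hyp q hTW P hP c y (hcX c).cocycle (hyc y)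
      (hunr c hc) (hyI y))
  have h2 : ∀ (c : ↥X) (y : ↥D), b₀ y = 0 → J c y = 0 := by
    intro c y hy
    rw [hJapply]
    exact hcob _ (hZ c y) ((hC (ResidueField 𝒪) p hp ρbar (P.decompositionSubgroup ℚ) c y
      (hcX c).cocycle (hyc y)).2 (hloc y hy))
  have h3 : ∀ (c : ↥X) (y : ↥D), J c y = 0 → a₀ c * b₀ y = 0 := by
    intro c y hJ0
    rw [hJapply] at hJ0
    have hcob' := hinj _ (hZ c y) hJ0
    rw [← htr]
    exact hN 𝒪 p ρbar S Smin hyp q hTW P hP φ hφ τ hτ c y (hcX c).cocycle (hyc y) (hyI y) hcob'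
  obtain ⟨w, hw, hJw⟩ := pairing_rank_one J a₀ b₀ h1 h2 h3
  refine ⟨a₀, w • b₀, fun c hc P' hP' σ hσ => ?_, fun y hy => ?_, fun c y => ?_⟩
  · exact (hJ (ResidueField 𝒪) ρbar q hqP P P' hP hP' c (hcX c).cocycle).1 hur (hunr c hc) σ hσ
  · rw [LinearMap.smul_apply, smul_eq_mul] at hy
    have hy' : b₀ y = 0 := (mul_eq_zero.1 hy).resolve_left hw
    obtain ⟨m, hm⟩ := hloc y hy'
    exact ⟨P, hP, m, hm⟩
  · have := hJw c y
    rw [hJapply] at this
    rw [this]
    show w * (a₀ c * b₀ y) = a₀ c * (w * b₀ y)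
    ring

end Local

section Global

variable (𝒪 : Type) [CommRing 𝒪] [IsDomain 𝒪] [IsDiscreteValuationRing 𝒪]
  [IsAdicComplete (maximalIdeal 𝒪) 𝒪] [Finite (ResidueField 𝒪)]
  (p : ℕ) (ρbar : ResidualGaloisRep (ResidueField 𝒪)) (S Smin : Finset ℕ)

/-- **Glue** `REC-Q(S, S') ⇐ leaves`, for one residual representation and `Smin ⊆ S' ⊆ S`. -/
theorem recQSub_of_leaves (hR : PlainRecipGStatement) (hF : FrameStatement)
    (hL : LineStatement) (hN : NondegStatement) (hU : UrCupStatement)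
    (hT : LocTrivTwStatement) (hC : CobCupStatement) (hJ : ConjStatement)
    (hG : GlobZSubStatement) (hyp : Hyp 𝒪 p ρbar S Smin) (S' : Finset ℕ) (hSS' : Smin ⊆ S')
    (hS'S : S' ⊆ S) : RecQ 𝒪 p ρbar S S' := by
  classical
  intro Pl hPl D hD hDur Q hQ hK
  have hp := hyp.hp
  have hchar : CharP (ResidueField 𝒪) p := H536.charP_residueField 𝒪 p hyp.hp hyp.hp𝒪
  have hpSg : p ∈ S' ∪ Q := Finset.mem_union_left _ (hSS' hyp.hpSmin)
  have hSgprime : ∀ v ∈ S' ∪ Q, v.Prime := by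
    intro v hv
    rcases Finset.mem_union.1 hv with h | h
    · exact hyp.hS v (hS'S h)
    · exact (hQ v h).1
  have hdisj : Disjoint S' Q := by
    rw [Finset.disjoint_left]
    intro v hv hvQ
    exact (hQ v hvQ).2.1 (hS'S hv)
  obtain ⟨Pv, inv, hPv, hadd, hsmul, hcob, hinj, hrec⟩ :=
    hR (ResidueField 𝒪) p hp hyp.hp2 (S' ∪ Q) hpSg hSgprime
  set X := selSub ρbar Pl S' Q with hX
  have hcX : ∀ c : ↥X, IsSelCocycle ρbar Pl (fun _ => ⊥) S' Q
      (c : GQ → Module.End (ResidueField 𝒪) ρbar.V) := fun c => c.2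
  have hyc : ∀ y : ↥D, IsTwCocycle ρbar p (y : GQ → Module.End (ResidueField 𝒪) ρbar.V) :=
    fun y => hD.isTwCocycle y y.2
  have hZ : ∀ (c : ↥X) (y : ↥D), IsGlobZ p (S' ∪ Q)
      (cup ρbar (c : GQ → Module.End (ResidueField 𝒪) ρbar.V) y) := fun c y =>
    hG 𝒪 p ρbar S Smin hyp S' hSS' hS'S Q hQ c y (hcX c).cocycle (hcX c).unram (hyc y)
      (hDur y y.2)
  have hqp : ∀ q ∈ Q, q ≠ p := fun q hq h =>
    (hQ q hq).2.1 (hS'S (hSS' (h ▸ hyp.hpSmin)))
  -- the local forms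
  have hloc : ∀ q ∈ Q, ∃ (a : ↥X →ₗ[ResidueField 𝒪] ResidueField 𝒪)
      (b : ↥D →ₗ[ResidueField 𝒪] ResidueField 𝒪),
      (∀ c : ↥X, a c = 0 →
        UnramAt ρbar (c : GQ → Module.End (ResidueField 𝒪) ρbar.V) q) ∧
      (∀ y : ↥D, b y = 0 →
        LocTrivAt ρbar p q (y : GQ → Module.End (ResidueField 𝒪) ρbar.V)) ∧
      ∀ (c : ↥X) (y : ↥D),
        inv q (cup ρbar (c : GQ → Module.End (ResidueField 𝒪) ρbar.V) y) = a c * b y :=
    fun q hq => exists_local_forms_sub 𝒪 p ρbar S Smin hF hL hN hU hT hC hJ hG hyp S' hSS' hS'S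
      Pl D hD hDur Q hQ q hq (Pv q) (hPv q (Finset.mem_union_right _ hq)) (inv q)
      (hadd q (Finset.mem_union_right _ hq)) (hsmul q (Finset.mem_union_right _ hq))
      (hcob q (Finset.mem_union_right _ hq))
      (hinj q (Finset.mem_union_right _ hq) (hqp q hq) (hQ q hq).2.2.1)
  choose! a b ha hb hab using hloc
  -- reciprocity
  have hsum : ∀ (c : ↥X) (y : ↥D), ∑ q ∈ Q, a q c * b q y = 0 := by
    intro c y
    have h1 := hrec _ (hZ c y)
    rw [Finset.sum_union hdisj] at h1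
    have h2 : ∑ v ∈ S', inv v (cup ρbar (c : GQ → Module.End (ResidueField 𝒪) ρbar.V) y)
        = 0 := by
      refine Finset.sum_eq_zero fun v hv => ?_
      obtain ⟨t, ht, hct⟩ := (hcX c).loc v hv
      rw [(Submodule.mem_bot _).1 ht, sub_zero] at hct
      have h3 := (hJ (ResidueField 𝒪) ρbar v (hyp.hS v (hS'S hv)) (Pl v) (Pv v) (hPl v hv)
        (hPv v (Finset.mem_union_left _ hv)) c (hcX c).cocycle).2 hct
      exact hcob v (Finset.mem_union_left _ hv) _ (hZ c y)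
        ((hC (ResidueField 𝒪) p hp ρbar _ c y (hcX c).cocycle (hyc y)).1 h3)
    rw [h2, zero_add] at h1
    rw [← h1]
    exact Finset.sum_congr rfl fun q hq => (hab q hq c y).symm
  -- linear algebra
  let A : ↥X →ₗ[ResidueField 𝒪] (↥Q → ResidueField 𝒪) := LinearMap.pi fun q => a q.1
  let lam : ↥D →ₗ[ResidueField 𝒪] Module.Dual (ResidueField 𝒪) (↥Q → ResidueField 𝒪) :=
    ∑ q : ↥Q, (b q.1).smulRight
      (LinearMap.proj q : (↥Q → ResidueField 𝒪) →ₗ[ResidueField 𝒪] ResidueField 𝒪)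
  have hlam_apply : ∀ (y : ↥D) (t : ↥Q → ResidueField 𝒪), lam y t = ∑ q : ↥Q, b q.1 y * t q := by
    intro y t
    simp only [lam, LinearMap.sum_apply, LinearMap.smulRight_apply, LinearMap.smul_apply,
      LinearMap.proj_apply, smul_eq_mul]
  have hlam : Function.Injective lam := by
    refine (injective_iff_map_eq_zero lam).2 fun y hy => ?_
    have hb0 : ∀ q ∈ Q, b q y = 0 := by
      intro q hq
      have h1 := hlam_apply y (Pi.single (⟨q, hq⟩ : ↥Q) 1)
      rw [hy, LinearMap.zero_apply, Finset.sum_eq_single (⟨q, hq⟩ : ↥Q)] at h1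
      · rw [Pi.single_eq_same, mul_one] at h1
        exact h1.symm
      · intro q' _ hne
        rw [Pi.single_eq_of_ne hne, mul_zero]
      · intro h
        exact absurd (Finset.mem_univ _) h
    have h0 := hK y y.2 fun q hq => hb q hq y (hb0 q hq)
    exact Subtype.ext h0
  have hrecA : ∀ (y : ↥D) (r : ↥(LinearMap.range A)),
      lam y ((LinearMap.range A).subtype r) = 0 := by
    rintro y ⟨_, c, rfl⟩
    rw [Submodule.subtype_apply, hlam_apply]
    have h1 := hsum c y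
    rw [← Finset.sum_coe_sort] at h1
    rw [← h1]
    exact Finset.sum_congr rfl fun q _ => mul_comm _ _
  have : FiniteDimensional (ResidueField 𝒪)
      ↥(LinearMap.ker (LinearMap.range A).subtype) := by
    rw [Submodule.ker_subtype]
    infer_instance
  have hdim := H831.comparison_abstract (LinearMap.range A).subtype lam hlam hrecA
  have hker : Module.finrank (ResidueField 𝒪)
      ↥(LinearMap.ker (LinearMap.range A).subtype) = 0 := by
    rw [Submodule.ker_subtype]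
    exact finrank_bot _ _
  have hcard : Module.finrank (ResidueField 𝒪) (↥Q → ResidueField 𝒪) = Q.card := by
    rw [Module.finrank_fintype_fun_eq_card, Fintype.card_coe]
  rw [hker, hcard, zero_add] at hdim
  -- a linear section of `A`
  obtain ⟨s, hs⟩ := A.rangeRestrict.exists_rightInverse_of_surjective
    (LinearMap.range_rangeRestrict A)
  have hAs : ∀ r : ↥(LinearMap.range A), A (s r) = r := by
    intro r
    have := congrArg (fun f => (f r : ↥Q → ResidueField 𝒪)) hs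
    simpa using this
  refine ⟨LinearMap.range (X.subtype ∘ₗ s), inferInstance, ?_, fun c hc => ?_⟩
  · have h1 : Module.finrank (ResidueField 𝒪) ↥(LinearMap.range (X.subtype ∘ₗ s)) ≤
        Module.finrank (ResidueField 𝒪) ↥(LinearMap.range A) :=
      LinearMap.finrank_range_le _
    omega
  · let c₀ : ↥X := ⟨c, hc⟩
    let u₀ : ↥X := s (A.rangeRestrict c₀)
    have hA0 : A (c₀ - u₀) = 0 := by
      rw [map_sub, hAs]
      exact sub_self _
    have ha0 : ∀ q ∈ Q, a q (c₀ - u₀) = 0 := fun q hq =>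
      congrFun hA0 (⟨q, hq⟩ : ↥Q)
    have hsel := hcX (c₀ - u₀)
    refine ⟨(u₀ : GQ → Module.End (ResidueField 𝒪) ρbar.V), ⟨A.rangeRestrict c₀, rfl⟩,
      ((c₀ - u₀ : ↥X) : GQ → Module.End (ResidueField 𝒪) ρbar.V),
      ⟨hsel.cocycle, fun q hqP hqn => ?_, hsel.loc⟩, ⟨0, fun σ => ?_⟩⟩
    · by_cases hqQ : q ∈ Q
      · exact ha q hqQ _ (ha0 q hqQ)
      · refine hsel.unram q hqP fun h => ?_
        rcases Finset.mem_union.1 h with h' | h'
        · exact hqn (Finset.mem_union_left _ h')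
        · exact hqQ h'
    · simp [c₀]

end Global

/-- **(REC-Q-SUB) from the leaves** (route C). -/
theorem recQSub_of (hR : PlainRecipGStatement) (hF : FrameStatement) (hL : LineStatement)
    (hN : NondegStatement) (hU : UrCupStatement) (hT : LocTrivTwStatement)
    (hC : CobCupStatement) (hJ : ConjStatement) (hG : GlobZSubStatement) :
    H716.RecQSubStatement :=
  fun 𝒪 _ _ _ _ _ p ρbar S Smin hyp S' hSS' hS'S =>
    recQSub_of_leaves 𝒪 p ρbar S Smin hR hF hL hN hU hT hC hJ hG hyp S' hSS' hS'S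

end Fermat.Agent.S56.RQ

end

end
-- ===== PACK-END S56/RQ/GlueSub.lean

-- ===== PACK-BEGIN S56/RQ/SubTop.lean
section


/-!
# Row S56 — REC-Q-SUB: adapters on top of `RQ/GlueSub.lean` (helper554)

* `plainRecipG_of_plainRecip : PlainRecipStatement → PlainRecipGStatement` (RECIP ⇒ RECIP-G; RECIP is
  `RQ/RecipH14.lean`, `H14.plainRecip_of`, from S55's `InvSpec`);
* `recQSub_of' : RECIP → FRAME → LINE → NONDEG → URCUP → LOCTRIV → COBCUP → CONJ → GLOBZ-SUB →
  H716.RecQSubStatement`.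
-/

set_option autoImplicit false

open Polynomial IsLocalRing

noncomputable section

namespace Fermat.Agent.S56.RQ

open Fermat.Agent.S56 Fermat.Agent.S56.H716

/-- RECIP (linear invariants on all 2-cochains) implies RECIP-G (invariants on global
2-cocycles). -/
theorem plainRecipG_of_plainRecip (h : PlainRecipStatement) : PlainRecipGStatement := by
  intro k _ _ p _ hp hp2 Sg hpSg hSg
  obtain ⟨Pv, inv, hPv, hcob, hinj, hrec⟩ := h k p hp hp2 Sg hpSg hSg
  refine ⟨Pv, fun v z => inv v z, hPv, ?_, ?_, ?_, ?_, hrec⟩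
  · intro v _ z z' _ _
    exact map_add _ _ _
  · intro v _ r z _
    simp only [map_smul, smul_eq_mul]
  · intro v hv z _ hz
    exact hcob v hv z hz
  · intro v hv _ hdvd z hz h0
    obtain ⟨hc, L, hL, -, hlev⟩ := hz
    exact hinj v hv hdvd z
      (fun σ _ τ _ υ _ a ha =>
        hc σ (Subgroup.mem_top _) τ (Subgroup.mem_top _) υ (Subgroup.mem_top _) a ha)
      ⟨L, hL, fun σ _ τ _ s _ s' _ hs hs' => hlev σ τ s s' hs hs'⟩ h0

/-- **REC-Q-SUB from the leaves**, with RECIP in the form of `RQ/Spec.lean`. -/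
theorem recQSub_of' (hR : PlainRecipStatement) (hF : FrameStatement) (hL : LineStatement)
    (hN : NondegStatement) (hU : UrCupStatement) (hT : LocTrivTwStatement)
    (hC : CobCupStatement) (hJ : ConjStatement) (hG : GlobZSubStatement) :
    H716.RecQSubStatement :=
  recQSub_of (plainRecipG_of_plainRecip hR) hF hL hN hU hT hC hJ hG

end Fermat.Agent.S56.RQ

end

end
-- ===== PACK-END S56/RQ/SubTop.lean

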